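import Fermat.Agent.H87AVGood

set_option autoImplicit false

/-!
# Reader's guide: from an abelian scheme to an abstract variety (S26, steps)

Every theorem of this file is a citation of the library (at most three lines), with the statement written
out in full; no other module imports it.  It is a companion of `GuideAbelian`, section 1: S26 counts the
`n`-torsion points of an abelian scheme over an algebraically closed field `K`, and its proof works with an
*abstract variety* `𝒜 : AV K` (`H26AV`), a function field with a functor of points on local `K`-algebras.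
This file shows how the scheme gives such a structure, and how its geometric input `𝒜.Good g` is proved.
(Other steps of S26: `GuideSmoothPoints`, `GuideAbelianTools`, `GuideAbelianTorsion`, `GuideCube`,
`GuideEvaluation`.)

**The steps.**
* A connected smooth scheme is integral (section 1: `etale_locally_domain`, `smooth_neighbourhood`,
  `locally_irreducible`).
* The local rings of an integral scheme as subalgebras `lr f x` of its function field `FF f`; every point with
  values in a local ring `R` is given by a point `x` of the scheme and a homomorphism `lr f x → R` (section 2: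
  `local_ring_iff`, `local_rings`, `tautological_point`, `point_ext`, `generic_point`).
* Separatedness and properness in terms of points; finiteness (section 3: `points_injective`,
  `valuation_ring`, `chart_quotients`, `essentially_finite`, `points_in_chart`).
* Poles, dimension, curves (section 4: `denominator_iff`, `denominator_unique`, `denominator_exists`,
  `denominator_spreads`, `pole_divisor`, `transcendence_degree`, `dimension_le`, `curve_through_zero`).

**Why this way.**  The proof of S26 evaluates functions at points with values in valuation rings, dual numbers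
and function fields of one variable.  For this no sheaf theory is needed beyond the present file: neither
coherent cohomology nor line bundles, regular local rings or intersection numbers.

**Conventions.**  `f : A ⟶ Spec K` is the structure morphism (`CommRingCat.of K` in Mathlib's notation),
`R` a local `K`-algebra, `H87Sch.Pts f R` the set of `K`-morphisms `Spec R ⟶ A`, `H87Sch.ctr f P` the image
of the closed point of `Spec R` under `P` (the centre), `H87Sch.evP f P : lr f (ctr f P) → R` the
evaluation of functions at `P`, `H87Sch.ptsMap f α : Pts f R → Pts f S` the map given by `α : R → S`,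
`H87Sch.toF f x` the map from the stalk at `x` to the function field, `H87Sch.etaHom f` the generic point
`Spec (FF f) ⟶ A`.  For a commutative group law `L` on `A`, `H87Sch.avOfIntegral f L hc` is the abstract
variety of `GuideAbelian` (section 1) with function field `FF f` and points `Pts f R`, and `CDiv` are its
divisors (`GuideAbelian.mem_sections`).  The line "Closures: ..." at the end of a docstring names all
statements SNN whose proof term depends on the library theorem cited (here always S26).  **Text and proofs**
by helper87 (`H87Smooth`, `H87Sch1` - `H87Sch5`, `H87Pole`, `H87AVScheme`, `H87AVGood`), with `H43Smooth`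
(helper43) and `H76Colon` (helper76).  **Prose**: NOTES.md, notes [195] and [261] (overview of S26).
-/

namespace Fermat.Agent.Guide.AbelianScheme

open CategoryTheory CategoryTheory.Limits AlgebraicGeometry IsLocalRing NeronModelInfra
open GoodReductionJacobian AlgebraicCurve Fermat.Agent.H26

universe u

/-! ## 1. A connected smooth scheme is integral -/

/-- **An étale algebra `S` over a normal domain `R` is locally a domain**: every prime `q` avoids an
idempotent `ε` such that `ε S` has no zero divisors. Proof: `S ⊗ Frac R` is a product of fields; its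
idempotents are integral over `S`, hence in `S` (integral closure commutes with étale base change). Module
`H87Smooth`.
Closures: S26. -/
theorem etale_locally_domain {R S : Type u} [CommRing R] [IsDomain R] [IsIntegrallyClosed R]
    [CommRing S] [Algebra R S] [Algebra.Etale R S] (q : Ideal S) [q.IsPrime] :
    ∃ ε : S, ε ∉ q ∧ ε * ε = ε ∧ ∀ a b : S, ε * (a * b) = 0 → ε * a = 0 ∨ ε * b = 0 :=
  H87Smooth.exists_idem_of_etale (R := R) q

/-- **A smooth scheme over a field is covered by affine open sets whose rings are domains.** Locally it is
étale over a polynomial ring. Module `H87Sch4`.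
Closures: S26. -/
theorem smooth_neighbourhood {K : Type u} [Field K] {A : Scheme.{u}}
    (f : A ⟶ Spec (CommRingCat.of K)) [Smooth f] (x : A) :
    ∃ V : A.Opens, IsAffineOpen V ∧ x ∈ V ∧ IsDomain Γ(A, V) :=
  H87Sch.exists_integral_nhds f x

/-- *A connected, locally irreducible space is irreducible*: the closure of an open set is open. Module
`H87Smooth`.
Closures: S26. -/
theorem locally_irreducible {X : Type*} [TopologicalSpace X] [ConnectedSpace X]
    (h : ∀ x : X, ∃ U : Set X, IsOpen U ∧ x ∈ U ∧ IsPreirreducible U) : PreirreducibleSpace X :=
  H87Smooth.preirreducibleSpace_of_local h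

/-! ## 2. Points with values in local rings -/

/-- *The local ring of `x`* as a subalgebra of the function field `H87Sch.FF f` (the stalk at the generic
point): it is the image of the stalk, and the map from the stalk is injective. Module `H87Sch1`.
Closures: S26. -/
theorem local_ring_iff {K : Type u} [Field K] {A : Scheme.{u}} (f : A ⟶ Spec (CommRingCat.of K))
    [IsIntegral A] (x : A) :
    (∀ w, w ∈ H87Sch.lr f x ↔ ∃ a, H87Sch.toF f x a = w) ∧
      Function.Injective (H87Sch.toF f x) ∧ IsLocalRing (H87Sch.lr f x) :=
  ⟨fun _ => Iff.rfl, H87Sch.toF_injective f x, inferInstance⟩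

/-- **Specialisation is inclusion of local rings**: if `x` is in the closure of `y`, then `lr f x ⊆ lr f y`,
and `lr f y` consists of quotients `a / b` with `a`, `b` in `lr f x` and `b` a unit of `lr f y`. Modules
`H87Sch1`, `H87AVGood`.
Closures: S26. -/
theorem local_rings {K : Type u} [Field K] {A : Scheme.{u}} (f : A ⟶ Spec (CommRingCat.of K))
    [IsIntegral A] [IsProper f] {x y : A} (h : y ⤳ x) :
    H87Sch.lr f x ≤ H87Sch.lr f y ∧ ∀ w ∈ H87Sch.lr f y,
      ∃ a ∈ H87Sch.lr f x, ∃ b ∈ H87Sch.lr f x, b ≠ 0 ∧ b⁻¹ ∈ H87Sch.lr f y ∧ w * b = a :=
  ⟨H87Sch.lr_mono f h, H87Sch.lr_loc f h⟩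

/-- **The tautological point** `T f x : Spec (lr f x) ⟶ A` is a monomorphism over `K` (its image is the set
of the generalisations of `x`, which is not needed); restricted to the spectrum of the function field it is
the generic point. By `local_point` of `GuideAbelian` every `P : Spec R ⟶ A` is the composition of `T f x`,
`x` the centre of `P`, with a local homomorphism `evR f P : lr f x → R`. Module `H87Sch1`.
Closures: S26. -/
theorem tautological_point {K : Type u} [Field K] {A : Scheme.{u}}
    (f : A ⟶ Spec (CommRingCat.of K)) [IsIntegral A] (x : A) :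
    Mono (H87Sch.T f x) ∧
      H87Sch.T f x ≫ f = Spec.map (CommRingCat.ofHom (algebraMap K (H87Sch.lr f x))) ∧
      Spec.map (CommRingCat.ofHom (H87Sch.lr f x).val.toRingHom) ≫ H87Sch.T f x =
        H87Sch.etaHom f :=
  ⟨inferInstance, H87Sch.T_comp f x, H87Sch.specMap_val_T f x⟩

/-- **A point is determined by the functions defined at it and their values.** Module `H87Sch2`.
Closures: S26. -/
theorem point_ext {K : Type u} [Field K] {A : Scheme.{u}} (f : A ⟶ Spec (CommRingCat.of K))
    [IsIntegral A] [IsProper f] {R : Type u} [CommRing R] [Algebra K R] [IsLocalRing R]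
    (P Q : H87Sch.Pts f R) (h : H87Sch.lr f (H87Sch.ctr f P) = H87Sch.lr f (H87Sch.ctr f Q))
    (h' : ∀ w (h1 : w ∈ H87Sch.lr f (H87Sch.ctr f P)) (h2 : w ∈ H87Sch.lr f (H87Sch.ctr f Q)),
      H87Sch.evP f P ⟨w, h1⟩ = H87Sch.evP f Q ⟨w, h2⟩) : P = Q :=
  H87Sch.pts_ext f P Q h h'

/-- *The generic point*, as a point with values in the function field: its local ring is the function field,
so all functions are defined at it, and the value of a function is the function itself. Module `H87Sch2`.
Closures: S26. -/
theorem generic_point {K : Type u} [Field K] {A : Scheme.{u}} (f : A ⟶ Spec (CommRingCat.of K))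
    [IsIntegral A] [IsProper f] :
    H87Sch.lr f (genericPoint A) = ⊤ ∧ H87Sch.domP f (H87Sch.etaP f) = ⊤ ∧
      ∀ w : H87Sch.domP f (H87Sch.etaP f), H87Sch.evP f (H87Sch.etaP f) w = w :=
  ⟨H87Sch.lr_genericPoint f, H87Sch.domP_etaP f, H87Sch.evP_etaP f⟩

/-! ## 3. Separated, proper, of finite type -/

/-- **Separated**: an `R`-valued point is determined by the `L`-valued point, for a domain `R` in a field
`L`. Module `H87Sch2`.
Closures: S26. -/
theorem points_injective {K : Type u} [Field K] {A : Scheme.{u}} (f : A ⟶ Spec (CommRingCat.of K))
    [IsSeparated f] {R L : Type u} [CommRing R] [Algebra K R] [Field L] [Algebra K L]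
    (ι : R →ₐ[K] L) (hι : Function.Injective ι) : Function.Injective (H87Sch.ptsMap f ι) :=
  H87Sch.ptsMap_injective f ι hι

/-- **Proper**: the points with values in a field `L` and in a valuation ring `V` of `L` over `K` are the
same (valuative criterion). Module `H87Sch2`.
Closures: S26. -/
theorem valuation_ring {K : Type u} [Field K] {A : Scheme.{u}} (f : A ⟶ Spec (CommRingCat.of K))
    [IsProper f] {L : Type u} [Field L] [Algebra K L] (V : Subalgebra K L)
    (hV : ∀ x : L, x ∈ V ∨ x⁻¹ ∈ V) : Function.Bijective (H87Sch.ptsMap f V.val) :=
  H87Sch.bij_of_valuation f V hV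

/-- *Affine charts*: `H87Sch.chart f U hx` is the ring of sections over the affine open set `U` as a
subalgebra of the function field (`x ∈ U` shows that `U` is not empty). The local ring of `y ∈ U` consists
of the quotients `a / b` with `a`, `b` in this ring, `b` a unit at `y`. Module `H87Sch3`.
Closures: S26. -/
theorem chart_quotients {K : Type u} [Field K] {A : Scheme.{u}} (f : A ⟶ Spec (CommRingCat.of K))
    [IsIntegral A] {U : A.Opens} (hU : IsAffineOpen U) {x y : A} (hx : x ∈ U) (hy : y ∈ U)
    (w : H87Sch.lr f y) :
    ∃ a b : H87Sch.chart f U hx,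
      IsUnit (Subalgebra.inclusion (H87Sch.chart_le_lr f U hx hy) b) ∧
        (w : H87Sch.FF f) * b = a :=
  H87Sch.exists_chart_mul f hU hx hy w

/-- *Finite type*: the local rings are localisations of finitely generated `K`-algebras. Module `H87Sch3`.
Closures: S26. -/
theorem essentially_finite {K : Type u} [Field K] {A : Scheme.{u}}
    (f : A ⟶ Spec (CommRingCat.of K)) [IsIntegral A] [LocallyOfFiniteType f] (x : A) :
    Algebra.EssFiniteType K (H87Sch.lr f x) :=
  H87Sch.essFiniteType_lr f x

/-- **Points with centre in an affine chart `V`** are the homomorphisms from the ring of the chart: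
`H87Sch.chartPt f hV hx φ` is the point given by `φ`. Module `H87Sch5`.
Closures: S26. -/
theorem points_in_chart {K : Type u} [Field K] {A : Scheme.{u}} (f : A ⟶ Spec (CommRingCat.of K))
    [IsIntegral A] [IsProper f] {V : A.Opens} (hV : IsAffineOpen V) {x : A} (hx : x ∈ V)
    {R : Type u} [CommRing R] [Algebra K R] [IsLocalRing R] :
    (∀ φ : H87Sch.chart f V hx →ₐ[K] R, H87Sch.ctr f (H87Sch.chartPt f hV hx φ) ∈ V) ∧
    ∀ (P : H87Sch.Pts f R) (h : H87Sch.ctr f P ∈ V), P = H87Sch.chartPt f hV hx
      ((H87Sch.evP f P).comp (Subalgebra.inclusion (H87Sch.chart_le_lr f V hx h))) :=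
  ⟨fun φ => H87Sch.ctr_chartPt_mem f hV hx φ, fun P h => H87Sch.eq_chartPt f hV hx P h⟩

/-! ## 4. Poles, dimension, curves

A *denominator* of a function `φ` in a subalgebra `B` of the function field is a generator `d` of the ideal
of all `c ∈ B` with `c φ ∈ B` (`H87Sch.PG φ B d`). It exists at the points of a smooth scheme, and the
denominators at all points together are a Cartier divisor, the divisor of poles of `φ`. -/

/-- *Denominators*, written out. Module `H87Pole`. -/
theorem denominator_iff {K F : Type*} [Field K] [Field F] [Algebra K F] (φ : F)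
    (B : Subalgebra K F) (d : F) :
    H87Sch.PG φ B d ↔ d ≠ 0 ∧ ∀ c : F, (c ∈ B ∧ c * φ ∈ B) ↔ ∃ e ∈ B, c = e * d :=
  Iff.rfl

/-- *Denominators are unique up to units.* Module `H87Pole`.
Closures: S26. -/
theorem denominator_unique {K F : Type*} [Field K] [Field F] [Algebra K F] {φ : F}
    {B : Subalgebra K F} {d d' : F} (h : H87Sch.PG φ B d) (h' : H87Sch.PG φ B d') :
    d / d' ≠ 0 ∧ d / d' ∈ B ∧ (d / d')⁻¹ ∈ B :=
  h.unit h'

/-- **Denominators exist** in the local rings of a smooth proper scheme over an algebraically closed field,
by `colon_principal` of `GuideAbelianTools` (comparison with a power series ring at a closed point, without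
completions; unique factorisation in regular local rings is not used). Modules `H76Colon`, `H87Pole`,
`H87AVGood`.
Closures: S26. -/
theorem denominator_exists {K : Type u} [Field K] [IsAlgClosed K] {A : Scheme.{u}}
    (f : A ⟶ Spec (CommRingCat.of K)) [IsIntegral A] [IsProper f] (g : ℕ)
    [SmoothOfRelativeDimension g f] (x : A) (φ : H87Sch.FF f) :
    ∃ d, H87Sch.PG φ (H87Sch.lr f x) d :=
  H87Sch.exists_PG f g x φ

/-- **Denominators spread out**: a denominator `d` in a localisation `B` of a noetherian ring `C` is a
denominator in all localisations of `C` in which one element `s` of `C`, a unit of `B`, is invertible. This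
gives the finiteness condition of a divisor: for a point with values in a function field the denominator at
its centre is a denominator at its reductions at all valuation rings which contain finitely many given
elements, so at all but finitely many places. Module `H87Pole`.
Closures: S26. -/
theorem denominator_spreads {K F : Type*} [Field K] [Field F] [Algebra K F] {φ d : F}
    {C B : Subalgebra K F} [IsNoetherianRing C] (h : H87Sch.PG φ B d) (hCB : C ≤ B)
    (hloc : ∀ w ∈ B, ∃ a ∈ C, ∃ b ∈ C, b ≠ 0 ∧ b⁻¹ ∈ B ∧ w * b = a) :
    ∃ s ∈ C, s ≠ 0 ∧ s⁻¹ ∈ B ∧ ∀ B' : Subalgebra K F, C ≤ B' →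
      (∀ w ∈ B', ∃ a ∈ C, ∃ b ∈ C, b ≠ 0 ∧ b⁻¹ ∈ B' ∧ w * b = a) → s⁻¹ ∈ B' →
        H87Sch.PG φ B' d :=
  h.spread hCB hloc

/-- **The divisor of poles** `D` of a function `φ`: `1` and `φ` are sections of `O(D)`. Module `H87AVGood`.
Closures: S26. -/
theorem pole_divisor {K : Type u} [Field K] [IsAlgClosed K] {A : Scheme.{u}}
    (f : A ⟶ Spec (CommRingCat.of K)) (L : RelativeGroupLaw K f) (hc : L.IsCommutative)
    [IsIntegral A] [IsProper f] (g : ℕ) [SmoothOfRelativeDimension g f] (φ : H87Sch.FF f) :
    ∃ D : (H87Sch.avOfIntegral f L hc).CDiv,
      (1 : H87Sch.FF f) ∈ D.sections ∧ φ ∈ D.sections :=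
  ⟨H87Sch.poleDiv f L hc g φ, H87Sch.one_mem_poleDiv f L hc g φ,
    H87Sch.self_mem_poleDiv f L hc g φ⟩

/-- *The transcendence degree of the function field is at least `g`*, the relative dimension: a smooth chart
is étale over a polynomial ring in `g` variables. Modules `H43Smooth`, `H87AVGood`.
Closures: S26. -/
theorem transcendence_degree {K : Type u} [Field K] [IsAlgClosed K] {A : Scheme.{u}}
    (f : A ⟶ Spec (CommRingCat.of K)) [IsIntegral A] [IsProper f] (g : ℕ)
    [SmoothOfRelativeDimension g f] :
    ∃ φ : Fin g → H87Sch.FF f, AlgebraicIndependent K φ :=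
  H87Sch.exists_algInd_FF f g

/-- *The local rings have dimension at most `g`.* Modules `H43Smooth`, `H87AVGood`.
Closures: S26. -/
theorem dimension_le {K : Type u} [Field K] [IsAlgClosed K] {A : Scheme.{u}}
    (f : A ⟶ Spec (CommRingCat.of K)) [IsIntegral A] [IsProper f] (g : ℕ)
    [SmoothOfRelativeDimension g f] (x : A) : ringKrullDim (H87Sch.lr f x) ≤ g :=
  H87Sch.ringKrullDim_lr_le f g x

/-- **A curve through the origin on which a given function does not vanish identically**: for `φ ≠ 0`
regular at `0` there are a function field `E` of one variable over `K`, a place `c` of `E` and an `E`-valued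
point `X` which specialises to `0` at `c`, with `φ(X) ≠ 0`; from `curve_through_point` of
`GuideAbelianTools`, in a smooth chart at the origin. Modules `H43Smooth`, `H87AVGood`.
Closures: S26. -/
theorem curve_through_zero {K : Type u} [Field K] [IsAlgClosed K] {A : Scheme.{u}}
    (f : A ⟶ Spec (CommRingCat.of K)) (L : RelativeGroupLaw K f) (hc : L.IsCommutative)
    [IsIntegral A] [IsProper f] (g : ℕ) [SmoothOfRelativeDimension g f] (φ : H87Sch.FF f)
    (hφ : φ ∈ (H87Sch.avOfIntegral f L hc).dom (0 : (H87Sch.avOfIntegral f L hc).Pt K))
    (hφ0 : φ ≠ 0) :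
    ∃ (E : Type u) (_ : Field E) (_ : Algebra K E) (_ : H3RR.IsFF K E) (c : Place K E)
      (X : (H87Sch.avOfIntegral f L hc).Pt E) (π : (plV K c).toSubalgebra →ₐ[K] K),
      (H87Sch.avOfIntegral f L hc).map π ((H87Sch.avOfIntegral f L hc).lift (plV K c) X) = 0 ∧
      (H87Sch.avOfIntegral f L hc).val X φ ≠ 0 :=
  H87Sch.exists_curve_avOfIntegral f L hc g φ hφ hφ0

end Fermat.Agent.Guide.AbelianScheme
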