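import Fermat.Agent.S26

/-!
# Guide to the proof: tools for the torsion points of abelian varieties (statement S26)

Companion of `GuideAbelian`. Two subjects which are of independent interest:

1. Smooth points: `power_series_factorial`, `smooth_to_power_series`, `colon_principal_descent`,
   `colon_principal`, `dimension_of_smooth_algebra`, `curve_through_point`. In the local rings of a smooth
   variety all colon ideals `(b) : (a)` are principal. This replaces the theorem of Auslander and Buchsbaum;
   the proof compares the local ring with a power series ring, without completions. Through every point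
   passes a parametrised curve which is not contained in a given hypersurface.
2. Function fields of one variable: `constant_extension_iff`, `exists_constant_extension`,
   `places_of_constant_extension`, `divisors_of_constant_extension`, `reduction_of_functions`,
   `reduction_of_divisors`. For a function field `E / k` with `k` algebraically closed and an extension
   `k₁ / k` let `E₁` be the quotient field of `E ⊗ k₁` (the same curve over a bigger field). Degrees,
   Riemann-Roch spaces, genus and linear equivalence do not change; and for every valuation ring `A` of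
   `k₁` which contains `k`, with residue field `κ`, the curve over `k₁` reduces to the same curve over `κ`:
   there is a reduction map for functions and divisors. In the proof of S26 this is used to specialise
   generic points of an abelian variety to arbitrary points (`GuideAbelian`, section 4).

All theorems cited in this file are used in the proof of S26 (85 modules, 20700 lines). Constant field
extensions (`places_of_constant_extension`, `divisors_of_constant_extension` without the genus) are also
used in the library of `J_0(N)` (`H17Div`: divisibility of groups of divisor classes) and so for S17, S01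
and 15 other statements. NOTES: [219] (helper76), [302], section 2 (helper43), [195] (helper87), [261],
sections 3 and 4 (helper26).
Authors: helper76 (colon ideals), helper43 (smooth algebras), helper26 (part 2), helper40, helper42
(reduction of function fields); helper74 (this file, from snippets of helper76 and helper43).
Companion files with more steps: `GuideSmoothPoints` (helper43: factorial power series rings, homomorphisms
to power series, colon ideals, curves through a point; for section 1) and `GuideCube` (helper26: bases,
places and Riemann-Roch spaces over the bigger constant field, local rings of a reduced curve; for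
section 2).

Notation: `IsFF k E` (file `H3RR_FF`): `E` is a function field of one variable over `k`, that is a finite
extension of `k(x)`, `x` transcendental. A `Place k E` is a discrete valuation ring `v` with quotient field
`E` which contains `k`, `v.ord` its valuation, `plV K v` the same ring as a `K`-algebra for a subfield `K`
of `k`. `Divisor k E` are the finitely supported functions from places to the integers, `divOf f` is the
divisor of `f`, `ell D` the dimension of the Riemann-Roch space of `D`, `genusFF k E` the genus.
-/

set_option autoImplicit false

noncomputable section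

open AlgebraicCurve Polynomial
open Fermat.Agent.H26 Fermat.Agent.H3RR

namespace Fermat.Agent.Guide.AbelianTools

universe u

/-! ## 1. Smooth points

The divisor of poles of a function exists because ideals of denominators are principal; the local rings
of a smooth variety are factorial, and the part of this fact which is needed is proved by hand. -/

/-- **Power series rings over an infinite field are factorial.** Proof: Weierstrass preparation after a
linear change of variables, induction on the number of variables. File `H76PSUfd` (helper76). -/
theorem power_series_factorial (K : Type*) [Field K] [Infinite K] (n : ℕ) :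
    UniqueFactorizationMonoid (MvPowerSeries (Fin n) K) :=
  H76.mvPowerSeries_ufd K n

/-- **The local homomorphism from a smooth algebra to power series.** Let `B` be noetherian and
formally smooth over a field `K`, `χ : B → K` a point with maximal ideal `m` and `d = dim m / m²`.
There is a `K`-algebra homomorphism `f : B → K[[X_1, ..., X_d]]` such that `f b` has order `≥ k` if
and only if `b ∈ m^k`, and every power series is congruent to an element of the image modulo the
series of order `≥ k`. Proof: formal smoothness lifts the first order map (`H76.varIdeal` is the ideal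
generated by the variables); homomorphisms which agree to first order agree to higher order. Files
`H76SmoothPS`, `H76Filt`, `H76PSFilt` (helper76). -/
theorem smooth_to_power_series {K : Type u} [Field K] {B : Type u} [CommRing B] [Algebra K B]
    [IsNoetherianRing B] [Algebra.FormallySmooth K B] (χ : B →ₐ[K] K) :
    ∃ f : B →ₐ[K]
        MvPowerSeries (Fin (Module.finrank K (RingHom.ker χ.toRingHom).Cotangent)) K,
      (∀ (k : ℕ) (b : B), b ∈ RingHom.ker χ.toRingHom ^ k ↔ f b ∈ H76.varIdeal _ K ^ k) ∧
      ∀ (k : ℕ) (s : MvPowerSeries _ K), ∃ b : B, s - f b ∈ H76.varIdeal _ K ^ k :=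
  ⟨H76.toPS χ, fun k b => ⟨H76.map_mem_pow (H76.toPS χ).toRingHom (fun _ h => H76.toPS_mem χ h) k b,
    H76.mem_pow_of_toPS_mem χ k b⟩, H76.exists_toPS_sub_mem χ⟩

/-- **Descent of principal colon ideals.** Let `φ : R → S` be a homomorphism of noetherian local
rings, `S` a domain, with `x ∈ m_R^k` if and only if `φ x ∈ m_S^k` (for all `k`) and with dense
image. If all colon ideals `{c : b ∣ c a}` of `S` are principal (for example if `S` is factorial) then
so are those of `R`. Proof: Artin-Rees lemma and Krull's intersection theorem; `R` is not assumed to be
a domain and no completion is used. File `H76Descent` (helper76). -/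
theorem colon_principal_descent {R S : Type*} [CommRing R] [IsLocalRing R] [IsNoetherianRing R]
    [CommRing S] [IsDomain S] [IsLocalRing S] [IsNoetherianRing S] (φ : R →+* S)
    (h1 : ∀ (k : ℕ) (x : R), x ∈ IsLocalRing.maximalIdeal R ^ k →
      φ x ∈ IsLocalRing.maximalIdeal S ^ k)
    (h2 : ∀ (k : ℕ) (x : R), φ x ∈ IsLocalRing.maximalIdeal S ^ k →
      x ∈ IsLocalRing.maximalIdeal R ^ k)
    (h3 : ∀ (k : ℕ) (s : S), ∃ r : R, s - φ r ∈ IsLocalRing.maximalIdeal S ^ k)
    (hS : ∀ a b : S, ∃ d, ∀ c, b ∣ c * a ↔ d ∣ c) (a b : R) :
    ∃ d, ∀ c, b ∣ c * a ↔ d ∣ c :=
  H76.colon_principal_of_completion φ h1 h2 h3 hS a b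

/-- **Colon ideals in the local rings of smooth varieties are principal.** `B` is a domain, standard
smooth over an algebraically closed field, `p` a prime ideal. Proof: at a closed point by the three
theorems above, at `p` by localising at a closed point which specialises `p`. Hence the ideal of
denominators `{c : c φ ∈ B_p}` of a function `φ` is principal: this is the local equation of the
divisor of poles of `φ` (`H87Pole`), which gives the first part of `GuideAbelian.good_iff`. File
`H76Colon` (helper76). -/
theorem colon_principal {K : Type u} [Field K] [IsAlgClosed K] {B : Type u} [CommRing B]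
    [IsDomain B] [Algebra K B] (g : ℕ) [Algebra.IsStandardSmoothOfRelativeDimension g K B]
    (p : Ideal B) [p.IsPrime] (a b : Localization.AtPrime p) :
    ∃ d, ∀ c, b ∣ c * a ↔ d ∣ c :=
  H76.colon_principal (K := K) g p a b

/-- **Dimension of a smooth algebra.** A standard smooth domain `B` of relative dimension `g` over a
field contains `g` algebraically independent elements and has Krull dimension at most `g`: it is étale
over a polynomial ring in `g` variables. File `H43Smooth` (helper43). -/
theorem dimension_of_smooth_algebra {K B : Type u} [Field K] [CommRing B] [IsDomain B] [Algebra K B]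
    (g : ℕ) [Algebra.IsStandardSmoothOfRelativeDimension g K B] :
    (∃ φ : Fin g → B, AlgebraicIndependent K φ) ∧ ringKrullDim B ≤ g :=
  ⟨H43.Sm.exists_algInd g, H43.Sm.krullDim_le (K := K) g⟩

/-- **A curve through every point.** `K` is algebraically closed, `B` a standard smooth
domain of relative dimension `g`, `χ` a `K`-point and `φ` a nonzero element of `B`. There are a
function field of one variable `E`, a place `c` of `E` and a homomorphism `h` of `B` to the
valuation ring of `c` whose reduction is `χ` and with `h(φ) ≠ 0`: a parametrised curve through the
point which is not contained in the hypersurface `φ = 0`. Proof: pull `B`, étale over the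
polynomial ring, back to the line joining the image of `χ` to a point where a multiple of `φ` does
not vanish. Replaces Bertini's theorem and normalisations of curves. File `H43Smooth` (helper43). -/
theorem curve_through_point {K : Type u} [Field K] [IsAlgClosed K] {B : Type u} [CommRing B]
    [IsDomain B] [Algebra K B] (g : ℕ) [Algebra.IsStandardSmoothOfRelativeDimension g K B]
    (χ : B →ₐ[K] K) (φ : B) (hφ : φ ≠ 0) :
    ∃ (E : Type u) (_ : Field E) (_ : Algebra K E) (_ : IsFF K E) (c : Place K E)
      (h : B →ₐ[K] (plV K c).toSubalgebra) (π : (plV K c).toSubalgebra →ₐ[K] K),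
      π.comp h = χ ∧ h φ ≠ 0 :=
  H43.Sm.exists_curve_through g χ φ hφ

/-! ## 2. Constant field extensions and their reduction

`IsCE k k' E E'` (`H26CE`): `E'` is the quotient field of `E ⊗_k k'`. For a function field `E` of one
variable over `k` it is one over `k'`. `IsCE.pl k' E' c` is the place of `E'` above a place `c` of `E`,
`IsCE.con k' E' D` the corresponding divisor of `E'`. `LinEq D D'`: `D = D' + divOf f` for some `f`. -/

/-- **Constant field extensions**, the definition: elements of `E` which are linearly independent over `k`
stay linearly independent over `k'`, and every element of `E'` is a quotient of two linear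
combinations of elements of `E` with coefficients in `k'`. File `H26CE`. -/
theorem constant_extension_iff {k k' E E' : Type*} [Field k] [Field k'] [Field E]
    [Field E'] [Algebra k k'] [Algebra k E] [Algebra k' E'] [Algebra E E'] [Algebra k E']
    [IsScalarTower k k' E'] [IsScalarTower k E E'] :
    IsCE k k' E E' ↔
      (∀ (n : ℕ) (e : Fin n → E), LinearIndependent k e →
        LinearIndependent k' fun i => algebraMap E E' (e i)) ∧
      ∀ x : E', ∃ a ∈ Submodule.span k' (Set.range (algebraMap E E')),
        ∃ b ∈ Submodule.span k' (Set.range (algebraMap E E')), b ≠ 0 ∧ x * b = a :=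
  ⟨fun h => ⟨fun _ => h.linearIndependent_map, h.exists_mul_eq⟩, fun h => ⟨fun {n} => h.1 n, h.2⟩⟩

/-- **They exist** over an algebraically closed field `k`, for arbitrary extension fields `k'` and `E`,
because `E ⊗_k k'` is a domain (Nullstellensatz). Files `H26CE1`, `H26Tensor`. -/
theorem exists_constant_extension (K k k' E : Type u) [Field K] [Field k] [Field k'] [Field E]
    [IsAlgClosed k] [Algebra K k] [Algebra K k'] [Algebra K E] [Algebra k k'] [Algebra k E]
    [IsScalarTower K k k'] [IsScalarTower K k E] :
    ∃ (E' : Type u) (_ : Field E') (_ : Algebra K E') (_ : Algebra k E') (_ : Algebra k' E')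
      (_ : Algebra E E') (_ : IsScalarTower K k E') (_ : IsScalarTower K k' E')
      (_ : IsScalarTower K E E') (_ : IsScalarTower k k' E') (_ : IsScalarTower k E E'),
      IsCE k k' E E' :=
  exists_CE K k k' E

/-- **Places of a constant field extension**: every place `c` of `E` has exactly one place of `E'` above it,
at which functions in `E` have the same order as at `c` (no ramification); all other places `w` of `E'`
are trivial on `E` (the "generic" places). File `H26CE3`. -/
theorem places_of_constant_extension {k k' E E' : Type*} [Field k] [Field k'] [Field E]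
    [Field E'] [Algebra k k'] [Algebra k E] [Algebra k' E'] [Algebra E E'] [Algebra k E']
    [IsScalarTower k k' E'] [IsScalarTower k E E'] [IsCE k k' E E'] [IsAlgClosed k] [IsFF k E] :
    Function.Injective (IsCE.pl k' E' : Place k E → Place k' E') ∧
    (∀ (c : Place k E) (e : E), (IsCE.pl k' E' c).ord (algebraMap E E' e) = c.ord e) ∧
    ∀ w : Place k' E', (∀ e : E, algebraMap E E' e ∈ w.toValuationSubring) ∨
      ∃ c : Place k E, w = IsCE.pl k' E' c :=
  ⟨IsCE.pl_injective, IsCE.ord_pl_algebraMap, IsCE.generic_or_eq_pl⟩

/-- **Divisors of a constant field extension.** Extension of divisors preserves degrees and dimensions of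
Riemann-Roch spaces, the genus does not change, and two divisors of `E` which become linearly equivalent
over `E'` are linearly equivalent over `E`. Proof: an element of `E'` without poles at the generic places
lies in `E ⊗ k'`. Files `H26CE3` - `H26CE5`. -/
theorem divisors_of_constant_extension {k k' E E' : Type*} [Field k] [Field k'] [Field E]
    [Field E'] [Algebra k k'] [Algebra k E] [Algebra k' E'] [Algebra E E'] [Algebra k E']
    [IsScalarTower k k' E'] [IsScalarTower k E E'] [IsCE k k' E E'] [IsAlgClosed k] [IsFF k E]
    [IsAlgClosed k'] [IsFF k' E'] :
    (∀ D : Divisor k E, Divisor.degree (IsCE.con k' E' D) = Divisor.degree D ∧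
      ell (IsCE.con k' E' D) = ell D) ∧
    genusFF k' E' = genusFF k E ∧
    ∀ D D' : Divisor k E, LinEq (IsCE.con k' E' D) (IsCE.con k' E' D') → LinEq D D' :=
  ⟨fun D => ⟨IsCE.degree_con D, IsCE.ell_con k' E' D⟩, IsCE.genus_eq k k' E E',
    fun _ _ h => IsCE.linEq_of_con h⟩

/-- **Reduction of functions.** Let `E₁` be the constant field extension of `E / k` to `k₁`, and
`A` a valuation ring of `k₁` containing `k`, with residue field `κ` (`π : A → κ`), and `Eκ` the constant
field extension of `E` to `κ`. There are a valuation ring `G` of `E₁` above `A` (the Gauss valuation), a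
homomorphism `ρ : G → Eκ` whose kernel is the maximal ideal, inducing `π` on `A` and the identity on `E`,
and a map `r` from the places of `E₁` to the places of `Eκ` such that `divOf (ρ x) = r_* (divOf x)` for
`x ∈ G` with nonzero reduction `ρ x`; every `f ≠ 0` becomes such an `x` after multiplication with a
constant. This is good reduction of the curve, for an arbitrary valuation ring. Proof: Deuring's theory of
reductions of function fields (the genus of `Eκ` is that of `E₁`). Files `H26Red1`, `H26Red2`;
`H40Deuring*` (helper40), `H42Gauss` (helper42). -/
theorem reduction_of_functions (k k₁ κ E E₁ Eκ : Type*) [Field k] [Field k₁] [Field κ] [Field E]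
    [Field E₁] [Field Eκ] [Algebra k k₁] [Algebra k E] [Algebra k₁ E₁] [Algebra E E₁]
    [Algebra k E₁] [IsScalarTower k k₁ E₁] [IsScalarTower k E E₁] [IsCE k k₁ E E₁]
    [Algebra k κ] [Algebra κ Eκ] [Algebra E Eκ] [Algebra k Eκ]
    [IsScalarTower k κ Eκ] [IsScalarTower k E Eκ] [IsCE k κ E Eκ]
    [IsAlgClosed k] [IsAlgClosed k₁] [IsAlgClosed κ] [IsFF k E] [IsFF k₁ E₁]
    [IsFF κ Eκ] (A : ValuationSubring k₁) (π : A →+* κ) (hπs : Function.Surjective π)
    (hπl : ∀ a, π a = 0 ↔ ¬ IsUnit a) (hA : ∀ c : k, algebraMap k k₁ c ∈ A)
    (hπ : ∀ c : k, π ⟨algebraMap k k₁ c, hA c⟩ = algebraMap k κ c) :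
    ∃ (G : ValuationSubring E₁) (ρ : G →+* Eκ) (r : Place k₁ E₁ → Place κ Eκ),
      (∀ x : G, IsUnit x ↔ ρ x ≠ 0) ∧
      (∀ a : A, ∃ h : algebraMap k₁ E₁ a ∈ G, ρ ⟨_, h⟩ = algebraMap κ Eκ (π a)) ∧
      (∀ e : E, ∃ h : algebraMap E E₁ e ∈ G, ρ ⟨_, h⟩ = algebraMap E Eκ e) ∧
      (∀ x : G, ρ x ≠ 0 → Finsupp.mapDomain r (divOf (x : E₁) : Divisor k₁ E₁) = divOf (ρ x)) ∧
      ∀ f : E₁, f ≠ 0 → ∃ t : k₁, t ≠ 0 ∧ ∃ x : G, (x : E₁) = algebraMap k₁ E₁ t * f ∧ ρ x ≠ 0 := by
  obtain ⟨R⟩ := exists_reduction k k₁ κ E E₁ Eκ A π hπs hπl hA hπ
  exact ⟨R.G, R.ρ, R.r, R.isUnit_iff, fun a => ⟨R.const_mem a, R.ρ_const a⟩,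
    fun e => ⟨R.fun_mem e, R.ρ_fun e⟩, fun _ => R.mapDomain_divOf, R.exists_scale⟩

/-- **Reduction of divisors.** A `RedCtx k k₁ κ E E₁ Eκ` (`H26Red4`) bundles `A`, `π` and the data `G`,
`ρ`, `r` of `reduction_of_functions`; `c.push` is the map `r_*` on divisors. It preserves degrees, is the
identity on divisors of `E`, and preserves effectivity and linear equivalence. Files `H26Red2` to
`H26Red4`. -/
theorem reduction_of_divisors {k k₁ κ E E₁ Eκ : Type*} [Field k] [Field k₁] [Field κ] [Field E]
    [Field E₁] [Field Eκ] [Algebra k k₁] [Algebra k E] [Algebra k₁ E₁] [Algebra E E₁]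
    [Algebra k E₁] [IsScalarTower k k₁ E₁] [IsScalarTower k E E₁] [IsCE k k₁ E E₁]
    [Algebra k κ] [Algebra κ Eκ] [Algebra E Eκ] [Algebra k Eκ]
    [IsScalarTower k κ Eκ] [IsScalarTower k E Eκ] [IsCE k κ E Eκ]
    [IsAlgClosed k] [IsAlgClosed k₁] [IsAlgClosed κ] [IsFF k E] [IsFF k₁ E₁] [IsFF κ Eκ]
    (c : RedCtx k k₁ κ E E₁ Eκ) :
    (∀ D : Divisor k₁ E₁, Divisor.degree (c.push D) = Divisor.degree D) ∧
    (∀ D : Divisor k E, c.push (IsCE.con k₁ E₁ D) = IsCE.con κ Eκ D) ∧
    (∀ D : Divisor k₁ E₁, 0 ≤ D → 0 ≤ c.push D) ∧
    ∀ D D' : Divisor k₁ E₁, LinEq D D' → LinEq (c.push D) (c.push D') :=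
  ⟨c.degree_push, c.push_con, fun _ => c.push_nonneg, fun _ _ => c.push_linEq⟩

end Fermat.Agent.Guide.AbelianTools
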