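/-
H3RR: places of a function field; local facts, weak approximation.
-/
import Mathlib
import Fermat.Prelude.Def_AlgebraicCurve_DivisorClassGroup
import Fermat.Prelude.Def_AlgebraicCurve_IsCurveOver
import Fermat.Prelude.Def_AlgebraicCurve_Repartitions

set_option autoImplicit false

open AlgebraicCurve WithZero IsLocalRing

namespace Fermat.Agent.H3RR

variable {K F : Type*} [Field K] [Field F] [Algebra K F]

section Local

variable (v : Place K F)

theorem mem_of_adicValuation_le_one {f : F} (h : v.adicValuation f ≤ 1) :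
    f ∈ v.toValuationSubring := by
  rcases eq_or_ne f 0 with rfl | hf
  · exact zero_mem _
  obtain ⟨π, hπ⟩ := IsDiscreteValuationRing.exists_irreducible v.toValuationSubring
  obtain ⟨u, hu⟩ := v.exists_unit_mul_zpow hf hπ
  have hord : 0 ≤ v.ord f := by
    rcases (v.adicValuation_le_one_iff).mp h with h0 | h0
    · exact absurd h0 hf
    · exact h0
  obtain ⟨n, hn⟩ := Int.eq_ofNat_of_zero_le hord
  rw [hu, hn]
  exact mul_mem u.1.2 (by rw [zpow_natCast]; exact pow_mem π.2 n)

theorem mem_iff_adicValuation_le_one {f : F} :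
    f ∈ v.toValuationSubring ↔ v.adicValuation f ≤ 1 :=
  ⟨fun h => v.adicValuation_le_one_of_mem h, mem_of_adicValuation_le_one v⟩

theorem adicValuation_surjective_exp (n : ℤ) : ∃ f : F, f ≠ 0 ∧ v.adicValuation f = exp n := by
  obtain ⟨π, hπ⟩ := IsDiscreteValuationRing.exists_irreducible v.toValuationSubring
  have h1 := v.adicValuation_coe_irreducible hπ
  refine ⟨(π : F) ^ (-n), ?_, ?_⟩
  · apply zpow_ne_zero
    intro h0
    rw [h0, map_zero] at h1
    exact (exp_ne_zero (a := (-1 : ℤ))) h1.symm
  · rw [map_zpow₀, h1, ← exp_zsmul]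
    simp

theorem adicValuation_lt_one_iff {f : F} : v.adicValuation f < 1 ↔ v.adicValuation f ≤ exp (-1 : ℤ) := by
  constructor
  · intro h
    rcases eq_or_ne f 0 with rfl | hf
    · simp
    · rw [v.adicValuation_eq_exp_neg_ord hf] at h ⊢
      rw [← exp_zero, exp_lt_exp] at h
      rw [exp_le_exp]
      omega
  · intro h
    refine lt_of_le_of_lt h ?_
    rw [← exp_zero, exp_lt_exp]
    omega

/-- The residue map kills exactly the elements of valuation `< 1`. -/
theorem residue_eq_zero_iff' {a : v.toValuationSubring} :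
    residue v.toValuationSubring a = 0 ↔ v.adicValuation (a : F) < 1 := by
  rw [residue_eq_zero_iff, mem_maximalIdeal, mem_nonunits_iff, ← v.adicValuation_coe_eq_one_iff]
  have h := v.adicValuation_le_one_of_mem a.2
  exact ⟨fun h' => lt_of_le_of_ne h h', fun h' => ne_of_lt h'⟩

/-- If every element of a proper valuation subring which is a DVR is contained in another place,
the two places agree. -/
theorem eq_of_le {v w : Place K F} (h : v.toValuationSubring ≤ w.toValuationSubring) : v = w := by
  ext1
  refine le_antisymm h ?_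
  intro x hx
  by_contra hxv
  -- x ∈ w, x ∉ v, so v x > 1 ; then every element of F is in w.
  apply w.ne_top'
  rw [eq_top_iff]
  intro y _
  have hx1 : ¬ v.adicValuation x ≤ 1 := fun h' => hxv (mem_of_adicValuation_le_one v h')
  have hx0 : x ≠ 0 := by
    rintro rfl
    exact hx1 (by simp)
  rcases eq_or_ne y 0 with rfl | hy0
  · exact zero_mem _
  -- choose n with y * x^{-n} ∈ v
  have hox : v.ord x < 0 := (v.not_adicValuation_le_one_iff).mp hx1
  obtain ⟨n, hn⟩ : ∃ n : ℕ, -(v.ord y) ≤ n * -(v.ord x) := by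
    refine ⟨(-(v.ord y)).toNat, ?_⟩
    have h1 : (1 : ℤ) ≤ -(v.ord x) := by omega
    have h2 : -(v.ord y) ≤ ((-(v.ord y)).toNat : ℤ) := Int.self_le_toNat _
    nlinarith [Int.natCast_nonneg (-(v.ord y)).toNat]
  have hmem : y * (x⁻¹) ^ n ∈ v.toValuationSubring := by
    apply mem_of_adicValuation_le_one
    rw [v.adicValuation_le_one_iff]
    right
    have hxn : (x⁻¹) ^ n ≠ 0 := pow_ne_zero _ (inv_ne_zero hx0)
    rw [v.ord_mul hy0 hxn, ← zpow_natCast, v.ord_zpow, v.ord_inv]
    linarith
  have : y = (y * (x⁻¹) ^ n) * x ^ n := by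
    rw [mul_assoc, ← mul_pow, inv_mul_cancel₀ hx0, one_pow, mul_one]
  rw [this]
  exact mul_mem (h hmem) (pow_mem hx n)

end Local

section Approx

/-- Two distinct places are separated. -/
theorem exists_lt_one_lt {v w : Place K F} (hvw : v ≠ w) :
    ∃ f : F, 1 < v.adicValuation f ∧ w.adicValuation f < 1 := by
  have h1 : ¬ v.toValuationSubring ≤ w.toValuationSubring := fun h => hvw (eq_of_le h)
  have h2 : ¬ w.toValuationSubring ≤ v.toValuationSubring := fun h => hvw (eq_of_le h).symm
  obtain ⟨a, hav, haw⟩ := SetLike.not_le_iff_exists.mp h1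
  obtain ⟨b, hbw, hbv⟩ := SetLike.not_le_iff_exists.mp h2
  have hav' : v.adicValuation a ≤ 1 := v.adicValuation_le_one_of_mem hav
  have haw' : 1 < w.adicValuation a := not_le.mp fun h => haw (mem_of_adicValuation_le_one w h)
  have hbw' : w.adicValuation b ≤ 1 := w.adicValuation_le_one_of_mem hbw
  have hbv' : 1 < v.adicValuation b := not_le.mp fun h => hbv (mem_of_adicValuation_le_one v h)
  have ha0 : a ≠ 0 := by rintro rfl; simp at haw'
  have hva : v.adicValuation a ≠ 0 := v.adicValuation_ne_zero ha0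
  have hwa : w.adicValuation a ≠ 0 := w.adicValuation_ne_zero ha0
  refine ⟨b / a, ?_, ?_⟩
  · rw [map_div₀, one_lt_div₀ (zero_lt_iff.mpr hva)]
    exact lt_of_le_of_lt hav' hbv'
  · rw [map_div₀, div_lt_one₀ (zero_lt_iff.mpr hwa)]
    exact lt_of_le_of_lt hbw' haw'

theorem exists_pow_mul_lt_one {a b : ℤᵐ⁰} (ha : a < 1) : ∃ N : ℕ, ∀ n, N ≤ n → a ^ n * b < 1 := by
  rcases eq_or_ne b 0 with rfl | hb
  · exact ⟨0, fun n _ => by simp⟩
  rcases eq_or_ne a 0 with rfl | ha0
  · exact ⟨1, fun n hn => by rw [zero_pow (by omega)]; simp⟩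
  have ha' : a = exp (log a) := (exp_log ha0).symm
  have hb' : b = exp (log b) := (exp_log hb).symm
  have hla : log a < 0 := by
    rw [ha', ← exp_zero, exp_lt_exp] at ha
    exact ha
  refine ⟨(log b).toNat + 1, fun n hn => ?_⟩
  rw [ha', hb', ← exp_nsmul, ← exp_add, ← exp_zero, exp_lt_exp]
  have h2 : log b ≤ ((log b).toNat : ℤ) := Int.self_le_toNat _
  have h3 : ((log b).toNat : ℤ) + 1 ≤ n := by exact_mod_cast hn
  rw [nsmul_eq_mul]
  nlinarith

/-- Separation of one place from finitely many others. -/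
theorem exists_one_lt_forall_lt_one (v : Place K F) (S : Finset (Place K F)) (hv : v ∉ S) :
    ∃ f : F, 1 < v.adicValuation f ∧ ∀ w ∈ S, w.adicValuation f < 1 := by
  classical
  induction S using Finset.induction_on with
  | empty =>
    obtain ⟨f, -, hf⟩ := adicValuation_surjective_exp v 1
    refine ⟨f, ?_, by simp⟩
    rw [hf, ← exp_zero, exp_lt_exp]
    norm_num
  | insert w S hwS ih =>
    obtain ⟨f, hfv, hfS⟩ := ih (fun h => hv (Finset.mem_insert_of_mem h))
    have hvw : v ≠ w := fun h => hv (h ▸ Finset.mem_insert_self _ _)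
    obtain ⟨g, hgv, hgw⟩ := exists_lt_one_lt hvw
    -- a large exponent
    have hN : ∃ N : ℕ, ∀ n, N ≤ n → ∀ w' ∈ S, w'.adicValuation f ^ n * w'.adicValuation g < 1 := by
      have : ∀ w' ∈ S, ∃ N : ℕ, ∀ n, N ≤ n → w'.adicValuation f ^ n * w'.adicValuation g < 1 :=
        fun w' hw' => exists_pow_mul_lt_one (hfS w' hw')
      choose! N hN using this
      refine ⟨S.sup N, fun n hn w' hw' => hN w' hw' n ((Finset.le_sup hw').trans hn)⟩
    obtain ⟨N, hN⟩ := hN
    set n := max N 1 with hn
    have hnN : N ≤ n := le_max_left _ _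
    have hn1 : n ≠ 0 := by have : 1 ≤ n := le_max_right _ _; omega
    have hfvn : 1 < v.adicValuation f ^ n := one_lt_pow₀ hfv hn1
    rcases lt_trichotomy (w.adicValuation f) 1 with hw | hw | hw
    · exact ⟨f, hfv, fun w' hw' => by
        rcases Finset.mem_insert.mp hw' with rfl | hw'
        · exact hw
        · exact hfS w' hw'⟩
    · refine ⟨f ^ n * g, ?_, fun w' hw' => ?_⟩
      · rw [map_mul, map_pow]
        exact one_lt_mul'' hfvn hgv
      · rw [map_mul, map_pow]
        rcases Finset.mem_insert.mp hw' with rfl | hw'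
        · rw [hw, one_pow, one_mul]; exact hgw
        · exact hN n hnN w' hw'
    · have h1add : ∀ u : Place K F, 1 < u.adicValuation f →
          u.adicValuation (f ^ n / (1 + f ^ n)) = 1 := by
        intro u hu
        have hun : 1 < u.adicValuation (f ^ n) := by rw [map_pow]; exact one_lt_pow₀ hu hn1
        have : u.adicValuation (1 + f ^ n) = u.adicValuation (f ^ n) := by
          apply Valuation.map_add_eq_of_lt_right
          rwa [map_one]
        rw [map_div₀, this, div_self]
        exact (lt_trans zero_lt_one hun).ne'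
      have h2add : ∀ u : Place K F, u.adicValuation f < 1 →
          u.adicValuation (f ^ n / (1 + f ^ n)) = u.adicValuation f ^ n := by
        intro u hu
        have hun : u.adicValuation (f ^ n) < 1 := by
          rw [map_pow]; exact pow_lt_one₀ zero_le hu hn1
        have : u.adicValuation (1 + f ^ n) = 1 := by
          have := Valuation.map_add_eq_of_lt_left u.adicValuation (x := 1) (y := f ^ n)
            (by rwa [map_one])
          rw [this, map_one]
        rw [map_div₀, this, div_one, map_pow]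
      refine ⟨f ^ n / (1 + f ^ n) * g, ?_, fun w' hw' => ?_⟩
      · rw [map_mul, h1add v hfv, one_mul]; exact hgv
      · rcases Finset.mem_insert.mp hw' with rfl | hw'
        · rw [map_mul, h1add _ hw, one_mul]; exact hgw
        · rw [map_mul, h2add _ (hfS w' hw')]
          exact hN n hnN w' hw'

/-- Near-idempotents: `f` close to `1` at `v`, close to `0` at all `w ∈ S`. -/
theorem exists_near_idempotent (v : Place K F) (S : Finset (Place K F)) (hv : v ∉ S) (m : ℤ) :
    ∃ f : F, v.adicValuation (f - 1) ≤ exp (-m) ∧ ∀ w ∈ S, w.adicValuation f ≤ exp (-m) := by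
  classical
  obtain ⟨f, hfv, hfS⟩ := exists_one_lt_forall_lt_one v S hv
  have hlt : ∀ a : ℤᵐ⁰, a < 1 → ∀ n : ℕ, m ≤ n → a ^ n ≤ exp (-m) := by
    intro a ha n hn
    rcases eq_or_ne a 0 with rfl | ha0
    · rcases Nat.eq_zero_or_pos n with rfl | hn'
      · rw [pow_zero, ← exp_zero, exp_le_exp]; push_cast at hn; omega
      · rw [zero_pow (by omega)]; exact zero_le
    · have ha' : a = exp (log a) := (exp_log ha0).symm
      have hla : log a < 0 := by
        rw [ha', ← exp_zero, exp_lt_exp] at ha
        exact ha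
      rw [ha', ← exp_nsmul, exp_le_exp, nsmul_eq_mul]
      have : (0 : ℤ) ≤ n := Int.natCast_nonneg n
      nlinarith
  set n := max m.toNat 1 with hn
  have hnm : m ≤ n := by
    have h1 : m ≤ (m.toNat : ℤ) := Int.self_le_toNat _
    have h2 : (m.toNat : ℤ) ≤ n := by exact_mod_cast le_max_left _ _
    exact h1.trans h2
  have hn1 : n ≠ 0 := by have : 1 ≤ n := le_max_right _ _; omega
  refine ⟨f ^ n / (1 + f ^ n), ?_, ?_⟩
  · have hun : 1 < v.adicValuation (f ^ n) := by rw [map_pow]; exact one_lt_pow₀ hfv hn1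
    have hval : v.adicValuation (1 + f ^ n) = v.adicValuation (f ^ n) := by
      apply Valuation.map_add_eq_of_lt_right
      rwa [map_one]
    have hne : (1 + f ^ n) ≠ 0 := by
      intro h0
      rw [h0, map_zero] at hval
      exact (lt_trans zero_lt_one hun).ne hval
    have : f ^ n / (1 + f ^ n) - 1 = - (1 + f ^ n)⁻¹ := by
      field_simp
      ring
    rw [this, Valuation.map_neg, map_inv₀, hval, map_pow, ← inv_pow]
    apply hlt _ _ n hnm
    exact inv_lt_one_of_one_lt₀ hfv
  · intro w hw
    have hun : w.adicValuation (f ^ n) < 1 := by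
      rw [map_pow]; exact pow_lt_one₀ zero_le (hfS w hw) hn1
    have : w.adicValuation (1 + f ^ n) = 1 := by
      have := Valuation.map_add_eq_of_lt_left w.adicValuation (x := 1) (y := f ^ n)
        (by rwa [map_one])
      rw [this, map_one]
    rw [map_div₀, this, div_one, map_pow]
    exact hlt _ (hfS w hw) n hnm

/-- Weak approximation for finitely many places. -/
theorem weak_approximation (S : Finset (Place K F)) (a : Place K F → F) (m : Place K F → ℤ) :
    ∃ f : F, ∀ v ∈ S, v.adicValuation (f - a v) ≤ exp (m v) := by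
  classical
  -- a uniform bound
  obtain ⟨M, hM⟩ : ∃ M : ℕ, ∀ v ∈ S, ∀ w ∈ S,
      w.adicValuation (a v) * exp (-(M : ℤ)) ≤ exp (m w) := by
    have h1 : ∀ v w : Place K F, ∃ M : ℕ, ∀ M' : ℕ, M ≤ M' →
        w.adicValuation (a v) * exp (-(M' : ℤ)) ≤ exp (m w) := by
      intro v w
      rcases eq_or_ne (a v) 0 with h0 | h0
      · exact ⟨0, fun M' _ => by rw [h0]; simp⟩
      · refine ⟨(- w.ord (a v) - m w).toNat, fun M' hM' => ?_⟩
        rw [w.adicValuation_eq_exp_neg_ord h0, ← exp_add, exp_le_exp]
        have := Int.self_le_toNat (- w.ord (a v) - m w)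
        omega
    choose M hM using h1
    refine ⟨∑ v ∈ S, ∑ w ∈ S, M v w, fun v hv w hw => hM v w _ ?_⟩
    calc M v w ≤ ∑ w ∈ S, M v w :=
          Finset.single_le_sum (f := fun w => M v w) (fun _ _ => Nat.zero_le _) hw
      _ ≤ ∑ v ∈ S, ∑ w ∈ S, M v w :=
          Finset.single_le_sum (f := fun v => ∑ w ∈ S, M v w) (fun _ _ => Nat.zero_le _) hv
  have he : ∀ v : Place K F, ∃ f : F, v.adicValuation (f - 1) ≤ exp (-(M : ℤ)) ∧
      ∀ w ∈ S.erase v, w.adicValuation f ≤ exp (-(M : ℤ)) :=
    fun v => exists_near_idempotent v (S.erase v) (Finset.notMem_erase v S) M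
  choose e he1 he2 using he
  refine ⟨∑ v ∈ S, a v * e v, fun w hw => ?_⟩
  have hsplit : (∑ v ∈ S, a v * e v) - a w = ∑ v ∈ S, (if v = w then a w * (e w - 1) else a v * e v) := by
    rw [← Finset.add_sum_erase S _ hw, ← Finset.add_sum_erase S (fun v => if v = w then _ else _) hw]
    simp only [if_true]
    have : ∑ x ∈ S.erase w, (if x = w then a w * (e w - 1) else a x * e x)
        = ∑ x ∈ S.erase w, a x * e x := by
      apply Finset.sum_congr rfl
      intro x hx
      rw [if_neg (Finset.ne_of_mem_erase hx)]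
    rw [this]
    ring
  rw [hsplit]
  apply Valuation.map_sum_le
  intro v hv
  by_cases hvw : v = w
  · rw [if_pos hvw, map_mul]
    exact (mul_le_mul_right (he1 w) _).trans (hM w hw w hw)
  · rw [if_neg hvw, map_mul]
    exact (mul_le_mul_right (he2 v w (Finset.mem_erase.mpr ⟨fun h => hvw h.symm, hw⟩)) _).trans
      (hM v hv w hw)

end Approx

end Fermat.Agent.H3RR
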