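/-
H3RR: the five-term exact sequence
  `0 → L(D) → L(D+v) → κ(v) → H1(D) → H1(D+v) → 0`.
-/
import Mathlib
import Fermat.Agent.H3RR_Places

set_option autoImplicit false

open AlgebraicCurve WithZero IsLocalRing

namespace Fermat.Agent.H3RR

variable {K F : Type*} [Field K] [Field F] [Algebra K F]

/-- A chosen element of `F` with valuation `exp n` at `v`. -/
noncomputable def unif (v : Place K F) (n : ℤ) : F := (adicValuation_surjective_exp v n).choose

theorem unif_ne_zero (v : Place K F) (n : ℤ) : unif v n ≠ 0 :=
  (adicValuation_surjective_exp v n).choose_spec.1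

theorem adicValuation_unif (v : Place K F) (n : ℤ) : v.adicValuation (unif v n) = exp n :=
  (adicValuation_surjective_exp v n).choose_spec.2

/-- `{f | v f ≤ exp n}` as a `K`-subspace. -/
def vLe (v : Place K F) (n : ℤ) : Submodule K F where
  carrier := {f | v.adicValuation f ≤ exp n}
  zero_mem' := by simp
  add_mem' := by
    intro f g hf hg
    show v.adicValuation (f + g) ≤ exp n
    exact (Valuation.map_add _ _ _).trans (max_le hf hg)
  smul_mem' := by
    intro c f hf
    show v.adicValuation (c • f) ≤ exp n
    rw [Algebra.smul_def, map_mul]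
    exact (mul_le_of_le_one_left' (v.adicValuation_algebraMap_le_one c)).trans hf

theorem mem_vLe {v : Place K F} {n : ℤ} {f : F} : f ∈ vLe v n ↔ v.adicValuation f ≤ exp n := by
  show v.adicValuation f ≤ exp n ↔ _
  rfl

theorem div_unif_mem {v : Place K F} {n : ℤ} {f : F} (hf : f ∈ vLe v n) :
    f / unif v n ∈ v.toValuationSubring := by
  apply mem_of_adicValuation_le_one
  rw [map_div₀, adicValuation_unif]
  rw [mem_vLe] at hf
  exact (div_le_one₀ (by simp [zero_lt_iff])).mpr hf

/-- leading coefficient of `f` with `v f ≤ exp n`. -/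
noncomputable def leadCoeff (v : Place K F) (n : ℤ) : vLe v n →ₗ[K] v.ResidueField where
  toFun f := residue v.toValuationSubring ⟨f.1 / unif v n, div_unif_mem f.2⟩
  map_add' f g := by
    rw [← map_add]
    congr 1
    ext
    simp [add_div]
  map_smul' c f := by
    rw [RingHom.id_apply, Algebra.smul_def]
    have : algebraMap K v.ResidueField c = residue v.toValuationSubring (algebraMap K _ c) := rfl
    rw [this, ← map_mul]
    congr 1
    ext
    simp [Algebra.smul_def, mul_div_assoc]

theorem leadCoeff_eq_zero_iff {v : Place K F} {n : ℤ} {f : vLe v n} :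
    leadCoeff v n f = 0 ↔ v.adicValuation (f : F) ≤ exp (n - 1) := by
  show residue v.toValuationSubring ⟨f.1 / unif v n, div_unif_mem f.2⟩ = 0 ↔ _
  rw [residue_eq_zero_iff', adicValuation_lt_one_iff]
  rw [map_div₀, adicValuation_unif, div_le_iff₀ (by simp [zero_lt_iff]), ← exp_add]
  rw [show (-1 : ℤ) + n = n - 1 by ring]

theorem leadCoeff_surjective (v : Place K F) (n : ℤ) : Function.Surjective (leadCoeff v n) := by
  intro c
  obtain ⟨a, rfl⟩ := residue_surjective (R := v.toValuationSubring) c
  refine ⟨⟨(a : F) * unif v n, ?_⟩, ?_⟩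
  · rw [mem_vLe, map_mul, adicValuation_unif]
    exact mul_le_of_le_one_left' (v.adicValuation_le_one_of_mem a.2)
  · show residue v.toValuationSubring ⟨_, _⟩ = _
    congr 1
    ext
    show (a : F) * unif v n / unif v n = a
    rw [mul_div_assoc, div_self (unif_ne_zero v n), mul_one]

/-- `D + v` -/
noncomputable def plus (D : Divisor K F) (v : Place K F) : Divisor K F := D + Finsupp.single v 1

section Maps

variable (D : Divisor K F) (v : Place K F)

theorem single_apply_self' : (plus D v) v = D v + 1 := by
  classical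
  simp [plus]

theorem single_apply_of_ne' {w : Place K F} (h : w ≠ v) : (plus D v) w = D w := by
  classical
  simp [plus, Finsupp.single_apply, h.symm]

/-- evaluation of a repartition at `v`, as an element of `vLe`. -/
noncomputable def evalRep (D' : Divisor K F) (v : Place K F) : repartitionsOf D' →ₗ[K] vLe v (D' v) where
  toFun α := ⟨((α : ↥(repartitions K F)) : Place K F → F) v, mem_vLe.mpr (α.2 v)⟩
  map_add' α β := rfl
  map_smul' c α := by
    ext
    rfl

/-- principal parts of an element of `L(D')`. -/
def evalL (D' : Divisor K F) (v : Place K F) : riemannRochSpace D' →ₗ[K] vLe v (D' v) where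
  toFun f := ⟨f.1, mem_vLe.mpr (f.2 v)⟩
  map_add' _ _ := rfl
  map_smul' _ _ := rfl

/-- `A(D+v) → κ(v)` -/
noncomputable def psi : repartitionsOf (plus D v) →ₗ[K] v.ResidueField :=
  (leadCoeff v ((plus D v) v)).comp (evalRep (plus D v) v)

/-- `L(D+v) → κ(v)` -/
noncomputable def lmap : riemannRochSpace (plus D v) →ₗ[K] v.ResidueField :=
  (leadCoeff v ((plus D v) v)).comp (evalL (plus D v) v)

theorem psi_eq_zero_iff {α : repartitionsOf (plus D v)} :
    psi D v α = 0 ↔ (α : ↥(repartitions K F)) ∈ repartitionsOf D := by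
  rw [psi, LinearMap.comp_apply, leadCoeff_eq_zero_iff]
  have h0 : (plus D v) v - 1 = D v := by rw [single_apply_self']; ring
  show v.adicValuation (((α : ↥(repartitions K F)) : Place K F → F) v) ≤ exp ((plus D v) v - 1) ↔ _
  rw [h0]
  constructor
  · intro h w
    by_cases hw : w = v
    · subst hw; exact h
    · have := α.2 w
      rwa [single_apply_of_ne' D v hw] at this
  · intro h
    exact h v

theorem lmap_eq_zero_iff {f : riemannRochSpace (plus D v)} :
    lmap D v f = 0 ↔ (f : F) ∈ riemannRochSpace D := by
  rw [lmap, LinearMap.comp_apply, leadCoeff_eq_zero_iff]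
  have h0 : (plus D v) v - 1 = D v := by rw [single_apply_self']; ring
  show v.adicValuation (f : F) ≤ exp ((plus D v) v - 1) ↔ _
  rw [h0]
  constructor
  · intro h w
    by_cases hw : w = v
    · subst hw; exact h
    · have := f.2 w
      rwa [single_apply_of_ne' D v hw] at this
  · intro h
    exact h v

open Classical in
theorem psi_surjective : Function.Surjective (psi D v) := by
  intro c
  obtain ⟨⟨f, hf⟩, hfc⟩ := leadCoeff_surjective v ((plus D v) v) c
  have hα : ∀ w : Place K F, w.adicValuation ((fun w => if w = v then f else 0 : Place K F → F) w)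
      ≤ exp ((plus D v) w) := by
    intro w
    by_cases hw : w = v
    · subst hw; simpa using mem_vLe.mp hf
    · simp [hw]
  refine ⟨⟨⟨fun w => if w = v then f else 0,
    mem_repartitions_of_forall_le_exp (plus D v) _ hα⟩, hα⟩, ?_⟩
  rw [← hfc]
  show leadCoeff v _ _ = _
  congr 1
  ext
  show (if v = v then f else 0) = f
  simp

/-- The inclusion `L(D') → A(D')` by constant repartitions -/
noncomputable def diagL (D' : Divisor K F) : riemannRochSpace D' →ₗ[K] repartitionsOf D' where
  toFun f := ⟨algebraMap F ↥(repartitions K F) f.1, fun v => f.2 v⟩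
  map_add' f g := by
    ext; simp
  map_smul' c f := by
    ext w
    simp [Algebra.smul_def]

theorem psi_diagL (f : riemannRochSpace (plus D v)) :
    psi D v (diagL _ f) = lmap D v f := rfl

/-- `A(D+v) → H1(D)` -/
noncomputable def toH1 : repartitionsOf (plus D v) →ₗ[K] H1 D :=
  (Submodule.mkQ _).comp (repartitionsOf (plus D v)).subtype

theorem toH1_eq_zero_of_psi (α : repartitionsOf (plus D v)) (h : psi D v α = 0) :
    toH1 D v α = 0 := by
  rw [psi_eq_zero_iff] at h
  rw [toH1, LinearMap.comp_apply, Submodule.mkQ_apply, Submodule.Quotient.mk_eq_zero]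
  exact Submodule.mem_sup_left h

theorem exists_delta : ∃ d : v.ResidueField →ₗ[K] H1 D, ∀ α, d (psi D v α) = toH1 D v α := by
  obtain ⟨s, hs⟩ := (psi D v).exists_rightInverse_of_surjective
    (LinearMap.range_eq_top.mpr (psi_surjective D v))
  refine ⟨(toH1 D v).comp s, fun α => ?_⟩
  rw [LinearMap.comp_apply, ← sub_eq_zero, ← map_sub]
  apply toH1_eq_zero_of_psi
  rw [map_sub, sub_eq_zero]
  exact LinearMap.congr_fun hs (psi D v α)

/-- the connecting map `κ(v) → H1(D)` -/
noncomputable def delta : v.ResidueField →ₗ[K] H1 D := (exists_delta D v).choose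

theorem delta_psi (α : repartitionsOf (plus D v)) :
    delta D v (psi D v α) = toH1 D v α := (exists_delta D v).choose_spec α

theorem repartitionsOf_le_add : repartitionsOf D ≤ repartitionsOf (plus D v) :=
  repartitionsOf_mono (by
    intro w
    by_cases hw : w = v
    · subst hw; rw [single_apply_self']; omega
    · rw [single_apply_of_ne' D v hw])

/-- `H1(D) → H1(D')` for `D ≤ D'`. -/
noncomputable def h1Map {D D' : Divisor K F} (h : D ≤ D') : H1 D →ₗ[K] H1 D' :=
  Submodule.mapQ _ _ LinearMap.id (by
    rw [Submodule.comap_id]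
    exact sup_le_sup_right (repartitionsOf_mono h) _)

theorem h1Map_surjective {D D' : Divisor K F} (h : D ≤ D') : Function.Surjective (h1Map h) := by
  intro x
  obtain ⟨y, rfl⟩ := Submodule.Quotient.mk_surjective _ x
  exact ⟨Submodule.Quotient.mk y, rfl⟩

theorem le_add_single : D ≤ plus D v := by
  intro w
  by_cases hw : w = v
  · subst hw; rw [single_apply_self']; omega
  · rw [single_apply_of_ne' D v hw]

/-- exactness at `κ(v)` -/
theorem delta_eq_zero_iff (c : v.ResidueField) : delta D v c = 0 ↔ c ∈ LinearMap.range (lmap D v) := by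
  obtain ⟨α, rfl⟩ := psi_surjective D v c
  rw [delta_psi]
  constructor
  · intro h
    have h' : (α : ↥(repartitions K F)) ∈ repartitionsOf D ⊔ principalRepartitions K F := by
      rwa [← Submodule.Quotient.mk_eq_zero]
    obtain ⟨β, hβ, γ, hγ, hsum⟩ := Submodule.mem_sup.mp h'
    obtain ⟨f, hf⟩ := mem_principalRepartitions_iff.mp hγ
    have hfL : f ∈ riemannRochSpace (plus D v) := by
      intro w
      have h1 : (γ : Place K F → F) w = f := by rw [hf]
      have h2 : γ = (α : ↥(repartitions K F)) - β := by rw [← hsum]; abel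
      have h3 : γ ∈ repartitionsOf (plus D v) := by
        rw [h2]
        exact sub_mem α.2 (repartitionsOf_le_add D v hβ)
      have := h3 w
      rwa [h1] at this
    refine ⟨⟨f, hfL⟩, ?_⟩
    rw [← psi_diagL, ← sub_eq_zero, ← map_sub, psi_eq_zero_iff]
    have : ((diagL _ ⟨f, hfL⟩ - α : repartitionsOf (plus D v)) : ↥(repartitions K F))
        = -β := by
      have h4 : ((diagL _ ⟨f, hfL⟩ : repartitionsOf (plus D v)) :
          ↥(repartitions K F)) = γ := by
        ext w
        show f = _
        rw [hf]
      rw [AddSubgroupClass.coe_sub, h4, ← hsum]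
      abel
    rw [this]
    exact neg_mem hβ
  · rintro ⟨f, hf⟩
    rw [← psi_diagL] at hf
    have h1 : (((diagL _ f : repartitionsOf (plus D v)) - α :
        repartitionsOf (plus D v)) : ↥(repartitions K F)) ∈ repartitionsOf D := by
      rw [← psi_eq_zero_iff]
      have h0 := map_sub (psi D v) (diagL _ f) α
      rw [hf, sub_self] at h0
      exact h0
    show (Submodule.Quotient.mk (α : ↥(repartitions K F)) : H1 D) = 0
    rw [Submodule.Quotient.mk_eq_zero]
    have h2 : (α : ↥(repartitions K F)) = -(((diagL _ f : repartitionsOf (plus D v)) - α :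
        repartitionsOf (plus D v)) : ↥(repartitions K F)) +
        ((diagL _ f : repartitionsOf (plus D v)) : ↥(repartitions K F)) := by
      rw [AddSubgroupClass.coe_sub]; abel
    rw [h2]
    refine Submodule.add_mem_sup (neg_mem h1) ?_
    rw [mem_principalRepartitions_iff]
    exact ⟨f.1, rfl⟩

/-- exactness at `H1(D)` -/
theorem h1Map_eq_zero_iff (x : H1 D) :
    h1Map (le_add_single D v) x = 0 ↔ x ∈ LinearMap.range (delta D v) := by
  obtain ⟨α, rfl⟩ := Submodule.Quotient.mk_surjective _ x
  constructor
  · intro h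
    have h' : α ∈ repartitionsOf (plus D v) ⊔ principalRepartitions K F := by
      rwa [← Submodule.Quotient.mk_eq_zero]
    obtain ⟨β, hβ, γ, hγ, hsum⟩ := Submodule.mem_sup.mp h'
    refine ⟨psi D v ⟨β, hβ⟩, ?_⟩
    rw [delta_psi]
    show (Submodule.Quotient.mk β : H1 D) = _
    rw [Submodule.Quotient.eq]
    apply Submodule.mem_sup_right
    have : β - α = -γ := by rw [← hsum]; abel
    rw [this]
    exact neg_mem hγ
  · rintro ⟨c, hc⟩
    obtain ⟨β, rfl⟩ := psi_surjective D v c
    rw [delta_psi] at hc
    rw [← hc]
    show (Submodule.Quotient.mk (β : ↥(repartitions K F)) : H1 (plus D v)) = 0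
    rw [Submodule.Quotient.mk_eq_zero]
    exact Submodule.mem_sup_left β.2

end Maps

end Fermat.Agent.H3RR
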