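/-
H3RR: dimension bookkeeping; finiteness of `L(D)`, one-step dimension formulas.
-/
import Mathlib
import Fermat.Agent.H3RR_Exact

set_option autoImplicit false

open AlgebraicCurve WithZero IsLocalRing

namespace Fermat.Agent.H3RR

variable {K F : Type*} [Field K] [Field F] [Algebra K F]

/-- `ℓ(D)` -/
noncomputable def ell (D : Divisor K F) : ℕ := Module.finrank K (riemannRochSpace D)

/-- `h¹(D)` -/
noncomputable def h1 (D : Divisor K F) : ℕ := Module.finrank K (H1 D)

theorem L_mono {D D' : Divisor K F} (h : D ≤ D') : riemannRochSpace D ≤ riemannRochSpace D' :=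
  fun _ hα v => (hα v).trans (exp_le_exp.mpr (Finsupp.le_def.mp h v))

section Step

variable (D : Divisor K F) (v : Place K F)

/-- `ker (L(D+v) → κ(v)) ≃ L(D)` -/
noncomputable def kerLmapEquiv : LinearMap.ker (lmap D v) ≃ₗ[K] riemannRochSpace D where
  toFun f := ⟨f.1.1, (lmap_eq_zero_iff D v).mp f.2⟩
  map_add' _ _ := rfl
  map_smul' _ _ := rfl
  invFun g := ⟨⟨g.1, L_mono (le_add_single D v) g.2⟩, (lmap_eq_zero_iff D v).mpr g.2⟩
  left_inv _ := rfl
  right_inv _ := rfl

theorem finite_L_plus [Module.Finite K v.ResidueField] [Module.Finite K (riemannRochSpace D)] :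
    Module.Finite K (riemannRochSpace (plus D v)) := by
  have h1 : Module.Finite K (LinearMap.ker (lmap D v)) :=
    Module.Finite.equiv (kerLmapEquiv D v).symm
  have h2 : Module.Finite K (LinearMap.range (lmap D v)) := inferInstance
  have h3 := Module.Finite.equiv (lmap D v).quotKerEquivRange.symm
  exact Module.Finite.of_submodule_quotient (LinearMap.ker (lmap D v))

theorem finite_L_of_plus [Module.Finite K (riemannRochSpace (plus D v))] :
    Module.Finite K (riemannRochSpace D) :=
  Module.Finite.equiv (kerLmapEquiv D v)

theorem ell_plus [Module.Finite K (riemannRochSpace (plus D v))] :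
    ell (plus D v) = ell D + Module.finrank K (LinearMap.range (lmap D v)) := by
  have h := LinearMap.finrank_range_add_finrank_ker (lmap D v)
  rw [ell, ← h, (kerLmapEquiv D v).finrank_eq, ell, add_comm]

theorem ell_plus_le [Module.Finite K v.ResidueField] [Module.Finite K (riemannRochSpace D)] :
    ell (plus D v) ≤ ell D + v.deg := by
  have := finite_L_plus D v
  rw [ell_plus]
  exact Nat.add_le_add_left (Submodule.finrank_le _) _

theorem finite_H1_of_plus [Module.Finite K v.ResidueField] [Module.Finite K (H1 (plus D v))] :
    Module.Finite K (H1 D) := by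
  have hk : LinearMap.ker (h1Map (le_add_single D v)) = LinearMap.range (delta D v) := by
    ext x
    rw [LinearMap.mem_ker, h1Map_eq_zero_iff]
  have h1 : Module.Finite K (LinearMap.ker (h1Map (le_add_single D v))) := by
    rw [hk]; infer_instance
  have h3 := Module.Finite.equiv ((h1Map (le_add_single D v)).quotKerEquivOfSurjective
      (h1Map_surjective _)).symm
  exact Module.Finite.of_submodule_quotient (LinearMap.ker (h1Map (le_add_single D v)))

/-- One-step dimension formula. -/
theorem step_formula [Module.Finite K v.ResidueField] [Module.Finite K (riemannRochSpace D)]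
    [Module.Finite K (H1 (plus D v))] :
    ell (plus D v) + h1 D = ell D + h1 (plus D v) + v.deg := by
  have := finite_L_plus D v
  have := finite_H1_of_plus D v
  have e1 := ell_plus D v
  have hk : LinearMap.ker (h1Map (le_add_single D v)) = LinearMap.range (delta D v) := by
    ext x
    rw [LinearMap.mem_ker, h1Map_eq_zero_iff]
  have e2 := LinearMap.finrank_range_add_finrank_ker (h1Map (le_add_single D v))
  rw [hk, LinearMap.range_eq_top.mpr (h1Map_surjective _), finrank_top] at e2
  have e3 := LinearMap.finrank_range_add_finrank_ker (delta D v)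
  have hk2 : LinearMap.ker (delta D v) = LinearMap.range (lmap D v) := by
    ext x
    rw [LinearMap.mem_ker, delta_eq_zero_iff]
  rw [hk2] at e3
  have e4 : Module.finrank K v.ResidueField = v.deg := rfl
  rw [e4] at e3
  rw [h1, h1]
  omega

end Step

section Induction

/-- `D ≤ D'` means `D'` is obtained from `D` by adding finitely many places. -/
theorem le_induction {P : Divisor K F → Prop} {D D' : Divisor K F} (h : D ≤ D')
    (h0 : P D) (hstep : ∀ E v, D ≤ E → P E → P (plus E v)) : P D' := by
  classical
  obtain ⟨n, hn⟩ : ∃ n : ℕ, n = ∑ v ∈ (D' - D).support, ((D' - D) v).toNat := ⟨_, rfl⟩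
  induction n generalizing D' with
  | zero =>
    have : D' = D := by
      ext v
      by_contra hne
      have hlt : 0 < (D' - D) v := by
        have := h v
        rw [Finsupp.sub_apply]
        omega
      have hv : v ∈ (D' - D).support := Finsupp.mem_support_iff.mpr hlt.ne'
      have := Finset.sum_eq_zero_iff.mp hn.symm v hv
      omega
    rw [this]; exact h0
  | succ n ih =>
    have hex : ∃ v, 0 < (D' - D) v := by
      by_contra hcon
      push Not at hcon
      have : ∑ v ∈ (D' - D).support, ((D' - D) v).toNat = 0 := by
        apply Finset.sum_eq_zero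
        intro v _
        have := hcon v
        omega
      omega
    obtain ⟨v, hv⟩ := hex
    obtain ⟨E, hE0⟩ : ∃ E : Divisor K F, E = D' - Finsupp.single v 1 := ⟨_, rfl⟩
    have hEv : E v = D' v - 1 := by
      rw [hE0]; simp
    have hEw : ∀ w, w ≠ v → E w = D' w := by
      intro w hw
      rw [hE0]; simp [Ne.symm hw]
    have hE : plus E v = D' := by
      rw [plus, hE0]; abel
    have hle : D ≤ E := by
      intro w
      rw [Finsupp.sub_apply] at hv
      by_cases hw : w = v
      · subst hw
        rw [hEv]
        omega
      · rw [hEw w hw]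
        exact h w
    rw [← hE]
    apply hstep _ _ hle
    apply ih hle
    -- compare the sums
    have hvs : v ∈ (D' - D).support := Finsupp.mem_support_iff.mpr hv.ne'
    have hsub : (E - D).support ⊆ (D' - D).support := by
      intro w hw
      rw [Finsupp.mem_support_iff] at hw ⊢
      by_cases hwv : w = v
      · subst hwv; exact hv.ne'
      · rw [Finsupp.sub_apply, hEw w hwv] at hw
        rwa [Finsupp.sub_apply]
    have h1 : ∑ w ∈ (E - D).support, ((E - D) w).toNat
        = ∑ w ∈ (D' - D).support, ((E - D) w).toNat := by
      apply Finset.sum_subset hsub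
      intro w _ hw
      rw [Finsupp.notMem_support_iff] at hw
      rw [hw]; rfl
    rw [h1]
    rw [← Finset.add_sum_erase _ _ hvs] at hn ⊢
    have h2 : ∑ w ∈ (D' - D).support.erase v, ((E - D) w).toNat
        = ∑ w ∈ (D' - D).support.erase v, ((D' - D) w).toNat := by
      apply Finset.sum_congr rfl
      intro w hw
      have hwv : w ≠ v := Finset.ne_of_mem_erase hw
      rw [Finsupp.sub_apply, Finsupp.sub_apply, hEw w hwv]
    have h3 : (E - D) v = (D' - D) v - 1 := by
      rw [Finsupp.sub_apply, Finsupp.sub_apply, hEv]
      ring
    rw [h2, h3]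
    omega

theorem degree_plus (D : Divisor K F) (v : Place K F) :
    Divisor.degree (plus D v) = Divisor.degree D + v.deg := by
  rw [plus, map_add, Divisor.degree_single, one_mul]

end Induction

end Fermat.Agent.H3RR
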