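/-
H3RR: one-variable function fields over an algebraically closed field: every proper valuation ring is a place,
residue fields are `K`, degree of the zero divisor is at most `[F : K(y)]`.
-/
import Mathlib
import Fermat.Agent.H3RR_Dim

set_option autoImplicit false

open AlgebraicCurve WithZero IsLocalRing Polynomial IntermediateField

namespace Fermat.Agent.H3RR

/-- `F/K` is a function field in one variable. -/
class IsFF (K F : Type*) [Field K] [Field F] [Algebra K F] : Prop where
  exists_gen : ∃ x : F, Transcendental K x ∧ FiniteDimensional K⟮x⟯ F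

variable {K F : Type*} [Field K] [Field F] [Algebra K F]

theorem isAlgebraic_of_finiteDimensional_adjoin {x : F} (hx : Transcendental K x)
    [FiniteDimensional K⟮x⟯ F] {y : F} (hy : Transcendental K y) : IsAlgebraic K⟮y⟯ x :=
  isAlgebraic_adjoin_iff.mpr (.adjoin_singleton hx hy
    (isAlgebraic_adjoin_iff.mp (Algebra.IsAlgebraic.isAlgebraic y)))

theorem finiteDimensional_of_transcendental {x : F} (hx : Transcendental K x)
    [FiniteDimensional K⟮x⟯ F] {y : F} (hy : Transcendental K y) : FiniteDimensional K⟮y⟯ F :=
  let Fyx := restrictScalars K K⟮y⟯⟮x⟯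
  let Fxy := restrictScalars K K⟮x⟯⟮y⟯
  let : Algebra K⟮y⟯ Fyx := K⟮y⟯⟮x⟯.algebra
  let : Module K⟮y⟯ Fyx := Algebra.toModule
  let : SMul K⟮y⟯ Fyx := Algebra.toSMul
  let : Algebra K⟮x⟯ Fxy := K⟮x⟯⟮y⟯.algebra
  let : Module K⟮x⟯ Fxy := Algebra.toModule
  let : SMul K⟮x⟯ Fxy := Algebra.toSMul
  have : FiniteDimensional K⟮y⟯ Fyx :=
    adjoin.finiteDimensional
      (isAlgebraic_iff_isIntegral.mp (isAlgebraic_of_finiteDimensional_adjoin hx hy))
  have : FiniteDimensional Fyx F := by
    unfold Fyx
    rw [adjoin_simple_comm]
    have : IsScalarTower K⟮x⟯ Fxy F := isScalarTower_mid' K⟮x⟯⟮y⟯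
    exact .right K⟮x⟯ Fxy F
  have : IsScalarTower K⟮y⟯ Fyx F := isScalarTower_mid' K⟮y⟯⟮x⟯
  .trans K⟮y⟯ Fyx F

theorem IsFF.finiteDimensional [IsFF K F] {y : F} (hy : Transcendental K y) :
    FiniteDimensional K⟮y⟯ F := by
  obtain ⟨x, hx, hfin⟩ := IsFF.exists_gen (K := K) (F := F)
  exact finiteDimensional_of_transcendental hx hy

theorem transcendental_inv {y : F} (hy : Transcendental K y) : Transcendental K y⁻¹ := by
  intro h
  apply hy
  simpa using h.inv

theorem transcendental_ne_zero {y : F} (hy : Transcendental K y) : y ≠ 0 := by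
  rintro rfl
  exact hy isAlgebraic_zero

/-- Independence over `K(y)` can be tested on polynomial relations not all divisible by `X`. -/
theorem linearIndependent_of_poly {y : F} (hy : Transcendental K y) {ι : Type*} [Fintype ι]
    (z : ι → F)
    (h : ∀ p : ι → K[X], ∑ i, aeval y (p i) * z i = 0 → (∃ i, (p i).coeff 0 ≠ 0) → False) :
    LinearIndependent K⟮y⟯ z := by
  have hy0 : y ≠ 0 := transcendental_ne_zero hy
  -- polynomial version
  have key : ∀ N : ℕ, ∀ p : ι → K[X], (∃ i, p i ≠ 0) → (∀ i, (p i).natDegree ≤ N) →
      ∑ i, aeval y (p i) * z i = 0 → False := by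
    intro N
    induction N with
    | zero =>
      intro p hp hdeg hsum
      obtain ⟨i, hi⟩ := hp
      refine h p hsum ⟨i, fun h0 => hi ?_⟩
      rw [Polynomial.eq_C_of_natDegree_le_zero (hdeg i), h0, map_zero]
    | succ N ih =>
      intro p hp hdeg hsum
      by_cases hc : ∃ i, (p i).coeff 0 ≠ 0
      · exact h p hsum hc
      · push Not at hc
        have hX : ∀ i, p i = (p i).divX * X := by
          intro i
          conv_lhs => rw [← Polynomial.divX_mul_X_add (p i), hc i, map_zero, add_zero]
        refine ih (fun i => (p i).divX) ?_ ?_ ?_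
        · obtain ⟨i, hi⟩ := hp
          refine ⟨i, fun h0 => hi ?_⟩
          rw [hX i, h0, zero_mul]
        · intro i
          rw [Polynomial.natDegree_divX_eq_natDegree_tsub_one]
          have := hdeg i
          omega
        · have : ∑ i, aeval y (p i) * z i = y * ∑ i, aeval y (p i).divX * z i := by
            rw [Finset.mul_sum]
            apply Finset.sum_congr rfl
            intro i _
            conv_lhs => rw [hX i, map_mul, aeval_X]
            ring
          rw [this] at hsum
          exact (mul_eq_zero.mp hsum).resolve_left hy0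
  open scoped IntermediateField.algebraAdjoinAdjoin in
  rw [← LinearIndependent.iff_fractionRing (R := Algebra.adjoin K {y}) (K := K⟮y⟯)]
  rw [Fintype.linearIndependent_iff]
  intro g hg i
  by_contra hgi
  have hex : ∀ i, ∃ p : K[X], aeval y p = (g i : F) := fun i =>
    (Algebra.adjoin_singleton_eq_range_aeval K y).le (g i).2
  choose p hp using hex
  refine key (Finset.univ.sup fun i => (p i).natDegree) p ⟨i, fun h0 => hgi ?_⟩
    (fun i => Finset.le_sup (f := fun i => (p i).natDegree) (Finset.mem_univ i)) ?_
  · ext
    rw [← hp i, h0, map_zero]; rfl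
  · rw [← hg]
    apply Finset.sum_congr rfl
    intro i _
    rw [hp i]
    rfl

/-- The elements of `F` algebraic over `K` (algebraically closed) are constants. -/
theorem exists_const_of_isAlgebraic [IsAlgClosed K] {y : F} (hy : IsAlgebraic K y) :
    ∃ c : K, algebraMap K F c = y := by
  have h1 : FiniteDimensional K K⟮y⟯ := adjoin.finiteDimensional hy.isIntegral
  have h2 : Algebra.IsAlgebraic K K⟮y⟯ := Algebra.IsAlgebraic.of_finite K K⟮y⟯
  have h3 := IntermediateField.eq_bot_of_isAlgClosed_of_isAlgebraic K⟮y⟯
  have h4 : y ∈ (⊥ : IntermediateField K F) := h3 ▸ mem_adjoin_simple_self K y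
  exact IntermediateField.mem_bot.mp h4

section ValuationSubring

variable (A : ValuationSubring F)

theorem mem_of_isIntegral_of_le (hK : ∀ a : K, algebraMap K F a ∈ A) {y : F}
    (h1 : IsIntegral K y) : y ∈ A := by
  let _ : Algebra K A := ((algebraMap K F).codRestrict A.toSubring hK).toAlgebra
  have : IsScalarTower K A F := IsScalarTower.of_algebraMap_eq fun a => rfl
  have h3 : IsIntegral A y := h1.tower_top
  obtain ⟨a, ha⟩ := IsIntegrallyClosed.isIntegral_iff.mp h3
  rw [← ha]
  exact a.2

/-- A nonzero element of the maximal ideal of a valuation ring containing `K` is transcendental. -/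
theorem transcendental_of_nonunit (hK : ∀ a : K, algebraMap K F a ∈ A) {y : F} (hy0 : y ≠ 0)
    (hyA : y ∈ A.nonunits) : Transcendental K y := by
  intro halg
  have h1 : IsIntegral K y⁻¹ := (halg.inv).isIntegral
  have h2 : y⁻¹ ∈ A := mem_of_isIntegral_of_le A hK h1
  rcases A.mem_nonunits_iff_or.mp hyA with h | h
  · exact hy0 h
  · exact h h2

theorem aeval_mem (hK : ∀ a : K, algebraMap K F a ∈ A) {y : F} (hy : y ∈ A) (p : K[X]) :
    aeval y p ∈ A := by
  rw [Polynomial.aeval_eq_sum_range]
  apply sum_mem
  intro i _
  rw [Algebra.smul_def]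
  exact mul_mem (hK _) (pow_mem hy i)

theorem valuation_algebraMap_eq_one (hK : ∀ a : K, algebraMap K F a ∈ A) {c : K} (hc : c ≠ 0) :
    A.valuation (algebraMap K F c) = 1 := by
  apply le_antisymm ((A.valuation_le_one_iff _).mpr (hK c))
  have h1 : A.valuation (algebraMap K F c⁻¹) ≤ 1 := (A.valuation_le_one_iff _).mpr (hK c⁻¹)
  rw [map_inv₀, map_inv₀] at h1
  have h2 : A.valuation (algebraMap K F c) ≠ 0 :=
    (Valuation.ne_zero_iff _).mpr (by simpa using hc)
  exact (inv_le_one₀ (zero_lt_iff.mpr h2)).mp h1

theorem chain_bound (hK : ∀ a : K, algebraMap K F a ∈ A) {y : F} (hy : Transcendental K y)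
    [FiniteDimensional K⟮y⟯ F] (n : ℕ) (x : Fin (n + 1) → F) (hx0 : x 0 = y)
    (hval : StrictMono (fun i => A.valuation (x i))) (hlt : ∀ i, A.valuation (x i) < 1) :
    n + 1 ≤ Module.finrank K⟮y⟯ F := by
  have hli : LinearIndependent K⟮y⟯ x := by
    apply linearIndependent_of_poly hy
    intro p hsum hex
    -- maximal index with nonzero constant coefficient
    obtain ⟨j, hj, hjmax⟩ : ∃ j, (p j).coeff 0 ≠ 0 ∧ ∀ i, j < i → (p i).coeff 0 = 0 := by
      classical
      obtain ⟨i0, hi0⟩ := hex
      obtain ⟨j, hj, hjm⟩ := Finset.exists_max_image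
        (Finset.univ.filter fun i => (p i).coeff 0 ≠ 0) id ⟨i0, by simpa using hi0⟩
      refine ⟨j, (Finset.mem_filter.mp hj).2, fun i hi => ?_⟩
      by_contra hne
      have := hjm i (by simpa using hne)
      exact absurd hi (not_lt.mpr this)
    have hyA : y ∈ A := by
      rw [← A.valuation_le_one_iff, ← hx0]; exact (hlt 0).le
    have hyv : A.valuation y < 1 := by rw [← hx0]; exact hlt 0
    have hphi : ∀ i, A.valuation (aeval y (p i)) ≤ 1 := fun i =>
      (A.valuation_le_one_iff _).mpr (aeval_mem A hK hyA _)
    have hdiv : ∀ i, aeval y (p i) = aeval y (p i).divX * y + algebraMap K F ((p i).coeff 0) := by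
      intro i
      conv_lhs => rw [← Polynomial.divX_mul_X_add (p i)]
      rw [map_add, map_mul, aeval_X, aeval_C]
    have hdv : ∀ i, A.valuation (aeval y (p i).divX * y) ≤ A.valuation y := by
      intro i
      rw [map_mul]
      exact mul_le_of_le_one_left' ((A.valuation_le_one_iff _).mpr (aeval_mem A hK hyA _))
    have hj1 : A.valuation (aeval y (p j)) = 1 := by
      rw [hdiv j]
      have hc := valuation_algebraMap_eq_one A hK hj
      rw [Valuation.map_add_eq_of_lt_right]
      · exact hc
      · rw [hc]; exact lt_of_le_of_lt (hdv j) hyv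
    have hxj0 : A.valuation (x j) ≠ 0 := by
      intro h0
      rcases Fin.eq_zero_or_eq_succ j with rfl | ⟨k, rfl⟩
      · rw [hx0] at h0
        exact transcendental_ne_zero hy ((Valuation.zero_iff _).mp h0)
      · have := hval (Fin.succ_pos k)
        simp only at this
        rw [h0] at this
        exact not_lt_zero this
    have hrest : ∀ i, i ≠ j → A.valuation (aeval y (p i) * x i) < A.valuation (x j) := by
      intro i hij
      rcases lt_or_gt_of_ne hij with hlt' | hgt
      · rw [map_mul]
        exact lt_of_le_of_lt (mul_le_of_le_one_left' (hphi i)) (hval hlt')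
      · have h0 := hjmax i hgt
        rw [hdiv i, h0, map_zero, add_zero, map_mul]
        have h1 : A.valuation y ≤ A.valuation (x j) := by
          rw [← hx0]; exact hval.monotone (Fin.zero_le j)
        have h2 : A.valuation (x i) < 1 := hlt i
        have hy0 : A.valuation y ≠ 0 := (Valuation.ne_zero_iff _).mpr (transcendental_ne_zero hy)
        calc A.valuation (aeval y (p i).divX * y) * A.valuation (x i)
            ≤ A.valuation y * A.valuation (x i) := mul_le_mul_left (hdv i) _
          _ < A.valuation y * 1 := by
              exact mul_lt_mul_of_pos_left h2 (zero_lt_iff.mpr hy0)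
          _ = A.valuation y := mul_one _
          _ ≤ _ := h1
    rw [← Finset.add_sum_erase _ _ (Finset.mem_univ j)] at hsum
    have hs : A.valuation (∑ i ∈ Finset.univ.erase j, aeval y (p i) * x i) < A.valuation (x j) := by
      apply Valuation.map_sum_lt _ hxj0
      intro i hi
      exact hrest i (Finset.ne_of_mem_erase hi)
    have heq : aeval y (p j) * x j = - ∑ i ∈ Finset.univ.erase j, aeval y (p i) * x i :=
      eq_neg_of_add_eq_zero_left hsum
    have hv : A.valuation (aeval y (p j) * x j) = A.valuation (x j) := by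
      rw [map_mul, hj1, one_mul]
    rw [← hv, heq, Valuation.map_neg] at hs
    exact lt_irrefl _ hs
  have := hli.fintype_card_le_finrank
  simpa using this

theorem isPrincipalIdealRing_of_isFF [IsFF K F] (hK : ∀ a : K, algebraMap K F a ∈ A) :
    IsPrincipalIdealRing A := by
  constructor
  intro I
  by_cases hI : I = ⊤
  · rw [hI]; exact top_isPrincipal
  by_cases hI0 : I = ⊥
  · rw [hI0]; exact bot_isPrincipal
  -- an element of maximal valuation
  have hmax : ∃ a ∈ I, ∀ b ∈ I, A.valuation (b : F) ≤ A.valuation (a : F) := by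
    by_contra hcon
    push Not at hcon
    obtain ⟨y, hyI, hy0⟩ := Submodule.exists_mem_ne_zero_of_ne_bot hI0
    have hlt : ∀ a ∈ I, A.valuation (a : F) < 1 := by
      intro a ha
      have h1 := (A.valuation_le_one_iff _).mpr a.2
      refine lt_of_le_of_ne h1 fun h => hI ?_
      exact Ideal.eq_top_of_isUnit_mem I ha ((A.valuation_eq_one_iff a).mpr h)
    have hyF : (y : F) ≠ 0 := by simpa using hy0
    have hyt : Transcendental K (y : F) :=
      transcendental_of_nonunit A hK hyF (A.mem_nonunits_iff.mpr (hlt y hyI))
    have := IsFF.finiteDimensional hyt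
    choose! nxt hnxtI hnxt using hcon
    let seq : ℕ → A := fun n => nxt^[n] y
    have hseqI : ∀ n, seq n ∈ I := by
      intro n
      induction n with
      | zero => exact hyI
      | succ n ih =>
        show nxt^[n+1] y ∈ I
        rw [Function.iterate_succ_apply']
        exact hnxtI _ ih
    have hmono : StrictMono (fun n => A.valuation (seq n : F)) := by
      apply strictMono_nat_of_lt_succ
      intro n
      show A.valuation (seq n : F) < A.valuation ((nxt^[n+1] y : A) : F)
      rw [Function.iterate_succ_apply']
      exact hnxt _ (hseqI n)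
    have hb := chain_bound A hK hyt (Module.finrank K⟮(y : F)⟯ F) (fun i => (seq i : F)) rfl
      (fun i j hij => hmono hij) (fun i => hlt _ (hseqI _))
    omega
  obtain ⟨a, haI, ha⟩ := hmax
  refine ⟨a, ?_⟩
  apply le_antisymm
  · intro b hb
    have h := ha b hb
    rw [Ideal.submodule_span_eq, Ideal.mem_span_singleton]
    by_cases ha0 : (a : F) = 0
    · rw [ha0, map_zero] at h
      have hb0 : (b : F) = 0 := (Valuation.zero_iff _).mp (le_antisymm h zero_le)
      have : b = 0 := by ext; exact hb0
      rw [this]; exact dvd_zero _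
    · have hc : (b : F) / a ∈ A := by
        rw [← A.valuation_le_one_iff, map_div₀]
        exact (div_le_one₀ (zero_lt_iff.mpr ((Valuation.ne_zero_iff _).mpr ha0))).mpr h
      refine ⟨⟨_, hc⟩, ?_⟩
      ext
      show (b : F) = a * (b / a)
      field_simp
  · rw [Ideal.submodule_span_eq, Ideal.span_singleton_le_iff_mem]
    exact haI

end ValuationSubring

/-- Every proper valuation subring of `F` containing `K` is a place. -/
def placeOf [IsFF K F] (A : ValuationSubring F) (hK : ∀ a : K, algebraMap K F a ∈ A)
    (hA : A ≠ ⊤) : Place K F where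
  toValuationSubring := A
  algebraMap_mem' := hK
  ne_top' := hA
  isPrincipalIdealRing' := isPrincipalIdealRing_of_isFF A hK

@[simp] theorem placeOf_toValuationSubring [IsFF K F] (A : ValuationSubring F)
    (hK : ∀ a : K, algebraMap K F a ∈ A) (hA : A ≠ ⊤) :
    (placeOf A hK hA).toValuationSubring = A := rfl

section AlgClosed

variable [IsAlgClosed K] [IsFF K F]

theorem adicValuation_algebraMap (v : Place K F) {c : K} (hc : c ≠ 0) :
    v.adicValuation (algebraMap K F c) = 1 := by
  apply le_antisymm (v.adicValuation_algebraMap_le_one c)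
  have h1 := v.adicValuation_algebraMap_le_one c⁻¹
  rw [map_inv₀, map_inv₀] at h1
  have h2 : v.adicValuation (algebraMap K F c) ≠ 0 :=
    v.adicValuation_ne_zero (by simpa using hc)
  exact (inv_le_one₀ (zero_lt_iff.mpr h2)).mp h1

/-- Residue fields are `K`. -/
theorem exists_const_sub_lt_one (v : Place K F) {f : F} (hf : v.adicValuation f ≤ 1) :
    ∃ c : K, v.adicValuation (f - algebraMap K F c) < 1 := by
  by_cases hft : IsAlgebraic K f
  · obtain ⟨c, hc⟩ := exists_const_of_isAlgebraic hft
    exact ⟨c, by rw [hc, sub_self, map_zero]; exact zero_lt_one⟩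
  · have hft' : Transcendental K f := hft
    by_contra hcon
    push Not at hcon
    have hle : ∀ c : K, v.adicValuation (f - algebraMap K F c) = 1 := fun c => by
      apply le_antisymm _ (hcon c)
      exact (Valuation.map_sub _ _ _).trans (max_le hf (v.adicValuation_algebraMap_le_one c))
    -- all nonzero polynomials in f are units
    have hpoly : ∀ p : K[X], p ≠ 0 → v.adicValuation (aeval f p) = 1 := by
      intro p hp
      have hsp := (IsAlgClosed.splits p).eq_prod_roots
      rw [hsp, map_mul, aeval_C, map_mul, adicValuation_algebraMap v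
        (Polynomial.leadingCoeff_ne_zero.mpr hp), one_mul, map_multiset_prod, map_multiset_prod,
        Multiset.map_map, Multiset.map_map]
      apply Multiset.prod_eq_one
      intro x hx
      obtain ⟨c, _, rfl⟩ := Multiset.mem_map.mp hx
      simp only [Function.comp_apply, map_sub, aeval_X, aeval_C]
      exact hle c
    have := IsFF.finiteDimensional hft'
    apply v.ne_top'
    rw [eq_top_iff]
    intro z _
    have hsub : ∀ a : K⟮f⟯, (a : F) ∈ v.toValuationSubring := by
      intro a
      obtain ⟨r, s, hrs⟩ := (mem_adjoin_simple_iff K (a : F)).mp a.2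
      rw [hrs]
      apply mem_of_adicValuation_le_one
      rw [map_div₀]
      by_cases hr : r = 0
      · rw [hr]; simp
      · by_cases hs : s = 0
        · rw [hs]; simp
        · rw [hpoly r hr, hpoly s hs, div_one]
    have hz : IsIntegral K⟮f⟯ z := Algebra.IsIntegral.isIntegral z
    let _ : Algebra K⟮f⟯ v.toValuationSubring :=
      ((algebraMap K⟮f⟯ F).codRestrict v.toValuationSubring.toSubring hsub).toAlgebra
    have : IsScalarTower K⟮f⟯ v.toValuationSubring F := IsScalarTower.of_algebraMap_eq fun a => rfl
    have h3 : IsIntegral v.toValuationSubring z := hz.tower_top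
    obtain ⟨a, ha⟩ := IsIntegrallyClosed.isIntegral_iff.mp h3
    rw [← ha]
    exact a.2

theorem residue_bijective (v : Place K F) : Function.Bijective (algebraMap K v.ResidueField) := by
  refine ⟨(algebraMap K v.ResidueField).injective, fun x => ?_⟩
  obtain ⟨a, rfl⟩ := residue_surjective (R := v.toValuationSubring) x
  obtain ⟨c, hc⟩ := exists_const_sub_lt_one v (v.adicValuation_le_one_of_mem a.2)
  refine ⟨c, ?_⟩
  have : algebraMap K v.ResidueField c = residue v.toValuationSubring (algebraMap K _ c) := rfl
  rw [this, eq_comm, ← sub_eq_zero, ← map_sub, residue_eq_zero_iff']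
  exact hc

instance finite_residueField (v : Place K F) : Module.Finite K v.ResidueField :=
  Module.Finite.of_surjective (Algebra.linearMap K v.ResidueField) (residue_bijective v).2

theorem deg_eq_one (v : Place K F) : v.deg = 1 := v.deg_eq_one_of_isAlgClosed_of_finite

/-- A transcendental element has a zero. -/
theorem exists_place_lt_one {y : F} (hy : Transcendental K y) :
    ∃ v : Place K F, v.adicValuation y < 1 := by
  obtain ⟨B, hB, hI⟩ := Ideal.image_subset_nonunits_valuationSubring
    (A := (Algebra.adjoin K {y}).toSubring)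
    (Ideal.span {(⟨y, Algebra.self_mem_adjoin_singleton K y⟩ : (Algebra.adjoin K {y}).toSubring)}) (by
      intro htop
      rw [Ideal.span_singleton_eq_top] at htop
      obtain ⟨b, hb⟩ := htop.exists_right_inv
      have hb' : y * (b : F) = 1 := congrArg Subtype.val hb
      obtain ⟨p, hp⟩ := (Algebra.adjoin_singleton_eq_range_aeval K y).le b.2
      have hp' : aeval y p = (b : F) := hp
      apply hy
      refine ⟨X * p - 1, ?_, ?_⟩
      · intro h0
        have := congrArg (Polynomial.eval 0) h0
        simp at this
      · rw [map_sub, map_mul, aeval_X, hp', hb', map_one, sub_self])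
  have hyB : y ∈ B.nonunits := hI ⟨⟨y, Algebra.self_mem_adjoin_singleton K y⟩,
    Ideal.mem_span_singleton_self _, rfl⟩
  have hK : ∀ a : K, algebraMap K F a ∈ B := fun a => hB ((Algebra.adjoin K {y}).algebraMap_mem a)
  have htop : B ≠ ⊤ := by
    rintro rfl
    rcases (⊤ : ValuationSubring F).mem_nonunits_iff_or.mp hyB with h | h
    · exact transcendental_ne_zero hy h
    · exact h trivial
  refine ⟨placeOf B hK htop, ?_⟩
  have hyB' : y ∈ B := ValuationSubring.nonunits_subset hyB
  have h1 : residue B ⟨y, hyB'⟩ = 0 := by
    rw [residue_eq_zero_iff]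
    exact (ValuationSubring.coe_mem_nonunits_iff (a := ⟨y, hyB'⟩)).mp hyB
  exact (residue_eq_zero_iff' (placeOf B hK htop)).mp h1

/-- No poles implies constant. -/
theorem exists_const_of_forall_le_one {f : F} (h : ∀ v : Place K F, v.adicValuation f ≤ 1) :
    ∃ c : K, algebraMap K F c = f := by
  apply exists_const_of_isAlgebraic
  by_contra hft
  obtain ⟨v, hv⟩ := exists_place_lt_one (transcendental_inv (K := K) hft)
  rw [map_inv₀] at hv
  have h1 := h v
  have h2 : v.adicValuation f ≠ 0 := v.adicValuation_ne_zero (transcendental_ne_zero hft)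
  exact absurd ((inv_lt_one₀ (zero_lt_iff.mpr h2)).mp hv) (not_lt.mpr h1)

theorem exists_place (K F : Type*) [Field K] [Field F] [Algebra K F] [IsAlgClosed K] [IsFF K F] :
    Nonempty (Place K F) := by
  obtain ⟨x, hx, _⟩ := IsFF.exists_gen (K := K) (F := F)
  obtain ⟨v, -⟩ := exists_place_lt_one hx
  exact ⟨v⟩

end AlgClosed

end Fermat.Agent.H3RR
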