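/-
H3RR: the degree of the zero divisor of `y` is `[F : K(y)]`; principal divisors.
-/
import Mathlib
import Fermat.Agent.H3RR_FF

set_option autoImplicit false

open AlgebraicCurve WithZero IsLocalRing Polynomial IntermediateField

namespace Fermat.Agent.H3RR

variable {K F : Type*} [Field K] [Field F] [Algebra K F] [IsAlgClosed K] [IsFF K F]

omit [IsAlgClosed K] [IsFF K F] in
theorem adicValuation_smul_le (v : Place K F) (c : K) (f : F) :
    v.adicValuation (algebraMap K F c * f) ≤ v.adicValuation f := by
  rw [map_mul]
  exact mul_le_of_le_one_left' (v.adicValuation_algebraMap_le_one c)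

theorem exists_indep (S : Finset (Place K F)) (E : Place K F → ℤ) (m : ℕ) (E' : Place K F → ℤ)
    (h : ∀ v ∈ S, E v ≤ E' v) (hm : ∑ v ∈ S, (E' v - E v).toNat = m) :
    ∃ z : Fin m → F, (∀ i, ∀ v ∈ S, v.adicValuation (z i) ≤ exp (E' v)) ∧
      ∀ c : Fin m → K, (∀ v ∈ S, v.adicValuation (∑ i, algebraMap K F (c i) * z i) ≤ exp (E v)) →
        c = 0 := by
  classical
  induction m generalizing E' with
  | zero =>
    exact ⟨fun i => i.elim0, fun i => i.elim0, fun c _ => funext fun i => i.elim0⟩
  | succ m ih =>
    obtain ⟨v0, hv0, hlt⟩ : ∃ v0 ∈ S, E v0 < E' v0 := by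
      by_contra hcon
      push Not at hcon
      have : ∑ v ∈ S, (E' v - E v).toNat = 0 := Finset.sum_eq_zero fun v hv => by
        have := hcon v hv; omega
      omega
    obtain ⟨E'', hE''⟩ : ∃ E'' : Place K F → ℤ, E'' = Function.update E' v0 (E' v0 - 1) := ⟨_, rfl⟩
    have hE0 : E'' v0 = E' v0 - 1 := by rw [hE'']; simp
    have hEne : ∀ v, v ≠ v0 → E'' v = E' v := fun v hv => by rw [hE'']; simp [hv]
    have hle : ∀ v, E'' v ≤ E' v := fun v => by
      by_cases hv : v = v0
      · subst hv; omega
      · rw [hEne v hv]
    obtain ⟨z, hz1, hz2⟩ := ih E'' (fun v hv => by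
      by_cases hv' : v = v0
      · subst hv'; omega
      · rw [hEne v hv']; exact h v hv) (by
      rw [← Finset.add_sum_erase _ _ hv0] at hm ⊢
      have : ∑ v ∈ S.erase v0, (E'' v - E v).toNat = ∑ v ∈ S.erase v0, (E' v - E v).toNat :=
        Finset.sum_congr rfl fun v hv => by rw [hEne v (Finset.ne_of_mem_erase hv)]
      rw [this, hE0]
      omega)
    obtain ⟨w, hw⟩ := weak_approximation S (fun v => if v = v0 then unif v0 (E' v0) else 0)
      (fun v => if v = v0 then E' v0 - 1 else E' v)
    have hw0 : v0.adicValuation w = exp (E' v0) := by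
      have h1 := hw v0 hv0
      simp only [if_true] at h1
      have h2 : w = unif v0 (E' v0) + (w - unif v0 (E' v0)) := by ring
      rw [h2, Valuation.map_add_eq_of_lt_left, adicValuation_unif]
      rw [adicValuation_unif]
      refine lt_of_le_of_lt h1 ?_
      rw [exp_lt_exp]; omega
    have hwne : ∀ v ∈ S, v ≠ v0 → v.adicValuation w ≤ exp (E' v) := by
      intro v hv hvne
      have h1 := hw v hv
      simp only [if_neg hvne, sub_zero] at h1
      exact h1
    refine ⟨Fin.snoc z w, ?_, ?_⟩
    · intro i v hv
      refine Fin.lastCases ?_ (fun j => ?_) i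
      · rw [Fin.snoc_last]
        by_cases hv' : v = v0
        · subst hv'; rw [hw0]
        · exact hwne v hv hv'
      · rw [Fin.snoc_castSucc]
        exact (hz1 j v hv).trans (exp_le_exp.mpr (hle v))
    · intro c hc
      have hsum : ∑ i, algebraMap K F (c i) * (Fin.snoc z w : Fin (m + 1) → F) i
          = (∑ i : Fin m, algebraMap K F (c i.castSucc) * z i) + algebraMap K F (c (Fin.last m)) * w := by
        rw [Fin.sum_univ_castSucc]
        simp
      rw [hsum] at hc
      have hlast : c (Fin.last m) = 0 := by
        by_contra hne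
        have h1 := hc v0 hv0
        have h2 : v0.adicValuation (algebraMap K F (c (Fin.last m)) * w) = exp (E' v0) := by
          rw [map_mul, adicValuation_algebraMap v0 hne, one_mul, hw0]
        have h3 : v0.adicValuation (∑ i : Fin m, algebraMap K F (c i.castSucc) * z i) < exp (E' v0) := by
          apply Valuation.map_sum_lt _ (by simp)
          intro i _
          refine lt_of_le_of_lt (adicValuation_smul_le v0 _ _) ?_
          refine lt_of_le_of_lt (hz1 i v0 hv0) ?_
          rw [hE0, exp_lt_exp]; omega
        rw [Valuation.map_add_eq_of_lt_right _ (by rw [h2]; exact h3), h2, exp_le_exp] at h1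
        omega
      have hc' : (fun i : Fin m => c i.castSucc) = 0 := by
        apply hz2
        intro v hv
        have h1 := hc v hv
        rw [hlast, map_zero, zero_mul, add_zero] at h1
        exact h1
      funext i
      refine Fin.lastCases ?_ (fun j => ?_) i
      · exact hlast
      · exact congrFun hc' j

theorem ord_pos_of_lt_one {v : Place K F} {y : F} (hy0 : y ≠ 0) (h : v.adicValuation y < 1) :
    0 < v.ord y := by
  rw [v.adicValuation_eq_exp_neg_ord hy0, ← exp_zero, exp_lt_exp] at h
  omega

/-- The zero divisor of `y` has degree at most `[F:K(y)]`. -/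
theorem sum_ord_le_finrank {y : F} (hy : Transcendental K y) (S : Finset (Place K F))
    (hS : ∀ v ∈ S, v.adicValuation y < 1) :
    ∑ v ∈ S, (v.ord y).toNat ≤ Module.finrank K⟮y⟯ F := by
  have hy0 := transcendental_ne_zero hy
  have := IsFF.finiteDimensional hy
  obtain ⟨z, hz1, hz2⟩ := exists_indep S (fun v => - v.ord y) (∑ v ∈ S, (v.ord y).toNat) (fun _ => 0)
    (fun v hv => by have := ord_pos_of_lt_one hy0 (hS v hv); omega)
    (Finset.sum_congr rfl fun v _ => by rw [zero_sub, neg_neg])
  have hli : LinearIndependent K⟮y⟯ z := by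
    apply linearIndependent_of_poly hy
    intro p hsum hex
    have hp0 : (fun i => (p i).coeff 0) = 0 := by
      apply hz2
      intro v hv
      have hyv := hS v hv
      have hyA : y ∈ v.toValuationSubring := mem_of_adicValuation_le_one v hyv.le
      have heq : ∑ i, algebraMap K F ((p i).coeff 0) * z i
          = - ∑ i, (aeval y (p i).divX * y) * z i := by
        rw [eq_neg_iff_add_eq_zero, ← Finset.sum_add_distrib, ← hsum]
        apply Finset.sum_congr rfl
        intro i _
        conv_rhs => rw [← Polynomial.divX_mul_X_add (p i)]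
        rw [map_add, map_mul, aeval_X, aeval_C]
        ring
      rw [heq, Valuation.map_neg, ← v.adicValuation_eq_exp_neg_ord hy0]
      apply Valuation.map_sum_le
      intro i _
      rw [map_mul, map_mul]
      have h1 : v.adicValuation (aeval y (p i).divX) ≤ 1 :=
        v.adicValuation_le_one_of_mem (aeval_mem _ v.algebraMap_mem' hyA _)
      have h2 : v.adicValuation (z i) ≤ 1 := by
        have := hz1 i v hv
        rwa [exp_zero] at this
      calc v.adicValuation (aeval y (p i).divX) * v.adicValuation y * v.adicValuation (z i)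
          ≤ 1 * v.adicValuation y * 1 := by gcongr
        _ = _ := by rw [one_mul, mul_one]
    obtain ⟨i, hi⟩ := hex
    exact hi (congrFun hp0 i)
  simpa using hli.fintype_card_le_finrank

theorem finite_zeros {y : F} (hy : Transcendental K y) :
    {v : Place K F | v.adicValuation y < 1}.Finite := by
  by_contra hinf
  obtain ⟨S, hS, hcard⟩ := Set.Infinite.exists_subset_card_eq hinf (Module.finrank K⟮y⟯ F + 1)
  have h1 := sum_ord_le_finrank hy S (fun v hv => hS hv)
  have h2 : S.card ≤ ∑ v ∈ S, (v.ord y).toNat := by
    rw [Finset.card_eq_sum_ones]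
    apply Finset.sum_le_sum
    intro v hv
    have := ord_pos_of_lt_one (transcendental_ne_zero hy) (hS hv)
    omega
  omega

theorem finite_support_ord {f : F} (hf : f ≠ 0) : (Function.support fun v : Place K F => v.ord f).Finite := by
  by_cases hft : IsAlgebraic K f
  · obtain ⟨c, rfl⟩ := exists_const_of_isAlgebraic hft
    have hc : c ≠ 0 := by rintro rfl; simp at hf
    convert Set.finite_empty
    ext v
    simp only [Function.mem_support, Set.mem_empty_iff_false, iff_false, not_not]
    have h := adicValuation_algebraMap v hc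
    rw [v.adicValuation_eq_exp_neg_ord hf, ← exp_zero, exp_inj] at h
    omega
  · have h1 := finite_zeros (K := K) (y := f) hft
    have h2 := finite_zeros (K := K) (transcendental_inv (K := K) (y := f) hft)
    refine (h1.union h2).subset ?_
    intro v hv
    rw [Function.mem_support] at hv
    rcases lt_or_gt_of_ne hv with h | h
    · right
      show v.adicValuation f⁻¹ < 1
      rw [v.adicValuation_eq_exp_neg_ord (inv_ne_zero hf), v.ord_inv, ← exp_zero, exp_lt_exp]
      omega
    · left
      show v.adicValuation f < 1
      rw [v.adicValuation_eq_exp_neg_ord hf, ← exp_zero, exp_lt_exp]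
      omega

/-- The divisor of a nonzero function. -/
noncomputable def divOf (f : F) : Divisor K F := by
  classical
  exact if hf : f ≠ 0 then Finsupp.ofSupportFinite _ (finite_support_ord hf) else 0

theorem divOf_apply {f : F} (hf : f ≠ 0) (v : Place K F) : (divOf f : Divisor K F) v = v.ord f := by
  rw [divOf, dif_pos hf]
  rfl

/-- pole divisor -/
noncomputable def poleDiv (f : F) : Divisor K F := (divOf f : Divisor K F)⁻

theorem poleDiv_apply {f : F} (hf : f ≠ 0) (v : Place K F) :
    (poleDiv f : Divisor K F) v = max (- v.ord f) 0 := by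
  rw [poleDiv, negPart_def, Finsupp.sup_apply, Finsupp.neg_apply, divOf_apply hf]
  rfl

end Fermat.Agent.H3RR
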