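/-
H3RR: principal divisors have degree zero (any characteristic), Riemann's inequality, finiteness of `H1`,
and the Riemann form of Riemann-Roch  `ℓ(D) - h¹(D) = deg D + 1 - g`.
-/
import Mathlib
import Fermat.Agent.H3RR_Degree

set_option autoImplicit false

open AlgebraicCurve WithZero IsLocalRing Polynomial IntermediateField

namespace Fermat.Agent.H3RR

variable {K F : Type*} [Field K] [Field F] [Algebra K F] [IsAlgClosed K] [IsFF K F]

/-! ### `L(0) = K` and finiteness of `L(D)` -/

theorem finite_and_ell_zero :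
    Module.Finite K (riemannRochSpace (0 : Divisor K F)) ∧ ell (0 : Divisor K F) = 1 := by
  have hmem : ∀ c : K, algebraMap K F c ∈ riemannRochSpace (0 : Divisor K F) := fun c v => by
    show v.adicValuation _ ≤ exp 0
    rw [exp_zero]
    exact v.adicValuation_algebraMap_le_one c
  let e : K →ₗ[K] riemannRochSpace (0 : Divisor K F) :=
    (Algebra.linearMap K F).codRestrict _ hmem
  have he : Function.Bijective e := by
    constructor
    · intro a b hab
      have : algebraMap K F a = algebraMap K F b := congrArg Subtype.val hab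
      exact (algebraMap K F).injective this
    · rintro ⟨f, hf⟩
      obtain ⟨c, hc⟩ := exists_const_of_forall_le_one (f := f) (fun v => by
        have := hf v
        show v.adicValuation f ≤ 1
        rw [← exp_zero]
        exact this)
      exact ⟨c, Subtype.ext hc⟩
  have eq := LinearEquiv.ofBijective e he
  refine ⟨Module.Finite.equiv eq, ?_⟩
  rw [ell, ← eq.finrank_eq, Module.finrank_self]

theorem degree_plus' (D : Divisor K F) (v : Place K F) :
    Divisor.degree (plus D v) = Divisor.degree D + 1 := by
  rw [degree_plus, deg_eq_one]; rfl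

theorem finite_and_ell_le_of_nonneg {D : Divisor K F} (hD : 0 ≤ D) :
    Module.Finite K (riemannRochSpace D) ∧ (ell D : ℤ) ≤ Divisor.degree D + 1 := by
  refine le_induction (P := fun D => Module.Finite K (riemannRochSpace D) ∧
    (ell D : ℤ) ≤ Divisor.degree D + 1) hD ?_ ?_
  · obtain ⟨h1, h2⟩ := finite_and_ell_zero (K := K) (F := F)
    exact ⟨h1, by rw [h2]; simp⟩
  · rintro E v - ⟨h1, h2⟩
    have h3 := finite_L_plus E v
    refine ⟨h3, ?_⟩
    have h4 := ell_plus_le E v
    rw [deg_eq_one] at h4
    rw [degree_plus']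
    omega

theorem finite_L_of_le {D D' : Divisor K F} (h : D ≤ D') [Module.Finite K (riemannRochSpace D')] :
    Module.Finite K (riemannRochSpace D) :=
  Module.Finite.of_injective (Submodule.inclusion (L_mono h)) (Submodule.inclusion_injective _)

instance finite_L (D : Divisor K F) : Module.Finite K (riemannRochSpace D) := by
  have h := (finite_and_ell_le_of_nonneg (D := D ⊔ 0) le_sup_right).1
  exact finite_L_of_le (D' := D ⊔ 0) le_sup_left

theorem ell_mono {D D' : Divisor K F} (h : D ≤ D') : ell D ≤ ell D' :=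
  LinearMap.finrank_le_finrank_of_injective (f := Submodule.inclusion (L_mono h))
    (Submodule.inclusion_injective _)

theorem ell_sub_le {D D' : Divisor K F} (h : D ≤ D') :
    (ell D' : ℤ) - ell D ≤ Divisor.degree D' - Divisor.degree D := by
  refine le_induction (P := fun D' => (ell D' : ℤ) - ell D ≤ Divisor.degree D' - Divisor.degree D)
    h (by simp) ?_
  intro E v _ hE
  have h4 := ell_plus_le E v
  rw [deg_eq_one] at h4
  rw [degree_plus']
  omega

/-! ### Degree of the pole divisor -/

theorem adicValuation_le_exp_poleDiv {f : F} (hf : f ≠ 0) (v : Place K F) :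
    v.adicValuation f ≤ exp ((poleDiv f : Divisor K F) v) := by
  rw [v.adicValuation_eq_exp_neg_ord hf, poleDiv_apply hf, exp_le_exp]
  exact le_max_left _ _

theorem poleDiv_nonneg (f : F) : 0 ≤ (poleDiv f : Divisor K F) := negPart_nonneg _

theorem degree_eq_sum (D : Divisor K F) : Divisor.degree D = ∑ v ∈ D.support, D v := by
  rw [Divisor.degree, Finsupp.liftAddHom_apply, Finsupp.sum]
  apply Finset.sum_congr rfl
  intro v _
  rw [AddMonoidHom.mulRight_apply, deg_eq_one]
  simp

theorem degree_poleDiv_le {y : F} (hy : Transcendental K y) :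
    Divisor.degree (poleDiv y : Divisor K F) ≤ Module.finrank K⟮y⟯ F := by
  have hy0 := transcendental_ne_zero hy
  have hinv : K⟮y⁻¹⟯ = K⟮y⟯ := by
    apply le_antisymm
    · rw [adjoin_simple_le_iff]
      exact inv_mem (mem_adjoin_simple_self K y)
    · rw [adjoin_simple_le_iff]
      have := inv_mem (mem_adjoin_simple_self K y⁻¹)
      rwa [inv_inv] at this
  have h1 := sum_ord_le_finrank (transcendental_inv hy) (poleDiv y : Divisor K F).support (by
    intro v hv
    rw [Finsupp.mem_support_iff, poleDiv_apply hy0] at hv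
    rw [v.adicValuation_eq_exp_neg_ord (inv_ne_zero hy0), v.ord_inv, ← exp_zero, exp_lt_exp]
    by_contra hcon
    apply hv
    rw [max_eq_right]
    omega)
  rw [hinv] at h1
  rw [degree_eq_sum]
  have h2 : ∑ v ∈ (poleDiv y : Divisor K F).support, (poleDiv y : Divisor K F) v
      = ((∑ v ∈ (poleDiv y : Divisor K F).support, (v.ord y⁻¹).toNat : ℕ) : ℤ) := by
    rw [Nat.cast_sum]
    apply Finset.sum_congr rfl
    intro v _
    rw [poleDiv_apply hy0, v.ord_inv, Int.toNat_eq_max]
  rw [h2]
  exact_mod_cast h1

theorem linearIndependent_pow_of_transcendental {y : F} (hy : Transcendental K y) (r : ℕ) :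
    LinearIndependent K (fun j : Fin r => (AdjoinSimple.gen K y) ^ (j : ℕ)) := by
  rw [Fintype.linearIndependent_iff]
  intro c hc j
  have h1 : aeval y (∑ j : Fin r, C (c j) * X ^ (j : ℕ)) = 0 := by
    have := congrArg (algebraMap K⟮y⟯ F) hc
    rw [map_zero, map_sum] at this
    rw [map_sum, ← this]
    apply Finset.sum_congr rfl
    intro i _
    rw [map_mul, map_pow, aeval_X, aeval_C, Algebra.smul_def, map_mul, map_pow]
    rfl
  have h2 : (∑ j : Fin r, C (c j) * X ^ (j : ℕ) : K[X]) = 0 := by
    by_contra hne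
    exact hy ⟨_, hne, h1⟩
  have h3 := congrArg (fun p => Polynomial.coeff p (j : ℕ)) h2
  simp only [Polynomial.finsetSum_coeff, Polynomial.coeff_C_mul, Polynomial.coeff_X_pow,
    Polynomial.coeff_zero] at h3
  rw [Finset.sum_eq_single j] at h3
  · simpa using h3
  · intro i _ hij
    rw [if_neg, mul_zero]
    intro h
    exact hij (Fin.ext h.symm)
  · intro h
    exact absurd (Finset.mem_univ j) h

theorem exists_lower_bound {y : F} (hy : Transcendental K y) :
    ∃ C : Divisor K F, 0 ≤ C ∧ ∀ r : ℕ,
      Module.finrank K⟮y⟯ F * (r + 1) ≤ ell (r • (poleDiv y : Divisor K F) + C) := by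
  have hy0 := transcendental_ne_zero hy
  have := IsFF.finiteDimensional hy
  set n := Module.finrank K⟮y⟯ F with hn
  let u := Module.finBasis K⟮y⟯ F
  refine ⟨∑ i, poleDiv (u i), Finset.sum_nonneg fun i _ => poleDiv_nonneg _, fun r => ?_⟩
  set D : Divisor K F := r • (poleDiv y : Divisor K F) + ∑ i, poleDiv (u i) with hD
  have hmem : ∀ p : Fin (r + 1) × Fin n,
      ((AdjoinSimple.gen K y) ^ (p.1 : ℕ) • u p.2 : F) ∈ riemannRochSpace D := by
    intro p v
    have h1 : ((AdjoinSimple.gen K y) ^ (p.1 : ℕ) • u p.2 : F) = y ^ (p.1 : ℕ) * u p.2 := by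
      rw [Algebra.smul_def, map_pow]
      rfl
    show v.adicValuation ((AdjoinSimple.gen K y) ^ (p.1 : ℕ) • u p.2 : F) ≤ exp (D v)
    rw [h1, map_mul, map_pow]
    have h2 : v.adicValuation y ^ (p.1 : ℕ) ≤ exp (r * (poleDiv y : Divisor K F) v) := by
      calc v.adicValuation y ^ (p.1 : ℕ) ≤ exp ((poleDiv y : Divisor K F) v) ^ (p.1 : ℕ) :=
            pow_le_pow_left₀ zero_le (adicValuation_le_exp_poleDiv hy0 v) _
        _ = exp ((p.1 : ℕ) * (poleDiv y : Divisor K F) v) := by
            rw [← exp_nsmul, nsmul_eq_mul]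
        _ ≤ _ := by
            rw [exp_le_exp]
            apply mul_le_mul_of_nonneg_right _ (poleDiv_nonneg y v)
            have := p.1.2
            exact_mod_cast (by omega : (p.1 : ℕ) ≤ r)
    have h3 : v.adicValuation (u p.2) ≤ exp ((∑ i, poleDiv (u i) : Divisor K F) v) := by
      refine (adicValuation_le_exp_poleDiv (u.ne_zero p.2) v).trans ?_
      rw [exp_le_exp]
      have h4 : (poleDiv (u p.2) : Divisor K F) ≤ ∑ i, poleDiv (u i) :=
        Finset.single_le_sum (f := fun i => (poleDiv (u i) : Divisor K F))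
          (fun i _ => poleDiv_nonneg _) (Finset.mem_univ p.2)
      exact h4 v
    calc v.adicValuation y ^ (p.1 : ℕ) * v.adicValuation (u p.2)
        ≤ exp (r * (poleDiv y : Divisor K F) v) * exp ((∑ i, poleDiv (u i) : Divisor K F) v) :=
          mul_le_mul' h2 h3
      _ = exp (D v) := by
          rw [← exp_add, hD, Finsupp.add_apply, Finsupp.smul_apply, nsmul_eq_mul]
  have hli : LinearIndependent K (fun p : Fin (r + 1) × Fin n =>
      ((AdjoinSimple.gen K y) ^ (p.1 : ℕ) • u p.2 : F)) :=
    linearIndependent_smul (linearIndependent_pow_of_transcendental hy (r + 1)) u.linearIndependent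
  have hli' : LinearIndependent K (fun p : Fin (r + 1) × Fin n =>
      (⟨_, hmem p⟩ : riemannRochSpace D)) := by
    apply LinearIndependent.of_comp (riemannRochSpace D).subtype
    exact hli
  have := hli'.fintype_card_le_finrank
  rw [Fintype.card_prod, Fintype.card_fin, Fintype.card_fin] at this
  rw [mul_comm]
  exact this

theorem degree_poleDiv {y : F} (hy : Transcendental K y) :
    Divisor.degree (poleDiv y : Divisor K F) = Module.finrank K⟮y⟯ F := by
  apply le_antisymm (degree_poleDiv_le hy)
  obtain ⟨C, hC, hlow⟩ := exists_lower_bound hy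
  set n := Module.finrank K⟮y⟯ F
  by_contra hcon
  push Not at hcon
  set B : Divisor K F := poleDiv y with hB
  have hB0 : 0 ≤ Divisor.degree B := by
    rw [degree_eq_sum]
    exact Finset.sum_nonneg fun v _ => poleDiv_nonneg y v
  -- take r large
  have hC0 : 0 ≤ Divisor.degree C := by
    rw [degree_eq_sum]
    exact Finset.sum_nonneg fun v _ => hC v
  set r := (Divisor.degree C).toNat + 1 with hr
  have h1 := hlow r
  have h2 := (finite_and_ell_le_of_nonneg (D := r • B + C)
    (add_nonneg (nsmul_nonneg (poleDiv_nonneg y) r) hC)).2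
  rw [map_add, map_nsmul, nsmul_eq_mul] at h2
  have h3 : ((n * (r + 1) : ℕ) : ℤ) ≤ ell (r • B + C) := by exact_mod_cast h1
  push_cast at h3
  have h4 : ((Divisor.degree C).toNat : ℤ) = Divisor.degree C := Int.toNat_of_nonneg hC0
  have hr' : (r : ℤ) = Divisor.degree C + 1 := by rw [hr]; push_cast; rw [h4]
  have hcon' : Divisor.degree B + 1 ≤ (n : ℤ) := by omega
  nlinarith

theorem divOf_inv {f : F} (hf : f ≠ 0) : (divOf f⁻¹ : Divisor K F) = - divOf f := by
  ext v
  rw [divOf_apply (inv_ne_zero hf), v.ord_inv, Finsupp.neg_apply, divOf_apply hf]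

theorem divOf_mul {f g : F} (hf : f ≠ 0) (hg : g ≠ 0) :
    (divOf (f * g) : Divisor K F) = divOf f + divOf g := by
  ext v
  rw [divOf_apply (mul_ne_zero hf hg), Finsupp.add_apply, divOf_apply hf, divOf_apply hg,
    v.ord_mul hf hg]

theorem degree_divOf {f : F} (hf : f ≠ 0) : Divisor.degree (divOf f : Divisor K F) = 0 := by
  by_cases hft : IsAlgebraic K f
  · obtain ⟨c, rfl⟩ := exists_const_of_isAlgebraic hft
    have hc : c ≠ 0 := by rintro rfl; simp at hf
    have : (divOf (algebraMap K F c) : Divisor K F) = 0 := by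
      ext v
      have h := adicValuation_algebraMap v hc
      rw [v.adicValuation_eq_exp_neg_ord hf, ← exp_zero, exp_inj] at h
      rw [divOf_apply hf, Finsupp.zero_apply]
      omega
    rw [this, map_zero]
  · have hft' : Transcendental K f := hft
    have hinv : K⟮f⁻¹⟯ = K⟮f⟯ := by
      apply le_antisymm
      · rw [adjoin_simple_le_iff]
        exact inv_mem (mem_adjoin_simple_self K f)
      · rw [adjoin_simple_le_iff]
        have := inv_mem (mem_adjoin_simple_self K f⁻¹)
        rwa [inv_inv] at this
    have h1 := degree_poleDiv hft'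
    have h2 := degree_poleDiv (transcendental_inv hft')
    rw [hinv] at h2
    have h3 : (divOf f : Divisor K F) = poleDiv f⁻¹ - poleDiv f := by
      rw [poleDiv, poleDiv, divOf_inv hf, negPart_neg, posPart_sub_negPart]
    rw [h3, map_sub, h1, h2, sub_self]

instance hasPrincipalDivisors : HasPrincipalDivisors K F where
  exists_divisor f hf := ⟨divOf f, fun v => divOf_apply hf v, degree_divOf hf⟩

end Fermat.Agent.H3RR
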