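/-
H3RR: Riemann's inequality, finiteness of `H1`, and  `ℓ(D) - h¹(D) = deg D + 1 - g`.
-/
import Mathlib
import Fermat.Agent.H3RR_Riemann

set_option autoImplicit false

open AlgebraicCurve WithZero IsLocalRing Polynomial IntermediateField

namespace Fermat.Agent.H3RR

variable {K F : Type*} [Field K] [Field F] [Algebra K F]

theorem le_induction_down {P : Divisor K F → Prop} {D D' : Divisor K F} (h : D ≤ D')
    (h0 : P D') (hstep : ∀ E v, D ≤ E → P (plus E v) → P E) : P D :=
  le_induction (P := fun E => P E → P D) h (fun h => h)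
    (fun E v hE ih hP => ih (hstep E v hE hP)) h0

/-- every repartition is bounded by a divisor -/
theorem exists_mem_repartitionsOf [IsAlgClosed K] [IsFF K F] (α : ↥(repartitions K F)) :
    ∃ D : Divisor K F, 0 ≤ D ∧ α ∈ repartitionsOf D := by
  classical
  obtain ⟨α, hα⟩ := α
  suffices h : ∃ D : Divisor K F, 0 ≤ D ∧ ∀ v, v.adicValuation (α v) ≤ exp (D v) by
    obtain ⟨D, h0, h1⟩ := h
    exact ⟨D, h0, h1⟩
  induction hα using Algebra.adjoin_induction with
  | mem β hβ =>
    have hfin : {v : Place K F | ¬ v.adicValuation (β v) ≤ 1}.Finite := hβ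
    refine ⟨∑ v ∈ hfin.toFinset, Finsupp.single v (- v.ord (β v)), ?_, fun v => ?_⟩
    · apply Finset.sum_nonneg
      intro v hv
      rw [Finsupp.single_nonneg]
      have := (v.not_adicValuation_le_one_iff).mp (hfin.mem_toFinset.mp hv)
      omega
    · rw [Finsupp.finset_sum_apply]
      by_cases hv : v.adicValuation (β v) ≤ 1
      · refine hv.trans ?_
        refine exp_zero.symm.le.trans (exp_le_exp.mpr ?_)
        apply Finset.sum_nonneg
        intro w hw
        rw [Finsupp.single_apply]
        split_ifs with h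
        · have := (w.not_adicValuation_le_one_iff).mp (hfin.mem_toFinset.mp hw)
          omega
        · exact le_rfl
      · have hβ0 : β v ≠ 0 := by
          intro h0
          rw [h0] at hv
          simp at hv
        rw [Finset.sum_eq_single v]
        · rw [Finsupp.single_eq_same, v.adicValuation_eq_exp_neg_ord hβ0]
        · intro w _ hw
          rw [Finsupp.single_eq_of_ne (Ne.symm hw)]
        · intro h
          exact absurd (hfin.mem_toFinset.mpr hv) h
  | algebraMap f =>
    refine ⟨poleDiv f, poleDiv_nonneg f, fun v => ?_⟩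
    show v.adicValuation f ≤ _
    by_cases hf : f = 0
    · rw [hf, map_zero]; exact zero_le
    · exact adicValuation_le_exp_poleDiv hf v
  | add x y _ _ ihx ihy =>
    obtain ⟨D, hD0, hD⟩ := ihx
    obtain ⟨D', hD0', hD'⟩ := ihy
    refine ⟨D ⊔ D', le_sup_of_le_left hD0, fun v => ?_⟩
    refine (Valuation.map_add _ _ _).trans (max_le ((hD v).trans ?_) ((hD' v).trans ?_))
    · rw [exp_le_exp]; exact le_sup_left (a := D) (b := D') v
    · rw [exp_le_exp]; exact le_sup_right (a := D) (b := D') v
  | mul x y _ _ ihx ihy =>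
    obtain ⟨D, hD0, hD⟩ := ihx
    obtain ⟨D', hD0', hD'⟩ := ihy
    refine ⟨D + D', add_nonneg hD0 hD0', fun v => ?_⟩
    show v.adicValuation (x v * y v) ≤ _
    rw [map_mul, Finsupp.add_apply, exp_add]
    exact mul_le_mul' (hD v) (hD' v)

variable [IsAlgClosed K] [IsFF K F]

/-- multiplication by `f`: `L(D + div f) ≃ L(D)` -/
noncomputable def mulEquivL {f : F} (hf : f ≠ 0) (D : Divisor K F) :
    riemannRochSpace (D + divOf f) ≃ₗ[K] riemannRochSpace D where
  toFun g := ⟨f * g.1, fun v => by
    show v.adicValuation (f * g.1) ≤ exp (D v)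
    have h1 : v.adicValuation g.1 ≤ exp ((D + divOf f : Divisor K F) v) := g.2 v
    rw [Finsupp.add_apply, divOf_apply hf, exp_add] at h1
    rw [map_mul, v.adicValuation_eq_exp_neg_ord hf]
    calc exp (-v.ord f) * v.adicValuation g.1 ≤ exp (-v.ord f) * (exp (D v) * exp (v.ord f)) :=
          mul_le_mul_right h1 _
      _ = exp (D v) := by
          rw [← exp_add, ← exp_add]; congr 1; ring⟩
  map_add' a b := by ext; simp [mul_add]
  map_smul' c a := by ext; simp
  invFun g := ⟨f⁻¹ * g.1, fun v => by
    show v.adicValuation (f⁻¹ * g.1) ≤ exp ((D + divOf f : Divisor K F) v)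
    have h1 : v.adicValuation g.1 ≤ exp (D v) := g.2 v
    rw [map_mul, v.adicValuation_eq_exp_neg_ord (inv_ne_zero hf), v.ord_inv, neg_neg,
      Finsupp.add_apply, divOf_apply hf, add_comm, exp_add]
    exact mul_le_mul_right h1 _⟩
  left_inv g := by ext; simp [hf]
  right_inv g := by ext; simp [hf]

theorem ell_add_divOf {f : F} (hf : f ≠ 0) (D : Divisor K F) : ell (D + divOf f) = ell D :=
  (mulEquivL hf D).finrank_eq

theorem exists_mem_L_of_ell_pos {D : Divisor K F} (h : 0 < ell D) :
    ∃ f : F, f ≠ 0 ∧ f ∈ riemannRochSpace D := by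
  have : Nontrivial (riemannRochSpace D) := Module.nontrivial_of_finrank_pos h
  obtain ⟨x, hx⟩ := exists_ne (0 : riemannRochSpace D)
  exact ⟨x.1, fun h => hx (Subtype.ext h), x.2⟩

theorem le_add_divOf_of_mem {D E : Divisor K F} {f : F} (hf : f ≠ 0)
    (h : f ∈ riemannRochSpace (E - D)) : D ≤ E + divOf f := by
  intro v
  have h1 := (mem_riemannRochSpace_iff.mp h v).resolve_left hf
  rw [Finsupp.sub_apply] at h1
  rw [Finsupp.add_apply, divOf_apply hf]
  omega

theorem riemann_bound (K F : Type*) [Field K] [Field F] [Algebra K F] [IsAlgClosed K] [IsFF K F] :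
    ∃ γ : ℤ, ∀ D : Divisor K F, Divisor.degree D - ell D ≤ γ := by
  obtain ⟨y, hy, hfd⟩ := IsFF.exists_gen (K := K) (F := F)
  obtain ⟨C, hC, hlow⟩ := exists_lower_bound hy
  set n := Module.finrank K⟮y⟯ F with hn
  have hn1 : 1 ≤ n := Module.finrank_pos
  set B : Divisor K F := poleDiv y with hB
  have hdB : Divisor.degree B = n := degree_poleDiv hy
  refine ⟨Divisor.degree C - n, fun D => ?_⟩
  -- reduce to effective
  have h1 := ell_sub_le (D := D) (D' := D ⊔ 0) le_sup_left
  set D' := D ⊔ 0 with hD'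
  have hD'0 : 0 ≤ D' := le_sup_right
  have hdeg0 : 0 ≤ Divisor.degree D' := by
    rw [degree_eq_sum]
    exact Finset.sum_nonneg fun v _ => hD'0 v
  set r := (Divisor.degree D').toNat with hr
  have hr' : (r : ℤ) = Divisor.degree D' := Int.toNat_of_nonneg hdeg0
  have h2 := ell_sub_le (D := r • B + C - D') (D' := r • B + C) (sub_le_self _ hD'0)
  rw [map_sub] at h2
  have h3 : ((n * (r + 1) : ℕ) : ℤ) ≤ ell (r • B + C) := by exact_mod_cast hlow r
  push_cast at h3
  have hpos : 0 < ell (r • B + C - D') := by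
    have : (1 : ℤ) ≤ n := by exact_mod_cast hn1
    have : (0 : ℤ) < ell (r • B + C - D') := by nlinarith
    exact_mod_cast this
  obtain ⟨f, hf, hfL⟩ := exists_mem_L_of_ell_pos hpos
  have h4 := ell_sub_le (le_add_divOf_of_mem hf hfL)
  rw [ell_add_divOf hf, map_add, degree_divOf hf, add_zero, map_add, map_nsmul, hdB,
    nsmul_eq_mul] at h4
  nlinarith

theorem h1Map_comp {D D' D'' : Divisor K F} (h : D ≤ D') (h' : D' ≤ D'') (x : H1 D) :
    h1Map h' (h1Map h x) = h1Map (h.trans h') x := by
  obtain ⟨y, rfl⟩ := Submodule.Quotient.mk_surjective _ x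
  rfl

theorem exists_H1_subsingleton (K F : Type*) [Field K] [Field F] [Algebra K F] [IsAlgClosed K]
    [IsFF K F] : ∃ D₀ : Divisor K F, Subsingleton (H1 D₀) := by
  obtain ⟨γ, hγ⟩ := riemann_bound K F
  obtain ⟨m, ⟨D₀, hD₀⟩, hm⟩ := Int.exists_greatest_of_bdd
    (P := fun m => ∃ D : Divisor K F, m = Divisor.degree D - ell D)
    ⟨γ, fun z ⟨D, hD⟩ => hD ▸ hγ D⟩ ⟨_, 0, rfl⟩
  have hconst : ∀ D, D₀ ≤ D → Divisor.degree D - ell D = m := by
    intro D hD
    apply le_antisymm (hm _ ⟨D, rfl⟩)
    have := ell_sub_le hD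
    omega
  have hinj : ∀ D, ∀ h : D₀ ≤ D, Function.Injective (h1Map h) := by
    intro D h
    refine le_induction (P := fun D => ∀ h : D₀ ≤ D, Function.Injective (h1Map h)) h ?_ ?_ h
    · intro h x y hxy
      obtain ⟨x, rfl⟩ := Submodule.Quotient.mk_surjective _ x
      obtain ⟨y, rfl⟩ := Submodule.Quotient.mk_surjective _ y
      exact hxy
    · intro E v hE ih h'
      have h1 := hconst E hE
      have h2 := hconst (plus E v) (hE.trans (le_add_single E v))
      rw [degree_plus'] at h2
      have h3 := ell_plus E v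
      have h4 : Module.finrank K (LinearMap.range (lmap E v)) = Module.finrank K v.ResidueField := by
        have h5 : Module.finrank K v.ResidueField = 1 := deg_eq_one v
        rw [h5]
        omega
      have h6 : LinearMap.range (lmap E v) = ⊤ := Submodule.eq_top_of_finrank_eq h4
      have h7 : Function.Injective (h1Map (le_add_single E v)) := by
        rw [injective_iff_map_eq_zero]
        intro x hx
        rw [h1Map_eq_zero_iff] at hx
        obtain ⟨c, rfl⟩ := hx
        rw [delta_eq_zero_iff, h6]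
        trivial
      intro x y hxy
      apply ih hE
      apply h7
      rw [h1Map_comp, h1Map_comp]
      exact hxy
  refine ⟨D₀, ⟨fun x y => ?_⟩⟩
  suffices h : ∀ x : H1 D₀, x = 0 by rw [h x, h y]
  intro x
  obtain ⟨α, rfl⟩ := Submodule.Quotient.mk_surjective _ x
  obtain ⟨D, -, hD⟩ := exists_mem_repartitionsOf α
  have h0 : D₀ ≤ D₀ ⊔ D := le_sup_left
  apply hinj _ h0
  rw [map_zero]
  show (Submodule.Quotient.mk α : H1 (D₀ ⊔ D)) = 0
  rw [Submodule.Quotient.mk_eq_zero]
  exact Submodule.mem_sup_left (repartitionsOf_mono le_sup_right hD)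

instance finite_H1 (D : Divisor K F) : Module.Finite K (H1 D) := by
  obtain ⟨D₀, hD₀⟩ := exists_H1_subsingleton K F
  have h1 : Subsingleton (H1 (D ⊔ D₀)) :=
    (h1Map_surjective (le_sup_right : D₀ ≤ D ⊔ D₀)).subsingleton
  have h2 : Module.Finite K (H1 (D ⊔ D₀)) := inferInstance
  exact le_induction_down (P := fun D => Module.Finite K (H1 D)) (le_sup_left : D ≤ D ⊔ D₀) h2
    (fun E v _ _ => finite_H1_of_plus E v)

theorem euler_plus (D : Divisor K F) (v : Place K F) :
    (ell (plus D v) : ℤ) - h1 (plus D v) - Divisor.degree (plus D v)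
      = ell D - h1 D - Divisor.degree D := by
  have h := step_formula D v
  rw [deg_eq_one] at h
  rw [degree_plus']
  omega

theorem euler_of_le {D D' : Divisor K F} (h : D ≤ D') :
    (ell D' : ℤ) - h1 D' - Divisor.degree D' = ell D - h1 D - Divisor.degree D :=
  le_induction (P := fun D' => (ell D' : ℤ) - h1 D' - Divisor.degree D'
    = ell D - h1 D - Divisor.degree D) h rfl (fun E v _ hE => by rw [euler_plus, hE])

/-- Riemann's form of the Riemann-Roch theorem. -/
theorem riemann_roch_weak (D : Divisor K F) :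
    (ell D : ℤ) - h1 D = Divisor.degree D + 1 - genusFF K F := by
  have h1' := euler_of_le (le_sup_left : D ≤ D ⊔ 0)
  have h2' := euler_of_le (le_sup_right : (0 : Divisor K F) ≤ D ⊔ 0)
  have h3 := (finite_and_ell_zero (K := K) (F := F)).2
  have h4 : h1 (0 : Divisor K F) = genusFF K F := rfl
  rw [h3, h4, map_zero] at h2'
  push_cast at h2'
  omega

theorem h1_anti {D D' : Divisor K F} (h : D ≤ D') : h1 D' ≤ h1 D :=
  LinearMap.finrank_le_finrank_of_surjective (h1Map_surjective h)

theorem riemann_inequality (D : Divisor K F) :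
    Divisor.degree D + 1 - genusFF K F ≤ (ell D : ℤ) := by
  have := riemann_roch_weak D
  omega

end Fermat.Agent.H3RR
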