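/-
H3RR: Weil differentials, duality, the Riemann-Roch theorem.
-/
import Mathlib
import Fermat.Agent.H3RR_Genus

set_option autoImplicit false

open AlgebraicCurve WithZero IsLocalRing

namespace Fermat.Agent.H3RR

variable {K F : Type*} [Field K] [Field F] [Algebra K F] [IsAlgClosed K] [IsFF K F]

theorem h1_add_divOf {f : F} (hf : f ≠ 0) (D : Divisor K F) : h1 (D + divOf f) = h1 D := by
  have e1 := riemann_roch_weak (D + divOf f)
  have e2 := riemann_roch_weak D
  rw [ell_add_divOf hf, map_add, degree_divOf hf, add_zero] at e1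
  omega

theorem exists_h1_eq_zero (K F : Type*) [Field K] [Field F] [Algebra K F] [IsAlgClosed K]
    [IsFF K F] : ∃ c : ℤ, ∀ D : Divisor K F, c ≤ Divisor.degree D → h1 D = 0 := by
  obtain ⟨D₀, hD₀⟩ := exists_H1_subsingleton K F
  have h0 : h1 D₀ = 0 := Module.finrank_zero_of_subsingleton
  refine ⟨Divisor.degree D₀ + genusFF K F, fun D hD => ?_⟩
  have e1 := riemann_inequality (D - D₀)
  rw [map_sub] at e1
  have hpos : 0 < ell (D - D₀) := by omega
  obtain ⟨f, hf, hfL⟩ := exists_mem_L_of_ell_pos hpos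
  have h2 := h1_anti (le_add_divOf_of_mem hf hfL)
  rw [h1_add_divOf hf, h0] at h2
  omega

/-- Weil differentials vanishing on `A(D) + F`. -/
noncomputable def Om (D : Divisor K F) : Submodule K (Module.Dual K ↥(repartitions K F)) :=
  (repartitionsOf D ⊔ principalRepartitions K F).dualAnnihilator

theorem mem_Om {D : Divisor K F} {ω : Module.Dual K ↥(repartitions K F)} :
    ω ∈ Om D ↔ (∀ α ∈ repartitionsOf D, ω α = 0) ∧ ∀ α ∈ principalRepartitions K F, ω α = 0 := by
  rw [Om, Submodule.mem_dualAnnihilator]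
  constructor
  · intro h
    exact ⟨fun α hα => h α (Submodule.mem_sup_left hα), fun α hα => h α (Submodule.mem_sup_right hα)⟩
  · rintro ⟨h1, h2⟩ α hα
    obtain ⟨β, hβ, γ, hγ, rfl⟩ := Submodule.mem_sup.mp hα
    rw [map_add, h1 β hβ, h2 γ hγ, add_zero]

theorem Om_anti {D D' : Divisor K F} (h : D ≤ D') : Om D' ≤ Om D := by
  intro ω hω
  rw [mem_Om] at hω ⊢
  exact ⟨fun α hα => hω.1 α (repartitionsOf_mono h hα), hω.2⟩

noncomputable def omEquiv (D : Divisor K F) : Module.Dual K (H1 D) ≃ₗ[K] Om D :=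
  (repartitionsOf D ⊔ principalRepartitions K F).dualQuotEquivDualAnnihilator

theorem finrank_Om (D : Divisor K F) : Module.finrank K (Om D) = h1 D := by
  rw [← (omEquiv D).finrank_eq, Subspace.dual_finrank_eq]
  rfl

instance finite_Om (D : Divisor K F) : Module.Finite K (Om D) := Module.Finite.equiv (omEquiv D)

/-- multiplication by `f` on repartitions -/
noncomputable def mulRep (f : F) : ↥(repartitions K F) →ₗ[K] ↥(repartitions K F) where
  toFun α := algebraMap F ↥(repartitions K F) f * α
  map_add' α β := mul_add _ _ _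
  map_smul' c α := by
    ext w
    show f * (c • (α : Place K F → F) w) = c • (f * (α : Place K F → F) w)
    rw [mul_smul_comm]

theorem mulRep_apply (f : F) (α : ↥(repartitions K F)) (v : Place K F) :
    (mulRep f α : Place K F → F) v = f * (α : Place K F → F) v := rfl

theorem mulRep_mulRep (f g : F) (α : ↥(repartitions K F)) :
    mulRep f (mulRep g α) = mulRep (f * g) α := by
  ext w
  show f * (g * (α : Place K F → F) w) = f * g * (α : Place K F → F) w
  rw [mul_assoc]

theorem mulRep_one (α : ↥(repartitions K F)) : mulRep 1 α = α := by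
  ext w
  show 1 * (α : Place K F → F) w = _
  rw [one_mul]

/-- the action of `F` on functionals -/
noncomputable def fmul (f : F) (ω : Module.Dual K ↥(repartitions K F)) :
    Module.Dual K ↥(repartitions K F) := ω.comp (mulRep f)

theorem fmul_apply (f : F) (ω : Module.Dual K ↥(repartitions K F)) (α : ↥(repartitions K F)) :
    fmul f ω α = ω (mulRep f α) := rfl

theorem fmul_add (f g : F) (ω : Module.Dual K ↥(repartitions K F)) :
    fmul (f + g) ω = fmul f ω + fmul g ω := by
  ext α
  rw [LinearMap.add_apply, fmul_apply, fmul_apply, fmul_apply, ← map_add]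
  congr 1
  ext w
  show (f + g) * (α : Place K F → F) w = f * (α : Place K F → F) w + g * (α : Place K F → F) w
  rw [add_mul]

theorem fmul_smul (c : K) (f : F) (ω : Module.Dual K ↥(repartitions K F)) :
    fmul (c • f) ω = c • fmul f ω := by
  ext α
  rw [LinearMap.smul_apply, fmul_apply, fmul_apply, ← map_smul]
  congr 1
  ext w
  show (c • f) * (α : Place K F → F) w = c • (f * (α : Place K F → F) w)
  rw [smul_mul_assoc]

theorem fmul_fmul (f g : F) (ω : Module.Dual K ↥(repartitions K F)) :
    fmul f (fmul g ω) = fmul (g * f) ω := by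
  ext α
  rw [fmul_apply, fmul_apply, fmul_apply, mulRep_mulRep]

theorem fmul_one (ω : Module.Dual K ↥(repartitions K F)) : fmul 1 ω = ω := by
  ext α
  rw [fmul_apply, mulRep_one]

theorem fmul_eq_zero {f : F} (hf : f ≠ 0) {ω : Module.Dual K ↥(repartitions K F)}
    (h : fmul f ω = 0) : ω = 0 := by
  have := congrArg (fmul f⁻¹) h
  rw [fmul_fmul, mul_inv_cancel₀ hf, fmul_one] at this
  rw [this]
  ext α
  rfl

theorem fmul_mem_Om {f : F} (hf : f ≠ 0) {W : Divisor K F}
    {ω : Module.Dual K ↥(repartitions K F)} (hω : ω ∈ Om W) : fmul f ω ∈ Om (W + divOf f) := by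
  rw [mem_Om] at hω ⊢
  constructor
  · intro α hα
    rw [fmul_apply]
    apply hω.1
    intro v
    have h1 : v.adicValuation ((α : Place K F → F) v) ≤ exp ((W + divOf f : Divisor K F) v) := hα v
    rw [Finsupp.add_apply, divOf_apply hf] at h1
    show v.adicValuation (f * (α : Place K F → F) v) ≤ exp (W v)
    rw [map_mul, v.adicValuation_eq_exp_neg_ord hf]
    calc exp (-v.ord f) * v.adicValuation ((α : Place K F → F) v)
        ≤ exp (-v.ord f) * exp (W v + v.ord f) := mul_le_mul_right h1 _
      _ = exp (W v) := by rw [← exp_add]; congr 1; ring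
  · intro α hα
    rw [fmul_apply]
    apply hω.2
    obtain ⟨g, hg⟩ := mem_principalRepartitions_iff.mp hα
    rw [mem_principalRepartitions_iff]
    refine ⟨f * g, ?_⟩
    funext v
    rw [mulRep_apply, hg]

theorem fmul_mem_Om_of_mem_L {f : F} {W D : Divisor K F} (hfL : f ∈ riemannRochSpace (W - D))
    {ω : Module.Dual K ↥(repartitions K F)} (hω : ω ∈ Om W) : fmul f ω ∈ Om D := by
  by_cases hf : f = 0
  · have : fmul f ω = 0 := by
      ext α
      rw [fmul_apply, hf]
      have h0 : mulRep (0 : F) α = 0 := by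
        ext w
        show (0 : F) * (α : Place K F → F) w = 0
        rw [zero_mul]
      rw [h0, map_zero]; rfl
    rw [this]
    exact zero_mem _
  · exact Om_anti (le_add_divOf_of_mem hf hfL) (fmul_mem_Om hf hω)

/-- `L(W - D) → Om(D)`, `f ↦ f ω`. -/
noncomputable def toOm (W D : Divisor K F) (ω : Module.Dual K ↥(repartitions K F)) (hω : ω ∈ Om W) :
    riemannRochSpace (W - D) →ₗ[K] Om D where
  toFun f := ⟨fmul f.1 ω, fmul_mem_Om_of_mem_L f.2 hω⟩
  map_add' f g := Subtype.ext (fmul_add f.1 g.1 ω)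
  map_smul' c f := Subtype.ext (fmul_smul c f.1 ω)

theorem toOm_injective (W D : Divisor K F) {ω : Module.Dual K ↥(repartitions K F)} (hω : ω ∈ Om W)
    (hω0 : ω ≠ 0) : Function.Injective (toOm W D ω hω) := by
  rw [injective_iff_map_eq_zero]
  intro f hf
  by_contra hne
  have hf0 : f.1 ≠ 0 := fun h => hne (Subtype.ext h)
  exact hω0 (fmul_eq_zero hf0 (congrArg Subtype.val hf))

theorem ell_eq_zero_of_degree_neg {D : Divisor K F} (h : Divisor.degree D < 0) : ell D = 0 := by
  by_contra hne
  obtain ⟨f, hf, hfL⟩ := exists_mem_L_of_ell_pos (Nat.pos_of_ne_zero hne)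
  have h1 : 0 ≤ D + divOf f := by
    have := le_add_divOf_of_mem (D := 0) (E := D) hf (by rwa [sub_zero])
    exact this
  have h2 : 0 ≤ Divisor.degree (D + divOf f) := by
    rw [degree_eq_sum]
    exact Finset.sum_nonneg fun v _ => h1 v
  rw [map_add, degree_divOf hf, add_zero] at h2
  omega

/-- the space of Weil differentials is one-dimensional over `F` -/
theorem exists_fmul_eq {W₁ W₂ : Divisor K F} {ω₁ ω₂ : Module.Dual K ↥(repartitions K F)}
    (h₁ : ω₁ ∈ Om W₁) (h₂ : ω₂ ∈ Om W₂) (h₁0 : ω₁ ≠ 0) (h₂0 : ω₂ ≠ 0) :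
    ∃ f : F, f ≠ 0 ∧ ω₂ = fmul f ω₁ := by
  obtain ⟨P⟩ := exists_place K F
  -- a large negative divisor
  obtain ⟨n, hn⟩ : ∃ n : ℕ, (genusFF K F : ℤ) + genusFF K F + genusFF K F - Divisor.degree W₁
      - Divisor.degree W₂ < n ∧ 0 < n := by
    refine ⟨((genusFF K F : ℤ) + genusFF K F + genusFF K F - Divisor.degree W₁
      - Divisor.degree W₂).toNat + 1, ?_, Nat.succ_pos _⟩
    have := Int.self_le_toNat ((genusFF K F : ℤ) + genusFF K F + genusFF K F - Divisor.degree W₁
      - Divisor.degree W₂)
    push_cast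
    omega
  set D : Divisor K F := Finsupp.single P (-(n : ℤ)) with hD
  have hdeg : Divisor.degree D = -n := by
    rw [hD, Divisor.degree_single, deg_eq_one]; simp
  have e1 := riemann_inequality (W₁ - D)
  have e2 := riemann_inequality (W₂ - D)
  have e3 := riemann_roch_weak D
  rw [map_sub, hdeg] at e1 e2
  rw [hdeg, ell_eq_zero_of_degree_neg (by rw [hdeg]; omega)] at e3
  have hlt : h1 D < ell (W₁ - D) + ell (W₂ - D) := by
    zify
    push_cast at e3
    omega
  set φ : (riemannRochSpace (W₁ - D) × riemannRochSpace (W₂ - D)) →ₗ[K] Om D :=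
    (toOm W₁ D ω₁ h₁).coprod (toOm W₂ D ω₂ h₂) with hφ
  have hninj : ¬ Function.Injective φ := by
    intro hinj
    have := LinearMap.finrank_le_finrank_of_injective hinj
    rw [Module.finrank_prod, finrank_Om] at this
    rw [ell, ell] at hlt
    omega
  rw [injective_iff_map_eq_zero] at hninj
  push Not at hninj
  obtain ⟨⟨x, y⟩, hxy, hne⟩ := hninj
  have hxy' : toOm W₁ D ω₁ h₁ x + toOm W₂ D ω₂ h₂ y = 0 := hxy
  have hx : x ≠ 0 := by
    rintro rfl
    rw [map_zero, zero_add] at hxy'
    have := (injective_iff_map_eq_zero _).mp (toOm_injective W₂ D h₂ h₂0) y hxy'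
    exact hne (by rw [this]; rfl)
  have hy : y ≠ 0 := by
    rintro rfl
    rw [map_zero, add_zero] at hxy'
    have := (injective_iff_map_eq_zero _).mp (toOm_injective W₁ D h₁ h₁0) x hxy'
    exact hne (by rw [this]; rfl)
  have hx0 : x.1 ≠ 0 := fun h => hx (Subtype.ext h)
  have hy0 : y.1 ≠ 0 := fun h => hy (Subtype.ext h)
  have hval : fmul x.1 ω₁ + fmul y.1 ω₂ = 0 := congrArg Subtype.val hxy'
  refine ⟨-(x.1 * y.1⁻¹), neg_ne_zero.mpr (mul_ne_zero hx0 (inv_ne_zero hy0)), ?_⟩
  have h3 : fmul y.1 ω₂ = - fmul x.1 ω₁ := eq_neg_of_add_eq_zero_right hval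
  have h4 := congrArg (fmul y.1⁻¹) h3
  rw [fmul_fmul, mul_inv_cancel₀ hy0, fmul_one] at h4
  rw [h4]
  ext α
  rw [fmul_apply, fmul_apply, LinearMap.neg_apply, fmul_apply, ← map_neg]
  congr 1
  ext w
  show -(x.1 * (y.1⁻¹ * (α : Place K F → F) w)) = -(x.1 * y.1⁻¹) * (α : Place K F → F) w
  ring

open Classical in
/-- the maximal divisor of a Weil differential -/
theorem exists_divisor {ω : Module.Dual K ↥(repartitions K F)} (hω : ω ≠ 0)
    (hex : ∃ D, ω ∈ Om D) : ∃ W : Divisor K F, ω ∈ Om W ∧ ∀ D, ω ∈ Om D → D ≤ W := by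
  obtain ⟨c, hc⟩ := exists_h1_eq_zero K F
  have hbd : ∀ D, ω ∈ Om D → Divisor.degree D < c := by
    intro D hD
    by_contra hcon
    push Not at hcon
    have h0 := hc D hcon
    have h1 : Module.finrank K (Om D) = 0 := by rw [finrank_Om, h0]
    have h2 : Subsingleton (Om D) := Module.finrank_zero_iff.mp h1
    exact hω (congrArg Subtype.val (Subsingleton.elim (⟨ω, hD⟩ : Om D) 0))
  obtain ⟨m, ⟨W, hWm, hW⟩, hm⟩ := Int.exists_greatest_of_bdd
    (P := fun m => ∃ D : Divisor K F, m = Divisor.degree D ∧ ω ∈ Om D)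
    ⟨c, fun z ⟨D, hD, hD'⟩ => hD ▸ (hbd D hD').le⟩ (by obtain ⟨D, hD⟩ := hex; exact ⟨_, D, rfl, hD⟩)
  refine ⟨W, hW, fun D hD => ?_⟩
  by_contra hcon
  have hcon' : ∃ v, W v < D v := by
    by_contra h
    push Not at h
    exact hcon h
  obtain ⟨v, hv⟩ := hcon'
  have hmem : ω ∈ Om (plus W v) := by
    rw [mem_Om] at hW hD ⊢
    refine ⟨fun α hα => ?_, hW.2⟩
    -- split α
    have hb1 : ∀ w, w.adicValuation ((fun w => if w = v then (0 : F) else (α : Place K F → F) w) w)
        ≤ exp (W w) := by
      intro w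
      by_cases hw : w = v
      · simp [hw]
      · simp only [if_neg hw]
        have := hα w
        rwa [single_apply_of_ne' W v hw] at this
    have hb2 : ∀ w, w.adicValuation ((fun w => if w = v then (α : Place K F → F) w else (0 : F)) w)
        ≤ exp (D w) := by
      intro w
      by_cases hw : w = v
      · subst hw
        simp only [if_true]
        have := hα w
        rw [single_apply_self'] at this
        exact this.trans (exp_le_exp.mpr (by omega))
      · simp [hw]
    have hsplit : α = (⟨_, mem_repartitions_of_forall_le_exp W _ hb1⟩ : ↥(repartitions K F)) +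
        ⟨_, mem_repartitions_of_forall_le_exp D _ hb2⟩ := by
      ext w
      show (α : Place K F → F) w = (if w = v then (0 : F) else (α : Place K F → F) w) +
        (if w = v then (α : Place K F → F) w else (0 : F))
      by_cases hw : w = v
      · simp [hw]
      · simp [hw]
    have e1 : ω ⟨_, mem_repartitions_of_forall_le_exp W _ hb1⟩ = 0 :=
      hW.1 ⟨_, mem_repartitions_of_forall_le_exp W _ hb1⟩ hb1
    have e2 : ω ⟨_, mem_repartitions_of_forall_le_exp D _ hb2⟩ = 0 :=
      hD.1 ⟨_, mem_repartitions_of_forall_le_exp D _ hb2⟩ hb2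
    rw [hsplit, map_add, e1, e2, add_zero]
  have := hm _ ⟨plus W v, rfl, hmem⟩
  rw [degree_plus'] at this
  omega

/-- **Riemann-Roch**, duality: there is a canonical divisor. -/
theorem exists_canonical (K F : Type*) [Field K] [Field F] [Algebra K F] [IsAlgClosed K]
    [IsFF K F] : ∃ W : Divisor K F, ∀ D : Divisor K F, h1 D = ell (W - D) := by
  obtain ⟨P⟩ := exists_place K F
  -- a nonzero Weil differential
  obtain ⟨D₁, ω, hω0, hωD⟩ : ∃ D : Divisor K F, ∃ ω : Module.Dual K ↥(repartitions K F),
      ω ≠ 0 ∧ ω ∈ Om D := by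
    set D : Divisor K F := Finsupp.single P (-2) with hD
    have hdeg : Divisor.degree D = -2 := by
      rw [hD, Divisor.degree_single, deg_eq_one]; simp
    have e3 := riemann_roch_weak D
    rw [hdeg, ell_eq_zero_of_degree_neg (by rw [hdeg]; omega)] at e3
    have hpos : 0 < Module.finrank K (Om D) := by
      rw [finrank_Om]
      push_cast at e3
      omega
    have : Nontrivial (Om D) := Module.nontrivial_of_finrank_pos hpos
    obtain ⟨x, hx⟩ := exists_ne (0 : Om D)
    exact ⟨D, x.1, fun h => hx (Subtype.ext h), x.2⟩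
  obtain ⟨W, hW, hmax⟩ := exists_divisor hω0 ⟨D₁, hωD⟩
  refine ⟨W, fun D => ?_⟩
  have hbij : Function.Bijective (toOm W D ω hW) := by
    refine ⟨toOm_injective W D hW hω0, ?_⟩
    rintro ⟨η, hη⟩
    by_cases hη0 : η = 0
    · exact ⟨0, by rw [map_zero]; exact Subtype.ext hη0.symm⟩
    · obtain ⟨f, hf, rfl⟩ := exists_fmul_eq hW hη hω0 hη0
      -- D - div f ≤ W
      have h1 : ω ∈ Om (D + divOf f⁻¹) := by
        have := fmul_mem_Om (inv_ne_zero hf) hη
        rwa [fmul_fmul, mul_inv_cancel₀ hf, fmul_one] at this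
      have h2 := hmax _ h1
      refine ⟨⟨f, ?_⟩, rfl⟩
      rw [mem_riemannRochSpace_iff]
      intro v
      right
      have h3 := h2 v
      rw [Finsupp.add_apply, divOf_apply (inv_ne_zero hf), v.ord_inv] at h3
      rw [Finsupp.sub_apply]
      omega
  rw [← finrank_Om, ell]
  exact (LinearEquiv.ofBijective _ hbij).finrank_eq.symm

/-- A canonical divisor. -/
noncomputable def canon (K F : Type*) [Field K] [Field F] [Algebra K F] [IsAlgClosed K]
    [IsFF K F] : Divisor K F := (exists_canonical K F).choose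

theorem h1_eq (D : Divisor K F) : h1 D = ell (canon K F - D) := (exists_canonical K F).choose_spec D

/-- **Riemann-Roch theorem**. -/
theorem riemann_roch (D : Divisor K F) :
    (ell D : ℤ) - ell (canon K F - D) = Divisor.degree D + 1 - genusFF K F := by
  rw [← h1_eq, riemann_roch_weak]

theorem ell_canon : ell (canon K F) = genusFF K F := by
  have h := h1_eq (0 : Divisor K F)
  rw [sub_zero] at h
  rw [← h]
  rfl

theorem degree_canon : Divisor.degree (canon K F) = 2 * genusFF K F - 2 := by
  have h := riemann_roch (canon K F)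
  rw [sub_self, ell_canon, (finite_and_ell_zero (K := K) (F := F)).2] at h
  push_cast at h
  omega

theorem ell_of_degree_gt {D : Divisor K F} (h : 2 * (genusFF K F : ℤ) - 2 < Divisor.degree D) :
    (ell D : ℤ) = Divisor.degree D + 1 - genusFF K F := by
  have h1 := riemann_roch D
  have h2 : ell (canon K F - D) = 0 := ell_eq_zero_of_degree_neg (by
    rw [map_sub, degree_canon]; omega)
  rw [h2] at h1
  push_cast at h1
  omega

theorem h1_eq_zero_of_degree_gt {D : Divisor K F}
    (h : 2 * (genusFF K F : ℤ) - 2 < Divisor.degree D) : h1 D = 0 := by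
  rw [h1_eq]
  exact ell_eq_zero_of_degree_neg (by rw [map_sub, degree_canon]; omega)

end Fermat.Agent.H3RR
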