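import Fermat.Agent.H94Places

/-!
# One-variable function fields (helper94)
-/

set_option autoImplicit false

noncomputable section

open AlgebraicCurve IsDedekindDomain WithZero IntermediateField
open scoped IntermediateField.algebraAdjoinAdjoin

namespace Fermat.Agent.H94

/-- `F` is a function field in one variable over `K`. -/
class FunField (K F : Type*) [Field K] [Field F] [Algebra K F] : Prop where
  out : ∃ x : F, Transcendental K x ∧ FiniteDimensional K⟮x⟯ F

variable {K F : Type*} [Field K] [Field F] [Algebra K F]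

theorem finiteDimensional_of_swap {x y : F} (hx : Transcendental K x)
    [FiniteDimensional K⟮x⟯ F] (hy : Transcendental K y) : FiniteDimensional K⟮y⟯ F := by
  have halg : IsAlgebraic K⟮y⟯ x :=
    isAlgebraic_adjoin_iff.mpr (.adjoin_singleton hx hy
      (isAlgebraic_adjoin_iff.mp (Algebra.IsAlgebraic.isAlgebraic y)))
  let Fyx := restrictScalars K K⟮y⟯⟮x⟯
  let Fxy := restrictScalars K K⟮x⟯⟮y⟯
  let : Algebra K⟮y⟯ Fyx := K⟮y⟯⟮x⟯.algebra
  let : Module K⟮y⟯ Fyx := Algebra.toModule
  let : SMul K⟮y⟯ Fyx := Algebra.toSMul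
  let : Algebra K⟮x⟯ Fxy := K⟮x⟯⟮y⟯.algebra
  let : Module K⟮x⟯ Fxy := Algebra.toModule
  let : SMul K⟮x⟯ Fxy := Algebra.toSMul
  have : FiniteDimensional K⟮y⟯ Fyx :=
    adjoin.finiteDimensional (isAlgebraic_iff_isIntegral.mp halg)
  have : FiniteDimensional Fyx F := by
    unfold Fyx
    rw [adjoin_simple_comm]
    have : IsScalarTower K⟮x⟯ Fxy F := isScalarTower_mid' K⟮x⟯⟮y⟯
    exact .right K⟮x⟯ Fxy F
  have : IsScalarTower K⟮y⟯ Fyx F := isScalarTower_mid' K⟮y⟯⟮x⟯
  exact .trans K⟮y⟯ Fyx F

theorem FunField.finiteDimensional [h : FunField K F] {y : F} (hy : Transcendental K y) :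
    FiniteDimensional K⟮y⟯ F := by
  obtain ⟨x, hx, hfin⟩ := h.out
  exact finiteDimensional_of_swap hx hy


theorem isAlgebraic_residue [FunField K F] (v : Place K F) (r : v.ResidueField) :
    IsAlgebraic K r := by
  by_contra hr
  obtain ⟨u, rfl⟩ := IsLocalRing.residue_surjective r
  have hu : Transcendental K (u : F) := by
    intro halg
    apply hr
    obtain ⟨p, hp, hpu⟩ := halg
    refine ⟨p, hp, ?_⟩
    have h1 : Polynomial.aeval u p = 0 := by
      apply Subtype.ext
      have : ((Polynomial.aeval u p : v.toValuationSubring) : F) = Polynomial.aeval (u : F) p := by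
        have := Polynomial.aeval_algebraMap_apply F u p
        exact this.symm
      rw [this, hpu]; rfl
    have h2 := Polynomial.aeval_algebraMap_apply v.ResidueField u p
    rw [h1, map_zero] at h2
    exact h2
  have hfin := FunField.finiteDimensional (F := F) hu
  -- `K(u)` is contained in the valuation ring
  have hsub : ∀ z : K⟮(u : F)⟯, (z : F) ∈ v.toValuationSubring := by
    intro z
    obtain ⟨a, ha, b, hb, hz⟩ := (mem_adjoin_iff_div).mp z.2
    rw [Algebra.adjoin_singleton_eq_range_aeval] at ha hb
    obtain ⟨p, rfl⟩ := ha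
    obtain ⟨q, rfl⟩ := hb
    have hpq : ∀ p : Polynomial K, ((Polynomial.aeval u p : v.toValuationSubring) : F) =
        Polynomial.aeval (u : F) p := fun p => (Polynomial.aeval_algebraMap_apply F u p).symm
    rw [hz]
    rcases eq_or_ne q 0 with rfl | hq
    · simp
    have hqu : IsUnit (Polynomial.aeval u q : v.toValuationSubring) := by
      by_contra hnu
      apply hr
      refine ⟨q, hq, ?_⟩
      have h2 := Polynomial.aeval_algebraMap_apply v.ResidueField u q
      have h3 : (algebraMap v.toValuationSubring v.ResidueField) (Polynomial.aeval u q) = 0 := by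
        rw [IsLocalRing.ResidueField.algebraMap_eq, IsLocalRing.residue_eq_zero_iff,
          IsLocalRing.mem_maximalIdeal]
        exact hnu
      rw [h3] at h2
      exact h2
    obtain ⟨c, hc⟩ := hqu.exists_right_inv
    have hc' : Polynomial.aeval (u : F) q * (c : F) = 1 := by
      rw [← hpq]; exact congrArg Subtype.val hc
    have hq0 : Polynomial.aeval (u : F) q ≠ 0 := by
      intro h; rw [h, zero_mul] at hc'; exact zero_ne_one hc'
    have h5 : (Polynomial.aeval (u : F)).toRingHom p / (Polynomial.aeval (u : F)).toRingHom q =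
        ((Polynomial.aeval u p * c : v.toValuationSubring) : F) := by
      show Polynomial.aeval (u : F) p / Polynomial.aeval (u : F) q = _
      rw [div_eq_iff hq0]
      show _ = ((Polynomial.aeval u p : v.toValuationSubring) : F) * (c : F) * _
      rw [hpq, mul_assoc, mul_comm (c : F), hc', mul_one]
    rw [h5]
    exact SetLike.coe_mem _
  apply v.ne_top'
  refine eq_top_iff.mpr fun g _ => ?_
  have hg : IsIntegral K⟮(u : F)⟯ g := Algebra.IsIntegral.isIntegral g
  obtain ⟨p, hp, hpg⟩ := hg
  -- transfer integrality to the valuation ring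
  let φ : K⟮(u : F)⟯ →+* v.toValuationSubring :=
    (algebraMap K⟮(u : F)⟯ F).codRestrict v.toValuationSubring.toSubring hsub
  have hint : IsIntegral v.toValuationSubring g := by
    refine ⟨p.map φ, hp.map φ, ?_⟩
    rw [Polynomial.eval₂_map]
    exact hpg
  obtain ⟨y, hy⟩ := IsIntegrallyClosed.isIntegral_iff.mp hint
  rw [← hy]
  exact SetLike.coe_mem y

theorem algebraMap_residue_bijective [IsAlgClosed K] [FunField K F] (v : Place K F) :
    Function.Bijective (algebraMap K v.ResidueField) := by
  have : Algebra.IsAlgebraic K v.ResidueField := ⟨fun r => isAlgebraic_residue v r⟩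
  exact IsAlgClosed.algebraMap_bijective_of_isIntegral

instance finite_residueField [IsAlgClosed K] [FunField K F] (v : Place K F) :
    Module.Finite K v.ResidueField :=
  Module.Finite.of_surjective (Algebra.linearMap K v.ResidueField)
    (algebraMap_residue_bijective v).2

theorem deg_eq_one [IsAlgClosed K] [FunField K F] (v : Place K F) : v.deg = 1 :=
  v.deg_eq_one_of_isAlgClosed_of_finite

/-- Over an algebraically closed field, every element of the valuation ring is congruent to a
constant. -/
theorem exists_sub_algebraMap_ord_pos [IsAlgClosed K] [FunField K F] (v : Place K F) {f : F}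
    (hf : f ∈ v.toValuationSubring) :
    ∃ a : K, f - algebraMap K F a = 0 ∨ 0 < v.ord (f - algebraMap K F a) := by
  obtain ⟨a, ha⟩ := (algebraMap_residue_bijective v).2 (IsLocalRing.residue _ ⟨f, hf⟩)
  refine ⟨a, ?_⟩
  rcases eq_or_ne (f - algebraMap K F a) 0 with h0 | h0
  · exact Or.inl h0
  right
  have hmem : f - algebraMap K F a ∈ v.toValuationSubring :=
    sub_mem hf (v.algebraMap_mem' a)
  have h1 : ¬ IsUnit (⟨f - algebraMap K F a, hmem⟩ : v.toValuationSubring) := by
    have h2 : IsLocalRing.residue v.toValuationSubring ⟨f - algebraMap K F a, hmem⟩ = 0 := by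
      have h3 : (⟨f - algebraMap K F a, hmem⟩ : v.toValuationSubring) =
        ⟨f, hf⟩ - algebraMap K v.toValuationSubring a := rfl
      rw [h3, map_sub, ← ha]
      exact sub_self _
    rw [IsLocalRing.residue_eq_zero_iff, IsLocalRing.mem_maximalIdeal] at h2
    exact h2
  rw [← v.adicValuation_coe_eq_one_iff] at h1
  have h4 := ord_nonneg_of_mem v hmem
  rcases h4.lt_or_eq with h5 | h5
  · exact h5
  · exfalso
    apply h1
    show v.adicValuation (f - algebraMap K F a) = 1
    rw [v.adicValuation_eq_exp_neg_ord h0, ← h5, neg_zero, exp_zero]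

theorem ord_algebraMap (v : Place K F) (a : K) : v.ord (algebraMap K F a) = 0 := by
  rcases eq_or_ne a 0 with rfl | ha
  · simp
  have h1 := ord_nonneg_of_mem v (v.algebraMap_mem' a)
  have h2 := ord_nonneg_of_mem v (v.algebraMap_mem' a⁻¹)
  rw [map_inv₀, v.ord_inv] at h2
  omega

theorem transcendental_of_notMem_range [IsAlgClosed K] {f : F}
    (hf : f ∉ (algebraMap K F).range) : Transcendental K f := by
  intro halg
  apply hf
  have : Algebra.IsAlgebraic K K⟮f⟯ :=
    isAlgebraic_adjoin_simple (isAlgebraic_iff_isIntegral.mp halg)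
  have h2 := IntermediateField.eq_bot_of_isAlgClosed_of_isAlgebraic K⟮f⟯
  have h3 : f ∈ (⊥ : IntermediateField K F) := h2 ▸ mem_adjoin_simple_self K f
  exact IntermediateField.mem_bot.mp h3

theorem transcendental_of_ord_ne_zero [IsAlgClosed K] {v : Place K F} {f : F}
    (hf : v.ord f ≠ 0) : Transcendental K f := by
  apply transcendental_of_notMem_range
  rintro ⟨a, rfl⟩
  exact hf (ord_algebraMap v a)

theorem not_mem_range_of_transcendental {f : F} (hf : Transcendental K f) :
    f ∉ (algebraMap K F).range := by
  rintro ⟨a, rfl⟩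
  exact hf (isAlgebraic_algebraMap a)

end Fermat.Agent.H94
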