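/-
H3RR: bridges between the various "function field" classes.
-/
import Mathlib
import Fermat.Agent.H3RR_Duality
import Fermat.Agent.H94FunField

set_option autoImplicit false

open AlgebraicCurve WithZero IsLocalRing IntermediateField

namespace Fermat.Agent.H3RR

variable {K F : Type*} [Field K] [Field F] [Algebra K F]

instance isFF_of_funField [h : H94.FunField K F] : IsFF K F := ⟨h.out⟩

theorem funField_of_isFF [h : IsFF K F] : H94.FunField K F := ⟨h.exists_gen⟩

end Fermat.Agent.H3RR
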