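import Mathlib
import Fermat.Prelude.Def_AlgebraicCurve_Repartitions

/-!
# Elementary facts on Riemann-Roch spaces, from the weak Riemann theorem (helper40)

`RiemannFor K F g c` : for every divisor of degree at least `c`, the space `L(D)` is finite
dimensional of dimension `deg D + 1 - g`.
-/

set_option autoImplicit false

noncomputable section

open AlgebraicCurve WithZero

namespace Fermat.Agent.H40

variable {K F : Type*} [Field K] [Field F] [Algebra K F]

theorem ord_algebraMap (v : Place K F) (a : K) : v.ord (algebraMap K F a) = 0 := by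
  rcases eq_or_ne a 0 with rfl | ha
  · simp
  have h1 : algebraMap K F a ≠ 0 := by simpa using ha
  have h2 := (v.adicValuation_le_one_iff (f := algebraMap K F a)).1
    (v.adicValuation_algebraMap_le_one a)
  have h3 := (v.adicValuation_le_one_iff (f := algebraMap K F a⁻¹)).1
    (v.adicValuation_algebraMap_le_one a⁻¹)
  have h1' : algebraMap K F a⁻¹ ≠ 0 := by simpa using ha
  have h2' := h2.resolve_left h1
  have h3' := h3.resolve_left h1'
  rw [map_inv₀, v.ord_inv] at h3'
  omega

theorem ord_add_ge (v : Place K F) {f h : F} (hfh : f + h ≠ 0) {n : ℤ}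
    (hf : f = 0 ∨ n ≤ v.ord f) (hh : h = 0 ∨ n ≤ v.ord h) : n ≤ v.ord (f + h) := by
  have h1 : v.adicValuation f ≤ exp (-n) := by
    rw [v.adicValuation_le_exp_iff, neg_neg]; exact hf
  have h2 : v.adicValuation h ≤ exp (-n) := by
    rw [v.adicValuation_le_exp_iff, neg_neg]; exact hh
  have h3 : v.adicValuation (f + h) ≤ exp (-n) := (Valuation.map_add _ _ _).trans (max_le h1 h2)
  rw [v.adicValuation_le_exp_iff, neg_neg] at h3
  exact h3.resolve_left hfh

/-- Riemann's theorem in the weak form used for the reduction theory. -/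
def RiemannFor (K F : Type*) [Field K] [Field F] [Algebra K F] (g c : ℤ) : Prop :=
  ∀ D : Divisor K F, c ≤ Divisor.degree D →
    FiniteDimensional K (riemannRochSpace D) ∧
      (Module.finrank K (riemannRochSpace D) : ℤ) = Divisor.degree D + 1 - g

theorem mem_L {D : Divisor K F} {f : F} (hf : f ≠ 0) :
    f ∈ riemannRochSpace D ↔ ∀ v : Place K F, -D v ≤ v.ord f := by
  rw [mem_riemannRochSpace_iff]
  exact forall_congr' fun v => or_iff_right hf

theorem L_mono {D D' : Divisor K F} (h : D ≤ D') :
    riemannRochSpace D ≤ riemannRochSpace D' := by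
  intro f hf
  rw [mem_riemannRochSpace_iff] at hf ⊢
  intro v
  rcases hf v with h0 | h0
  · exact Or.inl h0
  · right
    have := Finsupp.le_def.mp h v
    omega

theorem one_mem_L {D : Divisor K F} : (1 : F) ∈ riemannRochSpace D ↔ 0 ≤ D := by
  rw [mem_L one_ne_zero, Finsupp.le_def]
  refine forall_congr' fun v => ?_
  rw [v.ord_one]
  simp

theorem mul_mem_L {D E : Divisor K F} {f h : F} (hf : f ∈ riemannRochSpace D)
    (hh : h ∈ riemannRochSpace E) : f * h ∈ riemannRochSpace (D + E) := by
  rcases eq_or_ne f 0 with rfl | hf0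
  · rw [zero_mul]; exact Submodule.zero_mem _
  rcases eq_or_ne h 0 with rfl | hh0
  · rw [mul_zero]; exact Submodule.zero_mem _
  rw [mem_L hf0] at hf
  rw [mem_L hh0] at hh
  rw [mem_L (mul_ne_zero hf0 hh0)]
  intro v
  rw [v.ord_mul hf0 hh0, Finsupp.add_apply]
  have := hf v
  have := hh v
  omega

/-- Multiplication by `b` with divisor `Δ` maps `L(D)` into `L(D - Δ)`. -/
theorem mul_mem_L_sub {D Δ : Divisor K F} {b : F} (hb : b ≠ 0)
    (hΔ : ∀ v : Place K F, Δ v = v.ord b) {f : F} (hf : f ∈ riemannRochSpace D) :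
    b * f ∈ riemannRochSpace (D - Δ) := by
  rcases eq_or_ne f 0 with rfl | hf0
  · rw [mul_zero]; exact Submodule.zero_mem _
  rw [mem_L hf0] at hf
  rw [mem_L (mul_ne_zero hb hf0)]
  intro v
  rw [v.ord_mul hb hf0, Finsupp.sub_apply, hΔ v]
  have := hf v
  omega

theorem L_inf {D E : Divisor K F} {f : F} (hf : f ∈ riemannRochSpace D)
    (hh : f ∈ riemannRochSpace E) : f ∈ riemannRochSpace (D ⊓ E) := by
  rcases eq_or_ne f 0 with rfl | hf0
  · exact Submodule.zero_mem _
  rw [mem_L hf0] at hf hh ⊢
  intro v
  rw [Finsupp.inf_apply]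
  have := hf v
  have := hh v
  rcases le_total (D v) (E v) with h | h
  · rw [inf_eq_left.mpr h]; assumption
  · rw [inf_eq_right.mpr h]; assumption

/-! ### Degrees (all places of degree one) -/

theorem degree_eq_sum (hdeg : ∀ v : Place K F, v.deg = 1) (D : Divisor K F) :
    Divisor.degree D = D.sum fun _ n => n := by
  induction D using Finsupp.induction_linear with
  | zero => simp
  | add D E hD hE =>
    rw [map_add, hD, hE, Finsupp.sum_add_index'] <;> simp
  | single v n => simp [hdeg]

theorem degree_nonneg (hdeg : ∀ v : Place K F, v.deg = 1) {D : Divisor K F} (hD : 0 ≤ D) :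
    0 ≤ Divisor.degree D := by
  rw [degree_eq_sum hdeg]
  exact Finset.sum_nonneg fun v _ => Finsupp.le_def.mp hD v

theorem apply_le_degree (hdeg : ∀ v : Place K F, v.deg = 1) {D : Divisor K F} (hD : 0 ≤ D)
    (v : Place K F) : D v ≤ Divisor.degree D := by
  classical
  have h1 : 0 ≤ D - Finsupp.single v (D v) := by
    rw [Finsupp.le_def]
    intro w
    rw [Finsupp.sub_apply, Finsupp.single_apply]
    split_ifs with h
    · subst h; simp
    · simpa using Finsupp.le_def.mp hD w
  have h2 := degree_nonneg hdeg h1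
  rw [map_sub, Divisor.degree_single, hdeg] at h2
  simpa using h2

theorem eq_of_le_of_degree_le (hdeg : ∀ v : Place K F, v.deg = 1) {D E : Divisor K F}
    (h : D ≤ E) (hd : Divisor.degree E ≤ Divisor.degree D) : D = E := by
  have h0 : 0 ≤ E - D := sub_nonneg.mpr h
  have h1 : Divisor.degree (E - D) ≤ 0 := by rw [map_sub]; omega
  ext v
  have h2 := apply_le_degree hdeg h0 v
  have h3 := Finsupp.le_def.mp h v
  rw [Finsupp.sub_apply] at h2
  omega

/-- A nonnegative divisor of degree one is a single place. -/
theorem exists_eq_single (hdeg : ∀ v : Place K F, v.deg = 1) {D : Divisor K F} (hD : 0 ≤ D)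
    (h1 : Divisor.degree D = 1) : ∃ v, D = Finsupp.single v 1 := by
  classical
  have hne : D ≠ 0 := by rintro rfl; simp at h1
  obtain ⟨v, hv⟩ := Finsupp.ne_iff.mp hne
  have hv' : 1 ≤ D v := by
    have := Finsupp.le_def.mp hD v
    simp only [Finsupp.coe_zero, Pi.zero_apply] at this hv
    omega
  refine ⟨v, (eq_of_le_of_degree_le hdeg ?_ ?_).symm⟩
  · rw [Finsupp.le_def]
    intro w
    rw [Finsupp.single_apply]
    split_ifs with h
    · subst h; exact hv'
    · simpa using Finsupp.le_def.mp hD w
  · rw [h1, Divisor.degree_single, hdeg]; simp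

/-! ### Consequences of the Riemann theorem -/

section Riemann

variable {g c : ℤ}

theorem finrank_le_of_le {D E : Divisor K F} (h : D ≤ E)
    [FiniteDimensional K (riemannRochSpace E)] :
    Module.finrank K (riemannRochSpace D) ≤ Module.finrank K (riemannRochSpace E) :=
  Submodule.finrank_mono (L_mono h)

variable (hR : RiemannFor K F g c) (hdeg : ∀ v : Place K F, v.deg = 1)

include hR hdeg

/-- Any divisor is dominated by one of prescribed larger degree. -/
theorem exists_ge_degree (v : Place K F) (D : Divisor K F) {m : ℤ}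
    (hm : Divisor.degree D ≤ m) : ∃ E : Divisor K F, D ≤ E ∧ Divisor.degree E = m := by
  classical
  refine ⟨D + Finsupp.single v (m - Divisor.degree D), ?_, ?_⟩
  · rw [Finsupp.le_def]
    intro w
    rw [Finsupp.add_apply, Finsupp.single_apply]
    split_ifs <;> omega
  · rw [map_add, Divisor.degree_single, hdeg]
    push_cast
    ring

theorem finiteDimensional_L (v : Place K F) (D : Divisor K F) :
    FiniteDimensional K (riemannRochSpace D) := by
  obtain ⟨E, hE, hd⟩ := exists_ge_degree hR hdeg v D (le_max_left _ c)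
  have := (hR E (by rw [hd]; exact le_max_right _ _)).1
  exact Submodule.finiteDimensional_of_le (L_mono hE)

/-- Upper bound for `l(D)` when the degree is smaller than a large number. -/
theorem finrank_lt_of_degree_lt (v : Place K F) {D : Divisor K F} {m : ℤ} (hm : c < m)
    (hD : Divisor.degree D < m) :
    (Module.finrank K (riemannRochSpace D) : ℤ) < m + 1 - g := by
  obtain ⟨E, hE, hd⟩ := exists_ge_degree hR hdeg v D (m := m - 1) (by omega)
  obtain ⟨h1, h2⟩ := hR E (by rw [hd]; omega)
  have := h1
  have h3 := finrank_le_of_le hE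
  rw [hd] at h2
  omega

/-- Base point freeness for large degree. -/
theorem exists_ord_eq {D : Divisor K F} (hD : c < Divisor.degree D) (v : Place K F) :
    ∃ f ∈ riemannRochSpace D, f ≠ 0 ∧ v.ord f = - D v := by
  classical
  have hd : Divisor.degree (D - Finsupp.single v 1) = Divisor.degree D - 1 := by
    rw [map_sub, Divisor.degree_single, hdeg]; simp
  obtain ⟨h1, h2⟩ := hR D (by omega)
  obtain ⟨h3, h4⟩ := hR (D - Finsupp.single v 1) (by omega)
  have := h1
  have := h3
  have hlt : ¬ (riemannRochSpace D ≤ riemannRochSpace (D - Finsupp.single v 1)) := by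
    intro hle
    have := Submodule.finrank_mono hle
    omega
  obtain ⟨f, hf, hf'⟩ := SetLike.not_le_iff_exists.mp hlt
  have hf0 : f ≠ 0 := by rintro rfl; exact hf' (Submodule.zero_mem _)
  refine ⟨f, hf, hf0, ?_⟩
  rw [mem_L hf0] at hf hf'
  push Not at hf'
  obtain ⟨w, hw⟩ := hf'
  have hw1 := hf w
  rw [Finsupp.sub_apply, Finsupp.single_apply] at hw
  split_ifs at hw with h
  · subst h
    omega
  · omega

/-- A divisor of large degree is determined by its Riemann-Roch space. -/
theorem le_of_L_le {D E : Divisor K F} (hD : c < Divisor.degree D)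
    (h : riemannRochSpace D ≤ riemannRochSpace E) : D ≤ E := by
  rw [Finsupp.le_def]
  intro v
  obtain ⟨f, hf, hf0, hv⟩ := exists_ord_eq hR hdeg hD v
  have := (mem_L hf0).mp (h hf) v
  omega

theorem eq_of_L_eq {D E : Divisor K F} (hD : c < Divisor.degree D) (hE : c < Divisor.degree E)
    (h : riemannRochSpace D = riemannRochSpace E) : D = E :=
  le_antisymm (le_of_L_le hR hdeg hD h.le) (le_of_L_le hR hdeg hE h.ge)

end Riemann

end Fermat.Agent.H40
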