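import Mathlib
import Fermat.Prelude.Def_AlgebraicCurve_Repartitions
import Fermat.Agent.H40RRBasic

/-!
# Deuring reduction of function fields (helper40)

`ReductionData K F k E` : a "Gauss type" reduction of the function field `F/K` at a valuation
ring `A` of `K` to the function field `E/k`.
-/

set_option autoImplicit false

noncomputable section

open AlgebraicCurve WithZero

namespace Fermat.Agent.H40

/-- Gauss type reduction of `F/K` to `E/k`. -/
structure ReductionData (K F k E : Type*) [Field K] [Field F] [Algebra K F]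
    [Field k] [Field E] [Algebra k E] where
  /-- the valuation ring of the constant field -/
  A : ValuationSubring K
  /-- the residue map -/
  π : A →+* k
  π_surj : Function.Surjective π
  π_eq_zero : ∀ a : A, π a = 0 ↔ ¬ IsUnit a
  /-- the ring of integral functions -/
  B : Subring F
  /-- the reduction map on integral functions -/
  ρ : B →+* E
  mem_B : ∀ a : A, algebraMap K F a ∈ B
  ρ_algebraMap : ∀ a : A, ρ ⟨algebraMap K F a, mem_B a⟩ = algebraMap k E (π a)
  exists_basis : ∀ V : Submodule K F, FiniteDimensional K V →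
    ∃ (n : ℕ) (b : Fin n → B), Submodule.span K (Set.range fun i => (b i : F)) = V ∧
      LinearIndependent k (fun i => ρ (b i))
  frac : ∀ e : E, ∃ x y : B, ρ y ≠ 0 ∧ e * ρ y = ρ x

namespace ReductionData

variable {K F k E : Type*} [Field K] [Field F] [Algebra K F] [Field k] [Field E] [Algebra k E]
variable (R : ReductionData K F k E)

/-- the constant `a` as an integral function -/
def const (a : R.A) : R.B := ⟨algebraMap K F a, R.mem_B a⟩

@[simp] theorem coe_const (a : R.A) : ((R.const a : R.B) : F) = algebraMap K F a := rfl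

@[simp] theorem ρ_const (a : R.A) : R.ρ (R.const a) = algebraMap k E (R.π a) := R.ρ_algebraMap a

/-- Coefficients of an integral function with respect to a good family are integral. -/
theorem coeff_mem {n : ℕ} {b : Fin n → R.B} (hb : LinearIndependent k fun i => R.ρ (b i))
    {c : Fin n → K} (hx : (∑ i, c i • (b i : F)) ∈ R.B) (i : Fin n) : c i ∈ R.A := by
  classical
  by_contra hi
  -- index of maximal valuation
  obtain ⟨j, -, hj⟩ := Finset.exists_max_image Finset.univ (fun i => R.A.valuation (c i))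
    ⟨i, Finset.mem_univ i⟩
  have hi' : 1 < R.A.valuation (c i) := by
    rw [← not_le, R.A.valuation_le_one_iff]; exact hi
  have hj1 : 1 < R.A.valuation (c j) := hi'.trans_le (hj i (Finset.mem_univ i))
  have hcj0 : c j ≠ 0 := by
    rintro h; rw [h, map_zero] at hj1; exact absurd hj1 (by simp)
  have hvj0 : R.A.valuation (c j) ≠ 0 := (Valuation.ne_zero_iff _).mpr hcj0
  have hd : ∀ i, c i / c j ∈ R.A := fun i => by
    rw [← R.A.valuation_le_one_iff, map_div₀]
    exact div_le_one_of_le₀ (hj i (Finset.mem_univ i)) zero_le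
  have hinv : (c j)⁻¹ ∈ R.A := by
    rw [← R.A.valuation_le_one_iff, map_inv₀]
    exact inv_le_one_of_one_le₀ hj1.le
  have hnu : ¬ IsUnit (⟨(c j)⁻¹, hinv⟩ : R.A) := by
    intro hu
    have := (R.A.valuation_eq_one_iff ⟨(c j)⁻¹, hinv⟩).mp hu
    have this : R.A.valuation (c j) = 1 := by simpa using this
    rw [this] at hj1
    exact absurd hj1 (lt_irrefl _)
  set x : R.B := ⟨∑ i, c i • (b i : F), hx⟩ with hxdef
  have e1 : R.const ⟨(c j)⁻¹, hinv⟩ * x = ∑ i, R.const ⟨c i / c j, hd i⟩ * b i := by
    apply Subtype.ext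
    rw [Subring.coe_mul, coe_const]
    rw [show ((∑ i, R.const ⟨c i / c j, hd i⟩ * b i : R.B) : F) =
      ∑ i, ((R.const ⟨c i / c j, hd i⟩ * b i : R.B) : F) from map_sum R.B.subtype _ _]
    simp only [hxdef, Finset.mul_sum, Subring.coe_mul, coe_const]
    refine Finset.sum_congr rfl fun i _ => ?_
    rw [Algebra.smul_def, ← mul_assoc, ← map_mul, div_eq_inv_mul]
  have e2 := congrArg R.ρ e1
  rw [map_mul, ρ_const, (R.π_eq_zero _).mpr hnu, map_zero, zero_mul, map_sum] at e2
  simp only [map_mul, ρ_const] at e2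
  have e3 := Fintype.linearIndependent_iff.mp hb (fun i => R.π ⟨c i / c j, hd i⟩) (by
    rw [e2]
    exact Finset.sum_congr rfl fun i _ => by rw [Algebra.smul_def]) j
  have e4 : (⟨c j / c j, hd j⟩ : R.A) = 1 := Subtype.ext (div_self hcj0)
  rw [e4, map_one] at e3
  exact one_ne_zero e3

/-- Reduction of a subspace. -/
def red (V : Submodule K F) : Submodule k E where
  carrier := {e | ∃ x : R.B, (x : F) ∈ V ∧ R.ρ x = e}
  zero_mem' := ⟨0, by simp, map_zero _⟩
  add_mem' := by
    rintro _ _ ⟨x, hx, rfl⟩ ⟨y, hy, rfl⟩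
    exact ⟨x + y, by simpa using V.add_mem hx hy, map_add _ _ _⟩
  smul_mem' := by
    rintro c _ ⟨x, hx, rfl⟩
    obtain ⟨a, rfl⟩ := R.π_surj c
    refine ⟨R.const a * x, ?_, ?_⟩
    · rw [Subring.coe_mul, coe_const, ← Algebra.smul_def]
      exact V.smul_mem _ hx
    · rw [map_mul, ρ_const, Algebra.smul_def]

theorem mem_red {V : Submodule K F} {e : E} :
    e ∈ R.red V ↔ ∃ x : R.B, (x : F) ∈ V ∧ R.ρ x = e := Iff.rfl

theorem red_mono {V W : Submodule K F} (h : V ≤ W) : R.red V ≤ R.red W := by
  rintro _ ⟨x, hx, rfl⟩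
  exact ⟨x, h hx, rfl⟩

theorem linearIndependent_lift {n : ℕ} {b : Fin n → R.B}
    (hb : LinearIndependent k fun i => R.ρ (b i)) : LinearIndependent K fun i => (b i : F) := by
  classical
  rw [Fintype.linearIndependent_iff]
  intro c hc
  by_contra hne
  push Not at hne
  obtain ⟨i, hi⟩ := hne
  -- scale such that everything is integral: multiply by inverse of max coefficient
  have h0 : ∀ t : K, (∑ i, (t * c i) • (b i : F)) ∈ R.B := fun t => by
    have : (∑ i, (t * c i) • (b i : F)) = 0 := by
      simp only [mul_smul, ← Finset.smul_sum, hc, smul_zero]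
    rw [this]; exact R.B.zero_mem
  have h1 : ∀ t : K, t * c i ∈ R.A := fun t => R.coeff_mem hb (h0 t) i
  -- then `A = K`, so every `π a` with `a ≠ 0` nonzero and relation reduces to a relation
  have hA : ∀ x : K, x ∈ R.A := fun x => by simpa [hi] using h1 (x / c i)
  have hrel : ∑ i, R.const ⟨c i, hA _⟩ * b i = 0 := by
    apply Subtype.ext
    rw [show ((∑ i, R.const ⟨c i, hA _⟩ * b i : R.B) : F) =
      ∑ i, ((R.const ⟨c i, hA _⟩ * b i : R.B) : F) from map_sum R.B.subtype _ _]
    simpa [Algebra.smul_def] using hc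
  have e2 := congrArg R.ρ hrel
  rw [map_sum, map_zero] at e2
  simp only [map_mul, ρ_const] at e2
  have e3 := Fintype.linearIndependent_iff.mp hb (fun i => R.π ⟨c i, hA _⟩) (by
    simpa [Algebra.smul_def] using e2) i
  rw [R.π_eq_zero] at e3
  apply e3
  refine ⟨⟨⟨c i, hA _⟩, ⟨(c i)⁻¹, hA _⟩, ?_, ?_⟩, rfl⟩
  · exact Subtype.ext (mul_inv_cancel₀ hi)
  · exact Subtype.ext (inv_mul_cancel₀ hi)

theorem red_eq_span {n : ℕ} {b : Fin n → R.B}
    (hb : LinearIndependent k fun i => R.ρ (b i)) {V : Submodule K F}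
    (hV : Submodule.span K (Set.range fun i => (b i : F)) = V) :
    R.red V = Submodule.span k (Set.range fun i => R.ρ (b i)) := by
  apply le_antisymm
  · rintro _ ⟨x, hx, rfl⟩
    rw [← hV] at hx
    obtain ⟨c, hc⟩ := (Submodule.mem_span_range_iff_exists_fun K).mp hx
    have hcA : ∀ i, c i ∈ R.A := R.coeff_mem hb (by rw [hc]; exact x.2)
    have : x = ∑ i, R.const ⟨c i, hcA i⟩ * b i := by
      apply Subtype.ext
      rw [show ((∑ i, R.const ⟨c i, hcA i⟩ * b i : R.B) : F) =
        ∑ i, ((R.const ⟨c i, hcA i⟩ * b i : R.B) : F) from map_sum R.B.subtype _ _, ← hc]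
      simp [Algebra.smul_def]
    rw [this, map_sum]
    refine Submodule.sum_mem _ fun i _ => ?_
    rw [map_mul, ρ_const, ← Algebra.smul_def]
    exact Submodule.smul_mem _ _ (Submodule.subset_span ⟨i, rfl⟩)
  · rw [Submodule.span_le]
    rintro _ ⟨i, rfl⟩
    exact ⟨b i, by rw [← hV]; exact Submodule.subset_span ⟨i, rfl⟩, rfl⟩

theorem finrank_red (V : Submodule K F) [hV : FiniteDimensional K V] :
    FiniteDimensional k (R.red V) ∧ Module.finrank k (R.red V) = Module.finrank K V := by
  obtain ⟨n, b, hbV, hb⟩ := R.exists_basis V hV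
  rw [R.red_eq_span hb hbV, ← hbV]
  constructor
  · exact FiniteDimensional.span_of_finite k (Set.finite_range _)
  · rw [finrank_span_eq_card hb, finrank_span_eq_card (R.linearIndependent_lift hb)]

/-- Every nonzero function can be scaled to be integral with nonzero reduction. -/
theorem exists_scale {f : F} (hf : f ≠ 0) :
    ∃ c : K, c ≠ 0 ∧ ∃ x : R.B, (x : F) = c • f ∧ R.ρ x ≠ 0 := by
  obtain ⟨n, b, hbV, hb⟩ := R.exists_basis (Submodule.span K {f}) inferInstance
  have h1 : n = 1 := by
    have := (R.linearIndependent_lift hb)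
    have h2 := finrank_span_eq_card this
    rw [hbV, finrank_span_singleton hf] at h2
    simpa using h2.symm
  subst h1
  have hmem : (b 0 : F) ∈ Submodule.span K {f} := by
    rw [← hbV]; exact Submodule.subset_span ⟨0, rfl⟩
  obtain ⟨c, hc⟩ := Submodule.mem_span_singleton.mp hmem
  have hne : R.ρ (b 0) ≠ 0 := hb.ne_zero 0
  refine ⟨c, ?_, b 0, hc.symm, hne⟩
  rintro rfl
  rw [zero_smul] at hc
  apply hne
  have : b 0 = 0 := Subtype.ext hc.symm
  rw [this, map_zero]

theorem ne_zero_of_ρ_ne_zero {x : R.B} (hx : R.ρ x ≠ 0) : (x : F) ≠ 0 := by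
  intro h
  apply hx
  have : x = 0 := Subtype.ext h
  rw [this, map_zero]

end ReductionData

end Fermat.Agent.H40
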