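import Mathlib
import Fermat.Prelude.Def_AlgebraicCurve_Repartitions
import Fermat.Agent.H40Deuring

/-!
# Deuring reduction of divisors (helper40)
-/

set_option autoImplicit false

noncomputable section

open AlgebraicCurve WithZero

namespace Fermat.Agent.H40

variable {K F k E : Type*} [Field K] [Field F] [Algebra K F] [Field k] [Field E] [Algebra k E]

theorem exists_div [HasPrincipalDivisors K F] {f : F} (hf : f ≠ 0) :
    ∃ D : Divisor K F, (∀ v : Place K F, D v = v.ord f) ∧ Divisor.degree D = 0 :=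
  HasPrincipalDivisors.exists_divisor f hf

/-- A finite dimensional space of functions lies in some `L(D)` with `D` effective. -/
theorem exists_L_ge [HasPrincipalDivisors K F] (V : Submodule K F) [FiniteDimensional K V] :
    ∃ D : Divisor K F, 0 ≤ D ∧ V ≤ riemannRochSpace D := by
  classical
  obtain ⟨s, hs⟩ := (Submodule.fg_iff_finiteDimensional V).mpr inferInstance
  rw [← hs]
  clear hs
  induction s using Finset.induction with
  | empty => exact ⟨0, le_rfl, by simp⟩
  | insert a s ha ih =>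
    obtain ⟨D, hD, hV⟩ := ih
    obtain ⟨D', hD', haD'⟩ : ∃ D' : Divisor K F, 0 ≤ D' ∧ a ∈ riemannRochSpace D' := by
      rcases eq_or_ne a 0 with rfl | ha0
      · exact ⟨0, le_rfl, Submodule.zero_mem _⟩
      obtain ⟨Δ, hΔ, -⟩ := exists_div (K := K) ha0
      refine ⟨(-Δ) ⊔ 0, le_sup_right, ?_⟩
      rw [mem_L ha0]
      intro v
      have h1 : -Δ v ≤ ((-Δ) ⊔ 0 : Divisor K F) v := by
        rw [Finsupp.sup_apply, Finsupp.neg_apply]
        exact le_sup_left
      rw [← hΔ v]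
      omega
    refine ⟨D ⊔ D', hD.trans le_sup_left, ?_⟩
    rw [Finset.coe_insert, Submodule.span_insert]
    refine sup_le ?_ (hV.trans (L_mono le_sup_left))
    rw [Submodule.span_le, Set.singleton_subset_iff]
    exact L_mono le_sup_right haD'

/-- For a finite dimensional space `V` of functions containing `1` over an infinite field, there
are an effective divisor `D` and `v ∈ V` such that `V ≤ L(D)` and `D` is the pole divisor
of `v`. -/
theorem exists_generic [Infinite K] [HasPrincipalDivisors K F]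
    (hdeg : ∀ v : Place K F, v.deg = 1) (V : Submodule K F) [FiniteDimensional K V]
    (h1 : (1 : F) ∈ V) :
    ∃ D : Divisor K F, 0 ≤ D ∧ V ≤ riemannRochSpace D ∧
      ∃ f ∈ V, f ≠ 0 ∧ ∀ v : Place K F, D v = max 0 (-(v.ord f)) := by
  classical
  -- minimal degree
  have hex : ∃ n : ℕ, ∃ D : Divisor K F, 0 ≤ D ∧ V ≤ riemannRochSpace D ∧
      (Divisor.degree D).toNat = n := by
    obtain ⟨D, hD, hV⟩ := exists_L_ge V
    exact ⟨_, D, hD, hV, rfl⟩
  obtain ⟨D, hD, hV, hn⟩ := Nat.find_spec hex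
  have hmin : ∀ v ∈ D.support, ¬ V ≤ riemannRochSpace (D - Finsupp.single v 1) := by
    intro v hv hle
    have hv0 : 0 ≤ D - Finsupp.single v 1 := by
      rw [Finsupp.le_def]
      intro w
      rw [Finsupp.sub_apply, Finsupp.single_apply]
      have h2 := Finsupp.le_def.mp hD w
      simp only [Finsupp.coe_zero, Pi.zero_apply] at h2 ⊢
      split_ifs with h
      · subst h
        rw [Finsupp.mem_support_iff] at hv
        omega
      · omega
    have hdeg1 : Divisor.degree (D - Finsupp.single v 1) = Divisor.degree D - 1 := by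
      rw [map_sub, Divisor.degree_single, hdeg]; simp
    have h3 := degree_nonneg hdeg hv0
    have h4 := Nat.find_min' hex ⟨_, hv0, hle, rfl⟩
    rw [← hn] at h4
    omega
  refine ⟨D, hD, hV, ?_⟩
  -- choose a generic element
  set s : Finset (Subspace K V) := D.support.image
    (fun v => (riemannRochSpace (D - Finsupp.single v 1)).comap V.subtype) with hs
  have hcov : ⋃ p ∈ s, (p : Set V) ≠ Set.univ := by
    apply Subspace.biUnion_ne_univ_of_top_notMem
    intro htop
    rw [hs, Finset.mem_image] at htop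
    obtain ⟨v, hv, hvtop⟩ := htop
    apply hmin v hv
    intro f hf
    have : (⟨f, hf⟩ : V) ∈ (riemannRochSpace (D - Finsupp.single v 1)).comap V.subtype := by
      rw [hvtop]; exact Submodule.mem_top
    exact this
  obtain ⟨f, hf⟩ := (Set.ne_univ_iff_exists_notMem _).mp hcov
  have hf' : ∀ v ∈ D.support, (f : F) ∉ riemannRochSpace (D - Finsupp.single v 1) := by
    intro v hv hmem
    apply hf
    simp only [Set.mem_iUnion]
    exact ⟨_, Finset.mem_image.mpr ⟨v, hv, rfl⟩, hmem⟩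
  rcases eq_or_ne (f : F) 0 with hf0 | hf0
  · -- then `D = 0`
    have hD0 : D = 0 := by
      by_contra hne
      obtain ⟨v, hv⟩ := Finsupp.support_nonempty_iff.mpr hne
      exact hf' v hv (by rw [hf0]; exact Submodule.zero_mem _)
    refine ⟨1, h1, one_ne_zero, fun v => ?_⟩
    rw [hD0, v.ord_one]
    simp
  refine ⟨f, f.2, hf0, fun v => ?_⟩
  have h2 := (mem_L hf0).mp (hV f.2)
  by_cases hv : v ∈ D.support
  · have h3 := hf' v hv
    rw [mem_L hf0] at h3
    push Not at h3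
    obtain ⟨w, hw⟩ := h3
    rw [Finsupp.sub_apply, Finsupp.single_apply] at hw
    have h4 := h2 w
    split_ifs at hw with h
    · subst h
      rw [Finsupp.mem_support_iff] at hv
      have h5 := Finsupp.le_def.mp hD v
      simp only [Finsupp.coe_zero, Pi.zero_apply] at h5
      rw [max_def]
      split_ifs <;> omega
    · omega
  · rw [Finsupp.notMem_support_iff] at hv
    have h4 := h2 v
    rw [max_def]
    split_ifs <;> omega

namespace ReductionData

variable (R : ReductionData K F k E)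

/-- `Dbar` is the reduction of `D`. -/
def IsRed (D : Divisor K F) (Dbar : Divisor k E) : Prop :=
  Divisor.degree Dbar = Divisor.degree D ∧
    R.red (riemannRochSpace D) = riemannRochSpace Dbar

/-- The pole degree inequality. -/
def PoleIneq : Prop :=
  ∀ (x : R.B) (D : Divisor K F) (Dbar : Divisor k E), 0 ≤ D → (x : F) ∈ riemannRochSpace D →
    R.ρ x ≠ 0 → (∀ v : Place k E, Dbar v = max 0 (-(v.ord (R.ρ x)))) →
    Divisor.degree Dbar ≤ Divisor.degree D

variable {g c : ℤ} [HasPrincipalDivisors K F] [HasPrincipalDivisors k E] [Infinite k]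
  [Nonempty (Place K F)] [Nonempty (Place k E)]
  (hF : RiemannFor K F g c) (hE : RiemannFor k E g c)
  (hdF : ∀ v : Place K F, v.deg = 1) (hdE : ∀ v : Place k E, v.deg = 1)
  (hpole : R.PoleIneq)

include hF hE hdE hpole

theorem exists_isRed_of_nonneg {D : Divisor K F} (hD0 : 0 ≤ D) (hD : c < Divisor.degree D) :
    ∃ Dbar, R.IsRed D Dbar := by
  obtain ⟨v0⟩ := ‹Nonempty (Place k E)›
  obtain ⟨hfd, hrk⟩ := hF D hD.le
  have := hfd
  obtain ⟨hfd', hrk'⟩ := R.finrank_red (riemannRochSpace D)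
  have := hfd'
  have h1 : (1 : E) ∈ R.red (riemannRochSpace D) :=
    ⟨1, by simpa using one_mem_L.mpr hD0, map_one _⟩
  obtain ⟨Dbar, hDbar0, hle, f, ⟨x, hx, rfl⟩, hf0, hpolef⟩ :=
    exists_generic hdE (R.red (riemannRochSpace D)) h1
  have hdeg1 : Divisor.degree Dbar ≤ Divisor.degree D := hpole x D Dbar hD0 hx hf0 hpolef
  have hfdE := finiteDimensional_L hE hdE v0 Dbar
  have hrk1 := Submodule.finrank_mono hle
  have hdeg2 : Divisor.degree D ≤ Divisor.degree Dbar := by
    by_contra hlt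
    push Not at hlt
    have := finrank_lt_of_degree_lt hE hdE v0 hD hlt
    omega
  have hdeg : Divisor.degree Dbar = Divisor.degree D := le_antisymm hdeg1 hdeg2
  refine ⟨Dbar, hdeg, ?_⟩
  obtain ⟨-, hrk2⟩ := hE Dbar (by omega)
  exact Submodule.eq_of_le_of_finrank_eq hle (by omega)

omit hdE hpole [HasPrincipalDivisors K F] [HasPrincipalDivisors k E] [Infinite k]
  [Nonempty (Place K F)] [Nonempty (Place k E)] in
theorem IsRed.sub_div {D : Divisor K F} {Dbar : Divisor k E} (h : R.IsRed D Dbar)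
    (hD : c < Divisor.degree D) {x : R.B} (hx : R.ρ x ≠ 0)
    {Δ : Divisor K F} (hΔ : ∀ v : Place K F, Δ v = v.ord (x : F)) (hΔ0 : Divisor.degree Δ = 0)
    {Δbar : Divisor k E} (hΔbar : ∀ v : Place k E, Δbar v = v.ord (R.ρ x))
    (hΔbar0 : Divisor.degree Δbar = 0) : R.IsRed (D - Δ) (Dbar - Δbar) := by
  obtain ⟨h1, h2⟩ := h
  have hdeg : Divisor.degree (Dbar - Δbar) = Divisor.degree (D - Δ) := by
    rw [map_sub, map_sub, hΔ0, hΔbar0, h1]
  refine ⟨hdeg, ?_⟩
  obtain ⟨hfd, hrk⟩ := hF (D - Δ) (by rw [map_sub, hΔ0]; omega)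
  obtain ⟨hfd1, hrk1⟩ := hE (Dbar - Δbar) (by rw [hdeg, map_sub, hΔ0]; omega)
  have := hfd
  have := hfd1
  obtain ⟨hfd2, hrk2⟩ := R.finrank_red (riemannRochSpace (D - Δ))
  have := hfd2
  symm
  refine Submodule.eq_of_le_of_finrank_eq ?_ (by omega)
  intro e he
  have hx0 := R.ne_zero_of_ρ_ne_zero hx
  have he' : (R.ρ x)⁻¹ * e ∈ riemannRochSpace Dbar := by
    have := mul_mem_L_sub (Δ := -Δbar) (b := (R.ρ x)⁻¹) (inv_ne_zero hx)
      (fun v => by rw [Finsupp.neg_apply, hΔbar v, v.ord_inv]) he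
    simpa using this
  rw [← h2] at he'
  obtain ⟨y, hy, hye⟩ := he'
  refine ⟨x * y, ?_, ?_⟩
  · rw [Subring.coe_mul]
    exact mul_mem_L_sub hx0 hΔ hy
  · rw [map_mul, hye, mul_inv_cancel_left₀ hx]

variable (hgc : g ≤ c) (hc0 : 0 ≤ c)

include hgc in
theorem exists_isRed {D : Divisor K F} (hD : c < Divisor.degree D) :
    ∃ Dbar, R.IsRed D Dbar := by
  obtain ⟨hfd, hrk⟩ := hF D hD.le
  have := hfd
  have hpos : 0 < Module.finrank K (riemannRochSpace D) := by omega
  have hnt : Nontrivial (riemannRochSpace D) := Module.finrank_pos_iff.mp hpos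
  obtain ⟨⟨f, hf⟩, hf0⟩ := exists_ne (0 : riemannRochSpace D)
  have hf0' : f ≠ 0 := fun h => hf0 (Subtype.ext h)
  obtain ⟨t, ht0, x, hx, hρx⟩ := R.exists_scale hf0'
  have hx0 : (x : F) ≠ 0 := R.ne_zero_of_ρ_ne_zero hρx
  obtain ⟨Δ, hΔ, hΔ0⟩ := exists_div (K := K) hx0
  obtain ⟨Δbar, hΔbar, hΔbar0⟩ := exists_div (K := k) hρx
  have hxD : (x : F) ∈ riemannRochSpace D := by rw [hx]; exact Submodule.smul_mem _ _ hf
  have hnn : 0 ≤ D + Δ := by
    rw [Finsupp.le_def]
    intro v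
    have := (mem_L hx0).mp hxD v
    rw [Finsupp.add_apply, hΔ v]
    simp only [Finsupp.coe_zero, Pi.zero_apply]
    omega
  have hdeg : Divisor.degree (D + Δ) = Divisor.degree D := by rw [map_add, hΔ0, add_zero]
  obtain ⟨Dbar, hred⟩ := R.exists_isRed_of_nonneg hF hE hdE hpole hnn (by rw [hdeg]; exact hD)
  refine ⟨Dbar - Δbar, ?_⟩
  have := hred.sub_div R hF hE (by rw [hdeg]; exact hD) hρx hΔ hΔ0 hΔbar hΔbar0
  rwa [add_sub_cancel_right] at this

omit hF hpole [HasPrincipalDivisors K F] [HasPrincipalDivisors k E] [Infinite k]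
  [Nonempty (Place K F)] [Nonempty (Place k E)] in
theorem IsRed.unique {D : Divisor K F} {D₁ D₂ : Divisor k E} (h₁ : R.IsRed D D₁)
    (h₂ : R.IsRed D D₂) (hD : c < Divisor.degree D) : D₁ = D₂ :=
  eq_of_L_eq hE hdE (by rw [h₁.1]; exact hD) (by rw [h₂.1]; exact hD)
    (by rw [← h₁.2, ← h₂.2])

include hgc hc0 in
theorem IsRed.add {D₁ D₂ : Divisor K F} {E₁ E₂ : Divisor k E} (h₁ : R.IsRed D₁ E₁)
    (h₂ : R.IsRed D₂ E₂) (hD₁ : c < Divisor.degree D₁) (hD₂ : c < Divisor.degree D₂) :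
    R.IsRed (D₁ + D₂) (E₁ + E₂) := by
  obtain ⟨G, hG⟩ := R.exists_isRed hF hE hdE hpole hgc (D := D₁ + D₂) (by rw [map_add]; omega)
  have hle : E₁ + E₂ ≤ G := by
    rw [Finsupp.le_def]
    intro v
    obtain ⟨f₁, hf₁, hf₁0, hv₁⟩ := exists_ord_eq hE hdE (D := E₁) (by rw [h₁.1]; exact hD₁) v
    obtain ⟨f₂, hf₂, hf₂0, hv₂⟩ := exists_ord_eq hE hdE (D := E₂) (by rw [h₂.1]; exact hD₂) v
    rw [← h₁.2] at hf₁
    rw [← h₂.2] at hf₂
    obtain ⟨x₁, hx₁, rfl⟩ := hf₁
    obtain ⟨x₂, hx₂, rfl⟩ := hf₂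
    have hmem : R.ρ x₁ * R.ρ x₂ ∈ riemannRochSpace G := by
      rw [← hG.2]
      exact ⟨x₁ * x₂, by rw [Subring.coe_mul]; exact mul_mem_L hx₁ hx₂, map_mul _ _ _⟩
    have := (mem_L (mul_ne_zero hf₁0 hf₂0)).mp hmem v
    rw [v.ord_mul hf₁0 hf₂0, hv₁, hv₂] at this
    rw [Finsupp.add_apply]
    omega
  have hdeg : Divisor.degree (E₁ + E₂) = Divisor.degree G := by
    rw [hG.1, map_add, map_add, h₁.1, h₂.1]
  rw [eq_of_le_of_degree_le hdE hle hdeg.ge]
  exact hG

end ReductionData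

end Fermat.Agent.H40
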