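import Mathlib
import Fermat.Prelude.Def_AlgebraicCurve_Repartitions
import Fermat.Agent.H40DeuringMain

/-!
# Deuring reduction: the reduction map on places (helper40)

Main theorem `ReductionData.exists_placeReduction`.
-/

set_option autoImplicit false

noncomputable section

open AlgebraicCurve WithZero

namespace Fermat.Agent.H40

variable {K F k E : Type*} [Field K] [Field F] [Algebra K F] [Field k] [Field E] [Algebra k E]

namespace ReductionData

variable (R : ReductionData K F k E)

variable {g c : ℤ} [HasPrincipalDivisors K F] [HasPrincipalDivisors k E] [Infinite k]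
  [Nonempty (Place K F)] [Nonempty (Place k E)]
  (hF : RiemannFor K F g c) (hE : RiemannFor k E g c)
  (hdF : ∀ v : Place K F, v.deg = 1) (hdE : ∀ v : Place k E, v.deg = 1)
  (hpole : R.PoleIneq) (hgc : g ≤ c) (hc0 : 0 ≤ c)

include hF hE hdF hdE hpole hgc hc0

open Classical in
/-- For each place `P` of `F` there is a place `Q` of `E` such that `nP` reduces to `nQ`
for every large `n`. -/
theorem exists_place (P : Place K F) :
    ∃ Q : Place k E, ∀ n : ℤ, c < n → R.IsRed (Finsupp.single P n) (Finsupp.single Q n) := by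
  have hdegP : ∀ n : ℤ, Divisor.degree (Finsupp.single P n) = n := fun n => by
    rw [Divisor.degree_single, hdF]; simp
  have hex : ∀ n : ℤ, c < n → ∃ D, R.IsRed (Finsupp.single P n) D := fun n hn =>
    R.exists_isRed hF hE hdE hpole hgc (by rw [hdegP]; exact hn)
  let a : ℤ → Divisor k E := fun n => if h : c < n then (hex n h).choose else 0
  have ha : ∀ n, c < n → R.IsRed (Finsupp.single P n) (a n) := fun n hn => by
    simp only [a, dif_pos hn]
    exact (hex n hn).choose_spec
  have hadd : ∀ m n, c < m → c < n → a (m + n) = a m + a n := fun m n hm hn => by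
    have h1 := IsRed.add R hF hE hdE hpole hgc hc0 (ha m hm) (ha n hn)
      (by rw [hdegP]; exact hm) (by rw [hdegP]; exact hn)
    rw [← Finsupp.single_add] at h1
    exact IsRed.unique R hE hdE (ha (m + n) (by omega)) h1 (by rw [hdegP]; omega)
  set δ : Divisor k E := a (c + 1 + 1) - a (c + 1) with hδ
  have hstep : ∀ n, c < n → a (n + 1) = a n + δ := fun n hn => by
    have h1 := hadd (n + 1) (c + 1) (by omega) (by omega)
    have h2 := hadd n (c + 1 + 1) hn (by omega)
    have h3 : n + 1 + (c + 1) = n + (c + 1 + 1) := by ring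
    rw [h3, h2] at h1
    rw [hδ]
    have h4 : a (n + 1) = a n + a (c + 1 + 1) - a (c + 1) := by
      rw [h1]; abel
    rw [h4]; abel
  have hsteps : ∀ (j : ℕ) n, c < n → a (n + j) = a n + j • δ := by
    intro j
    induction j with
    | zero => intro n _; simp
    | succ j ih =>
      intro n hn
      have : n + ((j + 1 : ℕ) : ℤ) = (n + j) + 1 := by push_cast; ring
      rw [this, hstep _ (by omega), ih n hn, succ_nsmul]
      abel
  have hlin : ∀ n, c < n → a n = n • δ := fun n hn => by
    have h1 := hadd n n hn hn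
    obtain ⟨j, rfl⟩ := Int.eq_ofNat_of_zero_le (show (0 : ℤ) ≤ n by omega)
    have h2 := hsteps j (j : ℤ) hn
    rw [h1] at h2
    have h3 := add_left_cancel h2
    rw [h3, natCast_zsmul]
  have hdegδ : Divisor.degree δ = 1 := by
    rw [hδ, map_sub, (ha _ (by omega)).1, (ha _ (by omega)).1, hdegP, hdegP]
    ring
  have hδ0 : 0 ≤ δ := by
    have h1 := ha (c + 1) (by omega)
    have h2 : (1 : E) ∈ riemannRochSpace (a (c + 1)) := by
      rw [← h1.2]
      refine ⟨1, ?_, map_one _⟩
      rw [Subring.coe_one, one_mem_L, Finsupp.le_def]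
      intro w
      rw [Finsupp.single_apply]
      simp only [Finsupp.coe_zero, Pi.zero_apply]
      split_ifs <;> omega
    rw [one_mem_L, hlin _ (by omega), Finsupp.le_def] at h2
    rw [Finsupp.le_def]
    intro w
    have h3 := h2 w
    simp only [Finsupp.coe_zero, Pi.zero_apply, Finsupp.smul_apply, smul_eq_mul] at h3 ⊢
    exact nonneg_of_mul_nonneg_right h3 (by omega)
  obtain ⟨Q, hQ⟩ := exists_eq_single hdE hδ0 hdegδ
  refine ⟨Q, fun n hn => ?_⟩
  have h1 := ha n hn
  rw [hlin n hn, hQ] at h1
  have : n • Finsupp.single Q (1 : ℤ) = Finsupp.single Q n := by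
    rw [Finsupp.smul_single, smul_eq_mul, mul_one]
  rwa [this] at h1

/-- **Deuring reduction of places**: for a function field `F/K` with a Gauss type reduction to a
function field `E/k` of the same genus, there is a map on places compatible with divisors of
functions; moreover Riemann-Roch spaces of large degree reduce onto Riemann-Roch spaces. -/
theorem exists_placeReduction :
    ∃ r : Place K F → Place k E,
      (∀ D : Divisor K F, c < Divisor.degree D → R.IsRed D (Finsupp.mapDomain r D)) ∧
      ∀ x : R.B, R.ρ x ≠ 0 → ∀ Δ : Divisor K F, (∀ v, Δ v = v.ord (x : F)) →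
        ∀ w, Finsupp.mapDomain r Δ w = w.ord (R.ρ x) := by
  classical
  choose r hr using R.exists_place hF hE hdF hdE hpole hgc hc0
  -- finite sums with large coefficients
  have hsum : ∀ (I : Finset (Place K F)) (n : Place K F → ℤ), I.Nonempty →
      (∀ i ∈ I, c < n i) → c < Divisor.degree (∑ i ∈ I, Finsupp.single i (n i)) ∧
        R.IsRed (∑ i ∈ I, Finsupp.single i (n i)) (∑ i ∈ I, Finsupp.single (r i) (n i)) := by
    intro I n hI
    induction hI using Finset.Nonempty.cons_induction with
    | singleton a =>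
      intro h
      have ha := h a (Finset.mem_singleton_self a)
      simp only [Finset.sum_singleton]
      refine ⟨?_, hr a (n a) ha⟩
      rw [Divisor.degree_single, hdF]; simpa using ha
    | cons a s has hs ih =>
      intro h
      obtain ⟨ih1, ih2⟩ := ih fun i hi => h i (Finset.mem_cons_of_mem hi)
      have ha := h a (Finset.mem_cons_self a s)
      simp only [Finset.sum_cons]
      have hda : Divisor.degree (Finsupp.single a (n a)) = n a := by
        rw [Divisor.degree_single, hdF]; simp
      refine ⟨?_, ?_⟩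
      · rw [map_add, hda]; omega
      · exact IsRed.add R hF hE hdE hpole hgc hc0 (hr a (n a) ha) ih2 (by rw [hda]; exact ha) ih1
  have hmap : ∀ (I : Finset (Place K F)) (n : Place K F → ℤ),
      Finsupp.mapDomain r (∑ i ∈ I, Finsupp.single i (n i)) =
        ∑ i ∈ I, Finsupp.single (r i) (n i) := by
    intro I n
    rw [← Finsupp.mapDomain.addMonoidHom_apply, map_sum]
    exact Finset.sum_congr rfl fun i _ => Finsupp.mapDomain_single
  have hred : ∀ D : Divisor K F, c < Divisor.degree D → R.IsRed D (Finsupp.mapDomain r D) := by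
    intro D hD
    have hD0 : D ≠ 0 := by rintro rfl; rw [map_zero] at hD; omega
    have hI : D.support.Nonempty := Finsupp.support_nonempty_iff.mpr hD0
    -- a large integer
    obtain ⟨N, hN⟩ : ∃ N : ℤ, c < N ∧ ∀ i ∈ D.support, c < D i + N := by
      refine ⟨c + 1 + ∑ i ∈ D.support, |D i|, ?_, ?_⟩
      · have : 0 ≤ ∑ i ∈ D.support, |D i| := Finset.sum_nonneg fun i _ => abs_nonneg _
        omega
      · intro i hi
        have h1 : |D i| ≤ ∑ i ∈ D.support, |D i| :=
          Finset.single_le_sum (f := fun i => |D i|) (fun i _ => abs_nonneg _) hi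
        have h2 := neg_abs_le (D i)
        omega
    obtain ⟨h1, h2⟩ := hsum D.support (fun _ => N) hI fun i _ => hN.1
    obtain ⟨h3, h4⟩ := hsum D.support (fun i => D i + N) hI hN.2
    have hDsum : D = ∑ i ∈ D.support, Finsupp.single i (D i) := (Finsupp.sum_single D).symm
    have e1 : (∑ i ∈ D.support, Finsupp.single i (D i + N)) =
        D + ∑ i ∈ D.support, Finsupp.single i N := by
      have e2 : D + ∑ i ∈ D.support, Finsupp.single i N =
          (∑ i ∈ D.support, Finsupp.single i (D i)) + ∑ i ∈ D.support, Finsupp.single i N :=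
        congrArg (fun t => t + ∑ i ∈ D.support, Finsupp.single i N) hDsum
      rw [e2, ← Finset.sum_add_distrib]
      exact Finset.sum_congr rfl fun i _ => Finsupp.single_add _ _ _
    obtain ⟨G, hG⟩ := R.exists_isRed hF hE hdE hpole hgc hD
    have h5 := IsRed.add R hF hE hdE hpole hgc hc0 hG h2 hD h1
    rw [← e1] at h5
    have h6 := IsRed.unique R hE hdE h4 h5 h3
    rw [← hmap, ← hmap, e1, Finsupp.mapDomain_add] at h6
    have h7 := add_right_cancel h6
    rw [h7]
    exact hG
  refine ⟨r, hred, ?_⟩
  intro x hx Δ hΔ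
  have hx0 := R.ne_zero_of_ρ_ne_zero hx
  obtain ⟨Δ', hΔ', hΔ'0⟩ := exists_div (K := K) hx0
  have hΔΔ' : Δ = Δ' := by ext v; rw [hΔ, hΔ']
  rw [← hΔΔ'] at hΔ'0
  obtain ⟨Δbar, hΔbar, hΔbar0⟩ := exists_div (K := k) hx
  obtain ⟨P⟩ := ‹Nonempty (Place K F)›
  have hdP : Divisor.degree (Finsupp.single P (c + 1)) = c + 1 := by
    rw [Divisor.degree_single, hdF]; simp
  have h1 := hred (Finsupp.single P (c + 1)) (by rw [hdP]; omega)
  have h2 := IsRed.sub_div R hF hE h1 (by rw [hdP]; omega) hx hΔ hΔ'0 hΔbar hΔbar0
  have h3 := hred (Finsupp.single P (c + 1) - Δ) (by rw [map_sub, hΔ'0, hdP]; omega)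
  have h4 := IsRed.unique R hE hdE h2 h3 (by rw [map_sub, hΔ'0, hdP]; omega)
  have h5 : Finsupp.mapDomain r (Finsupp.single P (c + 1) - Δ) =
      Finsupp.mapDomain r (Finsupp.single P (c + 1)) - Finsupp.mapDomain r Δ := by
    rw [← Finsupp.mapDomain.addMonoidHom_apply, map_sub]
    rfl
  rw [h5] at h4
  have h6 : Δbar = Finsupp.mapDomain r Δ := by
    have := congrArg (fun t => Finsupp.mapDomain r (Finsupp.single P (c + 1)) - t) h4
    simpa using this
  intro w
  rw [← h6, hΔbar]

end ReductionData

end Fermat.Agent.H40
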