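import Fermat.Agent.H94FunField
set_option autoImplicit false

noncomputable section

open AlgebraicCurve IsDedekindDomain WithZero IntermediateField
open scoped IntermediateField.algebraAdjoinAdjoin

namespace Fermat.Agent.H94
variable {K F : Type*} [Field K] [Field F] [Algebra K F]

section IntRing

variable (K) in
/-- The integral closure of `K[x]` in `F`. -/
abbrev IntRing (x : F) : Subalgebra (Algebra.adjoin K {x}) F :=
  integralClosure (Algebra.adjoin K {x}) F

variable {x : F}

theorem isPrincipalIdealRing_adjoin (hx : Transcendental K x) :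
    IsPrincipalIdealRing (Algebra.adjoin K {x}) :=
  IsPrincipalIdealRing.of_surjective (Polynomial.algEquivOfTranscendental K x hx).toRingEquiv
    (Polynomial.algEquivOfTranscendental K x hx).surjective

theorem isDedekindDomain_adjoin (hx : Transcendental K x) :
    IsDedekindDomain (Algebra.adjoin K {x}) := by
  have := isPrincipalIdealRing_adjoin hx
  infer_instance

theorem isSeparable_adjoin [CharZero K] [FiniteDimensional K⟮x⟯ F] :
    Algebra.IsSeparable K⟮x⟯ F := by
  have : CharZero K⟮x⟯ := charZero_of_injective_algebraMap (algebraMap K K⟮x⟯).injective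
  infer_instance

theorem isDedekindDomain_intRing [CharZero K] [FiniteDimensional K⟮x⟯ F]
    (hx : Transcendental K x) : IsDedekindDomain (IntRing K x) := by
  have := isPrincipalIdealRing_adjoin hx
  have := isSeparable_adjoin (K := K) (x := x)
  exact integralClosure.isDedekindDomain (Algebra.adjoin K {x}) K⟮x⟯ F

theorem isFractionRing_intRing [FiniteDimensional K⟮x⟯ F] :
    IsFractionRing (IntRing K x) F :=
  integralClosure.isFractionRing_of_finite_extension K⟮x⟯ F

theorem finite_intRing [CharZero K] [FiniteDimensional K⟮x⟯ F]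
    (hx : Transcendental K x) : Module.Finite (Algebra.adjoin K {x}) (IntRing K x) := by
  have := isPrincipalIdealRing_adjoin hx
  have := isSeparable_adjoin (K := K) (x := x)
  exact IsIntegralClosure.finite (Algebra.adjoin K {x}) K⟮x⟯ F (IntRing K x)

theorem mem_of_intRing {v : Place K F} (hv : x ∈ v.toValuationSubring) (b : IntRing K x) :
    algebraMap (IntRing K x) F b ∈ v.toValuationSubring := by
  have hsub : ∀ a : Algebra.adjoin K {x}, (a : F) ∈ v.toValuationSubring := by
    intro a
    have : Algebra.adjoin K {x} ≤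
      { v.toValuationSubring.toSubring with algebraMap_mem' := v.algebraMap_mem' } :=
      Algebra.adjoin_le (by simpa using hv)
    exact this a.2
  obtain ⟨p, hp, hpb⟩ := b.2
  let φ : Algebra.adjoin K {x} →+* v.toValuationSubring :=
    (algebraMap (Algebra.adjoin K {x}) F).codRestrict v.toValuationSubring.toSubring hsub
  have hint : IsIntegral v.toValuationSubring (b : F) := by
    refine ⟨p.map φ, hp.map φ, ?_⟩
    rw [Polynomial.eval₂_map]
    exact hpb
  obtain ⟨y, hy⟩ := IsIntegrallyClosed.isIntegral_iff.mp hint
  show (b : F) ∈ _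
  rw [← hy]
  exact SetLike.coe_mem y

variable (K x) in
/-- The ideal `(x)` of `K[x]`. -/
def xIdeal : Ideal (Algebra.adjoin K {x}) :=
  Ideal.span {⟨x, Algebra.self_mem_adjoin_singleton K x⟩}

theorem xIdeal_ne_bot (hx : Transcendental K x) : xIdeal K x ≠ ⊥ := by
  rw [xIdeal, ne_eq, Ideal.span_singleton_eq_bot]
  intro h
  apply hx
  have : x = 0 := congrArg Subtype.val h
  rw [this]
  exact isAlgebraic_zero

theorem xIdeal_isMaximal (hx : Transcendental K x) : (xIdeal K x).IsMaximal := by
  let e := Polynomial.algEquivOfTranscendental K x hx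
  let f : Algebra.adjoin K {x} →+* K :=
    (Polynomial.evalRingHom 0).comp (e.symm : Algebra.adjoin K {x} →+* Polynomial K)
  have hf : Function.Surjective f := by
    intro a
    refine ⟨algebraMap K _ a, ?_⟩
    show Polynomial.eval 0 (e.symm (algebraMap K _ a)) = a
    rw [e.symm.commutes]
    simp
  have hker : RingHom.ker f = xIdeal K x := by
    ext y
    rw [RingHom.mem_ker, xIdeal, Ideal.mem_span_singleton]
    show Polynomial.eval 0 (e.symm y) = 0 ↔ _
    rw [← Polynomial.IsRoot.def, ← Polynomial.dvd_iff_isRoot, map_zero, sub_zero,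
      ← map_dvd_iff e]
    rw [e.apply_symm_apply]
    have : e Polynomial.X = ⟨x, Algebra.self_mem_adjoin_singleton K x⟩ :=
      Polynomial.algEquivOfTranscendental_apply_X K x hx
    rw [this]
  rw [← hker]
  exact RingHom.ker_isMaximal_of_surjective f hf

theorem finrank_intRing [FiniteDimensional K⟮x⟯ F] :
    Module.finrank (Algebra.adjoin K {x}) (IntRing K x) = Module.finrank K⟮x⟯ F := by
  have := isFractionRing_intRing (K := K) (x := x)
  exact (IsFractionRing.finrank_eq (Algebra.adjoin K {x}) K⟮x⟯ (IntRing K x) F).symm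

/-- The places with `ord x > 0` are the primes over `(x)`. -/
theorem liesOver_of_mem (hx : Transcendental K x) {q : Ideal (IntRing K x)} [q.IsPrime]
    (hq : algebraMap (Algebra.adjoin K {x}) (IntRing K x)
      ⟨x, Algebra.self_mem_adjoin_singleton K x⟩ ∈ q) : q.LiesOver (xIdeal K x) := by
  have hmax := xIdeal_isMaximal (K := K) hx
  constructor
  refine hmax.eq_of_le ?_ ?_
  · exact (Ideal.comap_isPrime _ q).ne_top
  · rw [xIdeal, Ideal.span_singleton_le_iff_mem]
    exact hq

theorem mem_of_liesOver {q : Ideal (IntRing K x)} [hq : q.LiesOver (xIdeal K x)] :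
    algebraMap (Algebra.adjoin K {x}) (IntRing K x)
      ⟨x, Algebra.self_mem_adjoin_singleton K x⟩ ∈ q := by
  have h := hq.over
  have : (⟨x, Algebra.self_mem_adjoin_singleton K x⟩ : Algebra.adjoin K {x}) ∈ xIdeal K x :=
    Ideal.mem_span_singleton_self _
  rw [h] at this
  exact this

theorem sum_ord_pos [CharZero K] [IsAlgClosed K] [FunField K F] (hx : Transcendental K x) :
    ∃ hfin : {v : Place K F | 0 < v.ord x}.Finite,
      ∑ v ∈ hfin.toFinset, v.ord x = Module.finrank K⟮x⟯ F := by
  classical
  have := FunField.finiteDimensional (F := F) hx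
  have hded := isDedekindDomain_intRing (F := F) hx
  have hfrac := isFractionRing_intRing (K := K) (x := x)
  have hfinite := finite_intRing (F := F) hx
  have hpid := isPrincipalIdealRing_adjoin (F := F) hx
  have hx0 : x ≠ 0 := by
    rintro rfl
    exact hx isAlgebraic_zero
  have hmax := xIdeal_isMaximal (K := K) hx
  let xA : Algebra.adjoin K {x} := ⟨x, Algebra.self_mem_adjoin_singleton K x⟩
  let xB : IntRing K x := algebraMap (Algebra.adjoin K {x}) (IntRing K x) xA
  have hxB : algebraMap (IntRing K x) F xB = x := rfl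
  have hxB0 : xB ≠ 0 := by
    intro h
    apply hx0
    rw [← hxB, h, map_zero]
  -- the primes over `(x)`
  have hpbot := xIdeal_ne_bot (K := K) hx
  have : Fintype ((xIdeal K x).primesOver (IntRing K x)) :=
    (IsDedekindDomain.primesOver_finite (xIdeal K x) (IntRing K x)).fintype
  -- the dictionary
  have hmem : ∀ v : Place K F, 0 < v.ord x → ∀ b : IntRing K x,
      algebraMap (IntRing K x) F b ∈ v.toValuationSubring := fun v hv b =>
    mem_of_intRing (mem_of_ord_nonneg v hv.le) b
  have hne : ∀ q ∈ (xIdeal K x).primesOver (IntRing K x), q ≠ ⊥ := fun q hq =>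
    Ideal.ne_bot_of_mem_primesOver hpbot hq
  let toH : ((xIdeal K x).primesOver (IntRing K x)) → HeightOneSpectrum (IntRing K x) :=
    fun q => ⟨q.1, q.2.1, hne q.1 q.2⟩
  have hord : ∀ q : (xIdeal K x).primesOver (IntRing K x),
      (Place.ofHeightOneSpectrum (K := K) (F := F) (toH q)).ord x =
        (q.1.ramificationIdx (Algebra.adjoin K {x}) : ℤ) := by
    intro q
    have := q.2.1
    have := q.2.2
    have hmap : (xIdeal K x).map (algebraMap (Algebra.adjoin K {x}) (IntRing K x)) =
        Ideal.span {xB} := by
      rw [xIdeal, Ideal.map_span, Set.image_singleton]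
    show (Place.ofHeightOneSpectrum (K := K) (F := F) (toH q)).ord
      (algebraMap (IntRing K x) F xB) = _
    rw [ord_ofHeightOneSpectrum, HeightOneSpectrum.valuation_of_algebraMap,
      HeightOneSpectrum.intValuation_eq_exp_neg_multiplicity _ hxB0, log_exp, neg_neg,
      Ideal.IsDedekindDomain.ramificationIdx_eq_multiplicity (xIdeal K x) q.1
        (by rw [hmap, ne_eq, Ideal.span_singleton_eq_bot]; exact hxB0), hmap]
  let toP : {v : Place K F // 0 < v.ord x} ≃ ((xIdeal K x).primesOver (IntRing K x)) :=
    { toFun := fun v => ⟨(primeBelow v.1 (hmem v.1 v.2)).asIdeal,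
        (primeBelow v.1 (hmem v.1 v.2)).isPrime, by
          have := (primeBelow v.1 (hmem v.1 v.2)).isPrime
          exact liesOver_of_mem hx
            ((mem_primeBelow_iff v.1 (hmem v.1 v.2) xB).mpr (Or.inr (by rw [hxB]; exact v.2)))⟩
      invFun := fun q => ⟨Place.ofHeightOneSpectrum (K := K) (F := F) (toH q), by
          rw [hord]
          have := q.2.1
          exact_mod_cast Ideal.ramificationIdx_pos (R := Algebra.adjoin K {x}) (q := q.1)⟩
      left_inv := fun v => Subtype.ext (ofHeightOneSpectrum_primeBelow v.1 (hmem v.1 v.2))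
      right_inv := fun q => Subtype.ext (congrArg HeightOneSpectrum.asIdeal
        (primeBelow_ofHeightOneSpectrum (K := K) (F := F) (toH q) _)) }
  have hinert : ∀ q : (xIdeal K x).primesOver (IntRing K x),
      q.1.inertiaDeg (Algebra.adjoin K {x}) = 1 := by
    intro q
    have hq1 := q.2.1
    have hq2 := q.2.2
    have hqm : q.1.IsMaximal := hq1.isMaximal (hne q.1 q.2)
    rw [Ideal.inertiaDeg_eq_of_isMaximal (xIdeal K x) q.1]
    let v := Place.ofHeightOneSpectrum (K := K) (F := F) (toH q)
    have hsurj : Function.Surjective (algebraMap (Algebra.adjoin K {x} ⧸ xIdeal K x)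
        (IntRing K x ⧸ q.1)) := by
      intro y
      obtain ⟨b, rfl⟩ := Ideal.Quotient.mk_surjective y
      obtain ⟨a, ha⟩ := exists_sub_algebraMap_ord_pos v
        (algebraMap_mem_ofHeightOneSpectrum (K := K) (F := F) (toH q) b)
      refine ⟨algebraMap K _ a, ?_⟩
      have h1 : b - algebraMap K (IntRing K x) a ∈ q.1 := by
        have h2 := primeBelow_ofHeightOneSpectrum (K := K) (F := F) (toH q)
          (algebraMap_mem_ofHeightOneSpectrum (K := K) (F := F) (toH q))
        have h3 : q.1 = (toH q).asIdeal := rfl
        rw [h3, ← h2, mem_primeBelow_iff, map_sub,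
          ← IsScalarTower.algebraMap_apply K (IntRing K x) F]
        refine ha.imp (fun h => ?_) id
        have : algebraMap (IntRing K x) F (b - algebraMap K (IntRing K x) a) = 0 := by
          rw [map_sub, ← IsScalarTower.algebraMap_apply K (IntRing K x) F]
          exact h
        exact (map_eq_zero_iff _ (IsFractionRing.injective (IntRing K x) F)).mp this
      have h4 : (Ideal.Quotient.mk q.1) b = (Ideal.Quotient.mk q.1)
          (algebraMap K (IntRing K x) a) := by
        rw [Ideal.Quotient.eq]
        exact h1
      rw [h4]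
      rfl
    have hbij : Function.Bijective (algebraMap (Algebra.adjoin K {x} ⧸ xIdeal K x)
        (IntRing K x ⧸ q.1)) := by
      let : Field (Algebra.adjoin K {x} ⧸ xIdeal K x) := Ideal.Quotient.field _
      exact ⟨RingHom.injective _, hsurj⟩
    have hlin := LinearEquiv.ofBijective
      (Algebra.linearMap (Algebra.adjoin K {x} ⧸ xIdeal K x) (IntRing K x ⧸ q.1)) hbij
    rw [← hlin.finrank_eq]
    exact Module.finrank_self _
  have hfint : Finite {v : Place K F // 0 < v.ord x} := Finite.of_equiv _ toP.symm
  have hfinset : {v : Place K F | 0 < v.ord x}.Finite := Set.finite_coe_iff.mp hfint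
  refine ⟨hfinset, ?_⟩
  let _ : Fintype {v : Place K F // 0 < v.ord x} := Fintype.ofFinite _
  have h1 : ∑ v ∈ hfinset.toFinset, v.ord x = ∑ v : {v : Place K F // 0 < v.ord x}, v.1.ord x :=
    Finset.sum_subtype _ (fun v => by simp) _
  rw [h1, ← finrank_intRing, ← Ideal.sum_ramification_inertia_eq_finrank (xIdeal K x)
    (IntRing K x), Nat.cast_sum]
  refine Fintype.sum_equiv toP _ _ fun v => ?_
  rw [hinert, mul_one, ← hord]
  congr 1
  exact (congrArg Subtype.val (toP.symm_apply_apply v)).symm

theorem finite_setOf_ord_pos [CharZero K] [IsAlgClosed K] [FunField K F]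
    (hx : Transcendental K x) : {v : Place K F | 0 < v.ord x}.Finite :=
  (sum_ord_pos hx).choose

theorem transcendental_inv (hx : Transcendental K x) : Transcendental K x⁻¹ := by
  intro h
  apply hx
  rw [← inv_inv x]
  exact h.inv

theorem adjoin_inv (x : F) : K⟮x⁻¹⟯ = K⟮x⟯ := by
  apply le_antisymm
  · rw [adjoin_simple_le_iff]
    exact inv_mem (mem_adjoin_simple_self K x)
  · rw [adjoin_simple_le_iff]
    have := inv_mem (mem_adjoin_simple_self K x⁻¹)
    rwa [inv_inv] at this

theorem finite_setOf_ord_neg [CharZero K] [IsAlgClosed K] [FunField K F]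
    (hx : Transcendental K x) : {v : Place K F | v.ord x < 0}.Finite := by
  have h := finite_setOf_ord_pos (F := F) (transcendental_inv hx)
  refine h.subset fun v hv => ?_
  simp only [Set.mem_ofPred_eq, v.ord_inv] at hv ⊢
  omega

theorem sum_ord_neg [CharZero K] [IsAlgClosed K] [FunField K F] (hx : Transcendental K x) :
    ∑ v ∈ (finite_setOf_ord_neg (K := K) hx).toFinset, v.ord x = -Module.finrank K⟮x⟯ F := by
  obtain ⟨hfin, hsum⟩ := sum_ord_pos (F := F) (transcendental_inv hx)
  rw [adjoin_inv] at hsum
  rw [← hsum, ← Finset.sum_neg_distrib]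
  refine Finset.sum_congr ?_ fun v _ => ?_
  · ext v; simp [v.ord_inv]
  · rw [v.ord_inv, neg_neg]

variable (K F) in
theorem hasPrincipalDivisors [CharZero K] [IsAlgClosed K] [FunField K F] :
    HasPrincipalDivisors K F where
  exists_divisor f hf := by
    classical
    by_cases hfK : f ∈ (algebraMap K F).range
    · obtain ⟨a, rfl⟩ := hfK
      exact ⟨0, fun v => by rw [ord_algebraMap]; rfl, map_zero _⟩
    have hft := transcendental_of_notMem_range hfK
    have hfin : {v : Place K F | v.ord f ≠ 0}.Finite := by
      refine ((finite_setOf_ord_pos hft).union (finite_setOf_ord_neg hft)).subset fun v hv => ?_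
      simp only [Set.mem_ofPred_eq, Set.mem_union] at hv ⊢
      omega
    let D : Divisor K F := Finsupp.ofSupportFinite (fun v => v.ord f) hfin
    refine ⟨D, fun v => rfl, ?_⟩
    obtain ⟨hfin1, hsum1⟩ := sum_ord_pos (F := F) hft
    have hsum2 := sum_ord_neg (F := F) hft
    have hdeg : Divisor.degree D = ∑ v ∈ D.support, D v := by
      show (Finsupp.liftAddHom fun v : Place K F => AddMonoidHom.mulRight (v.deg : ℤ)) D = _
      rw [Finsupp.liftAddHom_apply, Finsupp.sum]
      refine Finset.sum_congr rfl fun v _ => ?_
      rw [deg_eq_one]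
      simp
    have hsupp : D.support = hfin1.toFinset ∪ (finite_setOf_ord_neg (K := K) hft).toFinset := by
      ext v
      simp only [Finsupp.mem_support_iff, Finset.mem_union, Set.Finite.mem_toFinset,
        Set.mem_ofPred_eq]
      show v.ord f ≠ 0 ↔ _
      omega
    have hdisj : Disjoint hfin1.toFinset (finite_setOf_ord_neg (K := K) hft).toFinset := by
      rw [Finset.disjoint_left]
      intro v
      simp only [Set.Finite.mem_toFinset, Set.mem_ofPred_eq]
      omega
    rw [hdeg, hsupp, Finset.sum_union hdisj]
    show ∑ v ∈ hfin1.toFinset, v.ord f +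
      ∑ v ∈ (finite_setOf_ord_neg (K := K) hft).toFinset, v.ord f = 0
    rw [hsum1, hsum2]
    ring

end IntRing
end Fermat.Agent.H94
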