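import Mathlib
import Fermat.Agent.H3RR_Degree
import Fermat.Agent.H94Divisors
import Fermat.Agent.H40DeuringPlace

/-!
# The pole degree inequality for Gauss type reductions (helper40)
-/

set_option autoImplicit false

noncomputable section

open AlgebraicCurve WithZero Polynomial IntermediateField

namespace Fermat.Agent.H40

variable {K F k E : Type*} [Field K] [Field F] [Algebra K F] [Field k] [Field E] [Algebra k E]

namespace ReductionData

variable (R : ReductionData K F k E)

/-- Scaling of a finite family of elements, not all zero. -/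
theorem exists_scale_family {ι : Type*} (s : Finset ι) (a : ι → K) (h : ∃ i ∈ s, a i ≠ 0) :
    ∃ c : K, c ≠ 0 ∧ (∀ i ∈ s, c * a i ∈ R.A) ∧ ∃ i ∈ s, c * a i = 1 := by
  obtain ⟨i0, hi0, hai0⟩ := h
  obtain ⟨j, hjs, hj⟩ := Finset.exists_max_image s (fun i => R.A.valuation (a i)) ⟨i0, hi0⟩
  have haj : a j ≠ 0 := by
    intro h0
    have h1 := hj i0 hi0
    rw [h0, map_zero, le_zero_iff, Valuation.zero_iff] at h1
    exact hai0 h1
  refine ⟨(a j)⁻¹, inv_ne_zero haj, fun i hi => ?_, j, hjs, inv_mul_cancel₀ haj⟩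
  rw [← R.A.valuation_le_one_iff, map_mul, map_inv₀, mul_comm, ← div_eq_mul_inv]
  exact div_le_one_of_le₀ (hj i hi) zero_le

theorem coe_sum {ι : Type*} (s : Finset ι) (f : ι → R.B) :
    ((∑ i ∈ s, f i : R.B) : F) = ∑ i ∈ s, (f i : F) := map_sum R.B.subtype _ _

/-- Lifts of elements independent over `k(ρ x)` are independent over `K(x)`. -/
theorem linearIndependent_adjoin {ι : Type*} [Finite ι] {x : R.B}
    (hx : Transcendental K (x : F)) (hρx : Transcendental k (R.ρ x)) (z : ι → R.B)
    (hz : LinearIndependent k⟮R.ρ x⟯ fun i => R.ρ (z i)) :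
    LinearIndependent K⟮(x : F)⟯ fun i => (z i : F) := by
  classical
  cases nonempty_fintype ι
  apply H3RR.linearIndependent_of_poly hx
  intro p hp hex
  obtain ⟨i0, hi0⟩ := hex
  -- a common bound for the degrees
  set N := (Finset.univ.sup fun i => (p i).natDegree) + 1 with hN
  have hdegN : ∀ i, (p i).natDegree < N := fun i =>
    Nat.lt_succ_of_le (Finset.le_sup (f := fun i => (p i).natDegree) (Finset.mem_univ i))
  obtain ⟨c, hc0, hcA, ⟨j, m⟩, hjm, hjm1⟩ := R.exists_scale_family
    ((Finset.univ : Finset ι) ×ˢ Finset.range N) (fun t => (p t.1).coeff t.2)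
    ⟨(i0, 0), by simp [hN], hi0⟩
  have hcA' : ∀ i n, c * (p i).coeff n ∈ R.A := fun i n => by
    by_cases hn : n < N
    · exact hcA (i, n) (by simpa using hn)
    · rw [coeff_eq_zero_of_natDegree_lt (by have := hdegN i; omega), mul_zero]
      exact R.A.zero_mem
  let q : ι → R.B := fun i => ∑ n ∈ Finset.range N, R.const ⟨_, hcA' i n⟩ * x ^ n
  have hq : ∀ i, (q i : F) = algebraMap K F c * aeval (x : F) (p i) := fun i => by
    simp only [q]
    rw [coe_sum, aeval_eq_sum_range' (hdegN i), Finset.mul_sum]
    refine Finset.sum_congr rfl fun n _ => ?_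
    rw [Subring.coe_mul, coe_const, Subring.coe_pow, map_mul, Algebra.smul_def, mul_assoc]
  have hsum : ∑ i, q i * z i = 0 := by
    apply Subtype.ext
    rw [coe_sum]
    simp only [Subring.coe_mul, hq, mul_assoc]
    rw [← Finset.mul_sum, hp, mul_zero]
    rfl
  let pbar : ι → k[X] := fun i => ∑ n ∈ Finset.range N, monomial n (R.π ⟨_, hcA' i n⟩)
  have hρq : ∀ i, R.ρ (q i) = aeval (R.ρ x) (pbar i) := fun i => by
    simp only [q, pbar, map_sum, map_mul, map_pow, ρ_const, aeval_monomial]
  have h1 := congrArg R.ρ hsum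
  rw [map_sum, map_zero] at h1
  simp only [map_mul, hρq] at h1
  have h2 := Fintype.linearIndependent_iff.mp hz
    (fun i => aeval (AdjoinSimple.gen k (R.ρ x)) (pbar i)) (by
      rw [← h1]
      refine Finset.sum_congr rfl fun i _ => ?_
      rw [Algebra.smul_def]
      have h0 : (algebraMap k⟮R.ρ x⟯ E) (aeval (AdjoinSimple.gen k (R.ρ x)) (pbar i)) =
          aeval (R.ρ x) (pbar i) := AdjoinSimple.coe_aeval_gen_apply k _ (pbar i)
      rw [h0]) j
  have h3 : aeval (R.ρ x) (pbar j) = 0 := by
    rw [← AdjoinSimple.coe_aeval_gen_apply, h2]; rfl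
  have h4 := (transcendental_iff.mp hρx) _ h3
  have h5 := congrArg (fun t => Polynomial.coeff t m) h4
  have hm : m < N := by
    have := (Finset.mem_product.mp hjm).2
    simpa using this
  simp only [pbar, finsetSum_coeff, coeff_monomial, coeff_zero] at h5
  rw [Finset.sum_ite_eq' (Finset.range N) m, if_pos (Finset.mem_range.mpr hm)] at h5
  have h6 : (⟨c * (p j).coeff m, hcA' j m⟩ : R.A) = 1 := Subtype.ext hjm1
  rw [h6, map_one] at h5
  exact one_ne_zero h5

/-- A function whose reduction is transcendental is transcendental. -/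
theorem transcendental_of_ρ [IsAlgClosed K] {x : R.B} (hρx : Transcendental k (R.ρ x)) :
    Transcendental K (x : F) := by
  intro halg
  obtain ⟨a, ha⟩ := H3RR.exists_const_of_isAlgebraic halg
  have hb : LinearIndependent k fun _ : Fin 1 => R.ρ (1 : R.B) := by
    rw [map_one]
    exact LinearIndependent.of_subsingleton 0 one_ne_zero
  have haA : a ∈ R.A := R.coeff_mem (b := fun _ : Fin 1 => (1 : R.B)) hb (c := fun _ => a) (by
    simp only [Finset.univ_unique, Finset.sum_singleton, Subring.coe_one]
    rw [Algebra.smul_def, mul_one, ha]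
    exact x.2) 0
  have : x = R.const ⟨a, haA⟩ := Subtype.ext (by rw [coe_const]; exact ha.symm)
  rw [this, ρ_const] at hρx
  exact hρx (isAlgebraic_algebraMap _)

/-- The degree inequality `[E : k(ρ x)] ≤ [F : K(x)]`. -/
theorem finrank_adjoin_le [IsAlgClosed K] [H94.FunField K F] {x : R.B}
    (hρx : Transcendental k (R.ρ x)) :
    Module.finrank k⟮R.ρ x⟯ E ≤ Module.finrank K⟮(x : F)⟯ F := by
  classical
  have hx := R.transcendental_of_ρ hρx
  have hfd := H94.FunField.finiteDimensional hx
  by_cases hfin : FiniteDimensional k⟮R.ρ x⟯ E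
  · let e := Module.finBasis k⟮R.ρ x⟯ E
    choose u w hw huw using R.frac
    let Y : E := ∏ i, R.ρ (w (e i))
    have hY : Y ≠ 0 := Finset.prod_ne_zero_iff.mpr fun i _ => hw (e i)
    let z : Fin (Module.finrank k⟮R.ρ x⟯ E) → R.B := fun i =>
      u (e i) * ∏ j ∈ Finset.univ.erase i, w (e j)
    have hz : ∀ i, R.ρ (z i) = e i * Y := fun i => by
      simp only [z, Y]
      rw [map_mul, map_prod, ← huw (e i), mul_assoc,
        Finset.mul_prod_erase Finset.univ (fun j => R.ρ (w (e j))) (Finset.mem_univ i)]
    have hzli : LinearIndependent k⟮R.ρ x⟯ fun i => R.ρ (z i) := by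
      rw [Fintype.linearIndependent_iff]
      intro t ht
      apply Fintype.linearIndependent_iff.mp e.linearIndependent
      have : (∑ i, t i • e i) * Y = 0 := by
        rw [Finset.sum_mul, ← ht]
        refine Finset.sum_congr rfl fun i _ => ?_
        rw [hz, Algebra.smul_mul_assoc]
      exact (mul_eq_zero.mp this).resolve_right hY
    have := (R.linearIndependent_adjoin hx hρx z hzli).fintype_card_le_finrank
    simpa using this
  · rw [Module.finrank_of_not_finite hfin]
    exact Nat.zero_le _

/-- Pole degree inequality. -/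
theorem poleIneq [CharZero K] [IsAlgClosed K] [H94.FunField K F] [IsAlgClosed k] [H3RR.IsFF k E] :
    R.PoleIneq := by
  classical
  intro x D Dbar hD hxD hρx0 hDbar
  have hx0 := R.ne_zero_of_ρ_ne_zero hρx0
  have hdF : ∀ v : Place K F, v.deg = 1 := fun v => H94.deg_eq_one v
  have hdE : ∀ v : Place k E, v.deg = 1 := fun v => H3RR.deg_eq_one v
  by_cases halg : IsAlgebraic k (R.ρ x)
  · obtain ⟨a, ha⟩ := H3RR.exists_const_of_isAlgebraic halg
    have : Dbar = 0 := by
      ext v
      rw [hDbar, ← ha, ord_algebraMap]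
      simp
    rw [this, map_zero]
    exact degree_nonneg hdF hD
  · have hρx : Transcendental k (R.ρ x) := halg
    have hx := R.transcendental_of_ρ hρx
    have h1 : Divisor.degree Dbar ≤ Module.finrank k⟮R.ρ x⟯ E := by
      rw [degree_eq_sum hdE, Finsupp.sum]
      have h2 := H3RR.sum_ord_le_finrank (H3RR.transcendental_inv hρx) Dbar.support (by
        intro v hv
        rw [Finsupp.mem_support_iff, hDbar] at hv
        rw [v.adicValuation_eq_exp_neg_ord (inv_ne_zero hρx0), v.ord_inv, ← exp_zero, exp_lt_exp]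
        rw [max_def] at hv
        split_ifs at hv <;> omega)
      rw [H94.adjoin_inv] at h2
      have h3 : ∑ v ∈ Dbar.support, Dbar v =
          ((∑ v ∈ Dbar.support, (v.ord (R.ρ x)⁻¹).toNat : ℕ) : ℤ) := by
        rw [Nat.cast_sum]
        refine Finset.sum_congr rfl fun v _ => ?_
        rw [hDbar, v.ord_inv, Int.toNat_eq_max, max_comm]
      rw [h3]
      exact_mod_cast h2
    have h4 := R.finrank_adjoin_le hρx
    have h5 := H94.sum_ord_neg (F := F) hx
    have h6 : ∑ v ∈ (H94.finite_setOf_ord_neg (K := K) hx).toFinset, (-(v.ord (x : F))) ≤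
        Divisor.degree D := by
      rw [degree_eq_sum hdF, Finsupp.sum]
      have h7 := (mem_L hx0).mp hxD
      have h8 : (H94.finite_setOf_ord_neg (K := K) hx).toFinset ⊆ D.support := by
        intro v hv
        rw [Set.Finite.mem_toFinset] at hv
        have hv' : v.ord (x : F) < 0 := hv
        rw [Finsupp.mem_support_iff]
        have := h7 v
        omega
      calc ∑ v ∈ (H94.finite_setOf_ord_neg (K := K) hx).toFinset, (-(v.ord (x : F)))
          ≤ ∑ v ∈ (H94.finite_setOf_ord_neg (K := K) hx).toFinset, D v :=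
            Finset.sum_le_sum fun v _ => by have := h7 v; omega
        _ ≤ ∑ v ∈ D.support, D v :=
            Finset.sum_le_sum_of_subset_of_nonneg h8 fun v _ _ => Finsupp.le_def.mp hD v
    rw [Finset.sum_neg_distrib, h5] at h6
    have h9 : (Module.finrank k⟮R.ρ x⟯ E : ℤ) ≤ Module.finrank K⟮(x : F)⟯ F := by
      exact_mod_cast h4
    linarith

end ReductionData

end Fermat.Agent.H40
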