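/-
H88: trace of an element which is small at all places above a given place.
-/
import Mathlib
import Fermat.Agent.H3RR_Degree

set_option autoImplicit false

open AlgebraicCurve WithZero IsLocalRing Polynomial IntermediateField Fermat.Agent.H3RR

namespace Fermat.Agent.H88

/-- extension of valuation subrings along field extensions -/
theorem exists_comap_eq {E Ω : Type*} [Field E] [Field Ω] [Algebra E Ω] (V : ValuationSubring E) :
    ∃ B : ValuationSubring Ω, B.comap (algebraMap E Ω) = V := by
  let A : Subring Ω := V.toSubring.map (algebraMap E Ω)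
  let I : Ideal A :=
    { carrier := {a | ∃ e : E, e ∈ V.nonunits ∧ algebraMap E Ω e = a}
      add_mem' := by
        rintro a b ⟨e, he, hea⟩ ⟨f, hf, hfb⟩
        refine ⟨e + f, ?_, ?_⟩
        · rw [ValuationSubring.mem_nonunits_iff] at he hf ⊢
          exact Valuation.map_add_lt _ he hf
        · rw [map_add, hea, hfb]; rfl
      zero_mem' := ⟨0, by rw [ValuationSubring.mem_nonunits_iff, map_zero]; exact zero_lt_one, by simp⟩
      smul_mem' := by
        rintro ⟨_, c, hc, rfl⟩ a ⟨e, he, hea⟩
        refine ⟨c * e, ?_, ?_⟩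
        · rw [ValuationSubring.mem_nonunits_iff, map_mul] at *
          have hc' : V.valuation c ≤ 1 := (V.valuation_le_one_iff c).mpr hc
          exact lt_of_le_of_lt (mul_le_of_le_one_left' hc') he
        · rw [map_mul, hea]; rfl }
  have hI : I ≠ ⊤ := by
    rw [Ideal.ne_top_iff_one]
    rintro ⟨e, he, he1⟩
    have : e = 1 := (algebraMap E Ω).injective (by rw [he1, map_one]; rfl)
    rw [this, ValuationSubring.mem_nonunits_iff, map_one] at he
    exact lt_irrefl _ he
  obtain ⟨B, hB, hIB⟩ := Ideal.image_subset_nonunits_valuationSubring I hI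
  refine ⟨B, ?_⟩
  apply le_antisymm
  · intro e he
    by_contra hne
    have he0 : e ≠ 0 := by rintro rfl; exact hne (zero_mem _)
    have h1 : e⁻¹ ∈ V.nonunits := by
      rw [ValuationSubring.mem_nonunits_iff, map_inv₀]
      have : 1 < V.valuation e := by
        rw [← not_le]; intro h; exact hne ((V.valuation_le_one_iff e).mp h)
      exact inv_lt_one_of_one_lt₀ this
    have h2 : algebraMap E Ω e⁻¹ ∈ B.nonunits :=
      hIB ⟨⟨algebraMap E Ω e⁻¹, e⁻¹, ValuationSubring.nonunits_subset h1, rfl⟩, ⟨e⁻¹, h1, rfl⟩, rfl⟩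
    rw [ValuationSubring.mem_nonunits_iff, map_inv₀, map_inv₀] at h2
    have h3 : B.valuation (algebraMap E Ω e) ≤ 1 := (B.valuation_le_one_iff _).mpr he
    have h4 : B.valuation (algebraMap E Ω e) ≠ 0 := by
      rw [Valuation.ne_zero_iff]; exact (_root_.map_ne_zero _).mpr he0
    rw [inv_lt_one₀ (zero_lt_iff.mpr h4)] at h2
    exact absurd h3 (not_le.mpr h2)
  · intro e he
    exact hB ⟨e, he, rfl⟩

section TraceVal

variable {K : Type*} [Field K] {E F : Type*} [Field E] [Field F] [Algebra K E] [Algebra K F]
  [Algebra E F] [IsScalarTower K E F]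

/-- If `h` is small at all places of `F` above `v`, then its trace is small at `v`. -/
theorem trace_lt_one [FiniteDimensional E F] [Algebra.IsSeparable E F] [IsFF K F]
    (v : Place K E) {h : F}
    (hh : ∀ w : Place K F, (∀ e : E, e ∈ v.toValuationSubring ↔
      algebraMap E F e ∈ w.toValuationSubring) → w.adicValuation h < 1) :
    v.adicValuation (Algebra.trace E F h) < 1 := by
  classical
  obtain ⟨B, hB⟩ := exists_comap_eq (Ω := AlgebraicClosure E) v.toValuationSubring
  have hmem : ∀ e : E, e ∈ v.toValuationSubring ↔ algebraMap E (AlgebraicClosure E) e ∈ B := by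
    intro e; rw [← hB]; rfl
  have hσ : ∀ σ : F →ₐ[E] AlgebraicClosure E, B.valuation (σ h) < 1 := by
    intro σ
    have hK : ∀ a : K, algebraMap K F a ∈ B.comap (σ : F →+* AlgebraicClosure E) := by
      intro a
      show σ (algebraMap K F a) ∈ B
      rw [IsScalarTower.algebraMap_apply K E F, σ.commutes, ← hmem]
      exact v.algebraMap_mem' a
    have htop : B.comap (σ : F →+* AlgebraicClosure E) ≠ ⊤ := by
      intro htop
      apply v.ne_top'
      rw [eq_top_iff]
      intro e _
      have h1 : algebraMap E F e ∈ B.comap (σ : F →+* AlgebraicClosure E) := htop ▸ trivial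
      have h2 : σ (algebraMap E F e) ∈ B := h1
      rw [σ.commutes, ← hmem] at h2
      exact h2
    have h1 := hh (placeOf _ hK htop) (by
      intro e
      rw [placeOf_toValuationSubring, hmem, ← σ.commutes]
      rfl)
    by_cases h0 : h = 0
    · rw [h0, map_zero, map_zero]; exact zero_lt_one
    · have h2 : (placeOf _ hK htop : Place K F).adicValuation h⁻¹ > 1 := by
        rw [map_inv₀]
        exact (one_lt_inv₀ (zero_lt_iff.mpr (Place.adicValuation_ne_zero _ h0))).mpr h1
      have h3 : h⁻¹ ∉ (placeOf _ hK htop : Place K F).toValuationSubring := fun h' =>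
        absurd (Place.adicValuation_le_one_of_mem _ h') (not_le.mpr h2)
      have h4 : σ h⁻¹ ∉ B := h3
      rw [← B.valuation_le_one_iff, map_inv₀, map_inv₀, not_le] at h4
      have h5 : B.valuation (σ h) ≠ 0 := by
        rw [Valuation.ne_zero_iff]; exact (_root_.map_ne_zero _).mpr h0
      exact (one_lt_inv₀ (zero_lt_iff.mpr h5)).mp h4
  have htr : B.valuation (algebraMap E (AlgebraicClosure E) (Algebra.trace E F h)) < 1 := by
    rw [trace_eq_sum_embeddings]
    exact Valuation.map_sum_lt _ one_ne_zero fun σ _ => hσ σ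
  have h6 : ¬ 1 ≤ v.adicValuation (Algebra.trace E F h) := by
    intro hge
    have h0 : Algebra.trace E F h ≠ 0 := by
      intro h0; rw [h0, map_zero] at hge; exact absurd hge (not_le.mpr zero_lt_one)
    have h7 : v.adicValuation (Algebra.trace E F h)⁻¹ ≤ 1 := by
      rw [map_inv₀]; exact inv_le_one_of_one_le₀ hge
    have h8 := mem_of_adicValuation_le_one v h7
    rw [hmem, ← B.valuation_le_one_iff, map_inv₀, map_inv₀] at h8
    have h9 : B.valuation (algebraMap E (AlgebraicClosure E) (Algebra.trace E F h)) ≠ 0 := by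
      rw [Valuation.ne_zero_iff]; exact (_root_.map_ne_zero _).mpr h0
    exact absurd ((inv_le_one₀ (zero_lt_iff.mpr h9)).mp h8) (not_le.mpr htr)
  exact not_le.mp h6

end TraceVal

end Fermat.Agent.H88
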