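/-
H88: Riemann--Hurwitz inequality in any characteristic, for separable `F/K(y)`:
if `R w ≤ e_w - 1` for all places then `deg R ≤ 2 g - 2 + 2 [F : K(y)]`.
-/
import Mathlib
import Fermat.Agent.H88Trace

set_option autoImplicit false

open AlgebraicCurve WithZero IsLocalRing Polynomial IntermediateField Fermat.Agent.H3RR

namespace Fermat.Agent.H88

/-- Riemann's theorem, as a package. -/
structure Riemann (K F : Type*) [Field K] [Field F] [Algebra K F] [IsAlgClosed K] [IsFF K F]
    (g : ℤ) : Prop where
  fin : ∀ D : Divisor K F, Module.Finite K (riemannRochSpace D)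
  ineq : ∀ D : Divisor K F, Divisor.degree D + 1 - g ≤ (ell D : ℤ)
  eq : ∃ c : ℤ, ∀ D : Divisor K F, c ≤ Divisor.degree D → (ell D : ℤ) = Divisor.degree D + 1 - g
  pole : ∀ y : F, Transcendental K y →
    Divisor.degree (poleDiv y : Divisor K F) = Module.finrank K⟮y⟯ F

section Basic

variable {K F : Type*} [Field K] [Field F] [Algebra K F] [IsAlgClosed K] [IsFF K F]

theorem adicValuation_sub_const_lt_one_unique {v : Place K F} {y : F} {c d : K}
    (hc : v.adicValuation (y - algebraMap K F c) < 1)
    (hd : v.adicValuation (y - algebraMap K F d) < 1) : c = d := by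
  by_contra hne
  have h1 : v.adicValuation (algebraMap K F (c - d)) < 1 := by
    have : algebraMap K F (c - d) = (y - algebraMap K F d) - (y - algebraMap K F c) := by
      rw [map_sub]; ring
    rw [this]
    exact Valuation.map_sub_lt _ hd hc
  rw [adicValuation_algebraMap v (sub_ne_zero.mpr hne)] at h1
  exact lt_irrefl _ h1

omit [IsAlgClosed K] [IsFF K F] in
theorem transcendental_sub_const {y : F} (hy : Transcendental K y) (c : K) :
    Transcendental K (y - algebraMap K F c) := by
  intro h
  apply hy
  have := h.add (isAlgebraic_algebraMap (R := K) (A := F) c)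
  rwa [sub_add_cancel] at this

variable (K F) in
theorem infinite_place : Infinite (Place K F) := by
  obtain ⟨x, hx, _⟩ := IsFF.exists_gen (K := K) (F := F)
  have h : ∀ c : K, ∃ v : Place K F, v.adicValuation (x - algebraMap K F c) < 1 := fun c =>
    exists_place_lt_one (transcendental_sub_const hx c)
  choose f hf using h
  have : Function.Injective f := by
    intro c d hcd
    exact adicValuation_sub_const_lt_one_unique (hf c) (hcd ▸ hf d)
  exact Infinite.of_injective f this

omit [IsAlgClosed K] [IsFF K F] in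
theorem ell_eq_zero_iff (D : Divisor K F) [Module.Finite K (riemannRochSpace D)] :
    ell D = 0 ↔ riemannRochSpace D = ⊥ := Submodule.finrank_eq_zero

omit [IsAlgClosed K] [IsFF K F] in
theorem mem_L_iff {D : Divisor K F} {f : F} :
    f ∈ riemannRochSpace D ↔ ∀ v : Place K F, v.adicValuation f ≤ exp (D v) := Iff.rfl

/-- one can lower `ℓ(D)` by one by removing a place -/
theorem exists_remove {g : ℤ} (hR : Riemann K F g) (D : Divisor K F) (hD : ell D ≠ 0) :
    ∃ v : Place K F, ell (D - Finsupp.single v 1) + 1 = ell D := by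
  classical
  have := hR.fin D
  have hne : riemannRochSpace D ≠ ⊥ := fun h => hD ((ell_eq_zero_iff D).mpr h)
  obtain ⟨f, hf, hf0⟩ := Submodule.exists_mem_ne_zero_of_ne_bot hne
  have := infinite_place K F
  obtain ⟨v, hv⟩ := ((finite_support_ord (K := K) hf0).union D.support.finite_toSet).exists_notMem
  rw [Set.mem_union, not_or] at hv
  have hv1 : v.ord f = 0 := by
    by_contra h; exact hv.1 h
  have hv2 : D v = 0 := by
    by_contra h; exact hv.2 (by rw [Finset.mem_coe, Finsupp.mem_support_iff]; exact h)
  refine ⟨v, ?_⟩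
  obtain ⟨D', hD'⟩ : ∃ D' : Divisor K F, D' = D - Finsupp.single v 1 := ⟨_, rfl⟩
  rw [← hD']
  have hplus : plus D' v = D := by
    rw [plus, hD', sub_add_cancel]
  have := hR.fin D'
  have := hR.fin (plus D' v)
  have h1 := ell_plus_le D' v
  rw [hplus, deg_eq_one] at h1
  have h2 : ell D' < ell D := by
    apply Submodule.finrank_lt_finrank_of_lt
    refine lt_of_le_of_ne (L_mono ?_) ?_
    · rw [hD']
      intro w
      rw [Finsupp.sub_apply]
      have : (0 : ℤ) ≤ Finsupp.single v 1 w := by
        rw [Finsupp.single_apply]; split_ifs <;> norm_num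
      omega
    · intro heq
      have h3 : f ∈ riemannRochSpace D' := heq ▸ hf
      have h4 := h3 v
      rw [v.adicValuation_eq_exp_neg_ord hf0, hv1, hD', Finsupp.sub_apply, hv2,
        Finsupp.single_eq_same, exp_le_exp] at h4
      omega
  omega

/-- existence of a nonspecial divisor of degree `g - 1` -/
theorem exists_nonspecial {g : ℤ} (hR : Riemann K F g) :
    ∃ D : Divisor K F, Divisor.degree D = g - 1 ∧ riemannRochSpace D = ⊥ := by
  classical
  obtain ⟨c, hc⟩ := hR.eq
  obtain ⟨P⟩ := exists_place K F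
  have h0 : ∃ n : ℕ, ∃ D : Divisor K F, ell D = n ∧ Divisor.degree D - n = g - 1 := by
    have hdeg : Divisor.degree (Finsupp.single P (max c 0) : Divisor K F) = max c 0 := by
      rw [Divisor.degree_single, deg_eq_one]; ring
    refine ⟨ell (Finsupp.single P (max c 0)), Finsupp.single P (max c 0), rfl, ?_⟩
    rw [hc _ (by rw [hdeg]; exact le_max_left _ _)]
    ring
  obtain ⟨n, hn⟩ := h0
  induction n with
  | zero =>
    obtain ⟨D, hD, hdeg⟩ := hn
    have := hR.fin D
    exact ⟨D, by simpa using hdeg, (ell_eq_zero_iff D).mp hD⟩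
  | succ n ih =>
    obtain ⟨D, hD, hdeg⟩ := hn
    obtain ⟨v, hv⟩ := exists_remove hR D (by omega)
    apply ih
    refine ⟨D - Finsupp.single v 1, by omega, ?_⟩
    rw [map_sub, Divisor.degree_single, deg_eq_one]
    push_cast at hdeg ⊢
    omega

end Basic

section Simple

variable {K F : Type*} [Field K] [Field F] [Algebra K F]

theorem transcendental_gen {y : F} (hy : Transcendental K y) :
    Transcendental K (AdjoinSimple.gen K y) := by
  have : algebraMap K⟮y⟯ F (AdjoinSimple.gen K y) = y := AdjoinSimple.algebraMap_gen K y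
  rw [← this] at hy
  exact (transcendental_algebraMap_iff (algebraMap K⟮y⟯ F).injective).mp hy

theorem adjoin_gen_eq_top (y : F) : K⟮AdjoinSimple.gen K y⟯ = ⊤ := by
  have h : (K⟮AdjoinSimple.gen K y⟯).map (K⟮y⟯.val) = (⊤ : IntermediateField K K⟮y⟯).map (K⟮y⟯.val) := by
    rw [adjoin_map, Set.image_singleton, ← AlgHom.fieldRange_eq_map, fieldRange_val]
    rfl
  exact IntermediateField.map_injective _ h

theorem finrank_of_eq_top {E : Type*} [Field E] [Algebra K E] {z : E} (h : K⟮z⟯ = ⊤) :
    Module.finrank K⟮z⟯ E = 1 := by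
  rw [h]
  exact IntermediateField.finrank_top

theorem isFF_adjoin {y : F} (hy : Transcendental K y) : IsFF K K⟮y⟯ := by
  refine ⟨AdjoinSimple.gen K y, transcendental_gen hy, ?_⟩
  apply FiniteDimensional.of_finrank_pos
  rw [finrank_of_eq_top (adjoin_gen_eq_top y)]
  exact one_pos

theorem adjoin_sub_const (z : F) (c : K) : K⟮z - algebraMap K F c⟯ = K⟮z⟯ := by
  apply le_antisymm
  · rw [adjoin_simple_le_iff]
    exact sub_mem (mem_adjoin_simple_self K z) (IntermediateField.algebraMap_mem _ c)
  · rw [adjoin_simple_le_iff]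
    have := add_mem (mem_adjoin_simple_self K (z - algebraMap K F c))
      (IntermediateField.algebraMap_mem K⟮z - algebraMap K F c⟯ c)
    rwa [sub_add_cancel] at this

theorem adjoin_inv (z : F) : K⟮z⁻¹⟯ = K⟮z⟯ := by
  apply le_antisymm
  · rw [adjoin_simple_le_iff]
    exact inv_mem (mem_adjoin_simple_self K z)
  · rw [adjoin_simple_le_iff]
    have := inv_mem (mem_adjoin_simple_self K z⁻¹)
    rwa [inv_inv] at this

end Simple

section RH

variable {K F : Type*} [Field K] [Field F] [Algebra K F] [IsAlgClosed K] [IsFF K F]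

/-- uniformizers of `K(y)` have order one -/
theorem adicValuation_eq_of_top {E : Type*} [Field E] [Algebra K E] [IsFF K E] {z : E}
    (hz : Transcendental K z) (htop : K⟮z⟯ = ⊤) (v : Place K E) (hv : v.adicValuation z < 1) :
    v.adicValuation z = exp (-1) := by
  have h1 := sum_ord_le_finrank hz {v} (by simpa using hv)
  rw [Finset.sum_singleton, finrank_of_eq_top htop] at h1
  have h2 := ord_pos_of_lt_one (transcendental_ne_zero hz) hv
  rw [v.adicValuation_eq_exp_neg_ord (transcendental_ne_zero hz)]
  congr 1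
  omega

omit [IsFF K F] in
theorem exists_uniformizer {y : F} (hy : Transcendental K y) (v : Place K K⟮y⟯) :
    ∃ π : K⟮y⟯, v.adicValuation π = exp (-1) ∧
      ((∃ c : K, algebraMap K⟮y⟯ F π = y - algebraMap K F c) ∨ algebraMap K⟮y⟯ F π = y⁻¹) := by
  have := isFF_adjoin hy
  have hgen : algebraMap K⟮y⟯ F (AdjoinSimple.gen K y) = y := AdjoinSimple.algebraMap_gen K y
  have ht := transcendental_gen hy
  by_cases h : v.adicValuation (AdjoinSimple.gen K y) ≤ 1
  · obtain ⟨c, hc⟩ := exists_const_sub_lt_one v h
    refine ⟨_, adicValuation_eq_of_top (transcendental_sub_const ht c)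
      (by rw [adjoin_sub_const, adjoin_gen_eq_top]) v hc, Or.inl ⟨c, ?_⟩⟩
    rw [map_sub, hgen, ← IsScalarTower.algebraMap_apply]
  · refine ⟨_, adicValuation_eq_of_top (transcendental_inv ht)
      (by rw [adjoin_inv, adjoin_gen_eq_top]) v ?_, Or.inr (by rw [map_inv₀, hgen])⟩
    rw [map_inv₀]
    exact inv_lt_one_of_one_lt₀ (not_le.mp h)

theorem ord_pos_of_above {E : Type*} [Field E] [Algebra K E] [Algebra E F] {v : Place K E}
    {w : Place K F}
    (hw : ∀ e : E, e ∈ v.toValuationSubring ↔ algebraMap E F e ∈ w.toValuationSubring)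
    {π : E} (hπ : v.adicValuation π < 1) (hπ0 : π ≠ 0) : 0 < w.ord (algebraMap E F π) := by
  have h1 : π⁻¹ ∉ v.toValuationSubring := by
    intro h
    have := v.adicValuation_le_one_of_mem h
    rw [map_inv₀] at this
    exact absurd ((inv_le_one₀ (zero_lt_iff.mpr (v.adicValuation_ne_zero hπ0))).mp this)
      (not_le.mpr hπ)
  rw [hw] at h1
  have h2 : (algebraMap E F π) ≠ 0 := (_root_.map_ne_zero _).mpr hπ0
  apply ord_pos_of_lt_one h2
  by_contra hcon
  push Not at hcon
  apply h1
  apply mem_of_adicValuation_le_one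
  rw [map_inv₀, map_inv₀]
  exact inv_le_one_of_one_le₀ hcon

theorem zeroDiv_apply {y : F} (hy : y ≠ 0) (w : Place K F) :
    (poleDiv y⁻¹ : Divisor K F) w = max (w.ord y) 0 := by
  rw [poleDiv_apply (inv_ne_zero hy), Place.ord_inv, neg_neg]

/-- the trace of `h` vanishes -/
theorem trace_eq_zero {y : F} (hy : Transcendental K y) [Algebra.IsSeparable K⟮y⟯ F]
    (R : Divisor K F)
    (h0 : ∀ (w : Place K F) (c : K), 0 < w.ord (y - algebraMap K F c) →
      R w ≤ w.ord (y - algebraMap K F c) - 1)
    (h1 : ∀ w : Place K F, w.ord y < 0 → R w ≤ - w.ord y - 1)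
    {h : F} (hh : h ∈ riemannRochSpace (R - (poleDiv y⁻¹ : Divisor K F))) :
    Algebra.trace K⟮y⟯ F h = 0 := by
  have := isFF_adjoin hy
  have := IsFF.finiteDimensional hy
  have hy0 := transcendental_ne_zero hy
  have hgen : algebraMap K⟮y⟯ F (AdjoinSimple.gen K y) = y := AdjoinSimple.algebraMap_gen K y
  have ht := transcendental_gen hy
  have hle : ∀ v : Place K K⟮y⟯, v.adicValuation (Algebra.trace K⟮y⟯ F h) ≤ 1 := by
    intro v
    obtain ⟨π, hπ, hπy⟩ := exists_uniformizer hy v
    have hπ0 : π ≠ 0 := by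
      rintro rfl; rw [map_zero] at hπ; exact absurd hπ.symm (by simp)
    have hπ1 : v.adicValuation π < 1 := by rw [hπ, ← exp_zero, exp_lt_exp]; norm_num
    have key : v.adicValuation (Algebra.trace K⟮y⟯ F (algebraMap K⟮y⟯ F π * h)) < 1 := by
      apply trace_lt_one (K := K) v
      intro w hw
      have hpos := ord_pos_of_above hw hπ1 hπ0
      have hRw : R w ≤ w.ord (algebraMap K⟮y⟯ F π) - 1 := by
        rcases hπy with ⟨c, hc⟩ | hc
        · rw [hc] at hpos ⊢; exact h0 w c hpos
        · rw [hc, Place.ord_inv] at hpos ⊢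
          exact h1 w (by omega)
      rw [map_mul, w.adicValuation_eq_exp_neg_ord ((_root_.map_ne_zero _).mpr hπ0)]
      calc exp (- w.ord (algebraMap K⟮y⟯ F π)) * w.adicValuation h
          ≤ exp (- w.ord (algebraMap K⟮y⟯ F π)) * exp ((R - (poleDiv y⁻¹ : Divisor K F)) w) := by
            gcongr; exact hh w
        _ = exp (- w.ord (algebraMap K⟮y⟯ F π) + (R - (poleDiv y⁻¹ : Divisor K F)) w) := by
            rw [exp_add]
        _ < 1 := by
            rw [← exp_zero, exp_lt_exp, Finsupp.sub_apply, zeroDiv_apply hy0]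
            have := le_max_right (w.ord y) 0
            omega
    have h2 : Algebra.trace K⟮y⟯ F (algebraMap K⟮y⟯ F π * h) = π * Algebra.trace K⟮y⟯ F h := by
      rw [← Algebra.smul_def, map_smul, smul_eq_mul]
    rw [h2, map_mul, hπ] at key
    by_cases ht0 : Algebra.trace K⟮y⟯ F h = 0
    · rw [ht0, map_zero]; exact zero_le_one
    · rw [v.adicValuation_eq_exp_neg_ord ht0] at key ⊢
      rw [← exp_add, ← exp_zero, exp_lt_exp] at key
      rw [← exp_zero, exp_le_exp]
      omega
  obtain ⟨c, hc⟩ := exists_const_of_forall_le_one hle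
  obtain ⟨v0, hv0⟩ := exists_place_lt_one ht
  have hlt : v0.adicValuation (Algebra.trace K⟮y⟯ F h) < 1 := by
    apply trace_lt_one (K := K) v0
    intro w hw
    have hpos := ord_pos_of_above hw hv0 (transcendental_ne_zero ht)
    rw [hgen] at hpos
    have h3 := h0 w 0 (by rwa [map_zero, sub_zero])
    rw [map_zero, sub_zero] at h3
    refine lt_of_le_of_lt (hh w) ?_
    rw [← exp_zero, exp_lt_exp, Finsupp.sub_apply, zeroDiv_apply hy0]
    have := le_max_left (w.ord y) 0
    omega
  rw [← hc] at hlt ⊢
  by_contra hne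
  have hc0 : c ≠ 0 := by rintro rfl; exact hne (map_zero _)
  rw [adicValuation_algebraMap v0 hc0] at hlt
  exact lt_irrefl _ hlt

/-- Riemann--Hurwitz inequality. -/
theorem rh_le {g : ℤ} (hR : Riemann K F g) {y : F} (hy : Transcendental K y)
    [Algebra.IsSeparable K⟮y⟯ F] (R : Divisor K F)
    (h0 : ∀ (w : Place K F) (c : K), 0 < w.ord (y - algebraMap K F c) →
      R w ≤ w.ord (y - algebraMap K F c) - 1)
    (h1 : ∀ w : Place K F, w.ord y < 0 → R w ≤ - w.ord y - 1) :
    Divisor.degree R ≤ 2 * g - 2 + 2 * Module.finrank K⟮y⟯ F := by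
  classical
  have := IsFF.finiteDimensional hy
  have hy0 := transcendental_ne_zero hy
  obtain ⟨Z, hZ⟩ : ∃ Z : Divisor K F, Z = poleDiv y⁻¹ := ⟨_, rfl⟩
  have hZw : ∀ w, Z w = max (w.ord y) 0 := fun w => by rw [hZ, zeroDiv_apply hy0]
  have hZdeg : Divisor.degree Z = Module.finrank K⟮y⟯ F := by
    rw [hZ, hR.pole _ (transcendental_inv hy), adjoin_inv]
  obtain ⟨D, hDdeg, hD⟩ := exists_nonspecial hR
  have hfin := hR.fin (D + Z)
  have hn : Module.finrank K⟮y⟯ F ≤ ell (D + Z) := by
    have := hR.ineq (D + Z)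
    rw [map_add, hDdeg, hZdeg] at this
    have h2 : ((Module.finrank K⟮y⟯ F : ℕ) : ℤ) ≤ ell (D + Z) := by linarith
    exact_mod_cast h2
  -- a `K`-independent family in `L(D + Z)`
  let b := Module.finBasis K (riemannRochSpace (D + Z))
  let ω : Fin (Module.finrank K⟮y⟯ F) → F := fun i => (b (Fin.castLE hn i) : F)
  have hωmem : ∀ i, ω i ∈ riemannRochSpace (D + Z) := fun i => (b (Fin.castLE hn i)).2
  have hωli : LinearIndependent K ω := by
    have h2 : LinearIndependent K (fun i => b (Fin.castLE hn i)) :=
      b.linearIndependent.comp _ (Fin.castLE_injective hn)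
    exact h2.map' (Submodule.subtype _) (Submodule.ker_subtype _)
  have hωE : LinearIndependent K⟮y⟯ ω := by
    apply linearIndependent_of_poly hy
    intro p hsum hex
    obtain ⟨w0, hw0⟩ : ∃ w0 : F, w0 = ∑ i, (p i).coeff 0 • ω i := ⟨_, rfl⟩
    have hw0' : w0 = - (y * ∑ i, aeval y (p i).divX * ω i) := by
      rw [eq_neg_iff_add_eq_zero, hw0, Finset.mul_sum, ← Finset.sum_add_distrib, ← hsum]
      apply Finset.sum_congr rfl
      intro i _
      conv_rhs => rw [← Polynomial.divX_mul_X_add (p i)]
      rw [map_add, map_mul, aeval_X, aeval_C, Algebra.smul_def]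
      ring
    have hw0mem : w0 ∈ riemannRochSpace D := by
      intro w
      by_cases hw : w.adicValuation y < 1
      · have hyA : y ∈ w.toValuationSubring := mem_of_adicValuation_le_one w hw.le
        have hpos := ord_pos_of_lt_one hy0 hw
        have h2 : w.adicValuation (∑ i, aeval y (p i).divX * ω i) ≤ exp ((D + Z) w) := by
          apply Valuation.map_sum_le
          intro i _
          rw [map_mul]
          refine le_trans (mul_le_of_le_one_left' ?_) (hωmem i w)
          exact w.adicValuation_le_one_of_mem (aeval_mem _ w.algebraMap_mem' hyA _)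
        rw [hw0', Valuation.map_neg, map_mul, w.adicValuation_eq_exp_neg_ord hy0]
        calc exp (-w.ord y) * w.adicValuation (∑ i, aeval y (p i).divX * ω i)
            ≤ exp (-w.ord y) * exp ((D + Z) w) := by gcongr
          _ = exp (-w.ord y + (D + Z) w) := by rw [exp_add]
          _ ≤ exp (D w) := by
              rw [exp_le_exp, Finsupp.add_apply, hZw, max_eq_left hpos.le]
              omega
      · have hZ0 : Z w = 0 := by
          rw [hZw]
          apply max_eq_right
          by_contra hcon
          apply hw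
          rw [w.adicValuation_eq_exp_neg_ord hy0, ← exp_zero, exp_lt_exp]
          omega
        have h2 : w0 ∈ riemannRochSpace (D + Z) := by
          rw [hw0]
          exact Submodule.sum_mem _ fun i _ => Submodule.smul_mem _ _ (hωmem i)
        have h3 := h2 w
        rwa [Finsupp.add_apply, hZ0, add_zero] at h3
    rw [hD, Submodule.mem_bot] at hw0mem
    obtain ⟨i, hi⟩ := hex
    rw [hw0] at hw0mem
    exact hi ((Fintype.linearIndependent_iff.mp hωli) _ hw0mem i)
  have hpos : 0 < Module.finrank K⟮y⟯ F := Module.finrank_pos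
  have : Nonempty (Fin (Module.finrank K⟮y⟯ F)) := ⟨⟨0, hpos⟩⟩
  have hspan : Submodule.span K⟮y⟯ (Set.range ω) = ⊤ :=
    hωE.span_eq_top_of_card_eq_finrank (by simp)
  -- vanishing
  have hbot : riemannRochSpace (R - Z - Z - D) = ⊥ := by
    rw [eq_bot_iff]
    intro f hf
    rw [Submodule.mem_bot]
    have htr : ∀ i, Algebra.trace K⟮y⟯ F (f * ω i) = 0 := by
      intro i
      apply trace_eq_zero hy R h0 h1
      intro w
      rw [map_mul]
      calc w.adicValuation f * w.adicValuation (ω i)
          ≤ exp ((R - Z - Z - D) w) * exp ((D + Z) w) := by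
            gcongr
            · exact hf w
            · exact hωmem i w
        _ = exp ((R - Z - Z - D) w + (D + Z) w) := by rw [exp_add]
        _ = _ := by
            rw [← hZ]
            simp only [Finsupp.sub_apply, Finsupp.add_apply]
            congr 1
            ring
    have hall : ∀ z : F, Algebra.trace K⟮y⟯ F (f * z) = 0 := by
      intro z
      have hz : z ∈ Submodule.span K⟮y⟯ (Set.range ω) := hspan ▸ trivial
      induction hz using Submodule.span_induction with
      | mem z hz =>
        obtain ⟨i, rfl⟩ := hz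
        exact htr i
      | zero => rw [mul_zero, map_zero]
      | add a b _ _ ha hb => rw [mul_add, map_add, ha, hb, add_zero]
      | smul e z _ hz => rw [mul_smul_comm, map_smul, hz, smul_zero]
    have hnd := traceForm_nondegenerate K⟮y⟯ F
    exact hnd.1 f hall
  have h2 := hR.ineq (R - Z - Z - D)
  have := hR.fin (R - Z - Z - D)
  rw [(ell_eq_zero_iff _).mpr hbot, map_sub, map_sub, map_sub, hDdeg, hZdeg] at h2
  push_cast at h2
  linarith

end RH

end Fermat.Agent.H88
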