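/-
H88: counting places above branch points under reduction.
-/
import Mathlib
import Fermat.Agent.H88RH
import Fermat.Agent.H3RR_Bridge
import Fermat.Agent.H3RR_Duality
import Fermat.Agent.H40Pole

set_option autoImplicit false

open AlgebraicCurve WithZero IsLocalRing Polynomial IntermediateField Fermat.Agent.H3RR
  Fermat.Agent.H40

namespace Fermat.Agent.H88

section Aux

variable {K F : Type*} [Field K] [Field F] [Algebra K F] [IsAlgClosed K] [IsFF K F]

variable (K F) in
theorem riemann_genusFF : Riemann K F (genusFF K F) where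
  fin := fun D => finite_L D
  ineq := riemann_inequality
  eq := ⟨2 * (genusFF K F : ℤ) - 2 + 1, fun D hD => ell_of_degree_gt (by omega)⟩
  pole := fun y hy => degree_poleDiv hy

/-- zero divisor of `y` -/
noncomputable abbrev zDiv (y : F) : Divisor K F := poleDiv y⁻¹

theorem zDiv_apply {y : F} (hy : y ≠ 0) (w : Place K F) :
    (zDiv y : Divisor K F) w = max (w.ord y) 0 := zeroDiv_apply hy w

theorem degree_zDiv {y : F} (hy : Transcendental K y) :
    Divisor.degree (zDiv y : Divisor K F) = Module.finrank K⟮y⟯ F := by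
  rw [zDiv, degree_poleDiv (transcendental_inv hy), adjoin_inv]

omit [IsAlgClosed K] [IsFF K F] in
theorem ord_pos_iff {v : Place K F} {y : F} (hy : y ≠ 0) : 0 < v.ord y ↔ v.adicValuation y < 1 := by
  rw [v.adicValuation_eq_exp_neg_ord hy, ← exp_zero, exp_lt_exp]
  omega

omit [IsAlgClosed K] [IsFF K F] in
theorem ord_nonneg_iff {v : Place K F} {y : F} (hy : y ≠ 0) :
    0 ≤ v.ord y ↔ v.adicValuation y ≤ 1 := by
  rw [v.adicValuation_eq_exp_neg_ord hy, ← exp_zero, exp_le_exp]
  omega

omit [IsAlgClosed K] [IsFF K F] in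
theorem sub_const_ne_zero {y : F} (hy : Transcendental K y) (c : K) : y - algebraMap K F c ≠ 0 :=
  transcendental_ne_zero (transcendental_sub_const hy c)

omit [IsAlgClosed K] [IsFF K F] in
/-- if `y - c` is small at `v`, then `y` has no pole at `v` -/
theorem adicValuation_le_one_of_sub {v : Place K F} {y : F} {c : K}
    (h : v.adicValuation (y - algebraMap K F c) < 1) : v.adicValuation y ≤ 1 := by
  have : y = (y - algebraMap K F c) + algebraMap K F c := by ring
  rw [this]
  exact (Valuation.map_add _ _ _).trans (max_le h.le (v.adicValuation_algebraMap_le_one c))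

omit [IsAlgClosed K] [IsFF K F] in
theorem adicValuation_sub_of_one_lt {v : Place K F} {y : F} {c : K}
    (h : 1 < v.adicValuation y) : v.adicValuation (y - algebraMap K F c) = v.adicValuation y := by
  rw [sub_eq_add_neg]
  apply Valuation.map_add_eq_of_lt_left
  rw [Valuation.map_neg]
  exact (v.adicValuation_algebraMap_le_one c).trans_lt h

theorem poleDiv_eq_zero_of_le_one {v : Place K F} {y : F} (hy : y ≠ 0)
    (h : v.adicValuation y ≤ 1) : (poleDiv y : Divisor K F) v = 0 := by
  rw [poleDiv_apply hy]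
  have := (ord_nonneg_iff hy).mpr h
  omega

theorem poleDiv_of_one_lt {v : Place K F} {y : F} (hy : y ≠ 0)
    (h : 1 < v.adicValuation y) : v.adicValuation y = exp ((poleDiv y : Divisor K F) v) := by
  rw [poleDiv_apply hy, v.adicValuation_eq_exp_neg_ord hy]
  rw [v.adicValuation_eq_exp_neg_ord hy, ← exp_zero, exp_lt_exp] at h
  rw [max_eq_left h.le]

end Aux

section Count

variable {K F k E : Type*} [Field K] [Field F] [Algebra K F] [Field k] [Field E] [Algebra k E]
  [IsAlgClosed K] [IsAlgClosed k] [IsFF K F] [IsFF k E] (R : ReductionData K F k E)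

omit [IsAlgClosed K] [IsAlgClosed k] [IsFF K F] [IsFF k E] in
theorem mem_B_of_mul_mem {f : F} {b : R.B} (hb : R.ρ b ≠ 0) (h : f * b ∈ R.B) : f ∈ R.B := by
  by_cases hf : f = 0
  · rw [hf]; exact zero_mem _
  obtain ⟨c, hc0, x, hx, hρx⟩ := R.exists_scale hf
  have hfx : f = algebraMap K F c⁻¹ * x := by
    rw [hx, Algebra.smul_def, ← mul_assoc, ← map_mul, inv_mul_cancel₀ hc0, map_one, one_mul]
  by_cases hc : c⁻¹ ∈ R.A
  · rw [hfx]
    exact mul_mem (R.mem_B ⟨c⁻¹, hc⟩) x.2
  · exfalso
    have hc' : c ∈ R.A := by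
      have := (R.A.mem_or_inv_mem c⁻¹).resolve_left hc
      rwa [inv_inv] at this
    have hnu : ¬ IsUnit (⟨c, hc'⟩ : R.A) := by
      intro hu
      obtain ⟨d, hd⟩ := isUnit_iff_exists_inv.mp hu
      apply hc
      have h1 : c * (d : K) = 1 := congrArg Subtype.val hd
      rw [inv_eq_of_mul_eq_one_right h1]
      exact d.2
    have hz := (R.π_eq_zero ⟨c, hc'⟩).mpr hnu
    have h1 : x * b = R.const ⟨c, hc'⟩ * ⟨f * b, h⟩ := by
      apply Subtype.ext
      show (x : F) * b = algebraMap K F c * (f * b)
      rw [hx, Algebra.smul_def]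
      ring
    have h2 := congrArg R.ρ h1
    rw [map_mul, map_mul, R.ρ_const, hz, map_zero, zero_mul] at h2
    rcases mul_eq_zero.mp h2 with h3 | h3
    · exact hρx h3
    · exact hb h3

variable [CharZero K]

omit [CharZero K] in
theorem smul_poleDiv_pow {x : F} (hx : Transcendental K x) (m : ℕ) (v : Place K F) :
    max 0 (-(v.ord (x ^ m))) = (m • (poleDiv x : Divisor K F)) v := by
  rw [Finsupp.smul_apply, poleDiv_apply (transcendental_ne_zero hx), ← zpow_natCast, v.ord_zpow,
    nsmul_eq_mul]
  rcases le_total (v.ord x) 0 with h | h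
  · rw [max_eq_left (by omega : (0:ℤ) ≤ -v.ord x), max_eq_right]
    · ring
    · have : (0:ℤ) ≤ (m:ℤ) := by positivity
      nlinarith
  · rw [max_eq_right (by omega : -v.ord x ≤ (0:ℤ)), max_eq_left]
    · ring
    · have : (0:ℤ) ≤ (m:ℤ) := by positivity
      nlinarith

/-- The reduction of `L(m (x)_∞)` is contained in `L(m (x̄)_∞)`. -/
theorem red_le {x : R.B} (hx : Transcendental k (R.ρ x))
    (hdeg : Module.finrank K⟮(x : F)⟯ F = Module.finrank k⟮R.ρ x⟯ E) (m : ℕ) :
    R.red (riemannRochSpace (m • (poleDiv (x : F) : Divisor K F))) ≤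
      riemannRochSpace (m • (poleDiv (R.ρ x) : Divisor k E)) := by
  have : H94.FunField K F := funField_of_isFF
  have hxK := R.transcendental_of_ρ hx
  have hfd := (R.finrank_red (riemannRochSpace (m • (poleDiv (x : F) : Divisor K F)))).1
  have : Infinite k := inferInstance
  have hpm0 : (0 : Divisor K F) ≤ m • (poleDiv (x : F) : Divisor K F) :=
    nsmul_nonneg (poleDiv_nonneg _) m
  have h1 : (1 : E) ∈ R.red (riemannRochSpace (m • (poleDiv (x : F) : Divisor K F))) :=
    ⟨1, by simpa using one_mem_L.mpr hpm0, map_one _⟩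
  obtain ⟨D, hD0, hle, f, ⟨y, hy, rfl⟩, hf0, hpole⟩ :=
    exists_generic (K := k) (F := E) (fun v => H3RR.deg_eq_one v) _ h1
  have h2 : Divisor.degree D ≤ Divisor.degree (m • (poleDiv (x : F) : Divisor K F)) :=
    R.poleIneq y _ D hpm0 hy hf0 hpole
  have h3 : (m • (poleDiv (R.ρ x) : Divisor k E)) ≤ D := by
    have hxm : R.ρ x ^ m ∈ riemannRochSpace D := by
      apply hle
      refine ⟨x ^ m, ?_, map_pow _ _ _⟩
      show ((x ^ m : R.B) : F) ∈ _
      rw [SubmonoidClass.coe_pow, mem_L (pow_ne_zero _ (transcendental_ne_zero hxK))]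
      intro v
      rw [← smul_poleDiv_pow hxK]
      omega
    rw [mem_L (pow_ne_zero _ (transcendental_ne_zero hx))] at hxm
    intro v
    rw [← smul_poleDiv_pow hx]
    have := hxm v
    have := hD0 v
    rw [Finsupp.zero_apply] at this
    omega
  have h4 : D = m • (poleDiv (R.ρ x) : Divisor k E) := by
    symm
    apply eq_of_le_of_degree_le (fun v => H3RR.deg_eq_one v) h3
    rw [map_nsmul, degree_poleDiv hx, ← hdeg]
    rwa [map_nsmul, degree_poleDiv hxK] at h2
  rw [h4] at hle
  exact hle

/-- Values of integral functions at points reducing to finite points are integral. -/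
theorem value_mem {x : R.B} (hx : Transcendental k (R.ρ x))
    (hdeg : Module.finrank K⟮(x : F)⟯ F = Module.finrank k⟮R.ρ x⟯ E) {m : ℕ} (hm : 0 < m)
    {f : R.B} (hf : (f : F) ∈ riemannRochSpace (m • (poleDiv (x : F) : Divisor K F)))
    {P : Place K F} {b : R.A} (hP : P.adicValuation ((x : F) - algebraMap K F b) < 1)
    {c : K} (hc : P.adicValuation ((f : F) - algebraMap K F c) < 1) : c ∈ R.A := by
  by_contra hcA
  have : H94.FunField K F := funField_of_isFF
  have hxK := R.transcendental_of_ρ hx
  have hc0 : c ≠ 0 := by rintro rfl; exact hcA (zero_mem _)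
  have hci : c⁻¹ ∈ R.A := (R.A.mem_or_inv_mem c).resolve_left hcA
  have hnu : ¬ IsUnit (⟨c⁻¹, hci⟩ : R.A) := by
    intro hu
    obtain ⟨d, hd⟩ := isUnit_iff_exists_inv.mp hu
    apply hcA
    have h1 : c⁻¹ * (d : K) = 1 := congrArg Subtype.val hd
    have h2 : c = d := by field_simp at h1; exact h1.symm
    rw [h2]; exact d.2
  have hz := (R.π_eq_zero ⟨c⁻¹, hci⟩).mpr hnu
  -- u = 1 - f / c
  obtain ⟨u, hu⟩ : ∃ u : R.B, u = 1 - R.const ⟨c⁻¹, hci⟩ * f := ⟨_, rfl⟩
  have hρu : R.ρ u = 1 := by
    rw [hu, map_sub, map_mul, map_one, R.ρ_const, hz, map_zero, zero_mul, sub_zero]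
  have huF : (u : F) = 1 - algebraMap K F c⁻¹ * f := by rw [hu]; rfl
  have huF' : (u : F) = - (algebraMap K F c⁻¹ * ((f : F) - algebraMap K F c)) := by
    rw [huF, mul_sub, ← map_mul, inv_mul_cancel₀ hc0, map_one]; ring
  have hu0 : (u : F) ≠ 0 := R.ne_zero_of_ρ_ne_zero (by rw [hρu]; exact one_ne_zero)
  -- w = (x - b)^m
  obtain ⟨z, hzdef⟩ : ∃ z : R.B, z = x - R.const b := ⟨_, rfl⟩
  have hzF : (z : F) = (x : F) - algebraMap K F b := by rw [hzdef]; rfl
  have hρz : R.ρ z = R.ρ x - algebraMap k E (R.π b) := by rw [hzdef, map_sub, R.ρ_const]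
  have hzt : Transcendental K (z : F) := by rw [hzF]; exact transcendental_sub_const hxK _
  have hρzt : Transcendental k (R.ρ z) := by rw [hρz]; exact transcendental_sub_const hx _
  have hz0 := transcendental_ne_zero hzt
  have hρz0 := transcendental_ne_zero hρzt
  have hρzm : R.ρ (z ^ m) ≠ 0 := by rw [map_pow]; exact pow_ne_zero _ hρz0
  have hhB : (u : F) / (z : F) ^ m ∈ R.B := by
    apply mem_B_of_mul_mem R hρzm
    rw [SubmonoidClass.coe_pow, div_mul_cancel₀ _ (pow_ne_zero _ hz0)]
    exact u.2
  obtain ⟨h, hh⟩ : ∃ h : R.B, (h : F) = (u : F) / (z : F) ^ m := ⟨⟨_, hhB⟩, rfl⟩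
  have hhz : h * z ^ m = u := by
    apply Subtype.ext
    show (h : F) * ((z ^ m : R.B) : F) = u
    rw [hh, SubmonoidClass.coe_pow, div_mul_cancel₀ _ (pow_ne_zero _ hz0)]
  have hρh : R.ρ h * R.ρ z ^ m = 1 := by rw [← hρu, ← hhz, map_mul, map_pow]
  have hρh0 : R.ρ h ≠ 0 := by
    intro h0; rw [h0, zero_mul] at hρh; exact zero_ne_one hρh
  have hρh' : R.ρ h = (R.ρ z ^ m)⁻¹ := eq_inv_of_mul_eq_one_left hρh
  have hPz : 0 < P.ord (z : F) := by
    rw [hzF, ord_pos_iff (by rw [← hzF]; exact hz0)]; exact hP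
  have hD0 : (0 : Divisor K F) ≤ m • (zDiv (z : F) : Divisor K F) - Finsupp.single P 1 := by
    classical
    intro v
    rw [Finsupp.sub_apply, Finsupp.smul_apply, zDiv_apply hz0, Finsupp.single_apply,
      Finsupp.zero_apply, nsmul_eq_mul]
    split_ifs with hv
    · subst hv
      rw [max_eq_left hPz.le]
      have : (1:ℤ) ≤ (m:ℤ) := by exact_mod_cast hm
      nlinarith
    · have := le_max_right (v.ord (z : F)) 0
      have : (0:ℤ) ≤ (m:ℤ) * max (v.ord (z : F)) 0 := by positivity
      omega
  have hmem : (h : F) ∈ riemannRochSpace (m • (zDiv (z : F) : Divisor K F) - Finsupp.single P 1) := by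
    classical
    intro v
    rw [hh, map_div₀, map_pow]
    by_cases hvx : v.adicValuation (x : F) ≤ 1
    · -- finite place
      have hfv : v.adicValuation (f : F) ≤ 1 := by
        have := hf v
        rwa [Finsupp.smul_apply, poleDiv_eq_zero_of_le_one (transcendental_ne_zero hxK) hvx,
          smul_zero, exp_zero] at this
      have huv : v.adicValuation (u : F) ≤ exp (- (Finsupp.single P (1:ℤ)) v) := by
        by_cases hv : P = v
        · subst hv
          rw [Finsupp.single_eq_same, huF', Valuation.map_neg, map_mul]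
          have h1 := P.adicValuation_algebraMap_le_one c⁻¹
          refine (mul_le_of_le_one_left' h1).trans ?_
          exact (adicValuation_lt_one_iff P).mp hc
        · rw [Finsupp.single_apply, if_neg hv, neg_zero, exp_zero, huF]
          refine (Valuation.map_sub _ _ _).trans (max_le (by rw [map_one]) ?_)
          rw [map_mul]
          exact mul_le_one' (v.adicValuation_algebraMap_le_one _) hfv
      have hzv : v.adicValuation (z : F) ≤ 1 := by
        rw [hzF]
        exact (Valuation.map_sub _ _ _).trans (max_le hvx (v.adicValuation_algebraMap_le_one _))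
      have hzord := (ord_nonneg_iff hz0).mpr hzv
      rw [v.adicValuation_eq_exp_neg_ord hz0, ← exp_nsmul, div_eq_mul_inv, ← exp_neg]
      calc v.adicValuation (u : F) * exp (-(m • -v.ord (z : F)))
          ≤ exp (- (Finsupp.single P (1:ℤ)) v) * exp (-(m • -v.ord (z : F))) := by gcongr
        _ = _ := by
            rw [← exp_add, Finsupp.sub_apply, Finsupp.smul_apply, zDiv_apply hz0,
              max_eq_left hzord]
            congr 1
            simp only [nsmul_eq_mul]
            ring
    · push Not at hvx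
      have hvz : v.adicValuation (z : F) = v.adicValuation (x : F) := by
        rw [hzF]; exact adicValuation_sub_of_one_lt hvx
      have huv : v.adicValuation (u : F) ≤ v.adicValuation (z : F) ^ m := by
        rw [huF]
        refine (Valuation.map_sub _ _ _).trans (max_le ?_ ?_)
        · rw [map_one, hvz]; exact one_le_pow_of_one_le' hvx.le m
        · rw [map_mul]
          refine (mul_le_of_le_one_left' (v.adicValuation_algebraMap_le_one _)).trans ?_
          refine (hf v).trans ?_
          rw [hvz, poleDiv_of_one_lt (transcendental_ne_zero hxK) hvx, ← exp_nsmul,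
            Finsupp.smul_apply]
      have h1 : v.adicValuation (u : F) / v.adicValuation (z : F) ^ m ≤ 1 := by
        apply div_le_one_of_le₀ huv
        exact zero_le
      refine h1.trans ?_
      rw [← exp_zero, exp_le_exp]
      exact hD0 v
  have hDbar : ∀ v : Place k E, (m • (zDiv (R.ρ z) : Divisor k E)) v = max 0 (-(v.ord (R.ρ h))) := by
    intro v
    rw [hρh', v.ord_inv, neg_neg, Finsupp.smul_apply, zDiv_apply hρz0, ← zpow_natCast, v.ord_zpow,
      nsmul_eq_mul]
    rcases le_total (v.ord (R.ρ z)) 0 with h | h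
    · rw [max_eq_right h, max_eq_left]
      · ring
      · have : (0:ℤ) ≤ (m:ℤ) := by positivity
        nlinarith
    · rw [max_eq_left h, max_eq_right]
      have : (0:ℤ) ≤ (m:ℤ) := by positivity
      positivity
  have key := R.poleIneq h _ _ hD0 hmem hρh0 hDbar
  rw [map_nsmul, degree_zDiv hρzt, map_sub, map_nsmul, degree_zDiv hzt, Divisor.degree_single,
    H3RR.deg_eq_one, hρz, hzF, adjoin_sub_const, adjoin_sub_const, hdeg] at key
  push_cast at key
  omega

end Count

end Fermat.Agent.H88
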