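/-
H88: norms and places, finite separable extensions of function fields, any characteristic.
-/
import Mathlib
import Fermat.Agent.H88Count
import Fermat.Prelude.Def_AlgebraicCurve_DivisorPushPull

set_option autoImplicit false

open AlgebraicCurve WithZero IsLocalRing Polynomial IntermediateField Fermat.Agent.H3RR

namespace Fermat.Agent.H88

section Basic

variable {K F F' : Type*} [Field K] [Field F] [Field F'] [Algebra K F] [Algebra K F']
  [Algebra F F'] [IsScalarTower K F F'] [Module.Finite F F'] [IsFF K F']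

/-- key lemma: if `h` is regular at all places above `v` then its norm is regular, and if moreover
`h` vanishes at one place `w₁` above `v`, then the norm vanishes at `v`. -/
theorem norm_aux [Algebra.IsSeparable F F'] (v : Place K F) (w₁ : Place K F')
    (hw₁ : w₁.restrict F = v) {h : F'}
    (hh : ∀ w : Place K F', w.restrict F = v → w.adicValuation h ≤ 1) :
    v.adicValuation (Algebra.norm F h) ≤ 1 ∧
      (w₁.adicValuation h < 1 → v.adicValuation (Algebra.norm F h) < 1) := by
  classical
  obtain ⟨B, hB⟩ := exists_comap_eq (Ω := AlgebraicClosure F') w₁.toValuationSubring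
  have hmem' : ∀ e : F', e ∈ w₁.toValuationSubring ↔ algebraMap F' (AlgebraicClosure F') e ∈ B := by
    intro e; rw [← hB]; rfl
  have hmem : ∀ e : F, e ∈ v.toValuationSubring ↔ algebraMap F (AlgebraicClosure F') e ∈ B := by
    intro e
    rw [← hw₁, Place.mem_restrict_iff, hmem', ← IsScalarTower.algebraMap_apply]
  have hval1 : ∀ {z : F'}, w₁.adicValuation z < 1 →
      B.valuation (algebraMap F' (AlgebraicClosure F') z) < 1 := by
    intro z hz
    by_cases h0 : z = 0
    · rw [h0, map_zero, map_zero]; exact zero_lt_one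
    have h2 : 1 < w₁.adicValuation z⁻¹ := by
      rw [map_inv₀]
      exact (one_lt_inv₀ (zero_lt_iff.mpr (Place.adicValuation_ne_zero _ h0))).mpr hz
    have h3 : z⁻¹ ∉ w₁.toValuationSubring := fun h' =>
      absurd (Place.adicValuation_le_one_of_mem _ h') (not_le.mpr h2)
    rw [hmem', ← B.valuation_le_one_iff, map_inv₀, map_inv₀, not_le] at h3
    have h5 : B.valuation (algebraMap F' (AlgebraicClosure F') z) ≠ 0 := by
      rw [Valuation.ne_zero_iff]; exact (_root_.map_ne_zero _).mpr h0
    exact (one_lt_inv₀ (zero_lt_iff.mpr h5)).mp h3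
  have hσ : ∀ σ : F' →ₐ[F] AlgebraicClosure F', B.valuation (σ h) ≤ 1 := by
    intro σ
    have hK : ∀ a : K, algebraMap K F' a ∈ B.comap (σ : F' →+* AlgebraicClosure F') := by
      intro a
      show σ (algebraMap K F' a) ∈ B
      rw [IsScalarTower.algebraMap_apply K F F', σ.commutes, ← hmem]
      exact v.algebraMap_mem' a
    have htop : B.comap (σ : F' →+* AlgebraicClosure F') ≠ ⊤ := by
      intro htop
      apply v.ne_top'
      rw [eq_top_iff]
      intro e _
      have h1 : algebraMap F F' e ∈ B.comap (σ : F' →+* AlgebraicClosure F') := htop ▸ trivial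
      have h2 : σ (algebraMap F F' e) ∈ B := h1
      rw [σ.commutes, ← hmem] at h2
      exact h2
    have h1 := hh (placeOf _ hK htop) (by
      apply Place.ext
      ext e
      rw [Place.mem_restrict_iff, placeOf_toValuationSubring, hmem, ← σ.commutes]
      rfl)
    have h2 : h ∈ (placeOf _ hK htop : Place K F').toValuationSubring :=
      mem_of_adicValuation_le_one _ h1
    exact (B.valuation_le_one_iff _).mpr h2
  have hval : ∀ {z : F}, (B.valuation (algebraMap F (AlgebraicClosure F') z) ≤ 1 →
      v.adicValuation z ≤ 1) ∧ (B.valuation (algebraMap F (AlgebraicClosure F') z) < 1 →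
      v.adicValuation z < 1) := by
    intro z
    refine ⟨fun hz => v.adicValuation_le_one_of_mem ((hmem z).mpr
      ((B.valuation_le_one_iff _).mp hz)), fun hz => ?_⟩
    by_contra hge
    push Not at hge
    have h0 : z ≠ 0 := by
      intro h0; rw [h0, map_zero] at hge; exact absurd hge (not_le.mpr zero_lt_one)
    have h7 : v.adicValuation z⁻¹ ≤ 1 := by
      rw [map_inv₀]; exact inv_le_one_of_one_le₀ hge
    have h8 := mem_of_adicValuation_le_one v h7
    rw [hmem, ← B.valuation_le_one_iff, map_inv₀, map_inv₀] at h8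
    have h9 : B.valuation (algebraMap F (AlgebraicClosure F') z) ≠ 0 := by
      rw [Valuation.ne_zero_iff]; exact (_root_.map_ne_zero _).mpr h0
    exact absurd ((inv_le_one₀ (zero_lt_iff.mpr h9)).mp h8) (not_le.mpr hz)
  constructor
  · apply (hval (z := Algebra.norm F h)).1
    rw [Algebra.norm_eq_prod_embeddings F (AlgebraicClosure F'), map_prod]
    exact Finset.prod_le_one' fun σ _ => hσ σ
  · intro hlt
    apply (hval (z := Algebra.norm F h)).2
    rw [Algebra.norm_eq_prod_embeddings F (AlgebraicClosure F'), map_prod]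
    rw [← Finset.mul_prod_erase _ _
      (Finset.mem_univ (IsScalarTower.toAlgHom F F' (AlgebraicClosure F')))]
    refine lt_of_le_of_lt (mul_le_of_le_one_right'
      (Finset.prod_le_one' fun σ _ => hσ σ)) ?_
    exact hval1 hlt

omit [Module.Finite F F'] in
theorem exists_restrict_eq [Algebra.IsIntegral F F'] (v : Place K F) :
    ∃ w : Place K F', w.restrict F = v := by
  obtain ⟨B, hB⟩ := exists_comap_eq (Ω := F') v.toValuationSubring
  have hmem : ∀ e : F, e ∈ v.toValuationSubring ↔ algebraMap F F' e ∈ B := by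
    intro e; rw [← hB]; rfl
  have hK : ∀ a : K, algebraMap K F' a ∈ B := by
    intro a
    rw [IsScalarTower.algebraMap_apply K F F', ← hmem]
    exact v.algebraMap_mem' a
  have htop : B ≠ ⊤ := by
    intro htop
    apply v.ne_top'
    rw [eq_top_iff]
    intro e _
    rw [hmem, htop]
    trivial
  refine ⟨placeOf B hK htop, ?_⟩
  apply Place.ext
  ext e
  rw [Place.mem_restrict_iff, placeOf_toValuationSubring, hmem]

theorem norm_le_one [Algebra.IsSeparable F F'] (v : Place K F) {h : F'}
    (hh : ∀ w : Place K F', w.restrict F = v → w.adicValuation h ≤ 1) :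
    v.adicValuation (Algebra.norm F h) ≤ 1 := by
  obtain ⟨w, hw⟩ := exists_restrict_eq (F' := F') v
  exact (norm_aux v w hw hh).1

theorem norm_eq_one [Algebra.IsSeparable F F'] (v : Place K F) {h : F'}
    (hh : ∀ w : Place K F', w.restrict F = v → w.adicValuation h = 1) :
    v.adicValuation (Algebra.norm F h) = 1 := by
  obtain ⟨w, hw⟩ := exists_restrict_eq (F' := F') v
  have h0 : h ≠ 0 := by
    rintro rfl
    have := hh w hw
    rw [map_zero] at this
    exact zero_ne_one this
  apply le_antisymm (norm_le_one v fun w hw => (hh w hw).le)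
  have h1 := norm_le_one v (h := h⁻¹) (fun w hw => by rw [map_inv₀, hh w hw, inv_one])
  have h2 : Algebra.norm F h⁻¹ = (Algebra.norm F h)⁻¹ := by
    apply eq_inv_of_mul_eq_one_left
    rw [← map_mul, inv_mul_cancel₀ h0, map_one]
  rw [h2, map_inv₀] at h1
  have h3 : v.adicValuation (Algebra.norm F h) ≠ 0 :=
    v.adicValuation_ne_zero (Algebra.norm_ne_zero_iff.mpr h0)
  exact (inv_le_one₀ (zero_lt_iff.mpr h3)).mp h1

end Basic

section Fiber

variable {K F F' : Type*} [Field K] [Field F] [Field F'] [Algebra K F] [Algebra K F']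
  [Algebra F F'] [IsScalarTower K F F'] [Module.Finite F F'] [IsFF K F'] [IsFF K F] [IsAlgClosed K]

omit [Module.Finite F F'] [IsFF K F'] [IsFF K F] [IsAlgClosed K] in
theorem finrank_adjoin_algebraMap (y : F) :
    Module.finrank K⟮algebraMap F F' y⟯ F' = Module.finrank K⟮y⟯ F * Module.finrank F F' := by
  have h1 : Module.finrank K⟮y⟯ F' = Module.finrank K⟮y⟯ F * Module.finrank F F' :=
    (Module.finrank_mul_finrank K⟮y⟯ F F').symm
  rw [← h1]
  symm
  let f : F →ₐ[K] F' := IsScalarTower.toAlgHom K F F'
  have hmap : (K⟮y⟯).map f = K⟮algebraMap F F' y⟯ := by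
    rw [adjoin_map, Set.image_singleton]; rfl
  let i : K⟮y⟯ ≃+* K⟮algebraMap F F' y⟯ :=
    ((IntermediateField.equivMap K⟮y⟯ f).trans (IntermediateField.equivOfEq hmap)).toRingEquiv
  refine Algebra.finrank_eq_of_equiv_equiv i (RingEquiv.refl F') ?_
  ext a
  rfl

omit [Module.Finite F F'] [IsFF K F'] in
variable (K F) in
/-- a function with poles only at `v` -/
theorem exists_pole_only (v : Place K F) : ∃ y : F, Transcendental K y ∧
    ∀ u : Place K F, u ≠ v → u.adicValuation y ≤ 1 := by
  have h1 := ell_of_degree_gt (D := (Finsupp.single v (2 * (genusFF K F : ℤ) + 1) : Divisor K F))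
    (by rw [Divisor.degree_single, H3RR.deg_eq_one]; push_cast; omega)
  rw [Divisor.degree_single, H3RR.deg_eq_one] at h1
  have h2 : 1 < ell (Finsupp.single v (2 * (genusFF K F : ℤ) + 1) : Divisor K F) := by
    push_cast at h1; omega
  -- there is a nonconstant function
  have hfin := finite_L (Finsupp.single v (2 * (genusFF K F : ℤ) + 1) : Divisor K F)
  obtain ⟨y, hy, hyc⟩ : ∃ y ∈ riemannRochSpace
      (Finsupp.single v (2 * (genusFF K F : ℤ) + 1) : Divisor K F),
      ∀ c : K, algebraMap K F c ≠ y := by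
    by_contra hcon
    push Not at hcon
    have h3 : riemannRochSpace (Finsupp.single v (2 * (genusFF K F : ℤ) + 1) : Divisor K F) ≤
        Submodule.span K {(1 : F)} := by
      intro y hy
      obtain ⟨c, hc⟩ := hcon y hy
      rw [Submodule.mem_span_singleton]
      exact ⟨c, by rw [← hc, Algebra.smul_def, mul_one]⟩
    have h4 := Submodule.finrank_mono h3
    rw [finrank_span_singleton one_ne_zero] at h4
    rw [ell] at h2
    omega
  refine ⟨y, fun halg => ?_, fun u hu => ?_⟩
  · obtain ⟨c, hc⟩ := exists_const_of_isAlgebraic halg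
    exact hyc c hc
  · classical
    have := hy u
    rwa [Finsupp.single_apply, if_neg (Ne.symm hu), exp_zero] at this

/-- `∑ e_w = [F' : F]` -/
theorem sum_ramificationIndex (v : Place K F) (S : Finset (Place K F'))
    (hS : ∀ w : Place K F', w ∈ S ↔ w.restrict F = v) :
    ∑ w ∈ S, w.ramificationIndex F = Module.finrank F F' := by
  classical
  obtain ⟨y, hy, hpole⟩ := exists_pole_only K F v
  have hy0 := transcendental_ne_zero hy
  have hy' : Transcendental K (algebraMap F F' y) :=
    (transcendental_algebraMap_iff (algebraMap F F').injective).mpr hy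
  have hy0' := transcendental_ne_zero hy'
  have hfd := IsFF.finiteDimensional hy
  have hn : 0 < Module.finrank K⟮y⟯ F := Module.finrank_pos
  have h1 : (poleDiv y : Divisor K F) = Finsupp.single v ((poleDiv y : Divisor K F) v) := by
    ext u
    rw [Finsupp.single_apply]
    split_ifs with hu
    · rw [hu]
    · exact poleDiv_eq_zero_of_le_one hy0 (hpole u (Ne.symm hu))
  obtain ⟨N, hN⟩ : ∃ N, N = (poleDiv y : Divisor K F) v := ⟨_, rfl⟩
  rw [← hN] at h1
  have h2 : N = Module.finrank K⟮y⟯ F := by
    have := degree_poleDiv hy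
    rw [h1, Divisor.degree_single, H3RR.deg_eq_one] at this
    simpa using this
  have hNpos : 0 < N := by rw [h2]; exact_mod_cast hn
  have hNord : N = - v.ord y := by
    rw [hN, poleDiv_apply hy0]
    rw [poleDiv_apply hy0] at hN
    omega
  have h3 : (poleDiv (algebraMap F F' y) : Divisor K F') =
      ∑ w ∈ S, Finsupp.single w (N * w.ramificationIndex F) := by
    ext u
    rw [Finsupp.finsetSum_apply, poleDiv_apply hy0', u.ord_restrict (F := F)]
    by_cases hu : u.restrict F = v
    · rw [Finset.sum_eq_single u, Finsupp.single_eq_same, hu, hNord, max_eq_left]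
      · ring
      · have : 0 ≤ (u.ramificationIndex F : ℤ) := by positivity
        nlinarith
      · intro w _ hwu; rw [Finsupp.single_apply, if_neg hwu]
      · intro h; exact absurd ((hS u).mpr hu) h
    · rw [Finset.sum_eq_zero]
      · apply max_eq_right
        have h5 := (ord_nonneg_iff hy0).mpr (hpole _ hu)
        have : 0 ≤ (u.ramificationIndex F : ℤ) := by positivity
        nlinarith
      · intro w hw
        rw [Finsupp.single_apply, if_neg]
        rintro rfl
        exact hu ((hS w).mp hw)
  have h4 := degree_poleDiv hy'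
  rw [h3, map_sum, finrank_adjoin_algebraMap, Finset.sum_congr rfl (fun w _ => by
    rw [Divisor.degree_single, H3RR.deg_eq_one]; push_cast; rw [mul_one] :
    ∀ w ∈ S, Divisor.degree (Finsupp.single w (N * (w.ramificationIndex F : ℤ))) =
      N * (w.ramificationIndex F : ℤ)), ← Finset.mul_sum] at h4
  push_cast at h4
  rw [← h2] at h4
  have h5 := mul_left_cancel₀ hNpos.ne' h4
  exact_mod_cast h5

omit [IsFF K F'] [IsAlgClosed K] in
/-- prescribing a simple zero at one place and units at the others -/
theorem exists_simple (S : Finset (Place K F')) (w₀ : Place K F') (hw₀ : w₀ ∈ S) :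
    ∃ t : F', t ≠ 0 ∧ w₀.ord t = 1 ∧ ∀ w ∈ S, w ≠ w₀ → w.ord t = 0 := by
  classical
  obtain ⟨t, ht⟩ := weak_approximation S (fun w => if w = w₀ then unif w₀ (-1) else 1)
    (fun w => if w = w₀ then -2 else -1)
  have h1 : w₀.adicValuation t = exp (-1) := by
    have h2 := ht w₀ hw₀
    simp only [if_true] at h2
    have h3 : t = unif w₀ (-1) + (t - unif w₀ (-1)) := by ring
    rw [h3, Valuation.map_add_eq_of_lt_left, adicValuation_unif]
    rw [adicValuation_unif]
    exact lt_of_le_of_lt h2 (by rw [exp_lt_exp]; norm_num)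
  have ht0 : t ≠ 0 := by
    rintro rfl
    rw [map_zero] at h1
    exact absurd h1.symm (by simp)
  refine ⟨t, ht0, ?_, ?_⟩
  · rw [w₀.adicValuation_eq_exp_neg_ord ht0, exp_inj] at h1
    omega
  · intro w hw hne
    have h2 := ht w hw
    simp only [if_neg hne] at h2
    have h3 : w.adicValuation t = 1 := by
      have h4 : t = 1 + (t - 1) := by ring
      rw [h4, Valuation.map_add_eq_of_lt_left, map_one]
      rw [map_one]
      exact lt_of_le_of_lt h2 (by rw [← exp_zero, exp_lt_exp]; norm_num)
    rw [w.adicValuation_eq_exp_neg_ord ht0, ← exp_zero, exp_inj] at h3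
    omega

theorem wz_exp_sum {ι : Type*} (S : Finset ι) (f : ι → ℤ) :
    (exp (∑ i ∈ S, f i) : ℤᵐ⁰) = ∏ i ∈ S, exp (f i) := by
  classical
  induction S using Finset.induction_on with
  | empty => rw [Finset.sum_empty, Finset.prod_empty, exp_zero]
  | insert a S ha ih => rw [Finset.sum_insert ha, Finset.prod_insert ha, exp_add, ih]

/-- The norm of a function with a simple zero at exactly one place above `v` has a simple zero
at `v`. -/
theorem ord_norm_eq_one [Algebra.IsSeparable F F'] (v : Place K F) (w₁ : Place K F')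
    (hw₁ : w₁.restrict F = v) {t : F'} (ht0 : t ≠ 0) (ht1 : w₁.ord t = 1)
    (ht : ∀ w : Place K F', w.restrict F = v → w ≠ w₁ → w.ord t = 0) :
    v.ord (Algebra.norm F t) = 1 := by
  classical
  obtain ⟨S, hS⟩ : ∃ S : Finset (Place K F'), ∀ w, w ∈ S ↔ w.restrict F = v :=
    ⟨(Place.restrict_fiber_finite (K := K) (F := F) (F' := F') v).toFinset, fun w => by simp⟩
  have hex : ∀ w₀ ∈ S, ∃ s : F', s ≠ 0 ∧ w₀.ord s = 1 ∧ (∀ w ∈ S, w ≠ w₀ → w.ord s = 0) ∧
      (w₀ = w₁ → s = t) := by
    intro w₀ hw₀
    by_cases h : w₀ = w₁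
    · exact ⟨t, ht0, h ▸ ht1, fun w hw hne => ht w ((hS w).mp hw) (h ▸ hne), fun _ => rfl⟩
    · obtain ⟨s, h1, h2, h3⟩ := exists_simple S w₀ hw₀
      exact ⟨s, h1, h2, h3, fun h' => absurd h' h⟩
  choose! s hs0 hs1 hs hst using hex
  have hw₁S : w₁ ∈ S := (hS w₁).mpr hw₁
  -- `v.ord (norm s_w) ≥ 1`
  have hpos : ∀ w ∈ S, 1 ≤ v.ord (Algebra.norm F (s w)) := by
    intro w hw
    have h1 : v.adicValuation (Algebra.norm F (s w)) < 1 := by
      apply (norm_aux v w ((hS w).mp hw) (h := s w) ?_).2
      · rw [← ord_pos_iff (hs0 w hw), hs1 w hw]; norm_num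
      · intro w' hw'
        rw [← ord_nonneg_iff (hs0 w hw)]
        by_cases hww : w' = w
        · rw [hww, hs1 w hw]; norm_num
        · rw [hs w hw w' ((hS w').mpr hw') hww]
    rw [← ord_pos_iff (Algebra.norm_ne_zero_iff.mpr (hs0 w hw))] at h1
    omega
  -- uniformizer of `v`
  obtain ⟨π, hπ0, hπ⟩ : ∃ π : F, π ≠ 0 ∧ v.ord π = 1 := by
    obtain ⟨p, hp⟩ := IsDiscreteValuationRing.exists_irreducible v.toValuationSubring
    exact ⟨p, by simpa [ne_eq, ZeroMemClass.coe_eq_zero] using hp.ne_zero,
      v.ord_coe_irreducible hp⟩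
  have hπ0' : algebraMap F F' π ≠ 0 := (_root_.map_ne_zero _).mpr hπ0
  obtain ⟨P, hP⟩ : ∃ P : F', P = ∏ w ∈ S, s w ^ w.ramificationIndex F := ⟨_, rfl⟩
  have hP0 : P ≠ 0 := by
    rw [hP]; exact Finset.prod_ne_zero_iff.mpr fun w hw => pow_ne_zero _ (hs0 w hw)
  have hordP : ∀ w ∈ S, w.adicValuation P = exp (- (w.ramificationIndex F : ℤ)) := by
    intro w hw
    rw [hP, map_prod, Finset.prod_eq_single w]
    · rw [map_pow, w.adicValuation_eq_exp_neg_ord (hs0 w hw), hs1 w hw, ← exp_nsmul]
      congr 1
      simp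
    · intro w' hw' hne
      rw [map_pow, w.adicValuation_eq_exp_neg_ord (hs0 w' hw'), hs w' hw' w hw (Ne.symm hne),
        neg_zero, exp_zero, one_pow]
    · intro h; exact absurd hw h
  have hunit : v.adicValuation (Algebra.norm F (algebraMap F F' π / P)) = 1 := by
    apply norm_eq_one
    intro w hw
    rw [map_div₀, hordP w ((hS w).mpr hw), w.adicValuation_eq_exp_neg_ord hπ0',
      w.ord_restrict (F := F), hw, hπ, mul_one]
    exact div_self (by simp)
  have hnormP : v.ord (Algebra.norm F P) =
      ∑ w ∈ S, (w.ramificationIndex F : ℤ) * v.ord (Algebra.norm F (s w)) := by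
    have h1 : v.adicValuation (Algebra.norm F P) =
        exp (-(∑ w ∈ S, (w.ramificationIndex F : ℤ) * v.ord (Algebra.norm F (s w)))) := by
      rw [hP, map_prod, map_prod, ← Finset.sum_neg_distrib, wz_exp_sum]
      apply Finset.prod_congr rfl
      intro w hw
      rw [map_pow, map_pow, v.adicValuation_eq_exp_neg_ord
        (Algebra.norm_ne_zero_iff.mpr (hs0 w hw)), ← exp_nsmul]
      congr 1
      simp
    rw [v.adicValuation_eq_exp_neg_ord (Algebra.norm_ne_zero_iff.mpr hP0), exp_inj] at h1
    omega
  have hfin : v.ord (Algebra.norm F P) = Module.finrank F F' := by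
    have h1 : Algebra.norm F (algebraMap F F' π) = π ^ Module.finrank F F' :=
      Algebra.norm_algebraMap π
    have h2 : algebraMap F F' π = (algebraMap F F' π / P) * P := (div_mul_cancel₀ _ hP0).symm
    have h3 : v.adicValuation (π ^ Module.finrank F F') = v.adicValuation (Algebra.norm F P) := by
      rw [← h1]
      conv_lhs => rw [h2]
      rw [map_mul, map_mul, hunit, one_mul]
    rw [v.adicValuation_eq_exp_neg_ord (Algebra.norm_ne_zero_iff.mpr hP0),
      v.adicValuation_eq_exp_neg_ord (pow_ne_zero _ hπ0), exp_inj, ← zpow_natCast, v.ord_zpow, hπ,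
      mul_one] at h3
    omega
  have hsum := sum_ramificationIndex v S hS
  rw [hnormP, ← hsum] at hfin
  push_cast at hfin
  have hle : ∀ w ∈ S, (w.ramificationIndex F : ℤ) ≤
      (w.ramificationIndex F : ℤ) * v.ord (Algebra.norm F (s w)) := by
    intro w hw
    have h1 := hpos w hw
    have h2 : 0 < (w.ramificationIndex F : ℤ) := by exact_mod_cast w.ramificationIndex_pos (F := F)
    nlinarith
  have heq := (Finset.sum_eq_sum_iff_of_le hle).mp hfin.symm w₁ hw₁S
  have h2 : 0 < (w₁.ramificationIndex F : ℤ) := by exact_mod_cast w₁.ramificationIndex_pos (F := F)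
  rw [hst w₁ hw₁S rfl] at heq
  have h3 : (w₁.ramificationIndex F : ℤ) * 1 =
    (w₁.ramificationIndex F : ℤ) * v.ord (Algebra.norm F t) := by rw [mul_one]; exact heq
  exact (mul_left_cancel₀ h2.ne' h3).symm

end Fiber

end Fermat.Agent.H88
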