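import Fermat.Agent.H98Ev1
import Fermat.Agent.H88Norm
import Fermat.Agent.H3RR_Riemann

/-!
# S26-J6: calculus of Cartier data and heights (helper98)
-/

set_option autoImplicit false

noncomputable section

open AlgebraicCurve

namespace Fermat.Agent.H26

universe u

namespace AV

variable {K : Type u} [Field K] {𝒜 : AV K}

/-! ### Endomorphisms -/

/-- natural endomorphisms of the group functor that are dominant -/
structure Endo (𝒜 : AV K) where
  toHom : ∀ (R : Type u) [CommRing R] [Algebra K R], 𝒜.Pt R →+ 𝒜.Pt R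
  natural : ∀ {R S : Type u} [CommRing R] [Algebra K R] [CommRing S] [Algebra K S]
    (ι : R →ₐ[K] S) (P : 𝒜.Pt R), toHom S (𝒜.map ι P) = 𝒜.map ι (toHom R P)
  generic : IsGeneric (toHom 𝒜.F 𝒜.η)

def Endo.star (α : Endo 𝒜) : 𝒜.F →ₐ[K] 𝒜.F := evHom _ α.generic

def Endo.nsmul (𝒜 : AV K) (n : ℕ) (hn : (n : K) ≠ 0) : Endo 𝒜 where
  toHom R _ _ := nsmulAddMonoidHom n
  natural ι P := by simp
  generic := isGeneric_nsmul isGeneric_eta n hn

/-- a point is generic iff its field of definition has at least the transcendence degree of `F`;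
in particular if it is the image of a generic point under an invertible operation -/
theorem isGeneric_of_fieldOver_eq {L : Type u} [Field L] [Algebra K L] {x y : 𝒜.Pt L}
    (hx : IsGeneric x) (h : ∀ w, 𝒜.val x w ∈ fieldOver K y) : IsGeneric y := by
  have h1 : Algebra.trdeg K 𝒜.F ≤ Algebra.trdeg K (fieldOver K y) :=
    trdeg_le_of_injective ((evHom x hx).codRestrict (fieldOver K y).toSubalgebra h)
      (fun a b hab => (evHom x hx).toRingHom.injective (congrArg Subtype.val hab))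
  have h2 : Algebra.IsAlgebraic (Algebra.adjoin K (Set.range (𝒜.ev (ptOver K y))))
      (fieldOver K y) := by
    have : Algebra.IsAlgebraic
        (IntermediateField.adjoin K (Set.range (𝒜.ev (ptOver K y)))) (fieldOver K y) := by
      rw [adjoin_range_ev_ptOver]
      refine ⟨fun z => ?_⟩
      exact isAlgebraic_algebraMap (⟨z, IntermediateField.mem_top⟩ :
        (⊤ : IntermediateField K (fieldOver K y)))
    exact isAlgebraic_adjoin _
  have h3 : IsGeneric (ptOver K y) := isGeneric_of_injective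
    (injective_of_trdeg (𝒜.ev (ptOver K y)) ((trdeg_dom_le _).trans_lt (trdeg_F_lt 𝒜))
      ((trdeg_dom_le _).trans h1))
  rw [← isGeneric_map (((fieldOver K y).val).restrictScalars K), map_ptOver] at h3
  exact h3

theorem isGeneric_neg {L : Type u} [Field L] [Algebra K L] {x : 𝒜.Pt L} (hx : IsGeneric x) :
    IsGeneric (-x) := by
  apply isGeneric_of_fieldOver_eq hx
  intro w
  have h1 : 𝒜.map (((fieldOver K (-x)).val).restrictScalars K) (-(ptOver K (-x))) = x := by
    rw [map_neg, map_ptOver, neg_neg]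
  have h2 : 𝒜.val x w = ((𝒜.val (-(ptOver K (-x))) w : fieldOver K (-x)) : L) := by
    conv_lhs => rw [← h1]
    exact val_map_field _ _ _
  rw [h2]
  exact (𝒜.val (-(ptOver K (-x))) w).2

def Endo.neg (𝒜 : AV K) : Endo 𝒜 where
  toHom R _ _ := -AddMonoidHom.id _
  natural ι P := by simp
  generic := by
    have : (-AddMonoidHom.id (𝒜.Pt 𝒜.F)) 𝒜.η = -𝒜.η := rfl
    rw [this]
    exact isGeneric_neg isGeneric_eta

namespace Endo

variable (α : Endo 𝒜)

@[simp] theorem map_star_eta : 𝒜.map α.star 𝒜.η = α.toHom 𝒜.F 𝒜.η := map_evHom_eta _ _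

theorem star_apply (w : 𝒜.F) : α.star w = 𝒜.val (α.toHom 𝒜.F 𝒜.η) w := rfl

variable {R : Type u} [CommRing R] [Algebra K R] [IsLocalRing R]

theorem dom_toHom_taut (P : 𝒜.Pt R) :
    𝒜.dom (α.toHom _ (𝒜.taut P)) = 𝒜.dom (α.toHom R P) := by
  have h := α.natural (𝒜.ev P) (𝒜.taut P)
  rw [map_ev_taut] at h
  have := isLocalHom_ev P
  rw [h, dom_map_of_isLocalHom]

/-- pull back of functions regular at `α P` are regular at `P` -/
theorem coe_val_taut (P : 𝒜.Pt R) {w : 𝒜.F} (hw : w ∈ 𝒜.dom (α.toHom R P)) :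
    ((𝒜.val (α.toHom _ (𝒜.taut P)) w : 𝒜.dom P) : 𝒜.F) = α.star w := by
  have h := α.natural (𝒜.dom P).val (𝒜.taut P)
  rw [map_val_taut] at h
  rw [star_apply, h, val_map (by rwa [dom_toHom_taut])]
  rfl

theorem star_mem_dom (P : 𝒜.Pt R) {w : 𝒜.F} (hw : w ∈ 𝒜.dom (α.toHom R P)) :
    α.star w ∈ 𝒜.dom P := by
  rw [← α.coe_val_taut P hw]
  exact (𝒜.val (α.toHom _ (𝒜.taut P)) w).2

theorem val_star (P : 𝒜.Pt R) {w : 𝒜.F} (hw : w ∈ 𝒜.dom (α.toHom R P)) :
    𝒜.val P (α.star w) = 𝒜.val (α.toHom R P) w := by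
  have h1 := α.natural (𝒜.ev P) (𝒜.taut P)
  rw [map_ev_taut] at h1
  rw [val_eq (α.star_mem_dom P hw)]
  conv_rhs => rw [h1]
  rw [val_map (by rwa [dom_toHom_taut])]
  congr 1
  exact Subtype.ext (α.coe_val_taut P hw).symm

theorem unitIn_star (P : 𝒜.Pt R) {w : 𝒜.F} (hw : 𝒜.UnitIn (𝒜.dom (α.toHom R P)) w) :
    𝒜.UnitIn (𝒜.dom P) (α.star w) :=
  ⟨(_root_.map_ne_zero _).mpr hw.1, α.star_mem_dom P hw.2.1, by
    rw [← map_inv₀]; exact α.star_mem_dom P hw.2.2⟩

end Endo

/-! ### Operations on Cartier data -/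

/-- sum of Cartier data -/
def CDiv.add (D D' : 𝒜.CDiv) : 𝒜.CDiv where
  eqn B := D.eqn B * D'.eqn B
  eqn_ne_zero B := mul_ne_zero (D.eqn_ne_zero B) (D'.eqn_ne_zero B)
  unitIn_map ι P := by
    rw [mul_div_mul_comm]
    exact (D.unitIn_map ι P).mul (D'.unitIn_map ι P)
  exists_finset P := by
    classical
    obtain ⟨T, hT⟩ := D.exists_finset P
    obtain ⟨T', hT'⟩ := D'.exists_finset P
    refine ⟨T ∪ T', fun V hV => ?_⟩
    rw [mul_div_mul_comm]
    exact (hT V fun t ht => hV t (Finset.mem_union_left _ ht)).mul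
      (hT' V fun t ht => hV t (Finset.mem_union_right _ ht))

/-- multiple of Cartier data -/
def CDiv.smul (m : ℕ) (D : 𝒜.CDiv) : 𝒜.CDiv where
  eqn B := D.eqn B ^ m
  eqn_ne_zero B := pow_ne_zero _ (D.eqn_ne_zero B)
  unitIn_map ι P := by
    rw [← div_pow]
    exact (D.unitIn_map ι P).pow m
  exists_finset P := by
    obtain ⟨T, hT⟩ := D.exists_finset P
    refine ⟨T, fun V hV => ?_⟩
    rw [← div_pow]
    exact (hT V hV).pow m

theorem CDiv.mul_mem_sections {D D' : 𝒜.CDiv} {φ ψ : 𝒜.F} (h : φ ∈ D.sections)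
    (h' : ψ ∈ D'.sections) : φ * ψ ∈ (D.add D').sections := by
  rw [mem_sections] at h h' ⊢
  intro R _ _ _ P
  change φ * ψ * (D.eqn (𝒜.dom P) * D'.eqn (𝒜.dom P)) ∈ 𝒜.dom P
  rw [mul_mul_mul_comm]
  exact mul_mem (h P) (h' P)

theorem CDiv.pow_mem_sections {D : 𝒜.CDiv} {φ : 𝒜.F} (h : φ ∈ D.sections) (m : ℕ) :
    φ ^ m ∈ (CDiv.smul m D).sections := by
  rw [mem_sections] at h ⊢
  intro R _ _ _ P
  change φ ^ m * D.eqn (𝒜.dom P) ^ m ∈ 𝒜.dom P
  rw [← mul_pow]
  exact pow_mem (h P) m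

open Classical in
/-- the local equation of the pull back -/
def CDiv.comapEqn (α : Endo 𝒜) (D : 𝒜.CDiv) (B : Subalgebra K 𝒜.F) : 𝒜.F :=
  if h : ∃ (_ : IsLocalRing B) (T : 𝒜.Pt B), 𝒜.map B.val T = 𝒜.η then
    α.star (D.eqn (letI := h.choose; 𝒜.dom (α.toHom B h.choose_spec.choose))) else 1

theorem CDiv.comapEqn_dom (α : Endo 𝒜) (D : 𝒜.CDiv) {R : Type u} [CommRing R] [Algebra K R]
    [IsLocalRing R] (P : 𝒜.Pt R) :
    D.comapEqn α (𝒜.dom P) = α.star (D.eqn (𝒜.dom (α.toHom R P))) := by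
  have h : ∃ (_ : IsLocalRing (𝒜.dom P)) (T : 𝒜.Pt (𝒜.dom P)), 𝒜.map (𝒜.dom P).val T = 𝒜.η :=
    ⟨inferInstance, 𝒜.taut P, map_val_taut P⟩
  rw [comapEqn, dif_pos h]
  have hT : h.choose_spec.choose = 𝒜.taut P :=
    𝒜.map_injective (𝒜.dom P).val Subtype.val_injective
      (h.choose_spec.choose_spec.trans (map_val_taut P).symm)
  rw [hT, ← α.dom_toHom_taut P]

/-- pull back of Cartier data by an endomorphism -/
def CDiv.comap (α : Endo 𝒜) (D : 𝒜.CDiv) : 𝒜.CDiv where
  eqn B := D.comapEqn α B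
  eqn_ne_zero B := by
    rw [comapEqn]
    split_ifs
    · exact (_root_.map_ne_zero _).mpr (D.eqn_ne_zero _)
    · exact one_ne_zero
  unitIn_map ι P := by
    rw [comapEqn_dom, comapEqn_dom, ← map_div₀]
    apply α.unitIn_star
    rw [α.natural]
    exact D.unitIn_map ι _
  exists_finset {L} _ _ P := by
    obtain ⟨T, hT⟩ := D.exists_finset (α.toHom L P)
    refine ⟨T, fun V hV => ?_⟩
    have hnat : α.toHom _ (𝒜.lift V P) = 𝒜.lift V (α.toHom L P) := by
      refine (𝒜.lift_eq_of_map_eq ?_).symm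
      rw [← α.natural, map_lift]
    rw [comapEqn_dom, comapEqn_dom, ← map_div₀]
    apply α.unitIn_star
    rw [hnat]
    exact hT V hV

@[simp] theorem CDiv.comap_eqn_dom (α : Endo 𝒜) (D : 𝒜.CDiv) {R : Type u} [CommRing R]
    [Algebra K R] [IsLocalRing R] (P : 𝒜.Pt R) :
    (D.comap α).eqn (𝒜.dom P) = α.star (D.eqn (𝒜.dom (α.toHom R P))) := D.comapEqn_dom α P

theorem CDiv.star_mem_sections (α : Endo 𝒜) {D : 𝒜.CDiv} {φ : 𝒜.F} (h : φ ∈ D.sections) :
    α.star φ ∈ (D.comap α).sections := by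
  rw [mem_sections] at h ⊢
  intro R _ _ _ P
  rw [comap_eqn_dom, ← map_mul]
  exact α.star_mem_dom P (h _)

theorem Endo.lift_toHom {L : Type u} [Field L] [Algebra K L] (α : Endo 𝒜) (V : VSub K L)
    (X : 𝒜.Pt L) : α.toHom _ (𝒜.lift V X) = 𝒜.lift V (α.toHom L X) := by
  refine (𝒜.lift_eq_of_map_eq ?_).symm
  rw [← α.natural, map_lift]

/-! ### Heights -/

section ht

variable (k : Type u) {E : Type u} [Field k] [Field E] [Algebra K k] [Algebra K E] [Algebra k E]
  [IsScalarTower K k E]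

variable {k} in
theorem CDiv.loc_add (D D' : 𝒜.CDiv) (X : 𝒜.Pt E) (v : Place k E) :
    (D.add D').loc X v = D.loc X v * D'.loc X v := by
  rw [loc, loc, loc, ← val_mul (D.unitIn_lift X _).2.1 (D'.unitIn_lift X _).2.1,
    ← mul_div_mul_comm]
  rfl

variable {k} in
theorem CDiv.loc_smul (m : ℕ) (D : 𝒜.CDiv) (X : 𝒜.Pt E) (v : Place k E) :
    (D.smul m).loc X v = D.loc X v ^ m := by
  rw [loc, loc, ← val_pow (D.unitIn_lift X _).2.1, div_pow]
  rfl

variable {k} in
theorem CDiv.loc_comap (α : Endo 𝒜) (D : 𝒜.CDiv) (X : 𝒜.Pt E) (v : Place k E) :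
    (D.comap α).loc X v = D.loc (α.toHom E X) v := by
  rw [loc, loc, comap_eqn_dom, comap_eqn_dom, ← map_div₀, α.lift_toHom]
  exact α.val_star X (D.unitIn_lift _ _).2.1

variable [IsAlgClosed k] [H3RR.IsFF k E]

theorem CDiv.ht_add (D D' : 𝒜.CDiv) (X : 𝒜.Pt E) :
    (D.add D').ht k X = D.ht k X + D'.ht k X := by
  rw [ht, ht, ht, ← map_add]
  congr 1
  ext v
  rw [Finsupp.add_apply, pull_apply, pull_apply, pull_apply, loc_add,
    Place.ord_mul _ (D.loc_ne_zero X v) (D'.loc_ne_zero X v)]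

theorem CDiv.ht_smul (m : ℕ) (D : 𝒜.CDiv) (X : 𝒜.Pt E) : (D.smul m).ht k X = m * D.ht k X := by
  rw [ht, ht]
  have : (D.smul m).pull k X = m • D.pull k X := by
    ext v
    rw [Finsupp.smul_apply, pull_apply, pull_apply, loc_smul, ← zpow_natCast, Place.ord_zpow,
      nsmul_eq_mul]
  rw [this, map_nsmul, nsmul_eq_mul]

theorem CDiv.ht_comap (α : Endo 𝒜) (D : 𝒜.CDiv) (X : 𝒜.Pt E) :
    (D.comap α).ht k X = D.ht k (α.toHom E X) := by
  rw [ht, ht]
  congr 1
  ext v
  rw [pull_apply, pull_apply, loc_comap]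

/-- constants have height `0` -/
theorem CDiv.ht_const (D : 𝒜.CDiv) (P : 𝒜.Pt k) :
    D.ht k (𝒜.map (IsScalarTower.toAlgHom K k E) P) = 0 := by
  have h0 : D.pull k (𝒜.map (IsScalarTower.toAlgHom K k E) P) = 0 := by
    ext v
    rw [pull_apply, loc, Finsupp.zero_apply]
    have h1 : liftP (𝒜.map (IsScalarTower.toAlgHom K k E) P) v = 𝒜.map (cst K v) P := by
      apply lift_eq_of_map_eq
      rw [map_map]
      rfl
    have hloc : IsLocalHom (cst K v).toRingHom := inferInstance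
    rw [h1, dom_map_of_isLocalHom, dom_map_field, div_self (D.eqn_ne_zero _), val_one,
      Place.ord_one]
  rw [ht, h0, map_zero]

/-- finite extensions -/
theorem CDiv.ht_finite (D : 𝒜.CDiv) (X : 𝒜.Pt E) (E' : Type u) [Field E'] [Algebra K E']
    [Algebra k E'] [Algebra E E'] [IsScalarTower K k E'] [IsScalarTower K E E']
    [IsScalarTower k E E'] [FiniteDimensional E E'] [H3RR.IsFF k E'] :
    D.ht k (𝒜.map (IsScalarTower.toAlgHom K E E') X) = Module.finrank E E' * D.ht k X := by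
  have hFI : FundamentalIdentity k E E' := by
    refine ⟨fun v => ?_⟩
    rw [H3RR.deg_eq_one, Nat.cast_one, mul_one]
    have h1 := H88.sum_ramificationIndex v (v.fiber E') (fun w => Place.mem_fiber)
    rw [← h1]
    push_cast
    refine Finset.sum_congr rfl fun w _ => ?_
    rw [H3RR.deg_eq_one, Nat.cast_one, mul_one]
  have h0 : D.pull k (𝒜.map (IsScalarTower.toAlgHom K E E') X) =
      Divisor.pullback E' (D.pull k X) := by
    ext w
    rw [pull_apply, Divisor.pullback_apply, pull_apply, ← Place.ord_restrict]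
    congr 1
    have hmem : ∀ x : E, x ∈ (plV K (w.restrict E)).toSubalgebra ↔
        IsScalarTower.toAlgHom K E E' x ∈ (plV K w).toSubalgebra := fun x => Place.mem_restrict_iff w
    have h1 : liftP (𝒜.map (IsScalarTower.toAlgHom K E E') X) w =
        𝒜.map (restr (IsScalarTower.toAlgHom K E E') (plV K (w.restrict E)) (plV K w)
          fun x => (hmem x).mp) (liftP X (w.restrict E)) := by
      apply lift_eq_of_map_eq
      rw [map_map]
      have : ((plV K w).toSubalgebra.val).comp (restr (IsScalarTower.toAlgHom K E E')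
          (plV K (w.restrict E)) (plV K w) fun x => (hmem x).mp) =
          (IsScalarTower.toAlgHom K E E').comp (plV K (w.restrict E)).toSubalgebra.val :=
        AlgHom.ext fun x => rfl
      rw [this, ← map_map, map_lift]
    have hloc : IsLocalHom (restr (IsScalarTower.toAlgHom K E E') (plV K (w.restrict E)) (plV K w)
          fun x => (hmem x).mp).toRingHom := isLocalHom_restr _ _ _ hmem
    rw [loc, h1, dom_map_of_isLocalHom, dom_map_field, val_map_field]
    rfl
  rw [ht, h0, Divisor.degree_pullback]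
  rfl

/-- the function `φ` as a section of `D` at the reduction of `X` at `v` -/
def CDiv.secAt {k : Type u} [Field k] [Algebra K k] [Algebra k E] [IsScalarTower K k E]
    (D : 𝒜.CDiv) (X : 𝒜.Pt E) (v : Place k E) (φ : 𝒜.F) : E :=
  𝒜.val X (φ * D.eqn (𝒜.dom (liftP X v)))

/-- a section of `D` not vanishing identically on the curve `X` vanishes at most at `ht` many
places -/
theorem CDiv.card_le_ht (D : 𝒜.CDiv) (X : 𝒜.Pt E) {φ : 𝒜.F} (hφ : φ ∈ D.sections)
    (h0 : 𝒜.val X (φ * D.eqn (𝒜.dom X)) ≠ 0) (S : Finset (Place k E))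
    (hS : ∀ v ∈ S, ¬ IsUnit (𝒜.val (liftP X v) (φ * D.eqn (𝒜.dom (liftP X v))))) :
    (S.card : ℤ) ≤ D.ht k X := by
  classical
  rw [mem_sections] at hφ
  set f : E := 𝒜.val X (φ * D.eqn (𝒜.dom X)) with hf
  -- the values `g v`
  let g : Place k E → E := fun v => 𝒜.val X (φ * D.eqn (𝒜.dom (liftP X v)))
  have hg : ∀ v, g v = f * D.loc X v := by
    intro v
    rw [hf, loc, ← val_mul (hφ X) (D.unitIn_lift X _).2.1]
    rw [mul_assoc, mul_div_cancel₀ _ (D.eqn_ne_zero _)]
  have hg0 : ∀ v, g v ≠ 0 := fun v => by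
    rw [hg]; exact mul_ne_zero h0 (D.loc_ne_zero X v)
  have hgv : ∀ v, g v = ((𝒜.val (liftP X v) (φ * D.eqn (𝒜.dom (liftP X v))) :
      (plV K v).toSubalgebra) : E) := fun v => (val_lift _ _ (hφ (liftP X v))).symm
  have hgm : ∀ v : Place k E, g v ∈ v.toValuationSubring := fun v => by
    rw [hgv]; exact (𝒜.val (liftP X v) (φ * D.eqn (𝒜.dom (liftP X v)))).2
  have hgord : ∀ v : Place k E, 0 ≤ v.ord (g v) := fun v => ord_nonneg_of_mem v (hgm v)
  have hgS : ∀ v ∈ S, 1 ≤ v.ord (g v) := by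
    intro v hv
    have h1 := hS v hv
    rw [VSub.isUnit_iff, ← hgv] at h1
    have h2 : v.ord (g v) ≠ 0 := by
      intro h3
      exact h1 ⟨hg0 v, ((isUnit_iff_ord v (hg0 v)).mpr h3).2⟩
    have := hgord v
    omega
  have hord : ∀ v : Place k E, D.pull k X v + (H3RR.divOf f : Divisor k E) v = v.ord (g v) := by
    intro v
    rw [pull_apply, H3RR.divOf_apply h0, hg, Place.ord_mul _ h0 (D.loc_ne_zero X v)]
    ring
  have hdeg : D.ht k X = Divisor.degree (D.pull k X + H3RR.divOf f) := by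
    rw [map_add, H3RR.degree_divOf h0, add_zero]
    rfl
  rw [hdeg]
  have hle : (∑ v ∈ S, Finsupp.single v (1 : ℤ) : Divisor k E) ≤ D.pull k X + H3RR.divOf f := by
    intro v
    rw [Finsupp.add_apply, hord, Finsupp.finsetSum_apply]
    by_cases hv : v ∈ S
    · rw [Finset.sum_eq_single v, Finsupp.single_eq_same]
      · exact hgS v hv
      · intro w _ hwv
        rw [Finsupp.single_eq_of_ne' hwv]
      · intro h; exact absurd hv h
    · rw [Finset.sum_eq_zero]
      · exact hgord v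
      · intro w hw
        rw [Finsupp.single_eq_of_ne']
        rintro rfl
        exact hv hw
  have hdeg2 : Divisor.degree (∑ v ∈ S, Finsupp.single v (1 : ℤ) : Divisor k E) = S.card := by
    rw [map_sum]
    simp [Divisor.degree_single, H3RR.deg_eq_one]
  rw [← hdeg2]
  have hsub : 0 ≤ Divisor.degree ((D.pull k X + H3RR.divOf f) -
      (∑ v ∈ S, Finsupp.single v (1 : ℤ) : Divisor k E)) := by
    rw [H3RR.degree_eq_sum]
    exact Finset.sum_nonneg fun v _ => Finsupp.le_def.mp (sub_nonneg.mpr hle) v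
  rw [map_sub] at hsub
  linarith

end ht

end AV

end Fermat.Agent.H26
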