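import Fermat.Agent.H98AV5
import Fermat.Agent.H98Calc

/-!
# Reader's guide: statement S26, division points and the calculus of divisors, step by step

**Statement served:** S26 (and nothing else). Companion of `GuideAbelian`, sections 2 and 3: here are the
steps of the proofs of the theorems which are stated there (`GuideAbelian.tangent_vectors`,
`field_of_division_point`, `divisible`, `torsion_finite`, `torsion_structure`, `height_calculus`). Prose:
NOTES [102]. No proof depends on this file, and it contains no new mathematics: every theorem is proved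
by citing the library, and every cited theorem is in the proof term of S26. Files: `H98AV1`-`H98AV5`,
`H98Calc` (helper98), `H26AV`, `H26CDiv`, `H26Height` (helper26).

**The setting.** `𝒜 : AV K` is an abelian variety seen through its points (`GuideAbelian`, section 1):
`𝒜.Pt R` the group of the `R`-valued points, `𝒜.map` their functoriality; for a point `P` with values
in a local ring the local ring `𝒜.dom P ⊆ 𝒜.F` of its centre, and `𝒜.val P w` the value of a function
`w ∈ 𝒜.dom P`; `𝒜.η` the generic point, with values in the function field `𝒜.F`; `𝒜.lift V X` the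
extension of a point `X` with values in a field `L` to a valuation ring `V` of `L`; `𝒜.taut P` the
tautological point with values in `𝒜.dom P`. There is no tangent space, no differential form and no
étale morphism on `𝒜`: what is used are points with values in `L[ε]`, in `L[M]` (`M` a vector space
with square zero), and derivations of fields.

**The steps.**

1. Rules for points (section 1): centres and values under homomorphisms, points and embeddings of the
   function field, extension to valuation rings.
2. For points over `0` with values in `L[ε]`, addition is addition of the `ε`-parts of the values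
   (`add_tangent_vectors`), so multiplication by `n` is multiplication by the number `n`
   (`nsmul_tangent_vector`). This gives `GuideAbelian.tangent_vectors`.
3. If `n x` is defined over `L₀`, then every derivation over `L₀` vanishes on the values at `x`
   (`derivation_of_values`), because `x` and `(1 + ε D) x` differ by a tangent vector killed by `n`. So
   `L₀(x) / L₀` is finite and separable; if `L₀` is algebraically closed, `x` is defined over `L₀`
   (`division_point_rational`).
4. For `x = 𝒜.η`: the function field is finite over its image under `[n]^*` (`n_star_finite`).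
   The translations by points of order `n` are automorphisms over this image (`translations`), so there
   are only finitely many of them, and as many linearly independent functions (`counting_translations`).
5. Group theory: the numbers of torsion points are multiplicative and powers of primes (section 4).
6. Sums, multiples and pull-backs of divisors, their sections, local multiplicities and heights
   (sections 5, 6). The only endomorphisms needed are the multiplications by `n` and by `-1`.
-/

set_option autoImplicit false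

noncomputable section

open TrivSqZeroExt AlgebraicCurve
open Fermat.Agent.H26 Fermat.Agent.H3RR

namespace Fermat.Agent.Guide.AbelianTorsion

universe u

/-! ## 1. Rules for points and functions -/

/-- **Functions and homomorphisms of local rings.** Let `ι : R → S` be a homomorphism of local rings and
`P` an `R`-valued point. A function which is regular at `P` is regular at the image `ι P`, and its value
there is the image of its value at `P`. If `ι` is a local homomorphism (for instance an extension of
fields), then `P` and `ι P` have the same centre. (`H26AV`.) -/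
theorem values_of_image {K : Type u} [Field K] {𝒜 : AV K} {R S : Type u} [CommRing R] [Algebra K R]
    [CommRing S] [Algebra K S] [IsLocalRing R] [IsLocalRing S] (ι : R →ₐ[K] S) (P : 𝒜.Pt R) :
    𝒜.dom P ≤ 𝒜.dom (𝒜.map ι P) ∧
      (∀ w ∈ 𝒜.dom P, 𝒜.val (𝒜.map ι P) w = ι (𝒜.val P w)) ∧
      (IsLocalHom ι.toRingHom → 𝒜.dom (𝒜.map ι P) = 𝒜.dom P) :=
  ⟨AV.dom_le_dom_map ι P, fun _ hw => AV.val_map hw, fun _ => AV.dom_map_of_isLocalHom ι P⟩

/-- **Units.** A function `w` which is regular at `P` is a unit of the local ring of the centre if and only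
if its value at `P` is a unit. So for a point with values in a field `w⁻¹` is regular at `P` if `w(P)` is
not zero. (`H26AV`.) -/
theorem units_at_point {K : Type u} [Field K] {𝒜 : AV K} {R : Type u} [CommRing R] [Algebra K R]
    [IsLocalRing R] (P : 𝒜.Pt R) (w : 𝒜.F) :
    (w ≠ 0 ∧ w ∈ 𝒜.dom P ∧ w⁻¹ ∈ 𝒜.dom P) ↔ w ∈ 𝒜.dom P ∧ IsUnit (𝒜.val P w) :=
  ⟨fun h => ⟨h.2.1, AV.isUnit_val_of_unitIn h⟩, fun h => AV.unitIn_of_isUnit_val h.1 h.2⟩

/-- **The tautological point** `T = 𝒜.taut P` with values in the local ring of the centre of `P`: its image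
under the evaluation is `P`, its image under the inclusion in the function field is the generic point,
and the value of `w` at `T` is `w`. (`H26AV`.) -/
theorem tautological_point {K : Type u} [Field K] {𝒜 : AV K} {R : Type u} [CommRing R] [Algebra K R]
    [IsLocalRing R] (P : 𝒜.Pt R) :
    𝒜.map (𝒜.ev P) (𝒜.taut P) = P ∧ 𝒜.map (𝒜.dom P).val (𝒜.taut P) = 𝒜.η ∧
      ∀ (w : 𝒜.F) (h : w ∈ 𝒜.dom P), 𝒜.val (𝒜.taut P) w = ⟨w, h⟩ :=
  ⟨AV.map_ev_taut P, AV.map_val_taut P, fun _ h => AV.val_taut P h⟩

/-- **Generic points are embeddings of the function field.** For a homomorphism `β : 𝒜.F → L` over `K` the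
image of the generic point under `β` is generic and its values are those of `β`; every generic point `x`
is of this form, with `β = AV.evHom x` the evaluation at `x`; and `β` is determined by the image of the
generic point. (`H26AV`, `H98AV4`.) -/
theorem generic_points_as_embeddings {K : Type u} [Field K] {𝒜 : AV K} {L : Type u} [Field L]
    [Algebra K L] :
    (∀ β : 𝒜.F →ₐ[K] L, AV.IsGeneric (𝒜.map β 𝒜.η) ∧ ∀ w, 𝒜.val (𝒜.map β 𝒜.η) w = β w) ∧
      (∀ (x : 𝒜.Pt L) (hx : AV.IsGeneric x), 𝒜.map (AV.evHom x hx) 𝒜.η = x) ∧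
      ∀ β γ : 𝒜.F →ₐ[K] L, 𝒜.map β 𝒜.η = 𝒜.map γ 𝒜.η → β = γ :=
  ⟨fun β => ⟨AV.isGeneric_map_eta β, AV.val_map_eta β⟩, AV.map_evHom_eta,
    fun _ _ h => AV.algHom_ext_eta h⟩

/-- **Extension to a valuation ring** `V` of `L` which contains `K` (`V : H26.VSub K L`) is a homomorphism of
groups, and compatible with values: a function which is regular at the extended point is regular at `X`,
with the same value. (`H26CDiv`.) -/
theorem extension_to_valuation_ring {K : Type u} [Field K] (𝒜 : AV K) {L : Type u} [Field L]
    [Algebra K L] (V : H26.VSub K L) (X Y : 𝒜.Pt L) (n : ℕ) :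
    𝒜.map V.toSubalgebra.val (𝒜.lift V X) = X ∧
      𝒜.lift V (X + Y) = 𝒜.lift V X + 𝒜.lift V Y ∧ 𝒜.lift V (n • X) = n • 𝒜.lift V X ∧
      𝒜.dom (𝒜.lift V X) ≤ 𝒜.dom X ∧
      ∀ w ∈ 𝒜.dom (𝒜.lift V X), ((𝒜.val (𝒜.lift V X) w : V.toSubalgebra) : L) = 𝒜.val X w :=
  ⟨𝒜.map_lift V X, 𝒜.lift_add V X Y, 𝒜.lift_nsmul V n X, AV.dom_lift_le V X,
    fun _ h => AV.val_lift V X h⟩

/-! ## 2. Tangent vectors at the origin

`DualNumber L` is `L[ε]` with `ε² = 0`, and `TrivSqZeroExt L M` is `L ⊕ M` with `M² = 0`; `fst`, `snd` are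
the two components. A tangent vector at `0` is a point with values in `L[ε]` whose reduction modulo `ε` is
`0`. -/

/-- **Square zero extensions are functorial.** A linear map `f : M → N` gives a homomorphism
`AV.tmap K f : L ⊕ M → L ⊕ N` of local rings, and this homomorphism is local. (`H98AV1`.) -/
theorem square_zero_extensions (K : Type u) [Field K] {L : Type u} [Field L] [Algebra K L]
    {M N : Type u} [AddCommGroup M] [Module L M] [Module Lᵐᵒᵖ M] [IsCentralScalar L M] [Module K M]
    [IsScalarTower K L M] [AddCommGroup N] [Module L N] [Module Lᵐᵒᵖ N] [IsCentralScalar L N]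
    [Module K N] [IsScalarTower K L N] (f : M →ₗ[L] N) :
    (∀ x : TrivSqZeroExt L M, fst (AV.tmap K f x) = fst x ∧ snd (AV.tmap K f x) = f (snd x)) ∧
      IsLocalRing (TrivSqZeroExt L M) ∧ IsLocalHom (AV.tmap K f).toRingHom :=
  ⟨fun x => ⟨AV.fst_tmap f x, AV.snd_tmap f x⟩, AV.isLocalRing_tsze, AV.isLocalHom_tmap f⟩

/-- The centre of a tangent vector at `0` is the origin. (`H98AV1`.) -/
theorem centre_of_tangent_vector {K : Type u} [Field K] {𝒜 : AV K} {L : Type u} [Field L]
    [Algebra K L] {x : 𝒜.Pt (DualNumber L)} (hx : 𝒜.map (fstHom K L L) x = 0) :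
    𝒜.dom x = 𝒜.dom (0 : 𝒜.Pt L) :=
  AV.dom_of_map_fst_eq_zero hx

/-- **Addition of tangent vectors is addition of derivations:** for a function `w` regular at the origin, the
`ε`-part of `w(x + y)` is the sum of the `ε`-parts of `w(x)` and `w(y)`. Proof: `x` and `y` give points
with values in `L ⊕ L²`, by the two inclusions of `L` in `L²`; their sum `Z` is mapped to `x`, `y` by
the two projections, and to `x + y` by the addition `L² → L`. The `L²`-part of `w(Z)` is the pair of
the `ε`-parts of `w(x)` and `w(y)`. (`H98AV1`.) -/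
theorem add_tangent_vectors {K : Type u} [Field K] {𝒜 : AV K} {L : Type u} [Field L] [Algebra K L]
    {x y : 𝒜.Pt (DualNumber L)} (hx : 𝒜.map (fstHom K L L) x = 0)
    (hy : 𝒜.map (fstHom K L L) y = 0) {w : 𝒜.F} (hw : w ∈ 𝒜.dom (0 : 𝒜.Pt L)) :
    snd (𝒜.val (x + y) w) = snd (𝒜.val x w) + snd (𝒜.val y w) :=
  AV.snd_val_add hx hy hw

/-- **Multiplication by `n` on tangent vectors** is multiplication by the number `n`. Hence a tangent vector
killed by `n` is `0`, if `n ≠ 0` in `K`: its values are those of the point `0`, and a point is determined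
by its centre and its values. (`H98AV1`.) -/
theorem nsmul_tangent_vector {K : Type u} [Field K] {𝒜 : AV K} {L : Type u} [Field L] [Algebra K L]
    {x : 𝒜.Pt (DualNumber L)} (hx : 𝒜.map (fstHom K L L) x = 0) (n : ℕ) :
    (∀ w ∈ 𝒜.dom (0 : 𝒜.Pt L), snd (𝒜.val (n • x) w) = (n : L) * snd (𝒜.val x w)) ∧
      (∀ w ∈ 𝒜.dom (0 : 𝒜.Pt L), snd (𝒜.val (0 : 𝒜.Pt (DualNumber L)) w) = 0) ∧
      ((n : K) ≠ 0 → n • x = 0 → x = 0) :=
  ⟨fun _ hw => AV.snd_val_nsmul hx n hw, fun _ hw => AV.snd_val_zero hw,
    fun hn h => AV.dual_eq_zero n hn x hx h⟩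

/-! ## 3. Division points

`AV.fieldOver L₀ x ⊆ L` is the field generated over `L₀` by the values of functions at `x`, and
`AV.ptOver L₀ x` the point `x` with values in this field (`GuideEvaluation.field_of_definition`). -/

/-- **The field of definition is finitely generated**, because the local rings of `𝒜` are localisations of
finitely generated algebras. It contains the value of every function, and the centre does not
change. (`H98AV2`.) -/
theorem field_of_definition_finitely_generated {K : Type u} [Field K] {𝒜 : AV K} {L : Type u}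
    [Field L] [Algebra K L] (L₀ : Type u) [Field L₀] [Algebra K L₀] [Algebra L₀ L]
    [IsScalarTower K L₀ L] (x : 𝒜.Pt L) :
    Algebra.EssFiniteType L₀ (AV.fieldOver L₀ x) ∧ (∀ w, 𝒜.val x w ∈ AV.fieldOver L₀ x) ∧
      𝒜.dom (AV.ptOver L₀ x) = 𝒜.dom x ∧
      ∀ w, ((𝒜.val (AV.ptOver L₀ x) w : AV.fieldOver L₀ x) : L) = 𝒜.val x w :=
  ⟨AV.essFiniteType_fieldOver L₀ x, fun w => by rw [← AV.val_ptOver L₀ x w]; exact Subtype.property _,
    AV.dom_ptOver L₀ x, AV.val_ptOver L₀ x⟩

/-- **A derivation as a homomorphism.** A derivation `D` of `L` over `L₀` gives the homomorphism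
`z ↦ z + ε D z` from `L` to `L[ε]`. Modulo `ε` it is the identity, and on `L₀` it is the inclusion.
(`H98AV2`.) -/
theorem derivation_as_homomorphism (K : Type u) [Field K] {L : Type u} [Field L] [Algebra K L]
    {L₀ : Type u} [Field L₀] [Algebra K L₀] [Algebra L₀ L] [IsScalarTower K L₀ L]
    (D : Derivation L₀ L L) :
    (∀ z, AV.derHom K D z = inl z + inr (D z)) ∧
      (fstHom K L L).comp (AV.derHom K D) = AlgHom.id K L ∧
      (AV.derHom K D).comp (IsScalarTower.toAlgHom K L₀ L) =
        (inlAlgHom K L L).comp (IsScalarTower.toAlgHom K L₀ L) :=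
  ⟨AV.derHom_apply D, AV.fst_comp_derHom D, AV.derHom_comp D⟩

/-- **Derivations vanish on the coordinates of a division point.** Let `n ≠ 0` in `K` and let `n x` be
defined over `L₀`. Then `D(w(x)) = 0` for every derivation `D` of `L` over `L₀`. Proof: the image of `x`
under `z ↦ z + ε D z` minus the image under `z ↦ z` is a tangent vector at `0`; it is killed by `n`,
because the two homomorphisms agree on `L₀`, and so it is `0`. (`H98AV2`.) -/
theorem derivation_of_values {K : Type u} [Field K] {𝒜 : AV K} {L : Type u} [Field L] [Algebra K L]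
    {L₀ : Type u} [Field L₀] [Algebra K L₀] [Algebra L₀ L] [IsScalarTower K L₀ L] (n : ℕ)
    (hn : (n : K) ≠ 0) (x : 𝒜.Pt L) (y : 𝒜.Pt L₀)
    (h : n • x = 𝒜.map (IsScalarTower.toAlgHom K L₀ L) y) (D : Derivation L₀ L L) {w : 𝒜.F}
    (hw : w ∈ 𝒜.dom x) : D (𝒜.val x w) = 0 :=
  AV.derivation_val_eq_zero n hn x y h D hw

/-- **Division points over an algebraically closed field.** If `n x` is defined over the algebraically closed
field `L₀`, then `x` is defined over `L₀`: the last theorem holds with the field of definition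
`L₀(x)` in the place of `L`, so this field has no derivation over `L₀` except `0`, and is finite and
separable over `L₀` (`GuideAbelian.field_of_division_point`). (`H98AV2`.) -/
theorem division_point_rational {K : Type u} [Field K] {𝒜 : AV K} {L : Type u} [Field L]
    [Algebra K L] (L₀ : Type u) [Field L₀] [Algebra K L₀] [Algebra L₀ L] [IsScalarTower K L₀ L]
    [IsAlgClosed L₀] (n : ℕ) (hn : (n : K) ≠ 0) (x : 𝒜.Pt L) (y : 𝒜.Pt L₀)
    (h : n • x = 𝒜.map (IsScalarTower.toAlgHom K L₀ L) y) :
    ∃ x₀ : 𝒜.Pt L₀, 𝒜.map (IsScalarTower.toAlgHom K L₀ L) x₀ = x :=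
  AV.mem_range_of_nsmul L₀ n hn x y h

/-- **Transcendence degrees.** The function field is finitely generated over `K`, so its transcendence degree
is finite, and those of the local rings are not larger. The field of definition of the generic point is
the whole function field. With these facts and `GuideEvaluation.injective_of_trdeg` one sees that `n` times
the generic point is generic. (`H98AV3`.) -/
theorem transcendence_degrees {K : Type u} [Field K] (𝒜 : AV K) :
    Algebra.EssFiniteType K 𝒜.F ∧ Algebra.trdeg K 𝒜.F < Cardinal.aleph0 ∧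
      (∀ {R : Type u} [CommRing R] [Algebra K R] [IsLocalRing R] (P : 𝒜.Pt R),
        Algebra.trdeg K (𝒜.dom P) ≤ Algebra.trdeg K 𝒜.F) ∧
      ∀ (L₀ : Type u) [Field L₀] [Algebra L₀ 𝒜.F], AV.fieldOver L₀ 𝒜.η = ⊤ :=
  ⟨AV.essFiniteType_F 𝒜, AV.trdeg_F_lt 𝒜, AV.trdeg_dom_le, fun L₀ => AV.fieldOver_eta 𝒜 L₀⟩

/-- **The homomorphism `[n]^*`** of the function field, `𝒜.nStar n hn`: the evaluation at the point
`n • 𝒜.η`. It maps the generic point to `n • 𝒜.η`, and the function field is finite over its image.
(`H98AV4`.) -/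
theorem n_star_finite {K : Type u} [Field K] (𝒜 : AV K) (n : ℕ) (hn : (n : K) ≠ 0) :
    (∀ w, 𝒜.nStar n hn w = 𝒜.val (n • 𝒜.η) w) ∧ 𝒜.map (𝒜.nStar n hn) 𝒜.η = n • 𝒜.η ∧
      (𝒜.nStar n hn).toRingHom.Finite :=
  ⟨fun _ => rfl, AV.map_nStar_eta n hn, AV.finite_nStar 𝒜 n hn⟩

/-- More generally: if `n` times the generic point is defined over a subfield `L₀` (here: comes from `L₀` by
a homomorphism `β`), then the function field is finite over `L₀`. (`H98AV4`.) -/
theorem finite_over_field_of_multiple {K : Type u} [Field K] {𝒜 : AV K} {L₀ : Type u} [Field L₀]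
    [Algebra K L₀] (β : L₀ →ₐ[K] 𝒜.F) (n : ℕ) (hn : (n : K) ≠ 0) (y : 𝒜.Pt L₀)
    (h : n • 𝒜.η = 𝒜.map β y) : β.toRingHom.Finite :=
  AV.finite_of_nsmul_eta β n hn y h

/-- **Translations by points of order `n`.** Let `x` be a point over `K` with `n x = 0`. The point
`𝒜.etaAdd x = η + x` is generic, since `n (η + x) = n η` is. So it gives a homomorphism
`τ_x = 𝒜.transl n hn x` of the function field; different points give different
homomorphisms, and `τ_x [n]^* = [n]^*`. (`H98AV4`.) -/
theorem translations {K : Type u} [Field K] {𝒜 : AV K} (n : ℕ) (hn : (n : K) ≠ 0)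
    (x : {x : 𝒜.Pt K // n • x = 0}) :
    𝒜.etaAdd x.1 = 𝒜.η + 𝒜.map (Algebra.ofId K 𝒜.F) x.1 ∧ n • 𝒜.etaAdd x.1 = n • 𝒜.η ∧
      𝒜.map (𝒜.transl n hn x) 𝒜.η = 𝒜.etaAdd x.1 ∧
      (𝒜.transl n hn x).comp (𝒜.nStar n hn) = 𝒜.nStar n hn ∧
      Function.Injective (𝒜.transl n hn) :=
  ⟨rfl, AV.nsmul_etaAdd n x.1 x.2, AV.map_transl_eta n hn x, AV.transl_comp_nStar n hn x,
    AV.transl_injective n hn⟩

/-- **Counting homomorphisms.** Let `β : L₀ → 𝒜.F` be finite, and `τ_x`, `x ∈ T`, different endomorphisms
of `𝒜.F` with `τ_x β = β`. Then `T` is finite and there are functions `w_x`, `x ∈ T`, which are linearly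
independent over `L₀`: a finite extension of degree `d` has at most `d` endomorphisms (Dedekind).
Applied to `β = [n]^*` and the translations. (`H98AV4`.) -/
theorem counting_translations {K : Type u} [Field K] {𝒜 : AV K} {L₀ : Type u} [Field L₀]
    [Algebra K L₀] (β : L₀ →ₐ[K] 𝒜.F) (hfin : β.toRingHom.Finite) {T : Type u}
    (τ : T → (𝒜.F →ₐ[K] 𝒜.F)) (hinj : Function.Injective τ) (hτ : ∀ x, (τ x).comp β = β) :
    Finite T ∧ ∃ w : T → 𝒜.F, ∀ c : T →₀ L₀, (c.sum fun i a => β a * w i) = 0 → c = 0 :=
  AV.torsion_aux β hfin τ hinj hτ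

/-! ## 4. Two lemmas on abelian groups -/

/-- For coprime `m`, `n` an element killed by `m n` is uniquely the sum of an element killed by `m` and an
element killed by `n`. (`H98AV5`.) -/
theorem torsion_of_coprime {G : Type*} [AddCommGroup G] {m n : ℕ} (h : m.Coprime n) :
    Nat.card {x : G // (m * n) • x = 0} =
      Nat.card {x : G // m • x = 0} * Nat.card {x : G // n • x = 0} :=
  AV.card_torsion_mul_group h

/-- If `G` is divisible by the prime `ℓ` and `G[ℓ]` is finite, of order `ℓ ^ r`, then `G[ℓ^k]` has the order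
`ℓ ^ (k r)`: multiplication by `ℓ` maps `G[ℓ^(k+1)]` onto `G[ℓ^k]`, with kernel `G[ℓ]`. (`H98AV5`.) -/
theorem torsion_of_prime_power {G : Type*} [AddCommGroup G] (ℓ : ℕ) (hℓ : ℓ.Prime)
    (hfin : Finite {x : G // ℓ • x = 0}) (hdiv : ∀ x : G, ∃ y : G, ℓ • y = x) :
    ∃ r : ℕ, ∀ k : ℕ, Nat.card {x : G // (ℓ ^ k) • x = 0} = ℓ ^ (k * r) :=
  AV.exists_card_torsion_pow_group ℓ hℓ hfin hdiv

/-! ## 5. Endomorphisms and the pull-back of functions

`AV.Endo 𝒜`: an endomorphism `α` of the functor of groups `𝒜.Pt` which maps the generic point to a generic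
point. `α.star` is the corresponding endomorphism of the function field, the evaluation at `α η`.
`𝒜.UnitIn B w` (`H26.AV.UnitIn`): the function `w` is a unit of the ring `B` of functions. -/

/-- **Endomorphisms**: `α` is natural, `α.star w` is the value of `w` at `α η`, and the image of `η` under
`α.star` is `α η`. The two examples which are used: multiplication by `n` and by `-1`. (`H98Calc`.) -/
theorem endomorphisms {K : Type u} [Field K] {𝒜 : AV K} (α : 𝒜.Endo) (n : ℕ) (hn : (n : K) ≠ 0) :
    (∀ w, α.star w = 𝒜.val (α.toHom 𝒜.F 𝒜.η) w) ∧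
      𝒜.map α.star 𝒜.η = α.toHom 𝒜.F 𝒜.η ∧
      (∀ (R : Type u) [CommRing R] [Algebra K R] (P : 𝒜.Pt R),
        (AV.Endo.nsmul 𝒜 n hn).toHom R P = n • P ∧ (AV.Endo.neg 𝒜).toHom R P = -P) ∧
      ∀ {R S : Type u} [CommRing R] [Algebra K R] [CommRing S] [Algebra K S] (ι : R →ₐ[K] S)
        (P : 𝒜.Pt R), α.toHom S (𝒜.map ι P) = 𝒜.map ι (α.toHom R P) :=
  ⟨fun _ => rfl, AV.map_evHom_eta _ _, fun _ _ _ _ => ⟨rfl, rfl⟩, α.natural⟩

/-- **The negative of a generic point is generic.** More generally `y` is generic if the values of all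
functions at some generic point `x` are in the field of definition of `y` (`x` is a function of `y`): then
the transcendence degree of this field is large enough. (`H98Calc`.) -/
theorem generic_neg {K : Type u} [Field K] {𝒜 : AV K} {L : Type u} [Field L] [Algebra K L]
    {x : 𝒜.Pt L} (hx : AV.IsGeneric x) :
    AV.IsGeneric (-x) ∧ ∀ y : 𝒜.Pt L, (∀ w, 𝒜.val x w ∈ AV.fieldOver K y) → AV.IsGeneric y :=
  ⟨AV.isGeneric_neg hx, fun _ h => AV.isGeneric_of_fieldOver_eq hx h⟩

/-- **Pull-back of functions.** If `w` is regular at `α P`, then `α^* w` is regular at `P` and its value at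
`P` is the value of `w` at `α P`; units are mapped to units. Proof: apply `α` to the tautological point at
`P`. (`H98Calc`.) -/
theorem pull_back_of_functions {K : Type u} [Field K] {𝒜 : AV K} (α : 𝒜.Endo) {R : Type u}
    [CommRing R] [Algebra K R] [IsLocalRing R] (P : 𝒜.Pt R) {w : 𝒜.F}
    (hw : w ∈ 𝒜.dom (α.toHom R P)) :
    α.star w ∈ 𝒜.dom P ∧ 𝒜.val P (α.star w) = 𝒜.val (α.toHom R P) w ∧
      (𝒜.UnitIn (𝒜.dom (α.toHom R P)) w → 𝒜.UnitIn (𝒜.dom P) (α.star w)) :=
  ⟨α.star_mem_dom P hw, α.val_star P hw, α.unitIn_star P⟩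

/-- Endomorphisms commute with the extension of points to valuation rings. (`H98Calc`.) -/
theorem endomorphism_of_extension {K : Type u} [Field K] {𝒜 : AV K} {L : Type u} [Field L]
    [Algebra K L] (α : 𝒜.Endo) (V : H26.VSub K L) (X : 𝒜.Pt L) :
    α.toHom _ (𝒜.lift V X) = 𝒜.lift V (α.toHom L X) :=
  α.lift_toHom V X

/-! ## 6. Divisors

A divisor `D : 𝒜.CDiv` is given by local equations `D.eqn B`, one for the local ring `B` of every point. The
local multiplicity of `D` at a place `v` along a point `X` with values in a function field `E` is the order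
at `v` of the element `D.loc X v` of `E`. -/

/-- **The conditions on local equations**: they are not zero; for a homomorphism `ι` of local rings (then the
centre of `P` is a specialisation of the centre of `ι P`) the equations at the two centres differ by a unit
of the local ring of the centre of `ι P`; and for a point with values in a field `L` the equation at its
centre is also an equation at its extension to `V`, for all valuation rings `V` of `L` which contain a
certain finite set. The last condition makes the divisor `X^* D` finite. (`H26CDiv`.) -/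
theorem local_equations {K : Type u} [Field K] {𝒜 : AV K} (D : 𝒜.CDiv) :
    (∀ B, D.eqn B ≠ 0) ∧
    (∀ {R S : Type u} [CommRing R] [Algebra K R] [IsLocalRing R] [CommRing S] [Algebra K S]
      [IsLocalRing S] (ι : R →ₐ[K] S) (P : 𝒜.Pt R),
      𝒜.UnitIn (𝒜.dom (𝒜.map ι P)) (D.eqn (𝒜.dom P) / D.eqn (𝒜.dom (𝒜.map ι P)))) ∧
    ∀ {L : Type u} [Field L] [Algebra K L] (P : 𝒜.Pt L), ∃ T : Finset L, ∀ V : H26.VSub K L,
      (∀ t ∈ T, t ∈ V.toSubalgebra) →
        𝒜.UnitIn (𝒜.dom (𝒜.lift V P)) (D.eqn (𝒜.dom (𝒜.lift V P)) / D.eqn (𝒜.dom P)) :=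
  ⟨D.eqn_ne_zero, D.unitIn_map, D.exists_finset⟩

/-- **Sum, multiple and pull-back** of divisors: the equations are multiplied, raised to the power `m`, and
pulled back, where the equation of `α^* D` at `P` is the pull-back of the equation of `D` at `α P`. (It
depends only on the centre of `P`.) (`H98Calc`.) -/
theorem operations_on_divisors {K : Type u} [Field K] {𝒜 : AV K} (D D' : 𝒜.CDiv) (m : ℕ)
    (α : 𝒜.Endo) (B : Subalgebra K 𝒜.F) {R : Type u} [CommRing R] [Algebra K R] [IsLocalRing R]
    (P : 𝒜.Pt R) :
    (D.add D').eqn B = D.eqn B * D'.eqn B ∧ (D.smul m).eqn B = D.eqn B ^ m ∧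
      (D.comap α).eqn (𝒜.dom P) = α.star (D.eqn (𝒜.dom (α.toHom R P))) :=
  ⟨rfl, rfl, D.comap_eqn_dom α P⟩

/-- **Sections**: products of sections are sections of the sum, and pull-backs of sections are sections of
the pull-back. (`H98Calc`.) -/
theorem operations_on_sections {K : Type u} [Field K] {𝒜 : AV K} {D D' : 𝒜.CDiv} {φ ψ : 𝒜.F}
    (hφ : φ ∈ D.sections) (hψ : ψ ∈ D'.sections) (α : 𝒜.Endo) :
    φ * ψ ∈ (D.add D').sections ∧ α.star φ ∈ (D.comap α).sections :=
  ⟨AV.CDiv.mul_mem_sections hφ hψ, AV.CDiv.star_mem_sections α hφ⟩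

/-- **The local term** `D.loc X v` of the height: the value at `X` of the equation of `D` at the reduction
of `X` at `v`, divided by the equation at the centre of `X`. It is not zero. (`H26Height`.) -/
theorem local_term {K : Type u} [Field K] {𝒜 : AV K} {k E : Type u} [Field k] [Field E]
    [Algebra K k] [Algebra K E] [Algebra k E] [IsScalarTower K k E] (D : 𝒜.CDiv) (X : 𝒜.Pt E)
    (v : Place k E) :
    D.loc X v = 𝒜.val X (D.eqn (𝒜.dom (𝒜.lift (plV K v) X)) / D.eqn (𝒜.dom X)) ∧
      D.loc X v ≠ 0 :=
  ⟨rfl, D.loc_ne_zero X v⟩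

/-- **Rules for the local term**: it is multiplicative in `D`, and the term of `α^* D` at `X` is the term
of `D` at `α X`. (`H98Calc`.) -/
theorem rules_for_local_term {K : Type u} [Field K] {𝒜 : AV K} {k E : Type u} [Field k] [Field E]
    [Algebra K k] [Algebra K E] [Algebra k E] [IsScalarTower K k E] (D D' : 𝒜.CDiv) (m : ℕ)
    (α : 𝒜.Endo) (X : 𝒜.Pt E) (v : Place k E) :
    (D.add D').loc X v = D.loc X v * D'.loc X v ∧ (D.smul m).loc X v = D.loc X v ^ m ∧
      (D.comap α).loc X v = D.loc (α.toHom E X) v :=
  ⟨D.loc_add D' X v, D.loc_smul m X v, D.loc_comap α X v⟩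

/-- **Multiples:** `ht_(m D)(X) = m ht_D(X)`. The other rules for the height (sum, pull-back, constant
points, finite extensions) are `GuideAbelian.height_calculus`. (`H98Calc`.) -/
theorem height_of_multiple {K : Type u} [Field K] {𝒜 : AV K} (k : Type u) {E : Type u} [Field k]
    [Field E] [Algebra K k] [Algebra K E] [Algebra k E] [IsScalarTower K k E] [IsAlgClosed k]
    [IsFF k E] (m : ℕ) (D : 𝒜.CDiv) (X : 𝒜.Pt E) : (D.smul m).ht k X = m * D.ht k X :=
  AV.CDiv.ht_smul k m D X

/-- **Only finitely many places contribute** to the height, and the value at `X` of a function which is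
invertible at the reduction of `X` at `v` has order `0` at `v`. (`H26Height`.) -/
theorem local_terms_finite {K : Type u} [Field K] {𝒜 : AV K} {k E : Type u} [Field k]
    [Field E] [Algebra K k] [Algebra K E] [Algebra k E] [IsScalarTower K k E] [IsAlgClosed k]
    [IsFF k E] (D : 𝒜.CDiv) (X : 𝒜.Pt E) :
    (Function.support fun v : Place k E => v.ord (D.loc X v)).Finite ∧
      ∀ (v : Place k E) (w : 𝒜.F), 𝒜.UnitIn (𝒜.dom (𝒜.lift (plV K v) X)) w →
        v.ord (𝒜.val X w) = 0 :=
  ⟨D.finite_support X, fun _ _ h => AV.ord_val_eq_zero h⟩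

end Fermat.Agent.Guide.AbelianTorsion
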