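import Fermat.Agent.H63Cyclo
import Fermat.Prelude.Def_GaloisRep_LocalConditions
import Mathlib.NumberTheory.NumberField.Cyclotomic.Basic

set_option autoImplicit false

/-!
# Inertia at `p` surjects onto `Gal(ℚ(μ_p)/ℚ)` (helper33)
-/

namespace Fermat.Agent.H33

open Fermat.Agent.H63 NumberField Polynomial

local notation "Qb" => AlgebraicClosure ℚ

/-- inertia at `p` realises every value of the mod `p` cyclotomic character. -/
theorem exists_inertia_cyclo {p : ℕ} [Fact p.Prime] {A : ValuationSubring Qb}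
    (hA : A.LiesOverPrime p) (a : ℕ) (ha : ¬ p ∣ a) :
    ∃ σ ∈ A.inertiaSubgroupIn ℚ, ∀ μ : Qb, μ ^ p = 1 → σ μ = μ ^ a := by
  have hp : p.Prime := Fact.out
  have : NeZero p := ⟨hp.ne_zero⟩
  obtain ⟨ζ, hζ⟩ := HasEnoughRootsOfUnity.exists_primitiveRoot Qb p
  let F := IntermediateField.adjoin ℚ {ζ}
  have hcyc : IsCyclotomicExtension {p} ℚ F :=
    hζ.intermediateField_adjoin_isCyclotomicExtension (K := ℚ)
  have : FiniteDimensional ℚ F := IsCyclotomicExtension.finiteDimensional {p} ℚ F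
  have hgal : IsGalois ℚ F := IsCyclotomicExtension.isGalois {p} ℚ F
  let z : F := ⟨ζ, IntermediateField.mem_adjoin_simple_self ℚ ζ⟩
  have hz : IsPrimitiveRoot z p := by
    refine IsPrimitiveRoot.of_map_of_injective (f := algebraMap F Qb) ?_ (algebraMap F Qb).injective
    exact hζ
  have hcop : a.Coprime p := ((Nat.Prime.coprime_iff_not_dvd hp).mpr ha).symm
  have hza : IsPrimitiveRoot (z ^ a) p := hz.pow_of_coprime a hcop
  have hirr : Irreducible (cyclotomic p ℚ) := cyclotomic.irreducible_rat hp.pos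
  -- automorphism
  have hex : ∃ σ₀ : F ≃ₐ[ℚ] F, σ₀ z = z ^ a := by
    have hmin : minpoly ℚ (hz.powerBasis ℚ).gen = minpoly ℚ (hza.powerBasis ℚ).gen := by
      rw [hz.powerBasis_gen ℚ, hza.powerBasis_gen ℚ,
        ← hz.minpoly_eq_cyclotomic_of_irreducible (K := ℚ) hirr,
        ← hza.minpoly_eq_cyclotomic_of_irreducible (K := ℚ) hirr]
    refine ⟨(hz.powerBasis ℚ).equivOfMinpoly (hza.powerBasis ℚ) hmin, ?_⟩
    have h := PowerBasis.equivOfMinpoly_gen (hz.powerBasis ℚ) (hza.powerBasis ℚ) hmin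
    rw [hz.powerBasis_gen ℚ, hza.powerBasis_gen ℚ] at h
    exact h
  obtain ⟨σ₀, hσ₀⟩ := hex
  have hin : σ₀ ∈ ((center A).comap (algebraMap (𝓞 F) (𝓞 Qb))).inertia (F ≃ₐ[ℚ] F) := by
    set 𝔓 := (center A).comap (algebraMap (𝓞 F) (𝓞 Qb)) with h𝔓
    intro x
    set Z : 𝓞 F := ⟨z, hz.isIntegral hp.pos⟩ with hZ
    have hZp : Z ^ p = 1 := RingOfIntegers.ext hz.pow_eq_one
    have hZ1 : Z - 1 ∈ 𝔓 := by
      refine Ideal.IsPrime.mem_of_pow_mem (n := p) inferInstance ?_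
      have hpm : (p : 𝓞 F) ∈ 𝔓 := by
        rw [h𝔓, Ideal.mem_comap, map_natCast]
        exact (liesOverPrime_iff A p).mp hA
      obtain ⟨r, hr⟩ := exists_add_pow_prime_eq hp (Z - 1) 1
      have h1 : (Z - 1) ^ p = -((p : 𝓞 F) * ((Z - 1) * 1 * r)) := by
        have h2 : (Z - 1 + 1) ^ p = 1 := by rw [sub_add_cancel, hZp]
        rw [h2, one_pow] at hr
        linear_combination -hr
      rw [h1]
      exact neg_mem (Ideal.mul_mem_right _ _ hpm)
    have hic := IsCyclotomicExtension.Rat.isIntegralClosure_adjoin_singleton_of_prime hz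
    obtain ⟨⟨y, hy⟩, hyx⟩ := (hic.isIntegral_iff (x := (x : F))).mp x.2
    have key : ∀ y ∈ Algebra.adjoin ℤ {z}, ∃ w : 𝓞 F, (w : F) = y ∧ σ₀ • w - w ∈ 𝔓 := by
      intro y hy
      induction hy using Algebra.adjoin_induction with
      | mem y hy =>
        rw [Set.mem_singleton_iff] at hy
        refine ⟨Z, hy.symm, ?_⟩
        have hσZ : σ₀ • Z = Z ^ a := RingOfIntegers.ext (by
          change σ₀ z = _
          rw [hσ₀]; rfl)
        rw [hσZ]
        have h1 : Z ^ a - Z = (Z ^ a - 1) - (Z - 1) := by ring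
        have h2 : Z - 1 ∣ Z ^ a - 1 := by simpa using sub_dvd_pow_sub_pow Z 1 a
        rw [h1]
        exact sub_mem (Ideal.mem_of_dvd _ h2 hZ1) hZ1
      | algebraMap r =>
        refine ⟨(r : 𝓞 F), by simp, ?_⟩
        have : σ₀ • (r : 𝓞 F) = (r : 𝓞 F) := map_intCast (MulSemiringAction.toRingHom _ (𝓞 F) σ₀) r
        rw [this, sub_self]
        exact zero_mem _
      | add y₁ y₂ _ _ h₁ h₂ =>
        obtain ⟨w₁, rfl, hw₁⟩ := h₁
        obtain ⟨w₂, rfl, hw₂⟩ := h₂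
        refine ⟨w₁ + w₂, rfl, ?_⟩
        rw [smul_add, add_sub_add_comm]
        exact add_mem hw₁ hw₂
      | mul y₁ y₂ _ _ h₁ h₂ =>
        obtain ⟨w₁, rfl, hw₁⟩ := h₁
        obtain ⟨w₂, rfl, hw₂⟩ := h₂
        refine ⟨w₁ * w₂, rfl, ?_⟩
        have h1 : σ₀ • (w₁ * w₂) - w₁ * w₂ = (σ₀ • w₁ - w₁) * (σ₀ • w₂) + w₁ * (σ₀ • w₂ - w₂) := by
          rw [smul_mul']; ring
        rw [h1]
        exact add_mem (Ideal.mul_mem_right _ _ hw₁) (Ideal.mul_mem_left _ _ hw₂)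
    obtain ⟨w, hw, hw'⟩ := key y hy
    have : w = x := RingOfIntegers.ext (hw.trans hyx)
    rw [← this]
    exact hw'
  obtain ⟨τ, hτ, hτ0⟩ := exists_mem_inertiaSubgroupIn_restrict A σ₀ hin
  refine ⟨τ, hτ, fun μ hμ => ?_⟩
  obtain ⟨i, -, rfl⟩ := hζ.eq_pow_of_pow_eq_one hμ
  have h1 : τ ζ = ζ ^ a := by
    have h2 := AlgEquiv.restrictNormal_commutes τ F z
    have h3 : τ.restrictNormal F = σ₀ := hτ0
    rw [h3, hσ₀] at h2
    exact h2.symm
  rw [map_pow, h1, ← pow_mul, ← pow_mul, mul_comm]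

/-- The determinant of a representation with cyclotomic determinant is residually nontrivial on
inertia at `p`, `p` odd. -/
theorem exists_inertia_isUnit_det {T : Type} [CommRing T] [IsLocalRing T] (ρ : GaloisRepAdic T)
    {p : ℕ} (hp : p.Prime) (hp2 : p ≠ 2) (hdet : ρ.DetIsCyclotomic p)
    (P : ValuationSubring Qb) (hP : P.LiesOverPrime p) :
    ∃ σ ∈ P.inertiaSubgroupIn ℚ, IsUnit (LinearMap.det (ρ.ρ σ) - 1) := by
  have : Fact p.Prime := ⟨hp⟩
  have hp3 : 2 < p := lt_of_le_of_ne hp.two_le (Ne.symm hp2)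
  obtain ⟨σ, hσ, h⟩ := exists_inertia_cyclo hP 2 (fun h => hp2 ((Nat.prime_dvd_prime_iff_eq hp
    Nat.prime_two).mp h))
  refine ⟨σ, hσ, ?_⟩
  have h1 := hdet.2 1 σ 2 (fun μ hμ => h μ (by rwa [pow_one] at hμ))
  rw [pow_one] at h1
  have h2 : LinearMap.det (ρ.ρ σ) - (2 : ℕ) ∈ IsLocalRing.maximalIdeal T :=
    (Ideal.span_singleton_le_iff_mem _).mpr hdet.1 h1
  have h3 : LinearMap.det (ρ.ρ σ) - 1 = 1 + (LinearMap.det (ρ.ρ σ) - (2 : ℕ)) := by
    push_cast; ring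
  rw [h3]
  by_contra hn
  have h4 : 1 + (LinearMap.det (ρ.ρ σ) - (2 : ℕ)) ∈ IsLocalRing.maximalIdeal T :=
    (IsLocalRing.mem_maximalIdeal _).mpr hn
  have h5 : (1 : T) ∈ IsLocalRing.maximalIdeal T := by
    have := sub_mem h4 h2
    rwa [add_sub_cancel_right] at this
  exact (Ideal.ne_top_iff_one _).mp (IsLocalRing.maximalIdeal.isMaximal T).ne_top h5

end Fermat.Agent.H33
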