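import Mathlib

/-!
# Localizations of subrings of a field, as subrings
-/

set_option autoImplicit false

namespace Fermat.Agent.H83

variable {F : Type*} [Field F]

/-- The localization of the subring `B` of the field `F` at the prime `m`, as a subring of `F`. -/
def locRing (B : Subring F) (m : Ideal B) [hm : m.IsPrime] : Subring F where
  carrier := {x | ∃ a b : B, b ∉ m ∧ x * (b : F) = a}
  mul_mem' := by
    rintro x y ⟨a, b, hb, h⟩ ⟨c, d, hd, h'⟩
    refine ⟨a * c, b * d, fun hbd => (hm.mem_or_mem hbd).elim hb hd, ?_⟩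
    push_cast
    rw [← h, ← h']; ring
  one_mem' := ⟨1, 1, fun h => hm.ne_top ((Ideal.eq_top_iff_one _).2 h), by simp⟩
  add_mem' := by
    rintro x y ⟨a, b, hb, h⟩ ⟨c, d, hd, h'⟩
    refine ⟨a * d + c * b, b * d, fun hbd => (hm.mem_or_mem hbd).elim hb hd, ?_⟩
    push_cast
    rw [← h, ← h']; ring
  zero_mem' := ⟨0, 1, fun h => hm.ne_top ((Ideal.eq_top_iff_one _).2 h), by simp⟩
  neg_mem' := by
    rintro x ⟨a, b, hb, h⟩
    exact ⟨-a, b, hb, by push_cast; rw [← h]; ring⟩

theorem mem_locRing {B : Subring F} {m : Ideal B} [hm : m.IsPrime] {x : F} :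
    x ∈ locRing B m ↔ ∃ a b : B, b ∉ m ∧ x * (b : F) = a := Iff.rfl

section

variable {B : Subring F} {m : Ideal B} [hm : m.IsPrime]

theorem coe_ne_zero_of_notMem {b : B} (hb : b ∉ m) : (b : F) ≠ 0 := by
  intro h
  apply hb
  have : b = 0 := Subtype.ext h
  rw [this]
  exact m.zero_mem

theorem le_locRing : B ≤ locRing B m := by
  intro x hx
  exact ⟨⟨x, hx⟩, 1, fun h => hm.ne_top ((Ideal.eq_top_iff_one _).2 h), by simp⟩

theorem inv_mem_locRing {b : B} (hb : b ∉ m) : ((b : F))⁻¹ ∈ locRing B m :=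
  ⟨1, b, hb, by simp [coe_ne_zero_of_notMem hb]⟩

theorem div_mem_locRing (a : B) {b : B} (hb : b ∉ m) : (a : F) / (b : F) ∈ locRing B m :=
  ⟨a, b, hb, by field_simp [coe_ne_zero_of_notMem hb]⟩

instance : Algebra B (locRing B m) :=
  (Subring.inclusion (le_locRing (B := B) (m := m))).toAlgebra

@[simp] theorem coe_algebraMap_locRing (b : B) :
    ((algebraMap B (locRing B m) b : locRing B m) : F) = b := rfl

instance : IsLocalization.AtPrime (locRing B m) m where
  map_units := by
    rintro ⟨b, hb⟩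
    have hb' : b ∉ m := hb
    refine IsUnit.of_mul_eq_one ⟨(b : F)⁻¹, inv_mem_locRing hb'⟩ (Subtype.ext ?_)
    show (b : F) * (b : F)⁻¹ = 1
    exact mul_inv_cancel₀ (coe_ne_zero_of_notMem hb')
  surj := by
    rintro ⟨x, a, b, hb, h⟩
    exact ⟨(a, ⟨b, hb⟩), Subtype.ext h⟩
  exists_of_eq := by
    intro x y h
    refine ⟨1, ?_⟩
    have : (x : F) = y := congrArg (fun z : locRing B m => (z : F)) h
    rw [Subtype.ext this]

instance : IsScalarTower B (locRing B m) F :=
  IsScalarTower.of_algebraMap_eq fun _ => rfl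

instance : IsLocalRing (locRing B m) := IsLocalization.AtPrime.isLocalRing _ m

instance [IsNoetherianRing B] : IsNoetherianRing (locRing B m) :=
  IsLocalization.isNoetherianRing m.primeCompl _ inferInstance

theorem isUnit_locRing_iff {a b : B} (hb : b ∉ m) :
    IsUnit (⟨(a : F) / (b : F), div_mem_locRing a hb⟩ : locRing B m) ↔ a ∉ m := by
  constructor
  · rintro ⟨u, hu⟩ ha
    obtain ⟨c, d, hd, h⟩ := (u⁻¹ : (locRing B m)ˣ).1.2
    have h1 : (u : locRing B m) * ((u⁻¹ : (locRing B m)ˣ) : locRing B m) = 1 := by simp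
    have h2 : ((a : F) / (b : F)) * (((u⁻¹ : (locRing B m)ˣ) : locRing B m) : F) = 1 := by
      have := congrArg Subtype.val h1
      rw [hu] at this
      exact this
    have hb0 := coe_ne_zero_of_notMem hb
    have h3 : (a : F) * c = b * d := by
      rw [← h]
      field_simp at h2
      calc (a : F) * ((((u⁻¹ : (locRing B m)ˣ) : locRing B m) : F) * d)
          = ((a : F) * (((u⁻¹ : (locRing B m)ˣ) : locRing B m) : F)) * d := by ring
        _ = b * d := by rw [h2]
    have h4 : a * c = b * d := Subtype.ext h3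
    have h5 : b * d ∈ m := by rw [← h4]; exact m.mul_mem_right _ ha
    exact (hm.mem_or_mem h5).elim hb hd
  · intro ha
    refine IsUnit.of_mul_eq_one ⟨(b : F) / (a : F), div_mem_locRing b ha⟩ (Subtype.ext ?_)
    show (a : F) / b * (b / a) = 1
    have := coe_ne_zero_of_notMem ha
    have := coe_ne_zero_of_notMem hb
    field_simp

theorem isUnit_locRing_iff' (x : locRing B m) :
    IsUnit x ↔ ∃ a b : B, a ∉ m ∧ b ∉ m ∧ (x : F) * b = a := by
  obtain ⟨a, b, hb, h⟩ := x.2
  have hb0 := coe_ne_zero_of_notMem hb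
  have hx : x = ⟨(a : F) / (b : F), div_mem_locRing a hb⟩ := Subtype.ext (by
    show (x : F) = a / b
    rw [← h]; field_simp)
  constructor
  · intro hu
    rw [hx] at hu
    exact ⟨a, b, (isUnit_locRing_iff hb).1 hu, hb, h⟩
  · rintro ⟨c, d, hc, hd, h'⟩
    have hx' : x = ⟨(c : F) / (d : F), div_mem_locRing c hd⟩ := Subtype.ext (by
      show (x : F) = c / d
      have := coe_ne_zero_of_notMem hd
      rw [← h']; field_simp)
    rw [hx']
    exact (isUnit_locRing_iff hd).2 hc

/-- Elements of `B` in the prime are non-units of the localization, and conversely. -/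
theorem mem_maximalIdeal_locRing (b : B) :
    algebraMap B (locRing B m) b ∈ IsLocalRing.maximalIdeal (locRing B m) ↔ b ∈ m := by
  rw [IsLocalRing.mem_maximalIdeal, mem_nonunits_iff]
  have h1 : (1 : B) ∉ m := fun h => hm.ne_top ((Ideal.eq_top_iff_one _).2 h)
  have hx : algebraMap B (locRing B m) b = ⟨(b : F) / ((1 : B) : F), div_mem_locRing b h1⟩ :=
    Subtype.ext (by simp)
  rw [hx, isUnit_locRing_iff h1, not_not]

/-- If `B` is integrally closed in `F`, so is the localization. -/
theorem locRing_integrallyClosed (hB : ∀ x : F, IsIntegral B x → x ∈ B) (x : F)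
    (hx : IsIntegral (locRing B m) x) : x ∈ locRing B m := by
  obtain ⟨b, hb⟩ := IsIntegral.exists_multiple_integral_of_isLocalization m.primeCompl x hx
  have hb' : (b : B) ∉ m := b.2
  have : (b : B) • x ∈ B := hB _ hb
  refine ⟨⟨(b : B) • x, this⟩, b, hb', ?_⟩
  show x * ((b : B) : F) = (b : B) • x
  rw [Subring.smul_def, smul_eq_mul, mul_comm]

end

end Fermat.Agent.H83
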