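import Mathlib
import Fermat.Agent.H83Loc

/-!
# CARAYOL: abstract interface (helper83)

`CompSys` : a field `F` with a ring `hor` (functions regular in characteristic zero, on a chart),
finitely many "vertical" valuation rings `V i` with residue maps `ρ i : V i → E`.
The chart ring of the normal model is `B = hor ∩ ⋂ V i`.

`TwoData`  : the two-component situation `X_0(qm)`, `q ∤ m`.
`ThreeData`: the three-component situation `X_0(q²m)`, `q ∤ m`.
-/

set_option autoImplicit false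

namespace Fermat.Agent.H83

/-- A field with a chart ring and finitely many vertical valuation rings. -/
structure CompSys (F E : Type*) [Field F] [Field E] (q : ℕ) (ι : Type*) where
  /-- functions regular (in characteristic zero) on the chart -/
  hor : Subring F
  /-- `hor` is integrally closed in `F` -/
  hor_closed : ∀ x : F, IsIntegral hor x → x ∈ hor
  /-- the vertical valuation rings -/
  V : ι → ValuationSubring F
  /-- the residue maps -/
  ρ : ∀ i, V i →+* E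
  /-- the residue maps are local -/
  ρ_unit : ∀ i (x : V i), ρ i x ≠ 0 → IsUnit x
  q_ne : (q : F) ≠ 0
  qinv_mem : ((q : F))⁻¹ ∈ hor
  ρ_q : ∀ i, ρ i (q : V i) = 0
  /-- multiplicities: every element of the maximal ideal of `V i` has `e i`-th power divisible
  by `q` -/
  e : ι → ℕ
  pow_div : ∀ i (x : V i), ρ i x = 0 → ((x : F)) ^ (e i) / (q : F) ∈ V i

namespace CompSys

variable {F E : Type*} [Field F] [Field E] {q : ℕ} {ι : Type*} (S : CompSys F E q ι)

/-- The chart ring. -/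
def B : Subring F := S.hor ⊓ ⨅ i, (S.V i).toSubring

theorem mem_B {x : F} : x ∈ S.B ↔ x ∈ S.hor ∧ ∀ i, x ∈ S.V i := by
  simp [B, Subring.mem_inf, Subring.mem_iInf]

/-- the inclusion `B → V i` -/
def toV (i : ι) : S.B →+* S.V i where
  toFun b := ⟨b, (S.mem_B.1 b.2).2 i⟩
  map_one' := rfl
  map_mul' _ _ := rfl
  map_zero' := rfl
  map_add' _ _ := rfl

@[simp] theorem coe_toV (i : ι) (b : S.B) : (S.toV i b : F) = b := rfl

/-- the residue map on the chart ring -/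
def r (i : ι) : S.B →+* E := (S.ρ i).comp (S.toV i)

/-- the prime of the component `i` -/
def p (i : ι) : Ideal S.B := RingHom.ker (S.r i)

instance (i : ι) : (S.p i).IsPrime := RingHom.ker_isPrime _

theorem mem_p {i : ι} {b : S.B} : b ∈ S.p i ↔ S.r i b = 0 := Iff.rfl

/-- `res i x` : the residue of `x : F` at the component `i` (junk value `0` outside `V i`). -/
noncomputable def res (i : ι) (x : F) : E :=
  open Classical in if h : x ∈ S.V i then S.ρ i ⟨x, h⟩ else 0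

theorem res_of_mem {i : ι} {x : F} (h : x ∈ S.V i) : S.res i x = S.ρ i ⟨x, h⟩ := by
  simp [res, h]

end CompSys

/-- Structure on the residue side: `E = k((t))`, `Φ : t ↦ t^q`, `φ` = coefficientwise Frobenius,
`C` = coordinate ring of the (non cuspidal) special fibre of `X_0(m)`, `D = d/dX̄`. -/
structure ResData (k E : Type*) [Field k] [Field E] [Algebra k E] (q : ℕ) where
  Φ : E →+* E
  φ : E ≃+* E
  pow_q : ∀ x : E, x ^ q = Φ (φ x)
  Φ_algebraMap : ∀ a : k, Φ (algebraMap k E a) = algebraMap k E a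
  φ_algebraMap : ∀ a : k, φ (algebraMap k E a) = algebraMap k E (a ^ q)
  /-- coordinate ring of the special fibre of `X_0(m)` (non cuspidal part) -/
  C : Subalgebra k E
  φ_mem : ∀ x : E, x ∈ C ↔ φ x ∈ C
  dedekind : IsDedekindDomain C
  res_surj : ∀ n : Ideal C, n.IsMaximal → ∀ c : C, ∃ a : k, c - algebraMap k C a ∈ n
  /-- the derivation `d/dX̄` -/
  D : Derivation k E E
  D_mem : ∀ x ∈ C, D x ∈ C
  /-- the coordinate -/
  X : E
  X_mem : X ∈ C
  D_X : D X = 1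

/-- The two-component situation: `F' = ` function field of `X_0(qm)`. Component `0` is the one of
the cusp `∞`, component `1` is its image under `w_q`. -/
structure TwoData {k E : Type*} [Field k] [Field E] [Algebra k E] {q : ℕ} (R : ResData k E q)
    (F' : Type*) [Field F'] extends CompSys F' E q (Fin 2) where
  e_eq : ∀ i, e i = 1
  r_mem : ∀ i (b : toCompSys.B), toCompSys.r i b ∈ R.C
  r_surj : ∀ i, ∀ c ∈ R.C, ∃ b : toCompSys.B, toCompSys.r i b = c
  /-- Atkin–Lehner involution `w_q` -/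
  W : F' ≃+* F'
  W_W : ∀ x, W (W x) = x
  W_hor : ∀ x ∈ hor, W x ∈ hor
  W_V : ∀ x, x ∈ V 1 ↔ W x ∈ V 0
  W_res : ∀ x, toCompSys.res 1 x = toCompSys.res 0 (W x)
  /-- the coordinate `X = X(z)`, and `W X = X(qz)` -/
  X : F'
  X_hor : X ∈ hor
  X_V : ∀ i, X ∈ V i
  res_X : toCompSys.res 0 X = R.X
  res_WX : toCompSys.res 0 (W X) = R.X ^ q
  /-- the derivation `d/dX` -/
  der : Derivation ℤ F' F'
  der_X : der X = 1
  der_hor : ∀ x ∈ hor, der x ∈ hor
  der_V : ∀ x ∈ V 0, der x ∈ V 0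
  res_der : ∀ x ∈ V 0, toCompSys.res 0 (der x) = R.D (toCompSys.res 0 x)
  W_der : W (der (W X)) * der (W X) = 1
  /-- `(1/q) dX(qz)/dX(z)` does not vanish on the component `0` -/
  res_delta : toCompSys.res 0 (der (W X) / (q : F')) ≠ 0

/-- The three-component situation: `F = ` function field of `X_0(q²m)`, with the two degeneracy
maps from `F'` (level `qm`) and norms. Components: `0 = ∞`, `1` the middle one (multiplicity
`q-1`), `2` the image of `0` under `w_{q²}`. -/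
structure ThreeData {k E : Type*} [Field k] [Field E] [Algebra k E] {q : ℕ} {R : ResData k E q}
    {F' : Type*} [Field F'] (T : TwoData R F') (F : Type*) [Field F]
    extends CompSys F E q (Fin 3) where
  e_zero : e 0 = 1
  e_one : e 1 = q - 1
  e_two : e 2 = 1
  r_mem : ∀ i (b : toCompSys.B), toCompSys.r i b ∈ R.C
  r_surj : ∀ i, ∀ c ∈ R.C, ∃ b : toCompSys.B, toCompSys.r i b = c
  noeth : IsNoetherianRing toCompSys.B
  /-- `α : f(z) ↦ f(z)` and `β : f(z) ↦ f(qz)` -/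
  α : F' →+* F
  β : F' →+* F
  α_hor : ∀ x ∈ T.hor, α x ∈ hor
  β_hor : ∀ x ∈ T.hor, β x ∈ hor
  α_V0 : ∀ x, α x ∈ V 0 ↔ x ∈ T.V 0
  α_V1 : ∀ x, α x ∈ V 1 ↔ x ∈ T.V 0
  α_V2 : ∀ x, α x ∈ V 2 ↔ x ∈ T.V 1
  α_res0 : ∀ x, toCompSys.res 0 (α x) = T.res 0 x
  α_res1 : ∀ x, toCompSys.res 1 (α x) = T.res 0 x
  α_res2 : ∀ x, toCompSys.res 2 (α x) = R.Φ (T.res 1 x)
  β_V0 : ∀ x, β x ∈ V 0 ↔ x ∈ T.V 0
  β_V1 : ∀ x, β x ∈ V 1 ↔ x ∈ T.V 1
  β_V2 : ∀ x, β x ∈ V 2 ↔ x ∈ T.V 1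
  β_res0 : ∀ x, toCompSys.res 0 (β x) = R.Φ (T.res 0 x)
  β_res1 : ∀ x, toCompSys.res 1 (β x) = T.res 1 x
  β_res2 : ∀ x, toCompSys.res 2 (β x) = T.res 1 x
  /-- `w = X(q²z) - X(z)` generates the maximal ideal of the middle component -/
  w_res : toCompSys.res 1 (β (T.W T.X) - α T.X) = 0
  w_pow : (β (T.W T.X) - α T.X) ^ (q - 1) / (q : F) ∈ V 1
  w_pow_res : toCompSys.res 1 ((β (T.W T.X) - α T.X) ^ (q - 1) / (q : F)) =
    - T.res 0 (T.der (T.W T.X) / (q : F'))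
  /-- norms along `α` and `β` -/
  Nα : F →* F'
  Nβ : F →* F'
  Nα_hor : ∀ x ∈ hor, Nα x ∈ T.hor
  Nβ_hor : ∀ x ∈ hor, Nβ x ∈ T.hor
  Nα_V0 : ∀ x, x ∈ V 0 → x ∈ V 1 → Nα x ∈ T.V 0 ∧
    T.res 0 (Nα x) = toCompSys.res 0 x * toCompSys.res 1 x ^ (q - 1)
  Nα_V1 : ∀ x, x ∈ V 2 → Nα x ∈ T.V 1 ∧ T.res 1 (Nα x) = R.φ (toCompSys.res 2 x)
  Nβ_V1 : ∀ x, x ∈ V 2 → x ∈ V 1 → Nβ x ∈ T.V 1 ∧
    T.res 1 (Nβ x) = toCompSys.res 2 x * toCompSys.res 1 x ^ (q - 1)
  Nβ_V0 : ∀ x, x ∈ V 0 → Nβ x ∈ T.V 0 ∧ T.res 0 (Nβ x) = R.φ (toCompSys.res 0 x)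
  Nα_α : ∀ x, Nα (α x) = x ^ q
  Nβ_β : ∀ x, Nβ (β x) = x ^ q

end Fermat.Agent.H83
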