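import Mathlib

/-!
# UFD criterion by Nakayama

`R` a noetherian local domain, `z` a prime element such that `R ⧸ (z)` is a principal ideal ring
(e.g. a DVR).  Then `R` is a UFD.
-/

set_option autoImplicit false

namespace Fermat.Agent.H83

open Ideal

theorem ufd_of_prime {R : Type*} [CommRing R] [IsDomain R] [IsLocalRing R] [IsNoetherianRing R]
    {z : R} (hz : Prime z) [hP : IsPrincipalIdealRing (R ⧸ Ideal.span {z})] :
    UniqueFactorizationMonoid R := by
  classical
  rw [UniqueFactorizationMonoid.iff_exists_prime_mem_of_isPrime]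
  intro Q hQ0 hQ
  by_cases hzQ : z ∈ Q
  · exact ⟨z, hzQ, hz⟩
  · -- the image of `Q` in `R/(z)` is principal
    obtain ⟨a, ha⟩ := (hP.principal (Q.map (Ideal.Quotient.mk (Ideal.span {z})))).principal
    have haQ : a ∈ Q.map (Ideal.Quotient.mk (Ideal.span {z})) := by
      rw [ha]; exact Submodule.mem_span_singleton_self a
    obtain ⟨x, hxQ, rfl⟩ := (Ideal.mem_map_iff_of_surjective _ Ideal.Quotient.mk_surjective).1 haQ
    -- `Q = (x) + z Q`
    have hle : Q ≤ Ideal.span {x} ⊔ Ideal.span {z} • Q := by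
      intro y hy
      have hy' : Ideal.Quotient.mk (Ideal.span {z}) y ∈
          Q.map (Ideal.Quotient.mk (Ideal.span {z})) := Ideal.mem_map_of_mem _ hy
      rw [ha] at hy'
      obtain ⟨c, hc⟩ := Submodule.mem_span_singleton.1 hy'
      obtain ⟨c, rfl⟩ := Ideal.Quotient.mk_surjective c
      rw [smul_eq_mul, ← map_mul, Ideal.Quotient.eq, Ideal.mem_span_singleton] at hc
      obtain ⟨r, hr⟩ := hc
      -- c * x - y = z * r
      have hzr : z * r ∈ Q := by
        rw [← hr]; exact Q.sub_mem (Q.mul_mem_left _ hxQ) hy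
      have hrQ : r ∈ Q := (hQ.mem_or_mem hzr).resolve_left hzQ
      have hyeq : y = c * x + z * (-r) := by linear_combination -hr
      rw [hyeq]
      refine Submodule.add_mem_sup ?_ ?_
      · exact Ideal.mul_mem_left _ _ (Ideal.mem_span_singleton_self x)
      · exact Submodule.smul_mem_smul (Ideal.mem_span_singleton_self z) (Q.neg_mem hrQ)
    have hQfg : (Q : Submodule R R).FG := IsNoetherian.noetherian Q
    have hzJ : Ideal.span {z} ≤ Ideal.jacobson (⊥ : Ideal R) := by
      rw [Ideal.span_singleton_le_iff_mem, IsLocalRing.jacobson_eq_maximalIdeal ⊥ bot_ne_top]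
      exact (IsLocalRing.mem_maximalIdeal z).2 hz.not_unit
    have hQx : Q ≤ Ideal.span {x} := by
      have := Submodule.le_of_le_smul_of_le_jacobson_bot (N := Ideal.span {x}) (N' := Q)
        hQfg hzJ hle
      exact this
    have hQeq : Q = Ideal.span {x} :=
      le_antisymm hQx ((Ideal.span_singleton_le_iff_mem Q).2 hxQ)
    have hx0 : x ≠ 0 := by
      rintro rfl
      apply hQ0
      rw [hQeq, Ideal.span_singleton_eq_bot]
    refine ⟨x, hxQ, ?_⟩
    rw [hQeq] at hQ
    exact (Ideal.span_singleton_prime hx0).1 hQ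

end Fermat.Agent.H83
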