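import Mathlib
import Fermat.Agent.H83UFD
import Fermat.Agent.H83Loc
import Fermat.Agent.H83Def

/-!
# Generalities on `CompSys`
-/

set_option autoImplicit false

namespace Fermat.Agent.H83.CompSys

variable {F E : Type*} [Field F] [Field E] {q : ℕ} {ι : Type*} (S : CompSys F E q ι)

section res

variable {S} {i : ι} {x y : F}

theorem res_mul (hx : x ∈ S.V i) (hy : y ∈ S.V i) :
    S.res i (x * y) = S.res i x * S.res i y := by
  rw [S.res_of_mem hx, S.res_of_mem hy, S.res_of_mem (mul_mem hx hy), ← map_mul]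
  rfl

theorem res_add (hx : x ∈ S.V i) (hy : y ∈ S.V i) :
    S.res i (x + y) = S.res i x + S.res i y := by
  rw [S.res_of_mem hx, S.res_of_mem hy, S.res_of_mem (add_mem hx hy), ← map_add]
  rfl

theorem res_sub (hx : x ∈ S.V i) (hy : y ∈ S.V i) :
    S.res i (x - y) = S.res i x - S.res i y := by
  rw [S.res_of_mem hx, S.res_of_mem hy, S.res_of_mem (sub_mem hx hy), ← map_sub]
  rfl

theorem res_neg (hx : x ∈ S.V i) : S.res i (-x) = - S.res i x := by
  rw [S.res_of_mem hx, S.res_of_mem (neg_mem hx), ← map_neg]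
  rfl

theorem res_pow (hx : x ∈ S.V i) (n : ℕ) : S.res i (x ^ n) = S.res i x ^ n := by
  rw [S.res_of_mem hx, S.res_of_mem (pow_mem hx n), ← map_pow]
  rfl

variable (S i) in
@[simp] theorem res_one : S.res i (1 : F) = 1 := by
  rw [S.res_of_mem (one_mem (S.V i))]
  exact map_one (S.ρ i)

variable (S i) in
@[simp] theorem res_zero : S.res i (0 : F) = 0 := by
  rw [S.res_of_mem (zero_mem (S.V i))]
  exact map_zero (S.ρ i)

variable (S i) in
theorem res_q : S.res i (q : F) = 0 := by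
  have h : (q : F) ∈ S.V i := natCast_mem (S.V i) q
  rw [S.res_of_mem h]
  exact S.ρ_q i

variable (S i) in
theorem q_mem : (q : F) ∈ S.V i := natCast_mem (S.V i) q

theorem res_mul_ne (hx : S.res i x ≠ 0) : x ∈ S.V i := by
  by_contra h
  exact hx (by simp [res, h])

theorem inv_mem (hx : S.res i x ≠ 0) : x⁻¹ ∈ S.V i := by
  have hxm := res_mul_ne hx
  rw [S.res_of_mem hxm] at hx
  obtain ⟨u, hu⟩ := S.ρ_unit i _ hx
  have h1 : x * ((u⁻¹ : (S.V i)ˣ) : S.V i) = 1 := by
    have : (u : S.V i) * ((u⁻¹ : (S.V i)ˣ) : S.V i) = 1 := by simp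
    rw [hu] at this
    exact congrArg (fun z : S.V i => (z : F)) this
  have h2 : x⁻¹ = ((u⁻¹ : (S.V i)ˣ) : S.V i) := inv_eq_of_mul_eq_one_right h1
  rw [h2]
  exact ((u⁻¹ : (S.V i)ˣ) : S.V i).2

theorem res_inv (hx : S.res i x ≠ 0) : S.res i x⁻¹ = (S.res i x)⁻¹ := by
  have hxm := res_mul_ne hx
  have hx0 : x ≠ 0 := by rintro rfl; exact hx (res_zero S i)
  have h := res_mul hxm (inv_mem hx)
  rw [mul_inv_cancel₀ hx0, res_one] at h
  exact eq_inv_of_mul_eq_one_right h.symm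

theorem res_div (hx : x ∈ S.V i) (hy : S.res i y ≠ 0) :
    S.res i (x / y) = S.res i x / S.res i y := by
  rw [div_eq_mul_inv, res_mul hx (inv_mem hy), res_inv hy, div_eq_mul_inv]

theorem div_mem (hx : x ∈ S.V i) (hy : S.res i y ≠ 0) : x / y ∈ S.V i := by
  rw [div_eq_mul_inv]; exact mul_mem hx (inv_mem hy)

/-- if `x⁻¹ ∈ V i` and `x ∈ V i`, then the residue of `x` is non zero -/
theorem res_ne_zero (hx0 : x ≠ 0) (hx : x ∈ S.V i) (hx' : x⁻¹ ∈ S.V i) : S.res i x ≠ 0 := by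
  intro h
  have h1 := res_mul hx hx'
  rw [mul_inv_cancel₀ hx0, res_one, h, zero_mul] at h1
  exact one_ne_zero h1

variable (S i x) in
theorem mem_or_inv : x ∈ S.V i ∨ x⁻¹ ∈ S.V i := (S.V i).mem_or_inv_mem x

theorem pow_div_mem (hx : x ∈ S.V i) (h : S.res i x = 0) : x ^ (S.e i) / (q : F) ∈ S.V i := by
  rw [S.res_of_mem hx] at h
  exact S.pow_div i ⟨x, hx⟩ h

end res

theorem B_le_V (i : ι) {x : F} (hx : x ∈ S.B) : x ∈ S.V i := (S.mem_B.1 hx).2 i

theorem B_le_hor {x : F} (hx : x ∈ S.B) : x ∈ S.hor := (S.mem_B.1 hx).1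

theorem r_apply (i : ι) (b : S.B) : S.r i b = S.res i (b : F) := by
  rw [S.res_of_mem (S.B_le_V i b.2)]
  rfl

theorem mem_p_iff {i : ι} {b : S.B} : b ∈ S.p i ↔ S.res i (b : F) = 0 := by
  rw [S.mem_p, r_apply]

/-- the element `q` of `B` -/
def qB : S.B := (q : S.B)

@[simp] theorem coe_qB : (S.qB : F) = (q : F) := by simp [qB]

theorem qB_mem_p (i : ι) : S.qB ∈ S.p i := by
  rw [mem_p_iff, coe_qB]; exact res_q S i

/-- `B` is integrally closed. -/
theorem B_closed (x : F) (hx : IsIntegral S.B x) : x ∈ S.B := by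
  rw [S.mem_B]
  constructor
  · apply S.hor_closed
    obtain ⟨P, hP, h0⟩ := hx
    refine ⟨P.map (Subring.inclusion (inf_le_left : S.B ≤ S.hor)), hP.map _, ?_⟩
    rw [Polynomial.eval₂_map]
    exact h0
  · intro i
    obtain ⟨P, hP, h0⟩ := hx
    have hint : IsIntegral (S.V i) x := by
      refine ⟨P.map (S.toV i), hP.map _, ?_⟩
      rw [Polynomial.eval₂_map]
      exact h0
    obtain ⟨y, hy⟩ := IsIntegrallyClosed.isIntegral_iff.1 hint
    rw [← hy]
    exact y.2

/-- An element of `hor` whose vertical valuations are all `≥ 1 = v(q)`. -/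
theorem div_q_mem {x : F} (hx : x ∈ S.hor) (h : ∀ i, x / (q : F) ∈ S.V i) : x / (q : F) ∈ S.B := by
  rw [S.mem_B]
  refine ⟨?_, h⟩
  rw [div_eq_mul_inv]
  exact mul_mem hx S.qinv_mem

variable [Fintype ι]

/-- every prime of `B` containing `q` contains a component prime -/
theorem exists_p_le (P : Ideal S.B) [hP : P.IsPrime] (hq : S.qB ∈ P) : ∃ i, S.p i ≤ P := by
  classical
  by_contra hcon
  push Not at hcon
  have h1 : ∀ i, ∃ u : S.B, u ∈ S.p i ∧ u ∉ P := fun i => by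
    obtain ⟨u, hu, hu'⟩ := Set.not_subset.1 (hcon i)
    exact ⟨u, hu, hu'⟩
  choose u hu hu' using h1
  set M : ℕ := ∑ i, S.e i with hM
  have hM' : ∀ i, S.e i ≤ M := fun i =>
    Finset.single_le_sum (f := S.e) (fun _ _ => Nat.zero_le _) (Finset.mem_univ i)
  have hprod : (∏ i, u i) ^ M ∉ P := by
    intro h
    have := hP.mem_of_pow_mem _ h
    obtain ⟨i, _, hi⟩ := (Ideal.IsPrime.prod_mem_iff (p := P)).1 this
    exact hu' i hi
  apply hprod
  have hmem : (((∏ i, u i) ^ M : S.B) : F) / (q : F) ∈ S.B := by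
    apply S.div_q_mem (S.B_le_hor ((∏ i, u i) ^ M).2)
    intro i
    have e1 : (((∏ j, u j) ^ M : S.B) : F) / (q : F) =
        (((u i : F)) ^ (S.e i) / (q : F)) *
          (((u i : F)) ^ (M - S.e i) * ((∏ j ∈ Finset.univ.erase i, (u j : F)) ^ M)) := by
      have e2 : ((∏ j, u j : S.B) : F) = (u i : F) * ∏ j ∈ Finset.univ.erase i, (u j : F) := by
        rw [show ((∏ j, u j : S.B) : F) = S.B.subtype (∏ j, u j) from rfl, map_prod,
          ← Finset.mul_prod_erase _ _ (Finset.mem_univ i)]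
        rfl
      have e3 : ((u i : F)) ^ M = (u i : F) ^ (S.e i) * (u i : F) ^ (M - S.e i) := by
        rw [← pow_add, Nat.add_sub_of_le (hM' i)]
      rw [Subring.coe_pow, e2, mul_pow, e3]
      ring
    rw [e1]
    refine mul_mem (pow_div_mem (S.B_le_V i (u i).2) ((S.mem_p_iff).1 (hu i))) ?_
    refine mul_mem (pow_mem (S.B_le_V i (u i).2) _) (pow_mem ?_ _)
    exact prod_mem fun j _ => S.B_le_V i (u j).2
  have e4 : (∏ i, u i) ^ M = S.qB * ⟨_, hmem⟩ := by
    apply Subtype.ext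
    push_cast
    rw [coe_qB]
    field_simp [S.q_ne]
  rw [e4]
  exact P.mul_mem_right _ hq

end Fermat.Agent.H83.CompSys
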