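import Mathlib
import Fermat.Agent.H83Comp

/-!
# Points of the chart ring: localization, residues, UFD criterion
-/

set_option autoImplicit false

namespace Fermat.Agent.H83.CompSys

variable {F E : Type*} [Field F] [Field E] {q : ℕ} {ι : Type*} (S : CompSys F E q ι)

section point

variable (m : Ideal S.B) [hm : m.IsPrime] {i : ι} (hp : S.p i ≤ m)

include hp in
theorem locRing_le_V {x : F} (hx : x ∈ locRing S.B m) : x ∈ S.V i := by
  obtain ⟨a, b, hb, h⟩ := hx
  have hb' : S.res i (b : F) ≠ 0 := fun h0 => hb (hp (S.mem_p_iff.2 h0))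
  have hb0 := coe_ne_zero_of_notMem hb
  have : x = (a : F) / b := by rw [← h]; field_simp
  rw [this]
  exact div_mem (S.B_le_V i a.2) hb'

/-- the residue map on the local ring -/
noncomputable def ρloc (hp : S.p i ≤ m) : locRing S.B m →+* E where
  toFun x := S.res i (x : F)
  map_one' := res_one S i
  map_zero' := res_zero S i
  map_add' x y := res_add (S.locRing_le_V m hp x.2) (S.locRing_le_V m hp y.2)
  map_mul' x y := res_mul (S.locRing_le_V m hp x.2) (S.locRing_le_V m hp y.2)

@[simp] theorem ρloc_apply (x : locRing S.B m) : S.ρloc m hp x = S.res i (x : F) := rfl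

variable {C : Subring E} (hmem : ∀ b : S.B, S.r i b ∈ C) (hsurj : ∀ c ∈ C, ∃ b : S.B, S.r i b = c)

/-- the residue map with values in `C` -/
def rC (hmem : ∀ b : S.B, S.r i b ∈ C) : S.B →+* C := (S.r i).codRestrict C hmem

@[simp] theorem coe_rC (b : S.B) : (S.rC hmem b : E) = S.r i b := rfl

include hsurj in
theorem rC_surjective : Function.Surjective (S.rC hmem) := by
  rintro ⟨c, hc⟩
  obtain ⟨b, hb⟩ := hsurj c hc
  exact ⟨b, Subtype.ext hb⟩

theorem ker_rC : RingHom.ker (S.rC hmem) = S.p i := by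
  ext b
  rw [RingHom.mem_ker, S.mem_p]
  constructor
  · intro h; exact congrArg Subtype.val h
  · intro h; exact Subtype.ext h

/-- the ideal of `C` of the point -/
def nI (hmem : ∀ b : S.B, S.r i b ∈ C) : Ideal C := m.map (S.rC hmem)

include hp hsurj in
theorem mem_nI {b : S.B} : S.rC hmem b ∈ S.nI m hmem ↔ b ∈ m := by
  constructor
  · intro h
    have h2 : b ∈ (m.map (S.rC hmem)).comap (S.rC hmem) := h
    rw [Ideal.comap_map_of_surjective _ (S.rC_surjective hmem hsurj)] at h2
    have h3 : (⊥ : Ideal C).comap (S.rC hmem) ≤ m := by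
      rw [← RingHom.ker_eq_comap_bot, S.ker_rC]; exact hp
    rwa [sup_eq_left.2 h3] at h2
  · intro h; exact Ideal.mem_map_of_mem _ h

include hp hsurj in
theorem nI_isPrime : (S.nI m hmem).IsPrime := by
  apply Ideal.map_isPrime_of_surjective (S.rC_surjective hmem hsurj)
  rw [S.ker_rC]; exact hp

include hp hsurj in
theorem nI_isMaximal (hmax : m.IsMaximal) : (S.nI m hmem).IsMaximal := by
  apply Ideal.IsMaximal.map_of_surjective_of_ker_le (S.rC_surjective hmem hsurj)
  rw [S.ker_rC]; exact hp

include hp hsurj in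
/-- the image of the local ring is the local ring of `C` -/
theorem ρloc_mem (x : locRing S.B m) :
    haveI := S.nI_isPrime m hp hmem hsurj
    S.ρloc m hp x ∈ locRing C (S.nI m hmem) := by
  haveI := S.nI_isPrime m hp hmem hsurj
  obtain ⟨a, b, hb, h⟩ := x.2
  refine ⟨S.rC hmem a, S.rC hmem b, fun hh => hb ((S.mem_nI m hp hmem hsurj).1 hh), ?_⟩
  rw [coe_rC, coe_rC, S.r_apply, S.r_apply, ρloc_apply,
    ← res_mul (S.locRing_le_V m hp x.2) (S.B_le_V i b.2), h]

include hp hsurj in
theorem exists_ρloc_eq (c : E) (hc : haveI := S.nI_isPrime m hp hmem hsurj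
    c ∈ locRing C (S.nI m hmem)) : ∃ x : locRing S.B m, S.ρloc m hp x = c := by
  haveI := S.nI_isPrime m hp hmem hsurj
  obtain ⟨a, b, hb, h⟩ := hc
  obtain ⟨a, rfl⟩ := S.rC_surjective hmem hsurj a
  obtain ⟨b, rfl⟩ := S.rC_surjective hmem hsurj b
  have hb' : b ∉ m := fun hh => hb ((S.mem_nI m hp hmem hsurj).2 hh)
  refine ⟨⟨(a : F) / b, div_mem_locRing a hb'⟩, ?_⟩
  have hb0 : S.res i (b : F) ≠ 0 := fun h0 => hb' (hp (S.mem_p_iff.2 h0))
  rw [ρloc_apply]
  show S.res i ((a : F) / b) = c
  rw [res_div (S.B_le_V i a.2) hb0, ← r_apply, ← r_apply]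
  rw [coe_rC, coe_rC] at h
  rw [← h]
  rw [← r_apply] at hb0
  field_simp

/-- The localization of a Dedekind domain (as a subring of a field) at a prime is a principal
ideal ring. -/
theorem locRing_pir {C : Subring E} [IsDedekindDomain C] (n : Ideal C) [hn : n.IsPrime] :
    IsPrincipalIdealRing (locRing C n) := by
  by_cases h0 : n = ⊥
  · -- a field
    subst h0
    have : IsField (locRing C (⊥ : Ideal C)) := by
      refine ⟨⟨0, 1, zero_ne_one⟩, mul_comm, ?_⟩
      rintro ⟨x, a, b, hb, h⟩ hx
      have hx0 : x ≠ 0 := fun h' => hx (Subtype.ext h')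
      have hb0 := coe_ne_zero_of_notMem hb
      have ha : a ∉ (⊥ : Ideal C) := by
        intro ha
        rw [Ideal.mem_bot] at ha
        rw [ha] at h
        exact mul_ne_zero hx0 hb0 (by simpa using h)
      refine ⟨⟨(b : E) / (a : E), div_mem_locRing b ha⟩, Subtype.ext ?_⟩
      show x * ((b : E) / a) = 1
      have ha0 := coe_ne_zero_of_notMem ha
      field_simp
      exact h
    letI := this.toField
    infer_instance
  · haveI := IsLocalization.AtPrime.isDiscreteValuationRing_of_dedekind_domain C h0 (locRing C n)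
    infer_instance

include hp hmem hsurj in
/-- **UFD criterion at a point.** -/
theorem ufd_at [IsNoetherianRing S.B] [IsDedekindDomain C] (z : F) (hz0 : z ≠ 0)
    (hz : z ∈ locRing S.B m) (hzr : S.res i z = 0)
    (hgen : ∀ b ∈ S.p i, (b : F) / z ∈ locRing S.B m) :
    UniqueFactorizationMonoid (locRing S.B m) := by
  haveI := S.nI_isPrime m hp hmem hsurj
  set Z : locRing S.B m := ⟨z, hz⟩ with hZ
  have hker : RingHom.ker (S.ρloc m hp) = Ideal.span {Z} := by
    apply le_antisymm
    · rintro x hx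
      rw [RingHom.mem_ker, ρloc_apply] at hx
      obtain ⟨a, b, hb, h⟩ := x.2
      have ha : a ∈ S.p i := by
        rw [S.mem_p_iff, ← h, res_mul (S.locRing_le_V m hp x.2) (S.B_le_V i b.2), hx, zero_mul]
      have h2 := hgen a ha
      have hb0 := coe_ne_zero_of_notMem hb
      rw [Ideal.mem_span_singleton]
      refine ⟨⟨(a : F) / z, h2⟩ * ⟨(b : F)⁻¹, inv_mem_locRing hb⟩, Subtype.ext ?_⟩
      show (x : F) = z * ((a : F) / z * (b : F)⁻¹)
      rw [← h]
      field_simp
    · rw [Ideal.span_singleton_le_iff_mem, RingHom.mem_ker]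
      exact hzr
  have hZ0 : Z ≠ 0 := fun h => hz0 (congrArg (fun x : locRing S.B m => (x : F)) h)
  have hprime : Prime Z := by
    rw [← Ideal.span_singleton_prime hZ0, ← hker]
    exact RingHom.ker_isPrime _
  -- surjection onto a PIR with kernel `(Z)`
  let g : locRing S.B m →+* locRing C (S.nI m hmem) :=
    (S.ρloc m hp).codRestrict _ (S.ρloc_mem m hp hmem hsurj)
  have hg : Function.Surjective g := by
    rintro ⟨c, hc⟩
    obtain ⟨x, hx⟩ := S.exists_ρloc_eq m hp hmem hsurj c hc
    exact ⟨x, Subtype.ext hx⟩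
  have hgker : RingHom.ker g = Ideal.span {Z} := by
    rw [← hker]
    ext x
    rw [RingHom.mem_ker, RingHom.mem_ker]
    constructor
    · intro h; exact congrArg Subtype.val h
    · intro h; exact Subtype.ext h
  haveI : IsPrincipalIdealRing (locRing C (S.nI m hmem)) := locRing_pir _
  have e : (locRing S.B m ⧸ Ideal.span {Z}) ≃+* locRing C (S.nI m hmem) := by
    rw [← hgker]
    exact RingHom.quotientKerEquivOfSurjective hg
  haveI : IsPrincipalIdealRing (locRing S.B m ⧸ Ideal.span {Z}) :=
    IsPrincipalIdealRing.of_surjective e.symm.toRingHom e.symm.surjective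
  exact ufd_of_prime hprime

end point

end Fermat.Agent.H83.CompSys
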