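import Mathlib
import Fermat.Agent.H83Point

/-!
# The two-component situation (level `qm`): the derivation trick (helper36's D1)

`Y = W X`, `z = X - Y^q`, `z' = Y - X^q`, `δ = dY/dX`, `θ = q/δ = q W(δ)`.
At a point contained in both components `z z'/q` is a unit.
-/

set_option autoImplicit false

namespace Fermat.Agent.H83

open CompSys

section DVR

variable {k E : Type*} [Field k] [Field E] [Algebra k E] {q : ℕ} (R : ResData k E q)

/-- `C` as a subring. -/
abbrev ResData.Cs : Subring E := R.C.toSubring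

instance : IsDedekindDomain R.Cs := R.dedekind

theorem ResData.D_locRing (n : Ideal R.Cs) [hn : n.IsPrime] {x : E} (hx : x ∈ locRing R.Cs n) :
    R.D x ∈ locRing R.Cs n := by
  obtain ⟨a, b, hb, h⟩ := hx
  have hb0 := coe_ne_zero_of_notMem hb
  have hx : x = (a : E) / b := by rw [← h]; field_simp
  have h1 : R.D x * b + x * R.D b = R.D a := by
    rw [← h, Derivation.leibniz, smul_eq_mul, smul_eq_mul]; ring
  have h2 : R.D x = (R.D a * b - a * R.D b) * ((b : E) * b)⁻¹ := by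
    rw [hx] at h1 ⊢
    field_simp
    field_simp at h1
    linear_combination h1
  rw [h2]
  have hbb : b * b ∉ n := fun h => (hn.mem_or_mem h).elim hb hb
  refine mul_mem (le_locRing ?_) ?_
  · exact sub_mem (mul_mem (R.D_mem _ a.2) b.2) (mul_mem a.2 (R.D_mem _ b.2))
  · exact inv_mem_locRing hbb

/-- In the local ring of `C` at a prime `n`, an element `c` of the maximal ideal with `D c = 1`
is a uniformizer. -/
theorem ResData.dvd_of_D_eq_one (n : Ideal R.Cs) [hn : n.IsPrime] {c : R.Cs} (hc : c ∈ n)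
    (hD : R.D (c : E) = 1) {x : R.Cs} (hx : x ∈ n) :
    (x : E) / (c : E) ∈ locRing R.Cs n := by
  classical
  have hc0 : (c : E) ≠ 0 := by
    intro h0; rw [h0, map_zero] at hD; exact zero_ne_one hD
  have hn0 : n ≠ ⊥ := by
    rintro rfl
    rw [Ideal.mem_bot] at hc
    rw [hc] at hc0
    exact hc0 rfl
  haveI := IsLocalization.AtPrime.isDiscreteValuationRing_of_dedekind_domain R.Cs hn0
    (locRing R.Cs n)
  obtain ⟨w, hw⟩ := IsDiscreteValuationRing.exists_irreducible (locRing R.Cs n)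
  have hwm : w ∈ IsLocalRing.maximalIdeal (locRing R.Cs n) := by
    rw [hw.maximalIdeal_eq]; exact Ideal.mem_span_singleton_self w
  set cl : locRing R.Cs n := algebraMap R.Cs (locRing R.Cs n) c with hcl
  have hcl0 : cl ≠ 0 := fun h => hc0 (congrArg (fun z : locRing R.Cs n => (z : E)) h)
  obtain ⟨k', u, hu⟩ := IsDiscreteValuationRing.eq_unit_mul_pow_irreducible hcl0 hw
  have hclm : cl ∈ IsLocalRing.maximalIdeal (locRing R.Cs n) :=
    (mem_maximalIdeal_locRing c).2 hc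
  -- `k' = 1`
  have hk1 : k' = 1 := by
    rcases Nat.lt_or_ge k' 1 with h | h
    · exfalso
      have : k' = 0 := by omega
      rw [this, pow_zero, mul_one] at hu
      rw [hu] at hclm
      exact (IsLocalRing.mem_maximalIdeal _).1 hclm u.isUnit
    rcases Nat.lt_or_ge 1 k' with h' | h'
    · exfalso
      obtain ⟨j, rfl⟩ : ∃ j, k' = j + 2 := ⟨k' - 2, by omega⟩
      -- `D (u w^(j+2)) ∈ M`
      have hDw : R.D (w : E) ∈ locRing R.Cs n := R.D_locRing n w.2
      have hDu : R.D ((u : locRing R.Cs n) : E) ∈ locRing R.Cs n := R.D_locRing n (u : locRing R.Cs n).2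
      have h1 : (c : E) = ((u : locRing R.Cs n) : E) * (w : E) ^ (j + 2) := by
        exact congrArg (fun z : locRing R.Cs n => (z : E)) hu
      have h2 : (1 : E) = (w : E) * ((w : E) ^ (j + 1) * R.D ((u : locRing R.Cs n) : E) +
          ((j : E) + 2) * ((u : locRing R.Cs n) : E) * (w : E) ^ j * R.D (w : E)) := by
        rw [← hD, h1, Derivation.leibniz, Derivation.leibniz_pow, smul_eq_mul, smul_eq_mul,
          smul_eq_mul, nsmul_eq_mul]
        push_cast
        ring_nf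
      have h3 : (w : E) ^ (j + 1) * R.D ((u : locRing R.Cs n) : E) +
          ((j : E) + 2) * ((u : locRing R.Cs n) : E) * (w : E) ^ j * R.D (w : E) ∈
            locRing R.Cs n := by
        refine add_mem (mul_mem (pow_mem w.2 _) hDu) (mul_mem (mul_mem (mul_mem ?_ ?_) ?_) hDw)
        · exact add_mem (natCast_mem _ j) (by exact_mod_cast natCast_mem (locRing R.Cs n) 2)
        · exact (u : locRing R.Cs n).2
        · exact pow_mem w.2 _
      have h4 : (1 : locRing R.Cs n) = w * ⟨_, h3⟩ := Subtype.ext h2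
      exact hw.not_isUnit (IsUnit.of_mul_eq_one _ h4.symm)
    · omega
  rw [hk1, pow_one] at hu
  have hxm : algebraMap R.Cs (locRing R.Cs n) x ∈ IsLocalRing.maximalIdeal (locRing R.Cs n) :=
    (mem_maximalIdeal_locRing x).2 hx
  rw [hw.maximalIdeal_eq, Ideal.mem_span_singleton] at hxm
  obtain ⟨y, hy⟩ := hxm
  have h5 : (x : E) / c = (y * ((u⁻¹ : (locRing R.Cs n)ˣ) : locRing R.Cs n) : locRing R.Cs n) := by
    have h6 : algebraMap R.Cs (locRing R.Cs n) x =
        cl * (y * ((u⁻¹ : (locRing R.Cs n)ˣ) : locRing R.Cs n)) := by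
      rw [hy, hu]
      calc w * y = (u * (((u⁻¹ : (locRing R.Cs n)ˣ) : locRing R.Cs n))) * (w * y) := by simp
        _ = _ := by ring
    have h7 := congrArg (fun z : locRing R.Cs n => (z : E)) h6
    rw [div_eq_iff hc0]
    calc (x : E) = (cl * (y * ((u⁻¹ : (locRing R.Cs n)ˣ) : locRing R.Cs n)) : locRing R.Cs n) := h7
      _ = _ := by push_cast; rw [mul_comm]; rfl
  rw [h5]
  exact (y * ((u⁻¹ : (locRing R.Cs n)ˣ) : locRing R.Cs n) : locRing R.Cs n).2

end DVR

namespace TwoData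

variable {k E : Type*} [Field k] [Field E] [Algebra k E] {q : ℕ} {R : ResData k E q}
  {F' : Type*} [Field F'] (T : TwoData R F')

/-- `Y = X(qz)` -/
def Y : F' := T.W T.X

theorem W_Y : T.W T.Y = T.X := T.W_W _

theorem Y_hor : T.Y ∈ T.hor := T.W_hor _ T.X_hor

theorem Y_V (i : Fin 2) : T.Y ∈ T.V i := by
  fin_cases i
  · exact (T.W_V _).1 (T.X_V 1)
  · exact (T.W_V _).2 (by rw [W_Y]; exact T.X_V 0)

theorem res0_X : T.res 0 T.X = R.X := T.res_X

theorem res0_Y : T.res 0 T.Y = R.X ^ q := T.res_WX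

theorem res1_X : T.res 1 T.X = R.X ^ q := by rw [T.W_res]; exact T.res_WX

theorem res1_Y : T.res 1 T.Y = R.X := by rw [T.W_res, W_Y]; exact T.res_X

/-- `z = X - Y^q` -/
def z : F' := T.X - T.Y ^ q

/-- `z' = Y - X^q` -/
def z' : F' := T.Y - T.X ^ q

theorem z_V (i : Fin 2) : T.z ∈ T.V i := sub_mem (T.X_V i) (pow_mem (T.Y_V i) _)

theorem z'_V (i : Fin 2) : T.z' ∈ T.V i := sub_mem (T.Y_V i) (pow_mem (T.X_V i) _)

theorem z_hor : T.z ∈ T.hor := sub_mem T.X_hor (pow_mem T.Y_hor _)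

theorem z'_hor : T.z' ∈ T.hor := sub_mem T.Y_hor (pow_mem T.X_hor _)

theorem z_mem : T.z ∈ T.B := T.mem_B.2 ⟨T.z_hor, T.z_V⟩

theorem z'_mem : T.z' ∈ T.B := T.mem_B.2 ⟨T.z'_hor, T.z'_V⟩

theorem res0_z : T.res 0 T.z = R.X - R.X ^ (q * q) := by
  rw [z, res_sub (T.X_V 0) (pow_mem (T.Y_V 0) _), res_pow (T.Y_V 0), res0_X, res0_Y, ← pow_mul]

theorem res1_z : T.res 1 T.z = 0 := by
  rw [z, res_sub (T.X_V 1) (pow_mem (T.Y_V 1) _), res_pow (T.Y_V 1), res1_X, res1_Y, sub_self]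

theorem res0_z' : T.res 0 T.z' = 0 := by
  rw [z', res_sub (T.Y_V 0) (pow_mem (T.X_V 0) _), res_pow (T.X_V 0), res0_X, res0_Y, sub_self]

theorem res1_z' : T.res 1 T.z' = R.X - R.X ^ (q * q) := by
  rw [z', res_sub (T.Y_V 1) (pow_mem (T.X_V 1) _), res_pow (T.X_V 1), res1_X, res1_Y, ← pow_mul]

theorem div_q {i : Fin 2} {x : F'} (hx : x ∈ T.V i) (h : T.res i x = 0) :
    x / (q : F') ∈ T.V i := by
  have := pow_div_mem hx h
  rwa [T.e_eq, pow_one] at this

/-- `z z' / q` -/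
def zz : F' := T.z * T.z' / (q : F')

theorem zz_mem : T.zz ∈ T.B := by
  apply T.div_q_mem (mul_mem T.z_hor T.z'_hor)
  intro i
  fin_cases i
  · show T.z * T.z' / (q : F') ∈ T.V 0
    rw [mul_div_assoc]
    exact mul_mem (T.z_V 0) (T.div_q (T.z'_V 0) T.res0_z')
  · show T.z * T.z' / (q : F') ∈ T.V 1
    rw [mul_comm, mul_div_assoc]
    exact mul_mem (T.z'_V 1) (T.div_q (T.z_V 1) T.res1_z)

theorem der_natCast (n : ℕ) : T.der (n : F') = 0 := T.der.map_natCast n

theorem der_div_q (x : F') : T.der (x / (q : F')) = T.der x / (q : F') := by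
  have h0 := T.q_ne
  have h1 : T.der (x / (q : F') * (q : F')) = T.der x := by rw [div_mul_cancel₀ _ h0]
  rw [Derivation.leibniz, der_natCast, smul_zero, zero_add, smul_eq_mul] at h1
  rw [eq_div_iff h0, ← h1]; ring

include T in
theorem cast_q : (q : E) = 0 := by
  have h := T.ρ_q 0
  rwa [map_natCast] at h

theorem delta_eq : T.der T.Y / (q : F') = T.der (T.z' / (q : F')) + T.X ^ (q - 1) := by
  have h0 := T.q_ne
  rw [der_div_q, z', map_sub, Derivation.leibniz_pow, T.der_X, smul_eq_mul, mul_one,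
    nsmul_eq_mul]
  field_simp
  ring

theorem delta_V0 : T.der T.Y / (q : F') ∈ T.V 0 := by
  rw [delta_eq]
  exact add_mem (T.der_V _ (T.div_q (T.z'_V 0) T.res0_z')) (pow_mem (T.X_V 0) _)

theorem res0_delta : T.res 0 (T.der T.Y / (q : F')) =
    R.D (T.res 0 (T.z' / (q : F'))) + R.X ^ (q - 1) := by
  have h1 := T.div_q (T.z'_V 0) T.res0_z'
  rw [delta_eq, res_add (T.der_V _ h1) (pow_mem (T.X_V 0) _), T.res_der _ h1,
    res_pow (T.X_V 0), res0_X]

theorem res0_delta_ne : T.res 0 (T.der T.Y / (q : F')) ≠ 0 := T.res_delta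

theorem delta_ne : T.der T.Y ≠ 0 := by
  intro h
  apply T.res0_delta_ne
  rw [h, zero_div, res_zero]

/-- `θ = q / δ = q W(δ)` -/
def θ : F' := (q : F') * T.W (T.der T.Y)

theorem θ_eq : T.θ = (q : F') / T.der T.Y := by
  rw [θ, eq_div_iff T.delta_ne, mul_assoc]
  have := T.W_der
  rw [show T.W (T.der T.Y) * T.der T.Y = 1 from this, mul_one]

theorem θ_hor : T.θ ∈ T.hor :=
  mul_mem (natCast_mem _ q) (T.W_hor _ (T.der_hor _ T.Y_hor))

theorem θ_V0 : T.θ ∈ T.V 0 := by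
  have h := inv_mem T.res0_delta_ne
  rw [θ_eq]
  rwa [inv_div] at h

theorem res0_θ : T.res 0 T.θ = (T.res 0 (T.der T.Y / (q : F')))⁻¹ := by
  rw [θ_eq, ← res_inv T.res0_delta_ne, inv_div]

theorem res0_θ_ne : T.res 0 T.θ ≠ 0 := by
  rw [res0_θ]; exact inv_ne_zero T.res0_delta_ne

theorem W_θ : T.W T.θ = (q : F') * T.der T.Y := by
  rw [θ, map_mul, T.W_W, map_natCast]

theorem W_θ' : T.W T.θ = (q : F') * ((q : F') * (T.der T.Y / (q : F'))) := by
  rw [W_θ]
  have := T.q_ne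
  field_simp

theorem θ_V1 : T.θ ∈ T.V 1 := by
  rw [T.W_V, W_θ']
  exact mul_mem (CompSys.q_mem _ 0) (mul_mem (CompSys.q_mem _ 0) T.delta_V0)

theorem res1_θ : T.res 1 T.θ = 0 := by
  rw [T.W_res, W_θ', res_mul (CompSys.q_mem _ 0) (mul_mem (CompSys.q_mem _ 0) T.delta_V0),
    res_q, zero_mul]

theorem θ_mem : T.θ ∈ T.B := by
  rw [T.mem_B]
  refine ⟨T.θ_hor, fun i => ?_⟩
  fin_cases i
  · exact T.θ_V0
  · exact T.θ_V1

/-- residue of `B` in `Cs` -/
theorem r_mem_Cs (i : Fin 2) (b : T.B) : T.r i b ∈ R.Cs := T.r_mem i b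

theorem r_surj_Cs (i : Fin 2) : ∀ c ∈ R.Cs, ∃ b : T.B, T.r i b = c := T.r_surj i

/-- **D1**: at a point through which both components pass `z z'/q` is a unit. -/
theorem zz_notMem (m : Ideal T.B) [hm : m.IsPrime] (h0 : T.p 0 ≤ m) (h1 : T.p 1 ≤ m) :
    (⟨T.zz, T.zz_mem⟩ : T.B) ∉ m := by
  intro hcon
  haveI := T.nI_isPrime m h0 (T.r_mem_Cs 0) (T.r_surj_Cs 0)
  set n := T.nI m (T.r_mem_Cs 0) with hn
  -- `z ∈ m`
  have hzm : (⟨T.z, T.z_mem⟩ : T.B) ∈ m := h1 (T.mem_p_iff.2 T.res1_z)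
  have hθm : (⟨T.θ, T.θ_mem⟩ : T.B) ∈ m := h1 (T.mem_p_iff.2 T.res1_θ)
  set c : R.Cs := T.rC (T.r_mem_Cs 0) ⟨T.z, T.z_mem⟩ with hc
  have hcn : c ∈ n := (T.mem_nI m h0 (T.r_mem_Cs 0) (T.r_surj_Cs 0)).2 hzm
  have hce : (c : E) = R.X - R.X ^ (q * q) := by
    rw [hc, coe_rC, r_apply]
    exact T.res0_z
  have hDc : R.D (c : E) = 1 := by
    rw [hce, map_sub, Derivation.leibniz_pow, R.D_X, smul_eq_mul, mul_one, nsmul_eq_mul]
    push_cast
    rw [T.cast_q]
    ring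
  set x : R.Cs := T.rC (T.r_mem_Cs 0) ⟨T.zz, T.zz_mem⟩ with hx
  have hxn : x ∈ n := (T.mem_nI m h0 (T.r_mem_Cs 0) (T.r_surj_Cs 0)).2 hcon
  have hdiv := R.dvd_of_D_eq_one n hcn hDc hxn
  have hc0 : (c : E) ≠ 0 := by
    intro h0; rw [h0, map_zero] at hDc; exact zero_ne_one hDc
  have hζ : (x : E) / c = T.res 0 (T.z' / (q : F')) := by
    rw [div_eq_iff hc0, hx, hc, coe_rC, coe_rC, r_apply, r_apply]
    show T.res 0 (T.z * T.z' / (q : F')) = _ * T.res 0 T.z
    rw [mul_div_assoc, res_mul (T.z_V 0) (T.div_q (T.z'_V 0) T.res0_z'), mul_comm]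
  rw [hζ] at hdiv
  have hδ : T.res 0 (T.der T.Y / (q : F')) ∈ locRing R.Cs n := by
    rw [res0_delta]
    exact add_mem (R.D_locRing n hdiv) (pow_mem (le_locRing (R.X_mem)) _)
  set η : R.Cs := T.rC (T.r_mem_Cs 0) ⟨T.θ, T.θ_mem⟩ with hη
  have hηn : η ∈ n := (T.mem_nI m h0 (T.r_mem_Cs 0) (T.r_surj_Cs 0)).2 hθm
  have hηe : (η : E) = (T.res 0 (T.der T.Y / (q : F')))⁻¹ := by
    rw [hη, coe_rC, r_apply]
    exact T.res0_θ
  have hηm : algebraMap R.Cs (locRing R.Cs n) η ∈ IsLocalRing.maximalIdeal (locRing R.Cs n) :=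
    (mem_maximalIdeal_locRing η).2 hηn
  apply (IsLocalRing.mem_maximalIdeal _).1 hηm
  refine IsUnit.of_mul_eq_one ⟨_, hδ⟩ (Subtype.ext ?_)
  show (η : E) * T.res 0 (T.der T.Y / (q : F')) = 1
  rw [hηe, inv_mul_cancel₀ T.res0_delta_ne]

/-- At a point of the component `0`: `θ` vanishes iff the component `1` passes through it. -/
theorem θ_mem_iff (m : Ideal T.B) [hm : m.IsPrime] :
    (⟨T.θ, T.θ_mem⟩ : T.B) ∈ m ↔ T.p 1 ≤ m := by
  constructor
  · intro hθ
    by_contra hcon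
    obtain ⟨u, hu, hum⟩ := Set.not_subset.1 hcon
    have hu1 : T.res 1 (u : F') = 0 := T.mem_p_iff.1 hu
    have huq : (u : F') / (q : F') ∈ T.V 1 := T.div_q (T.B_le_V 1 u.2) hu1
    have hq0 := T.q_ne
    have hmem : (u : F') ^ 2 * (T.der T.Y / (q : F')) ∈ T.B := by
      rw [T.mem_B]
      refine ⟨?_, fun i => ?_⟩
      · rw [div_eq_mul_inv]
        exact mul_mem (pow_mem (T.B_le_hor u.2) _) (mul_mem (T.der_hor _ T.Y_hor) T.qinv_mem)
      · fin_cases i
        · exact mul_mem (pow_mem (T.B_le_V 0 u.2) _) T.delta_V0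
        · show (u : F') ^ 2 * (T.der T.Y / (q : F')) ∈ T.V 1
          have h1 : (u : F') ^ 2 * (T.der T.Y / (q : F')) =
              ((u : F') / (q : F')) ^ 2 * ((q : F') * T.der T.Y) := by
            field_simp
          rw [h1]
          refine mul_mem (pow_mem huq _) ?_
          rw [T.W_V, map_mul, map_natCast]
          exact T.θ_V0
    have h2 : (⟨T.θ, T.θ_mem⟩ : T.B) * ⟨_, hmem⟩ = u ^ 2 := by
      apply Subtype.ext
      show T.θ * ((u : F') ^ 2 * (T.der T.Y / (q : F'))) = (u : F') ^ 2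
      rw [θ_eq]
      have := T.delta_ne
      field_simp
    have h3 : u ^ 2 ∈ m := by
      rw [← h2]; exact m.mul_mem_right _ hθ
    exact hum (hm.mem_of_pow_mem _ h3)
  · intro h
    exact h (T.mem_p_iff.2 T.res1_θ)

end TwoData

end Fermat.Agent.H83
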