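import Mathlib
import Fermat.Agent.H83Two

/-!
# The three-component situation (level `q²m`): all local rings are UFDs
-/

set_option autoImplicit false

namespace Fermat.Agent.H83.ThreeData

open CompSys

variable {k E : Type*} [Field k] [Field E] [Algebra k E] {q : ℕ} {R : ResData k E q}
  {F' : Type*} [Field F'] {T : TwoData R F'} {F : Type*} [Field F] (S : ThreeData T F)

theorem r_mem_Cs (i : Fin 3) (b : S.B) : S.r i b ∈ R.Cs := S.r_mem i b

theorem r_surj_Cs (i : Fin 3) : ∀ c ∈ R.Cs, ∃ b : S.B, S.r i b = c := S.r_surj i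

theorem α_mem_B {x : F'} (hx : x ∈ T.B) : S.α x ∈ S.B := by
  rw [S.mem_B]
  refine ⟨S.α_hor _ (T.B_le_hor hx), fun i => ?_⟩
  fin_cases i
  · exact (S.α_V0 x).2 (T.B_le_V 0 hx)
  · exact (S.α_V1 x).2 (T.B_le_V 0 hx)
  · exact (S.α_V2 x).2 (T.B_le_V 1 hx)

theorem β_mem_B {x : F'} (hx : x ∈ T.B) : S.β x ∈ S.B := by
  rw [S.mem_B]
  refine ⟨S.β_hor _ (T.B_le_hor hx), fun i => ?_⟩
  fin_cases i
  · exact (S.β_V0 x).2 (T.B_le_V 0 hx)
  · exact (S.β_V1 x).2 (T.B_le_V 1 hx)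
  · exact (S.β_V2 x).2 (T.B_le_V 1 hx)

/-- `α : B' → B` -/
def αB : T.B →+* S.B where
  toFun x := ⟨S.α x, S.α_mem_B x.2⟩
  map_one' := Subtype.ext (map_one S.α)
  map_mul' x y := Subtype.ext (map_mul S.α (x : F') y)
  map_zero' := Subtype.ext (map_zero S.α)
  map_add' x y := Subtype.ext (map_add S.α (x : F') y)

/-- `β : B' → B` -/
def βB : T.B →+* S.B where
  toFun x := ⟨S.β x, S.β_mem_B x.2⟩
  map_one' := Subtype.ext (map_one S.β)
  map_mul' x y := Subtype.ext (map_mul S.β (x : F') y)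
  map_zero' := Subtype.ext (map_zero S.β)
  map_add' x y := Subtype.ext (map_add S.β (x : F') y)

@[simp] theorem coe_αB (x : T.B) : (S.αB x : F) = S.α x := rfl
@[simp] theorem coe_βB (x : T.B) : (S.βB x : F) = S.β x := rfl

theorem α_q : S.α (q : F') = (q : F) := map_natCast _ _
theorem β_q : S.β (q : F') = (q : F) := map_natCast _ _

theorem r0_α (x : T.B) : S.r 0 (S.αB x) = T.r 0 x := by
  rw [r_apply, r_apply]; exact S.α_res0 _
theorem r1_α (x : T.B) : S.r 1 (S.αB x) = T.r 0 x := by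
  rw [r_apply, r_apply]; exact S.α_res1 _
theorem r2_α (x : T.B) : S.r 2 (S.αB x) = R.Φ (T.r 1 x) := by
  rw [r_apply, r_apply]; exact S.α_res2 _
theorem r0_β (x : T.B) : S.r 0 (S.βB x) = R.Φ (T.r 0 x) := by
  rw [r_apply, r_apply]; exact S.β_res0 _
theorem r1_β (x : T.B) : S.r 1 (S.βB x) = T.r 1 x := by
  rw [r_apply, r_apply]; exact S.β_res1 _
theorem r2_β (x : T.B) : S.r 2 (S.βB x) = T.r 1 x := by
  rw [r_apply, r_apply]; exact S.β_res2 _

section points

variable (m : Ideal S.B) [hm : m.IsPrime]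

theorem α_comap0 (h : S.p 0 ≤ m ∨ S.p 1 ≤ m) : T.p 0 ≤ m.comap S.αB := by
  intro x hx
  rw [T.mem_p] at hx
  rw [Ideal.mem_comap]
  rcases h with h | h
  · exact h (S.mem_p.2 (by rw [r0_α, hx]))
  · exact h (S.mem_p.2 (by rw [r1_α, hx]))

theorem α_comap1 (h : S.p 2 ≤ m) : T.p 1 ≤ m.comap S.αB := by
  intro x hx
  rw [T.mem_p] at hx
  exact h (S.mem_p.2 (by rw [r2_α, hx, map_zero]))

theorem β_comap0 (h : S.p 0 ≤ m) : T.p 0 ≤ m.comap S.βB := by
  intro x hx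
  rw [T.mem_p] at hx
  exact h (S.mem_p.2 (by rw [r0_β, hx, map_zero]))

theorem β_comap1 (h : S.p 1 ≤ m ∨ S.p 2 ≤ m) : T.p 1 ≤ m.comap S.βB := by
  intro x hx
  rw [T.mem_p] at hx
  rw [Ideal.mem_comap]
  rcases h with h | h
  · exact h (S.mem_p.2 (by rw [r1_β, hx]))
  · exact h (S.mem_p.2 (by rw [r2_β, hx]))

theorem div_q0 {x : F} (hx : x ∈ S.V 0) (h : S.res 0 x = 0) : x / (q : F) ∈ S.V 0 := by
  have := pow_div_mem hx h
  rwa [S.e_zero, pow_one] at this

theorem div_q2 {x : F} (hx : x ∈ S.V 2) (h : S.res 2 x = 0) : x / (q : F) ∈ S.V 2 := by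
  have := pow_div_mem hx h
  rwa [S.e_two, pow_one] at this

theorem pow_div_q1 {x : F} (hx : x ∈ S.V 1) (h : S.res 1 x = 0) :
    x ^ (q - 1) / (q : F) ∈ S.V 1 := by
  have := pow_div_mem hx h
  rwa [S.e_one] at this

theorem mul_pow_div_q1 {x y : F} (hx : x ∈ S.V 1) (h : S.res 1 x = 0) (hy : y ∈ S.V 1)
    (h' : S.res 1 y = 0) (hq : 2 ≤ q) :
    x * y ^ (q - 2) / (q : F) ∈ S.V 1 := by
  rcases eq_or_ne x 0 with rfl | hx0
  · simp [zero_mem]
  rcases eq_or_ne y 0 with rfl | hy0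
  · rcases Nat.lt_or_ge 2 q with h2 | h2
    · rw [zero_pow (by omega)]; simp [zero_mem]
    · have h3 : q - 2 = 0 := by omega
      have := S.pow_div_q1 hx h
      rw [h3, pow_zero, mul_one]
      rwa [show q - 1 = 1 by omega, pow_one] at this
  have e1 : q - 1 = (q - 2) + 1 := by omega
  rcases (S.V 1).mem_or_inv_mem (x / y) with h1 | h1
  · have e : x * y ^ (q - 2) / (q : F) = (x / y) * (y ^ (q - 1) / q) := by
      rw [e1, pow_succ]; field_simp
    rw [e]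
    exact mul_mem h1 (S.pow_div_q1 hy h')
  · rw [inv_div] at h1
    have e : x * y ^ (q - 2) / (q : F) = (x ^ (q - 1) / q) * (y / x) ^ (q - 2) := by
      rw [e1, pow_succ, div_pow]; field_simp
    rw [e]
    exact mul_mem (S.pow_div_q1 hx h) (pow_mem h1 _)

theorem αz'_div0 : S.α T.z' / (q : F) ∈ S.V 0 := by
  rw [← S.α_q, ← map_div₀, S.α_V0]
  exact T.div_q (T.z'_V 0) T.res0_z'

theorem αz'_div1 : S.α T.z' / (q : F) ∈ S.V 1 := by
  rw [← S.α_q, ← map_div₀, S.α_V1]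
  exact T.div_q (T.z'_V 0) T.res0_z'

theorem αz_div2 : S.α T.z / (q : F) ∈ S.V 2 := by
  rw [← S.α_q, ← map_div₀, S.α_V2]
  exact T.div_q (T.z_V 1) T.res1_z

theorem βz_div1 : S.β T.z / (q : F) ∈ S.V 1 := by
  rw [← S.β_q, ← map_div₀, S.β_V1]
  exact T.div_q (T.z_V 1) T.res1_z

theorem βz_div2 : S.β T.z / (q : F) ∈ S.V 2 := by
  rw [← S.β_q, ← map_div₀, S.β_V2]
  exact T.div_q (T.z_V 1) T.res1_z

theorem αzz : S.α T.zz = S.α T.z * S.α T.z' / (q : F) := by
  rw [TwoData.zz, map_div₀, map_mul, α_q]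

theorem βzz : S.β T.zz = S.β T.z * S.β T.z' / (q : F) := by
  rw [TwoData.zz, map_div₀, map_mul, β_q]

/-- Claim A1 -/
theorem p2_le_of_α (h01 : S.p 0 ≤ m ∨ S.p 1 ≤ m) (h1 : T.p 1 ≤ m.comap S.αB) : S.p 2 ≤ m := by
  by_contra hcon
  obtain ⟨u, hu, hum⟩ := Set.not_subset.1 hcon
  have h0 := S.α_comap0 m h01
  haveI : (m.comap S.αB).IsPrime := Ideal.IsPrime.comap _
  have hzz := T.zz_notMem (m.comap S.αB) h0 h1
  have hzm : S.αB ⟨T.z, T.z_mem⟩ ∈ m := h1 (T.mem_p_iff.2 T.res1_z)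
  have hmem : (u : F) * S.α T.z' / (q : F) ∈ S.B := by
    apply S.div_q_mem (mul_mem (S.B_le_hor u.2) (S.α_hor _ T.z'_hor))
    intro i
    fin_cases i
    · show (u : F) * S.α T.z' / (q : F) ∈ S.V 0
      rw [mul_div_assoc]
      exact mul_mem (S.B_le_V 0 u.2) S.αz'_div0
    · show (u : F) * S.α T.z' / (q : F) ∈ S.V 1
      rw [mul_div_assoc]
      exact mul_mem (S.B_le_V 1 u.2) S.αz'_div1
    · show (u : F) * S.α T.z' / (q : F) ∈ S.V 2
      rw [mul_comm, mul_div_assoc]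
      exact mul_mem ((S.α_V2 _).2 (T.z'_V 1)) (S.div_q2 (S.B_le_V 2 u.2) (S.mem_p_iff.1 hu))
  have h3 : S.αB ⟨T.z, T.z_mem⟩ * ⟨_, hmem⟩ = u * S.αB ⟨T.zz, T.zz_mem⟩ := by
    apply Subtype.ext
    show S.α T.z * ((u : F) * S.α T.z' / (q : F)) = u * S.α T.zz
    rw [αzz]; ring
  have h4 : u * S.αB ⟨T.zz, T.zz_mem⟩ ∈ m := by
    rw [← h3]; exact m.mul_mem_right _ hzm
  exact (hm.mem_or_mem h4).elim hum hzz

/-- β-version of Claim A1 -/
theorem p0_le_of_β (h12 : S.p 1 ≤ m ∨ S.p 2 ≤ m) (h0 : T.p 0 ≤ m.comap S.βB) : S.p 0 ≤ m := by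
  by_contra hcon
  obtain ⟨u, hu, hum⟩ := Set.not_subset.1 hcon
  have h1 := S.β_comap1 m h12
  haveI : (m.comap S.βB).IsPrime := Ideal.IsPrime.comap _
  have hzz := T.zz_notMem (m.comap S.βB) h0 h1
  have hzm : S.βB ⟨T.z', T.z'_mem⟩ ∈ m := h0 (T.mem_p_iff.2 T.res0_z')
  have hmem : (u : F) * S.β T.z / (q : F) ∈ S.B := by
    apply S.div_q_mem (mul_mem (S.B_le_hor u.2) (S.β_hor _ T.z_hor))
    intro i
    fin_cases i
    · show (u : F) * S.β T.z / (q : F) ∈ S.V 0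
      rw [mul_comm, mul_div_assoc]
      exact mul_mem ((S.β_V0 _).2 (T.z_V 0)) (S.div_q0 (S.B_le_V 0 u.2) (S.mem_p_iff.1 hu))
    · show (u : F) * S.β T.z / (q : F) ∈ S.V 1
      rw [mul_div_assoc]
      exact mul_mem (S.B_le_V 1 u.2) S.βz_div1
    · show (u : F) * S.β T.z / (q : F) ∈ S.V 2
      rw [mul_div_assoc]
      exact mul_mem (S.B_le_V 2 u.2) S.βz_div2
  have h3 : S.βB ⟨T.z', T.z'_mem⟩ * ⟨_, hmem⟩ = u * S.βB ⟨T.zz, T.zz_mem⟩ := by
    apply Subtype.ext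
    show S.β T.z' * ((u : F) * S.β T.z / (q : F)) = u * S.β T.zz
    rw [βzz]; ring
  have h4 : u * S.βB ⟨T.zz, T.zz_mem⟩ ∈ m := by
    rw [← h3]; exact m.mul_mem_right _ hzm
  exact (hm.mem_or_mem h4).elim hum hzz

end points

/-- Claim A3: points of the component `2` are determined by their image under `α`. -/
theorem eq_of_comap_α {m m' : Ideal S.B} [hm : m.IsPrime] [hm' : m'.IsPrime] (h : S.p 2 ≤ m)
    (h' : S.p 2 ≤ m') (hc : m.comap S.αB = m'.comap S.αB) : m = m' := by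
  have key : ∀ b : S.B, ∃ b' : T.B, ∀ m : Ideal S.B, m.IsPrime → S.p 2 ≤ m →
      (b ∈ m ↔ b' ∈ m.comap S.αB) := by
    intro b
    obtain ⟨b', hb'⟩ := T.r_surj 1 (R.φ (S.r 2 b)) ((R.φ_mem _).1 (S.r_mem 2 b))
    refine ⟨b', fun m hm h => ?_⟩
    have h1 : S.αB b' - b ^ q ∈ m := by
      apply h
      rw [S.mem_p, map_sub, map_pow, r2_α, hb', ← R.pow_q, sub_self]
    rw [Ideal.mem_comap]
    constructor
    · intro hb
      have hq : 0 < q := Nat.pos_of_ne_zero (by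
        rintro rfl; exact T.q_ne (by simp))
      have h2 : b ^ q ∈ m := m.pow_mem_of_mem hb q hq
      have := m.add_mem h1 h2
      rwa [sub_add_cancel] at this
    · intro hb
      have := m.sub_mem hb h1
      rw [sub_sub_cancel] at this
      exact hm.mem_of_pow_mem _ this
  ext b
  obtain ⟨b', hb'⟩ := key b
  rw [hb' m hm h, hb' m' hm' h', hc]

/-- points of the component `0` are determined by their image under `β`. -/
theorem eq_of_comap_β {m m' : Ideal S.B} [hm : m.IsPrime] [hm' : m'.IsPrime] (h : S.p 0 ≤ m)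
    (h' : S.p 0 ≤ m') (hc : m.comap S.βB = m'.comap S.βB) : m = m' := by
  have key : ∀ b : S.B, ∃ b' : T.B, ∀ m : Ideal S.B, m.IsPrime → S.p 0 ≤ m →
      (b ∈ m ↔ b' ∈ m.comap S.βB) := by
    intro b
    obtain ⟨b', hb'⟩ := T.r_surj 0 (R.φ (S.r 0 b)) ((R.φ_mem _).1 (S.r_mem 0 b))
    refine ⟨b', fun m hm h => ?_⟩
    have h1 : S.βB b' - b ^ q ∈ m := by
      apply h
      rw [S.mem_p, map_sub, map_pow, r0_β, hb', ← R.pow_q, sub_self]
    rw [Ideal.mem_comap]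
    constructor
    · intro hb
      have hq : 0 < q := Nat.pos_of_ne_zero (by
        rintro rfl; exact T.q_ne (by simp))
      have h2 : b ^ q ∈ m := m.pow_mem_of_mem hb q hq
      have := m.add_mem h1 h2
      rwa [sub_add_cancel] at this
    · intro hb
      have := m.sub_mem hb h1
      rw [sub_sub_cancel] at this
      exact hm.mem_of_pow_mem _ this
  ext b
  obtain ⟨b', hb'⟩ := key b
  rw [hb' m hm h, hb' m' hm' h', hc]

/-- the point of the component `i` with ideal `n` of `C` -/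
def pt (i : Fin 3) (n : Ideal R.Cs) : Ideal S.B := n.comap (S.rC (S.r_mem_Cs i))

instance (i : Fin 3) (n : Ideal R.Cs) [n.IsPrime] : (S.pt i n).IsPrime := Ideal.IsPrime.comap _

theorem p_le_pt (i : Fin 3) (n : Ideal R.Cs) : S.p i ≤ S.pt i n := by
  intro b hb
  rw [← S.ker_rC (S.r_mem_Cs i), RingHom.mem_ker] at hb
  rw [pt, Ideal.mem_comap, hb]
  exact n.zero_mem

theorem eq_pt (m : Ideal S.B) [hm : m.IsPrime] {i : Fin 3} (h : S.p i ≤ m) :
    m = S.pt i (S.nI m (S.r_mem_Cs i)) := by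
  ext b
  rw [pt, Ideal.mem_comap, S.mem_nI m h (S.r_mem_Cs i) (S.r_surj_Cs i)]

theorem comap_α_pt01 (n : Ideal R.Cs) : (S.pt 0 n).comap S.αB = (S.pt 1 n).comap S.αB := by
  ext b
  simp only [pt, Ideal.mem_comap]
  have : S.rC (S.r_mem_Cs 0) (S.αB b) = S.rC (S.r_mem_Cs 1) (S.αB b) := by
    apply Subtype.ext
    rw [coe_rC, coe_rC, r0_α, r1_α]
  rw [this]

theorem comap_β_pt12 (n : Ideal R.Cs) : (S.pt 1 n).comap S.βB = (S.pt 2 n).comap S.βB := by
  ext b
  simp only [pt, Ideal.mem_comap]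
  have : S.rC (S.r_mem_Cs 1) (S.βB b) = S.rC (S.r_mem_Cs 2) (S.βB b) := by
    apply Subtype.ext
    rw [coe_rC, coe_rC, r1_β, r2_β]
  rw [this]

/-- If two components pass through a point then all three do. -/
theorem all_of_two (m : Ideal S.B) [hm : m.IsPrime]
    (h : (S.p 0 ≤ m ∧ S.p 1 ≤ m) ∨ (S.p 0 ≤ m ∧ S.p 2 ≤ m) ∨ (S.p 1 ≤ m ∧ S.p 2 ≤ m)) :
    S.p 0 ≤ m ∧ S.p 1 ≤ m ∧ S.p 2 ≤ m := by
  rcases h with ⟨h0, h1⟩ | ⟨h0, h2⟩ | ⟨h1, h2⟩
  · -- use β
    haveI := S.nI_isPrime m h1 (S.r_mem_Cs 1) (S.r_surj_Cs 1)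
    set n := S.nI m (S.r_mem_Cs 1) with hn
    have hmn : m = S.pt 1 n := S.eq_pt m h1
    have hcom : m.comap S.βB = (S.pt 2 n).comap S.βB := by
      rw [hmn]; exact S.comap_β_pt12 n
    have h3 : S.p 0 ≤ S.pt 2 n := by
      apply S.p0_le_of_β _ (Or.inr (S.p_le_pt 2 n))
      rw [← hcom]
      exact S.β_comap0 m h0
    have h4 : m = S.pt 2 n := S.eq_of_comap_β h0 h3 hcom
    exact ⟨h0, h1, h4 ▸ S.p_le_pt 2 n⟩
  · haveI := S.nI_isPrime m h0 (S.r_mem_Cs 0) (S.r_surj_Cs 0)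
    set n := S.nI m (S.r_mem_Cs 0) with hn
    have hmn : m = S.pt 0 n := S.eq_pt m h0
    have hcom : m.comap S.αB = (S.pt 1 n).comap S.αB := by
      rw [hmn]; exact S.comap_α_pt01 n
    have h3 : S.p 2 ≤ S.pt 1 n := by
      apply S.p2_le_of_α _ (Or.inr (S.p_le_pt 1 n))
      rw [← hcom]
      exact S.α_comap1 m h2
    have h4 : m = S.pt 1 n := S.eq_of_comap_α h2 h3 hcom
    exact ⟨h0, h4 ▸ S.p_le_pt 1 n, h2⟩
  · haveI := S.nI_isPrime m h1 (S.r_mem_Cs 1) (S.r_surj_Cs 1)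
    set n := S.nI m (S.r_mem_Cs 1) with hn
    have hmn : m = S.pt 1 n := S.eq_pt m h1
    have hcom : m.comap S.αB = (S.pt 0 n).comap S.αB := by
      rw [hmn]; exact (S.comap_α_pt01 n).symm
    have h3 : S.p 2 ≤ S.pt 0 n := by
      apply S.p2_le_of_α _ (Or.inl (S.p_le_pt 0 n))
      rw [← hcom]
      exact S.α_comap1 m h2
    have h4 : m = S.pt 0 n := S.eq_of_comap_α h2 h3 hcom
    exact ⟨h4 ▸ S.p_le_pt 0 n, h1, h2⟩

/-- `w = X(q²z) - X(z)` -/
def w : F := S.β (T.W T.X) - S.α T.X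

theorem w_mem : S.w ∈ S.B := by
  rw [S.mem_B]
  refine ⟨sub_mem (S.β_hor _ T.Y_hor) (S.α_hor _ T.X_hor), fun i => ?_⟩
  fin_cases i
  · exact sub_mem ((S.β_V0 _).2 (T.Y_V 0)) ((S.α_V0 _).2 (T.X_V 0))
  · exact sub_mem ((S.β_V1 _).2 (T.Y_V 1)) ((S.α_V1 _).2 (T.X_V 0))
  · exact sub_mem ((S.β_V2 _).2 (T.Y_V 1)) ((S.α_V2 _).2 (T.X_V 1))

theorem res1_w : S.res 1 S.w = 0 := S.w_res

theorem res1_ω : S.res 1 (S.w ^ (q - 1) / (q : F)) = - T.res 0 (T.der T.Y / (q : F')) :=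
  S.w_pow_res

theorem ω_V1 : S.w ^ (q - 1) / (q : F) ∈ S.V 1 := S.w_pow

include T in
theorem two_le_q' : 2 ≤ q := by
  rcases Nat.lt_or_ge q 2 with h | h
  · exfalso
    have hq0 : q ≠ 0 := by
      rintro rfl; exact T.q_ne (by simp)
    have hq1 : q = 1 := by omega
    have := T.cast_q
    rw [hq1] at this
    simp at this
  · exact h

theorem w_ne_zero (hq : 2 < q ∨ q = 2) : S.w ≠ 0 := by
  intro h
  have h1 := S.res1_ω
  rw [h, zero_pow (by omega), zero_div, res_zero] at h1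
  exact T.res0_delta_ne (neg_eq_zero.1 h1.symm)

/-- **All local rings at points containing `q` are UFDs.** -/
theorem ufd (m : Ideal S.B) [hm : m.IsPrime] (hq : S.qB ∈ m) :
    UniqueFactorizationMonoid (locRing S.B m) := by
  classical
  haveI := S.noeth
  have hq0 := S.q_ne
  have hq2 : 2 ≤ q := two_le_q' (T := T)
  obtain ⟨i, hi⟩ := S.exists_p_le m hq
  by_cases hall : S.p 0 ≤ m ∧ S.p 1 ≤ m ∧ S.p 2 ≤ m
  · -- common point: `α z` generates `p 2`
    obtain ⟨h0, h1, h2⟩ := hall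
    haveI : (m.comap S.αB).IsPrime := Ideal.IsPrime.comap _
    have hzz := T.zz_notMem (m.comap S.αB) (S.α_comap0 m (Or.inl h0)) (S.α_comap1 m h2)
    rw [Ideal.mem_comap] at hzz
    have hz0 : T.z ≠ 0 := by
      intro h
      have h3 := T.res0_z
      rw [h, res_zero] at h3
      have h4 : R.D (R.X - R.X ^ (q * q)) = 1 := by
        rw [map_sub, Derivation.leibniz_pow, R.D_X, smul_eq_mul, mul_one, nsmul_eq_mul]
        push_cast
        rw [T.cast_q]
        ring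
      rw [← h3, map_zero] at h4
      exact zero_ne_one h4
    refine S.ufd_at m h2 (S.r_mem_Cs 2) (S.r_surj_Cs 2) (S.α T.z) ?_
      (le_locRing (S.αB ⟨T.z, T.z_mem⟩).2) ?_ ?_
    · rw [Ne, map_eq_zero]; exact hz0
    · rw [S.α_res2, T.res1_z, map_zero]
    · intro b hb
      have hmem : (b : F) * S.α T.z' / (q : F) ∈ S.B := by
        apply S.div_q_mem (mul_mem (S.B_le_hor b.2) (S.α_hor _ T.z'_hor))
        intro i
        fin_cases i
        · show (b : F) * S.α T.z' / (q : F) ∈ S.V 0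
          rw [mul_div_assoc]
          exact mul_mem (S.B_le_V 0 b.2) S.αz'_div0
        · show (b : F) * S.α T.z' / (q : F) ∈ S.V 1
          rw [mul_div_assoc]
          exact mul_mem (S.B_le_V 1 b.2) S.αz'_div1
        · show (b : F) * S.α T.z' / (q : F) ∈ S.V 2
          rw [mul_comm, mul_div_assoc]
          exact mul_mem ((S.α_V2 _).2 (T.z'_V 1)) (S.div_q2 (S.B_le_V 2 b.2) (S.mem_p_iff.1 hb))
      refine ⟨⟨_, hmem⟩, S.αB ⟨T.zz, T.zz_mem⟩, hzz, ?_⟩
      show (b : F) / S.α T.z * S.α T.zz = (b : F) * S.α T.z' / (q : F)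
      rw [αzz]
      have hz1 : S.α T.z ≠ 0 := by rw [Ne, map_eq_zero]; exact hz0
      field_simp
  · -- only one component
    have honly : ∀ j, S.p j ≤ m → j = i := by
      intro j hj
      by_contra hji
      apply hall
      apply S.all_of_two m
      fin_cases i <;> fin_cases j <;> simp_all
    have hu : ∀ j, j ≠ i → ∃ u : S.B, u ∈ S.p j ∧ u ∉ m := by
      intro j hj
      obtain ⟨u, hu, hum⟩ := Set.not_subset.1 (fun h => hj (honly j h))
      exact ⟨u, hu, hum⟩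
    fin_cases i
    · -- component 0
      obtain ⟨u1, hu1, hu1m⟩ := hu 1 (by decide)
      obtain ⟨u2, hu2, hu2m⟩ := hu 2 (by decide)
      refine S.ufd_at m hi (S.r_mem_Cs 0) (S.r_surj_Cs 0) (q : F) hq0
        (le_locRing (by rw [← S.coe_qB]; exact S.qB.2)) (res_q _ 0) ?_
      intro b hb
      have hmem : (b : F) * ((u1 : F) ^ (q - 1) * u2) / (q : F) ∈ S.B := by
        apply S.div_q_mem (mul_mem (S.B_le_hor b.2) (mul_mem (pow_mem (S.B_le_hor u1.2) _)
          (S.B_le_hor u2.2)))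
        intro i
        fin_cases i
        · show (b : F) * ((u1 : F) ^ (q - 1) * u2) / (q : F) ∈ S.V 0
          rw [mul_comm, mul_div_assoc]
          exact mul_mem (mul_mem (pow_mem (S.B_le_V 0 u1.2) _) (S.B_le_V 0 u2.2))
            (S.div_q0 (S.B_le_V 0 b.2) (S.mem_p_iff.1 hb))
        · show (b : F) * ((u1 : F) ^ (q - 1) * u2) / (q : F) ∈ S.V 1
          have e : (b : F) * ((u1 : F) ^ (q - 1) * u2) / (q : F) =
              (b * u2) * ((u1 : F) ^ (q - 1) / q) := by ring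
          rw [e]
          exact mul_mem (mul_mem (S.B_le_V 1 b.2) (S.B_le_V 1 u2.2))
            (S.pow_div_q1 (S.B_le_V 1 u1.2) (S.mem_p_iff.1 hu1))
        · show (b : F) * ((u1 : F) ^ (q - 1) * u2) / (q : F) ∈ S.V 2
          have e : (b : F) * ((u1 : F) ^ (q - 1) * u2) / (q : F) =
              (b * (u1 : F) ^ (q - 1)) * (u2 / q) := by ring
          rw [e]
          exact mul_mem (mul_mem (S.B_le_V 2 b.2) (pow_mem (S.B_le_V 2 u1.2) _))
            (S.div_q2 (S.B_le_V 2 u2.2) (S.mem_p_iff.1 hu2))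
      refine ⟨⟨_, hmem⟩, u1 ^ (q - 1) * u2, ?_, ?_⟩
      · intro h
        exact (hm.mem_or_mem h).elim (fun h => hu1m (hm.mem_of_pow_mem _ h)) hu2m
      · push_cast; ring
    · -- component 1
      obtain ⟨u0, hu0, hu0m⟩ := hu 0 (by decide)
      obtain ⟨u2, hu2, hu2m⟩ := hu 2 (by decide)
      have hw0 : S.w ≠ 0 := S.w_ne_zero (by omega)
      -- `θ` does not vanish
      have hnot : ¬ T.p 1 ≤ m.comap S.αB := by
        intro h
        have := S.p2_le_of_α m (Or.inr hi) h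
        exact absurd (honly 2 this) (by decide)
      haveI : (m.comap S.αB).IsPrime := Ideal.IsPrime.comap _
      have hθ : S.αB ⟨T.θ, T.θ_mem⟩ ∉ m := fun h =>
        hnot ((T.θ_mem_iff (m.comap S.αB)).1 h)
      set u : S.B := u0 * u2 with hudef
      have hum : u ∉ m := fun h => (hm.mem_or_mem h).elim hu0m hu2m
      have huF : (u : F) = u0 * u2 := by rw [hudef]; rfl
      -- general membership
      have hgenmem : ∀ x : F, x ∈ S.B → x / (q : F) ∈ S.V 1 → (u : F) * x / (q : F) ∈ S.B := by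
        intro x hx hx1
        apply S.div_q_mem (mul_mem (S.B_le_hor u.2) (S.B_le_hor hx))
        intro i
        fin_cases i
        · show (u : F) * x / (q : F) ∈ S.V 0
          have e : (u : F) * x / (q : F) = ((u0 : F) / q) * (u2 * x) := by rw [huF]; ring
          rw [e]
          exact mul_mem (S.div_q0 (S.B_le_V 0 u0.2) (S.mem_p_iff.1 hu0))
            (mul_mem (S.B_le_V 0 u2.2) (S.B_le_V 0 hx))
        · show (u : F) * x / (q : F) ∈ S.V 1
          rw [mul_div_assoc]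
          exact mul_mem (S.B_le_V 1 u.2) hx1
        · show (u : F) * x / (q : F) ∈ S.V 2
          have e : (u : F) * x / (q : F) = ((u2 : F) / q) * (u0 * x) := by rw [huF]; ring
          rw [e]
          exact mul_mem (S.div_q2 (S.B_le_V 2 u2.2) (S.mem_p_iff.1 hu2))
            (mul_mem (S.B_le_V 2 u0.2) (S.B_le_V 2 hx))
      have hωmem := hgenmem (S.w ^ (q - 1)) (pow_mem S.w_mem _) S.ω_V1
      -- `u ω ∉ m`
      have hωm : (⟨_, hωmem⟩ : S.B) ∉ m := by
        intro h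
        have h1 : (⟨_, hωmem⟩ : S.B) * S.αB ⟨T.θ, T.θ_mem⟩ + u ∈ S.p 1 := by
          rw [S.mem_p_iff]
          show S.res 1 ((u : F) * S.w ^ (q - 1) / (q : F) * S.α T.θ + u) = 0
          have hθV : S.α T.θ ∈ S.V 1 := (S.α_V1 _).2 T.θ_V0
          have e : (u : F) * S.w ^ (q - 1) / (q : F) * S.α T.θ + u =
              u * ((S.w ^ (q - 1) / (q : F)) * S.α T.θ + 1) := by ring
          rw [e, res_mul (S.B_le_V 1 u.2) (add_mem (mul_mem S.ω_V1 hθV) (one_mem _)),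
            res_add (mul_mem S.ω_V1 hθV) (one_mem _), res_mul S.ω_V1 hθV, S.res1_ω, S.α_res1,
            T.res0_θ, res_one, neg_mul, mul_inv_cancel₀ T.res0_delta_ne]
          ring
        have h2 := hi h1
        have h3 : u ∈ m := by
          have := m.sub_mem h2 (m.mul_mem_right (S.αB ⟨T.θ, T.θ_mem⟩) h)
          rwa [add_sub_cancel_left] at this
        exact hum h3
      refine S.ufd_at m hi (S.r_mem_Cs 1) (S.r_surj_Cs 1) S.w hw0 (le_locRing S.w_mem) S.res1_w ?_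
      intro b hb
      have hx1 : (b : F) * S.w ^ (q - 2) / (q : F) ∈ S.V 1 :=
        S.mul_pow_div_q1 (S.B_le_V 1 b.2) (S.mem_p_iff.1 hb) (S.B_le_V 1 S.w_mem) S.res1_w hq2
      have hmem := hgenmem ((b : F) * S.w ^ (q - 2)) (mul_mem b.2 (pow_mem S.w_mem _)) hx1
      refine ⟨⟨_, hmem⟩, ⟨_, hωmem⟩, hωm, ?_⟩
      show (b : F) / S.w * ((u : F) * S.w ^ (q - 1) / (q : F)) =
        (u : F) * ((b : F) * S.w ^ (q - 2)) / (q : F)
      have e1 : S.w ^ (q - 1) = S.w ^ (q - 2) * S.w := by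
        rw [← pow_succ]; congr 1; omega
      rw [e1]
      field_simp
    · -- component 2
      obtain ⟨u0, hu0, hu0m⟩ := hu 0 (by decide)
      obtain ⟨u1, hu1, hu1m⟩ := hu 1 (by decide)
      refine S.ufd_at m hi (S.r_mem_Cs 2) (S.r_surj_Cs 2) (q : F) hq0
        (le_locRing (by rw [← S.coe_qB]; exact S.qB.2)) (res_q _ 2) ?_
      intro b hb
      have hmem : (b : F) * ((u1 : F) ^ (q - 1) * u0) / (q : F) ∈ S.B := by
        apply S.div_q_mem (mul_mem (S.B_le_hor b.2) (mul_mem (pow_mem (S.B_le_hor u1.2) _)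
          (S.B_le_hor u0.2)))
        intro i
        fin_cases i
        · show (b : F) * ((u1 : F) ^ (q - 1) * u0) / (q : F) ∈ S.V 0
          have e : (b : F) * ((u1 : F) ^ (q - 1) * u0) / (q : F) =
              (b * (u1 : F) ^ (q - 1)) * (u0 / q) := by ring
          rw [e]
          exact mul_mem (mul_mem (S.B_le_V 0 b.2) (pow_mem (S.B_le_V 0 u1.2) _))
            (S.div_q0 (S.B_le_V 0 u0.2) (S.mem_p_iff.1 hu0))
        · show (b : F) * ((u1 : F) ^ (q - 1) * u0) / (q : F) ∈ S.V 1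
          have e : (b : F) * ((u1 : F) ^ (q - 1) * u0) / (q : F) =
              (b * u0) * ((u1 : F) ^ (q - 1) / q) := by ring
          rw [e]
          exact mul_mem (mul_mem (S.B_le_V 1 b.2) (S.B_le_V 1 u0.2))
            (S.pow_div_q1 (S.B_le_V 1 u1.2) (S.mem_p_iff.1 hu1))
        · show (b : F) * ((u1 : F) ^ (q - 1) * u0) / (q : F) ∈ S.V 2
          rw [mul_comm, mul_div_assoc]
          exact mul_mem (mul_mem (pow_mem (S.B_le_V 2 u1.2) _) (S.B_le_V 2 u0.2))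
            (S.div_q2 (S.B_le_V 2 b.2) (S.mem_p_iff.1 hb))
      refine ⟨⟨_, hmem⟩, u1 ^ (q - 1) * u0, ?_, ?_⟩
      · intro h
        exact (hm.mem_or_mem h).elim (fun h => hu1m (hm.mem_of_pow_mem _ h)) hu0m
      · push_cast; ring

end Fermat.Agent.H83.ThreeData
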