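import Mathlib
import Fermat.Agent.H83Three

/-!
# Weak approximation and discreteness for `CompSys`
-/

set_option autoImplicit false

namespace Fermat.Agent.H83.CompSys

variable {F E : Type*} [Field F] [Field E] {q : ℕ} {ι : Type*} (S : CompSys F E q ι)

/-- all the valuation rings are archimedean w.r.t. `q` -/
def Arch : Prop := ∀ i (x : F), ∃ M : ℕ, (q : F) ^ M * x ∈ S.V i

section disc

variable {S} {i : ι}

theorem pow_mem_iff {x : F} {n : ℕ} (hn : n ≠ 0) : x ^ n ∈ S.V i ↔ x ∈ S.V i := by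
  refine ⟨fun h => ?_, fun h => pow_mem h n⟩
  rcases (S.V i).mem_or_inv_mem x with h1 | h1
  · exact h1
  · have hx : x = x ^ n * (x⁻¹) ^ (n - 1) := by
      rcases eq_or_ne x 0 with rfl | hx0
      · simp [hn]
      · obtain ⟨m, rfl⟩ := Nat.exists_eq_succ_of_ne_zero hn
        rw [Nat.succ_eq_add_one, Nat.add_sub_cancel, pow_succ, inv_pow]
        field_simp
    rw [hx]
    exact mul_mem h (pow_mem h1 _)

theorem res_zpow {x : F} (hx : S.res i x ≠ 0) (n : ℤ) : S.res i (x ^ n) = S.res i x ^ n := by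
  rcases n with n | n
  · rw [Int.ofNat_eq_natCast, zpow_natCast, zpow_natCast, res_pow (res_mul_ne hx)]
  · rw [zpow_negSucc, zpow_negSucc, res_inv, res_pow (res_mul_ne hx)]
    rw [res_pow (res_mul_ne hx)]
    exact pow_ne_zero _ hx

theorem res_mul_ne_zero {x y : F} (hx : S.res i x ≠ 0) (hy : S.res i y ≠ 0) :
    S.res i (x * y) ≠ 0 := by
  rw [res_mul (res_mul_ne hx) (res_mul_ne hy)]
  exact mul_ne_zero hx hy

theorem res_zpow_ne_zero {x : F} (hx : S.res i x ≠ 0) (n : ℤ) : S.res i (x ^ n) ≠ 0 := by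
  rw [res_zpow hx]; exact zpow_ne_zero _ hx

theorem res_pow_ne_zero {x : F} (hx : S.res i x ≠ 0) (n : ℕ) : S.res i (x ^ n) ≠ 0 := by
  rw [res_pow (res_mul_ne hx)]; exact pow_ne_zero _ hx

theorem res_inv_ne_zero {x : F} (hx : S.res i x ≠ 0) : S.res i x⁻¹ ≠ 0 := by
  rw [res_inv hx]; exact inv_ne_zero hx

theorem res_div_ne_zero {x y : F} (hx : S.res i x ≠ 0) (hy : S.res i y ≠ 0) :
    S.res i (x / y) ≠ 0 := by
  rw [div_eq_mul_inv]; exact res_mul_ne_zero hx (res_inv_ne_zero hy)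

theorem ne_zero_of_res {x : F} (hx : S.res i x ≠ 0) : x ≠ 0 := by
  rintro rfl; exact hx (res_zero S i)

/-- if `x ^ n` is a unit at `i` then so is `x`. -/
theorem res_ne_zero_of_pow {x : F} {n : ℕ} (hn : n ≠ 0) (h : S.res i (x ^ n) ≠ 0) :
    S.res i x ≠ 0 := by
  have hx : x ∈ S.V i := (pow_mem_iff hn).1 (res_mul_ne h)
  intro h0
  rw [res_pow hx, h0, zero_pow hn] at h
  exact h rfl

/-- if the product of two elements of `V i` is a unit then both are. -/
theorem res_ne_zero_of_mul {x y : F} (hx : x ∈ S.V i) (hy : y ∈ S.V i)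
    (h : S.res i (x * y) ≠ 0) : S.res i x ≠ 0 ∧ S.res i y ≠ 0 := by
  rw [res_mul hx hy] at h
  exact mul_ne_zero_iff.1 h

/-- `t` is a uniformizer at `i` -/
def IsUnif (S : CompSys F E q ι) (i : ι) (t : F) : Prop :=
  t ∈ S.V i ∧ S.res i t = 0 ∧ S.res i (t ^ (S.e i) / (q : F)) ≠ 0

theorem IsUnif.ne_zero {t : F} (ht : S.IsUnif i t) (he : S.e i ≠ 0) : t ≠ 0 := by
  rintro rfl
  have := ht.2.2
  rw [zero_pow he, zero_div, res_zero] at this
  exact this rfl

theorem IsUnif.div_mem {t : F} (ht : S.IsUnif i t) (he : S.e i ≠ 0) {x : F} (hx : x ∈ S.V i)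
    (h : S.res i x = 0) : x / t ∈ S.V i := by
  rw [← pow_mem_iff he, div_pow]
  have h1 := pow_div_mem hx h
  have h2 := inv_mem ht.2.2
  have hq := S.q_ne
  have ht0 := ht.ne_zero he
  have e : x ^ S.e i / t ^ S.e i = (x ^ S.e i / (q : F)) * (t ^ S.e i / (q : F))⁻¹ := by
    field_simp
  rw [e]
  exact mul_mem h1 h2

theorem exists_zpow {t : F} (ht : S.IsUnif i t) (he : S.e i ≠ 0) (harch : S.Arch) {x : F}
    (hx : x ≠ 0) : ∃ n : ℤ, S.res i (x / t ^ n) ≠ 0 := by
  classical
  have ht0 := ht.ne_zero he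
  have hq := S.q_ne
  obtain ⟨M, hM⟩ := harch i x
  obtain ⟨M', hM'⟩ := harch i x⁻¹
  -- bound
  have hbound : ∃ n : ℕ, ¬ ((q : F) ^ M * x / t ^ n ∈ S.V i) := by
    refine ⟨S.e i * (M + M' + 1), fun hcon => ?_⟩
    have h1 := mul_mem hcon hM'
    have h2 : (q : F) ^ M * x / t ^ (S.e i * (M + M' + 1)) * ((q : F) ^ M' * x⁻¹) =
        ((t ^ S.e i / (q : F)) ^ (M + M' + 1))⁻¹ * (q : F)⁻¹ := by
      rw [pow_mul, div_pow]
      have := pow_ne_zero (S.e i) ht0
      field_simp
      ring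
    rw [h2] at h1
    have h3 : S.res i ((t ^ S.e i / (q : F)) ^ (M + M' + 1)) ≠ 0 := res_pow_ne_zero ht.2.2 _
    have h4 : (q : F)⁻¹ ∈ S.V i := by
      have := mul_mem (res_mul_ne h3) h1
      rwa [← mul_assoc, mul_inv_cancel₀ (ne_zero_of_res h3), one_mul] at this
    have h5 := res_ne_zero hq (S.q_mem i) h4
    exact h5 (S.res_q i)
  have hex := Nat.find_spec hbound
  have hmin := fun k (hk : k < Nat.find hbound) => not_not.1 (Nat.find_min hbound hk)
  set N := Nat.find hbound with hN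
  have hN0 : N ≠ 0 := by
    intro h0
    rw [h0, pow_zero, div_one] at hex
    exact hex hM
  have h1 := hmin (N - 1) (by omega)
  have h2 : S.res i ((q : F) ^ M * x / t ^ (N - 1)) ≠ 0 := by
    intro h0
    apply hex
    have := ht.div_mem he h1 h0
    rw [div_div, ← pow_succ, Nat.sub_add_cancel (Nat.one_le_iff_ne_zero.2 hN0)] at this
    exact this
  refine ⟨((N - 1 : ℕ) : ℤ) - (S.e i * M : ℕ), ?_⟩
  have h3 : S.res i ((t ^ S.e i / (q : F)) ^ M) ≠ 0 := res_pow_ne_zero ht.2.2 _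
  have e : x / t ^ (((N - 1 : ℕ) : ℤ) - (S.e i * M : ℕ)) =
      ((q : F) ^ M * x / t ^ (N - 1)) * (t ^ S.e i / (q : F)) ^ M := by
    rw [zpow_sub₀ ht0, zpow_natCast, zpow_natCast, pow_mul, div_pow]
    have := pow_ne_zero (S.e i) ht0
    field_simp
  rw [e]
  exact res_mul_ne_zero h2 h3

end disc

section WA

variable [Fintype ι] [DecidableEq ι]

/-- Weak approximation, from elements `u i` which are units exactly at `i`. -/
theorem exists_approx (harch : S.Arch) (he : ∀ i, S.e i ≠ 0) (u : ι → F)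
    (hu : ∀ i j, u i ∈ S.V j)
    (hu1 : ∀ i, S.res i (u i) ≠ 0) (hu0 : ∀ i j, i ≠ j → S.res j (u i) = 0)
    (a : ι → F) (ha : ∀ i, a i ≠ 0) : ∃ x : F, ∀ i, S.res i (x / a i) = 1 := by
  classical
  -- normalise the `u i`
  set s : F := ∑ i, u i with hs
  have hsV : ∀ j, s ∈ S.V j := fun j => sum_mem fun i _ => hu i j
  have hsr : ∀ j, S.res j s = S.res j (u j) := by
    intro j
    have h1 : s = u j + ∑ i ∈ Finset.univ.erase j, u i := by
      rw [hs, Finset.add_sum_erase _ _ (Finset.mem_univ j)]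
    have h2 : ∀ t : Finset ι, j ∉ t → S.res j (∑ i ∈ t, u i) = 0 := by
      intro t
      induction t using Finset.induction_on with
      | empty => intro _; simp
      | insert b t hb ih =>
        intro hj
        rw [Finset.sum_insert hb, res_add (hu b j) (sum_mem fun i _ => hu i j),
          hu0 b j (by rintro rfl; exact hj (Finset.mem_insert_self _ _)),
          ih (fun h => hj (Finset.mem_insert_of_mem h)), add_zero]
    rw [h1, res_add (hu j j) (sum_mem fun i _ => hu i j), h2 _ (Finset.notMem_erase j _), add_zero]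
  have hs0 : ∀ j, S.res j s ≠ 0 := fun j => by rw [hsr]; exact hu1 j
  set v : ι → F := fun i => u i / s with hv
  have hvV : ∀ i j, v i ∈ S.V j := fun i j => div_mem (hu i j) (hs0 j)
  have hv1 : ∀ i, S.res i (v i) = 1 := by
    intro i
    rw [hv]
    show S.res i (u i / s) = 1
    rw [res_div (hu i i) (hs0 i), hsr, div_self (hu1 i)]
  have hv0 : ∀ i j, i ≠ j → S.res j (v i) = 0 := by
    intro i j hij
    show S.res j (u i / s) = 0
    rw [res_div (hu i j) (hs0 j), hu0 i j hij, zero_div]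
  -- bounds
  have hM : ∀ i j, ∃ M : ℕ, (q : F) ^ M * (a i / a j) ∈ S.V j := fun i j => harch j _
  choose M hM using hM
  set L : ℕ := ∑ i, ∑ j, (S.e j * (M i j + 1)) with hL
  have hLe : ∀ i j, S.e j * (M i j + 1) ≤ L := fun i j =>
    (Finset.single_le_sum (f := fun j => S.e j * (M i j + 1)) (fun _ _ => Nat.zero_le _)
      (Finset.mem_univ j)).trans
      (Finset.single_le_sum (f := fun i => ∑ j, (S.e j * (M i j + 1))) (fun _ _ => Nat.zero_le _)
      (Finset.mem_univ i))
  refine ⟨∑ i, a i * v i ^ L, fun j => ?_⟩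
  have hL0 : L ≠ 0 := by
    have := hLe j j
    have h2 : 0 < S.e j * (M j j + 1) := Nat.mul_pos (Nat.pos_of_ne_zero (he j)) (Nat.succ_pos _)
    omega
  have hterm : ∀ i, i ≠ j → (a i * v i ^ L / a j) ∈ S.V j ∧ S.res j (a i * v i ^ L / a j) = 0 := by
    intro i hij
    have e : a i * v i ^ L / a j = ((q : F) ^ (M i j) * (a i / a j)) *
        ((v i ^ S.e j / (q : F)) ^ (M i j + 1) * v i ^ (L - S.e j * (M i j + 1))) * (q : F) := by
      have h1 : v i ^ L = (v i ^ S.e j) ^ (M i j + 1) * v i ^ (L - S.e j * (M i j + 1)) := by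
        rw [← pow_mul, ← pow_add, Nat.add_sub_of_le (hLe i j)]
      have hq := S.q_ne
      have haj := ha j
      have hg : ∀ (V W : F), a i * (V ^ (M i j + 1) * W) / a j =
          ((q : F) ^ (M i j) * (a i / a j)) * ((V / (q : F)) ^ (M i j + 1) * W) * (q : F) := by
        intro V W
        rw [div_pow, pow_succ (q : F)]
        field_simp
      rw [h1]
      exact hg _ _
    have h2 : ((q : F) ^ (M i j) * (a i / a j)) *
        ((v i ^ S.e j / (q : F)) ^ (M i j + 1) * v i ^ (L - S.e j * (M i j + 1))) ∈ S.V j :=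
      mul_mem (hM i j) (mul_mem (pow_mem (pow_div_mem (hvV i j) (hv0 i j hij)) _)
        (pow_mem (hvV i j) _))
    rw [e]
    exact ⟨mul_mem h2 (S.q_mem j), by rw [res_mul h2 (S.q_mem j), S.res_q, mul_zero]⟩
  rw [Finset.sum_div, ← Finset.add_sum_erase _ _ (Finset.mem_univ j)]
  have h3 : a j * v j ^ L / a j = v j ^ L := by
    have := ha j
    field_simp
  have h4 : ∀ t : Finset ι, j ∉ t → (∑ i ∈ t, a i * v i ^ L / a j) ∈ S.V j ∧
      S.res j (∑ i ∈ t, a i * v i ^ L / a j) = 0 := by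
    intro t
    induction t using Finset.induction_on with
    | empty => intro _; simp [zero_mem]
    | insert b t hb ih =>
      intro hj
      have hbj : b ≠ j := by rintro rfl; exact hj (Finset.mem_insert_self _ _)
      obtain ⟨i1, i2⟩ := ih (fun h => hj (Finset.mem_insert_of_mem h))
      obtain ⟨i3, i4⟩ := hterm b hbj
      rw [Finset.sum_insert hb]
      exact ⟨add_mem i3 i1, by rw [res_add i3 i1, i4, i2, add_zero]⟩
  obtain ⟨h5, h6⟩ := h4 _ (Finset.notMem_erase j _)
  rw [h3, res_add (pow_mem (hvV j j) _) h5, h6, add_zero, res_pow (hvV j j), hv1, one_pow]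

end WA

end Fermat.Agent.H83.CompSys
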