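import Mathlib
import Fermat.Agent.H83WA

/-!
# Valuations at the components and norms
-/

set_option autoImplicit false

namespace Fermat.Agent.H83.CompSys

variable {F E : Type*} [Field F] [Field E] {q : ℕ} {ι : Type*} {S : CompSys F E q ι}

/-- the valuation of `x` at the component `i` is `n`, measured by `t` -/
def HasVal (S : CompSys F E q ι) (i : ι) (t x : F) (n : ℤ) : Prop := S.res i (x / t ^ n) ≠ 0

variable {i : ι} {t : F}

theorem hasVal_zero {x : F} : S.HasVal i t x 0 ↔ S.res i x ≠ 0 := by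
  rw [HasVal, zpow_zero, div_one]

theorem HasVal.ne_zero {x : F} {n : ℤ} (h : S.HasVal i t x n) : x ≠ 0 := by
  rintro rfl
  rw [HasVal, zero_div, res_zero] at h
  exact h rfl

theorem HasVal.mul (ht : t ≠ 0) {x y : F} {n m : ℤ} (hx : S.HasVal i t x n)
    (hy : S.HasVal i t y m) : S.HasVal i t (x * y) (n + m) := by
  have e : x * y / t ^ (n + m) = x / t ^ n * (y / t ^ m) := by
    rw [zpow_add₀ ht, mul_div_mul_comm]
  rw [HasVal, e]
  exact res_mul_ne_zero hx hy

theorem HasVal.inv {x : F} {n : ℤ} (hx : S.HasVal i t x n) : S.HasVal i t x⁻¹ (-n) := by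
  have e : x⁻¹ / t ^ (-n) = (x / t ^ n)⁻¹ := by
    rw [zpow_neg, inv_div, div_inv_eq_mul, div_eq_mul_inv, mul_comm]
  rw [HasVal, e]
  exact res_inv_ne_zero hx

theorem HasVal.div (ht : t ≠ 0) {x y : F} {n m : ℤ} (hx : S.HasVal i t x n)
    (hy : S.HasVal i t y m) : S.HasVal i t (x / y) (n - m) := by
  rw [div_eq_mul_inv, sub_eq_add_neg]
  exact hx.mul ht hy.inv

theorem HasVal.zpow {x : F} {n : ℤ} (hx : S.HasVal i t x n) (k : ℤ) :
    S.HasVal i t (x ^ k) (n * k) := by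
  have e : x ^ k / t ^ (n * k) = (x / t ^ n) ^ k := by
    rw [div_zpow, ← zpow_mul]
  rw [HasVal, e]
  exact res_zpow_ne_zero hx k

theorem HasVal.pow {x : F} {n : ℤ} (hx : S.HasVal i t x n) (k : ℕ) :
    S.HasVal i t (x ^ k) (n * k) := by
  have := hx.zpow (k : ℤ)
  rwa [zpow_natCast] at this

theorem hasVal_self (ht : t ≠ 0) : S.HasVal i t t 1 := by
  rw [HasVal, zpow_one, div_self ht, res_one]
  exact one_ne_zero

theorem HasVal.unique (ht0 : t ≠ 0) (ht : t ∈ S.V i) (ht' : S.res i t = 0) {x : F} {n m : ℤ}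
    (hn : S.HasVal i t x n) (hm : S.HasVal i t x m) : n = m := by
  -- WLOG
  have key : ∀ k : ℕ, S.HasVal i t 1 (k : ℤ) → k = 0 := by
    intro k hk
    by_contra h0
    rw [HasVal, zpow_natCast] at hk
    have h1 := res_inv_ne_zero hk
    rw [one_div, inv_inv, res_pow ht, ht', zero_pow h0] at h1
    exact h1 rfl
  have hd := hn.div ht0 hm
  rw [div_self hn.ne_zero] at hd
  have hd' := hm.div ht0 hn
  rw [div_self hn.ne_zero] at hd'
  rcases le_total m n with h | h
  · obtain ⟨k, hk⟩ := Int.eq_ofNat_of_zero_le (sub_nonneg.2 h)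
    rw [hk] at hd
    have := key k hd
    omega
  · obtain ⟨k, hk⟩ := Int.eq_ofNat_of_zero_le (sub_nonneg.2 h)
    rw [hk] at hd'
    have := key k hd'
    omega

theorem HasVal.of_res {x : F} (h : S.res i x ≠ 0) : S.HasVal i t x 0 := hasVal_zero.2 h

theorem isUnif_q (he : S.e i = 1) : S.IsUnif i (q : F) := by
  refine ⟨q_mem S i, res_q S i, ?_⟩
  rw [he, pow_one, div_self S.q_ne, res_one]
  exact one_ne_zero

section norm

variable {F' : Type*} [Field F'] {ι' : Type*} {T : CompSys F' E q ι'} (N : F →*₀ F')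

/-- valuation of a norm, two components above -/
theorem norm_val {a b : ι} {c : ι'} {t : F} {Q : ℕ} (hQ : Q + 1 = q) (hQ0 : Q ≠ 0)
    (hN : ∀ x, x ∈ S.V a → x ∈ S.V b → N x ∈ T.V c ∧
      T.res c (N x) = S.res a x * S.res b x ^ Q)
    (hNq : N (q : F) = (q : F') ^ q) (hb : S.IsUnif b t) (heb : S.e b = Q) (hec : T.e c = 1)
    {x y : F} (hx0 : S.HasVal a (q : F) x 1) (hx1 : S.HasVal b t x 0)
    (hy0 : S.HasVal a (q : F) y 0) (hy1 : S.HasVal b t y 1)
    {f : F} {n₀ n₁ : ℤ} (h0 : S.HasVal a (q : F) f n₀) (h1 : S.HasVal b t f n₁) :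
    T.HasVal c (q : F') (N f) (n₀ + n₁) := by
  have hq := S.q_ne
  have hq' := T.q_ne
  have ht0 : t ≠ 0 := hb.ne_zero (by rw [heb]; exact hQ0)
  have hxa : x ∈ S.V a := by
    have := mul_mem (res_mul_ne hx0) (q_mem S a)
    rwa [zpow_one, div_mul_cancel₀ _ hq] at this
  have hxa0 : S.res a x = 0 := by
    have h2 := res_mul (res_mul_ne hx0) (q_mem S a)
    rwa [zpow_one, div_mul_cancel₀ _ hq, res_q, mul_zero] at h2
  have hxb : x ∈ S.V b := res_mul_ne (hasVal_zero.1 hx1)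
  have hya : y ∈ S.V a := res_mul_ne (hasVal_zero.1 hy0)
  have hyb : y ∈ S.V b := by
    have := mul_mem (res_mul_ne hy1) hb.1
    rwa [zpow_one, div_mul_cancel₀ _ ht0] at this
  have hyb0 : S.res b y = 0 := by
    have h2 := res_mul (res_mul_ne hy1) hb.1
    rwa [zpow_one, div_mul_cancel₀ _ ht0, hb.2.1, mul_zero] at h2
  have hNx : N x / (q : F') ∈ T.V c := by
    obtain ⟨i1, i2⟩ := hN x hxa hxb
    have := pow_div_mem i1 (by rw [i2, hxa0, zero_mul])
    rwa [hec, pow_one] at this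
  have hNy : N y / (q : F') ∈ T.V c := by
    obtain ⟨i1, i2⟩ := hN y hya hyb
    have := pow_div_mem i1 (by rw [i2, hyb0, zero_pow hQ0, mul_zero])
    rwa [hec, pow_one] at this
  -- the element `x y^Q / q`
  have hza : S.res a (x * y ^ Q / (q : F)) ≠ 0 := by
    have := hx0.mul hq (hy0.pow Q)
    rw [zero_mul, add_zero, HasVal, zpow_one] at this
    exact this
  have hzb : S.res b (x * y ^ Q / (q : F)) ≠ 0 := by
    have e : x * y ^ Q / (q : F) = x * ((y / t ^ (1 : ℤ)) ^ Q * (t ^ Q / (q : F))) := by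
      have := pow_ne_zero Q ht0
      rw [zpow_one, div_pow]
      field_simp
    rw [e]
    have h2 := hb.2.2
    rw [heb] at h2
    exact res_mul_ne_zero (hasVal_zero.1 hx1) (res_mul_ne_zero (res_pow_ne_zero hy1 _) h2)
  have hNz : T.res c (N (x * y ^ Q / (q : F))) ≠ 0 := by
    rw [(hN _ (res_mul_ne hza) (res_mul_ne hzb)).2]
    exact mul_ne_zero hza (pow_ne_zero _ hzb)
  have e : N (x * y ^ Q / (q : F)) = (N x / (q : F')) * (N y / (q : F')) ^ Q := by
    rw [map_div₀, map_mul, map_pow, hNq, ← hQ, pow_succ, div_pow]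
    rw [hQ]
    field_simp
  rw [e] at hNz
  obtain ⟨j1, j2⟩ := res_ne_zero_of_mul hNx (pow_mem hNy _) hNz
  have j3 := res_ne_zero_of_pow hQ0 j2
  have k1 : T.HasVal c (q : F') (N x) 1 := by rw [HasVal, zpow_one]; exact j1
  have k2 : T.HasVal c (q : F') (N y) 1 := by rw [HasVal, zpow_one]; exact j3
  -- general `f`
  have l0 : S.HasVal a (q : F) (f / (x ^ n₀ * y ^ n₁)) 0 := by
    have := h0.div hq ((hx0.zpow n₀).mul hq (hy0.zpow n₁))
    rwa [one_mul, zero_mul, add_zero, sub_self] at this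
  have l1 : S.HasVal b t (f / (x ^ n₀ * y ^ n₁)) 0 := by
    have := h1.div ht0 ((hx1.zpow n₀).mul ht0 (hy1.zpow n₁))
    rwa [zero_mul, one_mul, zero_add, sub_self] at this
  have l2 : T.HasVal c (q : F') (N (f / (x ^ n₀ * y ^ n₁))) 0 := by
    rw [hasVal_zero, (hN _ (res_mul_ne (hasVal_zero.1 l0)) (res_mul_ne (hasVal_zero.1 l1))).2]
    exact mul_ne_zero (hasVal_zero.1 l0) (pow_ne_zero _ (hasVal_zero.1 l1))
  have hx00 : x ≠ 0 := hx0.ne_zero
  have hy00 : y ≠ 0 := hy0.ne_zero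
  have l3 : N f = N (f / (x ^ n₀ * y ^ n₁)) * ((N x) ^ n₀ * (N y) ^ n₁) := by
    rw [← map_zpow₀, ← map_zpow₀, ← map_mul, ← map_mul, div_mul_cancel₀]
    exact mul_ne_zero (zpow_ne_zero _ hx00) (zpow_ne_zero _ hy00)
  rw [l3]
  have := l2.mul hq' ((k1.zpow n₀).mul hq' (k2.zpow n₁))
  rwa [zero_add, one_mul, one_mul] at this

/-- valuation of a norm, one component above, residue extension purely inseparable -/
theorem norm_val' {a : ι} {c : ι'} (φ : E →+* E)
    (hN : ∀ x, x ∈ S.V a → N x ∈ T.V c ∧ T.res c (N x) = φ (S.res a x))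
    (hNq : N (q : F) = (q : F') ^ q) {f : F} {n : ℤ} (h : S.HasVal a (q : F) f n) :
    T.HasVal c (q : F') (N f) (q * n) := by
  have hq := S.q_ne
  have hq' := T.q_ne
  have h1 : T.HasVal c (q : F') (N (f / (q : F) ^ n)) 0 := by
    rw [hasVal_zero, (hN _ (res_mul_ne h)).2, Ne, map_eq_zero]
    exact h
  have h2 : N f = N (f / (q : F) ^ n) * ((q : F') ^ (q * n : ℤ)) := by
    rw [map_div₀, map_zpow₀, hNq, zpow_mul, zpow_natCast, div_mul_cancel₀]
    exact zpow_ne_zero _ (pow_ne_zero _ hq')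
  rw [h2]
  have h3 : T.HasVal c (q : F') ((q : F') ^ (q * n : ℤ)) (q * n) := by
    have := (hasVal_self (S := T) (i := c) hq').zpow (q * n : ℤ)
    rwa [one_mul] at this
  have := h1.mul hq' h3
  rwa [zero_add] at this

end norm

end Fermat.Agent.H83.CompSys
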