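import Mathlib
import Fermat.Agent.H83Val

/-!
# Windings, part A: normalisation of the valuations
-/

set_option autoImplicit false

namespace Fermat.Agent.H83

open CompSys

/-- hypotheses on the base ring -/
structure BaseHyp {K k : Type*} [Field K] [Field k] (O : ValuationSubring K) (π : O →+* k)
    (q d : ℕ) : Prop where
  surj : Function.Surjective π
  isUnit : ∀ o : O, π o ≠ 0 → IsUnit o
  exists_zpow : ∀ c : K, c ≠ 0 → ∃ (n : ℤ) (o : O), π o ≠ 0 ∧ c = (q : K) ^ n * (o : K)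
  exists_root : ∀ o : O, π o ≠ 0 → ∃ r : O, r ^ d = o
  d_ne : (d : k) ≠ 0

/-- compatibility with constants -/
structure CompSys.Consts {K k F E : Type*} [Field K] [Field k] [Field F] [Field E] [Algebra k E]
    [Algebra K F] {q : ℕ} {ι : Type*} (S : CompSys F E q ι) (O : ValuationSubring K)
    (π : O →+* k) : Prop where
  hor : ∀ c : K, algebraMap K F c ∈ S.hor
  mem : ∀ i (o : O), algebraMap K F (o : K) ∈ S.V i
  res : ∀ i (o : O), S.res i (algebraMap K F (o : K)) = algebraMap k E (π o)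

section single

variable {K k F E : Type*} [Field K] [Field k] [Field F] [Field E] [Algebra k E]
    [Algebra K F] {q d : ℕ} {ι : Type*} {S : CompSys F E q ι} {O : ValuationSubring K}
    {π : O →+* k}

theorem BaseHyp.d_ne' (hO : BaseHyp O π q d) : d ≠ 0 := by
  intro h; exact hO.d_ne (by rw [h, Nat.cast_zero])

theorem CompSys.Consts.res_ne (hS : S.Consts O π) (i : ι) {o : O} (h : π o ≠ 0) :
    S.res i (algebraMap K F (o : K)) ≠ 0 := by
  rw [hS.res]
  exact (map_ne_zero _).2 h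

/-- a constant times a `d`-th power which is a unit at `i` is a `d`-th power -/
theorem exists_eq_pow (hO : BaseHyp O π q d) (hS : S.Consts O π) (hA : S.Arch) {i : ι}
    (he : S.e i = 1) {x g : F} {c : K} (hc : c ≠ 0) (hg : g ≠ 0)
    (hx : x = algebraMap K F c * g ^ d) (hr : S.res i x ≠ 0) : ∃ h : F, h ≠ 0 ∧ x = h ^ d := by
  have hq := S.q_ne
  obtain ⟨n, o, ho, rfl⟩ := hO.exists_zpow c hc
  obtain ⟨v, hv⟩ := exists_zpow (isUnif_q he) (by rw [he]; exact one_ne_zero) hA hg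
  have hv' : S.HasVal i (q : F) g v := hv
  have h1 : S.HasVal i (q : F) x (n + v * d) := by
    rw [hx, map_mul, map_zpow₀, map_natCast]
    have h2 := ((hasVal_self (S := S) (i := i) hq).zpow n).mul hq
      (HasVal.of_res (t := (q : F)) (hS.res_ne i ho))
    have h3 := h2.mul hq (hv'.pow d)
    rwa [one_mul, add_zero] at h3
  have h2 := h1.unique hq (q_mem S i) (res_q S i) (hasVal_zero.2 hr)
  obtain ⟨r, hr'⟩ := hO.exists_root o ho
  have hqK : (q : K) ≠ 0 := by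
    intro h0
    apply hq
    rw [← map_natCast (algebraMap K F), h0, map_zero]
  have hn : n = -v * d := by linarith
  have hr0 : (r : K) ≠ 0 := by
    intro h0
    have : r = 0 := Subtype.ext h0
    rw [this, zero_pow hO.d_ne'] at hr'
    rw [← hr', map_zero] at ho
    exact ho rfl
  refine ⟨algebraMap K F ((q : K) ^ (-v) * r) * g, ?_, ?_⟩
  · refine mul_ne_zero ((map_ne_zero _).2 (mul_ne_zero (zpow_ne_zero _ hqK) hr0)) hg
  · rw [hx, mul_pow, ← map_pow, mul_pow, hn, zpow_mul, zpow_natCast, ← hr']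
    rfl

end single

namespace ThreeData

variable {k E : Type*} [Field k] [Field E] [Algebra k E] {q : ℕ} {R : ResData k E q}
  {F' : Type*} [Field F'] {T : TwoData R F'} {F : Type*} [Field F] (S : ThreeData T F)

theorem qpos (T : TwoData R F') : 0 < q := Nat.pos_of_ne_zero (by
  rintro rfl; exact T.q_ne (by simp))

/-- `N_α` as a homomorphism of monoids with zero -/
def Nα₀ : F →*₀ F' where
  toFun := S.Nα
  map_one' := map_one _
  map_mul' := map_mul _
  map_zero' := by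
    have h := S.Nα_α 0
    rwa [map_zero, zero_pow (qpos T).ne'] at h

/-- `N_β` as a homomorphism of monoids with zero -/
def Nβ₀ : F →*₀ F' where
  toFun := S.Nβ
  map_one' := map_one _
  map_mul' := map_mul _
  map_zero' := by
    have h := S.Nβ_β 0
    rwa [map_zero, zero_pow (qpos T).ne'] at h

@[simp] theorem Nα₀_apply (x : F) : S.Nα₀ x = S.Nα x := rfl
@[simp] theorem Nβ₀_apply (x : F) : S.Nβ₀ x = S.Nβ x := rfl

theorem isUnif0 : S.IsUnif 0 (q : F) := isUnif_q S.e_zero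
theorem isUnif2 : S.IsUnif 2 (q : F) := isUnif_q S.e_two

theorem isUnif1 : S.IsUnif 1 S.w := by
  refine ⟨S.B_le_V 1 S.w_mem, S.res1_w, ?_⟩
  rw [S.e_one, S.res1_ω]
  exact neg_ne_zero.2 T.res0_delta_ne

/-- the uniformizers -/
def unif (S : ThreeData T F) : Fin 3 → F := ![(q : F), S.w, (q : F)]

theorem e_ne (i : Fin 3) : S.e i ≠ 0 := by
  have hq2 : 2 ≤ q := two_le_q' (T := T)
  fin_cases i
  · show S.e 0 ≠ 0
    rw [S.e_zero]; exact one_ne_zero
  · show S.e 1 ≠ 0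
    rw [S.e_one]; omega
  · show S.e 2 ≠ 0
    rw [S.e_two]; exact one_ne_zero

theorem isUnif (i : Fin 3) : S.IsUnif i (S.unif i) := by
  fin_cases i
  · exact S.isUnif0
  · exact S.isUnif1
  · exact S.isUnif2

theorem unif_ne (i : Fin 3) : S.unif i ≠ 0 := (S.isUnif i).ne_zero (S.e_ne i)

/-- elements which are units exactly at one component -/
def uu (S : ThreeData T F) : Fin 3 → F := ![S.β T.z, S.α T.z * S.β T.z', S.α T.z']

theorem R_X_ne (T : TwoData R F') : R.X - R.X ^ (q * q) ≠ 0 := by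
  intro h3
  have h4 : R.D (R.X - R.X ^ (q * q)) = 1 := by
    rw [map_sub, Derivation.leibniz_pow, R.D_X, smul_eq_mul, mul_one, nsmul_eq_mul]
    push_cast
    rw [T.cast_q]
    ring
  rw [h3, map_zero] at h4
  exact zero_ne_one h4

theorem Φ_ne {x : E} (hx : x ≠ 0) : R.Φ x ≠ 0 := (map_ne_zero _).2 hx

theorem uu_mem (i : Fin 3) : S.uu i ∈ S.B := by
  fin_cases i
  · exact S.β_mem_B T.z_mem
  · exact mul_mem (S.α_mem_B T.z_mem) (S.β_mem_B T.z'_mem)
  · exact S.α_mem_B T.z'_mem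

theorem uu_V (i j : Fin 3) : S.uu i ∈ S.V j := S.B_le_V j (S.uu_mem i)

theorem αV (j : Fin 3) {x : F'} (hx : x ∈ T.B) : S.α x ∈ S.V j := S.B_le_V j (S.α_mem_B hx)
theorem βV (j : Fin 3) {x : F'} (hx : x ∈ T.B) : S.β x ∈ S.V j := S.B_le_V j (S.β_mem_B hx)

theorem res_uu_self (i : Fin 3) : S.res i (S.uu i) ≠ 0 := by
  have hX := R_X_ne T
  fin_cases i
  · show S.res 0 (S.β T.z) ≠ 0
    rw [S.β_res0, T.res0_z]; exact Φ_ne hX
  · show S.res 1 (S.α T.z * S.β T.z') ≠ 0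
    rw [res_mul (S.αV 1 T.z_mem) (S.βV 1 T.z'_mem), S.α_res1, S.β_res1, T.res0_z, T.res1_z']
    exact mul_ne_zero hX hX
  · show S.res 2 (S.α T.z') ≠ 0
    rw [S.α_res2, T.res1_z']; exact Φ_ne hX

theorem res_uu_ne (i j : Fin 3) (hij : i ≠ j) : S.res j (S.uu i) = 0 := by
  fin_cases i <;> fin_cases j <;> first | exact absurd rfl hij | skip
  · show S.res 1 (S.β T.z) = 0
    rw [S.β_res1, T.res1_z]
  · show S.res 2 (S.β T.z) = 0
    rw [S.β_res2, T.res1_z]
  · show S.res 0 (S.α T.z * S.β T.z') = 0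
    rw [res_mul (S.αV 0 T.z_mem) (S.βV 0 T.z'_mem), S.β_res0, T.res0_z', map_zero, mul_zero]
  · show S.res 2 (S.α T.z * S.β T.z') = 0
    rw [res_mul (S.αV 2 T.z_mem) (S.βV 2 T.z'_mem), S.α_res2, T.res1_z, map_zero, zero_mul]
  · show S.res 0 (S.α T.z') = 0
    rw [S.α_res0, T.res0_z']
  · show S.res 1 (S.α T.z') = 0
    rw [S.α_res1, T.res0_z']

/-- weak approximation -/
theorem approx (hA : S.Arch) (a : Fin 3 → F) (ha : ∀ i, a i ≠ 0) :
    ∃ x : F, ∀ i, S.res i (x / a i) = 1 :=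
  exists_approx S.toCompSys hA S.e_ne S.uu S.uu_V S.res_uu_self
    (fun i j hij => S.res_uu_ne i j hij) a ha

/-- weak approximation, valuations -/
theorem approx_val (hA : S.Arch) (n : Fin 3 → ℤ) :
    ∃ x : F, ∀ i, S.HasVal i (S.unif i) x (n i) := by
  obtain ⟨x, hx⟩ := S.approx hA (fun i => S.unif i ^ n i) fun i => zpow_ne_zero _ (S.unif_ne i)
  refine ⟨x, fun i => ?_⟩
  rw [HasVal, hx]
  exact one_ne_zero

theorem Nα_q : S.Nα₀ (q : F) = (q : F') ^ q := by
  rw [Nα₀_apply, ← S.α_q, S.Nα_α]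

theorem Nβ_q : S.Nβ₀ (q : F) = (q : F') ^ q := by
  rw [Nβ₀_apply, ← S.β_q, S.Nβ_β]

section vals

variable (hA : S.Arch) {f : F} {n₀ n₁ n₂ : ℤ} (h0 : S.HasVal 0 (q : F) f n₀)
  (h1 : S.HasVal 1 S.w f n₁) (h2 : S.HasVal 2 (q : F) f n₂)

include hA h0 h1 in
theorem val_Nα_0 : T.HasVal 0 (q : F') (S.Nα f) (n₀ + n₁) := by
  have hq2 : 2 ≤ q := two_le_q' (T := T)
  obtain ⟨x, hx⟩ := S.approx_val hA ![1, 0, 0]
  obtain ⟨y, hy⟩ := S.approx_val hA ![0, 1, 0]
  exact norm_val (S := S.toCompSys) (T := T.toCompSys) S.Nα₀ (Q := q - 1) (by omega) (by omega)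
    (fun x h0 h1 => S.Nα_V0 x h0 h1) S.Nα_q S.isUnif1 S.e_one (T.e_eq 0) (hx 0) (hx 1)
    (hy 0) (hy 1) h0 h1

include hA h1 h2 in
theorem val_Nβ_1 : T.HasVal 1 (q : F') (S.Nβ f) (n₂ + n₁) := by
  have hq2 : 2 ≤ q := two_le_q' (T := T)
  obtain ⟨x, hx⟩ := S.approx_val hA ![0, 0, 1]
  obtain ⟨y, hy⟩ := S.approx_val hA ![0, 1, 0]
  exact norm_val (S := S.toCompSys) (T := T.toCompSys) S.Nβ₀ (Q := q - 1) (by omega) (by omega)
    (fun x h0 h1 => S.Nβ_V1 x h0 h1) S.Nβ_q S.isUnif1 S.e_one (T.e_eq 1) (hx 2) (hx 1)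
    (hy 2) (hy 1) h2 h1

include h2 in
theorem val_Nα_1 : T.HasVal 1 (q : F') (S.Nα f) (q * n₂) :=
  norm_val' (S := S.toCompSys) (T := T.toCompSys) S.Nα₀ R.φ.toRingHom
    (fun x h => S.Nα_V1 x h) S.Nα_q h2

include h0 in
theorem val_Nβ_0 : T.HasVal 0 (q : F') (S.Nβ f) (q * n₀) :=
  norm_val' (S := S.toCompSys) (T := T.toCompSys) S.Nβ₀ R.φ.toRingHom
    (fun x h => S.Nβ_V0 x h) S.Nβ_q h0

end vals

end ThreeData

end Fermat.Agent.H83
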