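import Fermat.Agent.H36Inj
import Fermat.Agent.H83WindA

set_option autoImplicit false
set_option linter.style.haveILetI false
set_option linter.unusedSectionVars false
set_option linter.unnecessarySimpa false
open Polynomial

namespace Fermat.Agent.H36

open H83 H83.CompSys

/-- `x ∈ chart K t` iff `x` is integral over the subalgebra generated by `t`. -/
lemma mem_chart_iff_adjoin {R F : Type*} [CommRing R] [Field F] [Algebra R F] {t x : F} :
    x ∈ chart R t ↔ IsIntegral (Algebra.adjoin R {t}) x := by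
  constructor
  · rintro ⟨f, hf, hfx⟩
    let ψ : R[X] →+* Algebra.adjoin R {t} := (evt R t).codRestrict (Algebra.adjoin R {t})
      (fun q => by
        rw [evt_apply]
        exact Polynomial.aeval_mem_adjoin_singleton R t)
    refine ⟨f.map ψ, hf.map _, ?_⟩
    rw [eval₂_map]
    exact hfx
  · rintro ⟨f, hf, hfx⟩
    letI := algT R t
    have h1 : ∀ z : Algebra.adjoin R {t}, ∃ p : R[X], evt R t p = z := by
      intro z
      obtain ⟨p, hp⟩ := (Algebra.adjoin_singleton_eq_range_aeval R t).le z.2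
      exact ⟨p, hp⟩
    -- `x` is integral over the subring
    have h2 : IsIntegral (evt R t).range x := by
      let φ : Algebra.adjoin R {t} →+* (evt R t).range :=
        (algebraMap (Algebra.adjoin R {t}) F).codRestrict _ (fun z => h1 z)
      refine ⟨f.map φ, hf.map _, ?_⟩
      rw [eval₂_map]
      exact hfx
    obtain ⟨g, hg, hgx⟩ := h2
    -- lift to `R[X]`
    have hs : Function.Surjective (evt R t).rangeRestrict := (evt R t).rangeRestrict_surjective
    obtain ⟨G, hG, -, hGm⟩ := lifts_and_natDegree_eq_and_monic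
      ((lifts_iff_coeff_lifts _).2 fun n => by
        rw [Set.mem_range]
        exact hs _ : g ∈ lifts (evt R t).rangeRestrict) hg
    refine ⟨G, hGm, ?_⟩
    change eval₂ (evt R t) x G = 0
    rw [← hG, eval₂_map] at hgx
    exact hgx

section Closed

variable {O : Type*} [CommRing O] {F : Type*} [Field F] [Algebra O F]

lemma chart_le_of_closed {R : Subring F} (hR : ∀ x : F, IsIntegral R x → x ∈ R)
    (hO : ∀ c : O, algebraMap O F c ∈ R) {t : F} (ht : t ∈ R) : chart O t ≤ R := by
  rintro x ⟨f, hf, hfx⟩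
  have h1 : ∀ p : O[X], evt O t p ∈ R := by
    intro p
    rw [evt_apply, aeval_eq_sum_range]
    refine sum_mem fun i _ => ?_
    rw [Algebra.smul_def]
    exact mul_mem (hO _) (pow_mem ht _)
  apply hR
  refine ⟨f.map ((evt O t).codRestrict R h1), hf.map _, ?_⟩
  rw [eval₂_map]
  exact hfx

end Closed

section Base

variable {K k : Type*} [Field K] [Field k] {O : ValuationSubring K} {π : O →+* k} {q d : ℕ}

lemma BaseHyp_pi_ne (hO : BaseHyp O π q d) {o : O} : π o ≠ 0 ↔ IsUnit o := by
  refine ⟨hO.isUnit o, fun h => ?_⟩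
  exact (h.map π).ne_zero

lemma BaseHyp_irreducible (hO : BaseHyp O π q d) (hq : π (q : O) = 0) (hq0 : (q : K) ≠ 0) :
    Irreducible (q : O) ∧ ∀ o : O, o ≠ 0 → ∃ n : ℕ, Associated ((q : O) ^ n) o := by
  have hcoe : (((q : O)) : K) = (q : K) := by simp
  have key : ∀ o : O, o ≠ 0 → ∃ (n : ℕ) (u : O), π u ≠ 0 ∧ o = (q : O) ^ n * u := by
    intro o ho
    have ho' : (o : K) ≠ 0 := fun h => ho (Subtype.ext h)
    obtain ⟨n, u, hu, h⟩ := hO.exists_zpow _ ho'
    rcases lt_or_ge n 0 with hn | hn
    · exfalso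
      obtain ⟨m, hm⟩ : ∃ m : ℕ, n = -((m : ℤ) + 1) := ⟨(-n - 1).toNat, by omega⟩
      apply hu
      have h1 : u = (q : O) ^ (m + 1) * o := by
        apply Subtype.ext
        have e : ((((q : O)) ^ (m + 1) * o : O) : K) = (q : K) ^ (m + 1) * o := by simp
        rw [e, h, hm, zpow_neg, ← mul_assoc]
        have h2 : ((q : K) ^ ((m : ℤ) + 1)) = (q : K) ^ (m + 1) := by
          rw [← zpow_natCast]; push_cast; rfl
        rw [h2, mul_inv_cancel₀ (pow_ne_zero _ hq0), one_mul]
      rw [h1, map_mul, map_pow, hq, zero_pow (by omega), zero_mul]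
    · refine ⟨n.toNat, u, hu, ?_⟩
      apply Subtype.ext
      have e : ((((q : O)) ^ n.toNat * u : O) : K) = (q : K) ^ n.toNat * u := by simp
      rw [e, h, ← zpow_natCast, Int.toNat_of_nonneg hn]
  have hirr : Irreducible (q : O) := by
    refine ⟨fun h => (h.map π).ne_zero hq, fun {a b} hab => ?_⟩
    have hq0' : (q : O) ≠ 0 := by
      intro h
      apply hq0
      rw [← hcoe, h]
      rfl
    have ha0 : a ≠ 0 := by rintro rfl; exact hq0' (by rw [hab, zero_mul])
    have hb0 : b ≠ 0 := by rintro rfl; exact hq0' (by rw [hab, mul_zero])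
    obtain ⟨n, u, hu, ha⟩ := key a ha0
    obtain ⟨m, v, hv, hb⟩ := key b hb0
    rcases Nat.eq_zero_or_pos n with rfl | hn
    · left
      rw [ha, pow_zero, one_mul]
      exact hO.isUnit u hu
    · rcases Nat.eq_zero_or_pos m with rfl | hm
      · right
        rw [hb, pow_zero, one_mul]
        exact hO.isUnit v hv
      · exfalso
        -- `q = q^(n+m) u v`
        obtain ⟨n, rfl⟩ : ∃ n', n = n' + 1 := ⟨n - 1, by omega⟩
        obtain ⟨m, rfl⟩ : ∃ m', m = m' + 1 := ⟨m - 1, by omega⟩
        have h1 : (q : O) * ((q : O) ^ (n + m + 1) * (u * v)) = (q : O) * 1 := by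
          rw [mul_one]
          conv_rhs => rw [hab, ha, hb]
          ring
        have h2 := mul_left_cancel₀ hq0' h1
        have h3 := congrArg π h2
        rw [map_mul, map_pow, hq, zero_pow (by omega), zero_mul, map_one] at h3
        exact zero_ne_one h3
  refine ⟨hirr, fun o ho => ?_⟩
  obtain ⟨n, u, hu, rfl⟩ := key o ho
  obtain ⟨v, rfl⟩ := hO.isUnit u hu
  exact ⟨n, v, rfl⟩

lemma BaseHyp_dvr (hO : BaseHyp O π q d) (hq : π (q : O) = 0) (hq0 : (q : K) ≠ 0) :
    IsDiscreteValuationRing O := by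
  obtain ⟨h1, h2⟩ := BaseHyp_irreducible hO hq hq0
  exact IsDiscreteValuationRing.ofHasUnitMulPowIrreducibleFactorization ⟨_, h1, fun {x} hx => h2 x hx⟩

end Base

section Root

/-- roots of power series -/
theorem exists_root_series {K : Type*} [Field K] {m : ℕ} (hm : (m : K) ≠ 0) (f : PowerSeries K)
    (hf : PowerSeries.constantCoeff f ≠ 0) {a : K} (ha : a ^ m = PowerSeries.constantCoeff f) :
    ∃ g : PowerSeries K, g ^ m = f := by
  have hm0 : m ≠ 0 := by rintro rfl; exact hm (by simp)
  have ha0 : a ≠ 0 := by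
    rintro rfl
    rw [zero_pow hm0] at ha
    exact hf ha.symm
  have hH : HenselianRing (PowerSeries K) (Ideal.span {PowerSeries.X}) := inferInstance
  have hX : ∀ g : PowerSeries K, g ∈ Ideal.span {(PowerSeries.X : PowerSeries K)} ↔
      PowerSeries.constantCoeff g = 0 := by
    intro g
    rw [Ideal.mem_span_singleton, PowerSeries.X_dvd_iff]
  obtain ⟨g, hg, -⟩ := hH.is_henselian (Polynomial.X ^ m - Polynomial.C f)
    (Polynomial.monic_X_pow_sub_C f hm0) (PowerSeries.C a)
    (by
      rw [hX]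
      simp [ha])
    (by
      have h1 : (Polynomial.derivative (Polynomial.X ^ m - Polynomial.C f :
          Polynomial (PowerSeries K))).eval (PowerSeries.C a) =
          PowerSeries.C ((m : K) * a ^ (m - 1)) := by
        simp [Polynomial.derivative_X_pow]
      rw [h1]
      apply IsUnit.map
      exact (PowerSeries.isUnit_iff_constantCoeff.mpr (by
        simpa using (mul_ne_zero hm (pow_ne_zero _ ha0)).isUnit)))
  refine ⟨g, ?_⟩
  have : g ^ m - f = 0 := by simpa [Polynomial.IsRoot] using hg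
  exact sub_eq_zero.mp this

end Root

section Adapter

variable {K k F E : Type*} [Field K] [Field k] [Field F] [Field E] [Algebra k E]
    [Algebra K F] {q d : ℕ} {ι : Type*} (S : CompSys F E q ι) {O : ValuationSubring K}
    {π : O →+* k}

variable (k) in
/-- `f` is, locally at every maximal ideal of the chart on the special fibre, a unit times a
`d`-th power `h ^ d`, where the residues of `h` along all the components through the point take
the same value at the point. -/
def TrivWind (d : ℕ) (f : F) : Prop :=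
  ∀ m : Ideal S.B, m.IsMaximal → S.qB ∈ m →
    ∃ (h : F) (a b : S.B), h ≠ 0 ∧ a ∉ m ∧ b ∉ m ∧ f * b = h ^ d * a ∧
      ∃ c : k, ∀ i, S.p i ≤ m →
        ∃ x z : S.B, x ∉ m ∧ z ∈ m ∧ (S.res i h - algebraMap k E c) * S.res i x = S.res i z

variable {S}

lemma valuation_lt_iff {i : ι} {x : F} :
    (S.V i).valuation x < 1 ↔ x ∈ S.V i ∧ S.res i x = 0 := by
  constructor
  · intro h
    have hx : x ∈ S.V i := by rw [← (S.V i).valuation_le_one_iff]; exact h.le
    refine ⟨hx, ?_⟩
    by_contra hne
    rw [S.res_of_mem hx] at hne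
    have hu := S.ρ_unit i _ hne
    have := (S.V i).valuation_eq_one_iff ⟨x, hx⟩
    exact h.ne (this.1 hu)
  · rintro ⟨hx, h0⟩
    refine lt_of_le_of_ne (((S.V i).valuation_le_one_iff x).2 hx) fun h1 => ?_
    have hu := ((S.V i).valuation_eq_one_iff ⟨x, hx⟩).2 h1
    rw [S.res_of_mem hx] at h0
    exact (hu.map (S.ρ i)).ne_zero h0

variable [Algebra O F] [IsScalarTower O K F]

lemma algebraMap_O (o : O) : algebraMap O F o = algebraMap K F (o : K) :=
  IsScalarTower.algebraMap_apply O K F o

/-- residues of polynomials in `t` -/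
lemma res_aeval (cS : S.Consts O π) {t : F} {i : ι} (ht : t ∈ S.V i) (p : O[X]) :
    aeval t p ∈ S.V i ∧ S.res i (aeval t p) = aeval (S.res i t) (p.map π) := by
  induction p using Polynomial.induction_on' with
  | add p r hp hr =>
    simp only [map_add, Polynomial.map_add]
    exact ⟨add_mem hp.1 hr.1, by rw [res_add hp.1 hr.1, hp.2, hr.2]⟩
  | monomial n a =>
    simp only [aeval_monomial, Polynomial.map_monomial]
    rw [algebraMap_O]
    refine ⟨mul_mem (cS.mem i a) (pow_mem ht n), ?_⟩
    rw [res_mul (cS.mem i a) (pow_mem ht n), cS.res, res_pow ht]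

lemma prim_map_ne [IsDiscreteValuationRing O] {p : O[X]} (hp : Prim O p) :
    p.map π ≠ 0 := by
  intro h
  apply hp
  ext n
  rw [coeff_map, coeff_zero, IsLocalRing.residue_eq_zero_iff]
  have h1 := congrArg (fun z => coeff z n) h
  simp only [coeff_map, coeff_zero] at h1
  intro hu
  exact (hu.map π).ne_zero h1

lemma self_mem_V {t : F} {i : ι} (htr : Transcendental k (S.res i t)) : t ∈ S.V i := by
  apply res_mul_ne
  intro h
  rw [h] at htr
  exact htr isAlgebraic_zero

lemma chart_le_B (cS : S.Consts O π) {t : F} (hhor : ∀ x, x ∈ S.hor ↔ x ∈ chart K t)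
    (htr : ∀ i, t ∈ S.V i) {x : F} (hx : x ∈ chart O t) : x ∈ S.B := by
  rw [S.mem_B]
  refine ⟨(hhor x).2 (chart_le_chartK O K t hx), fun i => ?_⟩
  refine chart_le_of_closed (R := (S.V i).toSubring) ?_ (fun c => ?_) (htr i) hx
  · intro y hy
    obtain ⟨z, hz⟩ := (IsIntegrallyClosed.isIntegral_iff (R := S.V i) (K := F)).1 hy
    rw [← hz]
    exact z.2
  · rw [algebraMap_O]
    exact cS.mem i c

lemma mem_gs_iff_V [IsDiscreteValuationRing O] (cS : S.Consts O π)
    {t : F} (ht : Transcendental K t) [FiniteDimensional (IntermediateField.adjoin K {t}) F]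
    (hhor : ∀ x, x ∈ S.hor ↔ x ∈ chart K t)
    (hB : ∀ x ∈ S.B, x ∈ chart O t) (htr : ∀ i, Transcendental k (S.res i t)) (x : F) :
    x ∈ gs O t ↔ ∀ i, x ∈ S.V i := by
  have hprim : ∀ (p : O[X]), Prim O p → ∀ i, S.res i (aeval t p) ≠ 0 := by
    intro p hp i
    rw [(res_aeval cS (self_mem_V (htr i)) p).2]
    intro h
    exact prim_map_ne (π := π) hp (by
      by_contra h0
      exact htr i ⟨_, h0, h⟩)
  constructor
  · rintro ⟨p, hp, h⟩ i
    have h1 := B_le_V S i (chart_le_B cS hhor (fun i => self_mem_V (htr i)) h)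
    have h2 := mul_mem (inv_mem (hprim p hp i)) h1
    rwa [← mul_assoc, inv_mul_cancel₀, one_mul] at h2
    intro h0
    exact hprim p hp i (by rw [h0, res_zero])
  · intro h
    obtain ⟨ϖ, hϖ⟩ := IsDiscreteValuationRing.exists_irreducible O
    obtain ⟨n, hn⟩ := exists_pow_mul_mem_gs (K := K) hϖ ht x
    obtain ⟨p, hp, h1⟩ := hn
    refine ⟨p, hp, hB _ ?_⟩
    rw [S.mem_B]
    refine ⟨?_, fun i => mul_mem (res_aeval cS (self_mem_V (htr i)) p).1 (h i)⟩
    rw [hhor]
    have h2 := chart_le_chartK O K t h1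
    have h0 : algebraMap K F (ϖ : K) ≠ 0 := by
      rw [Ne, map_eq_zero]
      intro h
      exact hϖ.ne_zero (Subtype.ext h)
    have h3 : aeval t p * x = algebraMap K F ((ϖ : K)⁻¹ ^ n) *
        (aeval t p * (algebraMap O F ϖ ^ n * x)) := by
      rw [algebraMap_O, map_pow, map_inv₀, inv_pow]
      field_simp
    rw [h3]
    exact mul_mem (algebraMap_mem_chart K t _) h2

/-- A root in the Laurent series field exists. -/
lemma exists_laurent_root [CharZero K] (hO : BaseHyp O π q d)
    (cS : S.Consts O π) [IsDiscreteValuationRing O] (hqO : π (q : O) = 0) {τ : F} (p : RatPoint K τ)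
    (hB : ∀ x ∈ S.B, x ∈ chart O τ)
    {f : F} (hw : TrivWind k S d f) : ∃ Y : LaurentSeries K, Y ^ d = p.e f := by
  classical
  have hBK : ∀ x ∈ S.B, x ∈ chart K τ := fun x hx => chart_le_chartK O K τ (hB x hx)
  choose v hv using fun x : S.B => p.ev_mem_range (O := O) (hB x.1 x.2)
  have hvc : ∀ x : S.B, ((v x : O) : K) = p.ev (x : F) := hv
  let φ : S.B →+* k :=
    { toFun := fun x => π (v x)
      map_one' := by
        have : v 1 = 1 := Subtype.ext (by rw [hvc]; simpa using p.ev_one)
        rw [this, map_one]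
      map_mul' := fun x y => by
        have : v (x * y) = v x * v y := Subtype.ext (by
          push_cast
          rw [hvc, hvc, hvc, Subring.coe_mul, p.ev_mul (hBK _ x.2) (hBK _ y.2)])
        rw [this, map_mul]
      map_zero' := by
        have : v 0 = 0 := Subtype.ext (by rw [hvc]; simpa using p.ev_zero)
        rw [this, map_zero]
      map_add' := fun x y => by
        have : v (x + y) = v x + v y := Subtype.ext (by
          push_cast
          rw [hvc, hvc, hvc, Subring.coe_add, p.ev_add])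
        rw [this, map_add] }
  have hφ : ∀ x, φ x = π (v x) := fun _ => rfl
  have hφs : Function.Surjective φ := by
    intro c
    obtain ⟨o, rfl⟩ := hO.surj c
    have hm : algebraMap K F (o : K) ∈ S.B := by
      rw [S.mem_B]
      exact ⟨cS.hor _, fun i => cS.mem i o⟩
    refine ⟨⟨_, hm⟩, ?_⟩
    rw [hφ]
    congr 1
    apply Subtype.ext
    rw [hvc, p.ev_algebraMap]
  have hmax : (RingHom.ker φ).IsMaximal := RingHom.ker_isMaximal_of_surjective φ hφs
  obtain ⟨h, a, b, h0, ha, hb, hfab, -⟩ := hw _ hmax (by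
    rw [RingHom.mem_ker, hφ]
    have : v S.qB = (q : O) := by
      apply Subtype.ext
      rw [hvc, S.coe_qB, ← map_natCast (algebraMap K F), p.ev_algebraMap]
      simp
    rw [this, hqO])
  have hdK : (d : K) ≠ 0 := Nat.cast_ne_zero.2 hO.d_ne'
  have hroot : ∀ x : S.B, x ∉ RingHom.ker φ → ∃ g : LaurentSeries K, g ^ d = p.e (x : F) := by
    intro x hx
    rw [RingHom.mem_ker, hφ] at hx
    obtain ⟨Q, hQ⟩ := p.exists_powerSeries (hBK _ x.2)
    obtain ⟨r, hr⟩ := hO.exists_root _ hx
    have hc : PowerSeries.constantCoeff Q = (v x : K) := by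
      rw [hvc, p.ev_eq hQ, PowerSeries.coeff_zero_eq_constantCoeff_apply]
    obtain ⟨g, hg⟩ := exists_root_series hdK Q (a := (r : K)) (by
      rw [hc]
      intro h
      apply hx
      have : v x = 0 := Subtype.ext h
      rw [this, map_zero]) (by
      rw [hc, ← hr]
      simp)
    refine ⟨(g : LaurentSeries K), ?_⟩
    rw [hQ, ← hg, PowerSeries.coe_pow]
  obtain ⟨ga, hga⟩ := hroot a ha
  obtain ⟨gb, hgb⟩ := hroot b hb
  have hgb0 : gb ≠ 0 := by
    rintro rfl
    rw [zero_pow hO.d_ne'] at hgb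
    have hb0 : (b : F) = 0 := (map_eq_zero _).1 hgb.symm
    apply hb
    have : b = 0 := Subtype.ext hb0
    rw [this]
    exact zero_mem _
  refine ⟨p.e h * ga / gb, ?_⟩
  rw [div_pow, mul_pow, hga, hgb, ← map_pow, ← map_mul, ← hfab, map_mul, mul_div_assoc, div_self,
    mul_one]
  rw [← hgb]
  exact pow_ne_zero _ hgb0

/-- local condition for `inj` from `TrivWind` -/
lemma locCond_of_trivWind (hO : BaseHyp O π q d) (cS : S.Consts O π)
    [IsDiscreteValuationRing O] {t : F}
    (hB : S.B = chart O t) {f : F}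
    (hf : ∀ i, S.res i f = 1) (hw : TrivWind k S d f) :
    LocCond S.V (q : O) f d (chart O t) := by
  rw [← hB]
  intro m hm hqm
  obtain ⟨h, a, b, h0, ha, hb, hfab, c, hc⟩ := hw m hm (hqm _ (by
    rw [S.coe_qB, algebraMap_O]; simp))
  have hmem : ∀ o : O, algebraMap K F (o : K) ∈ S.B := fun o => by
    rw [S.mem_B]
    exact ⟨cS.hor _, fun i => cS.mem i o⟩
  have hple : ∀ i, (∀ z : S.B, (S.V i).valuation (z : F) < 1 → z ∈ m) → S.p i ≤ m := by
    intro i hi z hz
    exact hi z (valuation_lt_iff.2 ⟨B_le_V S i z.2, S.mem_p_iff.1 hz⟩)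
  have hunit : ∀ i, S.p i ≤ m → ∀ z : S.B, z ∉ m → S.res i (z : F) ≠ 0 := by
    intro i hi z hz h
    exact hz (hi (S.mem_p_iff.2 h))
  have hfV : ∀ i, f ∈ S.V i := fun i => res_mul_ne (by rw [hf]; exact one_ne_zero)
  have hhV : ∀ i, S.p i ≤ m → h ∈ S.V i := by
    intro i hi
    rw [← pow_mem_iff (n := d) hO.d_ne']
    have h1 : h ^ d = f * b / a := by
      rw [hfab, mul_div_assoc, div_self, mul_one]
      intro ha0
      exact hunit i hi a ha (by rw [ha0, res_zero])
    rw [h1]
    exact div_mem (mul_mem (hfV i) (B_le_V S i b.2)) (hunit i hi a ha)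
  by_cases hex : ∃ i, S.p i ≤ m
  · obtain ⟨i0, hi0⟩ := hex
    -- `c ≠ 0`
    have hc0 : c ≠ 0 := by
      rintro rfl
      obtain ⟨x, z, hx, hz, hxz⟩ := hc i0 hi0
      rw [map_zero, sub_zero] at hxz
      -- `x^d f b = (x h)^d a`
      have h1 : S.res i0 ((x : F) ^ d * b) = S.res i0 ((z : F) ^ d * a) := by
        have hxV := B_le_V S i0 x.2
        have hzV := B_le_V S i0 z.2
        have hbV := B_le_V S i0 b.2
        have haV := B_le_V S i0 a.2
        rw [res_mul (pow_mem hxV _) hbV, res_mul (pow_mem hzV _) haV, res_pow hxV, res_pow hzV,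
          ← hxz]
        have h2 := congrArg (S.res i0) hfab
        rw [res_mul (hfV i0) hbV, res_mul (pow_mem (hhV i0 hi0) _) haV, res_pow (hhV i0 hi0), hf,
          one_mul] at h2
        rw [h2]
        ring
      have h3 : x ^ d * b - z ^ d * a ∈ m := by
        apply hi0
        rw [S.mem_p_iff]
        push_cast
        rw [res_sub (mul_mem (pow_mem (B_le_V S i0 x.2) _) (B_le_V S i0 b.2))
          (mul_mem (pow_mem (B_le_V S i0 z.2) _) (B_le_V S i0 a.2)), h1, sub_self]
      have h4 : z ^ d * a ∈ m := m.mul_mem_right _ (m.pow_mem_of_mem hz d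
        (Nat.pos_of_ne_zero hO.d_ne'))
      have h5 : x ^ d * b ∈ m := by
        have := add_mem h3 h4
        rwa [sub_add_cancel] at this
      rcases hm.isPrime.mem_or_mem h5 with h6 | h6
      · exact hx (hm.isPrime.mem_of_pow_mem _ h6)
      · exact hb h6
    obtain ⟨o, ho⟩ := hO.surj c
    have hou : IsUnit o := hO.isUnit o (by rw [ho]; exact hc0)
    obtain ⟨u, rfl⟩ := hou
    refine ⟨h, a, b, ((u⁻¹ : Oˣ) : O), ⟨_, hmem ((u⁻¹ : Oˣ) : O)⟩, h0, ha, hb, hfab,
      (algebraMap_O _).symm, ?_⟩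
    intro i hi
    have hi' := hple i hi
    obtain ⟨x, z, hx, hz, hxz⟩ := hc i hi'
    set cB : S.B := ⟨_, hmem (u : O)⟩ with hcB
    have huu : (⟨_, hmem ((u⁻¹ : Oˣ) : O)⟩ : S.B) * cB = 1 := by
      apply Subtype.ext
      rw [hcB]
      push_cast
      rw [← map_mul]
      have : (((u⁻¹ : Oˣ) : O) : K) * ((u : O) : K) = 1 := by
        exact congrArg (fun z : O => (z : K)) (Units.inv_mul u)
      rw [this, map_one]
    have hcBm : cB ∉ m := by
      intro hm'
      apply hm.ne_top
      rw [Ideal.eq_top_iff_one, ← huu]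
      exact m.mul_mem_left _ hm'
    refine ⟨x, z + cB * x, ?_, ?_, ?_⟩
    · intro hs
      have h1 : cB * x ∈ m := by
        have := sub_mem hs hz
        rwa [add_sub_cancel_left] at this
      rcases hm.isPrime.mem_or_mem h1 with h2 | h2
      · exact hcBm h2
      · exact hx h2
    · rw [valuation_lt_iff]
      have hxV := B_le_V S i x.2
      have hzV := B_le_V S i z.2
      have hcV := B_le_V S i cB.2
      have hsV : (((z + cB * x : S.B)) : F) ∈ S.V i := B_le_V S i (z + cB * x).2
      refine ⟨sub_mem (mul_mem hxV (hhV i hi')) hsV, ?_⟩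
      rw [res_sub (mul_mem hxV (hhV i hi')) hsV, res_mul hxV (hhV i hi')]
      push_cast
      rw [res_add hzV (mul_mem hcV hxV), res_mul hcV hxV, ← hxz]
      have : S.res i (cB : F) = algebraMap k E c := by
        rw [← ho]; exact cS.res i _
      rw [this]
      ring
    · have e : x - (⟨_, hmem ((u⁻¹ : Oˣ) : O)⟩ : S.B) * (z + cB * x) =
          -((⟨_, hmem ((u⁻¹ : Oˣ) : O)⟩ : S.B) * z) := by
        linear_combination -x * huu
      rw [e]
      exact neg_mem (m.mul_mem_left _ hz)
  · refine ⟨h, a, b, 1, ⟨_, hmem 1⟩, h0, ha, hb, hfab, (algebraMap_O _).symm, ?_⟩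
    intro i hi
    exact absurd ⟨i, hple i hi⟩ hex

/-- **INJ for chart systems.** `S`, `S'` are the systems of the two charts `t`, `t⁻¹`. -/
theorem inj_compSys [CharZero K] [Finite ι] [Nonempty ι] (hO : BaseHyp O π q d)
    (hqO : π (q : O) = 0) {ζ : K} (hζ : IsPrimitiveRoot ζ d) (S' : CompSys F E q ι)
    (hVV : ∀ i x, x ∈ S'.V i ↔ x ∈ S.V i) (hres : ∀ i x, S'.res i x = S.res i x)
    (cS : S.Consts O π) (cS' : S'.Consts O π)
    {t : F} (ht : Transcendental K t) [FiniteDimensional (IntermediateField.adjoin K {t}) F]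
    (p : RatPoint K t⁻¹) (htr : ∀ i, Transcendental k (S.res i t))
    (hhor : ∀ x, x ∈ S.hor ↔ x ∈ chart K t) (hhor' : ∀ x, x ∈ S'.hor ↔ x ∈ chart K t⁻¹)
    (hB : ∀ x ∈ S.B, x ∈ chart O t) (hB' : ∀ x ∈ S'.B, x ∈ chart O t⁻¹)
    {f : F} (hf : ∀ i, S.res i f = 1) (hw : TrivWind k S d f) (hw' : TrivWind k S' d f) :
    ∃ y : F, y ^ d = f := by
  have hqK : (q : K) ≠ 0 := by
    intro h
    apply S.q_ne
    rw [← map_natCast (algebraMap K F), h, map_zero]
  haveI := BaseHyp_dvr hO hqO hqK
  have hirr := (BaseHyp_irreducible hO hqO hqK).1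
  have htV : ∀ i, t ∈ S.V i := fun i => self_mem_V (htr i)
  have hti : ∀ i, t⁻¹ ∈ S'.V i := by
    intro i
    rw [hVV]
    apply CompSys.inv_mem
    intro h
    have := htr i
    rw [h] at this
    exact this isAlgebraic_zero
  have hBe : S.B = chart O t :=
    le_antisymm (fun x hx => hB x hx) (fun x hx => chart_le_B cS hhor htV hx)
  have hBe' : S'.B = chart O t⁻¹ :=
    le_antisymm (fun x hx => hB' x hx) (fun x hx => chart_le_B cS' hhor' hti hx)
  obtain ⟨Y, hY⟩ := exists_laurent_root hO cS' hqO p hB' hw'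
  have hdO : IsUnit ((d : ℕ) : O) := by
    apply hO.isUnit
    rw [map_natCast]
    exact hO.d_ne
  have hζO : ζ ∈ O := by
    rcases O.mem_or_inv_mem ζ with h | h
    · exact h
    · have h2 := pow_mem h (d - 1)
      have h3 : ζ⁻¹ ^ (d - 1) = ζ := by
        rw [inv_pow]
        apply inv_eq_of_mul_eq_one_left
        rw [← pow_succ', Nat.sub_add_cancel (Nat.one_le_iff_ne_zero.2 hO.d_ne'), hζ.pow_eq_one]
      rwa [h3] at h2
  have hζ' : IsPrimitiveRoot (⟨ζ, hζO⟩ : O) d := by
    refine IsPrimitiveRoot.of_map_of_injective (f := O.subtype) ?_ Subtype.val_injective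
    exact hζ
  have hloc' : LocCond S.V (q : O) f d (chart O t⁻¹) := by
    have h1 := locCond_of_trivWind (S := S') hO cS' hBe' (f := f)
      (fun i => by rw [hres]; exact hf i) hw'
    have h2 : S'.V = S.V := by
      funext i
      ext x
      exact hVV i x
    rwa [h2] at h1
  refine inj ht p S.V (mem_gs_iff_V cS ht hhor hB htr) ?_ hdO hζ' ?_ hirr
    (locCond_of_trivWind hO cS hBe hf hw) hloc' hY
  · intro i g z hg
    obtain ⟨hgV, hg0⟩ := valuation_lt_iff.1 hg
    obtain ⟨n, hn⟩ := exists_pow_mul_mem_gs (K := K) hirr ht z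
    have h1 := (mem_gs_iff_V cS ht hhor hB htr _).1 hn i
    have h2 := pow_div_mem hgV hg0
    refine ⟨S.e i * n, ?_⟩
    have e : g ^ (S.e i * n) * z = (g ^ (S.e i) / (q : F)) ^ n * (algebraMap O F (q : O) ^ n * z) := by
      have hq := S.q_ne
      have e2 : algebraMap O F (q : O) = (q : F) := by
        rw [algebraMap_O]
        have : (((q : O)) : K) = (q : K) := by simp
        rw [this, map_natCast]
      rw [e2, div_pow, pow_mul]
      field_simp
    rw [e]
    exact mul_mem (pow_mem h2 _) h1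
  · intro i
    rw [valuation_lt_iff]
    have hfV : f ∈ S.V i := res_mul_ne (by rw [hf]; exact one_ne_zero)
    refine ⟨sub_mem hfV (one_mem _), ?_⟩
    rw [res_sub hfV (one_mem _), hf, res_one, sub_self]

end Adapter

end Fermat.Agent.H36
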