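/-
H31Cyclo: action of Frobenius and inertia on roots of unity of order prime to the residue
characteristic.
-/
import Fermat.Prelude.Def_EllipticCurve_FrobeniusTrace
import Mathlib.RingTheory.RootsOfUnity.PrimitiveRoots
import Mathlib.Tactic

set_option autoImplicit false

namespace Fermat.Agent.H31

section

variable {L : Type*} [Field L] (A : ValuationSubring L)

theorem natCast_notMem_nonunits_of_coprime {ℓ n : ℕ} (hA : A.LiesOverPrime ℓ)
    (h : Nat.Coprime ℓ n) : (n : L) ∉ A.nonunits := by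
  intro hn
  obtain ⟨a, b, hab⟩ := Nat.isCoprime_iff_coprime.mpr h
  have hℓ : (ℓ : L) ∈ A.nonunits := hA
  rw [A.mem_nonunits_iff_exists_mem_maximalIdeal] at hn hℓ
  obtain ⟨hn1, hn2⟩ := hn
  obtain ⟨hℓ1, hℓ2⟩ := hℓ
  have h1 : (1 : A) ∈ IsLocalRing.maximalIdeal A := by
    have e : (1 : A) = (a : A) * ⟨(ℓ : L), hℓ1⟩ + (b : A) * ⟨(n : L), hn1⟩ := by
      apply Subtype.ext
      have := congrArg (Int.cast : ℤ → L) hab
      push_cast at this ⊢
      exact this.symm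
    rw [e]
    exact Ideal.add_mem _ (Ideal.mul_mem_left _ _ hℓ2) (Ideal.mul_mem_left _ _ hn2)
  exact (Ideal.ne_top_iff_one _).mp (IsLocalRing.maximalIdeal.isMaximal A).ne_top h1

/-- An `n`-th root of unity which is `≡ 1` modulo the maximal ideal is `1`
if `n` is prime to the residue characteristic. -/
theorem eq_one_of_pow_eq_one_of_residue_eq_one {ℓ n : ℕ} (hA : A.LiesOverPrime ℓ)
    (h : Nat.Coprime ℓ n) (η : A) (hη : η ^ n = 1)
    (h1 : IsLocalRing.residue A η = 1) : η = 1 := by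
  by_contra hne
  have hsum : (∑ i ∈ Finset.range n, η ^ i) = 0 := by
    have h2 := geom_sum_mul η n
    rw [hη, sub_self] at h2
    exact (mul_eq_zero.mp h2).resolve_right (sub_ne_zero.mpr hne)
  have h3 := congrArg (IsLocalRing.residue A) hsum
  rw [map_sum, map_zero] at h3
  simp only [map_pow, h1, one_pow, Finset.sum_const, Finset.card_range, nsmul_eq_mul, mul_one] at h3
  have h4 : (n : A) ∈ IsLocalRing.maximalIdeal A := by
    rw [← IsLocalRing.residue_eq_zero_iff, map_natCast]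
    exact h3
  apply natCast_notMem_nonunits_of_coprime A hA h
  rw [A.mem_nonunits_iff_exists_mem_maximalIdeal]
  refine ⟨by simp, ?_⟩
  have e : ∀ h : (n : L) ∈ A, (⟨(n : L), h⟩ : A) = (n : A) := fun _ => Subtype.ext (by simp)
  rw [e]
  exact h4

theorem mem_of_pow_eq_one {n : ℕ} (hn : 0 < n) {ζ : L} (hζ : ζ ^ n = 1) : ζ ∈ A := by
  rcases A.mem_or_inv_mem ζ with h | h
  · exact h
  · have : ζ = (ζ⁻¹) ^ (n - 1) := by
      have hζ0 : ζ ≠ 0 := by rintro rfl; simp [hn.ne'] at hζ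
      rw [inv_pow, eq_comm, inv_eq_iff_eq_inv, ← one_div, eq_div_iff hζ0, ← pow_succ,
        Nat.sub_add_cancel hn, hζ]
    rw [this]
    exact pow_mem h _

/-- Frobenius elements raise roots of unity of order prime to `ℓ` to the `ℓ`-th power. -/
theorem frobenius_apply_rootOfUnity {K : Type*} [Field K] [Algebra K L] {ℓ n : ℕ}
    (hA : A.LiesOverPrime ℓ) (h : Nat.Coprime ℓ n) (hn : 0 < n) {φ : L ≃ₐ[K] L}
    (hφ : A.IsFrobeniusAt φ ℓ) {ζ : L} (hζ : ζ ^ n = 1) : φ ζ = ζ ^ ℓ := by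
  have hζA : ζ ∈ A := mem_of_pow_eq_one A hn hζ
  have hζ0 : ζ ≠ 0 := by rintro rfl; simp [hn.ne'] at hζ
  have hφζA : φ ζ ∈ A := mem_of_pow_eq_one A hn (by rw [← map_pow, hζ, map_one])
  have hinvA : (ζ ^ ℓ)⁻¹ ∈ A := mem_of_pow_eq_one A hn (by
    rw [inv_pow, ← pow_mul, mul_comm, pow_mul, hζ, one_pow, inv_one])
  let z : A := ⟨ζ, hζA⟩
  let w : A := ⟨(ζ ^ ℓ)⁻¹, hinvA⟩
  have hzw : z ^ ℓ * w = 1 := Subtype.ext (mul_inv_cancel₀ (pow_ne_zero _ hζ0))
  have hres : IsLocalRing.residue A ⟨φ ζ, hφζA⟩ = IsLocalRing.residue A z ^ ℓ := by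
    have h1 := hφ.smul_residue_eq (IsLocalRing.residue A z)
    rw [← IsLocalRing.ResidueField.residue_smul] at h1
    exact h1
  have h2 : (⟨φ ζ, hφζA⟩ * w : A) = 1 := by
    refine eq_one_of_pow_eq_one_of_residue_eq_one A hA h _ ?_ ?_
    · apply Subtype.ext
      show (φ ζ * (ζ ^ ℓ)⁻¹) ^ n = 1
      rw [mul_pow, ← map_pow, hζ, map_one, inv_pow, ← pow_mul, mul_comm ℓ, pow_mul, hζ, one_pow,
        inv_one, one_mul]
    · rw [map_mul, hres, ← map_pow, ← map_mul, hzw, map_one]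
  have h3 : φ ζ * (ζ ^ ℓ)⁻¹ = 1 := congrArg Subtype.val h2
  rw [mul_inv_eq_one₀ (pow_ne_zero _ hζ0)] at h3
  exact h3

/-- Inertia fixes roots of unity of order prime to the residue characteristic. -/
theorem inertia_apply_rootOfUnity {K : Type*} [Field K] [Algebra K L] {q n : ℕ}
    (hA : A.LiesOverPrime q) (h : Nat.Coprime q n) (hn : 0 < n) {τ : L ≃ₐ[K] L}
    (hτ : τ ∈ A.inertiaSubgroupIn K) {ζ : L} (hζ : ζ ^ n = 1) : τ ζ = ζ := by
  have hζA : ζ ∈ A := mem_of_pow_eq_one A hn hζ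
  have hζ0 : ζ ≠ 0 := by rintro rfl; simp [hn.ne'] at hζ
  have hφζA : τ ζ ∈ A := mem_of_pow_eq_one A hn (by rw [← map_pow, hζ, map_one])
  have hinvA : ζ⁻¹ ∈ A := mem_of_pow_eq_one A hn (by rw [inv_pow, hζ, inv_one])
  obtain ⟨⟨τ', hτ'⟩, hmem, rfl⟩ := hτ
  let z : A := ⟨ζ, hζA⟩
  let w : A := ⟨ζ⁻¹, hinvA⟩
  have hzw : z * w = 1 := Subtype.ext (mul_inv_cancel₀ hζ0)
  have hres : IsLocalRing.residue A ⟨τ' ζ, hφζA⟩ = IsLocalRing.residue A z := by
    have h1 : (⟨τ', hτ'⟩ : A.decompositionSubgroup K) • (IsLocalRing.residue A z) =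
        IsLocalRing.residue A z := by
      have h0 := (MonoidHom.mem_ker).mp hmem
      have := congrArg (fun f => f (IsLocalRing.residue A z)) h0
      exact this
    rw [← IsLocalRing.ResidueField.residue_smul] at h1
    exact h1
  have h2 : (⟨τ' ζ, hφζA⟩ * w : A) = 1 := by
    refine eq_one_of_pow_eq_one_of_residue_eq_one A hA h _ ?_ ?_
    · apply Subtype.ext
      show (τ' ζ * ζ⁻¹) ^ n = 1
      rw [mul_pow, ← map_pow, hζ, map_one, inv_pow, hζ, inv_one, one_mul]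
    · rw [map_mul, hres, ← map_mul, hzw, map_one]
  have h3 : τ' ζ * ζ⁻¹ = 1 := congrArg Subtype.val h2
  rw [mul_inv_eq_one₀ hζ0] at h3
  exact h3

end

end Fermat.Agent.H31
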