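/-
General library: places of an algebraic extension of `ℚ`, existence of places over a prime and of
Frobenius elements at every place.
-/
import Mathlib
import Fermat.Prelude.Def_EllipticCurve_FrobeniusTrace

set_option autoImplicit false

open scoped Pointwise
open Polynomial

namespace Fermat.Agent.H70

variable {L : Type*} [Field L]

/-- There is a valuation subring lying over every prime. -/
theorem exists_liesOverPrime [CharZero L] {ℓ : ℕ} (hℓ : ℓ.Prime) :
    ∃ A : ValuationSubring L, A.LiesOverPrime ℓ := by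
  let R : Subring L := (Int.castRingHom L).range
  let I : Ideal R := Ideal.span {((ℓ : R))}
  have hI : I ≠ ⊤ := by
    intro h
    have hu : IsUnit ((ℓ : R)) := Ideal.span_singleton_eq_top.mp h
    obtain ⟨⟨y, hy⟩, hy1⟩ := isUnit_iff_exists_inv.mp hu
    obtain ⟨m, rfl⟩ := hy
    have h2 := congrArg Subtype.val hy1
    simp only [Subring.coe_mul, Subring.coe_natCast, Subring.coe_one, eq_intCast] at h2
    have h3 : ((ℓ : ℤ) * m : ℤ) = 1 := by exact_mod_cast h2
    have h4 : (ℓ : ℤ) ∣ 1 := ⟨m, h3.symm⟩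
    have h5 : (ℓ : ℤ) ≤ 1 := Int.le_of_dvd one_pos h4
    have := hℓ.two_le
    omega
  obtain ⟨B, -, hB⟩ := Ideal.image_subset_nonunits_valuationSubring I hI
  refine ⟨B, ?_⟩
  have := hB ⟨(ℓ : R), Ideal.subset_span rfl, rfl⟩
  simpa [ValuationSubring.LiesOverPrime] using this

theorem aeval_divX_iterate_eq (f : ℤ[X]) (x : L) (k : ℕ) :
    aeval x (divX^[k] f) = aeval x (divX^[k+1] f) * x + algebraMap ℤ L (f.coeff k) := by
  have h : (divX^[k] f) = divX (divX^[k] f) * X + C ((divX^[k] f).coeff 0) :=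
    (divX_mul_X_add _).symm
  have hc : ∀ (k i : ℕ), (divX^[k] f).coeff i = f.coeff (i + k) := by
    intro k
    induction k with
    | zero => intro i; simp
    | succ k ih => intro i; rw [Function.iterate_succ_apply', coeff_divX, ih]; congr 1; ring
  rw [hc, zero_add] at h
  conv_lhs => rw [h]
  rw [Function.iterate_succ_apply', map_add, map_mul, aeval_X, aeval_C]

/-- Horner tails of an integer polynomial evaluated at a root are integral. -/
theorem isIntegral_aeval_divX_iterate {f : ℤ[X]} {x : L} (hf : aeval x f = 0) (k : ℕ) :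
    IsIntegral ℤ (aeval x (divX^[k] f)) := by
  by_contra hz
  let R : Subring L := (integralClosure ℤ L).toSubring
  have hR : IsIntegrallyClosedIn R L := by
    exact inferInstanceAs (IsIntegrallyClosedIn (integralClosure ℤ L) L)
  have hz' : aeval x (divX^[k] f) ∉ R := hz
  obtain ⟨V, hRV, hV⟩ := Subring.exists_le_valuationSubring_of_isIntegrallyClosedIn hz'
  apply hV
  have hint : ∀ m : ℤ, (algebraMap ℤ L m) ∈ V := fun m => hRV (by
    show (algebraMap ℤ L m) ∈ integralClosure ℤ L
    exact Subalgebra.algebraMap_mem _ m)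
  rcases V.mem_or_inv_mem x with hx | hx
  · -- polynomial in x
    rw [aeval_eq_sum_range]
    refine sum_mem fun i _ => ?_
    rw [Algebra.smul_def]
    exact mul_mem (hint _) (pow_mem hx i)
  · by_cases hx0 : x = 0
    · subst hx0
      rw [aeval_eq_sum_range]
      refine sum_mem fun i _ => ?_
      rw [Algebra.smul_def]
      exact mul_mem (hint _) (pow_mem (zero_mem _) i)
    clear hz hz' hV
    induction k with
    | zero => simp [hf]
    | succ k ih =>
      have h := aeval_divX_iterate_eq f x k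
      have h2 : aeval x (divX^[k+1] f) = (aeval x (divX^[k] f) - algebraMap ℤ L (f.coeff k)) * x⁻¹ := by
        rw [h]; field_simp; ring
      rw [h2]
      exact mul_mem (sub_mem ih (hint _)) hx

/-- A valuation subring of an algebraic extension of `ℚ` is the localisation of the ring of integers
at the trace of its maximal ideal. -/
theorem exists_integral_mul_of_mem [Algebra ℚ L] [Algebra.IsAlgebraic ℚ L] (A : ValuationSubring L)
    {x : L} (hx : x ∈ A) :
    ∃ s : L, IsIntegral ℤ s ∧ s ∈ A ∧ s ∉ A.nonunits ∧ IsIntegral ℤ (s * x) := by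
  have : CharZero L := algebraRat.charZero L
  have hint : ∀ m : ℤ, (algebraMap ℤ L m) ∈ A := fun m => by simp
  -- get a primitive polynomial
  obtain ⟨f, hf0, hf⟩ : ∃ f : ℤ[X], f ≠ 0 ∧ aeval x f = 0 := by
    have : Algebra.IsAlgebraic ℤ L := by
      exact (IsFractionRing.comap_isAlgebraic_iff (A := ℤ) (K := ℚ) (C := L)).mpr inferInstance
    obtain ⟨f, hf0, hf⟩ := Algebra.IsAlgebraic.isAlgebraic (R := ℤ) x
    exact ⟨f, hf0, hf⟩
  obtain ⟨g, hg, hgx⟩ : ∃ g : ℤ[X], g.IsPrimitive ∧ aeval x g = 0 := by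
    refine ⟨f.primPart, f.isPrimitive_primPart, ?_⟩
    exact Polynomial.aeval_primPart_eq_zero hf0 hf
  by_contra hcon
  push Not at hcon
  -- every tail is in nonunits
  have hb : ∀ k, aeval x (divX^[k+1] g) ∈ A.nonunits := by
    intro k
    by_contra hk
    refine hcon (aeval x (divX^[k+1] g)) (isIntegral_aeval_divX_iterate hgx _) ?_ hk ?_
    · rw [aeval_eq_sum_range]
      refine sum_mem fun i _ => ?_
      rw [Algebra.smul_def]
      exact mul_mem (hint _) (pow_mem hx i)
    · have h := aeval_divX_iterate_eq g x k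
      have h2 : aeval x (divX^[k+1] g) * x = aeval x (divX^[k] g) - algebraMap ℤ L (g.coeff k) := by
        rw [h]; ring
      rw [h2]
      exact (isIntegral_aeval_divX_iterate hgx _).sub isIntegral_algebraMap
  -- hence every coefficient of `g` is in the maximal ideal
  have hb' : ∀ k, aeval x (divX^[k] g) ∈ A.nonunits := by
    intro k
    cases k with
    | zero =>
      rw [Function.iterate_zero, id, hgx]
      exact zero_mem _
    | succ k => exact hb k
  have hmul : ∀ y ∈ A.nonunits, y * x ∈ A.nonunits := by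
    intro y hy
    rw [A.mem_nonunits_iff_exists_mem_maximalIdeal] at hy
    obtain ⟨hyA, hy⟩ := hy
    have := Ideal.mul_mem_right (⟨x, hx⟩ : A) _ hy
    exact ValuationSubring.coe_mem_nonunits_iff.mpr this
  have hcoeff : ∀ k, algebraMap ℤ L (g.coeff k) ∈ A.nonunits := by
    intro k
    have h := aeval_divX_iterate_eq g x k
    have h2 : algebraMap ℤ L (g.coeff k) =
        aeval x (divX^[k] g) - aeval x (divX^[k+1] g) * x := by
      rw [h]; ring
    rw [h2]
    exact sub_mem (hb' k) (hmul _ (hb k))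
  let I : Ideal ℤ := (IsLocalRing.maximalIdeal A).comap (algebraMap ℤ A)
  have hI : ∀ k, g.coeff k ∈ I := by
    intro k
    have h1 := hcoeff k
    rw [A.mem_nonunits_iff_exists_mem_maximalIdeal] at h1
    obtain ⟨h1, h2⟩ := h1
    rw [Ideal.mem_comap]
    convert h2 using 1
    apply Subtype.ext
    simp
  obtain ⟨d, hd⟩ := (IsPrincipalIdealRing.principal I).principal
  have hdvd : C d ∣ g := by
    rw [C_dvd_iff_dvd_coeff]
    intro k
    have := hI k
    rw [hd] at this
    exact Ideal.mem_span_singleton.mp this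
  have hu : IsUnit d := hg d hdvd
  have htop : I = ⊤ := by
    rw [hd]
    exact Ideal.span_singleton_eq_top.mpr hu
  have : (1 : ℤ) ∈ I := htop ▸ Submodule.mem_top
  rw [Ideal.mem_comap, map_one] at this
  exact (Ideal.ne_top_iff_one _).mp (IsLocalRing.maximalIdeal.isMaximal A).ne_top this

/-- membership in a valuation subring is determined by the integral elements of its maximal ideal -/
theorem mem_iff_exists_integral [Algebra ℚ L] [Algebra.IsAlgebraic ℚ L] (A : ValuationSubring L)
    {x : L} : x ∈ A ↔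
    ∃ s : L, IsIntegral ℤ s ∧ s ∉ A.nonunits ∧ IsIntegral ℤ (s * x) := by
  constructor
  · intro hx
    obtain ⟨s, h1, -, h3, h4⟩ := exists_integral_mul_of_mem A hx
    exact ⟨s, h1, h3, h4⟩
  · rintro ⟨s, -, h3, h4⟩
    rw [A.mem_nonunits_iff_or, not_or, not_not] at h3
    have h5 : s * x ∈ A := by
      obtain ⟨y, hy⟩ := IsIntegrallyClosed.isIntegral_iff (R := A) (K := L) |>.mp
        (h4.tower_top (A := A))
      rw [← hy]
      exact y.2
    have : x = s⁻¹ * (s * x) := by
      rw [← mul_assoc, inv_mul_cancel₀ h3.1, one_mul]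
    rw [this]
    exact mul_mem h3.2 h5

/-- The prime of the ring of integers cut out by a valuation subring. -/
noncomputable def primeOf (A : ValuationSubring L) : Ideal (integralClosure ℤ L) :=
  (IsLocalRing.maximalIdeal A).comap
    (RingHom.codRestrict (algebraMap (integralClosure ℤ L) L) A.toSubring (fun y => by
      obtain ⟨z, hz⟩ := IsIntegrallyClosed.isIntegral_iff (R := A) (K := L) |>.mp
        (y.2.tower_top (A := A))
      have : (algebraMap (integralClosure ℤ L) L) y = z := hz.symm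
      rw [this]
      exact z.2))

theorem mem_primeOf (A : ValuationSubring L) (y : integralClosure ℤ L) :
    y ∈ primeOf A ↔ (y : L) ∈ A.nonunits := by
  rw [primeOf, Ideal.mem_comap, ← ValuationSubring.coe_mem_nonunits_iff]
  rfl

instance (A : ValuationSubring L) : (primeOf A).IsPrime := by
  rw [primeOf]; infer_instance

theorem smul_eq_of_smul_primeOf_eq [Algebra ℚ L] [Algebra.IsAlgebraic ℚ L] (A : ValuationSubring L)
    (g : L ≃ₐ[ℚ] L) (hg : g • primeOf A = primeOf A) : g • A = A := by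
  have key : ∀ (B : ValuationSubring L) (h : L ≃ₐ[ℚ] L), h • primeOf B = primeOf B → 
      ∀ x ∈ B, h x ∈ B := by
    intro B h hh x hx
    obtain ⟨s, h1, h2, h3⟩ := (mem_iff_exists_integral B).mp hx
    rw [mem_iff_exists_integral]
    refine ⟨h s, h1.map (h.toAlgHom.restrictScalars ℤ), ?_, ?_⟩
    · intro hn
      apply h2
      have h4 : (⟨h s, h1.map (h.toAlgHom.restrictScalars ℤ)⟩ : integralClosure ℤ L) ∈ primeOf B := by
        rw [mem_primeOf]; exact hn
      rw [← hh] at h4
      rw [Ideal.pointwise_smul_eq_comap, Ideal.mem_comap] at h4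
      rw [mem_primeOf] at h4
      convert h4 using 1
      show s = h⁻¹ (h s)
      exact (h.symm_apply_apply s).symm
    · rw [← map_mul]
      exact h3.map (h.toAlgHom.restrictScalars ℤ)
  have hginv : g⁻¹ • primeOf A = primeOf A := by
    conv_lhs => rw [← hg]
    rw [inv_smul_smul]
  ext x
  rw [ValuationSubring.mem_smul_pointwise_iff_exists]
  constructor
  · rintro ⟨s, hs, rfl⟩
    exact key A g hg s hs
  · intro hx
    refine ⟨g⁻¹ x, key A g⁻¹ hginv x hx, ?_⟩
    exact g.apply_symm_apply x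

/-! ### Invariance and topology -/

instance isInvariant_integralClosure [Algebra ℚ L] [IsGalois ℚ L] :
    Algebra.IsInvariant ℤ (integralClosure ℤ L) (L ≃ₐ[ℚ] L) := by
  constructor
  intro b hb
  have h1 : (b : L) ∈ Set.range (algebraMap ℚ L) := by
    rw [InfiniteGalois.mem_range_algebraMap_iff_fixed]
    intro g
    exact congrArg Subtype.val (hb g)
  obtain ⟨q, hq⟩ := h1
  have h2 : IsIntegral ℤ q := by
    rw [← isIntegral_algebraMap_iff (FaithfulSMul.algebraMap_injective ℚ L), hq]
    exact b.2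
  obtain ⟨m, hm⟩ := IsIntegrallyClosed.isIntegral_iff.mp h2
  refine ⟨m, ?_⟩
  apply Subtype.ext
  rw [← hq, ← hm]
  simp

theorem natCast_mem_primeOf {A : ValuationSubring L} {ℓ : ℕ}
    (hA : A.LiesOverPrime ℓ) : (ℓ : integralClosure ℤ L) ∈ primeOf A := by
  rw [mem_primeOf]
  simpa [ValuationSubring.LiesOverPrime] using hA

instance liesOver_primeOf (A : ValuationSubring L) (ℓ : ℕ) [hℓ : Fact ℓ.Prime]
    [hA : Fact (A.LiesOverPrime ℓ)] : (primeOf A).LiesOver (Ideal.span {(ℓ : ℤ)}) := by
  constructor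
  have hmax : (Ideal.span {(ℓ : ℤ)}).IsMaximal := by
    apply PrincipalIdealRing.isMaximal_of_irreducible
    exact (Nat.prime_iff_prime_int.mp hℓ.out).irreducible
  apply hmax.eq_of_le
  · exact (Ideal.IsPrime.under ℤ (primeOf A)).ne_top
  · rw [Ideal.span_singleton_le_iff_mem, Ideal.mem_comap]
    simpa using natCast_mem_primeOf hA.out

theorem exists_frobenius [Algebra ℚ L] [IsGalois ℚ L]
    (A : ValuationSubring L) {ℓ : ℕ} (hℓ : ℓ.Prime) (hA : A.LiesOverPrime ℓ) :
    ∃ σ : L ≃ₐ[ℚ] L, A.IsFrobeniusAt σ ℓ := by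
  have : Fact ℓ.Prime := ⟨hℓ⟩
  have : Fact (A.LiesOverPrime ℓ) := ⟨hA⟩
  have : CharZero L := algebraRat.charZero L
  let : TopologicalSpace (integralClosure ℤ L) := ⊥
  have : DiscreteTopology (integralClosure ℤ L) := ⟨rfl⟩
  have : ContinuousSMul (L ≃ₐ[ℚ] L) (integralClosure ℤ L) := by
    rw [continuousSMul_iff_stabilizer_isOpen]
    intro x
    have h := stabilizer_isOpen_of_isIntegral (K := ℚ) (x : L)
    convert h using 2
    ext g
    simp only [MulAction.mem_stabilizer_iff]
    exact Subtype.ext_iff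
  -- the Frobenius of the residue ring
  let P : Ideal ℤ := Ideal.span {(ℓ : ℤ)}
  let Q : Ideal (integralClosure ℤ L) := primeOf A
  have hmaxP : P.IsMaximal := by
    apply PrincipalIdealRing.isMaximal_of_irreducible
    exact (Nat.prime_iff_prime_int.mp hℓ).irreducible
  have hQmax : Q.IsMaximal := Ideal.isMaximal_of_isIntegral_of_isMaximal_comap Q (by
    have := Ideal.LiesOver.over (p := P) (P := Q)
    rw [← Ideal.under, ← this]
    exact hmaxP)
  let : Field (integralClosure ℤ L ⧸ Q) := Ideal.Quotient.field Q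
  have hchar : CharP (integralClosure ℤ L ⧸ Q) ℓ := by
    rw [CharP.charP_iff_prime_eq_zero hℓ]
    rw [← map_natCast (Ideal.Quotient.mk Q), Ideal.Quotient.eq_zero_iff_mem]
    exact natCast_mem_primeOf hA
  let : Algebra (ZMod ℓ) (integralClosure ℤ L ⧸ Q) := ZMod.algebra _ ℓ
  have : Algebra.IsIntegral ℤ (integralClosure ℤ L ⧸ Q) := inferInstance
  have : Algebra.IsIntegral (ZMod ℓ) (integralClosure ℤ L ⧸ Q) :=
    Algebra.IsIntegral.tower_top ℤ
  have : Algebra.IsAlgebraic (ZMod ℓ) (integralClosure ℤ L ⧸ Q) := Algebra.IsIntegral.isAlgebraic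
  have : PerfectField (integralClosure ℤ L ⧸ Q) := Algebra.IsAlgebraic.perfectField (ZMod ℓ)
  have : PerfectRing (integralClosure ℤ L ⧸ Q) ℓ := PerfectField.toPerfectRing ℓ
  let e : (integralClosure ℤ L ⧸ Q) ≃ₐ[ℤ ⧸ P] (integralClosure ℤ L ⧸ Q) :=
    AlgEquiv.ofRingEquiv (f := frobeniusEquiv (integralClosure ℤ L ⧸ Q) ℓ) (fun r => by
      obtain ⟨n, rfl⟩ := Ideal.Quotient.mk_surjective r
      have h1 : algebraMap (ℤ ⧸ P) (integralClosure ℤ L ⧸ Q) (Ideal.Quotient.mk P n) = (n : integralClosure ℤ L ⧸ Q) := by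
        simp
      rw [h1, map_intCast])
  obtain ⟨τ, hτ⟩ := Ideal.Quotient.stabilizerHom_surjective_of_profinite (G := L ≃ₐ[ℚ] L) P Q e
  have hfrobO : ∀ y : integralClosure ℤ L, τ.1 • y - y ^ ℓ ∈ Q := by
    intro y
    rw [← Ideal.Quotient.eq]
    have h1 : Ideal.Quotient.stabilizerHom Q P (L ≃ₐ[ℚ] L) τ (Ideal.Quotient.mk Q y) =
      Ideal.Quotient.mk Q (τ.1 • y) := rfl
    rw [← h1, hτ, map_pow]
    rfl
  have hstab : τ.1 • A = A := smul_eq_of_smul_primeOf_eq A τ.1 τ.2
  refine ⟨τ.1, hstab, ?_⟩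
  intro x
  obtain ⟨a, rfl⟩ := IsLocalRing.residue_surjective x
  let d : A.decompositionSubgroup ℚ := ⟨τ.1, hstab⟩
  -- integral elements
  have hfrobA : ∀ (y : A), IsIntegral ℤ (y : L) →
      IsLocalRing.residue A (d • y) = IsLocalRing.residue A y ^ ℓ := by
    intro y hy
    have h1 := hfrobO ⟨(y : L), hy⟩
    rw [mem_primeOf, ValuationSubring.mem_nonunits_iff_exists_mem_maximalIdeal] at h1
    obtain ⟨h2, h3⟩ := h1
    rw [← map_pow, ← sub_eq_zero, ← map_sub, IsLocalRing.residue_eq_zero_iff]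
    exact h3
  obtain ⟨s, h1, hsA, h3, h4⟩ := exists_integral_mul_of_mem A a.2
  have e1 := hfrobA ⟨s, hsA⟩ h1
  have e2 := hfrobA (⟨s, hsA⟩ * a) h4
  have hs0 : IsLocalRing.residue A ⟨s, hsA⟩ ≠ 0 := by
    intro h0
    rw [IsLocalRing.residue_eq_zero_iff] at h0
    exact h3 (ValuationSubring.coe_mem_nonunits_iff.mpr h0)
  rw [smul_mul', map_mul, e1, map_mul, mul_pow] at e2
  have e3 := mul_left_cancel₀ (pow_ne_zero ℓ hs0) e2
  rw [← e3]
  rfl


/-! `ℚ̄` with the `DivisionRing.toRatAlgebra` structure (the one picked up by the frozen files). -/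

instance isAlgebraic_rat_algebraicClosure : Algebra.IsAlgebraic ℚ (AlgebraicClosure ℚ) :=
  AlgebraicClosure.isAlgebraic ℚ

instance isAlgClosure_rat_algebraicClosure : IsAlgClosure ℚ (AlgebraicClosure ℚ) :=
  ⟨inferInstance, inferInstance⟩

instance isGalois_rat_algebraicClosure : IsGalois ℚ (AlgebraicClosure ℚ) := inferInstance

/-- Convenience form: over every prime there is a place of `ℚ̄` and a Frobenius element at it. -/
theorem exists_place_frobenius {ℓ : ℕ} (hℓ : ℓ.Prime) :
    ∃ (A : ValuationSubring (AlgebraicClosure ℚ))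
      (σ : AlgebraicClosure ℚ ≃ₐ[ℚ] AlgebraicClosure ℚ),
      A.LiesOverPrime ℓ ∧ A.IsFrobeniusAt σ ℓ := by
  obtain ⟨A, hA⟩ := exists_liesOverPrime (L := AlgebraicClosure ℚ) hℓ
  obtain ⟨σ, hσ⟩ := exists_frobenius A hℓ hA
  exact ⟨A, σ, hA, hσ⟩

end Fermat.Agent.H70
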