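import Mathlib
import Fermat.Agent.H31Cyclo
import Fermat.Agent.H70Frob

/-!
# S19-E (E1): inertia-invariant integral constants surject onto the residue field (helper1)
-/

set_option autoImplicit false

open Polynomial

namespace Fermat.Agent.H1

section Residue

variable {L : Type*} [Field L] [Algebra ℚ L] [Algebra.IsAlgebraic ℚ L]
  (A : ValuationSubring L) {ℓ : ℕ} [Fact ℓ.Prime] (hA : A.LiesOverPrime ℓ)
  {k : Type*} [Field k] (π : A →+* k) [IsLocalHom π]

set_option linter.unusedSectionVars false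

include hA π in
theorem natCast_eq_zero_of_liesOver : (ℓ : k) = 0 := by
  have hℓ : (ℓ : L) ∈ A.nonunits := hA
  rw [A.mem_nonunits_iff_exists_mem_maximalIdeal] at hℓ
  obtain ⟨h1, h2⟩ := hℓ
  have e : (⟨(ℓ : L), h1⟩ : A) = (ℓ : A) := Subtype.ext (by simp)
  rw [e] at h2
  have h3 : ¬ IsUnit (π (ℓ : A)) := by
    intro hu
    have := (isUnit_map_iff π _).mp hu
    exact (IsLocalRing.mem_maximalIdeal _).mp h2 this
  rw [map_natCast, isUnit_iff_ne_zero, not_not] at h3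
  exact h3

include hA π in
theorem charP_of_liesOver : CharP k ℓ :=
  (CharP.charP_iff_prime_eq_zero (Fact.out : ℓ.Prime)).mpr (natCast_eq_zero_of_liesOver A hA π)

/-- The residue field is algebraic over the prime field. -/
theorem isIntegral_residue (hπ : Function.Surjective π) (x : k) :
    ∃ y z : k, IsIntegral ℤ y ∧ IsIntegral ℤ z ∧ z ≠ 0 ∧ z * x = y := by
  obtain ⟨a, rfl⟩ := hπ x
  obtain ⟨s, hs, hsA, hsn, hsa⟩ := H70.exists_integral_mul_of_mem A a.2
  have hs' : IsIntegral ℤ (⟨s, hsA⟩ : A) :=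
    (isIntegral_algebraMap_iff (A := A) (B := L) (R := ℤ) A.subtype_injective).mp hs
  have hsa' : IsIntegral ℤ ((⟨s, hsA⟩ : A) * a) :=
    (isIntegral_algebraMap_iff (A := A) (B := L) (R := ℤ) A.subtype_injective).mp hsa
  refine ⟨π (⟨s, hsA⟩ * a), π ⟨s, hsA⟩, hsa'.map π.toIntAlgHom, hs'.map π.toIntAlgHom, ?_, ?_⟩
  · intro h0
    apply hsn
    rw [A.mem_nonunits_iff_exists_mem_maximalIdeal]
    refine ⟨hsA, ?_⟩
    rw [IsLocalRing.mem_maximalIdeal]
    intro hu
    exact (hu.map π).ne_zero h0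
  · rw [map_mul]

include hA in
theorem exists_pow_eq_one_residue (hπ : Function.Surjective π) (x : k) (hx : x ≠ 0) :
    ∃ n, 0 < n ∧ Nat.Coprime ℓ n ∧ x ^ n = 1 := by
  have hchar : CharP k ℓ := charP_of_liesOver A hA π
  let _ : Algebra (ZMod ℓ) k := ZMod.algebra k ℓ
  have hint : ∀ y : k, IsIntegral ℤ y → IsIntegral (ZMod ℓ) y := fun y hy => hy.tower_top
  have halg : IsIntegral (ZMod ℓ) x := by
    obtain ⟨y, z, hy, hz, hz0, h⟩ := isIntegral_residue A π hπ x
    have h1 : IsAlgebraic (ZMod ℓ) y := (hint y hy).isAlgebraic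
    have h2 : IsAlgebraic (ZMod ℓ) z := (hint z hz).isAlgebraic
    have h3 : x = z⁻¹ * y := by rw [← h, ← mul_assoc, inv_mul_cancel₀ hz0, one_mul]
    rw [← isAlgebraic_iff_isIntegral, h3]
    exact h2.inv.mul h1
  let K' := IntermediateField.adjoin (ZMod ℓ) {x}
  have : FiniteDimensional (ZMod ℓ) K' := IntermediateField.adjoin.finiteDimensional halg
  have : Finite K' := Module.finite_of_finite (ZMod ℓ)
  have := Fintype.ofFinite K'
  let x' : K' := ⟨x, IntermediateField.mem_adjoin_simple_self (ZMod ℓ) x⟩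
  have hx' : x' ≠ 0 := fun h => hx (congrArg Subtype.val h)
  have h1 : x' ^ (Fintype.card K' - 1) = 1 := FiniteField.pow_card_sub_one_eq_one x' hx'
  have : CharP K' ℓ := charP_of_injective_algebraMap (algebraMap (ZMod ℓ) K').injective ℓ
  obtain ⟨m, -, hm⟩ := FiniteField.card K' ℓ
  have hcard : 1 < Fintype.card K' := Fintype.one_lt_card
  refine ⟨Fintype.card K' - 1, Nat.sub_pos_of_lt hcard, ?_, ?_⟩
  · rw [hm]
    have hℓ : ℓ.Prime := Fact.out
    rw [hℓ.coprime_iff_not_dvd]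
    intro hd
    have h2 : ℓ ∣ ℓ ^ (m : ℕ) := dvd_pow_self _ m.pos.ne'
    have h3 : 1 ≤ ℓ ^ (m : ℕ) := Nat.one_le_pow _ _ hℓ.pos
    have h4 : ℓ ∣ ℓ ^ (m : ℕ) - (ℓ ^ (m : ℕ) - 1) := Nat.dvd_sub h2 hd
    rw [Nat.sub_sub_self h3] at h4
    exact hℓ.one_lt.ne' (Nat.dvd_one.mp h4)
  · exact congrArg Subtype.val h1

/-- Roots of unity lift. -/
theorem exists_lift_rootOfUnity [IsAlgClosed L] {n : ℕ} (hn : 0 < n) (x : k) (hx : x ^ n = 1) :
    ∃ ζ : A, ζ ^ n = 1 ∧ π ζ = x := by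
  have : CharZero L := algebraRat.charZero L
  have : NeZero (n : L) := ⟨by exact_mod_cast hn.ne'⟩
  have : NeZero n := ⟨hn.ne'⟩
  obtain ⟨ζ, hζ⟩ := HasEnoughRootsOfUnity.exists_primitiveRoot L n
  have hζA : ζ ∈ A := H31.mem_of_pow_eq_one A hn hζ.pow_eq_one
  let z : A := ⟨ζ, hζA⟩
  have hz : IsPrimitiveRoot z n :=
    IsPrimitiveRoot.of_map_of_injective (f := A.subtype) (by exact hζ) A.subtype_injective
  have h1 := X_pow_sub_one_eq_prod hn hz
  have h2 := congrArg (fun p => (p.map π).eval x) h1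
  simp only [Polynomial.map_sub, Polynomial.map_pow, map_X, Polynomial.map_one, eval_sub,
    eval_pow, eval_X, eval_one, hx, sub_self, Polynomial.map_prod, map_C, eval_prod,
    eval_C] at h2
  obtain ⟨w, hw, hw0⟩ := Finset.prod_eq_zero_iff.mp h2.symm
  refine ⟨w, (mem_nthRootsFinset hn 1).mp hw, ?_⟩
  exact (sub_eq_zero.mp hw0).symm

include hA in
/-- **(E1)** Every residue class of constants contains an inertia-invariant constant. -/
theorem exists_const_inertia [IsAlgClosed L] (hπ : Function.Surjective π) (x : k) :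
    ∃ a : A, (∀ σ ∈ A.inertiaSubgroupIn ℚ, σ (a : L) = a) ∧ π a = x := by
  by_cases hx : x = 0
  · exact ⟨0, fun σ _ => by simp, by rw [map_zero, hx]⟩
  · obtain ⟨n, hn, hcop, hxn⟩ := exists_pow_eq_one_residue A hA π hπ x hx
    obtain ⟨ζ, hζ, hζx⟩ := exists_lift_rootOfUnity A π hn x hxn
    refine ⟨ζ, fun σ hσ => ?_, hζx⟩
    exact H31.inertia_apply_rootOfUnity A hA hcop hn hσ (congrArg Subtype.val hζ)

/-- Inertia preserves `A`. -/
theorem inertia_mem {σ : L ≃ₐ[ℚ] L} (hσ : σ ∈ A.inertiaSubgroupIn ℚ) (a : A) : σ a ∈ A := by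
  obtain ⟨⟨τ, hτ⟩, hmem, rfl⟩ := hσ
  exact ((⟨τ, hτ⟩ : A.decompositionSubgroup ℚ) • a).2

/-- Inertia acts trivially on the residue field. -/
theorem π_inertia {σ : L ≃ₐ[ℚ] L} (hσ : σ ∈ A.inertiaSubgroupIn ℚ) (a : A) :
    π ⟨σ a, inertia_mem A hσ a⟩ = π a := by
  obtain ⟨⟨τ, hτ⟩, hmem, rfl⟩ := id hσ
  have h1 : (⟨τ, hτ⟩ : A.decompositionSubgroup ℚ) • (IsLocalRing.residue A a) =
      IsLocalRing.residue A a := by
    have h0 := (MonoidHom.mem_ker).mp hmem
    exact congrArg (fun f => f (IsLocalRing.residue A a)) h0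
  rw [← IsLocalRing.ResidueField.residue_smul] at h1
  have h2 : IsLocalRing.residue A (⟨τ a, inertia_mem A hσ a⟩ - a) = 0 := by
    rw [map_sub, sub_eq_zero]
    exact h1
  rw [IsLocalRing.residue_eq_zero_iff, IsLocalRing.mem_maximalIdeal] at h2
  have h3 : ¬ IsUnit (π (⟨τ a, inertia_mem A hσ a⟩ - a)) := fun hu =>
    h2 ((isUnit_map_iff π _).mp hu)
  rw [isUnit_iff_ne_zero, not_not, map_sub, sub_eq_zero] at h3
  exact h3

end Residue

end Fermat.Agent.H1
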