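import Fermat.Agent.H64KumRam

/-!
# The fixed field of inertia is discretely valued with uniformiser `p`
-/

set_option autoImplicit false

open NumberField IsDedekindDomain Fermat.Agent.H63 Fermat.Agent.H64

namespace Fermat.Agent.H44E

section finite

variable (E : Type*) [Field E] [NumberField E] [IsGalois ℚ E] (P : Ideal (𝓞 E)) [P.IsPrime]

/-- The fixed field of the inertia group. -/
noncomputable abbrev inertiaField : IntermediateField ℚ E :=
  IntermediateField.fixedField (P.inertia (E ≃ₐ[ℚ] E))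

theorem ramIdx_inertiaField :
    (P.under (𝓞 (inertiaField E P))).ramificationIdx ℤ = 1 := by
  set F := inertiaField E P with hF
  have hg1 : IsGaloisGroup (E ≃ₐ[ℚ] E) ℤ (𝓞 E) :=
    IsGaloisGroup.of_isFractionRing (E ≃ₐ[ℚ] E) ℤ (𝓞 E) ℚ E
  have hg2 : IsGaloisGroup (E ≃ₐ[F] E) (𝓞 F) (𝓞 E) :=
    IsGaloisGroup.of_isFractionRing (E ≃ₐ[F] E) (𝓞 F) (𝓞 E) F E
  have h1 := Ideal.card_inertia_eq_ramificationIdxIn (G := E ≃ₐ[ℚ] E) (P.under ℤ) P
  rw [Ideal.ramificationIdxIn_eq_ramificationIdx (P.under ℤ) P (E ≃ₐ[ℚ] E)] at h1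
  have h2 := Ideal.card_inertia_eq_ramificationIdxIn (G := E ≃ₐ[F] E) (P.under (𝓞 F)) P
  rw [Ideal.ramificationIdxIn_eq_ramificationIdx (P.under (𝓞 F)) P (E ≃ₐ[F] E)] at h2
  have h3 : P.inertia (E ≃ₐ[F] E) = ⊤ := by
    rw [eq_top_iff]
    intro σ _
    have h4 : (σ.restrictScalars ℚ) ∈ F.fixingSubgroup := by
      intro x
      exact σ.commutes x
    have h4' : F.fixingSubgroup = P.inertia (E ≃ₐ[ℚ] E) :=
      IntermediateField.fixingSubgroup_fixedField _
    rw [h4'] at h4
    exact h4
  have h5 : Nat.card (P.inertia (E ≃ₐ[F] E)) = Nat.card (P.inertia (E ≃ₐ[ℚ] E)) := by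
    rw [h3, Nat.card_congr (Subgroup.topEquiv.toEquiv), IsGalois.card_aut_eq_finrank, hF,
      IntermediateField.finrank_fixedField_eq_card]
  have h6 := Ideal.ramificationIdx_tower (R := ℤ) (P.under (𝓞 F)) P
  rw [← h1, ← h2, h5] at h6
  have h7 : 0 < Nat.card (P.inertia (E ≃ₐ[ℚ] E)) := Nat.card_pos
  exact Nat.eq_of_mul_eq_mul_right h7 (by rw [one_mul]; exact h6.symm)

end finite

section generalL

variable {L : Type*} [Field L] [CharZero L] [IsGalois ℚ L]

/-- **Discreteness**: an element fixed by inertia has the valuation of a power of `p`. -/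
theorem exists_valuation_eq_zpow {p : ℕ} (hp : p.Prime) {A : ValuationSubring L}
    (hA : A.LiesOverPrime p) {c : L} (hc0 : c ≠ 0)
    (hfix : ∀ σ ∈ A.inertiaSubgroupIn ℚ, σ c = c) :
    ∃ n : ℤ, A.valuation c = A.valuation (p : L) ^ n := by
  have hcint : IsIntegral ℚ c := IsGalois.integral ℚ c
  set E := IntermediateField.normalClosure ℚ (IntermediateField.adjoin ℚ {c}) L with hE
  have : FiniteDimensional ℚ (IntermediateField.adjoin ℚ {c}) :=
    IntermediateField.adjoin.finiteDimensional hcint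
  have hEfd : FiniteDimensional ℚ E := inferInstance
  have hEnf : NumberField E := { to_charZero := inferInstance, to_finiteDimensional := hEfd }
  have hEnormal : Normal ℚ E := normalClosure.normal ℚ (IntermediateField.adjoin ℚ {c}) L
  have hEgal : IsGalois ℚ E := { }
  have hcE : c ∈ E := by
    have h1 : IntermediateField.adjoin ℚ {c} ≤ E := IntermediateField.le_normalClosure _
    exact h1 (IntermediateField.mem_adjoin_simple_self ℚ c)
  set P := (placeBelow E hp hA).asIdeal with hP
  have hPp : P.IsPrime := (placeBelow E hp hA).isPrime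
  set F := inertiaField E P with hF
  have hcF : (⟨c, hcE⟩ : E) ∈ F := by
    rw [hF, IntermediateField.mem_fixedField_iff]
    intro σ₀ hσ₀
    rw [hP, placeBelow_asIdeal] at hσ₀
    obtain ⟨τ, hτ, rfl⟩ := exists_mem_inertiaSubgroupIn_restrict (F := E) A σ₀ hσ₀
    apply (algebraMap E L).injective
    have h1 := AlgEquiv.restrictNormal_commutes τ E ⟨c, hcE⟩
    have h2 : AlgEquiv.restrictNormalHom E τ = τ.restrictNormal E := rfl
    rw [h2, h1]
    exact hfix τ hτ
  have hFnf : NumberField F := inferInstance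
  set v := placeBelow F hp hA with hv
  set u : F := ⟨⟨c, hcE⟩, hcF⟩ with hu
  have huc : algebraMap F L u = c := rfl
  have hvP : v.asIdeal = P.under (𝓞 F) := by
    rw [hv, placeBelow_asIdeal, hP, placeBelow_asIdeal, Ideal.under_def, Ideal.comap_comap]
    rfl
  -- the valuation of `p` at `v`
  have hpv : v.valuation F (p : F) = WithZero.exp (-1 : ℤ) := by
    let w : HeightOneSpectrum ℤ := ⟨Ideal.span {(p : ℤ)},
      (Ideal.span_singleton_prime (by exact_mod_cast hp.ne_zero)).mpr
        (Nat.prime_iff_prime_int.mp hp), by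
          rw [Ne, Ideal.span_singleton_eq_bot]; exact_mod_cast hp.ne_zero⟩
    have hw : w.asIdeal = Ideal.span {(p : ℤ)} := rfl
    have hpmem : (p : 𝓞 F) ∈ v.asIdeal := by
      rw [hv, placeBelow_asIdeal, Ideal.mem_comap, map_natCast]
      exact (liesOverPrime_iff A p).mp hA
    have hover : v.asIdeal.LiesOver w.asIdeal := by
      constructor
      have hle : w.asIdeal ≤ v.asIdeal.under ℤ := by
        rw [hw, Ideal.span_singleton_le_iff_mem, Ideal.under_def, Ideal.mem_comap]
        simpa using hpmem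
      have hmax : w.asIdeal.IsMaximal := w.isPrime.isMaximal w.ne_bot
      exact hmax.eq_of_le (Ideal.IsPrime.ne_top inferInstance) hle
    have h1 := HeightOneSpectrum.valuation_liesOver (K := ℚ) F w v (p : ℚ)
    have h2 : w.asIdeal.ramificationIdx' v.asIdeal = 1 := by
      rw [Ideal.ramificationIdx'_eq_ramificationIdx _ _ w.ne_bot, hvP, ramIdx_inertiaField E P]
    have h3 : w.valuation ℚ (p : ℚ) = WithZero.exp (-1 : ℤ) := by
      have h4 := HeightOneSpectrum.valuation_of_algebraMap (K := ℚ) w (p : ℤ)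
      rw [HeightOneSpectrum.intValuation_singleton w (by exact_mod_cast hp.ne_zero) hw] at h4
      simpa using h4
    rw [h2, pow_one, h3, map_natCast] at h1
    exact h1.symm
  have hu0 : u ≠ 0 := by
    rintro h0
    apply hc0
    rw [← huc, h0, map_zero]
  obtain ⟨n, hn⟩ : ∃ n : ℤ, v.valuation F u = WithZero.exp n :=
    ⟨WithZero.log (v.valuation F u), by
      rw [WithZero.exp_log]; exact (Valuation.ne_zero_iff _).mpr hu0⟩
  refine ⟨-n, ?_⟩
  have hp0 : (p : F) ≠ 0 := by exact_mod_cast hp.ne_zero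
  have h1 : v.valuation F (u * (p : F) ^ n) = 1 := by
    rw [map_mul, map_zpow₀, hpv, hn, ← WithZero.exp_zsmul, ← WithZero.exp_add]
    simp
  have h2 := valuation_algebraMap_eq_one F hp hA h1
  rw [map_mul, map_zpow₀, map_mul, map_zpow₀, map_natCast, huc] at h2
  rw [zpow_neg]
  exact eq_inv_of_mul_eq_one_left h2

end generalL

end Fermat.Agent.H44E
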