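import Mathlib
import Fermat.Agent.H1Inertia
import Fermat.Agent.H44EDisc
import Fermat.Agent.H83WindA

/-!
# The inertia field `K_I` (CARAYOL C7)
-/

set_option autoImplicit false
set_option linter.unusedSectionVars false

namespace Fermat.Agent.H36

open H83

section KI

variable (A : ValuationSubring (AlgebraicClosure ℚ))

/-- The inertia field: fixed field of the inertia group at `A`. -/
noncomputable def KI : IntermediateField ℚ (AlgebraicClosure ℚ) :=
  IntermediateField.fixedField (A.inertiaSubgroupIn ℚ)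

variable {A} in
theorem mem_KI {x : AlgebraicClosure ℚ} :
    x ∈ KI A ↔ ∀ σ ∈ A.inertiaSubgroupIn ℚ, σ x = x := by
  rw [KI, IntermediateField.mem_fixedField_iff]

/-- the valuation ring of the inertia field -/
noncomputable def OI : ValuationSubring (KI A) :=
  A.comap (algebraMap (KI A) (AlgebraicClosure ℚ))

variable {A} in
theorem mem_OI {x : KI A} : x ∈ OI A ↔ (x : AlgebraicClosure ℚ) ∈ A := Iff.rfl

/-- the inclusion `OI A → A` -/
noncomputable def inclOI : OI A →+* A :=
  ((algebraMap (KI A) (AlgebraicClosure ℚ)).comp (OI A).subtype).codRestrict A.toSubring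
    (fun x => x.2)

@[simp] theorem coe_inclOI (x : OI A) :
    (inclOI A x : AlgebraicClosure ℚ) = algebraMap (KI A) (AlgebraicClosure ℚ) (x : KI A) := rfl

instance isLocalHom_inclOI : IsLocalHom (inclOI A) where
  map_nonunit := by
    intro a ha
    obtain ⟨⟨u, v, huv, hvu⟩, hu⟩ := ha
    have hu' : (inclOI A a) = u := hu.symm
    have h1 : (((inclOI A a : A)) : AlgebraicClosure ℚ) * (v : AlgebraicClosure ℚ) = 1 := by
      rw [hu']
      exact congrArg (fun z : A => (z : AlgebraicClosure ℚ)) huv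
    have h2 : ((a : KI A)⁻¹ : KI A) ∈ OI A := by
      rw [mem_OI]
      have : (((a : KI A)⁻¹ : KI A) : AlgebraicClosure ℚ) = v := by
        rw [IntermediateField.coe_inv]
        exact inv_eq_of_mul_eq_one_right h1
      rw [this]
      exact v.2
    have ha0 : (a : KI A) ≠ 0 := by
      intro h
      rw [coe_inclOI, h, map_zero, zero_mul] at h1
      exact zero_ne_one h1
    refine ⟨⟨a, ⟨_, h2⟩, Subtype.ext (mul_inv_cancel₀ ha0), Subtype.ext (inv_mul_cancel₀ ha0)⟩, rfl⟩

variable {k : Type*} [Field k] (π : A →+* k)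

/-- the residue map on `OI A` -/
noncomputable def piI : OI A →+* k := π.comp (inclOI A)

@[simp] theorem piI_apply (x : OI A) : piI A π x = π (inclOI A x) := rfl

instance [IsLocalHom π] : IsLocalHom (piI A π) := by
  unfold piI
  infer_instance

variable {q : ℕ} [hqp : Fact q.Prime] (hA : A.LiesOverPrime q) [IsLocalHom π]

include hA in
theorem piI_surjective (hπ : Function.Surjective π) : Function.Surjective (piI A π) := by
  intro x
  obtain ⟨a, ha, hax⟩ := H1.exists_const_inertia A hA π hπ x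
  exact ⟨⟨⟨a, mem_KI.2 ha⟩, a.2⟩, hax⟩

include hA in
theorem piI_q : piI A π (q : OI A) = 0 := by
  rw [map_natCast]
  exact H1.natCast_eq_zero_of_liesOver A hA π

include hA π in
theorem natCast_ne_zero_of_not_dvd {d : ℕ} (hd : ¬ q ∣ d) : (d : k) ≠ 0 := by
  have := H1.charP_of_liesOver A hA π
  rwa [Ne, CharP.cast_eq_zero_iff k q]

theorem exists_root_of_unit {d : ℕ} (hd : (d : k) ≠ 0) (o : OI A) (ho : piI A π o ≠ 0) :
    ∃ r : OI A, r ^ d = o := by
  have hd0 : d ≠ 0 := by rintro rfl; exact hd (by simp)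
  obtain ⟨r, hr⟩ := IsAlgClosed.exists_pow_nat_eq ((o : KI A) : AlgebraicClosure ℚ)
    (Nat.pos_of_ne_zero hd0)
  have hoA : ((o : KI A) : AlgebraicClosure ℚ) ∈ A := o.2
  have hrA : r ∈ A := by
    rcases A.mem_or_inv_mem r with h | h
    · exact h
    · by_cases hr0 : r = 0
      · rw [hr0]; exact zero_mem _
      have h1 : r = (r⁻¹) ^ (d - 1) * ((o : KI A) : AlgebraicClosure ℚ) := by
        rw [← hr]
        have : r ^ d = r ^ (d - 1) * r := by
          rw [← pow_succ, Nat.sub_add_cancel (Nat.one_le_iff_ne_zero.2 hd0)]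
        rw [this, inv_pow]
        field_simp
      rw [h1]
      exact mul_mem (pow_mem h _) hoA
  have hrπ : π ⟨r, hrA⟩ ≠ 0 := by
    intro h
    apply ho
    have : inclOI A o = (⟨r, hrA⟩ : A) ^ d := Subtype.ext hr.symm
    rw [piI_apply, this, map_pow, h, zero_pow hd0]
  have hr0 : r ≠ 0 := by
    rintro rfl
    apply hrπ
    exact map_zero π
  have hfix : ∀ σ ∈ A.inertiaSubgroupIn ℚ, σ r = r := by
    intro σ hσ
    have h1 : (σ r) ^ d = r ^ d := by
      rw [← map_pow, hr]
      exact mem_KI.1 (o : KI A).2 σ hσ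
    have hσA : σ r ∈ A := H1.inertia_mem A hσ ⟨r, hrA⟩
    have h2 : π ⟨σ r, hσA⟩ = π ⟨r, hrA⟩ := H1.π_inertia A π hσ ⟨r, hrA⟩
    -- `∑ (σ r)^i r^(d-1-i) (σ r - r) = 0`
    by_contra hne
    have h3 : (∑ i ∈ Finset.range d, (σ r) ^ i * r ^ (d - 1 - i)) * (σ r - r) = 0 := by
      rw [(Commute.all (σ r) r).geom_sum₂_mul, h1, sub_self]
    have h4 : (∑ i ∈ Finset.range d, (σ r) ^ i * r ^ (d - 1 - i)) = 0 := by
      rcases mul_eq_zero.1 h3 with h | h
      · exact h
      · exact absurd (sub_eq_zero.1 h) hne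
    have h5 : (∑ i ∈ Finset.range d, (⟨σ r, hσA⟩ : A) ^ i * (⟨r, hrA⟩ : A) ^ (d - 1 - i)) = 0 := by
      apply Subtype.ext
      push_cast
      exact h4
    have h6 := congrArg π h5
    rw [map_sum, map_zero] at h6
    simp only [map_mul, map_pow, h2] at h6
    have h7 : ∀ i ∈ Finset.range d, π ⟨r, hrA⟩ ^ i * π ⟨r, hrA⟩ ^ (d - 1 - i) =
        π ⟨r, hrA⟩ ^ (d - 1) := by
      intro i hi
      rw [← pow_add]
      congr 1
      have := Finset.mem_range.1 hi
      omega
    rw [Finset.sum_congr rfl h7, Finset.sum_const, Finset.card_range, nsmul_eq_mul] at h6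
    exact (mul_ne_zero hd (pow_ne_zero _ hrπ)) h6
  exact ⟨⟨⟨r, mem_KI.2 hfix⟩, hrA⟩, Subtype.ext (Subtype.ext hr)⟩

include hA in
/-- **the base hypotheses for the inertia field** -/
theorem baseHyp (hπ : Function.Surjective π) {d : ℕ} (hd : ¬ q ∣ d) :
    BaseHyp (OI A) (piI A π) q d where
  surj := piI_surjective A π hA hπ
  isUnit := fun o ho => by
    have : IsUnit (piI A π o) := isUnit_iff_ne_zero.2 ho
    exact isUnit_of_map_unit (piI A π) o this
  exists_zpow := by
    intro c hc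
    have hc0 : ((c : KI A) : AlgebraicClosure ℚ) ≠ 0 := fun h => hc (Subtype.ext h)
    obtain ⟨n, hn⟩ := H44E.exists_valuation_eq_zpow hqp.out hA hc0 (fun σ hσ => mem_KI.1 c.2 σ hσ)
    have hq0 : (q : AlgebraicClosure ℚ) ≠ 0 := Nat.cast_ne_zero.2 hqp.out.ne_zero
    have hqK : (q : KI A) ≠ 0 := Nat.cast_ne_zero.2 hqp.out.ne_zero
    have hv : A.valuation (((c * (q : KI A) ^ (-n) : KI A)) : AlgebraicClosure ℚ) = 1 := by
      have e : (((c * (q : KI A) ^ (-n) : KI A)) : AlgebraicClosure ℚ) =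
          (c : AlgebraicClosure ℚ) * (q : AlgebraicClosure ℚ) ^ (-n) := by
        change algebraMap (KI A) (AlgebraicClosure ℚ) (c * (q : KI A) ^ (-n)) = _
        rw [map_mul, map_zpow₀, map_natCast]
        rfl
      rw [e, map_mul, map_zpow₀, hn, zpow_neg, mul_inv_cancel₀]
      exact zpow_ne_zero _ ((A.valuation.ne_zero_iff).2 hq0)
    have hmem : (c * (q : KI A) ^ (-n) : KI A) ∈ OI A := by
      rw [mem_OI, ← A.valuation_le_one_iff]
      exact hv.le
    refine ⟨n, ⟨_, hmem⟩, ?_, ?_⟩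
    · rw [piI_apply]
      have hu : IsUnit (inclOI A ⟨_, hmem⟩) := (A.valuation_eq_one_iff _).2 hv
      exact (hu.map π).ne_zero
    · change c = (q : KI A) ^ n * (c * (q : KI A) ^ (-n))
      rw [mul_comm c, ← mul_assoc, ← zpow_add₀ hqK, add_neg_cancel, zpow_zero, one_mul]
  exists_root := exists_root_of_unit A π (natCast_ne_zero_of_not_dvd A π hA hd)
  d_ne := natCast_ne_zero_of_not_dvd A π hA hd

end KI

end Fermat.Agent.H36
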