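import Fermat.Agent.H99Three3
import Fermat.Agent.H36KI
import Fermat.Agent.H36InjS
import Fermat.Agent.H33Cyclo

/-!
# The ramified extension `K_I(ζ_q)` of the inertia field (CARAYOL C4, input)

`K = KI A` is the inertia field of a valuation ring `A` of `ℚ̄` over `q`; `K' = K(ζ_q)`,
`A' = A ∩ K'`.  Then `A'` is a discrete valuation ring with uniformizer `ζ_q - 1` and the same
residue field; `Gal(K'/K)` acts transitively on the primitive `q`-th roots of unity and trivially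
on the residue field, and `K'` contains all roots of unity of prime order.
-/

set_option autoImplicit false
set_option linter.unusedSectionVars false

noncomputable section

namespace Fermat.Agent.H16.Ram

open Fermat.Agent.H99 Fermat.Agent.H36 Fermat.Agent.H66

local notation "Qb" => AlgebraicClosure ℚ

section val

variable {A : ValuationSubring Qb} {σ : Qb ≃ₐ[ℚ] Qb}

theorem exists_pow_apply_eq (σ : Qb ≃ₐ[ℚ] Qb) (x : Qb) : ∃ n : ℕ, n ≠ 0 ∧ (σ ^ n) x = x := by
  have hx : IsIntegral ℚ x := Algebra.IsIntegral.isIntegral x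
  have hfin : ((minpoly ℚ x).rootSet Qb).Finite := Polynomial.rootSet_finite _ _
  have hmaps : ∀ n : ℕ, (σ ^ n) x ∈ (minpoly ℚ x).rootSet Qb := by
    intro n
    rw [Polynomial.mem_rootSet]
    refine ⟨minpoly.ne_zero hx, ?_⟩
    have h1 : (Polynomial.aeval x) (minpoly ℚ x) = 0 := minpoly.aeval ℚ x
    have := congrArg (σ ^ n) h1
    rw [map_zero, ← Polynomial.aeval_algHom_apply] at this
    exact this
  obtain ⟨i, -, j, -, hij, he⟩ := Set.infinite_univ.exists_ne_map_eq_of_mapsTo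
    (f := fun n : ℕ => (σ ^ n) x) (t := (minpoly ℚ x).rootSet Qb) (fun n _ => hmaps n) hfin
  wlog hlt : i < j generalizing i j
  · exact this j i hij.symm he.symm (by omega)
  refine ⟨j - i, by omega, ?_⟩
  have he' : (σ ^ i) x = (σ ^ j) x := he
  have h2 : (σ ^ j) x = (σ ^ i) ((σ ^ (j - i)) x) := by
    rw [← AlgEquiv.mul_apply, ← pow_add]
    congr 2
    omega
  rw [h2] at he'
  exact ((σ ^ i).injective he').symm

/-- If `σ⁻¹, σ` preserve `A`, then `v (σ x) ≤ v x`. -/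
theorem val_apply_le (hσ : ∀ x, σ x ∈ A ↔ x ∈ A) (x : Qb) :
    A.valuation (σ x) ≤ A.valuation x := by
  by_contra hlt
  rw [not_le] at hlt
  have hmono : ∀ y z, A.valuation y ≤ A.valuation z → A.valuation (σ y) ≤ A.valuation (σ z) := by
    intro y z h
    by_cases hz : z = 0
    · rw [hz, map_zero, le_zero_iff] at h
      rw [(Valuation.zero_iff _).1 h, map_zero, map_zero]
      exact zero_le
    · have hz' : A.valuation z ≠ 0 := (Valuation.ne_zero_iff _).2 hz
      have h1 : A.valuation (y / z) ≤ 1 := by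
        rw [map_div₀]
        exact div_le_one_of_le₀ h zero_le
      rw [A.valuation_le_one_iff, ← hσ, ← A.valuation_le_one_iff, map_div₀, map_div₀] at h1
      have hz2 : A.valuation (σ z) ≠ 0 :=
        (Valuation.ne_zero_iff _).2 ((map_ne_zero_iff σ σ.injective).2 hz)
      exact (div_le_one₀ (zero_lt_iff.2 hz2)).1 h1
  have hstep : ∀ n : ℕ, n ≠ 0 → A.valuation x < A.valuation ((σ ^ n) x) := by
    intro n hn
    induction n with
    | zero => exact absurd rfl hn
    | succ n ih =>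
      rcases eq_or_ne n 0 with rfl | hn0
      · simpa using hlt
      · refine lt_of_lt_of_le hlt ?_
        rw [pow_succ', AlgEquiv.mul_apply]
        exact hmono _ _ (ih hn0).le
  obtain ⟨n, hn, he⟩ := exists_pow_apply_eq σ x
  have h1 := hstep n hn
  rw [he] at h1
  exact lt_irrefl _ h1

theorem val_apply_eq (hσ : ∀ x, σ x ∈ A ↔ x ∈ A) (x : Qb) :
    A.valuation (σ x) = A.valuation x := by
  refine le_antisymm (val_apply_le hσ x) ?_
  have h1 : ∀ y, σ.symm y ∈ A ↔ y ∈ A := by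
    intro y
    rw [← hσ, σ.apply_symm_apply]
  have h2 := val_apply_le h1 (σ x)
  rwa [σ.symm_apply_apply] at h2

theorem inertia_mem_iff (hσ : σ ∈ A.inertiaSubgroupIn ℚ) (x : Qb) : σ x ∈ A ↔ x ∈ A := by
  constructor
  · intro h
    have h1 := H1.inertia_mem A (inv_mem hσ) ⟨σ x, h⟩
    have h2 : (σ⁻¹ : Qb ≃ₐ[ℚ] Qb) (σ x) = x := σ.symm_apply_apply x
    rwa [show ((⟨σ x, h⟩ : A) : Qb) = σ x from rfl, h2] at h1
  · intro h
    exact H1.inertia_mem A hσ ⟨x, h⟩

theorem val_inertia (hσ : σ ∈ A.inertiaSubgroupIn ℚ) (x : Qb) :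
    A.valuation (σ x) = A.valuation x :=
  val_apply_eq (inertia_mem_iff hσ) x

end val

section ram

variable (A : ValuationSubring Qb) {k : Type*} [Field k] (π : A →+* k) {q : ℕ}
  [hqp : Fact q.Prime] (hA : A.LiesOverPrime q) [IsLocalHom π]

variable {A} in
include hA in
/-- the residue of a `q`-th root of unity -/
theorem pi_root {z : A} (hz : z ^ q = 1) : π z = 1 := by
  have := H1.charP_of_liesOver A hA π
  have h1 : (π z - 1) ^ q = 0 := by
    rw [sub_pow_char, ← map_pow, hz, map_one, one_pow, sub_self]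
  exact sub_eq_zero.1 (pow_eq_zero_iff hqp.out.ne_zero |>.1 h1)


include π in
variable {A} in
include hA in
/-- `v(q) = v(ζ-1)^(q-1)` -/
theorem val_q {ζ : Qb} (hζ : IsPrimitiveRoot ζ q) :
    A.valuation (q : Qb) = A.valuation (ζ - 1) ^ (q - 1) := by
  have hcp := H1.charP_of_liesOver A hA π
  have hζA : ζ ∈ A := H31.mem_of_pow_eq_one A hqp.out.pos hζ.pow_eq_one
  set z : A := ⟨ζ, hζA⟩ with hzdef
  have hz : IsPrimitiveRoot z q :=
    IsPrimitiveRoot.of_map_of_injective (f := A.subtype) (by exact hζ) A.subtype_injective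
  have h1 := one_sub_pow_mul hqp.out hz
  have h2 : π (∏ i ∈ Finset.Ico 1 q, (∑ j ∈ Finset.range i, z ^ j)) = -1 :=
    prod_geom_eq hqp.out π (pi_root π hA hz.pow_eq_one)
  set P := ∏ i ∈ Finset.Ico 1 q, (∑ j ∈ Finset.range i, z ^ j) with hPdef
  have hP : IsUnit P := isUnit_of_map_unit π P (by rw [h2]; exact isUnit_one.neg)
  have hP1 : A.valuation (P : Qb) = 1 := (A.valuation_eq_one_iff P).1 hP
  have h3 : (q : Qb) = (1 - ζ) ^ (q - 1) * (P : Qb) := by
    have h4 := congrArg (fun y : A => (y : Qb)) h1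
    simp only [MulMemClass.coe_mul, SubmonoidClass.coe_pow] at h4
    exact h4.symm
  rw [h3, map_mul, map_pow, hP1, mul_one, ← Valuation.map_neg, neg_sub]

variable {A} in
include hA in
theorem exists_inertia_cycloChar (u : (ZMod q)ˣ) :
    ∃ σ ∈ A.inertiaSubgroupIn ℚ, ExtCitation.cycloChar q σ = u := by
  have hu : ¬ q ∣ (u : ZMod q).val := by
    intro h
    have h1 := (ZMod.natCast_eq_zero_iff _ _).2 h
    rw [ZMod.natCast_zmod_val] at h1
    exact u.ne_zero h1
  obtain ⟨σ, hσ, h⟩ := H33.exists_inertia_cyclo hA (u : ZMod q).val hu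
  refine ⟨σ, hσ, ?_⟩
  obtain ⟨ζ, -, hζ⟩ := H63.exists_primitiveRoot q
  have h1 := h ζ hζ.pow_eq_one
  rw [H63.apply_of_pow_eq_one q σ hζ.pow_eq_one] at h1
  have h2 := hζ.pow_inj (ZMod.val_lt _) (ZMod.val_lt _) h1
  ext
  exact ZMod.val_injective q h2

/-- the field `K_I(ζ)` -/
abbrev KR (ζ : Qb) : IntermediateField (KI A) Qb := IntermediateField.adjoin (KI A) {ζ}

variable {A} in
theorem fix_KR {ζ c : Qb} (hc : c ∈ KR A ζ) {σ : Qb ≃ₐ[ℚ] Qb} (hσ : σ ∈ A.inertiaSubgroupIn ℚ)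
    (h : σ ζ = ζ) : σ c = c := by
  induction hc using IntermediateField.adjoin_induction with
  | mem x hx => rw [Set.mem_singleton_iff] at hx; rw [hx, h]
  | algebraMap x => exact mem_KI.1 x.2 σ hσ
  | add x y _ _ hx hy => rw [map_add, hx, hy]
  | inv x _ hx => rw [map_inv₀, hx]
  | mul x y _ _ hx hy => rw [map_mul, hx, hy]

variable {A} in
theorem apply_mem_KR {ζ c : Qb} (hc : c ∈ KR A ζ) {σ : Qb ≃ₐ[ℚ] Qb}
    (hσ : σ ∈ A.inertiaSubgroupIn ℚ) (h : σ ζ ∈ KR A ζ) : σ c ∈ KR A ζ := by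
  induction hc using IntermediateField.adjoin_induction with
  | mem x hx => rw [Set.mem_singleton_iff] at hx; rw [hx]; exact h
  | algebraMap x =>
    have h1 : σ (algebraMap (KI A) Qb x) = algebraMap (KI A) Qb x := mem_KI.1 x.2 σ hσ
    rw [h1]
    exact IntermediateField.algebraMap_mem _ x
  | add x y _ _ hx hy => rw [map_add]; exact add_mem hx hy
  | inv x _ hx => rw [map_inv₀]; exact inv_mem hx
  | mul x y _ _ hx hy => rw [map_mul]; exact mul_mem hx hy

include π in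
variable {A} in
include hA in
/-- **discreteness** of the valuation on `K_I(ζ_q)`, with uniformizer `ζ_q - 1` -/
theorem exists_val_eq {ζ : Qb} (hζ : IsPrimitiveRoot ζ q) {c : Qb} (hc : c ∈ KR A ζ)
    (hc0 : c ≠ 0) : ∃ n : ℤ, A.valuation c = A.valuation (ζ - 1) ^ n := by
  classical
  choose s hs hsu using exists_inertia_cycloChar (q := q) hA
  set N : Qb := ∏ u : (ZMod q)ˣ, s u c with hN
  have hfix : ∀ τ ∈ A.inertiaSubgroupIn ℚ, τ N = N := by
    intro τ hτ
    have h1 : ∀ u, τ (s u c) = s (ExtCitation.cycloChar q τ * u) c := by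
      intro u
      set g := (s (ExtCitation.cycloChar q τ * u))⁻¹ * (τ * s u) with hg
      have hgI : g ∈ A.inertiaSubgroupIn ℚ :=
        mul_mem (inv_mem (hs _)) (mul_mem hτ (hs _))
      have hg1 : ExtCitation.cycloChar q g = 1 := by
        rw [hg, map_mul, map_inv, map_mul, hsu, hsu, inv_mul_cancel]
      have hgζ : g ζ = ζ := (H63.cycloChar_eq_one_iff hζ).1 hg1
      have hgc : g c = c := fix_KR hc hgI hgζ
      have h2 : s (ExtCitation.cycloChar q τ * u) (g c) = τ (s u c) := by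
        rw [← AlgEquiv.mul_apply, hg, mul_inv_cancel_left, AlgEquiv.mul_apply]
      rw [← h2, hgc]
    rw [hN, map_prod, Finset.prod_congr rfl (fun u _ => h1 u)]
    exact Fintype.prod_equiv (Equiv.mulLeft (ExtCitation.cycloChar q τ)) _ _ (fun u => rfl)
  have hN0 : N ≠ 0 := by
    rw [hN]
    exact Finset.prod_ne_zero_iff.2 fun u _ => (map_ne_zero_iff _ (s u).injective).2 hc0
  obtain ⟨n, hn⟩ := H44E.exists_valuation_eq_zpow hqp.out hA hN0 hfix
  have h1 : A.valuation N = A.valuation c ^ (q - 1) := by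
    rw [hN, map_prod, Finset.prod_congr rfl (fun u _ => val_inertia (hs u) c),
      Finset.prod_const, Finset.card_univ, ZMod.card_units]
  refine ⟨n, ?_⟩
  have hq1 : q - 1 ≠ 0 := by have := hqp.out.two_le; omega
  rw [h1, val_q π hA hζ, ← zpow_natCast, ← zpow_natCast, ← zpow_mul, mul_comm, zpow_mul,
    zpow_natCast, zpow_natCast] at hn
  exact (pow_left_inj₀ zero_le zero_le hq1).1 hn

variable {A} in
/-- uniformizers of subfields -/
theorem unif_of {F : Type*} [Field F] (f : F →+* Qb) (O : ValuationSubring F)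
    (hO : ∀ x, x ∈ O ↔ f x ∈ A) (ϖ : O) (π' : O →+* k)
    (hπ' : ∀ o : O, π' o = π ⟨f o, (hO o).1 o.2⟩) (h0 : ϖ ≠ 0) (hϖ : π' ϖ = 0)
    (hdisc : ∀ c : F, c ≠ 0 → ∃ n : ℤ, A.valuation (f c) = A.valuation (f ϖ) ^ n) :
    Unif O π' ϖ := by
  have hϖ0 : (ϖ : F) ≠ 0 := fun h => h0 (Subtype.ext h)
  have hv0 : A.valuation (f ϖ) ≠ 0 :=
    (Valuation.ne_zero_iff _).2 ((map_ne_zero_iff f f.injective).2 hϖ0)
  have hlt : ∀ a : O, π' a = 0 → A.valuation (f a) < 1 := by
    intro a ha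
    refine lt_of_le_of_ne ((A.valuation_le_one_iff _).2 ((hO a).1 a.2)) ?_
    intro h
    have hu : IsUnit (⟨f a, (hO a).1 a.2⟩ : A) := (A.valuation_eq_one_iff _).2 h
    have h2 := (hu.map π).ne_zero
    rw [← hπ'] at h2
    exact h2 ha
  have hϖ1 := hlt ϖ hϖ
  refine ⟨h0, hϖ, ?_, ?_⟩
  · intro a ha
    by_cases ha0 : a = 0
    · rw [ha0]; exact dvd_zero _
    have ha0' : (a : F) ≠ 0 := fun h => ha0 (Subtype.ext h)
    obtain ⟨n, hn⟩ := hdisc a ha0'
    have h1 := hlt a ha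
    rw [hn] at h1
    have hn1 : 0 < n := by
      by_contra hle
      rw [not_lt] at hle
      have h2 := zpow_le_zpow_right_of_le_one₀ (zero_lt_iff.2 hv0) hϖ1.le hle
      rw [zpow_zero] at h2
      exact absurd h1 (not_lt.2 h2)
    have hmem : (a : F) / (ϖ : F) ∈ O := by
      rw [hO, ← A.valuation_le_one_iff, map_div₀, map_div₀, hn]
      rw [div_le_one₀ (zero_lt_iff.2 hv0)]
      calc A.valuation (f ϖ) ^ n ≤ A.valuation (f ϖ) ^ (1 : ℤ) :=
            zpow_le_zpow_right_of_le_one₀ (zero_lt_iff.2 hv0) hϖ1.le (by omega)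
        _ = A.valuation (f ϖ) := zpow_one _
    exact ⟨⟨_, hmem⟩, Subtype.ext (by
      show (a : F) = (ϖ : F) * ((a : F) / (ϖ : F))
      field_simp)⟩
  · intro a ha
    have ha0' : (a : F) ≠ 0 := fun h => ha (Subtype.ext h)
    obtain ⟨n, hn⟩ := hdisc a ha0'
    have h1 : A.valuation (f a) ≤ 1 := (A.valuation_le_one_iff _).2 ((hO a).1 a.2)
    have hfa0 : A.valuation (f a) ≠ 0 :=
      (Valuation.ne_zero_iff _).2 ((map_ne_zero_iff f f.injective).2 ha0')
    refine ⟨n.toNat, ?_⟩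
    have hmem : (ϖ : F) ^ n.toNat / (a : F) ∈ O := by
      rw [hO, ← A.valuation_le_one_iff, map_div₀, map_div₀, map_pow, map_pow]
      rw [div_le_one₀ (zero_lt_iff.2 hfa0), hn, ← zpow_natCast]
      exact zpow_le_zpow_right_of_le_one₀ (zero_lt_iff.2 hv0) hϖ1.le (Int.self_le_toNat n)
    exact ⟨⟨_, hmem⟩, Subtype.ext (by
      show ((ϖ ^ n.toNat : O) : F) = (a : F) * ((ϖ : F) ^ n.toNat / (a : F))
      rw [SubmonoidClass.coe_pow]
      field_simp)⟩

/-- the valuation ring of `K_I(ζ)` -/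
def OR (ζ : Qb) : ValuationSubring (KR A ζ) := A.comap (algebraMap (KR A ζ) Qb)

variable {A} in
theorem mem_OR {ζ : Qb} {x : KR A ζ} : x ∈ OR A ζ ↔ (x : Qb) ∈ A := Iff.rfl

/-- the inclusion `OR A ζ → A` -/
def inclOR (ζ : Qb) : OR A ζ →+* A :=
  ((algebraMap (KR A ζ) Qb).comp (OR A ζ).subtype).codRestrict A.toSubring (fun x => x.2)

/-- the residue map -/
def piR (ζ : Qb) : OR A ζ →+* k := π.comp (inclOR A ζ)

theorem piR_apply (ζ : Qb) (x : OR A ζ) : piR A π ζ x = π ⟨((x : KR A ζ) : Qb), x.2⟩ := rfl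

variable {A} in
include hA in
theorem unif_OI : Unif (OI A) (piI A π) (q : OI A) := by
  refine unif_of π (algebraMap (KI A) Qb) (OI A) (fun x => Iff.rfl) _ _ (fun o => rfl) ?_
    (piI_q A π hA) ?_
  · exact Nat.cast_ne_zero.2 hqp.out.ne_zero
  · intro c hc
    have hc0 : algebraMap (KI A) Qb c ≠ 0 := (map_ne_zero_iff _ (algebraMap (KI A) Qb).injective).2 hc
    obtain ⟨n, hn⟩ := H44E.exists_valuation_eq_zpow hqp.out hA hc0 (fun σ hσ => mem_KI.1 c.2 σ hσ)
    refine ⟨n, ?_⟩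
    rw [hn]
    congr 2

variable {A} in
theorem zeta_mem_KR (ζ : Qb) : ζ ∈ KR A ζ := IntermediateField.mem_adjoin_simple_self _ ζ

variable {A} in
include hA in
/-- **the ramified data** for `K_I(ζ_q) / K_I` -/
def ramData {ζ : Qb} (hζ : IsPrimitiveRoot ζ q) :
    RamData (OI A) (piI A π) (OR A ζ) (piR A π ζ) q where
  ζ := Units.mk0 ⟨ζ, zeta_mem_KR ζ⟩ (fun h => hζ.ne_zero hqp.out.ne_zero (congrArg Subtype.val h))
  prim := by
    rw [← IsPrimitiveRoot.coe_units_iff]
    exact IsPrimitiveRoot.of_map_of_injective (f := algebraMap (KR A ζ) Qb) (by exact hζ)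
      (algebraMap (KR A ζ) Qb).injective
  ϖ := ⟨⟨ζ, zeta_mem_KR ζ⟩ - 1, by
    rw [mem_OR]
    exact sub_mem (H31.mem_of_pow_eq_one A hqp.out.pos hζ.pow_eq_one) (one_mem A)⟩
  coe_ϖ := rfl
  unif := unif_OI π hA
  unif' := by
    have hζA : ζ ∈ A := H31.mem_of_pow_eq_one A hqp.out.pos hζ.pow_eq_one
    refine unif_of π (algebraMap (KR A ζ) Qb) (OR A ζ) (fun x => Iff.rfl) _ _ (fun o => rfl)
      ?_ ?_ ?_
    · intro h
      have h1 : ζ - 1 = 0 := congrArg (fun x : OR A ζ => ((x : KR A ζ) : Qb)) h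
      exact hζ.ne_one hqp.out.one_lt (sub_eq_zero.1 h1)
    · rw [piR_apply]
      have h2 : (⟨ζ, hζA⟩ : A) ^ q = 1 := Subtype.ext hζ.pow_eq_one
      have h1 : π (⟨ζ, hζA⟩ - 1) = 0 := by
        rw [map_sub, map_one, pi_root π hA h2, sub_self]
      exact h1
    · intro c hc
      exact exists_val_eq π hA hζ c.2
        ((map_ne_zero_iff _ (algebraMap (KR A ζ) Qb).injective).2 hc)
  mem := fun a => a.2
  map := fun a => rfl

variable {A} in
theorem ramData_gal {ζ : Qb} (hζ : IsPrimitiveRoot ζ q) : (ramData π hA hζ).Gal := by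
  intro i hi
  obtain ⟨σ, hσ, h⟩ := H33.exists_inertia_cyclo hA i hi
  have hmem : ∀ c : KR A ζ, σ (c : Qb) ∈ KR A ζ := by
    intro c
    refine apply_mem_KR c.2 hσ ?_
    rw [h ζ hζ.pow_eq_one]
    exact pow_mem (zeta_mem_KR ζ) i
  let s : KR A ζ →+* KR A ζ :=
    ((σ : Qb →+* Qb).comp (algebraMap (KR A ζ) Qb)).codRestrict (KR A ζ).toSubfield.toSubring hmem
  let sA : OR A ζ →+* OR A ζ :=
    (s.comp (OR A ζ).subtype).codRestrict (OR A ζ).toSubring (fun x =>
      (inertia_mem_iff hσ ((x : KR A ζ) : Qb)).2 x.2)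
  refine ⟨s, sA, ?_, ?_, ?_, ?_⟩
  · intro c
    apply Subtype.ext
    exact mem_KI.1 c.2 σ hσ
  · intro a
    rfl
  · intro a
    exact H1.π_inertia A π hσ ⟨((a : KR A ζ) : Qb), a.2⟩
  · apply Subtype.ext
    exact h ζ hζ.pow_eq_one

variable {A} in
include hA in
theorem hasRoots_KR {ζ : Qb} (hζ : IsPrimitiveRoot ζ q) : HasRoots (KR A ζ) := by
  have key : ∀ (p : ℕ), p.Prime → ∀ z : Qb, IsPrimitiveRoot z p → z ∈ KR A ζ →
      ∃ u : (KR A ζ)ˣ, IsPrimitiveRoot u p := by
    intro p hp z hz hmem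
    refine ⟨Units.mk0 ⟨z, hmem⟩ (fun h => hz.ne_zero hp.ne_zero (congrArg Subtype.val h)), ?_⟩
    rw [← IsPrimitiveRoot.coe_units_iff]
    exact IsPrimitiveRoot.of_map_of_injective (f := algebraMap (KR A ζ) Qb) (by exact hz)
      (algebraMap (KR A ζ) Qb).injective
  intro p hp _
  by_cases hpq : p = q
  · subst hpq
    exact key p hp ζ hζ (zeta_mem_KR ζ)
  · have : NeZero p := ⟨hp.ne_zero⟩
    obtain ⟨z, hz⟩ := HasEnoughRootsOfUnity.exists_primitiveRoot Qb p
    refine key p hp z hz ?_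
    have h1 : z ∈ KI A := mem_KI.2 fun σ hσ =>
      H31.inertia_apply_rootOfUnity A hA ((Nat.coprime_primes hqp.out hp).2 (Ne.symm hpq))
        hp.pos hσ hz.pow_eq_one
    exact IntermediateField.algebraMap_mem _ (⟨z, h1⟩ : KI A)

variable {A} in
include hA in
/-- **The input of `threeData` for the inertia field**: existence of `K' = K_I(ζ_q)`. -/
theorem exists_ramData : ∃ (K' : Type) (_ : Field K') (_ : Algebra (KI A) K') (_ : Algebra ℚ K')
    (_ : CharZero K') (A' : ValuationSubring K') (π' : A' →+* k)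
    (D : RamData (OI A) (piI A π) A' π' q), D.Gal ∧ HasRoots K' := by
  obtain ⟨ζ, -, hζ⟩ := H63.exists_primitiveRoot q
  exact ⟨KR A ζ, inferInstance, inferInstance, inferInstance, inferInstance, OR A ζ, piR A π ζ,
    ramData π hA hζ, ramData_gal π hA hζ, hasRoots_KR hA hζ⟩

end ram

end Fermat.Agent.H16.Ram

end
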