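import Fermat.Agent.H33Inertia
import Fermat.Agent.H44EDisc
import Fermat.Agent.H1Inertia

/-!
# The inertia facts (helper33), from helper44's and helper1's modules
-/

set_option autoImplicit false

namespace Fermat.Agent.H33

local notation "Qb" => AlgebraicClosure ℚ

theorem inertiaFacts {p : ℕ} [Fact p.Prime] {A : ValuationSubring Qb} (hA : A.LiesOverPrime p) :
    InertiaFacts p A where
  val a ha h := by
    have : Algebra.IsAlgebraic ℚ Qb := AlgebraicClosure.isAlgebraic ℚ
    have : IsAlgClosure ℚ Qb := ⟨inferInstance, inferInstance⟩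
    have : Normal ℚ Qb := IsAlgClosure.normal ℚ Qb
    have : IsGalois ℚ Qb := ⟨⟩
    exact H44E.exists_valuation_eq_zpow Fact.out hA ha h
  res c := by
    exact H1.exists_const_inertia A hA (IsLocalRing.residue A) IsLocalRing.residue_surjective c

end Fermat.Agent.H33
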