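import Fermat.Agent.H54Frobenius

/-!
# Places of `ℚ̄`: rank one property, decomposition and inertia groups at finite level (helper43)
-/

set_option autoImplicit false

open scoped Pointwise
open Polynomial

namespace Fermat.Agent.H43

local notation "Qb" => AlgebraicClosure ℚ
local notation "Zb" => integralClosure ℤ (AlgebraicClosure ℚ)
local notation "Gq" => (AlgebraicClosure ℚ ≃ₐ[ℚ] AlgebraicClosure ℚ)

section RankOne

variable {ℓ : ℕ} {A : ValuationSubring Qb}

theorem aeval_int_mem {x : Qb} (hx : x ∈ A) (g : ℤ[X]) : aeval x g ∈ A := by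
  have h : aeval x g = ((aeval (⟨x, hx⟩ : A) g : A) : Qb) :=
    aeval_algebraMap_apply (R := ℤ) (A := A) Qb (⟨x, hx⟩ : A) g
  rw [h]
  exact Subtype.coe_prop _

theorem inv_mem_of_not_mem_nonunits {x : Qb} (hx : x ∉ A.nonunits) : x⁻¹ ∈ A := by
  rw [ValuationSubring.mem_nonunits_iff, not_lt] at hx
  rw [← A.valuation_le_one_iff, map_inv₀]
  exact inv_le_one_of_one_le₀ hx

theorem mem_of_mem_nonunits {x : Qb} (hx : x ∈ A.nonunits) : x ∈ A := by
  rw [ValuationSubring.mem_nonunits_iff] at hx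
  exact (A.valuation_le_one_iff _).mp hx.le

theorem mul_mem_nonunits {x y : Qb} (hx : x ∈ A.nonunits) (hy : y ∈ A) : x * y ∈ A.nonunits := by
  rw [ValuationSubring.mem_nonunits_iff] at hx ⊢
  rw [map_mul]
  exact mul_lt_one_of_lt_of_le hx ((A.valuation_le_one_iff _).mpr hy)

theorem add_mem_nonunits {x y : Qb} (hx : x ∈ A.nonunits) (hy : y ∈ A.nonunits) :
    x + y ∈ A.nonunits := by
  rw [ValuationSubring.mem_nonunits_iff] at hx hy ⊢
  exact A.valuation.map_add_lt hx hy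

theorem neg_mem_nonunits {x : Qb} (hx : x ∈ A.nonunits) : -x ∈ A.nonunits := by
  rw [ValuationSubring.mem_nonunits_iff] at hx ⊢
  rwa [Valuation.map_neg]

theorem one_not_mem_nonunits : (1 : Qb) ∉ A.nonunits := by
  rw [ValuationSubring.mem_nonunits_iff, map_one]
  exact lt_irrefl _

theorem exists_pow_mem_aux (hℓ : ℓ.Prime) (hA : A.LiesOverPrime ℓ) {x : Qb} (hx : x ∈ A.nonunits) :
    ∀ (n : ℕ) (f : ℤ[X]) (k : ℕ), f.natDegree ≤ n → (∃ i, ¬ (ℓ : ℤ) ∣ f.coeff i) →
      (∃ a ∈ A, x ^ k * aeval x f = ℓ * a) → ∃ m : ℕ, ∃ a ∈ A, x ^ m = ℓ * a := by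
  have hxA := mem_of_mem_nonunits hx
  intro n
  induction n with
  | zero =>
    rintro f k hf ⟨i, hi⟩ ⟨a, ha, hxa⟩
    rw [Nat.le_zero, natDegree_eq_zero] at hf
    obtain ⟨c, rfl⟩ := hf
    have hi0 : i = 0 := by
      by_contra h
      rw [coeff_C_of_ne_zero h] at hi
      exact hi (dvd_zero _)
    subst hi0
    rw [coeff_C_zero] at hi
    have hc : (c : Qb) ∉ A.nonunits := fun h => hi ((H54.intCast_mem_nonunits_iff hℓ hA c).mp h)
    have hc0 : (c : Qb) ≠ 0 := by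
      intro h0
      apply hc
      rw [h0, ValuationSubring.mem_nonunits_iff, map_zero]
      exact zero_lt_one
    refine ⟨k, a * (c : Qb)⁻¹, mul_mem ha (inv_mem_of_not_mem_nonunits hc), ?_⟩
    rw [aeval_C] at hxa
    have hxa' : x ^ k * (c : Qb) = ℓ * a := by simpa using hxa
    rw [← mul_assoc, ← hxa', mul_assoc, mul_inv_cancel₀ hc0, mul_one]
  | succ n ih =>
    rintro f k hf ⟨i, hi⟩ ⟨a, ha, hxa⟩
    have hdec : f.divX * X + C (f.coeff 0) = f := divX_mul_X_add f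
    have hev : aeval x f = aeval x f.divX * x + ((f.coeff 0 : ℤ) : Qb) := by
      conv_lhs => rw [← hdec]
      rw [map_add, map_mul, aeval_X, aeval_C]
      simp
    by_cases h0 : (ℓ : ℤ) ∣ f.coeff 0
    · obtain ⟨b, hb⟩ := h0
      refine ih f.divX (k + 1) ?_ ?_ ?_
      · rw [natDegree_divX_eq_natDegree_tsub_one]
        omega
      · rcases i with _ | i
        · exact absurd ⟨b, hb⟩ hi
        · exact ⟨i, by rwa [coeff_divX]⟩
      · refine ⟨a - x ^ k * (b : Qb), sub_mem ha (mul_mem (pow_mem hxA k) (intCast_mem A b)), ?_⟩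
        rw [hev, hb] at hxa
        push_cast at hxa
        linear_combination hxa
    · have hc : ((f.coeff 0 : ℤ) : Qb) ∉ A.nonunits := fun h =>
        h0 ((H54.intCast_mem_nonunits_iff hℓ hA _).mp h)
      have hu : aeval x f ∉ A.nonunits := by
        intro h
        apply hc
        have h1 : ((f.coeff 0 : ℤ) : Qb) = aeval x f + -(x * aeval x f.divX) := by
          rw [hev]; ring
        rw [h1]
        exact add_mem_nonunits h (neg_mem_nonunits (mul_mem_nonunits hx (aeval_int_mem hxA _)))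
      have hu0 : aeval x f ≠ 0 := by
        intro h0'
        apply hu
        rw [h0', ValuationSubring.mem_nonunits_iff, map_zero]
        exact zero_lt_one
      refine ⟨k, a * (aeval x f)⁻¹, mul_mem ha (inv_mem_of_not_mem_nonunits hu), ?_⟩
      rw [← mul_assoc, ← hxa, mul_assoc, mul_inv_cancel₀ hu0, mul_one]

/-- every algebraic number is a root of a primitive integral polynomial -/
theorem exists_primitive (hℓ : ℓ.Prime) (x : Qb) :
    ∃ f : ℤ[X], aeval x f = 0 ∧ ∃ i, ¬ (ℓ : ℤ) ∣ f.coeff i := by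
  obtain ⟨f, hf0, hf⟩ : ∃ f : Polynomial ℤ, f ≠ 0 ∧ aeval x f = 0 := by
    have : IsAlgebraic ℚ x := (AlgebraicClosure.isAlgebraic ℚ).isAlgebraic x
    exact (IsFractionRing.isAlgebraic_iff ℤ ℚ Qb).mpr this
  have hprim := f.isPrimitive_primPart
  refine ⟨f.primPart, aeval_primPart_eq_zero hf0 hf, ?_⟩
  by_contra hcon
  push Not at hcon
  have := hprim (ℓ : ℤ) ((C_dvd_iff_dvd_coeff _ _).mpr hcon)
  rw [Int.isUnit_iff] at this
  have := hℓ.two_le
  omega

/-- rank one: nonunits are topologically nilpotent. -/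
theorem exists_pow_mem (hℓ : ℓ.Prime) (hA : A.LiesOverPrime ℓ) {x : Qb} (hx : x ∈ A.nonunits) :
    ∃ m : ℕ, ∃ a ∈ A, x ^ m = ℓ * a := by
  obtain ⟨f, hf, hi⟩ := exists_primitive hℓ x
  exact exists_pow_mem_aux hℓ hA hx f.natDegree f 0 le_rfl hi ⟨0, zero_mem A, by rw [hf]; simp⟩

/-- rank one: every nonzero element divides a power of `ℓ`. -/
theorem exists_pow_eq_mul (hℓ : ℓ.Prime) (hA : A.LiesOverPrime ℓ) {x : Qb} (hx : x ≠ 0) :
    ∃ n : ℕ, ∃ a ∈ A, (ℓ : Qb) ^ n = x * a := by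
  by_cases hxA : x ∈ A.nonunits
  · have hmem := mem_of_mem_nonunits hxA
    have halg : IsAlgebraic ℤ x := by
      have : IsAlgebraic ℚ x := (AlgebraicClosure.isAlgebraic ℚ).isAlgebraic x
      exact (IsFractionRing.isAlgebraic_iff ℤ ℚ Qb).mpr this
    obtain ⟨f, hf0, hf⟩ := halg.exists_nonzero_coeff_and_aeval_eq_zero
      (mem_nonZeroDivisors_of_ne_zero hx)
    have hdec : f.divX * X + C (f.coeff 0) = f := divX_mul_X_add f
    have hev : aeval x f.divX * x + ((f.coeff 0 : ℤ) : Qb) = 0 := by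
      rw [← hf]
      conv_rhs => rw [← hdec]
      rw [map_add, map_mul, aeval_X, aeval_C]
      simp
    have hfin : FiniteMultiplicity (ℓ : ℤ) (f.coeff 0) := by
      rw [Int.finiteMultiplicity_iff]
      exact ⟨by simpa using hℓ.one_lt.ne', hf0⟩
    obtain ⟨b, hb, hb'⟩ := hfin.exists_eq_pow_mul_and_not_dvd
    have hbu : (b : Qb) ∉ A.nonunits := fun h => hb' ((H54.intCast_mem_nonunits_iff hℓ hA b).mp h)
    have hb0 : (b : Qb) ≠ 0 := by
      intro h0
      apply hbu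
      rw [h0, ValuationSubring.mem_nonunits_iff, map_zero]
      exact zero_lt_one
    refine ⟨multiplicity (ℓ : ℤ) (f.coeff 0), -(aeval x f.divX * (b : Qb)⁻¹),
      neg_mem (mul_mem (aeval_int_mem hmem _) (inv_mem_of_not_mem_nonunits hbu)), ?_⟩
    have h1 : ((f.coeff 0 : ℤ) : Qb) = (ℓ : Qb) ^ multiplicity (ℓ : ℤ) (f.coeff 0) * (b : Qb) := by
      conv_lhs => rw [hb]
      push_cast
      rfl
    rw [h1] at hev
    have h2 : (ℓ : Qb) ^ multiplicity (ℓ : ℤ) (f.coeff 0) =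
        -(aeval x f.divX * x) * (b : Qb)⁻¹ := by
      rw [eq_mul_inv_iff_mul_eq₀ hb0]
      linear_combination hev
    rw [h2]
    ring
  · exact ⟨0, x⁻¹, inv_mem_of_not_mem_nonunits hxA, by rw [pow_zero, mul_inv_cancel₀ hx]⟩

/-- uniform version: for `y` nonunit, and any `z`, and any `k`, `y ^ n * z ∈ ℓ ^ k A` for all large
`n`. -/
theorem exists_forall_pow_mul_mem (hℓ : ℓ.Prime) (hA : A.LiesOverPrime ℓ) {y : Qb}
    (hy : y ∈ A.nonunits) (z : Qb) (k : ℕ) :
    ∃ n₀ : ℕ, ∀ n, n₀ ≤ n → ∃ a ∈ A, y ^ n * z = (ℓ : Qb) ^ k * a := by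
  by_cases hz : z = 0
  · exact ⟨0, fun n _ => ⟨0, zero_mem A, by rw [hz, mul_zero, mul_zero]⟩⟩
  obtain ⟨m, b, hb, hyb⟩ := exists_pow_mem hℓ hA hy
  obtain ⟨s, c, hc, hzc⟩ := exists_pow_eq_mul hℓ hA (inv_ne_zero hz)
  refine ⟨m * (k + s), fun n hn => ?_⟩
  obtain ⟨t, rfl⟩ := Nat.exists_eq_add_of_le hn
  have hyA := mem_of_mem_nonunits hy
  refine ⟨b ^ (k + s) * y ^ t * c, mul_mem (mul_mem (pow_mem hb _) (pow_mem hyA _)) hc, ?_⟩
  have h1 : (ℓ : Qb) ^ s * z = c := by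
    rw [hzc]
    field_simp
  rw [pow_add, pow_mul, hyb, mul_pow, ← h1]
  ring

end RankOne

/-! ### decomposition and inertia -/

section Galois

local instance isAlgebraicQb : Algebra.IsAlgebraic ℚ Qb := AlgebraicClosure.isAlgebraic ℚ
local instance isAlgClosureQb : IsAlgClosure ℚ Qb := ⟨inferInstance, inferInstance⟩
local instance normalQb : Normal ℚ Qb := IsAlgClosure.normal ℚ Qb
local instance isGaloisQb : IsGalois ℚ Qb := ⟨⟩

local instance : TopologicalSpace Zb := ⊥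
local instance : DiscreteTopology Zb := ⟨rfl⟩

local instance continuousSMul_Zb : ContinuousSMul Gq Zb := by
  rw [continuousSMul_iff_stabilizer_isOpen]
  intro b
  have h := stabilizer_isOpen_of_isIntegral (K := ℚ) (b : Qb)
  have heq : (MulAction.stabilizer Gq b : Set Gq) = (MulAction.stabilizer Gq (b : Qb) : Set Gq) := by
    ext σ
    simp only [SetLike.mem_coe, MulAction.mem_stabilizer_iff]
    exact ⟨fun h => congrArg Subtype.val h, fun h => Subtype.ext h⟩
  rw [heq]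
  exact h

variable {ℓ : ℕ} {A : ValuationSubring Qb}

theorem apply_mem_iff {σ : Gq} (hσ : σ • A = A) (x : Qb) : σ x ∈ A ↔ x ∈ A := by
  have h1 : σ • x ∈ σ • A ↔ x ∈ A := ValuationSubring.smul_mem_pointwise_smul_iff
  rw [hσ] at h1
  exact h1

theorem apply_mem_nonunits_iff {σ : Gq} (hσ : σ • A = A) (x : Qb) :
    σ x ∈ A.nonunits ↔ x ∈ A.nonunits := by
  have h1 := H54.mem_nonunits_smul_iff σ A (σ x)
  rw [hσ] at h1
  rw [h1]
  have : σ⁻¹ (σ x) = x := σ.symm_apply_apply x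
  rw [this]

/-- explicit description of the inertia group -/
theorem mem_inertia_iff {σ : Gq} :
    σ ∈ A.inertiaSubgroupIn ℚ ↔ σ • A = A ∧ ∀ x ∈ A, σ x - x ∈ A.nonunits := by
  constructor
  · rintro ⟨σ', hσ', rfl⟩
    refine ⟨σ'.2, fun x hx => ?_⟩
    have h1 := congrArg (fun e => e (IsLocalRing.residue A ⟨x, hx⟩))
      (MonoidHom.mem_ker.mp hσ')
    have h2 : σ' • IsLocalRing.residue A ⟨x, hx⟩ = IsLocalRing.residue A ⟨x, hx⟩ := h1
    have h3 : IsLocalRing.residue A (σ' • (⟨x, hx⟩ : A)) = IsLocalRing.residue A ⟨x, hx⟩ := h2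
    rw [← sub_eq_zero, ← map_sub, IsLocalRing.residue_eq_zero_iff] at h3
    have h4 := ValuationSubring.coe_mem_nonunits_iff.mpr h3
    exact h4
  · rintro ⟨hσ, h⟩
    refine ⟨⟨σ, hσ⟩, ?_, rfl⟩
    refine MonoidHom.mem_ker.mpr (RingEquiv.ext fun y => ?_)
    obtain ⟨⟨x, hx⟩, rfl⟩ := IsLocalRing.residue_surjective y
    change IsLocalRing.residue A ((⟨σ, hσ⟩ : A.decompositionSubgroup ℚ) • (⟨x, hx⟩ : A)) =
      IsLocalRing.residue A ⟨x, hx⟩
    rw [← sub_eq_zero, ← map_sub, IsLocalRing.residue_eq_zero_iff]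
    exact ValuationSubring.coe_mem_nonunits_iff.mp (h x hx)

theorem inertia_le {σ : Gq} (h : σ ∈ A.inertiaSubgroupIn ℚ) : σ • A = A := (mem_inertia_iff.mp h).1

/-- the inertia group is normal in the decomposition group -/
theorem conj_mem_inertia {σ τ : Gq} (hσ : σ ∈ A.inertiaSubgroupIn ℚ) (hτ : τ • A = A) :
    τ⁻¹ * σ * τ ∈ A.inertiaSubgroupIn ℚ := by
  have hτ' : τ⁻¹ • A = A := by rw [inv_smul_eq_iff, hτ]
  rw [mem_inertia_iff] at hσ ⊢
  refine ⟨by rw [mul_smul, mul_smul, hτ, hσ.1, hτ'], fun x hx => ?_⟩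
  have h1 := hσ.2 (τ x) ((apply_mem_iff hτ x).mpr hx)
  have h2 := (apply_mem_nonunits_iff hτ' _).mpr h1
  rw [map_sub] at h2
  have h3 : τ⁻¹ (τ x) = x := τ.symm_apply_apply x
  rw [h3] at h2
  exact h2

variable (E : IntermediateField ℚ Qb)

/-- invariants of `Gal(ℚ̄/E)` on the algebraic integers -/
local instance isInvariant_E : Algebra.IsInvariant (FixedPoints.subalgebra ℤ Zb E.fixingSubgroup) Zb
    E.fixingSubgroup := ⟨fun b hb => ⟨⟨b, hb⟩, rfl⟩⟩

local instance smulComm_E : SMulCommClass E.fixingSubgroup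
    (FixedPoints.subalgebra ℤ Zb E.fixingSubgroup) Zb := ⟨fun n a b => by
  change n • ((a : Zb) * b) = (a : Zb) * (n • b)
  rw [smul_mul', a.2 n]⟩

local instance compact_E : CompactSpace E.fixingSubgroup :=
  isCompact_iff_compactSpace.mp (InfiniteGalois.fixingSubgroup_isClosed E).isCompact

theorem mem_of_fixed {x : Qb} (hx : ∀ σ ∈ E.fixingSubgroup, σ x = x) : x ∈ E := by
  have h : x ∈ IntermediateField.fixedField E.fixingSubgroup := by
    rw [IntermediateField.mem_fixedField_iff]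
    exact hx
  rwa [InfiniteGalois.fixedField_fixingSubgroup] at h

theorem fixed_of_mem {x : Qb} (hx : x ∈ E) {σ : Gq} (hσ : σ ∈ E.fixingSubgroup) : σ x = x :=
  (IntermediateField.mem_fixingSubgroup_iff E σ).mp hσ x hx

/-- If the restrictions to `E` of two places above `ℓ` coincide, they are conjugate under
`Gal(ℚ̄/E)`. -/
theorem exists_smul_eq_of_restrict (hℓ : ℓ.Prime) {A A' : ValuationSubring Qb}
    (hA : A.LiesOverPrime ℓ) (hA' : A'.LiesOverPrime ℓ)
    (h : ∀ v : Qb, v ∈ E → IsIntegral ℤ v → (v ∈ A.nonunits ↔ v ∈ A'.nonunits)) :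
    ∃ ρ ∈ E.fixingSubgroup, ρ • A = A' := by
  obtain ⟨ρ, hρ⟩ := Algebra.IsInvariant.exists_smul_of_under_eq_of_profinite
    (A := FixedPoints.subalgebra ℤ Zb E.fixingSubgroup) (B := Zb)
    (G := E.fixingSubgroup) (H54.primeBelow A) (H54.primeBelow A') (by
      ext ⟨b, hb⟩
      have hbE : (b : Qb) ∈ E := mem_of_fixed E fun σ hσ => congrArg Subtype.val (hb ⟨σ, hσ⟩)
      rw [Ideal.under_def, Ideal.under_def, Ideal.mem_comap, Ideal.mem_comap]
      change b ∈ H54.primeBelow A ↔ b ∈ H54.primeBelow A'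
      rw [H54.mem_primeBelow, H54.mem_primeBelow]
      exact h _ hbE b.2)
  refine ⟨ρ, ρ.2, H54.eq_of_primeBelow_eq hℓ (H54.liesOverPrime_smul hA _) hA' ?_⟩
  rw [H54.primeBelow_smul, hρ]
  rfl

theorem apply_mem_of_normal [Normal ℚ E] (σ : Gq) {x : Qb} (hx : x ∈ E) : σ x ∈ E := by
  have h := AlgEquiv.restrictNormal_commutes σ E ⟨x, hx⟩
  have h2 : σ x = ((AlgEquiv.restrictNormal σ E ⟨x, hx⟩ : E) : Qb) := h.symm
  rw [h2]
  exact Subtype.coe_prop _

theorem exists_pow_mem_fixingSubgroup [Normal ℚ E] [FiniteDimensional ℚ E] (g : Gq) :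
    ∃ k : ℕ, 0 < k ∧ g ^ k ∈ E.fixingSubgroup := by
  obtain ⟨k, hk, hk'⟩ := isOfFinOrder_iff_pow_eq_one.mp
    (isOfFinOrder_of_finite (AlgEquiv.restrictNormalHom E g : E ≃ₐ[ℚ] E))
  refine ⟨k, hk, ?_⟩
  rw [IntermediateField.mem_fixingSubgroup_iff]
  intro x hx
  have h := AlgEquiv.restrictNormal_commutes (g ^ k) E ⟨x, hx⟩
  have h2 : AlgEquiv.restrictNormal (g ^ k) E = 1 := by
    rw [← hk', ← map_pow]
    rfl
  rw [h2] at h
  exact h.symm

/-- (F2) separation of conjugate places at level `E` -/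
theorem exists_of_forall_ne [Normal ℚ E] [FiniteDimensional ℚ E] (hℓ : ℓ.Prime)
    (hA : A.LiesOverPrime ℓ) {g : Gq}
    (hg : ∀ d : Gq, d • A = A → ∀ n ∈ E.fixingSubgroup, g ≠ d * n) :
    ∃ v ∈ E, IsIntegral ℤ v ∧ v ∉ A.nonunits ∧ g v ∈ A.nonunits := by
  by_contra hcon
  push Not at hcon
  have hcon' : ∀ v ∈ E, IsIntegral ℤ v → g v ∈ A.nonunits → v ∈ A.nonunits := by
    intro v hv hv' hv''
    by_contra h
    exact hcon v hv hv' h hv''
  obtain ⟨k, hk, hgk⟩ := exists_pow_mem_fixingSubgroup E g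
  have hiter : ∀ j : ℕ, ∀ w ∈ E, IsIntegral ℤ w → (g ^ j) w ∈ A.nonunits → w ∈ A.nonunits := by
    intro j
    induction j with
    | zero => intro w _ _ hw; exact hw
    | succ j ih =>
      intro w hw hw' hw''
      refine hcon' w hw hw' (ih (g w) (apply_mem_of_normal E g hw) (hw'.map g) ?_)
      rw [pow_succ] at hw''
      exact hw''
  obtain ⟨ρ, hρ, hρA⟩ := exists_smul_eq_of_restrict E hℓ hA (H54.liesOverPrime_smul hA g⁻¹) (by
    intro v hv hv'
    rw [H54.mem_nonunits_smul_iff, inv_inv]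
    refine ⟨fun h => ?_, hcon' v hv hv'⟩
    refine hiter (k - 1) (g v) (apply_mem_of_normal E g hv) (hv'.map g) ?_
    have h1 : (g ^ (k - 1)) (g v) = (g ^ k) v := by
      conv_rhs => rw [← Nat.sub_add_cancel hk, pow_succ]
      rfl
    rw [h1, fixed_of_mem E hv hgk]
    exact h)
  refine hg (g * ρ) ?_ ρ⁻¹ (inv_mem hρ) (by group)
  rw [mul_smul, hρA, smul_inv_smul]

theorem prod_not_mem_nonunits {ι : Type*} (s : Finset ι) (f : ι → Qb)
    (hf : ∀ i ∈ s, f i ∈ A) (hf' : ∀ i ∈ s, f i ∉ A.nonunits) : ∏ i ∈ s, f i ∉ A.nonunits := by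
  rw [ValuationSubring.mem_nonunits_iff, map_prod, Finset.prod_eq_one fun i hi => ?_]
  · exact lt_irrefl _
  · have h2 := hf' i hi
    rw [ValuationSubring.mem_nonunits_iff, not_lt] at h2
    exact le_antisymm ((A.valuation_le_one_iff _).mpr (hf i hi)) h2

theorem prod_mem_nonunits {ι : Type*} [DecidableEq ι] (s : Finset ι) (f : ι → Qb)
    (hf : ∀ i ∈ s, f i ∈ A) {i : ι} (hi : i ∈ s) (hf' : f i ∈ A.nonunits) :
    ∏ i ∈ s, f i ∈ A.nonunits := by
  rw [← Finset.mul_prod_erase s f hi]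
  exact mul_mem_nonunits hf' (prod_mem fun j hj => hf j (Finset.mem_of_mem_erase hj))

theorem int_mem_place {v : Qb} (hv : IsIntegral ℤ v) : v ∈ A := H54.integral_mem A ⟨v, hv⟩

theorem finite_quotient_fixingSubgroup [FiniteDimensional ℚ E] :
    Finite (Gq ⧸ E.fixingSubgroup) :=
  Subgroup.quotient_finite_of_isOpen _ (IntermediateField.fixingSubgroup_isOpen E)

theorem normal_fixingSubgroup [Normal ℚ E] : (E.fixingSubgroup).Normal := by
  refine ⟨fun n hn g => ?_⟩
  rw [IntermediateField.mem_fixingSubgroup_iff]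
  intro x hx
  have h1 := fixed_of_mem E (apply_mem_of_normal E g⁻¹ hx) hn
  change g (n (g⁻¹ x)) = x
  rw [h1]
  exact g.apply_symm_apply x

/-- (F2') one inertia-invariant separating element for all conjugates -/
theorem exists_inertia_fixed [Normal ℚ E] [FiniteDimensional ℚ E] (hℓ : ℓ.Prime)
    (hA : A.LiesOverPrime ℓ) :
    ∃ v ∈ E, IsIntegral ℤ v ∧ (∀ ι ∈ A.inertiaSubgroupIn ℚ, ι v = v) ∧ v ∉ A.nonunits ∧
      ∀ g : Gq, (∀ d : Gq, d • A = A → ∀ n ∈ E.fixingSubgroup, g ≠ d * n) → g v ∈ A.nonunits := by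
  classical
  have hfinq := finite_quotient_fixingSubgroup E
  have := Fintype.ofFinite (Gq ⧸ E.fixingSubgroup)
  -- bad elements
  let Bad : Gq → Prop := fun g => ∀ d : Gq, d • A = A → ∀ n ∈ E.fixingSubgroup, g ≠ d * n
  have hex : ∀ g : Gq, ∃ v, v ∈ E ∧ IsIntegral ℤ v ∧ v ∉ A.nonunits ∧ (Bad g → g v ∈ A.nonunits) := by
    intro g
    by_cases hg : Bad g
    · obtain ⟨v, h1, h2, h3, h4⟩ := exists_of_forall_ne E hℓ hA hg
      exact ⟨v, h1, h2, h3, fun _ => h4⟩
    · exact ⟨1, one_mem _, isIntegral_one, one_not_mem_nonunits, fun h => absurd h hg⟩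
  choose v hvE hvint hvu hv using hex
  let v₀ : Qb := ∏ c : Gq ⧸ E.fixingSubgroup, v c.out
  have hv₀E : v₀ ∈ E := prod_mem fun c _ => hvE _
  have hv₀int : IsIntegral ℤ v₀ := IsIntegral.prod _ fun c _ => hvint _
  have hv₀u : v₀ ∉ A.nonunits :=
    prod_not_mem_nonunits _ _ (fun c _ => int_mem_place (hvint _)) fun c _ => hvu _
  have hv₀ : ∀ g, Bad g → g v₀ ∈ A.nonunits := by
    intro g hg
    obtain ⟨n, hn⟩ := QuotientGroup.mk_out_eq_mul E.fixingSubgroup g
    have hbad : Bad (QuotientGroup.mk g : Gq ⧸ E.fixingSubgroup).out := by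
      intro d hd n' hn' h
      refine hg d hd (n' * (n : Gq)⁻¹) (mul_mem hn' (inv_mem n.2)) ?_
      rw [← mul_assoc, ← h, hn]
      group
    have h1 : g v₀ = (QuotientGroup.mk g : Gq ⧸ E.fixingSubgroup).out v₀ := by
      rw [hn]
      change g v₀ = g ((n : Gq) v₀)
      rw [fixed_of_mem E hv₀E n.2]
    rw [h1, map_prod]
    refine prod_mem_nonunits _ _ (fun c _ => int_mem_place ((hvint _).map _))
      (Finset.mem_univ (QuotientGroup.mk g : Gq ⧸ E.fixingSubgroup)) (hv _ hbad)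
  -- product over the inertia orbit
  set O : Set Qb := {y | ∃ ι ∈ A.inertiaSubgroupIn ℚ, y = ι v₀} with hO
  have hfin : O.Finite := by
    refine Set.Finite.subset (Polynomial.rootSet_finite (minpoly ℚ v₀) Qb) ?_
    rintro _ ⟨ι, _, rfl⟩
    rw [Polynomial.mem_rootSet]
    refine ⟨minpoly.ne_zero (Algebra.IsAlgebraic.isAlgebraic v₀).isIntegral, ?_⟩
    rw [Polynomial.aeval_algHom_apply, minpoly.aeval, map_zero]
  set s : Finset Qb := hfin.toFinset with hs
  have hmem : ∀ y, y ∈ s ↔ ∃ ι ∈ A.inertiaSubgroupIn ℚ, y = ι v₀ := by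
    intro y
    rw [hs, Set.Finite.mem_toFinset]
    rfl
  have hsint : ∀ y ∈ s, IsIntegral ℤ y := by
    intro y hy
    obtain ⟨ι, hι, rfl⟩ := (hmem y).mp hy
    exact hv₀int.map _
  refine ⟨∏ y ∈ s, y, ?_, ?_, ?_, ?_, ?_⟩
  · refine prod_mem fun y hy => ?_
    obtain ⟨ι, hι, rfl⟩ := (hmem y).mp hy
    exact apply_mem_of_normal E ι hv₀E
  · exact IsIntegral.prod _ hsint
  · intro ι hι
    have himg : s.image ι = s := by
      ext y
      rw [Finset.mem_image]
      constructor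
      · rintro ⟨z, hz, rfl⟩
        obtain ⟨τ, hτ, rfl⟩ := (hmem z).mp hz
        exact (hmem _).mpr ⟨ι * τ, mul_mem hι hτ, rfl⟩
      · intro hy
        obtain ⟨τ, hτ, rfl⟩ := (hmem y).mp hy
        refine ⟨(ι⁻¹ * τ) v₀, (hmem _).mpr ⟨ι⁻¹ * τ, mul_mem (inv_mem hι) hτ, rfl⟩, ?_⟩
        change (ι * (ι⁻¹ * τ)) v₀ = τ v₀
        rw [mul_inv_cancel_left]
    rw [map_prod]
    conv_rhs => rw [← himg]
    rw [Finset.prod_image fun a _ b _ hab => ι.injective hab]
  · refine prod_not_mem_nonunits _ _ (fun y hy => int_mem_place (hsint y hy)) fun y hy => ?_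
    obtain ⟨ι, hι, rfl⟩ := (hmem y).mp hy
    rw [apply_mem_nonunits_iff (inertia_le hι)]
    exact hv₀u
  · intro g hg
    rw [map_prod]
    refine prod_mem_nonunits s _ (fun y hy => int_mem_place ((hsint y hy).map _))
      ((hmem v₀).mpr ⟨1, one_mem _, rfl⟩) (hv₀ g hg)

/-- the key part of (F3): an element of the decomposition group which is trivial on residues of
inertia-invariant elements is trivial on all residues -/
theorem residue_trivial_of_invariants [Normal ℚ E] {g : Gq} (hg : g • A = A)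
    (h : ∀ x ∈ A, x ∈ E → (∀ ι ∈ A.inertiaSubgroupIn ℚ, ι x = x) → g x - x ∈ A.nonunits)
    {x : Qb} (hx : x ∈ A) (hxE : x ∈ E) : g x - x ∈ A.nonunits := by
  classical
  set O : Set Qb := {y | ∃ ι ∈ A.inertiaSubgroupIn ℚ, y = ι x} with hO
  have hfin : O.Finite := by
    refine Set.Finite.subset (Polynomial.rootSet_finite (minpoly ℚ x) Qb) ?_
    rintro _ ⟨ι, _, rfl⟩
    rw [Polynomial.mem_rootSet]
    refine ⟨minpoly.ne_zero (Algebra.IsAlgebraic.isAlgebraic x).isIntegral, ?_⟩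
    rw [Polynomial.aeval_algHom_apply, minpoly.aeval, map_zero]
  set s : Finset Qb := hfin.toFinset with hs
  have hmem : ∀ y, y ∈ s ↔ ∃ ι ∈ A.inertiaSubgroupIn ℚ, y = ι x := by
    intro y
    rw [hs, Set.Finite.mem_toFinset]
    rfl
  set F : Qb[X] := ∏ y ∈ s, (X - C y) with hF
  have hmapF : ∀ σ : Gq, F.map (σ : Qb →+* Qb) = ∏ y ∈ s, (X - C (σ y)) := by
    intro σ
    rw [hF, Polynomial.map_prod]
    refine Finset.prod_congr rfl fun y _ => ?_
    rw [Polynomial.map_sub, map_X, map_C]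
    rfl
  have hinv : ∀ ι ∈ A.inertiaSubgroupIn ℚ, F.map (ι : Qb →+* Qb) = F := by
    intro ι hι
    rw [hmapF]
    have himg : s.image ι = s := by
      ext y
      rw [Finset.mem_image]
      constructor
      · rintro ⟨z, hz, rfl⟩
        obtain ⟨τ, hτ, rfl⟩ := (hmem z).mp hz
        exact (hmem _).mpr ⟨ι * τ, mul_mem hι hτ, rfl⟩
      · intro hy
        obtain ⟨τ, hτ, rfl⟩ := (hmem y).mp hy
        refine ⟨(ι⁻¹ * τ) x, (hmem _).mpr ⟨ι⁻¹ * τ, mul_mem (inv_mem hι) hτ, rfl⟩, ?_⟩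
        change (ι * (ι⁻¹ * τ)) x = τ x
        rw [mul_inv_cancel_left]
    conv_rhs => rw [hF, ← himg]
    rw [Finset.prod_image fun a _ b _ hab => ι.injective hab]
  have hcoeff_mem : ∀ y ∈ s, y ∈ A := by
    intro y hy
    obtain ⟨τ, hτ, rfl⟩ := (hmem y).mp hy
    exact (apply_mem_iff (inertia_le hτ) x).mpr hx
  have hcoeff_memE : ∀ y ∈ s, y ∈ E := by
    intro y hy
    obtain ⟨τ, hτ, rfl⟩ := (hmem y).mp hy
    exact apply_mem_of_normal E τ hxE
  -- coefficients of a product of linear factors over a subring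
  have hsub : ∀ S : Subring Qb, (∀ y ∈ s, y ∈ S) → ∀ i, F.coeff i ∈ S := by
    intro S hS
    have h1 : ∀ t : Finset Qb, t ⊆ s → (∏ y ∈ t, (X - C y) : Qb[X]) ∈ Polynomial.lifts S.subtype := by
      intro t ht
      refine Subsemiring.prod_mem _ fun y hy => ?_
      refine (Polynomial.lifts_iff_ringHom_rangeS _).mpr ?_
      exact ⟨X - C ⟨y, hS y (ht hy)⟩, by
        change Polynomial.map S.subtype (X - C ⟨y, hS y (ht hy)⟩) = _
        rw [Polynomial.map_sub, map_X, map_C]; rfl⟩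
    intro i
    have h2 := h1 s (Finset.Subset.refl s)
    rw [Polynomial.lifts_iff_coeff_lifts] at h2
    obtain ⟨a, ha⟩ := h2 i
    rw [hF, ← ha]
    exact a.2
  have hcA : ∀ i, F.coeff i ∈ A := hsub A.toSubring hcoeff_mem
  have hcE : ∀ i, F.coeff i ∈ E := hsub E.toSubalgebra.toSubring hcoeff_memE
  have hcI : ∀ i, ∀ ι ∈ A.inertiaSubgroupIn ℚ, ι (F.coeff i) = F.coeff i := by
    intro i ι hι
    have h1 := congrArg (fun q => q.coeff i) (hinv ι hι)
    simp only [coeff_map] at h1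
    exact h1
  have hxs : x ∈ s := (hmem x).mpr ⟨1, one_mem _, rfl⟩
  have hFx : F.eval x = 0 := by
    rw [hF, eval_prod]
    exact Finset.prod_eq_zero hxs (by simp)
  have hgF : (F.map (g : Qb →+* Qb)).eval x ∈ A.nonunits := by
    have h1 : (F.map (g : Qb →+* Qb)).eval x = (F.map (g : Qb →+* Qb) - F).eval x := by
      rw [eval_sub, hFx, sub_zero]
    rw [h1, eval_eq_sum_range]
    have h2 : ∀ t : Finset ℕ, ∑ i ∈ t, (F.map (g : Qb →+* Qb) - F).coeff i * x ^ i ∈ A.nonunits := by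
      intro t
      induction t using Finset.induction_on with
      | empty =>
        rw [Finset.sum_empty, ValuationSubring.mem_nonunits_iff, map_zero]
        exact zero_lt_one
      | insert a t ha ih =>
        rw [Finset.sum_insert ha]
        refine add_mem_nonunits (mul_mem_nonunits ?_ (pow_mem hx _)) ih
        rw [coeff_sub, coeff_map]
        exact h _ (hcA a) (hcE a) (hcI a)
    exact h2 _
  rw [hmapF, eval_prod] at hgF
  have hex : ∃ y ∈ s, (X - C (g y)).eval x ∈ A.nonunits := by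
    by_contra hcon
    push Not at hcon
    have h1 : ∀ t ⊆ s, A.valuation (∏ y ∈ t, (X - C (g y)).eval x) = 1 := by
      intro t ht
      rw [map_prod]
      refine Finset.prod_eq_one fun y hy => ?_
      have h2 := hcon y (ht hy)
      rw [ValuationSubring.mem_nonunits_iff, not_lt] at h2
      refine le_antisymm ((A.valuation_le_one_iff _).mpr ?_) h2
      rw [eval_sub, eval_X, eval_C]
      exact sub_mem hx ((apply_mem_iff hg y).mpr (hcoeff_mem y (ht hy)))
    rw [ValuationSubring.mem_nonunits_iff, h1 s (Finset.Subset.refl s)] at hgF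
    exact lt_irrefl _ hgF
  obtain ⟨y, hy, hyx⟩ := hex
  obtain ⟨ι, hι, rfl⟩ := (hmem y).mp hy
  rw [eval_sub, eval_X, eval_C] at hyx
  have h3 := (mem_inertia_iff.mp hι).2 x hx
  have h4 := (apply_mem_nonunits_iff hg _).mpr h3
  rw [map_sub] at h4
  have h5 := neg_mem_nonunits (add_mem_nonunits hyx h4)
  have h6 : -(x - g (ι x) + (g (ι x) - g x)) = g x - x := by ring
  rwa [h6] at h5

theorem smul_primeBelow_of_smul {g : Gq} (hg : g • A = A) :
    g • H54.primeBelow A = H54.primeBelow A := by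
  rw [← H54.primeBelow_smul, hg]

/-- an element of the decomposition group which is trivial on residues of `A ∩ E` is in
`I · Gal(ℚ̄/E)` -/
theorem exists_mem_inertia_of_residue [Normal ℚ E] (hℓ : ℓ.Prime) (hA : A.LiesOverPrime ℓ)
    {g : Gq} (hg : g • A = A) (h : ∀ x ∈ A, x ∈ E → g x - x ∈ A.nonunits) :
    ∃ ι ∈ A.inertiaSubgroupIn ℚ, ∃ n ∈ E.fixingSubgroup, g = ι * n := by
  let Q : Ideal Zb := H54.primeBelow A
  let P : Ideal (FixedPoints.subalgebra ℤ Zb E.fixingSubgroup) := Q.under _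
  have hlies : Q.LiesOver P := ⟨rfl⟩
  have hlies' : Q.LiesOver (Q.under ℤ) := ⟨rfl⟩
  have hgQ : g • Q = Q := smul_primeBelow_of_smul hg
  let e₀ := Ideal.Quotient.stabilizerHom Q (Q.under ℤ) Gq ⟨g, hgQ⟩
  have he₀ : ∀ b : Zb, e₀ (Ideal.Quotient.mk Q b) = Ideal.Quotient.mk Q (g • b) := fun b => rfl
  let e : (Zb ⧸ Q) ≃ₐ[FixedPoints.subalgebra ℤ Zb E.fixingSubgroup ⧸ P] (Zb ⧸ Q) :=
    AlgEquiv.ofRingEquiv (f := (e₀ : (Zb ⧸ Q) ≃+* (Zb ⧸ Q))) (by
      intro r
      obtain ⟨⟨b, hb⟩, rfl⟩ := Ideal.Quotient.mk_surjective r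
      have hbE : (b : Qb) ∈ E := mem_of_fixed E fun σ hσ => congrArg Subtype.val (hb ⟨σ, hσ⟩)
      change Ideal.Quotient.mk Q (g • b) = Ideal.Quotient.mk Q b
      rw [Ideal.Quotient.eq, H54.mem_primeBelow]
      exact h _ (H54.integral_mem A b) hbE)
  obtain ⟨τ, hτ⟩ := Ideal.Quotient.stabilizerHom_surjective_of_profinite
    (G := E.fixingSubgroup) P Q e
  have hτ' : ∀ b : Zb, (τ.1 : Gq) (b : Qb) - g (b : Qb) ∈ A.nonunits := by
    intro b
    have h1 := DFunLike.congr_fun hτ (Ideal.Quotient.mk Q b)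
    have h2 : Ideal.Quotient.mk Q (τ.1 • b) = Ideal.Quotient.mk Q (g • b) := h1
    rw [Ideal.Quotient.eq, H54.mem_primeBelow] at h2
    exact h2
  set n : Gq := (τ.1 : Gq) with hn
  have hnN : n ∈ E.fixingSubgroup := τ.1.2
  have hnA : n • A = A := by
    refine H54.eq_of_primeBelow_eq hℓ (H54.liesOverPrime_smul hA _) hA ?_
    rw [H54.primeBelow_smul]
    exact τ.2
  have hkey : ∀ z ∈ A, g z - n z ∈ A.nonunits := by
    intro z hz
    obtain ⟨s, b, hs, hsb⟩ := H54.exists_mul_eq hℓ hA hz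
    have hs' : n (s : Qb) ∉ A.nonunits := by
      rw [apply_mem_nonunits_iff hnA, ← H54.mem_primeBelow]
      exact hs
    have h1 : n (s : Qb) * (g z - n z) ∈ A.nonunits := by
      have e1 : n (s : Qb) * n z = n b := by rw [← map_mul, hsb]
      have e2 : g (s : Qb) * g z = g b := by rw [← map_mul, hsb]
      have e3 : n (s : Qb) * (g z - n z) =
          (n (s : Qb) - g s) * g z + -(n b - g b) := by
        rw [← e1, ← e2]; ring
      rw [e3]
      exact add_mem_nonunits (mul_mem_nonunits (hτ' s) ((apply_mem_iff hg z).mpr hz))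
        (neg_mem_nonunits (hτ' b))
    have hs0 : n (s : Qb) ≠ 0 := by
      intro h0
      apply hs'
      rw [h0, ValuationSubring.mem_nonunits_iff, map_zero]
      exact zero_lt_one
    have h2 := mul_mem_nonunits h1 (inv_mem_of_not_mem_nonunits hs')
    have e4 : n (s : Qb) * (g z - n z) * (n (s : Qb))⁻¹ = g z - n z := by
      field_simp
    rwa [e4] at h2
  refine ⟨g * n⁻¹, mem_inertia_iff.mpr ⟨?_, ?_⟩, n, hnN, by group⟩
  · have : n⁻¹ • A = A := by rw [inv_smul_eq_iff, hnA]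
    rw [mul_smul, this, hg]
  · intro x hx
    have hn' : n⁻¹ • A = A := by rw [inv_smul_eq_iff, hnA]
    have h1 := hkey (n⁻¹ x) ((apply_mem_iff hn' x).mpr hx)
    have h2 : n (n⁻¹ x) = x := n.apply_symm_apply x
    rw [h2] at h1
    exact h1

/-- (F3) -/
theorem exists_mem_inertia_mul [Normal ℚ E] (hℓ : ℓ.Prime) (hA : A.LiesOverPrime ℓ)
    {g : Gq} (hg : g • A = A)
    (h : ∀ x ∈ A, x ∈ E → (∀ ι ∈ A.inertiaSubgroupIn ℚ, ι x = x) → g x - x ∈ A.nonunits) :
    ∃ ι ∈ A.inertiaSubgroupIn ℚ, ∃ n ∈ E.fixingSubgroup, g = ι * n :=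
  exists_mem_inertia_of_residue E hℓ hA hg fun _ hx hxE =>
    residue_trivial_of_invariants E hg h hx hxE

end Galois

end Fermat.Agent.H43
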