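import Mathlib
import Fermat.Prelude.Def_EllipticCurve_FrobeniusTrace

/-!
# Places of `ℚ̄` above a prime: localisation description, conjugacy, existence of Frobenius

Reusable facts about valuation subrings of `AlgebraicClosure ℚ` lying over a prime `ℓ`.
-/

set_option autoImplicit false

open scoped Pointwise
open Polynomial

namespace Fermat.Agent.H54

/-- `ℚ̄`. -/
local notation "Qb" => AlgebraicClosure ℚ
/-- The ring of all algebraic integers in `ℚ̄`. -/
local notation "Zb" => integralClosure ℤ (AlgebraicClosure ℚ)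
local notation "Gq" => (AlgebraicClosure ℚ ≃ₐ[ℚ] AlgebraicClosure ℚ)

/-- Every prime has a place of `ℚ̄` above it. -/
theorem exists_liesOverPrime {q : ℕ} (hq : q.Prime) :
    ∃ A : ValuationSubring Qb, A.LiesOverPrime q := by
  let R : Subring Qb := (Int.castRingHom Qb).range
  let I : Ideal R := Ideal.span {(⟨(q : Qb), ⟨(q : ℤ), by simp⟩⟩ : R)}
  have hI : I ≠ ⊤ := by
    intro h
    rw [Ideal.span_singleton_eq_top] at h
    obtain ⟨u, hu⟩ := h.exists_right_inv
    have hu' := congrArg Subtype.val hu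
    obtain ⟨n, hn⟩ := u.2
    simp only [MulMemClass.coe_mul, OneMemClass.coe_one] at hu'
    rw [← hn] at hu'
    have h2 : ((q * n : ℤ) : Qb) = ((1 : ℤ) : Qb) := by
      push_cast
      simpa using hu'
    have h3 : (q : ℤ) * n = 1 := Int.cast_injective h2
    have h4 : (q : ℤ) ∣ 1 := ⟨n, h3.symm⟩
    have h5 := Int.le_of_dvd one_pos h4
    have := hq.two_le
    omega
  obtain ⟨V, hV1, hV2⟩ := Ideal.image_subset_nonunits_valuationSubring I hI
  exact ⟨V, hV2 ⟨_, Ideal.mem_span_singleton_self _, rfl⟩⟩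

/-- Algebraic integers belong to every valuation subring of `ℚ̄`. -/
theorem integral_mem (A : ValuationSubring Qb) (b : Zb) : (b : Qb) ∈ A := by
  have hb : IsIntegral ℤ (b : Qb) := b.2
  have hb' : IsIntegral A (b : Qb) := hb.tower_top
  obtain ⟨y, hy⟩ := IsIntegrallyClosed.isIntegral_iff.mp hb'
  rw [← hy]
  exact y.2

/-- The inclusion of the ring of algebraic integers into a valuation subring of `ℚ̄`. -/
noncomputable def toPlace (A : ValuationSubring Qb) : Zb →+* A where
  toFun b := ⟨(b : Qb), integral_mem A b⟩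
  map_one' := rfl
  map_mul' _ _ := rfl
  map_zero' := rfl
  map_add' _ _ := rfl

@[simp] theorem coe_toPlace (A : ValuationSubring Qb) (b : Zb) : (toPlace A b : Qb) = b := rfl

/-- The prime of the ring of algebraic integers cut out by a valuation subring of `ℚ̄`. -/
noncomputable def primeBelow (A : ValuationSubring Qb) : Ideal Zb :=
  (IsLocalRing.maximalIdeal A).comap (toPlace A)

instance primeBelow_isPrime (A : ValuationSubring Qb) : (primeBelow A).IsPrime :=
  Ideal.comap_isPrime _ _

theorem mem_primeBelow {A : ValuationSubring Qb} {b : Zb} :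
    b ∈ primeBelow A ↔ (b : Qb) ∈ A.nonunits := by
  rw [primeBelow, Ideal.mem_comap, ValuationSubring.mem_nonunits_iff_exists_mem_maximalIdeal]
  exact ⟨fun h => ⟨integral_mem A b, h⟩, fun ⟨_, h⟩ => h⟩

theorem exists_mul_mem_aux (A : ValuationSubring Qb) (x : Qb) (hx : x ∈ A) :
    ∀ (n : ℕ) (f : Polynomial Zb), f.natDegree ≤ n → aeval x f = 0 →
      (∃ i, f.coeff i ∉ primeBelow A) → ∃ s : Zb, s ∉ primeBelow A ∧ IsIntegral ℤ ((s : Qb) * x) := by
  intro n
  induction n with
  | zero =>
    intro f hf hroot ⟨i, hi⟩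
    rw [Nat.le_zero, natDegree_eq_zero] at hf
    obtain ⟨a, rfl⟩ := hf
    rw [aeval_C] at hroot
    have ha : a = 0 := Subtype.ext hroot
    subst ha
    simp at hi
  | succ n ih =>
    intro f hf hroot hi
    set a : Zb := f.coeff (n + 1) with ha
    -- `a * x` is integral
    have hint : IsIntegral ℤ ((a : Qb) * x) := by
      by_cases h0 : a = 0
      · rw [h0]
        simpa using isIntegral_zero
      · have hdeg : f.natDegree = n + 1 := le_antisymm hf (le_natDegree_of_ne_zero h0)
        have h1 : IsIntegral Zb (f.leadingCoeff • x) := isIntegral_leadingCoeff_smul f x hroot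
        have h2 : IsIntegral ℤ (f.leadingCoeff • x) := isIntegral_trans (R := ℤ) _ h1
        rw [leadingCoeff, hdeg] at h2
        exact h2
    by_cases haQ : a ∈ primeBelow A
    · -- lower the degree
      set c : Zb := ⟨(a : Qb) * x, hint⟩ with hc
      set g : Polynomial Zb := f - C a * X ^ (n + 1) + C c * X ^ n with hg
      refine ih g ?_ ?_ ?_
      · rw [natDegree_le_iff_coeff_eq_zero]
        intro m hm
        rw [hg, coeff_add, coeff_sub, coeff_C_mul, coeff_C_mul, coeff_X_pow, coeff_X_pow]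
        rcases Nat.lt_or_ge (n + 1) m with h | h
        · rw [coeff_eq_zero_of_natDegree_lt (lt_of_le_of_lt hf h), if_neg (by omega),
            if_neg (by omega)]
          simp
        · have : m = n + 1 := by omega
          subst this
          rw [if_pos rfl, if_neg (by omega)]
          simp [ha]
      · rw [hg, map_add, map_sub, hroot]
        simp only [map_mul, aeval_C, map_pow, aeval_X]
        have : algebraMap Zb Qb c = algebraMap Zb Qb a * x := rfl
        rw [this]
        ring
      · have hcQ : c ∈ primeBelow A := by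
          rw [mem_primeBelow] at haQ ⊢
          rw [hc]
          rw [ValuationSubring.mem_nonunits_iff] at haQ ⊢
          show A.valuation ((a : Qb) * x) < 1
          rw [map_mul]
          exact mul_lt_one_of_lt_of_le haQ ((A.valuation_le_one_iff x).mpr hx)
        by_contra hcon
        push Not at hcon
        obtain ⟨i, hi⟩ := hi
        apply hi
        have hfg : f = g + C a * X ^ (n + 1) - C c * X ^ n := by rw [hg]; ring
        rw [hfg, coeff_sub, coeff_add, coeff_C_mul, coeff_C_mul]
        exact Ideal.sub_mem _ (Ideal.add_mem _ (hcon i) (Ideal.mul_mem_right _ _ haQ))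
          (Ideal.mul_mem_right _ _ hcQ)
    · exact ⟨a, haQ, hint⟩

theorem intCast_mem_nonunits_iff {q : ℕ} (hq : q.Prime) {A : ValuationSubring Qb}
    (hA : A.LiesOverPrime q) (n : ℤ) : (n : Qb) ∈ A.nonunits ↔ (q : ℤ) ∣ n := by
  have hA' : A.valuation (q : Qb) < 1 := hA
  rw [ValuationSubring.mem_nonunits_iff]
  have hle : ∀ m : ℤ, A.valuation (m : Qb) ≤ 1 := fun m =>
    (A.valuation_le_one_iff _).mpr (intCast_mem A.toSubring m)
  constructor
  · intro h
    by_contra hdvd
    have hcop : IsCoprime (q : ℤ) n := by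
      rw [Int.isCoprime_iff_gcd_eq_one]
      have := (Nat.Prime.coprime_iff_not_dvd hq).mpr (fun h' => hdvd (Int.natCast_dvd.mpr h'))
      simpa [Int.gcd] using this
    obtain ⟨u, v, huv⟩ := hcop
    have h1 : A.valuation (1 : Qb) < 1 := by
      have : (1 : Qb) = (u : Qb) * (q : Qb) + (v : Qb) * (n : Qb) := by exact_mod_cast huv.symm
      rw [this]
      refine A.valuation.map_add_lt ?_ ?_
      · rw [map_mul, mul_comm]; exact mul_lt_one_of_lt_of_le hA' (hle u)
      · rw [map_mul, mul_comm]; exact mul_lt_one_of_lt_of_le h (hle v)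
    simp at h1
  · rintro ⟨m, rfl⟩
    push_cast
    rw [map_mul]
    exact mul_lt_one_of_lt_of_le hA' (hle m)

/-- A place of `ℚ̄` above `q` is the localisation of the algebraic integers at `primeBelow`. -/
theorem exists_mul_eq {q : ℕ} (hq : q.Prime) {A : ValuationSubring Qb}
    (hA : A.LiesOverPrime q) {x : Qb} (hx : x ∈ A) :
    ∃ s b : Zb, s ∉ primeBelow A ∧ (s : Qb) * x = b := by
  obtain ⟨f, hf0, hf⟩ : ∃ f : Polynomial ℤ, f ≠ 0 ∧ aeval x f = 0 := by
    have : IsAlgebraic ℚ x := (AlgebraicClosure.isAlgebraic ℚ).isAlgebraic x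
    exact (IsFractionRing.isAlgebraic_iff ℤ ℚ Qb).mpr this
  have hprim := f.isPrimitive_primPart
  have hroot : aeval x f.primPart = 0 := aeval_primPart_eq_zero hf0 hf
  set g : Polynomial Zb := f.primPart.map (algebraMap ℤ Zb) with hg
  obtain ⟨s, hs, hsx⟩ := exists_mul_mem_aux A x hx g.natDegree g le_rfl
    (by rw [hg, aeval_map_algebraMap]; exact hroot)
    (by
      by_contra hcon
      push Not at hcon
      have hdvd : ∀ i, (q : ℤ) ∣ f.primPart.coeff i := by
        intro i
        have h := hcon i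
        rw [hg, coeff_map, mem_primeBelow] at h
        have h2 : ((algebraMap ℤ Zb (f.primPart.coeff i) : Zb) : Qb)
          = ((f.primPart.coeff i : ℤ) : Qb) := by simp
        rw [h2] at h
        exact (intCast_mem_nonunits_iff hq hA _).mp h
      have := hprim (q : ℤ) ((C_dvd_iff_dvd_coeff _ _).mpr hdvd)
      rw [Int.isUnit_iff] at this
      have := hq.two_le
      omega)
  exact ⟨s, ⟨_, hsx⟩, hs, rfl⟩

theorem mem_iff_exists {q : ℕ} (hq : q.Prime) {A : ValuationSubring Qb}
    (hA : A.LiesOverPrime q) {x : Qb} :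
    x ∈ A ↔ ∃ s b : Zb, s ∉ primeBelow A ∧ (s : Qb) * x = b := by
  refine ⟨exists_mul_eq hq hA, ?_⟩
  rintro ⟨s, b, hs, hsb⟩
  rw [mem_primeBelow, ValuationSubring.mem_nonunits_iff, not_lt] at hs
  have hs1 : A.valuation (s : Qb) = 1 :=
    le_antisymm ((A.valuation_le_one_iff _).mpr (integral_mem A s)) hs
  rw [← A.valuation_le_one_iff]
  have h := congrArg A.valuation hsb
  rw [map_mul, hs1, one_mul] at h
  rw [h, A.valuation_le_one_iff]
  exact integral_mem A b

/-- Two places of `ℚ̄` above `q` with the same prime of algebraic integers are equal. -/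
theorem eq_of_primeBelow_eq {q : ℕ} (hq : q.Prime) {A A' : ValuationSubring Qb}
    (hA : A.LiesOverPrime q) (hA' : A'.LiesOverPrime q) (h : primeBelow A = primeBelow A') :
    A = A' := by
  ext x
  rw [mem_iff_exists hq hA, mem_iff_exists hq hA', h]

/-! ### Galois action -/

local instance isAlgebraicQb : Algebra.IsAlgebraic ℚ Qb := AlgebraicClosure.isAlgebraic ℚ
local instance isAlgClosureQb : IsAlgClosure ℚ Qb := ⟨inferInstance, inferInstance⟩
local instance normalQb : Normal ℚ Qb := IsAlgClosure.normal ℚ Qb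
local instance isGaloisQb : IsGalois ℚ Qb := ⟨⟩

theorem coe_smul_Zb (σ : Gq) (b : Zb) : ((σ • b : Zb) : Qb) = σ (b : Qb) := rfl

local instance : TopologicalSpace Zb := ⊥
local instance : DiscreteTopology Zb := ⟨rfl⟩

local instance continuousSMul_Zb : ContinuousSMul Gq Zb := by
  rw [continuousSMul_iff_stabilizer_isOpen]
  intro b
  have h := stabilizer_isOpen_of_isIntegral (K := ℚ) (b : Qb)
  have heq : (MulAction.stabilizer Gq b : Set Gq) = (MulAction.stabilizer Gq (b : Qb) : Set Gq) := by
    ext σ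
    simp only [SetLike.mem_coe, MulAction.mem_stabilizer_iff]
    exact ⟨fun h => congrArg Subtype.val h, fun h => Subtype.ext h⟩
  rw [heq]
  exact h

local instance isInvariant_Zb : Algebra.IsInvariant ℤ Zb Gq := by
  constructor
  intro b hb
  have hfix : ∀ σ : Gq, σ (b : Qb) = b := fun σ => congrArg Subtype.val (hb σ)
  have hmem : (b : Qb) ∈ (⊥ : IntermediateField ℚ Qb) :=
    (InfiniteGalois.mem_bot_iff_fixed (b : Qb)).mpr hfix
  rw [IntermediateField.mem_bot] at hmem
  obtain ⟨r, hr⟩ := hmem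
  have hint : IsIntegral ℤ r := by
    have h1 : IsIntegral ℤ (algebraMap ℚ Qb r) := by rw [hr]; exact b.2
    exact (isIntegral_algebraMap_iff (algebraMap ℚ Qb).injective).mp h1
  obtain ⟨m, hm⟩ := IsIntegrallyClosed.isIntegral_iff.mp hint
  refine ⟨m, Subtype.ext ?_⟩
  rw [← hr, ← hm]
  simp

theorem mem_nonunits_smul_iff (σ : Gq) (A : ValuationSubring Qb) (x : Qb) :
    x ∈ (σ • A).nonunits ↔ σ⁻¹ x ∈ A.nonunits := by
  rw [ValuationSubring.mem_nonunits_iff_exists_mem_maximalIdeal,
    ValuationSubring.mem_nonunits_iff_exists_mem_maximalIdeal]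
  simp only [IsLocalRing.mem_maximalIdeal, mem_nonunits_iff]
  have hmem : ∀ y : Qb, y ∈ σ • A ↔ σ⁻¹ y ∈ A := fun y =>
    ValuationSubring.mem_pointwise_smul_iff_inv_smul_mem
  constructor
  · rintro ⟨hx, hu⟩
    refine ⟨(hmem x).mp hx, fun hu' => hu ?_⟩
    obtain ⟨v, hv⟩ := hu'.exists_right_inv
    refine IsUnit.of_mul_eq_one ⟨σ (v : Qb), (hmem _).mpr (by simp)⟩ (Subtype.ext ?_)
    have hv' : σ⁻¹ x * (v : Qb) = 1 := congrArg Subtype.val hv
    show x * σ (v : Qb) = 1
    have := congrArg σ hv'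
    rw [map_mul, map_one] at this
    simpa using this
  · rintro ⟨hx, hu⟩
    refine ⟨(hmem x).mpr hx, fun hu' => hu ?_⟩
    obtain ⟨v, hv⟩ := hu'.exists_right_inv
    refine IsUnit.of_mul_eq_one ⟨σ⁻¹ (v : Qb), (hmem _).mp v.2⟩ (Subtype.ext ?_)
    have hv' : x * (v : Qb) = 1 := congrArg Subtype.val hv
    show σ⁻¹ x * σ⁻¹ (v : Qb) = 1
    rw [← map_mul, hv', map_one]

theorem liesOverPrime_smul {q : ℕ} {A : ValuationSubring Qb} (hA : A.LiesOverPrime q) (σ : Gq) :
    (σ • A).LiesOverPrime q := by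
  show (q : Qb) ∈ (σ • A).nonunits
  rw [mem_nonunits_smul_iff, map_natCast]
  exact hA

theorem primeBelow_smul (σ : Gq) (A : ValuationSubring Qb) :
    primeBelow (σ • A) = σ • primeBelow A := by
  ext b
  rw [Ideal.mem_pointwise_smul_iff_inv_smul_mem, mem_primeBelow, mem_primeBelow,
    mem_nonunits_smul_iff]
  rfl

theorem under_primeBelow {q : ℕ} (hq : q.Prime) {A : ValuationSubring Qb}
    (hA : A.LiesOverPrime q) : (primeBelow A).under ℤ = Ideal.span {(q : ℤ)} := by
  ext n
  rw [Ideal.mem_span_singleton, Ideal.under_def, Ideal.mem_comap, mem_primeBelow,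
    ← intCast_mem_nonunits_iff hq hA]
  simp

/-- Any two places of `ℚ̄` above the same prime are Galois conjugate. -/
theorem exists_smul_eq {q : ℕ} (hq : q.Prime) {A A' : ValuationSubring Qb}
    (hA : A.LiesOverPrime q) (hA' : A'.LiesOverPrime q) : ∃ σ : Gq, σ • A = A' := by
  obtain ⟨σ, hσ⟩ := Algebra.IsInvariant.exists_smul_of_under_eq_of_profinite (A := ℤ) (B := Zb)
    (G := Gq) (primeBelow A) (primeBelow A')
    (by rw [under_primeBelow hq hA, under_primeBelow hq hA'])
  refine ⟨σ, eq_of_primeBelow_eq hq (liesOverPrime_smul hA σ) hA' ?_⟩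
  rw [primeBelow_smul, ← hσ]

/-- A Galois automorphism which is congruent to `b ↦ b ^ q` on algebraic integers modulo
`primeBelow A` is a Frobenius at `A`. -/
theorem isFrobeniusAt_of_forall_integral {q : ℕ} (hq : q.Prime) {A : ValuationSubring Qb}
    (hA : A.LiesOverPrime q) (σ : Gq) (hstab : σ • primeBelow A = primeBelow A)
    (hσ : ∀ b : Zb, σ • b - b ^ q ∈ primeBelow A) : A.IsFrobeniusAt σ q := by
  have hdec : σ • A = A :=
    eq_of_primeBelow_eq hq (liesOverPrime_smul hA σ) hA (by rw [primeBelow_smul, hstab])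
  refine ⟨hdec, fun x => ?_⟩
  obtain ⟨⟨x, hx⟩, rfl⟩ := IsLocalRing.residue_surjective x
  obtain ⟨s, b, hs, hsb⟩ := exists_mul_eq hq hA hx
  -- the two sides, multiplied by the residue of `σ s`, agree
  have hres : ∀ c : Zb, IsLocalRing.residue A (toPlace A (σ • c))
      = (IsLocalRing.residue A (toPlace A c)) ^ q := by
    intro c
    rw [← map_pow, ← map_pow, ← sub_eq_zero, ← map_sub, ← map_sub, IsLocalRing.residue_eq_zero_iff]
    exact hσ c
  have hs0 : IsLocalRing.residue A (toPlace A s) ≠ 0 := by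
    rw [ne_eq, IsLocalRing.residue_eq_zero_iff]
    exact hs
  have hσx : σ x ∈ A := by
    have h : σ • x ∈ σ • A := ValuationSubring.smul_mem_pointwise_smul σ x A hx
    rw [hdec] at h
    exact h
  have e1 : toPlace A s * ⟨x, hx⟩ = toPlace A b := Subtype.ext hsb
  have e2 : toPlace A (σ • s) * ⟨σ x, hσx⟩ = toPlace A (σ • b) := by
    refine Subtype.ext ?_
    show σ (s : Qb) * σ x = σ (b : Qb)
    rw [← map_mul, hsb]
  have hsmul : (⟨σ, hdec⟩ : A.decompositionSubgroup ℚ) • IsLocalRing.residue A ⟨x, hx⟩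
      = IsLocalRing.residue A ⟨σ x, hσx⟩ := rfl
  rw [hsmul]
  have e1' := congrArg (fun y => (IsLocalRing.residue A y) ^ q) e1
  have e2' := congrArg (IsLocalRing.residue A) e2
  simp only [map_mul, mul_pow] at e1' e2'
  rw [hres, hres, ← e1'] at e2'
  exact mul_left_cancel₀ (pow_ne_zero q hs0) e2'

/-- **Existence of Frobenius**: every place of `ℚ̄` above `q` has a Frobenius element. -/
theorem exists_isFrobeniusAt {q : ℕ} (hq : q.Prime) {A : ValuationSubring Qb}
    (hA : A.LiesOverPrime q) : ∃ σ : Gq, A.IsFrobeniusAt σ q := by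
  have : Fact q.Prime := ⟨hq⟩
  let P : Ideal ℤ := Ideal.span {(q : ℤ)}
  let Q : Ideal Zb := primeBelow A
  have hlies : Q.LiesOver P := ⟨(under_primeBelow hq hA).symm⟩
  have hPmax : P.IsMaximal :=
    PrincipalIdealRing.isMaximal_of_irreducible (Nat.prime_iff_prime_int.mp hq).irreducible
  have hQmax : Q.IsMaximal := Ideal.IsMaximal.of_liesOver_isMaximal Q P
  let : Field (ℤ ⧸ P) := Ideal.Quotient.field P
  let : Field (Zb ⧸ Q) := Ideal.Quotient.field Q
  have hchar : CharP (Zb ⧸ Q) q := by
    rw [CharP.charP_iff_prime_eq_zero hq]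
    have hmem : (q : Zb) ∈ Q := by
      rw [mem_primeBelow]
      have : ((q : Zb) : Qb) = (q : Qb) := by simp
      rw [this]
      exact hA
    have h := Ideal.Quotient.eq_zero_iff_mem.mpr hmem
    rw [map_natCast] at h
    exact h
  have : ExpChar (Zb ⧸ Q) q := .prime hq
  let l₀ : (Zb ⧸ Q) →ₐ[ℤ ⧸ P] (Zb ⧸ Q) :=
    { __ := frobenius (Zb ⧸ Q) q,
      commutes' := by
        intro r
        obtain ⟨n, rfl⟩ := Ideal.Quotient.mk_surjective r
        have h : algebraMap (ℤ ⧸ P) (Zb ⧸ Q) (Ideal.Quotient.mk P n) = ((n : ℤ) : Zb ⧸ Q) := by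
          rw [eq_intCast (Ideal.Quotient.mk P) n, map_intCast]
        rw [h]
        exact map_intCast (frobenius (Zb ⧸ Q) q) n }
  have hbij : Function.Bijective l₀ := Algebra.IsAlgebraic.algHom_bijective l₀
  obtain ⟨σ, hσ⟩ := Ideal.Quotient.stabilizerHom_surjective_of_profinite (G := Gq) P Q
    (AlgEquiv.ofBijective l₀ hbij)
  refine ⟨σ.1, isFrobeniusAt_of_forall_integral hq hA σ.1 σ.2 fun b => ?_⟩
  have h := DFunLike.congr_fun hσ (Ideal.Quotient.mk Q b)
  rw [Ideal.Quotient.stabilizerHom_apply] at h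
  rw [← Ideal.Quotient.eq]
  exact h

end Fermat.Agent.H54
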