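import Fermat.Agent.H53Tame5
import Fermat.Agent.H54Frobenius

set_option autoImplicit false
set_option linter.style.haveILetI false
set_option linter.unusedSectionVars false

noncomputable section

open IsLocalRing Polynomial
open scoped Pointwise

namespace Fermat.Agent.H53

attribute [local instance] Fermat.Agent.H54.isAlgebraicQb Fermat.Agent.H54.isAlgClosureQb
  Fermat.Agent.H54.normalQb Fermat.Agent.H54.isGaloisQb
attribute [local instance] Fermat.Agent.H54.isInvariant_Zb

local instance topZb53 : TopologicalSpace (integralClosure ℤ (AlgebraicClosure ℚ)) := ⊥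
local instance discreteZb53 : DiscreteTopology (integralClosure ℤ (AlgebraicClosure ℚ)) := ⟨rfl⟩
local instance contSMulZb53 : ContinuousSMul GQ (integralClosure ℤ (AlgebraicClosure ℚ)) :=
  Fermat.Agent.H54.continuousSMul_Zb

/-- places above the same prime are conjugate -/
theorem exists_smul_eq_place {q : ℕ} (hq : q.Prime) {P P' : ValuationSubring (AlgebraicClosure ℚ)}
    (hP : P.LiesOverPrime q) (hP' : P'.LiesOverPrime q) : ∃ g : GQ, g • P = P' := by
  obtain ⟨σ, hσ⟩ := Algebra.IsInvariant.exists_smul_of_under_eq_of_profinite (A := ℤ)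
    (B := integralClosure ℤ (AlgebraicClosure ℚ)) (G := GQ) (H54.primeBelow P)
    (H54.primeBelow P') (by rw [H54.under_primeBelow hq hP, H54.under_primeBelow hq hP'])
  refine ⟨σ, H54.eq_of_primeBelow_eq hq ?_ hP' ?_⟩
  · exact H63.liesOverPrime_smul σ hP
  · rw [H54.primeBelow_smul, ← hσ]

end Fermat.Agent.H53
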