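import Fermat.Agent.H63Minkowski
import Fermat.Prelude.Def_ExtCitation_KummerBridge
set_option autoImplicit false

namespace Fermat.Agent.H63

open Pointwise NumberField Polynomial ExtCitation

/-- Roots of unity of order prime to a prime ideal are distinct modulo this ideal. -/
theorem eq_of_pow_eq_one_of_sub_mem {R : Type*} [CommRing R] [IsDomain R] (P : Ideal R) [P.IsPrime]
    {n : ℕ} (hn : (n : R) ∉ P) {x y : R} (hx : x ^ n = 1) (hy : y ^ n = 1) (h : x - y ∈ P) :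
    x = y := by
  have hn0 : n ≠ 0 := by
    rintro rfl
    exact hn (by simp)
  obtain ⟨m, rfl⟩ := Nat.exists_eq_succ_of_ne_zero hn0
  set z := x * y ^ m with hz
  have hz1 : z ^ (m + 1) = 1 := by
    rw [hz, mul_pow, hx, ← pow_mul, mul_comm m, pow_mul, hy, one_pow, one_mul]
  have hzP : z - 1 ∈ P := by
    have : z - 1 = (x - y) * y ^ m := by rw [hz, sub_mul, ← pow_succ', hy]
    rw [this]
    exact P.mul_mem_right _ h
  by_contra hne
  have hz' : z - 1 ≠ 0 := by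
    intro h0
    apply hne
    have h1 : z * y = y := by rw [sub_eq_zero.mp h0, one_mul]
    rw [hz, mul_assoc, ← pow_succ, hy, mul_one] at h1
    exact h1
  have hsum : ∑ i ∈ Finset.range (m + 1), z ^ i = 0 := by
    have := geom_sum_mul z (m + 1)
    rw [hz1, sub_self] at this
    exact (mul_eq_zero.mp this).resolve_right hz'
  apply hn
  have h2 : ((m + 1 : ℕ) : R) = - ∑ i ∈ Finset.range (m + 1), (z ^ i - 1) := by
    rw [Finset.sum_sub_distrib, hsum]
    simp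
  rw [Nat.succ_eq_add_one, h2]
  refine P.neg_mem (P.sum_mem fun i _ => ?_)
  have h3 : z - 1 ∣ z ^ i - 1 := by simpa using sub_dvd_pow_sub_pow z 1 i
  exact P.mem_of_dvd h3 hzP

section AbsoluteGaloisGroup

local notation "Qb" => AlgebraicClosure ℚ
local notation "GQ" => (AlgebraicClosure ℚ ≃ₐ[ℚ] AlgebraicClosure ℚ)

instance isAlgebraic_Qb : Algebra.IsAlgebraic ℚ Qb := by
  have h := AlgebraicClosure.isAlgebraic ℚ
  have e : (AlgebraicClosure.instAlgebra ℚ : Algebra ℚ Qb) = DivisionRing.toRatAlgebra :=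
    Subsingleton.elim _ _
  rw [e] at h
  exact h

instance isGalois_Qb : IsGalois ℚ Qb := by
  have h1 : Algebra.IsSeparable ℚ Qb := inferInstance
  have h2 : Normal ℚ Qb := by
    refine normal_iff.mpr fun x => ⟨?_, IsAlgClosed.splits _⟩
    exact (Algebra.IsAlgebraic.isAlgebraic x).isIntegral
  exact ⟨⟩

variable (p : ℕ) [Fact p.Prime]

/-- the defining property of the cyclotomic character. -/
theorem apply_of_pow_eq_one (σ : GQ) {x : Qb} (hx : x ^ p = 1) :
    σ x = x ^ (cycloChar p σ : ZMod p).val := by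
  have : NeZero p := ⟨(Fact.out : p.Prime).ne_zero⟩
  have hu : IsUnit x := IsUnit.of_pow_eq_one hx (NeZero.ne p)
  obtain ⟨u, rfl⟩ := hu
  have hu : u ∈ rootsOfUnity p Qb := by
    rw [mem_rootsOfUnity]
    exact Units.ext (by simpa using hx)
  have := modularCyclotomicCharacter.spec (L := Qb) (card_rootsOfUnity_eq_self p)
    (σ : Qb ≃+* Qb) hu
  exact this

theorem exists_primitiveRoot : ∃ ζ : 𝓞 Qb, IsPrimitiveRoot ζ p ∧ IsPrimitiveRoot (ζ : Qb) p := by
  have : NeZero p := ⟨(Fact.out : p.Prime).ne_zero⟩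
  obtain ⟨ζ, hζ⟩ := HasEnoughRootsOfUnity.exists_primitiveRoot Qb p
  have hint : IsIntegral ℤ ζ := hζ.isIntegral (NeZero.pos p)
  refine ⟨⟨ζ, hint⟩, ?_, hζ⟩
  exact IsPrimitiveRoot.of_map_of_injective (f := algebraMap (𝓞 Qb) Qb) hζ RingOfIntegers.coe_injective

variable {p}

theorem natCast_notMem_center {q : ℕ} (hq : q.Prime) (hqp : q ≠ p) {A : ValuationSubring Qb}
    (hA : A.LiesOverPrime q) : (p : 𝓞 Qb) ∉ center A := by
  intro hp
  rw [liesOverPrime_iff] at hA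
  have hcop : IsCoprime (q : ℤ) (p : ℤ) :=
    Nat.isCoprime_iff_coprime.mpr ((Nat.coprime_primes hq Fact.out).mpr hqp)
  obtain ⟨a, b, hab⟩ := hcop
  have h1 : (1 : 𝓞 Qb) = (a : 𝓞 Qb) * (q : 𝓞 Qb) + (b : 𝓞 Qb) * (p : 𝓞 Qb) := by
    exact_mod_cast hab.symm
  have : (1 : 𝓞 Qb) ∈ center A := by
    rw [h1]
    exact (center A).add_mem ((center A).mul_mem_left _ hA) ((center A).mul_mem_left _ hp)
  exact (inferInstance : (center A).IsPrime).ne_top ((Ideal.eq_top_iff_one _).mpr this)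

theorem smul_coe {K : Type*} {L : Type*} [Field K] [Field L] [Algebra K L] (σ : L ≃ₐ[K] L)
    (x : 𝓞 L) : ((σ • x : 𝓞 L) : L) = σ (x : L) := rfl

/-- The cyclotomic character is unramified outside `p`. -/
theorem cycloChar_eq_one_of_mem_inertia {q : ℕ} (hq : q.Prime) (hqp : q ≠ p)
    {A : ValuationSubring Qb} (hA : A.LiesOverPrime q) {σ : GQ}
    (hσ : σ ∈ A.inertiaSubgroupIn ℚ) : cycloChar p σ = 1 := by
  have hp : p.Prime := Fact.out
  have : NeZero p := ⟨hp.ne_zero⟩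
  obtain ⟨ζ, hζ, hζ'⟩ := exists_primitiveRoot p
  rw [mem_inertiaSubgroupIn_iff_center] at hσ
  have h1 := hσ ζ
  have hpow : (ζ : 𝓞 Qb) ^ p = 1 := hζ.pow_eq_one
  have h2 : (σ • ζ) ^ p = 1 := by rw [← smul_pow', hpow, smul_one]
  have h3 : σ • ζ = ζ := eq_of_pow_eq_one_of_sub_mem (center A)
    (natCast_notMem_center hq hqp hA) h2 hpow h1
  have h4 : σ (ζ : Qb) = (ζ : Qb) := congrArg (fun y : 𝓞 Qb => (y : Qb)) h3
  rw [apply_of_pow_eq_one p σ hζ'.pow_eq_one] at h4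
  have h5 : (ζ : Qb) ^ (cycloChar p σ : ZMod p).val = (ζ : Qb) ^ 1 := by rw [h4, pow_one]
  have h6 := hζ'.pow_inj (ZMod.val_lt _) hp.one_lt h5
  ext
  rw [← ZMod.natCast_zmod_val (cycloChar p σ : ZMod p), h6]
  simp

/-- The cyclotomic character at Frobenius elements. -/
theorem cycloChar_of_isFrobeniusAt {q : ℕ} (hq : q.Prime) (hqp : q ≠ p)
    {A : ValuationSubring Qb} (hA : A.LiesOverPrime q) {σ : GQ}
    (hσ : A.IsFrobeniusAt σ q) : (cycloChar p σ : ZMod p) = q := by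
  have hp : p.Prime := Fact.out
  have : NeZero p := ⟨hp.ne_zero⟩
  obtain ⟨ζ, hζ, hζ'⟩ := exists_primitiveRoot p
  rw [isFrobeniusAt_iff_center A σ hq.ne_zero] at hσ
  have h1 := hσ ζ
  have hpow : (ζ : 𝓞 Qb) ^ p = 1 := hζ.pow_eq_one
  have h2 : (σ • ζ) ^ p = 1 := by rw [← smul_pow', hpow, smul_one]
  have h2' : (ζ ^ q) ^ p = 1 := by rw [← pow_mul, mul_comm, pow_mul, hpow, one_pow]
  have h3 : σ • ζ = ζ ^ q := eq_of_pow_eq_one_of_sub_mem (center A)
    (natCast_notMem_center hq hqp hA) h2 h2' h1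
  have h4 : σ (ζ : Qb) = (ζ : Qb) ^ q := by
    have := congrArg (algebraMap (𝓞 Qb) Qb) h3
    rw [map_pow] at this
    exact this
  rw [apply_of_pow_eq_one p σ hζ'.pow_eq_one] at h4
  rw [pow_eq_pow_mod q hζ'.pow_eq_one] at h4
  have h6 := hζ'.pow_inj (ZMod.val_lt _) (Nat.mod_lt _ hp.pos) h4
  rw [← ZMod.natCast_zmod_val (cycloChar p σ : ZMod p), h6, ZMod.natCast_mod]

theorem cycloChar_eq_one_iff {σ : GQ} {ζ : Qb} (hζ : IsPrimitiveRoot ζ p) :
    cycloChar p σ = 1 ↔ σ ζ = ζ := by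
  have hp : p.Prime := Fact.out
  have : NeZero p := ⟨hp.ne_zero⟩
  constructor
  · intro h
    rw [apply_of_pow_eq_one p σ hζ.pow_eq_one, h, Units.val_one, ZMod.val_one'' hp.one_lt.ne', pow_one]
  · intro h4
    rw [apply_of_pow_eq_one p σ hζ.pow_eq_one] at h4
    have h5 : (ζ : Qb) ^ (cycloChar p σ : ZMod p).val = (ζ : Qb) ^ 1 := by rw [h4, pow_one]
    have h6 := hζ.pow_inj (ZMod.val_lt _) hp.one_lt h5
    ext
    rw [← ZMod.natCast_zmod_val (cycloChar p σ : ZMod p), h6]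
    simp

/-- The kernel of the cyclotomic character is open. -/
theorem isOpen_ker_cycloChar : IsOpen ((cycloChar p).ker : Set GQ) := by
  obtain ⟨ζ, -, hζ⟩ := exists_primitiveRoot p
  have h := stabilizer_isOpen_of_isIntegral (K := ℚ) (L := Qb) (ζ : Qb)
  convert h
  ext σ
  rw [MonoidHom.mem_ker, cycloChar_eq_one_iff hζ]
  rfl

/-- Characters of `G_ℚ` with open kernel, unramified outside `p`, and given on inertia at `p` by
a power of the cyclotomic character. -/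
theorem eq_cycloChar_zpow (χ : GQ →* (ZMod p)ˣ) (hopen : IsOpen (χ.ker : Set GQ)) (i : ℤ)
    (hout : ∀ q : ℕ, q.Prime → q ≠ p → ∃ A : ValuationSubring Qb, A.LiesOverPrime q ∧
      ∀ σ ∈ A.inertiaSubgroupIn ℚ, χ σ = 1)
    (hin : ∃ A : ValuationSubring Qb, A.LiesOverPrime p ∧
      ∀ σ ∈ A.inertiaSubgroupIn ℚ, χ σ = cycloChar p σ ^ i) (σ : GQ) :
    χ σ = cycloChar p σ ^ i := by
  let f : GQ →* (ZMod p)ˣ :=
    { toFun := fun σ => χ σ * (cycloChar p σ ^ i)⁻¹
      map_one' := by simp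
      map_mul' := fun a b => by
        rw [map_mul, map_mul, mul_zpow, mul_inv]
        exact mul_mul_mul_comm _ _ _ _ }
  have hf : IsOpen (f.ker : Set GQ) := by
    refine Subgroup.isOpen_mono (H₁ := χ.ker ⊓ (cycloChar p).ker) ?_
      (hopen.inter isOpen_ker_cycloChar)
    rintro τ ⟨h1, h2⟩
    have h1' : χ τ = 1 := h1
    have h2' : cycloChar p τ = 1 := h2
    rw [MonoidHom.mem_ker]
    change χ τ * (cycloChar p τ ^ i)⁻¹ = 1
    rw [h1', h2']; simp
  have h1 : f = 1 := eq_one_of_isOpen_ker f hf (fun q hq => by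
    by_cases hqp : q = p
    · subst hqp
      obtain ⟨A, hA, h⟩ := hin
      refine ⟨A, hA, fun τ hτ => ?_⟩
      change χ τ * (cycloChar _ τ ^ i)⁻¹ = 1
      rw [h τ hτ, mul_inv_cancel]
    · obtain ⟨A, hA, h⟩ := hout q hq hqp
      refine ⟨A, hA, fun τ hτ => ?_⟩
      change χ τ * (cycloChar p τ ^ i)⁻¹ = 1
      rw [h τ hτ, cycloChar_eq_one_of_mem_inertia hq hqp hA hτ]
      simp)
  have h2 := DFunLike.congr_fun h1 σ
  change χ σ * (cycloChar p σ ^ i)⁻¹ = 1 at h2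
  exact mul_inv_eq_one.mp h2

end AbsoluteGaloisGroup

end Fermat.Agent.H63
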