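import Fermat.Agent.H63Different
set_option autoImplicit false

namespace Fermat.Agent.H63

open Pointwise NumberField

section Unramified

variable {L : Type*} [Field L] [CharZero L] [IsGalois ℚ L]

/-- If the inertia groups above `q` act trivially on the Galois number field `F`, then
`F` is unramified above `q`. -/
theorem isUnramifiedAt_of_inertia (F : Type*) [Field F] [NumberField F] [IsGalois ℚ F]
    [Algebra F L] (q : ℕ)
    (h : ∀ A : ValuationSubring L, A.LiesOverPrime q → ∀ σ ∈ A.inertiaSubgroupIn ℚ,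
      ∀ x : F, σ (algebraMap F L x) = algebraMap F L x)
    (P : Ideal (𝓞 F)) (hP : P.IsPrime) (hqP : (q : 𝓞 F) ∈ P) :
    Algebra.IsUnramifiedAt ℤ P := by
  have : IsGalois F L := IsGalois.tower_top_of_isGalois ℚ F L
  have hinj : Function.Injective (algebraMap (𝓞 F) (𝓞 L)) :=
    FaithfulSMul.algebraMap_injective (𝓞 F) (𝓞 L)
  obtain ⟨Q, -, hQ, hQP⟩ := Ideal.exists_ideal_over_prime_of_isIntegral (S := 𝓞 L) P ⊥ (by
    rw [← RingHom.ker_eq_comap_bot, (RingHom.injective_iff_ker_eq_bot _).mp hinj]; exact bot_le)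
  obtain ⟨A, rfl⟩ := exists_center_eq Q
  have hA : A.LiesOverPrime q := by
    rw [liesOverPrime_iff]
    rw [← hQP, Ideal.mem_comap, map_natCast] at hqP
    exact hqP
  have hbot : P.inertia (F ≃ₐ[ℚ] F) = ⊥ := by
    rw [Subgroup.eq_bot_iff_forall]
    intro σ₀ hσ₀
    rw [← hQP] at hσ₀
    obtain ⟨τ, hτ, rfl⟩ := exists_mem_inertiaSubgroupIn_restrict (F := F) A σ₀ hσ₀
    ext x
    apply (algebraMap F L).injective
    have h1 := AlgEquiv.restrictNormal_commutes τ F x
    have h2 : AlgEquiv.restrictNormalHom F τ = τ.restrictNormal F := rfl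
    rw [h2, h1, h A hA τ hτ]; rfl
  have hgal : IsGaloisGroup (F ≃ₐ[ℚ] F) ℤ (𝓞 F) := IsGaloisGroup.of_isFractionRing (F ≃ₐ[ℚ] F) ℤ (𝓞 F) ℚ F
  have hPover : P.LiesOver (P.under ℤ) := inferInstance
  have hcard := Ideal.card_inertia_eq_ramificationIdxIn (G := F ≃ₐ[ℚ] F) (P.under ℤ) P
  rw [hbot, Ideal.ramificationIdxIn_eq_ramificationIdx (P.under ℤ) P (F ≃ₐ[ℚ] F)] at hcard
  rw [← Ideal.ramificationIdx_eq_one_iff, ← hcard]
  simp

/-- If `F` is unramified above `q` then the inertia groups above `q` act trivially on `F`. -/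
theorem inertia_apply_of_isUnramifiedAt (F : Type*) [Field F] [NumberField F] [IsGalois ℚ F]
    [Algebra F L] (q : ℕ)
    (h : ∀ (P : Ideal (𝓞 F)) (_ : P.IsPrime), (q : 𝓞 F) ∈ P → Algebra.IsUnramifiedAt ℤ P)
    (A : ValuationSubring L) (hA : A.LiesOverPrime q) (σ : L ≃ₐ[ℚ] L)
    (hσ : σ ∈ A.inertiaSubgroupIn ℚ) (x : F) : σ (algebraMap F L x) = algebraMap F L x := by
  set P : Ideal (𝓞 F) := (center A).comap (algebraMap (𝓞 F) (𝓞 L)) with hP
  have hqP : (q : 𝓞 F) ∈ P := by
    rw [hP, Ideal.mem_comap, map_natCast]; exact (liesOverPrime_iff A q).mp hA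
  have hPp : P.IsPrime := inferInstance
  have hun := h P hPp hqP
  have hgal : IsGaloisGroup (F ≃ₐ[ℚ] F) ℤ (𝓞 F) := IsGaloisGroup.of_isFractionRing (F ≃ₐ[ℚ] F) ℤ (𝓞 F) ℚ F
  have hPover : P.LiesOver (P.under ℤ) := inferInstance
  have hcard := Ideal.card_inertia_eq_ramificationIdxIn (G := F ≃ₐ[ℚ] F) (P.under ℤ) P
  rw [Ideal.ramificationIdxIn_eq_ramificationIdx (P.under ℤ) P (F ≃ₐ[ℚ] F),
    Ideal.ramificationIdx_eq_one_iff.mpr hun] at hcard
  have hbot : P.inertia (F ≃ₐ[ℚ] F) = ⊥ := (Subgroup.card_eq_one).mp hcard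
  have hmem : AlgEquiv.restrictNormalHom F σ ∈ P.inertia (F ≃ₐ[ℚ] F) := by
    intro y
    rw [mem_inertiaSubgroupIn_iff_center] at hσ
    have h1 := hσ (algebraMap (𝓞 F) (𝓞 L) y)
    rw [Submodule.mem_toAddSubgroup, hP, Ideal.mem_comap, map_sub]
    have h2 : σ • algebraMap (𝓞 F) (𝓞 L) y =
        algebraMap (𝓞 F) (𝓞 L) (AlgEquiv.restrictNormalHom F σ • y) := by
      apply RingOfIntegers.ext
      exact (AlgEquiv.restrictNormal_commutes σ F (y : F)).symm
    rw [h2] at h1
    exact h1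
  rw [hbot, Subgroup.mem_bot] at hmem
  have h1 := AlgEquiv.restrictNormal_commutes σ F x
  have h2 : σ.restrictNormal F = 1 := hmem
  rw [← h1, h2]; rfl

/-- **Hermite's theorem**: finitely many Galois extensions of bounded degree
unramified outside `S`. -/
theorem finite_galois_unramified_outside (S : Finset ℕ) (hS : ∀ p ∈ S, p.Prime) (d : ℕ) :
    {F : IntermediateField ℚ L | FiniteDimensional ℚ F ∧ Normal ℚ F ∧ Module.finrank ℚ F ≤ d ∧
      ∀ q : ℕ, q.Prime → q ∉ S → ∀ A : ValuationSubring L, A.LiesOverPrime q →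
        A.inertiaSubgroupIn ℚ ≤ F.fixingSubgroup}.Finite := by
  have h := NumberField.finite_of_discr_bdd L ((d * ∏ p ∈ S, p) ^ d)
  refine (h.image Subtype.val).subset ?_
  rintro F ⟨hfin, hnorm, hd, hI⟩
  refine ⟨⟨F, hfin⟩, ?_, rfl⟩
  have hNF : NumberField F :=
    { to_charZero := inferInstance, to_finiteDimensional := by convert hfin }
  have hnorm' : Normal ℚ F := by
    convert hnorm using 1
  have hgal : IsGalois ℚ F := ⟨⟩
  have hd' : Module.finrank ℚ F ≤ d := by
    convert hd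
  have hpos : 0 < Module.finrank ℚ F := Module.finrank_pos
  have hprod : 0 < ∏ p ∈ S, p := Finset.prod_pos fun p hp => (hS p hp).pos
  have key := natAbs_discr_le F S hS (fun q hq hqS P hP hqP =>
    isUnramifiedAt_of_inertia (L := L) F q (fun A hA σ hσ x =>
      (IntermediateField.mem_fixingSubgroup_iff F σ).mp (hI q hq hqS A hA hσ) (x : L) x.2) P hP hqP)
  have key2 : (Module.finrank ℚ F * ∏ p ∈ S, p) ^ Module.finrank ℚ F ≤ (d * ∏ p ∈ S, p) ^ d := by
    calc (Module.finrank ℚ F * ∏ p ∈ S, p) ^ Module.finrank ℚ F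
        ≤ (d * ∏ p ∈ S, p) ^ Module.finrank ℚ F := by gcongr
      _ ≤ (d * ∏ p ∈ S, p) ^ d := Nat.pow_le_pow_right (Nat.mul_pos (by omega) hprod) hd'
  change |NumberField.discr F| ≤ _
  rw [Int.abs_eq_natAbs]
  exact_mod_cast key.trans key2

/-- **Hermite's theorem**, group-theoretic version: the open subgroups of bounded index of
`Gal(L/ℚ)` containing all the inertia groups outside `S` all contain a common open normal
subgroup with the same property. -/
theorem exists_open_normal_le (S : Finset ℕ) (hS : ∀ p ∈ S, p.Prime) (d : ℕ) :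
    ∃ W : Subgroup (L ≃ₐ[ℚ] L), IsOpen (W : Set (L ≃ₐ[ℚ] L)) ∧ W.Normal ∧
      (∀ q : ℕ, q.Prime → q ∉ S → ∀ A : ValuationSubring L, A.LiesOverPrime q →
        A.inertiaSubgroupIn ℚ ≤ W) ∧
      ∀ U : Subgroup (L ≃ₐ[ℚ] L), IsOpen (U : Set (L ≃ₐ[ℚ] L)) → U.index ≤ d →
        (∀ q : ℕ, q.Prime → q ∉ S → ∀ A : ValuationSubring L, A.LiesOverPrime q →
          A.inertiaSubgroupIn ℚ ≤ U) → W ≤ U := by
  classical
  have hfin := finite_galois_unramified_outside (L := L) S hS d.factorial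
  set 𝓕 := {F : IntermediateField ℚ L | FiniteDimensional ℚ F ∧ Normal ℚ F ∧
    Module.finrank ℚ F ≤ d.factorial ∧
      ∀ q : ℕ, q.Prime → q ∉ S → ∀ A : ValuationSubring L, A.LiesOverPrime q →
        A.inertiaSubgroupIn ℚ ≤ F.fixingSubgroup} with h𝓕
  refine ⟨⨅ F ∈ 𝓕, F.fixingSubgroup, ?_, ?_, ?_, ?_⟩
  · have : ((⨅ F ∈ 𝓕, F.fixingSubgroup : Subgroup (L ≃ₐ[ℚ] L)) : Set (L ≃ₐ[ℚ] L)) =
        ⋂ F ∈ 𝓕, (F.fixingSubgroup : Set (L ≃ₐ[ℚ] L)) := by
      simp only [Subgroup.coe_iInf]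
    rw [this]
    refine hfin.isOpen_biInter fun F hF => ?_
    have : FiniteDimensional ℚ F := hF.1
    exact IntermediateField.fixingSubgroup_isOpen F
  · have : ∀ F ∈ 𝓕, F.fixingSubgroup.Normal := by
      intro F hF
      have h1 : Normal ℚ F := hF.2.1
      have h2 : IsGalois ℚ F := ⟨⟩
      exact (InfiniteGalois.normal_iff_isGalois F).mpr h2
    refine ⟨fun σ hσ g => ?_⟩
    simp only [Subgroup.mem_iInf] at hσ ⊢
    intro F hF
    exact (this F hF).conj_mem σ (hσ F hF) g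
  · intro q hq hqS A hA
    refine le_iInf₂ fun F hF => hF.2.2.2 q hq hqS A hA
  · intro U hU hd hI
    have hfi : U.FiniteIndex := by
      have : Finite ((L ≃ₐ[ℚ] L) ⧸ U) := Subgroup.quotient_finite_of_isOpen U hU
      exact Subgroup.finiteIndex_of_finite_quotient
    have hUc : IsClosed (U : Set (L ≃ₐ[ℚ] L)) := Subgroup.isClosed_of_isOpen U hU
    have hNc : IsClosed (U.normalCore : Set (L ≃ₐ[ℚ] L)) := U.normalCore_isClosed hUc
    have hNo : IsOpen (U.normalCore : Set (L ≃ₐ[ℚ] L)) :=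
      Subgroup.isOpen_of_isClosed_of_finiteIndex _ hNc
    let E : IntermediateField ℚ L := IntermediateField.fixedField U.normalCore
    have hE : E.fixingSubgroup = U.normalCore :=
      InfiniteGalois.fixingSubgroup_fixedField ⟨U.normalCore, hNc⟩
    have hEfin : FiniteDimensional ℚ E := by
      rw [← InfiniteGalois.isOpen_iff_finite, hE]; exact hNo
    have hEgal := (InfiniteGalois.normal_iff_isGalois E).mp (by rw [hE]; infer_instance)
    have hindex : U.normalCore.index ≤ d.factorial := by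
      have h1 : U.normalCore.index ∣ U.index.factorial := by
        rw [Subgroup.normalCore_eq_ker, Subgroup.index_ker, Subgroup.index_eq_card, ← Nat.card_perm]
        exact Subgroup.card_subgroup_dvd_card (MulAction.toPermHom _ ((L ≃ₐ[ℚ] L) ⧸ U)).range
      exact (Nat.le_of_dvd (Nat.factorial_pos _) h1).trans (Nat.factorial_le hd)
    have hmem : E ∈ 𝓕 := by
      refine ⟨hEfin, hEgal.to_normal, ?_, ?_⟩
      · rw [IntermediateField.finrank_eq_fixingSubgroup_index, hE]
        exact hindex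
      · intro q hq hqS A hA σ hσ
        rw [hE]
        intro g
        exact hI q hq hqS (g • A) (liesOverPrime_smul g hA) (conj_mem_inertiaSubgroupIn g σ hσ)
    calc (⨅ F ∈ 𝓕, F.fixingSubgroup) ≤ E.fixingSubgroup := iInf₂_le E hmem
      _ = U.normalCore := hE
      _ ≤ U := U.normalCore_le

end Unramified

end Fermat.Agent.H63
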