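import Mathlib

/-!
# Valuations of collinear points near a node (helper13)

`η² + a₁ξη = ξ³ + a₂ξ² + g`, i.e. `s t = ξ³ + g` with `s = η - αξ`, `t = η - βξ`, `t - s = δ ξ`.
Three collinear points on `η = lξ + ν`; with `L = l - α`, `M = l - β` one has
`sᵢ = L ξᵢ + ν`, `tᵢ = M ξᵢ + ν`.
-/

set_option autoImplicit false

namespace Fermat.Agent.H13

section alg

variable {K : Type*} [CommRing K]

/-- Three points (with `ξ`-coordinates `ξ₁, ξ₂, ξ₃`) of the curve `s t = ξ³ + g`, `t - s = δ ξ`, cut out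
by the line `s = L ξ + ν`, `t = M ξ + ν`. -/
structure LineData (δ g L M ν ξ₁ ξ₂ ξ₃ : K) : Prop where
  dif : M - L = δ
  e₁ : ξ₁ + ξ₂ + ξ₃ = L * M
  e₂ : ξ₁ * ξ₂ + ξ₂ * ξ₃ + ξ₃ * ξ₁ = -(ν * (L + M))
  e₃ : ξ₁ * ξ₂ * ξ₃ = ν ^ 2 - g

variable {δ g L M ν ξ₁ ξ₂ ξ₃ : K}

lemma LineData.swap₁₂ (h : LineData δ g L M ν ξ₁ ξ₂ ξ₃) : LineData δ g L M ν ξ₂ ξ₁ ξ₃ :=
  ⟨h.dif, by linear_combination h.e₁, by linear_combination h.e₂, by linear_combination h.e₃⟩

lemma LineData.rot (h : LineData δ g L M ν ξ₁ ξ₂ ξ₃) : LineData δ g L M ν ξ₂ ξ₃ ξ₁ :=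
  ⟨h.dif, by linear_combination h.e₁, by linear_combination h.e₂, by linear_combination h.e₃⟩

lemma LineData.flip (h : LineData δ g L M ν ξ₁ ξ₂ ξ₃) : LineData (-δ) g M L ν ξ₁ ξ₂ ξ₃ :=
  ⟨by linear_combination -h.dif, by linear_combination h.e₁, by linear_combination h.e₂,
    by linear_combination h.e₃⟩

lemma LineData.st (h : LineData δ g L M ν ξ₁ ξ₂ ξ₃) :
    (L * ξ₁ + ν) * (M * ξ₁ + ν) = ξ₁ ^ 3 + g := by
  linear_combination (-ξ₁ ^ 2) * h.e₁ + ξ₁ * h.e₂ - h.e₃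

lemma LineData.cross (h : LineData δ g L M ν ξ₁ ξ₂ ξ₃) :
    L * (M * ξ₂ + ν) + M * (L * ξ₃ + ν) = ξ₂ ^ 2 + ξ₂ * ξ₃ + ξ₃ ^ 2 := by
  linear_combination (-(ξ₂ + ξ₃)) * h.e₁ + h.e₂

lemma LineData.prod_s (h : LineData δ g L M ν ξ₁ ξ₂ ξ₃) :
    (L * ξ₁ + ν) * (L * ξ₂ + ν) * (L * ξ₃ + ν) = ν ^ 3 - g * L ^ 3 := by
  linear_combination L ^ 3 * h.e₃ + L ^ 2 * ν * h.e₂ + L * ν ^ 2 * h.e₁

end alg

section val

variable {K : Type*} [Field K] {Γ : Type*} [LinearOrderedCommGroupWithZero Γ] (v : Valuation K Γ)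
  {δ g L M ν ξ s t ξ₁ ξ₂ ξ₃ : K}

/-- near the node `v ξ < 1` implies `v s < 1`. -/
lemma near_s_lt (hδ : v δ = 1) (hg : v g < 1) (hξ : v ξ < 1) (hts : t - s = δ * ξ)
    (hst : s * t = ξ ^ 3 + g) : v s < 1 := by
  by_contra hcon
  push Not at hcon
  have h1 : v (δ * ξ) < v s := by
    rw [map_mul, hδ, one_mul]; exact lt_of_lt_of_le hξ hcon
  have h2 : v t = v s := by
    have : t = δ * ξ + s := by linear_combination hts
    rw [this]
    exact Valuation.map_add_eq_of_lt_right v h1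
  have h3 : v (s * t) < 1 := by
    rw [hst]
    refine Valuation.map_add_lt v ?_ hg
    rw [map_pow]
    exact pow_lt_one₀ zero_le hξ (by norm_num)
  rw [map_mul, h2] at h3
  exact absurd h3 (not_lt.mpr (one_le_mul hcon hcon))

lemma near_t_lt (hδ : v δ = 1) (hg : v g < 1) (hξ : v ξ < 1) (hts : t - s = δ * ξ)
    (hst : s * t = ξ ^ 3 + g) : v t < 1 := by
  refine near_s_lt v (δ := -δ) (s := t) (t := s) (ξ := ξ) (g := g) ?_ hg hξ ?_ ?_
  · rw [Valuation.map_neg]; exact hδ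
  · linear_combination -hts
  · linear_combination hst

lemma near_xi_le (hδ : v δ = 1) (hts : t - s = δ * ξ) {r : Γ} (hs : v s ≤ r) (ht : v t ≤ r) :
    v ξ ≤ r := by
  have h : v ξ = v (t - s) := by rw [hts, map_mul, hδ, one_mul]
  rw [h]
  exact Valuation.map_sub_le v ht hs

/-- at a point near the node, `s, t` are not both zero. -/
lemma near_ne (hg0 : g ≠ 0) (hδ : v δ = 1) (hts : t - s = δ * ξ) (hst : s * t = ξ ^ 3 + g) :
    0 < max (v s) (v t) := by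
  by_contra hcon
  push Not at hcon
  have hs : s = 0 := (Valuation.zero_iff v).mp (le_zero_iff.mp (le_trans (le_max_left _ _) hcon))
  have ht : t = 0 := (Valuation.zero_iff v).mp (le_zero_iff.mp (le_trans (le_max_right _ _) hcon))
  subst hs ht
  have hδ0 : δ ≠ 0 := by rintro rfl; simp at hδ
  have hξ : ξ = 0 := by
    have : δ * ξ = 0 := by rw [← hts]; ring
    exact (mul_eq_zero.mp this).resolve_left hδ0
  subst hξ
  apply hg0
  linear_combination -hst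

/-- if `v s = v t` near the node then `v g = (v s) ^ 2`. -/
lemma near_middle (hg0 : g ≠ 0) (hδ : v δ = 1) (hg : v g < 1) (hξ : v ξ < 1)
    (hts : t - s = δ * ξ) (hst : s * t = ξ ^ 3 + g) (he : v s = v t) : v g = v s ^ 2 := by
  have h1 := near_s_lt v hδ hg hξ hts hst
  have h2 := near_xi_le v hδ hts le_rfl he.ge
  have h3 := near_ne v hg0 hδ hts hst
  rw [he, max_self, ← he] at h3
  have h4 : g = s * t - ξ ^ 3 := by linear_combination -hst
  have h5 : v (s * t) = v s ^ 2 := by rw [map_mul, ← he, sq]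
  have h6 : v (ξ ^ 3) < v (s * t) := by
    rw [h5, map_pow]
    calc v ξ ^ 3 ≤ v s ^ 3 := pow_le_pow_left₀ zero_le h2 3
      _ = v s ^ 2 * v s := pow_succ _ _
      _ < v s ^ 2 * 1 := by
        exact mul_lt_mul_of_pos_left h1 (pow_pos h3 2)
      _ = v s ^ 2 := mul_one _
  rw [h4, Valuation.map_sub_eq_of_lt_left v h6, h5]

/-- if `v t < v s` near the node then `v g < (v s) ^ 2`. -/
lemma near_lt (hδ : v δ = 1) (hg : v g < 1) (hξ : v ξ < 1)
    (hts : t - s = δ * ξ) (hst : s * t = ξ ^ 3 + g) (he : v t < v s) : v g < v s ^ 2 := by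
  have h1 := near_s_lt v hδ hg hξ hts hst
  have h2 := near_xi_le v hδ hts le_rfl he.le
  have h3 : 0 < v s := lt_of_le_of_lt zero_le he
  have h4 : g = s * t - ξ ^ 3 := by linear_combination -hst
  rw [h4]
  refine Valuation.map_sub_lt v ?_ ?_
  · rw [map_mul, sq]
    exact mul_lt_mul_of_pos_left he h3
  · rw [map_pow]
    calc v ξ ^ 3 ≤ v s ^ 3 := pow_le_pow_left₀ zero_le h2 3
      _ = v s ^ 2 * v s := pow_succ _ _
      _ < v s ^ 2 * 1 := mul_lt_mul_of_pos_left h1 (pow_pos h3 2)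
      _ = v s ^ 2 := mul_one _

/-- The (multi-valued) signed component. -/
def IsC (s t : K) (c : Γ) : Prop := (v t ≤ v s ∧ c = v s) ∨ (v s ≤ v t ∧ c = (v t)⁻¹)

lemma exists_isC (s t : K) : ∃ c, IsC v s t c := by
  rcases le_total (v t) (v s) with h | h
  · exact ⟨_, Or.inl ⟨h, rfl⟩⟩
  · exact ⟨_, Or.inr ⟨h, rfl⟩⟩

variable {v}

lemma IsC.flip {c : Γ} (h : IsC v s t c) : IsC v t s c⁻¹ := by
  rcases h with ⟨h, rfl⟩ | ⟨h, rfl⟩
  · exact Or.inr ⟨h, rfl⟩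
  · exact Or.inl ⟨h, inv_inv _⟩

lemma IsC.neg_flip {c : Γ} (h : IsC v s t c) : IsC v (-t) (-s) c⁻¹ := by
  have := h.flip
  rcases this with ⟨h, h'⟩ | ⟨h, h'⟩
  · exact Or.inl ⟨by rwa [Valuation.map_neg, Valuation.map_neg], by rwa [Valuation.map_neg]⟩
  · exact Or.inr ⟨by rwa [Valuation.map_neg, Valuation.map_neg], by rwa [Valuation.map_neg]⟩

lemma IsC.ne_zero {c : Γ} (hg0 : g ≠ 0) (hδ : v δ = 1) (hts : t - s = δ * ξ)
    (hst : s * t = ξ ^ 3 + g) (h : IsC v s t c) : c ≠ 0 := by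
  have h3 := near_ne v hg0 hδ hts hst
  rcases h with ⟨h, rfl⟩ | ⟨h, rfl⟩
  · rw [max_eq_left h] at h3; exact h3.ne'
  · rw [max_eq_right h] at h3; exact inv_ne_zero h3.ne'

lemma IsC.unique {c c' : Γ} (hg0 : g ≠ 0) (hδ : v δ = 1) (hg : v g < 1) (hξ : v ξ < 1)
    (hts : t - s = δ * ξ) (hst : s * t = ξ ^ 3 + g) (h : IsC v s t c) (h' : IsC v s t c') :
    ∃ k : ℤ, c' = c * v g ^ k := by
  have h3 := near_ne v hg0 hδ hts hst
  rcases h with ⟨h, rfl⟩ | ⟨h, rfl⟩ <;> rcases h' with ⟨h', rfl⟩ | ⟨h', rfl⟩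
  · exact ⟨0, by simp⟩
  · have he : v s = v t := le_antisymm h' h
    have := near_middle v hg0 hδ hg hξ hts hst he
    rw [he, max_self] at h3
    refine ⟨-1, ?_⟩
    rw [this, zpow_neg_one, he]
    field_simp [h3.ne']
  · have he : v s = v t := le_antisymm h h'
    have := near_middle v hg0 hδ hg hξ hts hst he
    rw [he, max_self] at h3
    refine ⟨1, ?_⟩
    rw [this, zpow_one, he]
    field_simp [h3.ne']
  · exact ⟨0, by simp⟩

/-- `v (L M) < 1` with `M - L` a unit: exactly one of them is in the maximal ideal. -/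
lemma dichotomy_LM (hd : v (M - L) = 1) (h : v (L * M) < 1) :
    (v L < 1 ∧ v M = 1) ∨ (v M < 1 ∧ v L = 1) := by
  have key : ∀ {L M : K}, v (M - L) = 1 → v (L * M) < 1 → v L < 1 → v M = 1 := by
    intro L M hd h hL
    have hM : M = (M - L) + L := by ring
    rw [hM, Valuation.map_add_eq_of_lt_left v (by rw [hd]; exact hL), hd]
  rcases lt_or_ge (v L) 1 with hL | hL
  · exact Or.inl ⟨hL, key hd h hL⟩
  · have hM : v M < 1 := by
      by_contra hM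
      push Not at hM
      rw [map_mul] at h
      exact absurd h (not_lt.mpr (one_le_mul hL hM))
    exact Or.inr ⟨hM, key (by rw [← Valuation.map_neg, neg_sub]; exact hd)
      (by rw [mul_comm]; exact h) hM⟩

/-- `1 ≤ v (L M)` with `M - L` a unit: same valuation `≥ 1`. -/
lemma eq_of_LM (hd : v (M - L) = 1) (h : 1 ≤ v (L * M)) : 1 ≤ v L ∧ v M = v L := by
  rcases lt_trichotomy (v L) (v M) with hlt | heq | hgt
  · exfalso
    have h1 : v M = 1 := by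
      rw [← hd, Valuation.map_sub_eq_of_lt_left v hlt]
    rw [map_mul, h1, mul_one] at h
    exact absurd h (not_le.mpr (h1 ▸ hlt))
  · refine ⟨?_, heq.symm⟩
    by_contra hcon
    push Not at hcon
    rw [map_mul, ← heq] at h
    exact absurd h (not_le.mpr (mul_lt_one_of_nonneg_of_lt_one_left zero_le hcon hcon.le))
  · exfalso
    have h1 : v L = 1 := by
      rw [← hd, Valuation.map_sub_eq_of_lt_right v hgt]
    rw [map_mul, h1, one_mul] at h
    exact absurd h (not_le.mpr (h1 ▸ hgt))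

/-- **Key lemma.** Points `2`, `3` near the node with opposite components: the third point `1` has
nonsingular reduction. -/
lemma LineData.key (h : LineData δ g L M ν ξ₁ ξ₂ ξ₃) (hδ : v δ = 1) {r : Γ} (hr0 : 0 < r)
    (hr1 : r < 1) (hs₂ : v (L * ξ₂ + ν) = r) (ht₃ : v (M * ξ₃ + ν) = r)
    (ht₂ : v (M * ξ₂ + ν) ≤ r) (hs₃ : v (L * ξ₃ + ν) ≤ r) :
    1 ≤ v (L * M) ∧ (v ((L * ξ₂ + ν) + (M * ξ₃ + ν)) < r → 1 < v (L * M)) := by
  have hd : v (M - L) = 1 := by rw [h.dif]; exact hδ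
  have hξ₂ : v ξ₂ ≤ r := near_xi_le v hδ (s := L * ξ₂ + ν) (t := M * ξ₂ + ν)
    (by linear_combination ξ₂ * h.dif) hs₂.le ht₂
  have hξ₃ : v ξ₃ ≤ r := near_xi_le v hδ (s := L * ξ₃ + ν) (t := M * ξ₃ + ν)
    (by linear_combination ξ₃ * h.dif) hs₃ ht₃.le
  have hr2 : r * r < r := by
    calc r * r < r * 1 := mul_lt_mul_of_pos_left hr1 hr0
      _ = r := mul_one _
  have hk : v (ξ₂ ^ 2 + ξ₂ * ξ₃ + ξ₃ ^ 2) < r := by
    refine lt_of_le_of_lt (Valuation.map_add_le v (Valuation.map_add_le v ?_ ?_) ?_) hr2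
    · rw [map_pow, sq]; exact mul_le_mul' hξ₂ hξ₂
    · rw [map_mul]; exact mul_le_mul' hξ₂ hξ₃
    · rw [map_pow, sq]; exact mul_le_mul' hξ₃ hξ₃
  have hc : L * (M * ξ₃ + ν) + M * (L * ξ₂ + ν) = ξ₂ ^ 2 + ξ₂ * ξ₃ + ξ₃ ^ 2 := by
    linear_combination h.cross
  refine ⟨?_, fun hlt => ?_⟩
  · by_contra hcon
    push Not at hcon
    rw [← hc] at hk
    rcases dichotomy_LM hd hcon with ⟨hL, hM⟩ | ⟨hM, hL⟩
    · have h1 : v (M * (L * ξ₂ + ν)) = r := by rw [map_mul, hM, one_mul, hs₂]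
      have h2 : v (L * (M * ξ₃ + ν)) < r := by
        rw [map_mul, ht₃]
        calc v L * r < 1 * r := mul_lt_mul_of_pos_right hL hr0
          _ = r := one_mul _
      rw [Valuation.map_add_eq_of_lt_right v (by rw [h1]; exact h2), h1] at hk
      exact lt_irrefl _ hk
    · have h1 : v (L * (M * ξ₃ + ν)) = r := by rw [map_mul, hL, one_mul, ht₃]
      have h2 : v (M * (L * ξ₂ + ν)) < r := by
        rw [map_mul, hs₂]
        calc v M * r < 1 * r := mul_lt_mul_of_pos_right hM hr0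
          _ = r := one_mul _
      rw [Valuation.map_add_eq_of_lt_left v (by rw [h1]; exact h2), h1] at hk
      exact lt_irrefl _ hk
  · by_contra hcon
    push Not at hcon
    -- here `v L = 1`? we show `v L ≤ 1` anyway
    have hL : v L ≤ 1 := by
      by_contra hL
      push Not at hL
      have hM : v M = v L := by
        have : M = δ + L := by linear_combination h.dif
        rw [this, Valuation.map_add_eq_of_lt_right v (by rw [hδ]; exact hL)]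
      rw [map_mul, hM] at hcon
      exact absurd hcon (not_le.mpr (one_lt_mul hL.le hL))
    have h1 : v (δ * (L * ξ₂ + ν)) = r := by rw [map_mul, hδ, one_mul, hs₂]
    have h2 : v (L * ((L * ξ₂ + ν) + (M * ξ₃ + ν))) < r := by
      rw [map_mul]
      exact lt_of_le_of_lt (mul_le_of_le_one_left' hL) hlt
    have h3 : L * (M * ξ₃ + ν) + M * (L * ξ₂ + ν) =
        δ * (L * ξ₂ + ν) + L * ((L * ξ₂ + ν) + (M * ξ₃ + ν)) := by
      linear_combination (L * ξ₂ + ν) * h.dif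
    rw [← hc, h3, Valuation.map_add_eq_of_lt_left v (by rw [h1]; exact h2), h1] at hk
    exact lt_irrefl _ hk

/-- Case III: exactly one of the three points has nonsingular reduction. -/
lemma LineData.caseIII (h : LineData δ g L M ν ξ₁ ξ₂ ξ₃) (hδ : v δ = 1) (hg0 : g ≠ 0)
    (hg : v g < 1) (h1 : 1 ≤ v ξ₁) (h2 : v ξ₂ < 1) (h3 : v ξ₃ < 1) :
    (v (L * ξ₂ + ν) = v (M * ξ₃ + ν) ∧ v (M * ξ₂ + ν) ≤ v (L * ξ₂ + ν) ∧
      v (L * ξ₃ + ν) ≤ v (M * ξ₃ + ν)) ∨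
    (v (M * ξ₂ + ν) = v (L * ξ₃ + ν) ∧ v (L * ξ₂ + ν) ≤ v (M * ξ₂ + ν) ∧
      v (M * ξ₃ + ν) ≤ v (L * ξ₃ + ν)) := by
  have hd : v (M - L) = 1 := by rw [h.dif]; exact hδ
  have hLM : 1 ≤ v (L * M) := by
    rw [← h.e₁]
    rw [add_assoc, Valuation.map_add_eq_of_lt_left v]
    · exact h1
    · exact lt_of_lt_of_le (Valuation.map_add_lt v h2 h3) h1
  obtain ⟨hL, hML⟩ := eq_of_LM hd hLM
  set s₂ := L * ξ₂ + ν with hs₂
  set t₂ := M * ξ₂ + ν with ht₂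
  set s₃ := L * ξ₃ + ν with hs₃
  set t₃ := M * ξ₃ + ν with ht₃
  have hts₂ : t₂ - s₂ = δ * ξ₂ := by rw [hs₂, ht₂]; linear_combination ξ₂ * h.dif
  have hts₃ : t₃ - s₃ = δ * ξ₃ := by rw [hs₃, ht₃]; linear_combination ξ₃ * h.dif
  have hst₂ : s₂ * t₂ = ξ₂ ^ 3 + g := h.rot.st
  have hst₃ : s₃ * t₃ = ξ₃ ^ 3 + g := h.rot.rot.st
  have c1 : L * t₂ + M * s₃ = ξ₂ ^ 2 + ξ₂ * ξ₃ + ξ₃ ^ 2 := h.cross
  have c2 : M * s₂ + L * t₃ = ξ₂ ^ 2 + ξ₂ * ξ₃ + ξ₃ ^ 2 := by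
    rw [hs₂, ht₃]; rw [hs₃, ht₂] at c1; linear_combination c1
  have hs₂1 : v s₂ < 1 := near_s_lt v hδ hg h2 hts₂ hst₂
  have ht₂1 : v t₂ < 1 := near_t_lt v hδ hg h2 hts₂ hst₂
  have hs₃1 : v s₃ < 1 := near_s_lt v hδ hg h3 hts₃ hst₃
  have ht₃1 : v t₃ < 1 := near_t_lt v hδ hg h3 hts₃ hst₃
  -- general claim
  have gen : ∀ (r : Γ) (a b : K), 0 < r → r < 1 → v a ≤ r → v b ≤ r → (v a = r ∨ v b = r) →
      v ξ₂ ≤ r → v ξ₃ ≤ r → (∀ A B : K, v A = v L → v B = v L →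
        A * a + B * b = ξ₂ ^ 2 + ξ₂ * ξ₃ + ξ₃ ^ 2 → v a = v b) := by
    intro r a b hr0 hr1 ha hb hab hξ₂ hξ₃ A B hA hB hc
    have hr2 : r * r < r := by
      calc r * r < r * 1 := mul_lt_mul_of_pos_left hr1 hr0
        _ = r := mul_one _
    have hk : v (ξ₂ ^ 2 + ξ₂ * ξ₃ + ξ₃ ^ 2) < r := by
      refine lt_of_le_of_lt (Valuation.map_add_le v (Valuation.map_add_le v ?_ ?_) ?_) hr2
      · rw [map_pow, sq]; exact mul_le_mul' hξ₂ hξ₂
      · rw [map_mul]; exact mul_le_mul' hξ₂ hξ₃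
      · rw [map_pow, sq]; exact mul_le_mul' hξ₃ hξ₃
    have hL0 : 0 < v L := lt_of_lt_of_le one_pos hL
    rw [← hc] at hk
    by_contra hne
    rcases lt_or_gt_of_ne hne with hlt | hlt
    · have hbr : v b = r := by
        rcases hab with hab | hab
        · exact absurd (lt_of_lt_of_le hlt hb) (by rw [hab]; exact lt_irrefl _)
        · exact hab
      rw [Valuation.map_add_eq_of_lt_right v (by
        rw [map_mul, map_mul, hA, hB]; exact mul_lt_mul_of_pos_left hlt hL0), map_mul, hB, hbr] at hk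
      exact absurd hk (not_lt.mpr (le_mul_of_one_le_left' hL))
    · have har : v a = r := by
        rcases hab with hab | hab
        · exact hab
        · exact absurd (lt_of_lt_of_le hlt ha) (by rw [hab]; exact lt_irrefl _)
      rw [Valuation.map_add_eq_of_lt_left v (by
        rw [map_mul, map_mul, hA, hB]; exact mul_lt_mul_of_pos_left hlt hL0), map_mul, hA, har] at hk
      exact absurd hk (not_lt.mpr (le_mul_of_one_le_left' hL))
  have hne₂ := near_ne v hg0 hδ hts₂ hst₂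
  -- the maximum
  rcases le_total (max (v s₂) (v t₃)) (max (v t₂) (v s₃)) with hmax | hmax
  · -- r = max (v t₂) (v s₃)
    right
    set r := max (v t₂) (v s₃) with hr
    have hr0 : 0 < r := by
      refine lt_of_lt_of_le hne₂ ?_
      rcases le_total (v s₂) (v t₂) with h' | h'
      · rw [max_eq_right h']; exact le_max_left _ _
      · rw [max_eq_left h']; exact le_trans (le_max_left _ _) hmax
    have hr1 : r < 1 := max_lt ht₂1 hs₃1
    have hs₂r : v s₂ ≤ r := le_trans (le_max_left _ _) hmax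
    have ht₃r : v t₃ ≤ r := le_trans (le_max_right _ _) hmax
    have ht₂r : v t₂ ≤ r := le_max_left _ _
    have hs₃r : v s₃ ≤ r := le_max_right _ _
    have heq : v t₂ = v s₃ := gen r t₂ s₃ hr0 hr1 ht₂r hs₃r
      (by rcases le_total (v t₂) (v s₃) with h' | h'
          · right; rw [hr, max_eq_right h']
          · left; rw [hr, max_eq_left h'])
      (near_xi_le v hδ hts₂ hs₂r ht₂r) (near_xi_le v hδ hts₃ hs₃r ht₃r) L M rfl hML c1
    have hr' : r = v t₂ := by rw [hr, ← heq, max_self]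
    exact ⟨heq, hr' ▸ hs₂r, heq ▸ hr' ▸ ht₃r⟩
  · left
    set r := max (v s₂) (v t₃) with hr
    have hr0 : 0 < r := by
      refine lt_of_lt_of_le hne₂ ?_
      rcases le_total (v s₂) (v t₂) with h' | h'
      · rw [max_eq_right h']; exact le_trans (le_max_left _ _) hmax
      · rw [max_eq_left h']; exact le_max_left _ _
    have hr1 : r < 1 := max_lt hs₂1 ht₃1
    have ht₂r : v t₂ ≤ r := le_trans (le_max_left _ _) hmax
    have hs₃r : v s₃ ≤ r := le_trans (le_max_right _ _) hmax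
    have hs₂r : v s₂ ≤ r := le_max_left _ _
    have ht₃r : v t₃ ≤ r := le_max_right _ _
    have heq : v s₂ = v t₃ := gen r s₂ t₃ hr0 hr1 hs₂r ht₃r
      (by rcases le_total (v s₂) (v t₃) with h' | h'
          · right; rw [hr, max_eq_right h']
          · left; rw [hr, max_eq_left h'])
      (near_xi_le v hδ hts₂ hs₂r ht₂r) (near_xi_le v hδ hts₃ hs₃r ht₃r) M L hML rfl c2
    have hr' : r = v s₂ := by rw [hr, ← heq, max_self]
    exact ⟨heq, hr' ▸ ht₂r, heq ▸ hr' ▸ hs₃r⟩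

/-- The possible shapes of a point near the node on a line with `v L < 1`. -/
lemma shape {c : Γ} (hδ : v δ = 1) (hg0 : g ≠ 0) (hg : v g < 1) (hL : v L < 1) (hξ : v ξ < 1)
    (hts : (M * ξ + ν) - (L * ξ + ν) = δ * ξ) (hst : (L * ξ + ν) * (M * ξ + ν) = ξ ^ 3 + g)
    (hc : IsC v (L * ξ + ν) (M * ξ + ν) c) :
    (v ν < v ξ ∧ c = (v ξ)⁻¹) ∨
      (v ξ ≤ v ν ∧ v g ≤ v ν ^ 2 ∧ (c = v ν ∨ (c = (v ν)⁻¹ ∧ v ν ^ 2 = v g))) := by
  set s := L * ξ + ν with hs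
  set t := M * ξ + ν with ht
  have hne := near_ne v hg0 hδ hts hst
  -- the case `v t ≤ v s`
  have case1 : v t ≤ v s → v ν = v s ∧ v ξ ≤ v ν := by
    intro hle
    have h0 : 0 < v s := by rwa [max_eq_left hle] at hne
    have h1 : v ξ ≤ v s := near_xi_le v hδ hts le_rfl hle
    have h2 : v (L * ξ) < v s := by
      rw [map_mul]
      calc v L * v ξ ≤ v L * v s := mul_le_mul_right h1 _
        _ < 1 * v s := mul_lt_mul_of_pos_right hL h0
        _ = v s := one_mul _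
    have h3 : v ν = v s := by
      have : ν = s - L * ξ := by rw [hs]; ring
      rw [this, Valuation.map_sub_eq_of_lt_left v h2]
    exact ⟨h3, h3 ▸ h1⟩
  rcases hc with ⟨hle, rfl⟩ | ⟨hle, rfl⟩
  · right
    obtain ⟨h3, h4⟩ := case1 hle
    refine ⟨h4, ?_, Or.inl h3.symm⟩
    rw [h3]
    rcases hle.lt_or_eq with hlt | heq
    · exact (near_lt v hδ hg hξ hts hst hlt).le
    · exact (near_middle v hg0 hδ hg hξ hts hst heq.symm).le
  · rcases hle.lt_or_eq with hlt | heq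
    · left
      have h1 : v ξ = v t := by
        have : v (t - s) = v ξ := by rw [hts, map_mul, hδ, one_mul]
        rw [← this, Valuation.map_sub_eq_of_lt_left v hlt]
      refine ⟨?_, by rw [h1]⟩
      have : ν = s - L * ξ := by rw [hs]; ring
      rw [this, h1]
      refine Valuation.map_sub_lt v hlt ?_
      rw [map_mul, h1]
      have h0 : 0 < v t := lt_of_le_of_lt zero_le hlt
      calc v L * v t < 1 * v t := mul_lt_mul_of_pos_right hL h0
        _ = v t := one_mul _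
    · right
      obtain ⟨h3, h4⟩ := case1 heq.ge
      have h5 := near_middle v hg0 hδ hg hξ hts hst heq
      refine ⟨h4, by rw [h3, h5], Or.inr ⟨by rw [h3, heq], by rw [h3, h5]⟩⟩

lemma caseIV_ABB {c₃ : Γ} (hνe : v (ξ₁ * ξ₂ + ξ₂ * ξ₃ + ξ₃ * ξ₁) = v ν) (h₁ : v ν < v ξ₁)
    (h₂ : v ν < v ξ₂) (h₃ : v ξ₃ ≤ v ν) (hc₃ : c₃ = v ν ∨ (c₃ = (v ν)⁻¹ ∧ v ν ^ 2 = v g))
    (hν0 : 0 < v ν) : ∃ k : ℤ, (v ξ₁)⁻¹ * (v ξ₂)⁻¹ * c₃ = v g ^ k := by
  have hp₁ : 0 < v ξ₁ := lt_trans hν0 h₁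
  have hp₂ : 0 < v ξ₂ := lt_trans hν0 h₂
  have e : v ξ₁ * v ξ₂ = v ν := by
    rw [← hνe, add_assoc, Valuation.map_add_eq_of_lt_left v, map_mul]
    refine Valuation.map_add_lt v ?_ ?_
    · rw [map_mul, map_mul, mul_comm (v ξ₁)]
      exact mul_lt_mul_of_pos_left (lt_of_le_of_lt h₃ h₁) hp₂
    · rw [map_mul, map_mul, mul_comm (v ξ₃)]
      exact mul_lt_mul_of_pos_left (lt_of_le_of_lt h₃ h₂) hp₁
  have e' : (v ξ₁)⁻¹ * (v ξ₂)⁻¹ = (v ν)⁻¹ := by rw [← e, mul_inv]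
  rw [e']
  rcases hc₃ with rfl | ⟨rfl, h⟩
  · exact ⟨0, by rw [zpow_zero, inv_mul_cancel₀ hν0.ne']⟩
  · refine ⟨-1, ?_⟩
    rw [zpow_neg_one, ← h, sq, mul_inv]

lemma caseIV_BBB (hg0 : g ≠ 0)
    (hνe : v (ξ₁ * ξ₂ + ξ₂ * ξ₃ + ξ₃ * ξ₁) = v ν) (he₃ : ξ₁ * ξ₂ * ξ₃ = ν ^ 2 - g)
    (h₁ : v ν < v ξ₁) (h₂ : v ν < v ξ₂) (h₃ : v ν < v ξ₃) :
    ∃ k : ℤ, (v ξ₁)⁻¹ * (v ξ₂)⁻¹ * (v ξ₃)⁻¹ = v g ^ k := by
  have hlt : v ν ^ 2 < v g := by
    by_contra hcon
    push Not at hcon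
    have hg0' : 0 < v g := zero_lt_iff.mpr ((Valuation.ne_zero_iff v).mpr hg0)
    have hν0 : 0 < v ν := by
      rcases (zero_le : (0 : Γ) ≤ v ν).eq_or_lt with h | h
      · rw [← h] at hcon
        simp at hcon
        exact absurd hcon hg0
      · exact h
    have he : v ξ₁ * v ξ₂ * v ξ₃ ≤ v ν * v ν := by
      rw [← map_mul, ← map_mul, he₃, ← sq]
      refine Valuation.map_sub_le v ?_ hcon
      rw [map_pow]
    -- each product is `< v ν`
    have key : ∀ a b c : Γ, a * b * c ≤ v ν * v ν → v ν < c → a * b < v ν := by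
      intro a b c habc hc
      by_contra hab
      push Not at hab
      have : v ν * v ν < a * b * c :=
        lt_of_lt_of_le (mul_lt_mul_of_pos_left hc hν0) (mul_le_mul_left hab c)
      exact absurd habc (not_le.mpr this)
    have hlt : v (ξ₁ * ξ₂ + ξ₂ * ξ₃ + ξ₃ * ξ₁) < v ν := by
      refine Valuation.map_add_lt v (Valuation.map_add_lt v ?_ ?_) ?_
      · rw [map_mul]; exact key _ _ _ he h₃
      · rw [map_mul]; exact key _ _ (v ξ₁) (by rw [mul_comm, ← mul_assoc]; exact he) h₁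
      · rw [map_mul]; exact key _ _ (v ξ₂) (by
          rw [mul_assoc, mul_comm]; exact he) h₂
    exact absurd hνe hlt.ne
  refine ⟨-1, ?_⟩
  rw [← mul_inv, ← mul_inv, ← map_mul, ← map_mul, he₃, zpow_neg_one,
    Valuation.map_sub_eq_of_lt_right v (by rw [map_pow]; exact hlt)]

lemma LineData.caseIV_aux (h : LineData δ g L M ν ξ₁ ξ₂ ξ₃) (hδ : v δ = 1) (hg0 : g ≠ 0)
    (hg : v g < 1) (hL : v L < 1) (hM : v M = 1)
    (h₁ : v ξ₁ < 1) (h₂ : v ξ₂ < 1) (h₃ : v ξ₃ < 1) {c₁ c₂ c₃ : Γ}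
    (hc₁ : IsC v (L * ξ₁ + ν) (M * ξ₁ + ν) c₁) (hc₂ : IsC v (L * ξ₂ + ν) (M * ξ₂ + ν) c₂)
    (hc₃ : IsC v (L * ξ₃ + ν) (M * ξ₃ + ν) c₃) : ∃ k : ℤ, c₁ * c₂ * c₃ = v g ^ k := by
  have hg0' : 0 < v g := zero_lt_iff.mpr ((Valuation.ne_zero_iff v).mpr hg0)
  have s₁ := shape hδ hg0 hg hL h₁ (by linear_combination ξ₁ * h.dif) h.st hc₁
  have s₂ := shape hδ hg0 hg hL h₂ (by linear_combination ξ₂ * h.dif) h.rot.st hc₂
  have s₃ := shape hδ hg0 hg hL h₃ (by linear_combination ξ₃ * h.dif) h.rot.rot.st hc₃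
  have hνe : v (ξ₁ * ξ₂ + ξ₂ * ξ₃ + ξ₃ * ξ₁) = v ν := by
    rw [h.e₂, Valuation.map_neg, map_mul,
      Valuation.map_add_eq_of_lt_right v (by rw [hM]; exact hL), hM, mul_one]
  have hνe' : v (ξ₂ * ξ₃ + ξ₃ * ξ₁ + ξ₁ * ξ₂) = v ν := by rw [← hνe]; congr 1; ring
  have hνe'' : v (ξ₃ * ξ₁ + ξ₁ * ξ₂ + ξ₂ * ξ₃) = v ν := by rw [← hνe]; congr 1; ring
  have pos : v g ≤ v ν ^ 2 → 0 < v ν := by
    intro hle
    rcases (zero_le : (0 : Γ) ≤ v ν).eq_or_lt with h | h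
    · rw [← h] at hle
      exact absurd (lt_of_lt_of_le hg0' hle) (by simp)
    · exact h
  -- two small ones: contradiction
  have two : ∀ a b c : K, v (a * b + b * c + c * a) = v ν → v a ≤ v ν → v b ≤ v ν → v c < 1 →
      v b < 1 → v a < 1 → 0 < v ν → False := by
    intro a b c he ha hb hc hb1 ha1 hν0
    have : v (a * b + b * c + c * a) < v ν := by
      refine Valuation.map_add_lt v (Valuation.map_add_lt v ?_ ?_) ?_
      · rw [map_mul]
        calc v a * v b ≤ v ν * v b := mul_le_mul_left ha _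
          _ < v ν * 1 := mul_lt_mul_of_pos_left hb1 hν0
          _ = v ν := mul_one _
      · rw [map_mul]
        calc v b * v c ≤ v ν * v c := mul_le_mul_left hb _
          _ < v ν * 1 := mul_lt_mul_of_pos_left hc hν0
          _ = v ν := mul_one _
      · rw [map_mul]
        calc v c * v a ≤ v c * v ν := mul_le_mul_right ha _
          _ < 1 * v ν := mul_lt_mul_of_pos_right hc hν0
          _ = v ν := one_mul _
    exact absurd he this.ne
  rcases s₁ with ⟨b₁, rfl⟩ | ⟨a₁, g₁, d₁⟩ <;> rcases s₂ with ⟨b₂, rfl⟩ | ⟨a₂, g₂, d₂⟩ <;>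
    rcases s₃ with ⟨b₃, rfl⟩ | ⟨a₃, g₃, d₃⟩
  · exact caseIV_BBB hg0 hνe h.e₃ b₁ b₂ b₃
  · exact caseIV_ABB hνe b₁ b₂ a₃ d₃ (pos g₃)
  · obtain ⟨k, hk⟩ := caseIV_ABB hνe'' b₃ b₁ a₂ d₂ (pos g₂)
    exact ⟨k, by rw [← hk]; ac_rfl⟩
  · exact (two _ _ _ hνe' a₂ a₃ h₁ h₃ h₂ (pos g₂)).elim
  · obtain ⟨k, hk⟩ := caseIV_ABB hνe' b₂ b₃ a₁ d₁ (pos g₁)
    exact ⟨k, by rw [← hk]; ac_rfl⟩
  · exact (two _ _ _ hνe'' a₃ a₁ h₂ h₁ h₃ (pos g₁)).elim
  · exact (two _ _ _ hνe a₁ a₂ h₃ h₂ h₁ (pos g₁)).elim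
  · exact (two _ _ _ hνe a₁ a₂ h₃ h₂ h₁ (pos g₁)).elim

/-- Case IV: all three points are near the node. -/
lemma LineData.caseIV (h : LineData δ g L M ν ξ₁ ξ₂ ξ₃) (hδ : v δ = 1) (hg0 : g ≠ 0)
    (hg : v g < 1) (h₁ : v ξ₁ < 1) (h₂ : v ξ₂ < 1) (h₃ : v ξ₃ < 1) {c₁ c₂ c₃ : Γ}
    (hc₁ : IsC v (L * ξ₁ + ν) (M * ξ₁ + ν) c₁) (hc₂ : IsC v (L * ξ₂ + ν) (M * ξ₂ + ν) c₂)
    (hc₃ : IsC v (L * ξ₃ + ν) (M * ξ₃ + ν) c₃) : ∃ k : ℤ, c₁ * c₂ * c₃ = v g ^ k := by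
  have hd : v (M - L) = 1 := by rw [h.dif]; exact hδ
  have hLM : v (L * M) < 1 := by
    rw [← h.e₁]
    exact Valuation.map_add_lt v (Valuation.map_add_lt v h₁ h₂) h₃
  rcases dichotomy_LM hd hLM with ⟨hL, hM⟩ | ⟨hM, hL⟩
  · exact h.caseIV_aux hδ hg0 hg hL hM h₁ h₂ h₃ hc₁ hc₂ hc₃
  · obtain ⟨k, hk⟩ := h.flip.caseIV_aux (by rw [Valuation.map_neg]; exact hδ) hg0 hg hM hL h₁ h₂ h₃
      hc₁.flip hc₂.flip hc₃.flip
    refine ⟨-k, ?_⟩
    rw [zpow_neg, ← hk, mul_inv, mul_inv, inv_inv, inv_inv, inv_inv]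

/-- Two points with nonsingular reduction: so is the third. -/
lemma LineData.closed (h : LineData δ g L M ν ξ₁ ξ₂ ξ₃) (hδ : v δ = 1)
    (hg : v g < 1) (h₁ : 1 ≤ v ξ₁) (h₂ : 1 ≤ v ξ₂) : 1 ≤ v ξ₃ := by
  -- WLOG `v ξ₂ ≤ v ξ₁`
  wlog hle : v ξ₂ ≤ v ξ₁ generalizing ξ₁ ξ₂
  · exact this h.swap₁₂ h₂ h₁ (le_of_lt (not_le.mp hle))
  by_contra h₃
  push Not at h₃
  have hd : v (M - L) = 1 := by rw [h.dif]; exact hδ
  have hts : (M * ξ₃ + ν) - (L * ξ₃ + ν) = δ * ξ₃ := by linear_combination ξ₃ * h.dif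
  have hs : v (L * ξ₃ + ν) < 1 := near_s_lt v hδ hg h₃ hts h.rot.rot.st
  have ht : v (M * ξ₃ + ν) < 1 := near_t_lt v hδ hg h₃ hts h.rot.rot.st
  -- `v e₂ = v ξ₁ v ξ₂`
  have he₂ : v (ξ₁ * ξ₂ + ξ₂ * ξ₃ + ξ₃ * ξ₁) = v ξ₁ * v ξ₂ := by
    have hlt : v (ξ₂ * ξ₃ + ξ₃ * ξ₁) < v (ξ₁ * ξ₂) := by
      have hp₁ : 0 < v ξ₁ := lt_of_lt_of_le one_pos h₁
      have hp₂ : 0 < v ξ₂ := lt_of_lt_of_le one_pos h₂
      refine Valuation.map_add_lt v ?_ ?_
      · rw [map_mul, map_mul, mul_comm (v ξ₁)]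
        exact mul_lt_mul_of_pos_left (lt_of_lt_of_le h₃ h₁) hp₂
      · rw [map_mul, map_mul, mul_comm (v ξ₃)]
        exact mul_lt_mul_of_pos_left (lt_of_lt_of_le h₃ h₂) hp₁
    rw [add_assoc, Valuation.map_add_eq_of_lt_left v hlt, map_mul]
  have hge : v ξ₁ ≤ v (ν * (L + M)) := by
    rw [← Valuation.map_neg v (ν * (L + M)), ← h.e₂, he₂]
    exact le_mul_of_one_le_right' h₂
  have hLMle : v (L * M) ≤ v ξ₁ := by
    rw [← h.e₁]
    exact Valuation.map_add_le v (Valuation.map_add_le v le_rfl hle) (le_of_lt (lt_of_lt_of_le h₃ h₁))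
  by_cases hL1 : 1 < v L
  · have hM : v M = v L := by
      have : M = δ + L := by linear_combination h.dif
      rw [this, Valuation.map_add_eq_of_lt_right v (by rw [hδ]; exact hL1)]
    have hp : 0 < v L := lt_trans one_pos hL1
    have hν : v ν < v L := by
      have : ν = (L * ξ₃ + ν) - L * ξ₃ := by ring
      rw [this]
      refine Valuation.map_sub_lt v (lt_trans hs hL1) ?_
      rw [map_mul]
      calc v L * v ξ₃ < v L * 1 := mul_lt_mul_of_pos_left h₃ hp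
        _ = v L := mul_one _
    have hsum : v (L + M) ≤ v L := Valuation.map_add_le v le_rfl hM.le
    have : v (ν * (L + M)) < v (L * M) := by
      rw [map_mul, map_mul, hM]
      calc v ν * v (L + M) ≤ v ν * v L := mul_le_mul_right hsum _
        _ < v L * v L := mul_lt_mul_of_pos_right hν hp
    exact absurd (lt_of_le_of_lt hge this) (not_lt.mpr hLMle)
  · push Not at hL1
    have hM1 : v M ≤ 1 := by
      have : M = δ + L := by linear_combination h.dif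
      rw [this]
      exact Valuation.map_add_le v hδ.le hL1
    have hν : v ν < 1 := by
      have : ν = (L * ξ₃ + ν) - L * ξ₃ := by ring
      rw [this]
      refine Valuation.map_sub_lt v hs ?_
      rw [map_mul]
      exact mul_lt_one_of_nonneg_of_lt_one_right hL1 zero_le h₃
    have : v (ν * (L + M)) < 1 := by
      rw [map_mul]
      exact mul_lt_one_of_nonneg_of_lt_one_left zero_le hν (Valuation.map_add_le v hL1 hM1)
    exact absurd (lt_of_le_of_lt hge this) (not_lt.mpr h₁)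

end val

end Fermat.Agent.H13
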