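import Mathlib
import Fermat.Agent.H13NodeVal

/-!
# The algebra of a critical point (node centre) of a Weierstrass equation (helper13)
-/

set_option autoImplicit false

namespace Fermat.Agent.H13

open WeierstrassCurve WeierstrassCurve.Affine

/-- `(x₀, y₀)` is a critical point of the Weierstrass polynomial with critical value `-g`, and `α`, `β`
are the slopes of the tangents: the equation is `(η - αξ)(η - βξ) = ξ³ + g`. -/
structure NodeData {R : Type*} [CommRing R] (W : WeierstrassCurve R) (x₀ y₀ α β g : R) : Prop where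
  dy : 2 * y₀ + W.a₁ * x₀ + W.a₃ = 0
  dx : 3 * x₀ ^ 2 + 2 * W.a₂ * x₀ + W.a₄ - W.a₁ * y₀ = 0
  eq : y₀ ^ 2 + W.a₁ * x₀ * y₀ + W.a₃ * y₀ + g = x₀ ^ 3 + W.a₂ * x₀ ^ 2 + W.a₄ * x₀ + W.a₆
  sum : α + β = -W.a₁
  prod : α * β = -(W.a₂ + 3 * x₀)

section ring

variable {R : Type*} [CommRing R] {W : WeierstrassCurve R} {x₀ y₀ α β g : R}

lemma NodeData.map {S : Type*} [CommRing S] (f : R →+* S) (h : NodeData W x₀ y₀ α β g) :
    NodeData (W.map f) (f x₀) (f y₀) (f α) (f β) (f g) := by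
  refine ⟨?_, ?_, ?_, ?_, ?_⟩
  · have := congrArg f h.dy
    simpa only [map_add, map_mul, map_pow, map_sub, map_ofNat, map_zero, map_a₁, map_a₃] using this
  · have := congrArg f h.dx
    simpa only [map_add, map_mul, map_pow, map_sub, map_ofNat, map_zero, map_a₁, map_a₂, map_a₄]
      using this
  · have := congrArg f h.eq
    simpa only [map_add, map_mul, map_pow, map_sub, map_ofNat, map_zero, map_a₁, map_a₂, map_a₃,
      map_a₄, map_a₆] using this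
  · have := congrArg f h.sum
    simpa only [map_add, map_neg, map_a₁] using this
  · have := congrArg f h.prod
    simpa only [map_add, map_mul, map_ofNat, map_neg, map_a₂] using this

lemma NodeData.swap (h : NodeData W x₀ y₀ α β g) : NodeData W x₀ y₀ β α g :=
  ⟨h.dy, h.dx, h.eq, by rw [add_comm]; exact h.sum, by rw [mul_comm]; exact h.prod⟩

/-- `s`-coordinate -/
def sC (x₀ y₀ α x y : R) : R := (y - y₀) - α * (x - x₀)

lemma sC_map {S : Type*} [CommRing S] (f : R →+* S) (x y : R) :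
    f (sC x₀ y₀ α x y) = sC (f x₀) (f y₀) (f α) (f x) (f y) := by
  simp only [sC, map_sub, map_mul]

lemma NodeData.ts {x y : R} : sC x₀ y₀ β x y - sC x₀ y₀ α x y = (α - β) * (x - x₀) := by
  simp only [sC]; ring

lemma NodeData.a₃ (h : NodeData W x₀ y₀ α β g) : W.a₃ = -(2 * y₀ + W.a₁ * x₀) := by
  linear_combination h.dy

lemma NodeData.a₄ (h : NodeData W x₀ y₀ α β g) : W.a₄ = W.a₁ * y₀ - 3 * x₀ ^ 2 - 2 * W.a₂ * x₀ := by
  linear_combination h.dx

lemma NodeData.a₆ (h : NodeData W x₀ y₀ α β g) :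
    W.a₆ = g + y₀ ^ 2 + W.a₁ * x₀ * y₀ + W.a₃ * y₀ - (x₀ ^ 3 + W.a₂ * x₀ ^ 2 + W.a₄ * x₀) := by
  linear_combination -h.eq

/-- the equation of the curve in `s, t` coordinates. -/
lemma NodeData.st (h : NodeData W x₀ y₀ α β g) {x y : R} (hE : W.toAffine.Equation x y) :
    sC x₀ y₀ α x y * sC x₀ y₀ β x y = (x - x₀) ^ 3 + g := by
  rw [equation_iff] at hE
  simp only [sC]
  linear_combination hE - h.eq - (y - y₀) * h.dy + (x - x₀) * h.dx
    - (x - x₀) * (y - y₀) * h.sum + (x - x₀) ^ 2 * h.prod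

lemma NodeData.equation_iff' (h : NodeData W x₀ y₀ α β g) {x y : R} :
    W.toAffine.Equation x y ↔ sC x₀ y₀ α x y * sC x₀ y₀ β x y = (x - x₀) ^ 3 + g := by
  refine ⟨h.st, fun hE => ?_⟩
  rw [equation_iff]
  simp only [sC] at hE
  linear_combination hE + h.eq + (y - y₀) * h.dy - (x - x₀) * h.dx
    + (x - x₀) * (y - y₀) * h.sum - (x - x₀) ^ 2 * h.prod

lemma NodeData.sC_negY (h : NodeData W x₀ y₀ α β g) (x y : R) :
    sC x₀ y₀ α x (W.toAffine.negY x y) = -sC x₀ y₀ β x y := by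
  simp only [sC, negY]
  linear_combination -h.dy - (x - x₀) * h.sum

/-- the discriminant. -/
lemma NodeData.disc (h : NodeData W x₀ y₀ α β g) :
    W.Δ = -g * ((W.b₂ + 12 * x₀) ^ 3 + 432 * g) := by
  simp only [WeierstrassCurve.Δ, WeierstrassCurve.b₂, WeierstrassCurve.b₄, WeierstrassCurve.b₆,
    WeierstrassCurve.b₈]
  rw [h.a₆, h.a₄, h.a₃]
  ring

lemma NodeData.c₄_eq (h : NodeData W x₀ y₀ α β g) :
    W.c₄ = (W.b₂ + 12 * x₀) ^ 2 := by
  simp only [WeierstrassCurve.c₄, WeierstrassCurve.b₂, WeierstrassCurve.b₄]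
  rw [h.a₄, h.a₃]
  ring

lemma NodeData.c₆_eq (h : NodeData W x₀ y₀ α β g) :
    W.c₆ = -(W.b₂ + 12 * x₀) ^ 3 - 864 * g := by
  simp only [WeierstrassCurve.c₆, WeierstrassCurve.b₂, WeierstrassCurve.b₄, WeierstrassCurve.b₆]
  rw [h.a₆, h.a₄, h.a₃]
  ring

lemma NodeData.delta_sq (h : NodeData W x₀ y₀ α β g) :
    (α - β) ^ 2 = W.b₂ + 12 * x₀ := by
  simp only [WeierstrassCurve.b₂]
  linear_combination (α + β - W.a₁) * h.sum - 4 * h.prod

end ring

section field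

variable {K : Type*} [Field K] [DecidableEq K] {W : WeierstrassCurve K} {x₀ y₀ α β g : K}

/-- Collinearity data for `P + Q + R = 0`. -/
lemma NodeData.exists_lineData (h : NodeData W x₀ y₀ α β g) {x₁ y₁ x₂ y₂ x₃ y₃ : K}
    {h₁ : W.toAffine.Nonsingular x₁ y₁} {h₂ : W.toAffine.Nonsingular x₂ y₂}
    {h₃ : W.toAffine.Nonsingular x₃ y₃}
    (hsum : Point.some x₁ y₁ h₁ + Point.some x₂ y₂ h₂ + Point.some x₃ y₃ h₃ = 0) :
    ∃ L M ν : K, LineData (α - β) g L M ν (x₁ - x₀) (x₂ - x₀) (x₃ - x₀) ∧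
      sC x₀ y₀ α x₁ y₁ = L * (x₁ - x₀) + ν ∧ sC x₀ y₀ β x₁ y₁ = M * (x₁ - x₀) + ν ∧
      sC x₀ y₀ α x₂ y₂ = L * (x₂ - x₀) + ν ∧ sC x₀ y₀ β x₂ y₂ = M * (x₂ - x₀) + ν ∧
      sC x₀ y₀ α x₃ y₃ = L * (x₃ - x₀) + ν ∧ sC x₀ y₀ β x₃ y₃ = M * (x₃ - x₀) + ν := by
  have e₁ := (equation_iff _ _).mp h₁.left
  have e₂ := (equation_iff _ _).mp h₂.left
  by_cases hxy : x₁ = x₂ ∧ y₁ = W.toAffine.negY x₂ y₂
  · rw [Point.add_of_Y_eq hxy.1 hxy.2, zero_add] at hsum
    exact absurd hsum (Point.some_ne_zero h₃)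
  · have hneg : Point.some x₁ y₁ h₁ + Point.some x₂ y₂ h₂ = -Point.some x₃ y₃ h₃ :=
      eq_neg_of_add_eq_zero_left hsum
    rw [Point.add_some hxy, Point.neg_some] at hneg
    simp only [Point.some.injEq] at hneg
    obtain ⟨hx₃, hy₃⟩ := hneg
    set l := W.toAffine.slope x₁ x₂ y₁ y₂ with hl
    have hl₁ : l * (x₁ - x₂) = y₁ - y₂ := by
      by_cases hx : x₁ = x₂
      · have hy : y₁ = y₂ := (Y_eq_of_X_eq h₁.left h₂.left hx).resolve_right
          (fun hy => hxy ⟨hx, hy⟩)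
        rw [hx, hy]; ring
      · rw [hl, slope_of_X_ne hx, div_mul_cancel₀ _ (sub_ne_zero.mpr hx)]
    have hl₂ : l * (y₁ + y₂ + W.a₁ * x₁ + W.a₃) =
        x₁ ^ 2 + x₁ * x₂ + x₂ ^ 2 + W.a₂ * (x₁ + x₂) + W.a₄ - W.a₁ * y₂ := by
      by_cases hx : x₁ = x₂
      · have hy' : y₁ ≠ W.toAffine.negY x₂ y₂ := fun hy => hxy ⟨hx, hy⟩
        have hy : y₁ = y₂ := (Y_eq_of_X_eq h₁.left h₂.left hx).resolve_right hy'
        rw [hl, slope_of_Y_ne hx hy']
        subst hx hy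
        have hne : y₁ - W.toAffine.negY x₁ y₁ ≠ 0 := sub_ne_zero.mpr hy'
        rw [div_mul_eq_mul_div, div_eq_iff hne]
        simp only [negY]
        ring
      · have hx' := sub_ne_zero.mpr hx
        rw [hl, slope_of_X_ne hx, div_mul_eq_mul_div, div_eq_iff hx']
        linear_combination e₁ - e₂
    have hx₃' : x₃ = l ^ 2 + W.a₁ * l - W.a₂ - x₁ - x₂ := by rw [← hx₃, addX]
    have hy₃' : y₃ = l * (x₃ - x₁) + y₁ := by
      simp only [addY, negAddY, negY] at hy₃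
      have hx₃'' : W.toAffine.addX x₁ x₂ l = x₃ := hx₃
      rw [hx₃''] at hy₃
      linear_combination hy₃
    have S1 : x₁ + x₂ + x₃ = l ^ 2 + W.a₁ * l - W.a₂ := by rw [hx₃']; ring
    have S2 : x₁ * x₂ + x₂ * x₃ + x₃ * x₁ =
        W.a₄ - (2 * l + W.a₁) * (y₁ - l * x₁) - W.a₃ * l := by
      rw [hx₃']
      linear_combination hl₂ - (W.a₁ + l) * hl₁
    have S3 : x₁ * x₂ * x₃ = (y₁ - l * x₁) ^ 2 + W.a₃ * (y₁ - l * x₁) - W.a₆ := by
      rw [hx₃']
      linear_combination x₁ * hl₂ - (W.a₁ * x₁ + l * x₁) * hl₁ - e₁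
    refine ⟨l - α, l - β, (y₁ - y₀) - l * (x₁ - x₀), ⟨by ring, ?_, ?_, ?_⟩, ?_, ?_, ?_, ?_, ?_, ?_⟩
    · linear_combination S1 + l * h.sum - h.prod
    · linear_combination S2 - 2 * x₀ * S1 + h.dx - l * h.dy
        - ((y₁ - y₀) - l * (x₁ - x₀)) * h.sum
    · linear_combination S3 - x₀ * S2 + x₀ ^ 2 * S1 + ((y₁ - y₀) - l * (x₁ - x₀)) * h.dy + h.eq
    · simp only [sC]; ring
    · simp only [sC]; ring
    · simp only [sC]; linear_combination hl₁
    · simp only [sC]; linear_combination hl₁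
    · simp only [sC]; rw [hy₃']; ring
    · simp only [sC]; rw [hy₃']; ring

end field

end Fermat.Agent.H13
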