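import Mathlib
import Fermat.Agent.H13Node

/-!
# Existence and uniqueness of the centre at a place of multiplicative reduction (helper13)
-/

set_option autoImplicit false

namespace Fermat.Agent.H13

open WeierstrassCurve WeierstrassCurve.Affine IsLocalRing

section

variable {K : Type*} [Field K] (A : ValuationSubring K)

lemma exists_roots [IsAlgClosed K] (p q : A) : ∃ z₁ z₂ : A, z₁ + z₂ = -p ∧ z₁ * z₂ = q := by
  obtain ⟨z, hz⟩ : ∃ z : K, z ^ 2 + p * z + q = 0 := by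
    have hdeg : (Polynomial.X ^ 2 + Polynomial.C (p : K) * Polynomial.X +
        Polynomial.C (q : K)).degree ≠ 0 := by
      have : (Polynomial.X ^ 2 + Polynomial.C (p : K) * Polynomial.X +
        Polynomial.C (q : K)).degree = 2 := by compute_degree!
      rw [this]
      decide
    obtain ⟨z, hz⟩ := IsAlgClosed.exists_root _ hdeg
    refine ⟨z, ?_⟩
    simpa only [Polynomial.IsRoot.def, Polynomial.eval_add,
      Polynomial.eval_pow, Polynomial.eval_X, Polynomial.eval_mul, Polynomial.eval_C] using hz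
  have hmem : z ∈ A := by
    rcases A.mem_or_inv_mem z with h | h
    · exact h
    · by_cases h0 : z = 0
      · exact h0 ▸ A.zero_mem
      have key : z = -((p : K) + q * z⁻¹) := by
        field_simp
        linear_combination hz
      rw [key]
      exact A.neg_mem _ (add_mem p.2 (mul_mem q.2 h))
  refine ⟨⟨z, hmem⟩, -p - ⟨z, hmem⟩, by ring, ?_⟩
  apply Subtype.ext
  push_cast
  linear_combination -hz

variable {A}

lemma isUnit_add_of_mem {a b : A} (ha : IsUnit a) (hb : b ∈ maximalIdeal A) : IsUnit (a + b) := by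
  by_contra h
  have h1 : a + b ∈ maximalIdeal A := (mem_maximalIdeal _).mpr h
  have h2 : a ∈ maximalIdeal A := by
    have := sub_mem h1 hb
    simpa using this
  exact (mem_maximalIdeal _).mp h2 ha

lemma isUnit_or_isUnit_of_sub {a b : A} (h : IsUnit (a - b)) : IsUnit a ∨ IsUnit b := by
  by_contra hcon
  push Not at hcon
  have h1 : a ∈ maximalIdeal A := (mem_maximalIdeal _).mpr hcon.1
  have h2 : b ∈ maximalIdeal A := (mem_maximalIdeal _).mpr hcon.2
  exact (mem_maximalIdeal _).mp (sub_mem h1 h2) h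

/-- **Existence of the centre.** -/
theorem exists_nodeData [IsAlgClosed K] (W : WeierstrassCurve A) (hΔ : W.Δ ∈ maximalIdeal A)
    (hc : IsUnit W.c₄) : ∃ x₀ y₀ α β g : A, NodeData W x₀ y₀ α β g ∧ g ∈ maximalIdeal A ∧
      IsUnit (α - β) := by
  -- step 1: a critical `x₀` gives everything but the condition on `g`
  have step : ∀ x₀ : A, 6 * x₀ ^ 2 + W.b₂ * x₀ + W.b₄ = 0 → ∃ y₀ α β g : A,
      NodeData W x₀ y₀ α β g ∧ IsUnit (α - β) := by
    intro x₀ hx₀
    obtain ⟨y₀, hdy, hdx⟩ : ∃ y₀ : A, 2 * y₀ + W.a₁ * x₀ + W.a₃ = 0 ∧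
        3 * x₀ ^ 2 + 2 * W.a₂ * x₀ + W.a₄ - W.a₁ * y₀ = 0 := by
      by_cases h2 : IsUnit (2 : A)
      · obtain ⟨u, hu⟩ := h2.exists_right_inv
        refine ⟨-(W.a₁ * x₀ + W.a₃) * u, by linear_combination (-(W.a₁ * x₀ + W.a₃)) * hu, ?_⟩
        rw [WeierstrassCurve.b₂, WeierstrassCurve.b₄] at hx₀
        linear_combination u * hx₀ - (3 * x₀ ^ 2 + 2 * W.a₂ * x₀ + W.a₄) * hu
      · have h2m : (2 : A) ∈ maximalIdeal A := (mem_maximalIdeal _).mpr h2
        have ha₁ : IsUnit W.a₁ := by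
          by_contra hcon
          have h1 : W.a₁ ∈ maximalIdeal A := (mem_maximalIdeal _).mpr hcon
          apply (mem_maximalIdeal W.c₄).mp ?_ hc
          have : W.c₄ = W.a₁ * (W.a₁ * (W.a₁ ^ 2 + 8 * W.a₂)) +
              2 * (8 * W.a₂ ^ 2 - 12 * W.b₄) := by
            rw [WeierstrassCurve.c₄, WeierstrassCurve.b₂]; ring
          rw [this]
          exact add_mem (Ideal.mul_mem_right _ _ h1) (Ideal.mul_mem_right _ _ h2m)
        obtain ⟨u, hu⟩ := ha₁.exists_right_inv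
        refine ⟨(3 * x₀ ^ 2 + 2 * W.a₂ * x₀ + W.a₄) * u, ?_, ?_⟩
        · rw [WeierstrassCurve.b₂, WeierstrassCurve.b₄] at hx₀
          linear_combination u * hx₀ - (W.a₁ * x₀ + W.a₃) * hu
        · linear_combination -(3 * x₀ ^ 2 + 2 * W.a₂ * x₀ + W.a₄) * hu
    obtain ⟨α, β, hs, hp⟩ := exists_roots A W.a₁ (-(W.a₂ + 3 * x₀))
    have hN : NodeData W x₀ y₀ α β
        (x₀ ^ 3 + W.a₂ * x₀ ^ 2 + W.a₄ * x₀ + W.a₆ - (y₀ ^ 2 + W.a₁ * x₀ * y₀ + W.a₃ * y₀)) :=
      ⟨hdy, hdx, by ring, hs, hp⟩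
    refine ⟨y₀, α, β, _, hN, ?_⟩
    have h1 : IsUnit ((α - β) ^ 4) := by
      have : (α - β) ^ 4 = W.c₄ := by
        rw [hN.c₄_eq, ← hN.delta_sq]; ring
      rw [this]; exact hc
    exact (isUnit_pow_iff (by norm_num)).mp h1
  -- step 2: the roots `z`
  obtain ⟨z₁, z₂, hz, hz'⟩ := exists_roots A W.b₂ (6 * W.b₄)
  have hdz : IsUnit (z₁ - z₂) := by
    have : IsUnit ((z₁ - z₂) ^ 2) := by
      have : (z₁ - z₂) ^ 2 = W.c₄ := by
        rw [WeierstrassCurve.c₄]
        linear_combination (z₁ + z₂ - W.b₂) * hz - 4 * hz'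
      rw [this]; exact hc
    exact (isUnit_pow_iff (by norm_num)).mp this
  have fin : ∀ x₀ : A, 6 * x₀ ^ 2 + W.b₂ * x₀ + W.b₄ = 0 →
      (∀ y₀ α β g : A, NodeData W x₀ y₀ α β g → IsUnit (α - β) → g ∈ maximalIdeal A) →
      ∃ x₀ y₀ α β g : A, NodeData W x₀ y₀ α β g ∧ g ∈ maximalIdeal A ∧ IsUnit (α - β) := by
    intro x₀ hx₀ h
    obtain ⟨y₀, α, β, g, hN, hu⟩ := step x₀ hx₀
    exact ⟨x₀, y₀, α, β, g, hN, h y₀ α β g hN hu, hu⟩
  by_cases h6 : IsUnit (6 : A)
  · -- `x₀ = z₂ / 6`, `x₀' = z₁ / 6`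
    obtain ⟨u, hu⟩ := h6.exists_right_inv
    have hr₂ : 6 * (z₂ * u) ^ 2 + W.b₂ * (z₂ * u) + W.b₄ = 0 := by
      linear_combination (z₂ ^ 2 * u) * hu + (z₂ * u) * hz - u * hz' - W.b₄ * hu
    have hr₁ : 6 * (z₁ * u) ^ 2 + W.b₂ * (z₁ * u) + W.b₄ = 0 := by
      linear_combination (z₁ ^ 2 * u) * hu + (z₁ * u) * hz - u * hz' - W.b₄ * hu
    obtain ⟨y, α, β, g, hN, hd⟩ := step _ hr₂
    obtain ⟨y', α', β', g', hN', hd'⟩ := step _ hr₁
    -- `Δ = - 432 g g'`
    have hb : W.b₂ + 12 * (z₂ * u) = z₂ - z₁ := by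
      linear_combination (2 * z₂) * hu + hz
    have hb' : W.b₂ + 12 * (z₁ * u) = -(z₂ - z₁) := by
      linear_combination (2 * z₁) * hu + hz
    have hprod : W.Δ = -(432 * g * g') := by
      have e1 := hN.c₆_eq
      have e2 := hN'.c₆_eq
      have e3 := hN.disc
      rw [hb] at e1 e3
      rw [hb'] at e2
      have e4 : (z₂ - z₁) ^ 3 = 432 * (g' - g) := by
        have h2 : IsUnit (2 : A) := isUnit_of_mul_isUnit_left (y := 3) (by norm_num; exact h6)
        apply h2.mul_left_cancel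
        linear_combination e1 - e2
      rw [e3, e4]
      ring
    rw [hprod] at hΔ
    have h432 : IsUnit (432 : A) := by
      have h2 : IsUnit (2 : A) := isUnit_of_mul_isUnit_left (y := 3) (by norm_num; exact h6)
      have h3 : IsUnit (3 : A) := isUnit_of_mul_isUnit_left (y := 2) (by norm_num; exact h6)
      have : (432 : A) = 2 ^ 4 * 3 ^ 3 := by norm_num
      rw [this]
      exact (h2.pow 4).mul (h3.pow 3)
    have hgg : g * g' ∈ maximalIdeal A := by
      rw [mem_maximalIdeal] at hΔ ⊢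
      intro hcon
      apply hΔ
      rw [mul_assoc]
      exact (h432.mul hcon).neg
    rcases (Ideal.IsPrime.mem_or_mem inferInstance hgg) with hg | hg
    · exact ⟨_, y, α, β, g, hN, hg, hd⟩
    · exact ⟨_, y', α', β', g', hN', hg, hd'⟩
  · -- `6 ∈ 𝔪`
    have h6m : (6 : A) ∈ maximalIdeal A := (mem_maximalIdeal _).mpr h6
    wlog hz₁ : IsUnit z₁ generalizing z₁ z₂
    · refine this z₂ z₁ (by rw [add_comm]; exact hz) (by rw [mul_comm]; exact hz') ?_ ?_
      · rw [← neg_sub]; exact hdz.neg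
      · exact (isUnit_or_isUnit_of_sub hdz).resolve_left hz₁
    obtain ⟨u, hu⟩ := hz₁.exists_right_inv
    refine fin (W.b₄ * u) ?_ ?_
    · linear_combination (-(W.b₄ * u ^ 2)) * hz' + (W.b₄ * u * z₂) * hu + (W.b₄ * u) * hz
        - W.b₄ * hu
    · intro y₀ α β g hN hd
      have h1 := hN.disc
      rw [← hN.delta_sq] at h1
      have h2 : IsUnit (((α - β) ^ 2) ^ 3 + 432 * g) := by
        refine isUnit_add_of_mem ((hd.pow 2).pow 3) ?_
        have : 432 * g = 6 * (72 * g) := by ring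
        rw [this]
        exact Ideal.mul_mem_right _ _ h6m
      rw [h1] at hΔ
      rw [mem_maximalIdeal] at hΔ ⊢
      intro hcon
      exact hΔ (hcon.neg.mul h2)

/-- **Uniqueness of the centre.** -/
theorem NodeData.unique {W : WeierstrassCurve A} {x₀ y₀ α β g x₁ y₁ α' β' g' : A}
    (h : NodeData W x₀ y₀ α β g) (h' : NodeData W x₁ y₁ α' β' g') (hu : IsUnit (α - β))
    (hg : g ∈ maximalIdeal A) (hg' : g' ∈ maximalIdeal A) : x₁ = x₀ ∧ y₁ = y₀ ∧ g' = g := by
  have hb : IsUnit (W.b₂ + 12 * x₀) := by rw [← h.delta_sq]; exact hu.pow 2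
  have e1 : 2 * (y₁ - y₀) + W.a₁ * (x₁ - x₀) = 0 := by linear_combination h'.dy - h.dy
  have e2 : 3 * (x₁ - x₀) ^ 2 + 2 * (W.a₂ + 3 * x₀) * (x₁ - x₀) - W.a₁ * (y₁ - y₀) = 0 := by
    linear_combination h'.dx - h.dx
  have e3 : (x₁ - x₀) * (6 * (x₁ - x₀) + (W.b₂ + 12 * x₀)) = 0 := by
    rw [WeierstrassCurve.b₂]
    linear_combination 2 * e2 + W.a₁ * e1
  have hx : x₁ = x₀ := by
    rcases mul_eq_zero.mp e3 with h0 | h0
    · exact sub_eq_zero.mp h0
    · exfalso
      have e4 : 2 * (x₁ - x₀) ^ 3 = 4 * (g - g') := by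
        have e5 : (2 * (y₁ - y₀) + W.a₁ * (x₁ - x₀)) ^ 2 =
            4 * (x₁ - x₀) ^ 3 + (W.b₂ + 12 * x₀) * (x₁ - x₀) ^ 2 + 4 * (g - g') := by
          rw [WeierstrassCurve.b₂]
          linear_combination 4 * h'.eq - 4 * h.eq - 4 * (y₁ - y₀) * h.dy + 4 * (x₁ - x₀) * h.dx
        rw [e1] at e5
        linear_combination e5 + (x₁ - x₀) ^ 2 * h0
      have h6 : IsUnit (6 * (x₁ - x₀)) := by
        have : 6 * (x₁ - x₀) = -(W.b₂ + 12 * x₀) := by linear_combination h0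
        rw [this]; exact hb.neg
      have hxu : IsUnit (x₁ - x₀) := isUnit_of_mul_isUnit_right h6
      have h2 : IsUnit (2 : A) := by
        have h3 : IsUnit (2 * (3 * (x₁ - x₀))) := by
          have : 2 * (3 * (x₁ - x₀)) = 6 * (x₁ - x₀) := by ring
          rw [this]; exact h6
        exact isUnit_of_mul_isUnit_left h3
      have h4 : IsUnit (4 * (g - g')) := by
        rw [← e4]; exact h2.mul (hxu.pow 3)
      have h5 := isUnit_of_mul_isUnit_right h4
      exact (mem_maximalIdeal _).mp (sub_mem hg hg') h5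
  have hy : y₁ = y₀ := by
    subst hx
    have e4 : (W.b₂ + 12 * x₁) * (y₁ - y₀) = 0 := by
      rw [WeierstrassCurve.b₂]
      linear_combination (-W.a₁) * e2 + 2 * (W.a₂ + 3 * x₁) * e1
    exact sub_eq_zero.mp ((hb.mul_right_eq_zero).mp e4)
  refine ⟨hx, hy, ?_⟩
  subst hx hy
  linear_combination h'.eq - h.eq

end

end Fermat.Agent.H13
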