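import Mathlib

/-!
# Reduction of points of Weierstrass curves at an arbitrary valuation ring (helper59)

`A : ValuationSubring L`, `ρ : A →+* k` a local ring homomorphism to a field, `E` a Weierstrass curve
over `A`, `EL = E.map A.subtype`, `Ek = E.map ρ`.

`Reduces A ρ P Q` : the point `P : EL.Point` reduces to the (nonsingular) point `Q : Ek.Point`.
Main theorem `Reduces.add`.
-/

set_option autoImplicit false

namespace Fermat.Agent.H59

open WeierstrassCurve WeierstrassCurve.Affine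

section Red

variable {L : Type*} [Field L] {k : Type*} [Field k]

/-- The point `P` over `L` reduces to the nonsingular point `Q` over `k`. -/
def Reduces (A : ValuationSubring L) (ρ : A →+* k) {EL : Affine L} {Ek : Affine k}
    (P : EL.Point) (Q : Ek.Point) : Prop :=
  match P, Q with
  | .zero, .zero => True
  | .zero, .some _ _ _ => False
  | .some x _ _, .zero => x ∉ A
  | .some x y _, .some x' y' _ => ∃ a b : A, (a : L) = x ∧ (b : L) = y ∧ ρ a = x' ∧ ρ b = y'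

variable {A : ValuationSubring L} {ρ : A →+* k} {EL : Affine L} {Ek : Affine k}

@[simp] lemma reduces_zero_zero : Reduces A ρ (0 : EL.Point) (0 : Ek.Point) := trivial

lemma reduces_some_zero {x y : L} {h : EL.Nonsingular x y} :
    Reduces A ρ (Point.some x y h) (0 : Ek.Point) ↔ x ∉ A := Iff.rfl

lemma reduces_some_some {x y : L} {h : EL.Nonsingular x y} {x' y' : k} {h' : Ek.Nonsingular x' y'} :
    Reduces A ρ (Point.some x y h) (Point.some x' y' h') ↔
      ∃ a b : A, (a : L) = x ∧ (b : L) = y ∧ ρ a = x' ∧ ρ b = y' := Iff.rfl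

lemma not_reduces_zero_some {x' y' : k} {h' : Ek.Nonsingular x' y'} :
    ¬ Reduces A ρ (0 : EL.Point) (Point.some x' y' h') := id

lemma Reduces.unique {P : EL.Point} {Q Q' : Ek.Point} (h : Reduces A ρ P Q)
    (h' : Reduces A ρ P Q') : Q = Q' := by
  rcases P with _ | ⟨x, y, hP⟩
  · rcases Q with _ | ⟨x₁, y₁, h₁⟩
    · rcases Q' with _ | ⟨x₂, y₂, h₂⟩
      · rfl
      · exact h'.elim
    · exact h.elim
  · rcases Q with _ | ⟨x₁, y₁, h₁⟩
    · rcases Q' with _ | ⟨x₂, y₂, h₂⟩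
      · rfl
      · obtain ⟨a, b, ha, -⟩ := h'
        exact (h (ha ▸ a.2)).elim
    · rcases Q' with _ | ⟨x₂, y₂, h₂⟩
      · obtain ⟨a, b, ha, -⟩ := h
        exact (h' (ha ▸ a.2)).elim
      · obtain ⟨a, b, ha, hb, rfl, rfl⟩ := h
        obtain ⟨a', b', ha', hb', rfl, rfl⟩ := h'
        have e1 : a = a' := Subtype.ext (ha.trans ha'.symm)
        have e2 : b = b' := Subtype.ext (hb.trans hb'.symm)
        subst e1 e2
        rfl

/-- elements outside a valuation ring have inverse in the kernel of reduction. -/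
lemma exists_inv_of_not_mem [IsLocalHom ρ] {t : L} (ht : t ∉ A) :
    ∃ u : A, (u : L) * t = 1 ∧ ρ u = 0 := by
  have h0 : t ≠ 0 := fun h => ht (h ▸ A.zero_mem)
  have hinv : t⁻¹ ∈ A := (A.mem_or_inv_mem t).resolve_left ht
  refine ⟨⟨t⁻¹, hinv⟩, inv_mul_cancel₀ h0, ?_⟩
  by_contra hne
  have hu : IsUnit (⟨t⁻¹, hinv⟩ : A) := isUnit_of_map_unit ρ _ (isUnit_iff_ne_zero.mpr hne)
  obtain ⟨v, hv⟩ := hu.exists_right_inv
  have : (t⁻¹ : L) * (v : L) = 1 := congrArg Subtype.val hv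
  have h2 : (v : L) = t := by
    field_simp at this
    exact this
  exact ht (h2 ▸ v.2)

lemma not_mem_of_mul_eq_one {t : L} {u : A} (h : (u : L) * t = 1) (hu : ρ u = 0) : t ∉ A := by
  intro ht
  have h1 : u * ⟨t, ht⟩ = 1 := Subtype.ext h
  have := congrArg ρ h1
  rw [map_mul, hu, zero_mul, map_one] at this
  exact zero_ne_one this

lemma exists_inv_of_ne_zero [IsLocalHom ρ] {a : A} (ha : ρ a ≠ 0) :
    ∃ b : A, a * b = 1 ∧ ρ b = (ρ a)⁻¹ := by
  obtain ⟨b, hb⟩ := (isUnit_of_map_unit ρ a (isUnit_iff_ne_zero.mpr ha)).exists_right_inv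
  refine ⟨b, hb, ?_⟩
  have := congrArg ρ hb
  rw [map_mul, map_one] at this
  exact (eq_inv_of_mul_eq_one_right this)

/-- integrality of `y` from integrality of `x` -/
lemma y_mem {E : WeierstrassCurve A} (hL : E.map A.subtype = EL) {x y : L}
    (h : EL.Equation x y) (hx : x ∈ A) : y ∈ A := by
  rcases A.mem_or_inv_mem y with hy | hy
  · exact hy
  · by_cases h0 : y = 0
    · exact h0 ▸ A.zero_mem
    subst hL
    rw [equation_iff] at h
    simp only [map_a₁, map_a₂, map_a₃, map_a₄, map_a₆] at h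
    have key : y = (((⟨x, hx⟩ : A) ^ 3 + E.a₂ * ⟨x, hx⟩ ^ 2 + E.a₄ * ⟨x, hx⟩ + E.a₆) * ⟨y⁻¹, hy⟩
        - (E.a₁ * ⟨x, hx⟩ + E.a₃) : A) := by
      push_cast
      field_simp
      simp only [ValuationSubring.subtype_apply] at h
      linear_combination h
    rw [key]
    exact Subtype.property _

end Red

section Slope

variable {L : Type*} [Field L] [DecidableEq L] {k : Type*} [Field k] [DecidableEq k]
  {A : ValuationSubring L} {ρ : A →+* k} [IsLocalHom ρ] {EL : Affine L} {Ek : Affine k}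
  {E : WeierstrassCurve A}

/-- If the reductions are not opposite, the slope is integral and reduces to the slope. -/
lemma slope_red (hL : E.map A.subtype = EL) (hk : E.map ρ = Ek) {x₁ y₁ x₂ y₂ : A}
    (h₁ : EL.Equation (x₁ : L) y₁) (h₂ : EL.Equation (x₂ : L) y₂)
    (hne : ¬ (ρ x₁ = ρ x₂ ∧ ρ y₁ = Ek.negY (ρ x₂) (ρ y₂))) :
    ∃ ℓ : A, (ℓ : L) = EL.slope x₁ x₂ y₁ y₂ ∧ ρ ℓ = Ek.slope (ρ x₁) (ρ x₂) (ρ y₁) (ρ y₂) := by
  subst hL hk
  have h₁' : y₁ ^ 2 + E.a₁ * x₁ * y₁ + E.a₃ * y₁ = x₁ ^ 3 + E.a₂ * x₁ ^ 2 + E.a₄ * x₁ + E.a₆ := by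
    rw [equation_iff] at h₁
    apply Subtype.ext
    push_cast
    simpa only [map_a₁, map_a₂, map_a₃, map_a₄, map_a₆, ValuationSubring.subtype_apply] using h₁
  have h₂' : y₂ ^ 2 + E.a₁ * x₂ * y₂ + E.a₃ * y₂ = x₂ ^ 3 + E.a₂ * x₂ ^ 2 + E.a₄ * x₂ + E.a₆ := by
    rw [equation_iff] at h₂
    apply Subtype.ext
    push_cast
    simpa only [map_a₁, map_a₂, map_a₃, map_a₄, map_a₆, ValuationSubring.subtype_apply] using h₂
  by_cases hx : ρ x₁ = ρ x₂
  · -- equal reductions of x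
    have hy : ρ y₁ ≠ (E.map ρ).toAffine.negY (ρ x₂) (ρ y₂) := fun h => hne ⟨hx, h⟩
    have hprod : (ρ y₁ - ρ y₂) * (ρ y₁ - (E.map ρ).toAffine.negY (ρ x₂) (ρ y₂)) = 0 := by
      have e1 := congrArg ρ h₁'
      have e2 := congrArg ρ h₂'
      simp only [map_add, map_mul, map_pow] at e1 e2
      rw [negY, map_a₁, map_a₃]
      rw [hx] at e1
      linear_combination e1 - e2
    have hy12 : ρ y₁ = ρ y₂ := by
      rcases mul_eq_zero.mp hprod with h | h
      · exact sub_eq_zero.mp h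
      · exact absurd (sub_eq_zero.mp h) hy
    -- D = y₁ + y₂ + a₁ x₂ + a₃ is a unit
    set D : A := y₁ + y₂ + E.a₁ * x₂ + E.a₃ with hD
    have hρD : ρ D ≠ 0 := by
      intro h0
      apply hy
      rw [negY, map_a₁, map_a₃]
      simp only [hD, map_add, map_mul] at h0
      linear_combination h0
    obtain ⟨D', hDD', hρD'⟩ := exists_inv_of_ne_zero hρD
    set N : A := x₁ ^ 2 + x₁ * x₂ + x₂ ^ 2 + E.a₂ * (x₁ + x₂) + E.a₄ - E.a₁ * y₁ with hN
    have hid : (y₁ - y₂) * D = (x₁ - x₂) * N := by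
      rw [hD, hN]
      linear_combination h₁' - h₂'
    refine ⟨N * D', ?_, ?_⟩
    · by_cases hxx : x₁ = x₂
      · subst hxx
        have hyL : (y₁ : L) ≠ (E.map A.subtype).toAffine.negY x₁ y₂ := by
          intro h
          apply hy
          rw [negY, map_a₁, map_a₃] at h ⊢
          have h' : y₁ = -y₂ - E.a₁ * x₁ - E.a₃ := by
            apply Subtype.ext
            push_cast
            simpa only [ValuationSubring.subtype_apply] using h
          have := congrArg ρ h'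
          simpa only [map_sub, map_neg, map_mul] using this
        rw [slope_of_Y_ne rfl hyL]
        have hyy : (y₁ : L) = y₂ := Y_eq_of_Y_ne h₁ h₂ rfl hyL
        have hyy' : y₁ = y₂ := Subtype.ext hyy
        subst hyy'
        have hDne : (D : L) ≠ 0 := fun h => hρD (by
          have : D = 0 := Subtype.ext h
          rw [this, map_zero])
        have hDL : (D : L) * (D' : L) = 1 := congrArg Subtype.val hDD'
        have e1 : (y₁ : L) - (E.map A.subtype).toAffine.negY (x₁ : L) (y₁ : L) = (D : L) := by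
          rw [negY, map_a₁, map_a₃, hD]
          push_cast
          simp only [ValuationSubring.subtype_apply]
          ring
        rw [e1, eq_div_iff hDne]
        have e2 : ((N * D' : A) : L) * (D : L) = (N : L) := by
          push_cast
          rw [mul_assoc, mul_comm (D' : L), hDL, mul_one]
        rw [e2, hN]
        push_cast
        simp only [map_a₁, map_a₂, map_a₄, ValuationSubring.subtype_apply]
        ring
      · have hxxL : (x₁ : L) ≠ x₂ := fun h => hxx (Subtype.ext h)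
        rw [slope_of_X_ne hxxL, eq_div_iff (sub_ne_zero.mpr hxxL)]
        have hidL : ((y₁ : L) - y₂) * D = ((x₁ : L) - x₂) * N := congrArg Subtype.val hid
        have hDL : (D : L) * (D' : L) = 1 := congrArg Subtype.val hDD'
        push_cast
        linear_combination (-(D' : L)) * hidL + ((y₁ : L) - y₂) * hDL
    · rw [slope_of_Y_ne hx hy]
      have e1 : ρ y₁ - (E.map ρ).toAffine.negY (ρ x₁) (ρ y₁) = ρ D := by
        rw [negY, map_a₁, map_a₃, hD]
        simp only [map_add, map_mul]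
        rw [hx, ← hy12]
        ring
      rw [e1, map_mul, hρD', div_eq_mul_inv, hN]
      congr 1
      simp only [map_add, map_mul, map_sub, map_pow, map_a₁, map_a₂, map_a₄]
      rw [hx]
      ring
  · -- distinct reductions of x
    have hxne : x₁ ≠ x₂ := fun h => hx (h ▸ rfl)
    have hxxL : (x₁ : L) ≠ x₂ := fun h => hxne (Subtype.ext h)
    have hd : ρ (x₁ - x₂) ≠ 0 := by
      rw [map_sub]
      exact sub_ne_zero.mpr hx
    obtain ⟨d, hdd, hρd⟩ := exists_inv_of_ne_zero hd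
    refine ⟨(y₁ - y₂) * d, ?_, ?_⟩
    · rw [slope_of_X_ne hxxL, eq_div_iff (sub_ne_zero.mpr hxxL)]
      have hdL : ((x₁ : L) - x₂) * (d : L) = 1 := congrArg Subtype.val hdd
      push_cast
      linear_combination ((y₁ : L) - y₂) * hdL
    · rw [slope_of_X_ne hx, map_mul, hρd, map_sub, map_sub, div_eq_mul_inv]

omit [DecidableEq k] [IsLocalHom ρ] in
/-- If the reductions are opposite nonsingular points but `P ≠ -Q`, then `x(P+Q)` is not integral. -/
lemma addX_not_mem (hL : E.map A.subtype = EL) (hk : E.map ρ = Ek) {x₁ y₁ x₂ y₂ : A}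
    (h₁ : EL.Equation (x₁ : L) y₁) (h₂ : EL.Equation (x₂ : L) y₂)
    (hns : Ek.Nonsingular (ρ x₂) (ρ y₂))
    (hx : ρ x₁ = ρ x₂) (hy : ρ y₁ = Ek.negY (ρ x₂) (ρ y₂))
    (hxy : ¬ ((x₁ : L) = x₂ ∧ (y₁ : L) = EL.negY x₂ y₂)) :
    EL.addX x₁ x₂ (EL.slope x₁ x₂ y₁ y₂) ∉ A := by
  subst hL hk
  have h₁' : y₁ ^ 2 + E.a₁ * x₁ * y₁ + E.a₃ * y₁ = x₁ ^ 3 + E.a₂ * x₁ ^ 2 + E.a₄ * x₁ + E.a₆ := by
    rw [equation_iff] at h₁
    apply Subtype.ext
    push_cast
    simpa only [map_a₁, map_a₂, map_a₃, map_a₄, map_a₆, ValuationSubring.subtype_apply] using h₁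
  have h₂' : y₂ ^ 2 + E.a₁ * x₂ * y₂ + E.a₃ * y₂ = x₂ ^ 3 + E.a₂ * x₂ ^ 2 + E.a₄ * x₂ + E.a₆ := by
    rw [equation_iff] at h₂
    apply Subtype.ext
    push_cast
    simpa only [map_a₁, map_a₂, map_a₃, map_a₄, map_a₆, ValuationSubring.subtype_apply] using h₂
  set D : A := y₁ + y₂ + E.a₁ * x₂ + E.a₃ with hD
  set N : A := x₁ ^ 2 + x₁ * x₂ + x₂ ^ 2 + E.a₂ * (x₁ + x₂) + E.a₄ - E.a₁ * y₁ with hN
  have hid : (y₁ - y₂) * D = (x₁ - x₂) * N := by
    rw [hD, hN]
    linear_combination h₁' - h₂'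
  have hρD : ρ D = 0 := by
    rw [negY, map_a₁, map_a₃] at hy
    simp only [hD, map_add, map_mul]
    rw [hy]
    ring
  set ℓ : L := (E.map A.subtype).toAffine.slope (x₁ : L) x₂ y₁ y₂ with hℓ
  -- ℓ * D = N
  have hℓD : ℓ * (D : L) = (N : L) := by
    by_cases hxx : x₁ = x₂
    · subst hxx
      have hyL : (y₁ : L) ≠ (E.map A.subtype).toAffine.negY x₁ y₂ := fun h => hxy ⟨rfl, h⟩
      have hyy' : y₁ = y₂ := Subtype.ext (Y_eq_of_Y_ne h₁ h₂ rfl hyL)
      subst hyy'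
      have e1 : (y₁ : L) - (E.map A.subtype).toAffine.negY (x₁ : L) (y₁ : L) = (D : L) := by
        rw [negY, map_a₁, map_a₃, hD]
        push_cast
        simp only [ValuationSubring.subtype_apply]
        ring
      have hne : (D : L) ≠ 0 := by
        rw [← e1]
        exact sub_ne_zero.mpr hyL
      rw [hℓ, slope_of_Y_ne rfl hyL, e1, div_mul_cancel₀ _ hne, hN]
      push_cast
      simp only [map_a₁, map_a₂, map_a₄, ValuationSubring.subtype_apply]
      ring
    · have hxxL : (x₁ : L) ≠ x₂ := fun h => hxx (Subtype.ext h)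
      have hidL : ((y₁ : L) - y₂) * D = ((x₁ : L) - x₂) * N := congrArg Subtype.val hid
      rw [hℓ, slope_of_X_ne hxxL, div_mul_eq_mul_div, div_eq_iff (sub_ne_zero.mpr hxxL)]
      linear_combination hidL
  -- ℓ is not integral
  have hℓA : ℓ ∉ A := by
    intro hmem
    have hNρ : ρ N = 0 := by
      have : (⟨ℓ, hmem⟩ : A) * D = N := Subtype.ext hℓD
      rw [← this, map_mul, hρD, mul_zero]
    -- in this situation ρ y₁ = ρ y₂
    have hyy : ρ y₁ = ρ y₂ := by
      by_cases hxx : x₁ = x₂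
      · subst hxx
        have hyL : (y₁ : L) ≠ (E.map A.subtype).toAffine.negY x₁ y₂ := fun h => hxy ⟨rfl, h⟩
        rw [show y₁ = y₂ from Subtype.ext (Y_eq_of_Y_ne h₁ h₂ rfl hyL)]
      · have hxxL : (x₁ : L) ≠ x₂ := fun h => hxx (Subtype.ext h)
        have h3 : (⟨ℓ, hmem⟩ : A) * (x₁ - x₂) = y₁ - y₂ := by
          apply Subtype.ext
          push_cast
          rw [hℓ, slope_of_X_ne hxxL, div_mul_cancel₀ _ (sub_ne_zero.mpr hxxL)]
        have := congrArg ρ h3
        rw [map_mul, map_sub, map_sub, hx, sub_self, mul_zero] at this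
        exact (sub_eq_zero.mp this.symm)
    rw [nonsingular_iff'] at hns
    rcases hns.2 with h | h
    · apply h
      simp only [hN, map_add, map_mul, map_sub, map_pow] at hNρ
      simp only [map_a₁, map_a₂, map_a₄]
      rw [hx, hyy] at hNρ
      linear_combination -hNρ
    · apply h
      simp only [hD, map_add, map_mul] at hρD
      rw [hyy] at hρD
      simp only [map_a₁, map_a₃]
      linear_combination hρD
  intro hX
  apply hℓA
  -- ℓ² + a₁ ℓ ∈ A implies ℓ ∈ A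
  rcases A.mem_or_inv_mem ℓ with h | h
  · exact h
  · by_cases h0 : ℓ = 0
    · exact h0 ▸ A.zero_mem
    rw [addX, map_a₁, map_a₂] at hX
    simp only [ValuationSubring.subtype_apply] at hX
    have key : ℓ = (((⟨_, hX⟩ : A) + E.a₂ + x₁ + x₂) * ⟨ℓ⁻¹, h⟩ - E.a₁ : A) := by
      push_cast
      field_simp
      ring
    rw [key]
    exact Subtype.property _

/-- The coefficient identities of the line-curve intersection. -/
lemma line_identities {W : Affine L} {x₁ y₁ x₂ y₂ : L} (h₁ : W.Equation x₁ y₁) (h₂ : W.Equation x₂ y₂)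
    (hxy : ¬ (x₁ = x₂ ∧ y₁ = W.negY x₂ y₂)) (ℓ ν x₃ : L) (hℓ : ℓ = W.slope x₁ x₂ y₁ y₂)
    (hν : ν = y₁ - ℓ * x₁) (hx₃ : x₃ = W.addX x₁ x₂ ℓ) :
    x₁ + x₂ + x₃ = ℓ ^ 2 + W.a₁ * ℓ - W.a₂ ∧
      x₁ * x₂ + x₁ * x₃ + x₂ * x₃ = W.a₄ - 2 * ℓ * ν - W.a₁ * ν - W.a₃ * ℓ ∧
      x₁ * x₂ * x₃ = ν ^ 2 + W.a₃ * ν - W.a₆ := by
  have h := addPolynomial_slope h₁ h₂ hxy
  rw [← hℓ, ← hx₃, addPolynomial_eq, neg_inj] at h
  have c0 := congrArg (fun p => Polynomial.eval 0 p) h
  have c1 := congrArg (fun p => Polynomial.eval 1 p) h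
  refine ⟨by rw [hx₃, addX]; ring, ?_, ?_⟩
  · simp [Cubic.toPoly] at c0 c1
    have hs : x₁ + x₂ + x₃ = ℓ ^ 2 + W.a₁ * ℓ - W.a₂ := by rw [hx₃, addX]; ring
    subst hν
    linear_combination -c1 + c0 + hs
  · simp [Cubic.toPoly] at c0
    subst hν
    linear_combination c0

omit [DecidableEq k] in
/-- The sum of two points of the kernel of reduction is in the kernel of reduction. -/
lemma addX_not_mem_of_not_mem (hL : E.map A.subtype = EL) {x₁ y₁ x₂ y₂ : L}
    (h₁ : EL.Nonsingular x₁ y₁) (h₂ : EL.Nonsingular x₂ y₂)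
    (hxy : ¬ (x₁ = x₂ ∧ y₁ = EL.negY x₂ y₂)) (hx₁ : x₁ ∉ A) (hx₂ : x₂ ∉ A)
    (ρ : A →+* k) [IsLocalHom ρ] :
    EL.addX x₁ x₂ (EL.slope x₁ x₂ y₁ y₂) ∉ A := by
  intro hX
  set ℓ : L := EL.slope x₁ x₂ y₁ y₂ with hℓ
  set x₃ : L := EL.addX x₁ x₂ ℓ with hx₃
  have hY : EL.negAddY x₁ x₂ y₁ ℓ ∈ A :=
    y_mem hL (equation_negAdd h₁.1 h₂.1 hxy) hX
  obtain ⟨c2, c1, -⟩ := line_identities h₁.1 h₂.1 hxy ℓ (y₁ - ℓ * x₁) x₃ hℓ rfl hx₃
  obtain ⟨u₁, hu₁, hρ₁⟩ := exists_inv_of_not_mem (ρ := ρ) hx₁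
  obtain ⟨u₂, hu₂, hρ₂⟩ := exists_inv_of_not_mem (ρ := ρ) hx₂
  set Y : A := ⟨EL.negAddY x₁ x₂ y₁ ℓ, hY⟩ with hYdef
  set X : A := ⟨x₃, hX⟩ with hXdef
  have hν : y₁ - ℓ * x₁ = (Y : L) - ℓ * (X : L) := by
    simp only [hYdef, hXdef, negAddY, ← hx₃]
    ring
  subst hL
  rw [hν] at c1
  have hXL : (X : L) = x₃ := rfl
  rw [← hXL] at c1 c2
  simp only [map_a₁, map_a₂, map_a₃, map_a₄, ValuationSubring.subtype_apply] at c1 c2
  by_cases hℓA : ℓ ∈ A
  · -- integral slope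
    set l : A := ⟨ℓ, hℓA⟩ with hl
    have hlL : (l : L) = ℓ := rfl
    rw [← hlL] at c1
    have key : (1 : A) + X * (u₁ + u₂) =
        u₁ * u₂ * (E.a₄ - 2 * l * (Y - l * X) - E.a₁ * (Y - l * X) - E.a₃ * l) := by
      apply Subtype.ext
      push_cast
      have h2 : ((2 : A) : L) = 2 := map_ofNat A.subtype 2
      rw [h2]
      linear_combination (u₁ : L) * u₂ * c1 - ((u₂ : L) * x₂) * hu₁ - hu₂
        - (u₂ : L) * (X : L) * hu₁ - (u₁ : L) * (X : L) * hu₂
    have := congrArg ρ key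
    simp only [map_add, map_mul, hρ₁, hρ₂, map_one] at this
    simp at this
  · obtain ⟨μ, hμ, hρμ⟩ := exists_inv_of_not_mem (ρ := ρ) hℓA
    -- e := 1 + a₁ μ - (a₂ + X) μ²
    set e : A := 1 + E.a₁ * μ - (E.a₂ + X) * μ ^ 2 with he
    set s : A := Y * μ - X with hs
    set g : A := E.a₄ * μ ^ 2 - 2 * s - E.a₁ * s * μ - E.a₃ * μ - X * e with hg
    have hesum : (x₁ + x₂) * (μ : L) ^ 2 = (e : L) := by
      rw [he]
      push_cast
      linear_combination (μ : L) ^ 2 * c2 + ((μ : L) * ℓ + 1 + E.a₁ * μ) * hμ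
    have hgprod : x₁ * x₂ * (μ : L) ^ 2 = (g : L) := by
      rw [hg, hs]
      push_cast
      rw [← hesum]
      have h2 : ((2 : A) : L) = 2 := map_ofNat A.subtype 2
      rw [h2]
      linear_combination (μ : L) ^ 2 * c1
        + (2 * (X : L) * (μ * ℓ + 1) - 2 * (Y : L) * μ + E.a₁ * X * μ  - E.a₃ * μ) * hμ
    have key : e = (u₁ + u₂) * g := by
      apply Subtype.ext
      push_cast
      rw [← hesum, ← hgprod]
      linear_combination (-(x₂ * (μ : L) ^ 2)) * hu₁ - (x₁ * (μ : L) ^ 2) * hu₂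
    have := congrArg ρ key
    rw [map_mul, map_add, hρ₁, hρ₂, add_zero, zero_mul, he] at this
    simp only [map_add, map_sub, map_mul, map_pow, hρμ, map_one] at this
    simp at this

end Slope

section Add

variable {L : Type*} [Field L] [DecidableEq L] {k : Type*} [Field k] [DecidableEq k]
  {A : ValuationSubring L} {ρ : A →+* k} {EL : Affine L} {Ek : Affine k}
  {E : WeierstrassCurve A}

omit [DecidableEq L] [DecidableEq k] in
lemma Reduces.neg (hL : E.map A.subtype = EL) (hk : E.map ρ = Ek) {P : EL.Point} {P' : Ek.Point}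
    (h : Reduces A ρ P P') : Reduces A ρ (-P) (-P') := by
  rcases P with _ | ⟨x, y, hP⟩
  · rcases P' with _ | ⟨x', y', hP'⟩
    · trivial
    · exact h.elim
  · rcases P' with _ | ⟨x', y', hP'⟩
    · exact h
    · obtain ⟨a, b, rfl, rfl, rfl, rfl⟩ := h
      subst hL hk
      refine ⟨a, E.toAffine.negY a b, rfl, ?_, rfl, ?_⟩
      · exact (map_negY (W' := E.toAffine) A.subtype a b).symm
      · exact (map_negY (W' := E.toAffine) ρ a b).symm

/-- kernel of reduction: closed under addition -/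
lemma reduces_zero_add [IsLocalHom ρ] (hL : E.map A.subtype = EL) {P Q : EL.Point}
    (hP : Reduces A ρ P (0 : Ek.Point)) (hQ : Reduces A ρ Q (0 : Ek.Point)) :
    Reduces A ρ (P + Q) (0 : Ek.Point) := by
  rcases P with _ | ⟨x₁, y₁, h₁⟩
  · rw [← Point.zero_def, zero_add]; exact hQ
  rcases Q with _ | ⟨x₂, y₂, h₂⟩
  · rw [← Point.zero_def, add_zero]; exact hP
  by_cases hxy : x₁ = x₂ ∧ y₁ = EL.negY x₂ y₂
  · rw [Point.add_of_Y_eq hxy.1 hxy.2]
    trivial
  · rw [Point.add_some hxy]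
    exact addX_not_mem_of_not_mem hL h₁ h₂ hxy hP hQ ρ

lemma Reduces.add_aux [IsLocalHom ρ] (hL : E.map A.subtype = EL) (hk : E.map ρ = Ek)
    {x₁ y₁ : L} {h₁ : EL.Nonsingular x₁ y₁} {x₂ y₂ : A} {h₂ : EL.Nonsingular (x₂ : L) y₂}
    (hx₁ : x₁ ∉ A) {h' : Ek.Nonsingular (ρ x₂) (ρ y₂)} :
    Reduces A ρ (Point.some x₁ y₁ h₁ + Point.some (x₂ : L) (y₂ : L) h₂)
      (Point.some (ρ x₂) (ρ y₂) h') := by
  set P := Point.some x₁ y₁ h₁ with hP
  set Q := Point.some (x₂ : L) (y₂ : L) h₂ with hQ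
  have hPQ : (P + Q) + (-Q) = P := by abel
  have hPQ' : (P + Q) + (-P) = Q := by abel
  rcases hR : P + Q with _ | ⟨x₃, y₃, h₃⟩
  · -- P = -Q impossible
    exfalso
    rw [hR, ← Point.zero_def, zero_add, hQ, Point.neg_some, hP] at hPQ
    injection hPQ with e1 e2
    exact hx₁ (e1 ▸ x₂.2)
  · have hx₃ : x₃ ∈ A := by
      by_contra hx₃
      have hz : Reduces A ρ ((P + Q) + (-P)) (0 : Ek.Point) := by
        apply reduces_zero_add hL
        · rw [hR]; exact hx₃
        · rw [hP, Point.neg_some]; exact hx₁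
      rw [hPQ', hQ] at hz
      exact hz x₂.2
    have hy₃ : y₃ ∈ A := y_mem hL h₃.1 hx₃
    by_contra hcon
    have hne : ¬ (ρ ⟨x₃, hx₃⟩ = ρ x₂ ∧
        ρ ⟨y₃, hy₃⟩ = Ek.negY (ρ x₂) (ρ (E.toAffine.negY x₂ y₂))) := by
      rintro ⟨e1, e2⟩
      apply hcon
      refine ⟨⟨x₃, hx₃⟩, ⟨y₃, hy₃⟩, rfl, rfl, e1, ?_⟩
      rw [e2, ← map_negY (W' := E.toAffine) ρ x₂ y₂]
      subst hk
      exact negY_negY _ _
    have hnegL : EL.negY (x₂ : L) (y₂ : L) = ((E.toAffine.negY x₂ y₂ : A) : L) := by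
      subst hL
      exact map_negY (W' := E.toAffine) A.subtype x₂ y₂
    have heq2 : EL.Equation (x₂ : L) ((E.toAffine.negY x₂ y₂ : A) : L) := by
      rw [← hnegL]
      exact (equation_neg _ _).mpr h₂.1
    obtain ⟨ℓ, hℓL, -⟩ := slope_red (x₁ := ⟨x₃, hx₃⟩) (y₁ := ⟨y₃, hy₃⟩) (x₂ := x₂)
      (y₂ := E.toAffine.negY x₂ y₂) hL hk h₃.1 heq2 hne
    have hxyL : ¬ (x₃ = (x₂ : L) ∧ y₃ = EL.negY (x₂ : L) (EL.negY (x₂ : L) (y₂ : L))) := by
      rintro ⟨e1, e2⟩
      apply hne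
      refine ⟨congrArg ρ (Subtype.ext e1), ?_⟩
      rw [negY_negY] at e2
      have e3 : (⟨y₃, hy₃⟩ : A) = y₂ := Subtype.ext e2
      rw [e3, ← map_negY (W' := E.toAffine) ρ x₂ y₂]
      subst hk
      exact (negY_negY _ _).symm
    rw [hR, hQ, Point.neg_some, Point.add_some hxyL, hP] at hPQ
    injection hPQ with e1 e2
    apply hx₁
    rw [← e1, hnegL]
    change (ℓ : L) = EL.slope x₃ (x₂ : L) y₃ ((E.toAffine.negY x₂ y₂ : A) : L) at hℓL
    rw [← hℓL]
    subst hL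
    have := map_addX (W' := E.toAffine) A.subtype (⟨x₃, hx₃⟩ : A) x₂ ℓ
    simp only [ValuationSubring.subtype_apply] at this
    rw [this]
    exact Subtype.property _

/-- **Reduction is a group homomorphism** on the points with nonsingular reduction. -/
theorem Reduces.add [IsLocalHom ρ] (hL : E.map A.subtype = EL) (hk : E.map ρ = Ek)
    {P Q : EL.Point} {P' Q' : Ek.Point} (hP : Reduces A ρ P P') (hQ : Reduces A ρ Q Q') :
    Reduces A ρ (P + Q) (P' + Q') := by
  rcases P with _ | ⟨x₁, y₁, h₁⟩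
  · rcases P' with _ | ⟨x', y', hP'⟩
    · rw [← Point.zero_def, ← Point.zero_def, zero_add, zero_add]; exact hQ
    · exact hP.elim
  rcases Q with _ | ⟨x₂, y₂, h₂⟩
  · rcases Q' with _ | ⟨x', y', hQ'⟩
    · rw [← Point.zero_def, ← Point.zero_def, add_zero, add_zero]; exact hP
    · exact hQ.elim
  rcases P' with _ | ⟨x₁', y₁', h₁'⟩
  · rcases Q' with _ | ⟨x₂', y₂', h₂'⟩
    · rw [← Point.zero_def, add_zero]
      exact reduces_zero_add hL hP hQ
    · rw [← Point.zero_def, zero_add]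
      obtain ⟨a, b, rfl, rfl, rfl, rfl⟩ := hQ
      exact Reduces.add_aux hL hk hP
  · rcases Q' with _ | ⟨x₂', y₂', h₂'⟩
    · rw [← Point.zero_def, add_zero, add_comm]
      obtain ⟨a, b, rfl, rfl, rfl, rfl⟩ := hP
      exact Reduces.add_aux hL hk hQ
    · obtain ⟨x₁, y₁, rfl, rfl, rfl, rfl⟩ := hP
      obtain ⟨x₂, y₂, rfl, rfl, rfl, rfl⟩ := hQ
      by_cases hxy' : ρ x₁ = ρ x₂ ∧ ρ y₁ = Ek.negY (ρ x₂) (ρ y₂)
      · rw [Point.add_of_Y_eq hxy'.1 hxy'.2]
        by_cases hxy : (x₁ : L) = x₂ ∧ (y₁ : L) = EL.negY x₂ y₂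
        · rw [Point.add_of_Y_eq hxy.1 hxy.2]
          trivial
        · rw [Point.add_some hxy]
          exact addX_not_mem hL hk h₁.1 h₂.1 h₂' hxy'.1 hxy'.2 hxy
      · have hxy : ¬ ((x₁ : L) = x₂ ∧ (y₁ : L) = EL.negY x₂ y₂) := by
          rintro ⟨e1, e2⟩
          apply hxy'
          have e1' : x₁ = x₂ := Subtype.ext e1
          subst hL hk
          have e2' : y₁ = E.toAffine.negY x₂ y₂ := Subtype.ext (by
            rw [e2]; exact map_negY (W' := E.toAffine) A.subtype x₂ y₂)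
          refine ⟨by rw [e1'], ?_⟩
          rw [e2']
          exact (map_negY (W' := E.toAffine) ρ x₂ y₂).symm
        rw [Point.add_some hxy, Point.add_some hxy']
        obtain ⟨ℓ, hℓL, hℓk⟩ := slope_red hL hk h₁.1 h₂.1 hxy'
        rw [reduces_some_some]
        refine ⟨E.toAffine.addX x₁ x₂ ℓ, E.toAffine.addY x₁ x₂ y₁ ℓ, ?_, ?_, ?_, ?_⟩
        · rw [← hℓL]; subst hL
          exact (map_addX (W' := E.toAffine) A.subtype x₁ x₂ ℓ).symm
        · rw [← hℓL]; subst hL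
          exact (map_addY (W' := E.toAffine) A.subtype x₁ y₁ x₂ ℓ).symm
        · rw [← hℓk]; subst hk
          exact (map_addX (W' := E.toAffine) ρ x₁ x₂ ℓ).symm
        · rw [← hℓk]; subst hk
          exact (map_addY (W' := E.toAffine) ρ x₁ y₁ x₂ ℓ).symm

/-- `P` has nonsingular reduction. -/
def HasRed (A : ValuationSubring L) (ρ : A →+* k) (Ek : Affine k) {EL : Affine L} (P : EL.Point) :
    Prop := ∃ P' : Ek.Point, Reduces A ρ P P'

/-- The subgroup `E₀(L)` of points with nonsingular reduction. -/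
def E0 [IsLocalHom ρ] (hL : E.map A.subtype = EL) (hk : E.map ρ = Ek) : AddSubgroup EL.Point where
  carrier := {P | ∃ P' : Ek.Point, Reduces A ρ P P'}
  add_mem' := fun ⟨P', hP⟩ ⟨Q', hQ⟩ => ⟨P' + Q', hP.add hL hk hQ⟩
  zero_mem' := ⟨0, trivial⟩
  neg_mem' := fun ⟨P', hP⟩ => ⟨-P', hP.neg hL hk⟩

lemma mem_E0 [IsLocalHom ρ] (hL : E.map A.subtype = EL) (hk : E.map ρ = Ek) {P : EL.Point} :
    P ∈ E0 hL hk ↔ ∃ P' : Ek.Point, Reduces A ρ P P' := Iff.rfl

/-- The reduction homomorphism `E₀(L) → Ek`. -/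
noncomputable def red [IsLocalHom ρ] (hL : E.map A.subtype = EL) (hk : E.map ρ = Ek) :
    E0 (EL := EL) (Ek := Ek) hL hk →+ Ek.Point where
  toFun P := P.2.choose
  map_zero' := Reduces.unique (P := (0 : EL.Point)) (Exists.choose_spec _) trivial
  map_add' P Q := Reduces.unique (P := ((P + Q : E0 hL hk) : EL.Point)) (Exists.choose_spec _)
    (P.2.choose_spec.add hL hk Q.2.choose_spec)

lemma reduces_red [IsLocalHom ρ] (hL : E.map A.subtype = EL) (hk : E.map ρ = Ek)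
    (P : E0 (EL := EL) (Ek := Ek) hL hk) : Reduces A ρ (P : EL.Point) (red hL hk P) :=
  P.2.choose_spec

lemma red_eq [IsLocalHom ρ] (hL : E.map A.subtype = EL) (hk : E.map ρ = Ek)
    (P : E0 (EL := EL) (Ek := Ek) hL hk) {P' : Ek.Point} (h : Reduces A ρ (P : EL.Point) P') :
    red hL hk P = P' :=
  (reduces_red hL hk P).unique h

/-- `E₁(L)`, the kernel of reduction. -/
def E1 [IsLocalHom ρ] (hL : E.map A.subtype = EL) (hk : E.map ρ = Ek) : AddSubgroup EL.Point where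
  carrier := {P | Reduces A ρ P (0 : Ek.Point)}
  add_mem' := fun hP hQ => by
    have := hP.add hL hk hQ
    rwa [add_zero] at this
  zero_mem' := trivial
  neg_mem' := fun hP => by
    have := hP.neg hL hk
    rwa [neg_zero] at this

lemma Reduces.sub [IsLocalHom ρ] (hL : E.map A.subtype = EL) (hk : E.map ρ = Ek)
    {P Q : EL.Point} {P' Q' : Ek.Point} (hP : Reduces A ρ P P') (hQ : Reduces A ρ Q Q') :
    Reduces A ρ (P - Q) (P' - Q') := by
  rw [sub_eq_add_neg, sub_eq_add_neg]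
  exact hP.add hL hk (hQ.neg hL hk)

lemma Reduces.nsmul [IsLocalHom ρ] (hL : E.map A.subtype = EL) (hk : E.map ρ = Ek)
    {P : EL.Point} {P' : Ek.Point} (hP : Reduces A ρ P P') (n : ℕ) :
    Reduces A ρ (n • P) (n • P') := by
  induction n with
  | zero => rw [zero_nsmul, zero_nsmul]; trivial
  | succ n ih => rw [succ_nsmul, succ_nsmul]; exact ih.add hL hk hP

lemma Reduces.zsmul [IsLocalHom ρ] (hL : E.map A.subtype = EL) (hk : E.map ρ = Ek)
    {P : EL.Point} {P' : Ek.Point} (hP : Reduces A ρ P P') (n : ℤ) :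
    Reduces A ρ (n • P) (n • P') := by
  rcases n with n | n
  · rw [Int.ofNat_eq_natCast, natCast_zsmul, natCast_zsmul]; exact hP.nsmul hL hk n
  · rw [negSucc_zsmul, negSucc_zsmul]; exact (hP.nsmul hL hk _).neg hL hk

omit [DecidableEq L] [DecidableEq k] in
/-- Good reduction: every point reduces. -/
theorem exists_reduces_of_Δ_ne_zero (hL : E.map A.subtype = EL) (hk : E.map ρ = Ek)
    (hΔ : Ek.Δ ≠ 0) (P : EL.Point) : ∃ P' : Ek.Point, Reduces A ρ P P' := by
  rcases P with _ | ⟨x, y, hP⟩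
  · exact ⟨0, trivial⟩
  · by_cases hx : x ∈ A
    · have hy : y ∈ A := y_mem hL hP.1 hx
      have heq : Ek.Equation (ρ ⟨x, hx⟩) (ρ ⟨y, hy⟩) := by
        have h1 := hP.1
        subst hL hk
        rw [equation_iff] at h1 ⊢
        simp only [map_a₁, map_a₂, map_a₃, map_a₄, map_a₆, ValuationSubring.subtype_apply] at h1 ⊢
        have h1' : (⟨y, hy⟩ : A) ^ 2 + E.a₁ * ⟨x, hx⟩ * ⟨y, hy⟩ + E.a₃ * ⟨y, hy⟩ =
            ⟨x, hx⟩ ^ 3 + E.a₂ * ⟨x, hx⟩ ^ 2 + E.a₄ * ⟨x, hx⟩ + E.a₆ := by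
          apply Subtype.ext
          push_cast
          exact h1
        have := congrArg ρ h1'
        simpa only [map_add, map_mul, map_pow] using this
      exact ⟨Point.some _ _ ((equation_iff_nonsingular_of_Δ_ne_zero hΔ).mp heq),
        ⟨x, hx⟩, ⟨y, hy⟩, rfl, rfl, rfl, rfl⟩
    · exact ⟨0, hx⟩

omit [DecidableEq L] [DecidableEq k] in
/-- Over an algebraically closed field the reduction map is surjective onto nonsingular points. -/
theorem exists_lift [IsAlgClosed L] (hρ : Function.Surjective ρ) (hL : E.map A.subtype = EL)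
    (hk : E.map ρ = Ek) (P' : Ek.Point) : ∃ P : EL.Point, Reduces A ρ P P' := by
  rcases P' with _ | ⟨x', y', h'⟩
  · exact ⟨0, trivial⟩
  obtain ⟨a, rfl⟩ := hρ x'
  obtain ⟨y₁, hy₁⟩ : ∃ y : L, y ^ 2 + EL.a₁ * a * y + EL.a₃ * y =
      (a : L) ^ 3 + EL.a₂ * a ^ 2 + EL.a₄ * a + EL.a₆ := by
    have hdeg : (Polynomial.X ^ 2 + Polynomial.C (EL.a₁ * a + EL.a₃) * Polynomial.X -
        Polynomial.C ((a : L) ^ 3 + EL.a₂ * a ^ 2 + EL.a₄ * a + EL.a₆)).degree ≠ 0 := by
      have : (Polynomial.X ^ 2 + Polynomial.C (EL.a₁ * a + EL.a₃) * Polynomial.X -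
        Polynomial.C ((a : L) ^ 3 + EL.a₂ * a ^ 2 + EL.a₄ * a + EL.a₆)).degree = 2 := by
        compute_degree!
      rw [this]
      decide
    obtain ⟨y, hy⟩ := IsAlgClosed.exists_root _ hdeg
    refine ⟨y, ?_⟩
    simp only [Polynomial.IsRoot.def, Polynomial.eval_sub, Polynomial.eval_add,
      Polynomial.eval_pow, Polynomial.eval_X, Polynomial.eval_mul, Polynomial.eval_C] at hy
    linear_combination hy
  have heq₁ : EL.Equation (a : L) y₁ := (equation_iff _ _).mpr hy₁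
  have hy₁A : y₁ ∈ A := y_mem hL heq₁ a.2
  set b₁ : A := ⟨y₁, hy₁A⟩ with hb₁
  subst hL hk
  have hE₁ : b₁ ^ 2 + E.a₁ * a * b₁ + E.a₃ * b₁ = a ^ 3 + E.a₂ * a ^ 2 + E.a₄ * a + E.a₆ := by
    apply Subtype.ext
    push_cast
    simpa only [map_a₁, map_a₂, map_a₃, map_a₄, map_a₆, ValuationSubring.subtype_apply] using hy₁
  have hρ₁ := congrArg ρ hE₁
  have h'eq := h'.1
  rw [equation_iff] at h'eq
  simp only [map_add, map_mul, map_pow] at hρ₁
  simp only [map_a₁, map_a₂, map_a₃, map_a₄, map_a₆] at h'eq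
  have hprod : (y' - ρ b₁) * (y' - ρ (-b₁ - E.a₁ * a - E.a₃)) = 0 := by
    simp only [map_sub, map_neg, map_mul]
    linear_combination h'eq - hρ₁
  obtain ⟨b, hb, hbE⟩ : ∃ b : A, ρ b = y' ∧
      b ^ 2 + E.a₁ * a * b + E.a₃ * b = a ^ 3 + E.a₂ * a ^ 2 + E.a₄ * a + E.a₆ := by
    rcases mul_eq_zero.mp hprod with h | h
    · exact ⟨b₁, (sub_eq_zero.mp h).symm, hE₁⟩
    · exact ⟨_, (sub_eq_zero.mp h).symm, by linear_combination hE₁⟩
  subst hb
  have hns : (E.map A.subtype).toAffine.Nonsingular (a : L) (b : L) := by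
    rw [nonsingular_iff'] at h' ⊢
    refine ⟨?_, ?_⟩
    · rw [equation_iff]
      simp only [map_a₁, map_a₂, map_a₃, map_a₄, map_a₆, ValuationSubring.subtype_apply]
      exact_mod_cast congrArg Subtype.val hbE
    · rcases h'.2 with h | h
      · left
        intro h0
        apply h
        simp only [map_a₁, map_a₂, map_a₄, ValuationSubring.subtype_apply] at h0 ⊢
        have h0' : E.a₁ * b - (3 * a ^ 2 + 2 * E.a₂ * a + E.a₄) = 0 := by
          apply Subtype.ext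
          push_cast
          have h2 : ((2 : A) : L) = 2 := map_ofNat A.subtype 2
          have h3 : ((3 : A) : L) = 3 := map_ofNat A.subtype 3
          rw [h2, h3]
          exact h0
        have := congrArg ρ h0'
        simpa only [map_sub, map_add, map_mul, map_pow, map_ofNat, map_zero] using this
      · right
        intro h0
        apply h
        simp only [map_a₁, map_a₃, ValuationSubring.subtype_apply] at h0 ⊢
        have h0' : 2 * b + E.a₁ * a + E.a₃ = 0 := by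
          apply Subtype.ext
          push_cast
          have h2 : ((2 : A) : L) = 2 := map_ofNat A.subtype 2
          rw [h2]
          exact h0
        have := congrArg ρ h0'
        simpa only [map_add, map_mul, map_ofNat, map_zero] using this
  exact ⟨Point.some _ _ hns, a, b, rfl, rfl, rfl, rfl⟩

end Add

end Fermat.Agent.H59
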