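import Mathlib
import Fermat.Agent.H13Node
import Fermat.Agent.H59Red

/-!
# The component homomorphism at a node (helper13)

`A` valuation subring of `K`, `W` a Weierstrass curve over `A` with node data `(x₀, y₀, α, β, g)`,
`EL = W.map A.subtype`.  `Comp P c` : the point `P` has (signed) component `c` in the value group
(well defined modulo powers of `v g`).
-/

set_option autoImplicit false

namespace Fermat.Agent.H13

open WeierstrassCurve WeierstrassCurve.Affine IsLocalRing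

section

variable {K : Type*} [Field K]

/-- A nondegenerate integral node centre. -/
structure GoodNode {A : ValuationSubring K} (W : WeierstrassCurve A) (x₀ y₀ α β g : A) : Prop where
  nd : NodeData W x₀ y₀ α β g
  g_mem : g ∈ maximalIdeal A
  g_ne : g ≠ 0
  unit : IsUnit (α - β)

variable {A : ValuationSubring K} {W : WeierstrassCurve A} {x₀ y₀ α β g : A} {EL : Affine K}

lemma GoodNode.swap (h : GoodNode W x₀ y₀ α β g) : GoodNode W x₀ y₀ β α g :=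
  ⟨h.nd.swap, h.g_mem, h.g_ne, by rw [← neg_sub]; exact h.unit.neg⟩

lemma GoodNode.nd' (h : GoodNode W x₀ y₀ α β g) (hL : W.map A.subtype = EL) :
    NodeData EL (x₀ : K) y₀ α β g := by
  subst hL
  exact h.nd.map A.subtype

lemma GoodNode.v_g (h : GoodNode W x₀ y₀ α β g) : A.valuation (g : K) < 1 :=
  (ValuationSubring.valuation_lt_one_iff A g).mp h.g_mem

lemma GoodNode.g_ne' (h : GoodNode W x₀ y₀ α β g) : (g : K) ≠ 0 :=
  fun h0 => h.g_ne (Subtype.ext h0)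

lemma valuation_unit {a : A} (h : IsUnit a) : A.valuation (a : K) = 1 :=
  (ValuationSubring.valuation_eq_one_iff A a).mp h

lemma GoodNode.v_δ (h : GoodNode W x₀ y₀ α β g) : A.valuation ((α : K) - β) = 1 :=
  valuation_unit h.unit

/-- `P` is near the node. -/
def Near (A : ValuationSubring K) (x₀ : A) (P : EL.Point) : Prop :=
  match P with
  | .zero => False
  | .some x _ _ => A.valuation (x - x₀) < 1

/-- `P` has signed component `c`. -/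
def Comp (A : ValuationSubring K) (x₀ y₀ α β : A) (P : EL.Point) (c : A.ValueGroup) : Prop :=
  match P with
  | .zero => c = 1
  | .some x y _ => (1 ≤ A.valuation (x - x₀) ∧ c = 1) ∨
      (A.valuation (x - x₀) < 1 ∧ IsC A.valuation (sC (x₀ : K) y₀ α x y) (sC (x₀ : K) y₀ β x y) c)

lemma comp_zero {c : A.ValueGroup} : Comp A x₀ y₀ α β (0 : EL.Point) c ↔ c = 1 := Iff.rfl

lemma comp_some {x y : K} {h : EL.Nonsingular x y} {c : A.ValueGroup} :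
    Comp A x₀ y₀ α β (Point.some x y h) c ↔ (1 ≤ A.valuation (x - x₀) ∧ c = 1) ∨
      (A.valuation (x - x₀) < 1 ∧ IsC A.valuation (sC (x₀ : K) y₀ α x y) (sC (x₀ : K) y₀ β x y) c) :=
  Iff.rfl

lemma exists_comp (x₀ y₀ α β : A) (P : EL.Point) : ∃ c, Comp A x₀ y₀ α β P c := by
  rcases P with _ | ⟨x, y, h⟩
  · exact ⟨1, rfl⟩
  · rcases le_or_gt 1 (A.valuation (x - x₀)) with h1 | h1
    · exact ⟨1, Or.inl ⟨h1, rfl⟩⟩
    · obtain ⟨c, hc⟩ := exists_isC A.valuation (sC (x₀ : K) y₀ α x y) (sC (x₀ : K) y₀ β x y)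
      exact ⟨c, Or.inr ⟨h1, hc⟩⟩

lemma Comp.ne_zero (hN : GoodNode W x₀ y₀ α β g) (hL : W.map A.subtype = EL) {P : EL.Point}
    {c : A.ValueGroup} (h : Comp A x₀ y₀ α β P c) : c ≠ 0 := by
  rcases P with _ | ⟨x, y, hP⟩
  · rw [show c = 1 from h]; exact one_ne_zero
  · rcases h with ⟨-, rfl⟩ | ⟨h1, h2⟩
    · exact one_ne_zero
    · exact h2.ne_zero hN.g_ne' hN.v_δ (NodeData.ts) ((hN.nd' hL).st hP.1)

lemma Comp.unique (hN : GoodNode W x₀ y₀ α β g) (hL : W.map A.subtype = EL) {P : EL.Point}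
    {c c' : A.ValueGroup} (h : Comp A x₀ y₀ α β P c) (h' : Comp A x₀ y₀ α β P c') :
    ∃ k : ℤ, c' = c * A.valuation (g : K) ^ k := by
  rcases P with _ | ⟨x, y, hP⟩
  · rw [show c = 1 from h, show c' = 1 from h']; exact ⟨0, by simp⟩
  · rcases h with ⟨h1, rfl⟩ | ⟨h1, h2⟩ <;> rcases h' with ⟨h1', rfl⟩ | ⟨h1', h2'⟩
    · exact ⟨0, by simp⟩
    · exact absurd h1' (not_lt.mpr h1)
    · exact absurd h1 (not_lt.mpr h1')
    · exact h2.unique hN.g_ne' hN.v_δ hN.v_g h1 (NodeData.ts) ((hN.nd' hL).st hP.1) h2'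

lemma Comp.neg (hN : GoodNode W x₀ y₀ α β g) (hL : W.map A.subtype = EL) {P : EL.Point}
    {c : A.ValueGroup} (h : Comp A x₀ y₀ α β P c) : Comp A x₀ y₀ α β (-P) c⁻¹ := by
  rcases P with _ | ⟨x, y, hP⟩
  · rw [show c = 1 from h]; exact inv_one
  · rw [Point.neg_some, comp_some]
    rcases h with ⟨h1, rfl⟩ | ⟨h1, h2⟩
    · exact Or.inl ⟨h1, inv_one⟩
    · right
      refine ⟨h1, ?_⟩
      have e1 := (hN.nd' hL).sC_negY x y
      have e2 := (hN.nd' hL).swap.sC_negY x y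
      rw [e1, e2]
      exact h2.neg_flip

variable [DecidableEq K]

/-- additivity of components, symmetric form. -/
theorem Comp.sum_zero (hN : GoodNode W x₀ y₀ α β g) (hL : W.map A.subtype = EL) {P Q R : EL.Point}
    {a b c : A.ValueGroup} (hP : Comp A x₀ y₀ α β P a) (hQ : Comp A x₀ y₀ α β Q b)
    (hR : Comp A x₀ y₀ α β R c) (h : P + Q + R = 0) :
    ∃ k : ℤ, a * b * c = A.valuation (g : K) ^ k := by
  -- if one of them is zero
  have two : ∀ {P Q : EL.Point} {a b : A.ValueGroup}, Comp A x₀ y₀ α β P a →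
      Comp A x₀ y₀ α β Q b → P + Q = 0 → ∃ k : ℤ, a * b = A.valuation (g : K) ^ k := by
    intro P Q a b hP hQ hPQ
    have hQ' : Q = -P := by rw [eq_neg_iff_add_eq_zero, add_comm]; exact hPQ
    subst hQ'
    obtain ⟨k, hk⟩ := (hP.neg hN hL).unique hN hL hQ
    refine ⟨k, ?_⟩
    rw [hk, ← mul_assoc, mul_inv_cancel₀ (hP.ne_zero hN hL), one_mul]
  rcases P with _ | ⟨x₁, y₁, h₁⟩
  · rw [← Point.zero_def, zero_add] at h
    rw [show a = 1 from hP, one_mul]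
    exact two hQ hR h
  rcases Q with _ | ⟨x₂, y₂, h₂⟩
  · rw [← Point.zero_def, add_zero] at h
    rw [show b = 1 from hQ, mul_one]
    exact two hP hR h
  rcases R with _ | ⟨x₃, y₃, h₃⟩
  · rw [← Point.zero_def, add_zero] at h
    rw [show c = 1 from hR, mul_one]
    exact two hP hQ h
  obtain ⟨L, M, ν, hl, s₁, t₁, s₂, t₂, s₃, t₃⟩ := (hN.nd' hL).exists_lineData h
  -- exactly one in `E₀`
  have one : ∀ {x₁ x₂ y₂ x₃ y₃ : K} {b c : A.ValueGroup},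
      LineData ((α : K) - β) g L M ν (x₁ - x₀) (x₂ - x₀) (x₃ - x₀) →
      sC (x₀ : K) y₀ α x₂ y₂ = L * (x₂ - x₀) + ν → sC (x₀ : K) y₀ β x₂ y₂ = M * (x₂ - x₀) + ν →
      sC (x₀ : K) y₀ α x₃ y₃ = L * (x₃ - x₀) + ν → sC (x₀ : K) y₀ β x₃ y₃ = M * (x₃ - x₀) + ν →
      1 ≤ A.valuation (x₁ - x₀) → A.valuation (x₂ - x₀) < 1 → A.valuation (x₃ - x₀) < 1 →
      IsC A.valuation (sC (x₀ : K) y₀ α x₂ y₂) (sC (x₀ : K) y₀ β x₂ y₂) b →
      IsC A.valuation (sC (x₀ : K) y₀ α x₃ y₃) (sC (x₀ : K) y₀ β x₃ y₃) c →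
      ∃ k : ℤ, b * c = A.valuation (g : K) ^ k := by
    intro x₁ x₂ y₂ x₃ y₃ b c hl s₂ t₂ s₃ t₃ h1 h2 h3 hb hc
    have hne : A.valuation (g : K) ≠ 0 := (Valuation.ne_zero_iff _).mpr hN.g_ne'
    have ts₂ : (M * (x₂ - x₀) + ν) - (L * (x₂ - x₀) + ν) = ((α : K) - β) * (x₂ - x₀) := by
      linear_combination (x₂ - x₀) * hl.dif
    have ts₃ : (M * (x₃ - x₀) + ν) - (L * (x₃ - x₀) + ν) = ((α : K) - β) * (x₃ - x₀) := by
      linear_combination (x₃ - x₀) * hl.dif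
    rw [s₂, t₂] at hb
    rw [s₃, t₃] at hc
    rcases hl.caseIII hN.v_δ hN.g_ne' hN.v_g h1 h2 h3 with ⟨e, e2, e3⟩ | ⟨e, e2, e3⟩
    · have hb' : IsC A.valuation (L * (x₂ - x₀) + ν) (M * (x₂ - x₀) + ν)
          (A.valuation (L * (x₂ - x₀) + ν)) := Or.inl ⟨e2, rfl⟩
      have hc' : IsC A.valuation (L * (x₃ - x₀) + ν) (M * (x₃ - x₀) + ν)
          (A.valuation (M * (x₃ - x₀) + ν))⁻¹ := Or.inr ⟨e3, rfl⟩
      obtain ⟨k, hk⟩ := hb'.unique hN.g_ne' hN.v_δ hN.v_g h2 ts₂ hl.rot.st hb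
      obtain ⟨l, hl'⟩ := hc'.unique hN.g_ne' hN.v_δ hN.v_g h3 ts₃ hl.rot.rot.st hc
      have hn := hc'.ne_zero hN.g_ne' hN.v_δ ts₃ hl.rot.rot.st
      refine ⟨k + l, ?_⟩
      rw [hk, hl', e, zpow_add₀ hne]
      rw [Ne, inv_eq_zero] at hn
      field_simp
    · have hb' : IsC A.valuation (L * (x₂ - x₀) + ν) (M * (x₂ - x₀) + ν)
          (A.valuation (M * (x₂ - x₀) + ν))⁻¹ := Or.inr ⟨e2, rfl⟩
      have hc' : IsC A.valuation (L * (x₃ - x₀) + ν) (M * (x₃ - x₀) + ν)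
          (A.valuation (L * (x₃ - x₀) + ν)) := Or.inl ⟨e3, rfl⟩
      obtain ⟨k, hk⟩ := hb'.unique hN.g_ne' hN.v_δ hN.v_g h2 ts₂ hl.rot.st hb
      obtain ⟨l, hl'⟩ := hc'.unique hN.g_ne' hN.v_δ hN.v_g h3 ts₃ hl.rot.rot.st hc
      have hn := hc'.ne_zero hN.g_ne' hN.v_δ ts₃ hl.rot.rot.st
      refine ⟨k + l, ?_⟩
      rw [hk, hl', e, zpow_add₀ hne]
      field_simp
  rcases hP with ⟨h1, rfl⟩ | ⟨h1, hP⟩ <;> rcases hQ with ⟨h2, rfl⟩ | ⟨h2, hQ⟩ <;>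
    rcases hR with ⟨h3, rfl⟩ | ⟨h3, hR⟩
  · exact ⟨0, by simp⟩
  · exact absurd (hl.closed hN.v_δ hN.v_g h1 h2) (not_le.mpr h3)
  · exact absurd (hl.rot.rot.closed hN.v_δ hN.v_g h3 h1) (not_le.mpr h2)
  · obtain ⟨k, hk⟩ := one hl s₂ t₂ s₃ t₃ h1 h2 h3 hQ hR
    exact ⟨k, by rw [← hk, one_mul]⟩
  · exact absurd (hl.rot.closed hN.v_δ hN.v_g h2 h3) (not_le.mpr h1)
  · obtain ⟨k, hk⟩ := one hl.rot s₃ t₃ s₁ t₁ h2 h3 h1 hR hP
    exact ⟨k, by rw [← hk, mul_one, mul_comm]⟩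
  · obtain ⟨k, hk⟩ := one hl.rot.rot s₁ t₁ s₂ t₂ h3 h1 h2 hP hQ
    exact ⟨k, by rw [← hk, mul_one]⟩
  · rw [s₁, t₁] at hP
    rw [s₂, t₂] at hQ
    rw [s₃, t₃] at hR
    exact hl.caseIV hN.v_δ hN.g_ne' hN.v_g h1 h2 h3 hP hQ hR

/-- additivity of components. -/
theorem Comp.add (hN : GoodNode W x₀ y₀ α β g) (hL : W.map A.subtype = EL) {P Q : EL.Point}
    {a b c : A.ValueGroup} (hP : Comp A x₀ y₀ α β P a) (hQ : Comp A x₀ y₀ α β Q b)
    (hR : Comp A x₀ y₀ α β (P + Q) c) :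
    ∃ k : ℤ, c = a * b * A.valuation (g : K) ^ k := by
  obtain ⟨k, hk⟩ := Comp.sum_zero hN hL hP hQ (hR.neg hN hL) (by rw [add_neg_cancel])
  have hc := hR.ne_zero hN hL
  refine ⟨-k, ?_⟩
  rw [zpow_neg, ← hk]
  have ha := hP.ne_zero hN hL
  have hb := hQ.ne_zero hN hL
  field_simp

theorem Comp.nsmul (hN : GoodNode W x₀ y₀ α β g) (hL : W.map A.subtype = EL) {P : EL.Point}
    {a : A.ValueGroup} (hP : Comp A x₀ y₀ α β P a) (n : ℕ) {c : A.ValueGroup}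
    (hc : Comp A x₀ y₀ α β (n • P) c) : ∃ k : ℤ, c = a ^ n * A.valuation (g : K) ^ k := by
  have hne : A.valuation (g : K) ≠ 0 := (Valuation.ne_zero_iff _).mpr hN.g_ne'
  induction n generalizing c with
  | zero =>
    rw [zero_nsmul] at hc
    exact ⟨0, by rw [show c = 1 from hc]; simp⟩
  | succ n ih =>
    obtain ⟨d, hd⟩ := exists_comp x₀ y₀ α β (n • P)
    obtain ⟨k, hk⟩ := ih hd
    rw [succ_nsmul] at hc
    obtain ⟨l, hl⟩ := Comp.add hN hL hd hP hc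
    refine ⟨k + l, ?_⟩
    rw [hl, hk, zpow_add₀ hne, pow_succ]
    ac_rfl

/-- The component of a torsion point. -/
theorem Comp.pow_eq (hN : GoodNode W x₀ y₀ α β g) (hL : W.map A.subtype = EL) {P : EL.Point}
    {a : A.ValueGroup} (hP : Comp A x₀ y₀ α β P a) {n : ℕ} (hn : n • P = 0) :
    ∃ k : ℤ, a ^ n = A.valuation (g : K) ^ k := by
  have hne : A.valuation (g : K) ≠ 0 := (Valuation.ne_zero_iff _).mpr hN.g_ne'
  obtain ⟨k, hk⟩ := hP.nsmul hN hL n (c := 1) (by rw [hn]; rfl)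
  refine ⟨-k, ?_⟩
  rw [zpow_neg]
  exact eq_inv_of_mul_eq_one_left hk.symm

end

end Fermat.Agent.H13
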