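import Fermat.Agent.H59RedTors
import Fermat.Prelude.Def_FLTPrelim_Ramification
import Fermat.Prelude.Def_EllipticCurve_FrobeniusTrace

/-!
# Galois equivariance of reduction (helper59)
-/

set_option autoImplicit false

namespace Fermat.Agent.H59

open WeierstrassCurve WeierstrassCurve.Affine
open scoped WeierstrassCurve.Affine Pointwise

section CoordMap

/-- `Q` is obtained from `P` by applying `f` to the coordinates. -/
def CoordMap {F K : Type*} [CommRing F] [CommRing K] (f : F → K) {W : Affine F} {W' : Affine K}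
    (P : W.Point) (Q : W'.Point) : Prop :=
  match P, Q with
  | .zero, .zero => True
  | .zero, .some _ _ _ => False
  | .some _ _ _, .zero => False
  | .some x y _, .some x' y' _ => f x = x' ∧ f y = y'

variable {L : Type*} [Field L] {k : Type*} [Field k] {L' : Type*} [Field L'] {k' : Type*} [Field k']

lemma Reduces.coordMap {A : ValuationSubring L} {ρ : A →+* k} {A' : ValuationSubring L'}
    {ρ' : A' →+* k'} {EL : Affine L} {Ek : Affine k} {EL' : Affine L'} {Ek' : Affine k'}
    {f : L → L'} {g : k → k'} (hf : ∀ a : A, ∃ h : f a ∈ A', ρ' ⟨f a, h⟩ = g (ρ a))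
    (hf' : ∀ x, x ∉ A → f x ∉ A')
    {P : EL.Point} {P' : Ek.Point} {Q : EL'.Point} {Q' : Ek'.Point}
    (h : Reduces A ρ P P') (hPQ : CoordMap f P Q) (hPQ' : CoordMap g P' Q') :
    Reduces A' ρ' Q Q' := by
  rcases P with _ | ⟨x, y, hP⟩
  · rcases Q with _ | ⟨_, _, _⟩
    · rcases P' with _ | ⟨_, _, _⟩
      · rcases Q' with _ | ⟨_, _, _⟩
        · trivial
        · exact hPQ'.elim
      · exact h.elim
    · exact hPQ.elim
  · rcases Q with _ | ⟨x₁, y₁, _⟩
    · exact hPQ.elim
    · obtain ⟨rfl, rfl⟩ := hPQ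
      rcases P' with _ | ⟨x', y', _⟩
      · rcases Q' with _ | ⟨_, _, _⟩
        · exact hf' _ h
        · exact hPQ'.elim
      · rcases Q' with _ | ⟨_, _, _⟩
        · exact hPQ'.elim
        · obtain ⟨rfl, rfl⟩ := hPQ'
          obtain ⟨a, b, rfl, rfl, rfl, rfl⟩ := h
          obtain ⟨ha, ha'⟩ := hf a
          obtain ⟨hb, hb'⟩ := hf b
          exact ⟨⟨_, ha⟩, ⟨_, hb⟩, rfl, rfl, ha', hb'⟩

lemma coordMap_id {F : Type*} [CommRing F] {W : Affine F} (P : W.Point) : CoordMap id P P := by
  rcases P with _ | ⟨_, _, _⟩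
  · trivial
  · exact ⟨rfl, rfl⟩

end CoordMap

section Places

variable {K L : Type*} [Field K] [Field L] [Algebra K L] {A : ValuationSubring L}

lemma smul_mem_iff_of_mem_decomposition {σ : L ≃ₐ[K] L} (hσ : σ ∈ A.decompositionSubgroup K)
    (x : L) : σ x ∈ A ↔ x ∈ A := by
  have h : σ • A = A := hσ
  have h1 : σ • x ∈ σ • A ↔ x ∈ A := ValuationSubring.smul_mem_pointwise_smul_iff
  rw [h] at h1
  exact h1

lemma residue_of_mem_inertia {σ : L ≃ₐ[K] L} (hσ : σ ∈ A.inertiaSubgroupIn K) :
    (∀ x : L, σ x ∈ A ↔ x ∈ A) ∧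
    ∀ a : A, ∃ h : σ (a : L) ∈ A,
      IsLocalRing.residue A ⟨σ (a : L), h⟩ = IsLocalRing.residue A a := by
  obtain ⟨τ, hτ, rfl⟩ := hσ
  refine ⟨smul_mem_iff_of_mem_decomposition τ.2, fun a => ?_⟩
  have hmem : (τ : L ≃ₐ[K] L) (a : L) ∈ A := (smul_mem_iff_of_mem_decomposition τ.2 _).mpr a.2
  refine ⟨hmem, ?_⟩
  have h1 : τ • (IsLocalRing.residue A a) = IsLocalRing.residue A a := by
    have := (MonoidHom.mem_ker.mp hτ)
    exact congrArg (fun f : RingAut (IsLocalRing.ResidueField A) => f (IsLocalRing.residue A a)) this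
  rw [← IsLocalRing.ResidueField.residue_smul] at h1
  exact h1

lemma residue_of_isFrobeniusAt {σ : L ≃ₐ[K] L} {q : ℕ} (hσ : A.IsFrobeniusAt σ q) :
    (∀ x : L, σ x ∈ A ↔ x ∈ A) ∧
    ∀ a : A, ∃ h : σ (a : L) ∈ A,
      IsLocalRing.residue A ⟨σ (a : L), h⟩ = (IsLocalRing.residue A a) ^ q := by
  obtain ⟨hd, hfr⟩ := hσ
  refine ⟨smul_mem_iff_of_mem_decomposition hd, fun a => ?_⟩
  have hmem : σ (a : L) ∈ A := (smul_mem_iff_of_mem_decomposition hd _).mpr a.2
  refine ⟨hmem, ?_⟩
  have h1 := hfr (IsLocalRing.residue A a)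
  rw [← IsLocalRing.ResidueField.residue_smul] at h1
  exact h1

lemma residue_of_mem_decomposition {σ : L ≃ₐ[K] L} (hσ : σ ∈ A.decompositionSubgroup K) :
    (∀ x : L, σ x ∈ A ↔ x ∈ A) ∧
    ∀ a : A, ∃ h : σ (a : L) ∈ A,
      IsLocalRing.residue A ⟨σ (a : L), h⟩ =
        (⟨σ, hσ⟩ : A.decompositionSubgroup K) • (IsLocalRing.residue A a) := by
  refine ⟨smul_mem_iff_of_mem_decomposition hσ, fun a => ?_⟩
  have hmem : σ (a : L) ∈ A := (smul_mem_iff_of_mem_decomposition hσ _).mpr a.2
  refine ⟨hmem, ?_⟩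
  rw [← IsLocalRing.ResidueField.residue_smul]
  rfl

lemma natCast_residue_eq_zero {q : ℕ} (hA : A.LiesOverPrime q) :
    (q : IsLocalRing.ResidueField A) = 0 := by
  have h := (ValuationSubring.mem_nonunits_iff_exists_mem_maximalIdeal).mp hA
  obtain ⟨ha, hm⟩ := h
  have := (IsLocalRing.residue_eq_zero_iff _).mpr hm
  rw [← this]
  have h2 : (⟨(q : L), ha⟩ : A) = (q : A) := Subtype.ext (by push_cast; rfl)
  rw [h2, map_natCast]

lemma charP_residue {q : ℕ} (hq : q.Prime) (hA : A.LiesOverPrime q) :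
    CharP (IsLocalRing.ResidueField A) q := by
  have h := natCast_residue_eq_zero hA
  have h1 := CharP.ringChar_of_prime_eq_zero hq h
  rw [← h1]
  exact ringChar.charP _

lemma natCast_residue_ne_zero {q n : ℕ} (hq : q.Prime) (hA : A.LiesOverPrime q) (hn : ¬ q ∣ n) :
    (n : IsLocalRing.ResidueField A) ≠ 0 := by
  have := charP_residue hq hA
  intro h
  exact hn ((CharP.cast_eq_zero_iff _ q n).mp h)

lemma intCast_residue_ne_zero {q : ℕ} {n : ℤ} (hq : q.Prime) (hA : A.LiesOverPrime q)
    (hn : ¬ (q : ℤ) ∣ n) : (n : IsLocalRing.ResidueField A) ≠ 0 := by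
  have := charP_residue hq hA
  intro h
  exact hn ((CharP.intCast_eq_zero_iff _ q n).mp h)

end Places

section Global

variable {R S K : Type*} [CommRing R] [Field S] [Field K] [Algebra R S] [Algebra R K] [Algebra S K]
  [IsScalarTower R S K] {W : WeierstrassCurve ℤ} {E : Affine R} {A : ValuationSubring K}

omit [Field S] [Algebra R S] [Algebra S K] [IsScalarTower R S K] in
lemma model_map (hE : W.map (Int.castRingHom R) = E) :
    (W.map (Int.castRingHom A)).map A.subtype = E⁄K := by
  subst hE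
  rw [WeierstrassCurve.map_map]
  change _ = (W.map (Int.castRingHom R)).map (algebraMap R K)
  rw [WeierstrassCurve.map_map]
  congr 1
  exact RingHom.ext_int _ _

lemma model_residue {k : Type*} [Field k] (ρ : A →+* k) :
    (W.map (Int.castRingHom A)).map ρ = W.map (Int.castRingHom k) := by
  rw [WeierstrassCurve.map_map]
  congr 1
  exact RingHom.ext_int _ _

variable [DecidableEq K]

lemma coordMap_smul (σ : K ≃ₐ[S] K) (P : (E⁄K).Point) : CoordMap (σ : K → K) P (σ • P) := by
  rcases P with _ | ⟨_, _, _⟩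
  · trivial
  · exact ⟨rfl, rfl⟩

/-- inertia does not change the reduction. -/
theorem Reduces.smul_of_inertia {Ek : Affine (IsLocalRing.ResidueField A)}
    {σ : K ≃ₐ[S] K} (hσ : σ ∈ A.inertiaSubgroupIn S) {P : (E⁄K).Point} {P' : Ek.Point}
    (hP : Reduces A (IsLocalRing.residue A) P P') :
    Reduces A (IsLocalRing.residue A) (σ • P) P' := by
  obtain ⟨h1, h2⟩ := residue_of_mem_inertia hσ
  exact Reduces.coordMap (f := σ) (g := id) h2 (fun x hx => fun h => hx ((h1 x).mp h)) hP
    (coordMap_smul σ P) (coordMap_id P')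

/-- `σ P - P ∈ E₁` for `σ` in inertia and `P ∈ E₀`. -/
theorem Reduces.smul_sub_of_inertia [DecidableEq (IsLocalRing.ResidueField A)]
    (hE : W.map (Int.castRingHom R) = E) {P' : (W.map (Int.castRingHom (IsLocalRing.ResidueField A))).toAffine.Point}
    {σ : K ≃ₐ[S] K} (hσ : σ ∈ A.inertiaSubgroupIn S) {P : (E⁄K).Point}
    (hP : Reduces A (IsLocalRing.residue A) P P') :
    Reduces A (IsLocalRing.residue A) (σ • P - P)
      (0 : (W.map (Int.castRingHom (IsLocalRing.ResidueField A))).toAffine.Point) := by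
  have := (hP.smul_of_inertia hσ).sub (model_map hE) (model_residue _) hP
  rwa [sub_self] at this

/-- inertia acts trivially on torsion points of order prime to the residue characteristic which have
nonsingular reduction. -/
theorem smul_eq_of_inertia (hE : W.map (Int.castRingHom R) = E)
    {P' : (W.map (Int.castRingHom (IsLocalRing.ResidueField A))).toAffine.Point}
    {σ : K ≃ₐ[S] K} (hσ : σ ∈ A.inertiaSubgroupIn S) {P : (E⁄K).Point}
    (hP : Reduces A (IsLocalRing.residue A) P P') {n : ℕ}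
    (hn : (n : IsLocalRing.ResidueField A) ≠ 0) (h : n • P = 0) : σ • P = P := by
  classical
  refine eq_of_reduces_of_nsmul_eq_zero (model_map hE) (model_residue _) (hP.smul_of_inertia hσ) hP
    hn ?_ h
  rw [smul_comm n σ P, h, smul_zero]

omit [DecidableEq K] in
/-- good reduction, version for `E` over `R` with integral model `W`. -/
theorem exists_reduces (hE : W.map (Int.castRingHom R) = E) {ℓ : ℕ} (hℓ : ℓ.Prime)
    (hΔ : ¬ (ℓ : ℤ) ∣ W.Δ) (hA : A.LiesOverPrime ℓ) (P : (E⁄K).Point) :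
    ∃ P' : (W.map (Int.castRingHom (IsLocalRing.ResidueField A))).toAffine.Point,
      Reduces A (IsLocalRing.residue A) P P' := by
  refine exists_reduces_of_Δ_ne_zero (model_map hE) (model_residue _) ?_ P
  rw [map_Δ]
  exact intCast_residue_ne_zero hℓ hA hΔ

/-- **Good reduction implies unramified** (easy half of Néron–Ogg–Shafarevich). -/
theorem galoisRepUnramifiedAt_of_good (hE : W.map (Int.castRingHom R) = E) {ℓ n : ℕ}
    (hℓ : ℓ.Prime) (hΔ : ¬ (ℓ : ℤ) ∣ W.Δ) (hn : ¬ ℓ ∣ n) :
    Point.GaloisRepUnramifiedAt (S := S) (K := K) E n ℓ := by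
  intro A hA σ hσ x
  obtain ⟨P', hP'⟩ := exists_reduces hE hℓ hΔ hA (x : (E⁄K).Point)
  apply Subtype.ext
  refine smul_eq_of_inertia hE hσ hP' (natCast_residue_ne_zero hℓ hA hn) ?_
  have h := (Submodule.mem_torsionBy_iff _ _).mp x.2
  rw [← natCast_zsmul]
  exact h

/-- Frobenius on points over a field extension of `𝔽_q`-curves: `(x,y) ↦ (x^q, y^q)` as a map of
curves coming from `ℤ`. -/
noncomputable def frobPt (W : WeierstrassCurve ℤ) (k : Type*) [Field k] (q : ℕ) [Fact q.Prime]
    [CharP k q] (P : (W.map (Int.castRingHom k)).toAffine.Point) :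
    (W.map (Int.castRingHom k)).toAffine.Point :=
  match P with
  | .zero => .zero
  | .some x y h => .some (x ^ q) (y ^ q) (by
      have h2 := (Affine.map_nonsingular (W := (W.map (Int.castRingHom k)).toAffine)
        (frobenius_inj k q) x y).mpr h
      have h3 : (W.map (Int.castRingHom k)).map (frobenius k q) = W.map (Int.castRingHom k) := by
        rw [WeierstrassCurve.map_map]
        congr 1
        exact RingHom.ext_int _ _
      change ((W.map (Int.castRingHom k)).map (frobenius k q)).toAffine.Nonsingular _ _ at h2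
      rw [h3] at h2
      exact h2)

lemma coordMap_frobPt (W : WeierstrassCurve ℤ) (k : Type*) [Field k] (q : ℕ) [Fact q.Prime]
    [CharP k q] (P : (W.map (Int.castRingHom k)).toAffine.Point) :
    CoordMap (fun x : k => x ^ q) P (frobPt W k q P) := by
  rcases P with _ | ⟨_, _, _⟩
  · trivial
  · exact ⟨rfl, rfl⟩

/-- Frobenius elements act on reductions as the Frobenius map. -/
theorem Reduces.smul_of_isFrobeniusAt {q : ℕ} [Fact q.Prime]
    [CharP (IsLocalRing.ResidueField A) q] {σ : K ≃ₐ[S] K} (hσ : A.IsFrobeniusAt σ q)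
    {P : (E⁄K).Point} {P' : (W.map (Int.castRingHom (IsLocalRing.ResidueField A))).toAffine.Point}
    (hP : Reduces A (IsLocalRing.residue A) P P') :
    Reduces A (IsLocalRing.residue A) (σ • P) (frobPt W (IsLocalRing.ResidueField A) q P') := by
  obtain ⟨h1, h2⟩ := residue_of_isFrobeniusAt hσ
  exact Reduces.coordMap (f := σ) (g := fun x => x ^ q) h2 (fun x hx => fun h => hx ((h1 x).mp h)) hP
    (coordMap_smul σ P) (coordMap_frobPt W _ q P')

end Global

end Fermat.Agent.H59
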