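import Mathlib
import Fermat.Agent.H13NodeComp
import Fermat.Agent.H59RedGal

/-!
# Points away from the node have nonsingular reduction, differences of points in the same component,
and the multiplicative group structure of the nodal cubic (helper13)
-/

set_option autoImplicit false

namespace Fermat.Agent.H13

open WeierstrassCurve WeierstrassCurve.Affine IsLocalRing

section nodal

variable {k : Type*} [Field k] {W : WeierstrassCurve k} {x₀ y₀ α β : k}

/-- On a nodal cubic a point of the curve is nonsingular iff `x ≠ x₀`. -/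
lemma nodal_nonsingular_iff (h : NodeData W x₀ y₀ α β 0) (hαβ : α ≠ β) {x y : k}
    (hE : W.toAffine.Equation x y) : W.toAffine.Nonsingular x y ↔ x ≠ x₀ := by
  have hst := h.st hE
  rw [add_zero] at hst
  constructor
  · rintro hns rfl
    have hts : sC x y₀ β x y = sC x y₀ α x y := by simp only [sC]; ring
    rw [hts] at hst
    have hs : sC x y₀ α x y = 0 := by
      have : sC x y₀ α x y ^ 2 = 0 := by linear_combination hst
      exact pow_eq_zero_iff (two_ne_zero) |>.mp this
    have hy : y = y₀ := by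
      simp only [sC] at hs
      linear_combination hs
    subst hy
    rw [nonsingular_iff'] at hns
    rcases hns.2 with h2 | h2
    · apply h2
      linear_combination -h.dx
    · apply h2
      linear_combination h.dy
  · intro hx
    rw [nonsingular_iff']
    refine ⟨hE, ?_⟩
    by_contra hcon
    push Not at hcon
    obtain ⟨h1, h2⟩ := hcon
    set ξ := x - x₀ with hξ
    set s := sC x₀ y₀ α x y with hs
    set t := sC x₀ y₀ β x y with ht
    have hts : t - s = (α - β) * ξ := NodeData.ts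
    have hst0 : s + t = 0 := by
      rw [hs, ht]; simp only [sC]
      linear_combination h2 - h.dy - ξ * h.sum
    have hξ0 : ξ ≠ 0 := sub_ne_zero.mpr hx
    have hδ : α - β ≠ 0 := sub_ne_zero.mpr hαβ
    have h3 : α * t + β * s + 3 * ξ ^ 2 = 0 := by
      rw [hs, ht]; simp only [sC]
      linear_combination -h1 - h.dx + (y - y₀) * h.sum - 2 * ξ * h.prod
    -- `t = -s`, `-2 s = δ ξ`
    have ht' : t = -s := by linear_combination hst0
    rw [ht'] at hts h3 hst
    have e1 : (α - β) * s = 3 * ξ ^ 2 := by linear_combination -h3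
    have e2 : ξ * ((α - β) ^ 2 + 6 * ξ) = 0 := by
      linear_combination (-(α - β)) * hts - 2 * e1
    have e3 : (α - β) ^ 2 = -6 * ξ := by
      have := (mul_eq_zero.mp e2).resolve_left hξ0
      linear_combination this
    have e4 : ξ ^ 3 * ((α - β) ^ 2 + 9 * ξ) = 0 := by
      have : ((α - β) * s) ^ 2 = (3 * ξ ^ 2) ^ 2 := by rw [e1]
      linear_combination (-(α - β) ^ 2) * hst - this
    have e5 := (mul_eq_zero.mp e4).resolve_left (pow_ne_zero 3 hξ0)
    have e6 : 3 * ξ = 0 := by linear_combination e5 - e3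
    have e7 : (α - β) ^ 2 = 0 := by linear_combination e3 - 2 * e6
    exact hδ (pow_eq_zero_iff (two_ne_zero) |>.mp e7)

/-- The multiplicative parameter on the nodal cubic. -/
def mulT (x₀ y₀ α β : k) (P : W.toAffine.Point) : k :=
  match P with
  | .zero => 1
  | .some x y _ => sC x₀ y₀ β x y / sC x₀ y₀ α x y

lemma mulT_zero : mulT x₀ y₀ α β (0 : W.toAffine.Point) = 1 := rfl

lemma mulT_some {x y : k} (h : W.toAffine.Nonsingular x y) :
    mulT x₀ y₀ α β (Point.some x y h) = sC x₀ y₀ β x y / sC x₀ y₀ α x y := rfl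

lemma nodal_s_ne (h : NodeData W x₀ y₀ α β 0) (hαβ : α ≠ β) {x y : k}
    (hns : W.toAffine.Nonsingular x y) : sC x₀ y₀ α x y ≠ 0 ∧ sC x₀ y₀ β x y ≠ 0 := by
  have hx := (nodal_nonsingular_iff h hαβ hns.1).mp hns
  have hst := h.st hns.1
  rw [add_zero] at hst
  have h3 : (x - x₀) ^ 3 ≠ 0 := pow_ne_zero 3 (sub_ne_zero.mpr hx)
  rw [← hst] at h3
  exact ⟨left_ne_zero_of_mul h3, right_ne_zero_of_mul h3⟩

lemma mulT_ne_zero (h : NodeData W x₀ y₀ α β 0) (hαβ : α ≠ β) (P : W.toAffine.Point) :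
    mulT x₀ y₀ α β P ≠ 0 := by
  rcases P with _ | ⟨x, y, hP⟩
  · exact one_ne_zero
  · obtain ⟨h1, h2⟩ := nodal_s_ne h hαβ hP
    exact div_ne_zero h2 h1

lemma mulT_neg (h : NodeData W x₀ y₀ α β 0) (P : W.toAffine.Point) :
    mulT x₀ y₀ α β (-P) = (mulT x₀ y₀ α β P)⁻¹ := by
  rcases P with _ | ⟨x, y, hP⟩
  · change (1 : k) = 1⁻¹
    rw [inv_one]
  · rw [Point.neg_some, mulT_some, mulT_some, h.sC_negY, h.swap.sC_negY, neg_div_neg_eq, inv_div]

lemma mulT_eq_one (h : NodeData W x₀ y₀ α β 0) (hαβ : α ≠ β) {P : W.toAffine.Point}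
    (h1 : mulT x₀ y₀ α β P = 1) : P = 0 := by
  rcases P with _ | ⟨x, y, hP⟩
  · rfl
  · exfalso
    obtain ⟨h2, h3⟩ := nodal_s_ne h hαβ hP
    rw [mulT_some, div_eq_one_iff_eq h2] at h1
    have hts := NodeData.ts (x₀ := x₀) (y₀ := y₀) (α := α) (β := β) (x := x) (y := y)
    rw [h1, sub_self] at hts
    have hx := (nodal_nonsingular_iff h hαβ hP.1).mp hP
    rcases mul_eq_zero.mp hts.symm with h4 | h4
    · exact hαβ (sub_eq_zero.mp h4)
    · exact hx (sub_eq_zero.mp h4)

variable [DecidableEq k]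

lemma mulT_sum_zero (h : NodeData W x₀ y₀ α β 0) (hαβ : α ≠ β) {P Q R : W.toAffine.Point}
    (hs : P + Q + R = 0) :
    mulT x₀ y₀ α β P * mulT x₀ y₀ α β Q * mulT x₀ y₀ α β R = 1 := by
  have two : ∀ {P Q : W.toAffine.Point}, P + Q = 0 →
      mulT x₀ y₀ α β P * mulT x₀ y₀ α β Q = 1 := by
    intro P Q hPQ
    have hQ' : Q = -P := by rw [eq_neg_iff_add_eq_zero, add_comm]; exact hPQ
    rw [hQ', mulT_neg h, mul_inv_cancel₀ (mulT_ne_zero h hαβ P)]
  rcases P with _ | ⟨x₁, y₁, h₁⟩
  · rw [← Point.zero_def, zero_add] at hs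
    rw [← Point.zero_def, mulT_zero, one_mul]
    exact two hs
  rcases Q with _ | ⟨x₂, y₂, h₂⟩
  · rw [← Point.zero_def, add_zero] at hs
    rw [← Point.zero_def, mulT_zero, mul_one]
    exact two hs
  rcases R with _ | ⟨x₃, y₃, h₃⟩
  · rw [← Point.zero_def, add_zero] at hs
    rw [← Point.zero_def, mulT_zero, mul_one]
    exact two hs
  obtain ⟨L, M, ν, hl, s₁, t₁, s₂, t₂, s₃, t₃⟩ := h.exists_lineData hs
  have n₁ := nodal_s_ne h hαβ h₁
  have n₂ := nodal_s_ne h hαβ h₂
  have n₃ := nodal_s_ne h hαβ h₃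
  have e1 := hl.prod_s
  have e2 := hl.flip.prod_s
  rw [← s₁, ← s₂, ← s₃] at e1
  rw [← t₁, ← t₂, ← t₃] at e2
  rw [mulT_some, mulT_some, mulT_some, div_mul_div_comm, div_mul_div_comm, e1, e2]
  have hne : ν ^ 3 - 0 * L ^ 3 ≠ 0 := by
    rw [← e1]; exact mul_ne_zero (mul_ne_zero n₁.1 n₂.1) n₃.1
  rw [zero_mul, sub_zero] at hne ⊢
  rw [zero_mul, sub_zero, div_self hne]

lemma mulT_add (h : NodeData W x₀ y₀ α β 0) (hαβ : α ≠ β) (P Q : W.toAffine.Point) :
    mulT x₀ y₀ α β (P + Q) = mulT x₀ y₀ α β P * mulT x₀ y₀ α β Q := by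
  have h1 := mulT_sum_zero h hαβ (P := P) (Q := Q) (R := -(P + Q)) (by abel)
  rw [mulT_neg h] at h1
  have h2 := mulT_ne_zero h hαβ (P + Q)
  field_simp at h1
  exact h1.symm

lemma mulT_nsmul (h : NodeData W x₀ y₀ α β 0) (hαβ : α ≠ β) (P : W.toAffine.Point) (n : ℕ) :
    mulT x₀ y₀ α β (n • P) = mulT x₀ y₀ α β P ^ n := by
  induction n with
  | zero => rw [zero_nsmul, pow_zero]; rfl
  | succ n ih => rw [succ_nsmul, mulT_add h hαβ, ih, pow_succ]

lemma mulT_injective (h : NodeData W x₀ y₀ α β 0) (hαβ : α ≠ β) :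
    Function.Injective (mulT x₀ y₀ α β (W := W)) := by
  intro P Q hPQ
  rw [← sub_eq_zero]
  apply mulT_eq_one h hαβ
  rw [sub_eq_add_neg, mulT_add h hαβ, mulT_neg h, hPQ, mul_inv_cancel₀ (mulT_ne_zero h hαβ Q)]

end nodal

section red

variable {K : Type*} [Field K] {A : ValuationSubring K} {W : WeierstrassCurve A}
  {x₀ y₀ α β g : A} {EL : Affine K} {Ek : Affine (ResidueField A)}

lemma GoodNode.ndk (hN : GoodNode W x₀ y₀ α β g) (hk : W.map (residue A) = Ek) :
    NodeData Ek (residue A x₀) (residue A y₀) (residue A α) (residue A β) 0 := by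
  subst hk
  have := hN.nd.map (residue A)
  rwa [(residue_eq_zero_iff g).mpr hN.g_mem] at this

lemma GoodNode.αβk (hN : GoodNode W x₀ y₀ α β g) : residue A α ≠ residue A β := by
  intro h
  rw [← sub_eq_zero, ← map_sub, residue_eq_zero_iff] at h
  exact (mem_maximalIdeal _).mp h hN.unit

lemma valuation_sub_lt_iff {a b : A} : A.valuation ((a : K) - b) < 1 ↔ residue A a = residue A b := by
  rw [← sub_eq_zero, ← map_sub, residue_eq_zero_iff]
  exact (ValuationSubring.valuation_lt_one_iff A (a - b)).symm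

lemma Reduces_map_eq {x y : A} (hL : W.map A.subtype = EL) (h : EL.Equation (x : K) y) :
    W.toAffine.Equation x y := by
  subst hL
  rw [equation_iff] at h ⊢
  apply Subtype.ext
  push_cast
  simpa only [map_a₁, map_a₂, map_a₃, map_a₄, map_a₆, ValuationSubring.subtype_apply] using h

/-- points away from the node have nonsingular reduction. -/
theorem exists_reduces_of_not_near (hN : GoodNode W x₀ y₀ α β g) (hL : W.map A.subtype = EL)
    (hk : W.map (residue A) = Ek) {P : EL.Point} (hP : ¬ Near A x₀ P) :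
    ∃ P' : Ek.Point, H59.Reduces A (residue A) P P' := by
  rcases P with _ | ⟨x, y, h⟩
  · exact ⟨0, trivial⟩
  · by_cases hx : x ∈ A
    · have hy : y ∈ A := H59.y_mem hL h.1 hx
      have heq : W.toAffine.Equation ⟨x, hx⟩ ⟨y, hy⟩ := Reduces_map_eq hL h.1
      have heq' : Ek.Equation (residue A ⟨x, hx⟩) (residue A ⟨y, hy⟩) := by
        subst hk
        exact Affine.Equation.map (W := W.toAffine) (residue A) heq
      refine ⟨Point.some _ _ ((nodal_nonsingular_iff (hN.ndk hk) hN.αβk heq').mpr ?_),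
        ⟨x, hx⟩, ⟨y, hy⟩, rfl, rfl, rfl, rfl⟩
      intro hcon
      apply hP
      exact valuation_sub_lt_iff.mpr hcon
    · exact ⟨0, hx⟩

/-- points with nonsingular reduction are away from the node. -/
theorem not_near_of_reduces (hN : GoodNode W x₀ y₀ α β g)
    (hk : W.map (residue A) = Ek) {P : EL.Point} {P' : Ek.Point}
    (h : H59.Reduces A (residue A) P P') : ¬ Near A x₀ P := by
  rcases P with _ | ⟨x, y, hP⟩
  · exact id
  · intro hnear
    have hx : x ∈ A := by
      rw [← A.valuation_le_one_iff]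
      have : x = (x - x₀) + x₀ := by ring
      rw [this]
      exact Valuation.map_add_le _ (le_of_lt hnear) (A.valuation_le_one x₀)
    rcases P' with _ | ⟨x', y', hP'⟩
    · exact h hx
    · obtain ⟨a, b, rfl, rfl, rfl, rfl⟩ := h
      exact (nodal_nonsingular_iff (hN.ndk hk) hN.αβk hP'.1).mp hP' (valuation_sub_lt_iff.mp hnear)

/-- If the component is trivial then the point is away from the node. -/
theorem not_near_of_comp (hN : GoodNode W x₀ y₀ α β g) (hL : W.map A.subtype = EL) {P : EL.Point}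
    {k : ℤ} (h : Comp A x₀ y₀ α β P (A.valuation (g : K) ^ k)) : ¬ Near A x₀ P := by
  rcases P with _ | ⟨x, y, hP⟩
  · exact id
  · intro hnear
    have hnear' : A.valuation (x - x₀) < 1 := hnear
    have hst := (hN.nd' hL).st hP.1
    have hg0 : 0 < A.valuation (g : K) := zero_lt_iff.mpr ((Valuation.ne_zero_iff _).mpr hN.g_ne')
    -- general statement
    have gen : ∀ {s t δ : K} {k : ℤ}, A.valuation δ = 1 → t - s = δ * (x - x₀) →
        s * t = (x - x₀) ^ 3 + g → A.valuation t ≤ A.valuation s →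
        A.valuation (g : K) ^ k ≠ A.valuation s := by
      intro s t δ k hδ hts hst hle he
      have hs1 : A.valuation s < 1 := near_s_lt _ hδ hN.v_g hnear' hts hst
      have hgs : A.valuation (g : K) ≤ A.valuation s ^ 2 := by
        rcases hle.lt_or_eq with hlt | heq
        · exact (near_lt _ hδ hN.v_g hnear' hts hst hlt).le
        · exact (near_middle _ hN.g_ne' hδ hN.v_g hnear' hts hst heq.symm).le
      rcases le_or_gt k 0 with hk | hk
      · have : 1 ≤ A.valuation (g : K) ^ k := by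
          obtain ⟨n, rfl⟩ := Int.exists_eq_neg_ofNat hk
          rw [zpow_neg, zpow_natCast]
          exact (one_le_inv₀ (pow_pos hg0 n)).mpr (pow_le_one₀ zero_le hN.v_g.le)
        rw [he] at this
        exact absurd hs1 (not_lt.mpr this)
      · obtain ⟨n, rfl⟩ := Int.eq_ofNat_of_zero_le hk.le
        have hn : n ≠ 0 := by rintro rfl; simp at hk
        have h1 : A.valuation (g : K) ^ n ≤ A.valuation (g : K) := pow_le_of_le_one zero_le hN.v_g.le hn
        rw [zpow_natCast] at he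
        rw [he] at h1
        have h2 := h1.trans hgs
        have hs0 : 0 < A.valuation s := by rw [← he]; exact pow_pos hg0 n
        have : A.valuation s ^ 2 < A.valuation s := by
          rw [sq]
          calc A.valuation s * A.valuation s < A.valuation s * 1 := mul_lt_mul_of_pos_left hs1 hs0
            _ = _ := mul_one _
        exact absurd h2 (not_le.mpr this)
    rcases h with ⟨h1, -⟩ | ⟨-, h2⟩
    · exact absurd hnear' (not_lt.mpr h1)
    · rcases h2 with ⟨hle, he⟩ | ⟨hle, he⟩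
      · exact gen hN.v_δ NodeData.ts hst hle he
      · refine gen (s := sC (x₀ : K) y₀ β x y) (t := sC (x₀ : K) y₀ α x y) (k := -k)
          (δ := (β : K) - α) ?_ NodeData.ts (by rw [mul_comm]; exact hst) hle ?_
        · rw [Valuation.map_sub_swap]; exact hN.v_δ
        · rw [zpow_neg, he, inv_inv]

/-- conversely points away from the node have trivial component only. -/
lemma comp_of_not_near {P : EL.Point} (hP : ¬ Near A x₀ P) : Comp A x₀ y₀ α β P 1 := by
  rcases P with _ | ⟨x, y, h⟩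
  · rfl
  · exact Or.inl ⟨not_lt.mp hP, rfl⟩

lemma comp_eq_one_of_not_near {P : EL.Point} (hP : ¬ Near A x₀ P) {c : A.ValueGroup}
    (hc : Comp A x₀ y₀ α β P c) : c = 1 := by
  rcases P with _ | ⟨x, y, h⟩
  · exact hc
  · rcases hc with ⟨-, h1⟩ | ⟨h1, -⟩
    · exact h1
    · exact absurd h1 hP

variable [DecidableEq K]

/-- two points with the same component differ by a point with nonsingular reduction. -/
theorem sub_not_near (hN : GoodNode W x₀ y₀ α β g) (hL : W.map A.subtype = EL) {P Q : EL.Point}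
    {c d : A.ValueGroup} (hP : Comp A x₀ y₀ α β P c) (hQ : Comp A x₀ y₀ α β Q d)
    (hcd : ∃ k : ℤ, c = d * A.valuation (g : K) ^ k) : ¬ Near A x₀ (P - Q) := by
  obtain ⟨k, rfl⟩ := hcd
  obtain ⟨e, he⟩ := exists_comp x₀ y₀ α β (P - Q)
  have he' := he
  rw [sub_eq_add_neg] at he'
  obtain ⟨l, hl⟩ := Comp.add hN hL hP (hQ.neg hN hL) he'
  have hne : A.valuation (g : K) ≠ 0 := (Valuation.ne_zero_iff _).mpr hN.g_ne'
  have : e = A.valuation (g : K) ^ (k + l) := by
    rw [hl, zpow_add₀ hne]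
    have := hQ.ne_zero hN hL
    field_simp
  rw [this] at he
  exact not_near_of_comp hN hL he

/-- finer: if the leading coefficients agree, the difference is in the kernel of reduction. -/
theorem sub_reduces_zero (hN : GoodNode W x₀ y₀ α β g) (hL : W.map A.subtype = EL)
    {x₁ y₁ x₂ y₂ : K} (h₁ : EL.Nonsingular x₁ y₁) (h₂ : EL.Nonsingular x₂ y₂)
    (n₁ : A.valuation (x₁ - x₀) < 1)
    (l₁ : A.valuation (sC (x₀ : K) y₀ β x₁ y₁) ≤ A.valuation (sC (x₀ : K) y₀ α x₁ y₁))
    (l₂ : A.valuation (sC (x₀ : K) y₀ β x₂ y₂) ≤ A.valuation (sC (x₀ : K) y₀ α x₂ y₂))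
    (heq : A.valuation (sC (x₀ : K) y₀ α x₁ y₁) = A.valuation (sC (x₀ : K) y₀ α x₂ y₂))
    (hlt : A.valuation (sC (x₀ : K) y₀ α x₁ y₁ - sC (x₀ : K) y₀ α x₂ y₂) <
      A.valuation (sC (x₀ : K) y₀ α x₁ y₁)) :
    H59.Reduces A (residue A) (Point.some x₁ y₁ h₁ - Point.some x₂ y₂ h₂) (0 : Ek.Point) := by
  rcases hR : (Point.some x₁ y₁ h₁ - Point.some x₂ y₂ h₂) with _ | ⟨x₃, y₃, h₃⟩
  · trivial
  · -- `P + (-Q) + (-R) = 0`
    have hsum : Point.some x₃ (EL.negY x₃ y₃) ((nonsingular_neg ..).mpr h₃) +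
        Point.some x₁ y₁ h₁ + Point.some x₂ (EL.negY x₂ y₂) ((nonsingular_neg ..).mpr h₂) = 0 := by
      rw [← Point.neg_some h₃, ← Point.neg_some h₂, ← hR]
      abel
    obtain ⟨L, M, ν, hl, s₃, t₃, s₁, t₁, s₂, t₂⟩ := (hN.nd' hL).exists_lineData hsum
    have e₁ := (hN.nd' hL).sC_negY x₂ y₂
    have e₂ := (hN.nd' hL).swap.sC_negY x₂ y₂
    rw [e₁] at s₂
    rw [e₂] at t₂
    have hst := (hN.nd' hL).st h₁.1
    have hne := near_ne A.valuation hN.g_ne' hN.v_δ NodeData.ts hst
    rw [max_eq_left l₁] at hne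
    have hkey := (hl.key (v := A.valuation) hN.v_δ (r := A.valuation (sC (x₀ : K) y₀ α x₁ y₁)) hne
      (near_s_lt _ hN.v_δ hN.v_g n₁ NodeData.ts hst) (by rw [s₁])
      (by rw [← t₂, Valuation.map_neg, heq]) (by rw [← t₁]; exact l₁)
      (by rw [← s₂, Valuation.map_neg, heq]; exact l₂)).2 (by
        rw [← s₁, ← t₂, ← sub_eq_add_neg]; exact hlt)
    rw [H59.reduces_some_zero, ← A.valuation_le_one_iff, not_le]
    have n₂ : A.valuation (x₂ - x₀) < 1 := by
      have h5 := near_xi_le A.valuation hN.v_δ (NodeData.ts (x₀ := (x₀ : K)) (y₀ := (y₀ : K))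
        (α := (α : K)) (β := (β : K)) (x := x₂) (y := y₂)) le_rfl l₂
      refine lt_of_le_of_lt h5 ?_
      rw [← heq]
      exact near_s_lt _ hN.v_δ hN.v_g n₁ NodeData.ts hst
    have h6 : x₃ = L * M - ((x₁ - x₀) + (x₂ - x₀)) + x₀ := by
      rw [← hl.e₁]; ring
    rw [h6]
    have h7 : A.valuation (L * M - ((x₁ - x₀) + (x₂ - x₀))) = A.valuation (L * M) := by
      refine Valuation.map_sub_eq_of_lt_left _ ?_
      exact lt_trans (Valuation.map_add_lt _ n₁ n₂) hkey
    rw [Valuation.map_add_eq_of_lt_left _, h7]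
    · exact hkey
    · rw [h7]
      exact lt_of_le_of_lt (A.valuation_le_one x₀) hkey

end red

end Fermat.Agent.H13
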