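import Mathlib

set_option autoImplicit false

/-!
# The symmetric relation between x-coordinates of P, Q, P+Q on a Weierstrass curve
-/

namespace Fermat.Agent.H73

open WeierstrassCurve

section

variable {R : Type*} [CommRing R]

/-- The symmetric polynomial relation satisfied by the `x`-coordinates of three points
`P, Q, ±(P+Q)` on a Weierstrass curve. -/
def symRel (W : WeierstrassCurve R) (a b c : R) : R :=
  (a * b) ^ 2 + (b * c) ^ 2 + (c * a) ^ 2 - 2 * a * b * c * (a + b + c) - W.b₂ * a * b * c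
    - W.b₄ * (a * b + b * c + c * a) - W.b₆ * (a + b + c) - W.b₈

lemma symRel_swap₁ (W : WeierstrassCurve R) (a b c : R) : symRel W a b c = symRel W b a c := by
  simp only [symRel]; ring

lemma symRel_rot (W : WeierstrassCurve R) (a b c : R) : symRel W a b c = symRel W b c a := by
  simp only [symRel]; ring

lemma symRel_of_line (W : WeierstrassCurve R) {l m a b c : R}
    (h1 : a + b + c = l ^ 2 + W.a₁ * l - W.a₂)
    (h2 : a * b + b * c + c * a = W.a₄ - 2 * l * m - W.a₁ * m - W.a₃ * l)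
    (h3 : a * b * c = m ^ 2 + W.a₃ * m - W.a₆) : symRel W a b c = 0 := by
  have key : symRel W a b c = (a * b + b * c + c * a) ^ 2 - 4 * (a + b + c) * (a * b * c)
      - W.b₂ * (a * b * c) - W.b₄ * (a * b + b * c + c * a) - W.b₆ * (a + b + c) - W.b₈ := by
    simp only [symRel]; ring
  rw [key, h1, h2, h3]
  simp only [WeierstrassCurve.b₂, WeierstrassCurve.b₄, WeierstrassCurve.b₆, WeierstrassCurve.b₈]
  ring

end

section

variable {F : Type*} [Field F] [DecidableEq F] {W : WeierstrassCurve F}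

/-- Everything one needs to know about an affine sum `P + Q = R` of affine points: there is a
slope `l` with the chord/tangent relations. -/
lemma exists_slope {x₁ y₁ x₂ y₂ x₃ y₃ : F} {h₁ : W.toAffine.Nonsingular x₁ y₁}
    {h₂ : W.toAffine.Nonsingular x₂ y₂} {h₃ : W.toAffine.Nonsingular x₃ y₃}
    (h : Affine.Point.some x₁ y₁ h₁ + Affine.Point.some x₂ y₂ h₂ = Affine.Point.some x₃ y₃ h₃) :
    ∃ l : F, l * (x₁ - x₂) = y₁ - y₂ ∧
      l * (y₁ + y₂ + W.a₁ * x₁ + W.a₃) =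
        x₁ ^ 2 + x₁ * x₂ + x₂ ^ 2 + W.a₂ * (x₁ + x₂) + W.a₄ - W.a₁ * y₂ ∧
      x₃ = l ^ 2 + W.a₁ * l - W.a₂ - x₁ - x₂ ∧
      y₃ = -(l * (x₃ - x₁) + y₁) - W.a₁ * x₃ - W.a₃ := by
  have e₁ := (Affine.equation_iff _ _).mp h₁.left
  have e₂ := (Affine.equation_iff _ _).mp h₂.left
  by_cases hxy : x₁ = x₂ ∧ y₁ = W.toAffine.negY x₂ y₂
  · rw [Affine.Point.add_of_Y_eq hxy.1 hxy.2] at h
    exact absurd h.symm (Affine.Point.some_ne_zero h₃)
  · rw [Affine.Point.add_some hxy] at h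
    simp only [Affine.Point.some.injEq] at h
    obtain ⟨hx₃, hy₃⟩ := h
    refine ⟨W.toAffine.slope x₁ x₂ y₁ y₂, ?_, ?_, ?_, ?_⟩
    · by_cases hx : x₁ = x₂
      · have hy : y₁ = y₂ := (Affine.Y_eq_of_X_eq h₁.left h₂.left hx).resolve_right
          (fun hy => hxy ⟨hx, hy⟩)
        rw [hx, hy]; ring
      · rw [Affine.slope_of_X_ne hx, div_mul_cancel₀ _ (sub_ne_zero.mpr hx)]
    · by_cases hx : x₁ = x₂
      · have hy' : y₁ ≠ W.toAffine.negY x₂ y₂ := fun hy => hxy ⟨hx, hy⟩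
        have hy : y₁ = y₂ := (Affine.Y_eq_of_X_eq h₁.left h₂.left hx).resolve_right hy'
        rw [Affine.slope_of_Y_ne hx hy']
        subst hx hy
        have hne : y₁ - W.toAffine.negY x₁ y₁ ≠ 0 := sub_ne_zero.mpr hy'
        rw [div_mul_eq_mul_div, div_eq_iff hne]
        simp only [Affine.negY]
        ring
      · have hx' := sub_ne_zero.mpr hx
        rw [Affine.slope_of_X_ne hx, div_mul_eq_mul_div, div_eq_iff hx']
        linear_combination e₁ - e₂
    · rw [← hx₃, Affine.addX]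
    · rw [← hy₃, ← hx₃]
      simp only [Affine.addY, Affine.negAddY, Affine.negY]

theorem symRel_add {x₁ y₁ x₂ y₂ x₃ y₃ : F} {h₁ : W.toAffine.Nonsingular x₁ y₁}
    {h₂ : W.toAffine.Nonsingular x₂ y₂} {h₃ : W.toAffine.Nonsingular x₃ y₃}
    (h : Affine.Point.some x₁ y₁ h₁ + Affine.Point.some x₂ y₂ h₂ = Affine.Point.some x₃ y₃ h₃) :
    symRel W x₁ x₂ x₃ = 0 := by
  obtain ⟨l, hl₁, hl₂, hx₃, -⟩ := exists_slope h
  have e₁ := (Affine.equation_iff _ _).mp h₁.left
  have e₂ := (Affine.equation_iff _ _).mp h₂.left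
  refine symRel_of_line W (l := l) (m := y₁ - l * x₁) ?_ ?_ ?_
  · rw [hx₃]; ring
  · rw [hx₃]
    linear_combination hl₂ - (W.a₁ + l) * hl₁
  · rw [hx₃]
    linear_combination x₁ * hl₂ - (W.a₁ * x₁ + l * x₁) * hl₁ - e₁

end

end Fermat.Agent.H73
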