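import Mathlib
import Fermat.Agent.H73SymRel

set_option autoImplicit false

/-!
# Elementary local analysis of points of a Weierstrass curve over a valued field

`A` is a valuation subring of a field `K`, `W` is a Weierstrass curve with coefficients in `A`.
* `InE1 A P` : `P = 0` or `x(P) ∉ A` (kernel of reduction), a subgroup.
* `InE0 A x₀ P` : `P = 0` or `x(P) - x₀ ∉ 𝔪_A`, the points with nonsingular reduction when the
  reduction of `W` has a node at `(x₀, y₀)`.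
-/

namespace Fermat.Agent.H73

open WeierstrassCurve

section val

variable {K : Type*} [Field K] {A : ValuationSubring K}

lemma mul_mem_nonunits {a b : K} (ha : a ∈ A) (hb : b ∈ A.nonunits) : a * b ∈ A.nonunits := by
  rw [ValuationSubring.mem_nonunits_iff] at hb ⊢
  rw [map_mul]
  exact lt_of_le_of_lt (mul_le_of_le_one_left' ((A.valuation_le_one_iff a).mpr ha)) hb

lemma one_notMem_nonunits : (1 : K) ∉ A.nonunits := by
  rw [ValuationSubring.mem_nonunits_iff, map_one]; exact lt_irrefl _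

lemma mem_of_mem_nonunits {a : K} (ha : a ∈ A.nonunits) : a ∈ A := A.nonunits_subset ha

lemma inv_mem_nonunits_of_notMem {a : K} (ha : a ∉ A) : a⁻¹ ∈ A.nonunits :=
  A.inv_mem_nonunits_iff.mpr (Or.inr ha)

lemma inv_mem_of_notMem_nonunits {a : K} (ha : a ∉ A.nonunits) : a⁻¹ ∈ A := by
  rw [ValuationSubring.mem_nonunits_iff_or] at ha
  push Not at ha
  exact ha.2

lemma ne_zero_of_notMem_nonunits {a : K} (ha : a ∉ A.nonunits) : a ≠ 0 := by
  rintro rfl; exact ha A.nonunits.zero_mem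

lemma residue_eq_zero_iff (a : A) : IsLocalRing.residue A a = 0 ↔ (a : K) ∈ A.nonunits := by
  rw [IsLocalRing.residue_eq_zero_iff, ValuationSubring.coe_mem_nonunits_iff]

lemma mem_of_quadratic {l a c : K} (ha : a ∈ A) (hc : c ∈ A) (h : l ^ 2 + a * l = c) : l ∈ A := by
  by_contra hl
  have h1 := inv_mem_nonunits_of_notMem hl
  have hl0 : l ≠ 0 := by rintro rfl; exact hl A.zero_mem
  have h2 : (1 : K) = c * (l⁻¹ * l⁻¹) - a * l⁻¹ := by
    field_simp; linear_combination h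
  refine one_notMem_nonunits (A := A) ?_
  rw [h2]
  exact sub_mem (mul_mem_nonunits hc (mul_mem_nonunits (mem_of_mem_nonunits h1) h1))
    (mul_mem_nonunits ha h1)

end val

section rel

variable {K : Type*} [Field K] {A : ValuationSubring K}

/-- The relation `symRel` normalised: `a = α⁻¹`, `b = β⁻¹`. -/
lemma normRel (W₀ : WeierstrassCurve A) {α β c : A} (hα : (α : K) ≠ 0) (hβ : (β : K) ≠ 0)
    (h : symRel (W₀.map (algebraMap A K)) (α : K)⁻¹ (β : K)⁻¹ (c : K) = 0) :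
    1 + c ^ 2 * (α ^ 2 + β ^ 2) - 2 * c * (α + β + c * α * β) - W₀.b₂ * c * α * β
      - W₀.b₄ * (α * β + c * α ^ 2 * β + c * α * β ^ 2)
      - W₀.b₆ * (α * β ^ 2 + α ^ 2 * β + c * α ^ 2 * β ^ 2) - W₀.b₈ * α ^ 2 * β ^ 2 = 0 := by
  apply Subtype.ext
  push_cast
  simp only [symRel, WeierstrassCurve.map_b₂, WeierstrassCurve.map_b₄, WeierstrassCurve.map_b₆,
    WeierstrassCurve.map_b₈, ValuationSubring.algebraMap_apply] at h
  have h2 : ((2 : A) : K) = 2 := rfl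
  rw [h2]
  field_simp at h
  linear_combination h

end rel

lemma symRel_shift {R : Type*} [CommRing R] (W : WeierstrassCurve R) (r t a b c : R) :
    symRel ((⟨1, r, 0, t⟩ : VariableChange R) • W) (a - r) (b - r) (c - r) = symRel W a b c := by
  simp only [symRel, variableChange_b₂, variableChange_b₄, variableChange_b₆, variableChange_b₈,
    inv_one, Units.val_one, one_pow, one_mul]
  ring

section points

variable {K : Type*} [Field K] [DecidableEq K] (A : ValuationSubring K)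

/-- Membership in the kernel of reduction. -/
def InE1 {W : WeierstrassCurve K} : W.toAffine.Point → Prop
  | .zero => True
  | .some x _ _ => x ∉ A

/-- Membership in the group of points with nonsingular reduction, for a curve whose reduction has
its only singular point above `x₀`. -/
def InE0 (x₀ : K) {W : WeierstrassCurve K} : W.toAffine.Point → Prop
  | .zero => True
  | .some x _ _ => x - x₀ ∉ A.nonunits

variable {A}

@[simp] lemma inE1_zero {W : WeierstrassCurve K} : InE1 A (0 : W.toAffine.Point) := trivial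

@[simp] lemma inE1_some {W : WeierstrassCurve K} {x y : K} (h : W.toAffine.Nonsingular x y) :
    InE1 A (Affine.Point.some x y h) ↔ x ∉ A := Iff.rfl

@[simp] lemma inE0_zero {W : WeierstrassCurve K} {x₀ : K} :
    InE0 A x₀ (0 : W.toAffine.Point) := trivial

@[simp] lemma inE0_some {W : WeierstrassCurve K} {x₀ x y : K} (h : W.toAffine.Nonsingular x y) :
    InE0 A x₀ (Affine.Point.some x y h) ↔ x - x₀ ∉ A.nonunits := Iff.rfl

variable {W : WeierstrassCurve K}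

lemma InE1.neg {P : W.toAffine.Point} (hP : InE1 A P) : InE1 A (-P) := by
  cases P with
  | zero => exact hP
  | some x y h => exact hP

lemma InE0.neg {x₀ : K} {P : W.toAffine.Point} (hP : InE0 A x₀ P) : InE0 A x₀ (-P) := by
  cases P with
  | zero => exact hP
  | some x y h => exact hP

lemma InE1.inE0 {x₀ : K} (hx₀ : x₀ ∈ A) {P : W.toAffine.Point} (hP : InE1 A P) : InE0 A x₀ P := by
  cases P with
  | zero => trivial
  | some x y h =>
    intro hx
    apply hP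
    have := add_mem (mem_of_mem_nonunits hx) hx₀
    simpa using this

lemma InE1.add (hW : ∃ W₀ : WeierstrassCurve A, W₀.map (algebraMap A K) = W)
    {P Q : W.toAffine.Point} (hP : InE1 A P) (hQ : InE1 A Q) : InE1 A (P + Q) := by
  obtain ⟨W₀, rfl⟩ := hW
  cases P with
  | zero => rw [← Affine.Point.zero_def, zero_add]; exact hQ
  | some x₁ y₁ h₁ =>
    cases Q with
    | zero => rw [← Affine.Point.zero_def, add_zero]; exact hP
    | some x₂ y₂ h₂ =>
      rcases hR : Affine.Point.some x₁ y₁ h₁ + Affine.Point.some x₂ y₂ h₂ with _ | ⟨x₃, y₃, h₃⟩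
      · trivial
      · intro hx₃
        have hrel := symRel_add hR
        have hx₁ : x₁ ∉ A := hP
        have hx₂ : x₂ ∉ A := hQ
        have hα := inv_mem_nonunits_of_notMem hx₁
        have hβ := inv_mem_nonunits_of_notMem hx₂
        have hx₁0 : x₁ ≠ 0 := by rintro rfl; exact hx₁ A.zero_mem
        have hx₂0 : x₂ ≠ 0 := by rintro rfl; exact hx₂ A.zero_mem
        have hn := normRel W₀ (α := ⟨x₁⁻¹, mem_of_mem_nonunits hα⟩)
          (β := ⟨x₂⁻¹, mem_of_mem_nonunits hβ⟩) (c := ⟨x₃, hx₃⟩) (inv_ne_zero hx₁0)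
          (inv_ne_zero hx₂0) (by simpa using hrel)
        have hα' : IsLocalRing.residue A ⟨x₁⁻¹, mem_of_mem_nonunits hα⟩ = 0 :=
          (residue_eq_zero_iff _).mpr hα
        have hβ' : IsLocalRing.residue A ⟨x₂⁻¹, mem_of_mem_nonunits hβ⟩ = 0 :=
          (residue_eq_zero_iff _).mpr hβ
        have := congrArg (IsLocalRing.residue A) hn
        simp only [map_add, map_sub, map_mul, map_pow, map_one, map_zero, hα', hβ'] at this
        simp at this

/-- Nodal data: the reduction of `W` has a node at the reduction of the integral `2`-torsion point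
`(x₀, y₀)`. -/
structure Nodal (A : ValuationSubring K) (W : WeierstrassCurve K) (x₀ y₀ : K) : Prop where
  int : ∃ W₀ : WeierstrassCurve A, W₀.map (algebraMap A K) = W
  x_mem : x₀ ∈ A
  y_mem : y₀ ∈ A
  eqn : W.toAffine.Equation x₀ y₀
  two : 2 * y₀ + W.a₁ * x₀ + W.a₃ = 0
  a₄_ne : 3 * x₀ ^ 2 + 2 * W.a₂ * x₀ + W.a₄ - W.a₁ * y₀ ≠ 0
  a₄_mem : 3 * x₀ ^ 2 + 2 * W.a₂ * x₀ + W.a₄ - W.a₁ * y₀ ∈ A.nonunits
  b₂_unit : W.b₂ + 12 * x₀ ∉ A.nonunits

/-- The crucial quantity `a₄'` of the shifted curve. -/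
def nodA4 (W : WeierstrassCurve K) (x₀ y₀ : K) : K :=
  3 * x₀ ^ 2 + 2 * W.a₂ * x₀ + W.a₄ - W.a₁ * y₀

lemma Nodal.exists_shift {x₀ y₀ : K} (hN : Nodal A W x₀ y₀) :
    ∃ W₁ : WeierstrassCurve A,
      (∀ a b c : K, symRel (W₁.map (algebraMap A K)) (a - x₀) (b - x₀) (c - x₀) =
        symRel W a b c) ∧
      W₁.a₃ = 0 ∧ W₁.a₆ = 0 ∧ (W₁.a₄ : K) = nodA4 W x₀ y₀ ∧ (W₁.a₁ : K) = W.a₁ ∧
      (W₁.a₂ : K) = W.a₂ + 3 * x₀ := by
  obtain ⟨⟨W₀, rfl⟩, hx₀, hy₀, heqn, htwo, -, -, -⟩ := hN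
  have e := (Affine.equation_iff _ _).mp heqn
  refine ⟨⟨W₀.a₁, W₀.a₂ + 3 * ⟨x₀, hx₀⟩, 0, 3 * ⟨x₀, hx₀⟩ ^ 2 + 2 * W₀.a₂ * ⟨x₀, hx₀⟩ + W₀.a₄
    - W₀.a₁ * ⟨y₀, hy₀⟩, 0⟩, ?_, rfl, rfl, rfl, rfl, rfl⟩
  intro a b c
  rw [← symRel_shift (W₀.map (algebraMap A K)) x₀ y₀ a b c]
  congr 1
  ext
  · simp [variableChange_a₁]
  · simp only [variableChange_a₂, inv_one, Units.val_one, one_pow, one_mul,
      WeierstrassCurve.map_a₂, map_add, map_mul, ValuationSubring.algebraMap_apply, map_ofNat]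
    ring
  · simp only [variableChange_a₃, inv_one, Units.val_one, one_pow, one_mul,
      WeierstrassCurve.map_a₁, WeierstrassCurve.map_a₃, map_zero] at htwo ⊢
    linear_combination -htwo
  · simp only [variableChange_a₄, inv_one, Units.val_one, one_pow, one_mul,
      WeierstrassCurve.map_a₁, WeierstrassCurve.map_a₂, WeierstrassCurve.map_a₃,
      WeierstrassCurve.map_a₄, map_add, map_sub, map_mul, map_pow,
      ValuationSubring.algebraMap_apply, map_ofNat]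
    ring
  · simp only [variableChange_a₆, inv_one, Units.val_one, one_pow, one_mul,
      WeierstrassCurve.map_a₁, WeierstrassCurve.map_a₂, WeierstrassCurve.map_a₃,
      WeierstrassCurve.map_a₄, WeierstrassCurve.map_a₆, map_zero] at e ⊢
    linear_combination e

lemma InE0.add {x₀ y₀ : K} (hN : Nodal A W x₀ y₀)
    {P Q : W.toAffine.Point} (hP : InE0 A x₀ P) (hQ : InE0 A x₀ Q) : InE0 A x₀ (P + Q) := by
  obtain ⟨W₁, hsym, ha₃, ha₆, ha₄, -, -⟩ := hN.exists_shift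
  cases P with
  | zero => rw [← Affine.Point.zero_def, zero_add]; exact hQ
  | some x₁ y₁ h₁ =>
    cases Q with
    | zero => rw [← Affine.Point.zero_def, add_zero]; exact hP
    | some x₂ y₂ h₂ =>
      rcases hR : Affine.Point.some x₁ y₁ h₁ + Affine.Point.some x₂ y₂ h₂ with _ | ⟨x₃, y₃, h₃⟩
      · trivial
      · intro hx₃
        have hrel := symRel_add hR
        rw [← hsym] at hrel
        have hx₁ : x₁ - x₀ ∉ A.nonunits := hP
        have hx₂ : x₂ - x₀ ∉ A.nonunits := hQ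
        have hα := inv_mem_of_notMem_nonunits hx₁
        have hβ := inv_mem_of_notMem_nonunits hx₂
        have hn := normRel W₁ (α := ⟨(x₁ - x₀)⁻¹, hα⟩)
          (β := ⟨(x₂ - x₀)⁻¹, hβ⟩) (c := ⟨x₃ - x₀, mem_of_mem_nonunits hx₃⟩)
          (inv_ne_zero (ne_zero_of_notMem_nonunits hx₁))
          (inv_ne_zero (ne_zero_of_notMem_nonunits hx₂)) (by simpa using hrel)
        have hc : IsLocalRing.residue A ⟨x₃ - x₀, mem_of_mem_nonunits hx₃⟩ = 0 :=
          (residue_eq_zero_iff _).mpr hx₃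
        have h4 : IsLocalRing.residue A W₁.a₄ = 0 := by
          rw [residue_eq_zero_iff, ha₄]; exact hN.a₄_mem
        have := congrArg (IsLocalRing.residue A) hn
        simp only [WeierstrassCurve.b₂, WeierstrassCurve.b₄, WeierstrassCurve.b₆,
          WeierstrassCurve.b₈, ha₃, ha₆, map_add, map_sub, map_mul, map_pow, map_one, map_zero,
          hc, h4] at this
        simp at this

/-- If `x(P) - x₀` and `x(Q) - x₀` are both divisible by `a₄'` then `P + Q ∈ E₀`. -/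
lemma inE0_add_of_middle {x₀ y₀ : K} (hN : Nodal A W x₀ y₀)
    {x₁ y₁ x₂ y₂ : K} (h₁ : W.toAffine.Nonsingular x₁ y₁) (h₂ : W.toAffine.Nonsingular x₂ y₂)
    (hx₁ : ∃ a ∈ A, x₁ - x₀ = nodA4 W x₀ y₀ * a) (hx₂ : ∃ a ∈ A, x₂ - x₀ = nodA4 W x₀ y₀ * a) :
    InE0 A x₀ (Affine.Point.some x₁ y₁ h₁ + Affine.Point.some x₂ y₂ h₂) := by
  obtain ⟨W₁, hsym, ha₃, ha₆, ha₄, -, -⟩ := hN.exists_shift
  obtain ⟨a, ha, hxa⟩ := hx₁
  obtain ⟨b, hb, hxb⟩ := hx₂
  rcases hR : Affine.Point.some x₁ y₁ h₁ + Affine.Point.some x₂ y₂ h₂ with _ | ⟨x₃, y₃, h₃⟩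
  · trivial
  · intro hx₃
    have hrel := symRel_add hR
    rw [← hsym, hxa, hxb, ← ha₄] at hrel
    have h40 : (W₁.a₄ : K) ≠ 0 := by rw [ha₄]; exact hN.a₄_ne
    set c : A := ⟨x₃ - x₀, mem_of_mem_nonunits hx₃⟩ with hcdef
    set a' : A := ⟨a, ha⟩ with ha'
    set b' : A := ⟨b, hb⟩ with hb'
    have hc : IsLocalRing.residue A c = 0 := (residue_eq_zero_iff _).mpr hx₃
    have h4 : IsLocalRing.residue A W₁.a₄ = 0 := by
      rw [residue_eq_zero_iff, ha₄]; exact hN.a₄_mem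
    have hn : W₁.a₄ ^ 2 * a' ^ 2 * b' ^ 2 + b' ^ 2 * c ^ 2 + a' ^ 2 * c ^ 2
        - 2 * a' * b' * c * (W₁.a₄ * a' + W₁.a₄ * b' + c) - W₁.b₂ * a' * b' * c
        - 2 * (W₁.a₄ * a' * b' + (a' + b') * c) + 1 = 0 := by
      apply Subtype.ext
      apply mul_left_cancel₀ (pow_ne_zero 2 h40)
      have h2 : ((2 : A) : K) = 2 := rfl
      have e6 : W₁.b₆ = 0 := by simp [WeierstrassCurve.b₆, ha₃, ha₆]
      have e4 : W₁.b₄ = 2 * W₁.a₄ := by simp [WeierstrassCurve.b₄, ha₃]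
      have e8 : W₁.b₈ = - W₁.a₄ ^ 2 := by simp [WeierstrassCurve.b₈, ha₃, ha₆]
      simp only [symRel, WeierstrassCurve.map_b₂, WeierstrassCurve.map_b₄, WeierstrassCurve.map_b₆,
        WeierstrassCurve.map_b₈, ValuationSubring.algebraMap_apply, e6, e4, e8] at hrel
      push_cast at hrel ⊢
      rw [h2] at hrel ⊢
      simp only [hcdef, ha', hb']
      linear_combination hrel
    have := congrArg (IsLocalRing.residue A) hn
    simp only [map_add, map_sub, map_mul, map_pow, map_one, map_zero, hc, h4] at this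
    simp at this

/-- Two points `P = (x₁,y₁)`, `Q = (x₂,y₂)` (not in `E₀`, not in the middle component) whose
tangent directions `t₁ ≡ t₂` and with `(x₂-x₀)/(x₁-x₀)` a unit satisfy `P - Q ∈ E₀`. -/
lemma inE0_sub_of_direction {x₀ y₀ : K} (hN : Nodal A W x₀ y₀)
    {x₁ y₁ x₂ y₂ : K} (h₁ : W.toAffine.Nonsingular x₁ y₁) (h₂ : W.toAffine.Nonsingular x₂ y₂)
    (hx₁ : x₁ - x₀ ∈ A.nonunits) (hx₁0 : x₁ - x₀ ≠ 0)
    (hm : nodA4 W x₀ y₀ / (x₁ - x₀) ∈ A.nonunits)
    {u t₁ t₂ : K} (hu0 : u ≠ 0) (hu : u ∈ A) (hu' : u⁻¹ ∈ A) (hux : x₂ - x₀ = u * (x₁ - x₀))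
    (ht₁ : y₁ - y₀ = t₁ * (x₁ - x₀)) (ht₂ : y₂ - y₀ = t₂ * (x₂ - x₀))
    (ht : t₁ - t₂ ∈ A.nonunits) :
    InE0 A x₀ (Affine.Point.some x₁ y₁ h₁ - Affine.Point.some x₂ y₂ h₂) := by
  obtain ⟨W₁, hsym, ha₃, ha₆, ha₄, ha₁, ha₂⟩ := hN.exists_shift
  rw [sub_eq_add_neg, Affine.Point.neg_some]
  rcases hR : Affine.Point.some x₁ y₁ h₁ + Affine.Point.some x₂ (W.toAffine.negY x₂ y₂)
    ((Affine.nonsingular_neg ..).mpr h₂) with _ | ⟨x₃, y₃, h₃⟩
  · trivial
  · intro hx₃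
    obtain ⟨l, hl₁, -, hlx, -⟩ := exists_slope hR
    have e₀ := (Affine.equation_iff _ _).mp hN.eqn
    have e₁ := (Affine.equation_iff _ _).mp h₁.left
    have htwo := hN.two
    simp only [Affine.negY] at hl₁
    -- the equation at `P` in terms of `t₁`
    set z := x₁ - x₀ with hz
    have hx₁' : x₁ = x₀ + z := by rw [hz]; ring
    have hy₁' : y₁ = y₀ + t₁ * z := by linear_combination ht₁
    have hx₂' : x₂ = x₀ + u * z := by linear_combination hux
    have hy₂' : y₂ = y₀ + t₂ * (u * z) := by rw [hux] at ht₂; linear_combination ht₂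
    have hzA : z ∈ A := mem_of_mem_nonunits hx₁
    have hmA := mem_of_mem_nonunits hm
    have hquad : t₁ ^ 2 + W.a₁ * t₁ = z + (W.a₂ + 3 * x₀) + nodA4 W x₀ y₀ / z := by
      field_simp
      rw [hx₁', hy₁'] at e₁
      have hzz : z * (z * (t₁ * (t₁ + W.a₁))) =
          z * (z * (z + (W.a₂ + 3 * x₀)) + nodA4 W x₀ y₀) := by
        simp only [nodA4]
        linear_combination e₁ - e₀ - (t₁ * z) * htwo
      exact mul_left_cancel₀ hx₁0 (by linear_combination hzz)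
    have hw : (W.a₂ + 3 * x₀) ∈ A := ha₂ ▸ W₁.a₂.2
    have hw₁ : W.a₁ ∈ A := ha₁ ▸ W₁.a₁.2
    have ht₁A : t₁ ∈ A := mem_of_quadratic hw₁ (add_mem (add_mem hzA hw) hmA) hquad
    have ht₂A : t₂ ∈ A := by
      have := sub_mem ht₁A (mem_of_mem_nonunits ht)
      simpa using this
    have hlq : l ^ 2 + W.a₁ * l = (x₃ - x₀) + (W.a₂ + 3 * x₀) + z + u * z := by
      rw [hlx, hx₁', hx₂']; ring
    have hlA : l ∈ A := by
      refine mem_of_quadratic hw₁ ?_ hlq
      exact add_mem (add_mem (add_mem (mem_of_mem_nonunits hx₃) hw) hzA) (mul_mem hu hzA)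
    have hlin : l * (1 - u) = t₁ + (t₂ + W.a₁) * u := by
      apply mul_left_cancel₀ hx₁0
      rw [hx₁', hx₂', hy₁', hy₂'] at hl₁
      linear_combination hl₁ + htwo
    -- pass to the residue field
    have q₁ : (⟨t₁, ht₁A⟩ : A) ^ 2 + W₁.a₁ * ⟨t₁, ht₁A⟩ = ⟨z, hzA⟩ + W₁.a₂ +
        ⟨nodA4 W x₀ y₀ / z, hmA⟩ := by
      apply Subtype.ext; push_cast; rw [ha₁, ha₂]; exact hquad
    have q₂ : (⟨l, hlA⟩ : A) ^ 2 + W₁.a₁ * ⟨l, hlA⟩ = ⟨x₃ - x₀, mem_of_mem_nonunits hx₃⟩ + W₁.a₂ +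
        ⟨z, hzA⟩ + ⟨u, hu⟩ * ⟨z, hzA⟩ := by
      apply Subtype.ext; push_cast; rw [ha₁, ha₂]; exact hlq
    have q₃ : (⟨l, hlA⟩ : A) * (1 - ⟨u, hu⟩) = ⟨t₁, ht₁A⟩ + (⟨t₂, ht₂A⟩ + W₁.a₁) * ⟨u, hu⟩ := by
      apply Subtype.ext; push_cast; rw [ha₁]; exact hlin
    have r₁ := congrArg (IsLocalRing.residue A) q₁
    have r₂ := congrArg (IsLocalRing.residue A) q₂
    have r₃ := congrArg (IsLocalRing.residue A) q₃
    have z₁ : IsLocalRing.residue A ⟨z, hzA⟩ = 0 := (residue_eq_zero_iff _).mpr hx₁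
    have z₂ : IsLocalRing.residue A ⟨nodA4 W x₀ y₀ / z, hmA⟩ = 0 := (residue_eq_zero_iff _).mpr hm
    have z₃ : IsLocalRing.residue A ⟨x₃ - x₀, mem_of_mem_nonunits hx₃⟩ = 0 :=
      (residue_eq_zero_iff _).mpr hx₃
    have z₄ : IsLocalRing.residue A ⟨t₂, ht₂A⟩ = IsLocalRing.residue A ⟨t₁, ht₁A⟩ := by
      rw [eq_comm, ← sub_eq_zero, ← map_sub, residue_eq_zero_iff]; exact ht
    have z₅ : IsLocalRing.residue A ⟨u, hu⟩ ≠ 0 := by
      rw [Ne, residue_eq_zero_iff]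
      intro h
      exact one_notMem_nonunits (A := A) (by
        have := mul_mem_nonunits hu' h
        rwa [inv_mul_cancel₀ hu0] at this)
    have hb : IsLocalRing.residue A (W₁.a₁ ^ 2 + 4 * W₁.a₂) ≠ 0 := by
      rw [Ne, residue_eq_zero_iff]
      intro h
      apply hN.b₂_unit
      convert h using 1
      push_cast
      have h4 : ((4 : A) : K) = 4 := rfl
      rw [ha₁, ha₂, h4, WeierstrassCurve.b₂]
      ring
    simp only [map_add, map_sub, map_mul, map_pow, map_one, z₁, z₂, z₃, z₄, mul_zero, zero_add,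
      add_zero, map_ofNat] at r₁ r₂ r₃ hb
    set lb := IsLocalRing.residue A ⟨l, hlA⟩
    set tb := IsLocalRing.residue A ⟨t₁, ht₁A⟩
    set ub := IsLocalRing.residue A ⟨u, hu⟩
    set ab := IsLocalRing.residue A W₁.a₁
    set bb := IsLocalRing.residue A W₁.a₂
    have hprod : (lb - tb) * (lb + tb + ab) = 0 := by linear_combination r₂ - r₁
    have hfin : 2 * tb + ab = 0 := by
      rcases mul_eq_zero.mp hprod with h | h
      · have : (2 * tb + ab) * ub = 0 := by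
          linear_combination (1 - ub) * h - r₃
        exact (mul_eq_zero.mp this).resolve_right z₅
      · linear_combination (1 - ub) * h - r₃
    apply hb
    linear_combination (-4) * r₁ + (2 * tb + ab) * hfin

/-- If `P = (x₁,y₁)` and `Q = (x₂,y₂)` are integral points with the same reduction and
`P - Q` is not in the kernel of reduction then the reduction of `P` is singular. -/
lemma singular_of_sub_notInE1 (hW : ∃ W₀ : WeierstrassCurve A, W₀.map (algebraMap A K) = W)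
    {x₁ y₁ x₂ y₂ : K} (h₁ : W.toAffine.Nonsingular x₁ y₁) (h₂ : W.toAffine.Nonsingular x₂ y₂)
    (hx₁ : x₁ ∈ A) (hy₁ : y₁ ∈ A) (hxx : x₂ - x₁ ∈ A.nonunits) (hyy : y₂ - y₁ ∈ A.nonunits)
    (hPQ : ¬ InE1 A (Affine.Point.some x₁ y₁ h₁ - Affine.Point.some x₂ y₂ h₂)) :
    2 * y₁ + W.a₁ * x₁ + W.a₃ ∈ A.nonunits ∧
      3 * x₁ ^ 2 + 2 * W.a₂ * x₁ + W.a₄ - W.a₁ * y₁ ∈ A.nonunits := by
  obtain ⟨W₀, rfl⟩ := hW
  rw [sub_eq_add_neg, Affine.Point.neg_some] at hPQ
  rcases hR : Affine.Point.some x₁ y₁ h₁ + Affine.Point.some x₂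
    ((W₀.map (algebraMap A K)).toAffine.negY x₂ y₂)
    ((Affine.nonsingular_neg ..).mpr h₂) with _ | ⟨x₃, y₃, h₃⟩
  · rw [hR] at hPQ; exact absurd trivial hPQ
  · rw [hR, inE1_some, not_not] at hPQ
    obtain ⟨l, hl₁, hl₂, hlx, -⟩ := exists_slope hR
    simp only [Affine.negY, WeierstrassCurve.map_a₁, WeierstrassCurve.map_a₂,
      WeierstrassCurve.map_a₃, WeierstrassCurve.map_a₄, ValuationSubring.algebraMap_apply]
      at hl₁ hl₂ hlx ⊢
    have hx₂ : x₂ ∈ A := by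
      have := add_mem (mem_of_mem_nonunits hxx) hx₁
      simpa using this
    have hy₂ : y₂ ∈ A := by
      have := add_mem (mem_of_mem_nonunits hyy) hy₁
      simpa using this
    have hlA : l ∈ A := by
      refine mem_of_quadratic (a := (W₀.a₁ : K)) (c := x₃ + W₀.a₂ + x₁ + x₂) W₀.a₁.2 ?_
        (by rw [hlx]; ring)
      exact add_mem (add_mem (add_mem hPQ W₀.a₂.2) hx₁) hx₂
    have q₁ : (⟨l, hlA⟩ : A) * (⟨x₁, hx₁⟩ - ⟨x₂, hx₂⟩) =
        ⟨y₁, hy₁⟩ + ⟨y₂, hy₂⟩ + W₀.a₁ * ⟨x₂, hx₂⟩ + W₀.a₃ := by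
      apply Subtype.ext; push_cast; linear_combination hl₁
    have q₂ : (⟨l, hlA⟩ : A) * (⟨y₁, hy₁⟩ - ⟨y₂, hy₂⟩ + W₀.a₁ * (⟨x₁, hx₁⟩ - ⟨x₂, hx₂⟩)) =
        ⟨x₁, hx₁⟩ ^ 2 + ⟨x₁, hx₁⟩ * ⟨x₂, hx₂⟩ + ⟨x₂, hx₂⟩ ^ 2 + W₀.a₂ * (⟨x₁, hx₁⟩ + ⟨x₂, hx₂⟩)
          + W₀.a₄ + W₀.a₁ * (⟨y₂, hy₂⟩ + W₀.a₁ * ⟨x₂, hx₂⟩ + W₀.a₃) := by
      apply Subtype.ext; push_cast; linear_combination hl₂
    have r₁ := congrArg (IsLocalRing.residue A) q₁
    have r₂ := congrArg (IsLocalRing.residue A) q₂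
    have zx : IsLocalRing.residue A ⟨x₂, hx₂⟩ = IsLocalRing.residue A ⟨x₁, hx₁⟩ := by
      rw [← sub_eq_zero, ← map_sub, residue_eq_zero_iff]; exact hxx
    have zy : IsLocalRing.residue A ⟨y₂, hy₂⟩ = IsLocalRing.residue A ⟨y₁, hy₁⟩ := by
      rw [← sub_eq_zero, ← map_sub, residue_eq_zero_iff]; exact hyy
    simp only [map_add, map_sub, map_mul, map_pow, zx, zy, sub_self, mul_zero, add_zero] at r₁ r₂
    have s₁ : IsLocalRing.residue A (2 * ⟨y₁, hy₁⟩ + W₀.a₁ * ⟨x₁, hx₁⟩ + W₀.a₃) = 0 := by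
      simp only [map_add, map_mul, map_ofNat]
      linear_combination -r₁
    have s₂ : IsLocalRing.residue A (3 * ⟨x₁, hx₁⟩ ^ 2 + 2 * W₀.a₂ * ⟨x₁, hx₁⟩ + W₀.a₄
        - W₀.a₁ * ⟨y₁, hy₁⟩) = 0 := by
      simp only [map_add, map_sub, map_mul, map_pow, map_ofNat]
      linear_combination -r₂ + (IsLocalRing.residue A W₀.a₁) * r₁
    rw [residue_eq_zero_iff] at s₁ s₂
    exact ⟨s₁, s₂⟩

lemma y_mem_of_x_mem (hW : ∃ W₀ : WeierstrassCurve A, W₀.map (algebraMap A K) = W)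
    {x y : K} (h : W.toAffine.Equation x y) (hx : x ∈ A) : y ∈ A := by
  obtain ⟨W₀, rfl⟩ := hW
  have e := (Affine.equation_iff _ _).mp h
  simp only [WeierstrassCurve.map_a₁, WeierstrassCurve.map_a₂, WeierstrassCurve.map_a₃,
    WeierstrassCurve.map_a₄, WeierstrassCurve.map_a₆, ValuationSubring.algebraMap_apply] at e
  refine mem_of_quadratic (a := (W₀.a₁ : K) * x + W₀.a₃)
    (c := x ^ 3 + W₀.a₂ * x ^ 2 + W₀.a₄ * x + W₀.a₆) ?_ ?_ (by linear_combination e)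
  · exact add_mem (mul_mem W₀.a₁.2 hx) W₀.a₃.2
  · exact add_mem (add_mem (add_mem (pow_mem hx 3) (mul_mem W₀.a₂.2 (pow_mem hx 2)))
      (mul_mem W₀.a₄.2 hx)) W₀.a₆.2

lemma direction_quad {x₀ y₀ : K} (hN : Nodal A W x₀ y₀)
    {x₁ y₁ t₁ : K} (h₁ : W.toAffine.Equation x₁ y₁) (hx₁0 : x₁ - x₀ ≠ 0)
    (ht₁ : y₁ - y₀ = t₁ * (x₁ - x₀)) :
    t₁ ^ 2 + W.a₁ * t₁ = (x₁ - x₀) + (W.a₂ + 3 * x₀) + nodA4 W x₀ y₀ / (x₁ - x₀) := by
  have e₀ := (Affine.equation_iff _ _).mp hN.eqn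
  have e₁ := (Affine.equation_iff _ _).mp h₁
  have htwo := hN.two
  set z := x₁ - x₀ with hz
  have hx₁' : x₁ = x₀ + z := by rw [hz]; ring
  have hy₁' : y₁ = y₀ + t₁ * z := by linear_combination ht₁
  field_simp
  rw [hx₁', hy₁'] at e₁
  have hzz : z * (z * (t₁ * (t₁ + W.a₁))) =
      z * (z * (z + (W.a₂ + 3 * x₀)) + nodA4 W x₀ y₀) := by
    simp only [nodA4]
    linear_combination e₁ - e₀ - (t₁ * z) * htwo
  exact mul_left_cancel₀ hx₁0 (by linear_combination hzz)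

lemma direction_mem {x₀ y₀ : K} (hN : Nodal A W x₀ y₀)
    {x₁ y₁ t₁ : K} (h₁ : W.toAffine.Equation x₁ y₁) (hx₁0 : x₁ - x₀ ≠ 0)
    (ht₁ : y₁ - y₀ = t₁ * (x₁ - x₀)) (hz : x₁ - x₀ ∈ A) (hm : nodA4 W x₀ y₀ / (x₁ - x₀) ∈ A) :
    t₁ ∈ A := by
  obtain ⟨W₁, hsym, ha₃, ha₆, ha₄, ha₁, ha₂⟩ := hN.exists_shift
  have hw : (W.a₂ + 3 * x₀) ∈ A := ha₂ ▸ W₁.a₂.2
  have hw₁ : W.a₁ ∈ A := ha₁ ▸ W₁.a₁.2
  exact mem_of_quadratic hw₁ (add_mem (add_mem hz hw) hm) (direction_quad hN h₁ hx₁0 ht₁)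

/-- In the nodal case a point of `E₀` has nonsingular reduction. -/
lemma Nodal.nonsingular_of_inE0 {x₀ y₀ : K} (hN : Nodal A W x₀ y₀) {x y : K}
    (h : W.toAffine.Equation x y) (hx : x ∈ A) (hy : y ∈ A)
    (h1 : 2 * y + W.a₁ * x + W.a₃ ∈ A.nonunits)
    (h2 : 3 * x ^ 2 + 2 * W.a₂ * x + W.a₄ - W.a₁ * y ∈ A.nonunits) : x - x₀ ∈ A.nonunits := by
  obtain ⟨W₁, hsym, ha₃, ha₆, ha₄, ha₁, ha₂⟩ := hN.exists_shift
  have e₀ := (Affine.equation_iff _ _).mp hN.eqn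
  have e₁ := (Affine.equation_iff _ _).mp h
  have htwo := hN.two
  have hz : x - x₀ ∈ A := sub_mem hx hN.x_mem
  have hw : y - y₀ ∈ A := sub_mem hy hN.y_mem
  set z : A := ⟨x - x₀, hz⟩ with hzdef
  set w : A := ⟨y - y₀, hw⟩ with hwdef
  have q₁ : w ^ 2 + W₁.a₁ * z * w = z ^ 3 + W₁.a₂ * z ^ 2 + W₁.a₄ * z := by
    apply Subtype.ext; push_cast; rw [ha₁, ha₂, ha₄]
    simp only [hzdef, hwdef, nodA4]
    linear_combination e₁ - e₀ - (y - y₀) * htwo
  have r₁ := congrArg (IsLocalRing.residue A) q₁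
  have r₂ : IsLocalRing.residue A (2 * w + W₁.a₁ * z) = 0 := by
    rw [residue_eq_zero_iff]
    convert h1 using 1
    push_cast; rw [ha₁]
    have h2 : ((2 : A) : K) = 2 := rfl
    rw [h2]
    simp only [hzdef, hwdef]
    linear_combination -htwo
  have r₃ : IsLocalRing.residue A (3 * z ^ 2 + 2 * W₁.a₂ * z + W₁.a₄ - W₁.a₁ * w) = 0 := by
    rw [residue_eq_zero_iff]
    convert h2 using 1
    push_cast; rw [ha₁, ha₂, ha₄]
    have h2 : ((2 : A) : K) = 2 := rfl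
    have h3 : ((3 : A) : K) = 3 := rfl
    rw [h2, h3]
    simp only [hzdef, hwdef, nodA4]
    ring
  have r₄ : IsLocalRing.residue A W₁.a₄ = 0 := by
    rw [residue_eq_zero_iff, ha₄]; exact hN.a₄_mem
  simp only [map_add, map_sub, map_mul, map_pow, map_ofNat, r₄, zero_mul, add_zero] at r₁ r₂ r₃
  have hz3 : (IsLocalRing.residue A z) ^ 3 = 0 := by
    linear_combination 2 * r₁ - (IsLocalRing.residue A w) * r₂ + (IsLocalRing.residue A z) * r₃
  have := pow_eq_zero_iff (n := 3) (by norm_num) |>.mp hz3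
  rwa [residue_eq_zero_iff] at this

end points

section inertial

variable {K : Type*} [Field K] [DecidableEq K] {A : ValuationSubring K}

/-- A ring endomorphism which acts like an element of the inertia group of `A`. -/
structure IsInertial (A : ValuationSubring K) (σ : K →+* K) : Prop where
  div_mem : ∀ z, σ z / z ∈ A
  sub_mem : ∀ a ∈ A, σ a - a ∈ A.nonunits

variable {σ : K →+* K}

lemma IsInertial.div_mem' (hσ : IsInertial A σ) (z : K) : z / σ z ∈ A := by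
  have := hσ.div_mem z⁻¹
  rw [map_inv₀] at this
  rcases eq_or_ne z 0 with rfl | hz
  · simp
  · have hz' : σ z ≠ 0 := by simpa using hz
    convert this using 1
    field_simp

lemma IsInertial.map_mem (hσ : IsInertial A σ) {a : K} (ha : a ∈ A) : σ a ∈ A := by
  have := add_mem (mem_of_mem_nonunits (hσ.sub_mem a ha)) ha
  simpa using this

lemma IsInertial.map_nonunits_iff (hσ : IsInertial A σ) {a : K} :
    σ a ∈ A.nonunits ↔ a ∈ A.nonunits := by
  rcases eq_or_ne a 0 with rfl | ha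
  · simp
  have ha' : σ a ≠ 0 := by simpa using ha
  constructor
  · intro h
    have := mul_mem_nonunits (hσ.div_mem' a) h
    rwa [div_mul_cancel₀ _ ha'] at this
  · intro h
    have := mul_mem_nonunits (hσ.div_mem a) h
    rwa [div_mul_cancel₀ _ ha] at this

lemma IsInertial.map_mem_iff (hσ : IsInertial A σ) {a : K} :
    σ a ∈ A ↔ a ∈ A := by
  rcases eq_or_ne a 0 with rfl | ha
  · simp
  have ha' : σ a ≠ 0 := by simpa using ha
  constructor
  · intro h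
    have := mul_mem (hσ.div_mem' a) h
    rwa [div_mul_cancel₀ _ ha'] at this
  · exact hσ.map_mem

variable {W : WeierstrassCurve K}

lemma InE1.sub (hW : ∃ W₀ : WeierstrassCurve A, W₀.map (algebraMap A K) = W)
    {P Q : W.toAffine.Point} (hP : InE1 A P) (hQ : InE1 A Q) : InE1 A (P - Q) := by
  rw [sub_eq_add_neg]; exact hP.add hW hQ.neg

lemma InE0.sub {x₀ y₀ : K} (hN : Nodal A W x₀ y₀)
    {P Q : W.toAffine.Point} (hP : InE0 A x₀ P) (hQ : InE0 A x₀ Q) : InE0 A x₀ (P - Q) := by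
  rw [sub_eq_add_neg]; exact hP.add hN hQ.neg

/-- (L1), nodal case -/
theorem Nodal.sub_inE1 {x₀ y₀ : K} (hN : Nodal A W x₀ y₀) (hσ : IsInertial A σ)
    {x y : K} (h : W.toAffine.Nonsingular x y) (h' : W.toAffine.Nonsingular (σ x) (σ y))
    (hP : InE0 A x₀ (Affine.Point.some x y h)) :
    InE1 A (Affine.Point.some x y h - Affine.Point.some (σ x) (σ y) h') := by
  by_cases hx : x ∈ A
  · have hy := y_mem_of_x_mem hN.int h.left hx
    by_contra hcon
    obtain ⟨h1, h2⟩ := singular_of_sub_notInE1 hN.int h h' hx hy (hσ.sub_mem x hx)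
      (hσ.sub_mem y hy) hcon
    exact hP (hN.nonsingular_of_inE0 h.left hx hy h1 h2)
  · refine InE1.sub hN.int hx ?_
    rw [inE1_some, hσ.map_mem_iff]
    exact hx

/-- (L1), good reduction -/
theorem good_sub_inE1 (hW : ∃ W₀ : WeierstrassCurve A, W₀.map (algebraMap A K) = W)
    (hΔ : W.Δ ∉ A.nonunits) (hσ : IsInertial A σ)
    {x y : K} (h : W.toAffine.Nonsingular x y) (h' : W.toAffine.Nonsingular (σ x) (σ y)) :
    InE1 A (Affine.Point.some x y h - Affine.Point.some (σ x) (σ y) h') := by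
  by_cases hx : x ∈ A
  · have hy := y_mem_of_x_mem hW h.left hx
    by_contra hcon
    obtain ⟨h1, h2⟩ := singular_of_sub_notInE1 hW h h' hx hy (hσ.sub_mem x hx)
      (hσ.sub_mem y hy) hcon
    obtain ⟨W₀, rfl⟩ := hW
    have e := (Affine.equation_iff _ _).mp h.left
    have hΔ' : (W₀.map (IsLocalRing.residue A)).Δ ≠ 0 := by
      rw [WeierstrassCurve.map_Δ, Ne, residue_eq_zero_iff]
      rwa [WeierstrassCurve.map_Δ] at hΔ
    have heq : (W₀.map (IsLocalRing.residue A)).toAffine.Equation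
        (IsLocalRing.residue A ⟨x, hx⟩) (IsLocalRing.residue A ⟨y, hy⟩) := by
      rw [Affine.equation_iff]
      have e' : (⟨y, hy⟩ : A) ^ 2 + W₀.a₁ * ⟨x, hx⟩ * ⟨y, hy⟩ + W₀.a₃ * ⟨y, hy⟩ =
          ⟨x, hx⟩ ^ 3 + W₀.a₂ * ⟨x, hx⟩ ^ 2 + W₀.a₄ * ⟨x, hx⟩ + W₀.a₆ := by
        apply Subtype.ext; push_cast; exact e
      have := congrArg (IsLocalRing.residue A) e'
      simp only [map_add, map_mul, map_pow] at this
      exact this
    have hns := (Affine.equation_iff_nonsingular_of_Δ_ne_zero hΔ').mp heq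
    rw [Affine.nonsingular_iff] at hns
    rcases hns.2 with h3 | h3
    · apply h3
      have : IsLocalRing.residue A (3 * ⟨x, hx⟩ ^ 2 + 2 * W₀.a₂ * ⟨x, hx⟩ + W₀.a₄
          - W₀.a₁ * ⟨y, hy⟩) = 0 := (residue_eq_zero_iff _).mpr h2
      simp only [map_add, map_sub, map_mul, map_pow, map_ofNat] at this
      simp only [WeierstrassCurve.map_a₁, WeierstrassCurve.map_a₂, WeierstrassCurve.map_a₄]
      linear_combination -this
    · apply h3
      have : IsLocalRing.residue A (2 * ⟨y, hy⟩ + W₀.a₁ * ⟨x, hx⟩ + W₀.a₃) = 0 :=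
        (residue_eq_zero_iff _).mpr h1
      simp only [map_add, map_sub, map_mul, map_pow, map_ofNat] at this
      simp only [WeierstrassCurve.map_a₁, WeierstrassCurve.map_a₃]
      linear_combination this
  · refine InE1.sub hW hx ?_
    rw [inE1_some, hσ.map_mem_iff]
    exact hx

/-- (L2), nodal case -/
theorem Nodal.sub_inE0 {x₀ y₀ : K} (hN : Nodal A W x₀ y₀) (hσ : IsInertial A σ)
    (hx₀ : σ x₀ = x₀) (hy₀ : σ y₀ = y₀) (hA4 : σ (nodA4 W x₀ y₀) = nodA4 W x₀ y₀)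
    {x y : K} (h : W.toAffine.Nonsingular x y) (h' : W.toAffine.Nonsingular (σ x) (σ y)) :
    InE0 A x₀ (Affine.Point.some x y h - Affine.Point.some (σ x) (σ y) h') := by
  have hσz : σ x - x₀ = σ (x - x₀) := by rw [map_sub, hx₀]
  by_cases hz : x - x₀ ∈ A.nonunits
  · by_cases hmid : ∃ a ∈ A, x - x₀ = nodA4 W x₀ y₀ * a
    · obtain ⟨a, ha, hza⟩ := hmid
      rw [sub_eq_add_neg, Affine.Point.neg_some]
      exact inE0_add_of_middle hN h _ ⟨a, ha, hza⟩
        ⟨σ a, hσ.map_mem ha, by rw [hσz, hza, map_mul, hA4]⟩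
    · have hz0 : x - x₀ ≠ 0 := fun h0 => hmid ⟨0, A.zero_mem, by rw [h0, mul_zero]⟩
      have hσz0 : σ x - x₀ ≠ 0 := by
        rw [hσz]; exact (map_ne_zero σ).mpr hz0
      have hA40 : nodA4 W x₀ y₀ ≠ 0 := hN.a₄_ne
      have hm : nodA4 W x₀ y₀ / (x - x₀) ∈ A.nonunits := by
        have : (x - x₀) / nodA4 W x₀ y₀ ∉ A := fun hA =>
          hmid ⟨_, hA, by field_simp⟩
        have := inv_mem_nonunits_of_notMem this
        rwa [inv_div] at this
      have htA : (y - y₀) / (x - x₀) ∈ A :=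
        direction_mem hN h.left hz0 (by field_simp) (mem_of_mem_nonunits hz)
          (mem_of_mem_nonunits hm)
      refine inE0_sub_of_direction hN h h' hz hz0 hm (u := σ (x - x₀) / (x - x₀))
        (t₁ := (y - y₀) / (x - x₀)) (t₂ := σ ((y - y₀) / (x - x₀))) ?_ (hσ.div_mem _) ?_ ?_ ?_ ?_ ?_
      · rw [← hσz]; exact div_ne_zero hσz0 hz0
      · rw [inv_div]; exact hσ.div_mem' _
      · rw [hσz]; field_simp
      · field_simp
      · rw [map_div₀, map_sub, map_sub, hx₀, hy₀]; field_simp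
      · have := A.nonunits.neg_mem (hσ.sub_mem _ htA)
        simpa using this
  · refine InE0.sub hN hz ?_
    rw [inE0_some, hσz, hσ.map_nonunits_iff]
    exact hz

end inertial

end Fermat.Agent.H73
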