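import Mathlib
import Fermat.Prelude.Def_FLTPrelim_Ramification
import Fermat.Agent.H73Local

set_option autoImplicit false

/-!
# Elements of the inertia group of a place of `ℚ̄` are inertial in the sense of `H73Local`
-/

namespace Fermat.Agent.H73

open ValuationSubring

lemma exists_pow_apply_eq {k K : Type*} [Field k] [Field K] [Algebra k K] [Algebra.IsAlgebraic k K]
    (σ : K ≃ₐ[k] K) (z : K) : ∃ n : ℕ, 0 < n ∧ (σ ^ n) z = z := by
  have hfin : ((minpoly k z).rootSet K).Finite := (minpoly k z).rootSet_finite K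
  have hne : minpoly k z ≠ 0 := minpoly.ne_zero (Algebra.IsAlgebraic.isAlgebraic z).isIntegral
  have hmem : ∀ i : ℕ, (σ ^ i) z ∈ (minpoly k z).rootSet K := by
    intro i
    rw [Polynomial.mem_rootSet_of_ne hne]
    rw [← AlgEquiv.coe_toAlgHom, Polynomial.aeval_algHom_apply, minpoly.aeval, map_zero]
  obtain ⟨i, j, hij, h⟩ := hfin.exists_lt_map_eq_of_forall_mem hmem
  refine ⟨j - i, Nat.sub_pos_of_lt hij, ?_⟩
  have h2 : (σ ^ i) ((σ ^ (j - i)) z) = (σ ^ i) z := by
    rw [← AlgEquiv.mul_apply, ← pow_add, Nat.add_sub_cancel' hij.le, h]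
  exact (σ ^ i).injective h2

section

variable {k K : Type*} [Field k] [Field K] [Algebra k K] {A : ValuationSubring K}

lemma mem_of_decomposition {σ : K ≃ₐ[k] K} (hσ : σ ∈ A.decompositionSubgroup k) {a : K}
    (ha : a ∈ A) : σ a ∈ A :=
  (A.subMulAction k).smul_mem (⟨σ, hσ⟩ : A.decompositionSubgroup k) ha

lemma mem_iff_of_decomposition {σ : K ≃ₐ[k] K} (hσ : σ ∈ A.decompositionSubgroup k) {a : K} :
    σ a ∈ A ↔ a ∈ A := by
  refine ⟨fun h => ?_, mem_of_decomposition hσ⟩
  have := mem_of_decomposition (inv_mem hσ) h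
  rwa [← AlgEquiv.mul_apply, inv_mul_cancel, AlgEquiv.one_apply] at this

lemma nonunits_of_decomposition {σ : K ≃ₐ[k] K} (hσ : σ ∈ A.decompositionSubgroup k) {a : K}
    (ha : a ∈ A.nonunits) : σ a ∈ A.nonunits := by
  rw [mem_nonunits_iff_or] at ha ⊢
  rcases ha with rfl | ha
  · left; simp
  · right
    rwa [← map_inv₀, mem_iff_of_decomposition hσ]

lemma div_mem_of_decomposition [Algebra.IsAlgebraic k K] {σ : K ≃ₐ[k] K}
    (hσ : σ ∈ A.decompositionSubgroup k) (z : K) : σ z / z ∈ A := by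
  rcases eq_or_ne z 0 with rfl | hz
  · simp
  by_contra hcon
  have hw : z / σ z ∈ A.nonunits := by
    have := inv_mem_nonunits_of_notMem hcon
    rwa [inv_div] at this
  obtain ⟨n, hn, hnz⟩ := exists_pow_apply_eq σ z
  have hne : ∀ i : ℕ, (σ ^ i) z ≠ 0 := fun i => (map_ne_zero_iff _ (σ ^ i).injective).mpr hz
  -- `z / σ^i z ∈ 𝔪` for all `i > 0`
  have key : ∀ i : ℕ, z / (σ ^ (i + 1)) z ∈ A.nonunits := by
    intro i
    induction i with
    | zero => simpa using hw
    | succ i ih =>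
      have h1 : (σ ^ (i + 1)) z / (σ ^ (i + 1 + 1)) z ∈ A.nonunits := by
        have := nonunits_of_decomposition (pow_mem hσ (i + 1)) hw
        rw [map_div₀, ← AlgEquiv.mul_apply, ← pow_succ] at this
        exact this
      have h2 := A.nonunits.mul_mem ih h1
      rwa [div_mul_div_cancel₀ (hne _)] at h2
  have := key (n - 1)
  rw [Nat.sub_add_cancel hn, hnz, div_self hz] at this
  exact one_notMem_nonunits this

end

lemma isInertial_of_mem_inertia {k K : Type*} [Field k] [Field K] [Algebra k K]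
    [Algebra.IsAlgebraic k K] {A : ValuationSubring K} {σ : K ≃ₐ[k] K}
    (hσ : σ ∈ A.inertiaSubgroupIn k) : IsInertial A (σ : K →+* K) := by
  obtain ⟨⟨τ, hτ⟩, hτI, rfl⟩ := hσ
  refine ⟨fun z => div_mem_of_decomposition hτ z, fun a ha => ?_⟩
  have h1 : (⟨τ, hτ⟩ : A.decompositionSubgroup k) • (IsLocalRing.residue A ⟨a, ha⟩) =
      IsLocalRing.residue A ⟨a, ha⟩ := by
    have h2 := (MonoidHom.mem_ker).mp hτI
    have := congrArg (fun f : IsLocalRing.ResidueField A ≃+* IsLocalRing.ResidueField A =>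
      f (IsLocalRing.residue A ⟨a, ha⟩)) h2
    exact this
  rw [← IsLocalRing.ResidueField.residue_smul, ← sub_eq_zero, ← map_sub, residue_eq_zero_iff] at h1
  exact h1

theorem isAlgebraic_Qbar : Algebra.IsAlgebraic ℚ (AlgebraicClosure ℚ) :=
  AlgebraicClosure.isAlgebraic ℚ

lemma isInertial_of_mem_inertia_Qbar {A : ValuationSubring (AlgebraicClosure ℚ)}
    {σ : AlgebraicClosure ℚ ≃ₐ[ℚ] AlgebraicClosure ℚ}
    (hσ : σ ∈ A.inertiaSubgroupIn ℚ) :
    IsInertial A (σ : AlgebraicClosure ℚ →+* AlgebraicClosure ℚ) := by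
  haveI := isAlgebraic_Qbar
  exact isInertial_of_mem_inertia hσ

end Fermat.Agent.H73
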