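import Mathlib
import Fermat.Agent.H13NodeRed
import Fermat.Agent.H13NodeExists
import Fermat.Agent.H73Inertia

/-!
# Galois action near the node: components, unipotence of inertia (helper13)
-/

set_option autoImplicit false

namespace Fermat.Agent.H13

open WeierstrassCurve WeierstrassCurve.Affine IsLocalRing
open scoped WeierstrassCurve.Affine Pointwise

section decomp

variable {S K : Type*} [Field S] [Field K] [Algebra S K] {A : ValuationSubring K}

/-- The action of an element of the decomposition group on the valuation ring. -/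
def decompHom {σ : K ≃ₐ[S] K} (hσ : σ ∈ A.decompositionSubgroup S) : A →+* A where
  toFun a := ⟨σ a, H73.mem_of_decomposition hσ a.2⟩
  map_one' := Subtype.ext (map_one σ)
  map_mul' a b := Subtype.ext (map_mul σ (a : K) b)
  map_zero' := Subtype.ext (map_zero σ)
  map_add' a b := Subtype.ext (map_add σ (a : K) b)

lemma decompHom_coe {σ : K ≃ₐ[S] K} (hσ : σ ∈ A.decompositionSubgroup S) (a : A) :
    (decompHom hσ a : K) = σ a := rfl

lemma decompHom_mem {σ : K ≃ₐ[S] K} (hσ : σ ∈ A.decompositionSubgroup S) {a : A}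
    (ha : a ∈ maximalIdeal A) : decompHom hσ a ∈ maximalIdeal A := by
  have h1 : (a : K) ∈ A.nonunits := ValuationSubring.coe_mem_nonunits_iff.mpr ha
  have h2 := H73.nonunits_of_decomposition hσ h1
  exact (ValuationSubring.coe_mem_nonunits_iff (a := decompHom hσ a)).mp h2

lemma valuation_decomp [Algebra.IsAlgebraic S K] {σ : K ≃ₐ[S] K}
    (hσ : σ ∈ A.decompositionSubgroup S) (z : K) : A.valuation (σ z) = A.valuation z := by
  rcases eq_or_ne z 0 with rfl | hz
  · rw [map_zero]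
  have hz' : A.valuation z ≠ 0 := (Valuation.ne_zero_iff _).mpr hz
  have hσz : σ z ≠ 0 := (map_ne_zero_iff _ σ.injective).mpr hz
  have h1 := H73.div_mem_of_decomposition hσ z
  have h2 := H73.div_mem_of_decomposition (inv_mem hσ) (σ z)
  rw [← A.valuation_le_one_iff, map_div₀] at h1 h2
  have e : (σ⁻¹ : K ≃ₐ[S] K) (σ z) = z := by
    rw [← AlgEquiv.mul_apply, inv_mul_cancel, AlgEquiv.one_apply]
  rw [e] at h2
  have hσz' : A.valuation (σ z) ≠ 0 := (Valuation.ne_zero_iff _).mpr hσz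
  apply le_antisymm
  · rwa [div_le_one₀ (zero_lt_iff.mpr hz')] at h1
  · rwa [div_le_one₀ (zero_lt_iff.mpr hσz')] at h2

lemma mem_decomposition_of_mem_inertia {σ : K ≃ₐ[S] K} (hσ : σ ∈ A.inertiaSubgroupIn S) :
    σ ∈ A.decompositionSubgroup S := by
  obtain ⟨τ, -, rfl⟩ := hσ
  exact τ.2

variable {W : WeierstrassCurve ℤ} {x₀ y₀ α β g : A}

/-- The decomposition group fixes the centre and permutes the tangents. -/
theorem GoodNode.decomp (hN : GoodNode (W.map (Int.castRingHom A)) x₀ y₀ α β g)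
    {σ : K ≃ₐ[S] K} (hσ : σ ∈ A.decompositionSubgroup S) :
    σ x₀ = x₀ ∧ σ y₀ = y₀ ∧ σ g = g ∧ ((σ α = α ∧ σ β = β) ∨ (σ α = β ∧ σ β = α)) := by
  have h1 := hN.nd.map (decompHom hσ)
  have hW : (W.map (Int.castRingHom A)).map (decompHom hσ) = W.map (Int.castRingHom A) := by
    rw [WeierstrassCurve.map_map]
    congr 1
    exact RingHom.ext_int _ _
  rw [hW] at h1
  obtain ⟨e1, e2, e3⟩ := hN.nd.unique h1 hN.unit hN.g_mem (decompHom_mem hσ hN.g_mem)
  have f1 : σ x₀ = x₀ := congrArg Subtype.val e1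
  have f2 : σ y₀ = y₀ := congrArg Subtype.val e2
  have f3 : σ g = g := congrArg Subtype.val e3
  refine ⟨f1, f2, f3, ?_⟩
  have s1 := hN.nd.sum
  have s2 := h1.sum
  have p1 := hN.nd.prod
  have p2 := h1.prod
  rw [e1] at p2
  have hprod : (decompHom hσ α - α) * (decompHom hσ α - β) = 0 := by
    have : decompHom hσ β = α + β - decompHom hσ α := by linear_combination s2 - s1
    rw [this] at p2
    linear_combination p1 - p2
  rcases mul_eq_zero.mp hprod with h | h
  · left
    have ha : decompHom hσ α = α := sub_eq_zero.mp h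
    have hb : decompHom hσ β = β := by linear_combination s2 - s1 - ha
    exact ⟨congrArg Subtype.val ha, congrArg Subtype.val hb⟩
  · right
    have ha : decompHom hσ α = β := sub_eq_zero.mp h
    have hb : decompHom hσ β = α := by linear_combination s2 - s1 - ha
    exact ⟨congrArg Subtype.val ha, congrArg Subtype.val hb⟩

/-- Inertia fixes the tangents. -/
theorem GoodNode.inertia (hN : GoodNode (W.map (Int.castRingHom A)) x₀ y₀ α β g)
    {σ : K ≃ₐ[S] K} (hσ : σ ∈ A.inertiaSubgroupIn S) :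
    σ x₀ = x₀ ∧ σ y₀ = y₀ ∧ σ g = g ∧ σ α = α ∧ σ β = β := by
  obtain ⟨h1, h2, h3, h4⟩ := hN.decomp (mem_decomposition_of_mem_inertia hσ)
  refine ⟨h1, h2, h3, ?_⟩
  rcases h4 with h | ⟨ha, hb⟩
  · exact h
  · exfalso
    obtain ⟨-, h5⟩ := H59.residue_of_mem_inertia hσ
    obtain ⟨hm, h6⟩ := h5 α
    have : (⟨σ (α : K), hm⟩ : A) = β := Subtype.ext ha
    rw [this] at h6
    exact hN.αβk h6.symm

end decomp

section global

variable {R S K : Type*} [CommRing R] [Field S] [Field K] [Algebra R S] [Algebra R K] [Algebra S K]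
  [IsScalarTower R S K] [Algebra.IsAlgebraic S K] {W : WeierstrassCurve ℤ} {E : Affine R}
  {A : ValuationSubring K} {x₀ y₀ α β g : A} [DecidableEq K]

/-- Elements of the decomposition group fixing the tangents preserve components. -/
lemma Comp.smul_of_fix {σ : K ≃ₐ[S] K} (hσ : σ ∈ A.decompositionSubgroup S)
    (h1 : σ x₀ = x₀) (h2 : σ y₀ = y₀) (h3 : σ α = α) (h4 : σ β = β) {P : (E⁄K).Point}
    {c : A.ValueGroup} (h : Comp A x₀ y₀ α β P c) : Comp A x₀ y₀ α β (σ • P) c := by
  rcases P with _ | ⟨x, y, hP⟩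
  · exact h
  · have e0 : A.valuation (σ x - x₀) = A.valuation (x - x₀) := by
      rw [← valuation_decomp hσ (x - x₀), map_sub σ, h1]
    have e1 : sC (x₀ : K) y₀ α (σ x) (σ y) = σ (sC (x₀ : K) y₀ α x y) := by
      simp only [sC, map_sub, map_mul, h1, h2, h3]
    have e2 : sC (x₀ : K) y₀ β (σ x) (σ y) = σ (sC (x₀ : K) y₀ β x y) := by
      simp only [sC, map_sub, map_mul, h1, h2, h4]
    have key : (1 ≤ A.valuation (σ x - x₀) ∧ c = 1) ∨
      (A.valuation (σ x - x₀) < 1 ∧
        IsC A.valuation (sC (x₀ : K) y₀ α (σ x) (σ y)) (sC (x₀ : K) y₀ β (σ x) (σ y)) c) := by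
      rw [e0, e1, e2]
      rcases h with h | ⟨h, h'⟩
      · exact Or.inl h
      · refine Or.inr ⟨h, ?_⟩
        simp only [IsC] at h' ⊢
        rw [valuation_decomp hσ, valuation_decomp hσ]
        exact h'
    exact key

/-- Elements of the decomposition group swapping the tangents invert components. -/
lemma Comp.smul_of_swap {σ : K ≃ₐ[S] K} (hσ : σ ∈ A.decompositionSubgroup S)
    (h1 : σ x₀ = x₀) (h2 : σ y₀ = y₀) (h3 : σ α = β) (h4 : σ β = α) {P : (E⁄K).Point}
    {c : A.ValueGroup} (h : Comp A x₀ y₀ α β P c) : Comp A x₀ y₀ α β (σ • P) c⁻¹ := by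
  rcases P with _ | ⟨x, y, hP⟩
  · rw [show c = 1 from h]
    exact inv_one
  · have e0 : A.valuation (σ x - x₀) = A.valuation (x - x₀) := by
      rw [← valuation_decomp hσ (x - x₀), map_sub σ, h1]
    have e1 : sC (x₀ : K) y₀ β (σ x) (σ y) = σ (sC (x₀ : K) y₀ α x y) := by
      simp only [sC, map_sub, map_mul, h1, h2, h3]
    have e2 : sC (x₀ : K) y₀ α (σ x) (σ y) = σ (sC (x₀ : K) y₀ β x y) := by
      simp only [sC, map_sub, map_mul, h1, h2, h4]
    have key : (1 ≤ A.valuation (σ x - x₀) ∧ c⁻¹ = 1) ∨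
      (A.valuation (σ x - x₀) < 1 ∧
        IsC A.valuation (sC (x₀ : K) y₀ α (σ x) (σ y)) (sC (x₀ : K) y₀ β (σ x) (σ y)) c⁻¹) := by
      rw [e0, e1, e2]
      rcases h with ⟨h, rfl⟩ | ⟨h, h'⟩
      · exact Or.inl ⟨h, inv_one⟩
      · refine Or.inr ⟨h, ?_⟩
        have := h'.flip
        simp only [IsC] at this ⊢
        rw [valuation_decomp hσ, valuation_decomp hσ]
        exact this
    exact key

/-- `σ P - P` has nonsingular reduction for `σ` in inertia. -/
theorem smul_sub_not_near (hN : GoodNode (W.map (Int.castRingHom A)) x₀ y₀ α β g)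
    (hE : W.map (Int.castRingHom R) = E) {σ : K ≃ₐ[S] K} (hσ : σ ∈ A.inertiaSubgroupIn S)
    (P : (E⁄K).Point) : ¬ Near A x₀ (σ • P - P) := by
  obtain ⟨h1, h2, -, h3, h4⟩ := hN.inertia hσ
  obtain ⟨c, hc⟩ := exists_comp x₀ y₀ α β P
  have hc' := hc.smul_of_fix (mem_decomposition_of_mem_inertia hσ) h1 h2 h3 h4
  exact sub_not_near hN (H59.model_map hE) hc' hc ⟨0, by simp⟩

/-- unipotence of inertia, general form. -/
theorem smul_smul_sub_eq (hN : GoodNode (W.map (Int.castRingHom A)) x₀ y₀ α β g)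
    (hE : W.map (Int.castRingHom R) = E) {σ τ : K ≃ₐ[S] K} (hσ : σ ∈ A.inertiaSubgroupIn S)
    (hτ : τ ∈ A.inertiaSubgroupIn S)
    {P : (E⁄K).Point} {n : ℕ} (hn : (n : ResidueField A) ≠ 0) (h : n • P = 0) :
    τ • (σ • P - P) = σ • P - P := by
  obtain ⟨P', hP'⟩ := exists_reduces_of_not_near hN (H59.model_map hE) (H59.model_residue _)
    (smul_sub_not_near hN hE hσ P)
  refine H59.smul_eq_of_inertia hE hτ hP' hn ?_
  rw [nsmul_sub, smul_comm n σ P, h, smul_zero, sub_zero]

end global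

end Fermat.Agent.H13
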