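import Fermat.Agent.H87DivFormula

set_option autoImplicit false

/-!
# Unconditional structure of `n`-torsion of elliptic curves (ECLIB interface)

All statements are for base changes `(W'⁄K).Point` exactly as in the Prelude.
-/

namespace Fermat.Agent.H87.EC

open WeierstrassCurve
open scoped WeierstrassCurve.Affine

section general

variable {R : Type*} {K : Type*} [CommRing R] [Field K] [DecidableEq K] [Algebra R K]
  (W' : Affine R)

/-- `#E[n] = n^2` over an algebraically closed field in which `n` is invertible. -/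
theorem natCard_torsionBy [IsAlgClosed K] (hΔ : algebraMap R K W'.Δ ≠ 0)
    {n : ℕ} (hn : (n : K) ≠ 0) :
    Nat.card (Submodule.torsionBy ℤ (W'⁄K).Point (n : ℤ)) = n ^ 2 :=
  H42.natCard_torsionBy_baseChange W' hΔ (divFormula (H42.map_Δ_ne_zero W' hΔ)) hn

/-- `E[n]` is finite over any field, `n ≠ 0`. -/
theorem finite_torsionBy (hΔ : algebraMap R K W'.Δ ≠ 0) {n : ℕ} (hn : n ≠ 0) :
    Finite (Submodule.torsionBy ℤ (W'⁄K).Point (n : ℤ)) :=
  H42.finite_torsionBy_baseChange W' (divFormula (H42.map_Δ_ne_zero W' hΔ)) hn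

theorem exists_basis_torsionBy [IsAlgClosed K] (hΔ : algebraMap R K W'.Δ ≠ 0)
    {n : ℕ} (hn : (n : K) ≠ 0) :
    Nonempty (Module.Basis (Fin 2) (ZMod n) (Submodule.torsionBy ℤ (W'⁄K).Point (n : ℤ))) :=
  H42.exists_basis_torsionBy_baseChange W' hΔ (divFormula (H42.map_Δ_ne_zero W' hΔ)) hn

theorem finrank_torsionBy [IsAlgClosed K] (hΔ : algebraMap R K W'.Δ ≠ 0)
    {n : ℕ} (hn1 : n ≠ 1) (hn : (n : K) ≠ 0) :
    Module.finrank (ZMod n) (Submodule.torsionBy ℤ (W'⁄K).Point (n : ℤ)) = 2 :=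
  H42.finrank_torsionBy_baseChange W' hΔ (divFormula (H42.map_Δ_ne_zero W' hΔ)) hn1 hn

theorem nontrivial_torsionBy [IsAlgClosed K] (hΔ : algebraMap R K W'.Δ ≠ 0)
    {n : ℕ} (hn1 : n ≠ 1) (hn : (n : K) ≠ 0) :
    Nontrivial (Submodule.torsionBy ℤ (W'⁄K).Point (n : ℤ)) :=
  H42.nontrivial_torsionBy_baseChange W' hΔ (divFormula (H42.map_Δ_ne_zero W' hΔ)) hn1 hn

/-- Multiplication by `n ≠ 0` is surjective on points over an algebraically closed field. -/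
theorem exists_nsmul_eq [IsAlgClosed K] (hΔ : algebraMap R K W'.Δ ≠ 0) {n : ℕ} (hn : n ≠ 0)
    (Q : (W'⁄K).Point) : ∃ P : (W'⁄K).Point, n • P = Q :=
  H42.exists_nsmul_eq (H42.map_Δ_ne_zero W' hΔ) (divFormula (H42.map_Δ_ne_zero W' hΔ)) hn Q

end general

section Qbar

lemma algebraMap_Δ_ne_zero {W : WeierstrassCurve ℚ} (hΔ : W.Δ ≠ 0) :
    algebraMap ℚ (AlgebraicClosure ℚ) W.Δ ≠ 0 := by
  simpa using hΔ

lemma map_int_Δ_ne_zero {W : WeierstrassCurve ℤ} (hΔ : W.Δ ≠ 0) :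
    (W.map (Int.castRingHom ℚ)).Δ ≠ 0 := by
  rw [WeierstrassCurve.map_Δ]
  simpa using hΔ

variable (W : WeierstrassCurve ℚ) (hΔ : W.Δ ≠ 0)
include hΔ

theorem natCard_torsionBy_rat {n : ℕ} (hn : n ≠ 0) :
    Nat.card (Submodule.torsionBy ℤ (W⁄(AlgebraicClosure ℚ)).Point (n : ℤ)) = n ^ 2 :=
  natCard_torsionBy W (algebraMap_Δ_ne_zero hΔ) (Nat.cast_ne_zero.mpr hn)

theorem finite_torsionBy_rat {n : ℕ} (hn : n ≠ 0) :
    Finite (Submodule.torsionBy ℤ (W⁄(AlgebraicClosure ℚ)).Point (n : ℤ)) :=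
  finite_torsionBy W (algebraMap_Δ_ne_zero hΔ) hn

theorem finrank_torsionBy_rat {n : ℕ} (hn : n ≠ 0) (hn1 : n ≠ 1) :
    Module.finrank (ZMod n)
      (Submodule.torsionBy ℤ (W⁄(AlgebraicClosure ℚ)).Point (n : ℤ)) = 2 :=
  finrank_torsionBy W (algebraMap_Δ_ne_zero hΔ) hn1 (Nat.cast_ne_zero.mpr hn)

theorem exists_basis_torsionBy_rat {n : ℕ} (hn : n ≠ 0) :
    Nonempty (Module.Basis (Fin 2) (ZMod n)
      (Submodule.torsionBy ℤ (W⁄(AlgebraicClosure ℚ)).Point (n : ℤ))) :=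
  exists_basis_torsionBy W (algebraMap_Δ_ne_zero hΔ) (Nat.cast_ne_zero.mpr hn)

theorem nontrivial_torsionBy_rat {n : ℕ} (hn : n ≠ 0) (hn1 : n ≠ 1) :
    Nontrivial (Submodule.torsionBy ℤ (W⁄(AlgebraicClosure ℚ)).Point (n : ℤ)) :=
  nontrivial_torsionBy W (algebraMap_Δ_ne_zero hΔ) hn1 (Nat.cast_ne_zero.mpr hn)

/-- The mod-`n` Galois representation has finite level. -/
theorem galoisFactorsThroughFiniteLevel {n : ℕ} (hn : n ≠ 0) :
    GaloisFactorsThroughFiniteLevel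
      (WeierstrassCurve.Affine.Point.galoisRepModuleEnd (K := AlgebraicClosure ℚ) ℚ W n) :=
  H42.galoisFactors_of_divFormula W
    (divFormula (H42.map_Δ_ne_zero W (algebraMap_Δ_ne_zero hΔ))) hn

end Qbar

end Fermat.Agent.H87.EC
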