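import Mathlib
import Fermat.Agent.H13NodeGal
import Fermat.Agent.H87ECTorsion

/-!
# EC6: inertia acts unipotently on the prime-to-`q` torsion at a prime `q` of multiplicative reduction
(helper13)
-/

set_option autoImplicit false

namespace Fermat.Agent.H13

open WeierstrassCurve WeierstrassCurve.Affine IsLocalRing
open scoped WeierstrassCurve.Affine Pointwise

/-- Existence of a good node for an integral model at a multiplicative prime. -/
theorem exists_goodNode {K : Type*} [Field K] [IsAlgClosed K] [CharZero K] {W : WeierstrassCurve ℤ}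
    {q : ℕ} (hq : q.Prime)
    (hbad : (q : ℤ) ∣ W.Δ) (hΔ : W.Δ ≠ 0) (hc : ¬ (q : ℤ) ∣ W.c₄) {A : ValuationSubring K}
    (hA : A.LiesOverPrime q) :
    ∃ x₀ y₀ α β g : A, GoodNode (W.map (Int.castRingHom A)) x₀ y₀ α β g := by
  have h1 : (W.map (Int.castRingHom A)).Δ ∈ maximalIdeal A := by
    rw [map_Δ, ← residue_eq_zero_iff]
    obtain ⟨m, hm⟩ := hbad
    rw [hm]
    simp only [map_mul, map_natCast]
    rw [H59.natCast_residue_eq_zero hA, zero_mul]
  have h2 : IsUnit (W.map (Int.castRingHom A)).c₄ := by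
    rw [map_c₄]
    by_contra hcon
    have h3 := (residue_eq_zero_iff _).mpr ((mem_maximalIdeal _).mpr hcon)
    rw [eq_intCast, map_intCast] at h3
    exact H59.intCast_residue_ne_zero hq hA hc h3
  obtain ⟨x₀, y₀, α, β, g, hnd, hg, hu⟩ := exists_nodeData (W.map (Int.castRingHom A)) h1 h2
  refine ⟨x₀, y₀, α, β, g, hnd, hg, ?_, hu⟩
  rintro rfl
  have h3 := hnd.disc
  rw [map_Δ, neg_zero, zero_mul, eq_intCast] at h3
  have h4 : ((W.Δ : A) : K) = 0 := by rw [h3]; rfl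
  have h5 : ((W.Δ : A) : K) = (W.Δ : K) := map_intCast A.subtype W.Δ
  rw [h5] at h4
  exact hΔ (Int.cast_eq_zero.mp h4)

/-- **EC6.** -/
theorem unipotent_of_multiplicative {W : WeierstrassCurve ℤ} {q n : ℕ} (hq : q.Prime)
    (hbad : (q : ℤ) ∣ W.Δ) (hΔ : W.Δ ≠ 0) (hc : ¬ (q : ℤ) ∣ W.c₄) (hqn : ¬ q ∣ n)
    (A : ValuationSubring (AlgebraicClosure ℚ)) (hA : A.LiesOverPrime q)
    (σ : AlgebraicClosure ℚ ≃ₐ[ℚ] AlgebraicClosure ℚ) (hσ : σ ∈ A.inertiaSubgroupIn ℚ)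
    (x : Submodule.torsionBy ℤ
      ((W.map (Int.castRingHom ℚ))⁄(AlgebraicClosure ℚ)).Point (n : ℤ)) :
    σ • (σ • x - x) = σ • x - x := by
  have := H73.isAlgebraic_Qbar
  obtain ⟨x₀, y₀, α, β, g, hN⟩ := exists_goodNode hq hbad hΔ hc hA
  apply Subtype.ext
  refine smul_smul_sub_eq hN rfl hσ hσ (n := n) (H59.natCast_residue_ne_zero hq hA hqn) ?_
  have h := (Submodule.mem_torsionBy_iff _ _).mp x.2
  rw [← natCast_zsmul]
  exact h

/-- Generalisation: two elements of inertia. -/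
theorem smul_smul_sub_of_multiplicative {W : WeierstrassCurve ℤ} {q n : ℕ} (hq : q.Prime)
    (hbad : (q : ℤ) ∣ W.Δ) (hΔ : W.Δ ≠ 0) (hc : ¬ (q : ℤ) ∣ W.c₄) (hqn : ¬ q ∣ n)
    (A : ValuationSubring (AlgebraicClosure ℚ)) (hA : A.LiesOverPrime q)
    (σ τ : AlgebraicClosure ℚ ≃ₐ[ℚ] AlgebraicClosure ℚ) (hσ : σ ∈ A.inertiaSubgroupIn ℚ)
    (hτ : τ ∈ A.inertiaSubgroupIn ℚ)
    (x : Submodule.torsionBy ℤ
      ((W.map (Int.castRingHom ℚ))⁄(AlgebraicClosure ℚ)).Point (n : ℤ)) :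
    τ • (σ • x - x) = σ • x - x := by
  have := H73.isAlgebraic_Qbar
  obtain ⟨x₀, y₀, α, β, g, hN⟩ := exists_goodNode hq hbad hΔ hc hA
  apply Subtype.ext
  refine smul_smul_sub_eq hN rfl hσ hτ (n := n) (H59.natCast_residue_ne_zero hq hA hqn) ?_
  have h := (Submodule.mem_torsionBy_iff _ _).mp x.2
  rw [← natCast_zsmul]
  exact h

end Fermat.Agent.H13

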