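import Mathlib
import Fermat.Agent.H63Hermite

/-!
# Inertia at `q` moves a `p`-th root of `q` (helper13)
-/

set_option autoImplicit false

namespace Fermat.Agent.H13

open NumberField Polynomial

/-- It is impossible that all inertia groups above `q` fix all `p`-th roots of `q`. -/
theorem not_forall_inertia_fix {q p : ℕ} (hq : q.Prime) (hp : 2 ≤ p)
    (h : ∀ A : ValuationSubring (AlgebraicClosure ℚ), A.LiesOverPrime q →
      ∀ σ ∈ A.inertiaSubgroupIn ℚ, ∀ π : AlgebraicClosure ℚ, π ^ p = q → σ π = π) : False := by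
  have hgalL : IsGalois ℚ (AlgebraicClosure ℚ) := by
    have : Algebra.IsAlgebraic ℚ (AlgebraicClosure ℚ) := AlgebraicClosure.isAlgebraic ℚ
    have : IsAlgClosure ℚ (AlgebraicClosure ℚ) := ⟨inferInstance, inferInstance⟩
    have : Normal ℚ (AlgebraicClosure ℚ) := IsAlgClosure.normal ℚ (AlgebraicClosure ℚ)
    exact ⟨⟩
  set f : ℚ[X] := X ^ p - C (q : ℚ) with hf
  have hf0 : f ≠ 0 := X_pow_sub_C_ne_zero (by omega) _
  set F : IntermediateField ℚ (AlgebraicClosure ℚ) :=
    IntermediateField.adjoin ℚ (f.rootSet (AlgebraicClosure ℚ)) with hF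
  have hsplit : f.IsSplittingField ℚ F :=
    IntermediateField.adjoin_rootSet_isSplittingField (IsAlgClosed.splits _)
  have hfin : FiniteDimensional ℚ F := hsplit.finiteDimensional F f
  have hnormal : Normal ℚ F := Normal.of_isSplittingField f
  have hnf : NumberField F := ⟨⟩
  have hgal : IsGalois ℚ F := ⟨⟩
  -- inertia acts trivially on `F`
  have hI : ∀ A : ValuationSubring (AlgebraicClosure ℚ), A.LiesOverPrime q →
      ∀ σ ∈ A.inertiaSubgroupIn ℚ, ∀ x : F, σ (algebraMap F (AlgebraicClosure ℚ) x) =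
        algebraMap F (AlgebraicClosure ℚ) x := by
    intro A hA σ hσ x
    have hle : F ≤ IntermediateField.fixedField (Subgroup.zpowers σ) := by
      rw [hF, IntermediateField.adjoin_le_iff]
      intro y hy
      have hy' : y ^ p = q := by
        rw [mem_rootSet] at hy
        have := hy.2
        rw [hf] at this
        simp only [map_sub, map_pow, aeval_X, aeval_C] at this
        rw [sub_eq_zero] at this
        rw [this]; simp
      have hfix := h A hA σ hσ y hy'
      rw [SetLike.mem_coe, IntermediateField.mem_fixedField_iff]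
      intro g hg
      have : Subgroup.zpowers σ ≤ MulAction.stabilizer (AlgebraicClosure ℚ ≃ₐ[ℚ] AlgebraicClosure ℚ) y := by
        rw [Subgroup.zpowers_le]
        exact hfix
      exact this hg
    have := hle x.2
    rw [IntermediateField.mem_fixedField_iff] at this
    exact this σ (Subgroup.mem_zpowers σ)
  -- a prime of `F` above `q`
  have hqi : Prime (q : ℤ) := Nat.prime_iff_prime_int.mp hq
  have hspan : (Ideal.span {(q : ℤ)}).IsPrime := (Ideal.span_singleton_prime hqi.ne_zero).mpr hqi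
  obtain ⟨P, -, hP, hPq⟩ := Ideal.exists_ideal_over_prime_of_isIntegral (S := 𝓞 F)
    (Ideal.span {(q : ℤ)}) ⊥ (by
      rw [← RingHom.ker_eq_comap_bot,
        (RingHom.injective_iff_ker_eq_bot _).mp (FaithfulSMul.algebraMap_injective ℤ (𝓞 F))]
      exact bot_le)
  have hqP : (q : 𝓞 F) ∈ P := by
    have : (q : ℤ) ∈ P.comap (algebraMap ℤ (𝓞 F)) := by
      rw [hPq]; exact Ideal.mem_span_singleton_self _
    rw [Ideal.mem_comap] at this
    simpa using this
  have hun : Algebra.IsUnramifiedAt ℤ P :=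
    H63.isUnramifiedAt_of_inertia (L := AlgebraicClosure ℚ) F q hI P hP hqP
  have hover : P.LiesOver (Ideal.span {(q : ℤ)}) := ⟨hPq.symm⟩
  have hmap : (Ideal.span {(q : ℤ)}).map (algebraMap ℤ (𝓞 F)) = Ideal.span {(q : 𝓞 F)} := by
    rw [Ideal.map_span, Set.image_singleton]
    simp
  have hne : (Ideal.span {(q : ℤ)}).map (algebraMap ℤ (𝓞 F)) ≠ ⊥ := by
    rw [hmap, Ne, Ideal.span_singleton_eq_bot]
    exact_mod_cast hq.ne_zero
  have he : P.ramificationIdx ℤ = 1 := Ideal.ramificationIdx_eq_one P ℤ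
  rw [Ideal.IsDedekindDomain.ramificationIdx_eq_multiplicity (Ideal.span {(q : ℤ)}) P hne] at he
  -- a `p`-th root of `q` in `F`
  obtain ⟨π, hπ⟩ : ∃ π : F, π ^ p = q := by
    have hdeg : (f.map (algebraMap ℚ F)).degree ≠ 0 := by
      rw [degree_map, hf, degree_X_pow_sub_C (by omega)]
      exact_mod_cast (by omega : p ≠ 0)
    obtain ⟨x, hx⟩ := (hsplit.splits).exists_eval_eq_zero hdeg
    refine ⟨x, ?_⟩
    rw [hf] at hx
    simp only [Polynomial.map_sub, Polynomial.map_pow, map_X, map_C, eval_sub, eval_pow, eval_X,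
      eval_C] at hx
    rw [sub_eq_zero] at hx
    rw [hx]; simp
  have hint : IsIntegral ℤ π := by
    refine ⟨X ^ p - C (q : ℤ), monic_X_pow_sub_C _ (by omega), ?_⟩
    rw [← aeval_def]
    simp only [map_sub, map_pow, aeval_X, aeval_C]
    rw [hπ]; simp
  set π' : 𝓞 F := ⟨π, hint⟩ with hπ'
  have hπq : π' ^ p = (q : 𝓞 F) := by
    apply RingOfIntegers.ext
    have e1 : ((π' ^ p : 𝓞 F) : F) = (π' : F) ^ p := map_pow (algebraMap (𝓞 F) F) π' p
    have e2 : (((q : 𝓞 F)) : F) = (q : F) := map_natCast (algebraMap (𝓞 F) F) q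
    rw [e1, e2]
    exact hπ
  have hπP : π' ∈ P := hP.mem_of_pow_mem p (hπq ▸ hqP)
  have hdvd : P ^ 2 ∣ (Ideal.span {(q : ℤ)}).map (algebraMap ℤ (𝓞 F)) := by
    rw [hmap, Ideal.dvd_iff_le, Ideal.span_le, Set.singleton_subset_iff, SetLike.mem_coe, ← hπq]
    exact Ideal.pow_le_pow_right hp (Ideal.pow_mem_pow hπP p)
  have hfm : FiniteMultiplicity P ((Ideal.span {(q : ℤ)}).map (algebraMap ℤ (𝓞 F))) := by
    apply FiniteMultiplicity.of_not_isUnit _ hne
    rw [Ideal.isUnit_iff]
    exact hP.ne_top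
  have := hfm.pow_dvd_iff_le_multiplicity.mp hdvd
  omega

end Fermat.Agent.H13
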