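import Fermat.Agent.H63Lift
set_option autoImplicit false

namespace Fermat.Agent.H63

open Pointwise NumberField Polynomial

/-- Minkowski at finite level: a Galois number field `F ≠ ℚ` has a prime number `q` all of whose
primes above have nontrivial inertia group. -/
theorem exists_prime_inertia_ne_bot (F : Type*) [Field F] [NumberField F] [IsGalois ℚ F]
    (H : 1 < Module.finrank ℚ F) :
    ∃ q : ℕ, q.Prime ∧ ∀ P : Ideal (𝓞 F), P.IsPrime → (q : 𝓞 F) ∈ P →
      ∃ σ ∈ P.inertia (F ≃ₐ[ℚ] F), σ ≠ 1 := by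
  obtain ⟨q, hq, h⟩ := NumberField.exists_not_isUnramifiedAt_int_of_isGalois (𝒪 := 𝓞 F) H
  refine ⟨q, hq, fun P hP hqP => ?_⟩
  have h1 := h P hP hqP
  by_contra hcon
  push Not at hcon
  apply h1
  have hgal : IsGaloisGroup (F ≃ₐ[ℚ] F) ℤ (𝓞 F) := IsGaloisGroup.of_isFractionRing (F ≃ₐ[ℚ] F) ℤ (𝓞 F) ℚ F
  have hPover : P.LiesOver (P.under ℤ) := inferInstance
  have hbot : P.inertia (F ≃ₐ[ℚ] F) = ⊥ := by
    rw [Subgroup.eq_bot_iff_forall]
    exact hcon
  have hcard := Ideal.card_inertia_eq_ramificationIdxIn (G := F ≃ₐ[ℚ] F) (P.under ℤ) P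
  rw [hbot, Ideal.ramificationIdxIn_eq_ramificationIdx (P.under ℤ) P (F ≃ₐ[ℚ] F)] at hcard
  rw [← Ideal.ramificationIdx_eq_one_iff, ← hcard]
  simp

section Minkowski

variable {L : Type*} [Field L] [CharZero L] [IsGalois ℚ L]

/-- the inertia groups above some prime do not act trivially on a number field `F ≠ ℚ`. -/
theorem exists_prime_inertia_restrict_ne (F : Type*) [Field F] [NumberField F] [IsGalois ℚ F]
    [Algebra F L] (H : 1 < Module.finrank ℚ F) :
    ∃ q : ℕ, q.Prime ∧ ∀ A : ValuationSubring L, A.LiesOverPrime q →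
      ∃ τ ∈ A.inertiaSubgroupIn ℚ, ∃ x : F, τ (algebraMap F L x) ≠ algebraMap F L x := by
  obtain ⟨q, hq, h⟩ := exists_prime_inertia_ne_bot F H
  refine ⟨q, hq, fun A hA => ?_⟩
  have : IsGalois F L := IsGalois.tower_top_of_isGalois ℚ F L
  rw [liesOverPrime_iff] at hA
  obtain ⟨σ₀, hσ₀, hne⟩ := h ((center A).comap (algebraMap (𝓞 F) (𝓞 L))) inferInstance (by
    rw [Ideal.mem_comap, map_natCast]; exact hA)
  obtain ⟨τ, hτ, rfl⟩ := exists_mem_inertiaSubgroupIn_restrict (F := F) A σ₀ hσ₀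
  refine ⟨τ, hτ, ?_⟩
  by_contra hcon
  push Not at hcon
  apply hne
  ext x
  apply (algebraMap F L).injective
  have h1 := AlgEquiv.restrictNormal_commutes τ F x
  have h2 : AlgEquiv.restrictNormalHom F τ = τ.restrictNormal F := rfl
  rw [h2, h1, hcon]; rfl

/-- Existence of places above a prime. -/
theorem exists_liesOverPrime (L : Type*) [Field L] [CharZero L] [Algebra.IsAlgebraic ℚ L]
    {q : ℕ} (hq : q.Prime) :
    ∃ A : ValuationSubring L, A.LiesOverPrime q := by
  have h1 : ¬ IsUnit (q : 𝓞 L) := by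
    intro hu
    obtain ⟨u, hu⟩ := hu
    have h2 : ((q : 𝓞 L) : L) * ((u⁻¹ : (𝓞 L)ˣ) : 𝓞 L) = 1 := by
      have : (q : 𝓞 L) * ((u⁻¹ : (𝓞 L)ˣ) : 𝓞 L) = 1 := by rw [← hu]; simp
      have := congrArg (fun y : 𝓞 L => (y : L)) this
      simpa using this
    have h3 : IsIntegral ℤ (algebraMap ℚ L ((q : ℚ)⁻¹)) := by
      have h4 : (((u⁻¹ : (𝓞 L)ˣ) : 𝓞 L) : L) = algebraMap ℚ L ((q : ℚ)⁻¹) := by
        rw [map_inv₀, map_natCast]
        have h5 : ((q : 𝓞 L) : L) = (q : L) := by simp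
        rw [h5] at h2
        exact eq_inv_of_mul_eq_one_right h2
      rw [← h4]
      exact RingOfIntegers.isIntegral_coe _
    have h6 : IsIntegral ℤ ((q : ℚ)⁻¹) :=
      (isIntegral_algebraMap_iff (algebraMap ℚ L).injective).mp h3
    obtain ⟨n, hn⟩ := IsIntegrallyClosed.isIntegral_iff (R := ℤ) (K := ℚ) |>.mp h6
    have hq0 : (q : ℚ) ≠ 0 := Nat.cast_ne_zero.mpr hq.ne_zero
    have h7 : (n : ℚ) * q = 1 := by
      rw [show (n : ℚ) = (q : ℚ)⁻¹ from hn, inv_mul_cancel₀ hq0]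
    have h8 : n * (q : ℤ) = 1 := by exact_mod_cast h7
    have h9 : (q : ℤ) ∣ 1 := ⟨n, by linarith⟩
    exact hq.one_lt.ne' (by exact_mod_cast Int.eq_one_of_dvd_one (by positivity) h9)
  obtain ⟨M, hM, hqM⟩ := exists_max_ideal_of_mem_nonunits (a := (q : 𝓞 L)) h1
  obtain ⟨A, hA⟩ := exists_center_eq M
  exact ⟨A, (liesOverPrime_iff A q).mpr (hA ▸ hqM)⟩

omit [CharZero L] [IsGalois ℚ L] in
/-- places above `q` are moved to places above `q`. -/
theorem liesOverPrime_smul {G : Type*} [Group G] [MulSemiringAction G L] (g : G)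
    {A : ValuationSubring L} {q : ℕ} (hA : A.LiesOverPrime q) : (g • A).LiesOverPrime q := by
  rw [liesOverPrime_iff, center_smul, Ideal.mem_pointwise_smul_iff_inv_smul_mem]
  have : g⁻¹ • (q : 𝓞 L) = q := by
    change MulSemiringAction.toRingHom G (𝓞 L) g⁻¹ (q : 𝓞 L) = _
    exact map_natCast _ q
  rw [this]
  exact (liesOverPrime_iff A q).mp hA

/-- Inertia groups of conjugate places are conjugate. -/
theorem conj_mem_inertiaSubgroupIn {K : Type*} [Field K] [Algebra K L] (g σ : L ≃ₐ[K] L)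
    {A : ValuationSubring L} (hσ : σ ∈ A.inertiaSubgroupIn K) :
    g * σ * g⁻¹ ∈ (g • A).inertiaSubgroupIn K := by
  rw [mem_inertiaSubgroupIn_iff_center] at hσ ⊢
  intro x
  change (g * σ * g⁻¹) • x - x ∈ center (g • A)
  rw [center_smul, Ideal.mem_pointwise_smul_iff_inv_smul_mem, smul_sub, smul_smul]
  have h1 := hσ (g⁻¹ • x)
  rw [smul_smul] at h1
  have h2 : g⁻¹ * (g * σ * g⁻¹) = σ * g⁻¹ := by group
  rw [h2]
  exact h1

/-- **Minkowski's theorem for the absolute Galois group**, normal version: an open normal subgroup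
containing an inertia subgroup above each prime is everything. -/
theorem eq_top_of_isOpen_of_normal (N : Subgroup (L ≃ₐ[ℚ] L)) [N.Normal]
    (hNo : IsOpen (N : Set (L ≃ₐ[ℚ] L)))
    (h : ∀ q : ℕ, q.Prime → ∃ A : ValuationSubring L, A.LiesOverPrime q ∧
      A.inertiaSubgroupIn ℚ ≤ N) : N = ⊤ := by
  have hNc : IsClosed (N : Set (L ≃ₐ[ℚ] L)) := Subgroup.isClosed_of_isOpen N hNo
  let E : IntermediateField ℚ L := IntermediateField.fixedField N
  have hE : E.fixingSubgroup = N := InfiniteGalois.fixingSubgroup_fixedField ⟨N, hNc⟩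
  have hEfin : FiniteDimensional ℚ E := by
    rw [← InfiniteGalois.isOpen_iff_finite, hE]; exact hNo
  have hEgal := (InfiniteGalois.normal_iff_isGalois E).mp (by rw [hE]; infer_instance)
  have hNF : NumberField E :=
    { to_charZero := inferInstance, to_finiteDimensional := by convert hEfin }
  by_contra hne
  have hfr : 1 < Module.finrank ℚ E := by
    rcases Nat.lt_or_ge 1 (Module.finrank ℚ E) with h1 | h1
    · exact h1
    · exfalso
      have hpos : 0 < Module.finrank ℚ E := Module.finrank_pos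
      have h2 : Module.finrank ℚ E = 1 := by omega
      have h3 : E = ⊥ := IntermediateField.finrank_eq_one_iff.mp (by convert h2)
      apply hne
      rw [← hE, h3, IntermediateField.fixingSubgroup_bot]
  have hEgal' : IsGalois ℚ E := by
    convert hEgal using 1
    exact Subsingleton.elim _ _
  obtain ⟨q, hq, hA⟩ := exists_prime_inertia_restrict_ne (L := L) E hfr
  obtain ⟨A, hAq, hAN⟩ := h q hq
  obtain ⟨τ, hτ, x, hx⟩ := hA A hAq
  apply hx
  have := hAN hτ
  rw [← hE] at this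
  exact (IntermediateField.mem_fixingSubgroup_iff E τ).mp this (x : L) x.2

/-- **Minkowski's theorem for the absolute Galois group**: an open subgroup containing all the
inertia subgroups is everything. -/
theorem eq_top_of_isOpen_of_inertia_le (U : Subgroup (L ≃ₐ[ℚ] L))
    (hU : IsOpen (U : Set (L ≃ₐ[ℚ] L)))
    (h : ∀ q : ℕ, q.Prime → ∀ A : ValuationSubring L, A.LiesOverPrime q →
      A.inertiaSubgroupIn ℚ ≤ U) : U = ⊤ := by
  classical
  have hfi : U.FiniteIndex := by
    have : Finite ((L ≃ₐ[ℚ] L) ⧸ U) := Subgroup.quotient_finite_of_isOpen U hU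
    exact Subgroup.finiteIndex_of_finite_quotient
  have hUc : IsClosed (U : Set (L ≃ₐ[ℚ] L)) := Subgroup.isClosed_of_isOpen U hU
  have hNc : IsClosed (U.normalCore : Set (L ≃ₐ[ℚ] L)) := U.normalCore_isClosed hUc
  have hNo : IsOpen (U.normalCore : Set (L ≃ₐ[ℚ] L)) :=
    Subgroup.isOpen_of_isClosed_of_finiteIndex _ hNc
  have key := eq_top_of_isOpen_of_normal U.normalCore hNo (fun q hq => by
    obtain ⟨A, hA⟩ := exists_liesOverPrime L hq
    refine ⟨A, hA, fun σ hσ g => ?_⟩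
    exact h q hq (g • A) (liesOverPrime_smul g hA) (conj_mem_inertiaSubgroupIn g σ hσ))
  rw [eq_top_iff, ← key]
  exact U.normalCore_le

/-- A homomorphism with open kernel, trivial on one inertia subgroup above each prime,
is trivial. -/
theorem eq_one_of_isOpen_ker {M : Type*} [Group M] (f : (L ≃ₐ[ℚ] L) →* M)
    (hf : IsOpen (f.ker : Set (L ≃ₐ[ℚ] L)))
    (h : ∀ q : ℕ, q.Prime → ∃ A : ValuationSubring L, A.LiesOverPrime q ∧
      ∀ σ ∈ A.inertiaSubgroupIn ℚ, f σ = 1) : f = 1 := by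
  have := eq_top_of_isOpen_of_normal f.ker hf (fun q hq => by
    obtain ⟨A, hA, h1⟩ := h q hq
    exact ⟨A, hA, fun σ hσ => MonoidHom.mem_ker.mpr (h1 σ hσ)⟩)
  exact MonoidHom.ker_eq_top_iff.mp this

end Minkowski

end Fermat.Agent.H63
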