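import Mathlib
import Fermat.Prelude.Def_FLTPrelim_Ramification

/-! Basic facts: valuation of integers for a place above `q`, inertia moves integral elements by
elements of the maximal ideal. -/

set_option autoImplicit false

namespace Fermat.Agent.H72

open scoped Pointwise

section general

variable {L : Type*} [Field L] {A : ValuationSubring L}

lemma val_natCast_lt {q : ℕ} (hA : A.LiesOverPrime q) : A.valuation (q : L) < 1 :=
  (A.mem_nonunits_iff).mp hA

lemma val_intCast_le (n : ℤ) : A.valuation (n : L) ≤ 1 :=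
  (A.valuation_le_one_iff _).mpr (intCast_mem A n)

lemma val_intCast_eq_one {q : ℕ} (hq : q.Prime) (hA : A.LiesOverPrime q) {n : ℤ}
    (hn : ¬ (q : ℤ) ∣ n) : A.valuation (n : L) = 1 := by
  refine le_antisymm (val_intCast_le n) (not_lt.mp fun hlt => ?_)
  have hcop : IsCoprime (q : ℤ) n := by
    rw [Prime.coprime_iff_not_dvd (Nat.prime_iff_prime_int.mp hq)]
    exact hn
  obtain ⟨a, b, hab⟩ := hcop
  have h1 : A.valuation ((a : L) * (q : L) + (b : L) * (n : L)) < 1 := by
    refine (A.valuation.map_add _ _).trans_lt (max_lt ?_ ?_)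
    · rw [map_mul]
      exact lt_of_le_of_lt (mul_le_mul' (val_intCast_le a) le_rfl)
        (by rw [one_mul]; exact val_natCast_lt hA)
    · rw [map_mul]
      exact lt_of_le_of_lt (mul_le_mul' (val_intCast_le b) le_rfl) (by rw [one_mul]; exact hlt)
  have h2 : ((a : L) * (q : L) + (b : L) * (n : L)) = 1 := by
    have := congrArg (Int.cast : ℤ → L) hab
    push_cast at this
    exact this
  rw [h2, map_one] at h1
  exact lt_irrefl _ h1

lemma val_natCast_eq_one {q : ℕ} (hq : q.Prime) (hA : A.LiesOverPrime q) {n : ℕ}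
    (hn : ¬ q ∣ n) : A.valuation (n : L) = 1 := by
  have := val_intCast_eq_one hq hA (n := (n : ℤ)) (by exact_mod_cast hn)
  rwa [Int.cast_natCast] at this

/-- the valuation of a nonzero integer is a power of that of `q`. -/
lemma val_intCast_eq_pow {q : ℕ} (hq : q.Prime) (hA : A.LiesOverPrime q) {n : ℤ} (hn : n ≠ 0) :
    ∃ m : ℕ, A.valuation (n : L) = A.valuation ((q : L) ^ m) ∧ ((q : ℤ) ∣ n → m ≠ 0) := by
  have hn' : n.natAbs ≠ 0 := Int.natAbs_ne_zero.mpr hn
  obtain ⟨m, c, hc, hnc⟩ := Nat.exists_eq_pow_mul_and_not_dvd hn' q hq.ne_one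
  refine ⟨m, ?_, ?_⟩
  · have h1 : A.valuation (n : L) = A.valuation ((n.natAbs : ℕ) : L) := by
      rcases Int.natAbs_eq n with h | h
      · conv_lhs => rw [h]
        rw [Int.cast_natCast]
      · conv_lhs => rw [h]
        rw [Int.cast_neg, Int.cast_natCast, Valuation.map_neg]
    rw [h1, hnc, Nat.cast_mul, Nat.cast_pow, map_mul, val_natCast_eq_one hq hA hc, mul_one]
  · rintro hdvd rfl
    rw [pow_zero, one_mul] at hnc
    rw [← hnc] at hc
    exact hc (Int.natCast_dvd.mp hdvd)

end general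

section

variable {K L : Type*} [Field K] [Field L] [Algebra K L]

/-- inertia acts trivially on the residue field. -/
lemma val_inertia_sub_lt {A : ValuationSubring L} {σ : L ≃ₐ[K] L}
    (hσ : σ ∈ A.inertiaSubgroupIn K) {a : L} (ha : A.valuation a ≤ 1) :
    A.valuation (σ a - a) < 1 := by
  obtain ⟨τ, hτ, rfl⟩ := hσ
  have ha' : a ∈ A := (A.valuation_le_one_iff a).mp ha
  have h1 : τ • (⟨a, ha'⟩ : A) - ⟨a, ha'⟩ ∈ IsLocalRing.maximalIdeal A := by
    rw [← IsLocalRing.residue_eq_zero_iff, map_sub, sub_eq_zero]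
    have h2 : MulSemiringAction.toRingAut (A.decompositionSubgroup K) (IsLocalRing.ResidueField A) τ
      = 1 := hτ
    have h3 := congrArg (fun f : RingAut (IsLocalRing.ResidueField A) =>
      f (IsLocalRing.residue A ⟨a, ha'⟩)) h2
    exact h3
  have h4 := (A.coe_mem_nonunits_iff (a := τ • (⟨a, ha'⟩ : A) - ⟨a, ha'⟩)).mpr h1
  rw [ValuationSubring.mem_nonunits_iff] at h4
  exact h4

end

end Fermat.Agent.H72
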