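import Mathlib
import Fermat.Agent.H13EC6
import Fermat.Agent.H13Tame
import Fermat.Agent.H72Inertia
import Fermat.Agent.H63Minkowski

/-!
# EC7: ramification of `E[p]` at a prime `q ≠ p` of multiplicative reduction (helper13)
-/

set_option autoImplicit false

namespace Fermat.Agent.H13

open WeierstrassCurve WeierstrassCurve.Affine IsLocalRing
open scoped WeierstrassCurve.Affine Pointwise

section val

variable {K : Type*} [Field K] {A : ValuationSubring K}

/-- the valuation of an integer. -/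
lemma valuation_intCast [CharZero K] {q : ℕ} (hq : q.Prime) (hA : A.LiesOverPrime q) {n : ℤ}
    (hn : n ≠ 0) : A.valuation (n : K) = A.valuation (q : K) ^ padicValInt q n := by
  have := Fact.mk hq
  obtain ⟨m, hm⟩ := (padicValInt_dvd (p := q) n)
  have hm' : ¬ (q : ℤ) ∣ m := by
    intro h
    obtain ⟨l, rfl⟩ := h
    have h1 : (q : ℤ) ^ (padicValInt q n + 1) ∣ n := ⟨l, by rw [pow_succ]; linear_combination hm⟩
    rw [padicValInt_dvd_iff] at h1
    rcases h1 with h1 | h1
    · exact hn h1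
    · omega
  have h2 : (n : K) = (q : K) ^ padicValInt q n * (m : K) := by
    have := congrArg (fun z : ℤ => (z : K)) hm
    simpa using this
  rw [h2, map_mul, H72.val_intCast_eq_one hq hA hm', mul_one, map_pow]

lemma GoodNode.valuation_g [CharZero K] {W : WeierstrassCurve ℤ} {x₀ y₀ α β g : A}
    (hN : GoodNode (W.map (Int.castRingHom A)) x₀ y₀ α β g) {q : ℕ} (hq : q.Prime)
    (hA : A.LiesOverPrime q) (hΔ : W.Δ ≠ 0) :
    A.valuation (g : K) = A.valuation (q : K) ^ padicValInt q W.Δ := by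
  rw [← valuation_intCast hq hA hΔ]
  have h1 := hN.nd.disc
  rw [map_Δ, eq_intCast, ← hN.nd.delta_sq] at h1
  have h2 : IsUnit (((α - β) ^ 2) ^ 3 + 432 * g) :=
    isUnit_add_of_mem ((hN.unit.pow 2).pow 3) (Ideal.mul_mem_left _ _ hN.g_mem)
  have h3 : ((W.Δ : A) : K) = (W.Δ : K) := map_intCast A.subtype W.Δ
  rw [← h3, h1]
  push_cast
  rw [map_mul, Valuation.map_neg]
  have h4 := valuation_unit h2
  push_cast at h4
  rw [h4, mul_one]

lemma pow_left_inj_val {Γ : Type*} [LinearOrderedCommGroupWithZero Γ] {a b : Γ} {n : ℕ}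
    (hn : n ≠ 0) (h : a ^ n = b ^ n) : a = b := by
  rcases lt_trichotomy a b with hlt | heq | hgt
  · exact absurd h (pow_lt_pow_left₀ hlt zero_le hn).ne
  · exact heq
  · exact absurd h (pow_lt_pow_left₀ hgt zero_le hn).ne'

end val

section points

variable {R S K : Type*} [CommRing R] [Field S] [Field K] [Algebra R S] [Algebra R K] [Algebra S K]
  [IsScalarTower R S K] [Algebra.IsAlgebraic S K] {W : WeierstrassCurve ℤ} {E : Affine R}
  {A : ValuationSubring K} {x₀ y₀ α β g : A} [DecidableEq K]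

/-- A torsion point near the node whose leading coordinate has the valuation of an element fixed by
inertia is fixed by inertia. -/
lemma smul_eq_of_near_aux (hN : GoodNode (W.map (Int.castRingHom A)) x₀ y₀ α β g)
    (hE : W.map (Int.castRingHom R) = E) {σ : K ≃ₐ[S] K} (hσ : σ ∈ A.inertiaSubgroupIn S)
    {x y : K} {h : (E⁄K).Nonsingular x y} {p : ℕ} (hp : (p : ResidueField A) ≠ 0)
    (hpP : p • (Point.some x y h : (E⁄K).Point) = 0) (hnear : A.valuation (x - x₀) < 1)
    (hle : A.valuation (sC (x₀ : K) y₀ β x y) ≤ A.valuation (sC (x₀ : K) y₀ α x y))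
    {z : K} (hz : σ z = z) (hzv : A.valuation (sC (x₀ : K) y₀ α x y) = A.valuation z) :
    σ • (Point.some x y h : (E⁄K).Point) = Point.some x y h := by
  classical
  obtain ⟨h1, h2, -, h3, h4⟩ := hN.inertia hσ
  have hd := mem_decomposition_of_mem_inertia hσ
  have hL := H59.model_map (A := A) (K := K) hE
  have hst := (hN.nd' hL).st h.1
  have hne := near_ne A.valuation hN.g_ne' hN.v_δ NodeData.ts hst
  rw [max_eq_left hle] at hne
  set s := sC (x₀ : K) y₀ α x y with hs
  have hz0 : A.valuation z ≠ 0 := by rw [← hzv]; exact hne.ne'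
  have hz0' : z ≠ 0 := (Valuation.ne_zero_iff _).mp hz0
  have e1 : sC (x₀ : K) y₀ α (σ x) (σ y) = σ s := by
    simp only [hs, sC, map_sub, map_mul, h1, h2, h3]
  have e2 : sC (x₀ : K) y₀ β (σ x) (σ y) = σ (sC (x₀ : K) y₀ β x y) := by
    simp only [sC, map_sub, map_mul, h1, h2, h4]
  -- `v (s - σ s) < v s`
  have hlt : A.valuation (s - σ s) < A.valuation s := by
    have hu : A.valuation (s / z) = 1 := by
      rw [map_div₀, hzv, div_self hz0]
    have h5 := H72.val_inertia_sub_lt hσ hu.le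
    have h6 : s - σ s = -(z * (σ (s / z) - s / z)) := by
      rw [map_div₀, hz]
      field_simp
      ring
    rw [h6, Valuation.map_neg, map_mul, hzv]
    calc A.valuation z * A.valuation (σ (s / z) - s / z) < A.valuation z * 1 :=
          mul_lt_mul_of_pos_left h5 (zero_lt_iff.mpr hz0)
      _ = A.valuation z := mul_one _
  have hns' : (E⁄K).Nonsingular (σ x) (σ y) := by
    have : σ • (Point.some x y h : (E⁄K).Point) = σ • (Point.some x y h : (E⁄K).Point) := rfl
    rcases hh : σ • (Point.some x y h : (E⁄K).Point) with _ | ⟨x', y', h'⟩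
    · exact absurd hh (by intro h0; injection h0)
    · injection hh with e1 e2
      subst e1 e2
      exact h'
  have hred := sub_reduces_zero (Ek := (W.map (Int.castRingHom (ResidueField A))).toAffine) hN hL
    h hns' hnear hle (by
      rw [e1, e2, valuation_decomp hd, valuation_decomp hd]; exact hle) (by
      rw [e1, valuation_decomp hd]) (by rw [e1]; exact hlt)
  have hsm : σ • (Point.some x y h : (E⁄K).Point) = Point.some (σ x) (σ y) hns' := rfl
  rw [← hsm] at hred
  have h0 := H59.eq_zero_of_nsmul_eq_zero hL hred hp (by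
    rw [nsmul_sub, smul_comm p σ, hpP, smul_zero, sub_zero])
  exact (sub_eq_zero.mp h0).symm

/-- **(⇐)** local form: if `v g` is a `p`-th power of the valuation of an element fixed by inertia,
then inertia acts trivially on the `p`-torsion. -/
theorem smul_eq_of_dvd (hN : GoodNode (W.map (Int.castRingHom A)) x₀ y₀ α β g)
    (hE : W.map (Int.castRingHom R) = E) {σ : K ≃ₐ[S] K} (hσ : σ ∈ A.inertiaSubgroupIn S)
    {p : ℕ} (hp0 : p ≠ 0) (hp : (p : ResidueField A) ≠ 0) {z : K} (hz : σ z = z)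
    (hg : A.valuation (g : K) = A.valuation z ^ p)
    {P : (E⁄K).Point} (hpP : p • P = 0) : σ • P = P := by
  have hL := H59.model_map (A := A) (K := K) hE
  by_cases hnear : Near A x₀ P
  · rcases P with _ | ⟨x, y, h⟩
    · rfl
    · have hnear' : A.valuation (x - x₀) < 1 := hnear
      rcases le_total (A.valuation (sC (x₀ : K) y₀ β x y)) (A.valuation (sC (x₀ : K) y₀ α x y))
        with hle | hle
      · have hc : Comp A x₀ y₀ α β (Point.some x y h : (E⁄K).Point)
            (A.valuation (sC (x₀ : K) y₀ α x y)) := Or.inr ⟨hnear', Or.inl ⟨hle, rfl⟩⟩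
        obtain ⟨k, hk⟩ := hc.pow_eq hN hL hpP
        refine smul_eq_of_near_aux hN hE hσ hp hpP hnear' hle (z := z ^ k) ?_ ?_
        · rw [map_zpow₀, hz]
        · apply pow_left_inj_val hp0
          rw [hk, hg, map_zpow₀, ← zpow_natCast, ← zpow_natCast, ← zpow_mul, ← zpow_mul, mul_comm]
      · have hc : Comp A x₀ y₀ β α (Point.some x y h : (E⁄K).Point)
            (A.valuation (sC (x₀ : K) y₀ β x y)) := Or.inr ⟨hnear', Or.inl ⟨hle, rfl⟩⟩
        obtain ⟨k, hk⟩ := hc.pow_eq hN.swap hL hpP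
        refine smul_eq_of_near_aux hN.swap hE hσ hp hpP hnear' hle (z := z ^ k) ?_ ?_
        · rw [map_zpow₀, hz]
        · apply pow_left_inj_val hp0
          rw [hk, hg, map_zpow₀, ← zpow_natCast, ← zpow_natCast, ← zpow_mul, ← zpow_mul, mul_comm]
  · obtain ⟨P', hP'⟩ := exists_reduces_of_not_near hN hL (H59.model_residue _) hnear
    exact H59.smul_eq_of_inertia hE hσ hP' hp hpP

omit [Algebra.IsAlgebraic S K] [Algebra S K] [Field S] [Algebra R S] [IsScalarTower R S K] in
/-- there is a `p`-torsion point near the node. -/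
theorem exists_near (hN : GoodNode (W.map (Int.castRingHom A)) x₀ y₀ α β g)
    (hE : W.map (Int.castRingHom R) = E) {p : ℕ} (hp2 : 2 ≤ p) (hp : (p : ResidueField A) ≠ 0)
    (hcard : Nat.card (Submodule.torsionBy ℤ (E⁄K).Point (p : ℤ)) = p ^ 2) :
    ∃ P : (E⁄K).Point, p • P = 0 ∧ Near A x₀ P := by
  classical
  by_contra hcon
  push Not at hcon
  have hL := H59.model_map (A := A) (K := K) hE
  have hk : (W.map (Int.castRingHom A)).map (residue A) = W.map (Int.castRingHom (ResidueField A)) :=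
    H59.model_residue _
  have hT : ∀ P : Submodule.torsionBy ℤ (E⁄K).Point (p : ℤ), p • (P : (E⁄K).Point) = 0 := by
    intro P
    have h := (Submodule.mem_torsionBy_iff _ _).mp P.2
    rw [← natCast_zsmul]
    exact h
  have hred : ∀ P : Submodule.torsionBy ℤ (E⁄K).Point (p : ℤ),
      ∃ P' : (W.map (Int.castRingHom (ResidueField A))).toAffine.Point,
        H59.Reduces A (residue A) (P : (E⁄K).Point) P' := fun P =>
    exists_reduces_of_not_near hN hL hk (hcon P (hT P))
  choose r hr using hred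
  have hnd := hN.ndk hk
  let f : Submodule.torsionBy ℤ (E⁄K).Point (p : ℤ) →
      (Polynomial.nthRoots p (1 : ResidueField A)).toFinset := fun P =>
    ⟨mulT (residue A x₀) (residue A y₀) (residue A α) (residue A β) (r P), by
      rw [Multiset.mem_toFinset, Polynomial.mem_nthRoots (by omega), ← mulT_nsmul hnd hN.αβk]
      have h1 : H59.Reduces A (residue A) (p • (P : (E⁄K).Point)) (p • r P) :=
        (hr P).nsmul hL hk p
      rw [hT P] at h1
      have h2 : p • r P = 0 := h1.unique trivial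
      rw [h2]
      rfl⟩
  have hf : Function.Injective f := by
    intro P Q hPQ
    have h1 : r P = r Q := mulT_injective hnd hN.αβk (congrArg Subtype.val hPQ)
    apply Subtype.ext
    have hQ := hr Q
    rw [← h1] at hQ
    exact H59.eq_of_reduces_of_nsmul_eq_zero hL hk (hr P) hQ hp (hT P) (hT Q)
  have h1 := Nat.card_le_card_of_injective f hf
  rw [hcard, Nat.card_eq_fintype_card, Fintype.card_coe] at h1
  have h2 : (Polynomial.nthRoots p (1 : ResidueField A)).toFinset.card ≤ p :=
    (Multiset.toFinset_card_le _).trans (Polynomial.card_nthRoots p 1)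
  nlinarith

omit [Algebra.IsAlgebraic S K] in
/-- **(⇒)** local form: if `σ` in inertia fixes the `p`-torsion point `P` near the node, and
`v g = (v z) ^ (N)` with `p ∤ N`, `z = π ^ p`, then `σ π = π`. -/
theorem fix_of_smul_eq (hN : GoodNode (W.map (Int.castRingHom A)) x₀ y₀ α β g)
    (hE : W.map (Int.castRingHom R) = E) {σ : K ≃ₐ[S] K} (hσ : σ ∈ A.inertiaSubgroupIn S)
    {p : ℕ} (hp : p.Prime) (hpk : (p : ResidueField A) ≠ 0) {P : (E⁄K).Point} (hpP : p • P = 0)
    (hnear : Near A x₀ P) (hσP : σ • P = P) {π z : K} (hπ : π ^ p = z) (hσz : σ z = z) {N : ℕ}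
    (hz0 : z ≠ 0)
    (hg : A.valuation (g : K) = A.valuation z ^ N) (hpN : ¬ p ∣ N) : σ π = π := by
  have hL := H59.model_map (A := A) (K := K) hE
  have hp0 : p ≠ 0 := hp.ne_zero
  have hπ0 : π ≠ 0 := by
    rintro rfl
    rw [zero_pow hp0] at hπ
    exact hz0 hπ.symm
  rcases P with _ | ⟨x, y, h⟩
  · exact hnear.elim
  -- WLOG `v t ≤ v s`
  wlog hle : A.valuation (sC (x₀ : K) y₀ β x y) ≤ A.valuation (sC (x₀ : K) y₀ α x y)
    generalizing α β
  · exact this hN.swap (le_of_lt (not_le.mp hle))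
  have hnear' : A.valuation (x - x₀) < 1 := hnear
  obtain ⟨h1, h2, -, h3, h4⟩ := hN.inertia hσ
  set s := sC (x₀ : K) y₀ α x y with hs
  have hc : Comp A x₀ y₀ α β (Point.some x y h : (E⁄K).Point) (A.valuation s) :=
    Or.inr ⟨hnear', Or.inl ⟨hle, rfl⟩⟩
  obtain ⟨k, hk⟩ := hc.pow_eq hN hL hpP
  -- `p ∤ k`
  have hpk' : ¬ (p : ℤ) ∣ k := by
    rintro ⟨l, rfl⟩
    have : A.valuation s = A.valuation (g : K) ^ l := by
      apply pow_left_inj_val hp0
      rw [hk, ← zpow_natCast, ← zpow_mul, mul_comm]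
    rw [this] at hc
    exact not_near_of_comp hN hL hc hnear
  have hpNk : ¬ (p : ℤ) ∣ (N : ℤ) * k := by
    intro hdvd
    rcases (Nat.prime_iff_prime_int.mp hp).dvd_or_dvd hdvd with h' | h'
    · exact hpN (Int.natCast_dvd_natCast.mp h')
    · exact hpk' h'
  -- `σ s = s`
  have hσx : σ x = x ∧ σ y = y := by
    have hh : (Point.some (σ x) (σ y) _ : (E⁄K).Point) = Point.some x y h := hσP
    injection hh with e1 e2
    exact ⟨e1, e2⟩
  have hσs : σ s = s := by
    simp only [hs, sC, map_sub, map_mul, h1, h2, h3, hσx.1, hσx.2]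
  have hne := near_ne A.valuation hN.g_ne' hN.v_δ NodeData.ts ((hN.nd' hL).st h.1)
  rw [max_eq_left hle] at hne
  have hs0 : s ≠ 0 := (Valuation.ne_zero_iff _).mp hne.ne'
  -- `v s = v (π ^ (N k))`
  have hvs : A.valuation s = A.valuation (π ^ ((N : ℤ) * k)) := by
    apply pow_left_inj_val hp0
    rw [hk, hg, ← map_pow, ← hπ, map_pow, ← map_pow, ← zpow_natCast, ← zpow_natCast, ← zpow_natCast,
      ← map_zpow₀, ← map_zpow₀, ← zpow_mul, ← zpow_mul, ← zpow_mul]
    congr 2
    ring
  set w := s / π ^ ((N : ℤ) * k) with hw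
  have hπk0 : π ^ ((N : ℤ) * k) ≠ 0 := zpow_ne_zero _ hπ0
  have hvw : A.valuation w = 1 := by
    rw [hw, map_div₀, hvs, div_self ((Valuation.ne_zero_iff _).mpr hπk0)]
  have hlt := H72.val_inertia_sub_lt hσ hvw.le
  -- `ζ = σ π / π`
  set ζ := σ π / π with hζ
  have hζp : ζ ^ p = 1 := by
    rw [hζ, div_pow, ← map_pow, hπ, hσz, div_self hz0]
  have hζ0 : ζ ≠ 0 := by
    rintro h0
    rw [h0, zero_pow hp0] at hζp
    exact zero_ne_one hζp
  have hσπ : σ π = ζ * π := by rw [hζ]; field_simp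
  have hσw : σ w = w * (ζ ^ ((N : ℤ) * k))⁻¹ := by
    rw [hw, map_div₀, hσs, map_zpow₀, hσπ, mul_zpow]
    field_simp
  -- `ζ ^ (N k) ≡ 1`
  have hζk : A.valuation ((ζ ^ ((N : ℤ) * k))⁻¹ - 1) < 1 := by
    have : σ w - w = w * ((ζ ^ ((N : ℤ) * k))⁻¹ - 1) := by rw [hσw]; ring
    rw [this, map_mul, hvw, one_mul] at hlt
    exact hlt
  -- roots of unity of order `p` inject into the residue field
  have inj : ∀ η : K, η ^ p = 1 → A.valuation (η - 1) < 1 → η = 1 := by
    intro η hη hlt
    by_contra hne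
    have hηA : η ∈ A := by
      rw [← A.valuation_le_one_iff]
      have : A.valuation η ^ p = 1 := by rw [← map_pow, hη, map_one]
      by_contra hcon
      push Not at hcon
      exact absurd this (one_lt_pow₀ hcon hp0).ne'
    have hgeom : (∑ i ∈ Finset.range p, η ^ i) = 0 := by
      have h5 := geom_sum_mul η p
      rw [hη, sub_self] at h5
      exact (mul_eq_zero.mp h5).resolve_right (sub_ne_zero.mpr hne)
    have hgeom' : (∑ i ∈ Finset.range p, (⟨η, hηA⟩ : A) ^ i) = 0 := by
      apply Subtype.ext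
      push_cast
      exact hgeom
    have hres : residue A ⟨η, hηA⟩ = 1 := by
      have : residue A ⟨η, hηA⟩ = residue A 1 := valuation_sub_lt_iff.mp hlt
      rw [this, map_one]
    have := congrArg (residue A) hgeom'
    rw [map_sum, map_zero] at this
    simp only [map_pow, hres, one_pow, Finset.sum_const, Finset.card_range, nsmul_eq_mul,
      mul_one] at this
    exact hpk this
  have h6 := inj ((ζ ^ ((N : ℤ) * k))⁻¹) (by
    rw [inv_pow, ← zpow_natCast, ← zpow_mul, mul_comm, zpow_mul, zpow_natCast, hζp, one_zpow,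
      inv_one]) hζk
  -- `ζ = 1` since `p ∤ N k`
  have hcop : IsCoprime (p : ℤ) ((N : ℤ) * k) :=
    (Prime.coprime_iff_not_dvd (Nat.prime_iff_prime_int.mp hp)).mpr hpNk
  obtain ⟨a, b, hab⟩ := hcop
  have hζ1 : ζ = 1 := by
    rw [inv_eq_one] at h6
    calc ζ = ζ ^ (a * p + b * ((N : ℤ) * k)) := by rw [hab, zpow_one]
      _ = (ζ ^ (p : ℤ)) ^ a * (ζ ^ ((N : ℤ) * k)) ^ b := by
        rw [zpow_add₀ hζ0, mul_comm a, mul_comm b, zpow_mul, zpow_mul]
      _ = 1 := by rw [h6, zpow_natCast, hζp, one_zpow, one_zpow, one_mul]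
  rw [hσπ, hζ1, one_mul]

end points

/-- **EC7.** For a prime `q ≠ p` of multiplicative reduction, `E[p]` is unramified at `q` iff
`p ∣ v_q(Δ)`. -/
theorem unramified_iff {W : WeierstrassCurve ℤ} {q p : ℕ} (hq : q.Prime) (hp : p.Prime)
    (hbad : (q : ℤ) ∣ W.Δ) (hΔ : W.Δ ≠ 0) (hc : ¬ (q : ℤ) ∣ W.c₄) (hqp : q ≠ p) :
    Point.GaloisRepUnramifiedAt (S := ℚ) (K := AlgebraicClosure ℚ)
      (W.map (Int.castRingHom ℚ)) p q ↔ p ∣ padicValInt q W.Δ := by
  have := H73.isAlgebraic_Qbar
  have hpq : ¬ q ∣ p := fun h => hqp ((Nat.prime_dvd_prime_iff_eq hq hp).mp h)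
  have hT : ∀ P : Submodule.torsionBy ℤ ((W.map (Int.castRingHom ℚ))⁄(AlgebraicClosure ℚ)).Point
      (p : ℤ), p • (P : ((W.map (Int.castRingHom ℚ))⁄(AlgebraicClosure ℚ)).Point) = 0 := by
    intro P
    have h := (Submodule.mem_torsionBy_iff _ _).mp P.2
    rw [← natCast_zsmul]
    exact h
  constructor
  · intro hun
    by_contra hN
    refine not_forall_inertia_fix hq hp.two_le fun A hA σ hσ π hπ => ?_
    obtain ⟨x₀, y₀, α, β, g, hnode⟩ := exists_goodNode hq hbad hΔ hc hA
    have hpk := H59.natCast_residue_ne_zero hq hA hpq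
    obtain ⟨P, hpP, hnear⟩ := exists_near (E := W.map (Int.castRingHom ℚ)) hnode rfl hp.two_le hpk
      (H87.EC.natCard_torsionBy_rat _ (H87.EC.map_int_Δ_ne_zero hΔ) hp.ne_zero)
    have hfix : σ • P = P := by
      have hmem : P ∈ Submodule.torsionBy ℤ
          ((W.map (Int.castRingHom ℚ))⁄(AlgebraicClosure ℚ)).Point (p : ℤ) := by
        rw [Submodule.mem_torsionBy_iff]
        change (p : ℤ) • P = 0
        rw [natCast_zsmul]
        exact hpP
      exact congrArg Subtype.val (hun A hA σ hσ ⟨P, hmem⟩)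
    exact fix_of_smul_eq hnode rfl hσ hp hpk hpP hnear hfix hπ (map_natCast σ q)
      (by exact_mod_cast hq.ne_zero) (hnode.valuation_g hq hA hΔ) hN
  · rintro ⟨m, hm⟩ A hA σ hσ P
    obtain ⟨x₀, y₀, α, β, g, hnode⟩ := exists_goodNode hq hbad hΔ hc hA
    have hpk := H59.natCast_residue_ne_zero hq hA hpq
    apply Subtype.ext
    refine smul_eq_of_dvd (z := (q : AlgebraicClosure ℚ) ^ m) hnode rfl hσ hp.ne_zero hpk ?_ ?_ (hT P)
    · rw [map_pow, map_natCast]
    · rw [hnode.valuation_g hq hA hΔ, hm, map_pow, ← pow_mul, mul_comm]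

end Fermat.Agent.H13
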