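import Fermat.Agent.H63Cyclo
import Fermat.Agent.H13EC7

/-!
# Uniqueness of the quadratic field unramified outside an odd prime (for EC10)
-/

set_option autoImplicit false

namespace Fermat.Agent.H73.Quad

open IntermediateField

local notation "Qb" => AlgebraicClosure ℚ
local notation "GQ" => (AlgebraicClosure ℚ ≃ₐ[ℚ] AlgebraicClosure ℚ)



/-- an open subgroup of index 2 is the stabiliser of a square root -/
theorem exists_sqrt (G : Subgroup GQ) (hG : IsOpen (G : Set GQ)) (h2 : G.index = 2) :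
    ∃ (x : Qb) (m : ℤ), x ^ 2 = (m : Qb) ∧ m ≠ 0 ∧ x ≠ 0 ∧
      (∀ σ ∈ G, σ x = x) ∧ ∀ σ ∉ G, σ x = -x := by
  have hN : G.Normal := Subgroup.normal_of_index_eq_two h2
  have hGc : IsClosed (G : Set GQ) := Subgroup.isClosed_of_isOpen G hG
  have hne : G ≠ ⊤ := by
    rintro rfl; simp at h2
  obtain ⟨σ₀, hσ₀⟩ : ∃ σ₀, σ₀ ∉ G := by
    by_contra h; push Not at h; exact hne (eq_top_iff.mpr fun σ _ => h σ)
  have hE : (fixedField G).fixingSubgroup = G :=
    InfiniteGalois.fixingSubgroup_fixedField ⟨G, hGc⟩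
  have h3 : σ₀ ∉ (fixedField G).fixingSubgroup := by rwa [hE]
  rw [IntermediateField.mem_fixingSubgroup_iff] at h3
  push Not at h3
  obtain ⟨y, hy, hσy⟩ := h3
  have hyG : ∀ g ∈ G, g y = y := fun g hg => hy ⟨g, hg⟩
  have hmul : ∀ a b : GQ, a ∉ G → b ∉ G → a * b ∈ G := fun a b ha hb =>
    (Subgroup.mul_mem_iff_of_index_two h2).mpr (by simp [ha, hb])
  let x := y - σ₀ y
  have hx0 : x ≠ 0 := sub_ne_zero.mpr fun h => hσy h.symm
  have hxG : ∀ σ ∈ G, σ x = x := by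
    intro σ hσ
    have h4 : σ (σ₀ y) = σ₀ y := by
      have h5 : (σ₀⁻¹ * σ * σ₀) ∈ G := by
        have := hN.conj_mem σ hσ σ₀⁻¹
        rwa [inv_inv] at this
      have h6 : σ₀ (σ₀⁻¹ (σ (σ₀ y))) = σ₀ y := congrArg σ₀ (hyG _ h5)
      have h7 : σ₀ (σ₀⁻¹ (σ (σ₀ y))) = σ (σ₀ y) := AlgEquiv.apply_symm_apply σ₀ _
      rw [← h7, h6]
    change σ (y - σ₀ y) = y - σ₀ y
    rw [map_sub, hyG σ hσ, h4]
  have hxn : ∀ σ ∉ G, σ x = -x := by
    intro σ hσ
    have h4 : σ (σ₀ y) = y := hyG (σ * σ₀) (hmul σ σ₀ hσ hσ₀)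
    have h5 : σ y = σ₀ y := by
      have h6 : (σ₀⁻¹ * σ) ∈ G := hmul _ _ (fun h => hσ₀ (by simpa using G.inv_mem h)) hσ
      have h7 : σ₀ (σ₀⁻¹ (σ y)) = σ₀ y := congrArg σ₀ (hyG _ h6)
      have h8 : σ₀ (σ₀⁻¹ (σ y)) = σ y := AlgEquiv.apply_symm_apply σ₀ _
      rw [← h8, h7]
    change σ (y - σ₀ y) = -(y - σ₀ y)
    rw [map_sub, h4, h5, neg_sub]
  have hfix : ∀ σ : GQ, σ (x ^ 2) = x ^ 2 := by
    intro σ
    rw [map_pow]
    by_cases hσ : σ ∈ G
    · rw [hxG σ hσ]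
    · rw [hxn σ hσ, neg_sq]
  obtain ⟨d, hd⟩ := IntermediateField.mem_bot.mp ((InfiniteGalois.mem_bot_iff_fixed (x ^ 2)).mpr hfix)
  have hd0 : d ≠ 0 := by
    rintro rfl
    rw [map_zero] at hd
    exact hx0 (pow_eq_zero_iff (two_ne_zero)|>.mp hd.symm)
  refine ⟨(d.den : Qb) * x, d.den * d.num, ?_, ?_, ?_, ?_, ?_⟩
  · rw [mul_pow, ← hd]
    have : (algebraMap ℚ Qb d) * (d.den : Qb) = (d.num : Qb) := by
      have h8 := Rat.mul_den_eq_num d
      have h9 := congrArg (algebraMap ℚ Qb) h8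
      rw [map_mul, map_natCast, map_intCast] at h9
      exact h9
    push_cast
    linear_combination (d.den : Qb) * this
  · exact mul_ne_zero (by exact_mod_cast d.den_ne_zero) (Rat.num_ne_zero.mpr hd0)
  · exact mul_ne_zero (by exact_mod_cast d.den_ne_zero) hx0
  · intro σ hσ
    rw [map_mul, map_natCast, hxG σ hσ]
  · intro σ hσ
    rw [map_mul, map_natCast, hxn σ hσ, mul_neg]

section Inertia

variable {p : ℕ} {A : ValuationSubring Qb}

/-- inertia fixes square roots of units -/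
theorem fix_of_unit (hp : p.Prime) (hp2 : p ≠ 2) (hA : A.LiesOverPrime p) {z : Qb}
    (hz : A.valuation z = 1) {σ : GQ} (hσ : σ ∈ A.inertiaSubgroupIn ℚ) (h : σ z = z ∨ σ z = -z) :
    σ z = z := by
  rcases h with h | h
  · exact h
  exfalso
  have h1 := H72.val_inertia_sub_lt hσ hz.le
  rw [h] at h1
  have h2 : -z - z = -(2 * z) := by ring
  rw [h2, Valuation.map_neg, map_mul, hz, mul_one] at h1
  have h3 := H13.valuation_intCast (K := Qb) hp hA (n := 2) (by norm_num)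
  have h4 : padicValInt p 2 = 0 := by
    have : (2 : ℤ) = ((2 : ℕ) : ℤ) := rfl
    rw [this, padicValInt.of_nat]
    refine padicValNat.eq_zero_of_not_dvd fun h => ?_
    exact hp2 ((Nat.prime_dvd_prime_iff_eq hp Nat.prime_two).mp h)
  rw [h4, pow_zero] at h3
  push_cast at h3
  rw [h3] at h1
  exact lt_irrefl _ h1

theorem val_eq_one_of_sq {z : Qb} {g : A.ValueGroup} (hg : A.valuation z * A.valuation z = g * g)
    : A.valuation z = g := by
  rcases le_total (A.valuation z) g with h | h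
  · by_contra hne
    have h1 := lt_of_le_of_ne h hne
    have : A.valuation z * A.valuation z < g * g := mul_lt_mul'' h1 h1 zero_le zero_le
    exact absurd hg this.ne
  · by_contra hne
    have h1 := lt_of_le_of_ne h (Ne.symm hne)
    have : g * g < A.valuation z * A.valuation z := mul_lt_mul'' h1 h1 zero_le zero_le
    exact absurd hg.symm this.ne

theorem inertia_sqrt_even (hp : p.Prime) (hp2 : p ≠ 2) (hA : A.LiesOverPrime p) {x : Qb} {m : ℤ}
    (hx : x ^ 2 = (m : Qb)) (hm : m ≠ 0) {j : ℕ} (hj : padicValInt p m = 2 * j) {σ : GQ}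
    (hσ : σ ∈ A.inertiaSubgroupIn ℚ) (h : σ x = x ∨ σ x = -x) : σ x = x := by
  have hp0 : ((p : ℕ) : Qb) ≠ 0 := Nat.cast_ne_zero.mpr hp.ne_zero
  have hvp : A.valuation (p : Qb) ≠ 0 := (Valuation.ne_zero_iff _).mpr hp0
  have h1 := H13.valuation_intCast (K := Qb) hp hA hm
  rw [hj, ← hx, map_pow, two_mul, pow_add, sq] at h1
  have h2 := val_eq_one_of_sq h1
  have h3 : A.valuation (x / (p : Qb) ^ j) = 1 := by
    rw [map_div₀, h2, map_pow]
    exact div_self (pow_ne_zero _ hvp)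
  have h4 : σ (x / (p : Qb) ^ j) = σ x / (p : Qb) ^ j := by
    rw [map_div₀, map_pow, map_natCast]
  have h5 := fix_of_unit hp hp2 hA h3 hσ (by
    rw [h4]
    rcases h with h | h
    · left; rw [h]
    · right; rw [h, neg_div])
  rw [h4, div_left_inj' (pow_ne_zero _ hp0)] at h5
  exact h5

theorem inertia_sqrt_mul (hp : p.Prime) (hp2 : p ≠ 2) (hA : A.LiesOverPrime p) {x y : Qb}
    {m n : ℤ} (hx : x ^ 2 = (m : Qb)) (hy : y ^ 2 = (n : Qb)) (hm : m ≠ 0) (hn : n ≠ 0)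
    (hmo : Odd (padicValInt p m)) (hno : Odd (padicValInt p n)) {σ : GQ}
    (hσ : σ ∈ A.inertiaSubgroupIn ℚ) (h : σ x = x ∨ σ x = -x) (h' : σ y = y ∨ σ y = -y) :
    σ (x * y) = x * y := by
  have := Fact.mk hp
  obtain ⟨j, hj⟩ := hmo.add_odd hno
  have h1 : padicValInt p (m * n) = 2 * j := by
    rw [padicValInt.mul hm hn, hj, two_mul]
  refine inertia_sqrt_even hp hp2 hA (m := m * n) (by rw [mul_pow, hx, hy]; push_cast; ring)
    (mul_ne_zero hm hn) h1 hσ ?_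
  rw [map_mul]
  rcases h with h | h <;> rcases h' with h' | h' <;> rw [h, h'] <;> simp

end Inertia

/-- **Uniqueness of the quadratic field unramified outside an odd prime `p`.** -/
theorem eq_of_index_two {p : ℕ} (hp : p.Prime) (hp2 : p ≠ 2) (G₁ G₂ : Subgroup GQ)
    (ho₁ : IsOpen (G₁ : Set GQ)) (ho₂ : IsOpen (G₂ : Set GQ)) (h₁ : G₁.index = 2)
    (h₂ : G₂.index = 2)
    (hi₁ : ∀ q : ℕ, q.Prime → q ≠ p → ∀ A : ValuationSubring Qb, A.LiesOverPrime q →
      A.inertiaSubgroupIn ℚ ≤ G₁)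
    (hi₂ : ∀ q : ℕ, q.Prime → q ≠ p → ∀ A : ValuationSubring Qb, A.LiesOverPrime q →
      A.inertiaSubgroupIn ℚ ≤ G₂) : G₁ = G₂ := by
  obtain ⟨x, m, hx, hm, hx0, hxf, hxn⟩ := exists_sqrt G₁ ho₁ h₁
  obtain ⟨y, n, hy, hn, hy0, hyf, hyn⟩ := exists_sqrt G₂ ho₂ h₂
  have hx' : ∀ σ : GQ, σ x = x ∨ σ x = -x := fun σ => by
    by_cases h : σ ∈ G₁
    · exact Or.inl (hxf σ h)
    · exact Or.inr (hxn σ h)
  have hy' : ∀ σ : GQ, σ y = y ∨ σ y = -y := fun σ => by
    by_cases h : σ ∈ G₂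
    · exact Or.inl (hyf σ h)
    · exact Or.inr (hyn σ h)
  have hself : ∀ z : Qb, z ≠ 0 → z ≠ -z := fun z hz h => by
    have : (2 : Qb) * z = 0 := by linear_combination h
    exact hz ((mul_eq_zero.mp this).resolve_left two_ne_zero)
  -- odd valuations
  have hodd : ∀ (G : Subgroup GQ) (x : Qb) (m : ℤ), IsOpen (G : Set GQ) → G.index = 2 →
      (∀ q : ℕ, q.Prime → q ≠ p → ∀ A : ValuationSubring Qb, A.LiesOverPrime q →
        A.inertiaSubgroupIn ℚ ≤ G) → x ^ 2 = (m : Qb) → m ≠ 0 → x ≠ 0 → (∀ σ ∈ G, σ x = x) →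
      (∀ σ ∉ G, σ x = -x) → Odd (padicValInt p m) := by
    intro G x m ho h2 hi hx hm hx0 hxf hxn
    rw [← Nat.not_even_iff_odd]
    rintro ⟨j, hj⟩
    rw [← two_mul] at hj
    have htop : G = ⊤ := by
      refine H63.eq_top_of_isOpen_of_inertia_le G ho fun q hq A hA => ?_
      by_cases hqp : q = p
      · subst hqp
        intro σ hσ
        by_contra hσG
        have h3 := inertia_sqrt_even hq hp2 hA hx hm hj hσ (Or.inr (hxn σ hσG))
        rw [hxn σ hσG] at h3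
        exact hself x hx0 h3.symm
      · exact hi q hq hqp A hA
    rw [htop, Subgroup.index_top] at h2
    exact absurd h2 (by norm_num)
  have ho1 := hodd G₁ x m ho₁ h₁ hi₁ hx hm hx0 hxf hxn
  have ho2 := hodd G₂ y n ho₂ h₂ hi₂ hy hn hy0 hyf hyn
  have hfix : ∀ σ : GQ, σ (x * y) = x * y := by
    let U : Subgroup GQ := MulAction.stabilizer GQ (x * y)
    have hU : IsOpen (U : Set GQ) :=
      stabilizer_isOpen_of_isIntegral (K := ℚ) (L := AlgebraicClosure ℚ) (x * y)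
    have htop : U = ⊤ := by
      refine H63.eq_top_of_isOpen_of_inertia_le U hU fun q hq A hA => ?_
      intro σ hσ
      change σ (x * y) = x * y
      by_cases hqp : q = p
      · subst hqp
        exact inertia_sqrt_mul hq hp2 hA hx hy hm hn ho1 ho2 hσ (hx' σ) (hy' σ)
      · rw [map_mul, hxf σ (hi₁ q hq hqp A hA hσ), hyf σ (hi₂ q hq hqp A hA hσ)]
    intro σ
    have : σ ∈ U := htop ▸ trivial
    exact this
  ext σ
  have h3 := hfix σ
  rw [map_mul] at h3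
  constructor
  · intro h
    by_contra h'
    rw [hxf σ h, hyn σ h', mul_neg] at h3
    exact hself (x * y) (mul_ne_zero hx0 hy0) h3.symm
  · intro h
    by_contra h'
    rw [hxn σ h', hyf σ h, neg_mul] at h3
    exact hself (x * y) (mul_ne_zero hx0 hy0) h3.symm

end Fermat.Agent.H73.Quad
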