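import Fermat.Agent.H99PrimeSum

set_option autoImplicit false

namespace Fermat.Agent.H99

open Filter Topology

/-- normalised Dirichlet-type sum -/
noncomputable def dsum (c : Nat.Primes → ℝ) (s : ℝ) : ℝ :=
  ∑' p : Nat.Primes, c p * ((p : ℕ) : ℝ) ^ (-s)

/-- `c` has logarithmic density `δ` -/
def HasLogDensity (c : Nat.Primes → ℝ) (δ : ℝ) : Prop :=
  (∀ s : ℝ, 1 < s → Summable fun p : Nat.Primes => c p * ((p : ℕ) : ℝ) ^ (-s)) ∧
  Tendsto (fun s : ℝ => dsum c s / Real.log (1 / (s - 1))) (𝓝[>] 1) (𝓝 δ)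

lemma HasLogDensity.add {c d : Nat.Primes → ℝ} {δ ε : ℝ} (hc : HasLogDensity c δ)
    (hd : HasLogDensity d ε) : HasLogDensity (fun p => c p + d p) (δ + ε) := by
  refine ⟨fun s hs => ?_, ?_⟩
  · simpa only [add_mul] using (hc.1 s hs).add (hd.1 s hs)
  · refine (hc.2.add hd.2).congr' ?_
    filter_upwards [self_mem_nhdsWithin] with s hs
    have : dsum (fun p => c p + d p) s = dsum c s + dsum d s := by
      rw [dsum, dsum, dsum, ← (hc.1 s hs).tsum_add (hd.1 s hs)]
      exact tsum_congr fun p => add_mul _ _ _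
    rw [this, add_div]

lemma HasLogDensity.const_mul {c : Nat.Primes → ℝ} {δ : ℝ} (a : ℝ) (hc : HasLogDensity c δ) :
    HasLogDensity (fun p => a * c p) (a * δ) := by
  refine ⟨fun s hs => ?_, ?_⟩
  · simpa only [mul_assoc] using (hc.1 s hs).mul_left a
  · refine (hc.2.const_mul a).congr' ?_
    filter_upwards [self_mem_nhdsWithin] with s hs
    have : dsum (fun p => a * c p) s = a * dsum c s := by
      rw [dsum, dsum, ← tsum_mul_left]
      exact tsum_congr fun p => mul_assoc _ _ _
    rw [this, mul_div_assoc]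

lemma HasLogDensity.sub {c d : Nat.Primes → ℝ} {δ ε : ℝ} (hc : HasLogDensity c δ)
    (hd : HasLogDensity d ε) : HasLogDensity (fun p => c p - d p) (δ - ε) := by
  have := hc.add (hd.const_mul (-1))
  simpa only [neg_mul, one_mul, ← sub_eq_add_neg] using this

lemma hasLogDensity_zero : HasLogDensity (fun _ => 0) 0 := by
  refine ⟨fun s _ => by simp, ?_⟩
  simp [dsum]

lemma HasLogDensity.sum {ι : Type*} (t : Finset ι) {c : ι → Nat.Primes → ℝ} {δ : ι → ℝ}
    (h : ∀ i ∈ t, HasLogDensity (c i) (δ i)) :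
    HasLogDensity (fun p => ∑ i ∈ t, c i p) (∑ i ∈ t, δ i) := by
  classical
  induction t using Finset.induction_on with
  | empty => simp [hasLogDensity_zero]
  | insert i t hi ih =>
    simp only [Finset.sum_insert hi]
    exact (h i (Finset.mem_insert_self _ _)).add
      (ih fun j hj => h j (Finset.mem_insert_of_mem hj))

/-- finitely supported perturbations have density zero -/
lemma hasLogDensity_of_finite {c : Nat.Primes → ℝ} (hc : (Function.support c).Finite) :
    HasLogDensity c 0 := by
  have hsum : ∀ s : ℝ, Summable fun p : Nat.Primes => c p * ((p : ℕ) : ℝ) ^ (-s) := by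
    intro s
    refine summable_of_hasFiniteSupport (hc.subset ?_)
    intro p hp h0
    exact hp (by simp [h0])
  refine ⟨fun s _ => hsum s, ?_⟩
  have hb : Tendsto (fun s : ℝ => (∑ p ∈ hc.toFinset, |c p|) / Real.log (1 / (s - 1))) (𝓝[>] 1)
      (𝓝 0) := tendsto_const_nhds.div_atTop tendsto_log_inv
  refine squeeze_zero_norm' ?_ hb
  filter_upwards [self_mem_nhdsWithin, tendsto_log_inv.eventually_gt_atTop 0] with s hs hpos
  rw [Real.norm_eq_abs, abs_div, abs_of_pos hpos]
  refine div_le_div_of_nonneg_right ?_ hpos.le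
  have h1 : dsum c s = ∑ p ∈ hc.toFinset, c p * ((p : ℕ) : ℝ) ^ (-s) := by
    rw [dsum]
    refine tsum_eq_sum fun p hp => ?_
    have : c p = 0 := by
      by_contra h
      exact hp (hc.mem_toFinset.mpr h)
    rw [this, zero_mul]
  rw [h1]
  refine (Finset.abs_sum_le_sum_abs _ _).trans (Finset.sum_le_sum fun p _ => ?_)
  rw [abs_mul]
  have h2 : |((p : ℕ) : ℝ) ^ (-s)| ≤ 1 := by
    rw [abs_of_nonneg (by positivity)]
    have hp1 : (1:ℝ) ≤ ((p : ℕ) : ℝ) := by exact_mod_cast p.2.one_lt.le
    exact Real.rpow_le_one_of_one_le_of_nonpos hp1 (by linarith [Set.mem_Ioi.mp hs])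
  calc |c p| * |((p : ℕ) : ℝ) ^ (-s)| ≤ |c p| * 1 := mul_le_mul_of_nonneg_left h2 (abs_nonneg _)
    _ = |c p| := mul_one _

lemma HasLogDensity.congr_off {c d : Nat.Primes → ℝ} {δ : ℝ} (hc : HasLogDensity c δ)
    (S : Finset ℕ) (h : ∀ p : Nat.Primes, (p : ℕ) ∉ S → d p = c p) : HasLogDensity d δ := by
  have hfin : (Function.support (fun p => d p - c p)).Finite := by
    refine Set.Finite.subset (Set.Finite.preimage (Subtype.val_injective.injOn) S.finite_toSet) ?_
    intro p hp
    by_contra hpS
    exact hp (by simp [h p hpS])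
  have := hc.add (hasLogDensity_of_finite hfin)
  simpa using this

lemma HasLogDensity.unique {c : Nat.Primes → ℝ} {δ ε : ℝ} (h1 : HasLogDensity c δ)
    (h2 : HasLogDensity c ε) : δ = ε := tendsto_nhds_unique h1.2 h2.2

section Combo

variable {G : Type*} [Group G] [Finite G]

/-- number of `y` with `y⁻¹ f y` generating `D` -/
noncomputable def genCount (f : G) (D : Subgroup G) : ℕ :=
  Nat.card {y : G // Subgroup.zpowers (y⁻¹ * f * y) = D}

/-- number of generators of `D` -/
noncomputable def gens (D : Subgroup G) : ℕ := Nat.card {x : G // Subgroup.zpowers x = D}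

lemma sum_genCount (f : G) (C : Subgroup G) [Fintype (Subgroup G)] [DecidablePred (· ≤ C)] :
    Nat.card {y : G // y⁻¹ * f * y ∈ C} = ∑ D ∈ Finset.univ.filter (· ≤ C), genCount f D := by
  classical
  have := Fintype.ofFinite G
  simp only [genCount, Nat.card_eq_fintype_card, Fintype.card_subtype]
  rw [Finset.card_eq_sum_card_fiberwise (f := fun y => Subgroup.zpowers (y⁻¹ * f * y))
    (t := Finset.univ.filter (· ≤ C))]
  · refine Finset.sum_congr rfl fun D hD => ?_
    congr 1
    ext y
    simp only [Finset.mem_filter, Finset.mem_univ, true_and, and_iff_right_iff_imp]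
    intro h
    have : Subgroup.zpowers (y⁻¹ * f * y) ≤ C := h ▸ (Finset.mem_filter.mp hD).2
    exact this (Subgroup.mem_zpowers _)
  · intro y hy
    simp only [Finset.coe_filter, Finset.mem_univ, true_and, Set.mem_ofPred_eq] at hy ⊢
    exact (Subgroup.zpowers_le).mpr hy

lemma sum_gens (C : Subgroup G) [Fintype (Subgroup G)] [DecidablePred (· ≤ C)] :
    Nat.card C = ∑ D ∈ Finset.univ.filter (· ≤ C), gens D := by
  classical
  have := Fintype.ofFinite G
  have h0 : Nat.card C = Nat.card {x : G // x ∈ C} := rfl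
  rw [h0]
  simp only [gens, Nat.card_eq_fintype_card, Fintype.card_subtype]
  rw [Finset.card_eq_sum_card_fiberwise (f := fun y => Subgroup.zpowers y)
    (t := Finset.univ.filter (· ≤ C))]
  · refine Finset.sum_congr rfl fun D hD => ?_
    congr 1
    ext y
    simp only [Finset.mem_filter, Finset.mem_univ, true_and, and_iff_right_iff_imp]
    intro h
    have : Subgroup.zpowers y ≤ C := h ▸ (Finset.mem_filter.mp hD).2
    exact this (Subgroup.mem_zpowers _)
  · intro y hy
    simp only [Finset.coe_filter, Finset.mem_univ, true_and, Set.mem_ofPred_eq] at hy ⊢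
    exact (Subgroup.zpowers_le).mpr hy

theorem exists_conj_generator (a : Subgroup G → Nat.Primes → ℕ)
    (hsum : ∀ H, ∀ s : ℝ, 1 < s →
      Summable fun p : Nat.Primes => (a H p : ℝ) * ((p : ℕ) : ℝ) ^ (-s))
    (hlim : ∀ H, Tendsto (fun s : ℝ => (∑' p : Nat.Primes, (a H p : ℝ) * ((p : ℕ) : ℝ) ^ (-s)) /
      Real.log (1/(s-1))) (𝓝[>] 1) (𝓝 1))
    (bad : Finset ℕ) (F : Nat.Primes → G)
    (hF : ∀ p : Nat.Primes, (p : ℕ) ∉ bad → ∀ H : Subgroup G,
      Nat.card {y : G // y⁻¹ * F p * y ∈ H} = Nat.card H * a H p) (g : G) :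
    ∃ p : Nat.Primes, (p : ℕ) ∉ bad ∧
      ∃ y : G, Subgroup.zpowers (y⁻¹ * F p * y) = Subgroup.zpowers g := by
  classical
  have := Fintype.ofFinite (Subgroup G)
  have hdens : ∀ C : Subgroup G,
      HasLogDensity (fun p => (Nat.card {y : G // y⁻¹ * F p * y ∈ C} : ℝ)) (Nat.card C) := by
    intro C
    have h1 : HasLogDensity (fun p => (a C p : ℝ)) 1 := ⟨hsum C, hlim C⟩
    have h2 := h1.const_mul (Nat.card C : ℝ)
    rw [mul_one] at h2
    refine h2.congr_off bad fun p hp => ?_
    rw [hF p hp C]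
    push_cast
    ring
  have key : ∀ n : ℕ, ∀ C : Subgroup G, Nat.card C = n →
      HasLogDensity (fun p => (genCount (F p) C : ℝ)) (gens C : ℝ) := by
    intro n
    induction n using Nat.strong_induction_on with
    | _ n ih =>
      intro C hC
      have hlt : ∀ D ∈ (Finset.univ.filter (· ≤ C)).erase C,
          HasLogDensity (fun p => (genCount (F p) D : ℝ)) (gens D : ℝ) := by
        intro D hD
        rw [Finset.mem_erase, Finset.mem_filter] at hD
        have hlt : D < C := lt_of_le_of_ne hD.2.2 hD.1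
        refine ih (Nat.card D) ?_ D rfl
        rw [← hC]
        exact Set.Finite.card_lt_card (Set.toFinite _) (SetLike.coe_ssubset_coe.mpr hlt)
      have h1 := (hdens C).sub (HasLogDensity.sum _ hlt)
      have hmem : C ∈ Finset.univ.filter (· ≤ C) := by simp
      have h2 : (Nat.card C : ℝ) - ∑ D ∈ (Finset.univ.filter (· ≤ C)).erase C, (gens D : ℝ) =
          gens C := by
        rw [sum_gens C, ← Finset.add_sum_erase _ _ hmem]
        push_cast
        ring
      have h3 : (fun p => (Nat.card {y : G // y⁻¹ * F p * y ∈ C} : ℝ) -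
          ∑ D ∈ (Finset.univ.filter (· ≤ C)).erase C, (genCount (F p) D : ℝ)) =
          fun p => (genCount (F p) C : ℝ) := by
        funext p
        rw [sum_genCount (F p) C, ← Finset.add_sum_erase _ _ hmem]
        push_cast
        ring
      rw [h2, h3] at h1
      exact h1
  by_contra hcon
  push Not at hcon
  have h1 := key _ (Subgroup.zpowers g) rfl
  have h2 : HasLogDensity (fun p => (genCount (F p) (Subgroup.zpowers g) : ℝ)) 0 := by
    refine hasLogDensity_zero.congr_off bad fun p hp => ?_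
    rw [Nat.cast_eq_zero, genCount]
    have : IsEmpty {y : G // Subgroup.zpowers (y⁻¹ * F p * y) = Subgroup.zpowers g} :=
      ⟨fun y => hcon p hp y.1 y.2⟩
    exact Nat.card_of_isEmpty
  have h3 := h1.unique h2
  rw [Nat.cast_eq_zero, gens] at h3
  have hne : Nonempty {x : G // Subgroup.zpowers x = Subgroup.zpowers g} := ⟨⟨g, rfl⟩⟩
  exact Nat.card_pos.ne' h3

end Combo

end Fermat.Agent.H99
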