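import Fermat.Agent.H82Galois
import Fermat.Agent.H99Combo

/-!
# Frobenius density theorem at finite level

`Fermat.Agent.H82.exists_frob_finite`.
-/

set_option autoImplicit false
namespace Fermat.Agent.H82
open NumberField

/-- at a good prime: base hom, Frobenius element, and the counting formula. -/
theorem exists_frob_data (L : Type*) [Field L] [NumberField L] [IsGalois ℚ L] (p : ℕ) [Fact p.Prime]
    (hfree : ∀ (Ω : Type) [Field Ω] [CharP Ω p] (ψ : 𝓞 L →+* Ω)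
      (h : L ≃ₐ[ℚ] L), (∀ b : 𝓞 L, ψ (h • b) = ψ b) → h = 1) :
    ∃ (ψ₀ : 𝓞 L →+* AlgebraicClosure (ZMod p)) (F : L ≃ₐ[ℚ] L), (∀ b : 𝓞 L, ψ₀ b ^ p = ψ₀ (F • b)) ∧
      ∀ H : Subgroup (L ≃ₐ[ℚ] L), Nat.card {y : L ≃ₐ[ℚ] L // y⁻¹ * F * y ∈ H} =
      Nat.card H * Nat.card {I : Ideal (𝓞 (IntermediateField.fixedField H)) // Ideal.absNorm I = p} := by
  have hc : CharP (AlgebraicClosure (ZMod p)) p := inferInstance
  obtain ⟨ψ₀, -⟩ := exists_extension (A := ℤ) (B := 𝓞 L) (Ω := AlgebraicClosure (ZMod p))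
    (FaithfulSMul.algebraMap_injective _ _) (Int.castRingHom _)
  obtain ⟨F, hF⟩ := exists_smul_eq_of_agree (A := ℤ) (B := 𝓞 L) (G := L ≃ₐ[ℚ] L)
    ((frobenius (AlgebraicClosure (ZMod p)) p).comp ψ₀) ψ₀ (fun a => by simp)
  have hF' : ∀ b : 𝓞 L, ψ₀ b ^ p = ψ₀ (F • b) := fun b => by
    have := hF b
    rwa [RingHom.comp_apply, frobenius_def] at this
  exact ⟨ψ₀, F, hF', fun H => card_conj_mem_eq H ψ₀ F hF' (hfree _)⟩

/-- **Frobenius density theorem**, existence form, finite level. -/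
theorem exists_frob_finite (L : Type*) [Field L] [NumberField L] [IsGalois ℚ L] (σ : L ≃ₐ[ℚ] L)
    (S : Finset ℕ) :
    ∃ ℓ : ℕ, ℓ.Prime ∧ ℓ ∉ S ∧ ∃ P : Ideal (𝓞 L), P.IsPrime ∧ ((ℓ : ℕ) : 𝓞 L) ∈ P ∧
      (∀ τ : L ≃ₐ[ℚ] L, (∀ x : 𝓞 L, τ • x - x ∈ P) → τ = 1) ∧
      ∃ φ : L ≃ₐ[ℚ] L, (∀ x : 𝓞 L, φ • x - x ^ ℓ ∈ P) ∧
        Subgroup.zpowers φ = Subgroup.zpowers σ := by
  classical
  obtain ⟨n, hn, hgood⟩ := exists_bad L
  have hfact : ∀ p : Nat.Primes, Fact (p : ℕ).Prime := fun p => ⟨p.2⟩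
  have hdata : ∀ p : Nat.Primes, (p : ℕ) ∉ S ∪ n.primeFactors →
      ∃ (ψ₀ : 𝓞 L →+* AlgebraicClosure (ZMod (p : ℕ))) (F : L ≃ₐ[ℚ] L),
      (∀ b : 𝓞 L, ψ₀ b ^ (p : ℕ) = ψ₀ (F • b)) ∧
      ∀ H : Subgroup (L ≃ₐ[ℚ] L), Nat.card {y : L ≃ₐ[ℚ] L // y⁻¹ * F * y ∈ H} =
      Nat.card H * Nat.card {I : Ideal (𝓞 (IntermediateField.fixedField H)) // Ideal.absNorm I = (p : ℕ)} := by
    intro p hp
    have hpn : ¬ (p : ℕ) ∣ n := fun h => hp (Finset.mem_union_right _ (Nat.mem_primeFactors.mpr ⟨p.2, h, hn⟩))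
    exact exists_frob_data L p (hgood p p.2 hpn)
  choose ψ F' hψ hcount using hdata
  let F : Nat.Primes → (L ≃ₐ[ℚ] L) := fun p =>
    if h : (p : ℕ) ∉ S ∪ n.primeFactors then F' p h else 1
  obtain ⟨p, hp, y, hy⟩ := H99.exists_conj_generator (G := L ≃ₐ[ℚ] L)
    (fun H p => Nat.card {I : Ideal (𝓞 (IntermediateField.fixedField H)) // Ideal.absNorm I = (p : ℕ)})
    (fun H s hs => H99.summable_primeCount _ hs) (fun H => H99.tendsto_primeCount _)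
    (S ∪ n.primeFactors) F (fun p hp H => by
      simp only [F, dif_pos hp]
      exact hcount p hp H) σ
  have hFp : F p = F' p hp := dif_pos hp
  rw [hFp] at hy
  have hpn : ¬ (p : ℕ) ∣ n := fun h => hp (Finset.mem_union_right _ (Nat.mem_primeFactors.mpr ⟨p.2, h, hn⟩))
  let ψy : 𝓞 L →+* AlgebraicClosure (ZMod (p : ℕ)) :=
    (ψ p hp).comp (MulSemiringAction.toRingHom (L ≃ₐ[ℚ] L) (𝓞 L) y)
  have hψy : ∀ b, ψy b = ψ p hp (y • b) := fun b => rfl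
  refine ⟨p, p.2, fun h => hp (Finset.mem_union_left _ h), RingHom.ker ψy, RingHom.ker_isPrime _, ?_, ?_,
    y⁻¹ * F' p hp * y, ?_, hy⟩
  · rw [RingHom.mem_ker, map_natCast, CharP.cast_eq_zero]
  · intro τ hτ
    refine hgood p p.2 hpn (AlgebraicClosure (ZMod (p : ℕ))) ψy τ fun b => ?_
    have := hτ b
    rwa [RingHom.mem_ker, map_sub, sub_eq_zero] at this
  · intro x
    rw [RingHom.mem_ker, map_sub, sub_eq_zero, map_pow, hψy, hψy, hψ, smul_smul, smul_smul]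
    congr 2
    group

end Fermat.Agent.H82
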