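import Mathlib
import Fermat.Prelude.Def_GaloisRep_Adic

/-!
# Characteristic polynomials of rank two endomorphisms: powers and congruences
-/

set_option autoImplicit false

open Polynomial

namespace Fermat.Agent.H86

section Two

variable {A V : Type*} [CommRing A] [Nontrivial A] [AddCommGroup V] [Module A V] [Module.Free A V]
  [Module.Finite A V]

theorem charpoly_eq_of_finrank_two (h : Module.finrank A V = 2) (f : Module.End A V) :
    f.charpoly = X ^ 2 - C (LinearMap.trace A V f) * X + C (LinearMap.det f) := by
  classical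
  let b := Module.finBasisOfFinrankEq A V h
  rw [← LinearMap.charpoly_toMatrix f b, Matrix.charpoly_fin_two, LinearMap.trace_eq_matrix_trace A b,
    LinearMap.det_toMatrix]

/-- Cayley–Hamilton in rank two. -/
theorem sq_eq_of_finrank_two (h : Module.finrank A V = 2) (f : Module.End A V) :
    f ^ 2 = LinearMap.trace A V f • f - LinearMap.det f • (1 : Module.End A V) := by
  have h1 := LinearMap.aeval_self_charpoly f
  rw [charpoly_eq_of_finrank_two h] at h1
  simp only [map_add, map_sub, map_mul, map_pow, aeval_X, aeval_C, Algebra.algebraMap_eq_smul_one,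
    smul_mul_assoc, one_mul] at h1
  rw [← sub_eq_zero, ← h1]
  abel

/-- The trace of the powers of a rank two endomorphism is given by Dickson polynomials in the trace,
with parameter the determinant. -/
theorem trace_pow_eq_dickson (h : Module.finrank A V = 2) (f : Module.End A V) (j : ℕ) :
    LinearMap.trace A V (f ^ j) =
      (dickson 1 (LinearMap.det f) j).eval (LinearMap.trace A V f) := by
  induction j using Nat.twoStepInduction with
  | zero =>
    rw [pow_zero, Module.End.one_eq_id, LinearMap.trace_id, h, dickson_zero]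
    norm_num
  | one => simp
  | more n ih1 ih2 =>
    rw [dickson_add_two, eval_sub, eval_mul, eval_mul, eval_X, eval_C, ← ih1, ← ih2, pow_add,
      sq_eq_of_finrank_two h, mul_sub, map_sub, mul_smul_comm, mul_smul_comm, map_smul, map_smul,
      mul_one, smul_eq_mul, smul_eq_mul, ← pow_succ]

end Two

section Pair

variable {A V W : Type*} [CommRing A] [Nontrivial A]
  [AddCommGroup V] [Module A V] [Module.Free A V] [Module.Finite A V]
  [AddCommGroup W] [Module A W] [Module.Free A W] [Module.Finite A W]

theorem charpoly_eq_iff_of_finrank_two (hV : Module.finrank A V = 2) (hW : Module.finrank A W = 2)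
    (f : Module.End A V) (g : Module.End A W) :
    f.charpoly = g.charpoly ↔ LinearMap.trace A V f = LinearMap.trace A W g ∧
      LinearMap.det f = LinearMap.det g := by
  constructor
  · intro h
    rw [charpoly_eq_of_finrank_two hV, charpoly_eq_of_finrank_two hW] at h
    have h0 := congrArg (fun p => coeff p 0) h
    have h1 := congrArg (fun p => coeff p 1) h
    simp [coeff_X_pow, coeff_X, coeff_C, mul_coeff_zero] at h0 h1
    exact ⟨h1, h0⟩
  · rintro ⟨h1, h2⟩
    rw [charpoly_eq_of_finrank_two hV, charpoly_eq_of_finrank_two hW, h1, h2]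

theorem charpoly_pow_eq (hV : Module.finrank A V = 2) (hW : Module.finrank A W = 2)
    {f : Module.End A V} {g : Module.End A W} (h : f.charpoly = g.charpoly) (j : ℕ) :
    (f ^ j).charpoly = (g ^ j).charpoly := by
  rw [charpoly_eq_iff_of_finrank_two hV hW] at h ⊢
  rw [trace_pow_eq_dickson hV, trace_pow_eq_dickson hW, map_pow, map_pow, h.1, h.2]
  exact ⟨rfl, rfl⟩

end Pair

section Congr

variable {A V : Type*} [CommRing A] [AddCommGroup V] [Module A V]

theorem repr_mem_of_mem_smul {ι : Type*} (b : Module.Basis ι A V) (I : Ideal A) {x : V}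
    (hx : x ∈ I • (⊤ : Submodule A V)) (i : ι) : b.repr x i ∈ I := by
  refine Submodule.smul_induction_on (p := fun x => b.repr x i ∈ I) hx ?_ ?_
  · intro a ha v _
    rw [map_smul, Finsupp.smul_apply, smul_eq_mul]
    exact I.mul_mem_right _ ha
  · intro x y hx hy
    rw [map_add, Finsupp.add_apply]
    exact I.add_mem hx hy

variable [Module.Free A V] [Module.Finite A V]

omit [Module.Free A V] [Module.Finite A V] in
theorem toMatrix_map_mk_eq {ι : Type*} [Fintype ι] [DecidableEq ι] (b : Module.Basis ι A V)
    (I : Ideal A) (f g : Module.End A V)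
    (h : ∀ v, f v - g v ∈ I • (⊤ : Submodule A V)) :
    (LinearMap.toMatrix b b f).map (Ideal.Quotient.mk I) =
      (LinearMap.toMatrix b b g).map (Ideal.Quotient.mk I) := by
  ext i j
  rw [Matrix.map_apply, Matrix.map_apply, LinearMap.toMatrix_apply, LinearMap.toMatrix_apply,
    Ideal.Quotient.mk_eq_mk_iff_sub_mem, ← Finsupp.sub_apply, ← map_sub]
  exact repr_mem_of_mem_smul b I (h _) i

theorem charpoly_map_mk_eq (I : Ideal A) (f g : Module.End A V)
    (h : ∀ v, f v - g v ∈ I • (⊤ : Submodule A V)) :
    f.charpoly.map (Ideal.Quotient.mk I) = g.charpoly.map (Ideal.Quotient.mk I) := by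
  classical
  let b := Module.Free.chooseBasis A V
  rw [← LinearMap.charpoly_toMatrix f b, ← LinearMap.charpoly_toMatrix g b,
    ← Matrix.charpoly_map, ← Matrix.charpoly_map, toMatrix_map_mk_eq b I f g h]

theorem trace_sub_mem (I : Ideal A) (f g : Module.End A V)
    (h : ∀ v, f v - g v ∈ I • (⊤ : Submodule A V)) :
    LinearMap.trace A V f - LinearMap.trace A V g ∈ I := by
  classical
  let b := Module.Free.chooseBasis A V
  rw [LinearMap.trace_eq_matrix_trace A b, LinearMap.trace_eq_matrix_trace A b,
    ← Ideal.Quotient.mk_eq_mk_iff_sub_mem, AddMonoidHom.map_trace, AddMonoidHom.map_trace]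
  exact congrArg Matrix.trace (toMatrix_map_mk_eq b I f g h)

theorem det_sub_mem (I : Ideal A) (f g : Module.End A V)
    (h : ∀ v, f v - g v ∈ I • (⊤ : Submodule A V)) :
    LinearMap.det f - LinearMap.det g ∈ I := by
  classical
  let b := Module.Free.chooseBasis A V
  rw [← LinearMap.det_toMatrix b, ← LinearMap.det_toMatrix b,
    ← Ideal.Quotient.mk_eq_mk_iff_sub_mem, RingHom.map_det, RingHom.map_det]
  exact congrArg Matrix.det (toMatrix_map_mk_eq b I f g h)

omit [Module.Free A V] [Module.Finite A V] in
theorem pow_sub_pow_mem (I : Ideal A) (f g : Module.End A V)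
    (h : ∀ v, f v - g v ∈ I • (⊤ : Submodule A V)) (j : ℕ) (v : V) :
    (f ^ j) v - (g ^ j) v ∈ I • (⊤ : Submodule A V) := by
  induction j generalizing v with
  | zero => simp
  | succ n ih =>
    have hstab : ∀ x ∈ I • (⊤ : Submodule A V), f x ∈ I • (⊤ : Submodule A V) := by
      intro x hx
      have h1 : f x ∈ (I • (⊤ : Submodule A V)).map f := Submodule.mem_map_of_mem hx
      rw [Submodule.map_smul''] at h1
      exact Submodule.smul_mono le_rfl le_top h1
    have h2 : (f ^ (n + 1)) v - (g ^ (n + 1)) v =
        f ((f ^ n) v - (g ^ n) v) + (f ((g ^ n) v) - g ((g ^ n) v)) := by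
      rw [pow_succ', pow_succ', Module.End.mul_apply, Module.End.mul_apply, map_sub]
      abel
    rw [h2]
    exact Submodule.add_mem _ (hstab _ (ih v)) (h _)

end Congr

end Fermat.Agent.H86
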