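import Mathlib
import Fermat.Agent.H54Frobenius

/-!
# From finite-level Frobenius density to places of `ℚ̄`

`FrobDensityFinite` is the Frobenius density theorem for finite Galois extensions of `ℚ`
(existence form).  We transport it to `Gal(ℚ̄/ℚ)` with places = valuation subrings.
-/

set_option autoImplicit false

open scoped Pointwise
open NumberField

namespace Fermat.Agent.H86

local notation "Qb" => AlgebraicClosure ℚ
local notation "Zb" => integralClosure ℤ (AlgebraicClosure ℚ)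
local notation "Gq" => (AlgebraicClosure ℚ ≃ₐ[ℚ] AlgebraicClosure ℚ)

/-- Frobenius density theorem at finite level (existence form). -/
def FrobDensityFinite : Prop :=
  ∀ (L : Type) [Field L] [NumberField L] [IsGalois ℚ L] (σ : L ≃ₐ[ℚ] L) (S : Finset ℕ),
    ∃ ℓ : ℕ, ℓ.Prime ∧ ℓ ∉ S ∧ ∃ P : Ideal (𝓞 L), P.IsPrime ∧ ((ℓ : ℕ) : 𝓞 L) ∈ P ∧
      (∀ τ : L ≃ₐ[ℚ] L, (∀ x : 𝓞 L, τ • x - x ∈ P) → τ = 1) ∧
      ∃ φ : L ≃ₐ[ℚ] L, (∀ x : 𝓞 L, φ • x - x ^ ℓ ∈ P) ∧
        Subgroup.zpowers φ = Subgroup.zpowers σ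

local instance isAlgebraicQb : Algebra.IsAlgebraic ℚ Qb := AlgebraicClosure.isAlgebraic ℚ
local instance isAlgClosureQb : IsAlgClosure ℚ Qb := ⟨inferInstance, inferInstance⟩
local instance normalQb : Normal ℚ Qb := IsAlgClosure.normal ℚ Qb
local instance isGaloisQb : IsGalois ℚ Qb := ⟨⟩

section Centre

variable (M : IntermediateField ℚ Qb)

/-- The inclusion of the ring of integers of `M` in the ring of algebraic integers. -/
noncomputable def toZb : 𝓞 M →+* Zb where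
  toFun x := ⟨((x : M) : Qb), x.isIntegral_coe.map (M.val.restrictScalars ℤ)⟩
  map_one' := rfl
  map_mul' _ _ := rfl
  map_zero' := rfl
  map_add' _ _ := rfl

@[simp] theorem coe_toZb (x : 𝓞 M) : ((toZb M x : Zb) : Qb) = ((x : M) : Qb) := rfl

/-- The prime of `𝓞 M` below a place of `ℚ̄`. -/
noncomputable def centre (A : ValuationSubring Qb) : Ideal (𝓞 M) :=
  (H54.primeBelow A).comap (toZb M)

instance centre_isPrime (A : ValuationSubring Qb) : (centre M A).IsPrime :=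
  Ideal.comap_isPrime _ _

theorem mem_centre (A : ValuationSubring Qb) (x : 𝓞 M) :
    x ∈ centre M A ↔ ((x : M) : Qb) ∈ A.nonunits := by
  rw [centre, Ideal.mem_comap, H54.mem_primeBelow]
  rfl

theorem natCast_mem_centre {A : ValuationSubring Qb} {ℓ : ℕ} (hA : A.LiesOverPrime ℓ) :
    ((ℓ : ℕ) : 𝓞 M) ∈ centre M A := by
  rw [mem_centre]
  have : ((((ℓ : ℕ) : 𝓞 M) : M) : Qb) = (ℓ : Qb) := by simp
  rw [this]
  exact hA

variable [Normal ℚ M]

theorem toZb_smul (τ : Gq) (x : 𝓞 M) :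
    toZb M ((AlgEquiv.restrictNormalHom M τ) • x) = τ • toZb M x := by
  apply Subtype.ext
  show (((AlgEquiv.restrictNormalHom M τ) (x : M) : M) : Qb) = τ ((x : M) : Qb)
  exact AlgEquiv.restrictNormal_commutes τ M (x : M)

theorem centre_smul (τ : Gq) (A : ValuationSubring Qb) :
    centre M (τ • A) = (AlgEquiv.restrictNormalHom M τ) • centre M A := by
  ext x
  rw [Ideal.mem_pointwise_smul_iff_inv_smul_mem, centre, centre, Ideal.mem_comap, Ideal.mem_comap,
    H54.primeBelow_smul, Ideal.mem_pointwise_smul_iff_inv_smul_mem, ← toZb_smul, map_inv]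

end Centre

theorem under_eq_of_natCast_mem {L : Type} [Field L] [NumberField L] (P : Ideal (𝓞 L)) [P.IsPrime]
    {ℓ : ℕ} (hℓ : ℓ.Prime) (h : ((ℓ : ℕ) : 𝓞 L) ∈ P) : P.under ℤ = Ideal.span {(ℓ : ℤ)} := by
  have hmax : (Ideal.span {(ℓ : ℤ)}).IsMaximal :=
    PrincipalIdealRing.isMaximal_of_irreducible (Nat.prime_iff_prime_int.mp hℓ).irreducible
  refine (hmax.eq_of_le (Ideal.IsPrime.under ℤ P).ne_top ?_).symm
  rw [Ideal.span_singleton_le_iff_mem, Ideal.under_def, Ideal.mem_comap]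
  simpa using h

/-- A Frobenius element at a place of `ℚ̄` restricts to a Frobenius element. -/
theorem restrict_frobenius (M : IntermediateField ℚ Qb) [Normal ℚ M]
    {A : ValuationSubring Qb} {ℓ : ℕ} {φ : Gq} (hφ : A.IsFrobeniusAt φ ℓ) (x : 𝓞 M) :
    (AlgEquiv.restrictNormalHom M φ) • x - x ^ ℓ ∈ centre M A := by
  obtain ⟨hdec, hfr⟩ := hφ
  have h := hfr (IsLocalRing.residue A (H54.toPlace A (toZb M x)))
  have h1 : (⟨φ, hdec⟩ : A.decompositionSubgroup ℚ) •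
      IsLocalRing.residue A (H54.toPlace A (toZb M x)) =
      IsLocalRing.residue A (H54.toPlace A (φ • toZb M x)) := rfl
  rw [h1, ← map_pow, ← map_pow, ← sub_eq_zero, ← map_sub, ← map_sub,
    IsLocalRing.residue_eq_zero_iff] at h
  rw [centre, Ideal.mem_comap, H54.primeBelow, Ideal.mem_comap, map_sub, map_pow, toZb_smul]
  exact h

theorem frobenius_smul_centre (M : IntermediateField ℚ Qb) [Normal ℚ M]
    {A : ValuationSubring Qb} {ℓ : ℕ} {φ : Gq} (hφ : A.IsFrobeniusAt φ ℓ) :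
    (AlgEquiv.restrictNormalHom M φ) • centre M A = centre M A := by
  obtain ⟨hdec, -⟩ := hφ
  rw [← centre_smul]
  have : φ • A = A := hdec
  rw [this]

/-- **Frobenius density**, finite Galois level inside `ℚ̄`. -/
theorem frobenius_density_aux (H : FrobDensityFinite) (M : IntermediateField ℚ Qb)
    [FiniteDimensional ℚ M] [Normal ℚ M] (σ : Gq) (S : Finset ℕ) :
    ∃ ℓ : ℕ, ℓ.Prime ∧ ℓ ∉ S ∧ ∃ A : ValuationSubring Qb, A.LiesOverPrime ℓ ∧
      ∃ φ : Gq, A.IsFrobeniusAt φ ℓ ∧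
        (∀ τ : M ≃ₐ[ℚ] M, (∀ x : 𝓞 M, τ • x - x ∈ centre M A) → τ = 1) ∧
        Subgroup.zpowers (AlgEquiv.restrictNormalHom M φ) =
          Subgroup.zpowers (AlgEquiv.restrictNormalHom M σ) := by
  have hnf : NumberField M := ⟨⟩
  have hgal : IsGalois ℚ M := ⟨⟩
  obtain ⟨ℓ, hℓ, hℓS, P, hP, hℓP, hunr, φ₀, hφ₀, hz⟩ :=
    H M (AlgEquiv.restrictNormalHom M σ) S
  obtain ⟨A₀, hA₀⟩ := H54.exists_liesOverPrime hℓ
  obtain ⟨τ₀, hτ₀⟩ := Algebra.IsInvariant.exists_smul_of_under_eq ℤ (𝓞 M) (M ≃ₐ[ℚ] M)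
    (centre M A₀) P (by
      rw [under_eq_of_natCast_mem _ hℓ (natCast_mem_centre M hA₀),
        under_eq_of_natCast_mem _ hℓ hℓP])
  obtain ⟨τ, rfl⟩ := AlgEquiv.restrictNormalHom_surjective (F := ℚ) (K₁ := M) Qb τ₀
  rw [← centre_smul] at hτ₀
  have hA := H54.liesOverPrime_smul hA₀ τ
  obtain ⟨φ, hφ⟩ := H54.exists_isFrobeniusAt hℓ hA
  refine ⟨ℓ, hℓ, hℓS, τ • A₀, hA, φ, hφ, ?_, ?_⟩
  · rw [← hτ₀]; exact hunr
  · rw [← hz]
    congr 1
    have h1 : (AlgEquiv.restrictNormalHom M φ)⁻¹ * φ₀ = 1 := by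
      apply hunr
      intro x
      have h2 := restrict_frobenius M hφ x
      have h3 := hφ₀ x
      rw [← hτ₀] at h2
      have h4 : φ₀ • x - (AlgEquiv.restrictNormalHom M φ) • x ∈ P := by
        have := P.sub_mem h3 h2
        convert this using 1
        ring
      have h5 : (AlgEquiv.restrictNormalHom M φ)⁻¹ •
          (φ₀ • x - (AlgEquiv.restrictNormalHom M φ) • x) ∈ P := by
        have h6 : (AlgEquiv.restrictNormalHom M φ) • P = P := by
          rw [hτ₀]; exact frobenius_smul_centre M hφ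
        rw [← Ideal.mem_pointwise_smul_iff_inv_smul_mem, h6]
        exact h4
      rw [smul_sub, inv_smul_smul, ← mul_smul] at h5
      exact h5
    rw [inv_mul_eq_one] at h1
    exact h1

/-- **Frobenius density theorem** for `Gal(ℚ̄/ℚ)`: for every finite extension `L` of `ℚ` in `ℚ̄`,
every `σ` and every finite set `S` of primes there are a prime `ℓ ∉ S`, a place over `ℓ` and a
Frobenius element `φ` at this place such that, on `L`, `σ` is a power of `φ` and `φ` is a power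
of `σ`. -/
theorem frobenius_density (H : FrobDensityFinite) (L : IntermediateField ℚ Qb)
    [FiniteDimensional ℚ L] (σ : Gq) (S : Finset ℕ) :
    ∃ ℓ : ℕ, ℓ.Prime ∧ ℓ ∉ S ∧ ∃ A : ValuationSubring Qb, A.LiesOverPrime ℓ ∧
      ∃ φ : Gq, A.IsFrobeniusAt φ ℓ ∧ ∃ j k : ℕ,
        (∀ x ∈ L, σ x = (φ ^ j) x) ∧ (∀ x ∈ L, φ x = (σ ^ k) x) := by
  let M : IntermediateField ℚ Qb := IntermediateField.normalClosure ℚ L Qb
  have hfd : FiniteDimensional ℚ M := inferInstance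
  have hno : Normal ℚ M := normalClosure.normal ℚ L Qb
  have hLM : L ≤ M := L.le_normalClosure
  obtain ⟨ℓ, hℓ, hℓS, A, hA, φ, hφ, -, hz⟩ := frobenius_density_aux H M σ S
  have hfin : Finite (M ≃ₐ[ℚ] M) := inferInstance
  have h1 : AlgEquiv.restrictNormalHom M σ ∈ Subgroup.zpowers (AlgEquiv.restrictNormalHom M φ) := by
    rw [hz]; exact Subgroup.mem_zpowers _
  have h2 : AlgEquiv.restrictNormalHom M φ ∈ Subgroup.zpowers (AlgEquiv.restrictNormalHom M σ) := by
    rw [← hz]; exact Subgroup.mem_zpowers _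
  rw [← mem_powers_iff_mem_zpowers] at h1 h2
  obtain ⟨j, hj⟩ := h1
  obtain ⟨k, hk⟩ := h2
  simp only at hj hk
  rw [← map_pow] at hj hk
  refine ⟨ℓ, hℓ, hℓS, A, hA, φ, hφ, j, k, ?_, ?_⟩
  · intro x hx
    have h := DFunLike.congr_fun hj (⟨x, hLM hx⟩ : M)
    have h' := congrArg (fun y : M => (y : Qb)) h
    have e1 : ((AlgEquiv.restrictNormalHom M (φ ^ j) ⟨x, hLM hx⟩ : M) : Qb) = (φ ^ j) x :=
      AlgEquiv.restrictNormal_commutes (φ ^ j) M ⟨x, hLM hx⟩
    have e2 : ((AlgEquiv.restrictNormalHom M σ ⟨x, hLM hx⟩ : M) : Qb) = σ x :=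
      AlgEquiv.restrictNormal_commutes σ M ⟨x, hLM hx⟩
    rw [← e1, ← e2]
    exact h'.symm
  · intro x hx
    have h := DFunLike.congr_fun hk (⟨x, hLM hx⟩ : M)
    have h' := congrArg (fun y : M => (y : Qb)) h
    have e1 : ((AlgEquiv.restrictNormalHom M (σ ^ k) ⟨x, hLM hx⟩ : M) : Qb) = (σ ^ k) x :=
      AlgEquiv.restrictNormal_commutes (σ ^ k) M ⟨x, hLM hx⟩
    have e2 : ((AlgEquiv.restrictNormalHom M φ ⟨x, hLM hx⟩ : M) : Qb) = φ x :=
      AlgEquiv.restrictNormal_commutes φ M ⟨x, hLM hx⟩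
    rw [← e1, ← e2]
    exact h'.symm

end Fermat.Agent.H86
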