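import Mathlib
import Fermat.Prelude.Def_GaloisRep_LocalConditions
import Fermat.Agent.H86Density
import Fermat.Agent.H86Charpoly

/-!
# Consequences of Frobenius density for representations of `Gal(ℚ̄/ℚ)`
-/

set_option autoImplicit false

open scoped Pointwise
open NumberField Polynomial

namespace Fermat.Agent.H86

local notation "Qb" => AlgebraicClosure ℚ
local notation "Zb" => integralClosure ℤ (AlgebraicClosure ℚ)
local notation "Gq" => (AlgebraicClosure ℚ ≃ₐ[ℚ] AlgebraicClosure ℚ)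

local instance isAlgebraicQb' : Algebra.IsAlgebraic ℚ Qb := AlgebraicClosure.isAlgebraic ℚ
local instance isAlgClosureQb' : IsAlgClosure ℚ Qb := ⟨inferInstance, inferInstance⟩
local instance normalQb' : Normal ℚ Qb := IsAlgClosure.normal ℚ Qb
local instance isGaloisQb' : IsGalois ℚ Qb := ⟨⟩

/-! ### Homomorphisms of finite level -/

theorem map_eq_of_forall_mem {M : Type*} [MulOneClass M] {ρ : Gq →* M}
    {L : IntermediateField ℚ Qb} (hL : ∀ σ : Gq, (∀ x ∈ L, σ x = x) → ρ σ = 1) {σ τ : Gq}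
    (h : ∀ x ∈ L, σ x = τ x) : ρ σ = ρ τ := by
  have h1 : ρ (τ⁻¹ * σ) = 1 := by
    apply hL
    intro x hx
    rw [AlgEquiv.mul_apply, h x hx]
    exact τ.symm_apply_apply x
  have h2 : ρ σ = ρ τ * ρ (τ⁻¹ * σ) := by rw [← map_mul, mul_inv_cancel_left]
  rw [h2, h1, mul_one]

/-- Frobenius density for a homomorphism which factors through a finite level. -/
theorem density_hom (H : FrobDensityFinite) {M : Type} [Monoid M] {ρ : Gq →* M}
    (hρ : GaloisFactorsThroughFiniteLevel ρ) (σ : Gq) (S : Finset ℕ) :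
    ∃ ℓ : ℕ, ℓ.Prime ∧ ℓ ∉ S ∧ ∃ A : ValuationSubring Qb, A.LiesOverPrime ℓ ∧
      ∃ φ : Gq, A.IsFrobeniusAt φ ℓ ∧ ∃ j k : ℕ, ρ σ = ρ φ ^ j ∧ ρ φ = ρ σ ^ k := by
  obtain ⟨L, hfin, hL⟩ := hρ
  obtain ⟨ℓ, h1, h2, A, h3, φ, h4, j, k, h5, h6⟩ := frobenius_density H L σ S
  refine ⟨ℓ, h1, h2, A, h3, φ, h4, j, k, ?_, ?_⟩
  · rw [← map_pow]; exact map_eq_of_forall_mem hL h5
  · rw [← map_pow]; exact map_eq_of_forall_mem hL h6

/-! ### Adic representations -/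

section Adic

variable {A : Type} [CommRing A] [IsLocalRing A]

theorem rep_smul_mem (ρ : GaloisRepAdic A) (I : Ideal A) (τ : Gq) {v : ρ.V}
    (hv : v ∈ I • (⊤ : Submodule A ρ.V)) : ρ.ρ τ v ∈ I • (⊤ : Submodule A ρ.V) := by
  have h1 : ρ.ρ τ v ∈ (I • (⊤ : Submodule A ρ.V)).map (ρ.ρ τ) := Submodule.mem_map_of_mem hv
  rw [Submodule.map_smul''] at h1
  exact Submodule.smul_mono le_rfl le_top h1

theorem rep_sub_mem (ρ : GaloisRepAdic A) {n : ℕ} {L : IntermediateField ℚ Qb}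
    (hL : ∀ σ : Gq, (∀ x ∈ L, σ x = x) →
      ∀ v : ρ.V, ρ.ρ σ v - v ∈ (IsLocalRing.maximalIdeal A ^ n) • (⊤ : Submodule A ρ.V))
    {σ τ : Gq} (h : ∀ x ∈ L, σ x = τ x) (v : ρ.V) :
    ρ.ρ σ v - ρ.ρ τ v ∈ (IsLocalRing.maximalIdeal A ^ n) • (⊤ : Submodule A ρ.V) := by
  have h1 : ρ.ρ (τ⁻¹ * σ) v - v ∈ (IsLocalRing.maximalIdeal A ^ n) • (⊤ : Submodule A ρ.V) := by
    apply hL
    intro x hx
    rw [AlgEquiv.mul_apply, h x hx]
    exact τ.symm_apply_apply x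
  have h2 := rep_smul_mem ρ _ τ h1
  rwa [map_sub, ← Module.End.mul_apply, ← map_mul, mul_inv_cancel_left] at h2

/-- Two (or more) adic representations can be approximated simultaneously: for every `σ`, `n` and
finite `S` there are `ℓ ∉ S` and a Frobenius `φ` at a place over `ℓ` with `σ ≡ φ ^ j` on a given
finite extension and modulo `𝔪 ^ n` in the representation. -/
theorem density_adic (H : FrobDensityFinite) (ρ : GaloisRepAdic A) (n : ℕ)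
    (L₀ : IntermediateField ℚ Qb) [FiniteDimensional ℚ L₀] (σ : Gq) (S : Finset ℕ) :
    ∃ ℓ : ℕ, ℓ.Prime ∧ ℓ ∉ S ∧ ∃ P : ValuationSubring Qb, P.LiesOverPrime ℓ ∧
      ∃ φ : Gq, P.IsFrobeniusAt φ ℓ ∧ ∃ j : ℕ, (∀ x ∈ L₀, σ x = (φ ^ j) x) ∧
        ∀ v : ρ.V, ρ.ρ σ v - (ρ.ρ φ ^ j) v ∈
          (IsLocalRing.maximalIdeal A ^ n) • (⊤ : Submodule A ρ.V) := by
  obtain ⟨L, hfin, hL⟩ := ρ.isAdicContinuous n
  have : FiniteDimensional ℚ (L₀ ⊔ L : IntermediateField ℚ Qb) :=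
    IntermediateField.finiteDimensional_sup L₀ L
  obtain ⟨ℓ, h1, h2, P, h3, φ, h4, j, k, h5, -⟩ := frobenius_density H (L₀ ⊔ L) σ S
  refine ⟨ℓ, h1, h2, P, h3, φ, h4, j, fun x hx => h5 x ((le_sup_left : L₀ ≤ L₀ ⊔ L) hx), ?_⟩
  intro v
  rw [← map_pow]
  exact rep_sub_mem ρ hL (fun x hx => h5 x ((le_sup_right : L ≤ L₀ ⊔ L) hx)) v

/-- Two adic representations, possibly over different rings, approximated simultaneously. -/
theorem density_adic₂ (H : FrobDensityFinite) {B : Type} [CommRing B] [IsLocalRing B]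
    (ρ₁ : GaloisRepAdic A) (ρ₂ : GaloisRepAdic B) (n : ℕ)
    (L₀ : IntermediateField ℚ Qb) [FiniteDimensional ℚ L₀] (σ : Gq) (S : Finset ℕ) :
    ∃ ℓ : ℕ, ℓ.Prime ∧ ℓ ∉ S ∧ ∃ P : ValuationSubring Qb, P.LiesOverPrime ℓ ∧
      ∃ φ : Gq, P.IsFrobeniusAt φ ℓ ∧ ∃ j : ℕ, (∀ x ∈ L₀, σ x = (φ ^ j) x) ∧
        (∀ v : ρ₁.V, ρ₁.ρ σ v - (ρ₁.ρ φ ^ j) v ∈
          (IsLocalRing.maximalIdeal A ^ n) • (⊤ : Submodule A ρ₁.V)) ∧
        ∀ v : ρ₂.V, ρ₂.ρ σ v - (ρ₂.ρ φ ^ j) v ∈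
          (IsLocalRing.maximalIdeal B ^ n) • (⊤ : Submodule B ρ₂.V) := by
  obtain ⟨L, hfin, hL⟩ := ρ₂.isAdicContinuous n
  have : FiniteDimensional ℚ (L₀ ⊔ L : IntermediateField ℚ Qb) :=
    IntermediateField.finiteDimensional_sup L₀ L
  obtain ⟨ℓ, h1, h2, P, h3, φ, h4, j, h5, h6⟩ := density_adic H ρ₁ n (L₀ ⊔ L) σ S
  refine ⟨ℓ, h1, h2, P, h3, φ, h4, j, fun x hx => h5 x ((le_sup_left : L₀ ≤ L₀ ⊔ L) hx), h6, ?_⟩
  intro v
  rw [← map_pow]
  exact rep_sub_mem ρ₂ hL (fun x hx => h5 x ((le_sup_right : L ≤ L₀ ⊔ L) hx)) v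

theorem eq_zero_of_forall_mem_pow [IsHausdorff (IsLocalRing.maximalIdeal A) A] {x : A}
    (h : ∀ n : ℕ, x ∈ IsLocalRing.maximalIdeal A ^ n) : x = 0 := by
  refine IsHausdorff.haus (I := IsLocalRing.maximalIdeal A) inferInstance x fun n => ?_
  rw [SModEq.zero, smul_eq_mul, Ideal.mul_top]
  exact h n

/-- If two adic representations over `A` have the same Frobenius characteristic polynomials outside
a finite set of primes, they have the same characteristic polynomials everywhere. -/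
theorem charpoly_eq_of_frobenius (H : FrobDensityFinite)
    [IsHausdorff (IsLocalRing.maximalIdeal A) A] (ρ₁ ρ₂ : GaloisRepAdic A) (S : Finset ℕ)
    (h : ∀ ℓ : ℕ, ℓ.Prime → ℓ ∉ S → ∀ P : ValuationSubring Qb, P.LiesOverPrime ℓ →
      ∀ φ : Gq, P.IsFrobeniusAt φ ℓ → (ρ₁.ρ φ).charpoly = (ρ₂.ρ φ).charpoly) (σ : Gq) :
    (ρ₁.ρ σ).charpoly = (ρ₂.ρ σ).charpoly := by
  rw [charpoly_eq_iff_of_finrank_two ρ₁.finrank_eq ρ₂.finrank_eq]
  rw [← sub_eq_zero, ← sub_eq_zero (a := LinearMap.det _)]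
  have key : ∀ n : ℕ, LinearMap.trace A ρ₁.V (ρ₁.ρ σ) - LinearMap.trace A ρ₂.V (ρ₂.ρ σ) ∈
      IsLocalRing.maximalIdeal A ^ n ∧ LinearMap.det (ρ₁.ρ σ) - LinearMap.det (ρ₂.ρ σ) ∈
      IsLocalRing.maximalIdeal A ^ n := by
    intro n
    obtain ⟨ℓ, h1, h2, P, h3, φ, h4, j, -, h5, h6⟩ := density_adic₂ H ρ₁ ρ₂ n ⊥ σ S
    have h7 := charpoly_pow_eq ρ₁.finrank_eq ρ₂.finrank_eq (h ℓ h1 h2 P h3 φ h4) j
    rw [charpoly_eq_iff_of_finrank_two ρ₁.finrank_eq ρ₂.finrank_eq] at h7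
    constructor
    · have := Ideal.sub_mem _ (trace_sub_mem _ _ _ h5) (trace_sub_mem _ _ _ h6)
      rw [h7.1, sub_sub_sub_cancel_right] at this
      exact this
    · have := Ideal.sub_mem _ (det_sub_mem _ _ _ h5) (det_sub_mem _ _ _ h6)
      rw [h7.2, sub_sub_sub_cancel_right] at this
      exact this
  exact ⟨eq_zero_of_forall_mem_pow fun n => (key n).1,
    eq_zero_of_forall_mem_pow fun n => (key n).2⟩

end Adic

/-! ### Residual representations -/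

theorem density_residual₂ (H : FrobDensityFinite) {k k' : Type} [Field k] [Field k']
    (ρ₁ : ResidualGaloisRep k) (ρ₂ : ResidualGaloisRep k') (σ : Gq) (S : Finset ℕ) :
    ∃ ℓ : ℕ, ℓ.Prime ∧ ℓ ∉ S ∧ ∃ P : ValuationSubring Qb, P.LiesOverPrime ℓ ∧
      ∃ φ : Gq, P.IsFrobeniusAt φ ℓ ∧ ∃ j i : ℕ, ρ₁.ρ σ = ρ₁.ρ φ ^ j ∧ ρ₂.ρ σ = ρ₂.ρ φ ^ j ∧
        ρ₁.ρ φ = ρ₁.ρ σ ^ i ∧ ρ₂.ρ φ = ρ₂.ρ σ ^ i := by
  obtain ⟨L₁, hfin₁, hL₁⟩ := ρ₁.factorsThroughFiniteLevel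
  obtain ⟨L₂, hfin₂, hL₂⟩ := ρ₂.factorsThroughFiniteLevel
  have : FiniteDimensional ℚ (L₁ ⊔ L₂ : IntermediateField ℚ Qb) :=
    IntermediateField.finiteDimensional_sup L₁ L₂
  obtain ⟨ℓ, h1, h2, P, h3, φ, h4, j, i, h5, h6⟩ := frobenius_density H (L₁ ⊔ L₂) σ S
  refine ⟨ℓ, h1, h2, P, h3, φ, h4, j, i, ?_, ?_, ?_, ?_⟩ <;> rw [← map_pow]
  · exact map_eq_of_forall_mem hL₁ fun x hx => h5 x ((le_sup_left : L₁ ≤ L₁ ⊔ L₂) hx)
  · exact map_eq_of_forall_mem hL₂ fun x hx => h5 x ((le_sup_right : L₂ ≤ L₁ ⊔ L₂) hx)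
  · exact map_eq_of_forall_mem hL₁ fun x hx => h6 x ((le_sup_left : L₁ ≤ L₁ ⊔ L₂) hx)
  · exact map_eq_of_forall_mem hL₂ fun x hx => h6 x ((le_sup_right : L₂ ≤ L₁ ⊔ L₂) hx)

/-- Residual representations with the same Frobenius characteristic polynomials outside a finite
set of primes have the same characteristic polynomials everywhere. -/
theorem charpoly_eq_of_frobenius_residual (H : FrobDensityFinite) {k : Type} [Field k]
    (ρ₁ ρ₂ : ResidualGaloisRep k) (S : Finset ℕ)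
    (h : ∀ ℓ : ℕ, ℓ.Prime → ℓ ∉ S → ∀ P : ValuationSubring Qb, P.LiesOverPrime ℓ →
      ∀ φ : Gq, P.IsFrobeniusAt φ ℓ → (ρ₁.ρ φ).charpoly = (ρ₂.ρ φ).charpoly) (σ : Gq) :
    (ρ₁.ρ σ).charpoly = (ρ₂.ρ σ).charpoly := by
  obtain ⟨ℓ, h1, h2, P, h3, φ, h4, j, i, h5, h6, -, -⟩ := density_residual₂ H ρ₁ ρ₂ σ S
  rw [h5, h6]
  exact charpoly_pow_eq ρ₁.finrank_eq ρ₂.finrank_eq (h ℓ h1 h2 P h3 φ h4) j

/-! ### Frobenius elements and roots of unity -/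

/-- A Frobenius element at a place over `ℓ` raises roots of unity of order prime to `ℓ` to the
`ℓ`-th power. -/
theorem frobenius_apply_rootsOfUnity {P : ValuationSubring Qb} {ℓ : ℕ} (hℓ : ℓ.Prime)
    (hP : P.LiesOverPrime ℓ) {φ : Gq} (hφ : P.IsFrobeniusAt φ ℓ) {m : ℕ} (hm : ¬ ℓ ∣ m) {ζ : Qb}
    (hζ : ζ ^ m = 1) : φ ζ = ζ ^ ℓ := by
  have hm0 : m ≠ 0 := by rintro rfl; exact hm (dvd_zero _)
  obtain ⟨k, hk, hζk⟩ := IsPrimitiveRoot.exists_pos hζ hm0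
  have hkm : k ∣ m := hζk.2 m hζ
  have hk' : ¬ ℓ ∣ k := fun h => hm (h.trans hkm)
  have hnek : NeZero k := ⟨hk.ne'⟩
  obtain ⟨i, hi, e⟩ := hζk.eq_pow_of_pow_eq_one (ξ := φ ζ) (by rw [← map_pow, hζk.1, map_one])
  -- work in the ring of algebraic integers
  have hint : IsIntegral ℤ ζ := IsIntegral.of_pow (Nat.pos_of_ne_zero hm0) (by
    rw [hζ]; exact isIntegral_one)
  let z : Zb := ⟨ζ, hint⟩
  obtain ⟨hdec, hfr⟩ := hφ
  have h := hfr (IsLocalRing.residue P (H54.toPlace P z))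
  have h1 : (⟨φ, hdec⟩ : P.decompositionSubgroup ℚ) • IsLocalRing.residue P (H54.toPlace P z) =
      IsLocalRing.residue P (H54.toPlace P (φ • z)) := rfl
  have h2 : φ • z = z ^ i := Subtype.ext (show φ ζ = ζ ^ i from e.symm)
  rw [h1, h2, map_pow, map_pow] at h
  -- `r ^ i = r ^ ℓ` in the residue field, `r` of exact order `k`
  set r := IsLocalRing.residue P (H54.toPlace P z) with hr
  have hrk : r ^ k = 1 := by
    rw [hr, ← map_pow, ← map_pow]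
    have : z ^ k = 1 := Subtype.ext hζk.1
    rw [this, map_one, map_one]
  have hkne : (k : IsLocalRing.ResidueField P) ≠ 0 := by
    intro h0
    have h3 : IsLocalRing.residue P (H54.toPlace P (k : Zb)) = 0 := by
      rw [map_natCast, map_natCast]; exact h0
    rw [IsLocalRing.residue_eq_zero_iff] at h3
    have h4 : (k : Zb) ∈ H54.primeBelow P := h3
    rw [H54.mem_primeBelow] at h4
    have h5 : ((k : Zb) : Qb) = ((k : ℤ) : Qb) := by simp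
    rw [h5, H54.intCast_mem_nonunits_iff hℓ hP] at h4
    exact hk' (by exact_mod_cast h4)
  -- the residue of a primitive `k`-th root of unity is primitive
  have hprim : IsPrimitiveRoot r k := by
    have h6 : IsPrimitiveRoot z k := by
      refine IsPrimitiveRoot.of_map_of_injective (f := algebraMap Zb Qb) ?_ Subtype.val_injective
      exact hζk
    have h7 := h6.isRoot_cyclotomic hk
    have hne : NeZero (k : IsLocalRing.ResidueField P) := ⟨hkne⟩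
    rw [← Polynomial.isRoot_cyclotomic_iff]
    have h8 := (h7.map (f := (IsLocalRing.residue P).comp (H54.toPlace P)))
    rw [Polynomial.map_cyclotomic] at h8
    exact h8
  rw [← e]
  have h9 : i = ℓ % k := by
    refine hprim.pow_inj hi (Nat.mod_lt _ hk) ?_
    rw [h]; exact pow_eq_pow_mod ℓ hrk
  rw [h9]
  exact (pow_eq_pow_mod ℓ hζk.1).symm

theorem frobenius_pow_apply_rootsOfUnity {P : ValuationSubring Qb} {ℓ : ℕ} (hℓ : ℓ.Prime)
    (hP : P.LiesOverPrime ℓ) {φ : Gq} (hφ : P.IsFrobeniusAt φ ℓ) {m : ℕ} (hm : ¬ ℓ ∣ m) {ζ : Qb}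
    (hζ : ζ ^ m = 1) (j : ℕ) : (φ ^ j) ζ = ζ ^ (ℓ ^ j) := by
  induction j with
  | zero => simp
  | succ n ih =>
    rw [pow_succ', AlgEquiv.mul_apply, ih, map_pow,
      frobenius_apply_rootsOfUnity hℓ hP hφ hm hζ, ← pow_mul, pow_succ']

/-- Ideals of a Noetherian local ring are closed. -/
theorem mem_of_forall_mem_sup_pow {A : Type*} [CommRing A] [IsLocalRing A] [IsNoetherianRing A]
    (J : Ideal A) {x : A} (h : ∀ N : ℕ, x ∈ J ⊔ IsLocalRing.maximalIdeal A ^ N) : x ∈ J := by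
  rw [← Ideal.Quotient.eq_zero_iff_mem]
  have hbot := Ideal.iInf_pow_smul_eq_bot_of_isLocalRing (R := A) (M := A ⧸ J)
    (IsLocalRing.maximalIdeal A) (IsLocalRing.maximalIdeal.isMaximal A).ne_top
  rw [← Submodule.mem_bot A, ← hbot, Submodule.mem_iInf]
  intro N
  obtain ⟨a, ha, b, hb, hab⟩ := Submodule.mem_sup.mp (h N)
  have h1 : Ideal.Quotient.mk J x = b • (1 : A ⧸ J) := by
    rw [← hab, map_add, Ideal.Quotient.eq_zero_iff_mem.mpr ha, zero_add, Algebra.smul_def, mul_one]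
    rfl
  rw [h1]
  exact Submodule.smul_mem_smul hb Submodule.mem_top

/-- If the Frobenius determinants are `ℓ` for almost all `ℓ`, the determinant is cyclotomic. -/
theorem detIsCyclotomic_of_frobenius (H : FrobDensityFinite) {A : Type} [CommRing A]
    [IsLocalRing A] [IsNoetherianRing A] (ρ : GaloisRepAdic A) {p : ℕ} (hp : p.Prime)
    (hpA : (p : A) ∈ IsLocalRing.maximalIdeal A) (S : Finset ℕ)
    (h : ∀ ℓ : ℕ, ℓ.Prime → ℓ ∉ S → ∀ P : ValuationSubring Qb, P.LiesOverPrime ℓ →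
      ∀ φ : Gq, P.IsFrobeniusAt φ ℓ → LinearMap.det (ρ.ρ φ) = (ℓ : A)) :
    ρ.DetIsCyclotomic p := by
  classical
  refine ⟨hpA, fun n σ a ha => mem_of_forall_mem_sup_pow _ fun N => ?_⟩
  have hpn : p ^ n ≠ 0 := pow_ne_zero _ hp.ne_zero
  have : NeZero (p ^ n) := ⟨hpn⟩
  obtain ⟨ζ, hζ⟩ := HasEnoughRootsOfUnity.exists_primitiveRoot Qb (p ^ n)
  have hint : IsIntegral ℚ ζ := (hζ.isIntegral (Nat.pos_of_ne_zero hpn)).tower_top
  have : FiniteDimensional ℚ (IntermediateField.adjoin ℚ {ζ}) :=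
    IntermediateField.adjoin.finiteDimensional hint
  obtain ⟨ℓ, h1, h2, P, h3, φ, h4, j, h5, h6⟩ :=
    density_adic H ρ N (IntermediateField.adjoin ℚ {ζ}) σ (S ∪ {p})
  have hℓS : ℓ ∉ S := fun h' => h2 (Finset.mem_union_left _ h')
  have hℓp : ℓ ≠ p := fun h' => h2 (Finset.mem_union_right _ (by simp [h']))
  have hdvd : ¬ ℓ ∣ p ^ n := fun h' =>
    hℓp ((Nat.prime_dvd_prime_iff_eq h1 hp).mp (h1.dvd_of_dvd_pow h'))
  have h7 : ζ ^ a = ζ ^ (ℓ ^ j) := by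
    rw [← ha ζ hζ.1, h5 ζ (IntermediateField.mem_adjoin_simple_self ℚ ζ),
      frobenius_pow_apply_rootsOfUnity h1 h3 h4 hdvd hζ.1]
  rw [(hζ.isOfFinOrder hpn).pow_eq_pow_iff_modEq, ← hζ.eq_orderOf] at h7
  have h8 : ((ℓ ^ j : ℕ) : A) - (a : A) ∈ Ideal.span {((p ^ n : ℕ) : A)} := by
    have h9 := (Nat.modEq_iff_dvd.mp h7)
    obtain ⟨c, hc⟩ := h9
    rw [Ideal.mem_span_singleton]
    refine ⟨(c : A), ?_⟩
    have := congrArg (fun z : ℤ => (z : A)) hc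
    push_cast at this ⊢
    exact this
  have h9 : LinearMap.det (ρ.ρ σ) - ((ℓ ^ j : ℕ) : A) ∈ IsLocalRing.maximalIdeal A ^ N := by
    have := det_sub_mem _ _ _ h6
    rwa [map_pow, h ℓ h1 hℓS P h3 φ h4, ← Nat.cast_pow] at this
  have h10 := Ideal.add_mem _ (Ideal.mem_sup_left (T := IsLocalRing.maximalIdeal A ^ N) h8)
    (Ideal.mem_sup_right (S := Ideal.span {((p ^ n : ℕ) : A)}) h9)
  have h11 : LinearMap.det (ρ.ρ σ) - (a : A) =
      ((ℓ ^ j : ℕ) : A) - (a : A) + (LinearMap.det (ρ.ρ σ) - ((ℓ ^ j : ℕ) : A)) := by ring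
  rw [h11]
  exact h10

end Fermat.Agent.H86
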