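import Mathlib
import Fermat.Agent.H82FrobDensity
import Fermat.Agent.H86DensityRep

/-!
# Frobenius density, unconditional

`frobDensityFinite` feeds all statements of `H86Density` and `H86DensityRep`.
-/

set_option autoImplicit false

namespace Fermat.Agent.H86

theorem frobDensityFinite : FrobDensityFinite := by
  intro L _ _ _ σ S
  exact H82.exists_frob_finite L σ S

end Fermat.Agent.H86
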