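import Mathlib
import Fermat.Prelude.Def_GroupCohomology_ContinuousUnramified

set_option autoImplicit false

/-!
# Membership in the inertia subgroup, conjugation
-/

namespace Fermat.Agent.H91

open scoped Pointwise

section

variable {L : Type*} [Field L] {K : Type*} [Field K] [Algebra K L]

theorem mem_inertiaSubgroupIn_iff (A : ValuationSubring L) (σ : L ≃ₐ[K] L) :
    σ ∈ A.inertiaSubgroupIn K ↔ σ • A = A ∧ ∀ x ∈ A, σ x - x ∈ A.nonunits := by
  constructor
  · rintro ⟨⟨τ, hτ⟩, hmem, rfl⟩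
    refine ⟨hτ, fun x hx => ?_⟩
    have h1 : MulSemiringAction.toRingAut (A.decompositionSubgroup K) (IsLocalRing.ResidueField A)
        ⟨τ, hτ⟩ = 1 := hmem
    have h2 := congrArg (fun e : RingAut (IsLocalRing.ResidueField A) =>
      e (IsLocalRing.residue A ⟨x, hx⟩)) h1
    have h3 : IsLocalRing.residue A ((⟨τ, hτ⟩ : A.decompositionSubgroup K) • (⟨x, hx⟩ : A)) =
        IsLocalRing.residue A ⟨x, hx⟩ := h2
    rw [← sub_eq_zero, ← map_sub, IsLocalRing.residue_eq_zero_iff] at h3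
    exact ValuationSubring.mem_nonunits_iff_exists_mem_maximalIdeal.mpr ⟨_, h3⟩
  · rintro ⟨hσ, h⟩
    refine ⟨⟨σ, hσ⟩, ?_, rfl⟩
    change MulSemiringAction.toRingAut (A.decompositionSubgroup K) (IsLocalRing.ResidueField A)
        ⟨σ, hσ⟩ = 1
    refine RingEquiv.ext fun y => ?_
    obtain ⟨⟨x, hx⟩, rfl⟩ := IsLocalRing.residue_surjective y
    have h3 : IsLocalRing.residue A ((⟨σ, hσ⟩ : A.decompositionSubgroup K) • (⟨x, hx⟩ : A)) =
        IsLocalRing.residue A ⟨x, hx⟩ := by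
      rw [← sub_eq_zero, ← map_sub, IsLocalRing.residue_eq_zero_iff]
      obtain ⟨h4, h5⟩ := ValuationSubring.mem_nonunits_iff_exists_mem_maximalIdeal.mp (h x hx)
      exact h5
    exact h3

theorem mem_nonunits_smul_iff' (σ : L ≃ₐ[K] L) (A : ValuationSubring L) (x : L) :
    x ∈ (σ • A).nonunits ↔ σ⁻¹ x ∈ A.nonunits := by
  rw [ValuationSubring.mem_nonunits_iff_exists_mem_maximalIdeal,
    ValuationSubring.mem_nonunits_iff_exists_mem_maximalIdeal]
  simp only [IsLocalRing.mem_maximalIdeal, mem_nonunits_iff]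
  have hmem : ∀ y : L, y ∈ σ • A ↔ σ⁻¹ y ∈ A := fun y =>
    ValuationSubring.mem_pointwise_smul_iff_inv_smul_mem
  constructor
  · rintro ⟨hx, hu⟩
    refine ⟨(hmem x).mp hx, fun hu' => hu ?_⟩
    obtain ⟨v, hv⟩ := hu'.exists_right_inv
    refine IsUnit.of_mul_eq_one ⟨σ (v : L), (hmem _).mpr (by simp)⟩ (Subtype.ext ?_)
    have hv' : σ⁻¹ x * (v : L) = 1 := congrArg Subtype.val hv
    show x * σ (v : L) = 1
    have := congrArg σ hv'
    rw [map_mul, map_one] at this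
    simpa using this
  · rintro ⟨hx, hu⟩
    refine ⟨(hmem x).mpr hx, fun hu' => hu ?_⟩
    obtain ⟨v, hv⟩ := hu'.exists_right_inv
    refine IsUnit.of_mul_eq_one ⟨σ⁻¹ (v : L), (hmem _).mp v.2⟩ (Subtype.ext ?_)
    have hv' : x * (v : L) = 1 := congrArg Subtype.val hv
    show σ⁻¹ x * σ⁻¹ (v : L) = 1
    rw [← map_mul, hv', map_one]

theorem liesOverPrime_smul' {q : ℕ} {A : ValuationSubring L} (hA : A.LiesOverPrime q)
    (σ : L ≃ₐ[K] L) : (σ • A).LiesOverPrime q := by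
  show (q : L) ∈ (σ • A).nonunits
  rw [mem_nonunits_smul_iff', map_natCast]
  exact hA

theorem conj_mem_inertia {A : ValuationSubring L} {σ : L ≃ₐ[K] L}
    (hσ : σ ∈ A.inertiaSubgroupIn K) (τ : L ≃ₐ[K] L) :
    τ * σ * τ⁻¹ ∈ (τ • A).inertiaSubgroupIn K := by
  rw [mem_inertiaSubgroupIn_iff] at hσ ⊢
  obtain ⟨h1, h2⟩ := hσ
  constructor
  · rw [smul_smul, inv_mul_cancel_right, mul_smul, h1]
  · intro x hx
    have hx' : τ⁻¹ x ∈ A := ValuationSubring.mem_pointwise_smul_iff_inv_smul_mem.mp hx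
    rw [mem_nonunits_smul_iff']
    have h3 := h2 _ hx'
    rw [map_sub]
    have h4 : τ⁻¹ ((τ * σ * τ⁻¹) x) = σ (τ⁻¹ x) := by
      simp [AlgEquiv.mul_apply, AlgEquiv.aut_inv]
    rw [h4]
    exact h3

end

end Fermat.Agent.H91
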