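import Fermat.Agent.H6TWFrob
import Fermat.Agent.H70Frob
import Fermat.Agent.H16Ram
import Fermat.Agent.H33Facts
import Fermat.Agent.H33Cyclo
import Fermat.Agent.H43Place
import Fermat.Agent.H53TW1
import Fermat.Agent.H63Hermite
import Fermat.Agent.H63Cyclo
import Fermat.Agent.H73Quad
import Fermat.Agent.H91Inertia
import Fermat.Agent.H86DensityRep
import Fermat.Agent.H86DensityFinal

/-!
# Reader's guide: the absolute Galois group of `ℚ` (places, inertia, Frobenius, Minkowski, Hermite)

Every theorem of this file is proved by citing a theorem of the library; nothing here is used by any other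
file.  Editor: helper63.

**What the block does.**  The frozen statements speak about the places of `ℚ̄` in the language of valuation
rings (`ValuationSubring`), and about inertia groups and Frobenius elements at such places.  The proofs of 37
of the 60 statements, S01 included, use the theorems below.  The guide explains the language and states the
facts about `Gal(ℚ̄/ℚ)` on which everything else rests:

1. a place of `ℚ̄` is the same thing as a prime ideal of the ring `ℤ̄` of algebraic integers, and its inertia
   group and its Frobenius elements are those of the prime ideal;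
2. existence and uniqueness (places, Frobenius elements, lifting of inertia from a finite layer);
3. action on roots of unity, the cyclotomic character modulo `p`;
4. the valuation and the field fixed by an inertia group: value group `p^ℤ` and full residue field;
5. ramification in number fields: theorems of Minkowski and Hermite, quadratic fields;
6. Frobenius elements are dense (in the weak form of Frobenius).

No local field and no completion occurs: the role of the Galois group of `ℚ_p` is played by the stabiliser of
a place of `ℚ̄`.  (The Galois group of `ℚ_p` is only used in the block of Poitou and Tate, see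
`GuidePoitouTate`, and in the module `H81Ord1`.)

**Reading order.**  Sections 1 - 6 in order.  Continued in `GuideLocalBounds` (tame inertia), `GuideGalois`
(representations determined by Frobenius elements), `GuideQuadRec` (density, proof), `GuideMordellWeil`
(finiteness of the set of number fields, weak theorem), `GuideFermatSmall` (Kummer theory),
`GuidePoitouTate` (duality).  `NOTES.md`, Appendix A, notes [155], [95], [215].

**References.**  J. Neukirch, *Algebraic number theory*, chapters I - III; J.-P. Serre, *Local fields*.
-/

set_option autoImplicit false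

namespace Fermat.Agent.Guide.AbsGal

open NumberField
open scoped Pointwise

local notation "Qbar" => AlgebraicClosure ℚ
local notation "Gℚ" => AlgebraicClosure ℚ ≃ₐ[ℚ] AlgebraicClosure ℚ

/-! ## 1. Places and prime ideals

`A : ValuationSubring L`: a subring of the field `L` which contains `x` or `x⁻¹` for every `x ≠ 0`.
`A.valuation` is its valuation (with values in an ordered group with zero, written multiplicatively),
`A.nonunits` its maximal ideal.  The Galois group acts on the places by `σ • A = σ(A)`.  In sections 1 and 2
`L` is an algebraic extension of `ℚ`, for example `ℚ̄` or a number field (the first six theorems hold for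
every field `L`), and `𝓞 L` is the ring of algebraic integers in `L`.  (The trivial valuation ring `A = L` is
not excluded; its centre is the ideal `0` and it lies over no prime number.) -/

section Places

variable {L : Type*} [Field L]

/-- **Places over a prime number** (`A.LiesOverPrime q`, a notion of the frozen statements): the valuation of
`q` is smaller than `1`. -/
theorem liesOverPrime_iff (A : ValuationSubring L) (q : ℕ) :
    A.LiesOverPrime q ↔ A.valuation (q : L) < 1 :=
  A.mem_nonunits_iff

/-- **Inertia groups** (`A.inertiaSubgroupIn K`, a notion of the frozen statements): `σ` belongs to the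
inertia group of `A` if it stabilises `A` and acts trivially on the residue field.  File `H63Dict`. -/
theorem mem_inertia_iff {K : Type*} [Field K] [Algebra K L] (A : ValuationSubring L) (σ : L ≃ₐ[K] L) :
    σ ∈ A.inertiaSubgroupIn K ↔ σ • A = A ∧ ∀ x ∈ A, A.valuation (σ x - x) < 1 :=
  H63.mem_inertiaSubgroupIn_iff A σ

/-- **Frobenius elements** (`A.IsFrobeniusAt σ q`, a notion of the frozen statements): `σ` stabilises `A` and
is the map `x ↦ x ^ q` on the residue field.  So these are the arithmetic Frobenius elements.  File
`H63Dict`. -/
theorem isFrobenius_iff {K : Type*} [Field K] [Algebra K L] (A : ValuationSubring L) (σ : L ≃ₐ[K] L)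
    (q : ℕ) : A.IsFrobeniusAt σ q ↔ σ • A = A ∧ ∀ x ∈ A, A.valuation (σ x - x ^ q) < 1 :=
  H63.isFrobeniusAt_iff A σ q

/-- **The centre of a place**: the prime ideal `H63.center A` of `𝓞 L` consists of the algebraic integers of
valuation smaller than `1`.  (All algebraic integers belong to `A`, because valuation rings are integrally
closed.)  File `H63Center`. -/
theorem mem_center_iff (A : ValuationSubring L) (x : 𝓞 L) :
    x ∈ H63.center A ↔ A.valuation (x : L) < 1 :=
  H63.mem_center_iff A x

/-- `A` lies over `q` if and only if its centre contains `q`.  File `H63Center`. -/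
theorem liesOverPrime_iff_center (A : ValuationSubring L) (q : ℕ) :
    A.LiesOverPrime q ↔ (q : 𝓞 L) ∈ H63.center A :=
  H63.liesOverPrime_iff A q

/-- **Every prime ideal is the centre of a place** (existence of a valuation ring dominating a local ring,
Mathlib).  File `H63Dict`. -/
theorem exists_place_with_center (P : Ideal (𝓞 L)) [P.IsPrime] :
    ∃ A : ValuationSubring L, H63.center A = P :=
  H63.exists_center_eq P

variable [CharZero L] [Algebra.IsAlgebraic ℚ L]

/-- **A valuation ring is a ring of fractions of the algebraic integers**: `x` belongs to `A` if and only if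
`x b = a` for algebraic integers `a`, `b` with `b` outside of the centre.  Proof without ideal theory: if
`a₀ + a₁ x + ... + aₙ xⁿ = 0` with coprime integers `aᵢ`, then the Horner tails `bₖ = aₖ + a_{k+1} x + ...`
are algebraic integers, because they belong to every valuation ring (see the two cases `x ∈ V`, `x⁻¹ ∈ V`).
Now `x b_{k+1} = bₖ - aₖ`, and if `x` belongs to `A`, some `b_{k+1}` is a unit of `A`, since otherwise all
`aₖ` would be nonunits.  Files `H63Center`, `H63Dict`. -/
theorem mem_iff_exists_fraction (A : ValuationSubring L) (x : L) :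
    x ∈ A ↔ ∃ a b : 𝓞 L, b ∉ H63.center A ∧ x * (b : L) = (a : L) :=
  H63.mem_iff_exists A x

/-- **A place is determined by its centre.**  File `H63Dict`. -/
theorem center_injective : Function.Injective (H63.center (L := L)) :=
  H63.center_injective

variable {K : Type*} [Field K] [Algebra K L]

/-- **The inertia group in terms of algebraic integers**: `σ x ≡ x` modulo the centre, for all algebraic
integers `x`.  (The condition implies that `σ` stabilises `A`.)  File `H63Dict`. -/
theorem mem_inertia_iff_center (A : ValuationSubring L) (σ : L ≃ₐ[K] L) :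
    σ ∈ A.inertiaSubgroupIn K ↔ ∀ x : 𝓞 L, σ • x - x ∈ H63.center A :=
  H63.mem_inertiaSubgroupIn_iff_center A σ

/-- **Frobenius elements in terms of algebraic integers**: `σ x ≡ x ^ q` modulo the centre, for all algebraic
integers `x`.  File `H63Dict`. -/
theorem isFrobenius_iff_center (A : ValuationSubring L) (σ : L ≃ₐ[K] L) {q : ℕ} (hq : q ≠ 0) :
    A.IsFrobeniusAt σ q ↔ ∀ x : 𝓞 L, σ • x - x ^ q ∈ H63.center A :=
  H63.isFrobeniusAt_iff_center A σ hq

end Places

/-! ## 2. Existence, conjugacy, lifting -/

/-- **There is a place over every prime number.**  File `H63Minkowski`. -/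
theorem exists_place (L : Type*) [Field L] [CharZero L] [Algebra.IsAlgebraic ℚ L] {q : ℕ}
    (hq : q.Prime) : ∃ A : ValuationSubring L, A.LiesOverPrime q :=
  H63.exists_liesOverPrime L hq

/-- **Conjugate places**: `g • A` lies over the same prime number as `A`, its inertia group and its Frobenius
elements are obtained by conjugation.  Files `H63Minkowski`, `H91Inertia`, `H6TWFrob`. -/
theorem conjugation {K L : Type*} [Field K] [Field L] [Algebra K L] (A : ValuationSubring L)
    (g : L ≃ₐ[K] L) :
    (∀ q : ℕ, A.LiesOverPrime q → (g • A).LiesOverPrime q) ∧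
      (∀ σ ∈ A.inertiaSubgroupIn K, g * σ * g⁻¹ ∈ (g • A).inertiaSubgroupIn K) ∧
      ∀ (σ : L ≃ₐ[K] L) (q : ℕ), A.IsFrobeniusAt σ q → (g • A).IsFrobeniusAt (g * σ * g⁻¹) q :=
  ⟨fun _ hA => H63.liesOverPrime_smul g hA, fun _ hσ => H91.conj_mem_inertia hσ g,
    fun _ _ hσ => H6.frobenius_conj hσ g⟩

/-- **Two Frobenius elements at the same place differ by an element of inertia.**  File `H6TWFrob`. -/
theorem frobenius_unique {K L : Type*} [Field K] [Field L] [Algebra K L] {A : ValuationSubring L}
    {σ τ : L ≃ₐ[K] L} {q : ℕ} (hσ : A.IsFrobeniusAt σ q) (hτ : A.IsFrobeniusAt τ q) :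
    σ⁻¹ * τ ∈ A.inertiaSubgroupIn K :=
  H6.frobenius_inv_mul_mem hσ hτ

/-- **Lifting of inertia.**  Let `F/K` be a normal subextension of `L/K`.  Every element of the inertia group
in `Gal(F/K)` of the prime ideal of `𝓞 F` below the centre of `A` is the restriction of an element of the
inertia group of `A`.  Proof: the Galois group of `L/F` acts transitively on the primes over a given prime and
its decomposition groups act on the residue fields by all automorphisms (for profinite groups, Mathlib).  File
`H63Lift`. -/
theorem inertia_lifts {K F L : Type*} [Field K] [Field F] [Field L] [CharZero L] [Algebra.IsAlgebraic ℚ L]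
    [Algebra K L] [IsGalois K L] [Algebra K F] [Algebra F L] [IsScalarTower K F L] [Normal K F]
    [IsGalois F L] (A : ValuationSubring L) (σ₀ : F ≃ₐ[K] F)
    (hσ₀ : ∀ x : 𝓞 F, algebraMap (𝓞 F) (𝓞 L) (σ₀ • x - x) ∈ H63.center A) :
    ∃ τ ∈ A.inertiaSubgroupIn K, AlgEquiv.restrictNormalHom F τ = σ₀ :=
  H63.exists_mem_inertiaSubgroupIn_restrict A σ₀ hσ₀

/-- **Two places of `ℚ̄` over the same prime number are conjugate.**  Files `H54Frobenius`, `H53TW1`. -/
theorem places_are_conjugate {q : ℕ} (hq : q.Prime) {A A' : ValuationSubring Qbar}
    (hA : A.LiesOverPrime q) (hA' : A'.LiesOverPrime q) : ∃ g : Gℚ, g • A = A' :=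
  H53.exists_smul_eq_place hq hA hA'

/-- **Existence of Frobenius elements**: every place over `q` of a Galois extension `L` of `ℚ` has a Frobenius
element.  (Frobenius elements of the prime ideals of `𝓞 L` in the sense of Mathlib, and the dictionary of
section 1.)  File `H70Frob`. -/
theorem exists_frobenius {L : Type*} [Field L] [Algebra ℚ L] [IsGalois ℚ L] (A : ValuationSubring L)
    {q : ℕ} (hq : q.Prime) (hA : A.LiesOverPrime q) : ∃ σ : L ≃ₐ[ℚ] L, A.IsFrobeniusAt σ q :=
  H70.exists_frobenius A hq hA

/-- The same for `ℚ̄`.  File `H54Frobenius`. -/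
theorem exists_frobenius_Qbar {q : ℕ} (hq : q.Prime) {A : ValuationSubring Qbar}
    (hA : A.LiesOverPrime q) : ∃ σ : Gℚ, A.IsFrobeniusAt σ q :=
  H54.exists_isFrobeniusAt hq hA

/-! ## 3. Roots of unity

`ExtCitation.cycloChar p : Gal(ℚ̄/ℚ) → (ℤ/p)ˣ` is the cyclotomic character modulo `p` of the frozen
statements. -/

/-- **Roots of unity of order prime to `q`**: the inertia groups over `q` fix them, the Frobenius elements
raise them to the power `q`.  (They are distinct modulo the place.)  File `H31Cyclo`. -/
theorem roots_of_unity_prime_to {q n : ℕ} {A : ValuationSubring Qbar} (hA : A.LiesOverPrime q)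
    (h : Nat.Coprime q n) (hn : 0 < n) {ζ : Qbar} (hζ : ζ ^ n = 1) :
    (∀ σ ∈ A.inertiaSubgroupIn ℚ, σ ζ = ζ) ∧ ∀ φ : Gℚ, A.IsFrobeniusAt φ q → φ ζ = ζ ^ q :=
  ⟨fun _ hσ => H31.inertia_apply_rootOfUnity A hA h hn hσ hζ,
    fun _ hφ => H31.frobenius_apply_rootOfUnity A hA h hn hφ hζ⟩

/-- **The cyclotomic character**: `σ ζ = ζ ^ χ(σ)` for the `p`-th roots of unity.  File `H63Cyclo`. -/
theorem cycloChar_spec (p : ℕ) [Fact p.Prime] (σ : Gℚ) {ζ : Qbar} (hζ : ζ ^ p = 1) :
    σ ζ = ζ ^ (ExtCitation.cycloChar p σ : ZMod p).val :=
  H63.apply_of_pow_eq_one p σ hζ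

/-- **The cyclotomic character modulo `p` has an open kernel and is unramified outside `p`.**  File
`H63Cyclo`. -/
theorem cycloChar_unramified (p : ℕ) [Fact p.Prime] :
    IsOpen ((ExtCitation.cycloChar p).ker : Set Gℚ) ∧
      ∀ q : ℕ, q.Prime → q ≠ p → ∀ A : ValuationSubring Qbar, A.LiesOverPrime q →
        ∀ σ ∈ A.inertiaSubgroupIn ℚ, ExtCitation.cycloChar p σ = 1 :=
  ⟨H63.isOpen_ker_cycloChar, fun _ hq hqp _ hA _ hσ => H63.cycloChar_eq_one_of_mem_inertia hq hqp hA hσ⟩

/-- **Total ramification of the `p`-th roots of unity**: for every `a` prime to `p` the inertia group of any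
place over `p` contains an element which acts on the `p`-th roots of unity as `ζ ↦ ζ ^ a`.  (In `ℚ(ζ)` the
automorphism `ζ ↦ ζ ^ a` is in the inertia group, because the ring of integers is `ℤ[ζ]` and `ζ` is congruent
to `1` modulo every place over `p`; then use `inertia_lifts`.)  File `H33Cyclo`. -/
theorem roots_of_unity_totally_ramified {p : ℕ} [Fact p.Prime] {A : ValuationSubring Qbar}
    (hA : A.LiesOverPrime p) (a : ℕ) (ha : ¬ p ∣ a) :
    ∃ σ ∈ A.inertiaSubgroupIn ℚ, ∀ ζ : Qbar, ζ ^ p = 1 → σ ζ = ζ ^ a :=
  H33.exists_inertia_cyclo hA a ha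

/-! ## 4. The valuation and the field fixed by an inertia group

`A` is a place of `ℚ̄`, over the prime number `p` except in one theorem.  The field fixed by its inertia group
plays the role of the maximal unramified extension of `ℚ_p`. -/

/-- **The valuation has rank one**: every nonzero element divides a power of `p`.  (An integral element of the
maximal ideal divides the constant term of a polynomial over `ℤ` of which it is a zero.)  File `H43Place`. -/
theorem rank_one {p : ℕ} (hp : p.Prime) {A : ValuationSubring Qbar} (hA : A.LiesOverPrime p) {x : Qbar}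
    (hx : x ≠ 0) : ∃ n : ℕ, ∃ a ∈ A, (p : Qbar) ^ n = x * a :=
  H43.exists_pow_eq_mul hp hA hx

/-- **The residue field** of a place over `p` has characteristic `p`, and its nonzero elements are roots of
unity of order prime to `p`.  File `H1Inertia`. -/
theorem residue_field {p : ℕ} [Fact p.Prime] {A : ValuationSubring Qbar} (hA : A.LiesOverPrime p) :
    CharP (IsLocalRing.ResidueField A) p ∧ ∀ c : IsLocalRing.ResidueField A, c ≠ 0 →
      ∃ n, 0 < n ∧ Nat.Coprime p n ∧ c ^ n = 1 :=
  ⟨H1.charP_of_liesOver A hA (IsLocalRing.residue A),
    H1.exists_pow_eq_one_residue A hA (IsLocalRing.residue A) IsLocalRing.residue_surjective⟩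

/-- **Inertia preserves the valuation**, at every place.  (Otherwise the values of the elements `σⁿ x` would
be strictly increasing for `σ` or its inverse, but the orbit of `x` is finite.)  File `H33Inertia`. -/
theorem inertia_preserves_valuation {A : ValuationSubring Qbar} {σ : Gℚ}
    (hσ : σ ∈ A.inertiaSubgroupIn ℚ) (x : Qbar) : A.valuation (σ x) = A.valuation x :=
  H33.inertia_valuation hσ x

/-- **The inertia field is unramified**: the value of an element fixed by the inertia group is a power of the
value of `p`.  Files `H44EDisc`, `H33Facts`. -/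
theorem value_group_of_inertia_field {p : ℕ} [Fact p.Prime] {A : ValuationSubring Qbar}
    (hA : A.LiesOverPrime p) {a : Qbar} (ha : a ≠ 0) (h : ∀ σ ∈ A.inertiaSubgroupIn ℚ, σ a = a) :
    ∃ m : ℤ, A.valuation a = A.valuation (p : Qbar) ^ m :=
  (H33.inertiaFacts hA).val a ha h

/-- **The inertia field has the full residue field**, an algebraic closure of the field with `p` elements:
every element of the residue field of `A` has a representative fixed by the inertia group (a root of unity or
`0`).  Files `H1Inertia`, `H33Facts`. -/
theorem residue_field_of_inertia_field {p : ℕ} [Fact p.Prime] {A : ValuationSubring Qbar}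
    (hA : A.LiesOverPrime p) (c : IsLocalRing.ResidueField A) :
    ∃ a : A, (∀ σ ∈ A.inertiaSubgroupIn ℚ, σ (a : Qbar) = a) ∧ IsLocalRing.residue A a = c :=
  (H33.inertiaFacts hA).res c

/-- **Ramification indices**: if `a` is fixed by a subgroup `H` of index `e` of the inertia group, the `e`-th
power of its value is a power of the value of `p`.  (Take the product of the conjugates of `a` under the
inertia group, that is over the cosets of `H`.)  File `H33Inertia`. -/
theorem value_group_of_finite_index {p : ℕ} [Fact p.Prime] {A : ValuationSubring Qbar}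
    (hA : A.LiesOverPrime p) (H : Subgroup (A.inertiaSubgroupIn ℚ)) [H.FiniteIndex] {a : Qbar}
    (ha : a ≠ 0) (hH : ∀ σ : A.inertiaSubgroupIn ℚ, σ ∈ H → (σ : Gℚ) a = a) :
    ∃ m : ℤ, A.valuation a ^ H.index = A.valuation (p : Qbar) ^ m :=
  H33.exists_pow_valuation (H33.inertiaFacts hA) H ha hH

/-- **The value of `1 - ζ`** for a primitive `p`-th root of unity: `v(p) = v(ζ - 1)^(p - 1)` (written
multiplicatively).  So the ramification index of the `p`-th roots of unity is `p - 1`.  File `H16Ram`. -/
theorem value_of_zeta_sub_one {p : ℕ} [Fact p.Prime] {A : ValuationSubring Qbar} (hA : A.LiesOverPrime p)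
    {ζ : Qbar} (hζ : IsPrimitiveRoot ζ p) :
    A.valuation (p : Qbar) = A.valuation (ζ - 1) ^ (p - 1) :=
  H16.Ram.val_q (IsLocalRing.residue A) hA hζ

/-! ## 5. Ramification in number fields

An open subgroup of `Gal(ℚ̄/ℚ)` is the Galois group of `ℚ̄` over a number field; the number field is
unramified at all places over `q` if and only if the subgroup contains all inertia groups over `q`. -/

/-- **Unramified at `q` in the sense of ideals.**  Let `F` be a Galois number field inside `L` and suppose
that all inertia groups over `q` act trivially on `F`.  Then the prime ideals of `𝓞 F` over `q` are unramified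
in the sense of Mathlib.  File `H63Hermite`. -/
theorem unramified_of_inertia {L : Type*} [Field L] [CharZero L] [IsGalois ℚ L] (F : Type*) [Field F]
    [NumberField F] [IsGalois ℚ F] [Algebra F L] (q : ℕ)
    (h : ∀ A : ValuationSubring L, A.LiesOverPrime q → ∀ σ ∈ A.inertiaSubgroupIn ℚ,
      ∀ x : F, σ (algebraMap F L x) = algebraMap F L x)
    (P : Ideal (𝓞 F)) (hP : P.IsPrime) (hqP : (q : 𝓞 F) ∈ P) : Algebra.IsUnramifiedAt ℤ P :=
  H63.isUnramifiedAt_of_inertia F q h P hP hqP

/-- **Minkowski's theorem**, first form: a homomorphism from `Gal(ℚ̄/ℚ)` to any group, with open kernel, which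
is trivial on one inertia group over every prime number, is trivial.  (`ℚ` has no unramified extension:
Mathlib has a ramified prime ideal in every number field other than `ℚ`, the passage to the inertia groups of
`Gal(ℚ̄/ℚ)` is `inertia_lifts`.)  File `H63Minkowski`. -/
theorem minkowski {M : Type*} [Group M] (f : Gℚ →* M) (hf : IsOpen (f.ker : Set Gℚ))
    (h : ∀ q : ℕ, q.Prime → ∃ A : ValuationSubring Qbar, A.LiesOverPrime q ∧
      ∀ σ ∈ A.inertiaSubgroupIn ℚ, f σ = 1) : f = 1 :=
  H63.eq_one_of_isOpen_ker f hf h

/-- **Minkowski's theorem**, second form: `Gal(ℚ̄/ℚ)` has no proper open subgroup which contains all inertia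
groups.  File `H63Minkowski`; used for S09, S12, S13, S45, S01 and others. -/
theorem minkowski_subgroup (U : Subgroup Gℚ) (hU : IsOpen (U : Set Gℚ))
    (h : ∀ q : ℕ, q.Prime → ∀ A : ValuationSubring Qbar, A.LiesOverPrime q →
      A.inertiaSubgroupIn ℚ ≤ U) : U = ⊤ :=
  H63.eq_top_of_isOpen_of_inertia_le U hU h

/-- **The different of a Galois number field** `F` which is unramified outside a finite set `S` of prime
numbers divides `[F:ℚ] ∏_{p ∈ S} p`.  Elementary proof: let `p ^ c` be the highest power of `p` which divides
`[F:ℚ]`.  If the different had a larger exponent than `p ^ (c + 1)` at one prime over `p`, it would be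
divisible by `p ^ (c + 1)`, because the Galois group permutes the primes over `p` transitively.  Then the
trace of `p ^ (-c - 1)` would be an integer; but it is `[F:ℚ] / p ^ (c + 1)`.  File `H63Different`. -/
theorem different_divides (F : Type*) [Field F] [NumberField F] [IsGalois ℚ F] (S : Finset ℕ)
    (hS : ∀ p ∈ S, p.Prime)
    (hur : ∀ q : ℕ, q.Prime → q ∉ S → ∀ (P : Ideal (𝓞 F)) (_ : P.IsPrime), (q : 𝓞 F) ∈ P →
      Algebra.IsUnramifiedAt ℤ P) :
    differentIdeal ℤ (𝓞 F) ∣ Ideal.span {((Module.finrank ℚ F * ∏ p ∈ S, p : ℕ) : 𝓞 F)} :=
  H63.differentIdeal_dvd F S hS hur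

/-- **Bound for the discriminant**, by taking norms in the preceding theorem.  With the theorem of Mathlib
that there are only finitely many number fields of bounded discriminant this gives the theorem of Hermite.
File `H63Different`. -/
theorem discriminant_bound (F : Type*) [Field F] [NumberField F] [IsGalois ℚ F] (S : Finset ℕ)
    (hS : ∀ p ∈ S, p.Prime)
    (hur : ∀ q : ℕ, q.Prime → q ∉ S → ∀ (P : Ideal (𝓞 F)) (_ : P.IsPrime), (q : 𝓞 F) ∈ P →
      Algebra.IsUnramifiedAt ℤ P) :
    (NumberField.discr F).natAbs ≤ (Module.finrank ℚ F * ∏ p ∈ S, p) ^ Module.finrank ℚ F :=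
  H63.natAbs_discr_le F S hS hur

/-- **Hermite's theorem** for `Gal(ℚ̄/ℚ)`: for a finite set `S` of prime numbers and `d ≥ 0` there is one open
normal subgroup `W`, containing all inertia groups outside `S`, which is contained in every open subgroup of
index at most `d` with the same property.  So all finite Galois modules of bounded size which are unramified
outside `S` are modules for one finite group.  File `H63Hermite`.  Used for the finiteness of tangent spaces
(`H53Tangent`: S38, S43, S59), in the block LT (`H6MDFinal`), so for S01, and for the weak theorem of Mordell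
and Weil in S17 (`H63WeakMW`). -/
theorem hermite (S : Finset ℕ) (hS : ∀ p ∈ S, p.Prime) (d : ℕ) :
    ∃ W : Subgroup Gℚ, IsOpen (W : Set Gℚ) ∧ W.Normal ∧
      (∀ q : ℕ, q.Prime → q ∉ S → ∀ A : ValuationSubring Qbar, A.LiesOverPrime q →
        A.inertiaSubgroupIn ℚ ≤ W) ∧
      ∀ U : Subgroup Gℚ, IsOpen (U : Set Gℚ) → U.index ≤ d →
        (∀ q : ℕ, q.Prime → q ∉ S → ∀ A : ValuationSubring Qbar, A.LiesOverPrime q →
          A.inertiaSubgroupIn ℚ ≤ U) → W ≤ U :=
  H63.exists_open_normal_le S hS d

/-- **Quadratic fields**: an open subgroup of index two is the stabiliser of the square root of an integer.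
(If it contains the inertia groups over an odd prime `q`, then `q` divides `m` to an even power.  This gives
the uniqueness of the quadratic field unramified outside an odd prime, `H73.Quad.eq_of_index_two`, used for
the condition of Taylor and Wiles in `GuideCurvesTate`.)  File `H73Quad`. -/
theorem exists_square_root (G : Subgroup Gℚ) (hG : IsOpen (G : Set Gℚ)) (h2 : G.index = 2) :
    ∃ (x : Qbar) (m : ℤ), x ^ 2 = (m : Qbar) ∧ m ≠ 0 ∧ x ≠ 0 ∧
      (∀ σ ∈ G, σ x = x) ∧ ∀ σ ∉ G, σ x = -x :=
  H73.Quad.exists_sqrt G hG h2

/-! ## 6. Density of the Frobenius elements -/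

/-- **The density theorem of Frobenius**, in the form of an existence theorem: let `R` be a homomorphism from
`Gal(ℚ̄/ℚ)` to a monoid which factors through the Galois group of a number field.  For every `σ` and every
finite set `S` of prime numbers there are a prime number `ℓ` outside `S`, a place over `ℓ` and a Frobenius
element `φ` at this place such that `R(σ)` is a power of `R(φ)` and conversely.  Proof: Mathlib's residue of
the Dedekind zeta functions at `s = 1` and counting of prime ideals of degree one in the fixed fields of
cyclic subgroups (`GuideQuadRec`).  Files `H82FrobDensity`, `H86Density`, `H86DensityRep`.  Chebotarev's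
theorem, which is stronger, is not used for S01 (only, in a symmetric form, for S47 and S48).  The same with
all places over `ℓ` controlled at once is `exists_prime_with_frobenius` in `GuideTaylorWiles`. -/
theorem frobenius_elements_dense {M : Type} [Monoid M] {R : Gℚ →* M}
    (hR : ∃ E : IntermediateField ℚ Qbar, FiniteDimensional ℚ E ∧ ∀ σ : Gℚ, (∀ x ∈ E, σ x = x) → R σ = 1)
    (σ : Gℚ) (S : Finset ℕ) :
    ∃ ℓ : ℕ, ℓ.Prime ∧ ℓ ∉ S ∧ ∃ A : ValuationSubring Qbar, A.LiesOverPrime ℓ ∧
      ∃ φ : Gℚ, A.IsFrobeniusAt φ ℓ ∧ ∃ j k : ℕ, R σ = R φ ^ j ∧ R φ = R σ ^ k :=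
  H86.density_hom H86.frobDensityFinite hR σ S

end Fermat.Agent.Guide.AbsGal
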