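import Fermat.Agent.H3S27Weight

/-!
# Reader's guide: the affine model of a curve with one point at infinity (S27, companion file)

Companion of `GuideTorsion`, section 1.  Every theorem of this file is proved by citing theorems of the
library; nothing here is used by any other file.  Files: `H3S27FF`, `H3S27Weight`, `H3S27Gaps` (helper3).

**What is proved.**  `GuideTorsion.exists_weighted_model`: let `K` be an algebraically closed field of
characteristic zero and `F/K` a curve in the sense of the frozen statements (`IsCurveOver`, and `F` is
finitely generated as a field).  There is a Dedekind domain `B` with a weight function `wt` such that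
the number of gaps of `wt` is the genus `g` of `F`, and the class group of `B` is `Pic⁰` of `F`.  All
further work for S27 (multiplication tables, reduction to characteristic `p`, zeta functions) is done
with `B` and `wt`; the function field does not occur any more.

**Construction.**  Choose a place `P` ("the point at infinity") and let `B` be the ring of the functions
which are regular at all places except perhaps `P`, and `wt b` the order of the pole of `b` at `P`.

1. A curve in the sense of the Prelude is a function field in one variable (`function_field`).
2. By the theorem of Riemann and Roch there is a function `x` with a pole at `P` and no other pole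
   (`exists_only_pole`); `B` is the integral closure of `K[x]` in `F` (`integral_closure_is_model`), so it
   is a Dedekind domain with fraction field `F`.
3. The elements of `B` of weight at most `n` are the space `L(n P)` (`riemann_roch_space`), so
   `dim L(n P)` is the number of weights `≤ n` (`dim_eq_number_of_weights`).  Since
   `dim L(n P) = n + 1 - g` for `n ≥ 2g - 1`, all `n ≥ 2g` are weights and there are exactly `g` gaps
   (`large_weights`, `number_of_gaps`).  The axioms of a weight hold because `P` is a discrete valuation
   with residue field `K` (`is_weight`).
4. The maximal ideals of `B` are the places different from `P` (`primes_are_places`), and the order of a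
   function at such a place is its exponent in the factorisation of fractional ideals
   (`order_eq_exponent`).
5. A divisor of degree zero, restricted to the places `≠ P`, is a fractional ideal of `B` and has an
   ideal class.  This map is surjective, because the coefficient at `P` can be chosen such that the
   degree is zero, and its kernel consists of the principal divisors, because the degree of a principal
   divisor is zero (`class_map_surjective`, `kernel_of_class_map`, `pic_eq_class_group`).

**Where it is used.**  All theorems are in the proof terms of S27 and S19 (finiteness of the torsion of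
`J₀(N)`), and through S19 in those of S32, S38, S43, S45, S46, S50, S59, S60, S03, S04, S06 and S01;
`exists_only_pole` also in the proof of S26.  Compare `GuideRamification`, section 1 (places and Dedekind
rings, degree of a principal divisor), `GuideRiemannRoch` (the theorem of Riemann and Roch),
`GuideWeights` (consequences of the axioms of a weight) and `GuideTables` (multiplication tables).
NOTES.md, Appendix A.3, notes [85] and [269].
-/

set_option autoImplicit false

noncomputable section

open AlgebraicCurve WithZero Polynomial IntermediateField IsDedekindDomain
open scoped nonZeroDivisors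
open Fermat.Agent.H3RR (IsFF)
open Fermat.Agent.H95 (IsWeight)
open Fermat.Agent.H3S27 (IsAffineRing wt pl toFrac res theta)

namespace Fermat.Agent.Guide.AffineModel

/-! ## 1. Curves of the Prelude are function fields -/

/-- **Differentials of constants are zero**: in characteristic zero the differential `dx` of an element
which is algebraic over `K` is zero (apply `d` to the minimal polynomial, which is separable).  File
`H3S27FF`. -/
theorem differential_of_algebraic (K F : Type*) [Field K] [Field F] [Algebra K F] [CharZero K] {x : F}
    (hx : IsAlgebraic K x) : KaehlerDifferential.D K F x = 0 :=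
  H3S27.D_eq_zero_of_isAlgebraic K F hx

/-- **A curve is a function field in one variable.**  `IsCurveOver K F` contains the condition that the
differentials of `F` over `K` have dimension one.  So there is `x` with `dx ≠ 0`; it is transcendental,
and every differential is a multiple of `dx`, so the differentials of `F` over `K(x)` are zero: `F` is
unramified over `K(x)` and finitely generated, hence finite.  File `H3S27FF`. -/
theorem function_field (K F : Type*) [Field K] [Field F] [Algebra K F] [CharZero K] [IsCurveOver K F]
    [Algebra.EssFiniteType K F] : ∃ x : F, Transcendental K x ∧ FiniteDimensional K⟮x⟯ F :=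
  (H3S27.funField_of_isCurveOver K F).out

/-! ## 2. The ring of functions with poles at one place only

`IsFF K F`: the conclusion of `function_field` holds for `F/K`.  In sections 2 to 5 the characteristic may
be positive, except where `CharZero K` is assumed. -/

section Model

variable {K F : Type*} [Field K] [Field F] [Algebra K F]

/-- **A function with only one pole.**  For every place `P` there is a transcendental function with a pole
at `P` and no other pole: `L((2g + 1) P)` has dimension `g + 2` and is larger than the constants.  File
`H3S27Weight`. -/
theorem exists_only_pole [IsAlgClosed K] [IsFF K F] (P : Place K F) :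
    ∃ x : F, Transcendental K x ∧ 1 < P.adicValuation x ∧
      ∀ v : Place K F, v ≠ P → v.adicValuation x ≤ 1 :=
  H3S27.exists_only_pole P

/-- **The affine ring.**  `IsAffineRing P B` says that `B` is the ring of the functions which are regular at
all places different from `P`.  File `H3S27Gaps`. -/
theorem isAffineRing_iff (P : Place K F) (B : Type*) [CommRing B] [Algebra B F] [Algebra K B]
    [IsScalarTower K B F] :
    IsAffineRing P B ↔ Function.Injective (algebraMap B F) ∧
      ∀ f : F, (∃ b : B, algebraMap B F b = f) ↔ ∀ v : Place K F, v ≠ P → v.adicValuation f ≤ 1 :=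
  ⟨fun h => ⟨h.inj, h.mem_iff⟩, fun h => ⟨h.1, h.2⟩⟩

/-- **The model exists**: if `x` has its only pole at `P`, the integral closure of `K[x]` in `F` is the
affine ring of `P`, and it is a Dedekind domain with fraction field `F` (characteristic zero).  Proof: a
place different from `P` contains `x`, so it contains the integral closure; a function which is regular
at all these places is regular at all maximal ideals of the integral closure (each of them is a place
where `x` is regular, so not `P`), hence belongs to it.  Files `H3S27Weight`, `H94Divisors`. -/
theorem integral_closure_is_model [IsAlgClosed K] [IsFF K F] [CharZero K] (P : Place K F) {x : F}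
    (hx : Transcendental K x) (hP : 1 < P.adicValuation x)
    (hne : ∀ v : Place K F, v ≠ P → v.adicValuation x ≤ 1) :
    H94.IntRing K x = integralClosure (Algebra.adjoin K {x}) F ∧ IsAffineRing P (H94.IntRing K x) ∧
      IsDedekindDomain (H94.IntRing K x) ∧ IsFractionRing (H94.IntRing K x) F := by
  have hfd := IsFF.finiteDimensional (F := F) hx
  exact ⟨rfl, H3S27.isAffineRing_intRing P hx hP hne, H94.isDedekindDomain_intRing hx,
    H94.isFractionRing_intRing⟩

/-! ## 3. The order of the pole

In the rest of the file `B` is the affine ring of the place `P`: `hB : IsAffineRing P B`. -/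

variable {P : Place K F} {B : Type*} [CommRing B] [Algebra B F] [Algebra K B] [IsScalarTower K B F]

/-- **Definition of the weight**: `wt P b` is the order of the pole of `b` at `P`, and `wt P 0 = -∞`.
File `H3S27Gaps`. -/
theorem weight_definition (b : B) :
    wt P (0 : B) = ⊥ ∧ (b ≠ 0 → wt P b = ((-(P.ord (algebraMap B F b))).toNat : WithBot ℕ)) :=
  ⟨H3S27.wt_zero, fun hb => H3S27.wt_of_ne hb⟩

/-- **No zeros at infinity**: the order at `P` of `b ≠ 0` in `B` is at most zero (a function which is
regular everywhere and has a zero is zero); so the number in `weight_definition` is `-ord_P(b)`.  The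
constant `1` has weight zero.  File `H3S27Gaps`. -/
theorem order_at_infinity [IsAlgClosed K] [IsFF K F] (hB : IsAffineRing P B) :
    (∀ b : B, b ≠ 0 → P.ord (algebraMap B F b) ≤ 0) ∧
      (∀ (b : B) (n : ℕ), wt P b = (n : WithBot ℕ) ↔
        b ≠ 0 ∧ P.ord (algebraMap B F b) = -(n : ℤ)) ∧ wt P (1 : B) = ((0 : ℕ) : WithBot ℕ) :=
  ⟨fun _ hb => H3S27.ord_nonpos hB hb, fun _ _ => H3S27.wt_eq_coe_iff hB, H3S27.wt_one hB⟩

/-- **Weights and the valuation of `P`**, written multiplicatively: `exp n` is the value of a function with
a pole of order `n`.  File `H3S27Gaps`. -/
theorem weight_and_valuation [IsAlgClosed K] [IsFF K F] (hB : IsAffineRing P B) (b : B) (n : ℕ) :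
    (wt P b = (n : WithBot ℕ) ↔ P.adicValuation (algebraMap B F b) = exp (n : ℤ)) ∧
      (wt P b ≤ (n : WithBot ℕ) ↔ P.adicValuation (algebraMap B F b) ≤ exp (n : ℤ)) ∧
      (wt P b < (n : WithBot ℕ) ↔ P.adicValuation (algebraMap B F b) < exp (n : ℤ)) :=
  ⟨H3S27.wt_eq_coe_iff' hB, H3S27.wt_le_coe_iff hB, H3S27.wt_lt_coe_iff hB⟩

/-- **Riemann-Roch spaces**: `L(n P)` consists of the elements of `B` whose pole at `P` has order at most
`n`.  File `H3S27Gaps`. -/
theorem riemann_roch_space (hB : IsAffineRing P B) (f : F) (n : ℕ) :
    f ∈ riemannRochSpace (Finsupp.single P (n : ℤ) : Divisor K F) ↔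
      ∃ b : B, algebraMap B F b = f ∧ P.adicValuation f ≤ exp (n : ℤ) :=
  H3S27.mem_L_iff hB

/-- **Dimensions and weights**: `dim L(n P)` is the number of the weights `≤ n`.  By induction: `L(n P)` has
codimension at most one in `L((n + 1) P)`, and codimension one exactly if `n + 1` is the weight of an
element.  File `H3S27Gaps`. -/
theorem dim_eq_number_of_weights [IsAlgClosed K] [IsFF K F] (hB : IsAffineRing P B) (n : ℕ) :
    Module.finrank K (riemannRochSpace (Finsupp.single P (n : ℤ) : Divisor K F)) =
      ({m : ℕ | ∃ b ∈ (Set.univ : Set B), wt P b = (m : WithBot ℕ)} ∩ Set.Iic n).ncard :=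
  H3S27.ell_single hB n

/-- **Large numbers are weights**: every `n ≥ 2g` is the weight of an element of `B`, because
`dim L(n P) - dim L((n - 1) P) = 1` for `n - 1 ≥ 2g - 1` (`GuideRiemannRoch.large_degree`).  So there are
only finitely many gaps.  File `H3S27Gaps`. -/
theorem large_weights [IsAlgClosed K] [IsFF K F] (hB : IsAffineRing P B) :
    (∀ n : ℕ, 2 * genusFF K F ≤ n → ∃ b ∈ (Set.univ : Set B), wt P b = (n : WithBot ℕ)) ∧
      {m : ℕ | ∃ b ∈ (Set.univ : Set B), wt P b = (m : WithBot ℕ)}ᶜ ⊆
        Set.Iic (2 * genusFF K F) :=
  ⟨fun _ hn => H3S27.mem_wts_of_le hB hn, H3S27.compl_subset hB⟩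

/-- **The number of gaps is the genus**: there are `dim L(2g P) = g + 1` weights among the `2g + 1` numbers
`0, ..., 2g`.  File `H3S27Gaps`. -/
theorem number_of_gaps [IsAlgClosed K] [IsFF K F] (hB : IsAffineRing P B) :
    {m : ℕ | ∃ b ∈ (Set.univ : Set B), wt P b = (m : WithBot ℕ)}ᶜ.ncard = genusFF K F :=
  H3S27.genus_eq hB

/-- **The axioms of a weight** (`GuideTorsion.isWeight_iff`): `wt (b c) = wt b + wt c`;
`wt (b + c) ≤ max (wt b) (wt c)`; nonzero constants have weight zero; if `b`, `c` have the same weight, a
constant multiple of `c` can be subtracted from `b` such that the weight becomes smaller (the residue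
field of `P` is `K`); there are only finitely many gaps.  File `H3S27Gaps`. -/
theorem is_weight [IsAlgClosed K] [IsFF K F] (hB : IsAffineRing P B) : IsWeight K (wt P (B := B)) :=
  H3S27.isWeight hB

/-! ## 4. Maximal ideals of `B` and places -/

/-- **Valuations and exponents**: the normalised valuation of a maximal ideal `w` of a Dedekind domain `B`
at `f ≠ 0` is `exp (-e)`, where `e` is the exponent of `w` in the factorisation of the fractional ideal
`f B`.  The order of `f` at the place `pl w` of `w` is `e`.  File `H3S27Weight`. -/
theorem order_eq_exponent [IsAlgClosed K] [IsFF K F] [IsDedekindDomain B] [IsFractionRing B F]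
    (w : HeightOneSpectrum B) {f : F} (hf : f ≠ 0) :
    w.valuation F f = exp (-(FractionalIdeal.count F w (FractionalIdeal.spanSingleton B⁰ f))) ∧
      (pl w : Place K F) = Place.ofHeightOneSpectrum w ∧
      (pl w : Place K F).ord f = FractionalIdeal.count F w (FractionalIdeal.spanSingleton B⁰ f) :=
  ⟨H3S27.valuation_eq_exp_neg_count w hf, rfl, H3S27.ord_pl w hf⟩

/-- **The maximal ideals of the affine ring are the places different from `P`.**  (The place of a maximal
ideal is not `P`: otherwise all elements of `B` would be regular everywhere, so constants, but `F` is the
fraction field of `B`.)  File `H3S27Weight`. -/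
theorem primes_are_places [IsAlgClosed K] [IsFF K F] [IsDedekindDomain B] [IsFractionRing B F]
    (hB : IsAffineRing P B) (v : Place K F) :
    v ≠ P ↔ ∃! w : HeightOneSpectrum B, (pl w : Place K F) = v := by
  constructor
  · intro hv
    obtain ⟨w, hw⟩ := H3S27.exists_pl_eq hB hv
    exact ⟨w, hw, fun w' hw' => H3S27.pl_injective (hw'.trans hw.symm)⟩
  · rintro ⟨w, hw, -⟩
    exact hw ▸ H3S27.pl_ne hB w

/-! ## 5. Divisors of degree zero and ideal classes -/

/-- **From divisors to ideals**: `toFrac` maps a divisor `E` on the maximal ideals of `B` to the fractional
ideal `∏ w ^ E(w)`, in which the exponent of `w` is `E(w)`; every nonzero fractional ideal is obtained,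
because it is determined by its exponents.  (The group of fractional ideals is written additively,
`Additive`, and `toMul` goes back to the multiplicative notation.)  File `H3S27Weight`. -/
theorem ideals_and_exponents [IsDedekindDomain B] [IsFractionRing B F] :
    (∀ E : HeightOneSpectrum B →₀ ℤ,
      (((toFrac E : Additive (FractionalIdeal B⁰ F)ˣ).toMul : (FractionalIdeal B⁰ F)ˣ) :
        FractionalIdeal B⁰ F) = E.prod (fun w n => (w.asIdeal : FractionalIdeal B⁰ F) ^ n)) ∧
    (∀ (E : HeightOneSpectrum B →₀ ℤ) (w : HeightOneSpectrum B),
      FractionalIdeal.count F w (((toFrac E : Additive (FractionalIdeal B⁰ F)ˣ).toMul :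
        (FractionalIdeal B⁰ F)ˣ) : FractionalIdeal B⁰ F) = E w) ∧
    (∀ I J : FractionalIdeal B⁰ F, I ≠ 0 → J ≠ 0 →
      (∀ w, FractionalIdeal.count F w I = FractionalIdeal.count F w J) → I = J) ∧
    Function.Surjective (toFrac : (HeightOneSpectrum B →₀ ℤ) →+ Additive (FractionalIdeal B⁰ F)ˣ) :=
  ⟨H3S27.coe_toFrac, H3S27.count_toFrac, fun _ _ hI hJ h => H3S27.eq_of_count_eq hI hJ h,
    H3S27.toFrac_surjective⟩

/-- **The class map** `theta`: a divisor `D` of degree zero is restricted to the maximal ideals of `B`
(`res D`; the coefficient at `P` is forgotten) and mapped to the class of the corresponding fractional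
ideal.  File `H3S27Weight`. -/
theorem class_map [IsAlgClosed K] [IsFF K F] [IsDedekindDomain B] [IsFractionRing B F]
    (D : Divisor K F) (hD : D ∈ Divisor.degZero (K := K) (F := F)) (w : HeightOneSpectrum B) :
    res D w = D (pl w) ∧ theta K F B ⟨D, hD⟩ = Additive.ofMul (ClassGroup.mk F
      (toFrac (res D) : Additive (FractionalIdeal B⁰ F)ˣ).toMul) :=
  ⟨H3S27.res_apply D w, H3S27.theta_apply ⟨D, hD⟩⟩

/-- **The class map is surjective**: given an ideal, take the divisor with the same exponents outside `P`
and the coefficient at `P` which makes the degree zero (all places have degree one).  File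
`H3S27Weight`. -/
theorem class_map_surjective [IsAlgClosed K] [IsFF K F] [IsDedekindDomain B] [IsFractionRing B F]
    (hB : IsAffineRing P B) : Function.Surjective (theta K F B) :=
  H3S27.theta_surjective hB

/-- **The kernel of the class map** consists of the principal divisors: if the ideal of `D` is `f B`, then
`D` and the divisor of `f` agree outside `P`, and also at `P`, because both have degree zero.  File
`H3S27Weight`. -/
theorem kernel_of_class_map [IsAlgClosed K] [IsFF K F] [IsDedekindDomain B] [IsFractionRing B F]
    (hB : IsAffineRing P B) : (theta K F B).ker =
      (Divisor.principal (K := K) (F := F)).addSubgroupOf (Divisor.degZero (K := K) (F := F)) :=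
  H3S27.ker_theta hB

/-- **`Pic⁰` is the class group** of the affine ring.  File `H3S27Weight`. -/
theorem pic_eq_class_group [IsAlgClosed K] [IsFF K F] [IsDedekindDomain B] [IsFractionRing B F]
    (hB : IsAffineRing P B) : Nonempty (Multiplicative (Pic0 K F) ≃* ClassGroup B) :=
  H3S27.nonempty_equiv hB

/-- **The model of a curve at a place.**  For every place `P` of a function field in characteristic zero
there is `x` such that the integral closure of `K[x]` in `F`, with the order of the pole at `P` as
weight, has all the properties of `GuideTorsion.exists_weighted_model`; places exist (a transcendental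
function has a zero).  Files `H3S27Weight`, `H3RR_FF`. -/
theorem model_at_place [IsAlgClosed K] [IsFF K F] [CharZero K] : Nonempty (Place K F) ∧
    ∀ P : Place K F, ∃ x : F, Transcendental K x ∧ IsDedekindDomain (H94.IntRing K x) ∧
      IsWeight K (wt P (B := H94.IntRing K x)) ∧
      {m : ℕ | ∃ b ∈ (Set.univ : Set (H94.IntRing K x)), wt P b = (m : WithBot ℕ)}ᶜ.ncard =
        genusFF K F ∧
      Nonempty (Multiplicative (Pic0 K F) ≃* ClassGroup (H94.IntRing K x)) := by
  refine ⟨H3RR.exists_place K F, fun P => ?_⟩
  obtain ⟨x, hx, hP, hne⟩ := H3S27.exists_only_pole P
  have hB := H3S27.isAffineRing_intRing P hx hP hne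
  have hfd := IsFF.finiteDimensional (F := F) hx
  have hded := H94.isDedekindDomain_intRing (F := F) hx
  have hfrac := H94.isFractionRing_intRing (K := K) (F := F) (x := x)
  exact ⟨x, hx, hded, H3S27.isWeight hB, H3S27.genus_eq hB, H3S27.nonempty_equiv hB⟩

end Model

end Fermat.Agent.Guide.AffineModel
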