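import Mathlib
import Fermat.Prelude.Def_GaloisRep_DeformationRingData
import Fermat.Prelude.Def_GaloisRep_DeformationCondition

set_option autoImplicit false

noncomputable section

open scoped TensorProduct
open IsLocalRing

namespace Fermat.Agent.H53

/-- absolute Galois group of the rationals -/
abbrev GQ := AlgebraicClosure ℚ ≃ₐ[ℚ] AlgebraicClosure ℚ

abbrev M2 (A : Type) := Matrix (Fin 2) (Fin 2) A

/-- adic continuity of a matrix representation -/
def MCont (A : Type) [CommRing A] [IsLocalRing A] (r : GQ →* M2 A) : Prop :=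
  ∀ n : ℕ, ∃ L : IntermediateField ℚ (AlgebraicClosure ℚ), FiniteDimensional ℚ L ∧
    ∀ σ : GQ, (∀ x ∈ L, σ x = x) → ∀ i j, r σ i j - (1 : M2 A) i j ∈ maximalIdeal A ^ n

lemma mem_smul_top_pi {A : Type} [CommRing A] (I : Ideal A) (v : Fin 2 → A) :
    v ∈ I • (⊤ : Submodule A (Fin 2 → A)) ↔ ∀ i, v i ∈ I := by
  constructor
  · intro h i
    refine Submodule.smul_induction_on (p := fun v : Fin 2 → A => v i ∈ I) h ?_ ?_
    · intro a ha w _
      exact Ideal.mul_mem_right _ _ ha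
    · intro x y hx hy
      exact I.add_mem hx hy
  · intro h
    have hv : v = ∑ i, v i • (Pi.single i (1 : A) : Fin 2 → A) := by
      funext j
      simp [Finset.sum_apply, Pi.single_apply]
    rw [hv]
    exact Submodule.sum_mem _ fun i _ => Submodule.smul_mem_smul (h i) Submodule.mem_top

/-- The Galois representation attached to a matrix representation -/
def ofMatrix {A : Type} [CommRing A] [IsLocalRing A] (r : GQ →* M2 A) (hr : MCont A r) :
    GaloisRepAdic A where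
  V := Fin 2 → A
  finrank_eq := by simp
  ρ := ((Matrix.toLinAlgEquiv' : M2 A ≃ₐ[A] _) : M2 A →* Module.End A (Fin 2 → A)).comp r
  isAdicContinuous := by
    intro n
    obtain ⟨L, hL, h⟩ := hr n
    refine ⟨L, hL, fun σ hσ v => ?_⟩
    rw [mem_smul_top_pi]
    intro i
    have h1 : (r σ).mulVec v i - v i = ∑ j, (r σ i j - (1 : M2 A) i j) * v j := by
      have : v i = (1 : M2 A).mulVec v i := by rw [Matrix.one_mulVec]
      rw [this]
      simp only [Matrix.mulVec, dotProduct, ← Finset.sum_sub_distrib, sub_mul]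
    show (r σ).mulVec v i - v i ∈ _
    rw [h1]
    exact Ideal.sum_mem _ fun j _ => Ideal.mul_mem_right _ _ (h σ hσ i j)

/-- matrix representation in a basis -/
def toMat {A : Type} [CommRing A] {V : Type} [AddCommGroup V] [Module A V]
    (ρ : GQ →* Module.End A V) (b : Module.Basis (Fin 2) A V) : GQ →* M2 A :=
  ((LinearMap.toMatrixAlgEquiv b : _ ≃ₐ[A] M2 A) : Module.End A V →* M2 A).comp ρ

lemma toMat_apply {A : Type} [CommRing A] {V : Type} [AddCommGroup V] [Module A V]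
    (ρ : GQ →* Module.End A V) (b : Module.Basis (Fin 2) A V) (σ : GQ) :
    toMat ρ b σ = LinearMap.toMatrix b b (ρ σ) := rfl

lemma mcont_toMat {A : Type} [CommRing A] [IsLocalRing A] (ρ : GaloisRepAdic A)
    (b : Module.Basis (Fin 2) A ρ.V) : MCont A (toMat ρ.ρ b) := by
  intro n
  obtain ⟨L, hL, h⟩ := ρ.isAdicContinuous n
  refine ⟨L, hL, fun σ hσ i j => ?_⟩
  have h1 := h σ hσ (b j)
  have h2 : ∀ w ∈ (maximalIdeal A ^ n) • (⊤ : Submodule A ρ.V), b.repr w i ∈ maximalIdeal A ^ n := by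
    intro w hw
    refine Submodule.smul_induction_on (p := fun w => b.repr w i ∈ maximalIdeal A ^ n) hw ?_ ?_
    · intro a ha w _
      rw [map_smul]
      exact Ideal.mul_mem_right _ _ ha
    · intro x y hx hy
      rw [map_add]
      exact Ideal.add_mem _ hx hy
  have h3 := h2 _ h1
  rw [toMat_apply, LinearMap.toMatrix_apply]
  rw [map_sub, Finsupp.sub_apply, Module.Basis.repr_self] at h3
  rw [Matrix.one_apply]
  rw [Finsupp.single_apply] at h3
  simpa [eq_comm] using h3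

/-- Every adic representation is equivalent to the matrix one in a basis. -/
def equivOfMatrix {A : Type} [CommRing A] [IsLocalRing A] (ρ : GaloisRepAdic A)
    (b : Module.Basis (Fin 2) A ρ.V) :
    GaloisRepAdic.Equiv ρ (ofMatrix (toMat ρ.ρ b) (mcont_toMat ρ b)) where
  toLinearEquiv := b.equivFun
  map_apply σ x := by
    show b.equivFun (ρ.ρ σ x) = (LinearMap.toMatrix b b (ρ.ρ σ)).mulVec (b.equivFun x)
    have := LinearMap.toMatrix_mulVec_repr b b (ρ.ρ σ) x
    simpa [Module.Basis.equivFun_apply] using this.symm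

/-- change of coefficients of a matrix representation -/
def mapMat {A B : Type} [CommRing A] [CommRing B] (φ : A →+* B) (r : GQ →* M2 A) : GQ →* M2 B :=
  ((φ.mapMatrix : M2 A →+* M2 B) : M2 A →* M2 B).comp r

@[simp] lemma mapMat_apply {A B : Type} [CommRing A] [CommRing B] (φ : A →+* B) (r : GQ →* M2 A)
    (σ : GQ) (i j : Fin 2) : mapMat φ r σ i j = φ (r σ i j) := rfl

lemma mapMat_apply' {A B : Type} [CommRing A] [CommRing B] (φ : A →+* B) (r : GQ →* M2 A)
    (σ : GQ) : mapMat φ r σ = (r σ).map φ := rfl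

lemma mapMat_comp {A B C : Type} [CommRing A] [CommRing B] [CommRing C] (φ : A →+* B)
    (ψ : B →+* C) (r : GQ →* M2 A) : mapMat (ψ.comp φ) r = mapMat ψ (mapMat φ r) := by
  ext σ i j
  simp

lemma mapMat_id {A : Type} [CommRing A] (r : GQ →* M2 A) : mapMat (RingHom.id A) r = r := by
  ext σ i j
  simp

lemma map_maximalIdeal_pow {A B : Type} [CommRing A] [IsLocalRing A] [CommRing B] [IsLocalRing B]
    (φ : A →+* B) (hφ : IsLocalHom φ) (n : ℕ) {a : A} (ha : a ∈ maximalIdeal A ^ n) :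
    φ a ∈ maximalIdeal B ^ n := by
  have hmap : (maximalIdeal A ^ n).map φ ≤ maximalIdeal B ^ n := by
    rw [Ideal.map_pow]
    exact Ideal.pow_right_mono (Ideal.map_le_iff_le_comap.mpr fun a ha =>
      Ideal.mem_comap.mpr (haveI := hφ; map_nonunit φ a ha)) n
  exact hmap (Ideal.mem_map_of_mem φ ha)

lemma MCont.map {A B : Type} [CommRing A] [IsLocalRing A] [CommRing B] [IsLocalRing B]
    (φ : A →+* B) (hφ : IsLocalHom φ) {r : GQ →* M2 A} (hr : MCont A r) :
    MCont B (mapMat φ r) := by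
  intro n
  obtain ⟨L, hL, h⟩ := hr n
  refine ⟨L, hL, fun σ hσ i j => ?_⟩
  have h1 := map_maximalIdeal_pow φ hφ n (h σ hσ i j)
  have h2 : φ (r σ i j - (1 : M2 A) i j) = mapMat φ r σ i j - (1 : M2 B) i j := by
    rw [map_sub, mapMat_apply, Matrix.one_apply, Matrix.one_apply]
    split_ifs <;> simp
  rwa [h2] at h1

/-- Equivalence of representations in terms of matrices. -/
lemma equiv_iff_conj {A : Type} [CommRing A] {V₁ V₂ : Type} [AddCommGroup V₁] [Module A V₁]
    [AddCommGroup V₂] [Module A V₂] (ρ₁ : GQ →* Module.End A V₁) (ρ₂ : GQ →* Module.End A V₂)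
    (b₁ : Module.Basis (Fin 2) A V₁) (b₂ : Module.Basis (Fin 2) A V₂) :
    (∃ e : V₁ ≃ₗ[A] V₂, ∀ σ x, e (ρ₁ σ x) = ρ₂ σ (e x)) ↔
      ∃ u : M2 A, IsUnit u ∧ ∀ σ, u * toMat ρ₁ b₁ σ = toMat ρ₂ b₂ σ * u := by
  constructor
  · rintro ⟨e, he⟩
    refine ⟨LinearMap.toMatrix b₁ b₂ (e : V₁ →ₗ[A] V₂), ?_, fun σ => ?_⟩
    · rw [Matrix.isUnit_iff_isUnit_det]
      exact LinearEquiv.isUnit_det e b₁ b₂
    · rw [toMat_apply, toMat_apply, ← LinearMap.toMatrix_comp, ← LinearMap.toMatrix_comp]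
      congr 1
      exact LinearMap.ext fun x => he σ x
  · rintro ⟨u, hu, h⟩
    rw [Matrix.isUnit_iff_isUnit_det] at hu
    have hu' : IsUnit (LinearMap.toMatrix b₁ b₂ (Matrix.toLin b₁ b₂ u)).det := by
      rwa [LinearMap.toMatrix_toLin]
    refine ⟨LinearEquiv.ofIsUnitDet hu', fun σ x => ?_⟩
    have h1 := congrArg (Matrix.toLin b₁ b₂) (h σ)
    rw [Matrix.toLin_mul b₁ b₁ b₂, Matrix.toLin_mul b₁ b₂ b₂, toMat_apply, toMat_apply,
      Matrix.toLin_toMatrix, Matrix.toLin_toMatrix] at h1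
    exact LinearMap.congr_fun h1 x

lemma isEquiv_iff_conj {A : Type} [CommRing A] [IsLocalRing A] (ρ₁ ρ₂ : GaloisRepAdic A)
    (b₁ : Module.Basis (Fin 2) A ρ₁.V) (b₂ : Module.Basis (Fin 2) A ρ₂.V) :
    ρ₁.IsEquiv ρ₂ ↔ ∃ u : M2 A, IsUnit u ∧ ∀ σ, u * toMat ρ₁.ρ b₁ σ = toMat ρ₂.ρ b₂ σ * u := by
  rw [← equiv_iff_conj]
  constructor
  · rintro ⟨e⟩
    exact ⟨e.toLinearEquiv, e.map_apply⟩
  · rintro ⟨e, he⟩
    exact ⟨⟨e, he⟩⟩

lemma residual_isEquiv_iff_conj {k : Type} [Field k] (ρ₁ ρ₂ : ResidualGaloisRep k)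
    (b₁ : Module.Basis (Fin 2) k ρ₁.V) (b₂ : Module.Basis (Fin 2) k ρ₂.V) :
    ρ₁.IsEquiv ρ₂ ↔ ∃ u : M2 k, IsUnit u ∧ ∀ σ, u * toMat ρ₁.ρ b₁ σ = toMat ρ₂.ρ b₂ σ * u := by
  rw [← equiv_iff_conj]
  constructor
  · rintro ⟨e⟩
    exact ⟨e.toLinearEquiv, e.map_apply⟩
  · rintro ⟨e, he⟩
    exact ⟨⟨e, he⟩⟩

/-- basis of a base changed adic representation -/
def bcBasis {A B : Type} [CommRing A] [IsLocalRing A] [CommRing B] [IsLocalRing B]
    (φ : A →+* B) (hφ : IsLocalHom φ) (ρ : GaloisRepAdic A) (b : Module.Basis (Fin 2) A ρ.V) :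
    Module.Basis (Fin 2) B (ρ.baseChangeAlong φ hφ).V :=
  letI := φ.toAlgebra
  Algebra.TensorProduct.basis B b

lemma toMat_bcBasis {A B : Type} [CommRing A] [IsLocalRing A] [CommRing B] [IsLocalRing B]
    (φ : A →+* B) (hφ : IsLocalHom φ) (ρ : GaloisRepAdic A) (b : Module.Basis (Fin 2) A ρ.V) :
    toMat (ρ.baseChangeAlong φ hφ).ρ (bcBasis φ hφ ρ b) = mapMat φ (toMat ρ.ρ b) := by
  ext1 σ
  let _ := φ.toAlgebra
  exact LinearMap.toMatrix_baseChange B (ρ.ρ σ) b b

/-- basis of the residual representation -/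
def resBasis {A : Type} [CommRing A] [IsLocalRing A] (ρ : GaloisRepAdic A)
    (b : Module.Basis (Fin 2) A ρ.V) :
    Module.Basis (Fin 2) (ResidueField A) ρ.residual.V :=
  Algebra.TensorProduct.basis (ResidueField A) b

lemma toMat_resBasis {A : Type} [CommRing A] [IsLocalRing A] (ρ : GaloisRepAdic A)
    (b : Module.Basis (Fin 2) A ρ.V) :
    toMat ρ.residual.ρ (resBasis ρ b) = mapMat (residue A) (toMat ρ.ρ b) := by
  ext1 σ
  exact LinearMap.toMatrix_baseChange (ResidueField A) (ρ.ρ σ) b b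

/-- basis of a base changed residual representation -/
def rbcBasis {k k' : Type} [Field k] [Field k'] (φ : k →+* k') (ρ : ResidualGaloisRep k)
    (b : Module.Basis (Fin 2) k ρ.V) :
    Module.Basis (Fin 2) k' (ρ.baseChangeAlong φ).V :=
  letI := φ.toAlgebra
  Algebra.TensorProduct.basis k' b

lemma toMat_rbcBasis {k k' : Type} [Field k] [Field k'] (φ : k →+* k') (ρ : ResidualGaloisRep k)
    (b : Module.Basis (Fin 2) k ρ.V) :
    toMat (ρ.baseChangeAlong φ).ρ (rbcBasis φ ρ b) = mapMat φ (toMat ρ.ρ b) := by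
  ext1 σ
  let _ := φ.toAlgebra
  exact LinearMap.toMatrix_baseChange k' (ρ.ρ σ) b b

/-- the standard basis of `ofMatrix` -/
def stdBasis {A : Type} [CommRing A] [IsLocalRing A] (r : GQ →* M2 A) (hr : MCont A r) :
    Module.Basis (Fin 2) A (ofMatrix r hr).V := Pi.basisFun A (Fin 2)

lemma toMat_stdBasis {A : Type} [CommRing A] [IsLocalRing A] (r : GQ →* M2 A) (hr : MCont A r) :
    toMat (ofMatrix r hr).ρ (stdBasis r hr) = r := by
  ext1 σ
  show LinearMap.toMatrix (Pi.basisFun A (Fin 2)) (Pi.basisFun A (Fin 2))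
    (Matrix.toLin' (r σ)) = r σ
  rw [LinearMap.toMatrix_eq_toMatrix', LinearMap.toMatrix'_toLin']

end Fermat.Agent.H53
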