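import Mathlib
import Fermat.Prelude
import Fermat.Agent.H53Matrix

/-!
# LT-MOD2: common language and block statements (helper46, interface keeper)

Everything here is a definition: nobody has to prove anything in this file.
(v3: the quaternionic block `TSide` is gone, replaced by `TSide'` in `H46LTDefsTA` (docs 42); `r1` is
gone, `r2` is new.)
`W` is the curve `E'` of docs 21/34 (output of M1), `N = cond W`, `Σ = bad W`.
-/

set_option autoImplicit false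

noncomputable section

open WeierstrassCurve CuspForm ModularFormClass IsLocalRing

namespace Fermat.Agent.LT

open Fermat.Agent.H53 (GQ M2 mapMat MCont)

abbrev Qb : Type := AlgebraicClosure ℚ

/-! ## The curve -/

/-- the bad primes `Σ` -/
def bad (W : WeierstrassCurve ℤ) : Finset ℕ := W.Δ.natAbs.primeFactors

/-- the conductor `N` (squarefree) -/
def cond (W : WeierstrassCurve ℤ) : ℕ := ∏ ℓ ∈ bad W, ℓ

/-- **Output of M1** (together with the congruence mod 3). -/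
structure GoodCurve (W : WeierstrassCurve ℤ) : Prop where
  ss : W.IsSemistableModel
  neg : W.Δ < 0
  two : (2 : ℤ) ∣ W.Δ
  odd_val : ∀ ℓ : ℕ, ℓ.Prime → (ℓ : ℤ) ∣ W.Δ → Odd (padicValInt ℓ W.Δ)
  r2 : ∃ r : ℕ, r.Prime ∧ r % 24 = 23 ∧ (r : ℤ) ∣ W.Δ

/-! ## Galois side -/

/-- `f` is of finite level: `f (g σ) = f g` for `σ` fixing a finite extension. -/
def FinLevel {X : Type*} (f : GQ → X) : Prop :=
  ∃ L : IntermediateField ℚ Qb, FiniteDimensional ℚ L ∧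
    ∀ g σ : GQ, (∀ x ∈ L, σ x = x) → f (g * σ) = f g

/-- `G_K`, `K = ℚ(√(-N))`: the automorphisms fixing the square roots of `-N`. -/
def GK (N : ℕ) : Subgroup GQ where
  carrier := {σ | ∀ x : Qb, x ^ 2 = -(N : Qb) → σ x = x}
  mul_mem' := fun {a b} ha hb x hx => by
    change a (b x) = x
    rw [hb x hx, ha x hx]
  one_mem' := fun x _ => rfl
  inv_mem' := fun {a} ha x hx => by
    change a.symm x = x
    rw [AlgEquiv.symm_apply_eq]
    exact (ha x hx).symm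

/-- unramified at `ℓ` -/
def UnrAt (ℓ : ℕ) {A : Type} [CommRing A] (r : GQ →* M2 A) : Prop :=
  ∀ P : ValuationSubring Qb, P.LiesOverPrime ℓ → ∀ σ ∈ P.inertiaSubgroupIn ℚ, r σ = 1

/-- **Steinberg type at `v` with sign `s`** (helper69's closed basis-free form): on the decomposition
group there is an unramified quadratic character `χ` with `χ(Frob_v) = s` such that
`(r g - det(r g) χ(g)) (r g' - χ(g')) = 0`. -/
def TypeAt (v : ℕ) {A : Type} [CommRing A] (s : A) (r : GQ →* M2 A) : Prop :=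
  ∀ P : ValuationSubring Qb, P.LiesOverPrime v → ∃ χ : GQ → A,
    (∀ g ∈ P.decompositionSubgroup ℚ, χ g ^ 2 = 1) ∧
    (∀ g ∈ P.decompositionSubgroup ℚ, ∀ h ∈ P.decompositionSubgroup ℚ, χ (g * h) = χ g * χ h) ∧
    (∀ g ∈ P.inertiaSubgroupIn ℚ, χ g = 1) ∧
    (∀ φ : GQ, P.IsFrobeniusAt φ v → χ φ = s) ∧
    ∀ g ∈ P.decompositionSubgroup ℚ, ∀ g' ∈ P.decompositionSubgroup ℚ,
      (r g - ((r g).det * χ g) • (1 : M2 A)) * (r g' - χ g' • (1 : M2 A)) = 0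

/-- charpoly of Frobenius at `ℓ` is `X² - a X + ℓ`. -/
def FrobAt (ℓ : ℕ) {A : Type} [CommRing A] (a : A) (r : GQ →* M2 A) : Prop :=
  ∀ P : ValuationSubring Qb, P.LiesOverPrime ℓ → ∀ φ : GQ, P.IsFrobeniusAt φ ℓ →
    (r φ).trace = a ∧ (r φ).det = (ℓ : A)

/-- determinant is the cyclotomic character (`p`-adic). -/
def DetCyc (p : ℕ) {A : Type} [CommRing A] (r : GQ →* M2 A) : Prop :=
  ∀ (n : ℕ) (σ : GQ) (a : ℕ), (∀ ζ : Qb, ζ ^ p ^ n = 1 → σ ζ = ζ ^ a) →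
    (r σ).det - (a : A) ∈ Ideal.span {((p ^ n : ℕ) : A)}

/-- **Block E = M8(a)**: the 2-adic representation of `W` in matrix form. To be produced from
`H87.EC.tateMat`. -/
structure EData (W : WeierstrassCurve ℤ) (r : GQ →* M2 ℤ_[2]) (s : ℕ → ℤ) : Prop where
  cont : MCont ℤ_[2] r
  det_cyc : DetCyc 2 r
  unr : ∀ ℓ : ℕ, ℓ.Prime → ¬ (ℓ : ℤ) ∣ W.Δ → ℓ ≠ 2 → UnrAt ℓ r
  frob : ∀ ℓ : ℕ, ℓ.Prime → ¬ (ℓ : ℤ) ∣ W.Δ → ℓ ≠ 2 → FrobAt ℓ ((W.apOfModel ℓ : ℤ) : ℤ_[2]) r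
  sign : ∀ v, s v = 1 ∨ s v = -1
  type : ∀ v : ℕ, v.Prime → (v : ℤ) ∣ W.Δ → TypeAt v ((s v : ℤ) : ℤ_[2]) r
  /-- residually surjective onto `GL₂(𝔽₂) = S₃`; -/
  surj : ∀ M : M2 (ZMod 2), M.det ≠ 0 → ∃ g, mapMat PadicInt.toZMod r g = M
  /-- `K = ℚ(√(-N))` is the quadratic subfield: even permutations = trace-or-identity; -/
  mem_GK : ∀ g : GQ, g ∈ GK (cond W) ↔ mapMat PadicInt.toZMod r g = 1 ∨
    (mapMat PadicInt.toZMod r g).trace = 1
  /-- residually ramified at every bad prime -/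
  ram : ∀ v : ℕ, v.Prime → (v : ℤ) ∣ W.Δ → ∀ P : ValuationSubring Qb, P.LiesOverPrime v →
    ∃ σ ∈ P.inertiaSubgroupIn ℚ, mapMat PadicInt.toZMod r σ ≠ 1
  /-- complex conjugation -/
  conj : ∀ c : GQ, c * c = 1 → c ≠ 1 → mapMat PadicInt.toZMod r c ≠ 1

/-! ## Selmer conditions (M6) -/

/-- cocycle in `Sel(S)`, `S = Σ ∪ Q`, `V = 𝔽₂²` with action `rb`. -/
structure IsSel (rb : GQ →* M2 (ZMod 2)) (S : Set ℕ) (b : GQ → Fin 2 → ZMod 2) : Prop where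
  cocycle : ∀ g h, b (g * h) = b g + (rb g).mulVec (b h)
  fin : FinLevel b
  unr : ∀ ℓ : ℕ, ℓ.Prime → ℓ ∉ S → ∀ P : ValuationSubring Qb, P.LiesOverPrime ℓ →
    ∀ σ ∈ P.inertiaSubgroupIn ℚ, b σ = 0
  /-- the class of `b` at `v ∈ S` comes from the `D_v`-invariant line -/
  line : ∀ v : ℕ, v.Prime → v ∈ S → ∀ P : ValuationSubring Qb, P.LiesOverPrime v →
    ∃ x : Fin 2 → ZMod 2, ∀ g ∈ P.decompositionSubgroup ℚ, ∀ h ∈ P.decompositionSubgroup ℚ,
      (rb h).mulVec (b g - ((rb g).mulVec x - x)) = b g - ((rb g).mulVec x - x)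

def IsCob (rb : GQ →* M2 (ZMod 2)) (b : GQ → Fin 2 → ZMod 2) : Prop :=
  ∃ x : Fin 2 → ZMod 2, ∀ g, b g = (rb g).mulVec x - x

/-- `Sel(S) = 0` -/
def SelZero (rb : GQ →* M2 (ZMod 2)) (S : Set ℕ) : Prop := ∀ b, IsSel rb S b → IsCob rb b

/-- `q` is an auxiliary prime of level `n`: `q ∤ N`, and every Frobenius at `q` acts mod `2^n` like
complex conjugation. -/
structure AuxPrime (r : GQ →* M2 ℤ_[2]) (N n q : ℕ) : Prop where
  prime : q.Prime
  notdvd : ¬ q ∣ N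
  cong : 2 ^ n ∣ q + 1
  sq : ∀ P : ValuationSubring Qb, P.LiesOverPrime q → ∀ φ : GQ, P.IsFrobeniusAt φ q →
    mapMat (PadicInt.toZModPow n) r (φ * φ) = 1 ∧ (mapMat (PadicInt.toZModPow n) r φ).trace = 0 ∧
      mapMat PadicInt.toZMod r φ ≠ 1

/-- **Block M6 = Step D** for one curve. -/
def StatementM6 (W : WeierstrassCurve ℤ) (r : GQ →* M2 ℤ_[2]) : Prop :=
  ∃ d : ℕ, ∀ n : ℕ, ∃ Q : Finset ℕ, Q.card ≤ d ∧ (∀ q ∈ Q, AuxPrime r (cond W) n q) ∧
    SelZero (mapMat PadicInt.toZMod r) (↑(bad W) ∪ ↑Q)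

/-! ## Theorem C (M4 + M5 + M9-glue) -/

/-- `lam` is a system of Hecke eigenvalues of level `L`, congruent to `W` mod `2^n`, with
`U_q = ±1` for `q ∈ Q`. -/
structure CongPoint (W : WeierstrassCurve ℤ) (L : ℕ) [NeZero L] (n : ℕ) (Q : Finset ℕ) {O' : Type} [CommRing O']
    (lam : heckeAlgebra L 2 (∅ : Set ℕ) →+* O') : Prop where
  T_cong : ∀ (ℓ : ℕ) (hℓ : ℓ.Prime) (hℓL : ¬ ℓ ∣ L),
    lam (heckeAlgebra.T hℓ hℓL (Set.notMem_empty ℓ)) - ((W.apOfModel ℓ : ℤ) : O') ∈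
      Ideal.span {((2 ^ n : ℕ) : O')}
  U_sign : ∀ (q : ℕ) (_ : q ∈ Q) (hq : q.Prime) (hqL : q ∣ L),
    lam (heckeAlgebra.U hq hqL (Set.notMem_empty q)) = 1 ∨
      lam (heckeAlgebra.U hq hqL (Set.notMem_empty q)) = -1

/-- a complete DVR of mixed characteristic `(0, 2)` with finite residue field -/
class TwoRing (O' : Type) [CommRing O'] [IsDomain O'] [IsDiscreteValuationRing O'] : Prop where
  char_zero : CharZero O'
  complete : IsAdicComplete (maximalIdeal O') O'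
  two : (2 : O') ∈ maximalIdeal O'
  finite : Finite (ResidueField O')

/-- **Output of Theorem C**: for every `n` there are auxiliary primes `Q` of level `n` (boundedly many)
and a system of eigenvalues of level `N ∏ Q`, `U_q = ±1` at `q ∈ Q`, congruent to `W` modulo `2^n`. -/
def StatementC (W : WeierstrassCurve ℤ) (r : GQ →* M2 ℤ_[2]) : Prop :=
  ∃ d : ℕ, ∀ n : ℕ, ∃ Q : Finset ℕ, Q.card ≤ d ∧ (∀ q ∈ Q, AuxPrime r (cond W) n q) ∧
    ∃ (L : ℕ) (_ : NeZero L) (O' : Type) (_ : CommRing O') (_ : IsDomain O')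
      (_ : IsDiscreteValuationRing O') (_ : TwoRing O') (lam : heckeAlgebra L 2 (∅ : Set ℕ) →+* O'),
        L = cond W * ∏ q ∈ Q, q ∧ CongPoint W L n Q lam

/-- **Block C** : Theorem C for all good curves, from T, M6 and the Galois side. -/
def BlockC : Prop :=
  ∀ (W : WeierstrassCurve ℤ) (r : GQ →* M2 ℤ_[2]) (s : ℕ → ℤ), GoodCurve W → EData W r s →
    StatementM6 W r → StatementC W r

/-- **Block M7** (Step E + endgame). -/
def BlockM7 : Prop :=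
  ∀ (W : WeierstrassCurve ℤ) (r : GQ →* M2 ℤ_[2]) (s : ℕ → ℤ), GoodCurve W → EData W r s →
    StatementC W r → W.IsModularModelOfLevel (cond W)

/-- **Block E** (M8a) -/
def BlockE : Prop :=
  ∀ W : WeierstrassCurve ℤ, GoodCurve W → ∃ (r : GQ →* M2 ℤ_[2]) (s : ℕ → ℤ), EData W r s

/-- **Block M6** -/
def BlockM6 : Prop :=
  ∀ (W : WeierstrassCurve ℤ) (r : GQ →* M2 ℤ_[2]) (s : ℕ → ℤ), GoodCurve W → EData W r s →
    StatementM6 W r

/-- **Block M1** -/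
def BlockM1 : Prop :=
  ∀ W : WeierstrassCurve ℤ, W.Δ ≠ 0 → W.IsSemistableModel → W.ModRepIsIrreducible 3 →
    (2 : ℤ) ∣ W.Δ → ∃ W' : WeierstrassCurve ℤ, GoodCurve W' ∧
      ∀ ℓ : ℕ, ℓ.Prime → W.IsGoodPrimeFor ℓ → W'.IsGoodPrimeFor ℓ → ℓ ≠ 3 →
        (3 : ℤ) ∣ W'.apOfModel ℓ - W.apOfModel ℓ

/-- **(LT-C)** -/
theorem ltC (hE : BlockE) (h6 : BlockM6) (hC : BlockC) (h7 : BlockM7) (W : WeierstrassCurve ℤ)
    (hW : GoodCurve W) : W.IsModularModelOfLevel (cond W) := by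
  obtain ⟨r, s, h⟩ := hE W hW
  exact h7 W r s hW h (hC W r s hW h (h6 W r s hW h))

end Fermat.Agent.LT
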