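/-
H19LTM8: the exact local statements (M8b, M8c) about two-adic representations attached to
eigenforms which are consumed by the gluing over the Hecke ring. Definitions only.
-/
import Fermat.Agent.H46LTDefs

set_option autoImplicit false

noncomputable section

namespace Fermat.Agent.H19LT

open IsLocalRing Matrix CuspForm ModularFormClass
open Fermat.Agent.H53 (GQ M2 MCont mapMat)
open Fermat.Agent.LT (TypeAt Qb TwoRing)

/-- The representation `r` over `O'` is attached to the eigenform `f` (outside the finite set `S`)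
through the embeddings `j : O' → F` and `ι : integral closure of ℤ in ℂ → F`. -/
structure Attached {L : ℕ} (f : CuspForm (CongruenceSubgroup.Gamma0 L) 2) (S : Finset ℕ)
    {O' : Type} [CommRing O'] [IsLocalRing O'] {F : Type} [Field F] (j : O' →+* F)
    (ι : integralClosure ℤ ℂ →+* F) (r : GQ →* M2 O') : Prop where
  inj : Function.Injective j
  cont : MCont O' r
  frob : ∀ ℓ : ℕ, ℓ.Prime → ℓ ∉ S → ∀ a : integralClosure ℤ ℂ, (a : ℂ) = qCoeff f ℓ →
    ∀ P : ValuationSubring Qb, P.LiesOverPrime ℓ → ∀ φ : GQ, P.IsFrobeniusAt φ ℓ →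
      j (r φ).trace = ι a ∧ (r φ).det = (ℓ : O')

/-- (absolute) residual irreducibility in the form we have it: the residue field contains the
eigenvalues of an element of residual trace and determinant one (of order three), and there is no
common eigenvector. -/
def ResIrr {O' : Type} [CommRing O'] [IsLocalRing O'] (r : GQ →* M2 O') : Prop :=
  (∃ ω : ResidueField O', ω ^ 2 + ω + 1 = 0) ∧
  (∃ g : GQ, (mapMat (residue O') r g).trace = 1 ∧ (mapMat (residue O') r g).det = 1) ∧
  ∀ x : Fin 2 → ResidueField O', x ≠ 0 → ∃ g : GQ, ∀ c : ResidueField O',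
    (mapMat (residue O') r g).mulVec x ≠ c • x

/-- **M8, ramified case** (`v ∈ Σ`; `v = 2` included): `f` a normalised eigenform of level `L`,
`v ∥ L`, `r` attached to `f`, residually irreducible and residually ramified at `v`; if `v = 2` then
`a_2(f) = ± 1` is given. Then `r` has type `± 1` at `v`. -/
def M8Ram (v : ℕ) : Prop :=
  ∀ (L : ℕ) [NeZero L] (f : CuspForm (CongruenceSubgroup.Gamma0 L) 2), f.IsNormalizedEigenform →
    v.Prime → v ∣ L → ¬ v ^ 2 ∣ L → (v = 2 → qCoeff f v = 1 ∨ qCoeff f v = -1) →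
    ∀ (O' : Type) [CommRing O'] [IsDomain O'] [IsDiscreteValuationRing O'] [TwoRing O']
      (F : Type) [Field F] [IsAlgClosed F] [CharZero F] (j : O' →+* F)
      (ι : integralClosure ℤ ℂ →+* F) (S : Finset ℕ) (r : GQ →* M2 O'),
      Attached f S j ι r → ResIrr r →
      (∀ P : ValuationSubring Qb, P.LiesOverPrime v →
        ∃ σ ∈ P.inertiaSubgroupIn ℚ, mapMat (residue O') r σ ≠ 1) →
      TypeAt v (1 : O') r ∨ TypeAt v (-1 : O') r

/-- **M8, signed case** (`q ∈ Q`, `q` odd): `f` a normalised eigenform of level `L`, `q ∥ L`,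
`a_q(f) = s = ± 1` (`f` may be old at `q`), `r` attached to `f`, residually irreducible. Then `r` has
type `s` at `q`. -/
def M8Sign (q : ℕ) : Prop :=
  ∀ (L : ℕ) [NeZero L] (f : CuspForm (CongruenceSubgroup.Gamma0 L) 2), f.IsNormalizedEigenform →
    q.Prime → q ≠ 2 → q ∣ L → ¬ q ^ 2 ∣ L → ∀ s : ℤ, (s = 1 ∨ s = -1) → qCoeff f q = (s : ℂ) →
    ∀ (O' : Type) [CommRing O'] [IsDomain O'] [IsDiscreteValuationRing O'] [TwoRing O']
      (F : Type) [Field F] [IsAlgClosed F] [CharZero F] (j : O' →+* F)
      (ι : integralClosure ℤ ℂ →+* F) (S : Finset ℕ) (r : GQ →* M2 O'),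
      Attached f S j ι r → ResIrr r → TypeAt q ((s : ℤ) : O') r

end Fermat.Agent.H19LT
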