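import Mathlib

/-!
# Residue fields of valuation rings of algebraically closed fields (helper18)
-/

set_option autoImplicit false

noncomputable section

open Polynomial

namespace Fermat.Agent.H18

/-- The residue field of a valuation ring of an algebraically closed field is algebraically
closed. -/
theorem isAlgClosed_residueField {L : Type*} [Field L] [IsAlgClosed L] (A : ValuationSubring L) :
    IsAlgClosed (IsLocalRing.ResidueField A) := by
  apply IsAlgClosed.of_exists_root
  intro p hp hirr
  have hlift : p ∈ Polynomial.lifts (IsLocalRing.residue A) := by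
    rw [Polynomial.mem_lifts]
    obtain ⟨q, hq⟩ := Polynomial.map_surjective (IsLocalRing.residue A)
      IsLocalRing.residue_surjective p
    exact ⟨q, hq⟩
  obtain ⟨q, hq, hdeg, hmon⟩ := Polynomial.lifts_and_natDegree_eq_and_monic hlift hp
  have hpd : p.natDegree ≠ 0 := by
    intro h0
    exact hirr.natDegree_pos.ne' h0
  have hdegL : (q.map A.subtype).degree ≠ 0 := by
    rw [hmon.degree_map]
    intro h0
    exact hpd (by rw [← hdeg]; exact natDegree_eq_of_degree_eq_some h0)
  obtain ⟨x, hx⟩ := IsAlgClosed.exists_root (q.map A.subtype) hdegL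
  have hint : IsIntegral A x := by
    refine ⟨q, hmon, ?_⟩
    rw [IsRoot.def, eval_map] at hx
    exact hx
  obtain ⟨y, hy⟩ := IsIntegrallyClosed.isIntegral_iff.mp hint
  refine ⟨IsLocalRing.residue A y, ?_⟩
  have h0 : q.eval y = 0 := by
    apply A.subtype_injective
    rw [map_zero, ← Polynomial.eval₂_hom]
    rw [IsRoot.def, eval_map] at hx
    have : (A.subtype y : L) = x := hy
    rw [this]
    exact hx
  show p.eval (IsLocalRing.residue A y) = 0
  rw [← hq, eval_map, Polynomial.eval₂_hom, h0, map_zero]

/-- If `A` lies over `ℓ` and `ℓ ∤ m`, then `m ≠ 0` in the residue field. -/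
theorem natCast_residueField_ne_zero {L : Type*} [Field L] (A : ValuationSubring L) {ℓ : ℕ}
    (hℓ : ℓ.Prime) (hA : (ℓ : L) ∈ A.nonunits) {m : ℕ} (hm : ¬ ℓ ∣ m) :
    (m : IsLocalRing.ResidueField A) ≠ 0 := by
  intro h0
  have hcop : Nat.Coprime ℓ m := (Nat.Prime.coprime_iff_not_dvd hℓ).mpr hm
  have hl0 : (ℓ : IsLocalRing.ResidueField A) = 0 := by
    have h1 : (ℓ : IsLocalRing.ResidueField A) = IsLocalRing.residue A (ℓ : A) := by
      rw [map_natCast]
    rw [h1, IsLocalRing.residue_eq_zero_iff, IsLocalRing.mem_maximalIdeal, mem_nonunits_iff]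
    intro hu
    rw [ValuationSubring.mem_nonunits_iff] at hA
    have h2 := (A.valuation_eq_one_iff (ℓ : A)).mp hu
    have h3 : ((ℓ : A) : L) = (ℓ : L) := by simp
    rw [h3] at h2
    rw [h2] at hA
    exact lt_irrefl _ hA
  have h1 : ((1 : ℕ) : IsLocalRing.ResidueField A) = 0 := by
    have := Nat.gcd_eq_gcd_ab ℓ m
    rw [hcop] at this
    have h2 := congrArg (fun z : ℤ => (z : IsLocalRing.ResidueField A)) this
    simp only [Int.cast_add, Int.cast_mul, Int.cast_natCast, hl0, h0, zero_mul, add_zero] at h2
    exact h2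
  rw [Nat.cast_one] at h1
  exact one_ne_zero h1

end Fermat.Agent.H18
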