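import Fermat.Agent.H42HeckeData
import Fermat.Agent.H40Pole
import Fermat.Agent.H18Res
import Fermat.Agent.H3RR_Bridge
import Fermat.Agent.H3RR_Duality

/-!
# Reduction inputs from equality of genera
-/

set_option autoImplicit false

open Polynomial Module IntermediateField ModularCurve AlgebraicCurve

namespace Fermat.Agent.H42

local notation "Qb" => AlgebraicClosure ℚ

section Riemann

variable (K F : Type*) [Field K] [Field F] [Algebra K F] [IsAlgClosed K] [H94.FunField K F]

theorem riemannFor {c : ℤ} (hc : 2 * (genusFF K F : ℤ) - 1 ≤ c) :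
    H40.RiemannFor K F (genusFF K F) c := by
  intro D hD
  refine ⟨H3RR.finite_L D, ?_⟩
  exact H3RR.ell_of_degree_gt (by omega)

theorem riemannBound : H60.RiemannBound K F := by
  refine ⟨genusFF K F, fun D hD => ?_⟩
  have h1 := H3RR.riemann_inequality D
  have h2 : 0 < H3RR.ell D := by omega
  have hfin := H3RR.finite_L D
  have h3 : riemannRochSpace D ≠ ⊥ := by
    intro h0
    rw [H3RR.ell, h0, finrank_bot] at h2
    exact lt_irrefl _ h2
  obtain ⟨f, hf, hf0⟩ := Submodule.exists_mem_ne_zero_of_ne_bot h3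
  refine ⟨f, hf0, fun v => ?_⟩
  have h4 := (H40.mem_L hf0).mp hf v
  omega

end Riemann

section Deg

theorem natCast_ne_zero_of_liesOver {A : ValuationSubring Qb} {ℓ : ℕ} (hℓ : ℓ.Prime)
    (hA : A.LiesOverPrime ℓ) {N : ℕ} (h : ¬ ℓ ∣ N) :
    ((N : ℕ) : IsLocalRing.ResidueField A) ≠ 0 := by
  have := H60.charP_residue hℓ hA
  rwa [Ne, CharP.cast_eq_zero_iff (IsLocalRing.ResidueField A) ℓ]

theorem degLE_of (L : Type*) [Field L] [CharZero L] [IsAlgClosed L] (k : Type*) [Field k]
    [IsAlgClosed k] (N : ℕ) [NeZero N] (hN : (N : k) ≠ 0) : DegLE L k N := by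
  have h1 := H66.relfinrank_full L N (by exact_mod_cast NeZero.ne N)
  have h2 := H66.relfinrank_full k N hN
  refine ⟨?_, ?_⟩
  · rw [h1]; exact (H67.dedekindPsi_pos N).ne'
  · rw [h1, h2]

end Deg

section Inputs

instance (A : ValuationSubring Qb) : IsAlgClosed (IsLocalRing.ResidueField A) :=
  H18.isAlgClosed_residueField A

/-- The degree condition at a good place. -/
theorem degLE_place {A : ValuationSubring Qb} {ℓ : ℕ} (hℓ : ℓ.Prime)
    (hA : A.LiesOverPrime ℓ) {N : ℕ} [NeZero N] (h : ¬ ℓ ∣ N) :
    DegLE Qb (IsLocalRing.ResidueField A) N :=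
  degLE_of Qb _ N (natCast_ne_zero_of_liesOver hℓ hA h)

instance funField_bar (N : ℕ) [NeZero N] : H94.FunField Qb (modularFunctionFieldBar N) :=
  H67.funField_of_degreeFact (degreeFact Qb) N

theorem funField_res {A : ValuationSubring Qb} {ℓ : ℕ} (hℓ : ℓ.Prime)
    (hA : A.LiesOverPrime ℓ) {N : ℕ} [NeZero N] (h : ¬ ℓ ∣ N) :
    H94.FunField (IsLocalRing.ResidueField A)
      (modularFunctionFieldFullC (IsLocalRing.ResidueField A) N) :=
  funField_right (L := Qb) N (degLE_place hℓ hA h)

instance hasPrincipalDivisors_bar (N : ℕ) [NeZero N] :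
    HasPrincipalDivisors Qb (modularFunctionFieldBar N) :=
  H18.hasPrincipalDivisors _ _

theorem deg_bar (N : ℕ) [NeZero N] (v : Place Qb (modularFunctionFieldBar N)) : v.deg = 1 :=
  H94.deg_eq_one v

/-- Equality of genera at the place `A`. -/
def GenusEq (N : ℕ) (A : ValuationSubring Qb) : Prop :=
  genusFF Qb (modularFunctionFieldBar N) =
    genusFF (IsLocalRing.ResidueField A) (modularFunctionFieldFullC (IsLocalRing.ResidueField A) N)

/-- The reduction data of `F_N` at a good place. -/
noncomputable def modRed {A : ValuationSubring Qb} {N : ℕ}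
    (hdeg : DegLE Qb (IsLocalRing.ResidueField A) N) :
    H40.ReductionData Qb (modularFunctionFieldBar N) (IsLocalRing.ResidueField A)
      (modularFunctionFieldFullC (IsLocalRing.ResidueField A) N) :=
  modReductionData A (IsLocalRing.residue A) N IsLocalRing.residue_surjective hdeg

theorem poleIneq_modRed {A : ValuationSubring Qb} {N : ℕ}
    (hdeg : DegLE Qb (IsLocalRing.ResidueField A) N) : (modRed hdeg).PoleIneq := by
  have := funField_left (k := IsLocalRing.ResidueField A) N hdeg
  have := funField_right (L := Qb) N hdeg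
  exact (modRed hdeg).poleIneq

/-- **The reduction inputs at a good place, from equality of genera.** -/
theorem reductionInputsModL_of_genusEq {A : ValuationSubring Qb} {ℓ : ℕ} (hℓ : ℓ.Prime)
    (hA : A.LiesOverPrime ℓ) {N : ℕ} [NeZero N] (h : ¬ ℓ ∣ N) (hg : GenusEq N A) :
    ReductionInputsModL A N := by
  have hdeg := degLE_place hℓ hA h
  have := funField_left (k := IsLocalRing.ResidueField A) N hdeg
  have := funField_right (L := Qb) N hdeg
  set g := genusFF Qb (modularFunctionFieldBar N) with hgdef
  have hF : H40.RiemannFor Qb (modularFunctionFieldBar N) g (2 * g) :=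
    riemannFor _ _ (by omega)
  have hE : H40.RiemannFor (IsLocalRing.ResidueField A)
      (modularFunctionFieldFullC (IsLocalRing.ResidueField A) N) g (2 * g) := by
    have hg' : g = genusFF (IsLocalRing.ResidueField A)
      (modularFunctionFieldFullC (IsLocalRing.ResidueField A) N) := hg
    have h1 := riemannFor (IsLocalRing.ResidueField A)
      (modularFunctionFieldFullC (IsLocalRing.ResidueField A) N) (c := 2 * g) (by omega)
    rwa [← hg'] at h1
  exact reductionInputsAlong A (IsLocalRing.residue A) N IsLocalRing.residue_surjective hdeg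
    hF hE (poleIneq_modRed hdeg) (by omega) (by omega)

end Inputs

section Final

/-- Equality of genera at all good places for level `N`. -/
def GenusEqAt (N : ℕ) : Prop :=
  ∀ {ℓ : ℕ} (_ : ℓ.Prime) (_ : ¬ ℓ ∣ N) (A : ValuationSubring Qb) (_ : A.LiesOverPrime ℓ),
    GenusEq N A

/-- **S37** from the injectivity of the reduction on prime-to-`ℓ` torsion (S18) and equality of
genera. -/
theorem S37_of_genusEq (N p : ℕ) [NeZero N] (hcomm : HeckeOperatorsCommuteBar N)
    (hg : GenusEqAt N) (hinj : H60.InjectivityAt N) :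
    letI := heckeModuleBar N
    ∀ (_ : SMulCommClass (AlgebraicClosure ℚ ≃ₐ[ℚ] AlgebraicClosure ℚ) HeckeAlg (JZero N)),
      SpecializationExists (K := ℚ) (L := AlgebraicClosure ℚ) N p (JZero N) :=
  H60.S37_of_inputs N p hcomm (riemannBound _ _) (deg_bar N)
    (fun hℓ hN A hA => reductionInputsModL_of_genusEq hℓ hA hN (hg hℓ hN A hA)) hinj
    (fun hℓ hN => by
      have : NeZero _ := ⟨hℓ.ne_zero⟩
      exact heckeData N _ hℓ hN)

end Final

end Fermat.Agent.H42
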