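import Fermat.Agent.H67Gen

/-!
# Commutation of the Hecke correspondences on `J_0(N)` (helper67)
-/

set_option autoImplicit false
set_option linter.unusedSectionVars false
set_option linter.style.haveILetI false

noncomputable section

open AlgebraicCurve IntermediateField HahnSeries ModularCurve

namespace Fermat.Agent.H67

section

variable {L : Type*} [Field L] [Algebra ℚ L]

/-- `F_M` as an intermediate field, abbreviation. -/
abbrev FB (L : Type*) [Field L] [Algebra ℚ L] (M : ℕ) : IntermediateField L (LaurentSeries L) :=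
  laurentBaseChange L (modularFunctionFieldFull M)

theorem relfinrank_prime (hD : DegreeFact L) (N ℓ : ℕ) [NeZero N] [NeZero ℓ] (hℓ : ℓ.Prime) :
    relfinrank (modularFunctionFieldFullC L N) (modularFunctionFieldFullC L (N * ℓ))
      = if ℓ ∣ N then ℓ else ℓ + 1 := by
  have h := relfinrank_full_mul hD N ℓ
  have hpos := dedekindPsi_pos N
  rw [mul_comm N ℓ] at h ⊢
  split_ifs with hd
  · rw [H45.dedekindPsi_mul_of_dvd hℓ (NeZero.ne N) hd, mul_comm] at h
    exact Nat.eq_of_mul_eq_mul_right hpos h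
  · rw [H45.dedekindPsi_mul_of_not_dvd hℓ (NeZero.ne N) hd, mul_comm] at h
    exact Nat.eq_of_mul_eq_mul_right hpos h

theorem finrank_alpha_prime (hD : DegreeFact L) (N ℓ : ℕ) [NeZero N] [NeZero ℓ] (hℓ : ℓ.Prime) :
    finrankAlong L (heckeAlphaBar L N ℓ) = if ℓ ∣ N then ℓ else ℓ + 1 := by
  rw [finrank_alpha, relfinrank_prime hD N ℓ hℓ]

end

variable (L : Type*) [Field L] [Algebra ℚ L]

/-- the inclusion of `F_M` in `F_M'` for `M = M'` -/
def castF {M M' : ℕ} (h : M = M') : FB L M →ₐ[L] FB L M' :=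
  IntermediateField.inclusion (by rw [h])

theorem coe_castF {M M' : ℕ} (h : M = M') (x : FB L M) :
    ((castF L h x : FB L M') : LaurentSeries L) = x := by
  subst h
  exact IntermediateField.coe_inclusion _ x

theorem finrankAlong_castF_comp {M M' : ℕ} (h : M = M') {A : Type*} [Field A] [Algebra L A]
    (φ : A →ₐ[L] FB L M) : finrankAlong L ((castF L h).comp φ) = finrankAlong L φ := by
  subst h
  rfl

variable {L}

theorem closure_eq_top (M : ℕ) [NeZero M] (S : Subfield (FB L M))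
    (hL : ∀ a : L, algebraMap L (FB L M) a ∈ S)
    (hd : ∀ T : IntermediateField L (LaurentSeries L),
      (∀ y : FB L M, y ∈ S → (y : LaurentSeries L) ∈ T) → ∀ d, d ∣ M → H66.J L d ∈ T) :
    S = ⊤ := by
  rw [eq_top_iff]
  rintro ⟨x, hx⟩ -
  have hx' : x ∈ modularFunctionFieldFullC L M := by rw [← laurentBaseChange_full]; exact hx
  let T : IntermediateField L (LaurentSeries L) :=
    (S.map (algebraMap (FB L M) (LaurentSeries L))).toIntermediateField (fun a => by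
      refine ⟨algebraMap L (FB L M) a, hL a, rfl⟩)
  have hle : modularFunctionFieldFullC L M ≤ T := by
    rw [H66.full_le_iff (NeZero.ne M)]
    exact hd T fun y hy => ⟨y, hy, rfl⟩
  obtain ⟨y, hy, hyx⟩ := hle hx'
  have : y = ⟨x, hx⟩ := Subtype.ext hyx
  rw [← this]
  exact hy

theorem J_mem_FB {M d : ℕ} [NeZero M] (hd : d ∣ M) : H66.J L d ∈ FB L M := by
  rw [FB, laurentBaseChange_full]
  exact H66.J_mem (NeZero.ne M) hd

theorem prime_cast_ne_zero [CharZero L] (p : ℕ) (hp : p.Prime) : (p : L) ≠ 0 :=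
  Nat.cast_ne_zero.mpr hp.ne_zero

theorem coe_alpha (N ℓ : ℕ) [NeZero N] [NeZero ℓ] (x : FB L N) :
    ((heckeAlphaBar L N ℓ x : FB L (N * ℓ)) : LaurentSeries L) = x :=
  coe_heckeAlphaBar N ℓ x

theorem coe_beta (N ℓ : ℕ) [NeZero N] [NeZero ℓ] (x : FB L N) :
    ((heckeBetaBar L N ℓ x : FB L (N * ℓ)) : LaurentSeries L) = qExpand L ℓ (x : LaurentSeries L) :=
  coe_heckeBetaBar N ℓ x

theorem pic0_correspondence_comm {K F F' F'' : Type*} [Field K] [Field F] [Field F'] [Field F'']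
    [Algebra K F] [Algebra K F'] [Algebra K F''] [HasPrincipalDivisors K F']
    [HasPrincipalDivisors K F'']
    (φ ψ : F →ₐ[K] F') (hφ : φ.toRingHom.IsIntegral) (hψ : ψ.toRingHom.IsIntegral)
    (hFI : FundamentalIdentityAlong K φ hφ)
    (hfin : FiniteAlong K ψ) (hN : NormFormulaAlong K ψ hfin)
    (φ' ψ' : F →ₐ[K] F'') (hφ' : φ'.toRingHom.IsIntegral) (hψ' : ψ'.toRingHom.IsIntegral)
    (hFI' : FundamentalIdentityAlong K φ' hφ')
    (hfin' : FiniteAlong K ψ') (hN' : NormFormulaAlong K ψ' hfin')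
    (h : ∀ E : Divisor K F, Divisor.correspondence φ' ψ' hφ' hψ'
      (Divisor.correspondence φ ψ hφ hψ E) = Divisor.correspondence φ ψ hφ hψ
        (Divisor.correspondence φ' ψ' hφ' hψ' E)) (x : Pic0 K F) :
    Pic0.correspondence φ' ψ' hφ' hψ' hFI' hfin' hN'
      (Pic0.correspondence φ ψ hφ hψ hFI hfin hN x) =
    Pic0.correspondence φ ψ hφ hψ hFI hfin hN
      (Pic0.correspondence φ' ψ' hφ' hψ' hFI' hfin' hN' x) := by
  obtain ⟨E, rfl⟩ := Pic0.mk_surjective x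
  rw [Pic0.correspondence_mk, Pic0.correspondence_mk, Pic0.correspondence_mk,
    Pic0.correspondence_mk]
  congr 1
  apply Subtype.ext
  exact h E

section Maps

variable (L) (N ℓ ℓ' : ℕ) [NeZero N] [NeZero ℓ] [NeZero ℓ']

theorem mul_comm3 (N ℓ ℓ' : ℕ) : N * ℓ' * ℓ = N * ℓ * ℓ' := by ring

/-- the second way `F_{Nℓ'} → F_{Nℓℓ'}`, the inclusion -/
def alphaTwo : FB L (N * ℓ') →ₐ[L] FB L (N * ℓ * ℓ') :=
  (castF L (mul_comm3 N ℓ ℓ')).comp (heckeAlphaBar L (N * ℓ') ℓ)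

/-- the second way `F_{Nℓ'} → F_{Nℓℓ'}`, the substitution -/
def betaTwo : FB L (N * ℓ') →ₐ[L] FB L (N * ℓ * ℓ') :=
  (castF L (mul_comm3 N ℓ ℓ')).comp (heckeBetaBar L (N * ℓ') ℓ)

theorem coe_alphaTwo (x : FB L (N * ℓ')) :
    ((alphaTwo L N ℓ ℓ' x : FB L (N * ℓ * ℓ')) : LaurentSeries L) = x := by
  rw [alphaTwo, AlgHom.comp_apply, coe_castF, coe_alpha]

theorem coe_betaTwo (x : FB L (N * ℓ')) :
    ((betaTwo L N ℓ ℓ' x : FB L (N * ℓ * ℓ')) : LaurentSeries L)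
      = qExpand L ℓ (x : LaurentSeries L) := by
  rw [betaTwo, AlgHom.comp_apply, coe_castF, coe_beta]

theorem square1 : (alphaTwo L N ℓ ℓ').comp (heckeBetaBar L N ℓ')
    = (heckeBetaBar L (N * ℓ) ℓ').comp (heckeAlphaBar L N ℓ) := by
  refine AlgHom.ext fun x => Subtype.ext ?_
  rw [AlgHom.comp_apply, AlgHom.comp_apply, coe_alphaTwo, coe_beta, coe_beta, coe_alpha]

theorem square2 : (heckeAlphaBar L (N * ℓ) ℓ').comp (heckeBetaBar L N ℓ)
    = (betaTwo L N ℓ ℓ').comp (heckeAlphaBar L N ℓ') := by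
  refine AlgHom.ext fun x => Subtype.ext ?_
  rw [AlgHom.comp_apply, AlgHom.comp_apply, coe_betaTwo, coe_alpha, coe_beta, coe_alpha]

theorem square3 : (alphaTwo L N ℓ ℓ').comp (heckeAlphaBar L N ℓ')
    = (heckeAlphaBar L (N * ℓ) ℓ').comp (heckeAlphaBar L N ℓ) := by
  refine AlgHom.ext fun x => Subtype.ext ?_
  rw [AlgHom.comp_apply, AlgHom.comp_apply, coe_alphaTwo, coe_alpha, coe_alpha, coe_alpha]

theorem square4 : (betaTwo L N ℓ ℓ').comp (heckeBetaBar L N ℓ')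
    = (heckeBetaBar L (N * ℓ) ℓ').comp (heckeBetaBar L N ℓ) := by
  refine AlgHom.ext fun x => Subtype.ext ?_
  rw [AlgHom.comp_apply, AlgHom.comp_apply, coe_betaTwo, coe_beta, coe_beta, coe_beta,
    qExpand_qExpand, qExpand_qExpand]
  exact qExpand_congr (mul_comm _ _) _


theorem finrank_alphaTwo (hD : DegreeFact L) (hℓ : ℓ.Prime) (hℓ' : ℓ'.Prime) (hne : ℓ ≠ ℓ') :
    finrankAlong L (alphaTwo L N ℓ ℓ') = finrankAlong L (heckeAlphaBar L N ℓ) := by
  rw [alphaTwo, finrankAlong_castF_comp, finrank_alpha_prime hD _ _ hℓ,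
    finrank_alpha_prime hD _ _ hℓ]
  congr 1
  rw [hℓ.dvd_mul, eq_iff_iff]
  constructor
  · rintro (h | h)
    · exact h
    · exact absurd ((Nat.prime_dvd_prime_iff_eq hℓ hℓ').mp h) hne
  · exact Or.inl

theorem finrank_alphaOne (hD : DegreeFact L) (hℓ : ℓ.Prime) (hℓ' : ℓ'.Prime) (hne : ℓ ≠ ℓ') :
    finrankAlong L (heckeAlphaBar L (N * ℓ) ℓ') = finrankAlong L (heckeAlphaBar L N ℓ') := by
  rw [finrank_alpha_prime hD _ _ hℓ', finrank_alpha_prime hD _ _ hℓ']
  congr 1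
  rw [hℓ'.dvd_mul, eq_iff_iff]
  constructor
  · rintro (h | h)
    · exact h
    · exact absurd ((Nat.prime_dvd_prime_iff_eq hℓ' hℓ).mp h) hne.symm
  · exact Or.inl

theorem gen1 [IsAlgClosed L] [CharZero L] (hℓ : ℓ.Prime) (hℓ' : ℓ'.Prime) :
    Subfield.closure (Set.range (alphaTwo L N ℓ ℓ') ∪
      Set.range (heckeBetaBar L (N * ℓ) ℓ')) = ⊤ := by
  refine closure_eq_top (N * ℓ * ℓ') _ ?_ ?_
  · intro a
    exact Subfield.subset_closure (Or.inl ⟨algebraMap L _ a, AlgHom.commutes _ _⟩)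
  · intro T hT
    refine J_mem_square (H66.hasRoots_of_isAlgClosed L) prime_cast_ne_zero T (NeZero.ne N) hℓ hℓ'
      ?_ ?_
    · intro d hd
      have h := hT (alphaTwo L N ℓ ℓ' ⟨H66.J L d, J_mem_FB hd⟩)
        (Subfield.subset_closure (Or.inl ⟨_, rfl⟩))
      rwa [coe_alphaTwo] at h
    · intro e he
      have h := hT (heckeBetaBar L (N * ℓ) ℓ' ⟨H66.J L e, J_mem_FB he⟩)
        (Subfield.subset_closure (Or.inr ⟨_, rfl⟩))
      rwa [coe_beta, H66.qExpand_J] at h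

theorem gen2 [IsAlgClosed L] [CharZero L] (hℓ : ℓ.Prime) (hℓ' : ℓ'.Prime) :
    Subfield.closure (Set.range (heckeAlphaBar L (N * ℓ) ℓ') ∪
      Set.range (betaTwo L N ℓ ℓ')) = ⊤ := by
  refine closure_eq_top (N * ℓ * ℓ') _ ?_ ?_
  · intro a
    exact Subfield.subset_closure (Or.inl ⟨algebraMap L _ a, AlgHom.commutes _ _⟩)
  · intro T hT
    have key := J_mem_square (H66.hasRoots_of_isAlgClosed L) prime_cast_ne_zero T (NeZero.ne N)
      hℓ' hℓ ?_ ?_
    · intro d hd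
      exact key d (by rwa [mul_comm3])
    · intro d hd
      have h := hT (heckeAlphaBar L (N * ℓ) ℓ' ⟨H66.J L d, J_mem_FB hd⟩)
        (Subfield.subset_closure (Or.inl ⟨_, rfl⟩))
      rwa [coe_alpha] at h
    · intro e he
      have h := hT (betaTwo L N ℓ ℓ' ⟨H66.J L e, J_mem_FB he⟩)
        (Subfield.subset_closure (Or.inr ⟨_, rfl⟩))
      rwa [coe_betaTwo, H66.qExpand_J] at h

variable {N ℓ ℓ'}

/-- The Hecke correspondences commute on divisors. -/
theorem heckeDivBar_comm [IsAlgClosed L] [CharZero L]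
    (hℓ : ℓ.Prime) (hℓ' : ℓ'.Prime) (hne : ℓ ≠ ℓ')
    [HasPrincipalDivisors L (FB L (N * ℓ))] [HasPrincipalDivisors L (FB L (N * ℓ'))]
    (iα : HeckeAlphaBarIntegral L N ℓ) (iβ : HeckeBetaBarIntegral L N ℓ)
    (iα' : HeckeAlphaBarIntegral L N ℓ') (iβ' : HeckeBetaBarIntegral L N ℓ')
    (E : Divisor L (FB L N)) :
    heckeDivBar iα' iβ' (heckeDivBar iα iβ E) = heckeDivBar iα iβ (heckeDivBar iα' iβ' E) := by
  have hD := degreeFact L
  haveI := funField_of_degreeFact hD N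
  haveI := funField_of_degreeFact hD (N * ℓ)
  haveI := funField_of_degreeFact hD (N * ℓ')
  haveI := funField_of_degreeFact hD (N * ℓ * ℓ')
  haveI : HasPrincipalDivisors L (FB L (N * ℓ * ℓ')) := H94.hasPrincipalDivisors L _
  have hdeg : ∀ v : Place L (FB L N), v.deg ≠ 0 := fun v => by
    rw [H94.deg_eq_one]; exact one_ne_zero
  exact correspondence_comm hdeg (square1 L N ℓ ℓ') (square2 L N ℓ ℓ') (square3 L N ℓ ℓ')
    (square4 L N ℓ ℓ') (finiteAlong_of_funField _) (finiteAlong_of_funField _)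
    (finiteAlong_of_funField _) (finiteAlong_of_funField _) (finiteAlong_of_funField _)
    (finiteAlong_of_funField _) (finiteAlong_of_funField _) (finiteAlong_of_funField _)
    (finrank_alphaTwo L N ℓ ℓ' hD hℓ hℓ' hne) (finrank_alphaOne L N ℓ ℓ' hD hℓ hℓ' hne)
    (gen1 L N ℓ ℓ' hℓ hℓ') (gen2 L N ℓ ℓ' hℓ hℓ') iα iβ iα' iβ' E


/-- The Hecke operators commute on `Pic⁰`. -/
theorem heckeOperatorAlong_comm [IsAlgClosed L] [CharZero L]
    (hℓ : ℓ.Prime) (hℓ' : ℓ'.Prime) (x : Pic0 L (FB L N)) :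
    heckeOperatorAlong L N ℓ' (heckeOperatorAlong L N ℓ x)
      = heckeOperatorAlong L N ℓ (heckeOperatorAlong L N ℓ' x) := by
  by_cases hne : ℓ = ℓ'
  · subst hne
    rfl
  obtain ⟨iα, iβ, hPD, hfin, hFI, hNF⟩ := heckeInputsAlong_of_degreeFact (degreeFact L) N ℓ
  obtain ⟨iα', iβ', hPD', hfin', hFI', hNF'⟩ := heckeInputsAlong_of_degreeFact (degreeFact L) N ℓ'
  haveI := hPD
  haveI := hPD'
  rw [heckeOperatorAlong_eq iα iβ hFI hfin hNF, heckeOperatorAlong_eq iα' iβ' hFI' hfin' hNF']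
  exact pic0_correspondence_comm _ _ _ _ _ _ _ _ _ _ _ _ _ _
    (heckeDivBar_comm L hℓ hℓ' hne iα iβ iα' iβ') x

end Maps

/-- **The Hecke operators commute** on `J₀(N)`. -/
theorem heckeOperatorsCommuteBar (N : ℕ) [NeZero N] : HeckeOperatorsCommuteBar N := by
  intro ℓ ℓ'
  haveI : NeZero (ℓ : ℕ) := ⟨ℓ.2.ne_zero⟩
  haveI : NeZero (ℓ' : ℕ) := ⟨ℓ'.2.ne_zero⟩
  refine LinearMap.ext fun x => ?_
  rw [Module.End.mul_apply, Module.End.mul_apply, heckeOperatorBar_apply, heckeOperatorBar_apply,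
    heckeOperatorBar_apply, heckeOperatorBar_apply]
  exact heckeOperatorAlong_comm _ ℓ'.2 ℓ.2 x

end Fermat.Agent.H67
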