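import Fermat.Agent.H67Comm

/-!
# The Galois action commutes with the Hecke algebra on `J₀(N)` (helper67)
-/

set_option autoImplicit false
set_option linter.unusedSectionVars false
set_option linter.style.haveILetI false

noncomputable section

open AlgebraicCurve IntermediateField HahnSeries ModularCurve

namespace Fermat.Agent.H67

open scoped Pointwise

section General

variable {K F F' : Type*} [Field K] [Field F] [Field F']
  [Algebra K F] [Algebra K F'] [Algebra F F'] [IsScalarTower K F F']
  [Algebra.IsIntegral F F']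
  (g : SemilinearAut K F) (g' : SemilinearAut K F')
  (h : ∀ x : F, g' • algebraMap F F' x = algebraMap F F' (g • x))

include h

omit [IsScalarTower K F F'] [Algebra.IsIntegral F F'] in
theorem inv_smul_algebraMap' (x : F) : g'⁻¹ • algebraMap F F' x = algebraMap F F' (g⁻¹ • x) := by
  rw [inv_smul_eq_iff, h, smul_inv_smul]

theorem restrict_smul (w : Place K F') : (g' • w).restrict F = g • w.restrict F := by
  ext x
  rw [Place.mem_restrict_iff, SemilinearAut.smul_toValuationSubring,
    SemilinearAut.smul_toValuationSubring,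
    ValuationSubring.mem_pointwise_smul_iff_inv_smul_mem,
    ValuationSubring.mem_pointwise_smul_iff_inv_smul_mem, inv_smul_algebraMap' g g' h,
    Place.mem_restrict_iff]

theorem ord_smul_algebraMap (w : Place K F') (x : F) :
    (g' • w).ord (algebraMap F F' x) = w.ord (algebraMap F F' (g⁻¹ • x)) := by
  rw [← inv_smul_algebraMap' g g' h, ← SemilinearAut.ord_smul g' w (g'⁻¹ • algebraMap F F' x),
    smul_inv_smul]

theorem ramificationIndex_smul (w : Place K F') :
    (g' • w).ramificationIndex F = w.ramificationIndex F := by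
  unfold Place.ramificationIndex
  congr 1
  ext n
  simp only [Set.mem_ofPred_eq]
  refine and_congr_right fun _ => ?_
  constructor
  · rintro ⟨f, hf, hfn⟩
    exact ⟨g⁻¹ • f, by simpa using hf, by rw [← ord_smul_algebraMap g g' h, hfn]⟩
  · rintro ⟨f, hf, hfn⟩
    exact ⟨g • f, by simpa using hf, by
      rw [ord_smul_algebraMap g g' h, inv_smul_smul, hfn]⟩

theorem inertiaDeg_smul (hdeg : ∀ v : Place K F, v.deg ≠ 0) (w : Place K F') :
    (g' • w).inertiaDeg F = w.inertiaDeg F := by
  have h1 := (g' • w).deg_restrict_mul_inertiaDeg (F := F)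
  have h2 := w.deg_restrict_mul_inertiaDeg (F := F)
  rw [SemilinearAut.deg_smul, restrict_smul g g' h, SemilinearAut.deg_smul, ← h2] at h1
  exact Nat.eq_of_mul_eq_mul_left (Nat.pos_of_ne_zero (hdeg _)) h1

theorem pushforward_smul (hdeg : ∀ v : Place K F, v.deg ≠ 0) (D : Divisor K F') :
    Divisor.pushforward F (g' • D) = g • Divisor.pushforward F D := by
  induction D using Finsupp.induction with
  | zero => simp
  | single_add w n D _ _ ih =>
    rw [smul_add, map_add, map_add, smul_add, ih, SemilinearAut.smul_single,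
      Divisor.pushforward_single, Divisor.pushforward_single, SemilinearAut.smul_single,
      restrict_smul g g' h, inertiaDeg_smul g g' h hdeg]

theorem pullback_smul [HasPrincipalDivisors K F'] (D : Divisor K F) :
    Divisor.pullback F' (g • D) = g' • Divisor.pullback F' D := by
  refine Finsupp.ext fun w => ?_
  have h1 : w.restrict F = g • (g'⁻¹ • w).restrict F := by
    rw [← restrict_smul g g' h, smul_inv_smul]
  have h2 := ramificationIndex_smul g g' h (g'⁻¹ • w)
  rw [smul_inv_smul] at h2
  rw [Divisor.pullback_apply, SemilinearAut.divisor_smul_apply g' (Divisor.pullback F' D) w,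
    Divisor.pullback_apply, h1, h2, SemilinearAut.divisor_smul_apply_smul]

end General

section Along

variable {K F F' : Type*} [Field K] [Field F] [Field F']
  [Algebra K F] [Algebra K F']
  (g : SemilinearAut K F) (g' : SemilinearAut K F')

theorem pushforwardAlong_smul (hdeg : ∀ v : Place K F, v.deg ≠ 0) (φ : F →ₐ[K] F')
    (hφ : φ.toRingHom.IsIntegral) (h : ∀ x : F, g' • φ x = φ (g • x)) (D : Divisor K F') :
    Divisor.pushforwardAlong φ hφ (g' • D) = g • Divisor.pushforwardAlong φ hφ D := by
  letI := algebraAlong φ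
  haveI := isScalarTower_along φ
  haveI := isIntegral_along φ hφ
  exact pushforward_smul g g' h hdeg D

variable [HasPrincipalDivisors K F']

theorem pullbackAlong_smul (φ : F →ₐ[K] F')
    (hφ : φ.toRingHom.IsIntegral) (h : ∀ x : F, g' • φ x = φ (g • x)) (D : Divisor K F) :
    Divisor.pullbackAlong φ hφ (g • D) = g' • Divisor.pullbackAlong φ hφ D := by
  letI := algebraAlong φ
  haveI := isScalarTower_along φ
  haveI := isIntegral_along φ hφ
  exact pullback_smul g g' h D

theorem correspondence_smul (hdeg : ∀ v : Place K F, v.deg ≠ 0) (φ ψ : F →ₐ[K] F')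
    (hφ : φ.toRingHom.IsIntegral) (hψ : ψ.toRingHom.IsIntegral)
    (h : ∀ x : F, g' • φ x = φ (g • x)) (h' : ∀ x : F, g' • ψ x = ψ (g • x))
    (D : Divisor K F) :
    Divisor.correspondence φ ψ hφ hψ (g • D) = g • Divisor.correspondence φ ψ hφ hψ D := by
  rw [Divisor.correspondence_apply, Divisor.correspondence_apply, pullbackAlong_smul g g' φ hφ h,
    pushforwardAlong_smul g g' hdeg ψ hψ h']

theorem pic0_correspondence_smul (hdeg : ∀ v : Place K F, v.deg ≠ 0) (φ ψ : F →ₐ[K] F')
    (hφ : φ.toRingHom.IsIntegral) (hψ : ψ.toRingHom.IsIntegral)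
    (hFI : FundamentalIdentityAlong K φ hφ)
    (hfin : FiniteAlong K ψ) (hN : NormFormulaAlong K ψ hfin)
    (h : ∀ x : F, g' • φ x = φ (g • x)) (h' : ∀ x : F, g' • ψ x = ψ (g • x))
    (x : Pic0 K F) :
    Pic0.correspondence φ ψ hφ hψ hFI hfin hN (g • x)
      = g • Pic0.correspondence φ ψ hφ hψ hFI hfin hN x := by
  obtain ⟨D, rfl⟩ := Pic0.mk_surjective x
  rw [SemilinearAut.pic0_smul_mk, Pic0.correspondence_mk, Pic0.correspondence_mk,
    SemilinearAut.pic0_smul_mk]
  congr 1
  apply Subtype.ext
  exact correspondence_smul g g' hdeg φ ψ hφ hψ h h' D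

end Along

section Modular

variable {L : Type*} [Field L] [Algebra ℚ L]

theorem alpha_smul (N ℓ : ℕ) [NeZero N] [NeZero ℓ] (σ : L ≃ₐ[ℚ] L) (x : FB L N) :
    arithmeticGalois (modularFunctionFieldFull (N * ℓ)) σ • heckeAlphaBar L N ℓ x
      = heckeAlphaBar L N ℓ (arithmeticGalois (modularFunctionFieldFull N) σ • x) := by
  apply Subtype.ext
  rw [coe_arithmeticGalois_smul, coe_alpha, coe_alpha, coe_arithmeticGalois_smul]

theorem beta_smul (N ℓ : ℕ) [NeZero N] [NeZero ℓ] (σ : L ≃ₐ[ℚ] L) (x : FB L N) :
    arithmeticGalois (modularFunctionFieldFull (N * ℓ)) σ • heckeBetaBar L N ℓ x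
      = heckeBetaBar L N ℓ (arithmeticGalois (modularFunctionFieldFull N) σ • x) := by
  apply Subtype.ext
  rw [coe_arithmeticGalois_smul, coe_beta, coe_beta, coe_arithmeticGalois_smul, coeffMap_qExpand]

theorem heckeOperatorAlong_smul [IsAlgClosed L] [CharZero L] (N ℓ : ℕ) [NeZero N] [NeZero ℓ]
    (σ : L ≃ₐ[ℚ] L) (x : Pic0 L (FB L N)) :
    heckeOperatorAlong L N ℓ (σ • x) = σ • heckeOperatorAlong L N ℓ x := by
  haveI := funField_of_degreeFact (degreeFact L) N
  have hdeg : ∀ v : Place L (FB L N), v.deg ≠ 0 := fun v => by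
    rw [H94.deg_eq_one]; exact one_ne_zero
  obtain ⟨iα, iβ, hPD, hfin, hFI, hNF⟩ := heckeInputsAlong_of_degreeFact (degreeFact L) N ℓ
  haveI := hPD
  rw [heckeOperatorAlong_eq iα iβ hFI hfin hNF, galois_smul_pic0_def, galois_smul_pic0_def]
  exact pic0_correspondence_smul (arithmeticGalois (modularFunctionFieldFull N) σ)
    (arithmeticGalois (modularFunctionFieldFull (N * ℓ)) σ) hdeg _ _ _ _ _ _ _
    (beta_smul N ℓ σ) (alpha_smul N ℓ σ) x

end Modular

section JZero

variable (N : ℕ) [NeZero N]

theorem heckeOperatorBar_smul (ℓ : Nat.Primes)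
    (σ : AlgebraicClosure ℚ ≃ₐ[ℚ] AlgebraicClosure ℚ) (x : JZero N) :
    heckeOperatorBar N ℓ (σ • x) = σ • heckeOperatorBar N ℓ x := by
  haveI : NeZero (ℓ : ℕ) := ⟨ℓ.2.ne_zero⟩
  rw [heckeOperatorBar_apply, heckeOperatorBar_apply]
  exact heckeOperatorAlong_smul N ℓ σ x

/-- **The Galois action commutes with the Hecke action on `J₀(N)`.** -/
theorem smulCommClass_heckeAlg :
    letI := heckeModuleBar N
    SMulCommClass (AlgebraicClosure ℚ ≃ₐ[ℚ] AlgebraicClosure ℚ) HeckeAlg (JZero N) := by
  letI := heckeModuleBar N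
  refine ⟨fun σ t x => ?_⟩
  induction t using MvPolynomial.induction_on generalizing x with
  | C a =>
    rw [heckeModuleBar_C_smul, heckeModuleBar_C_smul]
    exact map_zsmul (DistribSMul.toAddMonoidHom (JZero N) σ) a x
  | add p q hp hq =>
    rw [add_smul, add_smul, smul_add, hp, hq]
  | mul_X p ℓ hp =>
    rw [mul_smul, mul_smul, hp]
    congr 1
    have h1 := heckeModuleBar_heckeGen_smul (heckeOperatorsCommuteBar N) ℓ
    change σ • (heckeGen ℓ • x) = heckeGen ℓ • (σ • x)
    rw [h1, h1, heckeOperatorBar_smul]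

end JZero

section Instances

theorem funField_FB (L : Type*) [Field L] [Algebra ℚ L] [IsAlgClosed L] [CharZero L] (N : ℕ)
    [NeZero N] : H94.FunField L (laurentBaseChange L (modularFunctionFieldFull N)) :=
  funField_of_degreeFact (degreeFact L) N

theorem hasPrincipalDivisors_FB (L : Type*) [Field L] [Algebra ℚ L] [IsAlgClosed L] [CharZero L]
    (N : ℕ) [NeZero N] :
    HasPrincipalDivisors L (laurentBaseChange L (modularFunctionFieldFull N)) :=
  haveI := funField_FB L N
  H94.hasPrincipalDivisors L _

theorem heckeInputsAlong (L : Type*) [Field L] [Algebra ℚ L] [IsAlgClosed L] [CharZero L]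
    (N ℓ : ℕ) [NeZero N] [NeZero ℓ] : HeckeInputsAlong L N ℓ :=
  heckeInputsAlong_of_degreeFact (degreeFact L) N ℓ

theorem deg_eq_one_FB (L : Type*) [Field L] [Algebra ℚ L] [IsAlgClosed L] [CharZero L] (N : ℕ)
    [NeZero N] (v : Place L (laurentBaseChange L (modularFunctionFieldFull N))) : v.deg = 1 :=
  haveI := funField_FB L N
  H94.deg_eq_one v

theorem hasPrincipalDivisors_bar (N : ℕ) [NeZero N] :
    HasPrincipalDivisors (AlgebraicClosure ℚ) (modularFunctionFieldBar N) :=
  hasPrincipalDivisors_FB (AlgebraicClosure ℚ) N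

theorem finiteAlong_FB (L : Type*) [Field L] [Algebra ℚ L] [IsAlgClosed L] [CharZero L]
    {N M : ℕ} [NeZero N] [NeZero M]
    (φ : laurentBaseChange L (modularFunctionFieldFull N) →ₐ[L]
      laurentBaseChange L (modularFunctionFieldFull M)) : FiniteAlong L φ :=
  haveI := funField_FB L N
  haveI := funField_FB L M
  finiteAlong_of_funField φ

theorem integral_FB (L : Type*) [Field L] [Algebra ℚ L] [IsAlgClosed L] [CharZero L]
    {N M : ℕ} [NeZero N] [NeZero M]
    (φ : laurentBaseChange L (modularFunctionFieldFull N) →ₐ[L]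
      laurentBaseChange L (modularFunctionFieldFull M)) : φ.toRingHom.IsIntegral :=
  isIntegral_of_finiteAlong (finiteAlong_FB L φ)

theorem normFormulaAlong_FB (L : Type*) [Field L] [Algebra ℚ L] [IsAlgClosed L] [CharZero L]
    {N M : ℕ} [NeZero N] [NeZero M]
    (φ : laurentBaseChange L (modularFunctionFieldFull N) →ₐ[L]
      laurentBaseChange L (modularFunctionFieldFull M)) (hfin : FiniteAlong L φ) :
    NormFormulaAlong L φ hfin := by
  haveI := funField_FB L N
  haveI := funField_FB L M
  letI := algebraAlong φ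
  haveI := isScalarTower_along φ
  haveI : Module.Finite (laurentBaseChange L (modularFunctionFieldFull N))
    (laurentBaseChange L (modularFunctionFieldFull M)) := hfin
  exact pushforwardNormFormula

theorem fundamentalIdentityAlong_FB (L : Type*) [Field L] [Algebra ℚ L] [IsAlgClosed L]
    [CharZero L] {N M : ℕ} [NeZero N] [NeZero M]
    [HasPrincipalDivisors L (laurentBaseChange L (modularFunctionFieldFull M))]
    (φ : laurentBaseChange L (modularFunctionFieldFull N) →ₐ[L]
      laurentBaseChange L (modularFunctionFieldFull M)) (hφ : φ.toRingHom.IsIntegral) :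
    FundamentalIdentityAlong L φ hφ := by
  haveI := funField_FB L N
  haveI := funField_FB L M
  letI := algebraAlong φ
  haveI := isScalarTower_along φ
  haveI : Module.Finite (laurentBaseChange L (modularFunctionFieldFull N))
    (laurentBaseChange L (modularFunctionFieldFull M)) := finiteAlong_FB L φ
  exact fundamentalIdentity

end Instances

end Fermat.Agent.H67
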