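import Mathlib
import Fermat.Prelude.Def_AlgebraicCurve_IsCurveOver
import Fermat.Prelude.Def_AlgebraicCurve_Repartitions

/-!
# Places of function fields (helper94)

Dictionary between places and primes of Dedekind rings.
-/

set_option autoImplicit false

noncomputable section

open AlgebraicCurve IsDedekindDomain WithZero

namespace Fermat.Agent.H94

variable {K F : Type*} [Field K] [Field F] [Algebra K F]

section Ord

variable (v : Place K F)

theorem mem_iff_adicValuation_le_one {f : F} :
    f ∈ v.toValuationSubring ↔ v.adicValuation f ≤ 1 := by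
  refine ⟨v.adicValuation_le_one_of_mem, fun h => ?_⟩
  rcases eq_or_ne f 0 with rfl | hf
  · exact zero_mem _
  rcases v.toValuationSubring.mem_or_inv_mem f with h' | h'
  · exact h'
  · have h1 := v.adicValuation_le_one_of_mem h'
    have h2 : v.adicValuation f = 1 := by
      refine le_antisymm h ?_
      rw [map_inv₀] at h1
      exact (inv_le_one₀ (zero_lt_iff.mpr (v.adicValuation_ne_zero hf))).mp h1
    have h3 : v.adicValuation ((⟨f⁻¹, h'⟩ : v.toValuationSubring) : F) = 1 := by
      show v.adicValuation f⁻¹ = 1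
      rw [map_inv₀, h2, inv_one]
    rw [v.adicValuation_coe_eq_one_iff] at h3
    obtain ⟨u, hu⟩ := h3
    have h4 : f = ((u⁻¹ : v.toValuationSubringˣ) : v.toValuationSubring) := by
      have h5 : ((u : v.toValuationSubring) : F) = f⁻¹ := by rw [hu]
      have h6 : ((u : v.toValuationSubring) : F) * (((u⁻¹ : v.toValuationSubringˣ) :
          v.toValuationSubring) : F) = 1 := by
        exact_mod_cast congrArg (Subtype.val) (u.mul_inv)
      rw [h5] at h6
      field_simp at h6
      exact h6.symm
    rw [h4]
    exact SetLike.coe_mem _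

theorem mem_iff_ord_nonneg {f : F} (hf : f ≠ 0) :
    f ∈ v.toValuationSubring ↔ 0 ≤ v.ord f := by
  rw [mem_iff_adicValuation_le_one, v.adicValuation_le_one_iff, or_iff_right hf]

theorem mem_of_ord_nonneg {f : F} (h : 0 ≤ v.ord f) : f ∈ v.toValuationSubring := by
  rcases eq_or_ne f 0 with rfl | hf
  · exact zero_mem _
  · exact (mem_iff_ord_nonneg v hf).mpr h

theorem ord_nonneg_of_mem {f : F} (h : f ∈ v.toValuationSubring) : 0 ≤ v.ord f := by
  rcases eq_or_ne f 0 with rfl | hf
  · simp
  · exact (mem_iff_ord_nonneg v hf).mp h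

theorem ord_add_ge {f g : F} {n : ℤ} (hf : f = 0 ∨ n ≤ v.ord f) (hg : g = 0 ∨ n ≤ v.ord g) :
    f + g = 0 ∨ n ≤ v.ord (f + g) := by
  have h1 : v.adicValuation f ≤ exp (-n) := by
    rw [v.adicValuation_le_exp_iff, neg_neg]; exact hf
  have h2 : v.adicValuation g ≤ exp (-n) := by
    rw [v.adicValuation_le_exp_iff, neg_neg]; exact hg
  have h3 := (v.adicValuation.map_add f g).trans (max_le h1 h2)
  rw [v.adicValuation_le_exp_iff, neg_neg] at h3
  exact h3

/-- A normalised discrete valuation with the same valuation ring computes `ord`. -/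
theorem ord_eq_neg_log (w : Valuation F ℤᵐ⁰)
    (hw : w.valuationSubring = v.toValuationSubring) (h1 : ∃ t : F, w t = exp (-1 : ℤ)) (f : F) :
    v.ord f = -(WithZero.log (w f)) := by
  rcases eq_or_ne f 0 with rfl | hf
  · simp
  obtain ⟨t, ht⟩ := h1
  have hmem : ∀ y : F, y ∈ v.toValuationSubring ↔ w y ≤ 1 := by
    intro y
    rw [← hw, Valuation.mem_valuationSubring_iff]
  have ht1 : w t ≤ 1 := by
    rw [ht, ← exp_zero]; exact exp_le_exp.mpr (by norm_num)
  have htmem : t ∈ v.toValuationSubring := (hmem t).mpr ht1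
  have hunit : ∀ y : v.toValuationSubring, IsUnit y ↔ w (y : F) = 1 := by
    intro y
    constructor
    · rintro ⟨u, rfl⟩
      have ha : w ((u : v.toValuationSubring) : F) ≤ 1 := (hmem _).mp (SetLike.coe_mem _)
      have hb : w (((u⁻¹ : v.toValuationSubringˣ) : v.toValuationSubring) : F) ≤ 1 :=
        (hmem _).mp (SetLike.coe_mem _)
      have hab : w ((u : v.toValuationSubring) : F) *
          w (((u⁻¹ : v.toValuationSubringˣ) : v.toValuationSubring) : F) = 1 := by
        rw [← map_mul]
        have : ((u : v.toValuationSubring) : F) * (((u⁻¹ : v.toValuationSubringˣ) :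
          v.toValuationSubring) : F) = 1 := by
          exact_mod_cast congrArg (Subtype.val) (u.mul_inv)
        rw [this, map_one]
      refine le_antisymm ha ?_
      calc (1 : ℤᵐ⁰) = _ := hab.symm
        _ ≤ w ((u : v.toValuationSubring) : F) * 1 := by gcongr
        _ = _ := mul_one _
    · intro hy
      have hy0 : (y : F) ≠ 0 := by
        intro h0
        rw [h0, map_zero] at hy
        exact zero_ne_one hy
      have hinv : (y : F)⁻¹ ∈ v.toValuationSubring := by
        rw [hmem, map_inv₀, hy, inv_one]
      refine IsUnit.of_mul_eq_one ⟨(y : F)⁻¹, hinv⟩ ?_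
      apply Subtype.ext
      show (y : F) * (y : F)⁻¹ = 1
      exact mul_inv_cancel₀ hy0
  have hirr : Irreducible (⟨t, htmem⟩ : v.toValuationSubring) := by
    constructor
    · rw [hunit]
      show w t ≠ 1
      rw [ht, ← exp_zero]
      exact fun h => by
        have := exp_injective h
        omega
    · intro a b hab
      rw [hunit, hunit]
      have ha : w (a : F) ≤ 1 := (hmem _).mp (SetLike.coe_mem _)
      have hb : w (b : F) ≤ 1 := (hmem _).mp (SetLike.coe_mem _)
      have h2 : w (a : F) * w (b : F) = exp (-1 : ℤ) := by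
        rw [← map_mul, ← ht]
        congr 1
        exact (congrArg Subtype.val hab).symm
      have ha0 : w (a : F) ≠ 0 := by
        intro h; rw [h, zero_mul] at h2; exact (exp_ne_zero h2.symm)
      have hb0 : w (b : F) ≠ 0 := by
        intro h; rw [h, mul_zero] at h2; exact (exp_ne_zero h2.symm)
      rw [← exp_log ha0, ← exp_log hb0, ← exp_add] at h2
      have h3 := exp_injective h2
      rw [← exp_log ha0, ← exp_zero] at ha
      rw [← exp_log hb0, ← exp_zero] at hb
      have ha' := exp_le_exp.mp ha
      have hb' := exp_le_exp.mp hb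
      rcases (by omega : WithZero.log (w (a : F)) = 0 ∨ WithZero.log (w (b : F)) = 0) with h | h
      · left
        rw [← exp_log ha0, h, exp_zero]
      · right
        rw [← exp_log hb0, h, exp_zero]
  obtain ⟨u, hu⟩ := v.exists_unit_mul_zpow hf hirr
  have hwf : w f = exp (-(v.ord f)) := by
    conv_lhs => rw [hu]
    rw [map_mul, map_zpow₀, (hunit _).mp u.isUnit, one_mul]
    show w t ^ _ = _
    rw [ht, ← exp_zsmul]
    congr 1
    simp
  rw [hwf, log_exp, neg_neg]

end Ord

section Dedekind

variable {R : Type*} [CommRing R] [IsDedekindDomain R] [Algebra R F] [IsFractionRing R F]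
  [Algebra K R] [IsScalarTower K R F]

theorem ord_ofHeightOneSpectrum (w : HeightOneSpectrum R) (f : F) :
    (Place.ofHeightOneSpectrum (K := K) (F := F) w).ord f = -(WithZero.log (w.valuation F f)) := by
  refine ord_eq_neg_log _ (w.valuation F) rfl ?_ f
  exact w.valuation_exists_uniformizer F

theorem place_eq_of_le {v w : Place K F} (h : v.toValuationSubring ≤ w.toValuationSubring) :
    v = w := by
  apply Place.ext
  refine le_antisymm h ?_
  intro f hf
  by_contra hfv
  have hf0 : f ≠ 0 := fun h0 => hfv (h0 ▸ zero_mem _)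
  have hord : v.ord f < 0 := by
    by_contra hge
    exact hfv (mem_of_ord_nonneg v (not_lt.mp hge))
  -- every element of `F` is in `w`
  apply w.ne_top'
  refine eq_top_iff.mpr fun g _ => ?_
  rcases eq_or_ne g 0 with rfl | hg
  · exact zero_mem _
  -- g * f^(-n) ∈ v for n large
  obtain ⟨n, hn⟩ : ∃ n : ℕ, 0 ≤ v.ord (g * (f ^ n)⁻¹) := by
    refine ⟨(v.ord g).natAbs, ?_⟩
    rw [v.ord_mul hg (inv_ne_zero (pow_ne_zero _ hf0)), v.ord_inv, ← zpow_natCast, v.ord_zpow]
    have h1 : v.ord f ≤ -1 := by omega
    have h2 : (0 : ℤ) ≤ ((v.ord g).natAbs : ℤ) := by positivity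
    have h3 : -((v.ord g).natAbs : ℤ) ≤ v.ord g := by omega
    nlinarith
  have h4 : g * (f ^ n)⁻¹ ∈ w.toValuationSubring := h (mem_of_ord_nonneg v hn)
  have h5 : g = g * (f ^ n)⁻¹ * f ^ n := by
    field_simp
  rw [h5]
  exact mul_mem h4 (pow_mem hf n)

/-- The prime of `R` below a place `v` whose valuation ring contains `R`. -/
def primeBelow (v : Place K F) (hR : ∀ r : R, algebraMap R F r ∈ v.toValuationSubring) :
    HeightOneSpectrum R where
  asIdeal := Ideal.comap ((algebraMap R F).codRestrict v.toValuationSubring.toSubring hR)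
    (IsLocalRing.maximalIdeal v.toValuationSubring)
  isPrime := Ideal.comap_isPrime _ _
  ne_bot := by
    intro hbot
    apply v.ne_top'
    refine eq_top_iff.mpr fun g _ => ?_
    obtain ⟨a, b, hb, rfl⟩ := IsFractionRing.div_surjective (A := R) g
    have hb0 : b ≠ 0 := nonZeroDivisors.ne_zero hb
    have hbu : IsUnit (((algebraMap R F).codRestrict v.toValuationSubring.toSubring hR) b) := by
      by_contra hnu
      have : b ∈ Ideal.comap ((algebraMap R F).codRestrict v.toValuationSubring.toSubring hR)
          (IsLocalRing.maximalIdeal v.toValuationSubring) := by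
        rw [Ideal.mem_comap, IsLocalRing.mem_maximalIdeal]
        exact hnu
      rw [hbot] at this
      exact hb0 this
    obtain ⟨c, hc⟩ := hbu.exists_right_inv
    have hc' : algebraMap R F b * (c : F) = 1 := by
      have := congrArg Subtype.val hc
      exact this
    have hbF : algebraMap R F b ≠ 0 := by
      intro h; rw [h, zero_mul] at hc'; exact zero_ne_one hc'
    have : algebraMap R F a / algebraMap R F b = algebraMap R F a * (c : F) := by
      rw [div_eq_iff hbF, mul_assoc, mul_comm (c : F), hc', mul_one]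
    rw [this]
    exact mul_mem (hR a) c.2

omit [Algebra K R] [IsScalarTower K R F] in
theorem mem_primeBelow_iff (v : Place K F) (hR : ∀ r : R, algebraMap R F r ∈ v.toValuationSubring)
    (r : R) : r ∈ (primeBelow v hR).asIdeal ↔ r = 0 ∨ 0 < v.ord (algebraMap R F r) := by
  have hinj : Function.Injective (algebraMap R F) := IsFractionRing.injective R F
  rcases eq_or_ne r 0 with rfl | hr
  · simp
  rw [or_iff_right hr]
  show r ∈ Ideal.comap _ _ ↔ _
  rw [Ideal.mem_comap, IsLocalRing.mem_maximalIdeal, mem_nonunits_iff,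
    ← v.adicValuation_coe_eq_one_iff]
  show ¬ v.adicValuation (algebraMap R F r) = 1 ↔ _
  have hr0 : algebraMap R F r ≠ 0 := by
    rw [ne_eq, map_eq_zero_iff _ hinj]; exact hr
  have hge := ord_nonneg_of_mem v (hR r)
  rw [v.adicValuation_eq_exp_neg_ord hr0, ← exp_zero]
  constructor
  · intro h
    rcases hge.lt_or_eq with h1 | h1
    · exact h1
    · exfalso; apply h; rw [← h1]; simp
  · intro h h1
    have := exp_injective h1
    omega

theorem ofHeightOneSpectrum_primeBelow (v : Place K F)
    (hR : ∀ r : R, algebraMap R F r ∈ v.toValuationSubring) :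
    Place.ofHeightOneSpectrum (primeBelow v hR) = v := by
  apply place_eq_of_le
  intro f hf
  rw [Place.ofHeightOneSpectrum_toValuationSubring, Valuation.mem_valuationSubring_iff] at hf
  obtain ⟨n, d, hnd⟩ := (primeBelow v hR).exists_primeCompl_mul_eq_of_integer f hf
  have hd : (d : R) ∉ (primeBelow v hR).asIdeal := d.2
  rw [mem_primeBelow_iff, not_or] at hd
  have hd0 : algebraMap R F d ≠ 0 := by
    rw [ne_eq, map_eq_zero_iff _ (IsFractionRing.injective R F)]; exact hd.1
  have hordd : v.ord (algebraMap R F d) = 0 :=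
    le_antisymm (not_lt.mp hd.2) (ord_nonneg_of_mem v (hR _))
  have hinv : (algebraMap R F d)⁻¹ ∈ v.toValuationSubring :=
    mem_of_ord_nonneg v (by rw [v.ord_inv, hordd, neg_zero])
  have : f = algebraMap R F n * (algebraMap R F d)⁻¹ := by
    rw [← hnd, mul_assoc, mul_inv_cancel₀ hd0, mul_one]
  rw [this]
  exact mul_mem (hR n) hinv

theorem primeBelow_ofHeightOneSpectrum (w : HeightOneSpectrum R)
    (hR : ∀ r : R, algebraMap R F r ∈
      (Place.ofHeightOneSpectrum (K := K) (F := F) w).toValuationSubring) :
    primeBelow (Place.ofHeightOneSpectrum (K := K) (F := F) w) hR = w := by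
  apply HeightOneSpectrum.ext
  ext r
  rw [mem_primeBelow_iff]
  rcases eq_or_ne r 0 with rfl | hr
  · simp
  rw [or_iff_right hr, ord_ofHeightOneSpectrum, HeightOneSpectrum.valuation_of_algebraMap,
    neg_pos]
  rw [← HeightOneSpectrum.intValuation_lt_one_iff_mem]
  have h0 : w.intValuation r ≠ 0 := w.intValuation_ne_zero r hr
  conv_rhs => rw [← exp_log h0, ← exp_zero, exp_lt_exp]

theorem algebraMap_mem_ofHeightOneSpectrum (w : HeightOneSpectrum R) (r : R) :
    algebraMap R F r ∈ (Place.ofHeightOneSpectrum (K := K) (F := F) w).toValuationSubring := by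
  rw [Place.ofHeightOneSpectrum_toValuationSubring, Valuation.mem_valuationSubring_iff]
  exact w.valuation_le_one r

variable (K F R) in
/-- Places of `F/K` whose valuation ring contains `R` are the maximal ideals of `R`. -/
def placeEquiv : {v : Place K F // ∀ r : R, algebraMap R F r ∈ v.toValuationSubring} ≃
    HeightOneSpectrum R where
  toFun v := primeBelow v.1 v.2
  invFun w := ⟨Place.ofHeightOneSpectrum w, algebraMap_mem_ofHeightOneSpectrum w⟩
  left_inv v := Subtype.ext (ofHeightOneSpectrum_primeBelow v.1 v.2)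
  right_inv w := primeBelow_ofHeightOneSpectrum w _

end Dedekind

end Fermat.Agent.H94
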