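import Mathlib
import Fermat.Agent.H94Places
import Fermat.Agent.H40DeuringMain

/-!
# Torsion injectivity for a good reduction of function fields (helper18)
-/

set_option autoImplicit false

noncomputable section

open AlgebraicCurve WithZero
open Fermat.Agent.H40 (ReductionData RiemannFor mem_L L_mono one_mem_L mul_mem_L degree_eq_sum)

namespace Fermat.Agent.H18

variable {K F k E : Type*} [Field K] [Field F] [Algebra K F] [Field k] [Field E] [Algebra k E]

/-! ### The ring `B` is a valuation ring -/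

section Ring

variable (R : ReductionData K F k E)

theorem algebraMap_mem_B_iff {c : K} : algebraMap K F c ∈ R.B ↔ c ∈ R.A := by
  constructor
  · intro h
    have hb : LinearIndependent k fun i : Fin 1 => R.ρ ((fun _ => (1 : R.B)) i) := by
      rw [linearIndependent_unique_iff, map_one]
      exact one_ne_zero
    exact R.coeff_mem hb (c := fun _ => c) (by simpa [Algebra.smul_def] using h) 0
  · exact fun h => R.mem_B ⟨c, h⟩

theorem isUnit_of_π_ne_zero {a : R.A} (h : R.π a ≠ 0) : IsUnit a := by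
  by_contra h'
  exact h ((R.π_eq_zero a).2 h')

theorem π_ne_zero_of_isUnit {a : R.A} (h : IsUnit a) : R.π a ≠ 0 := fun h' =>
  (R.π_eq_zero a).1 h' h

theorem const_mul (a b : R.A) : R.const (a * b) = R.const a * R.const b :=
  Subtype.ext (by simp)

theorem const_one : R.const 1 = 1 := Subtype.ext (by simp)

theorem isUnit_const {a : R.A} (h : IsUnit a) : IsUnit (R.const a) := by
  obtain ⟨u, rfl⟩ := h
  exact IsUnit.of_mul_eq_one (R.const ((u⁻¹ : R.Aˣ) : R.A)) (by
    rw [← const_mul, Units.mul_inv, const_one])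

theorem isUnit_of_ρ_ne_zero {x : R.B} (hx : R.ρ x ≠ 0) : IsUnit x := by
  have hx0 := R.ne_zero_of_ρ_ne_zero hx
  obtain ⟨c, hc, y, hy, hρy⟩ := R.exists_scale (inv_ne_zero hx0)
  have h1 : ((x * y : R.B) : F) = algebraMap K F c := by
    rw [Subring.coe_mul, hy, Algebra.smul_def]
    field_simp
  have hcA : c ∈ R.A := (algebraMap_mem_B_iff R).1 (h1 ▸ (x * y).2)
  have h2 : x * y = R.const ⟨c, hcA⟩ := Subtype.ext h1
  have h3 : R.π ⟨c, hcA⟩ ≠ 0 := by
    intro h
    have := congrArg R.ρ h2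
    rw [map_mul, R.ρ_const, h, map_zero] at this
    exact mul_ne_zero hx hρy this
  have h4 : IsUnit (x * y) := h2 ▸ isUnit_const R (isUnit_of_π_ne_zero R h3)
  exact isUnit_of_mul_isUnit_left h4

theorem ρ_surjective : Function.Surjective R.ρ := by
  intro e
  obtain ⟨x, y, hy, h⟩ := R.frac e
  obtain ⟨u, rfl⟩ := isUnit_of_ρ_ne_zero R hy
  refine ⟨x * ((u⁻¹ : R.Bˣ) : R.B), ?_⟩
  have h1 : R.ρ u * R.ρ ((u⁻¹ : R.Bˣ) : R.B) = 1 := by
    rw [← map_mul, Units.mul_inv, map_one]
  rw [map_mul, ← h, mul_assoc, h1, mul_one]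

/-- every function is a constant times an integral function with nonzero reduction -/
theorem exists_scale' {f : F} (hf : f ≠ 0) :
    ∃ c : K, c ≠ 0 ∧ ∃ x : R.B, f = algebraMap K F c * x ∧ R.ρ x ≠ 0 := by
  obtain ⟨c, hc, x, hx, hρ⟩ := R.exists_scale hf
  refine ⟨c⁻¹, inv_ne_zero hc, x, ?_, hρ⟩
  rw [hx, Algebra.smul_def, ← mul_assoc, ← map_mul, inv_mul_cancel₀ hc, map_one, one_mul]

/-- An integral function with zero reduction is divisible by a nonunit constant. -/
theorem exists_dvd_of_ρ_eq_zero {x : R.B} (hx : R.ρ x = 0) :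
    ∃ a : R.A, ¬ IsUnit a ∧ R.const a ∣ x := by
  rcases eq_or_ne (x : F) 0 with h0 | h0
  · refine ⟨0, not_isUnit_zero, ?_⟩
    have : x = 0 := Subtype.ext h0
    rw [this]
    exact dvd_zero _
  obtain ⟨c, hc, y, hy, hρ⟩ := exists_scale' R h0
  have hy' : IsUnit y := isUnit_of_ρ_ne_zero R hρ
  obtain ⟨u, rfl⟩ := hy'
  have hcB : algebraMap K F c ∈ R.B := by
    have : algebraMap K F c = ((x * ((u⁻¹ : R.Bˣ) : R.B) : R.B) : F) := by
      rw [Subring.coe_mul, hy, mul_assoc]
      have h1 : ((u : R.B) : F) * (((u⁻¹ : R.Bˣ) : R.B) : F) = 1 := by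
        rw [← Subring.coe_mul, Units.mul_inv, Subring.coe_one]
      rw [h1, mul_one]
    rw [this]
    exact Subtype.property _
  have hcA := (algebraMap_mem_B_iff R).1 hcB
  have hxe : x = R.const ⟨c, hcA⟩ * u := Subtype.ext hy
  refine ⟨⟨c, hcA⟩, ?_, ⟨u, hxe⟩⟩
  intro hu
  have h2 := congrArg R.ρ hxe
  rw [hx, map_mul, R.ρ_const] at h2
  rcases mul_eq_zero.1 h2.symm with h3 | h3
  · exact π_ne_zero_of_isUnit R hu (by simpa using h3)
  · exact hρ h3

theorem ρ_eq_zero_of_dvd {a : R.A} (ha : ¬ IsUnit a) {x : R.B} (h : R.const a ∣ x) :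
    R.ρ x = 0 := by
  obtain ⟨y, rfl⟩ := h
  rw [map_mul, R.ρ_const, (R.π_eq_zero a).2 ha, map_zero, zero_mul]

theorem natCast_isUnit_B {m : ℕ} (hm : (m : k) ≠ 0) : IsUnit (m : R.B) := by
  apply isUnit_of_ρ_ne_zero R
  rw [map_natCast, ← map_natCast (algebraMap k E)]
  exact fun h => hm ((map_eq_zero _).1 h)

end Ring

/-! ### Newton iteration for roots -/

theorem newton {S : Type*} [CommRing S] (μ u : S) (m : ℕ) (hm : IsUnit (m : S))
    (hu : μ ∣ u - 1) (s : ℕ) : ∃ t : S, μ ∣ t - 1 ∧ μ ^ (s + 1) ∣ t ^ m - u := by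
  obtain ⟨w, hw⟩ := hm.exists_right_inv
  induction s with
  | zero =>
    refine ⟨1, by simp, ?_⟩
    rw [one_pow, zero_add, pow_one]
    rw [← neg_sub]
    exact (dvd_neg).2 hu
  | succ s ih =>
    obtain ⟨t, ht1, ht⟩ := ih
    set ε := t ^ m - u with hε
    obtain ⟨q, hq⟩ := Polynomial.powAddExpansion t (-(w * ε)) m
    refine ⟨t + (-(w * ε)), ?_, ?_⟩
    · have h1 : μ ∣ ε := (dvd_pow_self μ (Nat.succ_ne_zero s)).trans ht
      have h2 : t + -(w * ε) - 1 = (t - 1) - w * ε := by ring
      rw [h2]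
      exact dvd_sub ht1 (h1.mul_left w)
    · have h1 : (t + -(w * ε)) ^ m - u = ε * (1 - t ^ (m - 1)) + q * w ^ 2 * (ε * ε) := by
        rw [hq]
        have : t ^ m = ε + u := by rw [hε]; ring
        rw [this]
        linear_combination (-(t ^ (m - 1) * ε)) * hw
      rw [h1]
      refine dvd_add ?_ ?_
      · rw [pow_succ]
        refine mul_dvd_mul ht ?_
        have h2 : t - 1 ∣ t ^ (m - 1) - 1 := by
          simpa using sub_dvd_pow_sub_pow t 1 (m - 1)
        rw [← neg_sub]
        exact (dvd_neg).2 (ht1.trans h2)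
      · refine Dvd.dvd.mul_left ?_ _
        rw [pow_succ]
        exact mul_dvd_mul ht ((dvd_pow_self μ (Nat.succ_ne_zero s)).trans ht)

/-! ### Finsupp -/

theorem mapDomain_apply_eq {α β : Type*} (r : α → β) [DecidableEq β] (D : α →₀ ℤ)
    (s : Finset α) (hs : D.support ⊆ s) (b : β) :
    Finsupp.mapDomain r D b = ∑ a ∈ s, if r a = b then D a else 0 := by
  classical
  rw [Finsupp.mapDomain, Finsupp.sum_apply, Finsupp.sum_of_support_subset _ hs _ (by simp)]
  refine Finset.sum_congr rfl fun a _ => ?_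
  rw [Finsupp.single_apply]

/-! ### Places -/

section Places

variable (R : ReductionData K F k E) (r : Place K F → Place k E)

/-- Compatibility of a map on places with the reduction of functions. -/
def PlaceCompat : Prop :=
  ∀ x : R.B, R.ρ x ≠ 0 → ∀ Δ : Divisor K F, (∀ v, Δ v = v.ord (x : F)) →
    ∀ w, Finsupp.mapDomain r Δ w = w.ord (R.ρ x)

variable {R r}

theorem mapDomain_sub_apply (D D' : Divisor K F) (Q : Place k E) :
    Finsupp.mapDomain r (D - D') Q = Finsupp.mapDomain r D Q - Finsupp.mapDomain r D' Q := by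
  classical
  rw [← Finsupp.sub_apply]
  congr 1
  rw [← Finsupp.mapDomain.addMonoidHom_apply, map_sub]
  rfl

theorem mapDomain_apply_nonneg (D : Divisor K F) (Q : Place k E)
    (h : ∀ P, r P = Q → 0 ≤ D P) : 0 ≤ Finsupp.mapDomain r D Q := by
  classical
  rw [mapDomain_apply_eq r D D.support (Finset.Subset.refl _) Q]
  refine Finset.sum_nonneg fun P _ => ?_
  split_ifs with hP
  · exact h P hP
  · exact le_rfl

theorem eq_zero_of_mapDomain_apply_eq_zero (D : Divisor K F) (Q : Place k E)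
    (h : ∀ P, r P = Q → 0 ≤ D P) (h0 : Finsupp.mapDomain r D Q = 0) (P : Place K F)
    (hP : r P = Q) : D P = 0 := by
  classical
  by_contra hne
  rw [mapDomain_apply_eq r D D.support (Finset.Subset.refl _) Q] at h0
  have h1 := (Finset.sum_eq_zero_iff_of_nonneg (s := D.support)
    (f := fun a => if r a = Q then D a else 0) (fun P' _ => by
      split_ifs with hP'
      · exact h P' hP'
      · exact le_rfl)).1 h0 P (Finsupp.mem_support_iff.2 hne)
  simp only [hP, if_true] at h1
  exact hne h1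

theorem le_ord_ρ [HasPrincipalDivisors K F] (hr : PlaceCompat R r) {x : R.B} (hx : R.ρ x ≠ 0)
    (D : Divisor K F) (Q : Place k E) (h : ∀ P, r P = Q → D P ≤ P.ord (x : F)) :
    Finsupp.mapDomain r D Q ≤ Q.ord (R.ρ x) := by
  obtain ⟨Δ, hΔ, -⟩ := H40.exists_div (K := K) (R.ne_zero_of_ρ_ne_zero hx)
  rw [← hr x hx Δ hΔ Q]
  have h1 := mapDomain_apply_nonneg (r := r) (Δ - D) Q fun P hP => by
    rw [Finsupp.sub_apply, hΔ]
    have := h P hP
    omega
  rw [mapDomain_sub_apply] at h1
  omega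

theorem ord_eq_of_le [HasPrincipalDivisors K F] (hr : PlaceCompat R r) {x : R.B}
    (hx : R.ρ x ≠ 0) (D : Divisor K F) (Q : Place k E)
    (h : ∀ P, r P = Q → D P ≤ P.ord (x : F))
    (h0 : Q.ord (R.ρ x) = Finsupp.mapDomain r D Q) (P : Place K F) (hP : r P = Q) :
    P.ord (x : F) = D P := by
  obtain ⟨Δ, hΔ, -⟩ := H40.exists_div (K := K) (R.ne_zero_of_ρ_ne_zero hx)
  have h1 := eq_zero_of_mapDomain_apply_eq_zero (r := r) (Δ - D) Q (fun P hP => by
    rw [Finsupp.sub_apply, hΔ]
    have := h P hP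
    omega) (by rw [mapDomain_sub_apply, hr x hx Δ hΔ Q, h0, sub_self]) P hP
  rw [Finsupp.sub_apply, hΔ] at h1
  omega

theorem degree_mapDomain (hdF : ∀ v : Place K F, v.deg = 1) (hdE : ∀ v : Place k E, v.deg = 1)
    (D : Divisor K F) : Divisor.degree (Finsupp.mapDomain r D) = Divisor.degree D := by
  rw [degree_eq_sum hdE, degree_eq_sum hdF, Finsupp.sum_mapDomain_index (by simp) (by simp)]

variable {g c : ℤ} [HasPrincipalDivisors K F]
  (hF : RiemannFor K F g c) (hE : RiemannFor k E g c)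
  (hdF : ∀ v : Place K F, v.deg = 1) (hdE : ∀ v : Place k E, v.deg = 1)
  (hr : PlaceCompat R r)

include hF hE hdF hdE hr

/-- Riemann-Roch spaces of large degree reduce onto Riemann-Roch spaces. -/
theorem red_eq {D : Divisor K F} (hD : c ≤ Divisor.degree D) :
    R.red (riemannRochSpace D) = riemannRochSpace (Finsupp.mapDomain r D) := by
  obtain ⟨h1, h2⟩ := hF D hD
  obtain ⟨h3, h4⟩ := hE (Finsupp.mapDomain r D) (by rwa [degree_mapDomain hdF hdE])
  have := h1
  have := h3
  obtain ⟨h5, h6⟩ := R.finrank_red (riemannRochSpace D)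
  refine Submodule.eq_of_le_of_finrank_eq ?_ ?_
  · rintro _ ⟨x, hx, rfl⟩
    rcases eq_or_ne (R.ρ x) 0 with h0 | h0
    · rw [h0]; exact Submodule.zero_mem _
    rw [mem_L h0]
    intro Q
    rw [mem_L (R.ne_zero_of_ρ_ne_zero h0)] at hx
    have h7 := le_ord_ρ hr h0 (-D) Q (fun P _ => by
      rw [Finsupp.neg_apply]; exact hx P)
    have h8 : Finsupp.mapDomain r (-D) Q = - Finsupp.mapDomain r D Q := by
      have := mapDomain_sub_apply (r := r) 0 D Q
      rw [zero_sub] at this
      rw [this]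
      simp
    rwa [h8] at h7
  · rw [degree_mapDomain hdF hdE] at h4
    omega

theorem exists_lift {D : Divisor K F} (hD : c ≤ Divisor.degree D) {e : E}
    (he : e ∈ riemannRochSpace (Finsupp.mapDomain r D)) :
    ∃ x : R.B, (x : F) ∈ riemannRochSpace D ∧ R.ρ x = e := by
  rw [← red_eq hF hE hdF hdE hr hD] at he
  exact he

omit hF hE in
/-- There is a place not lying above `Q`. -/
theorem exists_not_above [HasPrincipalDivisors k E] (Q : Place k E) : ∃ P, r P ≠ Q := by
  obtain ⟨π, hπ⟩ := IsDiscreteValuationRing.exists_irreducible Q.toValuationSubring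
  have h1 : Q.ord (π : E) = 1 := Q.ord_coe_irreducible hπ
  have h0 : (π : E) ≠ 0 := by
    intro h
    rw [h, Q.ord_zero] at h1
    exact zero_ne_one h1
  obtain ⟨x, hx⟩ := ρ_surjective R (π : E)
  have hx0 : R.ρ x ≠ 0 := by rw [hx]; exact h0
  obtain ⟨Δ, hΔ, hΔ0⟩ := H40.exists_div (K := K) (R.ne_zero_of_ρ_ne_zero hx0)
  by_contra hcon
  push Not at hcon
  have h2 := hr x hx0 Δ hΔ
  have h3 : Finsupp.mapDomain r Δ = Finsupp.single Q 1 := by
    classical
    ext w
    rw [Finsupp.single_apply]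
    split_ifs with hw
    · rw [← hw, h2, hx, h1]
    · rw [mapDomain_apply_eq r Δ Δ.support (Finset.Subset.refl _) w]
      refine Finset.sum_eq_zero fun P _ => ?_
      rw [if_neg]
      rw [hcon P]
      exact hw
  have h4 := degree_mapDomain (r := r) hdF hdE Δ
  rw [h3, hΔ0, Divisor.degree_single, hdE] at h4
  simp at h4

/-- Local equation with reduction one. -/
theorem exists_local_eq [HasPrincipalDivisors k E] (D : Divisor K F)
    (hD : Finsupp.mapDomain r D = 0) (Q : Place k E) :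
    ∃ v : R.B, R.ρ v = 1 ∧ ∀ P, r P = Q → P.ord (v : F) = D P := by
  classical
  obtain ⟨X, hX⟩ := exists_not_above hdF hdE hr Q
  set DQ : Divisor K F := D.filter fun P => r P = Q with hDQ
  have hDQ1 : ∀ P, r P = Q → DQ P = D P := fun P hP => Finsupp.filter_apply_pos _ _ hP
  have hDQ2 : ∀ P, r P ≠ Q → DQ P = 0 := fun P hP => Finsupp.filter_apply_neg _ _ hP
  have hmap : Finsupp.mapDomain r DQ = 0 := by
    ext w
    rw [mapDomain_apply_eq r DQ D.support (fun P hP => by
      rw [Finsupp.mem_support_iff] at hP ⊢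
      intro h
      apply hP
      rcases eq_or_ne (r P) Q with h' | h'
      · rw [hDQ1 P h', h]
      · exact hDQ2 P h') w]
    rcases eq_or_ne w Q with hw | hw
    · have h1 : Finsupp.mapDomain r D w = 0 := by rw [hD]; rfl
      rw [mapDomain_apply_eq r D D.support (Finset.Subset.refl _) w] at h1
      rw [Finsupp.zero_apply]
      refine Eq.trans (Finset.sum_congr rfl fun P _ => ?_) h1
      split_ifs with hP
      · exact hDQ1 P (hP.trans hw)
      · rfl
    · rw [Finsupp.zero_apply]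
      refine Finset.sum_eq_zero fun P _ => ?_
      split_ifs with hP
      · exact hDQ2 P (by rw [hP]; exact hw)
      · rfl
  set n : ℤ := max 0 (c + Divisor.degree DQ) with hn
  have hn0 : 0 ≤ n := le_max_left _ _
  have hdeg : c ≤ Divisor.degree (Finsupp.single X n - DQ) := by
    rw [map_sub, Divisor.degree_single, hdF]
    have : c + Divisor.degree DQ ≤ n := le_max_right _ _
    push_cast
    omega
  have hone : (1 : E) ∈ riemannRochSpace (Finsupp.mapDomain r (Finsupp.single X n - DQ)) := by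
    rw [one_mem_L, Finsupp.le_def]
    intro w
    rw [mapDomain_sub_apply, hmap, Finsupp.mapDomain_single, Finsupp.single_apply]
    split_ifs
    · simpa using hn0
    · simp
  obtain ⟨v, hv, hv1⟩ := exists_lift hF hE hdF hdE hr hdeg hone
  have hv0 : R.ρ v ≠ 0 := by rw [hv1]; exact one_ne_zero
  refine ⟨v, hv1, ?_⟩
  refine ord_eq_of_le hr hv0 D Q (fun P hP => ?_) ?_
  · rw [mem_L (R.ne_zero_of_ρ_ne_zero hv0)] at hv
    have h1 := hv P
    rw [Finsupp.sub_apply, Finsupp.single_apply, if_neg (by rintro rfl; exact hX hP),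
      hDQ1 P hP] at h1
    omega
  · rw [hD, hv1, Q.ord_one]
    rfl

/-! ### Lifting modulo a constant -/

theorem exists_dvd_sub_of_local {N : Divisor K F} (hN : c ≤ Divisor.degree N) (μ : R.A)
    (hμ0 : μ ≠ 0) (δ : R.B)
    (hloc : ∀ Q : Place k E, ∃ η : R.B, (∀ P, r P = Q → P.adicValuation (η : F) ≤ exp (N P)) ∧
      R.const μ ∣ δ - η) :
    ∃ η : R.B, (η : F) ∈ riemannRochSpace N ∧ R.const μ ∣ δ - η := by
  classical
  set V := riemannRochSpace N with hV
  by_cases hδV : (δ : F) ∈ V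
  · exact ⟨δ, hδV, by simp⟩
  obtain ⟨hVfin, -⟩ := hF N hN
  have := hVfin
  obtain ⟨n, b, hbV, hb⟩ := R.exists_basis V hVfin
  set W : Submodule K F := V ⊔ Submodule.span K {(δ : F)} with hW
  have hWfin : FiniteDimensional K W := by infer_instance
  -- an element of `W` with reduction outside `red V`
  have hlt : Module.finrank K V < Module.finrank K W := by
    apply Submodule.finrank_lt_finrank_of_lt
    refine lt_of_le_of_ne le_sup_left ?_
    intro h
    apply hδV
    rw [h]
    exact Submodule.mem_sup_right (Submodule.mem_span_singleton_self _)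
  obtain ⟨hf1, hf2⟩ := R.finrank_red V
  obtain ⟨hf3, hf4⟩ := R.finrank_red W
  have := hf1
  have := hf3
  have hnle : ¬ R.red W ≤ R.red V := by
    intro hle
    have := Submodule.finrank_mono hle
    omega
  obtain ⟨e, ⟨δ₂, hδ₂, rfl⟩, he⟩ := SetLike.not_le_iff_exists.mp hnle
  obtain ⟨v, hv, z, hz, hvz⟩ := Submodule.mem_sup.1 hδ₂
  obtain ⟨α, rfl⟩ := Submodule.mem_span_singleton.1 hz
  have hα : α ≠ 0 := by
    rintro rfl
    apply he
    refine ⟨δ₂, ?_, rfl⟩
    rw [← hvz, zero_smul, add_zero]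
    exact hv
  rw [← hbV] at hv
  obtain ⟨d, hd⟩ := (Submodule.mem_span_range_iff_exists_fun K).mp hv
  have hredV : R.red V = Submodule.span k (Set.range fun i => R.ρ (b i)) := R.red_eq_span hb hbV
  have hb' : LinearIndependent k fun i => R.ρ ((Fin.cons δ₂ b : Fin (n + 1) → R.B) i) := by
    have h1 : (fun i => R.ρ ((Fin.cons δ₂ b : Fin (n + 1) → R.B) i)) =
        (Fin.cons (R.ρ δ₂) fun i => R.ρ (b i) : Fin (n + 1) → E) := by
      ext i
      refine Fin.cases ?_ (fun i => ?_) i <;> simp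
    rw [h1, linearIndependent_finCons]
    exact ⟨hb, by rwa [← hredV]⟩
  -- coefficients of `δ`
  set cc : Fin (n + 1) → K := Fin.cons α⁻¹ fun i => -(α⁻¹ * d i) with hcc
  have hδ : (∑ i, cc i • (((Fin.cons δ₂ b : Fin (n + 1) → R.B) i : R.B) : F)) = (δ : F) := by
    rw [Fin.sum_univ_succ]
    simp only [hcc, Fin.cons_zero, Fin.cons_succ, neg_smul, mul_smul, Finset.sum_neg_distrib,
      ← Finset.smul_sum]
    rw [hd, ← hvz, smul_add, smul_smul, inv_mul_cancel₀ hα, one_smul]
    abel
  have hccA : ∀ i, cc i ∈ R.A := R.coeff_mem hb' (by rw [hδ]; exact δ.2)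
  set a : R.A := ⟨cc 0, hccA 0⟩ with ha
  set η : R.B := ∑ i : Fin n, R.const ⟨cc i.succ, hccA _⟩ * b i with hη
  have hηV : (η : F) ∈ V := by
    rw [hη, ← hbV]
    rw [show ((∑ i : Fin n, R.const ⟨cc i.succ, hccA _⟩ * b i : R.B) : F) =
      ∑ i : Fin n, ((R.const ⟨cc i.succ, hccA _⟩ * b i : R.B) : F) from map_sum R.B.subtype _ _]
    refine Submodule.sum_mem _ fun i _ => ?_
    rw [Subring.coe_mul, ReductionData.coe_const, ← Algebra.smul_def]
    exact Submodule.smul_mem _ _ (Submodule.subset_span ⟨i, rfl⟩)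
  have hδη : δ - η = R.const a * δ₂ := by
    rw [sub_eq_iff_eq_add]
    apply Subtype.ext
    rw [← hδ, Fin.sum_univ_succ, Subring.coe_add, hη]
    congr 1
    · rw [Subring.coe_mul, ReductionData.coe_const, ← Algebra.smul_def]
      rfl
    · rw [show ((∑ i : Fin n, R.const ⟨cc i.succ, hccA _⟩ * b i : R.B) : F) =
        ∑ i : Fin n, ((R.const ⟨cc i.succ, hccA _⟩ * b i : R.B) : F) from
          map_sum R.B.subtype _ _]
      refine Finset.sum_congr rfl fun i _ => ?_
      rw [Subring.coe_mul, ReductionData.coe_const, ← Algebra.smul_def]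
      rfl
  refine ⟨η, hηV, ?_⟩
  rcases ValuationRing.dvd_total μ a with hdvd | hdvd
  · rw [hδη]
    obtain ⟨κ, hκ⟩ := hdvd
    rw [hκ, const_mul, mul_assoc]
    exact dvd_mul_right _ _
  obtain ⟨κ, hκ⟩ := hdvd
  by_cases hκu : IsUnit κ
  · rw [hδη]
    obtain ⟨κ, rfl⟩ := hκu
    have : a = μ * ((κ⁻¹ : R.Aˣ) : R.A) := by
      rw [hκ, mul_assoc, Units.mul_inv, mul_one]
    rw [this, const_mul, mul_assoc]
    exact dvd_mul_right _ _
  exfalso
  have ha0 : a ≠ 0 := by
    rintro h
    rw [h, zero_mul] at hκ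
    exact hμ0 hκ
  have ha0' : algebraMap K F (a : K) ≠ 0 := by
    rw [Ne, map_eq_zero]
    exact fun h => ha0 (Subtype.ext h)
  apply he
  rw [hV, red_eq hF hE hdF hdE hr hN]
  have hρδ₂ : R.ρ δ₂ ≠ 0 := fun h => he (by rw [h]; exact Submodule.zero_mem _)
  rw [mem_L hρδ₂]
  intro Q
  obtain ⟨ηQ, hηQ, β, hβ⟩ := hloc Q
  set x : R.B := δ₂ - R.const κ * β with hx
  have hρx : R.ρ x = R.ρ δ₂ := by
    rw [hx, map_sub, map_mul, R.ρ_const, (R.π_eq_zero κ).2 hκu, map_zero, zero_mul, sub_zero]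
  have hx0 : R.ρ x ≠ 0 := by rwa [hρx]
  have hxF : (x : F) ≠ 0 := R.ne_zero_of_ρ_ne_zero hx0
  have hax : R.const a * x = ηQ - η := by
    rw [hx, mul_sub, ← hδη, ← mul_assoc, ← const_mul, ← hκ, ← hβ]
    ring
  have h1 := le_ord_ρ hr hx0 (-N) Q (fun P hP => by
    have h2 : P.adicValuation (((R.const a * x : R.B)) : F) ≤ exp (N P) := by
      rw [hax, AddSubgroupClass.coe_sub]
      exact (Valuation.map_sub _ _ _).trans (max_le (hηQ P hP) (hηV P))
    rw [P.adicValuation_le_exp_iff, Subring.coe_mul, ReductionData.coe_const,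
      P.ord_mul ha0' hxF, H40.ord_algebraMap, zero_add] at h2
    rcases h2 with h2 | h2
    · exact absurd h2 (mul_ne_zero ha0' hxF)
    · exact h2)
  rw [hρx] at h1
  have h8 : Finsupp.mapDomain r (-N) Q = - Finsupp.mapDomain r N Q := by
    have := mapDomain_sub_apply (r := r) 0 N Q
    rw [zero_sub] at this
    rw [this]
    simp
  rwa [h8] at h1

/-! ### Local roots -/

omit [HasPrincipalDivisors K F] hF hE hdF hdE hr in
/-- The semilocal ring above `Q`. -/
theorem exists_subring (Q : Place k E) : ∃ O : Subring R.B, ∀ x : R.B,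
    x ∈ O ↔ ∀ P, r P = Q → (x : F) ∈ P.toValuationSubring :=
  ⟨{ carrier := {x : R.B | ∀ P, r P = Q → (x : F) ∈ P.toValuationSubring}
     mul_mem' := fun {a b} ha hb P hP => by
       rw [Subring.coe_mul]; exact mul_mem (ha P hP) (hb P hP)
     one_mem' := fun P _ => by rw [Subring.coe_one]; exact one_mem _
     add_mem' := fun {a b} ha hb P hP => by
       rw [Subring.coe_add]; exact add_mem (ha P hP) (hb P hP)
     zero_mem' := fun P _ => by rw [Subring.coe_zero]; exact zero_mem _
     neg_mem' := fun {a} ha P hP => by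
       rw [NegMemClass.coe_neg]; exact neg_mem (ha P hP) }, fun x => Iff.rfl⟩

omit [HasPrincipalDivisors K F] hF hE hdF hdE hr in
theorem exists_local_root (hA : ∀ a b : R.A, a ≠ 0 → ¬ IsUnit b → ∃ n : ℕ, a ∣ b ^ n)
    {m : ℕ} (hm : (m : k) ≠ 0) (Q : Place k E) (u : R.B) (hu : R.ρ u = 1)
    (huQ : ∀ P, r P = Q → (u : F) ∈ P.toValuationSubring) (l : R.A) (hl : l ≠ 0) :
    ∃ t : R.B, R.ρ t = 1 ∧ (∀ P, r P = Q → (t : F) ∈ P.toValuationSubring) ∧
      R.const l ∣ t ^ m - u := by
  obtain ⟨O, hO⟩ := exists_subring (R := R) (r := r) Q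
  obtain ⟨μ, hμ, hμu⟩ := exists_dvd_of_ρ_eq_zero R (x := u - 1) (by rw [map_sub, hu, map_one,
    sub_self])
  rcases eq_or_ne μ 0 with h0 | hμ0
  · have h1 : u = 1 := by
      obtain ⟨b, hb⟩ := hμu
      have : R.const μ = 0 := by rw [h0]; exact Subtype.ext (by simp)
      rw [this, zero_mul] at hb
      exact sub_eq_zero.1 hb
    refine ⟨1, map_one _, fun P _ => by rw [Subring.coe_one]; exact one_mem _, ?_⟩
    rw [h1, one_pow, sub_self]
    exact dvd_zero _
  have hμF : algebraMap K F (μ : K) ≠ 0 := by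
    rw [Ne, map_eq_zero]
    exact fun h => hμ0 (Subtype.ext h)
  -- constants are in `O`
  have hconst : ∀ a : R.A, R.const a ∈ O := fun a => (hO _).2 fun P _ => P.algebraMap_mem' _
  have huO : u ∈ O := (hO u).2 huQ
  have hmO : IsUnit (m : O) := by
    have h1 : R.π (m : R.A) ≠ 0 := by rwa [map_natCast]
    obtain ⟨w, hw⟩ := (isUnit_of_π_ne_zero R h1).exists_right_inv
    refine IsUnit.of_mul_eq_one ⟨R.const w, hconst w⟩ ?_
    apply Subtype.ext
    have h2 : R.const (m : R.A) = (m : R.B) := Subtype.ext (by simp)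
    rw [Subring.coe_mul, Subring.coe_natCast, Subring.coe_one, ← h2, ← const_mul, hw, const_one]
  have hdvd : (⟨R.const μ, hconst μ⟩ : O) ∣ (⟨u, huO⟩ : O) - 1 := by
    obtain ⟨b, hb⟩ := hμu
    have hbO : b ∈ O := (hO b).2 fun P hP => by
      have h1 : (b : F) = algebraMap K F (μ : K)⁻¹ * ((u : F) - 1) := by
        have := congrArg (Subtype.val) hb
        rw [Subring.coe_mul, ReductionData.coe_const, AddSubgroupClass.coe_sub,
          Subring.coe_one] at this
        rw [this, ← mul_assoc, ← map_mul, inv_mul_cancel₀ (fun h => hμ0 (Subtype.ext h)),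
          map_one, one_mul]
      rw [h1]
      exact mul_mem (P.algebraMap_mem' _) (sub_mem (huQ P hP) (one_mem _))
    exact ⟨⟨b, hbO⟩, Subtype.ext hb⟩
  obtain ⟨s, hs⟩ := hA l μ hl hμ
  obtain ⟨t, ht1, ht⟩ := newton (⟨R.const μ, hconst μ⟩ : O) ⟨u, huO⟩ m hmO hdvd s
  have ht1' : R.const μ ∣ (t : R.B) - 1 := by
    obtain ⟨z, hz⟩ := ht1
    exact ⟨z, by simpa using congrArg (Subtype.val) hz⟩
  have ht' : R.const μ ^ (s + 1) ∣ (t : R.B) ^ m - u := by
    obtain ⟨z, hz⟩ := ht
    exact ⟨z, by simpa using congrArg (Subtype.val) hz⟩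
  refine ⟨t, ?_, (hO _).1 t.2, ?_⟩
  · have h1 := ρ_eq_zero_of_dvd R hμ ht1'
    rwa [map_sub, map_one, sub_eq_zero] at h1
  · refine dvd_trans ?_ ht'
    have h1 : R.const μ ^ s = R.const (μ ^ s) := Subtype.ext (by simp)
    rw [pow_succ, h1]
    obtain ⟨z, hz⟩ := hs
    rw [hz, const_mul, mul_assoc]
    exact dvd_mul_right _ _

theorem exists_local_approx [HasPrincipalDivisors k E]
    (hA : ∀ a b : R.A, a ≠ 0 → ¬ IsUnit b → ∃ n : ℕ, a ∣ b ^ n)
    {m : ℕ} (hm : (m : k) ≠ 0) (f : R.B) (hf : R.ρ f = 1) (D : Divisor K F)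
    (hfD : ∀ P : Place K F, P.ord (f : F) = m * D P) (hD : Finsupp.mapDomain r D = 0)
    (Q : Place k E) (l : R.A) (hl : l ≠ 0) :
    ∃ z : R.B, R.ρ z = 1 ∧ (∀ P, r P = Q → P.adicValuation (z : F) ≤ exp (-D P)) ∧
      R.const l ∣ z ^ m - f := by
  obtain ⟨v, hv1, hv⟩ := exists_local_eq hF hE hdF hdE hr D hD Q
  have hv0 : R.ρ v ≠ 0 := by rw [hv1]; exact one_ne_zero
  have hf0 : R.ρ f ≠ 0 := by rw [hf]; exact one_ne_zero
  have hvF := R.ne_zero_of_ρ_ne_zero hv0
  have hfF := R.ne_zero_of_ρ_ne_zero hf0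
  obtain ⟨w, hw⟩ := (isUnit_of_ρ_ne_zero R hv0).exists_right_inv
  have hwF : (v : F) * (w : F) = 1 := by
    have := congrArg (Subtype.val) hw
    simpa using this
  have hwF0 : (w : F) ≠ 0 := right_ne_zero_of_mul_eq_one hwF
  have hρw : R.ρ w = 1 := by
    have := congrArg R.ρ hw
    rwa [map_mul, hv1, one_mul, map_one] at this
  have hwinv : (w : F) = (v : F)⁻¹ := eq_inv_of_mul_eq_one_right hwF
  have hu : ∀ P, r P = Q → ((f * w ^ m : R.B) : F) ∈ P.toValuationSubring := fun P hP => by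
    apply H94.mem_of_ord_nonneg
    rw [Subring.coe_mul, Subring.coe_pow, P.ord_mul hfF (pow_ne_zero _ hwF0)]
    have h1 : P.ord ((w : F) ^ m) = m * P.ord (w : F) := by
      have := P.ord_zpow (w : F) m
      rwa [zpow_natCast] at this
    rw [h1, hwinv, P.ord_inv, hv P hP, hfD]
    simp
  obtain ⟨t, ht1, htQ, ht⟩ := exists_local_root hA hm Q (f * w ^ m)
    (by rw [map_mul, map_pow, hf, hρw]; simp) hu l hl
  have ht0 : R.ρ t ≠ 0 := by rw [ht1]; exact one_ne_zero
  have htF := R.ne_zero_of_ρ_ne_zero ht0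
  refine ⟨v * t, by rw [map_mul, hv1, ht1, one_mul], fun P hP => ?_, ?_⟩
  · rw [P.adicValuation_le_exp_iff, neg_neg, Subring.coe_mul, P.ord_mul hvF htF, hv P hP]
    right
    have := H94.ord_nonneg_of_mem P (htQ P hP)
    omega
  · have h1 : (v * t) ^ m - f = v ^ m * (t ^ m - f * w ^ m) := by
      have h2 : v ^ m * (f * w ^ m) = f := by
        rw [mul_left_comm, ← mul_pow, hw, one_pow, mul_one]
      rw [mul_sub, h2, mul_pow]
    rw [h1]
    exact Dvd.dvd.mul_left ht _

/-! ### Global approximations -/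

theorem exists_approx [HasPrincipalDivisors k E]
    (hA : ∀ a b : R.A, a ≠ 0 → ¬ IsUnit b → ∃ n : ℕ, a ∣ b ^ n)
    {m : ℕ} (hm : (m : k) ≠ 0) (f : R.B) (hf : R.ρ f = 1) (D : Divisor K F)
    (hfD : ∀ P : Place K F, P.ord (f : F) = m * D P) (hD : Finsupp.mapDomain r D = 0)
    {N : Divisor K F} (hN : c ≤ Divisor.degree N) (hN0 : 0 ≤ N) (hDN : ∀ P, -D P ≤ N P)
    (μ : R.A) (hμ0 : μ ≠ 0) (hμ : ¬ IsUnit μ) (hfμ : R.const μ ∣ f - 1) (s : ℕ) :
    ∃ y : R.B, (y : F) ∈ riemannRochSpace N ∧ R.const μ ∣ y - 1 ∧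
      R.const μ ^ (s + 1) ∣ y ^ m - f := by
  induction s with
  | zero =>
    refine ⟨1, ?_, by simp, ?_⟩
    · rw [Subring.coe_one]; exact one_mem_L.2 hN0
    · rw [one_pow, zero_add, pow_one, ← neg_sub]
      exact (dvd_neg).2 hfμ
  | succ s ih =>
    obtain ⟨y, hyN, hy1, δ, hδ⟩ := ih
    -- a constant inverse of `m`
    have hπm : R.π (m : R.A) ≠ 0 := by rwa [map_natCast]
    obtain ⟨w, hw⟩ := (isUnit_of_π_ne_zero R hπm).exists_right_inv
    have hwB : (m : R.B) * R.const w = 1 := by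
      have h2 : R.const (m : R.A) = (m : R.B) := Subtype.ext (by simp)
      rw [← h2, ← const_mul, hw, const_one]
    have hρy : R.ρ y = 1 := by
      have h1 := ρ_eq_zero_of_dvd R hμ hy1
      rwa [map_sub, map_one, sub_eq_zero] at h1
    have hμF : algebraMap K F (μ : K) ≠ 0 := by
      rw [Ne, map_eq_zero]
      exact fun h => hμ0 (Subtype.ext h)
    have hμB : R.const μ ≠ 0 := fun h => hμF (by simpa using congrArg (Subtype.val) h)
    -- local conditions
    have hloc : ∀ Q : Place k E, ∃ η : R.B,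
        (∀ P, r P = Q → P.adicValuation (η : F) ≤ exp (N P)) ∧ R.const μ ∣ δ - η := by
      intro Q
      obtain ⟨z, hρz, hzQ, β, hβ⟩ := exists_local_approx hF hE hdF hdE hr hA hm f hf D hfD hD Q
        (μ ^ (s + 2)) (pow_ne_zero _ hμ0)
      have hcp : ∀ n : ℕ, R.const (μ ^ n) = R.const μ ^ n := fun n => Subtype.ext (by simp)
      set S : R.B := ∑ i ∈ Finset.range m, y ^ i * z ^ (m - 1 - i) with hS
      have hSmul : S * (y - z) = y ^ m - z ^ m := (Commute.all y z).geom_sum₂_mul m
      have hρS : R.ρ S ≠ 0 := by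
        rw [hS, map_sum]
        simp only [map_mul, map_pow, hρy, hρz, one_pow, mul_one, Finset.sum_const,
          Finset.card_range, nsmul_eq_mul]
        rw [← map_natCast (algebraMap k E)]
        exact fun h => hm ((map_eq_zero _).1 h)
      obtain ⟨S', hS'⟩ := (isUnit_of_ρ_ne_zero R hρS).exists_right_inv
      set η₀ : R.B := (δ - R.const μ * β) * S' with hη₀
      have hyz : y - z = R.const μ ^ (s + 1) * η₀ := by
        have h1 : y ^ m - z ^ m = R.const μ ^ (s + 1) * (δ - R.const μ * β) := by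
          have h2 : y ^ m - z ^ m = (y ^ m - f) - (z ^ m - f) := by ring
          rw [h2, hδ, hβ, hcp]
          ring
        calc y - z = (y - z) * (S * S') := by rw [hS', mul_one]
          _ = (S * (y - z)) * S' := by ring
          _ = R.const μ ^ (s + 1) * η₀ := by rw [hSmul, h1, hη₀]; ring
      have hz1 : R.const μ ∣ z - 1 := by
        have h1 : z - 1 = (y - 1) - R.const μ ^ (s + 1) * η₀ := by rw [← hyz]; ring
        rw [h1]
        exact dvd_sub hy1 (Dvd.dvd.mul_right (dvd_pow_self _ (Nat.succ_ne_zero s)) _)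
      have hSm : R.const μ ∣ S - m := by
        have key : ∀ x : R.B, R.const μ ∣ x - 1 ↔
            Ideal.Quotient.mk (Ideal.span {R.const μ}) x = 1 := fun x => by
          rw [← Ideal.mem_span_singleton, ← Ideal.Quotient.eq_zero_iff_mem, map_sub, map_one,
            sub_eq_zero]
        rw [key] at hy1 hz1
        rw [← Ideal.mem_span_singleton, ← Ideal.Quotient.eq_zero_iff_mem, map_sub, hS, map_sum]
        simp only [map_mul, map_pow, hy1, hz1, one_pow, mul_one, Finset.sum_const,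
          Finset.card_range, nsmul_eq_mul, map_natCast, sub_self]
      refine ⟨(m : R.B) * η₀, fun P hP => ?_, ?_⟩
      · have h1 : P.adicValuation ((y : F) - (z : F)) ≤ exp (N P) := by
          refine (Valuation.map_sub _ _ _).trans (max_le (hyN P) ((hzQ P hP).trans ?_))
          rw [exp_le_exp]
          exact hDN P
        have h2 : (y : F) - (z : F) = algebraMap K F (μ : K) ^ (s + 1) * (η₀ : F) := by
          have := congrArg (Subtype.val) hyz
          simpa using this
        have h3 : P.adicValuation (algebraMap K F (μ : K)) = 1 := by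
          rw [P.adicValuation_eq_exp_neg_ord hμF, H40.ord_algebraMap]
          simp
        rw [h2, map_mul, map_pow, h3, one_pow, one_mul] at h1
        rw [Subring.coe_mul, Subring.coe_natCast, map_mul]
        have h4 : P.adicValuation (m : F) ≤ 1 := by
          have := P.adicValuation_algebraMap_le_one (m : K)
          rwa [map_natCast] at this
        exact (mul_le_of_le_one_left' h4).trans h1
      · have h1 : δ = S * η₀ + R.const μ * β := by
          rw [hη₀]
          linear_combination (-(δ - R.const μ * β)) * hS'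
        have h2 : δ - (m : R.B) * η₀ = (S - m) * η₀ + R.const μ * β := by
          linear_combination h1
        rw [h2]
        exact dvd_add (Dvd.dvd.mul_right hSm _) (dvd_mul_right _ _)
    obtain ⟨η, hηN, hη⟩ := exists_dvd_sub_of_local hF hE hdF hdE hr hN μ hμ0 δ hloc
    refine ⟨y - R.const μ ^ (s + 1) * (R.const w * η), ?_, ?_, ?_⟩
    · have h1 : ((y - R.const μ ^ (s + 1) * (R.const w * η) : R.B) : F) =
          (y : F) - ((μ : K) ^ (s + 1) * w) • (η : F) := by
        simp [Algebra.smul_def, mul_assoc]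
      rw [h1]
      exact Submodule.sub_mem _ hyN (Submodule.smul_mem _ _ hηN)
    · have h1 : y - R.const μ ^ (s + 1) * (R.const w * η) - 1 =
          (y - 1) - R.const μ ^ (s + 1) * (R.const w * η) := by ring
      rw [h1]
      exact dvd_sub hy1 (Dvd.dvd.mul_right (dvd_pow_self _ (Nat.succ_ne_zero s)) _)
    · obtain ⟨q, hq⟩ := Polynomial.powAddExpansion y
        (-(R.const μ ^ (s + 1) * (R.const w * η))) m
      rw [← sub_eq_add_neg] at hq
      have h1 : (y - R.const μ ^ (s + 1) * (R.const w * η)) ^ m - f =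
          R.const μ ^ (s + 1) * ((δ - η) + η * (1 - y ^ (m - 1))) +
            R.const μ ^ (s + 1) * R.const μ ^ (s + 1) * (q * (R.const w * η) ^ 2) := by
        rw [hq]
        linear_combination hδ - (y ^ (m - 1) * R.const μ ^ (s + 1) * η) * hwB
      rw [h1]
      have h2 : R.const μ ∣ 1 - y ^ (m - 1) := by
        have h2 : y - 1 ∣ y ^ (m - 1) - 1 := by
          simpa using sub_dvd_pow_sub_pow y 1 (m - 1)
        rw [← neg_sub]
        exact (dvd_neg).2 (hy1.trans h2)
      refine dvd_add ?_ ?_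
      · rw [pow_succ (R.const μ) (s + 1)]
        exact mul_dvd_mul_left _ (dvd_add hη (Dvd.dvd.mul_left h2 _))
      · rw [pow_succ (R.const μ) (s + 1)]
        refine Dvd.dvd.mul_right (mul_dvd_mul_left _ (dvd_pow_self _ (Nat.succ_ne_zero s))) _

end Places

/-! ### From approximate roots to roots -/

section Roots

variable (R : ReductionData K F k E)

theorem exists_denominator (T : Finset K) : ∃ l : R.A, l ≠ 0 ∧ ∀ t ∈ T, (l : K) * t ∈ R.A := by
  classical
  induction T using Finset.induction with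
  | empty => exact ⟨1, one_ne_zero, by simp⟩
  | insert a T _ ih =>
    obtain ⟨l, hl, h⟩ := ih
    rcases R.A.mem_or_inv_mem a with ha | ha
    · refine ⟨l, hl, fun t ht => ?_⟩
      rcases Finset.mem_insert.1 ht with rfl | ht
      · exact mul_mem l.2 ha
      · exact h t ht
    · rcases eq_or_ne a 0 with rfl | ha0
      · refine ⟨l, hl, fun t ht => ?_⟩
        rcases Finset.mem_insert.1 ht with rfl | ht
        · rw [mul_zero]; exact zero_mem _
        · exact h t ht
      · refine ⟨⟨a⁻¹, ha⟩ * l, mul_ne_zero (fun h0 => inv_ne_zero ha0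
          (congrArg (Subtype.val) h0)) hl, fun t ht => ?_⟩
        rcases Finset.mem_insert.1 ht with rfl | ht
        · have : (((⟨t⁻¹, ha⟩ : R.A) * l : R.A) : K) * t = l := by
            rw [MulMemClass.coe_mul]
            field_simp
          rw [this]
          exact l.2
        · rw [MulMemClass.coe_mul, mul_assoc]
          exact mul_mem ha (h t ht)

open Classical in
/-- If the equation `y ^ m = f` has arbitrarily good approximate solutions in the finite
dimensional space `V`, it has a solution. -/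
theorem exists_root_of_approx [IsAlgClosed K] (V : Submodule K F) [FiniteDimensional K V]
    (f : R.B) (m : ℕ) (μ : R.A) (hμ0 : μ ≠ 0) (hμ : ¬ IsUnit μ)
    (happ : ∀ l : R.A, l ≠ 0 → ∃ y : R.B, (y : F) ∈ V ∧ R.const l ∣ y ^ m - f) :
    ∃ y : F, y ∈ V ∧ y ^ m = f := by
  obtain ⟨n, b, hbV, hb⟩ := R.exists_basis V inferInstance
  set G : MvPolynomial (Fin n) F :=
    (∑ i, MvPolynomial.C (b i : F) * MvPolynomial.X i) ^ m - MvPolynomial.C (f : F) with hG
  have hGeval : ∀ x : Fin n → K, MvPolynomial.eval (fun i => algebraMap K F (x i)) G =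
      (∑ i, x i • (b i : F)) ^ m - (f : F) := by
    intro x
    rw [hG]
    simp only [map_sub, map_pow, map_sum, map_mul, MvPolynomial.eval_C, MvPolynomial.eval_X]
    congr 2
    exact Finset.sum_congr rfl fun i _ => by rw [Algebra.smul_def, mul_comm]
  set U : Submodule K F := Submodule.span K ((G.support.image fun α => G.coeff α : Finset F) :
    Set F) with hU
  have hUfin : FiniteDimensional K U := FiniteDimensional.span_finset K _
  obtain ⟨n', w, hwU, hw⟩ := R.exists_basis U hUfin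
  have hwK : LinearIndependent K fun i => (w i : F) := R.linearIndependent_lift hw
  -- coordinate functionals
  have hφ : ∃ φ : Fin n' → (F →ₗ[K] K), ∀ u ∈ U, u = ∑ j, φ j u • (w j : F) := by
    have h1 : ∀ j, ∃ φ : F →ₗ[K] K, ∀ i, φ (w i : F) = if i = j then 1 else 0 := by
      intro j
      let ψ : (Submodule.span K (Set.range fun i => (w i : F))) →ₗ[K] K :=
        (Finsupp.lapply j).comp (hwK.repr : _ →ₗ[K] (Fin n' →₀ K))
      obtain ⟨φ, hφ⟩ := LinearMap.exists_extend ψ
      refine ⟨φ, fun i => ?_⟩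
      have h2 : (⟨(w i : F), Submodule.subset_span ⟨i, rfl⟩⟩ :
          Submodule.span K (Set.range fun i => (w i : F))) ∈ (⊤ : Submodule K _) := trivial
      have h3 := LinearMap.congr_fun hφ ⟨(w i : F), Submodule.subset_span ⟨i, rfl⟩⟩
      rw [LinearMap.comp_apply, Submodule.subtype_apply] at h3
      rw [h3]
      simp only [ψ, LinearMap.comp_apply, Finsupp.lapply_apply]
      rw [show hwK.repr ⟨(w i : F), Submodule.subset_span ⟨i, rfl⟩⟩ = Finsupp.single i 1 from
        hwK.repr_eq_single i _ rfl, Finsupp.single_apply]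
    choose φ hφ using h1
    refine ⟨φ, fun u hu => ?_⟩
    rw [← hwU] at hu
    obtain ⟨d, rfl⟩ := (Submodule.mem_span_range_iff_exists_fun K).mp hu
    refine Finset.sum_congr rfl fun j _ => ?_
    congr 1
    rw [map_sum]
    simp only [map_smul, hφ, smul_eq_mul, mul_ite, mul_one, mul_zero]
    simp
  obtain ⟨φ, hφ⟩ := hφ
  set g : Fin n' → MvPolynomial (Fin n) K := fun j =>
    ∑ α ∈ G.support, MvPolynomial.monomial α (φ j (G.coeff α)) with hg
  have hgeval : ∀ (j : Fin n') (x : Fin n → K), MvPolynomial.eval x (g j) =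
      φ j ((∑ i, x i • (b i : F)) ^ m - (f : F)) := by
    intro j x
    rw [← hGeval, MvPolynomial.eval_eq' _ G, map_sum, map_sum]
    refine Finset.sum_congr rfl fun α _ => ?_
    rw [MvPolynomial.eval_monomial]
    have : G.coeff α * ∏ i, (fun i => algebraMap K F (x i)) i ^ α i =
        (∏ i, x i ^ α i) • G.coeff α := by
      rw [Algebra.smul_def, map_prod, mul_comm]
      simp
    rw [this, map_smul, smul_eq_mul, mul_comm]
    congr 1
    exact Finsupp.prod_fintype _ _ (by simp)
  have hGU : ∀ x : Fin n → K, (∑ i, x i • (b i : F)) ^ m - (f : F) ∈ U := by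
    intro x
    rw [← hGeval, MvPolynomial.eval_eq']
    refine Submodule.sum_mem _ fun α hα => ?_
    have : G.coeff α * ∏ i, (fun i => algebraMap K F (x i)) i ^ α i =
        (∏ i, x i ^ α i) • G.coeff α := by
      rw [Algebra.smul_def, map_prod, mul_comm]
      simp
    rw [this]
    refine Submodule.smul_mem _ _ (Submodule.subset_span ?_)
    rw [Finset.coe_image]
    exact ⟨α, hα, rfl⟩
  by_contra hcon
  push Not at hcon
  -- no common zero
  have hzero : MvPolynomial.zeroLocus K (Ideal.span (Set.range g)) = ∅ := by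
    rw [Set.eq_empty_iff_forall_notMem]
    intro x hx
    rw [MvPolynomial.mem_zeroLocus_iff] at hx
    apply hcon (∑ i, x i • (b i : F))
    · rw [← hbV]
      exact Submodule.sum_mem _ fun i _ => Submodule.smul_mem _ _ (Submodule.subset_span ⟨i, rfl⟩)
    · rw [← sub_eq_zero, hφ _ (hGU x)]
      refine Finset.sum_eq_zero fun j _ => ?_
      rw [← hgeval]
      have := hx (g j) (Ideal.subset_span ⟨j, rfl⟩)
      rw [MvPolynomial.aeval_eq_eval] at this
      rw [show MvPolynomial.eval x (g j) = 0 from this, zero_smul]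
  have htop : Ideal.span (Set.range g) = ⊤ := by
    have h1 := MvPolynomial.vanishingIdeal_zeroLocus_eq_radical (K := K)
      (Ideal.span (Set.range g))
    rw [hzero, MvPolynomial.vanishingIdeal_empty] at h1
    exact Ideal.radical_eq_top.1 h1.symm
  obtain ⟨h, hh⟩ := Ideal.mem_span_range_iff_exists_fun.1
    ((Ideal.eq_top_iff_one _).1 htop)
  obtain ⟨l, hl0, hl⟩ := exists_denominator R
    (Finset.univ.biUnion fun j => (h j).support.image fun α => (h j).coeff α)
  obtain ⟨y, hyV, β, hβ⟩ := happ (l * μ) (mul_ne_zero hl0 hμ0)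
  rw [← hbV] at hyV
  obtain ⟨x, hx⟩ := (Submodule.mem_span_range_iff_exists_fun K).mp hyV
  have hxA : ∀ i, x i ∈ R.A := R.coeff_mem hb (by rw [hx]; exact y.2)
  have hlμ : (l : K) * (μ : K) ≠ 0 := by
    have := mul_ne_zero hl0 hμ0
    exact fun h0 => this (Subtype.ext h0)
  have hGx : (∑ i, x i • (b i : F)) ^ m - (f : F) = ((l : K) * μ) • (β : F) := by
    rw [hx, Algebra.smul_def]
    have := congrArg (Subtype.val) hβ
    simpa using this
  -- the values of `g j` at `x` are divisible by `l * μ`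
  have hβU : (β : F) ∈ U := by
    have h1 := Submodule.smul_mem U ((l : K) * μ)⁻¹ (hGU x)
    rwa [hGx, smul_smul, inv_mul_cancel₀ hlμ, one_smul] at h1
  have hφβ : ∀ j, φ j (β : F) ∈ R.A := R.coeff_mem hw (by rw [← hφ _ hβU]; exact β.2)
  have hgx : ∀ j, MvPolynomial.eval x (g j) = ((l : K) * μ) * φ j (β : F) := by
    intro j
    rw [hgeval, hGx, map_smul, smul_eq_mul]
  have hhx : ∀ j, (l : K) * MvPolynomial.eval x (h j) ∈ R.A := by
    intro j
    rw [MvPolynomial.eval_eq', Finset.mul_sum]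
    refine sum_mem fun α hα => ?_
    rw [← mul_assoc]
    refine mul_mem (hl _ ?_) (prod_mem fun i _ => pow_mem (hxA i) _)
    rw [Finset.mem_biUnion]
    exact ⟨j, Finset.mem_univ _, Finset.mem_image_of_mem _ hα⟩
  have h1 : (l : K) = ((l : K) * μ) * ∑ j, ((l : K) * MvPolynomial.eval x (h j)) * φ j (β : F) := by
    have h2 := congrArg (MvPolynomial.eval x) hh
    rw [map_sum, map_one] at h2
    simp only [map_mul, hgx] at h2
    calc (l : K) = (l : K) * ∑ j, MvPolynomial.eval x (h j) * ((l : K) * μ * φ j (β : F)) := by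
          rw [h2, mul_one]
      _ = _ := by
          rw [Finset.mul_sum, Finset.mul_sum]
          exact Finset.sum_congr rfl fun j _ => by ring
  have hsumA : ∑ j, ((l : K) * MvPolynomial.eval x (h j)) * φ j (β : F) ∈ R.A :=
    sum_mem fun j _ => mul_mem (hhx j) (hφβ j)
  have hl0' : (l : K) ≠ 0 := fun h0 => hl0 (Subtype.ext h0)
  have h3 : (1 : K) = μ * ∑ j, ((l : K) * MvPolynomial.eval x (h j)) * φ j (β : F) := by
    have h4 := h1
    rw [mul_assoc] at h4
    conv_lhs at h4 => rw [← mul_one (l : K)]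
    exact mul_left_cancel₀ hl0' h4
  apply hμ
  exact IsUnit.of_mul_eq_one ⟨_, hsumA⟩ (Subtype.ext (by
    rw [MulMemClass.coe_mul, OneMemClass.coe_one]
    exact h3.symm))

end Roots

/-! ### Main theorem -/

section Main

variable {R : ReductionData K F k E} {r : Place K F → Place k E}
variable {g c : ℤ} [IsAlgClosed K] [HasPrincipalDivisors K F] [HasPrincipalDivisors k E]
  [Nonempty (Place K F)]
  (hF : RiemannFor K F g c) (hE : RiemannFor k E g c)
  (hdF : ∀ v : Place K F, v.deg = 1) (hdE : ∀ v : Place k E, v.deg = 1)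
  (hr : PlaceCompat R r)
  (hA : ∀ a b : R.A, a ≠ 0 → ¬ IsUnit b → ∃ n : ℕ, a ∣ b ^ n)

include hF hE hdF hdE hr hA

theorem exists_root {m : ℕ} (hm : (m : k) ≠ 0) (f : R.B) (hf : R.ρ f = 1) (D : Divisor K F)
    (hfD : ∀ P : Place K F, P.ord (f : F) = m * D P) (hD : Finsupp.mapDomain r D = 0) :
    ∃ y : F, y ^ m = f := by
  classical
  obtain ⟨P₀⟩ := ‹Nonempty (Place K F)›
  obtain ⟨μ, hμ, hfμ⟩ := exists_dvd_of_ρ_eq_zero R (x := f - 1) (by
    rw [map_sub, hf, map_one, sub_self])
  rcases eq_or_ne μ 0 with h0 | hμ0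
  · refine ⟨1, ?_⟩
    obtain ⟨b, hb⟩ := hfμ
    have : R.const μ = 0 := by rw [h0]; exact Subtype.ext (by simp)
    rw [this, zero_mul] at hb
    rw [sub_eq_zero.1 hb, one_pow, Subring.coe_one]
  set N₀ : Divisor K F := (-D) ⊔ 0 with hN₀
  set N : Divisor K F := N₀ + Finsupp.single P₀ (max 0 c) with hN
  have hN₀0 : 0 ≤ N₀ := le_sup_right
  have hN0 : 0 ≤ N := add_nonneg hN₀0 (by
    rw [Finsupp.le_def]
    intro v
    rw [Finsupp.single_apply]
    split_ifs
    · exact le_max_left _ _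
    · exact le_rfl)
  have hNdeg : c ≤ Divisor.degree N := by
    rw [hN, map_add, Divisor.degree_single, hdF]
    have h1 := H40.degree_nonneg hdF hN₀0
    have h2 := le_max_right 0 c
    push_cast
    omega
  have hDN : ∀ P, -D P ≤ N P := by
    intro P
    rw [hN, Finsupp.add_apply, hN₀, Finsupp.sup_apply, Finsupp.neg_apply, Finsupp.single_apply]
    have h1 : -D P ≤ -D P ⊔ (0 : Divisor K F) P := le_sup_left
    have h2 := le_max_left 0 c
    split_ifs <;> omega
  have := (hF N hNdeg).1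
  obtain ⟨y, -, hy⟩ := exists_root_of_approx R (riemannRochSpace N) f m μ hμ0 hμ (fun l hl => by
    obtain ⟨s, hs⟩ := hA l μ hl hμ
    obtain ⟨y, hyN, -, hy⟩ := exists_approx hF hE hdF hdE hr hA hm f hf D hfD hD hNdeg hN0 hDN
      μ hμ0 hμ hfμ s
    refine ⟨y, hyN, dvd_trans ?_ hy⟩
    have h1 : R.const μ ^ s = R.const (μ ^ s) := Subtype.ext (by simp)
    rw [pow_succ, h1]
    obtain ⟨z, hz⟩ := hs
    rw [hz, const_mul, mul_assoc]
    exact dvd_mul_right _ _)
  exact ⟨y, hy⟩

/-- **Torsion injectivity.** -/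
theorem isPrincipal_of_mapDomain
    (hconst : ∀ e : E, e ≠ 0 → (∀ Q : Place k E, Q.ord e = 0) → ∃ a : k, e = algebraMap k E a)
    {m : ℕ} (hm : (m : k) ≠ 0) (D : Divisor K F)
    (hmD : Divisor.IsPrincipal (m • D)) (hrD : Divisor.IsPrincipal (Finsupp.mapDomain r D)) :
    Divisor.IsPrincipal D := by
  classical
  have hm0 : (m : ℤ) ≠ 0 := by
    intro h
    apply hm
    have : m = 0 := by exact_mod_cast h
    rw [this, Nat.cast_zero]
  obtain ⟨f, hf0, hf⟩ := hmD
  obtain ⟨e, he0, he⟩ := hrD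
  obtain ⟨e', rfl⟩ := ρ_surjective R e
  have he'F := R.ne_zero_of_ρ_ne_zero he0
  obtain ⟨Δ, hΔ, -⟩ := H40.exists_div (K := K) he'F
  set D' : Divisor K F := D - Δ with hD'
  have hrD' : Finsupp.mapDomain r D' = 0 := by
    ext Q
    rw [hD', mapDomain_sub_apply, he, hr e' he0 Δ hΔ Q, sub_self]
    rfl
  have hf'0 : f * ((e' : F) ^ m)⁻¹ ≠ 0 := mul_ne_zero hf0 (inv_ne_zero (pow_ne_zero _ he'F))
  have hordpow : ∀ (P : Place K F) (z : F) (n : ℕ), P.ord (z ^ n) = n * P.ord z := fun P z n => by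
    have := P.ord_zpow z n
    rwa [zpow_natCast] at this
  have hf' : ∀ P : Place K F, P.ord (f * ((e' : F) ^ m)⁻¹) = m * D' P := by
    intro P
    rw [P.ord_mul hf0 (inv_ne_zero (pow_ne_zero _ he'F)), P.ord_inv, hordpow, ← hf P,
      Finsupp.smul_apply, nsmul_eq_mul, hD', Finsupp.sub_apply, hΔ]
    ring
  obtain ⟨c', hc', x, hx, hρx⟩ := exists_scale' R hf'0
  have hxF := R.ne_zero_of_ρ_ne_zero hρx
  have hcF : algebraMap K F c' ≠ 0 := by rwa [Ne, map_eq_zero]
  have hxord : ∀ P : Place K F, P.ord (x : F) = m * D' P := by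
    intro P
    have h1 := hf' P
    rwa [hx, P.ord_mul hcF hxF, H40.ord_algebraMap, zero_add] at h1
  have hρord : ∀ Q : Place k E, Q.ord (R.ρ x) = 0 := by
    intro Q
    rw [← hr x hρx (m • D') (fun P => by rw [hxord, Finsupp.smul_apply, nsmul_eq_mul]) Q]
    have h1 : Finsupp.mapDomain r (m • D') = m • Finsupp.mapDomain r D' := by
      rw [← Finsupp.mapDomain.addMonoidHom_apply, map_nsmul]
      rfl
    rw [h1, hrD', smul_zero]
    rfl
  obtain ⟨a', ha'⟩ := hconst _ hρx hρord
  have ha'0 : a' ≠ 0 := by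
    rintro rfl
    rw [map_zero] at ha'
    exact hρx ha'
  obtain ⟨a, rfl⟩ := R.π_surj a'
  obtain ⟨w, hw⟩ := (isUnit_of_π_ne_zero R ha'0).exists_right_inv
  have hw' : R.π a * R.π w = 1 := by rw [← map_mul, hw, map_one]
  have hwK : algebraMap K F (w : K) ≠ 0 := by
    rw [Ne, map_eq_zero]
    intro h
    have : w = 0 := Subtype.ext h
    rw [this, mul_zero] at hw
    exact zero_ne_one hw
  obtain ⟨y, hy⟩ := exists_root hF hE hdF hdE hr hA hm (x * R.const w) (by
    rw [map_mul, ha', R.ρ_const, ← map_mul, hw', map_one]) D' (fun P => by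
      rw [Subring.coe_mul, ReductionData.coe_const, P.ord_mul hxF hwK, H40.ord_algebraMap,
        add_zero, hxord]) hrD'
  have hy0 : y ≠ 0 := by
    rintro rfl
    rw [zero_pow (by rintro rfl; simp at hm0)] at hy
    have := mul_ne_zero hxF hwK
    exact this (by simpa using hy.symm)
  refine ⟨y * (e' : F), mul_ne_zero hy0 he'F, fun P => ?_⟩
  have h1 : (m : ℤ) * P.ord y = m * D' P := by
    rw [← hordpow, hy, Subring.coe_mul, ReductionData.coe_const, P.ord_mul hxF hwK,
      H40.ord_algebraMap, add_zero, hxord]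
  have h2 := mul_left_cancel₀ hm0 h1
  rw [P.ord_mul hy0 he'F, h2, hD', Finsupp.sub_apply, hΔ]
  ring

end Main

end Fermat.Agent.H18
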