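/-
H88: genus does not drop under reduction if the ramification is controlled.
-/
import Mathlib
import Fermat.Agent.H88Count

set_option autoImplicit false

open AlgebraicCurve WithZero IsLocalRing Polynomial IntermediateField Fermat.Agent.H3RR
  Fermat.Agent.H40

namespace Fermat.Agent.H88

section Vanish

variable {K F k E : Type*} [Field K] [Field F] [Algebra K F] [Field k] [Field E] [Algebra k E]
  [IsAlgClosed K] [IsAlgClosed k] [IsFF K F] [IsFF k E] (R : ReductionData K F k E)
variable [CharZero K]

/-- If all values of `f` above `b` reduce to zero, then `ρ f` vanishes above the reduction of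
`b`. -/
theorem vanish {x : R.B} (hx : Transcendental k (R.ρ x))
    (hdeg : Module.finrank K⟮(x : F)⟯ F = Module.finrank k⟮R.ρ x⟯ E) {m : ℕ} {f : R.B} (hf : (f : F) ∈ riemannRochSpace (m • (poleDiv (x : F) : Divisor K F)))
    {b : R.A} (hv : ∀ P : Place K F, P.adicValuation ((x : F) - algebraMap K F b) < 1 →
      ∃ a : R.A, R.π a = 0 ∧ P.adicValuation ((f : F) - algebraMap K F a) < 1)
    (Q : Place k E) (hQ : Q.adicValuation (R.ρ x - algebraMap k E (R.π b)) < 1) :
    Q.adicValuation (R.ρ f) < 1 := by
  classical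
  have : H94.FunField K F := funField_of_isFF
  have hxK := R.transcendental_of_ρ hx
  have hfd := IsFF.finiteDimensional hxK
  have hn : 0 < Module.finrank K⟮(x : F)⟯ F := Module.finrank_pos
  choose! a ha0 ha using hv
  obtain ⟨z, hzdef⟩ : ∃ z : R.B, z = x - R.const b := ⟨_, rfl⟩
  have hzF : (z : F) = (x : F) - algebraMap K F b := by rw [hzdef]; rfl
  have hρz : R.ρ z = R.ρ x - algebraMap k E (R.π b) := by rw [hzdef, map_sub, R.ρ_const]
  have hzt : Transcendental K (z : F) := by rw [hzF]; exact transcendental_sub_const hxK _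
  have hρzt : Transcendental k (R.ρ z) := by rw [hρz]; exact transcendental_sub_const hx _
  have hz0 := transcendental_ne_zero hzt
  have hρz0 := transcendental_ne_zero hρzt
  have hfin := finite_zeros hzt
  obtain ⟨S, hS⟩ : ∃ S : Finset (Place K F), ∀ P, P ∈ S ↔ P.adicValuation (z : F) < 1 :=
    ⟨hfin.toFinset, fun P => by simp⟩
  have hSne : 0 < S.card := by
    obtain ⟨P, hP⟩ := exists_place_lt_one hzt
    exact Finset.card_pos.mpr ⟨P, (hS P).mpr hP⟩
  obtain ⟨n, hndef⟩ : ∃ n, n = Module.finrank K⟮(x : F)⟯ F := ⟨_, rfl⟩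
  rw [← hndef] at hn
  obtain ⟨G, hG⟩ : ∃ G : R.B, G = ∏ P ∈ S, (f - R.const (a P)) ^ n := ⟨_, rfl⟩
  have hGF : (G : F) = ∏ P ∈ S, ((f : F) - algebraMap K F (a P)) ^ n := by
    rw [hG]
    show R.B.subtype _ = _
    rw [map_prod]
    rfl
  have hρG : R.ρ G = R.ρ f ^ (n * S.card) := by
    rw [hG, map_prod, pow_mul, Finset.prod_congr rfl, Finset.prod_const]
    intro P hP
    rw [map_pow, map_sub, R.ρ_const, ha0 P (by rw [← hzF]; exact (hS P).mp hP), map_zero, sub_zero]
  have hhB : (G : F) / (z : F) ∈ R.B := by
    apply mem_B_of_mul_mem R hρz0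
    rw [div_mul_cancel₀ _ hz0]
    exact G.2
  obtain ⟨h, hh⟩ : ∃ h : R.B, (h : F) = (G : F) / (z : F) := ⟨⟨_, hhB⟩, rfl⟩
  have hhz : h * z = G := by
    apply Subtype.ext
    show (h : F) * (z : F) = G
    rw [hh, div_mul_cancel₀ _ hz0]
  have hmem : (h : F) ∈ riemannRochSpace ((m * (n * S.card)) • (poleDiv (x : F) : Divisor K F)) := by
    intro v
    rw [hh, map_div₀]
    by_cases hvx : v.adicValuation (x : F) ≤ 1
    · have hfv : v.adicValuation (f : F) ≤ 1 := by
        have := hf v
        rwa [Finsupp.smul_apply, poleDiv_eq_zero_of_le_one (transcendental_ne_zero hxK) hvx,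
          smul_zero, exp_zero] at this
      rw [Finsupp.smul_apply, poleDiv_eq_zero_of_le_one (transcendental_ne_zero hxK) hvx,
          smul_zero, exp_zero]
      have hfac : ∀ P, v.adicValuation ((f : F) - algebraMap K F (a P)) ≤ 1 := fun P =>
        (Valuation.map_sub _ _ _).trans (max_le hfv (v.adicValuation_algebraMap_le_one _))
      have hGv : v.adicValuation (G : F) ≤ v.adicValuation (z : F) := by
        rw [hGF, map_prod]
        by_cases hvz : v.adicValuation (z : F) < 1
        · have hvS := (hS v).mpr hvz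
          rw [← Finset.mul_prod_erase _ _ hvS]
          have h1 : ∏ P ∈ S.erase v, v.adicValuation (((f : F) - algebraMap K F (a P)) ^ n) ≤ 1 := by
            apply Finset.prod_le_one'
            intro P _
            rw [map_pow]
            exact pow_le_one' (hfac P) n
          refine (mul_le_of_le_one_right' h1).trans ?_
          rw [map_pow, v.adicValuation_eq_exp_neg_ord hz0]
          have h2 : v.adicValuation ((f : F) - algebraMap K F (a v)) ≤ exp (-1) :=
            (adicValuation_lt_one_iff v).mp (ha v (by rw [← hzF]; exact hvz))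
          refine (pow_le_pow_left' h2 n).trans ?_
          rw [← exp_nsmul, exp_le_exp]
          have h3 := sum_ord_le_finrank hzt {v} (by simpa using hvz)
          rw [Finset.sum_singleton, hzF, adjoin_sub_const, ← hndef, ← hzF] at h3
          simp only [nsmul_eq_mul]
          omega
        · have hz1 : v.adicValuation (z : F) = 1 := by
            apply le_antisymm _ (not_lt.mp hvz)
            rw [hzF]
            exact (Valuation.map_sub _ _ _).trans (max_le hvx (v.adicValuation_algebraMap_le_one _))
          rw [hz1]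
          apply Finset.prod_le_one'
          intro P _
          rw [map_pow]
          exact pow_le_one' (hfac P) n
      exact div_le_one_of_le₀ hGv zero_le
    · push Not at hvx
      have hvz : v.adicValuation (z : F) = v.adicValuation (x : F) := by
        rw [hzF]; exact adicValuation_sub_of_one_lt hvx
      have hx1 := poleDiv_of_one_lt (transcendental_ne_zero hxK) hvx
      have hfac : ∀ P, v.adicValuation ((f : F) - algebraMap K F (a P)) ≤
          exp ((m • (poleDiv (x : F) : Divisor K F)) v) := fun P => by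
        refine (Valuation.map_sub _ _ _).trans (max_le (hf v) ?_)
        refine (v.adicValuation_algebraMap_le_one _).trans ?_
        rw [← exp_zero, exp_le_exp]
        exact (nsmul_nonneg (poleDiv_nonneg _) m : (0 : Divisor K F) ≤ _) v
      have hGv : v.adicValuation (G : F) ≤
          exp (((m * (n * S.card)) • (poleDiv (x : F) : Divisor K F)) v) := by
        rw [hGF, map_prod]
        calc ∏ P ∈ S, v.adicValuation (((f : F) - algebraMap K F (a P)) ^ n)
            ≤ ∏ _P ∈ S, exp ((m • (poleDiv (x : F) : Divisor K F)) v) ^ n := by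
              apply Finset.prod_le_prod'
              intro P _
              rw [map_pow]
              exact pow_le_pow_left' (hfac P) n
          _ = _ := by
              rw [Finset.prod_const, ← pow_mul, ← exp_nsmul]
              congr 1
              simp only [Finsupp.smul_apply, nsmul_eq_mul]
              push_cast
              ring
      have hz1 : 1 ≤ v.adicValuation (z : F) := by rw [hvz]; exact hvx.le
      refine le_trans ?_ hGv
      rw [div_eq_mul_inv]
      exact mul_le_of_le_one_right' (inv_le_one_of_one_le₀ hz1)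
  have hred : R.ρ h ∈ riemannRochSpace ((m * (n * S.card)) • (poleDiv (R.ρ x) : Divisor k E)) :=
    red_le R hx hdeg _ ⟨h, hmem, rfl⟩
  have hQx := adicValuation_le_one_of_sub hQ
  have hQh : Q.adicValuation (R.ρ h) ≤ 1 := by
    have := hred Q
    rwa [Finsupp.smul_apply, poleDiv_eq_zero_of_le_one (transcendental_ne_zero hx) hQx,
      smul_zero, exp_zero] at this
  have hlt : Q.adicValuation (R.ρ f) ^ (n * S.card) < 1 := by
    rw [← map_pow, ← hρG, ← hhz, map_mul, map_mul]
    refine lt_of_le_of_lt (mul_le_of_le_one_left' hQh) ?_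
    rw [hρz]; exact hQ
  by_contra hcon
  push Not at hcon
  exact absurd hlt (not_lt.mpr (one_le_pow_of_one_le' hcon _))

/-- finiteness of the set of zeros of `x - b`, `b ∈ br`. -/
theorem finite_above {K F : Type*} [Field K] [Field F] [Algebra K F] [IsAlgClosed K] [IsFF K F]
    {x : F} (hx : Transcendental K x) (br : Finset K) :
    {P : Place K F | ∃ b ∈ br, P.adicValuation (x - algebraMap K F b) < 1}.Finite := by
  have : {P : Place K F | ∃ b ∈ br, P.adicValuation (x - algebraMap K F b) < 1} =
      ⋃ b ∈ br, {P : Place K F | P.adicValuation (x - algebraMap K F b) < 1} := by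
    ext P; simp
  rw [this]
  exact Set.Finite.biUnion br.finite_toSet fun b _ => finite_zeros (transcendental_sub_const hx b)

/-- Counting of places above the branch points under reduction. -/
theorem card_le {x : R.B} (hx : Transcendental k (R.ρ x))
    (hdeg : Module.finrank K⟮(x : F)⟯ F = Module.finrank k⟮R.ρ x⟯ E) (br : Finset R.A)
    (S : Finset (Place K F))
    (hS : ∀ P : Place K F, ∀ b ∈ br, P.adicValuation ((x : F) - algebraMap K F (b : K)) < 1 → P ∈ S)
    (T : Finset (Place k E))
    (hT : ∀ Q ∈ T, ∃ b ∈ br, Q.adicValuation (R.ρ x - algebraMap k E (R.π b)) < 1) :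
    T.card + genusFF k E ≤ S.card + genusFF K F := by
  classical
  have : H94.FunField K F := funField_of_isFF
  have hxK := R.transcendental_of_ρ hx
  have hfd := IsFF.finiteDimensional hxK
  have hn : 0 < Module.finrank K⟮(x : F)⟯ F := Module.finrank_pos
  -- restrict `S`
  obtain ⟨S', hS'⟩ : ∃ S' : Finset (Place K F), S' = S.filter
      (fun P => ∃ b ∈ br, P.adicValuation ((x : F) - algebraMap K F (b : K)) < 1) := ⟨_, rfl⟩
  have hS'card : S'.card ≤ S.card := by rw [hS']; exact Finset.card_filter_le _ _
  suffices T.card + genusFF k E ≤ S'.card + genusFF K F by omega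
  -- large `m`
  obtain ⟨m, hm⟩ : ∃ m : ℕ, m = 2 * genusFF K F + 2 * genusFF k E + T.card + 1 := ⟨_, rfl⟩
  have hm0 : 0 < m := by omega
  obtain ⟨n, hndef⟩ : ∃ n, n = Module.finrank K⟮(x : F)⟯ F := ⟨_, rfl⟩
  rw [← hndef] at hn
  have hmn : m ≤ m * n := Nat.le_mul_of_pos_right m hn
  have hD1 : Divisor.degree (m • (poleDiv (x : F) : Divisor K F)) = (m * n : ℕ) := by
    rw [map_nsmul, degree_poleDiv hxK, ← hndef]; push_cast; ring
  have hD2 : Divisor.degree (m • (poleDiv (R.ρ x) : Divisor k E)) = (m * n : ℕ) := by
    rw [map_nsmul, degree_poleDiv hx, ← hdeg, ← hndef]; push_cast; ring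
  obtain ⟨d, bas, hspan, hli⟩ := R.exists_basis
    (riemannRochSpace (m • (poleDiv (x : F) : Divisor K F))) (finite_L _)
  have hd : (d : ℤ) = m * n + 1 - genusFF K F := by
    have h1 := finrank_span_eq_card (R.linearIndependent_lift hli)
    rw [hspan, Fintype.card_fin] at h1
    have h2 := ell_of_degree_gt (D := m • (poleDiv (x : F) : Divisor K F)) (by
      rw [hD1]; push_cast; push_cast at *; nlinarith)
    rw [ell, h1, hD1] at h2
    rw [h2]; push_cast; ring
  have hbas : ∀ i, (bas i : F) ∈ riemannRochSpace (m • (poleDiv (x : F) : Divisor K F)) := fun i =>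
    hspan ▸ Submodule.subset_span ⟨i, rfl⟩
  -- values
  have hval : ∀ (P : S') (i : Fin d), ∃ a : R.A,
      (P : Place K F).adicValuation ((bas i : F) - algebraMap K F (a : K)) < 1 := by
    rintro ⟨P, hP⟩ i
    rw [hS', Finset.mem_filter] at hP
    obtain ⟨-, b, -, hb⟩ := hP
    have h1 : P.adicValuation (bas i : F) ≤ 1 := by
      have h2 := hbas i P
      rwa [Finsupp.smul_apply, poleDiv_eq_zero_of_le_one (transcendental_ne_zero hxK)
        (adicValuation_le_one_of_sub hb), smul_zero, exp_zero] at h2
    obtain ⟨c, hc⟩ := exists_const_sub_lt_one P h1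
    exact ⟨⟨c, value_mem R hx hdeg hm0 (hbas i) hb hc⟩, hc⟩
  choose a ha using hval
  let Λ : (Fin d → k) →ₗ[k] (S' → k) :=
    { toFun := fun c P => ∑ i, c i * R.π (a P i)
      map_add' := fun c c' => by
        funext P
        simp only [Pi.add_apply, add_mul, Finset.sum_add_distrib]
      map_smul' := fun r c => by
        funext P
        simp only [Pi.smul_apply, smul_eq_mul, RingHom.id_apply, Finset.mul_sum, mul_assoc] }
  have hker : d ≤ Module.finrank k (LinearMap.ker Λ) + S'.card := by
    have h1 := LinearMap.finrank_range_add_finrank_ker Λ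
    rw [Module.finrank_fin_fun] at h1
    have h2 := Submodule.finrank_le (LinearMap.range Λ)
    rw [Module.finrank_fintype_fun_eq_card, Fintype.card_coe] at h2
    omega
  obtain ⟨D', hD'⟩ : ∃ D' : Divisor k E,
      D' = m • (poleDiv (R.ρ x) : Divisor k E) - ∑ Q ∈ T, Finsupp.single Q 1 := ⟨_, rfl⟩
  have hD'deg : Divisor.degree D' = (m * n : ℕ) - T.card := by
    rw [hD', map_sub, hD2, map_sum]
    congr 1
    rw [Finset.sum_congr rfl (fun Q _ => by
      rw [Divisor.degree_single, H3RR.deg_eq_one]; simp : ∀ Q ∈ T,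
        Divisor.degree (Finsupp.single Q (1:ℤ)) = 1)]
    simp
  let Φ : LinearMap.ker Λ →ₗ[k] E :=
    (Fintype.linearCombination k (fun i => R.ρ (bas i))).comp (LinearMap.ker Λ).subtype
  have hΦinj : Function.Injective Φ := by
    intro c c' h
    apply Subtype.ext
    have h1 : ∑ i, ((c : Fin d → k) i - (c' : Fin d → k) i) • R.ρ (bas i) = 0 := by
      have h2 : ∑ i, (c : Fin d → k) i • R.ρ (bas i) = ∑ i, (c' : Fin d → k) i • R.ρ (bas i) := by
        have h3 : Fintype.linearCombination k (fun i => R.ρ (bas i)) (c : Fin d → k) =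
          Fintype.linearCombination k (fun i => R.ρ (bas i)) (c' : Fin d → k) := h
        rwa [Fintype.linearCombination_apply, Fintype.linearCombination_apply] at h3
      simp only [sub_smul, Finset.sum_sub_distrib, h2, sub_self]
    funext i
    exact sub_eq_zero.mp (Fintype.linearIndependent_iff.mp hli _ h1 i)
  have hΦmem : ∀ c, Φ c ∈ riemannRochSpace D' := by
    rintro ⟨c, hc⟩
    have hΦc : Φ ⟨c, hc⟩ = ∑ i, c i • R.ρ (bas i) := by
      show Fintype.linearCombination k (fun i => R.ρ (bas i)) c = _
      rw [Fintype.linearCombination_apply]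
    choose lift hlift using R.π_surj
    obtain ⟨f, hf⟩ : ∃ f : R.B, f = ∑ i, R.const (lift (c i)) * bas i := ⟨_, rfl⟩
    have hρf : R.ρ f = ∑ i, c i • R.ρ (bas i) := by
      rw [hf, map_sum]
      apply Finset.sum_congr rfl
      intro i _
      rw [map_mul, R.ρ_const, hlift, Algebra.smul_def]
    have hfF : (f : F) = ∑ i, algebraMap K F (lift (c i) : K) * (bas i : F) := by
      rw [hf]
      show R.B.subtype _ = _
      rw [map_sum]
      rfl
    have hfmem : (f : F) ∈ riemannRochSpace (m • (poleDiv (x : F) : Divisor K F)) := by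
      rw [hfF]
      apply Submodule.sum_mem
      intro i _
      rw [← Algebra.smul_def]
      exact Submodule.smul_mem _ _ (hbas i)
    have hz : ∀ b ∈ br, ∀ Q : Place k E, Q.adicValuation (R.ρ x - algebraMap k E (R.π b)) < 1 →
        Q.adicValuation (R.ρ f) < 1 := by
      intro b hb Q hQ
      refine vanish R hx hdeg hfmem ?_ Q hQ
      intro P hP
      have hPS' : P ∈ S' := by
        rw [hS', Finset.mem_filter]
        exact ⟨hS P b hb hP, b, hb, hP⟩
      refine ⟨∑ i, lift (c i) * a ⟨P, hPS'⟩ i, ?_, ?_⟩
      · rw [map_sum]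
        have h1 : Λ c ⟨P, hPS'⟩ = 0 := by
          rw [LinearMap.mem_ker] at hc
          rw [hc]; rfl
        rw [← h1]
        show _ = ∑ i, c i * R.π (a ⟨P, hPS'⟩ i)
        apply Finset.sum_congr rfl
        intro i _
        rw [map_mul, hlift]
      · have h1 : (f : F) - algebraMap K F ((∑ i, lift (c i) * a ⟨P, hPS'⟩ i : R.A) : K) =
            ∑ i, algebraMap K F (lift (c i) : K) *
              ((bas i : F) - algebraMap K F (a ⟨P, hPS'⟩ i : K)) := by
          rw [hfF]
          have : ((∑ i, lift (c i) * a ⟨P, hPS'⟩ i : R.A) : K) =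
              ∑ i, (lift (c i) : K) * (a ⟨P, hPS'⟩ i : K) := by
            show R.A.subtype _ = _
            rw [map_sum]
            rfl
          rw [this, map_sum, ← Finset.sum_sub_distrib]
          apply Finset.sum_congr rfl
          intro i _
          rw [map_mul]; ring
        rw [h1]
        apply Valuation.map_sum_lt _ one_ne_zero
        intro i _
        rw [map_mul]
        exact lt_of_le_of_lt (mul_le_of_le_one_left' (P.adicValuation_algebraMap_le_one _))
          (ha ⟨P, hPS'⟩ i)
    have hmem1 : R.ρ f ∈ riemannRochSpace (m • (poleDiv (R.ρ x) : Divisor k E)) :=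
      red_le R hx hdeg m ⟨f, hfmem, rfl⟩
    rw [hΦc, ← hρf]
    intro Q
    rw [hD', Finsupp.sub_apply, Finsupp.finsetSum_apply]
    by_cases hQT : Q ∈ T
    · obtain ⟨b, hb, hQb⟩ := hT Q hQT
      have h1 := hz b hb Q hQb
      have h2 : (m • (poleDiv (R.ρ x) : Divisor k E)) Q = 0 := by
        rw [Finsupp.smul_apply, poleDiv_eq_zero_of_le_one (transcendental_ne_zero hx)
          (adicValuation_le_one_of_sub hQb), smul_zero]
      have h3 : ∑ Q' ∈ T, (Finsupp.single Q' (1:ℤ)) Q = 1 := by
        rw [Finset.sum_eq_single Q]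
        · simp
        · intro Q' _ hne
          rw [Finsupp.single_apply, if_neg hne]
        · intro h; exact absurd hQT h
      rw [h2, h3]
      exact (adicValuation_lt_one_iff Q).mp h1
    · have h3 : ∑ Q' ∈ T, (Finsupp.single Q' (1:ℤ)) Q = 0 := by
        apply Finset.sum_eq_zero
        intro Q' hQ'
        rw [Finsupp.single_apply, if_neg]
        rintro rfl
        exact hQT hQ'
      rw [h3, sub_zero]
      exact hmem1 Q
  have hle : Module.finrank k (LinearMap.ker Λ) ≤ ell D' := by
    let Ψ : LinearMap.ker Λ →ₗ[k] riemannRochSpace D' := Φ.codRestrict _ hΦmem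
    apply LinearMap.finrank_le_finrank_of_injective (f := Ψ)
    intro c c' h
    exact hΦinj (congrArg Subtype.val h)
  have hell := ell_of_degree_gt (D := D') (by
    rw [hD'deg]; push_cast; push_cast at *; omega)
  rw [hD'deg] at hell
  push_cast at hell hd hker hle ⊢
  have h5 : (d : ℤ) ≤ ell D' + S'.card := by
    have : d ≤ ell D' + S'.card := by omega
    exact_mod_cast this
  have h6 : ((T.card + genusFF k E : ℕ) : ℤ) ≤ ((S'.card + genusFF K F : ℕ) : ℤ) := by
    push_cast
    linarith
  exact_mod_cast h6

/-- The genus does not increase under reduction. -/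
theorem genus_ge {x : R.B} (hx : Transcendental k (R.ρ x))
    (hdeg : Module.finrank K⟮(x : F)⟯ F = Module.finrank k⟮R.ρ x⟯ E) :
    genusFF k E ≤ genusFF K F := by
  have := card_le R hx hdeg ∅ ∅ (by simp) ∅ (by simp)
  simpa using this

/-- **Good reduction criterion.** If the ramification of `F / K(x)` is concentrated above a finite
set `br` of integral points with distinct reductions (expressed as the Riemann-Hurwitz inequality
`2 g - 2 ≤ (#br - 2) n - #S`, `S` the set of places above `br`), then the genus is preserved under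
reduction. -/
theorem genus_eq_of_ramification {x : R.B} (hx : Transcendental k (R.ρ x))
    (hsep : Algebra.IsSeparable k⟮R.ρ x⟯ E)
    (hdeg : Module.finrank K⟮(x : F)⟯ F = Module.finrank k⟮R.ρ x⟯ E) (br : Finset R.A)
    (hbr : Set.InjOn R.π br)
    (S : Finset (Place K F))
    (hS : ∀ P : Place K F, ∀ b ∈ br, P.adicValuation ((x : F) - algebraMap K F (b : K)) < 1 → P ∈ S)
    (hRH : 2 * (genusFF K F : ℤ) - 2 ≤
      (br.card - 2) * Module.finrank K⟮(x : F)⟯ F - S.card) :
    genusFF K F = genusFF k E := by
  classical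
  have hge := genus_ge R hx hdeg
  have hx0 := transcendental_ne_zero hx
  have hfin := finite_above hx (br.image R.π)
  obtain ⟨T, hT⟩ : ∃ T : Finset (Place k E), ∀ Q, Q ∈ T ↔
      ∃ c ∈ br.image R.π, Q.adicValuation (R.ρ x - algebraMap k E c) < 1 :=
    ⟨hfin.toFinset, fun Q => by simp only [Set.Finite.mem_toFinset, Set.mem_ofPred_eq]⟩
  have hcard := card_le R hx hdeg br S hS T (by
    intro Q hQ
    obtain ⟨c, hc, hQc⟩ := (hT Q).mp hQ
    obtain ⟨b, hb, rfl⟩ := Finset.mem_image.mp hc
    exact ⟨b, hb, hQc⟩)
  obtain ⟨D, hD⟩ : ∃ D : Divisor k E, D =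
      ∑ c ∈ br.image R.π, (zDiv (R.ρ x - algebraMap k E c) : Divisor k E)
        - ∑ Q ∈ T, Finsupp.single Q 1 := ⟨_, rfl⟩
  have hDdeg : Divisor.degree D = br.card * Module.finrank k⟮R.ρ x⟯ E - T.card := by
    rw [hD, map_sub, map_sum, map_sum]
    congr 1
    · rw [Finset.sum_congr rfl (fun c _ => by
        rw [degree_zDiv (transcendental_sub_const hx c), adjoin_sub_const] :
        ∀ c ∈ br.image R.π, Divisor.degree (zDiv (R.ρ x - algebraMap k E c) : Divisor k E) =
          Module.finrank k⟮R.ρ x⟯ E), Finset.sum_const, Finset.card_image_of_injOn hbr,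
        nsmul_eq_mul]
    · rw [Finset.sum_congr rfl (fun Q _ => by
        rw [Divisor.degree_single, H3RR.deg_eq_one]; simp : ∀ Q ∈ T,
          Divisor.degree (Finsupp.single Q (1:ℤ)) = 1)]
      simp
  have hsingle : ∀ Q : Place k E, (∑ Q' ∈ T, (Finsupp.single Q' (1:ℤ)) Q) = if Q ∈ T then 1 else 0 := by
    intro Q
    split_ifs with hQT
    · rw [Finset.sum_eq_single Q]
      · simp
      · intro Q' _ hne
        rw [Finsupp.single_apply, if_neg hne]
      · intro h; exact absurd hQT h
    · apply Finset.sum_eq_zero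
      intro Q' hQ'
      rw [Finsupp.single_apply, if_neg]
      rintro rfl
      exact hQT hQ'
  -- values of `D`
  have hDw : ∀ (Q : Place k E) (c : k), Q.adicValuation (R.ρ x - algebraMap k E c) < 1 →
      D Q ≤ Q.ord (R.ρ x - algebraMap k E c) - 1 := by
    intro Q c hc
    have hpos := (ord_pos_iff (sub_const_ne_zero hx c)).mpr hc
    have hother : ∀ c' : k, c' ≠ c →
        (zDiv (R.ρ x - algebraMap k E c') : Divisor k E) Q = 0 := by
      intro c' hne
      rw [zDiv_apply (sub_const_ne_zero hx c')]
      apply max_eq_right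
      by_contra hcon
      push Not at hcon
      exact hne (adicValuation_sub_const_lt_one_unique
        ((ord_pos_iff (sub_const_ne_zero hx c')).mp hcon) hc)
    rw [hD, Finsupp.sub_apply, Finsupp.finsetSum_apply, Finsupp.finsetSum_apply, hsingle]
    by_cases hcb : c ∈ br.image R.π
    · rw [if_pos ((hT Q).mpr ⟨c, hcb, hc⟩), Finset.sum_eq_single c, zDiv_apply (sub_const_ne_zero hx c),
        max_eq_left hpos.le]
      · intro c' _ hne; exact hother c' hne
      · intro h; exact absurd hcb h
    · rw [if_neg, Finset.sum_eq_zero, sub_zero]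
      · omega
      · intro c' hc'
        apply hother
        rintro rfl
        exact hcb hc'
      · rw [hT]
        rintro ⟨c', hc', hQc'⟩
        exact hcb (adicValuation_sub_const_lt_one_unique hQc' hc ▸ hc')
  have hrh := rh_le (riemann_genusFF k E) hx D
    (fun Q c hc => hDw Q c ((ord_pos_iff (sub_const_ne_zero hx c)).mp hc)) (by
    intro Q hQ
    have h1 : 1 < Q.adicValuation (R.ρ x) := by
      rw [Q.adicValuation_eq_exp_neg_ord hx0, ← exp_zero, exp_lt_exp]; omega
    rw [hD, Finsupp.sub_apply, Finsupp.finsetSum_apply, Finsupp.finsetSum_apply, hsingle]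
    have h2 : ∑ c ∈ br.image R.π, (zDiv (R.ρ x - algebraMap k E c) : Divisor k E) Q = 0 := by
      apply Finset.sum_eq_zero
      intro c _
      rw [zDiv_apply (sub_const_ne_zero hx c)]
      apply max_eq_right
      by_contra hcon
      push Not at hcon
      have h3 := adicValuation_le_one_of_sub ((ord_pos_iff (sub_const_ne_zero hx c)).mp hcon)
      exact absurd h3 (not_le.mpr h1)
    rw [h2]
    split_ifs <;> omega)
  rw [hDdeg] at hrh
  rw [hdeg] at hRH
  have h7 : (T.card : ℤ) + genusFF k E ≤ S.card + genusFF K F := by exact_mod_cast hcard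
  have h8 : (genusFF k E : ℤ) ≤ genusFF K F := by exact_mod_cast hge
  have h9 : (genusFF K F : ℤ) = genusFF k E := by
    have h10 : ((br.card : ℤ) - 2) * Module.finrank k⟮R.ρ x⟯ E =
      br.card * Module.finrank k⟮R.ρ x⟯ E - 2 * Module.finrank k⟮R.ρ x⟯ E := by ring
    rw [h10] at hRH
    linarith
  exact_mod_cast h9

end Vanish

end Fermat.Agent.H88
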