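import Mathlib
import Fermat.Agent.H88Genus
import Fermat.Agent.H18Torsion

/-!
# Genus equality from a Hauptmodul at level 2 or 3 (helper18)
-/

set_option autoImplicit false

noncomputable section

open AlgebraicCurve WithZero IntermediateField
open Fermat.Agent.H3RR Fermat.Agent.H88
open Fermat.Agent.H40 (ReductionData)

namespace Fermat.Agent.H18

section Ord

variable {K F : Type*} [Field K] [Field F] [Algebra K F] (v : Place K F)

theorem ord_sub_of_neg {t : F} (h : v.ord t < 0) (c : K) :
    v.ord (t - algebraMap K F c) = v.ord t := by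
  have ht : t ≠ 0 := by rintro rfl; simp at h
  have h1 : 1 < v.adicValuation t := by
    rw [v.adicValuation_eq_exp_neg_ord ht, ← exp_zero, exp_lt_exp]
    omega
  have h2 := adicValuation_sub_of_one_lt (c := c) h1
  have h3 : t - algebraMap K F c ≠ 0 := by
    intro h0
    rw [h0, map_zero] at h2
    exact (Valuation.ne_zero_iff _).2 ht h2.symm
  rw [v.adicValuation_eq_exp_neg_ord ht, v.adicValuation_eq_exp_neg_ord h3] at h2
  have := exp_injective h2
  omega

theorem ord_sub_eq_zero {t : F} {c d : K} (hcd : c ≠ d)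
    (h : 0 < v.ord (t - algebraMap K F c)) : v.ord (t - algebraMap K F d) = 0 := by
  have h0 : t - algebraMap K F c ≠ 0 := by
    intro h0; rw [h0, v.ord_zero] at h; exact lt_irrefl _ h
  have h1 := (ord_pos_iff h0).1 h
  have hcd' : algebraMap K F (c - d) ≠ 0 := by
    rw [Ne, map_eq_zero, sub_eq_zero]; exact hcd
  have h2 : v.adicValuation (algebraMap K F (c - d)) = 1 := by
    rw [v.adicValuation_eq_exp_neg_ord hcd', H40.ord_algebraMap]; simp
  have h3 : t - algebraMap K F d = (t - algebraMap K F c) + algebraMap K F (c - d) := by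
    rw [map_sub]; ring
  have h4 : v.adicValuation (t - algebraMap K F d) = 1 := by
    rw [h3, Valuation.map_add_eq_of_lt_right _ (by rw [h2]; exact h1), h2]
  have h5 : t - algebraMap K F d ≠ 0 := by
    intro h0; rw [h0, map_zero] at h4; exact zero_ne_one h4
  rw [v.adicValuation_eq_exp_neg_ord h5, ← exp_zero] at h4
  have := exp_injective h4
  omega

theorem ord_sub_nonneg {t : F} (h : 0 ≤ v.ord t) (c : K) :
    0 ≤ v.ord (t - algebraMap K F c) := by
  by_contra hcon
  push Not at hcon
  have := ord_sub_of_neg v hcon (-c)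
  rw [map_neg, sub_neg_eq_add, sub_add_cancel] at this
  omega

theorem ord_pow' (f : F) (n : ℕ) : v.ord (f ^ n) = n * v.ord f := by
  have := v.ord_zpow f n
  rwa [zpow_natCast] at this

end Ord

section Degree

variable {K F : Type*} [Field K] [Field F] [Algebra K F] [IsAlgClosed K] [IsFF K F]

theorem finrank_le_card {t : F} (ht : Transcendental K t) (c : K) (T : Finset (Place K F))
    (hT : ∀ v : Place K F, 0 < v.ord (t - algebraMap K F c) →
      v ∈ T ∧ v.ord (t - algebraMap K F c) ≤ 1) :
    Module.finrank K⟮t⟯ F ≤ T.card := by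
  classical
  have ht' := transcendental_sub_const ht c
  have h0 := transcendental_ne_zero ht'
  have h1 := degree_zDiv ht'
  rw [H88.adjoin_sub_const, H40.degree_eq_sum H3RR.deg_eq_one, Finsupp.sum] at h1
  have h2 : ∑ v ∈ (zDiv (t - algebraMap K F c) : Divisor K F).support,
      (zDiv (t - algebraMap K F c) : Divisor K F) v ≤
      ∑ v ∈ (zDiv (t - algebraMap K F c) : Divisor K F).support, (1 : ℤ) := by
    refine Finset.sum_le_sum fun v hv => ?_
    rw [zDiv_apply h0]
    rcases lt_or_ge 0 (v.ord (t - algebraMap K F c)) with h | h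
    · exact max_le (hT v h).2 zero_le_one
    · rw [max_eq_right h]; exact zero_le_one
  have h3 : (zDiv (t - algebraMap K F c) : Divisor K F).support ⊆ T := by
    intro v hv
    rw [Finsupp.mem_support_iff, zDiv_apply h0] at hv
    refine (hT v ?_).1
    by_contra hcon
    push Not at hcon
    exact hv (max_eq_right hcon)
  rw [h1] at h2
  simp only [Finset.sum_const, nsmul_eq_mul, mul_one] at h2
  have h4 := Finset.card_le_card h3
  have h5 : Module.finrank K⟮t⟯ F ≤
      (zDiv (t - algebraMap K F c) : Divisor K F).support.card := by exact_mod_cast h2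
  exact h5.trans h4

/-- `[F : K(j)] = 3 [F : K(t)]` if `(t + 256)³ = j t²`. -/
theorem finrank_two {t j : F} (ht : Transcendental K t) (hj : Transcendental K j)
    (h2 : (2 : K) ≠ 0) (hrel : (t + 256) ^ 3 = j * t ^ 2) :
    Module.finrank K⟮j⟯ F = 3 * Module.finrank K⟮t⟯ F := by
  have ht0 := transcendental_ne_zero ht
  have hj0 := transcendental_ne_zero hj
  have hc : t + 256 = t - algebraMap K F (-256) := by
    rw [map_neg, sub_neg_eq_add, map_ofNat]
  have h256 : (-256 : K) ≠ 0 := by
    have : (-256 : K) = - 2 ^ 8 := by norm_num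
    rw [this]
    exact neg_ne_zero.2 (pow_ne_zero _ h2)
  have ht' : t - algebraMap K F (-256) ≠ 0 := sub_const_ne_zero ht _
  have key : ∀ v : Place K F, 3 * v.ord (t - algebraMap K F (-256)) = v.ord j + 2 * v.ord t := by
    intro v
    have h := congrArg v.ord hrel
    rw [hc, ord_pow', v.ord_mul hj0 (pow_ne_zero _ ht0), ord_pow'] at h
    exact_mod_cast h
  have hdiv : (poleDiv j : Divisor K F) = poleDiv t + 2 • zDiv t := by
    ext v
    rw [poleDiv_apply hj0, Finsupp.add_apply, Finsupp.smul_apply, poleDiv_apply ht0,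
      zDiv_apply ht0, nsmul_eq_mul]
    have hv := key v
    rcases lt_trichotomy (v.ord t) 0 with h | h | h
    · rw [ord_sub_of_neg v h] at hv
      rw [max_eq_left (by omega), max_eq_left (by omega), max_eq_right h.le]
      push_cast; omega
    · have h3 := ord_sub_nonneg v h.ge (-256)
      rw [max_eq_right (by omega), max_eq_right (by omega), h]
      simp
    · have h3 : v.ord (t - algebraMap K F 0) = v.ord t := by rw [map_zero, sub_zero]
      have h4 := ord_sub_eq_zero v (t := t) (c := 0) (d := -256) h256.symm (by rw [h3]; exact h)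
      rw [h4] at hv
      rw [max_eq_left (by omega), max_eq_right (by omega), max_eq_left h.le]
      push_cast; omega
  have h5 := congrArg Divisor.degree hdiv
  rw [map_add, map_nsmul, degree_poleDiv hj, degree_poleDiv ht, degree_zDiv ht, nsmul_eq_mul] at h5
  push_cast at h5
  omega

/-- `[F : K(j)] = 4 [F : K(t)]` if `(t + 27)(t + 243)³ = j t³`. -/
theorem finrank_three {t j : F} (ht : Transcendental K t) (hj : Transcendental K j)
    (h3' : (3 : K) ≠ 0) (hrel : (t + 27) * (t + 243) ^ 3 = j * t ^ 3) :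
    Module.finrank K⟮j⟯ F = 4 * Module.finrank K⟮t⟯ F := by
  have ht0 := transcendental_ne_zero ht
  have hj0 := transcendental_ne_zero hj
  have hc : t + 27 = t - algebraMap K F (-27) := by
    rw [map_neg, sub_neg_eq_add, map_ofNat]
  have hc' : t + 243 = t - algebraMap K F (-243) := by
    rw [map_neg, sub_neg_eq_add, map_ofNat]
  have h27 : (-27 : K) ≠ 0 := by
    have : (-27 : K) = - 3 ^ 3 := by norm_num
    rw [this]
    exact neg_ne_zero.2 (pow_ne_zero _ h3')
  have h243 : (-243 : K) ≠ 0 := by
    have : (-243 : K) = - 3 ^ 5 := by norm_num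
    rw [this]
    exact neg_ne_zero.2 (pow_ne_zero _ h3')
  have ht1 : t - algebraMap K F (-27) ≠ 0 := sub_const_ne_zero ht _
  have ht2 : t - algebraMap K F (-243) ≠ 0 := sub_const_ne_zero ht _
  have key : ∀ v : Place K F, v.ord (t - algebraMap K F (-27)) +
      3 * v.ord (t - algebraMap K F (-243)) = v.ord j + 3 * v.ord t := by
    intro v
    have h := congrArg v.ord hrel
    rw [hc, hc', v.ord_mul ht1 (pow_ne_zero _ ht2), ord_pow',
      v.ord_mul hj0 (pow_ne_zero _ ht0), ord_pow'] at h
    exact_mod_cast h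
  have hdiv : (poleDiv j : Divisor K F) = poleDiv t + 3 • zDiv t := by
    ext v
    rw [poleDiv_apply hj0, Finsupp.add_apply, Finsupp.smul_apply, poleDiv_apply ht0,
      zDiv_apply ht0, nsmul_eq_mul]
    have hv := key v
    rcases lt_trichotomy (v.ord t) 0 with h | h | h
    · rw [ord_sub_of_neg v h, ord_sub_of_neg v h] at hv
      rw [max_eq_left (by omega), max_eq_left (by omega), max_eq_right h.le]
      push_cast; omega
    · have h3 := ord_sub_nonneg v h.ge (-27)
      have h4 := ord_sub_nonneg v h.ge (-243)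
      rw [max_eq_right (by omega), max_eq_right (by omega), h]
      simp
    · have h3 : v.ord (t - algebraMap K F 0) = v.ord t := by rw [map_zero, sub_zero]
      have h4 := ord_sub_eq_zero v (t := t) (c := 0) (d := -27) h27.symm (by rw [h3]; exact h)
      have h5 := ord_sub_eq_zero v (t := t) (c := 0) (d := -243) h243.symm (by rw [h3]; exact h)
      rw [h4, h5] at hv
      rw [max_eq_left (by omega), max_eq_right (by omega), max_eq_left h.le]
      push_cast; omega
  have h5 := congrArg Divisor.degree hdiv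
  rw [map_add, map_nsmul, degree_poleDiv hj, degree_poleDiv ht, degree_zDiv ht, nsmul_eq_mul] at h5
  push_cast at h5
  omega

/-- Riemann-Hurwitz numerics for the Hauptmodul of level two. -/
theorem rh_two [CharZero K] {t j : F} (ht : Transcendental K t) (hj : Transcendental K j)
    (hrel : (t + 256) ^ 3 = j * t ^ 2)
    (hj3 : ∀ v : Place K F, v.ord j ≤ 3)
    (hj2 : ∀ v : Place K F, v.ord (j - algebraMap K F 1728) ≤ 2)
    (S₀ S₁ S₂ : Finset (Place K F)) (hS₀ : ∀ v : Place K F, v ∈ S₀ ↔ 0 < v.ord j)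
    (hS₁ : ∀ v : Place K F, v ∈ S₁ ↔ 0 < v.ord (j - algebraMap K F 1728))
    (hS₂ : ∀ v : Place K F, v ∈ S₂ ↔ v.ord j < 0)
    (hg : 2 * (genusFF K F : ℤ) - 2 =
      Module.finrank K⟮j⟯ F - S₀.card - S₁.card - S₂.card) :
    ∃ S : Finset (Place K F),
      (∀ v : Place K F, v.ord t ≠ 0 ∨ 0 < v.ord (t - algebraMap K F (-64)) → v ∈ S) ∧
      2 * (genusFF K F : ℤ) - 2 ≤ Module.finrank K⟮t⟯ F - S.card := by
  classical
  have ht0 := transcendental_ne_zero ht
  have hj0 := transcendental_ne_zero hj
  have hn := finrank_two ht hj (by norm_num) hrel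
  have hc : t + 256 = t - algebraMap K F (-256) := by
    rw [map_neg, sub_neg_eq_add, map_ofNat]
  have ht' : t - algebraMap K F (-256) ≠ 0 := sub_const_ne_zero ht _
  have hj' : j - algebraMap K F 1728 ≠ 0 := sub_const_ne_zero hj _
  have key : ∀ v : Place K F, 3 * v.ord (t - algebraMap K F (-256)) = v.ord j + 2 * v.ord t := by
    intro v
    have h := congrArg v.ord hrel
    rw [hc, ord_pow', v.ord_mul hj0 (pow_ne_zero _ ht0), ord_pow'] at h
    exact_mod_cast h
  have hrel' : (t - algebraMap K F 512) ^ 2 * (t - algebraMap K F (-64)) =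
      (j - algebraMap K F 1728) * t ^ 2 := by
    rw [sub_mul, ← hrel, map_neg, map_ofNat, map_ofNat, map_ofNat]
    ring
  have key' : ∀ v : Place K F, 2 * v.ord (t - algebraMap K F 512) +
      v.ord (t - algebraMap K F (-64)) = v.ord (j - algebraMap K F 1728) + 2 * v.ord t := by
    intro v
    have h := congrArg v.ord hrel'
    rw [v.ord_mul (pow_ne_zero _ (sub_const_ne_zero ht _)) (sub_const_ne_zero ht _), ord_pow',
      v.ord_mul hj' (pow_ne_zero _ ht0), ord_pow'] at h
    exact_mod_cast h
  have hord0 : ∀ (v : Place K F) (c : K), c ≠ 0 → 0 < v.ord (t - algebraMap K F c) →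
      v.ord t = 0 := by
    intro v c hc0 h
    have := ord_sub_eq_zero v (d := 0) hc0 h
    rwa [map_zero, sub_zero] at this
  -- zeros of `j`
  have h0 : Module.finrank K⟮t⟯ F ≤ S₀.card := by
    refine finrank_le_card ht (-256) S₀ fun v hv => ?_
    have h1 := key v
    rw [hord0 v _ (by norm_num) hv] at h1
    have h2 := hj3 v
    rw [hS₀]
    constructor <;> omega
  -- zeros of `j - 1728`
  set U := S₁.filter fun v => 0 < v.ord (t - algebraMap K F (-64)) with hU
  have h1 : Module.finrank K⟮t⟯ F ≤ (S₁ \ U).card := by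
    refine finrank_le_card ht 512 _ fun v hv => ?_
    have h1 := key' v
    rw [hord0 v _ (by norm_num) hv] at h1
    have h3 : v.ord (t - algebraMap K F (-64)) = 0 := ord_sub_eq_zero v (by norm_num) hv
    have h2 := hj2 v
    rw [Finset.mem_sdiff, hU, Finset.mem_filter, hS₁]
    refine ⟨⟨by omega, fun h => by omega⟩, by omega⟩
  have h2 : (S₁ \ U).card + U.card = S₁.card := by
    rw [Finset.card_sdiff_of_subset (Finset.filter_subset _ _)]
    exact Nat.sub_add_cancel (Finset.card_le_card (Finset.filter_subset _ _))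
  refine ⟨S₂ ∪ U, fun v hv => ?_, ?_⟩
  · rw [Finset.mem_union, hU, Finset.mem_filter, hS₂, hS₁]
    rcases lt_trichotomy (v.ord t) 0 with h | h | h
    · left
      have h3 := key v
      rw [ord_sub_of_neg v h] at h3
      omega
    · right
      have h4 : 0 < v.ord (t - algebraMap K F (-64)) := by
        rcases hv with hv | hv
        · exact absurd h hv
        · exact hv
      have h5 := key' v
      have h6 : v.ord (t - algebraMap K F 512) = 0 := ord_sub_eq_zero v (by norm_num) h4
      exact ⟨by omega, h4⟩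
    · left
      have h3 := key v
      have h4 : v.ord (t - algebraMap K F 0) = v.ord t := by rw [map_zero, sub_zero]
      have h5 := ord_sub_eq_zero v (t := t) (c := 0) (d := -256) (by norm_num)
        (by rw [h4]; exact h)
      omega
  · have h3 := Finset.card_union_le S₂ U
    rw [hn] at hg
    push_cast at hg
    omega

/-- Riemann-Hurwitz numerics for the Hauptmodul of level three. -/
theorem rh_three [CharZero K] {t j : F} (ht : Transcendental K t) (hj : Transcendental K j)
    (hrel : (t + 27) * (t + 243) ^ 3 = j * t ^ 3)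
    (hj3 : ∀ v : Place K F, v.ord j ≤ 3)
    (hj2 : ∀ v : Place K F, v.ord (j - algebraMap K F 1728) ≤ 2)
    (S₀ S₁ S₂ : Finset (Place K F)) (hS₀ : ∀ v : Place K F, v ∈ S₀ ↔ 0 < v.ord j)
    (hS₁ : ∀ v : Place K F, v ∈ S₁ ↔ 0 < v.ord (j - algebraMap K F 1728))
    (hS₂ : ∀ v : Place K F, v ∈ S₂ ↔ v.ord j < 0)
    (hg : 2 * (genusFF K F : ℤ) - 2 =
      Module.finrank K⟮j⟯ F - S₀.card - S₁.card - S₂.card) :
    ∃ S : Finset (Place K F),
      (∀ v : Place K F, v.ord t ≠ 0 ∨ 0 < v.ord (t - algebraMap K F (-27)) → v ∈ S) ∧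
      2 * (genusFF K F : ℤ) - 2 ≤ Module.finrank K⟮t⟯ F - S.card := by
  classical
  have ht0 := transcendental_ne_zero ht
  have hj0 := transcendental_ne_zero hj
  have hn := finrank_three ht hj (by norm_num) hrel
  have hc : t + 27 = t - algebraMap K F (-27) := by
    rw [map_neg, sub_neg_eq_add, map_ofNat]
  have hc' : t + 243 = t - algebraMap K F (-243) := by
    rw [map_neg, sub_neg_eq_add, map_ofNat]
  have ht1 : t - algebraMap K F (-27) ≠ 0 := sub_const_ne_zero ht _
  have ht2 : t - algebraMap K F (-243) ≠ 0 := sub_const_ne_zero ht _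
  have hj' : j - algebraMap K F 1728 ≠ 0 := sub_const_ne_zero hj _
  have key : ∀ v : Place K F, v.ord (t - algebraMap K F (-27)) +
      3 * v.ord (t - algebraMap K F (-243)) = v.ord j + 3 * v.ord t := by
    intro v
    have h := congrArg v.ord hrel
    rw [hc, hc', v.ord_mul ht1 (pow_ne_zero _ ht2), ord_pow',
      v.ord_mul hj0 (pow_ne_zero _ ht0), ord_pow'] at h
    exact_mod_cast h
  -- roots of `t ^ 2 - 486 t - 19683`
  obtain ⟨s, hs⟩ := IsAlgClosed.exists_pow_nat_eq (19683 : K) (n := 2) (by norm_num)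
  have hs0 : s ≠ 0 := by
    rintro rfl
    norm_num at hs
  obtain ⟨α, hα⟩ : ∃ α : K, α = 243 + 2 * s := ⟨_, rfl⟩
  obtain ⟨β, hβ⟩ : ∃ β : K, β = 243 - 2 * s := ⟨_, rfl⟩
  have hαβ : α ≠ β := by
    intro h
    rw [hα, hβ] at h
    have : 4 * s = 0 := by linear_combination h
    rcases mul_eq_zero.1 this with h4 | h4
    · norm_num at h4
    · exact hs0 h4
  have hmul : α * β = -19683 := by
    rw [hα, hβ]
    linear_combination (-4) * hs
  have hα0 : α ≠ 0 := by
    rintro h
    rw [h, zero_mul] at hmul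
    norm_num at hmul
  have hβ0 : β ≠ 0 := by
    rintro h
    rw [h, mul_zero] at hmul
    norm_num at hmul
  have hrel' : (t - algebraMap K F α) ^ 2 * (t - algebraMap K F β) ^ 2 =
      (j - algebraMap K F 1728) * t ^ 3 := by
    have h1 : (t - algebraMap K F α) * (t - algebraMap K F β) = t ^ 2 - 486 * t - 19683 := by
      have h2 : algebraMap K F α + algebraMap K F β = 486 := by
        rw [← map_add, hα, hβ, ← map_ofNat (algebraMap K F)]
        congr 1; norm_num
      have h3 : algebraMap K F α * algebraMap K F β = -19683 := by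
        rw [← map_mul, hmul, map_neg, map_ofNat]
      linear_combination (-t) * h2 + h3
    rw [← mul_pow, h1, sub_mul, ← hrel, map_ofNat]
    ring
  have key' : ∀ v : Place K F, 2 * v.ord (t - algebraMap K F α) +
      2 * v.ord (t - algebraMap K F β) = v.ord (j - algebraMap K F 1728) + 3 * v.ord t := by
    intro v
    have h := congrArg v.ord hrel'
    rw [v.ord_mul (pow_ne_zero _ (sub_const_ne_zero ht _)) (pow_ne_zero _ (sub_const_ne_zero ht _)),
      ord_pow', ord_pow', v.ord_mul hj' (pow_ne_zero _ ht0), ord_pow'] at h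
    exact_mod_cast h
  have hord0 : ∀ (v : Place K F) (c : K), c ≠ 0 → 0 < v.ord (t - algebraMap K F c) →
      v.ord t = 0 := by
    intro v c hc0 h
    have := ord_sub_eq_zero v (d := 0) hc0 h
    rwa [map_zero, sub_zero] at this
  -- zeros of `j`
  set U := S₀.filter fun v => 0 < v.ord (t - algebraMap K F (-27)) with hU
  have h0 : Module.finrank K⟮t⟯ F ≤ (S₀ \ U).card := by
    refine finrank_le_card ht (-243) _ fun v hv => ?_
    have h1 := key v
    rw [hord0 v _ (by norm_num) hv] at h1
    have h3 : v.ord (t - algebraMap K F (-27)) = 0 := ord_sub_eq_zero v (by norm_num) hv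
    have h2 := hj3 v
    rw [Finset.mem_sdiff, hU, Finset.mem_filter, hS₀]
    refine ⟨⟨by omega, fun h => by omega⟩, by omega⟩
  have h0' : (S₀ \ U).card + U.card = S₀.card := by
    rw [Finset.card_sdiff_of_subset (Finset.filter_subset _ _)]
    exact Nat.sub_add_cancel (Finset.card_le_card (Finset.filter_subset _ _))
  -- zeros of `j - 1728`
  set W := S₁.filter fun v => 0 < v.ord (t - algebraMap K F α) with hW
  have h1 : Module.finrank K⟮t⟯ F ≤ W.card := by
    refine finrank_le_card ht α _ fun v hv => ?_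
    have h1 := key' v
    rw [hord0 v _ hα0 hv] at h1
    have h3 : v.ord (t - algebraMap K F β) = 0 := ord_sub_eq_zero v hαβ hv
    have h2 := hj2 v
    rw [hW, Finset.mem_filter, hS₁]
    refine ⟨⟨by omega, hv⟩, by omega⟩
  have h1' : Module.finrank K⟮t⟯ F ≤ (S₁ \ W).card := by
    refine finrank_le_card ht β _ fun v hv => ?_
    have h1 := key' v
    rw [hord0 v _ hβ0 hv] at h1
    have h3 : v.ord (t - algebraMap K F α) = 0 := ord_sub_eq_zero v hαβ.symm hv
    have h2 := hj2 v
    rw [Finset.mem_sdiff, hW, Finset.mem_filter, hS₁]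
    refine ⟨⟨by omega, fun h => by omega⟩, by omega⟩
  have h2 : (S₁ \ W).card + W.card = S₁.card := by
    rw [Finset.card_sdiff_of_subset (Finset.filter_subset _ _)]
    exact Nat.sub_add_cancel (Finset.card_le_card (Finset.filter_subset _ _))
  refine ⟨S₂ ∪ U, fun v hv => ?_, ?_⟩
  · rw [Finset.mem_union, hU, Finset.mem_filter, hS₂, hS₀]
    rcases lt_trichotomy (v.ord t) 0 with h | h | h
    · left
      have h3 := key v
      rw [ord_sub_of_neg v h, ord_sub_of_neg v h] at h3
      omega
    · right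
      have h4 : 0 < v.ord (t - algebraMap K F (-27)) := by
        rcases hv with hv | hv
        · exact absurd h hv
        · exact hv
      have h5 := key v
      have h6 : v.ord (t - algebraMap K F (-243)) = 0 := ord_sub_eq_zero v (by norm_num) h4
      exact ⟨by omega, h4⟩
    · left
      have h3 := key v
      have h4 : v.ord (t - algebraMap K F 0) = v.ord t := by rw [map_zero, sub_zero]
      have h5 := ord_sub_eq_zero v (t := t) (c := 0) (d := -27) (by norm_num)
        (by rw [h4]; exact h)
      have h6 := ord_sub_eq_zero v (t := t) (c := 0) (d := -243) (by norm_num)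
        (by rw [h4]; exact h)
      omega
  · have h3 := Finset.card_union_le S₂ U
    rw [hn] at hg
    push_cast at hg
    omega

end Degree

section Reduction

variable {K F k E : Type*} [Field K] [Field F] [Algebra K F] [Field k] [Field E] [Algebra k E]
  [IsAlgClosed K] [IsAlgClosed k] [IsFF K F] [IsFF k E] (R : ReductionData K F k E) [CharZero K]

/-- Genus equality from a Hauptmodul `t` such that the extension is ramified only above
`0, ∞, e`. -/
theorem genus_eq_of_hauptmodul (t : R.B) (ht : Transcendental k (R.ρ t))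
    (hsep : Algebra.IsSeparable k⟮R.ρ t⟯ E)
    (hdeg : Module.finrank K⟮(t : F)⟯ F = Module.finrank k⟮R.ρ t⟯ E)
    (e : R.A) (he : R.π e ≠ 0) (S : Finset (Place K F))
    (hS : ∀ v : Place K F, v.ord (t : F) ≠ 0 ∨ 0 < v.ord ((t : F) - algebraMap K F (e : K)) → v ∈ S)
    (hRH : 2 * (genusFF K F : ℤ) - 2 ≤ Module.finrank K⟮(t : F)⟯ F - S.card) :
    genusFF K F = genusFF k E := by
  classical
  -- the auxiliary constant
  obtain ⟨c', hc'⟩ := Infinite.exists_notMem_finset ({0, R.π e} : Finset k)
  obtain ⟨c, rfl⟩ := R.π_surj c'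
  simp only [Finset.mem_insert, Finset.mem_singleton, not_or] at hc'
  obtain ⟨hc0, hce⟩ := hc'
  have hcu := isUnit_of_π_ne_zero R hc0
  have hecu : IsUnit (e - c) := isUnit_of_π_ne_zero R (by
    rw [map_sub, sub_ne_zero]; exact Ne.symm hce)
  obtain ⟨d₁, hd₁⟩ := hcu.exists_right_inv
  obtain ⟨d₂, hd₂⟩ := hecu.exists_right_inv
  -- the function `x = 1 / (t - c)`
  have hρtc : R.ρ (t - R.const c) ≠ 0 := by
    rw [map_sub, R.ρ_const]
    exact sub_const_ne_zero ht _
  obtain ⟨x, hx⟩ := (isUnit_of_ρ_ne_zero R hρtc).exists_right_inv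
  have htcF : (t : F) - algebraMap K F (c : K) ≠ 0 := by
    have := R.ne_zero_of_ρ_ne_zero hρtc
    simpa using this
  have hxF : (x : F) = ((t : F) - algebraMap K F (c : K))⁻¹ := by
    have h1 := congrArg (Subtype.val) hx
    refine eq_inv_of_mul_eq_one_right ?_
    simpa using h1
  have hρx : R.ρ x = (R.ρ t - algebraMap k E (R.π c))⁻¹ := by
    have h1 := congrArg R.ρ hx
    rw [map_mul, map_one, map_sub, R.ρ_const] at h1
    exact eq_inv_of_mul_eq_one_right h1
  have hadjF : K⟮(x : F)⟯ = K⟮(t : F)⟯ := by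
    rw [hxF, H88.adjoin_inv, H88.adjoin_sub_const]
  have hadjE : k⟮R.ρ x⟯ = k⟮R.ρ t⟯ := by
    rw [hρx, H88.adjoin_inv, H88.adjoin_sub_const]
  have hxt : Transcendental k (R.ρ x) := by
    rw [hρx]
    exact transcendental_inv (transcendental_sub_const ht _)
  set br : Finset R.A := {-d₁, 0, d₂} with hbr
  have hπ1 : R.π c * R.π d₁ = 1 := by rw [← map_mul, hd₁, map_one]
  have hπ2 : (R.π e - R.π c) * R.π d₂ = 1 := by rw [← map_sub, ← map_mul, hd₂, map_one]
  have hne1 : R.π (-d₁) ≠ R.π 0 := by
    rw [map_neg, map_zero, neg_ne_zero]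
    exact right_ne_zero_of_mul_eq_one hπ1
  have hne2 : R.π 0 ≠ R.π d₂ := by
    rw [map_zero]
    exact (right_ne_zero_of_mul_eq_one hπ2).symm
  have hne3 : R.π (-d₁) ≠ R.π d₂ := by
    rw [map_neg]
    intro h
    apply he
    have h1 : R.π d₁ ≠ 0 := right_ne_zero_of_mul_eq_one hπ1
    have h2 : R.π e * R.π d₁ = 0 := by
      linear_combination (-(R.π e - R.π c)) * h - hπ2 + hπ1
    exact (mul_eq_zero.1 h2).resolve_right h1
  have hcard : br.card = 3 := by
    rw [hbr, Finset.card_insert_of_notMem, Finset.card_insert_of_notMem, Finset.card_singleton]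
    · rw [Finset.mem_singleton]; exact fun h => hne2 (congrArg R.π h)
    · rw [Finset.mem_insert, Finset.mem_singleton, not_or]
      exact ⟨fun h => hne1 (congrArg R.π h), fun h => hne3 (congrArg R.π h)⟩
  have hinj : Set.InjOn R.π (br : Set R.A) := by
    rw [hbr]
    intro a ha b hb hab
    simp only [Finset.coe_insert, Finset.coe_singleton, Set.mem_insert_iff,
      Set.mem_singleton_iff] at ha hb
    rcases ha with rfl | rfl | rfl <;> rcases hb with rfl | rfl | rfl
    · rfl
    · exact absurd hab hne1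
    · exact absurd hab hne3
    · exact absurd hab.symm hne1
    · rfl
    · exact absurd hab hne2
    · exact absurd hab.symm hne3
    · exact absurd hab.symm hne2
    · rfl
  have htF : (t : F) ≠ 0 := R.ne_zero_of_ρ_ne_zero (transcendental_ne_zero ht)
  refine genus_eq_of_ramification R hxt (by rw [hadjE]; exact hsep) (by
    rw [hadjF, hadjE]; exact hdeg) br hinj S ?_ ?_
  · intro P b hb hPb
    by_cases hP0 : P.ord (t : F) = 0
    swap
    · exact hS P (Or.inl hP0)
    have hvt : P.adicValuation (t : F) = 1 := by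
      rw [P.adicValuation_eq_exp_neg_ord htF, hP0]; simp
    have hvtc : P.adicValuation ((t : F) - algebraMap K F (c : K)) ≤ 1 :=
      (Valuation.map_sub _ _ _).trans (max_le hvt.le (P.adicValuation_algebraMap_le_one _))
    have hvx : 1 ≤ P.adicValuation (x : F) := by
      rw [hxF, map_inv₀]
      exact one_le_inv₀ (zero_lt_iff.2 ((Valuation.ne_zero_iff _).2 htcF)) |>.2 hvtc
    have hd1F : (c : K) * (d₁ : K) = 1 := congrArg Subtype.val hd₁
    have hd2F : ((e : K) - (c : K)) * (d₂ : K) = 1 := congrArg Subtype.val hd₂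
    rw [hbr] at hb
    simp only [Finset.mem_insert, Finset.mem_singleton] at hb
    rcases hb with rfl | rfl | rfl
    · exfalso
      have h1 : (x : F) - algebraMap K F ((-d₁ : R.A) : K) =
          (t : F) * (x : F) * algebraMap K F (d₁ : K) := by
        have h2 : algebraMap K F (c : K) * algebraMap K F (d₁ : K) = 1 := by
          rw [← map_mul, hd1F, map_one]
        have h3 : ((t : F) - algebraMap K F (c : K)) * (x : F) = 1 := by
          rw [hxF, mul_inv_cancel₀ htcF]
        rw [NegMemClass.coe_neg, map_neg]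
        linear_combination (-(x : F)) * h2 - (algebraMap K F (d₁ : K)) * h3
      have hd1ne : (d₁ : K) ≠ 0 := right_ne_zero_of_mul_eq_one hd1F
      have h4 : P.adicValuation (algebraMap K F (d₁ : K)) = 1 := by
        rw [P.adicValuation_eq_exp_neg_ord (by rwa [Ne, map_eq_zero]), H40.ord_algebraMap]; simp
      rw [h1, map_mul, map_mul, hvt, h4, one_mul, mul_one] at hPb
      exact absurd hPb (not_lt.2 hvx)
    · exfalso
      rw [ZeroMemClass.coe_zero, map_zero, sub_zero] at hPb
      exact absurd hPb (not_lt.2 hvx)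
    · refine hS P (Or.inr ?_)
      have h1 : (x : F) - algebraMap K F (b : K) =
          -(((t : F) - algebraMap K F (e : K)) * (x : F) * algebraMap K F (b : K)) := by
        have h2 : (algebraMap K F (e : K) - algebraMap K F (c : K)) * algebraMap K F (b : K) =
            1 := by
          rw [← map_sub, ← map_mul, hd2F, map_one]
        have h3 : ((t : F) - algebraMap K F (c : K)) * (x : F) = 1 := by
          rw [hxF, mul_inv_cancel₀ htcF]
        linear_combination (-(x : F)) * h2 + (algebraMap K F (b : K)) * h3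
      have hbne : (b : K) ≠ 0 := right_ne_zero_of_mul_eq_one hd2F
      have h4 : P.adicValuation (algebraMap K F (b : K)) = 1 := by
        rw [P.adicValuation_eq_exp_neg_ord (by rwa [Ne, map_eq_zero]), H40.ord_algebraMap]; simp
      rw [h1, Valuation.map_neg, map_mul, map_mul, h4, mul_one] at hPb
      have h5 : P.adicValuation ((t : F) - algebraMap K F (e : K)) < 1 :=
        lt_of_le_of_lt (le_mul_of_one_le_right' hvx) hPb
      exact (ord_pos_iff (sub_const_ne_zero (R.transcendental_of_ρ ht) _)).2 h5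
  · rw [hcard, hadjF]
    push_cast
    linarith

/-- Genus equality from the Hauptmodul of level two (residue characteristic different from
two). -/
theorem genus_eq_two (t j : R.B) (ht : Transcendental k (R.ρ t)) (hj : Transcendental k (R.ρ j))
    (hrel : (t + 256) ^ 3 = j * t ^ 2) (h2 : (2 : k) ≠ 0)
    (hsep : Algebra.IsSeparable k⟮R.ρ t⟯ E)
    (hdeg : Module.finrank K⟮(j : F)⟯ F = Module.finrank k⟮R.ρ j⟯ E)
    (hj3 : ∀ v : Place K F, v.ord (j : F) ≤ 3)
    (hj2 : ∀ v : Place K F, v.ord ((j : F) - algebraMap K F 1728) ≤ 2)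
    (S₀ S₁ S₂ : Finset (Place K F)) (hS₀ : ∀ v : Place K F, v ∈ S₀ ↔ 0 < v.ord (j : F))
    (hS₁ : ∀ v : Place K F, v ∈ S₁ ↔ 0 < v.ord ((j : F) - algebraMap K F 1728))
    (hS₂ : ∀ v : Place K F, v ∈ S₂ ↔ v.ord (j : F) < 0)
    (hg : 2 * (genusFF K F : ℤ) - 2 =
      Module.finrank K⟮(j : F)⟯ F - S₀.card - S₁.card - S₂.card) :
    genusFF K F = genusFF k E := by
  have htF := R.transcendental_of_ρ ht
  have hjF := R.transcendental_of_ρ hj
  have hrelF : ((t : F) + 256) ^ 3 = (j : F) * (t : F) ^ 2 := by
    have h := congrArg R.B.subtype hrel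
    rwa [map_pow, map_add, map_mul, map_pow, map_ofNat] at h
  have hrelE : (R.ρ t + 256) ^ 3 = R.ρ j * R.ρ t ^ 2 := by
    have h := congrArg R.ρ hrel
    rwa [map_pow, map_add, map_mul, map_pow, map_ofNat] at h
  obtain ⟨S, hS, hRH⟩ := rh_two htF hjF hrelF hj3 hj2 S₀ S₁ S₂ hS₀ hS₁ hS₂ hg
  have h1 := finrank_two htF hjF (by norm_num) hrelF
  have h3 := finrank_two ht hj h2 hrelE
  refine genus_eq_of_hauptmodul R t ht hsep (by omega) (-64) ?_ S (fun v hv => hS v ?_) hRH
  · have : (-64 : R.A) = - 2 ^ 6 := by norm_num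
    rw [this, map_neg, map_pow, map_ofNat]
    exact neg_ne_zero.2 (pow_ne_zero _ h2)
  · have h4 : ((-64 : R.A) : K) = -64 := by
      rw [NegMemClass.coe_neg]; exact congrArg _ (map_ofNat R.A.subtype 64)
    rwa [h4] at hv

/-- Genus equality from the Hauptmodul of level three (residue characteristic different from
three). -/
theorem genus_eq_three (t j : R.B) (ht : Transcendental k (R.ρ t)) (hj : Transcendental k (R.ρ j))
    (hrel : (t + 27) * (t + 243) ^ 3 = j * t ^ 3) (h3 : (3 : k) ≠ 0)
    (hsep : Algebra.IsSeparable k⟮R.ρ t⟯ E)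
    (hdeg : Module.finrank K⟮(j : F)⟯ F = Module.finrank k⟮R.ρ j⟯ E)
    (hj3 : ∀ v : Place K F, v.ord (j : F) ≤ 3)
    (hj2 : ∀ v : Place K F, v.ord ((j : F) - algebraMap K F 1728) ≤ 2)
    (S₀ S₁ S₂ : Finset (Place K F)) (hS₀ : ∀ v : Place K F, v ∈ S₀ ↔ 0 < v.ord (j : F))
    (hS₁ : ∀ v : Place K F, v ∈ S₁ ↔ 0 < v.ord ((j : F) - algebraMap K F 1728))
    (hS₂ : ∀ v : Place K F, v ∈ S₂ ↔ v.ord (j : F) < 0)
    (hg : 2 * (genusFF K F : ℤ) - 2 =
      Module.finrank K⟮(j : F)⟯ F - S₀.card - S₁.card - S₂.card) :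
    genusFF K F = genusFF k E := by
  have htF := R.transcendental_of_ρ ht
  have hjF := R.transcendental_of_ρ hj
  have hrelF : ((t : F) + 27) * ((t : F) + 243) ^ 3 = (j : F) * (t : F) ^ 3 := by
    have h := congrArg R.B.subtype hrel
    rwa [map_mul, map_mul, map_pow, map_pow, map_add, map_add, map_ofNat, map_ofNat] at h
  have hrelE : (R.ρ t + 27) * (R.ρ t + 243) ^ 3 = R.ρ j * R.ρ t ^ 3 := by
    have h := congrArg R.ρ hrel
    rwa [map_mul, map_mul, map_pow, map_pow, map_add, map_add, map_ofNat, map_ofNat] at h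
  obtain ⟨S, hS, hRH⟩ := rh_three htF hjF hrelF hj3 hj2 S₀ S₁ S₂ hS₀ hS₁ hS₂ hg
  have h1 := finrank_three htF hjF (by norm_num) hrelF
  have h2 := finrank_three ht hj h3 hrelE
  refine genus_eq_of_hauptmodul R t ht hsep (by omega) (-27) ?_ S (fun v hv => hS v ?_) hRH
  · have : (-27 : R.A) = - 3 ^ 3 := by norm_num
    rw [this, map_neg, map_pow, map_ofNat]
    exact neg_ne_zero.2 (pow_ne_zero _ h3)
  · have h4 : ((-27 : R.A) : K) = -27 := by
      rw [NegMemClass.coe_neg]; exact congrArg _ (map_ofNat R.A.subtype 27)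
    rwa [h4] at hv

end Reduction

end Fermat.Agent.H18
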