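import Mathlib
import Fermat.Agent.H94FunField

/-!
# Inseparable elements of one-variable function fields over perfect constants (helper18)
-/

set_option autoImplicit false

noncomputable section

open IntermediateField Polynomial

namespace Fermat.Agent.H18

variable {K F : Type*} [Field K] [Field F] [Algebra K F]

theorem relfinrank_adjoin_pow {x : F} (hx : Transcendental K x) (q : ℕ) :
    (K⟮x ^ q⟯).relfinrank K⟮x⟯ = q := by
  let e := RatFunc.algEquivOfTranscendental (K := K) x hx
  let φ : RatFunc K →ₐ[K] F := (K⟮x⟯).val.comp e.toAlgHom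
  have hφX : φ RatFunc.X = x := RatFunc.algEquivOfTranscendental_X (K := K) x hx
  have h1 : (⊤ : IntermediateField K (RatFunc K)).map φ = K⟮x⟯ := by
    rw [← AlgHom.fieldRange_eq_map]
    ext y
    simp only [AlgHom.mem_fieldRange]
    constructor
    · rintro ⟨z, rfl⟩
      exact (e z).2
    · intro hy
      exact ⟨e.symm ⟨y, hy⟩, by
        show ((e (e.symm ⟨y, hy⟩) : K⟮x⟯) : F) = y
        rw [e.apply_symm_apply]⟩
  have h2 : (K⟮(RatFunc.X : RatFunc K) ^ q⟯).map φ = K⟮x ^ q⟯ := by
    rw [adjoin_map, Set.image_singleton, map_pow, hφX]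
  rw [← h1, ← h2, relfinrank_map_map, relfinrank_top_right, RatFunc.finrank_eq_max_natDegree]
  have h3 : (RatFunc.X : RatFunc K) ^ q = algebraMap K[X] (RatFunc K) (X ^ q) := by
    rw [map_pow, RatFunc.algebraMap_X]
  rw [h3, RatFunc.num_algebraMap, RatFunc.denom_algebraMap]
  simp

section Perfect

variable (p : ℕ) [hp : Fact p.Prime] [CharP F p] [CharP K p] [PerfectField K]

include hp

/-- over perfect constants, `[F : F^q] = q`. -/
theorem finrank_frobenius_range {x : F} (hx : Transcendental K x) [FiniteDimensional K⟮x⟯ F]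
    (n : ℕ) : Module.finrank (iterateFrobenius F p n).fieldRange F = p ^ n := by
  have hq : 0 < p ^ n := pow_pos hp.out.pos n
  set φ := iterateFrobenius F p n with hφ
  have hmap : (K⟮x⟯).toSubfield.map φ = (K⟮x ^ (p ^ n)⟯).toSubfield := by
    apply le_antisymm
    · rw [Subfield.map_le_iff_le_comap]
      have : K⟮x⟯.toSubfield = Subfield.closure (Set.range (algebraMap K F) ∪ {x}) := rfl
      rw [this, Subfield.closure_le]
      rintro y (⟨a, rfl⟩ | hy)
      · show φ (algebraMap K F a) ∈ K⟮x ^ (p ^ n)⟯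
        rw [hφ, iterateFrobenius_def, ← map_pow]
        exact IntermediateField.algebraMap_mem _ _
      · rw [Set.mem_singleton_iff] at hy
        subst hy
        show φ y ∈ K⟮y ^ (p ^ n)⟯
        rw [hφ, iterateFrobenius_def]
        exact mem_adjoin_simple_self K _
    · have : K⟮x ^ (p ^ n)⟯.toSubfield =
          Subfield.closure (Set.range (algebraMap K F) ∪ {x ^ (p ^ n)}) := rfl
      rw [this, Subfield.closure_le]
      rintro y (⟨a, rfl⟩ | hy)
      · have : PerfectRing K p := PerfectField.toPerfectRing p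
        obtain ⟨b, hb⟩ := (bijective_iterateFrobenius K p n).2 a
        refine ⟨algebraMap K F b, IntermediateField.algebraMap_mem _ b, ?_⟩
        rw [hφ, iterateFrobenius_def, ← map_pow]
        congr 1
      · rw [Set.mem_singleton_iff] at hy
        subst hy
        exact ⟨x, mem_adjoin_simple_self K x, by rw [hφ, iterateFrobenius_def]⟩
  have hle : K⟮x ^ (p ^ n)⟯ ≤ K⟮x⟯ := by
    rw [adjoin_simple_le_iff]
    exact pow_mem (mem_adjoin_simple_self K x) _
  have h1 : (K⟮x ^ (p ^ n)⟯).relfinrank K⟮x⟯ = p ^ n := relfinrank_adjoin_pow hx _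
  have h2 : (K⟮x ^ (p ^ n)⟯).toSubfield.relfinrank K⟮x⟯.toSubfield *
      Module.finrank K⟮x⟯.toSubfield F = Module.finrank (K⟮x ^ (p ^ n)⟯).toSubfield F :=
    Subfield.relfinrank_mul_finrank_top hle
  have hrange : φ.fieldRange = (⊤ : Subfield F).map φ := by
    rw [RingHom.fieldRange_eq_map]
  have h3 : (K⟮x ^ (p ^ n)⟯).toSubfield.relfinrank φ.fieldRange *
      Module.finrank φ.fieldRange F = Module.finrank (K⟮x ^ (p ^ n)⟯).toSubfield F := by
    refine Subfield.relfinrank_mul_finrank_top ?_
    rw [← hmap, hrange]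
    exact (Subfield.gc_map_comap φ).monotone_l le_top
  have h4 : (K⟮x ^ (p ^ n)⟯).toSubfield.relfinrank φ.fieldRange =
      Module.finrank K⟮x⟯.toSubfield F := by
    rw [← hmap, hrange, Subfield.relfinrank_map_map, Subfield.relfinrank_top_right]
  have hpos : 0 < Module.finrank K⟮x⟯.toSubfield F := by
    have : 0 < Module.finrank K⟮x⟯ F := Module.finrank_pos
    exact this
  have h5 : (K⟮x ^ (p ^ n)⟯).toSubfield.relfinrank K⟮x⟯.toSubfield = p ^ n := h1
  rw [h4, ← h2, h5, mul_comm (p ^ n)] at h3
  exact Nat.eq_of_mul_eq_mul_left hpos h3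

/-- An inseparable generator is a `p`-th power. -/
theorem exists_pow_eq_of_not_isSeparable {x : F} (hx : Transcendental K x)
    [FiniteDimensional K⟮x⟯ F] (hsep : ¬ Algebra.IsSeparable K⟮x⟯ F) : ∃ g : F, g ^ p = x := by
  have : CharP K⟮x⟯ p := (algebraMap K⟮x⟯ F).charP (algebraMap K⟮x⟯ F).injective p
  let E := separableClosure K⟮x⟯ F
  obtain ⟨n, hn⟩ := IsPurelyInseparable.finrank_eq_pow E (E := F) p
  have hn0 : n ≠ 0 := by
    rintro rfl
    apply hsep
    rw [pow_zero] at hn
    have h1 : E = ⊤ := by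
      have := IntermediateField.finrank_eq_one_iff_eq_top.mp hn
      exact this
    have h2 := (separableClosure.eq_top_iff (F := K⟮x⟯) (E := F)).mp h1
    exact h2
  -- every `p^n`-th power lies in `E`
  have hpow : ∀ y : F, y ^ (p ^ n) ∈ E := by
    intro y
    obtain ⟨m, a, hma⟩ := IsPurelyInseparable.minpoly_eq_X_pow_sub_C E p y
    have hdvd : (minpoly E y).natDegree ∣ Module.finrank E F :=
      minpoly.degree_dvd (Algebra.IsIntegral.isIntegral y)
    rw [hn, hma, natDegree_sub_C, natDegree_X_pow] at hdvd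
    have hmn : m ≤ n := (Nat.pow_dvd_pow_iff_le_right hp.out.one_lt).mp hdvd
    have h3 : y ^ (p ^ m) = algebraMap E F a := by
      have := minpoly.aeval E y
      rw [hma, map_sub, map_pow, aeval_X, aeval_C, sub_eq_zero] at this
      exact this
    obtain ⟨c, rfl⟩ := Nat.exists_eq_add_of_le hmn
    rw [pow_add, pow_mul, h3]
    exact pow_mem (SetLike.coe_mem a) _
  have hle : (iterateFrobenius F p n).fieldRange ≤ E.toSubfield := by
    rintro _ ⟨y, rfl⟩
    rw [iterateFrobenius_def]
    exact hpow y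
  have h1 := Subfield.relfinrank_mul_finrank_top hle
  have h2 : Module.finrank E.toSubfield F = p ^ n := hn
  rw [h2, finrank_frobenius_range p hx n] at h1
  have h3 : (iterateFrobenius F p n).fieldRange.relfinrank E.toSubfield = 1 := by
    have hq : 0 < p ^ n := pow_pos hp.out.pos n
    exact Nat.eq_of_mul_eq_mul_right hq (by rw [h1, one_mul])
  rw [Subfield.relfinrank_eq_one_iff] at h3
  have hxE : x ∈ E.toSubfield := by
    have h5 : algebraMap K⟮x⟯ F ⟨x, mem_adjoin_simple_self K x⟩ ∈ E := IntermediateField.algebraMap_mem E _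
    exact h5
  obtain ⟨z, hz⟩ := h3 hxE
  rw [iterateFrobenius_def] at hz
  obtain ⟨m, rfl⟩ := Nat.exists_eq_succ_of_ne_zero hn0
  exact ⟨z ^ (p ^ m), by rw [← pow_mul, ← pow_succ]; exact hz⟩

end Perfect

end Fermat.Agent.H18
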