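import Mathlib

/-!
# Valuation subrings of algebraic extensions of `ℚ` are archimedean (helper18)
-/

set_option autoImplicit false

noncomputable section

namespace Fermat.Agent.H18

variable {K : Type*} [Field K] [CharZero K]

/-- An algebraic element has a power with the valuation of a rational number. -/
theorem exists_pow_valuation_eq {Γ : Type*} [LinearOrderedCommGroupWithZero Γ]
    (v : Valuation K Γ) {x : K} (hx0 : x ≠ 0) (hx : IsAlgebraic ℚ x) :
    ∃ n : ℕ, 0 < n ∧ ∃ q : ℚ, q ≠ 0 ∧ v x ^ n = v (q : K) := by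
  classical
  obtain ⟨p, hp0, hp⟩ := hx
  rw [Polynomial.aeval_eq_sum_range] at hp
  set t : ℕ → K := fun i => p.coeff i • x ^ i with ht
  have hne : p.support.Nonempty := by
    rwa [Polynomial.support_nonempty]
  obtain ⟨j, hj, hmax⟩ := Finset.exists_max_image p.support (fun i => v (t i)) hne
  have htj : t j ≠ 0 := by
    simp only [ht, Algebra.smul_def]
    refine mul_ne_zero ?_ (pow_ne_zero _ hx0)
    rw [Ne, map_eq_zero]
    exact Polynomial.mem_support_iff.1 hj
  have hjr : j ∈ Finset.range (p.natDegree + 1) :=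
    Finset.mem_range.2 (Nat.lt_succ_of_le (Polynomial.le_natDegree_of_mem_supp j hj))
  -- another index with the same valuation
  have hex : ∃ i ∈ (Finset.range (p.natDegree + 1)).erase j, v (t j) ≤ v (t i) := by
    by_contra hcon
    push Not at hcon
    have h1 : v (∑ i ∈ (Finset.range (p.natDegree + 1)).erase j, t i) < v (t j) :=
      v.map_sum_lt ((Valuation.ne_zero_iff v).2 htj) hcon
    have h2 : ∑ i ∈ (Finset.range (p.natDegree + 1)).erase j, t i = - t j := by
      rw [← Finset.add_sum_erase _ _ hjr] at hp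
      exact (neg_eq_of_add_eq_zero_right hp).symm
    rw [h2, Valuation.map_neg] at h1
    exact lt_irrefl _ h1
  obtain ⟨i, hi, hij⟩ := hex
  have hij' : i ≠ j := (Finset.mem_erase.1 hi).1
  have hvi : t i ≠ 0 := by
    intro h
    rw [h, map_zero, le_zero_iff, Valuation.zero_iff] at hij
    exact htj hij
  have hci : p.coeff i ≠ 0 := by
    rintro h
    apply hvi
    simp [ht, h]
  have hcj : p.coeff j ≠ 0 := Polynomial.mem_support_iff.1 hj
  have heq : v (t i) = v (t j) := le_antisymm (hmax i (Polynomial.mem_support_iff.2 hci)) hij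
  have hvt : ∀ l, v (t l) = v ((p.coeff l : ℚ) : K) * v x ^ l := fun l => by
    simp only [ht, Algebra.smul_def, map_mul, map_pow, eq_ratCast]
  rw [hvt, hvt] at heq
  have hvx : v x ≠ 0 := (Valuation.ne_zero_iff v).2 hx0
  have hcast : ∀ q : ℚ, q ≠ 0 → v (q : K) ≠ 0 := fun q hq => by
    rw [Valuation.ne_zero_iff]
    exact_mod_cast hq
  have key : ∀ a b : ℕ, a < b → p.coeff a ≠ 0 → p.coeff b ≠ 0 →
      v ((p.coeff a : ℚ) : K) * v x ^ a = v ((p.coeff b : ℚ) : K) * v x ^ b →
      ∃ n : ℕ, 0 < n ∧ ∃ q : ℚ, q ≠ 0 ∧ v x ^ n = v (q : K) := by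
    intro a b hab ha hb h
    refine ⟨b - a, Nat.sub_pos_of_lt hab, p.coeff a / p.coeff b, div_ne_zero ha hb, ?_⟩
    rw [Rat.cast_div, map_div₀, eq_div_iff (hcast _ hb)]
    have h1 : v x ^ b = v x ^ (b - a) * v x ^ a := by
      rw [← pow_add, Nat.sub_add_cancel hab.le]
    rw [h1, ← mul_assoc] at h
    rw [mul_comm (v x ^ (b - a))]
    exact (mul_right_cancel₀ (pow_ne_zero _ hvx) h).symm
  rcases lt_or_gt_of_ne hij' with h | h
  · exact key i j h hci hcj heq
  · exact key j i h hcj hci heq.symm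

/-- The archimedean property for rational numbers. -/
theorem exists_pow_le_of_rat {Γ : Type*} [LinearOrderedCommGroupWithZero Γ]
    (v : Valuation K Γ) {q q' : ℚ} (hq : v (q : K) < 1) (hq' : q' ≠ 0) :
    ∃ n : ℕ, v (q : K) ^ n ≤ v (q' : K) := by
  -- integers have valuation at most one
  have hint : ∀ z : ℤ, v (z : K) ≤ 1 := fun z => by
    have hnat : ∀ n : ℕ, v (n : K) ≤ 1 := fun n => by
      induction n with
      | zero => simp
      | succ n ih =>
        rw [Nat.cast_succ]
        exact (v.map_add _ _).trans (max_le ih (by simp))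
    obtain ⟨n, rfl | rfl⟩ := z.eq_nat_or_neg
    · simpa using hnat n
    · simpa using hnat n
  -- Bezout
  have hbez : ∀ a b : ℤ, IsCoprime a b → v (a : K) < 1 → v (b : K) = 1 := by
    rintro a b ⟨x, y, hxy⟩ ha
    refine le_antisymm (hint b) ?_
    by_contra hb
    push Not at hb
    have h1 : v ((x * a + y * b : ℤ) : K) < 1 := by
      push_cast
      refine (v.map_add _ _).trans_lt (max_lt ?_ ?_)
      · rw [map_mul]
        exact (mul_le_of_le_one_left' (hint x)).trans_lt ha
      · rw [map_mul]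
        exact (mul_le_of_le_one_left' (hint y)).trans_lt hb
    rw [hxy] at h1
    simp at h1
  -- reduce to integers
  have hqn : v (q.num : K) < 1 := by
    by_contra h
    push Not at h
    have h1 : v (q.num : K) = 1 := le_antisymm (hint _) h
    have h2 : (q : K) = (q.num : K) / (q.den : K) := by
      exact_mod_cast congrArg (fun t : ℚ => (t : K)) (Rat.num_div_den q).symm
    rw [h2, map_div₀, h1] at hq
    have h3 : v (q.den : K) ≤ 1 := by simpa using hint q.den
    have h4 : v (q.den : K) ≠ 0 := by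
      rw [Valuation.ne_zero_iff]
      exact_mod_cast q.den_nz
    have h5 : (1 : Γ) ≤ 1 / v (q.den : K) := by
      rw [one_div]
      exact (one_le_inv₀ (zero_lt_iff.2 h4)).2 h3
    exact absurd hq (not_lt.2 h5)
  have hq1 : v (q : K) = v (q.num : K) := by
    have h2 : (q : K) = (q.num : K) / (q.den : K) := by
      exact_mod_cast congrArg (fun t : ℚ => (t : K)) (Rat.num_div_den q).symm
    have h3 : v (q.den : K) = 1 := by
      have := hbez q.num q.den (by
        rw [Int.isCoprime_iff_gcd_eq_one]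
        exact q.reduced) hqn
      simpa using this
    rw [h2, map_div₀, h3, div_one]
  have hq'1 : v (q'.num : K) ≤ v (q' : K) := by
    have h2 : (q'.num : K) = (q' : K) * (q'.den : K) := by
      have h := Rat.mul_den_eq_num q'
      exact_mod_cast (congrArg (fun t : ℚ => (t : K)) h).symm
    rw [h2, map_mul]
    exact mul_le_of_le_one_right' (by simpa using hint q'.den)
  suffices ∃ n : ℕ, v (q.num : K) ^ n ≤ v (q'.num : K) by
    obtain ⟨n, hn⟩ := this
    exact ⟨n, by rw [hq1]; exact hn.trans hq'1⟩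
  have hN0 : q'.num ≠ 0 := Rat.num_ne_zero.2 hq'
  generalize q'.num = N at hN0
  generalize q.num = a at hqn
  clear hq1 hq'1 hq
  -- a bound on the multiplicity of `a` in `N`
  by_cases hau : a = 0
  · refine ⟨1, ?_⟩
    rw [hau]; simp
  -- induction on `|N|`
  obtain ⟨M, hM⟩ : ∃ M : ℕ, N.natAbs ≤ M := ⟨_, le_rfl⟩
  induction M generalizing N with
  | zero => exact absurd (Int.natAbs_eq_zero.1 (Nat.le_zero.1 hM)) hN0
  | succ M ih =>
    by_cases hc : IsCoprime a N
    · exact ⟨0, by rw [pow_zero, hbez a N hc hqn]⟩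
    · rw [Int.isCoprime_iff_gcd_eq_one] at hc
      set d : ℕ := Int.gcd a N with hd
      have hd0 : d ≠ 0 := by
        intro h
        exact hau (Int.gcd_eq_zero_iff.1 (hd ▸ h)).1
      obtain ⟨N', hN'⟩ : (d : ℤ) ∣ N := Int.gcd_dvd_right _ _
      obtain ⟨a', ha'⟩ : (d : ℤ) ∣ a := Int.gcd_dvd_left _ _
      have hN'0 : N' ≠ 0 := by rintro rfl; simp at hN'; exact hN0 hN'
      have hlt : N'.natAbs ≤ M := by
        have h1 : N.natAbs = d * N'.natAbs := by
          rw [hN', Int.natAbs_mul, Int.natAbs_natCast]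
        have h2 : 2 ≤ d := by omega
        have h3 : 0 < N'.natAbs := Int.natAbs_pos.2 hN'0
        have : 2 * N'.natAbs ≤ d * N'.natAbs := Nat.mul_le_mul_right _ h2
        omega
      obtain ⟨n, hn⟩ := ih N' hN'0 hlt
      refine ⟨n + 1, ?_⟩
      have h4 : v (a : K) ≤ v ((d : ℤ) : K) := by
        rw [ha', Int.cast_mul, map_mul]
        exact mul_le_of_le_one_right' (hint a')
      rw [pow_succ, hN', Int.cast_mul, map_mul, mul_comm (v ((d : ℤ) : K))]
      exact mul_le_mul' hn h4

/-- The archimedean property of valuation subrings of algebraic extensions of `ℚ`. -/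
theorem exists_dvd_pow [Algebra.IsAlgebraic ℚ K] (A : ValuationSubring K) (a b : A)
    (ha : a ≠ 0) (hb : ¬ IsUnit b) : ∃ n : ℕ, a ∣ b ^ n := by
  have hdvd : ∀ x y : A, A.valuation (y : K) ≤ A.valuation (x : K) → x ∣ y := by
    intro x y h
    have hxy : (y : K) / x ∈ A := by
      rcases eq_or_ne (x : K) 0 with h0 | h0
      · rw [h0, div_zero]; exact A.zero_mem
      · rw [← A.valuation_le_one_iff, map_div₀]
        exact div_le_one_of_le₀ h zero_le
    rcases eq_or_ne (x : K) 0 with h0 | h0
    · rw [h0, map_zero, le_zero_iff, Valuation.zero_iff] at h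
      exact ⟨0, Subtype.ext (by simpa using h)⟩
    · exact ⟨⟨(y : K) / x, hxy⟩, Subtype.ext (by
        rw [MulMemClass.coe_mul]
        field_simp)⟩
  have hb1 : A.valuation (b : K) < 1 := by
    exact (A.valuation_lt_one_iff b).1 ((IsLocalRing.mem_maximalIdeal b).2 hb)
  rcases eq_or_ne b 0 with rfl | hb0
  · exact ⟨1, by simp⟩
  have ha' : (a : K) ≠ 0 := fun h => ha (Subtype.ext h)
  have hb' : (b : K) ≠ 0 := fun h => hb0 (Subtype.ext h)
  obtain ⟨n, hn, q, hq, hnq⟩ := exists_pow_valuation_eq A.valuation hb'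
    (Algebra.IsAlgebraic.isAlgebraic (R := ℚ) (b : K))
  obtain ⟨n', hn', q', hq', hnq'⟩ := exists_pow_valuation_eq A.valuation ha'
    (Algebra.IsAlgebraic.isAlgebraic (R := ℚ) (a : K))
  obtain ⟨M, hM⟩ := exists_pow_le_of_rat A.valuation (q := q) (q' := q')
    (by rw [← hnq]; exact pow_lt_one₀ zero_le hb1 hn.ne') hq'
  refine ⟨n * M, hdvd _ _ ?_⟩
  rw [SubmonoidClass.coe_pow, map_pow, pow_mul, hnq]
  refine hM.trans ?_
  rw [← hnq']
  exact pow_le_of_le_one zero_le (A.valuation_le_one a) hn'.ne'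

end Fermat.Agent.H18
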