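import Fermat.Agent.H94Divisors
import Fermat.Agent.H18Insep

/-!
# Divisors of functions in one-variable function fields, any characteristic (helper18)

`K` algebraically closed of arbitrary characteristic, `F/K` a function field in one variable
(`H94.FunField K F`).  For every transcendental `x` (separable or not)
`Σ_{ord_v x > 0} ord_v x = [F : K(x)]`, and `F` has principal divisors of degree `0`.
-/

set_option autoImplicit false

noncomputable section

open AlgebraicCurve IsDedekindDomain WithZero IntermediateField
open scoped IntermediateField.algebraAdjoinAdjoin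

namespace Fermat.Agent.H18

open Fermat.Agent.H94

variable {K F : Type*} [Field K] [Field F] [Algebra K F] {x : F}

section Sep

theorem isDedekindDomain_intRing_sep [FiniteDimensional K⟮x⟯ F] [Algebra.IsSeparable K⟮x⟯ F]
    (hx : Transcendental K x) : IsDedekindDomain (IntRing K x) := by
  have := isPrincipalIdealRing_adjoin hx
  exact integralClosure.isDedekindDomain (Algebra.adjoin K {x}) K⟮x⟯ F

theorem finite_intRing_sep [FiniteDimensional K⟮x⟯ F] [Algebra.IsSeparable K⟮x⟯ F]
    (hx : Transcendental K x) : Module.Finite (Algebra.adjoin K {x}) (IntRing K x) := by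
  have := isPrincipalIdealRing_adjoin hx
  exact IsIntegralClosure.finite (Algebra.adjoin K {x}) K⟮x⟯ F (IntRing K x)

set_option maxHeartbeats 2000000 in
set_option synthInstance.maxHeartbeats 400000 in
theorem sum_ord_pos_aux [IsAlgClosed K] [FunField K F] (hx : Transcendental K x)
    (hded : IsDedekindDomain (IntRing K x))
    (hfinite : Module.Finite (Algebra.adjoin K {x}) (IntRing K x)) :
    ∃ hfin : {v : Place K F | 0 < v.ord x}.Finite,
      ∑ v ∈ hfin.toFinset, v.ord x = Module.finrank K⟮x⟯ F := by
  classical
  have := FunField.finiteDimensional (F := F) hx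
  have hfrac := isFractionRing_intRing (K := K) (x := x)
  have hpid := isPrincipalIdealRing_adjoin (F := F) hx
  have hx0 : x ≠ 0 := by
    rintro rfl
    exact hx isAlgebraic_zero
  have hmax := xIdeal_isMaximal (K := K) hx
  let xA : Algebra.adjoin K {x} := ⟨x, Algebra.self_mem_adjoin_singleton K x⟩
  let xB : IntRing K x := algebraMap (Algebra.adjoin K {x}) (IntRing K x) xA
  have hxB : algebraMap (IntRing K x) F xB = x := rfl
  have hxB0 : xB ≠ 0 := by
    intro h
    apply hx0
    rw [← hxB, h, map_zero]
  -- the primes over `(x)`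
  have hpbot := xIdeal_ne_bot (K := K) hx
  have : Fintype ((xIdeal K x).primesOver (IntRing K x)) :=
    (IsDedekindDomain.primesOver_finite (xIdeal K x) (IntRing K x)).fintype
  -- the dictionary
  have hmem : ∀ v : Place K F, 0 < v.ord x → ∀ b : IntRing K x,
      algebraMap (IntRing K x) F b ∈ v.toValuationSubring := fun v hv b =>
    mem_of_intRing (mem_of_ord_nonneg v hv.le) b
  have hne : ∀ q ∈ (xIdeal K x).primesOver (IntRing K x), q ≠ ⊥ := fun q hq =>
    Ideal.ne_bot_of_mem_primesOver hpbot hq
  let toH : ((xIdeal K x).primesOver (IntRing K x)) → HeightOneSpectrum (IntRing K x) :=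
    fun q => ⟨q.1, q.2.1, hne q.1 q.2⟩
  have hord : ∀ q : (xIdeal K x).primesOver (IntRing K x),
      (Place.ofHeightOneSpectrum (K := K) (F := F) (toH q)).ord x =
        (q.1.ramificationIdx (Algebra.adjoin K {x}) : ℤ) := by
    intro q
    have := q.2.1
    have := q.2.2
    have hmap : (xIdeal K x).map (algebraMap (Algebra.adjoin K {x}) (IntRing K x)) =
        Ideal.span {xB} := by
      rw [xIdeal, Ideal.map_span, Set.image_singleton]
    show (Place.ofHeightOneSpectrum (K := K) (F := F) (toH q)).ord
      (algebraMap (IntRing K x) F xB) = _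
    rw [ord_ofHeightOneSpectrum, HeightOneSpectrum.valuation_of_algebraMap,
      HeightOneSpectrum.intValuation_eq_exp_neg_multiplicity _ hxB0, log_exp, neg_neg,
      Ideal.IsDedekindDomain.ramificationIdx_eq_multiplicity (xIdeal K x) q.1
        (by rw [hmap, ne_eq, Ideal.span_singleton_eq_bot]; exact hxB0), hmap]
  let toP : {v : Place K F // 0 < v.ord x} ≃ ((xIdeal K x).primesOver (IntRing K x)) :=
    { toFun := fun v => ⟨(primeBelow v.1 (hmem v.1 v.2)).asIdeal,
        (primeBelow v.1 (hmem v.1 v.2)).isPrime, by
          have := (primeBelow v.1 (hmem v.1 v.2)).isPrime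
          exact liesOver_of_mem hx
            ((mem_primeBelow_iff v.1 (hmem v.1 v.2) xB).mpr (Or.inr (by rw [hxB]; exact v.2)))⟩
      invFun := fun q => ⟨Place.ofHeightOneSpectrum (K := K) (F := F) (toH q), by
          rw [hord]
          have := q.2.1
          exact_mod_cast Ideal.ramificationIdx_pos (R := Algebra.adjoin K {x}) (q := q.1)⟩
      left_inv := fun v => Subtype.ext (ofHeightOneSpectrum_primeBelow v.1 (hmem v.1 v.2))
      right_inv := fun q => Subtype.ext (congrArg HeightOneSpectrum.asIdeal
        (primeBelow_ofHeightOneSpectrum (K := K) (F := F) (toH q) _)) }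
  have hinert : ∀ q : (xIdeal K x).primesOver (IntRing K x),
      q.1.inertiaDeg (Algebra.adjoin K {x}) = 1 := by
    intro q
    have hq1 := q.2.1
    have hq2 := q.2.2
    have hqm : q.1.IsMaximal := hq1.isMaximal (hne q.1 q.2)
    rw [Ideal.inertiaDeg_eq_of_isMaximal (xIdeal K x) q.1]
    let v := Place.ofHeightOneSpectrum (K := K) (F := F) (toH q)
    have hsurj : Function.Surjective (algebraMap (Algebra.adjoin K {x} ⧸ xIdeal K x)
        (IntRing K x ⧸ q.1)) := by
      intro y
      obtain ⟨b, rfl⟩ := Ideal.Quotient.mk_surjective y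
      obtain ⟨a, ha⟩ := exists_sub_algebraMap_ord_pos v
        (algebraMap_mem_ofHeightOneSpectrum (K := K) (F := F) (toH q) b)
      refine ⟨algebraMap K _ a, ?_⟩
      have h1 : b - algebraMap K (IntRing K x) a ∈ q.1 := by
        have h2 := primeBelow_ofHeightOneSpectrum (K := K) (F := F) (toH q)
          (algebraMap_mem_ofHeightOneSpectrum (K := K) (F := F) (toH q))
        have h3 : q.1 = (toH q).asIdeal := rfl
        rw [h3, ← h2, mem_primeBelow_iff, map_sub,
          ← IsScalarTower.algebraMap_apply K (IntRing K x) F]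
        refine ha.imp (fun h => ?_) id
        have : algebraMap (IntRing K x) F (b - algebraMap K (IntRing K x) a) = 0 := by
          rw [map_sub, ← IsScalarTower.algebraMap_apply K (IntRing K x) F]
          exact h
        exact (map_eq_zero_iff _ (IsFractionRing.injective (IntRing K x) F)).mp this
      have h4 : (Ideal.Quotient.mk q.1) b = (Ideal.Quotient.mk q.1)
          (algebraMap K (IntRing K x) a) := by
        rw [Ideal.Quotient.eq]
        exact h1
      rw [h4]
      rfl
    have hbij : Function.Bijective (algebraMap (Algebra.adjoin K {x} ⧸ xIdeal K x)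
        (IntRing K x ⧸ q.1)) := by
      let : Field (Algebra.adjoin K {x} ⧸ xIdeal K x) := Ideal.Quotient.field _
      exact ⟨RingHom.injective _, hsurj⟩
    have hlin := LinearEquiv.ofBijective
      (Algebra.linearMap (Algebra.adjoin K {x} ⧸ xIdeal K x) (IntRing K x ⧸ q.1)) hbij
    rw [← hlin.finrank_eq]
    exact Module.finrank_self _
  have hfint : Finite {v : Place K F // 0 < v.ord x} := Finite.of_equiv _ toP.symm
  have hfinset : {v : Place K F | 0 < v.ord x}.Finite := Set.finite_coe_iff.mp hfint
  refine ⟨hfinset, ?_⟩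
  let _ : Fintype {v : Place K F // 0 < v.ord x} := Fintype.ofFinite _
  have h1 : ∑ v ∈ hfinset.toFinset, v.ord x = ∑ v : {v : Place K F // 0 < v.ord x}, v.1.ord x :=
    Finset.sum_subtype _ (fun v => by simp) _
  rw [h1, ← finrank_intRing, ← Ideal.sum_ramification_inertia_eq_finrank (xIdeal K x)
    (IntRing K x), Nat.cast_sum]
  refine Fintype.sum_equiv toP _ _ fun v => ?_
  rw [hinert, mul_one, ← hord]
  congr 1
  exact (congrArg Subtype.val (toP.symm_apply_apply v)).symm

theorem sum_ord_pos_sep [IsAlgClosed K] [FunField K F] (hx : Transcendental K x)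
    (hsep : Algebra.IsSeparable K⟮x⟯ F) :
    ∃ hfin : {v : Place K F | 0 < v.ord x}.Finite,
      ∑ v ∈ hfin.toFinset, v.ord x = Module.finrank K⟮x⟯ F :=
  have := FunField.finiteDimensional (F := F) hx
  sum_ord_pos_aux hx (isDedekindDomain_intRing_sep hx) (finite_intRing_sep hx)

end Sep

section General

theorem transcendental_of_pow {g : F} {p : ℕ} (hx : Transcendental K (g ^ p)) :
    Transcendental K g := by
  intro h
  exact hx (h.pow p)

theorem finrank_adjoin_pow {g : F} (p : ℕ) (hx : Transcendental K g) :
    Module.finrank K⟮g ^ p⟯ F = p * Module.finrank K⟮g⟯ F := by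
  have hle : K⟮g ^ p⟯ ≤ K⟮g⟯ := by
    rw [adjoin_simple_le_iff]
    exact pow_mem (mem_adjoin_simple_self K g) _
  have h := IntermediateField.relfinrank_mul_finrank_top hle
  rw [relfinrank_adjoin_pow hx] at h
  exact h.symm

variable [IsAlgClosed K] [FunField K F]

/-- Every transcendental element is a `p^n`-th power of a separating element. -/
theorem exists_sep (hx : Transcendental K x) :
    ∃ (g : F) (m : ℕ), 0 < m ∧ Transcendental K g ∧ Algebra.IsSeparable K⟮g⟯ F ∧ x = g ^ m := by
  obtain ⟨p, hp⟩ := ExpChar.exists K
  cases hp with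
  | zero =>
    have := FunField.finiteDimensional (F := F) hx
    exact ⟨x, 1, one_pos, hx, isSeparable_adjoin, (pow_one x).symm⟩
  | prime hp =>
    have : Fact p.Prime := ⟨hp⟩
    have : CharP F p := charP_of_injective_algebraMap (algebraMap K F).injective p
    have main : ∀ (d : ℕ) (x : F), Transcendental K x → Module.finrank K⟮x⟯ F ≤ d →
        ∃ (g : F) (m : ℕ), 0 < m ∧ Transcendental K g ∧ Algebra.IsSeparable K⟮g⟯ F ∧
          x = g ^ m := by
      intro d
      induction d with
      | zero =>
        intro x hx hd
        have := FunField.finiteDimensional (F := F) hx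
        have : 0 < Module.finrank K⟮x⟯ F := Module.finrank_pos
        omega
      | succ d ih =>
        intro x hx hd
        have := FunField.finiteDimensional (F := F) hx
        by_cases hsep : Algebra.IsSeparable K⟮x⟯ F
        · exact ⟨x, 1, one_pos, hx, hsep, (pow_one x).symm⟩
        · obtain ⟨g, rfl⟩ := exists_pow_eq_of_not_isSeparable p hx hsep
          have hg := transcendental_of_pow hx
          have := FunField.finiteDimensional (F := F) hg
          have h1 := finrank_adjoin_pow (F := F) p hg
          have h2 : 0 < Module.finrank K⟮g⟯ F := Module.finrank_pos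
          have h3 : Module.finrank K⟮g⟯ F < Module.finrank K⟮g ^ p⟯ F := by
            rw [h1]
            exact (Nat.lt_mul_iff_one_lt_left h2).mpr hp.one_lt
          obtain ⟨g', m, hm, hg', hsep', rfl⟩ := ih g hg (by omega)
          exact ⟨g', m * p, Nat.mul_pos hm hp.pos, hg', hsep', (pow_mul _ _ _).symm⟩
    exact main _ x hx le_rfl

variable (K F) in
/-- Existence of a separating element. -/
theorem exists_separating : ∃ x : F, Transcendental K x ∧ FiniteDimensional K⟮x⟯ F ∧
    Algebra.IsSeparable K⟮x⟯ F := by
  obtain ⟨x, hx, -⟩ := FunField.out (K := K) (F := F)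
  obtain ⟨g, m, -, hg, hsep, -⟩ := exists_sep hx
  exact ⟨g, hg, FunField.finiteDimensional hg, hsep⟩

theorem sum_ord_pos (hx : Transcendental K x) :
    ∃ hfin : {v : Place K F | 0 < v.ord x}.Finite,
      ∑ v ∈ hfin.toFinset, v.ord x = Module.finrank K⟮x⟯ F := by
  obtain ⟨g, m, hm, hg, hsep, rfl⟩ := exists_sep hx
  obtain ⟨hfin, hsum⟩ := sum_ord_pos_sep (F := F) hg hsep
  have hset : {v : Place K F | 0 < v.ord (g ^ m)} = {v : Place K F | 0 < v.ord g} := by
    ext v
    simp only [Set.mem_ofPred_eq]
    rw [← zpow_natCast, v.ord_zpow]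
    constructor
    · intro h
      by_contra h0
      have : (m : ℤ) * v.ord g ≤ 0 := mul_nonpos_of_nonneg_of_nonpos (by positivity) (by omega)
      omega
    · intro h
      have : (0 : ℤ) < m := by exact_mod_cast hm
      positivity
  have hfin' : {v : Place K F | 0 < v.ord (g ^ m)}.Finite := hset ▸ hfin
  refine ⟨hfin', ?_⟩
  have h1 : hfin'.toFinset = hfin.toFinset := by
    ext v
    simp only [Set.Finite.mem_toFinset]
    rw [hset]
  rw [h1, finrank_adjoin_pow (F := F) m hg, Nat.cast_mul, ← hsum, Finset.mul_sum]
  refine Finset.sum_congr rfl fun v _ => ?_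
  rw [← zpow_natCast, v.ord_zpow]

theorem finite_setOf_ord_pos (hx : Transcendental K x) :
    {v : Place K F | 0 < v.ord x}.Finite :=
  (sum_ord_pos hx).choose

/-- Every nonconstant function has a zero. -/
theorem exists_ord_pos (hx : Transcendental K x) : ∃ v : Place K F, 0 < v.ord x := by
  obtain ⟨hfin, hsum⟩ := sum_ord_pos (F := F) hx
  have := FunField.finiteDimensional (F := F) hx
  have h2 : 0 < Module.finrank K⟮x⟯ F := Module.finrank_pos
  by_contra h
  push Not at h
  have : hfin.toFinset = ∅ := by
    ext v
    simp only [Set.Finite.mem_toFinset, Set.mem_ofPred_eq, Finset.notMem_empty, iff_false, not_lt]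
    exact h v
  rw [this, Finset.sum_empty] at hsum
  omega

theorem exists_ord_neg (hx : Transcendental K x) : ∃ v : Place K F, v.ord x < 0 := by
  obtain ⟨v, hv⟩ := exists_ord_pos (F := F) (transcendental_inv hx)
  refine ⟨v, ?_⟩
  rw [v.ord_inv] at hv
  omega

/-- A function without poles is constant. -/
theorem mem_range_of_forall_ord_nonneg {f : F} (h : ∀ v : Place K F, 0 ≤ v.ord f) :
    f ∈ (algebraMap K F).range := by
  by_contra hf
  obtain ⟨v, hv⟩ := exists_ord_neg (F := F) (transcendental_of_notMem_range hf)
  exact absurd (h v) (not_le.mpr hv)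

/-- A function with trivial divisor is constant. -/
theorem exists_eq_algebraMap_of_forall_ord_eq_zero {f : F} (h : ∀ v : Place K F, v.ord f = 0) :
    ∃ a : K, f = algebraMap K F a := by
  obtain ⟨a, ha⟩ := mem_range_of_forall_ord_nonneg (K := K) (fun v => (h v).ge)
  exact ⟨a, ha.symm⟩

theorem finite_setOf_ord_neg (hx : Transcendental K x) :
    {v : Place K F | v.ord x < 0}.Finite := by
  have h := finite_setOf_ord_pos (F := F) (transcendental_inv hx)
  refine h.subset fun v hv => ?_
  simp only [Set.mem_ofPred_eq, v.ord_inv] at hv ⊢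
  omega

theorem sum_ord_neg (hx : Transcendental K x) :
    ∑ v ∈ (finite_setOf_ord_neg (K := K) hx).toFinset, v.ord x = -Module.finrank K⟮x⟯ F := by
  obtain ⟨hfin, hsum⟩ := sum_ord_pos (F := F) (transcendental_inv hx)
  rw [adjoin_inv] at hsum
  rw [← hsum, ← Finset.sum_neg_distrib]
  refine Finset.sum_congr ?_ fun v _ => ?_
  · ext v; simp [v.ord_inv]
  · rw [v.ord_inv, neg_neg]

theorem finite_setOf_ord_ne_zero {f : F} (hf : f ≠ 0) : {v : Place K F | v.ord f ≠ 0}.Finite := by
  by_cases hfK : f ∈ (algebraMap K F).range
  · obtain ⟨a, rfl⟩ := hfK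
    have : {v : Place K F | v.ord (algebraMap K F a) ≠ 0} = ∅ := by
      ext v; simp [ord_algebraMap]
    rw [this]
    exact Set.finite_empty
  · have hft := transcendental_of_notMem_range hfK
    refine ((finite_setOf_ord_pos hft).union (finite_setOf_ord_neg hft)).subset fun v hv => ?_
    simp only [Set.mem_ofPred_eq, Set.mem_union] at hv ⊢
    omega

variable (K F) in
theorem hasPrincipalDivisors :
    HasPrincipalDivisors K F where
  exists_divisor f hf := by
    classical
    by_cases hfK : f ∈ (algebraMap K F).range
    · obtain ⟨a, rfl⟩ := hfK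
      exact ⟨0, fun v => by rw [ord_algebraMap]; rfl, map_zero _⟩
    have hft := transcendental_of_notMem_range hfK
    have hfin : {v : Place K F | v.ord f ≠ 0}.Finite := by
      refine ((finite_setOf_ord_pos hft).union (finite_setOf_ord_neg hft)).subset fun v hv => ?_
      simp only [Set.mem_ofPred_eq, Set.mem_union] at hv ⊢
      omega
    let D : Divisor K F := Finsupp.ofSupportFinite (fun v => v.ord f) hfin
    refine ⟨D, fun v => rfl, ?_⟩
    obtain ⟨hfin1, hsum1⟩ := sum_ord_pos (F := F) hft
    have hsum2 := sum_ord_neg (F := F) hft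
    have hdeg : Divisor.degree D = ∑ v ∈ D.support, D v := by
      show (Finsupp.liftAddHom fun v : Place K F => AddMonoidHom.mulRight (v.deg : ℤ)) D = _
      rw [Finsupp.liftAddHom_apply, Finsupp.sum]
      refine Finset.sum_congr rfl fun v _ => ?_
      rw [deg_eq_one]
      simp
    have hsupp : D.support = hfin1.toFinset ∪ (finite_setOf_ord_neg (K := K) hft).toFinset := by
      ext v
      simp only [Finsupp.mem_support_iff, Finset.mem_union, Set.Finite.mem_toFinset,
        Set.mem_ofPred_eq]
      show v.ord f ≠ 0 ↔ _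
      omega
    have hdisj : Disjoint hfin1.toFinset (finite_setOf_ord_neg (K := K) hft).toFinset := by
      rw [Finset.disjoint_left]
      intro v
      simp only [Set.Finite.mem_toFinset, Set.mem_ofPred_eq]
      omega
    rw [hdeg, hsupp, Finset.sum_union hdisj]
    show ∑ v ∈ hfin1.toFinset, v.ord f +
      ∑ v ∈ (finite_setOf_ord_neg (K := K) hft).toFinset, v.ord f = 0
    rw [hsum1, hsum2]
    ring

end General

end Fermat.Agent.H18
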