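import Fermat.Agent.H42GaussMod
import Fermat.Agent.H18Div

/-!
# `ReductionInputsAlong` for modular curves at good primes
-/

set_option autoImplicit false

open Polynomial Module IntermediateField ModularCurve AlgebraicCurve

namespace Fermat.Agent.H42

section Rel

variable {K E : Type*} [Field K] [Field E] [Algebra K E]

theorem relfinrank_eq_finrank_adjoin (F : IntermediateField K E) {x : E} (hx : x ∈ F) :
    relfinrank K⟮x⟯ F = finrank K⟮(⟨x, hx⟩ : F)⟯ F := by
  have h1 : (K⟮(⟨x, hx⟩ : F)⟯).map F.val = K⟮x⟯ := by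
    rw [adjoin_map, Set.image_singleton]
    rfl
  have h2 : (⊤ : IntermediateField K F).map F.val = F := by
    rw [← AlgHom.fieldRange_eq_map, fieldRange_val]
  calc relfinrank K⟮x⟯ F
      = relfinrank ((K⟮(⟨x, hx⟩ : F)⟯).map F.val) ((⊤ : IntermediateField K F).map F.val) := by
        rw [h1, h2]
    _ = relfinrank K⟮(⟨x, hx⟩ : F)⟯ ⊤ := relfinrank_map_map _ _ _
    _ = finrank K⟮(⟨x, hx⟩ : F)⟯ F := relfinrank_top_right _

theorem transcendental_jqModC (K : Type*) [Field K] : Transcendental K (jqModC K) := by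
  rw [transcendental_iff]
  exact transc_jqModC K

theorem transcendental_jFull (K : Type*) [Field K] (N : ℕ) :
    Transcendental K (⟨jqModC K, jqModC_mem_full K N⟩ : modularFunctionFieldFullC K N) := by
  have h := transcendental_jqModC K
  intro h1
  exact h (h1.algHom (modularFunctionFieldFullC K N).val)

theorem funField_full {K : Type*} [Field K] {N : ℕ}
    (h : relfinrank K⟮jqModC K⟯ (modularFunctionFieldFullC K N) ≠ 0) :
    H94.FunField K (modularFunctionFieldFullC K N) where
  out := by
    refine ⟨⟨jqModC K, jqModC_mem_full K N⟩, transcendental_jFull K N, ?_⟩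
    rw [relfinrank_eq_finrank_adjoin _ (jqModC_mem_full K N)] at h
    exact FiniteDimensional.of_finrank_pos (Nat.pos_of_ne_zero h)

end Rel

section Principal

variable {L : Type*} [Field L] [Algebra ℚ L] (A : ValuationSubring L) {k : Type*} [Field k]
  (π : A →+* k) (N : ℕ) (hπ : Function.Surjective π) (hdeg : DegLE L k N)

theorem funField_left (hdeg : DegLE L k N) :
    H94.FunField L (laurentBaseChange L (modularFunctionFieldFull N)) := by
  rw [laurentBaseChange_full]
  exact funField_full hdeg.1

omit [Algebra ℚ L] in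
theorem funField_right (hdeg : DegLE L k N) :
    H94.FunField k (modularFunctionFieldFullC k N) :=
  funField_full fun h => hdeg.1 (Nat.le_zero.mp (h ▸ hdeg.2))

include hπ hdeg in
/-- Principal divisors are generated by divisors of integral functions with nonzero reduction. -/
theorem principalGeneratedByIntegral
    [HasPrincipalDivisors L (laurentBaseChange L (modularFunctionFieldFull N))] :
    PrincipalGeneratedByIntegral A π N := by
  intro D hD
  obtain ⟨f, hf, hDf⟩ := hD
  obtain ⟨c, y, z, hc, hy, hz, h⟩ := (modGauss A π N hπ hdeg).exists_eq_const_mul hf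
  have key : ∀ y : (modGauss A π N hπ hdeg).B, (modGauss A π N hπ hdeg).ρ y ≠ 0 →
      ∃ D : Divisor L (laurentBaseChange L (modularFunctionFieldFull N)),
        D ∈ integralPrincipalDivisors A π N ∧ ∀ v, D v = v.ord (y : laurentBaseChange L _) := by
    rintro ⟨⟨g, hf'⟩, y, hyg⟩ hy
    obtain rfl : coeffMap A.subtype y = g := hyg
    have hne : (⟨coeffMap A.subtype y, hf'⟩ :
        laurentBaseChange L (modularFunctionFieldFull N)) ≠ 0 :=
      (modGauss A π N hπ hdeg).coe_ne_zero hy
    obtain ⟨D, hD, -⟩ := HasPrincipalDivisors.exists_divisor (K := L)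
      (⟨coeffMap A.subtype y, hf'⟩ : laurentBaseChange L (modularFunctionFieldFull N)) hne
    refine ⟨D, ⟨y, hf', coeffMap_mem_full A π N hπ hdeg y hf', ?_, hD⟩, hD⟩
    intro h0
    apply hy
    apply Subtype.ext
    exact (coe_modGauss_ρ A π N hπ hdeg y hf').trans h0
  obtain ⟨Dy, hDy, hDy'⟩ := key y hy
  obtain ⟨Dz, hDz, hDz'⟩ := key z hz
  have hyF := (modGauss A π N hπ hdeg).coe_ne_zero hy
  have hzF := (modGauss A π N hπ hdeg).coe_ne_zero hz
  have hcF : algebraMap L (laurentBaseChange L (modularFunctionFieldFull N)) c ≠ 0 :=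
    (_root_.map_ne_zero _).mpr hc
  have hDeq : D = Dy - Dz := by
    ext v
    rw [Finsupp.sub_apply, hDf, hDy', hDz']
    have h1 := congrArg v.ord h
    rw [v.ord_mul hf hzF, v.ord_mul hcF hyF, H94.ord_algebraMap, zero_add] at h1
    omega
  rw [hDeq]
  exact AddSubgroup.sub_mem _ (AddSubgroup.subset_closure hDy) (AddSubgroup.subset_closure hDz)

end Principal

section Inputs

variable {L : Type*} [Field L] [Algebra ℚ L] (A : ValuationSubring L) {k : Type*} [Field k]
  (π : A →+* k) (N : ℕ) (hπ : Function.Surjective π) [IsLocalHom π] (hdeg : DegLE L k N)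

/-- helper40's reduction data for modular function fields. -/
noncomputable def modReductionData :
    H40.ReductionData L (laurentBaseChange L (modularFunctionFieldFull N)) k
      (modularFunctionFieldFullC k N) :=
  (modGauss A π N hπ hdeg).toReductionData hπ (modGauss_frac A π N hπ hdeg)

theorem modReductionData_ρ (y : LaurentSeries A)
    (hy : coeffMap A.subtype y ∈ laurentBaseChange L (modularFunctionFieldFull N))
    (hyk : coeffMap π y ∈ modularFunctionFieldFullC k N)
    (h : (⟨coeffMap A.subtype y, hy⟩ : laurentBaseChange L (modularFunctionFieldFull N)) ∈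
      (modReductionData A π N hπ hdeg).B) :
    (modReductionData A π N hπ hdeg).ρ ⟨⟨coeffMap A.subtype y, hy⟩, h⟩ =
      ⟨coeffMap π y, hyk⟩ := by
  have h1 : (modReductionData A π N hπ hdeg).ρ ⟨⟨coeffMap A.subtype y, hy⟩, h⟩ =
      (modGauss A π N hπ hdeg).ρ ⟨⟨coeffMap A.subtype y, hy⟩, ⟨y, rfl⟩⟩ :=
    (modGauss A π N hπ hdeg).res_coe ⟨⟨coeffMap A.subtype y, hy⟩, ⟨y, rfl⟩⟩
  rw [h1]
  exact Subtype.ext (coe_modGauss_ρ A π N hπ hdeg y hy)

include hπ hdeg in
/-- The reduction map on places exists, given equality of genera. -/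
theorem reductionInputsAlong [IsAlgClosed L] [IsAlgClosed k] {g c : ℤ}
    (hF : H40.RiemannFor L (laurentBaseChange L (modularFunctionFieldFull N)) g c)
    (hE : H40.RiemannFor k (modularFunctionFieldFullC k N) g c)
    (hpole : (modReductionData A π N hπ hdeg).PoleIneq) (hgc : g ≤ c) (hc0 : 0 ≤ c) :
    ReductionInputsAlong A π N := by
  have := funField_left (k := k) N hdeg
  have := funField_right (L := L) N hdeg
  have : HasPrincipalDivisors L (laurentBaseChange L (modularFunctionFieldFull N)) :=
    H18.hasPrincipalDivisors _ _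
  have : HasPrincipalDivisors k (modularFunctionFieldFullC k N) := H18.hasPrincipalDivisors _ _
  have : Infinite k := IsAlgClosed.instInfinite
  have hx := transcendental_jFull k N
  obtain ⟨v, -⟩ := H18.exists_ord_pos hx
  have : Nonempty (Place k (modularFunctionFieldFullC k N)) := ⟨v⟩
  have : Nonempty (Place L (laurentBaseChange L (modularFunctionFieldFull N))) := by
    obtain ⟨x, hx, -⟩ := (funField_left (k := k) N hdeg).out
    obtain ⟨v, -⟩ := H18.exists_ord_pos hx
    exact ⟨v⟩
  have hdF : ∀ v : Place L (laurentBaseChange L (modularFunctionFieldFull N)), v.deg = 1 :=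
    H94.deg_eq_one
  have hdE : ∀ v : Place k (modularFunctionFieldFullC k N), v.deg = 1 := H94.deg_eq_one
  obtain ⟨r, -, hr⟩ := (modReductionData A π N hπ hdeg).exists_placeReduction hF hE hdF hdE
    hpole hgc hc0
  refine ⟨r, ⟨fun P => by rw [hdF, hdE], fun y hy hyk hne D hD Q => ?_⟩,
    principalGeneratedByIntegral A π N hπ hdeg⟩
  have hB : (⟨coeffMap A.subtype y, hy⟩ : laurentBaseChange L (modularFunctionFieldFull N)) ∈
      (modReductionData A π N hπ hdeg).B :=
    (modGauss A π N hπ hdeg).le_loc ⟨y, rfl⟩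
  have h1 := modReductionData_ρ A π N hπ hdeg y hy hyk hB
  have h2 := hr ⟨_, hB⟩ (by
    rw [h1]
    exact fun h0 => hne (congrArg Subtype.val h0)) D hD Q
  rw [h2, h1]

end Inputs

end Fermat.Agent.H42
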