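import Fermat.Agent.H45P1Basic

set_option autoImplicit false

open CongruenceSubgroup ModularGroup MatrixGroups

namespace Fermat.Agent.H45

open ModularCurve (dedekindPsi)

/-! ### The index of `Γ₀(N)` -/

theorem Gamma0_mul_le (M p : ℕ) : Gamma0 (p * M) ≤ Gamma0 M := by
  intro g hg
  rw [Gamma0_mem, ZMod.intCast_zmod_eq_zero_iff_dvd] at hg ⊢
  exact (by push_cast; exact Dvd.intro_left (p : ℤ) rfl : (M : ℤ) ∣ ((p * M : ℕ) : ℤ)).trans hg

/-- Relative index: `Γ₀(pM)` has index `p` in `Γ₀(M)` when `p ∣ M`. -/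
theorem relIndex_of_dvd {M p : ℕ} (hp : p.Prime) (hM : M ≠ 0) (hpM : p ∣ M) :
    (Gamma0 (p * M)).relIndex (Gamma0 M) = p := by
  have : Fact p.Prime := ⟨hp⟩
  have hMZ : (M : ℤ) ≠ 0 := by exact_mod_cast hM
  -- the lower left entry divided by M
  have hdiv : ∀ k : Gamma0 M, ∃ c : ℤ, (k : SL(2, ℤ)) 1 0 = M * c := by
    intro k
    have := k.2
    rw [Gamma0_mem, ZMod.intCast_zmod_eq_zero_iff_dvd] at this
    exact this
  choose C hC using hdiv
  have hne : ∀ k : Gamma0 M, (((k : SL(2, ℤ)) 0 0 : ℤ) : ZMod p) ≠ 0 := by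
    intro k h0
    rw [ZMod.intCast_zmod_eq_zero_iff_dvd] at h0
    have h1 : (p : ℤ) ∣ (k : SL(2, ℤ)) 1 0 := by
      rw [hC k]; exact (Int.natCast_dvd_natCast.mpr hpM).mul_right _
    have h2 := (isCoprime_col (k : SL(2, ℤ))).isUnit_of_dvd' h0 h1
    exact (Nat.prime_iff_prime_int.mp hp).not_unit h2
  have hrel : ∀ k l : Gamma0 M,
      (QuotientGroup.mk k : Gamma0 M ⧸ (Gamma0 (p * M)).subgroupOf (Gamma0 M)) = QuotientGroup.mk l ↔
      (p : ℤ) ∣ (k : SL(2, ℤ)) 0 0 * C l - (l : SL(2, ℤ)) 0 0 * C k := by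
    intro k l
    rw [QuotientGroup.eq, Subgroup.mem_subgroupOf, Gamma0_mem, ZMod.intCast_zmod_eq_zero_iff_dvd]
    have h1 : ((k⁻¹ * l : Gamma0 M) : SL(2, ℤ)) = (k : SL(2, ℤ))⁻¹ * (l : SL(2, ℤ)) := rfl
    rw [h1, inv_mul_one_zero, hC l, hC k]
    have h2 : (k : SL(2, ℤ)) 0 0 * (↑M * C l) - (l : SL(2, ℤ)) 0 0 * (↑M * C k) =
      ((k : SL(2, ℤ)) 0 0 * C l - (l : SL(2, ℤ)) 0 0 * C k) * M := by ring
    rw [h2]
    push_cast
    exact mul_dvd_mul_iff_right hMZ
  have hex : ∀ t : ZMod p, ∃ k : Gamma0 M, (k : SL(2, ℤ)) 0 0 = 1 ∧ C k = t.val := by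
    intro t
    obtain ⟨g, h0, h1⟩ := exists_SL2 (isCoprime_one_left (x := (M : ℤ) * t.val))
    have hg : g ∈ Gamma0 M := by
      rw [Gamma0_mem, ZMod.intCast_zmod_eq_zero_iff_dvd, h1]
      exact Dvd.intro _ rfl
    refine ⟨⟨g, hg⟩, h0, ?_⟩
    have h2 := hC ⟨g, hg⟩
    change g 1 0 = _ at h2
    rw [h1] at h2
    exact (mul_left_cancel₀ hMZ h2).symm
  choose K hK0 hK1 using hex
  have hbij : Function.Bijective (fun t : ZMod p =>
      (QuotientGroup.mk (K t) : Gamma0 M ⧸ (Gamma0 (p * M)).subgroupOf (Gamma0 M))) := by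
    constructor
    · intro s t hst
      simp only at hst
      rw [hrel, hK0, hK0, hK1, hK1, one_mul, one_mul, ← ZMod.intCast_zmod_eq_zero_iff_dvd] at hst
      push_cast at hst
      rw [ZMod.natCast_zmod_val, ZMod.natCast_zmod_val, sub_eq_zero] at hst
      exact hst.symm
    · intro x
      obtain ⟨k, rfl⟩ := QuotientGroup.mk_surjective x
      refine ⟨(C k : ZMod p) * ((((k : SL(2, ℤ)) 0 0 : ℤ) : ZMod p))⁻¹, ?_⟩
      simp only
      rw [hrel, hK0, hK1, one_mul, ← ZMod.intCast_zmod_eq_zero_iff_dvd]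
      push_cast
      rw [ZMod.natCast_zmod_val]
      have h := hne k
      field_simp
      ring
  rw [Subgroup.relIndex, Subgroup.index, ← Nat.card_congr (Equiv.ofBijective _ hbij),
    Nat.card_zmod]

/-- Relative index: `Γ₀(pM)` has index `p + 1` in `Γ₀(M)` when `p ∤ M`. -/
theorem relIndex_of_not_dvd {M p : ℕ} (hp : p.Prime) (hM : M ≠ 0) (hpM : ¬ p ∣ M) :
    (Gamma0 (p * M)).relIndex (Gamma0 M) = p + 1 := by
  have : Fact p.Prime := ⟨hp⟩
  have hMZ : (M : ℤ) ≠ 0 := by exact_mod_cast hM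
  have hpint : Prime (p : ℤ) := Nat.prime_iff_prime_int.mp hp
  have hdiv : ∀ k : Gamma0 M, ∃ c : ℤ, (k : SL(2, ℤ)) 1 0 = M * c := by
    intro k
    have := k.2
    rw [Gamma0_mem, ZMod.intCast_zmod_eq_zero_iff_dvd] at this
    exact this
  choose C hC using hdiv
  have hrel : ∀ k l : Gamma0 M,
      (QuotientGroup.mk k : Gamma0 M ⧸ (Gamma0 (p * M)).subgroupOf (Gamma0 M)) = QuotientGroup.mk l ↔
      (p : ℤ) ∣ (k : SL(2, ℤ)) 0 0 * C l - (l : SL(2, ℤ)) 0 0 * C k := by
    intro k l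
    rw [QuotientGroup.eq, Subgroup.mem_subgroupOf, Gamma0_mem, ZMod.intCast_zmod_eq_zero_iff_dvd]
    have h1 : ((k⁻¹ * l : Gamma0 M) : SL(2, ℤ)) = (k : SL(2, ℤ))⁻¹ * (l : SL(2, ℤ)) := rfl
    rw [h1, inv_mul_one_zero, hC l, hC k]
    have h2 : (k : SL(2, ℤ)) 0 0 * (↑M * C l) - (l : SL(2, ℤ)) 0 0 * (↑M * C k) =
      ((k : SL(2, ℤ)) 0 0 * C l - (l : SL(2, ℤ)) 0 0 * C k) * M := by ring
    rw [h2]
    push_cast
    exact mul_dvd_mul_iff_right hMZ
  have hex : ∀ t : ZMod p, ∃ k : Gamma0 M, (k : SL(2, ℤ)) 0 0 = 1 ∧ C k = t.val := by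
    intro t
    obtain ⟨g, h0, h1⟩ := exists_SL2 (isCoprime_one_left (x := (M : ℤ) * t.val))
    have hg : g ∈ Gamma0 M := by
      rw [Gamma0_mem, ZMod.intCast_zmod_eq_zero_iff_dvd, h1]
      exact Dvd.intro _ rfl
    refine ⟨⟨g, hg⟩, h0, ?_⟩
    have h2 := hC ⟨g, hg⟩
    change g 1 0 = _ at h2
    rw [h1] at h2
    exact (mul_left_cancel₀ hMZ h2).symm
  choose K hK0 hK1 using hex
  have hinf : ∃ k : Gamma0 M, (k : SL(2, ℤ)) 0 0 = p ∧ C k = 1 := by
    have hcop : IsCoprime (p : ℤ) (M : ℤ) :=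
      Nat.isCoprime_iff_coprime.mpr ((Nat.Prime.coprime_iff_not_dvd hp).mpr hpM)
    obtain ⟨g, h0, h1⟩ := exists_SL2 hcop
    have hg : g ∈ Gamma0 M := by
      rw [Gamma0_mem, ZMod.intCast_zmod_eq_zero_iff_dvd, h1]
    refine ⟨⟨g, hg⟩, h0, ?_⟩
    have h2 := hC ⟨g, hg⟩
    change g 1 0 = _ at h2
    rw [h1] at h2
    exact (mul_left_cancel₀ hMZ ((mul_one _).trans h2)).symm
  obtain ⟨Kinf, hI0, hI1⟩ := hinf
  have hbij : Function.Bijective (fun t : Option (ZMod p) =>
      (QuotientGroup.mk (t.elim Kinf K) :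
        Gamma0 M ⧸ (Gamma0 (p * M)).subgroupOf (Gamma0 M))) := by
    constructor
    · intro s t hst
      simp only at hst
      rw [hrel] at hst
      rcases s with _ | s <;> rcases t with _ | t
      · rfl
      · exfalso
        simp only [Option.elim] at hst
        rw [hK0, hK1, hI0, hI1, one_mul] at hst
        have h1 := (dvd_sub_right (Dvd.intro _ rfl)).mp hst
        exact hpint.not_dvd_one h1
      · exfalso
        simp only [Option.elim] at hst
        rw [hK0, hK1, hI0, hI1, one_mul] at hst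
        have h1 := (dvd_sub_left (Dvd.intro _ rfl)).mp hst
        exact hpint.not_dvd_one h1
      · simp only [Option.elim] at hst
        rw [hK0, hK0, hK1, hK1, one_mul, one_mul, ← ZMod.intCast_zmod_eq_zero_iff_dvd] at hst
        push_cast at hst
        rw [ZMod.natCast_zmod_val, ZMod.natCast_zmod_val, sub_eq_zero] at hst
        rw [hst]
    · intro x
      obtain ⟨k, rfl⟩ := QuotientGroup.mk_surjective x
      by_cases h : (((k : SL(2, ℤ)) 0 0 : ℤ) : ZMod p) = 0
      · refine ⟨none, ?_⟩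
        simp only [Option.elim]
        rw [hrel, hI0, hI1, mul_one]
        rw [ZMod.intCast_zmod_eq_zero_iff_dvd] at h
        exact dvd_sub (Dvd.intro _ rfl) h
      · refine ⟨some ((C k : ZMod p) * ((((k : SL(2, ℤ)) 0 0 : ℤ) : ZMod p))⁻¹), ?_⟩
        simp only [Option.elim]
        rw [hrel, hK0, hK1, one_mul, ← ZMod.intCast_zmod_eq_zero_iff_dvd]
        push_cast
        rw [ZMod.natCast_zmod_val]
        field_simp
        ring
  rw [Subgroup.relIndex, Subgroup.index, ← Nat.card_congr (Equiv.ofBijective _ hbij),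
    Finite.card_option, Nat.card_zmod]

/-! ### Recursion for the Dedekind psi function -/

theorem dedekindPsi_mul_of_dvd {M p : ℕ} (hp : p.Prime) (hM : M ≠ 0) (hpM : p ∣ M) :
    dedekindPsi (p * M) = p * dedekindPsi M := by
  unfold dedekindPsi
  rw [Finset.mul_sum]
  have hset : ((p * M).divisors.filter Squarefree) = (M.divisors.filter Squarefree) := by
    ext d
    simp only [Finset.mem_filter, Nat.mem_divisors, ne_eq, mul_eq_zero, hp.ne_zero, hM, or_self,
      not_false_eq_true, and_true, false_or]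
    constructor
    · rintro ⟨h1, h2⟩
      refine ⟨?_, h2⟩
      rw [← Nat.factorization_le_iff_dvd h2.ne_zero hM]
      intro q
      have h3 : d.factorization q ≤ 1 := h2.natFactorization_le_one q
      by_cases hq : q.Prime ∧ q ∣ d
      · have hqM : q ∣ M := by
          rcases (Nat.Prime.dvd_mul hq.1).mp (hq.2.trans h1) with h | h
          · exact (Nat.prime_dvd_prime_iff_eq hq.1 hp).mp h ▸ hpM
          · exact h
        exact h3.trans ((hq.1.dvd_iff_one_le_factorization hM).mp hqM)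
      · have : d.factorization q = 0 := by
          rw [Nat.factorization_eq_zero_iff]
          tauto
        rw [this]; exact Nat.zero_le _
    · rintro ⟨h1, h2⟩
      exact ⟨h1.mul_left p, h2⟩
  rw [hset]
  refine Finset.sum_congr rfl fun d hd => ?_
  have hdM : d ∣ M := Nat.dvd_of_mem_divisors (Finset.mem_filter.mp hd).1
  exact Nat.mul_div_assoc p hdM

theorem dedekindPsi_mul_of_not_dvd {M p : ℕ} (hp : p.Prime) (hM : M ≠ 0) (hpM : ¬ p ∣ M) :
    dedekindPsi (p * M) = (p + 1) * dedekindPsi M := by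
  have hcop : Nat.Coprime p M := (Nat.Prime.coprime_iff_not_dvd hp).mpr hpM
  unfold dedekindPsi
  have hset : ((p * M).divisors.filter Squarefree) =
      (M.divisors.filter Squarefree) ∪ ((M.divisors.filter Squarefree).image (p * ·)) := by
    ext d
    simp only [Finset.mem_filter, Nat.mem_divisors, Finset.mem_union, Finset.mem_image, ne_eq,
      mul_eq_zero, hp.ne_zero, hM, or_self, not_false_eq_true, and_true, false_or]
    constructor
    · rintro ⟨h1, h2⟩
      by_cases hpd : p ∣ d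
      · right
        obtain ⟨e, rfl⟩ := hpd
        exact ⟨e, ⟨Nat.dvd_of_mul_dvd_mul_left hp.pos h1, h2.squarefree_of_dvd (Dvd.intro_left p rfl)⟩,
          rfl⟩
      · left
        exact ⟨Nat.Coprime.dvd_of_dvd_mul_left
          (((Nat.Prime.coprime_iff_not_dvd hp).mpr hpd).symm) h1, h2⟩
    · rintro (⟨h1, h2⟩ | ⟨e, ⟨h1, h2⟩, rfl⟩)
      · exact ⟨h1.mul_left p, h2⟩
      · refine ⟨mul_dvd_mul_left p h1, ?_⟩
        exact (Nat.squarefree_mul (hcop.coprime_dvd_right h1)).mpr ⟨hp.prime.squarefree, h2⟩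
  have hdisj : Disjoint (M.divisors.filter Squarefree)
      ((M.divisors.filter Squarefree).image (p * ·)) := by
    rw [Finset.disjoint_left]
    intro d hd hd'
    rw [Finset.mem_image] at hd'
    obtain ⟨e, -, rfl⟩ := hd'
    have h1 : p * e ∣ M := Nat.dvd_of_mem_divisors (Finset.mem_filter.mp hd).1
    exact hpM ((Dvd.intro _ rfl).trans h1)
  rw [hset, Finset.sum_union hdisj, Finset.sum_image (fun a _ b _ h => by
    simpa [hp.ne_zero] using h), add_mul, one_mul, Finset.mul_sum]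
  congr 1
  · refine Finset.sum_congr rfl fun d hd => ?_
    have hdM : d ∣ M := Nat.dvd_of_mem_divisors (Finset.mem_filter.mp hd).1
    exact Nat.mul_div_assoc p hdM
  · refine Finset.sum_congr rfl fun d hd => ?_
    exact Nat.mul_div_mul_left M d hp.pos

/-- The index of `Γ₀(N)` in `SL₂(ℤ)` is `ψ(N)`. -/
theorem index_Gamma0 (N : ℕ) [NeZero N] : (Gamma0 N).index = dedekindPsi N := by
  have hmain : ∀ n : ℕ, n ≠ 0 → (Gamma0 n).index = dedekindPsi n := by
    intro n
    induction n using induction_on_primes with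
    | zero => intro h; exact absurd rfl h
    | one =>
      intro _
      rw [ModularCurve.dedekindPsi_one, Subgroup.index_eq_one]
      ext g
      simp only [Gamma0_mem, Subgroup.mem_top, iff_true]
      exact Subsingleton.elim _ _
    | prime_mul p M hp ih =>
      intro hpM0
      have hM : M ≠ 0 := fun h => hpM0 (by rw [h, mul_zero])
      rw [← Subgroup.relIndex_mul_index (Gamma0_mul_le M p), ih hM]
      by_cases h : p ∣ M
      · rw [relIndex_of_dvd hp hM h, dedekindPsi_mul_of_dvd hp hM h]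
      · rw [relIndex_of_not_dvd hp hM h, dedekindPsi_mul_of_not_dvd hp hM h]
  exact hmain N (NeZero.ne N)

theorem natCard_P1 (N : ℕ) [NeZero N] : Nat.card (P1 N) = dedekindPsi N := index_Gamma0 N

end Fermat.Agent.H45
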