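import Fermat.Agent.H66NotMem
import Fermat.Agent.H45P1Index

/-!
# The degree of `K(j(d τ) : d ∣ N)` over `K(j)`
-/

set_option autoImplicit false
set_option linter.unusedSectionVars false

noncomputable section

open ModularCurve Polynomial IntermediateField

namespace Fermat.Agent.H66

section General

variable {K L : Type*} [Field K] [Field L] [Algebra K L]

theorem extendScalars_eq_adjoin {A B : IntermediateField K L} (h : A ≤ B) {x : L}
    (hx : x ∈ B) (hgen : ∀ F : IntermediateField K L, A ≤ F → x ∈ F → B ≤ F) :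
    extendScalars h = A⟮x⟯ := by
  apply le_antisymm
  · intro y hy
    rw [mem_extendScalars] at hy
    have h1 := hgen (restrictScalars K A⟮x⟯)
      (fun z hz => (A⟮x⟯).algebraMap_mem ⟨z, hz⟩) (mem_adjoin_simple_self A x)
    exact h1 hy
  · rw [adjoin_simple_le_iff, mem_extendScalars]
    exact hx

theorem relfinrank_eq_natDegree {A B : IntermediateField K L} (h : A ≤ B) {x : L}
    (hx : x ∈ B) (hgen : ∀ F : IntermediateField K L, A ≤ F → x ∈ F → B ≤ F)
    (hint : IsIntegral A x) : relfinrank A B = (minpoly A x).natDegree := by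
  rw [relfinrank_eq_finrank_of_le h, extendScalars_eq_adjoin h hx hgen, adjoin.finrank hint]

end General

variable (K : Type*) [Field K]

theorem full_one : modularFunctionFieldFullC K 1 = K⟮jqModC K⟯ := by
  apply le_antisymm
  · rw [full_le_iff one_ne_zero]
    intro d hd
    rw [Nat.dvd_one] at hd
    rw [hd, J_one]
    exact mem_adjoin_simple_self K _
  · rw [adjoin_simple_le_iff]
    exact jqModC_mem_full K 1

theorem adjoin_j_le_full (N : ℕ) : K⟮jqModC K⟯ ≤ modularFunctionFieldFullC K N := by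
  rw [adjoin_simple_le_iff]
  exact jqModC_mem_full K N

theorem full_mono {N M : ℕ} (hN : N ≠ 0) (hM : M ≠ 0) (h : N ∣ M) :
    modularFunctionFieldFullC K N ≤ modularFunctionFieldFullC K M := by
  rw [full_le_iff hN]
  exact fun d hd => J_mem hM (hd.trans h)

variable {K}

/-- the induction step -/
theorem relfinrank_step (hK : HasRoots K) {p a m : ℕ} [Fact p.Prime] (hm : ¬ p ∣ m)
    (hm0 : (m : K) ≠ 0) (hp0 : (p : K) ≠ 0)
    (hpos : relfinrank K⟮jqModC K⟯ (modularFunctionFieldFullC K (p ^ a * m)) ≠ 0) :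
    relfinrank K⟮jqModC K⟯ (modularFunctionFieldFullC K (p ^ (a + 1) * m)) =
      (if a = 0 then p + 1 else p) *
        relfinrank K⟮jqModC K⟯ (modularFunctionFieldFullC K (p ^ a * m)) := by
  have hp : p.Prime := Fact.out
  have hm1 : m ≠ 0 := by rintro rfl; exact hm (dvd_zero p)
  have hN : p ^ a * m ≠ 0 := mul_ne_zero (pow_ne_zero _ hp.ne_zero) hm1
  have hN' : p ^ (a + 1) * m ≠ 0 := mul_ne_zero (pow_ne_zero _ hp.ne_zero) hm1
  set k := modularFunctionFieldFullC K (p ^ a * m) with hk
  set k' := modularFunctionFieldFullC K (p ^ (a + 1) * m) with hk'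
  set kp := modularFunctionFieldFullC K p with hkp
  set E₀ : IntermediateField K (LaurentSeries K) := K⟮jqModC K⟯ with hE₀
  set E : IntermediateField K (LaurentSeries K) := K⟮J K p⟯ with hE
  set D := relfinrank E₀ k with hD
  obtain ⟨u, hu⟩ := hK p hp hp0
  have hmod := modEq_field K p u hu
  obtain ⟨Φ, hmon, hdeg, hΦ⟩ := exists_poly _ hmod.phi
  have hkk' : k ≤ k' := full_mono K hN hN' (by rw [pow_succ, mul_assoc]; exact ⟨p, by ring⟩)
  have hE₀k : E₀ ≤ k := adjoin_j_le_full K _
  have hE₀k' : E₀ ≤ k' := adjoin_j_le_full K _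
  -- the generator
  set x := J K (p ^ (a + 1)) with hx
  have hxk' : x ∈ k' := J_mem hN' (dvd_mul_right _ _)
  have hpa : NeZero (p ^ a) := ⟨pow_ne_zero _ hp.ne_zero⟩
  have hya : J K (p ^ a) ∈ k := J_mem hN (dvd_mul_right _ _)
  have hroot : (phiAt K Φ (J K (p ^ a))).eval x = 0 := by
    have := eval_root1 hΦ (p ^ a)
    rwa [← pow_succ'] at this
  have hint : IsIntegral k x := isIntegral_of_root hmon k hya hroot
  have hm0' : relfinrank k k' = (minpoly k x).natDegree :=
    relfinrank_eq_natDegree hkk' hxk' (fun F h1 h2 => J_mem_of hK F hm hm0 hp0 h1 h2) hint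
  have hprod : D * relfinrank k k' = relfinrank E₀ k' := relfinrank_mul_relfinrank hE₀k hkk'
  have hmpos : 0 < (minpoly k x).natDegree := minpoly.natDegree_pos hint
  have hk'pos : relfinrank E₀ k' ≠ 0 := by
    rw [← hprod, hm0']
    exact mul_ne_zero hpos hmpos.ne'
  -- degree of kp over E₀
  have hkpk' : kp ≤ k' := full_mono K hp.ne_zero hN' (by
    rw [pow_succ]; exact ⟨p ^ a * m, by ring⟩)
  have hE₀kp : E₀ ≤ kp := adjoin_j_le_full K _
  have hgenp : ∀ F : IntermediateField K (LaurentSeries K), J K 1 ∈ F → J K p ∈ F → kp ≤ F := by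
    intro F h1 h2
    rw [hkp, full_le_iff hp.ne_zero]
    intro d hd
    rcases (Nat.dvd_prime hp).1 hd with rfl | rfl
    · exact h1
    · exact h2
  have hJp : J K p ∉ E₀ := J_notMem hmod hp0
  have hJ1E₀ : J K 1 ∈ E₀ := by rw [J_one]; exact mem_adjoin_simple_self K _
  have hJ1kp : J K 1 ∈ kp := J_mem hp.ne_zero (one_dvd _)
  have hJpkp : J K p ∈ kp := J_mem hp.ne_zero dvd_rfl
  have hp1 : ¬ p ∣ 1 := fun h => hp.one_lt.ne' (Nat.dvd_one.1 h)
  have hroot1 : (phiAt K Φ (J K 1)).eval (J K p) = 0 := by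
    have := eval_root1 hΦ 1
    rwa [mul_one] at this
  have hroot2 : (phiAt K Φ (J K p)).eval (J K 1) = 0 := by
    have := eval_root2 hΦ 1
    rwa [mul_one] at this
  have hdegp : relfinrank E₀ kp = p + 1 := by
    rw [relfinrank_eq_natDegree hE₀kp hJpkp (fun F h1 h2 => hgenp F (h1 hJ1E₀) h2)
      (isIntegral_of_root hmon E₀ hJ1E₀ hroot1)]
    have := natDegree_minpoly_eq hmon hΦ E₀ 1 hp1 hJ1E₀ (by rwa [mul_one])
    rwa [mul_one] at this
  -- degree of kp over E
  have hJpE : J K p ∈ E := mem_adjoin_simple_self K _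
  have hEkp : E ≤ kp := by rw [hE, adjoin_simple_le_iff]; exact hJpkp
  have hEint : IsIntegral E (J K 1) := isIntegral_of_root hmon E hJpE hroot2
  have hdegE : relfinrank E kp = (minpoly E (J K 1)).natDegree :=
    relfinrank_eq_natDegree hEkp hJ1kp (fun F h1 h2 => hgenp F h2 (h1 hJpE)) hEint
  have hdegE' : relfinrank E kp ≤ p + 1 := by
    rw [hdegE, ← hdeg]
    exact natDegree_minpoly_le hmon E hJpE hroot2
  have hdegEpos : relfinrank E kp ≠ 0 := by
    rw [hdegE]; exact (minpoly.natDegree_pos hEint).ne'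
  -- the rest of the tower
  set R := relfinrank kp k' with hR
  have hR1 : (p + 1) * R = relfinrank E₀ k' := by
    rw [← hdegp]; exact relfinrank_mul_relfinrank hE₀kp hkpk'
  have hR0 : R ≠ 0 := by
    intro h0
    rw [h0, mul_zero] at hR1
    exact hk'pos hR1.symm
  have hR2 : relfinrank E kp * R = relfinrank E k' := relfinrank_mul_relfinrank hEkp hkpk'
  -- the image of `k`
  set V := k.map (qExpandAlgHomC K p) with hV
  have hpN : NeZero (p ^ a * m) := ⟨hN⟩
  have hVk' : V ≤ k' := by
    have h1 := full_degeneracyC_map_le K (p ^ a * m) p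
    rw [show p ^ a * m * p = p ^ (a + 1) * m by ring] at h1
    exact h1
  have hEmap : E₀.map (qExpandAlgHomC K p) = E := by
    rw [hE₀, adjoin_map, hE, Set.image_singleton]
    show K⟮qExpand K p (jqModC K)⟯ = _
    rw [← J_eq]
  have hEV : E ≤ V := by
    rw [← hEmap, hV]
    exact IntermediateField.map_mono _ hE₀k
  have hdegV : relfinrank E V = D := by
    rw [← hEmap, hV, relfinrank_map_map]
  have hJpV : J K p ∈ V := hEV hJpE
  have hJ1k' : J K 1 ∈ k' := hE₀k' hJ1E₀
  have hVint : IsIntegral V (J K 1) := isIntegral_of_root hmon V hJpV hroot2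
  set V₁ : IntermediateField K (LaurentSeries K) := restrictScalars K V⟮J K 1⟯ with hV₁
  have hVV₁ : V ≤ V₁ := fun z hz => (V⟮J K 1⟯).algebraMap_mem ⟨z, hz⟩
  have hJ1V₁ : J K 1 ∈ V₁ := mem_adjoin_simple_self V _
  have hV₁k' : V₁ ≤ k' := by
    intro z hz
    have h1 : V⟮J K 1⟯ ≤ extendScalars hVk' := by
      rw [adjoin_simple_le_iff, mem_extendScalars]; exact hJ1k'
    exact (mem_extendScalars hVk').1 (h1 hz)
  have hdegV₁ : relfinrank V V₁ = (minpoly V (J K 1)).natDegree := by
    refine relfinrank_eq_natDegree hVV₁ hJ1V₁ (fun F h1 h2 z hz => ?_) hVint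
    have h3 : V⟮J K 1⟯ ≤ extendScalars h1 := by
      rw [adjoin_simple_le_iff, mem_extendScalars]; exact h2
    exact (mem_extendScalars h1).1 (h3 hz)
  have hdegV₁' : p ≤ relfinrank V V₁ := by
    rw [hdegV₁]
    refine le_natDegree_minpoly hmon hΦ V ?_ hJpV
    rintro z ⟨y, _, rfl⟩
    exact ⟨y, rfl⟩
  have hV1 : relfinrank V V₁ * relfinrank V₁ k' = relfinrank V k' :=
    relfinrank_mul_relfinrank hVV₁ hV₁k'
  have hV2 : D * relfinrank V k' = relfinrank E k' := by
    rw [← hdegV]; exact relfinrank_mul_relfinrank hEV hVk'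
  have hEk'0 : relfinrank E k' ≠ 0 := by
    rw [← hR2]; exact mul_ne_zero hdegEpos hR0
  have hV₁0 : relfinrank V₁ k' ≠ 0 := by
    intro h0
    rw [h0, mul_zero] at hV1
    rw [← hV1, mul_zero] at hV2
    exact hEk'0 hV2.symm
  have hlow : p * D ≤ relfinrank E₀ k' := by
    calc p * D ≤ relfinrank V V₁ * D := Nat.mul_le_mul_right _ hdegV₁'
      _ ≤ (relfinrank V V₁ * relfinrank V₁ k') * D :=
        Nat.mul_le_mul_right _ (Nat.le_mul_of_pos_right _ (Nat.pos_of_ne_zero hV₁0))
      _ = relfinrank E k' := by rw [hV1, ← hV2, mul_comm]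
      _ = relfinrank E kp * R := hR2.symm
      _ ≤ (p + 1) * R := Nat.mul_le_mul_right _ hdegE'
      _ = relfinrank E₀ k' := hR1
  have hlow2 : p ≤ (minpoly k x).natDegree := by
    rw [← hprod, hm0', mul_comm] at hlow
    exact Nat.le_of_mul_le_mul_left hlow (Nat.pos_of_ne_zero hpos)
  have hmain : (minpoly k x).natDegree = if a = 0 then p + 1 else p := by
    split_ifs with ha
    · subst ha
      have h1 : J K (p * 1) ∉ k := by
        intro h2
        have h3 : (minpoly k x).natDegree = 1 := by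
          rw [minpoly.natDegree_eq_one_iff]
          refine ⟨⟨J K (p * 1), h2⟩, ?_⟩
          rw [hx, zero_add, pow_one]
          show J K (p * 1) = J K p
          rw [mul_one]
        have := hp.two_le
        omega
      have h2 := natDegree_minpoly_eq hmon hΦ k 1 hp1 (hE₀k hJ1E₀) h1
      rw [mul_one] at h2
      rw [hx, zero_add, pow_one]
      exact h2
    · refine le_antisymm ?_ hlow2
      obtain ⟨b, rfl⟩ := Nat.exists_eq_succ_of_ne_zero ha
      have hpb : NeZero (p ^ b) := ⟨pow_ne_zero _ hp.ne_zero⟩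
      have h1 : J K (p * p ^ b) ∈ k := by
        rw [← pow_succ']; exact hya
      have h2 : J K (p ^ b) ∈ k := J_mem hN (by
        rw [Nat.succ_eq_add_one, pow_succ]; exact ⟨p * m, by ring⟩)
      have h3 := natDegree_minpoly_le_p hmon hdeg hΦ k (p ^ b) h1 h2
      rw [← pow_succ', ← pow_succ'] at h3
      exact h3
  rw [← hprod, hm0', hmain, mul_comm]

/-- **The degree theorem.** -/
theorem relfinrank_full_of_hasRoots (hK : HasRoots K) (N : ℕ) (hN : (N : K) ≠ 0) :
    relfinrank K⟮jqModC K⟯ (modularFunctionFieldFullC K N) = dedekindPsi N ∧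
      dedekindPsi N ≠ 0 := by
  induction N using Nat.strong_induction_on with
  | _ N ih =>
    have hN1 : N ≠ 0 := by rintro rfl; exact hN Nat.cast_zero
    by_cases h1 : N = 1
    · subst h1
      rw [full_one, relfinrank_self, dedekindPsi_one]
      exact ⟨rfl, one_ne_zero⟩
    · obtain ⟨p, hp, hpN⟩ := Nat.exists_prime_and_dvd h1
      have : Fact p.Prime := ⟨hp⟩
      obtain ⟨b, m, hm, hNm⟩ := Nat.exists_eq_pow_mul_and_not_dvd hN1 p hp.ne_one
      have hb : b ≠ 0 := by
        rintro rfl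
        rw [pow_zero, one_mul] at hNm
        exact hm (hNm ▸ hpN)
      obtain ⟨a, rfl⟩ := Nat.exists_eq_succ_of_ne_zero hb
      have hm0 : (m : K) ≠ 0 := by
        intro h0
        rw [hNm, Nat.cast_mul, h0, mul_zero] at hN
        exact hN rfl
      have hp0 : (p : K) ≠ 0 := by
        intro h0
        rw [hNm, Nat.cast_mul, Nat.cast_pow, h0, Nat.succ_eq_add_one, pow_succ, mul_zero,
          zero_mul] at hN
        exact hN rfl
      have hM1 : p ^ a * m ≠ 0 :=
        mul_ne_zero (pow_ne_zero _ hp.ne_zero) (by rintro rfl; exact hm (dvd_zero p))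
      have hNM : N = p * (p ^ a * m) := by rw [hNm, Nat.succ_eq_add_one, pow_succ]; ring
      have hM : p ^ a * m < N := by
        rw [hNM]
        exact lt_mul_of_one_lt_left (Nat.pos_of_ne_zero hM1) hp.one_lt
      obtain ⟨h2, h3⟩ := ih (p ^ a * m) hM (by
        rw [Nat.cast_mul, Nat.cast_pow]
        exact mul_ne_zero (pow_ne_zero _ hp0) hm0)
      have h4 := relfinrank_step hK (a := a) hm hm0 hp0 (by rw [h2]; exact h3)
      rw [h2] at h4
      have h5 : p ^ (a + 1) * m = N := hNm.symm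
      rw [h5] at h4
      by_cases ha : a = 0
      · subst ha
        have h6 : ¬ p ∣ p ^ 0 * m := by rwa [pow_zero, one_mul]
        have h7 := H45.dedekindPsi_mul_of_not_dvd hp hM1 h6
        rw [← hNM] at h7
        rw [h4, h7, if_pos rfl]
        exact ⟨rfl, mul_ne_zero (Nat.succ_ne_zero p) h3⟩
      · have h6 : p ∣ p ^ a * m := (dvd_pow_self p ha).trans (dvd_mul_right _ _)
        have h7 := H45.dedekindPsi_mul_of_dvd hp hM1 h6
        rw [← hNM] at h7
        rw [h4, h7, if_neg ha]
        exact ⟨rfl, mul_ne_zero hp.ne_zero h3⟩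

theorem relfinrank_full (K : Type*) [Field K] [IsAlgClosed K] (N : ℕ) [NeZero N]
    (hN : (N : K) ≠ 0) :
    relfinrank K⟮jqModC K⟯ (modularFunctionFieldFullC K N) = dedekindPsi N :=
  (relfinrank_full_of_hasRoots (hasRoots_of_isAlgClosed K) N hN).1

end Fermat.Agent.H66
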