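import Mathlib
import Fermat.Statements.S18
import Fermat.Agent.H18Torsion
import Fermat.Agent.H18Arch
import Fermat.Agent.H18Res
import Fermat.Agent.H18Div
import Fermat.Agent.H42RedInputs
import Fermat.Agent.H66Degree

/-!
# S18 from equality of genera (helper18)
-/

set_option autoImplicit false

noncomputable section

open Polynomial Module IntermediateField ModularCurve AlgebraicCurve
open Fermat.Agent.H40 (ReductionData RiemannFor)

namespace Fermat.Agent.H18

section General

variable {L : Type*} [Field L] [Algebra ℚ L] (A : ValuationSubring L) {k : Type*} [Field k]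
  (π : A →+* k) (N : ℕ) (hπ : Function.Surjective π) [IsLocalHom π] (hdeg : H42.DegLE L k N)

/-- A reduction map of places in the sense of the Prelude is compatible with the reduction of all
functions in the Gauss valuation ring. -/
theorem placeCompat_of_isPlaceReductionAlong
    [HasPrincipalDivisors L (laurentBaseChange L (modularFunctionFieldFull N))]
    {r : Place L (laurentBaseChange L (modularFunctionFieldFull N)) →
      Place k (modularFunctionFieldFullC k N)} (hr : IsPlaceReductionAlong A π N r) :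
    PlaceCompat (H42.modReductionData A π N hπ hdeg) r := by
  -- integral functions
  have key : ∀ y : (H42.modGauss A π N hπ hdeg).B, (H42.modGauss A π N hπ hdeg).ρ y ≠ 0 →
      ∀ Δ : Divisor L (laurentBaseChange L (modularFunctionFieldFull N)),
        (∀ v, Δ v = v.ord (y : laurentBaseChange L (modularFunctionFieldFull N))) →
        ∀ w, Finsupp.mapDomain r Δ w = w.ord ((H42.modGauss A π N hπ hdeg).ρ y) := by
    rintro ⟨⟨g, hf'⟩, y, hyg⟩ hy Δ hΔ w
    obtain rfl : coeffMap A.subtype y = g := hyg
    have hyk := H42.coeffMap_mem_full A π N hπ hdeg y hf'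
    have h1 : (H42.modGauss A π N hπ hdeg).ρ ⟨⟨coeffMap A.subtype y, hf'⟩, y, rfl⟩ =
        ⟨coeffMap π y, hyk⟩ := Subtype.ext (H42.coe_modGauss_ρ A π N hπ hdeg y hf')
    have hne : coeffMap π y ≠ 0 := by
      intro h0
      apply hy
      rw [h1]
      exact Subtype.ext h0
    rw [h1]
    exact hr.2 y hf' hyk hne Δ hΔ w
  intro x hx Δ hΔ w
  obtain ⟨y, z, hz, hxz⟩ := x.2
  have hxF : ((x : (H42.modReductionData A π N hπ hdeg).B) :
      laurentBaseChange L (modularFunctionFieldFull N)) ≠ 0 :=
    (H42.modReductionData A π N hπ hdeg).ne_zero_of_ρ_ne_zero hx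
  have hzF := (H42.modGauss A π N hπ hdeg).coe_ne_zero hz
  have hρ : (H42.modReductionData A π N hπ hdeg).ρ x * (H42.modGauss A π N hπ hdeg).ρ z =
      (H42.modGauss A π N hπ hdeg).ρ y :=
    (H42.modGauss A π N hπ hdeg).res_mul_eq x hz hxz
  have hy : (H42.modGauss A π N hπ hdeg).ρ y ≠ 0 := by
    rw [← hρ]; exact mul_ne_zero hx hz
  have hyF := (H42.modGauss A π N hπ hdeg).coe_ne_zero hy
  obtain ⟨Dy, hDy, -⟩ := H40.exists_div (K := L) hyF
  obtain ⟨Dz, hDz, -⟩ := H40.exists_div (K := L) hzF
  have h1 := key y hy Dy hDy w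
  have h2 := key z hz Dz hDz w
  have hΔ' : Δ = Dy - Dz := by
    ext v
    have h3 := congrArg v.ord hxz
    rw [v.ord_mul hxF hzF] at h3
    rw [Finsupp.sub_apply, hΔ, hDy, hDz]
    omega
  rw [hΔ', mapDomain_sub_apply, h1, h2]
  have h4 := congrArg w.ord hρ
  rw [w.ord_mul hx hz] at h4
  omega

/-- Equality of genera of the modular function fields over `L` and `k`, in the form of Riemann's
theorem with the same constants. -/
def GenusEq (L k : Type*) [Field L] [Algebra ℚ L] [Field k] (N : ℕ) : Prop :=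
  ∃ g c : ℤ, RiemannFor L (laurentBaseChange L (modularFunctionFieldFull N)) g c ∧
    RiemannFor k (modularFunctionFieldFullC k N) g c

include hπ hdeg in
/-- Torsion injectivity for the reduction of modular curves. -/
theorem eq_zero_of_reductionAlong [IsAlgClosed L] [IsAlgClosed k]
    (hA : ∀ a b : A, a ≠ 0 → ¬ IsUnit b → ∃ n : ℕ, a ∣ b ^ n)
    (hg : GenusEq L k N) (h : ReductionInputsAlong A π N) (m : ℕ)
    (hm : (m : k) ≠ 0) (z : Pic0 L (laurentBaseChange L (modularFunctionFieldFull N)))
    (hmz : m • z = 0) (hz : reductionAlong A π N z = 0) : z = 0 := by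
  obtain ⟨g, c, hF, hE⟩ := hg
  have hff := H42.funField_left (k := k) (L := L) N hdeg
  have hffk := H42.funField_right (L := L) (k := k) N hdeg
  have hPD : HasPrincipalDivisors L (laurentBaseChange L (modularFunctionFieldFull N)) :=
    H18.hasPrincipalDivisors _ _
  have hPDk : HasPrincipalDivisors k (modularFunctionFieldFullC k N) :=
    H18.hasPrincipalDivisors _ _
  have hne : Nonempty (Place L (laurentBaseChange L (modularFunctionFieldFull N))) := by
    obtain ⟨x, hx, -⟩ := hff.out
    obtain ⟨v, -⟩ := H18.exists_ord_pos hx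
    exact ⟨v⟩
  have hdF : ∀ v : Place L (laurentBaseChange L (modularFunctionFieldFull N)), v.deg = 1 :=
    H94.deg_eq_one
  have hdE : ∀ v : Place k (modularFunctionFieldFullC k N), v.deg = 1 := H94.deg_eq_one
  have hr : IsPlaceReductionAlong A π N h.choose := h.choose_spec.1
  have hcompat := placeCompat_of_isPlaceReductionAlong A π N hπ hdeg hr
  obtain ⟨D, rfl⟩ := Pic0.mk_surjective z
  -- the hypotheses in terms of divisors
  have h1 : Divisor.IsPrincipal (m • (D : Divisor L
      (laurentBaseChange L (modularFunctionFieldFull N)))) := by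
    have h2 : Pic0.mk (m • D) = 0 := hmz
    rw [Pic0.mk, QuotientAddGroup.eq_zero_iff, AddSubgroup.mem_addSubgroupOf,
      AddSubgroup.coe_nsmul] at h2
    exact h2
  have h2 : Divisor.IsPrincipal (Finsupp.mapDomain h.choose
      (D : Divisor L (laurentBaseChange L (modularFunctionFieldFull N)))) := by
    rw [reductionAlong_mk h, Pic0.mk, QuotientAddGroup.eq_zero_iff,
      AddSubgroup.mem_addSubgroupOf] at hz
    exact hz
  have h3 := isPrincipal_of_mapDomain (R := H42.modReductionData A π N hπ hdeg) hF hE hdF hdE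
    hcompat hA (fun e he0 he =>
      H18.exists_eq_algebraMap_of_forall_ord_eq_zero he) hm _ h1 h2
  rw [Pic0.mk, QuotientAddGroup.eq_zero_iff, AddSubgroup.mem_addSubgroupOf]
  exact h3

end General

theorem dvd_pow_of_algebraicClosure (A : ValuationSubring (AlgebraicClosure ℚ)) (a b : A)
    (ha : a ≠ 0) (hb : ¬ IsUnit b) : ∃ n : ℕ, a ∣ b ^ n := by
  have h0 : @Algebra.IsAlgebraic ℚ (AlgebraicClosure ℚ) _ _ DivisionRing.toRatAlgebra := by
    have h1 : @Algebra.IsAlgebraic ℚ (AlgebraicClosure ℚ) _ _
      (AlgebraicClosure.instAlgebra (k := ℚ)) := AlgebraicClosure.isAlgebraic ℚ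
    convert h1
    exact Subsingleton.elim _ _
  exact @exists_dvd_pow (AlgebraicClosure ℚ) _ _ h0 A a b ha hb

/-- Degree comparison for all good primes. -/
theorem degLE_of_not_dvd (N : ℕ) [NeZero N] {ℓ : ℕ} [Fact ℓ.Prime] (hℓN : ¬ ℓ ∣ N)
    (A : ValuationSubring (AlgebraicClosure ℚ)) (hA : A.LiesOverPrime ℓ) :
    H42.DegLE (AlgebraicClosure ℚ) (IsLocalRing.ResidueField A) N := by
  have hk : IsAlgClosed (IsLocalRing.ResidueField A) := isAlgClosed_residueField A
  have hN : (N : IsLocalRing.ResidueField A) ≠ 0 :=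
    natCast_residueField_ne_zero A (Fact.out : ℓ.Prime) hA hℓN
  have h1 := H66.relfinrank_full (AlgebraicClosure ℚ) N (Nat.cast_ne_zero.2 (NeZero.ne N))
  have h2 := H66.relfinrank_full (IsLocalRing.ResidueField A) N hN
  have h3 := (H66.relfinrank_full_of_hasRoots
    (H66.hasRoots_of_isAlgClosed (IsLocalRing.ResidueField A)) N hN).2
  refine ⟨?_, ?_⟩
  · rw [h1]; exact h3
  · rw [h1, h2]

/-- **S18 from equality of genera.** -/
theorem eq_zero_of_genusEq (N : ℕ) [NeZero N] {ℓ : ℕ} [Fact ℓ.Prime] (hℓN : ¬ ℓ ∣ N)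
    (A : ValuationSubring (AlgebraicClosure ℚ)) (hA : A.LiesOverPrime ℓ)
    (hg : GenusEq (AlgebraicClosure ℚ) (IsLocalRing.ResidueField A) N)
    (h : ReductionInputsModL A N) (m : ℕ) (hm : ¬ ℓ ∣ m) (z : JZero N)
    (hmz : m • z = 0) (hz : reductionModL A N z = 0) : z = 0 := by
  have hk : IsAlgClosed (IsLocalRing.ResidueField A) := isAlgClosed_residueField A
  have hmk : (m : IsLocalRing.ResidueField A) ≠ 0 :=
    natCast_residueField_ne_zero A (Fact.out : ℓ.Prime) hA hm
  exact eq_zero_of_reductionAlong A (IsLocalRing.residue A) N IsLocalRing.residue_surjective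
    (degLE_of_not_dvd N hℓN A hA) (dvd_pow_of_algebraicClosure A) hg h m hmk z hmz hz

end Fermat.Agent.H18
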