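import Fermat.Agent.H66Trace

/-!
# Leading terms of Laurent series
-/

set_option autoImplicit false

noncomputable section

open ModularCurve

namespace Fermat.Agent.H66

/-- `x = c t ^ n + (higher order terms)`. -/
def HasLead {A : Type*} [CommRing A] (x : LaurentSeries A) (n : ℤ) (c : A) : Prop :=
  x.coeff n = c ∧ ∀ m < n, x.coeff m = 0

namespace HasLead

variable {A : Type*} [CommRing A] {x y : LaurentSeries A} {n m : ℤ} {c d : A}

theorem mul (hx : HasLead x n c) (hy : HasLead y m d) : HasLead (x * y) (n + m) (c * d) := by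
  constructor
  · rw [HahnSeries.coeff_mul, Finset.sum_eq_single (n, m)]
    · rw [hx.1, hy.1]
    · intro ij hij hne
      rw [Finset.mem_antidiagonal] at hij
      obtain ⟨_, _, h⟩ := hij
      rcases lt_trichotomy ij.1 n with h1 | h1 | h1
      · rw [hx.2 _ h1, zero_mul]
      · exact absurd (Prod.ext h1 (by simpa using (by omega : ij.2 = m))) hne
      · rw [hy.2 _ (by omega), mul_zero]
    · intro hnm
      rw [Finset.mem_antidiagonal] at hnm
      simp only [HahnSeries.mem_support, and_true] at hnm
      by_cases h1 : x.coeff n = 0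
      · rw [h1, zero_mul]
      · by_cases h2 : y.coeff m = 0
        · rw [h2, mul_zero]
        · exact absurd ⟨h1, h2⟩ hnm
  · intro k hk
    rw [HahnSeries.coeff_mul]
    refine Finset.sum_eq_zero fun ij hij => ?_
    rw [Finset.mem_antidiagonal] at hij
    obtain ⟨_, _, h⟩ := hij
    rcases lt_or_ge ij.1 n with h1 | h1
    · rw [hx.2 _ h1, zero_mul]
    · rw [hy.2 _ (by omega), mul_zero]

theorem one : HasLead (1 : LaurentSeries A) 0 1 := by
  refine ⟨by simp, fun m hm => ?_⟩
  rw [HahnSeries.coeff_one, if_neg hm.ne]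

theorem C (c : A) : HasLead (HahnSeries.C c : LaurentSeries A) 0 c := by
  refine ⟨HahnSeries.coeff_single_same 0 c, fun m hm => ?_⟩
  exact HahnSeries.coeff_single_of_ne hm.ne

theorem single (n : ℤ) (c : A) : HasLead (HahnSeries.single n c : LaurentSeries A) n c :=
  ⟨HahnSeries.coeff_single_same n c, fun _ hm => HahnSeries.coeff_single_of_ne hm.ne⟩

theorem pow (hx : HasLead x n c) (k : ℕ) : HasLead (x ^ k) (k * n) (c ^ k) := by
  induction k with
  | zero => simpa using HasLead.one
  | succ k ih =>
    rw [pow_succ, pow_succ]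
    have := ih.mul hx
    have h2 : ((k : ℤ) * n + n) = ((k + 1 : ℕ) : ℤ) * n := by push_cast; ring
    rwa [h2] at this

theorem qExpand (hx : HasLead x n c) (N : ℕ) [NeZero N] :
    HasLead (qExpand A N x) (N * n) c := by
  refine ⟨by rw [qExpand_coeff_mul]; exact hx.1, fun k hm => ?_⟩
  by_cases h : (N : ℤ) ∣ k
  · obtain ⟨k, rfl⟩ := h
    rw [qExpand_coeff_mul]
    refine hx.2 _ ?_
    have hN : (0 : ℤ) < N := by exact_mod_cast Nat.pos_of_ne_zero (NeZero.ne N)
    exact lt_of_mul_lt_mul_left hm hN.le
  · exact qExpand_coeff_of_not_dvd _ _ h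

theorem tw (hx : HasLead x n c) (u : Aˣ) : HasLead (tw u x) n (((u ^ n : Aˣ) : A) * c) := by
  refine ⟨by rw [tw_coeff, hx.1], fun m hm => ?_⟩
  rw [tw_coeff, hx.2 _ hm, mul_zero]

theorem ofPowerSeries (f : PowerSeries A) :
    HasLead (HahnSeries.ofPowerSeries ℤ A f) 0 (f.coeff 0) := by
  refine ⟨?_, fun m hm => ofPowerSeries_coeff_of_neg _ hm⟩
  exact_mod_cast HahnSeries.ofPowerSeries_apply_coeff f 0

theorem jqModC : HasLead (jqModC A) (-1) 1 :=
  ⟨coeff_jqModC_neg_one A, fun _ hm => coeff_jqModC_of_lt A hm⟩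

theorem ne_zero (hx : HasLead x n c) (hc : c ≠ 0) : x ≠ 0 := by
  rintro rfl
  exact hc (by simpa using hx.1.symm)

theorem prod {ι : Type*} (s : Finset ι) (f : ι → LaurentSeries A) (n : ι → ℤ) (c : ι → A)
    (h : ∀ i ∈ s, HasLead (f i) (n i) (c i)) :
    HasLead (∏ i ∈ s, f i) (∑ i ∈ s, n i) (∏ i ∈ s, c i) := by
  induction s using Finset.cons_induction with
  | empty => simpa using HasLead.one
  | cons a s ha ih =>
    rw [Finset.prod_cons, Finset.sum_cons, Finset.prod_cons]
    exact (h a (Finset.mem_cons_self a s)).mul (ih fun i hi => h i (Finset.mem_cons_of_mem hi))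

/-- leading term of a polynomial expression -/
theorem eval₂ (hx : HasLead x (-n) 1) (hn : 0 < n) (P : Polynomial A) :
    HasLead (P.eval₂ HahnSeries.C x) (-(P.natDegree * n)) P.leadingCoeff := by
  have hterm : ∀ i : ℕ, HasLead (HahnSeries.C (P.coeff i) * x ^ i) (-(i * n)) (P.coeff i) := by
    intro i
    have := (HasLead.C (P.coeff i)).mul (hx.pow i)
    simpa using this
  rw [Polynomial.eval₂_eq_sum_range]
  constructor
  · rw [HahnSeries.coeff_sum, Finset.sum_eq_single P.natDegree]
    · exact (hterm _).1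
    · intro i hi hne
      rw [Finset.mem_range] at hi
      refine (hterm i).2 _ ?_
      have h1 : (i : ℤ) < P.natDegree := by exact_mod_cast lt_of_le_of_ne (by omega) hne
      nlinarith
    · intro h
      exact absurd (Finset.mem_range.2 (Nat.lt_succ_self _)) h
  · intro m hm
    rw [HahnSeries.coeff_sum]
    refine Finset.sum_eq_zero fun i hi => ?_
    refine (hterm i).2 _ ?_
    rw [Finset.mem_range] at hi
    have h1 : (i : ℤ) ≤ P.natDegree := by exact_mod_cast (by omega : i ≤ P.natDegree)
    nlinarith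

end HasLead

theorem hasLead_deltaL (A : Type*) [CommRing A] : HasLead (H28.deltaL A) 1 1 := by
  have h := (HasLead.single (A := A) 1 1).mul
    (HasLead.ofPowerSeries (dedekindEtaUnit.map (Int.castRingHom A)))
  have h2 : (dedekindEtaUnit.map (Int.castRingHom A)).coeff 0 = 1 := by
    rw [PowerSeries.coeff_map, PowerSeries.coeff_zero_eq_constantCoeff_apply,
      constantCoeff_dedekindEtaUnit, map_one]
  rw [h2] at h
  simpa [H28.deltaL] using h

theorem hasLead_deltaInvL (A : Type*) [CommRing A] : HasLead (H28.deltaInvL A) (-1) 1 := by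
  have h := (HasLead.single (A := A) (-1) 1).mul
    (HasLead.ofPowerSeries (dedekindEtaUnitInv.map (Int.castRingHom A)))
  have h2 : (dedekindEtaUnitInv.map (Int.castRingHom A)).coeff 0 = 1 := by
    rw [PowerSeries.coeff_map, PowerSeries.coeff_zero_eq_constantCoeff_apply,
      constantCoeff_dedekindEtaUnitInv, map_one]
  rw [h2] at h
  simpa [H28.deltaInvL] using h

theorem coeffMap_deltaL {A B : Type*} [CommRing A] [CommRing B] (φ : A →+* B) :
    coeffMap φ (H28.deltaL A) = H28.deltaL B := by
  rw [H28.deltaL, map_mul, coeffMap_single, map_one, coeffMap_ofPowerSeries,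
    ← RingHom.comp_apply (PowerSeries.map φ) (PowerSeries.map (Int.castRingHom A)),
    ← PowerSeries.map_comp, RingHom.ext_int (φ.comp (Int.castRingHom A)) (Int.castRingHom B)]
  rfl

theorem coeffMap_deltaInvL {A B : Type*} [CommRing A] [CommRing B] (φ : A →+* B) :
    coeffMap φ (H28.deltaInvL A) = H28.deltaInvL B := by
  rw [H28.deltaInvL, map_mul, coeffMap_single, map_one, coeffMap_ofPowerSeries,
    ← RingHom.comp_apply (PowerSeries.map φ) (PowerSeries.map (Int.castRingHom A)),
    ← PowerSeries.map_comp, RingHom.ext_int (φ.comp (Int.castRingHom A)) (Int.castRingHom B)]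
  rfl

end Fermat.Agent.H66
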