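import Fermat.Agent.H23Haupt
import Fermat.Agent.H66Lead
import Fermat.Prelude.Thm_ModularCurve_coeffMap_qExpand

/-!
# Hauptmodul identities in levels 2 and 3: Laurent series over any ring (helper23)
-/

set_option autoImplicit false

noncomputable section

open ModularCurve

namespace Fermat.Agent.H23.Haupt

open Fermat.Agent.H23.Trunc Fermat.Agent.H28 Fermat.Agent.H61 Fermat.Agent.H66

theorem ofPowerSeries_exPS {R : Type*} [CommRing R] (N : ℕ) [NeZero N] (f : PowerSeries R) :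
    HahnSeries.ofPowerSeries ℤ R (exPS N f) = qExpand R N (HahnSeries.ofPowerSeries ℤ R f) := by
  have hN : (0 : ℤ) < N := by exact_mod_cast Nat.pos_of_ne_zero (NeZero.ne N)
  ext k
  by_cases hk : (N : ℤ) ∣ k
  · obtain ⟨m, rfl⟩ := hk
    rw [qExpand_coeff_mul]
    rcases lt_or_ge m 0 with hm | hm
    · rw [ofPowerSeries_coeff_of_neg _ hm, ofPowerSeries_coeff_of_neg _ (by nlinarith)]
    · obtain ⟨n, rfl⟩ := Int.eq_ofNat_of_zero_le hm
      have h1 : (N : ℤ) * (n : ℤ) = ((N * n : ℕ) : ℤ) := by push_cast; ring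
      rw [h1, HahnSeries.ofPowerSeries_apply_coeff, HahnSeries.ofPowerSeries_apply_coeff, exPS,
        PowerSeries.coeff_mk, if_pos (Nat.dvd_mul_right N n),
        Nat.mul_div_cancel_left _ (Nat.pos_of_ne_zero (NeZero.ne N))]
  · rw [qExpand_coeff_of_not_dvd N _ hk]
    rcases lt_or_ge k 0 with hm | hm
    · rw [ofPowerSeries_coeff_of_neg _ hm]
    · obtain ⟨n, rfl⟩ := Int.eq_ofNat_of_zero_le hm
      rw [HahnSeries.ofPowerSeries_apply_coeff, exPS, PowerSeries.coeff_mk, if_neg]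
      intro h
      exact hk (by exact_mod_cast h)

section Def

variable (K : Type*) [CommRing K]

/-- `t₂ = Δ(q)/Δ(q²) = q⁻¹ - 24 + ...` -/
def t2 : LaurentSeries K := deltaL K * qExpand K 2 (deltaInvL K)

/-- the inverse of `∏ (1 - q^n)^12` -/
def eta12Inv : PowerSeries ℤ := (etaProd ^ 12).invOfUnit 1

theorem etaProd_mul_eta12Inv : etaProd ^ 12 * eta12Inv = 1 :=
  PowerSeries.mul_invOfUnit _ _ (by rw [map_pow, constantCoeff_etaProd, one_pow]; rfl)

/-- `t₃ = (η(q)/η(q³))^12 = q⁻¹ - 12 + ...` -/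
def t3 : LaurentSeries K :=
  HahnSeries.single (-1 : ℤ) 1 * toL K (etaProd ^ 12) * qExpand K 3 (toL K eta12Inv)

variable {K}

theorem coeffMap_t2 {L : Type*} [CommRing L] (φ : K →+* L) : coeffMap φ (t2 K) = t2 L := by
  rw [t2, t2, map_mul, coeffMap_qExpand, H61.coeffMap_deltaL, coeffMap_deltaInvL]

theorem coeffMap_t3 {L : Type*} [CommRing L] (φ : K →+* L) : coeffMap φ (t3 K) = t3 L := by
  rw [t3, t3, map_mul, map_mul, coeffMap_qExpand, coeffMap_toL, coeffMap_toL, coeffMap_single,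
    map_one]

end Def

section Int

theorem qExpand_delta_mul (N : ℕ) [NeZero N] :
    qExpand ℤ N (deltaL ℤ) * qExpand ℤ N (deltaInvL ℤ) = 1 := by
  rw [← map_mul, deltaL_mul_deltaInvL, map_one]

theorem ofPowerSeries_e4 : HahnSeries.ofPowerSeries ℤ ℤ eisenstein4 = E4L ℤ := (toL_int _).symm

theorem laurent_E1 : (deltaL ℤ + 256 * qExpand ℤ 2 (deltaL ℤ)) ^ 3 =
    E4L ℤ ^ 3 * (deltaL ℤ * qExpand ℤ 2 (deltaL ℤ)) := by
  have h := congrArg (HahnSeries.ofPowerSeries ℤ ℤ) identity_E1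
  simpa only [map_pow, map_add, map_mul, ofPowerSeries_exPS, ofPowerSeries_DZ, ofPowerSeries_e4,
    map_ofNat] using h

theorem laurent_E2 : (deltaL ℤ + 16 * qExpand ℤ 2 (deltaL ℤ)) ^ 3 =
    qExpand ℤ 2 (E4L ℤ) ^ 3 * (deltaL ℤ * qExpand ℤ 2 (deltaL ℤ)) := by
  have h := congrArg (HahnSeries.ofPowerSeries ℤ ℤ) identity_E2
  simpa only [map_pow, map_add, map_mul, ofPowerSeries_exPS, ofPowerSeries_DZ, ofPowerSeries_e4,
    map_ofNat] using h

theorem laurent_E3 : (deltaL ℤ ^ 2 + 196830 * (deltaL ℤ * qExpand ℤ 3 (deltaL ℤ)) +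
      387420489 * qExpand ℤ 3 (deltaL ℤ) ^ 2) ^ 2 =
    (deltaL ℤ * qExpand ℤ 3 (deltaL ℤ)) * (756 * deltaL ℤ - E4L ℤ ^ 3 +
      19131876 * qExpand ℤ 3 (deltaL ℤ)) ^ 2 := by
  have h := congrArg (HahnSeries.ofPowerSeries ℤ ℤ) identity_E3
  simpa only [map_pow, map_add, map_mul, map_sub, ofPowerSeries_exPS, ofPowerSeries_DZ,
    ofPowerSeries_e4, map_ofNat] using h

theorem laurent_E4 : (deltaL ℤ ^ 2 + 270 * (deltaL ℤ * qExpand ℤ 3 (deltaL ℤ)) +
      729 * qExpand ℤ 3 (deltaL ℤ) ^ 2) ^ 2 =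
    (deltaL ℤ * qExpand ℤ 3 (deltaL ℤ)) * (36 * deltaL ℤ - qExpand ℤ 3 (E4L ℤ) ^ 3 +
      756 * qExpand ℤ 3 (deltaL ℤ)) ^ 2 := by
  have h := congrArg (HahnSeries.ofPowerSeries ℤ ℤ) identity_E4
  simpa only [map_pow, map_add, map_mul, map_sub, ofPowerSeries_exPS, ofPowerSeries_DZ,
    ofPowerSeries_e4, map_ofNat] using h

theorem t2_E1_int : (t2 ℤ + 256) ^ 3 = jqModC ℤ * t2 ℤ ^ 2 := by
  have h1 := laurent_E1
  have h2 := qExpand_delta_mul 2
  have h3 := jqModC_mul_deltaL ℤ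
  rw [t2]
  set D := deltaL ℤ
  set D2 := qExpand ℤ 2 D
  set Di := qExpand ℤ 2 (deltaInvL ℤ)
  have e1 : D * Di + 256 = (D + 256 * D2) * Di := by linear_combination (-256 : LaurentSeries ℤ) * h2
  rw [e1, mul_pow, h1]
  linear_combination (E4L ℤ ^ 3 * D * Di ^ 2) * h2 - (D * Di ^ 2) * h3

theorem t2_E2_int : (t2 ℤ + 16) ^ 3 = qExpand ℤ 2 (jqModC ℤ) * t2 ℤ := by
  have h1 := laurent_E2
  have h2 := qExpand_delta_mul 2
  have h3 := congrArg (qExpand ℤ 2) (jqModC_mul_deltaL ℤ)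
  rw [map_mul, map_pow] at h3
  rw [t2]
  set D := deltaL ℤ
  set D2 := qExpand ℤ 2 D
  set Di := qExpand ℤ 2 (deltaInvL ℤ)
  have e1 : D * Di + 16 = (D + 16 * D2) * Di := by linear_combination (-16 : LaurentSeries ℤ) * h2
  rw [e1, mul_pow, h1, ← h3]
  linear_combination (qExpand ℤ 2 (jqModC ℤ) * D * Di * (D2 * Di + 1)) * h2

theorem t3_sq (K : Type*) [CommRing K] : t3 K ^ 2 = deltaL K * qExpand K 3 (deltaInvL K) := by
  have h1 : toL K (etaProd ^ 12) ^ 2 = toL K dedekindEtaUnit := by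
    rw [toL, toL, ← map_pow, ← map_pow, ← pow_mul, dedekindEtaUnit]
  have h2 : toL K eta12Inv ^ 2 = toL K dedekindEtaUnitInv := by
    rw [toL, toL, ← map_pow, ← map_pow]
    congr 2
    have e1 : dedekindEtaUnit * eta12Inv ^ 2 = 1 := by
      rw [dedekindEtaUnit, show etaProd ^ 24 = (etaProd ^ 12) ^ 2 by rw [← pow_mul], ← mul_pow,
        etaProd_mul_eta12Inv, one_pow]
    have e2 := dedekindEtaUnit_mul_inv
    calc eta12Inv ^ 2 = (dedekindEtaUnit * dedekindEtaUnitInv) * eta12Inv ^ 2 := by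
          rw [e2, one_mul]
      _ = (dedekindEtaUnit * eta12Inv ^ 2) * dedekindEtaUnitInv := by ring
      _ = dedekindEtaUnitInv := by rw [e1, one_mul]
  have h3 : deltaL K = HahnSeries.single 1 1 * toL K dedekindEtaUnit := rfl
  have h4 : deltaInvL K = HahnSeries.single (-1) 1 * toL K dedekindEtaUnitInv := rfl
  rw [t3, mul_pow, mul_pow, ← map_pow (qExpand K 3), h1, h2, h3, h4, map_mul, qExpand_single,
    HahnSeries.single_pow, one_pow]
  have h5 : (HahnSeries.single (2 • (-1 : ℤ)) (1 : K) : LaurentSeries K) =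
      HahnSeries.single 1 1 * HahnSeries.single (((3 : ℕ) : ℤ) * (-1)) 1 := by
    rw [HahnSeries.single_mul_single, mul_one]
    congr 1
  rw [h5]
  ring

theorem hasLead_toL (K : Type*) [CommRing K] (f : PowerSeries ℤ)
    (hf : PowerSeries.constantCoeff f = 1) : HasLead (toL K f) 0 1 := by
  have h := HasLead.ofPowerSeries (f.map (Int.castRingHom K))
  have h2 : (f.map (Int.castRingHom K)).coeff 0 = 1 := by
    rw [PowerSeries.coeff_map, PowerSeries.coeff_zero_eq_constantCoeff_apply, hf, map_one]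
  rwa [h2] at h

theorem constantCoeff_eta12Inv : PowerSeries.constantCoeff eta12Inv = 1 := by
  have h := congrArg (PowerSeries.constantCoeff (R := ℤ)) etaProd_mul_eta12Inv
  rwa [map_mul, map_pow, constantCoeff_etaProd, one_pow, one_mul, map_one] at h

theorem hasLead_t2 (K : Type*) [CommRing K] : HasLead (t2 K) (-1) 1 := by
  have h := (hasLead_deltaL K).mul ((hasLead_deltaInvL K).qExpand 2)
  norm_num at h
  exact h

theorem hasLead_t3 (K : Type*) [CommRing K] : HasLead (t3 K) (-1) 1 := by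
  have h := ((HasLead.single (A := K) (-1) 1).mul (hasLead_toL K (etaProd ^ 12) (by
    rw [map_pow, constantCoeff_etaProd, one_pow]))).mul
    ((hasLead_toL K eta12Inv constantCoeff_eta12Inv).qExpand 3)
  norm_num at h
  exact h

theorem HasLead.add_of_lt {K : Type*} [CommRing K] {x y : LaurentSeries K} {n m : ℤ} {c d : K}
    (hx : HasLead x n c) (hy : HasLead y m d) (h : n < m) : HasLead (x + y) n c :=
  ⟨by rw [HahnSeries.coeff_add, hx.1, hy.2 _ h, add_zero], fun k hk => by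
    rw [HahnSeries.coeff_add, hx.2 _ hk, hy.2 _ (hk.trans h), add_zero]⟩

theorem HasLead.add_same {K : Type*} [CommRing K] {x y : LaurentSeries K} {n : ℤ} {c d : K}
    (hx : HasLead x n c) (hy : HasLead y n d) : HasLead (x + y) n (c + d) :=
  ⟨by rw [HahnSeries.coeff_add, hx.1, hy.1], fun k hk => by
    rw [HahnSeries.coeff_add, hx.2 _ hk, hy.2 _ hk, add_zero]⟩

theorem HasLead.neg {K : Type*} [CommRing K] {x : LaurentSeries K} {n : ℤ} {c : K}
    (hx : HasLead x n c) : HasLead (-x) n (-c) :=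
  ⟨by rw [HahnSeries.coeff_neg, hx.1], fun k hk => by rw [HahnSeries.coeff_neg, hx.2 _ hk, neg_zero]⟩

/-- `a - t₃` has leading term `-q⁻¹` -/
theorem hasLead_const_sub (a : ℤ) : HasLead (HahnSeries.C a - t3 ℤ) (-1) (-1) := by
  have h := HasLead.add_of_lt (HasLead.neg (hasLead_t3 ℤ)) (HasLead.C a) (by norm_num)
  rwa [neg_add_eq_sub] at h

theorem t3_E3_int : (t3 ℤ + 27) * (t3 ℤ + 243) ^ 3 = jqModC ℤ * t3 ℤ ^ 3 := by
  have h1 := laurent_E3
  have h2 := qExpand_delta_mul 3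
  have h3 := jqModC_mul_deltaL ℤ
  have h4 := t3_sq ℤ
  set T := t3 ℤ with hT
  set D := deltaL ℤ
  set D3 := qExpand ℤ 3 D
  set Di := qExpand ℤ 3 (deltaInvL ℤ)
  set j := jqModC ℤ with hj
  have e1 : (T ^ 4 + 196830 * T ^ 2 + 387420489) ^ 2 =
      T ^ 2 * ((756 - j) * T ^ 2 + 19131876) ^ 2 := by
    have e2 : T ^ 4 + 196830 * T ^ 2 + 387420489 =
        (D ^ 2 + 196830 * (D * D3) + 387420489 * D3 ^ 2) * Di ^ 2 := by
      linear_combination (T ^ 2 + D * Di) * h4 + 196830 * h4 -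
        (196830 * D * Di + 387420489 * (D3 * Di + 1)) * h2
    have e3 : (756 - j) * T ^ 2 + 19131876 = (756 * D - E4L ℤ ^ 3 + 19131876 * D3) * Di := by
      linear_combination (756 - j) * h4 - Di * h3 - 19131876 * h2
    rw [e2, e3, mul_pow, h1, h4]
    linear_combination (D * (756 * D - E4L ℤ ^ 3 + 19131876 * D3) ^ 2 * Di ^ 3) * h2
  have e5 : ((T + 27) * (T + 243) ^ 3 - j * T ^ 3) *
      ((27 - T) * (243 - T) ^ 3 + j * T ^ 3) = 0 := by
    linear_combination e1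
  rcases mul_eq_zero.mp e5 with h | h
  · exact sub_eq_zero.mp h
  · exfalso
    have l1 := (hasLead_const_sub 27).mul ((hasLead_const_sub 243).pow 3)
    have l2 := (HasLead.jqModC (A := ℤ)).mul ((hasLead_t3 ℤ).pow 3)
    norm_num at l1 l2
    have l3 := HasLead.add_same l1 l2
    rw [← hT, ← hj] at l3
    have h' : (27 - T) * (243 - T) ^ 3 + j * T ^ 3 ≠ 0 := HasLead.ne_zero l3 (by norm_num)
    exact h' h

theorem t3_E4_int : (t3 ℤ + 27) * (t3 ℤ + 3) ^ 3 = qExpand ℤ 3 (jqModC ℤ) * t3 ℤ := by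
  have h1 := laurent_E4
  have h2 := qExpand_delta_mul 3
  have h3 := congrArg (qExpand ℤ 3) (jqModC_mul_deltaL ℤ)
  rw [map_mul, map_pow] at h3
  have h4 := t3_sq ℤ
  set T := t3 ℤ with hT
  set D := deltaL ℤ
  set D3 := qExpand ℤ 3 D
  set Di := qExpand ℤ 3 (deltaInvL ℤ)
  set j := qExpand ℤ 3 (jqModC ℤ) with hj
  have e1 : (T ^ 4 + 270 * T ^ 2 + 729) ^ 2 =
      T ^ 2 * (36 * T ^ 2 - j + 756) ^ 2 := by
    have e2 : T ^ 4 + 270 * T ^ 2 + 729 =
        (D ^ 2 + 270 * (D * D3) + 729 * D3 ^ 2) * Di ^ 2 := by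
      linear_combination (T ^ 2 + D * Di) * h4 + 270 * h4 -
        (270 * D * Di + 729 * (D3 * Di + 1)) * h2
    have e3 : 36 * T ^ 2 - j + 756 =
        (36 * D - qExpand ℤ 3 (E4L ℤ) ^ 3 + 756 * D3) * Di := by
      linear_combination 36 * h4 - Di * h3 + (j - 756) * h2
    rw [e2, e3, mul_pow, h1, h4]
    linear_combination (D * (36 * D - qExpand ℤ 3 (E4L ℤ) ^ 3 + 756 * D3) ^ 2 * Di ^ 3) * h2
  have e5 : ((T + 27) * (T + 3) ^ 3 - j * T) *
      ((27 - T) * (3 - T) ^ 3 + j * T) = 0 := by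
    linear_combination e1
  rcases mul_eq_zero.mp e5 with h | h
  · exact sub_eq_zero.mp h
  · exfalso
    have l1 := (hasLead_const_sub 27).mul ((hasLead_const_sub 3).pow 3)
    have l2 := ((HasLead.jqModC (A := ℤ)).qExpand 3).mul (hasLead_t3 ℤ)
    norm_num at l1 l2
    have l3 := HasLead.add_same l1 l2
    rw [← hT, ← hj] at l3
    have h' : (27 - T) * (3 - T) ^ 3 + j * T ≠ 0 := HasLead.ne_zero l3 (by norm_num)
    exact h' h

end Int

/-! ### The identities over any commutative ring -/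

section Final

variable (K : Type*) [CommRing K]

/-- (E1) `(t₂ + 256)³ = j t₂²` -/
theorem t2_E1 : (t2 K + 256) ^ 3 = jqModC K * t2 K ^ 2 := by
  have h := congrArg (coeffMap (Int.castRingHom K)) t2_E1_int
  simpa only [map_mul, map_add, map_pow, coeffMap_t2, H61.coeffMap_jqModC, map_ofNat] using h

/-- (E2) `(t₂ + 16)³ = j(q²) t₂` -/
theorem t2_E2 : (t2 K + 16) ^ 3 = qExpand K 2 (jqModC K) * t2 K := by
  have h := congrArg (coeffMap (Int.castRingHom K)) t2_E2_int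
  simpa only [map_mul, map_add, map_pow, coeffMap_t2, coeffMap_qExpand, H61.coeffMap_jqModC,
    map_ofNat] using h

/-- (E3) `(t₃ + 27)(t₃ + 243)³ = j t₃³` -/
theorem t3_E3 : (t3 K + 27) * (t3 K + 243) ^ 3 = jqModC K * t3 K ^ 3 := by
  have h := congrArg (coeffMap (Int.castRingHom K)) t3_E3_int
  simpa only [map_mul, map_add, map_pow, coeffMap_t3, H61.coeffMap_jqModC, map_ofNat] using h

/-- (E4) `(t₃ + 27)(t₃ + 3)³ = j(q³) t₃` -/
theorem t3_E4 : (t3 K + 27) * (t3 K + 3) ^ 3 = qExpand K 3 (jqModC K) * t3 K := by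
  have h := congrArg (coeffMap (Int.castRingHom K)) t3_E4_int
  simpa only [map_mul, map_add, map_pow, coeffMap_t3, coeffMap_qExpand, H61.coeffMap_jqModC,
    map_ofNat] using h

/-- the inverse of `t₂` -/
theorem t2_mul_inv : t2 K * (qExpand K 2 (deltaL K) * deltaInvL K) = 1 := by
  rw [t2]
  have h1 := deltaL_mul_deltaInvL K
  have h2 : qExpand K 2 (deltaL K) * qExpand K 2 (deltaInvL K) = 1 := by
    rw [← map_mul, deltaL_mul_deltaInvL, map_one]
  linear_combination (qExpand K 2 (deltaL K) * qExpand K 2 (deltaInvL K)) * h1 + h2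

theorem isUnit_t2 : IsUnit (t2 K) := IsUnit.of_mul_eq_one _ (t2_mul_inv K)

theorem isUnit_t3 : IsUnit (t3 K) := by
  have h1 := deltaL_mul_deltaInvL K
  have h2 : qExpand K 3 (deltaL K) * qExpand K 3 (deltaInvL K) = 1 := by
    rw [← map_mul, deltaL_mul_deltaInvL, map_one]
  refine IsUnit.of_mul_eq_one (t3 K * (qExpand K 3 (deltaL K) * deltaInvL K)) ?_
  rw [← mul_assoc, ← sq, t3_sq]
  linear_combination (qExpand K 3 (deltaL K) * qExpand K 3 (deltaInvL K)) * h1 + h2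

end Final

end Fermat.Agent.H23.Haupt
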