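import Mathlib
import Fermat.Agent.H88RH
import Fermat.Agent.H3RR_Duality
set_option autoImplicit false

/-!
# Riemann--Hurwitz equality in characteristic zero (helper94)

Reverse of helper88's inequality `rh_le`.
-/

open AlgebraicCurve WithZero IsLocalRing Polynomial IntermediateField Fermat.Agent.H3RR
  Fermat.Agent.H88

namespace Fermat.Agent.H94.GF

section TraceVal

variable {K : Type*} [Field K] {E F : Type*} [Field E] [Field F] [Algebra K E] [Algebra K F]
  [Algebra E F] [IsScalarTower K E F]

/-- `w` lies above `v`. -/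
def Above (v : Place K E) (w : Place K F) : Prop :=
  ∀ e : E, e ∈ v.toValuationSubring ↔ algebraMap E F e ∈ w.toValuationSubring

theorem not_trace_lt_one [CharZero K] [FiniteDimensional E F] [Algebra.IsSeparable E F] [IsFF K F]
    (v : Place K E) (w0 : Place K F) (hw0 : Above v w0) {h : F}
    (h1 : w0.adicValuation (h - 1) < 1)
    (hh : ∀ w : Place K F, w ≠ w0 → Above v w → w.adicValuation h < 1) :
    ¬ v.adicValuation (Algebra.trace E F h) < 1 := by
  classical
  -- an embedding and a valuation ring above `w0`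
  let σ₀ : F →ₐ[E] AlgebraicClosure E := IsAlgClosed.lift
  let : Algebra F (AlgebraicClosure E) := σ₀.toRingHom.toAlgebra
  obtain ⟨B, hB⟩ := exists_comap_eq (Ω := AlgebraicClosure E) w0.toValuationSubring
  have hB' : ∀ f : F, f ∈ w0.toValuationSubring ↔ σ₀ f ∈ B := by
    intro f; rw [← hB]; rfl
  have hmem : ∀ e : E, e ∈ v.toValuationSubring ↔ algebraMap E (AlgebraicClosure E) e ∈ B := by
    intro e; rw [hw0, hB', σ₀.commutes]
  have hval : ∀ (σ : F →ₐ[E] AlgebraicClosure E) (w : Place K F),
      (∀ f : F, f ∈ w.toValuationSubring ↔ σ f ∈ B) → ∀ f : F, w.adicValuation f < 1 →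
      B.valuation (σ f) < 1 := by
    intro σ w hw f hf
    by_cases h0 : f = 0
    · rw [h0, map_zero, map_zero]; exact zero_lt_one
    · have h2 : w.adicValuation f⁻¹ > 1 := by
        rw [map_inv₀]
        exact (one_lt_inv₀ (zero_lt_iff.mpr (Place.adicValuation_ne_zero _ h0))).mpr hf
      have h3 : f⁻¹ ∉ w.toValuationSubring := fun h' =>
        absurd (Place.adicValuation_le_one_of_mem _ h') (not_le.mpr h2)
      rw [hw, ← B.valuation_le_one_iff, map_inv₀, map_inv₀, not_le] at h3
      have h5 : B.valuation (σ f) ≠ 0 := by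
        rw [Valuation.ne_zero_iff]; exact (_root_.map_ne_zero _).mpr h0
      exact (one_lt_inv₀ (zero_lt_iff.mpr h5)).mp h3
  have hσ : ∀ σ : F →ₐ[E] AlgebraicClosure E, ∃ w : Place K F, Above v w ∧
      (∀ f : F, f ∈ w.toValuationSubring ↔ σ f ∈ B) := by
    intro σ
    have hK : ∀ a : K, algebraMap K F a ∈ B.comap (σ : F →+* AlgebraicClosure E) := by
      intro a
      show σ (algebraMap K F a) ∈ B
      rw [IsScalarTower.algebraMap_apply K E F, σ.commutes, ← hmem]
      exact v.algebraMap_mem' a
    have htop : B.comap (σ : F →+* AlgebraicClosure E) ≠ ⊤ := by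
      intro htop
      apply v.ne_top'
      rw [eq_top_iff]
      intro e _
      have h1 : algebraMap E F e ∈ B.comap (σ : F →+* AlgebraicClosure E) := htop ▸ trivial
      have h2 : σ (algebraMap E F e) ∈ B := h1
      rw [σ.commutes, ← hmem] at h2
      exact h2
    refine ⟨placeOf _ hK htop, ?_, fun f => Iff.rfl⟩
    intro e
    rw [placeOf_toValuationSubring, hmem, ← σ.commutes]
    rfl
  choose W hW1 hW2 using hσ
  have hWσ₀ : W σ₀ = w0 := by
    apply eq_of_le
    intro f hf
    rw [hB', ← hW2]; exact hf
  let c : (F →ₐ[E] AlgebraicClosure E) → ℕ := fun σ => if W σ = w0 then 1 else 0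
  have hc : ∀ σ : F →ₐ[E] AlgebraicClosure E, B.valuation (σ h - c σ) < 1 := by
    intro σ
    by_cases hσ : W σ = w0
    · have h2 := hval σ (W σ) (hW2 σ) (h - 1) (by rw [hσ]; exact h1)
      rw [map_sub, map_one] at h2
      simpa [c, hσ] using h2
    · have h2 := hval σ (W σ) (hW2 σ) h (hh _ hσ (hW1 σ))
      simpa [c, hσ] using h2
  have hsum : B.valuation (algebraMap E (AlgebraicClosure E) (Algebra.trace E F h) -
      ((∑ σ, c σ : ℕ) : AlgebraicClosure E)) < 1 := by
    rw [trace_eq_sum_embeddings (AlgebraicClosure E), Nat.cast_sum, ← Finset.sum_sub_distrib]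
    exact Valuation.map_sum_lt _ one_ne_zero fun σ _ => hc σ
  have hpos : (∑ σ, c σ) ≠ 0 := by
    intro h0
    have := (Finset.sum_eq_zero_iff.mp h0) σ₀ (Finset.mem_univ _)
    simp [c, hWσ₀] at this
  have hone : B.valuation ((∑ σ, c σ : ℕ) : AlgebraicClosure E) = 1 := by
    have hmemK : ∀ a : K, algebraMap E (AlgebraicClosure E) (algebraMap K E a) ∈ B := by
      intro a
      rw [← hmem]; exact v.algebraMap_mem' a
    have hcast : ((∑ σ, c σ : ℕ) : AlgebraicClosure E) =
        algebraMap E (AlgebraicClosure E) (algebraMap K E ((∑ σ, c σ : ℕ) : K)) := by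
      rw [map_natCast, map_natCast]
    have hne : ((∑ σ, c σ : ℕ) : K) ≠ 0 := Nat.cast_ne_zero.mpr hpos
    apply le_antisymm
    · rw [hcast, B.valuation_le_one_iff]; exact hmemK _
    · have h2 := hmemK ((∑ σ, c σ : ℕ) : K)⁻¹
      rw [← B.valuation_le_one_iff, map_inv₀, map_inv₀, map_inv₀, ← hcast] at h2
      have h5 : B.valuation ((∑ σ, c σ : ℕ) : AlgebraicClosure E) ≠ 0 := by
        rw [Valuation.ne_zero_iff, hcast]
        exact (_root_.map_ne_zero _).mpr ((_root_.map_ne_zero _).mpr hne)
      exact (inv_le_one₀ (zero_lt_iff.mpr h5)).mp h2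
  intro hlt
  have h3 : B.valuation (algebraMap E (AlgebraicClosure E) (Algebra.trace E F h)) < 1 := by
    have h4 : w0.adicValuation (algebraMap E F (Algebra.trace E F h)) < 1 := by
      by_contra hge
      push Not at hge
      have h0 : Algebra.trace E F h ≠ 0 := by
        intro h0
        rw [h0, map_zero, map_zero] at hge
        exact absurd hge (not_le.mpr zero_lt_one)
      have h5 : (algebraMap E F (Algebra.trace E F h)⁻¹) ∈ w0.toValuationSubring := by
        apply mem_of_adicValuation_le_one
        rw [map_inv₀, map_inv₀]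
        exact inv_le_one_of_one_le₀ hge
      rw [← hw0] at h5
      have h6 := v.adicValuation_le_one_of_mem h5
      rw [map_inv₀] at h6
      exact absurd ((inv_le_one₀ (zero_lt_iff.mpr (v.adicValuation_ne_zero h0))).mp h6)
        (not_le.mpr hlt)
    have h5 := hval σ₀ w0 hB' _ h4
    rwa [σ₀.commutes] at h5
  have h4 := Valuation.map_sub_lt B.valuation h3 hsum
  rw [sub_sub_cancel, hone] at h4
  exact lt_irrefl _ h4

/-- order of the image of a uniformizer, and valuation of elements of `E` at a place above -/
theorem adicValuation_above [IsFF K F] [IsAlgClosed K] {v : Place K E} {w : Place K F}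
    (hw : Above v w) {e : E} (he : v.adicValuation e ≤ 1) :
    w.adicValuation (algebraMap E F e) ≤ 1 := by
  apply w.adicValuation_le_one_of_mem
  rw [← hw]
  exact mem_of_adicValuation_le_one v he

theorem finite_above [IsAlgClosed K] [IsFF K F] {v : Place K E} {π : E}
    (hπ : v.adicValuation π < 1) (hπt : Transcendental K (algebraMap E F π)) :
    {w : Place K F | Above v w}.Finite := by
  refine (finite_zeros hπt).subset fun w hw => ?_
  have hπ0 : π ≠ 0 := by
    rintro rfl
    rw [map_zero] at hπt
    exact hπt isAlgebraic_zero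
  have h1 := ord_pos_of_above hw hπ hπ0
  show w.adicValuation (algebraMap E F π) < 1
  rw [w.adicValuation_eq_exp_neg_ord ((_root_.map_ne_zero _).mpr hπ0), ← exp_zero, exp_lt_exp]
  omega

/-- the local duality bound at a tame place -/
theorem dual_bound [CharZero K] [IsAlgClosed K] [FiniteDimensional E F]
    [Algebra.IsSeparable E F] [IsFF K F] (v : Place K E) {π : E}
    (hπ : v.adicValuation π = exp (-1)) (hπt : Transcendental K (algebraMap E F π))
    (D : Divisor K F) {f : F}
    (hf : ∀ g : F, (∀ w : Place K F, Above v w → w.adicValuation g ≤ exp (D w)) →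
      v.adicValuation (Algebra.trace E F (f * g)) ≤ 1)
    (w0 : Place K F) (hw0 : Above v w0) :
    w0.adicValuation f ≤ exp (w0.ord (algebraMap E F π) - 1 - D w0) := by
  classical
  by_cases hf0 : f = 0
  · rw [hf0, map_zero]; exact zero_le
  have hπ1 : v.adicValuation π < 1 := by rw [hπ, ← exp_zero, exp_lt_exp]; norm_num
  have hπ0 : algebraMap E F π ≠ 0 := transcendental_ne_zero hπt
  by_contra hcon
  rw [w0.adicValuation_eq_exp_neg_ord hf0, exp_le_exp, not_le] at hcon
  obtain ⟨p, hp⟩ : ∃ p : F, p = algebraMap E F π := ⟨_, rfl⟩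
  rw [← hp] at hπ0 hcon
  have hfp : f * p ≠ 0 := mul_ne_zero hf0 hπ0
  have hord : ∀ w : Place K F, w.ord (f * p) = w.ord f + w.ord p := fun w =>
    w.ord_mul hf0 hπ0
  obtain ⟨g, hg⟩ := weak_approximation (finite_above (K := K) (F := F) hπ1 hπt).toFinset
    (fun w => if w = w0 then (f * p)⁻¹ else 0)
    (fun w => if w = w0 then w.ord (f * p) - 1 else min (D w) (w.ord (f * p) - 1))
  have hg0 : w0.adicValuation (g - (f * p)⁻¹) ≤ exp (w0.ord (f * p) - 1) := by
    have := hg w0 (by simpa using hw0)
    simpa using this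
  have hg1 : ∀ w : Place K F, w ≠ w0 → Above v w →
      w.adicValuation g ≤ exp (min (D w) (w.ord (f * p) - 1)) := by
    intro w hw hab
    have := hg w (by simpa using hab)
    simpa [hw] using this
  have hgD : ∀ w : Place K F, Above v w → w.adicValuation g ≤ exp (D w) := by
    intro w hab
    by_cases hw : w = w0
    · subst hw
      have h1 : g = (g - (f * p)⁻¹) + (f * p)⁻¹ := by ring
      rw [h1]
      refine (Valuation.map_add _ _ _).trans (max_le ?_ ?_)
      · refine hg0.trans ?_
        rw [exp_le_exp, hord]; omega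
      · rw [w.adicValuation_eq_exp_neg_ord (inv_ne_zero hfp), w.ord_inv, neg_neg, exp_le_exp,
          hord]
        omega
    · exact (hg1 w hw hab).trans (by rw [exp_le_exp]; exact min_le_left _ _)
  have h2 := hf g hgD
  have h3 : Algebra.trace E F (f * p * g) = π * Algebra.trace E F (f * g) := by
    rw [hp, show f * algebraMap E F π * g = π • (f * g) by rw [Algebra.smul_def]; ring,
      map_smul, smul_eq_mul]
  have h4 : v.adicValuation (Algebra.trace E F (f * p * g)) < 1 := by
    rw [h3, map_mul, hπ]
    calc exp (-1) * v.adicValuation (Algebra.trace E F (f * g)) ≤ exp (-1) * 1 := by gcongr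
      _ < 1 := by rw [mul_one, ← exp_zero, exp_lt_exp]; norm_num
  refine not_trace_lt_one v w0 hw0 (h := f * p * g) ?_ ?_ h4
  · have h5 : f * p * g - 1 = f * p * (g - (f * p)⁻¹) := by
      rw [mul_sub, mul_inv_cancel₀ hfp]
    rw [h5, map_mul, w0.adicValuation_eq_exp_neg_ord hfp]
    calc exp (-w0.ord (f * p)) * w0.adicValuation (g - (f * p)⁻¹)
        ≤ exp (-w0.ord (f * p)) * exp (w0.ord (f * p) - 1) := by gcongr
      _ < 1 := by rw [← exp_add, ← exp_zero, exp_lt_exp]; omega
  · intro w hw hab
    rw [map_mul, w.adicValuation_eq_exp_neg_ord hfp]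
    calc exp (-w.ord (f * p)) * w.adicValuation g
        ≤ exp (-w.ord (f * p)) * exp (w.ord (f * p) - 1) := by
          gcongr
          exact (hg1 w hw hab).trans (by rw [exp_le_exp]; exact min_le_right _ _)
      _ < 1 := by rw [← exp_add, ← exp_zero, exp_lt_exp]; omega

/-- every place of `F` lies above a place of `E` -/
theorem exists_below [IsAlgClosed K] [IsFF K E] [FiniteDimensional E F] (w : Place K F) :
    ∃ v : Place K E, Above v w := by
  have hK : ∀ a : K, algebraMap K E a ∈ w.toValuationSubring.comap (algebraMap E F) := by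
    intro a
    show algebraMap E F (algebraMap K E a) ∈ w.toValuationSubring
    rw [← IsScalarTower.algebraMap_apply]
    exact w.algebraMap_mem' a
  have htop : w.toValuationSubring.comap (algebraMap E F) ≠ ⊤ := by
    intro htop
    apply w.ne_top'
    rw [eq_top_iff]
    intro f _
    have hE : ∀ e : E, algebraMap E F e ∈ w.toValuationSubring := fun e => by
      have : e ∈ w.toValuationSubring.comap (algebraMap E F) := htop ▸ trivial
      exact this
    have hint : IsIntegral E f := Algebra.IsIntegral.isIntegral f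
    obtain ⟨p, hp, hpf⟩ := hint
    let φ : E →+* w.toValuationSubring :=
      (algebraMap E F).codRestrict w.toValuationSubring.toSubring hE
    have hint' : IsIntegral w.toValuationSubring f := by
      refine ⟨p.map φ, hp.map φ, ?_⟩
      rw [Polynomial.eval₂_map]
      exact hpf
    obtain ⟨y, hy⟩ := IsIntegrallyClosed.isIntegral_iff.mp hint'
    rw [← hy]
    exact SetLike.coe_mem y
  exact ⟨placeOf _ hK htop, fun e => Iff.rfl⟩

end TraceVal

end Fermat.Agent.H94.GF
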