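import Mathlib
import Fermat.Agent.H94GF1
set_option autoImplicit false

/-!
# Riemann--Hurwitz equality in characteristic zero, part 2 (helper94)
-/

open AlgebraicCurve WithZero IsLocalRing Polynomial IntermediateField Fermat.Agent.H3RR
  Fermat.Agent.H88

namespace Fermat.Agent.H94.GF

variable {K F : Type*} [Field K] [Field F] [Algebra K F] [IsAlgClosed K] [IsFF K F]

theorem eq_of_top {E : Type*} [Field E] [Algebra K E] [IsFF K E] {z : E}
    (hz : Transcendental K z) (htop : K⟮z⟯ = ⊤) {v v' : Place K E} (hv : v.adicValuation z < 1)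
    (hv' : v'.adicValuation z < 1) : v = v' := by
  classical
  by_contra hne
  have h1 := sum_ord_le_finrank hz {v, v'} (by simp [hv, hv'])
  rw [Finset.sum_pair hne, finrank_of_eq_top htop] at h1
  have h2 := ord_pos_of_lt_one (transcendental_ne_zero hz) hv
  have h3 := ord_pos_of_lt_one (transcendental_ne_zero hz) hv'
  omega

/-- a place of `F` at which the uniformizer of `v` vanishes lies above `v` -/
theorem above_of_ord_pos {y : F} (hy : Transcendental K y) {v : Place K K⟮y⟯} {π : K⟮y⟯}
    (hπ : v.adicValuation π = exp (-1))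
    (hπy : (∃ c : K, algebraMap K⟮y⟯ F π = y - algebraMap K F c) ∨ algebraMap K⟮y⟯ F π = y⁻¹)
    {w : Place K F} (hw : 0 < w.ord (algebraMap K⟮y⟯ F π)) : Above v w := by
  have := isFF_adjoin hy
  have := IsFF.finiteDimensional hy
  have hgen : algebraMap K⟮y⟯ F (AdjoinSimple.gen K y) = y := AdjoinSimple.algebraMap_gen K y
  have ht := transcendental_gen hy
  have hinj := (algebraMap K⟮y⟯ F).injective
  obtain ⟨v', hv'⟩ := exists_below (K := K) (E := K⟮y⟯) w
  have hp0 : algebraMap K⟮y⟯ F π ≠ 0 := by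
    intro h; rw [h, Place.ord_zero] at hw; exact lt_irrefl _ hw
  have hπ0 : π ≠ 0 := fun h => hp0 (by rw [h, map_zero])
  have h1 : v'.adicValuation π < 1 := by
    by_contra hge
    push Not at hge
    have h2 : π⁻¹ ∈ v'.toValuationSubring := by
      apply mem_of_adicValuation_le_one
      rw [map_inv₀]
      exact inv_le_one_of_one_le₀ hge
    rw [hv'] at h2
    have h3 := w.adicValuation_le_one_of_mem h2
    rw [map_inv₀, w.adicValuation_eq_exp_neg_ord (inv_ne_zero hp0), w.ord_inv, neg_neg,
      ← exp_zero, exp_le_exp] at h3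
    omega
  have h2 : v.adicValuation π < 1 := by rw [hπ, ← exp_zero, exp_lt_exp]; norm_num
  have h3 : Transcendental K π ∧ K⟮π⟯ = ⊤ := by
    rcases hπy with ⟨c, hc⟩ | hc
    · have h4 : π = AdjoinSimple.gen K y - algebraMap K K⟮y⟯ c := by
        apply hinj
        rw [hc, map_sub, hgen, ← IsScalarTower.algebraMap_apply]
      rw [h4]
      exact ⟨transcendental_sub_const ht c, by rw [adjoin_sub_const, adjoin_gen_eq_top]⟩
    · have h4 : π = (AdjoinSimple.gen K y)⁻¹ := by
        apply hinj
        rw [hc, map_inv₀, hgen]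
      rw [h4]
      exact ⟨transcendental_inv ht, by rw [adjoin_inv, adjoin_gen_eq_top]⟩
  rw [eq_of_top h3.1 h3.2 h2 h1]
  exact hv'

/-- a function in `L(D + Z)` vanishing on the fibre over a point is zero if `L(D) = 0` -/
theorem eq_zero_of_vanish {y : F} (hy : Transcendental K y) {D : Divisor K F}
    (hD : riemannRochSpace D = ⊥) {p : F}
    (hp : (∃ c : K, p = y - algebraMap K F c) ∨ p = y⁻¹) {f : F}
    (hf : f ∈ riemannRochSpace (D + (poleDiv y⁻¹ : Divisor K F)))
    (hfp : ∀ w : Place K F, 0 < w.ord p →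
      w.adicValuation f ≤ exp ((D + (poleDiv y⁻¹ : Divisor K F)) w - w.ord p)) : f = 0 := by
  have hy0 := transcendental_ne_zero hy
  rcases hp with ⟨c, rfl⟩ | rfl
  · have hp0 : y - algebraMap K F c ≠ 0 := transcendental_ne_zero (transcendental_sub_const hy c)
    have hu0 : y / (y - algebraMap K F c) ≠ 0 := div_ne_zero hy0 hp0
    obtain ⟨p, hp⟩ : ∃ p : F, p = y - algebraMap K F c := ⟨_, rfl⟩
    rw [← hp] at hfp hp0 hu0
    have hyp : y = p + algebraMap K F c := by rw [hp]; ring
    have hvy : ∀ w : Place K F, w.adicValuation y ≤ max (w.adicValuation p) 1 := by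
      intro w
      conv_lhs => rw [hyp]
      refine (Valuation.map_add _ _ _).trans (max_le_max le_rfl ?_)
      exact w.adicValuation_algebraMap_le_one c
    have hordu : ∀ w : Place K F, w.ord (y / p) = w.ord y - w.ord p := by
      intro w
      rw [div_eq_mul_inv, w.ord_mul hy0 (inv_ne_zero hp0), w.ord_inv]
      ring
    have hmem : f * (y / p) ∈ riemannRochSpace D := by
      intro w
      rw [map_mul, w.adicValuation_eq_exp_neg_ord hu0, hordu]
      have h1 := hvy w
      rw [w.adicValuation_eq_exp_neg_ord hy0, w.adicValuation_eq_exp_neg_ord hp0] at h1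
      have h1' : -w.ord y ≤ -w.ord p ∨ -w.ord y ≤ 0 := by
        rcases le_max_iff.mp h1 with h | h
        · left; rwa [exp_le_exp] at h
        · right; rwa [← exp_zero, exp_le_exp] at h
      by_cases hpos : 0 < w.ord p
      · calc w.adicValuation f * exp (-(w.ord y - w.ord p))
            ≤ exp ((D + (poleDiv y⁻¹ : Divisor K F)) w - w.ord p) *
              exp (-(w.ord y - w.ord p)) := by gcongr; exact hfp w hpos
          _ ≤ exp (D w) := by
            rw [← exp_add, exp_le_exp, Finsupp.add_apply, zeroDiv_apply hy0]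
            have : 0 ≤ w.ord y := by omega
            rw [max_eq_left this]
            omega
      · calc w.adicValuation f * exp (-(w.ord y - w.ord p))
            ≤ exp ((D + (poleDiv y⁻¹ : Divisor K F)) w) *
              exp (-(w.ord y - w.ord p)) := by gcongr; exact hf w
          _ ≤ exp (D w) := by
            rw [← exp_add, exp_le_exp, Finsupp.add_apply, zeroDiv_apply hy0]
            rcases le_total 0 (w.ord y) with h | h
            · rw [max_eq_left h]; omega
            · rw [max_eq_right h]; omega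
    rw [hD, Submodule.mem_bot] at hmem
    exact (mul_eq_zero.mp hmem).resolve_right hu0
  · have hmem : f * y ∈ riemannRochSpace D := by
      intro w
      rw [map_mul, w.adicValuation_eq_exp_neg_ord hy0]
      by_cases hpos : 0 < w.ord y⁻¹
      · calc w.adicValuation f * exp (-w.ord y)
            ≤ exp ((D + (poleDiv y⁻¹ : Divisor K F)) w - w.ord y⁻¹) * exp (-w.ord y) := by
              gcongr; exact hfp w hpos
          _ ≤ exp (D w) := by
            rw [w.ord_inv] at hpos ⊢
            rw [← exp_add, exp_le_exp, Finsupp.add_apply, zeroDiv_apply hy0,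
              max_eq_right (by omega)]
            omega
      · calc w.adicValuation f * exp (-w.ord y)
            ≤ exp ((D + (poleDiv y⁻¹ : Divisor K F)) w) * exp (-w.ord y) := by
              gcongr; exact hf w
          _ ≤ exp (D w) := by
            rw [w.ord_inv] at hpos
            rw [← exp_add, exp_le_exp, Finsupp.add_apply, zeroDiv_apply hy0,
              max_eq_left (by omega)]
            omega
    rw [hD, Submodule.mem_bot] at hmem
    exact (mul_eq_zero.mp hmem).resolve_right hy0

/-- coefficients with respect to a basis in `L(D + Z)`, `L(D) = 0` -/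
theorem repr_le_one {y : F} (hy : Transcendental K y) {D : Divisor K F}
    (hD : riemannRochSpace D = ⊥) {ι : Type*} [Fintype ι] (b : Module.Basis ι K⟮y⟯ F)
    (hb : ∀ i, b i ∈ riemannRochSpace (D + (poleDiv y⁻¹ : Divisor K F))) (v : Place K K⟮y⟯)
    {g : F} (hg : ∀ w : Place K F, Above v w →
      w.adicValuation g ≤ exp ((D + (poleDiv y⁻¹ : Divisor K F)) w)) (j : ι) :
    v.adicValuation (b.repr g j) ≤ 1 := by
  have := isFF_adjoin hy
  have := IsFF.finiteDimensional hy
  by_contra hcon
  push Not at hcon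
  have : Nonempty ι := ⟨j⟩
  obtain ⟨j0, hj0⟩ := Finite.exists_max (fun i => v.adicValuation (b.repr g i))
  have hgt : 1 < v.adicValuation (b.repr g j0) := hcon.trans_le (hj0 j)
  have hne : b.repr g j0 ≠ 0 := by
    intro h; rw [h, map_zero] at hgt; exact absurd hgt (not_lt.mpr zero_le)
  obtain ⟨m, hm⟩ : ∃ m : ℤ, m = - v.ord (b.repr g j0) := ⟨_, rfl⟩
  have hvalm : v.adicValuation (b.repr g j0) = exp m := by
    rw [v.adicValuation_eq_exp_neg_ord hne, hm]
  have hm1 : 1 ≤ m := by
    rw [hvalm, ← exp_zero, exp_lt_exp] at hgt; omega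
  obtain ⟨π, hπ, hπy⟩ := exists_uniformizer hy v
  have hπ0 : π ≠ 0 := by
    rintro rfl; rw [map_zero] at hπ; exact absurd hπ.symm (by simp)
  have hπ1 : v.adicValuation π < 1 := by rw [hπ, ← exp_zero, exp_lt_exp]; norm_num
  have hp0 : algebraMap K⟮y⟯ F π ≠ 0 := (_root_.map_ne_zero _).mpr hπ0
  have hπm : v.adicValuation (π ^ m) = exp (-m) := by
    rw [map_zpow₀, hπ, ← exp_zsmul]
    congr 1
    simp
  have hle : ∀ i, v.adicValuation (π ^ m * b.repr g i) ≤ 1 := by
    intro i
    rw [map_mul, hπm]
    calc exp (-m) * v.adicValuation (b.repr g i) ≤ exp (-m) * exp m := by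
          gcongr; rw [← hvalm]; exact hj0 i
      _ = 1 := by rw [← exp_add]; simp
  choose c hc using fun i => exists_const_sub_lt_one v (hle i)
  have hc0 : c j0 ≠ 0 := by
    intro h
    have h1 := hc j0
    rw [h, map_zero, sub_zero, map_mul, hπm, hvalm, ← exp_add] at h1
    simp at h1
  -- the element of `L(D + Z)`
  obtain ⟨f, hf⟩ : ∃ f : F, f = ∑ i, algebraMap K K⟮y⟯ (c i) • b i := ⟨_, rfl⟩
  have hfeq : f = algebraMap K⟮y⟯ F (π ^ m) * g -
      ∑ i, algebraMap K⟮y⟯ F (π ^ m * b.repr g i - algebraMap K K⟮y⟯ (c i)) * b i := by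
    rw [hf]
    conv_rhs => rw [← b.sum_repr g]
    rw [Finset.mul_sum, ← Finset.sum_sub_distrib]
    refine Finset.sum_congr rfl fun i _ => ?_
    rw [b.sum_repr g, Algebra.smul_def, Algebra.smul_def, map_sub, map_mul]
    ring
  have hfmem : f ∈ riemannRochSpace (D + (poleDiv y⁻¹ : Divisor K F)) := by
    rw [hf]
    refine Submodule.sum_mem _ fun i _ => ?_
    rw [algebraMap_smul]
    exact Submodule.smul_mem _ _ (hb i)
  have hf0 : f = 0 := by
    refine eq_zero_of_vanish hy hD hπy hfmem fun w hw => ?_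
    have hab := above_of_ord_pos hy hπ hπy hw
    obtain ⟨e, he⟩ : ∃ e : ℤ, e = w.ord (algebraMap K⟮y⟯ F π) := ⟨_, rfl⟩
    have hpval : w.adicValuation (algebraMap K⟮y⟯ F π) = exp (-e) := by
      rw [w.adicValuation_eq_exp_neg_ord hp0, he]
    rw [← he] at hw ⊢
    have h1 : w.adicValuation (algebraMap K⟮y⟯ F (π ^ m) * g) ≤
        exp ((D + (poleDiv y⁻¹ : Divisor K F)) w - e) := by
      rw [map_mul, map_zpow₀, map_zpow₀, hpval]
      calc exp (-e) ^ m * w.adicValuation g
          ≤ exp (-e) ^ m * exp ((D + (poleDiv y⁻¹ : Divisor K F)) w) := by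
            gcongr; exact hg w hab
        _ ≤ exp ((D + (poleDiv y⁻¹ : Divisor K F)) w - e) := by
            rw [← exp_zsmul, ← exp_add, exp_le_exp, smul_eq_mul]
            nlinarith
    have h2 : ∀ i, w.adicValuation (algebraMap K⟮y⟯ F
        (π ^ m * b.repr g i - algebraMap K K⟮y⟯ (c i)) * b i) ≤
        exp ((D + (poleDiv y⁻¹ : Divisor K F)) w - e) := by
      intro i
      rw [map_mul]
      have h3 : w.adicValuation (algebraMap K⟮y⟯ F
          (π ^ m * b.repr g i - algebraMap K K⟮y⟯ (c i))) ≤ exp (-e) := by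
        have h4 : v.adicValuation ((π ^ m * b.repr g i - algebraMap K K⟮y⟯ (c i)) / π) ≤ 1 := by
          rw [map_div₀, hπ]
          have h5 := hc i
          rw [adicValuation_lt_one_iff] at h5
          exact div_le_one_of_le₀ h5 zero_le
        have h5 := adicValuation_above hab h4
        rw [map_div₀, map_div₀, hpval] at h5
        exact (div_le_one₀ (by simp)).mp h5
      calc _ ≤ exp (-e) * exp ((D + (poleDiv y⁻¹ : Divisor K F)) w) := by
            gcongr; exact hb i w
        _ = exp ((D + (poleDiv y⁻¹ : Divisor K F)) w - e) := by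
            rw [← exp_add]; congr 1; ring
    rw [hfeq]
    refine (Valuation.map_sub _ _ _).trans (max_le h1 ?_)
    exact Valuation.map_sum_le _ fun i _ => h2 i
  rw [hf0] at hf
  have h6 := (Fintype.linearIndependent_iff.mp b.linearIndependent) _ hf.symm j0
  rw [map_eq_zero_iff _ (algebraMap K K⟮y⟯).injective] at h6
  exact hc0 h6

/-- the dual basis lies in `L(R - D - Z)` -/
theorem dualBasis_mem [CharZero K] {y : F} (hy : Transcendental K y) {D : Divisor K F}
    (hD : riemannRochSpace D = ⊥) {ι : Type*} [Fintype ι] [DecidableEq ι]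
    [FiniteDimensional K⟮y⟯ F] [Algebra.IsSeparable K⟮y⟯ F] (b : Module.Basis ι K⟮y⟯ F)
    (hb : ∀ i, b i ∈ riemannRochSpace (D + (poleDiv y⁻¹ : Divisor K F))) (R : Divisor K F)
    (h0 : ∀ (w : Place K F) (c : K), 0 < w.ord (y - algebraMap K F c) →
      w.ord (y - algebraMap K F c) - 1 ≤ R w)
    (h1 : ∀ w : Place K F, w.ord y < 0 → - w.ord y - 1 ≤ R w) (i : ι) :
    (Algebra.traceForm K⟮y⟯ F).dualBasis (traceForm_nondegenerate K⟮y⟯ F) b i ∈
      riemannRochSpace (R - (D + (poleDiv y⁻¹ : Divisor K F))) := by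
  have := isFF_adjoin hy
  intro w
  obtain ⟨v, hv⟩ := exists_below (K := K) (E := K⟮y⟯) w
  obtain ⟨π, hπ, hπy⟩ := exists_uniformizer hy v
  have hπ0 : π ≠ 0 := by
    rintro rfl; rw [map_zero] at hπ; exact absurd hπ.symm (by simp)
  have hπ1 : v.adicValuation π < 1 := by rw [hπ, ← exp_zero, exp_lt_exp]; norm_num
  have hpos := ord_pos_of_above hv hπ1 hπ0
  have hπt : Transcendental K (algebraMap K⟮y⟯ F π) := by
    rcases hπy with ⟨c, hc⟩ | hc
    · rw [hc]; exact H88.transcendental_sub_const hy c
    · rw [hc]; exact transcendental_inv hy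
  have hRw : w.ord (algebraMap K⟮y⟯ F π) - 1 ≤ R w := by
    rcases hπy with ⟨c, hc⟩ | hc
    · rw [hc] at hpos ⊢; exact h0 w c hpos
    · rw [hc, Place.ord_inv] at hpos ⊢
      exact h1 w (by omega)
  have key := dual_bound v hπ hπt (D + (poleDiv y⁻¹ : Divisor K F))
    (f := (Algebra.traceForm K⟮y⟯ F).dualBasis (traceForm_nondegenerate K⟮y⟯ F) b i) (by
      intro g hg
      have h2 : Algebra.trace K⟮y⟯ F
          ((Algebra.traceForm K⟮y⟯ F).dualBasis (traceForm_nondegenerate K⟮y⟯ F) b i * g) =
          b.repr g i := by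
        conv_lhs => rw [← b.sum_repr g]
        rw [← Algebra.traceForm_apply, map_sum]
        have h3 : ∀ j, Algebra.traceForm K⟮y⟯ F
            ((Algebra.traceForm K⟮y⟯ F).dualBasis (traceForm_nondegenerate K⟮y⟯ F) b i)
            (b.repr g j • b j) = if j = i then b.repr g j else 0 := by
          intro j
          rw [map_smul, LinearMap.BilinForm.apply_dualBasis_left]
          split_ifs <;> simp
        rw [Finset.sum_congr rfl fun j _ => h3 j]
        simp
      rw [h2]
      exact repr_le_one hy hD b hb v hg i) w hv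
  refine key.trans ?_
  rw [exp_le_exp, Finsupp.sub_apply]
  omega

/-- **Riemann--Hurwitz**, the direction complementary to `H88.rh_le`, characteristic zero. -/
theorem rh_ge [CharZero K] {y : F} (hy : Transcendental K y) (R : Divisor K F)
    (h0 : ∀ (w : Place K F) (c : K), 0 < w.ord (y - algebraMap K F c) →
      w.ord (y - algebraMap K F c) - 1 ≤ R w)
    (h1 : ∀ w : Place K F, w.ord y < 0 → - w.ord y - 1 ≤ R w) :
    2 * (genusFF K F : ℤ) - 2 + 2 * Module.finrank K⟮y⟯ F ≤ Divisor.degree R := by
  classical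
  have := IsFF.finiteDimensional hy
  have hcz : CharZero K⟮y⟯ := charZero_of_injective_algebraMap (algebraMap K K⟮y⟯).injective
  have hsep : Algebra.IsSeparable K⟮y⟯ F := inferInstance
  have hy0 := transcendental_ne_zero hy
  have hR : Riemann K F (genusFF K F) :=
    { fin := fun D => finite_L D
      ineq := riemann_inequality
      eq := ⟨2 * (genusFF K F : ℤ) - 2 + 1, fun D hD => ell_of_degree_gt (by omega)⟩
      pole := fun y hy => degree_poleDiv hy }
  obtain ⟨Z, hZ⟩ : ∃ Z : Divisor K F, Z = poleDiv y⁻¹ := ⟨_, rfl⟩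
  have hZw : ∀ w, Z w = max (w.ord y) 0 := fun w => by rw [hZ, zeroDiv_apply hy0]
  have hZdeg : Divisor.degree Z = Module.finrank K⟮y⟯ F := by
    rw [hZ, hR.pole _ (transcendental_inv hy), adjoin_inv]
  obtain ⟨D, hDdeg, hD⟩ := exists_nonspecial hR
  have hfin := hR.fin (D + Z)
  have hn : Module.finrank K⟮y⟯ F ≤ ell (D + Z) := by
    have := hR.ineq (D + Z)
    rw [map_add, hDdeg, hZdeg] at this
    have h2 : ((Module.finrank K⟮y⟯ F : ℕ) : ℤ) ≤ ell (D + Z) := by linarith
    exact_mod_cast h2
  -- a `K`-independent family in `L(D + Z)`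
  let b0 := Module.finBasis K (riemannRochSpace (D + Z))
  let ω : Fin (Module.finrank K⟮y⟯ F) → F := fun i => (b0 (Fin.castLE hn i) : F)
  have hωmem : ∀ i, ω i ∈ riemannRochSpace (D + Z) := fun i => (b0 (Fin.castLE hn i)).2
  have hωli : LinearIndependent K ω := by
    have h2 : LinearIndependent K (fun i => b0 (Fin.castLE hn i)) :=
      b0.linearIndependent.comp _ (Fin.castLE_injective hn)
    exact h2.map' (Submodule.subtype _) (Submodule.ker_subtype _)
  have hωE : LinearIndependent K⟮y⟯ ω := by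
    apply linearIndependent_of_poly hy
    intro p hsum hex
    obtain ⟨w0, hw0⟩ : ∃ w0 : F, w0 = ∑ i, (p i).coeff 0 • ω i := ⟨_, rfl⟩
    have hw0' : w0 = - (y * ∑ i, aeval y (p i).divX * ω i) := by
      rw [eq_neg_iff_add_eq_zero, hw0, Finset.mul_sum, ← Finset.sum_add_distrib, ← hsum]
      apply Finset.sum_congr rfl
      intro i _
      conv_rhs => rw [← Polynomial.divX_mul_X_add (p i)]
      rw [map_add, map_mul, aeval_X, aeval_C, Algebra.smul_def]
      ring
    have hw0Z : w0 ∈ riemannRochSpace (D + Z) := by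
      rw [hw0]
      exact Submodule.sum_mem _ fun i _ => Submodule.smul_mem _ _ (hωmem i)
    have hw0z : w0 = 0 := by
      rw [hZ] at hw0Z
      refine eq_zero_of_vanish hy hD (p := y) (Or.inl ⟨0, by rw [map_zero, sub_zero]⟩) hw0Z ?_
      intro w hw
      have hyA : y ∈ w.toValuationSubring := by
        apply mem_of_adicValuation_le_one
        rw [w.adicValuation_eq_exp_neg_ord hy0, ← exp_zero, exp_le_exp]
        omega
      have h2 : w.adicValuation (∑ i, aeval y (p i).divX * ω i) ≤ exp ((D + Z) w) := by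
        apply Valuation.map_sum_le
        intro i _
        rw [map_mul]
        refine le_trans (mul_le_of_le_one_left' ?_) (hωmem i w)
        exact w.adicValuation_le_one_of_mem (aeval_mem _ w.algebraMap_mem' hyA _)
      rw [hw0', Valuation.map_neg, map_mul, w.adicValuation_eq_exp_neg_ord hy0, ← hZ]
      calc exp (-w.ord y) * w.adicValuation (∑ i, aeval y (p i).divX * ω i)
          ≤ exp (-w.ord y) * exp ((D + Z) w) := by gcongr
        _ = exp ((D + Z) w - w.ord y) := by rw [← exp_add]; congr 1; ring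
    obtain ⟨i, hi⟩ := hex
    rw [hw0] at hw0z
    exact hi ((Fintype.linearIndependent_iff.mp hωli) _ hw0z i)
  have hpos : 0 < Module.finrank K⟮y⟯ F := Module.finrank_pos
  have : Nonempty (Fin (Module.finrank K⟮y⟯ F)) := ⟨⟨0, hpos⟩⟩
  let b : Module.Basis (Fin (Module.finrank K⟮y⟯ F)) K⟮y⟯ F :=
    basisOfLinearIndependentOfCardEqFinrank hωE (by simp)
  have hbω : ∀ i, b i = ω i := fun i => by
    simp [b, coe_basisOfLinearIndependentOfCardEqFinrank]
  have hb : ∀ i, b i ∈ riemannRochSpace (D + (poleDiv y⁻¹ : Divisor K F)) := fun i => by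
    rw [hbω, ← hZ]; exact hωmem i
  have hdual := dualBasis_mem hy hD b hb R h0 h1
  rw [← hZ] at hdual
  let b' := (Algebra.traceForm K⟮y⟯ F).dualBasis (traceForm_nondegenerate K⟮y⟯ F) b
  -- many functions
  have hcount : ∀ m : ℕ, (m + 2) * Module.finrank K⟮y⟯ F ≤ ell (R - D + (m : ℤ) • Z) := by
    intro m
    have hgen : algebraMap K⟮y⟯ F (AdjoinSimple.gen K y) = y := AdjoinSimple.algebraMap_gen K y
    obtain ⟨z, hz⟩ : ∃ z, z = AdjoinSimple.gen K y := ⟨_, rfl⟩
    have hz0 : z ≠ 0 := by rw [hz]; exact transcendental_ne_zero (transcendental_gen hy)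
    have hli1 := linearIndependent_pow_of_transcendental hy (m + 2)
    rw [← hz] at hli1
    have hu0 : (z ^ (m + 1))⁻¹ ≠ 0 := inv_ne_zero (pow_ne_zero _ hz0)
    have hli2 : LinearIndependent K (fun j : Fin (m + 2) => (z ^ (m + 1))⁻¹ * z ^ (j : ℕ)) := by
      refine hli1.map' (LinearMap.mulLeft K (z ^ (m + 1))⁻¹) ?_
      rw [LinearMap.ker_eq_bot]
      exact mul_right_injective₀ hu0
    have hli3 := linearIndependent_smul hli2 b'.linearIndependent
    have hmem : ∀ q : Fin (m + 2) × Fin (Module.finrank K⟮y⟯ F),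
        ((z ^ (m + 1))⁻¹ * z ^ (q.1 : ℕ)) • b' q.2 ∈ riemannRochSpace (R - D + (m : ℤ) • Z) := by
      rintro ⟨j, i⟩ w
      have h2 := hdual i w
      have hj : (j : ℕ) ≤ m + 1 := by have := j.2; omega
      rw [Algebra.smul_def, map_mul, map_mul, map_inv₀, map_pow, map_pow, hz, hgen, map_mul,
        map_inv₀, map_pow, map_pow, w.adicValuation_eq_exp_neg_ord hy0]
      calc _ ≤ ((exp (-w.ord y) ^ (m + 1))⁻¹ * exp (-w.ord y) ^ (j : ℕ)) *
            exp ((R - (D + Z)) w) := by gcongr
        _ ≤ exp ((R - D + (m : ℤ) • Z) w) := by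
            rw [← exp_nsmul, ← exp_nsmul, ← exp_neg, ← exp_add, ← exp_add, exp_le_exp]
            simp only [Finsupp.add_apply, Finsupp.sub_apply, Finsupp.smul_apply, smul_eq_mul,
              nsmul_eq_mul, hZw]
            have hj' : (j : ℤ) ≤ m + 1 := by exact_mod_cast hj
            push_cast
            rcases le_total 0 (w.ord y) with h | h
            · rw [max_eq_left h]
              nlinarith
            · rw [max_eq_right h]
              nlinarith
    have hli4 : LinearIndependent K (fun q : Fin (m + 2) × Fin (Module.finrank K⟮y⟯ F) =>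
        (⟨_, hmem q⟩ : riemannRochSpace (R - D + (m : ℤ) • Z))) := by
      apply LinearIndependent.of_comp (Submodule.subtype _)
      exact hli3
    have h3 := hli4.fintype_card_le_finrank
    rw [Fintype.card_prod, Fintype.card_fin, Fintype.card_fin] at h3
    exact h3
  -- conclusion
  obtain ⟨m, hm⟩ : ∃ m : ℕ, 2 * (genusFF K F : ℤ) - 2 <
      Divisor.degree (R - D + (m : ℤ) • Z) := by
    refine ⟨(2 * (genusFF K F : ℤ) - 1 - Divisor.degree (R - D)).toNat, ?_⟩
    rw [map_add, map_zsmul, hZdeg, smul_eq_mul]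
    have h2 := Int.self_le_toNat (2 * (genusFF K F : ℤ) - 1 - Divisor.degree (R - D))
    have h3 : (1 : ℤ) ≤ Module.finrank K⟮y⟯ F := by exact_mod_cast hpos
    have h4 : (0 : ℤ) ≤ (2 * (genusFF K F : ℤ) - 1 - Divisor.degree (R - D)).toNat :=
      Int.natCast_nonneg _
    nlinarith
  have h2 := hcount m
  have h3 := ell_of_degree_gt hm
  have h4 : ((m + 2 : ℕ) * Module.finrank K⟮y⟯ F : ℤ) ≤ ell (R - D + (m : ℤ) • Z) := by
    exact_mod_cast h2
  rw [h3, map_add, map_sub, map_zsmul, hZdeg, hDdeg, smul_eq_mul] at h4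
  push_cast at h4
  linarith

end Fermat.Agent.H94.GF
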