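import Fermat.Agent.H94Orbits
set_option autoImplicit false

noncomputable section

open AlgebraicCurve IsDedekindDomain WithZero IntermediateField
open scoped IntermediateField.algebraAdjoinAdjoin

namespace Fermat.Agent.H94
variable {K F : Type*} [Field K] [Field F] [Algebra K F]

section Orbits2

variable {C : Type*} [Field C] [Algebra K C] {ι : Type*}

theorem sameCycle_iff_mem_orbit (π : Equiv.Perm ι) (i j : ι) :
    π.SameCycle i j ↔ j ∈ MulAction.orbit (Subgroup.zpowers π) i := by
  constructor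
  · rintro ⟨k, hk⟩
    exact ⟨⟨π ^ k, k, rfl⟩, hk⟩
  · rintro ⟨⟨_, k, rfl⟩, hk⟩
    exact ⟨k, hk⟩

theorem card_sameCycle (π : Equiv.Perm ι) (i : ι) :
    Nat.card {j // π.SameCycle i j} = Function.minimalPeriod π i := by
  have e1 : {j // π.SameCycle i j} ≃ MulAction.orbit (Subgroup.zpowers π) i :=
    Equiv.subtypeEquivRight fun j => sameCycle_iff_mem_orbit π i j
  rw [Nat.card_congr (e1.trans (MulAction.orbitZPowersEquiv π i)), Nat.card_zmod]
  rfl

theorem minimalPeriod_pos [Finite ι] (π : Equiv.Perm ι) (i : ι) :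
    0 < Function.minimalPeriod π i := by
  rw [← card_sameCycle]
  have : Nonempty {j // π.SameCycle i j} := ⟨⟨i, Equiv.Perm.SameCycle.refl π i⟩⟩
  exact Nat.card_pos

theorem coeff_pow_twist (s : ι → (F →ₐ[K] LaurentSeries C)) {ζ : C} {π : Equiv.Perm ι}
    (hπ : ∀ i f (n : ℤ), (s (π i) f).coeff n = ζ ^ n * (s i f).coeff n) (k : ℕ) (i : ι) (f : F)
    (n : ℤ) : (s ((π ^ k) i) f).coeff n = ζ ^ (n * k) * (s i f).coeff n := by
  induction k with
  | zero => simp
  | succ k ih =>
    rw [pow_succ', Equiv.Perm.mul_apply, hπ, ih, ← mul_assoc]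
    congr 1
    rcases eq_or_ne ζ 0 with rfl | hζ
    · rcases eq_or_ne n 0 with rfl | hn
      · simp
      · rw [zero_zpow n hn, zero_mul, zero_zpow]
        positivity
    · rw [← zpow_add₀ hζ]
      congr 1
      push_cast
      ring

theorem order_eq_of_twist (s : ι → (F →ₐ[K] LaurentSeries C)) {ζ : C} (hζ : ζ ≠ 0)
    {π : Equiv.Perm ι}
    (hπ : ∀ i f (n : ℤ), (s (π i) f).coeff n = ζ ^ n * (s i f).coeff n) (i : ι) (f : F) :
    (s (π i) f).order = (s i f).order := by
  rcases eq_or_ne f 0 with rfl | hf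
  · simp
  have h0 : s (π i) f ≠ 0 := (map_ne_zero _).mpr hf
  have h1 : s i f ≠ 0 := (map_ne_zero _).mpr hf
  apply le_antisymm
  · apply HahnSeries.order_le_of_coeff_ne_zero
    rw [hπ]
    exact mul_ne_zero (zpow_ne_zero _ hζ) (HahnSeries.coeff_order_eq_zero.not.mpr h1)
  · apply HahnSeries.order_le_of_coeff_ne_zero
    have h2 := HahnSeries.coeff_order_eq_zero.not.mpr h0
    intro h3
    apply h2
    rw [hπ, h3, mul_zero]

/-- **Places and orbits of the local monodromy.** -/
theorem exists_places_orbits [Fintype ι] [CharZero K] [IsAlgClosed K] [FunField K F] {x : F}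
    (hx : Transcendental K x) (s : ι → (F →ₐ[K] LaurentSeries C)) (hs : Function.Injective s)
    (hcard : Fintype.card ι = Module.finrank K⟮x⟯ F) {y : LaurentSeries C}
    (hy : ∀ i, s i x = y) {e : ℕ} (he : 0 < e) (hye : y.order = e) {ζ : C}
    (hζ : IsPrimitiveRoot ζ e) {π : Equiv.Perm ι}
    (hπ : ∀ i f (n : ℤ), (s (π i) f).coeff n = ζ ^ n * (s i f).coeff n) :
    ∃ V : ι → Place K F, (∀ i, (V i).toValuationSubring = pullbackRing (s i)) ∧
      (∀ i, 0 < (V i).ord x) ∧
      (∀ v : Place K F, 0 < v.ord x → ∃ i, V i = v) ∧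
      (∀ i j, V i = V j ↔ π.SameCycle i j) ∧
      (∀ i, (V i).ord x = Function.minimalPeriod π i) ∧
      Nat.card {v : Place K F // 0 < v.ord x} = Nat.card (Quotient (Equiv.Perm.SameCycle.setoid π)) := by
  classical
  have hypos : 0 < y.order := by rw [hye]; exact_mod_cast he
  have hζ0 : ζ ≠ 0 := hζ.ne_zero he.ne'
  have hpl : ∀ i, ∃ w : Place K F, w.toValuationSubring = pullbackRing (s i) := fun i =>
    exists_place_of_embedding (s i) (x := x) (by rw [hy]; exact hypos)
  choose V hV using hpl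
  have hVm : ∀ i, ∃ m : ℤ, 0 < m ∧ ∀ f : F, (s i f).order = m * (V i).ord f := fun i =>
    exists_order_eq_mul (V i) (s i) (hV i)
  choose m hm hmo using hVm
  have hme : ∀ i, m i * (V i).ord x = e := by
    intro i; rw [← hmo, hy, hye]
  have hVx : ∀ i, 0 < (V i).ord x := by
    intro i
    have := hme i
    have h2 : (0 : ℤ) < e := by exact_mod_cast he
    rw [← this] at h2
    exact pos_of_mul_pos_right (by linarith) (hm i).le
  have hsurj : ∀ v : Place K F, 0 < v.ord x → ∃ i, V i = v := by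
    intro v hv
    obtain ⟨i, hi⟩ := exists_embedding_of_place hx s hs hcard hy hypos v hv
    exact ⟨i, Place.ext ((hV i).trans hi.symm)⟩
  have hVπ : ∀ i, V (π i) = V i := by
    intro i
    apply Place.ext
    rw [hV, hV]
    ext f
    rw [mem_pullbackRing, mem_pullbackRing, order_eq_of_twist s hζ0 hπ]
  have hVπk : ∀ (k : ℕ) i, V ((π ^ k) i) = V i := by
    intro k
    induction k with
    | zero => intro i; rfl
    | succ k ih => intro i; rw [pow_succ', Equiv.Perm.mul_apply, hVπ, ih]
  have hVsame : ∀ i j, π.SameCycle i j → V i = V j := by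
    intro i j hij
    obtain ⟨k, hk⟩ := hij.exists_nat_pow_eq
    rw [← hk, hVπk]
  -- ramification divides the size of the orbit
  have hdvd : ∀ i, (V i).ord x ∣ (Function.minimalPeriod π i : ℤ) := by
    intro i
    obtain ⟨ϖ, hϖ⟩ := IsDiscreteValuationRing.exists_irreducible (V i).toValuationSubring
    have h1 : (s i (ϖ : F)).order = m i := by
      rw [hmo, (V i).ord_coe_irreducible hϖ, mul_one]
    have hϖ0 : (ϖ : F) ≠ 0 := fun h => hϖ.ne_zero (Subtype.ext h)
    have h2 := HahnSeries.coeff_order_eq_zero.not.mpr ((map_ne_zero (s i)).mpr hϖ0)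
    have h3 : (π ^ Function.minimalPeriod π i) i = i := by
      have := Function.iterate_minimalPeriod (f := π) (x := i)
      rwa [← Equiv.Perm.coe_pow] at this
    have h4 := coeff_pow_twist s hπ (Function.minimalPeriod π i) i (ϖ : F) (m i)
    rw [h3, ← h1] at h4
    have h5 : ζ ^ ((s i (ϖ : F)).order * (Function.minimalPeriod π i : ℕ)) = 1 := by
      have := mul_right_cancel₀ h2 ((one_mul _).trans h4)
      exact this.symm
    rw [hζ.zpow_eq_one_iff_dvd, h1, ← hme i] at h5
    exact Int.dvd_of_mul_dvd_mul_left (hm i).ne' h5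
  have hle : ∀ i, (V i).ord x ≤ (Function.minimalPeriod π i : ℤ) := fun i =>
    Int.le_of_dvd (by exact_mod_cast minimalPeriod_pos π i) (hdvd i)
  -- counting
  obtain ⟨hfinset, hsum⟩ := sum_ord_pos (F := F) hx
  let P := {v : Place K F // 0 < v.ord x}
  have hPfin : Finite P := hfinset
  let _ : Fintype P := Fintype.ofFinite P
  let S := Equiv.Perm.SameCycle.setoid π
  let Q := Quotient S
  have hQfin : Finite Q := inferInstance
  let _ : Fintype Q := Fintype.ofFinite Q
  let V' : ι → P := fun i => ⟨V i, hVx i⟩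
  let Vq : Q → P := Quotient.lift V' fun i j hij => Subtype.ext (hVsame i j hij)
  have hVq : ∀ i, Vq (Quotient.mk S i) = V' i := fun i => rfl
  have hVqsurj : Function.Surjective Vq := by
    rintro ⟨v, hv⟩
    obtain ⟨i, rfl⟩ := hsurj v hv
    exact ⟨Quotient.mk S i, rfl⟩
  let hsize : Q → ℕ := fun q => Nat.card {i // Quotient.mk S i = q}
  have hsize_mk : ∀ i, hsize (Quotient.mk S i) = Function.minimalPeriod π i := by
    intro i
    rw [← card_sameCycle]
    refine Nat.card_congr (Equiv.subtypeEquivRight fun j => ?_)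
    rw [Quotient.eq]
    exact ⟨fun h => Equiv.Perm.SameCycle.symm h, fun h => Equiv.Perm.SameCycle.symm h⟩
  have hsum1 : ∑ q : Q, (hsize q : ℤ) = Module.finrank K⟮x⟯ F := by
    rw [← hcard]
    have h1 : Fintype.card ι = ∑ q : Q, Fintype.card {i // Quotient.mk S i = q} := by
      rw [← Fintype.card_sigma]
      exact Fintype.card_congr (Equiv.sigmaFiberEquiv (Quotient.mk S)).symm
    rw [h1, Nat.cast_sum]
    refine Finset.sum_congr rfl fun q _ => ?_
    rw [← Nat.card_eq_fintype_card]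
  have hsum2 : ∑ v : P, v.1.ord x = Module.finrank K⟮x⟯ F := by
    rw [← hsum]
    exact (Finset.sum_subtype hfinset.toFinset (fun v => by simp) (fun v => v.ord x)).symm
  have hle' : ∀ q : Q, (Vq q).1.ord x ≤ hsize q := by
    intro q
    obtain ⟨i, rfl⟩ := Quotient.exists_rep q
    show (V i).ord x ≤ (hsize (Quotient.mk S i) : ℤ)
    rw [hsize_mk]
    exact hle i
  have hfib : ∑ q : Q, (Vq q).1.ord x =
      ∑ v : P, (Nat.card {q // Vq q = v} : ℤ) * v.1.ord x := by
    rw [← Fintype.sum_fiberwise (fun q => Vq q) (fun q => (Vq q).1.ord x)]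
    refine Finset.sum_congr rfl fun v _ => ?_
    rw [Nat.card_eq_fintype_card, ← nsmul_eq_mul, ← Finset.card_univ, ← Finset.sum_const]
    exact Finset.sum_congr rfl fun q _ => by rw [q.2]
  have hfibpos : ∀ v : P, 1 ≤ Nat.card {q // Vq q = v} := by
    intro v
    obtain ⟨q, hq⟩ := hVqsurj v
    have : Nonempty {q // Vq q = v} := ⟨⟨q, hq⟩⟩
    exact Nat.card_pos
  have hterm : ∀ v : P, v.1.ord x ≤ (Nat.card {q // Vq q = v} : ℤ) * v.1.ord x := by
    intro v
    have h1 := v.2
    have h2 : (1 : ℤ) ≤ Nat.card {q // Vq q = v} := by exact_mod_cast hfibpos v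
    nlinarith
  have htot1 : ∑ q : Q, (Vq q).1.ord x ≤ Module.finrank K⟮x⟯ F :=
    (Finset.sum_le_sum fun q _ => hle' q).trans hsum1.le
  have htot2 : (Module.finrank K⟮x⟯ F : ℤ) ≤ ∑ q : Q, (Vq q).1.ord x := by
    rw [← hsum2, hfib]
    exact Finset.sum_le_sum fun v _ => hterm v
  have heq1 : ∀ v : P, v.1.ord x = (Nat.card {q // Vq q = v} : ℤ) * v.1.ord x := by
    have h1 : ∑ v : P, v.1.ord x = ∑ v : P, (Nat.card {q // Vq q = v} : ℤ) * v.1.ord x := by
      rw [← hfib, hsum2]
      exact le_antisymm htot2 htot1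
    intro v
    exact (Finset.sum_eq_sum_iff_of_le fun v _ => hterm v).mp h1 v (Finset.mem_univ v)
  have heq2 : ∀ q : Q, (Vq q).1.ord x = hsize q := by
    have h1 : ∑ q : Q, (Vq q).1.ord x = ∑ q : Q, (hsize q : ℤ) := by
      rw [hsum1]
      exact le_antisymm htot1 htot2
    intro q
    exact (Finset.sum_eq_sum_iff_of_le fun q _ => hle' q).mp h1 q (Finset.mem_univ q)
  have hVqinj : Function.Injective Vq := by
    intro q₁ q₂ h12
    have h1 := heq1 (Vq q₂)
    have h2 := (Vq q₂).2
    have h3 : (Nat.card {q // Vq q = Vq q₂} : ℤ) = 1 := by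
      have : ((Nat.card {q // Vq q = Vq q₂} : ℤ) - 1) * (Vq q₂).1.ord x = 0 := by linarith
      rcases mul_eq_zero.mp this with h | h
      · linarith
      · exact absurd h (ne_of_gt h2)
    have h4 : Nat.card {q // Vq q = Vq q₂} = 1 := by exact_mod_cast h3
    rw [Nat.card_eq_one_iff_unique] at h4
    have := h4.1
    have h5 : (⟨q₁, h12⟩ : {q // Vq q = Vq q₂}) = ⟨q₂, rfl⟩ := Subsingleton.elim _ _
    exact congrArg Subtype.val h5
  refine ⟨V, hV, hVx, hsurj, fun i j => ⟨fun h => ?_, hVsame i j⟩, fun i => ?_, ?_⟩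
  · have h1 : Vq (Quotient.mk S i) = Vq (Quotient.mk S j) := Subtype.ext h
    exact Quotient.exact (hVqinj h1)
  · have := heq2 (Quotient.mk S i)
    rw [hsize_mk] at this
    exact this
  · exact (Nat.card_congr (Equiv.ofBijective Vq ⟨hVqinj, hVqsurj⟩)).symm

end Orbits2
end Fermat.Agent.H94
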