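import Fermat.Agent.H94RiemannHurwitz
import Fermat.Agent.H94OrbitCount
set_option autoImplicit false

/-!
# The genus from ramification data (helper94)
-/

noncomputable section

open AlgebraicCurve IsDedekindDomain WithZero IntermediateField KaehlerDifferential
open scoped IntermediateField.algebraAdjoinAdjoin

namespace Fermat.Agent.H94
variable {K F : Type*} [Field K] [Field F] [Algebra K F]

/-- The genus in terms of the number of places above the branch points. -/
theorem genus_eq_of_card [CharZero K] [IsAlgClosed K] [FunField K F]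
    [HasCanonicalDivisor (K := K) (F := F)] {x : F} (hx : Transcendental K x) (S : Finset K)
    (hS : ∀ a ∉ S, ∀ v : Place K F, 0 < v.ord (x - algebraMap K F a) →
      v.ord (x - algebraMap K F a) = 1) :
    AlgebraicCurve.genus K F = ((∑ a ∈ S, ((Module.finrank K⟮x⟯ F : ℤ) -
        Nat.card {v : Place K F // 0 < v.ord (x - algebraMap K F a)}) -
      Module.finrank K⟮x⟯ F - Nat.card {v : Place K F // 0 < v.ord x⁻¹}) + 2).toNat / 2 := by
  have hDx : D K F x ≠ 0 := D_ne_zero hx
  have h : ∃ ω : Ω[F⁄K], ω ≠ 0 := ⟨_, hDx⟩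
  have h1 : Divisor.degree (canonicalDivisorOf h.choose_spec) =
      Divisor.degree (canonicalDivisorOf hDx) :=
    degree_canonical_eq hx h.choose_spec _ _ (canonicalDivisorOf_apply hDx)
      (canonicalDivisorOf_apply h.choose_spec)
  have h2 := degree_div_dx hx S hS (canonicalDivisorOf hDx) (canonicalDivisorOf_apply hDx)
  rw [AlgebraicCurve.genus, dif_pos h, h1, h2]

/-- A full family of expansions of the elements of `F` above `x = 0`, with a monodromy
permutation `π`. -/
structure LocalEmb (K F : Type*) [Field K] [Field F] [Algebra K F] (C : Type*) [Field C]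
    [Algebra K C] (ι : Type*) (x : F) (e : ℕ) (π : Equiv.Perm ι) where
  s : ι → (F →ₐ[K] LaurentSeries C)
  inj : Function.Injective s
  y : LaurentSeries C
  map_x : ∀ i, s i x = y
  e_pos : 0 < e
  order_y : y.order = e
  ζ : C
  prim : IsPrimitiveRoot ζ e
  twist : ∀ i f (n : ℤ), (s (π i) f).coeff n = ζ ^ n * (s i f).coeff n

namespace LocalEmb

variable {C : Type*} [Field C] [Algebra K C] {ι : Type*} {x : F} {e : ℕ} {π : Equiv.Perm ι}
variable [CharZero K] [IsAlgClosed K] [FunField K F]

theorem card_places [Finite ι] (d : LocalEmb K F C ι x e π) (hx : Transcendental K x)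
    (hcard : Nat.card ι = Module.finrank K⟮x⟯ F) :
    Nat.card {v : Place K F // 0 < v.ord x} =
      Nat.card (Quotient (Equiv.Perm.SameCycle.setoid π)) := by
  have : Fintype ι := Fintype.ofFinite ι
  rw [Nat.card_eq_fintype_card] at hcard
  obtain ⟨V, h1, h2, h3, h4, h5, h6⟩ := exists_places_orbits hx d.s d.inj hcard d.map_x d.e_pos
    d.order_y d.prim d.twist
  exact h6

theorem ord_eq_one [Finite ι] (d : LocalEmb K F C ι x e 1) (hx : Transcendental K x)
    (hcard : Nat.card ι = Module.finrank K⟮x⟯ F) (v : Place K F) (hv : 0 < v.ord x) :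
    v.ord x = 1 := by
  have : Fintype ι := Fintype.ofFinite ι
  rw [Nat.card_eq_fintype_card] at hcard
  obtain ⟨V, h1, h2, h3, h4, h5, h6⟩ := exists_places_orbits hx d.s d.inj hcard d.map_x d.e_pos
    d.order_y d.prim d.twist
  obtain ⟨i, rfl⟩ := h3 v hv
  rw [h5]
  simp [Function.minimalPeriod_id]

end LocalEmb

/-- Orbits of a group element as cycle classes of the corresponding permutation. -/
theorem card_sameCycle_toPerm {G X : Type*} [Group G] [MulAction G X] (g : G) :
    Nat.card (Quotient (Equiv.Perm.SameCycle.setoid (MulAction.toPerm g : Equiv.Perm X))) =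
      Nat.card (MulAction.orbitRel.Quotient (Subgroup.zpowers g) X) := by
  have key : ∀ x y : X, (Equiv.Perm.SameCycle.setoid (MulAction.toPerm g : Equiv.Perm X)) x y ↔
      (MulAction.orbitRel (Subgroup.zpowers g) X) x y := by
    intro x y
    have hpow : ∀ (n : ℤ) (x : X), ((MulAction.toPerm g : Equiv.Perm X) ^ n) x = g ^ n • x := by
      intro n x
      have := map_zpow (MulAction.toPermHom G X) g n
      have h2 := congrArg (fun p : Equiv.Perm X => p x) this
      exact h2.symm
    constructor
    · rintro ⟨n, hn⟩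
      rw [hpow] at hn
      refine ⟨⟨g ^ (-n), Subgroup.zpow_mem_zpowers g _⟩, ?_⟩
      show g ^ (-n) • y = x
      rw [← hn, ← mul_smul, ← zpow_add, neg_add_cancel, zpow_zero, one_smul]
    · rintro ⟨⟨_, n, rfl⟩, hn⟩
      refine ⟨-n, ?_⟩
      rw [hpow]
      change g ^ n • y = x at hn
      rw [← hn, ← mul_smul, ← zpow_add, neg_add_cancel, zpow_zero, one_smul]
  exact Nat.card_congr (Quotient.congrRight key)

/-- **Genus from the monodromy** at `0`, `b`, `∞`, for a cover unramified elsewhere. -/
theorem genus_eq_of_localEmb [CharZero K] [IsAlgClosed K] [FunField K F]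
    [HasCanonicalDivisor (K := K) (F := F)] {x : F} (hx : Transcendental K x)
    {C : Type*} [Field C] [Algebra K C] {ι : Type*} [Finite ι]
    (hcard : Nat.card ι = Module.finrank K⟮x⟯ F) {b : K} (hb : b ≠ 0)
    {e₀ e₁ e₂ : ℕ} {π₀ π₁ π₂ : Equiv.Perm ι}
    (h₀ : Nonempty (LocalEmb K F C ι x e₀ π₀))
    (h₁ : Nonempty (LocalEmb K F C ι (x - algebraMap K F b) e₁ π₁))
    (h₂ : Nonempty (LocalEmb K F C ι x⁻¹ e₂ π₂))
    (h : ∀ a : K, a ≠ 0 → a ≠ b → Nonempty (LocalEmb K F C ι (x - algebraMap K F a) 1 1)) :
    AlgebraicCurve.genus K F = (((Nat.card ι : ℤ)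
      - Nat.card (Quotient (Equiv.Perm.SameCycle.setoid π₀))
      - Nat.card (Quotient (Equiv.Perm.SameCycle.setoid π₁))
      - Nat.card (Quotient (Equiv.Perm.SameCycle.setoid π₂))) + 2).toNat / 2 := by
  classical
  have htr : ∀ a : K, Transcendental K (x - algebraMap K F a) := by
    intro a h
    apply hx
    have := h.add (isAlgebraic_algebraMap (A := F) a)
    rwa [sub_add_cancel] at this
  have hadj : ∀ a : K, K⟮x - algebraMap K F a⟯ = K⟮x⟯ := by
    intro a
    apply le_antisymm
    · rw [adjoin_simple_le_iff]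
      exact sub_mem (mem_adjoin_simple_self K x) (IntermediateField.algebraMap_mem _ _)
    · rw [adjoin_simple_le_iff]
      have := add_mem (mem_adjoin_simple_self K (x - algebraMap K F a))
        (IntermediateField.algebraMap_mem K⟮x - algebraMap K F a⟯ a)
      rwa [sub_add_cancel] at this
  obtain ⟨d₀⟩ := h₀
  obtain ⟨d₁⟩ := h₁
  obtain ⟨d₂⟩ := h₂
  have c₀ := d₀.card_places hx hcard
  have c₁ := d₁.card_places (htr b) (by rw [hadj]; exact hcard)
  have c₂ := d₂.card_places (transcendental_inv hx) (by rw [adjoin_inv]; exact hcard)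
  have key := genus_eq_of_card hx {0, b} (by
    intro a ha v hv
    simp only [Finset.mem_insert, Finset.mem_singleton, not_or] at ha
    obtain ⟨d⟩ := h a ha.1 ha.2
    exact d.ord_eq_one (htr a) (by rw [hadj]; exact hcard) v hv)
  rw [Finset.sum_pair hb.symm] at key
  simp only [map_zero, sub_zero] at key
  rw [key, c₀, c₁, c₂, ← hcard]
  congr 2
  ring

end Fermat.Agent.H94
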