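import Mathlib
import Fermat.Agent.H94GF2
import Fermat.Agent.H94Genus
import Fermat.Agent.H3RR_Bridge
set_option autoImplicit false

/-!
# The Kähler genus equals the Riemann--Roch genus, characteristic zero (helper94)
-/

noncomputable section

open AlgebraicCurve WithZero IsLocalRing Polynomial IntermediateField KaehlerDifferential

namespace Fermat.Agent.H94

variable {K F : Type*} [Field K] [Field F] [Algebra K F] [CharZero K] [IsAlgClosed K]
  [FunField K F]

omit [CharZero K] in
theorem riemann_pkg : H88.Riemann K F (genusFF K F) where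
  fin := fun D => H3RR.finite_L D
  ineq := H3RR.riemann_inequality
  eq := ⟨2 * (genusFF K F : ℤ) - 2 + 1, fun D hD => H3RR.ell_of_degree_gt (by omega)⟩
  pole := fun y hy => H3RR.degree_poleDiv hy

omit [CharZero K] in
/-- every place where `x` is regular is a zero of some `x - a` -/
theorem exists_sub_ord_pos {x : F} (hx : Transcendental K x) (v : Place K F) (h : 0 ≤ v.ord x) :
    ∃ a : K, 0 < v.ord (x - algebraMap K F a) := by
  obtain ⟨a, ha⟩ := exists_sub_algebraMap_ord_pos v (mem_of_ord_nonneg v h)
  refine ⟨a, ha.resolve_left fun h => ?_⟩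
  have := sub_eq_zero.mp h
  exact hx (this ▸ isAlgebraic_algebraMap a)

theorem finite_ramified {x : F} (hx : Transcendental K x) :
    {v : Place K F | v.ordDifferential (D K F x) ≠ 0}.Finite := by
  classical
  have := FunField.finiteDimensional (K := K) (F := F) hx
  have hcz : CharZero K⟮x⟯ := charZero_of_injective_algebraMap (algebraMap K K⟮x⟯).injective
  have hsep : Algebra.IsSeparable K⟮x⟯ F := inferInstance
  have hneg := finite_setOf_ord_neg (F := F) hx
  by_contra hinf
  have hinf2 : ({v : Place K F | v.ordDifferential (D K F x) ≠ 0} \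
      {v : Place K F | v.ord x < 0}).Infinite := Set.Infinite.sdiff hinf hneg
  obtain ⟨T, hT, hTcard⟩ := hinf2.exists_subset_card_eq
    (2 * (genusFF K F : ℤ) - 2 + 2 * Module.finrank K⟮x⟯ F + 1).toNat
  have hTram : ∀ w ∈ T, 0 ≤ w.ord x ∧ w.ordDifferential (D K F x) ≠ 0 := by
    intro w hw
    have h1 := hT hw
    simp only [Set.mem_sdiff, Set.mem_ofPred_eq, not_lt] at h1
    exact ⟨h1.2, h1.1⟩
  let R : Divisor K F := ∑ w ∈ T, Finsupp.single w 1
  have hR : ∀ w, R w = if w ∈ T then 1 else 0 := by
    intro w
    rw [Finsupp.finsetSum_apply]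
    simp [Finsupp.single_apply]
  have hdeg : Divisor.degree R = T.card := by
    rw [map_sum]
    simp [Divisor.degree_single, H3RR.deg_eq_one]
  have h2 := H88.rh_le (riemann_pkg (K := K) (F := F)) hx R (by
    intro w c hc
    rw [hR]
    split_ifs with h
    · have h3 := (hTram w h).2
      rw [ordDifferential_D_sub w (a := c) (by omega)] at h3
      omega
    · omega) (by
    intro w hw
    rw [hR]
    split_ifs with h
    · have := (hTram w h).1
      omega
    · omega)
  rw [hdeg, hTcard] at h2
  have h3 := Int.self_le_toNat (2 * (genusFF K F : ℤ) - 2 + 2 * Module.finrank K⟮x⟯ F + 1)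
  omega

variable (K F) in
/-- every nonzero differential has a divisor -/
theorem hasCanonicalDivisor : HasCanonicalDivisor (K := K) (F := F) where
  exists_divisor := by
    intro ω hω
    obtain ⟨x, hx, -⟩ := FunField.out (K := K) (F := F)
    obtain ⟨g, hg⟩ := (dxEquiv hx).surjective ω
    have hgω : g • D K F x = ω := hg
    have hg0 : g ≠ 0 := by rintro rfl; rw [zero_smul] at hgω; exact hω hgω.symm
    have hsupp : (Function.support fun v : Place K F => v.ordDifferential (D K F x)).Finite :=
      finite_ramified hx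
    refine ⟨H3RR.divOf g + Finsupp.ofSupportFinite _ hsupp, fun v => ?_⟩
    rw [← hgω, ordDifferential_smul' v hg0 (D_ne_zero hx), Finsupp.add_apply,
      H3RR.divOf_apply hg0]
    rfl

/-- **Riemann--Hurwitz / canonical degree**: the divisor of `dx` has degree `2 g - 2`, where `g`
is the genus of the Riemann--Roch theorem. -/
theorem degree_div_dx_eq_genusFF {x : F} (hx : Transcendental K x) (Dx : Divisor K F)
    (hDx : ∀ v : Place K F, Dx v = v.ordDifferential (D K F x)) :
    Divisor.degree Dx = 2 * (genusFF K F : ℤ) - 2 := by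
  have := FunField.finiteDimensional (K := K) (F := F) hx
  have hcz : CharZero K⟮x⟯ := charZero_of_injective_algebraMap (algebraMap K K⟮x⟯).injective
  have hsep : Algebra.IsSeparable K⟮x⟯ F := inferInstance
  have hx0 := H3RR.transcendental_ne_zero hx
  obtain ⟨P, hP⟩ : ∃ P : Divisor K F, P = H3RR.poleDiv x := ⟨_, rfl⟩
  have hPw : ∀ w, P w = max (-w.ord x) 0 := fun w => by rw [hP, H3RR.poleDiv_apply hx0]
  have hPdeg : Divisor.degree P = Module.finrank K⟮x⟯ F := by rw [hP, H3RR.degree_poleDiv hx]
  have hzero : ∀ (w : Place K F) (c : K), 0 < w.ord (x - algebraMap K F c) →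
      (Dx + (2 : ℤ) • P) w = w.ord (x - algebraMap K F c) - 1 := by
    intro w c hc
    have h1 : x ∈ w.toValuationSubring := by
      have h2 := mem_of_ord_nonneg w hc.le
      have := add_mem h2 (w.algebraMap_mem' c)
      rwa [sub_add_cancel] at this
    have h3 := ord_nonneg_of_mem w h1
    rw [Finsupp.add_apply, Finsupp.smul_apply, hDx, hPw,
      ordDifferential_D_sub w (a := c) (by omega), max_eq_right (by omega)]
    simp
  have hpole : ∀ w : Place K F, w.ord x < 0 → (Dx + (2 : ℤ) • P) w = -w.ord x - 1 := by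
    intro w hw
    rw [Finsupp.add_apply, Finsupp.smul_apply, hDx, hPw, ordDifferential_D w (by omega),
      max_eq_left (by omega), smul_eq_mul]
    ring
  have h1 := H88.rh_le (riemann_pkg (K := K) (F := F)) hx (Dx + (2 : ℤ) • P)
    (fun w c hc => (hzero w c hc).le) (fun w hw => (hpole w hw).le)
  have h2 := GF.rh_ge hx (Dx + (2 : ℤ) • P)
    (fun w c hc => (hzero w c hc).ge) (fun w hw => (hpole w hw).ge)
  rw [map_add, map_zsmul, hPdeg, smul_eq_mul] at h1 h2
  linarith

/-- The genus defined by Kähler differentials is the genus of the Riemann--Roch theorem. -/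
theorem genus_eq_genusFF [HasCanonicalDivisor (K := K) (F := F)] :
    AlgebraicCurve.genus K F = genusFF K F := by
  obtain ⟨x, hx, -⟩ := FunField.out (K := K) (F := F)
  have hDx : D K F x ≠ 0 := D_ne_zero hx
  have h : ∃ ω : Ω[F⁄K], ω ≠ 0 := ⟨_, hDx⟩
  have h1 : Divisor.degree (canonicalDivisorOf h.choose_spec) =
      Divisor.degree (canonicalDivisorOf hDx) :=
    degree_canonical_eq hx h.choose_spec _ _ (canonicalDivisorOf_apply hDx)
      (canonicalDivisorOf_apply h.choose_spec)
  have h2 := degree_div_dx_eq_genusFF hx (canonicalDivisorOf hDx) (canonicalDivisorOf_apply hDx)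
  rw [AlgebraicCurve.genus, dif_pos h, h1, h2]
  omega

/-- Riemann--Hurwitz for the genus of the Riemann--Roch theorem. -/
theorem two_mul_genusFF {x : F} (hx : Transcendental K x) (S : Finset K)
    (hS : ∀ a ∉ S, ∀ v : Place K F, 0 < v.ord (x - algebraMap K F a) →
      v.ord (x - algebraMap K F a) = 1) :
    2 * (genusFF K F : ℤ) - 2 = ∑ a ∈ S, ((Module.finrank K⟮x⟯ F : ℤ) -
        Nat.card {v : Place K F // 0 < v.ord (x - algebraMap K F a)}) -
      Module.finrank K⟮x⟯ F - Nat.card {v : Place K F // 0 < v.ord x⁻¹} := by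
  have := hasCanonicalDivisor K F
  have hDx : D K F x ≠ 0 := D_ne_zero hx
  rw [← degree_div_dx_eq_genusFF hx (canonicalDivisorOf hDx) (canonicalDivisorOf_apply hDx)]
  exact degree_div_dx hx S hS (canonicalDivisorOf hDx) (canonicalDivisorOf_apply hDx)

end Fermat.Agent.H94
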