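import Fermat.Agent.H24Final
import Fermat.Agent.H94GenusFF
set_option autoImplicit false
set_option linter.unusedSectionVars false

/-!
# Places of the function field of `X₀(N)` above `j = 0, 1728, ∞`; genus (helper94)
-/

noncomputable section

open AlgebraicCurve IntermediateField ModularCurve CongruenceSubgroup
open scoped MatrixGroups

namespace Fermat.Agent.H94

section General

variable {K F : Type*} [Field K] [Field F] [Algebra K F] {C : Type*} [Field C] [Algebra K C]
  {ι : Type*} {x : F} {e : ℕ} {π : Equiv.Perm ι}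
variable [CharZero K] [IsAlgClosed K] [FunField K F]

/-- the orders of `x` at its zeros are the lengths of the cycles of `π` -/
theorem LocalEmb.exists_ord_eq [Finite ι] (d : LocalEmb K F C ι x e π) (hx : Transcendental K x)
    (hcard : Nat.card ι = Module.finrank K⟮x⟯ F) (v : Place K F) (hv : 0 < v.ord x) :
    ∃ i : ι, v.toValuationSubring = pullbackRing (d.s i) ∧ v.ord x = Function.minimalPeriod π i := by
  have : Fintype ι := Fintype.ofFinite ι
  rw [Nat.card_eq_fintype_card] at hcard
  obtain ⟨V, h1, h2, h3, h4, h5, h6⟩ := exists_places_orbits hx d.s d.inj hcard d.map_x d.e_pos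
    d.order_y d.prim d.twist
  obtain ⟨i, rfl⟩ := h3 v hv
  exact ⟨i, h1 i, h5 i⟩

theorem LocalEmb.ord_dvd [Finite ι] (d : LocalEmb K F C ι x e π) (hx : Transcendental K x)
    (hcard : Nat.card ι = Module.finrank K⟮x⟯ F) {n : ℕ} (hn : ∀ i, (π ^ n) i = i)
    (v : Place K F) (hv : 0 < v.ord x) : v.ord x ∣ (n : ℤ) := by
  obtain ⟨i, -, hi⟩ := d.exists_ord_eq hx hcard v hv
  rw [hi, Int.natCast_dvd_natCast, ← Function.isPeriodicPt_iff_minimalPeriod_dvd]
  show (π^[n]) i = i
  rw [← Equiv.Perm.coe_pow]
  exact hn i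

end General

section Modular

variable {K : Type*} [Field K] [Algebra K ℂ] [IsAlgClosed K] {N : ℕ} [NeZero N]

local notation "FN" => modularFunctionFieldFullC K N
local notation "jN" => H24.jF K N

theorem card_eq_finrank_jF : Nat.card (SL(2, ℤ) ⧸ Gamma0 N) = Module.finrank K⟮jN⟯ FN := by
  have : Fintype (SL(2, ℤ) ⧸ Gamma0 N) := Fintype.ofFinite _
  rw [H24.finrank_eq, Nat.card_eq_fintype_card]

theorem finrank_jF : Module.finrank K⟮jN⟯ FN = dedekindPsi N := by
  rw [← card_eq_finrank_jF]
  exact Fermat.Agent.H45.natCard_P1 N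

omit [Algebra K ℂ] [IsAlgClosed K] [NeZero N] in
theorem adjoin_sub_eq {F : Type*} [Field F] [Algebra K F] (x : F) (a : K) :
    K⟮x - algebraMap K F a⟯ = K⟮x⟯ := by
  apply le_antisymm
  · rw [adjoin_simple_le_iff]
    exact sub_mem (mem_adjoin_simple_self K x) (IntermediateField.algebraMap_mem _ _)
  · rw [adjoin_simple_le_iff]
    have := add_mem (mem_adjoin_simple_self K (x - algebraMap K F a))
      (IntermediateField.algebraMap_mem K⟮x - algebraMap K F a⟯ a)
    rwa [sub_add_cancel] at this

theorem transcendental_jF_sub (a : K) : Transcendental K (jN - algebraMap K FN a) := by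
  intro h
  apply H24.transcendental_jF (K := K) (N := N)
  have := h.add (isAlgebraic_algebraMap (A := FN) a)
  rwa [sub_add_cancel] at this

theorem smul_pow_toPerm {γ : SL(2, ℤ)} {n : ℕ} (h : γ ^ n = -1) (x : SL(2, ℤ) ⧸ Gamma0 N) :
    ((MulAction.toPerm γ : Equiv.Perm (SL(2, ℤ) ⧸ Gamma0 N)) ^ n) x = x := by
  have h1 : (MulAction.toPerm γ : Equiv.Perm (SL(2, ℤ) ⧸ Gamma0 N)) ^ n =
      MulAction.toPerm (γ ^ n) := (map_pow (MulAction.toPermHom SL(2, ℤ) _) γ n).symm
  rw [h1, MulAction.toPerm_apply, h]
  exact Fermat.Agent.H45.neg_one_smul_P1 N x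

/-- the order of `j` at its zeros divides `3` -/
theorem ord_jF_dvd (v : Place K FN) (hv : 0 < v.ord jN) : v.ord jN ∣ 3 := by
  have : CharZero K := H24.charZero_of_algebra
  obtain ⟨d⟩ := H24.localEmb_zero (K := K) (N := N)
  exact d.ord_dvd H24.transcendental_jF card_eq_finrank_jF
    (smul_pow_toPerm Fermat.Agent.H45.ST_cube) v hv

theorem ord_jF_le (v : Place K FN) : v.ord jN ≤ 3 := by
  by_cases hv : 0 < v.ord jN
  · exact Int.le_of_dvd (by norm_num) (ord_jF_dvd v hv)
  · omega

/-- the order of `j - 1728` at its zeros divides `2` -/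
theorem ord_jF_sub_dvd (v : Place K FN) (hv : 0 < v.ord (jN - algebraMap K FN 1728)) :
    v.ord (jN - algebraMap K FN 1728) ∣ 2 := by
  have : CharZero K := H24.charZero_of_algebra
  obtain ⟨d⟩ := H24.localEmb_1728 (K := K) (N := N)
  exact d.ord_dvd (transcendental_jF_sub _) (by rw [adjoin_sub_eq]; exact card_eq_finrank_jF)
    (smul_pow_toPerm Fermat.Agent.H45.S_sq) v hv

theorem ord_jF_sub_le (v : Place K FN) : v.ord (jN - algebraMap K FN 1728) ≤ 2 := by
  by_cases hv : 0 < v.ord (jN - algebraMap K FN 1728)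
  · exact Int.le_of_dvd (by norm_num) (ord_jF_sub_dvd v hv)
  · omega

/-- `j` is unramified away from `0, 1728, ∞` -/
theorem ord_jF_sub_eq_one {a : K} (ha : a ≠ 0) (ha2 : a ≠ 1728) (v : Place K FN)
    (hv : 0 < v.ord (jN - algebraMap K FN a)) : v.ord (jN - algebraMap K FN a) = 1 := by
  have : CharZero K := H24.charZero_of_algebra
  obtain ⟨d⟩ := H24.localEmb_other (K := K) (N := N) ha ha2
  exact d.ord_eq_one (transcendental_jF_sub _)
    (by rw [adjoin_sub_eq]; exact card_eq_finrank_jF) v hv

/-- number of places above `j = 0` -/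
theorem card_zeros_jF : Nat.card {v : Place K FN // 0 < v.ord jN} = Fermat.Agent.H45.orbST N := by
  have : CharZero K := H24.charZero_of_algebra
  obtain ⟨d⟩ := H24.localEmb_zero (K := K) (N := N)
  exact (d.card_places H24.transcendental_jF card_eq_finrank_jF).trans (card_sameCycle_toPerm _)

/-- number of places above `j = 1728` -/
theorem card_zeros_jF_sub : Nat.card {v : Place K FN // 0 < v.ord (jN - algebraMap K FN 1728)} =
    Fermat.Agent.H45.orbS N := by
  have : CharZero K := H24.charZero_of_algebra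
  obtain ⟨d⟩ := H24.localEmb_1728 (K := K) (N := N)
  exact (d.card_places (transcendental_jF_sub _)
    (by rw [adjoin_sub_eq]; exact card_eq_finrank_jF)).trans (card_sameCycle_toPerm _)

/-- number of cusps -/
theorem card_poles_jF' : Nat.card {v : Place K FN // 0 < v.ord (jN)⁻¹} = cuspCount N := by
  have : CharZero K := H24.charZero_of_algebra
  obtain ⟨d⟩ := H24.localEmb_cusp (K := K) (N := N)
  exact (d.card_places (transcendental_inv H24.transcendental_jF)
    (by rw [adjoin_inv]; exact card_eq_finrank_jF)).trans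
      ((card_sameCycle_toPerm _).trans (Fermat.Agent.H45.natCard_TOrbits N))

/-- number of cusps -/
theorem card_poles_jF : Nat.card {v : Place K FN // v.ord jN < 0} = cuspCount N := by
  rw [← card_poles_jF' (K := K) (N := N)]
  refine Nat.card_congr (Equiv.subtypeEquivRight fun v => ?_)
  rw [v.ord_inv]
  omega

/-- the order of the pole of `j` divides `N` -/
theorem ord_jF_cusp_dvd (v : Place K FN) (hv : v.ord jN < 0) : v.ord jN ∣ (N : ℤ) := by
  have : CharZero K := H24.charZero_of_algebra
  obtain ⟨d⟩ := H24.localEmb_cusp (K := K) (N := N)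
  have h1 := d.ord_dvd (n := N) (transcendental_inv H24.transcendental_jF)
    (by rw [adjoin_inv]; exact card_eq_finrank_jF) (by
      intro i
      have h1 : (MulAction.toPerm ModularGroup.T : Equiv.Perm (SL(2, ℤ) ⧸ Gamma0 N)) ^ N =
          MulAction.toPerm (ModularGroup.T ^ N) :=
        (map_pow (MulAction.toPermHom SL(2, ℤ) _) ModularGroup.T N).symm
      rw [h1, MulAction.toPerm_apply]
      induction i using QuotientGroup.induction_on with
      | H γ =>
        have h2 := (Fermat.Agent.H45.T_zpow_smul_self_iff (N := N) N γ).mpr (Dvd.intro _ rfl)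
        rw [zpow_natCast] at h2
        exact h2) v (by rw [v.ord_inv]; omega)
  rwa [v.ord_inv, neg_dvd] at h1

/-- The Riemann--Roch genus of `X₀(N)`. -/
theorem genusFF_fullC : (genusFF K FN : ℚ) = genusFormula N := by
  have : CharZero K := H24.charZero_of_algebra
  have := hasCanonicalDivisor K FN
  rw [← genus_eq_genusFF]
  exact H24.genus_fullC

end Modular

/-- All facts about the places of the function field of `X₀(N)` above `j`-line. -/
structure X0PlaceData (K F : Type*) [Field K] [Field F] [Algebra K F] (N : ℕ) (j : F) :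
    Prop where
  transcendental : Transcendental K j
  finrank_eq : Module.finrank K⟮j⟯ F = dedekindPsi N
  ord_dvd_three : ∀ v : Place K F, 0 < v.ord j → v.ord j ∣ 3
  ord_le_three : ∀ v : Place K F, v.ord j ≤ 3
  ord_dvd_two : ∀ v : Place K F, 0 < v.ord (j - algebraMap K F 1728) →
    v.ord (j - algebraMap K F 1728) ∣ 2
  ord_le_two : ∀ v : Place K F, v.ord (j - algebraMap K F 1728) ≤ 2
  ord_eq_one : ∀ a : K, a ≠ 0 → a ≠ 1728 → ∀ v : Place K F,
    0 < v.ord (j - algebraMap K F a) → v.ord (j - algebraMap K F a) = 1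
  ord_dvd_level : ∀ v : Place K F, v.ord j < 0 → v.ord j ∣ (N : ℤ)
  card_zero : Nat.card {v : Place K F // 0 < v.ord j} = Fermat.Agent.H45.orbST N
  card_1728 : Nat.card {v : Place K F // 0 < v.ord (j - algebraMap K F 1728)} =
    Fermat.Agent.H45.orbS N
  card_cusp : Nat.card {v : Place K F // v.ord j < 0} = cuspCount N
  genusFF_eq : (genusFF K F : ℚ) = genusFormula N

theorem x0PlaceData_fullC (K : Type*) [Field K] [Algebra K ℂ] [IsAlgClosed K] (N : ℕ) [NeZero N] :
    X0PlaceData K (modularFunctionFieldFullC K N) N (H24.jF K N) where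
  transcendental := H24.transcendental_jF
  finrank_eq := finrank_jF
  ord_dvd_three := ord_jF_dvd
  ord_le_three := ord_jF_le
  ord_dvd_two := ord_jF_sub_dvd
  ord_le_two := ord_jF_sub_le
  ord_eq_one := fun _ h1 h2 => ord_jF_sub_eq_one h1 h2
  ord_dvd_level := ord_jF_cusp_dvd
  card_zero := card_zeros_jF
  card_1728 := card_zeros_jF_sub
  card_cusp := card_poles_jF
  genusFF_eq := genusFF_fullC

/-- version for a field equal to `modularFunctionFieldFullC K N`, e.g. `laurentBaseChange`. -/
theorem x0PlaceData_of_eq {K : Type*} [Field K] [Algebra K ℂ] [IsAlgClosed K] {N : ℕ} [NeZero N]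
    {F : IntermediateField K (LaurentSeries K)} (hF : F = modularFunctionFieldFullC K N) {j : F}
    (hj : (j : LaurentSeries K) = jqModC K) : X0PlaceData K F N j := by
  subst hF
  obtain rfl : j = H24.jF K N := Subtype.ext hj
  exact x0PlaceData_fullC K N

theorem jqModC_mem_bar (N : ℕ) : jqModC (AlgebraicClosure ℚ) ∈ modularFunctionFieldBar N := by
  rw [modularFunctionFieldBar, H24.laurentBaseChange_full]
  exact jqModC_mem_full _ N

/-- `j` in the function field over `ℚ̄`. -/
def jBar (N : ℕ) : modularFunctionFieldBar N := ⟨jqModC (AlgebraicClosure ℚ), jqModC_mem_bar N⟩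

theorem x0PlaceData_bar (N : ℕ) [NeZero N] :
    X0PlaceData (AlgebraicClosure ℚ) (modularFunctionFieldBar N) N (jBar N) := by
  let : Algebra (AlgebraicClosure ℚ) ℂ := H24.embBar.toAlgebra
  exact x0PlaceData_of_eq (H24.laurentBaseChange_full (AlgebraicClosure ℚ) N) rfl

theorem funField_bar (N : ℕ) [NeZero N] :
    FunField (AlgebraicClosure ℚ) (modularFunctionFieldBar N) := by
  let : Algebra (AlgebraicClosure ℚ) ℂ := H24.embBar.toAlgebra
  have h : ∀ F : IntermediateField (AlgebraicClosure ℚ) (LaurentSeries (AlgebraicClosure ℚ)),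
      F = modularFunctionFieldFullC (AlgebraicClosure ℚ) N → FunField (AlgebraicClosure ℚ) F := by
    rintro F rfl
    infer_instance
  exact h _ (H24.laurentBaseChange_full (AlgebraicClosure ℚ) N)

end Fermat.Agent.H94
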