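import Mathlib
import Fermat.Agent.H18Haupt
import Fermat.Agent.H18Insep
import Fermat.Agent.H42RedInputs
import Fermat.Agent.H66Degree
import Fermat.Agent.H23HauptL
import Fermat.Agent.H3RR_Bridge
import Fermat.Agent.H94GenusFF
import Fermat.Agent.H94Export
import Fermat.Agent.H18S18

/-!
# Good reduction of `X₀(2N)` (odd residue characteristic) and of `X₀(3N)` (residue characteristic
different from three) (helper18)
-/

set_option autoImplicit false

noncomputable section

open AlgebraicCurve IntermediateField ModularCurve Polynomial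
open Fermat.Agent.H3RR Fermat.Agent.H88
open Fermat.Agent.H40 (ReductionData)
open Fermat.Agent.H66 (HasLead)
open Fermat.Agent.H23.Haupt (t2 t3)

namespace Fermat.Agent.H18

section Lead

variable {K : Type*} [Field K]

theorem transcendental_of_hasLead {x : LaurentSeries K} (hx : HasLead x (-1) 1) :
    Transcendental K x := by
  rw [transcendental_iff]
  intro P hP
  by_contra hP0
  have h1 := HasLead.eval₂ (n := 1) hx one_pos P
  have h2 := h1.ne_zero (Polynomial.leadingCoeff_ne_zero.2 hP0)
  apply h2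
  rw [← hP, aeval_def]
  congr 1
  ext a : 1
  rw [HahnSeries.algebraMap_apply', PowerSeries.algebraMap_apply]
  simp

/-- An element which is not a proper power generates a subfield over which the field is
separable. -/
theorem isSeparable_of_forall_pow_ne {F : Type*} [Field F] [Algebra K F] [PerfectField K]
    [IsFF K F] {y : F} (hyt : Transcendental K y)
    (h : ∀ p : ℕ, p.Prime → ∀ s : F, s ^ p ≠ y) : Algebra.IsSeparable K⟮y⟯ F := by
  have hfd : FiniteDimensional K⟮y⟯ F := IsFF.finiteDimensional hyt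
  obtain ⟨p, hp⟩ := CharP.exists K
  rcases Nat.eq_zero_or_pos p with h0 | hpos
  · subst h0
    have : CharZero K := CharP.charP_to_charZero K
    have : CharZero K⟮y⟯ := charZero_of_injective_algebraMap (algebraMap K K⟮y⟯).injective
    infer_instance
  · have hprime : Nat.Prime p := (CharP.char_is_prime_or_zero K p).resolve_right hpos.ne'
    have : Fact p.Prime := ⟨hprime⟩
    have : CharP F p := charP_of_injective_ringHom (algebraMap K F).injective p
    by_contra hsep
    obtain ⟨s, hs⟩ := exists_pow_eq_of_not_isSeparable p hyt hsep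
    exact h p hprime s hs

theorem order_of_hasLead {y : LaurentSeries K} {n : ℤ} (hy : HasLead y n 1) : y.order = n := by
  have hy0 : y ≠ 0 := hy.ne_zero one_ne_zero
  apply le_antisymm
  · apply HahnSeries.order_le_of_coeff_ne_zero
    rw [hy.1]; exact one_ne_zero
  · by_contra hlt
    push Not at hlt
    exact HahnSeries.coeff_order_eq_zero.not.2 hy0 (hy.2 _ hlt)

/-- An element with a simple pole at infinity generates a subfield over which the field is
separable. -/
theorem isSeparable_of_hasLead [PerfectField K] (E : IntermediateField K (LaurentSeries K))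
    [IsFF K E] (y : E) (hy : HasLead (y : LaurentSeries K) (-1) 1) :
    Algebra.IsSeparable K⟮y⟯ E := by
  have hyt : Transcendental K y := by
    intro h
    exact transcendental_of_hasLead hy (h.algHom E.val)
  refine isSeparable_of_forall_pow_ne hyt fun p hprime s hs => ?_
  have h1 : (s : LaurentSeries K) ^ p = y := by
    rw [← hs, SubmonoidClass.coe_pow]
  have hord := order_of_hasLead hy
  have h2 : (y : LaurentSeries K).order = p * (s : LaurentSeries K).order := by
    rw [← h1, HahnSeries.order_pow, nsmul_eq_mul]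
  rw [hord] at h2
  have h3 : (p : ℤ) ∣ 1 := ⟨-(s : LaurentSeries K).order, by linarith⟩
  have h4 : (p : ℤ) = 1 := by
    exact Int.eq_one_of_dvd_one (by positivity) h3
  exact hprime.one_lt.ne' (by exact_mod_cast h4)

end Lead

section Membership

variable (K : Type*) [Field K] [IsAlgClosed K]

theorem t2_mem_full_two (h2 : (2 : K) ≠ 0) : t2 K ∈ modularFunctionFieldFullC K 2 := by
  have ht := transcendental_of_hasLead (H23.Haupt.hasLead_t2 K)
  have ht0 : t2 K ≠ 0 := transcendental_ne_zero ht
  have hE1 := H23.Haupt.t2_E1 K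
  have hE2 := H23.Haupt.t2_E2 K
  have htm := mem_adjoin_simple_self K (t2 K)
  have h256 : (256 : LaurentSeries K) ∈ K⟮t2 K⟯ := by
    have := K⟮t2 K⟯.algebraMap_mem 256
    rwa [map_ofNat] at this
  have h16 : (16 : LaurentSeries K) ∈ K⟮t2 K⟯ := by
    have := K⟮t2 K⟯.algebraMap_mem 16
    rwa [map_ofNat] at this
  have hj : jqModC K ∈ K⟮t2 K⟯ := by
    have : jqModC K = (t2 K + 256) ^ 3 / t2 K ^ 2 := by
      rw [hE1, mul_div_cancel_right₀ _ (pow_ne_zero 2 ht0)]
    rw [this]
    exact div_mem (pow_mem (add_mem htm h256) 3) (pow_mem htm 2)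
  have hj2 : qExpand K 2 (jqModC K) ∈ K⟮t2 K⟯ := by
    have : qExpand K 2 (jqModC K) = (t2 K + 16) ^ 3 / t2 K := by
      rw [hE2, mul_div_cancel_right₀ _ ht0]
    rw [this]
    exact div_mem (pow_mem (add_mem htm h16) 3) htm
  have hle : modularFunctionFieldFullC K 2 ≤ K⟮t2 K⟯ := by
    rw [modularFunctionFieldFullC, adjoin_le_iff]
    rintro x ⟨d, hne, hd, rfl⟩
    rcases (Nat.dvd_prime Nat.prime_two).1 hd with rfl | rfl
    · rw [qExpand_one_apply]
      exact hj
    · exact hj2
  -- degrees
  have hFF : IsFF K K⟮t2 K⟯ := isFF_adjoin ht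
  have hgen : Transcendental K (AdjoinSimple.gen K (t2 K)) := transcendental_gen ht
  have hjt : Transcendental K (jqModC K) := H42.transcendental_jqModC K
  have hjt' : Transcendental K (⟨jqModC K, hj⟩ : K⟮t2 K⟯) := fun h =>
    hjt (h.algHom K⟮t2 K⟯.val)
  have hrel : (AdjoinSimple.gen K (t2 K) + 256) ^ 3 =
      (⟨jqModC K, hj⟩ : K⟮t2 K⟯) * AdjoinSimple.gen K (t2 K) ^ 2 := by
    apply Subtype.ext
    have h : ((256 : K⟮t2 K⟯) : LaurentSeries K) = 256 := map_ofNat K⟮t2 K⟯.val 256
    push_cast
    rw [h, AdjoinSimple.coe_gen]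
    exact hE1
  have h3 := finrank_two hgen hjt' h2 hrel
  rw [finrank_of_eq_top (adjoin_gen_eq_top (t2 K)), mul_one,
    ← H42.relfinrank_eq_finrank_adjoin K⟮t2 K⟯ hj] at h3
  have h4 := H66.relfinrank_full K 2 (by exact_mod_cast h2)
  have h5 : dedekindPsi 2 = 3 := by decide +kernel
  rw [h5] at h4
  have h6 := relfinrank_mul_relfinrank (H66.adjoin_j_le_full K 2) hle
  rw [h3, h4] at h6
  have h7 : relfinrank (modularFunctionFieldFullC K 2) K⟮t2 K⟯ = 1 := by omega
  exact (relfinrank_eq_one_iff.1 h7) htm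

theorem t3_mem_full_three (h3' : (3 : K) ≠ 0) : t3 K ∈ modularFunctionFieldFullC K 3 := by
  have ht := transcendental_of_hasLead (H23.Haupt.hasLead_t3 K)
  have ht0 : t3 K ≠ 0 := transcendental_ne_zero ht
  have hE3 := H23.Haupt.t3_E3 K
  have hE4 := H23.Haupt.t3_E4 K
  have htm := mem_adjoin_simple_self K (t3 K)
  have hmem : ∀ n : ℕ, [n.AtLeastTwo] → (OfNat.ofNat n : LaurentSeries K) ∈ K⟮t3 K⟯ := by
    intro n _
    have := K⟮t3 K⟯.algebraMap_mem (OfNat.ofNat n)
    rwa [map_ofNat] at this
  have hj : jqModC K ∈ K⟮t3 K⟯ := by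
    have : jqModC K = (t3 K + 27) * (t3 K + 243) ^ 3 / t3 K ^ 3 := by
      rw [hE3, mul_div_cancel_right₀ _ (pow_ne_zero 3 ht0)]
    rw [this]
    exact div_mem (mul_mem (add_mem htm (hmem 27)) (pow_mem (add_mem htm (hmem 243)) 3))
      (pow_mem htm 3)
  have hj2 : qExpand K 3 (jqModC K) ∈ K⟮t3 K⟯ := by
    have : qExpand K 3 (jqModC K) = (t3 K + 27) * (t3 K + 3) ^ 3 / t3 K := by
      rw [hE4, mul_div_cancel_right₀ _ ht0]
    rw [this]
    exact div_mem (mul_mem (add_mem htm (hmem 27)) (pow_mem (add_mem htm (hmem 3)) 3)) htm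
  have hle : modularFunctionFieldFullC K 3 ≤ K⟮t3 K⟯ := by
    rw [modularFunctionFieldFullC, adjoin_le_iff]
    rintro x ⟨d, hne, hd, rfl⟩
    rcases (Nat.dvd_prime Nat.prime_three).1 hd with rfl | rfl
    · rw [qExpand_one_apply]
      exact hj
    · exact hj2
  -- degrees
  have hFF : IsFF K K⟮t3 K⟯ := isFF_adjoin ht
  have hgen : Transcendental K (AdjoinSimple.gen K (t3 K)) := transcendental_gen ht
  have hjt : Transcendental K (jqModC K) := H42.transcendental_jqModC K
  have hjt' : Transcendental K (⟨jqModC K, hj⟩ : K⟮t3 K⟯) := fun h =>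
    hjt (h.algHom K⟮t3 K⟯.val)
  have hrel : (AdjoinSimple.gen K (t3 K) + 27) * (AdjoinSimple.gen K (t3 K) + 243) ^ 3 =
      (⟨jqModC K, hj⟩ : K⟮t3 K⟯) * AdjoinSimple.gen K (t3 K) ^ 3 := by
    apply Subtype.ext
    have h : ((27 : K⟮t3 K⟯) : LaurentSeries K) = 27 := map_ofNat K⟮t3 K⟯.val 27
    have h' : ((243 : K⟮t3 K⟯) : LaurentSeries K) = 243 := map_ofNat K⟮t3 K⟯.val 243
    push_cast
    rw [h, h', AdjoinSimple.coe_gen]
    exact hE3
  have h3 := finrank_three hgen hjt' h3' hrel
  rw [finrank_of_eq_top (adjoin_gen_eq_top (t3 K)), mul_one,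
    ← H42.relfinrank_eq_finrank_adjoin K⟮t3 K⟯ hj] at h3
  have h4 := H66.relfinrank_full K 3 (by exact_mod_cast h3')
  have h5 : dedekindPsi 3 = 4 := by decide +kernel
  rw [h5] at h4
  have h6 := relfinrank_mul_relfinrank (H66.adjoin_j_le_full K 3) hle
  rw [h3, h4] at h6
  have h7 : relfinrank (modularFunctionFieldFullC K 3) K⟮t3 K⟯ = 1 := by omega
  exact (relfinrank_eq_one_iff.1 h7) htm

theorem t2_mem_full {N : ℕ} (hN : N ≠ 0) (h : 2 ∣ N) (h2 : (2 : K) ≠ 0) :
    t2 K ∈ modularFunctionFieldFullC K N :=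
  H66.full_mono K two_ne_zero hN h (t2_mem_full_two K h2)

theorem t3_mem_full {N : ℕ} (hN : N ≠ 0) (h : 3 ∣ N) (h3 : (3 : K) ≠ 0) :
    t3 K ∈ modularFunctionFieldFullC K N :=
  H66.full_mono K three_ne_zero hN h (t3_mem_full_three K h3)

end Membership

/-! ### Ramification of `j` -/

/-- The ramification of a field of `q`-expansions over the `j`-line. -/
def JRam (K : Type*) [Field K] (F : IntermediateField K (LaurentSeries K)) : Prop :=
  ∀ (hj : jqModC K ∈ F) (v : Place K F), v.ord (⟨jqModC K, hj⟩ : F) ≤ 3 ∧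
    v.ord ((⟨jqModC K, hj⟩ : F) - algebraMap K F 1728) ≤ 2 ∧
    ∀ a : K, a ≠ 0 → a ≠ 1728 → 0 < v.ord ((⟨jqModC K, hj⟩ : F) - algebraMap K F a) →
      v.ord ((⟨jqModC K, hj⟩ : F) - algebraMap K F a) = 1

section RH

variable {K F : Type*} [Field K] [Field F] [Algebra K F] [IsAlgClosed K] [H94.FunField K F]
  [CharZero K]

/-- The data needed for `genus_eq_two` and `genus_eq_three`. -/
theorem exists_finsets {j : F} (hj : Transcendental K j)
    (h3 : ∀ v : Place K F, ∀ a : K, a ≠ 0 → a ≠ 1728 → 0 < v.ord (j - algebraMap K F a) →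
      v.ord (j - algebraMap K F a) = 1) :
    ∃ S₀ S₁ S₂ : Finset (Place K F), (∀ v : Place K F, v ∈ S₀ ↔ 0 < v.ord j) ∧
      (∀ v : Place K F, v ∈ S₁ ↔ 0 < v.ord (j - algebraMap K F 1728)) ∧
      (∀ v : Place K F, v ∈ S₂ ↔ v.ord j < 0) ∧
      2 * (genusFF K F : ℤ) - 2 =
        Module.finrank K⟮j⟯ F - S₀.card - S₁.card - S₂.card := by
  classical
  have hj' : Transcendental K (j - algebraMap K F 1728) := transcendental_sub_const hj _
  have hfd : FiniteDimensional K⟮j⟯ F := H94.FunField.finiteDimensional (K := K) (F := F) hj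
  have f0 : {v : Place K F | 0 < v.ord j}.Finite := finite_setOf_ord_pos hj
  have f1 : {v : Place K F | 0 < v.ord (j - algebraMap K F 1728)}.Finite :=
    finite_setOf_ord_pos hj'
  have f2 : {v : Place K F | v.ord j < 0}.Finite := finite_setOf_ord_neg hj
  refine ⟨f0.toFinset, f1.toFinset, f2.toFinset, by simp, by simp, by simp, ?_⟩
  have hRH := H94.two_mul_genusFF hj {0, 1728} (fun a ha v hv => by
    simp only [Finset.mem_insert, Finset.mem_singleton, not_or] at ha
    exact h3 v a ha.1 ha.2 hv)
  rw [Finset.sum_insert (by simp), Finset.sum_singleton] at hRH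
  have c0 : Nat.card {v : Place K F // 0 < v.ord (j - algebraMap K F 0)} =
      f0.toFinset.card := by
    rw [map_zero, sub_zero]
    exact Nat.card_eq_card_finite_toFinset f0
  have c1 : Nat.card {v : Place K F // 0 < v.ord (j - algebraMap K F 1728)} =
      f1.toFinset.card := Nat.card_eq_card_finite_toFinset f1
  have c2 : Nat.card {v : Place K F // 0 < v.ord j⁻¹} = f2.toFinset.card := by
    rw [← Nat.card_eq_card_finite_toFinset f2]
    refine Nat.card_congr (Equiv.subtypeEquivRight fun v => ?_)
    rw [v.ord_inv, Set.mem_ofPred_eq]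
    omega
  rw [c0, c1, c2] at hRH
  linarith

end RH

section Modular

variable {L : Type*} [Field L] [Algebra ℚ L] (A : ValuationSubring L) {k : Type*} [Field k]
  (π : A →+* k) (N : ℕ) (hπ : Function.Surjective π) [IsLocalHom π] (hdeg : H42.DegLE L k N)

/-- Integral expansions give elements of the ring of integral functions. -/
theorem exists_mem_B (y : LaurentSeries A)
    (hy : coeffMap A.subtype y ∈ laurentBaseChange L (modularFunctionFieldFull N)) :
    ∃ b : (H42.modReductionData A π N hπ hdeg).B,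
      ((b : laurentBaseChange L (modularFunctionFieldFull N)) : LaurentSeries L) =
        coeffMap A.subtype y ∧
      (((H42.modReductionData A π N hπ hdeg).ρ b : modularFunctionFieldFullC k N) :
        LaurentSeries k) = coeffMap π y := by
  have hB : (⟨coeffMap A.subtype y, hy⟩ : laurentBaseChange L (modularFunctionFieldFull N)) ∈
      (H42.modReductionData A π N hπ hdeg).B :=
    (H42.modGauss A π N hπ hdeg).le_loc ⟨y, rfl⟩
  refine ⟨⟨_, hB⟩, rfl, ?_⟩
  rw [H42.modReductionData_ρ A π N hπ hdeg y hy (H42.coeffMap_mem_full A π N hπ hdeg y hy) hB]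

variable [CharZero L] [IsAlgClosed L] [IsAlgClosed k]

include hπ hdeg in
/-- Equality of the degrees over the `j`-line. -/
theorem finrank_j_eq (j : (H42.modReductionData A π N hπ hdeg).B)
    (hj1 : ((j : laurentBaseChange L (modularFunctionFieldFull N)) : LaurentSeries L) = jqModC L)
    (hj2 : (((H42.modReductionData A π N hπ hdeg).ρ j : modularFunctionFieldFullC k N) :
      LaurentSeries k) = jqModC k)
    (hρj : Transcendental k ((H42.modReductionData A π N hπ hdeg).ρ j)) :
    Module.finrank L⟮(j : laurentBaseChange L (modularFunctionFieldFull N))⟯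
        (laurentBaseChange L (modularFunctionFieldFull N)) =
      Module.finrank k⟮(H42.modReductionData A π N hπ hdeg).ρ j⟯
        (modularFunctionFieldFullC k N) := by
  have hFL := H42.funField_left (k := k) (L := L) N hdeg
  apply le_antisymm
  · have hjL : jqModC L ∈ laurentBaseChange L (modularFunctionFieldFull N) := by
      rw [H42.laurentBaseChange_full]; exact jqModC_mem_full L N
    have h1 := H42.relfinrank_eq_finrank_adjoin
      (laurentBaseChange L (modularFunctionFieldFull N)) hjL
    have h2 := H42.relfinrank_eq_finrank_adjoin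
      (modularFunctionFieldFullC k N) (jqModC_mem_full k N)
    have hjF : (j : laurentBaseChange L (modularFunctionFieldFull N)) = ⟨jqModC L, hjL⟩ :=
      Subtype.ext hj1
    have hjE : (H42.modReductionData A π N hπ hdeg).ρ j = ⟨jqModC k, jqModC_mem_full k N⟩ :=
      Subtype.ext hj2
    rw [hjF, hjE, ← h1, ← h2, H42.laurentBaseChange_full]
    exact hdeg.2
  · exact (H42.modReductionData A π N hπ hdeg).finrank_adjoin_le hρj

include hπ hdeg in
/-- Good reduction for even level and odd residue characteristic. -/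
theorem genusFF_eq_two (hN : N ≠ 0) (hdvd : 2 ∣ N) (h2 : (2 : k) ≠ 0)
    (hram : JRam L (laurentBaseChange L (modularFunctionFieldFull N))) :
    genusFF L (laurentBaseChange L (modularFunctionFieldFull N)) =
      genusFF k (modularFunctionFieldFullC k N) := by
  have hFL := H42.funField_left (k := k) (L := L) N hdeg
  have hFk := H42.funField_right (L := L) (k := k) N hdeg
  have hjL : jqModC L ∈ laurentBaseChange L (modularFunctionFieldFull N) := by
    rw [H42.laurentBaseChange_full]; exact jqModC_mem_full L N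
  have htL : t2 L ∈ laurentBaseChange L (modularFunctionFieldFull N) := by
    rw [H42.laurentBaseChange_full]; exact t2_mem_full L hN hdvd (by norm_num)
  obtain ⟨j, hj1, hj2⟩ := exists_mem_B A π N hπ hdeg (jqModC A) (by
    rw [H61.coeffMap_jqModC]; exact hjL)
  obtain ⟨t, ht1, ht2⟩ := exists_mem_B A π N hπ hdeg (t2 A) (by
    rw [H23.Haupt.coeffMap_t2]; exact htL)
  rw [H61.coeffMap_jqModC] at hj1 hj2
  rw [H23.Haupt.coeffMap_t2] at ht1 ht2
  have hjF : (j : laurentBaseChange L (modularFunctionFieldFull N)) = ⟨jqModC L, hjL⟩ :=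
    Subtype.ext hj1
  have hρt : Transcendental k ((H42.modReductionData A π N hπ hdeg).ρ t) := by
    intro h
    apply transcendental_of_hasLead (H23.Haupt.hasLead_t2 k)
    rw [← ht2]
    exact h.algHom (modularFunctionFieldFullC k N).val
  have hρj : Transcendental k ((H42.modReductionData A π N hπ hdeg).ρ j) := by
    intro h
    apply H42.transcendental_jqModC k
    rw [← hj2]
    exact h.algHom (modularFunctionFieldFullC k N).val
  have hjt := (H42.modReductionData A π N hπ hdeg).transcendental_of_ρ hρj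
  obtain ⟨S₀, S₁, S₂, hS₀, hS₁, hS₂, hg⟩ := exists_finsets hjt (fun v a ha ha' => by
    rw [hjF]; exact (hram hjL v).2.2 a ha ha')
  refine genus_eq_two (H42.modReductionData A π N hπ hdeg) t j hρt hρj ?_ h2 ?_ ?_
    (fun v => by rw [hjF]; exact (hram hjL v).1) (fun v => by rw [hjF]; exact (hram hjL v).2.1)
    S₀ S₁ S₂ hS₀ hS₁ hS₂ hg
  · apply Subtype.ext
    apply Subtype.ext
    have h := H23.Haupt.t2_E1 L
    rw [← ht1, ← hj1] at h
    exact h
  · refine isSeparable_of_hasLead _ _ ?_
    rw [ht2]
    exact H23.Haupt.hasLead_t2 k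
  · exact finrank_j_eq A π N hπ hdeg j hj1 hj2 hρj

include hπ hdeg in
/-- Good reduction for level divisible by three and residue characteristic different from
three. -/
theorem genusFF_eq_three (hN : N ≠ 0) (hdvd : 3 ∣ N) (h3 : (3 : k) ≠ 0)
    (hram : JRam L (laurentBaseChange L (modularFunctionFieldFull N))) :
    genusFF L (laurentBaseChange L (modularFunctionFieldFull N)) =
      genusFF k (modularFunctionFieldFullC k N) := by
  have hFL := H42.funField_left (k := k) (L := L) N hdeg
  have hFk := H42.funField_right (L := L) (k := k) N hdeg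
  have hjL : jqModC L ∈ laurentBaseChange L (modularFunctionFieldFull N) := by
    rw [H42.laurentBaseChange_full]; exact jqModC_mem_full L N
  have htL : t3 L ∈ laurentBaseChange L (modularFunctionFieldFull N) := by
    rw [H42.laurentBaseChange_full]; exact t3_mem_full L hN hdvd (by norm_num)
  obtain ⟨j, hj1, hj2⟩ := exists_mem_B A π N hπ hdeg (jqModC A) (by
    rw [H61.coeffMap_jqModC]; exact hjL)
  obtain ⟨t, ht1, ht2⟩ := exists_mem_B A π N hπ hdeg (t3 A) (by
    rw [H23.Haupt.coeffMap_t3]; exact htL)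
  rw [H61.coeffMap_jqModC] at hj1 hj2
  rw [H23.Haupt.coeffMap_t3] at ht1 ht2
  have hjF : (j : laurentBaseChange L (modularFunctionFieldFull N)) = ⟨jqModC L, hjL⟩ :=
    Subtype.ext hj1
  have hρt : Transcendental k ((H42.modReductionData A π N hπ hdeg).ρ t) := by
    intro h
    apply transcendental_of_hasLead (H23.Haupt.hasLead_t3 k)
    rw [← ht2]
    exact h.algHom (modularFunctionFieldFullC k N).val
  have hρj : Transcendental k ((H42.modReductionData A π N hπ hdeg).ρ j) := by
    intro h
    apply H42.transcendental_jqModC k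
    rw [← hj2]
    exact h.algHom (modularFunctionFieldFullC k N).val
  have hjt := (H42.modReductionData A π N hπ hdeg).transcendental_of_ρ hρj
  obtain ⟨S₀, S₁, S₂, hS₀, hS₁, hS₂, hg⟩ := exists_finsets hjt (fun v a ha ha' => by
    rw [hjF]; exact (hram hjL v).2.2 a ha ha')
  refine genus_eq_three (H42.modReductionData A π N hπ hdeg) t j hρt hρj ?_ h3 ?_ ?_
    (fun v => by rw [hjF]; exact (hram hjL v).1) (fun v => by rw [hjF]; exact (hram hjL v).2.1)
    S₀ S₁ S₂ hS₀ hS₁ hS₂ hg
  · apply Subtype.ext
    apply Subtype.ext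
    have h := H23.Haupt.t3_E3 L
    rw [← ht1, ← hj1] at h
    exact h
  · refine isSeparable_of_hasLead _ _ ?_
    rw [ht2]
    exact H23.Haupt.hasLead_t3 k
  · exact finrank_j_eq A π N hπ hdeg j hj1 hj2 hρj

end Modular

/-! ### The field of algebraic numbers -/

theorem jRam_bar (N : ℕ) [NeZero N] : JRam (AlgebraicClosure ℚ)
    (laurentBaseChange (AlgebraicClosure ℚ) (modularFunctionFieldFull N)) := by
  intro hj v
  let : Algebra (AlgebraicClosure ℚ) ℂ := H24.embBar.toAlgebra
  have h := H94.x0PlaceData_of_eq (H24.laurentBaseChange_full (AlgebraicClosure ℚ) N)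
    (j := ⟨jqModC (AlgebraicClosure ℚ), hj⟩) rfl
  exact ⟨h.ord_le_three v, h.ord_le_two v, fun a ha ha' hv => h.ord_eq_one a ha ha' v hv⟩

/-- Equality of the (Riemann-Roch) genera of the modular function fields over `L` and `k`. -/
def GenusFFEq (L k : Type*) [Field L] [Algebra ℚ L] [Field k] (N : ℕ) : Prop :=
  genusFF L (laurentBaseChange L (modularFunctionFieldFull N)) =
    genusFF k (modularFunctionFieldFullC k N)

/-- **Good reduction upstairs.** If `ℓ ∤ N` and `N` is divisible by two or three, then the modular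
function field of level `N` has the same genus in characteristic `ℓ`. -/
theorem genusFF_eq_of_dvd (N : ℕ) [NeZero N] {ℓ : ℕ} [Fact ℓ.Prime] (hℓN : ¬ ℓ ∣ N)
    (A : ValuationSubring (AlgebraicClosure ℚ)) (hA : A.LiesOverPrime ℓ)
    (h : 2 ∣ N ∨ 3 ∣ N) :
    GenusFFEq (AlgebraicClosure ℚ) (IsLocalRing.ResidueField A) N := by
  have hk : IsAlgClosed (IsLocalRing.ResidueField A) := isAlgClosed_residueField A
  rcases h with h | h
  · have h2 : ((2 : ℕ) : IsLocalRing.ResidueField A) ≠ 0 :=
      natCast_residueField_ne_zero A (Fact.out : ℓ.Prime) hA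
        (fun h2 => hℓN (h2.trans h))
    exact genusFF_eq_two A (IsLocalRing.residue A) N IsLocalRing.residue_surjective
      (degLE_of_not_dvd N hℓN A hA) (NeZero.ne N) h (by exact_mod_cast h2) (jRam_bar N)
  · have h3 : ((3 : ℕ) : IsLocalRing.ResidueField A) ≠ 0 :=
      natCast_residueField_ne_zero A (Fact.out : ℓ.Prime) hA
        (fun h3 => hℓN (h3.trans h))
    exact genusFF_eq_three A (IsLocalRing.residue A) N IsLocalRing.residue_surjective
      (degLE_of_not_dvd N hℓN A hA) (NeZero.ne N) h (by exact_mod_cast h3) (jRam_bar N)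

end Fermat.Agent.H18
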