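import Mathlib
import Fermat.Agent.H18Inst

/-!
# S18 from equality of Riemann-Roch genera (helper18)
-/

set_option autoImplicit false

noncomputable section

open AlgebraicCurve ModularCurve
open Fermat.Agent.H40 (RiemannFor)
open Fermat.Agent.H3RR

namespace Fermat.Agent.H18

theorem riemannFor_genusFF (K F : Type*) [Field K] [Field F] [Algebra K F] [IsAlgClosed K]
    [IsFF K F] {c : ℤ} (hc : 2 * (genusFF K F : ℤ) - 2 < c) :
    RiemannFor K F (genusFF K F) c := fun D hD =>
  ⟨finite_L D, ell_of_degree_gt (by omega)⟩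

/-- Equality of genera gives Riemann's theorem with the same constants. -/
theorem genusEq_of_genusFFEq {L k : Type*} [Field L] [Algebra ℚ L] [Field k] [IsAlgClosed L]
    [IsAlgClosed k] {N : ℕ} (hdeg : H42.DegLE L k N) (h : GenusFFEq L k N) : GenusEq L k N := by
  have hFL := H42.funField_left (k := k) (L := L) N hdeg
  have hFk := H42.funField_right (L := L) (k := k) N hdeg
  refine ⟨genusFF L (laurentBaseChange L (modularFunctionFieldFull N)),
    2 * genusFF L (laurentBaseChange L (modularFunctionFieldFull N)),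
    riemannFor_genusFF _ _ (by omega), ?_⟩
  have h' : genusFF L (laurentBaseChange L (modularFunctionFieldFull N)) =
    genusFF k (modularFunctionFieldFullC k N) := h
  rw [h']
  exact riemannFor_genusFF _ _ (by omega)

/-- **S18 from equality of genera.** -/
theorem eq_zero_of_genusFFEq (N : ℕ) [NeZero N] {ℓ : ℕ} [Fact ℓ.Prime] (hℓN : ¬ ℓ ∣ N)
    (A : ValuationSubring (AlgebraicClosure ℚ)) (hA : A.LiesOverPrime ℓ)
    (hg : GenusFFEq (AlgebraicClosure ℚ) (IsLocalRing.ResidueField A) N)
    (h : ReductionInputsModL A N) (m : ℕ) (hm : ¬ ℓ ∣ m) (z : JZero N)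
    (hmz : m • z = 0) (hz : reductionModL A N z = 0) : z = 0 := by
  have hk : IsAlgClosed (IsLocalRing.ResidueField A) := isAlgClosed_residueField A
  exact eq_zero_of_genusEq N hℓN A hA
    (genusEq_of_genusFFEq (degLE_of_not_dvd N hℓN A hA) hg) h m hm z hmz hz

end Fermat.Agent.H18
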