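/-
H88: norm and trace commute with reduction.
-/
import Mathlib
import Fermat.Agent.H40Pole
import Fermat.Agent.H88Count

set_option autoImplicit false

open AlgebraicCurve WithZero Polynomial IntermediateField Fermat.Agent.H3RR Fermat.Agent.H40

namespace Fermat.Agent.H88

variable {K F F' k E E' : Type*} [Field K] [Field F] [Field F'] [Algebra K F] [Algebra K F']
  [Algebra F F'] [Field k] [Field E] [Field E'] [Algebra k E] [Algebra k E'] [Algebra E E']

/-- compatibility of two reductions -/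
structure RedCompat (R : ReductionData K F k E) (R' : ReductionData K F' k E') : Prop where
  mem : ∀ f ∈ R.B, algebraMap F F' f ∈ R'.B
  comm : ∀ (f : R.B) (h : algebraMap F F' f ∈ R'.B), R'.ρ ⟨algebraMap F F' f, h⟩ =
    algebraMap E E' (R.ρ f)

section Scale

variable (R : ReductionData K F k E)

theorem smul_mem_B {a : K} (ha : a ∈ R.A) {f : F} (hf : f ∈ R.B) : a • f ∈ R.B := by
  rw [Algebra.smul_def]
  exact R.B.mul_mem (R.mem_B ⟨a, ha⟩) hf

theorem scale_fin {ι : Type*} [Fintype ι] (c : ι → F) (hc : ∃ i, c i ≠ 0) :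
    ∃ a : K, a ≠ 0 ∧ ∃ b : ι → R.B, (∀ i, (b i : F) = a • c i) ∧ ∃ i, R.ρ (b i) ≠ 0 := by
  classical
  obtain ⟨i₀, hi₀⟩ := hc
  have h1 : ∀ i, c i ≠ 0 → ∃ a : K, a ≠ 0 ∧ ∃ x : R.B, (x : F) = a • c i ∧ R.ρ x ≠ 0 :=
    fun i hi => R.exists_scale hi
  choose! a ha x hx hρ using h1
  obtain ⟨t, ht0, htA, j, hj, htj⟩ := R.exists_scale_family
    (Finset.univ.filter fun i => c i ≠ 0) (fun i => (a i)⁻¹)
    ⟨i₀, by simpa using hi₀, inv_ne_zero (ha i₀ hi₀)⟩
  have hmem : ∀ i, t • c i ∈ R.B := by
    intro i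
    by_cases hi : c i = 0
    · rw [hi, smul_zero]; exact R.B.zero_mem
    · have h2 : t • c i = (t * (a i)⁻¹) • (x i : F) := by
        rw [hx i hi, smul_smul, mul_assoc, inv_mul_cancel₀ (ha i hi), mul_one]
      rw [h2]
      exact smul_mem_B R (htA i (by simpa using hi)) (x i).2
  refine ⟨t, ht0, fun i => ⟨t • c i, hmem i⟩, fun i => rfl, j, ?_⟩
  have hcj : c j ≠ 0 := by simpa using hj
  have h2 : (⟨t • c j, hmem j⟩ : R.B) = x j := by
    apply Subtype.ext
    show t • c j = x j
    have h3 : t = a j := by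
      have h4 : t * (a j)⁻¹ = 1 := htj
      calc t = t * (a j)⁻¹ * a j := by rw [mul_assoc, inv_mul_cancel₀ (ha j hcj), mul_one]
        _ = a j := by rw [h4, one_mul]
    rw [hx j hcj, h3]
  show R.ρ ⟨t • c j, hmem j⟩ ≠ 0
  rw [h2]
  exact hρ j hcj

end Scale

omit [Algebra k E] in
/-- a basis of `E'` over `E` consisting of reductions -/
theorem exists_omega (R' : ReductionData K F' k E') [Module.Finite E E'] : ∃ ω : Fin (Module.finrank E E') → R'.B,
    LinearIndependent E fun i => R'.ρ (ω i) := by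
  classical
  let e := Module.finBasis E E'
  choose u w hw huw using R'.frac
  let Y : E' := ∏ i, R'.ρ (w (e i))
  have hY : Y ≠ 0 := Finset.prod_ne_zero_iff.mpr fun i _ => hw (e i)
  let z : Fin (Module.finrank E E') → R'.B := fun i =>
    u (e i) * ∏ j ∈ Finset.univ.erase i, w (e j)
  have hz : ∀ i, R'.ρ (z i) = e i * Y := fun i => by
    simp only [z, Y]
    rw [map_mul, map_prod, ← huw (e i), mul_assoc,
      Finset.mul_prod_erase Finset.univ (fun j => R'.ρ (w (e j))) (Finset.mem_univ i)]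
  refine ⟨z, ?_⟩
  rw [Fintype.linearIndependent_iff]
  intro t ht
  apply Fintype.linearIndependent_iff.mp e.linearIndependent
  have : (∑ i, t i • e i) * Y = 0 := by
    rw [Finset.sum_mul, ← ht]
    refine Finset.sum_congr rfl fun i _ => ?_
    rw [hz, Algebra.smul_mul_assoc]
  exact (mul_eq_zero.mp this).resolve_right hY

namespace RedCompat

variable {R : ReductionData K F k E} {R' : ReductionData K F' k E'} (C : RedCompat R R')

/-- the map on integral functions -/
def emb : R.B →+* R'.B where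
  toFun f := ⟨algebraMap F F' f, C.mem f f.2⟩
  map_one' := Subtype.ext (map_one _)
  map_mul' _ _ := Subtype.ext (map_mul _ _ _)
  map_zero' := Subtype.ext (map_zero _)
  map_add' _ _ := Subtype.ext (map_add _ _ _)

@[simp] theorem coe_emb (f : R.B) : (C.emb f : F') = algebraMap F F' f := rfl

@[simp] theorem ρ_emb (f : R.B) : R'.ρ (C.emb f) = algebraMap E E' (R.ρ f) := C.comm f _

include C

theorem sum_ne {ι : Type*} [Fintype ι] (ω : ι → R'.B)
    (hω : LinearIndependent E fun i => R'.ρ (ω i)) (b : ι → R.B) (hb : ∃ i, R.ρ (b i) ≠ 0) :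
    R'.ρ (∑ i, C.emb (b i) * ω i) ≠ 0 := by
  intro h
  rw [map_sum] at h
  simp only [map_mul, ρ_emb, ← Algebra.smul_def] at h
  obtain ⟨i, hi⟩ := hb
  exact hi (Fintype.linearIndependent_iff.mp hω _ h i)

variable [IsScalarTower K F F']

theorem mem_of_sum {ι : Type*} [Fintype ι] (ω : ι → R'.B)
    (hω : LinearIndependent E fun i => R'.ρ (ω i)) (c : ι → F)
    (h : ∑ i, c i • (ω i : F') ∈ R'.B) (i : ι) : c i ∈ R.B := by
  by_cases hc : ∃ i, c i ≠ 0
  swap
  · push Not at hc
    rw [hc i]; exact R.B.zero_mem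
  obtain ⟨a, ha0, b, hb, hb0⟩ := scale_fin R c hc
  have hkey : ((∑ i, C.emb (b i) * ω i : R'.B) : F') = algebraMap K F' a * ∑ i, c i • (ω i : F') := by
    rw [show ((∑ i, C.emb (b i) * ω i : R'.B) : F') = ∑ i, ((C.emb (b i) * ω i : R'.B) : F') from
      map_sum R'.B.subtype _ _, Finset.mul_sum]
    refine Finset.sum_congr rfl fun i _ => ?_
    show algebraMap F F' (b i) * (ω i : F') = _
    rw [hb, Algebra.smul_def, map_mul, ← IsScalarTower.algebraMap_apply K F F', Algebra.smul_def]
    ring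
  by_cases haA : a⁻¹ ∈ R.A
  · have h2 : c i = a⁻¹ • (b i : F) := by
      rw [hb, smul_smul, inv_mul_cancel₀ ha0, one_smul]
    rw [h2]
    exact smul_mem_B R haA (b i).2
  · exfalso
    have haA' : a ∈ R.A := by
      have := (R.A.mem_or_inv_mem a⁻¹).resolve_left haA
      rwa [inv_inv] at this
    have hnu : ¬ IsUnit (⟨a, haA'⟩ : R.A) := by
      intro hu
      obtain ⟨d, hd⟩ := isUnit_iff_exists_inv.mp hu
      apply haA
      have h1 : a * (d : K) = 1 := congrArg Subtype.val hd
      rw [inv_eq_of_mul_eq_one_right h1]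
      exact d.2
    have hz := (R.π_eq_zero ⟨a, haA'⟩).mpr hnu
    have h3 : (∑ i, C.emb (b i) * ω i : R'.B) = C.emb (R.const ⟨a, haA'⟩) * ⟨_, h⟩ := by
      apply Subtype.ext
      rw [hkey]
      show _ = algebraMap F F' (algebraMap K F a) * _
      rw [← IsScalarTower.algebraMap_apply K F F']
    apply C.sum_ne ω hω b hb0
    rw [h3, map_mul, ρ_emb, R.ρ_const, hz, map_zero, map_zero, zero_mul]

theorem linearIndependent {ι : Type*} [Fintype ι] (ω : ι → R'.B)
    (hω : LinearIndependent E fun i => R'.ρ (ω i)) : LinearIndependent F fun i => (ω i : F') := by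
  rw [Fintype.linearIndependent_iff]
  intro c hc
  by_contra hcon
  push Not at hcon
  obtain ⟨a, ha0, b, hb, hb0⟩ := scale_fin R c hcon
  apply C.sum_ne ω hω b hb0
  have hkey : (∑ i, C.emb (b i) * ω i : R'.B) = 0 := by
    apply Subtype.ext
    rw [show ((∑ i, C.emb (b i) * ω i : R'.B) : F') = ∑ i, ((C.emb (b i) * ω i : R'.B) : F') from
      map_sum R'.B.subtype _ _]
    have h1 : ∀ i, ((C.emb (b i) * ω i : R'.B) : F') = algebraMap K F' a * (c i • (ω i : F')) := by
      intro i
      show algebraMap F F' (b i) * (ω i : F') = _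
      rw [hb, Algebra.smul_def, map_mul, ← IsScalarTower.algebraMap_apply K F F', Algebra.smul_def]
      ring
    rw [Finset.sum_congr rfl fun i _ => h1 i, ← Finset.mul_sum, hc, mul_zero]
    rfl
  rw [hkey, map_zero]

/-- norm and trace commute with reduction. -/
theorem norm_trace [Module.Finite F F'] [Module.Finite E E']
    (hd : Module.finrank F F' = Module.finrank E E') (h : R'.B) :
    (∃ b : R.B, (b : F) = Algebra.norm F (h : F') ∧ R.ρ b = Algebra.norm E (R'.ρ h)) ∧
    (∃ b : R.B, (b : F) = Algebra.trace F F' (h : F') ∧ R.ρ b = Algebra.trace E E' (R'.ρ h)) := by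
  classical
  obtain ⟨ω, hω⟩ := exists_omega (E := E) R'
  have hωF := C.linearIndependent ω hω
  let bE := basisOfLinearIndependentOfCardEqFinrank' (fun i => R'.ρ (ω i)) hω (by simp)
  let bF := basisOfLinearIndependentOfCardEqFinrank' (fun i => (ω i : F')) hωF (by simp [hd])
  have hbE : ∀ i, bE i = R'.ρ (ω i) := fun i => by simp [bE]
  have hbF : ∀ i, bF i = (ω i : F') := fun i => by simp [bF]
  have hsum : ∀ j, ∑ i, bF.repr ((h : F') * bF j) i • (ω i : F') = (h * ω j : R'.B) := by
    intro j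
    conv_rhs => rw [show ((h * ω j : R'.B) : F') = (h : F') * bF j by rw [hbF]; rfl,
      ← bF.sum_repr ((h : F') * bF j)]
    refine Finset.sum_congr rfl fun i _ => ?_
    rw [hbF, hbF]
  have hmem : ∀ i j, bF.repr ((h : F') * bF j) i ∈ R.B := by
    intro i j
    apply C.mem_of_sum ω hω (fun i => bF.repr ((h : F') * bF j) i)
    rw [hsum]
    exact (h * ω j).2
  let M : Matrix (Fin (Module.finrank E E')) (Fin (Module.finrank E E')) R.B :=
    fun i j => ⟨bF.repr ((h : F') * bF j) i, hmem i j⟩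
  have hMF : R.B.subtype.mapMatrix M = Algebra.leftMulMatrix bF (h : F') := by
    ext i j
    rw [Algebra.leftMulMatrix_eq_repr_mul]
    rfl
  have hME : R.ρ.mapMatrix M = Algebra.leftMulMatrix bE (R'.ρ h) := by
    ext i j
    rw [Algebra.leftMulMatrix_eq_repr_mul]
    have h1 : R'.ρ h * bE j = ∑ i, R.ρ (M i j) • bE i := by
      have h2 : h * ω j = ∑ i, C.emb (M i j) * ω i := by
        apply Subtype.ext
        rw [show ((∑ i, C.emb (M i j) * ω i : R'.B) : F') =
          ∑ i, ((C.emb (M i j) * ω i : R'.B) : F') from map_sum R'.B.subtype _ _, ← hsum]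
        refine Finset.sum_congr rfl fun i _ => ?_
        rw [Algebra.smul_def]
        rfl
      rw [hbE, ← map_mul, h2, map_sum]
      refine Finset.sum_congr rfl fun i _ => ?_
      rw [map_mul, ρ_emb, Algebra.smul_def, hbE]
    rw [h1, bE.repr_sum_self]
    rfl
  constructor
  · refine ⟨M.det, ?_, ?_⟩
    · rw [Algebra.norm_eq_matrix_det bF, ← hMF, ← RingHom.map_det]
      rfl
    · rw [Algebra.norm_eq_matrix_det bE, ← hME, ← RingHom.map_det]
  · refine ⟨M.trace, ?_, ?_⟩
    · rw [Algebra.trace_eq_matrix_trace bF, ← hMF]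
      exact (AddMonoidHom.map_trace R.B.subtype.toAddMonoidHom M)
    · rw [Algebra.trace_eq_matrix_trace bE, ← hME]
      exact (AddMonoidHom.map_trace R.ρ.toAddMonoidHom M)

end RedCompat

end Fermat.Agent.H88
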