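/-
H88: a subring of an affine coordinate ring of a smooth curve which contains the norms and traces
from a finite separable cover is everything.
-/
import Mathlib
import Fermat.Agent.H88Genus
import Fermat.Agent.H88Norm

set_option autoImplicit false

open AlgebraicCurve WithZero IsLocalRing Polynomial IntermediateField Fermat.Agent.H3RR

namespace Fermat.Agent.H88

section Aff

variable {K F : Type*} [Field K] [Field F] [Algebra K F]

/-- functions regular wherever `x` is regular. -/
def aff (K : Type*) {F : Type*} [Field K] [Field F] [Algebra K F] (x : F) : Subalgebra K F where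
  carrier := {f | ∀ v : Place K F, v.adicValuation x ≤ 1 → v.adicValuation f ≤ 1}
  mul_mem' := by
    intro a b ha hb v hv
    rw [map_mul]
    exact mul_le_one' (ha v hv) (hb v hv)
  add_mem' := by
    intro a b ha hb v hv
    exact (Valuation.map_add _ _ _).trans (max_le (ha v hv) (hb v hv))
  algebraMap_mem' := fun c v _ => v.adicValuation_algebraMap_le_one c

theorem mem_aff {x f : F} : f ∈ aff K x ↔ ∀ v : Place K F, v.adicValuation x ≤ 1 →
    v.adicValuation f ≤ 1 := Iff.rfl

theorem adicValuation_le_exp_neg_one {v : Place K F} {f : F} (h : v.adicValuation f < 1) :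
    v.adicValuation f ≤ exp (-1) := by
  by_cases hf : f = 0
  · rw [hf, map_zero]; exact zero_le
  · rw [v.adicValuation_eq_exp_neg_ord hf] at h ⊢
    rw [← exp_zero, exp_lt_exp] at h
    rw [exp_le_exp]; omega

variable [IsAlgClosed K] [IsFF K F]

/-- prescribed nonnegative orders at the places over finitely many values of `x`, regular at all
places where `x` is regular. -/
theorem exists_order {x : F} (hx : Transcendental K x) (T : Finset K) (n : Place K F → ℕ) :
    ∃ h : F, h ≠ 0 ∧ h ∈ aff K x ∧
      ∀ v : Place K F, (∃ b ∈ T, v.adicValuation (x - algebraMap K F b) < 1) → v.ord h = n v := by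
  classical
  obtain ⟨S, hS⟩ : ∃ S : Finset (Place K F), ∀ v, v ∈ S ↔
      ∃ b ∈ T, v.adicValuation (x - algebraMap K F b) < 1 :=
    ⟨(finite_above hx T).toFinset, fun v => by simp⟩
  rcases S.eq_empty_or_nonempty with hemp | ⟨v₀, hv₀⟩
  · refine ⟨1, one_ne_zero, (aff K x).one_mem, fun v hv => ?_⟩
    rw [← hS, hemp] at hv
    exact absurd hv (Finset.notMem_empty v)
  obtain ⟨t, ht⟩ := weak_approximation S (fun v => unif v (-(n v : ℤ))) (fun v => -(n v : ℤ) - 1)
  have htv : ∀ v ∈ S, v.adicValuation t = exp (-(n v : ℤ)) := by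
    intro v hv
    have h2 := ht v hv
    have h3 : t = unif v (-(n v : ℤ)) + (t - unif v (-(n v : ℤ))) := by ring
    rw [h3, Valuation.map_add_eq_of_lt_left, adicValuation_unif]
    rw [adicValuation_unif]
    exact lt_of_le_of_lt h2 (by rw [exp_lt_exp]; omega)
  have ht0 : t ≠ 0 := by
    rintro rfl
    have h1 := htv v₀ hv₀
    rw [map_zero] at h1
    exact absurd h1.symm (by simp)
  obtain ⟨W, hW⟩ : ∃ W : Finset (Place K F), ∀ w, w ∈ W ↔
      (w.adicValuation x ≤ 1 ∧ 1 < w.adicValuation t) := by
    have hfin : {w : Place K F | w.adicValuation x ≤ 1 ∧ 1 < w.adicValuation t}.Finite := by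
      apply (finite_support_ord ht0).subset
      intro w hw
      rw [Function.mem_support]
      intro h0
      have h1 := hw.2
      rw [w.adicValuation_eq_exp_neg_ord ht0, h0, neg_zero, exp_zero] at h1
      exact lt_irrefl _ h1
    exact ⟨hfin.toFinset, fun w => by simp⟩
  have hc : ∀ w ∈ W, ∃ c : K, w.adicValuation (x - algebraMap K F c) < 1 := fun w hw =>
    exists_const_sub_lt_one w ((hW w).mp hw).1
  choose! c hc using hc
  have hcT : ∀ w ∈ W, ∀ b ∈ T, c w ≠ b := by
    intro w hw b hb hcb
    have hwS : w ∈ S := (hS w).mpr ⟨b, hb, hcb ▸ hc w hw⟩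
    have h1 := ((hW w).mp hw).2
    rw [htv w hwS, ← exp_zero, exp_lt_exp] at h1
    omega
  obtain ⟨p, hp⟩ : ∃ p : F, p = ∏ w ∈ W, (x - algebraMap K F (c w)) ^ (-(w.ord t)).toNat := ⟨_, rfl⟩
  have hp0 : p ≠ 0 := by
    rw [hp]
    exact Finset.prod_ne_zero_iff.mpr fun w _ => pow_ne_zero _ (sub_const_ne_zero hx _)
  have hple : ∀ v : Place K F, v.adicValuation x ≤ 1 → ∀ d : K,
      v.adicValuation (x - algebraMap K F d) ≤ 1 := fun v hv d =>
    (Valuation.map_sub _ _ _).trans (max_le hv (v.adicValuation_algebraMap_le_one d))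
  refine ⟨t * p, mul_ne_zero ht0 hp0, fun v hv => ?_, fun v hv => ?_⟩
  · rw [map_mul]
    by_cases hvW : v ∈ W
    · rw [hp, ← Finset.mul_prod_erase W _ hvW, map_mul, map_prod, map_pow]
      have h1 : ∏ w ∈ W.erase v, v.adicValuation ((x - algebraMap K F (c w)) ^
          (-(w.ord t)).toNat) ≤ 1 := Finset.prod_le_one' fun w _ => by
        rw [map_pow]; exact pow_le_one' (hple v hv _) _
      have h2 : v.adicValuation (x - algebraMap K F (c v)) ^ (-(v.ord t)).toNat ≤
          exp (v.ord t) := by
        refine (pow_le_pow_left' (adicValuation_le_exp_neg_one (hc v hvW)) _).trans ?_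
        rw [← exp_nsmul, exp_le_exp]
        simp only [nsmul_eq_mul]
        have := Int.self_le_toNat (-(v.ord t))
        linarith
      have h3 : v.adicValuation t = exp (-(v.ord t)) := v.adicValuation_eq_exp_neg_ord ht0
      rw [h3, ← mul_assoc]
      refine mul_le_one' ?_ h1
      calc exp (-(v.ord t)) * v.adicValuation (x - algebraMap K F (c v)) ^ (-(v.ord t)).toNat
          ≤ exp (-(v.ord t)) * exp (v.ord t) := by gcongr
        _ = 1 := by rw [← exp_add, neg_add_cancel, exp_zero]
    · have h1 : v.adicValuation t ≤ 1 := by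
        by_contra hcon
        push Not at hcon
        exact hvW ((hW v).mpr ⟨hv, hcon⟩)
      have h2 : v.adicValuation p ≤ 1 := by
        rw [hp, map_prod]
        exact Finset.prod_le_one' fun w _ => by rw [map_pow]; exact pow_le_one' (hple v hv _) _
      exact mul_le_one' h1 h2
  · have hvS := (hS v).mpr hv
    obtain ⟨b, hb, hvb⟩ := hv
    have h2 : v.adicValuation p = 1 := by
      rw [hp, map_prod]
      apply Finset.prod_eq_one
      intro w hw
      rw [map_pow]
      have h4 : x - algebraMap K F (c w) = (algebraMap K F (b - c w)) + (x - algebraMap K F b) := by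
        rw [map_sub]; ring
      have h3 : v.adicValuation (x - algebraMap K F (c w)) = 1 := by
        rw [h4, Valuation.map_add_eq_of_lt_left,
          adicValuation_algebraMap v (sub_ne_zero.mpr (Ne.symm (hcT w hw b hb)))]
        rwa [adicValuation_algebraMap v (sub_ne_zero.mpr (Ne.symm (hcT w hw b hb)))]
      rw [h3, one_pow]
    have h3 : v.adicValuation (t * p) = exp (-(n v : ℤ)) := by
      rw [map_mul, h2, mul_one, htv v hvS]
    rw [v.adicValuation_eq_exp_neg_ord (mul_ne_zero ht0 hp0), exp_inj] at h3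
    omega

end Aff

section NT

variable {K F F' : Type*} [Field K] [Field F] [Field F'] [Algebra K F] [Algebra K F']
  [Algebra F F'] [IsScalarTower K F F'] [Module.Finite F F'] [IsFF K F'] [IsFF K F] [IsAlgClosed K]

omit [Module.Finite F F'] [IsFF K F'] [IsFF K F] [IsAlgClosed K] in
theorem restrict_le_one_iff [Algebra.IsIntegral F F'] (w : Place K F') (f : F) :
    (w.restrict F).adicValuation f ≤ 1 ↔ w.adicValuation (algebraMap F F' f) ≤ 1 := by
  constructor
  · intro h
    have h1 := mem_of_adicValuation_le_one _ h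
    rw [Place.mem_restrict_iff] at h1
    exact Place.adicValuation_le_one_of_mem _ h1
  · intro h
    apply Place.adicValuation_le_one_of_mem
    rw [Place.mem_restrict_iff]
    exact mem_of_adicValuation_le_one _ h

omit [Module.Finite F F'] [IsFF K F'] [IsFF K F] [IsAlgClosed K] in
theorem restrict_lt_one_iff [Algebra.IsIntegral F F'] (w : Place K F') (f : F) :
    (w.restrict F).adicValuation f < 1 ↔ w.adicValuation (algebraMap F F' f) < 1 := by
  by_cases hf : f = 0
  · rw [hf, map_zero, map_zero, map_zero]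
  have h0 : (w.restrict F).adicValuation f ≠ 0 := Place.adicValuation_ne_zero _ hf
  have h1 : w.adicValuation (algebraMap F F' f) ≠ 0 :=
    Place.adicValuation_ne_zero _ ((_root_.map_ne_zero _).mpr hf)
  rw [← one_lt_inv₀ (zero_lt_iff.mpr h0), ← one_lt_inv₀ (zero_lt_iff.mpr h1), ← map_inv₀,
    ← map_inv₀, ← map_inv₀, ← not_le, ← not_le, restrict_le_one_iff]

theorem nt [Algebra.IsSeparable F F'] {x : F} (hx : Transcendental K x) (S : Subring F)
    (hS : ∀ f ∈ S, f ∈ aff K x) (hconst : ∀ c : K, algebraMap K F c ∈ S)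
    (hN : ∀ h : F', h ∈ aff K (algebraMap F F' x) → Algebra.norm F h ∈ S)
    (hT : ∀ h : F', h ∈ aff K (algebraMap F F' x) → Algebra.trace F F' h ∈ S)
    (f : F) (hf : f ∈ aff K x) : f ∈ S := by
  classical
  have hx' : Transcendental K (algebraMap F F' x) :=
    (transcendental_algebraMap_iff (algebraMap F F').injective).mpr hx
  -- places above
  have habove : ∀ (Q : Place K F) (w : Place K F') (b : K), w.restrict F = Q →
      Q.adicValuation (x - algebraMap K F b) < 1 →
      w.adicValuation (algebraMap F F' x - algebraMap K F' b) < 1 := by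
    intro Q w b hw hQ
    rw [← hw, restrict_lt_one_iff, map_sub, ← IsScalarTower.algebraMap_apply] at hQ
    exact hQ
  -- local parameters
  have hu : ∀ Q : Place K F, Q.adicValuation x ≤ 1 → ∃ u ∈ S, Q.adicValuation u = exp (-1) := by
    intro Q hQ
    obtain ⟨b, hb⟩ := exists_const_sub_lt_one Q hQ
    obtain ⟨w₁, hw₁⟩ := exists_restrict_eq (F' := F') Q
    obtain ⟨h, h0, haff, hord⟩ := exists_order hx' {b} (fun w => if w = w₁ then 1 else 0)
    have hw : ∀ w : Place K F', w.restrict F = Q → w.ord h = if w = w₁ then 1 else 0 := by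
      intro w hw
      rw [hord w ⟨b, Finset.mem_singleton_self b, habove Q w b hw hb⟩]
      split_ifs <;> rfl
    have h1 : Q.ord (Algebra.norm F h) = 1 := by
      apply ord_norm_eq_one Q w₁ hw₁ h0
      · rw [hw w₁ hw₁, if_pos rfl]
      · intro w hw' hne
        rw [hw w hw', if_neg hne]
    refine ⟨Algebra.norm F h, hN h haff, ?_⟩
    rw [Q.adicValuation_eq_exp_neg_ord (Algebra.norm_ne_zero_iff.mpr h0), h1]
  -- separating functions
  have hs : ∀ (T : Finset (Place K F)) (Q : Place K F), (∀ Q' ∈ T, Q'.adicValuation x ≤ 1) →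
      Q ∈ T → ∃ s ∈ S, Q.adicValuation s = 1 ∧ ∀ Q' ∈ T, Q' ≠ Q → Q'.adicValuation s < 1 := by
    intro T Q hTx hQT
    have hb : ∀ Q' ∈ T, ∃ b : K, Q'.adicValuation (x - algebraMap K F b) < 1 := fun Q' hQ' =>
      exists_const_sub_lt_one Q' (hTx Q' hQ')
    choose! b hb using hb
    obtain ⟨h, h0, haff, hord⟩ := exists_order hx' (T.image b)
      (fun w => if w.restrict F = Q then 0 else 1)
    have hw : ∀ Q' ∈ T, ∀ w : Place K F', w.restrict F = Q' →
        w.ord h = if Q' = Q then 0 else 1 := by
      intro Q' hQ' w hw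
      rw [hord w ⟨b Q', Finset.mem_image_of_mem b hQ', habove Q' w _ hw (hb Q' hQ')⟩, hw]
      split_ifs <;> rfl
    refine ⟨Algebra.norm F h, hN h haff, ?_, ?_⟩
    · apply norm_eq_one
      intro w hw'
      rw [w.adicValuation_eq_exp_neg_ord h0, hw Q hQT w hw', if_pos rfl, neg_zero, exp_zero]
    · intro Q' hQ' hne
      obtain ⟨w, hw'⟩ := exists_restrict_eq (F' := F') Q'
      apply (norm_aux Q' w hw' (h := h) ?_).2
      · rw [w.adicValuation_eq_exp_neg_ord h0, hw Q' hQ' w hw', if_neg hne, ← exp_zero, exp_lt_exp]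
        norm_num
      · intro w' hw''
        rw [w'.adicValuation_eq_exp_neg_ord h0, hw Q' hQ' w' hw'', if_neg hne, ← exp_zero,
          exp_le_exp]
        norm_num
  -- the conductor
  obtain ⟨c, hc0, hcaff, hcS⟩ : ∃ c : F, c ≠ 0 ∧ c ∈ aff K x ∧ ∀ g ∈ aff K x, c * g ∈ S := by
    obtain ⟨θ, hθ⟩ : ∃ θ : F', Algebra.trace F F' θ ≠ 0 := by
      by_contra hcon
      push Not at hcon
      exact Algebra.trace_ne_zero F F' (LinearMap.ext hcon)
    have hθ0 : θ ≠ 0 := by rintro rfl; exact hθ (map_zero _)
    -- multiply by a polynomial in `x`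
    obtain ⟨p, hp0, hpθ⟩ : ∃ p : F, p ≠ 0 ∧ θ * algebraMap F F' p ∈ aff K (algebraMap F F' x) := by
      obtain ⟨W, hW⟩ : ∃ W : Finset (Place K F'), ∀ w, w ∈ W ↔
          (w.adicValuation (algebraMap F F' x) ≤ 1 ∧ 1 < w.adicValuation θ) := by
        have hfin : {w : Place K F' | w.adicValuation (algebraMap F F' x) ≤ 1 ∧
            1 < w.adicValuation θ}.Finite := by
          apply (finite_support_ord hθ0).subset
          intro w hw
          rw [Function.mem_support]
          intro h0
          have h1 := hw.2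
          rw [w.adicValuation_eq_exp_neg_ord hθ0, h0, neg_zero, exp_zero] at h1
          exact lt_irrefl _ h1
        exact ⟨hfin.toFinset, fun w => by simp⟩
      have hc : ∀ w ∈ W, ∃ c : K, w.adicValuation (algebraMap F F' x - algebraMap K F' c) < 1 :=
        fun w hw => exists_const_sub_lt_one w ((hW w).mp hw).1
      choose! c hc using hc
      refine ⟨∏ w ∈ W, (x - algebraMap K F (c w)) ^ (-(w.ord θ)).toNat,
        Finset.prod_ne_zero_iff.mpr fun w _ => pow_ne_zero _ (sub_const_ne_zero hx _), ?_⟩
      intro v hv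
      have hple : ∀ d : K, v.adicValuation (algebraMap F F' x - algebraMap K F' d) ≤ 1 := fun d =>
        (Valuation.map_sub _ _ _).trans (max_le hv (v.adicValuation_algebraMap_le_one d))
      rw [map_mul, map_prod]
      simp only [map_pow, map_sub, ← IsScalarTower.algebraMap_apply K F F']
      rw [map_prod]
      by_cases hvW : v ∈ W
      · rw [← Finset.mul_prod_erase W _ hvW]
        have h1 : ∏ w ∈ W.erase v, v.adicValuation ((algebraMap F F' x - algebraMap K F' (c w)) ^
            (-(w.ord θ)).toNat) ≤ 1 := Finset.prod_le_one' fun w _ => by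
          rw [map_pow]; exact pow_le_one' (hple _) _
        have h2 : v.adicValuation ((algebraMap F F' x - algebraMap K F' (c v)) ^ (-(v.ord θ)).toNat)
            ≤ exp (v.ord θ) := by
          rw [map_pow]
          refine (pow_le_pow_left' (adicValuation_le_exp_neg_one (hc v hvW)) _).trans ?_
          rw [← exp_nsmul, exp_le_exp]
          simp only [nsmul_eq_mul]
          have := Int.self_le_toNat (-(v.ord θ))
          linarith
        have h3 : v.adicValuation θ = exp (-(v.ord θ)) := v.adicValuation_eq_exp_neg_ord hθ0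
        rw [h3, ← mul_assoc]
        refine mul_le_one' ?_ h1
        calc exp (-(v.ord θ)) * v.adicValuation ((algebraMap F F' x - algebraMap K F' (c v)) ^
              (-(v.ord θ)).toNat)
            ≤ exp (-(v.ord θ)) * exp (v.ord θ) := by gcongr
          _ = 1 := by rw [← exp_add, neg_add_cancel, exp_zero]
      · have h1 : v.adicValuation θ ≤ 1 := by
          by_contra hcon
          push Not at hcon
          exact hvW ((hW v).mpr ⟨hv, hcon⟩)
        exact mul_le_one' h1 (Finset.prod_le_one' fun w _ => by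
          rw [map_pow]; exact pow_le_one' (hple _) _)
    have htr : ∀ g : F, Algebra.trace F F' (θ * algebraMap F F' p * algebraMap F F' g) =
        p * Algebra.trace F F' θ * g := by
      intro g
      rw [mul_assoc, ← map_mul, mul_comm, ← Algebra.smul_def, map_smul, smul_eq_mul]
      ring
    refine ⟨p * Algebra.trace F F' θ, mul_ne_zero hp0 hθ, ?_, ?_⟩
    · apply hS
      have := hT _ hpθ
      rwa [show θ * algebraMap F F' p = θ * algebraMap F F' p * algebraMap F F' 1 by
        rw [map_one, mul_one], htr, mul_one] at this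
    · intro g hg
      rw [← htr]
      apply hT
      apply (aff K (algebraMap F F' x)).mul_mem hpθ
      intro w hw
      rw [← restrict_le_one_iff] at hw ⊢
      exact hg _ hw
  -- zeros of the conductor
  obtain ⟨T, hTdef⟩ : ∃ T : Finset (Place K F), ∀ w, w ∈ T ↔
      (w.adicValuation x ≤ 1 ∧ w.adicValuation c < 1) := by
    have hfin : {w : Place K F | w.adicValuation x ≤ 1 ∧ w.adicValuation c < 1}.Finite := by
      apply (finite_support_ord hc0).subset
      intro w hw
      rw [Function.mem_support]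
      intro h0
      have h1 := hw.2
      rw [w.adicValuation_eq_exp_neg_ord hc0, h0, neg_zero, exp_zero] at h1
      exact lt_irrefl _ h1
    exact ⟨hfin.toFinset, fun w => by simp⟩
  have hTx : ∀ Q ∈ T, Q.adicValuation x ≤ 1 := fun Q hQ => ((hTdef Q).mp hQ).1
  have hu' : ∀ Q ∈ T, ∃ u ∈ S, Q.adicValuation u = exp (-1) := fun Q hQ => hu Q (hTx Q hQ)
  have hs' : ∀ Q ∈ T, ∃ s ∈ S, Q.adicValuation s = 1 ∧
      ∀ Q' ∈ T, Q' ≠ Q → Q'.adicValuation s < 1 := fun Q hQ => hs T Q hTx hQ
  choose! u huS hu1 using hu'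
  choose! s hsS hs1 hs2 using hs'
  have approx : ∀ m : ℕ, ∃ g ∈ S, ∀ Q ∈ T, Q.adicValuation (f - g) ≤ exp (-(m : ℤ)) := by
    intro m
    induction m with
    | zero =>
      refine ⟨0, S.zero_mem, fun Q hQ => ?_⟩
      rw [sub_zero]
      simpa using hf Q (hTx Q hQ)
    | succ m ih =>
      obtain ⟨g, hg, hgQ⟩ := ih
      have hpval : ∀ Q ∈ T, Q.adicValuation (u Q ^ m * s Q ^ (m + 1)) = exp (-(m : ℤ)) := by
        intro Q hQ
        rw [map_mul, map_pow, map_pow, hu1 Q hQ, hs1 Q hQ, one_pow, mul_one, ← exp_nsmul]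
        congr 1
        simp
      have hp0 : ∀ Q ∈ T, u Q ^ m * s Q ^ (m + 1) ≠ 0 := by
        intro Q hQ h0
        have := hpval Q hQ
        rw [h0, map_zero] at this
        exact absurd this.symm (by simp)
      have ha : ∀ Q ∈ T, ∃ a : K, Q.adicValuation
          ((f - g) / (u Q ^ m * s Q ^ (m + 1)) - algebraMap K F a) < 1 := by
        intro Q hQ
        apply exists_const_sub_lt_one
        rw [map_div₀, hpval Q hQ]
        exact div_le_one_of_le₀ (hgQ Q hQ) zero_le
      choose! a ha using ha
      refine ⟨g + ∑ Q ∈ T, algebraMap K F (a Q) * (u Q ^ m * s Q ^ (m + 1)),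
        S.add_mem hg (S.sum_mem fun Q hQ => S.mul_mem (hconst _)
          (S.mul_mem (S.pow_mem (huS Q hQ) _) (S.pow_mem (hsS Q hQ) _))), fun Q hQ => ?_⟩
      rw [← Finset.add_sum_erase T _ hQ, ← sub_sub, ← sub_sub, ]
      refine (Valuation.map_sub _ _ _).trans (max_le ?_ ?_)
      · have h1 : f - g - algebraMap K F (a Q) * (u Q ^ m * s Q ^ (m + 1)) =
            ((f - g) / (u Q ^ m * s Q ^ (m + 1)) - algebraMap K F (a Q)) *
              (u Q ^ m * s Q ^ (m + 1)) := by
          rw [sub_mul, div_mul_cancel₀ _ (hp0 Q hQ)]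
        rw [h1, map_mul, hpval Q hQ]
        calc _ ≤ exp (-1) * exp (-(m : ℤ)) := by
              gcongr; exact adicValuation_le_exp_neg_one (ha Q hQ)
          _ = _ := by rw [← exp_add]; congr 1; push_cast; ring
      · refine Valuation.map_sum_le _ fun Q' hQ' => ?_
        obtain ⟨hne, hQ'T⟩ := Finset.mem_erase.mp hQ'
        rw [map_mul, map_mul, map_pow, map_pow]
        have h1 := Q.adicValuation_algebraMap_le_one (a Q')
        have h2 : Q.adicValuation (u Q') ^ m ≤ 1 := pow_le_one' (hS _ (huS Q' hQ'T) Q (hTx Q hQ)) m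
        have h3 : Q.adicValuation (s Q') ^ (m + 1) ≤ exp (-((m + 1 : ℕ) : ℤ)) := by
          refine (pow_le_pow_left' (adicValuation_le_exp_neg_one (hs2 Q' hQ'T Q hQ
            (Ne.symm hne))) _).trans ?_
          rw [← exp_nsmul]
          apply le_of_eq
          congr 1
          simp
        calc _ ≤ 1 * (1 * exp (-((m + 1 : ℕ) : ℤ))) := by gcongr
          _ = _ := by rw [one_mul, one_mul]
  obtain ⟨m, hm⟩ : ∃ m : ℕ, ∀ Q ∈ T, Q.ord c ≤ m := by
    refine ⟨∑ Q ∈ T, (Q.ord c).toNat, fun Q hQ => ?_⟩
    have h1 := Int.self_le_toNat (Q.ord c)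
    have h2 : (Q.ord c).toNat ≤ ∑ Q ∈ T, (Q.ord c).toNat :=
      Finset.single_le_sum (f := fun Q : Place K F => (Q.ord c).toNat) (fun _ _ => Nat.zero_le _) hQ
    exact h1.trans (Int.ofNat_le.mpr h2)
  obtain ⟨g, hg, hgQ⟩ := approx m
  have h1 : c * ((f - g) / c) ∈ S := by
    apply hcS
    intro Q hQ
    rw [map_div₀]
    by_cases hQT : Q ∈ T
    · have h2 := hgQ Q hQT
      have h3 : exp (-(m : ℤ)) ≤ Q.adicValuation c := by
        rw [Q.adicValuation_eq_exp_neg_ord hc0, exp_le_exp]
        have := hm Q hQT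
        omega
      exact div_le_one_of_le₀ (h2.trans h3) zero_le
    · have h2 : Q.adicValuation c = 1 := by
        apply le_antisymm (hcaff Q hQ)
        by_contra hcon
        push Not at hcon
        exact hQT ((hTdef Q).mpr ⟨hQ, hcon⟩)
      rw [h2, div_one]
      exact (Valuation.map_sub _ _ _).trans (max_le (hf Q hQ) (hS g hg Q hQ))
  rw [mul_div_cancel₀ _ hc0] at h1
  have h2 := S.add_mem h1 hg
  rwa [sub_add_cancel] at h2

end NT

end Fermat.Agent.H88
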