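/-
H88: descent of genus equality (good reduction) along finite covers.
-/
import Mathlib
import Fermat.Agent.H88NT
import Fermat.Agent.H88Compat
import Fermat.Agent.H88Trace

set_option autoImplicit false

open AlgebraicCurve WithZero Polynomial IntermediateField Fermat.Agent.H3RR Fermat.Agent.H40

namespace Fermat.Agent.H88

section Aux

variable {K F : Type*} [Field K] [Field F] [Algebra K F]

theorem exp_poleDiv [IsAlgClosed K] [IsFF K F] {x : F} (hx : x ≠ 0) (m : ℕ) (v : Place K F) :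
    exp ((m • (poleDiv x : Divisor K F)) v) = max 1 (v.adicValuation x) ^ m := by
  rw [Finsupp.smul_apply, exp_nsmul]
  congr 1
  rcases le_or_gt (v.adicValuation x) 1 with h | h
  · rw [max_eq_left h, poleDiv_eq_zero_of_le_one hx h, exp_zero]
  · rw [max_eq_right h.le, poleDiv_of_one_lt hx h]

theorem mem_L_pole [IsAlgClosed K] [IsFF K F] {x : F} (hx : x ≠ 0) {m : ℕ} {f : F} :
    f ∈ riemannRochSpace (m • (poleDiv x : Divisor K F)) ↔
      ∀ v : Place K F, v.adicValuation f ≤ max 1 (v.adicValuation x) ^ m := by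
  rw [mem_L_iff]
  exact forall_congr' fun v => by rw [exp_poleDiv hx]

theorem exists_mem_L [IsAlgClosed K] [IsFF K F] {x f : F} (hx : x ≠ 0) (hf : f ∈ aff K x) :
    ∃ m₀ : ℕ, ∀ m ≥ m₀, f ∈ riemannRochSpace (m • (poleDiv x : Divisor K F)) := by
  classical
  by_cases hf0 : f = 0
  · exact ⟨0, fun m _ => by rw [hf0]; exact Submodule.zero_mem _⟩
  obtain ⟨W, hW⟩ : ∃ W : Finset (Place K F), ∀ v, v ∈ W ↔ v.ord f ≠ 0 :=
    ⟨(finite_support_ord hf0).toFinset, fun v => by simp⟩
  refine ⟨∑ v ∈ W, (-(v.ord f)).toNat, fun m hm => ?_⟩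
  rw [mem_L_pole hx]
  intro v
  rcases le_or_gt (v.adicValuation x) 1 with h | h
  · rw [max_eq_left h, one_pow]; exact hf v h
  · rw [max_eq_right h.le]
    have h1 : exp 1 ≤ v.adicValuation x := by
      rw [v.adicValuation_eq_exp_neg_ord hx] at h ⊢
      rw [← exp_zero, exp_lt_exp] at h
      rw [exp_le_exp]; omega
    have h2 : v.adicValuation f ≤ exp (m : ℤ) := by
      rw [v.adicValuation_eq_exp_neg_ord hf0, exp_le_exp]
      by_cases hvW : v ∈ W
      · have h3 := Int.self_le_toNat (-(v.ord f))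
        have h4 : (-(v.ord f)).toNat ≤ ∑ v ∈ W, (-(v.ord f)).toNat :=
          Finset.single_le_sum (f := fun v : Place K F => (-(v.ord f)).toNat)
            (fun _ _ => Nat.zero_le _) hvW
        exact h3.trans (Int.ofNat_le.mpr (h4.trans hm))
      · rw [hW] at hvW
        push Not at hvW
        rw [hvW]; omega
    refine h2.trans ?_
    calc exp (m : ℤ) = exp 1 ^ m := by rw [← exp_nsmul]; simp
      _ ≤ _ := pow_le_pow_left' h1 m

theorem L_pole_le_aff [IsAlgClosed K] [IsFF K F] {x f : F} (hx : x ≠ 0) {m : ℕ}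
    (hf : f ∈ riemannRochSpace (m • (poleDiv x : Divisor K F))) : f ∈ aff K x := by
  intro v hv
  have := (mem_L_pole hx).mp hf v
  rwa [max_eq_left hv, one_pow] at this

/-- multiplication by `x`. -/
theorem mul_mem_L_pole [IsAlgClosed K] [IsFF K F] {x f : F} (hx : x ≠ 0) {m : ℕ}
    (hf : f ∈ riemannRochSpace (m • (poleDiv x : Divisor K F))) :
    x * f ∈ riemannRochSpace ((m + 1) • (poleDiv x : Divisor K F)) := by
  rw [mem_L_pole hx] at hf ⊢
  intro v
  rw [map_mul, pow_succ, mul_comm]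
  exact mul_le_mul' (hf v) (le_max_right _ _)

theorem L_pole_mono [IsAlgClosed K] [IsFF K F] {x : F} (hx : x ≠ 0) {m n : ℕ} (h : m ≤ n) :
    riemannRochSpace (m • (poleDiv x : Divisor K F)) ≤
      riemannRochSpace (n • (poleDiv x : Divisor K F)) := by
  intro f hf
  rw [mem_L_pole hx] at hf ⊢
  intro v
  exact (hf v).trans (pow_le_pow_right' (le_max_left _ _) h)

/-- dimension of `L(m (x)_∞)` -/
theorem ell_pole [IsAlgClosed K] [IsFF K F] {x : F} (hx : Transcendental K x) {m : ℕ}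
    (hm : 2 * genusFF K F ≤ m) :
    (ell (m • (poleDiv x : Divisor K F)) : ℤ) =
      m * Module.finrank K⟮x⟯ F + 1 - genusFF K F := by
  have hfd := IsFF.finiteDimensional hx
  have hn : 0 < Module.finrank K⟮x⟯ F := Module.finrank_pos
  have h1 : Divisor.degree (m • (poleDiv x : Divisor K F)) = m * Module.finrank K⟮x⟯ F := by
    rw [map_nsmul, degree_poleDiv hx, nsmul_eq_mul]
  rw [ell_of_degree_gt, h1]
  rw [h1]
  have h2 : (m : ℤ) * 1 ≤ m * Module.finrank K⟮x⟯ F :=
    mul_le_mul_of_nonneg_left (by exact_mod_cast hn) (by positivity)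
  have h3 : (2 * genusFF K F : ℤ) ≤ m := by exact_mod_cast hm
  omega

/-- `L((m+1) P) = L(m P) + x L(m P)` for large `m`, `P` the pole divisor of `x`. -/
theorem L_pole_succ [IsAlgClosed K] [IsFF K F] {x : F} (hx : Transcendental K x) {m : ℕ}
    (hm : 2 * genusFF K F + 1 ≤ m) {f : F}
    (hf : f ∈ riemannRochSpace ((m + 1) • (poleDiv x : Divisor K F))) :
    ∃ a ∈ riemannRochSpace (m • (poleDiv x : Divisor K F)),
      ∃ b ∈ riemannRochSpace (m • (poleDiv x : Divisor K F)), f = a + x * b := by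
  classical
  have hx0 := transcendental_ne_zero hx
  obtain ⟨m, rfl⟩ : ∃ m', m = m' + 1 := ⟨m - 1, by omega⟩
  have hfin : ∀ n : ℕ, Module.Finite K (riemannRochSpace (n • (poleDiv x : Divisor K F))) :=
    fun n => finite_L _
  set V : ℕ → Submodule K F := fun n => riemannRochSpace (n • (poleDiv x : Divisor K F)) with hV
  have hVfin : ∀ n : ℕ, Module.Finite K (V n) := hfin
  let μ : F →ₗ[K] F := LinearMap.mulLeft K x
  have hμ : Function.Injective μ := fun a b h => mul_left_cancel₀ hx0 h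
  have hfr : ∀ n, Module.finrank K ((V n).map μ) = Module.finrank K (V n) := fun n =>
    (Submodule.equivMapOfInjective μ hμ (V n)).finrank_eq.symm
  have hmapfin : ∀ n, Module.Finite K ((V n).map μ) := fun n => inferInstance
  have hinf : V (m + 1) ⊓ (V (m + 1)).map μ ≤ (V m).map μ := by
    rintro _ ⟨h1, ⟨b, hb, rfl⟩⟩
    refine ⟨b, ?_, rfl⟩
    show b ∈ riemannRochSpace (m • (poleDiv x : Divisor K F))
    replace h1 : x * b ∈ riemannRochSpace ((m + 1) • (poleDiv x : Divisor K F)) := h1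
    replace hb : b ∈ riemannRochSpace ((m + 1) • (poleDiv x : Divisor K F)) := hb
    rw [mem_L_pole hx0] at h1 hb ⊢
    intro v
    rcases le_or_gt (v.adicValuation x) 1 with h | h
    · have := hb v
      rwa [max_eq_left h, one_pow] at this ⊢
    · have h2 := h1 v
      rw [max_eq_right h.le] at h2 ⊢
      rw [map_mul, pow_succ, mul_comm] at h2
      exact le_of_mul_le_mul_right h2 (zero_lt_one.trans h)
  have hsup : V (m + 1) ⊔ (V (m + 1)).map μ ≤ V (m + 2) := by
    rw [sup_le_iff]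
    constructor
    · exact L_pole_mono hx0 (by omega)
    · rintro _ ⟨b, hb, rfl⟩
      exact mul_mem_L_pole hx0 hb
  have h1 := Submodule.finrank_sup_add_finrank_inf_eq (V (m + 1)) ((V (m + 1)).map μ)
  have h2 := Submodule.finrank_mono hinf
  rw [hfr] at h1 h2
  have e1 : (Module.finrank K (V (m + 1)) : ℤ) = _ := ell_pole hx (m := m + 1) (by omega)
  have e2 : (Module.finrank K (V m) : ℤ) = _ := ell_pole hx (m := m) (by omega)
  have e3 : (Module.finrank K (V (m + 2)) : ℤ) = _ := ell_pole hx (m := m + 2) (by omega)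
  have h3 : V (m + 1) ⊔ (V (m + 1)).map μ = V (m + 2) := by
    apply Submodule.eq_of_le_of_finrank_le hsup
    have h4 : (Module.finrank K (V (m + 2)) : ℤ) ≤
        (Module.finrank K ((V (m + 1) ⊔ (V (m + 1)).map μ : Submodule K F)) : ℤ) := by
      have h5 : (Module.finrank K ((V (m + 1) ⊔ (V (m + 1)).map μ : Submodule K F)) : ℤ) =
          2 * Module.finrank K (V (m + 1)) -
            Module.finrank K ((V (m + 1) ⊓ (V (m + 1)).map μ : Submodule K F)) := by
        have : (Module.finrank K ((V (m + 1) ⊔ (V (m + 1)).map μ : Submodule K F)) : ℤ) +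
            Module.finrank K ((V (m + 1) ⊓ (V (m + 1)).map μ : Submodule K F)) =
            Module.finrank K (V (m + 1)) + Module.finrank K (V (m + 1)) := by exact_mod_cast h1
        omega
      have h6 : (Module.finrank K ((V (m + 1) ⊓ (V (m + 1)).map μ : Submodule K F)) : ℤ) ≤
        Module.finrank K (V m) := by exact_mod_cast h2
      rw [h5, e3]
      rw [e2] at h6
      rw [e1]
      push_cast at *
      linarith
    exact_mod_cast h4
  have hf' : f ∈ V (m + 1) ⊔ (V (m + 1)).map μ := by rw [h3]; exact hf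
  obtain ⟨a, ha, _, ⟨b, hb, rfl⟩, rfl⟩ := Submodule.mem_sup.mp hf'
  exact ⟨a, ha, b, hb, rfl⟩

/-- generation of `L((m₀+N) P)` by `x^i L(m₀ P)` -/
theorem L_pole_gen [IsAlgClosed K] [IsFF K F] {x : F} (hx : Transcendental K x) {m₀ : ℕ}
    (hm : 2 * genusFF K F + 1 ≤ m₀) (N : ℕ) (W : Submodule K F)
    (hW : ∀ i ≤ N, ∀ e ∈ riemannRochSpace (m₀ • (poleDiv x : Divisor K F)), x ^ i * e ∈ W) :
    riemannRochSpace ((m₀ + N) • (poleDiv x : Divisor K F)) ≤ W := by
  induction N generalizing W with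
  | zero =>
    intro e he
    have := hW 0 le_rfl e (by simpa using he)
    simpa using this
  | succ N ih =>
    intro f hf
    obtain ⟨a, ha, b, hb, rfl⟩ := L_pole_succ hx (m := m₀ + N) (by omega) hf
    apply W.add_mem
    · exact ih W (fun i hi e he => hW i (by omega) e he) ha
    · have h1 := ih (W.comap (LinearMap.mulLeft K x)) (fun i hi e he => by
        rw [Submodule.mem_comap, LinearMap.mulLeft_apply, ← mul_assoc, ← pow_succ']
        exact hW (i + 1) (by omega) e he) hb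
      rwa [Submodule.mem_comap, LinearMap.mulLeft_apply] at h1

end Aux

section Trace

variable {K F F' : Type*} [Field K] [Field F] [Field F'] [Algebra K F] [Algebra K F']
  [Algebra F F'] [IsScalarTower K F F'] [Module.Finite F F'] [IsFF K F'] [IsFF K F] [IsAlgClosed K]

omit [IsFF K F] [IsAlgClosed K] in
theorem trace_le_one [Algebra.IsSeparable F F'] (v : Place K F) {h : F'}
    (hh : ∀ w : Place K F', w.restrict F = v → w.adicValuation h ≤ 1) :
    v.adicValuation (Algebra.trace F F' h) ≤ 1 := by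
  obtain ⟨ϖ, -, hϖ⟩ := adicValuation_surjective_exp v (-1)
  have h1 : v.adicValuation (Algebra.trace F F' (algebraMap F F' ϖ * h)) < 1 := by
    apply trace_lt_one v
    intro w hw
    have hwv : w.restrict F = v := by
      apply Place.ext
      ext e
      rw [Place.mem_restrict_iff]
      exact (hw e).symm
    have h2 : w.adicValuation (algebraMap F F' ϖ) < 1 := by
      rw [← restrict_lt_one_iff, hwv, hϖ, ← exp_zero, exp_lt_exp]
      norm_num
    rw [map_mul]
    calc _ ≤ w.adicValuation (algebraMap F F' ϖ) * 1 := by gcongr; exact hh w hwv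
      _ < 1 := by rwa [mul_one]
  rw [← Algebra.smul_def, map_smul, smul_eq_mul, map_mul, hϖ] at h1
  by_cases h0 : Algebra.trace F F' h = 0
  · rw [h0, map_zero]; exact zero_le
  rw [v.adicValuation_eq_exp_neg_ord h0, ← exp_add, ← exp_zero, exp_lt_exp] at h1
  rw [v.adicValuation_eq_exp_neg_ord h0, ← exp_zero, exp_le_exp]
  omega

end Trace

section Descent

variable {K F k E : Type*} [Field K] [Field F] [Algebra K F] [Field k] [Field E] [Algebra k E]
  [IsAlgClosed K] [IsAlgClosed k] [IsFF K F] [IsFF k E] (R : ReductionData K F k E)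
variable [CharZero K]

theorem red_eq {x : R.B} (hx : Transcendental k (R.ρ x))
    (hdeg : Module.finrank K⟮(x : F)⟯ F = Module.finrank k⟮R.ρ x⟯ E)
    (hg : genusFF K F = genusFF k E) {m : ℕ} (hm : 2 * genusFF K F ≤ m) :
    R.red (riemannRochSpace (m • (poleDiv (x : F) : Divisor K F))) =
      riemannRochSpace (m • (poleDiv (R.ρ x) : Divisor k E)) := by
  have hxK := R.transcendental_of_ρ hx
  have h1 := red_le R hx hdeg m
  have hfin : Module.Finite K (riemannRochSpace (m • (poleDiv (x : F) : Divisor K F))) := finite_L _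
  have hfin' : Module.Finite k (riemannRochSpace (m • (poleDiv (R.ρ x) : Divisor k E))) := finite_L _
  apply Submodule.eq_of_le_of_finrank_le h1
  rw [(R.finrank_red (riemannRochSpace (m • (poleDiv (x : F) : Divisor K F)))).2]
  have e1 := ell_pole hxK hm
  have e2 := ell_pole hx (m := m) (by rwa [← hg])
  rw [← hg, ← hdeg, ← e1] at e2
  rw [ell, ell] at e2
  exact_mod_cast e2.le

theorem exists_lift {x : R.B} (hx : Transcendental k (R.ρ x))
    (hdeg : Module.finrank K⟮(x : F)⟯ F = Module.finrank k⟮R.ρ x⟯ E)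
    (hg : genusFF K F = genusFF k E) {e : E} (he : e ∈ aff k (R.ρ x)) :
    ∃ b : R.B, R.ρ b = e ∧ (b : F) ∈ aff K (x : F) := by
  have hxK := R.transcendental_of_ρ hx
  obtain ⟨m₀, hm₀⟩ := exists_mem_L (transcendental_ne_zero hx) he
  have h1 := hm₀ (max m₀ (2 * genusFF K F)) (le_max_left _ _)
  rw [← red_eq R hx hdeg hg (le_max_right _ _)] at h1
  obtain ⟨b, hb, hbe⟩ := h1
  exact ⟨b, hbe, L_pole_le_aff (transcendental_ne_zero hxK) hb⟩

theorem ρ_mem_aff {x : R.B} (hx : Transcendental k (R.ρ x))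
    (hdeg : Module.finrank K⟮(x : F)⟯ F = Module.finrank k⟮R.ρ x⟯ E) {b : R.B}
    (hb : (b : F) ∈ aff K (x : F)) : R.ρ b ∈ aff k (R.ρ x) := by
  have hxK := R.transcendental_of_ρ hx
  obtain ⟨m₀, hm₀⟩ := exists_mem_L (transcendental_ne_zero hxK) hb
  exact L_pole_le_aff (transcendental_ne_zero hx) (red_le R hx hdeg m₀ ⟨b, hm₀ m₀ le_rfl, rfl⟩)

variable {R}

/-- **Two charts**: if all affine functions lift in the charts of `x` and `1/x` then the genus
is preserved. -/
theorem genus_eq_of_charts {x y : R.B} (hx : Transcendental k (R.ρ x)) (hxy : x * y = 1)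
    (hdeg : Module.finrank K⟮(x : F)⟯ F = Module.finrank k⟮R.ρ x⟯ E)
    (h1 : ∀ e ∈ aff k (R.ρ x), ∃ b : R.B, R.ρ b = e ∧ (b : F) ∈ aff K (x : F))
    (h2 : ∀ e ∈ aff k (R.ρ y), ∃ b : R.B, R.ρ b = e ∧ (b : F) ∈ aff K (y : F)) :
    genusFF K F = genusFF k E := by
  classical
  have hxK := R.transcendental_of_ρ hx
  have hx0 := transcendental_ne_zero hx
  have hxK0 := transcendental_ne_zero hxK
  have hyF : (y : F) = (x : F)⁻¹ := by
    have h3 : (x : F) * (y : F) = 1 := congrArg Subtype.val hxy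
    exact eq_inv_of_mul_eq_one_right h3
  have hyE : R.ρ y = (R.ρ x)⁻¹ := by
    have h3 : R.ρ x * R.ρ y = 1 := by rw [← map_mul, hxy, map_one]
    exact eq_inv_of_mul_eq_one_right h3
  have hyK0 : (y : F) ≠ 0 := by rw [hyF]; exact inv_ne_zero hxK0
  set M : ℕ → Submodule k E := fun m =>
    R.red (riemannRochSpace (m • (poleDiv (x : F) : Divisor K F))) with hM
  set V : ℕ → Submodule k E := fun m =>
    riemannRochSpace (m • (poleDiv (R.ρ x) : Divisor k E)) with hV
  have hMmono : ∀ m n, m ≤ n → M m ≤ M n := fun m n h => R.red_mono (L_pole_mono hxK0 h)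
  have hMmul : ∀ i m, ∀ e ∈ M m, R.ρ x ^ i * e ∈ M (m + i) := by
    intro i
    induction i with
    | zero => intro m e he; simpa using he
    | succ i ih =>
      intro m e he
      obtain ⟨b, hb, hbe⟩ := ih m e he
      refine ⟨x * b, ?_, by rw [map_mul, hbe, pow_succ']; ring⟩
      exact mul_mem_L_pole hxK0 hb
  have hlift1 : ∀ m, ∀ e ∈ V m, ∃ N₀ : ℕ, ∀ N ≥ N₀, e ∈ M N := by
    intro m e he
    obtain ⟨b, hbe, hb⟩ := h1 e (L_pole_le_aff hx0 he)
    obtain ⟨m₀, hm₀⟩ := exists_mem_L hxK0 hb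
    exact ⟨m₀, fun N hN => ⟨b, hm₀ N hN, hbe⟩⟩
  have hlift2 : ∀ m, ∀ e ∈ V m, ∃ N₀ : ℕ, ∀ N ≥ N₀, R.ρ x ^ N * e ∈ M (m + N) := by
    intro m e he
    have he' : e * (R.ρ y) ^ m ∈ aff k (R.ρ y) := by
      intro v hv
      have h3 := (mem_L_pole hx0).mp he v
      rw [map_mul, map_pow]
      rw [hyE, map_inv₀] at hv ⊢
      have h4 : v.adicValuation (R.ρ x) ≠ 0 := v.adicValuation_ne_zero hx0
      have h5 : 1 ≤ v.adicValuation (R.ρ x) := (inv_le_one₀ (zero_lt_iff.mpr h4)).mp hv
      rw [max_eq_right h5] at h3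
      calc _ ≤ v.adicValuation (R.ρ x) ^ m * (v.adicValuation (R.ρ x))⁻¹ ^ m := by gcongr
        _ = 1 := by rw [← mul_pow, mul_inv_cancel₀ h4, one_pow]
    obtain ⟨b, hbe, hb⟩ := h2 _ he'
    obtain ⟨m₀, hm₀⟩ := exists_mem_L hyK0 hb
    refine ⟨m₀, fun N hN => ⟨x ^ (m + N) * b, ?_, ?_⟩⟩
    · have h3 := (mem_L_pole hyK0).mp (hm₀ (m + N) (by omega))
      show ((x ^ (m + N) * b : R.B) : F) ∈ _
      rw [mem_L_pole hxK0]
      intro v
      have h4 : v.adicValuation (x : F) ≠ 0 := v.adicValuation_ne_zero hxK0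
      rw [Subring.coe_mul, SubmonoidClass.coe_pow, map_mul, map_pow]
      have h5 := h3 v
      rw [hyF, map_inv₀] at h5
      calc _ ≤ v.adicValuation (x : F) ^ (m + N) * max 1 (v.adicValuation (x : F))⁻¹ ^ (m + N) := by
            gcongr
        _ = max 1 (v.adicValuation (x : F)) ^ (m + N) := by
          rw [← mul_pow]
          congr 1
          rcases le_total (v.adicValuation (x : F)) 1 with h | h
          · rw [max_eq_left h, max_eq_right ((one_le_inv₀ (zero_lt_iff.mpr h4)).mpr h),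
              mul_inv_cancel₀ h4]
          · rw [max_eq_right h, max_eq_left ((inv_le_one₀ (zero_lt_iff.mpr h4)).mpr h), mul_one]
    · rw [map_mul, map_pow, hbe, hyE, pow_add]
      have : R.ρ x ^ m * (R.ρ x)⁻¹ ^ m = 1 := by rw [← mul_pow, mul_inv_cancel₀ hx0, one_pow]
      calc R.ρ x ^ m * R.ρ x ^ N * (e * (R.ρ x)⁻¹ ^ m) =
          R.ρ x ^ N * e * (R.ρ x ^ m * (R.ρ x)⁻¹ ^ m) := by ring
        _ = _ := by rw [this, mul_one]
  -- uniform bound
  obtain ⟨m₀, hm₀⟩ : ∃ m₀ : ℕ, m₀ = 2 * genusFF K F + 2 * genusFF k E + 1 := ⟨_, rfl⟩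
  have hVfin : Module.Finite k (V m₀) := finite_L _
  obtain ⟨s, hs⟩ := (Submodule.fg_iff_finiteDimensional (V m₀)).mpr hVfin
  have hsV : ∀ e ∈ s, e ∈ V m₀ := fun e he => by rw [← hs]; exact Submodule.subset_span he
  have hN1 : ∀ e ∈ s, ∃ N₀ : ℕ, ∀ N ≥ N₀, e ∈ M N ∧ R.ρ x ^ N * e ∈ M (m₀ + N) := by
    intro e he
    obtain ⟨a, ha⟩ := hlift1 m₀ e (hsV e he)
    obtain ⟨b, hb⟩ := hlift2 m₀ e (hsV e he)
    exact ⟨max a b, fun N hN => ⟨ha N (le_trans (le_max_left _ _) hN),
      hb N (le_trans (le_max_right _ _) hN)⟩⟩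
  choose! n₀ hn₀ using hN1
  obtain ⟨N₀, hN₀⟩ : ∃ N₀, N₀ = s.sup n₀ := ⟨_, rfl⟩
  have hle : ∀ e ∈ s, n₀ e ≤ N₀ := fun e he => by rw [hN₀]; exact Finset.le_sup he
  have hA : V m₀ ≤ M (m₀ + N₀) := by
    rw [← hs, Submodule.span_le]
    intro e he
    exact (hn₀ e he (m₀ + N₀) ((hle e he).trans (Nat.le_add_left _ _))).1
  have hB : V m₀ ≤ (M (m₀ + N₀)).comap (LinearMap.mulLeft k (R.ρ x ^ N₀)) := by
    rw [← hs, Submodule.span_le]
    intro e he
    exact (hn₀ e he N₀ (hle e he)).2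
  have hC : V (m₀ + 2 * N₀) ≤ M (m₀ + 2 * N₀) := by
    apply L_pole_gen hx (by omega)
    intro i hi e he
    rcases le_total i N₀ with h | h
    · exact hMmono _ _ (by omega) (hMmul i (m₀ + N₀) e (hA he))
    · have h3 : R.ρ x ^ N₀ * e ∈ M (m₀ + N₀) := hB he
      have h4 := hMmul (i - N₀) _ _ h3
      rw [← mul_assoc, ← pow_add, Nat.sub_add_cancel h] at h4
      exact hMmono _ _ (by omega) h4
  have hD : M (m₀ + 2 * N₀) = V (m₀ + 2 * N₀) := le_antisymm (red_le R hx hdeg _) hC
  have hfin : Module.Finite K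
    (riemannRochSpace ((m₀ + 2 * N₀) • (poleDiv (x : F) : Divisor K F))) := finite_L _
  have e0 := (R.finrank_red (riemannRochSpace
    ((m₀ + 2 * N₀) • (poleDiv (x : F) : Divisor K F)))).2
  have e1 := ell_pole hxK (m := m₀ + 2 * N₀) (by omega)
  have e2 := ell_pole hx (m := m₀ + 2 * N₀) (by omega)
  rw [← hdeg] at e2
  have e3 : ell ((m₀ + 2 * N₀) • (poleDiv (R.ρ x) : Divisor k E)) =
      ell ((m₀ + 2 * N₀) • (poleDiv (x : F) : Divisor K F)) := by
    rw [ell, ell, ← e0]
    show Module.finrank k (V (m₀ + 2 * N₀)) = Module.finrank k (M (m₀ + 2 * N₀))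
    rw [hD]
  rw [e3] at e2
  omega

end Descent

section Main

variable {K F F' k E E' : Type*} [Field K] [Field F] [Field F'] [Algebra K F] [Algebra K F']
  [Algebra F F'] [Field k] [Field E] [Field E'] [Algebra k E] [Algebra k E'] [Algebra E E']
  [IsScalarTower K F F'] [IsScalarTower k E E'] [CharZero K]
  [IsAlgClosed K] [IsAlgClosed k] [IsFF K F] [IsFF k E] [IsFF K F'] [IsFF k E']
  [Module.Finite F F'] [Module.Finite E E'] [Algebra.IsSeparable E E']
  {R : ReductionData K F k E} {R' : ReductionData K F' k E'}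

/-- The chart lemma -/
theorem chart (C : RedCompat R R') {x : R.B} (hx : Transcendental k (R.ρ x))
    (hdeg : Module.finrank K⟮(x : F)⟯ F = Module.finrank k⟮R.ρ x⟯ E)
    (hd : Module.finrank F F' = Module.finrank E E') (hg' : genusFF K F' = genusFF k E')
    (e : E) (he : e ∈ aff k (R.ρ x)) : ∃ b : R.B, R.ρ b = e ∧ (b : F) ∈ aff K (x : F) := by
  have : CharZero F := charZero_of_injective_algebraMap (algebraMap K F).injective
  have hx' : Transcendental k (R'.ρ (C.emb x)) := by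
    rw [C.ρ_emb]
    exact (transcendental_algebraMap_iff (algebraMap E E').injective).mpr hx
  have hdeg' : Module.finrank K⟮(C.emb x : F')⟯ F' = Module.finrank k⟮R'.ρ (C.emb x)⟯ E' := by
    rw [C.ρ_emb, C.coe_emb, finrank_adjoin_algebraMap, finrank_adjoin_algebraMap, hdeg, hd]
  let S : Subring E := (((aff K (x : F)).toSubring).comap R.B.subtype).map R.ρ
  have hSmem : ∀ e : E, e ∈ S ↔ ∃ b : R.B, (b : F) ∈ aff K (x : F) ∧ R.ρ b = e := by
    intro e
    rfl
  have hres : ∀ (h : F'), h ∈ aff K (C.emb x : F') → ∀ v : Place K F, v.adicValuation (x : F) ≤ 1 →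
      ∀ w : Place K F', w.restrict F = v → w.adicValuation h ≤ 1 := by
    intro h hh v hv w hw
    apply hh w
    rw [C.coe_emb, ← restrict_le_one_iff, hw]
    exact hv
  have key := nt (F' := E') hx S
    (fun f hf => by
      obtain ⟨b, hb, rfl⟩ := (hSmem f).mp hf
      exact ρ_mem_aff R hx hdeg hb)
    (fun c => by
      obtain ⟨a, rfl⟩ := R.π_surj c
      rw [hSmem]
      exact ⟨R.const a, (aff K (x : F)).algebraMap_mem (a : K), R.ρ_const a⟩)
    (fun h hh => by
      rw [← C.ρ_emb] at hh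
      obtain ⟨h', rfl, hh'⟩ := exists_lift R' hx' hdeg' hg' hh
      obtain ⟨b, hb, hbρ⟩ := (C.norm_trace hd h').1
      rw [hSmem]
      refine ⟨b, ?_, hbρ⟩
      rw [hb]
      intro v hv
      exact norm_le_one v (hres _ hh' v hv))
    (fun h hh => by
      rw [← C.ρ_emb] at hh
      obtain ⟨h', rfl, hh'⟩ := exists_lift R' hx' hdeg' hg' hh
      obtain ⟨b, hb, hbρ⟩ := (C.norm_trace hd h').2
      rw [hSmem]
      refine ⟨b, ?_, hbρ⟩
      rw [hb]
      intro v hv
      exact trace_le_one v (hres _ hh' v hv))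
    e he
  obtain ⟨b, hb, hbe⟩ := (hSmem e).mp key
  exact ⟨b, hbe, hb⟩

/-- **Norm descent of good reduction.** -/
theorem genus_descent (C : RedCompat R R') {x : R.B} (hx : Transcendental k (R.ρ x))
    (hdeg : Module.finrank K⟮(x : F)⟯ F = Module.finrank k⟮R.ρ x⟯ E)
    (hd : Module.finrank F F' = Module.finrank E E') (hg' : genusFF K F' = genusFF k E') :
    genusFF K F = genusFF k E := by
  have hxK := R.transcendental_of_ρ hx
  have hx0 := transcendental_ne_zero hx
  have hxK0 := transcendental_ne_zero hxK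
  have hyB : (x : F)⁻¹ ∈ R.B := by
    apply mem_B_of_mul_mem R hx0
    rw [inv_mul_cancel₀ hxK0]
    exact R.B.one_mem
  obtain ⟨y, hy⟩ : ∃ y : R.B, (y : F) = (x : F)⁻¹ := ⟨⟨_, hyB⟩, rfl⟩
  have hxy : x * y = 1 := by
    apply Subtype.ext
    show (x : F) * (y : F) = 1
    rw [hy, mul_inv_cancel₀ hxK0]
  have hyE : R.ρ y = (R.ρ x)⁻¹ := by
    have h3 : R.ρ x * R.ρ y = 1 := by rw [← map_mul, hxy, map_one]
    exact eq_inv_of_mul_eq_one_right h3
  have hyt : Transcendental k (R.ρ y) := by rw [hyE]; exact transcendental_inv hx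
  have hydeg : Module.finrank K⟮(y : F)⟯ F = Module.finrank k⟮R.ρ y⟯ E := by
    rw [hy, hyE, adjoin_inv, adjoin_inv, hdeg]
  exact genus_eq_of_charts hx hxy hdeg (chart C hx hdeg hd hg') (chart C hyt hydeg hd hg')

end Main

end Fermat.Agent.H88
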