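/-
H88: descent of genus equality from level `M` to level `N`, `N ∣ M`.
-/
import Mathlib
import Fermat.Agent.H88Descent
import Fermat.Agent.H42RedInputs
import Fermat.Agent.H66Degree
import Fermat.Agent.H66Lead

set_option autoImplicit false

noncomputable section

open AlgebraicCurve Polynomial IntermediateField ModularCurve Fermat.Agent.H3RR Fermat.Agent.H40

namespace Fermat.Agent.H88

section Sep

theorem hasLead_order {k : Type*} [Field k] {x : LaurentSeries k} {n : ℤ} {c : k} (hc : c ≠ 0)
    (h : H66.HasLead x n c) : x.order = n := by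
  have hx : x.coeff n ≠ 0 := by rw [h.1]; exact hc
  apply le_antisymm
  · exact HahnSeries.order_le_of_coeff_ne_zero hx
  · have hx0 : x ≠ 0 := by rintro rfl; exact hx rfl
    by_contra hcon
    push Not at hcon
    exact (HahnSeries.coeff_order_eq_zero.not.mpr hx0) (h.2 _ hcon)

/-- A function with a simple pole at the cusp is separating. -/
theorem isSeparable_of_hasLead {k : Type*} [Field k] [IsAlgClosed k]
    (E : IntermediateField k (LaurentSeries k)) [H94.FunField k E] {x : E} {c : k} (hc : c ≠ 0)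
    (hx : Transcendental k x) (h : H66.HasLead (x : LaurentSeries k) (-1) c) :
    Algebra.IsSeparable k⟮x⟯ E := by
  obtain ⟨g, m, hm, hg, hsep, rfl⟩ := H18.exists_sep hx
  have h1 := hasLead_order hc h
  have hg0 : ((g : E) : LaurentSeries k) ≠ 0 := by
    intro h0
    exact hx (by
      have : g = 0 := Subtype.ext h0
      rw [this, zero_pow hm.ne']
      exact isAlgebraic_zero)
  have h2 : (((g ^ m : E)) : LaurentSeries k).order = m * (g : LaurentSeries k).order := by
    rw [SubmonoidClass.coe_pow]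
    have := HahnSeries.order_pow (g : LaurentSeries k) m
    rw [this, nsmul_eq_mul]
  rw [h1] at h2
  have h3 : (m : ℤ) ∣ 1 := ⟨-(g : LaurentSeries k).order, by linarith⟩
  have h4 : m = 1 := by
    have := Int.eq_one_of_dvd_one (by positivity) h3
    exact_mod_cast this
  subst h4
  rw [pow_one]
  exact hsep

theorem isSeparable_top_of_adjoin {k E E' : Type*} [Field k] [Field E] [Field E'] [Algebra k E]
    [Algebra k E'] [Algebra E E'] [IsScalarTower k E E'] (x : E)
    (h : Algebra.IsSeparable k⟮algebraMap E E' x⟯ E') : Algebra.IsSeparable E E' := by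
  constructor
  intro y
  have h1 := h.isSeparable' y
  -- coefficients lie in `E`
  have hle : (k⟮algebraMap E E' x⟯).toSubring ≤ (algebraMap E E').range := by
    have h2 : k⟮algebraMap E E' x⟯ ≤ (IsScalarTower.toAlgHom k E E').fieldRange := by
      rw [adjoin_simple_le_iff]
      exact ⟨x, rfl⟩
    intro z hz
    obtain ⟨w, hw⟩ := h2 hz
    exact ⟨w, hw⟩
  obtain ⟨Q, hQ⟩ : ∃ Q : E[X], Q.map (algebraMap E E') =
      (minpoly k⟮algebraMap E E' x⟯ y).map (algebraMap k⟮algebraMap E E' x⟯ E') := by
    have h3 : (minpoly k⟮algebraMap E E' x⟯ y).map (algebraMap k⟮algebraMap E E' x⟯ E') ∈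
        Polynomial.lifts (algebraMap E E') := by
      rw [Polynomial.lifts_iff_coeff_lifts]
      intro n
      rw [coeff_map]
      obtain ⟨w, hw⟩ := hle ((minpoly k⟮algebraMap E E' x⟯ y).coeff n).2
      exact ⟨w, hw⟩
    exact h3
  have h4 : Q.Separable := by
    rw [← Polynomial.separable_map (algebraMap E E'), hQ]
    exact Polynomial.Separable.map h1
  have h5 : aeval y Q = 0 := by
    rw [← eval_map_algebraMap, hQ, eval_map_algebraMap]
    exact minpoly.aeval k⟮algebraMap E E' x⟯ y
  exact h4.of_dvd (minpoly.dvd E y h5)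

end Sep

section Deg

variable (k : Type*) [Field k] [IsAlgClosed k] (N : ℕ) (hN : (N : k) ≠ 0)

theorem finrank_j (E : IntermediateField k (LaurentSeries k))
    (hE : E = modularFunctionFieldFullC k N) (hj : jqModC k ∈ E) (hN : (N : k) ≠ 0) :
    Module.finrank k⟮(⟨jqModC k, hj⟩ : E)⟯ E = dedekindPsi N ∧ dedekindPsi N ≠ 0 := by
  have h := H66.relfinrank_full_of_hasRoots (H66.hasRoots_of_isAlgClosed k) N hN
  refine ⟨?_, h.2⟩
  rw [← H42.relfinrank_eq_finrank_adjoin E hj, hE, h.1]

end Deg

section Incl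

variable {K Ω k Ωk : Type*} [Field K] [Field Ω] [Algebra K Ω] [Field k] [Field Ωk] [Algebra k Ωk]
  [CharZero K] [IsAlgClosed K] [IsAlgClosed k]

theorem genus_descent_incl {F F' : IntermediateField K Ω} (hF : F ≤ F')
    {E E' : IntermediateField k Ωk} (hE : E ≤ E') [IsFF K F] [IsFF K F'] [IsFF k E] [IsFF k E']
    (R : ReductionData K F k E) (R' : ReductionData K F' k E')
    (hcomp : ∀ f : R.B, ∃ h : inclusion hF (f : F) ∈ R'.B, R'.ρ ⟨_, h⟩ = inclusion hE (R.ρ f))
    (x : R.B) (hx : Transcendental k (R.ρ x)) {n m : ℕ} (hm : m ≠ 0)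
    (d1 : Module.finrank K⟮(x : F)⟯ F = n) (d2 : Module.finrank K⟮inclusion hF (x : F)⟯ F' = m)
    (d3 : Module.finrank k⟮R.ρ x⟯ E = n) (d4 : Module.finrank k⟮inclusion hE (R.ρ x)⟯ E' = m)
    (hsep : Algebra.IsSeparable k⟮inclusion hE (R.ρ x)⟯ E')
    (hg : genusFF K F' = genusFF k E') : genusFF K F = genusFF k E := by
  let aE : Algebra E E' := (inclusion hE).toAlgebra
  let aF : Algebra F F' := (inclusion hF).toAlgebra
  have tE : IsScalarTower k E E' :=
    IsScalarTower.of_algebraMap_eq fun c => ((inclusion hE).commutes c).symm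
  have tF : IsScalarTower K F F' :=
    IsScalarTower.of_algebraMap_eq fun c => ((inclusion hF).commutes c).symm
  have e1 : Module.finrank K⟮inclusion hF (x : F)⟯ F' = _ :=
    finrank_adjoin_algebraMap (K := K) (F' := F') (x : F)
  have e2 : Module.finrank k⟮inclusion hE (R.ρ x)⟯ E' = _ :=
    finrank_adjoin_algebraMap (K := k) (F' := E') (R.ρ x)
  rw [d1, d2] at e1
  rw [d3, d4] at e2
  have hn : n ≠ 0 := by rintro rfl; rw [zero_mul] at e1; exact hm e1
  have hd : Module.finrank F F' = Module.finrank E E' :=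
    Nat.eq_of_mul_eq_mul_left (Nat.pos_of_ne_zero hn) (e1.symm.trans e2)
  have f1 : Module.Finite F F' := by
    apply Module.finite_of_finrank_pos
    apply Nat.pos_of_ne_zero
    intro h0
    rw [h0, mul_zero] at e1
    exact hm e1
  have f2 : Module.Finite E E' := by
    apply Module.finite_of_finrank_pos
    apply Nat.pos_of_ne_zero
    intro h0
    rw [h0, mul_zero] at e2
    exact hm e2
  have s1 : Algebra.IsSeparable E E' := isSeparable_top_of_adjoin (k := k) (R.ρ x) hsep
  have C : RedCompat R R' :=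
    { mem := fun f hf => (hcomp ⟨f, hf⟩).1
      comm := fun f _ => (hcomp f).2 }
  exact genus_descent C hx (d1.trans d3.symm) hd hg

end Incl

section Main

variable {L : Type*} [Field L] [Algebra ℚ L] (A : ValuationSubring L) {k : Type*} [Field k]
  (π : A →+* k)

theorem degLE [IsAlgClosed L] [IsAlgClosed k] (N : ℕ) (hN : (N : k) ≠ 0) :
    H42.DegLE L k N := by
  have hN0 : N ≠ 0 := by rintro rfl; exact hN Nat.cast_zero
  have : CharZero L := algebraRat.charZero L
  have h1 := H66.relfinrank_full_of_hasRoots (H66.hasRoots_of_isAlgClosed L) N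
    (Nat.cast_ne_zero.mpr hN0)
  have h2 := H66.relfinrank_full_of_hasRoots (H66.hasRoots_of_isAlgClosed k) N hN
  exact ⟨by rw [h1.1]; exact h1.2, by rw [h1.1, h2.1]⟩

variable (hπ : Function.Surjective π) [IsLocalHom π]

omit [IsLocalHom π] in
/-- the inclusion of levels is compatible with the Gauss reductions -/
theorem comp_gauss {N M : ℕ} (hdN : H42.DegLE L k N) (hdM : H42.DegLE L k M)
    (hFle : laurentBaseChange L (modularFunctionFieldFull N) ≤
      laurentBaseChange L (modularFunctionFieldFull M))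
    (hEle : modularFunctionFieldFullC k N ≤ modularFunctionFieldFullC k M)
    (z : (H42.modGauss A π N hπ hdN).B) : ∃ z' : (H42.modGauss A π M hπ hdM).B,
      (z' : laurentBaseChange L (modularFunctionFieldFull M)) = inclusion hFle
        (z : laurentBaseChange L (modularFunctionFieldFull N)) ∧
      (H42.modGauss A π M hπ hdM).ρ z' = inclusion hEle ((H42.modGauss A π N hπ hdN).ρ z) := by
  obtain ⟨⟨g, hf'⟩, y, hyg⟩ := z
  obtain rfl : coeffMap A.subtype y = g := hyg
  refine ⟨⟨⟨coeffMap A.subtype y, hFle hf'⟩, y, rfl⟩, rfl, ?_⟩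
  apply Subtype.ext
  exact (H42.coe_modGauss_ρ A π M hπ hdM y (hFle hf')).trans
    (H42.coe_modGauss_ρ A π N hπ hdN y hf').symm

theorem comp_red {N M : ℕ} (hdN : H42.DegLE L k N) (hdM : H42.DegLE L k M)
    (hFle : laurentBaseChange L (modularFunctionFieldFull N) ≤
      laurentBaseChange L (modularFunctionFieldFull M))
    (hEle : modularFunctionFieldFullC k N ≤ modularFunctionFieldFullC k M)
    (f : (H42.modReductionData A π N hπ hdN).B) :
      ∃ h : inclusion hFle (f : laurentBaseChange L (modularFunctionFieldFull N)) ∈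
          (H42.modReductionData A π M hπ hdM).B,
        (H42.modReductionData A π M hπ hdM).ρ ⟨_, h⟩ =
          inclusion hEle ((H42.modReductionData A π N hπ hdN).ρ f) := by
  obtain ⟨f, y, z, hz, hf⟩ := f
  obtain ⟨y', hy', hρy⟩ := comp_gauss A π hπ hdN hdM hFle hEle y
  obtain ⟨z', hz', hρz⟩ := comp_gauss A π hπ hdN hdM hFle hEle z
  have hz0 : (H42.modGauss A π M hπ hdM).ρ z' ≠ 0 := by
    rw [hρz]
    exact (_root_.map_ne_zero _).mpr hz
  have hf' : inclusion hFle f *
      (z' : laurentBaseChange L (modularFunctionFieldFull M)) = y' := by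
    rw [hz', hy', ← map_mul, hf]
  refine ⟨⟨y', z', hz0, hf'⟩, ?_⟩
  have h1 : (H42.modReductionData A π M hπ hdM).ρ ⟨_, ⟨y', z', hz0, hf'⟩⟩ =
      (H42.modGauss A π M hπ hdM).ρ y' / (H42.modGauss A π M hπ hdM).ρ z' :=
    (H42.modGauss A π M hπ hdM).res_eq_div ⟨_, ⟨y', z', hz0, hf'⟩⟩ hz0 hf'
  have h2 : (H42.modReductionData A π N hπ hdN).ρ ⟨f, y, z, hz, hf⟩ =
      (H42.modGauss A π N hπ hdN).ρ y / (H42.modGauss A π N hπ hdN).ρ z :=
    (H42.modGauss A π N hπ hdN).res_eq_div ⟨f, y, z, hz, hf⟩ hz hf
  rw [h1, h2, map_div₀, hρy, hρz]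

/-- `j` as an integral function -/
theorem exists_j {N : ℕ} (hdN : H42.DegLE L k N)
    (hjN : jqModC L ∈ laurentBaseChange L (modularFunctionFieldFull N)) :
    ∃ x : (H42.modReductionData A π N hπ hdN).B,
      (x : laurentBaseChange L (modularFunctionFieldFull N)) = ⟨jqModC L, hjN⟩ ∧
      (H42.modReductionData A π N hπ hdN).ρ x = ⟨jqModC k, jqModC_mem_full k N⟩ := by
  have hjA : coeffMap A.subtype (jqModC A) = jqModC L := coeffMap_jqModC _
  have hjk : coeffMap π (jqModC A) = jqModC k := coeffMap_jqModC _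
  have hjA' : coeffMap A.subtype (jqModC A) ∈ laurentBaseChange L (modularFunctionFieldFull N) := by
    rw [hjA]; exact hjN
  refine ⟨⟨⟨coeffMap A.subtype (jqModC A), hjA'⟩,
    (H42.modGauss A π N hπ hdN).le_loc ⟨jqModC A, rfl⟩⟩, Subtype.ext hjA, ?_⟩
  exact (H42.modReductionData_ρ A π N hπ hdN (jqModC A) hjA' (by
    rw [hjk]; exact jqModC_mem_full k N) _).trans (Subtype.ext hjk)

include hπ in
/-- descent of genus equality -/
theorem genusFF_descent [IsAlgClosed L] [IsAlgClosed k] {N M : ℕ} (hNM : N ∣ M)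
    (hM : (M : k) ≠ 0)
    (hg : genusFF L (laurentBaseChange L (modularFunctionFieldFull M)) =
      genusFF k (modularFunctionFieldFullC k M)) :
    genusFF L (laurentBaseChange L (modularFunctionFieldFull N)) =
      genusFF k (modularFunctionFieldFullC k N) := by
  have hN : (N : k) ≠ 0 := by
    rintro h0
    obtain ⟨d, rfl⟩ := hNM
    exact hM (by rw [Nat.cast_mul, h0, zero_mul])
  have hM0 : M ≠ 0 := by rintro rfl; exact hM Nat.cast_zero
  have hN0 : N ≠ 0 := by rintro rfl; exact hN Nat.cast_zero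
  have : CharZero L := algebraRat.charZero L
  have hdN := degLE (L := L) N hN
  have hdM := degLE (L := L) M hM
  have i1 := H42.funField_left (L := L) (k := k) N hdN
  have i2 := H42.funField_left (L := L) (k := k) M hdM
  have i3 := H42.funField_right (L := L) (k := k) N hdN
  have i4 := H42.funField_right (L := L) (k := k) M hdM
  -- notation
  have hEle : modularFunctionFieldFullC k N ≤ modularFunctionFieldFullC k M :=
    H66.full_mono k hN0 hM0 hNM
  have hFle : laurentBaseChange L (modularFunctionFieldFull N) ≤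
      laurentBaseChange L (modularFunctionFieldFull M) := by
    rw [H42.laurentBaseChange_full, H42.laurentBaseChange_full]
    exact H66.full_mono L hN0 hM0 hNM
  have hjN : jqModC L ∈ laurentBaseChange L (modularFunctionFieldFull N) := by
    rw [H42.laurentBaseChange_full]; exact jqModC_mem_full L N
  have hjM : jqModC L ∈ laurentBaseChange L (modularFunctionFieldFull M) := by
    rw [H42.laurentBaseChange_full]; exact jqModC_mem_full L M
  have d1 := finrank_j L N _ (H42.laurentBaseChange_full L N) hjN (Nat.cast_ne_zero.mpr hN0)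
  have d2 := finrank_j L M _ (H42.laurentBaseChange_full L M) hjM (Nat.cast_ne_zero.mpr hM0)
  have d3 := finrank_j k N _ rfl (jqModC_mem_full k N) hN
  have d4 := finrank_j k M _ rfl (jqModC_mem_full k M) hM
  obtain ⟨x, hx1, hx2⟩ := exists_j A π hπ hdN hjN
  refine genus_descent_incl hFle hEle (H42.modReductionData A π N hπ hdN)
    (H42.modReductionData A π M hπ hdM) (comp_red A π hπ hdN hdM hFle hEle) x
    (by rw [hx2]; exact H42.transcendental_jFull k N) (n := dedekindPsi N) (m := dedekindPsi M) d2.2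
    (by rw [hx1]; exact d1.1) ?_ (by rw [hx2]; exact d3.1) ?_ ?_ hg
  · rw [hx1]; exact d2.1
  · rw [hx2]; exact d4.1
  · rw [hx2]
    exact isSeparable_of_hasLead (modularFunctionFieldFullC k M) one_ne_zero
      (H42.transcendental_jFull k M) H66.HasLead.jqModC

end Main

end Fermat.Agent.H88
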