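/-
H88: equality of genera of the modular function fields of level `N` over `Qbar` and over the
residue fields of characteristic `ℓ ∤ N`, all `ℓ`.
-/
import Mathlib
import Fermat.Agent.H88Mod
import Fermat.Agent.H18Inst
import Fermat.Agent.H18Final

set_option autoImplicit false

noncomputable section

open AlgebraicCurve ModularCurve Fermat.Agent.H3RR Fermat.Agent.H18

namespace Fermat.Agent.H88

/-- **Igusa: good reduction of modular curves**, genus form. -/
theorem genusFFEq (N : ℕ) [NeZero N] {ℓ : ℕ} [Fact ℓ.Prime] (hℓN : ¬ ℓ ∣ N)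
    (A : ValuationSubring (AlgebraicClosure ℚ)) (hA : A.LiesOverPrime ℓ) :
    GenusFFEq (AlgebraicClosure ℚ) (IsLocalRing.ResidueField A) N := by
  have hk : IsAlgClosed (IsLocalRing.ResidueField A) := isAlgClosed_residueField A
  obtain ⟨q, hq, hq0, hℓq⟩ : ∃ q : ℕ, (q = 2 ∨ q = 3) ∧ q ≠ 0 ∧ ¬ ℓ ∣ q := by
    by_cases h2 : ℓ = 2
    · exact ⟨3, Or.inr rfl, by norm_num, by rw [h2]; norm_num⟩
    · refine ⟨2, Or.inl rfl, by norm_num, fun h => h2 ?_⟩
      exact (Nat.prime_dvd_prime_iff_eq (Fact.out : ℓ.Prime) Nat.prime_two).mp h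
  have hℓM : ¬ ℓ ∣ N * q := by
    intro h
    rcases (Fact.out : ℓ.Prime).dvd_mul.mp h with h | h
    · exact hℓN h
    · exact hℓq h
  have : NeZero (N * q) := ⟨mul_ne_zero (NeZero.ne N) hq0⟩
  have hup := genusFF_eq_of_dvd (N * q) hℓM A hA (by
    rcases hq with rfl | rfl
    · exact Or.inl (Dvd.intro_left _ rfl)
    · exact Or.inr (Dvd.intro_left _ rfl))
  have hM : ((N * q : ℕ) : IsLocalRing.ResidueField A) ≠ 0 :=
    natCast_residueField_ne_zero A (Fact.out : ℓ.Prime) hA hℓM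
  exact genusFF_descent A (IsLocalRing.residue A) IsLocalRing.residue_surjective
    (Dvd.intro _ rfl) hM hup

theorem genusEq (N : ℕ) [NeZero N] {ℓ : ℕ} [Fact ℓ.Prime] (hℓN : ¬ ℓ ∣ N)
    (A : ValuationSubring (AlgebraicClosure ℚ)) (hA : A.LiesOverPrime ℓ) :
    GenusEq (AlgebraicClosure ℚ) (IsLocalRing.ResidueField A) N := by
  have hk : IsAlgClosed (IsLocalRing.ResidueField A) := isAlgClosed_residueField A
  exact genusEq_of_genusFFEq (degLE_of_not_dvd N hℓN A hA) (genusFFEq N hℓN A hA)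

end Fermat.Agent.H88
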