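import Mathlib

/-! A degree bound for finite separable extensions. -/

set_option autoImplicit false

namespace Fermat.Agent.H24

open IntermediateField Polynomial

theorem finrank_le_of_degree_bound {K F : Type*} [Field K] [Infinite K] [Field F] [Algebra K F]
    (E : IntermediateField K F) [FiniteDimensional E F] [Algebra.IsSeparable E F]
    (A : Subalgebra K F) (hA : ∀ z : F, ∃ a ∈ A, ∃ b ∈ A, z = a / b) (n : ℕ)
    (hdeg : ∀ a ∈ A, ∃ q : Polynomial E, q.Monic ∧ q.natDegree = n ∧ aeval a q = 0) :
    Module.finrank E F ≤ n := by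
  classical
  let Ω := AlgebraicClosure E
  let T := F →ₐ[E] Ω
  have hT : Fintype.card T = Module.finrank E F := AlgHom.card E F Ω
  rw [← hT]
  -- find a separating element
  have hsep : ∃ a ∈ A, ∀ σ σ' : T, σ a = σ' a → σ = σ' := by
    by_contra hcon
    push Not at hcon
    let W : {p : T × T // p.1 ≠ p.2} → Subspace K A := fun p =>
      LinearMap.ker (((p.1.1.restrictScalars K).toLinearMap - (p.1.2.restrictScalars K).toLinearMap).comp
        A.val.toLinearMap)
    have hcover : ⋃ i, (W i : Set A) = Set.univ := by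
      refine Set.eq_univ_of_forall fun a => ?_
      obtain ⟨σ, σ', h1, h2⟩ := hcon a a.2
      refine Set.mem_iUnion.mpr ⟨⟨(σ, σ'), h2⟩, ?_⟩
      simp only [W, SetLike.mem_coe, LinearMap.mem_ker, LinearMap.comp_apply, LinearMap.sub_apply]
      exact sub_eq_zero.mpr h1
    obtain ⟨⟨⟨σ, σ'⟩, hne⟩, htop⟩ := Subspace.exists_eq_top_of_iUnion_eq_univ hcover
    apply hne
    have hag : ∀ a ∈ A, σ a = σ' a := fun a ha => by
      have : (⟨a, ha⟩ : A) ∈ W ⟨(σ, σ'), hne⟩ := by rw [htop]; trivial
      simp only [W, LinearMap.mem_ker, LinearMap.comp_apply, LinearMap.sub_apply] at this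
      exact sub_eq_zero.mp this
    refine AlgHom.ext fun z => ?_
    obtain ⟨a, ha, b, hb, rfl⟩ := hA z
    rw [map_div₀, map_div₀, hag a ha, hag b hb]
  obtain ⟨a, ha, hsep⟩ := hsep
  obtain ⟨q, hq, hqn, hqa⟩ := hdeg a ha
  have hinj : Function.Injective (fun σ : T => σ a) := fun σ σ' h => hsep σ σ' h
  have hq0 : q.map (algebraMap E Ω) ≠ 0 := (hq.map _).ne_zero
  have hsub : (Finset.univ.image (fun σ : T => σ a)) ⊆ (q.map (algebraMap E Ω)).roots.toFinset := by
    intro y hy
    rw [Finset.mem_image] at hy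
    obtain ⟨σ, -, rfl⟩ := hy
    rw [Multiset.mem_toFinset, mem_roots hq0, IsRoot.def, eval_map_algebraMap]
    rw [aeval_algHom_apply, hqa, map_zero]
  calc Fintype.card T = (Finset.univ.image (fun σ : T => σ a)).card := by
        rw [Finset.card_image_of_injective _ hinj, Finset.card_univ]
    _ ≤ (q.map (algebraMap E Ω)).roots.toFinset.card := Finset.card_le_card hsub
    _ ≤ Multiset.card (q.map (algebraMap E Ω)).roots := Multiset.toFinset_card_le _
    _ ≤ (q.map (algebraMap E Ω)).natDegree := card_roots' _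
    _ = n := by rw [(hq.natDegree_map _), hqn]

end Fermat.Agent.H24
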