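import Mathlib
import Fermat.Prelude.Def_ModularCurve_X0
import Fermat.Prelude.Def_ModularCurve_LaurentCoeff

set_option autoImplicit false

namespace Fermat.Agent.H24

open Complex

noncomputable section

/-- A Laurent series converges (absolutely) on the punctured open unit disc. -/
def IsConv (F : LaurentSeries ℂ) : Prop :=
  ∀ r : ℝ, 0 < r → r < 1 → Summable (fun n : ℤ => ‖F.coeff n‖ * r ^ n)

/-- Evaluation of a Laurent series. -/
def evalAt (z : ℂ) (F : LaurentSeries ℂ) : ℂ := ∑' n : ℤ, F.coeff n * z ^ n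

/-- the relevant summand support for products -/
theorem hasSum_coeff_mul (F G : LaurentSeries ℂ) (n : ℤ) :
    HasSum (fun a : ℤ => F.coeff a * G.coeff (n - a)) ((F * G).coeff n) := by
  classical
  rw [HahnSeries.coeff_mul]
  have hinj : Set.InjOn Prod.fst
      (↑(Finset.antidiagonal F.isPWO_support G.isPWO_support n) : Set (ℤ × ℤ)) := by
    rintro ⟨a, b⟩ h ⟨a', b'⟩ h' (rfl : a = a')
    simp only [Finset.mem_coe, Finset.mem_antidiagonal] at h h'
    have : b = b' := by omega
    rw [this]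
  have h := hasSum_sum_of_ne_finset_zero (L := SummationFilter.unconditional ℤ)
    (f := fun a : ℤ => F.coeff a * G.coeff (n - a))
    (s := (Finset.antidiagonal F.isPWO_support G.isPWO_support n).image Prod.fst) (by
      intro a ha
      by_contra hne
      apply ha
      have h1 : F.coeff a ≠ 0 := left_ne_zero_of_mul hne
      have h2 : G.coeff (n - a) ≠ 0 := right_ne_zero_of_mul hne
      rw [Finset.mem_image]
      exact ⟨(a, n - a), by
        simp only [Finset.mem_antidiagonal, HahnSeries.mem_support]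
        exact ⟨h1, h2, by ring⟩, rfl⟩)
  rw [Finset.sum_image hinj] at h
  convert! h using 1
  refine Finset.sum_congr rfl fun p hp => ?_
  rw [Finset.mem_antidiagonal] at hp
  have : p.2 = n - p.1 := by omega
  rw [this]

theorem coeff_mul_eq_tsum (F G : LaurentSeries ℂ) (n : ℤ) :
    (F * G).coeff n = ∑' a : ℤ, F.coeff a * G.coeff (n - a) :=
  (hasSum_coeff_mul F G n).tsum_eq.symm

theorem IsConv.summable_norm {F : LaurentSeries ℂ} (hF : IsConv F) {z : ℂ} (hz0 : z ≠ 0)
    (hz1 : ‖z‖ < 1) : Summable (fun n : ℤ => ‖F.coeff n * z ^ n‖) := by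
  have := hF ‖z‖ (norm_pos_iff.mpr hz0) hz1
  simpa [norm_mul, norm_zpow] using this

theorem IsConv.summable {F : LaurentSeries ℂ} (hF : IsConv F) {z : ℂ} (hz0 : z ≠ 0)
    (hz1 : ‖z‖ < 1) : Summable (fun n : ℤ => F.coeff n * z ^ n) :=
  (hF.summable_norm hz0 hz1).of_norm

theorem IsConv.hasSum {F : LaurentSeries ℂ} (hF : IsConv F) {z : ℂ} (hz0 : z ≠ 0)
    (hz1 : ‖z‖ < 1) : HasSum (fun n : ℤ => F.coeff n * z ^ n) (evalAt z F) :=
  (hF.summable hz0 hz1).hasSum

/-- change of variables `(n, a) ↦ (a, n - a)` -/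
def shear : ℤ × ℤ ≃ ℤ × ℤ where
  toFun p := (p.2, p.1 - p.2)
  invFun p := (p.1 + p.2, p.1)
  left_inv p := by simp
  right_inv p := by simp

theorem IsConv.mul {F G : LaurentSeries ℂ} (hF : IsConv F) (hG : IsConv G) : IsConv (F * G) := by
  intro r hr0 hr1
  have h := summable_mul_of_summable_norm (f := fun n : ℤ => ‖F.coeff n‖ * r ^ n)
    (g := fun n : ℤ => ‖G.coeff n‖ * r ^ n)
    (by simpa [abs_of_pos hr0] using hF r hr0 hr1) (by simpa [abs_of_pos hr0] using hG r hr0 hr1)
  have h2 := (shear.summable_iff).mpr h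
  have h3 := h2.prod
  refine Summable.of_nonneg_of_le (fun n => by positivity) (fun n => ?_) h3
  have hs : Summable (fun a : ℤ => ‖F.coeff a‖ * ‖G.coeff (n - a)‖) := by
    have := (hasSum_coeff_mul F G n).summable.norm
    simpa [norm_mul] using this
  have h4 : ‖(F * G).coeff n‖ ≤ ∑' a : ℤ, ‖F.coeff a‖ * ‖G.coeff (n - a)‖ := by
    rw [coeff_mul_eq_tsum]
    refine (norm_tsum_le_tsum_norm (by simpa [norm_mul] using hs)).trans ?_
    simp
  calc ‖(F * G).coeff n‖ * r ^ n ≤ (∑' a : ℤ, ‖F.coeff a‖ * ‖G.coeff (n - a)‖) * r ^ n := by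
        gcongr
    _ = ∑' a : ℤ, (‖F.coeff a‖ * ‖G.coeff (n - a)‖) * r ^ n := by rw [tsum_mul_right]
    _ = _ := by
        refine tsum_congr fun a => ?_
        simp only [Function.comp, shear, Equiv.coe_fn_mk]
        have : r ^ n = r ^ a * r ^ (n - a) := by
          rw [← zpow_add₀ hr0.ne']; congr 1; ring
        rw [this]; ring

theorem evalAt_mul {F G : LaurentSeries ℂ} (hF : IsConv F) (hG : IsConv G) {z : ℂ}
    (hz0 : z ≠ 0) (hz1 : ‖z‖ < 1) : evalAt z (F * G) = evalAt z F * evalAt z G := by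
  have h := summable_mul_of_summable_norm (hF.summable_norm hz0 hz1) (hG.summable_norm hz0 hz1)
  have h2 := (shear.summable_iff).mpr h
  rw [evalAt, evalAt, evalAt, tsum_mul_tsum_of_summable_norm (hF.summable_norm hz0 hz1)
    (hG.summable_norm hz0 hz1), ← shear.tsum_eq]
  have h3 := h2.tsum_prod
  simp only [Function.comp_def] at h3
  rw [h3]
  refine tsum_congr fun n => ?_
  rw [coeff_mul_eq_tsum, ← tsum_mul_right]
  refine tsum_congr fun a => ?_
  simp only [shear, Equiv.coe_fn_mk]
  have : z ^ n = z ^ a * z ^ (n - a) := by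
    rw [← zpow_add₀ hz0]; congr 1; ring
  rw [this]; ring

theorem IsConv.add {F G : LaurentSeries ℂ} (hF : IsConv F) (hG : IsConv G) : IsConv (F + G) := by
  intro r hr0 hr1
  refine Summable.of_nonneg_of_le (fun n => by positivity) (fun n => ?_)
    ((hF r hr0 hr1).add (hG r hr0 hr1))
  rw [HahnSeries.coeff_add, ← add_mul]
  gcongr
  exact norm_add_le _ _

theorem evalAt_add {F G : LaurentSeries ℂ} (hF : IsConv F) (hG : IsConv G) {z : ℂ}
    (hz0 : z ≠ 0) (hz1 : ‖z‖ < 1) : evalAt z (F + G) = evalAt z F + evalAt z G := by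
  rw [evalAt, evalAt, evalAt, ← (hF.summable hz0 hz1).tsum_add (hG.summable hz0 hz1)]
  simp [add_mul]

theorem isConv_single (k : ℤ) (c : ℂ) : IsConv (HahnSeries.single k c) := by
  intro r hr0 hr1
  refine summable_of_ne_finset_zero (s := {k}) fun n hn => ?_
  rw [HahnSeries.coeff_single_of_ne (by simpa using hn)]
  simp

theorem evalAt_single (k : ℤ) (c : ℂ) (z : ℂ) :
    evalAt z (HahnSeries.single k c) = c * z ^ k := by
  rw [evalAt, tsum_eq_single k]
  · simp
  · intro n hn
    rw [HahnSeries.coeff_single_of_ne hn]; simp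

theorem algebraMap_eq_single (c : ℂ) :
    algebraMap ℂ (LaurentSeries ℂ) c = HahnSeries.single 0 c := by
  rw [HahnSeries.algebraMap_apply']
  simp

/-- the algebra of convergent Laurent series -/
def Conv : Subalgebra ℂ (LaurentSeries ℂ) where
  carrier := {F | IsConv F}
  mul_mem' hF hG := hF.mul hG
  add_mem' hF hG := hF.add hG
  algebraMap_mem' c := by
    rw [algebraMap_eq_single]
    exact isConv_single 0 c

theorem mem_Conv {F : LaurentSeries ℂ} : F ∈ Conv ↔ IsConv F := Iff.rfl

/-- evaluation as an algebra hom on convergent series -/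
def evalHom (z : ℂ) (hz0 : z ≠ 0) (hz1 : ‖z‖ < 1) : Conv →ₐ[ℂ] ℂ where
  toFun F := evalAt z F
  map_one' := by
    show evalAt z (1 : LaurentSeries ℂ) = 1
    have : (1 : LaurentSeries ℂ) = HahnSeries.single 0 1 := rfl
    rw [this, evalAt_single]; simp
  map_mul' F G := evalAt_mul F.2 G.2 hz0 hz1
  map_zero' := by
    show evalAt z (0 : LaurentSeries ℂ) = 0
    simp [evalAt]
  map_add' F G := evalAt_add F.2 G.2 hz0 hz1
  commutes' c := by
    show evalAt z (algebraMap ℂ (LaurentSeries ℂ) c) = c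
    rw [algebraMap_eq_single, evalAt_single]; simp

@[simp]
theorem evalHom_apply (z : ℂ) (hz0 : z ≠ 0) (hz1 : ‖z‖ < 1) (F : Conv) :
    evalHom z hz0 hz1 F = evalAt z F := rfl

/-- sum over `ℤ` of a Laurent series supported in `[m, ∞)` as a sum over `ℕ` -/
theorem hasSum_shift_iff {F : LaurentSeries ℂ} {m : ℤ} (hm : ∀ n < m, F.coeff n = 0) {z s : ℂ} :
    HasSum (fun n : ℤ => F.coeff n * z ^ n) s ↔
      HasSum (fun k : ℕ => F.coeff (m + k) * z ^ (m + (k : ℤ))) s := by
  have hinj : Function.Injective (fun k : ℕ => m + (k : ℤ)) := fun a b h => by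
    simpa using h
  rw [← hinj.hasSum_iff]
  · rfl
  · intro n hn
    rw [hm n, zero_mul]
    by_contra hle
    push Not at hle
    exact hn ⟨(n - m).toNat, by simp only; omega⟩

open UpperHalfPlane in
theorem eq_zero_of_hasSum_qParam {c : ℕ → ℂ}
    (hc : ∀ z : ℂ, z ≠ 0 → ‖z‖ < 1 → HasSum (fun k : ℕ => c k * z ^ k) 0) (k : ℕ) : c k = 0 := by
  have h00 : cuspFunction 1 (0 : ℍ → ℂ) = 0 := by
    ext q
    rcases eq_or_ne q 0 with rfl | hq
    · simpa [cuspFunction, Function.Periodic.cuspFunction]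
        using! (tendsto_const_nhds.mono_left nhdsWithin_le_nhds).limUnder_eq
    · simp [cuspFunction, Function.Periodic.cuspFunction_eq_of_nonzero 1 _ hq]
  have h0 : AnalyticAt ℂ (cuspFunction 1 (0 : ℍ → ℂ)) 0 := by
    rw [h00]
    exact analyticAt_const
  have h1 := (hasFPowerSeriesOnBall_cuspFunction (h := 1) (f := (0 : ℍ → ℂ)) (c := c) one_pos h0
    (fun τ => by
      have := hc (Function.Periodic.qParam 1 τ) (Function.Periodic.qParam_ne_zero _)
        (by simpa using UpperHalfPlane.norm_qParam_lt_one 1 τ)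
      simpa using this)).hasFPowerSeriesAt
  rw [h00] at h1
  have h2 := h1.eq_formalMultilinearSeries (hasFPowerSeriesAt_const (c := (0 : ℂ)) (e := (0 : ℂ)))
  have h3 := congr_arg (FormalMultilinearSeries.coeff · k) h2
  have h4 : FormalMultilinearSeries.coeff (0 : FormalMultilinearSeries ℂ ℂ ℂ) k = 0 := rfl
  simpa [FormalMultilinearSeries.coeff_ofScalars, h4] using h3

theorem eq_zero_of_evalAt_eq_zero {F : LaurentSeries ℂ} (hF : IsConv F)
    (h : ∀ z : ℂ, z ≠ 0 → ‖z‖ < 1 → evalAt z F = 0) : F = 0 := by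
  by_contra hne
  have hm : ∀ n < F.order, F.coeff n = 0 := fun n hn => HahnSeries.coeff_eq_zero_of_lt_order hn
  have h2 := eq_zero_of_hasSum_qParam (c := fun k => F.coeff (F.order + k)) (fun z hz0 hz1 => by
    have h3 := hF.hasSum hz0 hz1
    rw [h z hz0 hz1, hasSum_shift_iff hm] at h3
    have h4 := h3.mul_left (z ^ (-F.order))
    rw [mul_zero] at h4
    convert! h4 using 1
    ext k
    rw [mul_left_comm, ← zpow_add₀ hz0, ← zpow_natCast]
    congr 2
    ring) 0
  have h5 : F.coeff F.order ≠ 0 := fun h => hne (HahnSeries.coeff_order_eq_zero.mp h)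
  exact h5 (by simpa using h2)

theorem eq_of_evalAt_eq {F G : LaurentSeries ℂ} (hF : IsConv F) (hG : IsConv G)
    (h : ∀ z : ℂ, z ≠ 0 → ‖z‖ < 1 → evalAt z F = evalAt z G) : F = G := by
  have hF' : F ∈ Conv := hF
  have hG' : G ∈ Conv := hG
  have hs : F - G ∈ Conv := Conv.sub_mem hF' hG'
  rw [← sub_eq_zero]
  refine eq_zero_of_evalAt_eq_zero hs fun z hz0 hz1 => ?_
  have := map_sub (evalHom z hz0 hz1) ⟨F, hF'⟩ ⟨G, hG'⟩
  simp only [evalHom_apply] at this
  rw [h z hz0 hz1, sub_self] at this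
  exact this

/-! ### power series -/

theorem ofPowerSeries_coeff_neg {R : Type*} [Semiring R] (P : PowerSeries R) {n : ℤ} (hn : n < 0) :
    (HahnSeries.ofPowerSeries ℤ R P).coeff n = 0 :=
  ModularCurve.ofPowerSeries_coeff_of_neg P hn

theorem hasSum_ofPowerSeries_iff {P : PowerSeries ℂ} {z s : ℂ} :
    HasSum (fun n : ℤ => (HahnSeries.ofPowerSeries ℤ ℂ P).coeff n * z ^ n) s ↔
      HasSum (fun k : ℕ => PowerSeries.coeff k P * z ^ k) s := by
  rw [hasSum_shift_iff (m := 0) (fun n hn => ofPowerSeries_coeff_neg P hn)]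
  simp [HahnSeries.ofPowerSeries_apply_coeff]

theorem isConv_ofPowerSeries {P : PowerSeries ℂ}
    (h : ∀ r : ℝ, 0 < r → r < 1 → Summable fun k : ℕ => ‖PowerSeries.coeff k P‖ * r ^ k) :
    IsConv (HahnSeries.ofPowerSeries ℤ ℂ P) := by
  intro r hr0 hr1
  have hinj : Function.Injective (fun k : ℕ => (k : ℤ)) := fun a b h => by simpa using h
  rw [← hinj.summable_iff]
  · simpa [Function.comp_def, HahnSeries.ofPowerSeries_apply_coeff] using h r hr0 hr1
  · intro n hn
    rw [ofPowerSeries_coeff_neg, norm_zero, zero_mul]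
    by_contra hle
    push Not at hle
    exact hn ⟨n.toNat, by simp only; omega⟩

theorem isConv_ofPowerSeries_of_hasSum {P : PowerSeries ℂ} {g : ℂ → ℂ}
    (h : ∀ z : ℂ, z ≠ 0 → ‖z‖ < 1 → HasSum (fun k : ℕ => PowerSeries.coeff k P * z ^ k) (g z)) :
    IsConv (HahnSeries.ofPowerSeries ℤ ℂ P) := by
  refine isConv_ofPowerSeries fun r hr0 hr1 => ?_
  have := (h (r : ℂ) (by exact_mod_cast hr0.ne') (by simpa [abs_of_pos hr0] using hr1)).summable.norm
  simpa [norm_mul, abs_of_pos hr0] using this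

theorem evalAt_ofPowerSeries_of_hasSum {P : PowerSeries ℂ} {z s : ℂ}
    (h : HasSum (fun k : ℕ => PowerSeries.coeff k P * z ^ k) s) :
    evalAt z (HahnSeries.ofPowerSeries ℤ ℂ P) = s :=
  (hasSum_ofPowerSeries_iff.mpr h).tsum_eq

/-- Taylor expansion at `0` of a function on the unit disc as a power series. -/
def taylor (g : ℂ → ℂ) : PowerSeries ℂ :=
  PowerSeries.mk fun n => (n.factorial : ℂ)⁻¹ * iteratedDeriv n g 0

theorem hasSum_taylor {g : ℂ → ℂ} (hg : DifferentiableOn ℂ g (Metric.ball 0 1)) {z : ℂ}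
    (hz : ‖z‖ < 1) : HasSum (fun k : ℕ => PowerSeries.coeff k (taylor g) * z ^ k) (g z) := by
  have := Complex.hasSum_taylorSeries_on_ball hg (z := z) (by simpa using hz)
  convert! this using 2 with k
  simp only [taylor, PowerSeries.coeff_mk, sub_zero, smul_eq_mul]
  ring

theorem isConv_taylor {g : ℂ → ℂ} (hg : DifferentiableOn ℂ g (Metric.ball 0 1)) :
    IsConv (HahnSeries.ofPowerSeries ℤ ℂ (taylor g)) :=
  isConv_ofPowerSeries_of_hasSum (g := g) fun _ _ hz => hasSum_taylor hg hz

theorem evalAt_taylor {g : ℂ → ℂ} (hg : DifferentiableOn ℂ g (Metric.ball 0 1)) {z : ℂ}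
    (hz : ‖z‖ < 1) : evalAt z (HahnSeries.ofPowerSeries ℤ ℂ (taylor g)) = g z :=
  evalAt_ofPowerSeries_of_hasSum (hasSum_taylor hg hz)

theorem ofPowerSeries_injective' :
    Function.Injective (HahnSeries.ofPowerSeries ℤ ℂ) :=
  HahnSeries.ofPowerSeries_injective

/-- uniqueness: a power series summing to `g` on the punctured disc is the Taylor series -/
theorem eq_taylor_of_hasSum {P : PowerSeries ℂ} {g : ℂ → ℂ}
    (hg : DifferentiableOn ℂ g (Metric.ball 0 1))
    (h : ∀ z : ℂ, z ≠ 0 → ‖z‖ < 1 → HasSum (fun k : ℕ => PowerSeries.coeff k P * z ^ k) (g z)) :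
    P = taylor g := by
  apply ofPowerSeries_injective'
  refine eq_of_evalAt_eq (isConv_ofPowerSeries_of_hasSum h) (isConv_taylor hg) fun z hz0 hz1 => ?_
  rw [evalAt_taylor hg hz1, evalAt_ofPowerSeries_of_hasSum (h z hz0 hz1)]

/-! ### substitutions `z ↦ u z` and `z ↦ z ^ d` -/

section twist

variable {k : Type*} [Field k]

/-- underlying function of `twist` -/
def twistFun (u : kˣ) (F : LaurentSeries k) : LaurentSeries k where
  coeff := fun n => ((u ^ n : kˣ) : k) * F.coeff n
  isPWO_support' := F.isPWO_support.mono fun n hn => by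
    simp only [Function.mem_support, ne_eq] at hn
    exact fun h => hn (by rw [h, mul_zero])

theorem twistFun_coeff (u : kˣ) (F : LaurentSeries k) (n : ℤ) :
    (twistFun u F).coeff n = ((u ^ n : kˣ) : k) * F.coeff n := rfl

theorem mem_support_twistFun (u : kˣ) (F : LaurentSeries k) (n : ℤ) :
    n ∈ (twistFun u F).support ↔ n ∈ F.support := by
  rw [HahnSeries.mem_support, HahnSeries.mem_support, twistFun_coeff, ne_eq, mul_eq_zero, not_or]
  exact ⟨fun h => h.2, fun h => ⟨(u ^ n).ne_zero, h⟩⟩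

/-- the substitution `z ↦ u z` on Laurent series -/
def twist (u : kˣ) : LaurentSeries k →+* LaurentSeries k where
  toFun F := twistFun u F
  map_zero' := by ext n; simp [twistFun_coeff]
  map_one' := by
    ext n
    simp only [HahnSeries.coeff_one, twistFun_coeff]
    split_ifs with h
    · simp [h]
    · simp
  map_add' F G := by ext n; simp [mul_add, twistFun_coeff]
  map_mul' F G := by
    classical
    ext n
    rw [HahnSeries.coeff_mul, twistFun_coeff, HahnSeries.coeff_mul, Finset.mul_sum]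
    refine Finset.sum_congr ?_ ?_
    · ext p
      simp only [Finset.mem_antidiagonal, mem_support_twistFun]
    · intro p hp
      rw [Finset.mem_antidiagonal] at hp
      rw [twistFun_coeff, twistFun_coeff, ← hp.2.2, zpow_add, Units.val_mul]
      ring

@[simp]
theorem twist_coeff (u : kˣ) (F : LaurentSeries k) (n : ℤ) :
    (twist u F).coeff n = ((u ^ n : kˣ) : k) * F.coeff n := rfl

theorem twist_one (F : LaurentSeries k) : twist 1 F = F := by
  ext n; simp

theorem twist_twist (u v : kˣ) (F : LaurentSeries k) : twist u (twist v F) = twist (u * v) F := by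
  ext n; simp [mul_zpow, mul_assoc]

end twist

theorem isConv_twist {u : ℂˣ} (hu : ‖(u : ℂ)‖ = 1) {F : LaurentSeries ℂ} (hF : IsConv F) :
    IsConv (twist u F) := by
  intro r hr0 hr1
  have := hF r hr0 hr1
  simpa [norm_mul, norm_zpow, hu] using this

theorem evalAt_twist (u : ℂˣ) (F : LaurentSeries ℂ) (z : ℂ) :
    evalAt z (twist u F) = evalAt ((u : ℂ) * z) F := by
  rw [evalAt, evalAt]
  refine tsum_congr fun n => ?_
  rw [twist_coeff, mul_zpow, Units.val_zpow_eq_zpow_val]
  ring

section qExpand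

open ModularCurve

variable (d : ℕ) [NeZero d]

theorem hasSum_qExpand_iff {F : LaurentSeries ℂ} {z s : ℂ} :
    HasSum (fun n : ℤ => (qExpand ℂ d F).coeff n * z ^ n) s ↔
      HasSum (fun n : ℤ => F.coeff n * (z ^ d) ^ n) s := by
  have hinj : Function.Injective (fun k : ℤ => (d : ℤ) * k) :=
    mul_right_injective₀ (by exact_mod_cast NeZero.ne d)
  rw [← hinj.hasSum_iff]
  · have : ((fun n : ℤ => (qExpand ℂ d F).coeff n * z ^ n) ∘ fun k : ℤ => (d : ℤ) * k)
        = fun n : ℤ => F.coeff n * (z ^ d) ^ n := by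
      ext k
      simp only [Function.comp, qExpand_coeff_mul]
      rw [zpow_mul, zpow_natCast]
    rw [this]
  · intro n hn
    rw [qExpand_coeff_of_not_dvd, zero_mul]
    rintro ⟨m, rfl⟩
    exact hn ⟨m, rfl⟩

theorem isConv_qExpand {F : LaurentSeries ℂ} (hF : IsConv F) : IsConv (qExpand ℂ d F) := by
  intro r hr0 hr1
  have hinj : Function.Injective (fun k : ℤ => (d : ℤ) * k) :=
    mul_right_injective₀ (by exact_mod_cast NeZero.ne d)
  rw [← hinj.summable_iff]
  · have := hF (r ^ d) (by positivity) (pow_lt_one₀ hr0.le hr1 (NeZero.ne d))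
    convert! this using 2 with k
    simp only [Function.comp, qExpand_coeff_mul]
    rw [zpow_mul, zpow_natCast]
  · intro n hn
    rw [qExpand_coeff_of_not_dvd, norm_zero, zero_mul]
    rintro ⟨m, rfl⟩
    exact hn ⟨m, rfl⟩

theorem evalAt_qExpand {F : LaurentSeries ℂ} (hF : IsConv F) {z : ℂ} (hz0 : z ≠ 0)
    (hz1 : ‖z‖ < 1) : evalAt z (qExpand ℂ d F) = evalAt (z ^ d) F := by
  have h := hF.hasSum (z := z ^ d) (pow_ne_zero d hz0)
    (by rw [norm_pow]; exact pow_lt_one₀ (norm_nonneg _) hz1 (NeZero.ne d))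
  exact ((hasSum_qExpand_iff d).mpr h).tsum_eq

end qExpand

end

end Fermat.Agent.H24
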