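import Mathlib

set_option autoImplicit false

namespace Fermat.Agent.H61

open UpperHalfPlane hiding I
open ModularForm Complex Real Filter Topology MatrixGroups EisensteinSeries Derivative
open scoped Manifold ModularForm Topology

local notation "𝕢" => Function.Periodic.qParam

/-- The derivative of a `1`-periodic function in terms of its cusp function. -/
lemma normalizedDeriv_eq_cuspFunction {F : ℍ → ℂ} (hper : Function.Periodic (F ∘ ofComplex) (1 : ℝ))
    (hF : MDiff F) (hb : IsBoundedAtImInfty F) (τ : ℍ) :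
    normalizedDerivOfComplex F τ = 𝕢 1 τ * deriv (cuspFunction 1 F) (𝕢 1 τ) := by
  have hd : DifferentiableAt ℂ (cuspFunction 1 F) (𝕢 1 τ) :=
    differentiableAt_cuspFunction one_pos hper hF hb
      (Function.Periodic.norm_qParam_lt_one one_pos τ.im_pos)
  have h1 : HasDerivAt (fun z : ℂ => 𝕢 1 z) (2 * π * Complex.I * 𝕢 1 τ) τ := by
    have : HasDerivAt (fun z : ℂ => Complex.exp (2 * π * Complex.I * z)) 
        (Complex.exp (2 * π * Complex.I * τ) * (2 * π * Complex.I)) (τ : ℂ) := by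
      simpa using ((hasDerivAt_id (τ : ℂ)).const_mul (2 * π * Complex.I)).cexp
    simpa [Function.Periodic.qParam, mul_comm] using this
  have h2 : HasDerivAt (fun z : ℂ => cuspFunction 1 F (𝕢 1 z))
      (deriv (cuspFunction 1 F) (𝕢 1 τ) * (2 * π * Complex.I * 𝕢 1 τ)) τ :=
    hd.hasDerivAt.comp (τ : ℂ) h1
  have h3 : (F ∘ ofComplex) =ᶠ[𝓝 (τ : ℂ)] fun z : ℂ => cuspFunction 1 F (𝕢 1 z) := by
    filter_upwards [isOpen_upperHalfPlaneSet.mem_nhds τ.im_pos] with z hz
    have := eq_cuspFunction (⟨z, hz⟩ : ℍ) one_ne_zero hper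
    simp only [Function.comp_apply, ofComplex_apply_of_im_pos hz]
    exact this.symm
  rw [normalizedDerivOfComplex, h3.deriv_eq, h2.deriv]
  have : (2 * π * Complex.I) ≠ 0 := by simp [Real.pi_ne_zero]
  field_simp

lemma tendsto_normalizedDeriv_atImInfty {F : ℍ → ℂ}
    (hper : Function.Periodic (F ∘ ofComplex) (1 : ℝ))
    (hF : MDiff F) (hb : IsBoundedAtImInfty F) :
    Tendsto (normalizedDerivOfComplex F) atImInfty (𝓝 0) := by
  have hA : AnalyticAt ℂ (cuspFunction 1 F) 0 := analyticAt_cuspFunction_zero one_pos hper hF hb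
  have hc : ContinuousAt (fun q : ℂ => q * deriv (cuspFunction 1 F) q) 0 :=
    continuousAt_id.mul hA.deriv.continuousAt
  have := (hc.tendsto.comp (qParam_tendsto_atImInfty one_pos))
  simp only [zero_mul] at this
  refine this.congr fun τ => ?_
  simp [normalizedDeriv_eq_cuspFunction hper hF hb τ]

/-- A holomorphic periodic function bounded at `i∞` tends to its constant coefficient. -/
lemma tendsto_atImInfty_coeff_zero {F : ℍ → ℂ}
    (hper : Function.Periodic (F ∘ ofComplex) (1 : ℝ))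
    (hF : MDiff F) (hb : IsBoundedAtImInfty F) :
    Tendsto F atImInfty (𝓝 ((qExpansion 1 F).coeff 0)) := by
  have hA : AnalyticAt ℂ (cuspFunction 1 F) 0 := analyticAt_cuspFunction_zero one_pos hper hF hb
  have h0 : (qExpansion 1 F).coeff 0 = cuspFunction 1 F 0 := by
    simp [qExpansion_coeff]
  rw [h0]
  refine (hA.continuousAt.tendsto.comp (qParam_tendsto_atImInfty one_pos)).congr fun τ => ?_
  exact eq_cuspFunction τ one_ne_zero hper

lemma levelOne_periodic {k : ℤ} (f : ModularForm 𝒮ℒ k) :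
    Function.Periodic (f ∘ ofComplex) (1 : ℝ) :=
  SlashInvariantFormClass.periodic_comp_ofComplex f one_mem_strictPeriods_SL

lemma levelOne_bdd {k : ℤ} (f : ModularForm 𝒮ℒ k) : IsBoundedAtImInfty f :=
  ModularFormClass.bdd_at_infty f

lemma levelOne_mdiff {k : ℤ} (f : ModularForm 𝒮ℒ k) : MDiff f := ModularFormClass.holo f

lemma levelOne_tendsto {k : ℤ} (f : ModularForm 𝒮ℒ k) :
    Tendsto f atImInfty (𝓝 ((qExpansion 1 f).coeff 0)) :=
  tendsto_atImInfty_coeff_zero (levelOne_periodic f) (levelOne_mdiff f) (levelOne_bdd f)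

lemma tendsto_E₄ : Tendsto E₄ atImInfty (𝓝 1) := by
  have := levelOne_tendsto E₄
  rwa [E_qExpansion_coeff_zero _ ⟨2, rfl⟩] at this

lemma tendsto_E₆ : Tendsto E₆ atImInfty (𝓝 1) := by
  have := levelOne_tendsto E₆
  rwa [E_qExpansion_coeff_zero _ ⟨3, rfl⟩] at this

lemma E2_vadd_one (τ : ℍ) : E2 ((1 : ℝ) +ᵥ τ) = E2 τ := by
  have h := congrFun (E2_slash_action ModularGroup.T) τ
  rw [D2_T] at h
  simp only [smul_zero, sub_zero] at h
  rw [SL_slash_apply, UpperHalfPlane.modular_T_smul] at h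
  have hd : denom (ModularGroup.T : SL(2, ℤ)) τ = 1 := by
    rw [ModularGroup.denom_apply, show ModularGroup.T 1 0 = 0 from rfl,
      show ModularGroup.T 1 1 = 1 from rfl]
    simp
  rw [hd] at h
  simpa using h

lemma E2_periodic : Function.Periodic (E2 ∘ ofComplex) (1 : ℝ) := by
  intro w
  by_cases! hw : 0 < w.im
  · have : 0 < (w + (1 : ℝ)).im := by simpa using hw
    simp only [Function.comp_apply, ofComplex_apply_of_im_pos this, ofComplex_apply_of_im_pos hw]
    rw [← E2_vadd_one ⟨w, hw⟩]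
    congr 1
    ext
    simp [add_comm]
  · have h2 : (w + ((1 : ℝ) : ℂ)).im ≤ 0 := by simpa using hw
    simp only [Function.comp_apply]
    rw [ofComplex_apply_of_im_nonpos h2, ofComplex_apply_of_im_nonpos hw]

lemma tendsto_E2 : Tendsto E2 atImInfty (𝓝 1) := by
  have hper := E2_periodic
  have hA : AnalyticAt ℂ (cuspFunction 1 E2) 0 :=
    analyticAt_cuspFunction_zero one_pos hper E2_mdifferentiable isBoundedAtImInfty_E2
  have hs : ∀ τ : ℍ, HasSum (fun m : ℕ => (if m = 0 then 1 else -24 * ArithmeticFunction.sigma 1 m : ℂ)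
      • 𝕢 1 τ ^ m) (E2 τ) := fun τ => by
    simpa [Function.Periodic.qParam] using hasSum_qExpansion_E2 (z := τ)
  have h1 := hasFPowerSeriesOnBall_cuspFunction one_pos hA hs
  have h0 : cuspFunction 1 E2 0 = 1 := by
    have := h1.coeff_zero (fun _ => 0)
    simpa using this.symm
  refine (h0 ▸ hA.continuousAt.tendsto.comp (qParam_tendsto_atImInfty one_pos)).congr fun τ => ?_
  exact eq_cuspFunction τ one_ne_zero hper

/-- The Serre derivative of a level one modular form. -/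
noncomputable def serreForm {k : ℤ} (f : ModularForm 𝒮ℒ k) : ModularForm 𝒮ℒ (k + 2) where
  toFun := serreDerivative k f
  slash_action_eq' := by
    rintro _ ⟨γ, rfl⟩
    exact serreDerivative_slash_invariant (levelOne_mdiff f) (f.slash_action_eq' _ ⟨γ, rfl⟩)
  holo' := serreDerivative_mdifferentiable k (levelOne_mdiff f)
  bdd_at_cusps' {c} hc := by
    rw [Subgroup.IsArithmetic.isCusp_iff_isCusp_SL2Z] at hc
    rw [OnePoint.isBoundedAt_iff_forall_SL2Z hc]
    intro γ _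
    have h1 : serreDerivative k f ∣[k + 2] γ = serreDerivative k f :=
      serreDerivative_slash_invariant (levelOne_mdiff f) (f.slash_action_eq' _ ⟨γ, rfl⟩)
    change IsBoundedAtImInfty (serreDerivative k f ∣[k + 2] γ)
    rw [h1]
    have hb1 : IsBoundedAtImInfty (normalizedDerivOfComplex f) :=
      (tendsto_normalizedDeriv_atImInfty (levelOne_periodic f) (levelOne_mdiff f)
        (levelOne_bdd f)).isBigO_one ℝ
    have hb2 : IsBoundedAtImInfty (E2 * (f : ℍ → ℂ)) := isBoundedAtImInfty_E2.mul (levelOne_bdd f)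
    have hb3 : serreDerivative k f =
        normalizedDerivOfComplex f - ((k : ℂ) * 12⁻¹) • (E2 * (f : ℍ → ℂ)) := by
      ext z
      simp [mul_assoc]
    rw [hb3]
    exact hb1.sub (hb2.const_smul_left _)


lemma serreForm_apply {k : ℤ} (f : ModularForm 𝒮ℒ k) (τ : ℍ) :
    serreForm f τ = normalizedDerivOfComplex f τ - k * 12⁻¹ * E2 τ * f τ := rfl

lemma tendsto_serreForm {k : ℤ} (f : ModularForm 𝒮ℒ k) :
    Tendsto (serreForm f) atImInfty (𝓝 (- (k * 12⁻¹) * (qExpansion 1 f).coeff 0)) := by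
  have h1 := tendsto_normalizedDeriv_atImInfty (levelOne_periodic f) (levelOne_mdiff f)
    (levelOne_bdd f)
  have h2 := h1.sub ((tendsto_E2.const_mul ((k : ℂ) * 12⁻¹)).mul (levelOne_tendsto f))
  simp only [mul_one, zero_sub] at h2
  rw [neg_mul]
  exact h2

/-- Comparison of a form in a one-dimensional space with a normalised generator. -/
lemma eq_smul_of_rank_one {k : ℤ} (hk : Module.finrank ℂ (ModularForm 𝒮ℒ k) = 1)
    (e f : ModularForm 𝒮ℒ k) (he : Tendsto e atImInfty (𝓝 1)) {c : ℂ}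
    (hf : Tendsto f atImInfty (𝓝 c)) (τ : ℍ) : f τ = c * e τ := by
  have he0 : e ≠ 0 := by
    rintro rfl
    have h0 : Tendsto (fun _ : ℍ => (0 : ℂ)) atImInfty (𝓝 1) := he
    exact one_ne_zero (tendsto_nhds_unique h0 tendsto_const_nhds)
  obtain ⟨a, ha⟩ := (finrank_eq_one_iff_of_nonzero' e he0).mp hk f
  have h1 : Tendsto f atImInfty (𝓝 (a * 1)) := by
    have : Tendsto (fun τ => a * e τ) atImInfty (𝓝 (a * 1)) := he.const_mul a
    rw [← ha]
    exact this
  have h2 : c = a := by simpa using tendsto_nhds_unique hf h1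
  rw [h2, ← ha]
  rfl

lemma finrank_four : Module.finrank ℂ (ModularForm 𝒮ℒ 4) = 1 :=
  Module.rank_eq_one_iff_finrank_eq_one.mp levelOne_weight_four_rank_one

lemma finrank_six : Module.finrank ℂ (ModularForm 𝒮ℒ 6) = 1 :=
  Module.rank_eq_one_iff_finrank_eq_one.mp levelOne_weight_six_rank_one

lemma finrank_eight : Module.finrank ℂ (ModularForm 𝒮ℒ 8) = 1 := by
  apply Module.rank_eq_one_iff_finrank_eq_one.mp
  have := dimension_level_one 8 (by decide)
  norm_num [Nat.ModEq] at this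
  exact this

/-- Ramanujan's identity `D E₄ = (E₂ E₄ - E₆) / 3`. -/
theorem deriv_E₄ (τ : ℍ) : normalizedDerivOfComplex E₄ τ = (E2 τ * E₄ τ - E₆ τ) / 3 := by
  have h1 := tendsto_serreForm E₄
  rw [E_qExpansion_coeff_zero _ ⟨2, rfl⟩] at h1
  have h2 := eq_smul_of_rank_one finrank_six E₆ (ModularForm.mcast (by norm_num) (serreForm E₄))
    tendsto_E₆ h1 τ
  have h3 : (ModularForm.mcast (by norm_num) (serreForm E₄) : ModularForm 𝒮ℒ 6) τ =
    serreForm E₄ τ := rfl
  rw [h3, serreForm_apply] at h2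
  push_cast at h2
  linear_combination h2

/-- Ramanujan's identity `D E₆ = (E₂ E₆ - E₄ ^ 2) / 2`. -/
theorem deriv_E₆ (τ : ℍ) : normalizedDerivOfComplex E₆ τ = (E2 τ * E₆ τ - E₄ τ ^ 2) / 2 := by
  have h1 := tendsto_serreForm E₆
  rw [E_qExpansion_coeff_zero _ ⟨3, rfl⟩] at h1
  have h4 : Tendsto (E₄.mul E₄) atImInfty (𝓝 1) := by
    have := tendsto_E₄.mul tendsto_E₄
    rw [mul_one] at this
    exact this
  have h2 := eq_smul_of_rank_one finrank_eight (ModularForm.mcast (by norm_num) (E₄.mul E₄))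
    (ModularForm.mcast (by norm_num) (serreForm E₆)) h4 h1 τ
  have h3 : (ModularForm.mcast (by norm_num) (serreForm E₆) : ModularForm 𝒮ℒ 8) τ =
    serreForm E₆ τ := rfl
  have h5 : (ModularForm.mcast (by norm_num) (E₄.mul E₄) : ModularForm 𝒮ℒ 8) τ =
    E₄ τ * E₄ τ := rfl
  rw [h3, serreForm_apply, h5] at h2
  push_cast at h2
  linear_combination h2

lemma disc_mdiff : MDiff discriminant := CuspForm.discriminant.holo'

/-- `D Δ = E₂ Δ`. -/
theorem deriv_disc (τ : ℍ) : normalizedDerivOfComplex discriminant τ = E2 τ * discriminant τ := by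
  have h4 := levelOne_mdiff E₄
  have h6 := levelOne_mdiff E₆
  have h : discriminant = (1728 : ℂ)⁻¹ • ((E₄ : ℍ → ℂ) ^ 3 - (E₆ : ℍ → ℂ) ^ 2) := by
    ext z
    rw [discriminant_eq_E₄_cube_sub_E₆_sq]
    simp only [Pi.smul_apply, Pi.sub_apply, Pi.pow_apply, smul_eq_mul]
    ring
  rw [discriminant_eq_E₄_cube_sub_E₆_sq τ, h,
    normalizedDerivOfComplex_smul _ _ ((h4.pow 3).sub (h6.pow 2)),
    normalizedDerivOfComplex_sub _ _ (h4.pow 3) (h6.pow 2),
    normalizedDerivOfComplex_pow _ _ h4, normalizedDerivOfComplex_pow _ _ h6]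
  simp only [Pi.smul_apply, Pi.sub_apply, Pi.mul_apply, Pi.pow_apply, smul_eq_mul, deriv_E₄,
    deriv_E₆]
  push_cast
  norm_num
  ring

/-- The modular invariant `j = E₄³ / Δ` on the upper half plane. -/
noncomputable def jInv (τ : ℍ) : ℂ := E₄ τ ^ 3 / discriminant τ

lemma jInv_mul_disc (τ : ℍ) : jInv τ * discriminant τ = E₄ τ ^ 3 :=
  div_mul_cancel₀ _ (discriminant_ne_zero τ)

lemma jInv_sub_1728 (τ : ℍ) : jInv τ - 1728 = E₆ τ ^ 2 / discriminant τ := by
  have h := discriminant_ne_zero τ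
  rw [eq_div_iff h, sub_mul, jInv_mul_disc, discriminant_eq_E₄_cube_sub_E₆_sq]
  ring

lemma jInv_eq_zero_iff (τ : ℍ) : jInv τ = 0 ↔ E₄ τ = 0 := by
  simp [jInv, discriminant_ne_zero τ]

lemma jInv_eq_1728_iff (τ : ℍ) : jInv τ = 1728 ↔ E₆ τ = 0 := by
  rw [← sub_eq_zero, jInv_sub_1728]
  simp [discriminant_ne_zero τ]

lemma E₄_E₆_not_both_zero (τ : ℍ) : E₄ τ ≠ 0 ∨ E₆ τ ≠ 0 := by
  by_contra! h
  apply discriminant_ne_zero τ
  rw [discriminant_eq_E₄_cube_sub_E₆_sq, h.1, h.2]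
  norm_num

lemma jInv_mdiff : MDiff jInv := by
  have h := ((levelOne_mdiff E₄).pow 3)
  exact h.div disc_mdiff discriminant_ne_zero

lemma continuous_jInv : Continuous jInv := jInv_mdiff.continuous

lemma levelOne_smul {k : ℤ} {F : Type*} [FunLike F ℍ ℂ] [SlashInvariantFormClass F 𝒮ℒ k]
    (f : F) (γ : SL(2, ℤ)) (τ : ℍ) :
    f (γ • τ) = denom γ τ ^ k * f τ := by
  have h : (γ : GL (Fin 2) ℝ) ∈ 𝒮ℒ := ⟨γ, rfl⟩
  exact SlashInvariantForm.slash_action_eqn'' f h τ

lemma E₄_smul (γ : SL(2, ℤ)) (τ : ℍ) : E₄ (γ • τ) = denom γ τ ^ 4 * E₄ τ := by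
  exact_mod_cast levelOne_smul E₄ γ τ

lemma E₆_smul (γ : SL(2, ℤ)) (τ : ℍ) : E₆ (γ • τ) = denom γ τ ^ 6 * E₆ τ := by
  exact_mod_cast levelOne_smul E₆ γ τ

lemma disc_smul (γ : SL(2, ℤ)) (τ : ℍ) :
    discriminant (γ • τ) = denom γ τ ^ 12 * discriminant τ := by
  exact_mod_cast levelOne_smul CuspForm.discriminant γ τ

lemma jInv_smul (γ : SL(2, ℤ)) (τ : ℍ) : jInv (γ • τ) = jInv τ := by
  rw [jInv, jInv, E₄_smul, disc_smul]
  have h := discriminant_ne_zero τ
  have h2 : denom γ τ ≠ 0 := denom_ne_zero _ _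
  field_simp

/-- `D j = - E₄² E₆ / Δ`. -/
theorem deriv_jInv (τ : ℍ) :
    normalizedDerivOfComplex jInv τ = - (E₄ τ ^ 2 * E₆ τ / discriminant τ) := by
  have h0 := discriminant_ne_zero τ
  have h1 : jInv * discriminant = (E₄ : ℍ → ℂ) ^ 3 := by
    ext z
    exact jInv_mul_disc z
  have h2 := congrFun (congrArg normalizedDerivOfComplex h1) τ
  rw [normalizedDerivOfComplex_mul _ _ jInv_mdiff disc_mdiff,
    normalizedDerivOfComplex_pow _ _ (levelOne_mdiff E₄)] at h2
  simp only [Pi.add_apply, Pi.mul_apply, Pi.pow_apply, deriv_E₄, deriv_disc, Pi.natCast_apply] at h2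
  have h3 := jInv_mul_disc τ
  rw [neg_div', eq_div_iff h0]
  push_cast at h2
  linear_combination h2 - E2 τ * h3

/-! ### Analyticity and orders of vanishing -/

lemma analyticAt_of_mdiff {F : ℍ → ℂ} (hF : MDiff F) (τ : ℍ) :
    AnalyticAt ℂ (F ∘ ofComplex) (τ : ℂ) := by
  rw [UpperHalfPlane.mdifferentiable_iff] at hF
  exact hF.analyticAt (isOpen_upperHalfPlaneSet.mem_nhds τ.im_pos)

lemma deriv_eq_normalizedDeriv (F : ℍ → ℂ) (τ : ℍ) :
    deriv (F ∘ ofComplex) (τ : ℂ) = 2 * π * Complex.I * normalizedDerivOfComplex F τ := by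
  rw [normalizedDerivOfComplex]
  have : (2 * π * Complex.I) ≠ 0 := by simp [Real.pi_ne_zero]
  field_simp

/-- The usual derivative of `j`. -/
theorem deriv_jInv_comp (τ : ℍ) :
    deriv (jInv ∘ ofComplex) (τ : ℂ) =
      - (2 * π * Complex.I) * (E₄ τ ^ 2 * E₆ τ / discriminant τ) := by
  rw [deriv_eq_normalizedDeriv, deriv_jInv]
  ring

lemma deriv_E₄_ne_zero {τ : ℍ} (h : E₄ τ = 0) : deriv (E₄ ∘ ofComplex) (τ : ℂ) ≠ 0 := by
  rw [deriv_eq_normalizedDeriv, deriv_E₄, h]
  have := (E₄_E₆_not_both_zero τ).resolve_left (by simpa using h)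
  simp [this, Real.pi_ne_zero]

lemma deriv_E₆_ne_zero {τ : ℍ} (h : E₆ τ = 0) : deriv (E₆ ∘ ofComplex) (τ : ℂ) ≠ 0 := by
  rw [deriv_eq_normalizedDeriv, deriv_E₆, h]
  have := (E₄_E₆_not_both_zero τ).resolve_right (by simpa using h)
  simp [this, Real.pi_ne_zero]

lemma analyticOrderAt_E₄ {τ : ℍ} (h : E₄ τ = 0) :
    analyticOrderAt (E₄ ∘ ofComplex) (τ : ℂ) = 1 :=
  (analyticAt_of_mdiff (levelOne_mdiff E₄) τ).analyticOrderAt_eq_one_of_zero_deriv_ne_zero
    (by simpa using h) (deriv_E₄_ne_zero h)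

lemma analyticOrderAt_E₆ {τ : ℍ} (h : E₆ τ = 0) :
    analyticOrderAt (E₆ ∘ ofComplex) (τ : ℂ) = 1 :=
  (analyticAt_of_mdiff (levelOne_mdiff E₆) τ).analyticOrderAt_eq_one_of_zero_deriv_ne_zero
    (by simpa using h) (deriv_E₆_ne_zero h)

lemma disc_inv_mdiff : MDiff (fun τ : ℍ => (discriminant τ)⁻¹) := by
  have h : MDiff (fun _ : ℍ => (1 : ℂ)) := mdifferentiable_const
  simpa [Pi.div_def] using h.div disc_mdiff discriminant_ne_zero

lemma analyticOrderAt_disc_inv (τ : ℍ) :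
    analyticOrderAt ((fun τ : ℍ => (discriminant τ)⁻¹) ∘ ofComplex) (τ : ℂ) = 0 := by
  rw [(analyticAt_of_mdiff disc_inv_mdiff τ).analyticOrderAt_eq_zero]
  simp [discriminant_ne_zero τ]

/-- `j - j(τ)` has a simple zero at non-elliptic `τ`. -/
theorem analyticOrderAt_jInv_of_ne {τ : ℍ} (h4 : E₄ τ ≠ 0) (h6 : E₆ τ ≠ 0) :
    analyticOrderAt (fun z : ℂ => jInv (ofComplex z) - jInv τ) (τ : ℂ) = 1 := by
  have h := (analyticAt_of_mdiff jInv_mdiff τ).analyticOrderAt_sub_eq_one_of_deriv_ne_zero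
    (by
      rw [deriv_jInv_comp]
      simp [Real.pi_ne_zero, h4, h6, discriminant_ne_zero τ])
  simpa using h

/-- `j` has a triple zero at each zero of `E₄`. -/
theorem analyticOrderAt_jInv_of_E₄ {τ : ℍ} (h4 : E₄ τ = 0) :
    analyticOrderAt (fun z : ℂ => jInv (ofComplex z) - jInv τ) (τ : ℂ) = 3 := by
  have h0 : jInv τ = 0 := (jInv_eq_zero_iff τ).mpr h4
  have h1 : (fun z : ℂ => jInv (ofComplex z) - jInv τ) =
      (E₄ ∘ ofComplex) ^ 3 * ((fun τ : ℍ => (discriminant τ)⁻¹) ∘ ofComplex) := by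
    ext z
    rw [h0]
    simp [jInv, div_eq_mul_inv]
  have hA := analyticAt_of_mdiff (levelOne_mdiff E₄) τ
  rw [h1, analyticOrderAt_mul (hA.pow 3) (analyticAt_of_mdiff disc_inv_mdiff τ),
    analyticOrderAt_pow hA, analyticOrderAt_E₄ h4, analyticOrderAt_disc_inv]
  rfl

/-- `j - 1728` has a double zero at each zero of `E₆`. -/
theorem analyticOrderAt_jInv_of_E₆ {τ : ℍ} (h6 : E₆ τ = 0) :
    analyticOrderAt (fun z : ℂ => jInv (ofComplex z) - jInv τ) (τ : ℂ) = 2 := by
  have h0 : jInv τ = 1728 := (jInv_eq_1728_iff τ).mpr h6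
  have h1 : (fun z : ℂ => jInv (ofComplex z) - jInv τ) =
      (E₆ ∘ ofComplex) ^ 2 * ((fun τ : ℍ => (discriminant τ)⁻¹) ∘ ofComplex) := by
    ext z
    simp [h0, jInv_sub_1728, div_eq_mul_inv]
  have hA := analyticAt_of_mdiff (levelOne_mdiff E₆) τ
  rw [h1, analyticOrderAt_mul (hA.pow 2) (analyticAt_of_mdiff disc_inv_mdiff τ),
    analyticOrderAt_pow hA, analyticOrderAt_E₆ h6, analyticOrderAt_disc_inv]
  rfl

/-- The order of `j - j(τ)` at `τ`. -/
theorem analyticOrderAt_jInv (τ : ℍ) :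
    analyticOrderAt (fun z : ℂ => jInv (ofComplex z) - jInv τ) (τ : ℂ) =
      if jInv τ = 0 then 3 else if jInv τ = 1728 then 2 else 1 := by
  split_ifs with h4 h6
  · exact analyticOrderAt_jInv_of_E₄ ((jInv_eq_zero_iff τ).mp h4)
  · exact analyticOrderAt_jInv_of_E₆ ((jInv_eq_1728_iff τ).mp h6)
  · exact analyticOrderAt_jInv_of_ne (fun h => h4 ((jInv_eq_zero_iff τ).mpr h))
      (fun h => h6 ((jInv_eq_1728_iff τ).mpr h))

/-! ### Values at the elliptic points -/

theorem E₆_I : E₆ UpperHalfPlane.I = 0 := by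
  have h := E₆_smul ModularGroup.S UpperHalfPlane.I
  have h1 : ModularGroup.S • UpperHalfPlane.I = UpperHalfPlane.I :=
    ModularGroup.stabilizer_I.mpr (by simp)
  rw [h1, ModularGroup.denom_S] at h
  have h2 : ((UpperHalfPlane.I : ℍ) : ℂ) ^ 6 = -1 := by
    rw [UpperHalfPlane.coe_I]
    calc Complex.I ^ 6 = (Complex.I ^ 2) ^ 3 := by ring
      _ = -1 := by rw [Complex.I_sq]; norm_num
  rw [h2] at h
  linear_combination h / 2

theorem jInv_I : jInv UpperHalfPlane.I = 1728 := (jInv_eq_1728_iff _).mpr E₆_I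

theorem E₄_ρ : E₄ UpperHalfPlane.ρ = 0 := by
  have h := E₄_smul (ModularGroup.S * ModularGroup.T) UpperHalfPlane.ρ
  have h1 : (ModularGroup.S * ModularGroup.T) • UpperHalfPlane.ρ = UpperHalfPlane.ρ :=
    ModularGroup.stabilizer_ρ.mpr (by simp)
  have hd : denom (ModularGroup.S * ModularGroup.T : SL(2, ℤ)) UpperHalfPlane.ρ =
      UpperHalfPlane.ρ + 1 := by
    rw [ModularGroup.denom_apply,
      show (ModularGroup.S * ModularGroup.T) 1 0 = 1 by decide,
      show (ModularGroup.S * ModularGroup.T) 1 1 = 1 by decide]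
    simp
  rw [h1, hd] at h
  have h2 := UpperHalfPlane.ρ_sq
  have h3 : ((UpperHalfPlane.ρ : ℂ) + 1) ^ 4 = -UpperHalfPlane.ρ - 1 := by
    linear_combination (ρ ^ 2 + 3 * ρ + 2 : ℂ) * h2
  rw [h3] at h
  have h4 : ((UpperHalfPlane.ρ : ℂ) + 2) ≠ 0 := by
    intro h5
    have := congrArg Complex.im h5
    simp [UpperHalfPlane.ρ] at this
  have h5 : ((UpperHalfPlane.ρ : ℂ) + 2) * E₄ UpperHalfPlane.ρ = 0 := by
    linear_combination h
  exact (mul_eq_zero.mp h5).resolve_left h4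

theorem jInv_ρ : jInv UpperHalfPlane.ρ = 0 := (jInv_eq_zero_iff _).mpr E₄_ρ

/-! ### Behaviour at infinity and surjectivity -/

lemma tendsto_disc : Tendsto discriminant atImInfty (𝓝 0) := discriminant_isZeroAtImInfty

/-- `1 / j → 0` at `i∞`. -/
lemma tendsto_jInv_inv : Tendsto (fun τ => (jInv τ)⁻¹) atImInfty (𝓝 0) := by
  have h := tendsto_disc.div (tendsto_E₄.pow 3) (by norm_num)
  simp only [zero_div] at h
  refine h.congr fun τ => ?_
  simp [jInv]

lemma tendsto_jInv : Tendsto jInv atImInfty (Bornology.cobounded ℂ) := by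
  have h := tendsto_jInv_inv
  have h0 : ∀ᶠ τ in atImInfty, jInv τ ≠ 0 := by
    have h1 : ∀ᶠ τ in atImInfty, E₄ τ ≠ 0 := tendsto_E₄.eventually_ne one_ne_zero
    filter_upwards [h1] with τ hτ
    rwa [ne_eq, jInv_eq_zero_iff]
  have h2 : Tendsto (fun τ => (jInv τ)⁻¹) atImInfty (𝓝[≠] 0) :=
    tendsto_nhdsWithin_iff.mpr ⟨h, h0.mono fun τ hτ => inv_ne_zero hτ⟩
  have h3 := (Filter.tendsto_inv₀_nhdsNE_zero (α := ℂ)).comp h2
  refine h3.congr fun τ => ?_
  simp

/-- Construct a level one modular form from a transformation law in terms of `denom`. -/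
def mkLevelOne (k : ℤ) (F : ℍ → ℂ) (h : ∀ (γ : SL(2, ℤ)) (τ : ℍ), F (γ • τ) = denom γ τ ^ k * F τ)
    (hol : MDiff F) (hb : IsBoundedAtImInfty F) : ModularForm 𝒮ℒ k where
  toFun := F
  slash_action_eq' := by
    rintro _ ⟨γ, rfl⟩
    change F ∣[k] γ = F
    ext τ
    rw [SL_slash_apply, h, mul_comm (denom _ _ ^ k), mul_assoc,
      ← zpow_add₀ (denom_ne_zero _ _), add_neg_cancel, zpow_zero, mul_one]
  holo' := hol
  bdd_at_cusps' {c} hc := by
    rw [Subgroup.IsArithmetic.isCusp_iff_isCusp_SL2Z] at hc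
    rw [OnePoint.isBoundedAt_iff_forall_SL2Z hc]
    intro γ _
    have h1 : F ∣[k] γ = F := by
      ext τ
      rw [SL_slash_apply, h, mul_comm (denom _ _ ^ k), mul_assoc,
        ← zpow_add₀ (denom_ne_zero _ _), add_neg_cancel, zpow_zero, mul_one]
    change IsBoundedAtImInfty (F ∣[k] γ)
    rwa [h1]

@[simp] lemma mkLevelOne_apply (k : ℤ) (F : ℍ → ℂ) (h hol hb) (τ : ℍ) :
    mkLevelOne k F h hol hb τ = F τ := rfl

/-- Every complex number is a value of `j`. -/
theorem jInv_surjective : Function.Surjective jInv := by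
  intro w
  by_contra! hw
  have hP : ∀ τ : ℍ, E₄ τ ^ 3 - w * discriminant τ ≠ 0 := by
    intro τ h
    apply hw τ
    rw [jInv, div_eq_iff (discriminant_ne_zero τ)]
    linear_combination h
  have hPd : MDiff (fun τ => E₄ τ ^ 3 - w * discriminant τ) := by
    have h1 : MDiff (fun _ : ℍ => w) := mdifferentiable_const
    exact ((levelOne_mdiff E₄).pow 3).sub (h1.mul disc_mdiff)
  have hlim : Tendsto (fun τ => discriminant τ / (E₄ τ ^ 3 - w * discriminant τ)) atImInfty (𝓝 0) := by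
    have h1 := tendsto_disc.div ((tendsto_E₄.pow 3).sub (tendsto_disc.const_mul w)) (by norm_num)
    rw [zero_div] at h1
    exact h1
  obtain ⟨c, hc⟩ := ModularFormClass.levelOne_weight_zero_const
    (mkLevelOne 0 (fun τ => discriminant τ / (E₄ τ ^ 3 - w * discriminant τ)) (by
      intro γ τ
      have h1 : denom γ τ ≠ 0 := denom_ne_zero _ _
      simp only [E₄_smul, disc_smul, zpow_zero, one_mul]
      have h2 : (denom γ τ ^ 4 * E₄ τ) ^ 3 - w * (denom γ τ ^ 12 * discriminant τ) =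
        denom γ τ ^ 12 * (E₄ τ ^ 3 - w * discriminant τ) := by ring
      rw [h2, mul_div_mul_left _ _ (pow_ne_zero _ h1)])
      (disc_mdiff.div hPd hP) (hlim.isBigO_one ℝ))
  have h1 : ∀ τ, discriminant τ / (E₄ τ ^ 3 - w * discriminant τ) = c := fun τ => congrFun hc τ
  have h2 : c = 0 := by
    have h3 : Tendsto (fun _ : ℍ => c) atImInfty (𝓝 0) := hlim.congr h1
    exact tendsto_nhds_unique tendsto_const_nhds h3
  have h4 := h1 UpperHalfPlane.I
  rw [h2, div_eq_zero_iff] at h4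
  exact h4.elim (discriminant_ne_zero _) (hP _)

end Fermat.Agent.H61
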