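import Mathlib
import Fermat.Agent.H24Conv
import Fermat.Agent.H61Valence

set_option autoImplicit false

namespace Fermat.Agent.H24

open UpperHalfPlane hiding I
open Complex MatrixGroups ModularGroup Fermat.Agent.H61
open scoped Manifold

noncomputable section

-- JOB S24-T3 (file H24Cayley.lean)
/-- the Cayley coordinate at `τ₀` -/
def cayley (τ₀ τ : ℍ) : ℂ := ((τ : ℂ) - τ₀) / ((τ : ℂ) - (starRingEnd ℂ) (τ₀ : ℂ))

theorem cayley_den_ne (τ₀ τ : ℍ) : (τ : ℂ) - (starRingEnd ℂ) (τ₀ : ℂ) ≠ 0 := by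
  intro h
  have := congrArg Complex.im h
  simp only [Complex.sub_im, Complex.conj_im, UpperHalfPlane.coe_im, Complex.zero_im] at this
  have h1 := τ₀.im_pos
  have h2 := τ.im_pos
  linarith

theorem norm_cayley_lt_one (τ₀ τ : ℍ) : ‖cayley τ₀ τ‖ < 1 := by
  rw [cayley, norm_div, div_lt_one (norm_pos_iff.2 (cayley_den_ne τ₀ τ))]
  have h1 := τ₀.im_pos
  have h2 := τ.im_pos
  rw [← sq_lt_sq₀ (norm_nonneg _) (norm_nonneg _), Complex.sq_norm, Complex.sq_norm,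
    Complex.normSq_apply, Complex.normSq_apply]
  simp only [Complex.sub_re, Complex.sub_im, Complex.conj_re, Complex.conj_im,
    UpperHalfPlane.coe_im, UpperHalfPlane.coe_re]
  nlinarith [mul_pos h1 h2]

theorem cayley_eq_zero_iff (τ₀ τ : ℍ) : cayley τ₀ τ = 0 ↔ τ = τ₀ := by
  rw [cayley, div_eq_zero_iff, or_iff_left (cayley_den_ne τ₀ τ), sub_eq_zero]
  exact ⟨fun h => UpperHalfPlane.ext h, fun h => by rw [h]⟩

/-- the inverse of the Cayley map -/
def cayleyInv (τ₀ : ℍ) (w : ℂ) : ℂ := ((τ₀ : ℂ) - (starRingEnd ℂ) (τ₀ : ℂ) * w) / (1 - w)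

theorem one_sub_ne_zero_of_norm_lt {w : ℂ} (hw : ‖w‖ < 1) : (1 : ℂ) - w ≠ 0 := by
  intro h
  rw [sub_eq_zero] at h
  rw [← h, norm_one] at hw
  exact lt_irrefl _ hw

theorem cayleyInv_im_pos (τ₀ : ℍ) {w : ℂ} (hw : ‖w‖ < 1) : 0 < (cayleyInv τ₀ w).im := by
  have h1 := one_sub_ne_zero_of_norm_lt hw
  have h2 := τ₀.im_pos
  have h3 : 0 < Complex.normSq (1 - w) := Complex.normSq_pos.2 h1
  have h4 : w.re * w.re + w.im * w.im < 1 := by
    rw [← Complex.normSq_apply, ← Complex.sq_norm]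
    nlinarith [norm_nonneg w]
  rw [cayleyInv, Complex.div_im]
  rw [← sub_div]
  apply div_pos _ h3
  simp only [Complex.sub_re, Complex.sub_im, Complex.mul_re, Complex.mul_im, Complex.conj_re,
    Complex.conj_im, UpperHalfPlane.coe_im, UpperHalfPlane.coe_re, Complex.one_re, Complex.one_im]
  nlinarith [mul_pos h2 (sub_pos.2 h4)]

theorem cayley_cayleyInv (τ₀ : ℍ) {w : ℂ} (hw : ‖w‖ < 1) :
    cayley τ₀ ⟨cayleyInv τ₀ w, cayleyInv_im_pos τ₀ hw⟩ = w := by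
  have h1 := one_sub_ne_zero_of_norm_lt hw
  have h2 := cayley_den_ne τ₀ ⟨cayleyInv τ₀ w, cayleyInv_im_pos τ₀ hw⟩
  rw [cayley, div_eq_iff h2]
  simp only [cayleyInv]
  field_simp
  ring

theorem cayleyInv_cayley (τ₀ τ : ℍ) : cayleyInv τ₀ (cayley τ₀ τ) = τ := by
  have h1 := one_sub_ne_zero_of_norm_lt (norm_cayley_lt_one τ₀ τ)
  rw [cayleyInv, div_eq_iff h1, cayley]
  have h2 := cayley_den_ne τ₀ τ
  field_simp
  ring

theorem exists_cayley_eq (τ₀ : ℍ) {w : ℂ} (hw : ‖w‖ < 1) : ∃ τ : ℍ, cayley τ₀ τ = w :=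
  ⟨_, cayley_cayleyInv τ₀ hw⟩

theorem differentiableAt_cayleyInv (τ₀ : ℍ) {w : ℂ} (hw : ‖w‖ < 1) :
    DifferentiableAt ℂ (cayleyInv τ₀) w := by
  have h1 := one_sub_ne_zero_of_norm_lt hw
  unfold cayleyInv
  fun_prop (disch := assumption)

theorem deriv_cayleyInv_zero (τ₀ : ℍ) :
    deriv (cayleyInv τ₀) 0 = (τ₀ : ℂ) - (starRingEnd ℂ) (τ₀ : ℂ) := by
  have h1 : HasDerivAt (fun w : ℂ => ((τ₀ : ℂ) - (starRingEnd ℂ) (τ₀ : ℂ) * w))
      (-((starRingEnd ℂ) (τ₀ : ℂ))) 0 := by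
    have := ((hasDerivAt_id (0 : ℂ)).const_mul ((starRingEnd ℂ) (τ₀ : ℂ))).const_sub (τ₀ : ℂ)
    simpa using this
  have h2 : HasDerivAt (fun w : ℂ => (1 : ℂ) - w) (-1) 0 := by
    simpa using (hasDerivAt_id (0 : ℂ)).const_sub (1 : ℂ)
  have h3 := h1.div h2 (by simp)
  have h4 : deriv (cayleyInv τ₀) 0 = _ := h3.deriv
  rw [h4]
  simp
  ring

theorem exists_expansion_cayley (τ₀ : ℍ) {f : ℍ → ℂ} (hf : MDiff f) :
    ∃ P : PowerSeries ℂ, IsConv (HahnSeries.ofPowerSeries ℤ ℂ P) ∧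
      (∀ τ : ℍ, evalAt (cayley τ₀ τ) (HahnSeries.ofPowerSeries ℤ ℂ P) = f τ) ∧
      (∀ n : ℕ, analyticOrderAt (fun z : ℂ => f (ofComplex z)) (τ₀ : ℂ) = n →
        (HahnSeries.ofPowerSeries ℤ ℂ P) ≠ 0 ∧ (HahnSeries.ofPowerSeries ℤ ℂ P).order = n) := by
  have hfd : DifferentiableOn ℂ (f ∘ ofComplex) {z : ℂ | 0 < z.im} :=
    UpperHalfPlane.mdifferentiable_iff.1 hf
  set g : ℂ → ℂ := (fun z : ℂ => f (ofComplex z)) ∘ cayleyInv τ₀ with hg
  have hgd : DifferentiableOn ℂ g (Metric.ball 0 1) := by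
    intro w hw
    rw [Metric.mem_ball, dist_zero_right] at hw
    refine DifferentiableAt.differentiableWithinAt ?_
    have h1 : DifferentiableAt ℂ (f ∘ ofComplex) (cayleyInv τ₀ w) :=
      (hfd _ (cayleyInv_im_pos τ₀ hw)).differentiableAt
        ((isOpen_lt continuous_const Complex.continuous_im).mem_nhds (cayleyInv_im_pos τ₀ hw))
    exact h1.comp w (differentiableAt_cayleyInv τ₀ hw)
  refine ⟨taylor g, isConv_taylor hgd, fun τ => ?_, fun n hn => ?_⟩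
  · rw [evalAt_taylor hgd (norm_cayley_lt_one τ₀ τ)]
    simp only [hg, Function.comp_apply, cayleyInv_cayley]
    rw [UpperHalfPlane.ofComplex_apply]
  · have hinv0 : cayleyInv τ₀ 0 = τ₀ := by simp [cayleyInv]
    have hana : AnalyticAt ℂ (cayleyInv τ₀) 0 := by
      have : DifferentiableOn ℂ (cayleyInv τ₀) (Metric.ball 0 1) := fun w hw =>
        (differentiableAt_cayleyInv τ₀ (by simpa using hw)).differentiableWithinAt
      exact this.analyticAt (Metric.ball_mem_nhds _ one_pos)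
    have hder : deriv (cayleyInv τ₀) 0 ≠ 0 := by
      rw [deriv_cayleyInv_zero]
      exact cayley_den_ne τ₀ τ₀
    have h1 : analyticOrderAt g 0 = n := by
      rw [hg, analyticOrderAt_comp_of_deriv_ne_zero hana hder, hinv0, hn]
    have hgana : AnalyticAt ℂ g 0 := hgd.analyticAt (Metric.ball_mem_nhds _ one_pos)
    obtain ⟨h2, h3⟩ := (analyticOrderAt_eq_nat_iff_iteratedDeriv_eq_zero hgana).1 h1
    have h4 : (HahnSeries.ofPowerSeries ℤ ℂ (taylor g)).coeff n ≠ 0 := by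
      rw [HahnSeries.ofPowerSeries_apply_coeff, taylor, PowerSeries.coeff_mk]
      exact mul_ne_zero (inv_ne_zero (Nat.cast_ne_zero.2 (Nat.factorial_ne_zero n))) h3
    have h5 : HahnSeries.ofPowerSeries ℤ ℂ (taylor g) ≠ 0 := fun h => h4 (by rw [h]; rfl)
    refine ⟨h5, le_antisymm (HahnSeries.order_le_of_coeff_ne_zero h4) ?_⟩
    by_contra hlt
    push Not at hlt
    set m := (HahnSeries.ofPowerSeries ℤ ℂ (taylor g)).order with hm
    have h6 : (HahnSeries.ofPowerSeries ℤ ℂ (taylor g)).coeff m ≠ 0 := fun h =>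
      h5 (HahnSeries.coeff_order_eq_zero.mp h)
    rcases lt_or_ge m 0 with hm0 | hm0
    · exact h6 (ofPowerSeries_coeff_neg _ hm0)
    · obtain ⟨k, hk⟩ := Int.eq_ofNat_of_zero_le hm0
      rw [hk] at h6 hlt
      apply h6
      rw [HahnSeries.ofPowerSeries_apply_coeff, taylor, PowerSeries.coeff_mk,
        h2 k (by exact_mod_cast hlt), mul_zero]

theorem cayley_I_S (τ : ℍ) : cayley UpperHalfPlane.I (S • τ) = - cayley UpperHalfPlane.I τ := by
  have hτ : (τ : ℂ) ≠ 0 := τ.ne_zero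
  have h1 := cayley_den_ne UpperHalfPlane.I τ
  have h2 := cayley_den_ne UpperHalfPlane.I (S • τ)
  have hS : ((S • τ : ℍ) : ℂ) = - (τ : ℂ)⁻¹ := by
    rw [UpperHalfPlane.modular_S_smul, ← inv_neg]
  rw [cayley, cayley, ← neg_div, div_eq_div_iff h2 h1, hS]
  simp only [UpperHalfPlane.coe_I, Complex.conj_I]
  field_simp
  ring_nf
  simp

theorem exists_cayley_ρ_ST : ∃ ζ : ℂ, IsPrimitiveRoot ζ 3 ∧
    ∀ τ : ℍ, cayley UpperHalfPlane.ρ ((S * T) • τ) = ζ * cayley UpperHalfPlane.ρ τ := by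
  have hρ2 := UpperHalfPlane.ρ_sq
  set ρ : ℂ := (UpperHalfPlane.ρ : ℂ) with hρ
  have hρim : ρ.im ≠ 0 := UpperHalfPlane.ρ.im_pos.ne'
  have hconj : (starRingEnd ℂ) ρ = ρ ^ 2 := by
    rw [hρ2]
    apply Complex.ext
    · simp [hρ, UpperHalfPlane.ρ]; norm_num
    · simp
  have hρ3 : ρ ^ 3 = 1 := by linear_combination (ρ - 1) * hρ2
  have hρ0 : ρ ≠ 0 := UpperHalfPlane.ρ.ne_zero
  refine ⟨ρ ^ 2, ?_, fun τ => ?_⟩
  · have h1 : (ρ ^ 2) ^ 3 = 1 := by rw [← pow_mul, mul_comm, pow_mul, hρ3, one_pow]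
    have h2 : ρ ^ 2 ≠ 1 := by
      rw [hρ2]
      intro h
      have := congrArg Complex.im h
      simp at this
      exact hρim this
    have := orderOf_eq_prime h1 h2
    rw [← this]
    exact IsPrimitiveRoot.orderOf _
  · have hST : (((S * T) • τ : ℍ) : ℂ) = - ((τ : ℂ) + 1)⁻¹ := by
      rw [mul_smul, UpperHalfPlane.modular_S_smul, UpperHalfPlane.modular_T_smul, ← inv_neg]
      simp [add_comm]
    have hτ1 : (τ : ℂ) + 1 ≠ 0 := by
      intro h
      have := congrArg Complex.im h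
      simp at this
      exact τ.im_pos.ne' this
    have h1 := cayley_den_ne UpperHalfPlane.ρ τ
    have h2 := cayley_den_ne UpperHalfPlane.ρ ((S * T) • τ)
    rw [← hρ, hconj] at h1 h2
    rw [hST] at h2
    rw [cayley, cayley, ← hρ, hconj, hST, ← mul_div_assoc, div_eq_div_iff h2 h1]
    field_simp
    have e1 : (-1 - ((τ : ℂ) + 1) * ρ) = ρ ^ 2 - ρ * τ := by linear_combination (-1 : ℂ) * hρ2
    have e2 : (-1 - ((τ : ℂ) + 1) * ρ ^ 2) = ρ - τ * ρ ^ 2 := by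
      linear_combination (-1 : ℂ) * hρ2
    rw [e1, e2]
    linear_combination ((τ : ℂ) - ρ) * τ * ρ * hρ3

end

end Fermat.Agent.H24
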