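import Mathlib
import Fermat.Agent.H24Conv
import Fermat.Agent.H61Valence

/-! Job S24-T2 (helper58): Hermite form, expansions of `j(d γ τ)`, stabiliser of `j(N τ)`. -/

set_option autoImplicit false

namespace Fermat.Agent.H24

open UpperHalfPlane hiding I
open Complex MatrixGroups ModularGroup Fermat.Agent.H61
open scoped Manifold

noncomputable section

/-- `τ ↦ d τ` on the upper half plane -/
def scale (d : ℕ) [NeZero d] (τ : ℍ) : ℍ :=
  ⟨(d : ℂ) * τ, by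
    have : (0 : ℝ) < d := by exact_mod_cast Nat.pos_of_ne_zero (NeZero.ne d)
    simpa using mul_pos this τ.im_pos⟩

/-- `τ ↦ (a τ + b) / e` on the upper half plane -/
def affine (a : ℕ) (b : ℤ) (e : ℕ) [NeZero a] [NeZero e] (τ : ℍ) : ℍ :=
  ⟨((a : ℂ) * τ + b) / e, by
    have h1 : (0 : ℝ) < a := by exact_mod_cast Nat.pos_of_ne_zero (NeZero.ne a)
    have h2 : (0 : ℝ) < e := by exact_mod_cast Nat.pos_of_ne_zero (NeZero.ne e)
    have : (((a : ℂ) * τ + b) / e).im = a * τ.im / e := by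
      rw [Complex.div_natCast_im]; simp
    rw [this]
    exact div_pos (mul_pos h1 τ.im_pos) h2⟩

theorem coe_scale (d : ℕ) [NeZero d] (τ : ℍ) : ((scale d τ : ℍ) : ℂ) = (d : ℂ) * τ := rfl

theorem coe_affine (a : ℕ) (b : ℤ) (e : ℕ) [NeZero a] [NeZero e] (τ : ℍ) :
    ((affine a b e τ : ℍ) : ℂ) = ((a : ℂ) * τ + b) / e := rfl

theorem coe_SL_smul (g : SL(2, ℤ)) (z : ℍ) :
    ((g • z : ℍ) : ℂ) = (((g 0 0 : ℤ) : ℂ) * z + ((g 0 1 : ℤ) : ℂ)) /
      (((g 1 0 : ℤ) : ℂ) * z + ((g 1 1 : ℤ) : ℂ)) := by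
  rw [coe_specialLinearGroup_apply]
  simp

theorem SL_denom_ne_zero (g : SL(2, ℤ)) (z : ℍ) :
    (((g 1 0 : ℤ) : ℂ) * z + ((g 1 1 : ℤ) : ℂ)) ≠ 0 := by
  have := UpperHalfPlane.denom_ne_zero (g : GL (Fin 2) ℝ) z
  simpa [UpperHalfPlane.denom] using this

theorem SL_det_eq (g : SL(2, ℤ)) : g 0 0 * g 1 1 - g 0 1 * g 1 0 = 1 := by
  have h := g.det_coe
  rwa [Matrix.det_fin_two] at h

-- JOB S24-T2 (file H24Coset.lean)
theorem exists_hermite (γ : SL(2, ℤ)) (d : ℕ) [NeZero d] :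
    ∃ (a e : ℕ) (b : ℤ) (_ : NeZero a) (_ : NeZero e), a * e = d ∧ (e = 1 → (d : ℤ) ∣ γ 1 0) ∧
      ∃ M : SL(2, ℤ), ∀ τ : ℍ, M • scale d (γ • τ) = affine a b e τ := by
  have hd : d ≠ 0 := NeZero.ne d
  have hdet := SL_det_eq γ
  set α := γ 0 0
  set β := γ 0 1
  set c := γ 1 0
  set δ := γ 1 1
  have hαc : IsCoprime α c := ⟨δ, -β, by linear_combination hdet⟩
  -- a = gcd (d, c)
  set a : ℕ := Int.gcd (d : ℤ) c with ha
  have ha0 : a ≠ 0 := by
    rw [ha]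
    intro h
    rw [Int.gcd_eq_zero_iff] at h
    exact hd (by exact_mod_cast h.1)
  have had : (a : ℤ) ∣ d := Int.gcd_dvd_left _ _
  have hac : (a : ℤ) ∣ c := Int.gcd_dvd_right _ _
  obtain ⟨e', he'⟩ := had
  have he'pos : 0 < e' := by
    by_contra hle
    push Not at hle
    have : (d : ℤ) ≤ 0 := by rw [he']; exact mul_nonpos_of_nonneg_of_nonpos (by positivity) hle
    have h2 : (0 : ℤ) < d := by exact_mod_cast Nat.pos_of_ne_zero hd
    omega
  obtain ⟨e, rfl⟩ := Int.eq_ofNat_of_zero_le he'pos.le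
  have he0 : e ≠ 0 := by rintro rfl; simp at he'pos
  have hde : a * e = d := by exact_mod_cast he'.symm
  obtain ⟨c', hc'⟩ := hac
  -- Bezout: x * (d α) + y c = a
  have hgcd : IsCoprime ((e : ℤ) * α) c' := by
    -- gcd (e, c') = 1 and gcd(α, c') = 1
    have h1 : IsCoprime (e : ℤ) c' := by
      obtain ⟨u, v, huv⟩ := (⟨Int.gcdA d c, Int.gcdB d c, (Int.gcd_eq_gcd_ab (d : ℤ) c).symm⟩ :
        ∃ u v : ℤ, (d : ℤ) * u + c * v = (Int.gcd (d : ℤ) c : ℤ))
      refine ⟨u, v, ?_⟩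
      have ha' : (a : ℤ) ≠ 0 := by exact_mod_cast ha0
      apply mul_left_cancel₀ ha'
      rw [← ha] at huv
      rw [he', hc'] at huv
      linear_combination huv
    have h2 : IsCoprime α c' := hαc.of_isCoprime_of_dvd_right ⟨a, by rw [hc']; ring⟩
    exact IsCoprime.mul_left h1 h2
  obtain ⟨x, y, hxy⟩ := hgcd
  have : NeZero a := ⟨ha0⟩
  have : NeZero e := ⟨he0⟩
  refine ⟨a, e, x * d * β + y * δ, ⟨ha0⟩, ⟨he0⟩, hde, ?_, ?_⟩
  · rintro rfl
    rw [hc', ← hde]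
    exact ⟨c', by push_cast; ring⟩
  · have hMdet : (!![x, y; -c', e * α]).det = 1 := by
      rw [Matrix.det_fin_two_of]
      linear_combination hxy
    set M : SL(2, ℤ) := ⟨!![x, y; -c', e * α], hMdet⟩ with hM
    refine ⟨M, fun τ => ?_⟩
    · apply UpperHalfPlane.ext
      rw [coe_SL_smul, coe_scale, coe_affine, coe_SL_smul]
      have h1 := SL_denom_ne_zero γ τ
      have he : (e : ℂ) ≠ 0 := by exact_mod_cast he0
      have hM00 : M 0 0 = x := rfl
      have hM01 : M 0 1 = y := rfl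
      have hM10 : M 1 0 = -c' := rfl
      have hM11 : M 1 1 = e * α := rfl
      rw [hM00, hM01, hM10, hM11]
      have hdetC : (α : ℂ) * δ - β * c = 1 := by exact_mod_cast hdet
      have hcC : (c : ℂ) = a * c' := by exact_mod_cast hc'
      have hdC : (d : ℂ) = a * e := by exact_mod_cast hde.symm
      have hxyC : (x : ℂ) * (e * α) + y * c' = 1 := by exact_mod_cast hxy
      set D : ℂ := ((c : ℤ) : ℂ) * τ + ((δ : ℤ) : ℂ) with hD
      have hden : ((-c' : ℤ) : ℂ) * ((d : ℂ) * (((α : ℂ) * τ + β) / D)) + ((e * α : ℤ) : ℂ) = e / D := by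
        push_cast
        field_simp
        rw [hD, hdC, hcC]
        rw [hcC] at hdetC
        linear_combination (e : ℂ) * hdetC
      rw [hden]
      have hnum : ((x : ℤ) : ℂ) * ((d : ℂ) * (((α : ℂ) * τ + β) / D)) + ((y : ℤ) : ℂ) =
          (a * τ + (x * d * β + y * δ)) / D := by
        field_simp
        rw [hD, hdC, hcC]
        linear_combination ((a : ℂ) * τ) * hxyC
      rw [hnum, div_div_div_cancel_right₀ h1]
      push_cast
      rfl

theorem scale_smul_of_dvd (γ : SL(2, ℤ)) (d : ℕ) [NeZero d] (h : (d : ℤ) ∣ γ 1 0) :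
    ∃ M : SL(2, ℤ), ∀ τ : ℍ, scale d (γ • τ) = M • scale d τ := by
  obtain ⟨c', hc'⟩ := h
  have hdet := SL_det_eq γ
  have hMdet : (!![γ 0 0, (d : ℤ) * γ 0 1; c', γ 1 1]).det = 1 := by
    rw [Matrix.det_fin_two_of]
    rw [hc'] at hdet
    linear_combination hdet
  set M : SL(2, ℤ) := ⟨!![γ 0 0, (d : ℤ) * γ 0 1; c', γ 1 1], hMdet⟩ with hM
  refine ⟨M, fun τ => ?_⟩
  apply UpperHalfPlane.ext
  rw [coe_scale, coe_SL_smul, coe_SL_smul, coe_scale]
  have hM00 : M 0 0 = γ 0 0 := rfl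
  have hM01 : M 0 1 = (d : ℤ) * γ 0 1 := rfl
  have hM10 : M 1 0 = c' := rfl
  have hM11 : M 1 1 = γ 1 1 := rfl
  rw [hM00, hM01, hM10, hM11]
  have hcC : ((γ 1 0 : ℤ) : ℂ) = d * c' := by exact_mod_cast hc'
  have h1 := SL_denom_ne_zero γ τ
  rw [hcC] at h1 ⊢
  push_cast
  rw [mul_div_assoc']
  congr 1
  · ring
  · ring

theorem qParam_affine (a : ℕ) (b : ℤ) (e : ℕ) [NeZero a] [NeZero e] (m : ℕ) [NeZero (e * m)]
    (τ : ℍ) :
    Function.Periodic.qParam 1 (affine a b e τ) =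
      Complex.exp (2 * Real.pi * Complex.I * b / e) *
        Function.Periodic.qParam ((e * m : ℕ) : ℝ) τ ^ (a * m) := by
  have he : (e : ℂ) ≠ 0 := by exact_mod_cast NeZero.ne e
  have hem : ((e * m : ℕ) : ℂ) ≠ 0 := by exact_mod_cast NeZero.ne (e * m)
  have hm : (m : ℂ) ≠ 0 := by
    intro h
    apply hem
    push_cast
    rw [h, mul_zero]
  simp only [Function.Periodic.qParam, coe_affine]
  rw [← Complex.exp_nat_mul, ← Complex.exp_add]
  congr 1
  push_cast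
  field_simp
  ring

theorem exists_expansion_affine {J : LaurentSeries ℂ} (hJ : IsConv J)
    (hJe : ∀ τ : ℍ, evalAt (Function.Periodic.qParam 1 τ) J = jInv τ)
    (a : ℕ) (b : ℤ) (e : ℕ) [NeZero a] [NeZero e] (m : ℕ) [NeZero m] :
    ∃ F : LaurentSeries ℂ, IsConv F ∧
      (J ≠ 0 → F ≠ 0 ∧ F.order = ((a * m : ℕ) : ℤ) * J.order) ∧
      ∀ τ : ℍ, evalAt (Function.Periodic.qParam ((e * m : ℕ) : ℝ) τ) F =
        jInv (affine a b e τ) := by
  have : NeZero (e * m) := ⟨mul_ne_zero (NeZero.ne e) (NeZero.ne m)⟩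
  have : NeZero (a * m) := ⟨mul_ne_zero (NeZero.ne a) (NeZero.ne m)⟩
  have hu0 : Complex.exp (2 * Real.pi * Complex.I * b / e) ≠ 0 := Complex.exp_ne_zero _
  set u : ℂˣ := Units.mk0 _ hu0 with hu
  have hu1 : ‖(u : ℂ)‖ = 1 := by
    rw [hu, Units.val_mk0, show (2 * Real.pi * Complex.I * b / e : ℂ) =
      ((2 * Real.pi * b / e : ℝ) : ℂ) * Complex.I by push_cast; ring]
    exact Complex.norm_exp_ofReal_mul_I _
  have hpos : (0 : ℤ) < ((a * m : ℕ) : ℤ) := by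
    exact_mod_cast Nat.pos_of_ne_zero (NeZero.ne (a * m))
  refine ⟨ModularCurve.qExpand ℂ (a * m) (twist u J), isConv_qExpand _ (isConv_twist hu1 hJ),
    fun hJ0 => ?_, fun τ => ?_⟩
  · have hcoef : (ModularCurve.qExpand ℂ (a * m) (twist u J)).coeff
        (((a * m : ℕ) : ℤ) * J.order) ≠ 0 := by
      rw [ModularCurve.qExpand_coeff_mul, twist_coeff]
      exact mul_ne_zero (Units.ne_zero _) (HahnSeries.coeff_order_eq_zero.not.mpr hJ0)
    have hF0 : ModularCurve.qExpand ℂ (a * m) (twist u J) ≠ 0 :=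
      HahnSeries.ne_zero_of_coeff_ne_zero hcoef
    refine ⟨hF0, le_antisymm (HahnSeries.order_le_of_coeff_ne_zero hcoef) ?_⟩
    by_contra hlt
    push Not at hlt
    have hne := HahnSeries.coeff_order_eq_zero.not.mpr hF0
    set n := (ModularCurve.qExpand ℂ (a * m) (twist u J)).order with hn
    by_cases hdvd : (((a * m : ℕ) : ℤ)) ∣ n
    · obtain ⟨j, hj⟩ := hdvd
      rw [hj, ModularCurve.qExpand_coeff_mul, twist_coeff] at hne
      refine hne ?_
      rw [HahnSeries.coeff_eq_zero_of_lt_order, mul_zero]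
      rw [hj] at hlt
      exact lt_of_mul_lt_mul_left hlt hpos.le
    · exact hne (ModularCurve.qExpand_coeff_of_not_dvd _ _ hdvd)
  · have hz0 : Function.Periodic.qParam ((e * m : ℕ) : ℝ) τ ≠ 0 :=
      Function.Periodic.qParam_ne_zero _
    have hz1 : ‖Function.Periodic.qParam ((e * m : ℕ) : ℝ) τ‖ < 1 :=
      Function.Periodic.norm_qParam_lt_one
        (by exact_mod_cast Nat.pos_of_ne_zero (NeZero.ne (e * m))) τ.im_pos
    rw [evalAt_qExpand _ (isConv_twist hu1 hJ) hz0 hz1, evalAt_twist, hu, Units.val_mk0,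
      ← qParam_affine, hJe]

theorem exists_expansion_scale {J : LaurentSeries ℂ} (hJ : IsConv J)
    (hJe : ∀ τ : ℍ, evalAt (Function.Periodic.qParam 1 τ) J = jInv τ)
    (N : ℕ) [NeZero N] (d : ℕ) [NeZero d] (hd : d ∣ N) (γ : SL(2, ℤ)) :
    ∃ F : LaurentSeries ℂ, IsConv F ∧
      ∀ τ : ℍ, evalAt (Function.Periodic.qParam N τ) F = jInv (scale d (γ • τ)) := by
  obtain ⟨a, e, b, ha, he, hae, -, M, hM⟩ := exists_hermite γ d
  obtain ⟨m, hm⟩ := hd
  have hN : N = e * (a * m) := by rw [hm, ← hae]; ring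
  have : NeZero (a * m) := ⟨by
    intro h
    rw [h, mul_zero] at hN
    exact NeZero.ne N hN⟩
  obtain ⟨F, hF, -, hFe⟩ := exists_expansion_affine hJ hJe a b e (a * m)
  refine ⟨F, hF, fun τ => ?_⟩
  rw [← jInv_smul M, hM, ← hFe τ, hN]

theorem exists_qParam_eq (N : ℕ) [NeZero N] {z : ℂ} (hz0 : z ≠ 0) (hz1 : ‖z‖ < 1) :
    ∃ τ : ℍ, Function.Periodic.qParam (N : ℝ) τ = z := by
  have hN : (0 : ℝ) < N := by exact_mod_cast Nat.pos_of_ne_zero (NeZero.ne N)
  refine ⟨⟨Function.Periodic.invQParam N z, ?_⟩, Function.Periodic.qParam_right_inv hN.ne' hz0⟩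
  rw [Function.Periodic.im_invQParam]
  have h1 : Real.log ‖z‖ < 0 := Real.log_neg (norm_pos_iff.mpr hz0) hz1
  have h2 : 0 < (N : ℝ) / (2 * Real.pi) := by positivity
  rw [neg_div, neg_mul]
  nlinarith

theorem mem_Gamma0_of_jInv_scale_eq {J : LaurentSeries ℂ} (hJ : IsConv J) (hJo : J.order = -1)
    (hJe : ∀ τ : ℍ, evalAt (Function.Periodic.qParam 1 τ) J = jInv τ)
    (N : ℕ) [NeZero N] (γ : SL(2, ℤ))
    (h : ∀ τ : ℍ, jInv (scale N (γ • τ)) = jInv (scale N τ)) :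
    γ ∈ CongruenceSubgroup.Gamma0 N := by
  have hJ0 : J ≠ 0 := by
    rintro rfl
    simp at hJo
  obtain ⟨a, e, b, ha, he, hae, hdvd, M, hM⟩ := exists_hermite γ N
  obtain ⟨F, hF, hFo, hFe⟩ := exists_expansion_affine hJ hJe a b e a
  obtain ⟨G, hG, hGo, hGe⟩ := exists_expansion_affine hJ hJe N 0 1 N
  have haff : ∀ τ : ℍ, affine N 0 1 τ = scale N τ := by
    intro τ
    apply UpperHalfPlane.ext
    rw [coe_affine, coe_scale]
    simp
  have hea : e * a = N := by rw [mul_comm]; exact hae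
  have hFG : F = G := by
    refine eq_of_evalAt_eq hF hG fun z hz0 hz1 => ?_
    obtain ⟨τ, hτ⟩ := exists_qParam_eq N hz0 hz1
    have h1 := hFe τ
    have h2 := hGe τ
    rw [hea, hτ] at h1
    rw [one_mul, hτ] at h2
    rw [h1, h2, haff, ← hM, jInv_smul, h]
  have h1 := (hFo hJ0).2
  have h2 := (hGo hJ0).2
  rw [hFG, h2, hJo] at h1
  have h3 : N * N = a * a := by
    have : ((N * N : ℕ) : ℤ) = ((a * a : ℕ) : ℤ) := by linarith
    exact_mod_cast this
  have h4 : N = a := Nat.mul_self_inj.mp h3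
  have h5 : e = 1 := by
    rw [h4] at hae
    exact Nat.eq_of_mul_eq_mul_left (Nat.pos_of_ne_zero (NeZero.ne a)) (by rw [hae, mul_one])
  rw [CongruenceSubgroup.Gamma0_mem, ZMod.intCast_zmod_eq_zero_iff_dvd]
  exact hdvd h5

theorem jInv_scale_eq_of_mem_Gamma0 (N : ℕ) [NeZero N] (d : ℕ) [NeZero d] (hd : d ∣ N)
    {γ : SL(2, ℤ)} (hγ : γ ∈ CongruenceSubgroup.Gamma0 N) (τ : ℍ) :
    jInv (scale d (γ • τ)) = jInv (scale d τ) := by
  rw [CongruenceSubgroup.Gamma0_mem, ZMod.intCast_zmod_eq_zero_iff_dvd] at hγ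
  obtain ⟨M, hM⟩ := scale_smul_of_dvd γ d ((Int.natCast_dvd_natCast.mpr hd).trans hγ)
  rw [hM, jInv_smul]

end

end Fermat.Agent.H24
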