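import Mathlib
import Fermat.Agent.H24Conv
import Fermat.Agent.H61Valence

set_option autoImplicit false

namespace Fermat.Agent.H24

open UpperHalfPlane hiding I
open Complex MatrixGroups ModularGroup Fermat.Agent.H61
open scoped Manifold Real

noncomputable section

local notation "𝕢" => Function.Periodic.qParam

theorem isConv_smul (c : ℂ) {F : LaurentSeries ℂ} (hF : IsConv F) : IsConv (c • F) := by
  intro r hr0 hr1
  simpa [norm_mul, mul_assoc] using (hF r hr0 hr1).mul_left ‖c‖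

theorem evalAt_smul (c : ℂ) (F : LaurentSeries ℂ) (z : ℂ) :
    evalAt z (c • F) = c * evalAt z F := by
  rw [evalAt, evalAt, ← tsum_mul_left]
  refine tsum_congr fun n => ?_
  rw [HahnSeries.coeff_smul, smul_eq_mul, mul_assoc]

theorem isConv_neg {F : LaurentSeries ℂ} (hF : IsConv F) : IsConv (-F) := by
  intro r hr0 hr1
  simpa using hF r hr0 hr1

theorem evalAt_neg (F : LaurentSeries ℂ) (z : ℂ) : evalAt z (-F) = - evalAt z F := by
  rw [evalAt, evalAt, ← tsum_neg]
  refine tsum_congr fun n => ?_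
  rw [HahnSeries.coeff_neg, neg_mul]

theorem isConv_sub {F G : LaurentSeries ℂ} (hF : IsConv F) (hG : IsConv G) : IsConv (F - G) := by
  rw [sub_eq_add_neg]
  exact hF.add (isConv_neg hG)

theorem evalAt_sub {F G : LaurentSeries ℂ} (hF : IsConv F) (hG : IsConv G) {z : ℂ}
    (hz0 : z ≠ 0) (hz1 : ‖z‖ < 1) : evalAt z (F - G) = evalAt z F - evalAt z G := by
  rw [sub_eq_add_neg, evalAt_add hF (isConv_neg hG) hz0 hz1, evalAt_neg, sub_eq_add_neg]

theorem isConv_one : IsConv (1 : LaurentSeries ℂ) := isConv_single 0 1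

theorem evalAt_one (z : ℂ) : evalAt z (1 : LaurentSeries ℂ) = 1 := by
  have : (1 : LaurentSeries ℂ) = HahnSeries.single 0 1 := rfl
  rw [this, evalAt_single]; simp

theorem isConv_pow {F : LaurentSeries ℂ} (hF : IsConv F) (k : ℕ) : IsConv (F ^ k) := by
  induction k with
  | zero => rw [pow_zero]; exact isConv_one
  | succ k ih => rw [pow_succ]; exact ih.mul hF

theorem evalAt_pow {F : LaurentSeries ℂ} (hF : IsConv F) (k : ℕ) {z : ℂ}
    (hz0 : z ≠ 0) (hz1 : ‖z‖ < 1) : evalAt z (F ^ k) = evalAt z F ^ k := by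
  induction k with
  | zero => rw [pow_zero, pow_zero, evalAt_one]
  | succ k ih => rw [pow_succ, pow_succ, evalAt_mul (isConv_pow hF k) hF hz0 hz1, ih]

theorem qParam_norm_lt_one (N : ℕ) [NeZero N] (τ : ℍ) : ‖𝕢 (N : ℝ) τ‖ < 1 :=
  Function.Periodic.norm_qParam_lt_one
    (by exact_mod_cast Nat.pos_of_ne_zero (NeZero.ne N)) τ.im_pos

theorem qParam_pow (N d : ℕ) [NeZero N] [NeZero d] (τ : ℂ) :
    𝕢 ((N * d : ℕ) : ℝ) τ ^ d = 𝕢 (N : ℝ) τ := by
  have h1 : (N : ℂ) ≠ 0 := by exact_mod_cast NeZero.ne N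
  have h2 : (d : ℂ) ≠ 0 := by exact_mod_cast NeZero.ne d
  simp only [Function.Periodic.qParam]
  rw [← Complex.exp_nat_mul]
  congr 1
  push_cast
  field_simp

theorem qParam_pow_self (N : ℕ) [NeZero N] (τ : ℂ) : 𝕢 (N : ℝ) τ ^ N = 𝕢 (1 : ℝ) τ := by
  have h := qParam_pow 1 N τ
  simpa using h

theorem exists_qParam_eq_of_norm (N : ℕ) [NeZero N] {w : ℂ} (hw0 : w ≠ 0) (hw1 : ‖w‖ < 1) :
    ∃ τ : ℍ, 𝕢 (N : ℝ) τ = w := by
  have hN : (0 : ℝ) < N := by exact_mod_cast Nat.pos_of_ne_zero (NeZero.ne N)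
  exact ⟨⟨_, Function.Periodic.im_invQParam_pos_of_norm_lt_one hN hw1 hw0⟩,
    Function.Periodic.qParam_right_inv hN.ne' hw0⟩

/-- the standard `N`-th root of unity as a unit -/
def zetaU (N : ℕ) [NeZero N] : ℂˣ :=
  Units.mk0 (Complex.exp (2 * π * Complex.I / N)) (Complex.exp_ne_zero _)

@[simp] theorem zetaU_val (N : ℕ) [NeZero N] :
    (zetaU N : ℂ) = Complex.exp (2 * π * Complex.I / N) := rfl

theorem zetaU_isPrimitiveRoot (N : ℕ) [NeZero N] : IsPrimitiveRoot (zetaU N : ℂ) N :=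
  Complex.isPrimitiveRoot_exp N (NeZero.ne N)

theorem norm_zetaU (N : ℕ) [NeZero N] : ‖(zetaU N : ℂ)‖ = 1 :=
  (zetaU_isPrimitiveRoot N).norm'_eq_one (NeZero.ne N)

theorem coe_T_smul (τ : ℍ) : ((T • τ : ℍ) : ℂ) = (τ : ℂ) + 1 := by
  rw [modular_T_smul, coe_vadd]
  push_cast
  ring

theorem qParam_T_smul (N : ℕ) [NeZero N] (τ : ℍ) :
    𝕢 (N : ℝ) ((T • τ : ℍ) : ℂ) = (zetaU N : ℂ) * 𝕢 (N : ℝ) τ := by
  rw [coe_T_smul, zetaU_val]
  simp only [Function.Periodic.qParam]
  rw [← Complex.exp_add]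
  congr 1
  push_cast
  ring

/-- Two convergent series agreeing as functions of `q_N` are equal. -/
theorem eq_of_evalAt_qParam_eq (N : ℕ) [NeZero N] {F G : LaurentSeries ℂ} (hF : IsConv F)
    (hG : IsConv G) (h : ∀ τ : ℍ, evalAt (𝕢 (N : ℝ) τ) F = evalAt (𝕢 (N : ℝ) τ) G) : F = G := by
  refine eq_of_evalAt_eq hF hG fun z hz0 hz1 => ?_
  obtain ⟨τ, rfl⟩ := exists_qParam_eq_of_norm N hz0 hz1
  exact h τ

/-- `T`-invariance forces the exponents to be divisible by `N`. -/
theorem dvd_of_coeff_ne_zero (N : ℕ) [NeZero N] {f : ℍ → ℂ} (hT : ∀ τ : ℍ, f (T • τ) = f τ)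
    {F : LaurentSeries ℂ} (hF : IsConv F) (hFe : ∀ τ : ℍ, evalAt (𝕢 (N : ℝ) τ) F = f τ)
    {n : ℤ} (hn : F.coeff n ≠ 0) : (N : ℤ) ∣ n := by
  have h1 : twist (zetaU N) F = F := by
    refine eq_of_evalAt_qParam_eq N (isConv_twist (norm_zetaU N) hF) hF fun τ => ?_
    rw [evalAt_twist, ← qParam_T_smul, hFe, hFe, hT]
  have h2 := congrArg (fun G : LaurentSeries ℂ => G.coeff n) h1
  simp only [twist_coeff] at h2
  have h3 : ((zetaU N ^ n : ℂˣ) : ℂ) = 1 := by
    have := mul_right_cancel₀ hn (h2.trans (one_mul _).symm)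
    exact this
  rw [Units.val_zpow_eq_zpow_val] at h3
  exact ((zetaU_isPrimitiveRoot N).zpow_eq_one_iff_dvd n).mp h3

theorem hasSum_pow_of_coeff_neg {F : LaurentSeries ℂ} (hF : IsConv F)
    (h0 : ∀ n < (0 : ℤ), F.coeff n = 0) {z : ℂ} (hz0 : z ≠ 0) (hz1 : ‖z‖ < 1) :
    HasSum (fun k : ℕ => F.coeff (k : ℤ) * z ^ k) (evalAt z F) := by
  have := (hasSum_shift_iff h0).mp (hF.hasSum hz0 hz1)
  simpa using this

theorem const_of_invariant_of_coeff_neg (N : ℕ) [NeZero N] {f : ℍ → ℂ} (hf : MDiff f)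
    (hinv : ∀ (γ : SL(2, ℤ)) (τ : ℍ), f (γ • τ) = f τ)
    {F : LaurentSeries ℂ} (hF : IsConv F) (hFe : ∀ τ : ℍ, evalAt (𝕢 (N : ℝ) τ) F = f τ)
    (h0 : ∀ n < (0 : ℤ), F.coeff n = 0) : ∃ c : ℂ, ∀ τ, f τ = c := by
  have hN : (0 : ℝ) < N := by exact_mod_cast Nat.pos_of_ne_zero (NeZero.ne N)
  have hb : IsBoundedAtImInfty f :=
    isBoundedAtImInfty_of_hasSum_qExpansion (c := fun k => F.coeff (k : ℤ)) hN (fun τ => by
      have := hasSum_pow_of_coeff_neg hF h0 (Function.Periodic.qParam_ne_zero (h := (N : ℝ)) τ)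
        (qParam_norm_lt_one N τ)
      rw [hFe] at this
      simpa using this)
  obtain ⟨c, hc⟩ := ModularFormClass.levelOne_weight_zero_const
    (mkLevelOne 0 f (by simpa using hinv) hf hb)
  exact ⟨c, fun τ => congrFun hc τ⟩

section

variable {J : LaurentSeries ℂ} (hJ : IsConv J) (hJo : J.order = -1)
  (hJe : ∀ τ : ℍ, evalAt (𝕢 (1 : ℝ) τ) J = jInv τ)

include hJ hJe in
theorem evalAt_qExpand_J (N : ℕ) [NeZero N] (τ : ℍ) :
    evalAt (𝕢 (N : ℝ) τ) (ModularCurve.qExpand ℂ N J) = jInv τ := by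
  rw [evalAt_qExpand N hJ (Function.Periodic.qParam_ne_zero _) (qParam_norm_lt_one N τ),
    qParam_pow_self, hJe]

theorem order_qExpand (N : ℕ) [NeZero N] (F : LaurentSeries ℂ) :
    (ModularCurve.qExpand ℂ N F).order = N * F.order := by
  rcases eq_or_ne F 0 with rfl | hF
  · simp
  have h1 : (ModularCurve.qExpand ℂ N F).coeff (N * F.order) ≠ 0 := by
    rw [ModularCurve.qExpand_coeff_mul]
    exact fun h => hF (HahnSeries.coeff_order_eq_zero.mp h)
  refine le_antisymm (HahnSeries.order_le_of_coeff_ne_zero h1) ?_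
  have hne : ModularCurve.qExpand ℂ N F ≠ 0 := fun h => h1 (by rw [h]; rfl)
  rw [HahnSeries.le_order_iff_forall hne]
  intro n hn
  by_cases hd : (N : ℤ) ∣ n
  · obtain ⟨m, rfl⟩ := hd
    rw [ModularCurve.qExpand_coeff_mul]
    apply HahnSeries.coeff_eq_zero_of_lt_order
    have hN : (0 : ℤ) < N := by exact_mod_cast Nat.pos_of_ne_zero (NeZero.ne N)
    exact lt_of_mul_lt_mul_left hn hN.le
  · exact ModularCurve.qExpand_coeff_of_not_dvd N F hd

theorem order_pow' (F : LaurentSeries ℂ) (k : ℕ) : (F ^ k).order = k * F.order := by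
  rcases eq_or_ne F 0 with rfl | hF
  · rcases Nat.eq_zero_or_pos k with rfl | hk
    · simp
    · simp [hk.ne']
  induction k with
  | zero => simp
  | succ k ih =>
    rw [pow_succ, HahnSeries.order_mul_of_ne_zero, ih]
    · push_cast; ring
    · exact mul_ne_zero (HahnSeries.leadingCoeff_ne_zero.mpr (pow_ne_zero k hF))
        (HahnSeries.leadingCoeff_ne_zero.mpr hF)

include hJ hJo hJe in
theorem exists_poly_aux (N : ℕ) [NeZero N] (m : ℕ) : ∀ {f : ℍ → ℂ} (_ : MDiff f)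
    (_ : ∀ (γ : SL(2, ℤ)) (τ : ℍ), f (γ • τ) = f τ)
    {F : LaurentSeries ℂ} (_ : IsConv F) (_ : ∀ τ : ℍ, evalAt (𝕢 (N : ℝ) τ) F = f τ)
    (_ : ∀ n < -(m : ℤ), F.coeff n = 0), ∃ P : Polynomial ℂ, ∀ τ, f τ = P.eval (jInv τ) := by
  induction m with
  | zero =>
    intro f hf hinv F hF hFe h0
    obtain ⟨c, hc⟩ := const_of_invariant_of_coeff_neg N hf hinv hF hFe (by simpa using h0)
    exact ⟨Polynomial.C c, fun τ => by rw [hc]; simp⟩
  | succ m ih =>
    intro f hf hinv F hF hFe h0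
    by_cases hc : F.coeff (-((m : ℤ) + 1)) = 0
    · refine ih hf hinv hF hFe fun n hn => ?_
      rcases eq_or_ne n (-((m : ℤ) + 1)) with rfl | hne
      · exact hc
      · apply h0
        push_cast
        omega
    · obtain ⟨k', hk'⟩ := dvd_of_coeff_ne_zero N (hinv T) hF hFe hc
      have hN : (0 : ℤ) < N := by exact_mod_cast Nat.pos_of_ne_zero (NeZero.ne N)
      obtain ⟨k, hk⟩ : ∃ k : ℕ, (N : ℤ) * k = (m : ℤ) + 1 := by
        refine ⟨(-k').toNat, ?_⟩
        have : 0 ≤ -k' := by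
          by_contra hneg
          push Not at hneg
          have : 0 < k' := by omega
          have := mul_pos hN this
          omega
        rw [Int.toNat_of_nonneg this]
        linarith
      set G := (ModularCurve.qExpand ℂ N J) ^ k with hG
      have hJN : IsConv (ModularCurve.qExpand ℂ N J) := isConv_qExpand N hJ
      have hGc : IsConv G := isConv_pow hJN k
      have hJ0 : J ≠ 0 := fun h => by rw [h] at hJo; simp at hJo
      have hG0 : G ≠ 0 := by
        rw [hG]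
        exact pow_ne_zero k ((map_ne_zero_iff _ (ModularCurve.qExpand_injective N)).mpr hJ0)
      have hGo : G.order = -((m : ℤ) + 1) := by
        rw [hG, order_pow', order_qExpand, hJo, ← hk]; ring
      set l := G.coeff (-((m : ℤ) + 1)) with hl
      have hl0 : l ≠ 0 := by
        rw [hl, ← hGo]
        exact fun h => hG0 (HahnSeries.coeff_order_eq_zero.mp h)
      set c := F.coeff (-((m : ℤ) + 1)) with hcdef
      have hGe : ∀ τ : ℍ, evalAt (𝕢 (N : ℝ) τ) G = jInv τ ^ k := by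
        intro τ
        rw [hG, evalAt_pow hJN k (Function.Periodic.qParam_ne_zero _) (qParam_norm_lt_one N τ),
          evalAt_qExpand_J hJ hJe N τ]
      have hF' : IsConv (F - (c / l) • G) := isConv_sub hF (isConv_smul _ hGc)
      obtain ⟨P, hP⟩ := ih (f := fun τ => f τ - (c / l) * jInv τ ^ k)
        (hf.sub (mdifferentiable_const.mul (jInv_mdiff.pow k)))
        (fun γ τ => by rw [hinv, jInv_smul]) (F := F - (c / l) • G) hF'
        (fun τ => by
          rw [evalAt_sub hF (isConv_smul _ hGc) (Function.Periodic.qParam_ne_zero _)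
            (qParam_norm_lt_one N τ), evalAt_smul, hFe, hGe])
        (fun n hn => by
          rw [HahnSeries.coeff_sub, HahnSeries.coeff_smul]
          rcases eq_or_ne n (-((m : ℤ) + 1)) with rfl | hne
          · rw [← hl, ← hcdef]
            simp only [smul_eq_mul]
            field_simp
            ring
          · have h1 : n < -((m : ℤ) + 1) := by omega
            rw [h0 n (by push_cast; exact h1), HahnSeries.coeff_eq_zero_of_lt_order (hGo ▸ h1)]
            simp)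
      refine ⟨P + Polynomial.C (c / l) * Polynomial.X ^ k, fun τ => ?_⟩
      have := hP τ
      simp only [Polynomial.eval_add, Polynomial.eval_mul, Polynomial.eval_C, Polynomial.eval_pow,
        Polynomial.eval_X]
      rw [← this]; ring

include hJ hJo hJe in
/-- A holomorphic `SL₂(ℤ)`-invariant function on `ℍ` with a Laurent expansion at `i∞` is a
polynomial in `j`. -/
theorem exists_poly_of_invariant (N : ℕ) [NeZero N] {f : ℍ → ℂ} (hf : MDiff f)
    (hinv : ∀ (γ : SL(2, ℤ)) (τ : ℍ), f (γ • τ) = f τ)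
    {F : LaurentSeries ℂ} (hF : IsConv F) (hFe : ∀ τ : ℍ, evalAt (𝕢 (N : ℝ) τ) F = f τ) :
    ∃ P : Polynomial ℂ, ∀ τ, f τ = P.eval (jInv τ) :=
  exists_poly_aux hJ hJo hJe N (-F.order).toNat hf hinv hF hFe fun n hn =>
    HahnSeries.coeff_eq_zero_of_lt_order (by omega)

end

end

end Fermat.Agent.H24
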