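import Mathlib

/-!
# Laurent `q`-expansions of functions on the upper half plane
-/

set_option autoImplicit false

noncomputable section

open Complex UpperHalfPlane

namespace Fermat.Agent.H28

local notation "𝕢" => Function.Periodic.qParam

/-- The Laurent series `a` converges to `s` at the point `q`. -/
def LSum (a : LaurentSeries ℂ) (q s : ℂ) : Prop :=
  HasSum (fun n : ℤ => a.coeff n * q ^ n) s

theorem LSum.add {a b : LaurentSeries ℂ} {q s t : ℂ} (ha : LSum a q s) (hb : LSum b q t) :
    LSum (a + b) q (s + t) := by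
  have := HasSum.add ha hb
  simpa [LSum, add_mul] using this

theorem LSum.neg {a : LaurentSeries ℂ} {q s : ℂ} (ha : LSum a q s) :
    LSum (-a) q (-s) := by
  have := HasSum.neg ha
  simpa [LSum, neg_mul] using this

theorem LSum.sub {a b : LaurentSeries ℂ} {q s t : ℂ} (ha : LSum a q s) (hb : LSum b q t) :
    LSum (a - b) q (s - t) := by
  rw [sub_eq_add_neg, sub_eq_add_neg]
  exact ha.add hb.neg

theorem LSum.unique {a : LaurentSeries ℂ} {q s t : ℂ} (ha : LSum a q s) (hb : LSum a q t) :
    s = t := HasSum.unique ha hb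

theorem LSum.single (k : ℤ) (c q : ℂ) : LSum (HahnSeries.single k c) q (c * q ^ k) := by
  have := hasSum_single (f := fun n : ℤ => (HahnSeries.single k c).coeff n * q ^ n) k (by
    intro n hn
    simp [HahnSeries.coeff_single_of_ne hn])
  simpa [LSum] using this

theorem LSum.zero (q : ℂ) : LSum 0 q 0 := by
  simp [LSum, hasSum_zero]

theorem LSum.one (q : ℂ) : LSum 1 q 1 := by
  have := LSum.single 0 1 q
  simpa using this

theorem LSum.mul {a b : LaurentSeries ℂ} {q s t : ℂ} (hq : q ≠ 0)
    (ha : LSum a q s) (hb : LSum b q t) : LSum (a * b) q (s * t) := by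
  have ha' : HasSum (fun n : ℤ => a.coeff n * q ^ n) s := ha
  have hb' : HasSum (fun n : ℤ => b.coeff n * q ^ n) t := hb
  have hs : Summable (fun x : ℤ × ℤ => (a.coeff x.1 * q ^ x.1) * (b.coeff x.2 * q ^ x.2)) :=
    summable_mul_of_summable_norm (f := fun n : ℤ => a.coeff n * q ^ n)
      (g := fun n : ℤ => b.coeff n * q ^ n) ha'.summable.norm hb'.summable.norm
  have hm := HasSum.mul ha' hb' hs
  let e : ℤ × ℤ ≃ ℤ × ℤ :=
    { toFun := fun x => (x.2, x.1 - x.2)
      invFun := fun x => (x.1 + x.2, x.1)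
      left_inv := by intro x; ext <;> simp
      right_inv := by intro x; ext <;> simp }
  have hm' := (e.hasSum_iff).2 hm
  refine HasSum.prod_fiberwise hm' fun n => ?_
  show HasSum (fun i : ℤ => (a.coeff i * q ^ i) * (b.coeff (n - i) * q ^ (n - i)))
    ((a * b).coeff n * q ^ n)
  rw [HahnSeries.coeff_mul, Finset.sum_mul]
  set S := Finset.antidiagonal a.isPWO_support b.isPWO_support n with hS
  have h1 : ∑ ij ∈ S, a.coeff ij.1 * b.coeff ij.2 * q ^ n =
      ∑ i ∈ S.image Prod.fst, (a.coeff i * q ^ i) * (b.coeff (n - i) * q ^ (n - i)) := by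
    rw [Finset.sum_image]
    · refine Finset.sum_congr rfl fun ij hij => ?_
      rw [hS, Finset.mem_antidiagonal] at hij
      obtain ⟨_, _, h⟩ := hij
      have h2 : n - ij.1 = ij.2 := by omega
      rw [h2, ← h, zpow_add₀ hq]
      ring
    · intro x hx y hy hxy
      rw [hS, Finset.mem_coe, Finset.mem_antidiagonal] at hx hy
      ext
      · exact hxy
      · omega
  rw [h1]
  refine hasSum_sum_of_ne_finset_zero fun i hi => ?_
  by_contra hne
  apply hi
  rw [Finset.mem_image]
  refine ⟨(i, n - i), ?_, rfl⟩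
  rw [hS, Finset.mem_antidiagonal]
  refine ⟨?_, ?_, by simp⟩
  · simp only [HahnSeries.mem_support]
    intro h; simp [h] at hne
  · simp only [HahnSeries.mem_support]
    intro h; simp [h] at hne

theorem LSum.ofPowerSeries {p : PowerSeries ℂ} {q s : ℂ} :
    LSum (HahnSeries.ofPowerSeries ℤ ℂ p) q s ↔ HasSum (fun n : ℕ => p.coeff n * q ^ n) s := by
  unfold LSum
  rw [← (Nat.cast_injective (R := ℤ)).hasSum_iff]
  · simp [Function.comp_def, HahnSeries.ofPowerSeries_apply_coeff]
  · intro n hn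
    have : (HahnSeries.ofPowerSeries ℤ ℂ p).coeff n = 0 := by
      rw [HahnSeries.ofPowerSeries_apply]
      refine HahnSeries.embDomain_of_notMem_range ?_
      rintro ⟨m, rfl⟩
      exact hn ⟨m, rfl⟩
    simp [this]

/-- `f` is represented by the Laurent series `a` in the parameter `exp (2 π i τ / h)`. -/
def HasExp (h : ℝ) (f : ℍ → ℂ) (a : LaurentSeries ℂ) : Prop :=
  ∀ τ : ℍ, LSum a (𝕢 h τ) (f τ)

theorem qParam_ne_zero' (h : ℝ) (τ : ℂ) : 𝕢 h τ ≠ 0 := Function.Periodic.qParam_ne_zero _

namespace HasExp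

variable {h : ℝ} {f g : ℍ → ℂ} {a b : LaurentSeries ℂ}

theorem add (ha : HasExp h f a) (hb : HasExp h g b) : HasExp h (f + g) (a + b) :=
  fun τ => (ha τ).add (hb τ)

theorem neg (ha : HasExp h f a) : HasExp h (-f) (-a) :=
  fun τ => (ha τ).neg

theorem sub (ha : HasExp h f a) (hb : HasExp h g b) : HasExp h (f - g) (a - b) :=
  fun τ => (ha τ).sub (hb τ)

theorem mul (ha : HasExp h f a) (hb : HasExp h g b) : HasExp h (f * g) (a * b) :=
  fun τ => (ha τ).mul (qParam_ne_zero' h τ) (hb τ)

theorem zero : HasExp h 0 0 := fun _ => LSum.zero _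

theorem one : HasExp h 1 1 := fun _ => LSum.one _

theorem const (c : ℂ) : HasExp h (fun _ => c) (HahnSeries.C c) := fun τ => by
  have := LSum.single 0 c (𝕢 h τ)
  simpa using this

theorem pow (ha : HasExp h f a) (n : ℕ) : HasExp h (f ^ n) (a ^ n) := by
  induction n with
  | zero => simpa using one
  | succ n ih => rw [pow_succ, pow_succ]; exact ih.mul ha

theorem fun_eq (ha : HasExp h f a) (hb : HasExp h g a) : f = g :=
  funext fun τ => (ha τ).unique (hb τ)

theorem eq_zero_of_zero (hh : 0 < h) (ha : HasExp h 0 a) : a = 0 := by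
  by_contra hne
  have hmul : HasExp h 0 (HahnSeries.ofPowerSeries ℤ ℂ a.powerSeriesPart) := by
    intro τ
    have h1 := (LSum.single (-a.order) 1 (𝕢 h τ)).mul (qParam_ne_zero' h τ) (ha τ)
    rw [Pi.zero_apply, mul_zero] at h1
    rw [LaurentSeries.ofPowerSeries_powerSeriesPart]
    exact h1
  have hs : ∀ τ : ℍ, HasSum (fun m : ℕ => a.powerSeriesPart.coeff m • 𝕢 h τ ^ m) ((0 : ℍ → ℂ) τ) := by
    intro τ
    have := LSum.ofPowerSeries.1 (hmul τ)
    simpa [smul_eq_mul] using this
  have han : AnalyticAt ℂ (UpperHalfPlane.cuspFunction h (0 : ℍ → ℂ)) 0 := by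
    refine UpperHalfPlane.analyticAt_cuspFunction_zero hh ?_ ?_ ?_
    · intro z; simp
    · exact mdifferentiable_const
    · exact Filter.zero_zeroAtFilter _ |>.boundedAtFilter
  have h0 : a.powerSeriesPart = 0 := by
    ext m
    have h1 := (UpperHalfPlane.hasFPowerSeriesOnBall_cuspFunction hh han hs).hasFPowerSeriesAt
    have hs0 : ∀ τ : ℍ, HasSum (fun m : ℕ => (fun _ => 0 : ℕ → ℂ) m • 𝕢 h τ ^ m)
        ((0 : ℍ → ℂ) τ) := by
      intro τ
      simp
    have h2 := (UpperHalfPlane.hasFPowerSeriesOnBall_cuspFunction hh han hs0).hasFPowerSeriesAt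
    have h3 := congr_arg (FormalMultilinearSeries.coeff · m) (h1.eq_formalMultilinearSeries h2)
    simpa only [FormalMultilinearSeries.coeff_ofScalars, map_zero] using h3
  exact hne ((LaurentSeries.powerSeriesPart_eq_zero a).1 h0)

theorem unique (hh : 0 < h) (ha : HasExp h f a) (hb : HasExp h f b) : a = b := by
  have h1 := ha.sub hb
  rw [sub_self] at h1
  exact sub_eq_zero.1 (eq_zero_of_zero hh h1)

end HasExp

end Fermat.Agent.H28
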