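import Mathlib
import Fermat.Prelude.Def_ModularCurve_X0ModL
import Fermat.Agent.H28Exp

/-!
# The analytic `j`, `E₄`, `Δ` and the formal series of the prelude
-/

set_option autoImplicit false

noncomputable section

open Complex UpperHalfPlane ModularCurve Filter Topology

namespace Fermat.Agent.H28

local notation "𝕢" => Function.Periodic.qParam

section Eta

open scoped PowerSeries.WithPiTopology

theorem iteratedDeriv_eval_zero (p : Polynomial ℂ) (n : ℕ) :
    iteratedDeriv n (fun q : ℂ => p.eval q) 0 = n.factorial * p.coeff n := by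
  have h : ∀ n : ℕ, iteratedDeriv n (fun q : ℂ => p.eval q) =
      fun q => (Polynomial.derivative^[n] p).eval q := by
    intro n
    induction n with
    | zero => simp
    | succ n ih =>
      rw [iteratedDeriv_succ, ih]
      funext q
      rw [Polynomial.deriv, Function.iterate_succ_apply']
  rw [h n]
  show (Polynomial.derivative^[n] p).eval 0 = _
  rw [← Polynomial.coeff_zero_eq_eval_zero, Polynomial.coeff_iterate_derivative, zero_add,
    Nat.descFactorial_self, nsmul_eq_mul]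

theorem tendsto_iteratedDeriv {F : Finset ℕ → ℂ → ℂ} {f : ℂ → ℂ} {U : Set ℂ} (hU : IsOpen U)
    (hf : TendstoLocallyUniformlyOn F f atTop U)
    (hF : ∀ s, Differentiable ℂ (F s)) (n : ℕ) :
    TendstoLocallyUniformlyOn (fun s => iteratedDeriv n (F s)) (iteratedDeriv n f) atTop U := by
  induction n with
  | zero => simpa using hf
  | succ n ih =>
    simp only [iteratedDeriv_succ]
    refine TendstoLocallyUniformlyOn.deriv ih (Eventually.of_forall fun s => ?_) hU
    have : ContDiff ℂ (⊤ : ℕ∞) (F s) := (hF s).contDiff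
    exact ((this.differentiable_iteratedDeriv n (by exact_mod_cast WithTop.coe_lt_top n)).differentiableOn)

/-- partial products of the Euler product, as polynomials -/
def etaPoly (R : Type*) [CommRing R] (s : Finset ℕ) : Polynomial R :=
  ∏ i ∈ s, (1 - Polynomial.X ^ (i + 1))

theorem eventually_coeff_etaPoly (n : ℕ) :
    ∀ᶠ s : Finset ℕ in atTop, (etaPoly ℤ s).coeff n = etaProd.coeff n := by
  have h1 : HasProd (fun n : ℕ => (1 : PowerSeries ℤ) - PowerSeries.X ^ (n + 1)) etaProd :=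
    (PowerSeries.WithPiTopology.multipliable_one_sub_X_pow ℤ).hasProd
  have h2 : Tendsto (fun s : Finset ℕ => (∏ i ∈ s, ((1 : PowerSeries ℤ) - PowerSeries.X ^ (i + 1))))
      atTop (nhds etaProd) := h1
  have h3 := ((PowerSeries.WithPiTopology.continuous_coeff ℤ n).tendsto etaProd).comp h2
  rw [nhds_discrete, tendsto_pure] at h3
  filter_upwards [h3] with s hs
  rw [← hs, ← Polynomial.coeff_coe, Function.comp_apply]
  congr 1
  have := map_prod (Polynomial.coeToPowerSeries.ringHom (R := ℤ))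
    (fun i : ℕ => (1 : Polynomial ℤ) - Polynomial.X ^ (i + 1)) s
  rw [etaPoly]
  refine Eq.trans this ?_
  refine Finset.prod_congr rfl fun i _ => ?_
  simp

theorem hasSum_etaProd {q : ℂ} (hq : ‖q‖ < 1) :
    HasSum (fun n : ℕ => ((etaProd.coeff n : ℤ) : ℂ) * q ^ n) (∏' n : ℕ, (1 - q ^ (n + 1))) := by
  have h1 := Complex.hasSum_taylorSeries_on_ball (c := 0) (r := 1)
    ModularForm.differentiableOn_tprod_one_sub_pow (z := q) (by simpa using hq)
  have hcoeff : ∀ n : ℕ, iteratedDeriv n (fun q : ℂ => ∏' n : ℕ, (1 - q ^ (n + 1))) 0 =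
      n.factorial * ((etaProd.coeff n : ℤ) : ℂ) := by
    intro n
    have h2 := ModularForm.multipliableLocallyUniformlyOn_one_sub_pow.hasProdLocallyUniformlyOn
    have h3 := tendsto_iteratedDeriv Metric.isOpen_ball h2 (fun s => by fun_prop) n
    have h4 := h3.tendsto_at (Metric.mem_ball_self one_pos)
    have h5 : ∀ᶠ s : Finset ℕ in atTop,
        iteratedDeriv n (fun q : ℂ => ∏ i ∈ s, (1 - q ^ (i + 1))) 0 =
          n.factorial * ((etaProd.coeff n : ℤ) : ℂ) := by
      filter_upwards [eventually_coeff_etaPoly n] with s hs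
      have h6 : (fun q : ℂ => ∏ i ∈ s, (1 - q ^ (i + 1))) =
          fun q : ℂ => (etaPoly ℂ s).eval q := by
        funext q
        simp [etaPoly, Polynomial.eval_prod]
      rw [h6, iteratedDeriv_eval_zero]
      congr 1
      rw [← hs]
      have h7 : etaPoly ℂ s = (etaPoly ℤ s).map (Int.castRingHom ℂ) := by
        simp [etaPoly, Polynomial.map_prod]
      rw [h7, Polynomial.coeff_map]
      simp
    exact tendsto_nhds_unique h4 (tendsto_const_nhds.congr' (h5.mono fun s hs => hs.symm))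
  have h2 : (fun n : ℕ => (n.factorial : ℂ)⁻¹ • (q - 0) ^ n •
      iteratedDeriv n (fun q : ℂ => ∏' n : ℕ, (1 - q ^ (n + 1))) 0) =
      fun n : ℕ => ((etaProd.coeff n : ℤ) : ℂ) * q ^ n := by
    funext n
    rw [hcoeff n, sub_zero, smul_eq_mul, smul_eq_mul]
    have : (n.factorial : ℂ) ≠ 0 := by exact_mod_cast n.factorial_ne_zero
    field_simp
  rw [h2] at h1
  exact h1

theorem hasExp_eta_tprod :
    HasExp 1 (fun τ : ℍ => ∏' n : ℕ, (1 - (𝕢 1 τ) ^ (n + 1)))
      (HahnSeries.ofPowerSeries ℤ ℂ (etaProd.map (Int.castRingHom ℂ))) := by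
  intro τ
  rw [LSum.ofPowerSeries]
  have := hasSum_etaProd (q := 𝕢 1 τ) (by exact_mod_cast norm_qParam_lt_one 1 τ)
  simpa using this

/-- The Laurent series of `Δ`, with coefficients in an arbitrary ring. -/
def deltaL (R : Type*) [CommRing R] : LaurentSeries R :=
  HahnSeries.single 1 1 * HahnSeries.ofPowerSeries ℤ R (dedekindEtaUnit.map (Int.castRingHom R))

/-- The Laurent series of `1/Δ`, with coefficients in an arbitrary ring. -/
def deltaInvL (R : Type*) [CommRing R] : LaurentSeries R :=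
  HahnSeries.single (-1) 1 *
    HahnSeries.ofPowerSeries ℤ R (dedekindEtaUnitInv.map (Int.castRingHom R))

theorem deltaL_mul_deltaInvL (R : Type*) [CommRing R] : deltaL R * deltaInvL R = 1 := by
  rw [deltaL, deltaInvL, mul_mul_mul_comm, HahnSeries.single_mul_single, ← map_mul, ← map_mul,
    dedekindEtaUnit_mul_inv]
  simp

theorem hasExp_qParam : HasExp 1 (fun τ : ℍ => 𝕢 1 τ) (HahnSeries.single 1 1) := by
  intro τ
  have := LSum.single 1 1 (𝕢 1 τ)
  rwa [one_mul, zpow_one] at this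

theorem qParam_mul_tprod_eq_discriminant :
    (fun τ : ℍ => 𝕢 1 τ) * (fun τ : ℍ => ∏' n : ℕ, (1 - (𝕢 1 τ) ^ (n + 1))) ^ 24 =
      ModularForm.discriminant := by
  funext τ
  rw [ModularForm.discriminant_eq_q_prod, Pi.mul_apply, Pi.pow_apply]
  congr 1
  exact (Multipliable.tprod_pow (ModularForm.multipliable_one_sub_pow
    (by exact_mod_cast norm_qParam_lt_one 1 τ)) 24).symm

theorem single_mul_eta_pow_eq_deltaL : (HahnSeries.single (1 : ℤ) (1 : ℂ)) *
    (HahnSeries.ofPowerSeries ℤ ℂ (etaProd.map (Int.castRingHom ℂ))) ^ 24 = deltaL ℂ := by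
  rw [deltaL, dedekindEtaUnit, map_pow, map_pow]

theorem hasExp_discriminant_aux :
    HasExp 1 ((fun τ : ℍ => 𝕢 1 τ) * (fun τ : ℍ => ∏' n : ℕ, (1 - (𝕢 1 τ) ^ (n + 1))) ^ 24)
      ((HahnSeries.single (1 : ℤ) (1 : ℂ)) *
        (HahnSeries.ofPowerSeries ℤ ℂ (etaProd.map (Int.castRingHom ℂ))) ^ 24) :=
  hasExp_qParam.mul (hasExp_eta_tprod.pow 24)

theorem hasExp_discriminant : HasExp 1 ModularForm.discriminant (deltaL ℂ) := by
  have h := hasExp_discriminant_aux
  rw [single_mul_eta_pow_eq_deltaL, qParam_mul_tprod_eq_discriminant] at h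
  exact h

/-- the inverse of the Euler product has a power series expansion on the unit disc -/
theorem exists_hasSum_inv_eta : ∃ c : ℕ → ℂ, ∀ q : ℂ, ‖q‖ < 1 →
    HasSum (fun n : ℕ => c n * q ^ n) (∏' n : ℕ, (1 - q ^ (n + 1)))⁻¹ := by
  refine ⟨fun n => (n.factorial : ℂ)⁻¹ *
    iteratedDeriv n (fun q : ℂ => (∏' n : ℕ, (1 - q ^ (n + 1)))⁻¹) 0, fun q hq => ?_⟩
  have hne : ∀ q : ℂ, ‖q‖ < 1 → ∏' n : ℕ, (1 - q ^ (n + 1)) ≠ 0 := by
    intro q hq
    simp_rw [sub_eq_add_neg]
    refine tprod_one_add_ne_zero_of_summable (f := fun n => - q ^ (n + 1)) ?_ ?_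
    · intro i h
      have h1 : q ^ (i + 1) = 1 := by
        rw [← sub_eq_add_neg, sub_eq_zero] at h
        exact h.symm
      have h2 : ‖q‖ ^ (i + 1) = 1 := by rw [← norm_pow, h1, norm_one]
      have h3 : ‖q‖ ^ (i + 1) < 1 := pow_lt_one₀ (norm_nonneg _) hq (Nat.succ_ne_zero i)
      exact absurd h2 h3.ne
    · simpa using (summable_nat_add_iff 1).mpr (summable_geometric_of_lt_one (norm_nonneg _) hq)
  have hd : DifferentiableOn ℂ (fun q : ℂ => (∏' n : ℕ, (1 - q ^ (n + 1)))⁻¹)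
      (Metric.ball (0 : ℂ) 1) :=
    ModularForm.differentiableOn_tprod_one_sub_pow.inv fun x hx => hne x (by simpa using hx)
  have h1 := Complex.hasSum_taylorSeries_on_ball (c := 0) (r := 1) hd (z := q) (by simpa using hq)
  have h2 : (fun n : ℕ => (n.factorial : ℂ)⁻¹ • (q - 0) ^ n •
      iteratedDeriv n (fun q : ℂ => (∏' n : ℕ, (1 - q ^ (n + 1)))⁻¹) 0) =
      fun n : ℕ => ((n.factorial : ℂ)⁻¹ *
        iteratedDeriv n (fun q : ℂ => (∏' n : ℕ, (1 - q ^ (n + 1)))⁻¹) 0) * q ^ n := by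
    funext n
    rw [sub_zero, smul_eq_mul, smul_eq_mul]
    ring
  rw [h2] at h1
  exact h1

theorem exists_hasExp_inv_eta_tprod : ∃ a : LaurentSeries ℂ,
    HasExp 1 (fun τ : ℍ => (∏' n : ℕ, (1 - (𝕢 1 τ) ^ (n + 1)))⁻¹) a := by
  obtain ⟨c, hc⟩ := exists_hasSum_inv_eta
  refine ⟨HahnSeries.ofPowerSeries ℤ ℂ (PowerSeries.mk c), fun τ => ?_⟩
  rw [LSum.ofPowerSeries]
  have := hc (𝕢 1 τ) (by exact_mod_cast norm_qParam_lt_one 1 τ)
  simpa using this

theorem hasExp_qParam_inv : HasExp 1 (fun τ : ℍ => (𝕢 1 τ)⁻¹) (HahnSeries.single (-1) 1) := by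
  intro τ
  have := LSum.single (-1) 1 (𝕢 1 τ)
  rwa [one_mul, zpow_neg_one] at this

theorem exists_hasExp_discriminant_inv : ∃ a : LaurentSeries ℂ,
    HasExp 1 (fun τ : ℍ => (ModularForm.discriminant τ)⁻¹) a := by
  obtain ⟨a, ha⟩ := exists_hasExp_inv_eta_tprod
  refine ⟨HahnSeries.single (-1) 1 * a ^ 24, ?_⟩
  have h := hasExp_qParam_inv.mul (ha.pow 24)
  have h2 : (fun τ : ℍ => (𝕢 1 τ)⁻¹) * (fun τ : ℍ => (∏' n : ℕ, (1 - (𝕢 1 τ) ^ (n + 1)))⁻¹) ^ 24 =
      fun τ : ℍ => (ModularForm.discriminant τ)⁻¹ := by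
    rw [← qParam_mul_tprod_eq_discriminant]
    funext τ
    simp only [Pi.mul_apply, Pi.pow_apply, mul_inv, inv_pow]
  rw [h2] at h
  exact h

theorem hasExp_discriminant_inv :
    HasExp 1 (fun τ : ℍ => (ModularForm.discriminant τ)⁻¹) (deltaInvL ℂ) := by
  obtain ⟨a, ha⟩ := exists_hasExp_discriminant_inv
  have h := hasExp_discriminant.mul ha
  have h2 : ModularForm.discriminant * (fun τ : ℍ => (ModularForm.discriminant τ)⁻¹) = 1 := by
    funext τ
    exact mul_inv_cancel₀ (ModularForm.discriminant_ne_zero τ)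
  rw [h2] at h
  have h3 := HasExp.unique one_pos h HasExp.one
  have h4 : a = deltaInvL ℂ := by
    calc a = (deltaL ℂ * deltaInvL ℂ) * a := by rw [deltaL_mul_deltaInvL, one_mul]
      _ = deltaInvL ℂ * (deltaL ℂ * a) := by ring
      _ = deltaInvL ℂ := by rw [h3, mul_one]
  rwa [h4] at ha

end Eta

section EFour

open ArithmeticFunction EisensteinSeries ModularForm

theorem hasExp_E₄ :
    HasExp 1 (E₄ : ℍ → ℂ) (HahnSeries.ofPowerSeries ℤ ℂ (eisenstein4.map (Int.castRingHom ℂ))) := by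
  intro τ
  rw [LSum.ofPowerSeries]
  have h := ModularForm.hasSum_qExpansion (f := E₄) (k := 4) one_pos one_mem_strictPeriods_SL τ
  have h2 : ∀ n : ℕ, (UpperHalfPlane.qExpansion 1 E₄).coeff n =
      (eisenstein4.map (Int.castRingHom ℂ)).coeff n := by
    intro n
    rw [E_qExpansion_coeff _ ⟨2, rfl⟩]
    simp only [eisenstein4, PowerSeries.coeff_map, PowerSeries.coeff_mk,
      show bernoulli 4 = -1 / 30 by decide +kernel]
    split_ifs with hn
    · simp
    · simp only [sigma_apply]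
      push_cast
      norm_num
  simpa [h2] using h

theorem hasExp_jqModC :
    HasExp 1 (fun τ : ℍ => (E₄ τ) ^ 3 / ModularForm.discriminant τ) (jqModC ℂ) := by
  have h := (hasExp_E₄.pow 3).mul hasExp_discriminant_inv
  have h2 : (HahnSeries.ofPowerSeries ℤ ℂ (eisenstein4.map (Int.castRingHom ℂ))) ^ 3 *
      deltaInvL ℂ = jqModC ℂ := by
    rw [deltaInvL, jqModC, jNum, map_mul, map_mul, map_pow, map_pow]
    ring
  rw [h2] at h
  exact h

end EFour

end Fermat.Agent.H28
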