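import Mathlib
import Fermat.Prelude.Def_ModularCurve_X0ModL
import Fermat.Agent.H24Conv
import Fermat.Agent.H24Inv
import Fermat.Agent.H24Coset
import Fermat.Agent.H24Cayley
import Fermat.Agent.H28Jq

/-! S24: the ring `K[j(dτ) : d ∣ N]` of functions on `ℍ`, its expansions and embeddings. -/

set_option autoImplicit false

namespace Fermat.Agent.H24

open UpperHalfPlane hiding I
open Complex MatrixGroups ModularGroup Fermat.Agent.H61 ModularCurve
open scoped Manifold Real

noncomputable section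

local notation "𝕢" => Function.Periodic.qParam

/-! ### the series of `j` over `ℂ` -/

theorem hasSum_jqModC (τ : ℍ) :
    HasSum (fun n : ℤ => (jqModC ℂ).coeff n * 𝕢 (1 : ℝ) τ ^ n) (jInv τ) :=
  Fermat.Agent.H28.hasExp_jqModC τ

theorem evalAt_jqModC (τ : ℍ) : evalAt (𝕢 (1 : ℝ) τ) (jqModC ℂ) = jInv τ :=
  (hasSum_jqModC τ).tsum_eq

theorem isConv_jqModC : IsConv (jqModC ℂ) := by
  intro r hr0 hr1
  obtain ⟨τ, hτ⟩ := exists_qParam_eq_of_norm 1 (w := (r : ℂ)) (by exact_mod_cast hr0.ne')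
    (by simpa [abs_of_pos hr0] using hr1)
  have h := (hasSum_jqModC τ).summable.norm
  rw [Nat.cast_one] at hτ
  rw [hτ] at h
  simpa [norm_mul, norm_zpow, abs_of_pos hr0] using h

theorem order_jqModC : (jqModC ℂ).order = -1 := by
  have h1 : (jqModC ℂ).coeff (-1) ≠ 0 := by
    rw [coeff_jqModC_neg_one]; exact one_ne_zero
  refine le_antisymm (HahnSeries.order_le_of_coeff_ne_zero h1) ?_
  rw [HahnSeries.le_order_iff_forall (jqModC_ne_zero_of_nontrivial ℂ)]
  intro n hn
  exact coeff_jqModC_of_lt ℂ hn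

/-! ### charts -/

/-- A local coordinate on `ℍ` (at a point or at `i∞`). -/
structure Chart (z : ℍ → ℂ) : Prop where
  lt : ∀ τ, ‖z τ‖ < 1
  surj : ∀ w : ℂ, w ≠ 0 → ‖w‖ < 1 → ∃ τ, z τ = w
  dense : Dense {τ | z τ ≠ 0}

theorem chart_qParam (N : ℕ) [NeZero N] : Chart (fun τ : ℍ => 𝕢 (N : ℝ) τ) where
  lt := qParam_norm_lt_one N
  surj w h0 h1 := exists_qParam_eq_of_norm N h0 h1
  dense := by
    have : {τ : ℍ | 𝕢 (N : ℝ) τ ≠ 0} = Set.univ :=
      Set.eq_univ_of_forall fun τ => Function.Periodic.qParam_ne_zero _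
    rw [this]
    exact dense_univ

theorem chart_cayley (τ₀ : ℍ) : Chart (cayley τ₀) where
  lt := norm_cayley_lt_one τ₀
  surj w _ h1 := exists_cayley_eq τ₀ h1
  dense := by
    have : {τ : ℍ | cayley τ₀ τ ≠ 0} = {τ₀}ᶜ := by
      ext τ
      simp [cayley_eq_zero_iff]
    rw [this]
    exact dense_compl_singleton τ₀

/-- `F` is the expansion of `f` in the chart `z`. -/
def HasExpC (z : ℍ → ℂ) (f : ℍ → ℂ) (F : LaurentSeries ℂ) : Prop :=
  IsConv F ∧ ∀ τ, z τ ≠ 0 → evalAt (z τ) F = f τ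

theorem HasExpC.unique {z : ℍ → ℂ} (hz : Chart z) {f : ℍ → ℂ} {F G : LaurentSeries ℂ}
    (hF : HasExpC z f F) (hG : HasExpC z f G) : F = G := by
  refine eq_of_evalAt_eq hF.1 hG.1 fun w h0 h1 => ?_
  obtain ⟨τ, rfl⟩ := hz.surj w h0 h1
  rw [hF.2 τ h0, hG.2 τ h0]

/-- functions having an expansion in the chart -/
def ExpAlg {z : ℍ → ℂ} (hz : Chart z) : Subalgebra ℂ (ℍ → ℂ) where
  carrier := {f | ∃ F, HasExpC z f F}
  mul_mem' := by
    rintro f g ⟨F, hF⟩ ⟨G, hG⟩
    exact ⟨F * G, hF.1.mul hG.1, fun τ h => by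
      rw [evalAt_mul hF.1 hG.1 h (hz.lt τ), hF.2 τ h, hG.2 τ h]; rfl⟩
  add_mem' := by
    rintro f g ⟨F, hF⟩ ⟨G, hG⟩
    exact ⟨F + G, hF.1.add hG.1, fun τ h => by
      rw [evalAt_add hF.1 hG.1 h (hz.lt τ), hF.2 τ h, hG.2 τ h]; rfl⟩
  algebraMap_mem' c := ⟨algebraMap ℂ _ c, by
    rw [algebraMap_eq_single]; exact isConv_single 0 c, fun τ h => by
      rw [algebraMap_eq_single, evalAt_single]; simp⟩

variable {z : ℍ → ℂ} (hz : Chart z)

/-- the expansion of a function in a chart -/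
def expFun (f : ExpAlg hz) : LaurentSeries ℂ := f.2.choose

theorem expFun_spec (f : ExpAlg hz) : HasExpC z (f : ℍ → ℂ) (expFun hz f) := f.2.choose_spec

theorem expFun_eq {f : ExpAlg hz} {F : LaurentSeries ℂ} (h : HasExpC z (f : ℍ → ℂ) F) :
    expFun hz f = F := (expFun_spec hz f).unique hz h

/-- the expansion as an algebra hom -/
def expHom : ExpAlg hz →ₐ[ℂ] LaurentSeries ℂ where
  toFun := expFun hz
  map_one' := expFun_eq hz ⟨isConv_one, fun τ _ => evalAt_one _⟩
  map_mul' f g := expFun_eq hz ⟨(expFun_spec hz f).1.mul (expFun_spec hz g).1, fun τ h => by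
    rw [evalAt_mul (expFun_spec hz f).1 (expFun_spec hz g).1 h (hz.lt τ),
      (expFun_spec hz f).2 τ h, (expFun_spec hz g).2 τ h]; rfl⟩
  map_zero' := expFun_eq hz ⟨by simpa using isConv_single 0 0, fun τ _ => by simp [evalAt]⟩
  map_add' f g := expFun_eq hz ⟨(expFun_spec hz f).1.add (expFun_spec hz g).1, fun τ h => by
    rw [evalAt_add (expFun_spec hz f).1 (expFun_spec hz g).1 h (hz.lt τ),
      (expFun_spec hz f).2 τ h, (expFun_spec hz g).2 τ h]; rfl⟩
  commutes' c := expFun_eq hz ⟨by rw [algebraMap_eq_single]; exact isConv_single 0 c,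
    fun τ _ => by rw [algebraMap_eq_single, evalAt_single]; simp⟩

theorem expHom_spec (f : ExpAlg hz) : HasExpC z (f : ℍ → ℂ) (expHom hz f) := expFun_spec hz f

theorem expHom_eq {f : ExpAlg hz} {F : LaurentSeries ℂ} (h : HasExpC z (f : ℍ → ℂ) F) :
    expHom hz f = F := expFun_eq hz h

/-! ### composition with `γ` -/

/-- `f ↦ f ∘ γ` -/
def compHom (γ : SL(2, ℤ)) : (ℍ → ℂ) →ₐ[ℂ] (ℍ → ℂ) where
  toFun f := fun τ => f (γ • τ)
  map_one' := rfl
  map_mul' _ _ := rfl
  map_zero' := rfl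
  map_add' _ _ := rfl
  commutes' _ := rfl

@[simp] theorem compHom_apply (γ : SL(2, ℤ)) (f : ℍ → ℂ) (τ : ℍ) :
    compHom γ f τ = f (γ • τ) := rfl

theorem compHom_mul (γ γ' : SL(2, ℤ)) (f : ℍ → ℂ) :
    compHom γ' (compHom γ f) = compHom (γ * γ') f := by
  ext τ
  simp [mul_smul]

/-- holomorphic functions -/
def Hol : Subalgebra ℂ (ℍ → ℂ) where
  carrier := {f | MDiff f}
  mul_mem' hf hg := MDifferentiable.mul hf hg
  add_mem' hf hg := MDifferentiable.add hf hg
  algebraMap_mem' _ := mdifferentiable_const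

theorem mem_Hol {f : ℍ → ℂ} : f ∈ Hol ↔ MDiff f := Iff.rfl

theorem Hol_le_ExpAlg_cayley (τ₀ : ℍ) : Hol ≤ ExpAlg (chart_cayley τ₀) := by
  intro f hf
  obtain ⟨P, hP, hPe, -⟩ := exists_expansion_cayley τ₀ hf
  exact ⟨_, hP, fun τ _ => hPe τ⟩

theorem mdiff_smul (γ : SL(2, ℤ)) {f : ℍ → ℂ} (hf : MDiff f) : MDiff (fun τ => f (γ • τ)) :=
  hf.comp (UpperHalfPlane.mdifferentiable_smul (g := (γ : GL (Fin 2) ℝ)) (by simp))

theorem compHom_mem_Hol (γ : SL(2, ℤ)) {f : ℍ → ℂ} (hf : f ∈ Hol) : compHom γ f ∈ Hol :=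
  mdiff_smul γ hf

include hz in
theorem eq_of_mem_Hol_of_chart {f g : ℍ → ℂ} (hf : f ∈ Hol) (hg : g ∈ Hol)
    (h : ∀ τ, z τ ≠ 0 → f τ = g τ) : f = g := by
  have hf' : MDiff f := hf
  have hg' : MDiff g := hg
  exact (hf'.continuous).ext_on hz.dense hg'.continuous h

theorem expHom_injOn {f g : ExpAlg hz} (hf : (f : ℍ → ℂ) ∈ Hol) (hg : (g : ℍ → ℂ) ∈ Hol)
    (h : expHom hz f = expHom hz g) : (f : ℍ → ℂ) = g := by
  refine eq_of_mem_Hol_of_chart hz hf hg fun τ hτ => ?_
  rw [← (expHom_spec hz f).2 τ hτ, ← (expHom_spec hz g).2 τ hτ, h]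

/-! ### the ring of functions attached to formal series over `K` -/

section K

variable (K : Type*) [Field K] [Algebra K ℂ]

/-- coefficientwise inclusion -/
def incl : LaurentSeries K →+* LaurentSeries ℂ := coeffMap (algebraMap K ℂ)

theorem incl_coeff (x : LaurentSeries K) (n : ℤ) :
    (incl K x).coeff n = algebraMap K ℂ (x.coeff n) := rfl

theorem incl_injective : Function.Injective (incl K) := fun x y h => by
  ext n
  have := congrArg (fun F : LaurentSeries ℂ => F.coeff n) h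
  simp only [incl_coeff] at this
  exact (algebraMap K ℂ).injective this

theorem incl_algebraMap (c : K) :
    incl K (algebraMap K (LaurentSeries K) c) = algebraMap ℂ (LaurentSeries ℂ) (algebraMap K ℂ c) := by
  rw [algebraMap_laurentSeries_eq_single, algebraMap_eq_single]
  exact coeffMap_single _ _ _

/-- the function on `ℍ` attached to a (convergent) series in `q` -/
def ev (x : LaurentSeries K) : ℍ → ℂ := fun τ => evalAt (𝕢 (1 : ℝ) τ) (incl K x)

theorem norm_qParam_one (τ : ℍ) : ‖𝕢 (1 : ℝ) τ‖ < 1 := by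
  simpa using qParam_norm_lt_one 1 τ

/-- the good elements -/
structure Good (N : ℕ) [NeZero N] (x : LaurentSeries K) : Prop where
  conv : IsConv (incl K x)
  hol : ev K x ∈ Hol
  exp : ∀ γ : SL(2, ℤ), compHom γ (ev K x) ∈ ExpAlg (chart_qParam N)
  inv : ∀ γ ∈ CongruenceSubgroup.Gamma0 N, compHom γ (ev K x) = ev K x

theorem ev_mul {x y : LaurentSeries K} (hx : IsConv (incl K x)) (hy : IsConv (incl K y)) :
    ev K (x * y) = ev K x * ev K y := by
  ext τ
  simp only [ev, map_mul, Pi.mul_apply]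
  exact evalAt_mul hx hy (Function.Periodic.qParam_ne_zero _) (norm_qParam_one τ)

theorem ev_add {x y : LaurentSeries K} (hx : IsConv (incl K x)) (hy : IsConv (incl K y)) :
    ev K (x + y) = ev K x + ev K y := by
  ext τ
  simp only [ev, map_add, Pi.add_apply]
  exact evalAt_add hx hy (Function.Periodic.qParam_ne_zero _) (norm_qParam_one τ)

theorem ev_algebraMap (c : K) :
    ev K (algebraMap K (LaurentSeries K) c) = algebraMap ℂ (ℍ → ℂ) (algebraMap K ℂ c) := by
  ext τ
  simp only [ev, incl_algebraMap, algebraMap_eq_single, evalAt_single]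
  simp

theorem ev_injective_of_conv {x y : LaurentSeries K} (hx : IsConv (incl K x))
    (hy : IsConv (incl K y)) (h : ev K x = ev K y) : x = y := by
  apply incl_injective K
  refine eq_of_evalAt_qParam_eq 1 hx hy fun τ => ?_
  have := congrFun h τ
  simpa [ev] using this

/-- the subalgebra of good series -/
def GoodAlg (N : ℕ) [NeZero N] : Subalgebra K (LaurentSeries K) where
  carrier := {x | Good K N x}
  mul_mem' {x y} hx hy := by
    refine ⟨by rw [map_mul]; exact hx.conv.mul hy.conv, ?_, fun γ => ?_, fun γ hγ => ?_⟩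
    · rw [ev_mul K hx.conv hy.conv]; exact Hol.mul_mem hx.hol hy.hol
    · rw [ev_mul K hx.conv hy.conv, map_mul]; exact Subalgebra.mul_mem _ (hx.exp γ) (hy.exp γ)
    · rw [ev_mul K hx.conv hy.conv, map_mul, hx.inv γ hγ, hy.inv γ hγ]
  add_mem' {x y} hx hy := by
    refine ⟨by rw [map_add]; exact hx.conv.add hy.conv, ?_, fun γ => ?_, fun γ hγ => ?_⟩
    · rw [ev_add K hx.conv hy.conv]; exact Hol.add_mem hx.hol hy.hol
    · rw [ev_add K hx.conv hy.conv, map_add]; exact Subalgebra.add_mem _ (hx.exp γ) (hy.exp γ)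
    · rw [ev_add K hx.conv hy.conv, map_add, hx.inv γ hγ, hy.inv γ hγ]
  algebraMap_mem' c := by
    refine ⟨?_, ?_, fun γ => ?_, fun γ hγ => ?_⟩
    · rw [incl_algebraMap, algebraMap_eq_single]; exact isConv_single _ _
    · rw [ev_algebraMap]; exact Subalgebra.algebraMap_mem _ _
    · rw [ev_algebraMap, AlgHom.commutes]; exact Subalgebra.algebraMap_mem _ _
    · rw [ev_algebraMap, AlgHom.commutes]

theorem incl_qExpand_jqModC (d : ℕ) [NeZero d] :
    incl K (qExpand K d (jqModC K)) = qExpand ℂ d (jqModC ℂ) := by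
  rw [incl, coeffMap_qExpand, coeffMap_jqModC]

theorem ev_qExpand_jqModC (d : ℕ) [NeZero d] (τ : ℍ) :
    ev K (qExpand K d (jqModC K)) τ = jInv (scale d τ) := by
  rw [ev, incl_qExpand_jqModC, evalAt_qExpand d isConv_jqModC (Function.Periodic.qParam_ne_zero _)
    (norm_qParam_one τ), ← evalAt_jqModC]
  congr 1
  simp only [Function.Periodic.qParam, coe_scale]
  rw [← Complex.exp_nat_mul]
  congr 1
  push_cast
  ring

theorem scale_one (τ : ℍ) : scale 1 τ = τ := by
  apply UpperHalfPlane.ext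
  rw [coe_scale]; simp

theorem ev_jqModC (τ : ℍ) : ev K (jqModC K) τ = jInv τ := by
  have := ev_qExpand_jqModC K 1 τ
  rwa [qExpand_one_apply, scale_one] at this

theorem mdiff_scale (d : ℕ) [NeZero d] {f : ℍ → ℂ} (hf : MDiff f) :
    MDiff (fun τ => f (scale d τ)) := by
  rw [UpperHalfPlane.mdifferentiable_iff] at hf ⊢
  have h1 : DifferentiableOn ℂ (fun w : ℂ => (d : ℂ) * w) upperHalfPlaneSet := by fun_prop
  have h2 : Set.MapsTo (fun w : ℂ => (d : ℂ) * w) upperHalfPlaneSet upperHalfPlaneSet := by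
    intro w hw
    have hd : (0 : ℝ) < d := by exact_mod_cast Nat.pos_of_ne_zero (NeZero.ne d)
    simpa using mul_pos hd hw
  refine (hf.comp h1 h2).congr fun w hw => ?_
  simp only [Function.comp_apply]
  rw [ofComplex_apply_of_im_pos hw, ofComplex_apply_of_im_pos (h2 hw)]
  rfl

theorem good_qExpand_jqModC (N : ℕ) [NeZero N] (d : ℕ) [NeZero d] (hd : d ∣ N) :
    Good K N (qExpand K d (jqModC K)) := by
  have hfun : ev K (qExpand K d (jqModC K)) = fun τ => jInv (scale d τ) :=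
    funext fun τ => ev_qExpand_jqModC K d τ
  refine ⟨by rw [incl_qExpand_jqModC]; exact isConv_qExpand d isConv_jqModC, ?_, fun γ => ?_,
    fun γ hγ => ?_⟩
  · rw [hfun]; exact mdiff_scale d jInv_mdiff
  · rw [hfun]
    obtain ⟨F, hF, hFe⟩ := exists_expansion_scale isConv_jqModC evalAt_jqModC N d hd γ
    exact ⟨F, hF, fun τ _ => hFe τ⟩
  · rw [hfun]
    ext τ
    exact jInv_scale_eq_of_mem_Gamma0 N d hd hγ τ

/-- `K[j(q^d) : d ∣ N]` -/
def A (N : ℕ) : Subalgebra K (LaurentSeries K) := Algebra.adjoin K (divisorExpansionsC K N)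

theorem A_le_GoodAlg (N : ℕ) [NeZero N] : A K N ≤ GoodAlg K N := by
  apply Algebra.adjoin_le
  rintro x ⟨d, hd0, hd, rfl⟩
  exact good_qExpand_jqModC K N d hd

theorem good_of_mem {N : ℕ} [NeZero N] {x : LaurentSeries K} (hx : x ∈ A K N) : Good K N x :=
  A_le_GoodAlg K N hx

/-! ### embeddings attached to a chart and `γ` -/

/-- a chart in which all conjugates of the elements of `A K N` have expansions -/
structure GoodChart (N : ℕ) (z : ℍ → ℂ) : Prop where
  chart : Chart z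
  exp : ∀ x ∈ A K N, ∀ γ : SL(2, ℤ), compHom γ (ev K x) ∈ ExpAlg chart

theorem goodChart_qParam (N : ℕ) [NeZero N] : GoodChart K N (fun τ : ℍ => 𝕢 (N : ℝ) τ) where
  chart := chart_qParam N
  exp _ hx γ := (good_of_mem K hx).exp γ

theorem goodChart_cayley (N : ℕ) [NeZero N] (τ₀ : ℍ) : GoodChart K N (cayley τ₀) where
  chart := chart_cayley τ₀
  exp _ hx γ := Hol_le_ExpAlg_cayley τ₀ (compHom_mem_Hol γ (good_of_mem K hx).hol)

variable {K} {N : ℕ} [NeZero N] {z : ℍ → ℂ} (hz : GoodChart K N z)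

/-- the embedding `x ↦ expansion of x ∘ γ` -/
def phi (γ : SL(2, ℤ)) : A K N →ₐ[K] LaurentSeries ℂ where
  toFun x := expHom hz.chart ⟨compHom γ (ev K x), hz.exp x x.2 γ⟩
  map_one' := by
    apply expHom_eq
    refine ⟨isConv_one, fun τ _ => ?_⟩
    have := congrFun (ev_algebraMap K 1) (γ • τ)
    simp only [map_one] at this
    show evalAt (z τ) 1 = ev K ((1 : A K N) : LaurentSeries K) (γ • τ)
    rw [OneMemClass.coe_one, this, evalAt_one]; rfl
  map_mul' x y := by
    rw [← map_mul]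
    congr 1
    apply Subtype.ext
    show compHom γ (ev K ((x : LaurentSeries K) * y)) = compHom γ (ev K x) * compHom γ (ev K y)
    rw [ev_mul K (good_of_mem K x.2).conv (good_of_mem K y.2).conv, map_mul]
  map_zero' := by
    apply expHom_eq
    refine ⟨by simpa using isConv_single 0 0, fun τ _ => ?_⟩
    have := congrFun (ev_algebraMap K 0) (γ • τ)
    simp only [map_zero] at this
    show evalAt (z τ) 0 = ev K ((0 : A K N) : LaurentSeries K) (γ • τ)
    rw [ZeroMemClass.coe_zero, this]; simp [evalAt]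
  map_add' x y := by
    rw [← map_add]
    congr 1
    apply Subtype.ext
    show compHom γ (ev K ((x : LaurentSeries K) + y)) = compHom γ (ev K x) + compHom γ (ev K y)
    rw [ev_add K (good_of_mem K x.2).conv (good_of_mem K y.2).conv, map_add]
  commutes' c := by
    apply expHom_eq
    have h1 : algebraMap K (LaurentSeries ℂ) c = HahnSeries.single 0 (algebraMap K ℂ c) := by
      rw [HahnSeries.algebraMap_apply', PowerSeries.algebraMap_apply]
      simp
    rw [h1]
    refine ⟨isConv_single _ _, fun τ _ => ?_⟩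
    have := congrFun (ev_algebraMap K c) (γ • τ)
    show evalAt (z τ) _ = ev K (algebraMap K (LaurentSeries K) c) (γ • τ)
    rw [this, evalAt_single]; simp

theorem phi_spec (γ : SL(2, ℤ)) (x : A K N) :
    HasExpC z (fun τ => ev K x (γ • τ)) (phi hz γ x) :=
  expHom_spec hz.chart ⟨compHom γ (ev K x), hz.exp x x.2 γ⟩

theorem phi_eq {γ : SL(2, ℤ)} {x : A K N} {F : LaurentSeries ℂ}
    (h : HasExpC z (fun τ => ev K x (γ • τ)) F) : phi hz γ x = F :=
  (phi_spec hz γ x).unique hz.chart h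

theorem phi_eq_phi_iff (γ γ' : SL(2, ℤ)) (x y : A K N) :
    phi hz γ x = phi hz γ' y ↔ ∀ τ, ev K x (γ • τ) = ev K y (γ' • τ) := by
  constructor
  · intro h τ
    have := expHom_injOn (f := ⟨compHom γ (ev K x), hz.exp x x.2 γ⟩)
      (g := ⟨compHom γ' (ev K y), hz.exp y y.2 γ'⟩) hz.chart
      (compHom_mem_Hol γ (good_of_mem K x.2).hol) (compHom_mem_Hol γ' (good_of_mem K y.2).hol) h
    exact congrFun this τ
  · intro h
    apply phi_eq
    have := phi_spec hz γ' y
    convert! this using 1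
    exact funext h

theorem phi_injective (γ : SL(2, ℤ)) : Function.Injective (phi hz γ) := by
  intro x y h
  rw [phi_eq_phi_iff] at h
  apply Subtype.ext
  refine ev_injective_of_conv K (good_of_mem K x.2).conv (good_of_mem K y.2).conv ?_
  ext τ
  have := h (γ⁻¹ • τ)
  rwa [smul_inv_smul] at this

theorem phi_eq_of_mem {γ γ' : SL(2, ℤ)} (h : γ' * γ⁻¹ ∈ CongruenceSubgroup.Gamma0 N) :
    phi hz γ = phi hz γ' := by
  ext1 x
  rw [phi_eq_phi_iff]
  intro τ
  have := congrFun ((good_of_mem K x.2).inv _ h) (γ • τ)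
  simp only [compHom_apply] at this
  rw [← this, ← mul_smul, inv_mul_cancel_right]

theorem mem_of_phi_eq {γ γ' : SL(2, ℤ)} (h : phi hz γ = phi hz γ') :
    γ' * γ⁻¹ ∈ CongruenceSubgroup.Gamma0 N := by
  apply mem_Gamma0_of_jInv_scale_eq isConv_jqModC order_jqModC evalAt_jqModC
  intro τ
  have hx : qExpand K N (jqModC K) ∈ A K N :=
    Algebra.subset_adjoin (mem_divisorExpansionsC K N dvd_rfl)
  have h1 := congrArg (fun f => f ⟨_, hx⟩) h
  simp only [phi_eq_phi_iff] at h1
  have h2 := h1 (γ⁻¹ • τ)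
  simp only [ev_qExpand_jqModC] at h2
  rw [smul_inv_smul] at h2
  rw [mul_smul, h2]

/-- the embedding attached to a coset -/
def sA (g : SL(2, ℤ) ⧸ CongruenceSubgroup.Gamma0 N) : A K N →ₐ[K] LaurentSeries ℂ :=
  phi hz (Quotient.out g)⁻¹

theorem sA_mk (γ : SL(2, ℤ)) : sA hz (QuotientGroup.mk γ) = phi hz γ⁻¹ := by
  apply phi_eq_of_mem
  rw [inv_inv]
  have : (QuotientGroup.mk (Quotient.out (QuotientGroup.mk γ : SL(2, ℤ) ⧸ CongruenceSubgroup.Gamma0 N)) : SL(2, ℤ) ⧸ CongruenceSubgroup.Gamma0 N) = QuotientGroup.mk γ := Quotient.out_eq _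
  exact (QuotientGroup.eq.mp this.symm)

theorem sA_injective : Function.Injective (sA hz) := by
  intro g g' h
  induction g using QuotientGroup.induction_on with
  | H γ =>
    induction g' using QuotientGroup.induction_on with
    | H γ' =>
      rw [sA_mk, sA_mk] at h
      have := mem_of_phi_eq hz h
      rw [inv_inv] at this
      exact (QuotientGroup.eq.mpr this).symm

end K

end

end Fermat.Agent.H24
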