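import Mathlib
import Fermat.Agent.H24Ring

/-! Each element of `A K N` satisfies a monic polynomial of degree `[SL₂(ℤ):Γ₀(N)]` over `K[j]`. -/

set_option autoImplicit false

namespace Fermat.Agent.H24

open UpperHalfPlane hiding I
open Complex MatrixGroups ModularGroup Fermat.Agent.H61 ModularCurve Polynomial
open scoped Manifold Real

noncomputable section

local notation "𝕢" => Function.Periodic.qParam

/-- coefficients of a product of linear factors lie in the subalgebra -/
theorem coeff_prod_mem {R S : Type*} [CommRing R] [CommRing S] [Algebra R S] (T : Subalgebra R S)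
    {ι : Type*} (s : Finset ι) (f : ι → S) (hf : ∀ i ∈ s, f i ∈ T) (n : ℕ) :
    (∏ i ∈ s, (X - C (f i))).coeff n ∈ T := by
  classical
  have h : ∏ i ∈ s, (X - C (f i)) ∈ Polynomial.liftsRing T.val.toRingHom := by
    refine Subring.prod_mem _ fun i hi => ?_
    refine Subring.sub_mem _ ?_ ?_
    · exact (Polynomial.lifts_iff_liftsRing _ _).mp (Polynomial.X_mem_lifts _)
    · exact (Polynomial.lifts_iff_liftsRing _ _).mp
        (Polynomial.C'_mem_lifts ⟨⟨f i, hf i hi⟩, rfl⟩)
  have h2 := (Polynomial.lifts_iff_coeff_lifts _).mp ((Polynomial.lifts_iff_liftsRing _ _).mpr h) n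
  obtain ⟨t, ht⟩ := h2
  rw [← ht]
  exact t.2

section

variable {K : Type*} [Field K] [Algebra K ℂ] {N : ℕ} [NeZero N]

/-- conjugate of the function attached to `x` by a coset -/
def conj (x : A K N) (g : SL(2, ℤ) ⧸ CongruenceSubgroup.Gamma0 N) : ℍ → ℂ :=
  compHom (Quotient.out g)⁻¹ (ev K x)

theorem compHom_eq_of_mem (x : A K N) {γ γ' : SL(2, ℤ)}
    (h : γ' * γ⁻¹ ∈ CongruenceSubgroup.Gamma0 N) :
    compHom γ (ev K x) = compHom γ' (ev K x) := by
  ext τ
  have := congrFun ((good_of_mem K x.2).inv _ h) (γ • τ)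
  simp only [compHom_apply] at this ⊢
  rw [← this, ← mul_smul, inv_mul_cancel_right]

theorem conj_mk (x : A K N) (γ : SL(2, ℤ)) :
    conj x (QuotientGroup.mk γ) = compHom γ⁻¹ (ev K x) := by
  apply compHom_eq_of_mem
  rw [inv_inv]
  have : (QuotientGroup.mk (Quotient.out (QuotientGroup.mk γ : SL(2, ℤ) ⧸ CongruenceSubgroup.Gamma0 N)) :
    SL(2, ℤ) ⧸ CongruenceSubgroup.Gamma0 N) = QuotientGroup.mk γ := Quotient.out_eq _
  exact QuotientGroup.eq.mp this.symm

theorem compHom_conj (x : A K N) (γ : SL(2, ℤ)) (g : SL(2, ℤ) ⧸ CongruenceSubgroup.Gamma0 N) :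
    compHom γ (conj x g) = conj x (γ⁻¹ • g) := by
  induction g using QuotientGroup.induction_on with
  | H γ' =>
    rw [conj_mk, compHom_mul]
    have : γ⁻¹ • (QuotientGroup.mk γ' : SL(2, ℤ) ⧸ CongruenceSubgroup.Gamma0 N) =
      QuotientGroup.mk (γ⁻¹ * γ') := rfl
    rw [this, conj_mk, mul_inv_rev, inv_inv]

variable [Fintype (SL(2, ℤ) ⧸ CongruenceSubgroup.Gamma0 N)]

/-- the characteristic polynomial -/
def charP (x : A K N) : Polynomial (ℍ → ℂ) := ∏ g, (X - C (conj x g))

theorem charP_monic (x : A K N) : (charP x).Monic :=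
  monic_prod_of_monic _ _ fun _ _ => monic_X_sub_C _

theorem charP_natDegree (x : A K N) :
    (charP x).natDegree = Fintype.card (SL(2, ℤ) ⧸ CongruenceSubgroup.Gamma0 N) := by
  rw [charP, natDegree_prod_of_monic _ _ fun _ _ => monic_X_sub_C _]
  simp

theorem charP_eval (x : A K N) : (charP x).eval (ev K x) = 0 := by
  rw [charP, eval_prod]
  refine Finset.prod_eq_zero (Finset.mem_univ (QuotientGroup.mk 1)) ?_
  rw [conj_mk, inv_one]
  simp only [eval_sub, eval_X, eval_C]
  ext τ
  simp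

theorem charP_map (x : A K N) (γ : SL(2, ℤ)) :
    (charP x).map (compHom γ : (ℍ → ℂ) →+* (ℍ → ℂ)) = charP x := by
  rw [charP, Polynomial.map_prod]
  refine Fintype.prod_equiv (MulAction.toPerm γ⁻¹) _ _ fun g => ?_
  rw [Polynomial.map_sub, Polynomial.map_X, Polynomial.map_C]
  congr 2
  exact compHom_conj x γ g

theorem charP_coeff_inv (x : A K N) (n : ℕ) (γ : SL(2, ℤ)) (τ : ℍ) :
    (charP x).coeff n (γ • τ) = (charP x).coeff n τ := by
  have := congrArg (fun p => p.coeff n) (charP_map x γ)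
  simp only [coeff_map] at this
  exact congrFun this τ

theorem charP_coeff_mem (x : A K N) (n : ℕ) :
    (charP x).coeff n ∈ Hol ⊓ ExpAlg (chart_qParam N) := by
  refine coeff_prod_mem _ _ _ (fun g _ => ?_) n
  exact ⟨compHom_mem_Hol _ (good_of_mem K x.2).hol, (good_of_mem K x.2).exp _⟩

theorem charP_coeff_eq (x : A K N) (n : ℕ) :
    ∃ p : Polynomial ℂ, ∀ τ, (charP x).coeff n τ = p.eval (jInv τ) := by
  obtain ⟨h1, F, hF⟩ := charP_coeff_mem x n
  exact exists_poly_of_invariant isConv_jqModC order_jqModC evalAt_jqModC N h1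
    (charP_coeff_inv x n) hF.1 fun τ => hF.2 τ (Function.Periodic.qParam_ne_zero _)

/-- relation over `ℂ[j]` -/
theorem exists_relation_complex (x : A K N) :
    ∃ p : ℕ → Polynomial ℂ,
      (incl K x) ^ (Fintype.card (SL(2, ℤ) ⧸ CongruenceSubgroup.Gamma0 N)) +
        ∑ i ∈ Finset.range (Fintype.card (SL(2, ℤ) ⧸ CongruenceSubgroup.Gamma0 N)),
          aeval (jqModC ℂ) (p i) * (incl K x) ^ i = 0 := by
  choose p hp using charP_coeff_eq x
  refine ⟨p, ?_⟩
  set n := Fintype.card (SL(2, ℤ) ⧸ CongruenceSubgroup.Gamma0 N) with hn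
  have hx := (good_of_mem K x.2).conv
  have hconvP : ∀ q : Polynomial ℂ, IsConv (aeval (jqModC ℂ) q) := fun q => by
    have : aeval (jqModC ℂ) q ∈ Algebra.adjoin ℂ {jqModC ℂ} := aeval_mem_adjoin_singleton ℂ _
    have h2 : Algebra.adjoin ℂ {jqModC ℂ} ≤ Conv := Algebra.adjoin_le (by
      rintro _ rfl; exact isConv_jqModC)
    exact h2 this
  have hevalP : ∀ (q : Polynomial ℂ) (τ : ℍ), evalAt (𝕢 (1 : ℝ) τ) (aeval (jqModC ℂ) q) =
      q.eval (jInv τ) := fun q τ => by
    have h := Polynomial.aeval_algHom_apply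
      (evalHom (𝕢 (1 : ℝ) τ) (Function.Periodic.qParam_ne_zero _) (norm_qParam_one τ))
      ⟨jqModC ℂ, isConv_jqModC⟩ q
    rw [evalHom_apply, evalAt_jqModC] at h
    rw [← Polynomial.coe_aeval_eq_eval, h, evalHom_apply]
    congr 1
    have h3 := Polynomial.aeval_algHom_apply Conv.val ⟨jqModC ℂ, isConv_jqModC⟩ q
    exact h3
  have hsum : ∀ m : ℕ, IsConv (∑ i ∈ Finset.range m, aeval (jqModC ℂ) (p i) * (incl K x) ^ i) ∧
      ∀ τ : ℍ, evalAt (𝕢 (1 : ℝ) τ)
        (∑ i ∈ Finset.range m, aeval (jqModC ℂ) (p i) * (incl K x) ^ i) =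
        ∑ i ∈ Finset.range m, (p i).eval (jInv τ) * (ev K x τ) ^ i := by
    intro m
    induction m with
    | zero =>
      refine ⟨by simpa using isConv_single 0 0, fun τ => by simp [evalAt]⟩
    | succ m ih =>
      have hterm : IsConv (aeval (jqModC ℂ) (p m) * (incl K x) ^ m) :=
        (hconvP _).mul (isConv_pow hx m)
      refine ⟨?_, fun τ => ?_⟩
      · rw [Finset.sum_range_succ]
        exact ih.1.add hterm
      · rw [Finset.sum_range_succ, Finset.sum_range_succ,
          evalAt_add ih.1 hterm (Function.Periodic.qParam_ne_zero _) (norm_qParam_one τ), ih.2,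
          evalAt_mul (hconvP _) (isConv_pow hx m) (Function.Periodic.qParam_ne_zero _)
            (norm_qParam_one τ), hevalP,
          evalAt_pow hx m (Function.Periodic.qParam_ne_zero _) (norm_qParam_one τ)]
        rfl
  have hzero : IsConv (0 : LaurentSeries ℂ) := by simpa using isConv_single 0 0
  refine eq_of_evalAt_qParam_eq 1 ((isConv_pow hx n).add (hsum n).1) hzero fun τ => ?_
  rw [Nat.cast_one, evalAt_add (isConv_pow hx n) (hsum n).1 (Function.Periodic.qParam_ne_zero _)
    (norm_qParam_one τ), (hsum n).2,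
    evalAt_pow hx n (Function.Periodic.qParam_ne_zero _) (norm_qParam_one τ)]
  have h0 := charP_eval x
  rw [(charP_monic x).as_sum, charP_natDegree, ← hn] at h0
  have h1 := congrFun h0 τ
  simp only [eval_add, eval_pow, eval_X, eval_finsetSum, eval_mul, eval_C, Pi.add_apply,
    Pi.pow_apply, Finset.sum_apply, Pi.mul_apply, Pi.zero_apply, hp] at h1
  simp only [evalAt, HahnSeries.coeff_zero, zero_mul, tsum_zero]
  exact h1

theorem coeff_algebraMap_mul {k : Type*} [Field k] (c : k) (F : LaurentSeries k) (n : ℤ) :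
    (algebraMap k (LaurentSeries k) c * F).coeff n = c * F.coeff n := by
  rw [algebraMap_laurentSeries_eq_single, HahnSeries.coeff_single_zero_mul]

/-- relation over `K[j]` -/
theorem exists_relation (x : A K N) :
    ∃ p : ℕ → Polynomial K,
      (x : LaurentSeries K) ^ (Fintype.card (SL(2, ℤ) ⧸ CongruenceSubgroup.Gamma0 N)) +
        ∑ i ∈ Finset.range (Fintype.card (SL(2, ℤ) ⧸ CongruenceSubgroup.Gamma0 N)),
          aeval (jqModC K) (p i) * (x : LaurentSeries K) ^ i = 0 := by
  obtain ⟨ρ, hρ⟩ := LinearMap.exists_leftInverse_of_injective (Algebra.linearMap K ℂ)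
    (LinearMap.ker_eq_bot.mpr (algebraMap K ℂ).injective)
  have hρ1 : ∀ a : K, ρ (algebraMap K ℂ a) = a := fun a => LinearMap.congr_fun hρ a
  have hρ2 : ∀ (c : ℂ) (a : K), ρ (c * algebraMap K ℂ a) = ρ c * a := fun c a => by
    rw [mul_comm c, ← Algebra.smul_def, map_smul, smul_eq_mul, mul_comm]
  obtain ⟨p, hp⟩ := exists_relation_complex x
  set n := Fintype.card (SL(2, ℤ) ⧸ CongruenceSubgroup.Gamma0 N) with hn
  refine ⟨fun i => ∑ m ∈ Finset.range ((p i).natDegree + 1), C (ρ ((p i).coeff m)) * X ^ m, ?_⟩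
  have hJ : incl K (jqModC K) = jqModC ℂ := by
    rw [incl, coeffMap_jqModC]
  have hterm : ∀ i, aeval (jqModC ℂ) (p i) * (incl K x) ^ i =
      ∑ m ∈ Finset.range ((p i).natDegree + 1),
        algebraMap ℂ (LaurentSeries ℂ) ((p i).coeff m) *
          incl K (jqModC K ^ m * (x : LaurentSeries K) ^ i) := fun i => by
    rw [aeval_eq_sum_range, Finset.sum_mul]
    refine Finset.sum_congr rfl fun m _ => ?_
    rw [map_mul, map_pow, map_pow, hJ, Algebra.smul_def, mul_assoc]
  have hterm2 : ∀ i, aeval (jqModC K)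
      (∑ m ∈ Finset.range ((p i).natDegree + 1), C (ρ ((p i).coeff m)) * X ^ m) *
        (x : LaurentSeries K) ^ i =
      ∑ m ∈ Finset.range ((p i).natDegree + 1),
        algebraMap K (LaurentSeries K) (ρ ((p i).coeff m)) *
          (jqModC K ^ m * (x : LaurentSeries K) ^ i) := fun i => by
    rw [map_sum, Finset.sum_mul]
    refine Finset.sum_congr rfl fun m _ => ?_
    rw [map_mul, aeval_C, map_pow, aeval_X, mul_assoc]
  have hp' : incl K ((x : LaurentSeries K) ^ n) + ∑ i ∈ Finset.range n,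
      ∑ m ∈ Finset.range ((p i).natDegree + 1),
        algebraMap ℂ (LaurentSeries ℂ) ((p i).coeff m) *
          incl K (jqModC K ^ m * (x : LaurentSeries K) ^ i) = 0 := by
    rw [← hp, map_pow]
    congr 1
    exact Finset.sum_congr rfl fun i _ => (hterm i).symm
  ext ℓ
  have h := congrArg (fun F : LaurentSeries ℂ => ρ (F.coeff ℓ)) hp'
  simp only [hterm2]
  simp only [HahnSeries.coeff_add, HahnSeries.coeff_sum, coeff_algebraMap_mul, incl_coeff, map_add,
    map_sum, hρ1, hρ2, HahnSeries.coeff_zero, map_zero] at h ⊢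
  exact h

end

end

end Fermat.Agent.H24
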