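import Mathlib
import Fermat.Agent.H24Rel
import Fermat.Agent.H24Degree

/-! The function field of `X₀(N)` and its embeddings into `ℂ((t))`; its degree over `K(j)`. -/

set_option autoImplicit false

namespace Fermat.Agent.H24

open UpperHalfPlane hiding I
open Complex MatrixGroups ModularGroup Fermat.Agent.H61 ModularCurve Polynomial
open scoped Manifold Real

noncomputable section

open IntermediateField in
theorem finiteDimensional_of_adjoin_eq_top {E F : Type*} [Field E] [Field F] [Algebra E F]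
    {S : Set F} (h : adjoin E S = ⊤) [Finite S] (hS : ∀ x ∈ S, IsIntegral E x) :
    FiniteDimensional E F := by
  have h1 : FiniteDimensional E (adjoin E S) := finiteDimensional_adjoin hS
  rw [h] at h1
  exact topEquiv.toLinearEquiv.finiteDimensional

local notation "𝕢" => Function.Periodic.qParam

section

variable (K : Type*) [Field K] [Algebra K ℂ] (N : ℕ)

/-- The algebra structure of the function field over `A K N`. -/
instance algAF : Algebra (A K N) (modularFunctionFieldFullC K N) :=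
  (Subalgebra.inclusion
    (IntermediateField.algebra_adjoin_le_adjoin K (divisorExpansionsC K N))).toAlgebra

theorem coe_algAF (x : A K N) :
    ((algebraMap (A K N) (modularFunctionFieldFullC K N) x : modularFunctionFieldFullC K N) :
      LaurentSeries K) = x := rfl

instance towerAF : IsScalarTower K (A K N) (modularFunctionFieldFullC K N) :=
  IsScalarTower.of_algebraMap_eq fun _ => rfl

instance fracAF : IsFractionRing (A K N) (modularFunctionFieldFullC K N) :=
  letI : FaithfulSMul (A K N) (modularFunctionFieldFullC K N) :=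
    (faithfulSMul_iff_algebraMap_injective _ _).mpr fun x y h => by
      apply Subtype.ext
      exact congrArg (fun f : modularFunctionFieldFullC K N => (f : LaurentSeries K)) h
  .of_field _ _ fun ⟨_, h⟩ ↦
    have ⟨x, hx, y, hy, eq⟩ := IntermediateField.mem_adjoin_iff_div.mp h
    ⟨⟨x, hx⟩, ⟨y, hy⟩, Subtype.ext eq⟩

/-- `j` as an element of the function field. -/
def jF : modularFunctionFieldFullC K N := ⟨jqModC K, jqModC_mem_full K N⟩

/-- `j` as an element of `A K N`. -/
def jA : A K N := ⟨jqModC K, by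
  have := Algebra.subset_adjoin (R := K) (mem_divisorExpansionsC K N (one_dvd N))
  rwa [qExpand_one_apply] at this⟩

theorem algebraMap_jA : algebraMap (A K N) (modularFunctionFieldFullC K N) (jA K N) = jF K N :=
  rfl

end

section

variable {K : Type*} [Field K] [Algebra K ℂ] {N : ℕ} [NeZero N] {z : ℍ → ℂ} (hz : GoodChart K N z)

theorem sA_inj (g : SL(2, ℤ) ⧸ CongruenceSubgroup.Gamma0 N) : Function.Injective (sA hz g) :=
  phi_injective hz _

/-- the embedding of the function field attached to a coset -/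
def sF (g : SL(2, ℤ) ⧸ CongruenceSubgroup.Gamma0 N) :
    modularFunctionFieldFullC K N →ₐ[K] LaurentSeries ℂ :=
  IsFractionRing.liftAlgHom (A := A K N) (g := sA hz g) (sA_inj hz g)

theorem sF_algebraMap (g : SL(2, ℤ) ⧸ CongruenceSubgroup.Gamma0 N) (x : A K N) :
    sF hz g (algebraMap (A K N) _ x) = sA hz g x :=
  IsFractionRing.lift_algebraMap (g := (sA hz g : A K N →+* LaurentSeries ℂ)) (sA_inj hz g) x

theorem sF_injective : Function.Injective (sF hz) := by
  intro g g' h
  apply sA_injective hz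
  ext1 x
  rw [← sF_algebraMap, ← sF_algebraMap, h]

theorem sF_jF (g : SL(2, ℤ) ⧸ CongruenceSubgroup.Gamma0 N) {y : LaurentSeries ℂ}
    (hy : HasExpC z jInv y) : sF hz g (jF K N) = y := by
  rw [← algebraMap_jA, sF_algebraMap]
  apply phi_eq
  refine ⟨hy.1, fun τ hτ => ?_⟩
  rw [hy.2 τ hτ]
  show jInv τ = ev K (jqModC K) _
  rw [ev_jqModC, jInv_smul]

theorem phi_mul_twist {γ₀ : SL(2, ℤ)} {ζ : ℂˣ} (hζ : ‖(ζ : ℂ)‖ = 1)
    (hγ₀ : ∀ τ, z (γ₀ • τ) = ζ * z τ) (γ : SL(2, ℤ)) (x : A K N) :
    phi hz (γ * γ₀) x = twist ζ (phi hz γ x) := by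
  apply phi_eq
  obtain ⟨h1, h2⟩ := phi_spec hz γ x
  refine ⟨isConv_twist hζ h1, fun τ hτ => ?_⟩
  have h3 : z (γ₀ • τ) ≠ 0 := by
    rw [hγ₀]; exact mul_ne_zero ζ.ne_zero hτ
  rw [evalAt_twist, ← hγ₀, h2 _ h3]
  simp only [mul_smul]

theorem sA_smul {γ₀ : SL(2, ℤ)} {ζ : ℂˣ} (hζ : ‖(ζ : ℂ)‖ = 1) (hγ₀ : ∀ τ, z (γ₀ • τ) = ζ * z τ)
    (g : SL(2, ℤ) ⧸ CongruenceSubgroup.Gamma0 N) (x : A K N) :
    sA hz (γ₀⁻¹ • g) x = twist ζ (sA hz g x) := by
  induction g using QuotientGroup.induction_on with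
  | H γ =>
    have : γ₀⁻¹ • (QuotientGroup.mk γ : SL(2, ℤ) ⧸ CongruenceSubgroup.Gamma0 N) =
      QuotientGroup.mk (γ₀⁻¹ * γ) := rfl
    rw [this, sA_mk, sA_mk, mul_inv_rev, inv_inv, phi_mul_twist hz hζ hγ₀]

/-- action of a stabiliser on the embeddings -/
theorem sF_smul {γ₀ : SL(2, ℤ)} {ζ : ℂˣ} (hζ : ‖(ζ : ℂ)‖ = 1) (hγ₀ : ∀ τ, z (γ₀ • τ) = ζ * z τ)
    (g : SL(2, ℤ) ⧸ CongruenceSubgroup.Gamma0 N) (f : modularFunctionFieldFullC K N) :
    sF hz (γ₀⁻¹ • g) f = twist ζ (sF hz g f) := by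
  have : (sF hz (γ₀⁻¹ • g) : modularFunctionFieldFullC K N →+* LaurentSeries ℂ) =
      (twist ζ).comp (sF hz g : modularFunctionFieldFullC K N →+* LaurentSeries ℂ) := by
    apply IsFractionRing.ringHom_ext (A := A K N)
    intro x
    show sF hz (γ₀⁻¹ • g) (algebraMap _ _ x) = twist ζ (sF hz g (algebraMap _ _ x))
    rw [sF_algebraMap, sF_algebraMap, sA_smul hz hζ hγ₀]
  exact RingHom.congr_fun this f

theorem sF_smul_coeff {γ₀ : SL(2, ℤ)} {ζ : ℂˣ} (hζ : ‖(ζ : ℂ)‖ = 1)
    (hγ₀ : ∀ τ, z (γ₀ • τ) = ζ * z τ)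
    (g : SL(2, ℤ) ⧸ CongruenceSubgroup.Gamma0 N) (f : modularFunctionFieldFullC K N) (n : ℤ) :
    (sF hz (γ₀⁻¹ • g) f).coeff n = (ζ : ℂ) ^ n * (sF hz g f).coeff n := by
  rw [sF_smul hz hζ hγ₀, twist_coeff, Units.val_zpow_eq_zpow_val]

/-! ### the degree -/

theorem isConv_aeval (q : Polynomial ℂ) : IsConv (aeval (jqModC ℂ) q) := by
  have : aeval (jqModC ℂ) q ∈ Algebra.adjoin ℂ {jqModC ℂ} := aeval_mem_adjoin_singleton ℂ _
  have h2 : Algebra.adjoin ℂ {jqModC ℂ} ≤ Conv := Algebra.adjoin_le (by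
    rintro _ rfl; exact isConv_jqModC)
  exact h2 this

theorem evalAt_aeval (q : Polynomial ℂ) (τ : ℍ) :
    evalAt (𝕢 (1 : ℝ) τ) (aeval (jqModC ℂ) q) = q.eval (jInv τ) := by
  have h := Polynomial.aeval_algHom_apply
    (evalHom (𝕢 (1 : ℝ) τ) (Function.Periodic.qParam_ne_zero _) (norm_qParam_one τ))
    ⟨jqModC ℂ, isConv_jqModC⟩ q
  rw [evalHom_apply, evalAt_jqModC] at h
  rw [← Polynomial.coe_aeval_eq_eval, h, evalHom_apply]
  congr 1
  have h3 := Polynomial.aeval_algHom_apply Conv.val ⟨jqModC ℂ, isConv_jqModC⟩ q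
  exact h3

theorem incl_aeval (p : Polynomial K) :
    incl K (aeval (jqModC K) p) = aeval (jqModC ℂ) (p.map (algebraMap K ℂ)) := by
  induction p using Polynomial.induction_on' with
  | add p q hp hq => rw [map_add, map_add, hp, hq, Polynomial.map_add, map_add]
  | monomial n a =>
    rw [aeval_monomial, map_mul, incl_algebraMap, map_pow, Polynomial.map_monomial, aeval_monomial]
    congr 2
    rw [incl, coeffMap_jqModC]

theorem transcendental_jqModC : Transcendental K (jqModC K) := by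
  rintro ⟨p, hp, h⟩
  apply hp
  have h1 : aeval (jqModC ℂ) (p.map (algebraMap K ℂ)) = 0 := by
    rw [← incl_aeval, h, map_zero]
  have h2 : p.map (algebraMap K ℂ) = 0 := by
    apply Polynomial.funext
    intro w
    obtain ⟨τ, rfl⟩ := jInv_surjective w
    rw [← evalAt_aeval, h1]
    simp [evalAt]
  exact (Polynomial.map_eq_zero _).mp h2

omit [NeZero N] in
theorem transcendental_jF : Transcendental K (jF K N) := by
  intro h
  exact transcendental_jqModC (K := K) (h.algHom (modularFunctionFieldFullC K N).val)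

open IntermediateField in
theorem exists_monic [Fintype (SL(2, ℤ) ⧸ CongruenceSubgroup.Gamma0 N)]
    (x : modularFunctionFieldFullC K N) (hx : (x : LaurentSeries K) ∈ A K N) :
    ∃ q : Polynomial K⟮jF K N⟯, q.Monic ∧
      q.natDegree = Fintype.card (SL(2, ℤ) ⧸ CongruenceSubgroup.Gamma0 N) ∧ aeval x q = 0 := by
  obtain ⟨p, hp⟩ := exists_relation (⟨x, hx⟩ : A K N)
  set n := Fintype.card (SL(2, ℤ) ⧸ CongruenceSubgroup.Gamma0 N) with hn
  let j : K⟮jF K N⟯ := AdjoinSimple.gen K (jF K N)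
  have hdeg : (∑ i ∈ Finset.range n, C (aeval j (p i)) * X ^ i : Polynomial K⟮jF K N⟯).degree < n := by
    refine (degree_sum_le _ _).trans_lt ?_
    rw [Finset.sup_lt_iff (by exact_mod_cast WithBot.bot_lt_coe n)]
    intro i hi
    refine (degree_C_mul_X_pow_le _ _).trans_lt ?_
    exact_mod_cast Finset.mem_range.mp hi
  refine ⟨X ^ n + ∑ i ∈ Finset.range n, C (aeval j (p i)) * X ^ i, monic_X_pow_add hdeg, ?_, ?_⟩
  · rw [natDegree_eq_of_degree_eq_some]
    rw [degree_add_eq_left_of_degree_lt, degree_X_pow]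
    rwa [degree_X_pow]
  · apply Subtype.ext
    have h1 : ∀ i, ((algebraMap K⟮jF K N⟯ (modularFunctionFieldFullC K N) (aeval j (p i)) :
        modularFunctionFieldFullC K N) : LaurentSeries K) = aeval (jqModC K) (p i) := fun i => by
      have e1 : algebraMap K⟮jF K N⟯ (modularFunctionFieldFullC K N) (aeval j (p i)) =
          aeval (jF K N) (p i) := by
        rw [← Polynomial.aeval_algebraMap_apply]; rfl
      rw [e1]
      exact (Polynomial.aeval_algHom_apply (modularFunctionFieldFullC K N).val (jF K N) (p i)).symm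
    simp only [map_add, map_sum, map_mul, map_pow, aeval_X, aeval_C]
    push_cast
    simp only [h1]
    exact hp

open IntermediateField

theorem finite_divisorExpansionsC : (divisorExpansionsC K N).Finite := by
  have : divisorExpansionsC K N ⊆ Set.range (fun d : N.divisors =>
      haveI : NeZero d.1 := ⟨(Nat.pos_of_mem_divisors d.2).ne'⟩
      qExpand K d.1 (jqModC K)) := by
    rintro x ⟨d, hd0, hd, rfl⟩
    exact ⟨⟨d, Nat.mem_divisors.mpr ⟨hd, NeZero.ne N⟩⟩, rfl⟩
  exact (Set.finite_range _).subset this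

omit [Algebra K ℂ] [NeZero N] in
theorem adjoin_gens_eq_top : adjoin K⟮jF K N⟯
    {x : modularFunctionFieldFullC K N | (x : LaurentSeries K) ∈ divisorExpansionsC K N} = ⊤ := by
  set L := adjoin K⟮jF K N⟯
    {x : modularFunctionFieldFullC K N | (x : LaurentSeries K) ∈ divisorExpansionsC K N} with hL
  have h : modularFunctionFieldFullC K N ≤
      (L.restrictScalars K).map (modularFunctionFieldFullC K N).val := by
    refine adjoin_le_iff.mpr fun x hx => ?_
    have hx1 : x ∈ modularFunctionFieldFullC K N := subset_adjoin K _ hx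
    have hx2 : (⟨x, hx1⟩ : modularFunctionFieldFullC K N) ∈ L := subset_adjoin _ _ hx
    exact ⟨⟨x, hx1⟩, hx2, rfl⟩
  rw [eq_top_iff]
  intro x _
  obtain ⟨y, hy, hxy⟩ := h x.2
  have : y = x := Subtype.ext hxy
  rw [this] at hy
  exact hy

theorem finiteDimensional_jF : FiniteDimensional K⟮jF K N⟯ (modularFunctionFieldFullC K N) := by
  have : Fintype (SL(2, ℤ) ⧸ CongruenceSubgroup.Gamma0 N) := Fintype.ofFinite _
  have hfin : Finite {x : modularFunctionFieldFullC K N |
      (x : LaurentSeries K) ∈ divisorExpansionsC K N} :=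
    (finite_divisorExpansionsC.preimage Subtype.val_injective.injOn).to_subtype
  refine finiteDimensional_of_adjoin_eq_top adjoin_gens_eq_top fun x hx => ?_
  obtain ⟨q, hq, -, hqx⟩ := exists_monic x (Algebra.subset_adjoin hx)
  exact ⟨q, hq, hqx⟩

omit [NeZero N] in
theorem charZero_of_algebra : CharZero K := (algebraMap K ℂ).charZero

theorem finrank_le [Fintype (SL(2, ℤ) ⧸ CongruenceSubgroup.Gamma0 N)] :
    Module.finrank K⟮jF K N⟯ (modularFunctionFieldFullC K N) ≤
      Fintype.card (SL(2, ℤ) ⧸ CongruenceSubgroup.Gamma0 N) := by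
  have : CharZero K := charZero_of_algebra
  have := finiteDimensional_jF (K := K) (N := N)
  refine finrank_le_of_degree_bound K⟮jF K N⟯ ((A K N).comap (modularFunctionFieldFullC K N).val)
    (fun z => ?_) _ fun a ha => exists_monic a ha
  obtain ⟨a, b, -, hab⟩ := IsFractionRing.div_surjective (A := A K N) z
  exact ⟨algebraMap _ _ a, a.2, algebraMap _ _ b, b.2, hab.symm⟩

theorem hasExpC_jInv : HasExpC z jInv (phi hz 1 (jA K N)) := by
  have h := phi_spec hz 1 (jA K N)
  refine ⟨h.1, fun τ hτ => ?_⟩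
  rw [h.2 τ hτ]
  show ev K (jqModC K) _ = _
  rw [ev_jqModC, one_smul]

/-- Embeddings over `K(j)`: lower bound on the degree. -/
theorem le_finrank [Fintype (SL(2, ℤ) ⧸ CongruenceSubgroup.Gamma0 N)] :
    Fintype.card (SL(2, ℤ) ⧸ CongruenceSubgroup.Gamma0 N) ≤
      Module.finrank K⟮jF K N⟯ (modularFunctionFieldFullC K N) := by
  have := finiteDimensional_jF (K := K) (N := N)
  have hz := goodChart_qParam K N
  let s := sF hz
  let : Algebra K⟮jF K N⟯ (LaurentSeries ℂ) :=
    ((s (QuotientGroup.mk 1)).comp K⟮jF K N⟯.val).toRingHom.toAlgebra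
  have hres : ∀ g, (s g).comp K⟮jF K N⟯.val = (s (QuotientGroup.mk 1)).comp K⟮jF K N⟯.val := by
    intro g
    apply adjoin_algHom_ext
    intro x hx
    obtain rfl : x = jF K N := hx
    show s g (jF K N) = s _ (jF K N)
    rw [sF_jF hz g (hasExpC_jInv hz), sF_jF hz _ (hasExpC_jInv hz)]
  let t : SL(2, ℤ) ⧸ CongruenceSubgroup.Gamma0 N →
      (modularFunctionFieldFullC K N →ₐ[K⟮jF K N⟯] LaurentSeries ℂ) := fun g =>
    { (s g : modularFunctionFieldFullC K N →+* LaurentSeries ℂ) with
      commutes' := fun c => AlgHom.congr_fun (hres g) c }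
  have ht : Function.Injective t := fun g g' h => by
    apply sF_injective hz
    ext1 x
    exact congrArg (fun f => f x) h
  have h1 := card_algHom_le_finrank K⟮jF K N⟯ (modularFunctionFieldFullC K N) (LaurentSeries ℂ)
  refine le_trans ?_ h1
  rw [← Nat.card_eq_fintype_card]
  exact Nat.card_le_card_of_injective t ht

theorem finrank_eq [Fintype (SL(2, ℤ) ⧸ CongruenceSubgroup.Gamma0 N)] :
    Module.finrank K⟮jF K N⟯ (modularFunctionFieldFullC K N) =
      Fintype.card (SL(2, ℤ) ⧸ CongruenceSubgroup.Gamma0 N) :=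
  le_antisymm finrank_le le_finrank

end

end

end Fermat.Agent.H24
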