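import Mathlib

set_option autoImplicit false

/-!
# Holomorphic `n`-th roots on the upper half plane (helper4, KummerBridge)
-/

namespace Fermat.Agent.H4

open Set Filter Topology Complex

/-- zero-free case on a convex open set -/
lemma exists_root_of_ne_zero {R : Set ℂ} (hRo : IsOpen R) (hRc : Convex ℝ R) {n : ℕ} (hn : n ≠ 0)
    {g : ℂ → ℂ} (hg : DifferentiableOn ℂ g R) (h0 : ∀ z ∈ R, g z ≠ 0) :
    ∃ h : ℂ → ℂ, DifferentiableOn ℂ h R ∧ ∀ z ∈ R, h z ^ n = g z := by
  rcases R.eq_empty_or_nonempty with rfl | ⟨z₀, hz₀⟩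
  · exact ⟨0, by simp, by simp⟩
  have hlog : DifferentiableOn ℂ (fun z => deriv g z / g z) R :=
    (hg.deriv hRo).div hg h0
  obtain ⟨L, hL⟩ := hRc.exists_forall_hasDerivWithinAt hlog
  have hL' : ∀ z ∈ R, HasDerivAt L (deriv g z / g z) z := fun z hz =>
    (hL z hz).hasDerivAt (hRo.mem_nhds hz)
  -- g * exp (-L) is constant
  have hconst : ∀ z ∈ R, g z * Complex.exp (-L z) = g z₀ * Complex.exp (-L z₀) := by
    intro z hz
    refine IsOpen.is_const_of_deriv_eq_zero hRo hRc.isPreconnected ?_ ?_ hz hz₀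
      (f := fun z => g z * Complex.exp (-L z))
    · intro w hw
      exact ((hg.differentiableAt (hRo.mem_nhds hw)).mul
        (((hL' w hw).differentiableAt.neg).cexp)).differentiableWithinAt
    · intro w hw
      have h1 : HasDerivAt g (deriv g w) w := (hg.differentiableAt (hRo.mem_nhds hw)).hasDerivAt
      have h2 := h1.mul ((hL' w hw).neg.cexp)
      have h3 := h2.deriv
      simp only [Pi.zero_apply]
      have e : (fun z => g z * Complex.exp (-L z)) = (g * fun x => Complex.exp ((-L) x)) := by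
        ext; simp
      rw [e, h3]
      have hgw := h0 w hw
      simp only [Pi.neg_apply]
      field_simp
      ring
  set c := g z₀ * Complex.exp (-L z₀) with hc
  obtain ⟨r, hr⟩ := IsAlgClosed.exists_pow_nat_eq c (Nat.pos_of_ne_zero hn)
  refine ⟨fun z => r * Complex.exp (L z / n), ?_, ?_⟩
  · intro z hz
    exact ((differentiableAt_const r).mul
      (((hL' z hz).differentiableAt.div_const _).cexp)).differentiableWithinAt
  · intro z hz
    have hn' : (n : ℂ) ≠ 0 := by exact_mod_cast hn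
    rw [mul_pow, hr, ← Complex.exp_nat_mul, mul_div_cancel₀ _ hn', ← hconst z hz, mul_assoc,
      ← Complex.exp_add]
    simp

/-- finitely many zeros on a convex open set -/
lemma exists_root_of_finite {R : Set ℂ} (hRo : IsOpen R) (hRc : Convex ℝ R) {n : ℕ} (hn : n ≠ 0)
    (k : ℕ) : ∀ (g : ℂ → ℂ), AnalyticOnNhd ℂ g R →
      ({z | z ∈ R ∧ g z = 0}).Finite → ({z | z ∈ R ∧ g z = 0}).ncard = k →
      (∀ z ∈ R, analyticOrderAt g z ≠ ⊤) →
      (∀ z ∈ R, n ∣ analyticOrderNatAt g z) →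
    ∃ h : ℂ → ℂ, DifferentiableOn ℂ h R ∧ ∀ z ∈ R, h z ^ n = g z := by
  induction k with
  | zero =>
    intro g hg hfin hcard _ _
    rw [Set.ncard_eq_zero hfin] at hcard
    refine exists_root_of_ne_zero hRo hRc hn hg.differentiableOn ?_
    intro z hz h0
    have : z ∈ ({z | z ∈ R ∧ g z = 0} : Set ℂ) := ⟨hz, h0⟩
    rw [hcard] at this
    exact this
  | succ k ih =>
    intro g hg hfin hcard htop hdvd
    have hne : ({z | z ∈ R ∧ g z = 0} : Set ℂ).Nonempty := by
      rw [← Set.ncard_pos hfin]; omega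
    obtain ⟨z₀, hz₀R, hz₀⟩ := hne
    set m := analyticOrderNatAt g z₀ with hm
    obtain ⟨g₁, hg₁a, hg₁0, hg₁⟩ := (((hg z₀ hz₀R).analyticOrderNatAt_eq_iff (htop z₀ hz₀R)).1
      (rfl : analyticOrderNatAt g z₀ = m))
    -- the quotient function
    let G : ℂ → ℂ := Function.update (fun w => g w / (w - z₀) ^ m) z₀ (g₁ z₀)
    have hGne : ∀ w, w ≠ z₀ → G w = g w / (w - z₀) ^ m := fun w hw => by
      simp [G, Function.update_of_ne hw]
    have hGz : G z₀ = g₁ z₀ := by simp [G]
    have hG1 : G =ᶠ[𝓝 z₀] g₁ := by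
      filter_upwards [hg₁] with w hw
      by_cases hwz : w = z₀
      · rw [hwz, hGz]
      · rw [hGne w hwz, hw, smul_eq_mul, mul_div_cancel_left₀]
        exact pow_ne_zero _ (sub_ne_zero.2 hwz)
    have hG2 : ∀ w, w ≠ z₀ → G =ᶠ[𝓝 w] (fun w => g w / (w - z₀) ^ m) := by
      intro w hw
      filter_upwards [isOpen_ne.mem_nhds hw] with v hv
      exact hGne v hv
    have hfac : ∀ w, g w = (w - z₀) ^ m * G w := by
      intro w
      by_cases hwz : w = z₀
      · rw [hwz, hz₀]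
        have : m ≠ 0 := by
          have := (hg z₀ hz₀R).analyticOrderAt_ne_zero.2 hz₀
          intro hm0
          rw [hm0] at hm
          apply this
          have h5 := Nat.cast_analyticOrderNatAt (htop z₀ hz₀R)
          rw [← hm] at h5
          simpa using h5.symm
        simp [this]
      · rw [hGne w hwz, mul_div_cancel₀]
        exact pow_ne_zero _ (sub_ne_zero.2 hwz)
    have hGa : AnalyticOnNhd ℂ G R := by
      intro w hw
      by_cases hwz : w = z₀
      · rw [hwz]; exact hg₁a.congr hG1.symm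
      · refine AnalyticAt.congr ?_ (hG2 w hwz).symm
        exact (hg w hw).div ((analyticAt_id.sub analyticAt_const).pow m)
          (pow_ne_zero _ (sub_ne_zero.2 hwz))
    have hlin : ∀ w, w ≠ z₀ → analyticOrderAt (fun w : ℂ => (w - z₀) ^ m) w = 0 := by
      intro w hw
      rw [AnalyticAt.analyticOrderAt_eq_zero ((analyticAt_id.sub analyticAt_const).pow m)]
      exact pow_ne_zero _ (sub_ne_zero.2 hw)
    have hord : ∀ w ∈ R, w ≠ z₀ → analyticOrderAt g w = analyticOrderAt G w := by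
      intro w hw hwz
      have e : g = (fun w : ℂ => (w - z₀) ^ m) * G := funext hfac
      have hl : AnalyticAt ℂ (fun w : ℂ => (w - z₀) ^ m) w := by fun_prop
      rw [e, analyticOrderAt_mul hl (hGa w hw), hlin w hwz, zero_add]
    have hordz : analyticOrderAt G z₀ = 0 := by
      rw [(hGa z₀ hz₀R).analyticOrderAt_eq_zero, hGz]; exact hg₁0
    have hset : ({z | z ∈ R ∧ G z = 0} : Set ℂ) = {z | z ∈ R ∧ g z = 0} \ {z₀} := by
      ext w
      simp only [mem_setOf_eq, mem_diff, mem_singleton_iff]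
      constructor
      · rintro ⟨hw, h0⟩
        refine ⟨⟨hw, by rw [hfac w, h0, mul_zero]⟩, ?_⟩
        rintro rfl
        rw [hGz] at h0
        exact hg₁0 h0
      · rintro ⟨⟨hw, h0⟩, hwz⟩
        refine ⟨hw, ?_⟩
        rw [hfac w] at h0
        exact (mul_eq_zero.1 h0).resolve_left (pow_ne_zero _ (sub_ne_zero.2 hwz))
    have hmem₀ : z₀ ∈ ({z | z ∈ R ∧ g z = 0} : Set ℂ) := ⟨hz₀R, hz₀⟩
    obtain ⟨H, hHd, hH⟩ := ih G hGa (by rw [hset]; exact hfin.diff) (by
        rw [hset, Set.ncard_diff_singleton_of_mem hmem₀, hcard]; rfl)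
      (by
        intro w hw
        by_cases hwz : w = z₀
        · rw [hwz, hordz]; simp
        · rw [← hord w hw hwz]; exact htop w hw)
      (by
        intro w hw
        by_cases hwz : w = z₀
        · rw [hwz, analyticOrderNatAt, hordz]; simp
        · rw [analyticOrderNatAt, ← hord w hw hwz]; exact hdvd w hw)
    obtain ⟨j, hj⟩ := hdvd z₀ hz₀R
    refine ⟨fun w => (w - z₀) ^ j * H w, ?_, ?_⟩
    · exact (((differentiable_id.sub_const z₀).pow j).differentiableOn).mul hHd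
    · intro w hw
      rw [mul_pow, hH w hw, ← pow_mul, mul_comm j n, ← hj, ← hm, ← hfac w]

/-- exhaustion of the upper half plane -/
def rect (m : ℕ) : Set ℂ := {z | |z.re| < m + 1 ∧ 1 / ((m : ℝ) + 1) < z.im ∧ z.im < m + 1}

lemma isOpen_rect (m : ℕ) : IsOpen (rect m) := by
  have h1 : IsOpen {z : ℂ | |z.re| < (m : ℝ) + 1} :=
    isOpen_lt (continuous_abs.comp Complex.continuous_re) continuous_const
  have h2 : IsOpen {z : ℂ | 1 / ((m : ℝ) + 1) < z.im} :=
    isOpen_lt continuous_const Complex.continuous_im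
  have h3 : IsOpen {z : ℂ | z.im < (m : ℝ) + 1} :=
    isOpen_lt Complex.continuous_im continuous_const
  exact h1.inter (h2.inter h3)

lemma convex_rect (m : ℕ) : Convex ℝ (rect m) := by
  have e : rect m = Complex.reLm ⁻¹' (Ioo (-((m : ℝ) + 1)) (m + 1)) ∩
      Complex.imLm ⁻¹' (Ioo (1 / ((m : ℝ) + 1)) (m + 1)) := by
    ext z
    simp only [rect, mem_setOf_eq, mem_inter_iff, mem_preimage, Complex.reLm_coe, mem_Ioo,
      Complex.imLm_coe, abs_lt]
  rw [e]
  exact ((convex_Ioo _ _).linear_preimage _).inter ((convex_Ioo _ _).linear_preimage _)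

def crect (m : ℕ) : Set ℂ := {z | |z.re| ≤ m + 1 ∧ 1 / ((m : ℝ) + 1) ≤ z.im ∧ z.im ≤ m + 1}

lemma rect_subset_crect (m : ℕ) : rect m ⊆ crect m := fun _ hz => ⟨hz.1.le, hz.2.1.le, hz.2.2.le⟩

lemma isCompact_crect (m : ℕ) : IsCompact (crect m) := by
  have e : crect m = (Icc (-((m : ℝ) + 1)) (m + 1)) ×ℂ (Icc (1 / ((m : ℝ) + 1)) (m + 1)) := by
    ext z
    simp only [crect, mem_setOf_eq, Complex.mem_reProdIm, mem_Icc, abs_le]
  rw [e]
  exact isCompact_Icc.reProdIm isCompact_Icc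

lemma crect_subset (m : ℕ) : crect m ⊆ {z : ℂ | 0 < z.im} := by
  intro z hz
  have : (0 : ℝ) < 1 / ((m : ℝ) + 1) := by positivity
  exact this.trans_le hz.2.1

lemma rect_mono {m m' : ℕ} (h : m ≤ m') : rect m ⊆ rect m' := by
  intro z hz
  have hc : (m : ℝ) ≤ m' := by exact_mod_cast h
  have h1 : 1 / ((m' : ℝ) + 1) ≤ 1 / ((m : ℝ) + 1) := by
    apply one_div_le_one_div_of_le (by positivity); linarith
  exact ⟨by linarith [hz.1], by linarith [hz.2.1], by linarith [hz.2.2]⟩

lemma exists_mem_rect {z : ℂ} (hz : 0 < z.im) : ∃ m : ℕ, z ∈ rect m := by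
  obtain ⟨a, ha⟩ := exists_nat_gt (|z.re|)
  obtain ⟨b, hb⟩ := exists_nat_gt (z.im)
  obtain ⟨c, hc⟩ := exists_nat_one_div_lt hz
  refine ⟨a + b + c, ?_, ?_, ?_⟩
  · push_cast; linarith [ha, (Nat.cast_nonneg b : (0 : ℝ) ≤ b), (Nat.cast_nonneg c : (0 : ℝ) ≤ c)]
  · refine lt_of_le_of_lt ?_ hc
    apply one_div_le_one_div_of_le (by positivity)
    push_cast
    linarith [(Nat.cast_nonneg b : (0 : ℝ) ≤ b), (Nat.cast_nonneg a : (0 : ℝ) ≤ a)]
  · push_cast; linarith [hb, (Nat.cast_nonneg a : (0 : ℝ) ≤ a), (Nat.cast_nonneg c : (0 : ℝ) ≤ c)]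

/-- Holomorphic `n`-th roots exist on the upper half plane when all the zero orders are divisible
by `n` (version on subsets of `ℂ`). -/
theorem exists_nthRoot_aux {n : ℕ} (hn : n ≠ 0) (g : ℂ → ℂ)
    (hg : DifferentiableOn ℂ g {z : ℂ | 0 < z.im})
    (hne : ∃ z : ℂ, 0 < z.im ∧ g z ≠ 0)
    (hord : ∀ z : ℂ, 0 < z.im → n ∣ analyticOrderNatAt g z) :
    ∃ h : ℂ → ℂ, DifferentiableOn ℂ h {z : ℂ | 0 < z.im} ∧ ∀ z : ℂ, 0 < z.im → h z ^ n = g z := by
  have hHo : IsOpen {z : ℂ | 0 < z.im} := isOpen_lt continuous_const Complex.continuous_im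
  have hHc : Convex ℝ {z : ℂ | 0 < z.im} := by
    have : {z : ℂ | 0 < z.im} = Complex.imLm ⁻¹' (Ioi 0) := by ext; simp
    rw [this]; exact (convex_Ioi 0).linear_preimage _
  have hga : AnalyticOnNhd ℂ g {z : ℂ | 0 < z.im} := hg.analyticOnNhd hHo
  obtain ⟨z₀, hz₀, hgz₀⟩ := hne
  have htop : ∀ z : ℂ, 0 < z.im → analyticOrderAt g z ≠ ⊤ := by
    intro z hz
    refine AnalyticOnNhd.analyticOrderAt_ne_top_of_isPreconnected hga hHc.isPreconnected
      (x := z₀) hz₀ hz ?_
    rw [(hga z₀ hz₀).analyticOrderAt_eq_zero.2 hgz₀]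
    simp
  -- finiteness of zeros on compacts
  have hfin : ∀ m : ℕ, ({z | z ∈ rect m ∧ g z = 0} : Set ℂ).Finite := by
    intro m
    by_contra hinf
    have hinf' : ({z | z ∈ rect m ∧ g z = 0} : Set ℂ).Infinite := hinf
    obtain ⟨x, hxK, hx⟩ := hinf'.exists_accPt_of_subset_isCompact (isCompact_crect m)
      (fun z hz => rect_subset_crect m hz.1)
    have hxH : 0 < x.im := crect_subset m hxK
    have hfreq : ∃ᶠ z in 𝓝[≠] x, g z = 0 := by
      rw [accPt_iff_frequently_nhdsNE] at hx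
      exact hx.mono fun z hz => hz.2
    exact hgz₀ (hga.eqOn_zero_of_preconnected_of_frequently_eq_zero hHc.isPreconnected hxH hfreq hz₀)
  -- a base point
  obtain ⟨m₀, hm₀⟩ := exists_mem_rect hz₀
  obtain ⟨b, hb⟩ := IsAlgClosed.exists_pow_nat_eq (g z₀) (Nat.pos_of_ne_zero hn)
  have hb0 : b ≠ 0 := by
    rintro rfl
    rw [zero_pow hn] at hb
    exact hgz₀ hb.symm
  have hrectH : ∀ m, rect m ⊆ {z : ℂ | 0 < z.im} := fun m =>
    (rect_subset_crect m).trans (crect_subset m)
  have hloc : ∀ m : ℕ, ∃ h : ℂ → ℂ, DifferentiableOn ℂ h (rect (m₀ + m)) ∧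
      (∀ z ∈ rect (m₀ + m), h z ^ n = g z) ∧ h z₀ = b := by
    intro m
    have hz₀m : z₀ ∈ rect (m₀ + m) := rect_mono (Nat.le_add_right _ _) hm₀
    obtain ⟨h, hh, hhn⟩ := exists_root_of_finite (isOpen_rect (m₀ + m)) (convex_rect _) hn _ g
      (hga.mono (hrectH _)) (hfin _) rfl (fun z hz => htop z (hrectH _ hz))
      (fun z hz => hord z (hrectH _ hz))
    have hhz : h z₀ ≠ 0 := by
      intro h0
      have := hhn z₀ hz₀m
      rw [h0, zero_pow hn] at this
      exact hgz₀ this.symm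
    refine ⟨fun z => (b / h z₀) * h z, hh.const_mul _, ?_, ?_⟩
    · intro z hz
      rw [mul_pow, hhn z hz, div_pow, hhn z₀ hz₀m, hb, div_self hgz₀, one_mul]
    · exact div_mul_cancel₀ _ hhz
  choose H hHd hHn hHb using hloc
  -- uniqueness
  have huniq : ∀ m m' : ℕ, m ≤ m' → ∀ z ∈ rect (m₀ + m), H m z = H m' z := by
    intro m m' hmm' z hz
    have hz₀m : z₀ ∈ rect (m₀ + m) := rect_mono (Nat.le_add_right _ _) hm₀
    have hsub : rect (m₀ + m) ⊆ rect (m₀ + m') := rect_mono (by omega)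
    have ha : AnalyticOnNhd ℂ (H m) (rect (m₀ + m)) := (hHd m).analyticOnNhd (isOpen_rect _)
    have ha' : AnalyticOnNhd ℂ (H m') (rect (m₀ + m)) :=
      ((hHd m').mono hsub).analyticOnNhd (isOpen_rect _)
    -- near z₀ they agree
    have hev : H m =ᶠ[𝓝 z₀] H m' := by
      have hc : ContinuousAt (H m) z₀ := (ha z₀ hz₀m).continuousAt
      have hc' : ContinuousAt (H m') z₀ := (ha' z₀ hz₀m).continuousAt
      -- the sum of geometric terms is nonzero near z₀
      have hS : ContinuousAt (fun z => ∑ i ∈ Finset.range n, H m z ^ i * H m' z ^ (n - 1 - i)) z₀ := by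
        exact tendsto_finset_sum _ fun i _ => (hc.pow i).mul (hc'.pow _)
      have hSz : (∑ i ∈ Finset.range n, H m z₀ ^ i * H m' z₀ ^ (n - 1 - i)) ≠ 0 := by
        rw [hHb m, hHb m']
        have : ∀ i ∈ Finset.range n, b ^ i * b ^ (n - 1 - i) = b ^ (n - 1) := by
          intro i hi
          rw [← pow_add]
          congr 1
          have := Finset.mem_range.1 hi
          omega
        rw [Finset.sum_congr rfl this]
        simp only [Finset.sum_const, Finset.card_range, nsmul_eq_mul]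
        exact mul_ne_zero (by exact_mod_cast hn) (pow_ne_zero _ hb0)
      have hSne : ∀ᶠ z in 𝓝 z₀, (∑ i ∈ Finset.range n, H m z ^ i * H m' z ^ (n - 1 - i)) ≠ 0 :=
        hS.eventually_ne hSz
      filter_upwards [hSne, (isOpen_rect (m₀ + m)).mem_nhds hz₀m] with w hw hwR
      have h1 : H m w ^ n - H m' w ^ n = 0 := by
        rw [hHn m w hwR, hHn m' w (hsub hwR), sub_self]
      have h2 := (Commute.all (H m w) (H m' w)).mul_geom_sum₂ n
      rw [h1] at h2
      rcases mul_eq_zero.1 h2 with h3 | h3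
      · exact sub_eq_zero.1 h3
      · exact absurd h3 hw
    exact ha.eqOn_of_preconnected_of_eventuallyEq ha' (convex_rect _).isPreconnected hz₀m hev hz
  -- define the global function
  have hmem : ∀ z : ℂ, 0 < z.im → ∃ m, z ∈ rect (m₀ + m) := by
    intro z hz
    obtain ⟨m, hm⟩ := exists_mem_rect hz
    exact ⟨m, rect_mono (by omega) hm⟩
  classical
  let h : ℂ → ℂ := fun z => if hz : 0 < z.im then H (hmem z hz).choose z else 0
  have hh : ∀ m, ∀ z ∈ rect (m₀ + m), h z = H m z := by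
    intro m z hz
    have hz' : 0 < z.im := hrectH _ hz
    have e : h z = H (hmem z hz').choose z := by simp [h, hz']
    rw [e]
    have hspec := (hmem z hz').choose_spec
    rcases le_total m (hmem z hz').choose with hle | hle
    · exact (huniq _ _ hle z hz).symm
    · exact huniq _ _ hle z hspec
  refine ⟨h, ?_, ?_⟩
  · intro z hz
    obtain ⟨m, hm⟩ := hmem z hz
    have : h =ᶠ[𝓝 z] H m := by
      filter_upwards [(isOpen_rect (m₀ + m)).mem_nhds hm] with w hw
      exact hh m w hw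
    have hd : DifferentiableAt ℂ (H m) z := (hHd m).differentiableAt ((isOpen_rect _).mem_nhds hm)
    exact (hd.congr_of_eventuallyEq this).differentiableWithinAt
  · intro z hz
    obtain ⟨m, hm⟩ := hmem z hz
    rw [hh m z hm]
    exact hHn m z hm

open UpperHalfPlane in
open scoped Manifold in
/-- Holomorphic `n`-th roots exist on the upper half plane when all the zero orders are divisible
by `n`. -/
theorem exists_nthRoot {n : ℕ} (hn : n ≠ 0) (U : ℍ → ℂ)
    (hU : MDifferentiable 𝓘(ℂ) 𝓘(ℂ) U) (hne : U ≠ 0)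
    (hord : ∀ τ : ℍ, n ∣ analyticOrderNatAt (U ∘ ofComplex) (τ : ℂ)) :
    ∃ h : ℍ → ℂ, MDifferentiable 𝓘(ℂ) 𝓘(ℂ) h ∧ ∀ τ, h τ ^ n = U τ := by
  have hd : DifferentiableOn ℂ (U ∘ ofComplex) {z : ℂ | 0 < z.im} :=
    UpperHalfPlane.mdifferentiable_iff.1 hU
  obtain ⟨τ₀, hτ₀⟩ : ∃ τ, U τ ≠ 0 := by
    by_contra hcon
    push Not at hcon
    exact hne (funext hcon)
  obtain ⟨h, hh, hhn⟩ := exists_nthRoot_aux hn (U ∘ ofComplex) hd
    ⟨τ₀, τ₀.im_pos, by rw [Function.comp_apply, ofComplex_apply]; exact hτ₀⟩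
    (fun z hz => hord ⟨z, hz⟩)
  refine ⟨fun τ => h τ, ?_, ?_⟩
  · rw [UpperHalfPlane.mdifferentiable_iff]
    refine hh.congr ?_
    intro z hz
    simp [ofComplex_apply_of_im_pos hz]
  · intro τ
    have := hhn τ τ.im_pos
    rw [Function.comp_apply, ofComplex_apply] at this
    exact this

end Fermat.Agent.H4
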