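import Mathlib

set_option autoImplicit false

open Equiv Equiv.Perm

namespace Fermat.Agent.H45

section

variable {α : Type*} [Fintype α] [DecidableEq α]

/-- The number of orbits of a permutation is the number of fixed points plus the number of
nontrivial cycles. -/
theorem card_sameCycle_quotient (σ : Perm α) :
    Nat.card (Quotient (SameCycle.setoid σ)) =
      Fintype.card (Function.fixedPoints σ) + Multiset.card σ.cycleType := by
  classical
  let F : α → (Function.fixedPoints σ) ⊕ σ.cycleFactorsFinset := fun x =>
    if h : σ x = x then Sum.inl ⟨x, h⟩ else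
      Sum.inr ⟨σ.cycleOf x, cycleOf_mem_cycleFactorsFinset_iff.mpr (mem_support.mpr h)⟩
  have hF : ∀ x y, SameCycle σ x y → F x = F y := by
    intro x y hxy
    by_cases hx : σ x = x
    · have : x = y := hxy.eq_of_left hx
      rw [this]
    · have hy : σ y ≠ y := fun h => hx (hxy.apply_eq_self_iff.mpr h)
      simp only [F, dif_neg hx, dif_neg hy]
      congr 2
      exact hxy.cycleOf_eq
  let G : Quotient (SameCycle.setoid σ) → (Function.fixedPoints σ) ⊕ σ.cycleFactorsFinset :=
    Quotient.lift F hF
  have hG : Function.Bijective G := by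
    constructor
    · intro a b hab
      obtain ⟨x, rfl⟩ := Quotient.exists_rep a
      obtain ⟨y, rfl⟩ := Quotient.exists_rep b
      have h : F x = F y := hab
      apply Quotient.sound
      change SameCycle σ x y
      by_cases hx : σ x = x <;> by_cases hy : σ y = y
      · simp only [F, dif_pos hx, dif_pos hy, Sum.inl.injEq] at h
        have hxy : x = y := congrArg Subtype.val h
        rw [hxy]
      · simp [F, dif_pos hx, dif_neg hy] at h
      · simp [F, dif_neg hx, dif_pos hy] at h
      · simp only [F, dif_neg hx, dif_neg hy, Sum.inr.injEq, Subtype.mk.injEq] at h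
        exact (sameCycle_iff_cycleOf_eq_of_mem_support (mem_support.mpr hx)
          (mem_support.mpr hy)).mpr h
    · rintro (⟨x, hx⟩ | ⟨c, hc⟩)
      · refine ⟨Quotient.mk _ x, ?_⟩
        change F x = _
        have hx' : σ x = x := hx
        simp only [F, dif_pos hx']
      · obtain ⟨x, hx⟩ := IsCycle.nonempty_support (mem_cycleFactorsFinset_iff.mp hc).1
        refine ⟨Quotient.mk _ x, ?_⟩
        change F x = _
        have hxσ : σ x ≠ x := mem_support.mp (mem_cycleFactorsFinset_support_le hc hx)
        simp only [F, dif_neg hxσ]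
        congr 2
        exact (cycle_is_cycleOf hx hc).symm
  rw [Nat.card_congr (Equiv.ofBijective G hG), Nat.card_eq_fintype_card, Fintype.card_sum,
    Fintype.card_coe]
  congr 1
  rw [Perm.cycleType_def, Multiset.card_map]
  rfl

/-- The sign of a permutation in terms of its number of orbits. -/
theorem sign_eq_neg_one_pow (σ : Perm α) :
    sign σ = (-1 : ℤˣ) ^ (Fintype.card α + Nat.card (Quotient (SameCycle.setoid σ))) := by
  rw [card_sameCycle_quotient, sign_of_cycleType, card_fixedPoints]
  have h := σ.sum_cycleType_le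
  have h1 : Fintype.card α + (Fintype.card α - σ.cycleType.sum + Multiset.card σ.cycleType) =
      (σ.cycleType.sum + Multiset.card σ.cycleType) +
        2 * (Fintype.card α - σ.cycleType.sum) := by omega
  rw [h1, pow_add _ _ (2 * _), pow_mul]
  simp

/-- For a permutation with `σ ^ p = 1`, `p` prime: number of orbits. -/
theorem card_orbits_of_pow_prime {σ : Perm α} {p : ℕ} [Fact p.Prime] (hσ : σ ^ p = 1) :
    ∃ k : ℕ, Fintype.card α = Fintype.card (Function.fixedPoints σ) + p * k ∧
      Nat.card (Quotient (SameCycle.setoid σ)) = Fintype.card (Function.fixedPoints σ) + k := by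
  refine ⟨Multiset.card σ.cycleType, ?_, card_sameCycle_quotient σ⟩
  have h := σ.sum_cycleType_le
  have h2 : σ.cycleType.sum = p * Multiset.card σ.cycleType := by
    conv_lhs => rw [cycleType_of_pow_prime_eq_one hσ]
    rw [Multiset.sum_replicate, smul_eq_mul, mul_comm]
  rw [card_fixedPoints, ← h2]
  omega

end

section MulAction

variable {G X : Type*} [Group G] [MulAction G X]

/-- Orbits of a cyclic group versus cycles of the corresponding permutation. -/
def orbitQuotientEquiv (g : G) :
    MulAction.orbitRel.Quotient (Subgroup.zpowers g) X ≃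
      Quotient (SameCycle.setoid (MulAction.toPerm g : Perm X)) :=
  Quotient.congrRight fun x y => by
    change x ∈ MulAction.orbit (Subgroup.zpowers g) y ↔ SameCycle (MulAction.toPerm g : Perm X) x y
    have hz : ∀ (k : ℤ) (z : X), ((MulAction.toPerm g : Perm X) ^ k) z = (g ^ k) • z := by
      intro k z
      rw [← MulAction.toPermHom_apply, ← map_zpow]
      rfl
    constructor
    · rintro ⟨⟨m, k, rfl⟩, hm⟩
      have hm' : (g ^ k) • y = x := hm
      refine ⟨-k, ?_⟩
      rw [hz, ← hm', zpow_neg, inv_smul_smul]
    · rintro ⟨k, hk⟩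
      rw [hz] at hk
      refine ⟨⟨g ^ (-k), -k, rfl⟩, ?_⟩
      change (g ^ (-k)) • y = x
      rw [← hk, zpow_neg, inv_smul_smul]

theorem sign_toPerm [Fintype X] [DecidableEq X] (g : G) :
    sign (MulAction.toPerm g : Perm X) =
      (-1 : ℤˣ) ^ (Fintype.card X +
        Nat.card (MulAction.orbitRel.Quotient (Subgroup.zpowers g) X)) := by
  rw [sign_eq_neg_one_pow, Nat.card_congr (orbitQuotientEquiv g)]

theorem sign_toPerm' [Fintype X] [DecidableEq X] (g : G) {m n : ℕ} (hm : Nat.card X = m)
    (hn : Nat.card (MulAction.orbitRel.Quotient (Subgroup.zpowers g) X) = n) :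
    sign (MulAction.toPerm g : Perm X) = (-1 : ℤˣ) ^ (m + n) := by
  rw [sign_toPerm, hn, ← hm, Nat.card_eq_fintype_card]

theorem card_orbits_toPerm_of_pow_prime [Finite X] (g : G) {p : ℕ} [Fact p.Prime]
    (hg : ∀ x : X, (g ^ p) • x = x) :
    ∃ k : ℕ, Nat.card X = Nat.card {x : X // g • x = x} + p * k ∧
      Nat.card (MulAction.orbitRel.Quotient (Subgroup.zpowers g) X) =
        Nat.card {x : X // g • x = x} + k := by
  classical
  have : Fintype X := Fintype.ofFinite X
  have h1 : (MulAction.toPerm g : Perm X) ^ p = 1 := by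
    ext x
    have : (MulAction.toPermHom G X g) ^ p = MulAction.toPermHom G X (g ^ p) := (map_pow _ _ _).symm
    rw [← MulAction.toPermHom_apply, this]
    exact hg x
  obtain ⟨k, hk1, hk2⟩ := card_orbits_of_pow_prime h1
  have h2 : Nat.card {x : X // g • x = x} =
      Fintype.card (Function.fixedPoints (MulAction.toPerm g : Perm X)) := by
    rw [← Nat.card_eq_fintype_card]
    rfl
  refine ⟨k, ?_, ?_⟩
  · rw [h2, Nat.card_eq_fintype_card]; exact hk1
  · rw [h2, Nat.card_congr (orbitQuotientEquiv g)]; exact hk2

end MulAction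

end Fermat.Agent.H45
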