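import Fermat.Agent.H45P1Cusps
import Fermat.Agent.H45P1Index
import Fermat.Agent.H45PermSign

set_option autoImplicit false

open CongruenceSubgroup ModularGroup MatrixGroups Equiv

namespace Fermat.Agent.H45

open ModularCurve (dedekindPsi nuTwo nuThree cuspCount genusFormula)

theorem neg_one_smul_P1 (N : ℕ) (x : P1 N) : (-1 : SL(2, ℤ)) • x = x := by
  obtain ⟨g, rfl⟩ := QuotientGroup.mk_surjective x
  change mkP N (-1 * g) = mkP N g
  rw [mkP_eq_iff, neg_one_mul]
  have h0 : (-g) 0 0 = - g 0 0 := by simp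
  have h1 : (-g) 1 0 = - g 1 0 := by simp
  rw [h0, h1]
  have : -g 0 0 * g 1 0 - g 0 0 * -g 1 0 = 0 := by ring
  rw [this]; exact dvd_zero _

theorem S_sq : (S : SL(2, ℤ)) ^ 2 = -1 := by decide

theorem ST_cube : (S * T : SL(2, ℤ)) ^ 3 = -1 := by decide

/-- Number of `S`-orbits. -/
theorem exists_orbits_S (N : ℕ) [NeZero N] : ∃ k : ℕ, dedekindPsi N = nuTwo N + 2 * k ∧
    Nat.card (MulAction.orbitRel.Quotient (Subgroup.zpowers (S : SL(2, ℤ))) (P1 N)) =
      nuTwo N + k := by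
  have : Fact (Nat.Prime 2) := ⟨Nat.prime_two⟩
  obtain ⟨k, h1, h2⟩ := card_orbits_toPerm_of_pow_prime (X := P1 N) (p := 2) (S : SL(2, ℤ))
    (fun x => by rw [S_sq]; exact neg_one_smul_P1 N x)
  rw [natCard_fixed_S] at h1 h2
  rw [natCard_P1] at h1
  exact ⟨k, h1, h2⟩

/-- Number of `ST`-orbits. -/
theorem exists_orbits_ST (N : ℕ) [NeZero N] : ∃ k : ℕ, dedekindPsi N = nuThree N + 3 * k ∧
    Nat.card (MulAction.orbitRel.Quotient (Subgroup.zpowers (S * T : SL(2, ℤ))) (P1 N)) =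
      nuThree N + k := by
  have : Fact (Nat.Prime 3) := ⟨Nat.prime_three⟩
  obtain ⟨k, h1, h2⟩ := card_orbits_toPerm_of_pow_prime (X := P1 N) (p := 3) (S * T : SL(2, ℤ))
    (fun x => by rw [ST_cube]; exact neg_one_smul_P1 N x)
  rw [natCard_fixed_ST] at h1 h2
  rw [natCard_P1] at h1
  exact ⟨k, h1, h2⟩

/-- Number of orbits of `S` on `SL₂(ℤ)/Γ₀(N)`. -/
noncomputable def orbS (N : ℕ) : ℕ :=
  Nat.card (MulAction.orbitRel.Quotient (Subgroup.zpowers (S : SL(2, ℤ))) (P1 N))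

/-- Number of orbits of `ST` on `SL₂(ℤ)/Γ₀(N)`. -/
noncomputable def orbST (N : ℕ) : ℕ :=
  Nat.card (MulAction.orbitRel.Quotient (Subgroup.zpowers (S * T : SL(2, ℤ))) (P1 N))

/-- Parity: Riemann–Hurwitz parity for the three permutations `S`, `T`, `ST` of
`SL₂(ℤ)/Γ₀(N)`. -/
theorem even_orbits (N : ℕ) [NeZero N] :
    Even (dedekindPsi N + orbS N + orbST N + cuspCount N) := by
  classical
  have : Fintype (P1 N) := Fintype.ofFinite _
  have hS := sign_toPerm' (X := P1 N) (S : SL(2, ℤ)) (natCard_P1 N) (n := orbS N) rfl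
  have hT := sign_toPerm' (X := P1 N) (T : SL(2, ℤ)) (natCard_P1 N) (natCard_TOrbits N)
  have hST := sign_toPerm' (X := P1 N) (S * T : SL(2, ℤ)) (natCard_P1 N) (n := orbST N) rfl
  have hmul : (MulAction.toPerm (S * T : SL(2, ℤ)) : Perm (P1 N)) =
      MulAction.toPerm (S : SL(2, ℤ)) * MulAction.toPerm (T : SL(2, ℤ)) :=
    map_mul (MulAction.toPermHom SL(2, ℤ) (P1 N)) S T
  rw [hmul, map_mul, hS, hT, ← pow_add] at hST
  have h1 : (-1 : ℤˣ) ^ (dedekindPsi N + orbS N + (dedekindPsi N + cuspCount N) +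
      (dedekindPsi N + orbST N)) = 1 := by
    rw [pow_add, hST, ← pow_add, ← two_mul, pow_mul]; simp
  have h2 : Even (dedekindPsi N + orbS N + (dedekindPsi N + cuspCount N) +
      (dedekindPsi N + orbST N)) := by
    by_contra hodd
    rw [Nat.not_even_iff_odd] at hodd
    rw [hodd.neg_one_pow] at h1
    exact absurd h1 (by decide)
  have h3 : dedekindPsi N + orbS N + (dedekindPsi N + cuspCount N) + (dedekindPsi N + orbST N) =
    (dedekindPsi N + orbS N + orbST N + cuspCount N) + 2 * dedekindPsi N := by ring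
  rw [h3] at h2
  exact (Nat.even_add.mp h2).mpr ⟨dedekindPsi N, by ring⟩

/-- Riemann–Hurwitz form of the genus formula. -/
theorem two_mul_genusFormula (N : ℕ) [NeZero N] :
    2 * genusFormula N = (dedekindPsi N : ℚ) + 2 - orbS N - orbST N - cuspCount N := by
  obtain ⟨k, hk1, hk2⟩ := exists_orbits_S N
  obtain ⟨l, hl1, hl2⟩ := exists_orbits_ST N
  have hk2' : orbS N = nuTwo N + k := hk2
  have hl2' : orbST N = nuThree N + l := hl2
  rw [hk2', hl2', genusFormula]
  have hk1' : (dedekindPsi N : ℚ) = nuTwo N + 2 * k := by exact_mod_cast hk1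
  have hl1' : (dedekindPsi N : ℚ) = nuThree N + 3 * l := by exact_mod_cast hl1
  push_cast
  linear_combination (-1 / 2 : ℚ) * hk1' - (1 / 3 : ℚ) * hl1'

/-- The genus formula is an integer. -/
theorem exists_int_genusFormula (N : ℕ) [NeZero N] : ∃ g : ℤ, (g : ℚ) = genusFormula N := by
  obtain ⟨m, hm⟩ := even_orbits N
  have h := two_mul_genusFormula N
  refine ⟨(dedekindPsi N : ℤ) + 1 - m, ?_⟩
  have hm' : (dedekindPsi N : ℚ) + orbS N + orbST N + cuspCount N = m + m := by exact_mod_cast hm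
  push_cast
  linear_combination (-1 / 2 : ℚ) * h + (1 / 2 : ℚ) * hm'

end Fermat.Agent.H45
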