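import Fermat.Agent.H67Field
import Fermat.Agent.H66Degree
import Fermat.Agent.H3RR_Bridge

/-!
# The function field of `X₀(N)` over an algebraically closed field of characteristic zero
-/

set_option autoImplicit false

noncomputable section

open AlgebraicCurve IntermediateField ModularCurve

namespace Fermat.Agent.H90

section

variable (K : Type*) [Field K] [IsAlgClosed K] [CharZero K]

theorem degreeFact : H67.DegreeFact K := fun M _ =>
  H66.relfinrank_full K M (Nat.cast_ne_zero.mpr (NeZero.ne M))

variable [Algebra ℚ K] (N : ℕ) [NeZero N]

instance funField_X0 : H94.FunField K (laurentBaseChange K (modularFunctionFieldFull N)) :=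
  H67.funField_of_degreeFact (degreeFact K) N

instance hasPrincipalDivisors_X0 :
    HasPrincipalDivisors K (laurentBaseChange K (modularFunctionFieldFull N)) :=
  H94.hasPrincipalDivisors K _

theorem heckeInputsAlong (ℓ : ℕ) [NeZero ℓ] : HeckeInputsAlong K N ℓ :=
  H67.heckeInputsAlong_of_degreeFact (degreeFact K) N ℓ

end

example (N : ℕ) [NeZero N] :
    HasPrincipalDivisors (AlgebraicClosure ℚ) (modularFunctionFieldBar N) := inferInstance

end Fermat.Agent.H90

end
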