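import Mathlib
import Fermat.Prelude.Def_ModularCurve_ArithmeticGalois

/-!
# Descent of the constant field (helper90)

* `exists_algEquiv_add_one`, `mem_range_of_finiteIndex` : automorphisms of algebraically closed
  extensions;
* `exists_of_coeff_mem` : elements of `laurentBaseChange L1 F₀` with coefficients in `L0` come from
  `laurentBaseChange L0 F₀`.
-/

set_option autoImplicit false

namespace Fermat.Agent.H90

section Aut

open MvPolynomial

variable {k L : Type*} [Field k] [Field L] [Algebra k L]

/-- The automorphism of a polynomial ring translating the variables by constants. -/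
noncomputable def shiftMv {ι : Type*} (c : ι → k) : MvPolynomial ι k ≃ₐ[k] MvPolynomial ι k :=
  AlgEquiv.ofAlgHom (MvPolynomial.aeval fun i => X i + C (c i))
    (MvPolynomial.aeval fun i => X i - C (c i))
    (by
      ext i
      simp [MvPolynomial.algHom_C])
    (by
      ext i
      simp [MvPolynomial.algHom_C])

theorem exists_algEquiv_add_one [IsAlgClosed L] {a : L} (ha : Transcendental k a) :
    ∃ σ : L ≃ₐ[k] L, σ a = a + 1 := by
  classical
  have hs0 : AlgebraicIndepOn k id ({a} : Set L) := by
    have h := algebraicIndependent_unique_type_iff (R := k) (A := L) (ι := ({a} : Set L))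
      (x := fun i => id (i : L))
    refine h.mpr ?_
    simpa using ha
  obtain ⟨s, has, hs⟩ := exists_isTranscendenceBasis_superset (R := k) hs0
  have ha' : a ∈ s := has rfl
  let _ := IsAlgClosed.isAlgClosure_of_transcendence_basis _ hs
  set S := Algebra.adjoin k (Set.range ((↑) : s → L)) with hS
  let e0 : MvPolynomial s k ≃ₐ[k] S := hs.1.aevalEquiv
  let e : S ≃ₐ[k] S := e0.symm.trans ((shiftMv (fun i : s => if (i : L) = a then (1 : k) else 0)).trans e0)
  let σ : L ≃+* L := IsAlgClosure.equivOfEquiv L L e.toRingEquiv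
  have hσ : ∀ x : S, σ (algebraMap S L x) = algebraMap S L (e x) := fun x =>
    IsAlgClosure.equivOfEquiv_algebraMap L L e.toRingEquiv x
  refine ⟨AlgEquiv.ofRingEquiv (f := σ) fun c => ?_, ?_⟩
  · have := hσ (algebraMap k S c)
    rw [AlgEquiv.commutes] at this
    exact this
  · have h0 : ∀ p : MvPolynomial s k, algebraMap S L (e0 p) =
        MvPolynomial.aeval ((↑) : s → L) p := fun p => hs.1.algebraMap_aevalEquiv p
    have h1 : algebraMap S L (e0 (X ⟨a, ha'⟩)) = a := by
      rw [h0, aeval_X]
    have h2 := hσ (e0 (X ⟨a, ha'⟩))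
    rw [h1] at h2
    show σ a = a + 1
    rw [h2]
    have h3 : e (e0 (X ⟨a, ha'⟩)) = e0 (X ⟨a, ha'⟩ + C 1) := by
      simp [e, shiftMv]
    rw [h3, h0]
    simp

/-- An element fixed by a subgroup of finite index of `Aut(L/k)` is algebraic over `k`
(`L` algebraically closed of characteristic zero). -/
theorem isAlgebraic_of_finiteIndex [IsAlgClosed L] [CharZero L] (H : Subgroup (L ≃ₐ[k] L))
    [H.FiniteIndex] {a : L} (ha : ∀ σ ∈ H, σ a = a) : IsAlgebraic k a := by
  by_contra h
  obtain ⟨σ, hσ⟩ := exists_algEquiv_add_one (k := k) (L := L) h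
  obtain ⟨n, hn, -, hmem⟩ := Subgroup.exists_pow_mem_of_index_ne_zero
    (Subgroup.FiniteIndex.index_ne_zero (H := H)) σ
  have hpow : ∀ m : ℕ, (σ ^ m) a = a + m := by
    intro m
    induction m with
    | zero => simp
    | succ m ih =>
      rw [pow_succ', AlgEquiv.mul_apply, ih, map_add, hσ, map_natCast]
      push_cast
      ring
  have h1 := ha _ hmem
  rw [hpow n] at h1
  have h2 : (n : L) = 0 := by simpa using h1
  exact hn.ne' (by exact_mod_cast h2)

theorem mem_range_of_finiteIndex [IsAlgClosed k] [IsAlgClosed L] [CharZero L]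
    (H : Subgroup (L ≃ₐ[k] L)) [H.FiniteIndex] {a : L} (ha : ∀ σ ∈ H, σ a = a) :
    ∃ b : k, algebraMap k L b = a := by
  have h := isAlgebraic_of_finiteIndex H ha
  obtain ⟨b, hb⟩ := minpoly.mem_range_of_degree_eq_one k a
    (IsAlgClosed.degree_eq_one_of_irreducible k (minpoly.irreducible h.isIntegral))
  exact ⟨b, hb⟩

end Aut

section Laurent

open HahnSeries ModularCurve IntermediateField

variable {L0 L1 : Type*} [Field L0] [Field L1] [Algebra L0 L1]

/-- Apply an `L0`-linear functional `L1 → L0` coefficientwise. -/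
noncomputable def coeffFun (lam : L1 →ₗ[L0] L0) : LaurentSeries L1 →+ LaurentSeries L0 where
  toFun x := x.map lam
  map_zero' := by ext; simp
  map_add' x y := by ext; simp

@[simp] lemma coeffFun_coeff (lam : L1 →ₗ[L0] L0) (x : LaurentSeries L1) (n : ℤ) :
    (coeffFun lam x).coeff n = lam (x.coeff n) := rfl

lemma coeffFun_mul (lam : L1 →ₗ[L0] L0) (x : LaurentSeries L1) (y : LaurentSeries L0) :
    coeffFun lam (x * coeffMap (algebraMap L0 L1) y) = coeffFun lam x * y := by
  ext n
  have hx : (coeffFun lam x).support ⊆ x.support := by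
    intro k hk
    simp only [HahnSeries.mem_support, coeffFun_coeff, ne_eq] at hk ⊢
    exact fun h => hk (by rw [h, map_zero])
  have hy : (coeffMap (algebraMap L0 L1) y).support ⊆ y.support := by
    intro k hk
    simp only [HahnSeries.mem_support, coeffMap_coeff, ne_eq] at hk ⊢
    exact fun h => hk (by rw [h, map_zero])
  rw [coeffFun_coeff, coeff_mul_right' y.isPWO_support hy, coeff_mul_left' x.isPWO_support hx,
    map_sum]
  refine Finset.sum_congr rfl fun ij _ => ?_
  rw [coeffMap_coeff, mul_comm, ← Algebra.smul_def, map_smul, smul_eq_mul, coeffFun_coeff,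
    mul_comm]

variable [Algebra ℚ L0] [Algebra ℚ L1]

lemma coeffFun_smul (lam : L1 →ₗ[L0] L0) (c : L1) (x : LaurentSeries L1) :
    coeffFun lam (algebraMap L1 _ c * x) =
      coeffFun (lam ∘ₗ LinearMap.mulLeft L0 c) x := by
  ext n
  rw [coeffFun_coeff, coeffFun_coeff, algebraMap_laurentSeries_eq_single, coeff_single_zero_mul]
  rfl

lemma mem_closure_image (F₀ : IntermediateField ℚ (LaurentSeries ℚ)) :
    ((Submonoid.closure (⇑(coeffEmb L1) '' (F₀ : Set (LaurentSeries ℚ))) :
        Submonoid (LaurentSeries L1)) : Set (LaurentSeries L1)) =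
        ⇑(coeffEmb L1) '' (F₀ : Set (LaurentSeries ℚ)) := by
  have : (⇑(coeffEmb L1) '' (F₀ : Set (LaurentSeries ℚ))) =
      ((F₀.toSubfield.toSubring.toSubmonoid.map (coeffEmb L1 : LaurentSeries ℚ →* LaurentSeries L1) :
        Submonoid (LaurentSeries L1)) : Set (LaurentSeries L1)) := rfl
  rw [this, Submonoid.closure_eq]

lemma coeffFun_mem (F₀ : IntermediateField ℚ (LaurentSeries ℚ)) {x : LaurentSeries L1}
    (hx : x ∈ Algebra.adjoin L1 (⇑(coeffEmb L1) '' (F₀ : Set (LaurentSeries ℚ)))) :
    ∀ lam : L1 →ₗ[L0] L0, coeffFun lam x ∈ laurentBaseChange L0 F₀ := by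
  have h2 : x ∈ Subalgebra.toSubmodule
      (Algebra.adjoin L1 (⇑(coeffEmb L1) '' (F₀ : Set (LaurentSeries ℚ)))) := hx
  rw [Algebra.adjoin_eq_span, mem_closure_image] at h2
  clear hx
  induction h2 using Submodule.span_induction with
  | mem x h =>
    intro lam
    obtain ⟨f, hf, rfl⟩ := h
    have : coeffFun lam (coeffEmb L1 f) = algebraMap L0 _ (lam 1) * coeffEmb L0 f := by
      ext n
      rw [coeffFun_coeff, algebraMap_laurentSeries_eq_single, coeff_single_zero_mul,
        coeffEmb_coeff, coeffEmb_coeff]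
      have h4 : algebraMap ℚ L1 (f.coeff n) = algebraMap L0 L1 (algebraMap ℚ L0 (f.coeff n)) := by
        rw [eq_ratCast, eq_ratCast, map_ratCast]
      rw [h4, Algebra.algebraMap_eq_smul_one, map_smul, smul_eq_mul, mul_comm]
    rw [this]
    exact mul_mem ((laurentBaseChange L0 F₀).algebraMap_mem _) (coeffEmb_mem_laurentBaseChange L0 hf)
  | zero => intro lam; simp
  | add x y _ _ hx hy => intro lam; rw [map_add]; exact add_mem (hx lam) (hy lam)
  | smul c x _ hx =>
    intro lam
    rw [Algebra.smul_def, coeffFun_smul]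
    exact hx _

/-- **Descent of the constant field for Laurent base change.** -/
theorem exists_of_coeff_mem (F₀ : IntermediateField ℚ (LaurentSeries ℚ)) {y : LaurentSeries L0}
    (hy : coeffMap (algebraMap L0 L1) y ∈ laurentBaseChange L1 F₀) :
    y ∈ laurentBaseChange L0 F₀ := by
  rw [laurentBaseChange, IntermediateField.mem_adjoin_iff_div] at hy
  obtain ⟨p, hp, r, hr, h⟩ := hy
  rcases eq_or_ne r 0 with rfl | hr0
  · rw [div_zero] at h
    have hy0 : y = 0 := by
      ext n
      have h2 := congrArg (fun z : LaurentSeries L1 => z.coeff n) h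
      simpa using h2
    rw [hy0]
    exact zero_mem _
  · rw [eq_div_iff hr0] at h
    obtain ⟨n, hn⟩ : ∃ n, r.coeff n ≠ 0 := by
      by_contra hcon
      push Not at hcon
      exact hr0 (by ext n; simpa using hcon n)
    obtain ⟨lam, hlam⟩ : ∃ lam : L1 →ₗ[L0] L0, lam (r.coeff n) ≠ 0 := by
      by_contra hcon
      push Not at hcon
      exact hn ((Module.forall_dual_apply_eq_zero_iff L0 _).mp hcon)
    have h1 : coeffFun lam r * y = coeffFun lam p := by
      rw [← coeffFun_mul, mul_comm, h]
    have h2 : coeffFun lam r ≠ 0 := by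
      intro h3
      apply hlam
      have := congrArg (fun z : LaurentSeries L0 => z.coeff n) h3
      simpa using this
    have h3 : y = coeffFun lam p / coeffFun lam r := by
      rw [eq_div_iff h2, mul_comm, h1]
    rw [h3]
    exact div_mem (coeffFun_mem F₀ hp lam) (coeffFun_mem F₀ hr lam)

end Laurent

end Fermat.Agent.H90
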