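import Mathlib

/-!
# Eisenstein-type series twisted by a unitary character of `Γ₀(N)`

For a unitary character `χ` of `Γ₀(N)`, trivial on the parabolic elements fixing `∞`, and for `k`
even and at least `4` we construct a holomorphic function `E` on the upper half plane with
`E ∣[k] γ = χ(γ) E` for `γ ∈ Γ₀(N)`, bounded at all cusps and tending to `1` at `i∞`.
-/

open Complex UpperHalfPlane Filter Topology Matrix ModularForm EisensteinSeries Manifold
  CongruenceSubgroup Set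
open scoped MatrixGroups

namespace Fermat.Agent.H90

noncomputable section

/-- Eisenstein-type series with (bounded) coefficients `c`. -/
def genEis (k : ℤ) (c : (Fin 2 → ℤ) → ℂ) (z : ℍ) : ℂ :=
  ∑' v : Fin 2 → ℤ, c v * eisSummand k v z

lemma norm_term_le {k : ℤ} {c : (Fin 2 → ℤ) → ℂ} {C : ℝ}
    (hc : ∀ v, ‖c v‖ ≤ C) (v : Fin 2 → ℤ) (z : ℍ) :
    ‖c v * eisSummand k v z‖ ≤ C * ‖eisSummand k v z‖ := by
  rw [norm_mul]
  exact mul_le_mul_of_nonneg_right (hc v) (norm_nonneg _)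

lemma summable_term {k : ℤ} (hk : 3 ≤ k) {c : (Fin 2 → ℤ) → ℂ} {C : ℝ}
    (hc : ∀ v, ‖c v‖ ≤ C) (z : ℍ) :
    Summable fun v => c v * eisSummand k v z :=
  Summable.of_norm_bounded ((summable_norm_eisSummand hk z).mul_left C)
    (fun v => norm_term_le hc v z)

lemma genEis_tendstoLocallyUniformly {k : ℤ} (hk : 3 ≤ k) {c : (Fin 2 → ℤ) → ℂ} {C : ℝ}
    (hc : ∀ v, ‖c v‖ ≤ C) :
    TendstoLocallyUniformly (fun (s : Finset (Fin 2 → ℤ)) ↦ (∑ x ∈ s, c x * eisSummand k x ·))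
      (genEis k c ·) Filter.atTop := by
  have hk' : (2 : ℝ) < k := by norm_cast
  have p_sum : Summable fun x : (Fin 2 → ℤ) ↦ ‖x‖ ^ (-k) :=
    mod_cast (summable_one_div_norm_rpow hk')
  simp only [tendstoLocallyUniformly_iff_forall_isCompact, genEis]
  intro K hK
  obtain ⟨A, B, hB, HABK⟩ := subset_verticalStrip_of_isCompact hK
  have hC : 0 ≤ C := le_trans (norm_nonneg _) (hc 0)
  refine (tendstoUniformlyOn_tsum
    (hu := (p_sum.mul_left <| r ⟨⟨A, B⟩, hB⟩ ^ (-k : ℝ)).mul_left C)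
    (fun p z hz ↦ ?_)).mono HABK
  refine (norm_term_le hc p z).trans (mul_le_mul_of_nonneg_left ?_ hC)
  simpa only [eisSummand, one_div, ← _root_.zpow_neg, norm_zpow, ← Real.rpow_intCast,
    Int.cast_neg] using summand_bound_of_mem_verticalStrip (by positivity) p hB hz

lemma genEis_tendstoLocallyUniformlyOn {k : ℤ} (hk : 3 ≤ k) {c : (Fin 2 → ℤ) → ℂ} {C : ℝ}
    (hc : ∀ v, ‖c v‖ ≤ C) : TendstoLocallyUniformlyOn (fun (s : Finset (Fin 2 → ℤ)) ↦
      ↑ₕ(fun (z : ℍ) ↦ ∑ x ∈ s, c x * eisSummand k x z)) (↑ₕ(genEis k c))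
          Filter.atTop {z : ℂ | 0 < z.im} := by
  rw [← upperHalfPlaneSet, ← range_coe, ← image_univ]
  apply TendstoLocallyUniformlyOn.comp (s := ⊤) _ _ _ (OpenPartialHomeomorph.continuousOn_symm _)
  · simp only [Set.top_eq_univ, tendstoLocallyUniformlyOn_univ]
    apply genEis_tendstoLocallyUniformly hk hc
  · simp only [IsOpenEmbedding.toOpenPartialHomeomorph_target, Set.top_eq_univ, mapsTo_range_iff,
    Set.mem_univ, forall_const]

theorem genEis_mdifferentiable {k : ℤ} (hk : 3 ≤ k) {c : (Fin 2 → ℤ) → ℂ} {C : ℝ}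
    (hc : ∀ v, ‖c v‖ ≤ C) : MDifferentiable 𝓘(ℂ) 𝓘(ℂ) (genEis k c) := by
  intro τ
  suffices DifferentiableAt ℂ (↑ₕ(genEis k c)) τ.1 by
    convert!
      MDifferentiableAt.comp τ (DifferentiableAt.mdifferentiableAt this) τ.mdifferentiable_coe
    exact funext fun z ↦ (comp_ofComplex (genEis k c) z).symm
  refine DifferentiableOn.differentiableAt ?_ (isOpen_upperHalfPlaneSet.mem_nhds τ.2)
  refine (genEis_tendstoLocallyUniformlyOn hk hc).differentiableOn
    (Eventually.of_forall fun s ↦ ?_) isOpen_upperHalfPlaneSet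
  have : (↑ₕ(fun (z : ℍ) ↦ ∑ x ∈ s, c x * eisSummand k x z)) =
      fun w : ℂ => ∑ x ∈ s, c x * (↑ₕ(eisSummand k x)) w := by
    ext w; simp
  rw [this]
  exact DifferentiableOn.fun_sum
    fun _ _ ↦ (eisSummand_extension_differentiableOn _ _).const_mul _

lemma row_mul_inv (δ : SL(2, ℤ)) (v : Fin 2 → ℤ) :
    (v ᵥ* (δ : Matrix (Fin 2) (Fin 2) ℤ)) ᵥ* ((δ⁻¹ : SL(2, ℤ)) : Matrix (Fin 2) (Fin 2) ℤ) = v := by
  have h : (δ : Matrix (Fin 2) (Fin 2) ℤ) * ((δ⁻¹ : SL(2, ℤ)) : Matrix (Fin 2) (Fin 2) ℤ) = 1 :=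
    congrArg Subtype.val (mul_inv_cancel δ)
  rw [vecMul_vecMul, h, vecMul_one]

lemma row_inv_mul (δ : SL(2, ℤ)) (v : Fin 2 → ℤ) :
    (v ᵥ* ((δ⁻¹ : SL(2, ℤ)) : Matrix (Fin 2) (Fin 2) ℤ)) ᵥ* (δ : Matrix (Fin 2) (Fin 2) ℤ) = v := by
  have h : ((δ⁻¹ : SL(2, ℤ)) : Matrix (Fin 2) (Fin 2) ℤ) * (δ : Matrix (Fin 2) (Fin 2) ℤ) = 1 :=
    congrArg Subtype.val (inv_mul_cancel δ)
  rw [vecMul_vecMul, h, vecMul_one]

/-- Right multiplication by a matrix of `SL₂(ℤ)` on row vectors. -/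
def rowEquiv (δ : SL(2, ℤ)) : (Fin 2 → ℤ) ≃ (Fin 2 → ℤ) where
  toFun v := v ᵥ* (δ : Matrix (Fin 2) (Fin 2) ℤ)
  invFun v := v ᵥ* ((δ⁻¹ : SL(2, ℤ)) : Matrix (Fin 2) (Fin 2) ℤ)
  left_inv v := row_mul_inv δ v
  right_inv v := row_inv_mul δ v

lemma genEis_slash (k : ℤ) (c : (Fin 2 → ℤ) → ℂ) (δ : SL(2, ℤ)) :
    genEis k c ∣[k] δ = genEis k (fun v => c (v ᵥ* ((δ⁻¹ : SL(2, ℤ)) : Matrix (Fin 2) (Fin 2) ℤ))) := by
  ext1 z
  simp only [SL_slash_apply, genEis]
  rw [← tsum_mul_right, ← (rowEquiv δ).tsum_eq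
    (fun v => c (v ᵥ* ((δ⁻¹ : SL(2, ℤ)) : Matrix (Fin 2) (Fin 2) ℤ)) * eisSummand k v z)]
  refine tsum_congr fun v => ?_
  have h1 : (rowEquiv δ v) ᵥ* ((δ⁻¹ : SL(2, ℤ)) : Matrix (Fin 2) (Fin 2) ℤ) = v :=
    (rowEquiv δ).left_inv v
  rw [h1, eisSummand_SL2_apply, _root_.zpow_neg]
  have h2 : denom δ z ^ k ≠ 0 := zpow_ne_zero _ (denom_ne_zero _ z)
  have h3 : rowEquiv δ v = v ᵥ* (δ : Matrix (Fin 2) (Fin 2) ℤ) := rfl
  rw [h3]
  field_simp

/-! ### Behaviour at `i∞` -/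

/-- The substitution `(c, d) ↦ (c, d + n c)` on rows. -/
def shiftEquiv (n : ℤ) : (Fin 2 → ℤ) ≃ (Fin 2 → ℤ) where
  toFun v := ![v 0, v 1 + n * v 0]
  invFun v := ![v 0, v 1 - n * v 0]
  left_inv v := by ext i; fin_cases i <;> simp
  right_inv v := by ext i; fin_cases i <;> simp

lemma eisSummand_T_zpow (k : ℤ) (v : Fin 2 → ℤ) (n : ℤ) (z : ℍ) :
    eisSummand k v (ModularGroup.T ^ n • z) = eisSummand k (shiftEquiv n v) z := by
  simp only [eisSummand, ModularGroup.coe_T_zpow_smul_eq, shiftEquiv, Equiv.coe_fn_mk,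
    cons_val_zero, cons_val_one]
  congr 1
  push_cast
  ring

/-- The sum of the norms of the terms indexed by the rows `v` satisfying `p`. -/
def normSum (k : ℤ) (p : (Fin 2 → ℤ) → Prop) [DecidablePred p] (z : ℍ) : ℝ :=
  ∑' v : Fin 2 → ℤ, if p v then ‖eisSummand k v z‖ else 0

lemma summable_normSum {k : ℤ} (hk : 3 ≤ k) (p : (Fin 2 → ℤ) → Prop) [DecidablePred p] (z : ℍ) :
    Summable fun v : Fin 2 → ℤ => if p v then ‖eisSummand k v z‖ else 0 := by
  refine (summable_norm_eisSummand hk z).of_nonneg_of_le (fun v => ?_) (fun v => ?_)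
  · split_ifs <;> positivity
  · split_ifs
    · exact le_rfl
    · positivity

lemma normSum_T_zpow (k : ℤ) (p : (Fin 2 → ℤ) → Prop) [DecidablePred p]
    (hp : ∀ n v, p (shiftEquiv n v) ↔ p v) (n : ℤ) (z : ℍ) :
    normSum k p (ModularGroup.T ^ n • z) = normSum k p z := by
  simp only [normSum]
  rw [← (shiftEquiv n).tsum_eq (fun v => if p v then ‖eisSummand k v z‖ else 0)]
  refine tsum_congr fun v => ?_
  rw [eisSummand_T_zpow]
  simp only [hp]

lemma norm_eisSummand_strip {k : ℤ} (hk : 0 ≤ k) (v : Fin 2 → ℤ) {z : ℍ}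
    (hz : z ∈ verticalStrip 1 2) :
    ‖eisSummand k v z‖ ≤ r ⟨⟨1, 2⟩, two_pos⟩ ^ (-k) * ‖v‖ ^ (-k) := by
  have := summand_bound_of_mem_verticalStrip (k := k) (by exact_mod_cast hk) v two_pos hz
  simp_rw [eisSummand, norm_zpow]
  exact_mod_cast this

lemma norm_eisSummand_im {k : ℤ} (hk : 0 ≤ k) {v : Fin 2 → ℤ} (hv : v 0 ≠ 0) (z : ℍ) :
    ‖eisSummand k v z‖ ≤ z.im ^ (-k) := by
  have h1 : z.im ≤ ‖(v 0 : ℂ) * z + v 1‖ := by
    have h2 : |((v 0 : ℂ) * z + v 1).im| ≤ ‖(v 0 : ℂ) * z + v 1‖ := abs_im_le_norm _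
    have h3 : ((v 0 : ℂ) * z + v 1).im = v 0 * z.im := by simp
    rw [h3, abs_mul, abs_of_pos z.im_pos] at h2
    have h4 : (1 : ℝ) ≤ |(v 0 : ℝ)| := by
      have := Int.one_le_abs hv
      exact_mod_cast this
    nlinarith [z.im_pos]
  rw [eisSummand, norm_zpow, _root_.zpow_neg, _root_.zpow_neg]
  exact inv_anti₀ (zpow_pos z.im_pos k) (zpow_le_zpow_left₀ hk z.im_pos.le h1)

/-- The boundedness at `i∞` of all Eisenstein-type series with bounded coefficients. -/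
theorem normSum_bounded {k : ℤ} (hk : 3 ≤ k) (z : ℍ) (hz : 2 ≤ z.im) :
    normSum k (fun _ => True) z ≤ ∑' v : Fin 2 → ℤ, r ⟨⟨1, 2⟩, two_pos⟩ ^ (-k) * ‖v‖ ^ (-k) := by
  obtain ⟨n, hn⟩ := ModularGroup_T_zpow_mem_verticalStrip z (N := 1) one_pos
  rw [← normSum_T_zpow k _ (by simp) (((1 : ℕ) : ℤ) * n) z]
  have hk' : (2 : ℝ) < k := by norm_cast
  refine (summable_normSum hk _ _).tsum_le_tsum (fun v => ?_) ?_
  · simp only [if_true]
    refine norm_eisSummand_strip (by omega) v ?_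
    have := verticalStrip_anti_right 1 hz (by simpa using hn)
    simpa using this
  · exact_mod_cast (summable_one_div_norm_rpow hk').mul_left _

theorem genEis_bounded {k : ℤ} (hk : 3 ≤ k) {c : (Fin 2 → ℤ) → ℂ} {C : ℝ}
    (hc : ∀ v, ‖c v‖ ≤ C) : IsBoundedAtImInfty (genEis k c) := by
  rw [UpperHalfPlane.isBoundedAtImInfty_iff]
  have hC : 0 ≤ C := le_trans (norm_nonneg _) (hc 0)
  refine ⟨C * ∑' v : Fin 2 → ℤ, r ⟨⟨1, 2⟩, two_pos⟩ ^ (-k) * ‖v‖ ^ (-k), 2, fun z hz => ?_⟩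
  refine le_trans ?_ (mul_le_mul_of_nonneg_left (normSum_bounded hk z hz) hC)
  have hs := summable_norm_eisSummand hk z
  have h1 : ‖genEis k c z‖ ≤ ∑' v, ‖c v * eisSummand k v z‖ :=
    norm_tsum_le_tsum_norm ((hs.mul_left C).of_nonneg_of_le (fun _ => norm_nonneg _)
      (fun v => norm_term_le hc v z))
  refine h1.trans ?_
  simp only [normSum, if_true]
  rw [← tsum_mul_left]
  exact ((hs.mul_left C).of_nonneg_of_le (fun _ => norm_nonneg _)
      (fun v => norm_term_le hc v z)).tsum_le_tsum (fun v => norm_term_le hc v z) (hs.mul_left C)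

/-- The sum of the terms with nonzero first entry tends to `0` at `i∞`. -/
theorem normSum_tendsto {k : ℤ} (hk : 3 ≤ k) :
    Tendsto (normSum k (fun v => v 0 ≠ 0)) atImInfty (𝓝 0) := by
  have hk' : (2 : ℝ) < k := by norm_cast
  set A : ℝ := r ⟨⟨1, 2⟩, two_pos⟩ ^ (-k) with hA
  have hA0 : 0 ≤ A := zpow_nonneg (r_pos _).le _
  -- the dominating function
  let b : ℝ → ℝ := fun y => ∑' v : Fin 2 → ℤ, min (A * ‖v‖ ^ (-k)) (|y| ^ (-k))
  have hsum : Summable fun v : Fin 2 → ℤ => A * ‖v‖ ^ (-k) := by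
    exact_mod_cast (summable_one_div_norm_rpow hk').mul_left A
  have hb : Tendsto b atTop (𝓝 0) := by
    have h0 : (0 : ℝ) = ∑' _ : Fin 2 → ℤ, (0 : ℝ) := by simp
    rw [h0]
    refine tendsto_tsum_of_dominated_convergence hsum (fun v => ?_) (Eventually.of_forall ?_)
    · have h1 : Tendsto (fun y : ℝ => |y| ^ (-k)) atTop (𝓝 0) := by
        have h2 : Tendsto (fun y : ℝ => y ^ (-k)) atTop (𝓝 0) :=
          tendsto_zpow_atTop_zero (by omega)
        exact h2.comp tendsto_abs_atTop_atTop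
      have h3 : Tendsto (fun _ : ℝ => A * ‖v‖ ^ (-k)) atTop (𝓝 (A * ‖v‖ ^ (-k))) :=
        tendsto_const_nhds
      have h4 := h3.min h1
      rwa [min_eq_right (by positivity)] at h4
    · intro y v
      rw [Real.norm_of_nonneg (le_min (by positivity) (by positivity))]
      exact min_le_left _ _
  have hbim : Tendsto (fun z : ℍ => b z.im) atImInfty (𝓝 0) := hb.comp tendsto_comap
  refine squeeze_zero' (Eventually.of_forall fun z => tsum_nonneg fun v => ?_) ?_ hbim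
  · split_ifs <;> positivity
  · have hev : ∀ᶠ z : ℍ in atImInfty, 2 ≤ z.im :=
      tendsto_comap.eventually (eventually_ge_atTop 2)
    filter_upwards [hev] with z hz
    obtain ⟨n, hn⟩ := ModularGroup_T_zpow_mem_verticalStrip z (N := 1) one_pos
    rw [← normSum_T_zpow k _ (by intro n v; simp [shiftEquiv]) (((1 : ℕ) : ℤ) * n) z]
    refine (summable_normSum hk _ _).tsum_le_tsum (fun v => ?_) ?_
    · split_ifs with hv
      · refine le_min ?_ ?_
        · refine norm_eisSummand_strip (by omega) v ?_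
          have := verticalStrip_anti_right 1 hz (by simpa using hn)
          simpa using this
        · refine (norm_eisSummand_im (by omega) hv _).trans_eq ?_
          rw [ModularGroup.im_T_zpow_smul, abs_of_pos z.im_pos]
      · exact le_min (by positivity) (by positivity)
    · refine hsum.of_nonneg_of_le (fun v => le_min (by positivity) (by positivity))
        (fun v => min_le_left _ _)

lemma genEis_sub_le {k : ℤ} (hk : 3 ≤ k) {c : (Fin 2 → ℤ) → ℂ} {C : ℝ}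
    (hc : ∀ v, ‖c v‖ ≤ C) (z : ℍ) :
    ‖genEis k c z - ∑' v : Fin 2 → ℤ, (if v 0 = 0 then c v * (v 1 : ℂ) ^ (-k) else 0)‖ ≤
      C * normSum k (fun v => v 0 ≠ 0) z := by
  have hs := summable_norm_eisSummand hk z
  have hC : 0 ≤ C := le_trans (norm_nonneg _) (hc 0)
  have hterm : ∀ v : Fin 2 → ℤ, (if v 0 = 0 then c v * (v 1 : ℂ) ^ (-k) else 0) =
      if v 0 = 0 then c v * eisSummand k v z else 0 := by
    intro v
    split_ifs with hv
    · simp [eisSummand, hv]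
    · rfl
  simp_rw [hterm]
  have hsum0 : Summable fun v : Fin 2 → ℤ => if v 0 = 0 then c v * eisSummand k v z else 0 := by
    refine Summable.of_norm_bounded (hs.mul_left C) (fun v => ?_)
    split_ifs
    · exact norm_term_le hc v z
    · simp only [norm_zero]; positivity
  rw [genEis, ← (summable_term hk hc z).tsum_sub hsum0, normSum, ← tsum_mul_left]
  have hterm2 : ∀ v : Fin 2 → ℤ, ‖c v * eisSummand k v z -
      (if v 0 = 0 then c v * eisSummand k v z else 0)‖ ≤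
      C * (if v 0 ≠ 0 then ‖eisSummand k v z‖ else 0) := by
    intro v
    by_cases hv : v 0 = 0
    · simp [hv]
    · simpa [hv] using norm_term_le hc v z
  have hsum1 := (summable_normSum hk (fun v => v 0 ≠ 0) z).mul_left C
  exact (norm_tsum_le_tsum_norm (hsum1.of_nonneg_of_le (fun _ => norm_nonneg _) hterm2)).trans
    ((hsum1.of_nonneg_of_le (fun _ => norm_nonneg _) hterm2).tsum_le_tsum hterm2 hsum1)

theorem genEis_tendsto {k : ℤ} (hk : 3 ≤ k) {c : (Fin 2 → ℤ) → ℂ} {C : ℝ}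
    (hc : ∀ v, ‖c v‖ ≤ C) :
    Tendsto (genEis k c) atImInfty
      (𝓝 (∑' v : Fin 2 → ℤ, (if v 0 = 0 then c v * (v 1 : ℂ) ^ (-k) else 0))) := by
  rw [tendsto_iff_norm_sub_tendsto_zero]
  refine squeeze_zero (fun _ => norm_nonneg _) (fun z => genEis_sub_le hk hc z) ?_
  simpa using (normSum_tendsto hk).const_mul C

/-! ### The twisted series -/

variable {N : ℕ}

/-- The bottom row of a matrix. -/
def bottom (γ : SL(2, ℤ)) : Fin 2 → ℤ := (γ : Matrix (Fin 2) (Fin 2) ℤ) 1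

lemma bottom_mul (α β : SL(2, ℤ)) :
    bottom (α * β) = bottom α ᵥ* (β : Matrix (Fin 2) (Fin 2) ℤ) := by
  have h : ((α * β : SL(2, ℤ)) : Matrix (Fin 2) (Fin 2) ℤ) =
    (α : Matrix (Fin 2) (Fin 2) ℤ) * (β : Matrix (Fin 2) (Fin 2) ℤ) := rfl
  funext j
  simp only [bottom, h, Matrix.mul_apply, vecMul, dotProduct]

lemma bottom_mul_inv_self (α : SL(2, ℤ)) :
    bottom α ᵥ* ((α⁻¹ : SL(2, ℤ)) : Matrix (Fin 2) (Fin 2) ℤ) = ![0, 1] := by
  rw [← bottom_mul, mul_inv_cancel]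
  ext j
  fin_cases j <;> simp [bottom]

open Classical in
/-- The coefficients of the twisted Eisenstein series. -/
def charCoeff (χ : Gamma0 N →* ℂˣ) (v : Fin 2 → ℤ) : ℂ :=
  if h : ∃ γ : Gamma0 N, bottom (γ : SL(2, ℤ)) = v then (((χ h.choose)⁻¹ : ℂˣ) : ℂ) else 0

section

variable {χ : Gamma0 N →* ℂˣ} (hpar : ∀ γ : Gamma0 N, (γ : SL(2, ℤ)) 1 0 = 0 → χ γ = 1)

include hpar

lemma chi_eq_of_bottom_eq {α β : Gamma0 N}
    (h : bottom (α : SL(2, ℤ)) = bottom (β : SL(2, ℤ))) : χ α = χ β := by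
  have h1 : ((α * β⁻¹ : Gamma0 N) : SL(2, ℤ)) 1 0 = 0 := by
    have h2 : bottom ((α : SL(2, ℤ)) * (β : SL(2, ℤ))⁻¹) = ![0, 1] := by
      rw [bottom_mul, h, bottom_mul_inv_self]
    have h3 := congrFun h2 0
    simpa [bottom] using h3
  have h4 := hpar _ h1
  rw [map_mul, map_inv] at h4
  exact mul_inv_eq_one.mp h4

lemma charCoeff_bottom (α : Gamma0 N) :
    charCoeff χ (bottom (α : SL(2, ℤ))) = (((χ α)⁻¹ : ℂˣ) : ℂ) := by
  have h : ∃ γ : Gamma0 N, bottom (γ : SL(2, ℤ)) = bottom (α : SL(2, ℤ)) := ⟨α, rfl⟩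
  rw [charCoeff, dif_pos h, chi_eq_of_bottom_eq hpar h.choose_spec]

lemma charCoeff_mul (γ : Gamma0 N) (v : Fin 2 → ℤ) :
    charCoeff χ (v ᵥ* ((γ : SL(2, ℤ)) : Matrix (Fin 2) (Fin 2) ℤ)) =
      (((χ γ)⁻¹ : ℂˣ) : ℂ) * charCoeff χ v := by
  by_cases h : ∃ α : Gamma0 N, bottom (α : SL(2, ℤ)) = v
  · obtain ⟨α, rfl⟩ := h
    have h1 : bottom (α : SL(2, ℤ)) ᵥ* ((γ : SL(2, ℤ)) : Matrix (Fin 2) (Fin 2) ℤ) =
        bottom ((α * γ : Gamma0 N) : SL(2, ℤ)) := (bottom_mul _ _).symm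
    rw [h1, charCoeff_bottom hpar, charCoeff_bottom hpar, map_mul]
    simp [mul_comm]
  · have h' : ¬ ∃ α : Gamma0 N, bottom (α : SL(2, ℤ)) =
        v ᵥ* ((γ : SL(2, ℤ)) : Matrix (Fin 2) (Fin 2) ℤ) := by
      rintro ⟨β, hβ⟩
      refine h ⟨β * γ⁻¹, ?_⟩
      have h1 : bottom ((β * γ⁻¹ : Gamma0 N) : SL(2, ℤ)) =
          bottom (β : SL(2, ℤ)) ᵥ* (((γ : SL(2, ℤ))⁻¹ : SL(2, ℤ)) : Matrix (Fin 2) (Fin 2) ℤ) :=
        bottom_mul _ _
      rw [h1, hβ, row_mul_inv]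
    rw [charCoeff, charCoeff, dif_neg h, dif_neg h', mul_zero]

lemma charCoeff_mul_inv (γ : Gamma0 N) (v : Fin 2 → ℤ) :
    charCoeff χ (v ᵥ* (((γ : SL(2, ℤ))⁻¹ : SL(2, ℤ)) : Matrix (Fin 2) (Fin 2) ℤ)) =
      (χ γ : ℂ) * charCoeff χ v := by
  have h := charCoeff_mul hpar γ⁻¹ v
  simpa using h

omit hpar in
lemma norm_charCoeff_le (h1 : ∀ γ, ‖(χ γ : ℂ)‖ = 1) (v : Fin 2 → ℤ) : ‖charCoeff χ v‖ ≤ 1 := by
  rw [charCoeff]
  split_ifs with h
  · rw [Units.val_inv_eq_inv_val, norm_inv, h1]; simp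
  · simp

lemma genEis_charCoeff_slash (k : ℤ) (γ : Gamma0 N) :
    genEis k (charCoeff χ) ∣[k] (γ : SL(2, ℤ)) = (χ γ : ℂ) • genEis k (charCoeff χ) := by
  rw [genEis_slash]
  funext z
  simp only [genEis, Pi.smul_apply, smul_eq_mul]
  rw [← tsum_mul_left]
  refine tsum_congr fun v => ?_
  rw [charCoeff_mul_inv hpar, mul_assoc]

lemma charCoeff_const_term {k : ℤ} (hk : Even k) :
    ∑' v : Fin 2 → ℤ, (if v 0 = 0 then charCoeff χ v * (v 1 : ℂ) ^ (-k) else 0) = 2 := by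
  classical
  have hb1 : bottom ((1 : Gamma0 N) : SL(2, ℤ)) = ![0, 1] := by
    ext j; fin_cases j <;> simp [bottom]
  have hneg : (-1 : SL(2, ℤ)) ∈ Gamma0 N := by
    rw [Gamma0_mem]; simp
  have hb2 : bottom (((⟨-1, hneg⟩ : Gamma0 N)) : SL(2, ℤ)) = ![0, -1] := by
    ext j; fin_cases j <;> simp [bottom]
  have hc1 : charCoeff χ ![0, 1] = 1 := by
    rw [← hb1, charCoeff_bottom hpar]; simp
  have hc2 : charCoeff χ ![0, -1] = 1 := by
    rw [← hb2, charCoeff_bottom hpar, hpar]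
    · simp
    · simp
  rw [tsum_eq_sum (s := {![0, 1], ![0, -1]})]
  · rw [Finset.sum_pair]
    · simp only [cons_val_zero, if_true, cons_val_one, hc1, hc2]
      have : ((-1 : ℤ) : ℂ) ^ (-k) = 1 := by
        push_cast
        exact (Even.neg hk).neg_one_zpow
      rw [this]; norm_num
    · intro h
      have := congrFun h 1
      simp at this
  · intro v hv
    split_ifs with h0
    · have hz : charCoeff χ v = 0 := by
        rw [charCoeff, dif_neg]
        rintro ⟨γ, hγ⟩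
        have hdet := (γ : SL(2, ℤ)).det_coe
        rw [Matrix.det_fin_two] at hdet
        have h10 : (γ : SL(2, ℤ)) 1 0 = 0 := by
          have := congrFun hγ 0
          rw [h0] at this
          exact this
        have h11 : (γ : SL(2, ℤ)) 1 1 = v 1 := congrFun hγ 1
        rw [h10, h11, mul_zero, sub_zero] at hdet
        have hu : IsUnit (v 1) := IsUnit.of_mul_eq_one_right _ hdet
        rcases Int.isUnit_iff.mp hu with h | h
        · apply hv
          have : v = ![0, 1] := by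
            ext j; fin_cases j
            · exact h0
            · exact h
          rw [this]; simp
        · apply hv
          have : v = ![0, -1] := by
            ext j; fin_cases j
            · exact h0
            · exact h
          rw [this]; simp
      rw [hz, zero_mul]
    · rfl

end

/-- **Twisted Eisenstein series.** For a unitary character `χ` of `Γ₀(N)`, trivial on the
stabiliser of `∞`, and `k ≥ 4` even, there is a holomorphic function on `ℍ`, transforming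
under `Γ₀(N)` with weight `k` and character `χ`, bounded at all cusps, with value `1` at `∞`. -/
theorem exists_twisted (N : ℕ) (χ : Gamma0 N →* ℂˣ) (h1 : ∀ γ, ‖(χ γ : ℂ)‖ = 1)
    (hpar : ∀ γ : Gamma0 N, (γ : SL(2, ℤ)) 1 0 = 0 → χ γ = 1)
    (k : ℤ) (hk : Even k) (hk4 : 4 ≤ k) :
    ∃ E : ℍ → ℂ, MDifferentiable 𝓘(ℂ) 𝓘(ℂ) E ∧
      (∀ γ : Gamma0 N, E ∣[k] (γ : SL(2, ℤ)) = (χ γ : ℂ) • E) ∧
      (∀ δ : SL(2, ℤ), IsBoundedAtImInfty (E ∣[k] δ)) ∧ Tendsto E atImInfty (𝓝 1) := by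
  have hk3 : 3 ≤ k := by omega
  have hc : ∀ v, ‖((1 : ℂ) / 2) * charCoeff χ v‖ ≤ 1 := by
    intro v
    rw [norm_mul]
    have := norm_charCoeff_le h1 v
    have h2 : ‖(1 : ℂ) / 2‖ = 1 / 2 := by simp
    rw [h2]
    nlinarith [norm_nonneg (charCoeff χ v)]
  have hE : genEis k (fun v => ((1 : ℂ) / 2) * charCoeff χ v) =
      ((1 : ℂ) / 2) • genEis k (charCoeff χ) := by
    funext z
    simp only [genEis, Pi.smul_apply, smul_eq_mul]
    rw [← tsum_mul_left]
    exact tsum_congr fun v => by ring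
  refine ⟨genEis k (fun v => ((1 : ℂ) / 2) * charCoeff χ v), genEis_mdifferentiable hk3 hc, ?_, ?_,
    ?_⟩
  · intro γ
    rw [genEis_slash]
    funext z
    simp only [genEis, Pi.smul_apply, smul_eq_mul]
    rw [← tsum_mul_left]
    refine tsum_congr fun v => ?_
    rw [charCoeff_mul_inv hpar]
    ring
  · intro δ
    rw [genEis_slash]
    exact genEis_bounded hk3 (C := 1) fun v => hc _
  · have h := genEis_tendsto hk3 (c := charCoeff χ) (norm_charCoeff_le h1)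
    rw [charCoeff_const_term hpar hk] at h
    rw [hE]
    have h2 := h.const_smul ((1 : ℂ) / 2)
    have h3 : ((1 : ℂ) / 2) • (2 : ℂ) = 1 := by simp
    rw [h3] at h2
    exact h2

lemma discriminant_smul_eq (γ : SL(2, ℤ)) (z : ℍ) :
    ModularForm.discriminant (γ • z) = denom (γ : GL (Fin 2) ℝ) z ^ (12 : ℤ) *
      ModularForm.discriminant z := by
  have h : (ModularForm.discriminant ∣[(12 : ℤ)] γ) = ModularForm.discriminant := by
    have := SlashInvariantFormClass.slash_action_eq CuspForm.discriminant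
      (γ : GL (Fin 2) ℝ) ⟨γ, rfl⟩
    rw [SL_slash]
    exact this
  have h2 := congrFun h z
  rw [SL_slash_apply, _root_.zpow_neg] at h2
  have h3 : denom (γ : GL (Fin 2) ℝ) z ^ (12 : ℤ) ≠ 0 := zpow_ne_zero _ (denom_ne_zero _ z)
  rw [mul_inv_eq_iff_eq_mul₀ h3] at h2
  rw [h2, mul_comm]

/-- **Automorphic functions with a given unitary character.** For a unitary character `χ` of
`Γ₀(N)`, trivial on the stabiliser of `∞`, there is a nonzero holomorphic function `h` on `ℍ`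
with `h(γz) = χ(γ) h(z)` for `γ ∈ Γ₀(N)`, having at most poles (of order bounded by that of
`1/Δ`) at all cusps. -/
theorem exists_twisted_function (N : ℕ) (χ : Gamma0 N →* ℂˣ) (h1 : ∀ γ, ‖(χ γ : ℂ)‖ = 1)
    (hpar : ∀ γ : Gamma0 N, (γ : SL(2, ℤ)) 1 0 = 0 → χ γ = 1) :
    ∃ h : ℍ → ℂ, MDifferentiable 𝓘(ℂ) 𝓘(ℂ) h ∧
      (∀ (γ : Gamma0 N) (z : ℍ), h ((γ : SL(2, ℤ)) • z) = (χ γ : ℂ) * h z) ∧
      (∀ δ : SL(2, ℤ), IsBoundedAtImInfty
        (fun z => h (δ • z) * ModularForm.discriminant z)) ∧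
      Tendsto (fun z => h z * ModularForm.discriminant z) atImInfty (𝓝 1) := by
  obtain ⟨E, hE1, hE2, hE3, hE4⟩ := exists_twisted N χ h1 hpar 12 (by decide) (by norm_num)
  refine ⟨fun z => E z / ModularForm.discriminant z, ?_, ?_, ?_, ?_⟩
  · exact hE1.div CuspForm.discriminant.holo' discriminant_ne_zero
  · intro γ z
    have h2 := congrFun (hE2 γ) z
    rw [SL_slash_apply, _root_.zpow_neg] at h2
    have h3 : denom ((γ : SL(2, ℤ)) : GL (Fin 2) ℝ) z ^ (12 : ℤ) ≠ 0 :=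
      zpow_ne_zero _ (denom_ne_zero _ z)
    have h4 := discriminant_ne_zero z
    simp only [Pi.smul_apply, smul_eq_mul] at h2
    rw [mul_inv_eq_iff_eq_mul₀ h3] at h2
    show E ((γ : SL(2, ℤ)) • z) / ModularForm.discriminant ((γ : SL(2, ℤ)) • z) =
      (χ γ : ℂ) * (E z / ModularForm.discriminant z)
    rw [discriminant_smul_eq, h2, mul_comm (denom _ _ ^ (12 : ℤ)),
      mul_div_mul_right _ _ h3, mul_div_assoc]
  · intro δ
    have h2 : (fun z => E (δ • z) / ModularForm.discriminant (δ • z) *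
        ModularForm.discriminant z) = E ∣[(12 : ℤ)] δ := by
      funext z
      rw [SL_slash_apply, _root_.zpow_neg, discriminant_smul_eq]
      have h3 : denom (δ : GL (Fin 2) ℝ) z ^ (12 : ℤ) ≠ 0 :=
        zpow_ne_zero _ (denom_ne_zero _ z)
      have h4 := discriminant_ne_zero z
      field_simp
    rw [h2]
    exact hE3 δ
  · refine hE4.congr fun z => ?_
    rw [div_mul_cancel₀ _ (discriminant_ne_zero z)]

end

end Fermat.Agent.H90
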