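import Mathlib
import Fermat.Agent.H24Ring
import Fermat.Agent.H90TwistedEis

/-!
# Expansions at the cusps (BRIDGE, helper90)
-/

set_option autoImplicit false

noncomputable section

namespace Fermat.Agent.H90

open UpperHalfPlane hiding I
open Complex MatrixGroups ModularGroup ModularCurve Fermat.Agent.H24 Filter
open scoped Manifold Real Topology

local notation "𝕢" => Function.Periodic.qParam

theorem T_pow_smul_coe (n : ℕ) (τ : ℍ) : (((T ^ n : SL(2, ℤ)) • τ : ℍ) : ℂ) = (τ : ℂ) + n := by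
  induction n with
  | zero => simp
  | succ n ih =>
    rw [pow_succ', mul_smul, coe_T_smul, ih]
    push_cast
    ring

theorem periodic_of_T_pow {N : ℕ} {f : ℍ → ℂ} (hper : ∀ τ : ℍ, f ((T ^ N : SL(2, ℤ)) • τ) = f τ) :
    Function.Periodic (f ∘ ofComplex) ((N : ℝ) : ℂ) := by
  intro z
  simp only [Function.comp_apply]
  rcases lt_or_ge 0 z.im with h | h
  · have h2 : 0 < (z + ((N : ℝ) : ℂ)).im := by simpa using h
    rw [ofComplex_apply_of_im_pos h, ofComplex_apply_of_im_pos h2, ← hper ⟨z, h⟩]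
    congr 1
    apply UpperHalfPlane.ext
    rw [T_pow_smul_coe]
    simp
  · have h2 : (z + ((N : ℝ) : ℂ)).im ≤ 0 := by simpa using h
    rw [ofComplex_apply_of_im_nonpos h, ofComplex_apply_of_im_nonpos h2]

theorem mdiff_qParam (N : ℕ) [NeZero N] : MDiff (fun τ : ℍ => 𝕢 (N : ℝ) τ) := by
  rw [UpperHalfPlane.mdifferentiable_iff]
  have : DifferentiableOn ℂ (𝕢 (N : ℝ)) {z : ℂ | 0 < z.im} :=
    (Function.Periodic.differentiable_qParam).differentiableOn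
  refine this.congr fun z hz => ?_
  simp [ofComplex_apply_of_im_pos hz]

theorem qParam_T_pow (N : ℕ) [NeZero N] (τ : ℍ) :
    𝕢 (N : ℝ) (((T ^ N : SL(2, ℤ)) • τ : ℍ) : ℂ) = 𝕢 (N : ℝ) τ := by
  rw [T_pow_smul_coe]
  have hN : (N : ℂ) ≠ 0 := Nat.cast_ne_zero.mpr (NeZero.ne N)
  simp only [Function.Periodic.qParam]
  rw [Complex.ofReal_natCast, mul_add, add_div, Complex.exp_add, mul_div_assoc _ (N : ℂ) (N : ℂ),
    div_self hN, mul_one, Complex.exp_two_pi_mul_I, mul_one]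

/-- A holomorphic function of period `N` with a pole of finite order at `i∞` has an expansion. -/
theorem exists_hasExpC_of_bounded (N : ℕ) [NeZero N] {f : ℍ → ℂ} (hf : MDiff f)
    (hper : ∀ τ : ℍ, f ((T ^ N : SL(2, ℤ)) • τ) = f τ) (k : ℕ)
    (hb : IsBoundedAtImInfty fun τ : ℍ => f τ * 𝕢 (N : ℝ) τ ^ k) :
    ∃ F, HasExpC (fun τ : ℍ => 𝕢 (N : ℝ) τ) f F := by
  set G : ℍ → ℂ := fun τ => f τ * 𝕢 (N : ℝ) τ ^ k with hG
  have hN : (0 : ℝ) < N := by exact_mod_cast Nat.pos_of_ne_zero (NeZero.ne N)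
  have hGd : MDiff G := hf.mul ((mdiff_qParam N).pow k)
  have hGp : Function.Periodic (G ∘ ofComplex) ((N : ℝ) : ℂ) := periodic_of_T_pow (fun τ => by
    simp only [hG]
    rw [hper, qParam_T_pow])
  have hd := differentiableOn_cuspFunction_ball hN hGp hGd hb
  have hev : ∀ τ : ℍ, cuspFunction (N : ℝ) G (𝕢 (N : ℝ) τ) = G τ := fun τ =>
    eq_cuspFunction τ hN.ne' hGp
  refine ⟨HahnSeries.single (-(k : ℤ)) 1 * HahnSeries.ofPowerSeries ℤ ℂ
    (taylor (cuspFunction (N : ℝ) G)), (isConv_single _ _).mul (isConv_taylor hd), fun τ hτ => ?_⟩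
  rw [evalAt_mul (isConv_single _ _) (isConv_taylor hd) hτ (qParam_norm_lt_one N τ), evalAt_single,
    evalAt_taylor hd (qParam_norm_lt_one N τ), hev, hG, one_mul]
  have hτ' : 𝕢 (N : ℝ) τ ≠ 0 := hτ
  rw [zpow_neg, zpow_natCast]
  field_simp

theorem isBounded_evalAt (N : ℕ) [NeZero N] {F : LaurentSeries ℂ} (hF : IsConv F) :
    ∃ k : ℕ, IsBoundedAtImInfty fun τ : ℍ => evalAt (𝕢 (N : ℝ) τ) F * 𝕢 (N : ℝ) τ ^ k := by
  have hN : (0 : ℝ) < N := by exact_mod_cast Nat.pos_of_ne_zero (NeZero.ne N)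
  obtain ⟨k, hk⟩ : ∃ k : ℕ, ∀ n < (0 : ℤ), (F * HahnSeries.single (k : ℤ) 1).coeff n = 0 := by
    refine ⟨(-F.order).toNat, fun n hn => ?_⟩
    by_cases h0 : F = 0
    · rw [h0, zero_mul]; rfl
    rw [mul_comm, HahnSeries.coeff_single_mul, one_mul]
    apply HahnSeries.coeff_eq_zero_of_lt_order
    omega
  refine ⟨k, ?_⟩
  have hc : IsConv (F * HahnSeries.single (k : ℤ) 1) := hF.mul (isConv_single _ _)
  have := isBoundedAtImInfty_of_hasSum_qExpansion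
    (c := fun m => (F * HahnSeries.single (k : ℤ) 1).coeff (m : ℤ)) 
    (f := fun τ : ℍ => evalAt (𝕢 (N : ℝ) τ) F * 𝕢 (N : ℝ) τ ^ k) hN (fun τ => by
      have := hasSum_pow_of_coeff_neg hc hk (Function.Periodic.qParam_ne_zero (h := (N : ℝ)) τ)
        (qParam_norm_lt_one N τ)
      rw [evalAt_mul hF (isConv_single _ _) (Function.Periodic.qParam_ne_zero _)
        (qParam_norm_lt_one N τ), evalAt_single] at this
      simpa using this)
  exact this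

theorem isBounded_of_mem_ExpAlg (N : ℕ) [NeZero N] {f : ℍ → ℂ}
    (hf : f ∈ ExpAlg (chart_qParam N)) :
    ∃ k : ℕ, IsBoundedAtImInfty fun τ : ℍ => f τ * 𝕢 (N : ℝ) τ ^ k := by
  obtain ⟨F, hF⟩ := hf
  obtain ⟨k, hk⟩ := isBounded_evalAt N hF.1
  refine ⟨k, ?_⟩
  convert! hk using 2 with τ
  rw [hF.2 τ (Function.Periodic.qParam_ne_zero _)]

/-- Roots of functions with expansions have expansions. -/
theorem mem_ExpAlg_of_pow (N : ℕ) [NeZero N] {f : ℍ → ℂ} (hf : MDiff f)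
    (hper : ∀ τ : ℍ, f ((T ^ N : SL(2, ℤ)) • τ) = f τ) {n : ℕ} (hn : n ≠ 0)
    (h : f ^ n ∈ ExpAlg (chart_qParam N)) : f ∈ ExpAlg (chart_qParam N) := by
  obtain ⟨k, hk⟩ := isBounded_of_mem_ExpAlg N h
  refine exists_hasExpC_of_bounded N hf hper k ?_
  rw [isBoundedAtImInfty_iff] at hk ⊢
  obtain ⟨M, A, hA⟩ := hk
  refine ⟨max M 1, max A 1, fun τ hτ => ?_⟩
  have h1 := hA τ ((le_max_left _ _).trans hτ)
  have hq : ‖𝕢 (N : ℝ) τ‖ ≤ 1 := (qParam_norm_lt_one N τ).le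
  have h2 : ‖f τ * 𝕢 (N : ℝ) τ ^ k‖ ^ n ≤ M := by
    calc ‖f τ * 𝕢 (N : ℝ) τ ^ k‖ ^ n = ‖(f ^ n) τ * 𝕢 (N : ℝ) τ ^ k‖ * (‖𝕢 (N : ℝ) τ‖ ^ k) ^ (n - 1) := by
          obtain ⟨m, rfl⟩ := Nat.exists_eq_succ_of_ne_zero hn
          simp only [norm_mul, norm_pow, Pi.pow_apply, Nat.succ_eq_add_one, Nat.add_sub_cancel]
          ring
      _ ≤ ‖(f ^ n) τ * 𝕢 (N : ℝ) τ ^ k‖ * 1 := by
          gcongr
          exact pow_le_one₀ (by positivity) (pow_le_one₀ (norm_nonneg _) hq)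
      _ ≤ M := by rw [mul_one]; exact h1
  by_contra hcon
  push Not at hcon
  have h3 : 1 < ‖f τ * 𝕢 (N : ℝ) τ ^ k‖ := (le_max_right _ _).trans_lt hcon
  have h4 : ‖f τ * 𝕢 (N : ℝ) τ ^ k‖ ≤ ‖f τ * 𝕢 (N : ℝ) τ ^ k‖ ^ n :=
    le_self_pow₀ h3.le hn
  have h5 : M < ‖f τ * 𝕢 (N : ℝ) τ ^ k‖ := (le_max_left _ _).trans_lt hcon
  linarith

/-- `T`-invariant functions with a `q_N`-expansion have a `q`-expansion. -/
theorem exists_q_expansion (N : ℕ) [NeZero N] {f : ℍ → ℂ}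
    (hT : ∀ τ : ℍ, f (T • τ) = f τ) (h : f ∈ ExpAlg (chart_qParam N)) :
    ∃ W : LaurentSeries ℂ, HasExpC (fun τ : ℍ => 𝕢 (1 : ℝ) τ) f W := by
  obtain ⟨F, hF⟩ := h
  have hdvd : ∀ n : ℤ, F.coeff n ≠ 0 → (N : ℤ) ∣ n := fun n hn =>
    dvd_of_coeff_ne_zero N hT hF.1 (fun τ => hF.2 τ (Function.Periodic.qParam_ne_zero _)) hn
  have hN : (0 : ℤ) < N := by exact_mod_cast Nat.pos_of_ne_zero (NeZero.ne N)
  let W : LaurentSeries ℂ :=
    { coeff := fun n => F.coeff (N * n)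
      isPWO_support' := by
        have h1 := F.isPWO_support
        refine Set.IsWF.isPWO ?_
        have h2 := h1.isWF
        rw [Set.isWF_iff_no_descending_seq] at h2 ⊢
        intro g hg hmem
        refine h2 (fun n => N * g n) (fun a b hab => ?_) (fun n => hmem n)
        exact mul_lt_mul_of_pos_left (hg hab) hN }
  have hWF : qExpand ℂ N W = F := by
    ext n
    by_cases hn : (N : ℤ) ∣ n
    · obtain ⟨m, rfl⟩ := hn
      rw [qExpand_coeff_mul]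
    · rw [qExpand_coeff_of_not_dvd N _ hn]
      by_contra hcon
      exact hn (hdvd n (Ne.symm hcon))
  have hsum : ∀ τ : ℍ, HasSum (fun n : ℤ => W.coeff n * 𝕢 (1 : ℝ) τ ^ n) (f τ) := by
    intro τ
    have h1 := hF.1.hasSum (Function.Periodic.qParam_ne_zero (h := (N : ℝ)) τ)
      (qParam_norm_lt_one N τ)
    have h2 : evalAt (𝕢 (N : ℝ) τ) F = f τ := hF.2 τ (Function.Periodic.qParam_ne_zero _)
    change HasSum _ (evalAt (𝕢 (N : ℝ) τ) F) at h1
    rw [h2] at h1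
    rw [← hWF] at h1
    rw [hasSum_qExpand_iff, qParam_pow_self] at h1
    exact h1
  refine ⟨W, fun r hr0 hr1 => ?_, fun τ _ => (hsum τ).tsum_eq⟩
  obtain ⟨τ, hτ⟩ := exists_qParam_eq_of_norm 1 (w := (r : ℂ)) (by exact_mod_cast hr0.ne')
    (by simpa [abs_of_pos hr0] using hr1)
  have h := (hsum τ).summable.norm
  rw [Nat.cast_one] at hτ
  rw [hτ] at h
  simpa [norm_mul, norm_zpow, abs_of_pos hr0] using h

end Fermat.Agent.H90

end
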