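import Mathlib
import Fermat.Agent.H90Exp
import Fermat.Agent.H90DescentLin

/-!
# Good functions and roots (BRIDGE, helper90)
-/

set_option autoImplicit false

noncomputable section

namespace Fermat.Agent.H90

open UpperHalfPlane hiding I
open Complex MatrixGroups ModularGroup ModularCurve Fermat.Agent.H24 Filter
open scoped Manifold Real Topology

local notation "𝕢" => Function.Periodic.qParam

/-! ### constants -/

section Const

variable {C M : Type*} [Field C] [IsAlgClosed C] [Field M] [Algebra C M]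

theorem exists_algebraMap_of_pow_eq {n : ℕ} (hn : n ≠ 0) {r : M} {c : C}
    (h : r ^ n = algebraMap C M c) : ∃ c' : C, c' ^ n = c ∧ algebraMap C M c' = r := by
  have hint : IsIntegral C r := by
    refine ⟨Polynomial.X ^ n - Polynomial.C c, Polynomial.monic_X_pow_sub_C c hn, ?_⟩
    simp [h]
  obtain ⟨c', hc'⟩ : ∃ c' : C, algebraMap C M c' = r := by
    have h1 := IsAlgClosed.degree_eq_one_of_irreducible C (minpoly.irreducible hint)
    have h2 := minpoly.mem_range_of_degree_eq_one C r h1
    exact h2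
  refine ⟨c', ?_, hc'⟩
  apply (algebraMap C M).injective
  rw [map_pow, hc', h]

theorem exists_algebraMap_of_pow_eq_one {n : ℕ} (hn : n ≠ 0) {r : M}
    (h : r ^ n = 1) : ∃ c' : C, c' ^ n = 1 ∧ algebraMap C M c' = r :=
  exists_algebraMap_of_pow_eq hn (by rw [h, map_one])

end Const

theorem leadingCoeff_pow' {k : Type*} [Field k] (x : LaurentSeries k) (n : ℕ) :
    (x ^ n).leadingCoeff = x.leadingCoeff ^ n := by
  induction n with
  | zero => rw [pow_zero, pow_zero, HahnSeries.leadingCoeff_one]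
  | succ n ih => rw [pow_succ, pow_succ, HahnSeries.leadingCoeff_mul, ih]

theorem coeff_const_mul {k : Type*} [Field k] (c : k) (F : LaurentSeries k) (n : ℤ) :
    (algebraMap k (LaurentSeries k) c * F).coeff n = c * F.coeff n := by
  rw [algebraMap_laurentSeries_eq_single, HahnSeries.coeff_single_zero_mul]

theorem coeffMap_apply_coeff {R S : Type*} [CommRing R] [CommRing S] (f : R →+* S)
    (x : LaurentSeries R) (n : ℤ) : (coeffMap f x).coeff n = f (x.coeff n) := rfl

section Root

variable (K : Type*) [Field K] [Algebra K ℂ] [IsAlgClosed K]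

/-- `n`-th roots of Laurent series over an algebraically closed field are rational. -/
theorem mem_range_incl_of_pow_eq {n : ℕ} (hn : n ≠ 0) {W : LaurentSeries ℂ} {x : LaurentSeries K}
    (h : W ^ n = incl K x) : ∃ w : LaurentSeries K, incl K w = W ∧ w ^ n = x := by
  by_cases hW : W = 0
  · refine ⟨0, by rw [map_zero, hW], ?_⟩
    apply incl_injective K
    rw [← h, hW, map_pow, map_zero]
  -- every coefficient of `W` is in `K`
  have hlead : ∃ b : K, algebraMap K ℂ b = W.leadingCoeff := by
    have h1 : W.leadingCoeff ^ n = algebraMap K ℂ (x.coeff (W ^ n).order) := by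
      rw [← incl_coeff, ← h, ← leadingCoeff_pow']
      exact HahnSeries.leadingCoeff_eq
    obtain ⟨c', -, hc'⟩ := exists_algebraMap_of_pow_eq (C := K) hn h1
    exact ⟨c', hc'⟩
  have hσ : ∀ σ : ℂ ≃ₐ[K] ℂ, ∀ m : ℤ, σ (W.coeff m) = W.coeff m := by
    intro σ m
    set W' := coeffMap (σ : ℂ →+* ℂ) W with hW'
    have h1 : W' ^ n = W ^ n := by
      rw [hW', ← map_pow, h]
      ext m
      rw [coeffMap_apply_coeff, incl_coeff]
      exact σ.commutes _
    have h2 : (W' / W) ^ n = 1 := by
      rw [div_pow, h1, div_self (pow_ne_zero _ hW)]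
    obtain ⟨c, -, hc⟩ := exists_algebraMap_of_pow_eq_one (C := ℂ) hn h2
    have h3 : W' = algebraMap ℂ _ c * W := by rw [hc, div_mul_cancel₀ _ hW]
    have h4 : ∀ m : ℤ, σ (W.coeff m) = c * W.coeff m := fun m => by
      have := congrArg (fun F : LaurentSeries ℂ => F.coeff m) h3
      simp only [coeff_const_mul] at this
      exact this
    have h5 : c = 1 := by
      obtain ⟨b, hb⟩ := hlead
      have h6 := h4 W.order
      rw [← HahnSeries.leadingCoeff_eq, ← hb, σ.commutes] at h6
      have h7 : algebraMap K ℂ b ≠ 0 := by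
        rw [hb]; exact HahnSeries.leadingCoeff_ne_zero.mpr hW
      exact (mul_right_cancel₀ h7 ((one_mul _).trans h6)).symm
    rw [h4, h5, one_mul]
  have hex : ∀ m : ℤ, ∃ b : K, algebraMap K ℂ b = W.coeff m := fun m =>
    mem_range_of_finiteIndex (⊤ : Subgroup (ℂ ≃ₐ[K] ℂ)) (fun σ _ => hσ σ m)
  choose b hb using hex
  refine ⟨⟨b, W.isPWO_support.mono fun m hm => ?_⟩, ?_, ?_⟩
  · intro h0
    apply hm
    apply (algebraMap K ℂ).injective
    rw [hb, map_zero]
    exact h0
  · ext m
    rw [incl_coeff]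
    exact hb m
  · apply incl_injective K
    rw [← h, map_pow]
    congr 1
    ext m
    rw [incl_coeff]
    exact hb m

end Root

section Good

variable {N : ℕ} [NeZero N]

theorem incl_complex (x : LaurentSeries ℂ) : incl ℂ x = x := by
  ext m
  rw [incl_coeff]
  rfl

/-- Holomorphic functions invariant under `Γ₀(N)` and meromorphic at the cusps are `Good`. -/
theorem exists_good {G : ℍ → ℂ} (hG : G ∈ Hol)
    (hinv : ∀ γ ∈ CongruenceSubgroup.Gamma0 N, compHom γ G = G)
    (hexp : ∀ γ : SL(2, ℤ), compHom γ G ∈ ExpAlg (chart_qParam N)) :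
    ∃ x : LaurentSeries ℂ, Good ℂ N x ∧ ev ℂ x = G := by
  have hT : ∀ τ : ℍ, G (T • τ) = G τ := fun τ => by
    have : (T : SL(2, ℤ)) ∈ CongruenceSubgroup.Gamma0 N := by
      rw [CongruenceSubgroup.Gamma0_mem]; simp [T]
    exact congrFun (hinv T this) τ
  have h1 : G ∈ ExpAlg (chart_qParam N) := by
    have := hexp 1
    have h2 : compHom 1 G = G := by ext τ; simp
    rwa [h2] at this
  obtain ⟨W, hW⟩ := exists_q_expansion N hT h1
  have hev : ev ℂ W = G := by
    ext τ
    rw [ev, incl_complex]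
    exact hW.2 τ (Function.Periodic.qParam_ne_zero _)
  exact ⟨W, ⟨by rw [incl_complex]; exact hW.1, by rw [hev]; exact hG,
    fun γ => by rw [hev]; exact hexp γ, fun γ hγ => by rw [hev]; exact hinv γ hγ⟩, hev⟩

variable (K : Type*) [Field K] [Algebra K ℂ] [IsAlgClosed K]

omit [NeZero N] in
theorem T_pow_mem_Gamma0 (γ : SL(2, ℤ)) : γ * T ^ N * γ⁻¹ ∈ CongruenceSubgroup.Gamma0 N := by
  have h0 : T ^ N ∈ CongruenceSubgroup.Gamma N := by
    rw [CongruenceSubgroup.Gamma_mem]
    have := ModularGroup.coe_T_zpow (N : ℤ)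
    rw [zpow_natCast] at this
    rw [this]
    simp
  have h1 : γ * T ^ N * γ⁻¹ ∈ CongruenceSubgroup.Gamma N :=
    (CongruenceSubgroup.Gamma_normal N).conj_mem _ h0 γ
  rw [CongruenceSubgroup.Gamma_mem] at h1
  rw [CongruenceSubgroup.Gamma0_mem]
  exact h1.2.2.1

/-- A holomorphic `Γ₀(N)`-invariant root of a good function is good. -/
theorem exists_good_of_pow {G : ℍ → ℂ} (hG : G ∈ Hol)
    (hinv : ∀ γ ∈ CongruenceSubgroup.Gamma0 N, compHom γ G = G) {n : ℕ} (hn : n ≠ 0)
    {x : LaurentSeries K} (hx : Good K N x) (h : G ^ n = ev K x) :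
    ∃ w : LaurentSeries K, Good K N w ∧ ev K w = G ∧ w ^ n = x := by
  have hexp : ∀ γ : SL(2, ℤ), compHom γ G ∈ ExpAlg (chart_qParam N) := by
    intro γ
    refine mem_ExpAlg_of_pow N (compHom_mem_Hol γ hG) (fun τ => ?_) hn ?_
    · have h2 := congrFun (hinv _ (T_pow_mem_Gamma0 (N := N) γ)) (γ • τ)
      simp only [compHom_apply] at h2 ⊢
      rw [← h2, ← mul_smul, ← mul_smul, inv_mul_cancel_right]
    · rw [← map_pow, h]
      exact hx.exp γ
  obtain ⟨W, hW, hWG⟩ := exists_good hG hinv hexp
  have hWn : W ^ n = incl K x := by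
    have hc : IsConv W := by have := hW.conv; rwa [incl_complex] at this
    refine eq_of_evalAt_qParam_eq 1 (isConv_pow hc n) hx.conv fun τ => ?_
    rw [Nat.cast_one, evalAt_pow hc n (Function.Periodic.qParam_ne_zero _) (norm_qParam_one τ)]
    have h1 : evalAt (𝕢 (1 : ℝ) τ) W = G τ := by
      have := congrFun hWG τ
      rwa [ev, incl_complex] at this
    rw [h1]
    have h2 := congrFun h τ
    simpa [ev] using h2
  obtain ⟨w, hw, hwn⟩ := mem_range_incl_of_pow_eq K hn hWn
  have hev : ev K w = G := by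
    rw [← hWG]
    ext τ
    rw [ev, ev, hw, incl_complex]
  refine ⟨w, ⟨?_, ?_, ?_, ?_⟩, hev, hwn⟩
  · rw [hw]; have := hW.conv; rwa [incl_complex] at this
  · rw [hev]; exact hG
  · intro γ; rw [hev]; exact hexp γ
  · intro γ hγ; rw [hev]; exact hinv γ hγ

end Good

end Fermat.Agent.H90

end
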