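import Mathlib
import Fermat.Agent.H24Rel
import Fermat.Agent.H24Degree
import Fermat.Agent.H90Field
import Fermat.Agent.H90Good
import Fermat.Agent.H45P1Genus

/-!
# Good series lie in the function field of `X₀(N)` (BRIDGE, helper90)
-/

set_option autoImplicit false

noncomputable section

namespace Fermat.Agent.H90

open UpperHalfPlane hiding I
open Complex MatrixGroups ModularGroup ModularCurve Fermat.Agent.H24 Fermat.Agent.H61 Filter Polynomial
open scoped Manifold Real Topology

local notation "𝕢" => Function.Periodic.qParam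

section Rel

variable {K : Type*} [Field K] [Algebra K ℂ] {N : ℕ} [NeZero N]

/-- conjugate of the function attached to `x` by a coset -/
def gconj (x : LaurentSeries K) (g : SL(2, ℤ) ⧸ CongruenceSubgroup.Gamma0 N) : ℍ → ℂ :=
  compHom (Quotient.out g)⁻¹ (ev K x)

theorem gcompHom_eq_of_mem {x : LaurentSeries K} (hx : Good K N x) {γ γ' : SL(2, ℤ)}
    (h : γ' * γ⁻¹ ∈ CongruenceSubgroup.Gamma0 N) :
    compHom γ (ev K x) = compHom γ' (ev K x) := by
  ext τ
  have := congrFun (hx.inv _ h) (γ • τ)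
  simp only [compHom_apply] at this ⊢
  rw [← this, ← mul_smul, inv_mul_cancel_right]

theorem gconj_mk {x : LaurentSeries K} (hx : Good K N x) (γ : SL(2, ℤ)) :
    gconj x (QuotientGroup.mk γ : SL(2, ℤ) ⧸ CongruenceSubgroup.Gamma0 N) =
      compHom γ⁻¹ (ev K x) := by
  apply gcompHom_eq_of_mem hx
  rw [inv_inv]
  have : (QuotientGroup.mk (Quotient.out (QuotientGroup.mk γ : SL(2, ℤ) ⧸ CongruenceSubgroup.Gamma0 N)) :
    SL(2, ℤ) ⧸ CongruenceSubgroup.Gamma0 N) = QuotientGroup.mk γ := Quotient.out_eq _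
  exact QuotientGroup.eq.mp this.symm

theorem gcompHom_conj {x : LaurentSeries K} (hx : Good K N x) (γ : SL(2, ℤ))
    (g : SL(2, ℤ) ⧸ CongruenceSubgroup.Gamma0 N) :
    compHom γ (gconj x g) = gconj x (γ⁻¹ • g) := by
  induction g using QuotientGroup.induction_on with
  | H γ' =>
    rw [gconj_mk hx, compHom_mul]
    have : γ⁻¹ • (QuotientGroup.mk γ' : SL(2, ℤ) ⧸ CongruenceSubgroup.Gamma0 N) =
      QuotientGroup.mk (γ⁻¹ * γ') := rfl
    rw [this, gconj_mk hx, mul_inv_rev, inv_inv]

variable [Fintype (SL(2, ℤ) ⧸ CongruenceSubgroup.Gamma0 N)]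

variable (N) in
/-- the characteristic polynomial -/
def gcharP (x : LaurentSeries K) : Polynomial (ℍ → ℂ) :=
  ∏ g : SL(2, ℤ) ⧸ CongruenceSubgroup.Gamma0 N, (X - C (gconj x g))

omit [NeZero N] in
theorem gcharP_monic (x : LaurentSeries K) : (gcharP N x).Monic :=
  monic_prod_of_monic _ _ fun _ _ => monic_X_sub_C _

omit [NeZero N] in
theorem gcharP_natDegree (x : LaurentSeries K) :
    (gcharP N x).natDegree = Fintype.card (SL(2, ℤ) ⧸ CongruenceSubgroup.Gamma0 N) := by
  rw [gcharP, natDegree_prod_of_monic _ _ fun _ _ => monic_X_sub_C _]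
  simp

theorem gcharP_eval {x : LaurentSeries K} (hx : Good K N x) : (gcharP N x).eval (ev K x) = 0 := by
  rw [gcharP, eval_prod]
  refine Finset.prod_eq_zero (Finset.mem_univ (QuotientGroup.mk 1)) ?_
  rw [gconj_mk hx, inv_one]
  simp only [eval_sub, eval_X, eval_C]
  ext τ
  simp

theorem gcharP_map {x : LaurentSeries K} (hx : Good K N x) (γ : SL(2, ℤ)) :
    (gcharP N x).map (compHom γ : (ℍ → ℂ) →+* (ℍ → ℂ)) = gcharP N x := by
  rw [gcharP, Polynomial.map_prod]
  refine Fintype.prod_equiv (MulAction.toPerm γ⁻¹) _ _ fun g => ?_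
  rw [Polynomial.map_sub, Polynomial.map_X, Polynomial.map_C]
  congr 2
  exact gcompHom_conj hx γ g

theorem gcharP_coeff_inv {x : LaurentSeries K} (hx : Good K N x) (n : ℕ) (γ : SL(2, ℤ)) (τ : ℍ) :
    (gcharP N x).coeff n (γ • τ) = (gcharP N x).coeff n τ := by
  have := congrArg (fun p => p.coeff n) (gcharP_map hx γ)
  simp only [coeff_map] at this
  exact congrFun this τ

theorem gcharP_coeff_mem {x : LaurentSeries K} (hx : Good K N x) (n : ℕ) :
    (gcharP N x).coeff n ∈ Hol ⊓ ExpAlg (chart_qParam N) := by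
  refine coeff_prod_mem _ _ _ (fun g _ => ?_) n
  exact ⟨compHom_mem_Hol _ hx.hol, hx.exp _⟩

theorem gcharP_coeff_eq {x : LaurentSeries K} (hx : Good K N x) (n : ℕ) :
    ∃ p : Polynomial ℂ, ∀ τ, (gcharP N x).coeff n τ = p.eval (jInv τ) := by
  obtain ⟨h1, F, hF⟩ := gcharP_coeff_mem hx n
  exact exists_poly_of_invariant isConv_jqModC order_jqModC evalAt_jqModC N h1
    (gcharP_coeff_inv hx n) hF.1 fun τ => hF.2 τ (Function.Periodic.qParam_ne_zero _)

/-- relation over `ℂ[j]` -/
theorem gexists_relation_complex {x : LaurentSeries K} (hx : Good K N x) :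
    ∃ p : ℕ → Polynomial ℂ,
      (incl K x) ^ (Fintype.card (SL(2, ℤ) ⧸ CongruenceSubgroup.Gamma0 N)) +
        ∑ i ∈ Finset.range (Fintype.card (SL(2, ℤ) ⧸ CongruenceSubgroup.Gamma0 N)),
          aeval (jqModC ℂ) (p i) * (incl K x) ^ i = 0 := by
  choose p hp using gcharP_coeff_eq hx
  refine ⟨p, ?_⟩
  set n := Fintype.card (SL(2, ℤ) ⧸ CongruenceSubgroup.Gamma0 N) with hn
  have hxc := hx.conv
  have hconvP : ∀ q : Polynomial ℂ, IsConv (aeval (jqModC ℂ) q) := fun q => by
    have : aeval (jqModC ℂ) q ∈ Algebra.adjoin ℂ {jqModC ℂ} := aeval_mem_adjoin_singleton ℂ _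
    have h2 : Algebra.adjoin ℂ {jqModC ℂ} ≤ Conv := Algebra.adjoin_le (by
      rintro _ rfl; exact isConv_jqModC)
    exact h2 this
  have hevalP : ∀ (q : Polynomial ℂ) (τ : ℍ), evalAt (𝕢 (1 : ℝ) τ) (aeval (jqModC ℂ) q) =
      q.eval (jInv τ) := fun q τ => by
    have h := Polynomial.aeval_algHom_apply
      (evalHom (𝕢 (1 : ℝ) τ) (Function.Periodic.qParam_ne_zero _) (norm_qParam_one τ))
      ⟨jqModC ℂ, isConv_jqModC⟩ q
    rw [evalHom_apply, evalAt_jqModC] at h
    rw [← Polynomial.coe_aeval_eq_eval, h, evalHom_apply]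
    congr 1
    have h3 := Polynomial.aeval_algHom_apply Conv.val ⟨jqModC ℂ, isConv_jqModC⟩ q
    exact h3
  have hsum : ∀ m : ℕ, IsConv (∑ i ∈ Finset.range m, aeval (jqModC ℂ) (p i) * (incl K x) ^ i) ∧
      ∀ τ : ℍ, evalAt (𝕢 (1 : ℝ) τ)
        (∑ i ∈ Finset.range m, aeval (jqModC ℂ) (p i) * (incl K x) ^ i) =
        ∑ i ∈ Finset.range m, (p i).eval (jInv τ) * (ev K x τ) ^ i := by
    intro m
    induction m with
    | zero =>
      refine ⟨by simpa using isConv_single 0 0, fun τ => by simp [evalAt]⟩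
    | succ m ih =>
      have hterm : IsConv (aeval (jqModC ℂ) (p m) * (incl K x) ^ m) :=
        (hconvP _).mul (isConv_pow hxc m)
      refine ⟨?_, fun τ => ?_⟩
      · rw [Finset.sum_range_succ]
        exact ih.1.add hterm
      · rw [Finset.sum_range_succ, Finset.sum_range_succ,
          evalAt_add ih.1 hterm (Function.Periodic.qParam_ne_zero _) (norm_qParam_one τ), ih.2,
          evalAt_mul (hconvP _) (isConv_pow hxc m) (Function.Periodic.qParam_ne_zero _)
            (norm_qParam_one τ), hevalP,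
          evalAt_pow hxc m (Function.Periodic.qParam_ne_zero _) (norm_qParam_one τ)]
        rfl
  have hzero : IsConv (0 : LaurentSeries ℂ) := by simpa using isConv_single 0 0
  refine eq_of_evalAt_qParam_eq 1 ((isConv_pow hxc n).add (hsum n).1) hzero fun τ => ?_
  rw [Nat.cast_one, evalAt_add (isConv_pow hxc n) (hsum n).1 (Function.Periodic.qParam_ne_zero _)
    (norm_qParam_one τ), (hsum n).2,
    evalAt_pow hxc n (Function.Periodic.qParam_ne_zero _) (norm_qParam_one τ)]
  have h0 := gcharP_eval hx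
  rw [(gcharP_monic (N := N) x).as_sum, gcharP_natDegree, ← hn] at h0
  have h1 := congrFun h0 τ
  simp only [eval_add, eval_pow, eval_X, eval_finsetSum, eval_mul, eval_C, Pi.add_apply,
    Pi.pow_apply, Finset.sum_apply, Pi.mul_apply, Pi.zero_apply, hp] at h1
  simp only [evalAt, HahnSeries.coeff_zero, zero_mul, tsum_zero]
  exact h1

/-- relation over `K[j]` -/
theorem gexists_relation {x : LaurentSeries K} (hx : Good K N x) :
    ∃ p : ℕ → Polynomial K,
      x ^ (Fintype.card (SL(2, ℤ) ⧸ CongruenceSubgroup.Gamma0 N)) +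
        ∑ i ∈ Finset.range (Fintype.card (SL(2, ℤ) ⧸ CongruenceSubgroup.Gamma0 N)),
          aeval (jqModC K) (p i) * x ^ i = 0 := by
  obtain ⟨ρ, hρ⟩ := LinearMap.exists_leftInverse_of_injective (Algebra.linearMap K ℂ)
    (LinearMap.ker_eq_bot.mpr (algebraMap K ℂ).injective)
  have hρ1 : ∀ a : K, ρ (algebraMap K ℂ a) = a := fun a => LinearMap.congr_fun hρ a
  have hρ2 : ∀ (c : ℂ) (a : K), ρ (c * algebraMap K ℂ a) = ρ c * a := fun c a => by
    rw [mul_comm c, ← Algebra.smul_def, map_smul, smul_eq_mul, mul_comm]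
  obtain ⟨p, hp⟩ := gexists_relation_complex hx
  set n := Fintype.card (SL(2, ℤ) ⧸ CongruenceSubgroup.Gamma0 N) with hn
  refine ⟨fun i => ∑ m ∈ Finset.range ((p i).natDegree + 1), C (ρ ((p i).coeff m)) * X ^ m, ?_⟩
  have hJ : incl K (jqModC K) = jqModC ℂ := by
    rw [incl, coeffMap_jqModC]
  have hterm : ∀ i, aeval (jqModC ℂ) (p i) * (incl K x) ^ i =
      ∑ m ∈ Finset.range ((p i).natDegree + 1),
        algebraMap ℂ (LaurentSeries ℂ) ((p i).coeff m) *
          incl K (jqModC K ^ m * x ^ i) := fun i => by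
    rw [aeval_eq_sum_range, Finset.sum_mul]
    refine Finset.sum_congr rfl fun m _ => ?_
    rw [map_mul, map_pow, map_pow, hJ, Algebra.smul_def, mul_assoc]
  have hterm2 : ∀ i, aeval (jqModC K)
      (∑ m ∈ Finset.range ((p i).natDegree + 1), C (ρ ((p i).coeff m)) * X ^ m) *
        x ^ i =
      ∑ m ∈ Finset.range ((p i).natDegree + 1),
        algebraMap K (LaurentSeries K) (ρ ((p i).coeff m)) *
          (jqModC K ^ m * x ^ i) := fun i => by
    rw [map_sum, Finset.sum_mul]
    refine Finset.sum_congr rfl fun m _ => ?_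
    rw [map_mul, aeval_C, map_pow, aeval_X, mul_assoc]
  have hp' : incl K (x ^ n) + ∑ i ∈ Finset.range n,
      ∑ m ∈ Finset.range ((p i).natDegree + 1),
        algebraMap ℂ (LaurentSeries ℂ) ((p i).coeff m) *
          incl K (jqModC K ^ m * x ^ i) = 0 := by
    rw [← hp, map_pow]
    congr 1
    exact Finset.sum_congr rfl fun i _ => (hterm i).symm
  ext ℓ
  have h := congrArg (fun F : LaurentSeries ℂ => ρ (F.coeff ℓ)) hp'
  simp only [hterm2]
  simp only [HahnSeries.coeff_add, HahnSeries.coeff_sum, coeff_const_mul, incl_coeff, map_add,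
    map_sum, hρ1, hρ2, HahnSeries.coeff_zero, map_zero] at h ⊢
  exact h

end Rel

section Field

open IntermediateField

variable {K E : Type*} [Field K] [Field E] [Algebra K E]

theorem relfinrank_adjoin_eq {B : IntermediateField K E} (x : E) (hx : x ∈ B) :
    relfinrank K⟮x⟯ B = Module.finrank K⟮(⟨x, hx⟩ : B)⟯ B := by
  have h1 : relfinrank (K⟮(⟨x, hx⟩ : B)⟯.map B.val) ((⊤ : IntermediateField K B).map B.val) =
      relfinrank K⟮(⟨x, hx⟩ : B)⟯ ⊤ := relfinrank_map_map _ _ _
  rw [relfinrank_top_right] at h1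
  rw [← h1]
  congr 1
  · rw [adjoin_map, Set.image_singleton]; rfl
  · rw [← AlgHom.fieldRange_eq_map, fieldRange_val]

end Field

theorem exists_monic_of_relation {E F : Type*} [Field E] [Field F] [Algebra E F] {y : F} {n : ℕ}
    (a : ℕ → E) (h : y ^ n + ∑ i ∈ Finset.range n, algebraMap E F (a i) * y ^ i = 0) :
    ∃ q : Polynomial E, q.Monic ∧ q.natDegree = n ∧ aeval y q = 0 := by
  have hr : (∑ i ∈ Finset.range n, C (a i) * X ^ i : Polynomial E).degree < n := by
    rw [Finset.sum_range]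
    exact degree_sum_fin_lt _
  refine ⟨X ^ n + ∑ i ∈ Finset.range n, C (a i) * X ^ i, monic_X_pow_add hr, ?_, ?_⟩
  · apply natDegree_eq_of_degree_eq_some
    rw [degree_add_eq_left_of_degree_lt (by rwa [degree_X_pow]), degree_X_pow]
  · rw [← h]
    simp only [map_add, map_pow, aeval_X, map_sum, map_mul, aeval_C]

theorem finrank_le_of_bound {K F : Type*} [Field K] [CharZero K] [Field F] [Algebra K F]
    (E : IntermediateField K F) [FiniteDimensional E F]
    (A : Subalgebra K F) (hA : ∀ z : F, ∃ a ∈ A, ∃ b ∈ A, z = a / b) (n : ℕ)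
    (hdeg : ∀ a ∈ A, ∃ c : ℕ → E, a ^ n + ∑ i ∈ Finset.range n, algebraMap E F (c i) * a ^ i = 0) :
    Module.finrank E F ≤ n := by
  have : CharZero E := charZero_of_injective_algebraMap (algebraMap K E).injective
  refine finrank_le_of_degree_bound E A hA n fun a ha => ?_
  obtain ⟨c, hc⟩ := hdeg a ha
  exact exists_monic_of_relation c hc

section Mem

open IntermediateField

variable {K : Type*} [Field K] [Algebra K ℂ] [IsAlgClosed K] {N : ℕ} [NeZero N]

/-- **Good series are modular functions.** -/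
theorem mem_full_of_good {x : LaurentSeries K} (hx : Good K N x) :
    x ∈ modularFunctionFieldFullC K N := by
  classical
  have : CharZero K := (algebraMap K ℂ).charZero
  have : Finite (SL(2, ℤ) ⧸ CongruenceSubgroup.Gamma0 N) := inferInstance
  let _ : Fintype (SL(2, ℤ) ⧸ CongruenceSubgroup.Gamma0 N) := Fintype.ofFinite _
  have hcard : Fintype.card (SL(2, ℤ) ⧸ CongruenceSubgroup.Gamma0 N) = dedekindPsi N := by
    rw [← Nat.card_eq_fintype_card]
    exact Fermat.Agent.H45.natCard_P1 N
  set F := modularFunctionFieldFullC K N with hF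
  set S : Set (LaurentSeries K) := divisorExpansionsC K N ∪ {x} with hS
  set B := IntermediateField.adjoin K S with hB
  have hFB : F ≤ B := IntermediateField.adjoin.mono _ _ _ Set.subset_union_left
  have hjF : jqModC K ∈ F := jqModC_mem_full K N
  have hjB : jqModC K ∈ B := hFB hjF
  have hkF : K⟮jqModC K⟯ ≤ F := by
    rw [adjoin_le_iff, Set.singleton_subset_iff]; exact hjF
  have hdeg : relfinrank K⟮jqModC K⟯ F = dedekindPsi N := degreeFact K N
  have hpos := H67.dedekindPsi_pos N
  have hmul := relfinrank_mul_relfinrank hkF hFB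
  -- `x` is integral over `K⟮j⟯`
  obtain ⟨p, hp⟩ := gexists_relation hx
  set n := Fintype.card (SL(2, ℤ) ⧸ CongruenceSubgroup.Gamma0 N) with hn
  -- relations for all good elements, with coefficients in `B`
  have hrel : ∀ y : B, Good K N (y : LaurentSeries K) →
      ∃ c : ℕ → K⟮(⟨jqModC K, hjB⟩ : B)⟯,
        y ^ n + ∑ i ∈ Finset.range n, algebraMap _ B (c i) * y ^ i = 0 := by
    intro y hy
    obtain ⟨p, hp⟩ := gexists_relation hy
    rw [← hn] at hp
    refine ⟨fun i => ⟨aeval (⟨jqModC K, hjB⟩ : B) (p i),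
      (algebra_adjoin_le_adjoin K _) (aeval_mem_adjoin_singleton K _)⟩, ?_⟩
    apply Subtype.ext
    push_cast
    rw [← hp]
    congr 1
    refine Finset.sum_congr rfl fun i _ => ?_
    congr 1
    exact (aeval_algHom_apply B.val (⟨jqModC K, hjB⟩ : B) (p i)).symm
  have hxB : x ∈ B := IntermediateField.subset_adjoin _ _ (Or.inr rfl)
  have hintF : IsIntegral F x := by
    have hmemp : ∀ i, aeval (jqModC K) (p i) ∈ F := fun i => by
      have h1 : aeval (jqModC K) (p i) ∈ Algebra.adjoin K {jqModC K} :=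
        aeval_mem_adjoin_singleton K _
      have h2 : Algebra.adjoin K {jqModC K} ≤ F.toSubalgebra := by
        rw [Algebra.adjoin_le_iff, Set.singleton_subset_iff]
        exact hjF
      exact h2 h1
    obtain ⟨q, hq, -, hq0⟩ := exists_monic_of_relation (E := F) (y := x) (n := n)
      (fun i => ⟨_, hmemp i⟩) hp
    exact ⟨q, hq, hq0⟩
  have hBfin : relfinrank F B ≠ 0 := by
    have hB' : B = (F⟮x⟯).restrictScalars K := (adjoin_adjoin_left K _ _).symm
    have h2 : extendScalars hFB = F⟮x⟯ := by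
      ext y
      rw [mem_extendScalars]
      have := congrArg (fun T : IntermediateField K (LaurentSeries K) => y ∈ T) hB'
      simp only [mem_restrictScalars] at this
      exact this.to_iff
    rw [relfinrank_eq_finrank_of_le hFB, h2]
    have := adjoin.finiteDimensional hintF
    exact (Module.finrank_pos).ne'
  have hBne : relfinrank K⟮jqModC K⟯ B ≠ 0 := by
    rw [← hmul, hdeg]
    exact mul_ne_zero hpos.ne' hBfin
  have : FiniteDimensional K⟮(⟨jqModC K, hjB⟩ : B)⟯ B :=
    H67.finiteDimensional_adjoin_of_relfinrank _ hjB hBne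
  have hle : Module.finrank K⟮(⟨jqModC K, hjB⟩ : B)⟯ B ≤ n := by
    refine finrank_le_of_bound _ ((GoodAlg K N).comap B.val) (fun z => ?_) n
      (fun a ha => hrel a ha)
    obtain ⟨r, hr, s, hs, hz⟩ := (IntermediateField.mem_adjoin_iff_div).mp z.2
    have hAle : Algebra.adjoin K S ≤ GoodAlg K N := by
      rw [Algebra.adjoin_le_iff]
      rintro y (hy | hy)
      · exact A_le_GoodAlg K N (Algebra.subset_adjoin hy)
      · rw [Set.mem_singleton_iff.mp hy]; exact hx
    refine ⟨⟨r, algebra_adjoin_le_adjoin K _ hr⟩, hAle hr, ⟨s, algebra_adjoin_le_adjoin K _ hs⟩,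
      hAle hs, Subtype.ext hz⟩
  rw [← relfinrank_adjoin_eq, ← hmul, hdeg, hcard] at hle
  have h1 : relfinrank F B = 1 := by
    have := Nat.le_of_mul_le_mul_left (hle.trans (mul_one _).ge) hpos
    omega
  rw [relfinrank_eq_one_iff] at h1
  exact h1 hxB

end Mem

end Fermat.Agent.H90

end
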