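import Mathlib
import Fermat.Prelude.Def_AlgebraicCurve_Repartitions
import Fermat.Prelude.Def_AlgebraicCurve_BaseChangeGalois
import Fermat.Agent.H94Places

/-!
# Galois-invariant representatives of torsion classes (helper90)
-/

set_option autoImplicit false

noncomputable section

open AlgebraicCurve WithZero

namespace Fermat.Agent.H90

variable {K F : Type*} [Field K] [Field F] [Algebra K F]

/-- The place `P` is rational: every element of the valuation ring is congruent to a constant. -/
def IsRational (P : Place K F) : Prop :=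
  ∀ f ∈ P.toValuationSubring, ∃ a : K, f - algebraMap K F a = 0 ∨
    0 < P.ord (f - algebraMap K F a)

theorem degree_nonneg_of_nonneg {D : Divisor K F} (h : ∀ v, 0 ≤ D v) :
    0 ≤ Divisor.degree D := by
  have : Divisor.degree D = D.sum fun v n => n * (v.deg : ℤ) := by
    simp [Divisor.degree, Finsupp.sum]
  rw [this]
  exact Finsupp.sum_nonneg fun v _ => mul_nonneg (h v) (Int.natCast_nonneg _)

theorem degree_pos_of_nonneg {D : Divisor K F} (h : ∀ v, 0 ≤ D v) {P : Place K F}
    (hP : 0 < P.deg) (hDP : 0 < D P) : 0 < Divisor.degree D := by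
  have h1 : D = Finsupp.single P 1 + (D - Finsupp.single P 1) := by abel
  have h2 : 0 ≤ Divisor.degree (D - Finsupp.single P 1) := by
    refine degree_nonneg_of_nonneg fun v => ?_
    rw [Finsupp.sub_apply]
    rcases eq_or_ne P v with rfl | hv
    · rw [Finsupp.single_eq_same]; omega
    · rw [Finsupp.single_eq_of_ne hv.symm]
      have := h v; omega
  rw [h1, map_add, Divisor.degree_single]
  have : (0 : ℤ) < (P.deg : ℤ) := by exact_mod_cast hP
  omega

/-- A nonzero function without zeros and poles is constant. -/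
theorem exists_const_of_ord_eq_zero [HasPrincipalDivisors K F] {P : Place K F}
    (hrat : IsRational P) (hP : 0 < P.deg) {f : F} (hf : ∀ v : Place K F, v.ord f = 0) :
    ∃ a : K, f = algebraMap K F a := by
  obtain ⟨a, ha⟩ := hrat f (H94.mem_of_ord_nonneg P (hf P).ge)
  rcases ha with ha | ha
  · exact ⟨a, sub_eq_zero.mp ha⟩
  exfalso
  have hne : f - algebraMap K F a ≠ 0 := by
    intro h; rw [h, Place.ord_zero] at ha; exact lt_irrefl _ ha
  obtain ⟨D, hD, hdeg⟩ := HasPrincipalDivisors.exists_divisor (K := K) _ hne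
  have h1 : ∀ v, 0 ≤ D v := by
    intro v
    rw [hD v]
    exact H94.ord_nonneg_of_mem v (sub_mem (H94.mem_of_ord_nonneg v (hf v).ge)
      (v.algebraMap_mem' a))
  have h2 := degree_pos_of_nonneg h1 hP (by rw [hD P]; exact ha)
  omega

theorem ord_smul_ge {v : Place K F} {f : F} {n : ℤ} (a : K) (h : f = 0 ∨ n ≤ v.ord f) :
    algebraMap K F a * f = 0 ∨ n ≤ v.ord (algebraMap K F a * f) := by
  rcases eq_or_ne a 0 with rfl | ha
  · left; simp
  rcases h with rfl | h
  · left; simp
  rcases eq_or_ne f 0 with rfl | hf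
  · left; simp
  right
  have ha' : algebraMap K F a ≠ 0 := by rw [ne_eq, map_eq_zero]; exact ha
  have h1 : v.ord (algebraMap K F a) = 0 := by
    have h1 := H94.ord_nonneg_of_mem v (v.algebraMap_mem' a)
    have h2 := H94.ord_nonneg_of_mem v (v.algebraMap_mem' a⁻¹)
    rw [map_inv₀, v.ord_inv] at h2
    omega
  rw [v.ord_mul ha' hf, h1, zero_add]
  exact h

/-- **Normalised section.** If `L(D + mP) ≠ 0` for some `m` and `deg D = 0` then for the minimal
such `m` the space `L(D + mP)` is one-dimensional. -/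
theorem exists_unique_section [HasPrincipalDivisors K F] {P : Place K F}
    (hrat : IsRational P) (hP : 0 < P.deg) {D : Divisor K F} (hD : Divisor.degree D = 0)
    (hL : ∃ m : ℕ, riemannRochSpace (D + Finsupp.single P (m : ℤ)) ≠ ⊥) :
    ∃ (m : ℤ) (f : F), f ≠ 0 ∧ f ∈ riemannRochSpace (D + Finsupp.single P m) ∧
      ∀ g ∈ riemannRochSpace (D + Finsupp.single P m), ∃ c : K, g = algebraMap K F c * f := by
  classical
  let m := Nat.find hL
  have hm := Nat.find_spec hL
  have hm1 : riemannRochSpace (D + Finsupp.single P ((m : ℤ) - 1)) = ⊥ := by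
    rcases Nat.eq_zero_or_pos m with h0 | h0
    · rw [h0, eq_bot_iff]
      intro g hg
      rw [Submodule.mem_bot]
      by_contra hg0
      obtain ⟨E, hE, hdeg⟩ := HasPrincipalDivisors.exists_divisor (K := K) _ hg0
      have h1 : ∀ v, 0 ≤ (E + (D + Finsupp.single P (-1 : ℤ))) v := by
        intro v
        rw [mem_riemannRochSpace_iff] at hg
        have h2 := (hg v).resolve_left hg0
        simp only [Nat.cast_zero, zero_sub] at h2
        rw [Finsupp.add_apply, hE v]
        omega
      have h2 := degree_nonneg_of_nonneg h1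
      rw [map_add, map_add, hdeg, hD, Divisor.degree_single] at h2
      have : (0 : ℤ) < (P.deg : ℤ) := by exact_mod_cast hP
      omega
    · have h1 := Nat.find_min hL (m := m - 1) (Nat.sub_lt h0 one_pos)
      rw [not_not] at h1
      rw [← h1]
      congr 3
      omega
  obtain ⟨f, hf, hf0⟩ := Submodule.exists_mem_ne_zero_of_ne_bot hm
  -- order at `P`
  have hord : ∀ g : F, g ≠ 0 → g ∈ riemannRochSpace (D + Finsupp.single P (m : ℤ)) →
      P.ord g = -(D P + m) := by
    intro g hg0 hg
    have hg' := hg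
    rw [mem_riemannRochSpace_iff] at hg
    have h1 : g ∉ riemannRochSpace (D + Finsupp.single P ((m : ℤ) - 1)) := by
      rw [hm1]; exact hg0
    rw [mem_riemannRochSpace_iff] at h1
    push Not at h1
    obtain ⟨v, -, hv⟩ := h1
    have h2 := (hg v).resolve_left hg0
    rcases eq_or_ne P v with rfl | hPv
    · rw [Finsupp.add_apply, Finsupp.single_eq_same] at hv h2
      omega
    · rw [Finsupp.add_apply, Finsupp.single_eq_of_ne hPv.symm] at hv h2
      omega
  refine ⟨m, f, hf0, hf, fun g hg => ?_⟩
  rcases eq_or_ne g 0 with rfl | hg0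
  · exact ⟨0, by simp⟩
  have hgf : P.ord (g / f) = 0 := by
    rw [div_eq_mul_inv, P.ord_mul hg0 (inv_ne_zero hf0), P.ord_inv, hord g hg0 hg,
      hord f hf0 hf]
    ring
  obtain ⟨a, ha⟩ := hrat (g / f) (H94.mem_of_ord_nonneg P hgf.ge)
  refine ⟨a, ?_⟩
  by_contra hne
  have hne' : g - algebraMap K F a * f ≠ 0 := sub_ne_zero.mpr hne
  have hfac : g - algebraMap K F a * f = (g / f - algebraMap K F a) * f := by
    field_simp
  have hq0 : g / f - algebraMap K F a ≠ 0 := by
    intro h; rw [hfac, h, zero_mul] at hne'; exact hne' rfl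
  have ha' := ha.resolve_left hq0
  have hmem : g - algebraMap K F a * f ∈ riemannRochSpace (D + Finsupp.single P ((m : ℤ) - 1)) := by
    rw [mem_riemannRochSpace_iff]
    intro v
    right
    rcases eq_or_ne P v with rfl | hPv
    · rw [Finsupp.add_apply, Finsupp.single_eq_same, hfac, P.ord_mul hq0 hf0, hord f hf0 hf]
      omega
    · rw [Finsupp.add_apply, Finsupp.single_eq_of_ne hPv.symm]
      rw [mem_riemannRochSpace_iff] at hf hg
      have h1 := hf v
      have h2 := hg v
      rw [Finsupp.add_apply, Finsupp.single_eq_of_ne hPv.symm] at h1 h2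
      have h3 := ord_smul_ge (-a) h1
      have h4 := H94.ord_add_ge v h2 h3
      have h5 : g + algebraMap K F (-a) * f = g - algebraMap K F a * f := by
        rw [map_neg]; ring
      rw [h5] at h4
      exact h4.resolve_left hne'
  rw [hm1] at hmem
  exact hne' hmem

/-- **Invariance up to constants.** -/
theorem semilinear_invariant [HasPrincipalDivisors K F] {P : Place K F}
    (hrat : IsRational P) (hP : 0 < P.deg) {D : Divisor K F} {m : ℤ} {f : F} (hf0 : f ≠ 0)
    (hf : f ∈ riemannRochSpace (D + Finsupp.single P m))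
    (huniq : ∀ g ∈ riemannRochSpace (D + Finsupp.single P m), ∃ c : K, g = algebraMap K F c * f)
    {n : ℕ} {u : F} (hu0 : u ≠ 0) (hu : ∀ v : Place K F, v.ord u = n * D v)
    (s : SemilinearAut K F) (hsP : s • P = P) {g : F} (hg0 : g ≠ 0)
    (hsD : ∀ v : Place K F, (s • D) v = D v + v.ord g) :
    ∃ c : K, c ≠ 0 ∧ s • (u * f ^ n) = algebraMap K F c * (u * f ^ n) := by
  have hsm : ∀ (x : F), x ≠ 0 → s • x ≠ 0 := by
    intro x hx
    rw [SemilinearAut.smul_def, ne_eq, map_eq_zero_iff _ (RingEquiv.injective _)]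
    exact hx
  have hord : ∀ (v : Place K F) (x : F), v.ord (s • x) = (s⁻¹ • v).ord x := by
    intro v x
    have := SemilinearAut.ord_smul s (s⁻¹ • v) x
    rwa [smul_inv_smul] at this
  have hsP' : s⁻¹ • P = P := by
    rw [inv_smul_eq_iff, hsP]
  have hsDv : ∀ v, D (s⁻¹ • v) = D v + v.ord g := by
    intro v
    rw [← hsD v, SemilinearAut.divisor_smul_apply]
  -- the function `g * s f`
  have h1 : g * (s • f) ∈ riemannRochSpace (D + Finsupp.single P m) := by
    rw [mem_riemannRochSpace_iff] at hf ⊢
    intro v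
    right
    have h2 := (hf (s⁻¹ • v)).resolve_left hf0
    rw [v.ord_mul hg0 (hsm f hf0), hord]
    rw [Finsupp.add_apply, hsDv] at h2
    rw [Finsupp.add_apply]
    rcases eq_or_ne P v with rfl | hPv
    · rw [hsP', Finsupp.single_eq_same] at h2
      rw [hsP', Finsupp.single_eq_same]
      omega
    · have h3 : P ≠ s⁻¹ • v := by
        intro h
        apply hPv
        rw [eq_inv_smul_iff, hsP] at h
        exact h
      rw [Finsupp.single_eq_of_ne h3.symm] at h2
      rw [Finsupp.single_eq_of_ne hPv.symm]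
      omega
  obtain ⟨c, hc⟩ := huniq _ h1
  have hc0 : c ≠ 0 := by
    rintro rfl
    rw [map_zero, zero_mul] at hc
    exact mul_ne_zero hg0 (hsm f hf0) hc
  -- the function `s u / (u g ^ n)`
  have hgn : g ^ n ≠ 0 := pow_ne_zero _ hg0
  have h4 : ∀ v : Place K F, v.ord ((s • u) * (u * g ^ n)⁻¹) = 0 := by
    intro v
    rw [v.ord_mul (hsm u hu0) (inv_ne_zero (mul_ne_zero hu0 hgn)), v.ord_inv,
      v.ord_mul hu0 hgn, hord, hu, hu, hsDv, ← zpow_natCast, v.ord_zpow]
    ring
  obtain ⟨c', hc'⟩ := exists_const_of_ord_eq_zero hrat hP h4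
  have hc'0 : c' ≠ 0 := by
    rintro rfl
    rw [map_zero] at hc'
    exact mul_ne_zero (hsm u hu0) (inv_ne_zero (mul_ne_zero hu0 hgn)) hc'
  have h5 : s • u = algebraMap K F c' * (u * g ^ n) := by
    rw [← hc']
    field_simp
  have h6 : s • f = algebraMap K F c * f * g⁻¹ := by
    rw [← hc]
    field_simp
  refine ⟨c' * c ^ n, mul_ne_zero hc'0 (pow_ne_zero _ hc0), ?_⟩
  rw [smul_mul', smul_pow', h5, h6, map_mul, map_pow, mul_pow, mul_pow, inv_pow]
  field_simp

end Fermat.Agent.H90
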