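import Mathlib
import Fermat.Prelude.Def_AlgebraicCurve_Repartitions
import Fermat.Prelude.Def_ModularCurve_ArithmeticGalois
import Fermat.Agent.H94Places

/-!
# Places attached to discrete valuations and to Laurent embeddings (helper90)
-/

set_option autoImplicit false

noncomputable section

open AlgebraicCurve WithZero HahnSeries ModularCurve

namespace Fermat.Agent.H90

variable {K F : Type*} [Field K] [Field F] [Algebra K F]

/-- The place attached to a normalised `ℤᵐ⁰`-valued valuation. -/
def placeOfVal (w : Valuation F ℤᵐ⁰) (hK : ∀ a : K, w (algebraMap K F a) ≤ 1)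
    (ht : ∃ t : F, w t = exp (-1 : ℤ)) : Place K F where
  toValuationSubring := w.valuationSubring
  algebraMap_mem' a := by
    rw [Valuation.mem_valuationSubring_iff]
    exact hK a
  ne_top' h := by
    obtain ⟨t, ht⟩ := ht
    have h1 : t⁻¹ ∈ w.valuationSubring := by rw [h]; exact ValuationSubring.mem_top _
    rw [Valuation.mem_valuationSubring_iff, map_inv₀, ht, ← exp_neg, ← exp_zero,
      exp_le_exp] at h1
    omega
  isPrincipalIdealRing' := by
    have : Nontrivial (MonoidWithZeroHom.valueGroup (.ofClass w)) := by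
      obtain ⟨t, ht⟩ := ht
      have h0 : w t ≠ 0 := by rw [ht]; exact exp_ne_zero
      refine ⟨⟨⟨Units.mk0 (w t) h0, MonoidWithZeroHom.mem_valueGroup _ ⟨t, rfl⟩⟩, 1, ?_⟩⟩
      intro h
      have h1 : w t = 1 := by
        have h2 := congrArg (fun x => ((x : MonoidWithZeroHom.valueGroup (.ofClass w)).1 :
          (ℤᵐ⁰)ˣ).1) h
        exact h2
      rw [ht, ← exp_zero] at h1
      have := exp_injective h1
      omega
    infer_instance

@[simp] theorem placeOfVal_toValuationSubring (w : Valuation F ℤᵐ⁰)
    (hK : ∀ a : K, w (algebraMap K F a) ≤ 1) (ht : ∃ t : F, w t = exp (-1 : ℤ)) :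
    (placeOfVal w hK ht).toValuationSubring = w.valuationSubring := rfl

theorem placeOfVal_ord (w : Valuation F ℤᵐ⁰) (hK : ∀ a : K, w (algebraMap K F a) ≤ 1)
    (ht : ∃ t : F, w t = exp (-1 : ℤ)) (f : F) :
    (placeOfVal w hK ht).ord f = -(WithZero.log (w f)) :=
  H94.ord_eq_neg_log _ w rfl ht f

theorem valued_eq_exp_neg_order {x : LaurentSeries K} (hx : x ≠ 0) :
    (Valued.v x : ℤᵐ⁰) = exp (-x.order) := by
  refine le_antisymm ?_ ?_
  · rw [LaurentSeries.valuation_le_iff_coeff_lt_eq_zero]
    intro n hn
    exact HahnSeries.coeff_eq_zero_of_lt_order hn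
  · by_contra h
    rw [not_le] at h
    have h1 : (Valued.v x : ℤᵐ⁰) ≤ exp (-(x.order + 1)) := by
      have h0 : (Valued.v x : ℤᵐ⁰) ≠ 0 := by
        rw [ne_eq, Valuation.zero_iff]; exact hx
      rw [← exp_log h0] at h ⊢
      rw [exp_lt_exp] at h
      rw [exp_le_exp]
      omega
    rw [LaurentSeries.valuation_le_iff_coeff_lt_eq_zero] at h1
    exact HahnSeries.coeff_order_eq_zero.not.mpr hx (h1 x.order (by omega))

/-- The place attached to an embedding into a field of Laurent series hitting an element of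
order one. -/
def laurentPlace (φ : F →+* LaurentSeries K)
    (hφ : ∀ a : K, φ (algebraMap K F a) = algebraMap K (LaurentSeries K) a)
    (ht : ∃ t : F, (φ t).order = 1) : Place K F :=
  placeOfVal ((Valued.v : Valuation (LaurentSeries K) ℤᵐ⁰).comap φ)
    (fun a => by
      rw [Valuation.comap_apply, hφ]
      rcases eq_or_ne a 0 with rfl | ha
      · simp
      · have h0 : algebraMap K (LaurentSeries K) a ≠ 0 := by
          rw [ne_eq, map_eq_zero]; exact ha
        rw [valued_eq_exp_neg_order h0, algebraMap_laurentSeries_eq_single,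
          HahnSeries.order_single ha]
        simp)
    (by
      obtain ⟨t, ht⟩ := ht
      refine ⟨t, ?_⟩
      have h0 : φ t ≠ 0 := by
        intro h; rw [h, HahnSeries.order_zero] at ht; omega
      rw [Valuation.comap_apply, valued_eq_exp_neg_order h0, ht])

theorem laurentPlace_ord (φ : F →+* LaurentSeries K)
    (hφ : ∀ a : K, φ (algebraMap K F a) = algebraMap K (LaurentSeries K) a)
    (ht : ∃ t : F, (φ t).order = 1) (f : F) :
    (laurentPlace φ hφ ht).ord f = (φ f).order := by
  rw [laurentPlace, placeOfVal_ord, Valuation.comap_apply]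
  rcases eq_or_ne f 0 with rfl | hf
  · simp
  · have h0 : φ f ≠ 0 := by rw [ne_eq, map_eq_zero]; exact hf
    rw [valued_eq_exp_neg_order h0, log_exp, neg_neg]

theorem mem_laurentPlace_iff (φ : F →+* LaurentSeries K)
    (hφ : ∀ a : K, φ (algebraMap K F a) = algebraMap K (LaurentSeries K) a)
    (ht : ∃ t : F, (φ t).order = 1) (f : F) :
    f ∈ (laurentPlace φ hφ ht).toValuationSubring ↔ 0 ≤ (φ f).order := by
  rw [← laurentPlace_ord φ hφ ht]
  exact ⟨H94.ord_nonneg_of_mem _, H94.mem_of_ord_nonneg _⟩

end Fermat.Agent.H90
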