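import Mathlib
import Fermat.Prelude.Def_ModularCurve_ArithmeticGalois
import Fermat.Agent.H90DescentLin
import Fermat.Agent.H90DescentCore
import Fermat.Agent.H90Place
import Fermat.Agent.H3RR_Genus
import Fermat.Agent.H94FunField

/-!
# Descent of Kummer classes to an algebraically closed subfield (helper90)
-/

set_option autoImplicit false

noncomputable section

open AlgebraicCurve HahnSeries ModularCurve IntermediateField

namespace Fermat.Agent.H90

section Incl

variable {L0 L1 : Type*} [Field L0] [Field L1] [Algebra L0 L1] [Algebra ℚ L0] [Algebra ℚ L1]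
variable (F₀ : IntermediateField ℚ (LaurentSeries ℚ))

theorem coeffMap_coeffEmb' (x : LaurentSeries ℚ) :
    coeffMap (algebraMap L0 L1) (coeffEmb L0 x) = coeffEmb L1 x := by
  ext n
  rw [coeffMap_coeff, coeffEmb_coeff, coeffEmb_coeff, eq_ratCast, eq_ratCast, map_ratCast]

theorem coeffMap_algebraMap' (a : L0) :
    coeffMap (algebraMap L0 L1) (algebraMap L0 (LaurentSeries L0) a) =
      algebraMap L1 (LaurentSeries L1) (algebraMap L0 L1 a) := by
  rw [algebraMap_laurentSeries_eq_single, algebraMap_laurentSeries_eq_single, coeffMap_single]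

variable {F₀} in
theorem coeffMap_mem {x : LaurentSeries L0} (hx : x ∈ laurentBaseChange L0 F₀) :
    coeffMap (algebraMap L0 L1) x ∈ laurentBaseChange L1 F₀ := by
  rw [mem_laurentBaseChange_iff] at hx
  induction hx using Subfield.closure_induction with
  | mem y hy =>
      rcases hy with ⟨a, rfl⟩ | ⟨z, hz, rfl⟩
      · rw [coeffMap_algebraMap']
        exact (laurentBaseChange L1 F₀).algebraMap_mem _
      · rw [coeffMap_coeffEmb']
        exact coeffEmb_mem_laurentBaseChange L1 hz
  | one => simp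
  | add x y _ _ hx hy => simpa using add_mem hx hy
  | neg x _ hx => simpa using neg_mem hx
  | inv x _ hx => simpa using inv_mem hx
  | mul x y _ _ hx hy => simpa using mul_mem hx hy

variable (L0 L1) in
/-- The inclusion of `laurentBaseChange L0 F₀` in `laurentBaseChange L1 F₀`. -/
def baseIncl : laurentBaseChange L0 F₀ →+* laurentBaseChange L1 F₀ where
  toFun x := ⟨coeffMap (algebraMap L0 L1) x, coeffMap_mem x.2⟩
  map_one' := Subtype.ext (map_one _)
  map_mul' x y := Subtype.ext (map_mul _ _ _)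
  map_zero' := Subtype.ext (map_zero _)
  map_add' x y := Subtype.ext (map_add _ _ _)

@[simp] theorem coe_baseIncl (x : laurentBaseChange L0 F₀) :
    (baseIncl L0 L1 F₀ x : LaurentSeries L1) = coeffMap (algebraMap L0 L1) x := rfl

end Incl

section Inf

variable (L : Type*) [Field L] [Algebra ℚ L] (F₀ : IntermediateField ℚ (LaurentSeries ℚ))

theorem order_coeffMap {R S : Type*} [Field R] [Field S] (f : R →+* S) (x : LaurentSeries R) :
    (coeffMap f x).order = x.order := by
  rcases eq_or_ne x 0 with rfl | hx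
  · simp
  have hx' : coeffMap f x ≠ 0 := by rw [ne_eq, map_eq_zero]; exact hx
  refine le_antisymm ?_ ?_
  · refine HahnSeries.order_le_of_coeff_ne_zero ?_
    rw [coeffMap_coeff, ne_eq, map_eq_zero]
    exact HahnSeries.coeff_order_eq_zero.not.mpr hx
  · refine HahnSeries.order_le_of_coeff_ne_zero ?_
    have := HahnSeries.coeff_order_eq_zero.not.mpr hx'
    rwa [coeffMap_coeff, map_eq_zero] at this

variable {F₀}

/-- The place at infinity (the `q`-adic place). -/
def infPlace (h : ∃ x ∈ F₀, x.order = 1) : Place L (laurentBaseChange L F₀) :=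
  laurentPlace (laurentBaseChange L F₀).val.toRingHom (fun _ => rfl) (by
    obtain ⟨x, hx, hx1⟩ := h
    exact ⟨⟨coeffEmb L x, coeffEmb_mem_laurentBaseChange L hx⟩,
      by
        show (coeffEmb L x).order = 1
        rw [coeffEmb, order_coeffMap, hx1]⟩)

theorem infPlace_ord (h : ∃ x ∈ F₀, x.order = 1) (f : laurentBaseChange L F₀) :
    (infPlace L h).ord f = (f : LaurentSeries L).order :=
  laurentPlace_ord _ _ _ f

open scoped Pointwise in
theorem smul_infPlace (h : ∃ x ∈ F₀, x.order = 1) (σ : L ≃ₐ[ℚ] L) :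
    arithmeticGalois F₀ σ • infPlace L h = infPlace L h := by
  apply Place.ext
  rw [SemilinearAut.smul_toValuationSubring]
  ext x
  rw [ValuationSubring.mem_pointwise_smul_iff_inv_smul_mem]
  have h1 : ∀ y : laurentBaseChange L F₀, y ∈ (infPlace L h).toValuationSubring ↔
      0 ≤ (y : LaurentSeries L).order := fun y => mem_laurentPlace_iff _ _ _ y
  rw [h1, h1]
  have h2 : (arithmeticGalois F₀ σ)⁻¹ • x = arithmeticGalois F₀ σ⁻¹ • x := by
    rw [map_inv]
  rw [h2, coe_arithmeticGalois_smul, order_coeffMap]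

end Inf


section Main

variable {K F : Type*} [Field K] [Field F] [Algebra K F]

theorem isRational_of_isFF [IsAlgClosed K] [h : H3RR.IsFF K F] (P : Place K F) :
    IsRational P := by
  have : H94.FunField K F := ⟨h.exists_gen⟩
  exact fun f hf => H94.exists_sub_algebraMap_ord_pos P hf

theorem deg_eq_one_of_isFF [IsAlgClosed K] [h : H3RR.IsFF K F] (P : Place K F) :
    P.deg = 1 := by
  have : H94.FunField K F := ⟨h.exists_gen⟩
  exact H94.deg_eq_one P

theorem exists_L_ne_bot [IsAlgClosed K] [h : H3RR.IsFF K F] (P : Place K F) (D : Divisor K F) :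
    ∃ m : ℕ, riemannRochSpace (D + Finsupp.single P (m : ℤ)) ≠ ⊥ := by
  obtain ⟨m, hm⟩ : ∃ m : ℕ, 0 < Divisor.degree D + m + 1 - genusFF K F :=
    ⟨(genusFF K F - Divisor.degree D).toNat, by
      have := Int.self_le_toNat ((genusFF K F : ℤ) - Divisor.degree D)
      omega⟩
  refine ⟨m, fun hbot => ?_⟩
  have h1 := H3RR.riemann_inequality (D + Finsupp.single P (m : ℤ))
  rw [map_add, Divisor.degree_single, deg_eq_one_of_isFF P, H3RR.ell, hbot, finrank_bot] at h1
  push_cast at h1
  omega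

/-- Division of a divisor by `n`. -/
theorem exists_div_divisor [HasPrincipalDivisors K F] {n : ℕ} (hn : 0 < n) {u : F} (hu : u ≠ 0)
    (hdiv : ∀ v : Place K F, (n : ℤ) ∣ v.ord u) :
    ∃ D : Divisor K F, (∀ v, v.ord u = n * D v) ∧ Divisor.degree D = 0 := by
  obtain ⟨E, hE, hdeg⟩ := HasPrincipalDivisors.exists_divisor (K := K) u hu
  let D : Divisor K F := E.mapRange (fun a => a / (n : ℤ)) (by simp)
  have hD : ∀ v, v.ord u = n * D v := by
    intro v
    simp only [D, Finsupp.mapRange_apply, hE v]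
    rw [Int.mul_ediv_cancel' (hdiv v)]
  refine ⟨D, hD, ?_⟩
  have h1 : E = (n : ℤ) • D := by
    ext v
    rw [hE v, hD v, Finsupp.smul_apply, smul_eq_mul]
  rw [h1, map_zsmul, smul_eq_mul] at hdeg
  rcases mul_eq_zero.mp hdeg with h | h
  · exfalso
    have : (n : ℤ) ≠ 0 := by exact_mod_cast hn.ne'
    exact this h
  · exact h

variable {L0 L1 : Type*} [Field L0] [Field L1] [Algebra L0 L1] [Algebra ℚ L0] [Algebra ℚ L1]
  [IsAlgClosed L0] [IsAlgClosed L1]
variable {F₀ : IntermediateField ℚ (LaurentSeries ℚ)}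

theorem exists_function_of_smul_mk_eq {s : SemilinearAut K F}
    {D : Divisor.degZero (K := K) (F := F)} (h : s • Pic0.mk D = Pic0.mk D) :
    ∃ g : F, g ≠ 0 ∧ ∀ v, (s • (D : Divisor K F)) v = (D : Divisor K F) v + v.ord g := by
  rw [SemilinearAut.pic0_smul_mk] at h
  have h3 := QuotientAddGroup.eq.mp h.symm
  rw [AddSubgroup.mem_addSubgroupOf] at h3
  obtain ⟨g, hg0, hg⟩ := h3
  refine ⟨g, hg0, fun v => ?_⟩
  rw [← hg v]
  have h4 : ((-D + SemilinearAut.degZeroSMulHom s D :
      Divisor.degZero (K := K) (F := F)) : Divisor K F) =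
      -(D : Divisor K F) + s • (D : Divisor K F) := rfl
  rw [h4, Finsupp.add_apply, Finsupp.neg_apply]
  ring

theorem mk_mem_torsion {n : ℕ} {D : Divisor.degZero (K := K) (F := F)} {u : F} (hu : u ≠ 0)
    (hD : ∀ v, v.ord u = n * (D : Divisor K F) v) : Pic0.mk D ∈ Pic0.torsion K F n := by
  rw [Pic0.mem_torsion]
  have h1 : (n : ℤ) • Pic0.mk D = Pic0.mk ((n : ℤ) • D) := rfl
  rw [h1]
  refine (QuotientAddGroup.eq_zero_iff _).mpr ?_
  rw [AddSubgroup.mem_addSubgroupOf]
  refine ⟨u, hu, fun v => ?_⟩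
  rw [hD v]
  show ((n : ℤ) • (D : Divisor K F)) v = _
  rw [Finsupp.smul_apply, smul_eq_mul]

/-- Functions invariant up to constants under a finite index subgroup of `Aut(L1/L0)` descend. -/
theorem exists_descend_of_invariant (H : Subgroup (L1 ≃ₐ[L0] L1)) [H.FiniteIndex]
    {u' : laurentBaseChange L1 F₀} (hu'0 : u' ≠ 0)
    (hinv : ∀ σ ∈ H, ∃ c : L1, ∀ j : ℤ, σ ((u' : LaurentSeries L1).coeff j) =
        c * (u' : LaurentSeries L1).coeff j) :
    ∃ (u0 : laurentBaseChange L0 F₀) (a : L1), u0 ≠ 0 ∧ a ≠ 0 ∧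
      u' = algebraMap L1 _ a * baseIncl L0 L1 F₀ u0 := by
  classical
  have hchar : CharZero L1 := algebraRat.charZero L1
  have hu'0' : (u' : LaurentSeries L1) ≠ 0 := fun h => hu'0 (by exact_mod_cast h)
  obtain ⟨a, ha, ha0⟩ : ∃ a : L1, a = (u' : LaurentSeries L1).coeff
      (u' : LaurentSeries L1).order ∧ a ≠ 0 :=
    ⟨_, rfl, HahnSeries.coeff_order_eq_zero.not.mpr hu'0'⟩
  have hfix : ∀ σ ∈ H, ∀ k : ℤ, σ (a⁻¹ * (u' : LaurentSeries L1).coeff k) =
      a⁻¹ * (u' : LaurentSeries L1).coeff k := by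
    intro σ hσ k
    obtain ⟨c, h1⟩ := hinv σ hσ
    have hc0 : c ≠ 0 := by
      rintro rfl
      have := h1 (u' : LaurentSeries L1).order
      rw [zero_mul, map_eq_zero, ← ha] at this
      exact ha0 this
    have h2 : σ a = c * a := by rw [ha]; exact h1 _
    rw [map_mul, map_inv₀, h2, h1]
    field_simp
  have hrange : ∀ k : ℤ, ∃ b : L0, algebraMap L0 L1 b = a⁻¹ * (u' : LaurentSeries L1).coeff k :=
    fun k => mem_range_of_finiteIndex H fun σ hσ => hfix σ hσ k
  choose b hb using hrange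
  -- the descended series
  have hpwo : (Function.support b).IsPWO := by
    refine (u' : LaurentSeries L1).isPWO_support.mono ?_
    intro k hk
    rw [Function.mem_support] at hk
    rw [HahnSeries.mem_support]
    intro h
    apply hk
    have h2 := hb k
    rw [h, mul_zero, map_eq_zero] at h2
    exact h2
  obtain ⟨y, hyb⟩ : ∃ y : LaurentSeries L0, ∀ k, y.coeff k = b k := ⟨⟨b, hpwo⟩, fun _ => rfl⟩
  have hy : algebraMap L1 (LaurentSeries L1) a * coeffMap (algebraMap L0 L1) y =
      (u' : LaurentSeries L1) := by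
    ext k
    rw [algebraMap_laurentSeries_eq_single, coeff_single_zero_mul, coeffMap_coeff, hyb, hb]
    field_simp
  have ha0' : algebraMap L1 (LaurentSeries L1) a ≠ 0 := by
    rw [ne_eq, map_eq_zero]; exact ha0
  have hymem : y ∈ laurentBaseChange L0 F₀ := by
    apply exists_of_coeff_mem (L1 := L1)
    have h1 : coeffMap (algebraMap L0 L1) y =
        (algebraMap L1 (LaurentSeries L1) a)⁻¹ * (u' : LaurentSeries L1) := by
      rw [← hy]; field_simp
    rw [h1, ← map_inv₀]
    exact mul_mem ((laurentBaseChange L1 F₀).algebraMap_mem _) u'.2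
  have hfinal : u' = algebraMap L1 (laurentBaseChange L1 F₀) a *
      baseIncl L0 L1 F₀ ⟨y, hymem⟩ := Subtype.ext hy.symm
  refine ⟨⟨y, hymem⟩, a, ?_, ha0, hfinal⟩
  intro h
  rw [h, map_zero, mul_zero] at hfinal
  exact hu'0 hfinal

/-- **Descent of Kummer classes.** Let `L0 ⊆ L1` be algebraically closed of characteristic zero.
If `Pic⁰` of the function field over `L1` has finite `n`-torsion, then every function `u` with
divisor divisible by `n` is, up to `n`-th powers, defined over `L0`. -/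
theorem exists_descent [H3RR.IsFF L1 (laurentBaseChange L1 F₀)]
    (hinf : ∃ x ∈ F₀, x.order = 1) {n : ℕ} (hn : 0 < n)
    (hfin : Finite (Pic0.torsion L1 (laurentBaseChange L1 F₀) n))
    {u : laurentBaseChange L1 F₀} (hu : u ≠ 0)
    (hdiv : ∀ v : Place L1 (laurentBaseChange L1 F₀), (n : ℤ) ∣ v.ord u) :
    ∃ (u0 : laurentBaseChange L0 F₀) (w : laurentBaseChange L1 F₀), u0 ≠ 0 ∧ w ≠ 0 ∧
      u = baseIncl L0 L1 F₀ u0 * w ^ n := by
  have hchar : CharZero L1 := algebraRat.charZero L1
  have htower : IsScalarTower ℚ L0 L1 := inferInstance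
  obtain ⟨D, hD, hdeg⟩ := exists_div_divisor hn hu hdiv
  set P := infPlace L1 hinf with hPdef
  have hrat : IsRational P := isRational_of_isFF P
  have hPdeg : 0 < P.deg := by rw [deg_eq_one_of_isFF P]; exact one_pos
  obtain ⟨m, f, hf0, hf, huniq⟩ := exists_unique_section hrat hPdeg hdeg (exists_L_ne_bot P D)
  -- the class of `D`
  let D' : Divisor.degZero (K := L1) (F := laurentBaseChange L1 F₀) := ⟨D, hdeg⟩
  let x : Pic0 L1 (laurentBaseChange L1 F₀) := Pic0.mk D'
  have hx : x ∈ Pic0.torsion L1 (laurentBaseChange L1 F₀) n := by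
    exact mk_mem_torsion hu hD
  -- the group
  let ρ : (L1 ≃ₐ[L0] L1) →* (L1 ≃ₐ[ℚ] L1) := AlgEquiv.restrictScalarsHom ℚ
  let H : Subgroup (L1 ≃ₐ[L0] L1) := (MulAction.stabilizer (L1 ≃ₐ[ℚ] L1) x).comap ρ
  have hH : H.FiniteIndex := by
    let act : MulAction (L1 ≃ₐ[L0] L1) (Pic0 L1 (laurentBaseChange L1 F₀)) :=
      MulAction.compHom _ ρ
    have hstab : MulAction.stabilizer (L1 ≃ₐ[L0] L1) x = H := rfl
    have hsub : MulAction.orbit (L1 ≃ₐ[L0] L1) x ⊆
        (Pic0.torsion L1 (laurentBaseChange L1 F₀) n : Set _) := by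
      rintro _ ⟨σ, rfl⟩
      show arithmeticGalois F₀ (ρ σ) • x ∈ _
      exact SemilinearAut.smul_mem_torsion _ hx
    have hfin' : Finite (MulAction.orbit (L1 ≃ₐ[L0] L1) x) :=
      Set.Finite.to_subtype (Set.Finite.subset (Set.toFinite _) hsub)
    have := Finite.of_equiv _ (MulAction.orbitEquivQuotientStabilizer (L1 ≃ₐ[L0] L1) x)
    rw [hstab] at this
    exact Subgroup.finiteIndex_of_finite_quotient
  have hinv : ∀ σ ∈ H, ∃ c : L1, c ≠ 0 ∧ arithmeticGalois F₀ (ρ σ) • (u * f ^ n) =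
      algebraMap L1 _ c * (u * f ^ n) := by
    intro σ hσ
    have h1 : arithmeticGalois F₀ (ρ σ) • x = x := hσ
    obtain ⟨g, hg0, hg⟩ := exists_function_of_smul_mk_eq h1
    exact semilinear_invariant hrat hPdeg hf0 hf huniq hu hD _ (smul_infPlace L1 hinf _) hg0 hg
  have hu'0 : u * f ^ n ≠ 0 := mul_ne_zero hu (pow_ne_zero _ hf0)
  obtain ⟨u0, a, hu0, ha0, hfin2⟩ := exists_descend_of_invariant (L0 := L0) H hu'0 (by
    intro σ hσ
    obtain ⟨c, hc0, hc⟩ := hinv σ hσ
    refine ⟨c, fun j => ?_⟩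
    have h2 := congrArg (fun z : laurentBaseChange L1 F₀ => (z : LaurentSeries L1).coeff j) hc
    simp only [coe_arithmeticGalois_smul] at h2
    have h3 : ((algebraMap L1 (laurentBaseChange L1 F₀) c * (u * f ^ n) :
        laurentBaseChange L1 F₀) : LaurentSeries L1) =
        algebraMap L1 (LaurentSeries L1) c * ((u * f ^ n : laurentBaseChange L1 F₀) :
          LaurentSeries L1) := rfl
    rw [h3, algebraMap_laurentSeries_eq_single, coeff_single_zero_mul] at h2
    exact h2)
  obtain ⟨a1, ha1⟩ := IsAlgClosed.exists_pow_nat_eq a hn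
  have ha10 : a1 ≠ 0 := by
    rintro rfl
    rw [zero_pow hn.ne'] at ha1
    exact ha0 ha1.symm
  have ha10' : algebraMap L1 (laurentBaseChange L1 F₀) a1 ≠ 0 := by
    rw [ne_eq, map_eq_zero]; exact ha10
  refine ⟨u0, algebraMap L1 _ a1 * f⁻¹, hu0, mul_ne_zero ha10' (inv_ne_zero hf0), ?_⟩
  have hfn : f ^ n ≠ 0 := pow_ne_zero _ hf0
  rw [mul_pow, ← map_pow, ha1, inv_pow]
  have h5 : u = (u * f ^ n) * (f ^ n)⁻¹ := by field_simp
  rw [h5, hfin2]
  ring

end Main

end Fermat.Agent.H90
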