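import Mathlib
import Fermat.Agent.H90Deg
import Fermat.Agent.H90Descent
import Fermat.Agent.H4Root

/-!
# The Kummer relation between torsion points of `X₀(N)` and characters of `Γ₀(N)`
(BRIDGE, helper90)
-/

set_option autoImplicit false
set_option linter.unusedSectionVars false

noncomputable section

namespace Fermat.Agent.H90

open UpperHalfPlane hiding I
open Complex MatrixGroups ModularGroup ModularCurve Fermat.Agent.H24 Filter AlgebraicCurve
open CongruenceSubgroup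
open scoped Manifold Real Topology

/-! ### `Hol` is a domain -/

theorem hol_analyticOnNhd {f : ℍ → ℂ} (hf : f ∈ Hol) :
    AnalyticOnNhd ℂ (f ∘ ofComplex) {z : ℂ | 0 < z.im} := by
  have h : DifferentiableOn ℂ (f ∘ ofComplex) {z : ℂ | 0 < z.im} :=
    UpperHalfPlane.mdifferentiable_iff.1 hf
  exact h.analyticOnNhd (isOpen_lt continuous_const Complex.continuous_im)

theorem isPreconnected_uhp : IsPreconnected {z : ℂ | 0 < z.im} :=
  (convex_halfSpace_im_gt 0).isPreconnected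

theorem hol_eq_zero_or {f g : ℍ → ℂ} (hf : f ∈ Hol) (hg : g ∈ Hol) (h : f * g = 0) :
    f = 0 ∨ g = 0 := by
  have key : ∀ {f : ℍ → ℂ}, (∀ z ∈ {z : ℂ | 0 < z.im}, (f ∘ ofComplex) z = 0) → f = 0 := by
    intro f hf
    ext τ
    have := hf (τ : ℂ) τ.2
    simpa [UpperHalfPlane.ofComplex_apply] using this
  have h1 := AnalyticOnNhd.eq_zero_or_eq_zero_of_mul_eq_zero (hol_analyticOnNhd hf)
    (hol_analyticOnNhd hg) (fun z _ => congrFun h (ofComplex z)) isPreconnected_uhp
  exact h1.imp key key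

instance : IsDomain Hol := by
  have : NoZeroDivisors Hol := ⟨fun {a b} h => by
    have h1 := hol_eq_zero_or a.2 b.2 (congrArg Subtype.val h)
    exact h1.imp (fun h => Subtype.ext h) (fun h => Subtype.ext h)⟩
  exact NoZeroDivisors.to_isDomain _

theorem domain_eq_of_pow_eq {R : Type*} [CommRing R] [IsDomain R] [Algebra ℂ R] {n : ℕ}
    (hn : n ≠ 0) {x y : R} (h : x ^ n = y ^ n) : ∃ ζ : ℂ, ζ ^ n = 1 ∧ x = algebraMap ℂ R ζ * y := by
  by_cases hy : y = 0
  · refine ⟨1, one_pow _, ?_⟩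
    rw [hy, zero_pow hn] at h
    rw [pow_eq_zero_iff hn] at h
    rw [h, hy, mul_zero]
  have hy' : algebraMap R (FractionRing R) y ≠ 0 :=
    (map_ne_zero_iff _ (IsFractionRing.injective R (FractionRing R))).mpr hy
  have h1 : (algebraMap R (FractionRing R) x / algebraMap R (FractionRing R) y) ^ n = 1 := by
    rw [div_pow, ← map_pow, ← map_pow, h, div_self]
    rw [map_pow]
    exact pow_ne_zero _ hy'
  obtain ⟨c, hc, hc'⟩ := exists_algebraMap_of_pow_eq_one (C := ℂ) hn h1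
  refine ⟨c, hc, IsFractionRing.injective R (FractionRing R) ?_⟩
  rw [map_mul, ← IsScalarTower.algebraMap_apply, hc', div_mul_cancel₀ _ hy']

theorem hol_eq_of_pow_eq {n : ℕ} (hn : n ≠ 0) {f g : ℍ → ℂ} (hf : f ∈ Hol) (hg : g ∈ Hol)
    (h : f ^ n = g ^ n) : ∃ ζ : ℂ, ζ ^ n = 1 ∧ f = ζ • g := by
  obtain ⟨ζ, h1, h2⟩ := domain_eq_of_pow_eq (R := Hol) hn (x := ⟨f, hf⟩) (y := ⟨g, hg⟩)
    (Subtype.ext h)
  refine ⟨ζ, h1, ?_⟩
  have := congrArg Subtype.val h2
  rw [← Algebra.smul_def] at this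
  exact this

/-! ### the group of values of characters -/

/-- The group `ℂˣ`, written additively. -/
def Mu : Type := Additive ℂˣ

instance : AddCommGroup Mu := inferInstanceAs (AddCommGroup (Additive ℂˣ))

/-- The complex number attached to an element of `Mu`. -/
def Mu.val (m : Mu) : ℂ := ((Additive.toMul (m : Additive ℂˣ) : ℂˣ) : ℂ)

/-- The element of `Mu` attached to a unit. -/
def Mu.of (u : ℂˣ) : Mu := (Additive.ofMul u : Additive ℂˣ)

@[simp] theorem Mu.val_of (u : ℂˣ) : (Mu.of u).val = u := rfl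

@[simp] theorem Mu.val_zero : (0 : Mu).val = 1 := rfl

theorem Mu.val_add (a b : Mu) : (a + b).val = a.val * b.val := rfl

theorem Mu.val_ne_zero (a : Mu) : a.val ≠ 0 := Units.ne_zero _

theorem Mu.val_nsmul (a : Mu) (k : ℕ) : (k • a).val = a.val ^ k := by
  induction k with
  | zero => rw [zero_smul, pow_zero, Mu.val_zero]
  | succ k ih => rw [succ_nsmul, Mu.val_add, ih, pow_succ]

theorem Mu.val_injective : Function.Injective Mu.val := fun _ _ h => Units.ext h

theorem Mu.ext {a b : Mu} (h : a.val = b.val) : a = b := Mu.val_injective h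

theorem Mu.eq_zero {a : Mu} (h : a.val = 1) : a = 0 := Mu.ext h

/-! ### the function field -/

section

variable (K : Type*) [Field K] [Algebra K ℂ] [IsAlgClosed K] [CharZero K] [Algebra ℚ K]
variable (N : ℕ) [NeZero N]

/-- The function field of `X₀(N)` over `K`. -/
abbrev FX : IntermediateField K (LaurentSeries K) := laurentBaseChange K (modularFunctionFieldFull N)

variable {K N}

omit [IsAlgClosed K] [CharZero K] in
theorem exists_good_div (g : FX K N) : ∃ c d : FX K N, Good K N (c : LaurentSeries K) ∧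
    Good K N (d : LaurentSeries K) ∧ d ≠ 0 ∧ g * d = c := by
  have h1 : (g : LaurentSeries K) ∈ modularFunctionFieldFullC K N := by
    rw [← H67.laurentBaseChange_full]; exact g.2
  obtain ⟨r, hr, s, hs, hz⟩ := (IntermediateField.mem_adjoin_iff_div).mp h1
  have hmem : ∀ r ∈ Algebra.adjoin K (divisorExpansionsC K N), r ∈ FX K N := fun r hr => by
    rw [FX, H67.laurentBaseChange_full]
    exact IntermediateField.algebra_adjoin_le_adjoin K _ hr
  by_cases hs0 : s = 0
  · refine ⟨0, 1, (GoodAlg K N).zero_mem, (GoodAlg K N).one_mem, one_ne_zero, ?_⟩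
    rw [mul_one]
    apply Subtype.ext
    rw [hz, hs0, div_zero]
    rfl
  · refine ⟨⟨r, hmem r hr⟩, ⟨s, hmem s hs⟩, A_le_GoodAlg K N hr, A_le_GoodAlg K N hs,
      fun h => hs0 (congrArg Subtype.val h), Subtype.ext ?_⟩
    change (g : LaurentSeries K) * s = r
    rw [hz, div_mul_cancel₀ _ hs0]

theorem good_mem {x : LaurentSeries K} (hx : Good K N x) : x ∈ FX K N := by
  rw [FX, H67.laurentBaseChange_full]
  exact mem_full_of_good hx

omit [Algebra K ℂ] in
theorem exists_const_of_ord_eq_zero' {f : FX K N} (hf : ∀ v : Place K (FX K N), v.ord f = 0) :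
    ∃ a : K, f = algebraMap K _ a := by
  obtain ⟨P⟩ := H3RR.exists_place K (FX K N)
  exact exists_const_of_ord_eq_zero (isRational_of_isFF P) (by rw [deg_eq_one_of_isFF P]; exact one_pos) hf

theorem ev_ne_zero {x : LaurentSeries K} (hx : IsConv (incl K x)) (h0 : x ≠ 0) : ev K x ≠ 0 := by
  intro h
  apply h0
  apply ev_injective_of_conv K hx
  · rw [map_zero]; simpa using isConv_single 0 0
  · rw [h]
    ext τ
    simp [ev, evalAt]

/-- **The Kummer relation**: the torsion class `c` and the character `χ` correspond to each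
other. -/
def Rel (n : ℕ) (c : Pic0 K (FX K N)) (χ : Additive (Gamma0 N) →+ Mu) : Prop :=
  ∃ (D : Divisor.degZero (K := K) (F := FX K N)) (a : FX K N) (h : ℍ → ℂ),
    Pic0.mk D = c ∧ a ≠ 0 ∧ Good K N (a : LaurentSeries K) ∧
    (∀ v : Place K (FX K N), v.ord a = n * (D : Divisor K (FX K N)) v) ∧ h ∈ Hol ∧
    h ^ n = ev K (a : LaurentSeries K) ∧
    ∀ (γ : Gamma0 N) (τ : ℍ), h ((γ : SL(2, ℤ)) • τ) = (χ (Additive.ofMul γ)).val * h τ

variable {n : ℕ} {c c' : Pic0 K (FX K N)} {χ χ' : Additive (Gamma0 N) →+ Mu}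

theorem Rel.add (h : Rel n c χ) (h' : Rel n c' χ') : Rel n (c + c') (χ + χ') := by
  obtain ⟨D, a, f, hD, ha, hg, hord, hf, hfn, hχ⟩ := h
  obtain ⟨D', a', f', hD', ha', hg', hord', hf', hfn', hχ'⟩ := h'
  refine ⟨D + D', a * a', f * f', ?_, mul_ne_zero ha ha', ?_, fun v => ?_, Hol.mul_mem hf hf', ?_,
    fun γ τ => ?_⟩
  · rw [Pic0.mk_add, hD, hD']
  · exact (GoodAlg K N).mul_mem hg hg'
  · rw [Place.ord_mul _ ha ha', hord, hord']
    show _ = (n : ℤ) * ((D : Divisor K (FX K N)) v + (D' : Divisor K (FX K N)) v)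
    ring
  · rw [mul_pow, hfn, hfn']
    exact (ev_mul K hg.conv hg'.conv).symm
  · rw [Pi.mul_apply, Pi.mul_apply, hχ, hχ', AddMonoidHom.add_apply, Mu.val_add]
    ring

theorem Rel.zero_zero (n : ℕ) : Rel n (0 : Pic0 K (FX K N)) 0 := by
  refine ⟨0, 1, 1, Pic0.mk_zero, one_ne_zero, (GoodAlg K N).one_mem, fun v => ?_, Hol.one_mem, ?_,
    fun γ τ => ?_⟩
  · rw [Place.ord_one]
    show (0 : ℤ) = n * 0
    rw [mul_zero]
  · rw [one_pow]
    ext τ
    have := congrFun (ev_algebraMap K 1) τ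
    simp only [map_one] at this
    rw [Pi.one_apply]
    exact this.symm
  · simp

theorem Rel.nsmul (h : Rel n c χ) (k : ℕ) : Rel n (k • c) (k • χ) := by
  induction k with
  | zero => rw [zero_nsmul, zero_nsmul]; exact Rel.zero_zero n
  | succ k ih => rw [succ_nsmul, succ_nsmul]; exact ih.add h

theorem Rel.torsion (h : Rel n c χ) : n • c = 0 := by
  obtain ⟨D, a, f, hD, ha, hg, hord, hf, hfn, hχ⟩ := h
  have := mk_mem_torsion ha hord
  rw [Pic0.mem_torsion, hD] at this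
  rw [← natCast_zsmul]
  exact this

theorem Rel.char_torsion (h : Rel n c χ) (hn : n ≠ 0) : n • χ = 0 := by
  obtain ⟨D, a, f, hD, ha, hg, hord, hf, hfn, hχ⟩ := h
  have hf0 : f ≠ 0 := fun h0 => by
    rw [h0, zero_pow hn] at hfn
    exact ev_ne_zero hg.conv (fun h => ha (Subtype.ext h)) hfn.symm
  obtain ⟨τ, hτ⟩ : ∃ τ, f τ ≠ 0 := Function.ne_iff.mp hf0
  refine AddMonoidHom.ext fun γ => ?_
  have h1 := congrFun (hg.inv (γ.toMul : Gamma0 N) (γ.toMul : Gamma0 N).2) τ
  rw [compHom_apply, ← hfn, Pi.pow_apply, Pi.pow_apply, hχ, mul_pow] at h1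
  have h2 := mul_right_cancel₀ (pow_ne_zero n hτ) (h1.trans (one_mul _).symm)
  apply Mu.eq_zero
  rw [AddMonoidHom.nsmul_apply, Mu.val_nsmul]
  exact h2

theorem Rel.neg (h : Rel n c χ) (hn : n ≠ 0) : Rel n (-c) (-χ) := by
  have h1 := h.nsmul (n - 1)
  have h2 : (n - 1) • c = -c := by
    rw [eq_neg_iff_add_eq_zero, ← succ_nsmul, Nat.sub_add_cancel (Nat.one_le_iff_ne_zero.mpr hn),
      h.torsion]
  have h3 : (n - 1) • χ = -χ := by
    rw [eq_neg_iff_add_eq_zero, ← succ_nsmul, Nat.sub_add_cancel (Nat.one_le_iff_ne_zero.mpr hn),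
      h.char_torsion hn]
  rwa [h2, h3] at h1

/-- The trivial class has trivial character. -/
theorem Rel.char_eq_zero (h : Rel n (0 : Pic0 K (FX K N)) χ) (hn : n ≠ 0) : χ = 0 := by
  obtain ⟨D, a, f, hD, ha, hg, hord, hf, hfn, hχ⟩ := h
  have h1 : (D : Divisor K (FX K N)) ∈ Divisor.principal (K := K) (F := FX K N) := by
    have h0 : (QuotientAddGroup.mk D : Pic0 K (FX K N)) = 0 := hD
    exact (QuotientAddGroup.eq_zero_iff D).mp h0
  obtain ⟨g, hg0, hgD⟩ := Divisor.mem_principal.mp h1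
  obtain ⟨e, d, hce, hcd, hd0, hgd⟩ := exists_good_div g
  have he0 : e ≠ 0 := by rw [← hgd]; exact mul_ne_zero hg0 hd0
  -- `a = κ * g ^ n`
  obtain ⟨κ, hκ⟩ := exists_const_of_ord_eq_zero' (f := a * (g ^ n)⁻¹) (fun v => by
    rw [Place.ord_mul _ ha (inv_ne_zero (pow_ne_zero _ hg0)), Place.ord_inv, ← zpow_natCast,
      Place.ord_zpow, hord, ← hgD]
    ring)
  have h2 : a * d ^ n = algebraMap K _ κ * e ^ n := by
    rw [← hgd, mul_pow, ← hκ]
    field_simp
  obtain ⟨κ', hκ'⟩ := IsAlgClosed.exists_pow_nat_eq (algebraMap K ℂ κ) (Nat.pos_of_ne_zero hn)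
  set E := ev K (e : LaurentSeries K) with hE
  set Dd := ev K (d : LaurentSeries K) with hDd
  have hev : f ^ n * Dd ^ n = (κ' • E) ^ n := by
    have h3 := congrArg (fun x : FX K N => ev K (x : LaurentSeries K)) h2
    have hpow : ∀ {x : LaurentSeries K}, Good K N x → ∀ m : ℕ, ev K (x ^ m) = ev K x ^ m := by
      intro x hx m
      induction m with
      | zero =>
        rw [pow_zero, pow_zero]
        have := ev_algebraMap K 1
        simpa using this
      | succ m ih =>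
        rw [pow_succ, pow_succ, ev_mul K ((GoodAlg K N).pow_mem hx m).conv hx.conv, ih]
    have h4 : ev K ((a * d ^ n : FX K N) : LaurentSeries K) = ev K (a : LaurentSeries K) * Dd ^ n := by
      rw [hDd, ← hpow hcd]
      exact ev_mul K hg.conv ((GoodAlg K N).pow_mem hcd n).conv
    have h5 : ev K ((algebraMap K (FX K N) κ * e ^ n : FX K N) : LaurentSeries K) =
        algebraMap ℂ (ℍ → ℂ) (algebraMap K ℂ κ) * E ^ n := by
      rw [hE, ← hpow hce, ← ev_algebraMap K κ]
      exact ev_mul K ((GoodAlg K N).algebraMap_mem κ).conv ((GoodAlg K N).pow_mem hce n).conv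
    have h6 : ev K (a : LaurentSeries K) * Dd ^ n = algebraMap ℂ (ℍ → ℂ) (algebraMap K ℂ κ) * E ^ n := by
      rw [← h4, ← h5]; exact h3
    rw [hfn, h6, ← hκ', smul_pow, Algebra.smul_def]
  obtain ⟨ζ, -, hζ⟩ := hol_eq_of_pow_eq hn (Hol.mul_mem hf hcd.hol) (Hol.smul_mem hce.hol κ')
    (by rw [mul_pow]; exact hev)
  -- the function `f * Dd` is invariant
  have hDd0 : Dd ≠ 0 := ev_ne_zero hcd.conv fun h => hd0 (Subtype.ext h)
  have hf0 : f ≠ 0 := fun h0 => by
    rw [h0, zero_pow hn] at hfn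
    exact ev_ne_zero hg.conv (fun h => ha (Subtype.ext h)) hfn.symm
  have hne : f * Dd ≠ 0 := fun h0 => (hol_eq_zero_or hf hcd.hol h0).elim hf0 hDd0
  obtain ⟨τ, hτ⟩ : ∃ τ, (f * Dd) τ ≠ 0 := Function.ne_iff.mp hne
  refine AddMonoidHom.ext fun γ => ?_
  have hi1 := congrFun (hcd.inv (γ.toMul : Gamma0 N) (γ.toMul : Gamma0 N).2) τ
  have hi2 := congrFun (hce.inv (γ.toMul : Gamma0 N) (γ.toMul : Gamma0 N).2) τ
  rw [compHom_apply] at hi1 hi2
  have h7 : (f * Dd) (((γ.toMul : Gamma0 N) : SL(2, ℤ)) • τ) = (f * Dd) τ := by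
    have e1 := congrFun hζ (((γ.toMul : Gamma0 N) : SL(2, ℤ)) • τ)
    have e2 := congrFun hζ τ
    rw [e1, e2]
    simp only [Pi.smul_apply]
    rw [hi2]
  have hi1' : Dd (((γ.toMul : Gamma0 N) : SL(2, ℤ)) • τ) = Dd τ := hi1
  rw [Pi.mul_apply, hχ, hi1', mul_assoc] at h7
  have h8 := mul_right_cancel₀ hτ (h7.trans (one_mul _).symm)
  exact Mu.eq_zero h8

/-- A class with trivial character is trivial. -/
theorem Rel.eq_zero (h : Rel n c 0) (hn : n ≠ 0) : c = 0 := by
  obtain ⟨D, a, f, hD, ha, hg, hord, hf, hfn, hχ⟩ := h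
  obtain ⟨w, hw, hwf, hwn⟩ := exists_good_of_pow K hf (fun γ hγ => by
    ext τ
    rw [compHom_apply, hχ ⟨γ, hγ⟩ τ]
    simp) hn hg hfn
  rw [← hD]
  refine (QuotientAddGroup.eq_zero_iff _).mpr ?_
  rw [AddSubgroup.mem_addSubgroupOf]
  have hw0 : (⟨w, good_mem hw⟩ : FX K N) ^ n = a := Subtype.ext hwn
  refine ⟨⟨w, good_mem hw⟩, fun h => ha (by rw [← hw0, h, zero_pow hn]), fun v => ?_⟩
  have h1 := hord v
  rw [← hw0, ← zpow_natCast, Place.ord_zpow] at h1
  exact (mul_left_cancel₀ (by exact_mod_cast hn) h1).symm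

theorem Rel.inj (h : Rel n c χ) (h' : Rel n c' χ) (hn : n ≠ 0) : c = c' := by
  have h1 := h.add (h'.neg hn)
  rw [add_neg_cancel] at h1
  exact add_neg_eq_zero.mp (h1.eq_zero hn)

theorem Rel.char_eq (h : Rel n c χ) (h' : Rel n c χ') (hn : n ≠ 0) : χ = χ' := by
  have h1 := h.add (h'.neg hn)
  rw [add_neg_cancel] at h1
  exact add_neg_eq_zero.mp (h1.char_eq_zero hn)

end

end Fermat.Agent.H90

end
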