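import Fermat.Agent.H94Divisors
set_option autoImplicit false

/-!
# Places from embeddings in Laurent series fields; orbits of the local monodromy (helper94)
-/

noncomputable section

open AlgebraicCurve IsDedekindDomain WithZero IntermediateField
open scoped IntermediateField.algebraAdjoinAdjoin

namespace Fermat.Agent.H94
variable {K F : Type*} [Field K] [Field F] [Algebra K F]

section ValuationRings

theorem mem_valuationSubring_of_intRing {x : F} (V : ValuationSubring F)
    (hK : ∀ a : K, algebraMap K F a ∈ V) (hv : x ∈ V) (b : IntRing K x) :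
    algebraMap (IntRing K x) F b ∈ V := by
  have hsub : ∀ a : Algebra.adjoin K {x}, (a : F) ∈ V := by
    intro a
    have : Algebra.adjoin K {x} ≤ { V.toSubring with algebraMap_mem' := hK } :=
      Algebra.adjoin_le (by simpa using hv)
    exact this a.2
  obtain ⟨p, hp, hpb⟩ := b.2
  let φ : Algebra.adjoin K {x} →+* V :=
    (algebraMap (Algebra.adjoin K {x}) F).codRestrict V.toSubring hsub
  have hint : IsIntegral V (b : F) := by
    refine ⟨p.map φ, hp.map φ, ?_⟩
    rw [Polynomial.eval₂_map]
    exact hpb
  obtain ⟨y, hy⟩ := IsIntegrallyClosed.isIntegral_iff.mp hint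
  show (b : F) ∈ _
  rw [← hy]
  exact SetLike.coe_mem y

/-- Every nontrivial valuation ring of a function field is (the ring of) a place. -/
theorem exists_place_of_valuationSubring [CharZero K] [FunField K F]
    (V : ValuationSubring F) (hK : ∀ a : K, algebraMap K F a ∈ V) (hV : V ≠ ⊤) :
    ∃ v : Place K F, v.toValuationSubring = V := by
  -- find a transcendental element of `V`
  obtain ⟨x, hx, hxV⟩ : ∃ x : F, Transcendental K x ∧ x ∈ V := by
    obtain ⟨x, hx, -⟩ := FunField.out (K := K) (F := F)
    rcases V.mem_or_inv_mem x with h | h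
    · exact ⟨x, hx, h⟩
    · exact ⟨x⁻¹, transcendental_inv hx, h⟩
  have := FunField.finiteDimensional (F := F) hx
  have hded := isDedekindDomain_intRing (F := F) hx
  have hfrac := isFractionRing_intRing (K := K) (x := x)
  have hB := mem_valuationSubring_of_intRing V hK hxV
  let φ : IntRing K x →+* V := (algebraMap (IntRing K x) F).codRestrict V.toSubring hB
  let P : Ideal (IntRing K x) := Ideal.comap φ (IsLocalRing.maximalIdeal V)
  have hPprime : P.IsPrime := Ideal.comap_isPrime _ _
  have hunit : ∀ b : IntRing K x, b ∉ P → ∃ c ∈ V, algebraMap (IntRing K x) F b * c = 1 := by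
    intro b hb
    have hbu : IsUnit (φ b) := by
      by_contra hnu
      apply hb
      rw [Ideal.mem_comap, IsLocalRing.mem_maximalIdeal]
      exact hnu
    obtain ⟨c, hc⟩ := hbu.exists_right_inv
    exact ⟨c, c.2, congrArg Subtype.val hc⟩
  have hPne : P ≠ ⊥ := by
    intro hbot
    apply hV
    refine eq_top_iff.mpr fun g _ => ?_
    obtain ⟨a, b, hb, rfl⟩ := IsFractionRing.div_surjective (A := IntRing K x) g
    have hb0 : b ≠ 0 := nonZeroDivisors.ne_zero hb
    obtain ⟨c, hcV, hc⟩ := hunit b (by rw [hbot]; exact hb0)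
    have hbF : algebraMap (IntRing K x) F b ≠ 0 := by
      intro h; rw [h, zero_mul] at hc; exact zero_ne_one hc
    have : algebraMap (IntRing K x) F a / algebraMap (IntRing K x) F b =
        algebraMap (IntRing K x) F a * c := by
      rw [div_eq_iff hbF, mul_assoc, mul_comm c, hc, mul_one]
    rw [this]
    exact mul_mem (hB a) hcV
  let w : HeightOneSpectrum (IntRing K x) := ⟨P, hPprime, hPne⟩
  refine ⟨Place.ofHeightOneSpectrum w, ?_⟩
  rw [Place.ofHeightOneSpectrum_toValuationSubring]
  have hle : (w.valuation F).valuationSubring ≤ V := by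
    intro f hf
    rw [Valuation.mem_valuationSubring_iff] at hf
    obtain ⟨n, d, hnd⟩ := w.exists_primeCompl_mul_eq_of_integer f hf
    obtain ⟨c, hcV, hc⟩ := hunit d d.2
    have : f = algebraMap (IntRing K x) F n * c := by
      rw [← hnd, mul_assoc, hc, mul_one]
    rw [this]
    exact mul_mem (hB n) hcV
  have h1 : (Place.ofHeightOneSpectrum (K := K) (F := F) w).toValuationSubring ≤ V := hle
  have h2 : ∀ {A : ValuationSubring F}, (∃ v : Place K F, v.toValuationSubring = A) → A ≤ V →
      A = V := by
    rintro A ⟨v, rfl⟩ hA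
    refine le_antisymm hA ?_
    intro f hf
    by_contra hfv
    have hf0 : f ≠ 0 := fun h0 => hfv (h0 ▸ zero_mem _)
    have hord : v.ord f < 0 := by
      by_contra hge
      exact hfv (mem_of_ord_nonneg v (not_lt.mp hge))
    apply hV
    refine eq_top_iff.mpr fun g _ => ?_
    rcases eq_or_ne g 0 with rfl | hg
    · exact zero_mem _
    obtain ⟨n, hn⟩ : ∃ n : ℕ, 0 ≤ v.ord (g * (f ^ n)⁻¹) := by
      refine ⟨(v.ord g).natAbs, ?_⟩
      rw [v.ord_mul hg (inv_ne_zero (pow_ne_zero _ hf0)), v.ord_inv, ← zpow_natCast, v.ord_zpow]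
      have h1 : v.ord f ≤ -1 := by omega
      have h2 : (0 : ℤ) ≤ ((v.ord g).natAbs : ℤ) := by positivity
      have h3 : -((v.ord g).natAbs : ℤ) ≤ v.ord g := by omega
      nlinarith
    have h4 : g * (f ^ n)⁻¹ ∈ V := hA (mem_of_ord_nonneg v hn)
    have h5 : g = g * (f ^ n)⁻¹ * f ^ n := by
      field_simp
    rw [h5]
    exact mul_mem h4 (pow_mem hf n)
  exact h2 ⟨Place.ofHeightOneSpectrum (K := K) (F := F) w, rfl⟩ h1

end ValuationRings

section Laurent

variable (C : Type*) [Field C]

/-- The valuation ring `C⟦t⟧` of `C((t))`. -/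
def laurentRing : ValuationSubring (LaurentSeries C) where
  carrier := {z | 0 ≤ z.order}
  zero_mem' := by simp
  one_mem' := by simp
  neg_mem' := by intro z hz; simpa using hz
  add_mem' := by
    intro a b ha hb
    by_cases hab : a + b = 0
    · simp [hab]
    · exact le_trans (le_min ha hb) (HahnSeries.min_order_le_order_add hab)
  mul_mem' := by
    intro a b ha hb
    rcases eq_or_ne a 0 with rfl | ha0
    · simp
    rcases eq_or_ne b 0 with rfl | hb0
    · simp
    show 0 ≤ (a * b).order
    rw [HahnSeries.order_mul ha0 hb0]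
    exact add_nonneg ha hb
  mem_or_inv_mem' := by
    intro a
    rcases eq_or_ne a 0 with rfl | ha0
    · left; simp
    have h := HahnSeries.order_mul ha0 (inv_ne_zero ha0)
    rw [mul_inv_cancel₀ ha0, HahnSeries.order_one] at h
    show 0 ≤ a.order ∨ 0 ≤ a⁻¹.order
    omega

variable {C}

theorem mem_laurentRing {z : LaurentSeries C} : z ∈ laurentRing C ↔ 0 ≤ z.order := Iff.rfl

theorem algebraMap_eq_C [Algebra K C] (a : K) :
    algebraMap K (LaurentSeries C) a = HahnSeries.C (algebraMap K C a) := by
  rw [HahnSeries.algebraMap_apply', PowerSeries.algebraMap_apply, HahnSeries.ofPowerSeries_C]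

theorem order_algebraMap [Algebra K C] (a : K) :
    (algebraMap K (LaurentSeries C) a).order = 0 := by
  rw [algebraMap_eq_C, HahnSeries.order_C]

variable [Algebra K C]

/-- The valuation ring of `F` induced by an embedding in `C((t))`. -/
def pullbackRing (s : F →ₐ[K] LaurentSeries C) : ValuationSubring F :=
  (laurentRing C).comap (s : F →+* LaurentSeries C)

theorem mem_pullbackRing {s : F →ₐ[K] LaurentSeries C} {f : F} :
    f ∈ pullbackRing s ↔ 0 ≤ (s f).order := Iff.rfl

theorem algebraMap_mem_pullbackRing (s : F →ₐ[K] LaurentSeries C) (a : K) :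
    algebraMap K F a ∈ pullbackRing s := by
  rw [mem_pullbackRing, s.commutes, order_algebraMap]

theorem order_map_inv {s : F →ₐ[K] LaurentSeries C} {f : F} :
    (s f⁻¹).order = -(s f).order := by
  rcases eq_or_ne f 0 with rfl | hf
  · simp
  have h0 : s f ≠ 0 := (map_ne_zero s).mpr hf
  have h1 : s f⁻¹ ≠ 0 := (map_ne_zero s).mpr (inv_ne_zero hf)
  have h := HahnSeries.order_mul h0 h1
  rw [← map_mul, mul_inv_cancel₀ hf, map_one, HahnSeries.order_one] at h
  omega

/-- An embedding `s : F → C((t))` nontrivial on orders comes from a place `v`, and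
`ord_t ∘ s = m * ord_v` with `m > 0`. -/
theorem exists_place_of_embedding [CharZero K] [FunField K F] (s : F →ₐ[K] LaurentSeries C)
    {x : F} (hx : 0 < (s x).order) :
    ∃ v : Place K F, v.toValuationSubring = pullbackRing s := by
  refine exists_place_of_valuationSubring _ (algebraMap_mem_pullbackRing s) ?_
  intro htop
  have : x⁻¹ ∈ pullbackRing s := htop ▸ ValuationSubring.mem_top _
  rw [mem_pullbackRing, order_map_inv] at this
  omega

theorem exists_order_eq_mul (v : Place K F) (s : F →ₐ[K] LaurentSeries C)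
    (hv : v.toValuationSubring = pullbackRing s) :
    ∃ m : ℤ, 0 < m ∧ ∀ f : F, (s f).order = m * v.ord f := by
  obtain ⟨π, hπ⟩ := IsDiscreteValuationRing.exists_irreducible v.toValuationSubring
  have hmem : ∀ f : F, f ∈ v.toValuationSubring ↔ 0 ≤ (s f).order := by
    intro f; rw [hv, mem_pullbackRing]
  have hunit : ∀ u : v.toValuationSubringˣ, (s ((u : v.toValuationSubring) : F)).order = 0 := by
    intro u
    have h1 := (hmem _).mp (SetLike.coe_mem (u : v.toValuationSubring))
    have h2 := (hmem _).mp (SetLike.coe_mem ((u⁻¹ : v.toValuationSubringˣ) : v.toValuationSubring))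
    have h3 : (((u⁻¹ : v.toValuationSubringˣ) : v.toValuationSubring) : F) =
        ((u : v.toValuationSubring) : F)⁻¹ := by
      have h6 : ((u : v.toValuationSubring) : F) * (((u⁻¹ : v.toValuationSubringˣ) :
          v.toValuationSubring) : F) = 1 := by
        exact_mod_cast congrArg (Subtype.val) (u.mul_inv)
      exact eq_inv_of_mul_eq_one_right h6
    rw [h3, order_map_inv] at h2
    omega
  have hπ0 : (π : F) ≠ 0 := by
    intro h; exact hπ.ne_zero (Subtype.ext h)
  have hpos : 0 < (s (π : F)).order := by
    have h1 := (hmem _).mp (SetLike.coe_mem π)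
    rcases h1.lt_or_eq with h | h
    · exact h
    · exfalso
      apply hπ.not_isUnit
      have hinv : (π : F)⁻¹ ∈ v.toValuationSubring := by
        rw [hmem, order_map_inv]; omega
      refine IsUnit.of_mul_eq_one ⟨(π : F)⁻¹, hinv⟩ ?_
      apply Subtype.ext
      show (π : F) * (π : F)⁻¹ = 1
      exact mul_inv_cancel₀ hπ0
  refine ⟨(s (π : F)).order, hpos, fun f => ?_⟩
  rcases eq_or_ne f 0 with rfl | hf
  · simp
  obtain ⟨u, hu⟩ := v.exists_unit_mul_zpow hf hπ
  have hzpow : ∀ n : ℤ, (s ((π : F) ^ n)).order = n * (s (π : F)).order := by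
    intro n
    have hnat : ∀ k : ℕ, (s ((π : F) ^ k)).order = k * (s (π : F)).order := by
      intro k
      rw [map_pow, HahnSeries.order_pow]
      simp
    rcases n with k | k
    · simpa using hnat k
    · rw [zpow_negSucc, order_map_inv, hnat]
      push_cast
      simp only [Int.negSucc_eq]
      ring
  have hz0 : (π : F) ^ (v.ord f) ≠ 0 := zpow_ne_zero _ hπ0
  have hu0 : ((u : v.toValuationSubring) : F) ≠ 0 := by
    intro h
    rw [h, zero_mul] at hu
    exact hf hu
  conv_lhs => rw [hu]
  rw [map_mul, HahnSeries.order_mul ((map_ne_zero s).mpr hu0) ((map_ne_zero s).mpr hz0),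
    hunit, zero_add, hzpow, mul_comm]

end Laurent

end Fermat.Agent.H94
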