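import Mathlib
import Fermat.Agent.H90Rel
import Fermat.Agent.H24Field
import Fermat.Agent.H94Embed

/-!
# Torsion classes have characters; finiteness of the torsion (BRIDGE, helper90)
-/

set_option autoImplicit false
set_option linter.unusedSectionVars false

noncomputable section

namespace Fermat.Agent.H90

open UpperHalfPlane hiding I
open Complex MatrixGroups ModularGroup ModularCurve Fermat.Agent.H24 Filter AlgebraicCurve
open CongruenceSubgroup
open scoped Manifold Real Topology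

section Embed

/-- An embedding into Laurent series is trivial or given by a place. -/
theorem order_eq_zero_or_place {K F C : Type*} [Field K] [Field F] [Algebra K F] [Field C]
    [Algebra K C] [CharZero K] [H94.FunField K F] (s : F →ₐ[K] LaurentSeries C) :
    (∀ f, (s f).order = 0) ∨
      ∃ (v : Place K F) (m : ℤ), 0 < m ∧ ∀ f : F, (s f).order = m * v.ord f := by
  by_cases h : ∀ f, (s f).order = 0
  · exact Or.inl h
  · right
    push Not at h
    obtain ⟨f, hf⟩ := h
    have hf0 : f ≠ 0 := by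
      rintro rfl
      apply hf
      rw [map_zero, HahnSeries.order_zero]
    have key : ∃ x : F, 0 < (s x).order := by
      rcases lt_or_gt_of_ne hf with h1 | h1
      · refine ⟨f⁻¹, ?_⟩
        have h2 : (s f * s f⁻¹).order = 0 := by
          rw [← map_mul, mul_inv_cancel₀ hf0, map_one, HahnSeries.order_one]
        rw [HahnSeries.order_mul ((map_ne_zero s).mpr hf0)
          ((map_ne_zero s).mpr (inv_ne_zero hf0))] at h2
        omega
      · exact ⟨f, h1⟩
    obtain ⟨x, hx⟩ := key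
    obtain ⟨v, hv⟩ := H94.exists_place_of_embedding s hx
    obtain ⟨m, hm, h1⟩ := H94.exists_order_eq_mul v s hv
    exact ⟨v, m, hm, h1⟩

variable {K : Type*} [Field K] [Algebra K ℂ] {N : ℕ} [NeZero N] {z : ℍ → ℂ}

/-- The embedding of the function field on good elements. -/
theorem sF_eq_of_hasExpC (hz : GoodChart K N z) (γ : SL(2, ℤ))
    (x : modularFunctionFieldFullC K N) (hx : IsConv (incl K (x : LaurentSeries K)))
    {X : LaurentSeries ℂ} (hX : HasExpC z (compHom γ (ev K (x : LaurentSeries K))) X) :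
    sF hz (QuotientGroup.mk γ⁻¹) x = X := by
  obtain ⟨a, b, hb, hab⟩ := IsFractionRing.div_surjective (A := A K N) x
  have hb0 : algebraMap (A K N) (modularFunctionFieldFullC K N) b ≠ 0 :=
    IsFractionRing.to_map_ne_zero_of_mem_nonZeroDivisors hb
  have hmul : x * algebraMap (A K N) _ b = algebraMap (A K N) _ a := by
    rw [← hab, div_mul_cancel₀ _ hb0]
  have h1 := congrArg (sF hz (QuotientGroup.mk γ⁻¹)) hmul
  rw [map_mul, sF_algebraMap, sF_algebraMap, sA_mk, inv_inv] at h1
  have h2 : X * phi hz γ b = phi hz γ a := by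
    symm
    apply phi_eq
    have hbs := phi_spec hz γ b
    refine ⟨hX.1.mul hbs.1, fun τ hτ => ?_⟩
    rw [evalAt_mul hX.1 hbs.1 hτ (hz.chart.lt τ), hX.2 τ hτ, hbs.2 τ hτ]
    have h3 : (x : LaurentSeries K) * (b : LaurentSeries K) = (a : LaurentSeries K) :=
      congrArg (fun f : modularFunctionFieldFullC K N => (f : LaurentSeries K)) hmul
    rw [← h3, ev_mul K hx (good_of_mem K b.2).conv]
    rfl
  have h3 : phi hz γ b ≠ 0 := by
    rw [← map_zero (phi hz γ)]
    intro h
    have := phi_injective hz γ h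
    rw [this, map_zero] at hb0
    exact hb0 rfl
  exact mul_right_cancel₀ h3 (h1.trans h2.symm)

variable [IsAlgClosed K] [CharZero K] [Algebra ℚ K]

/-- The embedding of `FX K N` attached to a chart and `γ`. -/
def sX (hz : GoodChart K N z) (γ : SL(2, ℤ)) : FX K N →ₐ[K] LaurentSeries ℂ :=
  (sF hz (QuotientGroup.mk γ⁻¹)).comp
    (IntermediateField.inclusion (le_of_eq (H67.laurentBaseChange_full K N)))

theorem sX_eq (hz : GoodChart K N z) (γ : SL(2, ℤ))
    (x : FX K N) (hx : IsConv (incl K (x : LaurentSeries K)))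
    {X : LaurentSeries ℂ} (hX : HasExpC z (compHom γ (ev K (x : LaurentSeries K))) X) :
    sX hz γ x = X := by
  have hc : ((IntermediateField.inclusion (le_of_eq (H67.laurentBaseChange_full K N)) x :
      modularFunctionFieldFullC K N) : LaurentSeries K) = (x : LaurentSeries K) :=
    IntermediateField.coe_inclusion _ x
  rw [sX, AlgHom.comp_apply]
  apply sF_eq_of_hasExpC hz γ
  · rw [hc]; exact hx
  · rw [hc]; exact hX

end Embed

section Root

theorem hol_order_ne_top {f : ℍ → ℂ} (hf : f ∈ Hol) (h0 : f ≠ 0) (τ : ℍ) :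
    analyticOrderAt (f ∘ ofComplex) (τ : ℂ) ≠ ⊤ := by
  intro h
  apply h0
  rw [analyticOrderAt_eq_top] at h
  have h1 := (hol_analyticOnNhd hf).eqOn_zero_of_preconnected_of_eventuallyEq_zero
    isPreconnected_uhp (z₀ := (τ : ℂ)) τ.2 h
  ext σ
  have := h1 σ.2
  simpa [UpperHalfPlane.ofComplex_apply] using this

variable {K : Type*} [Field K] [Algebra K ℂ] {N : ℕ} [NeZero N]
variable [IsAlgClosed K] [CharZero K] [Algebra ℚ K]

theorem exists_root_of_dvd {n : ℕ} (hn : n ≠ 0) {a : FX K N} (ha : a ≠ 0)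
    (hg : Good K N (a : LaurentSeries K)) (hdiv : ∀ v : Place K (FX K N), (n : ℤ) ∣ v.ord a) :
    ∃ h : ℍ → ℂ, h ∈ Hol ∧ h ^ n = ev K (a : LaurentSeries K) := by
  have hev0 : ev K (a : LaurentSeries K) ≠ 0 := ev_ne_zero hg.conv fun h => ha (Subtype.ext h)
  obtain ⟨h, h1, h2⟩ := H4.exists_nthRoot hn (ev K (a : LaurentSeries K)) hg.hol hev0 (fun τ => by
    obtain ⟨P, hP, hPe, hPo⟩ := exists_expansion_cayley τ hg.hol
    have htop := hol_order_ne_top hg.hol hev0 τ
    obtain ⟨k, hk⟩ := ENat.ne_top_iff_exists.mp htop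
    obtain ⟨hP0, hPk⟩ := hPo k hk.symm
    have hnat : analyticOrderNatAt (ev K (a : LaurentSeries K) ∘ ofComplex) (τ : ℂ) = k := by
      rw [analyticOrderNatAt, ← hk, ENat.toNat_natCast]
    rw [hnat]
    have hs := sX_eq (goodChart_cayley K N τ) 1 a hg.conv
      (X := HahnSeries.ofPowerSeries ℤ ℂ P) ⟨hP, fun σ _ => by
        rw [hPe σ, compHom_apply, one_smul]⟩
    rcases order_eq_zero_or_place (sX (goodChart_cayley K N τ) 1) with h0 | ⟨v, m, -, hv⟩
    · have := h0 a
      rw [hs, hPk] at this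
      have hk0 : k = 0 := by exact_mod_cast this
      rw [hk0]
      exact dvd_zero _
    · have := hv a
      rw [hs, hPk] at this
      have h3 : (n : ℤ) ∣ (k : ℤ) := by
        rw [this]
        exact (hdiv v).mul_left m
      exact_mod_cast h3)
  exact ⟨h, h1, funext h2⟩

theorem exists_char {n : ℕ} (hn : n ≠ 0) {h : ℍ → ℂ} (hh : h ∈ Hol) (h0 : h ≠ 0)
    (hinv : ∀ γ ∈ Gamma0 N, compHom γ (h ^ n) = h ^ n) :
    ∃ χ : Additive (Gamma0 N) →+ Mu, ∀ (γ : Gamma0 N) (τ : ℍ),
      h ((γ : SL(2, ℤ)) • τ) = (χ (Additive.ofMul γ)).val * h τ := by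
  have key : ∀ γ : Gamma0 N, ∃ ζ : ℂ, ζ ^ n = 1 ∧ compHom (γ : SL(2, ℤ)) h = ζ • h := fun γ =>
    hol_eq_of_pow_eq hn (compHom_mem_Hol _ hh) hh (by rw [← map_pow]; exact hinv γ γ.2)
  choose ζ hζ1 hζ2 using key
  obtain ⟨τ₀, hτ₀⟩ : ∃ τ, h τ ≠ 0 := Function.ne_iff.mp h0
  have hζ0 : ∀ γ, ζ γ ≠ 0 := fun γ h => by
    have := hζ1 γ
    rw [h, zero_pow hn] at this
    exact zero_ne_one this
  have hζ : ∀ (γ : Gamma0 N) (τ : ℍ), h ((γ : SL(2, ℤ)) • τ) = ζ γ * h τ := fun γ τ =>
    congrFun (hζ2 γ) τ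
  let χ : Gamma0 N →* ℂˣ :=
    { toFun := fun γ => Units.mk0 (ζ γ) (hζ0 γ)
      map_one' := by
        apply Units.ext
        have := hζ 1 τ₀
        rw [OneMemClass.coe_one, one_smul] at this
        exact (mul_right_cancel₀ hτ₀ ((one_mul _).trans this)).symm
      map_mul' := fun γ γ' => by
        apply Units.ext
        have h1 := hζ (γ * γ') τ₀
        rw [Subgroup.coe_mul, mul_smul, hζ, hζ, ← mul_assoc] at h1
        exact (mul_right_cancel₀ hτ₀ h1).symm }
  exact ⟨MonoidHom.toAdditive χ, fun γ τ => hζ γ τ⟩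

/-- **Every `n`-torsion class has a character.** -/
theorem exists_rel {n : ℕ} (hn : n ≠ 0) {c : Pic0 K (FX K N)} (hc : n • c = 0) :
    ∃ χ : Additive (Gamma0 N) →+ Mu, Rel n c χ := by
  obtain ⟨D, rfl⟩ := Pic0.mk_surjective c
  have h1 : ((n • D : Divisor.degZero (K := K) (F := FX K N)) : Divisor K (FX K N)) ∈
      Divisor.principal (K := K) (F := FX K N) := by
    have h0 : (QuotientAddGroup.mk (n • D) : Pic0 K (FX K N)) = 0 := hc
    exact (QuotientAddGroup.eq_zero_iff (n • D)).mp h0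
  obtain ⟨u, hu0, huD⟩ := Divisor.mem_principal.mp h1
  obtain ⟨e, d, hce, hcd, hd0, hud⟩ := exists_good_div u
  have he0 : e ≠ 0 := by rw [← hud]; exact mul_ne_zero hu0 hd0
  obtain ⟨Dd, hDd, hDdeg⟩ := HasPrincipalDivisors.exists_divisor (K := K) d hd0
  have hDp : (QuotientAddGroup.mk (⟨Dd, hDdeg⟩ : Divisor.degZero (K := K) (F := FX K N)) :
      Pic0 K (FX K N)) = 0 := (QuotientAddGroup.eq_zero_iff _).mpr ⟨d, hd0, hDd⟩
  -- `a = u * d ^ n`
  have ha0 : u * d ^ n ≠ 0 := mul_ne_zero hu0 (pow_ne_zero _ hd0)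
  have hag : Good K N ((u * d ^ n : FX K N) : LaurentSeries K) := by
    obtain ⟨m, rfl⟩ := Nat.exists_eq_succ_of_ne_zero hn
    have : u * d ^ (m + 1) = e * d ^ m := by rw [← hud]; ring
    rw [this]
    exact (GoodAlg K N).mul_mem hce ((GoodAlg K N).pow_mem hcd m)
  have hord : ∀ v : Place K (FX K N), v.ord (u * d ^ n) =
      n * ((D + ⟨Dd, hDdeg⟩ : Divisor.degZero (K := K) (F := FX K N)) : Divisor K (FX K N)) v := by
    intro v
    rw [Place.ord_mul _ hu0 (pow_ne_zero _ hd0), ← huD v, ← zpow_natCast, Place.ord_zpow, ← hDd v]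
    show (n • (D : Divisor K (FX K N))) v + _ = n * ((D : Divisor K (FX K N)) v + Dd v)
    rw [Finsupp.smul_apply, nsmul_eq_mul]
    ring
  obtain ⟨h, hh, hhn⟩ := exists_root_of_dvd hn ha0 hag fun v => ⟨_, hord v⟩
  have hne : h ≠ 0 := fun h0 => by
    rw [h0, zero_pow hn] at hhn
    exact ev_ne_zero hag.conv (fun h => ha0 (Subtype.ext h)) hhn.symm
  obtain ⟨χ, hχ⟩ := exists_char (N := N) hn hh hne (fun γ hγ => by rw [hhn]; exact hag.inv γ hγ)
  refine ⟨χ, D + ⟨Dd, hDdeg⟩, u * d ^ n, h, ?_, ha0, hag, hord, hh, hhn, hχ⟩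
  rw [Pic0.mk_add]
  have : Pic0.mk (⟨Dd, hDdeg⟩ : Divisor.degZero (K := K) (F := FX K N)) = 0 := hDp
  rw [this, add_zero]

/-! ### finiteness -/

theorem finite_mu {n : ℕ} (hn : n ≠ 0) : {a : Mu | n • a = 0}.Finite := by
  have h1 : {z : ℂ | z ^ n = 1}.Finite := by
    have h2 : {z : ℂ | z ^ n = 1} ⊆ ((Polynomial.X ^ n - Polynomial.C (1 : ℂ)).roots.toFinset : Set ℂ) := by
      intro z hz
      have hz' : z ^ n = 1 := hz
      simp only [Finset.mem_coe, Multiset.mem_toFinset]
      rw [Polynomial.mem_roots (Polynomial.X_pow_sub_C_ne_zero (Nat.pos_of_ne_zero hn) 1)]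
      simp [hz']
    exact (Finset.finite_toSet _).subset h2
  refine (h1.preimage (f := Mu.val) Mu.val_injective.injOn).subset fun a ha => ?_
  have ha' : n • a = 0 := ha
  show a.val ^ n = 1
  rw [← Mu.val_nsmul, ha', Mu.val_zero]

theorem finite_char {n : ℕ} (hn : n ≠ 0) :
    {χ : Additive (Gamma0 N) →+ Mu | n • χ = 0}.Finite := by
  have hfg : AddGroup.FG (Additive (Gamma0 N)) := by
    have h1 : Group.FG (Gamma0 N) := by
      have h0 : Group.FG SL(2, ℤ) := by
        rw [Group.fg_iff]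
        exact ⟨{ModularGroup.S, ModularGroup.T}, SpecialLinearGroup.SL2Z_generators,
          Set.toFinite _⟩
      exact Subgroup.fg_of_index_ne_zero _
    infer_instance
  obtain ⟨S, hS, hSfin⟩ := AddGroup.fg_iff.mp hfg
  have : Finite S := hSfin.to_subtype
  have : Finite {a : Mu | n • a = 0} := (finite_mu hn).to_subtype
  have hinj : Function.Injective (fun (χ : {χ : Additive (Gamma0 N) →+ Mu | n • χ = 0}) (s : S) =>
      (⟨χ.1 s, by
        show n • χ.1 s = 0
        have h1 : n • χ.1 = 0 := χ.2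
        rw [← AddMonoidHom.nsmul_apply, h1, AddMonoidHom.zero_apply]⟩ :
        {a : Mu | n • a = 0})) := by
    intro χ χ' h
    apply Subtype.ext
    apply AddMonoidHom.eq_of_eqOn_dense hS
    intro s hs
    exact congrArg Subtype.val (congrFun h ⟨s, hs⟩)
  have : Finite {χ : Additive (Gamma0 N) →+ Mu | n • χ = 0} := Finite.of_injective _ hinj
  exact Set.toFinite _

/-- **Finiteness of the torsion of the Jacobian of `X₀(N)`.** -/
theorem finite_torsion {n : ℕ} (hn : n ≠ 0) : Finite (Pic0.torsion K (FX K N) n) := by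
  have : Finite {χ : Additive (Gamma0 N) →+ Mu | n • χ = 0} := (finite_char hn).to_subtype
  have hex : ∀ c : Pic0.torsion K (FX K N) n, ∃ χ : Additive (Gamma0 N) →+ Mu,
      Rel n (c : Pic0 K (FX K N)) χ := fun c => exists_rel hn (by
    have := Pic0.mem_torsion.mp c.2
    rwa [natCast_zsmul] at this)
  choose f hf using hex
  refine Finite.of_injective (fun c => (⟨f c, (hf c).char_torsion hn⟩ :
    {χ : Additive (Gamma0 N) →+ Mu | n • χ = 0})) fun c c' h => ?_
  have h1 : f c = f c' := congrArg Subtype.val h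
  have h2 := hf c
  rw [h1] at h2
  exact Subtype.ext (h2.inj (hf c') hn)

end Root

section Qbar

/-- An embedding of `AlgebraicClosure ℚ` into `ℂ`. -/
def embQbar : AlgebraicClosure ℚ →+* ℂ := by
  let a : Algebra ℚ (AlgebraicClosure ℚ) := AlgebraicClosure.instAlgebra ℚ
  have : Algebra.IsAlgebraic ℚ (AlgebraicClosure ℚ) := AlgebraicClosure.isAlgebraic ℚ
  exact (IsAlgClosed.lift (R := ℚ) (S := AlgebraicClosure ℚ) (M := ℂ)).toRingHom

/-- An algebra structure of `ℂ` over `AlgebraicClosure ℚ`. -/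
@[reducible] def algQbarC : Algebra (AlgebraicClosure ℚ) ℂ := embQbar.toAlgebra

variable (N : ℕ) [NeZero N]

/-- The `n`-torsion of `JZero N` is finite. -/
theorem finite_torsion_bar {n : ℕ} (hn : n ≠ 0) :
    Finite (Pic0.torsion (AlgebraicClosure ℚ) (modularFunctionFieldBar N) n) := by
  let _ := algQbarC
  exact finite_torsion hn

theorem finite_jzero {n : ℕ} (hn : n ≠ 0) : {x : JZero N | n • x = 0}.Finite := by
  have := finite_torsion_bar N hn
  refine (Set.toFinite (Pic0.torsion (AlgebraicClosure ℚ) (modularFunctionFieldBar N) n :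
    Set (Pic0 (AlgebraicClosure ℚ) (modularFunctionFieldBar N)))).subset fun x hx => ?_
  have hx' : n • x = 0 := hx
  show x ∈ Pic0.torsion _ _ n
  rw [Pic0.mem_torsion, natCast_zsmul]
  exact hx'

end Qbar

end Fermat.Agent.H90

end
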