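/-
H31Lucas: the "Lucas/Dickson" sequence `luc t d j` (= x^j + y^j when x + y = t, x y = d) and its
relation with traces of powers of 2 x 2 matrices and powers of solutions of quadratic equations.
-/
import Mathlib.LinearAlgebra.Charpoly.Basic
import Mathlib.LinearAlgebra.Trace
import Mathlib.LinearAlgebra.Matrix.Charpoly.Coeff
import Mathlib.LinearAlgebra.Charpoly.ToMatrix
import Mathlib.RingTheory.Ideal.Operations
import Mathlib.LinearAlgebra.FreeModule.Basic
import Mathlib.Tactic

set_option autoImplicit false

namespace Fermat.Agent.H31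

open Polynomial

/-- `luc t d j = x^j + y^j` for `x + y = t`, `x y = d`. -/
def luc {R : Type*} [CommRing R] (t d : R) : ℕ → R
  | 0 => 2
  | 1 => t
  | (n + 2) => t * luc t d (n + 1) - d * luc t d n

@[simp] theorem luc_zero {R : Type*} [CommRing R] (t d : R) : luc t d 0 = 2 := by
  simp [luc]

@[simp] theorem luc_one {R : Type*} [CommRing R] (t d : R) : luc t d 1 = t := by
  simp [luc]

theorem luc_add_two {R : Type*} [CommRing R] (t d : R) (n : ℕ) :
    luc t d (n + 2) = t * luc t d (n + 1) - d * luc t d n := by
  simp [luc]

theorem map_luc {R S : Type*} [CommRing R] [CommRing S] (f : R →+* S) (t d : R) (n : ℕ) :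
    f (luc t d n) = luc (f t) (f d) n := by
  induction n using Nat.twoStepInduction with
  | zero => simp only [luc_zero]; exact map_ofNat f 2
  | one => simp
  | more n h0 h1 => rw [luc_add_two, luc_add_two, map_sub, map_mul, map_mul, h0, h1]

theorem luc_eq_add_pow {E : Type*} [CommRing E] (x y : E) (n : ℕ) :
    luc (x + y) (x * y) n = x ^ n + y ^ n := by
  induction n using Nat.twoStepInduction with
  | zero => norm_num
  | one => simp
  | more n h0 h1 => rw [luc_add_two, h0, h1]; ring

/-- If `x ^ 2 - t x + d = 0` in an `R`-algebra then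
`x ^ (2 j) - (luc t d j) x ^ j + d ^ j = 0`. -/
theorem quadratic_pow {R E : Type*} [CommRing R] [Ring E] [Algebra R E] (t d : R) (x : E)
    (h : x * x - algebraMap R E t * x + algebraMap R E d = 0) (j : ℕ) :
    x ^ j * x ^ j - algebraMap R E (luc t d j) * x ^ j + algebraMap R E (d ^ j) = 0 := by
  set y : E := algebraMap R E t - x with hy
  have hxy : x * y = algebraMap R E d := by
    have h1 : x * y = algebraMap R E t * x - x * x := by
      rw [hy, mul_sub, Algebra.commutes t x]
    have h2 : algebraMap R E d = algebraMap R E t * x - x * x := by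
      have := eq_neg_of_add_eq_zero_right h
      rw [this]; abel
    rw [h1, h2]
  have hyx : y * x = algebraMap R E d := by
    rw [← hxy, hy, sub_mul, mul_sub, Algebra.commutes t x]
  have hcomm : Commute x y := by rw [Commute, SemiconjBy, hxy, hyx]
  have key : ∀ n : ℕ, algebraMap R E (luc t d n) = x ^ n + y ^ n := by
    intro n
    induction n using Nat.twoStepInduction with
    | zero => simp only [luc_zero, map_ofNat, pow_zero]; norm_num
    | one => simp [hy]
    | more n h0 h1 =>
      rw [luc_add_two, map_sub, map_mul, map_mul, h0, h1, ← hxy]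
      have hxyt : algebraMap R E t = x + y := by rw [hy]; abel
      rw [hxyt]
      have e1 : (x + y) * (x ^ (n + 1) + y ^ (n + 1)) =
          x ^ (n + 2) + y ^ (n + 2) + (x * y ^ (n + 1) + y * x ^ (n + 1)) := by
        rw [add_mul, mul_add, mul_add, pow_succ' x (n + 1), pow_succ' y (n + 1)]
        abel
      have e2 : (x * y) * (x ^ n + y ^ n) = x * y ^ (n + 1) + y * x ^ (n + 1) := by
        rw [mul_add]
        have a1 : x * y * x ^ n = y * x ^ (n + 1) := by
          rw [hcomm.eq, mul_assoc, ← pow_succ']
        have a2 : x * y * y ^ n = x * y ^ (n + 1) := by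
          rw [mul_assoc, ← pow_succ']
        rw [a1, a2]; abel
      rw [e1, e2]; abel
  rw [key j, map_pow, ← hyx, hcomm.symm.mul_pow]
  rw [add_mul]
  abel

section Rank2

variable {T : Type*} [CommRing T] {V : Type*} [AddCommGroup V] [Module T V] [Module.Free T V]
  [Module.Finite T V]

theorem trace_eq_of_charpoly [Nontrivial T] (hr : Module.finrank T V = 2) (f : Module.End T V) (t d : T)
    (h : LinearMap.charpoly f = X ^ 2 - C t * X + C d) : LinearMap.trace T V f = t := by
  let b := Module.finBasisOfFinrankEq T V hr
  rw [LinearMap.trace_eq_matrix_trace T b, Matrix.trace_eq_neg_charpoly_coeff,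
    LinearMap.charpoly_toMatrix, h]
  simp

theorem det_eq_of_charpoly [Nontrivial T] (hr : Module.finrank T V = 2) (f : Module.End T V) (t d : T)
    (h : LinearMap.charpoly f = X ^ 2 - C t * X + C d) : LinearMap.det f = d := by
  let b := Module.finBasisOfFinrankEq T V hr
  rw [← LinearMap.det_toMatrix b, Matrix.det_eq_sign_charpoly_coeff,
    LinearMap.charpoly_toMatrix, h]
  simp

/-- the trace of the `j`-th power of an endomorphism of a free module of rank 2. -/
theorem trace_pow_of_charpoly [Nontrivial T] (hr : Module.finrank T V = 2) (f : Module.End T V) (t d : T)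
    (h : LinearMap.charpoly f = X ^ 2 - C t * X + C d) (j : ℕ) :
    LinearMap.trace T V (f ^ j) = luc t d j := by
  have hCH : f * f = t • f - d • (1 : Module.End T V) := by
    have h1 := LinearMap.aeval_self_charpoly f
    rw [h] at h1
    simp only [map_add, map_sub, map_mul, map_pow, aeval_X, aeval_C] at h1
    rw [← sub_eq_zero]
    rw [← h1, Algebra.algebraMap_eq_smul_one, Algebra.algebraMap_eq_smul_one, smul_mul_assoc,
      one_mul, sq]
    abel
  induction j using Nat.twoStepInduction with
  | zero => rw [pow_zero, LinearMap.trace_one, hr, luc_zero]; norm_num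
  | one => rw [pow_one, luc_one]; exact trace_eq_of_charpoly hr f t d h
  | more n h0 h1 =>
    have e : f ^ (n + 2) = t • f ^ (n + 1) - d • f ^ n := by
      rw [pow_add f n 2, pow_two, hCH, mul_sub, mul_smul_comm, mul_smul_comm, mul_one, pow_succ]
    rw [e, map_sub, map_smul, map_smul, h0, h1, luc_add_two, smul_eq_mul, smul_eq_mul]

/-- If all values of `f` lie in `I • ⊤` then the trace of `f` lies in `I`. -/
theorem trace_mem_of_forall_mem (I : Ideal T) (f : Module.End T V)
    (h : ∀ v, f v ∈ I • (⊤ : Submodule T V)) : LinearMap.trace T V f ∈ I := by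
  classical
  let b := Module.Free.chooseBasis T V
  rw [LinearMap.trace_eq_matrix_trace T b, Matrix.trace]
  refine Ideal.sum_mem _ fun i _ => ?_
  rw [Matrix.diag_apply, LinearMap.toMatrix_apply]
  have key : ∀ v ∈ I • (⊤ : Submodule T V), ∀ i, b.repr v i ∈ I := by
    intro v hv i
    refine Submodule.smul_induction_on (p := fun v => b.repr v i ∈ I) hv ?_ ?_
    · intro r hr n _
      rw [map_smul, Finsupp.smul_apply, smul_eq_mul]
      exact I.mul_mem_right _ hr
    · intro x y hx hy
      rw [map_add, Finsupp.add_apply]
      exact I.add_mem hx hy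
  exact key _ (h _) i

end Rank2

end Fermat.Agent.H31
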