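/-
H31Glue: reduction of S31 (unramifiedness of a Hecke-Galois datum outside `S`) to
 (a) the weak Frobenius density theorem,
 (b) nondegeneracy of the trace form for residually absolutely irreducible representations,
 (c) a congruence between Hecke operators.
-/
import Fermat.Prelude.Def_CuspForm_HeckeGaloisRepDatum
import Fermat.Agent.H31Lucas

set_option autoImplicit false

noncomputable section

namespace Fermat.Agent.H31

open Polynomial CuspForm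

/-- The absolute Galois group of `ℚ` -/
abbrev GQ : Type := AlgebraicClosure ℚ ≃ₐ[ℚ] AlgebraicClosure ℚ

/-- Weak form of the Frobenius density theorem. -/
def WeakFrobeniusDensity : Prop :=
  ∀ (L : IntermediateField ℚ (AlgebraicClosure ℚ)), FiniteDimensional ℚ L → ∀ (S : Finset ℕ) (g : GQ),
    ∃ ℓ : ℕ, ℓ.Prime ∧ ℓ ∉ S ∧ ∃ A : ValuationSubring (AlgebraicClosure ℚ), A.LiesOverPrime ℓ ∧
      ∃ φ : GQ, A.IsFrobeniusAt φ ℓ ∧ ∃ j : ℕ, ∀ x ∈ L, g x = (φ ^ j) x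

/-- Nondegeneracy of the trace form for a Galois representation. -/
def TraceFormNondegenerate {A : Type} [CommRing A] [IsLocalRing A] (ρ : GaloisRepAdic A) : Prop :=
  ∀ x : Module.End A ρ.V, (∀ g : GQ, LinearMap.trace A ρ.V (ρ.ρ g * x) = 0) → x = 0

/-- The Hecke congruence input for `S31`. -/
def CongInput (N : ℕ) [NeZero N] (S : Finset ℕ) (p q : ℕ) : Prop :=
  ∀ n : ℕ, ∃ (u : ℕ) (L : IntermediateField ℚ (AlgebraicClosure ℚ)), ¬ p ∣ u ∧ FiniteDimensional ℚ L ∧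
    ∀ (B : ValuationSubring (AlgebraicClosure ℚ)), B.LiesOverPrime q → ∀ τ ∈ B.inertiaSubgroupIn ℚ,
    ∀ g : GQ,
    ∀ (ℓ : ℕ) (hℓ : ℓ.Prime) (hℓN : ¬ ℓ ∣ N) (hℓS : ℓ ∉ (↑S : Set ℕ))
      (A : ValuationSubring (AlgebraicClosure ℚ)) (_ : A.LiesOverPrime ℓ) (φ : GQ)
      (_ : A.IsFrobeniusAt φ ℓ) (j : ℕ) (_ : ∀ x ∈ L, g x = (φ ^ j) x)
      (ℓ' : ℕ) (hℓ' : ℓ'.Prime) (hℓN' : ¬ ℓ' ∣ N) (hℓS' : ℓ' ∉ (↑S : Set ℕ))
      (A' : ValuationSubring (AlgebraicClosure ℚ)) (_ : A'.LiesOverPrime ℓ') (φ' : GQ)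
      (_ : A'.IsFrobeniusAt φ' ℓ') (j' : ℕ) (_ : ∀ x ∈ L, (g * τ) x = (φ' ^ j') x),
      ∃ y : heckeAlgebra N 2 (↑S : Set ℕ),
        (u : heckeAlgebra N 2 (↑S : Set ℕ)) *
          (luc (heckeAlgebra.T hℓ hℓN hℓS : heckeAlgebra N 2 (↑S : Set ℕ)) (ℓ : heckeAlgebra N 2 (↑S : Set ℕ)) j -
            luc (heckeAlgebra.T hℓ' hℓN' hℓS' : heckeAlgebra N 2 (↑S : Set ℕ)) (ℓ' : heckeAlgebra N 2 (↑S : Set ℕ)) j') =
          (p : heckeAlgebra N 2 (↑S : Set ℕ)) ^ n * y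

section

variable {A : Type} [CommRing A] [IsLocalRing A] (ρ : GaloisRepAdic A)

/-- If `σ` and `τ` agree on a field of definition of `ρ mod m^n`, then `ρ σ ≡ ρ τ mod m ^ n`. -/
theorem sub_mem_of_agree (n : ℕ) (L : IntermediateField ℚ (AlgebraicClosure ℚ))
    (hL : ∀ σ : GQ, (∀ x ∈ L, σ x = x) →
      ∀ v : ρ.V, ρ.ρ σ v - v ∈ (IsLocalRing.maximalIdeal A ^ n) • (⊤ : Submodule A ρ.V))
    (σ τ : GQ) (h : ∀ x ∈ L, σ x = τ x) (v : ρ.V) :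
    (ρ.ρ σ - ρ.ρ τ) v ∈ (IsLocalRing.maximalIdeal A ^ n) • (⊤ : Submodule A ρ.V) := by
  have h1 : ∀ x ∈ L, (τ⁻¹ * σ) x = x := by
    intro x hx
    rw [AlgEquiv.mul_apply, h x hx]
    exact τ.symm_apply_apply x
  have h2 := hL _ h1 v
  have h3 : (ρ.ρ σ - ρ.ρ τ) v = ρ.ρ τ (ρ.ρ (τ⁻¹ * σ) v - v) := by
    rw [map_sub, LinearMap.sub_apply, ← Module.End.mul_apply, ← map_mul, mul_inv_cancel_left]
  rw [h3]
  have h4 : (IsLocalRing.maximalIdeal A ^ n • (⊤ : Submodule A ρ.V)).map (ρ.ρ τ) ≤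
      IsLocalRing.maximalIdeal A ^ n • (⊤ : Submodule A ρ.V) := by
    rw [Submodule.map_smul'']
    exact Submodule.smul_mono le_rfl le_top
  exact h4 (Submodule.mem_map_of_mem h2)

theorem trace_sub_mem_of_agree (n : ℕ) (L : IntermediateField ℚ (AlgebraicClosure ℚ))
    (hL : ∀ σ : GQ, (∀ x ∈ L, σ x = x) →
      ∀ v : ρ.V, ρ.ρ σ v - v ∈ (IsLocalRing.maximalIdeal A ^ n) • (⊤ : Submodule A ρ.V))
    (σ τ : GQ) (h : ∀ x ∈ L, σ x = τ x) :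
    LinearMap.trace A ρ.V (ρ.ρ σ) - LinearMap.trace A ρ.V (ρ.ρ τ) ∈ IsLocalRing.maximalIdeal A ^ n := by
  rw [← map_sub]
  exact trace_mem_of_forall_mem _ _ (sub_mem_of_agree ρ n L hL σ τ h)

end

theorem isUnramifiedAt_of_congInput
    (hdens : WeakFrobeniusDensity)
    {p : ℕ} {N : ℕ} [NeZero N] {S : Finset ℕ}
    {𝒪 : Type} [CommRing 𝒪] [IsDomain 𝒪] [IsDiscreteValuationRing 𝒪]
    [IsAdicComplete (IsLocalRing.maximalIdeal 𝒪) 𝒪]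
    {θ : CuspForm.heckeAlgebra N 2 (↑S : Set ℕ) →+* IsLocalRing.ResidueField 𝒪}
    {T : Type} [CommRing T] [IsLocalRing T] [IsNoetherianRing T]
    [IsAdicComplete (IsLocalRing.maximalIdeal T) T] [Algebra 𝒪 T] [IsLocalHom (algebraMap 𝒪 T)]
    [Module.Finite 𝒪 T] [Module.Free 𝒪 T]
    (hp : p.Prime)
    (hp𝒪 : (p : 𝒪) ∈ IsLocalRing.maximalIdeal 𝒪)
    (hNS : ∀ q : ℕ, q.Prime → q ∣ N → q ∈ S)
    (H : CuspForm.HeckeGaloisRepDatum N (↑S : Set ℕ) 𝒪 θ T)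
    (hnd : TraceFormNondegenerate H.ρ)
    (q : ℕ) (hcong : CongInput N S p q) :
    H.ρ.IsUnramifiedAt q := by
  intro B hB τ hτ
  have hpT : (p : T) ∈ IsLocalRing.maximalIdeal T := by
    have h1 : algebraMap 𝒪 T (p : 𝒪) ∈ IsLocalRing.maximalIdeal T := by
      rw [IsLocalRing.mem_maximalIdeal] at hp𝒪 ⊢
      exact map_mem_nonunits_iff (algebraMap 𝒪 T) _ |>.mpr hp𝒪
    rwa [map_natCast] at h1
  have hunit : ∀ u : ℕ, ¬ p ∣ u → IsUnit (u : T) := by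
    intro u hu
    have hcop : Nat.Coprime p u := (Nat.Prime.coprime_iff_not_dvd hp).mpr hu
    by_contra hnu
    have hu' : (u : T) ∈ IsLocalRing.maximalIdeal T := by
      rwa [IsLocalRing.mem_maximalIdeal, mem_nonunits_iff]
    have hbez := Nat.isCoprime_iff_coprime.mpr hcop
    obtain ⟨a, b, hab⟩ := hbez
    have h1 : (1 : T) ∈ IsLocalRing.maximalIdeal T := by
      have : (1 : T) = (a : T) * (p : T) + (b : T) * (u : T) := by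
        have := congrArg (Int.cast : ℤ → T) hab
        push_cast at this
        exact this.symm
      rw [this]
      exact Ideal.add_mem _ (Ideal.mul_mem_left _ _ hpT) (Ideal.mul_mem_left _ _ hu')
    exact (Ideal.ne_top_iff_one _).mp (IsLocalRing.maximalIdeal.isMaximal T).ne_top h1
  -- it suffices to show traces agree
  suffices hx : H.ρ.ρ τ - 1 = 0 by rwa [sub_eq_zero] at hx
  apply hnd
  intro g
  rw [mul_sub, mul_one, ← map_mul, map_sub]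
  set M := IsLocalRing.maximalIdeal T with hM
  apply IsHausdorff.haus (I := M) inferInstance
  intro n
  rw [SModEq.zero, smul_eq_mul, Ideal.mul_top]
  obtain ⟨L₁, hL₁, hL₁'⟩ := H.ρ.isAdicContinuous n
  obtain ⟨u, L₂, hu, hL₂, hL₂'⟩ := hcong n
  have := hL₁
  have := hL₂
  obtain ⟨ℓ, hℓ, hℓS, A, hA, φ, hφ, j, hj⟩ := hdens (L₁ ⊔ L₂) inferInstance S g
  obtain ⟨ℓ', hℓ', hℓS', A', hA', φ', hφ', j', hj'⟩ := hdens (L₁ ⊔ L₂) inferInstance S (g * τ)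
  have hℓN : ¬ ℓ ∣ N := fun h => hℓS (hNS ℓ hℓ h)
  have hℓN' : ¬ ℓ' ∣ N := fun h => hℓS' (hNS ℓ' hℓ' h)
  have hle₁ : L₁ ≤ L₁ ⊔ L₂ := le_sup_left
  have hle₂ : L₂ ≤ L₁ ⊔ L₂ := le_sup_right
  have hℓS2 : ℓ ∉ (↑S : Set ℕ) := by simpa using hℓS
  have hℓS2' : ℓ' ∉ (↑S : Set ℕ) := by simpa using hℓS'
  obtain ⟨y, hy⟩ := hL₂' B hB τ hτ g ℓ hℓ hℓN hℓS2 A hA φ hφ j (fun x hx => hj x (hle₂ hx))
    ℓ' hℓ' hℓN' hℓS2' A' hA' φ' hφ' j' (fun x hx => hj' x (hle₂ hx))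
  have e1 := trace_sub_mem_of_agree H.ρ n L₁ hL₁' g (φ ^ j) (fun x hx => hj x (hle₁ hx))
  have e2 := trace_sub_mem_of_agree H.ρ n L₁ hL₁' (g * τ) (φ' ^ j') (fun x hx => hj' x (hle₁ hx))
  have c1 := H.charpoly_frob ℓ hℓ hℓN hℓS2 A hA φ hφ
  have c2 := H.charpoly_frob ℓ' hℓ' hℓN' hℓS2' A' hA' φ' hφ'
  have t1 := trace_pow_of_charpoly H.ρ.finrank_eq (H.ρ.ρ φ) _ _ c1 j
  have t2 := trace_pow_of_charpoly H.ρ.finrank_eq (H.ρ.ρ φ') _ _ c2 j'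
  rw [← map_pow] at t1 t2
  rw [t1] at e1
  rw [t2] at e2
  have key : luc (H.π (heckeAlgebra.T hℓ hℓN hℓS2)) (ℓ : T) j -
      luc (H.π (heckeAlgebra.T hℓ' hℓN' hℓS2')) (ℓ' : T) j' ∈ M ^ n := by
    have h1 := congrArg H.π hy
    rw [map_mul, map_sub, map_luc, map_luc, map_natCast, map_natCast, map_natCast, map_mul, map_pow,
      map_natCast] at h1
    have h2 : (p : T) ^ n * H.π y ∈ M ^ n :=
      Ideal.mul_mem_right _ _ (Ideal.pow_mem_pow hpT n)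
    rw [← h1] at h2
    exact (Ideal.unit_mul_mem_iff_mem _ (hunit u hu)).mp h2
  have : LinearMap.trace T H.ρ.V (H.ρ.ρ (g * τ)) - LinearMap.trace T H.ρ.V (H.ρ.ρ g) =
      (LinearMap.trace T H.ρ.V (H.ρ.ρ (g * τ)) - luc (H.π (heckeAlgebra.T hℓ' hℓN' hℓS2')) (ℓ' : T) j') -
      (LinearMap.trace T H.ρ.V (H.ρ.ρ g) - luc (H.π (heckeAlgebra.T hℓ hℓN hℓS2)) (ℓ : T) j) -
      (luc (H.π (heckeAlgebra.T hℓ hℓN hℓS2)) (ℓ : T) j -
      luc (H.π (heckeAlgebra.T hℓ' hℓN' hℓS2')) (ℓ' : T) j') := by ring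
  rw [this]
  exact Ideal.sub_mem _ (Ideal.sub_mem _ e2 e1) key

end Fermat.Agent.H31
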