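/-
H31Mod: the Hecke congruence input of S31 from a Galois-Hecke module (such as `J_0(N)`):
unramified outside `N p`, quadratic Frobenius relation, finite level, and faithfulness.
-/
import Fermat.Prelude.Def_HeckeGalois_EichlerShimura
import Fermat.Agent.H31Glue
import Fermat.Agent.H31Cyclo
import Mathlib.RingTheory.RootsOfUnity.AlgebraicallyClosed
import Mathlib.FieldTheory.IsAlgClosed.AlgebraicClosure
import Mathlib.RingTheory.Algebraic.Integral
import Mathlib.FieldTheory.IntermediateField.Algebraic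

set_option autoImplicit false

noncomputable section

namespace Fermat.Agent.H31

open Polynomial CuspForm ModularCurve

/-- Good primes for `N` and `S` -/
abbrev GoodPrimes (N : ℕ) (S : Set ℕ) : Type := {ℓ : Nat.Primes // ¬ (ℓ : ℕ) ∣ N ∧ (ℓ : ℕ) ∉ S}

/-- evaluation of integer polynomials in the good Hecke operators, on cusp forms -/
def evHecke (N : ℕ) [NeZero N] (S : Set ℕ) :
    MvPolynomial (GoodPrimes N S) ℤ →+* heckeAlgebra N 2 S :=
  MvPolynomial.eval₂Hom (Int.castRingHom _)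
    (fun ℓ => heckeAlgebra.T ℓ.1.2 ℓ.2.1 ℓ.2.2)

/-- inclusion of the polynomial ring in the good Hecke operators in the Prelude `HeckeAlg` -/
def inclHecke (N : ℕ) (S : Set ℕ) : MvPolynomial (GoodPrimes N S) ℤ →ₐ[ℤ] HeckeAlg :=
  MvPolynomial.rename Subtype.val

@[simp] theorem evHecke_X (N : ℕ) [NeZero N] (S : Set ℕ) (ℓ : GoodPrimes N S) :
    evHecke N S (MvPolynomial.X ℓ) = heckeAlgebra.T ℓ.1.2 ℓ.2.1 ℓ.2.2 :=
  MvPolynomial.eval₂_X _ _ _

@[simp] theorem inclHecke_X (N : ℕ) (S : Set ℕ) (ℓ : GoodPrimes N S) :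
    inclHecke N S (MvPolynomial.X ℓ) = heckeGen ℓ.1 := MvPolynomial.rename_X _ _

section

variable (N : ℕ) [NeZero N] (S : Set ℕ) (p : ℕ)
  (J : Type*) [AddCommGroup J] [Module HeckeAlg J]

/-- Faithfulness of the action of Hecke operators on `p`-power torsion, up to bounded index. -/
def HeckeFaithful : Prop :=
  ∃ c u : ℕ, ¬ p ∣ u ∧ ∀ (n : ℕ) (P : MvPolynomial (GoodPrimes N S) ℤ),
    (∀ x : J, p ^ n • x = 0 → inclHecke N S P • x = 0) →
      ∃ y : heckeAlgebra N 2 S, (u : heckeAlgebra N 2 S) * evHecke N S P =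
        (p : heckeAlgebra N 2 S) ^ (n - c) * y

/-- The Galois action on `p`-power torsion is of finite level -/
def FiniteLevel [DistribMulAction GQ J] : Prop :=
  ∀ n : ℕ, ∃ L : IntermediateField ℚ (AlgebraicClosure ℚ), FiniteDimensional ℚ L ∧
    ∀ σ : GQ, (∀ x ∈ L, σ x = x) → ∀ x : J, p ^ n • x = 0 → σ • x = x

end

section

variable {p : ℕ} {J : Type*} [AddCommGroup J] [Module HeckeAlg J] [DistribMulAction GQ J]
  [SMulCommClass GQ HeckeAlg J]

/-- The action of Galois on the `p ^ n`-torsion, as `HeckeAlg`-linear endomorphisms. -/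
def torsEnd (p n : ℕ) (J : Type*) [AddCommGroup J] [Module HeckeAlg J] [DistribMulAction GQ J]
    [SMulCommClass GQ HeckeAlg J] :
    GQ →* Module.End HeckeAlg (Submodule.torsionBy HeckeAlg J ((p : HeckeAlg) ^ n)) where
  toFun g :=
    { toFun := fun x => ⟨g • (x : J), by
        have hx := x.2
        rw [Submodule.mem_torsionBy_iff] at hx ⊢
        rw [← smul_comm g, hx, smul_zero]⟩
      map_add' := fun x y => Subtype.ext (smul_add g (x : J) (y : J))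
      map_smul' := fun r x => Subtype.ext (smul_comm g r (x : J)) }
  map_one' := LinearMap.ext fun x => Subtype.ext (one_smul _ (x : J))
  map_mul' g h := LinearMap.ext fun x => Subtype.ext (mul_smul g h (x : J))

theorem coe_torsEnd_apply (n : ℕ) (g : GQ)
    (x : Submodule.torsionBy HeckeAlg J ((p : HeckeAlg) ^ n)) :
    ((torsEnd p n J g x : Submodule.torsionBy HeckeAlg J ((p : HeckeAlg) ^ n)) : J) = g • (x : J) := rfl

omit [DistribMulAction GQ J] [SMulCommClass GQ HeckeAlg J] in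
theorem nsmul_eq_zero_of_mem {n : ℕ}
    (x : Submodule.torsionBy HeckeAlg J ((p : HeckeAlg) ^ n)) : p ^ n • (x : J) = 0 := by
  have hx : ((p : HeckeAlg) ^ n) • (x : J) = 0 := (Submodule.mem_torsionBy_iff _ _).mp x.2
  have e : ((p ^ n : ℕ) : HeckeAlg) = ((p : HeckeAlg) ^ n) := by push_cast; rfl
  rw [← Nat.cast_smul_eq_nsmul HeckeAlg, e]
  exact hx

theorem torsEnd_eq_of_agree {n : ℕ} {L : IntermediateField ℚ (AlgebraicClosure ℚ)}
    (hL : ∀ σ : GQ, (∀ x ∈ L, σ x = x) → ∀ x : J, p ^ n • x = 0 → σ • x = x)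
    (σ τ : GQ) (h : ∀ x ∈ L, σ x = τ x) : torsEnd p n J σ = torsEnd p n J τ := by
  have h1 : ∀ x ∈ L, (τ⁻¹ * σ) x = x := by
    intro x hx
    rw [AlgEquiv.mul_apply, h x hx]
    exact τ.symm_apply_apply x
  have h2 := hL _ h1
  have h3 : torsEnd p n J (τ⁻¹ * σ) = 1 := by
    refine LinearMap.ext fun x => Subtype.ext ?_
    rw [coe_torsEnd_apply]
    exact h2 _ (nsmul_eq_zero_of_mem x)
  have h4 : σ = τ * (τ⁻¹ * σ) := by group
  rw [h4, map_mul, h3, mul_one]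

theorem frobenius_quadratic_torsEnd {N : ℕ} (hF : FrobeniusQuadratic (K := ℚ) (L := AlgebraicClosure ℚ) N p J)
    (n : ℕ) {ℓ : ℕ} (hℓ : ℓ.Prime) (hℓN : ¬ ℓ ∣ N * p) {A : ValuationSubring (AlgebraicClosure ℚ)}
    (hA : A.LiesOverPrime ℓ) {φ : GQ} (hφ : A.IsFrobeniusAt φ ℓ) :
    torsEnd p n J φ * torsEnd p n J φ -
      algebraMap HeckeAlg (Module.End HeckeAlg (Submodule.torsionBy HeckeAlg J ((p : HeckeAlg) ^ n)))
        (heckeGen ⟨ℓ, hℓ⟩) * torsEnd p n J φ +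
      algebraMap HeckeAlg (Module.End HeckeAlg (Submodule.torsionBy HeckeAlg J ((p : HeckeAlg) ^ n)))
        (ℓ : HeckeAlg) = 0 := by
  refine LinearMap.ext fun x => Subtype.ext ?_
  have h := hF ℓ hℓ hℓN A hA φ hφ (x : J) ⟨n, nsmul_eq_zero_of_mem x⟩
  simp only [LinearMap.add_apply, LinearMap.sub_apply, Module.End.mul_apply,
    Module.algebraMap_end_apply, Submodule.coe_add, Submodule.coe_sub, Submodule.coe_smul,
    coe_torsEnd_apply, LinearMap.zero_apply, Submodule.coe_zero]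
  rw [Nat.cast_smul_eq_nsmul]
  exact h

omit [DistribMulAction GQ J] [SMulCommClass GQ HeckeAlg J] in
theorem sub_mul_eq_of_quadratic {R E : Type*} [CommRing R] [Ring E] [Algebra R E] (a₁ a₂ d₁ d₂ : R)
    (x : E) (h1 : x * x - algebraMap R E a₁ * x + algebraMap R E d₁ = 0)
    (h2 : x * x - algebraMap R E a₂ * x + algebraMap R E d₂ = 0) :
    algebraMap R E (a₁ - a₂) * x = algebraMap R E (d₁ - d₂) := by
  have h3 : (x * x - algebraMap R E a₁ * x + algebraMap R E d₁) -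
      (x * x - algebraMap R E a₂ * x + algebraMap R E d₂) = 0 := by rw [h1, h2, sub_zero]
  rw [map_sub, map_sub, sub_mul, ← sub_eq_zero, ← neg_eq_zero, ← h3]
  abel

/-- The Hecke congruence input from a Galois-Hecke module. -/
theorem congInput_of_module {N : ℕ} [NeZero N] {S : Finset ℕ} (hp : p.Prime) (hpS : p ∈ S)
    {q : ℕ} (hq : q.Prime) (hqN : ¬ q ∣ N * p)
    (hU : UnramifiedOutside (K := ℚ) (L := AlgebraicClosure ℚ) N p J)
    (hF : FrobeniusQuadratic (K := ℚ) (L := AlgebraicClosure ℚ) N p J)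
    (hfin : FiniteLevel p J) (hfaith : HeckeFaithful N (↑S : Set ℕ) p J) :
    CongInput N S p q := by
  intro n
  obtain ⟨c, u, hu, hfaith⟩ := hfaith
  set m := n + c with hm
  obtain ⟨L₁, hL₁, hL₁'⟩ := hfin m
  -- a primitive root of unity
  have hpm : 0 < p ^ m := pow_pos hp.pos m
  have : NeZero (p ^ m) := ⟨hpm.ne'⟩
  obtain ⟨ζ, hζ⟩ := HasEnoughRootsOfUnity.exists_primitiveRoot (AlgebraicClosure ℚ) (p ^ m)
  set L₂ : IntermediateField ℚ (AlgebraicClosure ℚ) := IntermediateField.adjoin ℚ {ζ} with hL₂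
  have halg : Algebra.IsAlgebraic ℚ (AlgebraicClosure ℚ) := AlgebraicClosure.isAlgebraic ℚ
  have hfd₂ : FiniteDimensional ℚ L₂ :=
    IntermediateField.adjoin.finiteDimensional (Algebra.IsAlgebraic.isAlgebraic (R := ℚ) ζ).isIntegral
  refine ⟨u, L₁ ⊔ L₂, hu, inferInstance, ?_⟩
  intro B hB τ hτ g ℓ hℓ hℓN hℓS A hA φ hφ j hj ℓ' hℓ' hℓN' hℓS' A' hA' φ' hφ' j' hj'
  have hle₁ : L₁ ≤ L₁ ⊔ L₂ := le_sup_left
  have hle₂ : L₂ ≤ L₁ ⊔ L₂ := le_sup_right
  have hζL : ζ ∈ L₂ := IntermediateField.subset_adjoin ℚ _ (Set.mem_singleton ζ)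
  have hpℓ : ∀ r : ℕ, r.Prime → r ∉ (↑S : Set ℕ) → Nat.Coprime r (p ^ m) := by
    intro r hr hrS
    refine Nat.Coprime.pow_right m ((Nat.coprime_primes hr hp).mpr ?_)
    rintro rfl
    exact hrS (by simpa using hpS)
  have hgood : ∀ r : ℕ, r.Prime → ¬ r ∣ N → r ∉ (↑S : Set ℕ) → ¬ r ∣ N * p := by
    intro r hr hrN hrS h
    rcases hr.dvd_mul.mp h with h | h
    · exact hrN h
    · have := (Nat.prime_dvd_prime_iff_eq hr hp).mp h
      subst this
      exact hrS (by simpa using hpS)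
  have hqp : Nat.Coprime q (p ^ m) := by
    refine Nat.Coprime.pow_right m ((Nat.coprime_primes hq hp).mpr ?_)
    rintro rfl
    exact hqN (Dvd.intro_left N rfl)
  -- the determinant congruence
  have hfrob : ∀ {r : ℕ}, r.Prime → r ∉ (↑S : Set ℕ) → ∀ {C : ValuationSubring (AlgebraicClosure ℚ)},
      C.LiesOverPrime r → ∀ {ψ : GQ}, C.IsFrobeniusAt ψ r → ∀ i : ℕ, (ψ ^ i) ζ = ζ ^ (r ^ i) := by
    intro r hr hrS C hC ψ hψ i
    induction i with
    | zero => simp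
    | succ i ih =>
      rw [pow_succ, AlgEquiv.mul_apply,
        frobenius_apply_rootOfUnity C hC (hpℓ r hr hrS) hpm hψ hζ.pow_eq_one, map_pow, ih,
        ← pow_mul, ← pow_succ]
  have hdet : ζ ^ (ℓ ^ j) = ζ ^ (ℓ' ^ j') := by
    rw [← hfrob hℓ hℓS hA hφ j, ← hfrob hℓ' hℓS' hA' hφ' j', ← hj ζ (hle₂ hζL),
      ← hj' ζ (hle₂ hζL), AlgEquiv.mul_apply,
      inertia_apply_rootOfUnity B hB hqp hpm hτ hζ.pow_eq_one]
  have hmod : ((p ^ m : ℕ) : ℤ) ∣ (ℓ : ℤ) ^ j - (ℓ' : ℤ) ^ j' := by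
    have h2 : ℓ ^ j ≡ ℓ' ^ j' [MOD p ^ m] := by
      have hζ0 : ζ ≠ 0 := hζ.ne_zero hpm.ne'
      rw [hζ.eq_orderOf, ← Units.val_mk0 hζ0, orderOf_units]
      refine (pow_eq_pow_iff_modEq).mp (Units.ext ?_)
      simpa using hdet
    have h3 := (Nat.modEq_iff_dvd.mp h2.symm)
    push_cast at h3 ⊢
    exact h3
  -- the two quadratic relations
  have q1 := quadratic_pow (heckeGen ⟨ℓ, hℓ⟩) (ℓ : HeckeAlg) (torsEnd p m J φ)
    (frobenius_quadratic_torsEnd hF m hℓ (hgood ℓ hℓ hℓN hℓS) hA hφ) j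
  have q2 := quadratic_pow (heckeGen ⟨ℓ', hℓ'⟩) (ℓ' : HeckeAlg) (torsEnd p m J φ')
    (frobenius_quadratic_torsEnd hF m hℓ' (hgood ℓ' hℓ' hℓN' hℓS') hA' hφ') j'
  have g1 : torsEnd p m J g = torsEnd p m J φ ^ j := by
    rw [← map_pow]
    exact torsEnd_eq_of_agree hL₁' _ _ (fun x hx => hj x (hle₁ hx))
  have g2 : torsEnd p m J (g * τ) = torsEnd p m J φ' ^ j' := by
    rw [← map_pow]
    exact torsEnd_eq_of_agree hL₁' _ _ (fun x hx => hj' x (hle₁ hx))
  have hτ1 : torsEnd p m J τ = 1 := by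
    refine LinearMap.ext fun x => Subtype.ext ?_
    rw [coe_torsEnd_apply]
    exact hU q hq hqN B hB τ hτ (x : J) ⟨m, nsmul_eq_zero_of_mem x⟩
  rw [map_mul, hτ1, mul_one] at g2
  rw [← g1] at q1
  rw [← g2] at q2
  let E := Module.End HeckeAlg (Submodule.torsionBy HeckeAlg J ((p : HeckeAlg) ^ m))
  let P₁ := luc (heckeGen ⟨ℓ, hℓ⟩) (ℓ : HeckeAlg) j
  let P₂ := luc (heckeGen ⟨ℓ', hℓ'⟩) (ℓ' : HeckeAlg) j'
  have q3 : algebraMap HeckeAlg E (P₁ - P₂) * torsEnd p m J g =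
      algebraMap HeckeAlg E ((ℓ : HeckeAlg) ^ j - (ℓ' : HeckeAlg) ^ j') :=
    sub_mul_eq_of_quadratic P₁ P₂ _ _ _ q1 q2
  have q4 : algebraMap HeckeAlg E ((ℓ : HeckeAlg) ^ j - (ℓ' : HeckeAlg) ^ j') = 0 := by
    obtain ⟨k, hk⟩ := hmod
    have h1 : ((ℓ : HeckeAlg) ^ j - (ℓ' : HeckeAlg) ^ j') = (k : HeckeAlg) * (p : HeckeAlg) ^ m := by
      have := congrArg (Int.cast : ℤ → HeckeAlg) hk
      push_cast at this
      rw [this, mul_comm]
    rw [h1]
    refine LinearMap.ext fun x => ?_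
    rw [Module.algebraMap_end_apply, mul_smul, Submodule.smul_torsionBy, smul_zero]
    rfl
  have q5 : algebraMap HeckeAlg E (P₁ - P₂) = 0 := by
    have hinv : torsEnd p m J g * torsEnd p m J g⁻¹ = 1 := by
      rw [← map_mul, mul_inv_cancel, map_one]
    rw [← mul_one (algebraMap HeckeAlg E (P₁ - P₂)), ← hinv, ← mul_assoc, q3, q4, zero_mul]
  -- apply faithfulness
  let ℓ₁ : GoodPrimes N (↑S : Set ℕ) := ⟨⟨ℓ, hℓ⟩, hℓN, hℓS⟩
  let ℓ₂ : GoodPrimes N (↑S : Set ℕ) := ⟨⟨ℓ', hℓ'⟩, hℓN', hℓS'⟩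
  obtain ⟨y, hy⟩ := hfaith m (luc (MvPolynomial.X ℓ₁) (ℓ : MvPolynomial (GoodPrimes N (↑S : Set ℕ)) ℤ) j -
    luc (MvPolynomial.X ℓ₂) (ℓ' : MvPolynomial (GoodPrimes N (↑S : Set ℕ)) ℤ) j') (by
      intro x hx
      have h1 : inclHecke N (↑S : Set ℕ) (luc (MvPolynomial.X ℓ₁) (ℓ : MvPolynomial (GoodPrimes N (↑S : Set ℕ)) ℤ) j -
          luc (MvPolynomial.X ℓ₂) (ℓ' : MvPolynomial (GoodPrimes N (↑S : Set ℕ)) ℤ) j') = P₁ - P₂ := by
        rw [map_sub]
        have a1 := map_luc (inclHecke N (↑S : Set ℕ)).toRingHom (MvPolynomial.X ℓ₁) (ℓ : MvPolynomial (GoodPrimes N (↑S : Set ℕ)) ℤ) j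
        have a2 := map_luc (inclHecke N (↑S : Set ℕ)).toRingHom (MvPolynomial.X ℓ₂) (ℓ' : MvPolynomial (GoodPrimes N (↑S : Set ℕ)) ℤ) j'
        simp only [AlgHom.toRingHom_eq_coe, RingHom.coe_coe, inclHecke_X, map_natCast] at a1 a2
        rw [a1, a2]
      rw [h1]
      have hxm : x ∈ Submodule.torsionBy HeckeAlg J ((p : HeckeAlg) ^ m) := by
        rw [Submodule.mem_torsionBy_iff]
        have e : ((p ^ m : ℕ) : HeckeAlg) = ((p : HeckeAlg) ^ m) := by push_cast; rfl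
        rw [← e, Nat.cast_smul_eq_nsmul]
        exact hx
      have h2 := LinearMap.congr_fun q5 ⟨x, hxm⟩
      exact congrArg Subtype.val h2)
  refine ⟨y, ?_⟩
  rw [map_sub, map_luc, map_luc, evHecke_X, evHecke_X, map_natCast, map_natCast, hm,
    Nat.add_sub_cancel] at hy
  exact hy

/-- `S31` from: weak Frobenius density, nondegeneracy of the trace form and a faithful
Galois-Hecke module. -/
theorem isUnramifiedAt_of_module
    (hdens : WeakFrobeniusDensity)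
    {N : ℕ} [NeZero N] {S : Finset ℕ}
    {𝒪 : Type} [CommRing 𝒪] [IsDomain 𝒪] [IsDiscreteValuationRing 𝒪]
    [IsAdicComplete (IsLocalRing.maximalIdeal 𝒪) 𝒪]
    {θ : CuspForm.heckeAlgebra N 2 (↑S : Set ℕ) →+* IsLocalRing.ResidueField 𝒪}
    {T : Type} [CommRing T] [IsLocalRing T] [IsNoetherianRing T]
    [IsAdicComplete (IsLocalRing.maximalIdeal T) T] [Algebra 𝒪 T] [IsLocalHom (algebraMap 𝒪 T)]
    [Module.Finite 𝒪 T] [Module.Free 𝒪 T]
    (hp : p.Prime)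
    (hp𝒪 : (p : 𝒪) ∈ IsLocalRing.maximalIdeal 𝒪) (hpS : p ∈ S)
    (hNS : ∀ q : ℕ, q.Prime → q ∣ N → q ∈ S)
    (H : CuspForm.HeckeGaloisRepDatum N (↑S : Set ℕ) 𝒪 θ T)
    (hnd : TraceFormNondegenerate H.ρ)
    (q : ℕ) (hq : q.Prime) (hqS : q ∉ S)
    (hU : UnramifiedOutside (K := ℚ) (L := AlgebraicClosure ℚ) N p J)
    (hF : FrobeniusQuadratic (K := ℚ) (L := AlgebraicClosure ℚ) N p J)
    (hfin : FiniteLevel p J) (hfaith : HeckeFaithful N (↑S : Set ℕ) p J) :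
    H.ρ.IsUnramifiedAt q := by
  refine isUnramifiedAt_of_congInput hdens hp hp𝒪 hNS H hnd q
    (congInput_of_module hp hpS hq ?_ hU hF hfin hfaith)
  intro h
  rcases hq.dvd_mul.mp h with h | h
  · exact hqS (hNS q hq h)
  · have := (Nat.prime_dvd_prime_iff_eq hq hp).mp h
    subst this
    exact hqS hpS

end

end Fermat.Agent.H31
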