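import Fermat.Agent.H4Lattice
import Fermat.Agent.H31Mod

set_option autoImplicit false

/-!
# Faithfulness of Hecke operators from characters of `Γ₀(N)` (helper4, KummerBridge)

`heckeFaithful_of_characters`: if the homs `Γ₀(N) → ZMod (p ^ n)` killing parabolic and elliptic
elements embed Hecke-equivariantly in `J` for all `n`, then `H31.HeckeFaithful N S p J`.
-/

open CongruenceSubgroup UpperHalfPlane ModularForm ModularCurve TensorProduct
open scoped MatrixGroups

namespace Fermat.Agent.H4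

open Fermat.Agent.H21 Fermat.Agent.H31 CuspForm

noncomputable section

/-- Homs `Γ₀(N) → A` killing parabolic and elliptic elements. -/
def PE (N : ℕ) (A : Type*) [AddCommGroup A] : AddSubgroup (Additive (Gamma0 N) →+ A) where
  carrier := {φ | IsPE φ}
  zero_mem' := fun _ _ => rfl
  add_mem' {φ ψ} hφ hψ := fun γ hγ => by rw [AddMonoidHom.add_apply, hφ γ hγ, hψ γ hγ, add_zero]
  neg_mem' {φ} hφ := fun γ hγ => by rw [AddMonoidHom.neg_apply, hφ γ hγ, neg_zero]

lemma mem_PE {N : ℕ} {A : Type*} [AddCommGroup A] {φ : Additive (Gamma0 N) →+ A} :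
    φ ∈ PE N A ↔ IsPE φ := Iff.rfl

/-- Hecke operators on `PE`. -/
def heckePE {N : ℕ} (A : Type*) [AddCommGroup A] {ℓ : ℕ} [Fact ℓ.Prime] (hℓN : ¬ ℓ ∣ N) :
    PE N A →+ PE N A where
  toFun φ := ⟨heckeHom hℓN φ.1, φ.2.heckeHom hℓN⟩
  map_zero' := Subtype.ext (map_zero _)
  map_add' _ _ := Subtype.ext (map_add _ _ _)

@[simp] lemma coe_heckePE {N : ℕ} (A : Type*) [AddCommGroup A] {ℓ : ℕ} [Fact ℓ.Prime]
    (hℓN : ¬ ℓ ∣ N) (φ : PE N A) : (heckePE A hℓN φ : Additive (Gamma0 N) →+ A) =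
      heckeHom hℓN φ.1 := rfl

/-- A hom from the lattice gives an element of `PE`. -/
def ofLat (N : ℕ) [NeZero N] {A : Type*} [AddCommGroup A] (g : Lat N →+ A) : PE N A :=
  ⟨g.comp (toLat N), fun γ hγ => by rw [AddMonoidHom.comp_apply, isPE_toLat γ hγ, map_zero]⟩

variable {N : ℕ} [NeZero N] {S : Set ℕ}

/-- A finite free `ℤ`-module: an endomorphism killed by all functionals mod `m` is divisible by
`m`. -/
lemma exists_eq_smul_of_forall {L : Type*} [AddCommGroup L] [Module.Free ℤ L] [Module.Finite ℤ L]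
    (m : ℕ) (X : Module.End ℤ L) (h : ∀ (g : L →+ ZMod m) (v : L), g (X v) = 0) :
    ∃ Y : Module.End ℤ L, X = m • Y := by
  classical
  let b := Module.Free.chooseBasis ℤ L
  have h1 : ∀ v i, (m : ℤ) ∣ b.repr (X v) i := by
    intro v i
    have := h ((Int.castAddHom (ZMod m)).comp (b.coord i).toAddMonoidHom) v
    rw [← ZMod.intCast_zmod_eq_zero_iff_dvd]
    exact this
  choose c hc using h1
  refine ⟨b.constr ℤ (fun j => ∑ i, c (b j) i • b i), ?_⟩
  refine b.ext fun j => ?_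
  rw [LinearMap.smul_apply, Module.Basis.constr_basis, Finset.smul_sum]
  conv_lhs => rw [← b.sum_repr (X (b j))]
  refine Finset.sum_congr rfl fun i _ => ?_
  rw [hc, mul_smul, Nat.cast_smul_eq_nsmul]

/-- A f.g. torsion-free abelian group: a subgroup has finite index in its saturation. -/
lemma exists_nat_saturation {E : Type*} [AddCommGroup E] [Module.Finite ℤ E]
    (B : Submodule ℤ E) : ∃ M : ℕ, M ≠ 0 ∧ ∀ (x : E) (n : ℕ), n ≠ 0 → n • x ∈ B → M • x ∈ B := by
  classical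
  -- torsion of E ⧸ B is finite
  let Q := E ⧸ B
  have hfin : Module.Finite ℤ (Submodule.torsion ℤ Q) := inferInstance
  obtain ⟨s, hs⟩ := (Module.Finite.iff_fg.1 hfin)
  have h2 : ∀ x ∈ s, ∃ n : ℕ, n ≠ 0 ∧ n • x = 0 := by
    intro x hx
    have hx' : x ∈ Submodule.torsion ℤ Q := by rw [← hs]; exact Submodule.subset_span hx
    obtain ⟨a, ha⟩ := hx'
    refine ⟨(a : ℤ).natAbs, by simpa using nonZeroDivisors.coe_ne_zero a, ?_⟩
    have ha' : (a : ℤ) • x = 0 := ha
    rcases Int.natAbs_eq (a : ℤ) with h | h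
    · rw [← natCast_zsmul, ← h, ha']
    · rw [← natCast_zsmul, ← neg_eq_zero, ← neg_zsmul, ← h, ha']
  choose! n hn0 hn using h2
  refine ⟨∏ x ∈ s, n x, Finset.prod_ne_zero_iff.2 hn0, ?_⟩
  intro x m hm hx
  have hx' : (Submodule.Quotient.mk x : Q) ∈ Submodule.torsion ℤ Q := by
    refine ⟨⟨(m : ℤ), by simpa using hm⟩, ?_⟩
    show (m : ℤ) • (Submodule.Quotient.mk x : Q) = 0
    rw [← Submodule.Quotient.mk_smul, Submodule.Quotient.mk_eq_zero, natCast_zsmul]
    exact hx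
  have key : ∀ y ∈ Submodule.torsion ℤ Q, (∏ x ∈ s, n x) • y = 0 := by
    intro y hy
    rw [← hs] at hy
    induction hy using Submodule.span_induction with
    | mem y hy =>
      obtain ⟨k, hk⟩ := Finset.dvd_prod_of_mem n hy
      rw [hk, mul_comm, mul_nsmul', hn y hy, nsmul_zero]
    | zero => simp
    | add y z _ _ h1 h2 => rw [nsmul_add, h1, h2, add_zero]
    | smul a y _ h => rw [smul_comm, h, smul_zero]
  have h3 := key _ hx'
  rw [← Submodule.Quotient.mk_eq_zero]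
  exact h3

instance torsionFree_lat : Module.IsTorsionFree ℤ (Lat N) := by
  have h1 : Module.IsTorsionFree ℤ (DualS N) := by
    exact Module.IsTorsionFree.trans_faithfulSMul ℤ ℂ (DualS N)
  infer_instance

instance free_lat : Module.Free ℤ (Lat N) := inferInstance

lemma ofLat_add {A : Type*} [AddCommGroup A] (g g' : Lat N →+ A) :
    ofLat N (g + g') = ofLat N g + ofLat N g' := Subtype.ext (AddMonoidHom.add_comp _ _ _)

/-- `ofLat` as a hom -/
def ofLatHom (N : ℕ) [NeZero N] (A : Type*) [AddCommGroup A] : (Lat N →+ A) →+ PE N A :=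
  AddMonoidHom.mk' (ofLat N) ofLat_add

lemma ofLatHom_apply {A : Type*} [AddCommGroup A] (g : Lat N →+ A) :
    ofLatHom N A g = ofLat N g := rfl

lemma heckePE_ofLat {A : Type*} [AddCommGroup A]
    (hNS : ∀ q : ℕ, q.Prime → q ∣ N → q ∈ S) {ℓ : ℕ} [hℓ : Fact ℓ.Prime] (hℓN : ¬ ℓ ∣ N)
    (hℓS : ℓ ∉ S) (g : Lat N →+ A) :
    heckePE A hℓN (ofLat N g) =
      ofLat N (g.comp (latAct hNS (heckeAlgebra.T hℓ.out hℓN hℓS)).toAddMonoidHom) := by
  apply Subtype.ext
  rw [coe_heckePE]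
  show heckeHom hℓN (g.comp (toLat N)) = _
  rw [heckeHom_comp]
  refine AddMonoidHom.ext fun γ => ?_
  rw [AddMonoidHom.comp_apply, ← latAct_T_toLat hNS hℓN hℓS]
  rfl

/-- The polynomial action on classes coming from the lattice. -/
lemma j_ofLat {A J : Type*} [AddCommGroup A] [AddCommGroup J] [Module HeckeAlg J]
    (hNS : ∀ q : ℕ, q.Prime → q ∣ N → q ∈ S) (j : PE N A →+ J)
    (hjT : ∀ (ℓ : ℕ) [hℓ : Fact ℓ.Prime] (hℓN : ¬ ℓ ∣ N) (_ : ℓ ∉ S)
      (φ : PE N A), j (heckePE _ hℓN φ) = heckeGen ⟨ℓ, hℓ.out⟩ • j φ)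
    (P : MvPolynomial (GoodPrimes N S) ℤ) (g : Lat N →+ A) :
    j (ofLat N (g.comp (latAct hNS (evHecke N S P)).toAddMonoidHom)) =
      inclHecke N S P • j (ofLat N g) := by
  induction P using MvPolynomial.induction_on generalizing g with
  | C a =>
    have h1 : evHecke N S (MvPolynomial.C a) = (a : heckeAlgebra N 2 S) := by
      rw [evHecke, MvPolynomial.coe_eval₂Hom, MvPolynomial.eval₂_C]; rfl
    have h2 : inclHecke N S (MvPolynomial.C a) = (a : HeckeAlg) := by
      rw [inclHecke, MvPolynomial.rename_C]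
      rfl
    have h3 : g.comp (latAct hNS (a : heckeAlgebra N 2 S)).toAddMonoidHom = a • g := by
      refine AddMonoidHom.ext fun v => ?_
      rw [map_intCast]
      show g (((a : Module.End ℤ (Lat N))) v) = _
      rw [Module.End.intCast_apply, map_zsmul]
      rfl
    rw [h1, h2, h3, ← ofLatHom_apply, map_zsmul, map_zsmul, Int.cast_smul_eq_zsmul]
    rfl
  | add P Q hP hQ =>
    have h3 : g.comp (latAct hNS (evHecke N S (P + Q))).toAddMonoidHom =
        g.comp (latAct hNS (evHecke N S P)).toAddMonoidHom +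
          g.comp (latAct hNS (evHecke N S Q)).toAddMonoidHom := by
      refine AddMonoidHom.ext fun v => ?_
      rw [map_add, map_add]
      exact map_add g _ _
    rw [h3, ofLat_add, map_add, hP, hQ, map_add, add_smul]
  | mul_X P ℓ hP =>
    haveI : Fact ((ℓ.1 : ℕ)).Prime := ⟨ℓ.1.2⟩
    have h3 : g.comp (latAct hNS (evHecke N S (P * MvPolynomial.X ℓ))).toAddMonoidHom =
        (g.comp (latAct hNS (evHecke N S P)).toAddMonoidHom).comp
          (latAct hNS (heckeAlgebra.T ℓ.1.2 ℓ.2.1 ℓ.2.2)).toAddMonoidHom := by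
      refine AddMonoidHom.ext fun v => ?_
      rw [map_mul, map_mul, evHecke_X]
      rfl
    rw [h3]
    have h4 := heckePE_ofLat hNS (ℓ := (ℓ.1 : ℕ)) ℓ.2.1 ℓ.2.2
      (g.comp (latAct hNS (evHecke N S P)).toAddMonoidHom)
    rw [← h4, hjT _ _ ℓ.2.2, hP, map_mul, inclHecke_X, mul_comm, mul_smul]
    rfl

theorem heckeFaithful_of_characters (hNS : ∀ q : ℕ, q.Prime → q ∣ N → q ∈ S) (p : ℕ)
    (hp : p.Prime) (J : Type*) [AddCommGroup J] [Module HeckeAlg J]
    (j : ∀ n : ℕ, PE N (ZMod (p ^ n)) →+ J) (hj : ∀ n, Function.Injective (j n))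
    (hjT : ∀ (n : ℕ) (ℓ : ℕ) [hℓ : Fact ℓ.Prime] (hℓN : ¬ ℓ ∣ N) (_ : ℓ ∉ S)
      (φ : PE N (ZMod (p ^ n))), j n (heckePE _ hℓN φ) = heckeGen ⟨ℓ, hℓ.out⟩ • j n φ) :
    HeckeFaithful N S p J := by
  classical
  -- saturation
  obtain ⟨M, hM0, hM⟩ := exists_nat_saturation
    (AddSubgroup.toIntSubmodule (latAct hNS : heckeAlgebra N 2 S →+* Module.End ℤ (Lat N)).toAddMonoidHom.range)
  obtain ⟨c, u, hu, hMcu⟩ := Nat.exists_eq_pow_mul_and_not_dvd hM0 p hp.ne_one
  refine ⟨c, u, hu, fun n P hP => ?_⟩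
  rcases lt_or_ge n c with hnc | hnc
  · refine ⟨u * evHecke N S P, ?_⟩
    rw [Nat.sub_eq_zero_of_le hnc.le, pow_zero, one_mul]
  obtain ⟨Y, hY⟩ := exists_eq_smul_of_forall (p ^ n) (latAct hNS (evHecke N S P)) (by
    intro g v
    have h1 : inclHecke N S P • j n (ofLat N g) = 0 := by
      apply hP
      rw [← map_nsmul]
      have : p ^ n • ofLat N g = 0 := by
        apply Subtype.ext
        refine AddMonoidHom.ext fun γ => ?_
        show (p ^ n) • (g (toLat N γ)) = 0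
        rw [nsmul_eq_mul]
        simp
      rw [this, map_zero]
    rw [← j_ofLat hNS (j n) (fun ℓ _ hℓN hℓS φ => hjT n ℓ hℓN hℓS φ)] at h1
    have h2 := hj n (h1.trans (map_zero _).symm)
    obtain ⟨γ, rfl⟩ := toLat_surjective v
    exact DFunLike.congr_fun (congrArg Subtype.val h2) γ)
  obtain ⟨y, hy⟩ := hM Y (p ^ n) (pow_pos hp.pos n).ne' ⟨evHecke N S P, hY⟩
  refine ⟨y, latAct_injective hNS ?_⟩
  have hy' : latAct hNS y = M • Y := hy
  rw [map_mul, map_mul, map_pow, map_natCast, map_natCast, hY, hy', hMcu]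
  rw [← nsmul_eq_mul, ← Nat.cast_pow, ← nsmul_eq_mul, smul_smul, smul_smul]
  congr 1
  rw [← mul_assoc, ← pow_add, Nat.sub_add_cancel hnc, mul_comm]

end

end Fermat.Agent.H4
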