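import Fermat.Agent.H4RelHecke
import Fermat.Agent.H4Faithful
import Fermat.Agent.H90Exist

set_option autoImplicit false

/-!
# `HeckeFaithful N S p (JZero N)` from surjectivity of the Kummer relation (helper4, BRIDGE)
-/

open UpperHalfPlane hiding I
open Complex MatrixGroups ModularGroup ModularCurve AlgebraicCurve
open CongruenceSubgroup Fermat.Agent.H90 Fermat.Agent.H31

namespace Fermat.Agent.H4

noncomputable section

/-- the hom `ZMod m → Mu`, `1 ↦ e^{2πi/m}`. -/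
lemma exists_zmod_mu (m : ℕ) (hm : m ≠ 0) : ∃ e : ZMod m →+ Mu, Function.Injective e := by
  have hζ := Complex.isPrimitiveRoot_exp m hm
  set ζ : ℂ := Complex.exp (2 * Real.pi * Complex.I / m) with hζdef
  have hζ0 : ζ ≠ 0 := Complex.exp_ne_zero _
  let u : ℂˣ := Units.mk0 ζ hζ0
  have hu : IsPrimitiveRoot u m := by
    have h1 : IsPrimitiveRoot (u : ℂ) m := hζ
    exact IsPrimitiveRoot.coe_units_iff.1 h1
  let f : ZMod m →+ Additive ℂˣ :=
    ZMod.lift m ⟨(zmultiplesHom (Additive ℂˣ)) (Additive.ofMul u), by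
      rw [zmultiplesHom_apply, natCast_zsmul, ← ofMul_pow, hu.pow_eq_one, ofMul_one]⟩
  have hf : Function.Injective f := by
    rw [injective_iff_map_eq_zero]
    intro a ha
    obtain ⟨k, rfl⟩ := ZMod.intCast_surjective a
    have h1 : f (k : ZMod m) = k • Additive.ofMul u := by
      show ZMod.lift m _ _ = _
      rw [ZMod.lift_coe]; rfl
    rw [h1, ← ofMul_zpow] at ha
    have h2 : u ^ k = 1 := ha
    rw [hu.zpow_eq_one_iff_dvd] at h2
    exact (ZMod.intCast_zmod_eq_zero_iff_dvd k m).2 h2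
  exact ⟨f, hf⟩

/-- Surjectivity of the Kummer relation. -/
def KummerSurj (N : ℕ) [NeZero N] : Prop :=
  letI := algQbarC
  ∀ n : ℕ, n ≠ 0 → ∀ χ : Additive (Gamma0 N) →+ Mu, IsPE χ → n • χ = 0 →
    ∃ c : Pic0 (AlgebraicClosure ℚ) (FX (AlgebraicClosure ℚ) N), Rel n c χ

variable {N : ℕ} [NeZero N]

/-- The embedding of characters into torsion. -/
theorem exists_embedding (hsurj : KummerSurj N) {m : ℕ} (hm : m ≠ 0) :
    letI := algQbarC
    ∃ j : PE N (ZMod m) →+ JZero N, Function.Injective j ∧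
      ∀ (ℓ : ℕ) [hℓ : Fact ℓ.Prime] (hℓN : ¬ ℓ ∣ N) (φ : PE N (ZMod m)),
        j (heckePE _ hℓN φ) = heckeOperatorBar N ⟨ℓ, hℓ.out⟩ (j φ) := by
  letI := algQbarC
  obtain ⟨e, he⟩ := exists_zmod_mu m hm
  have hex : ∀ φ : PE N (ZMod m), ∃ c : Pic0 (AlgebraicClosure ℚ) (FX (AlgebraicClosure ℚ) N),
      Rel m c (e.comp φ.1) := fun φ => hsurj m hm _ (fun γ hγ => by
        rw [AddMonoidHom.comp_apply, φ.2 γ hγ, map_zero]) (by
        refine AddMonoidHom.ext fun γ => ?_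
        show m • e (φ.1 γ) = 0
        rw [← map_nsmul]
        have : m • φ.1 γ = 0 := by rw [nsmul_eq_mul]; simp
        rw [this, map_zero])
  choose j hj using hex
  refine ⟨AddMonoidHom.mk' j (fun φ ψ => ?_), ?_, ?_⟩
  · have h1 := (hj φ).add (hj ψ)
    have h2 : e.comp (φ + ψ).1 = e.comp φ.1 + e.comp ψ.1 := AddMonoidHom.comp_add e φ.1 ψ.1
    have h3 := hj (φ + ψ)
    rw [h2] at h3
    exact h3.inj h1 hm
  · intro φ ψ h
    have h' : j φ = j ψ := h
    have h1 := hj φ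
    rw [h'] at h1
    have h2 := h1.char_eq (hj ψ) hm
    apply Subtype.ext
    refine AddMonoidHom.ext fun γ => he ?_
    exact DFunLike.congr_fun h2 γ
  · intro ℓ hℓ hℓN φ
    haveI : NeZero ℓ := ⟨hℓ.out.ne_zero⟩
    have h1 := rel_hecke hℓN (hj φ)
    rw [heckeHom_comp] at h1
    exact (hj (heckePE _ hℓN φ)).inj h1 hm

/-- **(I5)** -/
theorem heckeFaithful_of_surj (hsurj : KummerSurj N) {S : Set ℕ}
    (hNS : ∀ q : ℕ, q.Prime → q ∣ N → q ∈ S) {p : ℕ} (hp : p.Prime) :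
    letI := heckeModuleBar N
    HeckeFaithful N S p (JZero N) := by
  letI := algQbarC
  letI := heckeModuleBar N
  have hex := fun n : ℕ => exists_embedding hsurj (m := p ^ n) (pow_ne_zero n hp.ne_zero)
  choose j hj hjT using hex
  refine heckeFaithful_of_characters hNS p hp (JZero N) j hj ?_
  intro n ℓ hℓ hℓN _ φ
  rw [hjT n ℓ hℓN φ]
  exact (heckeModuleBar_heckeGen_smul (H67.heckeOperatorsCommuteBar N) ⟨ℓ, hℓ.out⟩ (j n φ)).symm

end

end Fermat.Agent.H4
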