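import Fermat.Agent.H90Bridge
import Fermat.Agent.H4FaithfulJ

/-!
# Faithfulness of the Hecke action on the torsion of `JZero N` (BRIDGE)
-/

set_option autoImplicit false

noncomputable section

namespace Fermat.Agent.H90

open ModularCurve

theorem kummerSurj (N : ℕ) [NeZero N] : H4.KummerSurj N := by
  letI := algQbarC
  intro n hn χ hχ hnχ
  exact exists_rel_of_isPE hn χ hχ hnχ

/-- **The good Hecke operators act faithfully on the `p`-power torsion of `JZero N`.** -/
theorem heckeFaithful_jzero (N : ℕ) [NeZero N] {S : Set ℕ}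
    (hNS : ∀ q : ℕ, q.Prime → q ∣ N → q ∈ S) {p : ℕ} (hp : p.Prime) :
    letI := heckeModuleBar N
    H31.HeckeFaithful N S p (JZero N) :=
  H4.heckeFaithful_of_surj (kummerSurj N) hNS hp

end Fermat.Agent.H90

end
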