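import Fermat.Agent.H30Final
import Fermat.Agent.H42Inputs
import Fermat.Agent.H88GenusEq
import Fermat.Agent.H67Comm
import Fermat.Agent.H67Galois
import Fermat.Agent.H90Faithful
import Fermat.Agent.H90Exist
import Fermat.Agent.S18

/-!
# The inputs on `JZero N`
-/

set_option autoImplicit false

noncomputable section

open AlgebraicCurve ModularCurve CuspForm

namespace Fermat.Agent.H31

theorem genusEqAt (N : ℕ) [NeZero N] : H42.GenusEqAt N := by
  intro ℓ hℓ hℓN A hA
  haveI : Fact ℓ.Prime := ⟨hℓ⟩
  exact H88.genusFFEq N hℓN A hA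

theorem injectivityAt (N : ℕ) [NeZero N] : H60.InjectivityAt N :=
  fun {_} _ hℓN A hA h m hm z hmz hz => S18.result N hℓN A hA h m hm z hmz hz

theorem smulCommClass (N : ℕ) [NeZero N] :
    letI := heckeModuleBar N
    SMulCommClass (AlgebraicClosure ℚ ≃ₐ[ℚ] AlgebraicClosure ℚ) HeckeAlg (JZero N) :=
  H67.smulCommClass_heckeAlg N

theorem specializationExists (N p : ℕ) [NeZero N] :
    letI := heckeModuleBar N
    haveI := smulCommClass N
    SpecializationExists (K := ℚ) (L := AlgebraicClosure ℚ) N p (JZero N) :=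
  H42.S37_of_genusEq N p (H67.heckeOperatorsCommuteBar N) (genusEqAt N) (injectivityAt N)
    (smulCommClass N)

theorem jzeroInputs (N : ℕ) [NeZero N] : H30.JZeroInputs N where
  principal := H67.hasPrincipalDivisors_bar N
  finite p n hp := H90.finite_jzero N (pow_ne_zero n hp.ne_zero)
  comm := smulCommClass N
  spec p _ := specializationExists N p
  faithful _ _ hp _ hNS := H90.heckeFaithful_jzero N hNS hp

end Fermat.Agent.H31
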