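/-
H31Level: every point of `J_0(N)(ℚ̄)` (divisor class group of the function field) is fixed by an
open subgroup of the Galois group.
-/
import Fermat.Prelude.Def_ModularCurve_ArithmeticGalois
import Fermat.Agent.H94Places

set_option autoImplicit false

noncomputable section

open IntermediateField HahnSeries AlgebraicCurve ModularCurve

namespace Fermat.Agent.H31

section

variable {L : Type*} [Field L] [Algebra ℚ L]

/-- A property of automorphisms of `L` which holds on an open subgroup. -/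
def Openly (P : (L ≃ₐ[ℚ] L) → Prop) : Prop :=
  ∃ K' : IntermediateField ℚ L, FiniteDimensional ℚ K' ∧
    ∀ σ : L ≃ₐ[ℚ] L, (∀ a ∈ K', σ a = a) → P σ

theorem Openly.mono {P Q : (L ≃ₐ[ℚ] L) → Prop} (h : Openly P) (hPQ : ∀ σ, P σ → Q σ) :
    Openly Q := by
  obtain ⟨K', hK', h⟩ := h
  exact ⟨K', hK', fun σ hσ => hPQ σ (h σ hσ)⟩

theorem Openly.and {P Q : (L ≃ₐ[ℚ] L) → Prop} (hP : Openly P) (hQ : Openly Q) :
    Openly (fun σ => P σ ∧ Q σ) := by
  obtain ⟨K₁, hK₁, h₁⟩ := hP
  obtain ⟨K₂, hK₂, h₂⟩ := hQ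
  refine ⟨K₁ ⊔ K₂, inferInstance, fun σ hσ => ⟨h₁ σ fun a ha => hσ a ?_, h₂ σ fun a ha => hσ a ?_⟩⟩
  · exact (le_sup_left : K₁ ≤ K₁ ⊔ K₂) ha
  · exact (le_sup_right : K₂ ≤ K₁ ⊔ K₂) ha

theorem openly_true {P : (L ≃ₐ[ℚ] L) → Prop} (h : ∀ σ, P σ) : Openly P :=
  ⟨⊥, inferInstance, fun σ _ => h σ⟩

theorem openly_forall_finset {ι : Type*} (s : Finset ι) (P : ι → (L ≃ₐ[ℚ] L) → Prop)
    (h : ∀ i ∈ s, Openly (P i)) : Openly (fun σ => ∀ i ∈ s, P i σ) := by
  classical
  induction s using Finset.induction_on with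
  | empty => exact openly_true fun σ i hi => absurd hi (Finset.notMem_empty i)
  | insert i s hi ih =>
    refine ((h i (Finset.mem_insert_self i s)).and
      (ih fun j hj => h j (Finset.mem_insert_of_mem hj))).mono ?_
    rintro σ ⟨h1, h2⟩ j hj
    rcases Finset.mem_insert.mp hj with rfl | hj
    · exact h1
    · exact h2 j hj

theorem openly_forall_finite {ι : Type*} [Finite ι] (P : ι → (L ≃ₐ[ℚ] L) → Prop)
    (h : ∀ i, Openly (P i)) : Openly (fun σ => ∀ i, P i σ) := by
  classical
  cases nonempty_fintype ι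
  exact (openly_forall_finset Finset.univ P fun i _ => h i).mono fun σ hσ i =>
    hσ i (Finset.mem_univ i)

theorem openly_fix [Algebra.IsAlgebraic ℚ L] (a : L) : Openly (fun σ : L ≃ₐ[ℚ] L => σ a = a) := by
  refine ⟨ℚ⟮a⟯, IntermediateField.adjoin.finiteDimensional
    (Algebra.IsAlgebraic.isAlgebraic (R := ℚ) a).isIntegral, fun σ hσ => ?_⟩
  exact hσ a (IntermediateField.mem_adjoin_simple_self ℚ a)

variable {F₀ : IntermediateField ℚ (LaurentSeries ℚ)}

theorem openly_coeffMap [Algebra.IsAlgebraic ℚ L] {x : LaurentSeries L}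
    (hx : x ∈ laurentBaseChange L F₀) :
    Openly (fun σ : L ≃ₐ[ℚ] L => coeffMap (σ : L →+* L) x = x) := by
  rw [mem_laurentBaseChange_iff] at hx
  induction hx using Subfield.closure_induction with
  | mem y hy =>
      rcases hy with ⟨a, rfl⟩ | ⟨z, hz, rfl⟩
      · refine (openly_fix a).mono fun σ hσ => ?_
        rw [coeffMap_algebraMap]
        exact congrArg _ hσ
      · exact openly_true fun σ => coeffMap_coeffEmb σ z
  | one => exact openly_true fun σ => map_one _
  | add x y _ _ hx hy =>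
    exact (hx.and hy).mono fun σ h => by rw [map_add, h.1, h.2]
  | neg x _ hx => exact hx.mono fun σ h => by rw [map_neg, h]
  | inv x _ hx => exact hx.mono fun σ h => by rw [map_inv₀, h]
  | mul x y _ _ hx hy =>
    exact (hx.and hy).mono fun σ h => by rw [map_mul, h.1, h.2]

theorem openly_smul_fun [Algebra.IsAlgebraic ℚ L] (x : laurentBaseChange L F₀) :
    Openly (fun σ : L ≃ₐ[ℚ] L => arithmeticGalois F₀ σ • x = x) :=
  (openly_coeffMap x.2).mono fun _ h => Subtype.ext h

/-- Every place is fixed by an open subgroup. -/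
theorem openly_smul_place [Algebra.IsAlgebraic ℚ L]
    [HasPrincipalDivisors L (laurentBaseChange L F₀)]
    (v : Place L (laurentBaseChange L F₀)) :
    Openly (fun σ : L ≃ₐ[ℚ] L => arithmeticGalois F₀ σ • v = v) := by
  classical
  -- a uniformizer
  obtain ⟨π, hπ⟩ := IsDiscreteValuationRing.exists_irreducible v.toValuationSubring
  have hordπ : v.ord (π : laurentBaseChange L F₀) = 1 := v.ord_coe_irreducible hπ
  have hπ0 : (π : laurentBaseChange L F₀) ≠ 0 := by
    intro h
    rw [h, Place.ord_zero] at hordπ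
    exact zero_ne_one hordπ
  obtain ⟨D, hD, -⟩ := HasPrincipalDivisors.exists_divisor (K := L) (π : laurentBaseChange L F₀) hπ0
  -- separate `v` from the other zeros of `π`
  have hsep : ∀ w : Place L (laurentBaseChange L F₀), ∃ f : laurentBaseChange L F₀,
      f ∈ v.toValuationSubring ∧ (f ∈ w.toValuationSubring → w = v) := by
    intro w
    by_cases hwv : w = v
    · exact ⟨0, zero_mem _, fun _ => hwv⟩
    · have hnle : ¬ v.toValuationSubring ≤ w.toValuationSubring := fun hle =>
        hwv (Fermat.Agent.H94.place_eq_of_le hle).symm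
      obtain ⟨f, hfv, hfw⟩ := SetLike.not_le_iff_exists.mp hnle
      exact ⟨f, hfv, fun h => absurd h hfw⟩
  choose f hfv hfw using hsep
  have h1 := openly_smul_fun (π : laurentBaseChange L F₀)
  have h2 : Openly (fun σ : L ≃ₐ[ℚ] L => ∀ w ∈ D.support, arithmeticGalois F₀ σ • f w = f w) :=
    openly_forall_finset D.support (fun w σ => arithmeticGalois F₀ σ • f w = f w)
      fun w _ => openly_smul_fun (f w)
  refine (h1.and h2).mono ?_
  rintro σ ⟨hσπ, hσf⟩
  set g := arithmeticGalois F₀ σ with hg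
  have hord : (g • v).ord (π : laurentBaseChange L F₀) = 1 := by
    have h3 := SemilinearAut.ord_smul g v (π : laurentBaseChange L F₀)
    rw [hσπ, hordπ] at h3
    exact h3
  have hmem : g • v ∈ D.support := by
    rw [Finsupp.mem_support_iff, hD, hord]
    exact one_ne_zero
  apply hfw
  have h4 := hσf _ hmem
  rw [SemilinearAut.smul_toValuationSubring, ← h4]
  exact ValuationSubring.smul_mem_pointwise_smul g _ _ (hfv _)

theorem openly_smul_divisor [Algebra.IsAlgebraic ℚ L]
    [HasPrincipalDivisors L (laurentBaseChange L F₀)]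
    (D : Divisor L (laurentBaseChange L F₀)) :
    Openly (fun σ : L ≃ₐ[ℚ] L => arithmeticGalois F₀ σ • D = D) := by
  induction D using Finsupp.induction with
  | zero => exact openly_true fun σ => smul_zero _
  | single_add v n D _ _ ih =>
    refine ((openly_smul_place v).and ih).mono ?_
    rintro σ ⟨h1, h2⟩
    rw [smul_add, SemilinearAut.smul_single, h1, h2]

/-- Every class of divisors of degree zero is fixed by an open subgroup. -/
theorem openly_smul_pic0 [Algebra.IsAlgebraic ℚ L]
    [HasPrincipalDivisors L (laurentBaseChange L F₀)]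
    (x : Pic0 L (laurentBaseChange L F₀)) :
    Openly (fun σ : L ≃ₐ[ℚ] L => σ • x = x) := by
  obtain ⟨D, rfl⟩ := Pic0.mk_surjective x
  refine (openly_smul_divisor (D : Divisor L (laurentBaseChange L F₀))).mono ?_
  intro σ h
  rw [galois_smul_pic0_def, SemilinearAut.pic0_smul_mk]
  exact congrArg Pic0.mk (Subtype.ext h)

end

section JZero

variable (N : ℕ)

/-- Every point of `J_0(N)` is defined over a number field. -/
theorem exists_level_JZero [HasPrincipalDivisors (AlgebraicClosure ℚ) (modularFunctionFieldBar N)]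
    (x : JZero N) :
    ∃ K' : IntermediateField ℚ (AlgebraicClosure ℚ), FiniteDimensional ℚ K' ∧
      ∀ σ : AlgebraicClosure ℚ ≃ₐ[ℚ] AlgebraicClosure ℚ, (∀ a ∈ K', σ a = a) → σ • x = x :=
  have : Algebra.IsAlgebraic ℚ (AlgebraicClosure ℚ) := AlgebraicClosure.isAlgebraic ℚ
  openly_smul_pic0 x

/-- A finite set of points of `J_0(N)` is defined over a number field. -/
theorem exists_level_JZero_of_finite
    [HasPrincipalDivisors (AlgebraicClosure ℚ) (modularFunctionFieldBar N)]
    (s : Set (JZero N)) (hs : s.Finite) :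
    ∃ K' : IntermediateField ℚ (AlgebraicClosure ℚ), FiniteDimensional ℚ K' ∧
      ∀ σ : AlgebraicClosure ℚ ≃ₐ[ℚ] AlgebraicClosure ℚ, (∀ a ∈ K', σ a = a) →
        ∀ x ∈ s, σ • x = x := by
  have halg : Algebra.IsAlgebraic ℚ (AlgebraicClosure ℚ) := AlgebraicClosure.isAlgebraic ℚ
  have := hs.to_subtype
  obtain ⟨K', h1, h2⟩ := openly_forall_finite
    (fun (x : s) (σ : AlgebraicClosure ℚ ≃ₐ[ℚ] AlgebraicClosure ℚ) => σ • (x : JZero N) = x)
    (fun x => openly_smul_pic0 (x : JZero N))
  exact ⟨K', h1, fun σ hσ x hx => h2 σ hσ ⟨x, hx⟩⟩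

end JZero

end Fermat.Agent.H31
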