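import Mathlib.RepresentationTheory.AlgebraRepresentation.Basic
import Mathlib.RingTheory.SimpleModule.Basic
import Mathlib.RingTheory.Nakayama
import Mathlib.LinearAlgebra.Dimension.Constructions
import Mathlib.LinearAlgebra.FiniteDimensional.Lemmas
import Fermat.Prelude.Def_GaloisRep_Adic

/-!
# Burnside's theorem, and its consequence over a local ring

* `Fermat.Agent.H32.span_range_eq_top_of_isAlgClosed`: an irreducible finite-dimensional
  representation over an algebraically closed field spans the endomorphism algebra.
* `Fermat.Agent.H32.span_range_eq_top_of_baseChange`: descent to an arbitrary field.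
* `Fermat.Agent.H32.span_range_eq_top_of_residue`: Nakayama.
* `Fermat.Agent.H32.span_range_eq_top`: the version for `GaloisRepAdic`.
-/

set_option autoImplicit false

open scoped TensorProduct

namespace Fermat.Agent.H32

section Burnside

variable {K V G : Type*} [Field K] [IsAlgClosed K] [AddCommGroup V] [Module K V]
  [FiniteDimensional K V] [Nontrivial V] [Monoid G]

theorem adjoin_range_eq_span {A E G : Type*} [CommSemiring A] [Semiring E] [Algebra A E]
    [Monoid G] (ρ : G →* E) :
    Subalgebra.toSubmodule (Algebra.adjoin A (Set.range ρ)) = Submodule.span A (Set.range ρ) := by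
  rw [Algebra.adjoin_eq_span]
  congr 1
  have : Submonoid.closure (Set.range ρ) = MonoidHom.mrange ρ := by
    rw [← MonoidHom.coe_mrange, Submonoid.closure_eq]
  rw [this, MonoidHom.coe_mrange]

theorem span_range_eq_top_of_isAlgClosed (ρ : G →* Module.End K V)
    (hirr : ∀ W : Submodule K V, (∀ g, ∀ x ∈ W, ρ g x ∈ W) → W = ⊥ ∨ W = ⊤) :
    Submodule.span K (Set.range ρ) = ⊤ := by
  set S : Subalgebra K (Module.End K V) := Algebra.adjoin K (Set.range ρ) with hS
  have hsimple : IsSimpleModule S V := by
    rw [isSimpleModule_iff]
    refine { exists_pair_ne := ⟨⊥, ⊤, bot_ne_top⟩, eq_bot_or_eq_top := fun W => ?_ }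
    have hW := hirr (W.restrictScalars K) (fun g x hx => by
      have hg : ρ g ∈ S := Algebra.subset_adjoin ⟨g, rfl⟩
      exact W.smul_mem (⟨ρ g, hg⟩ : S) hx)
    rcases hW with h | h
    · left
      rw [Submodule.restrictScalars_eq_bot_iff] at h
      exact h
    · right
      rw [Submodule.restrictScalars_eq_top_iff] at h
      exact h
  have hschur := IsSimpleModule.algebraMap_end_bijective_of_isAlgClosed (A := S) (V := V) K
  have hfin : Module.Finite (Module.End S V) V := by
    obtain ⟨s, hs⟩ := Module.Finite.fg_top (R := K) (M := V)
    refine ⟨⟨s, ?_⟩⟩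
    rw [eq_top_iff]
    intro v _
    have hv : v ∈ Submodule.span K (s : Set V) := by rw [hs]; trivial
    induction hv using Submodule.span_induction with
    | mem x hx => exact Submodule.subset_span hx
    | zero => exact Submodule.zero_mem _
    | add x y _ _ hx hy => exact Submodule.add_mem _ (hx trivial) (hy trivial)
    | smul a x _ hx =>
      have : a • x = (algebraMap K (Module.End S V) a) • x := rfl
      rw [this]
      exact Submodule.smul_mem _ _ (hx trivial)
  have hsurj := Module.Finite.toModuleEnd_moduleEnd_surjective (R := S) (M := V)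
  have htop : S = ⊤ := by
    rw [eq_top_iff]
    intro f _
    let f' : Module.End (Module.End S V) V :=
      { toFun := f
        map_add' := f.map_add
        map_smul' := fun c x => by
          obtain ⟨a, rfl⟩ := hschur.2 c
          show f (a • x) = a • f x
          exact f.map_smul a x }
    obtain ⟨s, hs⟩ := hsurj f'
    have : f = (s : Module.End K V) := by
      ext x
      have := congrArg (fun g => g x) hs
      exact this.symm
    rw [this]
    exact s.2
  rw [← adjoin_range_eq_span, ← hS, htop, Algebra.top_toSubmodule]

end Burnside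

section Descent

variable {k K V G : Type*} [Field k] [Field K] [Algebra k K] [AddCommGroup V] [Module k V]
  [FiniteDimensional k V] [Monoid G]

theorem span_range_eq_top_of_baseChange (ρ : G →* Module.End k V)
    (h : Submodule.span K (Set.range fun g => (ρ g).baseChange K) = ⊤) :
    Submodule.span k (Set.range ρ) = ⊤ := by
  set U := Submodule.span k (Set.range ρ) with hU
  let b := Module.finBasis k U
  have hle : Submodule.span K (Set.range fun g => (ρ g).baseChange K) ≤
      Submodule.span K (Set.range fun i => ((b i : Module.End k V)).baseChange K) := by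
    rw [Submodule.span_le]
    rintro _ ⟨g, rfl⟩
    have hg : ρ g ∈ U := Submodule.subset_span ⟨g, rfl⟩
    have h1 : ρ g = ∑ i, (b.repr ⟨ρ g, hg⟩ i) • (b i : Module.End k V) := by
      have := congrArg (Submodule.subtype U) (b.sum_repr ⟨ρ g, hg⟩)
      rw [map_sum] at this
      simpa using this.symm
    have h2 : (ρ g).baseChange K = ∑ i, (b.repr ⟨ρ g, hg⟩ i) • ((b i : Module.End k V)).baseChange K := by
      conv_lhs => rw [h1]
      have := map_sum (LinearMap.baseChangeHom k K V V) (fun i => (b.repr ⟨ρ g, hg⟩ i) • (b i : Module.End k V)) Finset.univ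
      simp only [LinearMap.baseChangeHom_apply, map_smul] at this
      exact this
    show (ρ g).baseChange K ∈ _
    rw [h2]
    refine Submodule.sum_mem _ fun i _ => ?_
    rw [← algebraMap_smul K]
    exact Submodule.smul_mem _ _ (Submodule.subset_span ⟨i, rfl⟩)
  rw [h, top_le_iff] at hle
  have h3 : Module.finrank K (Module.End K (K ⊗[k] V)) ≤ Module.finrank k U := by
    have h4 := finrank_range_le_card (R := K) (fun i => ((b i : Module.End k V)).baseChange K)
    rw [Fintype.card_fin] at h4
    unfold Set.finrank at h4
    rw [hle, finrank_top] at h4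
    exact h4
  have h5 : Module.finrank K (Module.End K (K ⊗[k] V)) = Module.finrank k (Module.End k V) := by
    rw [Module.finrank_linearMap, Module.finrank_linearMap, Module.finrank_baseChange]
  rw [h5] at h3
  exact Submodule.eq_top_of_finrank_eq (le_antisymm (Submodule.finrank_le U) h3)

end Descent

section Local

variable {A V G : Type*} [CommRing A] [IsLocalRing A] [AddCommGroup V] [Module A V]
  [Module.Free A V] [Module.Finite A V]

theorem mem_smul_top_of_baseChange_eq_zero (f : Module.End A V)
    (hf : f.baseChange (IsLocalRing.ResidueField A) = 0) :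
    f ∈ IsLocalRing.maximalIdeal A • (⊤ : Submodule A (Module.End A V)) := by
  classical
  let b := Module.Free.chooseBasis A V
  have hker : ∀ (v : V) (i), b.repr (f v) i ∈ IsLocalRing.maximalIdeal A := by
    intro v i
    have h1 : (1 : IsLocalRing.ResidueField A) ⊗ₜ[A] f v = 0 := by
      have := congrArg (fun g => g ((1 : IsLocalRing.ResidueField A) ⊗ₜ[A] v)) hf
      simpa using this
    let b' := b.baseChange (IsLocalRing.ResidueField A)
    have h2 := congrArg (fun z => b'.repr z i) h1
    simp only [b', Module.Basis.baseChange_repr_tmul, map_zero, Finsupp.coe_zero,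
      Pi.zero_apply] at h2
    rw [Algebra.smul_def, mul_one, IsLocalRing.ResidueField.algebraMap_eq,
      IsLocalRing.residue_eq_zero_iff] at h2
    exact h2
  have hsum : f = ∑ j, ∑ i, (b.repr (f (b j)) i) • (LinearMap.toSpanSingleton A V (b i) ∘ₗ b.coord j) := by
    refine b.ext fun l => ?_
    simp only [LinearMap.coe_sum, Finset.sum_apply, LinearMap.smul_apply, LinearMap.comp_apply,
      Module.Basis.coord_apply, Module.Basis.repr_self, LinearMap.toSpanSingleton_apply]
    rw [Finset.sum_eq_single l]
    · simp only [Finsupp.single_eq_same, one_smul]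
      exact (b.sum_repr (f (b l))).symm
    · intro j _ hj
      simp [Ne.symm hj]
    · intro h; exact absurd (Finset.mem_univ l) h
  rw [hsum]
  refine Submodule.sum_mem _ fun j _ => Submodule.sum_mem _ fun i _ => ?_
  exact Submodule.smul_mem_smul (hker _ _) Submodule.mem_top

theorem span_range_eq_top_of_residue (ρ : G → Module.End A V)
    (h : Submodule.span (IsLocalRing.ResidueField A)
      (Set.range fun g => (ρ g).baseChange (IsLocalRing.ResidueField A)) = ⊤) :
    Submodule.span A (Set.range ρ) = ⊤ := by
  set U := Submodule.span A (Set.range ρ) with hU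
  have key : (⊤ : Submodule A (Module.End A V)) ≤ U ⊔ IsLocalRing.maximalIdeal A • ⊤ := by
    intro f _
    have hf : f.baseChange (IsLocalRing.ResidueField A) ∈
        Submodule.span (IsLocalRing.ResidueField A)
          (Set.range fun g => (ρ g).baseChange (IsLocalRing.ResidueField A)) := by rw [h]; trivial
    have hlift : ∀ F ∈ Submodule.span (IsLocalRing.ResidueField A)
        (Set.range fun g => (ρ g).baseChange (IsLocalRing.ResidueField A)),
        ∃ u ∈ U, u.baseChange (IsLocalRing.ResidueField A) = F := by
      intro F hF
      induction hF using Submodule.span_induction with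
      | mem x hx =>
        obtain ⟨g, rfl⟩ := hx
        exact ⟨ρ g, Submodule.subset_span ⟨g, rfl⟩, rfl⟩
      | zero => exact ⟨0, Submodule.zero_mem _, LinearMap.baseChange_zero⟩
      | add x y _ _ hx hy =>
        obtain ⟨u, hu, rfl⟩ := hx
        obtain ⟨w, hw, rfl⟩ := hy
        exact ⟨u + w, Submodule.add_mem _ hu hw, LinearMap.baseChange_add _ _⟩
      | smul a x _ hx =>
        obtain ⟨u, hu, rfl⟩ := hx
        obtain ⟨c, rfl⟩ := IsLocalRing.residue_surjective a
        refine ⟨c • u, Submodule.smul_mem _ _ hu, ?_⟩
        rw [LinearMap.baseChange_smul, ← IsLocalRing.ResidueField.algebraMap_eq, algebraMap_smul]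
    obtain ⟨u, hu, huf⟩ := hlift _ hf
    have : f - u ∈ IsLocalRing.maximalIdeal A • (⊤ : Submodule A (Module.End A V)) := by
      apply mem_smul_top_of_baseChange_eq_zero
      rw [LinearMap.baseChange_sub, huf]
      exact sub_self (LinearMap.baseChange (IsLocalRing.ResidueField A) f)
    have h2 : f = u + (f - u) := by abel
    rw [h2]
    exact Submodule.add_mem_sup hu this
  have hfg : (⊤ : Submodule A (Module.End A V)).FG := Module.Finite.fg_top
  exact top_le_iff.mp (Submodule.le_of_le_smul_of_le_jacobson_bot hfg
    (by rw [IsLocalRing.jacobson_eq_maximalIdeal _ bot_ne_top]) key)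

end Local

section GaloisRep

variable {A : Type} [CommRing A] [IsLocalRing A]

/-- The image of an absolutely irreducible residual representation spans the endomorphism ring. -/
theorem residual_span_range_eq_top {k : Type} [Field k] (ρ : ResidualGaloisRep k)
    (h : ρ.IsAbsolutelyIrreducible) : Submodule.span k (Set.range ρ.ρ) = ⊤ := by
  refine span_range_eq_top_of_baseChange (K := AlgebraicClosure k) ρ.ρ ?_
  have : Nontrivial (AlgebraicClosure k ⊗[k] ρ.V) := by
    apply Module.nontrivial_of_finrank_pos (R := AlgebraicClosure k)
    rw [Module.finrank_baseChange, ρ.finrank_eq]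
    norm_num
  exact span_range_eq_top_of_isAlgClosed (K := AlgebraicClosure k)
    (V := AlgebraicClosure k ⊗[k] ρ.V) (ρ.baseChange (AlgebraicClosure k)).ρ h

/-- If the residual representation of `ρ` is absolutely irreducible, the image of `ρ` spans
`End_A V` as an `A`-module. -/
theorem span_range_eq_top (ρ : GaloisRepAdic A) (h : ρ.residual.IsAbsolutelyIrreducible) :
    Submodule.span A (Set.range ρ.ρ) = ⊤ :=
  span_range_eq_top_of_residue (fun g => ρ.ρ g)
    (residual_span_range_eq_top ρ.residual h)

end GaloisRep

end Fermat.Agent.H32
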