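/-
H31Wire: S31 reduced to the Galois-Hecke module input only (density theorem and nondegeneracy of
the trace form are discharged here).
-/
import Fermat.Agent.H31Mod
import Fermat.Agent.H82FrobDensity
import Fermat.Agent.H86Density
import Fermat.Agent.H32Burnside

set_option autoImplicit false

noncomputable section

namespace Fermat.Agent.H31

open Polynomial CuspForm ModularCurve

/-- the (weak) Frobenius density theorem. -/
theorem frobDensityFinite : Fermat.Agent.H86.FrobDensityFinite := by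
  intro L _ _ _ σ S
  exact Fermat.Agent.H82.exists_frob_finite L σ S

theorem weakFrobeniusDensity : WeakFrobeniusDensity := by
  intro L hL S g
  have := hL
  obtain ⟨ℓ, hℓ, hℓS, A, hA, φ, hφ, j, k, hj, -⟩ :=
    Fermat.Agent.H86.frobenius_density frobDensityFinite L g S
  exact ⟨ℓ, hℓ, hℓS, A, hA, φ, hφ, j, hj⟩

section

variable {A : Type} [CommRing A] [IsLocalRing A]

/-- an endomorphism `x` with `tr (f x) = 0` for all `f` vanishes. -/
theorem eq_zero_of_forall_trace_mul {V : Type*} [AddCommGroup V] [Module A V] [Module.Free A V]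
    [Module.Finite A V] (x : Module.End A V)
    (h : ∀ f : Module.End A V, LinearMap.trace A V (f * x) = 0) : x = 0 := by
  classical
  let b := Module.Free.chooseBasis A V
  let M := LinearMap.toMatrix b b x
  have hM : M = 0 := by
    refine Matrix.ext_iff_trace_mul_left.mpr ?_
    intro N
    rw [Matrix.mul_zero, Matrix.trace_zero]
    have h1 := h (Matrix.toLin b b N)
    rw [LinearMap.trace_eq_matrix_trace A b, LinearMap.toMatrix_mul, LinearMap.toMatrix_toLin] at h1
    exact h1
  exact (LinearMap.toMatrix b b).injective (by rw [map_zero]; exact hM)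

theorem traceFormNondegenerate (ρ : GaloisRepAdic A) (h : ρ.residual.IsAbsolutelyIrreducible) :
    TraceFormNondegenerate ρ := by
  intro x hx
  apply eq_zero_of_forall_trace_mul
  intro f
  have hf : f ∈ Submodule.span A (Set.range ρ.ρ) := by
    rw [Fermat.Agent.H32.span_range_eq_top ρ h]; trivial
  refine Submodule.span_induction (p := fun f _ => LinearMap.trace A ρ.V (f * x) = 0) ?_ ?_ ?_ ?_ hf
  · rintro _ ⟨g, rfl⟩
    exact hx g
  · rw [zero_mul, map_zero]
  · intro f g _ _ hf hg
    rw [add_mul, map_add, hf, hg, add_zero]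
  · intro a f _ hf
    rw [smul_mul_assoc, map_smul, hf, smul_zero]

end

/-- `S31` from a faithful Galois-Hecke module. -/
theorem S31_of_module
    {p N : ℕ} [NeZero N] {S : Finset ℕ}
    {𝒪 : Type} [CommRing 𝒪] [IsDomain 𝒪] [IsDiscreteValuationRing 𝒪]
    [IsAdicComplete (IsLocalRing.maximalIdeal 𝒪) 𝒪]
    {θ : CuspForm.heckeAlgebra N 2 (↑S : Set ℕ) →+* IsLocalRing.ResidueField 𝒪}
    {T : Type} [CommRing T] [IsLocalRing T] [IsNoetherianRing T]
    [IsAdicComplete (IsLocalRing.maximalIdeal T) T] [Algebra 𝒪 T] [IsLocalHom (algebraMap 𝒪 T)]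
    [Module.Finite 𝒪 T] [Module.Free 𝒪 T]
    (hp : p.Prime)
    (hp𝒪 : (p : 𝒪) ∈ IsLocalRing.maximalIdeal 𝒪) (hpS : p ∈ S)
    (hNS : ∀ q : ℕ, q.Prime → q ∣ N → q ∈ S)
    (H : CuspForm.HeckeGaloisRepDatum N (↑S : Set ℕ) 𝒪 θ T)
    (q : ℕ) (hq : q.Prime) (hqS : q ∉ S)
    {J : Type*} [AddCommGroup J] [Module HeckeAlg J] [DistribMulAction GQ J]
    [SMulCommClass GQ HeckeAlg J]
    (hU : UnramifiedOutside (K := ℚ) (L := AlgebraicClosure ℚ) N p J)
    (hF : FrobeniusQuadratic (K := ℚ) (L := AlgebraicClosure ℚ) N p J)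
    (hfin : FiniteLevel p J) (hfaith : HeckeFaithful N (↑S : Set ℕ) p J) :
    H.ρ.IsUnramifiedAt q :=
  isUnramifiedAt_of_module weakFrobeniusDensity hp hp𝒪 hpS hNS H
    (traceFormNondegenerate H.ρ H.residual_absIrr) q hq hqS hU hF hfin hfaith

end Fermat.Agent.H31
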