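/-
H31JZero: `S31` from the properties of `JZero N`.
-/
import Fermat.Prelude.Def_ModularCurve_HeckeModule
import Fermat.Agent.H31Level
import Fermat.Agent.H31Wire

set_option autoImplicit false

noncomputable section

open AlgebraicCurve ModularCurve CuspForm

namespace Fermat.Agent.H31

/-- The Galois action on `J_0(N)[p^n]` has finite level, if `J_0(N)[p^n]` is finite. -/
theorem finiteLevel_JZero (N p : ℕ)
    [HasPrincipalDivisors (AlgebraicClosure ℚ) (modularFunctionFieldBar N)]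
    (hfin : ∀ n : ℕ, {x : JZero N | p ^ n • x = 0}.Finite) :
    FiniteLevel p (JZero N) := fun n =>
  exists_level_JZero_of_finite N _ (hfin n)

/-- `SpecializationExists` implies that the `p`-power torsion is unramified outside `N p`. -/
theorem unramifiedOutside_of_specializationExists {N p : ℕ} {J : Type*} [AddCommGroup J]
    [Module HeckeAlg J] [DistribMulAction GQ J] [SMulCommClass GQ HeckeAlg J]
    (h : SpecializationExists (K := ℚ) (L := AlgebraicClosure ℚ) N p J) :
    UnramifiedOutside (K := ℚ) (L := AlgebraicClosure ℚ) N p J := by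
  intro ℓ hℓ hℓN A hA σ hσ x hx
  obtain ⟨J', _, _, sp, F, hsp, -⟩ := h ℓ hℓ hℓN A hA
  rw [← sub_eq_zero]
  apply hsp.injective_torsion
  · obtain ⟨n, hn⟩ := hx
    refine ⟨n, ?_⟩
    rw [smul_sub]
    have h1 : p ^ n • (σ • x) = σ • (p ^ n • x) :=
      (map_nsmul (DistribSMul.toAddMonoidHom J σ) (p ^ n) x).symm
    rw [h1, hn, smul_zero, sub_zero]
  · rw [map_sub, hsp.inertia_comm σ hσ, sub_self]

/-- `SpecializationExists` implies the quadratic relation for Frobenius elements. -/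
theorem frobeniusQuadratic_of_specializationExists {N p : ℕ} {J : Type*} [AddCommGroup J]
    [Module HeckeAlg J] [DistribMulAction GQ J] [SMulCommClass GQ HeckeAlg J]
    (h : SpecializationExists (K := ℚ) (L := AlgebraicClosure ℚ) N p J) :
    FrobeniusQuadratic (K := ℚ) (L := AlgebraicClosure ℚ) N p J := by
  intro ℓ hℓ hℓN A hA σ hσ x hx
  obtain ⟨J', _, _, sp, F, hsp, hrel⟩ := h ℓ hℓ hℓN A hA
  apply hsp.injective_torsion
  · obtain ⟨n, hn⟩ := hx
    refine ⟨n, ?_⟩
    have h1 : ∀ y : J, p ^ n • (σ • y) = σ • (p ^ n • y) := fun y =>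
      (map_nsmul (DistribSMul.toAddMonoidHom J σ) (p ^ n) y).symm
    rw [smul_add, smul_sub, h1, h1, hn, smul_zero, smul_zero,
      smul_comm (p ^ n) (heckeGen ⟨ℓ, hℓ⟩) (σ • x), h1, hn, smul_zero, smul_zero, sub_zero,
      smul_comm (p ^ n) ℓ x, hn, smul_zero, add_zero]
  · rw [map_add, map_sub, hsp.hecke_comm, map_nsmul, hsp.frobenius_comm σ hσ,
      hsp.frobenius_comm σ hσ]
    exact hrel (sp x)

/-- `S31` from the properties of `JZero N`. -/
theorem S31_of_JZero
    {p N : ℕ} [NeZero N] {S : Finset ℕ}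
    {𝒪 : Type} [CommRing 𝒪] [IsDomain 𝒪] [IsDiscreteValuationRing 𝒪]
    [IsAdicComplete (IsLocalRing.maximalIdeal 𝒪) 𝒪]
    {θ : CuspForm.heckeAlgebra N 2 (↑S : Set ℕ) →+* IsLocalRing.ResidueField 𝒪}
    {T : Type} [CommRing T] [IsLocalRing T] [IsNoetherianRing T]
    [IsAdicComplete (IsLocalRing.maximalIdeal T) T] [Algebra 𝒪 T] [IsLocalHom (algebraMap 𝒪 T)]
    [Module.Finite 𝒪 T] [Module.Free 𝒪 T]
    (hp : p.Prime)
    (hp𝒪 : (p : 𝒪) ∈ IsLocalRing.maximalIdeal 𝒪) (hpS : p ∈ S)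
    (hNS : ∀ q : ℕ, q.Prime → q ∣ N → q ∈ S)
    (H : CuspForm.HeckeGaloisRepDatum N (↑S : Set ℕ) 𝒪 θ T)
    (q : ℕ) (hq : q.Prime) (hqS : q ∉ S)
    [hPD : HasPrincipalDivisors (AlgebraicClosure ℚ) (modularFunctionFieldBar N)]
    (hfin : ∀ n : ℕ, {x : JZero N | p ^ n • x = 0}.Finite)
    (hcommG : letI := heckeModuleBar N; SMulCommClass GQ HeckeAlg (JZero N))
    (hspec : letI := heckeModuleBar N; haveI := hcommG;
      SpecializationExists (K := ℚ) (L := AlgebraicClosure ℚ) N p (JZero N))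
    (hfaith : letI := heckeModuleBar N; HeckeFaithful N (↑S : Set ℕ) p (JZero N)) :
    H.ρ.IsUnramifiedAt q := by
  letI := heckeModuleBar N
  haveI := hcommG
  exact S31_of_module hp hp𝒪 hpS hNS H q hq hqS
    (unramifiedOutside_of_specializationExists hspec)
    (frobeniusQuadratic_of_specializationExists hspec)
    (finiteLevel_JZero N p hfin) hfaith

end Fermat.Agent.H31
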