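import Mathlib.LinearAlgebra.Trace
import Mathlib.LinearAlgebra.Determinant
import Mathlib.LinearAlgebra.Matrix.Charpoly.LinearMap
import Mathlib.LinearAlgebra.Charpoly.ToMatrix
import Mathlib.LinearAlgebra.Matrix.Charpoly.Coeff
import Fermat.Agent.H32Burnside

/-!
# The theorem of Boston-Lenstra-Ribet in rank two, over an arbitrary commutative ring

Let `A` be a commutative ring, `G` a group, `V` a free `A`-module of rank two with an action
`ρ` of `G` whose image spans `End_A V`, and `M` any `A`-module with an action `μ` of `G` with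
`μ(g)² - tr(ρ g) μ(g) + det(ρ g) = 0` for all `g`.
Then the action of `A[G]` on `M` factors through `End_A V` (`exists_algHom_of_quadratic`), hence
`M ≅ V ⊗ M₀` (`exists_equiv_tensor_of_quadratic`).
-/

set_option autoImplicit false

open scoped TensorProduct

namespace Fermat.Agent.H32

section TwoByTwo

variable {A V : Type*} [CommRing A] [AddCommGroup V] [Module A V]

theorem det_add_of_basis (b : Module.Basis (Fin 2) A V) (f g : Module.End A V) :
    LinearMap.det (f + g) = LinearMap.det f + LinearMap.det g +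
      (LinearMap.trace A V f * LinearMap.trace A V g - LinearMap.trace A V (f * g)) := by
  rw [← LinearMap.det_toMatrix b, ← LinearMap.det_toMatrix b, ← LinearMap.det_toMatrix b,
    LinearMap.trace_eq_matrix_trace A b, LinearMap.trace_eq_matrix_trace A b,
    LinearMap.trace_eq_matrix_trace A b, map_add, LinearMap.toMatrix_mul]
  simp only [Matrix.det_fin_two, Matrix.trace_fin_two, Matrix.add_apply, Matrix.mul_apply,
    Fin.sum_univ_two]
  ring

theorem det_smul_of_basis (b : Module.Basis (Fin 2) A V) (a : A) (f : Module.End A V) :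
    LinearMap.det (a • f) = a ^ 2 * LinearMap.det f := by
  rw [← LinearMap.det_toMatrix b, ← LinearMap.det_toMatrix b, map_smul, Matrix.det_smul,
    Fintype.card_fin]

theorem trace_mul_self_of_basis (b : Module.Basis (Fin 2) A V) (f : Module.End A V) :
    LinearMap.trace A V (f * f) = (LinearMap.trace A V f) ^ 2 - 2 * LinearMap.det f := by
  rw [← LinearMap.det_toMatrix b, LinearMap.trace_eq_matrix_trace A b,
    LinearMap.trace_eq_matrix_trace A b, LinearMap.toMatrix_mul]
  simp only [Matrix.det_fin_two, Matrix.trace_fin_two, Matrix.mul_apply,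
    Fin.sum_univ_two]
  ring

/-- Cayley-Hamilton for endomorphisms of a free module of rank two. -/
theorem quadratic_of_basis (b : Module.Basis (Fin 2) A V) (f : Module.End A V) :
    f * f - (LinearMap.trace A V f) • f + (LinearMap.det f) • (1 : Module.End A V) = 0 := by
  apply (LinearMap.toMatrix b b).injective
  rw [map_zero, map_add, map_sub, map_smul, map_smul, LinearMap.toMatrix_mul,
    ← LinearMap.det_toMatrix b, LinearMap.trace_eq_matrix_trace A b, LinearMap.toMatrix_one,
    Matrix.det_fin_two]
  ext i j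
  fin_cases i <;> fin_cases j <;>
  simp [Matrix.trace_fin_two, Matrix.mul_apply, Fin.sum_univ_two] <;> ring

end TwoByTwo

section BLR

variable {A V M G : Type*} [CommRing A] [AddCommGroup V] [Module A V] [AddCommGroup M] [Module A M]
  [Group G]

/-- The pairs `(ρ g, μ g)`. -/
def pairHom (ρ : G →* Module.End A V) (μ : G →* Module.End A M) :
    G →* Module.End A V × Module.End A M :=
  ρ.prod μ

/-- The `A`-subalgebra of `End V × End M` spanned by the pairs `(ρ g, μ g)`. -/
def pairAlg (ρ : G →* Module.End A V) (μ : G →* Module.End A M) :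
    Subalgebra A (Module.End A V × Module.End A M) :=
  Algebra.adjoin A (Set.range (pairHom ρ μ))

theorem mem_pairAlg_iff (ρ : G →* Module.End A V) (μ : G →* Module.End A M)
    (x : Module.End A V × Module.End A M) :
    x ∈ pairAlg ρ μ ↔ x ∈ Submodule.span A (Set.range (pairHom ρ μ)) := by
  rw [← adjoin_range_eq_span]; rfl

variable (ρ : G →* Module.End A V) (μ : G →* Module.End A M)

/-- The quadratic relation. -/
def Quadratic : Prop :=
  ∀ g : G, μ g * μ g - (LinearMap.trace A V (ρ g)) • μ g +
    (LinearMap.det (ρ g)) • (1 : Module.End A M) = 0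

variable {ρ μ}

theorem Quadratic.star_eq (h : Quadratic ρ μ) (g : G) :
    (LinearMap.trace A V (ρ g)) • (1 : Module.End A M) - μ g =
      (LinearMap.det (ρ g)) • μ g⁻¹ := by
  have h1 := congrArg (fun x => x * μ g⁻¹) (h g)
  simp only [add_mul, sub_mul, smul_mul_assoc, one_mul, zero_mul, mul_assoc] at h1
  rw [← map_mul, mul_inv_cancel, map_one, mul_one] at h1
  rw [← sub_eq_zero, ← neg_eq_zero, ← h1]
  abel

theorem Quadratic.anti (h : Quadratic ρ μ) {x y : Module.End A V × Module.End A M}
    (hx : x ∈ pairAlg ρ μ) (hy : y ∈ pairAlg ρ μ) :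
    (LinearMap.trace A V (x.1 * y.1)) • (1 : Module.End A M) - x.2 * y.2 =
      ((LinearMap.trace A V y.1) • (1 : Module.End A M) - y.2) *
        ((LinearMap.trace A V x.1) • (1 : Module.End A M) - x.2) := by
  rw [mem_pairAlg_iff] at hx hy
  induction hx using Submodule.span_induction with
  | mem x hx =>
    obtain ⟨g, rfl⟩ := hx
    induction hy using Submodule.span_induction with
    | mem y hy =>
      obtain ⟨k, rfl⟩ := hy
      show (LinearMap.trace A V (ρ g * ρ k)) • (1 : Module.End A M) - μ g * μ k =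
        ((LinearMap.trace A V (ρ k)) • (1 : Module.End A M) - μ k) *
          ((LinearMap.trace A V (ρ g)) • (1 : Module.End A M) - μ g)
      rw [← map_mul, ← map_mul, h.star_eq, h.star_eq, h.star_eq, map_mul, map_mul, mul_inv_rev,
        map_mul, smul_mul_smul_comm, mul_comm (LinearMap.det (ρ k))]
    | zero => simp
    | add y z _ _ hy hz =>
      simp only [Prod.fst_add, Prod.snd_add, mul_add, map_add, add_smul]
      have : ∀ (a b c d : Module.End A M), a + b - (c + d) = (a - c) + (b - d) := by
        intros; abel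
      rw [this, this, add_mul, hy, hz]
    | smul a y _ hy =>
      simp only [Prod.smul_fst, Prod.smul_snd, mul_smul_comm, map_smul, smul_assoc, ← smul_sub,
        smul_mul_assoc]
      rw [hy]
  | zero => simp
  | add x z _ _ hx hz =>
    simp only [Prod.fst_add, Prod.snd_add, add_mul, map_add, add_smul]
    have : ∀ (a b c d : Module.End A M), a + b - (c + d) = (a - c) + (b - d) := by
      intros; abel
    rw [this, this, mul_add, hx, hz]
  | smul a x _ hx =>
    simp only [Prod.smul_fst, Prod.smul_snd, smul_mul_assoc, map_smul, smul_assoc, ← smul_sub,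
      mul_smul_comm]
    rw [hx]

theorem Quadratic.norm (b : Module.Basis (Fin 2) A V) (h : Quadratic ρ μ)
    {x : Module.End A V × Module.End A M} (hx : x ∈ pairAlg ρ μ) :
    x.2 * ((LinearMap.trace A V x.1) • (1 : Module.End A M) - x.2) =
      (LinearMap.det x.1) • (1 : Module.End A M) := by
  have hx' := hx
  rw [mem_pairAlg_iff] at hx
  induction hx using Submodule.span_induction with
  | mem x hx =>
    obtain ⟨g, rfl⟩ := hx
    show μ g * ((LinearMap.trace A V (ρ g)) • (1 : Module.End A M) - μ g) = _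
    rw [h.star_eq, mul_smul_comm, ← map_mul, mul_inv_cancel, map_one]
    rfl
  | zero =>
    simp only [Prod.fst_zero, Prod.snd_zero, zero_mul]
    have : LinearMap.det (0 : Module.End A V) = 0 := by
      have := det_smul_of_basis b 0 (0 : Module.End A V)
      simpa using this
    rw [this, zero_smul]
  | add x y hxs hys ihx ihy =>
    have hxm : x ∈ pairAlg ρ μ := (mem_pairAlg_iff ρ μ x).mpr hxs
    have hym : y ∈ pairAlg ρ μ := (mem_pairAlg_iff ρ μ y).mpr hys
    have hx1 := ihx hxm
    have hy1 := ihy hym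
    -- polar identity
    have hanti := h.anti hxm hym
    have hanti' := h.anti hym hxm
    rw [Prod.fst_add, Prod.snd_add, det_add_of_basis b, map_add]
    have e1 : (x.2 + y.2) * ((LinearMap.trace A V x.1 + LinearMap.trace A V y.1) •
        (1 : Module.End A M) - (x.2 + y.2)) =
        x.2 * ((LinearMap.trace A V x.1) • (1 : Module.End A M) - x.2) +
        y.2 * ((LinearMap.trace A V y.1) • (1 : Module.End A M) - y.2) +
        (x.2 * ((LinearMap.trace A V y.1) • (1 : Module.End A M) - y.2) +
        y.2 * ((LinearMap.trace A V x.1) • (1 : Module.End A M) - x.2)) := by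
      rw [add_smul]
      simp only [mul_sub, mul_add, add_mul]
      abel
    rw [e1, hx1, hy1, add_smul, add_smul]
    congr 1
    -- (tr x tr y - tr (x y)) = x y* + y x*
    have e2 : ((LinearMap.trace A V y.1) • (1 : Module.End A M) - y.2) *
        ((LinearMap.trace A V x.1) • (1 : Module.End A M) - x.2) =
        (LinearMap.trace A V x.1 * LinearMap.trace A V y.1) • (1 : Module.End A M)
        - (LinearMap.trace A V x.1) • y.2 - (LinearMap.trace A V y.1) • x.2 + y.2 * x.2 := by
      rw [sub_mul, mul_sub, mul_sub, smul_mul_smul_comm, one_mul, smul_mul_assoc, one_mul,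
        mul_smul_comm, mul_one, mul_comm (LinearMap.trace A V y.1)]
      abel
    rw [e2] at hanti
    have e3 : x.2 * ((LinearMap.trace A V y.1) • (1 : Module.End A M) - y.2) +
        y.2 * ((LinearMap.trace A V x.1) • (1 : Module.End A M) - x.2) =
        (LinearMap.trace A V y.1) • x.2 - x.2 * y.2 + (LinearMap.trace A V x.1) • y.2
          - y.2 * x.2 := by
      rw [mul_sub, mul_sub, mul_smul_comm, mul_smul_comm, mul_one, mul_one]
      abel
    rw [e3, sub_smul]
    have e4 : (LinearMap.trace A V x.1 * LinearMap.trace A V y.1) • (1 : Module.End A M) =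
        (LinearMap.trace A V (x.1 * y.1)) • (1 : Module.End A M) - x.2 * y.2
          + (LinearMap.trace A V x.1) • y.2 + (LinearMap.trace A V y.1) • x.2 - y.2 * x.2 := by
      rw [hanti]; abel
    rw [e4]
    abel
  | smul a x hxs ihx =>
    have hxm : x ∈ pairAlg ρ μ := (mem_pairAlg_iff ρ μ x).mpr hxs
    have hx1 := ihx hxm
    rw [Prod.smul_fst, Prod.smul_snd, map_smul, smul_assoc, ← smul_sub, smul_mul_smul_comm, hx1,
      det_smul_of_basis b, pow_two, smul_smul]

theorem Quadratic.eq_zero_of_fst_eq_zero (b : Module.Basis (Fin 2) A V) (h : Quadratic ρ μ)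
    (hsurj : Submodule.span A (Set.range ρ) = ⊤)
    {x : Module.End A V × Module.End A M} (hx : x ∈ pairAlg ρ μ) (hx0 : x.1 = 0) :
    x.2 = 0 := by
  -- elements of the kernel
  have hsq : ∀ {k : Module.End A V × Module.End A M}, k ∈ pairAlg ρ μ → k.1 = 0 →
      k.2 * k.2 = 0 := by
    intro k hk hk0
    have := h.norm b hk
    have hdet : LinearMap.det (0 : Module.End A V) = 0 := by
      have := det_smul_of_basis b 0 (0 : Module.End A V)
      simpa using this
    rw [hk0, map_zero, zero_smul, zero_sub, hdet, zero_smul, mul_neg, neg_eq_zero] at this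
    exact this
  have hstar : ∀ {k y : Module.End A V × Module.End A M}, k ∈ pairAlg ρ μ → k.1 = 0 →
      y ∈ pairAlg ρ μ →
      k.2 * y.2 = ((LinearMap.trace A V y.1) • (1 : Module.End A M) - y.2) * k.2 := by
    intro k y hk hk0 hy
    have := h.anti hk hy
    rw [hk0, zero_mul, map_zero, zero_smul, zero_sub, zero_sub, mul_neg] at this
    exact neg_injective this
  have hcomm : ∀ {k y z : Module.End A V × Module.End A M}, k ∈ pairAlg ρ μ → k.1 = 0 →
      y ∈ pairAlg ρ μ → z ∈ pairAlg ρ μ → k.2 * (y.2 * z.2 - z.2 * y.2) = 0 := by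
    intro k y z hk hk0 hy hz
    have h1 : k * y ∈ pairAlg ρ μ := mul_mem hk hy
    have h2 := hstar h1 (by rw [Prod.fst_mul, hk0, zero_mul]) hz
    rw [Prod.snd_mul, ← mul_assoc, ← hstar hk hk0 hz] at h2
    rw [mul_sub, ← mul_assoc, ← mul_assoc, h2, sub_self]
  -- matrix units
  have hlift : ∀ f : Module.End A V, ∃ m : Module.End A M, (f, m) ∈ pairAlg ρ μ := by
    intro f
    have hf : f ∈ Submodule.span A (Set.range ρ) := by rw [hsurj]; trivial
    induction hf using Submodule.span_induction with
    | mem f hf =>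
      obtain ⟨g, rfl⟩ := hf
      exact ⟨μ g, Algebra.subset_adjoin ⟨g, rfl⟩⟩
    | zero => exact ⟨0, zero_mem _⟩
    | add f g _ _ hf hg =>
      obtain ⟨m, hm⟩ := hf
      obtain ⟨n, hn⟩ := hg
      exact ⟨m + n, add_mem hm hn⟩
    | smul a f _ hf =>
      obtain ⟨m, hm⟩ := hf
      exact ⟨a • m, (pairAlg ρ μ).smul_mem hm a⟩
  let E : Fin 2 → Fin 2 → Module.End A V := fun i j =>
    LinearMap.toSpanSingleton A V (b i) ∘ₗ b.coord j
  have hE : ∀ i j k l, E i j * E k l = if j = k then E i l else 0 := by
    intro i j k l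
    refine LinearMap.ext fun v => ?_
    simp only [E, Module.End.mul_apply, LinearMap.comp_apply, LinearMap.toSpanSingleton_apply,
      map_smul, Module.Basis.coord_apply, Module.Basis.repr_self]
    split_ifs with hjk
    · subst hjk
      simp
    · simp [Ne.symm hjk]
  have hE1 : E 0 0 + E 1 1 = 1 := by
    refine b.ext fun l => ?_
    fin_cases l <;> simp [E]
  obtain ⟨m00, h00⟩ := hlift (E 0 0)
  obtain ⟨m01, h01⟩ := hlift (E 0 1)
  obtain ⟨m10, h10⟩ := hlift (E 1 0)
  obtain ⟨m11, h11⟩ := hlift (E 1 1)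
  set k : Module.End A V × Module.End A M := 1 - (((E 0 0, m00) * (E 0 1, m01) -
    (E 0 1, m01) * (E 0 0, m00)) * (E 1 0, m10) + ((E 1 1, m11) * (E 1 0, m10) -
    (E 1 0, m10) * (E 1 1, m11)) * (E 0 1, m01)) with hk
  have hkm : k ∈ pairAlg ρ μ := by
    refine sub_mem (one_mem _) (add_mem (mul_mem (sub_mem (mul_mem h00 h01) (mul_mem h01 h00)) h10)
      (mul_mem (sub_mem (mul_mem h11 h10) (mul_mem h10 h11)) h01))
  have hk0 : k.1 = 0 := by
    simp only [hk, Prod.fst_sub, Prod.fst_one, Prod.fst_add, Prod.fst_mul, hE]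
    simp [hE]
    rw [← hE1]
    abel
  have hk2 : k.2 = 1 - ((m00 * m01 - m01 * m00) * m10 + (m11 * m10 - m10 * m11) * m01) := by
    simp only [hk, Prod.snd_sub, Prod.snd_one, Prod.snd_add, Prod.snd_mul]
  have hxk : x.2 = x.2 * k.2 := by
    rw [hk2, mul_sub, mul_one, mul_add, ← mul_assoc, ← mul_assoc,
      hcomm hx hx0 h00 h01, hcomm hx hx0 h11 h10]
    simp
  rw [hxk, hxk, mul_assoc, hsq hkm hk0, mul_zero]

/-- **Boston-Lenstra-Ribet.** The action of `A[G]` on `M` factors through `End_A V`. -/
theorem exists_algHom_of_quadratic (b : Module.Basis (Fin 2) A V)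
    (hsurj : Submodule.span A (Set.range ρ) = ⊤) (h : Quadratic ρ μ) :
    ∃ Ψ : Module.End A V →ₐ[A] Module.End A M, ∀ g, Ψ (ρ g) = μ g := by
  let F : pairAlg ρ μ →ₐ[A] Module.End A V := (AlgHom.fst A _ _).comp (pairAlg ρ μ).val
  have hFinj : Function.Injective F := by
    rw [injective_iff_map_eq_zero]
    intro x hx
    have hx1 : (x : Module.End A V × Module.End A M).1 = 0 := hx
    have hx2 := h.eq_zero_of_fst_eq_zero b hsurj x.2 hx1
    exact Subtype.ext (Prod.ext hx1 hx2)
  have hFsurj : Function.Surjective F := by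
    intro f
    have hf : f ∈ Submodule.span A (Set.range ρ) := by rw [hsurj]; trivial
    induction hf using Submodule.span_induction with
    | mem f hf =>
      obtain ⟨g, rfl⟩ := hf
      exact ⟨⟨pairHom ρ μ g, Algebra.subset_adjoin ⟨g, rfl⟩⟩, rfl⟩
    | zero => exact ⟨0, map_zero _⟩
    | add f g _ _ hf hg =>
      obtain ⟨m, hm⟩ := hf
      obtain ⟨n, hn⟩ := hg
      exact ⟨m + n, by rw [map_add, hm, hn]⟩
    | smul a f _ hf =>
      obtain ⟨m, hm⟩ := hf
      exact ⟨a • m, by rw [map_smul, hm]⟩
  let e := AlgEquiv.ofBijective F ⟨hFinj, hFsurj⟩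
  refine ⟨((AlgHom.snd A _ _).comp (pairAlg ρ μ).val).comp e.symm.toAlgHom, fun g => ?_⟩
  have hg : e.symm (ρ g) = ⟨pairHom ρ μ g, Algebra.subset_adjoin ⟨g, rfl⟩⟩ := by
    rw [AlgEquiv.symm_apply_eq]; rfl
  show ((e.symm (ρ g) : pairAlg ρ μ) : Module.End A V × Module.End A M).2 = μ g
  rw [hg]; rfl

end BLR

section Morita

variable {A V M ι : Type*} [CommRing A] [AddCommGroup V] [Module A V] [AddCommGroup M] [Module A M]
  [Fintype ι] (b : Module.Basis ι A V) (i0 : ι)
  (Ψ : Module.End A V →ₐ[A] Module.End A M)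

/-- The endomorphism `w ↦ b_{i0}^*(w) v`. -/
noncomputable def rankOne : V →ₗ[A] Module.End A V where
  toFun v := (b.coord i0).smulRight v
  map_add' v w := by ext x; simp
  map_smul' a v := by
    ext x
    simp only [LinearMap.smulRight_apply, LinearMap.smul_apply, RingHom.id_apply]
    rw [smul_comm]

omit [Fintype ι] in
theorem rankOne_apply (v w : V) : rankOne b i0 v w = b.repr w i0 • v := rfl

omit [Fintype ι] in
theorem mul_rankOne (f : Module.End A V) (v : V) : f * rankOne b i0 v = rankOne b i0 (f v) := by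
  ext w
  simp [rankOne_apply]

omit [Fintype ι] in
theorem rankOne_mul_rankOne (i : ι) (v w : V) :
    rankOne b i v * rankOne b i0 w = b.repr w i • rankOne b i0 v := by
  ext x
  simp [rankOne_apply, smul_smul, mul_comm]

theorem sum_rankOne_mul_self : ∑ i, rankOne b i (b i) = 1 := by
  ext x
  simp only [LinearMap.coe_sum, Finset.sum_apply, rankOne_apply, Module.End.one_apply]
  exact b.sum_repr x

/-- The multiplicity module. -/
noncomputable def multModule : Submodule A M := LinearMap.range (Ψ (rankOne b i0 (b i0)))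

omit [Fintype ι] in
theorem apply_mem_multModule (i : ι) (m : M) :
    Ψ (rankOne b i (b i0)) m ∈ multModule b i0 Ψ := by
  refine ⟨Ψ (rankOne b i (b i0)) m, ?_⟩
  rw [← Module.End.mul_apply, ← map_mul, rankOne_mul_rankOne]
  simp

omit [Fintype ι] in
theorem apply_eq_self_of_mem_multModule {m : M} (hm : m ∈ multModule b i0 Ψ) :
    Ψ (rankOne b i0 (b i0)) m = m := by
  obtain ⟨n, rfl⟩ := hm
  rw [← Module.End.mul_apply, ← map_mul, rankOne_mul_rankOne]
  simp

/-- Morita theory for `End_A V`, `V` free: `V ⊗ M₀ ≅ M`. -/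
noncomputable def moritaEquiv : V ⊗[A] (multModule b i0 Ψ) ≃ₗ[A] M :=
  LinearEquiv.ofLinearMap
    (TensorProduct.lift ((LinearMap.lcomp A M (multModule b i0 Ψ).subtype) ∘ₗ
      (Ψ.toLinearMap ∘ₗ rankOne b i0)))
    (∑ i, (TensorProduct.mk A V (multModule b i0 Ψ) (b i)) ∘ₗ
      LinearMap.codRestrict (multModule b i0 Ψ) (Ψ (rankOne b i (b i0)))
        (fun m => apply_mem_multModule b i0 Ψ i m))
    (by
      ext m
      simp only [LinearMap.comp_apply, LinearMap.coe_sum, Finset.sum_apply, map_sum,
        TensorProduct.mk_apply, TensorProduct.lift.tmul, LinearMap.id_apply]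
      have : ∀ i, (LinearMap.lcomp A M (multModule b i0 Ψ).subtype) ((Ψ.toLinearMap) ((rankOne b i0) (b i)))
          (LinearMap.codRestrict (multModule b i0 Ψ) (Ψ (rankOne b i (b i0)))
            (fun m => apply_mem_multModule b i0 Ψ i m) m) = Ψ (rankOne b i (b i)) m := by
        intro i
        show Ψ (rankOne b i0 (b i)) (Ψ (rankOne b i (b i0)) m) = _
        rw [← Module.End.mul_apply, ← map_mul, rankOne_mul_rankOne]
        simp
      rw [Finset.sum_congr rfl fun i _ => this i, ← LinearMap.sum_apply, ← map_sum,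
        sum_rankOne_mul_self, map_one]
      rfl)
    (by
      ext v m
      simp only [LinearMap.comp_apply, LinearMap.coe_sum, Finset.sum_apply,
        TensorProduct.mk_apply, TensorProduct.lift.tmul, LinearMap.id_apply,
        TensorProduct.AlgebraTensorModule.curry_apply, LinearMap.coe_restrictScalars,
        TensorProduct.curry_apply]
      have : ∀ i, LinearMap.codRestrict (multModule b i0 Ψ) (Ψ (rankOne b i (b i0)))
            (fun m => apply_mem_multModule b i0 Ψ i m)
            ((LinearMap.lcomp A M (multModule b i0 Ψ).subtype)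
              ((Ψ.toLinearMap) ((rankOne b i0) v)) m) = (b.repr v i) • m := by
        intro i
        apply Subtype.ext
        show Ψ (rankOne b i (b i0)) (Ψ (rankOne b i0 v) m) = (b.repr v i) • (m : M)
        rw [← Module.End.mul_apply, ← map_mul, rankOne_mul_rankOne, map_smul, LinearMap.smul_apply,
          apply_eq_self_of_mem_multModule b i0 Ψ m.2]
      rw [Finset.sum_congr rfl fun i _ => by rw [this i]]
      simp only [TensorProduct.tmul_smul, TensorProduct.smul_tmul']
      rw [← TensorProduct.sum_tmul, b.sum_repr])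

theorem moritaEquiv_tmul (v : V) (m : multModule b i0 Ψ) :
    moritaEquiv b i0 Ψ (v ⊗ₜ[A] m) = Ψ (rankOne b i0 v) m := rfl

theorem moritaEquiv_map (f : Module.End A V) (x : V ⊗[A] (multModule b i0 Ψ)) :
    moritaEquiv b i0 Ψ (f.rTensor _ x) = Ψ f (moritaEquiv b i0 Ψ x) := by
  induction x using TensorProduct.induction_on with
  | zero => simp
  | tmul v m =>
    rw [LinearMap.rTensor_tmul, moritaEquiv_tmul, moritaEquiv_tmul, ← mul_rankOne, map_mul]
    rfl
  | add x y hx hy => rw [map_add, map_add, hx, hy, map_add, map_add]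

end Morita

/-- **Boston-Lenstra-Ribet.** -/
theorem exists_equiv_tensor_of_quadratic {A V M G : Type*} [CommRing A] [AddCommGroup V]
    [Module A V] [AddCommGroup M] [Module A M] [Group G] (ρ : G →* Module.End A V)
    (μ : G →* Module.End A M) (b : Module.Basis (Fin 2) A V)
    (hsurj : Submodule.span A (Set.range ρ) = ⊤) (h : Quadratic ρ μ) :
    ∃ (M₀ : Submodule A M) (e : V ⊗[A] M₀ ≃ₗ[A] M),
      (∀ (g : G) (x : V ⊗[A] M₀), e ((ρ g).rTensor _ x) = μ g (e x)) ∧
      ∃ π : M →ₗ[A] M, LinearMap.range π = M₀ ∧ ∀ m ∈ M₀, π m = m := by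
  obtain ⟨Ψ, hΨ⟩ := exists_algHom_of_quadratic b hsurj h
  refine ⟨multModule b 0 Ψ, moritaEquiv b 0 Ψ, fun g x => ?_, Ψ (rankOne b 0 (b 0)), rfl,
    fun m hm => apply_eq_self_of_mem_multModule b 0 Ψ hm⟩
  rw [moritaEquiv_map, hΨ]

end Fermat.Agent.H32
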