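import Mathlib.LinearAlgebra.Charpoly.ToMatrix
import Mathlib.LinearAlgebra.Matrix.Charpoly.Coeff
import Mathlib.RingTheory.LocalRing.Module
import Fermat.Agent.H32BLR

/-!
# Carayol's lemma

Two representations of a group on free modules of rank two over a local ring with the same
traces and determinants are isomorphic, provided one of them is residually absolutely irreducible.
-/

set_option autoImplicit false

open scoped TensorProduct

namespace Fermat.Agent.H32

section General

variable {A V M G : Type*} [CommRing A] [IsLocalRing A] [AddCommGroup V] [Module A V]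
  [AddCommGroup M] [Module A M] [Group G]

theorem exists_equiv_of_trace_det (ρ : G →* Module.End A V) (μ : G →* Module.End A M)
    (b : Module.Basis (Fin 2) A V) (c : Module.Basis (Fin 2) A M)
    (hsurj : Submodule.span A (Set.range ρ) = ⊤)
    (htr : ∀ g, LinearMap.trace A V (ρ g) = LinearMap.trace A M (μ g))
    (hdet : ∀ g, LinearMap.det (ρ g) = LinearMap.det (μ g)) :
    ∃ e : V ≃ₗ[A] M, ∀ (g : G) (x : V), e (ρ g x) = μ g (e x) := by
  have : Module.Free A V := Module.Free.of_basis b
  have : Module.Finite A V := Module.Finite.of_basis b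
  have : Module.Free A M := Module.Free.of_basis c
  have : Module.Finite A M := Module.Finite.of_basis c
  have hq : Quadratic ρ μ := fun g => by
    rw [htr, hdet]; exact quadratic_of_basis c (μ g)
  obtain ⟨M₀, e, he, π, hπ, hπ'⟩ := exists_equiv_tensor_of_quadratic ρ μ b hsurj hq
  -- `M₀` is a direct summand of `M`, hence free
  have hproj : Module.Projective A M₀ := by
    refine Module.Projective.of_split (M := M) M₀.subtype
      (LinearMap.codRestrict M₀ π (fun m => by rw [← hπ]; exact ⟨m, rfl⟩)) ?_
    ext m
    exact hπ' m m.2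
  have hfin : Module.Finite A M₀ := by
    refine Module.Finite.of_surjective (M := M)
      (LinearMap.codRestrict M₀ π (fun m => by rw [← hπ]; exact ⟨m, rfl⟩)) ?_
    intro m
    exact ⟨m, Subtype.ext (hπ' m m.2)⟩
  have hfree : Module.Free A M₀ := Module.free_of_flat_of_isLocalRing
  have hrank : Module.finrank A M₀ = 1 := by
    have h1 := e.finrank_eq
    rw [Module.finrank_tensorProduct, Module.finrank_eq_card_basis b,
      Module.finrank_eq_card_basis c, Fintype.card_fin] at h1
    omega
  let f : M₀ ≃ₗ[A] A := LinearEquiv.ofFinrankEq M₀ A (by rw [hrank, Module.finrank_self])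
  refine ⟨(TensorProduct.rid A V).symm ≪≫ₗ (TensorProduct.congr (LinearEquiv.refl A V) f.symm)
    ≪≫ₗ e, fun g x => ?_⟩
  simp only [LinearEquiv.trans_apply, TensorProduct.rid_symm_apply, TensorProduct.congr_tmul,
    LinearEquiv.refl_apply]
  rw [← he, LinearMap.rTensor_tmul]

end General

section GaloisRep

variable {A : Type} [CommRing A] [IsLocalRing A]

open Polynomial in
theorem charpoly_eq_of_basis {A V : Type*} [CommRing A] [AddCommGroup V] [Module A V]
    (b : Module.Basis (Fin 2) A V) [Module.Free A V] [Module.Finite A V] (f : Module.End A V) :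
    f.charpoly = X ^ 2 - C (LinearMap.trace A V f) * X + C (LinearMap.det f) := by
  nontriviality A
  rw [← LinearMap.charpoly_toMatrix f b, Matrix.charpoly_fin_two,
    LinearMap.trace_eq_matrix_trace A b, LinearMap.det_toMatrix]

open Polynomial in
theorem trace_eq_of_charpoly_eq {V W : Type*} [AddCommGroup V] [Module A V] [Module.Free A V]
    [Module.Finite A V] [AddCommGroup W] [Module A W] [Module.Free A W] [Module.Finite A W]
    (hV : Module.finrank A V = 2) (hW : Module.finrank A W = 2)
    (f : Module.End A V) (g : Module.End A W) (h : f.charpoly = g.charpoly) :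
    LinearMap.trace A V f = LinearMap.trace A W g ∧ LinearMap.det f = LinearMap.det g := by
  rw [charpoly_eq_of_basis (Module.finBasisOfFinrankEq A V hV),
    charpoly_eq_of_basis (Module.finBasisOfFinrankEq A W hW)] at h
  constructor
  · have := congrArg (fun p => p.coeff 1) h
    simpa [coeff_X_pow, coeff_X, coeff_C] using this
  · have := congrArg (fun p => p.coeff 0) h
    simpa [coeff_X_pow, coeff_X, coeff_C] using this

/-- **Carayol's lemma** for `GaloisRepAdic`. -/
theorem isEquiv_of_charpoly_eq (ρ₁ ρ₂ : GaloisRepAdic A) (h : ρ₁.residual.IsAbsolutelyIrreducible)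
    (hcp : ∀ σ, (ρ₁.ρ σ).charpoly = (ρ₂.ρ σ).charpoly) : ρ₁.IsEquiv ρ₂ := by
  have hs := span_range_eq_top ρ₁ h
  obtain ⟨e, he⟩ := exists_equiv_of_trace_det ρ₁.ρ ρ₂.ρ
    (Module.finBasisOfFinrankEq A ρ₁.V ρ₁.finrank_eq)
    (Module.finBasisOfFinrankEq A ρ₂.V ρ₂.finrank_eq) hs
    (fun σ => (trace_eq_of_charpoly_eq ρ₁.finrank_eq ρ₂.finrank_eq _ _ (hcp σ)).1)
    (fun σ => (trace_eq_of_charpoly_eq ρ₁.finrank_eq ρ₂.finrank_eq _ _ (hcp σ)).2)
  exact ⟨{ toLinearEquiv := e, map_apply := he }⟩

end GaloisRep

end Fermat.Agent.H32
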