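import Mathlib.RingTheory.AdicCompletion.Basic
import Mathlib.RingTheory.Filtration
import Fermat.Agent.H32Carayol

/-!
# Comparing Galois representations through Frobenius elements

`FrobeniusDense S` is the existence form of the Frobenius density theorem: every element of
`Gal(ℚbar/ℚ)` agrees, on any finite-level subfield, with a power of a Frobenius element at some
prime outside `S`.

`charpoly_eq_of_frobeniusDense`, `isEquiv_of_frobeniusDense`: two `GaloisRepAdic A` over a local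
ring `A` with `⋂ 𝔪ⁿ = 0` having the same characteristic polynomials at all Frobenius elements
outside `S` have the same characteristic polynomials (and are isomorphic if one of them is
residually absolutely irreducible).
-/

set_option autoImplicit false

open scoped TensorProduct

namespace Fermat.Agent.H32

/-- The existence form of the Frobenius density theorem. -/
def FrobeniusDense (S : Set ℕ) : Prop :=
  ∀ (L : IntermediateField ℚ (AlgebraicClosure ℚ)), FiniteDimensional ℚ L →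
    ∀ g : AlgebraicClosure ℚ ≃ₐ[ℚ] AlgebraicClosure ℚ,
      ∃ ℓ : ℕ, ℓ.Prime ∧ ℓ ∉ S ∧ ∃ P : ValuationSubring (AlgebraicClosure ℚ), P.LiesOverPrime ℓ ∧
        ∃ φ : AlgebraicClosure ℚ ≃ₐ[ℚ] AlgebraicClosure ℚ, P.IsFrobeniusAt φ ℓ ∧
          ∃ k : ℕ, ∀ x ∈ L, (φ ^ k) x = g x

section Powers

variable {A V : Type*} [CommRing A] [AddCommGroup V] [Module A V]

theorem trace_pow_add_two (b : Module.Basis (Fin 2) A V) (f : Module.End A V) (k : ℕ) :
    LinearMap.trace A V (f ^ (k + 2)) =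
      LinearMap.trace A V f * LinearMap.trace A V (f ^ (k + 1)) -
        LinearMap.det f * LinearMap.trace A V (f ^ k) := by
  have h := quadratic_of_basis b f
  have h2 : f ^ (k + 2) = (LinearMap.trace A V f) • f ^ (k + 1) - (LinearMap.det f) • f ^ k := by
    have h3 : f ^ k * (f * f - (LinearMap.trace A V f) • f +
        (LinearMap.det f) • (1 : Module.End A V)) = 0 := by rw [h, mul_zero]
    rw [mul_add, mul_sub, mul_smul_comm, mul_smul_comm, mul_one] at h3
    have h4 : f ^ (k + 2) = f ^ k * (f * f) := by rw [pow_add, pow_two]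
    rw [h4, pow_succ]
    rw [← sub_eq_zero, ← h3]
    abel
  rw [h2, map_sub, map_smul, map_smul, smul_eq_mul, smul_eq_mul]

theorem trace_pow_eq_of_eq {W : Type*} [AddCommGroup W] [Module A W]
    (b : Module.Basis (Fin 2) A V) (c : Module.Basis (Fin 2) A W)
    (f : Module.End A V) (g : Module.End A W)
    (htr : LinearMap.trace A V f = LinearMap.trace A W g)
    (hdet : LinearMap.det f = LinearMap.det g) (k : ℕ) :
    LinearMap.trace A V (f ^ k) = LinearMap.trace A W (g ^ k) := by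
  induction k using Nat.strong_induction_on with
  | _ k ih =>
    match k with
    | 0 =>
      rw [pow_zero, pow_zero, LinearMap.trace_eq_matrix_trace A b,
        LinearMap.trace_eq_matrix_trace A c, LinearMap.toMatrix_one, LinearMap.toMatrix_one]
    | 1 => rw [pow_one, pow_one, htr]
    | k + 2 =>
      rw [trace_pow_add_two b, trace_pow_add_two c, htr, hdet, ih (k + 1) (by omega),
        ih k (by omega)]

end Powers

section Congruence

variable {A V : Type*} [CommRing A] [AddCommGroup V] [Module A V]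

theorem trace_sub_mem (b : Module.Basis (Fin 2) A V) (I : Ideal A) (f g : Module.End A V)
    (h : ∀ v, f v - g v ∈ I • (⊤ : Submodule A V)) :
    LinearMap.trace A V f - LinearMap.trace A V g ∈ I := by
  have hco : ∀ v i, b.repr (f v) i - b.repr (g v) i ∈ I := by
    intro v i
    have h1 := h v
    rw [← Finsupp.sub_apply, ← map_sub]
    refine Submodule.smul_induction_on (p := fun x => b.repr x i ∈ I) h1 ?_ ?_
    · intro a ha w _
      rw [map_smul, Finsupp.smul_apply, smul_eq_mul]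
      exact I.mul_mem_right _ ha
    · intro x y hx hy
      rw [map_add, Finsupp.add_apply]
      exact I.add_mem hx hy
  rw [LinearMap.trace_eq_matrix_trace A b, LinearMap.trace_eq_matrix_trace A b,
    Matrix.trace_fin_two, Matrix.trace_fin_two]
  simp only [LinearMap.toMatrix_apply]
  have := I.add_mem (hco (b 0) 0) (hco (b 1) 1)
  convert this using 1
  ring

theorem det_sub_mem (b : Module.Basis (Fin 2) A V) (I : Ideal A) (f g : Module.End A V)
    (h : ∀ v, f v - g v ∈ I • (⊤ : Submodule A V)) :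
    LinearMap.det f - LinearMap.det g ∈ I := by
  have hco : ∀ v i, b.repr (f v) i - b.repr (g v) i ∈ I := by
    intro v i
    have h1 := h v
    rw [← Finsupp.sub_apply, ← map_sub]
    refine Submodule.smul_induction_on (p := fun x => b.repr x i ∈ I) h1 ?_ ?_
    · intro a ha w _
      rw [map_smul, Finsupp.smul_apply, smul_eq_mul]
      exact I.mul_mem_right _ ha
    · intro x y hx hy
      rw [map_add, Finsupp.add_apply]
      exact I.add_mem hx hy
  rw [← LinearMap.det_toMatrix b, ← LinearMap.det_toMatrix b, Matrix.det_fin_two,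
    Matrix.det_fin_two]
  simp only [LinearMap.toMatrix_apply]
  have h00 := hco (b 0) 0
  have h11 := hco (b 1) 1
  have h01 := hco (b 1) 0
  have h10 := hco (b 0) 1
  have e : b.repr (f (b 0)) 0 * b.repr (f (b 1)) 1 - b.repr (f (b 1)) 0 * b.repr (f (b 0)) 1 -
      (b.repr (g (b 0)) 0 * b.repr (g (b 1)) 1 - b.repr (g (b 1)) 0 * b.repr (g (b 0)) 1) =
      ((b.repr (f (b 0)) 0 - b.repr (g (b 0)) 0) * b.repr (f (b 1)) 1 +
        b.repr (g (b 0)) 0 * (b.repr (f (b 1)) 1 - b.repr (g (b 1)) 1)) -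
      ((b.repr (f (b 1)) 0 - b.repr (g (b 1)) 0) * b.repr (f (b 0)) 1 +
        b.repr (g (b 1)) 0 * (b.repr (f (b 0)) 1 - b.repr (g (b 0)) 1)) := by ring
  rw [e]
  exact I.sub_mem (I.add_mem (I.mul_mem_right _ h00) (I.mul_mem_left _ h11))
    (I.add_mem (I.mul_mem_right _ h01) (I.mul_mem_left _ h10))

end Congruence

section GaloisRep

variable {A : Type} [CommRing A] [IsLocalRing A]

/-- If `φ^k` and `g` agree on a field `L` beyond which `ρ` is trivial mod `𝔪ⁿ`, then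
`ρ(g) ≡ ρ(φ^k)` modulo `𝔪ⁿ`. -/
theorem apply_sub_apply_mem (ρ : GaloisRepAdic A) (n : ℕ)
    (L : IntermediateField ℚ (AlgebraicClosure ℚ))
    (hL : ∀ σ : AlgebraicClosure ℚ ≃ₐ[ℚ] AlgebraicClosure ℚ, (∀ x ∈ L, σ x = x) →
      ∀ v : ρ.V, ρ.ρ σ v - v ∈ (IsLocalRing.maximalIdeal A ^ n) • (⊤ : Submodule A ρ.V))
    (g h : AlgebraicClosure ℚ ≃ₐ[ℚ] AlgebraicClosure ℚ) (hgh : ∀ x ∈ L, h x = g x) (v : ρ.V) :
    ρ.ρ g v - ρ.ρ h v ∈ (IsLocalRing.maximalIdeal A ^ n) • (⊤ : Submodule A ρ.V) := by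
  have h1 := hL (h⁻¹ * g) (fun x hx => by
    show h⁻¹ (g x) = x
    rw [← hgh x hx]
    exact h.symm_apply_apply x) v
  have h2 : ρ.ρ g v - ρ.ρ h v = ρ.ρ h (ρ.ρ (h⁻¹ * g) v - v) := by
    rw [map_sub, ← Module.End.mul_apply, ← map_mul, mul_inv_cancel_left]
  rw [h2]
  refine Submodule.smul_induction_on (p := fun x => ρ.ρ h x ∈
    (IsLocalRing.maximalIdeal A ^ n) • (⊤ : Submodule A ρ.V)) h1 ?_ ?_
  · intro a ha w _
    rw [map_smul]
    exact Submodule.smul_mem_smul ha Submodule.mem_top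
  · intro x y hx hy
    rw [map_add]
    exact Submodule.add_mem _ hx hy

theorem trace_det_eq_of_frobeniusDense (hA : ∀ a : A, (∀ n, a ∈ IsLocalRing.maximalIdeal A ^ n) → a = 0)
    {S : Set ℕ} (hS : FrobeniusDense S) (ρ₁ ρ₂ : GaloisRepAdic A)
    (hfrob : ∀ ℓ : ℕ, ℓ.Prime → ℓ ∉ S → ∀ P : ValuationSubring (AlgebraicClosure ℚ),
      P.LiesOverPrime ℓ → ∀ φ : AlgebraicClosure ℚ ≃ₐ[ℚ] AlgebraicClosure ℚ, P.IsFrobeniusAt φ ℓ →
        (ρ₁.ρ φ).charpoly = (ρ₂.ρ φ).charpoly)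
    (g : AlgebraicClosure ℚ ≃ₐ[ℚ] AlgebraicClosure ℚ) :
    LinearMap.trace A ρ₁.V (ρ₁.ρ g) = LinearMap.trace A ρ₂.V (ρ₂.ρ g) ∧
      LinearMap.det (ρ₁.ρ g) = LinearMap.det (ρ₂.ρ g) := by
  let b₁ := Module.finBasisOfFinrankEq A ρ₁.V ρ₁.finrank_eq
  let b₂ := Module.finBasisOfFinrankEq A ρ₂.V ρ₂.finrank_eq
  have key : ∀ n : ℕ, LinearMap.trace A ρ₁.V (ρ₁.ρ g) - LinearMap.trace A ρ₂.V (ρ₂.ρ g) ∈
      IsLocalRing.maximalIdeal A ^ n ∧
      LinearMap.det (ρ₁.ρ g) - LinearMap.det (ρ₂.ρ g) ∈ IsLocalRing.maximalIdeal A ^ n := by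
    intro n
    obtain ⟨L₁, hL₁, h₁⟩ := ρ₁.isAdicContinuous n
    obtain ⟨L₂, hL₂, h₂⟩ := ρ₂.isAdicContinuous n
    have := hL₁
    have := hL₂
    obtain ⟨ℓ, hℓ, hℓS, P, hP, φ, hφ, k, hk⟩ := hS (L₁ ⊔ L₂) inferInstance g
    have hc := hfrob ℓ hℓ hℓS P hP φ hφ
    have htd := trace_eq_of_charpoly_eq ρ₁.finrank_eq ρ₂.finrank_eq _ _ hc
    have e₁ := apply_sub_apply_mem ρ₁ n L₁ h₁ g (φ ^ k)
      (fun x hx => hk x (le_sup_left (a := L₁) (b := L₂) hx))
    have e₂ := apply_sub_apply_mem ρ₂ n L₂ h₂ g (φ ^ k)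
      (fun x hx => hk x (le_sup_right (a := L₁) (b := L₂) hx))
    have t₁ := trace_sub_mem b₁ _ _ _ e₁
    have t₂ := trace_sub_mem b₂ _ _ _ e₂
    have d₁ := det_sub_mem b₁ _ _ _ e₁
    have d₂ := det_sub_mem b₂ _ _ _ e₂
    rw [map_pow] at t₁ t₂ d₁ d₂
    have hp := trace_pow_eq_of_eq b₁ b₂ _ _ htd.1 htd.2 k
    rw [hp] at t₁
    rw [map_pow, htd.2] at d₁
    rw [map_pow] at d₂
    constructor
    · have := Ideal.sub_mem _ t₁ t₂
      convert this using 1
      ring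
    · have := Ideal.sub_mem _ d₁ d₂
      convert this using 1
      ring
  exact ⟨sub_eq_zero.mp (hA _ fun n => (key n).1), sub_eq_zero.mp (hA _ fun n => (key n).2)⟩

theorem charpoly_eq_of_frobeniusDense (hA : ∀ a : A, (∀ n, a ∈ IsLocalRing.maximalIdeal A ^ n) → a = 0)
    {S : Set ℕ} (hS : FrobeniusDense S) (ρ₁ ρ₂ : GaloisRepAdic A)
    (hfrob : ∀ ℓ : ℕ, ℓ.Prime → ℓ ∉ S → ∀ P : ValuationSubring (AlgebraicClosure ℚ),
      P.LiesOverPrime ℓ → ∀ φ : AlgebraicClosure ℚ ≃ₐ[ℚ] AlgebraicClosure ℚ, P.IsFrobeniusAt φ ℓ →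
        (ρ₁.ρ φ).charpoly = (ρ₂.ρ φ).charpoly)
    (g : AlgebraicClosure ℚ ≃ₐ[ℚ] AlgebraicClosure ℚ) :
    (ρ₁.ρ g).charpoly = (ρ₂.ρ g).charpoly := by
  obtain ⟨h1, h2⟩ := trace_det_eq_of_frobeniusDense hA hS ρ₁ ρ₂ hfrob g
  rw [charpoly_eq_of_basis (Module.finBasisOfFinrankEq A ρ₁.V ρ₁.finrank_eq),
    charpoly_eq_of_basis (Module.finBasisOfFinrankEq A ρ₂.V ρ₂.finrank_eq), h1, h2]

/-- Two representations with the same Frobenius characteristic polynomials outside `S`, one of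
them residually absolutely irreducible, are isomorphic. -/
theorem isEquiv_of_frobeniusDense (hA : ∀ a : A, (∀ n, a ∈ IsLocalRing.maximalIdeal A ^ n) → a = 0)
    {S : Set ℕ} (hS : FrobeniusDense S) (ρ₁ ρ₂ : GaloisRepAdic A)
    (hirr : ρ₁.residual.IsAbsolutelyIrreducible)
    (hfrob : ∀ ℓ : ℕ, ℓ.Prime → ℓ ∉ S → ∀ P : ValuationSubring (AlgebraicClosure ℚ),
      P.LiesOverPrime ℓ → ∀ φ : AlgebraicClosure ℚ ≃ₐ[ℚ] AlgebraicClosure ℚ, P.IsFrobeniusAt φ ℓ →
        (ρ₁.ρ φ).charpoly = (ρ₂.ρ φ).charpoly) :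
    ρ₁.IsEquiv ρ₂ :=
  isEquiv_of_charpoly_eq ρ₁ ρ₂ hirr (charpoly_eq_of_frobeniusDense hA hS ρ₁ ρ₂ hfrob)

/-- The separation hypothesis holds for adically complete (or just separated) rings. -/
theorem eq_zero_of_forall_mem_pow [IsHausdorff (IsLocalRing.maximalIdeal A) A] (a : A)
    (h : ∀ n, a ∈ IsLocalRing.maximalIdeal A ^ n) : a = 0 := by
  refine IsHausdorff.haus (I := IsLocalRing.maximalIdeal A) inferInstance a fun n => ?_
  rw [SModEq.zero, smul_eq_mul, Ideal.mul_top]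
  exact h n

end GaloisRep

end Fermat.Agent.H32
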