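import Mathlib
import Fermat.Prelude.Thm_IsLocalRing_isAdicComplete_of_module_finite
import Fermat.Prelude.Thm_Algebra_finite_maximalSpectrum_and_bijective_localization_of_module_finite

/-!
# Finite extensions of complete discrete valuation rings

For a complete DVR `O` of characteristic zero with finite residue field and a finite extension `K'`
of its fraction field, the integral closure of `O` in `K'` is again a complete DVR, finite over `O`,
with finite residue field.
-/

set_option autoImplicit false
set_option linter.unusedSectionVars false
set_option linter.style.haveILetI false

open IsLocalRing

namespace Fermat.Agent.H35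

/-- A domain which is finite over a complete Noetherian local ring is local. -/
theorem isLocalRing_of_finite_of_isDomain {O : Type} [CommRing O] [IsLocalRing O]
    [IsNoetherianRing O] [IsAdicComplete (maximalIdeal O) O]
    (B : Type) [CommRing B] [IsDomain B] [Algebra O B] [Module.Finite O B] : IsLocalRing B := by
  classical
  obtain ⟨hfin, hbij, -, -⟩ :=
    Algebra.finite_maximalSpectrum_and_bijective_localization_of_module_finite (𝒪 := O) B
  apply IsLocalRing.of_unique_max_ideal
  obtain ⟨m, hm⟩ := Ideal.exists_maximal B
  refine ⟨m, hm, fun n hn => ?_⟩
  by_contra hne
  set I : MaximalSpectrum B := ⟨m, hm⟩ with hI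
  set J : MaximalSpectrum B := ⟨n, hn⟩ with hJ
  have hIJ : J ≠ I := fun h => hne (congrArg MaximalSpectrum.asIdeal h)
  obtain ⟨x, hx⟩ := hbij.2 (Pi.single I 1)
  obtain ⟨y, hy⟩ := hbij.2 (Pi.single J 1)
  have hxy : x * y = 0 := by
    apply hbij.1
    rw [map_mul, hx, hy, map_zero]
    funext K
    by_cases hK : K = I
    · subst hK
      simp [Pi.single_eq_of_ne hIJ.symm]
    · simp [Pi.single_eq_of_ne hK]
  rcases mul_eq_zero.mp hxy with h | h
  · rw [h, map_zero] at hx
    have := congrFun hx I
    simp at this
  · rw [h, map_zero] at hy
    have := congrFun hy J
    simp at this

section Extension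

variable (O : Type) [CommRing O] [IsDomain O] [IsDiscreteValuationRing O]
  [IsAdicComplete (maximalIdeal O) O]
  (K : Type) [Field K] [Algebra O K] [IsFractionRing O K]
  (L : Type) [Field L] [Algebra O L] [Algebra K L] [IsScalarTower O K L]
  [FiniteDimensional K L] [Algebra.IsSeparable K L]

include K in
theorem finite_integralClosure : Module.Finite O (integralClosure O L) :=
  IsIntegralClosure.finite O K L (integralClosure O L)

include K in
theorem isDedekindDomain_integralClosure : IsDedekindDomain (integralClosure O L) :=
  integralClosure.isDedekindDomain O K L

include K in
theorem isLocalRing_integralClosure : IsLocalRing (integralClosure O L) :=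
  haveI := finite_integralClosure O K L
  isLocalRing_of_finite_of_isDomain (O := O) (integralClosure O L)

include K in
theorem injective_algebraMap_integralClosure :
    Function.Injective (algebraMap O (integralClosure O L)) := by
  have h : Function.Injective (algebraMap O L) := by
    rw [IsScalarTower.algebraMap_eq O K L]
    exact (algebraMap K L).injective.comp (IsFractionRing.injective O K)
  exact fun x y hxy => h (by
    have := congrArg (algebraMap (integralClosure O L) L) hxy
    rwa [← IsScalarTower.algebraMap_apply, ← IsScalarTower.algebraMap_apply] at this)

include K in
theorem isLocalHom_integralClosure : IsLocalHom (algebraMap O (integralClosure O L)) := by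
  haveI := finite_integralClosure O K L
  haveI : FaithfulSMul O (integralClosure O L) :=
    (faithfulSMul_iff_algebraMap_injective O (integralClosure O L)).mpr
      (injective_algebraMap_integralClosure O K L)
  exact (algebraMap_isIntegral_iff.mpr inferInstance : (algebraMap O (integralClosure O L)).IsIntegral).isLocalHom
    (injective_algebraMap_integralClosure O K L)

include K in
theorem isDiscreteValuationRing_integralClosure :
    IsDiscreteValuationRing (integralClosure O L) := by
  haveI := finite_integralClosure O K L
  haveI := isLocalRing_integralClosure O K L
  haveI := isDedekindDomain_integralClosure O K L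
  haveI := isLocalHom_integralClosure O K L
  have hnf : ¬ IsField (integralClosure O L) := by
    intro hf
    obtain ⟨ϖ, hϖ⟩ := IsDiscreteValuationRing.exists_irreducible O
    letI := hf.toField
    have h1 : algebraMap O (integralClosure O L) ϖ ≠ 0 := fun h =>
      hϖ.ne_zero (injective_algebraMap_integralClosure O K L (by rw [h, map_zero]))
    have h2 : IsUnit (algebraMap O (integralClosure O L) ϖ) := by
      obtain ⟨y, hy⟩ := hf.mul_inv_cancel h1
      exact IsUnit.of_mul_eq_one y hy
    exact hϖ.not_isUnit (isUnit_of_map_unit (algebraMap O (integralClosure O L)) ϖ h2)
  exact ((IsDiscreteValuationRing.TFAE (integralClosure O L) hnf).out 2 0).mp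
    (isDedekindDomain_integralClosure O K L)

include K in
theorem isAdicComplete_integralClosure :
    haveI := isLocalRing_integralClosure O K L
    IsAdicComplete (maximalIdeal (integralClosure O L)) (integralClosure O L) := by
  haveI := finite_integralClosure O K L
  haveI := isLocalRing_integralClosure O K L
  haveI := isLocalHom_integralClosure O K L
  exact IsLocalRing.isAdicComplete_of_module_finite (𝒪 := O)

include K in
theorem finite_residueField_integralClosure [Finite (ResidueField O)] :
    haveI := isLocalRing_integralClosure O K L
    Finite (ResidueField (integralClosure O L)) := by
  haveI := finite_integralClosure O K L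
  haveI := isLocalRing_integralClosure O K L
  haveI := isLocalHom_integralClosure O K L
  haveI : Module.Finite (ResidueField O) (ResidueField (integralClosure O L)) := by
    haveI : Module.Finite O (ResidueField (integralClosure O L)) :=
      Module.Finite.of_surjective
        (Algebra.linearMap (integralClosure O L) (ResidueField (integralClosure O L)) |>.restrictScalars O)
        residue_surjective
    exact Module.Finite.of_restrictScalars_finite O _ _
  exact Module.finite_of_finite (ResidueField O)

end Extension

end Fermat.Agent.H35
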