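import Mathlib

/-!
# From a quadratic relation to a two-dimensional representation

Let `G` be a group, `k` an algebraically closed field, `ρ : G →* End k W` a nonzero
finite-dimensional representation and `d : G →* k` a character such that every `ρ g` satisfies
a relation `(ρ g)² - t • ρ g + d g = 0` with a scalar `t`.
Then there is a two-dimensional representation `ρ'` of `G` such that `ρ' g` has trace `t` and
determinant `d g` for all `g`.
-/

namespace Fermat.Agent.H96

open Module Matrix

section KeyMatrix

variable {k : Type*} [Field k] {n : Type*} [Fintype n] [DecidableEq n]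

theorem key_entries (T : Matrix n n k →ₗ[k] k)
    (h : ∀ X Y : Matrix n n k, X * Y + Y * X - T Y • X - T X • Y
      = (T (X * Y) - T X * T Y) • (1 : Matrix n n k))
    {i j : n} (hij : i ≠ j) :
    T (Matrix.single i i 1) = 1 ∧ T (Matrix.single i j 1) = 0 ∧ ∀ l, l = i ∨ l = j := by
  have h1 := h (Matrix.single i j 1) (Matrix.single j i 1)
  rw [Matrix.single_mul_single_same, Matrix.single_mul_single_same, mul_one] at h1
  have hii := congrFun (congrFun h1 i) i
  have hij' := congrFun (congrFun h1 i) j
  have hji := congrFun (congrFun h1 j) i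
  simp [hij, hij.symm] at hii hij' hji
  have hs : T (Matrix.single i i 1) = 1 := by
    rw [hij', hji] at hii
    simpa using hii.symm
  refine ⟨hs, ?_, ?_⟩
  · exact hji
  · intro l
    by_contra hl
    push Not at hl
    have hll := congrFun (congrFun h1 l) l
    simp [hl.1.symm, hl.2.symm] at hll
    rw [hs, hij', hji] at hll
    simp at hll

theorem key_trace (T : Matrix n n k →ₗ[k] k)
    (h : ∀ X Y : Matrix n n k, X * Y + Y * X - T Y • X - T X • Y
      = (T (X * Y) - T X * T Y) • (1 : Matrix n n k))
    (hn : 2 ≤ Fintype.card n) :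
    Fintype.card n = 2 ∧ ∀ X, T X = X.trace := by
  have : Nontrivial n := Fintype.one_lt_card_iff_nontrivial.mp hn
  obtain ⟨i, j, hij⟩ := exists_pair_ne n
  refine ⟨?_, ?_⟩
  · have huniv : (Finset.univ : Finset n) = {i, j} := by
      ext l
      simpa using (key_entries T h hij).2.2 l
    rw [← Finset.card_univ, huniv, Finset.card_pair hij]
  · intro X
    have hT : ∀ a b : n, T (Matrix.single a b 1) = if a = b then 1 else 0 := by
      intro a b
      by_cases hab : a = b
      · subst hab
        obtain ⟨c, hc⟩ := exists_ne a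
        simp [(key_entries T h hc.symm).1]
      · simp [hab, (key_entries T h hab).2.1]
    conv_lhs => rw [Matrix.matrix_eq_sum_single X]
    simp only [map_sum]
    have : ∀ a b : n, T (Matrix.single a b (X a b)) = X a b * (if a = b then 1 else 0) := by
      intro a b
      rw [← hT a b, ← smul_eq_mul, ← map_smul, Matrix.smul_single, smul_eq_mul, mul_one]
    simp [this, Matrix.trace]

end KeyMatrix

section Irreducible

variable {G : Type*} [Group G] {k : Type*} [Field k] [IsAlgClosed k]
  {W : Type*} [AddCommGroup W] [Module k W] [FiniteDimensional k W] [Nontrivial W]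

/-- Burnside's theorem for an irreducible representation over an algebraically closed field. -/
theorem span_range_eq_top (ρ : G →* Module.End k W)
    (hirr : ∀ U : Submodule k W, (∀ g, ∀ x ∈ U, ρ g x ∈ U) → U = ⊥ ∨ U = ⊤) :
    Submodule.span k (Set.range ρ) = ⊤ := by
  classical
  set A : Subalgebra k (Module.End k W) := Algebra.adjoin k (Set.range ρ) with hA
  have hρA : ∀ g, ρ g ∈ A := fun g => Algebra.subset_adjoin ⟨g, rfl⟩
  have hsimple : IsSimpleModule A W := by
    refine isSimpleModule_iff _ _ |>.mpr ?_
    have : Nontrivial (Submodule A W) := (Submodule.nontrivial_iff A).mpr inferInstance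
    refine ⟨fun U => ?_⟩
    rcases hirr (U.restrictScalars k) (fun g x hx => U.smul_mem (⟨ρ g, hρA g⟩ : A) hx) with h | h
    · left
      exact (Submodule.restrictScalars_eq_bot_iff k A W).mp h
    · right
      exact (Submodule.restrictScalars_eq_top_iff k A W).mp h
  have hbij := IsSimpleModule.algebraMap_end_bijective_of_isAlgClosed (A := A) (V := W) k
  rw [eq_top_iff]
  intro f _
  -- `f` commutes with `End_A W = k`
  let F : Module.End (Module.End A W) W :=
    { toFun := f
      map_add' := fun x y => map_add f x y
      map_smul' := fun e x => by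
        obtain ⟨c, rfl⟩ := hbij.2 e
        simp }
  obtain ⟨s, hs⟩ := (Module.Finite.fg_top (R := k) (M := W))
  obtain ⟨r, hr⟩ := jacobson_density (R := A) (M := W) F s
  have hfr : f = (r : Module.End k W) := by
    refine LinearMap.ext_on hs ?_
    intro x hx
    exact hr x hx
  rw [hfr]
  have h1 : (r : Module.End k W) ∈ A := r.2
  have h2 : Subalgebra.toSubmodule A = Submodule.span k (Set.range ρ) := by
    rw [hA, Algebra.adjoin_eq_span]
    congr 1
    have : Set.range ρ = (MonoidHom.mrange ρ : Set (Module.End k W)) := by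
      simp
    rw [this, Submonoid.closure_eq]
  rw [← h2]
  exact h1

theorem relation_mul {ρ : G →* Module.End k W} {d : G →* k} {t : G → k}
    (h : ∀ g, ρ g * ρ g - t g • ρ g + d g • (1 : Module.End k W) = 0) (g g' : G) :
    ρ g * ρ g' + ρ g' * ρ g - t g' • ρ g - t g • ρ g'
      = (t (g * g') - t g * t g') • (1 : Module.End k W) := by
  have hinv : ∀ g, d g • ρ g⁻¹ = t g • (1 : Module.End k W) - ρ g := by
    intro g
    have h1 := congrArg (fun z => z * ρ g⁻¹) (h g)
    have hgg : ρ g * ρ g⁻¹ = 1 := by rw [← map_mul, mul_inv_cancel, map_one]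
    simp only [add_mul, sub_mul, mul_assoc, smul_mul_assoc, hgg, one_mul, mul_one, zero_mul] at h1
    linear_combination (norm := module) h1
  have h3 := hinv (g * g')
  have h4 : d (g * g') • ρ (g * g')⁻¹ = (d g' • ρ g'⁻¹) * (d g • ρ g⁻¹) := by
    rw [_root_.mul_inv_rev, map_mul, map_mul, smul_mul_smul_comm, mul_comm (d g)]
  rw [h4, hinv, hinv, map_mul] at h3
  have h5 : (t g' • (1 : Module.End k W) - ρ g') * (t g • (1 : Module.End k W) - ρ g)
      = (t g * t g') • (1 : Module.End k W) - t g' • ρ g - t g • ρ g' + ρ g' * ρ g := by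
    simp only [sub_mul, mul_sub, smul_mul_assoc, mul_smul_comm, one_mul, mul_one]
    module
  rw [h5] at h3
  rw [sub_smul]
  linear_combination (norm := module) h3

theorem relation_linear {ρ : G →* Module.End k W} {d : G →* k} {t : G → k}
    (h : ∀ g, ρ g * ρ g - t g • ρ g + d g • (1 : Module.End k W) = 0) (x : G →₀ k) (g' : G) :
    Finsupp.linearCombination k ρ x * ρ g' + ρ g' * Finsupp.linearCombination k ρ x
      - t g' • Finsupp.linearCombination k ρ x - Finsupp.linearCombination k t x • ρ g'
      = (Finsupp.linearCombination k (fun g => t (g * g') - t g * t g') x)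
          • (1 : Module.End k W) := by
  induction x using Finsupp.induction_linear with
  | zero => simp
  | add x y hx hy =>
    simp only [map_add, add_mul, mul_add, smul_add, add_smul]
    linear_combination (norm := module) hx + hy
  | single g c =>
    simp only [Finsupp.linearCombination_single, smul_mul_assoc, mul_smul_comm, smul_eq_mul]
    have := relation_mul h g g'
    linear_combination (norm := module) c • this

theorem irreducible_case {ρ : G →* Module.End k W}
    (hirr : ∀ U : Submodule k W, (∀ g, ∀ x ∈ U, ρ g x ∈ U) → U = ⊥ ∨ U = ⊤)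
    {d : G →* k} {t : G → k}
    (h : ∀ g, ρ g * ρ g - t g • ρ g + d g • (1 : Module.End k W) = 0)
    (h1 : Module.finrank k W ≠ 1) :
    Module.finrank k W = 2 ∧
      ∀ g, LinearMap.trace k W (ρ g) = t g ∧ LinearMap.det (ρ g) = d g := by
  classical
  have hpos : 0 < Module.finrank k W := Module.finrank_pos
  have hspan := span_range_eq_top ρ hirr
  set π := Finsupp.linearCombination k (fun g => ρ g) with hπ
  have hπsurj : Function.Surjective π := by
    rw [← LinearMap.range_eq_top, hπ, Finsupp.range_linearCombination]
    exact hspan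
  -- well-definedness of the trace form
  have hker : ∀ x : G →₀ k, π x = 0 → Finsupp.linearCombination k t x = 0 := by
    intro x hx
    by_contra hne
    have hscal : ∀ g', ∃ c : k, ρ g' = c • (1 : Module.End k W) := by
      intro g'
      have h2 := relation_linear h x g'
      change π x * ρ g' + ρ g' * π x - t g' • π x - _ = _ at h2
      rw [hx] at h2
      refine ⟨-(Finsupp.linearCombination k t x)⁻¹ *
        (Finsupp.linearCombination k (fun g => t (g * g') - t g * t g') x), ?_⟩
      rw [mul_smul, ← h2]
      simp only [zero_mul, mul_zero, smul_zero, add_zero, sub_zero, zero_sub]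
      rw [smul_neg, smul_smul, neg_mul, inv_mul_cancel₀ hne, neg_smul, neg_neg, one_smul]
    obtain ⟨v, hv⟩ := exists_ne (0 : W)
    rcases hirr (Submodule.span k {v}) (fun g x hx => by
      obtain ⟨c, hc⟩ := hscal g
      rw [hc]
      exact Submodule.smul_mem _ c hx) with h3 | h3
    · exact hv (Submodule.span_singleton_eq_bot.mp h3)
    · apply h1
      have h4 := finrank_span_singleton (K := k) hv
      rw [h3, finrank_top] at h4
      exact h4
  obtain ⟨s, hs⟩ := π.exists_rightInverse_of_surjective (LinearMap.range_eq_top.mpr hπsurj)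
  set T : Module.End k W →ₗ[k] k := (Finsupp.linearCombination k t) ∘ₗ s with hT
  have hTπ : ∀ x, T (π x) = Finsupp.linearCombination k t x := by
    intro x
    have h2 : π (s (π x) - x) = 0 := by
      rw [map_sub, sub_eq_zero]
      exact LinearMap.congr_fun hs (π x)
    have h3 := hker _ h2
    rw [map_sub, sub_eq_zero] at h3
    exact h3
  have hTρ : ∀ g, T (ρ g) = t g := by
    intro g
    have h2 : π (Finsupp.single g 1) = ρ g := by simp [hπ]
    rw [← h2, hTπ]
    simp
  have hkey : ∀ X Y : Module.End k W, X * Y + Y * X - T Y • X - T X • Y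
      = (T (X * Y) - T X * T Y) • (1 : Module.End k W) := by
    intro X Y
    have hX : X ∈ Submodule.span k (Set.range ρ) := hspan ▸ Submodule.mem_top
    have hY : Y ∈ Submodule.span k (Set.range ρ) := hspan ▸ Submodule.mem_top
    induction hX using Submodule.span_induction with
    | zero => simp
    | add X X' _ _ hX hX' =>
      simp only [map_add, add_mul, mul_add, smul_add, add_smul] at hX hX' ⊢
      linear_combination (norm := module) hX + hX'
    | smul c X _ hX =>
      simp only [smul_mul_assoc, mul_smul_comm, map_smul, smul_eq_mul] at hX ⊢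
      linear_combination (norm := module) c • hX
    | mem X hX =>
      obtain ⟨g, rfl⟩ := hX
      induction hY using Submodule.span_induction with
      | zero => simp
      | add Y Y' _ _ hY hY' =>
        simp only [map_add, add_mul, mul_add, smul_add, add_smul] at hY hY' ⊢
        linear_combination (norm := module) hY + hY'
      | smul c Y _ hY =>
        simp only [smul_mul_assoc, mul_smul_comm, map_smul, smul_eq_mul] at hY ⊢
        linear_combination (norm := module) c • hY
      | mem Y hY =>
        obtain ⟨g', rfl⟩ := hY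
        rw [← map_mul, hTρ, hTρ, hTρ, map_mul]
        exact relation_mul h g g'
  let b := Module.finBasis k W
  let e := LinearMap.toMatrixAlgEquiv b
  let T' : Matrix (Fin (Module.finrank k W)) (Fin (Module.finrank k W)) k →ₗ[k] k :=
    T ∘ₗ e.symm.toLinearMap
  obtain ⟨hcard, htr⟩ := key_trace T' (by
    intro X Y
    have h2 := congrArg e (hkey (e.symm X) (e.symm Y))
    simpa [T'] using h2) (by rw [Fintype.card_fin]; omega)
  rw [Fintype.card_fin] at hcard
  have htrace : ∀ g, LinearMap.trace k W (ρ g) = t g := by
    intro g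
    rw [LinearMap.trace_eq_matrix_trace k b]
    have h2 := htr (e (ρ g))
    simp only [T', LinearMap.comp_apply, AlgEquiv.toLinearMap_apply, AlgEquiv.symm_apply_apply,
      hTρ] at h2
    exact h2.symm
  refine ⟨hcard, fun g => ⟨htrace g, ?_⟩⟩
  have hCH := Matrix.aeval_self_charpoly (LinearMap.toMatrix b b (ρ g))
  rw [Matrix.charpoly_of_card_eq_two _ (by rw [Fintype.card_fin, hcard])] at hCH
  have h2 := congrArg (LinearMap.toMatrix b b) (h g)
  simp only [map_add, map_sub, map_smul, Module.End.mul_eq_comp, LinearMap.toMatrix_comp b b b,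
    map_zero] at h2
  rw [← LinearMap.det_toMatrix b]
  rw [← htrace g, LinearMap.trace_eq_matrix_trace k b] at h2
  simp only [map_add, map_sub, map_mul, Polynomial.aeval_X, Polynomial.aeval_C,
    Algebra.algebraMap_eq_smul_one, smul_mul_assoc, one_mul, pow_two] at hCH
  have h3 : ((LinearMap.toMatrix b b (ρ g)).det - d g) •
      (1 : Matrix (Fin (Module.finrank k W)) (Fin (Module.finrank k W)) k) = 0 := by
    have h4 : LinearMap.toMatrix b b (1 : Module.End k W) = 1 := LinearMap.toMatrix_one b
    rw [h4] at h2
    linear_combination (norm := module) hCH - h2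
  have hi : 0 < Module.finrank k W := hpos
  have h5 := congrFun (congrFun h3 ⟨0, hi⟩) ⟨0, hi⟩
  simp only [Matrix.smul_apply, Matrix.one_apply_eq, smul_eq_mul, mul_one, Matrix.zero_apply] at h5
  linear_combination h5

end Irreducible

section Main

variable {G : Type*} [Group G] {k : Type*} [Field k] [IsAlgClosed k]

/-- One-dimensional case. -/
theorem exists_twoDim_of_finrank_eq_one {W : Type*} [AddCommGroup W] [Module k W]
    {ρ : G →* Module.End k W} {d : G →* k} {t : G → k}
    (h : ∀ g, ρ g * ρ g - t g • ρ g + d g • (1 : Module.End k W) = 0)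
    (h1 : Module.finrank k W = 1) :
    ∃ ρ' : G →* Matrix (Fin 2) (Fin 2) k,
      (∀ g, (ρ' g).trace = t g ∧ (ρ' g).det = d g) ∧
      ∀ g, ρ g = 1 → d g = 1 → ρ' g = 1 := by
  haveI : Module.Finite k W := Module.finite_of_finrank_eq_succ h1
  haveI : Nontrivial W := Module.nontrivial_of_finrank_eq_succ h1
  -- the character
  let χ : G →* k := LinearMap.det.comp ρ
  have hχ : ∀ g, ρ g = χ g • (1 : Module.End k W) := by
    intro g
    obtain ⟨v, hv, hall⟩ := finrank_eq_one_iff'.mp h1
    obtain ⟨c, hc⟩ := hall (ρ g v)
    have h2 : ρ g = c • (1 : Module.End k W) := by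
      ext w
      obtain ⟨a, rfl⟩ := hall w
      simp only [map_smul, ← hc, LinearMap.smul_apply, Module.End.one_apply]
    have h3 : χ g = c := by
      change LinearMap.det (ρ g) = c
      rw [h2, LinearMap.det_smul, h1, pow_one, map_one, mul_one]
    rw [h3]
    exact h2
  have hχu : ∀ g, χ g * χ g⁻¹ = 1 := fun g => by rw [← map_mul, mul_inv_cancel, map_one]
  have hrel : ∀ g, χ g * χ g - t g * χ g + d g = 0 := by
    intro g
    have h2 := h g
    rw [hχ g] at h2
    obtain ⟨v, hv⟩ := exists_ne (0 : W)
    have h3 := LinearMap.congr_fun h2 v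
    simp only [smul_mul_assoc, mul_smul_comm, one_mul, smul_smul, LinearMap.add_apply,
      LinearMap.sub_apply, LinearMap.smul_apply, Module.End.one_apply, LinearMap.zero_apply,
      ← sub_smul, ← add_smul] at h3
    rcases smul_eq_zero.mp h3 with h4 | h4
    · linear_combination h4
    · exact absurd h4 hv
  have ht : ∀ g, t g = χ g + d g * χ g⁻¹ := by
    intro g
    linear_combination -χ g⁻¹ * hrel g + (χ g - t g) * hχu g
  refine ⟨{ toFun := fun g => Matrix.diagonal ![χ g, d g * χ g⁻¹]
            map_one' := ?_
            map_mul' := ?_ }, ?_, ?_⟩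
  · ext i j
    fin_cases i <;> fin_cases j <;> simp
  · intro g g'
    rw [Matrix.diagonal_mul_diagonal]
    congr 1
    ext i
    fin_cases i
    · simp
    · simp
      ring
  · intro g
    refine ⟨?_, ?_⟩
    · simp [Matrix.trace_fin_two, ht g]
    · simp only [MonoidHom.coe_mk, OneHom.coe_mk, Matrix.det_diagonal, Fin.prod_univ_two,
        Matrix.cons_val_zero, Matrix.cons_val_one]
      linear_combination d g * hχu g
  · intro g hg hd
    have h2 : χ g = 1 := by
      change LinearMap.det (ρ g) = 1
      rw [hg, map_one]
    have h3 : χ g⁻¹ = 1 := by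
      have := hχu g
      rwa [h2, one_mul] at this
    ext i j
    fin_cases i <;> fin_cases j <;> simp [h2, h3, hd]

/-- **Main lemma.** A nonzero finite-dimensional representation over an algebraically closed field
all of whose operators satisfy `x² - t x + d = 0` with `d` a character produces a
two-dimensional representation with trace `t` and determinant `d`. -/
theorem exists_twoDim_of_quadratic {W : Type*} [AddCommGroup W] [Module k W]
    [FiniteDimensional k W] [Nontrivial W]
    (ρ : G →* Module.End k W) (d : G →* k) (t : G → k)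
    (h : ∀ g, ρ g * ρ g - t g • ρ g + d g • (1 : Module.End k W) = 0) :
    ∃ ρ' : G →* Matrix (Fin 2) (Fin 2) k,
      (∀ g, (ρ' g).trace = t g ∧ (ρ' g).det = d g) ∧
      ∀ g, ρ g = 1 → d g = 1 → ρ' g = 1 := by
  classical
  induction hn : Module.finrank k W using Nat.strong_induction_on generalizing W with
  | _ n ih =>
    by_cases hirr : ∀ U : Submodule k W, (∀ g, ∀ x ∈ U, ρ g x ∈ U) → U = ⊥ ∨ U = ⊤
    · by_cases h1 : Module.finrank k W = 1
      · exact exists_twoDim_of_finrank_eq_one h h1
      · obtain ⟨h2, h3⟩ := irreducible_case hirr h h1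
        let b := Module.finBasisOfFinrankEq k W h2
        refine ⟨(LinearMap.toMatrixAlgEquiv b : _ →* _).comp ρ, fun g => ⟨?_, ?_⟩, fun g hg _ => ?_⟩
        · rw [← (h3 g).1, LinearMap.trace_eq_matrix_trace k b]
          rfl
        · rw [← (h3 g).2, ← LinearMap.det_toMatrix b]
          rfl
        · simp [hg]
    · push Not at hirr
      obtain ⟨U, hU, hbot, htop⟩ := hirr
      haveI : Nontrivial U := Submodule.nontrivial_iff_ne_bot.mpr hbot
      let ρU : G →* Module.End k U :=
        { toFun := fun g => (ρ g).restrict (hU g)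
          map_one' := by ext x; simp
          map_mul' := fun g g' => by ext x; simp [LinearMap.restrict_apply] }
      have hlt : Module.finrank k U < n := by
        rw [← hn]
        exact Submodule.finrank_lt htop
      obtain ⟨ρ', h1, h2⟩ := ih (Module.finrank k U) hlt ρU (by
        intro g
        ext x
        have h3 := LinearMap.congr_fun (h g) (x : W)
        simpa [ρU, LinearMap.restrict_apply] using h3) rfl
      refine ⟨ρ', h1, fun g hg hd => h2 g ?_ hd⟩
      ext x
      simp [ρU, LinearMap.restrict_apply, hg]

omit [IsAlgClosed k] in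
/-- If `x` satisfies a quadratic relation with constant term `d` then so does `x ^ j`
with constant term `d ^ j`. -/
theorem exists_quadratic_pow {A : Type*} [Ring A] [Algebra k A] (x : A) (d t : k)
    (h : x * x - t • x + d • (1 : A) = 0) (j : ℕ) :
    ∃ s : k, x ^ j * x ^ j - s • x ^ j + (d ^ j) • (1 : A) = 0 := by
  -- work in the commutative algebra generated by `x`; `y = t - x` satisfies `x * y = d`
  set y : A := t • (1 : A) - x with hy
  have hxy : x * y = d • (1 : A) := by
    rw [hy, mul_sub, mul_smul_comm, mul_one]
    linear_combination (norm := module) -h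
  have hcomm : Commute x y := by
    rw [hy]
    exact ((Commute.one_right x).smul_right t).sub_right (Commute.refl x)
  have hsum : ∀ j : ℕ, (∃ s : k, x ^ j + y ^ j = s • (1 : A)) ∧
      ∃ s : k, x ^ (j + 1) + y ^ (j + 1) = s • (1 : A) := by
    intro j
    induction j with
    | zero =>
      refine ⟨⟨2, ?_⟩, ⟨t, ?_⟩⟩
      · rw [pow_zero, pow_zero, ← one_add_one_eq_two, add_smul, one_smul]
      · rw [zero_add, pow_one, pow_one, hy]
        abel
    | succ j ih =>
      obtain ⟨⟨s₀, h₀⟩, ⟨s₁, h₁⟩⟩ := ih
      refine ⟨⟨s₁, h₁⟩, ⟨t * s₁ - d * s₀, ?_⟩⟩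
      have hxy1 : x + y = t • (1 : A) := by rw [hy]; abel
      have e1 : (x + y) * (x ^ (j + 1) + y ^ (j + 1)) =
          x ^ (j + 1 + 1) + y ^ (j + 1 + 1) + (x * y) * (x ^ j + y ^ j) := by
        have hc1 : y * x ^ (j + 1) = x * y * x ^ j := by
          rw [hcomm.eq, mul_assoc, ← pow_succ']
        have hc2 : x * y ^ (j + 1) = x * y * y ^ j := by
          rw [pow_succ', ← mul_assoc]
        rw [add_mul, mul_add, mul_add, hc1, hc2, pow_succ' x (j + 1), pow_succ' y (j + 1)]
        noncomm_ring
      rw [h₀, h₁, hxy1, hxy] at e1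
      simp only [smul_mul_assoc, mul_smul_comm, one_mul, smul_smul] at e1
      linear_combination (norm := module) -e1
  obtain ⟨s, hs⟩ := (hsum j).1
  refine ⟨s, ?_⟩
  have h2 : x ^ j * y ^ j = (d ^ j) • (1 : A) := by
    rw [← hcomm.mul_pow, hxy, smul_pow, one_pow]
  have h3 : x ^ j * (x ^ j + y ^ j) = s • x ^ j := by
    rw [hs, mul_smul_comm, mul_one]
  rw [mul_add, h2] at h3
  linear_combination (norm := module) h3

/-- Version of `exists_twoDim_of_quadratic` in which the quadratic relation is only known for
elements `F` such that every group element acts like a power of such an `F`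
(weak Frobenius density is enough, Chebotarev is not needed). -/
theorem exists_twoDim_of_quadratic_of_pow {W : Type*} [AddCommGroup W] [Module k W]
    [FiniteDimensional k W] [Nontrivial W]
    (ρ : G →* Module.End k W) (d : G →* k)
    (h : ∀ g, ∃ (F : G) (j : ℕ) (t : k),
      ρ F * ρ F - t • ρ F + d F • (1 : Module.End k W) = 0 ∧ ρ g = ρ F ^ j ∧ d g = d F ^ j) :
    ∃ ρ' : G →* Matrix (Fin 2) (Fin 2) k,
      (∀ g t, ρ g * ρ g - t • ρ g + d g • (1 : Module.End k W) = 0 →
        (ρ' g).trace = t ∧ (ρ' g).det = d g) ∧
      ∀ g, ρ g = 1 → d g = 1 → ρ' g = 1 := by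
  have h1 : ∀ g, ∃ s : k, ρ g * ρ g - s • ρ g + d g • (1 : Module.End k W) = 0 := by
    intro g
    obtain ⟨F, j, t, h2, h3, h4⟩ := h g
    obtain ⟨s, hs⟩ := exists_quadratic_pow (ρ F) (d F) t h2 j
    exact ⟨s, by rw [h3, h4]; exact hs⟩
  choose t ht using h1
  obtain ⟨ρ', h2, h3⟩ := exists_twoDim_of_quadratic ρ d t ht
  refine ⟨ρ', fun g s hs => ?_, h3⟩
  have hinj : Function.Injective (ρ g) := by
    have h5 : ρ g⁻¹ * ρ g = 1 := by rw [← map_mul, inv_mul_cancel, map_one]
    intro a b hab
    have h6 := congrArg (ρ g⁻¹) hab
    rwa [← Module.End.mul_apply, ← Module.End.mul_apply, h5, Module.End.one_apply,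
      Module.End.one_apply] at h6
  have h4 : (t g - s) • ρ g = 0 := by
    linear_combination (norm := module) hs - ht g
  have h5 : t g = s := by
    rcases smul_eq_zero.mp h4 with h5 | h5
    · exact sub_eq_zero.mp h5
    · exfalso
      obtain ⟨v, hv⟩ := exists_ne (0 : W)
      apply hv
      apply hinj
      rw [h5, map_zero]
      rfl
  rw [← h5]
  exact h2 g

end Main

end Fermat.Agent.H96
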