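import Mathlib
import Fermat.Agent.H96TwoDim

/-!
# Stable subspaces of representations with a quadratic relation, in matrix form
-/

set_option autoImplicit false
set_option linter.unusedSectionVars false
set_option linter.style.haveILetI false

open Matrix Module

namespace Fermat.Agent.H35

section Stable

variable {G : Type*} [Group G] {k : Type*} [Field k]
  {W : Type*} [AddCommGroup W] [Module k W]

/-- restriction of a representation to a stable subspace -/
def restrictRep (ρ : G →* Module.End k W) (U : Submodule k W)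
    (hU : ∀ g, ∀ x ∈ U, ρ g x ∈ U) : G →* Module.End k U where
  toFun g := (ρ g).restrict (hU g)
  map_one' := by ext x; simp
  map_mul' g g' := by ext x; simp [LinearMap.restrict_apply]

@[simp] theorem coe_restrictRep_apply (ρ : G →* Module.End k W) (U : Submodule k W)
    (hU : ∀ g, ∀ x ∈ U, ρ g x ∈ U) (g : G) (x : U) :
    ((restrictRep ρ U hU g x : U) : W) = ρ g x := rfl

variable [IsAlgClosed k] [FiniteDimensional k W] [Nontrivial W]

theorem exists_stable_sub (ρ : G →* Module.End k W) (d : G →* k) (t : G → k)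
    (h : ∀ g, ρ g * ρ g - t g • ρ g + d g • (1 : Module.End k W) = 0) :
    ∃ (U : Submodule k W) (hU : ∀ g, ∀ x ∈ U, ρ g x ∈ U),
      finrank k U = 1 ∨ (finrank k U = 2 ∧ ∀ g,
        LinearMap.trace k U (restrictRep ρ U hU g) = t g ∧
          LinearMap.det (restrictRep ρ U hU g) = d g) := by
  classical
  have hex : ∃ n : ℕ, ∃ U : Submodule k W, U ≠ ⊥ ∧ (∀ g, ∀ x ∈ U, ρ g x ∈ U) ∧ finrank k U = n :=
    ⟨_, ⊤, top_ne_bot, fun _ _ _ => Submodule.mem_top, rfl⟩
  obtain ⟨U, hbot, hU, hn⟩ := Nat.find_spec hex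
  haveI : Nontrivial U := Submodule.nontrivial_iff_ne_bot.mpr hbot
  have hirr : ∀ U' : Submodule k U, (∀ g, ∀ x ∈ U', restrictRep ρ U hU g x ∈ U') →
      U' = ⊥ ∨ U' = ⊤ := by
    intro U' hU'
    by_cases hb : U' = ⊥
    · exact Or.inl hb
    right
    have h1 : U'.map U.subtype ≠ ⊥ := by
      intro hb'
      apply hb
      rw [eq_bot_iff]
      intro x hx
      have : (x : W) ∈ U'.map U.subtype := ⟨x, hx, rfl⟩
      rw [hb'] at this
      exact Subtype.ext this
    have h2 : ∀ g, ∀ x ∈ U'.map U.subtype, ρ g x ∈ U'.map U.subtype := by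
      rintro g _ ⟨x, hx, rfl⟩
      exact ⟨restrictRep ρ U hU g x, hU' g x hx, rfl⟩
    have h3 : Nat.find hex ≤ finrank k (U'.map U.subtype) :=
      Nat.find_min' hex ⟨_, h1, h2, rfl⟩
    rw [← hn, ← (Submodule.equivMapOfInjective U.subtype U.injective_subtype U').finrank_eq] at h3
    exact Submodule.eq_top_of_finrank_eq (le_antisymm (Submodule.finrank_le U') h3)
  refine ⟨U, hU, ?_⟩
  by_cases h1 : finrank k U = 1
  · exact Or.inl h1
  · right
    refine H96.irreducible_case hirr (d := d) (t := t) ?_ h1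
    intro g
    ext x
    have h3 := LinearMap.congr_fun (h g) (x : W)
    simpa using h3

end Stable

section Minor

/-- A matrix with linearly independent columns has a nonzero maximal minor. -/
theorem exists_minor_ne_zero {k : Type*} [Field k] {m r : ℕ} (P : Matrix (Fin m) (Fin r) k)
    (hP : LinearIndependent k Pᵀ.row) : ∃ I : Fin r → Fin m, (P.submatrix I id).det ≠ 0 := by
  classical
  have h1 : finrank k (Submodule.span k (Set.range P.row)) = r := by
    rw [← Matrix.rank_eq_finrank_span_row, ← Matrix.rank_transpose, hP.rank_matrix,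
      Fintype.card_fin]
  obtain ⟨f, hf, -, hli⟩ := Submodule.exists_fun_fin_finrank_span_eq k (Set.range P.row)
  choose I hI using hf
  refine ⟨fun i => I (Fin.cast h1.symm i), ?_⟩
  have h2 : LinearIndependent k (P.submatrix (fun i => I (Fin.cast h1.symm i)) id).row := by
    have h3 : (P.submatrix (fun i => I (Fin.cast h1.symm i)) id).row
        = f ∘ Fin.cast h1.symm := by
      funext i
      exact hI (Fin.cast h1.symm i)
    rw [h3]
    exact hli.comp _ (Fin.cast_injective _)
  rw [Matrix.linearIndependent_rows_iff_isUnit, Matrix.isUnit_iff_isUnit_det] at h2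
  exact h2.ne_zero

/-- Normalisation of a matrix by a maximal minor of maximal valuation. -/
theorem exists_normalized {L : Type*} [Field L] {Γ : Type*} [LinearOrderedCommGroupWithZero Γ]
    (v : Valuation L Γ) {m r : ℕ} (P : Matrix (Fin m) (Fin r) L)
    (hP : ∃ I : Fin r → Fin m, (P.submatrix I id).det ≠ 0) :
    ∃ I : Fin r → Fin m, (P.submatrix I id).det ≠ 0 ∧
      ∀ k a, v ((P * (P.submatrix I id)⁻¹) k a) ≤ 1 := by
  classical
  obtain ⟨I₀, hI₀⟩ := hP
  haveI : Nonempty (Fin r → Fin m) := ⟨I₀⟩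
  obtain ⟨I, hI⟩ := Finite.exists_max (fun I : Fin r → Fin m => v (P.submatrix I id).det)
  have hne : (P.submatrix I id).det ≠ 0 := by
    intro h0
    have h1 := hI I₀
    rw [h0, map_zero, le_zero_iff, map_eq_zero] at h1
    exact hI₀ h1
  refine ⟨I, hne, fun k a => ?_⟩
  have h1 : (P * (P.submatrix I id)⁻¹) k a
      = (P.submatrix I id).det⁻¹ * (P.submatrix (Function.update I a k) id).det := by
    have h2 : (P * (P.submatrix I id)⁻¹) k a = (P k ᵥ* (P.submatrix I id)⁻¹) a := rfl
    rw [h2, Matrix.inv_def, Matrix.vecMul_smul, Ring.inverse_eq_inv', Pi.smul_apply, smul_eq_mul]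
    congr 1
    rw [← Matrix.mulVec_transpose, Matrix.adjugate_transpose,
      ← Matrix.cramer_eq_adjugate_mulVec, Matrix.cramer_transpose_apply]
    congr 1
    ext i j
    by_cases hi : i = a
    · subst hi
      simp [Matrix.updateRow_self]
    · simp [Matrix.updateRow_ne hi, Function.update_of_ne hi]
  rw [h1, map_mul, map_inv₀]
  have h2 := hI (Function.update I a k)
  have h3 : v (P.submatrix I id).det ≠ 0 := (map_ne_zero v).mpr hne
  calc (v (P.submatrix I id).det)⁻¹ * v (P.submatrix (Function.update I a k) id).det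
      ≤ (v (P.submatrix I id).det)⁻¹ * v (P.submatrix I id).det := by gcongr
    _ = 1 := inv_mul_cancel₀ h3

end Minor

section MatrixForm

variable {G : Type*} [Group G] {k : Type*} [Field k] [IsAlgClosed k]

theorem exists_matrix_sub {m : ℕ} (hm : 0 < m) (ρ : G →* Matrix (Fin m) (Fin m) k)
    (d : G →* k) (t : G → k)
    (h : ∀ g, ρ g * ρ g - t g • ρ g + d g • (1 : Matrix (Fin m) (Fin m) k) = 0) :
    ∃ (r : ℕ) (P : Matrix (Fin m) (Fin r) k) (R : G → Matrix (Fin r) (Fin r) k),
      (r = 1 ∨ (r = 2 ∧ ∀ g, (R g).trace = t g ∧ (R g).det = d g)) ∧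
      (∃ I : Fin r → Fin m, (P.submatrix I id).det ≠ 0) ∧ ∀ g, ρ g * P = P * R g := by
  classical
  haveI : Nonempty (Fin m) := ⟨⟨0, hm⟩⟩
  let ρ' : G →* Module.End k (Fin m → k) :=
    ((Matrix.toLinAlgEquiv' : Matrix (Fin m) (Fin m) k ≃ₐ[k] _) :
      Matrix (Fin m) (Fin m) k →* Module.End k (Fin m → k)).comp ρ
  have hρ' : ∀ g x, ρ' g x = ρ g *ᵥ x := fun _ _ => rfl
  obtain ⟨U, hU, hcase⟩ := exists_stable_sub ρ' d t (by
    intro g
    have h1 := congrArg (Matrix.toLinAlgEquiv' : Matrix (Fin m) (Fin m) k ≃ₐ[k] _) (h g)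
    rw [map_zero, map_add, map_sub, map_mul, map_smul, map_smul, map_one] at h1
    exact h1)
  let b := Module.finBasis k U
  refine ⟨finrank k U, Matrix.of fun i a => (b a : Fin m → k) i,
    fun g => LinearMap.toMatrix b b (restrictRep ρ' U hU g), ?_, ?_, ?_⟩
  · rcases hcase with h1 | ⟨h2, h3⟩
    · exact Or.inl h1
    · refine Or.inr ⟨h2, fun g => ⟨?_, ?_⟩⟩
      · rw [← (h3 g).1, LinearMap.trace_eq_matrix_trace k b]
      · rw [← (h3 g).2, ← LinearMap.det_toMatrix b]
  · apply exists_minor_ne_zero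
    have h1 : (Matrix.of fun i a => (b a : Fin m → k) i : Matrix (Fin m) _ k)ᵀ.row
        = U.subtype ∘ b := by
      funext a i
      rfl
    rw [h1]
    exact b.linearIndependent.map' U.subtype (LinearMap.ker_eq_bot.mpr U.injective_subtype)
  · intro g
    ext i a
    have h2 := b.sum_repr (restrictRep ρ' U hU g (b a))
    have h3 := congrArg (fun z : U => (z : Fin m → k) i) h2
    have h4 : ((restrictRep ρ' U hU g (b a) : U) : Fin m → k) i
        = ∑ j, ρ g i j * (b a : Fin m → k) j := rfl
    rw [Matrix.mul_apply, Matrix.mul_apply]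
    simp only [Matrix.of_apply, LinearMap.toMatrix_apply]
    rw [← h4, ← h3]
    simp only [Submodule.coe_sum, Submodule.coe_smul, Finset.sum_apply, Pi.smul_apply, smul_eq_mul]
    exact Finset.sum_congr rfl fun _ _ => mul_comm _ _

end MatrixForm

end Fermat.Agent.H35
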