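import Mathlib
import Fermat.Agent.H35Stable
import Fermat.Agent.H35DVR
import Fermat.Agent.H53Matrix

/-!
# Integral models of two-dimensional constituents

`O` a complete DVR of characteristic zero with finite residue field, `ρ` a continuous matrix
representation of the absolute Galois group of `ℚ` over `O` all of whose values satisfy a quadratic
relation `x² - t x + d = 0`, `d` a continuous character. Then, over a finite extension of `O`,
there is a `GaloisRepAdic` with characteristic polynomials `X² - t X + d`.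
-/

set_option autoImplicit false
set_option linter.unusedSectionVars false
set_option linter.style.haveILetI false

open Matrix Module IsLocalRing Polynomial

namespace Fermat.Agent.H35

section Abstract

theorem lattice_step {G : Type*} [Group G] {O B L Kb : Type*} [CommRing O] [CommRing B] [IsDomain B]
    [ValuationRing B] [Algebra O B] [Field L] [Algebra B L] [IsFractionRing B L]
    [Field Kb] [Algebra B Kb] [Algebra L Kb] [IsScalarTower B L Kb]
    {m r : ℕ} (ρ : G →* Matrix (Fin m) (Fin m) O) (P : Matrix (Fin m) (Fin r) L)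
    (hP : ∃ I : Fin r → Fin m, (P.submatrix I id).det ≠ 0)
    (R : G → Matrix (Fin r) (Fin r) Kb)
    (hR : ∀ g, ((ρ g).map (algebraMap O B)).map (algebraMap B Kb) * P.map (algebraMap L Kb)
      = P.map (algebraMap L Kb) * R g) :
    ∃ (Q : Matrix (Fin m) (Fin r) B) (I : Fin r → Fin m) (R' : G →* Matrix (Fin r) (Fin r) B),
      Q.submatrix I id = 1 ∧ (∀ g, (ρ g).map (algebraMap O B) * Q = Q * R' g) ∧
      ∀ g, algebraMap B Kb (R' g).trace = (R g).trace ∧
        algebraMap B Kb (R' g).det = (R g).det := by
  classical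
  obtain ⟨I, hne, hint⟩ := exists_normalized (ValuationRing.valuation B L) P hP
  have hint' : ∀ k a, ∃ b : B, algebraMap B L b = (P * (P.submatrix I id)⁻¹) k a :=
    fun k a => (ValuationRing.mem_integer_iff B L _).mp (hint k a)
  choose Q hQ using hint'
  have hinj : Function.Injective (algebraMap B Kb) := by
    rw [IsScalarTower.algebraMap_eq B L Kb]
    exact (algebraMap L Kb).injective.comp (IsFractionRing.injective B L)
  have hinjL : Function.Injective (algebraMap B L) := IsFractionRing.injective B L
  set Qm : Matrix (Fin m) (Fin r) B := Matrix.of Q with hQm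
  have hQmL : Qm.map (algebraMap B L) = P * (P.submatrix I id)⁻¹ := by
    ext i j
    exact hQ i j
  have hunit : IsUnit (P.submatrix I id).det := isUnit_iff_ne_zero.mpr hne
  have hQI : Qm.submatrix I id = 1 := by
    apply Matrix.map_injective hinjL
    change (Qm.submatrix I id).map (algebraMap B L) = (1 : Matrix (Fin r) (Fin r) B).map (algebraMap B L)
    rw [Matrix.map_one _ (map_zero _) (map_one _), ← Matrix.submatrix_map, hQmL]
    have h1 : (P * (P.submatrix I id)⁻¹).submatrix I id
        = P.submatrix I id * (P.submatrix I id)⁻¹ := by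
      ext i j
      simp [Matrix.mul_apply]
    rw [h1, Matrix.mul_nonsing_inv _ hunit]
  have hQKb : Qm.map (algebraMap B Kb)
      = P.map (algebraMap L Kb) * ((P.submatrix I id).map (algebraMap L Kb))⁻¹ := by
    have h1 : Qm.map (algebraMap B Kb) = (Qm.map (algebraMap B L)).map (algebraMap L Kb) := by
      rw [Matrix.map_map]
      congr 1
      rw [IsScalarTower.algebraMap_eq B L Kb]
      rfl
    rw [h1, hQmL, Matrix.map_mul]
    congr 1
    have h2 : (P.submatrix I id).map (algebraMap L Kb) * ((P.submatrix I id)⁻¹).map (algebraMap L Kb)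
        = 1 := by
      rw [← Matrix.map_mul, Matrix.mul_nonsing_inv _ hunit,
        Matrix.map_one _ (map_zero _) (map_one _)]
    exact (Matrix.inv_eq_right_inv h2).symm
  set PI : Matrix (Fin r) (Fin r) Kb := (P.submatrix I id).map (algebraMap L Kb) with hPI
  have hPIu : IsUnit PI.det := by
    have h1 : PI.det = algebraMap L Kb (P.submatrix I id).det := by
      rw [hPI, RingHom.map_det]
      rfl
    rw [h1]
    exact hunit.map _
  set Rt : G → Matrix (Fin r) (Fin r) Kb := fun g => PI * R g * PI⁻¹ with hRt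
  have hrel : ∀ g, ((ρ g).map (algebraMap O B)).map (algebraMap B Kb) * Qm.map (algebraMap B Kb)
      = Qm.map (algebraMap B Kb) * Rt g := by
    intro g
    rw [hQKb, ← Matrix.mul_assoc, hR g, hRt]
    simp only [Matrix.mul_assoc]
    rw [← Matrix.mul_assoc PI⁻¹ PI, Matrix.nonsing_inv_mul _ hPIu, Matrix.one_mul]
  have hsub : ∀ g, ((((ρ g).map (algebraMap O B)) * Qm).submatrix I id).map (algebraMap B Kb)
      = Rt g := by
    intro g
    rw [← Matrix.submatrix_map, Matrix.map_mul, hrel g]
    have h1 : (Qm.map (algebraMap B Kb) * Rt g).submatrix I id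
        = (Qm.submatrix I id).map (algebraMap B Kb) * Rt g := by
      ext i j
      simp [Matrix.mul_apply]
    rw [h1, hQI, Matrix.map_one _ (map_zero _) (map_one _), Matrix.one_mul]
  have hrel' : ∀ g, (ρ g).map (algebraMap O B) * Qm
      = Qm * (((ρ g).map (algebraMap O B)) * Qm).submatrix I id := by
    intro g
    apply Matrix.map_injective hinj
    change ((ρ g).map (algebraMap O B) * Qm).map (algebraMap B Kb) =
      (Qm * (((ρ g).map (algebraMap O B)) * Qm).submatrix I id).map (algebraMap B Kb)
    rw [Matrix.map_mul, Matrix.map_mul, hsub g, hrel g]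
  have hsubmul : ∀ (X : Matrix (Fin r) (Fin r) B), (Qm * X).submatrix I id = X := by
    intro X
    have h1 : (Qm * X).submatrix I id = Qm.submatrix I id * X := by
      ext i j
      simp [Matrix.mul_apply]
    rw [h1, hQI, Matrix.one_mul]
  refine ⟨Qm, I,
    { toFun := fun g => (((ρ g).map (algebraMap O B)) * Qm).submatrix I id
      map_one' := ?_
      map_mul' := ?_ }, hQI, hrel', ?_⟩
  · rw [map_one, Matrix.map_one _ (map_zero _) (map_one _), Matrix.one_mul, hQI]
  · intro g g'
    set Rg := ((ρ g).map (algebraMap O B) * Qm).submatrix I id with hRg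
    set Rg' := ((ρ g').map (algebraMap O B) * Qm).submatrix I id with hRg'
    rw [map_mul, Matrix.map_mul, Matrix.mul_assoc, hrel' g', ← hRg', ← Matrix.mul_assoc, hrel' g,
      ← hRg, Matrix.mul_assoc, hsubmul]
  · intro g
    have h1 : algebraMap B Kb ((((ρ g).map (algebraMap O B)) * Qm).submatrix I id).trace
        = (Rt g).trace := by
      rw [← hsub g]
      exact AddMonoidHom.map_trace (algebraMap B Kb : B →+ Kb) _
    have h2 : algebraMap B Kb ((((ρ g).map (algebraMap O B)) * Qm).submatrix I id).det
        = (Rt g).det := by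
      rw [← hsub g, RingHom.map_det]
      rfl
    refine ⟨h1.trans ?_, h2.trans ?_⟩
    · rw [hRt]
      simp only
      rw [Matrix.mul_assoc, Matrix.trace_mul_comm, Matrix.mul_assoc, Matrix.nonsing_inv_mul _ hPIu,
        Matrix.mul_one]
    · rw [hRt]
      simp only
      rw [Matrix.mul_assoc, Matrix.det_mul_comm, Matrix.mul_assoc, Matrix.nonsing_inv_mul _ hPIu,
        Matrix.mul_one]

end Abstract

section Main

/-- adic continuity of a character -/
def CharCont (A : Type) [CommRing A] [IsLocalRing A] (d : H53.GQ →* A) : Prop :=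
  ∀ n : ℕ, ∃ L : IntermediateField ℚ (AlgebraicClosure ℚ), FiniteDimensional ℚ L ∧
    ∀ σ : H53.GQ, (∀ x ∈ L, σ x = x) → d σ - 1 ∈ maximalIdeal A ^ n

/-- adic continuity of a matrix representation of any size -/
def MatCont {m : ℕ} (A : Type) [CommRing A] [IsLocalRing A]
    (r : H53.GQ →* Matrix (Fin m) (Fin m) A) : Prop :=
  ∀ n : ℕ, ∃ L : IntermediateField ℚ (AlgebraicClosure ℚ), FiniteDimensional ℚ L ∧
    ∀ σ : H53.GQ, (∀ x ∈ L, σ x = x) →
      ∀ i j, r σ i j - (1 : Matrix (Fin m) (Fin m) A) i j ∈ maximalIdeal A ^ n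

theorem key_step {O B : Type} [CommRing O] [IsLocalRing O] [CommRing B] [IsLocalRing B]
    [Algebra O B] (hloc : IsLocalHom (algebraMap O B)) {m r : ℕ}
    (ρ : H53.GQ →* Matrix (Fin m) (Fin m) O) (hρ : MatCont O ρ)
    (d : H53.GQ →* O) (hd : CharCont O d) (t : H53.GQ → O)
    (ht : ∀ g, ρ g * ρ g - t g • ρ g + d g • (1 : Matrix (Fin m) (Fin m) O) = 0)
    (Q : Matrix (Fin m) (Fin r) B) (I : Fin r → Fin m) (R' : H53.GQ →* Matrix (Fin r) (Fin r) B)
    (hQI : Q.submatrix I id = 1) (hrel : ∀ g, (ρ g).map (algebraMap O B) * Q = Q * R' g)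
    (hcase : r = 1 ∨ (r = 2 ∧ ∀ g, (R' g).trace = algebraMap O B (t g) ∧
      (R' g).det = algebraMap O B (d g))) :
    ∃ ρ' : H53.GQ →* H53.M2 B, H53.MCont B ρ' ∧
        (∀ g, (ρ' g).trace = algebraMap O B (t g) ∧ (ρ' g).det = algebraMap O B (d g)) ∧
        ∀ g, ρ g = 1 → d g = 1 → ρ' g = 1 := by
  classical
  -- the quadratic relation for `R'`
  have hsub : ∀ X : Matrix (Fin r) (Fin r) B, (Q * X).submatrix I id = X := by
    intro X
    have h1 : (Q * X).submatrix I id = Q.submatrix I id * X := by
      ext i j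
      simp [Matrix.mul_apply]
    rw [h1, hQI, Matrix.one_mul]
  have hR'sub : ∀ g, R' g = ((ρ g).map (algebraMap O B) * Q).submatrix I id := by
    intro g
    rw [hrel, hsub]
  have hR'quad : ∀ g, R' g * R' g - (algebraMap O B (t g)) • R' g
      + (algebraMap O B (d g)) • (1 : Matrix (Fin r) (Fin r) B) = 0 := by
    intro g
    have h1 : Q * (R' g * R' g - (algebraMap O B (t g)) • R' g
        + (algebraMap O B (d g)) • (1 : Matrix (Fin r) (Fin r) B)) = 0 := by
      have h2 := congrArg (fun z : Matrix (Fin m) (Fin m) O => z.map (algebraMap O B) * Q) (ht g)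
      have h3 : ((ρ g * ρ g - t g • ρ g + d g • (1 : Matrix (Fin m) (Fin m) O)).map (algebraMap O B))
          = (ρ g).map (algebraMap O B) * (ρ g).map (algebraMap O B)
            - (algebraMap O B (t g)) • (ρ g).map (algebraMap O B)
            + (algebraMap O B (d g)) • (1 : Matrix (Fin m) (Fin m) B) := by
        ext i j
        by_cases hij : i = j
        · subst hij; simp [Matrix.mul_apply, Matrix.map_apply, -algebraMap_smul]
        · simp [Matrix.mul_apply, Matrix.map_apply, hij, -algebraMap_smul]
      rw [h3] at h2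
      rw [Matrix.mul_add, Matrix.mul_sub, Matrix.mul_smul, Matrix.mul_smul, Matrix.mul_one,
        ← Matrix.mul_assoc, ← hrel g, Matrix.mul_assoc, ← hrel g, ← Matrix.mul_assoc]
      rw [Matrix.add_mul, Matrix.sub_mul, Matrix.smul_mul, Matrix.smul_mul, Matrix.one_mul,
        Matrix.map_zero _ (map_zero _), Matrix.zero_mul] at h2
      exact h2
    rw [← hsub (R' g * R' g - _ + _), h1]
    rfl
  have hR'one : ∀ g, ρ g = 1 → R' g = 1 := by
    intro g hg
    rw [hR'sub, hg, Matrix.map_one _ (map_zero _) (map_one _), Matrix.one_mul, hQI]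
  have hR'cont : MatCont B R' := by
    intro n
    obtain ⟨F, hF, hF'⟩ := hρ n
    refine ⟨F, hF, fun σ hσ i j => ?_⟩
    have h1 : R' σ i j - (1 : Matrix (Fin r) (Fin r) B) i j
        = ∑ l, algebraMap O B (ρ σ (I i) l - (1 : Matrix (Fin m) (Fin m) O) (I i) l) * Q l j := by
      have h2 : (1 : Matrix (Fin r) (Fin r) B) i j
          = ∑ l, algebraMap O B ((1 : Matrix (Fin m) (Fin m) O) (I i) l) * Q l j := by
        have h3 := congrFun (congrFun hQI i) j
        have h4 : ((1 : Matrix (Fin m) (Fin m) O).map (algebraMap O B) * Q) (I i) j = Q (I i) j := by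
          rw [Matrix.map_one _ (map_zero _) (map_one _), Matrix.one_mul]
        rw [← h3, Matrix.submatrix_apply, id, ← h4, Matrix.mul_apply]
        rfl
      rw [h2, hR'sub]
      simp only [Matrix.submatrix_apply, id, Matrix.mul_apply, Matrix.map_apply,
        ← Finset.sum_sub_distrib, map_sub, sub_mul]
    rw [h1]
    exact Ideal.sum_mem _ fun l _ =>
      Ideal.mul_mem_right _ _ (H53.map_maximalIdeal_pow (algebraMap O B) hloc n (hF' σ hσ (I i) l))
  rcases hcase with rfl | ⟨rfl, hc⟩
  · -- one-dimensional case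
    set χ : H53.GQ → B := fun g => R' g 0 0 with hχ
    have hχ1 : χ 1 = 1 := by simp [hχ]
    have hχm : ∀ g g', χ (g * g') = χ g * χ g' := by
      intro g g'
      simp [hχ, Matrix.mul_apply]
    have hχu : ∀ g, χ g * χ g⁻¹ = 1 := fun g => by rw [← hχm, mul_inv_cancel, hχ1]
    have hχq : ∀ g, χ g * χ g - algebraMap O B (t g) * χ g + algebraMap O B (d g) = 0 := by
      intro g
      have h1 := congrFun (congrFun (hR'quad g) 0) 0
      simpa [Matrix.mul_apply, hχ, -algebraMap_smul] using h1
    refine ⟨{ toFun := fun g => !![χ g, 0; 0, algebraMap O B (d g) * χ g⁻¹]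
              map_one' := ?_
              map_mul' := ?_ }, ?_, ?_, ?_⟩
    · rw [inv_one, hχ1, map_one, map_one, mul_one]
      exact Matrix.one_fin_two.symm
    · intro g g'
      rw [Matrix.mul_fin_two, hχm, _root_.mul_inv_rev, hχm, map_mul, map_mul]
      simp only [mul_zero, zero_mul, add_zero, zero_add]
      congr 3
      ring_nf
    · intro n
      obtain ⟨F₁, hF₁, hF₁'⟩ := hR'cont n
      obtain ⟨F₂, hF₂, hF₂'⟩ := hd n
      refine ⟨F₁ ⊔ F₂, IntermediateField.finiteDimensional_sup F₁ F₂, fun σ hσ => ?_⟩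
      have h1 : ∀ x ∈ F₁, σ x = x := fun x hx => hσ x ((le_sup_left : F₁ ≤ F₁ ⊔ F₂) hx)
      have h2 : ∀ x ∈ F₂, σ x = x := fun x hx => hσ x ((le_sup_right : F₂ ≤ F₁ ⊔ F₂) hx)
      have h1' : ∀ x ∈ F₁, σ⁻¹ x = x := fun x hx => by
        conv_lhs => rw [← h1 x hx]
        exact σ.symm_apply_apply x
      have h3 : χ σ - 1 ∈ maximalIdeal B ^ n := by simpa [hχ] using hF₁' σ h1 0 0
      have h3' : χ σ⁻¹ - 1 ∈ maximalIdeal B ^ n := by simpa [hχ] using hF₁' σ⁻¹ h1' 0 0
      have h4 : algebraMap O B (d σ) - 1 ∈ maximalIdeal B ^ n := by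
        have := H53.map_maximalIdeal_pow (algebraMap O B) hloc n (hF₂' σ h2)
        rwa [map_sub, map_one] at this
      have h5 : algebraMap O B (d σ) * χ σ⁻¹ - 1 ∈ maximalIdeal B ^ n := by
        have h6 : algebraMap O B (d σ) * χ σ⁻¹ - 1
            = (algebraMap O B (d σ) - 1) * χ σ⁻¹ + (χ σ⁻¹ - 1) := by ring
        rw [h6]
        exact Ideal.add_mem _ (Ideal.mul_mem_right _ _ h4) h3'
      intro i j
      fin_cases i <;> fin_cases j
      · simpa using h3
      · simp
      · simp
      · simpa using h5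
    · intro g
      simp only [MonoidHom.coe_mk, OneHom.coe_mk, Matrix.trace_fin_two_of, Matrix.det_fin_two_of]
      refine ⟨?_, ?_⟩
      · linear_combination χ g⁻¹ * hχq g + (algebraMap O B (t g) - χ g) * hχu g
      · linear_combination algebraMap O B (d g) * hχu g
    · intro g hg hdg
      have h1 : χ g = 1 := by simp [hχ, hR'one g hg]
      have h2 : χ g⁻¹ = 1 := by
        have := hχu g
        rwa [h1, one_mul] at this
      simp only [MonoidHom.coe_mk, OneHom.coe_mk, h1, h2, hdg, map_one, mul_one]
      exact Matrix.one_fin_two.symm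
  · -- two-dimensional case
    exact ⟨R', hR'cont, hc, fun g hg _ => hR'one g hg⟩

/-- **Integral models.** -/
theorem exists_matrixRep_of_quadratic
    (O : Type) [CommRing O] [IsDomain O] [IsDiscreteValuationRing O]
    [IsAdicComplete (maximalIdeal O) O] [Finite (ResidueField O)] [CharZero O]
    {m : ℕ} (hm : 0 < m) (ρ : H53.GQ →* Matrix (Fin m) (Fin m) O) (hρ : MatCont O ρ)
    (d : H53.GQ →* O) (hd : CharCont O d)
    (h : ∀ g, ∃ t : O, ρ g * ρ g - t • ρ g + d g • (1 : Matrix (Fin m) (Fin m) O) = 0) :
    ∃ (O'' : Type) (_ : CommRing O'') (_ : IsDomain O'') (_ : IsDiscreteValuationRing O'')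
      (_ : IsAdicComplete (maximalIdeal O'') O'') (_ : Finite (ResidueField O''))
      (_ : CharZero O'') (_ : Algebra O O'') (_ : Module.Finite O O'')
      (_ : IsLocalHom (algebraMap O O'')),
      Function.Injective (algebraMap O O'') ∧
      ∃ ρ' : H53.GQ →* H53.M2 O'', H53.MCont O'' ρ' ∧
        (∀ g t, ρ g * ρ g - t • ρ g + d g • (1 : Matrix (Fin m) (Fin m) O) = 0 →
          (ρ' g).trace = algebraMap O O'' t ∧ (ρ' g).det = algebraMap O O'' (d g)) ∧
        ∀ g, ρ g = 1 → d g = 1 → ρ' g = 1 := by
  classical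
  choose t ht using h
  have huniq : ∀ g s, ρ g * ρ g - s • ρ g + d g • (1 : Matrix (Fin m) (Fin m) O) = 0 → s = t g := by
    intro g s hs
    have h1 : (t g - s) • ρ g = 0 := by linear_combination (norm := module) hs - ht g
    have h2 : (t g - s) • (1 : Matrix (Fin m) (Fin m) O) = 0 := by
      have h3 := congrArg (fun z => z * ρ g⁻¹) h1
      simp only [smul_mul_assoc, zero_mul] at h3
      rwa [← map_mul, mul_inv_cancel, map_one] at h3
    have h4 := congrFun (congrFun h2 ⟨0, hm⟩) ⟨0, hm⟩
    simp only [Matrix.smul_apply, Matrix.one_apply_eq, smul_eq_mul, mul_one,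
      Matrix.zero_apply] at h4
    exact (sub_eq_zero.mp h4).symm
  let K := FractionRing O
  let Kb := AlgebraicClosure K
  haveI : CharZero K := charZero_of_injective_algebraMap (IsFractionRing.injective O K)
  -- the representation over the algebraic closure
  let ρb : H53.GQ →* Matrix (Fin m) (Fin m) Kb :=
    (((algebraMap O Kb).mapMatrix : Matrix (Fin m) (Fin m) O →+* Matrix (Fin m) (Fin m) Kb) :
      Matrix (Fin m) (Fin m) O →* Matrix (Fin m) (Fin m) Kb).comp ρ
  let db : H53.GQ →* Kb := ((algebraMap O Kb : O →+* Kb) : O →* Kb).comp d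
  obtain ⟨r, P, R, hcase, hP, hR⟩ := exists_matrix_sub hm ρb db (fun g => algebraMap O Kb (t g)) (by
    intro g
    have h1 := congrArg ((algebraMap O Kb).mapMatrix : Matrix (Fin m) (Fin m) O →+* _) (ht g)
    rw [map_zero, map_add, map_sub, map_mul] at h1
    rw [← h1]
    congr 1
    · congr 1
      ext i j
      simp [ρb]
    · ext i j
      by_cases hij : i = j
      · subst hij; simp [db]
      · simp [db, hij])
  -- a finite extension of `K` containing the entries of `P`
  let Lf : IntermediateField K Kb :=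
    IntermediateField.adjoin K (Set.range fun z : Fin m × Fin r => P z.1 z.2)
  haveI hLfin : FiniteDimensional K Lf :=
    IntermediateField.finiteDimensional_adjoin fun x _ => Algebra.IsIntegral.isIntegral x
  let P₁ : Matrix (Fin m) (Fin r) Lf := Matrix.of fun i a =>
    ⟨P i a, IntermediateField.subset_adjoin K _ ⟨(i, a), rfl⟩⟩
  have hP₁ : P₁.map (algebraMap Lf Kb) = P := rfl
  have hP₁' : ∃ I : Fin r → Fin m, (P₁.submatrix I id).det ≠ 0 := by
    obtain ⟨I, hI⟩ := hP
    refine ⟨I, fun h0 => hI ?_⟩
    have h1 : (P.submatrix I id).det = algebraMap Lf Kb (P₁.submatrix I id).det := by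
      rw [RingHom.map_det]
      rfl
    rw [h1, h0, map_zero]
  haveI : Algebra.IsSeparable K Lf := inferInstance
  let B := integralClosure O Lf
  haveI i1 : IsLocalRing B := isLocalRing_integralClosure O K Lf
  haveI i2 : IsDiscreteValuationRing B := isDiscreteValuationRing_integralClosure O K Lf
  haveI i3 : IsAdicComplete (maximalIdeal B) B := isAdicComplete_integralClosure O K Lf
  haveI i4 : Finite (ResidueField B) := finite_residueField_integralClosure O K Lf
  haveI i5 : Module.Finite O B := finite_integralClosure O K Lf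
  haveI i6 : IsLocalHom (algebraMap O B) := isLocalHom_integralClosure O K Lf
  have hinjOB : Function.Injective (algebraMap O B) := injective_algebraMap_integralClosure O K Lf
  haveI i7 : CharZero B := charZero_of_injective_algebraMap hinjOB
  haveI i8 : IsFractionRing B Lf := integralClosure.isFractionRing_of_finite_extension K Lf
  have htow : ∀ x : O, algebraMap B Kb (algebraMap O B x) = algebraMap O Kb x := fun x => rfl
  have hinjBK : Function.Injective (algebraMap B Kb) := by
    have h1 : Function.Injective (algebraMap Lf Kb) := (algebraMap Lf Kb).injective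
    have h2 : Function.Injective (algebraMap B Lf) := Subtype.val_injective
    exact h1.comp h2
  obtain ⟨Q, I, R', hQI, hrel, htd⟩ := lattice_step (O := O) (B := B) (L := Lf) (Kb := Kb)
    ρ P₁ hP₁' R (by
      intro g
      rw [hP₁]
      exact hR g)
  obtain ⟨ρ', hcont, htd', h1⟩ := key_step i6 ρ hρ d hd t ht Q I R' hQI hrel (by
    rcases hcase with h | ⟨h, hc⟩
    · exact Or.inl h
    · refine Or.inr ⟨h, fun g => ⟨hinjBK ?_, hinjBK ?_⟩⟩
      · rw [(htd g).1, (hc g).1]
        exact (htow _).symm
      · rw [(htd g).2, (hc g).2]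
        exact (htow _).symm)
  refine ⟨B, inferInstance, inferInstance, i2, i3, i4, i7, inferInstance, i5, i6, hinjOB,
    ρ', hcont, fun g s hs => ?_, h1⟩
  rw [huniq g s hs]
  exact htd' g

end Main

end Fermat.Agent.H35
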