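import Mathlib
import Fermat.Agent.H31Cyclo
import Fermat.Agent.H35Lattice

/-!
# `ℤ_p → O` and the `O`-valued `p`-adic cyclotomic character
-/

set_option autoImplicit false

noncomputable section

open IsLocalRing

namespace Fermat.Agent.H35

section Padic

variable (O : Type*) [CommRing O] [IsLocalRing O] {p : ℕ} [Fact p.Prime]
  (hp : (p : O) ∈ maximalIdeal O)

include hp in
theorem natCast_pow_quot_eq_zero (n : ℕ) :
    ((p ^ n : ℕ) : O ⧸ maximalIdeal O ^ n) = 0 := by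
  have h1 : ((p ^ n : ℕ) : O ⧸ maximalIdeal O ^ n)
      = Ideal.Quotient.mk (maximalIdeal O ^ n) ((p : O) ^ n) := by
    simp
  rw [h1, Ideal.Quotient.eq_zero_iff_mem]
  exact Ideal.pow_mem_pow hp n

/-- `ℤ_p → O / m ^ n` -/
def padicToQuot (n : ℕ) : ℤ_[p] →+* O ⧸ maximalIdeal O ^ n :=
  (ZMod.castHom (m := ringChar (O ⧸ maximalIdeal O ^ n))
    (ringChar.dvd (natCast_pow_quot_eq_zero O hp n)) (O ⧸ maximalIdeal O ^ n)).comp
    (PadicInt.toZModPow n)

theorem padicToQuot_compat {m n : ℕ} (hle : m ≤ n) :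
    (Ideal.Quotient.factorPow (maximalIdeal O) hle).comp (padicToQuot O hp n)
      = padicToQuot O hp m := by
  unfold padicToQuot
  rw [← PadicInt.zmod_cast_comp_toZModPow m n hle, ← RingHom.comp_assoc, ← RingHom.comp_assoc]
  congr 1
  exact RingHom.ext_zmod _ _

variable [IsAdicComplete (maximalIdeal O) O]

/-- `ℤ_p → O` for `O` a complete local ring with `p ∈ m`. -/
def padicToAdic : ℤ_[p] →+* O :=
  IsAdicComplete.liftRingHom (maximalIdeal O) (padicToQuot O hp)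
    (fun hle => padicToQuot_compat O hp hle)

end Padic

section Cyclo

/-- automorphisms of the algebraic closure as ring automorphisms -/
def toRingAut : H53.GQ →* (AlgebraicClosure ℚ ≃+* AlgebraicClosure ℚ) where
  toFun σ := σ.toRingEquiv
  map_one' := rfl
  map_mul' _ _ := rfl

variable (O : Type) [CommRing O] [IsLocalRing O] [IsAdicComplete (maximalIdeal O) O]
  {p : ℕ} [Fact p.Prime] (hp : (p : O) ∈ maximalIdeal O)

/-- The `O`-valued cyclotomic character -/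
def cyc : H53.GQ →* O :=
  ((padicToAdic O hp : ℤ_[p] →+* O) : ℤ_[p] →* O).comp
    ((Units.coeHom ℤ_[p]).comp ((cyclotomicCharacter (AlgebraicClosure ℚ) p).comp toRingAut))

/-- The value of the cyclotomic character modulo `m ^ n`. -/
theorem cyc_sub_mem (σ : H53.GQ) (n a : ℕ)
    (h : ∀ ζ : AlgebraicClosure ℚ, ζ ^ p ^ n = 1 → σ ζ = ζ ^ a) :
    cyc O hp σ - (a : O) ∈ maximalIdeal O ^ n := by
  have hpn : NeZero (p ^ n) := ⟨pow_ne_zero _ (Fact.out : p.Prime).ne_zero⟩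
  obtain ⟨ζ, hζ⟩ := HasEnoughRootsOfUnity.exists_primitiveRoot (AlgebraicClosure ℚ) (p ^ n)
  have h1 := cyclotomicCharacter.spec (L := AlgebraicClosure ℚ) p (n := n) (toRingAut σ) ζ hζ.1
  have h2 : (toRingAut σ) ζ = ζ ^ a := h ζ hζ.1
  rw [h2] at h1
  rw [(hζ.isOfFinOrder hpn.ne).pow_eq_pow_iff_modEq, ← hζ.eq_orderOf] at h1
  have h3 : PadicInt.toZModPow n
      ((cyclotomicCharacter (AlgebraicClosure ℚ) p (toRingAut σ) : ℤ_[p]ˣ) : ℤ_[p]) = (a : ZMod (p ^ n)) := by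
    have h4 := (ZMod.natCast_eq_natCast_iff _ _ _).mpr h1
    rw [h4]
    simp
  have h5 : ((cyclotomicCharacter (AlgebraicClosure ℚ) p (toRingAut σ) : ℤ_[p]ˣ) : ℤ_[p]) - (a : ℤ_[p])
      ∈ Ideal.span {((p : ℤ_[p]) ^ n)} := by
    rw [← PadicInt.ker_toZModPow, RingHom.mem_ker, map_sub, h3, map_natCast, sub_self]
  obtain ⟨c, hc⟩ := Ideal.mem_span_singleton.mp h5
  have h6 : cyc O hp σ - (a : O) = (p : O) ^ n * padicToAdic O hp c := by
    have h7 := congrArg (padicToAdic O hp) hc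
    rw [map_sub, map_natCast, map_mul, map_pow, map_natCast] at h7
    exact h7
  rw [h6]
  exact Ideal.mul_mem_right _ _ (Ideal.pow_mem_pow hp n)

theorem cyc_eq_of_forall (σ : H53.GQ) (a : ℕ)
    (h : ∀ (n : ℕ) (ζ : AlgebraicClosure ℚ), ζ ^ p ^ n = 1 → σ ζ = ζ ^ a) :
    cyc O hp σ = (a : O) := by
  rw [← sub_eq_zero]
  refine IsHausdorff.haus (I := maximalIdeal O) inferInstance _ fun n => ?_
  rw [SModEq.zero, smul_eq_mul, Ideal.mul_top]
  exact cyc_sub_mem O hp σ n a (h n)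

/-- Frobenius elements at `ℓ ≠ p` go to `ℓ`. -/
theorem cyc_frobenius {ℓ : ℕ} (hℓ : ℓ.Prime) (hℓp : ℓ ≠ p)
    {A : ValuationSubring (AlgebraicClosure ℚ)} (hA : A.LiesOverPrime ℓ) {φ : H53.GQ}
    (hφ : A.IsFrobeniusAt φ ℓ) : cyc O hp φ = (ℓ : O) := by
  refine cyc_eq_of_forall O hp φ ℓ fun n ζ hζ => ?_
  exact H31.frobenius_apply_rootOfUnity A hA
    (Nat.Coprime.pow_right n ((Nat.coprime_primes hℓ Fact.out).mpr hℓp))
    (pow_pos (Fact.out : p.Prime).pos n) hφ hζ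

/-- Inertia at `q ≠ p` is in the kernel of the cyclotomic character. -/
theorem cyc_inertia {q : ℕ} (hq : q.Prime) (hqp : q ≠ p)
    {A : ValuationSubring (AlgebraicClosure ℚ)} (hA : A.LiesOverPrime q) {τ : H53.GQ}
    (hτ : τ ∈ A.inertiaSubgroupIn ℚ) : cyc O hp τ = 1 := by
  have h1 := cyc_eq_of_forall O hp τ 1 fun n ζ hζ => by
    rw [pow_one]
    exact H31.inertia_apply_rootOfUnity A hA
      (Nat.Coprime.pow_right n ((Nat.coprime_primes hq Fact.out).mpr hqp))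
      (pow_pos (Fact.out : p.Prime).pos n) hτ hζ
  rwa [Nat.cast_one] at h1

/-- The cyclotomic character is continuous. -/
theorem cyc_charCont : CharCont O (cyc O hp) := by
  intro n
  have hpn : NeZero (p ^ n) := ⟨pow_ne_zero _ (Fact.out : p.Prime).ne_zero⟩
  obtain ⟨ζ, hζ⟩ := HasEnoughRootsOfUnity.exists_primitiveRoot (AlgebraicClosure ℚ) (p ^ n)
  have hint : IsIntegral ℚ ζ := (hζ.isIntegral (Nat.pos_of_ne_zero hpn.ne)).tower_top
  refine ⟨IntermediateField.adjoin ℚ {ζ}, IntermediateField.adjoin.finiteDimensional hint,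
    fun σ hσ => ?_⟩
  have h1 := cyc_sub_mem O hp σ n 1 fun η hη => by
    obtain ⟨i, -, rfl⟩ := hζ.eq_pow_of_pow_eq_one hη
    rw [pow_one]
    exact hσ _ (pow_mem (IntermediateField.mem_adjoin_simple_self ℚ ζ) i)
  rwa [Nat.cast_one] at h1

end Cyclo

end Fermat.Agent.H35
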