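import Mathlib
import Fermat.Agent.H35Cyclo
import Fermat.Agent.H31Lucas
import Fermat.Agent.H86DensityFinal

/-!
# From Frobenius elements to all elements of the Galois group
-/

set_option autoImplicit false

noncomputable section

open IsLocalRing

namespace Fermat.Agent.H35

/-- From a quadratic relation at Frobenius elements to all elements of the Galois group. -/
theorem quadratic_of_frobenius {O : Type} [CommRing O] [IsLocalRing O]
    [IsAdicComplete (maximalIdeal O) O] {p : ℕ} [Fact p.Prime] (hp : (p : O) ∈ maximalIdeal O)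
    {m : ℕ} (hm : 0 < m) (ρ : H53.GQ →* Matrix (Fin m) (Fin m) O) (hρ : MatCont O ρ)
    (S : Finset ℕ) (hpS : p ∈ S) (a : ℕ → O)
    (h : ∀ ℓ : ℕ, ℓ.Prime → ℓ ∉ S → ∀ A : ValuationSubring (AlgebraicClosure ℚ),
      A.LiesOverPrime ℓ → ∀ φ : H53.GQ, A.IsFrobeniusAt φ ℓ →
        ρ φ * ρ φ - a ℓ • ρ φ + (ℓ : O) • (1 : Matrix (Fin m) (Fin m) O) = 0) (g : H53.GQ) :
    ∃ t : O, ρ g * ρ g - t • ρ g + cyc O hp g • (1 : Matrix (Fin m) (Fin m) O) = 0 := by
  classical
  set X : H53.GQ → Matrix (Fin m) (Fin m) O := fun σ => ρ σ + cyc O hp σ • ρ σ⁻¹ with hX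
  -- scalar modulo every power
  have key : ∀ n : ℕ, ∃ s : O, ∀ i j, X g i j - s * (1 : Matrix (Fin m) (Fin m) O) i j
      ∈ maximalIdeal O ^ n := by
    intro n
    obtain ⟨L₁, hL₁, hL₁'⟩ := hρ n
    obtain ⟨L₂, hL₂, hL₂'⟩ := cyc_charCont O hp n
    haveI : FiniteDimensional ℚ (L₁ ⊔ L₂ : IntermediateField ℚ (AlgebraicClosure ℚ)) :=
      IntermediateField.finiteDimensional_sup L₁ L₂
    obtain ⟨ℓ, hℓ, hℓS, A, hA, φ, hφ, j, -, hgj, -⟩ :=
      H86.frobenius_density H86.frobDensityFinite (L₁ ⊔ L₂) g S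
    have hℓp : ℓ ≠ p := by rintro rfl; exact hℓS hpS
    have hrel := h ℓ hℓ hℓS A hA φ hφ
    set τ : H53.GQ := (φ ^ j)⁻¹ * g with hτ
    have hτfix : ∀ x ∈ L₁ ⊔ L₂, τ x = x := by
      intro x hx
      rw [hτ, AlgEquiv.mul_apply, hgj x hx]
      exact (φ ^ j).symm_apply_apply x
    have hτfix' : ∀ x ∈ L₁ ⊔ L₂, τ⁻¹ x = x := by
      intro x hx
      conv_lhs => rw [← hτfix x hx]
      exact τ.symm_apply_apply x
    set q := Ideal.Quotient.mk (maximalIdeal O ^ n) with hq
    have hone : ∀ σ : H53.GQ, (∀ x ∈ L₁ ⊔ L₂, σ x = x) → q.mapMatrix (ρ σ) = 1 := by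
      intro σ hσ
      ext i k
      have h1 := hL₁' σ (fun x hx => hσ x ((le_sup_left : L₁ ≤ L₁ ⊔ L₂) hx)) i k
      rw [← Ideal.Quotient.eq_zero_iff_mem, map_sub, sub_eq_zero] at h1
      rw [RingHom.mapMatrix_apply, Matrix.map_apply, hq, h1, Matrix.one_apply, Matrix.one_apply]
      split_ifs <;> simp
    have hcone : q (cyc O hp τ) = 1 := by
      have h1 := hL₂' τ (fun x hx => hτfix x ((le_sup_right : L₂ ≤ L₁ ⊔ L₂) hx))
      rw [← Ideal.Quotient.eq_zero_iff_mem, map_sub, sub_eq_zero, map_one] at h1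
      exact h1
    have hg : g = φ ^ j * τ := by rw [hτ]; group
    have h1 : q.mapMatrix (ρ g) = q.mapMatrix (ρ (φ ^ j)) := by
      rw [hg, map_mul, map_mul, hone τ hτfix, mul_one]
    have h2 : q.mapMatrix (ρ g⁻¹) = q.mapMatrix (ρ (φ ^ j)⁻¹) := by
      rw [hg, _root_.mul_inv_rev, map_mul, map_mul, hone τ⁻¹ hτfix', one_mul]
    have h3 : q (cyc O hp g) = q (cyc O hp (φ ^ j)) := by
      rw [hg, map_mul, map_mul, hcone, mul_one]
    -- the scalar at `φ ^ j`
    have h4 := H31.quadratic_pow (R := O) (E := Matrix (Fin m) (Fin m) O) (a ℓ) (ℓ : O) (ρ φ) (by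
      rw [Algebra.algebraMap_eq_smul_one, Algebra.algebraMap_eq_smul_one, smul_mul_assoc, one_mul]
      exact hrel) j
    have h5 : X (φ ^ j) = H31.luc (a ℓ) (ℓ : O) j • (1 : Matrix (Fin m) (Fin m) O) := by
      have h6 := congrArg (fun z => z * ρ (φ ^ j)⁻¹) h4
      have hinv : ρ (φ ^ j) * ρ (φ ^ j)⁻¹ = 1 := by rw [← map_mul, mul_inv_cancel, map_one]
      have hc : cyc O hp (φ ^ j) = (ℓ : O) ^ j := by
        rw [map_pow, cyc_frobenius O hp hℓ hℓp hA hφ]
      simp only [zero_mul] at h6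
      rw [← map_pow, add_mul, sub_mul, mul_assoc, hinv, mul_one, mul_assoc, hinv, mul_one,
        Algebra.algebraMap_eq_smul_one, Algebra.algebraMap_eq_smul_one, smul_mul_assoc,
        one_mul, ← hc] at h6
      rw [hX]
      linear_combination (norm := module) h6
    refine ⟨H31.luc (a ℓ) (ℓ : O) j, fun i k => ?_⟩
    rw [← Ideal.Quotient.eq_zero_iff_mem]
    have h6 : q.mapMatrix (X g) = q.mapMatrix (X (φ ^ j)) := by
      rw [hX]
      simp only
      rw [map_add, map_add, h1]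
      congr 1
      have h7 : ∀ (c : O) (M : Matrix (Fin m) (Fin m) O),
          q.mapMatrix (c • M) = q c • q.mapMatrix M := by
        intro c M
        ext i k
        simp
      rw [h7, h7, h2, h3]
    have h7 := congrFun (congrFun h6 i) k
    rw [RingHom.mapMatrix_apply, RingHom.mapMatrix_apply, Matrix.map_apply, Matrix.map_apply, h5,
      Matrix.smul_apply, smul_eq_mul] at h7
    rw [map_sub, sub_eq_zero]
    exact h7
  have haus : ∀ x : O, (∀ n : ℕ, x ∈ maximalIdeal O ^ n) → x = 0 := by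
    intro x hx
    refine IsHausdorff.haus (I := maximalIdeal O) inferInstance _ fun n => ?_
    rw [SModEq.zero, smul_eq_mul, Ideal.mul_top]
    exact hx n
  set i₀ : Fin m := ⟨0, hm⟩ with hi₀
  have hscal : X g = (X g i₀ i₀) • (1 : Matrix (Fin m) (Fin m) O) := by
    ext i j
    rw [Matrix.smul_apply, smul_eq_mul, ← sub_eq_zero]
    refine haus _ fun n => ?_
    obtain ⟨s, hs⟩ := key n
    have h1 := hs i j
    have h2 := hs i₀ i₀
    rw [Matrix.one_apply_eq, mul_one] at h2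
    have h3 : X g i j - X g i₀ i₀ * (1 : Matrix (Fin m) (Fin m) O) i j
        = (X g i j - s * (1 : Matrix (Fin m) (Fin m) O) i j)
          - (X g i₀ i₀ - s) * (1 : Matrix (Fin m) (Fin m) O) i j := by ring
    rw [h3]
    exact Ideal.sub_mem _ h1 (Ideal.mul_mem_right _ _ h2)
  refine ⟨X g i₀ i₀, ?_⟩
  have h1 := congrArg (fun z => z * ρ g) hscal
  have hinv : ρ g⁻¹ * ρ g = 1 := by rw [← map_mul, inv_mul_cancel, map_one]
  simp only [smul_mul_assoc, one_mul] at h1
  have h2 : X g * ρ g = ρ g * ρ g + cyc O hp g • (1 : Matrix (Fin m) (Fin m) O) := by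
    rw [hX]
    simp only
    rw [add_mul, smul_mul_assoc, hinv]
  rw [h2] at h1
  linear_combination (norm := module) h1

end Fermat.Agent.H35
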