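import Mathlib

/-!
# Eigenvectors for characters of finite commutative algebras
-/

set_option autoImplicit false
set_option linter.style.haveILetI false

open Module TensorProduct Matrix

namespace Fermat.Agent.H35

/-- A character of a finite commutative algebra `P` over a noetherian domain `O` occurs in every
finite faithful `P`-module. -/
theorem exists_eigenvector {O P V : Type*} [CommRing O] [IsDomain O] [IsNoetherianRing O]
    [CommRing P] [Algebra O P] [Module.Finite O P] [AddCommGroup V] [Module P V] [Module O V]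
    [IsScalarTower O P V] [Module.Finite P V] (hfaith : ∀ r : P, (∀ v : V, r • v = 0) → r = 0)
    (χ : P →ₐ[O] O) : ∃ v : V, v ≠ 0 ∧ ∀ r : P, r • v = χ r • v := by
  haveI : IsNoetherianRing P := IsNoetherianRing.of_finite O P
  have hann : Module.annihilator P V = ⊥ := by
    rw [eq_bot_iff]
    intro r hr
    exact hfaith r (Module.mem_annihilator.mp hr)
  set p : Ideal P := RingHom.ker (χ : P →+* O) with hp
  haveI hpp : p.IsPrime := RingHom.ker_isPrime _
  have hcomap : p.comap (algebraMap O P) = ⊥ := by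
    rw [eq_bot_iff]
    intro x hx
    have h1 : χ (algebraMap O P x) = 0 := hx
    rwa [χ.commutes] at h1
  have hmin : p ∈ (Module.annihilator P V).minimalPrimes := by
    rw [hann]
    refine ⟨⟨hpp, bot_le⟩, ?_⟩
    rintro q ⟨hq, -⟩ hqp
    by_contra hne
    have hlt : q < p := lt_of_le_not_ge hqp hne
    haveI := hq
    have h1 := Ideal.IsIntegral.comap_lt_comap (R := O) hlt
    rw [hcomap] at h1
    exact not_lt_bot h1
  have hass := Module.associatedPrimes.minimalPrimes_annihilator_subset_associatedPrimes P V hmin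
  obtain ⟨-, x, hx⟩ := (Submodule.isAssociatedPrime_iff).mp hass
  refine ⟨x, ?_, fun r => ?_⟩
  · rintro rfl
    apply hpp.ne_top
    rw [hx, Ideal.eq_top_iff_one]
    simp [Submodule.mem_colon_singleton]
  · have h1 : r - algebraMap O P (χ r) ∈ p := by
      rw [hp, RingHom.mem_ker]
      simp
    rw [hx, Submodule.mem_colon_singleton, Submodule.mem_bot, sub_smul, algebraMap_smul,
      sub_eq_zero] at h1
    exact h1

/-- Version of `exists_eigenvector` for algebra homomorphisms to the endomorphism ring. -/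
theorem exists_eigenvector_end {O P V : Type*} [CommRing O] [IsDomain O] [IsNoetherianRing O]
    [CommRing P] [Algebra O P] [Module.Finite O P] [AddCommGroup V] [Module O V]
    [Module.Finite O V] (f : P →ₐ[O] Module.End O V) (hf : Function.Injective f)
    (χ : P →ₐ[O] O) : ∃ v : V, v ≠ 0 ∧ ∀ r : P, f r v = χ r • v := by
  letI : Module P V := Module.compHom V (f : P →+* Module.End O V)
  have hsmul : ∀ (x : P) (v : V), x • v = f x v := fun x v => rfl
  haveI : IsScalarTower O P V := ⟨fun o x v => by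
    rw [hsmul, hsmul, map_smul, LinearMap.smul_apply]⟩
  haveI : Module.Finite P V := Module.Finite.of_restrictScalars_finite O P V
  exact exists_eigenvector (O := O) (P := P) (V := V) (by
    intro r hr
    apply hf
    rw [map_zero]
    exact LinearMap.ext fun v => hr v) χ

/-- Eigenvectors over a larger coefficient ring, matrix algebras. -/
theorem exists_eigenvector_baseChange {Z O R : Type*} [CommRing Z] [IsDomain Z]
    [IsPrincipalIdealRing Z] [CommRing O] [IsDomain O] [IsNoetherianRing O] [Algebra Z O]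
    (hinj : Function.Injective (algebraMap Z O)) [CommRing R] [Algebra Z R] {m : ℕ}
    (incl : R →ₐ[Z] Matrix (Fin m) (Fin m) Z) (hincl : Function.Injective incl)
    (χ₀ : R →ₐ[Z] O) :
    ∃ v : Fin m → O, v ≠ 0 ∧ ∀ a : R, ((incl a).map (algebraMap Z O)) *ᵥ v = χ₀ a • v := by
  classical
  haveI hfin₀ : Module.Finite Z R := Module.Finite.of_injective incl.toLinearMap hincl
  let g : R →ₐ[Z] Matrix (Fin m) (Fin m) O :=
    ((Algebra.ofId Z O).mapMatrix : Matrix (Fin m) (Fin m) Z →ₐ[Z] _).comp incl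
  let F : O ⊗[Z] R →ₐ[O] Matrix (Fin m) (Fin m) O :=
    Algebra.TensorProduct.lift (Algebra.ofId O _) g (fun x y => (Algebra.commutes x (g y) : _))
  haveI : FaithfulSMul Z O := (faithfulSMul_iff_algebraMap_injective Z O).mpr hinj
  haveI : Module.IsTorsionFree Z O := inferInstance
  haveI : Module.Flat Z O := inferInstance
  have hFt : ∀ (x : O) (y : R), F (x ⊗ₜ y) = x • (incl y).map (algebraMap Z O) := by
    intro x y
    rw [Algebra.smul_def]
    exact Algebra.TensorProduct.lift_tmul _ _ _ x y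
  have hF : ∀ x : O ⊗[Z] R,
      F x = (matrixEquivTensor (Fin m) Z O).symm (incl.toLinearMap.lTensor O x) := by
    intro x
    induction x with
    | zero => simp
    | add x y hx hy => rw [map_add, map_add, map_add, hx, hy]
    | tmul x y =>
      rw [LinearMap.lTensor_tmul, matrixEquivTensor_apply_symm, hFt]
      rfl
  have hFinj : Function.Injective F := by
    have h1 : (F : O ⊗[Z] R → _)
        = (matrixEquivTensor (Fin m) Z O).symm ∘ (incl.toLinearMap.lTensor O) :=
      funext hF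
    rw [h1]
    exact (matrixEquivTensor (Fin m) Z O).symm.injective.comp
      (Module.Flat.lTensor_preserves_injective_linearMap _ hincl)
  let χ' : O ⊗[Z] R →ₐ[O] O :=
    Algebra.TensorProduct.lift (AlgHom.id O O) χ₀ (fun x y => Commute.all _ _)
  obtain ⟨v, hv, h⟩ := exists_eigenvector_end (O := O) (P := O ⊗[Z] R) (V := Fin m → O)
    ((Matrix.toLinAlgEquiv' : Matrix (Fin m) (Fin m) O ≃ₐ[O] _).toAlgHom.comp F)
    (Matrix.toLinAlgEquiv'.injective.comp hFinj) χ'
  refine ⟨v, hv, fun a => ?_⟩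
  have h1 := h ((1 : O) ⊗ₜ a)
  have h2 : F ((1 : O) ⊗ₜ a) *ᵥ v = χ' ((1 : O) ⊗ₜ a) • v := h1
  have h3 : χ' ((1 : O) ⊗ₜ a) = χ₀ a := by
    refine (Algebra.TensorProduct.lift_tmul _ _ _ (1 : O) a).trans ?_
    rw [map_one, one_mul]
  rw [hFt, h3, one_smul] at h2
  exact h2

/-- Eigenvectors over a larger coefficient ring, from linear relations. -/
theorem exists_eigenvector_matrix {Z O A : Type*} [CommRing Z] [IsDomain Z] [IsPrincipalIdealRing Z]
    [CommRing O] [IsDomain O] [IsNoetherianRing O] [Algebra Z O]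
    (hinj : Function.Injective (algebraMap Z O)) [CommRing A] {m : ℕ}
    (act : A →+* Matrix (Fin m) (Fin m) Z) (χ : A →+* O)
    (hker : ∀ S : Finset (Z × A), ∑ i ∈ S, i.1 • act i.2 = 0 →
      ∑ i ∈ S, algebraMap Z O i.1 * χ i.2 = 0) :
    ∃ v : Fin m → O, v ≠ 0 ∧ ∀ a : A, ((act a).map (algebraMap Z O)) *ᵥ v = χ a • v := by
  classical
  let Φ : Z ⊗[ℤ] A →ₐ[Z] Matrix (Fin m) (Fin m) Z :=
    Algebra.TensorProduct.lift (Algebra.ofId Z _) act.toIntAlgHom
      (fun x y => (Algebra.commutes x (act y) : _))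
  let Ψ : Z ⊗[ℤ] A →ₐ[Z] O :=
    Algebra.TensorProduct.lift (Algebra.ofId Z O) χ.toIntAlgHom (fun x y => Commute.all _ _)
  have hΦ : ∀ (z : Z) (a : A), Φ (z ⊗ₜ a) = z • act a := fun z a => by
    rw [Algebra.smul_def]
    exact Algebra.TensorProduct.lift_tmul _ _ _ z a
  have hΨ : ∀ (z : Z) (a : A), Ψ (z ⊗ₜ a) = algebraMap Z O z * χ a := fun z a =>
    Algebra.TensorProduct.lift_tmul _ _ _ z a
  have hΦΨ : ∀ x : Z ⊗[ℤ] A, x ∈ RingHom.ker Φ → Ψ x = 0 := by
    intro x hx
    obtain ⟨S, rfl⟩ := TensorProduct.exists_finset x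
    rw [RingHom.mem_ker, map_sum] at hx
    rw [map_sum]
    simp only [hΦ] at hx
    simp only [hΨ]
    exact hker S hx
  let incl : (Z ⊗[ℤ] A ⧸ (RingHom.ker Φ)) →ₐ[Z] Matrix (Fin m) (Fin m) Z :=
    Ideal.Quotient.liftₐ (RingHom.ker Φ) Φ (fun a ha => ha)
  have hincl : Function.Injective incl := by
    rw [injective_iff_map_eq_zero]
    intro x hx
    obtain ⟨y, rfl⟩ := Ideal.Quotient.mk_surjective x
    rw [Ideal.Quotient.eq_zero_iff_mem]
    exact hx
  let χ₀ : (Z ⊗[ℤ] A ⧸ (RingHom.ker Φ)) →ₐ[Z] O := Ideal.Quotient.liftₐ (RingHom.ker Φ) Ψ hΦΨ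
  obtain ⟨v, hv, h⟩ := exists_eigenvector_baseChange (R := Z ⊗[ℤ] A ⧸ (RingHom.ker Φ)) hinj incl hincl χ₀
  refine ⟨v, hv, fun a => ?_⟩
  have h1 := h (Ideal.Quotient.mk (RingHom.ker Φ) ((1 : Z) ⊗ₜ a))
  have h2 : incl (Ideal.Quotient.mk (RingHom.ker Φ) ((1 : Z) ⊗ₜ a)) = act a := by
    have h3 : incl (Ideal.Quotient.mk (RingHom.ker Φ) ((1 : Z) ⊗ₜ a)) = Φ ((1 : Z) ⊗ₜ a) := rfl
    rw [h3, hΦ, one_smul]
  have h4 : χ₀ (Ideal.Quotient.mk (RingHom.ker Φ) ((1 : Z) ⊗ₜ a)) = χ a := by
    have h5 : χ₀ (Ideal.Quotient.mk (RingHom.ker Φ) ((1 : Z) ⊗ₜ a)) = Ψ ((1 : Z) ⊗ₜ a) := rfl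
    rw [h5, hΨ, map_one, one_mul]
  rw [h2, h4] at h1
  exact h1

end Fermat.Agent.H35
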