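import Mathlib
import Fermat.Agent.H35Lattice

/-!
# Saturated stable submodules of matrix representations
-/

set_option autoImplicit false
set_option linter.style.haveILetI false

noncomputable section

open IsLocalRing Module Matrix

namespace Fermat.Agent.H35

/-- A saturated submodule of a finite free module over a PID has a basis and a projection. -/
theorem exists_basis_of_saturated {O : Type*} [CommRing O] [IsDomain O] [IsPrincipalIdealRing O]
    {m : ℕ} (W : Submodule O (Fin m → O)) (hW0 : W ≠ ⊥)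
    (hsat : ∀ (a : O) (w : Fin m → O), a ≠ 0 → a • w ∈ W → w ∈ W) :
    ∃ (r : ℕ) (_ : 0 < r) (Q : Matrix (Fin m) (Fin r) O) (L : Matrix (Fin r) (Fin m) O),
      L * Q = 1 ∧ (∀ x, Q *ᵥ x ∈ W) ∧ ∀ w ∈ W, Q *ᵥ (L *ᵥ w) = w := by
  classical
  haveI htf : Module.IsTorsionFree O ((Fin m → O) ⧸ W) := by
    rw [Module.isTorsionFree_iff_smul_eq_zero]
    intro a x hax
    obtain ⟨v, rfl⟩ := Submodule.mkQ_surjective W x
    rw [← map_smul, Submodule.mkQ_apply, Submodule.Quotient.mk_eq_zero] at hax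
    by_cases ha : a = 0
    · exact Or.inl ha
    · right
      rw [Submodule.mkQ_apply, Submodule.Quotient.mk_eq_zero]
      exact hsat a v ha hax
  haveI : Module.Free O ((Fin m → O) ⧸ W) := inferInstance
  obtain ⟨s, hs⟩ := Module.projective_lifting_property W.mkQ LinearMap.id W.mkQ_surjective
  have hs' : ∀ x, W.mkQ (s x) = x := fun x => LinearMap.congr_fun hs x
  let π : (Fin m → O) →ₗ[O] W := LinearMap.codRestrict W (LinearMap.id - s.comp W.mkQ) (by
    intro v
    rw [← Submodule.Quotient.mk_eq_zero, ← Submodule.mkQ_apply]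
    simp only [LinearMap.sub_apply, LinearMap.id_apply, LinearMap.comp_apply, map_sub, hs',
      sub_self])
  have hπ : ∀ w : W, π w = w := by
    intro w
    apply Subtype.ext
    have h1 : W.mkQ (w : Fin m → O) = 0 := by
      rw [Submodule.mkQ_apply, Submodule.Quotient.mk_eq_zero]
      exact w.2
    simp only [π, LinearMap.codRestrict_apply, LinearMap.sub_apply, LinearMap.id_apply,
      LinearMap.comp_apply, h1, map_zero, sub_zero]
  haveI : Module.Finite O W := inferInstance
  haveI : Module.Free O W := inferInstance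
  haveI : Nontrivial W := Submodule.nontrivial_iff_ne_bot.mpr hW0
  let b := Module.finBasis O W
  let QL : (Fin (finrank O W) → O) →ₗ[O] (Fin m → O) :=
    W.subtype.comp (b.equivFun.symm : (Fin (finrank O W) → O) →ₗ[O] W)
  let LL : (Fin m → O) →ₗ[O] (Fin (finrank O W) → O) :=
    (b.equivFun : W →ₗ[O] (Fin (finrank O W) → O)).comp π
  have hLQ : LL.comp QL = LinearMap.id := by
    refine LinearMap.ext fun x => ?_
    simp only [LL, QL, LinearMap.comp_apply, Submodule.subtype_apply, LinearEquiv.coe_coe,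
      LinearMap.id_apply]
    rw [hπ, LinearEquiv.apply_symm_apply]
  refine ⟨finrank O W, Module.finrank_pos, LinearMap.toMatrix' QL, LinearMap.toMatrix' LL, ?_, ?_, ?_⟩
  · rw [← LinearMap.toMatrix'_comp, hLQ, LinearMap.toMatrix'_id]
  · intro x
    rw [LinearMap.toMatrix'_mulVec]
    exact (b.equivFun.symm x).2
  · intro w hw
    rw [LinearMap.toMatrix'_mulVec, LinearMap.toMatrix'_mulVec]
    simp only [LL, QL, LinearMap.comp_apply, Submodule.subtype_apply, LinearEquiv.coe_coe,
      LinearEquiv.symm_apply_apply]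
    exact congrArg Subtype.val (hπ ⟨w, hw⟩)

/-- The matrix representation on a saturated stable submodule. -/
theorem exists_matrixRep_sub {O : Type} [CommRing O] [IsDomain O] [IsPrincipalIdealRing O]
    [IsLocalRing O] {m : ℕ} (ρ : H53.GQ →* Matrix (Fin m) (Fin m) O) (hρ : MatCont O ρ)
    (W : Submodule O (Fin m → O)) (hW0 : W ≠ ⊥)
    (hsat : ∀ (a : O) (w : Fin m → O), a ≠ 0 → a • w ∈ W → w ∈ W)
    (hst : ∀ g, ∀ w ∈ W, ρ g *ᵥ w ∈ W) :
    ∃ (r : ℕ) (_ : 0 < r) (Q : Matrix (Fin m) (Fin r) O) (L : Matrix (Fin r) (Fin m) O)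
      (R : H53.GQ →* Matrix (Fin r) (Fin r) O),
      L * Q = 1 ∧ (∀ g, ρ g * Q = Q * R g) ∧ MatCont O R ∧ ∀ x, Q *ᵥ x ∈ W := by
  classical
  obtain ⟨r, hr, Q, L, hLQ, hQW, hQL⟩ := exists_basis_of_saturated W hW0 hsat
  have hrel : ∀ g, ρ g * Q = Q * (L * ρ g * Q) := by
    intro g
    apply Matrix.toLin'.injective
    refine LinearMap.ext fun x => ?_
    rw [Matrix.toLin'_apply, Matrix.toLin'_apply, ← Matrix.mulVec_mulVec, ← Matrix.mulVec_mulVec,
      ← Matrix.mulVec_mulVec, ← Matrix.mulVec_mulVec]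
    exact (hQL _ (hst g _ (hQW x))).symm
  refine ⟨r, hr, Q, L,
    { toFun := fun g => L * ρ g * Q
      map_one' := by rw [map_one, Matrix.mul_one, hLQ]
      map_mul' := fun g h => by
        rw [map_mul]
        calc L * (ρ g * ρ h) * Q = L * ρ g * (ρ h * Q) := by simp only [Matrix.mul_assoc]
          _ = L * ρ g * (Q * (L * ρ h * Q)) := by rw [← hrel h]
          _ = L * ρ g * Q * (L * ρ h * Q) := by simp only [Matrix.mul_assoc] },
    hLQ, hrel, ?_, hQW⟩
  intro n
  obtain ⟨F, hF, hF'⟩ := hρ n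
  refine ⟨F, hF, fun σ hσ i j => ?_⟩
  have h1 : (L * ρ σ * Q) i j - (1 : Matrix (Fin r) (Fin r) O) i j
      = ∑ l, (∑ k, L i k * (ρ σ k l - (1 : Matrix (Fin m) (Fin m) O) k l)) * Q l j := by
    have h2 : (1 : Matrix (Fin r) (Fin r) O) = L * (1 : Matrix (Fin m) (Fin m) O) * Q := by
      rw [Matrix.mul_one, hLQ]
    conv_lhs => rw [h2]
    rw [← Matrix.sub_apply, ← Matrix.sub_mul, ← Matrix.mul_sub, Matrix.mul_apply]
    refine Finset.sum_congr rfl fun l _ => ?_
    rw [Matrix.mul_apply]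
    rfl
  change (L * ρ σ * Q) i j - (1 : Matrix (Fin r) (Fin r) O) i j ∈ _
  rw [h1]
  exact Ideal.sum_mem _ fun l _ => Ideal.mul_mem_right _ _ <|
    Ideal.sum_mem _ fun k _ => Ideal.mul_mem_left _ _ (hF' σ hσ k l)

end Fermat.Agent.H35
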