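import Mathlib
import Fermat.Prelude.Def_CuspForm_HeckeGaloisRepDatum
import Fermat.Agent.H31Mod
import Fermat.Agent.H35Dens
import Fermat.Agent.H35Eigen
import Fermat.Agent.H35Sub

/-!
# The conclusion of S30 from a Hecke-Galois lattice

`s30_of_relations` : the Hecke-Galois lattice `T` over `ℤ_p`, with the condition that linear
relations between Hecke operators on `T` hold for the character `χ`.
`s30_of_faithful` : the same with the faithfulness condition of `H31Mod`.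
-/

set_option autoImplicit false
set_option linter.style.haveILetI false

noncomputable section

open IsLocalRing Module Matrix Polynomial

namespace Fermat.Agent.H35

section Padic

variable (O : Type*) [CommRing O] [IsLocalRing O] {p : ℕ} [Fact p.Prime]
  (hp : (p : O) ∈ maximalIdeal O) [IsAdicComplete (maximalIdeal O) O]

theorem padicToAdic_injective [IsDomain O] [CharZero O] :
    Function.Injective (padicToAdic O hp) := by
  rw [injective_iff_map_eq_zero]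
  intro x hx
  by_contra hne
  have h1 := PadicInt.unitCoeff_spec hne
  rw [h1, map_mul, map_pow, map_natCast] at hx
  have h2 : IsUnit (padicToAdic O hp (PadicInt.unitCoeff hne : ℤ_[p])) :=
    (PadicInt.unitCoeff hne).isUnit.map _
  have h3 : (p : O) ^ x.valuation = 0 := by
    rcases mul_eq_zero.mp hx with h | h
    · exact absurd h h2.ne_zero
    · exact h
  have h4 : (p : O) = 0 := eq_zero_of_pow_eq_zero h3
  exact (Fact.out : p.Prime).ne_zero (by exact_mod_cast h4)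

end Padic

section Main

variable {p : ℕ} [Fact p.Prime]

/-- Conclusion of S30 -/
def S30Conclusion (p N : ℕ) [NeZero N] (S : Finset ℕ) (𝒪' : Type) [CommRing 𝒪'] [IsDomain 𝒪']
    [IsDiscreteValuationRing 𝒪'] (χ : CuspForm.heckeAlgebra N 2 (↑S : Set ℕ) →+* 𝒪') : Prop :=
  ∃ (𝒪'' : Type) (_ : CommRing 𝒪'') (_ : IsDomain 𝒪'') (_ : IsDiscreteValuationRing 𝒪'')
    (_ : IsAdicComplete (IsLocalRing.maximalIdeal 𝒪'') 𝒪'')
    (_ : Finite (IsLocalRing.ResidueField 𝒪'')) (_ : CharZero 𝒪'')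
    (_ : Algebra 𝒪' 𝒪'') (_ : Module.Finite 𝒪' 𝒪'') (_ : IsLocalHom (algebraMap 𝒪' 𝒪'')),
  Function.Injective (algebraMap 𝒪' 𝒪'') ∧
  ∃ ρ : GaloisRepAdic 𝒪'',
    (∀ (ℓ : ℕ) (hℓ : ℓ.Prime) (hℓN : ¬ ℓ ∣ N) (hℓS : ℓ ∉ (↑S : Set ℕ)),
      ∀ A : ValuationSubring (AlgebraicClosure ℚ), A.LiesOverPrime ℓ →
        ∀ σ : AlgebraicClosure ℚ ≃ₐ[ℚ] AlgebraicClosure ℚ, A.IsFrobeniusAt σ ℓ →
          LinearMap.charpoly (ρ.ρ σ) =
            X ^ 2 - C (algebraMap 𝒪' 𝒪'' (χ (CuspForm.heckeAlgebra.T hℓ hℓN hℓS))) * X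
              + C ((ℓ : 𝒪''))) ∧
    (∀ q : ℕ, q.Prime → ¬ q ∣ N → q ≠ p → ρ.IsUnramifiedAt q)

/-- From a matrix representation over `𝒪'` satisfying the quadratic relations. -/
theorem s30_of_matrixRep {N : ℕ} [NeZero N] {S : Finset ℕ}
    (hpS : p ∈ S) (hNS : ∀ q : ℕ, q.Prime → q ∣ N → q ∈ S)
    (𝒪' : Type) [CommRing 𝒪'] [IsDomain 𝒪'] [IsDiscreteValuationRing 𝒪']
    [IsAdicComplete (IsLocalRing.maximalIdeal 𝒪') 𝒪'] [Finite (IsLocalRing.ResidueField 𝒪')]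
    [CharZero 𝒪'] (hp𝒪' : (p : 𝒪') ∈ IsLocalRing.maximalIdeal 𝒪')
    (χ : CuspForm.heckeAlgebra N 2 (↑S : Set ℕ) →+* 𝒪')
    {r : ℕ} (hr : 0 < r) (R : H53.GQ →* Matrix (Fin r) (Fin r) 𝒪') (hR : MatCont 𝒪' R)
    (hfrob : ∀ (ℓ : ℕ) (hℓ : ℓ.Prime) (hℓN : ¬ ℓ ∣ N) (hℓS : ℓ ∉ (↑S : Set ℕ)),
      ∀ A : ValuationSubring (AlgebraicClosure ℚ), A.LiesOverPrime ℓ →
        ∀ φ : AlgebraicClosure ℚ ≃ₐ[ℚ] AlgebraicClosure ℚ, A.IsFrobeniusAt φ ℓ →
          R φ * R φ - χ (CuspForm.heckeAlgebra.T hℓ hℓN hℓS) • R φ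
            + (ℓ : 𝒪') • (1 : Matrix (Fin r) (Fin r) 𝒪') = 0)
    (hunr : ∀ q : ℕ, q.Prime → ¬ q ∣ N → q ≠ p → ∀ A : ValuationSubring (AlgebraicClosure ℚ),
      A.LiesOverPrime q → ∀ τ ∈ A.inertiaSubgroupIn ℚ, R τ = 1) :
    S30Conclusion p N S 𝒪' χ := by
  classical
  let a : ℕ → 𝒪' := fun ℓ => if h : ℓ.Prime ∧ ¬ ℓ ∣ N ∧ ℓ ∉ (↑S : Set ℕ) then
    χ (CuspForm.heckeAlgebra.T h.1 h.2.1 h.2.2) else 0
  have hquad := quadratic_of_frobenius hp𝒪' hr R hR S hpS a (by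
    intro ℓ hℓ hℓS A hA φ hφ
    have hℓN : ¬ ℓ ∣ N := fun h => hℓS (hNS ℓ hℓ h)
    have hℓS' : ℓ ∉ (↑S : Set ℕ) := by simpa using hℓS
    have ha : a ℓ = χ (CuspForm.heckeAlgebra.T hℓ hℓN hℓS') := dif_pos ⟨hℓ, hℓN, hℓS'⟩
    rw [ha]
    exact hfrob ℓ hℓ hℓN hℓS' A hA φ hφ)
  obtain ⟨𝒪'', i1, i2, i3, i4, i5, i6, i7, i8, i9, hinj, ρ', hcont, htd, hone⟩ :=
    exists_matrixRep_of_quadratic 𝒪' hr R hR (cyc 𝒪' hp𝒪') (cyc_charCont 𝒪' hp𝒪') hquad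
  refine ⟨𝒪'', i1, i2, i3, i4, i5, i6, i7, i8, i9, hinj, H53.ofMatrix ρ' hcont, ?_, ?_⟩
  · intro ℓ hℓ hℓN hℓS A hA φ hφ
    have hℓp : ℓ ≠ p := by
      rintro rfl
      exact hℓS (by simpa using hpS)
    have hcyc : cyc 𝒪' hp𝒪' φ = (ℓ : 𝒪') := cyc_frobenius 𝒪' hp𝒪' hℓ hℓp hA hφ
    obtain ⟨htr, hdet⟩ := htd φ (χ (CuspForm.heckeAlgebra.T hℓ hℓN hℓS)) (by
      rw [hcyc]
      exact hfrob ℓ hℓ hℓN hℓS A hA φ hφ)
    have h1 : LinearMap.charpoly ((H53.ofMatrix ρ' hcont).ρ φ) = (ρ' φ).charpoly :=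
      Matrix.charpoly_toLin' (ρ' φ)
    rw [h1, Matrix.charpoly_fin_two, htr, hdet, hcyc, map_natCast]
  · intro q hq hqN hqp A hA τ hτ
    have h1 : ρ' τ = 1 := hone τ (hunr q hq hqN hqp A hA τ hτ)
      (cyc_inertia 𝒪' hp𝒪' hq hqp hA hτ)
    change (Matrix.toLinAlgEquiv' : H53.M2 𝒪'' ≃ₐ[𝒪''] _) (ρ' τ) = 1
    rw [h1, map_one]

/-- From a Hecke-Galois lattice over `ℤ_p`, with a condition on linear relations. -/
theorem s30_of_relations {N : ℕ} [NeZero N] {S : Finset ℕ}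
    (hpS : p ∈ S) (hNS : ∀ q : ℕ, q.Prime → q ∣ N → q ∈ S)
    (𝒪' : Type) [CommRing 𝒪'] [IsDomain 𝒪'] [IsDiscreteValuationRing 𝒪']
    [IsAdicComplete (IsLocalRing.maximalIdeal 𝒪') 𝒪'] [Finite (IsLocalRing.ResidueField 𝒪')]
    [CharZero 𝒪'] (hp𝒪' : (p : 𝒪') ∈ IsLocalRing.maximalIdeal 𝒪')
    (χ : CuspForm.heckeAlgebra N 2 (↑S : Set ℕ) →+* 𝒪')
    {T : Type*} [AddCommGroup T] [Module ℤ_[p] T] [Module.Free ℤ_[p] T] [Module.Finite ℤ_[p] T]
    (ρT : H53.GQ →* Module.End ℤ_[p] T)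
    (hcont : ∀ n : ℕ, ∃ L : IntermediateField ℚ (AlgebraicClosure ℚ), FiniteDimensional ℚ L ∧
      ∀ σ : H53.GQ, (∀ x ∈ L, σ x = x) → ∀ x : T, ∃ y : T, ρT σ x - x = (p : ℤ_[p]) ^ n • y)
    (act : MvPolynomial (H31.GoodPrimes N (↑S : Set ℕ)) ℤ →+* Module.End ℤ_[p] T)
    (hcomm : ∀ P σ, Commute (act P) (ρT σ))
    (hfrob : ∀ (a : H31.GoodPrimes N (↑S : Set ℕ)) (A : ValuationSubring (AlgebraicClosure ℚ)),
      A.LiesOverPrime (a.1 : ℕ) → ∀ φ : H53.GQ, A.IsFrobeniusAt φ (a.1 : ℕ) →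
        ∀ x : T, ρT φ (ρT φ x) - act (MvPolynomial.X a) (ρT φ x) + (a.1 : ℕ) • x = 0)
    (hunr : ∀ q : ℕ, q.Prime → ¬ q ∣ N → q ≠ p → ∀ A : ValuationSubring (AlgebraicClosure ℚ),
      A.LiesOverPrime q → ∀ τ ∈ A.inertiaSubgroupIn ℚ, ρT τ = 1)
    (hrel : ∀ U : Finset (ℤ_[p] × MvPolynomial (H31.GoodPrimes N (↑S : Set ℕ)) ℤ),
      ∑ i ∈ U, i.1 • act i.2 = 0 →
        ∑ i ∈ U, padicToAdic 𝒪' hp𝒪' i.1 * χ (H31.evHecke N (↑S : Set ℕ) i.2) = 0) :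
    S30Conclusion p N S 𝒪' χ := by
  classical
  letI : Algebra ℤ_[p] 𝒪' := (padicToAdic 𝒪' hp𝒪').toAlgebra
  have hinj : Function.Injective (algebraMap ℤ_[p] 𝒪') := padicToAdic_injective 𝒪' hp𝒪'
  let b := Module.finBasis ℤ_[p] T
  let tm := LinearMap.toMatrixAlgEquiv b
  let actM : MvPolynomial (H31.GoodPrimes N (↑S : Set ℕ)) ℤ →+*
      Matrix (Fin (finrank ℤ_[p] T)) (Fin (finrank ℤ_[p] T)) ℤ_[p] :=
    (tm : Module.End ℤ_[p] T →+* _).comp act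
  let mp : Matrix (Fin (finrank ℤ_[p] T)) (Fin (finrank ℤ_[p] T)) ℤ_[p] →+*
      Matrix (Fin (finrank ℤ_[p] T)) (Fin (finrank ℤ_[p] T)) 𝒪' :=
    (algebraMap ℤ_[p] 𝒪').mapMatrix
  let ρM : H53.GQ →* Matrix (Fin (finrank ℤ_[p] T)) (Fin (finrank ℤ_[p] T)) 𝒪' :=
    (((mp : _ →+* _).comp (tm : Module.End ℤ_[p] T →+* _) :
      Module.End ℤ_[p] T →+* _) : Module.End ℤ_[p] T →* _).comp ρT
  have hρM : ∀ σ, ρM σ = mp (tm (ρT σ)) := fun σ => rfl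
  obtain ⟨v, hv0, hv⟩ := exists_eigenvector_matrix hinj actM
    (χ.comp (H31.evHecke N (↑S : Set ℕ))) (by
      intro U hU
      refine hrel U ?_
      apply tm.injective
      rw [map_sum, map_zero, ← hU]
      refine Finset.sum_congr rfl fun i _ => ?_
      rw [map_smul]
      rfl)
  -- continuity
  have hMc : MatCont 𝒪' ρM := by
    intro n
    obtain ⟨F, hF, hF'⟩ := hcont n
    refine ⟨F, hF, fun σ hσ i j => ?_⟩
    obtain ⟨y, hy⟩ := hF' σ hσ (b j)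
    have h1 : ρM σ i j - (1 : Matrix _ _ 𝒪') i j
        = algebraMap ℤ_[p] 𝒪' (b.repr (ρT σ (b j) - b j) i) := by
      have h2 : ρM σ i j = algebraMap ℤ_[p] 𝒪' (b.repr (ρT σ (b j)) i) := by
        rw [hρM]
        change algebraMap ℤ_[p] 𝒪' (LinearMap.toMatrix b b (ρT σ) i j) = _
        rw [LinearMap.toMatrix_apply]
      have h3 : (1 : Matrix (Fin (finrank ℤ_[p] T)) (Fin (finrank ℤ_[p] T)) 𝒪') i j
          = algebraMap ℤ_[p] 𝒪' (b.repr (b j) i) := by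
        rw [Module.Basis.repr_self, Finsupp.single_apply, Matrix.one_apply]
        by_cases h : i = j
        · subst h; simp
        · rw [if_neg h, if_neg (Ne.symm h), map_zero]
      rw [h2, h3, map_sub, Finsupp.sub_apply, map_sub]
    rw [h1, hy, map_smul, Finsupp.smul_apply, smul_eq_mul, map_mul, map_pow, map_natCast]
    exact Ideal.mul_mem_right _ _ (Ideal.pow_mem_pow hp𝒪' n)
  -- the eigenspace
  let W : Submodule 𝒪' (Fin (finrank ℤ_[p] T) → 𝒪') :=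
    { carrier := {w | ∀ P, mp (actM P) *ᵥ w = χ (H31.evHecke N (↑S : Set ℕ) P) • w}
      add_mem' := fun {x y} hx hy P => by rw [Matrix.mulVec_add, hx P, hy P, smul_add]
      zero_mem' := fun P => by rw [Matrix.mulVec_zero, smul_zero]
      smul_mem' := fun c x hx P => by rw [Matrix.mulVec_smul, hx P, smul_comm] }
  have hW : ∀ w, w ∈ W ↔ ∀ P, mp (actM P) *ᵥ w = χ (H31.evHecke N (↑S : Set ℕ) P) • w :=
    fun w => Iff.rfl
  have hW0 : W ≠ ⊥ := by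
    intro h
    apply hv0
    have h1 : v ∈ W := (hW v).mpr fun P => hv P
    rwa [h, Submodule.mem_bot] at h1
  have hcomm' : ∀ P σ, mp (actM P) * ρM σ = ρM σ * mp (actM P) := by
    intro P σ
    rw [hρM, ← map_mul, ← map_mul]
    congr 1
    change tm (act P) * tm (ρT σ) = tm (ρT σ) * tm (act P)
    rw [← map_mul, ← map_mul, (hcomm P σ).eq]
  obtain ⟨r, hr, Q, L, R, hLQ, hQR, hRc, hQW⟩ := exists_matrixRep_sub ρM hMc W hW0
    (by
      intro c w hc hcw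
      rw [hW] at hcw ⊢
      intro P
      have h1 := hcw P
      rw [Matrix.mulVec_smul, smul_comm] at h1
      exact smul_right_injective _ hc h1)
    (by
      intro σ w hw
      rw [hW] at hw ⊢
      intro P
      rw [Matrix.mulVec_mulVec, hcomm', ← Matrix.mulVec_mulVec, hw P, Matrix.mulVec_smul])
  have hQinj : ∀ X : Matrix (Fin r) (Fin r) 𝒪', Q * X = 0 → X = 0 := by
    intro X hX
    have h1 := congrArg (fun z => L * z) hX
    simp only [← Matrix.mul_assoc, hLQ, Matrix.one_mul, Matrix.mul_zero] at h1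
    exact h1
  have hactQ : ∀ P (X : Matrix (Fin r) (Fin r) 𝒪'),
      mp (actM P) * (Q * X) = χ (H31.evHecke N (↑S : Set ℕ) P) • (Q * X) := by
    intro P X
    apply Matrix.toLin'.injective
    refine LinearMap.ext fun x => ?_
    rw [Matrix.toLin'_apply, Matrix.toLin'_apply, ← Matrix.mulVec_mulVec, ← Matrix.mulVec_mulVec,
      Matrix.smul_mulVec, ← Matrix.mulVec_mulVec]
    exact hQW (X *ᵥ x) P
  refine s30_of_matrixRep hpS hNS 𝒪' hp𝒪' χ hr R hRc ?_ ?_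
  · intro ℓ hℓ hℓN hℓS A hA φ hφ
    let a : H31.GoodPrimes N (↑S : Set ℕ) := ⟨⟨ℓ, hℓ⟩, hℓN, hℓS⟩
    have h1 : ρT φ * ρT φ - act (MvPolynomial.X a) * ρT φ + (ℓ : Module.End ℤ_[p] T) = 0 := by
      refine LinearMap.ext fun x => ?_
      have h2 := hfrob a A hA φ hφ x
      simp only [LinearMap.add_apply, LinearMap.sub_apply, Module.End.mul_apply,
        Module.End.natCast_apply, LinearMap.zero_apply]
      exact h2
    have h2 : ρM φ * ρM φ - mp (actM (MvPolynomial.X a)) * ρM φ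
        + ((ℓ : ℕ) : Matrix (Fin (finrank ℤ_[p] T)) (Fin (finrank ℤ_[p] T)) 𝒪') = 0 := by
      have h3 := congrArg (fun z => mp (tm z)) h1
      simp only [map_add, map_sub, map_mul, map_natCast, map_zero] at h3
      exact h3
    apply hQinj
    have h3 : Q * (R φ * R φ) = ρM φ * ρM φ * Q := by
      rw [← Matrix.mul_assoc, ← hQR, Matrix.mul_assoc, ← hQR, ← Matrix.mul_assoc]
    have h4 : Q * (χ (CuspForm.heckeAlgebra.T hℓ hℓN hℓS) • R φ)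
        = mp (actM (MvPolynomial.X a)) * ρM φ * Q := by
      rw [Matrix.mul_smul, Matrix.mul_assoc, hQR, hactQ, H31.evHecke_X]
    have h5 : Q * ((ℓ : 𝒪') • (1 : Matrix (Fin r) (Fin r) 𝒪'))
        = ((ℓ : ℕ) : Matrix (Fin (finrank ℤ_[p] T)) (Fin (finrank ℤ_[p] T)) 𝒪') * Q := by
      have h6 : ((ℓ : ℕ) : Matrix (Fin (finrank ℤ_[p] T)) (Fin (finrank ℤ_[p] T)) 𝒪')
          = (ℓ : 𝒪') • (1 : Matrix (Fin (finrank ℤ_[p] T)) (Fin (finrank ℤ_[p] T)) 𝒪') := by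
        rw [Nat.cast_smul_eq_nsmul, nsmul_one]
      rw [h6, Matrix.smul_mul, Matrix.one_mul, Matrix.mul_smul, Matrix.mul_one]
    rw [Matrix.mul_add, Matrix.mul_sub, h3, h4, h5, ← Matrix.sub_mul, ← Matrix.add_mul, h2,
      Matrix.zero_mul]
  · intro q hq hqN hqp A hA τ hτ
    have h1 : ρM τ = 1 := by
      rw [hρM, hunr q hq hqN hqp A hA τ hτ, map_one, map_one]
    have h2 : Q * (R τ - 1) = 0 := by
      rw [Matrix.mul_sub, ← hQR, h1, Matrix.one_mul, Matrix.mul_one, sub_self]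
    exact sub_eq_zero.mp (hQinj _ h2)

/-- From a Hecke-Galois lattice over `ℤ_p` with the faithfulness property of `H31Mod`. -/
theorem s30_of_faithful {N : ℕ} [NeZero N] {S : Finset ℕ}
    (hpS : p ∈ S) (hNS : ∀ q : ℕ, q.Prime → q ∣ N → q ∈ S)
    (𝒪' : Type) [CommRing 𝒪'] [IsDomain 𝒪'] [IsDiscreteValuationRing 𝒪']
    [IsAdicComplete (IsLocalRing.maximalIdeal 𝒪') 𝒪'] [Finite (IsLocalRing.ResidueField 𝒪')]
    [CharZero 𝒪'] (hp𝒪' : (p : 𝒪') ∈ IsLocalRing.maximalIdeal 𝒪')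
    (χ : CuspForm.heckeAlgebra N 2 (↑S : Set ℕ) →+* 𝒪')
    {T : Type*} [AddCommGroup T] [Module ℤ_[p] T] [Module.Free ℤ_[p] T] [Module.Finite ℤ_[p] T]
    (ρT : H53.GQ →* Module.End ℤ_[p] T)
    (hcont : ∀ n : ℕ, ∃ L : IntermediateField ℚ (AlgebraicClosure ℚ), FiniteDimensional ℚ L ∧
      ∀ σ : H53.GQ, (∀ x ∈ L, σ x = x) → ∀ x : T, ∃ y : T, ρT σ x - x = (p : ℤ_[p]) ^ n • y)
    (act : MvPolynomial (H31.GoodPrimes N (↑S : Set ℕ)) ℤ →+* Module.End ℤ_[p] T)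
    (hcomm : ∀ P σ, Commute (act P) (ρT σ))
    (hfrob : ∀ (a : H31.GoodPrimes N (↑S : Set ℕ)) (A : ValuationSubring (AlgebraicClosure ℚ)),
      A.LiesOverPrime (a.1 : ℕ) → ∀ φ : H53.GQ, A.IsFrobeniusAt φ (a.1 : ℕ) →
        ∀ x : T, ρT φ (ρT φ x) - act (MvPolynomial.X a) (ρT φ x) + (a.1 : ℕ) • x = 0)
    (hunr : ∀ q : ℕ, q.Prime → ¬ q ∣ N → q ≠ p → ∀ A : ValuationSubring (AlgebraicClosure ℚ),
      A.LiesOverPrime q → ∀ τ ∈ A.inertiaSubgroupIn ℚ, ρT τ = 1)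
    (hfaith : ∃ c u : ℕ, u ≠ 0 ∧
      ∀ (n : ℕ) (P : MvPolynomial (H31.GoodPrimes N (↑S : Set ℕ)) ℤ),
        (∀ x : T, ∃ y : T, act P x = (p : ℤ_[p]) ^ n • y) →
          ∃ y : CuspForm.heckeAlgebra N 2 (↑S : Set ℕ),
            (u : CuspForm.heckeAlgebra N 2 (↑S : Set ℕ)) * H31.evHecke N (↑S : Set ℕ) P =
              (p : CuspForm.heckeAlgebra N 2 (↑S : Set ℕ)) ^ (n - c) * y) :
    S30Conclusion p N S 𝒪' χ := by
  classical
  refine s30_of_relations hpS hNS 𝒪' hp𝒪' χ ρT hcont act hcomm hfrob hunr ?_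
  obtain ⟨c, u, hu, hfaith⟩ := hfaith
  intro U hU
  set ι := padicToAdic 𝒪' hp𝒪' with hι
  set z := ∑ i ∈ U, ι i.1 * χ (H31.evHecke N (↑S : Set ℕ) i.2) with hz
  have key : ∀ n : ℕ, (u : 𝒪') * z ∈ maximalIdeal 𝒪' ^ (n - c) := by
    intro n
    have happ : ∀ x : ℤ_[p], ∃ (k : ℕ) (d : ℤ_[p]), x = (k : ℤ_[p]) + (p : ℤ_[p]) ^ n * d := by
      intro x
      obtain ⟨d, hd⟩ := Ideal.mem_span_singleton.mp (PadicInt.appr_spec n x)
      exact ⟨x.appr n, d, by rw [← hd]; ring⟩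
    choose k d hkd using happ
    let P : MvPolynomial (H31.GoodPrimes N (↑S : Set ℕ)) ℤ := ∑ i ∈ U, (k i.1) • i.2
    have h1 : act P = - ((p : ℤ_[p]) ^ n • ∑ i ∈ U, d i.1 • act i.2) := by
      have h2 : act P = ∑ i ∈ U, (k i.1 : ℤ_[p]) • act i.2 := by
        simp only [P, map_sum, map_nsmul, Nat.cast_smul_eq_nsmul]
      rw [h2, eq_neg_iff_add_eq_zero, Finset.smul_sum, ← Finset.sum_add_distrib, ← hU]
      refine Finset.sum_congr rfl fun i _ => ?_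
      conv_rhs => rw [hkd i.1]
      rw [add_smul, mul_smul]
    obtain ⟨y, hy⟩ := hfaith n P (fun x => ⟨- (∑ i ∈ U, d i.1 • act i.2) x, by
      rw [h1, LinearMap.neg_apply, LinearMap.smul_apply, smul_neg]⟩)
    have h3 := congrArg χ hy
    rw [map_mul, map_mul, map_pow, map_natCast, map_natCast] at h3
    have h4 : z = χ (H31.evHecke N (↑S : Set ℕ) P)
        + (p : 𝒪') ^ n * ∑ i ∈ U, ι (d i.1) * χ (H31.evHecke N (↑S : Set ℕ) i.2) := by
      have h5 : χ (H31.evHecke N (↑S : Set ℕ) P)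
          = ∑ i ∈ U, (k i.1 : 𝒪') * χ (H31.evHecke N (↑S : Set ℕ) i.2) := by
        simp only [P, map_sum, nsmul_eq_mul, map_mul, map_natCast]
      rw [h5, Finset.mul_sum, ← Finset.sum_add_distrib, hz]
      refine Finset.sum_congr rfl fun i _ => ?_
      conv_lhs => rw [hkd i.1]
      rw [map_add, map_mul, map_pow, map_natCast, map_natCast]
      ring
    rw [h4, mul_add, h3]
    refine Ideal.add_mem _ (Ideal.mul_mem_right _ _ (Ideal.pow_mem_pow hp𝒪' _)) ?_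
    refine Ideal.mul_mem_left _ _ (Ideal.mul_mem_right _ _ ?_)
    exact Ideal.pow_le_pow_right (Nat.sub_le n c) (Ideal.pow_mem_pow hp𝒪' n)
  have h0 : (u : 𝒪') * z = 0 := by
    refine IsHausdorff.haus (I := maximalIdeal 𝒪') inferInstance _ fun n => ?_
    rw [SModEq.zero, smul_eq_mul, Ideal.mul_top]
    have := key (n + c)
    rwa [Nat.add_sub_cancel] at this
  rcases mul_eq_zero.mp h0 with h | h
  · exact absurd (by exact_mod_cast h) hu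
  · exact h

end Main

end Fermat.Agent.H35
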