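import Fermat.Agent.H30Mid
import Fermat.Agent.H35S30
import Fermat.Agent.H31Wire
import Fermat.Agent.H32BLR
import Fermat.Agent.H32Compare

/-!
# Realisation of a Hecke Galois representation inside the Tate module
-/

set_option autoImplicit false
set_option maxSynthPendingDepth 3

noncomputable section

open scoped TensorProduct

namespace Fermat.Agent.H32

open IsLocalRing CuspForm ModularCurve

section Eigen

variable {p : ℕ} [Fact p.Prime] {N : ℕ} [NeZero N] {S : Finset ℕ}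
  {A : Type} [CommRing A] [IsLocalRing A] [IsNoetherianRing A] [Algebra ℤ_[p] A]
  {TJ : Type*} [AddCommGroup TJ] [Module ℤ_[p] TJ] [Module.Finite ℤ_[p] TJ]

/-- The Galois action on `A ⊗ T_p J`. -/
def galA (A : Type) [CommRing A] [Algebra ℤ_[p] A]
    (ρT : H31.GQ →* Module.End ℤ_[p] TJ) : H31.GQ →* Module.End A (A ⊗[ℤ_[p]] TJ) where
  toFun g := (ρT g).baseChange A
  map_one' := by rw [map_one, LinearMap.baseChange_one]
  map_mul' g h := by rw [map_mul, LinearMap.baseChange_mul]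

omit [IsNoetherianRing A] [Module.Finite ℤ_[p] TJ] in
theorem baseChange_sub_mem (hpA : (p : A) ∈ maximalIdeal A) (n : ℕ) (f g : Module.End ℤ_[p] TJ)
    (h : ∀ x : TJ, ∃ y : TJ, f x - g x = (p : ℤ_[p]) ^ n • y) (w : A ⊗[ℤ_[p]] TJ) :
    f.baseChange A w - g.baseChange A w ∈
      (maximalIdeal A ^ n • ⊤ : Submodule A (A ⊗[ℤ_[p]] TJ)) := by
  induction w using TensorProduct.induction_on with
  | zero => rw [map_zero, map_zero, sub_zero]; exact Submodule.zero_mem _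
  | add x y hx hy =>
    rw [map_add, map_add, add_sub_add_comm]
    exact Submodule.add_mem _ hx hy
  | tmul a x =>
    obtain ⟨y, hy⟩ := h x
    rw [LinearMap.baseChange_tmul, LinearMap.baseChange_tmul, ← TensorProduct.tmul_sub, hy,
      TensorProduct.tmul_smul, TensorProduct.smul_tmul']
    have h1 : ((p : ℤ_[p]) ^ n • a) = (p : A) ^ n * a := by
      rw [Algebra.smul_def, map_pow, map_natCast]
    rw [h1, ← smul_eq_mul, ← TensorProduct.smul_tmul']
    exact Submodule.smul_mem_smul (Ideal.pow_mem_pow hpA n) Submodule.mem_top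

/-- The eigenspace. -/
def eigenA (act : MvPolynomial (H31.GoodPrimes N (↑S : Set ℕ)) ℤ →+* Module.End ℤ_[p] TJ)
    (χ : heckeAlgebra N 2 (↑S : Set ℕ) →+* A) : Submodule A (A ⊗[ℤ_[p]] TJ) where
  carrier := {w | ∀ P, (act P).baseChange A w = χ (H31.evHecke N (↑S : Set ℕ) P) • w}
  add_mem' := fun {x y} hx hy P => by rw [map_add, hx P, hy P, smul_add]
  zero_mem' := fun P => by rw [map_zero, smul_zero]
  smul_mem' := fun c x hx P => by rw [map_smul, hx P, smul_comm]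

omit [IsLocalRing A] [IsNoetherianRing A] [Module.Finite ℤ_[p] TJ] in
theorem mem_eigenA (act : MvPolynomial (H31.GoodPrimes N (↑S : Set ℕ)) ℤ →+* Module.End ℤ_[p] TJ)
    (χ : heckeAlgebra N 2 (↑S : Set ℕ) →+* A) (w : A ⊗[ℤ_[p]] TJ) :
    w ∈ eigenA act χ ↔ ∀ P, (act P).baseChange A w = χ (H31.evHecke N (↑S : Set ℕ) P) • w :=
  Iff.rfl

omit [IsLocalRing A] [IsNoetherianRing A] [Module.Finite ℤ_[p] TJ] in
theorem galA_mem_eigenA (ρT : H31.GQ →* Module.End ℤ_[p] TJ)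
    (act : MvPolynomial (H31.GoodPrimes N (↑S : Set ℕ)) ℤ →+* Module.End ℤ_[p] TJ)
    (hcomm : ∀ P σ, Commute (act P) (ρT σ)) (χ : heckeAlgebra N 2 (↑S : Set ℕ) →+* A) (g : H31.GQ)
    (w : A ⊗[ℤ_[p]] TJ) (hw : w ∈ eigenA act χ) : galA A ρT g w ∈ eigenA act χ := by
  rw [mem_eigenA] at hw ⊢
  intro P
  have h1 : (act P).baseChange A (galA A ρT g w) = galA A ρT g ((act P).baseChange A w) := by
    change ((act P).baseChange A * (ρT g).baseChange A) w = ((ρT g).baseChange A * (act P).baseChange A) w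
    rw [← LinearMap.baseChange_mul, ← LinearMap.baseChange_mul, (hcomm P g).eq]
  rw [h1, hw P, map_smul]

/-- The Galois action on the eigenspace. -/
def galEigen (ρT : H31.GQ →* Module.End ℤ_[p] TJ)
    (act : MvPolynomial (H31.GoodPrimes N (↑S : Set ℕ)) ℤ →+* Module.End ℤ_[p] TJ)
    (hcomm : ∀ P σ, Commute (act P) (ρT σ)) (χ : heckeAlgebra N 2 (↑S : Set ℕ) →+* A) :
    H31.GQ →* Module.End A (eigenA act χ) where
  toFun g := (galA A ρT g).restrict (fun w hw => galA_mem_eigenA ρT act hcomm χ g w hw)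
  map_one' := LinearMap.ext fun w => Subtype.ext (by
    rw [LinearMap.coe_restrict_apply, map_one]; rfl)
  map_mul' g h := LinearMap.ext fun w => Subtype.ext (by
    rw [LinearMap.coe_restrict_apply, map_mul]; rfl)

omit [IsLocalRing A] [IsNoetherianRing A] [Module.Finite ℤ_[p] TJ] in
theorem coe_galEigen (ρT : H31.GQ →* Module.End ℤ_[p] TJ)
    (act : MvPolynomial (H31.GoodPrimes N (↑S : Set ℕ)) ℤ →+* Module.End ℤ_[p] TJ)
    (hcomm : ∀ P σ, Commute (act P) (ρT σ)) (χ : heckeAlgebra N 2 (↑S : Set ℕ) →+* A) (g : H31.GQ)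
    (w : eigenA act χ) :
    ((galEigen ρT act hcomm χ g w : eigenA act χ) : A ⊗[ℤ_[p]] TJ) = galA A ρT g w := rfl

variable (ρT : H31.GQ →* Module.End ℤ_[p] TJ)
    (hcont : ∀ n : ℕ, ∃ L : IntermediateField ℚ (AlgebraicClosure ℚ), FiniteDimensional ℚ L ∧
      ∀ σ : H31.GQ, (∀ x ∈ L, σ x = x) → ∀ x : TJ, ∃ y : TJ, ρT σ x - x = (p : ℤ_[p]) ^ n • y)
    (act : MvPolynomial (H31.GoodPrimes N (↑S : Set ℕ)) ℤ →+* Module.End ℤ_[p] TJ)
    (hcomm : ∀ P σ, Commute (act P) (ρT σ))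
    (hfrob : ∀ (a : H31.GoodPrimes N (↑S : Set ℕ)) (A : ValuationSubring (AlgebraicClosure ℚ)),
      A.LiesOverPrime (a.1 : ℕ) → ∀ φ : H31.GQ, A.IsFrobeniusAt φ (a.1 : ℕ) →
        ∀ x : TJ, ρT φ (ρT φ x) - act (MvPolynomial.X a) (ρT φ x) + (a.1 : ℕ) • x = 0)

include hcont hcomm hfrob in
/-- the quadratic relation on the eigenspace. -/
theorem quadratic_eigenA (hNS : ∀ q : ℕ, q.Prime → q ∣ N → q ∈ S)
    (hpA : (p : A) ∈ maximalIdeal A) (χ : heckeAlgebra N 2 (↑S : Set ℕ) →+* A)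
    (ρ : GaloisRepAdic A)
    (hchar : ∀ (ℓ : ℕ) (hℓ : ℓ.Prime) (hℓN : ¬ ℓ ∣ N) (hℓS : ℓ ∉ (↑S : Set ℕ)),
      ∀ B : ValuationSubring (AlgebraicClosure ℚ), B.LiesOverPrime ℓ →
      ∀ σ : H31.GQ, B.IsFrobeniusAt σ ℓ →
        LinearMap.charpoly (ρ.ρ σ) = Polynomial.X ^ 2 -
          Polynomial.C (χ (heckeAlgebra.T hℓ hℓN hℓS)) * Polynomial.X + Polynomial.C ((ℓ : A)))
    (g : H31.GQ) (w : A ⊗[ℤ_[p]] TJ) (hw : w ∈ eigenA act χ) :
    galA A ρT g (galA A ρT g w) - LinearMap.trace A ρ.V (ρ.ρ g) • galA A ρT g w +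
      LinearMap.det (ρ.ρ g) • w = 0 := by
  set x := galA A ρT g (galA A ρT g w) - LinearMap.trace A ρ.V (ρ.ρ g) • galA A ρT g w +
      LinearMap.det (ρ.ρ g) • w with hx
  suffices h : x ∈ (⨅ n : ℕ, maximalIdeal A ^ n • ⊤ : Submodule A (A ⊗[ℤ_[p]] TJ)) by
    rw [Ideal.iInf_pow_smul_eq_bot_of_isLocalRing (maximalIdeal A)
      (IsLocalRing.maximalIdeal.isMaximal A).ne_top, Submodule.mem_bot] at h
    exact h
  rw [Submodule.mem_iInf]
  intro n
  obtain ⟨L₁, hL₁, hL₁'⟩ := hcont n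
  obtain ⟨L₂, hL₂, hL₂'⟩ := ρ.isAdicContinuous n
  obtain ⟨ℓ, hℓ, hℓS, B, hB, φ, hφ, j, hj⟩ :=
    H31.weakFrobeniusDensity (L₁ ⊔ L₂) inferInstance S g
  have hℓN : ¬ ℓ ∣ N := fun h => hℓS (hNS ℓ hℓ h)
  have hℓS' : ℓ ∉ (↑S : Set ℕ) := by simpa using hℓS
  let ℓ₁ : H31.GoodPrimes N (↑S : Set ℕ) := ⟨⟨ℓ, hℓ⟩, hℓN, hℓS'⟩
  set D : Submodule A (A ⊗[ℤ_[p]] TJ) := maximalIdeal A ^ n • ⊤ with hD
  have hDstab : ∀ (f : Module.End A (A ⊗[ℤ_[p]] TJ)), ∀ y ∈ D, f y ∈ D := by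
    intro f y hy
    have h4 : D.map f ≤ D := by
      rw [hD, Submodule.map_smul'']
      exact Submodule.smul_mono le_rfl le_top
    exact h4 (Submodule.mem_map_of_mem hy)
  have hIsmul : ∀ a ∈ maximalIdeal A ^ n, ∀ y, a • y ∈ D := fun a ha y =>
    Submodule.smul_mem_smul ha Submodule.mem_top
  -- `g` versus `φ ^ j`
  have h1 : ∀ y, galA A ρT g y - galA A ρT (φ ^ j) y ∈ D := by
    intro y
    refine baseChange_sub_mem hpA n _ _ ?_ y
    intro z
    obtain ⟨u, hu⟩ := hL₁' ((φ ^ j)⁻¹ * g) (by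
      intro a ha
      rw [AlgEquiv.mul_apply, hj a ((le_sup_left : L₁ ≤ L₁ ⊔ L₂) ha)]
      exact (φ ^ j).symm_apply_apply a) z
    refine ⟨ρT (φ ^ j) u, ?_⟩
    rw [← map_smul, ← hu, map_sub, ← Module.End.mul_apply, ← map_mul, mul_inv_cancel_left]
  have htr := H31.trace_sub_mem_of_agree ρ n L₂ hL₂' (φ ^ j) g
    (fun a ha => (hj a ((le_sup_right : L₂ ≤ L₁ ⊔ L₂) ha)).symm)
  let b := Module.finBasisOfFinrankEq A ρ.V ρ.finrank_eq
  have hdet := det_sub_mem b (maximalIdeal A ^ n) (ρ.ρ (φ ^ j)) (ρ.ρ g)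
    (fun v => H31.sub_mem_of_agree ρ n L₂ hL₂' (φ ^ j) g
      (fun a ha => (hj a ((le_sup_right : L₂ ≤ L₁ ⊔ L₂) ha)).symm) v)
  have htr2 : LinearMap.trace A ρ.V (ρ.ρ (φ ^ j)) =
      H31.luc (χ (heckeAlgebra.T hℓ hℓN hℓS')) (ℓ : A) j := by
    rw [map_pow, H31.trace_pow_of_charpoly ρ.finrank_eq (ρ.ρ φ) _ _
      (hchar ℓ hℓ hℓN hℓS' B hB φ hφ) j]
  have hdet2 : LinearMap.det (ρ.ρ (φ ^ j)) = (ℓ : A) ^ j := by
    rw [map_pow, map_pow, H31.det_eq_of_charpoly ρ.finrank_eq (ρ.ρ φ) _ _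
      (hchar ℓ hℓ hℓN hℓS' B hB φ hφ)]
  -- exact relation for `φ ^ j`
  have hq : galA A ρT (φ ^ j) (galA A ρT (φ ^ j) w) -
      LinearMap.trace A ρ.V (ρ.ρ (φ ^ j)) • galA A ρT (φ ^ j) w +
      LinearMap.det (ρ.ρ (φ ^ j)) • w = 0 := by
    have h2 : galEigen ρT act hcomm χ φ * galEigen ρT act hcomm χ φ -
        algebraMap A (Module.End A (eigenA act χ)) (χ (heckeAlgebra.T hℓ hℓN hℓS')) *
          galEigen ρT act hcomm χ φ +
        algebraMap A (Module.End A (eigenA act χ)) (ℓ : A) = 0 := by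
      refine LinearMap.ext fun y => Subtype.ext ?_
      have h3 : ρT φ * ρT φ - act (MvPolynomial.X ℓ₁) * ρT φ +
          (ℓ : ℤ_[p]) • (1 : Module.End ℤ_[p] TJ) = 0 := by
        refine LinearMap.ext fun y => ?_
        have h3 := hfrob ℓ₁ B hB φ hφ y
        simp only [LinearMap.add_apply, LinearMap.sub_apply, Module.End.mul_apply,
          LinearMap.smul_apply, Module.End.one_apply, LinearMap.zero_apply, Nat.cast_smul_eq_nsmul]
        exact h3
      have h4 := congrArg (fun f => LinearMap.baseChange A f (y : A ⊗[ℤ_[p]] TJ)) h3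
      simp only [LinearMap.baseChange_add, LinearMap.baseChange_sub, LinearMap.baseChange_mul,
        LinearMap.baseChange_smul, LinearMap.baseChange_one, LinearMap.baseChange_zero,
        LinearMap.add_apply, LinearMap.sub_apply, Module.End.mul_apply,
        LinearMap.smul_apply, Module.End.one_apply, LinearMap.zero_apply] at h4
      have h5 := galA_mem_eigenA ρT act hcomm χ φ y y.2
      rw [mem_eigenA] at h5
      have h6 := h5 (MvPolynomial.X ℓ₁)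
      rw [H31.evHecke_X] at h6
      have h7 : (act (MvPolynomial.X ℓ₁)).baseChange A ((ρT φ).baseChange A (y : A ⊗[ℤ_[p]] TJ)) =
        χ (heckeAlgebra.T hℓ hℓN hℓS') • (ρT φ).baseChange A (y : A ⊗[ℤ_[p]] TJ) := h6
      rw [h7] at h4
      have h8 : ((ℓ : ℤ_[p]) • (y : A ⊗[ℤ_[p]] TJ)) = (ℓ : A) • (y : A ⊗[ℤ_[p]] TJ) := by
        rw [Nat.cast_smul_eq_nsmul, Nat.cast_smul_eq_nsmul]
      rw [h8] at h4
      exact h4
    have h3 := H31.quadratic_pow _ _ _ h2 j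
    rw [← map_pow] at h3
    have h4 := congrArg Subtype.val (LinearMap.congr_fun h3 ⟨w, hw⟩)
    rw [hdet2, htr2]
    exact h4
  have h3 : x = (galA A ρT g (galA A ρT g w - galA A ρT (φ ^ j) w) +
      (galA A ρT g (galA A ρT (φ ^ j) w) - galA A ρT (φ ^ j) (galA A ρT (φ ^ j) w))) -
      (LinearMap.trace A ρ.V (ρ.ρ g) • (galA A ρT g w - galA A ρT (φ ^ j) w) -
        (LinearMap.trace A ρ.V (ρ.ρ (φ ^ j)) - LinearMap.trace A ρ.V (ρ.ρ g)) •
          galA A ρT (φ ^ j) w) -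
      (LinearMap.det (ρ.ρ (φ ^ j)) - LinearMap.det (ρ.ρ g)) • w := by
    rw [hx, ← sub_zero (galA A ρT g (galA A ρT g w) - _ + _), ← hq, map_sub]
    module
  rw [h3]
  refine D.sub_mem (D.sub_mem (D.add_mem (hDstab _ _ (h1 w)) (h1 _)) (D.sub_mem
    (D.smul_mem _ (h1 w)) (hIsmul _ htr _))) (hIsmul _ hdet _)

include hcont hfrob in
theorem quadratic_galEigen (hNS : ∀ q : ℕ, q.Prime → q ∣ N → q ∈ S)
    (hpA : (p : A) ∈ maximalIdeal A) (χ : heckeAlgebra N 2 (↑S : Set ℕ) →+* A)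
    (ρ : GaloisRepAdic A)
    (hchar : ∀ (ℓ : ℕ) (hℓ : ℓ.Prime) (hℓN : ¬ ℓ ∣ N) (hℓS : ℓ ∉ (↑S : Set ℕ)),
      ∀ B : ValuationSubring (AlgebraicClosure ℚ), B.LiesOverPrime ℓ →
      ∀ σ : H31.GQ, B.IsFrobeniusAt σ ℓ →
        LinearMap.charpoly (ρ.ρ σ) = Polynomial.X ^ 2 -
          Polynomial.C (χ (heckeAlgebra.T hℓ hℓN hℓS)) * Polynomial.X + Polynomial.C ((ℓ : A))) :
    Quadratic ρ.ρ (galEigen ρT act hcomm χ) := by
  intro g
  refine LinearMap.ext fun w => Subtype.ext ?_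
  exact quadratic_eigenA ρT hcont act hcomm hfrob hNS hpA χ ρ hchar g w w.2

end Eigen

section Nonzero

variable {p : ℕ} [Fact p.Prime] {N : ℕ} [NeZero N] {S : Finset ℕ}
  {A : Type} [CommRing A] [IsLocalRing A] [IsNoetherianRing A] [IsDomain A] [CharZero A]
  [Algebra ℤ_[p] A]
  {TJ : Type*} [AddCommGroup TJ] [Module ℤ_[p] TJ] [Module.Finite ℤ_[p] TJ]
  [Module.Free ℤ_[p] TJ]

omit [IsNoetherianRing A] [IsLocalRing A] in
theorem algebraMap_padic_injective :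
    Function.Injective (algebraMap ℤ_[p] A) := by
  rw [injective_iff_map_eq_zero]
  intro x hx
  by_contra hne
  have h1 := PadicInt.unitCoeff_spec hne
  rw [h1, map_mul, map_pow, map_natCast] at hx
  have h2 : IsUnit (algebraMap ℤ_[p] A (PadicInt.unitCoeff hne : ℤ_[p])) :=
    (PadicInt.unitCoeff hne).isUnit.map _
  have h3 : (p : A) ^ x.valuation = 0 := by
    rcases mul_eq_zero.mp hx with h | h
    · exact absurd h h2.ne_zero
    · exact h
  have h4 : (p : A) = 0 := eq_zero_of_pow_eq_zero h3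
  exact (Fact.out : p.Prime).ne_zero (by exact_mod_cast h4)

omit [Module.Finite ℤ_[p] TJ] [Module.Free ℤ_[p] TJ] in
/-- Relations between Hecke operators on the Tate module hold for characters. -/
theorem relations_of_faithful (hpA : (p : A) ∈ maximalIdeal A)
    (act : MvPolynomial (H31.GoodPrimes N (↑S : Set ℕ)) ℤ →+* Module.End ℤ_[p] TJ)
    (χ : heckeAlgebra N 2 (↑S : Set ℕ) →+* A)
    (hfaith : ∃ c u : ℕ, u ≠ 0 ∧
      ∀ (n : ℕ) (P : MvPolynomial (H31.GoodPrimes N (↑S : Set ℕ)) ℤ),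
        (∀ x : TJ, ∃ y : TJ, act P x = (p : ℤ_[p]) ^ n • y) →
          ∃ y : CuspForm.heckeAlgebra N 2 (↑S : Set ℕ),
            (u : CuspForm.heckeAlgebra N 2 (↑S : Set ℕ)) * H31.evHecke N (↑S : Set ℕ) P =
              (p : CuspForm.heckeAlgebra N 2 (↑S : Set ℕ)) ^ (n - c) * y)
    (U : Finset (ℤ_[p] × MvPolynomial (H31.GoodPrimes N (↑S : Set ℕ)) ℤ))
    (hU : ∑ i ∈ U, i.1 • act i.2 = 0) :
    ∑ i ∈ U, algebraMap ℤ_[p] A i.1 * χ (H31.evHecke N (↑S : Set ℕ) i.2) = 0 := by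
  classical
  obtain ⟨c, u, hu, hfaith⟩ := hfaith
  set ι := algebraMap ℤ_[p] A with hι
  set z := ∑ i ∈ U, ι i.1 * χ (H31.evHecke N (↑S : Set ℕ) i.2) with hz
  have key : ∀ n : ℕ, (u : A) * z ∈ maximalIdeal A ^ (n - c) := by
    intro n
    have happ : ∀ x : ℤ_[p], ∃ (k : ℕ) (d : ℤ_[p]), x = (k : ℤ_[p]) + (p : ℤ_[p]) ^ n * d := by
      intro x
      obtain ⟨d, hd⟩ := Ideal.mem_span_singleton.mp (PadicInt.appr_spec n x)
      exact ⟨x.appr n, d, by rw [← hd]; ring⟩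
    choose k d hkd using happ
    let P : MvPolynomial (H31.GoodPrimes N (↑S : Set ℕ)) ℤ := ∑ i ∈ U, (k i.1) • i.2
    have h1 : act P = - ((p : ℤ_[p]) ^ n • ∑ i ∈ U, d i.1 • act i.2) := by
      have h2 : act P = ∑ i ∈ U, (k i.1 : ℤ_[p]) • act i.2 := by
        simp only [P, map_sum, map_nsmul, Nat.cast_smul_eq_nsmul]
      rw [h2, eq_neg_iff_add_eq_zero, Finset.smul_sum, ← Finset.sum_add_distrib, ← hU]
      refine Finset.sum_congr rfl fun i _ => ?_
      conv_rhs => rw [hkd i.1]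
      rw [add_smul, mul_smul]
    obtain ⟨y, hy⟩ := hfaith n P (fun x => ⟨- (∑ i ∈ U, d i.1 • act i.2) x, by
      rw [h1, LinearMap.neg_apply, LinearMap.smul_apply, smul_neg]⟩)
    have h3 := congrArg χ hy
    rw [map_mul, map_mul, map_pow, map_natCast, map_natCast] at h3
    have h4 : z = χ (H31.evHecke N (↑S : Set ℕ) P)
        + (p : A) ^ n * ∑ i ∈ U, ι (d i.1) * χ (H31.evHecke N (↑S : Set ℕ) i.2) := by
      have h5 : χ (H31.evHecke N (↑S : Set ℕ) P)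
          = ∑ i ∈ U, (k i.1 : A) * χ (H31.evHecke N (↑S : Set ℕ) i.2) := by
        simp only [P, map_sum, nsmul_eq_mul, map_mul, map_natCast]
      rw [h5, Finset.mul_sum, ← Finset.sum_add_distrib, hz]
      refine Finset.sum_congr rfl fun i _ => ?_
      conv_lhs => rw [hkd i.1]
      rw [map_add, map_mul, map_pow, map_natCast, map_natCast]
      ring
    rw [h4, mul_add, h3]
    refine Ideal.add_mem _ (Ideal.mul_mem_right _ _ (Ideal.pow_mem_pow hpA _)) ?_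
    refine Ideal.mul_mem_left _ _ (Ideal.mul_mem_right _ _ ?_)
    exact Ideal.pow_le_pow_right (Nat.sub_le n c) (Ideal.pow_mem_pow hpA n)
  have h0 : (u : A) * z = 0 := by
    have h1 : (u : A) * z ∈ (⨅ n : ℕ, maximalIdeal A ^ n : Ideal A) := by
      rw [Submodule.mem_iInf]
      intro n
      have := key (n + c)
      rwa [Nat.add_sub_cancel] at this
    rw [Ideal.iInf_pow_eq_bot_of_isLocalRing _
      (IsLocalRing.maximalIdeal.isMaximal A).ne_top] at h1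
    exact h1
  rcases mul_eq_zero.mp h0 with h | h
  · exact absurd (by exact_mod_cast h) hu
  · exact h

/-- The eigenspace is nonzero. -/
theorem exists_eigen_ne_zero (hpA : (p : A) ∈ maximalIdeal A)
    (act : MvPolynomial (H31.GoodPrimes N (↑S : Set ℕ)) ℤ →+* Module.End ℤ_[p] TJ)
    (χ : heckeAlgebra N 2 (↑S : Set ℕ) →+* A)
    (hfaith : ∃ c u : ℕ, u ≠ 0 ∧
      ∀ (n : ℕ) (P : MvPolynomial (H31.GoodPrimes N (↑S : Set ℕ)) ℤ),
        (∀ x : TJ, ∃ y : TJ, act P x = (p : ℤ_[p]) ^ n • y) →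
          ∃ y : CuspForm.heckeAlgebra N 2 (↑S : Set ℕ),
            (u : CuspForm.heckeAlgebra N 2 (↑S : Set ℕ)) * H31.evHecke N (↑S : Set ℕ) P =
              (p : CuspForm.heckeAlgebra N 2 (↑S : Set ℕ)) ^ (n - c) * y) :
    ∃ w : A ⊗[ℤ_[p]] TJ, w ∈ eigenA act χ ∧ w ≠ 0 := by
  classical
  let b := Module.finBasis ℤ_[p] TJ
  let tm := LinearMap.toMatrixAlgEquiv b
  let actM : MvPolynomial (H31.GoodPrimes N (↑S : Set ℕ)) ℤ →+*
      Matrix (Fin (Module.finrank ℤ_[p] TJ)) (Fin (Module.finrank ℤ_[p] TJ)) ℤ_[p] :=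
    (tm : Module.End ℤ_[p] TJ →+* _).comp act
  obtain ⟨v, hv0, hv⟩ := H35.exists_eigenvector_matrix algebraMap_padic_injective actM
    (χ.comp (H31.evHecke N (↑S : Set ℕ))) (by
      intro U hU
      refine relations_of_faithful hpA act χ hfaith U ?_
      apply tm.injective
      rw [map_sum, map_zero, ← hU]
      refine Finset.sum_congr rfl fun i _ => ?_
      rw [map_smul]
      rfl)
  let bA := Algebra.TensorProduct.basis A b
  refine ⟨bA.equivFun.symm v, ?_, ?_⟩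
  · rw [mem_eigenA]
    intro P
    have h1 := hv P
    apply bA.equivFun.injective
    rw [map_smul, LinearEquiv.apply_symm_apply]
    have h2 : bA.equivFun ((act P).baseChange A (bA.equivFun.symm v)) =
        (LinearMap.toMatrix bA bA ((act P).baseChange A)).mulVec v := by
      have := LinearMap.toMatrix_mulVec_repr bA bA ((act P).baseChange A) (bA.equivFun.symm v)
      rw [Module.Basis.equivFun_apply, ← this]
      congr 1
      rw [← Module.Basis.equivFun_apply, LinearEquiv.apply_symm_apply]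
    rw [h2, LinearMap.toMatrix_baseChange]
    exact h1
  · intro h
    apply hv0
    have := congrArg bA.equivFun h
    rwa [LinearEquiv.apply_symm_apply, map_zero] at this

end Nonzero

section Domain

variable {p : ℕ} [Fact p.Prime] {N : ℕ} [NeZero N] {S : Finset ℕ}
  {A : Type} [CommRing A] [IsLocalRing A] [IsNoetherianRing A] [IsDomain A] [CharZero A]
  [Algebra ℤ_[p] A]
  {TJ : Type*} [AddCommGroup TJ] [Module ℤ_[p] TJ] [Module.Finite ℤ_[p] TJ]
  [Module.Free ℤ_[p] TJ]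

/-- Realisation over a domain. -/
theorem exists_realization_domain (ρT : H31.GQ →* Module.End ℤ_[p] TJ)
    (hcont : ∀ n : ℕ, ∃ L : IntermediateField ℚ (AlgebraicClosure ℚ), FiniteDimensional ℚ L ∧
      ∀ σ : H31.GQ, (∀ x ∈ L, σ x = x) → ∀ x : TJ, ∃ y : TJ, ρT σ x - x = (p : ℤ_[p]) ^ n • y)
    (act : MvPolynomial (H31.GoodPrimes N (↑S : Set ℕ)) ℤ →+* Module.End ℤ_[p] TJ)
    (hcomm : ∀ P σ, Commute (act P) (ρT σ))
    (hfrob : ∀ (a : H31.GoodPrimes N (↑S : Set ℕ)) (A : ValuationSubring (AlgebraicClosure ℚ)),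
      A.LiesOverPrime (a.1 : ℕ) → ∀ φ : H31.GQ, A.IsFrobeniusAt φ (a.1 : ℕ) →
        ∀ x : TJ, ρT φ (ρT φ x) - act (MvPolynomial.X a) (ρT φ x) + (a.1 : ℕ) • x = 0)
    (hfaith : ∃ c u : ℕ, u ≠ 0 ∧
      ∀ (n : ℕ) (P : MvPolynomial (H31.GoodPrimes N (↑S : Set ℕ)) ℤ),
        (∀ x : TJ, ∃ y : TJ, act P x = (p : ℤ_[p]) ^ n • y) →
          ∃ y : CuspForm.heckeAlgebra N 2 (↑S : Set ℕ),
            (u : CuspForm.heckeAlgebra N 2 (↑S : Set ℕ)) * H31.evHecke N (↑S : Set ℕ) P =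
              (p : CuspForm.heckeAlgebra N 2 (↑S : Set ℕ)) ^ (n - c) * y)
    (hNS : ∀ q : ℕ, q.Prime → q ∣ N → q ∈ S)
    (hpA : (p : A) ∈ maximalIdeal A) (χ : heckeAlgebra N 2 (↑S : Set ℕ) →+* A)
    (ρ : GaloisRepAdic A)
    (hchar : ∀ (ℓ : ℕ) (hℓ : ℓ.Prime) (hℓN : ¬ ℓ ∣ N) (hℓS : ℓ ∉ (↑S : Set ℕ)),
      ∀ B : ValuationSubring (AlgebraicClosure ℚ), B.LiesOverPrime ℓ →
      ∀ σ : H31.GQ, B.IsFrobeniusAt σ ℓ →
        LinearMap.charpoly (ρ.ρ σ) = Polynomial.X ^ 2 -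
          Polynomial.C (χ (heckeAlgebra.T hℓ hℓN hℓS)) * Polynomial.X + Polynomial.C ((ℓ : A)))
    (hspan : Submodule.span A (Set.range ρ.ρ) = ⊤) :
    ∃ F : ρ.V →ₗ[A] A ⊗[ℤ_[p]] TJ, Function.Injective F ∧
      (∀ g v, F (ρ.ρ g v) = galA A ρT g (F v)) ∧ ∀ v, F v ∈ eigenA act χ := by
  have hQ := quadratic_galEigen ρT hcont act hcomm hfrob hNS hpA χ ρ hchar
  let b := Module.finBasisOfFinrankEq A ρ.V ρ.finrank_eq
  obtain ⟨M₀, e, he, -⟩ := exists_equiv_tensor_of_quadratic ρ.ρ (galEigen ρT act hcomm χ) b hspan hQ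
  obtain ⟨w, hw, hw0⟩ := exists_eigen_ne_zero hpA act χ hfaith
  have hM₀ : ∃ m : M₀, m ≠ 0 := by
    by_contra hcon
    push Not at hcon
    have h1 : ∀ x : ρ.V ⊗[A] M₀, x = 0 := by
      intro x
      induction x using TensorProduct.induction_on with
      | zero => rfl
      | tmul v m => rw [hcon m, TensorProduct.tmul_zero]
      | add x y hx hy => rw [hx, hy, add_zero]
    have h2 : (⟨w, hw⟩ : eigenA act χ) = 0 := by
      rw [← e.apply_symm_apply ⟨w, hw⟩, h1 (e.symm ⟨w, hw⟩), map_zero]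
    exact hw0 (congrArg Subtype.val h2)
  obtain ⟨m, hm⟩ := hM₀
  have hinj : ∀ a : A, a • m = 0 → a = 0 := by
    intro a ha
    by_contra ha0
    apply hm
    have hfree : Module.Free A (A ⊗[ℤ_[p]] TJ) := inferInstance
    have h1 : a • (((m : eigenA act χ) : A ⊗[ℤ_[p]] TJ)) = 0 := by
      have := congrArg (fun z : M₀ => ((z : eigenA act χ) : A ⊗[ℤ_[p]] TJ)) ha
      exact this
    have h2 : ((m : eigenA act χ) : A ⊗[ℤ_[p]] TJ) = 0 := (smul_eq_zero.mp h1).resolve_left ha0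
    exact Subtype.ext (Subtype.ext h2)
  let F : ρ.V →ₗ[A] A ⊗[ℤ_[p]] TJ :=
    (eigenA act χ).subtype ∘ₗ e.toLinearMap ∘ₗ ((TensorProduct.mk A ρ.V M₀).flip m)
  have hF : ∀ v, F v = ((e (v ⊗ₜ[A] m) : eigenA act χ) : A ⊗[ℤ_[p]] TJ) := fun v => rfl
  refine ⟨F, ?_, ?_, ?_⟩
  · rw [injective_iff_map_eq_zero]
    intro v hv
    rw [hF] at hv
    have h1 : v ⊗ₜ[A] m = 0 := by
      apply e.injective
      rw [map_zero]
      exact Subtype.ext hv
    apply b.ext_elem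
    intro i
    have h2 := congrArg ((TensorProduct.lid A M₀).toLinearMap ∘ₗ
      (LinearMap.rTensor M₀ (b.coord i))) h1
    simp only [LinearMap.comp_apply, LinearMap.rTensor_tmul, map_zero, LinearEquiv.coe_coe,
      TensorProduct.lid_tmul] at h2
    rw [map_zero, Finsupp.zero_apply]
    exact hinj _ h2
  · intro g v
    rw [hF, hF]
    have h1 := he g (v ⊗ₜ[A] m)
    rw [LinearMap.rTensor_tmul] at h1
    rw [h1]
    rfl
  · intro v
    exact (e (v ⊗ₜ[A] m)).2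

end Domain

end Fermat.Agent.H32
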