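/-
H30Tate: the Tate module of an abelian group `J` with `J[p]` finite: finite free over `ℤ_[p]`,
functorial, `p`-adically separated, and the comparison of `T_p J` with `J[p^n]`.
-/
import Mathlib.NumberTheory.Padics.RingHoms
import Mathlib.NumberTheory.Padics.PadicIntegers
import Mathlib.RingTheory.AdicCompletion.Functoriality
import Mathlib.RingTheory.AdicCompletion.Completeness
import Mathlib.RingTheory.PrincipalIdealDomain
import Mathlib.LinearAlgebra.FreeModule.PID
import Mathlib.Algebra.Module.ZMod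
import Fermat.Prelude.Thm_IsAdicComplete_of_module_finite

set_option autoImplicit false

noncomputable section

namespace Fermat.Agent.H30

open PadicInt

theorem nsmul_congr {J : Type*} [AddCommGroup J] {N m m' : ℕ} {x : J} (hx : N • x = 0)
    (h : (m : ZMod N) = (m' : ZMod N)) : m • x = m' • x := by
  have h1 : (m : ℤ) ≡ m' [ZMOD N] := (ZMod.intCast_eq_intCast_iff _ _ _).mp (by exact_mod_cast h)
  obtain ⟨c, hc⟩ := h1.symm.dvd
  have h2 : (m : ℤ) • x = (m' : ℤ) • x := by
    rw [← sub_eq_zero, ← sub_smul, hc, mul_comm, mul_smul, natCast_zsmul, hx, smul_zero]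
  simpa using h2

/-- The Tate module. -/
def TateMod (p : ℕ) (J : Type*) [AddCommGroup J] : AddSubgroup (ℕ → J) where
  carrier := {x | x 0 = 0 ∧ ∀ n, p • x (n + 1) = x n}
  zero_mem' := ⟨rfl, fun n => by simp⟩
  add_mem' := by
    rintro x y ⟨hx0, hx⟩ ⟨hy0, hy⟩
    exact ⟨by simp [hx0, hy0], fun n => by simp [smul_add, hx, hy]⟩
  neg_mem' := by
    rintro x ⟨hx0, hx⟩
    exact ⟨by simp [hx0], fun n => by simp [smul_neg, hx]⟩

namespace TateMod

variable {p : ℕ} {J : Type*} [AddCommGroup J]

/-- the `n`-th component -/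
def proj (n : ℕ) : TateMod p J →+ J :=
  (Pi.evalAddMonoidHom (fun _ : ℕ => J) n).comp (TateMod p J).subtype

theorem proj_apply (n : ℕ) (x : TateMod p J) : proj n x = (x : ℕ → J) n := rfl

@[ext] theorem ext {x y : TateMod p J} (h : ∀ n, proj n x = proj n y) : x = y :=
  Subtype.ext (funext h)

@[simp] theorem proj_zero (x : TateMod p J) : proj 0 x = 0 := x.2.1

theorem smul_proj_succ (x : TateMod p J) (n : ℕ) : p • proj (n + 1) x = proj n x := x.2.2 n

theorem pow_smul_proj_add (x : TateMod p J) (n k : ℕ) : p ^ k • proj (n + k) x = proj n x := by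
  induction k with
  | zero => simp
  | succ k ih => rw [pow_succ, mul_smul, ← add_assoc, smul_proj_succ, ih]

@[simp] theorem pow_smul_proj (x : TateMod p J) (n : ℕ) : p ^ n • proj n x = 0 := by
  have := pow_smul_proj_add x 0 n
  rwa [zero_add, proj_zero] at this

/-- mk -/
def mk (x : ℕ → J) (h0 : x 0 = 0) (h : ∀ n, p • x (n + 1) = x n) : TateMod p J := ⟨x, h0, h⟩

@[simp] theorem proj_mk (x : ℕ → J) (h0 : x 0 = 0) (h : ∀ n, p • x (n + 1) = x n) (n : ℕ) :
    proj n (mk x h0 h) = x n := rfl

variable [Fact p.Prime]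

theorem val_toZModPow_smul (a : ℤ_[p]) (n : ℕ) {x : J} (hx : p ^ n • x = 0) :
    (toZModPow (n + 1) a).val • x = (toZModPow n a).val • x := by
  refine nsmul_congr hx ?_
  rw [ZMod.natCast_val, ZMod.natCast_val, ZMod.cast_id, cast_toZModPow _ _ (Nat.le_succ n)]

instance instSMulPadic : SMul ℤ_[p] (TateMod p J) where
  smul a x := mk (fun n => (toZModPow n a).val • proj n x) (by simp) fun n => by
    rw [← mul_smul, mul_comm, mul_smul, smul_proj_succ, val_toZModPow_smul a n (pow_smul_proj x n)]

theorem proj_smul (a : ℤ_[p]) (x : TateMod p J) (n : ℕ) :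
    proj n (a • x) = (toZModPow n a).val • proj n x := rfl

/-- congruence rule for the scalar action -/
theorem proj_smul_eq (a : ℤ_[p]) (x : TateMod p J) (n m : ℕ) (h : toZModPow n a = (m : ZMod (p ^ n))) :
    proj n (a • x) = m • proj n x := by
  rw [proj_smul]
  refine nsmul_congr (pow_smul_proj x n) ?_
  rw [ZMod.natCast_val, ZMod.cast_id, h]

instance instModulePadic : Module ℤ_[p] (TateMod p J) where
  one_smul x := by
    ext n
    rw [proj_smul_eq 1 x n 1 (by simp), one_smul]
  mul_smul a b x := by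
    ext n
    rw [proj_smul, proj_smul, proj_smul, ← mul_smul]
    refine nsmul_congr (pow_smul_proj x n) ?_
    push_cast
    simp only [ZMod.natCast_val, ZMod.cast_id', id_eq, map_mul]
  smul_zero a := by
    ext n
    simp [proj_smul]
  smul_add a x y := by
    ext n
    simp [proj_smul, smul_add]
  add_smul a b x := by
    ext n
    rw [map_add, proj_smul, proj_smul, proj_smul, map_add, ← add_smul]
    refine nsmul_congr (pow_smul_proj x n) ?_
    push_cast
    simp only [ZMod.natCast_val, ZMod.cast_id', id_eq]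
  zero_smul x := by
    ext n
    simp [proj_smul]

theorem natCast_smul (m : ℕ) (x : TateMod p J) : (m : ℤ_[p]) • x = m • x := by
  rw [Nat.cast_smul_eq_nsmul]

/-- `p^n T` is the kernel of the `n`-th projection -/
theorem mem_pow_smul_iff (n : ℕ) (x : TateMod p J) :
    (∃ y : TateMod p J, x = (p : ℤ_[p]) ^ n • y) ↔ proj n x = 0 := by
  constructor
  · rintro ⟨y, rfl⟩
    rw [← Nat.cast_pow, natCast_smul, map_nsmul, pow_smul_proj]
  · intro h
    refine ⟨mk (fun k => proj (k + n) x) (by simpa using h) fun k => ?_, ?_⟩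
    · rw [show k + 1 + n = (k + n) + 1 by ring, smul_proj_succ]
    · ext k
      rw [← Nat.cast_pow, natCast_smul, map_nsmul, proj_mk, pow_smul_proj_add]

theorem p_smul_injective {x : TateMod p J} (h : (p : ℤ_[p]) • x = 0) : x = 0 := by
  ext n
  have h1 : proj (n + 1) ((p : ℤ_[p]) • x) = 0 := by rw [h, map_zero]
  rw [natCast_smul, map_nsmul, smul_proj_succ] at h1
  rw [h1, map_zero]

theorem pow_smul_injective (n : ℕ) {x : TateMod p J} (h : (p : ℤ_[p]) ^ n • x = 0) : x = 0 := by
  induction n with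
  | zero => simpa using h
  | succ n ih => exact ih (p_smul_injective (by rwa [pow_succ', mul_smul] at h))

instance instIsTorsionFree : Module.IsTorsionFree ℤ_[p] (TateMod p J) :=
  Module.IsTorsionFree.of_smul_eq_zero fun a x h => by
    by_cases ha : a = 0
    · exact Or.inl ha
    · right
      rw [unitCoeff_spec ha, mul_smul] at h
      have h2 := congrArg (fun y => ((unitCoeff ha)⁻¹ : ℤ_[p]ˣ) • y) h
      simp only [smul_zero, Units.smul_def, ← mul_smul] at h2
      rw [← mul_assoc, Units.inv_mul, one_mul] at h2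
      exact pow_smul_injective _ h2

theorem mem_smul_top_iff (n : ℕ) (x : TateMod p J) :
    x ∈ (Ideal.span {(p : ℤ_[p])} ^ n • ⊤ : Submodule ℤ_[p] (TateMod p J)) ↔ proj n x = 0 := by
  rw [Ideal.span_singleton_pow, ← mem_pow_smul_iff, Submodule.ideal_span_singleton_smul]
  constructor
  · intro h
    obtain ⟨y, -, hy⟩ := (Submodule.mem_smul_pointwise_iff_exists _ _ _).mp h
    exact ⟨y, hy.symm⟩
  · rintro ⟨y, hy⟩
    exact (Submodule.mem_smul_pointwise_iff_exists _ _ _).mpr ⟨y, trivial, hy.symm⟩

instance instIsHausdorff : IsHausdorff (Ideal.span {(p : ℤ_[p])}) (TateMod p J) where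
  haus' x hx := by
    ext n
    rw [map_zero]
    exact (mem_smul_top_iff n x).mp (SModEq.zero.mp (hx n))

/-- the Tate module is finite over `ℤ_[p]` as soon as `J[p]` is finite -/
theorem finite_of_finite_torsion (hfin : {x : J | p • x = 0}.Finite) :
    Module.Finite ℤ_[p] (TateMod p J) := by
  classical
  -- choose representatives for the finite image of `proj 1`
  have hf : (Set.range (proj 1 : TateMod p J → J)).Finite := by
    refine hfin.subset ?_
    rintro _ ⟨x, rfl⟩
    simpa using pow_smul_proj x 1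
  let s := hf.toFinset
  have hs : ∀ y : s, ∃ x : TateMod p J, proj 1 x = y := fun y => by
    have := (Set.Finite.mem_toFinset hf).mp y.2
    exact this
  choose g hg using hs
  let f : (s → ℤ_[p]) →ₗ[ℤ_[p]] TateMod p J := Fintype.linearCombination ℤ_[p] g
  have hspan : IsLocalRing.maximalIdeal ℤ_[p] = Ideal.span {(p : ℤ_[p])} := maximalIdeal_eq_span_p
  have hprec : IsAdicComplete (Ideal.span {(p : ℤ_[p])}) (s → ℤ_[p]) := by
    rw [← hspan]
    exact IsAdicComplete.of_module_finite _ _
  have hsurj : Function.Surjective f := by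
    refine surjective_of_mkQ_comp_surjective (I := Ideal.span {(p : ℤ_[p])}) ?_
    intro y
    obtain ⟨x, rfl⟩ := Submodule.mkQ_surjective _ y
    have hx : proj 1 x ∈ s := (Set.Finite.mem_toFinset hf).mpr ⟨x, rfl⟩
    refine ⟨Pi.single ⟨proj 1 x, hx⟩ 1, ?_⟩
    rw [LinearMap.comp_apply, Fintype.linearCombination_apply_single, one_smul,
      ← sub_eq_zero, ← map_sub, Submodule.mkQ_apply, Submodule.Quotient.mk_eq_zero]
    have := mem_smul_top_iff 1 (g ⟨proj 1 x, hx⟩ - x)
    rw [pow_one] at this
    rw [this, map_sub, hg, sub_self]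
  exact Module.Finite.of_surjective f hsurj

theorem free_of_finite_torsion (hfin : {x : J | p • x = 0}.Finite) :
    Module.Free ℤ_[p] (TateMod p J) := by
  have := finite_of_finite_torsion hfin
  exact Module.free_of_finite_type_torsion_free'

section Functoriality

/-- functoriality of the Tate module -/
def map : AddMonoid.End J →+* Module.End ℤ_[p] (TateMod p J) where
  toFun f :=
    { toFun := fun x => mk (fun n => f (proj n x)) (by simp) fun n => by
        rw [← map_nsmul, smul_proj_succ]
      map_add' := fun x y => by ext n; simp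
      map_smul' := fun a x => by
        ext n
        simp only [proj_mk, proj_smul, map_nsmul, RingHom.id_apply] }
  map_one' := rfl
  map_zero' := rfl
  map_mul' _ _ := rfl
  map_add' _ _ := rfl

@[simp] theorem proj_map (f : AddMonoid.End J) (x : TateMod p J) (n : ℕ) :
    proj n (map f x) = f (proj n x) := rfl

end Functoriality

section Divisible

/-- Elements of a "stable" subgroup of the `p`-power torsion lift to the Tate module. -/
theorem exists_of_divisible (D : Set J) (hD : ∀ x ∈ D, ∃ y ∈ D, p • y = x) (n : ℕ) (x : J)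
    (hx : x ∈ D) (hn : p ^ n • x = 0) : ∃ t : TateMod p J, proj n t = x := by
  classical
  choose! g hgD hg using hD
  -- `y k = g^k x`
  let y : ℕ → J := fun k => g^[k] x
  have hyD : ∀ k, y k ∈ D := by
    intro k
    induction k with
    | zero => exact hx
    | succ k ih =>
      show g^[k + 1] x ∈ D
      rw [Function.iterate_succ_apply']
      exact hgD _ ih
  have hy : ∀ k, p • y (k + 1) = y k := by
    intro k
    show p • g^[k + 1] x = y k
    rw [Function.iterate_succ_apply']
    exact hg _ (hyD k)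
  have hy0 : y 0 = x := rfl
  -- `t k = p^(n-k) x` for `k ≤ n` and `y (k-n)` for `k ≥ n`
  refine ⟨mk (fun k => if k ≤ n then p ^ (n - k) • x else y (k - n)) ?_ ?_, ?_⟩
  · simpa using hn
  · intro k
    rcases lt_trichotomy k n with h | h | h
    · simp only [h.le, Nat.succ_le_of_lt h, if_true]
      rw [← mul_smul, ← pow_succ', show n - (k + 1) + 1 = n - k by omega]
    · subst h
      simp [hy, hy0]
    · simp only [not_le.mpr h, not_le.mpr (show n < k + 1 by omega), if_false]
      rw [show k + 1 - n = (k - n) + 1 by omega, hy]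
  · simp

/-- If `J[p]` is finite, there is `m` such that `p^m` times any element of `J[p^n]` lifts
to the Tate module. -/
theorem exists_lift_bound (hfin : {x : J | p • x = 0}.Finite) :
    ∃ m : ℕ, ∀ (n : ℕ) (x : J), p ^ n • x = 0 → ∃ t : TateMod p J, proj n t = p ^ m • x := by
  classical
  -- `D k` = elements `p^k z` with `z` of `p`-power torsion
  let D : ℕ → Set J := fun k => {x | ∃ z : J, (∃ r, p ^ r • z = 0) ∧ x = p ^ k • z}
  have hanti : ∀ k, D (k + 1) ⊆ D k := by
    rintro k x ⟨z, ⟨r, hr⟩, rfl⟩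
    exact ⟨p • z, ⟨r, by rw [smul_comm, hr, smul_zero]⟩, by rw [← mul_smul, ← pow_succ]⟩
  let E : ℕ → Set J := fun k => D k ∩ {x | p • x = 0}
  have hEfin : ∀ k, (E k).Finite := fun k => hfin.subset Set.inter_subset_right
  have hEanti : Antitone E := antitone_nat_of_succ_le fun k => Set.inter_subset_inter_left _ (hanti k)
  -- the cardinalities stabilise
  obtain ⟨m, hm⟩ : ∃ m, ∀ k, m ≤ k → E k = E m := by
    have hex : ∃ c, ∃ k, (E k).ncard = c := ⟨_, 0, rfl⟩
    obtain ⟨m, hmc⟩ := Nat.find_spec hex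
    refine ⟨m, fun k hk => ?_⟩
    refine Set.eq_of_subset_of_ncard_le (hEanti hk) ?_ (hEfin m)
    rw [hmc]
    exact Nat.find_min' hex ⟨k, rfl⟩
  -- `D m ⊆ D k` for all `k ≥ m`
  have key : ∀ r k, m ≤ k → ∀ x ∈ D k, p ^ r • x = 0 → x ∈ D (k + 1) := by
    intro r
    induction r with
    | zero =>
      intro k _ x _ hx0
      have hx0 : x = 0 := by simpa using hx0
      subst hx0
      exact ⟨0, ⟨0, by simp⟩, by simp⟩
    | succ r ih =>
      intro k hk x hx hx0
      have h1 : p • x ∈ D (k + 1) := by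
        obtain ⟨z, hz, rfl⟩ := hx
        exact ⟨z, hz, by rw [← mul_smul, ← pow_succ']⟩
      obtain ⟨z, ⟨s, hs⟩, hz⟩ := ih (k + 1) (by omega) (p • x) h1 (by
        rw [← mul_smul, ← pow_succ]; exact hx0)
      have h2 : p ^ (k + 1) • z ∈ D (k + 1) := ⟨z, ⟨s, hs⟩, rfl⟩
      have h3 : x - p ^ (k + 1) • z ∈ E k := by
        constructor
        · obtain ⟨z', ⟨s', hs'⟩, rfl⟩ := hx
          refine ⟨z' - p • z, ⟨s' + s, ?_⟩, ?_⟩
          · rw [smul_sub, pow_add, mul_comm (p ^ s') (p ^ s), mul_smul, hs', smul_zero,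
              mul_comm (p ^ s) (p ^ s'), mul_smul, smul_comm _ p z, hs, smul_zero, smul_zero, sub_zero]
          · rw [smul_sub, ← mul_smul, ← pow_succ]
        · show p • (x - p ^ (k + 1) • z) = 0
          rw [smul_sub, hz, ← mul_smul, ← pow_succ', sub_self]
      have h4 : x - p ^ (k + 1) • z ∈ D (k + 1) := by
        have : x - p ^ (k + 1) • z ∈ E (k + 1) := by
          rw [hm (k + 1) (by omega), ← hm k hk]
          exact h3
        exact this.1
      obtain ⟨z', ⟨s', hs'⟩, hz'⟩ := h4
      refine ⟨z' + z, ⟨s' + s, ?_⟩, ?_⟩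
      · rw [smul_add, pow_add, mul_comm (p ^ s') (p ^ s), mul_smul, hs', smul_zero,
          mul_comm (p ^ s) (p ^ s'), mul_smul, hs, smul_zero, add_zero]
      · rw [smul_add, ← hz', sub_add_cancel]
  refine ⟨m, fun n x hx => ?_⟩
  refine exists_of_divisible (D m) ?_ n _ ⟨x, ⟨n, hx⟩, rfl⟩ ?_
  · rintro y hy
    obtain ⟨r, hr⟩ : ∃ r, p ^ r • y = 0 := by
      obtain ⟨z, ⟨s, hs⟩, rfl⟩ := hy
      exact ⟨s, by rw [smul_comm, hs, smul_zero]⟩
    obtain ⟨z, hz, rfl⟩ := key r m le_rfl y hy hr
    exact ⟨p ^ m • z, ⟨z, hz, rfl⟩, by rw [← mul_smul, ← pow_succ']⟩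
  · rw [smul_comm, hx, smul_zero]

end Divisible

end TateMod

end Fermat.Agent.H30
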