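/-
H30Mid: the Tate module of a Galois-Hecke module `J` (such as `J_0(N)`): the Galois action, the
Hecke action, continuity, Frobenius relation, unramifiedness and faithfulness of the Hecke action.
-/
import Fermat.Agent.H30Tate
import Fermat.Agent.H31Mod

set_option autoImplicit false

noncomputable section

namespace Fermat.Agent.H30

open CuspForm ModularCurve Fermat.Agent.H31

section

variable (p : ℕ) [Fact p.Prime] (J : Type*) [AddCommGroup J]

/-- The Galois action on the Tate module. -/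
def galTate [DistribMulAction GQ J] : GQ →* Module.End ℤ_[p] (TateMod p J) :=
  ((TateMod.map (p := p) (J := J) : AddMonoid.End J →+* _) : AddMonoid.End J →* _).comp
    (DistribMulAction.toAddMonoidEnd GQ J)

/-- The Hecke action on the Tate module. -/
def heckeTate [Module HeckeAlg J] : HeckeAlg →+* Module.End ℤ_[p] (TateMod p J) :=
  (TateMod.map (p := p) (J := J)).comp (Module.toAddMonoidEnd HeckeAlg J)

/-- The action of integer polynomials in the good Hecke operators on the Tate module. -/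
def actTate [Module HeckeAlg J] (N : ℕ) (S : Set ℕ) :
    MvPolynomial (GoodPrimes N S) ℤ →+* Module.End ℤ_[p] (TateMod p J) :=
  (heckeTate p J).comp (inclHecke N S).toRingHom

variable {p J}

@[simp] theorem proj_galTate [DistribMulAction GQ J] (σ : GQ) (x : TateMod p J) (n : ℕ) :
    TateMod.proj n (galTate p J σ x) = σ • TateMod.proj n x := rfl

@[simp] theorem proj_heckeTate [Module HeckeAlg J] (P : HeckeAlg) (x : TateMod p J) (n : ℕ) :
    TateMod.proj n (heckeTate p J P x) = P • TateMod.proj n x := rfl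

@[simp] theorem proj_actTate [Module HeckeAlg J] (N : ℕ) (S : Set ℕ)
    (P : MvPolynomial (GoodPrimes N S) ℤ) (x : TateMod p J) (n : ℕ) :
    TateMod.proj n (actTate p J N S P x) = inclHecke N S P • TateMod.proj n x := rfl

theorem galTate_continuous [Module HeckeAlg J] [DistribMulAction GQ J] (hfin : FiniteLevel p J) (n : ℕ) :
    ∃ L : IntermediateField ℚ (AlgebraicClosure ℚ), FiniteDimensional ℚ L ∧
      ∀ σ : GQ, (∀ x ∈ L, σ x = x) → ∀ x : TateMod p J, ∃ y : TateMod p J,
        galTate p J σ x - x = (p : ℤ_[p]) ^ n • y := by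
  obtain ⟨L, hL, h⟩ := hfin n
  refine ⟨L, hL, fun σ hσ x => ?_⟩
  rw [TateMod.mem_pow_smul_iff, map_sub, proj_galTate, h σ hσ _ (TateMod.pow_smul_proj x n), sub_self]

theorem heckeTate_commute [Module HeckeAlg J] [DistribMulAction GQ J] [SMulCommClass GQ HeckeAlg J]
    (P : HeckeAlg) (σ : GQ) : Commute (heckeTate p J P) (galTate p J σ) := by
  refine LinearMap.ext fun x => ?_
  ext n
  exact (smul_comm σ P (TateMod.proj n x)).symm

theorem actTate_commute [Module HeckeAlg J] [DistribMulAction GQ J] [SMulCommClass GQ HeckeAlg J]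
    (N : ℕ) (S : Set ℕ) (P : MvPolynomial (GoodPrimes N S) ℤ) (σ : GQ) :
    Commute (actTate p J N S P) (galTate p J σ) := heckeTate_commute _ σ

theorem galTate_frobenius [Module HeckeAlg J] [DistribMulAction GQ J] [SMulCommClass GQ HeckeAlg J]
    {N : ℕ} (hF : FrobeniusQuadratic (K := ℚ) (L := AlgebraicClosure ℚ) N p J)
    {ℓ : ℕ} (hℓ : ℓ.Prime) (hℓN : ¬ ℓ ∣ N * p) {A : ValuationSubring (AlgebraicClosure ℚ)}
    (hA : A.LiesOverPrime ℓ) {φ : GQ} (hφ : A.IsFrobeniusAt φ ℓ) :
    galTate p J φ * galTate p J φ - heckeTate p J (heckeGen ⟨ℓ, hℓ⟩) * galTate p J φ +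
      ℓ • (1 : Module.End ℤ_[p] (TateMod p J)) = 0 := by
  refine LinearMap.ext fun x => ?_
  ext n
  have h := hF ℓ hℓ hℓN A hA φ hφ (TateMod.proj n x) ⟨n, TateMod.pow_smul_proj x n⟩
  simp only [LinearMap.add_apply, LinearMap.sub_apply, Module.End.mul_apply, LinearMap.smul_apply,
    Module.End.one_apply, LinearMap.zero_apply, map_zero, map_add, map_sub, map_nsmul,
    proj_galTate, proj_heckeTate]
  exact h

theorem galTate_inertia [Module HeckeAlg J] [DistribMulAction GQ J]
    {N : ℕ} (hU : UnramifiedOutside (K := ℚ) (L := AlgebraicClosure ℚ) N p J)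
    {q : ℕ} (hq : q.Prime) (hqN : ¬ q ∣ N * p) {A : ValuationSubring (AlgebraicClosure ℚ)}
    (hA : A.LiesOverPrime q) {τ : GQ} (hτ : τ ∈ A.inertiaSubgroupIn ℚ) :
    galTate p J τ = 1 := by
  refine LinearMap.ext fun x => ?_
  ext n
  exact hU q hq hqN A hA τ hτ (TateMod.proj n x) ⟨n, TateMod.pow_smul_proj x n⟩

/-- Faithfulness of the Hecke action on the Tate module. -/
theorem actTate_faithful [Module HeckeAlg J] {N : ℕ} [NeZero N] {S : Set ℕ}
    (hfin : {x : J | p • x = 0}.Finite) (hfaith : HeckeFaithful N S p J) :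
    ∃ c u : ℕ, ¬ p ∣ u ∧ ∀ (n : ℕ) (P : MvPolynomial (GoodPrimes N S) ℤ),
      (∀ x : TateMod p J, ∃ y : TateMod p J, actTate p J N S P x = (p : ℤ_[p]) ^ n • y) →
        ∃ y : heckeAlgebra N 2 S, (u : heckeAlgebra N 2 S) * evHecke N S P =
          (p : heckeAlgebra N 2 S) ^ (n - c) * y := by
  obtain ⟨m, hm⟩ := TateMod.exists_lift_bound hfin
  obtain ⟨c, u, hu, hfaith⟩ := hfaith
  refine ⟨c + m, u, hu, fun n P hP => ?_⟩
  rcases le_or_gt n (c + m) with hn | hn
  · refine ⟨(u : heckeAlgebra N 2 S) * evHecke N S P, ?_⟩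
    rw [Nat.sub_eq_zero_of_le hn, pow_zero, one_mul]
  · obtain ⟨y, hy⟩ := hfaith n ((p : MvPolynomial (GoodPrimes N S) ℤ) ^ m * P) (by
      intro x hx
      obtain ⟨t, ht⟩ := hm n x hx
      have h1 := (TateMod.mem_pow_smul_iff n _).mp (hP t)
      rw [proj_actTate, ht] at h1
      rw [map_mul, map_pow, map_natCast, mul_comm, mul_smul]
      have h2 : ((p : HeckeAlg) ^ m) • x = p ^ m • x := by
        rw [← Nat.cast_pow, Nat.cast_smul_eq_nsmul]
      rw [h2]
      exact h1)
    refine ⟨y, ?_⟩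
    have hp0 : p ≠ 0 := (Fact.out : p.Prime).ne_zero
    have hinj : Function.Injective (fun z : heckeAlgebra N 2 S => p ^ m • z) :=
      nsmul_right_injective (pow_ne_zero m hp0)
    apply hinj
    show p ^ m • _ = p ^ m • _
    rw [map_mul, map_pow, map_natCast] at hy
    simp only [nsmul_eq_mul, Nat.cast_pow]
    rw [mul_left_comm, hy, ← mul_assoc, ← pow_add]
    congr 2
    omega

end

end Fermat.Agent.H30
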