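import Mathlib

/-!
The Deligne–Serre lifting lemma in an abstract form: a commuting family of integral operators on a
finite-dimensional vector space over an algebraically closed field, an eigenvector modulo a prime
lifts to a genuine eigenvector with congruent eigenvalues.
-/

set_option autoImplicit false

noncomputable section

open Polynomial

namespace Fermat.Agent.H49

/-- A commuting family of endomorphisms stabilising a nonzero subspace `E` of a finite-dimensional
vector space over an algebraically closed field has a common eigenvector in `E`. -/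
theorem exists_common_eigenvector {K V : Type*} [Field K] [IsAlgClosed K] [AddCommGroup V]
    [Module K V] [FiniteDimensional K V] (A : Set (Module.End K V))
    (hcomm : ∀ s ∈ A, ∀ t ∈ A, Commute s t) (E : Submodule K V) (hE : E ≠ ⊥)
    (hstab : ∀ t ∈ A, ∀ v ∈ E, t v ∈ E) :
    ∃ v ∈ E, v ≠ 0 ∧ ∃ χ : Module.End K V → K, ∀ t ∈ A, t v = χ t • v := by
  classical
  let 𝒮 : Set (Submodule K V) := {W | W ≠ ⊥ ∧ W ≤ E ∧ ∀ t ∈ A, ∀ w ∈ W, t w ∈ W}
  have hne : 𝒮.Nonempty := ⟨E, hE, le_rfl, hstab⟩
  obtain ⟨W, hW, hmin⟩ := WellFounded.has_min (wellFounded_lt (α := Submodule K V)) 𝒮 hne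
  obtain ⟨hWne, hWE, hWst⟩ := hW
  obtain ⟨v, hv, hv0⟩ := Submodule.exists_mem_ne_zero_of_ne_bot hWne
  have hscal : ∀ t ∈ A, ∃ c : K, ∀ w ∈ W, t w = c • w := by
    intro t ht
    have : Nontrivial W := Submodule.nontrivial_iff_ne_bot.mpr hWne
    obtain ⟨c, hc⟩ := Module.End.exists_eigenvalue (t.restrict (hWst t ht))
    obtain ⟨u, hu⟩ := hc.exists_hasEigenvector
    refine ⟨c, ?_⟩
    let W' : Submodule K V := W ⊓ Module.End.eigenspace t c
    have hW'mem : W' ∈ 𝒮 := by
      refine ⟨?_, inf_le_left.trans hWE, ?_⟩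
      · intro hbot
        have hmem : (u : V) ∈ W' := by
          refine ⟨u.2, ?_⟩
          rw [SetLike.mem_coe, Module.End.mem_eigenspace_iff]
          have := congrArg Subtype.val hu.apply_eq_smul
          simpa using this
        rw [hbot, Submodule.mem_bot] at hmem
        exact hu.2 (Subtype.ext hmem)
      · rintro s hs w ⟨hw1, hw2⟩
        refine ⟨hWst s hs w hw1, ?_⟩
        rw [SetLike.mem_coe, Module.End.mem_eigenspace_iff] at hw2 ⊢
        have hc' := hcomm t ht s hs
        calc t (s w) = (t * s) w := rfl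
          _ = (s * t) w := by rw [hc'.eq]
          _ = s (t w) := rfl
          _ = c • s w := by rw [hw2, map_smul]
    have hle : W' ≤ W := inf_le_left
    have heq : W' = W := by
      by_contra hne'
      exact hmin W' hW'mem (lt_of_le_of_ne hle hne')
    intro w hw
    rw [← heq] at hw
    exact Module.End.mem_eigenspace_iff.mp hw.2
  choose! χ hχ using hscal
  exact ⟨v, hWE hv, hv0, χ, fun t ht => hχ t ht v hv⟩

/-- An operator stabilising a finitely generated lattice which spans is integral. -/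
theorem isIntegral_of_stable_lattice {K V : Type*} [Field K] [AddCommGroup V]
    [Module K V] (L : Submodule ℤ V) (hL : L.FG)
    (hspan : Submodule.span K (L : Set V) = ⊤) (t : Module.End K V) (ht : ∀ v ∈ L, t v ∈ L) :
    IsIntegral ℤ t := by
  have hfin : Module.Finite ℤ L := Module.Finite.iff_fg.mpr hL
  let tL : Module.End ℤ L := LinearMap.restrict (t.restrictScalars ℤ) ht
  obtain ⟨P, hPm, hP⟩ := Algebra.IsIntegral.isIntegral (R := ℤ) tL
  refine ⟨P, hPm, ?_⟩
  have hP' : aeval tL P = 0 := hP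
  change aeval t P = 0
  have hpow : ∀ (n : ℕ) (v : L), (((tL ^ n) v : L) : V) = (t ^ n) (v : V) := by
    intro n
    induction n with
    | zero => intro v; rfl
    | succ n ih =>
      intro v
      rw [pow_succ, pow_succ, Module.End.mul_apply, Module.End.mul_apply, ih]
      rfl
  have hae : ∀ v : L, ((aeval tL P v : L) : V) = aeval t P (v : V) := by
    intro v
    rw [aeval_eq_sum_range, aeval_eq_sum_range, LinearMap.sum_apply, LinearMap.sum_apply]
    push_cast
    refine Finset.sum_congr rfl fun i _ => ?_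
    rw [LinearMap.smul_apply, LinearMap.smul_apply, Submodule.coe_smul, hpow]
  refine LinearMap.ext_on hspan fun v hv => ?_
  have := hae ⟨v, hv⟩
  rw [hP'] at this
  exact this.symm

section DS

variable {K R V : Type*} [Field K] [CommRing R] [Algebra R K] [AddCommGroup V]
  [Module K V] [Module R V] [IsScalarTower R K V]

theorem eq_of_smul_eq_smul (hinj : Function.Injective (algebraMap R K)) {v : V} (hv : v ≠ 0)
    {r s : R} (h : r • v = s • v) : r = s := by
  apply hinj
  rw [← IsScalarTower.algebraMap_smul K r v, ← IsScalarTower.algebraMap_smul K s v,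
    ← sub_eq_zero, ← sub_smul] at h
  rcases smul_eq_zero.mp h with h | h
  · exact sub_eq_zero.mp h
  · exact absurd h hv

/-- eigenvalues of an integral operator lie in `R`. -/
theorem exists_eigenvalue_in (hR : ∀ x : K, IsIntegral R x → x ∈ (algebraMap R K).range)
    {t : Module.End K V} (ht : IsIntegral R t) {v : V} (hv : v ≠ 0) {c : K} (hc : t v = c • v) :
    ∃ r : R, t v = r • v := by
  obtain ⟨P, hPm, hP⟩ := ht
  have hP' : aeval t P = 0 := hP
  have hvec : t.HasEigenvector c v := Module.End.hasEigenvector_iff.mpr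
    ⟨Module.End.mem_eigenspace_iff.mpr hc, hv⟩
  have h1 := Module.End.aeval_apply_of_hasEigenvector (p := P.map (algebraMap R K)) hvec
  rw [aeval_map_algebraMap, hP', LinearMap.zero_apply] at h1
  have h2 : (P.map (algebraMap R K)).eval c = 0 := by
    rcases smul_eq_zero.mp h1.symm with h | h
    · exact h
    · exact absurd h hv
  have hint : IsIntegral R c := ⟨P, hPm, by rwa [eval_map] at h2⟩
  obtain ⟨r, hr⟩ := hR c hint
  exact ⟨r, by rw [hc, ← hr, IsScalarTower.algebraMap_smul]⟩

/-- On a common eigenvector of integral generators, the whole `R`-algebra acts through `R`. -/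
theorem forall_adjoin_exists_smul
    (hR : ∀ x : K, IsIntegral R x → x ∈ (algebraMap R K).range)
    (A : Set (Module.End K V)) (hint : ∀ t ∈ A, IsIntegral R t) {v : V} (hv : v ≠ 0)
    (h : ∀ t ∈ A, ∃ c : K, t v = c • v) :
    ∀ t ∈ Algebra.adjoin R A, ∃ r : R, t v = r • v := by
  intro t ht
  refine Algebra.adjoin_induction (p := fun t _ => ∃ r : R, t v = r • v) ?_ ?_ ?_ ?_ ht
  · intro t ht
    obtain ⟨c, hc⟩ := h t ht
    exact exists_eigenvalue_in hR (hint t ht) hv hc
  · intro r
    exact ⟨r, by rw [Algebra.algebraMap_eq_smul_one]; rfl⟩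
  · rintro x y _ _ ⟨r, hr⟩ ⟨s, hs⟩
    exact ⟨r + s, by rw [LinearMap.add_apply, hr, hs, add_smul]⟩
  · rintro x y _ _ ⟨r, hr⟩ ⟨s, hs⟩
    refine ⟨s * r, ?_⟩
    rw [Module.End.mul_apply, hs, ← IsScalarTower.algebraMap_smul K s v, map_smul, hr,
      IsScalarTower.algebraMap_smul, mul_smul]

/-- The product step: modulo a stable submodule `Λ'`, a product of factors `τ - α` acts on `f₀` as
an element of `R`, provided `τ f₀ ∈ Λ'`. -/
theorem exists_scalar_of_multiset (τ : Module.End K V) (Λ' : Submodule R V)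
    (hΛ' : ∀ v ∈ Λ', τ v ∈ Λ') (𝔪 : Ideal R) [h𝔪 : 𝔪.IsPrime] (f₀ : V) (hτ : τ f₀ ∈ Λ')
    (s : Multiset K) (hs : ∀ α ∈ s, α ∈ (algebraMap R K).range) :
    ∃ c : R, (aeval τ ((s.map fun α => X - C α).prod : K[X])) f₀ - c • f₀ ∈ Λ' ∧
      (c ∈ 𝔪 → ∃ α ∈ s, ∃ r ∈ 𝔪, algebraMap R K r = α) := by
  induction s using Multiset.induction with
  | empty =>
    refine ⟨1, ?_, fun h => absurd h ((Ideal.ne_top_iff_one 𝔪).mp h𝔪.ne_top)⟩
    simp
  | cons α s ih =>
    obtain ⟨c, hc, hc𝔪⟩ := ih fun β hβ => hs β (Multiset.mem_cons_of_mem hβ)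
    obtain ⟨r, hr⟩ := hs α (Multiset.mem_cons_self α s)
    refine ⟨-r * c, ?_, ?_⟩
    · rw [Multiset.map_cons, Multiset.prod_cons, map_mul, Module.End.mul_apply]
      obtain ⟨w, hw, hw'⟩ : ∃ w ∈ Λ', (aeval τ ((s.map fun α => X - C α).prod : K[X])) f₀ =
          c • f₀ + w := ⟨_, hc, by abel⟩
      rw [hw', map_sub, aeval_X, aeval_C, LinearMap.sub_apply, Module.algebraMap_end_apply,
        ← hr, IsScalarTower.algebraMap_smul, map_add, ← IsScalarTower.algebraMap_smul K c f₀,
        map_smul, IsScalarTower.algebraMap_smul, IsScalarTower.algebraMap_smul]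
      have : c • τ f₀ + τ w - r • (c • f₀ + w) - (-r * c) • f₀ = c • τ f₀ + τ w - r • w := by
        rw [smul_add, neg_mul, neg_smul, mul_smul]
        abel
      rw [this]
      exact Λ'.sub_mem (Λ'.add_mem (Λ'.smul_mem c hτ) (hΛ' w hw)) (Λ'.smul_mem r hw)
    · intro h
      rw [neg_mul, neg_mem_iff] at h
      rcases h𝔪.mem_or_mem h with h | h
      · exact ⟨α, Multiset.mem_cons_self α s, r, h, hr⟩
      · obtain ⟨β, hβ, r', hr', hrβ⟩ := hc𝔪 h
        exact ⟨β, Multiset.mem_cons_of_mem hβ, r', hr', hrβ⟩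

/-- **Deligne–Serre lifting lemma**, abstract form. Let `A` be a commuting set of `R`-integral
operators on a finite-dimensional `K`-vector space `V`, `Λ'` an `R`-submodule stable under `A`,
`f₀` a vector with `c • f₀ ∈ Λ' → c ∈ 𝔪`. Then there is a genuine common eigenvector `v` such that
whenever `f₀` is an eigenvector modulo `Λ'` for `t ∈ A` with eigenvalue `m`, the eigenvalue of `t`
on `v` is congruent to `m` modulo `𝔪`. -/
theorem deligne_serre [IsAlgClosed K] [FiniteDimensional K V]
    (hR : ∀ x : K, IsIntegral R x → x ∈ (algebraMap R K).range)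
    (hinj : Function.Injective (algebraMap R K))
    (A : Set (Module.End K V)) (hcomm : ∀ s ∈ A, ∀ t ∈ A, Commute s t)
    (hint : ∀ t ∈ A, IsIntegral R t)
    (Λ' : Submodule R V) (hΛ' : ∀ t ∈ A, ∀ v ∈ Λ', t v ∈ Λ')
    (𝔪 : Ideal R) [h𝔪 : 𝔪.IsPrime] (f₀ : V) (hf₀ : ∀ c : R, c • f₀ ∈ Λ' → c ∈ 𝔪) :
    ∃ v : V, v ≠ 0 ∧ ∀ t ∈ A, ∃ r : R, t v = r • v ∧
      ∀ m : R, t f₀ - m • f₀ ∈ Λ' → r - m ∈ 𝔪 := by
  classical
  let S : Subalgebra R (Module.End K V) := Algebra.adjoin R A
  have hcommS : IsMulCommutative S := Algebra.isMulCommutative_adjoin R hcomm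
  let _ : CommRing S :=
    { (inferInstance : Ring S) with
      mul_comm := fun a b => hcommS.is_comm.comm a b }
  have hAS : ∀ t ∈ A, t ∈ S := fun t ht => Algebra.subset_adjoin ht
  have hSΛ' : ∀ t ∈ S, ∀ v ∈ Λ', t v ∈ Λ' := by
    intro t ht
    refine Algebra.adjoin_induction (p := fun t _ => ∀ v ∈ Λ', t v ∈ Λ') ?_ ?_ ?_ ?_ ht
    · exact fun t ht v hv => hΛ' t ht v hv
    · intro r v hv
      rw [Algebra.algebraMap_eq_smul_one]
      exact Λ'.smul_mem r hv
    · intro x y _ _ hx hy v hv
      exact Λ'.add_mem (hx v hv) (hy v hv)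
    · intro x y _ _ hx hy v hv
      exact hx _ (hy v hv)
  -- the ideal of operators killing `f₀` mod `Λ'`
  let I : Ideal S :=
    { carrier := {t | (t : Module.End K V) f₀ ∈ Λ'}
      add_mem' := fun {a b} ha hb => by
        change ((a + b : S) : Module.End K V) f₀ ∈ Λ'
        rw [Subalgebra.coe_add, LinearMap.add_apply]
        exact Λ'.add_mem ha hb
      zero_mem' := by
        change ((0 : S) : Module.End K V) f₀ ∈ Λ'
        rw [Subalgebra.coe_zero, LinearMap.zero_apply]
        exact Λ'.zero_mem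
      smul_mem' := fun a b hb => by
        change ((a * b : S) : Module.End K V) f₀ ∈ Λ'
        rw [Subalgebra.coe_mul, Module.End.mul_apply]
        exact hSΛ' a a.2 _ hb }
  have hImem : ∀ t : S, t ∈ I ↔ (t : Module.End K V) f₀ ∈ Λ' := fun t => Iff.rfl
  -- the set of eigencharacters
  let 𝒳 : Set (S →+* R) := {χ | ∃ v : V, v ≠ 0 ∧ ∀ t : S, (t : Module.End K V) v = χ t • v}
  have hcommS' : ∀ s ∈ (S : Set (Module.End K V)), ∀ t ∈ (S : Set (Module.End K V)),
      Commute s t := by
    intro s hs t ht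
    have := hcommS.is_comm.comm (⟨s, hs⟩ : S) ⟨t, ht⟩
    exact congrArg Subtype.val this
  have hXfin : 𝒳.Finite := by
    have hind := Module.End.independent_iInf_maxGenEigenspace_of_forall_mapsTo
      (R := K) (M := V) (f := fun t : S => (t : Module.End K V))
      (fun i j φ => Module.End.mapsTo_maxGenEigenspace_of_comm (hcommS' j j.2 i i.2) φ)
    have hfin := WellFoundedGT.finite_ne_bot_of_iSupIndep hind
    refine Set.Finite.of_finite_image (f := fun χ : S →+* R => fun t : S => algebraMap R K (χ t))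
      (hfin.subset ?_) ?_
    · rintro _ ⟨χ, ⟨v, hv0, hv⟩, rfl⟩
      intro hbot
      have hmem : v ∈ (⨅ t : S, Module.End.maxGenEigenspace (t : Module.End K V)
          (algebraMap R K (χ t))) := by
        rw [Submodule.mem_iInf]
        intro t
        have h1 : v ∈ Module.End.eigenspace (t : Module.End K V) (algebraMap R K (χ t)) := by
          rw [Module.End.mem_eigenspace_iff, IsScalarTower.algebraMap_smul]
          exact hv t
        exact (Module.End.genEigenspace _ _).monotone le_top h1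
      rw [hbot] at hmem
      exact hv0 (by simpa using hmem)
    · intro χ _ χ' _ h
      exact RingHom.ext fun t => hinj (congrFun h t)
  -- every common eigenvector gives an eigencharacter
  have hchar : ∀ v : V, v ≠ 0 → (∀ t ∈ A, ∃ c : K, t v = c • v) →
      ∃ χ : S →+* R, ∀ t : S, (t : Module.End K V) v = χ t • v := by
    intro v hv h
    have h1 := forall_adjoin_exists_smul hR A hint hv h
    have h2 : ∀ t : S, ∃ r : R, (t : Module.End K V) v = r • v := fun t => h1 t t.2
    choose χ hχ using h2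
    refine ⟨{ toFun := χ, map_one' := ?_, map_mul' := ?_, map_zero' := ?_, map_add' := ?_ }, hχ⟩
    · exact eq_of_smul_eq_smul (K := K) hinj hv (by rw [← hχ, one_smul]; rfl)
    · intro a b
      refine eq_of_smul_eq_smul (K := K) hinj hv ?_
      rw [← hχ, Subalgebra.coe_mul, Module.End.mul_apply, hχ b,
        ← IsScalarTower.algebraMap_smul K (χ b) v, map_smul, hχ a,
        IsScalarTower.algebraMap_smul, smul_smul, mul_comm]
    · exact eq_of_smul_eq_smul (K := K) hinj hv (by rw [← hχ, zero_smul]; rfl)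
    · intro a b
      refine eq_of_smul_eq_smul (K := K) hinj hv ?_
      rw [← hχ, Subalgebra.coe_add, LinearMap.add_apply, hχ a, hχ b, add_smul]
  -- main claim
  have hmain : ∀ t ∈ I, ∃ χ ∈ 𝒳, t ∈ Ideal.comap χ 𝔪 := by
    intro t ht
    set τ : Module.End K V := (t : Module.End K V) with hτdef
    have hEv : ∀ α : K, τ.HasEigenvalue α →
        ∃ χ ∈ 𝒳, algebraMap R K (χ t) = α := by
      intro α hα
      obtain ⟨v, hvE, hv0, χ, hχ⟩ := exists_common_eigenvector (S : Set (Module.End K V)) hcommS'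
        (Module.End.eigenspace τ α) hα (by
          intro s hs v hv
          rw [Module.End.mem_eigenspace_iff] at hv ⊢
          have hc' := hcommS' τ t.2 s hs
          calc τ (s v) = (τ * s) v := rfl
            _ = (s * τ) v := by rw [hc'.eq]
            _ = s (τ v) := rfl
            _ = α • s v := by rw [hv, map_smul])
      obtain ⟨χ', hχ'⟩ := hchar v hv0 (fun s hs => ⟨χ s, hχ s (hAS s hs)⟩)
      refine ⟨χ', ⟨v, hv0, hχ'⟩, ?_⟩
      have h1 := hχ' t
      rw [← hτdef, Module.End.mem_eigenspace_iff.mp hvE, ← IsScalarTower.algebraMap_smul K (χ' t) v,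
        ← sub_eq_zero, ← sub_smul] at h1
      rcases smul_eq_zero.mp h1 with h1 | h1
      · exact (sub_eq_zero.mp h1).symm
      · exact absurd h1 hv0
    have hroot : ∀ α ∈ τ.charpoly.roots, τ.HasEigenvalue α := by
      intro α hα
      rw [Module.End.hasEigenvalue_iff_isRoot_charpoly]
      exact (mem_roots'.mp hα).2
    obtain ⟨c, hc, hc𝔪⟩ := exists_scalar_of_multiset τ Λ' (hSΛ' τ t.2) 𝔪 f₀ ht τ.charpoly.roots
      (fun α hα => by
        obtain ⟨χ, -, h⟩ := hEv α (hroot α hα)
        exact ⟨_, h⟩)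
    have hprod : (τ.charpoly.roots.map fun α => X - C α).prod = τ.charpoly :=
      (Polynomial.Splits.eq_prod_roots_of_monic (IsAlgClosed.splits _) τ.charpoly_monic).symm
    rw [hprod, LinearMap.aeval_self_charpoly, LinearMap.zero_apply, zero_sub,
      Submodule.neg_mem_iff] at hc
    obtain ⟨α, hα, r, hr𝔪, hr⟩ := hc𝔪 (hf₀ c hc)
    obtain ⟨χ, hχX, hχ⟩ := hEv α (hroot α hα)
    refine ⟨χ, hχX, ?_⟩
    rw [Ideal.mem_comap, hinj (hχ.trans hr.symm)]
    exact hr𝔪
  -- prime avoidance
  obtain ⟨χ, hχX, hle⟩ : ∃ χ ∈ 𝒳, I ≤ Ideal.comap χ 𝔪 := by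
    rcases 𝒳.eq_empty_or_nonempty with hX | ⟨χ₀, -⟩
    · obtain ⟨χ, hχ, -⟩ := hmain 0 I.zero_mem
      rw [hX] at hχ
      exact absurd hχ (Set.notMem_empty _)
    · refine (Ideal.subset_union_prime_finite hXfin (f := fun χ => Ideal.comap χ 𝔪) χ₀ χ₀
        (fun χ _ _ _ => Ideal.comap_isPrime χ 𝔪)).mp ?_
      intro t ht
      obtain ⟨χ, hχ, h⟩ := hmain t ht
      exact Set.mem_biUnion hχ h
  obtain ⟨v, hv0, hv⟩ := hχX
  refine ⟨v, hv0, fun t ht => ⟨χ ⟨t, hAS t ht⟩, hv ⟨t, hAS t ht⟩, fun m hm => ?_⟩⟩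
  have hmem : (⟨t, hAS t ht⟩ : S) - algebraMap R S m ∈ I := by
    rw [hImem]
    change ((t : Module.End K V) - algebraMap R (Module.End K V) m) f₀ ∈ Λ'
    rw [LinearMap.sub_apply, Module.algebraMap_end_apply]
    exact hm
  have h1 := hle hmem
  rw [Ideal.mem_comap, map_sub] at h1
  have h2 : χ (algebraMap R S m) = m := by
    refine eq_of_smul_eq_smul (K := K) hinj hv0 ?_
    rw [← hv]
    rfl
  rwa [h2] at h1

end DS

end Fermat.Agent.H49
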