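import Mathlib
import Fermat.Prelude.Def_CuspForm_HeckeAlgebra
import Fermat.Prelude.Def_CuspForm_IntegralStructure
import Fermat.Prelude.Thm_CuspForm_intLattice_fg
import Fermat.Prelude.Thm_CuspForm_mem_intLattice_of_mem_heckeAlgebra
import Fermat.Prelude.Thm_ModularForm_sturm_bound_Gamma0
import Fermat.Prelude.Thm_ModularFormClass_qCoeff_heckeT
import Fermat.Prelude.Thm_ModularFormClass_qCoeff_heckeU
import Fermat.Prelude.Thm_CongruenceSubgroup_one_mem_strictPeriods_Gamma0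
import Fermat.Agent.H49DeligneSerre

/-!
Basic facts on cusp forms on `Γ₀(N)`: linearity of `qCoeff`, determination by `q`-coefficients,
finite-dimensionality, coefficients of Hecke operators, common eigenvectors and normalised
eigenforms.
-/

set_option autoImplicit false

noncomputable section

open UpperHalfPlane ModularFormClass

namespace Fermat.Agent.H49

local notation "Γ₀(" N ")" => CongruenceSubgroup.Gamma0 N

variable {N : ℕ} {k : ℤ}

theorem one_mem_sp (N : ℕ) :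
    (1 : ℝ) ∈ (Subgroup.map (Matrix.SpecialLinearGroup.mapGL ℝ) Γ₀(N)).strictPeriods :=
  CongruenceSubgroup.one_mem_strictPeriods_Gamma0 N

theorem qCoeff_add (f g : CuspForm Γ₀(N) k) (n : ℕ) :
    qCoeff ⇑(f + g) n = qCoeff ⇑f n + qCoeff ⇑g n := by
  simp only [qCoeff, FunLike.coe_add]
  rw [ModularForm.qExpansion_add one_pos (one_mem_sp N) f g, map_add]

theorem qCoeff_zero (n : ℕ) : qCoeff ⇑(0 : CuspForm Γ₀(N) k) n = 0 := by
  simp only [qCoeff, FunLike.coe_zero]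
  rw [UpperHalfPlane.qExpansion_zero, map_zero]

theorem qCoeff_smul (c : ℂ) (f : CuspForm Γ₀(N) k) (n : ℕ) :
    qCoeff ⇑(c • f) n = c * qCoeff ⇑f n := by
  have h1 : ⇑(c • f) = c • ⇑f := by
    ext z
    simp
  simp only [qCoeff, h1]
  rw [ModularForm.qExpansion_smul one_pos (one_mem_sp N) c f]
  simp

/-- The `n`-th `q`-coefficient as a linear functional on cusp forms. -/
def qCoeffLin (N : ℕ) (k : ℤ) (n : ℕ) : CuspForm Γ₀(N) k →ₗ[ℂ] ℂ where
  toFun f := qCoeff ⇑f n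
  map_add' f g := qCoeff_add f g n
  map_smul' c f := qCoeff_smul c f n

@[simp] theorem qCoeffLin_apply (n : ℕ) (f : CuspForm Γ₀(N) k) :
    qCoeffLin N k n f = qCoeff ⇑f n := rfl

theorem qCoeff_sub (f g : CuspForm Γ₀(N) k) (n : ℕ) :
    qCoeff ⇑(f - g) n = qCoeff ⇑f n - qCoeff ⇑g n :=
  map_sub (qCoeffLin N k n) f g

theorem qCoeff_neg (f : CuspForm Γ₀(N) k) (n : ℕ) :
    qCoeff ⇑(-f) n = -qCoeff ⇑f n :=
  map_neg (qCoeffLin N k n) f

theorem qCoeff_sum {ι : Type*} (s : Finset ι) (f : ι → CuspForm Γ₀(N) k) (n : ℕ) :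
    qCoeff ⇑(∑ i ∈ s, f i) n = ∑ i ∈ s, qCoeff ⇑(f i) n :=
  map_sum (qCoeffLin N k n) f s

theorem qCoeff_zsmul (c : ℤ) (f : CuspForm Γ₀(N) k) (n : ℕ) :
    qCoeff ⇑(c • f) n = c * qCoeff ⇑f n := by
  have := map_zsmul (qCoeffLin N k n) c f
  rw [zsmul_eq_mul] at this
  exact this

/-- Sturm bound for `Γ₀(N)`. -/
def sturmB (N : ℕ) (k : ℤ) : ℕ := (k * (Γ₀(N)).index).toNat / 12

def trunc (N : ℕ) (k : ℤ) : CuspForm Γ₀(N) k →ₗ[ℂ] (Fin (sturmB N k + 1) → ℂ) :=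
  LinearMap.pi fun i => qCoeffLin N k i

theorem eq_zero_of_qCoeff_sturm [NeZero N] (f : CuspForm Γ₀(N) k)
    (h : ∀ n : ℕ, n ≤ sturmB N k → qCoeff ⇑f n = 0) : f = 0 := by
  have hmf : (ModularFormClass.modularForm f : ModularForm Γ₀(N) k) = 0 := by
    refine ModularForm.sturm_bound_Gamma0 N _ fun n hn ↦ ?_
    have := h n hn
    simpa [qCoeff] using this
  have hcoe : (⇑f : ℍ → ℂ) = 0 := by
    have := congrArg (fun F : ModularForm Γ₀(N) k ↦ (⇑F : ℍ → ℂ)) hmf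
    simpa using this
  exact DFunLike.coe_injective (hcoe.trans (FunLike.coe_zero (F := CuspForm Γ₀(N) k)).symm)

theorem trunc_injective (N : ℕ) [NeZero N] (k : ℤ) : Function.Injective (trunc N k) := by
  refine (injective_iff_map_eq_zero _).mpr fun f hf ↦ ?_
  refine eq_zero_of_qCoeff_sturm f fun n hn => ?_
  exact congrFun hf ⟨n, Nat.lt_succ_of_le hn⟩

theorem finiteDimensional_cuspForm (N : ℕ) [NeZero N] (k : ℤ) :
    FiniteDimensional ℂ (CuspForm Γ₀(N) k) :=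
  Module.Finite.of_injective (trunc N k) (trunc_injective N k)

theorem eq_zero_of_forall_qCoeff [NeZero N] (f : CuspForm Γ₀(N) k)
    (h : ∀ n : ℕ, qCoeff ⇑f n = 0) : f = 0 :=
  eq_zero_of_qCoeff_sturm f fun n _ => h n

theorem ext_of_forall_qCoeff [NeZero N] {f g : CuspForm Γ₀(N) k}
    (h : ∀ n : ℕ, qCoeff ⇑f n = qCoeff ⇑g n) : f = g := by
  refine sub_eq_zero.mp (eq_zero_of_forall_qCoeff _ fun n => ?_)
  rw [qCoeff_sub, h n, sub_self]

theorem qCoeff_zero_eq_zero (f : CuspForm Γ₀(N) k) : qCoeff ⇑f 0 = 0 :=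
  CuspFormClass.qExpansion_coeff_zero f one_pos (one_mem_sp N)

theorem qCoeff_heckeTLin {p : ℕ} (hp : p.Prime) (hpN : ¬ p ∣ N) (f : CuspForm Γ₀(N) k) (n : ℕ) :
    qCoeff ⇑(CuspForm.heckeTLin k hp hpN f) n =
      qCoeff ⇑f (n * p) + if p ∣ n then (p : ℂ) ^ (k - 1) * qCoeff ⇑f (n / p) else 0 := by
  rw [CuspForm.coe_heckeTLin_apply, ModularFormClass.qCoeff_heckeT f (one_mem_sp N) hp.ne_zero]
  rfl

theorem qCoeff_heckeULin [NeZero N] {p : ℕ} (hp : p ≠ 0) (hpN : p ∣ N) (f : CuspForm Γ₀(N) k)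
    (n : ℕ) :
    qCoeff ⇑(CuspForm.heckeULin k hpN f) n = qCoeff ⇑f (n * p) := by
  rw [CuspForm.coe_heckeULin_apply, ModularFormClass.qCoeff_heckeU f (one_mem_sp N) hp]
  rfl

/-! ### Common eigenvectors -/

/-- A form in weight 2 which is an eigenvector for all `T_ℓ` (`ℓ ∤ N`) and `U_q` (`q ∣ N`). -/
structure IsHeckeEigenvector [NeZero N] (f : CuspForm Γ₀(N) 2) (c : ℕ → ℂ) : Prop where
  T : ∀ (ℓ : ℕ) (hℓ : ℓ.Prime) (hℓN : ¬ ℓ ∣ N), CuspForm.heckeTLin 2 hℓ hℓN f = c ℓ • f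
  U : ∀ (q : ℕ) (_ : q.Prime) (hqN : q ∣ N), CuspForm.heckeULin 2 hqN f = c q • f

namespace IsHeckeEigenvector

variable [NeZero N] {f : CuspForm Γ₀(N) 2} {c : ℕ → ℂ}

theorem qCoeff_T (h : IsHeckeEigenvector f c) {ℓ : ℕ} (hℓ : ℓ.Prime) (hℓN : ¬ ℓ ∣ N) (n : ℕ) :
    qCoeff ⇑f (n * ℓ) + (if ℓ ∣ n then (ℓ : ℂ) * qCoeff ⇑f (n / ℓ) else 0) =
      c ℓ * qCoeff ⇑f n := by
  have h1 := congrArg (fun g : CuspForm Γ₀(N) 2 => qCoeff ⇑g n) (h.T ℓ hℓ hℓN)
  simp only [qCoeff_smul, qCoeff_heckeTLin] at h1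
  rw [← h1]
  norm_num

theorem qCoeff_U (h : IsHeckeEigenvector f c) {q : ℕ} (hq : q.Prime) (hqN : q ∣ N) (n : ℕ) :
    qCoeff ⇑f (n * q) = c q * qCoeff ⇑f n := by
  have h1 := congrArg (fun g : CuspForm Γ₀(N) 2 => qCoeff ⇑g n) (h.U q hq hqN)
  simp only [qCoeff_smul, qCoeff_heckeULin hq.ne_zero] at h1
  exact h1

theorem qCoeff_prime (h : IsHeckeEigenvector f c) {p : ℕ} (hp : p.Prime) :
    qCoeff ⇑f p = c p * qCoeff ⇑f 1 := by
  by_cases hpN : p ∣ N
  · simpa using h.qCoeff_U hp hpN 1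
  · have := h.qCoeff_T hp hpN 1
    rw [if_neg (by simpa using hp.one_lt.ne'), add_zero, one_mul] at this
    exact this

/-- coprime step: `a(n p) = c(p) a(n)` when `p ∤ n`. -/
theorem qCoeff_mul_prime_of_not_dvd (h : IsHeckeEigenvector f c) {p n : ℕ} (hp : p.Prime)
    (hpn : ¬ p ∣ n) : qCoeff ⇑f (n * p) = c p * qCoeff ⇑f n := by
  by_cases hpN : p ∣ N
  · exact h.qCoeff_U hp hpN n
  · have := h.qCoeff_T hp hpN n
    rwa [if_neg hpn, add_zero] at this

/-- the recursion for one prime: `a(n p^(r+2))`. -/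
theorem qCoeff_prime_pow_step (h : IsHeckeEigenvector f c) {p : ℕ} (hp : p.Prime) (n r : ℕ) :
    qCoeff ⇑f (n * p ^ (r + 2)) = c p * qCoeff ⇑f (n * p ^ (r + 1)) -
      (if p ∣ N then 0 else (p : ℂ)) * qCoeff ⇑f (n * p ^ r) := by
  by_cases hpN : p ∣ N
  · have := h.qCoeff_U hp hpN (n * p ^ (r + 1))
    rw [if_pos hpN, zero_mul, sub_zero, ← this]
    congr 1
    ring
  · have := h.qCoeff_T hp hpN (n * p ^ (r + 1))
    have hdvd : p ∣ n * p ^ (r + 1) := Dvd.dvd.mul_left (dvd_pow_self p (Nat.succ_ne_zero r)) n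
    rw [if_pos hdvd] at this
    have hdiv : n * p ^ (r + 1) / p = n * p ^ r := by
      rw [pow_succ, ← mul_assoc, Nat.mul_div_cancel _ hp.pos]
    rw [hdiv] at this
    rw [if_neg hpN, ← this]
    have : n * p ^ (r + 2) = n * p ^ (r + 1) * p := by ring
    rw [this]
    ring

theorem qCoeff_mul_prime_pow (h : IsHeckeEigenvector f c) (h1 : qCoeff ⇑f 1 = 1) {p n : ℕ}
    (hp : p.Prime) (hpn : ¬ p ∣ n) (r : ℕ) :
    qCoeff ⇑f (n * p ^ r) = qCoeff ⇑f n * qCoeff ⇑f (p ^ r) := by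
  induction r using Nat.strong_induction_on with
  | _ r ih =>
    match r, ih with
    | 0, _ => simp [h1]
    | 1, _ =>
      rw [pow_one, h.qCoeff_mul_prime_of_not_dvd hp hpn, h.qCoeff_prime hp, h1, mul_one, mul_comm]
    | (r + 2), ih =>
      have e1 := h.qCoeff_prime_pow_step hp n r
      have e2 := h.qCoeff_prime_pow_step hp 1 r
      rw [one_mul, one_mul, one_mul] at e2
      rw [e1, e2, ih (r + 1) (by omega), ih r (by omega)]
      ring

theorem qCoeff_mul_of_coprime (h : IsHeckeEigenvector f c) (h1 : qCoeff ⇑f 1 = 1) :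
    ∀ m n : ℕ, m.Coprime n → qCoeff ⇑f (m * n) = qCoeff ⇑f m * qCoeff ⇑f n := by
  intro m n hmn
  induction n using Nat.recOnPrimeCoprime generalizing m with
  | zero =>
    rw [Nat.coprime_zero_right] at hmn
    subst hmn
    rw [h1, one_mul, one_mul]
  | prime_pow p r hp =>
    rcases Nat.eq_zero_or_pos r with rfl | hr
    · simp [h1]
    · have hpm : ¬ p ∣ m := by
        have : m.Coprime p := Nat.Coprime.coprime_dvd_right (dvd_pow_self p hr.ne') hmn
        exact (Nat.Prime.coprime_iff_not_dvd hp).mp this.symm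
      exact h.qCoeff_mul_prime_pow h1 hp hpm r
  | coprime a b ha hb hab iha ihb =>
    have hma : m.Coprime a := Nat.Coprime.coprime_mul_right_right hmn
    have hmb : m.Coprime b := Nat.Coprime.coprime_mul_left_right hmn
    have h2 : (m * a).Coprime b := Nat.Coprime.mul_left hmb hab
    rw [← mul_assoc, ihb (m * a) h2, iha m hma, ihb a hab]
    ring

theorem isNormalizedEigenform (h : IsHeckeEigenvector f c) (h1 : qCoeff ⇑f 1 = 1) :
    f.IsNormalizedEigenform where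
  qCoeff_one := h1
  qCoeff_mul_of_coprime := h.qCoeff_mul_of_coprime h1
  qCoeff_prime_pow_of_not_dvd p r hp hpN := by
    have e := h.qCoeff_prime_pow_step hp 1 r
    rw [one_mul, one_mul, one_mul, if_neg hpN] at e
    rw [e, h.qCoeff_prime hp, h1, mul_one]
  qCoeff_prime_pow_of_dvd p r hp hpN := by
    have e := h.qCoeff_prime_pow_step hp 1 r
    rw [one_mul, one_mul, one_mul, if_pos hpN, zero_mul, sub_zero] at e
    rw [e, h.qCoeff_prime hp, h1, mul_one]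

/-- the first coefficient of a nonzero eigenvector is nonzero. -/
theorem qCoeff_one_ne_zero (h : IsHeckeEigenvector f c) (hf : f ≠ 0) : qCoeff ⇑f 1 ≠ 0 := by
  intro h1
  apply hf
  refine eq_zero_of_forall_qCoeff f fun n => ?_
  rcases Nat.eq_zero_or_pos n with rfl | hn
  · exact qCoeff_zero_eq_zero f
  induction n using Nat.strong_induction_on with
  | _ n ih =>
    rcases eq_or_ne n 1 with rfl | hn1
    · exact h1
    obtain ⟨p, hp, m, rfl⟩ := Nat.exists_prime_and_dvd hn1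
    have hm : 0 < m := Nat.pos_of_mul_pos_left hn
    have hmlt : m < p * m := by
      have := hp.two_le
      nlinarith
    by_cases hpN : p ∣ N
    · have := h.qCoeff_U hp hpN m
      rw [mul_comm] at this
      rw [this, ih m hmlt hm, mul_zero]
    · have := h.qCoeff_T hp hpN m
      rw [ih m hmlt hm, mul_zero, mul_comm m p] at this
      by_cases hpm : p ∣ m
      · rw [if_pos hpm] at this
        have hlt : m / p < p * m := (Nat.div_le_self m p).trans_lt hmlt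
        have hpos : 0 < m / p := Nat.div_pos (Nat.le_of_dvd hm hpm) hp.pos
        rw [ih (m / p) hlt hpos, mul_zero, add_zero] at this
        exact this
      · rwa [if_neg hpm, add_zero] at this

theorem smul (h : IsHeckeEigenvector f c) (a : ℂ) : IsHeckeEigenvector (a • f) c where
  T ℓ hℓ hℓN := by rw [map_smul, h.T ℓ hℓ hℓN, smul_comm]
  U q hq hqN := by rw [map_smul, h.U q hq hqN, smul_comm]

/-- normalising an eigenvector. -/
theorem exists_normalized (h : IsHeckeEigenvector f c) (hf : f ≠ 0) :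
    ∃ g : CuspForm Γ₀(N) 2, IsHeckeEigenvector g c ∧ g.IsNormalizedEigenform ∧
      (∀ p : ℕ, p.Prime → qCoeff ⇑g p = c p) ∧ g = (qCoeff ⇑f 1)⁻¹ • f := by
  have h1 := h.qCoeff_one_ne_zero hf
  have hg := h.smul (qCoeff ⇑f 1)⁻¹
  have hg1 : qCoeff ⇑((qCoeff ⇑f 1)⁻¹ • f) 1 = 1 := by
    rw [qCoeff_smul, inv_mul_cancel₀ h1]
  exact ⟨_, hg, hg.isNormalizedEigenform hg1,
    fun p hp => by rw [hg.qCoeff_prime hp, hg1, mul_one], rfl⟩

end IsHeckeEigenvector

/-- Hecke operators (all `T_ℓ`, `U_q`) are integral over `ℤ` when integral forms span. -/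
theorem isIntegral_of_mem_heckeAlgebra [NeZero N] {k : ℤ} (hk : 1 ≤ k)
    (h : CuspForm.HasIntegralStructure N k) {S : Set ℕ}
    {t : Module.End ℂ (CuspForm Γ₀(N) k)} (ht : t ∈ CuspForm.heckeAlgebra N k S) :
    IsIntegral ℤ t :=
  isIntegral_of_stable_lattice (CuspForm.intLattice N k) (CuspForm.intLattice_fg N k) h t
    fun _ hv => CuspForm.mem_intLattice_of_mem_heckeAlgebra hk ht hv

/-- `Hecke` eigenvectors in weight 2 from common eigenvectors of `heckeGenerators N 2 ∅`. -/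
theorem IsHeckeEigenvector.of_generators [NeZero N] {f : CuspForm Γ₀(N) 2}
    (h : ∀ t ∈ CuspForm.heckeGenerators N 2 ∅, ∃ c : ℂ, t f = c • f) :
    ∃ c : ℕ → ℂ, IsHeckeEigenvector f c := by
  classical
  have hT : ∀ (ℓ : ℕ) (hℓ : ℓ.Prime) (hℓN : ¬ ℓ ∣ N), ∃ c : ℂ,
      CuspForm.heckeTLin 2 hℓ hℓN f = c • f := fun ℓ hℓ hℓN =>
    h _ (CuspForm.heckeTLin_mem_heckeGenerators hℓ hℓN (Set.notMem_empty _))
  have hU : ∀ (q : ℕ) (_ : q.Prime) (hqN : q ∣ N), ∃ c : ℂ,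
      CuspForm.heckeULin 2 hqN f = c • f := fun q hq hqN =>
    h _ (CuspForm.heckeULin_mem_heckeGenerators hq hqN (Set.notMem_empty _))
  refine ⟨fun p => if hp : p.Prime then
    (if hpN : p ∣ N then (hU p hp hpN).choose else (hT p hp hpN).choose) else 0, ?_, ?_⟩
  · intro ℓ hℓ hℓN
    simp only [dif_pos hℓ, dif_neg hℓN]
    exact (hT ℓ hℓ hℓN).choose_spec
  · intro q hq hqN
    simp only [dif_pos hq, dif_pos hqN]
    exact (hU q hq hqN).choose_spec

/-- Conversely a normalised eigenform is a Hecke eigenvector. -/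
theorem _root_.CuspForm.IsNormalizedEigenform.isHeckeEigenvector_H49 [NeZero N]
    {f : CuspForm Γ₀(N) 2} (hf : f.IsNormalizedEigenform) :
    IsHeckeEigenvector f (fun p => qCoeff ⇑f p) := by
  have key : ∀ (p m r : ℕ), p.Prime → ¬ p ∣ m →
      qCoeff ⇑f (m * p ^ r) = qCoeff ⇑f m * qCoeff ⇑f (p ^ r) := fun p m r hp hpm =>
    hf.qCoeff_mul_of_coprime m (p ^ r)
      ((Nat.Coprime.pow_right r ((Nat.Prime.coprime_iff_not_dvd hp).mpr hpm).symm))
  have hzero : qCoeff ⇑f 0 = 0 := qCoeff_zero_eq_zero f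
  refine ⟨fun ℓ hℓ hℓN => ext_of_forall_qCoeff fun n => ?_,
    fun q hq hqN => ext_of_forall_qCoeff fun n => ?_⟩
  · rw [qCoeff_heckeTLin, qCoeff_smul]
    have e0 : ((ℓ : ℂ) ^ ((2 : ℤ) - 1)) = ℓ := by norm_num
    rw [e0]
    rcases Nat.eq_zero_or_pos n with rfl | hn
    · simp [hzero]
    obtain ⟨r, m, hm, rfl⟩ : ∃ r m, ¬ ℓ ∣ m ∧ n = m * ℓ ^ r := by
      obtain ⟨r, m, hm, hn'⟩ := Nat.exists_eq_pow_mul_and_not_dvd hn.ne' ℓ hℓ.ne_one
      exact ⟨r, m, hm, by rw [hn', mul_comm]⟩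
    rw [mul_assoc, ← pow_succ, key ℓ m (r + 1) hℓ hm, key ℓ m r hℓ hm]
    rcases r with _ | r
    · rw [pow_zero, mul_one, if_neg hm, zero_add, pow_one, add_zero, hf.qCoeff_one, mul_one,
        mul_comm]
    · have hdvd : ℓ ∣ m * ℓ ^ (r + 1) := Dvd.dvd.mul_left (dvd_pow_self ℓ (Nat.succ_ne_zero r)) m
      have hdiv : m * ℓ ^ (r + 1) / ℓ = m * ℓ ^ r := by
        rw [pow_succ, ← mul_assoc, Nat.mul_div_cancel _ hℓ.pos]
      rw [if_pos hdvd, hdiv, key ℓ m r hℓ hm, hf.qCoeff_prime_pow_of_not_dvd ℓ r hℓ hℓN]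
      ring
  · rw [qCoeff_heckeULin hq.ne_zero, qCoeff_smul]
    rcases Nat.eq_zero_or_pos n with rfl | hn
    · simp [hzero]
    obtain ⟨r, m, hm, rfl⟩ : ∃ r m, ¬ q ∣ m ∧ n = m * q ^ r := by
      obtain ⟨r, m, hm, hn'⟩ := Nat.exists_eq_pow_mul_and_not_dvd hn.ne' q hq.ne_one
      exact ⟨r, m, hm, by rw [hn', mul_comm]⟩
    rw [mul_assoc, ← pow_succ, key q m (r + 1) hq hm, key q m r hq hm]
    rcases r with _ | r
    · rw [pow_zero, zero_add, pow_one, hf.qCoeff_one, mul_one, mul_comm]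
    · rw [hf.qCoeff_prime_pow_of_dvd q r hq hqN]
      ring

end Fermat.Agent.H49
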