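import Mathlib

/-!
# Complete discrete valuation rings from primes of number fields

* `isDiscreteValuationRing_adicCompletion`: the adic completion of a DVR is a (complete) DVR.
* `exists_completeDVR`: a ring homomorphism `φ : 𝓞 K →+* k` to a field of characteristic `p`
  factors through the residue field of a complete DVR of characteristic `0` with finite residue
  field, receiving `𝓞 K`.
-/

namespace Fermat.Agent.H96

open IsLocalRing

section DVR

/-- A local ring, separated for the maximal ideal, whose maximal ideal is generated by a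
non-nilpotent element is a discrete valuation ring. -/
theorem exists_unit_mul_pow {A : Type*} [CommRing A] [IsLocalRing A]
    [IsHausdorff (maximalIdeal A) A] {ϖ : A} (hϖ : maximalIdeal A = Ideal.span {ϖ}) {x : A}
    (hx : x ≠ 0) : ∃ (n : ℕ) (u : Aˣ), x = u * ϖ ^ n := by
  classical
  have hpow : ∀ n, maximalIdeal A ^ n = Ideal.span {ϖ ^ n} := fun n => by
    rw [hϖ, Ideal.span_singleton_pow]
  have hex : ∃ n, x ∉ maximalIdeal A ^ n := by
    by_contra hcon
    push Not at hcon
    apply hx
    refine IsHausdorff.haus (I := maximalIdeal A) inferInstance x fun n => ?_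
    rw [SModEq.zero, smul_eq_mul, Ideal.mul_top]
    exact hcon n
  obtain ⟨n, hn⟩ : ∃ n, Nat.find hex = n + 1 := by
    refine Nat.exists_eq_succ_of_ne_zero fun h0 => ?_
    have := Nat.find_spec hex
    rw [h0, pow_zero, Ideal.one_eq_top] at this
    exact this Submodule.mem_top
  have h1 : x ∈ maximalIdeal A ^ n := by
    by_contra h
    have := Nat.find_min' hex h
    omega
  have h2 : x ∉ maximalIdeal A ^ (n + 1) := hn ▸ Nat.find_spec hex
  rw [hpow] at h1
  obtain ⟨y, hy⟩ := Ideal.mem_span_singleton'.mp h1
  have hyu : IsUnit y := by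
    by_contra hy'
    apply h2
    have : y ∈ maximalIdeal A := (mem_maximalIdeal y).mpr hy'
    rw [hϖ] at this
    obtain ⟨z, hz⟩ := Ideal.mem_span_singleton'.mp this
    rw [hpow, Ideal.mem_span_singleton']
    exact ⟨z, by rw [← hy, ← hz]; ring⟩
  exact ⟨n, hyu.unit, by rw [IsUnit.unit_spec]; exact hy.symm⟩

theorem isDomain_of_isHausdorff {A : Type*} [CommRing A] [IsLocalRing A]
    [IsHausdorff (maximalIdeal A) A] {ϖ : A} (hϖ : maximalIdeal A = Ideal.span {ϖ})
    (hnil : ∀ n, ϖ ^ n ≠ 0) : IsDomain A := by
  have : NoZeroDivisors A := by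
    refine ⟨fun {a b} hab => ?_⟩
    by_contra hcon
    push Not at hcon
    obtain ⟨n, u, hu⟩ := exists_unit_mul_pow hϖ hcon.1
    obtain ⟨m, v, hv⟩ := exists_unit_mul_pow hϖ hcon.2
    apply hnil (n + m)
    have h1 : ((u * v : Aˣ) : A) * ϖ ^ (n + m) = 0 := by
      rw [← hab, hu, hv]
      push_cast
      ring
    exact (Units.mul_right_eq_zero _).mp h1
  exact NoZeroDivisors.to_isDomain A

theorem isDiscreteValuationRing_of_isHausdorff {A : Type*} [CommRing A] [IsDomain A]
    [IsLocalRing A] [IsHausdorff (maximalIdeal A) A] {ϖ : A}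
    (hϖ : maximalIdeal A = Ideal.span {ϖ}) (h0 : ϖ ≠ 0) : IsDiscreteValuationRing A := by
  refine IsDiscreteValuationRing.ofHasUnitMulPowIrreducibleFactorization
    ⟨ϖ, IsDiscreteValuationRing.irreducible_of_span_eq_maximalIdeal ϖ h0 hϖ, ?_⟩
  intro x hx
  obtain ⟨n, u, hu⟩ := exists_unit_mul_pow hϖ hx
  exact ⟨n, ⟨u, by rw [hu, mul_comm]⟩⟩

variable (R : Type*) [CommRing R] [IsDomain R] [IsDiscreteValuationRing R]

theorem algebraMap_adicCompletion_injective :
    Function.Injective (algebraMap R (AdicCompletion (maximalIdeal R) R)) := by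
  intro x y hxy
  have : IsHausdorff (maximalIdeal R) R := inferInstance
  have h := AdicCompletion.of_injective (maximalIdeal R) R
  exact h hxy

theorem exists_uniformizer_adicCompletion :
    ∃ ϖ : AdicCompletion (maximalIdeal R) R,
      maximalIdeal (AdicCompletion (maximalIdeal R) R) = Ideal.span {ϖ} ∧ ∀ n, ϖ ^ n ≠ 0 := by
  obtain ⟨π, hπ⟩ := IsDiscreteValuationRing.exists_irreducible R
  refine ⟨algebraMap R _ π, ?_, fun n => ?_⟩
  · rw [AdicCompletion.maximalIdeal_eq_map, hπ.maximalIdeal_eq, Ideal.map_span,
      Set.image_singleton]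
  · rw [← map_pow]
    intro h
    have := (injective_iff_map_eq_zero _).mp (algebraMap_adicCompletion_injective R) _ h
    exact pow_ne_zero n hπ.ne_zero this

instance isDomain_adicCompletion : IsDomain (AdicCompletion (maximalIdeal R) R) := by
  obtain ⟨ϖ, h1, h2⟩ := exists_uniformizer_adicCompletion R
  exact isDomain_of_isHausdorff h1 h2

instance isDiscreteValuationRing_adicCompletion :
    IsDiscreteValuationRing (AdicCompletion (maximalIdeal R) R) := by
  obtain ⟨ϖ, h1, h2⟩ := exists_uniformizer_adicCompletion R
  exact isDiscreteValuationRing_of_isHausdorff h1 (by simpa using h2 1)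

end DVR

section NumberField

open NumberField

/-- A ring homomorphism `φ : 𝓞 K →+* k` to a field of characteristic `p` is realised on the
residue field of a complete DVR of characteristic zero with finite residue field. -/
theorem exists_completeDVR {K : Type} [Field K] [NumberField K] {k : Type*} [Field k] {p : ℕ}
    (hp : p.Prime) [CharP k p] (φ : 𝓞 K →+* k) :
    ∃ (O : Type) (_ : CommRing O) (_ : IsDomain O) (_ : IsDiscreteValuationRing O)
      (_ : IsAdicComplete (maximalIdeal O) O) (_ : Finite (ResidueField O)) (_ : CharZero O)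
      (ι : 𝓞 K →+* O) (e : ResidueField O →+* k),
      (p : O) ∈ maximalIdeal O ∧ Function.Injective ι ∧
        (∀ x, e (residue O (ι x)) = φ x) := by
  classical
  set P : Ideal (𝓞 K) := RingHom.ker φ with hP
  have hprime : P.IsPrime := RingHom.ker_isPrime φ
  have hpP : (p : 𝓞 K) ∈ P := by
    rw [hP, RingHom.mem_ker, map_natCast, CharP.cast_eq_zero]
  have hbot : P ≠ ⊥ := by
    intro h
    rw [h, Ideal.mem_bot] at hpP
    exact hp.ne_zero (by exact_mod_cast hpP)
  have hmax : P.IsMaximal := hprime.isMaximal hbot
  let R := Localization.AtPrime P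
  have : IsDiscreteValuationRing R :=
    IsLocalization.AtPrime.isDiscreteValuationRing_of_dedekind_domain (𝓞 K) hbot R
  -- the map `R → k`
  have hunit : ∀ y : P.primeCompl, IsUnit (φ y) := fun y => by
    refine isUnit_iff_ne_zero.mpr fun h => y.2 ?_
    exact (RingHom.mem_ker).mpr h
  let ψ : R →+* k := IsLocalization.lift (M := P.primeCompl) hunit
  have hψ : ∀ x, ψ (algebraMap (𝓞 K) R x) = φ x := fun x => IsLocalization.lift_eq hunit x
  have hlocψ : IsLocalHom ψ := by
    refine ⟨fun x hx => ?_⟩
    obtain ⟨a, s, rfl⟩ := IsLocalization.exists_mk'_eq P.primeCompl x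
    rw [IsLocalization.AtPrime.isUnit_mk'_iff R P a s]
    intro ha
    have h1 : ψ (algebraMap (𝓞 K) R a) = 0 := by
      rw [hψ]
      exact ha
    have h2 : algebraMap (𝓞 K) R a = IsLocalization.mk' R a s * algebraMap (𝓞 K) R s :=
      (IsLocalization.mk'_spec R a s).symm
    rw [h2, map_mul] at h1
    rcases mul_eq_zero.mp h1 with h3 | h3
    · exact hx.ne_zero h3
    · rw [hψ] at h3
      exact (hunit s).ne_zero h3
  let eR : ResidueField R →+* k := ResidueField.lift ψ
  let O := AdicCompletion (maximalIdeal R) R
  have hbij := AdicCompletion.residueField_map_bijective R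
  let m : ResidueField R ≃+* ResidueField O := RingEquiv.ofBijective _ hbij
  have hresfin : Finite (ResidueField R) := by
    have : Finite (𝓞 K ⧸ P) := Ideal.finiteQuotientOfFreeOfNeBot P hbot
    exact Finite.of_equiv _ (IsLocalization.AtPrime.equivQuotMaximalIdeal P R).toEquiv
  have hinj : Function.Injective (algebraMap (𝓞 K) R) :=
    IsLocalization.injective R (Ideal.primeCompl_le_nonZeroDivisors P)
  refine ⟨O, inferInstance, inferInstance, inferInstance, inferInstance,
    Finite.of_equiv _ m.toEquiv, ?_, (algebraMap R O).comp (algebraMap (𝓞 K) R),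
    eR.comp m.symm.toRingHom, ?_, ?_, ?_⟩
  · -- characteristic zero
    refine charZero_of_inj_zero fun n hn => ?_
    have h1 : (algebraMap R O) (algebraMap (𝓞 K) R (n : 𝓞 K)) = 0 := by
      rw [map_natCast, map_natCast]
      exact hn
    have h2 := (injective_iff_map_eq_zero _).mp (algebraMap_adicCompletion_injective R) _ h1
    have h3 := (injective_iff_map_eq_zero _).mp hinj _ h2
    exact_mod_cast h3
  · have h1 : (p : R) ∈ maximalIdeal R := by
      have := (IsLocalization.AtPrime.to_map_mem_maximal_iff R P (p : 𝓞 K)).mpr hpP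
      rwa [map_natCast] at this
    have h2 : algebraMap R O (p : R) ∈ maximalIdeal O := by
      rw [mem_maximalIdeal, mem_nonunits_iff] at h1 ⊢
      exact fun h => h1 (isUnit_of_map_unit (algebraMap R O) _ h)
    rwa [map_natCast] at h2
  · exact (algebraMap_adicCompletion_injective R).comp hinj
  · intro x
    have h1 : residue O (algebraMap R O (algebraMap (𝓞 K) R x))
        = m (residue R (algebraMap (𝓞 K) R x)) := by
      simp only [m, RingEquiv.ofBijective_apply]
      rfl
    simp only [RingHom.comp_apply, h1]
    have h2 : m.symm.toRingHom (m (residue R (algebraMap (𝓞 K) R x)))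
        = residue R (algebraMap (𝓞 K) R x) := m.symm_apply_apply _
    rw [h2, ← hψ x]
    rfl

end NumberField

end Fermat.Agent.H96
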