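import Fermat.Agent.H22FG
import Fermat.Prelude.Def_CuspForm_HeckeAlgebra

/-!
Stability of the lattice of period functionals under Hecke operators.
-/

set_option autoImplicit false

open UpperHalfPlane Filter Topology MeasureTheory Set CongruenceSubgroup
open scoped MatrixGroups ModularForm Manifold

noncomputable section

namespace Fermat.Agent.H22

section decomp

lemma exists_decomp_int (D : Matrix (Fin 2) (Fin 2) ℤ) (hD : 0 < D.det) :
    ∃ (g : SL(2, ℤ)) (B : Matrix (Fin 2) (Fin 2) ℤ),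
      D = (g : Matrix (Fin 2) (Fin 2) ℤ) * B ∧ B 1 0 = 0 ∧ 0 < B 0 0 ∧ 0 < B 1 1 := by
  set x := D 0 0 with hx
  set y := D 1 0 with hy
  have hne : x ≠ 0 ∨ y ≠ 0 := by
    by_contra hcon
    push Not at hcon
    rw [Matrix.det_fin_two, ← hx, ← hy, hcon.1, hcon.2] at hD
    simp at hD
  have hgpos : 0 < (Int.gcd x y : ℤ) := by
    have : Int.gcd x y ≠ 0 := by
      rw [Ne, Int.gcd_eq_zero_iff]
      tauto
    exact_mod_cast Nat.pos_of_ne_zero this
  set d : ℤ := (Int.gcd x y : ℤ) with hd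
  obtain ⟨a, ha⟩ : d ∣ x := Int.gcd_dvd_left ..
  obtain ⟨c, hc⟩ : d ∣ y := Int.gcd_dvd_right ..
  have hbez : d = x * Int.gcdA x y + y * Int.gcdB x y := Int.gcd_eq_gcd_ab x y
  have hdet1 : a * Int.gcdA x y + c * Int.gcdB x y = 1 := by
    have h1 : d * (a * Int.gcdA x y + c * Int.gcdB x y) = d * 1 := by
      have e : d * (a * Int.gcdA x y + c * Int.gcdB x y) =
        (d * a) * Int.gcdA x y + (d * c) * Int.gcdB x y := by ring
      rw [e, ← ha, ← hc, mul_one]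
      exact hbez.symm
    exact mul_left_cancel₀ hgpos.ne' h1
  set u := Int.gcdA x y
  set v := Int.gcdB x y
  -- g = !![a, -v; c, u]
  let g : SL(2, ℤ) := ⟨!![a, -v; c, u], by rw [Matrix.det_fin_two_of]; linarith⟩
  let B : Matrix (Fin 2) (Fin 2) ℤ := !![d, u * D 0 1 + v * D 1 1; 0, - c * D 0 1 + a * D 1 1]
  refine ⟨g, B, ?_, ?_, ?_, ?_⟩
  · ext i j
    fin_cases i <;> fin_cases j
    · simp [g, B, Matrix.mul_apply, Fin.sum_univ_two, ← hx]; linarith
    · simp [g, B, Matrix.mul_apply, Fin.sum_univ_two]; linear_combination (- D 0 1) * hdet1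
    · simp [g, B, Matrix.mul_apply, Fin.sum_univ_two, ← hy]; linarith
    · simp [g, B, Matrix.mul_apply, Fin.sum_univ_two]; linear_combination (- D 1 1) * hdet1
  · simp [B]
  · simpa [B] using hgpos
  · have h1 : d * (- c * D 0 1 + a * D 1 1) = D.det := by
      rw [Matrix.det_fin_two, ← hx, ← hy, ha, hc]; ring
    have h2 : 0 < d * (- c * D 0 1 + a * D 1 1) := by rw [h1]; exact hD
    have := (mul_pos_iff_of_pos_left hgpos).mp h2
    simpa [B] using this

/-- Decomposition of an integral matrix of positive determinant times `SL₂(ℤ)`. -/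
lemma exists_decomp (δ : GL (Fin 2) ℝ) (D : Matrix (Fin 2) (Fin 2) ℤ)
    (hδ : (δ : Matrix (Fin 2) (Fin 2) ℝ) = D.map (Int.cast : ℤ → ℝ)) (hD : 0 < D.det)
    (g : SL(2, ℤ)) :
    ∃ (g' : SL(2, ℤ)) (B : GL (Fin 2) ℝ),
      δ * Matrix.SpecialLinearGroup.mapGL ℝ g = Matrix.SpecialLinearGroup.mapGL ℝ g' * B ∧
        B 1 0 = 0 ∧ 0 < B 0 0 ∧ 0 < B 1 1 := by
  obtain ⟨g', B, hB, h10, h00, h11⟩ := exists_decomp_int (D * g) (by
    rw [Matrix.det_mul, g.det_coe, mul_one]; exact hD)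
  refine ⟨g', (Matrix.SpecialLinearGroup.mapGL ℝ g')⁻¹ * (δ * Matrix.SpecialLinearGroup.mapGL ℝ g),
    by group, ?_⟩
  have key : (((Matrix.SpecialLinearGroup.mapGL ℝ g')⁻¹ *
      (δ * Matrix.SpecialLinearGroup.mapGL ℝ g) : GL (Fin 2) ℝ) : Matrix (Fin 2) (Fin 2) ℝ) =
      B.map (Int.cast : ℤ → ℝ) := by
    have h1 : (Matrix.SpecialLinearGroup.mapGL ℝ g' : Matrix (Fin 2) (Fin 2) ℝ) *
        B.map (Int.cast : ℤ → ℝ) = (δ : Matrix (Fin 2) (Fin 2) ℝ) *
          (Matrix.SpecialLinearGroup.mapGL ℝ g : Matrix (Fin 2) (Fin 2) ℝ) := by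
      rw [hδ, Matrix.SpecialLinearGroup.mapGL_coe_matrix, Matrix.SpecialLinearGroup.mapGL_coe_matrix]
      have h2 : (D * (g : Matrix (Fin 2) (Fin 2) ℤ)).map (Int.cast : ℤ → ℝ) =
          ((g' : Matrix (Fin 2) (Fin 2) ℤ) * B).map (Int.cast : ℤ → ℝ) := by rw [hB]
      have h3 : ∀ X Y : Matrix (Fin 2) (Fin 2) ℤ, (X * Y).map (Int.cast : ℤ → ℝ) =
          X.map (Int.cast : ℤ → ℝ) * Y.map (Int.cast : ℤ → ℝ) := fun X Y =>
        Matrix.map_mul (f := Int.castRingHom ℝ)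
      rw [h3, h3] at h2
      exact h2.symm
    have h4 : (((Matrix.SpecialLinearGroup.mapGL ℝ g')⁻¹ *
      (δ * Matrix.SpecialLinearGroup.mapGL ℝ g) : GL (Fin 2) ℝ) : Matrix (Fin 2) (Fin 2) ℝ) =
      (((Matrix.SpecialLinearGroup.mapGL ℝ g')⁻¹ : GL (Fin 2) ℝ) : Matrix (Fin 2) (Fin 2) ℝ) *
       ((δ : Matrix (Fin 2) (Fin 2) ℝ) *
          (Matrix.SpecialLinearGroup.mapGL ℝ g : Matrix (Fin 2) (Fin 2) ℝ)) := rfl
    rw [h4, ← h1, ← Matrix.mul_assoc]
    have h5 : (((Matrix.SpecialLinearGroup.mapGL ℝ g')⁻¹ : GL (Fin 2) ℝ) : Matrix (Fin 2) (Fin 2) ℝ) *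
        (Matrix.SpecialLinearGroup.mapGL ℝ g' : Matrix (Fin 2) (Fin 2) ℝ) = 1 :=
      Units.inv_mul _
    rw [h5, Matrix.one_mul]
  rw [key]
  refine ⟨?_, ?_, ?_⟩
  · simp [h10]
  · simpa using h00
  · simpa using h11

lemma tendsto_of_decomp {h : ℍ → ℂ} (hh : Good h) {δ B : GL (Fin 2) ℝ} {g g' : SL(2, ℤ)}
    (hdec : δ * Matrix.SpecialLinearGroup.mapGL ℝ g = Matrix.SpecialLinearGroup.mapGL ℝ g' * B)
    (h10 : B 1 0 = 0) (h00 : 0 < B 0 0) (h11 : 0 < B 1 1) (x : ℝ) :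
    Tendsto (fun y : ℝ => prim h (δ • (g • ofComplex (x + y * Complex.I)))) atTop
      (𝓝 (Phi h g')) := by
  have h1 : ∀ τ : ℍ, δ • (g • τ) = g' • (B • τ) := fun τ => by
    have : (δ * Matrix.SpecialLinearGroup.mapGL ℝ g) • τ =
      (Matrix.SpecialLinearGroup.mapGL ℝ g' * B) • τ := by rw [hdec]
    rw [mul_smul, mul_smul] at this
    exact this
  simp only [h1, hh.prim_smul_eq]
  simpa using (((hh.slash g').vzero_prim.comp_upper h10 h00 h11) x).add_const (Phi h g')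

end decomp

section PolHecke

variable {w : ℕ}

lemma exists_Pol_heckeMatrix {p : ℕ} (hp : p ≠ 0) (j : ℕ) {P : ℍ → ℂ} (hP : P ∈ Pol ℤ w) :
    ∃ P' ∈ Pol ℤ w, ∀ τ, P' (ModularForm.heckeMatrix p j • τ) = P τ := by
  induction hP using Submodule.span_induction with
  | mem x hx =>
    obtain ⟨i, hi, rfl⟩ := hx
    refine ⟨_, lin_mem_Pol (R := ℤ) (w := w) (p : ℤ) (-(j : ℤ)) 0 1 hi, fun τ => ?_⟩
    simp only [ModularForm.coe_heckeMatrix_smul hp]
    have hp' : (p : ℂ) ≠ 0 := by exact_mod_cast hp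
    push_cast
    rw [zero_mul, zero_add, one_pow, mul_one]
    congr 1
    field_simp
    ring
  | zero => exact ⟨0, zero_mem _, fun τ => rfl⟩
  | add x y _ _ hx hy =>
    obtain ⟨x', hx', hx⟩ := hx
    obtain ⟨y', hy', hy⟩ := hy
    exact ⟨x' + y', add_mem hx' hy', fun τ => by simp [hx, hy]⟩
  | smul a x _ hx =>
    obtain ⟨x', hx', hx⟩ := hx
    exact ⟨a • x', Submodule.smul_mem _ _ hx', fun τ => by simp [hx]⟩

lemma exists_Pol_heckeDiagMatrix {p : ℕ} (hp : p ≠ 0) {P : ℍ → ℂ} (hP : P ∈ Pol ℤ w) :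
    ∃ P' ∈ Pol ℤ w, ∀ τ, P' (ModularForm.heckeDiagMatrix p • τ) = (p : ℂ) ^ w * P τ := by
  induction hP using Submodule.span_induction with
  | mem x hx =>
    obtain ⟨i, hi, rfl⟩ := hx
    refine ⟨_, lin_mem_Pol (R := ℤ) (w := w) 1 0 0 (p : ℤ) hi, fun τ => ?_⟩
    simp only [ModularForm.coe_heckeDiagMatrix_smul hp]
    push_cast
    obtain ⟨m, rfl⟩ := Nat.exists_eq_add_of_le hi
    rw [Nat.add_sub_cancel_left]
    ring
  | zero => exact ⟨0, zero_mem _, fun τ => by simp⟩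
  | add x y _ _ hx hy =>
    obtain ⟨x', hx', hx⟩ := hx
    obtain ⟨y', hy', hy⟩ := hy
    exact ⟨x' + y', add_mem hx' hy', fun τ => by simp [hx, hy]; ring⟩
  | smul a x _ hx =>
    obtain ⟨x', hx', hx⟩ := hx
    exact ⟨a • x', Submodule.smul_mem _ _ hx', fun τ => by simp [hx]; ring⟩

end PolHecke

section stable

variable {N : ℕ} [NeZero N] {w : ℕ}

/-- The primitive of a slash by a Hecke matrix times a polynomial. -/
lemma prim_heckeMatrix {f P P' : ℍ → ℂ} (hf : CuspLike ((w : ℤ) + 2) f) (hP' : P' ∈ Pol ℤ w)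
    {p : ℕ} (hp : p ≠ 0) (j : ℕ) (h : ∀ τ, P' (ModularForm.heckeMatrix p j • τ) = P τ) :
    IsPrim (fun τ => prim (f * P') (ModularForm.heckeMatrix p j • τ))
        ((f ∣[(w : ℤ) + 2] ModularForm.heckeMatrix p j) * P) ∧
      VZero (fun τ => prim (f * P') (ModularForm.heckeMatrix p j • τ)) := by
  have hg := hf.good_mul hP'
  constructor
  · have h1 := hg.isPrim_prim.comp_slash (ModularForm.det_heckeMatrix_pos p j)
    convert h1 using 1
    funext τ
    rw [Pi.mul_apply, ModularForm.slash_heckeMatrix_apply _ hp,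
      ModularForm.slash_heckeMatrix_apply _ hp, Pi.mul_apply, h]
    ring
  · refine hg.vzero_prim.comp_upper ?_ ?_ ?_
    · simp [ModularForm.val_heckeMatrix hp]
    · simp [ModularForm.val_heckeMatrix hp]
    · simpa [ModularForm.val_heckeMatrix hp] using Nat.pos_of_ne_zero hp

lemma prim_heckeDiagMatrix {f P P' : ℍ → ℂ} (hf : CuspLike ((w : ℤ) + 2) f) (hP' : P' ∈ Pol ℤ w)
    {p : ℕ} (hp : p ≠ 0) (h : ∀ τ, P' (ModularForm.heckeDiagMatrix p • τ) = (p : ℂ) ^ w * P τ) :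
    IsPrim (fun τ => prim (f * P') (ModularForm.heckeDiagMatrix p • τ))
        ((f ∣[(w : ℤ) + 2] ModularForm.heckeDiagMatrix p) * P) ∧
      VZero (fun τ => prim (f * P') (ModularForm.heckeDiagMatrix p • τ)) := by
  have hg := hf.good_mul hP'
  constructor
  · have h1 := hg.isPrim_prim.comp_slash (ModularForm.det_heckeDiagMatrix_pos p)
    convert h1 using 1
    funext τ
    rw [Pi.mul_apply, ModularForm.slash_heckeDiagMatrix_apply _ hp,
      ModularForm.slash_heckeDiagMatrix_apply _ hp, Pi.mul_apply, h]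
    have e : ((w : ℤ) + 2 - 1) = ((w + 1 : ℕ) : ℤ) := by push_cast; ring
    rw [e, zpow_natCast, show ((2 : ℤ) - 1) = 1 by norm_num, zpow_one]
    ring
  · refine hg.vzero_prim.comp_upper ?_ ?_ ?_
    · simp [ModularForm.val_heckeDiagMatrix hp]
    · simpa [ModularForm.val_heckeDiagMatrix hp] using Nat.pos_of_ne_zero hp
    · simp [ModularForm.val_heckeDiagMatrix hp]

lemma IsPrim.sum {ι : Type*} (s : Finset ι) {F h : ι → ℍ → ℂ} (H : ∀ i ∈ s, IsPrim (F i) (h i)) :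
    IsPrim (∑ i ∈ s, F i) (∑ i ∈ s, h i) := by
  classical
  induction s using Finset.induction_on with
  | empty => simpa using isPrim_zero
  | insert a s ha ih =>
    rw [Finset.sum_insert ha, Finset.sum_insert ha]
    exact (H a (Finset.mem_insert_self _ _)).add (ih fun i hi => H i (Finset.mem_insert_of_mem hi))

lemma VZero.sum {ι : Type*} (s : Finset ι) {F : ι → ℍ → ℂ} (H : ∀ i ∈ s, VZero (F i)) :
    VZero (∑ i ∈ s, F i) := by
  classical
  induction s using Finset.induction_on with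
  | empty => simpa using vzero_zero
  | insert a s ha ih =>
    rw [Finset.sum_insert ha]
    exact (H a (Finset.mem_insert_self _ _)).add (ih fun i hi => H i (Finset.mem_insert_of_mem hi))

lemma heckeMatrix_int {p : ℕ} (hp : p ≠ 0) (j : ℕ) :
    ((ModularForm.heckeMatrix p j : GL (Fin 2) ℝ) : Matrix (Fin 2) (Fin 2) ℝ) =
      (!![(1 : ℤ), (j : ℤ); 0, (p : ℤ)]).map (Int.cast : ℤ → ℝ) := by
  rw [ModularForm.val_heckeMatrix hp]
  ext i j
  fin_cases i <;> fin_cases j <;> simp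

lemma heckeDiagMatrix_int {p : ℕ} (hp : p ≠ 0) :
    ((ModularForm.heckeDiagMatrix p : GL (Fin 2) ℝ) : Matrix (Fin 2) (Fin 2) ℝ) =
      (!![(p : ℤ), 0; 0, (1 : ℤ)]).map (Int.cast : ℤ → ℝ) := by
  rw [ModularForm.val_heckeDiagMatrix hp]
  ext i j
  fin_cases i <;> fin_cases j <;> simp

/-- Composition of a period functional with an operator given by `heckeU`. -/
lemma exists_Lam_heckeU {p : ℕ} (hp : p ≠ 0) {P : ℍ → ℂ} (hP : P ∈ Pol ℤ w) (g : SL(2, ℤ)) :
    ∃ L ∈ M N w, ∀ (f : CuspForm (Gamma0 N) ((w : ℤ) + 2)),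
      ∃ F : ℍ → ℂ, IsPrim F (ModularForm.heckeU ((w : ℤ) + 2) p f * P) ∧ VZero F ∧
        Tendsto (fun y : ℝ => F (g • ofComplex ((0 : ℝ) + y * Complex.I))) atTop (𝓝 (L f)) := by
  choose P' hP' hPP' using fun j : ℕ => exists_Pol_heckeMatrix (w := w) hp j hP
  choose g' B hdec h10 h00 h11 using fun j : ℕ =>
    exists_decomp (ModularForm.heckeMatrix p j) _ (heckeMatrix_int hp j)
      (by simpa using Nat.pos_of_ne_zero hp) g
  refine ⟨∑ j ∈ Finset.range p, Lam N 1 (hP' j) (g' j),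
    Submodule.sum_mem _ fun j _ => Submodule.subset_span ⟨P' j, hP' j, g' j, rfl⟩, fun f => ?_⟩
  have hf := cuspLike_of_cuspForm f
  refine ⟨∑ j ∈ Finset.range p, fun τ => prim (f * P' j) (ModularForm.heckeMatrix p j • τ),
    ?_, ?_, ?_⟩
  · rw [ModularForm.heckeU_def, Finset.sum_mul]
    exact IsPrim.sum _ fun j _ => (prim_heckeMatrix hf (hP' j) hp j (hPP' j)).1
  · exact VZero.sum _ fun j _ => (prim_heckeMatrix hf (hP' j) hp j (hPP' j)).2
  · rw [LinearMap.sum_apply]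
    simp only [Finset.sum_apply]
    refine tendsto_finsetSum _ fun j _ => ?_
    have := tendsto_of_decomp (hf.good_mul (hP' j)) (hdec j) (h10 j) (h00 j) (h11 j) 0
    simpa only [Lam_apply, SlashAction.slash_one] using this

lemma exists_Lam_heckeDiag {p : ℕ} (hp : p ≠ 0) {P : ℍ → ℂ} (hP : P ∈ Pol ℤ w) (g : SL(2, ℤ)) :
    ∃ L ∈ M N w, ∀ (f : CuspForm (Gamma0 N) ((w : ℤ) + 2)),
      ∃ F : ℍ → ℂ, IsPrim F (((f : ℍ → ℂ) ∣[(w : ℤ) + 2] ModularForm.heckeDiagMatrix p) * P) ∧ VZero F ∧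
        Tendsto (fun y : ℝ => F (g • ofComplex ((0 : ℝ) + y * Complex.I))) atTop (𝓝 (L f)) := by
  obtain ⟨P', hP', hPP'⟩ := exists_Pol_heckeDiagMatrix (w := w) hp hP
  obtain ⟨g', B, hdec, h10, h00, h11⟩ :=
    exists_decomp (ModularForm.heckeDiagMatrix p) _ (heckeDiagMatrix_int hp)
      (by simpa using Nat.pos_of_ne_zero hp) g
  refine ⟨Lam N 1 hP' g', Submodule.subset_span ⟨P', hP', g', rfl⟩, fun f => ?_⟩
  have hf := cuspLike_of_cuspForm f
  refine ⟨fun τ => prim (f * P') (ModularForm.heckeDiagMatrix p • τ), ?_, ?_, ?_⟩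
  · exact (prim_heckeDiagMatrix hf hP' hp hPP').1
  · exact (prim_heckeDiagMatrix hf hP' hp hPP').2
  · have := tendsto_of_decomp (hf.good_mul hP') hdec h10 h00 h11 0
    simpa only [Lam_apply, SlashAction.slash_one] using this

lemma M_comp_heckeULin {q : ℕ} (hq : q ≠ 0) (hqN : q ∣ N)
    {L : CuspForm (Gamma0 N) ((w : ℤ) + 2) →ₗ[ℂ] ℂ} (hL : L ∈ M N w) :
    L ∘ₗ CuspForm.heckeULin ((w : ℤ) + 2) hqN ∈ M N w := by
  induction hL using Submodule.span_induction with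
  | mem x hx =>
    obtain ⟨P, hP, g, rfl⟩ := hx
    obtain ⟨L, hL, H⟩ := exists_Lam_heckeU (N := N) hq hP g
    convert hL using 1
    ext f
    obtain ⟨F, hF, hF0, hlim⟩ := H f
    have h1 := (cuspLike_of_cuspForm (CuspForm.heckeULin ((w : ℤ) + 2) hqN f)).good_mul hP
    have h2 := h1.tendsto_phi g 0
    have h3 : prim ((CuspForm.heckeULin ((w : ℤ) + 2) hqN f : ℍ → ℂ) * P) = F := by
      apply prim_eq _ hF0
      rw [CuspForm.coe_heckeULin_apply]
      exact hF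
    rw [h3] at h2
    rw [LinearMap.comp_apply, Lam_apply, SlashAction.slash_one]
    exact tendsto_nhds_unique h2 hlim
  | zero => simp
  | add x y _ _ hx hy => rw [LinearMap.add_comp]; exact add_mem hx hy
  | smul a x _ hx =>
    have : (a • x) ∘ₗ CuspForm.heckeULin ((w : ℤ) + 2) hqN =
      a • (x ∘ₗ CuspForm.heckeULin ((w : ℤ) + 2) hqN) := by ext; simp
    rw [this]; exact Submodule.smul_mem _ _ hx

lemma M_comp_heckeTLin {p : ℕ} (hp : p.Prime) (hpN : ¬ p ∣ N)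
    {L : CuspForm (Gamma0 N) ((w : ℤ) + 2) →ₗ[ℂ] ℂ} (hL : L ∈ M N w) :
    L ∘ₗ CuspForm.heckeTLin ((w : ℤ) + 2) hp hpN ∈ M N w := by
  induction hL using Submodule.span_induction with
  | mem x hx =>
    obtain ⟨P, hP, g, rfl⟩ := hx
    obtain ⟨L, hL, H⟩ := exists_Lam_heckeU (N := N) hp.ne_zero hP g
    obtain ⟨L', hL', H'⟩ := exists_Lam_heckeDiag (N := N) hp.ne_zero hP g
    convert add_mem hL hL' using 1
    ext f
    obtain ⟨F, hF, hF0, hlim⟩ := H f
    obtain ⟨F', hF', hF0', hlim'⟩ := H' f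
    have h1 := (cuspLike_of_cuspForm (CuspForm.heckeTLin ((w : ℤ) + 2) hp hpN f)).good_mul hP
    have h2 := h1.tendsto_phi g 0
    have h3 : prim ((CuspForm.heckeTLin ((w : ℤ) + 2) hp hpN f : ℍ → ℂ) * P) = F + F' := by
      apply prim_eq _ (hF0.add hF0')
      rw [CuspForm.coe_heckeTLin_apply, ModularForm.heckeT_eq_heckeU_add, add_mul]
      exact hF.add hF'
    rw [h3] at h2
    rw [LinearMap.comp_apply, Lam_apply, SlashAction.slash_one]
    exact tendsto_nhds_unique h2 (hlim.add hlim')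
  | zero => simp
  | add x y _ _ hx hy => rw [LinearMap.add_comp]; exact add_mem hx hy
  | smul a x _ hx =>
    have : (a • x) ∘ₗ CuspForm.heckeTLin ((w : ℤ) + 2) hp hpN =
      a • (x ∘ₗ CuspForm.heckeTLin ((w : ℤ) + 2) hp hpN) := by ext; simp
    rw [this]; exact Submodule.smul_mem _ _ hx

lemma M_comp_heckeAlgebra {S : Set ℕ} {t : Module.End ℂ (CuspForm (Gamma0 N) ((w : ℤ) + 2))}
    (ht : t ∈ CuspForm.heckeAlgebra N ((w : ℤ) + 2) S)
    {L : CuspForm (Gamma0 N) ((w : ℤ) + 2) →ₗ[ℂ] ℂ} (hL : L ∈ M N w) :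
    L ∘ₗ t ∈ M N w := by
  induction ht using Algebra.adjoin_induction generalizing L with
  | mem x hx =>
    rcases hx with ⟨ℓ, hℓ, hℓN, -, rfl⟩ | ⟨q, hqN, hq, -, rfl⟩
    · exact M_comp_heckeTLin hℓ hℓN hL
    · exact M_comp_heckeULin hq.ne_zero hqN hL
  | algebraMap r =>
    have : L ∘ₗ (algebraMap ℤ (Module.End ℂ (CuspForm (Gamma0 N) ((w : ℤ) + 2))) r) = r • L := by
      ext f
      simp
    rw [this]; exact Submodule.smul_mem _ _ hL
  | add x y _ _ hx hy =>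
    rw [LinearMap.comp_add]; exact add_mem (hx hL) (hy hL)
  | mul x y _ _ hx hy =>
    rw [Module.End.mul_eq_comp, ← LinearMap.comp_assoc]
    exact hy (hx hL)

end stable

end Fermat.Agent.H22
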