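import Fermat.Agent.H22FG

/-!
Eichler integrals and the vanishing of cusp forms without periods.
-/

set_option autoImplicit false

open UpperHalfPlane Filter Topology MeasureTheory Set CongruenceSubgroup
open scoped MatrixGroups ModularForm Manifold

noncomputable section

namespace Fermat.Agent.H22

/-- Holomorphic with exponential decay in strips. -/
structure SD (h : ℍ → ℂ) : Prop where
  hol : MDifferentiable 𝓘(ℂ) 𝓘(ℂ) h
  dec : SDecay h

section SD

variable {h k : ℍ → ℂ}

lemma SD.add (hh : SD h) (hk : SD k) : SD (h + k) := ⟨hh.hol.add hk.hol, hh.dec.add hk.dec⟩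

lemma SD.smul (hh : SD h) (a : ℂ) : SD (a • h) := ⟨hh.hol.const_smul a, hh.dec.smul a⟩

lemma SD.coe_mul (hh : SD h) : SD (fun τ => (τ : ℂ) * h τ) :=
  ⟨mdifferentiable_coe.mul hh.hol, hh.dec.coe_mul⟩

lemma SD.isPrim_prim (hh : SD h) : IsPrim (prim h) h := by
  obtain ⟨F, hF, h0⟩ := exists_isPrim_vzero hh.hol hh.dec
  rwa [prim_eq hF h0]

lemma SD.vzero_prim (hh : SD h) : VZero (prim h) := by
  obtain ⟨F, hF, h0⟩ := exists_isPrim_vzero hh.hol hh.dec
  rwa [prim_eq hF h0]

lemma SD.prim_add (hh : SD h) (hk : SD k) : prim (h + k) = prim h + prim k :=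
  prim_eq (hh.isPrim_prim.add hk.isPrim_prim) (hh.vzero_prim.add hk.vzero_prim)

lemma SD.prim_smul (hh : SD h) (c : ℂ) : prim (c • h) = c • prim h :=
  prim_eq (hh.isPrim_prim.smul c) (hh.vzero_prim.smul c)

lemma SD.pow_sub_mul (hh : SD h) (z : ℂ) (n : ℕ) : SD (fun u : ℍ => (z - u) ^ n * h u) := by
  induction n with
  | zero => simpa using hh
  | succ n ih =>
    have e : (fun u : ℍ => (z - u) ^ (n + 1) * h u) =
        (z • (fun u : ℍ => (z - u) ^ n * h u)) +
          ((-1 : ℂ) • (fun u : ℍ => (u : ℂ) * ((z - u) ^ n * h u))) := by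
      funext u; simp only [Pi.add_apply, Pi.smul_apply, smul_eq_mul]; ring
    rw [e]
    exact (ih.smul z).add (ih.coe_mul.smul _)

end SD

/-- Iterated Eichler integral: `Eic n h z = ∫_∞^z (z-u)^n h(u) du`. -/
def Eic : ℕ → (ℍ → ℂ) → (ℍ → ℂ)
  | 0, h => prim h
  | (n + 1), h => fun z => (z : ℂ) * Eic n h z - Eic n (fun u => (u : ℂ) * h u) z

lemma Eic_eq {h : ℍ → ℂ} (n : ℕ) (hh : SD h) (z : ℍ) :
    Eic n h z = prim (fun u : ℍ => ((z : ℂ) - u) ^ n * h u) z := by
  induction n generalizing h with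
  | zero => simp [Eic]
  | succ n ih =>
    show (z : ℂ) * Eic n h z - Eic n (fun u => (u : ℂ) * h u) z = _
    rw [ih hh, ih hh.coe_mul]
    have e : (fun u : ℍ => ((z : ℂ) - u) ^ (n + 1) * h u) =
        ((z : ℂ) • (fun u : ℍ => ((z : ℂ) - u) ^ n * h u)) +
          ((-1 : ℂ) • (fun u : ℍ => ((z : ℂ) - u) ^ n * ((u : ℂ) * h u))) := by
      funext u; simp only [Pi.add_apply, Pi.smul_apply, smul_eq_mul]; ring
    have h1 := hh.pow_sub_mul (z : ℂ) n
    have h2 := hh.coe_mul.pow_sub_mul (z : ℂ) n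
    rw [e, (h1.smul _).prim_add (h2.smul _), h1.prim_smul, h2.prim_smul]
    simp only [Pi.add_apply, Pi.smul_apply, smul_eq_mul]
    ring

lemma isPrim_coe : IsPrim (fun z : ℍ => (z : ℂ)) 1 := by
  rw [isPrim_iff]
  intro z hz
  refine (hasDerivAt_id z).congr_of_eventuallyEq ?_
  filter_upwards [isOpen_upperHalfPlaneSet.mem_nhds hz] with w hw
  simp [Function.comp, ofComplex_apply_of_im_pos hw]

lemma IsPrim.mul {F G h k : ℍ → ℂ} (hF : IsPrim F h) (hG : IsPrim G k) :
    IsPrim (fun z => F z * G z) (fun z => h z * G z + F z * k z) := by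
  intro τ
  have := (hF τ).mul (hG τ)
  simp only [Function.comp_apply, ofComplex_apply] at this
  exact this

lemma isPrim_Eic {h : ℍ → ℂ} (n : ℕ) (hh : SD h) :
    IsPrim (Eic (n + 1) h) (((n + 1 : ℕ) : ℂ) • Eic n h) := by
  induction n generalizing h with
  | zero =>
    have h1 := (isPrim_coe.mul hh.isPrim_prim).sub hh.coe_mul.isPrim_prim
    have e : (((0 + 1 : ℕ) : ℂ) • Eic 0 h) =
        (fun z : ℍ => (1 : ℍ → ℂ) z * prim h z + (z : ℂ) * h z) - (fun τ : ℍ => (τ : ℂ) * h τ) := by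
      funext z
      simp [Eic]
    rw [e]
    exact h1
  | succ n ih =>
    have h1 := (isPrim_coe.mul (ih hh)).sub (ih hh.coe_mul)
    have e : (((n + 1 + 1 : ℕ) : ℂ) • Eic (n + 1) h) =
        (fun z : ℍ => (1 : ℍ → ℂ) z * Eic (n + 1) h z + (z : ℂ) * (((n + 1 : ℕ) : ℂ) • Eic n h) z) -
          ((n + 1 : ℕ) : ℂ) • Eic n (fun τ : ℍ => (τ : ℂ) * h τ) := by
      funext z
      simp only [Pi.smul_apply, Pi.sub_apply, smul_eq_mul, Pi.one_apply, Eic]
      push_cast
      ring
    rw [e]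
    exact h1

lemma eq_zero_of_isPrim_zero {h : ℍ → ℂ} (H : IsPrim 0 h) : h = 0 := by
  funext τ
  have h1 := H τ
  have h2 : HasDerivAt ((0 : ℍ → ℂ) ∘ ofComplex) 0 (τ : ℂ) := hasDerivAt_const (τ : ℂ) (0 : ℂ)
  exact h1.unique h2

lemma eq_zero_of_Eic {h : ℍ → ℂ} (n : ℕ) (hh : SD h) (H : Eic n h = 0) : h = 0 := by
  induction n with
  | zero =>
    have h1 := hh.isPrim_prim
    rw [show prim h = 0 from H] at h1
    exact eq_zero_of_isPrim_zero h1
  | succ n ih =>
    have h1 := isPrim_Eic n hh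
    rw [H] at h1
    have h2 := eq_zero_of_isPrim_zero h1
    have h3 : ((n + 1 : ℕ) : ℂ) ≠ 0 := by exact_mod_cast Nat.succ_ne_zero n
    exact ih ((smul_eq_zero.mp h2).resolve_left h3)

section decay

lemma CuspLike.sd {k : ℤ} {f : ℍ → ℂ} (hf : CuspLike k f) : SD f := ⟨hf.hol, hf.sdecay⟩

/-- Integral formula for the primitive. -/
lemma SD.prim_eq_integral {h : ℍ → ℂ} (hh : SD h) (z : ℍ) :
    prim h z = - ∫ t in Ioi (0 : ℝ), Complex.I * h (ofComplex (z + t * Complex.I)) := by
  have key : ∀ t : ℝ, 0 < z.im + t → ((z.re : ℂ) + ((z.im + t : ℝ) : ℂ) * Complex.I) =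
      (z : ℂ) + t * Complex.I := by
    intro t _
    apply Complex.ext <;> simp
  have hder : ∀ t : ℝ, 0 < z.im + t → HasDerivAt
      (fun t : ℝ => prim h (ofComplex (z + t * Complex.I)))
      (Complex.I * h (ofComplex (z + t * Complex.I))) t := by
    intro t ht
    have h1 := hh.isPrim_prim.hasDerivAt_line z.re ht
    have h2 : HasDerivAt (fun t : ℝ => z.im + t) 1 t := by
      simpa using (hasDerivAt_id t).const_add z.im
    have h3 := h1.scomp t h2
    rw [one_smul] at h3
    have e : ∀ t : ℝ, ((z.re : ℂ) + ((z.im + t : ℝ) : ℂ) * Complex.I) =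
      (z : ℂ) + t * Complex.I := by
      intro t
      apply Complex.ext <;> simp
    simpa only [Function.comp_def, e] using h3
  have e : ∀ t : ℝ, ((z.re : ℂ) + ((z.im + t : ℝ) : ℂ) * Complex.I) =
      (z : ℂ) + t * Complex.I := by
    intro t
    apply Complex.ext <;> simp
  have hint : IntegrableOn (fun t : ℝ => Complex.I * h (ofComplex (z + t * Complex.I)))
      (Ioi (0 : ℝ)) := by
    have h1 := integrableOn_line hh.hol hh.dec z.re (a := z.im) z.im_pos
    have h2 := (MeasureTheory.measurePreserving_add_left (volume : Measure ℝ) z.im)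
    have h3 : MeasurableEmbedding (fun t : ℝ => z.im + t) := (MeasurableEquiv.addLeft z.im).measurableEmbedding
    have h4 := (h2.integrableOn_comp_preimage h3 (s := Ioi z.im)
      (f := fun y : ℝ => Complex.I * h (ofComplex (z.re + y * Complex.I)))).mpr h1
    have h5 : (fun t : ℝ => z.im + t) ⁻¹' (Ioi z.im) = Ioi 0 := by
      ext t; simp
    rw [h5] at h4
    refine h4.congr_fun ?_ measurableSet_Ioi
    intro t _
    simp only [Function.comp, e]
  have hlim : Tendsto (fun t : ℝ => prim h (ofComplex (z + t * Complex.I))) atTop (𝓝 0) := by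
    have h1 := hh.vzero_prim z.re
    have h2 : Tendsto (fun t : ℝ => z.im + t) atTop atTop := tendsto_atTop_add_const_left _ _ tendsto_id
    have h3 := h1.comp h2
    simpa only [Function.comp_def, e] using h3
  have hz : (0:ℝ) < z.im + 0 := by simpa using z.im_pos
  have h1 := integral_Ioi_of_hasDerivAt_of_tendsto (a := 0)
    (hder 0 hz).continuousAt.continuousWithinAt
    (fun t (ht : 0 < t) => hder t (by have := z.im_pos; linarith)) hint hlim
  rw [h1]
  simp [ofComplex_apply]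

lemma pow_le_exp (c : ℝ) (hc : 0 < c) (n : ℕ) (t : ℝ) (ht : 0 ≤ t) :
    t ^ n ≤ (n.factorial * (1 / c) ^ n) * Real.exp (c * t) := by
  have h1 := Real.pow_div_factorial_le_exp (c * t) (by positivity) n
  rw [div_le_iff₀ (by positivity)] at h1
  have h2 : t ^ n = (1 / c) ^ n * (c * t) ^ n := by
    rw [← mul_pow]
    congr 1
    field_simp
  rw [h2]
  calc (1 / c) ^ n * (c * t) ^ n ≤ (1 / c) ^ n * (Real.exp (c * t) * n.factorial) := by
        gcongr
    _ = _ := by ring

/-- The Eichler integral tends to zero at `i∞`. -/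
lemma CuspLike.isZeroAtImInfty_Eic {k : ℤ} {f : ℍ → ℂ} (hf : CuspLike k f) (n : ℕ) :
    IsZeroAtImInfty (Eic n f) := by
  obtain ⟨c, hc, C, A, H⟩ := hf.dec 1
  simp only [SlashAction.slash_one] at H
  set K := ∫ t in Ioi (0 : ℝ), |C| * (n.factorial * (1 / (c/2)) ^ n) * Real.exp (-(c/2) * t) with hK
  have hbd : ∀ z : ℍ, A ≤ z.im → ‖Eic n f z‖ ≤ Real.exp (-c * z.im) * K := by
    intro z hz
    rw [Eic_eq n hf.sd z, (hf.sd.pow_sub_mul z n).prim_eq_integral z, norm_neg, hK,
      ← integral_const_mul]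
    refine norm_integral_le_of_norm_le ?_ ?_
    · apply Integrable.const_mul
      apply Integrable.const_mul
      exact integrableOn_exp_mul_Ioi (by linarith) 0
    · filter_upwards [ae_restrict_mem measurableSet_Ioi] with t ht
      have ht0 : 0 < t := ht
      have him : 0 < ((z : ℂ) + t * Complex.I).im := by
        have := z.im_pos
        simp
        linarith
      have e1 : ((ofComplex ((z : ℂ) + t * Complex.I) : ℍ) : ℂ) = z + t * Complex.I := by
        rw [ofComplex_apply_of_im_pos him]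
      have e2 : (ofComplex ((z : ℂ) + t * Complex.I) : ℍ).im = z.im + t := by
        rw [← coe_im, e1]; simp
      have h1 := H (ofComplex (z + t * Complex.I)) (by rw [e2]; linarith)
      rw [e2] at h1
      rw [e1]
      have h2 : ‖Complex.I * (((z : ℂ) - (z + t * Complex.I)) ^ n *
          f (ofComplex (z + t * Complex.I)))‖ = t ^ n * ‖f (ofComplex (z + t * Complex.I))‖ := by
        rw [norm_mul, Complex.norm_I, one_mul, norm_mul, norm_pow]
        congr 2
        have : (z : ℂ) - (z + t * Complex.I) = -(t * Complex.I) := by ring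
        rw [this, norm_neg, norm_mul, Complex.norm_I, mul_one, Complex.norm_real,
          Real.norm_of_nonneg ht0.le]
      rw [h2]
      calc t ^ n * ‖f (ofComplex (z + t * Complex.I))‖
          ≤ ((n.factorial * (1 / (c/2)) ^ n) * Real.exp (c/2 * t)) *
            (|C| * Real.exp (-c * (z.im + t))) := by
            gcongr
            · exact pow_le_exp (c/2) (by positivity) n t ht0.le
            · exact h1.trans (by gcongr; exact le_abs_self C)
        _ = (|C| * (n.factorial * (1 / (c/2)) ^ n)) *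
            (Real.exp (c/2 * t) * Real.exp (-c * (z.im + t))) := by ring
        _ = (|C| * (n.factorial * (1 / (c/2)) ^ n)) *
            (Real.exp (-c * z.im) * Real.exp (-(c/2) * t)) := by
            rw [← Real.exp_add, ← Real.exp_add]; congr 2; ring
        _ = _ := by ring
  rw [IsZeroAtImInfty, ZeroAtFilter]
  have hlim : Tendsto (fun z : ℍ => Real.exp (-c * z.im) * K) atImInfty (𝓝 0) := by
    have h1 : Tendsto (fun y : ℝ => Real.exp (-c * y) * K) atTop (𝓝 (0 * K)) := by
      refine Tendsto.mul_const K (Real.tendsto_exp_atBot.comp ?_)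
      exact tendsto_id.const_mul_atTop_of_neg (by linarith)
    rw [zero_mul] at h1
    exact h1.comp (tendsto_comap : Tendsto UpperHalfPlane.im atImInfty atTop)
  refine squeeze_zero_norm' ?_ hlim
  have : ∀ᶠ z : ℍ in atImInfty, A ≤ z.im := (tendsto_comap : Tendsto UpperHalfPlane.im atImInfty atTop).eventually_ge_atTop A
  filter_upwards [this] with z hz using hbd z hz

end decay

section transform

variable {w : ℕ}

lemma eval_mem_Pol {p : Polynomial ℂ} (hp : p.natDegree ≤ w) :
    (fun τ : ℍ => p.eval (τ : ℂ)) ∈ Pol ℂ w := by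
  have h1 : (fun τ : ℍ => p.eval (τ : ℂ)) =
      ∑ i ∈ Finset.range (w + 1), (p.coeff i) • (fun τ : ℍ => (τ : ℂ) ^ i) := by
    funext τ
    rw [Polynomial.eval_eq_sum_range' (Nat.lt_succ_of_le hp)]
    simp only [Finset.sum_apply, Pi.smul_apply, smul_eq_mul]
  rw [h1]
  refine Submodule.sum_mem _ fun i hi => Submodule.smul_mem _ _ (Submodule.subset_span ?_)
  exact ⟨i, by simpa [Nat.lt_succ_iff] using hi, rfl⟩

lemma sub_pow_mem_Pol (z : ℂ) : (fun u : ℍ => (z - u) ^ w) ∈ Pol ℂ w := by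
  have hdeg : ((Polynomial.C z - Polynomial.X) ^ w : Polynomial ℂ).natDegree ≤ w := by
    refine Polynomial.natDegree_pow_le.trans ?_
    have : (Polynomial.C z - Polynomial.X : Polynomial ℂ).natDegree ≤ 1 := by
      refine (Polynomial.natDegree_sub_le _ _).trans ?_
      simp
    nlinarith
  have := eval_mem_Pol hdeg
  convert this using 2
  simp

/-- Vanishing of all periods. -/
def NoPer (w : ℕ) (f : ℍ → ℂ) : Prop :=
  ∀ P ∈ Pol ℂ w, ∀ g : SL(2, ℤ), Phi (f * P) g = 0

lemma noPer_of_int {f : ℍ → ℂ} (hf : CuspLike ((w : ℤ) + 2) f)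
    (H : ∀ P ∈ Pol ℤ w, ∀ g : SL(2, ℤ), Phi (f * P) g = 0) : NoPer w f := by
  intro P hP g
  induction hP using Submodule.span_induction with
  | mem x hx =>
    obtain ⟨i, hi, rfl⟩ := hx
    exact H _ (Submodule.subset_span ⟨i, hi, rfl⟩) g
  | zero => simp [Phi_zero]
  | add x y hx' hy' hx hy =>
    rw [mul_add, Phi_add (hf.good_mul hx') (hf.good_mul hy'), hx, hy, add_zero]
  | smul a x hx' hx =>
    rw [mul_smul_comm, Phi_smul (hf.good_mul hx'), hx, mul_zero]

lemma NoPer.slash {f : ℍ → ℂ} (hf : CuspLike ((w : ℤ) + 2) f) (H : NoPer w f) (γ : SL(2, ℤ)) :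
    NoPer w (f ∣[(w : ℤ) + 2] γ) := by
  intro P hP g
  have hP' := Pol_slash hP γ⁻¹
  have h1 := Phi_mul (hf.good_mul hP') γ g
  rw [H _ hP', H _ hP', zero_add, mul_slash_two (w := w), ← SlashAction.slash_mul,
    inv_mul_cancel, SlashAction.slash_one] at h1
  exact h1.symm

lemma moeb_sub (a b c d z u : ℂ) (hdet : a * d - b * c = 1) (hz : c * z + d ≠ 0)
    (hu : c * u + d ≠ 0) :
    ((a * z + b) / (c * z + d) - (a * u + b) / (c * u + d)) * (c * u + d) =
      (c * z + d)⁻¹ * (z - u) := by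
  rw [div_sub_div _ _ hz hu, inv_mul_eq_div, div_mul_eq_mul_div, div_eq_div_iff (mul_ne_zero hz hu) hz]
  linear_combination ((z - u) * (c * u + d) * (c * z + d)) * hdet

lemma Eic_slash {f : ℍ → ℂ} (hf : CuspLike ((w : ℤ) + 2) f) (H : NoPer w f) (g : SL(2, ℤ)) :
    Eic w f ∣[-(w : ℤ)] g = Eic w (f ∣[(w : ℤ) + 2] g) := by
  funext z
  rw [ModularForm.SL_slash_apply, neg_neg, zpow_natCast]
  set P : ℍ → ℂ := fun u : ℍ => (((g • z : ℍ) : ℂ) - u) ^ w with hPdef
  have hP : P ∈ Pol ℂ w := sub_pow_mem_Pol _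
  have e1 : (fun u : ℍ => (((g • z : ℍ) : ℂ) - u) ^ w * f u) = f * P := by
    funext u; simp [hPdef, mul_comm]
  rw [Eic_eq w hf.sd, e1, (hf.good_mul hP).prim_smul_eq, H P hP g, add_zero,
    mul_slash_two (w := w), Eic_eq w (hf.slash g).sd]
  have hd : ∀ u : ℍ, (g 1 0 : ℂ) * u + g 1 1 ≠ 0 := fun u => by
    have := denom_ne_zero (Matrix.SpecialLinearGroup.mapGL ℝ g) u
    simpa [denom] using this
  have hden : ∀ u : ℍ, denom (g : GL (Fin 2) ℝ) u = (g 1 0 : ℂ) * u + g 1 1 := fun u => by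
    simp [denom]
  have hdet : (g 0 0 : ℂ) * g 1 1 - (g 0 1 : ℂ) * g 1 0 = 1 := by
    have := g.det_coe
    rw [Matrix.det_fin_two] at this
    exact_mod_cast this
  have e2 : (f ∣[(w : ℤ) + 2] g) * (P ∣[-(w : ℤ)] g) =
      (((g 1 0 : ℂ) * z + g 1 1) ^ w)⁻¹ •
        (fun u : ℍ => ((z : ℂ) - u) ^ w * (f ∣[(w : ℤ) + 2] g) u) := by
    funext u
    simp only [Pi.mul_apply, Pi.smul_apply, smul_eq_mul]
    have e3 : (P ∣[-(w : ℤ)] g) u = (((g 1 0 : ℂ) * z + g 1 1) ^ w)⁻¹ * ((z : ℂ) - u) ^ w := by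
      rw [ModularForm.SL_slash_apply, neg_neg, zpow_natCast, hPdef]
      simp only
      rw [coe_specialLinearGroup_apply, coe_specialLinearGroup_apply, hden, ← mul_pow, ← inv_pow,
        ← mul_pow]
      congr 1
      simp only [algebraMap_int_eq, eq_intCast, Complex.ofReal_intCast]
      exact moeb_sub _ _ _ _ _ _ hdet (hd z) (hd u)
    rw [e3]
    ring
  rw [e2, ((hf.slash g).sd.pow_sub_mul z w).prim_smul]
  simp only [Pi.smul_apply, smul_eq_mul]
  rw [hden]
  have := pow_ne_zero w (hd z)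
  field_simp

end transform

section vanish

variable {N : ℕ} [NeZero N] {w : ℕ}

lemma IsPrim.mdifferentiable {F h : ℍ → ℂ} (hF : IsPrim F h) : MDifferentiable 𝓘(ℂ) 𝓘(ℂ) F := by
  rw [UpperHalfPlane.mdifferentiable_iff]
  intro z hz
  exact ((isPrim_iff.mp hF) z hz).differentiableAt.differentiableWithinAt

lemma Eic_mdifferentiable {h : ℍ → ℂ} (n : ℕ) (hh : SD h) :
    MDifferentiable 𝓘(ℂ) 𝓘(ℂ) (Eic n h) := by
  cases n with
  | zero => exact hh.isPrim_prim.mdifferentiable
  | succ n => exact (isPrim_Eic n hh).mdifferentiable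

/-- The Eichler integral of a form without periods, as a cusp form of weight `-w`. -/
def eicForm (f : CuspForm (Gamma0 N) ((w : ℤ) + 2)) (H : NoPer w f) :
    CuspForm (Gamma0 N) (-(w : ℤ)) where
  toFun := Eic w f
  slash_action_eq' := by
    rintro _ ⟨γ, hγ, rfl⟩
    have h1 := Eic_slash (cuspLike_of_cuspForm f) H γ
    rw [slash_of_mem_Gamma0 f hγ] at h1
    exact h1
  holo' := Eic_mdifferentiable w (cuspLike_of_cuspForm f).sd
  zero_at_cusps' := by
    intro c hc
    rw [Subgroup.IsArithmetic.isCusp_iff_isCusp_SL2Z] at hc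
    rw [OnePoint.isZeroAt_iff_forall_SL2Z hc]
    intro γ _
    rw [Eic_slash (cuspLike_of_cuspForm f) H γ]
    exact ((cuspLike_of_cuspForm f).slash γ).isZeroAtImInfty_Eic w

lemma eq_zero_of_weight_nonpos (k : ℤ) (hk : k ≤ 0) (F : CuspForm (Gamma0 N) k) :
    (F : ℍ → ℂ) = 0 := by
  have hz : IsZeroAtImInfty (F : ℍ → ℂ) := CuspFormClass.zero_at_infty F
  let G : ModularForm (Gamma0 N) k :=
    { toFun := F
      slash_action_eq' := F.slash_action_eq'
      holo' := F.holo'
      bdd_at_cusps' := fun hc g hg => (F.zero_at_cusps' hc g hg).isBoundedAtImInfty }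
  rcases hk.lt_or_eq with hk | rfl
  · have := ModularForm.isZero_of_neg_weight (𝒢 := (Gamma0 N : Subgroup (GL (Fin 2) ℝ))) hk G
    have h2 : (G : ℍ → ℂ) = 0 := by rw [this]; rfl
    exact h2
  · obtain ⟨c, hc⟩ := ModularForm.eq_const_of_weight_zero
      (𝒢 := (Gamma0 N : Subgroup (GL (Fin 2) ℝ))) G
    have h1 : (F : ℍ → ℂ) = Function.const ℍ c := hc
    rw [h1] at hz ⊢
    have h2 : Tendsto (Function.const ℍ c) atImInfty (𝓝 0) := hz
    have h3 : c = 0 := tendsto_nhds_unique tendsto_const_nhds h2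
    rw [h3]; rfl

lemma eq_zero_of_noPer (f : CuspForm (Gamma0 N) ((w : ℤ) + 2)) (H : NoPer w f) : f = 0 := by
  have h1 : Eic w (f : ℍ → ℂ) = 0 := eq_zero_of_weight_nonpos (-(w : ℤ)) (by omega) (eicForm f H)
  exact DFunLike.coe_injective (eq_zero_of_Eic w (cuspLike_of_cuspForm f).sd h1)

end vanish

end Fermat.Agent.H22
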