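import Fermat.Statements.S22
-- import your own Fermat.Agent.* helpers here
import Fermat.Agent.H22Hecke
import Fermat.Agent.H22Sep

set_option autoImplicit false
open CuspForm

namespace Fermat.Agent.H22

open CongruenceSubgroup UpperHalfPlane
open scoped MatrixGroups ModularForm

lemma cuspForm_subsingleton_of_nonpos {N : ℕ} [NeZero N] {k : ℤ} (hk : k ≤ 0) :
    Subsingleton (CuspForm (Gamma0 N) k) :=
  ⟨fun f g => by
    apply DFunLike.coe_injective
    rw [eq_zero_of_weight_nonpos k hk f, eq_zero_of_weight_nonpos k hk g]⟩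

lemma cuspForm_subsingleton_of_odd {N : ℕ} {k : ℤ} (hk : Odd k) :
    Subsingleton (CuspForm (Gamma0 N) k) := by
  suffices h : ∀ f : CuspForm (Gamma0 N) k, f = 0 from ⟨fun f g => by rw [h f, h g]⟩
  intro f
  have hmem : (-1 : SL(2, ℤ)) ∈ Gamma0 N := by
    rw [Gamma0_mem]; simp
  have h1 := slash_of_mem_Gamma0 f hmem
  ext τ
  have h2 := congrFun h1 τ
  rw [ModularForm.SL_slash_apply] at h2
  have h3 : ((-1 : SL(2, ℤ)) • τ) = τ := by
    rw [ModularGroup.SL_neg_smul, one_smul]
  have h4 : denom (Matrix.SpecialLinearGroup.mapGL ℝ (-1 : SL(2, ℤ))) τ = -1 := by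
    simp [denom]
  have h5 : (f τ) * (-1 : ℂ) ^ (-k) = f τ := by
    rw [h3] at h2
    rw [← h4]
    exact h2
  rw [hk.neg.neg_one_zpow] at h5
  have h6 : (2 : ℂ) * f τ = 0 := by linear_combination -h5
  simpa using (mul_eq_zero.mp h6).resolve_left (by norm_num)

theorem moduleFinite_heckeAlgebra_of_subsingleton {N : ℕ} [NeZero N] {k : ℤ} (S : Set ℕ)
    (h : Subsingleton (CuspForm (Gamma0 N) k)) : Module.Finite ℤ (CuspForm.heckeAlgebra N k S) := by
  have : Subsingleton (Module.End ℂ (CuspForm (Gamma0 N) k)) :=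
    ⟨fun a b => LinearMap.ext fun x => Subsingleton.elim _ _⟩
  have : Subsingleton (CuspForm.heckeAlgebra N k S) := inferInstance
  infer_instance

theorem moduleFinite_heckeAlgebra_add_two {N : ℕ} [NeZero N] (w : ℕ) (S : Set ℕ) :
    Module.Finite ℤ (CuspForm.heckeAlgebra N ((w : ℤ) + 2) S) := by
  have hfin : Module.Finite ℤ (M N w) := Module.Finite.iff_fg.mpr (M_fg N w)
  let φ : CuspForm.heckeAlgebra N ((w : ℤ) + 2) S →ₗ[ℤ] (M N w →ₗ[ℤ] M N w) :=
    { toFun := fun t =>
        { toFun := fun L => ⟨L.1 ∘ₗ t.1, M_comp_heckeAlgebra t.2 L.2⟩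
          map_add' := fun L L' => by
            apply Subtype.ext
            simp [LinearMap.add_comp]
          map_smul' := fun a L => by
            apply Subtype.ext
            ext f
            simp }
      map_add' := fun t t' => by
        ext L f
        simp
      map_smul' := fun a t => by
        ext L f
        simp }
  have hinj : Function.Injective φ := by
    rw [injective_iff_map_eq_zero]
    intro t ht
    apply Subtype.ext
    ext1 f
    apply eq_zero_of_noPer
    apply noPer_of_int (cuspLike_of_cuspForm _)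
    intro P hP g
    have h1 := LinearMap.congr_fun ht ⟨Lam N 1 hP g, Submodule.subset_span ⟨P, hP, g, rfl⟩⟩
    have h2 := congrArg Subtype.val h1
    have h3 := LinearMap.congr_fun h2 f
    have h4 : Lam N 1 hP g (t.1 f) = 0 := h3
    rw [Lam_apply, SlashAction.slash_one] at h4
    exact h4
  exact Module.Finite.of_injective φ hinj

end Fermat.Agent.H22

namespace Fermat.Agent.S22

theorem result (N : ℕ) [NeZero N] (k : ℤ) (S : Set ℕ) :
    Module.Finite ℤ (CuspForm.heckeAlgebra N k S) := by
  rcases le_or_gt k 0 with hk | hk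
  · exact H22.moduleFinite_heckeAlgebra_of_subsingleton S (H22.cuspForm_subsingleton_of_nonpos hk)
  rcases eq_or_ne k 1 with rfl | hk1
  · exact H22.moduleFinite_heckeAlgebra_of_subsingleton S
      (H22.cuspForm_subsingleton_of_odd odd_one)
  obtain ⟨w, rfl⟩ : ∃ w : ℕ, k = (w : ℤ) + 2 := ⟨(k - 2).toNat, by omega⟩
  exact H22.moduleFinite_heckeAlgebra_add_two w S

end Fermat.Agent.S22
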