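import Mathlib
import Fermat.Prelude.Def_GaloisRep_Residual
import Fermat.Prelude.Def_CuspForm_HeckeGaloisRepDatum
import Fermat.Agent.H49HeckeBasic
import Fermat.Agent.H96Completion
import Fermat.Agent.S22

/-!
# S30 implies S29

From the Galois representations attached to characteristic-zero points of the Hecke algebra (S30)
we deduce the existence of the residual Galois representation attached to a normalised eigenform.
-/

set_option autoImplicit false

noncomputable section

open Polynomial IsLocalRing NumberField ModularFormClass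

namespace Fermat.Agent.H96

/-- The statement of S30. -/
def StatementS30 : Prop :=
    ∀ (p : ℕ) [Fact p.Prime] (N : ℕ) [NeZero N] (S : Finset ℕ)
      (_hpS : p ∈ S) (_hNS : ∀ q : ℕ, q.Prime → q ∣ N → q ∈ S)
      (𝒪' : Type) [CommRing 𝒪'] [IsDomain 𝒪'] [IsDiscreteValuationRing 𝒪']
      [IsAdicComplete (IsLocalRing.maximalIdeal 𝒪') 𝒪'] [Finite (IsLocalRing.ResidueField 𝒪')]
      [CharZero 𝒪'] (_hp𝒪' : (p : 𝒪') ∈ IsLocalRing.maximalIdeal 𝒪')
      (χ : CuspForm.heckeAlgebra N 2 (↑S : Set ℕ) →+* 𝒪'),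
      ∃ (𝒪'' : Type) (_ : CommRing 𝒪'') (_ : IsDomain 𝒪'') (_ : IsDiscreteValuationRing 𝒪'')
        (_ : IsAdicComplete (IsLocalRing.maximalIdeal 𝒪'') 𝒪'')
        (_ : Finite (IsLocalRing.ResidueField 𝒪'')) (_ : CharZero 𝒪'')
        (_ : Algebra 𝒪' 𝒪'') (_ : Module.Finite 𝒪' 𝒪'') (_ : IsLocalHom (algebraMap 𝒪' 𝒪'')),
      Function.Injective (algebraMap 𝒪' 𝒪'') ∧
      ∃ ρ : GaloisRepAdic 𝒪'',
        (∀ (ℓ : ℕ) (hℓ : ℓ.Prime) (hℓN : ¬ ℓ ∣ N) (hℓS : ℓ ∉ (↑S : Set ℕ)),
          ∀ A : ValuationSubring (AlgebraicClosure ℚ), A.LiesOverPrime ℓ →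
            ∀ σ : AlgebraicClosure ℚ ≃ₐ[ℚ] AlgebraicClosure ℚ, A.IsFrobeniusAt σ ℓ →
              LinearMap.charpoly (ρ.ρ σ) =
                X ^ 2 - C (algebraMap 𝒪' 𝒪'' (χ (CuspForm.heckeAlgebra.T hℓ hℓN hℓS))) * X
                  + C ((ℓ : 𝒪''))) ∧
        (∀ q : ℕ, q.Prime → ¬ q ∣ N → q ≠ p → ρ.IsUnramifiedAt q)

/-- The statement of S29. -/
def StatementS29 : Prop :=
    ∀ {N : ℕ} {g : CuspForm (CongruenceSubgroup.Gamma0 N) 2} (_hg : g.IsNormalizedEigenform)
    {p : ℕ} (_hp : p.Prime) {k : Type} [Field k] [CharP k p]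
    (φ : integralClosure ℤ ℂ →+* k),
    ∃ ρ : ResidualGaloisRep k, ρ.IsAttachedTo g φ ∧
      ∀ ℓ : ℕ, ℓ.Prime → ¬ ℓ ∣ N * p → ρ.IsUnramifiedAt ℓ

section Character

variable {N : ℕ} [NeZero N]

/-- Every element of the Hecke algebra has a normalised eigenform as eigenvector. -/
theorem exists_eigenvalue {g : CuspForm (CongruenceSubgroup.Gamma0 N) 2}
    (hg : g.IsNormalizedEigenform) {S : Set ℕ}
    {t : Module.End ℂ (CuspForm (CongruenceSubgroup.Gamma0 N) 2)}
    (ht : t ∈ CuspForm.heckeAlgebra N 2 S) : ∃ c : ℂ, t g = c • g := by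
  have hv := hg.isHeckeEigenvector_H49
  induction ht using Algebra.adjoin_induction with
  | mem x hx =>
    rcases hx with ⟨ℓ, hℓ, hℓN, -, rfl⟩ | ⟨q, hqN, hq, -, rfl⟩
    · exact ⟨_, hv.T ℓ hℓ hℓN⟩
    · exact ⟨_, hv.U q hq hqN⟩
  | algebraMap r =>
    refine ⟨(r : ℂ), ?_⟩
    rw [Algebra.algebraMap_eq_smul_one, LinearMap.smul_apply, Module.End.one_apply,
      Int.cast_smul_eq_zsmul]
  | add x y hx hy ihx ihy =>
    obtain ⟨a, ha⟩ := ihx
    obtain ⟨b, hb⟩ := ihy
    exact ⟨a + b, by rw [LinearMap.add_apply, ha, hb, add_smul]⟩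
  | mul x y hx hy ihx ihy =>
    obtain ⟨a, ha⟩ := ihx
    obtain ⟨b, hb⟩ := ihy
    exact ⟨a * b, by rw [Module.End.mul_apply, hb, map_smul, ha, smul_smul, mul_comm]⟩

/-- The character of the Hecke algebra attached to a normalised eigenform. -/
def eigenChar {g : CuspForm (CongruenceSubgroup.Gamma0 N) 2}
    (hg : g.IsNormalizedEigenform) (S : Set ℕ) : CuspForm.heckeAlgebra N 2 S →+* ℂ where
  toFun t := qCoeff ⇑(t.1 g) 1
  map_one' := by
    show qCoeff ⇑((1 : Module.End ℂ (CuspForm (CongruenceSubgroup.Gamma0 N) 2)) g) 1 = 1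
    rw [Module.End.one_apply, hg.qCoeff_one]
  map_mul' s t := by
    obtain ⟨a, ha⟩ := exists_eigenvalue hg s.2
    obtain ⟨b, hb⟩ := exists_eigenvalue hg t.2
    show qCoeff ⇑((s.1 * t.1) g) 1 = _
    rw [Module.End.mul_apply, hb, map_smul, ha, smul_smul, H49.qCoeff_smul, H49.qCoeff_smul,
      H49.qCoeff_smul, hg.qCoeff_one, mul_one, mul_one, mul_one, mul_comm]
  map_zero' := by
    show qCoeff ⇑((0 : Module.End ℂ (CuspForm (CongruenceSubgroup.Gamma0 N) 2)) g) 1 = 0
    rw [LinearMap.zero_apply, H49.qCoeff_zero]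
  map_add' s t := by
    show qCoeff ⇑((s.1 + t.1) g) 1 = _
    rw [LinearMap.add_apply, H49.qCoeff_add]

theorem eigenChar_T {g : CuspForm (CongruenceSubgroup.Gamma0 N) 2}
    (hg : g.IsNormalizedEigenform) {S : Set ℕ} {ℓ : ℕ} (hℓ : ℓ.Prime) (hℓN : ¬ ℓ ∣ N)
    (hℓS : ℓ ∉ S) :
    eigenChar hg S (CuspForm.heckeAlgebra.T hℓ hℓN hℓS) = qCoeff ⇑g ℓ := by
  have hv := hg.isHeckeEigenvector_H49
  show qCoeff ⇑(CuspForm.heckeTLin 2 hℓ hℓN g) 1 = _
  rw [hv.T ℓ hℓ hℓN, H49.qCoeff_smul, hg.qCoeff_one, mul_one]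

/-- A complex character of a finite `ℤ`-algebra takes values in the ring of integers of a number
field. -/
theorem exists_numberField_of_finite {T : Type*} [CommRing T] [Module.Finite ℤ T] (χ : T →+* ℂ) :
    ∃ (K : IntermediateField ℚ ℂ) (_ : NumberField K) (χ' : T →+* 𝓞 K),
      ∀ t, (((χ' t : 𝓞 K) : K) : ℂ) = χ t := by
  have hint : ∀ t, IsIntegral ℤ (χ t) := fun t => by
    have h1 : IsIntegral ℤ t := Algebra.IsIntegral.isIntegral t
    exact h1.map χ.toIntAlgHom
  obtain ⟨G, hG⟩ := (inferInstance : Module.Finite ℤ T).fg_top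
  have hGfin : Finite (χ '' (G : Set T)) := (G.finite_toSet.image χ).to_subtype
  have hKfin : FiniteDimensional ℚ (IntermediateField.adjoin ℚ (χ '' (G : Set T))) := by
    refine IntermediateField.finiteDimensional_adjoin ?_
    rintro x ⟨t, ht, rfl⟩
    exact (hint t).tower_top
  have hmem : ∀ t, χ t ∈ IntermediateField.adjoin ℚ (χ '' (G : Set T)) := fun t => by
    have ht : t ∈ Submodule.span ℤ (G : Set T) := by
      rw [hG]; exact Submodule.mem_top
    induction ht using Submodule.span_induction with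
    | mem x hx => exact IntermediateField.subset_adjoin _ _ ⟨x, hx, rfl⟩
    | zero => rw [map_zero]; exact zero_mem _
    | add x y _ _ hx hy => rw [map_add]; exact add_mem hx hy
    | smul a x _ hx => rw [map_zsmul]; exact zsmul_mem hx a
  generalize IntermediateField.adjoin ℚ (χ '' (G : Set T)) = K at hKfin hmem
  have hNF : NumberField K := ⟨⟩
  let χ₀ : T →+* K := χ.codRestrict K.toSubfield hmem
  have hχ₀ : ∀ t, IsIntegral ℤ (χ₀ t) := fun t => by
    have h1 : IsIntegral ℤ t := Algebra.IsIntegral.isIntegral t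
    exact h1.map χ₀.toIntAlgHom
  let χ₁ : T →+* integralClosure ℤ K := χ₀.codRestrict (integralClosure ℤ K) hχ₀
  exact ⟨K, hNF, χ₁, fun t => rfl⟩

/-- The character of the Hecke algebra attached to a normalised eigenform, with values in the
ring of integers of a number field. -/
theorem exists_numberField_char {g : CuspForm (CongruenceSubgroup.Gamma0 N) 2}
    (hg : g.IsNormalizedEigenform) (S : Set ℕ) :
    ∃ (K : IntermediateField ℚ ℂ) (_ : NumberField K) (χ : CuspForm.heckeAlgebra N 2 S →+* 𝓞 K),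
      ∀ (ℓ : ℕ) (hℓ : ℓ.Prime) (hℓN : ¬ ℓ ∣ N) (hℓS : ℓ ∉ S),
        (((χ (CuspForm.heckeAlgebra.T hℓ hℓN hℓS) : 𝓞 K) : K) : ℂ) = qCoeff ⇑g ℓ := by
  have hfin : Module.Finite ℤ (CuspForm.heckeAlgebra N 2 S) := S22.result N 2 S
  obtain ⟨K, hK, χ, hχ⟩ := exists_numberField_of_finite (eigenChar hg S)
  refine ⟨K, hK, χ, fun ℓ hℓ hℓN hℓS => ?_⟩
  rw [hχ, eigenChar_T hg hℓ hℓN hℓS]

end Character

section Extension

/-- Monic integral polynomials split in every field receiving the ring of algebraic integers. -/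
theorem splits_of_integralClosure {k : Type*} [Field k] (φ : integralClosure ℤ ℂ →+* k)
    {f : ℤ[X]} (hf : f.Monic) : (f.map (Int.castRingHom k)).Splits := by
  have h1 : (f.map (Int.castRingHom (integralClosure ℤ ℂ))).Splits := by
    refine Splits.of_splits_map_of_injective
      (i := (algebraMap (integralClosure ℤ ℂ) ℂ)) Subtype.val_injective
      (IsAlgClosed.splits _) fun a ha => ?_
    have hroot := (mem_roots'.mp ha).2
    have hint : IsIntegral ℤ a := by
      refine ⟨f, hf, ?_⟩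
      rw [IsRoot.def, Polynomial.map_map, eval_map] at hroot
      rw [← hroot]
      exact congrArg (fun r => eval₂ r a f) (Subsingleton.elim _ _)
    exact ⟨⟨a, hint⟩, rfl⟩
  have h2 := h1.map φ
  rw [Polynomial.map_map] at h2
  rwa [Subsingleton.elim (Int.castRingHom k) (φ.comp (Int.castRingHom (integralClosure ℤ ℂ)))]

/-- A homomorphism `e : k' →+* k` to a field receiving the algebraic integers extends to every
finite field extension of `k'`. -/
theorem exists_extension {k' k'' k : Type*} [Field k'] [Field k''] [Finite k''] [Field k]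
    (φ : integralClosure ℤ ℂ →+* k) (i : k' →+* k'') (e : k' →+* k) :
    ∃ e' : k'' →+* k, ∀ x, e' (i x) = e x := by
  let _ : Algebra k' k'' := i.toAlgebra
  let _ : Algebra k' k := e.toAlgebra
  have hfin : Fintype k'' := Fintype.ofFinite k''
  have key : ∀ x : k'', IsIntegral k' x ∧ ((minpoly k' x).map (algebraMap k' k)).Splits := by
    intro x
    have hint : IsIntegral k' x := by
      have : Module.Finite k' k'' := Module.Finite.of_finite
      exact Algebra.IsIntegral.isIntegral x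
    refine ⟨hint, ?_⟩
    set q := Fintype.card k'' with hq
    have hq1 : 1 < q := Fintype.one_lt_card
    have hmonic : (X ^ q - X : ℤ[X]).Monic := monic_X_pow_sub (by
      rw [degree_X]; exact_mod_cast hq1)
    have h1 := splits_of_integralClosure φ hmonic
    have hdvd : minpoly k' x ∣ (X ^ q - X : k'[X]) := by
      refine minpoly.dvd _ _ ?_
      simp [hq, FiniteField.pow_card]
    have h2 := Polynomial.map_dvd (algebraMap k' k) hdvd
    have h3 : (X ^ q - X : k'[X]).map (algebraMap k' k) = (X ^ q - X : ℤ[X]).map (Int.castRingHom k) := by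
      simp
    rw [h3] at h2
    exact h1.of_dvd (hmonic.map _).ne_zero h2
  obtain ⟨e'⟩ := IntermediateField.nonempty_algHom_of_splits key
  exact ⟨e'.toRingHom, fun x => e'.commutes x⟩

end Extension

section Main

theorem charpoly_residual {A : Type} [CommRing A] [IsLocalRing A] (ρ : GaloisRepAdic A)
    (σ : AlgebraicClosure ℚ ≃ₐ[ℚ] AlgebraicClosure ℚ) :
    LinearMap.charpoly (ρ.residual.ρ σ) = (LinearMap.charpoly (ρ.ρ σ)).map (residue A) :=
  LinearMap.charpoly_baseChange (ρ.ρ σ) (ResidueField A)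

theorem charpoly_residual_baseChangeAlong {k k' : Type} [Field k] [Field k'] (φ : k →+* k')
    (ρ : ResidualGaloisRep k) (σ : AlgebraicClosure ℚ ≃ₐ[ℚ] AlgebraicClosure ℚ) :
    LinearMap.charpoly ((ρ.baseChangeAlong φ).ρ σ) = (LinearMap.charpoly (ρ.ρ σ)).map φ := by
  let _ : Algebra k k' := φ.toAlgebra
  exact LinearMap.charpoly_baseChange (ρ.ρ σ) k'

/-- The trivial residual representation. -/
def trivialRep (k : Type) [Field k] : ResidualGaloisRep k where
  V := Fin 2 → k
  finrank_eq := by simp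
  ρ := 1
  factorsThroughFiniteLevel := ⟨⊥, inferInstance, fun _ _ => rfl⟩

/-- S30 implies S29. -/
theorem statementS29_of (h30 : StatementS30) : StatementS29 := by
  intro N g hg p hp k _ _ φ
  rcases Nat.eq_zero_or_pos N with rfl | hN
  · exact ⟨trivialRep k, fun ℓ _ hℓ => absurd (dvd_zero ℓ) hℓ,
      fun ℓ _ hℓ => absurd (by rw [zero_mul]; exact dvd_zero ℓ) hℓ⟩
  have : NeZero N := ⟨hN.ne'⟩
  have : Fact p.Prime := ⟨hp⟩
  set S : Finset ℕ := (N * p).primeFactors with hS
  have hNp : N * p ≠ 0 := mul_ne_zero hN.ne' hp.ne_zero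
  obtain ⟨K, hK, χ, hχ⟩ := exists_numberField_char hg (S : Set ℕ)
  -- the map `𝓞 K → k`
  let j : 𝓞 K →+* integralClosure ℤ ℂ :=
    ((algebraMap K ℂ).comp (algebraMap (𝓞 K) K)).codRestrict (integralClosure ℤ ℂ)
      (fun x => (RingOfIntegers.isIntegral_coe x).map (algebraMap K ℂ).toIntAlgHom)
  obtain ⟨O, _, _, _, _, _, _, ι, e, hpO, -, he⟩ := exists_completeDVR hp (φ.comp j)
  obtain ⟨O'', _, _, _, _, _, _, _, _, _, -, ρ, hρ, hunr⟩ := h30 p N S
    (Nat.mem_primeFactors.mpr ⟨hp, dvd_mul_left p N, hNp⟩)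
    (fun q hq hqN => Nat.mem_primeFactors.mpr ⟨hq, hqN.mul_right p, hNp⟩) O hpO (ι.comp χ)
  obtain ⟨e', he'⟩ := exists_extension φ (ResidueField.map (algebraMap O O'')) e
  have hval : ∀ x : O, e' (residue O'' (algebraMap O O'' x)) = e (residue O x) := fun x => by
    rw [← he', ResidueField.map_residue]
  refine ⟨ρ.residual.baseChangeAlong e', fun ℓ hℓ hℓN hℓk A hA σ hσ => ?_, fun ℓ hℓ hℓNp => ?_⟩
  · have hℓp : ℓ ≠ p := by
      rintro rfl
      exact hℓk (CharP.cast_eq_zero k ℓ)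
    have hℓS : ℓ ∉ (S : Set ℕ) := by
      rw [Finset.mem_coe, hS, Nat.mem_primeFactors]
      rintro ⟨-, h, -⟩
      rcases (Nat.Prime.dvd_mul hℓ).mp h with h | h
      · exact hℓN h
      · exact hℓp ((Nat.prime_dvd_prime_iff_eq hℓ hp).mp h)
    refine ⟨j (χ (CuspForm.heckeAlgebra.T hℓ hℓN hℓS)), hχ ℓ hℓ hℓN hℓS, ?_⟩
    rw [charpoly_residual_baseChangeAlong, charpoly_residual, hρ ℓ hℓ hℓN hℓS A hA σ hσ]
    simp only [Polynomial.map_add, Polynomial.map_sub, Polynomial.map_pow, Polynomial.map_mul,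
      Polynomial.map_X, Polynomial.map_C, map_natCast, hval, RingHom.comp_apply, he,
      Polynomial.map_natCast]
  · intro A hA σ hσ
    have h1 := hunr ℓ hℓ (fun h => hℓNp (h.mul_right p)) (fun h => hℓNp (h ▸ dvd_mul_left p N))
      A hA σ hσ
    let _ : Algebra (ResidueField O'') k := e'.toAlgebra
    show ((ρ.ρ σ).baseChange (ResidueField O'')).baseChange k = 1
    rw [h1, LinearMap.baseChange_one, LinearMap.baseChange_one]

end Main

end Fermat.Agent.H96
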