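/-
H30Final: S30 from a Galois-Hecke module and from the properties of `JZero N`.
-/
import Fermat.Agent.H30Mid
import Fermat.Agent.H35S30
import Fermat.Agent.H31JZero
import Fermat.Agent.H96S29

set_option autoImplicit false

noncomputable section

namespace Fermat.Agent.H30

open CuspForm ModularCurve AlgebraicCurve Fermat.Agent.H31

/-- S30 from a Galois-Hecke module. -/
theorem S30_of_module {p : ℕ} [Fact p.Prime] {N : ℕ} [NeZero N] {S : Finset ℕ}
    (hpS : p ∈ S) (hNS : ∀ q : ℕ, q.Prime → q ∣ N → q ∈ S)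
    (𝒪' : Type) [CommRing 𝒪'] [IsDomain 𝒪'] [IsDiscreteValuationRing 𝒪']
    [IsAdicComplete (IsLocalRing.maximalIdeal 𝒪') 𝒪'] [Finite (IsLocalRing.ResidueField 𝒪')]
    [CharZero 𝒪'] (hp𝒪' : (p : 𝒪') ∈ IsLocalRing.maximalIdeal 𝒪')
    (χ : CuspForm.heckeAlgebra N 2 (↑S : Set ℕ) →+* 𝒪')
    {J : Type*} [AddCommGroup J] [Module HeckeAlg J] [DistribMulAction GQ J]
    [SMulCommClass GQ HeckeAlg J]
    (hfin : {x : J | p • x = 0}.Finite)
    (hU : UnramifiedOutside (K := ℚ) (L := AlgebraicClosure ℚ) N p J)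
    (hF : FrobeniusQuadratic (K := ℚ) (L := AlgebraicClosure ℚ) N p J)
    (hlev : FiniteLevel p J) (hfaith : HeckeFaithful N (↑S : Set ℕ) p J) :
    H35.S30Conclusion p N S 𝒪' χ := by
  have := TateMod.finite_of_finite_torsion (p := p) (J := J) hfin
  have := TateMod.free_of_finite_torsion (p := p) (J := J) hfin
  have hgood : ∀ r : ℕ, r.Prime → ¬ r ∣ N → r ≠ p → ¬ r ∣ N * p := by
    intro r hr hrN hrp h
    rcases hr.dvd_mul.mp h with h | h
    · exact hrN h
    · exact hrp ((Nat.prime_dvd_prime_iff_eq hr Fact.out).mp h)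
  refine H35.s30_of_faithful hpS hNS 𝒪' hp𝒪' χ (T := TateMod p J) (galTate p J)
    (galTate_continuous hlev) (actTate p J N (↑S : Set ℕ)) (actTate_commute N (↑S : Set ℕ))
    ?_ ?_ ?_
  · intro a A hA φ hφ x
    have hap : (a.1 : ℕ) ≠ p := by
      intro h
      exact a.2.2 (by rw [h]; simpa using hpS)
    have h := galTate_frobenius (p := p) (J := J) hF a.1.2 (hgood _ a.1.2 a.2.1 hap) hA hφ
    have h1 := LinearMap.congr_fun h x
    simp only [LinearMap.add_apply, LinearMap.sub_apply, Module.End.mul_apply,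
      LinearMap.smul_apply, Module.End.one_apply, LinearMap.zero_apply] at h1
    have h2 : actTate p J N (↑S : Set ℕ) (MvPolynomial.X a) = heckeTate p J (heckeGen a.1) := by
      show heckeTate p J (inclHecke N (↑S : Set ℕ) (MvPolynomial.X a)) = _
      rw [inclHecke_X]
    rw [h2]
    exact h1
  · intro q hq hqN hqp A hA τ hτ
    exact galTate_inertia hU hq (hgood q hq hqN hqp) hA hτ
  · obtain ⟨c, u, hu, h⟩ := actTate_faithful (p := p) (J := J) (N := N) (S := (↑S : Set ℕ)) hfin hfaith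
    refine ⟨c, u, ?_, h⟩
    rintro rfl
    exact hu (dvd_zero p)

/-- S30 from the properties of `JZero N`. -/
theorem S30_of_JZero {p : ℕ} [Fact p.Prime] {N : ℕ} [NeZero N] {S : Finset ℕ}
    (hpS : p ∈ S) (hNS : ∀ q : ℕ, q.Prime → q ∣ N → q ∈ S)
    (𝒪' : Type) [CommRing 𝒪'] [IsDomain 𝒪'] [IsDiscreteValuationRing 𝒪']
    [IsAdicComplete (IsLocalRing.maximalIdeal 𝒪') 𝒪'] [Finite (IsLocalRing.ResidueField 𝒪')]
    [CharZero 𝒪'] (hp𝒪' : (p : 𝒪') ∈ IsLocalRing.maximalIdeal 𝒪')
    (χ : CuspForm.heckeAlgebra N 2 (↑S : Set ℕ) →+* 𝒪')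
    [hPD : HasPrincipalDivisors (AlgebraicClosure ℚ) (modularFunctionFieldBar N)]
    (hfin : ∀ n : ℕ, {x : JZero N | p ^ n • x = 0}.Finite)
    (hcommG : letI := heckeModuleBar N; SMulCommClass GQ HeckeAlg (JZero N))
    (hspec : letI := heckeModuleBar N; haveI := hcommG;
      SpecializationExists (K := ℚ) (L := AlgebraicClosure ℚ) N p (JZero N))
    (hfaith : letI := heckeModuleBar N; HeckeFaithful N (↑S : Set ℕ) p (JZero N)) :
    H35.S30Conclusion p N S 𝒪' χ := by
  letI := heckeModuleBar N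
  haveI := hcommG
  exact S30_of_module hpS hNS 𝒪' hp𝒪' χ (J := JZero N)
    (by simpa using hfin 1)
    (unramifiedOutside_of_specializationExists hspec)
    (frobeniusQuadratic_of_specializationExists hspec)
    (finiteLevel_JZero N p hfin) hfaith

/-- All the inputs on `JZero N` needed for S30. -/
structure JZeroInputs (N : ℕ) [NeZero N] : Prop where
  principal : HasPrincipalDivisors (AlgebraicClosure ℚ) (modularFunctionFieldBar N)
  finite : ∀ (p n : ℕ), p.Prime → {x : JZero N | p ^ n • x = 0}.Finite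
  comm : letI := heckeModuleBar N; SMulCommClass GQ HeckeAlg (JZero N)
  spec : ∀ p : ℕ, p.Prime → letI := heckeModuleBar N; haveI := comm;
      SpecializationExists (K := ℚ) (L := AlgebraicClosure ℚ) N p (JZero N)
  faithful : ∀ (p : ℕ) (S : Finset ℕ), p.Prime → p ∈ S → (∀ q : ℕ, q.Prime → q ∣ N → q ∈ S) →
      letI := heckeModuleBar N; HeckeFaithful N (↑S : Set ℕ) p (JZero N)

/-- The statement of S30 from the inputs on `JZero N`. -/
theorem statementS30_of (h : ∀ (N : ℕ) [NeZero N], JZeroInputs N) : H96.StatementS30 := by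
  intro p _ N _ S hpS hNS 𝒪' _ _ _ _ _ _ hp𝒪' χ
  have hp : p.Prime := Fact.out
  haveI := (h N).principal
  exact S30_of_JZero hpS hNS 𝒪' hp𝒪' χ (fun n => (h N).finite p n hp) (h N).comm
    ((h N).spec p hp) ((h N).faithful p S hp hpS hNS)

end Fermat.Agent.H30
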