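/-
H30Eigen: existence of simultaneous eigenvectors in `K ⊗ T` from (approximate) linear relations.
-/
import Mathlib

set_option autoImplicit false

noncomputable section

namespace Fermat.Agent.H30

open scoped TensorProduct

/-- A commutative `K`-algebra acting faithfully on a finite dimensional space: every
`K`-point has an eigenvector. -/
theorem exists_eigenvector_of_injective {K V B : Type*} [Field K] [AddCommGroup V] [Module K V]
    [FiniteDimensional K V] [CommRing B] [Algebra K B] (F : B →ₐ[K] Module.End K V)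
    (hF : Function.Injective F) (X : B →ₐ[K] K) :
    ∃ v : V, v ≠ 0 ∧ ∀ b, F b v = X b • v := by
  classical
  have hBfin : FiniteDimensional K B := FiniteDimensional.of_injective F.toLinearMap hF
  have : IsArtinianRing B := isArtinian_of_tower K inferInstance
  let inst : Module B V := Module.compHom V (F : B →+* Module.End K V)
  have hsmul : ∀ (b : B) (v : V), b • v = F b v := fun b v => rfl
  have : IsScalarTower K B V := ⟨fun c b v => by
    rw [hsmul, hsmul, map_smul, LinearMap.smul_apply]⟩
  have : Module.Finite B V := Module.Finite.of_restrictScalars_finite K B V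
  have hann : Module.annihilator B V = ⊥ := by
    rw [eq_bot_iff]
    intro a ha
    rw [Module.mem_annihilator] at ha
    rw [Ideal.mem_bot]
    apply hF
    rw [map_zero]
    exact LinearMap.ext fun v => ha v
  let Q : Ideal B := RingHom.ker (X : B →+* K)
  have hQ : Q.IsPrime := RingHom.ker_isPrime _
  have hQmin : Q ∈ (Module.annihilator B V).minimalPrimes := by
    rw [hann]
    refine ⟨⟨hQ, bot_le⟩, fun J hJ hJQ => ?_⟩
    have hJ' := hJ.1
    have hJm : J.IsMaximal := IsArtinianRing.isMaximal_of_isPrime J
    exact (hJm.eq_of_le hQ.ne_top hJQ).ge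
  have hQass := Module.associatedPrimes.minimalPrimes_annihilator_subset_associatedPrimes B V hQmin
  obtain ⟨-, v, hv⟩ := isAssociatedPrime_iff.mp hQass
  have hv0 : v ≠ 0 := by
    rintro rfl
    apply hQ.ne_top
    rw [hv]
    rw [Ideal.eq_top_iff_one, Submodule.mem_colon_singleton]
    simp
  refine ⟨v, hv0, fun b => ?_⟩
  have h1 : b - algebraMap K B (X b) ∈ Q := by
    show X (b - algebraMap K B (X b)) = 0
    rw [map_sub, AlgHom.commutes]
    exact sub_self _
  rw [hv, Submodule.mem_colon_singleton] at h1
  have h2 : (b - algebraMap K B (X b)) • v = 0 := by simpa using h1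
  rw [sub_smul, sub_eq_zero, algebraMap_smul, hsmul] at h2
  exact h2

theorem exists_sum_tmul {K A : Type*} [CommRing K] [CommRing A] (z : K ⊗[ℤ] A) :
    ∃ (s : Finset A) (c : A → K), z = ∑ a ∈ s, c a ⊗ₜ[ℤ] a := by
  classical
  induction z using TensorProduct.induction_on with
  | zero => exact ⟨∅, 0, by simp⟩
  | tmul c a => exact ⟨{a}, fun _ => c, by simp⟩
  | add x y hx hy =>
    obtain ⟨s, c, rfl⟩ := hx
    obtain ⟨t, d, rfl⟩ := hy
    refine ⟨s ∪ t, fun a => (if a ∈ s then c a else 0) + (if a ∈ t then d a else 0), ?_⟩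
    simp only [TensorProduct.add_tmul, Finset.sum_add_distrib]
    congr 1
    · rw [← Finset.sum_subset (Finset.subset_union_left (s₁ := s) (s₂ := t))]
      · exact Finset.sum_congr rfl fun a ha => by rw [if_pos ha]
      · intro a _ ha
        rw [if_neg ha, TensorProduct.zero_tmul]
    · rw [← Finset.sum_subset (Finset.subset_union_right (s₁ := s) (s₂ := t))]
      · exact Finset.sum_congr rfl fun a ha => by rw [if_pos ha]
      · intro a _ ha
        rw [if_neg ha, TensorProduct.zero_tmul]

/-- If every `K`-linear relation between the operators `f a` is satisfied by the scalars `χ a`,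
then there is a simultaneous eigenvector with eigenvalues `χ a`. -/
theorem exists_eigenvector_of_relations {K V A : Type*} [Field K] [AddCommGroup V] [Module K V]
    [FiniteDimensional K V] [CommRing A] (f : A →+* Module.End K V) (χ : A →+* K)
    (h : ∀ (s : Finset A) (c : A → K), ∑ a ∈ s, c a • f a = 0 → ∑ a ∈ s, c a * χ a = 0) :
    ∃ v : V, v ≠ 0 ∧ ∀ a, f a v = χ a • v := by
  classical
  let fA : A →ₐ[ℤ] Module.End K V := f.toIntAlgHom
  let F : (K ⊗[ℤ] A) →ₐ[K] Module.End K V :=
    Algebra.TensorProduct.lift (Algebra.ofId K (Module.End K V)) fA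
      (fun x y => Algebra.commutes x (fA y))
  let X : (K ⊗[ℤ] A) →ₐ[K] K :=
    Algebra.TensorProduct.lift (AlgHom.id K K) (χ.toIntAlgHom) (fun x y => mul_comm _ _)
  have hF : ∀ (c : K) (a : A), F (c ⊗ₜ a) = c • f a := fun c a => by
    refine (Algebra.TensorProduct.lift_tmul _ _ _ _ _).trans ?_
    rw [Algebra.smul_def]
    rfl
  have hX : ∀ (c : K) (a : A), X (c ⊗ₜ a) = c * χ a := fun c a =>
    Algebra.TensorProduct.lift_tmul _ _ _ _ _
  have hker : ∀ z, F z = 0 → X z = 0 := by
    intro z hz
    obtain ⟨s, c, rfl⟩ := exists_sum_tmul z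
    rw [map_sum] at hz ⊢
    simp only [hF] at hz
    simp only [hX]
    exact h s c hz
  have hinj : Function.Injective
      (Ideal.Quotient.liftₐ (RingHom.ker (F : (K ⊗[ℤ] A) →+* Module.End K V)) F (fun a ha => ha)) := by
    rw [injective_iff_map_eq_zero]
    intro b hb
    obtain ⟨z, rfl⟩ := Ideal.Quotient.mk_surjective b
    rw [Ideal.Quotient.eq_zero_iff_mem]
    exact hb
  obtain ⟨v, hv0, hv⟩ := exists_eigenvector_of_injective (K := K) (V := V)
    (B := (K ⊗[ℤ] A) ⧸ RingHom.ker (F : (K ⊗[ℤ] A) →+* Module.End K V))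
    (Ideal.Quotient.liftₐ (RingHom.ker (F : (K ⊗[ℤ] A) →+* Module.End K V)) F (fun a ha => ha))
    hinj
    (Ideal.Quotient.liftₐ (RingHom.ker (F : (K ⊗[ℤ] A) →+* Module.End K V)) X
      (fun a ha => hker a ha))
  refine ⟨v, hv0, fun a => ?_⟩
  have h1 := hv (Ideal.Quotient.mk _ ((1 : K) ⊗ₜ[ℤ] a))
  have h2 : (Ideal.Quotient.liftₐ (RingHom.ker (F : (K ⊗[ℤ] A) →+* Module.End K V)) X
      (fun a ha => hker a ha)) (Ideal.Quotient.mk _ ((1 : K) ⊗ₜ[ℤ] a)) = χ a := by
    show X (1 ⊗ₜ a) = χ a
    rw [hX, one_mul]
  have h3 : (Ideal.Quotient.liftₐ (RingHom.ker (F : (K ⊗[ℤ] A) →+* Module.End K V)) F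
      (fun a ha => ha)) (Ideal.Quotient.mk _ ((1 : K) ⊗ₜ[ℤ] a)) = f a := by
    show F (1 ⊗ₜ a) = f a
    rw [hF, one_smul]
  rw [h2, h3] at h1
  exact h1

/-- Same over a finite free module `T` over a PID `R`, after base change to a field `K`. -/
theorem exists_eigenvector_baseChange {R K T A : Type*} [CommRing R] [IsDomain R]
    [IsPrincipalIdealRing R] [Field K] [Algebra R K] [FaithfulSMul R K]
    [AddCommGroup T] [Module R T] [Module.Finite R T] [Module.Free R T] [CommRing A]
    (f : A →+* Module.End R T) (χ : A →+* K)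
    (h : ∀ (s : Finset A) (c : A → R), ∑ a ∈ s, c a • f a = 0 →
      ∑ a ∈ s, algebraMap R K (c a) * χ a = 0) :
    ∃ v : K ⊗[R] T, v ≠ 0 ∧ ∀ a, (f a).baseChange K v = χ a • v := by
  classical
  let bc : Module.End R T →+* Module.End K (K ⊗[R] T) := (Module.End.baseChangeHom R K T).toRingHom
  have hbc : ∀ g, bc g = g.baseChange K := fun g => rfl
  obtain ⟨v, hv0, hv⟩ := exists_eigenvector_of_relations (V := K ⊗[R] T) (bc.comp f) χ (by
    intro s l hl
    let N : Submodule R K := Submodule.span R (l '' s)
    have hNfg : Module.Finite R N := Module.Finite.iff_fg.mpr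
      (Submodule.fg_span ((s.finite_toSet).image l))
    have : Module.IsTorsionFree R K := inferInstance
    have : Module.IsTorsionFree R N := inferInstance
    have hNfree : Module.Free R N := Module.free_of_finite_type_torsion_free'
    let κ := Module.Free.chooseBasis R N
    have hmem : ∀ a ∈ s, l a ∈ N := fun a ha => Submodule.subset_span ⟨a, ha, rfl⟩
    let μ : A → Module.Free.ChooseBasisIndex R N → R := fun a k =>
      if ha : a ∈ s then κ.repr ⟨l a, hmem a ha⟩ k else 0
    have hμ : ∀ a ∈ s, l a = ∑ k, algebraMap R K (μ a k) * (κ k : K) := by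
      intro a ha
      have := κ.sum_repr ⟨l a, hmem a ha⟩
      have := congrArg (Subtype.val) this
      simp only [Submodule.coe_sum, Submodule.coe_smul] at this
      rw [← this]
      exact Finset.sum_congr rfl fun k _ => by
        simp only [μ, dif_pos ha, Algebra.smul_def]
    let b := Module.Free.chooseBasis R T
    have hlin : LinearIndependent R (fun k => (κ k : K)) :=
      κ.linearIndependent.map' N.subtype (Submodule.ker_subtype N)
    have hk : ∀ k, ∑ a ∈ s, μ a k • f a = 0 := by
      intro k
      refine b.ext fun j => ?_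
      refine b.repr.injective (Finsupp.ext fun i => ?_)
      have h1 : ∑ a ∈ s, l a * algebraMap R K (b.repr (f a (b j)) i) = 0 := by
        have h2 := LinearMap.congr_fun hl ((1 : K) ⊗ₜ b j)
        have h3 := congrArg (fun z => (Algebra.TensorProduct.basis K b).repr z i) h2
        simp only [LinearMap.sum_apply, LinearMap.smul_apply, RingHom.comp_apply, hbc,
          LinearMap.baseChange_tmul, map_sum, map_smul, Finsupp.coe_finsetSum, Finset.sum_apply,
          Finsupp.smul_apply, Algebra.TensorProduct.basis_repr_tmul, Finsupp.mapRange_apply,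
          smul_eq_mul, LinearMap.zero_apply, map_zero, Finsupp.coe_zero,
          Pi.zero_apply, one_smul] at h3
        exact h3
      have h2 : ∑ k, (∑ a ∈ s, μ a k * b.repr (f a (b j)) i) • (κ k : K) = 0 := by
        rw [← h1]
        simp only [Finset.sum_smul]
        rw [Finset.sum_comm]
        refine Finset.sum_congr rfl fun a ha => ?_
        rw [hμ a ha, Finset.sum_mul]
        refine Finset.sum_congr rfl fun k _ => ?_
        rw [Algebra.smul_def, map_mul]
        ring
      have h3 := Fintype.linearIndependent_iff.mp hlin _ h2 k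
      simpa [LinearMap.sum_apply, Finsupp.coe_finsetSum, Finset.sum_apply] using h3
    calc ∑ a ∈ s, l a * χ a = ∑ a ∈ s, ∑ k, (κ k : K) * (algebraMap R K (μ a k) * χ a) := by
          refine Finset.sum_congr rfl fun a ha => ?_
          rw [hμ a ha, Finset.sum_mul]
          exact Finset.sum_congr rfl fun k _ => by ring
      _ = ∑ k, (κ k : K) * ∑ a ∈ s, algebraMap R K (μ a k) * χ a := by
          rw [Finset.sum_comm]
          exact Finset.sum_congr rfl fun k _ => by rw [Finset.mul_sum]
      _ = 0 := Finset.sum_eq_zero fun k _ => by rw [h s (fun a => μ a k) (hk k), mul_zero])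
  exact ⟨v, hv0, hv⟩

end Fermat.Agent.H30
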