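/-
H39RealEig: eigenvectors of the Hecke operators in the `p`-torsion of a faithful Galois-Hecke
module, for a character of the Hecke algebra with values in a field of characteristic `p`.
-/
import Fermat.Agent.H30Eigen
import Fermat.Agent.H31Mod

set_option autoImplicit false

noncomputable section

namespace Fermat.Agent.H39

open CuspForm ModularCurve Fermat.Agent.H31

section

variable {J : Type*} [AddCommGroup J] [Module HeckeAlg J]

/-- a Hecke polynomial killing `J[p]` has its `n`-th power killing `J[p^n]`. -/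
theorem pow_smul_eq_zero_of_torsion {p : ℕ} {t : HeckeAlg}
    (h : ∀ x : J, p • x = 0 → t • x = 0) (n : ℕ) (x : J) (hx : p ^ n • x = 0) :
    t ^ n • x = 0 := by
  induction n generalizing x with
  | zero => simpa using hx
  | succ n ih =>
    have h1 : p ^ n • (p • x) = 0 := by rwa [smul_smul, ← pow_succ]
    have h2 := ih _ h1
    rw [smul_comm] at h2
    have h3 := h _ h2
    rwa [smul_smul, ← pow_succ'] at h3

/-- the `p`-torsion as a subgroup -/
def pTors (p : ℕ) (J : Type*) [AddCommGroup J] : AddSubgroup J where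
  carrier := {x | p • x = 0}
  zero_mem' := smul_zero _
  add_mem' := by
    intro a b ha hb
    rw [Set.mem_ofPred_eq] at *
    rw [smul_add, ha, hb, add_zero]
  neg_mem' := by
    intro a ha
    rw [Set.mem_ofPred_eq] at *
    rw [smul_neg, ha, neg_zero]

theorem mem_pTors {p : ℕ} {x : J} : x ∈ pTors p J ↔ p • x = 0 := Iff.rfl

instance pTorsModule (p : ℕ) (J : Type*) [AddCommGroup J] : Module (ZMod p) (pTors p J) :=
  AddCommGroup.zmodModule fun x => Subtype.ext x.2

/-- the action of the Hecke polynomials on the `p`-torsion -/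
def heckeTors (p : ℕ) (J : Type*) [AddCommGroup J] [Module HeckeAlg J] :
    HeckeAlg →+* Module.End (ZMod p) (pTors p J) where
  toFun t := AddMonoidHom.toZModLinearMap p
    { toFun := fun x => ⟨t • (x : J), by
        have hx := x.2
        rw [mem_pTors] at hx ⊢
        rw [smul_comm, hx, smul_zero]⟩
      map_zero' := Subtype.ext (smul_zero t)
      map_add' := fun x y => Subtype.ext (smul_add t (x : J) (y : J)) }
  map_one' := LinearMap.ext fun x => Subtype.ext (one_smul _ _)
  map_mul' s t := LinearMap.ext fun x => Subtype.ext (mul_smul s t (x : J))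
  map_zero' := LinearMap.ext fun x => Subtype.ext (zero_smul _ _)
  map_add' s t := LinearMap.ext fun x => Subtype.ext (add_smul s t (x : J))

theorem heckeTors_apply {p : ℕ} (t : HeckeAlg) (x : pTors p J) :
    ((heckeTors p J t x : pTors p J) : J) = t • (x : J) := rfl

/-- An eigenvector in `J[p]`. -/
theorem exists_eigenvector_torsion {p N : ℕ} [NeZero N] (hp : p.Prime) {S : Set ℕ}
    (hfin : {x : J | p • x = 0}.Finite) (hfaith : HeckeFaithful N S p J)
    {k : Type*} [Field k] [CharP k p] (θ : heckeAlgebra N 2 S →+* k)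
    (a : GoodPrimes N S → ℤ)
    (ha : ∀ ℓ : GoodPrimes N S, θ (heckeAlgebra.T ℓ.1.2 ℓ.2.1 ℓ.2.2) = (a ℓ : k)) :
    ∃ x : J, x ≠ 0 ∧ p • x = 0 ∧ ∀ ℓ : GoodPrimes N S, heckeGen ℓ.1 • x = a ℓ • x := by
  classical
  have : Fact p.Prime := ⟨hp⟩
  have : Finite (pTors p J) := hfin
  have : FiniteDimensional (ZMod p) (pTors p J) := Module.Finite.of_finite
  let evZ : MvPolynomial (GoodPrimes N S) ℤ →+* ℤ := MvPolynomial.eval a
  -- the two characters
  have hθ : ∀ P : MvPolynomial (GoodPrimes N S) ℤ, θ (evHecke N S P) = ((evZ P : ℤ) : k) := by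
    intro P
    have : (θ.comp (evHecke N S)) = (Int.castRingHom k).comp evZ := by
      apply MvPolynomial.ringHom_ext
      · intro r
        simp [evHecke, evZ]
      · intro ℓ
        simp only [RingHom.comp_apply, evHecke_X, ha, evZ, MvPolynomial.eval_X, eq_intCast]
    exact RingHom.congr_fun this P
  -- polynomials killing `J[p]`
  have hkill : ∀ P : MvPolynomial (GoodPrimes N S) ℤ,
      (∀ x : J, p • x = 0 → inclHecke N S P • x = 0) → ((evZ P : ℤ) : ZMod p) = 0 := by
    intro P hP
    obtain ⟨c, u, hu, h⟩ := hfaith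
    obtain ⟨y, hy⟩ := h (c + 1) (P ^ (c + 1)) (fun x hx => by
      rw [map_pow]
      exact pow_smul_eq_zero_of_torsion hP (c + 1) x hx)
    have h1 := congrArg θ hy
    have hp0 : (p : k) = 0 := CharP.cast_eq_zero k p
    rw [map_mul, map_mul, map_pow, map_pow, map_natCast, map_pow, map_natCast, hθ,
      hp0, zero_pow (by omega), zero_mul] at h1
    have hu' : (u : k) ≠ 0 := by
      rw [Ne, CharP.cast_eq_zero_iff k p]
      exact hu
    have h2 : ((evZ P : ℤ) : k) = 0 := by
      rcases mul_eq_zero.mp h1 with h | h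
      · exact absurd h hu'
      · exact pow_eq_zero_iff (by omega) |>.mp h
    rw [CharP.intCast_eq_zero_iff k p] at h2
    rwa [CharP.intCast_eq_zero_iff (ZMod p) p]
  obtain ⟨v, hv0, hv⟩ := Fermat.Agent.H30.exists_eigenvector_of_relations
    (K := ZMod p) (V := pTors p J)
    ((heckeTors p J).comp (inclHecke N S : MvPolynomial (GoodPrimes N S) ℤ →+* HeckeAlg))
    ((Int.castRingHom (ZMod p)).comp evZ) (by
      intro s c hs
      set P : MvPolynomial (GoodPrimes N S) ℤ :=
        ∑ t ∈ s, MvPolynomial.C ((c t).val : ℤ) * t with hP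
      have h1 : ((evZ P : ℤ) : ZMod p) = ∑ t ∈ s, c t * ((evZ t : ℤ) : ZMod p) := by
        rw [hP, map_sum, Int.cast_sum]
        refine Finset.sum_congr rfl fun t _ => ?_
        rw [map_mul, Int.cast_mul]
        congr 1
        have h7 : evZ (MvPolynomial.C ((c t).val : ℤ)) = ((c t).val : ℤ) :=
          MvPolynomial.eval_C _
        rw [h7, Int.cast_natCast, ZMod.natCast_zmod_val]
      have h2 := hkill P (by
        intro x hx
        have h3 := congrArg (fun f : Module.End (ZMod p) (pTors p J) =>
          ((f ⟨x, hx⟩ : pTors p J) : J)) hs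
        simp only [LinearMap.zero_apply, ZeroMemClass.coe_zero, LinearMap.sum_apply,
          LinearMap.smul_apply, AddSubmonoidClass.coe_finsetSum, RingHom.comp_apply] at h3
        rw [← h3, hP, map_sum, Finset.sum_smul]
        refine Finset.sum_congr rfl fun t _ => ?_
        rw [map_mul, mul_smul]
        have h4 : (inclHecke N S) (MvPolynomial.C ((c t).val : ℤ)) =
            (((c t).val : ℕ) : HeckeAlg) := by
          rw [← MvPolynomial.algebraMap_eq, AlgHom.commutes]
          simp
        rw [h4, Nat.cast_smul_eq_nsmul]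
        have h5 : ∀ (y : pTors p J), ((c t • y : pTors p J) : J) = (c t).val • (y : J) := by
          intro y
          have h6 : c t • y = (c t).val • y := by
            conv_lhs => rw [← ZMod.natCast_zmod_val (c t)]
            rw [Nat.cast_smul_eq_nsmul]
          rw [h6]
          rfl
        rw [h5]
        rfl)
      rw [h1] at h2
      exact h2)
  refine ⟨v, fun h => hv0 (Subtype.ext h), v.2, fun ℓ => ?_⟩
  have h1 := congrArg (fun y : pTors p J => (y : J)) (hv (MvPolynomial.X ℓ))
  have h2 : ((((heckeTors p J).comp (inclHecke N S :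
      MvPolynomial (GoodPrimes N S) ℤ →+* HeckeAlg)) (MvPolynomial.X ℓ) v : pTors p J) : J) =
      heckeGen ℓ.1 • (v : J) := by
    rw [RingHom.comp_apply, heckeTors_apply]
    congr 1
    exact inclHecke_X N S ℓ
  have h3 : ((((Int.castRingHom (ZMod p)).comp evZ) (MvPolynomial.X ℓ) • v : pTors p J) : J) =
      a ℓ • (v : J) := by
    have : ((Int.castRingHom (ZMod p)).comp evZ) (MvPolynomial.X ℓ) = ((a ℓ : ℤ) : ZMod p) := by
      simp [evZ]
    rw [this, Int.cast_smul_eq_zsmul]
    rfl
  rw [← h2, ← h3]
  exact h1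

end

end Fermat.Agent.H39
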