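import Mathlib
import Fermat.Prelude.Def_FreyPackage_DetCyclotomic
import Fermat.Prelude.Def_EllipticCurve_FrobeniusTrace

/-!
# From an abstract Weil pairing to `det ρ = cyclotomic`
-/

set_option autoImplicit false

open WeierstrassCurve WeierstrassCurve.Affine WeierstrassCurve.Affine.Point
open scoped WeierstrassCurve.Affine

namespace Fermat.Agent.H6

section Abstract

variable {V : Type*} [AddCommGroup V] {K : Type*} [Field K] {p : ℕ}

lemma pairing_zero_left {e : V → V → K} (hl : ∀ x y z, e (x + y) z = e x z * e y z)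
    (ha : ∀ x, e x x = 1) (y : V) : e 0 y = 1 := by
  have := hl 0 y y
  rw [zero_add, ha, mul_one] at this
  exact this.symm

lemma pairing_zero_right {e : V → V → K} (hr : ∀ x y z, e x (y + z) = e x y * e x z)
    (ha : ∀ x, e x x = 1) (x : V) : e x 0 = 1 := by
  have := hr x 0 x
  rw [zero_add, ha, mul_one] at this
  exact this.symm

lemma pairing_nsmul_left {e : V → V → K} (hl : ∀ x y z, e (x + y) z = e x z * e y z)
    (ha : ∀ x, e x x = 1) (n : ℕ) (x y : V) : e (n • x) y = e x y ^ n := by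
  induction n with
  | zero => rw [zero_smul, pow_zero, pairing_zero_left hl ha]
  | succ n ih => rw [succ_nsmul, hl, ih, pow_succ]

lemma pairing_nsmul_right {e : V → V → K} (hr : ∀ x y z, e x (y + z) = e x y * e x z)
    (ha : ∀ x, e x x = 1) (n : ℕ) (x y : V) : e x (n • y) = e x y ^ n := by
  induction n with
  | zero => rw [zero_smul, pow_zero, pairing_zero_right hr ha]
  | succ n ih => rw [succ_nsmul, hr, ih, pow_succ]

lemma pairing_symm {e : V → V → K} (hl : ∀ x y z, e (x + y) z = e x z * e y z)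
    (hr : ∀ x y z, e x (y + z) = e x y * e x z) (ha : ∀ x, e x x = 1) (x y : V) :
    e x y * e y x = 1 := by
  have := ha (x + y)
  rw [hl, hr, hr, ha, ha, one_mul, mul_one] at this
  exact this

variable [Module (ZMod p) V]

lemma zmod_smul_eq_val_smul [NeZero p] (c : ZMod p) (x : V) : c • x = c.val • x := by
  conv_lhs => rw [← ZMod.natCast_zmod_val c]
  rw [Nat.cast_smul_eq_nsmul]

lemma pairing_pow_eq_one {e : V → V → K} (hl : ∀ x y z, e (x + y) z = e x z * e y z)
    (ha : ∀ x, e x x = 1) (x y : V) : e x y ^ p = 1 := by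
  rw [← pairing_nsmul_left hl ha]
  have : p • x = (0 : V) := by
    rw [← Nat.cast_smul_eq_nsmul (ZMod p), ZMod.natCast_self, zero_smul]
  rw [this, pairing_zero_left hl ha]

/-- the key computation: `e (a u + c v) (b u + d v) * e u v ^ (c b) = e u v ^ (a d)` -/
lemma pairing_lin_comb [NeZero p] {e : V → V → K} (hl : ∀ x y z, e (x + y) z = e x z * e y z)
    (hr : ∀ x y z, e x (y + z) = e x y * e x z) (ha : ∀ x, e x x = 1) (u v : V)
    (a b c d : ZMod p) :
    e (a • u + c • v) (b • u + d • v) * e u v ^ (c.val * b.val) = e u v ^ (a.val * d.val) := by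
  rw [zmod_smul_eq_val_smul a, zmod_smul_eq_val_smul b, zmod_smul_eq_val_smul c,
    zmod_smul_eq_val_smul d, hl, hr, hr]
  simp only [pairing_nsmul_left hl ha, pairing_nsmul_right hr ha, ha, one_pow, one_mul, mul_one]
  have h := pairing_symm hl hr ha u v
  rw [mul_assoc, ← pow_mul, ← pow_mul, mul_comm c.val b.val, ← mul_pow, mul_comm (e v u), h,
    one_pow, mul_one, mul_comm]

/-- General level version: `V` free of rank two over `ZMod p` (`p` any positive integer) with a
basis such that `e (b 0) (b 1)` is a primitive `p`-th root of unity. -/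
theorem det_eq_of_pairing_basis [NeZero p] {e : V → V → K}
    (hl : ∀ x y z, e (x + y) z = e x z * e y z)
    (hr : ∀ x y z, e x (y + z) = e x y * e x z) (ha : ∀ x, e x x = 1)
    (b : Module.Basis (Fin 2) (ZMod p) V) (hord : orderOf (e (b 0) (b 1)) = p)
    (T : V →ₗ[ZMod p] V) (m : ℕ)
    (hT : ∀ x y, e (T x) (T y) = e x y ^ m) : LinearMap.det T = (m : ZMod p) := by
  set ζ := e (b 0) (b 1) with hζ
  have hsum : ∀ x : V, x = b.repr x 0 • b 0 + b.repr x 1 • b 1 := by
    intro x
    conv_lhs => rw [← b.sum_repr x]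
    rw [Fin.sum_univ_two]
  have hζp : ζ ^ p = 1 := pairing_pow_eq_one hl ha _ _
  have key := pairing_lin_comb hl hr ha (b 0) (b 1) (b.repr (T (b 0)) 0) (b.repr (T (b 1)) 0)
    (b.repr (T (b 0)) 1) (b.repr (T (b 1)) 1)
  rw [← hsum, ← hsum, hT, ← hζ, ← pow_add] at key
  have hfin : IsOfFinOrder ζ := isOfFinOrder_iff_pow_eq_one.2 ⟨p, Nat.pos_of_ne_zero (NeZero.ne p), hζp⟩
  have hmod := (hfin.pow_eq_pow_iff_modEq).1 key
  rw [hord] at hmod
  have hz := (ZMod.natCast_eq_natCast_iff _ _ _).2 hmod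
  push_cast at hz
  simp only [ZMod.natCast_val, ZMod.cast_id', id_eq] at hz
  rw [← LinearMap.det_toMatrix b, Matrix.det_fin_two]
  simp only [LinearMap.toMatrix_apply]
  linear_combination -hz

variable [Fact p.Prime]

/-- If `e` is an alternating bi-multiplicative pairing on a plane over `𝔽_p`, `T` an endomorphism
and `ζ ↦ ζ ^ m` describes the effect of `T` on `e`, then `det T = m`. -/
theorem det_eq_of_pairing (hcard : Nat.card V = p ^ 2) {e : V → V → K}
    (hl : ∀ x y z, e (x + y) z = e x z * e y z)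
    (hr : ∀ x y z, e x (y + z) = e x y * e x z) (ha : ∀ x, e x x = 1)
    (hnt : ∃ x y, e x y ≠ 1) (T : V →ₗ[ZMod p] V) (m : ℕ)
    (hT : ∀ x y, e (T x) (T y) = e x y ^ m) : LinearMap.det T = (m : ZMod p) := by
  have hp : p.Prime := Fact.out
  have : Finite V := by
    apply Nat.finite_of_card_ne_zero
    rw [hcard]; exact pow_ne_zero _ hp.ne_zero
  have : Module.Finite (ZMod p) V := Module.Finite.of_finite
  have hrank : Module.finrank (ZMod p) V = 2 := by
    have h1 := Module.natCard_eq_pow_finrank (K := ZMod p) (V := V)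
    rw [hcard, Nat.card_zmod] at h1
    exact (Nat.pow_right_injective hp.two_le h1).symm
  let b := Module.finBasisOfFinrankEq (ZMod p) V hrank
  refine det_eq_of_pairing_basis hl hr ha b (orderOf_eq_prime (pairing_pow_eq_one hl ha _ _) ?_)
    T m hT
  intro h1
  obtain ⟨x, y, hxy⟩ := hnt
  apply hxy
  have hsum : ∀ x : V, x = b.repr x 0 • b 0 + b.repr x 1 • b 1 := by
    intro x
    conv_lhs => rw [← b.sum_repr x]
    rw [Fin.sum_univ_two]
  have := pairing_lin_comb hl hr ha (b 0) (b 1) (b.repr x 0) (b.repr y 0) (b.repr x 1)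
    (b.repr y 1)
  rw [← hsum, ← hsum, h1, one_pow, one_pow, mul_one] at this
  exact this

end Abstract

section Curve

universe r s v

variable {R : Type r} {S : Type s} {K : Type v} [CommRing R] [CommRing S] [Field K]
  [DecidableEq K] {W' : Affine R} [Algebra R S] [Algebra R K] [Algebra S K]
  [IsScalarTower R S K]

/-- Any level `n`: if `E[n]` has a basis on which the pairing is a primitive `n`-th root of unity,
then the determinant of the Galois action is the cyclotomic character mod `n`. -/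
theorem det_galoisRepModuleEnd_of_pairing_basis {n : ℕ} [NeZero n]
    (e : Submodule.torsionBy ℤ (W'⁄K).Point n → Submodule.torsionBy ℤ (W'⁄K).Point n → K)
    (hl : ∀ x y z, e (x + y) z = e x z * e y z)
    (hr : ∀ x y z, e x (y + z) = e x y * e x z) (ha : ∀ x, e x x = 1)
    (b : Module.Basis (Fin 2) (ZMod n) (Submodule.torsionBy ℤ (W'⁄K).Point n))
    (hb : orderOf (e (b 0) (b 1)) = n) (σ : K ≃ₐ[S] K)
    (hσ : ∀ x y, e (σ • x) (σ • y) = σ (e x y))
    (hn : Nat.card (rootsOfUnity n K) = n) :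
    LinearMap.det (galoisRepModuleEnd S W' n σ) =
      (modularCyclotomicCharacter K hn (σ : K ≃+* K) : (ZMod n)ˣ) := by
  rw [det_eq_of_pairing_basis hl hr ha b hb (galoisRepModuleEnd S W' n σ)
    (((modularCyclotomicCharacter K hn (σ : K ≃+* K) : (ZMod n)ˣ) : ZMod n).val)]
  · rw [ZMod.natCast_val, ZMod.cast_id', id_eq]
  · intro x y
    rw [galoisRepModuleEnd_apply, galoisRepModuleEnd_apply, hσ]
    have h1 : e x y ^ n = 1 := pairing_pow_eq_one hl ha x y
    let u : rootsOfUnity n K := rootsOfUnity.mkOfPowEq (e x y) h1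
    exact modularCyclotomicCharacter.spec K hn (σ : K ≃+* K) (t := (u : Kˣ)) u.2

theorem det_galoisRepModuleEnd_of_pairing {p : ℕ} [Fact p.Prime]
    (hcard : Nat.card (Submodule.torsionBy ℤ (W'⁄K).Point p) = p ^ 2)
    (e : Submodule.torsionBy ℤ (W'⁄K).Point p → Submodule.torsionBy ℤ (W'⁄K).Point p → K)
    (hl : ∀ x y z, e (x + y) z = e x z * e y z)
    (hr : ∀ x y z, e x (y + z) = e x y * e x z) (ha : ∀ x, e x x = 1)
    (hnt : ∃ x y, e x y ≠ 1) (σ : K ≃ₐ[S] K)
    (hσ : ∀ x y, e (σ • x) (σ • y) = σ (e x y))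
    (hn : Nat.card (rootsOfUnity p K) = p) :
    LinearMap.det (galoisRepModuleEnd S W' p σ) =
      (modularCyclotomicCharacter K hn (σ : K ≃+* K) : (ZMod p)ˣ) := by
  have hp : p.Prime := Fact.out
  rw [det_eq_of_pairing hcard hl hr ha hnt (galoisRepModuleEnd S W' p σ)
    (((modularCyclotomicCharacter K hn (σ : K ≃+* K) : (ZMod p)ˣ) : ZMod p).val)]
  · rw [ZMod.natCast_val, ZMod.cast_id', id_eq]
  · intro x y
    rw [galoisRepModuleEnd_apply, galoisRepModuleEnd_apply, hσ]
    have h1 : e x y ^ p = 1 := pairing_pow_eq_one hl ha x y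
    let u : rootsOfUnity p K := rootsOfUnity.mkOfPowEq (e x y) h1
    have h2 := modularCyclotomicCharacter.spec K hn (σ : K ≃+* K) (t := (u : Kˣ)) u.2
    exact h2

theorem galoisRepDetEqCyclotomic_of_pairing {p : ℕ} [Fact p.Prime]
    (hcard : Nat.card (Submodule.torsionBy ℤ (W'⁄K).Point p) = p ^ 2)
    (e : Submodule.torsionBy ℤ (W'⁄K).Point p → Submodule.torsionBy ℤ (W'⁄K).Point p → K)
    (hl : ∀ x y z, e (x + y) z = e x z * e y z)
    (hr : ∀ x y z, e x (y + z) = e x y * e x z) (ha : ∀ x, e x x = 1)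
    (hnt : ∃ x y, e x y ≠ 1)
    (hσ : ∀ (σ : K ≃ₐ[S] K) x y, e (σ • x) (σ • y) = σ (e x y))
    (hn : Nat.card (rootsOfUnity p K) = p) :
    GaloisRepDetEqCyclotomic S W' p hn := by
  intro σ
  have h := det_galoisRepModuleEnd_of_pairing (S := S) hcard e hl hr ha hnt σ (hσ σ) hn
  apply Units.ext
  rw [← h, galoisRepDet_apply, LinearEquiv.coe_det]
  rfl

end Curve

end Fermat.Agent.H6
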