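import Fermat.Agent.H39WeilGalois
import Fermat.Agent.H6Det
import Fermat.Agent.H87ECTorsion

/-!
# `det ρ_{E,n} = ` mod `n` cyclotomic character (unconditional)
-/

set_option autoImplicit false
set_option linter.unusedSectionVars false
set_option linter.style.haveILetI false

open WeierstrassCurve WeierstrassCurve.Affine WeierstrassCurve.Affine.Point
open scoped WeierstrassCurve.Affine

noncomputable section

namespace Fermat.Agent.H39

universe r s v

variable {R : Type r} {S : Type s} {K : Type v} [CommRing R] [CommRing S] [Field K]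
  [DecidableEq K] [Algebra R S] [Algebra R K] [Algebra S K]
  [IsScalarTower R S K] [IsAlgClosed K] (W' : Affine R)

lemma isElliptic_baseChange (hΔ : algebraMap R K W'.Δ ≠ 0) :
    WeierstrassCurve.IsElliptic (W'⁄K) :=
  ⟨by
    have h : (W'⁄K).Δ = algebraMap R K W'.Δ := WeierstrassCurve.map_Δ _ _
    rw [h]
    exact isUnit_iff_ne_zero.mpr hΔ⟩

/-- there is a perfect, Galois equivariant alternating pairing on `E[n]` -/
theorem exists_weilPairing (hΔ : algebraMap R K W'.Δ ≠ 0) {n : ℕ} (hn : 3 ≤ n) :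
    ∃ e : Submodule.torsionBy ℤ (W'⁄K).Point n → Submodule.torsionBy ℤ (W'⁄K).Point n → K,
      (∀ x y z, e (x + y) z = e x z * e y z) ∧ (∀ x y z, e x (y + z) = e x y * e x z) ∧
      (∀ x, e x x = 1) ∧ (∀ x y, e x y ^ n = 1) ∧
      (∀ b : Module.Basis (Fin 2) (ZMod n) (Submodule.torsionBy ℤ (W'⁄K).Point n),
        IsPrimitiveRoot (e (b 0) (b 1)) n) ∧
      (∀ (σ : K ≃ₐ[S] K) x y, e (σ • x) (σ • y) = σ (e x y)) := by
  haveI := isElliptic_baseChange (K := K) W' hΔ
  exact ⟨weilTors W' n, weilTors_add_left, weilTors_add_right, weilTors_self, weilTors_pow,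
    isPrimitiveRoot_weilTors_basis hn, weilTors_smul⟩

/-- the determinant of the mod `n` representation is the mod `n` cyclotomic character -/
theorem det_galoisRepModuleEnd_eq_cyclotomic (hΔ : algebraMap R K W'.Δ ≠ 0) {n : ℕ} [NeZero n]
    (hn : (n : K) ≠ 0) (hr : Nat.card (rootsOfUnity n K) = n) (σ : K ≃ₐ[S] K) :
    LinearMap.det (galoisRepModuleEnd S W' n σ) =
      ((modularCyclotomicCharacter K hr (σ : K ≃+* K) : (ZMod n)ˣ) : ZMod n) := by
  haveI := isElliptic_baseChange (K := K) W' hΔ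
  by_cases h3 : 3 ≤ n
  · obtain ⟨b⟩ := H87.EC.exists_basis_torsionBy (K := K) W' hΔ hn
    exact H6.det_galoisRepModuleEnd_of_pairing_basis (weilTors W' n) weilTors_add_left
      weilTors_add_right weilTors_self b (isPrimitiveRoot_weilTors_basis h3 b).eq_orderOf.symm σ
      (weilTors_smul σ) hr
  · have h0 : n ≠ 0 := NeZero.ne n
    have hu : IsUnit (LinearMap.det (galoisRepModuleEnd S W' n σ)) := by
      have h1 : galoisRepModuleEnd S W' n σ * galoisRepModuleEnd S W' n σ⁻¹ = 1 := by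
        rw [← map_mul, mul_inv_cancel, map_one]
      have h2 := congrArg LinearMap.det h1
      rw [map_mul, map_one] at h2
      exact IsUnit.of_mul_eq_one _ h2
    obtain ⟨u, hu⟩ := hu
    have h12 : n = 1 ∨ n = 2 := by omega
    rw [← hu]
    have hss : Subsingleton (ZMod n)ˣ := by
      rcases h12 with rfl | rfl
      · infer_instance
      · infer_instance
    rw [Subsingleton.elim u]

theorem galoisRepDetEqCyclotomic (hΔ : algebraMap R K W'.Δ ≠ 0) {n : ℕ} [NeZero n]
    (hn : (n : K) ≠ 0) (hr : Nat.card (rootsOfUnity n K) = n) :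
    GaloisRepDetEqCyclotomic S W' n hr := by
  intro σ
  apply Units.ext
  rw [← det_galoisRepModuleEnd_eq_cyclotomic (S := S) W' hΔ hn hr σ, galoisRepDet_apply,
    LinearEquiv.coe_det]
  rfl

section Qbar

variable (W : WeierstrassCurve ℚ) (hWΔ : W.Δ ≠ 0)
include hWΔ

theorem det_galoisRepModuleEnd_rat {n : ℕ} [NeZero n]
    (hr : Nat.card (rootsOfUnity n (AlgebraicClosure ℚ)) = n)
    (σ : AlgebraicClosure ℚ ≃ₐ[ℚ] AlgebraicClosure ℚ) :
    LinearMap.det (galoisRepModuleEnd (K := AlgebraicClosure ℚ) ℚ W n σ) =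
      ((modularCyclotomicCharacter (AlgebraicClosure ℚ) hr
        (σ : AlgebraicClosure ℚ ≃+* AlgebraicClosure ℚ) : (ZMod n)ˣ) : ZMod n) :=
  det_galoisRepModuleEnd_eq_cyclotomic W (H87.EC.algebraMap_Δ_ne_zero hWΔ)
    (Nat.cast_ne_zero.mpr (NeZero.ne n)) hr σ

theorem galoisRepDetEqCyclotomic_rat {n : ℕ} [NeZero n]
    (hr : Nat.card (rootsOfUnity n (AlgebraicClosure ℚ)) = n) :
    GaloisRepDetEqCyclotomic (K := AlgebraicClosure ℚ) ℚ W n hr :=
  galoisRepDetEqCyclotomic W (H87.EC.algebraMap_Δ_ne_zero hWΔ)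
    (Nat.cast_ne_zero.mpr (NeZero.ne n)) hr

end Qbar

end Fermat.Agent.H39
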