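import Mathlib
import Fermat.Prelude.Def_FreyPackage_EigenformResidualAttachment
import Fermat.Prelude.Def_GaloisRep_Residual

set_option autoImplicit false

open WeierstrassCurve WeierstrassCurve.Affine WeierstrassCurve.Affine.Point
open scoped WeierstrassCurve.Affine

namespace Fermat.Agent.H42

/-- coordinates of a point -/
noncomputable def coords {K : Type*} [Field K] {W : Affine K} : W.Point → Set K
  | .zero => ∅
  | .some x y _ => {x, y}

/-- If the `n`-torsion of `W` over `ℚ̄` is finite then the Galois action on it factors through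
a finite level. -/
theorem galoisFactorsThroughFiniteLevel_torsion (W : WeierstrassCurve ℚ) (n : ℕ)
    (h : Finite (Submodule.torsionBy ℤ (W⁄(AlgebraicClosure ℚ)).Point n)) :
    GaloisFactorsThroughFiniteLevel
      (WeierstrassCurve.Affine.Point.galoisRepModuleEnd (K := AlgebraicClosure ℚ) ℚ W n) := by
  classical
  set S : Set (AlgebraicClosure ℚ) :=
    ⋃ P : Submodule.torsionBy ℤ (W⁄(AlgebraicClosure ℚ)).Point n,
      coords (P : (W⁄(AlgebraicClosure ℚ)).Point) with hS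
  have hSfin : S.Finite := by
    rw [hS]
    refine Set.finite_iUnion fun P => ?_
    rcases (P : (W⁄(AlgebraicClosure ℚ)).Point) with _ | ⟨x, y, _⟩
    · exact Set.finite_empty
    · exact (Set.finite_singleton _).insert _
  refine ⟨IntermediateField.adjoin ℚ S, ?_, ?_⟩
  · have : Finite S := hSfin
    exact IntermediateField.finiteDimensional_adjoin
      fun x _ => (AlgebraicClosure.isAlgebraic ℚ).isIntegral.isIntegral x
  · intro σ hσ
    refine LinearMap.ext fun P => ?_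
    rw [galoisRepModuleEnd_apply]
    refine Subtype.ext ?_
    have hP : ∀ x ∈ coords (P : (W⁄(AlgebraicClosure ℚ)).Point), σ x = x := fun x hx =>
      hσ x (IntermediateField.subset_adjoin ℚ S (Set.mem_iUnion.mpr ⟨P, hx⟩))
    change σ • (P : (W⁄(AlgebraicClosure ℚ)).Point) = P
    generalize (P : (W⁄(AlgebraicClosure ℚ)).Point) = Q at hP
    rcases Q with _ | ⟨x, y, hxy⟩
    · rfl
    · have hx : σ x = x := hP x (by simp [coords])
      have hy : σ y = y := hP y (by simp [coords])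
      rw [algEquiv_smul_def, map_some]
      congr 1

/-- common finite Galois level (generic base field to avoid instance clashes over `ℚ`). -/
theorem exists_common_level {k K : Type} [Field k] [CharZero k] [Field K] [Algebra k K]
    [IsAlgClosed K] [Algebra.IsAlgebraic k K] (L₁ L₂ : IntermediateField k K)
    [FiniteDimensional k L₁] [FiniteDimensional k L₂] :
    ∃ (F : Type) (_ : Field F) (_ : Algebra k F) (_ : FiniteDimensional k F) (_ : IsGalois k F)
      (_ : Algebra F K) (_ : IsScalarTower k F K),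
      ∀ σ : K ≃ₐ[k] K, σ ∈ (AlgEquiv.restrictNormalHom (F := k) (K₁ := K) F).ker →
        (∀ x ∈ L₁, σ x = x) ∧ (∀ x ∈ L₂, σ x = x) := by
  have h₁₂ : FiniteDimensional k ↥(L₁ ⊔ L₂) := IntermediateField.finiteDimensional_sup L₁ L₂
  have hc : IsAlgClosure k K := ⟨inferInstance, inferInstance⟩
  have hn : Normal k K := IsAlgClosure.normal k K
  have hN : Normal k ↥(IntermediateField.normalClosure k ↥(L₁ ⊔ L₂) K) := inferInstance
  have hG : IsGalois k ↥(IntermediateField.normalClosure k ↥(L₁ ⊔ L₂) K) := ⟨⟩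
  have hle : L₁ ⊔ L₂ ≤ IntermediateField.normalClosure k ↥(L₁ ⊔ L₂) K :=
    IntermediateField.le_normalClosure _
  refine ⟨IntermediateField.normalClosure k ↥(L₁ ⊔ L₂) K, inferInstance, inferInstance,
    inferInstance, hG, inferInstance, inferInstance, fun σ hσ => ?_⟩
  have hσ' : ∀ x ∈ IntermediateField.normalClosure k ↥(L₁ ⊔ L₂) K, σ x = x := by
    intro x hx
    have h1 := MonoidHom.mem_ker.mp hσ
    have h2 := AlgEquiv.restrictNormalHom_apply
      (IntermediateField.normalClosure k ↥(L₁ ⊔ L₂) K) σ ⟨x, hx⟩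
    rw [h1] at h2
    exact h2.symm
  exact ⟨fun x hx => hσ' x (hle ((le_sup_left : L₁ ≤ L₁ ⊔ L₂) hx)),
    fun x hx => hσ' x (hle ((le_sup_right : L₂ ≤ L₁ ⊔ L₂) hx))⟩

/-- trace and determinant from the characteristic polynomial in dimension two. -/
theorem trace_det_of_charpoly {k : Type*} [Field k] {V : Type*} [AddCommGroup V] [Module k V]
    [Module.Finite k V]
    (hV : Module.finrank k V = 2) (f : V →ₗ[k] V) (a b : k)
    (h : LinearMap.charpoly f = Polynomial.X ^ 2 - Polynomial.C a * Polynomial.X + Polynomial.C b) :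
    LinearMap.trace k V f = a ∧ LinearMap.det f = b := by
  constructor
  · have e : Fintype.card (Fin (Module.finrank k V)) = 2 := by simp [hV]
    rw [LinearMap.trace_eq_matrix_trace k (Module.finBasis k V),
      Matrix.trace_eq_neg_charpoly_nextCoeff, LinearMap.charpoly_toMatrix, h]
    have hd : (Polynomial.X ^ 2 - Polynomial.C a * Polynomial.X + Polynomial.C b :
        Polynomial k).natDegree = 2 := by compute_degree!
    rw [Polynomial.nextCoeff_of_natDegree_pos (by rw [hd]; norm_num), hd]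
    simp [Polynomial.coeff_C]
  · have hd := LinearMap.det_eq_sign_charpoly_coeff f
    rw [hV, h] at hd
    simpa using hd

/-- The Frey curve is nonsingular: explicit discriminant. -/
theorem freyCurve_Δ (P : FreyPackage) :
    P.freyCurve.Δ = ((P.a * P.b * P.c : ℤ) : ℚ) ^ (2 * P.p) / 2 ^ 8 := by
  have hc : ((P.c : ℤ) : ℚ) ^ P.p = (P.a : ℚ) ^ P.p + (P.b : ℚ) ^ P.p := by
    exact_mod_cast P.hFLT.symm
  have h1 : ((P.a * P.b * P.c : ℤ) : ℚ) ^ (2 * P.p) =
      ((P.a : ℚ) ^ P.p) ^ 2 * ((P.b : ℚ) ^ P.p) ^ 2 * ((P.a : ℚ) ^ P.p + (P.b : ℚ) ^ P.p) ^ 2 := by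
    rw [← hc]; push_cast; ring
  rw [h1]
  simp only [FreyPackage.freyCurve, WeierstrassCurve.Δ, WeierstrassCurve.b₂, WeierstrassCurve.b₄,
    WeierstrassCurve.b₆, WeierstrassCurve.b₈]
  ring

theorem freyCurve_Δ_ne_zero (P : FreyPackage) : P.freyCurve.Δ ≠ 0 := by
  rw [freyCurve_Δ]
  refine div_ne_zero (pow_ne_zero _ ?_) (by norm_num)
  exact_mod_cast P.habc0

/-- The statement of S29. -/
def StatementS29 : Prop :=
  ∀ {N : ℕ} {g : CuspForm (CongruenceSubgroup.Gamma0 N) 2} (_ : g.IsNormalizedEigenform)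
    {p : ℕ} (_ : p.Prime) {k : Type} [Field k] [CharP k p]
    (φ : integralClosure ℤ ℂ →+* k),
    ∃ ρ : ResidualGaloisRep k, ρ.IsAttachedTo g φ ∧
      ∀ ℓ : ℕ, ℓ.Prime → ¬ ℓ ∣ N * p → ρ.IsUnramifiedAt ℓ

theorem charP_quotient {p : ℕ} (hp : p.Prime) (𝔪 : Ideal (integralClosure ℤ ℂ)) (h𝔪 : 𝔪.IsMaximal)
    (hpm : (p : integralClosure ℤ ℂ) ∈ 𝔪) : CharP (integralClosure ℤ ℂ ⧸ 𝔪) p := by
  have : Nontrivial (integralClosure ℤ ℂ ⧸ 𝔪) := Ideal.Quotient.nontrivial_iff.mpr h𝔪.ne_top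
  have h0 : ((p : ℕ) : integralClosure ℤ ℂ ⧸ 𝔪) = 0 := by
    rw [← map_natCast (Ideal.Quotient.mk 𝔪)]
    exact Ideal.Quotient.eq_zero_iff_mem.mpr hpm
  exact (CharP.charP_iff_prime_eq_zero hp).mpr h0

/-- S42 from S29 and finiteness of the `p`-torsion of the Frey curve. -/
theorem eigenformResidualAttachment_of (h29 : StatementS29) (P : FreyPackage)
    (hfin : Finite (Submodule.torsionBy ℤ (P.freyCurve⁄(AlgebraicClosure ℚ)).Point P.p)) :
    ∀ M : ℕ, 0 < M → P.EigenformResidualAttachmentAt M := by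
  intro M _ g hg 𝔪 h𝔪 hpm
  let _ : Field (integralClosure ℤ ℂ ⧸ 𝔪) := Ideal.Quotient.field 𝔪
  have _ : CharP (integralClosure ℤ ℂ ⧸ 𝔪) P.p := charP_quotient P.pp 𝔪 h𝔪 hpm
  obtain ⟨ρ, hρ, -⟩ := h29 hg P.pp (Ideal.Quotient.mk 𝔪)
  obtain ⟨L₁, hL₁, h₁⟩ := galoisFactorsThroughFiniteLevel_torsion P.freyCurve P.p hfin
  obtain ⟨L₂, hL₂, h₂⟩ := ρ.factorsThroughFiniteLevel
  have hc : Algebra.IsAlgebraic ℚ (AlgebraicClosure ℚ) := AlgebraicClosure.isAlgebraic ℚ
  obtain ⟨F, iF, iA, iFD, iG, iFQ, iT, hF⟩ := exists_common_level L₁ L₂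
  have hchar : CharZero F := charZero_of_injective_algebraMap (algebraMap ℚ F).injective
  obtain rfl : iA = DivisionRing.toRatAlgebra := Subsingleton.elim _ _
  have hNF : NumberField F := ⟨⟩
  have hkey : ∀ ℓ : ℕ, ℓ.Prime → ¬ ℓ ∣ M → ℓ ≠ P.p →
          ∀ A : ValuationSubring (AlgebraicClosure ℚ), A.LiesOverPrime ℓ →
            ∀ τ : AlgebraicClosure ℚ ≃ₐ[ℚ] AlgebraicClosure ℚ, A.IsFrobeniusAt τ ℓ →
              (∃ a : integralClosure ℤ ℂ, (a : ℂ) = ModularFormClass.qCoeff g ℓ ∧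
                LinearMap.trace _ ρ.V (ρ.ρ τ) = Ideal.Quotient.mk 𝔪 a) ∧
                LinearMap.det (ρ.ρ τ) = (ℓ : integralClosure ℤ ℂ ⧸ 𝔪) := by
    intro ℓ hℓ hℓM hℓp A hA τ hτ
    have hne : (ℓ : integralClosure ℤ ℂ ⧸ 𝔪) ≠ 0 := by
      intro h0
      have := (CharP.cast_eq_zero_iff (integralClosure ℤ ℂ ⧸ 𝔪) P.p ℓ).mp h0
      exact hℓp ((Nat.prime_dvd_prime_iff_eq P.pp hℓ).mp this).symm
    obtain ⟨a, ha, hchar⟩ := hρ ℓ hℓ hℓM hne A hA τ hτ
    obtain ⟨ht, hd⟩ := trace_det_of_charpoly ρ.finrank_eq (ρ.ρ τ) _ _ hchar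
    exact ⟨⟨a, ha, ht⟩, hd⟩
  refine ⟨integralClosure ℤ ℂ ⧸ 𝔪, inferInstance, ZMod.algebra _ P.p, ρ.V, inferInstance,
    inferInstance, ρ.ρ, Ideal.Quotient.mk 𝔪, F, iF, hNF, iG, iFQ,
    iT, ?_, ρ.finrank_eq, ?_, ?_, ?_⟩
  · rw [Ideal.mk_ker]
  · intro σ hσ
    refine Subgroup.mem_inf.mpr ⟨?_, ?_⟩
    · exact MonoidHom.mem_ker.mpr (h₁ σ (hF σ hσ).1)
    · exact MonoidHom.mem_ker.mpr (h₂ σ (hF σ hσ).2)
  · intro ℓ hℓ hℓM hℓp A hA τ hτ
    exact (hkey ℓ hℓ hℓM hℓp A hA τ hτ).1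
  · intro ℓ hℓ hℓM hℓp A hA τ hτ
    exact (hkey ℓ hℓ hℓM hℓp A hA τ hτ).2

end Fermat.Agent.H42
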