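import Fermat.Agent.H62FrobCharpoly
import Fermat.Agent.H59RedGal
import Fermat.Agent.H39WeilDet
import Fermat.Agent.H31Cyclo

/-!
# Trace of Frobenius on torsion points at primes of good reduction
-/

set_option autoImplicit false

namespace Fermat.Agent.H62

open WeierstrassCurve WeierstrassCurve.Affine Fermat.Agent.H59

section

variable {R S K : Type*} [CommRing R] [Field S] [Field K] [DecidableEq K] [Algebra R S]
  [Algebra R K] [Algebra S K] [IsScalarTower R S K] {W : WeierstrassCurve ℤ} {E : Affine R}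
  {A : ValuationSubring K}

/-- The Frobenius relation on torsion points (`σ² - a_ℓ σ + ℓ = 0` on `E[n]`) at primes of good
reduction not dividing `n`. -/
theorem frob_relation (hE : W.map (Int.castRingHom R) = E) {ℓ n : ℕ} (hℓ : ℓ.Prime)
    (hΔ : ¬ (ℓ : ℤ) ∣ W.Δ) (hn : ¬ ℓ ∣ n) (hA : A.LiesOverPrime ℓ) {σ : K ≃ₐ[S] K}
    (hσ : A.IsFrobeniusAt σ ℓ) (P : (E⁄K).Point) (hP : n • P = 0) :
    σ • σ • P - W.apOfModel ℓ • σ • P + (ℓ : ℤ) • P = 0 := by
  classical
  have hF : Fact ℓ.Prime := ⟨hℓ⟩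
  let k := IsLocalRing.ResidueField A
  let ρ : A →+* k := IsLocalRing.residue A
  have hchar : CharP k ℓ := charP_residue hℓ hA
  let _ : Algebra (ZMod ℓ) k := ZMod.algebra k ℓ
  let W₀ : WeierstrassCurve (ZMod ℓ) := W.reductionMod ℓ
  have hL : (W.map (Int.castRingHom A)).map A.subtype = E⁄K := model_map hE
  have hk : (W.map (Int.castRingHom A)).map ρ = W₀⁄k := by
    rw [WeierstrassCurve.map_map]
    change _ = (W.map (Int.castRingHom (ZMod ℓ))).map (algebraMap (ZMod ℓ) k)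
    rw [WeierstrassCurve.map_map]
    congr 1
    exact RingHom.ext_int _ _
  have hΔ₀ : W₀.Δ ≠ 0 := by
    change (W.map (Int.castRingHom (ZMod ℓ))).Δ ≠ 0
    rw [map_Δ, eq_intCast, ne_eq, ZMod.intCast_zmod_eq_zero_iff_dvd]
    exact hΔ
  have hΔk : (W₀⁄k).Δ ≠ 0 := by
    have : (W₀⁄k).Δ = algebraMap (ZMod ℓ) k W₀.Δ := map_Δ _ _
    rw [this]
    simpa using hΔ₀
  obtain ⟨P', hP'⟩ := exists_reduces_of_Δ_ne_zero hL hk hΔk P
  let φ : (W₀⁄k).Point →+ (W₀⁄k).Point :=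
    Point.map (W' := W₀) (FiniteField.frobeniusAlgHom (ZMod ℓ) k)
  have hφ : ∀ Q : (W₀⁄k).Point, CoordMap (fun x : k => x ^ ℓ) Q (φ Q) := by
    intro Q
    rcases Q with _ | ⟨x, y, h⟩
    · trivial
    · change CoordMap _ _ (Point.map (W' := W₀) (FiniteField.frobeniusAlgHom (ZMod ℓ) k) _)
      rw [Point.map_some]
      constructor
      · change x ^ ℓ = x ^ Fintype.card (ZMod ℓ)
        rw [ZMod.card]
      · change y ^ ℓ = y ^ Fintype.card (ZMod ℓ)
        rw [ZMod.card]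
  obtain ⟨h1, h2⟩ := residue_of_isFrobeniusAt hσ
  have hfrob : ∀ {Q : (E⁄K).Point} {Q' : (W₀⁄k).Point}, Reduces A ρ Q Q' →
      Reduces A ρ (σ • Q) (φ Q') := fun {Q Q'} hQ =>
    Reduces.coordMap (f := σ) (g := fun x => x ^ ℓ) h2 (fun x hx h => hx ((h1 x).mp h)) hQ
      (coordMap_smul σ Q) (hφ Q')
  have hred := ((hfrob (hfrob hP')).sub hL hk ((hfrob hP').zsmul hL hk (W.apOfModel ℓ))).add hL hk
    (hP'.zsmul hL hk (ℓ : ℤ))
  have hchp := frob_charpoly W₀ hΔ₀ k P'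
  rw [Nat.card_eq_fintype_card, ZMod.card] at hchp
  have hzero : φ (φ P') - W.apOfModel ℓ • φ P' + (ℓ : ℤ) • P' = 0 := hchp
  rw [hzero] at hred
  have hn0 : (n : k) ≠ 0 := natCast_residue_ne_zero hℓ hA hn
  refine eq_zero_of_nsmul_eq_zero hL hred hn0 ?_
  have hσP : n • σ • P = 0 := by rw [smul_comm n σ P, hP, smul_zero]
  have hσσP : n • σ • σ • P = 0 := by rw [smul_comm n σ (σ • P), hσP, smul_zero]
  rw [smul_add, smul_sub, hσσP, smul_comm n (W.apOfModel ℓ), hσP, smul_comm n (ℓ : ℤ), hP]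
  simp

omit [DecidableEq K] in
/-- the mod `n` cyclotomic character at Frobenius elements. -/
theorem modularCyclotomicCharacter_frob {ℓ n : ℕ} [NeZero n] (hℓ : ℓ.Prime) (hn : ¬ ℓ ∣ n)
    (hA : A.LiesOverPrime ℓ) {σ : K ≃ₐ[S] K} (hσ : A.IsFrobeniusAt σ ℓ)
    (hr : Nat.card (rootsOfUnity n K) = n) :
    ((modularCyclotomicCharacter K hr (σ : K ≃+* K) : (ZMod n)ˣ) : ZMod n) = ℓ := by
  symm
  refine modularCyclotomicCharacter.unique K hr _ fun t ht => ?_
  have ht' : (t : K) ^ n = 1 := by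
    have := (mem_rootsOfUnity n t).mp ht
    rw [← Units.val_pow_eq_pow_val, this, Units.val_one]
  have h1 := H31.frobenius_apply_rootOfUnity A hA ((Nat.Prime.coprime_iff_not_dvd hℓ).mpr hn)
    (Nat.pos_of_ne_zero (NeZero.ne n)) hσ ht'
  change σ (t : K) = _
  rw [h1, ZMod.val_natCast, ← pow_eq_pow_mod ℓ ht']

end

section linalg

/-- A rank two endomorphism which is invertible and satisfies `T² - a T + d = 0` with `d = det T`
has trace `a`. -/
lemma trace_eq_of_relation {R V : Type*} [CommRing R] [AddCommGroup V] [Module R V]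
    (b : Module.Basis (Fin 2) R V) (T : Module.End R V) {a d : R}
    (h : ∀ x, T (T x) - a • T x + d • x = 0) (hd : LinearMap.det T = d) (hu : IsUnit d) :
    LinearMap.trace R V T = a := by
  classical
  nontriviality R
  have hM := Matrix.aeval_self_charpoly (LinearMap.toMatrix b b T)
  rw [Matrix.charpoly_fin_two] at hM
  have htr : (LinearMap.toMatrix b b T).trace = LinearMap.trace R V T :=
    (LinearMap.trace_eq_matrix_trace R b T).symm
  have hdet : (LinearMap.toMatrix b b T).det = d := by rw [LinearMap.det_toMatrix, hd]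
  rw [htr, hdet] at hM
  obtain ⟨τ, hτ⟩ : ∃ τ, τ = LinearMap.trace R V T := ⟨_, rfl⟩
  rw [← hτ] at hM ⊢
  have hT : T * T - τ • T + d • (1 : Module.End R V) = 0 := by
    apply (LinearMap.toMatrixAlgEquiv b).injective
    simp only [map_add, map_sub, map_mul, map_smul, map_one, map_zero]
    change LinearMap.toMatrix b b T * LinearMap.toMatrix b b T - τ • LinearMap.toMatrix b b T
      + d • (1 : Matrix (Fin 2) (Fin 2) R) = 0
    rw [← hM]
    simp [Polynomial.aeval_def, Algebra.algebraMap_eq_smul_one, sq]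
  have h2 : ∀ x, τ • T x = a • T x := by
    intro x
    have h3 := LinearMap.congr_fun hT x
    have h4 := h x
    simp only [LinearMap.add_apply, LinearMap.sub_apply, Module.End.mul_apply,
      LinearMap.smul_apply, Module.End.one_apply, LinearMap.zero_apply] at h3
    have h5 : T (T x) + d • x = τ • T x := by
      rw [← sub_eq_zero, ← h3]; abel
    have h6 : T (T x) + d • x = a • T x := by
      rw [← sub_eq_zero, ← h4]; abel
    rw [← h5, h6]
  have hsurj : Function.Surjective T := by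
    rw [← hd] at hu
    have : Module.Free R V := Module.Free.of_basis b
    have : Module.Finite R V := Module.Finite.of_basis b
    exact ((Module.End.isUnit_iff T).mp ((LinearMap.isUnit_iff_isUnit_det T).mpr hu)).2
  obtain ⟨x, hx⟩ := hsurj (b 0)
  have h7 := congrArg (fun v => b.repr v 0) (h2 x)
  simpa [hx] using h7

end linalg

section

variable {R S K : Type*} [CommRing R] [Field S] [Field K] [DecidableEq K] [IsAlgClosed K]
  [Algebra R S] [Algebra R K] [Algebra S K] [IsScalarTower R S K] {W : WeierstrassCurve ℤ}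
  {E : Affine R} {A : ValuationSubring K}

variable [CharZero K]

/-- **Determinant of Frobenius** on `E[n]`. -/
theorem det_frob (hE : W.map (Int.castRingHom R) = E) {ℓ n : ℕ} [NeZero n] (hℓ : ℓ.Prime)
    (hΔ : ¬ (ℓ : ℤ) ∣ W.Δ) (hn : ¬ ℓ ∣ n) (hA : A.LiesOverPrime ℓ) {σ : K ≃ₐ[S] K}
    (hσ : A.IsFrobeniusAt σ ℓ) :
    LinearMap.det (Point.galoisRepModuleEnd S E n σ) = (ℓ : ZMod n) := by
  have hn0 : (n : K) ≠ 0 := Nat.cast_ne_zero.mpr (NeZero.ne n)
  have hΔ0 : W.Δ ≠ 0 := by rintro h; rw [h] at hΔ; exact hΔ (dvd_zero _)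
  have hΔ' : algebraMap R K E.Δ ≠ 0 := by
    rw [← hE, map_Δ, eq_intCast, map_intCast]
    exact_mod_cast hΔ0
  have : NeZero (n : K) := ⟨hn0⟩
  have hr : Nat.card (rootsOfUnity n K) = n := HasEnoughRootsOfUnity.natCard_rootsOfUnity K n
  rw [H39.det_galoisRepModuleEnd_eq_cyclotomic E hΔ' hn0 hr σ,
    modularCyclotomicCharacter_frob hℓ hn hA hσ hr]

/-- **Trace of Frobenius** on `E[n]`. -/
theorem trace_frob (hE : W.map (Int.castRingHom R) = E) {ℓ n : ℕ} [NeZero n] (hℓ : ℓ.Prime)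
    (hΔ : ¬ (ℓ : ℤ) ∣ W.Δ) (hn : ¬ ℓ ∣ n) (hA : A.LiesOverPrime ℓ) {σ : K ≃ₐ[S] K}
    (hσ : A.IsFrobeniusAt σ ℓ) :
    Point.galoisTrace S E n σ = (W.apOfModel ℓ : ZMod n) := by
  have hn0 : (n : K) ≠ 0 := Nat.cast_ne_zero.mpr (NeZero.ne n)
  have hΔ0 : W.Δ ≠ 0 := by rintro h; rw [h] at hΔ; exact hΔ (dvd_zero _)
  have hΔ' : algebraMap R K E.Δ ≠ 0 := by
    rw [← hE, map_Δ, eq_intCast, map_intCast]
    exact_mod_cast hΔ0
  obtain ⟨b⟩ := H87.EC.exists_basis_torsionBy (K := K) E hΔ' hn0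
  rw [Point.galoisTrace_def]
  refine trace_eq_of_relation b _ (d := (ℓ : ZMod n)) ?_ (det_frob hE hℓ hΔ hn hA hσ) ?_
  · intro x
    rw [Point.galoisRepModuleEnd_apply, Point.galoisRepModuleEnd_apply]
    apply Subtype.ext
    have h1 : n • (x : (E⁄K).Point) = 0 := by
      have h := (Submodule.mem_torsionBy_iff _ _).mp x.2
      rw [← natCast_zsmul]
      exact h
    have h2 := frob_relation (S := S) hE hℓ hΔ hn hA hσ x h1
    have h3 : ((W.apOfModel ℓ : ZMod n)) • (σ • x) = (W.apOfModel ℓ) • (σ • x) :=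
      Int.cast_smul_eq_zsmul _ _ _
    have h4 : ((ℓ : ZMod n)) • x = (ℓ : ℤ) • x := by
      rw [← Int.cast_smul_eq_zsmul (ZMod n) (ℓ : ℤ) x, Int.cast_natCast]
    rw [h3, h4]
    exact h2
  · exact (ZMod.isUnit_iff_coprime ℓ n).mpr ((Nat.Prime.coprime_iff_not_dvd hℓ).mpr hn)

end

section Qbar

variable (W : WeierstrassCurve ℤ)

/-- trace of Frobenius in the form used by the statements. -/
theorem trace_frob_rat {ℓ n : ℕ} [NeZero n] (hℓ : ℓ.Prime) (hW : W.IsGoodPrimeFor ℓ)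
    (hn : ¬ ℓ ∣ n) {A : ValuationSubring (AlgebraicClosure ℚ)} (hA : A.LiesOverPrime ℓ)
    {σ : AlgebraicClosure ℚ ≃ₐ[ℚ] AlgebraicClosure ℚ} (hσ : A.IsFrobeniusAt σ ℓ) :
    LinearMap.trace (ZMod n) _ (Point.galoisRepModuleEnd (K := AlgebraicClosure ℚ) ℚ
      (W.map (Int.castRingHom ℚ)) n σ) = (W.apOfModel ℓ : ZMod n) :=
  trace_frob (S := ℚ) rfl hℓ hW hn hA hσ

/-- determinant of Frobenius in the form used by the statements. -/
theorem det_frob_rat {ℓ n : ℕ} [NeZero n] (hℓ : ℓ.Prime) (hW : W.IsGoodPrimeFor ℓ)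
    (hn : ¬ ℓ ∣ n) {A : ValuationSubring (AlgebraicClosure ℚ)} (hA : A.LiesOverPrime ℓ)
    {σ : AlgebraicClosure ℚ ≃ₐ[ℚ] AlgebraicClosure ℚ} (hσ : A.IsFrobeniusAt σ ℓ) :
    LinearMap.det (Point.galoisRepModuleEnd (K := AlgebraicClosure ℚ) ℚ
      (W.map (Int.castRingHom ℚ)) n σ) = (ℓ : ZMod n) :=
  det_frob (S := ℚ) rfl hℓ hW hn hA hσ

end Qbar

end Fermat.Agent.H62
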