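import Fermat.Prelude.Def_GaloisRep_Residual
import Mathlib.LinearAlgebra.FiniteDimensional.Lemmas
import Mathlib.Tactic

/-!
# Odd + irreducible implies absolutely irreducible
-/

set_option autoImplicit false

open scoped TensorProduct

namespace Fermat.Agent.H87.AbsIrr

/-- An involution of determinant `-1` on a plane is diagonalisable with eigenvalues `1, -1`. -/
theorem exists_eigenbasis {k V : Type*} [Field k] [AddCommGroup V] [Module k V]
    (h2 : (2 : k) ≠ 0) (hV : Module.finrank k V = 2) (C : Module.End k V) (hC : C * C = 1)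
    (hdet : LinearMap.det C = -1) :
    ∃ b : Module.Basis (Fin 2) k V, C (b 0) = b 0 ∧ C (b 1) = - b 1 := by
  have hCC : ∀ x, C (C x) = x := fun x => by
    rw [← Module.End.mul_apply, hC, Module.End.one_apply]
  have h1 : C ≠ 1 := by
    rintro rfl
    rw [map_one] at hdet
    apply h2
    linear_combination hdet
  have h1' : C ≠ -1 := by
    rintro rfl
    have h3 : LinearMap.det (-1 : Module.End k V) = 1 := by
      have h4 : (-1 : Module.End k V) = (-1 : k) • 1 := by rw [neg_smul, one_smul]
      rw [h4, LinearMap.det_smul, hV, map_one]; norm_num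
    rw [h3] at hdet
    apply h2
    linear_combination hdet
  obtain ⟨v, hv⟩ : ∃ v, C v ≠ -v := by
    by_contra h
    push Not at h
    exact h1' (LinearMap.ext fun x => by simpa using h x)
  obtain ⟨w, hw⟩ : ∃ w, C w ≠ w := by
    by_contra h
    push Not at h
    exact h1 (LinearMap.ext fun x => by simpa using h x)
  set u := v + C v with hu
  set u' := w - C w with hu'
  have hu0 : u ≠ 0 := fun h => hv (by rw [hu] at h; exact (neg_eq_of_add_eq_zero_right h).symm)
  have hu'0 : u' ≠ 0 := fun h => hw (sub_eq_zero.mp h).symm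
  have hCu : C u = u := by rw [hu, map_add, hCC, add_comm]
  have hCu' : C u' = -u' := by rw [hu', map_sub, hCC]; abel
  have hli : LinearIndependent k ![u, u'] := by
    rw [LinearIndependent.pair_iff]
    intro s t hst
    have hst' : s • u - t • u' = 0 := by
      have := congrArg C hst
      rw [map_add, map_smul, map_smul, hCu, hCu', map_zero, smul_neg, ← sub_eq_add_neg] at this
      exact this
    have hs : (2 * s) • u = 0 := by
      calc (2 * s) • u = (s • u + t • u') + (s • u - t • u') := by
            rw [two_mul, add_smul]; abel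
        _ = 0 := by rw [hst, hst', add_zero]
    have ht : (2 * t) • u' = 0 := by
      calc (2 * t) • u' = (s • u + t • u') - (s • u - t • u') := by
            rw [two_mul, add_smul]; abel
        _ = 0 := by rw [hst, hst', sub_zero]
    exact ⟨(mul_eq_zero.mp ((smul_eq_zero.mp hs).resolve_right hu0)).resolve_left h2,
      (mul_eq_zero.mp ((smul_eq_zero.mp ht).resolve_right hu'0)).resolve_left h2⟩
  refine ⟨basisOfLinearIndependentOfCardEqFinrank hli (by rw [hV, Fintype.card_fin]), ?_, ?_⟩
  · rw [coe_basisOfLinearIndependentOfCardEqFinrank]; exact hCu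
  · rw [coe_basisOfLinearIndependentOfCardEqFinrank]; exact hCu'

/-- Linear algebra core: a family of endomorphisms of a plane without stable line, containing an
involution of determinant `-1`, has no stable line after any extension of scalars. -/
theorem stable_baseChange {k k' V G : Type*} [Field k] [Field k'] [Algebra k k']
    [AddCommGroup V] [Module k V] (h2 : (2 : k) ≠ 0) (hV : Module.finrank k V = 2)
    (ρ : G → Module.End k V)
    (hirr : ∀ W : Submodule k V, (∀ σ, ∀ x ∈ W, ρ σ x ∈ W) → W = ⊥ ∨ W = ⊤)
    (c : G) (hC : ρ c * ρ c = 1) (hdet : LinearMap.det (ρ c) = -1)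
    (W : Submodule k' (k' ⊗[k] V)) (hW : ∀ σ, ∀ x ∈ W, (ρ σ).baseChange k' x ∈ W) :
    W = ⊥ ∨ W = ⊤ := by
  classical
  obtain ⟨b, hb0, hb1⟩ := exists_eigenbasis h2 hV (ρ c) hC hdet
  by_cases hbot : W = ⊥
  · exact Or.inl hbot
  refine Or.inr ?_
  have h2' : (2 : k') ≠ 0 := by
    have := (map_ne_zero (algebraMap k k')).mpr h2
    rwa [map_ofNat] at this
  set e : Module.Basis (Fin 2) k' (k' ⊗[k] V) := b.baseChange k' with he
  have hei : ∀ i, e i = 1 ⊗ₜ[k] b i := fun i => by rw [he, Module.Basis.baseChange_apply]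
  -- moving from one basis vector to the other
  have hmove : ∀ i j : Fin 2, i ≠ j → e i ∈ W → e j ∈ W := by
    intro i j hij hi
    have hline : ¬ (∀ σ, ∀ x ∈ Submodule.span k {b i}, ρ σ x ∈ Submodule.span k {b i}) := by
      intro h
      rcases hirr _ h with h | h
      · rw [Submodule.span_singleton_eq_bot] at h
        exact b.ne_zero i h
      · have hj : b j ∈ Submodule.span k {b i} := by rw [h]; exact Submodule.mem_top
        obtain ⟨a, ha⟩ := Submodule.mem_span_singleton.mp hj
        have h3 := congrArg (fun v => b.repr v j) ha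
        simp only [map_smul, Module.Basis.repr_self, Finsupp.smul_apply, Finsupp.single_eq_same,
          Finsupp.single_eq_of_ne (Ne.symm hij), smul_zero] at h3
        exact one_ne_zero h3.symm
    push Not at hline
    obtain ⟨σ, x, hx, hσx⟩ := hline
    obtain ⟨a, rfl⟩ := Submodule.mem_span_singleton.mp hx
    -- coordinates of `ρ σ (b i)`
    have hsum : ρ σ (b i) = b.repr (ρ σ (b i)) i • b i + b.repr (ρ σ (b i)) j • b j := by
      have h4 := b.sum_repr (ρ σ (b i))
      rw [Fin.sum_univ_two] at h4
      fin_cases i <;> fin_cases j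
      · exact absurd rfl hij
      · exact h4.symm
      · rw [add_comm]; exact h4.symm
      · exact absurd rfl hij
    have hd : b.repr (ρ σ (b i)) j ≠ 0 := by
      intro h0
      apply hσx
      rw [map_smul, hsum, h0, zero_smul, add_zero, smul_smul]
      exact Submodule.smul_mem _ _ (Submodule.mem_span_singleton_self _)
    have h5 : (ρ σ).baseChange k' (e i) ∈ W := hW σ _ hi
    rw [hei, LinearMap.baseChange_tmul, hsum, TensorProduct.tmul_add, TensorProduct.tmul_smul,
      TensorProduct.tmul_smul, ← hei, ← hei] at h5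
    have h6 : b.repr (ρ σ (b i)) i • e i ∈ W := by
      rw [← algebraMap_smul k']; exact W.smul_mem _ hi
    have h7 : b.repr (ρ σ (b i)) j • e j ∈ W := (W.add_mem_iff_right h6).mp h5
    rw [← algebraMap_smul k'] at h7
    exact (W.smul_mem_iff ((map_ne_zero (algebraMap k k')).mpr hd)).mp h7
  have hall : ∀ i, e i ∈ W → W = ⊤ := by
    intro i hi
    rw [eq_top_iff, ← e.span_eq, Submodule.span_le]
    rintro _ ⟨j, rfl⟩
    by_cases hij : i = j
    · subst hij; exact hi
    · exact hmove i j hij hi
  obtain ⟨w, hw, hw0⟩ := Submodule.exists_mem_ne_zero_of_ne_bot hbot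
  have hw1 : w = e.repr w 0 • e 0 + e.repr w 1 • e 1 := by
    have h4 := e.sum_repr w
    rw [Fin.sum_univ_two] at h4
    exact h4.symm
  have hCe0 : (ρ c).baseChange k' (e 0) = e 0 := by
    rw [hei, LinearMap.baseChange_tmul, hb0]
  have hCe1 : (ρ c).baseChange k' (e 1) = -e 1 := by
    rw [hei, LinearMap.baseChange_tmul, hb1, TensorProduct.tmul_neg]
  have hCw : (ρ c).baseChange k' w = e.repr w 0 • e 0 - e.repr w 1 • e 1 := by
    conv_lhs => rw [hw1]
    rw [map_add, map_smul, map_smul, hCe0, hCe1, smul_neg, sub_eq_add_neg]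
  have hCwW := hW c w hw
  have h8 : (2 * e.repr w 0) • e 0 ∈ W := by
    have : (2 * e.repr w 0) • e 0 = w + (ρ c).baseChange k' w := by
      rw [hCw]; conv_rhs => lhs; rw [hw1]
      rw [two_mul, add_smul]; abel
    rw [this]; exact W.add_mem hw hCwW
  have h9 : (2 * e.repr w 1) • e 1 ∈ W := by
    have : (2 * e.repr w 1) • e 1 = w - (ρ c).baseChange k' w := by
      rw [hCw]; conv_rhs => lhs; rw [hw1]
      rw [two_mul, add_smul]; abel
    rw [this]; exact W.sub_mem hw hCwW
  by_cases hx : e.repr w 0 = 0
  · have hy : e.repr w 1 ≠ 0 := by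
      intro hy
      rw [hx, hy, zero_smul, zero_smul, add_zero] at hw1
      exact hw0 hw1
    exact hall 1 ((W.smul_mem_iff (mul_ne_zero h2' hy)).mp h9)
  · exact hall 0 ((W.smul_mem_iff (mul_ne_zero h2' hx)).mp h8)

variable {k : Type} [Field k]

/-- An irreducible two-dimensional Galois representation over a field of characteristic `≠ 2`,
such that some involution has determinant `-1`, stays irreducible after every extension of
scalars. -/
theorem isIrreducible_baseChange_of_involution {k' : Type} [Field k'] [Algebra k k']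
    (h2 : (2 : k) ≠ 0) (ρ : ResidualGaloisRep k) (hirr : ρ.IsIrreducible)
    (c : AlgebraicClosure ℚ ≃ₐ[ℚ] AlgebraicClosure ℚ) (hc : c * c = 1)
    (hdet : LinearMap.det (ρ.ρ c) = -1) : (ρ.baseChange k').IsIrreducible := by
  intro W hW
  exact stable_baseChange h2 ρ.finrank_eq (fun σ => ρ.ρ σ) hirr c
    (by rw [← map_mul, hc, map_one]) hdet W hW

theorem isAbsolutelyIrreducible_of_involution
    (h2 : (2 : k) ≠ 0) (ρ : ResidualGaloisRep k) (hirr : ρ.IsIrreducible)
    (c : AlgebraicClosure ℚ ≃ₐ[ℚ] AlgebraicClosure ℚ) (hc : c * c = 1)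
    (hdet : LinearMap.det (ρ.ρ c) = -1) : ρ.IsAbsolutelyIrreducible :=
  isIrreducible_baseChange_of_involution h2 ρ hirr c hc hdet

end Fermat.Agent.H87.AbsIrr
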