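import Mathlib.NumberTheory.Cyclotomic.CyclotomicCharacter
import Mathlib.FieldTheory.IsAlgClosed.Basic
import Mathlib.Algebra.Ring.GeomSum
import Mathlib.Tactic

/-!
# Involutions of algebraically closed fields act by inversion on roots of unity

Let `K` be an algebraically closed field with `2 ≠ 0` and `c` a field automorphism with
`c ∘ c = id`, `c ≠ id`. Then `c ζ = ζ⁻¹` for each root of unity `ζ`.
-/

set_option autoImplicit false

namespace Fermat.Agent.H87.Invol

variable {K : Type*} [Field K] [IsAlgClosed K]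

/-- `-1` is not a square in the fixed field. -/
theorem neg_one_not_sq (h2 : (2 : K) ≠ 0) (c : K ≃+* K) (hc : ∀ x, c (c x) = x)
    {γ : K} (hγ : c γ ≠ γ) {x : K} (hx : c x = x) : x * x ≠ -1 := by
  intro hxx
  obtain ⟨β, hβ⟩ := IsAlgClosed.exists_pow_nat_eq (γ - c γ) (n := 2) (by norm_num)
  have hα : γ - c γ ≠ 0 := sub_ne_zero.mpr (Ne.symm hγ)
  have hcα : c (γ - c γ) = -(γ - c γ) := by rw [map_sub, hc]; ring
  have hcN : c (β * c β) = β * c β := by rw [map_mul, hc, mul_comm]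
  have hN : (β * c β) * (β * c β) = (x * (γ - c γ)) * (x * (γ - c γ)) := by
    have h1 : c β ^ 2 = -(γ - c γ) := by rw [← map_pow, hβ, hcα]
    calc (β * c β) * (β * c β) = β ^ 2 * c β ^ 2 := by ring
      _ = (γ - c γ) * (-(γ - c γ)) := by rw [hβ, h1]
      _ = (x * x) * ((γ - c γ) * (γ - c γ)) := by rw [hxx]; ring
      _ = _ := by ring
  have hNx : c (x * (γ - c γ)) = -(x * (γ - c γ)) := by rw [map_mul, hx, hcα]; ring
  have h0 : x * (γ - c γ) = 0 := by
    rcases mul_self_eq_mul_self_iff.mp hN with h | h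
    · have h3 : x * (γ - c γ) = -(x * (γ - c γ)) := by
        rw [← hNx, ← h, hcN]
      have h4 : 2 * (x * (γ - c γ)) = 0 := by linear_combination h3
      exact (mul_eq_zero.mp h4).resolve_left h2
    · have h3 : x * (γ - c γ) = -(x * (γ - c γ)) := by
        rw [← hNx]
        have h5 : x * (γ - c γ) = -(β * c β) := by rw [h, neg_neg]
        rw [h5, map_neg, hcN]
      have h4 : 2 * (x * (γ - c γ)) = 0 := by linear_combination h3
      exact (mul_eq_zero.mp h4).resolve_left h2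
  rcases mul_eq_zero.mp h0 with h | h
  · rw [h] at hxx
    have : (1 : K) = 0 := by linear_combination hxx
    exact one_ne_zero this
  · exact hα h

/-- A sum of two squares of the fixed field is a square of the fixed field. -/
theorem exists_sq_add_sq (h2 : (2 : K) ≠ 0) (c : K ≃+* K) (hc : ∀ x, c (c x) = x)
    {γ : K} (hγ : c γ ≠ γ) {x y : K} (hx : c x = x) (hy : c y = y) :
    ∃ z, c z = z ∧ x ^ 2 + y ^ 2 = z ^ 2 := by
  obtain ⟨i, hi⟩ := IsAlgClosed.exists_pow_nat_eq (-1 : K) (n := 2) (by norm_num)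
  have hci : c i = -i := by
    have h1 : c i * c i = i * i := by
      rw [← map_mul, ← sq, hi, map_neg, map_one]
    rcases mul_self_eq_mul_self_iff.mp h1 with h | h
    · exact absurd (by rw [← sq]; exact hi) (neg_one_not_sq h2 c hc hγ h)
    · exact h
  obtain ⟨β, hβ⟩ := IsAlgClosed.exists_pow_nat_eq (x + i * y) (n := 2) (by norm_num)
  refine ⟨β * c β, by rw [map_mul, hc, mul_comm], ?_⟩
  have h1 : c β ^ 2 = x - i * y := by
    rw [← map_pow, hβ, map_add, map_mul, hci, hx, hy]; ring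
  calc x ^ 2 + y ^ 2 = (x + i * y) * (x - i * y) := by linear_combination y ^ 2 * hi
    _ = β ^ 2 * c β ^ 2 := by rw [hβ, h1]
    _ = _ := by ring

/-- A finite sum of squares of the fixed field is a square of the fixed field. -/
theorem exists_sum_sq (h2 : (2 : K) ≠ 0) (c : K ≃+* K) (hc : ∀ x, c (c x) = x)
    {γ : K} (hγ : c γ ≠ γ) {ι : Type*} (s : Finset ι) (f : ι → K) (hf : ∀ i ∈ s, c (f i) = f i) :
    ∃ z, c z = z ∧ ∑ i ∈ s, f i ^ 2 = z ^ 2 := by
  classical
  induction s using Finset.induction_on with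
  | empty => exact ⟨0, map_zero c, by simp⟩
  | insert a s ha ih =>
    obtain ⟨z, hz, hz'⟩ := ih fun i hi => hf i (Finset.mem_insert_of_mem hi)
    obtain ⟨w, hw, hw'⟩ := exists_sq_add_sq h2 c hc hγ (hf a (Finset.mem_insert_self a s)) hz
    exact ⟨w, hw, by rw [Finset.sum_insert ha, hz', hw']⟩

/-- The only root of unity of odd order of the fixed field is `1`. -/
theorem eq_one_of_odd (h2 : (2 : K) ≠ 0) (c : K ≃+* K) (hc : ∀ x, c (c x) = x)
    {γ : K} (hγ : c γ ≠ γ) {n : ℕ} (hn : Odd n) {ζ : K} (hζ : ζ ^ n = 1) (hcζ : c ζ = ζ) :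
    ζ = 1 := by
  by_contra hne
  obtain ⟨m, rfl⟩ := hn
  have hgeom : ∑ k ∈ Finset.range (2 * m + 1), ζ ^ k = 0 := by
    have h := mul_geom_sum ζ (2 * m + 1)
    rw [hζ, sub_self] at h
    exact (mul_eq_zero.mp h).resolve_left (sub_ne_zero.mpr hne)
  rw [Finset.sum_range_succ'] at hgeom
  have hsq : ∀ k, ζ ^ (k + 1) = (ζ ^ ((k + 1) * (m + 1))) ^ 2 := by
    intro k
    rw [← pow_mul]
    have : (k + 1) * (m + 1) * 2 = (2 * m + 1) * (k + 1) + (k + 1) := by ring
    rw [this, pow_add ζ ((2 * m + 1) * (k + 1)), pow_mul ζ (2 * m + 1) (k + 1), hζ, one_pow,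
      one_mul]
  obtain ⟨z, hz, hz'⟩ := exists_sum_sq h2 c hc hγ (Finset.range (2 * m))
    (fun k => ζ ^ ((k + 1) * (m + 1))) (fun k _ => by rw [map_pow, hcζ])
  have h3 : ∑ k ∈ Finset.range (2 * m), ζ ^ (k + 1) = z ^ 2 := by
    rw [← hz']; exact Finset.sum_congr rfl fun k _ => hsq k
  rw [h3, pow_zero] at hgeom
  exact neg_one_not_sq h2 c hc hγ hz (by linear_combination hgeom)

/-- The only roots of unity in the fixed field are `±1`. -/
theorem sq_eq_one (h2 : (2 : K) ≠ 0) (c : K ≃+* K) (hc : ∀ x, c (c x) = x)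
    {γ : K} (hγ : c γ ≠ γ) {n : ℕ} (hn : n ≠ 0) {ζ : K} (hζ : ζ ^ n = 1) (hcζ : c ζ = ζ) :
    ζ ^ 2 = 1 := by
  obtain ⟨a, m, hm, rfl⟩ := Nat.exists_eq_two_pow_mul_odd hn
  have h1 : ζ ^ 2 ^ a = 1 := by
    refine eq_one_of_odd h2 c hc hγ hm (ζ := ζ ^ 2 ^ a) ?_ (by rw [map_pow, hcζ])
    rw [← pow_mul, hζ]
  clear hζ hn
  induction a with
  | zero => rw [pow_zero, pow_one] at h1; rw [h1, one_pow]
  | succ a ih =>
    rcases a with _ | a
    · simpa using h1
    · have h3 : ζ ^ 2 ^ (a + 1) * ζ ^ 2 ^ (a + 1) = 1 * 1 := by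
        rw [mul_one, ← pow_add, ← two_mul, ← pow_succ', h1]
      rcases mul_self_eq_mul_self_iff.mp h3 with h | h
      · exact ih h
      · exfalso
        refine neg_one_not_sq h2 c hc hγ (x := ζ ^ 2 ^ a) (by rw [map_pow, hcζ]) ?_
        rw [← pow_add, ← two_mul, ← pow_succ', h]

/-- **An involution of an algebraically closed field acts on roots of unity by inversion.** -/
theorem map_rootOfUnity (h2 : (2 : K) ≠ 0) (c : K ≃+* K) (hc : ∀ x, c (c x) = x)
    {γ : K} (hγ : c γ ≠ γ) {n : ℕ} (hn : n ≠ 0) {ζ : K} (hζ : ζ ^ n = 1) :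
    ζ * c ζ = 1 := by
  obtain ⟨η, hη⟩ := IsAlgClosed.exists_pow_nat_eq ζ (n := 2) (by norm_num)
  have h1 : (η * c η) ^ 2 = 1 := by
    refine sq_eq_one h2 c hc hγ (n := 2 * n) (by positivity) ?_
      (by rw [map_mul, hc, mul_comm])
    rw [mul_pow, ← map_pow, pow_mul, hη, hζ, map_one, mul_one]
  rw [mul_pow, ← map_pow, hη] at h1
  exact h1

theorem map_rootOfUnity_eq_inv (h2 : (2 : K) ≠ 0) (c : K ≃+* K) (hc : ∀ x, c (c x) = x)
    {γ : K} (hγ : c γ ≠ γ) {n : ℕ} (hn : n ≠ 0) {ζ : K} (hζ : ζ ^ n = 1) :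
    c ζ = ζ⁻¹ :=
  eq_inv_of_mul_eq_one_right (map_rootOfUnity h2 c hc hγ hn hζ)

/-- The mod `n` cyclotomic character of an involution is `-1`. -/
theorem modularCyclotomicCharacter_eq_neg_one (h2 : (2 : K) ≠ 0) (c : K ≃+* K)
    (hc : ∀ x, c (c x) = x) {γ : K} (hγ : c γ ≠ γ) {n : ℕ} [NeZero n]
    (hn : Nat.card (rootsOfUnity n K) = n) :
    modularCyclotomicCharacter K hn c = -1 := by
  have hn0 : n ≠ 0 := NeZero.ne n
  refine Units.ext ?_
  symm
  refine modularCyclotomicCharacter.unique K hn c (c := ((-1 : (ZMod n)ˣ) : ZMod n)) ?_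
  intro t ht
  have htn : (t : K) ^ n = 1 := by
    have := (mem_rootsOfUnity n t).mp ht
    rw [← Units.val_pow_eq_pow_val, this, Units.val_one]
  have h1 := map_rootOfUnity h2 c hc hγ hn0 htn
  have hval : ((t : K) ^ (((-1 : (ZMod n)ˣ) : ZMod n)).val) * (t : K) = 1 := by
    rw [← pow_succ]
    have hdvd : n ∣ ((((-1 : (ZMod n)ˣ) : ZMod n)).val + 1) := by
      rw [← ZMod.natCast_eq_zero_iff]
      push_cast
      rw [ZMod.natCast_zmod_val]
      ring
    obtain ⟨k, hk⟩ := hdvd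
    rw [hk, pow_mul, htn, one_pow]
  have ht0 : (t : K) ≠ 0 := t.ne_zero
  have h3 : (t : K) * c t = (t : K) * (t : K) ^ (((-1 : (ZMod n)ˣ) : ZMod n)).val := by
    rw [h1, mul_comm, hval]
  exact mul_left_cancel₀ ht0 h3

end Fermat.Agent.H87.Invol
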