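import Fermat.Agent.H87ECTorsion
import Fermat.Agent.H87Invol
import Fermat.Agent.H87AbsIrr
import Fermat.Agent.H59RedGal
import Fermat.Prelude.Def_FLTPrelim_ModularRep
import Fermat.Prelude.Def_FreyPackage_DetCyclotomic
import Fermat.Prelude.Def_GaloisRep_Residual
import Fermat.Prelude.Def_GaloisRep_ComplexConjugation

/-!
# API for the residual representation of an elliptic curve over `ℚ`
-/

set_option autoImplicit false

open WeierstrassCurve WeierstrassCurve.Affine WeierstrassCurve.Affine.Point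

namespace Fermat.Agent.H87.Res

/-- a nontrivial involution of `AlgebraicClosure ℚ` has cyclotomic character `-1` -/
theorem cyclotomic_involution {c : AlgebraicClosure ℚ ≃ₐ[ℚ] AlgebraicClosure ℚ}
    (hc : c * c = 1) (hc1 : c ≠ 1) {n : ℕ} [NeZero n]
    (hn : Nat.card (rootsOfUnity n (AlgebraicClosure ℚ)) = n) :
    modularCyclotomicCharacter (AlgebraicClosure ℚ) hn
      (c : AlgebraicClosure ℚ ≃+* AlgebraicClosure ℚ) = -1 := by
  obtain ⟨γ, hγ⟩ : ∃ γ, c γ ≠ γ := by
    by_contra h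
    push Not at h
    exact hc1 (AlgEquiv.ext h)
  refine Invol.modularCyclotomicCharacter_eq_neg_one two_ne_zero
    (c : AlgebraicClosure ℚ ≃+* AlgebraicClosure ℚ) (fun x => ?_) (γ := γ) hγ hn
  have := congrArg (fun f : AlgebraicClosure ℚ ≃ₐ[ℚ] AlgebraicClosure ℚ => f x) hc
  exact this

/-- a nontrivial involution inverts all roots of unity -/
theorem involution_rootOfUnity {c : AlgebraicClosure ℚ ≃ₐ[ℚ] AlgebraicClosure ℚ}
    (hc : c * c = 1) (hc1 : c ≠ 1) {n : ℕ} (hn : n ≠ 0) {ζ : AlgebraicClosure ℚ}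
    (hζ : ζ ^ n = 1) : c ζ = ζ⁻¹ := by
  obtain ⟨γ, hγ⟩ : ∃ γ, c γ ≠ γ := by
    by_contra h
    push Not at h
    exact hc1 (AlgEquiv.ext h)
  refine Invol.map_rootOfUnity_eq_inv two_ne_zero
    (c : AlgebraicClosure ℚ ≃+* AlgebraicClosure ℚ) (fun x => ?_) (γ := γ) hγ hn hζ
  have := congrArg (fun f : AlgebraicClosure ℚ ≃ₐ[ℚ] AlgebraicClosure ℚ => f x) hc
  exact this

/-- complex conjugation is a nontrivial automorphism of `AlgebraicClosure ℚ` -/
theorem complexConjugation_ne_one : complexConjugation ≠ 1 := by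
  intro h
  obtain ⟨i, hi⟩ := IsAlgClosed.exists_pow_nat_eq (-1 : AlgebraicClosure ℚ) (n := 2) (by norm_num)
  have h1 := complexEmbedding_complexConjugation i
  rw [h, AlgEquiv.one_apply] at h1
  have h2 : (complexEmbedding i) ^ 2 = -1 := by rw [← map_pow, hi, map_neg, map_one]
  have h3 := Complex.conj_eq_iff_im.mp h1.symm
  have h4 := congrArg Complex.re h2
  rw [sq, Complex.mul_re, h3] at h4
  simp only [mul_zero, sub_zero, Complex.neg_re, Complex.one_re] at h4
  nlinarith [mul_self_nonneg (complexEmbedding i).re]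

section

variable {W : WeierstrassCurve ℚ} {p : ℕ} [Fact p.Prime]
  (hcard : Nat.card (Submodule.torsionBy ℤ (W⁄(AlgebraicClosure ℚ)).Point p) = p ^ 2)
  (hker : GaloisFactorsThroughFiniteLevel
    (WeierstrassCurve.Affine.Point.galoisRepModuleEnd (K := AlgebraicClosure ℚ) ℚ W p))

/-- `det = cyclotomic` implies odd. -/
theorem isOdd_of_det
    (hdet : ∀ σ : AlgebraicClosure ℚ ≃ₐ[ℚ] AlgebraicClosure ℚ,
      LinearMap.det (galoisRepModuleEnd (K := AlgebraicClosure ℚ) ℚ W p σ) =
        (modularCyclotomicCharacter (AlgebraicClosure ℚ)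
          (IsAlgClosed.card_rootsOfUnity_eq (AlgebraicClosure ℚ) p)
          (σ : AlgebraicClosure ℚ ≃+* AlgebraicClosure ℚ) : (ZMod p)ˣ)) :
    (W.residualGaloisRepOf p hcard hker).IsOdd := by
  intro c hc hc1
  refine (hdet c).trans ?_
  rw [cyclotomic_involution hc hc1, Units.val_neg, Units.val_one]

theorem isIrreducible_of_galoisRepIsIrreducible
    (h : GaloisRepIsIrreducible (K := AlgebraicClosure ℚ) ℚ W p) :
    (W.residualGaloisRepOf p hcard hker).IsIrreducible := by
  intro N hN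
  exact h.2 N hN

theorem isAbsolutelyIrreducible_of_det (hp2 : p ≠ 2)
    (hdet : ∀ σ : AlgebraicClosure ℚ ≃ₐ[ℚ] AlgebraicClosure ℚ,
      LinearMap.det (galoisRepModuleEnd (K := AlgebraicClosure ℚ) ℚ W p σ) =
        (modularCyclotomicCharacter (AlgebraicClosure ℚ)
          (IsAlgClosed.card_rootsOfUnity_eq (AlgebraicClosure ℚ) p)
          (σ : AlgebraicClosure ℚ ≃+* AlgebraicClosure ℚ) : (ZMod p)ˣ))
    (h : GaloisRepIsIrreducible (K := AlgebraicClosure ℚ) ℚ W p) :
    (W.residualGaloisRepOf p hcard hker).IsAbsolutelyIrreducible := by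
  obtain ⟨c, hc, hc1⟩ : ∃ c : AlgebraicClosure ℚ ≃ₐ[ℚ] AlgebraicClosure ℚ, c * c = 1 ∧ c ≠ 1 :=
    ⟨complexConjugation, complexConjugation_mul_self, complexConjugation_ne_one⟩
  refine AbsIrr.isAbsolutelyIrreducible_of_involution ?_ _
    (isIrreducible_of_galoisRepIsIrreducible hcard hker h) c hc
    (isOdd_of_det hcard hker hdet c hc hc1)
  intro h2
  have : (p : ℕ) ∣ 2 := by
    rw [← ZMod.natCast_eq_zero_iff]; exact_mod_cast h2
  exact hp2 ((Nat.prime_dvd_prime_iff_eq Fact.out Nat.prime_two).mp this)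

end

end Fermat.Agent.H87.Res
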