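/-
H39Real: realisation of the `p`-torsion of an elliptic curve in a Galois-Hecke module.
-/
import Fermat.Agent.H39RealEig
import Fermat.Agent.H31Wire
import Fermat.Agent.H32BLR
import Fermat.Agent.H32Carayol
import Fermat.Agent.H62FrobTrace
import Fermat.Agent.H87Res
import Fermat.Agent.H39WeilDet
import Fermat.Agent.H96S29
import Fermat.Agent.H42Glue

set_option autoImplicit false

noncomputable section

namespace Fermat.Agent.H39

open CuspForm ModularCurve Fermat.Agent.H31 WeierstrassCurve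

/-- the absolute Galois group -/
abbrev GQb : Type := AlgebraicClosure ℚ ≃ₐ[ℚ] AlgebraicClosure ℚ

/-- `E[n]` over the algebraic closure, for an integral model. -/
abbrev Tor (W : WeierstrassCurve ℤ) (n : ℕ) : Type :=
  Submodule.torsionBy ℤ (WeierstrassCurve.Affine.Point
    ((W.map (Int.castRingHom ℚ))⁄(AlgebraicClosure ℚ))) (n : ℤ)

/-! ### Abstract group theory: from the quadratic relation to an equivariant map -/

section Abstract

variable {A V M G : Type*} [Field A] [AddCommGroup V] [Module A V] [AddCommGroup M] [Module A M]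
  [Group G] {ρ : G →* Module.End A V} {μ : G →* Module.End A M}

theorem exists_equivariant_of_quadratic (b : Module.Basis (Fin 2) A V)
    (hsurj : Submodule.span A (Set.range ρ) = ⊤) (h : H32.Quadratic ρ μ) (hM : Nontrivial M) :
    ∃ ι : V →ₗ[A] M, ι ≠ 0 ∧ ∀ g v, ι (ρ g v) = μ g (ι v) := by
  obtain ⟨Ψ, hΨ⟩ := H32.exists_algHom_of_quadratic b hsurj h
  obtain ⟨x, hx⟩ := exists_ne (0 : M)
  -- the rank one endomorphisms
  let E : Fin 2 → V →ₗ[A] Module.End A V := fun i =>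
    { toFun := fun v => (b.coord i).smulRight v
      map_add' := fun v w => by ext u; simp
      map_smul' := fun a v => by
        ext u
        show b.coord i u • (a • v) = a • (b.coord i u • v)
        rw [smul_comm] }
  have hEa : ∀ i v w, E i v w = b.coord i w • v := fun i v w => rfl
  have hE : E 0 (b 0) + E 1 (b 1) = 1 := by
    refine b.ext fun l => ?_
    rw [LinearMap.add_apply, hEa, hEa, Module.End.one_apply]
    fin_cases l <;> simp
  have hx' : Ψ (E 0 (b 0)) x + Ψ (E 1 (b 1)) x = x := by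
    rw [← LinearMap.add_apply, ← map_add, hE, map_one]; rfl
  have hne : ∃ i, Ψ (E i (b i)) x ≠ 0 := by
    by_contra hcon
    push Not at hcon
    rw [hcon 0, hcon 1, add_zero] at hx'
    exact hx hx'.symm
  obtain ⟨i, hi⟩ := hne
  refine ⟨(LinearMap.applyₗ x) ∘ₗ Ψ.toLinearMap ∘ₗ E i, ?_, ?_⟩
  · intro h0
    apply hi
    have := LinearMap.congr_fun h0 (b i)
    simpa using this
  · intro g v
    have h1 : E i (ρ g v) = ρ g * E i v := by
      ext u
      simp [E]
    show Ψ (E i (ρ g v)) x = μ g (Ψ (E i v) x)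
    rw [h1, map_mul, hΨ]; rfl

end Abstract

/-! ### The Galois action on an eigenspace -/

section Eigen

variable {J : Type*} [AddCommGroup J] [Module HeckeAlg J] [DistribMulAction GQb J]
  [SMulCommClass GQb HeckeAlg J]

/-- the eigenspace in the `p`-torsion for the integers `a` -/
def eigSub (N : ℕ) (S : Set ℕ) (p : ℕ) (J : Type*) [AddCommGroup J] [Module HeckeAlg J]
    (a : GoodPrimes N S → ℤ) : AddSubgroup J where
  carrier := {x | p • x = 0 ∧ ∀ ℓ : GoodPrimes N S, heckeGen ℓ.1 • x = a ℓ • x}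
  zero_mem' := ⟨smul_zero _, fun ℓ => by rw [smul_zero, smul_zero]⟩
  add_mem' := by
    rintro x y ⟨hx, hx'⟩ ⟨hy, hy'⟩
    exact ⟨by rw [smul_add, hx, hy, add_zero], fun ℓ => by rw [smul_add, smul_add, hx', hy']⟩
  neg_mem' := by
    rintro x ⟨hx, hx'⟩
    exact ⟨by rw [smul_neg, hx, neg_zero], fun ℓ => by rw [smul_neg, smul_neg, hx']⟩

theorem mem_eigSub {N : ℕ} {S : Set ℕ} {p : ℕ} {a : GoodPrimes N S → ℤ} {x : J} :
    x ∈ eigSub N S p J a ↔ p • x = 0 ∧ ∀ ℓ : GoodPrimes N S, heckeGen ℓ.1 • x = a ℓ • x := Iff.rfl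

instance eigSubModule (N : ℕ) (S : Set ℕ) (p : ℕ) (J : Type*) [AddCommGroup J] [Module HeckeAlg J]
    (a : GoodPrimes N S → ℤ) : Module (ZMod p) (eigSub N S p J a) :=
  AddCommGroup.zmodModule fun x => Subtype.ext x.2.1

/-- the Galois action on the eigenspace -/
def galEig (N : ℕ) (S : Set ℕ) (p : ℕ) (J : Type*) [AddCommGroup J] [Module HeckeAlg J]
    [DistribMulAction GQb J] [SMulCommClass GQb HeckeAlg J] (a : GoodPrimes N S → ℤ) :
    GQb →* Module.End (ZMod p) (eigSub N S p J a) where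
  toFun g := AddMonoidHom.toZModLinearMap p
    { toFun := fun x => ⟨g • (x : J), by
        obtain ⟨h1, h2⟩ := x.2
        refine ⟨?_, fun ℓ => ?_⟩
        · have := map_nsmul (DistribSMul.toAddMonoidHom J g) p (x : J)
          rw [DistribSMul.toAddMonoidHom_apply, DistribSMul.toAddMonoidHom_apply, h1,
            smul_zero] at this
          exact this.symm
        · have := map_zsmul (DistribSMul.toAddMonoidHom J g) (a ℓ) (x : J)
          rw [DistribSMul.toAddMonoidHom_apply, DistribSMul.toAddMonoidHom_apply] at this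
          rw [← smul_comm, h2, this]⟩
      map_zero' := Subtype.ext (smul_zero g)
      map_add' := fun x y => Subtype.ext (smul_add g (x : J) (y : J)) }
  map_one' := LinearMap.ext fun x => Subtype.ext (one_smul _ _)
  map_mul' s t := LinearMap.ext fun x => Subtype.ext (mul_smul s t (x : J))

theorem galEig_apply {N : ℕ} {S : Set ℕ} {p : ℕ} {a : GoodPrimes N S → ℤ} (g : GQb)
    (x : eigSub N S p J a) : ((galEig N S p J a g x : eigSub N S p J a) : J) = g • (x : J) := rfl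

/-- The quadratic relation on the eigenspace attached to `E[p]`. -/
theorem quadratic_eig {N : ℕ} {S : Finset ℕ} {p : ℕ} [hp : Fact p.Prime] (hpS : p ∈ S)
    (hNS : ∀ q : ℕ, q.Prime → q ∣ N → q ∈ S) {W : WeierstrassCurve ℤ} (hΔ : W.Δ ≠ 0)
    (hΔS : ∀ q : ℕ, q.Prime → (q : ℤ) ∣ W.Δ → q ∈ S)
    (hF : FrobeniusQuadratic (K := ℚ) (L := AlgebraicClosure ℚ) N p J)
    (hlev : FiniteLevel p J) :
    H32.Quadratic (A := ZMod p) (V := Tor W p)
      (WeierstrassCurve.Affine.Point.galoisRepModuleEnd (K := AlgebraicClosure ℚ) ℚ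
        (W.map (Int.castRingHom ℚ)) p)
      (galEig N (↑S : Set ℕ) p J (fun ℓ => W.apOfModel (ℓ.1 : ℕ))) := by
  classical
  have hp1 : p.Prime := hp.out
  have hW0 : (W.map (Int.castRingHom ℚ)).Δ ≠ 0 := by
    rw [WeierstrassCurve.map_Δ, eq_intCast]
    exact_mod_cast hΔ
  obtain ⟨b⟩ := H87.EC.exists_basis_torsionBy (K := AlgebraicClosure ℚ)
    (W.map (Int.castRingHom ℚ)) (H87.EC.algebraMap_Δ_ne_zero hW0)
    (n := p) (Nat.cast_ne_zero.mpr hp1.ne_zero)
  have : Finite (Tor W p) := Finite.of_equiv _ b.equivFun.toEquiv.symm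
  obtain ⟨L₁, hL₁, h₁⟩ := H42.galoisFactorsThroughFiniteLevel_torsion
    (W.map (Int.castRingHom ℚ)) p this
  obtain ⟨L₂, hL₂, h₂⟩ := hlev 1
  intro g
  obtain ⟨ℓ, hℓ, hℓS, A, hA, φ, hφ, j, hj⟩ := weakFrobeniusDensity (L₁ ⊔ L₂) inferInstance S g
  have hℓN : ¬ ℓ ∣ N := fun h => hℓS (hNS ℓ hℓ h)
  have hℓp : ℓ ≠ p := by rintro rfl; exact hℓS hpS
  have hℓNp : ¬ ℓ ∣ N * p := by
    intro h
    rcases hℓ.dvd_mul.mp h with h | h
    · exact hℓN h
    · exact hℓp ((Nat.prime_dvd_prime_iff_eq hℓ hp1).mp h)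
  have hℓΔ : W.IsGoodPrimeFor ℓ := fun h => hℓS (hΔS ℓ hℓ h)
  set ρ := WeierstrassCurve.Affine.Point.galoisRepModuleEnd (K := AlgebraicClosure ℚ) ℚ
        (W.map (Int.castRingHom ℚ)) p with hρ
  set μ := galEig N (↑S : Set ℕ) p J (fun ℓ => W.apOfModel (ℓ.1 : ℕ)) with hμ
  have hρg : ρ g = ρ φ ^ j := by
    have h3 : ρ ((φ ^ j)⁻¹ * g) = 1 := h₁ _ (fun x hx => by
      rw [AlgEquiv.mul_apply, hj x (le_sup_left (a := L₁) (b := L₂) hx), AlgEquiv.aut_inv,
        AlgEquiv.symm_apply_apply])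
    have h4 : g = φ ^ j * ((φ ^ j)⁻¹ * g) := by group
    rw [h4, map_mul, h3, mul_one, map_pow]
  have hμg : μ g = μ φ ^ j := by
    have h3 : μ ((φ ^ j)⁻¹ * g) = 1 := by
      refine LinearMap.ext fun x => Subtype.ext ?_
      rw [hμ, galEig_apply, Module.End.one_apply]
      refine h₂ _ (fun x hx => ?_) _ (by rw [pow_one]; exact x.2.1)
      rw [AlgEquiv.mul_apply, hj x (le_sup_right (a := L₁) (b := L₂) hx), AlgEquiv.aut_inv,
        AlgEquiv.symm_apply_apply]
    have h4 : g = φ ^ j * ((φ ^ j)⁻¹ * g) := by group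
    rw [h4, map_mul, h3, mul_one, map_pow]
  -- trace and determinant of Frobenius
  have htr : LinearMap.trace (ZMod p) _ (ρ φ) = (W.apOfModel ℓ : ZMod p) :=
    H62.trace_frob_rat W hℓ hℓΔ (fun h => hℓp ((Nat.prime_dvd_prime_iff_eq hℓ hp1).mp h)) hA hφ
  have hdet : LinearMap.det (ρ φ) = (ℓ : ZMod p) :=
    H62.det_frob_rat W hℓ hℓΔ (fun h => hℓp ((Nat.prime_dvd_prime_iff_eq hℓ hp1).mp h)) hA hφ
  -- the relation on the eigenspace for Frobenius
  have hrel : μ φ * μ φ - algebraMap (ZMod p) _ (W.apOfModel ℓ : ZMod p) * μ φ +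
      algebraMap (ZMod p) _ (ℓ : ZMod p) = 0 := by
    refine LinearMap.ext fun x => Subtype.ext ?_
    have h3 := hF ℓ hℓ hℓNp A hA φ hφ (x : J) ⟨1, by rw [pow_one]; exact x.2.1⟩
    have h4 := (μ φ x).2.2 ⟨⟨ℓ, hℓ⟩, hℓN, by simpa using hℓS⟩
    rw [hμ, galEig_apply] at h4
    rw [h4] at h3
    have h5 : ∀ (c : ZMod p) (y : eigSub N (↑S : Set ℕ) p J (fun ℓ => W.apOfModel (ℓ.1 : ℕ))),
        (algebraMap (ZMod p) (Module.End (ZMod p)
          (eigSub N (↑S : Set ℕ) p J (fun ℓ => W.apOfModel (ℓ.1 : ℕ)))) c) y = c • y :=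
      fun c y => Module.algebraMap_end_apply (ZMod p) (ZMod p) _ c y
    rw [LinearMap.add_apply, LinearMap.sub_apply, Module.End.mul_apply, Module.End.mul_apply, h5,
      h5, Int.cast_smul_eq_zsmul, Nat.cast_smul_eq_nsmul]
    exact h3
  have hrel' := H31.quadratic_pow (R := ZMod p) _ _ _ hrel j
  -- charpoly of Frobenius
  have hr : Module.finrank (ZMod p) (Tor W p) = 2 := by
    rw [Module.finrank_eq_card_basis b]; simp
  have : Module.Finite (ZMod p) (Tor W p) := Module.Finite.of_basis b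
  have : Module.Free (ZMod p) (Tor W p) := Module.Free.of_basis b
  have hcp : (ρ φ).charpoly = Polynomial.X ^ 2 - Polynomial.C (W.apOfModel ℓ : ZMod p) *
      Polynomial.X + Polynomial.C (ℓ : ZMod p) := by
    rw [← htr, ← hdet]
    exact H32.charpoly_eq_of_basis b (ρ φ)
  have htr' : LinearMap.trace (ZMod p) _ (ρ g) = luc (W.apOfModel ℓ : ZMod p) (ℓ : ZMod p) j := by
    rw [hρg]
    exact H31.trace_pow_of_charpoly hr _ _ _ hcp j
  have hdet' : LinearMap.det (ρ g) = (ℓ : ZMod p) ^ j := by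
    rw [hρg, map_pow, hdet]
  rw [htr', hdet', hμg, Algebra.smul_def, Algebra.smul_def, mul_one]
  exact hrel'

/-- **Realisation.** A nonzero Galois equivariant map from `E[p]` to the eigenspace, as soon as
the latter is nonzero. -/
theorem exists_equivariant {N : ℕ} {S : Finset ℕ} {p : ℕ} [hp : Fact p.Prime] (hp2 : p ≠ 2)
    (hpS : p ∈ S)
    (hNS : ∀ q : ℕ, q.Prime → q ∣ N → q ∈ S) {W : WeierstrassCurve ℤ} (hΔ : W.Δ ≠ 0)
    (hΔS : ∀ q : ℕ, q.Prime → (q : ℤ) ∣ W.Δ → q ∈ S)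
    (hirr : W.ModRepIsIrreducible p)
    (hF : FrobeniusQuadratic (K := ℚ) (L := AlgebraicClosure ℚ) N p J)
    (hlev : FiniteLevel p J)
    (hne : ∃ x : J, x ≠ 0 ∧ p • x = 0 ∧
      ∀ ℓ : GoodPrimes N (↑S : Set ℕ), heckeGen ℓ.1 • x = W.apOfModel (ℓ.1 : ℕ) • x) :
    ∃ ι : Tor W p →+ J, Function.Injective ι ∧ (∀ (σ : GQb) (x : Tor W p), ι (σ • x) = σ • ι x) ∧
      ∀ (ℓ : GoodPrimes N (↑S : Set ℕ)) (x : Tor W p),
        heckeGen ℓ.1 • ι x = W.apOfModel (ℓ.1 : ℕ) • ι x := by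
  classical
  have hp1 : p.Prime := hp.out
  have hW0 : (W.map (Int.castRingHom ℚ)).Δ ≠ 0 := by
    rw [WeierstrassCurve.map_Δ, eq_intCast]
    exact_mod_cast hΔ
  obtain ⟨b⟩ := H87.EC.exists_basis_torsionBy (K := AlgebraicClosure ℚ)
    (W.map (Int.castRingHom ℚ)) (H87.EC.algebraMap_Δ_ne_zero hW0)
    (n := p) (Nat.cast_ne_zero.mpr hp1.ne_zero)
  have hfinT : Finite (Tor W p) := Finite.of_equiv _ b.equivFun.toEquiv.symm
  have hcard : Nat.card (Tor W p) = p ^ 2 := by
    rw [Nat.card_congr b.equivFun.toEquiv, Nat.card_pi]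
    simp
  have hker := H42.galoisFactorsThroughFiniteLevel_torsion (W.map (Int.castRingHom ℚ)) p hfinT
  have habs := H87.Res.isAbsolutelyIrreducible_of_det (W := W.map (Int.castRingHom ℚ)) (p := p) hcard hker hp2
    (fun σ => det_galoisRepModuleEnd_rat (W.map (Int.castRingHom ℚ)) hW0 _ σ) hirr
  have hsurj := H32.residual_span_range_eq_top _ habs
  have hq := quadratic_eig hpS hNS hΔ hΔS hF hlev
  obtain ⟨x, hx0, hx⟩ := hne
  have hnt : Nontrivial (eigSub N (↑S : Set ℕ) p J (fun ℓ => W.apOfModel (ℓ.1 : ℕ))) :=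
    ⟨⟨⟨x, hx⟩, 0, fun h => hx0 (congrArg Subtype.val h)⟩⟩
  obtain ⟨ι, hι0, hι⟩ := exists_equivariant_of_quadratic b hsurj hq hnt
  have hinj : Function.Injective ι := by
    rw [← LinearMap.ker_eq_bot]
    rcases hirr.2 (LinearMap.ker ι) (fun σ x hx => by
      rw [LinearMap.mem_ker] at hx ⊢
      have h1 := hι σ x
      rw [hx, map_zero] at h1
      exact h1) with h | h
    · exact h
    · exact absurd (LinearMap.ker_eq_top.mp h) hι0
  refine ⟨(AddSubgroup.subtype _).comp ι.toAddMonoidHom, ?_, ?_, ?_⟩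
  · intro x y hxy
    exact hinj (Subtype.ext hxy)
  · intro σ x
    have h1 := hι σ x
    exact congrArg Subtype.val h1
  · intro ℓ x
    exact (ι x).2.2 ℓ

end Eigen

end Fermat.Agent.H39
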