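/-
H39Real2: realisation of `E[p]` in a Galois-Hecke module from residual modularity.
-/
import Fermat.Agent.H39Real
import Fermat.Agent.H30Final

set_option autoImplicit false

noncomputable section

namespace Fermat.Agent.H39

open CuspForm ModularCurve Fermat.Agent.H31 WeierstrassCurve

/-- The mod `𝔪` character of the Hecke algebra attached to a normalised eigenform. -/
theorem exists_residual_char {N : ℕ} [NeZero N] {f : CuspForm (CongruenceSubgroup.Gamma0 N) 2}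
    (hf : f.IsNormalizedEigenform) (S : Set ℕ) :
    ∃ χ : heckeAlgebra N 2 S →+* integralClosure ℤ ℂ, ∀ ℓ (hℓ : ℓ.Prime) (hℓN : ¬ ℓ ∣ N)
      (hℓS : ℓ ∉ S), ((χ (heckeAlgebra.T hℓ hℓN hℓS) : integralClosure ℤ ℂ) : ℂ) =
        ModularFormClass.qCoeff f ℓ := by
  have hfin : Module.Finite ℤ (CuspForm.heckeAlgebra N 2 S) := S22.result N 2 S
  have hint : ∀ t, IsIntegral ℤ (H96.eigenChar hf S t) := fun t => by
    have h1 : IsIntegral ℤ t := Algebra.IsIntegral.isIntegral t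
    exact h1.map (H96.eigenChar hf S).toIntAlgHom
  refine ⟨(H96.eigenChar hf S).codRestrict (integralClosure ℤ ℂ).toSubring hint,
    fun ℓ hℓ hℓN hℓS => ?_⟩
  exact H96.eigenChar_T hf hℓ hℓN hℓS

/-- `E[p]` embeds into the `p`-torsion of a faithful Galois-Hecke module of level `N`, when the
eigenvalues of a normalised eigenform of level `N` are congruent to the coefficients of `E`. -/
theorem exists_embedding_of_eigenform {N : ℕ} [NeZero N] {S : Finset ℕ} {p : ℕ} [hp : Fact p.Prime]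
    (hp2 : p ≠ 2) (hpS : p ∈ S)
    (hNS : ∀ q : ℕ, q.Prime → q ∣ N → q ∈ S) {W : WeierstrassCurve ℤ} (hΔ : W.Δ ≠ 0)
    (hΔS : ∀ q : ℕ, q.Prime → (q : ℤ) ∣ W.Δ → q ∈ S)
    (hirr : W.ModRepIsIrreducible p)
    {J : Type*} [AddCommGroup J] [Module HeckeAlg J] [DistribMulAction GQb J]
    [SMulCommClass GQb HeckeAlg J]
    (hfin : {x : J | p • x = 0}.Finite)
    (hF : FrobeniusQuadratic (K := ℚ) (L := AlgebraicClosure ℚ) N p J)
    (hlev : FiniteLevel p J) (hfaith : HeckeFaithful N (↑S : Set ℕ) p J)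
    {f : CuspForm (CongruenceSubgroup.Gamma0 N) 2} (hf : f.IsNormalizedEigenform)
    {𝔪 : Ideal (integralClosure ℤ ℂ)} (h𝔪 : 𝔪.IsMaximal) (hp𝔪 : (p : integralClosure ℤ ℂ) ∈ 𝔪)
    (hcong : ∀ ℓ : ℕ, ℓ.Prime → ℓ ∉ S →
      ∃ a : integralClosure ℤ ℂ, (a : ℂ) = ModularFormClass.qCoeff f ℓ ∧
        a - ((W.apOfModel ℓ : ℤ) : integralClosure ℤ ℂ) ∈ 𝔪) :
    ∃ ι : Tor W p →+ J, Function.Injective ι ∧ (∀ (σ : GQb) (x : Tor W p), ι (σ • x) = σ • ι x) ∧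
      ∀ (ℓ : GoodPrimes N (↑S : Set ℕ)) (x : Tor W p),
        heckeGen ℓ.1 • ι x = W.apOfModel (ℓ.1 : ℕ) • ι x := by
  have hp1 : p.Prime := hp.out
  let _ : Field (integralClosure ℤ ℂ ⧸ 𝔪) := Ideal.Quotient.field 𝔪
  have hchar : CharP (integralClosure ℤ ℂ ⧸ 𝔪) p := by
    have h0 : ((p : ℕ) : integralClosure ℤ ℂ ⧸ 𝔪) = 0 := by
      have := Ideal.Quotient.eq_zero_iff_mem.mpr hp𝔪
      rwa [map_natCast] at this
    exact (CharP.charP_iff_prime_eq_zero hp1).mpr h0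
  obtain ⟨χ, hχ⟩ := exists_residual_char hf (↑S : Set ℕ)
  refine exists_equivariant hp2 hpS hNS hΔ hΔS hirr hF hlev
    (exists_eigenvector_torsion hp1 hfin hfaith ((Ideal.Quotient.mk 𝔪).comp χ)
      (fun ℓ => W.apOfModel (ℓ.1 : ℕ)) (fun ℓ => ?_))
  obtain ⟨a, ha, ham⟩ := hcong ℓ.1 ℓ.1.2 (by simpa using ℓ.2.2)
  have h1 : χ (heckeAlgebra.T ℓ.1.2 ℓ.2.1 ℓ.2.2) = a := Subtype.ext ((hχ _ _ _ _).trans ha.symm)
  rw [RingHom.comp_apply, h1]
  have h2 := Ideal.Quotient.eq_zero_iff_mem.mpr ham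
  rw [map_sub, sub_eq_zero, map_intCast] at h2
  exact h2

/-- `E[p]` embeds into `JZero N`. -/
theorem exists_embedding_JZero {N : ℕ} [NeZero N] (hJ : H30.JZeroInputs N)
    (hcomm : HeckeOperatorsCommuteBar N) {S : Finset ℕ}
    {p : ℕ} [hp : Fact p.Prime]
    (hp2 : p ≠ 2) (hpS : p ∈ S)
    (hNS : ∀ q : ℕ, q.Prime → q ∣ N → q ∈ S) {W : WeierstrassCurve ℤ} (hΔ : W.Δ ≠ 0)
    (hΔS : ∀ q : ℕ, q.Prime → (q : ℤ) ∣ W.Δ → q ∈ S)
    (hirr : W.ModRepIsIrreducible p)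
    {f : CuspForm (CongruenceSubgroup.Gamma0 N) 2} (hf : f.IsNormalizedEigenform)
    {𝔪 : Ideal (integralClosure ℤ ℂ)} (h𝔪 : 𝔪.IsMaximal) (hp𝔪 : (p : integralClosure ℤ ℂ) ∈ 𝔪)
    (hcong : ∀ ℓ : ℕ, ℓ.Prime → ℓ ∉ S →
      ∃ a : integralClosure ℤ ℂ, (a : ℂ) = ModularFormClass.qCoeff f ℓ ∧
        a - ((W.apOfModel ℓ : ℤ) : integralClosure ℤ ℂ) ∈ 𝔪) :
    ∃ ι : Tor W p →+ JZero N, Function.Injective ι ∧
      (∀ (σ : GQb) (x : Tor W p), ι (σ • x) = σ • ι x) ∧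
      ∀ (ℓ : Nat.Primes), (ℓ : ℕ) ∉ S → ∀ (x : Tor W p),
        heckeOperatorBar N ℓ (ι x) = W.apOfModel (ℓ : ℕ) • ι x := by
  have hp1 : p.Prime := hp.out
  let _ := heckeModuleBar N
  have _ := hJ.comm
  have _ := hJ.principal
  obtain ⟨ι, h1, h2, h3⟩ := exists_embedding_of_eigenform (J := JZero N) hp2 hpS hNS hΔ hΔS hirr
    (by simpa using hJ.finite p 1 hp1)
    (frobeniusQuadratic_of_specializationExists (hJ.spec p hp1))
    (finiteLevel_JZero N p (fun n => hJ.finite p n hp1)) (hJ.faithful p S hp1 hpS hNS)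
    hf h𝔪 hp𝔪 hcong
  refine ⟨ι, h1, h2, fun ℓ hℓS x => ?_⟩
  rw [← h3 ⟨ℓ, fun h => hℓS (hNS ℓ ℓ.2 h), by simpa using hℓS⟩ x]
  exact (heckeModuleBar_heckeGen_smul hcomm ℓ (ι x)).symm

end Fermat.Agent.H39
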