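import Fermat.Agent.H88RealD0
import Fermat.Agent.H32Real
import Fermat.Agent.H53Matrix

/-!
# Saturated embedding of a representation in an eigen-submodule of the Tate module
-/

set_option autoImplicit false
set_option linter.unusedSectionVars false
set_option linter.style.haveILetI false
set_option maxSynthPendingDepth 3

noncomputable section

open CuspForm IsLocalRing
open scoped TensorProduct

namespace Fermat.Agent.H88.RealP

open Fermat.Agent.H53 (M2 mapMat MCont ofMatrix)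

section

variable {p : ℕ} [Fact p.Prime] {N : ℕ} [NeZero N] {S : Finset ℕ}
  {A : Type} [CommRing A] [IsDomain A] [IsDiscreteValuationRing A] [CharZero A] [Algebra ℤ_[p] A]
  {TJ : Type*} [AddCommGroup TJ] [Module ℤ_[p] TJ] [Module.Finite ℤ_[p] TJ]
  [Module.Free ℤ_[p] TJ]
  {T1 : Type*} [AddCommGroup T1] [Module ℤ_[p] T1] [Module.Free ℤ_[p] T1]

theorem exists_embedding_of_vector (ρT : H31.GQ →* Module.End ℤ_[p] TJ)
    (hcont : ∀ n : ℕ, ∃ L : IntermediateField ℚ (AlgebraicClosure ℚ), FiniteDimensional ℚ L ∧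
      ∀ σ : H31.GQ, (∀ x ∈ L, σ x = x) → ∀ x : TJ, ∃ y : TJ, ρT σ x - x = (p : ℤ_[p]) ^ n • y)
    (act : MvPolynomial (H31.GoodPrimes N (↑S : Set ℕ)) ℤ →+* Module.End ℤ_[p] TJ)
    (hcomm : ∀ P σ, Commute (act P) (ρT σ))
    (hfrob : ∀ (a : H31.GoodPrimes N (↑S : Set ℕ)) (A : ValuationSubring (AlgebraicClosure ℚ)),
      A.LiesOverPrime (a.1 : ℕ) → ∀ φ : H31.GQ, A.IsFrobeniusAt φ (a.1 : ℕ) →
        ∀ x : TJ, ρT φ (ρT φ x) - act (MvPolynomial.X a) (ρT φ x) + (a.1 : ℕ) • x = 0)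
    (hNS : ∀ q : ℕ, q.Prime → q ∣ N → q ∈ S)
    (hpA : (p : A) ∈ maximalIdeal A) (χ : heckeAlgebra N 2 (↑S : Set ℕ) →+* A)
    {r : H31.GQ →* M2 A} (hr : MCont A r)
    (hchar : ∀ (ℓ : ℕ) (hℓ : ℓ.Prime) (hℓN : ¬ ℓ ∣ N) (hℓS : ℓ ∉ (↑S : Set ℕ)),
      ∀ B : ValuationSubring (AlgebraicClosure ℚ), B.LiesOverPrime ℓ →
      ∀ σ : H31.GQ, B.IsFrobeniusAt σ ℓ →
        (r σ).trace = χ (heckeAlgebra.T hℓ hℓN hℓS) ∧ (r σ).det = (ℓ : A))
    (hspan : Submodule.span A (Set.range r) = ⊤)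
    (P1 Pq : TJ →ₗ[ℤ_[p]] T1) (W : TJ →ₗ[ℤ_[p]] TJ) (ρ1 : H31.GQ → Module.End ℤ_[p] T1)
    (hP1 : ∀ g x, P1 (ρT g x) = ρ1 g (P1 x)) (hPq : ∀ g x, Pq (ρT g x) = ρ1 g (Pq x))
    (hW : ∀ g x, W (ρT g x) = ρT g (W x)) (c : A)
    {w : A ⊗[ℤ_[p]] TJ} (hw0 : w ≠ 0) (hw : w ∈ H32.eigenA act χ)
    (hw1 : P1.baseChange A w = 0) (hwq : Pq.baseChange A w = 0)
    (hww : W.baseChange A w = c • w) :
    ∃ Φ : (Fin 2 → A) →ₗ[A] A ⊗[ℤ_[p]] TJ, Function.Injective Φ ∧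
      (∀ x, Φ x ∈ (maximalIdeal A • ⊤ : Submodule A (A ⊗[ℤ_[p]] TJ)) →
        ∀ i, x i ∈ maximalIdeal A) ∧
      (∀ g x, Φ ((r g).mulVec x) = (ρT g).baseChange A (Φ x)) ∧
      (∀ x, Φ x ∈ H32.eigenA act χ) ∧
      (∀ x, P1.baseChange A (Φ x) = 0) ∧ (∀ x, Pq.baseChange A (Φ x) = 0) ∧
      (∀ x, W.baseChange A (Φ x) = c • Φ x) := by
  let ρ := ofMatrix r hr
  have hρ : ∀ g (x : Fin 2 → A), ρ.ρ g x = (r g).mulVec x := fun g x => rfl
  have htr : ∀ g, LinearMap.trace A (Fin 2 → A) (ρ.ρ g) = (r g).trace := fun g =>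
    (LinearMap.trace_eq_matrix_trace A (Pi.basisFun A (Fin 2)) (Matrix.toLin' (r g))).trans (by
      rw [LinearMap.toMatrix_eq_toMatrix', LinearMap.toMatrix'_toLin'])
  have hdet : ∀ g, LinearMap.det (ρ.ρ g : Module.End A (Fin 2 → A)) = (r g).det := fun g =>
    LinearMap.det_toLin' (r g)
  have hchar' : ∀ (ℓ : ℕ) (hℓ : ℓ.Prime) (hℓN : ¬ ℓ ∣ N) (hℓS : ℓ ∉ (↑S : Set ℕ)),
      ∀ B : ValuationSubring (AlgebraicClosure ℚ), B.LiesOverPrime ℓ →
      ∀ σ : H31.GQ, B.IsFrobeniusAt σ ℓ →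
        LinearMap.charpoly (ρ.ρ σ) = Polynomial.X ^ 2 -
          Polynomial.C (χ (heckeAlgebra.T hℓ hℓN hℓS)) * Polynomial.X + Polynomial.C ((ℓ : A)) := by
    intro ℓ hℓ hℓN hℓS B hB σ hσ
    obtain ⟨h1, h2⟩ := hchar ℓ hℓ hℓN hℓS B hB σ hσ
    have h3 : LinearMap.charpoly (ρ.ρ σ) = (r σ).charpoly :=
      LinearMap.charpoly_toMatrix (Matrix.toLin' (r σ)) (Pi.basisFun A (Fin 2)) |>.symm.trans (by
        rw [LinearMap.toMatrix_eq_toMatrix', LinearMap.toMatrix'_toLin'])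
    rw [h3, Matrix.charpoly_fin_two, h1, h2]
  let E : Submodule A (A ⊗[ℤ_[p]] TJ) := H32.eigenA act χ ⊓
    (LinearMap.ker (P1.baseChange A) ⊓ (LinearMap.ker (Pq.baseChange A) ⊓
      LinearMap.ker (W.baseChange A - c • LinearMap.id)))
  have hE : ∀ x, x ∈ E ↔ x ∈ H32.eigenA act χ ∧ P1.baseChange A x = 0 ∧
      Pq.baseChange A x = 0 ∧ W.baseChange A x = c • x := by
    intro x
    simp only [E, Submodule.mem_inf, LinearMap.mem_ker, LinearMap.sub_apply, LinearMap.smul_apply,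
      LinearMap.id_apply, sub_eq_zero]
  have hbc : ∀ (f : TJ →ₗ[ℤ_[p]] T1) (f' : Module.End ℤ_[p] T1) (g : Module.End ℤ_[p] TJ),
      (∀ x, f (g x) = f' (f x)) → ∀ x : A ⊗[ℤ_[p]] TJ,
        f.baseChange A (g.baseChange A x) = f'.baseChange A (f.baseChange A x) := by
    intro f f' g h x
    rw [← LinearMap.comp_apply, ← LinearMap.comp_apply, ← LinearMap.baseChange_comp,
      ← LinearMap.baseChange_comp]
    congr 2
    exact LinearMap.ext h
  have hbc2 : ∀ (f g : Module.End ℤ_[p] TJ),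
      (∀ x, f (g x) = g (f x)) → ∀ x : A ⊗[ℤ_[p]] TJ,
        f.baseChange A (g.baseChange A x) = g.baseChange A (f.baseChange A x) := by
    intro f g h x
    rw [← LinearMap.comp_apply, ← LinearMap.comp_apply, ← LinearMap.baseChange_comp,
      ← LinearMap.baseChange_comp]
    congr 2
    exact LinearMap.ext h
  let ρ' : H31.GQ →* Module.End A (Fin 2 → A) :=
    ((Matrix.toLinAlgEquiv' : M2 A ≃ₐ[A] _) : M2 A →* Module.End A (Fin 2 → A)).comp r
  obtain ⟨Φ, h1, h2, h3, h4⟩ := exists_saturated_embedding (A := A) (X := A ⊗[ℤ_[p]] TJ)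
    ρ' (by
      have h2 : Set.range ρ' = (Matrix.toLin' : M2 A ≃ₗ[A] _) '' Set.range r := by
        rw [← Set.range_comp]
        rfl
      rw [h2, ← LinearEquiv.coe_coe, ← Submodule.map_span, hspan, Submodule.map_top,
        LinearEquiv.range])
    (H32.galA A ρT) E (by
      intro g x hx
      rw [hE] at hx ⊢
      obtain ⟨e1, e2, e3, e4⟩ := hx
      refine ⟨H32.galA_mem_eigenA ρT act hcomm χ g x e1, ?_, ?_, ?_⟩
      · show P1.baseChange A ((ρT g).baseChange A x) = 0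
        rw [hbc P1 (ρ1 g) (ρT g) (hP1 g), e2, map_zero]
      · show Pq.baseChange A ((ρT g).baseChange A x) = 0
        rw [hbc Pq (ρ1 g) (ρT g) (hPq g), e3, map_zero]
      · show W.baseChange A ((ρT g).baseChange A x) = c • (ρT g).baseChange A x
        rw [hbc2 W (ρT g) (hW g), e4, map_smul]) (by
      intro a x ha hx
      rw [hE] at hx ⊢
      obtain ⟨e1, e2, e3, e4⟩ := hx
      refine ⟨?_, ?_, ?_, ?_⟩
      · rw [H32.mem_eigenA] at e1 ⊢
        intro P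
        have := e1 P
        rw [map_smul, smul_comm] at this
        exact smul_right_injective _ ha this
      · rw [map_smul] at e2
        exact (smul_eq_zero.mp e2).resolve_left ha
      · rw [map_smul] at e3
        exact (smul_eq_zero.mp e3).resolve_left ha
      · rw [map_smul, smul_comm c] at e4
        exact smul_right_injective _ ha e4) ((hE w).mpr ⟨hw, hw1, hwq, hww⟩) hw0 (by
      intro g x hx
      exact H32.quadratic_eigenA ρT hcont act hcomm hfrob hNS hpA χ ρ hchar' g x ((hE x).mp hx).1)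
  exact ⟨Φ, h1, h2, fun g x => h3 g x, fun x => ((hE _).mp (h4 x)).1,
    fun x => ((hE _).mp (h4 x)).2.1, fun x => ((hE _).mp (h4 x)).2.2.1,
    fun x => ((hE _).mp (h4 x)).2.2.2⟩

end

end Fermat.Agent.H88.RealP
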