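import Mathlib
import Fermat.Agent.H32Burnside
import Fermat.Agent.H53Matrix

/-!
# An irreducible two-dimensional matrix representation with a split element spans `M₂`
-/

set_option autoImplicit false

noncomputable section

open IsLocalRing Matrix

namespace Fermat.Agent.H88.RealP

open Fermat.Agent.H53 (M2 mapMat)

section Fld

variable {k : Type} [Field k] {G : Type*} [Monoid G]

theorem mem_adjoin_mul_entry {Sa : Subalgebra k (M2 k)} {e f N : M2 k} (he : e ∈ Sa) (hf : f ∈ Sa)
    (hN : N ∈ Sa) {E : M2 k} {c : k} (hc : c ≠ 0) (h : e * N * f = c • E) : E ∈ Sa := by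
  have h1 : E = c⁻¹ • (e * N * f) := by rw [h, smul_smul, inv_mul_cancel₀ hc, one_smul]
  rw [h1]
  exact Sa.smul_mem (Sa.mul_mem (Sa.mul_mem he hN) hf) _

/-- the diagonal case -/
theorem adjoin_eq_top_of_diag (R : G →* M2 k) {a b : k} (hab : a ≠ b) {g : G}
    (hg : R g = !![a, 0; 0, b]) (h1 : ∃ h, R h 1 0 ≠ 0) (h2 : ∃ h, R h 0 1 ≠ 0) :
    Algebra.adjoin k (Set.range R) = ⊤ := by
  set Sa := Algebra.adjoin k (Set.range R) with hSa
  have hmem : ∀ h, R h ∈ Sa := fun h => Algebra.subset_adjoin ⟨h, rfl⟩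
  have hd : a - b ≠ 0 := sub_ne_zero.mpr hab
  have e11 : !![(1 : k), 0; 0, 0] ∈ Sa := by
    have h3 : !![(1 : k), 0; 0, 0] = (a - b)⁻¹ • (R g - b • 1) := by
      rw [hg]
      ext i j
      fin_cases i <;> fin_cases j <;> simp [hd]
    rw [h3]
    exact Sa.smul_mem (Sa.sub_mem (hmem g) (Sa.smul_mem Sa.one_mem b)) _
  have e22 : !![(0 : k), 0; 0, 1] ∈ Sa := by
    have h3 : !![(0 : k), 0; 0, 1] = 1 - !![(1 : k), 0; 0, 0] := by
      ext i j
      fin_cases i <;> fin_cases j <;> simp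
    rw [h3]
    exact Sa.sub_mem Sa.one_mem e11
  have e21 : !![(0 : k), 0; 1, 0] ∈ Sa := by
    obtain ⟨h, hh⟩ := h1
    refine mem_adjoin_mul_entry e22 e11 (hmem h) hh ?_
    ext i j
    fin_cases i <;> fin_cases j <;>
      simp [Matrix.mul_apply, Fin.sum_univ_two, Matrix.vecMul, dotProduct]
  have e12 : !![(0 : k), 1; 0, 0] ∈ Sa := by
    obtain ⟨h, hh⟩ := h2
    refine mem_adjoin_mul_entry e11 e22 (hmem h) hh ?_
    ext i j
    fin_cases i <;> fin_cases j <;>
      simp [Matrix.mul_apply, Fin.sum_univ_two, Matrix.vecMul, dotProduct]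
  rw [eq_top_iff]
  intro N _
  have h3 : N = N 0 0 • !![(1 : k), 0; 0, 0] + N 0 1 • !![(0 : k), 1; 0, 0] +
      N 1 0 • !![(0 : k), 0; 1, 0] + N 1 1 • !![(0 : k), 0; 0, 1] := by
    ext i j
    fin_cases i <;> fin_cases j <;> simp
  rw [h3]
  exact Sa.add_mem (Sa.add_mem (Sa.add_mem (Sa.smul_mem e11 _) (Sa.smul_mem e12 _))
    (Sa.smul_mem e21 _)) (Sa.smul_mem e22 _)

theorem span_eq_top_field (R : G →* M2 k) {a b : k} (hab : a ≠ b) {g : G}
    (htr : (R g).trace = a + b) (hdet : (R g).det = a * b)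
    (hirr : ∀ x : Fin 2 → k, x ≠ 0 → ∃ h : G, ∀ c : k, (R h).mulVec x ≠ c • x) :
    Submodule.span k (Set.range R) = ⊤ := by
  have hev : ∀ c : k, c ^ 2 - (a + b) * c + a * b = 0 → ∃ x : Fin 2 → k, x ≠ 0 ∧
      (R g).mulVec x = c • x := by
    intro c hc
    have h1 : (R g - c • (1 : M2 k)).det = 0 := by
      rw [Matrix.det_fin_two] at hdet ⊢
      rw [Matrix.trace_fin_two] at htr
      simp only [Matrix.sub_apply, Matrix.smul_apply, Matrix.one_apply_eq, smul_eq_mul, mul_one,
        Matrix.one_apply_ne (show (0 : Fin 2) ≠ 1 by decide),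
        Matrix.one_apply_ne (show (1 : Fin 2) ≠ 0 by decide), mul_zero, sub_zero]
      linear_combination hdet - c * htr + hc
    obtain ⟨x, hx0, hx⟩ := Matrix.exists_mulVec_eq_zero_iff.mpr h1
    refine ⟨x, hx0, ?_⟩
    rw [Matrix.sub_mulVec, Matrix.smul_mulVec, Matrix.one_mulVec, sub_eq_zero] at hx
    exact hx
  obtain ⟨x, hx0, hx⟩ := hev a (by ring)
  obtain ⟨y, hy0, hy⟩ := hev b (by ring)
  set Q : M2 k := !![x 0, y 0; x 1, y 1] with hQ
  have hQv : ∀ v : Fin 2 → k, Q.mulVec v = v 0 • x + v 1 • y := by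
    intro v
    ext i
    fin_cases i <;> simp [hQ, Matrix.mulVec, dotProduct, Fin.sum_univ_two] <;> ring
  have hQdet : Q.det ≠ 0 := by
    intro h0
    obtain ⟨v, hv0, hv⟩ := Matrix.exists_mulVec_eq_zero_iff.mpr h0
    rw [hQv] at hv
    have h1 : (R g).mulVec (v 0 • x + v 1 • y) = 0 := by rw [hv, Matrix.mulVec_zero]
    rw [Matrix.mulVec_add, Matrix.mulVec_smul, Matrix.mulVec_smul, hx, hy] at h1
    have h2 : ((a - b) * v 0) • x = 0 := by
      have h3 : ((a - b) * v 0) • x = (v 0 • a • x + v 1 • b • y) - b • (v 0 • x + v 1 • y) := by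
        module
      rw [h3, h1, hv, smul_zero, sub_zero]
    have h3 : v 0 = 0 := by
      rcases smul_eq_zero.mp h2 with h4 | h4
      · exact (mul_eq_zero.mp h4).resolve_left (sub_ne_zero.mpr hab)
      · exact absurd h4 hx0
    rw [h3, zero_smul, zero_add] at hv
    have h4 : v 1 = 0 := (smul_eq_zero.mp hv).resolve_right hy0
    exact hv0 (by ext i; fin_cases i <;> simp [h3, h4])
  have hQu : IsUnit Q.det := isUnit_iff_ne_zero.mpr hQdet
  have hQQ : Q * Q⁻¹ = 1 := Matrix.mul_nonsing_inv Q hQu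
  have hQQ' : Q⁻¹ * Q = 1 := Matrix.nonsing_inv_mul Q hQu
  let R' : G →* M2 k :=
    { toFun := fun h => Q⁻¹ * R h * Q
      map_one' := by rw [map_one, mul_one, hQQ']
      map_mul' := fun h h' => by
        rw [map_mul]
        calc Q⁻¹ * (R h * R h') * Q = Q⁻¹ * R h * 1 * (R h' * Q) := by simp only [mul_assoc, one_mul]
          _ = _ := by rw [← hQQ]; simp only [mul_assoc] }
  have hR' : ∀ h, Q * R' h = R h * Q := fun h => by
    show Q * (Q⁻¹ * R h * Q) = _
    rw [← mul_assoc, ← mul_assoc, hQQ, one_mul]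
  have hcol : ∀ h (v : Fin 2 → k), (R h).mulVec (Q.mulVec v) =
      Q.mulVec ((R' h).mulVec v) := fun h v => by
    rw [Matrix.mulVec_mulVec, Matrix.mulVec_mulVec, hR']
  have hQinj : Function.Injective Q.mulVec := by
    intro v w hvw
    have := congrArg (Q⁻¹).mulVec hvw
    rwa [Matrix.mulVec_mulVec, Matrix.mulVec_mulVec, hQQ', Matrix.one_mulVec,
      Matrix.one_mulVec] at this
  have hx' : Q.mulVec ![1, 0] = x := by rw [hQv]; simp
  have hy' : Q.mulVec ![0, 1] = y := by rw [hQv]; simp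
  have hg0 : (R' g).mulVec ![1, 0] = ![a, 0] := by
    apply hQinj
    rw [← hcol, hx', hx, hQv]
    simp
  have hg1 : (R' g).mulVec ![0, 1] = ![0, b] := by
    apply hQinj
    rw [← hcol, hy', hy, hQv]
    simp
  have hRg : R' g = !![a, 0; 0, b] := by
    ext i j
    have h0 := congrFun hg0 i
    have h1 := congrFun hg1 i
    fin_cases i <;> fin_cases j <;>
      first
      | simpa [Matrix.mulVec, dotProduct, Fin.sum_univ_two] using h0
      | simpa [Matrix.mulVec, dotProduct, Fin.sum_univ_two] using h1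
  have hn10 : ∃ h, R' h 1 0 ≠ 0 := by
    obtain ⟨h, hh⟩ := hirr x hx0
    refine ⟨h, fun h0 => hh (R' h 0 0) ?_⟩
    rw [← hx', hcol, ← Matrix.mulVec_smul]
    congr 1
    ext i
    fin_cases i <;> simp [Matrix.mulVec, dotProduct, Fin.sum_univ_two, h0]
  have hn01 : ∃ h, R' h 0 1 ≠ 0 := by
    obtain ⟨h, hh⟩ := hirr y hy0
    refine ⟨h, fun h0 => hh (R' h 1 1) ?_⟩
    rw [← hy', hcol, ← Matrix.mulVec_smul]
    congr 1
    ext i
    fin_cases i <;> simp [Matrix.mulVec, dotProduct, Fin.sum_univ_two, h0]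
  have htop := adjoin_eq_top_of_diag R' hab hRg hn10 hn01
  rw [← H32.adjoin_range_eq_span, Algebra.toSubmodule_eq_top]
  rw [eq_top_iff]
  intro N _
  have key : ∀ y ∈ Algebra.adjoin k (Set.range R'), Q * y * Q⁻¹ ∈ Algebra.adjoin k (Set.range R) := by
    intro y hy
    induction hy using Algebra.adjoin_induction with
    | mem y hy =>
      obtain ⟨h, rfl⟩ := hy
      rw [hR', mul_assoc, hQQ, mul_one]
      exact Algebra.subset_adjoin ⟨h, rfl⟩
    | algebraMap c =>
      rw [← Algebra.commutes, mul_assoc, hQQ, mul_one]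
      exact Subalgebra.algebraMap_mem _ c
    | add y z _ _ h1 h2 =>
      rw [mul_add, add_mul]
      exact Subalgebra.add_mem _ h1 h2
    | mul y z _ _ h1 h2 =>
      have : Q * (y * z) * Q⁻¹ = (Q * y * Q⁻¹) * (Q * z * Q⁻¹) := by
        calc Q * (y * z) * Q⁻¹ = Q * y * 1 * (z * Q⁻¹) := by simp only [mul_assoc, one_mul]
          _ = _ := by rw [← hQQ']; simp only [mul_assoc]
      rw [this]
      exact Subalgebra.mul_mem _ h1 h2
  have h3 := key (Q⁻¹ * N * Q) (by rw [htop]; trivial)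
  have h4 : Q * (Q⁻¹ * N * Q) * Q⁻¹ = N := by
    rw [← mul_assoc, ← mul_assoc, hQQ, one_mul, mul_assoc, hQQ, mul_one]
  rwa [h4] at h3

end Fld

section Loc

variable {A : Type} [CommRing A] [IsLocalRing A] {G : Type*}

/-- Nakayama -/
theorem span_eq_top_of_residue (r : G → M2 A)
    (h : Submodule.span (ResidueField A) (Set.range fun g => (r g).map (residue A)) = ⊤) :
    Submodule.span A (Set.range r) = ⊤ := by
  set U := Submodule.span A (Set.range r) with hU
  have key : (⊤ : Submodule A (M2 A)) ≤ U ⊔ maximalIdeal A • ⊤ := by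
    intro X _
    have hlift : ∀ Y ∈ Submodule.span (ResidueField A)
        (Set.range fun g => (r g).map (residue A)), ∃ u ∈ U, u.map (residue A) = Y := by
      intro Y hY
      induction hY using Submodule.span_induction with
      | mem x hx =>
        obtain ⟨g, rfl⟩ := hx
        exact ⟨r g, Submodule.subset_span ⟨g, rfl⟩, rfl⟩
      | zero => exact ⟨0, Submodule.zero_mem _, by ext i j; simp⟩
      | add x y _ _ hx hy =>
        obtain ⟨u, hu, rfl⟩ := hx
        obtain ⟨w, hw, rfl⟩ := hy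
        exact ⟨u + w, Submodule.add_mem _ hu hw, by ext i j; simp⟩
      | smul a x _ hx =>
        obtain ⟨u, hu, rfl⟩ := hx
        obtain ⟨c, rfl⟩ := residue_surjective a
        exact ⟨c • u, Submodule.smul_mem _ _ hu, by ext i j; simp⟩
    obtain ⟨u, hu, hux⟩ := hlift (X.map (residue A)) (by rw [h]; trivial)
    have h1 : X - u ∈ maximalIdeal A • (⊤ : Submodule A (M2 A)) := by
      have h2 : ∀ i j, (X - u) i j ∈ maximalIdeal A := by
        intro i j
        have h3 := congrFun (congrFun hux i) j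
        rw [Matrix.map_apply, Matrix.map_apply] at h3
        rw [← residue_eq_zero_iff, Matrix.sub_apply, map_sub, h3, sub_self]
      have h3 : X - u = ∑ i, ∑ j, ((X - u) i j) • Matrix.single i j (1 : A) := by
        conv_lhs => rw [Matrix.matrix_eq_sum_single (X - u)]
        refine Finset.sum_congr rfl fun i _ => Finset.sum_congr rfl fun j _ => ?_
        rw [Matrix.smul_single, smul_eq_mul, mul_one]
      rw [h3]
      exact Submodule.sum_mem _ fun i _ => Submodule.sum_mem _ fun j _ =>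
        Submodule.smul_mem_smul (h2 i j) trivial
    have h2 : X = u + (X - u) := by abel
    rw [h2]
    exact Submodule.add_mem_sup hu h1
  have hfg : (⊤ : Submodule A (M2 A)).FG := Module.Finite.fg_top
  exact top_le_iff.mp (Submodule.le_of_le_smul_of_le_jacobson_bot hfg
    (by rw [IsLocalRing.jacobson_eq_maximalIdeal _ bot_ne_top]) key)

end Loc

end Fermat.Agent.H88.RealP
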