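import Fermat.Agent.H88RealC
import Fermat.Agent.H88RealD1
import Fermat.Agent.H88RealE0
import Fermat.Agent.H32Real
import Fermat.Agent.H19LTM8
import Fermat.Agent.H39Real2
import Fermat.Agent.H31Inputs
import Fermat.Agent.H31JZero

/-!
# REAL+ : realisation of a representation attached to an eigenform of level `M q` with
`a_q = s = ± 1` in `O' ⊗ T_p J₀(M q)`, killed by both degeneracy maps, `w_q = - s`
-/

set_option autoImplicit false
set_option linter.unusedSectionVars false
set_option linter.style.haveILetI false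

noncomputable section

open CongruenceSubgroup ModularFormClass CuspForm IsLocalRing
open scoped TensorProduct

namespace Fermat.Agent.H88.RealP

open Fermat.Agent.H70.Coh Fermat.Agent.H94.BR ModularCurve AlgebraicCurve Fermat.Agent.H4
  Fermat.Agent.H67 Fermat.Agent.H30 Fermat.Agent.H35 Fermat.Agent.H31 Fermat.Agent.H90
open Fermat.Agent.H53 (M2 mapMat MCont ofMatrix)
open Fermat.Agent.H19LT (Attached ResIrr)

section Char

variable {N : ℕ} [NeZero N]

theorem evHecke_surjective {S : Set ℕ} (hNS : ∀ q : ℕ, q.Prime → q ∣ N → q ∈ S) :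
    Function.Surjective (evHecke N S) := by
  have key : ∀ x ∈ Algebra.adjoin ℤ (heckeGenerators N 2 S), ∃ P : MvPolynomial (GoodPrimes N S) ℤ,
      ((evHecke N S P : heckeAlgebra N 2 S) :
        Module.End ℂ (CuspForm (CongruenceSubgroup.Gamma0 N) 2)) = x := by
    intro x hx
    induction hx using Algebra.adjoin_induction with
    | mem x hx =>
      rcases hx with ⟨ℓ, hℓ, hℓN, hℓS, rfl⟩ | ⟨q, hqN, hq, hqS, -⟩
      · refine ⟨MvPolynomial.X ⟨⟨ℓ, hℓ⟩, hℓN, hℓS⟩, ?_⟩
        rw [evHecke_X]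
        rfl
      · exact absurd (hNS q hq hqN) hqS
    | algebraMap n =>
      refine ⟨MvPolynomial.C n, ?_⟩
      have h1 : evHecke N S (MvPolynomial.C n) = algebraMap ℤ (heckeAlgebra N 2 S) n := by
        have h2 : (MvPolynomial.C n : MvPolynomial (GoodPrimes N S) ℤ) = (n : ℤ) := by
          rw [← MvPolynomial.algebraMap_eq, eq_intCast]
        rw [h2, map_intCast, eq_intCast]
      rw [h1]
      rfl
    | add x y _ _ h1 h2 =>
      obtain ⟨P, rfl⟩ := h1
      obtain ⟨P', rfl⟩ := h2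
      exact ⟨P + P', by rw [map_add]; rfl⟩
    | mul x y _ _ h1 h2 =>
      obtain ⟨P, rfl⟩ := h1
      obtain ⟨P', rfl⟩ := h2
      exact ⟨P * P', by rw [map_mul]; rfl⟩
  intro t
  obtain ⟨P, hP⟩ := key t t.2
  exact ⟨P, Subtype.ext hP⟩

variable {O' : Type} [CommRing O'] [IsLocalRing O'] {F : Type} [Field F] {j : O' →+* F}
  {ι : integralClosure ℤ ℂ →+* F} {S : Finset ℕ} {r : H53.GQ →* M2 O'}
  {f : CuspForm (Gamma0 N) 2}

/-- The `O'`-valued character of the Hecke algebra. -/
theorem exists_char (hf : f.IsNormalizedEigenform) (hr : Attached f S j ι r)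
    (hNS : ∀ q : ℕ, q.Prime → q ∣ N → q ∈ S) :
    ∃ χ : heckeAlgebra N 2 (↑S : Set ℕ) →+* O', ∀ (ℓ : ℕ) (hℓ : ℓ.Prime) (hℓN : ¬ ℓ ∣ N)
      (hℓS : ℓ ∉ (↑S : Set ℕ)),
      (∃ a : integralClosure ℤ ℂ, (a : ℂ) = qCoeff f ℓ ∧
        ι a = j (χ (heckeAlgebra.T hℓ hℓN hℓS))) ∧
      ∀ P : ValuationSubring (AlgebraicClosure ℚ), P.LiesOverPrime ℓ → ∀ φ : H53.GQ,
        P.IsFrobeniusAt φ ℓ → (r φ).trace = χ (heckeAlgebra.T hℓ hℓN hℓS) ∧
          (r φ).det = (ℓ : O') := by
  obtain ⟨χb, hχb⟩ := H39.exists_residual_char hf (↑S : Set ℕ)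
  have hrange : ∀ t, (ι.comp χb) t ∈ j.range := by
    intro t
    obtain ⟨P, rfl⟩ := evHecke_surjective (N := N) (S := (↑S : Set ℕ))
      (fun q hq hqN => by simpa using hNS q hq hqN) t
    induction P using MvPolynomial.induction_on with
    | C n =>
      have h2 : (MvPolynomial.C n : MvPolynomial (GoodPrimes N (↑S : Set ℕ)) ℤ) = (n : ℤ) := by
        rw [← MvPolynomial.algebraMap_eq, eq_intCast]
      rw [h2, map_intCast, map_intCast]
      exact intCast_mem _ _
    | add P Q h1 h2 => rw [map_add, map_add]; exact add_mem h1 h2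
    | mul_X P a h1 =>
      rw [map_mul, map_mul]
      refine mul_mem h1 ?_
      obtain ⟨A, hA⟩ := H54.exists_liesOverPrime a.1.2
      obtain ⟨φ, hφ⟩ := H54.exists_isFrobeniusAt a.1.2 hA
      rw [evHecke_X]
      exact ⟨_, (hr.frob (a.1 : ℕ) a.1.2 (by simpa using a.2.2) _
        (hχb (a.1 : ℕ) a.1.2 a.2.1 a.2.2) A hA φ hφ).1⟩
  let e : O' ≃+* j.range := RingEquiv.ofBijective j.rangeRestrict
    ⟨fun x y h => hr.inj (congrArg Subtype.val h), j.rangeRestrict_surjective⟩
  let χ : heckeAlgebra N 2 (↑S : Set ℕ) →+* O' :=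
    (e.symm : j.range →+* O').comp ((ι.comp χb).codRestrict j.range hrange)
  have hχ : ∀ t, j (χ t) = ι (χb t) := by
    intro t
    have h1 : e (χ t) = ⟨(ι.comp χb) t, hrange t⟩ := e.apply_symm_apply _
    exact congrArg Subtype.val h1
  refine ⟨χ, fun ℓ hℓ hℓN hℓS => ⟨⟨χb _, hχb ℓ hℓ hℓN hℓS, (hχ _).symm⟩, fun P hP φ hφ => ?_⟩⟩
  obtain ⟨h1, h2⟩ := hr.frob ℓ hℓ (by simpa using hℓS) _ (hχb ℓ hℓ hℓN hℓS) P hP φ hφ
  exact ⟨hr.inj (by rw [h1, hχ]), h2⟩

theorem Attached.mono {S' : Finset ℕ} (hr : Attached f S j ι r) (h : S ⊆ S') :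
    Attached f S' j ι r :=
  ⟨hr.inj, hr.cont, fun ℓ hℓ hℓS a ha => hr.frob ℓ hℓ (fun h' => hℓS (h h')) a ha⟩

/-- residual irreducibility implies that the image spans `M₂(O')`. -/
theorem span_of_resIrr (h2 : (2 : O') ∈ maximalIdeal O') (hr : ResIrr r) :
    Submodule.span O' (Set.range r) = ⊤ := by
  obtain ⟨⟨ω, hω⟩, ⟨g, htr, hdet⟩, hirr⟩ := hr
  have h20 : (2 : ResidueField O') = 0 := by
    have := (residue_eq_zero_iff (2 : O')).mpr h2
    rwa [map_ofNat] at this
  refine span_eq_top_of_residue (fun g => r g) ?_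
  refine span_eq_top_field (mapMat (residue O') r) (a := -ω) (b := 1 + ω) (g := g) ?_ ?_ ?_ hirr
  · intro h
    have h3 : (1 : ResidueField O') = 0 := by linear_combination -h - ω * h20
    exact one_ne_zero h3
  · rw [htr]; ring
  · rw [hdet]; linear_combination hω

end Char

section Main

variable {p : ℕ} [Fact p.Prime] {M q : ℕ} [NeZero M] [NeZero q] [NeZero (M * q)]

set_option maxHeartbeats 3200000 in
/-- **REAL+**: a representation `r` over the discrete valuation ring `O'`, attached to an eigenform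
of level `M q`, `q ∤ M`, `a_q = s = ± 1`, with image spanning `M₂(O')`, embeds as a saturated
submodule into `O' ⊗ T_p J₀(M q)`, killed by the two degeneracy maps to level `M`, with
`w_q = - s`. -/
theorem real_plus (hq : q.Prime) (hqM : ¬ q ∣ M) (hc : M.Coprime q)
    {f : CuspForm (Gamma0 (M * q)) 2} (hf : f.IsNormalizedEigenform) {s : ℤ}
    (hs : s = 1 ∨ s = -1) (hfs : qCoeff f q = (s : ℂ))
    {O' : Type} [CommRing O'] [IsDomain O'] [IsDiscreteValuationRing O'] [CharZero O']
    [Algebra ℤ_[p] O'] (hp : (p : O') ∈ maximalIdeal O')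
    {F : Type} [Field F] [CharZero F] {j : O' →+* F}
    {ι : integralClosure ℤ ℂ →+* F} {S : Finset ℕ} {r : H53.GQ →* M2 O'}
    (hr : Attached f S j ι r) (hspan : Submodule.span O' (Set.range r) = ⊤) :
    ∃ Φ : (Fin 2 → O') →ₗ[O'] O' ⊗[ℤ_[p]] TateMod p (JZero (M * q)),
      Function.Injective Φ ∧
      (∀ x, Φ x ∈ (maximalIdeal O' • ⊤ : Submodule O' (O' ⊗[ℤ_[p]] TateMod p (JZero (M * q)))) →
        ∀ i, x i ∈ maximalIdeal O') ∧
      (∀ (g : H53.GQ) x, Φ ((r g).mulVec x) =
        (galTate p (JZero (M * q)) g).baseChange O' (Φ x)) ∧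
      (∀ (h : M * 1 ∣ M * q) x,
        (tateMap (degPush (M := M) (N := M * q) 1 h)).baseChange O' (Φ x) = 0) ∧
      (∀ (h : M * q ∣ M * q) x,
        (tateMap (degPush (M := M) (N := M * q) q h)).baseChange O' (Φ x) = 0) ∧
      (∀ x, (tateMap (wJ (R := M * q) M q rfl hc)).baseChange O' (Φ x) =
        ((-s : ℤ) : O') • Φ x) := by
  classical
  letI := heckeModuleBar (M * q)
  haveI := (jzeroInputs (M * q)).comm
  haveI := (jzeroInputs (M * q)).principal
  have hpp : p.Prime := Fact.out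
  have hfin : {x : JZero (M * q) | p • x = 0}.Finite := by
    simpa using (jzeroInputs (M * q)).finite p 1 hpp
  haveI := TateMod.finite_of_finite_torsion (p := p) (J := JZero (M * q)) hfin
  haveI := TateMod.free_of_finite_torsion (p := p) (J := JZero (M * q)) hfin
  have hlev : FiniteLevel p (JZero (M * q)) :=
    finiteLevel_JZero (M * q) p (fun n => (jzeroInputs (M * q)).finite p n hpp)
  have hFq := frobeniusQuadratic_of_specializationExists ((jzeroInputs (M * q)).spec p hpp)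
  set S' : Finset ℕ := S ∪ (M * q).primeFactors ∪ {p} with hS'
  have hpS : p ∈ S' := by rw [hS']; simp
  have hNS : ∀ r : ℕ, r.Prime → r ∣ M * q → r ∈ S' := by
    intro r hr hrN
    rw [hS']
    simp only [Finset.mem_union]
    exact Or.inl (Or.inr (Nat.mem_primeFactors.mpr ⟨hr, hrN, NeZero.ne (M * q)⟩))
  have hr' : Attached f S' j ι r := Attached.mono hr (by
    intro x hx
    rw [hS']
    simp only [Finset.mem_union]
    exact Or.inl (Or.inl hx))
  obtain ⟨χ, hχ⟩ := exists_char hf hr' hNS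
  have hinj : Function.Injective (algebraMap ℤ_[p] O') := H32.algebraMap_padic_injective
  obtain ⟨w, hw0, hw, hw1, hwq, hww⟩ := exists_vector (p := p) hq hqM hc hf hs hfs hinj hr.inj
    (S := S') (χ.comp (evHecke (M * q) (↑S' : Set ℕ))) (fun ℓ hℓ hℓN hℓS => by
      rw [RingHom.comp_apply, evHecke_X]
      exact (hχ ℓ hℓ hℓN hℓS).1)
  have hgood : ∀ r : ℕ, r.Prime → ¬ r ∣ M * q → r ≠ p → ¬ r ∣ M * q * p := by
    intro r hr hrN hrp h
    rcases hr.dvd_mul.mp h with h | h
    · exact hrN h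
    · exact hrp ((Nat.prime_dvd_prime_iff_eq hr Fact.out).mp h)
  have hfinM : {x : JZero M | p • x = 0}.Finite := by
    simpa using (jzeroInputs M).finite p 1 hpp
  haveI := TateMod.free_of_finite_torsion (p := p) (J := JZero M) hfinM
  have hcommT : ∀ {J₁ J₂ : Type} [AddCommGroup J₁] [AddCommGroup J₂] [DistribMulAction H31.GQ J₁]
      [DistribMulAction H31.GQ J₂] (f : J₁ →+ J₂) (g : H31.GQ) (_ : ∀ x, f (g • x) = g • f x)
      (x : TateMod p J₁), tateMap f (galTate p J₁ g x) = galTate p J₂ g (tateMap f x) := by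
    intro J₁ J₂ _ _ _ _ f g h x
    ext n
    exact h _
  have hfrob : ∀ (a : GoodPrimes (M * q) (↑S' : Set ℕ))
      (A : ValuationSubring (AlgebraicClosure ℚ)), A.LiesOverPrime (a.1 : ℕ) → ∀ φ : H31.GQ,
      A.IsFrobeniusAt φ (a.1 : ℕ) → ∀ x : TateMod p (JZero (M * q)),
        galTate p (JZero (M * q)) φ (galTate p (JZero (M * q)) φ x) -
          actTate p (JZero (M * q)) (M * q) (↑S' : Set ℕ) (MvPolynomial.X a)
            (galTate p (JZero (M * q)) φ x) + (a.1 : ℕ) • x = 0 := by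
    intro a A hA φ hφ x
    have hap : (a.1 : ℕ) ≠ p := by
      intro h
      exact a.2.2 (by rw [h]; simpa using hpS)
    have h := galTate_frobenius (p := p) (J := JZero (M * q)) hFq a.1.2 (hgood _ a.1.2 a.2.1 hap) hA hφ
    have h1 := LinearMap.congr_fun h x
    simp only [LinearMap.add_apply, LinearMap.sub_apply, Module.End.mul_apply,
      LinearMap.smul_apply, Module.End.one_apply, LinearMap.zero_apply] at h1
    have h2 : actTate p (JZero (M * q)) (M * q) (↑S' : Set ℕ) (MvPolynomial.X a) =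
        heckeTate p (JZero (M * q)) (heckeGen a.1) := by
      show heckeTate p (JZero (M * q)) (H31.inclHecke (M * q) (↑S' : Set ℕ) (MvPolynomial.X a)) = _
      rw [H31.inclHecke_X]
    rw [h2]
    exact h1
  obtain ⟨Φ, h1, h2, h3, -, h4, h5, h6⟩ := exists_embedding_of_vector (A := O')
    (TJ := TateMod p (JZero (M * q))) (T1 := TateMod p (JZero M)) (galTate p (JZero (M * q)))
    (galTate_continuous hlev) (actTate p (JZero (M * q)) (M * q) (↑S' : Set ℕ))
    (actTate_commute (M * q) (↑S' : Set ℕ)) hfrob hNS hp χ hr.cont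
    (fun ℓ hℓ hℓN hℓS => (hχ ℓ hℓ hℓN hℓS).2) hspan
    (tateMap (degPush (M := M) (N := M * q) 1 (by simp)))
    (tateMap (degPush (M := M) (N := M * q) q (dvd_refl _)))
    (tateMap (wJ (R := M * q) M q rfl hc)) (galTate p (JZero M))
    (fun g x => hcommT _ g (fun y => degPush_galois 1 _ g y) x)
    (fun g x => hcommT _ g (fun y => degPush_galois q _ g y) x)
    (fun g x => hcommT _ g (fun y => wJ_galois rfl hc g y) x) ((-s : ℤ) : O')
    hw0 (fun P => hw P) (hw1 _) (hwq _) hww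
  exact ⟨Φ, h1, h2, h3, fun _ => h4, fun _ => h5, h6⟩

end Main

end Fermat.Agent.H88.RealP
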