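import Fermat.Agent.H34LTOld
import Fermat.Agent.H88RealD

/-!
# Guide: the Atkin-Lehner operator at an exact prime divisor of the level, and old forms

**What this file does.**  It names the results used on weight 2 (sometimes weight `k`) cusp forms of
level `q M`, `q` a prime which does not divide `M`: the operator `W_q`, the trace to level `M`, and
their consequences for eigenforms `f`:

* `a_q(f)² ≠ 1`: the eigenvalues of `f` outside the level already occur at level `M` (section 5);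
* `U_q f = s f`, `s² = 1`: then `f ∣ W_q = -s f` and the trace of `f` to level `M` is zero, even if `f`
  is an old form or not an eigenform outside `q` (section 6).

Everything is elementary: integral matrices, the slash action, and finite sums over the projective
line over `ZMod q` or `ZMod ℓ`.  No multiplicity one theorem, no Petersson product (only the square
root `|g(τ)| Im τ` of its integrand, in `eq_zero_of_slash_heckeDiag`), and no theory of newforms is used
(compare `GuideNewforms`).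

**Who uses it.**  The proof terms of S01, S03, S04, S06, S38, S45, S46, S50, S59, S60; the change of
level of a cusp form (`exists_levelForm`) also those of S09, S12 and S15.  The main use is block M8 of
the proof of residual modularity at 3 (`GuideResidual`, section 8; `GuideResidualSteps`): the local type
at a prime `q`, exactly dividing the level, of a 2-adic representation attached to an eigenform `f`
with `a_q(f) = s = ± 1`.  Section 6 gives the sign of `W_q` and the vanishing of both traces, section 7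
transports this from the periods of `f` to the Tate module of `J_0(M q)` and realises the
representation there; section 5 shows that `a_q² = 1` if the representation is residually ramified at
`q` (section 8).

**Reading order.**  Section 1: the matrix.  Section 2: the slash action of `W_q` on level `q M`.
Section 3: the Hecke operators `T_ℓ`.  Section 4: the trace.  Section 5: old-form descent.  Section 6:
the case `a_q² = 1`.  Section 7: from `f` to the Tate module of `J_0(M q)`.  Section 8: the ramified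
case of M8.

**Authors of the library files.**  helper44 (`H44AtkinLehner`, `H44OldForm`: sections 1-5), helper88
(`H88RealA`, `H88RealB`, `H88RealC0`, `H88RealC`, `H88RealD0`, `H88RealD1`, `H88RealD`: sections 6,
7), helper34 (`H34LTOld`: section 8).  The embedding of section 7 is explained in `GuideRealisation`.

**Notation.**  `f ∣[k] g` is the weight `k` slash action of `GL_2(ℝ)`; `mapGL ℝ g` is the image in
`GL_2(ℝ)` of `g ∈ SL_2(ℤ)`; `heckeMatrix ℓ j` is `[[1, j], [0, ℓ]]` and `heckeDiagMatrix ℓ` is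
`[[ℓ, 0], [0, 1]]`; `heckeU k ℓ f` is the sum of the `f ∣[k] [[1, j], [0, ℓ]]`, `0 ≤ j < ℓ`, and
`heckeT k ℓ f` has the additional term `f ∣[k] [[ℓ, 0], [0, 1]]`.  `CuspForm.heckeULin` and
`CuspForm.heckeTLin` are the same operators on cusp forms of level `N`, for `ℓ ∣ N` resp. `ℓ ∤ N`.

**Notes**: NOTES-RIBET-S44-ESIDE [290] (sections 1-5), NOTES-LT-REALPLUS [292] (sections 6, 7),
NOTES-LT-M8 [270] (section 8).  The statements are in full; the proofs are citations.  Text by helper44.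
-/

set_option autoImplicit false

open Matrix.SpecialLinearGroup UpperHalfPlane ModularForm CongruenceSubgroup ModularFormClass
open ModularCurve
open scoped MatrixGroups ModularForm OnePoint TensorProduct

namespace Fermat.Agent.Guide.AtkinLehner

open Fermat.Agent

variable {q M : ℕ}

/-! ## 1. The matrix `W_q` -/

/-- **The Bezout datum.**  `q` prime, `q ∤ M`: there are integers `a`, `b` with `a q - b M = 1`.  An
`H44.ALData q M` is such a pair `(D.a, D.b)` with its equation `D.h`. -/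
theorem exists_datum (hq : q.Prime) (hqM : ¬ q ∣ M) : Nonempty (H44.ALData q M) :=
  H44.ALData.exists hq hqM

/-- **The matrix** `W_q = [[q a, b], [q M, q]]`; its determinant is `q (a q - b M) = q`. -/
theorem matrix_W (D : H44.ALData q M) (hq : q ≠ 0) :
    ((D.W : GL (Fin 2) ℝ) : Matrix (Fin 2) (Fin 2) ℝ) =
      !![(q : ℝ) * (D.a : ℝ), (D.b : ℝ); (q : ℝ) * (M : ℝ), (q : ℝ)] ∧
    D.a * (q : ℤ) - D.b * (M : ℤ) = 1 :=
  ⟨D.val_W hq, D.h⟩

/-- **Factorisation** (by definition): `W_q` is `[[a, b], [M, q]]`, an element of `Γ_0(M)`, times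
`[[q, 0], [0, 1]]`.  So on forms of level `M` the operator `W_q` is `g(τ) ↦ q^(k-1) g(q τ)`. -/
theorem W_eq (D : H44.ALData q M) :
    D.W = mapGL ℝ D.gam * heckeDiagMatrix q ∧
      (D.gam : Matrix (Fin 2) (Fin 2) ℤ) = !![D.a, D.b; (M : ℤ), (q : ℤ)] :=
  ⟨rfl, rfl⟩

/-- **`W_q` normalises `Γ_0(q M)`.**  For `g ∈ SL_2(ℤ)` with lower left entry divisible by `q M` one
has `W_q g = g' W_q` with `g'` of the same kind. -/
theorem W_mul (D : H44.ALData q M) (hq : q ≠ 0) (g : SL(2, ℤ)) (z : ℤ)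
    (hz : g 1 0 = (q : ℤ) * (M : ℤ) * z) :
    ∃ g' : SL(2, ℤ), (∃ z' : ℤ, g' 1 0 = (q : ℤ) * (M : ℤ) * z') ∧
      D.W * mapGL ℝ g = mapGL ℝ g' * D.W :=
  D.W_mul hq g z hz

/-- **Square.**  `W_q² = q g'` with `g' ∈ Γ_0(q M)`. -/
theorem W_sq (D : H44.ALData q M) (hq : q ≠ 0) :
    ∃ g' : SL(2, ℤ), (∃ z' : ℤ, g' 1 0 = (q : ℤ) * (M : ℤ) * z') ∧
      ∃ s : GL (Fin 2) ℝ, (s : Matrix (Fin 2) (Fin 2) ℝ) = !![(q : ℝ), 0; 0, (q : ℝ)] ∧
      D.W * D.W = s * mapGL ℝ g' :=
  D.W_sq hq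

/-! ## 2. `W_q` on forms of level `q M` -/

/-- `f ∣ W_q` is invariant under `Γ_0(q M)` if `f` is. -/
theorem slash_W_invariant (D : H44.ALData q M) (k : ℤ) (hq : q ≠ 0) (f : ℍ → ℂ)
    (hf : ∀ γ ∈ (Gamma0 (q * M) : Subgroup (GL (Fin 2) ℝ)), f ∣[k] γ = f)
    (γ : GL (Fin 2) ℝ) (hγ : γ ∈ (Gamma0 (q * M) : Subgroup (GL (Fin 2) ℝ))) :
    (f ∣[k] D.W) ∣[k] γ = f ∣[k] D.W :=
  D.slashW_slash k hq f hf γ hγ

/-- **Involution.**  In weight 2 the scalar matrix `q` acts trivially, hence `(f ∣ W_q) ∣ W_q = f` for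
`f` invariant under `Γ_0(q M)`. -/
theorem slash_W_slash_W (D : H44.ALData q M) (hq : q ≠ 0) (f : ℍ → ℂ)
    (hf : ∀ γ ∈ (Gamma0 (q * M) : Subgroup (GL (Fin 2) ℝ)), f ∣[(2 : ℤ)] γ = f) :
    (f ∣[(2 : ℤ)] D.W) ∣[(2 : ℤ)] D.W = f :=
  D.slashW_slashW hq f hf

/-- **Cusps.**  `f` a cusp form of weight `k` on an arithmetic group `Γ`, `g ∈ GL_2(ℚ)`: the function
`f ∣ g` vanishes at the cusps of `Γ` too (`g` permutes the projective line over `ℚ`). -/
theorem isZeroAt_slash {F : Type*} [FunLike F ℍ ℂ] {Γ : Subgroup (GL (Fin 2) ℝ)} [Γ.IsArithmetic]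
    {k : ℤ} [CuspFormClass F Γ k] (f : F) (g : GL (Fin 2) ℚ) {c : OnePoint ℝ} (hc : IsCusp c Γ) :
    c.IsZeroAt (⇑f ∣[k] (Matrix.GeneralLinearGroup.map (Rat.castHom ℝ) g)) k :=
  H44.isZeroAt_slash_ratCast f g hc

/-- **Hence `f ∣ W_q` is a cusp form of level `q M`** if `f` is (`D.wCusp k f`; by definition its
function is `f ∣[k] W_q`), and `W_q` commutes with scalars. -/
theorem exists_wForm (D : H44.ALData q M) (k : ℤ) [NeZero (q * M)] (f : CuspForm (Gamma0 (q * M)) k) :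
    (⇑(D.wCusp k f) : ℍ → ℂ) = ⇑f ∣[k] D.W ∧ ∀ c : ℂ, D.wCusp k (c • f) = c • D.wCusp k f :=
  ⟨rfl, fun c => D.wCusp_smul k c f⟩

/-! ## 3. `W_q` and the Hecke operators `T_ℓ`, `ℓ ∤ q M` -/

/-- **`T_ℓ` as a sum over the projective line** over `ZMod ℓ`: the point `∞` gives `[[ℓ, 0], [0, 1]]`,
the point `j` gives `[[1, j], [0, ℓ]]`. -/
theorem heckeT_eq_sum {ℓ : ℕ} [NeZero ℓ] (k : ℤ) (f : ℍ → ℂ) :
    heckeT k ℓ f = ∑ x : OnePoint (ZMod ℓ), f ∣[k] (x.elim (heckeDiagMatrix ℓ)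
      (fun j => heckeMatrix ℓ j.val) : GL (Fin 2) ℝ) :=
  H44.heckeT_eq_sum_hRep k f

/-- **`W_q` permutes the representatives of `T_ℓ`**: let `β_x` be the matrix of the point `x` in
`heckeT_eq_sum` (`H44.hRep ℓ x`), and `m x` the image of `x` under the Möbius action on the projective
line over `ZMod ℓ` of `[[q, b], [q M, q a]]` (`H44.redM`).  Then `β_x W_q = g' W_q β_(m x)` with
`g' ∈ Γ_0(q M)`. -/
theorem rep_mul_W {ℓ : ℕ} [Fact ℓ.Prime] (D : H44.ALData q M) (hq : q.Prime) (hℓN : ¬ ℓ ∣ q * M)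
    (hdet : ((((q : ℤ)) * ((q : ℤ) * D.a) - D.b * ((q : ℤ) * (M : ℤ)) : ℤ) : ZMod ℓ) ≠ 0)
    (x : OnePoint (ZMod ℓ)) :
    ∃ g' : SL(2, ℤ), (∃ z' : ℤ, g' 1 0 = (q : ℤ) * (M : ℤ) * z') ∧
      H44.hRep ℓ x * D.W = mapGL ℝ g' * (D.W *
        H44.hRep ℓ (H44.redM ℓ (q : ℤ) D.b ((q : ℤ) * (M : ℤ)) ((q : ℤ) * D.a) hdet • x)) :=
  D.hRep_mul_W hq hℓN hdet x

/-- **`W_q` commutes with `T_ℓ`**, `ℓ` a prime not dividing `q M`, on functions invariant under
`Γ_0(q M)`, in every weight. -/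
theorem heckeT_slash_W {ℓ : ℕ} [Fact ℓ.Prime] (D : H44.ALData q M) (k : ℤ) (hq : q.Prime)
    (hℓN : ¬ ℓ ∣ q * M) (f : ℍ → ℂ)
    (hf : ∀ γ ∈ (Gamma0 (q * M) : Subgroup (GL (Fin 2) ℝ)), f ∣[k] γ = f) :
    heckeT k ℓ f ∣[k] D.W = heckeT k ℓ (f ∣[k] D.W) :=
  D.heckeT_slash_W k hq hℓN f hf

/-! ## 4. The trace from level `q M` to level `M` -/

/-- **Unfolding.**  The trace is the sum of `f ∣ ρ_x` over the projective line over `ZMod q`, where
`ρ_∞ = 1` and `ρ_j = [[a, a j + b], [M, M j + q]]`: a set of representatives of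
`Γ_0(q M) \ Γ_0(M)`. -/
theorem trace_def [Fact q.Prime] (D : H44.ALData q M) (k : ℤ) (f : ℍ → ℂ) :
    D.tr k f = (∑ x : OnePoint (ZMod q), f ∣[k] (mapGL ℝ (D.rho x) : GL (Fin 2) ℝ)) ∧
      D.rho ∞ = 1 ∧ ∀ j : ZMod q, (D.rho j : Matrix (Fin 2) (Fin 2) ℤ) =
        !![D.a, D.a * (j.val : ℕ) + D.b; (M : ℤ), (M : ℤ) * (j.val : ℕ) + (q : ℤ)] :=
  ⟨rfl, rfl, fun _ => rfl⟩

/-- **The trace is invariant under `Γ_0(M)`.** -/
theorem trace_invariant [Fact q.Prime] (D : H44.ALData q M) (k : ℤ)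
    (hqM : IsCoprime (q : ℤ) (M : ℤ)) (f : ℍ → ℂ)
    (hf : ∀ γ ∈ (Gamma0 (q * M) : Subgroup (GL (Fin 2) ℝ)), f ∣[k] γ = f)
    (g : SL(2, ℤ)) (hg : g ∈ Gamma0 M) :
    D.tr k f ∣[k] (mapGL ℝ g : GL (Fin 2) ℝ) = D.tr k f :=
  D.tr_slash k hqM f hf g hg

/-- **The formula `Tr f = f + U_q (f ∣ W_q)`** in weight 2 (`W_q [[1, j], [0, q]] = q ρ_j`). -/
theorem trace_eq [Fact q.Prime] (D : H44.ALData q M) (f : ℍ → ℂ) :
    D.tr 2 f = f + heckeU 2 q (f ∣[(2 : ℤ)] D.W) :=
  D.tr_eq f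

/-- **Change of level.**  A cusp form of level `N`, whose function is invariant under `Γ_0(M')`, is a
cusp form of level `M'` (both groups have the same cusps, the projective line over `ℚ`). -/
theorem exists_levelForm {N M' : ℕ} [NeZero N] [NeZero M'] (k : ℤ) (f : CuspForm (Gamma0 N) k)
    (hf : ∀ g ∈ Gamma0 M', ⇑f ∣[k] (mapGL ℝ g : GL (Fin 2) ℝ) = ⇑f) :
    ∃ g : CuspForm (Gamma0 M') k, (⇑g : ℍ → ℂ) = ⇑f :=
  ⟨H44.lowerCusp k f hf, rfl⟩

/-- **If `q ∣ M` the operator `U_q` itself lowers the level** from `q M` to `M` (any `q ≥ 1`, in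
particular not the situation `q ∤ M` of the rest of this file). -/
theorem heckeU_lowers (k : ℤ) [NeZero q] (hqM : q ∣ M) (f : ℍ → ℂ)
    (hf : ∀ γ ∈ (Gamma0 (q * M) : Subgroup (GL (Fin 2) ℝ)), f ∣[k] γ = f)
    (g : SL(2, ℤ)) (hg : g ∈ Gamma0 M) :
    heckeU k q f ∣[k] (mapGL ℝ g : GL (Fin 2) ℝ) = heckeU k q f :=
  H44.heckeU_slash_lower k hqM f hf g hg

/-- **Summary.**  `q` prime, `q ∤ M`.  There is an involution `w` of the weight 2 cusp forms of level
`q M`, commuting with the `T_ℓ`, `ℓ ∤ q M`, such that `f + U_q (w f)` is invariant under `Γ_0(M)` for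
every `f`. -/
theorem exists_atkinLehner (hq : q.Prime) (hqM : ¬ q ∣ M) [NeZero (q * M)] :
    ∃ w : CuspForm (Gamma0 (q * M)) 2 → CuspForm (Gamma0 (q * M)) 2,
      (∀ f, w (w f) = f) ∧
      (∀ (ℓ : ℕ) (hℓ : ℓ.Prime) (hℓN : ¬ ℓ ∣ q * M) f,
        w (CuspForm.heckeTLin 2 hℓ hℓN f) = CuspForm.heckeTLin 2 hℓ hℓN (w f)) ∧
      (∀ f, ∀ g ∈ Gamma0 M,
        ⇑(f + CuspForm.heckeULin 2 (dvd_mul_right q M) (w f)) ∣[(2 : ℤ)]
          (mapGL ℝ g : GL (Fin 2) ℝ) = ⇑(f + CuspForm.heckeULin 2 (dvd_mul_right q M) (w f))) := by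
  obtain ⟨D⟩ := H44.ALData.exists hq hqM
  exact ⟨D.wCusp 2, D.wCusp_wCusp, fun ℓ hℓ h f => D.wCusp_heckeTLin 2 hq hℓ h f,
    fun f g hg => D.trCusp_slash hq hqM f g hg⟩

/-! ## 5. Old-form descent: `a_q² ≠ 1` -/

/-- **Descent.**  `q` prime, `q ∤ M`.  A nonzero cusp form `f` of weight 2 and level `q M`, with
`U_q f = a f`, `a² ≠ 1`, and `T_ℓ f = lam ℓ f` for `ℓ ∤ q M`, gives a nonzero form `h` of level `M`
with `T_ℓ h = lam ℓ h` for `ℓ ∤ q M`.  Proof: `h` is the trace of `f` or of `f ∣ W_q`.  If both are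
zero, then `f ∣ W_q = -U_q f = -a f`, and `0 = f + U_q (f ∣ W_q) = (1 - a²) f`. -/
theorem exists_lower (hq : q.Prime) (hqM : ¬ q ∣ M) [NeZero M] [NeZero (q * M)]
    (f : CuspForm (Gamma0 (q * M)) 2) (hf : f ≠ 0) (a : ℂ) (ha : a ^ 2 ≠ 1)
    (hU : CuspForm.heckeULin 2 (dvd_mul_right q M) f = a • f)
    (lam : ℕ → ℂ) (hT : ∀ (ℓ : ℕ) (hℓ : ℓ.Prime) (hℓN : ¬ ℓ ∣ q * M),
      CuspForm.heckeTLin 2 hℓ hℓN f = lam ℓ • f) :
    ∃ h : CuspForm (Gamma0 M) 2, h ≠ 0 ∧ ∀ (ℓ : ℕ) (hℓ : ℓ.Prime) (_ : ¬ ℓ ∣ q * M)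
      (hℓM : ¬ ℓ ∣ M), CuspForm.heckeTLin 2 hℓ hℓM h = lam ℓ • h :=
  H44.exists_lower hq hqM f hf a ha hU lam hT

/-- **Descent for eigenforms.**  `q` prime, `q ∤ M`, `f` a normalised eigenform of weight 2 and level
`q M` with `a_q(f)² ≠ 1`.  There is a normalised eigenform `g` of level `M` with `a_ℓ(g) = a_ℓ(f)`
for all primes `ℓ ∤ q M`. -/
theorem exists_eigenform_lower (hq : q.Prime) (hqM : ¬ q ∣ M) (hM : M ≠ 0)
    {f : CuspForm (Gamma0 (q * M)) 2} (hf : f.IsNormalizedEigenform)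
    (ha : qCoeff f q ^ 2 ≠ 1) :
    ∃ g : CuspForm (Gamma0 M) 2, g.IsNormalizedEigenform ∧
      ∀ ℓ : ℕ, ℓ.Prime → ¬ ℓ ∣ q * M → qCoeff g ℓ = qCoeff f ℓ :=
  H44.goodEigensystemOccursAt_of_qCoeff_sq_ne_one hq hqM hM hf ha

/-! ## 6. The case `a_q² = 1` -/

/-- **No eigenvector of `g(τ) ↦ q g(q τ)`.**  A weight 2 cusp form `g` of level `M` with
`q g(q τ) = s g(τ)`, `s² = 1`, is zero: `|g(τ)| Im τ` would be invariant under `τ ↦ q τ`, but it tends
to zero at the cusp `∞`. -/
theorem eq_zero_of_slash_heckeDiag [NeZero M] (hq : q.Prime) (g : CuspForm (Gamma0 M) 2) (s : ℂ)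
    (hs : s ^ 2 = 1) (h : (⇑g : ℍ → ℂ) ∣[(2 : ℤ)] heckeDiagMatrix q = s • ⇑g) : g = 0 :=
  H88.RealP.eq_zero_of_slash_heckeDiag hq g s hs h

/-- **The sign of `W_q`.**  `q` prime, `q ∤ M`, `f` a cusp form of weight 2 and level `L = q M` with
`U_q f = s f`, `s² = 1`.  Then `f ∣ W_q = -s f` and the trace of `f` to level `M` is zero.  Proof: the
trace `g` of `f ∣ W_q` to level `M` is `(f ∣ W_q) + s f`, hence `g ∣ W_q = s g`; but on level `M` the
operator `W_q` is `g(τ) ↦ q g(q τ)`, so `g = 0`.  (`f` may be old at `q`, and nothing is assumed on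
the `T_ℓ`.) -/
theorem slash_W_and_trace {L : ℕ} [NeZero L] [NeZero M] (hL : L = q * M) (hq : q.Prime)
    (hqM : ¬ q ∣ M) (D : H44.ALData q M) (f : CuspForm (Gamma0 L) 2) (s : ℂ) (hs : s ^ 2 = 1)
    (hU : heckeU 2 q (⇑f : ℍ → ℂ) = s • (⇑f : ℍ → ℂ)) :
    (⇑f : ℍ → ℂ) ∣[(2 : ℤ)] D.W = (-s) • (⇑f : ℍ → ℂ) ∧
      (haveI : Fact q.Prime := ⟨hq⟩; D.tr 2 (⇑f : ℍ → ℂ) = 0) :=
  H88.RealP.slash_W_and_trace hL hq hqM D f s hs hU

/-! ## 7. From `f` to the Tate module of `J_0(M q)` -/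

open H94.BR H70.Coh in
/-- **Periods.**  `f` of weight 2 and level `M q`, `q ∤ M`, `U_q f = s f`, `s² = 1`.  The period
homomorphism `H48.per f : Γ_0(M q) → ℂ`, `γ ↦ ∫ f(z) dz` from `τ` to `γ τ`, is mapped to `-s` times
itself by the operator of `W_q`, and to zero by the operators `trF`, `nuF` of the two degeneracy maps
to level `M`.  (`homOp A h` is the operator on homomorphisms of a family `h` of matrices, see
`GuideEigen`, part 1; `H37.Tr.wFam` is the family of the one matrix `[[q x, y], [M q z, q t]]`, for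
integers `w = (x, y, z, t)` with `q x t - M y z = 1`, the elements of `H37.Tr.AL M q`.) -/
theorem periods [NeZero M] [NeZero (M * q)] [NeZero q] (hq : q.Prime) (hqM : ¬ q ∣ M)
    (f : CuspForm (Gamma0 (M * q)) 2) (s : ℂ) (hs : s ^ 2 = 1)
    (hU : heckeU 2 q (⇑f : ℍ → ℂ) = s • (⇑f : ℍ → ℂ)) :
    ∃ w : H37.Tr.AL M q,
      homOp ℂ (ι := gm (M * q)) (ι' := gm (M * q)) (H37.Tr.wFam (one_dvd M) hq.pos w)
        (H48.per f) = (-s) • H48.per f ∧
      homOp ℂ (trF M q) (H48.per f) = 0 ∧ homOp ℂ (nuF M hq) (H48.per f) = 0 :=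
  H88.RealP.period_facts hq hqM f s hs hU

/-- **Transfer of coefficients.**  `O'` a domain, `j : O' → F` and `ι : ℤ̄ → F` embeddings in a field
of characteristic zero (`ℤ̄` the ring of algebraic integers in `ℂ`), `x₀ ≠ 0` a complex number.  There
is an additive map `μ` from `ℂ` to the fraction field of `O'` with `μ(x₀) ≠ 0`, such that
`μ(a x) = α μ(x)` whenever `a ∈ ℤ̄`, `α ∈ O'` have the same image in `F`.  It turns the period
homomorphism of `f` into a homomorphism with values in `O'` (after multiplication by a constant). -/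
theorem exists_transfer {O' : Type*} [CommRing O'] [IsDomain O'] {F : Type*} [Field F] [CharZero F]
    (j : O' →+* F) (hj : Function.Injective j) (ι : integralClosure ℤ ℂ →+* F) {x₀ : ℂ}
    (hx₀ : x₀ ≠ 0) :
    ∃ μ : ℂ →+ FractionRing O', μ x₀ ≠ 0 ∧
      ∀ (a : integralClosure ℤ ℂ) (α : O'), ι a = j α → ∀ x : ℂ,
        μ ((a : ℂ) * x) = algebraMap O' (FractionRing O') α * μ x :=
  H88.RealP.exists_transfer j hj ι hx₀

/-- **Embedding a rank 2 representation.**  `A` a discrete valuation ring, `ρ` a representation of a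
group `G` on `A²` whose image spans `M_2(A)`, `X` a finitely generated torsion-free `A`-module with an
action of `G`, and `E ≠ 0` a `G`-stable saturated submodule, on which every `g` satisfies
`g² - tr ρ(g) g + det ρ(g) = 0`.  Then `A²` with the action `ρ` embeds in `E`, with image saturated
in `X`.  (Here `E` is the eigenspace of the Hecke operators in the Tate module.  Idea of the proof:
`GuideRealisation.embedding_saturated`.) -/
theorem exists_saturated_embedding {A : Type} [CommRing A] [IsDomain A] [IsDiscreteValuationRing A]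
    {G : Type*} [Group G] {X : Type*} [AddCommGroup X] [Module A X] [Module.Finite A X]
    [Module.IsTorsionFree A X] (ρ : G →* Module.End A (Fin 2 → A))
    (hspan : Submodule.span A (Set.range ρ) = ⊤) (σX : G →* Module.End A X) (E : Submodule A X)
    (hstab : ∀ g, ∀ x ∈ E, σX g x ∈ E) (hsat : ∀ (a : A) (x : X), a ≠ 0 → a • x ∈ E → x ∈ E)
    {w : X} (hw : w ∈ E) (hw0 : w ≠ 0)
    (hquad : ∀ g, ∀ x ∈ E, σX g (σX g x) - LinearMap.trace A (Fin 2 → A) (ρ g) • σX g x +
      LinearMap.det (ρ g) • x = 0) :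
    ∃ Φ : (Fin 2 → A) →ₗ[A] X, Function.Injective Φ ∧
      (∀ x, Φ x ∈ (IsLocalRing.maximalIdeal A • ⊤ : Submodule A X) →
        ∀ i, x i ∈ IsLocalRing.maximalIdeal A) ∧
      (∀ g x, Φ (ρ g x) = σX g (Φ x)) ∧ ∀ x, Φ x ∈ E :=
  H88.RealP.exists_saturated_embedding ρ hspan σX E hstab hsat hw hw0 hquad

/-- **Residual irreducibility** (`GuideResidual.resIrr_iff`: an element of order three with its
eigenvalues in the residue field, and no common eigenvector) implies that the image of `r` spans the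
algebra `M_2(O')`. -/
theorem span_of_resIrr {O' : Type} [CommRing O'] [IsLocalRing O'] {r : H53.GQ →* H53.M2 O'}
    (h2 : (2 : O') ∈ IsLocalRing.maximalIdeal O') (hr : H19LT.ResIrr r) :
    Submodule.span O' (Set.range r) = ⊤ :=
  H88.RealP.span_of_resIrr h2 hr

/-- **Realisation in the Tate module.**  `f` a normalised eigenform of weight 2 and level `M q`,
`q ∤ M`, `a_q(f) = s = ± 1` (`f` may be old at `q`), `r` a representation over the discrete valuation
ring `O'` of residue characteristic `p`, attached to `f` (`GuideResidual.attached_iff`), with image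
spanning `M_2(O')`.  Then `r` embeds Galois equivariantly in `O' ⊗ T_p J_0(M q)`, with saturated image;
the image is killed by both degeneracy maps to `J_0(M)`, and `w_q` acts on it as `-s`.  Proof: periods,
transfer, `T_p J_0(M q) = Hom(Γ_0(M q)/…, ℤ_p)` (`GuideEigen`, part 1), the relation of Eichler and
Shimura with the Frobenius density theorem, and the embedding above (the last two steps are
`GuideRealisation.realisation_vector`).  The local type at `q` follows by
`GuideResidualSteps.localType_of_realisation`. -/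
theorem realisation {p : ℕ} [Fact p.Prime] [NeZero M] [NeZero q] [NeZero (M * q)]
    (hq : q.Prime) (hqM : ¬ q ∣ M) (hc : M.Coprime q)
    {f : CuspForm (Gamma0 (M * q)) 2} (hf : f.IsNormalizedEigenform) {s : ℤ}
    (hs : s = 1 ∨ s = -1) (hfs : qCoeff f q = (s : ℂ))
    {O' : Type} [CommRing O'] [IsDomain O'] [IsDiscreteValuationRing O'] [CharZero O']
    [Algebra ℤ_[p] O'] (hp : (p : O') ∈ IsLocalRing.maximalIdeal O')
    {F : Type} [Field F] [CharZero F] {j : O' →+* F}
    {ι : integralClosure ℤ ℂ →+* F} {S : Finset ℕ} {r : H53.GQ →* H53.M2 O'}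
    (hr : H19LT.Attached f S j ι r) (hspan : Submodule.span O' (Set.range r) = ⊤) :
    ∃ Φ : (Fin 2 → O') →ₗ[O'] O' ⊗[ℤ_[p]] H30.TateMod p (JZero (M * q)),
      Function.Injective Φ ∧
      (∀ x, Φ x ∈ (IsLocalRing.maximalIdeal O' • ⊤ :
        Submodule O' (O' ⊗[ℤ_[p]] H30.TateMod p (JZero (M * q)))) →
        ∀ i, x i ∈ IsLocalRing.maximalIdeal O') ∧
      (∀ (g : H53.GQ) x, Φ ((r g).mulVec x) =
        (H30.galTate p (JZero (M * q)) g).baseChange O' (Φ x)) ∧
      (∀ (h : M * 1 ∣ M * q) x,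
        (H35.tateMap (p := p) (H67.degPush (M := M) (N := M * q) 1 h)).baseChange O' (Φ x) = 0) ∧
      (∀ (h : M * q ∣ M * q) x,
        (H35.tateMap (p := p) (H67.degPush (M := M) (N := M * q) q h)).baseChange O' (Φ x) = 0) ∧
      (∀ x, (H35.tateMap (p := p) (H67.wJ (R := M * q) M q rfl hc)).baseChange O' (Φ x) =
        ((-s : ℤ) : O') • Φ x) :=
  H88.RealP.real_plus hq hqM hc hf hs hfs hp hr hspan

/-! ## 8. The ramified case of M8 -/

/-- **The ramified case of M8 follows from the signed case**, at an odd prime `v`.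
`H19LT.M8Sign v` (`GuideResidual.m8_sign`): for every normalised eigenform `f` of level exactly
divisible by `v` with `a_v(f) = s = ± 1`, every attached residually irreducible `r` has type `s` at `v`.
`H19LT.M8Ram v` (`GuideResidual.m8_ramified`): if instead `r` is residually ramified at `v`, then `r`
has type `1` or `-1` at `v`.  Proof: if `a_v(f)² = 1` use the signed case; otherwise the eigenvalues of
`f` occur at a level prime to `v` (`exists_eigenform_lower`), and `r` is residually unramified at `v`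
(`GuideResidualSteps.residually_unramified`). -/
theorem ramified_case_of_signed_case {v : ℕ} (hv2 : v ≠ 2) (h : H19LT.M8Sign v) : H19LT.M8Ram v :=
  H34.LTOld.m8Ram_of_m8Sign hv2 h

end Fermat.Agent.Guide.AtkinLehner
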