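import Fermat.Agent.H32Real
import Fermat.Agent.H32Burnside

/-!
# Realisation of a Hecke Galois representation inside `K ⊗ T_p J`
-/

set_option autoImplicit false
set_option maxSynthPendingDepth 3

noncomputable section

open scoped TensorProduct

namespace Fermat.Agent.H32

open IsLocalRing CuspForm ModularCurve

section BaseChange

variable {T : Type} [CommRing T] [IsLocalRing T] (A : Type) [CommRing A] [IsLocalRing A]
  [Algebra T A] [IsLocalHom (algebraMap T A)]

/-- Base change of a representation along an algebra. -/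
def baseChangeAlg (ρ : GaloisRepAdic T) : GaloisRepAdic A where
  V := A ⊗[T] ρ.V
  finrank_eq := by rw [Module.finrank_baseChange, ρ.finrank_eq]
  ρ := { toFun := fun σ => (ρ.ρ σ).baseChange A
         map_one' := by rw [map_one, LinearMap.baseChange_one]
         map_mul' := fun σ τ => by rw [map_mul, LinearMap.baseChange_mul] }
  isAdicContinuous := by
    intro n
    obtain ⟨L, hL, h1⟩ := ρ.isAdicContinuous n
    refine ⟨L, hL, fun σ hσ w => ?_⟩
    have hmap : (maximalIdeal T ^ n).map (algebraMap T A) ≤ maximalIdeal A ^ n := by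
      rw [Ideal.map_pow]
      exact Ideal.pow_right_mono (Ideal.map_le_iff_le_comap.mpr fun a ha =>
        Ideal.mem_comap.mpr (map_nonunit (algebraMap T A) a ha)) n
    induction w using TensorProduct.induction_on with
    | zero => rw [map_zero, sub_zero]; exact Submodule.zero_mem _
    | add x y hx hy =>
      rw [map_add, add_sub_add_comm]
      exact Submodule.add_mem _ hx hy
    | tmul b v =>
      change (ρ.ρ σ).baseChange A (b ⊗ₜ[T] v) - b ⊗ₜ[T] v ∈ _
      rw [LinearMap.baseChange_tmul, ← TensorProduct.tmul_sub]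
      refine Submodule.smul_induction_on (p := fun x => b ⊗ₜ[T] x ∈
        (maximalIdeal A ^ n) • (⊤ : Submodule A (A ⊗[T] ρ.V))) (h1 σ hσ v) ?_ ?_
      · intro a ha w _
        rw [TensorProduct.tmul_smul, TensorProduct.smul_tmul', Algebra.smul_def, ← smul_eq_mul,
          ← TensorProduct.smul_tmul']
        exact Submodule.smul_mem_smul (hmap (Ideal.mem_map_of_mem _ ha)) Submodule.mem_top
      · intro x y hx hy
        rw [TensorProduct.tmul_add]
        exact Submodule.add_mem _ hx hy

theorem baseChangeAlg_ρ (ρ : GaloisRepAdic T) (σ : H31.GQ) :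
    (baseChangeAlg A ρ).ρ σ = (ρ.ρ σ).baseChange A := rfl

theorem charpoly_baseChangeAlg (ρ : GaloisRepAdic T) (σ : H31.GQ) :
    LinearMap.charpoly ((baseChangeAlg A ρ).ρ σ) =
      (LinearMap.charpoly (ρ.ρ σ)).map (algebraMap T A) :=
  LinearMap.charpoly_baseChange (ρ.ρ σ) A

omit [IsLocalHom (algebraMap T A)] [IsLocalRing T] [IsLocalRing A] in
theorem span_baseChange_eq_top {V G : Type*} [AddCommGroup V] [Module T V] [Module.Free T V]
    [Module.Finite T V] [Monoid G] (ρ : G → Module.End T V)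
    (h : Submodule.span T (Set.range ρ) = ⊤) :
    Submodule.span A (Set.range fun g => (ρ g).baseChange A) = ⊤ := by
  classical
  let b := Module.Free.chooseBasis T V
  have key : ∀ f : Module.End T V, f.baseChange A ∈
      Submodule.span A (Set.range fun g => (ρ g).baseChange A) := by
    intro f
    have hf : f ∈ Submodule.span T (Set.range ρ) := by rw [h]; trivial
    refine Submodule.span_induction (p := fun f _ => f.baseChange A ∈
      Submodule.span A (Set.range fun g => (ρ g).baseChange A)) ?_ ?_ ?_ ?_ hf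
    · rintro _ ⟨g, rfl⟩
      exact Submodule.subset_span ⟨g, rfl⟩
    · rw [LinearMap.baseChange_zero]; exact Submodule.zero_mem _
    · intro f g _ _ hf hg
      rw [LinearMap.baseChange_add]
      exact Submodule.add_mem _ hf hg
    · intro c f _ hf
      have : (c • f).baseChange A = algebraMap T A c • f.baseChange A := by
        rw [LinearMap.baseChange_smul, algebraMap_smul]
      rw [this]
      exact Submodule.smul_mem _ _ hf
  rw [eq_top_iff]
  intro f _
  let bA := Algebra.TensorProduct.basis A b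
  have h1 : f = ∑ i, ∑ j, (LinearMap.toMatrix bA bA f i j) •
      (Matrix.toLin b b (Matrix.single i j 1)).baseChange A := by
    apply (LinearMap.toMatrix bA bA).injective
    rw [map_sum]
    simp only [map_sum, map_smul, bA, LinearMap.toMatrix_baseChange, LinearMap.toMatrix_toLin]
    ext k l
    simp only [Matrix.sum_apply, Matrix.smul_apply, Matrix.map_apply, Matrix.single_apply]
    rw [Finset.sum_eq_single k, Finset.sum_eq_single l]
    · simp
    · intro j _ hj
      simp [hj]
    · intro h; exact absurd (Finset.mem_univ _) h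
    · intro i _ hi
      refine Finset.sum_eq_zero fun j _ => ?_
      simp [hi]
    · intro h; exact absurd (Finset.mem_univ _) h
  rw [h1]
  exact Submodule.sum_mem _ fun i _ => Submodule.sum_mem _ fun j _ =>
    Submodule.smul_mem _ _ (key _)

end BaseChange

/-- A field containing a domain is flat over it. -/
theorem flat_of_isDomain (A K : Type*) [CommRing A] [IsDomain A] [Field K] [Algebra A K]
    [FaithfulSMul A K] : Module.Flat A K := by
  let _ : Algebra (FractionRing A) K := FractionRing.liftAlgebra A K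
  have : IsScalarTower A (FractionRing A) K := FractionRing.isScalarTower_liftAlgebra A K
  exact Module.Flat.trans A (FractionRing A) K

theorem cancelBaseChange_baseChange {R A K M : Type*} [CommRing R] [CommRing A] [CommRing K]
    [Algebra R A] [Algebra A K] [Algebra R K] [IsScalarTower R A K] [AddCommGroup M] [Module R M]
    (f : Module.End R M) (k : K) (y : A ⊗[R] M) :
    TensorProduct.AlgebraTensorModule.cancelBaseChange R A K K M (k ⊗ₜ[A] (f.baseChange A y)) =
      f.baseChange K (TensorProduct.AlgebraTensorModule.cancelBaseChange R A K K M (k ⊗ₜ[A] y)) := by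
  induction y using TensorProduct.induction_on with
  | zero => simp
  | add x y hx hy => rw [map_add, TensorProduct.tmul_add, map_add, hx, hy, TensorProduct.tmul_add,
      map_add, map_add]
  | tmul a m =>
    rw [LinearMap.baseChange_tmul, TensorProduct.AlgebraTensorModule.cancelBaseChange_tmul,
      TensorProduct.AlgebraTensorModule.cancelBaseChange_tmul, LinearMap.baseChange_tmul]

theorem cancelBaseChange_smul {R A K M : Type*} [CommRing R] [CommRing A] [CommRing K]
    [Algebra R A] [Algebra A K] [Algebra R K] [IsScalarTower R A K] [AddCommGroup M] [Module R M]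
    (a : A) (k : K) (y : A ⊗[R] M) :
    TensorProduct.AlgebraTensorModule.cancelBaseChange R A K K M (k ⊗ₜ[A] (a • y)) =
      algebraMap A K a • (TensorProduct.AlgebraTensorModule.cancelBaseChange R A K K M
        (k ⊗ₜ[A] y)) := by
  rw [← TensorProduct.smul_tmul, Algebra.smul_def, ← smul_eq_mul, ← TensorProduct.smul_tmul',
    map_smul]

section Field

variable {p : ℕ} [Fact p.Prime] {N : ℕ} [NeZero N] {S : Finset ℕ}
  {T : Type} [CommRing T] [IsLocalRing T] [IsNoetherianRing T] [Algebra ℤ_[p] T]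
  {TJ : Type*} [AddCommGroup TJ] [Module ℤ_[p] TJ] [Module.Finite ℤ_[p] TJ]
  [Module.Free ℤ_[p] TJ]

/-- **Realisation** of a Hecke Galois representation in `K ⊗ T_p J`. -/
theorem exists_realization (ρT : H31.GQ →* Module.End ℤ_[p] TJ)
    (hcont : ∀ n : ℕ, ∃ L : IntermediateField ℚ (AlgebraicClosure ℚ), FiniteDimensional ℚ L ∧
      ∀ σ : H31.GQ, (∀ x ∈ L, σ x = x) → ∀ x : TJ, ∃ y : TJ, ρT σ x - x = (p : ℤ_[p]) ^ n • y)
    (act : MvPolynomial (H31.GoodPrimes N (↑S : Set ℕ)) ℤ →+* Module.End ℤ_[p] TJ)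
    (hcomm : ∀ P σ, Commute (act P) (ρT σ))
    (hfrob : ∀ (a : H31.GoodPrimes N (↑S : Set ℕ)) (A : ValuationSubring (AlgebraicClosure ℚ)),
      A.LiesOverPrime (a.1 : ℕ) → ∀ φ : H31.GQ, A.IsFrobeniusAt φ (a.1 : ℕ) →
        ∀ x : TJ, ρT φ (ρT φ x) - act (MvPolynomial.X a) (ρT φ x) + (a.1 : ℕ) • x = 0)
    (hfaith : ∃ c u : ℕ, u ≠ 0 ∧
      ∀ (n : ℕ) (P : MvPolynomial (H31.GoodPrimes N (↑S : Set ℕ)) ℤ),
        (∀ x : TJ, ∃ y : TJ, act P x = (p : ℤ_[p]) ^ n • y) →
          ∃ y : CuspForm.heckeAlgebra N 2 (↑S : Set ℕ),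
            (u : CuspForm.heckeAlgebra N 2 (↑S : Set ℕ)) * H31.evHecke N (↑S : Set ℕ) P =
              (p : CuspForm.heckeAlgebra N 2 (↑S : Set ℕ)) ^ (n - c) * y)
    (hNS : ∀ q : ℕ, q.Prime → q ∣ N → q ∈ S)
    (hpT : (p : T) ∈ maximalIdeal T) (χ : heckeAlgebra N 2 (↑S : Set ℕ) →+* T)
    (ρ : GaloisRepAdic T)
    (hchar : ∀ (ℓ : ℕ) (hℓ : ℓ.Prime) (hℓN : ¬ ℓ ∣ N) (hℓS : ℓ ∉ (↑S : Set ℕ)),
      ∀ B : ValuationSubring (AlgebraicClosure ℚ), B.LiesOverPrime ℓ →
      ∀ σ : H31.GQ, B.IsFrobeniusAt σ ℓ →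
        LinearMap.charpoly (ρ.ρ σ) = Polynomial.X ^ 2 -
          Polynomial.C (χ (heckeAlgebra.T hℓ hℓN hℓS)) * Polynomial.X + Polynomial.C ((ℓ : T)))
    (hirr : ρ.residual.IsAbsolutelyIrreducible)
    {K : Type} [Field K] [CharZero K] [Algebra T K] [Algebra ℤ_[p] K] [IsScalarTower ℤ_[p] T K] :
    ∃ F : K ⊗[T] ρ.V →ₗ[K] K ⊗[ℤ_[p]] TJ, Function.Injective F ∧
      (∀ g x, F ((ρ.ρ g).baseChange K x) = (ρT g).baseChange K (F x)) ∧
      (∀ P x, (act P).baseChange K (F x) =
        algebraMap T K (χ (H31.evHecke N (↑S : Set ℕ) P)) • F x) := by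
  let A : Subalgebra T K := ⊥
  have hsurj : Function.Surjective (algebraMap T A) := by
    rintro ⟨x, hx⟩
    obtain ⟨t, rfl⟩ := Algebra.mem_bot.mp hx
    exact ⟨t, rfl⟩
  have : IsLocalRing A := IsLocalRing.of_surjective' (algebraMap T A) hsurj
  have : IsNoetherianRing A := isNoetherianRing_of_surjective T A (algebraMap T A) hsurj
  have : IsLocalHom (algebraMap T A) := IsLocalHom.of_surjective _ hsurj
  have : CharZero A := inferInstance
  have : IsDomain A := inferInstance
  have hpA : (p : A) ∈ maximalIdeal A := by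
    have h1 : algebraMap T A (p : T) ∈ maximalIdeal A := map_nonunit (algebraMap T A) _ hpT
    rwa [map_natCast] at h1
  have hsp : Submodule.span A (Set.range (baseChangeAlg A ρ).ρ) = ⊤ :=
    span_baseChange_eq_top A (fun g => ρ.ρ g) (span_range_eq_top ρ hirr)
  obtain ⟨F, hF, hFg, hFe⟩ := exists_realization_domain (A := A) ρT hcont act hcomm hfrob hfaith
    hNS hpA ((algebraMap T A).comp χ) (baseChangeAlg A ρ) (by
      intro ℓ hℓ hℓN hℓS B hB σ hσ
      rw [charpoly_baseChangeAlg, hchar ℓ hℓ hℓN hℓS B hB σ hσ]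
      simp [Polynomial.map_sub, Polynomial.map_add, Polynomial.map_mul]) hsp
  have : IsScalarTower ℤ_[p] A K := inferInstance
  have hflat : Module.Flat A K := flat_of_isDomain A K
  let e1 := TensorProduct.AlgebraTensorModule.cancelBaseChange T A K K ρ.V
  let e2 := TensorProduct.AlgebraTensorModule.cancelBaseChange ℤ_[p] A K K TJ
  let F' : A ⊗[T] ρ.V →ₗ[A] A ⊗[ℤ_[p]] TJ := F
  have hF'g : ∀ (g : H31.GQ) (v : A ⊗[T] ρ.V), F' ((ρ.ρ g).baseChange A v) =
      (ρT g).baseChange A (F' v) := fun g v => hFg g v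
  let G : K ⊗[T] ρ.V →ₗ[K] K ⊗[ℤ_[p]] TJ :=
    e2.toLinearMap ∘ₗ (F'.baseChange K) ∘ₗ e1.symm.toLinearMap
  have hG : ∀ (k : K) (v : A ⊗[T] ρ.V), G (e1 (k ⊗ₜ[A] v)) = e2 (k ⊗ₜ[A] (F' v)) := by
    intro k v
    show e2 (F'.baseChange K (e1.symm (e1 (k ⊗ₜ[A] v)))) = _
    rw [LinearEquiv.symm_apply_apply, LinearMap.baseChange_tmul]
  refine ⟨G, ?_, ?_, ?_⟩
  · have h1 : Function.Injective (F'.baseChange K) :=
      Module.Flat.lTensor_preserves_injective_linearMap (M := K) F' hF
    exact e2.injective.comp (h1.comp e1.symm.injective)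
  · intro g x
    obtain ⟨y, rfl⟩ := e1.surjective x
    induction y using TensorProduct.induction_on with
    | zero => simp
    | add x y hx hy => rw [map_add, map_add, map_add, hx, hy, map_add, map_add]
    | tmul k v =>
      rw [← cancelBaseChange_baseChange, hG, hG, hF'g, cancelBaseChange_baseChange]
  · intro P x
    obtain ⟨y, rfl⟩ := e1.surjective x
    induction y using TensorProduct.induction_on with
    | zero => simp
    | add x y hx hy => rw [map_add, map_add, map_add, hx, hy, smul_add]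
    | tmul k v =>
      have h1 : (act P).baseChange A (F' v) =
        (((algebraMap T A).comp χ) (H31.evHecke N (↑S : Set ℕ) P)) • F' v := hFe v P
      rw [hG, ← cancelBaseChange_baseChange, h1]
      exact cancelBaseChange_smul (R := ℤ_[p]) (A := A) (K := K) _ k (F' v)

end Field

section Datum

open H30

/-- **Realisation** of the representation of a `HeckeGaloisRepDatum` inside the Tate module of a
Galois-Hecke module `J` (such as `J_0(N)`), for every point `T → K` of the Hecke ring in a field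
of characteristic zero. -/
theorem exists_realization_datum {p : ℕ} [Fact p.Prime] {N : ℕ} [NeZero N] {S : Finset ℕ}
    {𝒪 : Type} [CommRing 𝒪] [IsDomain 𝒪] [IsDiscreteValuationRing 𝒪]
    [IsAdicComplete (IsLocalRing.maximalIdeal 𝒪) 𝒪]
    {θ : CuspForm.heckeAlgebra N 2 (↑S : Set ℕ) →+* IsLocalRing.ResidueField 𝒪}
    {T : Type} [CommRing T] [IsLocalRing T] [IsNoetherianRing T]
    [IsAdicComplete (IsLocalRing.maximalIdeal T) T] [Algebra 𝒪 T] [IsLocalHom (algebraMap 𝒪 T)]
    [Module.Finite 𝒪 T] [Module.Free 𝒪 T]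
    (hp𝒪 : (p : 𝒪) ∈ IsLocalRing.maximalIdeal 𝒪) (hpS : p ∈ S)
    (hNS : ∀ q : ℕ, q.Prime → q ∣ N → q ∈ S)
    (H : CuspForm.HeckeGaloisRepDatum N (↑S : Set ℕ) 𝒪 θ T)
    {J : Type*} [AddCommGroup J] [Module HeckeAlg J] [DistribMulAction H31.GQ J]
    [SMulCommClass H31.GQ HeckeAlg J]
    (hfin : {x : J | p • x = 0}.Finite)
    (hF : FrobeniusQuadratic (K := ℚ) (L := AlgebraicClosure ℚ) N p J)
    (hlev : H31.FiniteLevel p J) (hfaith : H31.HeckeFaithful N (↑S : Set ℕ) p J)
    {K : Type} [Field K] [CharZero K] [Algebra ℤ_[p] T] [Algebra T K] [Algebra ℤ_[p] K]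
    [IsScalarTower ℤ_[p] T K] :
    ∃ F : K ⊗[T] H.ρ.V →ₗ[K] K ⊗[ℤ_[p]] TateMod p J, Function.Injective F ∧
      (∀ g x, F ((H.ρ.ρ g).baseChange K x) = (galTate p J g).baseChange K (F x)) ∧
      (∀ P x, (actTate p J N (↑S : Set ℕ) P).baseChange K (F x) =
        algebraMap T K (H.π (H31.evHecke N (↑S : Set ℕ) P)) • F x) := by
  have := TateMod.finite_of_finite_torsion (p := p) (J := J) hfin
  have := TateMod.free_of_finite_torsion (p := p) (J := J) hfin
  have hgood : ∀ r : ℕ, r.Prime → ¬ r ∣ N → r ≠ p → ¬ r ∣ N * p := by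
    intro r hr hrN hrp h
    rcases hr.dvd_mul.mp h with h | h
    · exact hrN h
    · exact hrp ((Nat.prime_dvd_prime_iff_eq hr Fact.out).mp h)
  have hpT : (p : T) ∈ IsLocalRing.maximalIdeal T := by
    have h1 : algebraMap 𝒪 T (p : 𝒪) ∈ IsLocalRing.maximalIdeal T :=
      map_nonunit (algebraMap 𝒪 T) _ hp𝒪
    rwa [map_natCast] at h1
  refine exists_realization (T := T) (TJ := TateMod p J) (galTate p J)
    (galTate_continuous hlev) (actTate p J N (↑S : Set ℕ)) (actTate_commute N (↑S : Set ℕ))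
    ?_ ?_ hNS hpT H.π H.ρ H.charpoly_frob H.residual_absIrr
  · intro a A hA φ hφ x
    have hap : (a.1 : ℕ) ≠ p := by
      intro h
      exact a.2.2 (by rw [h]; simpa using hpS)
    have h := galTate_frobenius (p := p) (J := J) hF a.1.2 (hgood _ a.1.2 a.2.1 hap) hA hφ
    have h1 := LinearMap.congr_fun h x
    simp only [LinearMap.add_apply, LinearMap.sub_apply, Module.End.mul_apply,
      LinearMap.smul_apply, Module.End.one_apply, LinearMap.zero_apply] at h1
    have h2 : actTate p J N (↑S : Set ℕ) (MvPolynomial.X a) = heckeTate p J (heckeGen a.1) := by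
      show heckeTate p J (H31.inclHecke N (↑S : Set ℕ) (MvPolynomial.X a)) = _
      rw [H31.inclHecke_X]
    rw [h2]
    exact h1
  · obtain ⟨c, u, hu, h⟩ := actTate_faithful (p := p) (J := J) (N := N) (S := (↑S : Set ℕ)) hfin hfaith
    refine ⟨c, u, ?_, h⟩
    rintro rfl
    exact hu (dvd_zero p)

end Datum

end Fermat.Agent.H32
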