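import Fermat.Agent.H31Inputs
import Fermat.Agent.H32RealK
import Fermat.Agent.H35S30
import Mathlib.RingTheory.Flat.Basic
import Mathlib.LinearAlgebra.TensorProduct.Finiteness

/-!
# Homomorphisms from the representation of a Hecke-Galois datum to the Tate module, one for each
point of the Hecke ring
-/

set_option autoImplicit false
set_option linter.style.haveILetI false

noncomputable section

open IsLocalRing TensorProduct

namespace Fermat.Agent.H89Point

section Finite

/-- A complete discrete valuation ring of characteristic zero with finite residue field of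
characteristic `p` is finite over `ℤ_p`. -/
theorem finite_padic {p : ℕ} [Fact p.Prime] (O : Type*) [CommRing O] [IsDomain O]
    [IsDiscreteValuationRing O] [IsAdicComplete (maximalIdeal O) O] [Finite (ResidueField O)]
    [CharZero O] (hp : (p : O) ∈ maximalIdeal O) [Algebra ℤ_[p] O] : Module.Finite ℤ_[p] O := by
  classical
  have hp0 : (p : O) ≠ 0 := Nat.cast_ne_zero.mpr (Fact.out : p.Prime).ne_zero
  -- `O / p` is finite
  obtain ⟨ϖ, hϖ⟩ := IsDiscreteValuationRing.exists_irreducible O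
  obtain ⟨n, hn⟩ := IsDiscreteValuationRing.associated_pow_irreducible hp0 hϖ
  have hspan : Ideal.span {(p : O)} = maximalIdeal O ^ n := by
    rw [hϖ.maximalIdeal_eq, Ideal.span_singleton_pow]
    exact Ideal.span_singleton_eq_span_singleton.mpr hn
  have : Finite (O ⧸ maximalIdeal O) := inferInstanceAs (Finite (ResidueField O))
  have hfin : Finite (O ⧸ Ideal.span {(p : O)}) := by
    rw [hspan]
    exact Ideal.finite_quotient_pow (IsNoetherian.noetherian _) n
  have : Fintype (O ⧸ Ideal.span {(p : O)}) := Fintype.ofFinite _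
  let Q := O ⧸ Ideal.span {(p : O)}
  let g : Q → O := Quotient.out
  have hg : ∀ y : Q, Ideal.Quotient.mk _ (g y) = y := fun y => Quotient.out_eq y
  let f : (Q → ℤ_[p]) →ₗ[ℤ_[p]] O := Fintype.linearCombination ℤ_[p] g
  have hmax : maximalIdeal ℤ_[p] = Ideal.span {(p : ℤ_[p])} := PadicInt.maximalIdeal_eq_span_p
  have hprec : IsAdicComplete (Ideal.span {(p : ℤ_[p])}) (Q → ℤ_[p]) := by
    rw [← hmax]
    exact IsAdicComplete.of_module_finite _ _
  have hsm : ∀ (n : ℕ) (x : O), x ∈ (Ideal.span {(p : ℤ_[p])} ^ n • ⊤ : Submodule ℤ_[p] O) →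
      x ∈ maximalIdeal O ^ n := by
    intro n x hx
    induction hx using Submodule.smul_induction_on' with
    | smul a ha y _ =>
      rw [Ideal.span_singleton_pow, Ideal.mem_span_singleton] at ha
      obtain ⟨b, rfl⟩ := ha
      rw [Algebra.smul_def, map_mul, map_pow, map_natCast, mul_assoc]
      exact Ideal.mul_mem_right _ _ (Ideal.pow_mem_pow hp n)
    | add x _ y _ hx hy => exact Ideal.add_mem _ hx hy
  have hhaus : IsHausdorff (Ideal.span {(p : ℤ_[p])}) O := ⟨fun x hx => by
    refine IsHausdorff.haus (I := maximalIdeal O) inferInstance x fun n => ?_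
    rw [SModEq.zero, smul_eq_mul, Ideal.mul_top]
    exact hsm n x (SModEq.zero.mp (hx n))⟩
  have hsurj : Function.Surjective f := by
    refine surjective_of_mkQ_comp_surjective (I := Ideal.span {(p : ℤ_[p])}) ?_
    intro y
    obtain ⟨x, rfl⟩ := Submodule.mkQ_surjective _ y
    refine ⟨Pi.single (Ideal.Quotient.mk _ x) 1, ?_⟩
    rw [LinearMap.comp_apply, Fintype.linearCombination_apply_single, one_smul,
      ← sub_eq_zero, ← map_sub, Submodule.mkQ_apply, Submodule.Quotient.mk_eq_zero]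
    have h1 : g (Ideal.Quotient.mk _ x) - x ∈ Ideal.span {(p : O)} := by
      rw [← Ideal.Quotient.eq, hg]
    obtain ⟨c, hc⟩ := Ideal.mem_span_singleton.mp h1
    rw [hc]
    have h2 : (p : O) * c = (p : ℤ_[p]) • c := by
      rw [Algebra.smul_def, map_natCast]
    rw [h2]
    exact Submodule.smul_mem_smul (Ideal.mem_span_singleton_self _) trivial
  exact Module.Finite.of_surjective f hsurj

end Finite

section Abs

theorem algebraMap_padic_injective {p : ℕ} [Fact p.Prime] {K : Type*} [Field K] [CharZero K]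
    [Algebra ℤ_[p] K] : Function.Injective (algebraMap ℤ_[p] K) := by
  rw [injective_iff_map_eq_zero]
  intro x hx
  by_contra hne
  have h1 := PadicInt.unitCoeff_spec hne
  rw [h1, map_mul, map_pow, map_natCast] at hx
  have h2 : IsUnit (algebraMap ℤ_[p] K (PadicInt.unitCoeff hne : ℤ_[p])) :=
    (PadicInt.unitCoeff hne).isUnit.map _
  rcases mul_eq_zero.mp hx with h | h
  · exact h2.ne_zero h
  · have h4 : (p : K) = 0 := eq_zero_of_pow_eq_zero h
    exact (Fact.out : p.Prime).ne_zero (by exact_mod_cast h4)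

/-- nonzero elements of `M ⊗ N`, `M` finite free, are detected by functionals on `M` -/
theorem exists_functional {R M N : Type*} [CommRing R] [AddCommGroup M] [Module R M]
    [Module.Free R M] [Module.Finite R M] [AddCommGroup N] [Module R N] {x : M ⊗[R] N}
    (hx : x ≠ 0) : ∃ l : M →ₗ[R] R, l.rTensor N x ≠ 0 := by
  classical
  by_contra hcon
  push Not at hcon
  apply hx
  let c := Module.Free.chooseBasis R M
  have key : ∀ y : M ⊗[R] N, y = ∑ j, c j ⊗ₜ[R] (TensorProduct.lid R N ((c.coord j).rTensor N y)) := by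
    intro y
    induction y with
    | zero => simp
    | tmul a b =>
      simp only [LinearMap.rTensor_tmul, TensorProduct.lid_tmul]
      calc a ⊗ₜ[R] b = (∑ j, c.repr a j • c j) ⊗ₜ[R] b := by rw [c.sum_repr]
        _ = _ := by
          rw [TensorProduct.sum_tmul]
          refine Finset.sum_congr rfl fun j _ => ?_
          rw [TensorProduct.smul_tmul]
          rfl
    | add u v hu hv =>
      conv_lhs => rw [hu, hv]
      rw [← Finset.sum_add_distrib]
      refine Finset.sum_congr rfl fun j _ => ?_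
      rw [map_add, map_add, TensorProduct.tmul_add]
  rw [key x]
  refine Finset.sum_eq_zero fun j _ => ?_
  rw [hcon (c.coord j), map_zero, TensorProduct.tmul_zero]

theorem exists_hom_abs {p : ℕ} [Fact p.Prime] {T K V TM : Type*} [CommRing T] [Field K]
    [CharZero K] [AddCommGroup V] [Module T V] [Module.Finite T V] [Algebra ℤ_[p] T]
    [Module.Finite ℤ_[p] T] [Algebra T K] [Algebra ℤ_[p] K] [IsScalarTower ℤ_[p] T K]
    [AddCommGroup TM] [Module ℤ_[p] TM] [Module.Free ℤ_[p] TM] [Module.Finite ℤ_[p] TM]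
    (F : K ⊗[T] V →ₗ[K] K ⊗[ℤ_[p]] TM) (hF : Function.Injective F)
    (hV : Nontrivial (K ⊗[T] V)) {G : Type*} (ρ : G → Module.End T V)
    (τ : G → Module.End ℤ_[p] TM)
    (hρ : ∀ g x, F ((ρ g).baseChange K x) = (τ g).baseChange K (F x)) :
    ∃ h : V →+ TM, h ≠ 0 ∧ (∀ g v, h (ρ g v) = τ g (h v)) ∧
      ∀ t : T, algebraMap T K t = 0 → ∀ v, h (t • v) = 0 := by
  classical
  letI : Module ℤ_[p] V := Module.compHom V (algebraMap ℤ_[p] T)
  haveI : IsScalarTower ℤ_[p] T V := ⟨fun a t v => by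
    rw [Algebra.smul_def, mul_smul]
    rfl⟩
  haveI : Module.Finite ℤ_[p] V := Module.Finite.trans T V
  have hinj : Function.Injective (algebraMap ℤ_[p] K) := algebraMap_padic_injective
  have hsmul : ∀ (a : ℤ_[p]) (v : V), a • v = algebraMap ℤ_[p] T a • v := fun _ _ => rfl
  -- the additive map `v ↦ F (1 ⊗ v)`
  let G₀ : V →ₗ[ℤ_[p]] K ⊗[ℤ_[p]] TM :=
    { toFun := fun v => F (1 ⊗ₜ v)
      map_add' := fun a b => by rw [TensorProduct.tmul_add, map_add]
      map_smul' := fun a v => by
        rw [RingHom.id_apply, hsmul, TensorProduct.tmul_smul, TensorProduct.smul_tmul',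
          Algebra.smul_def, mul_one]
        have h1 : (algebraMap T K (algebraMap ℤ_[p] T a)) ⊗ₜ[T] v =
            (algebraMap T K (algebraMap ℤ_[p] T a)) • ((1 : K) ⊗ₜ[T] v) := by
          rw [TensorProduct.smul_tmul', smul_eq_mul, mul_one]
        rw [h1, map_smul, ← IsScalarTower.algebraMap_apply, algebraMap_smul] }
  have hG₀ : ∀ v, G₀ v = F (1 ⊗ₜ v) := fun _ => rfl
  -- it is nonzero
  obtain ⟨v₀, hv₀⟩ : ∃ v, G₀ v ≠ 0 := by
    by_contra hcon
    push Not at hcon
    have h0 : F = 0 := by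
      refine TensorProduct.AlgebraTensorModule.ext fun a v => ?_
      have h1 : a ⊗ₜ[T] v = a • ((1 : K) ⊗ₜ[T] v) := by
        rw [TensorProduct.smul_tmul', smul_eq_mul, mul_one]
      rw [h1, map_smul, ← hG₀, hcon, smul_zero, LinearMap.zero_apply]
    obtain ⟨x, hx⟩ := exists_ne (0 : K ⊗[T] V)
    exact hx (hF (by rw [h0]; rfl))
  -- a finite submodule `K₀` of `K`
  obtain ⟨s, hs⟩ := (Module.Finite.fg_top : (⊤ : Submodule ℤ_[p] V).FG)
  obtain ⟨K₀, hK₀, hsub⟩ := TensorProduct.exists_finite_submodule_left_of_setFinite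
    (G₀ '' (s : Set V)) ((Finset.finite_toSet s).image _)
  let ι : K₀ ⊗[ℤ_[p]] TM →ₗ[ℤ_[p]] K ⊗[ℤ_[p]] TM := K₀.subtype.rTensor TM
  have hι : Function.Injective ι :=
    Module.Flat.rTensor_preserves_injective_linearMap _ K₀.subtype_injective
  have hrange : ∀ v, G₀ v ∈ LinearMap.range ι := by
    intro v
    have h1 : Submodule.span ℤ_[p] (s : Set V) ≤ (LinearMap.range ι).comap G₀ := by
      rw [Submodule.span_le]
      intro w hw
      exact hsub ⟨w, hw, rfl⟩
    rw [hs] at h1
    exact h1 trivial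
  let G₁ : V →ₗ[ℤ_[p]] K₀ ⊗[ℤ_[p]] TM :=
    (LinearEquiv.ofInjective ι hι).symm.toLinearMap ∘ₗ (G₀.codRestrict _ hrange)
  have hG₁ : ∀ v, ι (G₁ v) = G₀ v := by
    intro v
    have h1 := (LinearEquiv.ofInjective ι hι).apply_symm_apply (G₀.codRestrict _ hrange v)
    exact congrArg Subtype.val h1
  have hne : G₁ v₀ ≠ 0 := by
    intro h0
    apply hv₀
    rw [← hG₁, h0, map_zero]
  haveI : Module.IsTorsionFree ℤ_[p] K := Module.IsTorsionFree.of_smul_eq_zero fun a x h => by
    rw [Algebra.smul_def] at h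
    rcases mul_eq_zero.mp h with h | h
    · left
      exact hinj (by rw [h, map_zero])
    · exact Or.inr h
  haveI : Module.Free ℤ_[p] K₀ := Module.free_of_finite_type_torsion_free'
  obtain ⟨l, hl⟩ := exists_functional hne
  let h : V →ₗ[ℤ_[p]] TM := (TensorProduct.lid ℤ_[p] TM).toLinearMap ∘ₗ l.rTensor TM ∘ₗ G₁
  have hh : ∀ v, h v = TensorProduct.lid ℤ_[p] TM (l.rTensor TM (G₁ v)) := fun _ => rfl
  -- equivariance of `G₁`
  have heq : ∀ g v, G₁ (ρ g v) = (τ g).lTensor K₀ (G₁ v) := by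
    intro g v
    apply hι
    rw [hG₁, hG₀]
    have h1 : (1 : K) ⊗ₜ[T] (ρ g v) = (ρ g).baseChange K ((1 : K) ⊗ₜ[T] v) := by
      rw [LinearMap.baseChange_tmul]
    rw [h1, hρ, ← hG₀, ← hG₁]
    have h2 : ∀ y : K₀ ⊗[ℤ_[p]] TM, (τ g).baseChange K (ι y) = ι ((τ g).lTensor K₀ y) := by
      intro y
      induction y with
      | zero => simp
      | tmul a b => rfl
      | add u v hu hv => rw [map_add, map_add, hu, hv, map_add, map_add]
    exact h2 _
  refine ⟨h.toAddMonoidHom, ?_, ?_, ?_⟩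
  · intro h0
    have h1 : h v₀ = 0 := DFunLike.congr_fun h0 v₀
    rw [hh] at h1
    exact hl ((LinearEquiv.map_eq_zero_iff _).mp h1)
  · intro g v
    show h (ρ g v) = τ g (h v)
    rw [hh, hh, heq]
    generalize G₁ v = y
    induction y with
    | zero => simp
    | tmul a b => simp
    | add u w hu hw => simp only [map_add, hu, hw]
  · intro t ht v
    show h (t • v) = 0
    have h1 : G₁ (t • v) = 0 := by
      apply hι
      rw [hG₁, hG₀, map_zero, TensorProduct.tmul_smul, TensorProduct.smul_tmul', Algebra.smul_def,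
        ht, zero_mul, TensorProduct.zero_tmul, map_zero]
    rw [hh, h1, map_zero, map_zero]

end Abs

section Main

open H30 H31 ModularCurve

variable {p : ℕ} [Fact p.Prime] {N : ℕ} [NeZero N] {S : Finset ℕ}
  {𝒪 : Type} [CommRing 𝒪] [IsDomain 𝒪] [IsDiscreteValuationRing 𝒪]
  [IsAdicComplete (IsLocalRing.maximalIdeal 𝒪) 𝒪]
  {θ : CuspForm.heckeAlgebra N 2 (↑S : Set ℕ) →+* IsLocalRing.ResidueField 𝒪}
  {T : Type} [CommRing T] [IsLocalRing T] [IsNoetherianRing T]
  [IsAdicComplete (IsLocalRing.maximalIdeal T) T] [Algebra 𝒪 T] [IsLocalHom (algebraMap 𝒪 T)]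
  [Module.Finite 𝒪 T] [Module.Free 𝒪 T]

/-- **Realisation at a point**: for every point `ψ` of the Hecke ring in a field there is a nonzero
Galois equivariant map from the representation to the Tate module of `J₀(N)` which factors through
`ψ`. -/
theorem exists_hom_of_point [Finite (IsLocalRing.ResidueField 𝒪)] [CharZero 𝒪]
    (hp𝒪 : (p : 𝒪) ∈ IsLocalRing.maximalIdeal 𝒪) (hpS : p ∈ S)
    (hNS : ∀ q : ℕ, q.Prime → q ∣ N → q ∈ S)
    (H : CuspForm.HeckeGaloisRepDatum N (↑S : Set ℕ) 𝒪 θ T)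
    {K : Type} [Field K] [Algebra 𝒪 K] [FaithfulSMul 𝒪 K] (ψ : T →ₐ[𝒪] K) :
    ∃ h : H.ρ.V →+ H30.TateMod p (JZero N), h ≠ 0 ∧
      (∀ σ v, h (H.ρ.ρ σ v) = H30.galTate p (JZero N) σ (h v)) ∧
      (∀ t : T, ψ t = 0 → ∀ v, h (t • v) = 0) := by
  have hp : p.Prime := Fact.out
  letI := heckeModuleBar N
  haveI := (jzeroInputs N).comm
  haveI := (jzeroInputs N).principal
  haveI : CharZero K := charZero_of_injective_algebraMap (FaithfulSMul.algebraMap_injective 𝒪 K)
  letI : Algebra ℤ_[p] 𝒪 := (H35.padicToAdic 𝒪 hp𝒪).toAlgebra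
  letI : Algebra ℤ_[p] T := ((algebraMap 𝒪 T).comp (algebraMap ℤ_[p] 𝒪)).toAlgebra
  haveI : IsScalarTower ℤ_[p] 𝒪 T := IsScalarTower.of_algebraMap_eq fun _ => rfl
  letI : Algebra T K := ψ.toRingHom.toAlgebra
  letI : Algebra ℤ_[p] K := ((algebraMap T K).comp (algebraMap ℤ_[p] T)).toAlgebra
  haveI : IsScalarTower ℤ_[p] T K := IsScalarTower.of_algebraMap_eq fun _ => rfl
  haveI : Module.Finite ℤ_[p] 𝒪 := finite_padic 𝒪 hp𝒪
  haveI : Module.Finite ℤ_[p] T := Module.Finite.trans 𝒪 T
  have hfin : {x : JZero N | p • x = 0}.Finite := by simpa using (jzeroInputs N).finite p 1 hp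
  haveI := TateMod.finite_of_finite_torsion (p := p) (J := JZero N) hfin
  haveI := TateMod.free_of_finite_torsion (p := p) (J := JZero N) hfin
  obtain ⟨F, hF, hgal, -⟩ := H32.exists_realization_datum (J := JZero N) (K := K) hp𝒪 hpS hNS H
    hfin (frobeniusQuadratic_of_specializationExists ((jzeroInputs N).spec p hp))
    (finiteLevel_JZero N p (fun n => (jzeroInputs N).finite p n hp))
    ((jzeroInputs N).faithful p S hp hpS hNS)
  have hV : Nontrivial (K ⊗[T] H.ρ.V) := by
    apply Module.nontrivial_of_finrank_pos (R := K)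
    rw [Module.finrank_baseChange, H.ρ.finrank_eq]
    norm_num
  obtain ⟨h, h0, h1, h2⟩ := exists_hom_abs F hF hV (fun g => H.ρ.ρ g)
    (fun g => galTate p (JZero N) g) hgal
  exact ⟨h, h0, h1, h2⟩

end Main

end Fermat.Agent.H89Point
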