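import Fermat.Agent.H89Inst
import Fermat.Agent.H89Point

/-!
# Guide: the reduction of `X₀(mq)` at a prime `q` not dividing `m`

This file serves S34 and S35 (hence S01): the restriction to the decomposition groups over `q` of
the Galois representations in the torsion of `J₀(mq)`, `q ∤ m`, away from `q`.  Both theorems are
also geometric inputs for the passage from eigenclasses to representations (`GuideEigen`).
Sections 1 - 3 are used as well for S33, S44 and Mazur's principle (S43); `unitPair_inertia`,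
extended to classes with a multiple which is fixed by inertia (`H80SSAbs`, `H80SS`), for the
semistability of `J₀(N)` at `N` in S15 (hence in S12 and S09); section 7 for S33.

Two facts are needed, for a prime `p ≠ q`:

* **unipotent inertia** (S34): `(σ - 1)² = 0` on the `p`-power torsion of `J₀(mq)` for all `σ` in
  the inertia groups over `q` (theorem `unipotent_inertia`);
* **the Steinberg relation** (S35): on the part of the `p`-power torsion on which
  `β^* α_* x = β^* α_* w x = 0` a Frobenius element `φ` at `q` satisfies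
  `(φ + q w) (φ + w) x = 0`, `w` the Atkin-Lehner involution (theorem `steinberg_relation`).

Usually they are deduced from the semistable model of `X₀(mq)` over `ℤ_q` and from the structure
of Néron models of Jacobians.  Here no model is used.  The two components of the special fibre are
two valuation rings `V₁`, `V₂` of the function field `F` of `X₀(mq)` over `ℚ̄` (the Gauss valuation
of q-expansions at the cusp `∞`, and its image under the Atkin-Lehner involution), both with
residue field `κ` = function field of `X₀(m)` over the residue field `k` of `ℚ̄`.  Everything else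
is Riemann-Roch on both sides and linear algebra over a valuation ring.

Reading order.
1. places of `ℚ̄` over `q` (rank one; `σ c / c` is a unit);
2. two-component reductions (`TwoComp`), and their existence for `X₀(mq)`;
3. the glued curve: which pairs of functions on the two components lift (`mem_glueRing_iff`); the
   glued points ("supersingular points") are finite in number;
4. divisors `E` of degree `0` with `d E = div f`, `f ≡ 1` on both components ("unit pairs"): their
   classes are described by toric coordinates `ζ`; `ζ = 1` implies that `E` is principal;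
5. inertia and Frobenius on such classes; the two theorems in abstract form;
6. the results for `J₀(mq)`;
7. (for S33) one point of the Hecke ring is enough to relate the representation of a
   Hecke-Galois datum to the Tate module of `J₀(N)`.

Notions used without explanation: places over a prime, inertia groups, Frobenius elements,
`JZero N`, its Galois action, Hecke-Galois data (`GuideGalois`); the construction of the
two reductions from q-expansions (`GuideReduction`; step by step in `GuideGaussSeries`, sections 5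
and 6), with the general theory of components and orthonormal bases (`GuideFrames`).  What is done
with the two results: `GuideNewforms`.  Ordinarity at `p`, S33: `GuideOrdinary`.

References in NOTES.md: BADRED [172], [271]; sections GALREP, S33 - S35.  Steps of the proofs of
sections 3 - 5: `GuideBadRedSteps`.
-/

set_option autoImplicit false

noncomputable section

open AlgebraicCurve ModularCurve Fermat.Agent Fermat.Agent.H89SS

namespace Fermat.Agent.Guide.BadRed

/-! ### 1. Places of `ℚ̄` over a prime number -/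

/-- **Places of `ℚ̄` over a prime number have rank one**: if `a` is not a unit of the valuation
ring `A` over `q` and `b ≠ 0`, then `b` divides a power of `a`.
Proof: `q` divides a power of `a` (take an equation of `a` with coprime integer coefficients and its
first coefficient, beginning with the constant one, which is prime to `q`), and `b` divides a power of
`q` (constant coefficient of an equation of `b`).
Proved in `H89Arch`.  It is the hypothesis `arch` of the theorems below. -/
theorem rank_one {q : ℕ} (hq : q.Prime) {A : ValuationSubring (AlgebraicClosure ℚ)}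
    (hA : A.LiesOverPrime q) (a b : A) (ha : ¬ IsUnit a) (hb : b ≠ 0) : ∃ n : ℕ, b ∣ a ^ n :=
  H89Arch.arch hq hA a b ha hb

/-- An element `σ` of the decomposition group of `A` preserves the absolute value: `σ c / c` is
integral for all `c ≠ 0`.  Proof: `c` has finitely many conjugates, so `σ ^ n c = c` for some
`n > 0`; if `σ c / c` were not integral the same would hold for `σ ^ n c / c = 1`.
Proved in `H89Inst`.  Used for the first condition in `compat_iff`. -/
theorem div_mem {A : ValuationSubring (AlgebraicClosure ℚ)}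
    {σ : AlgebraicClosure ℚ ≃ₐ[ℚ] AlgebraicClosure ℚ} (hσ : σ ∈ A.decompositionSubgroup ℚ)
    (c : AlgebraicClosure ℚ) (hc : c ≠ 0) : σ c / c ∈ A :=
  H89J.div_mem_of_mem_decomposition hσ c hc

/-! ### 2. Two-component reductions

In sections 2 - 5: `K` is a field with a valuation ring `A` and a homomorphism `π : A → k` to a
field `k` (the reduction; `hπ` : surjective, `IsLocalHom π` : with kernel the maximal ideal);
`F / K` and `κ / k` are function fields of one variable over algebraically closed fields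
(`H3RR.IsFF`).  In the application `K = ℚ̄`, `F` = functions on `X₀(mq)`, `κ` = functions on `X₀(m)`
in characteristic `q`.  `riemannRochSpace D` = `L(D)` = functions `f` with `div f ≥ -D`. -/

section Abstract

variable {K F k κ : Type*} [Field K] [Field F] [Algebra K F] [Field k] [Field κ] [Algebra k κ]
  {A : ValuationSubring K} {π : A →+* k} {q : ℕ}

/-- **`T : TwoComp K F k κ A π q`, unfolded.**  The data are two valuation rings `V₁`, `V₂` of `F`
(the components), reduction homomorphisms `ρ₁ : V₁ → κ`, `ρ₂ : V₂ → κ` to the SAME field `κ`,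
places `P₁`, `P₂` of `F` and `P` of `κ` (cusps), a `k`-homomorphism `Φ : κ → κ` (for `X₀(mq)`:
`a(t) ↦ a(t ^ q)`) and a semilinear automorphism `fr` of `κ` (for `X₀(mq)`: `q`-th powers of the
coefficients of q-expansions).  They satisfy:
(1), (2) on constants `a ∈ A` both reductions are `π`;
(3), (4) every function `f ≠ 0` has a constant multiple with non-zero reduction;
(5) every finite dimensional space of functions has a basis, integral on both components, with
linearly independent pairs of reductions (`orthonormal_basis` of `GuideFrames`);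
(6), (7) `P₁ ≠ P₂`, and poles at `P₁` (`P₂`) reduce to poles at `P` of at most the same order on
the first (second) component;
(8), (9) `Φ (fr a) = a ^ q`, `fr P = P`;
(10) a function `a` with a pole of order `≤ i`, `i` large, at `P` only, lifts (along one of the two
degeneracy maps from level `m`) to an `x` with reductions `(a, Φ a)`, and (along the other one) to
a `y` with reductions `(Φ a, a)`, with the expected pole orders. -/
theorem twoComp (T : TwoComp K F k κ A π q) :
    (∀ a : A, ∃ h : algebraMap K F a ∈ T.V₁, T.ρ₁ ⟨_, h⟩ = algebraMap k κ (π a)) ∧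
    (∀ a : A, ∃ h : algebraMap K F a ∈ T.V₂, T.ρ₂ ⟨_, h⟩ = algebraMap k κ (π a)) ∧
    (∀ f : F, f ≠ 0 → ∃ (c : K) (_ : c ≠ 0) (h : algebraMap K F c * f ∈ T.V₁),
      T.ρ₁ ⟨_, h⟩ ≠ 0) ∧
    (∀ f : F, f ≠ 0 → ∃ (c : K) (_ : c ≠ 0) (h : algebraMap K F c * f ∈ T.V₂),
      T.ρ₂ ⟨_, h⟩ ≠ 0) ∧
    (∀ (W : Submodule K F) [FiniteDimensional K W],
      ∃ (d : ℕ) (w : Fin d → F) (h₁ : ∀ i, w i ∈ T.V₁) (h₂ : ∀ i, w i ∈ T.V₂),
        Submodule.span K (Set.range w) = W ∧
        LinearIndependent k (fun i => ((T.ρ₁ ⟨w i, h₁ i⟩, T.ρ₂ ⟨w i, h₂ i⟩) : κ × κ))) ∧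
    T.P₁ ≠ T.P₂ ∧
    (∀ (i j : ℕ) (f : F) (h₁ : f ∈ T.V₁) (h₂ : f ∈ T.V₂),
      f ∈ riemannRochSpace
        (Finsupp.single T.P₁ (i : ℤ) + Finsupp.single T.P₂ (j : ℤ) : Divisor K F) →
      T.ρ₁ ⟨f, h₁⟩ ∈ riemannRochSpace (Finsupp.single T.P (i : ℤ) : Divisor k κ) ∧
      T.ρ₂ ⟨f, h₂⟩ ∈ riemannRochSpace (Finsupp.single T.P (j : ℤ) : Divisor k κ)) ∧
    (∀ a : κ, T.Φ (T.fr • a) = a ^ q) ∧ T.fr • T.P = T.P ∧
    ∃ i₀ : ℕ, ∀ i ≥ i₀, ∀ a ∈ riemannRochSpace (Finsupp.single T.P (i : ℤ) : Divisor k κ),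
      (∃ (x : F) (h₁ : x ∈ T.V₁) (h₂ : x ∈ T.V₂), x ∈ riemannRochSpace
          (Finsupp.single T.P₁ (i : ℤ) + Finsupp.single T.P₂ ((q * i : ℕ) : ℤ) : Divisor K F) ∧
        T.ρ₁ ⟨x, h₁⟩ = a ∧ T.ρ₂ ⟨x, h₂⟩ = T.Φ a) ∧
      (∃ (y : F) (h₁ : y ∈ T.V₁) (h₂ : y ∈ T.V₂), y ∈ riemannRochSpace
          (Finsupp.single T.P₁ ((q * i : ℕ) : ℤ) + Finsupp.single T.P₂ (i : ℤ) : Divisor K F) ∧
        T.ρ₁ ⟨y, h₁⟩ = T.Φ a ∧ T.ρ₂ ⟨y, h₂⟩ = a) :=
  ⟨fun a => ⟨_, T.ρ₁_mem a⟩, fun a => ⟨_, T.ρ₂_mem a⟩, T.scale₁, T.scale₂,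
    fun W _ => T.exists_basis W, T.P₁_ne_P₂, T.red_mem, T.Φ_fr, T.fr_P, T.lift⟩

/-- `T.Compat g τ`, unfolded: the semilinear automorphism `g` of `F` respects the absolute value
of `K`, both valuation rings and both cusps, and acts through `τ` on both residue fields.
For `X₀(mq)`: `τ = 1` for inertia elements, `τ = fr` for Frobenius elements. -/
theorem compat_iff (T : TwoComp K F k κ A π q) (g : SemilinearAut K F)
    (τ : SemilinearAut k κ) :
    T.Compat g τ ↔ (∀ c : K, c ≠ 0 → SemilinearAut.baseAut g c / c ∈ A) ∧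
      (∀ f : F, f ∈ T.V₁ → g • f ∈ T.V₁) ∧ (∀ f : F, f ∈ T.V₂ → g • f ∈ T.V₂) ∧
      (∀ (f : F) (h : f ∈ T.V₁) (h' : g • f ∈ T.V₁), T.ρ₁ ⟨g • f, h'⟩ = τ • T.ρ₁ ⟨f, h⟩) ∧
      (∀ (f : F) (h : f ∈ T.V₂) (h' : g • f ∈ T.V₂), T.ρ₂ ⟨g • f, h'⟩ = τ • T.ρ₂ ⟨f, h⟩) ∧
      g • T.P₁ = T.P₁ ∧ g • T.P₂ = T.P₂ :=
  ⟨fun h => ⟨h.1, h.2, h.3, h.4, h.5, h.6, h.7⟩, fun ⟨a, b, c, d, e, f, g⟩ => ⟨a, b, c, d, e, f, g⟩⟩

/-- `T.Swap w`, unfolded: the involution `w` of `F` exchanges the two components (the two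
reduction maps have the same values) and the two cusps.  For `X₀(mq)`: `w = w_q`. -/
theorem swap_iff (T : TwoComp K F k κ A π q) (w : F ≃ₐ[K] F) :
    T.Swap w ↔ (∀ f, w (w f) = f) ∧ (∀ f : F, f ∈ T.V₁ → w f ∈ T.V₂) ∧
      (∀ f : F, f ∈ T.V₂ → w f ∈ T.V₁) ∧
      (∀ (f : F) (h : f ∈ T.V₁) (h' : w f ∈ T.V₂), T.ρ₂ ⟨w f, h'⟩ = T.ρ₁ ⟨f, h⟩) ∧
      SemilinearAut.ofAlgAut w • T.P₁ = T.P₂ :=
  ⟨fun h => ⟨h.1, h.2, h.3, h.4, h.5⟩, fun ⟨a, b, c, d, e⟩ => ⟨a, b, c, d, e⟩⟩

end Abstract

/-- `IsAL m q W`, unfolded: `W` is the Atkin-Lehner automorphism `w_q` of the function field of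
`X₀(mq)`, `(m, q) = 1`, i.e. it sends the function `j(d τ)`, `d ∣ mq`, with q-expansion
`H66.J L d = j(t ^ d)`, to `j(d' τ)`, where `d' = gcd(d, m) q / gcd(d, q)`. -/
theorem isAL_iff {L : Type*} [Field L] [Algebra ℚ L] {m q : ℕ} [NeZero (m * q)]
    (W : laurentBaseChange L (modularFunctionFieldFull (m * q)) ≃ₐ[L]
      laurentBaseChange L (modularFunctionFieldFull (m * q))) :
    H67.IsAL m q W ↔ ∀ (d : ℕ) (hd : d ∣ m * q),
      ((W ⟨H66.J L d, H67.J_mem_FB hd⟩ : laurentBaseChange L (modularFunctionFieldFull (m * q))) :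
        LaurentSeries L) = H66.J L (d.gcd m * (q / d.gcd q)) := Iff.rfl

/-- `ModTwo m q A k π` is the type of two-component reductions `T` of `X₀(mq)` at the place `A`
which are given by q-expansions.  What this means: `F` = field of modular functions of level `mq`
over `ℚ̄` inside the Laurent series over `ℚ̄`, `κ` = the same for level `m` over `k`, and
* `V₁` = the `f` whose q-expansion is a quotient `y / z` of Laurent series over `A` with `z ≢ 0`;
  the reduction `ρ₁ f` is the quotient of the reduced series;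
* `fr` raises the coefficients to the `q`-th power;
* the Atkin-Lehner automorphisms `W` (see `isAL_iff`) swap `V₁`, `V₂`;
* inertia acts trivially on both residue fields, Frobenius elements act through `fr`.
(`modularFunctionFieldFull`, `laurentBaseChange`, `arithmeticGalois` = the Galois action on the
coefficients of q-expansions: Prelude.) -/
theorem modTwo {m q : ℕ} [NeZero m] [NeZero q] [NeZero (m * q)]
    {A : ValuationSubring (AlgebraicClosure ℚ)} {k : Type*} [Field k] {π : A →+* k}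
    (D : H89J.ModTwo m q A k π) :
    (∀ f : laurentBaseChange (AlgebraicClosure ℚ) (modularFunctionFieldFull (m * q)),
      f ∈ D.T.V₁ ↔ ∃ y z : LaurentSeries A, coeffMap π z ≠ 0 ∧
        (f : LaurentSeries (AlgebraicClosure ℚ)) * coeffMap A.subtype z =
          coeffMap A.subtype y) ∧
    (∀ (f : laurentBaseChange (AlgebraicClosure ℚ) (modularFunctionFieldFull (m * q)))
      (h : f ∈ D.T.V₁) (y z : LaurentSeries A), coeffMap π z ≠ 0 →
      (f : LaurentSeries (AlgebraicClosure ℚ)) * coeffMap A.subtype z =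
        coeffMap A.subtype y →
      ((D.T.ρ₁ ⟨f, h⟩ : modularFunctionFieldFullC k m) : LaurentSeries k) * coeffMap π z =
        coeffMap π y) ∧
    (∀ (a : modularFunctionFieldFullC k m) (n : ℤ),
      ((D.T.fr • a : modularFunctionFieldFullC k m) : LaurentSeries k).coeff n =
        (a : LaurentSeries k).coeff n ^ q) ∧
    (∀ W, H67.IsAL m q W → D.T.Swap W) ∧
    (∀ σ ∈ A.inertiaSubgroupIn ℚ,
      D.T.Compat (arithmeticGalois (modularFunctionFieldFull (m * q)) σ) 1) ∧
    (∀ σ : AlgebraicClosure ℚ ≃ₐ[ℚ] AlgebraicClosure ℚ, A.IsFrobeniusAt σ q →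
      D.T.Compat (arithmeticGalois (modularFunctionFieldFull (m * q)) σ) D.T.fr) :=
  ⟨fun f => (D.V₁_mem f).trans (H34.Two.mem_locL_iff A π), fun f h _ _ hz he =>
    (congrArg (· * coeffMap π _) (D.ρ₁_eq f h)).trans (H34.Two.resL_mul_eq A π _ hz he),
    D.fr_eq, D.swap, D.inertia, D.frobenius⟩

/-- **Existence of the two-component reduction of `X₀(mq)`**, `q ∤ m`, at every place `A` of `ℚ̄`
over `q`.
Main inputs: the congruence `j(t ^ q) ≡ j(t) ^ q` modulo `q`, which shows that `V₁ ≠ V₂`; the degree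
of `F` over `ℚ̄(j)` is `(q + 1)` times that of level `m`, while the degree of level `m` over `k(j)`
is not smaller than in characteristic `0`; good reduction at level `m` (equality of the genera,
`H88GenusEq`).  Proved in `H34Two1`, `H34Two3` - `H34Two7`, `H89Inst`; see `GuideReduction`. -/
theorem exists_modTwo {m q : ℕ} [NeZero m] [NeZero q] [NeZero (m * q)] (hq : q.Prime)
    (hqm : ¬ q ∣ m) (A : ValuationSubring (AlgebraicClosure ℚ)) (hA : A.LiesOverPrime q) :
    Nonempty (H89J.ModTwo m q A (IsLocalRing.ResidueField A) (IsLocalRing.residue A)) :=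
  H89J.nonempty_modTwo hq hqm A hA

section Abstract

variable {K F k κ : Type*} [Field K] [Field F] [Algebra K F] [Field k] [Field κ] [Algebra k κ]
  {A : ValuationSubring K} {π : A →+* k} {q : ℕ}

/-! ### 3. The glued curve -/

/-- `T.glueRing hπ` is the ring of the pairs `t` of functions on the two components which are the
reductions of a function on the generic fibre, integral on both components and regular outside the
cusps `P₁`, `P₂`. -/
theorem mem_glueRing_def (T : TwoComp K F k κ A π q) (hπ : Function.Surjective π)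
    (t : κ × κ) :
    t ∈ T.glueRing hπ ↔ ∃ (n : ℕ) (f : F) (h₁ : f ∈ T.V₁) (h₂ : f ∈ T.V₂),
      f ∈ riemannRochSpace
        (Finsupp.single T.P₁ (n : ℤ) + Finsupp.single T.P₂ (n : ℤ) : Divisor K F) ∧
      (T.ρ₁ ⟨f, h₁⟩, T.ρ₂ ⟨f, h₂⟩) = t :=
  ⟨fun ⟨n, x, hx, h⟩ => ⟨n, x, x.2.1, x.2.2, hx, h⟩,
    fun ⟨n, f, h₁, h₂, hf, h⟩ => ⟨n, ⟨f, h₁, h₂⟩, hf, h⟩⟩

/-- `val v f` is the value in `k` of the function `f` at the place `v` (when `f` is regular). -/
theorem val_spec [IsAlgClosed k] [H3RR.IsFF k κ] {v : Place k κ} {f : κ}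
    (h : v.adicValuation f ≤ 1) : v.adicValuation (f - algebraMap k κ (val v f)) < 1 :=
  H89SS.val_spec h

/-- `T.SS hπ` is the set of glued places ("supersingular points"): the places `v ≠ P` of the
component with `fr (fr v) = v` such that `v` on the first component is glued to `fr v` on the
second one. -/
theorem mem_SS_iff [IsAlgClosed k] [H3RR.IsFF k κ] (T : TwoComp K F k κ A π q)
    (hπ : Function.Surjective π) (v : Place k κ) :
    v ∈ T.SS hπ ↔ v ≠ T.P ∧ T.fr • T.fr • v = v ∧
      ∀ t ∈ T.glueRing hπ, val v t.1 = val (T.fr • v) t.2 := Iff.rfl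

/-- There are only finitely many glued places: `a - Φ (Φ a)` vanishes at all of them, and it is
not `0` for suitable `a` (compare the orders of the poles at `P`).
Proved in `H89SS5`, `H89SS6`. -/
theorem finite_SS [IsAlgClosed k] [H3RR.IsFF k κ] (T : TwoComp K F k κ A π q)
    (hπ : Function.Surjective π) (hq : 2 ≤ q) : (T.SS hπ).Finite :=
  T.finite_SS hπ hq

/-- **Structure of the special fibre**: a pair `t` of functions on the two components, regular
outside the cusp, lifts to a function on the generic fibre as soon as it has the same values at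
the glued points.
Proof: the second coordinates of the pairs `(0, x)` in the ring form an ideal, which contains
`a - Φ (Φ a)` and `t₂ - Φ t₁`; its zeros are simple and are exactly the glued points; now use
Riemann-Roch (strong approximation) on `κ`.  Proved in `H89SS4` - `H89SS6`. -/
theorem mem_glueRing_iff [IsAlgClosed k] [H3RR.IsFF k κ] (T : TwoComp K F k κ A π q)
    (hπ : Function.Surjective π) (hq : 2 ≤ q) {t : κ × κ} :
    t ∈ T.glueRing hπ ↔ (∀ v, v ≠ T.P → v.adicValuation t.1 ≤ 1) ∧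
      (∀ v, v ≠ T.P → v.adicValuation t.2 ≤ 1) ∧
      ∀ v ∈ T.SS hπ, val v t.1 = val (T.fr • v) t.2 :=
  T.mem_glueRing_iff hπ hq

/-! ### 4. Divisor classes which are trivial on both components -/

/-- `T.UnitPair d E f`, unfolded: `E` is a divisor of degree `0` on the generic fibre,
`d E = div f`, and `f ≡ 1` on both components.  The class of `E` is then a `d`-torsion class in
the "toric part". -/
theorem unitPair_iff (T : TwoComp K F k κ A π q) (d : ℕ) (E : Divisor K F) (f : F) :
    T.UnitPair d E f ↔ Divisor.degree E = 0 ∧ (∀ v : Place K F, v.ord f = d * E v) ∧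
      ∃ (h₁ : f ∈ T.V₁) (h₂ : f ∈ T.V₂), T.ρ₁ ⟨f, h₁⟩ = 1 ∧ T.ρ₂ ⟨f, h₂⟩ = 1 :=
  ⟨fun ⟨a, b, ⟨h₁, h₂⟩, e⟩ => ⟨a, b, h₁, h₂, congrArg Prod.fst e, congrArg Prod.snd e⟩,
    fun ⟨a, b, h₁, h₂, e₁, e₂⟩ => ⟨a, b, ⟨h₁, h₂⟩, Prod.ext e₁ e₂⟩⟩

/-- **Weak approximation** for the two valuation rings: there is a function `χ` with
`χ ψ₁ ≡ 1` on the first and `χ ψ₂ ≡ 1` on the second component.
Proof: functions with reductions `(1, 0)` and `(0, 1)` exist by `mem_glueRing_iff`; take high
powers of them (rank one).  Proved in `H89SS10`. -/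
theorem weak_approx [IsAlgClosed k] [H3RR.IsFF k κ] [IsLocalHom π]
    (T : TwoComp K F k κ A π q) (hπ : Function.Surjective π) (hq : 2 ≤ q)
    (arch : ∀ a b : A, π a = 0 → b ≠ 0 → ∃ n, b ∣ a ^ n) {ψ₁ ψ₂ : F} (h₁ : ψ₁ ≠ 0)
    (h₂ : ψ₂ ≠ 0) :
    ∃ χ : F, (∃ h : χ * ψ₁ ∈ T.V₁, T.ρ₁ ⟨χ * ψ₁, h⟩ = 1) ∧
      ∃ h : χ * ψ₂ ∈ T.V₂, T.ρ₂ ⟨χ * ψ₂, h⟩ = 1 :=
  T.weak_approx hπ hq arch h₁ h₂

/-- Passage to a representative: if `d E₀ = div f₀` and `f₀` is congruent to a `d`-th power on
each of the components, then `E₀` is equivalent to the divisor `E` of a unit pair.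
Proved in `H89SS10` (weak approximation). -/
theorem exists_unitPair [IsAlgClosed K] [IsAlgClosed k] [H3RR.IsFF K F] [H3RR.IsFF k κ]
    [IsLocalHom π] (T : TwoComp K F k κ A π q) (hπ : Function.Surjective π) (hq : 2 ≤ q)
    (arch : ∀ a b : A, π a = 0 → b ≠ 0 → ∃ n, b ∣ a ^ n) {d : ℕ} {E₀ : Divisor K F} {f₀ : F}
    (hdeg : Divisor.degree E₀ = 0) (hf₀ : f₀ ≠ 0)
    (hord : ∀ v : Place K F, v.ord f₀ = d * E₀ v) {h₁ h₂ : F} (hh₁ : h₁ ≠ 0) (hh₂ : h₂ ≠ 0)
    (heq₁ : ∃ h : f₀ * h₁ ^ d ∈ T.V₁, T.ρ₁ ⟨f₀ * h₁ ^ d, h⟩ = 1)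
    (heq₂ : ∃ h : f₀ * h₂ ^ d ∈ T.V₂, T.ρ₂ ⟨f₀ * h₂ ^ d, h⟩ = 1) :
    ∃ (E : Divisor K F) (f : F), T.UnitPair d E f ∧
      E - E₀ ∈ Divisor.principal (K := K) (F := F) :=
  T.exists_unitPair hπ hq arch hdeg hf₀ hord hh₁ hh₂ heq₁ heq₂

/-- `T.IsZeta hπ E ζ`, unfolded: `ζ` is the toric coordinate of the divisor `E` of degree `0`, i.e.
for the functions `f ∈ L(nP₁ + nP₂ + E)`, integral on both components, the reductions have a pole
of order `≤ n` at `P` only, and the values of the two reductions at the glued points differ by the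
factors `ζ`. -/
theorem isZeta_iff [IsAlgClosed k] [H3RR.IsFF k κ] (T : TwoComp K F k κ A π q)
    (hπ : Function.Surjective π) (E : Divisor K F) (ζ : Place k κ → k) :
    T.IsZeta hπ E ζ ↔ Divisor.degree E = 0 ∧
      ∀ (n : ℕ) (f : F) (h₁ : f ∈ T.V₁) (h₂ : f ∈ T.V₂),
        f ∈ riemannRochSpace
          (Finsupp.single T.P₁ (n : ℤ) + Finsupp.single T.P₂ (n : ℤ) + E : Divisor K F) →
        (T.ρ₁ ⟨f, h₁⟩ ∈ riemannRochSpace (Finsupp.single T.P (n : ℤ) : Divisor k κ) ∧
          T.ρ₂ ⟨f, h₂⟩ ∈ riemannRochSpace (Finsupp.single T.P (n : ℤ) : Divisor k κ)) ∧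
        ∀ v ∈ T.SS hπ, val v (T.ρ₁ ⟨f, h₁⟩) = ζ v * val (T.fr • v) (T.ρ₂ ⟨f, h₂⟩) :=
  ⟨fun ⟨a, b⟩ => ⟨a, fun n f h₁ h₂ hf => b n ⟨⟨f, h₁, h₂⟩, hf, rfl⟩⟩,
    fun ⟨a, b⟩ => ⟨a, fun n _ ⟨x, hx, h⟩ => h ▸ b n x x.2.1 x.2.2 hx⟩⟩

/-- A unit pair has toric coordinates, and these are `d`-th roots of unity.
Proof: if `t` is a pair of reductions of functions in `L(nP₁ + nP₂ + E)` then `t ^ d` is in the
glued ring (multiply by `f ≡ 1`); so the ratio of the two values at a glued point is a `d`-th root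
of unity, and it is independent of `t` by linearity.  Proved in `H89SS7`, `H89SS8`. -/
theorem exists_isZeta [IsAlgClosed K] [IsAlgClosed k] [H3RR.IsFF K F] [H3RR.IsFF k κ]
    {T : TwoComp K F k κ A π q} (hπ : Function.Surjective π) {d : ℕ} (hd : d ≠ 0)
    {E : Divisor K F} {f : F} (h : T.UnitPair d E f) :
    ∃ ζ : Place k κ → k, T.IsZeta hπ E ζ ∧ ∀ v ∈ T.SS hπ, ζ v ^ d = 1 :=
  h.exists_isZeta hπ hd

/-- **Lifting with toric coordinates**: for `n ≥ N`, and every divisor `E` of degree `0` with toric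
coordinate `ζ`, all pairs of functions `t₁, t₂ ∈ L(nP)` whose values at the glued points differ by
the factors `ζ` are the reductions of functions in `L(nP₁ + nP₂ + E)`.
Proof: the reductions form a space of dimension `2n + 1 - g`, independent of `E` (Riemann-Roch on
the generic fibre and orthonormal bases), and the space of pairs has a dimension independent
of `ζ`; for `E = 0` the two spaces agree.  Proved in `H89SS7`. -/
theorem lift_of_isZeta [IsAlgClosed K] [IsAlgClosed k] [H3RR.IsFF K F] [H3RR.IsFF k κ]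
    [IsLocalHom π] (T : TwoComp K F k κ A π q) (hπ : Function.Surjective π) (hq : 2 ≤ q) :
    ∃ N : ℕ, ∀ n ≥ N, ∀ (E : Divisor K F) (ζ : Place k κ → k), T.IsZeta hπ E ζ →
      ∀ t₁ ∈ riemannRochSpace (Finsupp.single T.P (n : ℤ) : Divisor k κ),
      ∀ t₂ ∈ riemannRochSpace (Finsupp.single T.P (n : ℤ) : Divisor k κ),
        (∀ v ∈ T.SS hπ, val v t₁ = ζ v * val (T.fr • v) t₂) →
        ∃ (f : F) (h₁ : f ∈ T.V₁) (h₂ : f ∈ T.V₂), f ∈ riemannRochSpace
            (Finsupp.single T.P₁ (n : ℤ) + Finsupp.single T.P₂ (n : ℤ) + E : Divisor K F) ∧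
          (T.ρ₁ ⟨f, h₁⟩, T.ρ₂ ⟨f, h₂⟩) = (t₁, t₂) := by
  obtain ⟨N, hN⟩ := TwoComp.IsZeta.eventually_eq T hπ hq
  exact ⟨N, fun n hn E ζ hζ t₁ h₁ t₂ h₂ h => (((hN n hn).2 E ζ hζ).ge
    ⟨⟨h₁, h₂⟩, h⟩ : (t₁, t₂) ∈ T.VE hπ E n).elim fun x hx => ⟨x, x.2.1, x.2.2, hx.1, hx.2⟩⟩

/-- **Approximate solutions give exact solutions.**  `L`, `L'` are finite dimensional spaces of
functions.  Suppose for every constant `c ≠ 0` there is `y ≡ 1` (on both components) with
`y u ∈ L + c O` for all `u ∈ L' ∩ O`, where `O = V₁ ∩ V₂`.  Then there is `h ≠ 0` with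
`h L' ⊆ L`.  Proof: otherwise an injective linear map between finite dimensional spaces would not
be bounded below.  Proved in `H89SS3`. -/
theorem exact_of_approx [IsLocalHom π] (T : TwoComp K F k κ A π q) (L L' : Submodule K F)
    [FiniteDimensional K L] [FiniteDimensional K L'] (hnt : ∃ a : A, a ≠ 0 ∧ π a = 0)
    (happ : ∀ c : A, c ≠ 0 → ∃ (y : F) (h₁ : y ∈ T.V₁) (h₂ : y ∈ T.V₂),
      T.ρ₁ ⟨y, h₁⟩ = 1 ∧ T.ρ₂ ⟨y, h₂⟩ = 1 ∧
      ∀ u ∈ L', u ∈ T.V₁ → u ∈ T.V₂ → ∃ l ∈ L, l ∈ T.V₁ ∧ l ∈ T.V₂ ∧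
        ∃ z : F, z ∈ T.V₁ ∧ z ∈ T.V₂ ∧ u * y = l + algebraMap K F c * z) :
    ∃ h : F, h ≠ 0 ∧ ∀ u ∈ L', h * u ∈ L :=
  T.red.exists_mul_mem L L' hnt fun c hc => (happ c hc).elim fun y ⟨h₁, h₂, e₁, e₂, H⟩ =>
    ⟨⟨y, h₁, h₂⟩, Prod.ext e₁ e₂, fun u hu => (H u hu u.2.1 u.2.2).elim
      fun l ⟨hl, l₁, l₂, z, z₁, z₂, e⟩ => ⟨⟨l, l₁, l₂⟩, hl, ⟨z, z₁, z₂⟩, Subtype.ext e⟩⟩

/-- **Criterion for principality**: a unit pair (`d` prime to the residue characteristic) with
toric coordinate `1` is principal.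
Proof: by `lift_of_isZeta` the reductions of `L' = L(nP₁ + nP₂ + E)` and of `L = L(nP₁ + nP₂)` agree
for large `n`.  If `y ^ d` is close to `f` then `y L'` is close to `L` (`H89SS2`); since `f ≡ 1` and
the places have rank one, the powers `y = f ^ M` with `d M ≡ 1 (mod q ^ s)`, `s` large, have this
property; by `exact_of_approx` there is `h ≠ 0` with `h L' ⊆ L`, which means `div h = E`.
Proved in `H89SS1` - `H89SS3`, `H89SS9`. -/
theorem principal_of_unitPair [IsAlgClosed K] [IsAlgClosed k] [H3RR.IsFF K F] [H3RR.IsFF k κ]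
    [IsLocalHom π] [CharZero K] [Fact q.Prime] [CharP k q] {T : TwoComp K F k κ A π q}
    (hπ : Function.Surjective π) (arch : ∀ a b : A, π a = 0 → b ≠ 0 → ∃ n, b ∣ a ^ n)
    {d : ℕ} (hd : (d : k) ≠ 0) {E : Divisor K F} {f : F} (h : T.UnitPair d E f)
    {ζ : Place k κ → k} (hζ : T.IsZeta hπ E ζ) (hζ1 : ∀ v ∈ T.SS hπ, ζ v = 1) :
    E ∈ Divisor.principal (K := K) (F := F) :=
  h.principal hπ arch hd hζ hζ1

/-! ### 5. Inertia and Frobenius, abstract form -/

/-- Inertia fixes the classes of unit pairs: `g E` and `E` have the same toric coordinates.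
Proved in `H89SS10`. -/
theorem unitPair_inertia [IsAlgClosed K] [IsAlgClosed k] [H3RR.IsFF K F] [H3RR.IsFF k κ]
    [IsLocalHom π] [CharZero K] [Fact q.Prime] [CharP k q] {T : TwoComp K F k κ A π q}
    (hπ : Function.Surjective π) (arch : ∀ a b : A, π a = 0 → b ≠ 0 → ∃ n, b ∣ a ^ n)
    {d : ℕ} (hd : (d : k) ≠ 0) {g : SemilinearAut K F} (hg : T.Compat g 1)
    {E : Divisor K F} {f : F} (hE : T.UnitPair d E f) :
    g • E - E ∈ Divisor.principal (K := K) (F := F) :=
  hE.inertia hπ arch hd hg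

/-- A Frobenius element acts on the classes of unit pairs as `- q w`: the toric coordinate of
`φ E` at `fr v` is the `q`-th power of that of `E` at `v`, and that of `w E` at `fr v` is its
inverse (`fr (fr v) = v`).  Proved in `H89SS8`, `H89SS10`. -/
theorem unitPair_frobenius [IsAlgClosed K] [IsAlgClosed k] [H3RR.IsFF K F]
    [H3RR.IsFF k κ] [IsLocalHom π] [CharZero K] [Fact q.Prime] [CharP k q]
    {T : TwoComp K F k κ A π q} (hπ : Function.Surjective π)
    (arch : ∀ a b : A, π a = 0 → b ≠ 0 → ∃ n, b ∣ a ^ n) {d : ℕ} (hd : (d : k) ≠ 0)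
    {w : F ≃ₐ[K] F} (hw : T.Swap w) {φ : SemilinearAut K F} (hφ : T.Compat φ T.fr)
    {E : Divisor K F} {f : F} (hE : T.UnitPair d E f) :
    φ • E + q • (SemilinearAut.ofAlgAut w • E) ∈ Divisor.principal (K := K) (F := F) :=
  hE.frobenius hπ arch hd hw hφ

/-- **Unipotent inertia, abstract form**: `(g₁ - 1) (g - 1) x = 0` for `g, g₁` in the inertia
group and a divisor class `x` with `d x = 0`, `d` prime to the residue characteristic.
Proof: if `d D = div f` then `g f / f` is congruent to a constant on each component (normalise `f`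
there), so `g D - D` is equivalent to a unit pair, and inertia fixes its class.
Proved in `H89SS10`. -/
theorem inertia_sq [IsAlgClosed K] [IsAlgClosed k] [H3RR.IsFF K F] [H3RR.IsFF k κ]
    [IsLocalHom π] [CharZero K] [Fact q.Prime] [CharP k q] (T : TwoComp K F k κ A π q)
    (hπ : Function.Surjective π) (arch : ∀ a b : A, π a = 0 → b ≠ 0 → ∃ n, b ∣ a ^ n)
    {d : ℕ} (hd : (d : k) ≠ 0) {g g₁ : SemilinearAut K F} (hg : T.Compat g 1)
    (hg₁ : T.Compat g₁ 1) (x : Pic0 K F) (hx : d • x = 0) :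
    g₁ • (g • x - x) = g • x - x :=
  T.inertia_sq hπ arch hd hg hg₁ x hx

/-- **Steinberg relation, abstract form**: `(φ + q w) (φ + w) x = 0` for a divisor class `x`
with `d x = 0` (`d` prime to the residue characteristic) which satisfies `(U + w) x = 0` and
`(U + w) w x = 0`.  Here `φ` is a lift of the Frobenius, `w` an involution which swaps the
components and commutes with `φ`, and `U` is any endomorphism of the group of classes with the
property `HU`: it is induced by an operation on pairs (divisor, function) which acts on reductions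
on the first component as `fr` (for `X₀(mq)`: the transpose of the Hecke operator `U_q`, see
`reduction_U`).
Proof: if `d D = div f` then `φ f / f₁ ≡ 1` on the first component, where `f₁` belongs to `U x`;
and `f₁ w(f)` is a `d`-th power by hypothesis; the same with `w f` on the second component.  So
`φ D + w D` is equivalent to a unit pair; use `unitPair_frobenius`.  Proved in `H89SS10`. -/
theorem steinberg [IsAlgClosed K] [IsAlgClosed k] [H3RR.IsFF K F] [H3RR.IsFF k κ]
    [IsLocalHom π] [CharZero K] [Fact q.Prime] [CharP k q] (T : TwoComp K F k κ A π q)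
    (hπ : Function.Surjective π) (arch : ∀ a b : A, π a = 0 → b ≠ 0 → ∃ n, b ∣ a ^ n)
    {d : ℕ} (hd : (d : k) ≠ 0) {w : F ≃ₐ[K] F} (hw : T.Swap w) {φ : SemilinearAut K F}
    (hφ : T.Compat φ T.fr) (hφw : ∀ f : F, φ • (w f) = w (φ • f))
    (U : Pic0 K F →+ Pic0 K F)
    (HU : ∀ (f : F) (E : Divisor.degZero (K := K) (F := F)), f ≠ 0 →
      (∀ v : Place K F, v.ord f = d * (E : Divisor K F) v) →
      ∃ (f1 : F) (E1 : Divisor.degZero (K := K) (F := F)), f1 ≠ 0 ∧
        (∀ v : Place K F, v.ord f1 = d * (E1 : Divisor K F) v) ∧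
        Pic0.mk E1 = U (Pic0.mk E) ∧
        ∀ h : f ∈ T.V₁, T.ρ₁ ⟨f, h⟩ ≠ 0 →
          ∃ h1 : f1 ∈ T.V₁, T.ρ₁ ⟨f1, h1⟩ = T.fr • T.ρ₁ ⟨f, h⟩)
    (x : Pic0 K F) (hx : d • x = 0)
    (h1 : U x + SemilinearAut.ofAlgAut w • x = 0)
    (h2 : U (SemilinearAut.ofAlgAut w • x) +
      SemilinearAut.ofAlgAut w • (SemilinearAut.ofAlgAut w • x) = 0) :
    φ • (φ • x + SemilinearAut.ofAlgAut w • x) +
      q • (SemilinearAut.ofAlgAut w • (φ • x + SemilinearAut.ofAlgAut w • x)) = 0 :=
  T.steinberg hπ arch hd hw hφ hφw U HU x hx h1 h2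

end Abstract

/-- **The operator `U` on q-expansions and modulo `q`.**  `W` is the Atkin-Lehner automorphism: it
exchanges the two degeneracy maps `α` (inclusion) and `β` (`f(t) ↦ f(t ^ q)`).  For `f ≠ 0` of level
`Nq` let `U f = α (N_α (W f)) / W f` (`N_α` = norm along `α`); its divisor is `U (div f)`, where
`U = α^* α_* w - w`.  (This is `w U_q w`, the transpose of the Hecke operator `U_q = β^* α_* - w` of
`GuideHecke.Uq_add_wq`.)  The q-expansion of `U f` is `∏ f(ζ ^ i t ^ (1/q))`, `i < q`; hence, if the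
reduction of `f` is not zero, the reduction of `U f` is obtained from that of `f` by raising the
coefficients to the `q`-th power.
(`locL A π`: quotients `y / z` of series over `A` with `z ≢ 0`; `resL`: the reduction; `IsQuot`:
the elements of the field are quotients of series in `L ⊗ ℤ((t))`.)  Proved in `H89HU`; used to
verify the hypothesis `HU` of `steinberg`. -/
theorem reduction_U {L : Type*} [Field L] [Algebra ℚ L] [CharZero L] [IsAlgClosed L]
    {A : ValuationSubring L} {k : Type*} [Field k] {π : A →+* k} {N q : ℕ} [NeZero N] [NeZero q]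
    [IsLocalHom π] [Fact q.Prime] [CharP k q]
    {W : laurentBaseChange L (modularFunctionFieldFull (N * q)) ≃ₐ[L]
      laurentBaseChange L (modularFunctionFieldFull (N * q))}
    (hF : H34.Two.IsQuot (laurentBaseChange L (modularFunctionFieldFull (N * q))))
    (hα : ∀ x, W (heckeAlphaBar L N q x) = heckeBetaBar L N q x)
    (hβ : ∀ x, W (heckeBetaBar L N q x) = heckeAlphaBar L N q x) (hinv : ∀ x, W (W x) = x)
    (hfin : FiniteAlong L (heckeAlphaBar L N q))
    (hdeg : finrankAlong L (heckeAlphaBar L N q) ≤ q + 1)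
    {f : laurentBaseChange L (modularFunctionFieldFull (N * q))}
    (h : (f : LaurentSeries L) ∈ H34.Two.locL A π) (h0 : H34.Two.resL A π ⟨_, h⟩ ≠ 0) :
    ∃ h' : ((heckeAlphaBar L N q (H60.normAlong (heckeAlphaBar L N q) (W f)) * (W f)⁻¹ :
        laurentBaseChange L (modularFunctionFieldFull (N * q))) : LaurentSeries L) ∈
        H34.Two.locL A π,
      H34.Two.resL A π ⟨_, h'⟩ = coeffMap (frobenius k q) (H34.Two.resL A π ⟨_, h⟩) :=
  H89HU.resL_uFun hF hα hβ hinv hfin hdeg h h0

/-! ### 6. The results for `J₀(mq)` -/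

/-- **Unipotent inertia** (input of S34).  `p ≠ q` primes, `q ∤ m`: the elements `σ` of the
inertia groups over `q` satisfy `σ (σ x - x) = σ x - x` for all points `x` of `J₀(mq)` of
`p`-power order.  (`JZero N = Pic⁰` of the function field of `X₀(N)` over `ℚ̄`; the Galois group
acts through the coefficients of q-expansions.)  Proved in `H89J`, `H89Inst`. -/
theorem unipotent_inertia {p q m : ℕ} [NeZero m] [NeZero q] [NeZero (m * q)] (hq : q.Prime)
    (hqm : ¬ q ∣ m) (hp : p.Prime) (hpq : p ≠ q) (A : ValuationSubring (AlgebraicClosure ℚ))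
    (hA : A.LiesOverPrime q) (σ : AlgebraicClosure ℚ ≃ₐ[ℚ] AlgebraicClosure ℚ)
    (hσ : σ ∈ A.inertiaSubgroupIn ℚ) (x : JZero (m * q)) (hx : ∃ n : ℕ, p ^ n • x = 0) :
    σ • (σ • x - x) = σ • x - x :=
  H89J.unipotentTorsion' hq hqm hp hpq A hA σ hσ x hx

/-- **Steinberg relation on `J₀(mq)`** (input of S35): `(σ + q w) (σ + w) x = 0`, written out, for
a Frobenius element `σ` at `q`, the Atkin-Lehner involution `w = wJ m q`, and the points `x` of
`p`-power order with `β^* α_* x = 0 = β^* α_* w x`, where `α_* = degPush 1`, `β^* = degPull q` for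
the degeneracy maps `X₀(mq) → X₀(m)`, `τ ↦ τ` and `τ ↦ q τ`; in particular for `x` in the new
part.  (`w` and `σ` commute, `w² = 1`; `U + w = α^* α_* w = w β^* α_* w` for the operator `U` of
`reduction_U`.)
Proved in `H89HU2`, `H89J`, `H89Inst`. -/
theorem steinberg_relation {p q m : ℕ} [NeZero m] [NeZero q] [NeZero (m * q)] (hq : q.Prime)
    (hqm : ¬ q ∣ m) (hp : p.Prime) (hpq : p ≠ q) (hc : m.Coprime q)
    (A : ValuationSubring (AlgebraicClosure ℚ)) (hA : A.LiesOverPrime q)
    (σ : AlgebraicClosure ℚ ≃ₐ[ℚ] AlgebraicClosure ℚ) (hσ : A.IsFrobeniusAt σ q)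
    (x : JZero (m * q)) (hx : ∃ n : ℕ, p ^ n • x = 0)
    (h1 : H67.degPull (M := m) (N := m * q) q (dvd_refl _)
      (H67.degPush (M := m) 1 (by simp) x) = 0)
    (h2 : H67.degPull (M := m) (N := m * q) q (dvd_refl _)
      (H67.degPush (M := m) 1 (by simp) (H67.wJ m q rfl hc x)) = 0) :
    σ • (σ • x) + σ • (H67.wJ m q rfl hc x) + q • H67.wJ m q rfl hc (σ • x) + q • x = 0 :=
  H89J.starInput' hq hqm hp hpq hc A hA σ hσ x hx h1 h2

/-! ### 7. One point of the Hecke ring (input of S33) -/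

/-- **Realisation at a point.**  `H` is a Hecke-Galois datum: a complete local Hecke ring `T` of
level `N` (away from `S`), finite and free over `𝒪`, with a representation `H.ρ` of rank two over
`T`, on the module `V = H.ρ.V`.  For every point `ψ : T → K` in a field there is a non-zero Galois
equivariant homomorphism from `V` to the `p`-adic Tate module `TateMod p (JZero N)` which kills
`t V` for the `t` in the kernel of `ψ`.  So local properties of `T_p J₀(N)` (ordinarity for
`p ∥ N`) pass to the representation at the point `ψ`.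
Proof: there is a Galois equivariant embedding `K ⊗_T V → K ⊗ T_p J₀(N)` (`H32RealK`; from the
Eichler-Shimura relation); the image of `V` lies in `K₀ ⊗ T_p J₀(N)` for a finite free
`ℤ_p`-submodule `K₀` of `K`; take a suitable coordinate function on `K₀`.
Proved in `H89Point`; used in S33. -/
theorem exists_hom_of_point {p : ℕ} [Fact p.Prime] {N : ℕ} [NeZero N] {S : Finset ℕ}
    {𝒪 : Type} [CommRing 𝒪] [IsDomain 𝒪] [IsDiscreteValuationRing 𝒪]
    [IsAdicComplete (IsLocalRing.maximalIdeal 𝒪) 𝒪]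
    {θ : CuspForm.heckeAlgebra N 2 (↑S : Set ℕ) →+* IsLocalRing.ResidueField 𝒪}
    {T : Type} [CommRing T] [IsLocalRing T] [IsNoetherianRing T]
    [IsAdicComplete (IsLocalRing.maximalIdeal T) T] [Algebra 𝒪 T]
    [IsLocalHom (algebraMap 𝒪 T)] [Module.Finite 𝒪 T] [Module.Free 𝒪 T]
    [Finite (IsLocalRing.ResidueField 𝒪)] [CharZero 𝒪]
    (hp𝒪 : (p : 𝒪) ∈ IsLocalRing.maximalIdeal 𝒪) (hpS : p ∈ S)
    (hNS : ∀ q : ℕ, q.Prime → q ∣ N → q ∈ S)
    (H : CuspForm.HeckeGaloisRepDatum N (↑S : Set ℕ) 𝒪 θ T)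
    {K : Type} [Field K] [Algebra 𝒪 K] [FaithfulSMul 𝒪 K] (ψ : T →ₐ[𝒪] K) :
    ∃ h : H.ρ.V →+ H30.TateMod p (JZero N), h ≠ 0 ∧
      (∀ σ v, h (H.ρ.ρ σ v) = H30.galTate p (JZero N) σ (h v)) ∧
      (∀ t : T, ψ t = 0 → ∀ v, h (t • v) = 0) :=
  H89Point.exists_hom_of_point hp𝒪 hpS hNS H ψ

end Fermat.Agent.Guide.BadRed
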