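import Fermat.Agent.H67Uq

/-!
# Degeneracy maps, Atkin–Lehner involutions and Hecke operators on `JZero N` (helper67)
-/

set_option autoImplicit false
set_option linter.unusedSectionVars false
set_option linter.style.haveILetI false

noncomputable section

open AlgebraicCurve IntermediateField HahnSeries ModularCurve

namespace Fermat.Agent.H67

section Semilinear

variable {K : Type*} [Field K] [IsAlgClosed K] [CharZero K]
variable {F F' : Type*} [Field F] [Field F'] [Algebra K F] [Algebra K F']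
  [H94.FunField K F] [H94.FunField K F']
  (g : SemilinearAut K F) (g' : SemilinearAut K F') (φ : F →ₐ[K] F')
  (h : ∀ x : F, g' • φ x = φ (g • x))

include h

theorem pushD_smul (D : Divisor K F') : pushD φ (g' • D) = g • pushD φ D :=
  pushforwardAlong_smul g g' (fun v => by rw [H94.deg_eq_one]; exact one_ne_zero) φ (isInt φ) h D

theorem pullD_smul (D : Divisor K F) : pullD φ (g • D) = g' • pullD φ D :=
  haveI := H94.hasPrincipalDivisors K F'
  pullbackAlong_smul g g' φ (isInt φ) h D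

theorem pushP_smul (x : Pic0 K F') : pushP φ (g' • x) = g • pushP φ x := by
  obtain ⟨D, rfl⟩ := Pic0.mk_surjective x
  rw [SemilinearAut.pic0_smul_mk, pushP_mk, pushP_mk, SemilinearAut.pic0_smul_mk]
  exact mk_congr (pushD_smul g g' φ h D.1)

theorem pullP_smul (x : Pic0 K F) : pullP φ (g • x) = g' • pullP φ x := by
  obtain ⟨D, rfl⟩ := Pic0.mk_surjective x
  rw [SemilinearAut.pic0_smul_mk, pullP_mk, pullP_mk, SemilinearAut.pic0_smul_mk]
  exact mk_congr (pullD_smul g g' φ h D.1)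

end Semilinear

section Galois

variable {L : Type*} [Field L] [Algebra ℚ L] [IsAlgClosed L] [CharZero L]

omit [IsAlgClosed L] [CharZero L] in
theorem dg_smul {M N : ℕ} [NeZero M] [NeZero N] (d : ℕ) [NeZero d] (h : M * d ∣ N)
    (σ : L ≃ₐ[ℚ] L) (x : FB L M) :
    arithmeticGalois (modularFunctionFieldFull N) σ • dg L d h x
      = dg L d h (arithmeticGalois (modularFunctionFieldFull M) σ • x) := by
  apply Subtype.ext
  rw [coe_arithmeticGalois_smul, coe_dg, coe_dg, coe_arithmeticGalois_smul, coeffMap_qExpand]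

theorem pushP_dg_smul {M N : ℕ} [NeZero M] [NeZero N] (d : ℕ) [NeZero d] (h : M * d ∣ N)
    (σ : L ≃ₐ[ℚ] L) (x : Pic0 L (FB L N)) :
    pushP (dg L d h) (σ • x) = σ • pushP (dg L d h) x :=
  pushP_smul (arithmeticGalois (modularFunctionFieldFull M) σ)
    (arithmeticGalois (modularFunctionFieldFull N) σ) (dg L d h) (dg_smul d h σ) x

theorem pullP_dg_smul {M N : ℕ} [NeZero M] [NeZero N] (d : ℕ) [NeZero d] (h : M * d ∣ N)
    (σ : L ≃ₐ[ℚ] L) (x : Pic0 L (FB L M)) :
    pullP (dg L d h) (σ • x) = σ • pullP (dg L d h) x :=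
  pullP_smul (arithmeticGalois (modularFunctionFieldFull M) σ)
    (arithmeticGalois (modularFunctionFieldFull N) σ) (dg L d h) (dg_smul d h σ) x

theorem IsAL.pushP_smul {R A Q : ℕ} [NeZero R] {W : FB L R ≃ₐ[L] FB L R} (hW : IsAL A Q W)
    (σ : L ≃ₐ[ℚ] L) (x : Pic0 L (FB L R)) :
    pushP W.toAlgHom (σ • x) = σ • pushP W.toAlgHom x :=
  Fermat.Agent.H67.pushP_smul (arithmeticGalois (modularFunctionFieldFull R) σ)
    (arithmeticGalois (modularFunctionFieldFull R) σ) W.toAlgHom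
    (fun y => (hW.galois σ y).symm) x

end Galois

section JZero

/-- an embedding of `ℚ̄` in `ℂ` -/
def embQbar : AlgebraicClosure ℚ →+* ℂ :=
  haveI : Algebra.IsAlgebraic ℚ (AlgebraicClosure ℚ) := AlgebraicClosure.isAlgebraic ℚ
  (IsAlgClosed.lift (R := ℚ) (S := AlgebraicClosure ℚ) (M := ℂ)).toRingHom

local notation "Qb" => AlgebraicClosure ℚ
local notation "GQ" => AlgebraicClosure ℚ ≃ₐ[ℚ] AlgebraicClosure ℚ

variable {M N : ℕ} [NeZero M] [NeZero N]

/-- Push forward `J₀(N) → J₀(M)` along the degeneracy map `f(τ) ↦ f(dτ)`, `M d ∣ N`. -/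
def degPush (d : ℕ) [NeZero d] (h : M * d ∣ N) : JZero N →+ JZero M := pushP (dg Qb d h)

/-- Pull back `J₀(M) → J₀(N)` along the degeneracy map `f(τ) ↦ f(dτ)`, `M d ∣ N`. -/
def degPull (d : ℕ) [NeZero d] (h : M * d ∣ N) : JZero M →+ JZero N := pullP (dg Qb d h)

theorem degPush_galois (d : ℕ) [NeZero d] (h : M * d ∣ N) (σ : GQ) (x : JZero N) :
    degPush d h (σ • x) = σ • degPush d h x := pushP_dg_smul d h σ x

theorem degPull_galois (d : ℕ) [NeZero d] (h : M * d ∣ N) (σ : GQ) (x : JZero M) :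
    degPull d h (σ • x) = σ • degPull d h x := pullP_dg_smul d h σ x

theorem degPush_degPush {R : ℕ} [NeZero R] (d d' e : ℕ) [NeZero d] [NeZero d'] [NeZero e]
    (h : M * d ∣ N) (h' : N * d' ∣ R) (h'' : M * e ∣ R) (he : d' * d = e) (x : JZero R) :
    degPush d h (degPush d' h' x) = degPush e h'' x := by
  unfold degPush
  rw [← pushP_comp, dg_comp d d' e h h' h'' he]

theorem degPull_degPull {R : ℕ} [NeZero R] (d d' e : ℕ) [NeZero d] [NeZero d'] [NeZero e]
    (h : M * d ∣ N) (h' : N * d' ∣ R) (h'' : M * e ∣ R) (he : d' * d = e) (x : JZero M) :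
    degPull d' h' (degPull d h x) = degPull e h'' x := by
  unfold degPull
  rw [← pullP_comp, dg_comp d d' e h h' h'' he]

theorem degPush_degPull (d : ℕ) [NeZero d] (h : M * d ∣ N) (x : JZero M) :
    degPush d h (degPull d h x) = (finrankAlong Qb (dg Qb d h) : ℤ) • x := pushP_pullP _ x

/-- The Atkin–Lehner involution `w_Q` on `J₀(R)`, `R = AQ`. -/
def wJ {R : ℕ} [NeZero R] (A Q : ℕ) (hR : R = A * Q) (hc : A.Coprime Q) : JZero R →+ JZero R :=
  pushP (atkin (L := Qb) embQbar A Q hR hc).toAlgHom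

section wJ

variable {R A Q : ℕ} [NeZero R] (hR : R = A * Q) (hc : A.Coprime Q)

theorem wJ_wJ (x : JZero R) : wJ A Q hR hc (wJ A Q hR hc x) = x :=
  (isAL_atkin embQbar A Q hR hc).pushP_pushP hR hc x

theorem wJ_galois (σ : GQ) (x : JZero R) : wJ A Q hR hc (σ • x) = σ • wJ A Q hR hc x :=
  (isAL_atkin embQbar A Q hR hc).pushP_smul σ x

theorem wJ_hecke (r : Nat.Primes) (hr : (r : ℕ).Coprime Q) (x : JZero R) :
    wJ A Q hR hc (heckeOperatorBar R r x) = heckeOperatorBar R r (wJ A Q hR hc x) := by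
  haveI : NeZero (r : ℕ) := ⟨r.2.ne_zero⟩
  rw [heckeOperatorBar_apply, heckeOperatorBar_apply]
  exact (isAL_atkin embQbar A Q hR hc).pushP_hecke hR hc embQbar hr x

variable [NeZero A] [NeZero Q]

theorem degPush_one_wJ (h1 : A * 1 ∣ R) (h2 : A * Q ∣ R) (x : JZero R) :
    degPush 1 h1 (wJ A Q hR hc x) = degPush Q h2 x :=
  (isAL_atkin embQbar A Q hR hc).pushP_dg_one hR hc h1 h2 x

theorem degPush_Q_wJ (h1 : A * 1 ∣ R) (h2 : A * Q ∣ R) (x : JZero R) :
    degPush Q h2 (wJ A Q hR hc x) = degPush 1 h1 x :=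
  (isAL_atkin embQbar A Q hR hc).pushP_dg_Q hR hc h1 h2 x

theorem wJ_degPull_one (h1 : A * 1 ∣ R) (h2 : A * Q ∣ R) (x : JZero A) :
    wJ A Q hR hc (degPull 1 h1 x) = degPull Q h2 x :=
  (isAL_atkin embQbar A Q hR hc).pullP_dg_one hR hc h1 h2 x

theorem wJ_degPull_Q (h1 : A * 1 ∣ R) (h2 : A * Q ∣ R) (x : JZero A) :
    wJ A Q hR hc (degPull Q h2 x) = degPull 1 h1 x :=
  (isAL_atkin embQbar A Q hR hc).pullP_dg_Q hR hc h1 h2 x

end wJ

section Hecke

variable {M q a : ℕ} [NeZero M] [NeZero (M * q)] [NeZero a] (hq : q.Prime)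
  (ha : a = 1 ∨ a = q) (h : M * a ∣ M * q)

include hq ha

theorem degPush_hecke (r : Nat.Primes) (hr : (r : ℕ) ≠ q) (x : JZero (M * q)) :
    degPush a h (heckeOperatorBar (M * q) r x) = heckeOperatorBar M r (degPush a h x) := by
  haveI : NeZero (r : ℕ) := ⟨r.2.ne_zero⟩
  rw [heckeOperatorBar_apply, heckeOperatorBar_apply]
  exact pushP_heckeOperatorAlong embQbar hq r.2 hr.symm ha h x

theorem degPull_hecke (r : Nat.Primes) (hr : (r : ℕ) ≠ q) (x : JZero M) :
    degPull a h (heckeOperatorBar M r x) = heckeOperatorBar (M * q) r (degPull a h x) := by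
  haveI : NeZero (r : ℕ) := ⟨r.2.ne_zero⟩
  rw [heckeOperatorBar_apply, heckeOperatorBar_apply]
  exact pullP_heckeOperatorAlong embQbar hq r.2 hr.symm ha h x

end Hecke

section Uq

variable {M : ℕ} [NeZero M] (q : Nat.Primes) [NeZero (M * q)] [NeZero (q : ℕ)]

/-- `U_q + w_q = β^* α_*` on `J₀(Mq)`, `q ∤ M`. -/
theorem heckeOperatorBar_add_wJ (hqM : ¬ (q : ℕ) ∣ M) (hc : M.Coprime q) (h1 : M * 1 ∣ M * q)
    (h2 : M * q ∣ M * q) (x : JZero (M * q)) :
    heckeOperatorBar (M * q) q x + wJ M q rfl hc x = degPull q h2 (degPush 1 h1 x) := by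
  rw [heckeOperatorBar_apply]
  exact Uq_add_wq q.2 hqM (isAL_atkin embQbar M q rfl hc) h1 h2 x

/-- `U_q = β^* α_*` on `J₀(Mq)`, `q ∣ M`. -/
theorem heckeOperatorBar_of_dvd (hqM : (q : ℕ) ∣ M) (h1 : M * 1 ∣ M * q)
    (h2 : M * q ∣ M * q) (x : JZero (M * q)) :
    heckeOperatorBar (M * q) q x = degPull q h2 (degPush 1 h1 x) := by
  rw [heckeOperatorBar_apply]
  exact Uq_of_dvd q.2 hqM h1 h2 x

theorem degPush_one_degPull_one (h1 : M * 1 ∣ M * q) (x : JZero M) :
    degPush 1 h1 (degPull 1 h1 x) = (cdeg M q : ℤ) • x :=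
  alphaPush_alphaPull q.2 h1 x

theorem degPush_q_degPull_q (h2 : M * q ∣ M * q) (x : JZero M) :
    degPush (q : ℕ) h2 (degPull (q : ℕ) h2 x) = (cdeg M q : ℤ) • x :=
  betaPush_betaPull embQbar q.2 h2 x

theorem degPush_one_degPull_q (h1 : M * 1 ∣ M * q) (h2 : M * q ∣ M * q) (x : JZero M) :
    degPush 1 h1 (degPull (q : ℕ) h2 x) = heckeOperatorBar M q x := by
  rw [heckeOperatorBar_apply]
  exact alphaPush_betaPull h1 h2 x

theorem degPush_q_degPull_one (hqM : ¬ (q : ℕ) ∣ M) (h1 : M * 1 ∣ M * q) (h2 : M * q ∣ M * q)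
    (x : JZero M) : degPush (q : ℕ) h2 (degPull 1 h1 x) = heckeOperatorBar M q x := by
  rw [heckeOperatorBar_apply]
  exact betaPush_alphaPull embQbar q.2 hqM h1 h2 x

theorem heckeOperatorBar_degPull_one (hqM : ¬ (q : ℕ) ∣ M) (h1 : M * 1 ∣ M * q)
    (h2 : M * q ∣ M * q) (x : JZero M) :
    heckeOperatorBar (M * q) q (degPull 1 h1 x) = ((q : ℕ) : ℤ) • degPull (q : ℕ) h2 x := by
  rw [heckeOperatorBar_apply]
  exact Uq_alphaPull embQbar q.2 hqM h1 h2 x

theorem heckeOperatorBar_degPull_q (hqM : ¬ (q : ℕ) ∣ M) (h1 : M * 1 ∣ M * q)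
    (h2 : M * q ∣ M * q) (x : JZero M) :
    heckeOperatorBar (M * q) q (degPull (q : ℕ) h2 x)
      = degPull (q : ℕ) h2 (heckeOperatorBar M q x) - degPull 1 h1 x := by
  rw [heckeOperatorBar_apply, heckeOperatorBar_apply]
  exact Uq_betaPull embQbar q.2 hqM h1 h2 x

end Uq

/-! ### Equivariance for the Hecke algebra `HeckeAlg = ℤ[T_ℓ]` -/

section HeckeAlg

/-- A map commuting with `T_r` for `r ∈ U` commutes with every polynomial in the `T_r`, `r ∈ U`. -/
theorem map_smul_of_supported {N N' : ℕ} [NeZero N] [NeZero N'] (φ : JZero N →+ JZero N')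
    (U : Set Nat.Primes)
    (h : ∀ r ∈ U, ∀ x, φ (heckeOperatorBar N r x) = heckeOperatorBar N' r (φ x))
    (P : HeckeAlg) (hP : P ∈ MvPolynomial.supported ℤ U) (x : JZero N) :
    letI := heckeModuleBar N
    letI := heckeModuleBar N'
    φ (P • x) = P • φ x := by
  letI := heckeModuleBar N
  letI := heckeModuleBar N'
  have hsup : P ∈ Algebra.adjoin ℤ (MvPolynomial.X '' U) := hP
  induction hsup using Algebra.adjoin_induction generalizing x with
  | mem p hp =>
    obtain ⟨r, hr, rfl⟩ := hp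
    change φ (heckeGen r • x) = heckeGen r • φ x
    rw [heckeModuleBar_heckeGen_smul (heckeOperatorsCommuteBar N),
      heckeModuleBar_heckeGen_smul (heckeOperatorsCommuteBar N'), h r hr]
  | algebraMap a =>
    rw [MvPolynomial.algebraMap_eq, heckeModuleBar_C_smul, heckeModuleBar_C_smul, map_zsmul]
  | add p q hp hq ihp ihq =>
    rw [add_smul, add_smul, map_add, ihp hp, ihq hq]
  | mul p q hp hq ihp ihq =>
    rw [mul_smul, mul_smul, ihp hp, ihq hq]

end HeckeAlg

end JZero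

end Fermat.Agent.H67
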