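import Fermat.Agent.H89HU
import Fermat.Agent.H67J
import Fermat.Agent.H3RR_Bridge

/-!
# The operator `U = α^* α_* w - w` on `Pic⁰` and the hypothesis `HU`
-/

set_option autoImplicit false
set_option linter.style.haveILetI false

noncomputable section

open AlgebraicCurve ModularCurve IntermediateField HahnSeries Fermat.Agent.H60
  Fermat.Agent.H34.Two Fermat.Agent.H67

namespace Fermat.Agent.H89HU

section General

variable {K : Type*} [Field K] [IsAlgClosed K] [CharZero K]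
variable {F F' : Type*} [Field F] [Field F'] [Algebra K F] [Algebra K F']
  [H94.FunField K F] [H94.FunField K F']

theorem res_toAlgHom (e : F ≃ₐ[K] F) (v : Place K F) :
    res e.toAlgHom v = (SemilinearAut.ofAlgAut e)⁻¹ • v := by
  apply Place.ext
  ext x
  rw [mem_res, SemilinearAut.smul_toValuationSubring, ValuationSubring.mem_inv_pointwise_smul_iff]
  rfl

theorem pushP_toAlgHom (e : F ≃ₐ[K] F) (x : Pic0 K F) :
    pushP e.toAlgHom x = (SemilinearAut.ofAlgAut e)⁻¹ • x := by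
  obtain ⟨D, rfl⟩ := Pic0.mk_surjective x
  rw [pushP_mk, SemilinearAut.pic0_smul_mk]
  apply mk_congr
  change pushD e.toAlgHom (D : Divisor K F) = (SemilinearAut.ofAlgAut e)⁻¹ • (D : Divisor K F)
  rw [pushD_eq, SemilinearAut.divisor_smul_def]
  exact Finsupp.mapDomain_congr fun v _ => res_toAlgHom e v

theorem divF_eq_nsmul {f : F} (hf : f ≠ 0) {d : ℕ} {E : Divisor K F}
    (h : ∀ v : Place K F, v.ord f = d * E v) : divF (K := K) f hf = d • E := by
  ext v
  rw [divF_apply, h]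
  simp

/-- The operator `φ^* φ_* w - w`. -/
def Uop (φ : F →ₐ[K] F') (W : F' ≃ₐ[K] F') : Pic0 K F' →+ Pic0 K F' :=
  (pullP φ).comp ((pushP φ).comp
    (DistribSMul.toAddMonoidHom _ (SemilinearAut.ofAlgAut W))) -
    DistribSMul.toAddMonoidHom _ (SemilinearAut.ofAlgAut W)

theorem Uop_apply (φ : F →ₐ[K] F') (W : F' ≃ₐ[K] F') (x : Pic0 K F') :
    Uop φ W x = pullP φ (pushP φ (SemilinearAut.ofAlgAut W • x)) -
      SemilinearAut.ofAlgAut W • x := rfl

/-- The function `U f`. -/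
def uF (φ : F →ₐ[K] F') (W : F' ≃ₐ[K] F') (f : F') : F' :=
  φ (normAlong φ (W f)) * (W f)⁻¹

theorem uF_ne_zero (φ : F →ₐ[K] F') (W : F' ≃ₐ[K] F') {f : F'} (hf : f ≠ 0) :
    uF φ W f ≠ 0 := by
  have h1 : W f ≠ 0 := (map_ne_zero W).mpr hf
  refine mul_ne_zero ((map_ne_zero _).mpr ?_) (inv_ne_zero h1)
  exact normAlong_ne_zero' (K := K) φ h1

theorem exists_HU (φ : F →ₐ[K] F') (W : F' ≃ₐ[K] F') {d : ℕ} {f : F'} (hf : f ≠ 0)
    (E : Divisor.degZero (K := K) (F := F'))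
    (h : ∀ v : Place K F', v.ord f = d * (E : Divisor K F') v) :
    ∃ E1 : Divisor.degZero (K := K) (F := F'),
      (∀ v : Place K F', v.ord (uF φ W f) = d * (E1 : Divisor K F') v) ∧
      Pic0.mk E1 = Uop φ W (Pic0.mk E) := by
  set W' := SemilinearAut.ofAlgAut W with hW'
  have h1 : W f ≠ 0 := (map_ne_zero W).mpr hf
  have hWf : ∀ v : Place K F', v.ord (W f) = d * (W' • (E : Divisor K F')) v := by
    intro v
    rw [SemilinearAut.divisor_smul_apply, ← h]
    have := SemilinearAut.ord_smul W' (W'⁻¹ • v) f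
    rwa [smul_inv_smul] at this
  have hE : Divisor.degree (W' • (E : Divisor K F')) = 0 := by
    rw [SemilinearAut.degree_smul]
    exact E.2
  have hmem : pullD φ (pushD φ (W' • (E : Divisor K F'))) ∈
      Divisor.degZero (K := K) (F := F') := by
    rw [Divisor.mem_degZero, degree_pullD, degree_pushD, hE, mul_zero]
  refine ⟨⟨_, hmem⟩ - ⟨_, hE⟩, ?_, rfl⟩
  intro v
  have hn := normAlong_ne_zero' (K := K) φ h1
  have h3 : v.ord (φ (normAlong φ (W f))) =
      d * pullD φ (pushD φ (W' • (E : Divisor K F'))) v := by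
    rw [ord_res, ← divF_apply (K := K) _ hn, ← pushD_divF _ _ h1, divF_eq_nsmul h1 hWf,
      pullD_apply, map_nsmul, Finsupp.smul_apply, nsmul_eq_mul]
    ring
  rw [uF, v.ord_mul ((map_ne_zero _).mpr hn) (inv_ne_zero h1), v.ord_inv, hWf, h3,
    AddSubgroup.coe_sub, Finsupp.sub_apply]
  ring

theorem pushP_eq_smul {W : F' ≃ₐ[K] F'} (hinv : ∀ f, W (W f) = f) (y : Pic0 K F') :
    pushP W.toAlgHom y = SemilinearAut.ofAlgAut W • y := by
  rw [pushP_toAlgHom W y, ← map_inv]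
  have h2 : W⁻¹ = W := by
    rw [inv_eq_iff_mul_eq_one]
    exact AlgEquiv.ext fun f => hinv f
  rw [h2]

theorem pushP_pushP' {W : F' ≃ₐ[K] F'} (hinv : ∀ f, W (W f) = f) (y : Pic0 K F') :
    pushP W.toAlgHom (pushP W.toAlgHom y) = y := by
  rw [← pushP_comp]
  have : W.toAlgHom.comp W.toAlgHom = AlgHom.id K F' := AlgHom.ext hinv
  rw [this, pushP_id]

theorem pushP_pullP' {W : F' ≃ₐ[K] F'} (hinv : ∀ f, W (W f) = f) {φ ψ : F →ₐ[K] F'}
    (h : ∀ x, W (ψ x) = φ x) (z : Pic0 K F) :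
    pushP W.toAlgHom (pullP ψ z) = pullP φ z := by
  have h1 : φ = W.toAlgHom.comp ψ := AlgHom.ext fun x => (h x).symm
  have h2 : W.symm = W := AlgEquiv.ext fun x => by
    rw [AlgEquiv.symm_apply_eq, hinv]
  rw [h1, pullP_comp, pullP_equiv, h2]

theorem Uop_add {W : F' ≃ₐ[K] F'} (hinv : ∀ f, W (W f) = f) {φ ψ : F →ₐ[K] F'}
    (h : ∀ x, W (ψ x) = φ x) (y : Pic0 K F') :
    Uop φ W y + SemilinearAut.ofAlgAut W • y =
      pushP W.toAlgHom (pullP ψ (pushP φ (pushP W.toAlgHom y))) := by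
  rw [Uop_apply, sub_add_cancel, pushP_pullP' hinv h, pushP_eq_smul hinv]

/-- The Steinberg relation with `U + w = φ^* φ_* w`. -/
theorem steinberg_push {k κ : Type*} [Field k] [Field κ] [Algebra k κ]
    {A : ValuationSubring K} {π : A →+* k} {q : ℕ} [IsAlgClosed k] [H3RR.IsFF k κ]
    [IsLocalHom π] [Fact q.Prime] [CharP k q] (T : H89SS.TwoComp K F' k κ A π q)
    (hπ : Function.Surjective π)
    (arch : ∀ a b : A, π a = 0 → b ≠ 0 → ∃ n, b ∣ a ^ n)
    {d : ℕ} (hd : (d : k) ≠ 0) {W : F' ≃ₐ[K] F'} (hinv : ∀ f, W (W f) = f)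
    (hW : T.Swap W) {g : SemilinearAut K F'}
    (hg : T.Compat g T.fr) (hgW : ∀ f : F', g • (W f) = W (g • f)) {φ ψ : F →ₐ[K] F'}
    (h : ∀ x, W (ψ x) = φ x)
    (hred : ∀ (f : F') (h : f ∈ T.V₁), T.ρ₁ ⟨f, h⟩ ≠ 0 →
      ∃ h1 : uF φ W f ∈ T.V₁, T.ρ₁ ⟨_, h1⟩ = T.fr • T.ρ₁ ⟨f, h⟩)
    (x : Pic0 K F') (hx : d • x = 0) (hx1 : pullP ψ (pushP φ x) = 0)
    (hx2 : pullP ψ (pushP φ (pushP W.toAlgHom x)) = 0) :
    g • (g • x) + g • (pushP W.toAlgHom x) + q • (pushP W.toAlgHom (g • x)) + q • x = 0 := by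
  have h1 : Uop φ W x + SemilinearAut.ofAlgAut W • x = 0 := by
    rw [Uop_add hinv h, hx2, map_zero]
  have h2 : Uop φ W (SemilinearAut.ofAlgAut W • x) +
      SemilinearAut.ofAlgAut W • (SemilinearAut.ofAlgAut W • x) = 0 := by
    rw [Uop_add hinv h, ← pushP_eq_smul hinv x, pushP_pushP' hinv, hx1, map_zero]
  have key := T.steinberg hπ arch hd hW hg hgW (Uop φ W) (by
    intro f E hf hE
    obtain ⟨E1, hE1, hE1'⟩ := exists_HU φ W hf E hE
    exact ⟨uF φ W f, E1, uF_ne_zero φ W hf, hE1, hE1', hred f⟩) x hx h1 h2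
  rw [smul_add, ← pushP_eq_smul hinv, ← pushP_eq_smul hinv, map_add, pushP_pushP' hinv,
    nsmul_add] at key
  rw [← key]
  abel

end General

end Fermat.Agent.H89HU
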