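import Fermat.Agent.H89Inst
import Fermat.Agent.H89HU2

/-!
# Guide: the reduction of `X₀(mq)` at `q`, the steps of the proofs

Companion of `GuideBadRed`, sections 3 - 5 (read that file first; its notation is used here).
`GuideBadRed` contains the structure of the special fibre, the criterion for a torsion class to be
trivial, and the action of inertia and Frobenius.  This file contains the intermediate statements,
each written out in full and proved by citing the library.

**Statements served:** S34, S35, S01.  Proof terms: all theorems are in those of S01, S03, S04, S06,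
S38, S43, S45, S46, S50, S59, S60; also in those of S35, S58, except the inverse in `unitPair_group`
and (1) of `zeta_automorphisms`; sections 1 - 4, 6 (except `exists_root`) and parts of section 5 in
those of S34, S09, S12, S15; `oRed`, `coordinates_integral`, `reduction_of_spaces`, sections 2 - 4
(except `reductions_eq_glued_pairs` and the rule for powers in `val_rules`), `exists_root` and
`exists_idempotent` in those of S33, S39, S40, S44.  NOTES.md: BADRED [172], [271].
Author of the library files (`H89SS1` - `H89SS10`, `H89HU`, `H89HU2`) and of this guide: helper89.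

**The plan.**
1. *Linear algebra over a valuation ring*, for an orthonormalisable reduction `ρ : O → T`: the
   coordinates of integral elements are integral, the dimension of a space of functions is the
   dimension of its reduction; if one space of functions is close to a multiple of another one, a
   multiple of it is equal to the other one (from approximate solutions to exact ones).
2. *Functions on one component*: values, strong approximation, an ideal which contains all
   functions vanishing on a finite set.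
3. *The glued curve*: a ring of pairs which contains all `(a, Φ a)` and `(Φ a, a)` is determined by
   the places at which its pairs are glued.
4. *The spaces of reductions* `V(n)`, `VE(n)` and their description `U(n)`, `Uz(n)` by poles and
   glueing conditions.
5. *Unit pairs and toric coordinates*: additivity and the action of automorphisms.
6. *Principality*: the exact form of the approximation argument; weak approximation.
7. *The operator `U = α^* α_* w - w`* (`= w U_q w`, the transpose of the Hecke operator `U_q`): on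
   functions it is `f ↦ α(N_α(w f)) / w f`, and it raises the coefficients of the reduction on the
   component of the cusp `∞` to the `q`-th power.

**Where it is used.**  Section 1: `GuideBadRed.exact_of_approx` and `principal_of_unitPair`.
Sections 2, 3: `mem_glueRing_iff`.  Section 4: `exists_isZeta`, `lift_of_isZeta`.  Section 5:
`unitPair_inertia`, `unitPair_frobenius`.  Section 6: `weak_approx`, `exists_unitPair`, `inertia_sq`.
Section 7: the hypotheses `HU`, `h1`, `h2` of `steinberg`, and `reduction_U`.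
-/

set_option autoImplicit false

noncomputable section

open AlgebraicCurve ModularCurve WithZero Module Fermat.Agent Fermat.Agent.H89SS

namespace Fermat.Agent.Guide.BadRedSteps

/-! ### 1. Linear algebra over a valuation ring

`K` is a field with a valuation ring `A` and a surjective local homomorphism `π : A → k`; `F` is a
field extension of `K` and `T` a commutative `k`-algebra.  In the application `F` is the function
field, `O` the ring of the functions which are integral on both components, and `T = κ × κ`. -/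

section Linear

variable {K k F T : Type*} [Field K] [Field k] [Field F] [Algebra K F] [CommRing T] [Algebra k T]
  {A : ValuationSubring K} {π : A →+* k}

/-- **`R : ORed F T A π`, unfolded** (an orthonormalisable reduction): a subring `O` of `F` with a
ring homomorphism `ρ : O → T`, which is `π` on the constants `a ∈ A` (`R.const a` is `a` as an element
of `O`), such that every finite dimensional `K`-subspace of `F` has a basis in `O` with linearly
independent reductions (an *orthonormal basis*).  Definition in `H89SS1`. -/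
theorem oRed (R : ORed F T A π) :
    (∀ a : A, ∃ h : algebraMap K F a ∈ R.O, R.ρ ⟨_, h⟩ = algebraMap k T (π a)) ∧
    ∀ (W : Submodule K F) [FiniteDimensional K W],
      ∃ (d : ℕ) (w : Fin d → R.O), Submodule.span K (Set.range fun i => (w i : F)) = W ∧
        LinearIndependent k (fun i => R.ρ (w i)) :=
  ⟨fun a => ⟨R.mem a, R.ρ_mem a⟩, fun W _ => R.exists_basis W⟩

/-- **Coordinates.**  A family of elements of `O` with linearly independent reductions is linearly
independent, and the coordinates of an element of `O` with respect to it are in `A`.  Proof: divide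
by the coordinate of largest absolute value and reduce.  In `H89SS1`. -/
theorem coordinates_integral [IsLocalHom π] (R : ORed F T A π) {ι : Type*} [Fintype ι]
    (w : ι → R.O) (hw : LinearIndependent k (fun i => R.ρ (w i))) :
    LinearIndependent K (fun i => (w i : F)) ∧
      ∀ (c : ι → K) (x : R.O), (x : F) = ∑ i, c i • (w i : F) → ∀ i, c i ∈ A :=
  ⟨R.linearIndependent w hw, R.coeff_mem w hw⟩

/-- **Reduction of spaces.**  `R.red hπ W` is the space of the reductions of the elements of
`W ∩ O`; it has the dimension of `W`.  In `H89SS1`. -/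
theorem reduction_of_spaces [IsLocalHom π] (R : ORed F T A π) (hπ : Function.Surjective π)
    (W : Submodule K F) [FiniteDimensional K W] :
    (∀ t : T, t ∈ R.red hπ W ↔ ∃ x : R.O, (x : F) ∈ W ∧ R.ρ x = t) ∧
      finrank k (R.red hπ W) = finrank K W :=
  ⟨fun _ => Iff.rfl, R.finrank_red W⟩

/-- **Extension of orthonormal bases.**  For `W ⊆ W'` there is an orthonormal basis of `W'` whose
first part is one of `W`.  In `H89SS1`. -/
theorem extend_basis [IsLocalHom π] (R : ORed F T A π) (hπ : Function.Surjective π)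
    {W W' : Submodule K F} [FiniteDimensional K W'] (h : W ≤ W') :
    ∃ (a b : ℕ) (w : Fin a → R.O) (z : Fin b → R.O),
      Submodule.span K (Set.range fun i => (w i : F)) = W ∧
      Submodule.span K (Set.range fun i => ((Sum.elim w z i : R.O) : F)) = W' ∧
      LinearIndependent k (fun i => R.ρ (Sum.elim w z i)) :=
  R.exists_basis_extend hπ h

/-- **The kernel of the reduction.**  An element of `O` with reduction `0` is `a z` with `z ∈ O` and
a constant `a` with `π(a) = 0`; and a finite family of elements of `F` can be multiplied into `O` by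
a constant `c ≠ 0`.  In `H89SS3`, `H89SS7`. -/
theorem kernel_and_scaling [IsLocalHom π] (R : ORed F T A π) :
    (∀ x : R.O, R.ρ x = 0 → ∃ (a : A) (z : R.O), π a = 0 ∧ (x : F) = algebraMap K F a * z) ∧
      ∀ {ι : Type} [Finite ι] (x : ι → F), ∃ c : K, c ≠ 0 ∧ ∀ i, c • x i ∈ R.O :=
  ⟨fun x hx => (R.exists_const_mul_of_ρ_eq_zero x hx).elim fun a ⟨z, h, e⟩ =>
    ⟨a, z, h, congrArg Subtype.val e⟩, fun x => R.exists_const_mul_mem_finite x⟩

/-- **Injective maps are bounded below.**  `L` finite dimensional, `Ψ : L^r → F^s` linear and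
injective.  There is a constant `c ≠ 0` such that `c w ∈ O^r` whenever `Ψ(w) ∈ O^s`.  In `H89SS3`.
This gives `GuideBadRed.exact_of_approx`: if there is no `h ≠ 0` with `h L' ⊆ L`, the map which
sends `(w_i)` to the `w_i u_j - w_j u_i` (`u_i` a basis of `L'`) is injective. -/
theorem bounded_below [IsLocalHom π] (R : ORed F T A π) {r s : ℕ} (L : Submodule K F)
    [FiniteDimensional K L] (Ψ : (Fin r → L) →ₗ[K] (Fin s → F)) (hΨ : Function.Injective Ψ) :
    ∃ c : K, c ≠ 0 ∧ ∀ w : Fin r → L, (∀ i, Ψ w i ∈ R.O) → ∀ i, c • (w i : F) ∈ R.O :=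
  R.exists_bound L Ψ hΨ

/-- **The approximation lemma.**  `d = e + 2` is not zero in `k`; `y ∈ O` has reduction `1` and
`y ^ d ≡ f` modulo the constant `c₀ ≠ 0`.  Write `red L` for the reduction of a space `L`.  Suppose
`L₁' L₁ ⊆ L₂'`, `u v^(e+1) f ∈ L_d` for `u, v ∈ L₁'`, `u v^(e+1) ∈ L_d` for `u, v ∈ L₁`,
`red L₁' = red L₁`, `red L₂' ⊆ red L₂`, `v^e c ∈ red L_d` for `v ∈ red L₁`, `c ∈ red L₂`, and (`hsat`)
`t ∈ red L₁` if `v^(e+1) t ∈ red L_d` for all `v ∈ red L₁`.  Then for every `u ∈ L₁' ∩ O` there is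
`l ∈ L₁ ∩ O` with `u y ≡ l` modulo `c₀`.  (In the application `L₁`, `L₂`, `L_d` are the spaces of the
divisors `n D`, `2n D`, `d n D`, `D = P₁ + P₂`, and `L₁'`, `L₂'` those of `n D + E`, `2n D + E`.)

Proof: in an orthonormal basis of `L₁ + y L₁'` which extends one of `L₁` let `β` be the largest
complementary coordinate of the `u y`, `u ∈ L₁' ∩ O`; write `u y = λ(u) + β r(u)` with `λ(u) ∈ L₁`,
and let `u₀` be such that a coordinate of `r₀ = r(u₀)` is `1`.  (`π(β) = 0`, since `u y` has the
reduction of `u`, which is in `red L₁`; so `λ(u)` has the reduction of `u`.)  If `c₀` does not divide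
`β`, then `u₀ (u y) = u (u₀ y)` and `(u₀ y) (u y)^(e+1) ≡ u₀ u^(e+1) f`, divided by `β`, give (with
reductions) `u r₀ - u₀ r(u) ∈ red L₂` and `r₀ u^(e+1) + (e+1) u₀ u^e r(u) ∈ red L_d`.  Hence
`d u^(e+1) r₀ ∈ red L_d` for all `u`, so `r₀ ∈ red L₁`, a contradiction.  Proved in `H89SS2`. -/
theorem approximation [IsLocalHom π] (R : ORed F T A π) (hπ : Function.Surjective π) {e : ℕ}
    (hd : ((e + 2 : ℕ) : k) ≠ 0) (L₁ L₁' L₂ L₂' Ld : Submodule K F) [FiniteDimensional K L₁]
    [FiniteDimensional K L₁'] (f : R.O) (h11 : ∀ u ∈ L₁', ∀ l ∈ L₁, u * l ∈ L₂')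
    (hfd : ∀ u ∈ L₁', ∀ v ∈ L₁', u * v ^ (e + 1) * (f : F) ∈ Ld)
    (hld : ∀ u ∈ L₁, ∀ v ∈ L₁, u * v ^ (e + 1) ∈ Ld)
    (h2d : ∀ c ∈ R.red hπ L₂, ∀ v ∈ R.red hπ L₁, v ^ e * c ∈ R.red hπ Ld)
    (hred1 : R.red hπ L₁' = R.red hπ L₁) (hred2 : R.red hπ L₂' ≤ R.red hπ L₂)
    (hsat : ∀ t : T, (∀ v ∈ R.red hπ L₁, v ^ (e + 1) * t ∈ R.red hπ Ld) → t ∈ R.red hπ L₁)
    (y : R.O) (hy : R.ρ y = 1) (c₀ : A) (hc₀ : c₀ ≠ 0)
    (hyd : ∃ z : R.O, y ^ (e + 2) = f + R.const c₀ * z) (u : R.O) (hu : (u : F) ∈ L₁') :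
    ∃ l : R.O, (l : F) ∈ L₁ ∧ ∃ z : R.O, u * y = l + R.const c₀ * z :=
  R.one_step hπ hd L₁ L₁' L₂ L₂' Ld f h11 hfd hld h2d hred1 hred2 hsat y hy c₀ hc₀ hyd u hu

/-- **Powers close to `1`.**  `q` is divisible by the constant `a`, and `x ≡ 1` modulo `a`: then
`x^(q^n) ≡ 1` modulo `a^(n+1)`.  In `H89SS3`. -/
theorem power_close_to_one (R : ORed F T A π) {q : ℕ} (a : A) (hqa : a ∣ (q : A)) (hq : 2 ≤ q)
    (x : R.O) (hx : ∃ z : R.O, x = 1 + R.const a * z) (n : ℕ) :
    ∃ z : R.O, x ^ q ^ n = 1 + R.const (a ^ (n + 1)) * z :=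
  R.exists_pow_eq_one_add a hqa hq x hx n

/-- **From a twist to an exact solution.**  In the situation of `approximation` let `f` have
reduction `1`, let `d = e + 2` be prime to the residue characteristic `q` and let `A` have rank one
(`arch`).  Then there is `h ≠ 0` with `h L₁' ⊆ L₁`.  Proof: for every constant
`c₀ ≠ 0` the power `y = f^M`, `d M ≡ 1` modulo a high power of `q`, satisfies `y^d ≡ f` modulo `c₀` by
`power_close_to_one`; then `approximation` and `bounded_below`.  In `H89SS3`. -/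
theorem exact_solution [IsLocalHom π] (R : ORed F T A π) (hπ : Function.Surjective π) {q : ℕ}
    (hq : 2 ≤ q) (hqk : (q : k) = 0) (hq0 : (q : A) ≠ 0)
    (arch : ∀ a b : A, π a = 0 → b ≠ 0 → ∃ n, b ∣ a ^ n) {e : ℕ} (hd : ((e + 2 : ℕ) : k) ≠ 0)
    (hcop : Nat.Coprime (e + 2) q) (L₁ L₁' L₂ L₂' Ld : Submodule K F) [FiniteDimensional K L₁]
    [FiniteDimensional K L₁'] (f : R.O) (hf : R.ρ f = 1)
    (h11 : ∀ u ∈ L₁', ∀ l ∈ L₁, u * l ∈ L₂')
    (hfd : ∀ u ∈ L₁', ∀ v ∈ L₁', u * v ^ (e + 1) * (f : F) ∈ Ld)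
    (hld : ∀ u ∈ L₁, ∀ v ∈ L₁, u * v ^ (e + 1) ∈ Ld)
    (h2d : ∀ c ∈ R.red hπ L₂, ∀ v ∈ R.red hπ L₁, v ^ e * c ∈ R.red hπ Ld)
    (hred1 : R.red hπ L₁' = R.red hπ L₁) (hred2 : R.red hπ L₂' ≤ R.red hπ L₂)
    (hsat : ∀ t : T, (∀ v ∈ R.red hπ L₁, v ^ (e + 1) * t ∈ R.red hπ Ld) → t ∈ R.red hπ L₁) :
    ∃ h : F, h ≠ 0 ∧ ∀ u ∈ L₁', h * u ∈ L₁ :=
  R.exists_mul_mem_of_twist hπ hq hqk hq0 arch hd hcop L₁ L₁' L₂ L₂' Ld f hf h11 hfd hld h2d hred1
    hred2 hsat fun x hx => R.exists_const_mul_of_ρ_eq_zero x hx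

end Linear

/-! ### 2. Functions on one component

`κ/k` is a function field of one variable over an algebraically closed field, `P` a place of `κ` (the
cusp), `v.adicValuation f ≤ 1` says that `f` is regular at `v`, `exp (-n)` is the value of a function
with a zero of order `n`. -/

section Component

variable {k κ : Type*} [Field k] [Field κ] [Algebra k κ] [IsAlgClosed k] [H3RR.IsFF k κ]

/-- **Values.**  `val v f ∈ k` is the value of `f` at `v` (it is `0` by definition if `f` has a pole).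
On the functions which are regular at `v` it is a homomorphism of `k`-algebras, and it vanishes
exactly on the functions which have a zero.  In `H89SS4`. -/
theorem val_rules {v : Place k κ} {f g : κ} (hf : v.adicValuation f ≤ 1)
    (hg : v.adicValuation g ≤ 1) (c : k) (n : ℕ) :
    val v (f + g) = val v f + val v g ∧ val v (f * g) = val v f * val v g ∧
      val v (c • f) = c * val v f ∧ val v (f ^ n) = val v f ^ n ∧
      val v (algebraMap k κ c) = c ∧ (val v f = 0 ↔ v.adicValuation f < 1) :=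
  ⟨val_add hf hg, val_mul hf hg, val_smul hf c, val_pow hf n, val_algebraMap v c,
    val_eq_zero_iff hf⟩

/-- **Strong approximation**: there is a function `r` which is as close as one likes to given
functions `g v` at finitely many places `v ∈ S`, and regular at all other places except `P`.  Proof:
`H¹(D) = 0` for the divisor `D = (2γ + n #S) P - n ∑_{v ∈ S} v`, which has degree `2γ`, where `γ` is
the genus (Riemann-Roch).  In `H89SS4`. -/
theorem strong_approximation (P : Place k κ) (S : Finset (Place k κ)) (hPS : P ∉ S)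
    (g : Place k κ → κ) (n : ℕ) :
    ∃ r : κ, (∀ v ∈ S, v.adicValuation (r - g v) ≤ exp (-(n : ℤ))) ∧
      ∀ v, v ∉ S → v ≠ P → v.adicValuation r ≤ 1 :=
  strong_approx P S hPS g n

/-- **Prescribed values**: for all large `n` there are functions in `L(n P)` with arbitrary values at
finitely many places (`n` does not depend on the values).  In `H89SS7`. -/
theorem prescribed_values (P : Place k κ) (S : Finset (Place k κ)) (hPS : P ∉ S) :
    ∃ n₂ : ℕ, ∀ n ≥ n₂, ∀ c : Place k κ → k,
      ∃ r ∈ riemannRochSpace (Finsupp.single P (n : ℤ) : Divisor k κ), ∀ v ∈ S, val v r = c v :=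
  exists_prescribed P S hPS

/-- **An ideal lemma.**  Let `I` be an ideal of the ring `reg P` of the functions which are regular
outside `P`, `I ≠ 0`, and `B` a set of places.  If for every `v ≠ P` the ideal contains an element with
a simple zero at `v` (if `v ∈ B`) resp. without zero at `v` (if `v ∉ B`), then it contains all
functions of `reg P` which vanish at the places in `B`.  In `H89SS4` (strong approximation). -/
theorem mem_ideal_of_vanish (P : Place k κ) (I : AddSubgroup κ)
    (hI : ∀ x ∈ I, ∀ v, v ≠ P → v.adicValuation x ≤ 1)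
    (hmul : ∀ x ∈ I, ∀ r ∈ reg P, r * x ∈ I) (B : Set (Place k κ))
    (hB : ∀ v, v ≠ P → v ∈ B → ∃ b ∈ I, v.adicValuation b = exp (-1 : ℤ))
    (hB' : ∀ v, v ≠ P → v ∉ B → ∃ b ∈ I, v.adicValuation b = 1) (hne : ∃ b ∈ I, b ≠ 0) {c : κ}
    (hc : ∀ v, v ≠ P → v.adicValuation c ≤ 1)
    (hcB : ∀ v, v ≠ P → v ∈ B → v.adicValuation c < 1) : c ∈ I :=
  mem_of_vanish P I hI hmul B hB hB' hne hc hcB

end Component

/-! ### 3. The glued curve

`κ/k` and `P` are as in section 2, `Φ : κ → κ` is a homomorphism over `k` and `fr` a semilinear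
automorphism of `κ` with `Φ(fr a) = a^q` and `fr P = P`. -/

section Glue

variable {k κ : Type*} [Field k] [Field κ] [Algebra k κ] {P : Place k κ} {q : ℕ}
  {Φ : κ →ₐ[k] κ} {fr : SemilinearAut k κ}

/-- **Orders and values of `Φ(a)`**: the order of `Φ(a)` at `v` is `q` times that of `a` at `fr v`, and
the values agree: `Φ(a)(v) = a(fr v)`.  In `H89SS5`. -/
theorem order_and_value [IsAlgClosed k] [H3RR.IsFF k κ] (hq : q ≠ 0)
    (hΦ : ∀ a : κ, Φ (fr • a) = a ^ q) (v : Place k κ) (a : κ) :
    v.adicValuation (Φ a) = (fr • v).adicValuation a ^ q ∧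
      ((fr • v).adicValuation a ≤ 1 → val v (Φ a) = val (fr • v) a) :=
  ⟨adic_Φ hΦ v a, val_Φ hq hΦ⟩

/-- **The functions `a - Φ(Φ(a))`.**  They are not zero if `a` has a pole at `P`; at a place `v ≠ P`
with `fr (fr v) = v` one of them has a simple zero (those with `a` regular at `v` vanish at `v`, by
`order_and_value`); if `fr (fr v) ≠ v` one of them is not zero at `v`.  So there are only finitely
many `v` with `fr (fr v) = v`.  In `H89SS5`. -/
theorem fixed_places [IsAlgClosed k] [H3RR.IsFF k κ] (hq : 2 ≤ q)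
    (hΦ : ∀ a : κ, Φ (fr • a) = a ^ q) (hfr : fr • P = P) :
    (∀ (a : κ) (n : ℕ), 0 < n → P.adicValuation a = exp (n : ℤ) → a - Φ (Φ a) ≠ 0) ∧
    (∀ v : Place k κ, v ≠ P → fr • fr • v = v →
      ∃ a ∈ reg P, v.adicValuation (a - Φ (Φ a)) = exp (-1 : ℤ)) ∧
    (∀ v : Place k κ, v ≠ P → fr • fr • v ≠ v →
      ∃ a ∈ reg P, v.adicValuation (a - Φ (Φ a)) = 1) ∧
    {v : Place k κ | v ≠ P ∧ fr • fr • v = v}.Finite := by
  refine ⟨fun a n hn h => ne_of_pole hq hΦ hfr hn h, fun v hv h => ?_, fun v hv h => ?_,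
    finite_fix hq hΦ hfr⟩
  · simpa only [if_pos h] using exists_local hq hΦ hfr v hv
  · simpa only [if_neg h] using exists_local hq hΦ hfr v hv

/-- **Rings of pairs.**  Let `W` be a ring of pairs of functions, regular outside `P`, which contains
`(a, Φ a)` and `(Φ a, a)` for all `a` which are regular outside `P`.  A place `v ≠ P` is *glued* if
`fr (fr v) = v` and `t₁(v) = t₂(fr v)` for all `t ∈ W`.  Then `W` consists of all pairs `t`, regular
outside `P`, with `t₁(v) = t₂(fr v)` at the glued places.  Proof: `mem_ideal_of_vanish` for the ideal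
of the `x` with `(0, x) ∈ W`, which contains `a - Φ(Φ(a))` and `t₂ - Φ(t₁)` for `t ∈ W`.  In
`H89SS5`. -/
theorem ring_of_pairs [IsAlgClosed k] [H3RR.IsFF k κ] (hq : 2 ≤ q)
    (hΦ : ∀ a : κ, Φ (fr • a) = a ^ q) (hfr : fr • P = P) (W : Subring (κ × κ))
    (hW : ∀ t ∈ W, t.1 ∈ reg P ∧ t.2 ∈ reg P) (h1 : ∀ a ∈ reg P, (a, Φ a) ∈ W)
    (h2 : ∀ a ∈ reg P, (Φ a, a) ∈ W) {t : κ × κ} (ht1 : t.1 ∈ reg P) (ht2 : t.2 ∈ reg P)
    (ht : ∀ v : Place k κ, v ≠ P → fr • fr • v = v → (∀ s ∈ W, val v s.1 = val (fr • v) s.2) →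
      val v t.1 = val (fr • v) t.2) : t ∈ W :=
  mem_glue hq hΦ hfr W hW h1 h2 ht1 ht2 fun v hv => ht v hv.1 hv.2.1 hv.2.2

end Glue

/-! ### 4. The spaces of reductions

From now on `T : TwoComp K F k κ A π q` is a two-component reduction (`GuideBadRed.twoComp`); the
fields `K` and `k` are algebraically closed where `[IsAlgClosed _]` is assumed. -/

section Spaces

variable {K F k κ : Type*} [Field K] [Field F] [Algebra K F] [Field k] [Field κ] [Algebra k κ]
  {A : ValuationSubring K} {π : A →+* k} {q : ℕ} (T : TwoComp K F k κ A π q)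
  (hπ : Function.Surjective π)

/-- **The spaces, unfolded.**  `T.VE hπ E n`: the pairs of reductions of the functions in
`L(n P₁ + n P₂ + E)` which are integral on both components; `T.V hπ n` is the case `E = 0`.
`T.U n`: the pairs of functions in `L(n P)`.  `T.Uz hπ ζ n`: the pairs in `T.U n` with
`t₁(v) = ζ(v) t₂(fr v)` at the glued places `v`.  Definitions in `H89SS6`, `H89SS7`. -/
theorem spaces_iff [IsAlgClosed k] [H3RR.IsFF k κ] (E : Divisor K F) (ζ : Place k κ → k) (n : ℕ)
    (t : κ × κ) :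
    (t ∈ T.VE hπ E n ↔ ∃ (f : F) (h₁ : f ∈ T.V₁) (h₂ : f ∈ T.V₂), f ∈ riemannRochSpace
        (Finsupp.single T.P₁ (n : ℤ) + Finsupp.single T.P₂ (n : ℤ) + E : Divisor K F) ∧
      (T.ρ₁ ⟨f, h₁⟩, T.ρ₂ ⟨f, h₂⟩) = t) ∧
    T.VE hπ 0 n = T.V hπ n ∧
    (t ∈ T.U n ↔ t.1 ∈ riemannRochSpace (Finsupp.single T.P (n : ℤ) : Divisor k κ) ∧
      t.2 ∈ riemannRochSpace (Finsupp.single T.P (n : ℤ) : Divisor k κ)) ∧
    (t ∈ T.Uz hπ ζ n ↔ t ∈ T.U n ∧ ∀ v ∈ T.SS hπ, val v t.1 = ζ v * val (T.fr • v) t.2) :=
  ⟨⟨fun ⟨x, hx, h⟩ => ⟨x, x.2.1, x.2.2, hx, h⟩, fun ⟨f, h₁, h₂, hf, h⟩ => ⟨⟨f, h₁, h₂⟩, hf, h⟩⟩,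
    T.VE_zero hπ n, Iff.rfl, Iff.rfl⟩

/-- **Products**: `VE(E, n) VE(E', m) ⊆ VE(E + E', n + m)`, `1 ∈ V(n)`, and `V(n) ⊆ U(n)` (poles reduce
to poles of at most the same order).  In `H89SS6`. -/
theorem products (E E' : Divisor K F) (n m : ℕ) :
    (∀ s ∈ T.VE hπ E n, ∀ t ∈ T.VE hπ E' m, s * t ∈ T.VE hπ (E + E') (n + m)) ∧
      (1 : κ × κ) ∈ T.V hπ n ∧ T.V hπ n ≤ T.U n :=
  ⟨fun _ hs _ ht => T.mul_mem_VE hπ hs ht, T.one_mem_V hπ n, T.V_le_U hπ n⟩

/-- **Separating functions**: for all large `j` there is a pair `(s₁, 0) ∈ V(j)` with a pole of order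
exactly `j` at the cusp, and a pair `(0, s₂)` of the same kind.  Proof: let `j = q² i + l` with `l` in
an interval of length `q²`, and let `a`, `b` have poles of the orders `i`, `l` at `P` and no others.
By property (10) of `GuideBadRed.twoComp` the pairs `(a, Φ a)` and `(Φ(Φ a), Φ a)` are reductions of
functions, hence `(a - Φ(Φ a), 0)`, with a pole of order `q² i`, and its product with `(b, Φ b)` too.
The product of the functions has a pole of order at most `q i + q l ≤ j` at the other cusp.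
In `H89SS6`. -/
theorem separating_functions [IsAlgClosed k] [H3RR.IsFF k κ] (hq : 2 ≤ q) :
    ∃ j₀ : ℕ, ∀ j ≥ j₀, (∃ s ∈ T.V hπ j, T.P.adicValuation s.1 = exp (j : ℤ) ∧ s.2 = 0) ∧
      ∃ s ∈ T.V hπ j, T.P.adicValuation s.2 = exp (j : ℤ) ∧ s.1 = 0 :=
  T.exists_pole₁ hπ hq

variable [IsAlgClosed K] [IsAlgClosed k] [H3RR.IsFF K F] [H3RR.IsFF k κ]

omit [IsAlgClosed k] [H3RR.IsFF k κ] in
/-- **The dimension of `VE(E, n)`** is `2n + 1 - g` for `n ≥ g` and every divisor `E` of degree `0`
(Riemann-Roch on the generic fibre and `reduction_of_spaces`).  In `H89SS7`. -/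
theorem dimension_of_reductions [IsLocalHom π] {E : Divisor K F} (hE : Divisor.degree E = 0)
    {n : ℕ} (hn : genusFF K F ≤ n) :
    (finrank k (T.VE hπ E n) : ℤ) = 2 * n + 1 - genusFF K F :=
  T.finrank_VE hπ hE hn

omit [IsAlgClosed K] [H3RR.IsFF K F] in
/-- **The dimension of `Uz(ζ, n)`** is that of `U(n)` minus the number of glued places, for all large
`n`, which do not depend on `ζ` (`prescribed_values`).  In `H89SS7`. -/
theorem dimension_of_glued_pairs (hq : 2 ≤ q) :
    ∃ n₂ : ℕ, ∀ n ≥ n₂, ∀ ζ : Place k κ → k,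
      finrank k (T.Uz hπ ζ n) + (T.finite_SS hπ hq).toFinset.card = finrank k (T.U n) :=
  T.finrank_Uz hπ hq

/-- **The filtration by poles**: for all large `n` every pair of the glued ring which is in `U(n)` is in
`V(n)`.  So `V(n) = Uz(1, n)` by `GuideBadRed.mem_glueRing_iff`.  Proof: it is enough that
`V(n + 1) ∩ U(n) = V(n)`; here `⊇` is clear, `dim V(n + 1) = dim V(n) + 2`, and the two functions of
`separating_functions` for `j = n + 1` are independent modulo `U(n)`.  In `H89SS7`. -/
theorem filtration [IsLocalHom π] (hq : 2 ≤ q) :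
    ∃ n₁ : ℕ, ∀ n ≥ n₁, ∀ t ∈ T.glueRing hπ, t ∈ T.U n → t ∈ T.V hπ n :=
  (T.exists_level hπ hq).imp fun _ h n hn => (h.2 n hn).2.2

/-- **`VE(E, n) = Uz(ζ, n)`** for all large `n`, if `ζ` is the toric coordinate of `E`
(`T.IsZeta hπ E ζ`, `GuideBadRed.isZeta_iff`): `⊆` is the definition, and the dimensions agree because
they do for `E = 0`, `ζ = 1`.  In `H89SS7`. -/
theorem reductions_eq_glued_pairs [IsLocalHom π] (hq : 2 ≤ q) :
    ∃ N : ℕ, ∀ n ≥ N, ∀ (E : Divisor K F) (ζ : Place k κ → k), T.IsZeta hπ E ζ →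
      T.VE hπ E n = T.Uz hπ ζ n :=
  (TwoComp.IsZeta.eventually_eq T hπ hq).imp fun _ h n hn => (h n hn).2

end Spaces

/-! ### 5. Unit pairs and toric coordinates

`T.UnitPair d E f`: `E` of degree `0`, `d E = div f`, `f ≡ 1` on both components
(`GuideBadRed.unitPair_iff`). -/

section Pairs

variable {K F k κ : Type*} [Field K] [Field F] [Algebra K F] [Field k] [Field κ] [Algebra k κ]
  {A : ValuationSubring K} {π : A →+* k} {q : ℕ} {T : TwoComp K F k κ A π q}

/-- **Unit pairs form a group.**  In `H89SS8`. -/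
theorem unitPair_group {d : ℕ} {E E' : Divisor K F} {f f' : F} (h : T.UnitPair d E f)
    (h' : T.UnitPair d E' f') :
    T.UnitPair d (E + E') (f * f') ∧ T.UnitPair d 0 1 ∧ T.UnitPair d (-E) f⁻¹ :=
  ⟨h.add h', TwoComp.UnitPair.zero d, h.neg⟩

/-- **Automorphisms.**  An automorphism `g` which is compatible with `T`, and the involution `w` which
exchanges the components, map unit pairs to unit pairs.  In `H89SS8`. -/
theorem unitPair_automorphisms {d : ℕ} {E : Divisor K F} {f : F} (h : T.UnitPair d E f) :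
    (∀ (g : SemilinearAut K F) (τ : SemilinearAut k κ), T.Compat g τ →
      T.UnitPair d (g • E) (g • f)) ∧
    ∀ w : F ≃ₐ[K] F, T.Swap w → T.UnitPair d (SemilinearAut.ofAlgAut w • E) (w f) :=
  ⟨fun _ _ hg => h.smul hg, fun _ hw => h.swap hw⟩

/-- **A line lemma.**  Two functions `e`, `e'` which are linear on a space `X`, with
`e(x)^d = e'(x)^d` for all `x ∈ X`, are proportional on `X`: `e = ζ e'` with `ζ^d = 1` (they have the
same kernel).  In `H89SS7`. -/
theorem line_lemma {k M : Type*} [Field k] [AddCommGroup M] [Module k M] (X : Submodule k M)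
    (e e' : M → k) (hadd : ∀ x ∈ X, ∀ y ∈ X, e (x + y) = e x + e y)
    (hsmul : ∀ c : k, ∀ x ∈ X, e (c • x) = c * e x)
    (hadd' : ∀ x ∈ X, ∀ y ∈ X, e' (x + y) = e' x + e' y)
    (hsmul' : ∀ c : k, ∀ x ∈ X, e' (c • x) = c * e' x) {d : ℕ} (hd : d ≠ 0)
    (h : ∀ x ∈ X, e x ^ d = e' x ^ d) : ∃ ζ : k, ζ ^ d = 1 ∧ ∀ x ∈ X, e x = ζ * e' x :=
  exists_zeta X e e' hadd hsmul hadd' hsmul' hd h

/-- **`d`-th powers of reductions**: for a unit pair and `t ∈ VE(E, n)` the power `t^d` is in `V(d n)`
(it is the reduction of `x^d f`), so its values agree at the glued places; with `line_lemma` this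
gives the toric coordinate (`GuideBadRed.exists_isZeta`).  In `H89SS8`. -/
theorem power_mem (hπ : Function.Surjective π) {d : ℕ} {E : Divisor K F} {f : F}
    (h : T.UnitPair d E f) {n : ℕ} {t : κ × κ} (ht : t ∈ T.VE hπ E n) : t ^ d ∈ T.V hπ (d * n) :=
  h.pow_mem_V hπ ht

variable [IsAlgClosed K] [IsAlgClosed k] [H3RR.IsFF K F] [H3RR.IsFF k κ] (hπ : Function.Surjective π)

/-- **Test functions**: for all large `n`, every `E` with toric coordinate `ζ` and every glued place
`v` there is a pair in `VE(E, n)` with the values `ζ(v)` at `v` and `1` at `fr v`.  In `H89SS8`. -/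
theorem test_functions [IsLocalHom π] (T : TwoComp K F k κ A π q) (hq : 2 ≤ q) :
    ∃ N : ℕ, ∀ n ≥ N, ∀ (E : Divisor K F) (ζ : Place k κ → k), T.IsZeta hπ E ζ →
      ∀ v ∈ T.SS hπ, ∃ t ∈ T.VE hπ E n, val v t.1 = ζ v ∧ val (T.fr • v) t.2 = 1 :=
  TwoComp.IsZeta.exists_test T hπ hq

/-- **The toric coordinate is unique and additive**: it is determined by `E` at the glued places, the
coordinate of `E + E'` is the product, and that of `0` is `1`.  In `H89SS8`. -/
theorem zeta_group [IsLocalHom π] (hq : 2 ≤ q) {E E' : Divisor K F} {ζ ζ' : Place k κ → k}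
    (h : T.IsZeta hπ E ζ) (h' : T.IsZeta hπ E' ζ') :
    (∀ ζ₁, T.IsZeta hπ E ζ₁ → ∀ v ∈ T.SS hπ, ζ v = ζ₁ v) ∧
    (∀ ζ₂, T.IsZeta hπ (E + E') ζ₂ → ∀ v ∈ T.SS hπ, ζ₂ v = ζ v * ζ' v) ∧
    T.IsZeta hπ 0 (fun _ => 1) :=
  ⟨fun _ h₁ => h.unique hπ hq h₁, fun _ h₂ => h.mul hπ hq h' h₂, TwoComp.IsZeta.one hπ⟩

/-- **Inertia, Frobenius and `w_q` on toric coordinates.**  `ζ'` is the coordinate of the image of `E`:
(1) `ζ' = ζ` for an automorphism which acts trivially on both residue fields;
(2) `ζ'(fr v) = ζ(v)^q` for one which acts through `fr`, if `v` and `fr v` are glued;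
(3) `ζ'(v) ζ(fr v) = 1` for the involution which exchanges the components.
Together with `unitPair_group`, `unitPair_automorphisms` and the criterion
`GuideBadRed.principal_of_unitPair` this gives `GuideBadRed.unitPair_inertia` and
`unitPair_frobenius`.  In `H89SS8`. -/
theorem zeta_automorphisms [IsLocalHom π] (hq : 2 ≤ q) {E : Divisor K F} {ζ ζ' : Place k κ → k}
    (h : T.IsZeta hπ E ζ) :
    (∀ g : SemilinearAut K F, T.Compat g 1 → T.IsZeta hπ (g • E) ζ' →
      ∀ v ∈ T.SS hπ, ζ' v = ζ v) ∧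
    (∀ g : SemilinearAut K F, T.Compat g T.fr → T.IsZeta hπ (g • E) ζ' →
      ∀ v ∈ T.SS hπ, T.fr • v ∈ T.SS hπ → ζ' (T.fr • v) = ζ v ^ q) ∧
    ∀ w : F ≃ₐ[K] F, T.Swap w → T.IsZeta hπ (SemilinearAut.ofAlgAut w • E) ζ' →
      ∀ v ∈ T.SS hπ, ζ' v * ζ (T.fr • v) = 1 :=
  ⟨fun _ hg h' => h.compat_one hπ hq hg h', fun _ hg h' => h.compat_fr hπ hq hg h',
    fun _ hw h' => h.swap hπ hq hw h'⟩

end Pairs

/-! ### 6. Principality and weak approximation -/

section Principal

variable {K F k κ : Type*} [Field K] [Field F] [Algebra K F] [Field k] [Field κ] [Algebra k κ]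
  {A : ValuationSubring K} {π : A →+* k} {q : ℕ}

/-- **Divisors of large degree are base point free**: if `deg D ≥ 2g`, then for every `v` some
`u ∈ L(D)` has exactly the order `-D(v)` at `v`.  So `h L(D + E) ⊆ L(D)` with `deg E = 0` implies
`div h ≥ E`, that is `div h = E`.  In `H89SS9`. -/
theorem base_point_free [IsAlgClosed K] [H3RR.IsFF K F] {D : Divisor K F}
    (h : 2 * (genusFF K F : ℤ) ≤ Divisor.degree D) (v : Place K F) :
    ∃ u ∈ riemannRochSpace D, v.adicValuation u = exp (D v) :=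
  exists_mem_L_eq h v

/-- **Roots of functions**: if the divisor of `f` is `d` times a principal divisor, then `f` is a
`d`-th power.  In `H89SS10`. -/
theorem exists_root [IsAlgClosed K] [H3RR.IsFF K F] {d : ℕ} (hd : d ≠ 0) {f : F} (hf : f ≠ 0)
    {E : Divisor K F} (hE : E ∈ Divisor.principal (K := K) (F := F))
    (h : ∀ v : Place K F, v.ord f = d * E v) : ∃ g : F, g ≠ 0 ∧ f = g ^ d :=
  exists_eq_pow hd hf hE h

/-- **A function with reductions `(1, 0)`**: `x / (x + y)`, if `x`, `y` have the reductions `(s, 0)`,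
`(0, s')` of `separating_functions`.  In `H89SS10`. -/
theorem exists_idempotent [IsAlgClosed k] [H3RR.IsFF k κ] (T : TwoComp K F k κ A π q)
    (hπ : Function.Surjective π) (hq : 2 ≤ q) :
    ∃ (e : F) (h₁ : e ∈ T.V₁) (h₂ : e ∈ T.V₂), T.ρ₁ ⟨e, h₁⟩ = 1 ∧ T.ρ₂ ⟨e, h₂⟩ = 0 :=
  T.exists_idem hπ hq

end Principal

/-! ### 7. The operator `U`

`F` and `F'` are the function fields of `X₀(m)` and `X₀(mq)` over an algebraically closed field `K` of
characteristic `0`; there are two embeddings of `F` in `F'`, `φ = α` (the inclusion) and `ψ = β`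
(`f(t) ↦ f(t^q)`), exchanged by the involution `w` of `F'`.  The operator is
`U = α^* α_* w - w = w U_q w`, where `U_q = β^* α_* - w` is the Hecke operator
(`GuideHecke.Uq_add_wq`). -/

section Operator

open Fermat.Agent.H89HU Fermat.Agent.H67 Fermat.Agent.H60

variable {K : Type*} [Field K] [IsAlgClosed K] [CharZero K] {F F' : Type*} [Field F] [Field F']
  [Algebra K F] [Algebra K F'] [H94.FunField K F] [H94.FunField K F']

/-- **`U` on classes and on functions.**  `Uop φ W x = φ^* φ_* (W x) - W x` on `Pic⁰` and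
`uF φ W f = φ(N(W f)) / W f` on functions.  If `d E = div f`, then `d E₁ = div (uF φ W f)` for a divisor
`E₁` whose class is `Uop φ W` of the class of `E`.  In `H89HU2`. -/
theorem operator_on_functions (φ : F →ₐ[K] F') (W : F' ≃ₐ[K] F') {d : ℕ} {f : F'} (hf : f ≠ 0)
    (E : Divisor.degZero (K := K) (F := F'))
    (h : ∀ v : Place K F', v.ord f = d * (E : Divisor K F') v) :
    (∀ x : Pic0 K F', Uop φ W x =
      pullP φ (pushP φ (SemilinearAut.ofAlgAut W • x)) - SemilinearAut.ofAlgAut W • x) ∧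
    uF φ W f = φ (normAlong φ (W f)) * (W f)⁻¹ ∧
    ∃ E1 : Divisor.degZero (K := K) (F := F'),
      (∀ v : Place K F', v.ord (uF φ W f) = d * (E1 : Divisor K F') v) ∧
      Pic0.mk E1 = Uop φ W (Pic0.mk E) :=
  ⟨fun _ => rfl, rfl, exists_HU φ W hf E h⟩

/-- **`U + w`**: if `w² = 1` and `w ψ = φ`, then `w_* x = w x` and `U x + w x = w_* ψ^* φ_* w_* x` on
`Pic⁰`.  So the hypotheses `(U + w) w x = 0` and `(U + w) x = 0` of `GuideBadRed.steinberg` follow
from `ψ^* φ_* x = 0` and `ψ^* φ_* w x = 0`.  In `H89HU2`. -/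
theorem operator_add_involution {φ ψ : F →ₐ[K] F'} {W : F' ≃ₐ[K] F'} (hinv : ∀ f, W (W f) = f)
    (h : ∀ x, W (ψ x) = φ x) (x : Pic0 K F') :
    pushP W.toAlgHom x = SemilinearAut.ofAlgAut W • x ∧
      Uop φ W x + SemilinearAut.ofAlgAut W • x =
        pushP W.toAlgHom (pullP ψ (pushP φ (pushP W.toAlgHom x))) :=
  ⟨pushP_eq_smul hinv x, Uop_add hinv h x⟩

end Operator

section Expansions

open Fermat.Agent.H60 Fermat.Agent.H34.Two Fermat.Agent.H89HU

/-- **A root of unity near `1`**: over an algebraically closed field `L` of characteristic `0` with a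
valuation ring `A` of residue characteristic `ℓ` there is a primitive `ℓ`-th root of unity with
reduction `1`.  In `H89HU`. -/
theorem exists_root_of_unity {L : Type*} [Field L] [Algebra ℚ L] [CharZero L] [IsAlgClosed L]
    {A : ValuationSubring L} {k : Type*} [Field k] {π : A →+* k} {ℓ : ℕ} [IsLocalHom π]
    [Fact ℓ.Prime] [CharP k ℓ] : ∃ ζ : Aˣ,
      IsPrimitiveRoot (Units.map (A.subtype : A →* L) ζ) ℓ ∧ Units.map (π : A →* k) ζ = 1 :=
  exists_zeta_one

/-- **Reduction of series.**  `locL A π` consists of the quotients `y / z` of Laurent series with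
coefficients in `A` such that `z` has a coefficient which is not in the kernel of `π`, and `resL` is
the reduction, with values in `k((t))`.  For a unit `u` with `π(u) = 1` the series `f(u t)` has the
reduction of `f(t)`; the reduction of `f(t^ℓ)` is that of `f`, with `t^ℓ` instead of `t`; and if
`f ∈ F` (the functions; `IsQuot F`) and `f(t^ℓ)` has a reduction which is not zero, then `f` has a
reduction.  In `H89HU`. -/
theorem reduction_of_series {L : Type*} [Field L] {A : ValuationSubring L} {k : Type*} [Field k]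
    {π : A →+* k} {u : Aˣ} (hu : Units.map (π : A →* k) u = 1) (ℓ : ℕ) [NeZero ℓ]
    {f : LaurentSeries L} :
    (∀ hf : f ∈ locL A π, (∃ h : twist (Units.map (A.subtype : A →* L) u) f ∈ locL A π,
      resL A π ⟨_, h⟩ = resL A π ⟨f, hf⟩) ∧
      ∃ h : qExpand L ℓ f ∈ locL A π, resL A π ⟨_, h⟩ = qExpand k ℓ (resL A π ⟨f, hf⟩)) ∧
    ∀ [IsLocalHom π] {F : IntermediateField L (LaurentSeries L)}, IsQuot F → f ∈ F →
      ∀ h : qExpand L ℓ f ∈ locL A π, resL A π ⟨_, h⟩ ≠ 0 → f ∈ locL A π :=
  ⟨fun hf => ⟨twist_mem_locL hu hf, qExpand_mem_locL ℓ hf⟩,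
    fun hF hfF h h0 => (mem_locL_of_qExpand hF ℓ hfF h h0).1⟩

/-- **The q-expansion of `U f`.**  `uFun W f = α(N(W f)) / W f`, `W` the Atkin-Lehner automorphism, `α`,
`β` the two embeddings of the functions of level `N` in those of level `N ℓ`.  The expansion of
`uFun W f` in `t^ℓ` is the product of the series `f(ζ^i t)`, `i = 0, ..., ℓ - 1`, `ζ` a primitive
`ℓ`-th root of unity.  (The norm of `W f` is the product over its `ℓ + 1` conjugates: `(W f)(t^ℓ)` and
the series `f(ζ^i t)`.)  With `exists_root_of_unity` every factor has the same reduction, and one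
gets `GuideBadRed.reduction_U`.  In `H89HU`. -/
theorem expansion_of_U {L : Type*} [Field L] [Algebra ℚ L] [CharZero L] {N ℓ : ℕ} [NeZero N]
    [NeZero ℓ] {W : FF L (N * ℓ) ≃ₐ[L] FF L (N * ℓ)}
    (hα : ∀ x, W (heckeAlphaBar L N ℓ x) = heckeBetaBar L N ℓ x)
    (hβ : ∀ x, W (heckeBetaBar L N ℓ x) = heckeAlphaBar L N ℓ x) (hinv : ∀ x, W (W x) = x)
    (hℓ : 1 < ℓ) {ζ : Lˣ} (hζ : IsPrimitiveRoot ζ ℓ) (hfin : FiniteAlong L (heckeAlphaBar L N ℓ))
    (hdeg : finrankAlong L (heckeAlphaBar L N ℓ) ≤ ℓ + 1) {f : FF L (N * ℓ)} (hf : f ≠ 0) :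
    uFun W f = heckeAlphaBar L N ℓ (normAlong (heckeAlphaBar L N ℓ) (W f)) * (W f)⁻¹ ∧
    qExpand L ℓ (uFun W f : LaurentSeries L) =
      ∏ i : Fin ℓ, twist (ζ ^ (i : ℕ)) (f : LaurentSeries L) :=
  ⟨rfl, qExpand_uFun hα hβ hinv hℓ hζ hfin hdeg hf⟩

end Expansions

end Fermat.Agent.Guide.BadRedSteps
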