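import Fermat.Agent.H22ZFEe

/-!
# Reader's guide: the Bessel function K₀ and the Fourier expansion, step by step

(editor helper22; library files by helper22, `H5ZLat` by helper5, `H31Hyp1` by helper31, `H74C3a` by helper74)

Companion of `GuideEigenfunctions`, sections 5 and 6. There the results are stated: the function `K₀`, its
differential equation, the uniqueness of the solutions of polynomial growth, the Fourier expansion of a
bounded eigenfunction on `(H3)^J` and its decay. This file shows the steps of their proofs. Every theorem is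
a citation of a theorem of the library with the statement written out, or the unfolding of a definition. The
file is imported by no other file except the list `Guide`. Everything cited is used in the proof of S47 (the
octahedral case of the theorem of Langlands and Tunnell) and of no other statement, in particular not in the
proof of S01. The files use only Mathlib and modules of the library, nothing of the Prelude.

**The argument.** Let `F` be a bounded function on `(H3)^J` of class `C²` with `Lap F = -F` in every variable,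
and let `F` be invariant under the translations `z ↦ z + v` by a lattice of `ℂ^J`. For a fixed vector `y` of
heights, `z ↦ F(z, y)` is a continuous periodic function; its Fourier coefficient at the frequency `ν` (an
element of the dual lattice for the pairing `⟨ν, z⟩ = ∑ 2 Re (ν_j z_j)`) is a function `A(y)`.
(a) Integration by parts on the torus turns `Lap F = -F` into the ordinary differential equation
`t² (A'' - (4π|ν_j|)² A) - t A' = -A` in each variable `t = y_j`.
(b) `A` is bounded. By uniqueness, `A` is a multiple of `t K₀(4π|ν_j| t)` in each variable if `ν_j ≠ 0`, and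
zero if `ν_j = 0`. So `A(y) = w(ν) ∏ y_j K₀(4π|ν_j| y_j)` if no `ν_j` is zero, and `A = 0` otherwise.
(c) Taking `y_j = 1/|ν_j|` bounds `w(ν)` by a constant times `∏ |ν_j|`. With `x K₀(x) ≤ C e^(-x/2)` every
term is at most a constant times `exp(-2π ∑ |ν_j| y_j)`.
(d) The sum of these exponentials over the dual lattice converges. So the Fourier series of `F(·, y)`
converges absolutely, and its sum is `F`.
No Poisson summation, no Fourier inversion on `ℝ` and no second solution `I₀` is used. Integration by parts is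
not done with boundary terms: the integral over a fundamental parallelepiped of the lattice is invariant
under translation, and one differentiates twice with respect to the translation (section 4).

**Contents.**
1. Fourier series for a lattice (`H5ZLat`, `H22ZFour`).
2. The integrals `∫ (cosh t)^j exp (-x cosh t) dt` (`H22ZK0`, `H22ZK0b`).
3. The differential equation: conserved quantity and uniqueness (`H22ZK0c`).
4. Derivatives of the Fourier coefficients (`H22ZFEa`, `H22ZFEb`).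
5. The dual lattice and the sum of exponentials (`H22ZFEb`, `H22ZFEc`).
6. The expansion (`H22ZFEd`, `H22ZFEe`).

**Used for** S47, blocks (C), (D) and (T). References in NOTES.md: [397], [398].
-/

set_option autoImplicit false

open MeasureTheory Function Set Filter Topology Module
open scoped ContDiff

namespace Fermat.Agent.Guide.Bessel

/-! ## 1. Fourier series for a lattice

`E` is a real vector space of finite dimension with a real basis `b`; the lattice is the set of the integral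
combinations of the vectors `b i`. -/

/-- **Periodicity on the basis is enough**: a function with `h (x + b i) = h x` for all `i` is invariant under
the whole lattice. (`H22ZFEe.per_of_basis`) -/
theorem periodic_of_basis {κ E α : Type*} [NormedAddCommGroup E] [NormedSpace ℝ E]
    {b : Basis κ ℝ E} {h : E → α} (hb : ∀ i x, h (x + b i) = h x) :
    ∀ x, ∀ v ∈ Submodule.span ℤ (Set.range b), h (x + v) = h x :=
  H22Z.per_of_basis hb

/-- **Translation invariance.** The integral of a periodic function over the fundamental parallelepiped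
`{∑ t_i b_i | 0 ≤ t_i < 1}` does not change when the function is translated (the translated parallelepiped
is a fundamental domain as well). (`H5ZLat`) -/
theorem integral_translate {κ E : Type*} [Fintype κ] [NormedAddCommGroup E] [NormedSpace ℝ E]
    [FiniteDimensional ℝ E] [MeasurableSpace E] [BorelSpace E] (μ : Measure E) [μ.IsAddHaarMeasure]
    {b : Basis κ ℝ E} {h : E → ℂ}
    (hper : ∀ x, ∀ v ∈ Submodule.span ℤ (Set.range b), h (x + v) = h x) (w : E) :
    ∫ x in ZSpan.fundamentalDomain b, h (x + w) ∂μ =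
      ∫ x in ZSpan.fundamentalDomain b, h x ∂μ :=
  H5Z.Per.setIntegral_comp_add μ (show H5Z.Per b h from hper) w

/-- **Integrals in coordinates**: the integral over the parallelepiped is its volume times the integral
over the cube `0 < t_i ≤ 1` of `g (∑ t_i b_i)`. (`H22ZFour`) -/
theorem integral_parallelepiped {κ E : Type*} [Fintype κ] [NormedAddCommGroup E] [NormedSpace ℝ E]
    [FiniteDimensional ℝ E] [MeasurableSpace E] [BorelSpace E] (μ : Measure E) [μ.IsAddHaarMeasure]
    (b : Basis κ ℝ E) (g : E → ℂ) :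
    ∫ x in ZSpan.fundamentalDomain b, g x ∂μ =
      (μ.real (ZSpan.fundamentalDomain b) : ℂ) *
        ∫ t in Set.pi univ fun _ : κ => Ioc (0 : ℝ) 1, g (∑ i, t i • b i) := by
  have h := H22Z.setIntegral_fundamentalDomain μ b g
  rw [H22Z.cube_eq] at h
  exact h.trans (by congr 2; funext t; rw [← b.equivFun_symm_apply]; rfl)

/-- The map from `ℝ^κ` to the torus `(ℝ/ℤ)^κ` is an open quotient map, so continuous periodic functions on
`ℝ^κ` are continuous functions on the torus. (`H22ZFour`) -/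
theorem torus_quotient (κ : Type*) [Fintype κ] :
    IsOpenQuotientMap fun (t : κ → ℝ) (i : κ) => (t i : UnitAddCircle) :=
  H22Z.isOpenQuotientMap_toTorus (κ := κ)

/-- **Fourier series.** Let `h` be continuous and periodic, and let `c n` be the mean value over the
parallelepiped of `h` times the character with the exponents `-n` (`x_i` are the coordinates of `x` in the
basis `b`). If the `c n` are summable, then `h(x) = ∑_n c n exp (2πi ∑ n_i x_i)`. From Mathlib's theorem on
Fourier series on the torus by `torus_quotient` and `integral_parallelepiped`. (`H22ZFour`) -/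
theorem fourier_series {κ E : Type*} [Fintype κ] [NormedAddCommGroup E] [NormedSpace ℝ E]
    [FiniteDimensional ℝ E] [MeasurableSpace E] [BorelSpace E] (μ : Measure E) [μ.IsAddHaarMeasure]
    {b : Basis κ ℝ E} {h : E → ℂ}
    (hper : ∀ x, ∀ v ∈ Submodule.span ℤ (Set.range b), h (x + v) = h x) (hcont : Continuous h)
    {c : (κ → ℤ) → ℂ}
    (hc : ∀ n, c n = (μ.real (ZSpan.fundamentalDomain b) : ℂ)⁻¹ *
      ∫ x in ZSpan.fundamentalDomain b,
        Complex.exp (2 * Real.pi * Complex.I * ((∑ i, ((-n) i : ℝ) * b.repr x i : ℝ) : ℂ)) * h x ∂μ)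
    (hs : Summable c) (x : E) :
    HasSum (fun n : κ → ℤ =>
      c n * Complex.exp (2 * Real.pi * Complex.I * ((∑ i, (n i : ℝ) * b.repr x i : ℝ) : ℂ)))
      (h x) := by
  obtain rfl : c = fun n => H22Z.fcoef μ b n h := funext fun n => hc n
  exact H22Z.hasSum_fcoef μ hper hcont hs x

/-! ## 2. The integrals `∫ (cosh t)^j exp (-x cosh t) dt`

For `x > 0` let `KJ j x` be the integral of `(cosh t)^j exp (-x cosh t)` over `t > 0`; `K₀ = KJ 0`,
`K₁ = KJ 1` (`bessel_def` in `GuideEigenfunctions`; there also the differential equation `bessel_ode`,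
the bound `K₀(x) ≤ |log x| + 2` and the formula for `∫ exp (-a u - b / u) du / u`). -/

/-- A power times an exponential is at most a constant times the exponential with half the exponent.
(`H22ZK0`) -/
theorem power_times_exponential (j : ℕ) {a : ℝ} (ha : 0 < a) :
    ∃ C : ℝ, 0 < C ∧ ∀ u : ℝ, 0 ≤ u → u ^ j * Real.exp (-a * u) ≤ C * Real.exp (-(a / 2) * u) :=
  H22Z.pow_mul_exp_le j ha

/-- The integrals converge: `(cosh t)^j exp (-x cosh t) ≤ C exp (-(x / 2) cosh t) ≤ C exp (-x t / 4)`, by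
`power_times_exponential` and `cosh t ≥ t / 2`. (`H22ZK0`) -/
theorem integrals_converge (j : ℕ) {x : ℝ} (hx : 0 < x) (b : ℝ) :
    IntegrableOn (fun t => Real.cosh t ^ j * Real.exp (-x * Real.cosh t)) (Ioi b) :=
  H22Z.integrableOn_KJ j hx b

/-- **Derivatives**: `KJ j` has the derivative `-KJ (j + 1)`, by differentiation under the integral sign.
(`H22ZK0`) -/
theorem derivative_of_integrals (j : ℕ) {x : ℝ} (hx : 0 < x) :
    HasDerivAt (fun x => ∫ t in Ioi (0 : ℝ), Real.cosh t ^ j * Real.exp (-x * Real.cosh t))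
      (-∫ t in Ioi (0 : ℝ), Real.cosh t ^ (j + 1) * Real.exp (-x * Real.cosh t)) x :=
  H22Z.hasDerivAt_KJ j hx

/-- Hence `K₀` is infinitely differentiable on the positive half line. (`H22ZK0`) -/
theorem smooth_K0 : ContDiffOn ℝ ∞ H22Z.K0 (Ioi 0) := H22Z.contDiffOn_K0

/-- **Decay of all the integrals**: for `x ≥ a` the exponential `exp (-x cosh t)` is at most
`exp (-(x - a)) exp (-a cosh t)`, because `cosh t ≥ 1`. (`H22ZK0`) -/
theorem decay_of_integrals (j : ℕ) {a : ℝ} (ha : 0 < a) :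
    ∃ C : ℝ, 0 < C ∧ ∀ x : ℝ, a ≤ x →
      ∫ t in Ioi (0 : ℝ), Real.cosh t ^ j * Real.exp (-x * Real.cosh t) ≤ C * Real.exp (-x) :=
  H22Z.KJ_le j ha

/-- `K₀` is decreasing. (`H22ZK0`) -/
theorem K0_decreasing {a x : ℝ} (ha : 0 < a) (hx : a ≤ x) : H22Z.K0 x ≤ H22Z.K0 a :=
  H22Z.K0_le_of_le ha hx

/-- **Doubling**: `K₀(2x) ≤ e^(-x) K₀(x)`; so for large `x` the function `K₀` decreases by a large factor
between `x` and `2x`. (`H22ZK0c`) -/
theorem K0_double {x : ℝ} (hx : 0 < x) : H22Z.K0 (2 * x) ≤ Real.exp (-x) * H22Z.K0 x :=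
  H22Z.K0_two_mul_le hx

/-- The substitution `u = e^t`: the integral of `g(u) du / u` over `u > 0` is the integral of `g(e^t)` over
the real line. (`H22ZK0b`) -/
theorem substitution (g : ℝ → ℝ) :
    ∫ u in Ioi (0 : ℝ), u⁻¹ * g u = ∫ t : ℝ, g (Real.exp t) :=
  H22Z.integral_Ioi_inv_smul g

/-- The integral over the real line is twice the integral over `t > 0`. With `substitution` and a translation
of `t` by `log √(b / a)` one gets that the integral of `exp (-a u - b / u) du / u` is `2 K₀(2 √(ab))`.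
(`H22ZK0b`) -/
theorem integral_line (c : ℝ) : ∫ t : ℝ, Real.exp (-c * Real.cosh t) = 2 * H22Z.K0 c :=
  H22Z.integral_exp_cosh c

/-- **Mellin transform** of `K₀`, as an integral of a positive function with values in `[0, ∞]`: for `s > 0`
`∫ x^(s-1) · 2 K₀(x) dx = 2^(s-1) Γ(s/2)²`. Write `2 K₀(x) = ∫ exp (-p - x²/(4p)) dp / p`, exchange the
integrals and use the Gamma integral twice. (`H22ZK0b`) -/
theorem mellin_K0 {s : ℝ} (hs : 0 < s) :
    ∫⁻ x in Ioi (0 : ℝ), ENNReal.ofReal (x ^ (s - 1) * (2 * H22Z.K0 x)) =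
      ENNReal.ofReal (2 ^ (s - 1) * Real.Gamma (s / 2) ^ 2) :=
  H22Z.lintegral_K0 hs

/-- In particular `x^(s-1) K₀(x)` is integrable for `s > 0`. Used in block (T) for the period integrals
(`GuidePeriod`). (`H22ZK0b`) -/
theorem K0_integrable {s : ℝ} (hs : 0 < s) :
    IntegrableOn (fun x => x ^ (s - 1) * H22Z.K0 x) (Ioi 0) :=
  H22Z.integrableOn_K0_rpow hs

/-- **The uniform bound** `x K₀(x) ≤ C e^(-x/2)` for all `x > 0`, from the logarithmic bound for `x ≤ 1` and
the exponential bound for `x ≥ 1`. (`H22ZFEd`) -/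
theorem mul_K0_bound : ∃ C : ℝ, 0 < C ∧ ∀ x > 0, x * H22Z.K0 x ≤ C * Real.exp (-x / 2) :=
  H22Z.exists_mul_K0_le

/-! ## 3. The differential equation: conserved quantity and uniqueness

The equation `y² (A'' - c² A) - y A' = -A` becomes, with `u = A / y` and `p = y u'`, the system
`u' = p / y`, `p' = c² y u`. One solution is `u = K₀(cy)`, `p = -c y K₁(cy)`. -/

/-- A function on the positive half line with derivative zero is constant. (`H22ZK0c`) -/
theorem constant_of_derivative_zero {f : ℝ → ℂ} (h : ∀ y > 0, HasDerivAt f 0 y) :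
    ∀ y > 0, f y = f 1 :=
  H22Z.eq_const_of_hasDerivAt_zero h

/-- **The function `x K₁(x)`** has the derivative `-x K₀(x)` (this is the differential equation of `K₀`),
so it is decreasing. (`H22ZK0c`) -/
theorem mul_K1 :
    (∀ x : ℝ, 0 < x → HasDerivAt (fun x => x * H22Z.K1 x) (-(x * H22Z.K0 x)) x) ∧
      ∀ a x : ℝ, 0 < a → a ≤ x → x * H22Z.K1 x ≤ a * H22Z.K1 a :=
  ⟨fun _ hx => H22Z.hasDerivAt_mul_K1 hx, fun _ _ ha hx => H22Z.mul_K1_le_of_le ha hx⟩

/-- **The conserved quantity** (Wronskian): if `u' = p / y` and `p' = c² y u` for `y > 0`, then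
`p K₀(cy) + u · c y K₁(cy)` is constant. (`H22ZK0c`) -/
theorem conserved_quantity {c : ℝ} (hc : 0 < c) {u p : ℝ → ℂ}
    (hu : ∀ y > 0, HasDerivAt u (p y / y) y) (hp : ∀ y > 0, HasDerivAt p (c ^ 2 * y * u y) y) :
    ∃ C : ℂ, ∀ y > 0, p y * H22Z.K0 (c * y) + u y * ((c * y * H22Z.K1 (c * y) : ℝ) : ℂ) = C :=
  H22Z.wronskian_aux hc hu hp

/-- **Uniqueness for the system.** A solution with `u` of polynomial growth at infinity is a multiple of
`K₀(cy)`. The quotient `u / K₀(cy)` has the derivative `C / (y K₀(cy)²)` with the constant `C` of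
`conserved_quantity`. If `C ≠ 0`, compare with the derivative `c K₁(cy) / K₀(cy)²` of `1 / K₀(cy)`: since
`c y K₁(cy)` is decreasing, the quotient grows between `Y` and `2Y` by at least a constant times
`1 / (Y K₁(cY))` times `1/K₀(2cY) - 1/K₀(cY)`; with `K0_double` and the decay of `K₁` this contradicts
polynomial growth. So `C = 0` and the quotient is constant. (`H22ZK0c`) -/
theorem unique_solution_system {c : ℝ} (hc : 0 < c) {u p : ℝ → ℂ}
    (hu : ∀ y > 0, HasDerivAt u (p y / y) y) (hp : ∀ y > 0, HasDerivAt p (c ^ 2 * y * u y) y)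
    {N : ℕ} (hgr : u =O[atTop] fun y => y ^ N) : ∃ D : ℂ, ∀ y > 0, u y = D * H22Z.K0 (c * y) :=
  H22Z.eq_K0_of_growth hc hu hp hgr

/-- **The case `c = 0`**: the solutions of `y² A'' - y A' = -A` are `y (a + b log y)`: here `p` is constant.
None of them except `0` is bounded (`ode_zero_unique` in `GuideEigenfunctions`). (`H22ZK0c`) -/
theorem logarithmic_solutions {A A₁ A₂ : ℝ → ℂ}
    (h₁ : ∀ y > 0, HasDerivAt A (A₁ y) y) (h₂ : ∀ y > 0, HasDerivAt A₁ (A₂ y) y)
    (hode : ∀ y : ℝ, 0 < y → (y : ℂ) ^ 2 * A₂ y - y * A₁ y = -A y) :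
    ∃ a b : ℂ, ∀ y > 0, A y = y * (a + b * Real.log y) :=
  H22Z.eq_log_of_ode h₁ h₂ hode

/-! ## 4. Derivatives of the Fourier coefficients

`ι` is a finite set. Functions on `(H3)^ι` are written as functions `f` of `p : ι → ℂ × ℝ`,
`p j = (z_j, y_j)`, on the open set `y_j > 0` (in the library `Dom ι`). The Laplace operator in the variable
`j` in these coordinates is called `lapc j`. -/

/-- The operator `lapc j`, written out with iterated one variable derivatives. (`H22ZFEa`) -/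
theorem lapc_def {ι : Type*} [DecidableEq ι] (j : ι) (f : (ι → ℂ × ℝ) → ℂ)
    (p : ι → ℂ × ℝ) : H22Z.lapc j f p =
      ((p j).2 : ℂ) ^ 2 *
        (deriv (deriv fun t : ℝ => f (update p j ((p j).1 + t, (p j).2))) 0 +
          deriv (deriv fun t : ℝ => f (update p j ((p j).1 + t * Complex.I, (p j).2))) 0 +
          deriv (deriv fun t : ℝ => f (update p j ((p j).1, t))) (p j).2) -
      ((p j).2 : ℂ) * deriv (fun t : ℝ => f (update p j ((p j).1, t))) (p j).2 := rfl

/-- For a function on `(H3)^J` it is the Laplace operator `Lap` of `GuideEigenfunctions.laplace_def` in the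
variable `j` (`pt z y` is the point `(z, y)` of `H3` if `y > 0`). (`H22ZFEe`) -/
theorem lapc_eq_Lap {J : Type*} [Fintype J] [DecidableEq J] (F : (J → H3) → ℂ) (j : J)
    {p : J → ℂ × ℝ} (hp : ∀ i, 0 < (p i).2) :
    H22Z.lapc j (fun q => F fun i => H74.C3.pt (q i).1 (q i).2) p =
      H74.C3.Lap (fun v => F (update (fun i => H74.C3.pt (p i).1 (p i).2) j v))
        (H74.C3.pt (p j).1 (p j).2) :=
  H22Z.lapc_ptv F j hp

/-- **Differentiation under the integral sign** over a relatively compact set `S`, with a parameter in an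
open set `I` of real numbers: continuity of the function and of its derivative on `I × X` is enough.
(`H22ZFEa`) -/
theorem differentiate_integral {X : Type*} [TopologicalSpace X] [MeasurableSpace X]
    [OpensMeasurableSpace X] {μ : Measure X} {S K : Set X} (hSK : S ⊆ K) (hK : IsCompact K)
    (hSm : MeasurableSet S) (hμ : μ S < ⊤) {I : Set ℝ} (hI : IsOpen I) {g g' : ℝ → X → ℂ}
    (hg : ContinuousOn (uncurry g) (I ×ˢ univ)) (hg' : ContinuousOn (uncurry g') (I ×ˢ univ))
    (hd : ∀ s ∈ I, ∀ x, HasDerivAt (fun s => g s x) (g' s x) s) {s0 : ℝ} (hs0 : s0 ∈ I) :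
    HasDerivAt (fun s => ∫ x in S, g s x ∂μ) (∫ x in S, g' s0 x ∂μ) s0 :=
  H22Z.hasDerivAt_integral_compact hSK hK hSm hμ hI hg hg' hd hs0

/-- **Second derivatives along lines**: for `f` of class `C²` the iterated derivative of `s ↦ f (p + s d)` is
the second derivative of `f` in the direction `d`. (`H22ZFEa`) -/
theorem second_derivative_along_line {ι : Type*} [Fintype ι] {f : (ι → ℂ × ℝ) → ℂ}
    (hf : ContDiffOn ℝ 2 f {p | ∀ j, 0 < (p j).2}) (d : ι → ℂ × ℝ) {p : ι → ℂ × ℝ} {s : ℝ}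
    (hs : ∀ j, 0 < ((p + s • d) j).2) :
    deriv (deriv fun s : ℝ => f (p + s • d)) s =
      fderiv ℝ (fun q => fderiv ℝ f q d) (p + s • d) d :=
  H22Z.deriv_deriv_line hf d hs

/-- **The Laplace operator by directional derivatives**: with the directions `(1, 0)`, `(i, 0)`, `(0, 1)` in
the variable `j` (and zero in the others) it is `y_j²` times the sum of the three second derivatives minus
`y_j` times the derivative in the direction `(0, 1)`. (`H22ZFEa`) -/
theorem laplace_by_directions {ι : Type*} [Fintype ι] [DecidableEq ι] {f : (ι → ℂ × ℝ) → ℂ}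
    (hf : ContDiffOn ℝ 2 f {p | ∀ j, 0 < (p j).2}) (j : ι) {p : ι → ℂ × ℝ}
    (hp : ∀ j, 0 < (p j).2) :
    H22Z.lapc j f p = ((p j).2 : ℂ) ^ 2 *
        (fderiv ℝ (fun q => fderiv ℝ f q (Pi.single j (1, 0))) p (Pi.single j (1, 0)) +
          fderiv ℝ (fun q => fderiv ℝ f q (Pi.single j (Complex.I, 0))) p
            (Pi.single j (Complex.I, 0)) +
          fderiv ℝ (fun q => fderiv ℝ f q (Pi.single j (0, 1))) p (Pi.single j (0, 1))) -
      ((p j).2 : ℂ) * fderiv ℝ f p (Pi.single j (0, 1)) :=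
  H22Z.lapc_eq hf j hp

/-- **The characters.** `prg ν z = ∑ 2 Re (ν_j z_j)` is the pairing, `ev ν z = exp (2πi prg ν z)` the
character; it is multiplicative in both variables and has absolute value `1`. (`H22ZFEb`) -/
theorem characters {ι : Type*} [Fintype ι] (ν ν' z w : ι → ℂ) :
    H22Z.prg ν z = ∑ j, 2 * (ν j * z j).re ∧
      H22Z.ev ν z = Complex.exp (2 * Real.pi * Complex.I * (H22Z.prg ν z : ℂ)) ∧
      H22Z.ev ν (z + w) = H22Z.ev ν z * H22Z.ev ν w ∧
      H22Z.ev (ν + ν') z = H22Z.ev ν z * H22Z.ev ν' z ∧ ‖H22Z.ev ν z‖ = 1 :=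
  ⟨rfl, rfl, H22Z.ev_add ν z w, H22Z.ev_add_left ν ν' z, H22Z.norm_ev ν z⟩

/-- **The dual lattice.** `IsDual b ν` says that `prg ν` has integral values on the lattice spanned by `b`.
Then the character `ev ν` is periodic. (`H22ZFEb`) -/
theorem dual_periodic {ι κ : Type*} [Fintype ι] [Fintype κ] {b : Basis κ ℝ (ι → ℂ)} {ν : ι → ℂ}
    (h : ∀ v ∈ Submodule.span ℤ (Set.range b), ∃ m : ℤ, H22Z.prg ν v = m) :
    ∀ z, ∀ v ∈ Submodule.span ℤ (Set.range b), H22Z.ev ν (z + v) = H22Z.ev ν z :=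
  H22Z.IsDual.per h

/-- **Integration by parts on the torus.** Let `f` be of class `C²` and `z ↦ f(z, y)` periodic, `ν` in the
dual lattice. The coefficient at `ν` of the second derivative of `f` in the direction `z_j ↦ z_j + s v` is
`(2πi · 2 Re (ν_j v))²` times the coefficient of `f`. Proof: let `e_j` be the `j`-th unit vector. By
`integral_translate` the integral of `ev (-ν) z f(z + s v e_j, y)` over the parallelepiped is
`exp (2πi s · 2 Re (ν_j v))` times its value at `s = 0`; differentiate twice in `s`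
(`differentiate_integral`). (`H22ZFEb`) -/
theorem integration_by_parts {ι κ : Type*} [Fintype ι] [Fintype κ] [DecidableEq ι]
    {f : (ι → ℂ × ℝ) → ℂ} (b : Basis κ ℝ (ι → ℂ)) (hf : ContDiffOn ℝ 2 f {p | ∀ j, 0 < (p j).2})
    {y : ι → ℝ} (hy : ∀ j, 0 < y j)
    (hper : ∀ z, ∀ v ∈ Submodule.span ℤ (Set.range b),
      f (fun j => ((z + v) j, y j)) = f fun j => (z j, y j))
    {ν : ι → ℂ} (hν : ∀ v ∈ Submodule.span ℤ (Set.range b), ∃ m : ℤ, H22Z.prg ν v = m)
    (j : ι) (v : ℂ) :
    ∫ z in ZSpan.fundamentalDomain b, H22Z.ev (-ν) z *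
        fderiv ℝ (fun q => fderiv ℝ f q (Pi.single j (v, 0))) (fun j => (z j, y j))
          (Pi.single j (v, 0)) =
      (2 * Real.pi * Complex.I * ((2 * (ν j * v).re : ℝ) : ℂ)) ^ 2 *
        ∫ z in ZSpan.fundamentalDomain b, H22Z.ev (-ν) z * f fun j => (z j, y j) :=
  H22Z.int_D2_z b hf hy hper hν j v

/-- **The differential equation of the coefficients.** Let moreover `lapc j f = -f`. Then the unnormalised
coefficient at `ν`, as a function `A(t)` of the height `t = y_j` (the other heights being fixed), is twice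
differentiable with `t² (A'' - (4π|ν_j|)² A) - t A' = -A`: use `integration_by_parts` for `v = 1` and `v = i`;
`(2πi · 2 Re ν_j)² + (2πi · 2 Re (i ν_j))² = -(4π|ν_j|)²`. (`H22ZFEb`) -/
theorem coefficient_equation {ι κ : Type*} [Fintype ι] [Fintype κ] [DecidableEq ι]
    {f : (ι → ℂ × ℝ) → ℂ} (b : Basis κ ℝ (ι → ℂ)) (hf : ContDiffOn ℝ 2 f {p | ∀ j, 0 < (p j).2})
    (hper : ∀ y : ι → ℝ, (∀ j, 0 < y j) → ∀ z, ∀ v ∈ Submodule.span ℤ (Set.range b),
      f (fun j => ((z + v) j, y j)) = f fun j => (z j, y j))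
    (j : ι) (hlap : ∀ p : ι → ℂ × ℝ, (∀ j, 0 < (p j).2) → H22Z.lapc j f p = -f p)
    {y : ι → ℝ} (hy : ∀ j, 0 < y j) {ν : ι → ℂ}
    (hν : ∀ v ∈ Submodule.span ℤ (Set.range b), ∃ m : ℤ, H22Z.prg ν v = m) :
    ∃ A₁ A₂ : ℝ → ℂ,
      (∀ t > 0, HasDerivAt (fun t => ∫ z in ZSpan.fundamentalDomain b,
        H22Z.ev (-ν) z * f fun i => (z i, update y j t i)) (A₁ t) t) ∧
      (∀ t > 0, HasDerivAt A₁ (A₂ t) t) ∧
      ∀ t : ℝ, 0 < t → (t : ℂ) ^ 2 * (A₂ t - ((4 * Real.pi * ‖ν j‖ : ℝ) : ℂ) ^ 2 *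
        ∫ z in ZSpan.fundamentalDomain b, H22Z.ev (-ν) z * f fun i => (z i, update y j t i)) -
        t * A₁ t =
        -∫ z in ZSpan.fundamentalDomain b, H22Z.ev (-ν) z * f fun i => (z i, update y j t i) :=
  H22Z.int_ode b hf hper j hlap hy hν

/-- **One variable.** If moreover `f` is bounded, the coefficient is a multiple of `t K₀(4π|ν_j| t)` as a
function of `t = y_j` if `ν_j ≠ 0`, and it is zero if `ν_j = 0`. (`H22ZFEb.int_eq_K0`, `int_eq_zero`) -/
theorem coefficient_one_variable {ι κ : Type*} [Fintype ι] [Fintype κ] [DecidableEq ι]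
    {f : (ι → ℂ × ℝ) → ℂ} (b : Basis κ ℝ (ι → ℂ)) (hf : ContDiffOn ℝ 2 f {p | ∀ j, 0 < (p j).2})
    (hper : ∀ y : ι → ℝ, (∀ j, 0 < y j) → ∀ z, ∀ v ∈ Submodule.span ℤ (Set.range b),
      f (fun j => ((z + v) j, y j)) = f fun j => (z j, y j))
    (j : ι) (hlap : ∀ p : ι → ℂ × ℝ, (∀ j, 0 < (p j).2) → H22Z.lapc j f p = -f p)
    {M : ℝ} (hM : ∀ p : ι → ℂ × ℝ, (∀ j, 0 < (p j).2) → ‖f p‖ ≤ M)
    {y : ι → ℝ} (hy : ∀ j, 0 < y j) {ν : ι → ℂ}
    (hν : ∀ v ∈ Submodule.span ℤ (Set.range b), ∃ m : ℤ, H22Z.prg ν v = m) :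
    (ν j ≠ 0 → ∃ D : ℂ, ∀ t > 0, ∫ z in ZSpan.fundamentalDomain b,
        H22Z.ev (-ν) z * f (fun i => (z i, update y j t i)) =
          D * (t * H22Z.K0 (4 * Real.pi * ‖ν j‖ * t))) ∧
      (ν j = 0 → ∫ z in ZSpan.fundamentalDomain b,
        H22Z.ev (-ν) z * f (fun i => (z i, y i)) = 0) :=
  ⟨fun h => H22Z.int_eq_K0 b hf hper j hlap hM hy hν h,
    fun h => H22Z.int_eq_zero b hf hper j hlap hM hy hν h⟩

/-- **Several variables.** A function of `y : ι → ℝ`, `y_j > 0`, which in each variable separately is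
proportional to the positive function `φ_j`, is a constant times `∏ φ_j(y_j)` (change the coordinates from
`1` to `y_j` one after the other). (`H22ZFEb`) -/
theorem product_of_one_variable {ι : Type*} [Fintype ι] [DecidableEq ι] {A : (ι → ℝ) → ℂ}
    {φ : ι → ℝ → ℝ} (hφ : ∀ j, ∀ t > 0, 0 < φ j t)
    (h : ∀ j, ∀ y : ι → ℝ, (∀ i, 0 < y i) → ∃ D : ℂ, ∀ t > 0, A (update y j t) = D * φ j t) :
    ∀ y : ι → ℝ, (∀ i, 0 < y i) →
      A y = A 1 / ((∏ j, φ j 1 : ℝ) : ℂ) * ((∏ j, φ j (y j) : ℝ) : ℂ) :=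
  H22Z.eq_mul_prod hφ h

/-! ## 5. The dual lattice and the sum of exponentials -/

/-- The pairing is nondegenerate: take `z = conj ν`. (`H22ZFEc`) -/
theorem pairing_nondegenerate {ι : Type*} [Fintype ι] {ν : ι → ℂ}
    (h : ∀ z, H22Z.prg ν z = 0) : ν = 0 :=
  H22Z.prg_eq_zero h

/-- **The dual lattice can be tested on the basis**: `IsDual b ν` if and only if the numbers `prg ν (b i)` are
integers. (`H22ZFEc`) -/
theorem isDual_iff {ι κ : Type*} [Fintype ι] [Fintype κ] {b : Basis κ ℝ (ι → ℂ)} {ν : ι → ℂ} :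
    H22Z.IsDual b ν ↔ ∀ i, ∃ m : ℤ, H22Z.prg ν (b i) = m :=
  H22Z.isDual_iff

/-- **Coordinates of the dual lattice**: for integers `n_i` there is exactly one `ν` with
`prg ν (b i) = n_i` (the map `ν ↦ (prg ν (b i))_i` is injective between spaces of the same dimension);
this gives a bijection `ℤ^κ ≃` dual lattice, and the pairing with the vector `z` is `∑ n_i z_i`, `z_i` the
coordinates of `z`. So `ev ν` is the character of `fourier_series`. (`H22ZFEc`) -/
theorem dual_coordinates {ι κ : Type*} [Fintype ι] [Fintype κ] (b : Basis κ ℝ (ι → ℂ)) :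
    ∃ e : (κ → ℤ) ≃ {ν : ι → ℂ // H22Z.IsDual b ν}, ∀ (n : κ → ℤ) (z : ι → ℂ),
      H22Z.prg (e n) z = ∑ i, (n i : ℝ) * b.repr z i :=
  ⟨H22Z.dualEquiv b, fun n z => H22Z.prg_dualOf b n z⟩

/-- **The dual lattice is discrete**: let `ν = dualOf b n` be the element of the dual lattice with the
coordinates `n` (the bijection of `dual_coordinates`). The norm of `ν` is at least a positive constant times
the norm of `n` (both norms are maximum norms). (`H22ZFEc`) -/
theorem dual_discrete {ι κ : Type*} [Fintype ι] [Fintype κ] (b : Basis κ ℝ (ι → ℂ)) :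
    ∃ δ : ℝ, 0 < δ ∧ ∀ n : κ → ℤ, δ * ‖fun i => (n i : ℝ)‖ ≤ ‖H22Z.dualOf b n‖ :=
  H22Z.exists_norm_dualOf b

/-- If `g ≥ 0` is summable over the integers, then `∏ g(n_i)` is summable over `ℤ^κ`. (`H22ZFEc`) -/
theorem summable_product {κ : Type*} [Fintype κ] [DecidableEq κ] {g : ℤ → ℝ} (hg0 : ∀ m, 0 ≤ g m)
    (hg : Summable g) : Summable fun n : κ → ℤ => ∏ i, g (n i) :=
  H22Z.summable_pi_prod hg0 hg

/-- **The sum of exponentials**: `∑_ν exp (-a ∑_j |ν_j|)` over the dual lattice converges for `a > 0`, and so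
does `∑_ν exp (-2π ∑_j |ν_j| y_j)` for positive heights `y_j`. (`H22ZFEc.summable_dual`,
`H22ZFEd.summable_bound`) -/
theorem sum_of_exponentials {ι κ : Type*} [Fintype ι] [Fintype κ] (b : Basis κ ℝ (ι → ℂ)) :
    (∀ a : ℝ, 0 < a → Summable fun n : κ → ℤ => Real.exp (-a * ∑ j, ‖H22Z.dualOf b n j‖)) ∧
      ∀ y : ι → ℝ, (∀ j, 0 < y j) →
        Summable fun n : κ → ℤ => Real.exp (-(2 * Real.pi) * ∑ j, ‖H22Z.dualOf b n j‖ * y j) := by
  classical exact ⟨fun _ ha => H22Z.summable_dual b ha, fun _ hy => H22Z.summable_bound b hy⟩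

/-! ## 6. The expansion -/

/-- **Bounded periodic eigenfunctions**: the predicate `IsEig b f M` collects the hypotheses of section 4:
class `C²`, periodicity in `z`, `lapc j f = -f` for all `j`, and `|f| ≤ M`, on the set where all heights are
positive. (`H22ZFEd`) -/
theorem isEig_iff {ι κ : Type*} [Fintype ι] [DecidableEq ι] [Fintype κ]
    (b : Basis κ ℝ (ι → ℂ)) (f : (ι → ℂ × ℝ) → ℂ) (M : ℝ) :
    H22Z.IsEig b f M ↔ ContDiffOn ℝ 2 f {p | ∀ j, 0 < (p j).2} ∧
      (∀ y : ι → ℝ, (∀ j, 0 < y j) → ∀ z, ∀ v ∈ Submodule.span ℤ (Set.range b),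
        f (fun j => ((z + v) j, y j)) = f fun j => (z j, y j)) ∧
      (∀ (j : ι) (p : ι → ℂ × ℝ), (∀ j, 0 < (p j).2) → H22Z.lapc j f p = -f p) ∧
      ∀ p : ι → ℂ × ℝ, (∀ j, 0 < (p j).2) → ‖f p‖ ≤ M :=
  ⟨fun h => ⟨h.contDiffOn, h.per, h.lap, h.bound⟩, fun h => ⟨h.1, h.2.1, h.2.2.1, h.2.2.2⟩⟩

/-- A function `F` on `(H3)^J` as in `GuideEigenfunctions.fourier_expansion` gives such a function of the
coordinates. (`H22ZFEe`) -/
theorem isEig_of_H3 {J κ : Type*} [Fintype J] [DecidableEq J] [Fintype κ]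
    {b : Basis κ ℝ (J → ℂ)} {F : (J → H3) → ℂ} {M : ℝ}
    (hsmooth : ContDiffOn ℝ 2 (fun p : J → ℂ × ℝ => F fun j => H74.C3.pt (p j).1 (p j).2)
      {p | ∀ j, 0 < (p j).2})
    (hlap : ∀ (j : J) (w : J → H3), H74.C3.Lap (fun v => F (update w j v)) (w j) = -F w)
    (hbound : ∀ w, ‖F w‖ ≤ M)
    (hper : ∀ (i : κ) (x : J → H3), F (fun j => ⟨(x j).z + b i j, (x j).y, (x j).pos⟩) = F x) :
    H22Z.IsEig b (fun p => F fun j => H74.C3.pt (p j).1 (p j).2) M :=
  H22Z.IsEigH.isEig ⟨hsmooth, hlap, hbound⟩ hper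

/-- **The coefficients.** `coefA b ν f y` is the mean value over the parallelepiped of `ev (-ν) z f(z, y)`,
`wcoef b f ν` its value at `y = 1` divided by `∏ K₀(4π|ν_j|)`, and `bes ν y = ∏ y_j K₀(4π|ν_j| y_j)`.
(`H22ZFEb`, `H22ZFEd`) -/
theorem coefficients_def {ι κ : Type*} [Fintype ι] [DecidableEq ι] [Fintype κ]
    (b : Basis κ ℝ (ι → ℂ)) (f : (ι → ℂ × ℝ) → ℂ) (ν : ι → ℂ) (y : ι → ℝ) :
    H22Z.coefA b ν f y =
        ((volume : Measure (ι → ℂ)).real (ZSpan.fundamentalDomain b) : ℂ)⁻¹ *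
          ∫ z in ZSpan.fundamentalDomain b, H22Z.ev (-ν) z * f (fun j => (z j, y j)) ∧
      H22Z.wcoef b f ν =
        H22Z.coefA b ν f 1 / ((∏ j, H22Z.K0 (4 * Real.pi * ‖ν j‖) : ℝ) : ℂ) ∧
      H22Z.bes ν y = ∏ j, (y j * H22Z.K0 (4 * Real.pi * ‖ν j‖ * y j)) :=
  ⟨rfl, rfl, rfl⟩

/-- **Shape of the coefficients**: `A_ν(y) = w(ν) ∏ y_j K₀(4π|ν_j| y_j)`, from `coefficient_one_variable` and
`product_of_one_variable`; and `w(ν) = 0` if some `ν_j` is zero. (`H22ZFEd`) -/
theorem coefficient_shape {ι κ : Type*} [Fintype ι] [DecidableEq ι] [Fintype κ]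
    {b : Basis κ ℝ (ι → ℂ)} {f : (ι → ℂ × ℝ) → ℂ} {M : ℝ} (hf : H22Z.IsEig b f M) {ν : ι → ℂ}
    (hν : H22Z.IsDual b ν) :
    (∀ y : ι → ℝ, (∀ j, 0 < y j) →
      H22Z.coefA b ν f y = H22Z.wcoef b f ν *
        ((∏ j, (y j * H22Z.K0 (4 * Real.pi * ‖ν j‖ * y j)) : ℝ) : ℂ)) ∧
      ((∃ j, ν j = 0) → H22Z.wcoef b f ν = 0) :=
  ⟨fun _ hy => H22Z.coefA_eq hf hν hy, fun h => H22Z.wcoef_eq_zero hf hν h⟩

/-- **Bound for the coefficients**: `|w(ν)| ≤ M ∏ (|ν_j| / K₀(4π))`: the coefficient `A_ν(y)` is at most `M`;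
take `y_j = 1/|ν_j|`. (`H22ZFEd.norm_coefA_le`, `norm_wcoef_le`) -/
theorem coefficient_bound {ι κ : Type*} [Fintype ι] [DecidableEq ι] [Fintype κ]
    {b : Basis κ ℝ (ι → ℂ)} {f : (ι → ℂ × ℝ) → ℂ} {M : ℝ} (hf : H22Z.IsEig b f M) {ν : ι → ℂ}
    (hν : H22Z.IsDual b ν) :
    (∀ y : ι → ℝ, (∀ j, 0 < y j) → ‖H22Z.coefA b ν f y‖ ≤ M) ∧
      ‖H22Z.wcoef b f ν‖ ≤ M * ∏ j, (‖ν j‖ / H22Z.K0 (4 * Real.pi)) :=
  ⟨fun _ hy => H22Z.norm_coefA_le hf.bound ν hy, H22Z.norm_wcoef_le hf hν⟩

/-- **Bound for the terms**: with the constant `C = cT ι`, which depends only on the number of variables,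
`|w(ν) ∏ y_j K₀(4π|ν_j| y_j)| ≤ M C exp (-2π ∑ |ν_j| y_j)`. From `coefficient_bound` and `mul_K0_bound` with
`x = 4π|ν_j| y_j`. (`H22ZFEd`) -/
theorem term_bound {ι κ : Type*} [Fintype ι] [DecidableEq ι] [Fintype κ]
    {b : Basis κ ℝ (ι → ℂ)} {f : (ι → ℂ × ℝ) → ℂ} {M : ℝ} (hf : H22Z.IsEig b f M) {ν : ι → ℂ}
    (hν : H22Z.IsDual b ν) {y : ι → ℝ} (hy : ∀ j, 0 < y j) :
    ‖H22Z.wcoef b f ν * ((∏ j, (y j * H22Z.K0 (4 * Real.pi * ‖ν j‖ * y j)) : ℝ) : ℂ)‖ ≤
      M * (H22Z.cT ι * Real.exp (-(2 * Real.pi) * ∑ j, ‖ν j‖ * y j)) :=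
  H22Z.norm_term_le hf hν hy

/-- **The expansion**, as a sum over the dual lattice: by `term_bound` and `sum_of_exponentials` the Fourier
coefficients of `z ↦ f(z, y)` are summable, so that `fourier_series` applies. (`H22ZFEd`) -/
theorem expansion {ι κ : Type*} [Fintype ι] [DecidableEq ι] [Fintype κ]
    {b : Basis κ ℝ (ι → ℂ)} {f : (ι → ℂ × ℝ) → ℂ} {M : ℝ} (hf : H22Z.IsEig b f M) (z : ι → ℂ)
    {y : ι → ℝ} (hy : ∀ j, 0 < y j) :
    HasSum (fun ν : {ν : ι → ℂ // H22Z.IsDual b ν} => H22Z.wcoef b f ν *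
        ((∏ j, (y j * H22Z.K0 (4 * Real.pi * ‖ν.1 j‖ * y j)) : ℝ) : ℂ) * H22Z.ev ν.1 z)
      (f fun j => (z j, y j)) :=
  H22Z.hasSum_expansion hf z hy

/-- **Decay, uniformly in `f`**: the constants `C` and `c` depend only on the lattice and on `y₀`. The term
`ν = 0` is zero, and every other `ν` of the dual lattice satisfies `∑ |ν_j| ≥ δ` (`dual_discrete`). As all
`y_j ≥ T ≥ y₀`, the exponential `exp (-2π ∑ |ν_j| y_j)` is at most the product of `exp (-πδ T)` and
`exp (-π y₀ ∑ |ν_j|)`, and the sum of the latter converges. (`H22ZFEd`) -/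
theorem uniform_decay {ι κ : Type*} [Fintype ι] [DecidableEq ι] [Fintype κ] [Nonempty ι]
    (b : Basis κ ℝ (ι → ℂ)) {y₀ : ℝ} (hy₀ : 0 < y₀) :
    ∃ C c : ℝ, 0 < C ∧ 0 < c ∧ ∀ {f : (ι → ℂ × ℝ) → ℂ} {M : ℝ}, H22Z.IsEig b f M →
      ∀ T ≥ y₀, ∀ p : ι → ℂ × ℝ, (∀ j, T ≤ (p j).2) → ‖f p‖ ≤ C * M * Real.exp (-c * T) :=
  H22Z.norm_le_exp b hy₀

end Fermat.Agent.Guide.Bessel
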