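import Fermat.Agent.H26ZLift

/-!
# Finiteness of `{g | g x ∈ S}` (helper26, S47, package C7)
-/

set_option autoImplicit false
set_option linter.unusedSectionVars false

noncomputable section

open scoped nonZeroDivisors MatrixGroups NumberField
open Matrix NumberField

namespace Fermat.Agent.H26Z

section

variable {R K : Type*} [CommRing R] [IsDedekindDomain R] [Field K] [Algebra R K]
  [IsFractionRing R K]

/-- every vector has a nonzero multiple in the lattice -/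
theorem Lat.exists_smul_mem (Λ : Lat R K) (u : Fin 2 → K) :
    ∃ a : R, a ≠ 0 ∧ a • u ∈ Λ.M := by
  have hu : u ∈ Submodule.span K (Λ.M : Set (Fin 2 → K)) := by rw [Λ.span_eq]; trivial
  induction hu using Submodule.span_induction with
  | mem v hv => exact ⟨1, one_ne_zero, by rw [one_smul]; exact hv⟩
  | zero => exact ⟨1, one_ne_zero, by rw [smul_zero]; exact zero_mem _⟩
  | add v w _ _ hv hw =>
    obtain ⟨a, ha, hav⟩ := hv
    obtain ⟨b, hb, hbw⟩ := hw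
    refine ⟨a * b, mul_ne_zero ha hb, ?_⟩
    rw [smul_add]
    refine add_mem ?_ ?_
    · rw [mul_comm, mul_smul]
      exact Submodule.smul_mem _ _ hav
    · rw [mul_smul]
      exact Submodule.smul_mem _ _ hbw
  | smul k v _ hv =>
    obtain ⟨a, ha, hav⟩ := hv
    obtain ⟨⟨r, s⟩, hrs⟩ := IsLocalization.surj R⁰ k
    refine ⟨s * a, mul_ne_zero (nonZeroDivisors.ne_zero s.2) ha, ?_⟩
    have h1 : ((s : R) * a) • k • v = r • (a • v) := by
      funext i
      show ((s : R) * a) • (k * v i) = r • (a • v i)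
      rw [Algebra.smul_def, Algebra.smul_def, Algebra.smul_def, ← hrs, map_mul]
      ring
    rw [h1]
    exact Submodule.smul_mem _ _ hav

theorem Lat.exists_e1 (Λ : Lat R K) : ∃ a : K, a ≠ 0 ∧ (![a, 0] : Fin 2 → K) ∈ Λ.M := by
  obtain ⟨a, ha, h⟩ := Λ.exists_smul_mem ![1, 0]
  refine ⟨algebraMap R K a, fun h0 => ha ((IsFractionRing.injective R K)
    (h0.trans (map_zero _).symm)), ?_⟩
  have h1 : (![algebraMap R K a, 0] : Fin 2 → K) = a • ![1, 0] := by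
    funext i
    fin_cases i <;> simp [Algebra.smul_def]
  rw [h1]
  exact h

theorem Lat.exists_e2 (Λ : Lat R K) : ∃ a : K, a ≠ 0 ∧ (![0, a] : Fin 2 → K) ∈ Λ.M := by
  obtain ⟨a, ha, h⟩ := Λ.exists_smul_mem ![0, 1]
  refine ⟨algebraMap R K a, fun h0 => ha ((IsFractionRing.injective R K)
    (h0.trans (map_zero _).symm)), ?_⟩
  have h1 : (![0, algebraMap R K a] : Fin 2 → K) = a • ![0, 1] := by
    funext i
    fin_cases i <;> simp [Algebra.smul_def]
  rw [h1]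
  exact h

theorem gl_ext_of {g h : GL (Fin 2) K} {a b : K} (ha : a ≠ 0) (hb : b ≠ 0)
    (h1 : g • ![a, 0] = h • ![a, 0]) (h2 : g • ![0, b] = h • ![0, b]) : g = h := by
  apply Units.ext
  ext i j
  have e1 := congrFun h1 0
  have e2 := congrFun h1 1
  have e3 := congrFun h2 0
  have e4 := congrFun h2 1
  rw [Lat.gl_smul_zero, Lat.gl_smul_zero] at e1 e3
  rw [Lat.gl_smul_one, Lat.gl_smul_one] at e2 e4
  simp only [Matrix.cons_val_zero, Matrix.cons_val_one, mul_zero, add_zero,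
    zero_add] at e1 e2 e3 e4
  fin_cases i <;> fin_cases j
  · exact mul_right_cancel₀ ha e1
  · exact mul_right_cancel₀ hb e3
  · exact mul_right_cancel₀ ha e2
  · exact mul_right_cancel₀ hb e4

end

variable {K : Type*} [Field K] [NumberField K] {J : Type*} [Fintype J]

theorem ev_e1 (φ : K →+* ℂ) (a : K) : ev φ ![a, 0] = ![φ a, 0] := by
  funext i
  fin_cases i <;> simp [ev]

theorem ev_e2 (φ : K →+* ℂ) (a : K) : ev φ ![0, a] = ![0, φ a] := by
  funext i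
  fin_cases i <;> simp [ev]

/-- the norm form at `x` of `g⁻¹ (a e₁)` -/
theorem hh_inv_e1 (e : J → K →+* ℂ) (g : GL (Fin 2) K) (x : J → H3) (a : K) (j : J) :
    ‖e j g.1.det‖ * hh (x j) (ev (e j) (g⁻¹ • ![a, 0])) =
      Complex.normSq (e j a) / (actJ e g x j).y := by
  rw [← hh_actJ, smul_inv_smul, ev_e1, hh_e1]

/-- the norm form at `x` of `g⁻¹ (a e₂)` -/
theorem hh_inv_e2 (e : J → K →+* ℂ) (g : GL (Fin 2) K) (x : J → H3) (a : K) (j : J) :
    ‖e j g.1.det‖ * hh (x j) (ev (e j) (g⁻¹ • ![0, a])) =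
      Complex.normSq (e j a) *
        (Complex.normSq (actJ e g x j).z + (actJ e g x j).y ^ 2) / (actJ e g x j).y := by
  rw [← hh_actJ, smul_inv_smul, ev_e2, hh_e2]

theorem norm_e_pos (φ : K →+* ℂ) {a : K} (ha : a ≠ 0) : 0 < ‖φ a‖ :=
  norm_pos_iff.mpr (fun h => ha (φ.injective (h.trans (map_zero φ).symm)))

theorem exists_le_all (f : J → ℝ) : ∃ B : ℝ, 0 ≤ B ∧ ∀ j, f j ≤ B := by
  obtain ⟨B, hB⟩ := (Set.finite_range f).bddAbove
  exact ⟨max B 0, le_max_right _ _, fun j => (hB ⟨j, rfl⟩).trans (le_max_left _ _)⟩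

/-- uniform finiteness over bounded sets -/
theorem finite_bounded {e : J → K →+* ℂ} (he : Full e) (Λ Λ' : Lat (𝓞 K) K) (δ : Kˣ)
    {c : ℝ} (hc : 0 < c) (R Y : ℝ) :
    {g : GL (Fin 2) K | g • Λ = Λ' ∧ GeneralLinearGroup.det g = δ ∧ ∃ x : J → H3,
      (∀ j, c ≤ (x j).y) ∧ (∀ j, (x j).y ≤ Y) ∧ (∀ j, ‖(x j).z‖ ≤ R) ∧
      (∀ j, c ≤ (actJ e g x j).y) ∧ (∀ j, (actJ e g x j).y ≤ Y) ∧
      (∀ j, ‖(actJ e g x j).z‖ ≤ R)}.Finite := by
  obtain ⟨a, ha, ha'⟩ := Λ'.exists_e1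
  obtain ⟨b, hb, hb'⟩ := Λ'.exists_e2
  obtain ⟨B1, hB1, hB1'⟩ := exists_le_all
    (fun j => (Complex.normSq (e j a) / c) / ‖e j (δ : K)‖)
  obtain ⟨B2, hB2, hB2'⟩ := exists_le_all
    (fun j => (Complex.normSq (e j b) * (|R| ^ 2 + |Y| ^ 2) / c) / ‖e j (δ : K)‖)
  have hF1 := finite_short he Λ hc R Y B1
  have hF2 := finite_short he Λ hc R Y B2
  refine Set.Finite.of_finite_image (f := fun g : GL (Fin 2) K =>
    ((g⁻¹ • ![a, 0] : Fin 2 → K), (g⁻¹ • ![0, b] : Fin 2 → K))) ?_ ?_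
  · refine (hF1.prod hF2).subset ?_
    rintro _ ⟨g, ⟨h1, h2, x, h3, h4, h5, h6, h7, h8⟩, rfl⟩
    have hdet : g.1.det = (δ : K) := congrArg Units.val h2
    have hdpos : ∀ j, 0 < ‖e j (δ : K)‖ := fun j => norm_e_pos _ δ.ne_zero
    refine ⟨⟨?_, x, h3, h4, h5, fun j => ?_⟩, ⟨?_, x, h3, h4, h5, fun j => ?_⟩⟩
    · rw [← Lat.mem_smul, h1]
      exact ha'
    · refine le_trans ?_ (hB1' j)
      have h9 := hh_inv_e1 e g x a j
      rw [hdet] at h9
      rw [le_div_iff₀ (hdpos j), mul_comm, h9]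
      exact div_le_div_of_nonneg_left (Complex.normSq_nonneg _) hc (h6 j)
    · rw [← Lat.mem_smul, h1]
      exact hb'
    · refine le_trans ?_ (hB2' j)
      have h9 := hh_inv_e2 e g x b j
      rw [hdet] at h9
      rw [le_div_iff₀ (hdpos j), mul_comm, h9]
      have h10 : Complex.normSq (actJ e g x j).z ≤ |R| ^ 2 := by
        rw [Complex.normSq_eq_norm_sq]
        exact pow_le_pow_left₀ (norm_nonneg _) ((h8 j).trans (le_abs_self R)) 2
      have h11 : (actJ e g x j).y ^ 2 ≤ |Y| ^ 2 :=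
        pow_le_pow_left₀ (actJ e g x j).pos.le ((h7 j).trans (le_abs_self Y)) 2
      have h12 : 0 ≤ Complex.normSq (e j b) := Complex.normSq_nonneg _
      refine (div_le_div_of_nonneg_left ?_ hc (h6 j)).trans ?_
      · have := Complex.normSq_nonneg (actJ e g x j).z
        positivity
      · refine div_le_div_of_nonneg_right ?_ hc.le
        exact mul_le_mul_of_nonneg_left (add_le_add h10 h11) h12
  · intro g _ h _ hgh
    have h1 : g⁻¹ • ![a, 0] = h⁻¹ • ![a, 0] := congrArg Prod.fst hgh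
    have h2 : g⁻¹ • ![0, b] = h⁻¹ • ![0, b] := congrArg Prod.snd hgh
    exact inv_injective (gl_ext_of ha hb h1 h2)

/-- finiteness for one point -/
theorem finite_point {e : J → K →+* ℂ} (he : Full e) (Λ Λ' : Lat (𝓞 K) K) (δ : Kˣ)
    (x : J → H3) {c : ℝ} (hc : 0 < c) (R : ℝ) :
    {g : GL (Fin 2) K | g • Λ = Λ' ∧ GeneralLinearGroup.det g = δ ∧
      (∀ j, c ≤ (actJ e g x j).y) ∧ (∀ j, ‖(actJ e g x j).z‖ ≤ R)}.Finite := by
  obtain ⟨a, ha, ha'⟩ := Λ'.exists_e1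
  obtain ⟨c0, hc0, hc0'⟩ : ∃ c0 : ℝ, 0 < c0 ∧ ∀ j, c0 ≤ (x j).y := by
    obtain ⟨B, hB, hB'⟩ := exists_le_all (fun j => ((x j).y)⁻¹)
    refine ⟨(B + 1)⁻¹, by positivity, fun j => ?_⟩
    have h1 := hB' j
    have h2 := (x j).pos
    rw [inv_le_comm₀ (by positivity) h2]
    linarith
  obtain ⟨R0, hR0, hR0'⟩ := exists_le_all (fun j => ‖(x j).z‖)
  obtain ⟨Y0, hY0, hY0'⟩ := exists_le_all (fun j => (x j).y)
  obtain ⟨B1, hB1, hB1'⟩ := exists_le_all
    (fun j => (Complex.normSq (e j a) / c) / ‖e j (δ : K)‖)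
  have hF1 := finite_short he Λ hc0 R0 Y0 B1
  -- the heights of the images are bounded
  obtain ⟨Y1, hY1⟩ : ∃ Y1 : ℝ, ∀ v ∈ {v : Fin 2 → K | v ∈ Λ.M ∧ ∃ x : J → H3,
      (∀ j, c0 ≤ (x j).y) ∧ (∀ j, (x j).y ≤ Y0) ∧ (∀ j, ‖(x j).z‖ ≤ R0) ∧
        ∀ j, hh (x j) (ev (e j) v) ≤ B1}, ∀ j,
        Complex.normSq (e j a) / (‖e j (δ : K)‖ * hh (x j) (ev (e j) v)) ≤ Y1 := by
    have h1 := (hF1.prod (Set.finite_univ (α := J))).image (fun p : (Fin 2 → K) × J =>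
      Complex.normSq (e p.2 a) / (‖e p.2 (δ : K)‖ * hh (x p.2) (ev (e p.2) p.1)))
    obtain ⟨Y1, hY1⟩ := h1.bddAbove
    exact ⟨Y1, fun v hv j => hY1 ⟨(v, j), ⟨hv, trivial⟩, rfl⟩⟩
  refine (finite_bounded he Λ Λ' δ (lt_min hc hc0) (max R R0) (max Y0 Y1)).subset ?_
  rintro g ⟨h1, h2, h3, h4⟩
  have hdet : g.1.det = (δ : K) := congrArg Units.val h2
  have hdpos : ∀ j, 0 < ‖e j (δ : K)‖ := fun j => norm_e_pos _ δ.ne_zero
  refine ⟨h1, h2, x, fun j => (min_le_right _ _).trans (hc0' j),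
    fun j => (hY0' j).trans (le_max_left _ _), fun j => (hR0' j).trans (le_max_right _ _),
    fun j => (min_le_left _ _).trans (h3 j), fun j => ?_,
    fun j => (h4 j).trans (le_max_left _ _)⟩
  refine le_trans ?_ (le_max_right _ _)
  have hv0 : (g⁻¹ • ![a, 0] : Fin 2 → K) ≠ 0 := by
    intro h0
    have h5 : (![a, 0] : Fin 2 → K) = 0 := by
      rw [← smul_inv_smul g (![a, 0] : Fin 2 → K), h0, smul_zero]
    exact ha (by simpa using congrFun h5 0)
  have hmem : (g⁻¹ • ![a, 0] : Fin 2 → K) ∈ {v : Fin 2 → K | v ∈ Λ.M ∧ ∃ x : J → H3,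
      (∀ j, c0 ≤ (x j).y) ∧ (∀ j, (x j).y ≤ Y0) ∧ (∀ j, ‖(x j).z‖ ≤ R0) ∧
        ∀ j, hh (x j) (ev (e j) v) ≤ B1} := by
    refine ⟨?_, x, hc0', hY0', hR0', fun j => ?_⟩
    · rw [← Lat.mem_smul, h1]
      exact ha'
    · refine le_trans ?_ (hB1' j)
      have h9 := hh_inv_e1 e g x a j
      rw [hdet] at h9
      rw [le_div_iff₀ (hdpos j), mul_comm, h9]
      exact div_le_div_of_nonneg_left (Complex.normSq_nonneg _) hc (h3 j)
  refine le_trans (le_of_eq ?_) (hY1 _ hmem j)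
  have h9 := hh_inv_e1 e g x a j
  rw [hdet] at h9
  rw [h9]
  have hpos : 0 < Complex.normSq (e j a) :=
    Complex.normSq_pos.mpr (fun h => ha ((e j).injective (h.trans (map_zero _).symm)))
  have hy := (actJ e g x j).pos
  field_simp

end Fermat.Agent.H26Z
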