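import Fermat.Agent.H26ZFin

/-!
# Normalised lifts of elements of `PGL₂(K)` (helper26, S47, package C7)
-/

set_option autoImplicit false
set_option linter.unusedSectionVars false

noncomputable section

open scoped nonZeroDivisors MatrixGroups NumberField
open Matrix NumberField

namespace Fermat.Agent.H26Z

section units

variable {R K : Type*} [CommRing R] [IsDedekindDomain R] [Field K] [Algebra R K]
  [IsFractionRing R K]

theorem toPrincipal_unit (u : Rˣ) :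
    toPrincipalIdeal R K (Units.map (algebraMap R K).toMonoidHom u) = 1 := by
  apply Units.ext
  rw [coe_toPrincipalIdeal, Units.val_one]
  have h1 := FractionalIdeal.coeIdeal_span_singleton (S := R⁰) (P := K) (u : R)
  have h2 : Ideal.span {(u : R)} = ⊤ := Ideal.span_singleton_eq_top.mpr u.isUnit
  rw [h2, FractionalIdeal.coeIdeal_top] at h1
  exact h1.symm

theorem exists_unit_of_toPrincipal {a : Kˣ} (h : toPrincipalIdeal R K a = 1) :
    ∃ u : Rˣ, a = Units.map (algebraMap R K).toMonoidHom u := by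
  have key : ∀ b : Kˣ, toPrincipalIdeal R K b = 1 → ∃ r : R, algebraMap R K r = b := by
    intro b hb
    have h1 : (b : K) ∈ ((toPrincipalIdeal R K b : (FractionalIdeal R⁰ K)ˣ) :
        FractionalIdeal R⁰ K) := by
      rw [coe_toPrincipalIdeal]
      exact FractionalIdeal.mem_spanSingleton_self _ _
    rw [hb, Units.val_one, FractionalIdeal.mem_one_iff] at h1
    exact h1
  obtain ⟨r, hr⟩ := key a h
  obtain ⟨s, hs⟩ := key a⁻¹ (by rw [map_inv, h, inv_one])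
  have hinj := IsFractionRing.injective R K
  have h1 : r * s = 1 := by
    apply hinj
    rw [map_mul, hr, hs, map_one]
    exact a.mul_inv
  refine ⟨⟨r, s, h1, by rw [mul_comm, h1]⟩, ?_⟩
  apply Units.ext
  exact hr.symm

theorem toPrincipal_eq {a b : Kˣ} (h : toPrincipalIdeal R K a = toPrincipalIdeal R K b) :
    ∃ u : Rˣ, a = b * Units.map (algebraMap R K).toMonoidHom u := by
  have h1 : toPrincipalIdeal R K (b⁻¹ * a) = 1 := by
    rw [map_mul, map_inv, h, inv_mul_cancel]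
  obtain ⟨u, hu⟩ := exists_unit_of_toPrincipal h1
  exact ⟨u, by rw [← hu, mul_inv_cancel_left]⟩

end units

variable {K : Type*} [Field K] [NumberField K]

/-- representatives of the ideal classes -/
theorem exists_class_reps : ∃ S : Set (FractionalIdeal (𝓞 K)⁰ K)ˣ, S.Finite ∧
    ∀ I, ∃ C ∈ S, ∃ a : Kˣ, I = toPrincipalIdeal (𝓞 K) K a * C := by
  have h1 : Finite ((FractionalIdeal (𝓞 K)⁰ K)ˣ ⧸ (toPrincipalIdeal (𝓞 K) K).range) :=
    Finite.of_equiv _ (ClassGroup.equiv (R := 𝓞 K) K).toEquiv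
  refine ⟨Set.range fun q : ((FractionalIdeal (𝓞 K)⁰ K)ˣ ⧸ (toPrincipalIdeal (𝓞 K) K).range) =>
    q.out, Set.finite_range _, fun I => ⟨_, ⟨QuotientGroup.mk I, rfl⟩, ?_⟩⟩
  have h2 : QuotientGroup.mk (s := (toPrincipalIdeal (𝓞 K) K).range)
      (Quotient.out (QuotientGroup.mk (s := (toPrincipalIdeal (𝓞 K) K).range) I)) =
      QuotientGroup.mk I := Quotient.out_eq _
  rw [QuotientGroup.eq] at h2
  obtain ⟨a, ha⟩ := h2
  exact ⟨a, by rw [ha, mul_comm, mul_inv_cancel_left]⟩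

/-- finitely many units modulo squares -/
theorem exists_unit_sq_reps : ∃ S : Set (𝓞 K)ˣ, S.Finite ∧
    ∀ u, ∃ t ∈ S, ∃ v : (𝓞 K)ˣ, u = t * v ^ 2 := by
  have hfin : Finite ((𝓞 K)ˣ ⧸ (powMonoidHom (α := (𝓞 K)ˣ) 2).range) := by
    have : Group.FG (𝓞 K)ˣ := by
      have h1 : Module.Finite ℤ (Additive (𝓞 K)ˣ) := inferInstance
      rw [GroupFG.iff_add_fg]
      exact Module.Finite.iff_addGroup_fg.mp h1
    refine CommGroup.finite_of_fg_isMulTorsion _ ?_
    intro q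
    obtain ⟨u, rfl⟩ := QuotientGroup.mk_surjective q
    rw [isOfFinOrder_iff_pow_eq_one]
    refine ⟨2, by norm_num, ?_⟩
    rw [← QuotientGroup.mk_pow]
    exact (QuotientGroup.eq_one_iff _).mpr ⟨u, rfl⟩
  refine ⟨Set.range fun q : ((𝓞 K)ˣ ⧸ (powMonoidHom (α := (𝓞 K)ˣ) 2).range) => q.out,
    Set.finite_range _, fun u => ⟨_, ⟨QuotientGroup.mk u, rfl⟩, ?_⟩⟩
  have h2 : QuotientGroup.mk (s := (powMonoidHom (α := (𝓞 K)ˣ) 2).range)
      (Quotient.out (QuotientGroup.mk (s := (powMonoidHom (α := (𝓞 K)ˣ) 2).range) u)) =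
      QuotientGroup.mk u := Quotient.out_eq _
  rw [QuotientGroup.eq] at h2
  obtain ⟨v, hv⟩ := h2
  refine ⟨v, ?_⟩
  have h3 : v ^ 2 = _ := hv
  rw [h3, mul_inv_cancel_left]

/-- NORMALISED LIFTS: after multiplication by a scalar the pair (ideal, determinant) is in a
finite set. -/
theorem exists_lifts (Λ Λ' : Lat (𝓞 K) K) :
    ∃ P : Set ((FractionalIdeal (𝓞 K)⁰ K)ˣ × Kˣ), P.Finite ∧
      ∀ g : GL (Fin 2) K, g • LatC.mk Λ = LatC.mk Λ' →
        ∃ (c : Kˣ) (p : (FractionalIdeal (𝓞 K)⁰ K)ˣ × Kˣ), p ∈ P ∧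
          (GeneralLinearGroup.scalar (Fin 2) c * g) • Λ = p.1 • Λ' ∧
          GeneralLinearGroup.det (GeneralLinearGroup.scalar (Fin 2) c * g) = p.2 := by
  classical
  obtain ⟨S, hS, hrep⟩ := exists_class_reps (K := K)
  obtain ⟨T, hT, hsq⟩ := exists_unit_sq_reps (K := K)
  -- a generator of `C² D(Λ') / D(Λ)` if there is one
  let δ : (FractionalIdeal (𝓞 K)⁰ K)ˣ → Kˣ := fun C =>
    if h : ∃ d : Kˣ, toPrincipalIdeal (𝓞 K) K d = C * C * Λ'.detI * Λ.detI⁻¹ then h.choose else 1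
  refine ⟨Set.image2 (fun C t => (C, δ C * Units.map (algebraMap (𝓞 K) K).toMonoidHom t)) S T,
    hS.image2 _ hT, fun g hg => ?_⟩
  rw [LatC.smul_mk] at hg
  obtain ⟨I, hI⟩ := LatC.mk_eq_mk.mp hg
  obtain ⟨C, hC, a, rfl⟩ := hrep I
  have h1 : (GeneralLinearGroup.scalar (Fin 2) a⁻¹ * g) • Λ = C • Λ' := by
    rw [mul_smul, ← hI, Lat.scalar_smul, smul_smul, ← mul_assoc, ← map_mul, inv_mul_cancel,
      map_one, one_mul]
  have h2 : toPrincipalIdeal (𝓞 K) K (GeneralLinearGroup.det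
      (GeneralLinearGroup.scalar (Fin 2) a⁻¹ * g)) = C * C * Λ'.detI * Λ.detI⁻¹ := by
    have h3 := congrArg Lat.detI h1
    rw [Lat.detI_gl, Lat.detI_ismul] at h3
    rw [← h3, mul_inv_cancel_right]
  have h4 : ∃ d : Kˣ, toPrincipalIdeal (𝓞 K) K d = C * C * Λ'.detI * Λ.detI⁻¹ := ⟨_, h2⟩
  have h5 : toPrincipalIdeal (𝓞 K) K (δ C) = C * C * Λ'.detI * Λ.detI⁻¹ := by
    show toPrincipalIdeal (𝓞 K) K (if h : ∃ d : Kˣ, toPrincipalIdeal (𝓞 K) K d =
      C * C * Λ'.detI * Λ.detI⁻¹ then h.choose else 1) = _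
    rw [dif_pos h4]
    exact h4.choose_spec
  obtain ⟨u, hu⟩ := toPrincipal_eq (h2.trans h5.symm)
  obtain ⟨t, ht, v, rfl⟩ := hsq u
  set v' : Kˣ := Units.map (algebraMap (𝓞 K) K).toMonoidHom v with hv'
  refine ⟨v'⁻¹ * a⁻¹, (C, δ C * Units.map (algebraMap (𝓞 K) K).toMonoidHom t), ⟨C, hC, t, ht, rfl⟩,
    ?_, ?_⟩
  · have h6 : toPrincipalIdeal (𝓞 K) K v'⁻¹ = 1 := by
      rw [map_inv, hv', toPrincipal_unit, inv_one]
    rw [map_mul, mul_assoc, mul_smul, h1, Lat.scalar_smul, h6, one_smul]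
  · rw [map_mul (GeneralLinearGroup.scalar (Fin 2)), mul_assoc,
      map_mul GeneralLinearGroup.det, hu]
    have h7 : GeneralLinearGroup.det (GeneralLinearGroup.scalar (Fin 2) v'⁻¹) = (v' ^ 2)⁻¹ := by
      apply Units.ext
      simp [GeneralLinearGroup.scalar, pow_two]
    rw [h7]
    show (v' ^ 2)⁻¹ * (δ C * Units.map (algebraMap (𝓞 K) K).toMonoidHom (t * v ^ 2)) = _
    rw [map_mul, map_pow, ← hv']
    rw [← mul_assoc (δ C), mul_comm (v' ^ 2)⁻¹, mul_inv_cancel_right]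

end Fermat.Agent.H26Z
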