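import Fermat.Agent.H31Hyp1

/-!
# Hyperbolic 3-space, part 2 (helper31)

* `nMat`, `dMat`, `wMat`: generators of `GL (Fin 2) ℂ`, their action, Bruhat decomposition
* `measurePreserving_smul` : the measure is invariant
* `lintegral_eq`, `integral_eq` : `∫ f dμ = ∫_{y > 0} ∫_ℂ f(z, y) dz dy / y³`
* `exists_smul_eq` : the action is transitive, `exists_smul_eq₂` : two-point homogeneity.
-/

set_option autoImplicit false
set_option linter.unusedSectionVars false

noncomputable section

open MeasureTheory Matrix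
open scoped ComplexConjugate Real

namespace Fermat.Agent

namespace H3

/-! ### Generators -/

/-- `(1 b; 0 1)` -/
def nMat (b : ℂ) : GL (Fin 2) ℂ :=
  GeneralLinearGroup.mkOfDetNeZero !![1, b; 0, 1] (by simp [Matrix.det_fin_two])

/-- `(a 0; 0 1)` -/
def dMat (a : ℂ) (ha : a ≠ 0) : GL (Fin 2) ℂ :=
  GeneralLinearGroup.mkOfDetNeZero !![a, 0; 0, 1] (by simpa [Matrix.det_fin_two] using ha)

/-- `(0 -1; 1 0)` -/
def wMat : GL (Fin 2) ℂ :=
  GeneralLinearGroup.mkOfDetNeZero !![0, -1; 1, 0] (by simp [Matrix.det_fin_two])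

/-- `(c 0; 0 c)` -/
def sMat (c : ℂ) (hc : c ≠ 0) : GL (Fin 2) ℂ :=
  GeneralLinearGroup.mkOfDetNeZero !![c, 0; 0, c] (by simpa [Matrix.det_fin_two] using hc)

theorem nMat_smul (b : ℂ) (w : H3) : nMat b • w = ⟨w.z + b, w.y, w.pos⟩ := by
  ext
  · rw [smul_z]
    simp [nMat, den, GeneralLinearGroup.mkOfDetNeZero]
  · rw [smul_y]
    simp [nMat, den, GeneralLinearGroup.mkOfDetNeZero, Matrix.det_fin_two]

theorem dMat_smul (a : ℂ) (ha : a ≠ 0) (w : H3) : dMat a ha • w =
    ⟨a * w.z, ‖a‖ * w.y, mul_pos (norm_pos_iff.mpr ha) w.pos⟩ := by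
  ext
  · rw [smul_z]
    simp [dMat, den, GeneralLinearGroup.mkOfDetNeZero]
  · rw [smul_y]
    simp [dMat, den, GeneralLinearGroup.mkOfDetNeZero, Matrix.det_fin_two]

theorem sMat_smul (c : ℂ) (hc : c ≠ 0) (w : H3) : sMat c hc • w = w := by
  have h1 : Complex.normSq c ≠ 0 := by simpa using hc
  have h2 : ((Complex.normSq c : ℝ) : ℂ) ≠ 0 := by exact_mod_cast h1
  ext
  · rw [smul_z]
    simp only [sMat, den, GeneralLinearGroup.mkOfDetNeZero]
    simp
    field_simp
    rw [← Complex.mul_conj]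
    field_simp
  · rw [smul_y]
    simp [sMat, den, GeneralLinearGroup.mkOfDetNeZero, Matrix.det_fin_two]
    rw [Complex.normSq_eq_norm_sq] at h1 ⊢
    field_simp

/-- Proportional matrices have the same action. -/
theorem smul_eq_of_eq_smul {g h : GL (Fin 2) ℂ} {c : ℂ}
    (hgh : (g : Matrix (Fin 2) (Fin 2) ℂ) = c • (h : Matrix (Fin 2) (Fin 2) ℂ)) (w : H3) :
    g • w = h • w := by
  have hc : c ≠ 0 := by
    rintro rfl
    have h1 := g.det.ne_zero
    rw [zero_smul] at hgh
    apply h1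
    rw [GeneralLinearGroup.val_det_apply, hgh]
    simp [Matrix.det_fin_two]
  have h2 : g = sMat c hc * h := by
    ext i j
    rw [hgh]
    fin_cases i <;> fin_cases j <;>
      simp [sMat, GeneralLinearGroup.mkOfDetNeZero, Matrix.mul_apply, Fin.sum_univ_two]
  rw [h2, mul_smul, sMat_smul]

theorem wMat_smul (w : H3) : wMat • w =
    ⟨-conj w.z / ((Complex.normSq w.z + w.y ^ 2 : ℝ) : ℂ), w.y / (Complex.normSq w.z + w.y ^ 2),
      div_pos w.pos (add_pos_of_nonneg_of_pos (Complex.normSq_nonneg _) (pow_pos w.pos 2))⟩ := by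
  ext
  · rw [smul_z]
    simp [wMat, den, GeneralLinearGroup.mkOfDetNeZero]
  · rw [smul_y]
    simp [wMat, den, GeneralLinearGroup.mkOfDetNeZero, Matrix.det_fin_two]

theorem upper_smul_eq (g : GL (Fin 2) ℂ) (hc : g 1 0 = 0) :
    ∃ (a b : ℂ) (ha : a ≠ 0), ∀ w : H3, g • w = nMat b • dMat a ha • w := by
  have hdet := g.det.ne_zero
  rw [GeneralLinearGroup.val_det_apply, Matrix.det_fin_two, hc, mul_zero, sub_zero] at hdet
  have h00 : g 0 0 ≠ 0 := left_ne_zero_of_mul hdet
  have h11 : g 1 1 ≠ 0 := right_ne_zero_of_mul hdet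
  refine ⟨g 0 0 / g 1 1, g 0 1 / g 1 1, div_ne_zero h00 h11, fun w => ?_⟩
  rw [← mul_smul]
  refine smul_eq_of_eq_smul (c := g 1 1) ?_ w
  ext i j
  fin_cases i <;> fin_cases j <;>
    simp [nMat, dMat, GeneralLinearGroup.mkOfDetNeZero, Matrix.mul_apply, Fin.sum_univ_two, hc,
      mul_div_cancel₀ _ h11]

theorem bruhat_smul_eq (g : GL (Fin 2) ℂ) (hc : g 1 0 ≠ 0) :
    ∃ (a b b' : ℂ) (ha : a ≠ 0), ∀ w : H3,
      g • w = nMat b • dMat a ha • wMat • nMat b' • w := by
  have hdet := g.det.ne_zero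
  rw [GeneralLinearGroup.val_det_apply, Matrix.det_fin_two] at hdet
  refine ⟨(g 0 0 * g 1 1 - g 0 1 * g 1 0) / g 1 0 ^ 2, g 0 0 / g 1 0, g 1 1 / g 1 0,
    div_ne_zero hdet (pow_ne_zero 2 hc), fun w => ?_⟩
  rw [← mul_smul, ← mul_smul, ← mul_smul]
  refine smul_eq_of_eq_smul (c := g 1 0) ?_ w
  ext i j
  fin_cases i <;> fin_cases j <;>
    simp [nMat, dMat, wMat, GeneralLinearGroup.mkOfDetNeZero, Matrix.mul_apply,
      Fin.sum_univ_two] <;> field_simp <;> ring

/-! ### Invariance of the measure -/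

/-- the coordinates in the other order -/
def coord' : H3 ≃ₜ ℝ × ℂ := coord.trans (Homeomorph.prodComm ℂ ℝ)

theorem measurePreserving_coord' : MeasurePreserving (coord' : H3 → ℝ × ℂ) volume volume :=
  (Measure.measurePreserving_swap (μ := (volume : Measure ℂ)) (ν := (volume : Measure ℝ))).comp
    measurePreserving_coord

theorem measurePreserving_coord'_symm :
    MeasurePreserving (coord'.symm : ℝ × ℂ → H3) volume volume :=
  MeasurePreserving.symm coord'.toMeasurableEquiv measurePreserving_coord'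

theorem measurePreserving_of_coord {f : H3 → H3} {T : ℂ × ℝ → ℂ × ℝ}
    (hT : MeasurePreserving T volume volume) (h : ∀ w, coord (f w) = T (coord w)) :
    MeasurePreserving f volume volume := by
  have h1 : f = coord.symm ∘ T ∘ coord := by
    funext w
    exact (coord.symm_apply_apply (f w)).symm.trans (congrArg coord.symm (h w))
  rw [h1]
  exact measurePreserving_coord_symm.comp (hT.comp measurePreserving_coord)

theorem measurePreserving_of_coord' {f : H3 → H3} {T : ℝ × ℂ → ℝ × ℂ}
    (hT : MeasurePreserving T volume volume) (h : ∀ w, coord' (f w) = T (coord' w)) :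
    MeasurePreserving f volume volume := by
  have h1 : f = coord'.symm ∘ T ∘ coord' := by
    funext w
    exact (coord'.symm_apply_apply (f w)).symm.trans (congrArg coord'.symm (h w))
  rw [h1]
  exact measurePreserving_coord'_symm.comp (hT.comp measurePreserving_coord')

theorem measurePreserving_nMat (b : ℂ) :
    MeasurePreserving (fun w : H3 => nMat b • w) volume volume := by
  have hT : MeasurePreserving
      (fun p : ℝ × ℂ => (id p.1, (fun (t : ℝ) (ζ : ℂ) => ζ + b * ((Real.exp (-t) : ℝ) : ℂ)) p.1 p.2))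
      (volume : Measure (ℝ × ℂ)) volume := by
    refine MeasurePreserving.skew_product (μa := (volume : Measure ℝ)) (μb := (volume : Measure ℝ))
      (μc := (volume : Measure ℂ)) (μd := (volume : Measure ℂ)) (MeasurePreserving.id _)
      (g := fun (t : ℝ) (ζ : ℂ) => ζ + b * ((Real.exp (-t) : ℝ) : ℂ)) ?_ ?_
    · apply Continuous.measurable
      fun_prop
    · exact Filter.Eventually.of_forall fun t =>
        (measurePreserving_add_right (volume : Measure ℂ) (b * ((Real.exp (-t) : ℝ) : ℂ))).map_eq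
  refine measurePreserving_of_coord' hT fun w => ?_
  have h1 : coord' (nMat b • w) = (Real.log w.y, (w.z + b) / w.y) := by
    rw [nMat_smul]; rfl
  have h2 : coord' w = (Real.log w.y, w.z / w.y) := rfl
  rw [h1, h2]
  have h3 := w.y_ne
  refine Prod.ext rfl ?_
  simp only [Real.exp_neg, Real.exp_log w.pos]
  push_cast
  field_simp

theorem measurePreserving_dMat (a : ℂ) (ha : a ≠ 0) :
    MeasurePreserving (fun w : H3 => dMat a ha • w) volume volume := by
  have hn : ‖a / (‖a‖ : ℂ)‖ = 1 := by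
    rw [norm_div, Complex.norm_real, norm_norm, div_self (norm_ne_zero_iff.mpr ha)]
  have hrot : MeasurePreserving (fun ζ : ℂ => (a / (‖a‖ : ℂ)) * ζ) volume volume := by
    let c : Circle := ⟨a / (‖a‖ : ℂ), mem_sphere_zero_iff_norm.mpr hn⟩
    exact (rotation c).measurePreserving
  have hT : MeasurePreserving
      (fun p : ℂ × ℝ => ((a / (‖a‖ : ℂ)) * p.1, p.2 + Real.log ‖a‖))
      (volume : Measure (ℂ × ℝ)) volume :=
    hrot.prod (measurePreserving_add_right (volume : Measure ℝ) (Real.log ‖a‖))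
  refine measurePreserving_of_coord hT fun w => ?_
  have h1 : coord (dMat a ha • w) = (a * w.z / ((‖a‖ * w.y : ℝ) : ℂ), Real.log (‖a‖ * w.y)) := by
    rw [dMat_smul]; rfl
  rw [h1, coord_apply]
  have h3 := w.y_ne
  have h4 : ((‖a‖ : ℝ) : ℂ) ≠ 0 := by exact_mod_cast norm_ne_zero_iff.mpr ha
  refine Prod.ext ?_ ?_
  · push_cast
    field_simp
  · show Real.log (‖a‖ * w.y) = Real.log w.y + Real.log ‖a‖
    rw [Real.log_mul (norm_ne_zero_iff.mpr ha) w.pos.ne', add_comm]

theorem measurePreserving_wMat : MeasurePreserving (fun w : H3 => wMat • w) volume volume := by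
  have hneg : MeasurePreserving (fun ζ : ℂ => -conj ζ) volume volume :=
    (Complex.conjLIE.trans (LinearIsometryEquiv.neg ℝ)).measurePreserving
  have hT : MeasurePreserving
      (fun p : ℂ × ℝ => (-conj p.1, (fun (ζ : ℂ) (t : ℝ) =>
        -Real.log (1 + Complex.normSq ζ) - t) p.1 p.2))
      (volume : Measure (ℂ × ℝ)) volume := by
    refine MeasurePreserving.skew_product (μa := (volume : Measure ℂ)) (μb := (volume : Measure ℂ))
      (μc := (volume : Measure ℝ)) (μd := (volume : Measure ℝ)) hneg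
      (g := fun (ζ : ℂ) (t : ℝ) => -Real.log (1 + Complex.normSq ζ) - t) ?_ ?_
    · apply Measurable.sub
      · apply Measurable.neg
        exact Real.measurable_log.comp ((Complex.continuous_normSq.measurable.comp
          measurable_fst).const_add 1)
      · exact measurable_snd
    · exact Filter.Eventually.of_forall fun ζ =>
        (Measure.measurePreserving_sub_left (volume : Measure ℝ) (-Real.log (1 + Complex.normSq ζ))).map_eq
  refine measurePreserving_of_coord hT fun w => ?_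
  have hpos : 0 < Complex.normSq w.z + w.y ^ 2 :=
    add_pos_of_nonneg_of_pos (Complex.normSq_nonneg _) (pow_pos w.pos 2)
  have h1 : coord (wMat • w) = (-conj w.z / ((Complex.normSq w.z + w.y ^ 2 : ℝ) : ℂ) /
      ((w.y / (Complex.normSq w.z + w.y ^ 2) : ℝ) : ℂ),
      Real.log (w.y / (Complex.normSq w.z + w.y ^ 2))) := by
    rw [wMat_smul]; rfl
  rw [h1, coord_apply]
  have h3 := w.y_ne
  have h4 : ((Complex.normSq w.z + w.y ^ 2 : ℝ) : ℂ) ≠ 0 := by exact_mod_cast hpos.ne'
  refine Prod.ext ?_ ?_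
  · show _ = -conj (w.z / (w.y : ℂ))
    rw [map_div₀, Complex.conj_ofReal]
    push_cast at h4 ⊢
    field_simp
  · show _ = -Real.log (1 + Complex.normSq (w.z / (w.y : ℂ))) - Real.log w.y
    have hy := w.pos
    have h5 : Complex.normSq (w.z / (w.y : ℂ)) = Complex.normSq w.z / w.y ^ 2 := by
      rw [map_div₀, Complex.normSq_ofReal, sq]
    have h6 : 0 < 1 + Complex.normSq w.z / w.y ^ 2 := by
      have := Complex.normSq_nonneg w.z
      positivity
    rw [h5, Real.log_div hy.ne' hpos.ne']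
    have h7 : Complex.normSq w.z + w.y ^ 2 = (1 + Complex.normSq w.z / w.y ^ 2) * w.y ^ 2 := by
      field_simp
      ring
    rw [h7, Real.log_mul h6.ne' (by positivity), Real.log_pow]
    push_cast
    ring

/-- **The measure is invariant under `GL (Fin 2) ℂ`.** -/
theorem measurePreserving_smul (g : GL (Fin 2) ℂ) :
    MeasurePreserving (fun w : H3 => g • w) volume volume := by
  by_cases hc : g 1 0 = 0
  · obtain ⟨a, b, ha, h⟩ := upper_smul_eq g hc
    have h1 : (fun w : H3 => g • w) = (fun w => nMat b • w) ∘ fun w => dMat a ha • w := funext h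
    rw [h1]
    exact (measurePreserving_nMat b).comp (measurePreserving_dMat a ha)
  · obtain ⟨a, b, b', ha, h⟩ := bruhat_smul_eq g hc
    have h1 : (fun w : H3 => g • w) = (fun w => nMat b • w) ∘ (fun w => dMat a ha • w) ∘
      (fun w => wMat • w) ∘ fun w => nMat b' • w := funext h
    rw [h1]
    exact (measurePreserving_nMat b).comp ((measurePreserving_dMat a ha).comp
      (measurePreserving_wMat.comp (measurePreserving_nMat b')))

instance : SMulInvariantMeasure (GL (Fin 2) ℂ) H3 volume :=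
  ⟨fun g _ hs => (measurePreserving_smul g).measure_preimage hs.nullMeasurableSet⟩

/-! ### Integration in the coordinates `(z, y)` -/

theorem lintegral_eq_coord' (f : H3 → ENNReal) (hf : Measurable f) :
    ∫⁻ w, f w = ∫⁻ t : ℝ, ∫⁻ ζ : ℂ, f (coord'.symm (t, ζ)) := by
  rw [← measurePreserving_coord'_symm.lintegral_comp hf]
  exact lintegral_prod _ (hf.comp measurePreserving_coord'_symm.measurable).aemeasurable

theorem lintegral_exp_mul (t : ℝ) (f : ℂ → ENNReal) :
    ∫⁻ ζ : ℂ, f (((Real.exp t : ℝ) : ℂ) * ζ) = ENNReal.ofReal (Real.exp (-2 * t)) * ∫⁻ z, f z := by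
  have h0 : Real.exp t ≠ 0 := (Real.exp_pos t).ne'
  have h1 : Measure.map (fun ζ : ℂ => Real.exp t • ζ) volume =
      ENNReal.ofReal |(Real.exp t ^ Module.finrank ℝ ℂ)⁻¹| • (volume : Measure ℂ) :=
    Measure.map_addHaar_smul volume h0
  have h2 : ∀ ζ : ℂ, ((Real.exp t : ℝ) : ℂ) * ζ = Real.exp t • ζ := fun ζ => rfl
  simp only [h2]
  have h3 : MeasurableEmbedding (fun ζ : ℂ => Real.exp t • ζ) :=
    (Homeomorph.smulOfNeZero (Real.exp t) h0).measurableEmbedding
  rw [← h3.lintegral_map, h1, lintegral_smul_measure, Complex.finrank_real_complex, smul_eq_mul]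
  congr 2
  rw [abs_of_pos (by positivity), ← Real.exp_nat_mul, ← Real.exp_neg]
  congr 1
  push_cast
  ring

/-- **Integration formula**: `dμ = dz dy / y³`. -/
theorem lintegral_eq (f : ℂ → ℝ → ENNReal) (hf : Measurable (Function.uncurry f)) :
    ∫⁻ w : H3, f w.z w.y =
      ∫⁻ y in Set.Ioi (0 : ℝ), (∫⁻ z : ℂ, f z y) * ENNReal.ofReal ((y ^ 3)⁻¹) := by
  have hm : Measurable (fun w : H3 => f w.z w.y) := hf.comp (measurable_z.prodMk measurable_y)
  rw [lintegral_eq_coord' _ hm]
  have h1 : ∀ t : ℝ, ∫⁻ ζ : ℂ, f (coord'.symm (t, ζ)).z (coord'.symm (t, ζ)).y =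
      ENNReal.ofReal |Real.exp t| * ((∫⁻ z : ℂ, f z (Real.exp t)) *
        ENNReal.ofReal ((Real.exp t ^ 3)⁻¹)) := by
    intro t
    refine (lintegral_exp_mul t (fun z => f z (Real.exp t))).trans ?_
    rw [mul_comm (∫⁻ z : ℂ, f z (Real.exp t)), ← mul_assoc,
      ← ENNReal.ofReal_mul (abs_nonneg _), abs_of_pos (Real.exp_pos t)]
    congr 2
    rw [← Real.exp_nat_mul, ← Real.exp_neg, ← Real.exp_add]
    congr 1
    push_cast
    ring
  simp only [h1]
  have h3 := lintegral_image_eq_lintegral_abs_deriv_mul (s := Set.univ) MeasurableSet.univ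
    (fun x _ => (Real.hasDerivAt_exp x).hasDerivWithinAt) Real.exp_injective.injOn
    (fun y => (∫⁻ z : ℂ, f z y) * ENNReal.ofReal ((y ^ 3)⁻¹))
  rw [Set.image_univ, Real.range_exp, Measure.restrict_univ] at h3
  exact h3.symm

/-- the measure `dy / y³` on `(0, ∞)` -/
def yMeasure : Measure ℝ :=
  (volume.restrict (Set.Ioi 0)).withDensity (fun y => ENNReal.ofReal ((y ^ 3)⁻¹))

instance : SFinite yMeasure := by unfold yMeasure; infer_instance

theorem measurable_dens : Measurable (fun y : ℝ => ENNReal.ofReal ((y ^ 3)⁻¹)) :=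
  ((measurable_id.pow_const 3).inv).ennreal_ofReal

theorem lintegral_yMeasure (f : ℝ → ENNReal) (hf : Measurable f) :
    ∫⁻ y, f y ∂yMeasure = ∫⁻ y in Set.Ioi (0 : ℝ), f y * ENNReal.ofReal ((y ^ 3)⁻¹) := by
  rw [yMeasure, lintegral_withDensity_eq_lintegral_mul _ measurable_dens hf]
  refine lintegral_congr fun y => ?_
  rw [Pi.mul_apply, mul_comm]

/-- `(z, y)` is measure preserving from `H3` to `ℂ × ℝ` with `dz × dy / y³`. -/
theorem measurePreserving_zy : MeasurePreserving (fun w : H3 => (w.z, w.y)) volume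
    ((volume : Measure ℂ).prod yMeasure) := by
  refine ⟨measurable_z.prodMk measurable_y, ?_⟩
  refine Measure.ext_of_lintegral _ fun f hf => ?_
  rw [lintegral_map hf (measurable_z.prodMk measurable_y), lintegral_prod_symm _ hf.aemeasurable]
  have h1 := lintegral_eq (fun z y => f (z, y)) hf
  rw [h1, lintegral_yMeasure _ ?_]
  exact hf.lintegral_prod_left'

instance : PolishSpace H3 := coord.isClosedEmbedding.polishSpace

theorem measurableEmbedding_zy : MeasurableEmbedding (fun w : H3 => (w.z, w.y)) := by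
  refine (continuous_z.prodMk continuous_y).measurableEmbedding ?_
  intro w w' h
  exact H3.ext (congrArg Prod.fst h) (congrArg Prod.snd h)

variable {E : Type*} [NormedAddCommGroup E] [NormedSpace ℝ E]

theorem integral_yMeasure (f : ℝ → E) :
    ∫ y, f y ∂yMeasure = ∫ y in Set.Ioi (0 : ℝ), (y ^ 3)⁻¹ • f y := by
  rw [yMeasure, integral_withDensity_eq_integral_toReal_smul measurable_dens
    (Filter.Eventually.of_forall fun y => ENNReal.ofReal_lt_top)]
  refine setIntegral_congr_fun measurableSet_Ioi fun y hy => ?_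
  have hy' : (0 : ℝ) < y := hy
  rw [ENNReal.toReal_ofReal (by positivity)]

/-- **Integration formula**, Bochner integral. -/
theorem integral_eq (f : ℂ → ℝ → E) (hf : Integrable (fun w : H3 => f w.z w.y)) :
    ∫ w : H3, f w.z w.y = ∫ y in Set.Ioi (0 : ℝ), (y ^ 3)⁻¹ • ∫ z : ℂ, f z y := by
  have h1 := measurePreserving_zy.integral_comp measurableEmbedding_zy (fun p => f p.1 p.2)
  have h2 : Integrable (fun p : ℂ × ℝ => f p.1 p.2) ((volume : Measure ℂ).prod yMeasure) := by
    rw [← measurePreserving_zy.integrable_comp_emb measurableEmbedding_zy]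
    exact hf
  rw [h1, integral_prod_symm _ h2, integral_yMeasure]

theorem integrable_iff (f : ℂ → ℝ → E) : Integrable (fun w : H3 => f w.z w.y) ↔
    Integrable (fun p : ℂ × ℝ => f p.1 p.2) ((volume : Measure ℂ).prod yMeasure) :=
  measurePreserving_zy.integrable_comp_emb (g := fun p : ℂ × ℝ => f p.1 p.2)
    measurableEmbedding_zy

/-! ### Transitivity and two-point homogeneity -/

/-- the base point `(0, 1)` -/
def base : H3 := ⟨0, 1, one_pos⟩

@[simp] theorem base_z : base.z = 0 := rfl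
@[simp] theorem base_y : base.y = 1 := rfl

/-- `n(z) d(y)` moves the base point to `w` -/
def toPt (w : H3) : GL (Fin 2) ℂ := nMat w.z * dMat w.y w.y_ne

@[simp] theorem toPt_smul (w : H3) : toPt w • base = w := by
  rw [toPt, mul_smul, dMat_smul, nMat_smul]
  ext
  · simp
  · simp [abs_of_pos w.pos]

theorem exists_smul_eq (w w' : H3) : ∃ g : GL (Fin 2) ℂ, g • w = w' := by
  refine ⟨toPt w' * (toPt w)⁻¹, ?_⟩
  rw [mul_smul]
  have h : (toPt w)⁻¹ • w = base := by
    rw [inv_smul_eq_iff, toPt_smul]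
  rw [h, toPt_smul]

theorem herm_base : herm base = 1 := by
  ext i j
  fin_cases i <;> fin_cases j <;> simp [herm]

theorem posDef_trace (w : H3) : (herm w).trace = ((2 * ch w base : ℝ) : ℂ) := by
  have := ch_eq_trace w base
  rwa [herm_base, Matrix.adjugate_one, Matrix.mul_one] at this

/-- a point on the axis is determined by its distance to the base point -/
theorem axis_eq {r r' : ℝ} (hr : 1 ≤ r) (hr' : 1 ≤ r')
    (h : (r + r⁻¹) = (r' + r'⁻¹)) : r = r' := by
  have h0 : 0 < r := by linarith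
  have h0' : 0 < r' := by linarith
  have h1 : (r - r') * (r * r' - 1) = 0 := by
    field_simp at h
    nlinarith
  rcases mul_eq_zero.mp h1 with h2 | h2
  · linarith
  · nlinarith

theorem wMat_base : wMat • base = base := by
  rw [wMat_smul]
  ext <;> simp

/-- elements with `g gᴴ = 1` fix the base point -/
theorem unitary_smul {g : GL (Fin 2) ℂ}
    (hg : (g : Matrix (Fin 2) (Fin 2) ℂ) * (g : Matrix (Fin 2) (Fin 2) ℂ)ᴴ = 1) :
    ‖(g : Matrix (Fin 2) (Fin 2) ℂ).det‖ = 1 ∧ g • base = base := by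
  have h1 : ‖(g : Matrix (Fin 2) (Fin 2) ℂ).det‖ = 1 := by
    have h2 := congrArg Matrix.det hg
    rw [Matrix.det_mul, Matrix.det_conjTranspose, Matrix.det_one, Complex.star_def,
      Complex.mul_conj, Complex.normSq_eq_norm_sq] at h2
    have h3 : ‖(g : Matrix (Fin 2) (Fin 2) ℂ).det‖ ^ 2 = 1 := by exact_mod_cast h2
    nlinarith [norm_nonneg (g : Matrix (Fin 2) (Fin 2) ℂ).det]
  refine ⟨h1, herm_injective ?_⟩
  rw [herm_smul, h1, herm_base, Matrix.mul_one, hg]
  simp

/-- **Cartan decomposition**: a unitary matrix moves `w` to the axis. -/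
theorem exists_unitary (w : H3) : ∃ (g : GL (Fin 2) ℂ) (r : ℝ) (hr : 1 ≤ r), g • base = base ∧
    g • w = ⟨0, r, by linarith⟩ := by
  have hH : (herm w).IsHermitian := conjTranspose_herm w
  have key := hH.conjStarAlgAut_star_eigenvectorUnitary
  rw [Unitary.conjStarAlgAut_star_apply] at key
  set U := hH.eigenvectorUnitary with hU
  have hU1 : star (U : Matrix (Fin 2) (Fin 2) ℂ) * (U : Matrix (Fin 2) (Fin 2) ℂ) = 1 :=
    Unitary.coe_star_mul_self U
  have hU2 : (U : Matrix (Fin 2) (Fin 2) ℂ) * star (U : Matrix (Fin 2) (Fin 2) ℂ) = 1 :=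
    Unitary.coe_mul_star_self U
  let g : GL (Fin 2) ℂ := ⟨star (U : Matrix (Fin 2) (Fin 2) ℂ), U, hU1, hU2⟩
  have hg : (g : Matrix (Fin 2) (Fin 2) ℂ) = star (U : Matrix (Fin 2) (Fin 2) ℂ) := rfl
  obtain ⟨hn, hb⟩ := unitary_smul (g := g) (by
    rw [hg, Matrix.star_eq_conjTranspose, conjTranspose_conjTranspose]
    exact hU1)
  have hM : herm (g • w) = diagonal (RCLike.ofReal ∘ hH.eigenvalues) := by
    rw [herm_smul, hn, hg, Matrix.star_eq_conjTranspose, conjTranspose_conjTranspose]
    rw [← key, Matrix.star_eq_conjTranspose]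
    simp [Matrix.mul_assoc]
  have hz : (g • w).z = 0 := by
    have h1 := congrFun (congrFun hM 0) 1
    rw [Matrix.diagonal_apply_ne _ (by decide)] at h1
    simp only [herm, Matrix.of_apply, Matrix.cons_val', Matrix.cons_val_one,
      Matrix.cons_val_zero, Matrix.cons_val_fin_one] at h1
    rcases div_eq_zero_iff.mp h1 with h2 | h2
    · exact h2
    · exact absurd h2 (g • w).y_ne
  by_cases hy : 1 ≤ (g • w).y
  · exact ⟨g, (g • w).y, hy, hb, H3.ext hz rfl⟩
  · refine ⟨wMat * g, (g • w).y⁻¹, ?_, ?_, ?_⟩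
    · exact (one_le_inv₀ (g • w).pos).mpr (not_le.mp hy).le
    · rw [mul_smul, hb, wMat_base]
    · rw [mul_smul, wMat_smul]
      ext
      · simp [hz]
      · have := (g • w).pos
        simp only [hz, map_zero, zero_add]
        field_simp

/-- **Two-point homogeneity.** -/
theorem exists_smul_eq₂ {w w' v v' : H3} (h : ch w w' = ch v v') :
    ∃ g : GL (Fin 2) ℂ, g • w = v ∧ g • w' = v' := by
  have key : ∀ w w' : H3, ∃ (g : GL (Fin 2) ℂ) (r : ℝ) (hr : 1 ≤ r), g • w = base ∧
      g • w' = ⟨0, r, by linarith⟩ := by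
    intro w w'
    have h1 : (toPt w)⁻¹ • w = base := by rw [inv_smul_eq_iff, toPt_smul]
    obtain ⟨g, r, hr, h2, h3⟩ := exists_unitary ((toPt w)⁻¹ • w')
    exact ⟨g * (toPt w)⁻¹, r, hr, by rw [mul_smul, h1, h2], by rw [mul_smul, h3]⟩
  obtain ⟨g, r, hr, h1, h2⟩ := key w w'
  obtain ⟨g', r', hr', h1', h2'⟩ := key v v'
  have h3 : r + r⁻¹ = r' + r'⁻¹ := by
    have e1 : ∀ (r : ℝ) (hr : 1 ≤ r), ch base ⟨0, r, by linarith⟩ = (r + r⁻¹) / 2 := by
      intro r hr
      have h0 : 0 < r := by linarith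
      simp only [ch, base_z, base_y, sub_self, map_zero]
      field_simp
      ring
    have e2 : ch w w' = ch base ⟨0, r, by linarith⟩ := by rw [← ch_smul g, h1, h2]
    have e3 : ch v v' = ch base ⟨0, r', by linarith⟩ := by rw [← ch_smul g', h1', h2']
    rw [e1 r hr] at e2
    rw [e1 r' hr'] at e3
    linarith
  obtain rfl := axis_eq hr hr' h3
  refine ⟨g'⁻¹ * g, ?_, ?_⟩
  · rw [mul_smul, h1, inv_smul_eq_iff, h1']
  · rw [mul_smul, h2, inv_smul_eq_iff, h2']

end H3

end Fermat.Agent
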