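import Mathlib

/-!
# S47, block (C): restricted coset spaces

`G` a group, `ι` an index set (the finite places), `L : LevelFam G ι` a family of subgroups such that
every element of `G` lies in almost all of them.  `XF L` is the restricted product of the coset
spaces `G ⧸ L.U i` (base point the trivial coset).  `G` acts diagonally.
-/

namespace Fermat.Agent.H59XF

open Function

/-- A family of subgroups such that every element of `G` lies in almost all members. -/
structure LevelFam (G : Type*) [Group G] (ι : Type*) where
  U : ι → Subgroup G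
  adm : ∀ g : G, {i | g ∉ U i}.Finite

variable {G : Type*} [Group G] {ι : Type*}

/-- The restricted product of the coset spaces `G ⧸ L.U i`. -/
structure XF (L : LevelFam G ι) where
  val : (i : ι) → G ⧸ L.U i
  fin : {i | val i ≠ ((1 : G) : G ⧸ L.U i)}.Finite

namespace XF

variable {L : LevelFam G ι}

instance : CoeFun (XF L) (fun _ => (i : ι) → G ⧸ L.U i) := ⟨fun x => x.val⟩

@[ext] theorem ext {x y : XF L} (h : ∀ i, x i = y i) : x = y := by
  cases x; cases y
  congr
  exact funext h

theorem finite (x : XF L) : {i | x i ≠ ((1 : G) : G ⧸ L.U i)}.Finite := x.fin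

/-- The base point. -/
instance : Inhabited (XF L) := ⟨⟨fun _ => ((1 : G) : G ⧸ L.U _), by simp⟩⟩

/-- The base point. -/
def base (L : LevelFam G ι) : XF L := default

@[simp] theorem base_apply (i : ι) : base L i = ((1 : G) : G ⧸ L.U i) := rfl

/-- The diagonal action of `G`. -/
instance : MulAction G (XF L) where
  smul g x := ⟨fun i => g • x i, by
    refine ((x.fin.union (L.adm g))).subset ?_
    intro i hi
    by_contra hcon
    simp only [Set.mem_union, Set.mem_ofPred_eq, not_or, not_not] at hcon
    apply hi
    show g • x.val i = _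
    rw [hcon.1]
    show (((g * 1 : G)) : G ⧸ L.U i) = ((1 : G) : G ⧸ L.U i)
    rw [QuotientGroup.eq]
    simpa using hcon.2⟩
  one_smul x := by
    apply XF.ext; intro i
    exact one_smul G (x.val i)
  mul_smul g h x := by
    apply XF.ext; intro i
    exact mul_smul g h (x.val i)

@[simp] theorem smul_apply (g : G) (x : XF L) (i : ι) : (g • x) i = g • x i := rfl

/-- Change the coordinate at one place. -/
def upd [DecidableEq ι] (x : XF L) (i : ι) (a : G ⧸ L.U i) : XF L :=
  ⟨Function.update x.val i a, by
    refine (x.fin.union (Set.finite_singleton i)).subset ?_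
    intro j hj
    by_cases h : j = i
    · right; exact h
    · left
      simpa [Function.update_of_ne h] using hj⟩

@[simp] theorem upd_same [DecidableEq ι] (x : XF L) (i : ι) (a : G ⧸ L.U i) :
    upd x i a i = a := by simp [upd]

@[simp] theorem upd_ne [DecidableEq ι] (x : XF L) {i j : ι} (h : j ≠ i) (a : G ⧸ L.U i) :
    upd x i a j = x j := by simp [upd, h]

theorem upd_upd [DecidableEq ι] (x : XF L) (i : ι) (a b : G ⧸ L.U i) :
    upd (upd x i a) i b = upd x i b := by
  apply XF.ext; intro j
  by_cases h : j = i
  · subst h; simp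
  · simp [h]

theorem upd_comm [DecidableEq ι] (x : XF L) {i j : ι} (h : i ≠ j) (a : G ⧸ L.U i)
    (b : G ⧸ L.U j) : upd (upd x i a) j b = upd (upd x j b) i a := by
  apply XF.ext; intro k
  by_cases h1 : k = i
  · subst h1; simp [h]
  · by_cases h2 : k = j
    · subst h2; simp [h1]
    · simp [h1, h2]

@[simp] theorem upd_self [DecidableEq ι] (x : XF L) (i : ι) : upd x i (x i) = x := by
  apply XF.ext; intro k
  by_cases h1 : k = i
  · subst h1; simp
  · simp [h1]

theorem smul_upd [DecidableEq ι] (g : G) (x : XF L) (i : ι) (a : G ⧸ L.U i) :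
    g • upd x i a = upd (g • x) i (g • a) := by
  apply XF.ext; intro k
  by_cases h1 : k = i
  · subst h1; simp
  · simp [h1]

open Classical in
/-- The space is countable if `G` and `ι` are. -/
instance [Countable G] [Countable ι] : Countable (XF L) := by
  classical
  -- the underlying data: a finite set of places and representatives there
  have hsurj : Function.Surjective
      (fun p : (Σ s : Finset ι, (s → G)) =>
        (⟨fun i => if h : i ∈ p.1 then ((p.2 ⟨i, h⟩ : G) : G ⧸ L.U i) else ((1 : G) : G ⧸ L.U i), by
          refine (p.1.finite_toSet).subset ?_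
          intro i hi
          by_contra hcon
          apply hi
          have : i ∉ p.1 := by simpa using hcon
          simp [this]⟩ : XF L)) := by
    intro x
    refine ⟨⟨x.fin.toFinset, fun i => (x.val i.1).out⟩, ?_⟩
    apply XF.ext; intro i
    show (if h : i ∈ x.fin.toFinset then _ else _) = _
    by_cases h : i ∈ x.fin.toFinset
    · rw [dif_pos h]
      exact Quotient.out_eq' (x.val i)
    · rw [dif_neg h]
      have : ¬ (x.val i ≠ ((1 : G) : G ⧸ L.U i)) := by simpa using h
      exact (not_not.mp this).symm
  exact hsurj.countable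

end XF

/-! ## Automorphisms -/

/-- Automorphism data: `s` an automorphism of `G`, `σ` a permutation of the places, compatible with
the levels. -/
structure Twist (L : LevelFam G ι) where
  s : G ≃* G
  σ : Equiv.Perm ι
  map_U : ∀ (i : ι) (g : G), g ∈ L.U i ↔ s g ∈ L.U (σ i)

namespace Twist

variable {L : LevelFam G ι} (t : Twist L)

/-- The map induced on cosets, from the place `i` to the place `σ i`. -/
def cmap (i : ι) : G ⧸ L.U i → G ⧸ L.U (t.σ i) :=
  Quotient.map' t.s (by
    intro a b hab
    rw [QuotientGroup.leftRel_apply] at hab ⊢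
    rw [← map_inv, ← map_mul]
    exact (t.map_U i _).1 hab)

@[simp] theorem cmap_mk (i : ι) (g : G) :
    t.cmap i ((g : G) : G ⧸ L.U i) = ((t.s g : G) : G ⧸ L.U (t.σ i)) := rfl

theorem cmap_smul (i : ι) (g : G) (x : G ⧸ L.U i) : t.cmap i (g • x) = t.s g • t.cmap i x := by
  induction x using QuotientGroup.induction_on with
  | H x =>
    show t.cmap i (((g * x : G)) : G ⧸ L.U i) = _
    rw [cmap_mk, cmap_mk, map_mul]
    rfl

theorem cmap_injective (i : ι) : Function.Injective (t.cmap i) := by
  intro x y h
  induction x using QuotientGroup.induction_on with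
  | H x =>
    induction y using QuotientGroup.induction_on with
    | H y =>
      rw [cmap_mk, cmap_mk, QuotientGroup.eq] at h
      rw [QuotientGroup.eq, t.map_U i]
      simpa using h

theorem cmap_surjective (i : ι) : Function.Surjective (t.cmap i) := by
  intro y
  induction y using QuotientGroup.induction_on with
  | H y => exact ⟨((t.s.symm y : G) : G ⧸ L.U i), by simp⟩

/-- Transport of a coset space along an equality of places. -/
def ccast {i j : ι} (h : i = j) : G ⧸ L.U i → G ⧸ L.U j := fun x => h ▸ x

@[simp] theorem ccast_mk {i j : ι} (h : i = j) (g : G) :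
    ccast (L := L) h ((g : G) : G ⧸ L.U i) = ((g : G) : G ⧸ L.U j) := by
  subst h; rfl

theorem ccast_smul {i j : ι} (h : i = j) (g : G) (x : G ⧸ L.U i) :
    ccast (L := L) h (g • x) = g • ccast (L := L) h x := by
  subst h; rfl

/-- The action of the automorphism on `XF L`: `(s x)_{σ i} = s (x_i)`. -/
def act (x : XF L) : XF L :=
  ⟨fun j => ccast (L := L) (t.σ.apply_symm_apply j) (t.cmap (t.σ.symm j) (x (t.σ.symm j))), by
    refine (x.fin.image t.σ).subset ?_
    intro j hj
    refine ⟨t.σ.symm j, ?_, by simp⟩
    intro hcon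
    apply hj
    show ccast (L := L) _ (t.cmap _ (x.val _)) = _
    rw [hcon, cmap_mk, ccast_mk, map_one]⟩

theorem act_apply (x : XF L) (j : ι) :
    t.act x j = ccast (L := L) (t.σ.apply_symm_apply j) (t.cmap (t.σ.symm j) (x (t.σ.symm j))) :=
  rfl

@[simp] theorem act_apply_σ (x : XF L) (i : ι) : t.act x (t.σ i) = t.cmap i (x i) := by
  rw [act_apply]
  have key : ∀ (j : ι) (hj : j = i) (h' : t.σ j = t.σ i),
      ccast (L := L) h' (t.cmap j (x j)) = t.cmap i (x i) := by
    intro j hj h'
    subst hj
    rfl
  exact key _ (by simp) _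

theorem act_smul (g : G) (x : XF L) : t.act (g • x) = t.s g • t.act x := by
  apply XF.ext; intro j
  obtain ⟨i, rfl⟩ := t.σ.surjective j
  rw [act_apply_σ, XF.smul_apply, cmap_smul, XF.smul_apply, act_apply_σ]

theorem act_injective : Function.Injective t.act := by
  intro x y h
  apply XF.ext; intro i
  apply t.cmap_injective i
  rw [← act_apply_σ, ← act_apply_σ, h]

theorem act_surjective : Function.Surjective t.act := by
  classical
  intro y
  choose f hf using fun i => t.cmap_surjective i (y (t.σ i))
  refine ⟨⟨f, ?_⟩, ?_⟩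
  · refine (y.fin.preimage (t.σ.injective.injOn)).subset ?_
    intro i hi
    show y (t.σ i) ≠ _
    intro hcon
    apply hi
    apply t.cmap_injective i
    rw [hf, hcon, cmap_mk, map_one]
  · apply XF.ext; intro j
    obtain ⟨i, rfl⟩ := t.σ.surjective j
    rw [act_apply_σ]
    exact hf i

theorem act_base : t.act (XF.base L) = XF.base L := by
  apply XF.ext; intro j
  obtain ⟨i, rfl⟩ := t.σ.surjective j
  rw [act_apply_σ, XF.base_apply, cmap_mk, map_one, XF.base_apply]

end Twist

/-! ## Local kernels -/

/-- A `G`-invariant kernel of finite range on the coset space `G ⧸ H`. -/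
structure LocKer (H : Subgroup G) where
  k : G ⧸ H → G ⧸ H → ℂ
  inv : ∀ (g : G) (x y : G ⧸ H), k (g • x) (g • y) = k x y
  fin_right : ∀ x, {y | k x y ≠ 0}.Finite
  fin_left : ∀ y, {x | k x y ≠ 0}.Finite

namespace LocKer

variable {H : Subgroup G}

@[ext] theorem ext' {a b : LocKer H} (h : ∀ x y, a.k x y = b.k x y) : a = b := by
  cases a; cases b
  congr
  funext x y; exact h x y

open Classical in
/-- The unit kernel. -/
noncomputable def one : LocKer H where
  k x y := if x = y then 1 else 0
  inv g x y := by simp
  fin_right x := (Set.finite_singleton x).subset (by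
    intro y hy
    by_contra hne
    exact hy (if_neg (fun h => hne h.symm)))
  fin_left y := (Set.finite_singleton y).subset (by
    intro x hx
    by_contra hne
    exact hx (if_neg hne))

open Classical in
theorem one_k (x y : G ⧸ H) : (one : LocKer H).k x y = if x = y then 1 else 0 := rfl

/-- Composition of local kernels. -/
noncomputable def mul (a b : LocKer H) : LocKer H where
  k x z := ∑ᶠ y, a.k x y * b.k y z
  inv g x z := by
    rw [← finsum_comp_equiv (MulAction.toPerm g)]
    apply finsum_congr
    intro y
    show a.k (g • x) (g • y) * b.k (g • y) (g • z) = _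
    rw [a.inv, b.inv]
  fin_right x := by
    have h1 : (⋃ y ∈ {y | a.k x y ≠ 0}, {z | b.k y z ≠ 0}).Finite :=
      (a.fin_right x).biUnion (fun y _ => b.fin_right y)
    refine h1.subset ?_
    intro z hz
    by_contra hcon
    apply hz
    apply finsum_eq_zero_of_forall_eq_zero
    intro y
    by_contra hne
    apply hcon
    simp only [Set.mem_iUnion]
    refine ⟨y, ?_, ?_⟩
    · intro h0; exact hne (by rw [h0, zero_mul])
    · intro h0; exact hne (by rw [h0, mul_zero])
  fin_left z := by
    have h1 : (⋃ y ∈ {y | b.k y z ≠ 0}, {x | a.k x y ≠ 0}).Finite :=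
      (b.fin_left z).biUnion (fun y _ => a.fin_left y)
    refine h1.subset ?_
    intro x hx
    by_contra hcon
    apply hx
    apply finsum_eq_zero_of_forall_eq_zero
    intro y
    by_contra hne
    apply hcon
    simp only [Set.mem_iUnion]
    refine ⟨y, ?_, ?_⟩
    · intro h0; exact hne (by rw [h0, mul_zero])
    · intro h0; exact hne (by rw [h0, zero_mul])

theorem mul_k (a b : LocKer H) (x z : G ⧸ H) : (mul a b).k x z = ∑ᶠ y, a.k x y * b.k y z := rfl

/-- The kernel of a bi-`H`-invariant function `f` on `G`: `k (gH) (hH) = f (g⁻¹ h)`. -/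
def ofFun (f : G → ℂ) (hf : ∀ (u v g : G), u ∈ H → v ∈ H → f (u * g * v) = f g)
    (hr : {y : G ⧸ H | ∃ g : G, (g : G ⧸ H) = y ∧ f g ≠ 0}.Finite)
    (hl : {y : G ⧸ H | ∃ g : G, (g : G ⧸ H) = y ∧ f g⁻¹ ≠ 0}.Finite) : LocKer H where
  k x y := Quotient.liftOn₂' x y (fun g h => f (g⁻¹ * h)) (by
    intro a b a' b' h1 h2
    rw [QuotientGroup.leftRel_apply] at h1 h2
    have : a'⁻¹ * b' = (a⁻¹ * a')⁻¹ * (a⁻¹ * b) * (b⁻¹ * b') := by group
    show f (a⁻¹ * b) = f (a'⁻¹ * b')
    rw [this, hf _ _ _ ((H.inv_mem h1)) h2])
  inv g x y := by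
    induction x using QuotientGroup.induction_on with
    | H x =>
      induction y using QuotientGroup.induction_on with
      | H y =>
        show f ((g * x)⁻¹ * (g * y)) = f (x⁻¹ * y)
        congr 1
        group
  fin_right x := by
    induction x using QuotientGroup.induction_on with
    | H x =>
      refine (hr.image (fun y => x • y)).subset ?_
      intro y hy
      induction y using QuotientGroup.induction_on with
      | H y =>
        refine ⟨((x⁻¹ * y : G) : G ⧸ H), ⟨x⁻¹ * y, rfl, hy⟩, ?_⟩
        show ((x * (x⁻¹ * y) : G) : G ⧸ H) = _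
        rw [mul_inv_cancel_left]
  fin_left y := by
    induction y using QuotientGroup.induction_on with
    | H y =>
      refine (hl.image (fun z => y • z)).subset ?_
      intro x hx
      induction x using QuotientGroup.induction_on with
      | H x =>
        refine ⟨((y⁻¹ * x : G) : G ⧸ H), ⟨y⁻¹ * x, rfl, ?_⟩, ?_⟩
        · have : (y⁻¹ * x)⁻¹ = x⁻¹ * y := by group
          rw [this]; exact hx
        · show ((y * (y⁻¹ * x) : G) : G ⧸ H) = _
          rw [mul_inv_cancel_left]

@[simp] theorem ofFun_k (f : G → ℂ) (hf hr hl) (g h : G) :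
    (ofFun (H := H) f hf hr hl).k (g : G ⧸ H) (h : G ⧸ H) = f (g⁻¹ * h) := rfl

end LocKer

/-! ## Global kernels: products of local kernels, almost all of them the unit kernel -/

/-- A family of local kernels, almost all of them the unit kernel. -/
structure GlobKer (L : LevelFam G ι) where
  loc : (i : ι) → LocKer (L.U i)
  fin : {i | loc i ≠ LocKer.one}.Finite

namespace GlobKer

variable {L : LevelFam G ι}

/-- The product kernel on `XF L`. -/
noncomputable def k (a : GlobKer L) (x y : XF L) : ℂ := ∏ᶠ i, (a.loc i).k (x i) (y i)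

theorem mulSupport_finite (a : GlobKer L) (x y : XF L) :
    (Function.mulSupport fun i => (a.loc i).k (x i) (y i)).Finite := by
  refine ((a.fin.union x.fin).union y.fin).subset ?_
  intro i hi
  by_contra hcon
  simp only [Set.mem_union, Set.mem_ofPred_eq, not_or, not_not] at hcon
  obtain ⟨⟨h1, h2⟩, h3⟩ := hcon
  apply hi
  show (a.loc i).k (x.val i) (y.val i) = 1
  rw [h1, h2, h3, LocKer.one_k, if_pos rfl]

theorem k_smul (a : GlobKer L) (g : G) (x y : XF L) : a.k (g • x) (g • y) = a.k x y := by
  unfold k
  apply finprod_congr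
  intro i
  rw [XF.smul_apply, XF.smul_apply, (a.loc i).inv]

theorem k_ne_zero_iff (a : GlobKer L) (x y : XF L) :
    a.k x y ≠ 0 ↔ ∀ i, (a.loc i).k (x i) (y i) ≠ 0 := by
  unfold k
  rw [finprod_eq_prod _ (a.mulSupport_finite x y), Finset.prod_ne_zero_iff]
  constructor
  · intro h i
    by_cases hi : (a.loc i).k (x i) (y i) = 1
    · rw [hi]; exact one_ne_zero
    · exact h i (by simpa using hi)
  · intro h i _
    exact h i

end GlobKer

end Fermat.Agent.H59XF
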