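import Mathlib
import Fermat.Agent.H31Hyp2
import Fermat.Agent.H59XF

/-!
# S47, block (C): the model `X(K) = (J → ℍ³) × X_f(K)` (definitions)

* `PG K = PGL(2, K)`, `PG.map`;
* `GLw w`, `U0 w`, `Gam w n`: maximal compact subgroups and principal congruence subgroups at a
  finite place `w` (given by valuations of the entries);
* `Level R K`: a family of subgroups `U w` of `PGL(2, K)`, almost all equal to `U0 w`, open, bounded;
* `Model K J`: a level and a family of complex embeddings `e : J → K →+* ℂ` hitting every infinite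
  place exactly once (all complex); `Model.X`, its `PGL(2, K)`-action and measure;
* `AutData`: an automorphism `s` of `K` acting on the model.
-/

set_option autoImplicit false
set_option linter.unusedSectionVars false
set_option linter.unusedVariables false

noncomputable section

open IsDedekindDomain HeightOneSpectrum WithZero NumberField Matrix MeasureTheory
open scoped MatrixGroups

namespace Fermat.Agent.H59D

open Fermat.Agent.H59XF

/-! ## Subgroups of `GL₂(K)` and `PGL₂(K)` at a finite place -/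

section Local

variable {R : Type*} [CommRing R] [IsDedekindDomain R] {K : Type*} [Field K] [Algebra R K]
  [IsFractionRing R K]

/-- `GL₂(O_(w))` inside `GL₂(K)`. -/
def GLw (w : HeightOneSpectrum R) : Subgroup (GL (Fin 2) K) where
  carrier := {g | (∀ i j, w.valuation K (g i j) ≤ 1) ∧
    w.valuation K (g : Matrix (Fin 2) (Fin 2) K).det = 1}
  one_mem' := by
    refine ⟨fun i j => ?_, by simp⟩
    rw [Units.val_one, Matrix.one_apply]
    split_ifs <;> simp
  mul_mem' := by
    rintro a b ⟨ha, hda⟩ ⟨hb, hdb⟩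
    refine ⟨fun i j => ?_, ?_⟩
    · rw [Units.val_mul, Matrix.mul_apply]
      refine Valuation.map_sum_le _ fun k _ => ?_
      rw [map_mul]
      exact mul_le_one' (ha i k) (hb k j)
    · rw [Units.val_mul, Matrix.det_mul, map_mul, hda, hdb, one_mul]
  inv_mem' := by
    rintro a ⟨ha, hda⟩
    have hdet : (a : Matrix (Fin 2) (Fin 2) K).det ≠ 0 := by
      intro h
      rw [h, map_zero] at hda
      exact zero_ne_one hda
    have hinv : ((a⁻¹ : GL (Fin 2) K) : Matrix (Fin 2) (Fin 2) K) =
        (a : Matrix (Fin 2) (Fin 2) K).det⁻¹ • (a : Matrix (Fin 2) (Fin 2) K).adjugate := by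
      rw [Matrix.coe_units_inv, Matrix.inv_def, Ring.inverse_eq_inv']
    have hd' : w.valuation K (a : Matrix (Fin 2) (Fin 2) K).det⁻¹ = 1 := by
      rw [map_inv₀, hda, inv_one]
    refine ⟨fun i j => ?_, ?_⟩
    · rw [hinv, Matrix.smul_apply, smul_eq_mul, map_mul, hd', one_mul, Matrix.adjugate_fin_two]
      fin_cases i <;> fin_cases j <;> simp [ha, Valuation.map_neg]
    · have h1 : ((a⁻¹ : GL (Fin 2) K) : Matrix (Fin 2) (Fin 2) K).det =
          (a : Matrix (Fin 2) (Fin 2) K).det⁻¹ := by
        rw [Matrix.coe_units_inv, Matrix.det_nonsing_inv, Ring.inverse_eq_inv']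
      rw [h1, hd']

theorem mem_GLw {w : HeightOneSpectrum R} {g : GL (Fin 2) K} :
    g ∈ GLw w ↔ (∀ i j, w.valuation K (g i j) ≤ 1) ∧
      w.valuation K (g : Matrix (Fin 2) (Fin 2) K).det = 1 := Iff.rfl

/-- The principal congruence subgroup of level `w ^ n` in `GL₂(O_(w))`. -/
def GLcong (w : HeightOneSpectrum R) (n : ℕ) : Subgroup (GL (Fin 2) K) where
  carrier := {g | g ∈ GLw w ∧ ∀ i j, w.valuation K
    ((g : Matrix (Fin 2) (Fin 2) K) i j - (1 : Matrix (Fin 2) (Fin 2) K) i j) ≤ exp (-(n : ℤ))}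
  one_mem' := ⟨one_mem _, fun i j => by simp⟩
  mul_mem' := by
    rintro a b ⟨ha, ha'⟩ ⟨hb, hb'⟩
    refine ⟨mul_mem ha hb, fun i j => ?_⟩
    have h1 : ((a * b : GL (Fin 2) K) : Matrix (Fin 2) (Fin 2) K) - 1 =
        ((a : Matrix (Fin 2) (Fin 2) K) - 1) * (b : Matrix (Fin 2) (Fin 2) K) +
          ((b : Matrix (Fin 2) (Fin 2) K) - 1) := by
      rw [Units.val_mul, sub_mul, one_mul]; abel
    have h2 := congrFun (congrFun h1 i) j
    rw [Matrix.sub_apply, Matrix.add_apply, Matrix.mul_apply, Matrix.sub_apply] at h2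
    rw [h2]
    refine Valuation.map_add_le _ (Valuation.map_sum_le _ fun k _ => ?_) (hb' i j)
    rw [map_mul, Matrix.sub_apply]
    exact (mul_le_mul' (ha' i k) (hb.1 k j)).trans (by rw [mul_one])
  inv_mem' := by
    rintro a ⟨ha, ha'⟩
    refine ⟨inv_mem ha, fun i j => ?_⟩
    have h1 : ((a⁻¹ : GL (Fin 2) K) : Matrix (Fin 2) (Fin 2) K) - 1 =
        ((a⁻¹ : GL (Fin 2) K) : Matrix (Fin 2) (Fin 2) K) *
          (1 - (a : Matrix (Fin 2) (Fin 2) K)) := by
      rw [mul_sub, mul_one, ← Units.val_mul, inv_mul_cancel, Units.val_one]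
    have h2 := congrFun (congrFun h1 i) j
    rw [Matrix.sub_apply, Matrix.mul_apply] at h2
    rw [h2]
    refine Valuation.map_sum_le _ fun k _ => ?_
    rw [map_mul, Matrix.sub_apply, Valuation.map_sub_swap]
    refine (mul_le_mul' ((inv_mem ha).1 i k) (ha' k j)).trans (by rw [one_mul])

theorem mem_GLcong {w : HeightOneSpectrum R} {n : ℕ} {g : GL (Fin 2) K} :
    g ∈ GLcong w n ↔ g ∈ GLw w ∧ ∀ i j, w.valuation K
      ((g : Matrix (Fin 2) (Fin 2) K) i j - (1 : Matrix (Fin 2) (Fin 2) K) i j) ≤ exp (-(n : ℤ)) :=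
  Iff.rfl

theorem GLcong_le (w : HeightOneSpectrum R) (n : ℕ) : GLcong (K := K) w n ≤ GLw w :=
  fun _ h => h.1

theorem GLcong_antitone (w : HeightOneSpectrum R) {m n : ℕ} (h : m ≤ n) :
    GLcong (K := K) w n ≤ GLcong w m := fun g hg =>
  ⟨hg.1, fun i j => (hg.2 i j).trans (by rw [exp_le_exp]; omega)⟩

/-- The maximal compact subgroup `PGL₂(O_(w))` inside `PGL₂(K)`. -/
def U0 (w : HeightOneSpectrum R) : Subgroup PGL(2, K) := (GLw w).map ProjGenLinGroup.mk

/-- The principal congruence subgroup of level `w ^ n` inside `PGL₂(K)`. -/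
def Gam (w : HeightOneSpectrum R) (n : ℕ) : Subgroup PGL(2, K) :=
  (GLcong w n).map ProjGenLinGroup.mk

theorem Gam_le (w : HeightOneSpectrum R) (n : ℕ) : Gam (K := K) w n ≤ U0 w :=
  Subgroup.map_mono (GLcong_le w n)

theorem Gam_antitone (w : HeightOneSpectrum R) {m n : ℕ} (h : m ≤ n) :
    Gam (K := K) w n ≤ Gam w m := Subgroup.map_mono (GLcong_antitone w h)

/-- Every element of `PGL₂(K)` is integral at almost all places. -/
theorem finite_not_mem_U0 (g : PGL(2, K)) : {w : HeightOneSpectrum R | g ∉ U0 w}.Finite := by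
  induction g using ProjGenLinGroup.induction_on with
  | mk g =>
    have h1 : (⋃ i : Fin 2, ⋃ j : Fin 2, HeightOneSpectrum.Support R (g i j)).Finite :=
      Set.finite_iUnion fun i => Set.finite_iUnion fun j => HeightOneSpectrum.Support.finite R _
    have h2 := HeightOneSpectrum.Support.finite R (g : Matrix (Fin 2) (Fin 2) K).det
    have h3 := HeightOneSpectrum.Support.finite R ((g : Matrix (Fin 2) (Fin 2) K).det)⁻¹
    refine ((h1.union h2).union h3).subset ?_
    intro w hw
    by_contra hcon
    apply hw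
    refine ⟨g, ⟨fun i j => ?_, ?_⟩, rfl⟩
    · by_contra hij
      exact hcon (Or.inl (Or.inl (Set.mem_iUnion.2 ⟨i, Set.mem_iUnion.2 ⟨j, not_le.1 hij⟩⟩)))
    · have hdet : (g : Matrix (Fin 2) (Fin 2) K).det ≠ 0 := g.det.ne_zero
      have h4 : w.valuation K (g : Matrix (Fin 2) (Fin 2) K).det ≤ 1 := by
        by_contra h; exact hcon (Or.inl (Or.inr (not_le.1 h)))
      have h5 : w.valuation K ((g : Matrix (Fin 2) (Fin 2) K).det)⁻¹ ≤ 1 := by
        by_contra h; exact hcon (Or.inr (not_le.1 h))
      refine le_antisymm h4 ?_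
      rw [map_inv₀] at h5
      exact (inv_le_one₀ (zero_lt_iff.2 ((Valuation.ne_zero_iff _).2 hdet))).1 h5

end Local

/-! ## Levels -/

/-- A level: subgroups `U w` of `PGL₂(K)`, one for each finite place, almost all maximal compact,
all open and bounded. -/
structure Level (R : Type*) [CommRing R] [IsDedekindDomain R] (K : Type*) [Field K] [Algebra R K]
    [IsFractionRing R K] where
  U : HeightOneSpectrum R → Subgroup PGL(2, K)
  fin : {w | U w ≠ U0 w}.Finite
  isOpen : ∀ w, ∃ n : ℕ, Gam w n ≤ U w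
  bdd : ∀ w, ∃ c : PGL(2, K), ∀ g ∈ U w, c⁻¹ * g * c ∈ U0 w

namespace Level

variable {R : Type*} [CommRing R] [IsDedekindDomain R] {K : Type*} [Field K] [Algebra R K]
  [IsFractionRing R K]

/-- The family of subgroups of a level. -/
def fam (L : Level R K) : LevelFam PGL(2, K) (HeightOneSpectrum R) where
  U := L.U
  adm g := (L.fin.union (finite_not_mem_U0 g)).subset (by
    intro w hw
    by_contra hcon
    simp only [Set.mem_union, Set.mem_ofPred_eq, not_or, not_not] at hcon
    exact hw (by rw [hcon.1]; exact hcon.2))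

@[simp] theorem fam_U (L : Level R K) (w : HeightOneSpectrum R) : L.fam.U w = L.U w := rfl

/-- The level of all maximal compact subgroups. -/
def max : Level R K where
  U := U0
  fin := by simp
  isOpen w := ⟨0, Gam_le w 0⟩
  bdd w := ⟨1, fun g hg => by simpa using hg⟩

end Level

/-! ## The action of `PGL₂(ℂ)` on hyperbolic space -/

theorem scalar_smul (u : ℂˣ) (w : H3) : (GeneralLinearGroup.scalar (Fin 2) u) • w = w := by
  apply H3.herm_injective
  have hu : (u : ℂ) ≠ 0 := u.ne_zero
  have hn : ((‖(u : ℂ)‖ : ℝ) : ℂ) ≠ 0 := by exact_mod_cast (norm_pos_iff.mpr hu).ne'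
  rw [H3.herm_smul]
  have h1 : ((GeneralLinearGroup.scalar (Fin 2) u : GL (Fin 2) ℂ) : Matrix (Fin 2) (Fin 2) ℂ) =
      (u : ℂ) • (1 : Matrix (Fin 2) (Fin 2) ℂ) := by
    rw [GeneralLinearGroup.coe_scalar]
    ext i j
    simp [Matrix.scalar_apply, Matrix.diagonal_apply, Matrix.one_apply]
  rw [h1, Matrix.det_smul, Fintype.card_fin, Matrix.det_one, mul_one, Matrix.conjTranspose_smul,
    Matrix.conjTranspose_one, Matrix.smul_mul, Matrix.one_mul, Matrix.mul_smul, Matrix.mul_one,
    smul_smul, smul_smul, norm_pow]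
  have h2 : star (u : ℂ) * (u : ℂ) = ((‖(u : ℂ)‖ : ℝ) : ℂ) ^ 2 := by
    rw [Complex.star_def, mul_comm, Complex.mul_conj, Complex.normSq_eq_norm_sq]
    push_cast
    rfl
  have h3 : ((‖(u : ℂ)‖ ^ 2 : ℝ) : ℂ)⁻¹ * star (u : ℂ) * (u : ℂ) = 1 := by
    rw [mul_assoc, h2]
    push_cast
    exact inv_mul_cancel₀ (pow_ne_zero 2 hn)
  rw [h3, one_smul]

instance : MulAction PGL(2, ℂ) H3 := ProjGenLinGroup.mulActionOfGL scalar_smul

@[simp] theorem mk_smul (g : GL (Fin 2) ℂ) (w : H3) :
    (ProjGenLinGroup.mk g : PGL(2, ℂ)) • w = g • w := rfl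

theorem ch_smul (g : PGL(2, ℂ)) (w w' : H3) : H3.ch (g • w) (g • w') = H3.ch w w' := by
  induction g using ProjGenLinGroup.induction_on with
  | mk g => exact H3.ch_smul g w w'

instance : ContinuousConstSMul PGL(2, ℂ) H3 := ⟨fun g => by
  induction g using ProjGenLinGroup.induction_on with
  | mk g => exact H3.continuous_smul_const g⟩

theorem measurePreserving_smul (g : PGL(2, ℂ)) :
    MeasurePreserving (fun w : H3 => g • w) volume volume := by
  induction g using ProjGenLinGroup.induction_on with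
  | mk g => exact H3.measurePreserving_smul g

/-! ## The model -/

/-- A model for the number field `K`: an enumeration `e : J → K →+* ℂ` of the (complex) infinite
places by embeddings, and a level. -/
structure Model (K : Type*) [Field K] [NumberField K] (J : Type*) [Fintype J] where
  e : J → K →+* ℂ
  e_bij : Function.Bijective fun j => InfinitePlace.mk (e j)
  e_cx : ∀ j, ¬ ComplexEmbedding.IsReal (e j)
  L : Level (𝓞 K) K

namespace Model

variable {K : Type*} [Field K] [NumberField K] {J : Type*} [Fintype J]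

/-- The space `(J → ℍ³) × X_f`. -/
def X (m : Model K J) : Type _ := (J → H3) × XF m.L.fam

variable (m : Model K J)

/-- The action of `PGL₂(K)` on `J → ℍ³`. -/
def actInf (g : PGL(2, K)) (x : J → H3) : J → H3 := fun j => ProjGenLinGroup.map (m.e j) g • x j

@[simp] theorem actInf_apply (g : PGL(2, K)) (x : J → H3) (j : J) :
    m.actInf g x j = ProjGenLinGroup.map (m.e j) g • x j := rfl

instance : MulAction PGL(2, K) m.X where
  smul g x := (m.actInf g x.1, g • x.2)
  one_smul x := Prod.ext (funext fun j => by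
    show ProjGenLinGroup.map (m.e j) 1 • x.1 j = _
    rw [map_one, one_smul]) (one_smul _ x.2)
  mul_smul g h x := Prod.ext (funext fun j => by
    show ProjGenLinGroup.map (m.e j) (g * h) • x.1 j = _
    rw [map_mul, mul_smul]; rfl) (mul_smul g h x.2)

@[simp] theorem smul_fst (g : PGL(2, K)) (x : m.X) (j : J) :
    (g • x).1 j = ProjGenLinGroup.map (m.e j) g • x.1 j := rfl

@[simp] theorem smul_snd (g : PGL(2, K)) (x : m.X) : (g • x).2 = g • x.2 := rfl

instance : MeasurableSpace (XF m.L.fam) := ⊤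

instance : DiscreteMeasurableSpace (XF m.L.fam) := ⟨fun _ => trivial⟩

instance : MeasurableSpace m.X := inferInstanceAs (MeasurableSpace ((J → H3) × XF m.L.fam))

/-- The invariant measure: hyperbolic volume times counting measure. -/
def μ : Measure m.X := (volume : Measure (J → H3)).prod (Measure.count : Measure (XF m.L.fam))

/-- The vector of `cosh` of the distances. -/
def chJ {J : Type*} (x y : J → H3) : J → ℝ := fun j => H3.ch (x j) (y j)

theorem chJ_actInf (g : PGL(2, K)) (x y : J → H3) : chJ (m.actInf g x) (m.actInf g y) = chJ x y :=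
  funext fun j => ch_smul _ _ _

/-- The kernel on `X` given by a radial kernel at infinity and a kernel on `X_f`. -/
def ker (κ : (J → ℝ) → ℂ) (kf : XF m.L.fam → XF m.L.fam → ℂ) (x y : m.X) : ℂ :=
  κ (chJ x.1 y.1) * kf x.2 y.2

theorem ker_smul (κ : (J → ℝ) → ℂ) (kf : XF m.L.fam → XF m.L.fam → ℂ)
    (hk : ∀ (g : PGL(2, K)) (x y), kf (g • x) (g • y) = kf x y) (g : PGL(2, K)) (x y : m.X) :
    m.ker κ kf (g • x) (g • y) = m.ker κ kf x y := by
  show κ (chJ (m.actInf g x.1) (m.actInf g y.1)) * kf (g • x.2) (g • y.2) = _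
  rw [chJ_actInf, hk]
  rfl

end Model

/-! ## Automorphisms -/

/-- An automorphism `s` of `K` acting on a model: `σ` the permutation of the finite places
(`v_{σ w} (s x) = v_w x`), `c` the permutation of the infinite indices (`e (c j) ∘ s = e j`), the
level is stable. -/
structure AutData {K : Type*} [Field K] [NumberField K] {J : Type*} [Fintype J] (m : Model K J) where
  s : K ≃+* K
  σ : Equiv.Perm (HeightOneSpectrum (𝓞 K))
  val : ∀ w x, (σ w).valuation K (s x) = w.valuation K x
  c : Equiv.Perm J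
  e_s : ∀ j x, m.e (c j) (s x) = m.e j x
  U_s : ∀ w (g : PGL(2, K)), g ∈ m.L.U w ↔ ProjGenLinGroup.map (s : K →+* K) g ∈ m.L.U (σ w)

namespace AutData

variable {K : Type*} [Field K] [NumberField K] {J : Type*} [Fintype J] {m : Model K J}

/-- The automorphism of `PGL₂(K)` induced by an automorphism of `K`. -/
def pmap (s : K ≃+* K) : PGL(2, K) ≃* PGL(2, K) where
  toFun := ProjGenLinGroup.map (s : K →+* K)
  invFun := ProjGenLinGroup.map (s.symm : K →+* K)
  left_inv g := by
    rw [← MonoidHom.comp_apply, ← ProjGenLinGroup.map_comp]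
    have : (s.symm : K →+* K).comp (s : K →+* K) = RingHom.id K := by ext; simp
    rw [this, ProjGenLinGroup.map_id]; rfl
  right_inv g := by
    rw [← MonoidHom.comp_apply, ← ProjGenLinGroup.map_comp]
    have : (s : K →+* K).comp (s.symm : K →+* K) = RingHom.id K := by ext; simp
    rw [this, ProjGenLinGroup.map_id]; rfl
  map_mul' := map_mul _

@[simp] theorem pmap_apply (s : K ≃+* K) (g : PGL(2, K)) :
    pmap s g = ProjGenLinGroup.map (s : K →+* K) g := rfl

variable (a : AutData m)

/-- The induced twist of the restricted coset space. -/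
def twist : Twist m.L.fam where
  s := pmap a.s
  σ := a.σ
  map_U w g := a.U_s w g

/-- The action of `s` on `J → ℍ³`: `(s x)_{c j} = x_j`. -/
def actInf (x : J → H3) : J → H3 := fun j => x (a.c.symm j)

@[simp] theorem actInf_apply_c (x : J → H3) (j : J) : a.actInf x (a.c j) = x j := by
  simp [actInf]

/-- The action of `s` on `X`. -/
def act (x : m.X) : m.X := (a.actInf x.1, a.twist.act x.2)

@[simp] theorem act_fst (x : m.X) : (a.act x).1 = a.actInf x.1 := rfl

@[simp] theorem act_snd (x : m.X) : (a.act x).2 = a.twist.act x.2 := rfl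

theorem act_smul (g : PGL(2, K)) (x : m.X) :
    a.act (g • x) = (ProjGenLinGroup.map (a.s : K →+* K) g : PGL(2, K)) • a.act x := by
  refine Prod.ext (funext fun j => ?_) (a.twist.act_smul g x.2)
  obtain ⟨i, rfl⟩ := a.c.surjective j
  show (a.actInf (m.actInf g x.1)) (a.c i) =
    ProjGenLinGroup.map (m.e (a.c i)) (ProjGenLinGroup.map (a.s : K →+* K) g) •
      a.actInf x.1 (a.c i)
  rw [actInf_apply_c, actInf_apply_c, Model.actInf_apply, ← MonoidHom.comp_apply,
    ← ProjGenLinGroup.map_comp]
  have : (m.e (a.c i)).comp (a.s : K →+* K) = m.e i := by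
    ext x; exact a.e_s i x
  rw [this]

end AutData

end Fermat.Agent.H59D
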