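import Fermat.Agent.H31Hyp2
import Fermat.Agent.H59Def

/-!
# Crude lattice point count on `(J → H3)` (helper31)

* `ch_triangle` : `ch w w'' ≤ 2 ch w w' ch w' w''`
* `sum_normSq_le` : `∑ |g k l|² ≤ 8 |det g| ch(o, w) ch(w, g w') ch(w', o)`
* `card_box` : the number of `x ∈ d⁻¹ 𝓞 K` with `|e_j x| ≤ X_j` is `≤ C ∏ (1 + X_j)²`
* `card_mat` : the number of matrices with entries in `d⁻¹ 𝓞 K`, determinant in a finite set and
  `ch (w j) (g w' j) ≤ T` is `≤ M (ht w ht w')⁴`, `y_j, y'_j ≥ c`, `|z_j|, |z'_j| ≤ Z`.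
-/

set_option autoImplicit false
set_option linter.unusedSectionVars false

noncomputable section

open MeasureTheory Matrix NumberField
open scoped ComplexConjugate Real MatrixGroups

namespace Fermat.Agent.H31I

open H3

/-! ### Triangle inequality -/

theorem ch_triangle_base (w v : H3) : ch w v ≤ 2 * ch w base * ch base v := by
  have h1 := w.pos
  have h2 := v.pos
  have e1 : 2 * ch w base * ch base v = ((Complex.normSq w.z + w.y ^ 2 + 1) *
      (Complex.normSq v.z + v.y ^ 2 + 1)) / (2 * w.y * v.y) := by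
    simp only [ch, base_z, base_y, sub_zero, zero_sub, Complex.normSq_neg]
    field_simp
    ring
  rw [e1, ch]
  gcongr
  have h3 : Complex.normSq (w.z - v.z) ≤
      Complex.normSq w.z + Complex.normSq v.z + 1 + Complex.normSq w.z * Complex.normSq v.z := by
    have h4 : ‖w.z - v.z‖ ≤ ‖w.z‖ + ‖v.z‖ := norm_sub_le _ _
    simp only [Complex.normSq_eq_norm_sq]
    nlinarith [norm_nonneg (w.z - v.z), norm_nonneg w.z, norm_nonneg v.z,
      sq_nonneg (‖w.z‖ * ‖v.z‖ - 1)]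
  nlinarith [Complex.normSq_nonneg w.z, Complex.normSq_nonneg v.z, sq_nonneg w.y, sq_nonneg v.y,
    mul_nonneg (Complex.normSq_nonneg w.z) (sq_nonneg v.y),
    mul_nonneg (sq_nonneg w.y) (Complex.normSq_nonneg v.z),
    mul_nonneg (sq_nonneg w.y) (sq_nonneg v.y)]

/-- `cosh (a + b) ≤ 2 cosh a cosh b`. -/
theorem ch_triangle (w v u : H3) : ch w u ≤ 2 * ch w v * ch v u := by
  have h1 : (toPt v)⁻¹ • v = base := by rw [inv_smul_eq_iff, toPt_smul]
  have h2 := ch_triangle_base ((toPt v)⁻¹ • w) ((toPt v)⁻¹ • u)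
  rw [ch_smul] at h2
  rw [← h1, ch_smul, ch_smul] at h2
  exact h2

/-- `∑ |g k l|² = 2 |det g| ch (g o) o` -/
theorem sum_normSq (g : GL (Fin 2) ℂ) : ∑ k, ∑ l, Complex.normSq (g k l) =
    2 * ‖(g : Matrix (Fin 2) (Fin 2) ℂ).det‖ * ch (g • base) base := by
  have h1 := posDef_trace (g • base)
  rw [herm_smul, herm_base, Matrix.mul_one, Matrix.trace_smul, Matrix.trace_fin_two] at h1
  have hn : ((‖(g : Matrix (Fin 2) (Fin 2) ℂ).det‖ : ℝ) : ℂ) ≠ 0 := by
    exact_mod_cast (norm_pos_iff.mpr g.det.ne_zero).ne'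
  simp only [Matrix.mul_apply, Fin.sum_univ_two, Matrix.conjTranspose_apply, Complex.star_def,
    Complex.mul_conj, smul_eq_mul] at h1
  rw [inv_mul_eq_iff_eq_mul₀ hn] at h1
  have h2 : ((∑ k, ∑ l, Complex.normSq (g k l) : ℝ) : ℂ) =
      ((2 * ‖(g : Matrix (Fin 2) (Fin 2) ℂ).det‖ * ch (g • base) base : ℝ) : ℂ) := by
    simp only [Fin.sum_univ_two]
    push_cast
    push_cast at h1
    linear_combination h1
  exact_mod_cast h2

theorem sum_normSq_le (g : GL (Fin 2) ℂ) (w w' : H3) : ∑ k, ∑ l, Complex.normSq (g k l) ≤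
    8 * ‖(g : Matrix (Fin 2) (Fin 2) ℂ).det‖ * (ch w base * ch w (g • w') * ch w' base) := by
  rw [sum_normSq]
  have h1 := ch_triangle (g • base) (g • w') base
  have h2 := ch_triangle (g • w') w base
  rw [ch_smul] at h1
  have p1 := one_le_ch base w'
  have p2 := one_le_ch (g • w') w
  have p3 := one_le_ch w base
  have h3 : ch (g • base) base ≤ 2 * ch base w' * (2 * ch (g • w') w * ch w base) :=
    h1.trans (by gcongr)
  rw [ch_comm base w', ch_comm (g • w') w] at h3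
  have hd := norm_nonneg (g : Matrix (Fin 2) (Fin 2) ℂ).det
  calc 2 * ‖(g : Matrix (Fin 2) (Fin 2) ℂ).det‖ * ch (g • base) base
      ≤ 2 * ‖(g : Matrix (Fin 2) (Fin 2) ℂ).det‖ *
        (2 * ch w' base * (2 * ch w (g • w') * ch w base)) := by gcongr
    _ = _ := by ring

/-! ### Points of a fractional ideal in a box -/

section Box

variable {K : Type*} [Field K] [NumberField K] {J : Type*} [Fintype J] (e : J → K →+* ℂ)
  (he : Function.Bijective fun j => InfinitePlace.mk (e j))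
  (hc : ∀ j, ¬ ComplexEmbedding.IsReal (e j))

include he hc in
theorem prod_norm_sq (x : K) : ∏ j, ‖e j x‖ ^ 2 = |((Algebra.norm ℚ x : ℚ) : ℝ)| := by
  have h1 := InfinitePlace.prod_eq_abs_norm (K := K) x
  have h2 : ∏ j, ‖e j x‖ ^ 2 = ∏ w : InfinitePlace K, w x ^ InfinitePlace.mult w := by
    rw [← (Equiv.ofBijective _ he).prod_comp (fun w : InfinitePlace K => w x ^ InfinitePlace.mult w)]
    refine Finset.prod_congr rfl fun j _ => ?_
    have h3 : InfinitePlace.IsComplex (InfinitePlace.mk (e j)) :=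
      InfinitePlace.isComplex_mk_iff.mpr (hc j)
    have h4 : InfinitePlace.mult (InfinitePlace.mk (e j)) = 2 :=
      InfinitePlace.mult_isComplex ⟨_, h3⟩
    rw [Equiv.ofBijective_apply, h4, InfinitePlace.apply]
  rw [h2, h1]
  push_cast
  rfl

include he hc in
theorem eq_zero_of_small {d : K} (hd : d ≠ 0) : ∃ δ : ℝ, 0 < δ ∧ ∀ x : K,
    IsIntegral ℤ (d * x) → (∀ j, ‖e j x‖ < 2 * δ) → x = 0 := by
  haveI : Nonempty J := by
    obtain ⟨j, -⟩ := he.2 (Classical.arbitrary (InfinitePlace K))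
    exact ⟨j⟩
  set P : ℝ := ∏ j, ‖e j d‖ ^ 2 with hP
  have hP0 : 0 ≤ P := Finset.prod_nonneg fun j _ => by positivity
  refine ⟨Real.sqrt (1 / (8 * (P + 1))), Real.sqrt_pos.mpr (by positivity), fun x hx hsm => ?_⟩
  by_contra hx0
  obtain ⟨n, hn⟩ := IsIntegrallyClosed.isIntegral_iff.mp
    (Algebra.isIntegral_norm ℚ hx : IsIntegral ℤ (Algebra.norm ℚ (d * x)))
  have hdx : Algebra.norm ℚ (d * x) ≠ 0 := Algebra.norm_ne_zero_iff.mpr (mul_ne_zero hd hx0)
  have h1 : (1 : ℝ) ≤ |((Algebra.norm ℚ (d * x) : ℚ) : ℝ)| := by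
    rw [← hn]
    have hn0 : n ≠ 0 := by
      rintro rfl
      exact hdx (by rw [← hn]; simp)
    have h2 : (1 : ℤ) ≤ |n| := Int.one_le_abs hn0
    have h3 : (1 : ℝ) ≤ |(n : ℝ)| := by exact_mod_cast h2
    simpa using h3
  rw [← prod_norm_sq e he hc] at h1
  have h4 : ∏ j, ‖e j (d * x)‖ ^ 2 = P * ∏ j, ‖e j x‖ ^ 2 := by
    rw [hP, ← Finset.prod_mul_distrib]
    refine Finset.prod_congr rfl fun j _ => ?_
    rw [map_mul, norm_mul, mul_pow]
  rw [h4] at h1
  have hδ : (2 * Real.sqrt (1 / (8 * (P + 1)))) ^ 2 = 1 / (2 * (P + 1)) := by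
    rw [mul_pow, Real.sq_sqrt (by positivity)]
    field_simp
    norm_num
  have h5 : ∀ j, ‖e j x‖ ^ 2 ≤ 1 / (2 * (P + 1)) := fun j => by
    rw [← hδ]
    exact pow_le_pow_left₀ (norm_nonneg _) (hsm j).le 2
  have h6 : ∏ j, ‖e j x‖ ^ 2 ≤ (1 / (2 * (P + 1))) ^ Fintype.card J := by
    refine (Finset.prod_le_prod (fun j _ => by positivity) fun j _ => h5 j).trans ?_
    rw [Finset.prod_const, Finset.card_univ]
  have h7 : (1 / (2 * (P + 1))) ^ Fintype.card J ≤ 1 / (2 * (P + 1)) := by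
    refine pow_le_of_le_one (by positivity) ?_ Fintype.card_ne_zero
    rw [div_le_one (by positivity)]
    linarith
  have h8 : P * ∏ j, ‖e j x‖ ^ 2 ≤ P * (1 / (2 * (P + 1))) := by
    gcongr
    exact h6.trans h7
  have h9 : P * (1 / (2 * (P + 1))) < 1 := by
    rw [mul_one_div, div_lt_one (by positivity)]
    linarith
  linarith

include he hc in
/-- **Points of a fractional ideal in a box.** -/
theorem card_box {d : K} (hd : d ≠ 0) : ∃ C : ℝ, 0 < C ∧ ∀ X : J → ℝ, (∀ j, 0 ≤ X j) →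
    {x : K | IsIntegral ℤ (d * x) ∧ ∀ j, ‖e j x‖ ≤ X j}.Finite ∧
    ({x : K | IsIntegral ℤ (d * x) ∧ ∀ j, ‖e j x‖ ≤ X j}.ncard : ℝ) ≤
      C * ∏ j, (1 + X j) ^ 2 := by
  classical
  obtain ⟨δ, hδ, hsm⟩ := eq_zero_of_small e he hc hd
  refine ⟨(3 + 2 / δ) ^ (2 * Fintype.card J), by positivity, fun X hX => ?_⟩
  set S : Set K := {x : K | IsIntegral ℤ (d * x) ∧ ∀ j, ‖e j x‖ ≤ X j} with hS
  let φ : K → J → ℤ × ℤ := fun x j => (⌊(e j x).re / δ⌋, ⌊(e j x).im / δ⌋)
  let n : J → ℤ := fun j => ⌊X j / δ⌋ + 1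
  let B : Finset (J → ℤ × ℤ) :=
    Fintype.piFinset fun j => Finset.Icc (-n j) (n j) ×ˢ Finset.Icc (-n j) (n j)
  have hmaps : Set.MapsTo φ S (B : Set (J → ℤ × ℤ)) := by
    intro x hx
    rw [Finset.mem_coe, Fintype.mem_piFinset]
    intro j
    have hb : ∀ t : ℝ, |t| ≤ ‖e j x‖ → ⌊t / δ⌋ ∈ Finset.Icc (-n j) (n j) := by
      intro t ht
      have h1 : |t| ≤ X j := ht.trans (hx.2 j)
      have h2 := abs_le.mp h1
      have h3 : t / δ ≤ X j / δ := by gcongr; exact h2.2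
      have h4 : -(X j / δ) ≤ t / δ := by
        rw [← neg_div]
        gcongr
        exact h2.1
      have h5 : X j / δ < (⌊X j / δ⌋ : ℝ) + 1 := Int.lt_floor_add_one _
      rw [Finset.mem_Icc]
      constructor
      · rw [Int.le_floor]
        push_cast [n]
        linarith
      · have h6 : (⌊t / δ⌋ : ℝ) ≤ t / δ := Int.floor_le _
        have h7 : ((⌊t / δ⌋ : ℤ) : ℝ) ≤ ((n j : ℤ) : ℝ) := by
          push_cast [n]
          linarith
        exact_mod_cast h7
    rw [Finset.mem_product]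
    exact ⟨hb _ (Complex.abs_re_le_norm _), hb _ (Complex.abs_im_le_norm _)⟩
  have hinj : Set.InjOn φ S := by
    intro x hx y hy hxy
    have hint : IsIntegral ℤ (d * (x - y)) := by
      rw [mul_sub]
      exact hx.1.sub hy.1
    have h0 := hsm (x - y) hint fun j => ?_
    · exact sub_eq_zero.mp h0
    · have h1 := congrFun hxy j
      have h2 : ⌊(e j x).re / δ⌋ = ⌊(e j y).re / δ⌋ := congrArg Prod.fst h1
      have h3 : ⌊(e j x).im / δ⌋ = ⌊(e j y).im / δ⌋ := congrArg Prod.snd h1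
      have key : ∀ s t : ℝ, ⌊s / δ⌋ = ⌊t / δ⌋ → |s - t| < δ := by
        intro s t hst
        have h4 := Int.abs_sub_lt_one_of_floor_eq_floor hst
        rw [← sub_div, abs_div, abs_of_pos hδ, div_lt_one hδ] at h4
        exact h4
      have h5 := key _ _ h2
      have h6 := key _ _ h3
      rw [← Complex.sub_re, ← map_sub] at h5
      rw [← Complex.sub_im, ← map_sub] at h6
      calc ‖e j (x - y)‖ ≤ |(e j (x - y)).re| + |(e j (x - y)).im| :=
            Complex.norm_le_abs_re_add_abs_im _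
        _ < 2 * δ := by linarith
  have hfin : S.Finite := Set.Finite.of_injOn hmaps hinj B.finite_toSet
  refine ⟨hfin, ?_⟩
  have h1 : S.ncard ≤ B.card := by
    have := Set.ncard_le_ncard_of_injOn φ hmaps hinj B.finite_toSet
    rwa [Set.ncard_coe_finset] at this
  have h2 : B.card = ∏ j, ((2 * n j + 1).toNat * (2 * n j + 1).toNat) := by
    rw [Fintype.card_piFinset]
    refine Finset.prod_congr rfl fun j _ => ?_
    rw [Finset.card_product, Int.card_Icc]
    have : n j + 1 - -n j = 2 * n j + 1 := by ring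
    rw [this]
  have hn0 : ∀ j, 0 ≤ n j := fun j => by
    have : 0 ≤ ⌊X j / δ⌋ := Int.floor_nonneg.mpr (div_nonneg (hX j) hδ.le)
    simp only [n]
    omega
  have h3 : ∀ j, (((2 * n j + 1).toNat : ℕ) : ℝ) ≤ (3 + 2 / δ) * (1 + X j) := by
    intro j
    have h4 : (((2 * n j + 1).toNat : ℕ) : ℤ) = 2 * n j + 1 := Int.toNat_of_nonneg (by
      have := hn0 j
      omega)
    have h5 : (((2 * n j + 1).toNat : ℕ) : ℝ) = 2 * (n j : ℝ) + 1 := by exact_mod_cast h4
    rw [h5]
    have h6 : (n j : ℝ) ≤ X j / δ + 1 := by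
      simp only [n]
      push_cast
      linarith [Int.floor_le (X j / δ)]
    have h7 : 0 ≤ X j / δ := div_nonneg (hX j) hδ.le
    have h8 : (3 + 2 / δ) * (1 + X j) = 3 + 3 * X j + 2 / δ + 2 * (X j / δ) := by
      field_simp
      ring
    rw [h8]
    have h9 : 0 ≤ 2 / δ := by positivity
    linarith [hX j]
  calc (S.ncard : ℝ) ≤ (B.card : ℝ) := by exact_mod_cast h1
    _ = ∏ j, ((((2 * n j + 1).toNat : ℕ) : ℝ) * (((2 * n j + 1).toNat : ℕ) : ℝ)) := by
        rw [h2]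
        push_cast
        rfl
    _ ≤ ∏ j, (((3 + 2 / δ) * (1 + X j)) * ((3 + 2 / δ) * (1 + X j))) := by
        refine Finset.prod_le_prod (fun j _ => by positivity) fun j _ => ?_
        have hp : 0 ≤ (((2 * n j + 1).toNat : ℕ) : ℝ) := Nat.cast_nonneg _
        exact mul_le_mul (h3 j) (h3 j) hp (hp.trans (h3 j))
    _ = (3 + 2 / δ) ^ (2 * Fintype.card J) * ∏ j, (1 + X j) ^ 2 := by
        have h10 : ∀ j, ((3 + 2 / δ) * (1 + X j)) * ((3 + 2 / δ) * (1 + X j)) =
            (3 + 2 / δ) ^ 2 * (1 + X j) ^ 2 := fun j => by ring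
        simp only [h10]
        rw [Finset.prod_mul_distrib, Finset.prod_const, Finset.card_univ, ← pow_mul]

end Box

end Fermat.Agent.H31I
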