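import Mathlib

/-!
# Geometry of numbers for rank two lattices over a number field (H58R)

`exists_short`: for nonzero fractional ideals `I`, `I'` of a totally complex number field `K` there
is `R > 0` such that for every point `(z_w, y_w)` of `(ℂ × ℝ_{>0})^r` there is a nonzero vector
`(a, b) ∈ I × I'` with `‖a_w - z_w b_w‖² ≤ R² y_w` and `‖b_w‖² ≤ R² / y_w` for all `w`.
-/

open NumberField NumberField.InfinitePlace NumberField.mixedEmbedding MeasureTheory Module
open scoped NNReal ENNReal

noncomputable section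

namespace Fermat.Agent.H58R

variable (K : Type*) [Field K] [NumberField K]

/-- the sheared convex body in `mixedSpace K × mixedSpace K` -/
def shearBody (f g : InfinitePlace K → ℝ≥0) (Z : mixedSpace K) :
    Set (mixedSpace K × mixedSpace K) :=
  {p | p.1 - Z * p.2 ∈ convexBodyLT K f ∧ p.2 ∈ convexBodyLT K g}

omit [NumberField K] in
theorem shearBody_neg (f g : InfinitePlace K → ℝ≥0) (Z : mixedSpace K) :
    ∀ p ∈ shearBody K f g Z, -p ∈ shearBody K f g Z := by
  rintro ⟨x, y⟩ ⟨h1, h2⟩
  refine ⟨?_, convexBodyLT_neg_mem K g _ h2⟩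
  have := convexBodyLT_neg_mem K f _ h1
  have e : -(x - Z * y) = (-(x, y) : mixedSpace K × mixedSpace K).1
      - Z * (-(x, y) : mixedSpace K × mixedSpace K).2 := by
    simp only [Prod.neg_mk]
    ring
  rw [← e]
  exact this

omit [NumberField K] in
theorem shearBody_convex (f g : InfinitePlace K → ℝ≥0) (Z : mixedSpace K) :
    Convex ℝ (shearBody K f g Z) := by
  rintro ⟨x, y⟩ ⟨h1, h2⟩ ⟨x', y'⟩ ⟨h1', h2'⟩ a b ha hb hab
  refine ⟨?_, convexBodyLT_convex K g h2 h2' ha hb hab⟩
  have := convexBodyLT_convex K f h1 h1' ha hb hab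
  have e : a • (x - Z * y) + b • (x' - Z * y')
      = (a • ((x, y) : mixedSpace K × mixedSpace K) + b • (x', y')).1
        - Z * (a • ((x, y) : mixedSpace K × mixedSpace K) + b • (x', y')).2 := by
    simp only [Prod.smul_mk, Prod.mk_add_mk, smul_sub, mul_add, mul_smul_comm]
    abel
  rw [← e]
  exact this

open scoped Classical in
theorem measurableSet_convexBodyLT (f : InfinitePlace K → ℝ≥0) :
    MeasurableSet (convexBodyLT K f) :=
  (MeasurableSet.univ_pi fun _ => measurableSet_ball).prod
    (MeasurableSet.univ_pi fun _ => measurableSet_ball)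

open scoped Classical in
theorem volume_shearBody (f g : InfinitePlace K → ℝ≥0) (Z : mixedSpace K) :
    (volume : Measure (mixedSpace K × mixedSpace K)) (shearBody K f g Z)
      = volume (convexBodyLT K f) * volume (convexBodyLT K g) := by
  have hm : MeasurableSet (shearBody K f g Z) := by
    refine MeasurableSet.inter ?_ ?_
    · refine (measurableSet_convexBodyLT K f).preimage ?_
      exact (measurable_fst.sub (measurable_const.mul measurable_snd))
    · exact (measurableSet_convexBodyLT K g).preimage measurable_snd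
  rw [Measure.volume_eq_prod, Measure.prod_apply_symm hm]
  have h1 : ∀ y : mixedSpace K, volume ((fun x : mixedSpace K => (x, y)) ⁻¹' shearBody K f g Z)
      = (convexBodyLT K g).indicator (fun _ => volume (convexBodyLT K f)) y := by
    intro y
    by_cases hy : y ∈ convexBodyLT K g
    · rw [Set.indicator_of_mem hy]
      have : (fun x : mixedSpace K => (x, y)) ⁻¹' shearBody K f g Z
          = (fun x => x - Z * y) ⁻¹' convexBodyLT K f := by
        ext x
        simp only [shearBody, Set.mem_preimage, Set.mem_ofPred_eq]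
        exact and_iff_left hy
      rw [this]
      simpa only [sub_eq_add_neg] using
        measure_preimage_add_right (volume : Measure (mixedSpace K)) (-(Z * y)) (convexBodyLT K f)
    · rw [Set.indicator_of_notMem hy]
      have : (fun x : mixedSpace K => (x, y)) ⁻¹' shearBody K f g Z = ∅ := by
        ext x
        simp only [shearBody, Set.mem_preimage, Set.mem_ofPred_eq, Set.mem_empty_iff_false,
          iff_false, not_and]
        exact fun _ => hy
      rw [this, measure_empty]
  simp_rw [h1]
  rw [lintegral_indicator (measurableSet_convexBodyLT K g), setLIntegral_const]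


/-- the product basis -/
def prodBasis (I I' : (FractionalIdeal (nonZeroDivisors (𝓞 K)) K)ˣ) :
    Basis (Free.ChooseBasisIndex ℤ I ⊕ Free.ChooseBasisIndex ℤ I') ℝ
      (mixedSpace K × mixedSpace K) :=
  (fractionalIdealLatticeBasis K I).prod (fractionalIdealLatticeBasis K I')

theorem mem_span_prodBasis (I I' : (FractionalIdeal (nonZeroDivisors (𝓞 K)) K)ˣ)
    {p : mixedSpace K × mixedSpace K}
    (hp : p ∈ Submodule.span ℤ (Set.range (prodBasis K I I'))) :
    ∃ a ∈ (I : FractionalIdeal (nonZeroDivisors (𝓞 K)) K),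
      ∃ b ∈ (I' : FractionalIdeal (nonZeroDivisors (𝓞 K)) K),
      p = (mixedEmbedding K a, mixedEmbedding K b) := by
  have h : Submodule.span ℤ (Set.range (prodBasis K I I'))
      ≤ (Submodule.span ℤ (Set.range (fractionalIdealLatticeBasis K I))).prod
        (Submodule.span ℤ (Set.range (fractionalIdealLatticeBasis K I'))) := by
    rw [Submodule.span_le]
    rintro _ ⟨i | j, rfl⟩
    · refine ⟨?_, ?_⟩
      · simp only [prodBasis, Basis.prod_apply_inl_fst]
        exact Submodule.subset_span ⟨i, rfl⟩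
      · simp only [prodBasis, Basis.prod_apply_inl_snd]
        exact Submodule.zero_mem _
    · refine ⟨?_, ?_⟩
      · simp only [prodBasis, Basis.prod_apply_inr_fst]
        exact Submodule.zero_mem _
      · simp only [prodBasis, Basis.prod_apply_inr_snd]
        exact Submodule.subset_span ⟨j, rfl⟩
  obtain ⟨h1, h2⟩ := h hp
  obtain ⟨a, ha, ha'⟩ := (mem_span_fractionalIdealLatticeBasis K I).1 h1
  obtain ⟨b, hb, hb'⟩ := (mem_span_fractionalIdealLatticeBasis K I').1 h2
  exact ⟨a, ha, b, hb, Prod.ext ha'.symm hb'.symm⟩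

open scoped Classical in
/-- **Minkowski for `I × I'`**, general number field, bodies `‖a - z b‖ < f`, `‖b‖ < g`. -/
theorem exists_short_aux (I I' : (FractionalIdeal (nonZeroDivisors (𝓞 K)) K)ˣ) :
    ∃ C : ℝ≥0, 0 < C ∧ ∀ (f g : InfinitePlace K → ℝ≥0) (Z : mixedSpace K),
      C < ∏ w, (f w * g w) ^ (mult w) →
      ∃ a ∈ (I : FractionalIdeal (nonZeroDivisors (𝓞 K)) K),
      ∃ b ∈ (I' : FractionalIdeal (nonZeroDivisors (𝓞 K)) K), (a ≠ 0 ∨ b ≠ 0) ∧
        mixedEmbedding K a - Z * mixedEmbedding K b ∈ convexBodyLT K f ∧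
        mixedEmbedding K b ∈ convexBodyLT K g := by
  have hBS : BorelSpace (mixedSpace K × mixedSpace K) := Prod.borelSpace
  have hHaar : (volume : Measure (mixedSpace K × mixedSpace K)).IsAddHaarMeasure :=
    Measure.prod.instIsAddHaarMeasure (volume : Measure (mixedSpace K))
      (volume : Measure (mixedSpace K))
  set B := prodBasis K I I' with hB
  have hfund := ZSpan.isAddFundamentalDomain' B
    (volume : Measure (mixedSpace K × mixedSpace K))
  have hfin : (volume : Measure (mixedSpace K × mixedSpace K)) (ZSpan.fundamentalDomain B)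
      * 2 ^ finrank ℝ (mixedSpace K × mixedSpace K) < ⊤ := by
    refine ENNReal.mul_lt_top ?_ (by finiteness)
    exact (ZSpan.fundamentalDomain_isBounded B).measure_lt_top
  obtain ⟨C0, hC0⟩ := ENNReal.lt_iff_exists_nnreal_btwn.1 hfin
  refine ⟨C0 + 1, by positivity, fun f g Z hfg => ?_⟩
  have hc : 1 ≤ convexBodyLTFactor K := one_le_convexBodyLTFactor K
  have hvol : (volume : Measure (mixedSpace K × mixedSpace K)) (ZSpan.fundamentalDomain B)
      * 2 ^ finrank ℝ (mixedSpace K × mixedSpace K) < volume (shearBody K f g Z) := by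
    rw [volume_shearBody, convexBodyLT_volume, convexBodyLT_volume]
    refine lt_of_lt_of_le (hC0.1.trans_le (b := (C0 : ℝ≥0∞)) le_rfl) ?_
    have h1 : (C0 : ℝ≥0) ≤ (convexBodyLTFactor K * ∏ w, (f w) ^ (mult w)) *
        (convexBodyLTFactor K * ∏ w, (g w) ^ (mult w)) := by
      have h2 : (∏ w, (f w * g w) ^ (mult w)) = (∏ w, (f w) ^ (mult w)) * ∏ w, (g w) ^ (mult w) := by
        rw [← Finset.prod_mul_distrib]
        exact Finset.prod_congr rfl fun w _ => mul_pow _ _ _
      rw [h2] at hfg
      calc C0 ≤ C0 + 1 := by simp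
        _ ≤ (∏ w, (f w) ^ (mult w)) * ∏ w, (g w) ^ (mult w) := hfg.le
        _ ≤ (convexBodyLTFactor K * ∏ w, (f w) ^ (mult w)) *
            (convexBodyLTFactor K * ∏ w, (g w) ^ (mult w)) := by
              refine mul_le_mul' ?_ ?_
              · exact le_mul_of_one_le_left' hc
              · exact le_mul_of_one_le_left' hc
    have h3 := ENNReal.coe_le_coe.2 h1
    simpa only [ENNReal.coe_mul, ENNReal.ofNNReal_finsetProd, ENNReal.coe_pow] using h3
  have hcount : Countable (Submodule.span ℤ (Set.range B)).toAddSubgroup := by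
    change Countable (Submodule.span ℤ (Set.range B))
    infer_instance
  obtain ⟨x, hx0, hx⟩ := exists_ne_zero_mem_lattice_of_measure_mul_two_pow_lt_measure
    hfund (shearBody_neg K f g Z) (shearBody_convex K f g Z) hvol
  obtain ⟨a, ha, b, hb, hab⟩ := mem_span_prodBasis K I I' (p := x) x.2
  refine ⟨a, ha, b, hb, ?_, ?_, ?_⟩
  · by_contra hcon
    push Not at hcon
    apply hx0
    apply Subtype.ext
    rw [hab, hcon.1, hcon.2, map_zero]
    rfl
  · have := hx.1
    rw [hab] at this
    exact this
  · have := hx.2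
    rw [hab] at this
    exact this

/-- **Minkowski for `I × I'` over a totally complex field**: for every point `(z_j, y_j)` of
`(ℂ × ℝ_{>0})^J` (`e : J → embeddings`, one from each conjugate pair) there is a nonzero vector
`(a, b)` of `I × I'` with `‖e_j a - z_j e_j b‖² ≤ R y_j` and `‖e_j b‖² ≤ R / y_j`. -/
theorem exists_short [IsTotallyComplex K] {J : Type*} [Finite J] (e : J → K →+* ℂ)
    (he : Function.Bijective fun j => InfinitePlace.mk (e j))
    (I I' : (FractionalIdeal (nonZeroDivisors (𝓞 K)) K)ˣ) :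
    ∃ R : ℝ, 0 < R ∧ ∀ (z : J → ℂ) (y : J → ℝ), (∀ j, 0 < y j) →
      ∃ a ∈ (I : FractionalIdeal (nonZeroDivisors (𝓞 K)) K),
      ∃ b ∈ (I' : FractionalIdeal (nonZeroDivisors (𝓞 K)) K), (a ≠ 0 ∨ b ≠ 0) ∧
        ∀ j, ‖e j a - z j * e j b‖ ^ 2 ≤ R * y j ∧ ‖e j b‖ ^ 2 ≤ R / y j := by
  classical
  obtain ⟨C, hC, H⟩ := exists_short_aux K I I'
  -- `R = C + 1`, `f w = √(R y_w)`, `g w = √(R / y_w)`
  have hne : Nonempty (InfinitePlace K) := inferInstance
  refine ⟨C + 1, by positivity, fun z y hy => ?_⟩
  set E : J ≃ InfinitePlace K := Equiv.ofBijective _ he with hE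
  have hR : (0 : ℝ) < C + 1 := by positivity
  let f : InfinitePlace K → ℝ≥0 := fun w => NNReal.sqrt ((C + 1) * (y (E.symm w)).toNNReal)
  let g : InfinitePlace K → ℝ≥0 := fun w => NNReal.sqrt ((C + 1) / (y (E.symm w)).toNNReal)
  let Z : mixedSpace K := ⟨fun _ => 0, fun w =>
    if w.1.embedding = e (E.symm w.1) then z (E.symm w.1) else (starRingEnd ℂ) (z (E.symm w.1))⟩
  have hfg : C < ∏ w, (f w * g w) ^ (mult w) := by
    have h1 : ∀ w, f w * g w = C + 1 := by
      intro w
      have hyw : 0 < (y (E.symm w)).toNNReal := Real.toNNReal_pos.2 (hy _)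
      rw [← NNReal.sqrt_mul]
      have : (C + 1) * (y (E.symm w)).toNNReal * ((C + 1) / (y (E.symm w)).toNNReal)
          = (C + 1) * (C + 1) := by
        field_simp
      rw [this, NNReal.sqrt_mul_self]
    have h2 : ∀ w, (C + 1) ≤ (f w * g w) ^ (mult w) := by
      intro w
      rw [h1]
      exact le_self_pow₀ (by simp) (by simp [mult_ne_zero])
    obtain ⟨w0⟩ := hne
    calc C < C + 1 := by simp
      _ ≤ (f w0 * g w0) ^ (mult w0) := h2 w0
      _ ≤ ∏ w, (f w * g w) ^ (mult w) := by
        refine Finset.single_le_prod' (f := fun w => (f w * g w) ^ (mult w)) (fun w _ => ?_)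
          (Finset.mem_univ w0)
        exact le_trans (by simp) (h2 w)
  obtain ⟨a, ha, b, hb, hab, h1, h2⟩ := H f g Z hfg
  refine ⟨a, ha, b, hb, hab, fun j => ?_⟩
  set w : InfinitePlace K := E j with hw
  have hwj : E.symm w = j := by simp [hw]
  have hwe : w = InfinitePlace.mk (e j) := rfl
  have hwc : w.IsComplex := IsTotallyComplex.isComplex w
  have hyj := hy j
  have h1' := h1.2 ⟨w, hwc⟩ (Set.mem_univ _)
  have h2' := h2.2 ⟨w, hwc⟩ (Set.mem_univ _)
  rw [mem_ball_zero_iff] at h1' h2'
  have e1 : ‖e j a - z j * e j b‖ < f w := by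
    refine lt_of_eq_of_lt ?_ h1'
    change _ = ‖w.embedding a - Z.2 ⟨w, hwc⟩ * w.embedding b‖
    by_cases hcase : w.embedding = e j
    · have : Z.2 ⟨w, hwc⟩ = z j := by
        simp only [Z, hwj]
        rw [if_pos hcase]
      rw [this, hcase]
    · have hcon : ComplexEmbedding.conjugate (e j) = w.embedding := by
        have := (InfinitePlace.mk_eq_iff (φ := w.embedding) (ψ := e j)).1 (by
          rw [mk_embedding, hwe])
        rcases this with h | h
        · exact absurd h hcase
        · rw [← h]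
          ext x
          simp [ComplexEmbedding.conjugate_coe_eq]
      have : Z.2 ⟨w, hwc⟩ = (starRingEnd ℂ) (z j) := by
        simp only [Z, hwj]
        rw [if_neg hcase]
      rw [this, ← hcon, ComplexEmbedding.conjugate_coe_eq, ComplexEmbedding.conjugate_coe_eq,
        ← map_mul, ← map_sub, RCLike.norm_conj]
  have e2 : ‖e j b‖ < g w := by
    refine lt_of_eq_of_lt ?_ h2'
    change _ = ‖w.embedding b‖
    rw [norm_embedding_eq, hwe]
    rfl
  have hf2 : ((f w : ℝ)) ^ 2 = (C + 1) * y j := by
    have : (f w) ^ 2 = (C + 1) * (y j).toNNReal := by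
      simp only [f, hwj, NNReal.sq_sqrt]
    have h3 := congrArg (fun t : ℝ≥0 => (t : ℝ)) this
    simpa [Real.coe_toNNReal _ hyj.le] using h3
  have hg2 : ((g w : ℝ)) ^ 2 = (C + 1) / y j := by
    have : (g w) ^ 2 = (C + 1) / (y j).toNNReal := by
      simp only [g, hwj, NNReal.sq_sqrt]
    have h3 := congrArg (fun t : ℝ≥0 => (t : ℝ)) this
    simpa [Real.coe_toNNReal _ hyj.le] using h3
  refine ⟨?_, ?_⟩
  · rw [← hf2]
    exact pow_le_pow_left₀ (norm_nonneg _) e1.le 2
  · rw [← hg2]
    exact pow_le_pow_left₀ (norm_nonneg _) e2.le 2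

end Fermat.Agent.H58R

end
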