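import Mathlib

/-!
# Steinitz for rank two lattices over a Dedekind domain, representatives, two-line inequality (H58R)
-/

open NumberField FractionalIdeal Module
open scoped nonZeroDivisors

set_option linter.overlappingInstances false
set_option linter.unusedSectionVars false

noncomputable section

namespace Fermat.Agent.H58R

section Dedekind

variable {O K : Type*} [CommRing O] [IsDomain O] [IsDedekindDomain O] [Field K] [Algebra O K]
  [IsFractionRing O K]

/-- the coefficient module `a_v = {c : c v ∈ Λ}` -/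
def coefMod (L : Submodule O (Fin 2 → K)) (v : Fin 2 → K) : Submodule O K :=
  L.comap ((LinearMap.toSpanSingleton K (Fin 2 → K) v).restrictScalars O)

theorem mem_coefMod {L : Submodule O (Fin 2 → K)} {v : Fin 2 → K} {c : K} :
    c ∈ coefMod L v ↔ c • v ∈ L := Iff.rfl

/-- the module of second coordinates -/
def secMod (L : Submodule O (Fin 2 → K)) : Submodule O K :=
  L.map ((LinearMap.proj 1 : (Fin 2 → K) →ₗ[K] K).restrictScalars O)

theorem mem_secMod {L : Submodule O (Fin 2 → K)} {c : K} :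
    c ∈ secMod L ↔ ∃ v ∈ L, v 1 = c := Iff.rfl

/-- a common denominator: if `L` spans, then every vector has a nonzero multiple in `L` -/
theorem exists_smul_mem {V : Type*} [AddCommGroup V] [Module K V] [Module O V]
    [IsScalarTower O K V] (L : Submodule O V) {v : V}
    (hv : v ∈ Submodule.span K (L : Set V)) : ∃ d : O, d ≠ 0 ∧ d • v ∈ L := by
  induction hv using Submodule.span_induction with
  | mem x hx => exact ⟨1, one_ne_zero, by simpa using hx⟩
  | zero => exact ⟨1, one_ne_zero, by simp⟩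
  | add x y _ _ hx hy =>
    obtain ⟨d, hd, hdx⟩ := hx
    obtain ⟨d', hd', hdy⟩ := hy
    refine ⟨d * d', mul_ne_zero hd hd', ?_⟩
    rw [smul_add]
    refine L.add_mem ?_ ?_
    · rw [mul_comm, mul_smul]
      exact L.smul_mem _ hdx
    · rw [mul_smul]
      exact L.smul_mem _ hdy
  | smul a x _ hx =>
    obtain ⟨d, hd, hdx⟩ := hx
    obtain ⟨p, q, hq, hpq⟩ := IsFractionRing.div_surjective (A := O) a
    have hq0 : (q : O) ≠ 0 := nonZeroDivisors.ne_zero hq
    have hq1 : algebraMap O K q ≠ 0 := by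
      simpa using (map_ne_zero_iff _ (IsFractionRing.injective O K)).2 hq0
    refine ⟨q * d, mul_ne_zero hq0 hd, ?_⟩
    have : (q * d) • a • x = p • d • x := by
      rw [← hpq, ← algebraMap_smul K (q * d), ← algebraMap_smul K p, ← algebraMap_smul K d,
        smul_smul, smul_smul, map_mul]
      congr 1
      field_simp
    rw [this]
    exact L.smul_mem _ hdx

theorem coefMod_ne_bot {L : Submodule O (Fin 2 → K)}
    (hs : Submodule.span K (L : Set (Fin 2 → K)) = ⊤) (v : Fin 2 → K) : coefMod L v ≠ ⊥ := by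
  obtain ⟨d, hd, hdv⟩ := exists_smul_mem L (v := v) (by rw [hs]; trivial)
  intro h
  have h1 : algebraMap O K d ∈ coefMod L v := by
    rw [mem_coefMod, algebraMap_smul]
    exact hdv
  rw [h, Submodule.mem_bot] at h1
  exact hd ((map_eq_zero_iff _ (IsFractionRing.injective O K)).1 h1)

theorem coefMod_fg {L : Submodule O (Fin 2 → K)} (hL : L.FG) {v : Fin 2 → K} (hv : v ≠ 0) :
    (coefMod L v).FG := by
  have : IsNoetherian O L := isNoetherian_of_fg_of_noetherian L hL
  have h1 : ((coefMod L v).map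
      ((LinearMap.toSpanSingleton K (Fin 2 → K) v).restrictScalars O)).FG := by
    refine (isNoetherian_submodule.1 this) _ ?_
    rw [coefMod]
    exact Submodule.map_comap_le _ _
  refine Submodule.fg_of_fg_map_injective
    ((LinearMap.toSpanSingleton K (Fin 2 → K) v).restrictScalars O) ?_ h1
  intro a b hab
  have : a • v = b • v := hab
  have h2 : (a - b) • v = 0 := by rw [sub_smul, this, sub_self]
  rcases smul_eq_zero.1 h2 with h3 | h3
  · exact sub_eq_zero.1 h3
  · exact absurd h3 hv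

theorem secMod_ne_bot {L : Submodule O (Fin 2 → K)}
    (hs : Submodule.span K (L : Set (Fin 2 → K)) = ⊤) : secMod L ≠ ⊥ := by
  obtain ⟨d, hd, hdv⟩ := exists_smul_mem L (v := ![0, 1]) (by rw [hs]; trivial)
  intro h
  have h1 : algebraMap O K d ∈ secMod L := by
    rw [mem_secMod]
    refine ⟨_, hdv, ?_⟩
    rw [← algebraMap_smul K d]
    simp
  rw [h, Submodule.mem_bot] at h1
  exact hd ((map_eq_zero_iff _ (IsFractionRing.injective O K)).1 h1)

theorem secMod_fg {L : Submodule O (Fin 2 → K)} (hL : L.FG) : (secMod L).FG := hL.map _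

/-- a nonzero finitely generated submodule of `K` is an invertible fractional ideal -/
theorem exists_fracUnit {M : Submodule O K} (hfg : M.FG) (h0 : M ≠ ⊥) :
    ∃ I : (FractionalIdeal O⁰ K)ˣ, ∀ x : K, x ∈ (I : FractionalIdeal O⁰ K) ↔ x ∈ M := by
  let I : FractionalIdeal O⁰ K := ⟨M, FractionalIdeal.isFractional_of_fg hfg⟩
  have hI : I ≠ 0 := by
    intro h
    apply h0
    rw [eq_bot_iff]
    intro x hx
    have : x ∈ I := hx
    rw [h] at this
    simpa using this
  exact ⟨Units.mk0 I hI, fun x => Iff.rfl⟩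

/-- **Splitting**: after a translation a lattice is a direct sum of two fractional ideals. -/
theorem exists_split (L : Submodule O (Fin 2 → K)) (hL : L.FG)
    (hs : Submodule.span K (L : Set (Fin 2 → K)) = ⊤) :
    ∃ (β : K) (I I' : (FractionalIdeal O⁰ K)ˣ), ∀ v : Fin 2 → K,
      v ∈ L ↔ v 0 - β * v 1 ∈ (I : FractionalIdeal O⁰ K) ∧ v 1 ∈ (I' : FractionalIdeal O⁰ K) := by
  obtain ⟨I, hI⟩ := exists_fracUnit (coefMod_fg hL (v := ![1, 0]) (by simp))
    (coefMod_ne_bot hs ![1, 0])
  obtain ⟨I', hI'⟩ := exists_fracUnit (secMod_fg hL) (secMod_ne_bot hs)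
  have key : ∀ x : K, x ∈ ((I' : FractionalIdeal O⁰ K) * (I'⁻¹ : (FractionalIdeal O⁰ K)ˣ) :
      FractionalIdeal O⁰ K) → ∃ φ : K, ∀ b ∈ (I' : FractionalIdeal O⁰ K),
        ![φ * b, x * b] ∈ L := by
    intro x hx
    refine FractionalIdeal.mul_induction_on hx ?_ ?_
    · intro b0 hb0 c hc
      obtain ⟨m, hm, hm1⟩ := mem_secMod.1 ((hI' b0).1 hb0)
      refine ⟨c * m 0, fun b hb => ?_⟩
      have hcb : c * b ∈ (1 : FractionalIdeal O⁰ K) := by
        have : b * c ∈ ((I' : FractionalIdeal O⁰ K) * (I'⁻¹ : (FractionalIdeal O⁰ K)ˣ) :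
            FractionalIdeal O⁰ K) := FractionalIdeal.mul_mem_mul hb hc
        rw [← Units.val_mul, mul_inv_cancel, Units.val_one] at this
        rwa [mul_comm]
      obtain ⟨r, hr⟩ := (FractionalIdeal.mem_one_iff _).1 hcb
      have : (![c * m 0 * b, b0 * c * b] : Fin 2 → K) = r • m := by
        rw [← algebraMap_smul K r, hr]
        ext i
        fin_cases i
        · simp only [Fin.zero_eta, Matrix.cons_val_zero, Pi.smul_apply, smul_eq_mul]
          ring
        · simp only [Fin.mk_one, Matrix.cons_val_one, Pi.smul_apply, smul_eq_mul, hm1]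
          simp
          ring
      rw [this]
      exact L.smul_mem _ hm
    · intro x y hx hy
      obtain ⟨φ, hφ⟩ := hx
      obtain ⟨ψ, hψ⟩ := hy
      refine ⟨φ + ψ, fun b hb => ?_⟩
      have : (![(φ + ψ) * b, (x + y) * b] : Fin 2 → K) = ![φ * b, x * b] + ![ψ * b, y * b] := by
        ext i
        fin_cases i <;> simp [add_mul]
      rw [this]
      exact L.add_mem (hφ b hb) (hψ b hb)
  obtain ⟨β, hβ⟩ := key 1 (by
    rw [← Units.val_mul, mul_inv_cancel, Units.val_one]
    exact FractionalIdeal.one_mem_one _)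
  refine ⟨β, I, I', fun v => ⟨fun hv => ?_, fun ⟨h0, h1⟩ => ?_⟩⟩
  · have hv1 : v 1 ∈ (I' : FractionalIdeal O⁰ K) := (hI' _).2 (mem_secMod.2 ⟨v, hv, rfl⟩)
    refine ⟨(hI _).2 ?_, hv1⟩
    rw [mem_coefMod]
    have : (v 0 - β * v 1) • (![1, 0] : Fin 2 → K) = v - ![β * v 1, 1 * v 1] := by
      ext i
      fin_cases i <;> simp
    rw [this]
    exact L.sub_mem hv (hβ _ hv1)
  · have h2 := (mem_coefMod).1 ((hI _).1 h0)
    have : v = (v 0 - β * v 1) • (![1, 0] : Fin 2 → K) + ![β * v 1, 1 * v 1] := by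
      ext i
      fin_cases i <;> simp
    rw [this]
    exact L.add_mem h2 (hβ _ h1)

/-- a finite set of representatives of the fractional ideals modulo principal ones -/
theorem exists_reps [Finite (ClassGroup O)] :
    ∃ S : Finset (FractionalIdeal O⁰ K)ˣ, ∀ I : (FractionalIdeal O⁰ K)ˣ, ∃ J ∈ S, ∃ c : Kˣ,
      ∀ x : K, x ∈ (J : FractionalIdeal O⁰ K) ↔ (c : K) * x ∈ (I : FractionalIdeal O⁰ K) := by
  classical
  let Q := (FractionalIdeal O⁰ K)ˣ ⧸ (toPrincipalIdeal O K).range
  have hQ : Finite Q := Finite.of_equiv _ (ClassGroup.equiv (R := O) K).toEquiv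
  have : Fintype Q := Fintype.ofFinite Q
  refine ⟨Finset.univ.image (fun q : Q => q.out), fun I => ?_⟩
  refine ⟨(QuotientGroup.mk I : Q).out, Finset.mem_image_of_mem _ (Finset.mem_univ _), ?_⟩
  obtain ⟨⟨_, c, rfl⟩, hc⟩ := QuotientGroup.mk_out_eq_mul (toPrincipalIdeal O K).range I
  refine ⟨c⁻¹, fun x => ?_⟩
  have hc' : (QuotientGroup.mk I : Q).out = I * toPrincipalIdeal O K c := hc
  rw [hc', Units.val_mul, coe_toPrincipalIdeal, mul_comm (I : FractionalIdeal O⁰ K),
    FractionalIdeal.mem_singleton_mul]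
  constructor
  · rintro ⟨y, hy, rfl⟩
    rw [← mul_assoc]
    simpa using hy
  · intro h
    exact ⟨_, h, by simp⟩

end Dedekind

end Fermat.Agent.H58R

end
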