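import Mathlib

/-!
# Balancing by units (H58R)

`exists_unit_balanced`: for every nonzero ideal `n` of `𝓞 K` (`K` totally complex) there is `C ≥ 1`
such that for every `y : InfinitePlace K → ℝ_{>0}` there is a unit `u ≡ 1 mod n` with
`(w u)² y_w ≤ C (w' u)² y_{w'}` for all infinite places `w`, `w'`.
-/

open NumberField NumberField.InfinitePlace NumberField.Units Module
open NumberField.Units.dirichletUnitTheorem

noncomputable section

namespace Fermat.Agent.H58R

/-- every point is at bounded distance from a lattice -/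
theorem exists_lattice_near {E : Type*} [NormedAddCommGroup E] [NormedSpace ℝ E]
    [FiniteDimensional ℝ E] (L : Submodule ℤ E) [DiscreteTopology L] [IsZLattice ℝ L] :
    ∃ B : ℝ, 0 ≤ B ∧ ∀ v : E, ∃ l ∈ L, ‖v - l‖ ≤ B := by
  have : ProperSpace E := FiniteDimensional.proper ℝ E
  have : Module.Free ℤ L := ZLattice.module_free ℝ L
  have : Module.Finite ℤ L := ZLattice.module_finite ℝ L
  let b0 := Module.Free.chooseBasis ℤ L
  let b := b0.ofZLatticeBasis ℝ L
  refine ⟨∑ i, ‖b i‖, Finset.sum_nonneg fun i _ => norm_nonneg _, fun v => ?_⟩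
  refine ⟨ZSpan.floor b v, ?_, ?_⟩
  · have h := (ZSpan.floor b v).2
    have h2 : Submodule.span ℤ (Set.range b) = L := b0.ofZLatticeBasis_span ℝ L
    exact h2.le h
  · exact ZSpan.norm_fract_le b v

variable (K : Type*) [Field K] [NumberField K]

/-- units raised to a suitable power are congruent to `1` -/
theorem exists_pow_congr (n : Ideal (𝓞 K)) (hn : n ≠ ⊥) :
    ∃ m : ℕ, 0 < m ∧ ∀ u : (𝓞 K)ˣ, (((u ^ m : (𝓞 K)ˣ) : 𝓞 K) - 1) ∈ n := by
  have : Finite (𝓞 K ⧸ n) := Ideal.finiteQuotientOfFreeOfNeBot n hn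
  have : Finite (𝓞 K ⧸ n)ˣ := inferInstance
  refine ⟨Nat.card (𝓞 K ⧸ n)ˣ, Nat.card_pos, fun u => ?_⟩
  rw [← Ideal.Quotient.eq_zero_iff_mem, map_sub, map_one, sub_eq_zero]
  have h : (Units.map (Ideal.Quotient.mk n : 𝓞 K →* 𝓞 K ⧸ n) u) ^ Nat.card (𝓞 K ⧸ n)ˣ = 1 :=
    pow_card_eq_one'
  have h2 := congrArg (fun t : (𝓞 K ⧸ n)ˣ => (t : 𝓞 K ⧸ n)) h
  rw [← map_pow] at h2
  exact h2

/-- the product of the squares of the absolute values of a unit (totally complex field) -/
theorem prod_sq_unit [IsTotallyComplex K] (u : (𝓞 K)ˣ) :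
    ∏ w : InfinitePlace K, (w (u : K)) ^ 2 = 1 := by
  have h := NumberField.Units.norm K u
  have h2 := InfinitePlace.prod_eq_abs_norm (K := K) (u : K)
  have h3 : ∀ w : InfinitePlace K, mult w = 2 := fun w =>
    mult_isComplex ⟨w, IsTotallyComplex.isComplex w⟩
  simp_rw [h3] at h2
  rw [h2]
  have h4 : |Algebra.norm ℚ ((u : 𝓞 K) : K)| = 1 := by
    have := (NumberField.isUnit_iff_norm (x := (u : 𝓞 K))).1 u.isUnit
    simp
  exact_mod_cast h4

open scoped Classical in
theorem exists_unit_pow_balanced [IsTotallyComplex K] (m : ℕ) (hm : 0 < m) :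
    ∃ C : ℝ, 1 ≤ C ∧ ∀ y : InfinitePlace K → ℝ, (∀ w, 0 < y w) →
      ∃ u : (𝓞 K)ˣ, ∀ w w' : InfinitePlace K,
        (w ((u ^ m : (𝓞 K)ˣ) : K)) ^ 2 * y w ≤ C * ((w' ((u ^ m : (𝓞 K)ˣ) : K)) ^ 2 * y w') := by
  obtain ⟨B, hB0, hB⟩ := exists_lattice_near (unitLattice K)
  set r : ℝ := (Fintype.card (InfinitePlace K) : ℝ) with hr
  have hr0 : 0 < r := by
    rw [hr]
    exact Nat.cast_pos.2 Fintype.card_pos
  have hmr : (0 : ℝ) < m := by exact_mod_cast hm
  have hmult : ∀ w : InfinitePlace K, mult w = 2 := fun w =>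
    mult_isComplex ⟨w, IsTotallyComplex.isComplex w⟩
  refine ⟨Real.exp (2 * (r * m * B)), Real.one_le_exp (by positivity), fun y hy => ?_⟩
  set M : ℝ := (∑ w, Real.log (y w)) / r with hM
  let t : InfinitePlace K → ℝ := fun w => Real.log (y w) - M
  have ht : ∑ w, t w = 0 := by
    simp only [t, Finset.sum_sub_distrib, Finset.sum_const, Finset.card_univ, nsmul_eq_mul]
    rw [hM, ← hr]
    field_simp
    ring
  let v : logSpace K := fun w => - t w.1 / m
  obtain ⟨l, hl, hvl⟩ := hB v
  obtain ⟨x, -, hx⟩ := hl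
  let u : (𝓞 K)ˣ := Additive.toMul x
  have hxl : ∀ w : {w : InfinitePlace K // w ≠ w₀}, l w = 2 * Real.log (w.1 (u : K)) := by
    intro w
    rw [← hx]
    have h := logEmbedding_component u w
    rw [hmult] at h
    push_cast at h
    exact h
  have hpos : ∀ w : InfinitePlace K, 0 < w (u : K) := fun w => Units.pos_at_place u w
  have hnear : ∀ w : InfinitePlace K, |2 * m * Real.log (w (u : K)) + t w| ≤ r * m * B := by
    have h1 : ∀ w : {w : InfinitePlace K // w ≠ w₀},
        |2 * m * Real.log (w.1 (u : K)) + t w.1| ≤ m * B := by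
      intro w
      have h2 := (norm_le_pi_norm (v - l) w).trans hvl
      have h3 : 2 * m * Real.log (w.1 (u : K)) + t w.1 = - (m * ((v - l) w)) := by
        simp only [Pi.sub_apply, hxl, v]
        field_simp
        ring
      rw [h3, abs_neg, abs_mul, abs_of_pos hmr]
      exact mul_le_mul_of_nonneg_left h2 hmr.le
    intro w
    by_cases hw : w = w₀
    · have hsum : (2 * m * Real.log (w₀ (u : K)) + t w₀) +
          ∑ w : {w : InfinitePlace K // w ≠ w₀}, (2 * m * Real.log (w.1 (u : K)) + t w.1) = 0 := by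
        have h4 := sum_mult_mul_log (K := K) u
        rw [← Fintype.sum_eq_add_sum_subtype_ne (fun w : InfinitePlace K =>
          (2 * m * Real.log (w (u : K)) + t w)) w₀, Finset.sum_add_distrib, ht, add_zero]
        have h5 : ∀ w : InfinitePlace K, 2 * m * Real.log (w (u : K))
            = m * (mult w * Real.log (w (u : K))) := by
          intro w
          rw [hmult]
          push_cast
          ring
        simp_rw [h5]
        rw [← Finset.mul_sum, h4, mul_zero]
      rw [hw]
      have h6 : (2 * m * Real.log (w₀ (u : K)) + t w₀) =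
          - ∑ w : {w : InfinitePlace K // w ≠ w₀}, (2 * m * Real.log (w.1 (u : K)) + t w.1) := by
        linarith
      rw [h6, abs_neg]
      refine (Finset.abs_sum_le_sum_abs _ _).trans ?_
      refine (Finset.sum_le_sum fun w _ => h1 w).trans ?_
      rw [Finset.sum_const, Finset.card_univ, nsmul_eq_mul, mul_assoc]
      refine mul_le_mul_of_nonneg_right ?_ (by positivity)
      rw [hr]
      exact_mod_cast Fintype.card_subtype_le _
    · refine (h1 ⟨w, hw⟩).trans ?_
      have : (1 : ℝ) ≤ r := by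
        rw [hr]
        exact Nat.one_le_cast.2 Fintype.card_pos
      calc (m : ℝ) * B = 1 * m * B := by ring
        _ ≤ r * m * B := by gcongr
  have key : ∀ w : InfinitePlace K, (w ((u ^ m : (𝓞 K)ˣ) : K)) ^ 2 * y w
      = Real.exp (2 * m * Real.log (w (u : K)) + t w + M) := by
    intro w
    have h7 : 2 * m * Real.log (w (u : K)) + t w + M
        = (2 * m : ℕ) * Real.log (w (u : K)) + Real.log (y w) := by
      simp only [t]
      push_cast
      ring
    rw [h7, Real.exp_add, Real.exp_log (hy w), Real.exp_nat_mul, Real.exp_log (hpos w)]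
    congr 1
    push_cast
    rw [map_pow, ← pow_mul, mul_comm]
  refine ⟨u, fun w w' => ?_⟩
  rw [key w, key w', ← Real.exp_add, Real.exp_le_exp]
  have a1 := (abs_le.1 (hnear w)).2
  have a2 := (abs_le.1 (hnear w')).1
  linarith

/-- **Balancing by units congruent to `1` modulo `n`.** -/
theorem exists_unit_balanced [IsTotallyComplex K] (n : Ideal (𝓞 K)) (hn : n ≠ ⊥) :
    ∃ C : ℝ, 1 ≤ C ∧ ∀ y : InfinitePlace K → ℝ, (∀ w, 0 < y w) →
      ∃ u : (𝓞 K)ˣ, ((u : 𝓞 K) - 1) ∈ n ∧ ∀ w w' : InfinitePlace K,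
        (w (u : K)) ^ 2 * y w ≤ C * ((w' (u : K)) ^ 2 * y w') := by
  obtain ⟨m, hm, hmn⟩ := exists_pow_congr K n hn
  obtain ⟨C, hC, H⟩ := exists_unit_pow_balanced K m hm
  refine ⟨C, hC, fun y hy => ?_⟩
  obtain ⟨u, hu⟩ := H y hy
  exact ⟨u ^ m, hmn u, hu⟩

/-- balanced coordinates are comparable to the geometric mean -/
theorem balanced_geom {J : Type*} [Fintype J] [Nonempty J] {C : ℝ} {y : J → ℝ}
    (hy : ∀ j, 0 < y j) (h : ∀ i j, y i ≤ C * y j) (j : J) :
    (y j) ^ Fintype.card J ≤ C ^ Fintype.card J * ∏ i, y i ∧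
      ∏ i, y i ≤ C ^ Fintype.card J * (y j) ^ Fintype.card J := by
  constructor
  · calc (y j) ^ Fintype.card J = ∏ _i : J, y j := by
          rw [Finset.prod_const, Finset.card_univ]
      _ ≤ ∏ i : J, (C * y i) := Finset.prod_le_prod (fun i _ => (hy j).le) fun i _ => h j i
      _ = C ^ Fintype.card J * ∏ i, y i := by
          rw [Finset.prod_mul_distrib, Finset.prod_const, Finset.card_univ]
  · calc ∏ i, y i ≤ ∏ _i : J, (C * y j) :=
          Finset.prod_le_prod (fun i _ => (hy i).le) fun i _ => h i j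
      _ = C ^ Fintype.card J * (y j) ^ Fintype.card J := by
          rw [Finset.prod_const, Finset.card_univ, mul_pow]

end Fermat.Agent.H58R

end
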