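import Mathlib
import Fermat.Agent.H58RStein
import Fermat.Agent.H58RMink
import Fermat.Agent.H58RUnit

/-!
# The two-line inequality, short vectors at the places, compactness modulo translations (H58R)
-/

open NumberField FractionalIdeal Module
open scoped nonZeroDivisors

set_option linter.overlappingInstances false
set_option linter.unusedSectionVars false

noncomputable section

namespace Fermat.Agent.H58R

/-- the determinant `1` Hermitian norm of the point `(z, y)` of hyperbolic 3-space -/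
def hn (z : ℂ) (y : ℝ) (a b : ℂ) : ℝ := (‖a - z * b‖ ^ 2 + y ^ 2 * ‖b‖ ^ 2) / y

theorem hn_nonneg {z : ℂ} {y : ℝ} (hy : 0 < y) (a b : ℂ) : 0 ≤ hn z y a b := by
  unfold hn; positivity

/-- Hadamard / Cauchy-Schwarz for `hn` -/
theorem det_sq_le (z : ℂ) {y : ℝ} (hy : 0 < y) (a b a' b' : ℂ) :
    ‖a * b' - b * a'‖ ^ 2 ≤ hn z y a b * hn z y a' b' := by
  set A := a - z * b with hA
  set A' := a' - z * b' with hA'
  have e : a * b' - b * a' = A * b' - b * A' := by rw [hA, hA']; ring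
  have h1 : ‖A * b' - b * A'‖ ≤ ‖A‖ * ‖b'‖ + ‖b‖ * ‖A'‖ := by
    refine (norm_sub_le _ _).trans_eq ?_
    rw [norm_mul, norm_mul]
  have h2 : (‖A‖ * ‖b'‖ + ‖b‖ * ‖A'‖) ^ 2
      ≤ ((‖A‖ ^ 2 + y ^ 2 * ‖b‖ ^ 2) / y) * ((‖A'‖ ^ 2 + y ^ 2 * ‖b'‖ ^ 2) / y) := by
    rw [div_mul_div_comm, le_div_iff₀ (by positivity)]
    nlinarith [sq_nonneg (‖A‖ * ‖A'‖ - y * ‖b‖ * (y * ‖b'‖))]
  rw [e]
  exact (pow_le_pow_left₀ (norm_nonneg _) h1 2).trans h2

variable (K : Type*) [Field K] [NumberField K]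

variable {K} in
/-- the absolute norm is antitone -/
theorem absNorm_le_of_le {I J : FractionalIdeal (𝓞 K)⁰ K} (hI : I ≠ 0) (h : I ≤ J) :
    absNorm J ≤ absNorm I := by
  have hJ : J ≠ 0 := by
    rintro rfl
    apply hI
    rw [← FractionalIdeal.bot_eq_zero] at h ⊢
    exact le_bot_iff.1 h
  have h1 : I * J⁻¹ ≤ 1 := by
    calc I * J⁻¹ ≤ J * J⁻¹ := by gcongr
      _ = 1 := mul_inv_cancel₀ hJ
  obtain ⟨A, hA⟩ := FractionalIdeal.le_one_iff_exists_coeIdeal.1 h1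
  have hA0 : A ≠ ⊥ := by
    rintro rfl
    rw [coeIdeal_bot] at hA
    exact mul_ne_zero hI (inv_ne_zero hJ) hA.symm
  have h2 : I = J * (A : FractionalIdeal (𝓞 K)⁰ K) := by
    rw [hA, mul_comm I, ← mul_assoc, mul_inv_cancel₀ hJ, one_mul]
  rw [h2, map_mul, coeIdeal_absNorm]
  have h3 : (1 : ℚ) ≤ (Ideal.absNorm A : ℚ) := by
    have : Ideal.absNorm A ≠ 0 := by
      rw [ne_eq, Ideal.absNorm_eq_zero_iff]
      exact hA0
    exact_mod_cast Nat.one_le_iff_ne_zero.2 this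
  exact le_mul_of_one_le_right (absNorm_nonneg J) h3

variable {K} in
/-- two-line inequality, ideal part -/
theorem absNorm_det_le {I I' D : FractionalIdeal (𝓞 K)⁰ K} {δ : K} (hI : I ≠ 0) (hI' : I' ≠ 0)
    (hδ : δ ≠ 0) (h : ∀ a ∈ I, ∀ b ∈ I', a * b * δ ∈ D) :
    absNorm D ≤ absNorm I * absNorm I' * |Algebra.norm ℚ δ| := by
  have h1 : I * I' * spanSingleton (𝓞 K)⁰ δ ≤ D := by
    rw [FractionalIdeal.mul_le]
    intro x hx y hy
    obtain ⟨r, hr⟩ := (mem_spanSingleton (𝓞 K)⁰).1 hy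
    subst hr
    have hx' : x * δ ∈ D := by
      refine FractionalIdeal.mul_induction_on hx (fun a ha b hb => h a ha b hb) ?_
      intro a b ha hb
      rw [add_mul]
      exact (D : Submodule (𝓞 K) K).add_mem ha hb
    rw [mul_smul_comm]
    exact (D : Submodule (𝓞 K) K).smul_mem _ hx'
  have h2 : I * I' * spanSingleton (𝓞 K)⁰ δ ≠ 0 :=
    mul_ne_zero (mul_ne_zero hI hI') (FractionalIdeal.spanSingleton_ne_zero_iff.2 hδ)
  have h3 := absNorm_le_of_le h2 h1
  rwa [map_mul, map_mul, absNorm_span_singleton] at h3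

section Emb

variable {J : Type*} [Fintype J] (e : J → K →+* ℂ)
  (he : Function.Bijective fun j => InfinitePlace.mk (e j))

include he

/-- the norm of an element as a product of squares of its absolute values -/
theorem abs_norm_eq_prod_sq [IsTotallyComplex K] (x : K) :
    (|Algebra.norm ℚ x| : ℝ) = ∏ j, ‖e j x‖ ^ 2 := by
  have h2 := InfinitePlace.prod_eq_abs_norm (K := K) x
  have h3 : ∀ w : InfinitePlace K, InfinitePlace.mult w = 2 := fun w =>
    InfinitePlace.mult_isComplex ⟨w, IsTotallyComplex.isComplex w⟩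
  simp_rw [h3] at h2
  have h4 : ∏ j, ‖e j x‖ ^ 2 = ∏ w : InfinitePlace K, (w x) ^ 2 :=
    Fintype.prod_bijective _ he _ _ fun j => rfl
  rw [h4, h2]
  push_cast
  rfl

/-- **Two-line inequality** (`ht_v ht_{v'} ≤ 1`): `Λ ∋ c v` for `c ∈ I`, `c' v'` for `c' ∈ I'`,
`D` contains all determinants of pairs of vectors of `Λ`. -/
theorem two_lines [IsTotallyComplex K] {I I' D : FractionalIdeal (𝓞 K)⁰ K} {v v' : Fin 2 → K}
    (hI : I ≠ 0) (hI' : I' ≠ 0) (hδ : v 0 * v' 1 - v 1 * v' 0 ≠ 0)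
    (h : ∀ a ∈ I, ∀ b ∈ I', a * b * (v 0 * v' 1 - v 1 * v' 0) ∈ D)
    (z : J → ℂ) (y : J → ℝ) (hy : ∀ j, 0 < y j) :
    (absNorm D : ℝ) ≤ absNorm I * absNorm I' *
      ((∏ j, hn (z j) (y j) (e j (v 0)) (e j (v 1))) *
        ∏ j, hn (z j) (y j) (e j (v' 0)) (e j (v' 1))) := by
  have h1 := absNorm_det_le hI hI' hδ h
  have h1' : (absNorm D : ℝ) ≤ absNorm I * absNorm I' * |Algebra.norm ℚ (v 0 * v' 1 - v 1 * v' 0)| := by
    exact_mod_cast h1
  refine h1'.trans (mul_le_mul_of_nonneg_left ?_ ?_)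
  · push_cast
    rw [abs_norm_eq_prod_sq K e he, ← Finset.prod_mul_distrib]
    refine Finset.prod_le_prod (fun w _ => by positivity) fun j _ => ?_
    rw [map_sub, map_mul, map_mul]
    exact det_sq_le (z j) (hy j) _ _ _ _
  · have := mul_nonneg (absNorm_nonneg I) (absNorm_nonneg I')
    exact_mod_cast this

/-- **Minkowski** in terms of `hn`. -/
theorem exists_short_hn [IsTotallyComplex K] (I I' : (FractionalIdeal (𝓞 K)⁰ K)ˣ) :
    ∃ R : ℝ, 0 < R ∧ ∀ (z : J → ℂ) (y : J → ℝ), (∀ j, 0 < y j) →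
      ∃ v : Fin 2 → K, v ≠ 0 ∧ v 0 ∈ (I : FractionalIdeal (𝓞 K)⁰ K) ∧
        v 1 ∈ (I' : FractionalIdeal (𝓞 K)⁰ K) ∧
        ∀ j, hn (z j) (y j) (e j (v 0)) (e j (v 1)) ≤ R := by
  obtain ⟨R, hR, H⟩ := exists_short K e he I I'
  refine ⟨R + R, by positivity, fun z y hy => ?_⟩
  obtain ⟨a, ha, b, hb, hab, h⟩ := H z y hy
  refine ⟨![a, b], ?_, ha, hb, fun j => ?_⟩
  · intro h0
    have h1 : a = 0 := by simpa using congrFun h0 0
    have h2 : b = 0 := by simpa using congrFun h0 1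
    rcases hab with h3 | h3
    · exact h3 h1
    · exact h3 h2
  · obtain ⟨h1, h2⟩ := h j
    have hyj := hy j
    simp only [hn, Matrix.cons_val_zero, Matrix.cons_val_one]
    rw [add_div]
    refine add_le_add ?_ ?_
    · rw [div_le_iff₀ hyj]
      exact h1
    · rw [div_le_iff₀ hyj]
      have h3 := mul_le_mul_of_nonneg_left h2 (sq_nonneg (y j))
      calc _ ≤ (y j) ^ 2 * (R / y j) := h3
        _ = R * y j := by field_simp

/-- **Minkowski**: a vector with small product norm (and large height). -/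
theorem exists_short_prod [IsTotallyComplex K] (I I' : (FractionalIdeal (𝓞 K)⁰ K)ˣ) :
    ∃ R : ℝ, 0 < R ∧ ∀ (z : J → ℂ) (y : J → ℝ), (∀ j, 0 < y j) →
      ∃ v : Fin 2 → K, v ≠ 0 ∧ v 0 ∈ (I : FractionalIdeal (𝓞 K)⁰ K) ∧
        v 1 ∈ (I' : FractionalIdeal (𝓞 K)⁰ K) ∧
        ∏ j, hn (z j) (y j) (e j (v 0)) (e j (v 1)) ≤ R := by
  obtain ⟨R, hR, H⟩ := exists_short_hn K e he I I'
  refine ⟨R ^ Fintype.card J, by positivity, fun z y hy => ?_⟩
  obtain ⟨v, hv0, hv1, hv2, h⟩ := H z y hy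
  refine ⟨v, hv0, hv1, hv2, ?_⟩
  calc ∏ j, hn (z j) (y j) (e j (v 0)) (e j (v 1)) ≤ ∏ _j : J, R :=
        Finset.prod_le_prod (fun j _ => hn_nonneg (hy j) _ _) fun j _ => h j
    _ = R ^ Fintype.card J := by rw [Finset.prod_const, Finset.card_univ]

/-- **Balancing by units congruent to `1` modulo `n`.** -/
theorem exists_unit_balanced' [IsTotallyComplex K] (n : Ideal (𝓞 K)) (hn : n ≠ ⊥) :
    ∃ C : ℝ, 1 ≤ C ∧ ∀ y : J → ℝ, (∀ j, 0 < y j) →
      ∃ u : (𝓞 K)ˣ, ((u : 𝓞 K) - 1) ∈ n ∧ ∀ i j : J,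
        ‖e i (u : K)‖ ^ 2 * y i ≤ C * (‖e j (u : K)‖ ^ 2 * y j) := by
  obtain ⟨C, hC, H⟩ := exists_unit_balanced K n hn
  refine ⟨C, hC, fun y hy => ?_⟩
  let E : J ≃ InfinitePlace K := Equiv.ofBijective _ he
  obtain ⟨u, hu, h⟩ := H (fun w => y (E.symm w)) fun w => hy _
  refine ⟨u, hu, fun i j => ?_⟩
  have h1 := h (E i) (E j)
  rw [E.symm_apply_apply, E.symm_apply_apply] at h1
  exact h1

/-- the product of the squares of the absolute values of a unit -/
theorem prod_sq_unit' [IsTotallyComplex K] (u : (𝓞 K)ˣ) :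
    ∏ j, ‖e j (u : K)‖ ^ 2 = 1 := by
  rw [← prod_sq_unit K u]
  exact Fintype.prod_bijective _ he _ _ fun j => rfl

omit [Fintype J] he in
theorem embedding_mk_cases (φ : K →+* ℂ) :
    (InfinitePlace.mk φ).embedding = φ ∨
      ∀ x, (InfinitePlace.mk φ).embedding x = (starRingEnd ℂ) (φ x) := by
  rcases (InfinitePlace.mk_eq_iff (φ := (InfinitePlace.mk φ).embedding) (ψ := φ)).1
    (InfinitePlace.mk_embedding _) with h | h
  · exact Or.inl h
  · right
    intro x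
    have := congrArg (fun f : K →+* ℂ => (starRingEnd ℂ) (f x)) h
    simpa [ComplexEmbedding.conjugate_coe_eq] using this

end Emb

open scoped Classical in
theorem norm_complex_le (x : mixedEmbedding.mixedSpace K)
    (w : {w : InfinitePlace K // w.IsComplex}) : ‖x.2 w‖ ≤ ‖x‖ :=
  (norm_le_pi_norm x.2 w).trans (norm_snd_le x)

open scoped Classical in
theorem exists_translate_aux [IsTotallyComplex K] (I : (FractionalIdeal (𝓞 K)⁰ K)ˣ) :
    ∃ B : ℝ, 0 ≤ B ∧ ∀ z : InfinitePlace K → ℂ, ∃ a ∈ (I : FractionalIdeal (𝓞 K)⁰ K),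
      ∀ w : InfinitePlace K, ‖z w - w.embedding a‖ ≤ B := by
  obtain ⟨B, hB0, hB⟩ := exists_lattice_near (mixedEmbedding.idealLattice K I)
  refine ⟨B, hB0, fun z => ?_⟩
  let x : mixedEmbedding.mixedSpace K := (fun _ => 0, fun w => z w.1)
  obtain ⟨l, hl, hzl⟩ := hB x
  obtain ⟨a, ha, hal⟩ := (mixedEmbedding.mem_idealLattice K I).1 hl
  refine ⟨a, ha, fun w => ?_⟩
  have hw : w.IsComplex := IsTotallyComplex.isComplex w
  have h1 := (norm_complex_le K (x - l) ⟨w, hw⟩).trans hzl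
  have h2 : (x - l).2 ⟨w, hw⟩ = z w - w.embedding a := by
    subst hal
    rfl
  rw [h2] at h1
  exact h1

/-- **Compactness modulo translations**: `ℂ^J = e(I) + (ball of radius B)`. -/
theorem exists_translate [IsTotallyComplex K] {J : Type*} (e : J → K →+* ℂ)
    (he : Function.Bijective fun j => InfinitePlace.mk (e j))
    (I : (FractionalIdeal (𝓞 K)⁰ K)ˣ) :
    ∃ B : ℝ, 0 ≤ B ∧ ∀ z : J → ℂ, ∃ a ∈ (I : FractionalIdeal (𝓞 K)⁰ K),
      ∀ j, ‖z j - e j a‖ ≤ B := by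
  classical
  obtain ⟨B, hB, H⟩ := exists_translate_aux K I
  refine ⟨B, hB, fun z => ?_⟩
  let E : J ≃ InfinitePlace K := Equiv.ofBijective _ he
  obtain ⟨a, ha, h⟩ := H fun w =>
    if w.embedding = e (E.symm w) then z (E.symm w) else (starRingEnd ℂ) (z (E.symm w))
  refine ⟨a, ha, fun j => ?_⟩
  have h1 := h (E j)
  rw [E.symm_apply_apply] at h1
  by_cases hc : (E j).embedding = e j
  · rw [if_pos hc, hc] at h1
    exact h1
  · rw [if_neg hc] at h1
    rcases embedding_mk_cases K (e j) with h2 | h2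
    · exact absurd h2 hc
    · have h3 : (E j).embedding a = (starRingEnd ℂ) (e j a) := h2 a
      rw [h3, ← map_sub, RCLike.norm_conj] at h1
      exact h1

end Fermat.Agent.H58R

end
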