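import Fermat.Agent.H95S2

/-!
# Bounded kernel, part 3 (helper95): the crude count of lattice points

* `H95S.ncard_box_le`: number of `a ∈ 𝓞 K` with `‖e j a‖ ≤ T j` for all `j`;
* `H95S.entry_sq_le`: entries of a matrix `γ` with `ch w (γ • w') ≤ R`;
* `H95S.count_le`: number of group elements with `ch (w j) (γ • w' j) ≤ R` for all `j`.
-/

set_option autoImplicit false
set_option linter.unusedSectionVars false

noncomputable section

open MeasureTheory NumberField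
open scoped ComplexConjugate Real

namespace Fermat.Agent.H95S

open Fermat.Agent.H3

/-! ### Integers of bounded size -/

section Count

variable {K : Type*} [Field K] [NumberField K] {J : Type*} [Fintype J] (e : J → K →+* ℂ)

theorem exists_one_le (he : ∀ v : InfinitePlace K, ∃ j, InfinitePlace.mk (e j) = v)
    {a : 𝓞 K} (ha : a ≠ 0) : ∃ j, 1 ≤ ‖e j a‖ := by
  by_contra hcon
  push Not at hcon
  have h1 : ∀ v : InfinitePlace K, v a < 1 := by
    intro v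
    obtain ⟨j, rfl⟩ := he v
    exact hcon j
  obtain ⟨v⟩ : Nonempty (InfinitePlace K) := inferInstance
  have h2 := InfinitePlace.one_le_of_lt_one (w := v) ha fun z _ => h1 z
  linarith [h1 v]

/-- The integer vector attached to `a`. -/
def flo (a : 𝓞 K) (j : J) : ℤ × ℤ := (⌊2 * (e j a).re⌋, ⌊2 * (e j a).im⌋)

theorem flo_injective (he : ∀ v : InfinitePlace K, ∃ j, InfinitePlace.mk (e j) = v) :
    Function.Injective (flo e) := by
  intro a b hab
  by_contra hne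
  obtain ⟨j, hj⟩ := exists_one_le e he (sub_ne_zero.mpr hne)
  have h1 := congrFun hab j
  simp only [flo, Prod.mk.injEq] at h1
  obtain ⟨h2, h3⟩ := h1
  have h4 : |2 * (e j a).re - 2 * (e j b).re| < 1 := Int.abs_sub_lt_one_of_floor_eq_floor h2
  have h5 : |2 * (e j a).im - 2 * (e j b).im| < 1 := Int.abs_sub_lt_one_of_floor_eq_floor h3
  have h6 : ‖e j ((a - b : 𝓞 K) : K)‖ ^ 2 < 1 := by
    rw [← Complex.normSq_eq_norm_sq, Complex.normSq_apply]
    have e1 : e j ((a - b : 𝓞 K) : K) = e j a - e j b := by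
      rw [← map_sub]
      rfl
    rw [e1, Complex.sub_re, Complex.sub_im]
    rw [abs_lt] at h4 h5
    nlinarith
  have h7 : 1 ≤ ‖e j ((a - b : 𝓞 K) : K)‖ ^ 2 := one_le_pow₀ hj
  linarith

theorem floor_mem {x T : ℝ} (h : |x| ≤ T) : ⌊2 * x⌋ ∈ Finset.Icc (-(⌊2 * T⌋₊ : ℤ) - 1) ⌊2 * T⌋₊ := by
  have hT : 0 ≤ T := (abs_nonneg x).trans h
  rw [abs_le] at h
  rw [Finset.mem_Icc]
  have h1 := Nat.lt_floor_add_one (2 * T)
  constructor
  · rw [Int.le_floor]
    push_cast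
    linarith
  · have h2 : (⌊2 * T⌋₊ : ℤ) = ⌊2 * T⌋ := by
      rw [← Int.natCast_floor_eq_floor (by linarith)]
    rw [h2]
    exact Int.floor_le_floor (by linarith)

theorem card_Icc_le {T : ℝ} (hT : 0 ≤ T) :
    ((Finset.Icc (-(⌊2 * T⌋₊ : ℤ) - 1) ⌊2 * T⌋₊).card : ℝ) ≤ 4 * T + 2 := by
  rw [Int.card_Icc]
  have h1 : ((⌊2 * T⌋₊ : ℤ) + 1 - (-(⌊2 * T⌋₊ : ℤ) - 1)).toNat = 2 * ⌊2 * T⌋₊ + 2 := by omega
  rw [h1]
  push_cast
  have h2 := Nat.floor_le (by linarith : 0 ≤ 2 * T)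
  linarith

theorem finite_box (he : ∀ v : InfinitePlace K, ∃ j, InfinitePlace.mk (e j) = v)
    (T : J → ℝ) (hT : ∀ j, 0 ≤ T j) :
    ({a : 𝓞 K | ∀ j, ‖e j a‖ ≤ T j}).Finite ∧
      (({a : 𝓞 K | ∀ j, ‖e j a‖ ≤ T j}).ncard : ℝ) ≤ ∏ j, (4 * T j + 2) ^ 2 := by
  classical
  set A : Set (𝓞 K) := {a : 𝓞 K | ∀ j, ‖e j a‖ ≤ T j} with hA
  let B : Finset (J → ℤ × ℤ) := Fintype.piFinset fun j =>
    (Finset.Icc (-(⌊2 * T j⌋₊ : ℤ) - 1) ⌊2 * T j⌋₊) ×ˢ
      (Finset.Icc (-(⌊2 * T j⌋₊ : ℤ) - 1) ⌊2 * T j⌋₊)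
  have hmaps : Set.MapsTo (flo e) A (B : Set (J → ℤ × ℤ)) := by
    intro a ha
    simp only [B, Finset.mem_coe, Fintype.mem_piFinset, Finset.mem_product]
    intro j
    exact ⟨floor_mem ((Complex.abs_re_le_norm _).trans (ha j)),
      floor_mem ((Complex.abs_im_le_norm _).trans (ha j))⟩
  have hfin : A.Finite := Set.Finite.of_finite_image
    ((B.finite_toSet).subset hmaps.image_subset) (flo_injective e he).injOn
  refine ⟨hfin, ?_⟩
  have h1 : A.ncard ≤ (B : Set (J → ℤ × ℤ)).ncard :=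
    Set.ncard_le_ncard_of_injOn (flo e) hmaps (flo_injective e he).injOn B.finite_toSet
  rw [Set.ncard_coe_finset] at h1
  have h2 : (B.card : ℝ) ≤ ∏ j, (4 * T j + 2) ^ 2 := by
    rw [Fintype.card_piFinset]
    push_cast
    refine Finset.prod_le_prod (fun j _ => by positivity) fun j _ => ?_
    rw [Finset.card_product]
    push_cast
    rw [sq]
    exact mul_le_mul (card_Icc_le (hT j)) (card_Icc_le (hT j)) (by positivity)
      (by linarith [hT j])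
  exact (by exact_mod_cast h1 : (A.ncard : ℝ) ≤ B.card).trans h2

/-- Families of integers of bounded size. -/
theorem finite_family (he : ∀ v : InfinitePlace K, ∃ j, InfinitePlace.mk (e j) = v)
    (T : J → ℝ) (hT : ∀ j, 0 ≤ T j) {G β : Type*} [Fintype β] {S : Set G} (m : G → β → 𝓞 K)
    (hm : Set.InjOn m S) (hS : ∀ g ∈ S, ∀ b j, ‖e j (m g b)‖ ≤ T j) :
    S.Finite ∧ (S.ncard : ℝ) ≤ (∏ j, (4 * T j + 2) ^ 2) ^ Fintype.card β := by
  classical
  obtain ⟨hfin, hcard⟩ := finite_box e he T hT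
  let C : Finset (β → 𝓞 K) := Fintype.piFinset fun _ => hfin.toFinset
  have hmaps : Set.MapsTo m S (C : Set (β → 𝓞 K)) := by
    intro g hg
    simp only [C, Finset.mem_coe, Fintype.mem_piFinset, Set.Finite.mem_toFinset]
    intro b j
    exact hS g hg b j
  refine ⟨Set.Finite.of_finite_image ((C.finite_toSet).subset hmaps.image_subset) hm, ?_⟩
  have h1 : S.ncard ≤ (C : Set (β → 𝓞 K)).ncard :=
    Set.ncard_le_ncard_of_injOn m hmaps hm C.finite_toSet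
  rw [Set.ncard_coe_finset, Fintype.card_piFinset] at h1
  have h2 : (∏ _b : β, hfin.toFinset.card) =
      ({a : 𝓞 K | ∀ j, ‖e j a‖ ≤ T j}).ncard ^ Fintype.card β := by
    rw [Finset.prod_const, Finset.card_univ, Set.ncard_eq_toFinset_card _ hfin]
  rw [h2] at h1
  calc (S.ncard : ℝ) ≤ (({a : 𝓞 K | ∀ j, ‖e j a‖ ≤ T j}).ncard : ℝ) ^ Fintype.card β := by
        exact_mod_cast h1
    _ ≤ _ := pow_le_pow_left₀ (by positivity) hcard _

end Count

/-! ### The archimedean bound -/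

theorem herm_smul_diag (g : GL (Fin 2) ℂ) (w : H3) (a : Fin 2) :
    (herm (g • w) a a).re = (Complex.normSq (g a 0 * w.z + g a 1) +
      Complex.normSq (g a 0) * w.y ^ 2) / (w.y * ‖(g : Matrix (Fin 2) (Fin 2) ℂ).det‖) := by
  have hn : ((‖(g : Matrix (Fin 2) (Fin 2) ℂ).det‖ : ℝ) : ℂ) ≠ 0 := by
    exact_mod_cast (norm_pos_iff.mpr g.det.ne_zero).ne'
  have h1 : herm (g • w) a a = (((Complex.normSq (g a 0 * w.z + g a 1) +
      Complex.normSq (g a 0) * w.y ^ 2) /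
        (w.y * ‖(g : Matrix (Fin 2) (Fin 2) ℂ).det‖) : ℝ) : ℂ) := by
    rw [herm_smul]
    have hz : w.z * conj w.z = ((Complex.normSq w.z : ℝ) : ℂ) := Complex.mul_conj w.z
    have hy := w.y_ne
    push_cast
    rw [← Complex.mul_conj, ← Complex.mul_conj]
    simp only [Matrix.smul_apply, Matrix.mul_apply, Fin.sum_univ_two, herm, Matrix.of_apply,
      Matrix.cons_val', Matrix.cons_val_one, Matrix.cons_val_zero, Matrix.cons_val_fin_one,
      Matrix.conjTranspose_apply, smul_eq_mul, Complex.star_def]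
    push_cast
    rw [← hz]
    field_simp
    simp only [map_add, map_mul]
    ring
  rw [h1, Complex.ofReal_re]

theorem herm_diag_le {w v : H3} {c Z R : ℝ} (hc : 0 < c) (hR : 1 ≤ R) (hZ : 0 ≤ Z)
    (hw : c ≤ w.y) (hwz : ‖w.z‖ ≤ Z) (h : ch w v ≤ R) (a : Fin 2) :
    (herm v a a).re ≤ (2 * R * ((Z / c + 2 * R) ^ 2 + (2 * R) ^ 2) + 2 * R / c ^ 2) * w.y := by
  have h0 := w.pos
  have h1 := v.pos
  have h2 : v.y ≤ 2 * R * w.y := y_le_of_ch_le h
  have h3 : w.y ≤ 2 * R * v.y := y_le_of_ch_le (by rwa [ch_comm])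
  have h4 : ‖w.z - v.z‖ ≤ 2 * R * w.y := norm_z_sub_le (by linarith) h
  have h5 : ‖v.z‖ ≤ (Z / c + 2 * R) * w.y := by
    calc ‖v.z‖ = ‖w.z - (w.z - v.z)‖ := by congr 1; ring
      _ ≤ ‖w.z‖ + ‖w.z - v.z‖ := norm_sub_le _ _
      _ ≤ Z + 2 * R * w.y := by linarith
      _ ≤ Z / c * w.y + 2 * R * w.y := by
          have : Z ≤ Z / c * w.y := by
            rw [div_mul_eq_mul_div, le_div_iff₀ hc]
            exact mul_le_mul_of_nonneg_left hw hZ
          linarith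
      _ = _ := by ring
  have hinv : 1 / v.y ≤ 2 * R / w.y := by
    rw [div_le_div_iff₀ h1 h0]
    linarith
  have hX : 0 ≤ (Z / c + 2 * R) ^ 2 + (2 * R) ^ 2 := by positivity
  fin_cases a
  · have e1 : (herm v 0 0).re = (Complex.normSq v.z + v.y ^ 2) * (1 / v.y) := by
      simp only [herm, Matrix.of_apply, Matrix.cons_val', Matrix.cons_val_zero,
        Matrix.cons_val_fin_one]
      rw [← Complex.ofReal_div, Complex.ofReal_re]
      ring
    have h6 : Complex.normSq v.z + v.y ^ 2 ≤ ((Z / c + 2 * R) ^ 2 + (2 * R) ^ 2) * w.y ^ 2 := by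
      rw [Complex.normSq_eq_norm_sq]
      have h7 : ‖v.z‖ ^ 2 ≤ ((Z / c + 2 * R) * w.y) ^ 2 := pow_le_pow_left₀ (norm_nonneg _) h5 2
      have h8 : v.y ^ 2 ≤ (2 * R * w.y) ^ 2 := pow_le_pow_left₀ h1.le h2 2
      nlinarith
    show (herm v 0 0).re ≤ _
    rw [e1]
    calc (Complex.normSq v.z + v.y ^ 2) * (1 / v.y)
        ≤ (((Z / c + 2 * R) ^ 2 + (2 * R) ^ 2) * w.y ^ 2) * (2 * R / w.y) :=
          mul_le_mul h6 hinv (by positivity) (by positivity)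
      _ = (2 * R * ((Z / c + 2 * R) ^ 2 + (2 * R) ^ 2)) * w.y := by
          field_simp
      _ ≤ _ := by
          refine mul_le_mul_of_nonneg_right ?_ h0.le
          have : 0 ≤ 2 * R / c ^ 2 := by positivity
          linarith
  · have e1 : (herm v 1 1).re = 1 / v.y := by
      simp only [herm, Matrix.of_apply, Matrix.cons_val', Matrix.cons_val_one,
        Matrix.cons_val_fin_one]
      rw [← Complex.ofReal_one, ← Complex.ofReal_div, Complex.ofReal_re]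
    show (herm v 1 1).re ≤ _
    rw [e1]
    refine hinv.trans ?_
    have h6 : 2 * R / w.y ≤ 2 * R / c ^ 2 * w.y := by
      rw [div_mul_eq_mul_div, div_le_div_iff₀ h0 (by positivity)]
      have : c ^ 2 ≤ w.y * w.y := by nlinarith
      nlinarith
    refine h6.trans ?_
    refine mul_le_mul_of_nonneg_right ?_ h0.le
    have : 0 ≤ 2 * R * ((Z / c + 2 * R) ^ 2 + (2 * R) ^ 2) := by positivity
    linarith

/-- The entries of a matrix `g` with `ch w (g • w') ≤ R`. -/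
theorem exists_entry_sq_le {c Z R : ℝ} (hc : 0 < c) (hR : 1 ≤ R) (hZ : 0 ≤ Z) :
    ∃ C, 0 < C ∧ ∀ (g : GL (Fin 2) ℂ) (w w' : H3), c ≤ w.y → c ≤ w'.y → ‖w.z‖ ≤ Z →
      ‖w'.z‖ ≤ Z → ch w (g • w') ≤ R → ∀ a b,
        ‖g a b‖ ^ 2 ≤ C * ‖(g : Matrix (Fin 2) (Fin 2) ℂ).det‖ * (w.y * w'.y) := by
  set C0 : ℝ := 2 * R * ((Z / c + 2 * R) ^ 2 + (2 * R) ^ 2) + 2 * R / c ^ 2 with hC0
  have hC0p : 0 < C0 := by positivity
  refine ⟨C0 * (2 + (2 * Z ^ 2 + 1) / c ^ 2), by positivity, ?_⟩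
  intro g w w' hw hw' hz hz' h a b
  have h0 := w.pos
  have h1 := w'.pos
  set D := ‖(g : Matrix (Fin 2) (Fin 2) ℂ).det‖ with hD
  have hDp : 0 < D := norm_pos_iff.mpr g.det.ne_zero
  have h2 := herm_diag_le hc hR hZ hw hz h a
  rw [herm_smul_diag, ← hD, div_le_iff₀ (by positivity), ← hC0,
    Complex.normSq_eq_norm_sq, Complex.normSq_eq_norm_sq] at h2
  -- first entry
  have h3 : ‖g a 0‖ ^ 2 * w'.y ^ 2 ≤ C0 * w.y * (w'.y * D) := by
    nlinarith [sq_nonneg ‖g a 0 * w'.z + g a 1‖]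
  have h4 : ‖g a 0 * w'.z + g a 1‖ ^ 2 ≤ C0 * w.y * (w'.y * D) := by
    have : 0 ≤ ‖g a 0‖ ^ 2 * w'.y ^ 2 := by positivity
    linarith
  have h5 : ‖g a 0‖ ^ 2 ≤ C0 / c ^ 2 * D * (w.y * w'.y) := by
    have h6 : ‖g a 0‖ ^ 2 * c ^ 2 ≤ ‖g a 0‖ ^ 2 * w'.y ^ 2 := by
      refine mul_le_mul_of_nonneg_left ?_ (by positivity)
      exact pow_le_pow_left₀ hc.le hw' 2
    have h7 : ‖g a 0‖ ^ 2 ≤ C0 * w.y * (w'.y * D) / c ^ 2 := by
      rw [le_div_iff₀ (by positivity)]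
      linarith
    refine h7.trans (le_of_eq ?_)
    field_simp
  have hPnn : 0 ≤ C0 * D * (w.y * w'.y) := by positivity
  fin_cases b
  · show ‖g a 0‖ ^ 2 ≤ _
    refine h5.trans ?_
    have e1 : C0 / c ^ 2 * D * (w.y * w'.y) = (C0 * D * (w.y * w'.y)) * (1 / c ^ 2) := by ring
    have e2 : C0 * (2 + (2 * Z ^ 2 + 1) / c ^ 2) * D * (w.y * w'.y) =
        (C0 * D * (w.y * w'.y)) * (2 + (2 * Z ^ 2 + 1) / c ^ 2) := by ring
    rw [e1, e2]
    refine mul_le_mul_of_nonneg_left ?_ hPnn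
    have : 1 / c ^ 2 ≤ (2 * Z ^ 2 + 1) / c ^ 2 :=
      div_le_div_of_nonneg_right (by nlinarith [sq_nonneg Z]) (by positivity)
    linarith
  · show ‖g a 1‖ ^ 2 ≤ _
    have h6 : ‖g a 1‖ ≤ ‖g a 0 * w'.z + g a 1‖ + ‖g a 0‖ * Z := by
      calc ‖g a 1‖ = ‖(g a 0 * w'.z + g a 1) - g a 0 * w'.z‖ := by congr 1; ring
        _ ≤ ‖g a 0 * w'.z + g a 1‖ + ‖g a 0 * w'.z‖ := norm_sub_le _ _
        _ ≤ _ := by
            rw [norm_mul]
            linarith [mul_le_mul_of_nonneg_left hz' (norm_nonneg (g a 0))]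
    have h7 : ‖g a 1‖ ^ 2 ≤ 2 * ‖g a 0 * w'.z + g a 1‖ ^ 2 + 2 * (‖g a 0‖ ^ 2 * Z ^ 2) := by
      have h8 : ‖g a 1‖ ^ 2 ≤ (‖g a 0 * w'.z + g a 1‖ + ‖g a 0‖ * Z) ^ 2 :=
        pow_le_pow_left₀ (norm_nonneg _) h6 2
      nlinarith [sq_nonneg (‖g a 0 * w'.z + g a 1‖ - ‖g a 0‖ * Z)]
    have h9 : ‖g a 0‖ ^ 2 * Z ^ 2 ≤ C0 / c ^ 2 * D * (w.y * w'.y) * Z ^ 2 :=
      mul_le_mul_of_nonneg_right h5 (sq_nonneg Z)
    refine h7.trans ?_
    have e2 : C0 * (2 + (2 * Z ^ 2 + 1) / c ^ 2) * D * (w.y * w'.y) =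
        2 * (C0 * w.y * (w'.y * D)) + 2 * (C0 / c ^ 2 * D * (w.y * w'.y) * Z ^ 2) +
          (C0 * D * (w.y * w'.y)) * (1 / c ^ 2) := by
      field_simp
      ring
    rw [e2]
    have : 0 ≤ (C0 * D * (w.y * w'.y)) * (1 / c ^ 2) := by positivity
    linarith

/-! ### The count -/

/-- **Crude count.** -/
theorem count_le {K : Type*} [Field K] [NumberField K] {J : Type*} [Fintype J] (e : J → K →+* ℂ)
    (he : ∀ v : InfinitePlace K, ∃ j, InfinitePlace.mk (e j) = v)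
    {c Z R : ℝ} (hc : 0 < c) (hR : 1 ≤ R) (hZ : 0 ≤ Z) {N : K} (hN : N ≠ 0) {Δ : ℝ} :
    ∃ M, 0 ≤ M ∧ ∀ (G : Type*) (S : Set G) (lift : G → GL (Fin 2) K), Set.InjOn lift S →
      (∀ g ∈ S, ∀ a b, ∃ x : 𝓞 K, (x : K) = N * lift g a b) →
      (∀ g ∈ S, ∀ j, ‖e j (lift g : Matrix (Fin 2) (Fin 2) K).det‖ ≤ Δ) →
      ∀ w w' : J → H3, (∀ j, c ≤ (w j).y) → (∀ j, c ≤ (w' j).y) → (∀ j, ‖(w j).z‖ ≤ Z) →
        (∀ j, ‖(w' j).z‖ ≤ Z) →
      (∀ g ∈ S, ∀ j, ch (w j) (Matrix.GeneralLinearGroup.map (e j) (lift g) • w' j) ≤ R) →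
      S.Finite ∧ (S.ncard : ℝ) ≤ M * (ht w * ht w') ^ (4 : ℝ) := by
  classical
  obtain ⟨C, hC, hent⟩ := exists_entry_sq_le hc hR hZ
  -- constants
  set N' : J → ℝ := fun j => ‖e j N‖ with hN'
  set C2 : J → ℝ := fun j => (4 * (N' j * Real.sqrt (C * |Δ|)) + 2 / c) ^ 2 with hC2
  refine ⟨(∏ j, C2 j) ^ 4, by positivity, ?_⟩
  intro G S lift hinj hint hdet w w' hw hw' hz hz' hS
  have hyy : ∀ j, 0 ≤ (w j).y * (w' j).y := fun j => by
    have := (w j).pos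
    have := (w' j).pos
    positivity
  set T : J → ℝ := fun j => N' j * Real.sqrt (C * |Δ| * ((w j).y * (w' j).y)) with hT
  have hT0 : ∀ j, 0 ≤ T j := fun j => by
    simp only [hT, hN']
    positivity
  choose! x hx using hint
  let m : G → Fin 2 × Fin 2 → 𝓞 K := fun g b => x g b.1 b.2
  have hm : Set.InjOn m S := by
    intro g hg g' hg' hgg
    apply hinj hg hg'
    apply Units.ext
    ext a b
    have h1 : x g a b = x g' a b := congrFun hgg (a, b)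
    have h2 := hx g hg a b
    have h3 := hx g' hg' a b
    rw [h1, h3] at h2
    exact (mul_left_cancel₀ hN h2).symm
  have hbd : ∀ g ∈ S, ∀ b j, ‖e j (m g b)‖ ≤ T j := by
    intro g hg b j
    have h1 : ((m g b : 𝓞 K) : K) = N * lift g b.1 b.2 := hx g hg b.1 b.2
    rw [h1, map_mul, norm_mul]
    refine mul_le_mul_of_nonneg_left ?_ (norm_nonneg _)
    refine Real.le_sqrt_of_sq_le ?_
    have h2 := hent (Matrix.GeneralLinearGroup.map (e j) (lift g)) (w j) (w' j) (hw j) (hw' j)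
      (hz j) (hz' j) (hS g hg j) b.1 b.2
    have e1 : (Matrix.GeneralLinearGroup.map (e j) (lift g)) b.1 b.2 = e j (lift g b.1 b.2) := rfl
    have e2 : ((Matrix.GeneralLinearGroup.map (e j) (lift g) : GL (Fin 2) ℂ) :
        Matrix (Fin 2) (Fin 2) ℂ).det = e j (lift g : Matrix (Fin 2) (Fin 2) K).det := by
      rw [RingHom.map_det]
      rfl
    rw [e1, e2] at h2
    refine h2.trans ?_
    refine mul_le_mul_of_nonneg_right ?_ (hyy j)
    exact mul_le_mul_of_nonneg_left ((hdet g hg j).trans (le_abs_self Δ)) hC.le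
  obtain ⟨hfin, hcard⟩ := finite_family e he T hT0 m hm hbd
  refine ⟨hfin, hcard.trans ?_⟩
  have hcard4 : Fintype.card (Fin 2 × Fin 2) = 4 := by simp
  rw [hcard4]
  have h5 : ∏ j, (4 * T j + 2) ^ 2 ≤ (∏ j, C2 j) * (ht w * ht w') := by
    rw [ht, ht, ← Finset.prod_mul_distrib, ← Finset.prod_mul_distrib]
    refine Finset.prod_le_prod (fun j _ => by positivity) fun j _ => ?_
    have hy1 := (w j).pos
    have hy2 := (w' j).pos
    set s := Real.sqrt ((w j).y * (w' j).y) with hs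
    have hs2 : s ^ 2 = (w j).y * (w' j).y := Real.sq_sqrt (hyy j)
    have hsc : c ≤ s := by
      refine Real.le_sqrt_of_sq_le ?_
      nlinarith [hw j, hw' j]
    have e3 : T j = N' j * Real.sqrt (C * |Δ|) * s := by
      simp only [hT]
      rw [Real.sqrt_mul (by positivity), hs, mul_assoc]
    have h6 : 4 * T j + 2 ≤ (4 * (N' j * Real.sqrt (C * |Δ|)) + 2 / c) * s := by
      rw [e3]
      have : 2 ≤ 2 / c * s := by
        rw [div_mul_eq_mul_div, le_div_iff₀ hc]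
        linarith
      nlinarith
    calc (4 * T j + 2) ^ 2 ≤ ((4 * (N' j * Real.sqrt (C * |Δ|)) + 2 / c) * s) ^ 2 :=
          pow_le_pow_left₀ (by linarith [hT0 j]) h6 2
      _ = C2 j * ((w j).y * (w' j).y) := by rw [mul_pow, hs2]
  calc (∏ j, (4 * T j + 2) ^ 2) ^ 4 ≤ ((∏ j, C2 j) * (ht w * ht w')) ^ 4 :=
        pow_le_pow_left₀ (by positivity) h5 4
    _ = (∏ j, C2 j) ^ 4 * (ht w * ht w') ^ (4 : ℝ) := by
        rw [mul_pow]
        congr 1
        norm_cast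

end Fermat.Agent.H95S
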