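import Mathlib
import Fermat.Agent.H31I1
import Fermat.Agent.H95S3
import Fermat.Agent.H26ZLift
import Fermat.Agent.H26ZFin2
import Fermat.Agent.H58RLines
import Fermat.Agent.H59Def

/-!
# S47, block (C): lattice point count and proper discontinuity on `(J → ℍ³) × Y`

`Y` a `PGL(2, K)`-set with an equivariant map to the classes of lattices such that the stabiliser of
every point contains the translations by the multiples of some nonzero integer.

* `exists_good_lifts`: representatives with bounded denominators and determinants;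
* `count_abs`: number of `g` with `g • y' = y` and `ch (w j) ((g w') j) ≤ T` for all `j`;
* `finite_abs`, `finite_unif_abs`: proper discontinuity.
-/

set_option autoImplicit false
set_option linter.unusedSectionVars false

noncomputable section

open scoped nonZeroDivisors MatrixGroups NumberField
open Matrix NumberField MeasureTheory

namespace Fermat.Agent.H31I

open Fermat.Agent.H26Z Fermat.Agent.H3 Fermat.Agent.H95S

variable {K : Type*} [Field K] [NumberField K] {J : Type*} [Fintype J]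

/-! ### Good lifts -/

theorem exists_good_lifts (e : J → K →+* ℂ) (Λ Λ' : Lat (𝓞 K) K) :
    ∃ (N : K) (Δ : ℝ), N ≠ 0 ∧ ∀ g : PGL(2, K), g • LatC.mk Λ = LatC.mk Λ' →
      ∃ h : GL (Fin 2) K, ProjGenLinGroup.mk h = g ∧
        (∀ a b, ∃ x : 𝓞 K, (x : K) = N * h a b) ∧
        ∀ j, ‖e j (h : Matrix (Fin 2) (Fin 2) K).det‖ ≤ Δ := by
  classical
  obtain ⟨P, hP, H⟩ := exists_lifts Λ Λ'
  -- denominators
  choose d hd0 hd using fun p : (FractionalIdeal (𝓞 K)⁰ K)ˣ × Kˣ => Lat.exists_den (p.1 • Λ').fg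
  obtain ⟨a, ha, ha'⟩ := Λ.exists_smul_mem ![1, 0]
  obtain ⟨b, hb, hb'⟩ := Λ.exists_smul_mem ![0, 1]
  set D : 𝓞 K := ∏ p ∈ hP.toFinset, d p with hD
  have hD0 : D ≠ 0 := Finset.prod_ne_zero_iff.2 fun p _ => hd0 p
  have hinj : ∀ {x : 𝓞 K}, x ≠ 0 → (x : K) ≠ 0 := fun hx h =>
    hx (RingOfIntegers.coe_injective (h.trans (map_zero (algebraMap (𝓞 K) K)).symm))
  -- determinants
  have hbd := ((hP.prod (Set.finite_univ (α := J))).image
    (fun q : ((FractionalIdeal (𝓞 K)⁰ K)ˣ × Kˣ) × J => ‖e q.2 (q.1.2 : K)‖)).bddAbove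
  obtain ⟨Δ, hΔ⟩ := hbd
  refine ⟨(D : K) * a * b, Δ, mul_ne_zero (mul_ne_zero (hinj hD0) (hinj ha)) (hinj hb), ?_⟩
  intro g
  induction g using ProjGenLinGroup.induction_on with
  | mk g =>
    intro hg
    rw [LatC.pgl_smul] at hg
    obtain ⟨c, p, hp, h1, h2⟩ := H g hg
    refine ⟨GeneralLinearGroup.scalar (Fin 2) c * g, ?_, ?_, ?_⟩
    · rw [map_mul]
      have : (ProjGenLinGroup.mk (GeneralLinearGroup.scalar (Fin 2) c) : PGL(2, K)) = 1 := by
        simp
      rw [this, one_mul]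
    · set h : GL (Fin 2) K := GeneralLinearGroup.scalar (Fin 2) c * g with hh
      obtain ⟨k, hk⟩ : d p ∣ D := Finset.dvd_prod_of_mem _ (hP.mem_toFinset.2 hp)
      have key : ∀ v ∈ Λ.M, ∀ i, ∃ r : 𝓞 K, (r : K) = (d p : K) * (h • v) i := by
        intro v hv i
        have h3 : h • v ∈ (p.1 • Λ').M := by
          rw [← h1]
          exact Lat.smul_mem_smul.2 hv
        exact hd p _ h3 i
      intro i j
      have hkK : (D : K) = (d p : K) * (k : K) := by rw [hk]; rfl
      fin_cases j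
      · obtain ⟨r, hr⟩ := key _ ha' i
        refine ⟨r * k * b, ?_⟩
        have h4 : (h • (a • (![1, 0] : Fin 2 → K))) i = (a : K) * h i 0 := by
          rw [smul_comm]
          have : (h • (![1, 0] : Fin 2 → K)) i = h i 0 := by
            fin_cases i
            · show (h • (![1, 0] : Fin 2 → K)) 0 = h 0 0
              rw [Lat.gl_smul_zero]; simp
            · show (h • (![1, 0] : Fin 2 → K)) 1 = h 1 0
              rw [Lat.gl_smul_one]; simp
          rw [Pi.smul_apply, this, Algebra.smul_def]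
        rw [h4] at hr
        show ((r * k * b : 𝓞 K) : K) = (D : K) * a * b * h i 0
        have h5 : ((r * k * b : 𝓞 K) : K) = (r : K) * k * b := by push_cast; ring
        rw [hkK, h5]
        linear_combination (k : K) * b * hr
      · obtain ⟨r, hr⟩ := key _ hb' i
        refine ⟨r * k * a, ?_⟩
        have h4 : (h • (b • (![0, 1] : Fin 2 → K))) i = (b : K) * h i 1 := by
          rw [smul_comm]
          have : (h • (![0, 1] : Fin 2 → K)) i = h i 1 := by
            fin_cases i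
            · show (h • (![0, 1] : Fin 2 → K)) 0 = h 0 1
              rw [Lat.gl_smul_zero]; simp
            · show (h • (![0, 1] : Fin 2 → K)) 1 = h 1 1
              rw [Lat.gl_smul_one]; simp
          rw [Pi.smul_apply, this, Algebra.smul_def]
        rw [h4] at hr
        show ((r * k * a : 𝓞 K) : K) = (D : K) * a * b * h i 1
        have h5 : ((r * k * a : 𝓞 K) : K) = (r : K) * k * a := by push_cast; ring
        rw [hkK, h5]
        linear_combination (k : K) * a * hr
    · intro j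
      have h3 : ((GeneralLinearGroup.scalar (Fin 2) c * g : GL (Fin 2) K) :
          Matrix (Fin 2) (Fin 2) K).det = (p.2 : K) := by
        rw [← h2]
        rfl
      rw [h3]
      exact hΔ ⟨(p, j), ⟨hp, Set.mem_univ _⟩, rfl⟩

/-! ### Translations -/

/-- The translation by `x`. -/
def nK {F : Type*} [Field F] (x : F) : GL (Fin 2) F :=
  GeneralLinearGroup.mkOfDetNeZero !![1, x; 0, 1] (by simp [Matrix.det_fin_two])

theorem map_nK {F : Type*} [Field F] (φ : F →+* ℂ) (x : F) :
    GeneralLinearGroup.map φ (nK x) = nMat (φ x) := by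
  apply Units.ext
  ext i j
  show φ ((!![1, x; 0, 1] : Matrix (Fin 2) (Fin 2) F) i j) =
    (!![1, φ x; 0, 1] : Matrix (Fin 2) (Fin 2) ℂ) i j
  fin_cases i <;> fin_cases j <;> simp

theorem pmap_nK_smul {F : Type*} [Field F] (φ : F →+* ℂ) (x : F) (w : H3) :
    ProjGenLinGroup.map φ (ProjGenLinGroup.mk (nK x)) • w = ⟨w.z + φ x, w.y, w.pos⟩ := by
  have h1 : ProjGenLinGroup.map φ (ProjGenLinGroup.mk (nK x)) =
      (ProjGenLinGroup.mk (nMat (φ x)) : PGL(2, ℂ)) := by
    rw [← map_nK]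
    rfl
  rw [h1, H59D.mk_smul, nMat_smul]

theorem isTotallyComplex (e : J → K →+* ℂ)
    (he : Function.Bijective fun j => InfinitePlace.mk (e j))
    (hc : ∀ j, ¬ ComplexEmbedding.IsReal (e j)) : IsTotallyComplex K := by
  refine ⟨fun v => ?_⟩
  obtain ⟨j, rfl⟩ := he.2 v
  rw [← InfinitePlace.not_isReal_iff_isComplex]
  intro h
  rw [InfinitePlace.isReal_iff] at h
  rcases H58R.embedding_mk_cases K (e j) with h1 | h1
  · rw [h1] at h
    exact hc j h
  · apply hc j
    have h2 : ComplexEmbedding.conjugate (InfinitePlace.mk (e j)).embedding = e j := by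
      ext x
      rw [ComplexEmbedding.conjugate_coe_eq, h1, starRingEnd_self_apply]
    rw [← h2]
    exact ComplexEmbedding.isReal_conjugate_iff.2 h

theorem exists_translate_mul (e : J → K →+* ℂ)
    (he : Function.Bijective fun j => InfinitePlace.mk (e j))
    (hc : ∀ j, ¬ ComplexEmbedding.IsReal (e j)) {n : 𝓞 K} (hn : n ≠ 0) :
    ∃ B : ℝ, 0 ≤ B ∧ ∀ z : J → ℂ, ∃ b : 𝓞 K, ∀ j, ‖z j - e j ((n : K) * b)‖ ≤ B := by
  haveI := isTotallyComplex e he hc
  have hn' : (n : K) ≠ 0 := fun h =>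
    hn (RingOfIntegers.coe_injective (h.trans (map_zero (algebraMap (𝓞 K) K)).symm))
  obtain ⟨B, hB, H⟩ := H58R.exists_translate K e he (toPrincipalIdeal (𝓞 K) K (Units.mk0 (n : K) hn'))
  refine ⟨B, hB, fun z => ?_⟩
  obtain ⟨a, ha, h⟩ := H z
  rw [coe_toPrincipalIdeal, FractionalIdeal.mem_spanSingleton] at ha
  obtain ⟨b, rfl⟩ := ha
  refine ⟨b, fun j => ?_⟩
  have h1 : (n : K) * b = b • (Units.mk0 (n : K) hn' : Kˣ) := by
    rw [Units.val_mk0, Algebra.smul_def, mul_comm]
  rw [h1]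
  exact h j

/-! ### The count -/

variable {Y : Type*} [MulAction PGL(2, K) Y]

/-- The set of group elements to be counted. -/
def cset (e : J → K →+* ℂ) (y y' : Y) (T : ℝ) (w w' : J → H3) : Set PGL(2, K) :=
  {g | g • y' = y ∧ ∀ j, ch (w j) (ProjGenLinGroup.map (e j) g • w' j) ≤ T}

theorem mem_cset {e : J → K →+* ℂ} {y y' : Y} {T : ℝ} {w w' : J → H3} {g : PGL(2, K)} :
    g ∈ cset e y y' T w w' ↔
      g • y' = y ∧ ∀ j, ch (w j) (ProjGenLinGroup.map (e j) g • w' j) ≤ T := Iff.rfl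

/-- `y` is fixed by the translations by the multiples of a nonzero integer. -/
def TrStab (y : Y) : Prop :=
  ∃ n : 𝓞 K, n ≠ 0 ∧ ∀ b : 𝓞 K, (ProjGenLinGroup.mk (nK ((n : K) * b)) : PGL(2, K)) • y = y

/-- **The count** (abstract form). -/
theorem count_abs (e : J → K →+* ℂ)
    (he : Function.Bijective fun j => InfinitePlace.mk (e j))
    (hc : ∀ j, ¬ ComplexEmbedding.IsReal (e j)) (π : Y → LatC (𝓞 K) K)
    (hπ : ∀ (g : PGL(2, K)) y, π (g • y) = g • π y) (y y' : Y) (hs : TrStab (K := K) y)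
    (hs' : TrStab (K := K) y') (T : ℝ) {c : ℝ} (hc0 : 0 < c) :
    ∃ M, 0 ≤ M ∧ ∀ w w' : J → H3, (∀ j, c ≤ (w j).y) → (∀ j, c ≤ (w' j).y) →
      (cset e y y' T w w').Finite ∧
        ((cset e y y' T w w').ncard : ℝ) ≤ M * (ht w * ht w') ^ (4 : ℝ) := by
  classical
  obtain ⟨n, hn, hn'⟩ := hs
  obtain ⟨m, hm, hm'⟩ := hs'
  obtain ⟨B, hB, HB⟩ := exists_translate_mul e he hc hn
  obtain ⟨B', hB', HB'⟩ := exists_translate_mul e he hc hm
  obtain ⟨Λ, hΛ⟩ := LatC.mk_surjective (π y')
  obtain ⟨Λ', hΛ'⟩ := LatC.mk_surjective (π y)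
  obtain ⟨N, Δ, hN, H⟩ := exists_good_lifts e Λ Λ'
  choose! lift hl1 hl2 hl3 using H
  obtain ⟨M, hM, HM⟩ := count_le (K := K) (J := J) e (fun v => he.2 v) hc0
    (le_max_right T 1) (hB.trans (le_max_left B B')) hN (Δ := Δ)
  refine ⟨M, hM, fun w w' hw hw' => ?_⟩
  obtain ⟨b, hb⟩ := HB fun j => (w j).z
  obtain ⟨b', hb'⟩ := HB' fun j => (w' j).z
  -- the translations
  set u : PGL(2, K) := ProjGenLinGroup.mk (nK ((n : K) * (-b : 𝓞 K))) with hu
  set u' : PGL(2, K) := ProjGenLinGroup.mk (nK ((m : K) * (-b' : 𝓞 K))) with hu'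
  have hy : u • y = y := hn' _
  have hy' : u' • y' = y' := hm' _
  set w1 : J → H3 := fun j => ProjGenLinGroup.map (e j) u • w j with hw1
  set w2 : J → H3 := fun j => ProjGenLinGroup.map (e j) u' • w' j with hw2
  have e1 : ∀ j, w1 j = ⟨(w j).z + e j ((n : K) * (-b : 𝓞 K)), (w j).y, (w j).pos⟩ := fun j =>
    pmap_nK_smul _ _ _
  have e2 : ∀ j, w2 j = ⟨(w' j).z + e j ((m : K) * (-b' : 𝓞 K)), (w' j).y, (w' j).pos⟩ := fun j =>
    pmap_nK_smul _ _ _
  have y1 : ∀ j, (w1 j).y = (w j).y := fun j => by rw [e1]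
  have y2 : ∀ j, (w2 j).y = (w' j).y := fun j => by rw [e2]
  have z1 : ∀ j, ‖(w1 j).z‖ ≤ max B B' := fun j => by
    rw [e1]
    refine le_trans (le_of_eq ?_) ((hb j).trans (le_max_left _ _))
    congr 1
    show (w j).z + e j ((n : K) * (-b : 𝓞 K)) = (w j).z - e j ((n : K) * b)
    rw [sub_eq_add_neg, ← map_neg]
    congr 2
    push_cast
    ring
  have z2 : ∀ j, ‖(w2 j).z‖ ≤ max B B' := fun j => by
    rw [e2]
    refine le_trans (le_of_eq ?_) ((hb' j).trans (le_max_right _ _))
    congr 1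
    show (w' j).z + e j ((m : K) * (-b' : 𝓞 K)) = (w' j).z - e j ((m : K) * b')
    rw [sub_eq_add_neg, ← map_neg]
    congr 2
    push_cast
    ring
  have ht1 : ht w1 = ht w := Finset.prod_congr rfl fun j _ => y1 j
  have ht2 : ht w2 = ht w' := Finset.prod_congr rfl fun j _ => y2 j
  -- the count for the translated points
  set S := cset e y y' T w1 w2 with hS
  have hSl : ∀ g ∈ S, g • LatC.mk Λ = LatC.mk Λ' := by
    intro g hg
    rw [hΛ, hΛ', ← hπ, hg.1]
  obtain ⟨hfin, hcard⟩ := HM PGL(2, K) S lift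
    (fun g hg g' hg' h => by
      rw [← hl1 g (hSl g hg), ← hl1 g' (hSl g' hg'), h])
    (fun g hg => hl2 g (hSl g hg)) (fun g hg => hl3 g (hSl g hg)) w1 w2
    (fun j => by rw [y1]; exact hw j) (fun j => by rw [y2]; exact hw' j) z1 z2
    (fun g hg j => by
      refine le_trans ?_ ((hg.2 j).trans (le_max_left _ _))
      have h1 : ProjGenLinGroup.map (e j) g • w2 j =
          GeneralLinearGroup.map (e j) (lift g) • w2 j := by
        conv_lhs => rw [← hl1 g (hSl g hg)]
        rfl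
      rw [h1])
  rw [ht1, ht2] at hcard
  -- back to the original points
  have hmaps : Set.MapsTo (fun g => u * g * u'⁻¹) (cset e y y' T w w') S := by
    intro g hg
    refine ⟨?_, fun j => ?_⟩
    · show (u * g * u'⁻¹) • y' = y
      rw [mul_smul, mul_smul, inv_smul_eq_iff.2 hy'.symm, hg.1, hy]
    · show ch (ProjGenLinGroup.map (e j) u • w j)
        (ProjGenLinGroup.map (e j) (u * g * u'⁻¹) • ProjGenLinGroup.map (e j) u' • w' j) ≤ T
      rw [map_mul, map_mul, map_inv, mul_smul, mul_smul, inv_smul_smul, H59D.ch_smul]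
      exact hg.2 j
  have hinj : Set.InjOn (fun g => u * g * u'⁻¹) (cset e y y' T w w') := by
    intro g _ g' _ h
    exact mul_left_cancel (mul_right_cancel h)
  refine ⟨Set.Finite.of_finite_image (hfin.subset hmaps.image_subset) hinj, ?_⟩
  refine le_trans ?_ hcard
  exact_mod_cast Set.ncard_le_ncard_of_injOn _ hmaps hinj hfin

/-- **Proper discontinuity** (pointwise). -/
theorem finite_abs (e : J → K →+* ℂ)
    (he : Function.Bijective fun j => InfinitePlace.mk (e j))
    (hc : ∀ j, ¬ ComplexEmbedding.IsReal (e j)) (π : Y → LatC (𝓞 K) K)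
    (hπ : ∀ (g : PGL(2, K)) y, π (g • y) = g • π y) (y y' : Y) (hs : TrStab (K := K) y)
    (hs' : TrStab (K := K) y') (T : ℝ) (w w' : J → H3) :
    (cset e y y' T w w').Finite := by
  obtain ⟨B, hB0, hB⟩ := exists_le_all (J := J) (fun j => ((w j).y)⁻¹)
  obtain ⟨B', hB0', hB'⟩ := exists_le_all (J := J) (fun j => ((w' j).y)⁻¹)
  have hc0 : 0 < (max B B' + 1)⁻¹ := by
    have := hB0.trans (le_max_left B B')
    positivity
  obtain ⟨M, -, H⟩ := count_abs e he hc π hπ y y' hs hs' T hc0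
  refine (H w w' (fun j => ?_) fun j => ?_).1
  · have h1 := (hB j).trans (le_max_left B B')
    have h2 := (w j).pos
    rw [inv_le_comm₀ (by have := hB0.trans (le_max_left B B'); positivity) h2]
    linarith
  · have h1 := (hB' j).trans (le_max_right B B')
    have h2 := (w' j).pos
    rw [inv_le_comm₀ (by have := hB0.trans (le_max_left B B'); positivity) h2]
    linarith

end Fermat.Agent.H31I
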