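import Fermat.Agent.H95S1

/-!
# Bounded kernel, part 2 (helper95): growth induction and the two variable argument

`X = (J → H3) × Y`, `rel` an equivalence relation on `X` (orbits of the arithmetic group).

* `H95S.Gr`: growth of order `s` of a family of functions;
* `H95S.Gr.step`: if `f = R(κ) g` has zero constant term then the order of growth drops by `1/r`;
* `H95S.bounded_kernel`: the bounded kernel theorem.
-/

set_option autoImplicit false
set_option linter.unusedSectionVars false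

noncomputable section

open MeasureTheory
open scoped ComplexConjugate Real

namespace Fermat.Agent.H95S

open Fermat.Agent.H3

variable {J : Type*} [Fintype J] {Y : Type*} {ι : Type*}

/-- The height of `w`: product of the `y_j`. -/
def ht (w : J → H3) : ℝ := ∏ j, (w j).y

theorem ht_pos (w : J → H3) : 0 < ht w := Finset.prod_pos fun j _ => (w j).pos

@[simp] theorem ht_tr (u : J → ℂ) (w : J → H3) : ht (tr u w) = ht w := rfl

theorem pow_le_ht {c : ℝ} (hc : 0 ≤ c) {w : J → H3} (h : ∀ j, c ≤ (w j).y) :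
    c ^ Fintype.card J ≤ ht w := by
  calc c ^ Fintype.card J = ∏ _j : J, c := by simp
    _ ≤ ht w := Finset.prod_le_prod (fun _ _ => hc) fun j _ => h j

/-- Comparison of real powers. -/
theorem rpow_le_of_comparable {a b K s : ℝ} (ha : 0 < a) (hb : 0 < b) (hK : 1 ≤ K)
    (h1 : a ≤ K * b) (h2 : b ≤ K * a) : a ^ s ≤ K ^ |s| * b ^ s := by
  have hK0 : 0 < K := by linarith
  rcases le_total 0 s with hs | hs
  · rw [abs_of_nonneg hs, ← Real.mul_rpow hK0.le hb.le]
    exact Real.rpow_le_rpow ha.le h1 hs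
  · rw [abs_of_nonpos hs]
    have h3 : (K * a) ^ s ≤ b ^ s := Real.rpow_le_rpow_of_nonpos hb h2 hs
    rw [Real.mul_rpow hK0.le ha.le] at h3
    calc a ^ s = K ^ (-s) * (K ^ s * a ^ s) := by
          rw [← mul_assoc, ← Real.rpow_add hK0]
          simp
      _ ≤ K ^ (-s) * b ^ s := mul_le_mul_of_nonneg_left h3 (by positivity)

/-- Growth of order `s` (with weights `H i`) of a family of functions. -/
def Gr (Y0 : Set Y) (H : ι → ℝ) (s : ℝ) (f : ι → (J → H3) × Y → ℂ) : Prop :=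
  ∀ c > 0, ∃ M, 0 ≤ M ∧ ∀ i, ∀ η ∈ Y0, ∀ w : J → H3, (∀ j, c ≤ (w j).y) →
    ‖f i (w, η)‖ ≤ M * ht w ^ s * H i

/-- The constant term along the cusp `∞` vanishes at all `η ∈ Y0`. -/
def Cusp (Y0 : Set Y) (δ : ℝ) (f : (J → H3) × Y → ℂ) : Prop :=
  ∀ η ∈ Y0, ∃ P : Set (J → ℂ), MeasurableSet P ∧ 0 < volume P ∧ (∀ u ∈ P, ∀ j, ‖u j‖ ≤ δ) ∧
    ∀ w, ∫ u in P, f (tr u w, η) = 0

theorem norm_le_of_mean_zero {P : Set (J → ℂ)} (hPm : MeasurableSet P) (hP0 : 0 < volume P)
    (hPt : volume P < ⊤) {φ : (J → ℂ) → ℂ} (hφ : ContinuousOn φ P)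
    (hint : ∫ u in P, φ u = 0) {a : ℂ} {E : ℝ} (hE : ∀ u ∈ P, ‖φ u - a‖ ≤ E) : ‖a‖ ≤ E := by
  have hi : IntegrableOn φ P := by
    have : IsFiniteMeasure (volume.restrict P) := ⟨by rwa [Measure.restrict_apply_univ]⟩
    refine Integrable.of_bound (hφ.aestronglyMeasurable hPm) (E + ‖a‖) ?_
    refine (ae_restrict_iff' hPm).mpr (Filter.Eventually.of_forall ?_)
    intro u hu
    calc ‖φ u‖ = ‖(φ u - a) + a‖ := by rw [sub_add_cancel]
      _ ≤ ‖φ u - a‖ + ‖a‖ := norm_add_le _ _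
      _ ≤ _ := by linarith [hE u hu]
  have hc : IntegrableOn (fun _ : J → ℂ => a) P := integrableOn_const hPt.ne
  have h1 : ∫ u in P, (φ u - a) = -(volume.real P • a) := by
    rw [integral_sub hi hc, hint, setIntegral_const]
    simp
  have h2 := norm_setIntegral_le_of_norm_le_const hPt hE
  rw [h1, norm_neg, norm_smul, Real.norm_of_nonneg measureReal_nonneg] at h2
  have h3 : 0 < volume.real P := by
    rw [Measure.real, ENNReal.toReal_pos_iff]
    exact ⟨hP0, hPt⟩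
  rw [mul_comm E] at h2
  exact le_of_mul_le_mul_left h2 h3

theorem volume_lt_top_of_norm_le {P : Set (J → ℂ)} {δ : ℝ} (h : ∀ u ∈ P, ∀ j, ‖u j‖ ≤ δ) :
    volume P < ⊤ := by
  refine Bornology.IsBounded.measure_lt_top ?_
  refine (Metric.isBounded_closedBall (x := (0 : J → ℂ)) (r := |δ|)).subset ?_
  intro u hu
  rw [mem_closedBall_zero_iff, pi_norm_le_iff_of_nonneg (abs_nonneg δ)]
  exact fun j => (h u hu j).trans (le_abs_self δ)

theorem tr_tr (u u' : J → ℂ) (w : J → H3) : tr u (tr u' w) = tr (u + u') w := by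
  funext j
  ext
  · simp only [tr_z, Pi.add_apply]
    ring
  · rfl

/-- The step: `f = R(κ) g` with zero constant term gains `ht ^ (-1/r)`. -/
theorem Gr.step {κ : (J → ℝ) → ℂ} {T L Mκ : ℝ} (hκ : Ker κ T L Mκ) {Y0 : Set Y} {H : ι → ℝ}
    {s : ℝ} {g f : ι → (J → H3) × Y → ℂ} (hJ : 0 < Fintype.card J) (hH : ∀ i, 0 ≤ H i)
    (hg : Gr Y0 H s g)
    (hmeas : ∀ i, ∀ η ∈ Y0, Measurable fun v => g i (v, η))
    (hfg : ∀ i, ∀ η ∈ Y0, ∀ w, f i (w, η) = RK κ (fun v => g i (v, η)) w)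
    {δ : ℝ} (hcusp : ∀ i, Cusp Y0 δ (f i))
    {B : ℝ}
    (hbal : ∀ i, ∀ η ∈ Y0, ∀ w, ∃ w', f i (w', η) = f i (w, η) ∧ ht w' = ht w ∧
      ∀ j, ht w ^ (1 / (Fintype.card J : ℝ)) ≤ B * (w' j).y) :
    Gr Y0 H (s - 1 / Fintype.card J) f := by
  classical
  intro c hc
  obtain ⟨j0⟩ : Nonempty J := Fintype.card_pos_iff.mp hJ
  have hT := hκ.one_le
  have hL := hκ.nonneg
  have hT2 : 0 < 2 * T := by linarith
  set r : ℝ := (Fintype.card J : ℝ) with hr
  have hr0 : 0 < r := by rw [hr]; exact_mod_cast hJ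
  by_cases hY : ∃ _i : ι, ∃ η, η ∈ Y0
  swap
  · push Not at hY
    exact ⟨0, le_rfl, fun i η hη => absurd hη (hY i η)⟩
  obtain ⟨i0, η0, hη0⟩ := hY
  have hB : 0 < B := by
    obtain ⟨w', _, _, h3⟩ := hbal i0 η0 hη0 (fun _ => o)
    have h4 := h3 j0
    have h5 : (0 : ℝ) < ht (fun _ : J => o) ^ (1 / r) := Real.rpow_pos_of_pos (ht_pos _) _
    have h6 := (w' j0).pos
    by_contra hB
    nlinarith
  have hδ : 0 ≤ δ := by
    obtain ⟨P, _, hP0, hP, _⟩ := hcusp i0 η0 hη0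
    obtain ⟨u, hu⟩ := nonempty_of_measure_ne_zero hP0.ne'
    exact (norm_nonneg _).trans (hP u hu j0)
  obtain ⟨Mg, hMg0, hMg⟩ := hg (c / (2 * T * B)) (by positivity)
  -- the constants
  set Q : ℝ := 2 * δ * B / c with hQ
  have hQ0 : 0 ≤ Q := by positivity
  set C1 : ℝ := L * (r * (4 * T ^ 2 * (1 + Q))) * (2 * (volT T).toReal ^ Fintype.card J) with hC1
  have hC10 : 0 ≤ C1 := by positivity
  set K : ℝ := (2 * T) ^ Fintype.card J with hK
  have hK1 : 1 ≤ K := one_le_pow₀ (by linarith)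
  refine ⟨C1 * (δ * B) * (Mg * K ^ |s|), by positivity, ?_⟩
  intro i η hη w hw
  obtain ⟨w', e1, e2, e3⟩ := hbal i η hη w
  have hhw := ht_pos w
  -- the lower bound of the heights
  set m : ℝ := ht w ^ (1 / r) / B with hm
  have hmpos : 0 < m := by positivity
  have hcr : c ≤ ht w ^ (1 / r) := by
    have h1 := pow_le_ht hc.le hw
    have h2 := Real.rpow_le_rpow (by positivity) h1 (by positivity : 0 ≤ 1 / r)
    rwa [← Real.rpow_natCast, ← Real.rpow_mul hc.le, ← hr, mul_one_div_cancel hr0.ne',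
      Real.rpow_one] at h2
  have hcm : c / B ≤ m := div_le_div_of_nonneg_right hcr hB.le
  have hmy : ∀ j, m ≤ (w' j).y := fun j => by
    rw [hm, div_le_iff₀ hB, mul_comm]
    exact e3 j
  -- bounds for g
  have hgb : ∀ u : J → ℂ, ∀ v ∈ box T (tr u w'), ‖g i (v, η)‖ ≤
      Mg * K ^ |s| * ht w ^ s * H i := by
    intro u v hv
    have hv1 : ∀ j, (w' j).y ≤ 2 * T * (v j).y := fun j => by
      have h1 := hv j
      rw [ch_comm] at h1
      have h2 := y_le_of_ch_le h1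
      rwa [tr_y] at h2
    have hv2 : ∀ j, (v j).y ≤ 2 * T * (w' j).y := fun j => by
      have h2 := y_le_of_ch_le (hv j)
      rwa [tr_y] at h2
    have hv3 : ∀ j, c / (2 * T * B) ≤ (v j).y := fun j => by
      rw [div_le_iff₀ (by positivity)]
      have h1 := hcm.trans (hmy j)
      rw [div_le_iff₀ hB] at h1
      nlinarith [hv1 j]
    have h4 := hMg i η hη v hv3
    have h5 : ht v ≤ K * ht w := by
      rw [← e2, hK, ht, ht]
      calc ∏ j, (v j).y ≤ ∏ j, (2 * T * (w' j).y) :=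
            Finset.prod_le_prod (fun j _ => (v j).pos.le) fun j _ => hv2 j
        _ = _ := by rw [Finset.prod_mul_distrib]; simp
    have h6 : ht w ≤ K * ht v := by
      rw [← e2, hK, ht, ht]
      calc ∏ j, (w' j).y ≤ ∏ j, (2 * T * (v j).y) :=
            Finset.prod_le_prod (fun j _ => (w' j).pos.le) fun j _ => hv1 j
        _ = _ := by rw [Finset.prod_mul_distrib]; simp
    refine h4.trans ?_
    refine mul_le_mul_of_nonneg_right ?_ (hH i)
    rw [mul_assoc Mg]
    exact mul_le_mul_of_nonneg_left (rpow_le_of_comparable (ht_pos v) hhw hK1 h5 h6) hMg0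
  set S : ℝ := Mg * K ^ |s| * ht w ^ s * H i with hS
  have hS0 : 0 ≤ S := by
    have := hH i
    positivity
  -- mean value inequality between two translates
  have key : ∀ u u' : J → ℂ, (∀ j, ‖u j‖ ≤ δ) → (∀ j, ‖u' j‖ ≤ δ) → ∀ q, 0 ≤ q → q ≤ Q →
      (∀ j, ‖u j - u' j‖ ≤ q * m) → ‖f i (tr u w', η) - f i (tr u' w', η)‖ ≤ C1 * q * S := by
    intro u u' _ _ q hq0 hq hqu
    rw [hfg i η hη, hfg i η hη]
    have e : tr u w' = tr (u - u') (tr u' w') := by rw [tr_tr, sub_add_cancel]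
    have h1 := norm_RK_sub_le hκ (w := tr u' w') (u := u - u') hq0 hq (fun j => ?_)
      (hmeas i η hη) (S := S) ?_
    · rw [← e] at h1
      exact h1
    · rw [tr_y, Pi.sub_apply]
      exact (hqu j).trans (mul_le_mul_of_nonneg_left (hmy j) hq0)
    · intro v hv
      rw [← e] at hv
      rcases hv with hv | hv
      · exact hgb u' v hv
      · exact hgb u v hv
  obtain ⟨P, hPm, hP0, hPδ, hPint⟩ := hcusp i η hη
  have hPt := volume_lt_top_of_norm_le hPδ
  have hcont : ContinuousOn (fun u => f i (tr u w', η)) P := by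
    have hlip : LipschitzOnWith (Real.toNNReal (C1 * S / m)) (fun u => f i (tr u w', η)) P := by
      refine LipschitzOnWith.of_dist_le_mul fun u hu u' hu' => ?_
      rw [Real.coe_toNNReal _ (by positivity), dist_eq_norm]
      have hd : ∀ j, ‖u j - u' j‖ ≤ dist u u' := fun j => by
        rw [← dist_eq_norm]
        exact dist_le_pi_dist u u' j
      have hdQ : dist u u' / m ≤ Q := by
        rw [div_le_iff₀ hmpos]
        have h1 : dist u u' ≤ 2 * δ := by
          refine (dist_pi_le_iff (by positivity)).mpr fun j => ?_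
          rw [dist_eq_norm]
          refine (norm_sub_le _ _).trans ?_
          linarith [hPδ u hu j, hPδ u' hu' j]
        have h2 : 2 * δ ≤ Q * (c / B) := by
          rw [hQ]
          field_simp
          exact le_rfl
        exact h1.trans (h2.trans (mul_le_mul_of_nonneg_left hcm hQ0))
      have h3 := key u u' (hPδ u hu) (hPδ u' hu') (dist u u' / m) (by positivity) hdQ
        (fun j => by rw [div_mul_cancel₀ _ hmpos.ne']; exact hd j)
      refine h3.trans (le_of_eq ?_)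
      ring
    exact hlip.continuousOn
  have hfin : ‖f i (w', η)‖ ≤ C1 * (δ / m) * S := by
    refine norm_le_of_mean_zero hPm hP0 hPt hcont (hPint w') ?_
    intro u hu
    have h0 : tr (0 : J → ℂ) w' = w' := by
      funext j
      ext
      · simp
      · rfl
    have h1 := key u 0 (hPδ u hu) (fun j => by simpa using hδ) (δ / m) (by positivity) ?_ ?_
    · rwa [h0] at h1
    · rw [div_le_iff₀ hmpos]
      have h2 : δ ≤ Q * (c / B) := by
        rw [hQ]
        field_simp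
        linarith
      exact h2.trans (mul_le_mul_of_nonneg_left hcm hQ0)
    · intro j
      rw [div_mul_cancel₀ _ hmpos.ne', Pi.zero_apply, sub_zero]
      exact hPδ u hu j
  rw [← e1]
  refine hfin.trans (le_of_eq ?_)
  have h7 : ht w ^ (s - 1 / r) = ht w ^ s / ht w ^ (1 / r) := Real.rpow_sub hhw _ _
  rw [h7, hS, hm]
  have h8 : ht w ^ (1 / r) ≠ 0 := (Real.rpow_pos_of_pos hhw _).ne'
  field_simp

/-- Monotonicity in the exponent is not needed; iteration of the step. -/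
theorem Gr.iterate {κ : (J → ℝ) → ℂ} {T L Mκ : ℝ} (hκ : Ker κ T L Mκ) {Y0 : Set Y} {H : ι → ℝ}
    {s : ℝ} {F : ℕ → ι → (J → H3) × Y → ℂ} (hJ : 0 < Fintype.card J) (hH : ∀ i, 0 ≤ H i) (k : ℕ)
    (hbase : Gr Y0 H s (F 0))
    (hmeas : ∀ n < k, ∀ i, ∀ η ∈ Y0, Measurable fun v => F n i (v, η))
    (hsucc : ∀ n < k, ∀ i, ∀ η ∈ Y0, ∀ w, F (n + 1) i (w, η) = RK κ (fun v => F n i (v, η)) w)
    {δ : ℝ} (hcusp : ∀ n < k, ∀ i, Cusp Y0 δ (F (n + 1) i))
    {B : ℝ}
    (hbal : ∀ n < k, ∀ i, ∀ η ∈ Y0, ∀ w, ∃ w', F (n + 1) i (w', η) = F (n + 1) i (w, η) ∧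
      ht w' = ht w ∧ ∀ j, ht w ^ (1 / (Fintype.card J : ℝ)) ≤ B * (w' j).y) :
    Gr Y0 H (s - k / Fintype.card J) (F k) := by
  have : ∀ n ≤ k, Gr Y0 H (s - n / Fintype.card J) (F n) := by
    intro n
    induction n with
    | zero =>
      intro _
      simpa using hbase
    | succ n ih =>
      intro hn
      have h1 := Gr.step hκ hJ hH (ih (Nat.le_of_succ_le hn)) (hmeas n hn) (hsucc n hn)
        (hcusp n hn) (hbal n hn)
      have e : s - ((n + 1 : ℕ) : ℝ) / Fintype.card J =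
          s - n / Fintype.card J - 1 / Fintype.card J := by
        push_cast
        ring
      rw [e]
      exact h1
  exact this k le_rfl

/-- **Bounded kernel.** `F n x x'` is the automorphic kernel of `R(κ)^n C_1`. -/
theorem bounded_kernel {κ : (J → ℝ) → ℂ} {T L Mκ : ℝ} (hκ : Ker κ T L Mκ) (Y0 : Set Y)
    (hJ : 0 < Fintype.card J)
    (rel : (J → H3) × Y → (J → H3) × Y → Prop)
    (F : ℕ → (J → H3) × Y → (J → H3) × Y → ℂ) (k : ℕ)
    -- `F (n+1) (·, x') = R(κ) F n (·, x')`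
    (hmeas : ∀ n < k, ∀ x', ∀ η ∈ Y0, Measurable fun v => F n (v, η) x')
    (hsucc : ∀ n < k, ∀ x', ∀ η ∈ Y0, ∀ w,
      F (n + 1) (w, η) x' = RK κ (fun v => F n (v, η) x') w)
    -- invariance under the arithmetic group and symmetry
    (hinv : ∀ n, 0 < n → n ≤ k → ∀ x y x', rel x y → F n x x' = F n y x')
    (hsymm : ∀ x x', ‖F k x x'‖ = ‖F k x' x‖)
    -- (I1) cuspidality
    {δ : ℝ} (hcusp : ∀ n < k, ∀ x', Cusp Y0 δ fun x => F (n + 1) x x')
    -- (I2) reduction theory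
    {B c : ℝ} (hc : 0 < c)
    (hbal : ∀ η ∈ Y0, ∀ w, ∃ w', rel (w, η) (w', η) ∧
      ht w' = ht w ∧ ∀ j, ht w ^ (1 / (Fintype.card J : ℝ)) ≤ B * (w' j).y)
    (hred : ∀ x, ∃ w, ∃ η ∈ Y0, rel x (w, η) ∧ ∀ j, c ≤ (w j).y)
    -- (I3) crude bound
    {A : ℝ} (hA : 0 ≤ A)
    (hbase : ∀ c' > 0, ∃ M, ∀ η ∈ Y0, ∀ η' ∈ Y0, ∀ w w' : J → H3, (∀ j, c' ≤ (w j).y) →
      (∀ j, c' ≤ (w' j).y) → ‖F 0 (w, η) (w', η')‖ ≤ M * (ht w * ht w') ^ A)
    (hk : 2 * A * Fintype.card J ≤ k) (hk0 : 0 < k) :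
    ∃ M, ∀ x x', ‖F k x x'‖ ≤ M := by
  classical
  have hr0 : (0 : ℝ) < Fintype.card J := by exact_mod_cast hJ
  -- the family
  let ι := {p : (J → H3) × Y // p.2 ∈ Y0 ∧ ∀ j, c ≤ (p.1 j).y}
  let H : ι → ℝ := fun i => ht i.1.1 ^ A
  have hH : ∀ i, 0 ≤ H i := fun i => Real.rpow_nonneg (ht_pos _).le _
  let G : ℕ → ι → (J → H3) × Y → ℂ := fun n i x => F n x i.1
  have hG0 : Gr Y0 H A (G 0) := by
    intro c' hc'
    obtain ⟨M, hM⟩ := hbase (min c c') (lt_min hc hc')
    refine ⟨|M|, abs_nonneg M, ?_⟩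
    intro i η hη w hw
    have h1 := hM η hη i.1.2 i.2.1 w i.1.1 (fun j => (min_le_right _ _).trans (hw j))
      (fun j => (min_le_left _ _).trans (i.2.2 j))
    refine h1.trans ?_
    rw [Real.mul_rpow (ht_pos w).le (ht_pos _).le, ← mul_assoc]
    refine mul_le_mul_of_nonneg_right ?_ (hH i)
    exact mul_le_mul_of_nonneg_right (le_abs_self M) (Real.rpow_nonneg (ht_pos w).le _)
  have hGk := Gr.iterate (F := G) (B := B) (δ := δ) hκ hJ hH k hG0
    (fun n hn i η hη => hmeas n hn i.1 η hη) (fun n hn i η hη w => hsucc n hn i.1 η hη w)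
    (fun n hn i => hcusp n hn i.1) (fun n hn i η hη w => by
      obtain ⟨w', h1, h2, h3⟩ := hbal η hη w
      exact ⟨w', (hinv (n + 1) (Nat.succ_pos n) hn _ _ _ h1).symm, h2, h3⟩)
  obtain ⟨M, hM0, hM⟩ := hGk c hc
  -- bound on the Siegel set
  set C := c ^ Fintype.card J with hC
  have hC0 : 0 < C := by positivity
  have hexp : A - k / Fintype.card J ≤ -A := by
    have : 2 * A ≤ k / Fintype.card J := by
      rw [le_div_iff₀ hr0]
      exact hk
    linarith
  have hone : ∀ p p' : ι, ht p'.1.1 ≤ ht p.1.1 → ‖F k p.1 p'.1‖ ≤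
      M * C ^ (A - k / Fintype.card J + A) := by
    intro p p' hpp
    have h1 := hM p' p.1.2 p.2.1 p.1.1 p.2.2
    refine h1.trans ?_
    rw [mul_assoc]
    refine mul_le_mul_of_nonneg_left ?_ hM0
    calc ht p.1.1 ^ (A - k / Fintype.card J) * H p'
        ≤ ht p.1.1 ^ (A - k / Fintype.card J) * ht p.1.1 ^ A := by
          refine mul_le_mul_of_nonneg_left ?_ (Real.rpow_nonneg (ht_pos _).le _)
          exact Real.rpow_le_rpow (ht_pos _).le hpp hA
      _ = ht p.1.1 ^ (A - k / Fintype.card J + A) := (Real.rpow_add (ht_pos _) _ _).symm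
      _ ≤ C ^ (A - k / Fintype.card J + A) := by
          refine Real.rpow_le_rpow_of_nonpos hC0 (pow_le_ht hc.le p.2.2) (by linarith)
  have hall : ∀ p p' : ι, ‖F k p.1 p'.1‖ ≤ M * C ^ (A - k / Fintype.card J + A) := by
    intro p p'
    rcases le_total (ht p'.1.1) (ht p.1.1) with h | h
    · exact hone p p' h
    · rw [hsymm]
      exact hone p' p h
  refine ⟨M * C ^ (A - k / Fintype.card J + A), ?_⟩
  intro x x'
  obtain ⟨w, η, hη, hrel, hw⟩ := hred x
  obtain ⟨w', η', hη', hrel', hw'⟩ := hred x'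
  rw [hinv k hk0 le_rfl x (w, η) x' hrel, hsymm, hinv k hk0 le_rfl x' (w', η') (w, η) hrel']
  exact hall ⟨(w', η'), hη', hw'⟩ ⟨(w, η), hη, hw⟩

end Fermat.Agent.H95S
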