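import Fermat.Agent.H59Def
import Fermat.Agent.H95S2
import Fermat.Agent.H58RLines

/-!
# S47, block (C): geometric half of the bounded kernel glue (helper35)

For `m : Model K J` and a finite set `Y0 ⊆ XF m.L.fam`:

* `exists_ideal_fix`: a principal congruence subgroup of `GL₂(O_K)` fixes every point of `Y0`;
* `hbal`: balancing by units, in the shape of `H95S.bounded_kernel`.
-/

set_option autoImplicit false
set_option linter.unusedSectionVars false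
set_option linter.unusedVariables false

noncomputable section

open IsDedekindDomain HeightOneSpectrum WithZero NumberField Matrix MeasureTheory
open scoped MatrixGroups

namespace Fermat.Agent.H35BK

open Fermat.Agent.H59D Fermat.Agent.H59XF

/-! ## Conjugation of congruence subgroups -/

section Local

variable {R : Type*} [CommRing R] [IsDedekindDomain R] {K : Type*} [Field K] [Algebra R K]
  [IsFractionRing R K]

theorem exists_exp_le (w : HeightOneSpectrum R) (g : Matrix (Fin 2) (Fin 2) K) :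
    ∃ c : ℕ, ∀ i j, w.valuation K (g i j) ≤ exp (c : ℤ) := by
  have h1 : ∀ x : K, ∃ c : ℕ, w.valuation K x ≤ exp (c : ℤ) := by
    intro x
    by_cases hx : w.valuation K x = 0
    · exact ⟨0, by rw [hx]; exact zero_le⟩
    · refine ⟨(WithZero.log (w.valuation K x)).toNat, ?_⟩
      rw [← exp_log hx, exp_le_exp]
      simp
  choose c hc using h1
  refine ⟨∑ i : Fin 2, ∑ j : Fin 2, c (g i j), fun i j => (hc _).trans ?_⟩
  rw [exp_le_exp]
  have h2 : c (g i j) ≤ ∑ i : Fin 2, ∑ j : Fin 2, c (g i j) :=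
    (Finset.single_le_sum (f := fun j => c (g i j)) (fun _ _ => Nat.zero_le _)
      (Finset.mem_univ j)).trans
    (Finset.single_le_sum (f := fun i => ∑ j : Fin 2, c (g i j)) (fun _ _ => Nat.zero_le _)
      (Finset.mem_univ i))
  exact_mod_cast h2

theorem exists_conj_mem (w : HeightOneSpectrum R) (g : GL (Fin 2) K) (n : ℕ) :
    ∃ N : ℕ, ∀ h : GL (Fin 2) K, h ∈ GLcong w N → g⁻¹ * h * g ∈ GLcong w n := by
  obtain ⟨a, ha⟩ := exists_exp_le w ((g⁻¹ : GL (Fin 2) K) : Matrix (Fin 2) (Fin 2) K)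
  obtain ⟨b, hb⟩ := exists_exp_le w (g : Matrix (Fin 2) (Fin 2) K)
  refine ⟨n + a + b, fun h hh => ?_⟩
  have key : ∀ i j, w.valuation K (((g⁻¹ * h * g : GL (Fin 2) K) : Matrix (Fin 2) (Fin 2) K) i j -
      (1 : Matrix (Fin 2) (Fin 2) K) i j) ≤ exp (-(n : ℤ)) := by
    intro i j
    have h1 : ((g⁻¹ * h * g : GL (Fin 2) K) : Matrix (Fin 2) (Fin 2) K) - 1 =
        ((g⁻¹ : GL (Fin 2) K) : Matrix (Fin 2) (Fin 2) K) *
          (((h : Matrix (Fin 2) (Fin 2) K) - 1) * (g : Matrix (Fin 2) (Fin 2) K)) := by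
      rw [sub_mul, one_mul, mul_sub, Units.val_mul, Units.val_mul, ← Units.val_mul g⁻¹ g,
        inv_mul_cancel, Units.val_one, mul_assoc]
    have h2 := congrFun (congrFun h1 i) j
    rw [Matrix.sub_apply, Matrix.mul_apply] at h2
    rw [h2]
    refine Valuation.map_sum_le _ fun k _ => ?_
    rw [map_mul]
    have h3 : w.valuation K ((((h : Matrix (Fin 2) (Fin 2) K) - 1) *
        (g : Matrix (Fin 2) (Fin 2) K)) k j) ≤ exp (-((n + a + b : ℕ) : ℤ)) * exp (b : ℤ) := by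
      rw [Matrix.mul_apply]
      refine Valuation.map_sum_le _ fun l _ => ?_
      rw [map_mul, Matrix.sub_apply]
      exact mul_le_mul' (hh.2 k l) (hb l j)
    refine (mul_le_mul' (ha i k) h3).trans ?_
    rw [← exp_add, ← exp_add, exp_le_exp]
    push_cast
    omega
  have h1n : exp (-(n : ℤ)) ≤ (1 : ℤᵐ⁰) := by
    rw [← exp_zero, exp_le_exp]
    omega
  refine ⟨⟨fun i j => ?_, ?_⟩, key⟩
  · have h2 : (g⁻¹ * h * g : GL (Fin 2) K) i j =
        (((g⁻¹ * h * g : GL (Fin 2) K) : Matrix (Fin 2) (Fin 2) K) i j -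
          (1 : Matrix (Fin 2) (Fin 2) K) i j) + (1 : Matrix (Fin 2) (Fin 2) K) i j := by ring
    rw [h2]
    refine Valuation.map_add_le _ ((key i j).trans h1n) ?_
    rw [Matrix.one_apply]
    split_ifs <;> simp
  · rw [Units.val_mul, Units.val_mul, Matrix.det_mul, Matrix.det_mul, mul_right_comm,
      ← Matrix.det_mul, ← Units.val_mul, inv_mul_cancel, Units.val_one, Matrix.det_one, one_mul]
    exact hh.1.2

end Local

/-! ## Global points -/

variable {K : Type*} [Field K] [NumberField K] {J : Type*} [Fintype J] (m : Model K J)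

include m in
theorem isTotallyComplex : IsTotallyComplex K := ⟨fun w => by
  obtain ⟨j, hj⟩ := m.e_bij.2 w
  rw [← hj]
  exact InfinitePlace.isComplex_mk_iff.2 (m.e_cx j)⟩

omit [Fintype J] in
theorem glInt_mem_GLw (h : GL (Fin 2) (𝓞 K)) (w : HeightOneSpectrum (𝓞 K)) :
    GeneralLinearGroup.map (algebraMap (𝓞 K) K) h ∈ GLw (K := K) w := by
  refine ⟨fun i j => ?_, ?_⟩
  · exact w.valuation_le_one _
  · have h1 : ((GeneralLinearGroup.map (algebraMap (𝓞 K) K) h : GL (Fin 2) K) :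
        Matrix (Fin 2) (Fin 2) K).det = algebraMap (𝓞 K) K (h : Matrix (Fin 2) (Fin 2) (𝓞 K)).det := by
      rw [RingHom.map_det]
      rfl
    rw [h1]
    have h2 : IsUnit (h : Matrix (Fin 2) (Fin 2) (𝓞 K)).det := h.det.isUnit
    obtain ⟨u, hu⟩ := h2
    rw [← hu]
    refine le_antisymm (w.valuation_le_one _) ?_
    have h3 : w.valuation K (algebraMap (𝓞 K) K u) * w.valuation K (algebraMap (𝓞 K) K (u⁻¹ : (𝓞 K)ˣ)) = 1 := by
      rw [← map_mul, ← map_mul, Units.mul_inv, map_one, map_one]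
    rw [← h3]
    exact mul_le_of_le_one_right' (w.valuation_le_one _)

theorem exists_fix (L : Level (𝓞 K) K) (η : XF L.fam) :
    ∃ (T : Finset (HeightOneSpectrum (𝓞 K))) (N : ℕ), ∀ h : GL (Fin 2) K,
      (∀ w ∈ T, h ∈ GLcong w N) → (∀ w : HeightOneSpectrum (𝓞 K), h ∈ GLw w) → (ProjGenLinGroup.mk h : PGL(2, K)) • η = η := by
  classical
  have hg : ∀ w, ∃ g : GL (Fin 2) K,
      ((ProjGenLinGroup.mk g : PGL(2, K)) : PGL(2, K) ⧸ L.fam.U w) = η w := by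
    intro w
    obtain ⟨x, hx⟩ := QuotientGroup.mk_surjective (η w)
    induction x using ProjGenLinGroup.induction_on with
    | mk g => exact ⟨g, hx⟩
  choose g hg using hg
  choose n hn using L.isOpen
  choose N hN using fun w => exists_conj_mem w (g w) (n w)
  let T : Finset (HeightOneSpectrum (𝓞 K)) := (η.fin.union L.fin).toFinset
  refine ⟨T, ∑ w ∈ T, N w, fun h hT hw => ?_⟩
  apply XF.ext
  intro w
  rw [XF.smul_apply, ← hg w]
  by_cases hwT : w ∈ T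
  · show (((ProjGenLinGroup.mk h * ProjGenLinGroup.mk (g w) : PGL(2, K))) :
      PGL(2, K) ⧸ L.fam.U w) = _
    rw [eq_comm, QuotientGroup.eq, ← mul_assoc]
    apply hn w
    refine ⟨(g w)⁻¹ * h * g w, hN w h ?_, ?_⟩
    · exact GLcong_antitone w (Finset.single_le_sum (f := N) (fun _ _ => Nat.zero_le _) hwT)
        (hT w hwT)
    · rw [map_mul, map_mul, map_inv]
  · have h1 : η w = ((1 : PGL(2, K)) : PGL(2, K) ⧸ L.fam.U w) ∧ L.U w = U0 w := by
      simpa [T, not_or] using hwT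
    rw [hg w, h1.1]
    show (((ProjGenLinGroup.mk h * 1 : PGL(2, K))) : PGL(2, K) ⧸ L.fam.U w) = _
    rw [eq_comm, QuotientGroup.eq, inv_one, one_mul, mul_one, Level.fam_U, h1.2]
    exact ⟨h, hw w, rfl⟩

theorem exists_fix_finite (L : Level (𝓞 K) K) {Y0 : Set (XF L.fam)} (hY0 : Y0.Finite) :
    ∃ (T : Finset (HeightOneSpectrum (𝓞 K))) (N : ℕ), ∀ h : GL (Fin 2) K,
      (∀ w ∈ T, h ∈ GLcong w N) → (∀ w : HeightOneSpectrum (𝓞 K), h ∈ GLw w) → ∀ η ∈ Y0,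
        (ProjGenLinGroup.mk h : PGL(2, K)) • η = η := by
  classical
  choose T N hTN using exists_fix L
  refine ⟨hY0.toFinset.biUnion T, ∑ η ∈ hY0.toFinset, N η, fun h hT hw η hη => ?_⟩
  have hη' : η ∈ hY0.toFinset := by simpa using hη
  refine hTN η h (fun w hwT => ?_) hw
  exact GLcong_antitone w (Finset.single_le_sum (f := N) (fun _ _ => Nat.zero_le _) hη')
    (hT w (Finset.mem_biUnion.2 ⟨η, hη', hwT⟩))

/-- A principal congruence subgroup of `GL₂(O_K)` fixes every point of a finite set. -/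
theorem exists_ideal_fix (L : Level (𝓞 K) K) {Y0 : Set (XF L.fam)} (hY0 : Y0.Finite) :
    ∃ n : Ideal (𝓞 K), n ≠ ⊥ ∧ ∀ h : GL (Fin 2) (𝓞 K),
      (∀ i j, (h : Matrix (Fin 2) (Fin 2) (𝓞 K)) i j -
        (1 : Matrix (Fin 2) (Fin 2) (𝓞 K)) i j ∈ n) → ∀ η ∈ Y0,
      (ProjGenLinGroup.mk (GeneralLinearGroup.map (algebraMap (𝓞 K) K) h) : PGL(2, K)) • η = η := by
  classical
  obtain ⟨T, N, H⟩ := exists_fix_finite L hY0
  refine ⟨∏ w ∈ T, w.asIdeal ^ N, ?_, fun h hh => H _ ?_ ?_⟩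
  · intro h0
    rw [← Ideal.zero_eq_bot, Finset.prod_eq_zero_iff] at h0
    obtain ⟨w, -, hw⟩ := h0
    exact w.ne_bot (eq_zero_of_pow_eq_zero hw)
  · intro w hw
    refine ⟨glInt_mem_GLw h w, fun i j => ?_⟩
    have h1 : (h : Matrix (Fin 2) (Fin 2) (𝓞 K)) i j - (1 : Matrix (Fin 2) (Fin 2) (𝓞 K)) i j ∈
        w.asIdeal ^ N := (Ideal.prod_le_inf.trans (Finset.inf_le hw)) (hh i j)
    have h2 := (w.intValuation_le_pow_iff_mem _ N).2 h1
    have h2' : w.valuation K ((algebraMap (𝓞 K) K)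
        ((h : Matrix (Fin 2) (Fin 2) (𝓞 K)) i j - (1 : Matrix (Fin 2) (Fin 2) (𝓞 K)) i j)) ≤
          exp (-(N : ℤ)) := (w.valuation_of_algebraMap _).le.trans h2
    have h3 : (algebraMap (𝓞 K) K) ((1 : Matrix (Fin 2) (Fin 2) (𝓞 K)) i j) =
        (1 : Matrix (Fin 2) (Fin 2) K) i j := by
      rw [Matrix.one_apply, Matrix.one_apply]
      split_ifs <;> simp
    have h4 : (algebraMap (𝓞 K) K) ((h : Matrix (Fin 2) (Fin 2) (𝓞 K)) i j -
        (1 : Matrix (Fin 2) (Fin 2) (𝓞 K)) i j) =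
        ((GeneralLinearGroup.map (algebraMap (𝓞 K) K) h : GL (Fin 2) K) :
          Matrix (Fin 2) (Fin 2) K) i j - (1 : Matrix (Fin 2) (Fin 2) K) i j := by
      rw [map_sub (algebraMap (𝓞 K) K), h3]
      rfl
    exact (congrArg (w.valuation K) h4).symm.le.trans h2'
  · exact glInt_mem_GLw h

/-- The matrix `diag(u, 1)` over the integers. -/
def dU (u : (𝓞 K)ˣ) : GL (Fin 2) (𝓞 K) where
  val := !![(u : 𝓞 K), 0; 0, 1]
  inv := !![((u⁻¹ : (𝓞 K)ˣ) : 𝓞 K), 0; 0, 1]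
  val_inv := by
    ext i j
    fin_cases i <;> fin_cases j <;> simp [Matrix.mul_apply, Fin.sum_univ_two]
  inv_val := by
    ext i j
    fin_cases i <;> fin_cases j <;> simp [Matrix.mul_apply, Fin.sum_univ_two]

/-- The matrix `diag(u, 1)` in `PGL₂(K)`. -/
def dP (u : (𝓞 K)ˣ) : PGL(2, K) :=
  ProjGenLinGroup.mk (GeneralLinearGroup.map (algebraMap (𝓞 K) K) (dU u))

theorem dP_actInf (u : (𝓞 K)ˣ) (w : J → H3) (j : J) :
    m.actInf (dP u) w j = ⟨m.e j (u : K) * (w j).z, ‖m.e j (u : K)‖ * (w j).y,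
      mul_pos (norm_pos_iff.2 (by simp)) (w j).pos⟩ := by
  have h0 : m.e j (u : K) ≠ 0 := by simp
  rw [← H3.dMat_smul (m.e j (u : K)) h0 (w j)]
  rw [Model.actInf_apply, dP, ProjGenLinGroup.map_mk, mk_smul]
  congr 1
  ext i k
  fin_cases i <;> fin_cases k <;>
    simp [dU, H3.dMat, GeneralLinearGroup.mkOfDetNeZero, GeneralLinearGroup.map]

theorem actInf_dP_y (u : (𝓞 K)ˣ) (w : J → H3) (j : J) :
    (m.actInf (dP u) w j).y = ‖m.e j (u : K)‖ * (w j).y := by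
  rw [dP_actInf]

/-- **Balancing by units** in the shape of `H95S.bounded_kernel`. -/
theorem hbal_aux {Y0 : Set (XF m.L.fam)} (hY0 : Y0.Finite) [Nonempty J] :
    ∃ B : ℝ, 1 ≤ B ∧ ∀ η ∈ Y0, ∀ w : J → H3, ∃ g : PGL(2, K), g • η = η ∧
      H95S.ht (m.actInf g w) = H95S.ht w ∧
      (∀ i j, (m.actInf g w i).y ≤ B * (m.actInf g w j).y) ∧
      ∀ j, H95S.ht w ^ (1 / (Fintype.card J : ℝ)) ≤ B * (m.actInf g w j).y := by
  have := isTotallyComplex m
  obtain ⟨n, hn, hfix⟩ := exists_ideal_fix m.L hY0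
  obtain ⟨C, hC1, hC⟩ := H58R.exists_unit_balanced' K m.e m.e_bij n hn
  refine ⟨C, hC1, fun η hη w => ?_⟩
  obtain ⟨u, hu, hb⟩ := hC (fun j => (w j).y) fun j => (w j).pos
  have hu2 : (((u ^ 2 : (𝓞 K)ˣ) : 𝓞 K) - 1) ∈ n := by
    have h1 : ((u ^ 2 : (𝓞 K)ˣ) : 𝓞 K) - 1 = ((u : 𝓞 K) + 1) * ((u : 𝓞 K) - 1) := by
      push_cast
      ring
    rw [h1]
    exact n.mul_mem_left _ hu
  have hy : ∀ j, (m.actInf (dP (u ^ 2)) w j).y = ‖m.e j (u : K)‖ ^ 2 * (w j).y := by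
    intro j
    rw [actInf_dP_y]
    congr 1
    simp
  have hht : H95S.ht (m.actInf (dP (u ^ 2)) w) = H95S.ht w := by
    unfold H95S.ht
    simp_rw [hy]
    rw [Finset.prod_mul_distrib, H58R.prod_sq_unit' K m.e m.e_bij u, one_mul]
  have hbb : ∀ i j, (m.actInf (dP (u ^ 2)) w i).y ≤ C * (m.actInf (dP (u ^ 2)) w j).y := by
    intro i j
    rw [hy, hy]
    exact hb i j
  refine ⟨dP (u ^ 2), hfix (dU (u ^ 2)) ?_ η hη, hht, hbb, fun j => ?_⟩
  · intro i j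
    fin_cases i <;> fin_cases j <;> simp [dU]
    simpa using hu2
  · have h1 := (H58R.balanced_geom (fun j => (m.actInf (dP (u ^ 2)) w j).pos) hbb j).2
    have h2 : H95S.ht w ≤ (C * (m.actInf (dP (u ^ 2)) w j).y) ^ Fintype.card J := by
      rw [← hht, mul_pow]
      exact h1
    have h3 : (0 : ℝ) ≤ C * (m.actInf (dP (u ^ 2)) w j).y :=
      mul_nonneg (by linarith) (H3.pos _).le
    have h4 := Real.rpow_le_rpow (H95S.ht_pos w).le h2
      (by positivity : (0 : ℝ) ≤ 1 / (Fintype.card J : ℝ))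
    refine h4.trans (le_of_eq ?_)
    rw [one_div, Real.pow_rpow_inv_natCast h3 Fintype.card_ne_zero]

/-- **Balancing by units**, verbatim hypothesis `hbal` of `H95S.bounded_kernel`. -/
theorem hbal {Y0 : Set (XF m.L.fam)} (hY0 : Y0.Finite) [Nonempty J] :
    ∃ B : ℝ, 1 ≤ B ∧ ∀ η ∈ Y0, ∀ w : J → H3, ∃ w' : J → H3,
      (fun x y : m.X => ∃ g : PGL(2, K), g • x = y) (w, η) (w', η) ∧
      H95S.ht w' = H95S.ht w ∧
      ∀ j, H95S.ht w ^ (1 / (Fintype.card J : ℝ)) ≤ B * (w' j).y := by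
  obtain ⟨B, hB, H⟩ := hbal_aux m hY0
  refine ⟨B, hB, fun η hη w => ?_⟩
  obtain ⟨g, h1, h2, -, h4⟩ := H η hη w
  exact ⟨m.actInf g w, ⟨g, Prod.ext rfl h1⟩, h2, h4⟩

/-- The Siegel set. -/
def siegel {J : Type*} (c C R : ℝ) : Set (J → H3) :=
  {x | (∀ j, c ≤ (x j).y) ∧ (∀ j k, (x j).y ≤ C * (x k).y) ∧ ∀ j, ‖(x j).z‖ ≤ R}

/-- The matrix `(1 b; 0 1)` over the integers. -/
def nU (b : 𝓞 K) : GL (Fin 2) (𝓞 K) where
  val := !![1, b; 0, 1]
  inv := !![1, -b; 0, 1]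
  val_inv := by
    ext i j
    fin_cases i <;> fin_cases j <;> simp [Matrix.mul_apply, Fin.sum_univ_two]
  inv_val := by
    ext i j
    fin_cases i <;> fin_cases j <;> simp [Matrix.mul_apply, Fin.sum_univ_two]

/-- The matrix `(1 b; 0 1)` in `PGL₂(K)`. -/
def nP (b : 𝓞 K) : PGL(2, K) :=
  ProjGenLinGroup.mk (GeneralLinearGroup.map (algebraMap (𝓞 K) K) (nU b))

theorem nP_actInf (b : 𝓞 K) (w : J → H3) : m.actInf (nP b) w =
    H95S.tr (fun j => m.e j (b : K)) w := by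
  funext j
  show _ = (⟨(w j).z + m.e j (b : K), (w j).y, (w j).pos⟩ : H3)
  rw [← H3.nMat_smul (m.e j (b : K)) (w j)]
  rw [Model.actInf_apply, nP, ProjGenLinGroup.map_mk, mk_smul]
  congr 1
  ext i k
  fin_cases i <;> fin_cases k <;>
    simp [nU, H3.nMat, GeneralLinearGroup.mkOfDetNeZero, GeneralLinearGroup.map]

/-- A lattice of translations fixes a finite set of points. -/
theorem exists_stab (L : Level (𝓞 K) K) {Y0 : Set (XF L.fam)} (hY0 : Y0.Finite) :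
    ∃ n : Ideal (𝓞 K), n ≠ ⊥ ∧ ∀ b ∈ n, ∀ η ∈ Y0, nP b • η = η := by
  obtain ⟨n, hn, hfix⟩ := exists_ideal_fix L hY0
  refine ⟨n, hn, fun b hb => hfix (nU b) ?_⟩
  intro i j
  fin_cases i <;> fin_cases j <;> simp [nU, hb]

/-- **Balancing** by units and translations. -/
theorem bal {Y0 : Set (XF m.L.fam)} (hY0 : Y0.Finite) [Nonempty J] :
    ∃ B R : ℝ, 1 ≤ B ∧ 0 ≤ R ∧ ∀ η ∈ Y0, ∀ w : J → H3, ∃ g : PGL(2, K), g • η = η ∧
      H95S.ht (m.actInf g w) = H95S.ht w ∧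
      (∀ i j, (m.actInf g w i).y ≤ B * (m.actInf g w j).y) ∧
      (∀ j, H95S.ht w ^ (1 / (Fintype.card J : ℝ)) ≤ B * (m.actInf g w j).y) ∧
      ∀ j, ‖(m.actInf g w j).z‖ ≤ R := by
  have := isTotallyComplex m
  obtain ⟨B, hB, H⟩ := hbal_aux m hY0
  obtain ⟨n, hn, hfix⟩ := exists_stab m.L hY0
  have hn0 : (n : FractionalIdeal (nonZeroDivisors (𝓞 K)) K) ≠ 0 := by
    rw [Ne, FractionalIdeal.coeIdeal_eq_zero]
    exact hn
  obtain ⟨R, hR, HR⟩ := H58R.exists_translate K m.e m.e_bij (Units.mk0 _ hn0)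
  refine ⟨B, R, hB, hR, fun η hη w => ?_⟩
  obtain ⟨g, h1, h2, h3, h4⟩ := H η hη w
  obtain ⟨a, ha, haR⟩ := HR fun j => (m.actInf g w j).z
  rw [Units.val_mk0, FractionalIdeal.mem_coeIdeal] at ha
  obtain ⟨b, hb, rfl⟩ := ha
  have e1 : m.actInf (nP (-b) * g) w = H95S.tr (fun j => m.e j ((-b : 𝓞 K) : K))
      (m.actInf g w) := by
    rw [← nP_actInf]
    funext j
    rw [Model.actInf_apply, map_mul, mul_smul]
    rfl
  refine ⟨nP (-b) * g, ?_, ?_, ?_, ?_, ?_⟩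
  · rw [mul_smul, h1, hfix (-b) (n.neg_mem hb) η hη]
  · rw [e1, H95S.ht_tr, h2]
  · rw [e1]; exact h3
  · rw [e1]; exact h4
  · intro j
    rw [e1, H95S.tr_z]
    refine le_trans (le_of_eq ?_) (haR j)
    congr 1
    simp [sub_eq_add_neg]

/-- The geometric input of `H95S.bounded_kernel` from the covering theorem. -/
theorem geom [Nonempty J]
    (hcov : ∃ Y0 : Set (XF m.L.fam), Y0.Finite ∧ ∃ c C R : ℝ, 0 < c ∧ 0 < C ∧ 0 < R ∧
      ∀ x : m.X, ∃ g : PGL(2, K), (g • x).1 ∈ siegel c C R ∧ (g • x).2 ∈ Y0) :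
    ∃ Y0 : Set (XF m.L.fam), Y0.Finite ∧ ∃ B c : ℝ, 1 ≤ B ∧ 0 < c ∧
      (∀ η ∈ Y0, ∀ w : J → H3, ∃ w' : J → H3,
        (fun x y : m.X => ∃ g : PGL(2, K), g • x = y) (w, η) (w', η) ∧
        H95S.ht w' = H95S.ht w ∧
        ∀ j, H95S.ht w ^ (1 / (Fintype.card J : ℝ)) ≤ B * (w' j).y) ∧
      (∀ x : m.X, ∃ w : J → H3, ∃ η ∈ Y0,
        (fun x y : m.X => ∃ g : PGL(2, K), g • x = y) x (w, η) ∧ ∀ j, c ≤ (w j).y) := by
  obtain ⟨Y0, hY0, c, C, R, hc, hC, hR, H⟩ := hcov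
  obtain ⟨B, hB, hb⟩ := hbal m hY0
  refine ⟨Y0, hY0, B, c, hB, hc, hb, fun x => ?_⟩
  obtain ⟨g, h1, h2⟩ := H x
  exact ⟨(g • x).1, (g • x).2, h2, ⟨g, rfl⟩, h1.1⟩

end Fermat.Agent.H35BK
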