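import Fermat.Agent.H64L2
import Fermat.Agent.H59Def

/-!
# The map `XF L → LatC K` (helper64, S47, C1-LAT)

For a level `L : Level R K` (`H59D`), `lat L : XF L.fam → LatC R K` is `PGL₂(K)`-equivariant.
-/

set_option autoImplicit false
set_option linter.unusedSectionVars false

noncomputable section

open scoped nonZeroDivisors MatrixGroups
open Matrix IsDedekindDomain HeightOneSpectrum

namespace Fermat.Agent.H64L

open Fermat.Agent.H26Z Fermat.Agent.H59D Fermat.Agent.H59XF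

variable {R K : Type*} [CommRing R] [IsDedekindDomain R] [Field K] [Algebra R K]
  [IsFractionRing R K]

/-! ### Stabilisers of local lattices -/

theorem smul_mem_std_one {w : HeightOneSpectrum R} {u : GL (Fin 2) K} (hu : u ∈ GLw w)
    {v : Fin 2 → K} (hv : v ∈ std w 1) : u • v ∈ std w 1 := by
  rw [mem_std_one] at hv ⊢
  intro i
  rw [Lat.gl_smul_eq, Matrix.mulVec, dotProduct]
  refine Valuation.map_sum_le _ fun j _ => ?_
  rw [map_mul]
  exact mul_le_one' (hu.1 i j) (hv j)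

theorem std_GLw {w : HeightOneSpectrum R} {u : GL (Fin 2) K} (hu : u ∈ GLw w) :
    std w u = std w 1 := by
  apply le_antisymm
  · intro v hv
    have h1 : u⁻¹ • v ∈ std w 1 := mem_std_one.2 hv
    have h2 := smul_mem_std_one hu h1
    rwa [smul_inv_smul] at h2
  · intro v hv
    exact mem_std_one.1 (smul_mem_std_one (inv_mem hu) hv)

theorem std_mul_GLw {w : HeightOneSpectrum R} {g u : GL (Fin 2) K} (hu : u ∈ GLw w) :
    std w (g * u) = std w g := by
  ext v
  rw [mem_std_mul, std_GLw hu, ← mem_std_mul, mul_one]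

theorem entries_of_std_le {w : HeightOneSpectrum R} {u : GL (Fin 2) K}
    (h : ∀ v ∈ std w (1 : GL (Fin 2) K), u • v ∈ std w 1) (i j : Fin 2) :
    w.valuation K (u.1 i j) ≤ 1 := by
  have h1 : (Pi.single j (1 : K) : Fin 2 → K) ∈ std w (1 : GL (Fin 2) K) := mem_std_one.2 fun k => by
    rw [Pi.single_apply]
    split_ifs <;> simp
  have h2 := mem_std_one.1 (h _ h1) i
  rwa [Lat.gl_smul_eq, Matrix.mulVec_single_one] at h2

theorem mem_GLw_of_std_eq {w : HeightOneSpectrum R} {g g' : GL (Fin 2) K}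
    (h : std w g = std w g') : g⁻¹ * g' ∈ GLw w := by
  have key : ∀ {g g' : GL (Fin 2) K}, std w g = std w g' →
      ∀ i j, w.valuation K ((g⁻¹ * g').1 i j) ≤ 1 := by
    intro g g' h
    refine entries_of_std_le fun v hv => ?_
    have h1 : g' • v ∈ std w g' := by
      rw [mem_std, inv_smul_smul]
      exact mem_std_one.1 hv
    rw [← h] at h1
    rw [mul_smul]
    exact mem_std_one.2 h1
  have hdet : ∀ {u : GL (Fin 2) K}, (∀ i j, w.valuation K (u.1 i j) ≤ 1) →
      w.valuation K u.1.det ≤ 1 := by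
    intro u hu
    rw [Matrix.det_fin_two]
    refine (Valuation.map_sub _ _ _).trans (max_le ?_ ?_)
    · rw [map_mul]; exact mul_le_one' (hu _ _) (hu _ _)
    · rw [map_mul]; exact mul_le_one' (hu _ _) (hu _ _)
  refine ⟨key h, le_antisymm (hdet (key h)) ?_⟩
  have h1 := hdet (key h.symm)
  have h2 : (g'⁻¹ * g : GL (Fin 2) K) = (g⁻¹ * g')⁻¹ := by group
  have h3 : (g⁻¹ * g' : GL (Fin 2) K).1.det * ((g⁻¹ * g')⁻¹ : GL (Fin 2) K).1.det = 1 := by
    rw [← Matrix.det_mul, ← Units.val_mul, mul_inv_cancel, Units.val_one, Matrix.det_one]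
  rw [h2] at h1
  have h4 := congrArg (w.valuation K) h3
  rw [map_mul, map_one] at h4
  calc (1 : WithZero (Multiplicative ℤ)) = _ := h4.symm
    _ ≤ w.valuation K (g⁻¹ * g' : GL (Fin 2) K).1.det * 1 := mul_le_mul_right h1 _
    _ = _ := mul_one _

/-! ### Localisations of `g Λ` and `I Λ` -/

theorem mem_loc_smul {w : HeightOneSpectrum R} {g : GL (Fin 2) K} {Λ : Lat R K} {v : Fin 2 → K} :
    v ∈ loc w (g • Λ).M ↔ g⁻¹ • v ∈ loc w Λ.M := by
  rw [mem_loc, mem_loc]
  refine exists_congr fun r => and_congr_right fun _ => ?_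
  rw [Lat.mem_smul, smul_comm]

theorem mem_loc_of_smul {w : HeightOneSpectrum R} {M : Submodule R (Fin 2 → K)} {v : Fin 2 → K}
    {r : R} (hr : r ∉ w.asIdeal) (h : r • v ∈ loc w M) : v ∈ loc w M := by
  obtain ⟨s, hs, h⟩ := h
  refine ⟨s * r, fun hm => ?_, by rwa [mul_smul]⟩
  rcases w.isPrime.mem_or_mem hm with hm | hm
  · exact hs hm
  · exact hr hm

/-- a fractional ideal is locally principal -/
theorem exists_local_generator (w : HeightOneSpectrum R) (I : (FractionalIdeal R⁰ K)ˣ) :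
    ∃ a : Kˣ, (a : K) ∈ ((I : FractionalIdeal R⁰ K) : Submodule R K) ∧
      ∀ x ∈ ((I : FractionalIdeal R⁰ K) : Submodule R K), w.valuation K x ≤ w.valuation K a := by
  set IM := ((I : FractionalIdeal R⁰ K) : Submodule R K) with hIM
  set JM := (((I⁻¹ : (FractionalIdeal R⁰ K)ˣ) : FractionalIdeal R⁰ K) : Submodule R K) with hJM
  have hIJ : IM * JM = 1 := by
    rw [hIM, hJM, ← FractionalIdeal.coe_mul, Units.mul_inv, FractionalIdeal.coe_one]
  have hle : ∀ a ∈ IM, ∀ b ∈ JM, w.valuation K (a * b) ≤ 1 := fun a ha b hb => by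
    have h1 : a * b ∈ IM * JM := Submodule.mul_mem_mul ha hb
    rw [hIJ, Submodule.mem_one] at h1
    obtain ⟨r, hr⟩ := h1
    rw [← hr]
    exact w.valuation_le_one r
  obtain ⟨a, ha, b, hb, hab⟩ : ∃ a ∈ IM, ∃ b ∈ JM, w.valuation K (a * b) = 1 := by
    by_contra hcon
    push Not at hcon
    let N : Submodule R K :=
      { carrier := {x | w.valuation K x < 1}
        add_mem' := fun {x y} hx hy => by
          show w.valuation K (x + y) < 1
          exact Valuation.map_add_lt _ hx hy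
        zero_mem' := by
          show w.valuation K 0 < 1
          rw [map_zero]; exact zero_lt_one
        smul_mem' := fun r x hx => by
          show w.valuation K (r • x) < 1
          rw [← algebraMap_smul K r, smul_eq_mul]
          exact (valuation_smul_le _ _).trans_lt hx }
    have h1 : IM * JM ≤ N := Submodule.mul_le.2 fun a ha b hb =>
      lt_of_le_of_ne (hle a ha b hb) (hcon a ha b hb)
    have h2 : (1 : K) ∈ IM * JM := by rw [hIJ]; exact Submodule.mem_one.2 ⟨1, map_one _⟩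
    have h3 : w.valuation K (1 : K) < 1 := h1 h2
    rw [map_one] at h3
    exact lt_irrefl _ h3
  have ha0 : a ≠ 0 := by
    rintro rfl
    rw [zero_mul, map_zero] at hab
    exact zero_ne_one hab
  have hb0 : w.valuation K b ≠ 0 := by
    intro h
    rw [map_mul, h, mul_zero] at hab
    exact zero_ne_one hab
  refine ⟨Units.mk0 a ha0, ha, fun x hx => ?_⟩
  have h1 := hle x hx b hb
  rw [← hab, map_mul, map_mul] at h1
  exact (mul_le_mul_iff_left₀ (zero_lt_iff.2 hb0)).1 h1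

theorem exists_mem_loc_ismul (w : HeightOneSpectrum R) (I : (FractionalIdeal R⁰ K)ˣ) (Λ : Lat R K) :
    ∃ c : Kˣ, ∀ v, v ∈ loc w (I • Λ).M ↔ (c : K) • v ∈ loc w Λ.M := by
  obtain ⟨a, ha, hmax⟩ := exists_local_generator w I
  have ha0 : (a : K) ≠ 0 := a.ne_zero
  refine ⟨a⁻¹, fun v => ⟨?_, ?_⟩⟩
  · rintro ⟨r, hr, hv⟩
    have key : ∀ u ∈ (I • Λ).M, ((a⁻¹ : Kˣ) : K) • u ∈ loc w Λ.M := by
      intro u hu
      rw [Lat.ismul_M] at hu
      refine Submodule.smul_induction_on hu (fun x hx v' hv' => ?_) (fun x y hx hy => ?_)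
      · rw [smul_smul]
        refine smul_mem_loc (le_loc w _ hv') ?_
        rw [map_mul, Units.val_inv_eq_inv_val, map_inv₀]
        have h0 : w.valuation K (a : K) ≠ 0 := (Valuation.ne_zero_iff _).2 ha0
        calc _ ≤ (w.valuation K (a : K))⁻¹ * w.valuation K (a : K) := mul_le_mul_right (hmax x hx) _
          _ = 1 := inv_mul_cancel₀ h0
      · rw [smul_add]; exact add_mem hx hy
    refine mem_loc_of_smul hr ?_
    rw [smul_comm]
    exact key _ hv
  · rintro ⟨r, hr, hv⟩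
    refine ⟨r, hr, ?_⟩
    have h1 : (a : K) • (r • ((a⁻¹ : Kˣ) : K) • v) ∈ (I • Λ).M := by
      rw [Lat.ismul_M]
      exact Submodule.smul_mem_smul ha hv
    rwa [smul_comm r, smul_smul, Units.mul_inv, one_smul] at h1

/-! ### Commensurability -/

theorem exists_smul_le (Λ Λ' : Lat R K) : ∃ d : R, d ≠ 0 ∧ ∀ v ∈ Λ.M, d • v ∈ Λ'.M := by
  classical
  obtain ⟨S, hS⟩ := Λ.fg
  choose r hr0 hr using fun v => exists_smul_mem Λ' v
  refine ⟨∏ v ∈ S, r v, Finset.prod_ne_zero_iff.2 fun v _ => hr0 v, fun v hv => ?_⟩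
  rw [← hS] at hv
  induction hv using Submodule.span_induction with
  | mem v hv =>
    rw [← Finset.mul_prod_erase S r hv, mul_comm, mul_smul]
    exact Λ'.M.smul_mem _ (hr v)
  | zero => rw [smul_zero]; exact zero_mem _
  | add v w _ _ hv hw => rw [smul_add]; exact add_mem hv hw
  | smul a v _ hv => rw [smul_comm]; exact Λ'.M.smul_mem _ hv

theorem finite_mem_asIdeal {d : R} (hd : d ≠ 0) : {w : HeightOneSpectrum R | d ∈ w.asIdeal}.Finite := by
  refine (HeightOneSpectrum.Support.finite R (algebraMap R (FractionRing R) d)⁻¹).subset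
    fun w hw => ?_
  have hne : algebraMap R (FractionRing R) d ≠ 0 := fun h =>
    hd ((IsFractionRing.injective R (FractionRing R)) (by rw [h, map_zero]))
  have h1 : w.valuation (FractionRing R) (algebraMap R (FractionRing R) d) < 1 :=
    valuation_lt_one hw
  show 1 < w.valuation (FractionRing R) (algebraMap R (FractionRing R) d)⁻¹
  rw [map_inv₀]
  exact (one_lt_inv₀ (zero_lt_iff.2 ((Valuation.ne_zero_iff _).2 hne))).2 h1

theorem finite_loc_ne (Λ Λ' : Lat R K) : {w | loc w Λ.M ≠ loc w Λ'.M}.Finite := by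
  obtain ⟨d, hd0, hd⟩ := exists_smul_le Λ Λ'
  obtain ⟨d', hd0', hd'⟩ := exists_smul_le Λ' Λ
  refine ((finite_mem_asIdeal hd0).union (finite_mem_asIdeal hd0')).subset ?_
  intro w hw
  by_contra hcon
  simp only [Set.mem_union, Set.mem_ofPred_eq, not_or] at hcon
  apply hw
  apply le_antisymm
  · rintro v ⟨r, hr, hv⟩
    refine mem_loc_of_smul hcon.1 ?_
    refine ⟨r, hr, ?_⟩
    rw [smul_comm]
    exact hd _ hv
  · rintro v ⟨r, hr, hv⟩
    refine mem_loc_of_smul hcon.2 ?_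
    refine ⟨r, hr, ?_⟩
    rw [smul_comm]
    exact hd' _ hv

/-! ### The map `lat` -/

theorem mem_U0_iff {w : HeightOneSpectrum R} {g : GL (Fin 2) K} :
    (ProjGenLinGroup.mk g : PGL(2, K)) ∈ U0 w ↔
      ∃ u ∈ GLw w, ∃ z : Kˣ, g = u * GeneralLinearGroup.scalar (Fin 2) z := by
  constructor
  · rintro ⟨u, hu, h⟩
    obtain ⟨z, hz⟩ := ProjGenLinGroup.mk_eq_mk_iff.1 h
    exact ⟨u, hu, z, hz.symm⟩
  · rintro ⟨u, hu, z, rfl⟩
    exact ⟨u, hu, by rw [map_mul, ProjGenLinGroup.mk_scalar, mul_one]⟩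

theorem exists_cc (L : Level R K) (w : HeightOneSpectrum R) : ∃ c : GL (Fin 2) K,
    (L.U w = U0 w → c = 1) ∧
      ∀ g ∈ L.U w, (ProjGenLinGroup.mk c : PGL(2, K))⁻¹ * g * ProjGenLinGroup.mk c ∈ U0 w := by
  by_cases h : L.U w = U0 w
  · refine ⟨1, fun _ => rfl, fun g hg => ?_⟩
    rw [map_one, inv_one, one_mul, mul_one, ← h]
    exact hg
  · obtain ⟨c, hc⟩ := L.bdd w
    obtain ⟨c, rfl⟩ := ProjGenLinGroup.mk_surjective c
    exact ⟨c, fun h' => absurd h' h, hc⟩

/-- a matrix `c` with `L.U w ⊆ c U0(w) c⁻¹` -/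
def cc (L : Level R K) (w : HeightOneSpectrum R) : GL (Fin 2) K := (exists_cc L w).choose

theorem cc_eq_one {L : Level R K} {w : HeightOneSpectrum R} (h : L.U w = U0 w) : cc L w = 1 :=
  (exists_cc L w).choose_spec.1 h

theorem cc_spec (L : Level R K) (w : HeightOneSpectrum R) {g : PGL(2, K)} (hg : g ∈ L.U w) :
    (ProjGenLinGroup.mk (cc L w) : PGL(2, K))⁻¹ * g * ProjGenLinGroup.mk (cc L w) ∈ U0 w :=
  (exists_cc L w).choose_spec.2 g hg

/-- `Λ` is a lattice in the class attached to `x` -/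
def IsLat (L : Level R K) (x : XF L.fam) (Λ : Lat R K) : Prop :=
  ∀ w, ∃ g : GL (Fin 2) K, x w = ((ProjGenLinGroup.mk g : PGL(2, K)) : PGL(2, K) ⧸ L.fam.U w) ∧
    loc w Λ.M = std w (g * cc L w)

theorem scalar_comm (z : Kˣ) (g : GL (Fin 2) K) :
    GeneralLinearGroup.scalar (Fin 2) z * g = g * GeneralLinearGroup.scalar (Fin 2) z := by
  apply Units.ext
  rw [Units.val_mul, Units.val_mul]
  exact Matrix.scalar_commute (z : K) (fun _ => mul_comm _ _) _

theorem std_of_mk_eq (L : Level R K) (w : HeightOneSpectrum R) {g g' : GL (Fin 2) K}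
    (h : ((ProjGenLinGroup.mk g : PGL(2, K)) : PGL(2, K) ⧸ L.fam.U w) =
      ((ProjGenLinGroup.mk g' : PGL(2, K)) : PGL(2, K) ⧸ L.fam.U w)) :
    ∃ z : Kˣ, std w (g' * cc L w) = std w (g * cc L w * GeneralLinearGroup.scalar (Fin 2) z) := by
  rw [QuotientGroup.eq] at h
  have h1 := cc_spec L w h
  rw [← map_inv, ← map_inv, ← map_mul, ← map_mul, ← map_mul, mem_U0_iff] at h1
  obtain ⟨u, hu, z, hz⟩ := h1
  refine ⟨z, ?_⟩
  have h2 : g' * cc L w = g * cc L w * GeneralLinearGroup.scalar (Fin 2) z * u := by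
    have h3 : g' * cc L w = g * cc L w * ((cc L w)⁻¹ * (g⁻¹ * g') * cc L w) := by group
    rw [h3, hz, ← scalar_comm z u, mul_assoc (g * cc L w)]
  rw [h2, std_mul_GLw hu]

theorem exists_isLat (L : Level R K) (x : XF L.fam) : ∃ Λ : Lat R K, IsLat L x Λ := by
  have h1 : ∀ w, ∃ g : GL (Fin 2) K, (x w = ((1 : PGL(2, K)) : PGL(2, K) ⧸ L.fam.U w) → g = 1) ∧
      x w = ((ProjGenLinGroup.mk g : PGL(2, K)) : PGL(2, K) ⧸ L.fam.U w) := by
    intro w
    by_cases h : x w = ((1 : PGL(2, K)) : PGL(2, K) ⧸ L.fam.U w)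
    · exact ⟨1, fun _ => rfl, by rw [map_one]; exact h⟩
    · obtain ⟨g, hg⟩ := QuotientGroup.mk_surjective (x w)
      obtain ⟨g, rfl⟩ := ProjGenLinGroup.mk_surjective g
      exact ⟨g, fun h' => absurd h' h, hg.symm⟩
  choose g hg1 hg using h1
  have hfin : {w | std w (g w * cc L w) ≠ std w 1}.Finite := by
    refine (x.finite.union L.fin).subset fun w hw => ?_
    by_contra hcon
    simp only [Set.mem_union, Set.mem_ofPred_eq, not_or, not_not] at hcon
    apply hw
    rw [hg1 w hcon.1, cc_eq_one hcon.2, mul_one]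
  exact ⟨glue _ hfin, fun w => ⟨g w, hg w, loc_glue _ hfin w⟩⟩

theorem mk_eq_of_loc' {Λ Λ' : Lat R K}
    (h : ∀ w, ∃ c : Kˣ, ∀ v, v ∈ loc w Λ.M ↔ (c : K) • v ∈ loc w Λ'.M) :
    LatC.mk Λ = LatC.mk Λ' := by
  have h1 : ∀ w, ∃ c : Kˣ, (loc w Λ.M = loc w Λ'.M → c = 1) ∧
      ∀ v, v ∈ loc w Λ.M ↔ (c : K) • v ∈ loc w Λ'.M := by
    intro w
    by_cases hw : loc w Λ.M = loc w Λ'.M
    · exact ⟨1, fun _ => rfl, fun v => by rw [hw, Units.val_one, one_smul]⟩
    · obtain ⟨c, hc⟩ := h w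
      exact ⟨c, fun h' => absurd h' hw, hc⟩
  choose c hc1 hc using h1
  refine mk_eq_of_loc c ((finite_loc_ne Λ Λ').subset fun w hw h2 => hw (hc1 w h2)) hc

theorem IsLat.mk_eq {L : Level R K} {x : XF L.fam} {Λ Λ' : Lat R K} (h : IsLat L x Λ)
    (h' : IsLat L x Λ') : LatC.mk Λ = LatC.mk Λ' := by
  refine mk_eq_of_loc' fun w => ?_
  obtain ⟨g, hg, hΛ⟩ := h w
  obtain ⟨g', hg', hΛ'⟩ := h' w
  obtain ⟨z, hz⟩ := std_of_mk_eq L w (hg'.symm.trans hg)
  refine ⟨z⁻¹, fun v => ?_⟩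
  rw [hΛ, hΛ', hz, mem_std_scalar]

theorem IsLat.smul {L : Level R K} {x : XF L.fam} {Λ : Lat R K} (h : IsLat L x Λ)
    (g : GL (Fin 2) K) : IsLat L ((ProjGenLinGroup.mk g : PGL(2, K)) • x) (g • Λ) := by
  intro w
  obtain ⟨g', hg', hΛ⟩ := h w
  refine ⟨g * g', ?_, ?_⟩
  · rw [XF.smul_apply, hg', map_mul]
    rfl
  · ext v
    rw [mem_loc_smul, hΛ, mul_assoc, ← mem_std_mul]

theorem IsLat.ismul {L : Level R K} {x : XF L.fam} {Λ : Lat R K} (h : IsLat L x Λ)
    (I : (FractionalIdeal R⁰ K)ˣ) : IsLat L x (I • Λ) := by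
  intro w
  obtain ⟨g, hg, hΛ⟩ := h w
  obtain ⟨c, hc⟩ := exists_mem_loc_ismul w I Λ
  refine ⟨g * GeneralLinearGroup.scalar (Fin 2) c⁻¹, ?_, ?_⟩
  · rw [map_mul, ProjGenLinGroup.mk_scalar, mul_one]
    exact hg
  · ext v
    rw [hc, hΛ, mul_assoc, scalar_comm, ← mul_assoc, mem_std_scalar, inv_inv]

/-- the class of lattices attached to a point of `XF L` -/
def lat (L : Level R K) (x : XF L.fam) : LatC R K := LatC.mk (exists_isLat L x).choose

theorem lat_eq_mk_iff {L : Level R K} {x : XF L.fam} {Λ : Lat R K} :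
    lat L x = LatC.mk Λ ↔ IsLat L x Λ := by
  constructor
  · intro h
    obtain ⟨I, hI⟩ := LatC.mk_eq_mk.1 h.symm
    rw [← hI]
    exact (exists_isLat L x).choose_spec.ismul I
  · intro h
    exact (exists_isLat L x).choose_spec.mk_eq h

theorem lat_smul (L : Level R K) (g : PGL(2, K)) (x : XF L.fam) : lat L (g • x) = g • lat L x := by
  obtain ⟨g, rfl⟩ := ProjGenLinGroup.mk_surjective g
  obtain ⟨Λ, hΛ⟩ := exists_isLat L x
  rw [lat_eq_mk_iff.2 hΛ, lat_eq_mk_iff.2 (hΛ.smul g)]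
  rfl

end Fermat.Agent.H64L
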