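import Mathlib
import Fermat.Agent.H31I2
import Fermat.Agent.H35BK1
import Fermat.Agent.H64L3

/-!
# S47, block (C): lattice point count and proper discontinuity on the model

For a model `m` of the number field `K`:

* `H31I.trStab`: every point of `XF m.L.fam` is fixed by the translations in a nonzero ideal;
* `H31I.count`: for `η η'` in `XF m.L.fam`, `T`, `c > 0` there is `M` such that for all `w w'` with
  heights at least `c` the set `m.cset η η' T w w'` of the `g` with `g • η' = η` and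
  `ch (w j) ((g w') j) ≤ T` is finite, of cardinality at most `M * (ht w * ht w') ^ 4`;
* `H31I.finite_pd`: the set is finite for all `w w'`;
* `H31I.finite_unif`: local uniformity;
* `H31I.crude`: (I3), the crude bound of the automorphic kernel.
-/

set_option autoImplicit false
set_option linter.unusedSectionVars false

noncomputable section

open scoped nonZeroDivisors MatrixGroups NumberField
open Matrix NumberField MeasureTheory

namespace Fermat.Agent.H31I

open Fermat.Agent.H26Z Fermat.Agent.H3 Fermat.Agent.H95S Fermat.Agent.H59D Fermat.Agent.H59XF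

variable {K : Type*} [Field K] [NumberField K] {J : Type*} [Fintype J] (m : Model K J)

theorem nK_eq_nP (b : 𝓞 K) :
    (ProjGenLinGroup.mk (nK (b : K)) : PGL(2, K)) = H35BK.nP b := by
  rw [H35BK.nP]
  congr 1
  apply Units.ext
  ext i j
  show (!![1, (b : K); 0, 1] : Matrix (Fin 2) (Fin 2) K) i j =
    algebraMap (𝓞 K) K ((!![1, b; 0, 1] : Matrix (Fin 2) (Fin 2) (𝓞 K)) i j)
  fin_cases i <;> fin_cases j <;> simp

theorem trStab (L : Level (𝓞 K) K) (η : XF L.fam) : TrStab (K := K) η := by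
  obtain ⟨n, hn, H⟩ := H35BK.exists_stab L (Set.finite_singleton η)
  obtain ⟨x, hx, hx0⟩ := Submodule.exists_mem_ne_zero_of_ne_bot hn
  refine ⟨x, hx0, fun b => ?_⟩
  have h1 := H (x * b) (n.mul_mem_right b hx) η (Set.mem_singleton η)
  rw [← nK_eq_nP] at h1
  have h2 : ((x * b : 𝓞 K) : K) = (x : K) * b := by push_cast; rfl
  rwa [h2] at h1

/-- **The count.** -/
theorem count (η η' : XF m.L.fam) (T : ℝ) {c : ℝ} (hc : 0 < c) :
    ∃ M, 0 ≤ M ∧ ∀ w w' : J → H3, (∀ j, c ≤ (w j).y) → (∀ j, c ≤ (w' j).y) →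
      (cset m.e η η' T w w').Finite ∧
        ((cset m.e η η' T w w').ncard : ℝ) ≤ M * (ht w * ht w') ^ (4 : ℝ) :=
  count_abs m.e m.e_bij m.e_cx (H64L.lat m.L) (H64L.lat_smul m.L) η η' (trStab m.L η)
    (trStab m.L η') T hc

/-- **Proper discontinuity.** -/
theorem finite_pd (η η' : XF m.L.fam) (T : ℝ) (w w' : J → H3) :
    (cset m.e η η' T w w').Finite :=
  finite_abs m.e m.e_bij m.e_cx (H64L.lat m.L) (H64L.lat_smul m.L) η η' (trStab m.L η)
    (trStab m.L η') T w w'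

/-- Enlarging the sets to be counted. -/
theorem cset_subset {Y : Type*} [MulAction PGL(2, K) Y] (e : J → K →+* ℂ) {y y' : Y} {T r : ℝ}
    (hr : 0 ≤ r) {w w' v v' : J → H3} (hv : ∀ j, ch (w j) (v j) ≤ r)
    (hv' : ∀ j, ch (w' j) (v' j) ≤ r) :
    cset e y y' T v v' ⊆ cset e y y' (4 * r * T * r) w w' := by
  intro g hg
  refine ⟨hg.1, fun j => ?_⟩
  have hT : 0 ≤ T := (one_le_ch _ _).trans (hg.2 j) |>.trans' zero_le_one
  have h1 := ch_triangle (w j) (v j) (ProjGenLinGroup.map (e j) g • w' j)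
  have h2 := ch_triangle (v j) (ProjGenLinGroup.map (e j) g • v' j)
    (ProjGenLinGroup.map (e j) g • w' j)
  rw [H59D.ch_smul, ch_comm (v' j)] at h2
  calc _ ≤ 2 * ch (w j) (v j) * ch (v j) (ProjGenLinGroup.map (e j) g • w' j) := h1
    _ ≤ 2 * r * (2 * T * r) := by
        have h3 : ch (v j) (ProjGenLinGroup.map (e j) g • w' j) ≤ 2 * T * r := by
          refine h2.trans ?_
          have := hg.2 j
          have h4 := hv' j
          have h5 := (one_le_ch (w' j) (v' j))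
          have h6 := (one_le_ch (v j) (ProjGenLinGroup.map (e j) g • v' j))
          nlinarith
        have h5 := (one_le_ch (w j) (v j))
        have h6 := (one_le_ch (v j) (ProjGenLinGroup.map (e j) g • w' j))
        have h7 := hv j
        nlinarith
    _ = _ := by ring

/-- **Proper discontinuity**, locally uniform. -/
theorem finite_unif (η η' : XF m.L.fam) (T : ℝ) {r : ℝ} (hr : 0 ≤ r) (w w' : J → H3) :
    {g : PGL(2, K) | ∃ v v' : J → H3, (∀ j, ch (w j) (v j) ≤ r) ∧ (∀ j, ch (w' j) (v' j) ≤ r) ∧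
      g ∈ cset m.e η η' T v v'}.Finite := by
  refine (finite_pd m η η' (4 * r * T * r) w w').subset ?_
  rintro g ⟨v, v', hv, hv', hg⟩
  exact cset_subset m.e hr hv hv' hg

/-! ### Kernels -/

/-- A bounded kernel of finite range: support of bounded radius at infinity and finitely many
neighbours of every point of `XF`. -/
structure FinRange (k : (J → H3) × XF m.L.fam → (J → H3) × XF m.L.fam → ℂ) (T B : ℝ) : Prop where
  bdd : ∀ x y, ‖k x y‖ ≤ B
  ch_le : ∀ x y, k x y ≠ 0 → ∀ j, ch (x.1 j) (y.1 j) ≤ T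
  fin : ∀ η : XF m.L.fam, {η' : XF m.L.fam | ∃ w w' : J → H3, k (w, η) (w', η') ≠ 0}.Finite

variable {m} {k : (J → H3) × XF m.L.fam → (J → H3) × XF m.L.fam → ℂ} {T B : ℝ}

theorem FinRange.subset (h : FinRange m k T B) (w w' : J → H3) (η η' : XF m.L.fam) :
    {g : PGL(2, K) | k (w, η) (m.actInf g w', g • η') ≠ 0} ⊆
      ⋃ ζ ∈ (h.fin η).toFinset, cset m.e ζ η' T w w' := by
  intro g hg
  rw [Set.mem_iUnion₂]
  refine ⟨g • η', ?_, rfl, fun j => h.ch_le _ _ hg j⟩
  rw [Set.Finite.mem_toFinset]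
  exact ⟨_, _, hg⟩

theorem FinRange.finite (h : FinRange m k T B) (w w' : J → H3) (η η' : XF m.L.fam) :
    {g : PGL(2, K) | k (w, η) (m.actInf g w', g • η') ≠ 0}.Finite :=
  (Set.Finite.biUnion (Finset.finite_toSet _) fun ζ _ => finite_pd m ζ η' T w w').subset
    (h.subset w w' η η')

theorem FinRange.finite_unif (h : FinRange m k T B)
    (η η' : XF m.L.fam) {r : ℝ} (hr : 0 ≤ r) (w w' : J → H3) :
    {g : PGL(2, K) | ∃ v v' : J → H3, (∀ j, ch (w j) (v j) ≤ r) ∧ (∀ j, ch (w' j) (v' j) ≤ r) ∧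
      k (v, η) (m.actInf g v', g • η') ≠ 0}.Finite := by
  refine (Set.Finite.biUnion (Finset.finite_toSet (h.fin η).toFinset)
    fun ζ _ => H31I.finite_unif m ζ η' T hr w w').subset ?_
  rintro g ⟨v, v', hv, hv', hg⟩
  have h1 := h.subset v v' η η' hg
  rw [Set.mem_iUnion₂] at h1 ⊢
  obtain ⟨ζ, hζ, h2⟩ := h1
  exact ⟨ζ, hζ, v, v', hv, hv', h2⟩

/-- **(I3)**: the crude bound of the sum over the group. -/
theorem crude (h : FinRange m k T B) {Y0 : Set (XF m.L.fam)}
    (hY0 : Y0.Finite) {c : ℝ} (hc : 0 < c) :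
    ∃ M, 0 ≤ M ∧ ∀ η ∈ Y0, ∀ η' ∈ Y0, ∀ w w' : J → H3, (∀ j, c ≤ (w j).y) →
      (∀ j, c ≤ (w' j).y) → ∀ S : Finset PGL(2, K),
        ∑ g ∈ S, ‖k (w, η) (m.actInf g w', g • η')‖ ≤ M * (ht w * ht w') ^ (4 : ℝ) := by
  classical
  choose M hM0 hM using fun η η' : XF m.L.fam => count m η η' T hc
  have hB : 0 ≤ |B| := abs_nonneg B
  refine ⟨∑ η ∈ hY0.toFinset, ∑ η' ∈ hY0.toFinset, ∑ ζ ∈ (h.fin η).toFinset, |B| * M ζ η',
    Finset.sum_nonneg fun _ _ => Finset.sum_nonneg fun _ _ => Finset.sum_nonneg fun _ _ =>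
      mul_nonneg hB (hM0 _ _), ?_⟩
  intro η hη η' hη' w w' hw hw' S
  have hP : 0 ≤ (ht w * ht w') ^ (4 : ℝ) :=
    Real.rpow_nonneg (mul_pos (ht_pos w) (ht_pos w')).le _
  have hfin : ∀ ζ, (cset m.e ζ η' T w w').Finite := fun ζ => (hM ζ η' w w' hw hw').1
  have hcard : ∀ ζ, (((hfin ζ).toFinset.card : ℕ) : ℝ) ≤ M ζ η' * (ht w * ht w') ^ (4 : ℝ) := by
    intro ζ
    rw [← Set.ncard_eq_toFinset_card _ (hfin ζ)]
    exact (hM ζ η' w w' hw hw').2
  have h1 : ∑ g ∈ S, ‖k (w, η) (m.actInf g w', g • η')‖ ≤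
      ∑ ζ ∈ (h.fin η).toFinset, |B| * M ζ η' * (ht w * ht w') ^ (4 : ℝ) := by
    set U : Finset PGL(2, K) := (h.fin η).toFinset.biUnion fun ζ => (hfin ζ).toFinset with hU
    calc ∑ g ∈ S, ‖k (w, η) (m.actInf g w', g • η')‖
        ≤ ∑ g ∈ U, ‖k (w, η) (m.actInf g w', g • η')‖ := by
          rw [← Finset.sum_filter_of_ne (s := S)
            (p := fun g => k (w, η) (m.actInf g w', g • η') ≠ 0) fun g _ hg => by simpa using hg]
          refine Finset.sum_le_sum_of_subset_of_nonneg (fun g hg => ?_)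
            fun _ _ _ => norm_nonneg _
          have h2 := h.subset w w' η η' (Finset.mem_filter.1 hg).2
          rw [Set.mem_iUnion₂] at h2
          obtain ⟨ζ, hζ, h3⟩ := h2
          rw [hU, Finset.mem_biUnion]
          exact ⟨ζ, hζ, (hfin ζ).mem_toFinset.2 h3⟩
      _ ≤ ∑ _g ∈ U, |B| := Finset.sum_le_sum fun g _ => (h.bdd _ _).trans (le_abs_self B)
      _ = U.card * |B| := by rw [Finset.sum_const, nsmul_eq_mul]
      _ ≤ (∑ ζ ∈ (h.fin η).toFinset, (((hfin ζ).toFinset.card : ℕ) : ℝ)) * |B| := by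
          refine mul_le_mul_of_nonneg_right ?_ hB
          rw [hU]
          exact_mod_cast Finset.card_biUnion_le
      _ ≤ (∑ ζ ∈ (h.fin η).toFinset, M ζ η' * (ht w * ht w') ^ (4 : ℝ)) * |B| :=
          mul_le_mul_of_nonneg_right (Finset.sum_le_sum fun ζ _ => hcard ζ) hB
      _ = _ := by
          rw [Finset.sum_mul]
          exact Finset.sum_congr rfl fun ζ _ => by ring
  refine h1.trans ?_
  rw [← Finset.sum_mul]
  refine mul_le_mul_of_nonneg_right ?_ hP
  have h2 : ∑ ζ ∈ (h.fin η).toFinset, |B| * M ζ η' ≤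
      ∑ ξ ∈ hY0.toFinset, ∑ ζ ∈ (h.fin η).toFinset, |B| * M ζ ξ :=
    Finset.single_le_sum (f := fun ξ => ∑ ζ ∈ (h.fin η).toFinset, |B| * M ζ ξ)
      (fun ξ _ => Finset.sum_nonneg fun ζ _ => mul_nonneg hB (hM0 _ _))
      (hY0.mem_toFinset.2 hη')
  refine h2.trans ?_
  exact Finset.single_le_sum
    (f := fun η => ∑ ξ ∈ hY0.toFinset, ∑ ζ ∈ (h.fin η).toFinset, |B| * M ζ ξ)
    (fun ξ _ => Finset.sum_nonneg fun ζ _ => Finset.sum_nonneg fun _ _ =>
      mul_nonneg hB (hM0 _ _)) (hY0.mem_toFinset.2 hη)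

/-- **(I3)** for the automorphic kernel written as a `tsum`, in the shape of
`H95S.bounded_kernel` and `H86B.bounded`. -/
theorem crude_tsum (h : FinRange m k T B) {Y0 : Set (XF m.L.fam)}
    (hY0 : Y0.Finite) : ∀ c > (0 : ℝ), ∃ M, ∀ η ∈ Y0, ∀ η' ∈ Y0, ∀ w w' : J → H3,
      (∀ j, c ≤ (w j).y) → (∀ j, c ≤ (w' j).y) →
        ‖∑' g : PGL(2, K), k (w, η) (m.actInf g w', g • η')‖ ≤
          M * (ht w * ht w') ^ (4 : ℝ) := by
  classical
  intro c hc
  obtain ⟨M, hM0, hM⟩ := crude h hY0 hc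
  refine ⟨M, fun η hη η' hη' w w' hw hw' => ?_⟩
  have hfin := h.finite w w' η η'
  rw [tsum_eq_sum (s := hfin.toFinset) fun g hg => by
    by_contra hne
    exact hg (hfin.mem_toFinset.2 hne)]
  exact (norm_sum_le _ _).trans (hM η hη η' hη' w w' hw hw' _)

/-! ### Test kernels -/

/-- Finite range of a kernel on the finite part. -/
theorem finRange_ker {κ : (J → ℝ) → ℂ} {kf : XF m.L.fam → XF m.L.fam → ℂ} {T B B' : ℝ}
    (hκ0 : ∀ t, (∃ j, T < t j) → κ t = 0) (hκ : ∀ t, ‖κ t‖ ≤ B)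
    (hf : ∀ η, {η' | kf η η' ≠ 0}.Finite) (hfb : ∀ η η', ‖kf η η'‖ ≤ B') :
    FinRange m (m.ker κ kf) T (B * B') where
  bdd x y := by
    rw [Model.ker, norm_mul]
    exact mul_le_mul (hκ _) (hfb _ _) (norm_nonneg _) ((norm_nonneg _).trans (hκ 0))
  ch_le x y h j := by
    by_contra hcon
    push Not at hcon
    apply h
    rw [Model.ker, hκ0 _ ⟨j, hcon⟩, zero_mul]
  fin η := by
    refine (hf η).subset ?_
    rintro η' ⟨w, w', h⟩ h0
    apply h
    rw [Model.ker]
    show _ * kf η η' = 0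
    rw [h0, mul_zero]

end Fermat.Agent.H31I
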