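import Fermat.Agent.H86B3
import Fermat.Agent.H31I3

/-!
# Reader's guide: bounded automorphic kernels, step by step

(text by helper95; library files by helper95 `H95S1` - `H95S5`, helper86 `H86B1` - `H86B3`, helper31
`H31I2`, `H31I3`, helper5 `H5ZLat`, `H5ZStep`, `H5ZIter`, `H5ZH3`, `H5ZModel`)

Companion of section 4 of `GuideTrace`, which states the results: the first order mean value inequality
(`mean_value`), the decay of cuspidal functions (`decay`), the bounded kernel theorem (abstract form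
`bounded_kernel_abstract`, on the model `bounded_kernel_model`) and the boundedness of eigenfunctions
(`bounded_of_eigenfunction`). This file has the steps, and in section 4 those of `counting` in
`GuideSiegel`, where the reduction theory is (`covering`, `balancing`, `counting`, `crude_bound`).
Hyperbolic space is in `GuideHyperbolic`, the vanishing of the constant terms for the operators of block
(C) in `GuideConstantTerms`. Every theorem of this file is a citation of theorems of the library, with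
the statement written out, or the unfolding of a definition. The file is imported by no other file.

**The idea.** Let `R(κ)` be the operator of a Lipschitz radial kernel of bounded support on functions on
`(J → H3) × Y`. If `w` is moved along its horosphere by a vector `u` with `|u_j| ≤ δ`, the hyperbolic
cosines of the distances change by `O(δ / y_j)` (for `δ ≤ y_j`), so `R(κ) f` changes by `O(δ / min y_j)`
times the size of `f` near `w`. If `R(κ) f` has mean zero over a set of such vectors `u`, its value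
itself is of this size. An arithmetic group contains elements which make the heights `y_j` comparable
without changing `ht w = ∏ y_j`; after that `min y_j` is at least a constant times `ht(w)^(1/r)`,
`r = #J`. So one application of `R(κ)` to an invariant function, the result having no constant terms,
gains the factor `ht(w)^(-1/r)`, and `k` applications gain `ht(w)^(-k/r)`: no Fourier expansion, no
derivatives, no truncation. The automorphic kernel `K(x, x')` grows at most like `(ht x · ht x')^4`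
(lattice point count), so after `8 r` applications in the first variable it is `O(ht(x)^(-4) ht(x')^4)`;
by symmetry the roles can be exchanged, and it is bounded.

**Contents.**
1. Moving points along horospheres (`H95S1`, `H86B1`, `H5ZStep`, `H5ZH3`).
2. The gain (`H95S2`).
3. Eigenfunctions (`H95S4`, `H95S5`).
4. The lattice point count (`H95S3`, `H31I2`, `H31I3`).
5. Automorphic kernels on `(J → H3) × Y` (`H86B1`).
6. The model (`H86B2`, `H86B3`).
7. Lattices of translations in the model (`H5ZLat`, `H5ZIter`, `H5ZModel`).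

**Used for** S47: sections 1, 2, 4 - 7 for the kernels of block (C), section 3 (with 1 and 2) for the
boundedness of the form over the sextic field from which block (C) starts, that is, of the dihedral form
of block (D) (`form_is_bounded` in `GuideOctCKernels`). References in NOTES.md: [431], [486], [481],
[434], [454].

Notation: `J` is a finite set (the complex places), `H3` hyperbolic 3-space with coordinates `z`
(complex) and `y > 0`, `H3.ch w v` the hyperbolic cosine of the distance, `H95S.tr u w` the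
horospherical translate `(z_j + u_j, y_j)_j` of `w = (z_j, y_j)_j`, `H95S.ht w = ∏ y_j` the height,
`H95S.Ker κ T L M` the class of kernels of `kernel_class_iff` in `GuideTrace` (Lipschitz constant `L`,
bound `M`, zero if some `t_j > T`).
-/

set_option autoImplicit false

open MeasureTheory NumberField
open scoped ComplexConjugate MatrixGroups

namespace Fermat.Agent.Guide.BoundedKernels

/-! ## 1. Moving points along horospheres -/

/-- **The affine map attached to a point.** For `w = (z, y)` the map `v = (z', y') ↦ (z + y z', y y')`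
is an isometry: it maps the base point `o = (0, 1)` to `w`, satisfies `ch(w, aff w v) = ch(o, v)` and
preserves the volume. So balls of the same radius are images of each other under these maps. (`H95S1`)
-/
theorem affine_map (w v : H3) :
    (H95S.aff w v).z = w.z + w.y * v.z ∧ (H95S.aff w v).y = w.y * v.y ∧
      H95S.o.z = 0 ∧ H95S.o.y = 1 ∧ H3.ch w (H95S.aff w v) = H3.ch H95S.o v ∧
      MeasurePreserving (H95S.aff w) volume volume :=
  ⟨rfl, rfl, rfl, rfl, H95S.ch_aff w v, H95S.measurePreserving_aff w⟩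

/-- **Volumes of balls.** The ball `ch(w₀, v) ≤ T` has the finite volume `volT T`, independent of the
centre, and the product of `#J` balls has volume `(volT T)^#J`. (`H95S1`) -/
theorem ball_volume {J : Type*} [Fintype J] (w₀ : H3) (w : J → H3) (T : ℝ) :
    volume {v : H3 | H3.ch w₀ v ≤ T} = H95S.volT T ∧ H95S.volT T < ⊤ ∧
      volume {v : J → H3 | ∀ j, H3.ch (w j) (v j) ≤ T} = H95S.volT T ^ Fintype.card J :=
  ⟨H95S.volume_ball w₀ T, H95S.volT_lt_top T, H95S.volume_box T w⟩

/-- **Points in a ball have comparable coordinates.** The formula for `ch` in coordinates; if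
`ch(w, v) ≤ T`, then `T ≥ 1`, the heights satisfy `y(v) ≤ 2 T y(w)` and `y(w) ≤ 2 T y(v)`, and
`|z(w) - z(v)| ≤ 2 T y(w)`. (`H95S1`, `H5ZStep`, `H5ZH3`) -/
theorem comparable_in_ball {w v : H3} {T : ℝ} (h : H3.ch w v ≤ T) :
    H3.ch w v = (‖w.z - v.z‖ ^ 2 + w.y ^ 2 + v.y ^ 2) / (2 * w.y * v.y) ∧ 1 ≤ T ∧
      v.y ≤ 2 * T * w.y ∧ w.y ≤ 2 * T * v.y ∧ ‖w.z - v.z‖ ≤ 2 * T * w.y :=
  have h' := H5Z.le_of_chc_le w.pos v.pos (H5Z.ch_eq_chc w v ▸ h)
  ⟨H5Z.ch_eq_chc w v, h'.2.2.2, H95S.y_le_of_ch_le h, h'.1, H95S.norm_z_sub_le (by linarith) h⟩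

/-- **Distances under a horospherical translation.** If `w` is moved by `u` with `|u| ≤ q y(w)`, and one
of the two points has distance at most `arcosh T` from `v`, then the hyperbolic cosine of the distance
to `v` changes by at most `4 T² (q + q²)`. This is the only geometric estimate of the block. (`H95S1`)
-/
theorem distance_under_translation {T : ℝ} (hT : 1 ≤ T) {w v : H3} {u : ℂ} {q : ℝ} (hq : 0 ≤ q)
    (hu : ‖u‖ ≤ q * w.y) (h : H3.ch w v ≤ T ∨ H3.ch ⟨w.z + u, w.y, w.pos⟩ v ≤ T) :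
    |H3.ch ⟨w.z + u, w.y, w.pos⟩ v - H3.ch w v| ≤ 4 * T ^ 2 * (q + q ^ 2) :=
  H95S.abs_ch_sub_le hT hq hu h

/-- **Horospherical translations preserve distances and volume** (they are the action of unipotent upper
triangular matrices), so the operator `R(κ) f(w) = ∫ κ(ch(w, v)) f(v) dv` commutes with them. (`H86B1`;
the same for `H5Z.tr` in `H5ZIter`) -/
theorem translations {J : Type*} [Fintype J] (u : J → ℂ) (w v : J → H3) (κ : (J → ℝ) → ℂ)
    (f : (J → H3) → ℂ) :
    (∀ j, H95S.tr u w j = H3.nMat (u j) • w j) ∧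
      (∀ j, H3.ch (H95S.tr u w j) (H95S.tr u v j) = H3.ch (w j) (v j)) ∧
      MeasurePreserving (H95S.tr u : (J → H3) → J → H3) volume volume ∧
      (∫ v, κ (fun j => H3.ch (H95S.tr u w j) (v j)) * f v) =
        ∫ v, κ (fun j => H3.ch (w j) (v j)) * f (H95S.tr u v) :=
  ⟨fun j => congrFun (H86B.tr_eq_smul u w) j, H86B.ch_tr u w v, H86B.measurePreserving_tr u,
    H86B.RK_tr f u w⟩

/-- **The smoothing operator on locally bounded functions.** A kernel `κ` of the class `Ker κ T L M` is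
continuous; for a measurable function `f` with `|f| ≤ S` on the product of the balls `ch(w_j, v_j) ≤ T`
the integral `R(κ) f(w)` exists and is at most `M S (volT T)^#J`; and `R(κ) f` is measurable. (`H95S1`,
`H86B1`) -/
theorem smoothing {J : Type*} [Fintype J] {κ : (J → ℝ) → ℂ} {T L M : ℝ} (h : H95S.Ker κ T L M)
    {f : (J → H3) → ℂ} (hf : Measurable f) {w : J → H3} {S : ℝ}
    (hS : ∀ v : J → H3, (∀ j, H3.ch (w j) (v j) ≤ T) → ‖f v‖ ≤ S) :
    Continuous κ ∧ Integrable (fun v => κ (fun j => H3.ch (w j) (v j)) * f v) ∧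
      ‖∫ v, κ (fun j => H3.ch (w j) (v j)) * f v‖ ≤
        M * S * (H95S.volT T ^ Fintype.card J).toReal ∧
      Measurable fun w : J → H3 => ∫ v, κ (fun j => H3.ch (w j) (v j)) * f v :=
  ⟨h.continuous, h.integrable hf hS, H86B.norm_RK_le h hS, H86B.measurable_RK h hf⟩

/-- **Integrability for continuous kernels**: the volume of products of balls of fixed radius is bounded
independently of the centre, and for a continuous bounded `κ`, zero as soon as one `t_j > R`, and a
measurable `g` bounded on the product of balls around `x`, the function `w ↦ κ(ch(x, w)) g(w)` is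
integrable. (`H5ZH3`) -/
theorem integrable_of_continuous_kernel {J : Type*} [Fintype J] {κ : (J → ℝ) → ℂ}
    (hκ : Continuous κ) {M R : ℝ} (hM : ∀ u, ‖κ u‖ ≤ M) (hR : ∀ u, (∃ j, R < u j) → κ u = 0)
    {g : (J → H3) → ℂ} (hgm : AEStronglyMeasurable g volume) {x : J → H3} {G : ℝ}
    (hg : ∀ w : J → H3, (∀ j, H3.ch (x j) (w j) ≤ R) → ‖g w‖ ≤ G) :
    (∃ V : ℝ, 0 ≤ V ∧ ∀ x : J → H3,
      volume {w : J → H3 | ∀ j, H3.ch (x j) (w j) ≤ R} ≤ ENNReal.ofReal V) ∧
      Integrable (fun w => κ (fun j => H3.ch (x j) (w j)) * g w) volume :=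
  ⟨H5Z.exists_volume_Bl_le J R, H5Z.integrable_Rk hκ hM hR hgm hg⟩

/-! ## 2. The gain

A family `f i` (`i` in an index set `ι`) of functions on `(J → H3) × Y` is considered with weights
`H i ≥ 0`. In the application to kernels the index is the second variable `x' = (w', η')` in the Siegel
set, and `H = ht(w')^A`, so that the constants do not depend on `x'`. -/

/-- **Growth and cuspidality.** `Gr Y0 H s f`: on every set `y_j ≥ c` over the points `η` of `Y0` the
functions `f i` are at most `M ht^s H i` with `M` independent of `i`. `Cusp Y0 δ F`: for every `η` in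
`Y0` there is a set `P` of translations of positive measure, bounded by `δ`, such that the mean of
`F(·, η)` over `w + P` vanishes for all `w`. (`H95S2`) -/
theorem growth_and_cusp {J : Type*} [Fintype J] {Y ι : Type*} (Y0 : Set Y) (H : ι → ℝ) (s δ : ℝ)
    (f : ι → (J → H3) × Y → ℂ) (F : (J → H3) × Y → ℂ) :
    (H95S.Gr Y0 H s f ↔ ∀ c > 0, ∃ M, 0 ≤ M ∧ ∀ i, ∀ η ∈ Y0, ∀ w : J → H3, (∀ j, c ≤ (w j).y) →
      ‖f i (w, η)‖ ≤ M * (∏ j, (w j).y) ^ s * H i) ∧
    (H95S.Cusp Y0 δ F ↔ ∀ η ∈ Y0, ∃ P : Set (J → ℂ), MeasurableSet P ∧ 0 < volume P ∧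
      (∀ u ∈ P, ∀ j, ‖u j‖ ≤ δ) ∧ ∀ w, ∫ u in P, F (H95S.tr u w, η) = 0) :=
  ⟨Iff.rfl, Iff.rfl⟩

/-- **Mean zero.** A continuous function on a set `P` of finite positive measure with integral zero,
which differs from the constant `a` by at most `E` on `P`, has `|a| ≤ E`. (`H95S2`) -/
theorem small_of_mean_zero {J : Type*} [Fintype J] {P : Set (J → ℂ)} (hPm : MeasurableSet P)
    (hP0 : 0 < volume P) (hPt : volume P < ⊤) {φ : (J → ℂ) → ℂ} (hφ : ContinuousOn φ P)
    (hint : ∫ u in P, φ u = 0) {a : ℂ} {E : ℝ} (hE : ∀ u ∈ P, ‖φ u - a‖ ≤ E) : ‖a‖ ≤ E :=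
  H95S.norm_le_of_mean_zero hPm hP0 hPt hφ hint hE

/-- **Heights.** The height is positive, invariant under horospherical translations, at least `c^#J` if
all `y_j ≥ c`; real powers of comparable positive numbers are comparable: `a ≤ K b` and `b ≤ K a` imply
`a^s ≤ K^|s| b^s`. (`H95S2`) -/
theorem heights {J : Type*} [Fintype J] (u : J → ℂ) {w : J → H3} {c : ℝ} (hc : 0 ≤ c)
    (h : ∀ j, c ≤ (w j).y) {a b K s : ℝ} (ha : 0 < a) (hb : 0 < b) (hK : 1 ≤ K) (h1 : a ≤ K * b)
    (h2 : b ≤ K * a) :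
    H95S.ht w = ∏ j, (w j).y ∧ 0 < H95S.ht w ∧ H95S.ht (H95S.tr u w) = H95S.ht w ∧
      c ^ Fintype.card J ≤ H95S.ht w ∧ a ^ s ≤ K ^ |s| * b ^ s :=
  ⟨rfl, H95S.ht_pos w, H95S.ht_tr u w, H95S.pow_le_ht hc h, H95S.rpow_le_of_comparable ha hb hK h1 h2⟩

/-- **The gain of one application.** `f i = R(κ) g i` over the points of `Y0`, the constant terms of
`f i` vanish, every point `w` can be replaced by `w'` of the same height and with
`ht(w)^(1/r) ≤ B y_j(w')` for all `j`, without changing the value of `f i`. If the `g i` have growth of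
order `s`, the `f i` have growth of order `s - 1/r`. Proof: at the balanced point `w'` translations by
`P` have size `≤ δ B ht(w)^(-1/r) y_j(w')`, by `mean_value` in `GuideTrace` the values of `f i` on
`w' + P` differ from `f i (w')` by at most `C ht(w)^(-1/r)` times the supremum of `g i` near `w'`, and
`small_of_mean_zero` applies. (`H95S2`) -/
theorem gain {J : Type*} [Fintype J] {Y ι : Type*} {κ : (J → ℝ) → ℂ} {T L M : ℝ}
    (hκ : H95S.Ker κ T L M) {Y0 : Set Y} {H : ι → ℝ} {s : ℝ} {g f : ι → (J → H3) × Y → ℂ}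
    (hJ : 0 < Fintype.card J) (hH : ∀ i, 0 ≤ H i) (hg : H95S.Gr Y0 H s g)
    (hmeas : ∀ i, ∀ η ∈ Y0, Measurable fun v => g i (v, η))
    (hfg : ∀ i, ∀ η ∈ Y0, ∀ w, f i (w, η) = ∫ v, κ (fun j => H3.ch (w j) (v j)) * g i (v, η))
    {δ : ℝ} (hcusp : ∀ i, H95S.Cusp Y0 δ (f i)) {B : ℝ}
    (hbal : ∀ i, ∀ η ∈ Y0, ∀ w, ∃ w', f i (w', η) = f i (w, η) ∧ H95S.ht w' = H95S.ht w ∧
      ∀ j, H95S.ht w ^ (1 / (Fintype.card J : ℝ)) ≤ B * (w' j).y) :
    H95S.Gr Y0 H (s - 1 / Fintype.card J) f :=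
  H95S.Gr.step hκ hJ hH hg hmeas hfg hcusp hbal

/-- **The gain of `k` applications**, for families: growth of order `s` of `F 0` gives growth of order
`s - k/r` of `F k`, uniformly in the family. The version for one function is `decay` in `GuideTrace`.
(`H95S2`) -/
theorem gain_iterated {J : Type*} [Fintype J] {Y ι : Type*} {κ : (J → ℝ) → ℂ} {T L M : ℝ}
    (hκ : H95S.Ker κ T L M) {Y0 : Set Y} {H : ι → ℝ} {s : ℝ} {F : ℕ → ι → (J → H3) × Y → ℂ}
    (hJ : 0 < Fintype.card J) (hH : ∀ i, 0 ≤ H i) (k : ℕ) (hbase : H95S.Gr Y0 H s (F 0))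
    (hmeas : ∀ n < k, ∀ i, ∀ η ∈ Y0, Measurable fun v => F n i (v, η))
    (hsucc : ∀ n < k, ∀ i, ∀ η ∈ Y0, ∀ w,
      F (n + 1) i (w, η) = ∫ v, κ (fun j => H3.ch (w j) (v j)) * F n i (v, η))
    {δ : ℝ} (hcusp : ∀ n < k, ∀ i, H95S.Cusp Y0 δ (F (n + 1) i)) {B : ℝ}
    (hbal : ∀ n < k, ∀ i, ∀ η ∈ Y0, ∀ w, ∃ w', F (n + 1) i (w', η) = F (n + 1) i (w, η) ∧
      H95S.ht w' = H95S.ht w ∧ ∀ j, H95S.ht w ^ (1 / (Fintype.card J : ℝ)) ≤ B * (w' j).y) :
    H95S.Gr Y0 H (s - k / Fintype.card J) (F k) :=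
  H95S.Gr.iterate hκ hJ hH k hbase hmeas hsucc hcusp hbal

/-! ## 3. Eigenfunctions -/

/-- **Rapid decay.** `R(κ) Φ = c₁ Φ` with `c₁ ≠ 0`, `Φ` measurable of growth `ht^A`, with vanishing
constant terms and with balancing. Then `Φ = O(ht^(-m))` for every real `m` on the sets `y_j ≥ c`: apply
`decay` of `GuideTrace` to `F n = c₁^n Φ` and to a large `k`. (`H95S4`) -/
theorem rapid_decay {J : Type*} [Fintype J] {Y : Type*} {κ : (J → ℝ) → ℂ} {T L M : ℝ}
    (hκ : H95S.Ker κ T L M) (Y0 : Set Y) (hJ : 0 < Fintype.card J) {A : ℝ}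
    (Φ : (J → H3) × Y → ℂ)
    (hgrow : ∀ c > 0, ∃ M', ∀ η ∈ Y0, ∀ w : J → H3, (∀ j, c ≤ (w j).y) →
      ‖Φ (w, η)‖ ≤ M' * H95S.ht w ^ A)
    (hmeas : ∀ η ∈ Y0, Measurable fun v => Φ (v, η)) {c₁ : ℂ} (hc₁ : c₁ ≠ 0)
    (heig : ∀ η ∈ Y0, ∀ w, ∫ v, κ (fun j => H3.ch (w j) (v j)) * Φ (v, η) = c₁ * Φ (w, η))
    {δ : ℝ} (hcusp : H95S.Cusp Y0 δ Φ) {B : ℝ}
    (hbal : ∀ η ∈ Y0, ∀ w, ∃ w', Φ (w', η) = Φ (w, η) ∧ H95S.ht w' = H95S.ht w ∧
      ∀ j, H95S.ht w ^ (1 / (Fintype.card J : ℝ)) ≤ B * (w' j).y) (m : ℝ) :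
    ∀ c > 0, ∃ M', 0 ≤ M' ∧ ∀ η ∈ Y0, ∀ w : J → H3, (∀ j, c ≤ (w j).y) →
      ‖Φ (w, η)‖ ≤ M' * H95S.ht w ^ (-m) :=
  H95S.rapid_of_eigen hκ Y0 hJ Φ hgrow hmeas hc₁ heig hcusp hbal m

/-- **One exponent for all points.** If `Y0` is finite and `Φ(·, η)` has growth of an order depending on
`η`, there is one order `A ≥ 0` for all `η` in `Y0` (the sum of the absolute values). With this remark
and `rapid_decay` for `m = 0` one gets `bounded_of_eigenfunction` in `GuideTrace`. (`H95S5`) -/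
theorem uniform_exponent {J : Type*} [Fintype J] {Y : Type*} {Y0 : Set Y} (hY0 : Y0.Finite)
    (Φ : (J → H3) × Y → ℂ)
    (h : ∀ η ∈ Y0, ∃ A : ℝ, ∀ c > 0, ∃ M, ∀ w : J → H3, (∀ j, c ≤ (w j).y) →
      ‖Φ (w, η)‖ ≤ M * H95S.ht w ^ A) :
    ∃ A : ℝ, 0 ≤ A ∧ ∀ c > 0, ∃ M, ∀ η ∈ Y0, ∀ w : J → H3, (∀ j, c ≤ (w j).y) →
      ‖Φ (w, η)‖ ≤ M * H95S.ht w ^ A :=
  H95S.grow_uniform hY0 Φ h

/-! ## 4. The lattice point count

The steps of `counting` in `GuideSiegel`. The exponent `4` comes from the four entries of a matrix: the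
number of integers `a` with `|e_j a| ≤ T_j` is `O(∏ (1 + T_j)²)`, and `T_j²` is of the size `y_j y'_j`. -/

/-- A nonzero integer of a number field has a conjugate of absolute value at least `1` (its norm is a
nonzero rational integer). (`H95S3`) -/
theorem some_conjugate_large {K : Type*} [Field K] [NumberField K] {J : Type*} [Fintype J]
    (e : J → K →+* ℂ) (he : ∀ v : InfinitePlace K, ∃ j, InfinitePlace.mk (e j) = v)
    {a : 𝓞 K} (ha : a ≠ 0) : ∃ j, 1 ≤ ‖e j a‖ :=
  H95S.exists_one_le e he ha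

/-- **Integers are separated by the integral parts of twice their coordinates**: the difference of two
integers with the same integral parts has all `|e_j a|² < 1/4 + 1/4`. So the integers in a box are
counted by integral points (`integers_in_box` in `GuideTrace`). (`H95S3`) -/
theorem floor_coordinates_injective {K : Type*} [Field K] [NumberField K] {J : Type*} [Fintype J]
    (e : J → K →+* ℂ) (he : ∀ v : InfinitePlace K, ∃ j, InfinitePlace.mk (e j) = v) :
    Function.Injective fun (a : 𝓞 K) (j : J) => ((⌊2 * (e j a).re⌋, ⌊2 * (e j a).im⌋) : ℤ × ℤ) :=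
  H95S.flo_injective e he

/-- **Families of integers.** If the elements of a set `S` are determined by `#β` integers in the box,
then `S` has at most `(∏ (4 T_j + 2)²)^#β` elements; `β` has four elements for matrices. (`H95S3`) -/
theorem families_of_integers {K : Type*} [Field K] [NumberField K] {J : Type*} [Fintype J]
    (e : J → K →+* ℂ) (he : ∀ v : InfinitePlace K, ∃ j, InfinitePlace.mk (e j) = v)
    (T : J → ℝ) (hT : ∀ j, 0 ≤ T j) {G β : Type*} [Fintype β] {S : Set G} (m : G → β → 𝓞 K)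
    (hm : Set.InjOn m S) (hS : ∀ g ∈ S, ∀ b j, ‖e j (m g b)‖ ≤ T j) :
    S.Finite ∧ (S.ncard : ℝ) ≤ (∏ j, (4 * T j + 2) ^ 2) ^ Fintype.card β :=
  H95S.finite_family e he T hT m hm hS

/-- **Diagonal entries of the hermitian form of `g w`.** `H3.herm w` is the positive definite hermitian
matrix of determinant `1` of the point `w = (z, y)`, with diagonal entries `(|z|² + y²) / y` and
`1 / y`. For `g w` the diagonal entry with index `a` is
`(|g_{a0} z + g_{a1}|² + |g_{a0}|² y²) / (y |det g|)`. (`H95S3`) -/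
theorem hermitian_diagonal (g : GL (Fin 2) ℂ) (w : H3) (a : Fin 2) :
    (H3.herm (g • w) a a).re = (Complex.normSq (g a 0 * w.z + g a 1) +
      Complex.normSq (g a 0) * w.y ^ 2) / (w.y * ‖(g : Matrix (Fin 2) (Fin 2) ℂ).det‖) :=
  H95S.herm_smul_diag g w a

/-- **Size of the entries.** There is a constant `C`, depending only on `c`, `Z`, `R`, such that for points
`w`, `w'` with heights at least `c` and `|z|, |z'| ≤ Z` the inequality `ch(w, g w') ≤ R` implies
`|g_{ab}|² ≤ C |det g| y y'` for all entries of `g`: the points of the ball around `w` have hermitian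
forms with diagonal entries `O(y)`, and `hermitian_diagonal` expresses them by the entries of `g`.
Compare `matrix_size` in `GuideSiegel`. (`H95S3`) -/
theorem entries_bounded {c Z R : ℝ} (hc : 0 < c) (hR : 1 ≤ R) (hZ : 0 ≤ Z) :
    ∃ C, 0 < C ∧ ∀ (g : GL (Fin 2) ℂ) (w w' : H3), c ≤ w.y → c ≤ w'.y → ‖w.z‖ ≤ Z →
      ‖w'.z‖ ≤ Z → H3.ch w (g • w') ≤ R → ∀ a b,
        ‖g a b‖ ^ 2 ≤ C * ‖(g : Matrix (Fin 2) (Fin 2) ℂ).det‖ * (w.y * w'.y) :=
  H95S.exists_entry_sq_le hc hR hZ

/-- **The count for matrices with bounded denominators and determinants.** `S` is a set with an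
injective map `lift` to `GL₂(K)` such that the entries of `N · lift g` are integers of `K` and all
conjugates of `det(lift g)` have absolute value at most `Δ`. The number of the `g` in `S` which move
`w'` into the balls of radius `arcosh R` around `w` is at most `M (ht w · ht w')^4` for all `w`, `w'` with
heights at least `c` and `|z_j|, |z'_j| ≤ Z`; here `M` depends only on `c`, `Z`, `R`, `N`, `Δ` (and on
the embeddings), not on `S`. (`H95S3`) -/
theorem count_of_lifts {K : Type*} [Field K] [NumberField K] {J : Type*} [Fintype J]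
    (e : J → K →+* ℂ) (he : ∀ v : InfinitePlace K, ∃ j, InfinitePlace.mk (e j) = v)
    {c Z R : ℝ} (hc : 0 < c) (hR : 1 ≤ R) (hZ : 0 ≤ Z) {N : K} (hN : N ≠ 0) {Δ : ℝ} :
    ∃ M, 0 ≤ M ∧ ∀ (G : Type*) (S : Set G) (lift : G → GL (Fin 2) K), Set.InjOn lift S →
      (∀ g ∈ S, ∀ a b, ∃ x : 𝓞 K, (x : K) = N * lift g a b) →
      (∀ g ∈ S, ∀ j, ‖e j (lift g : Matrix (Fin 2) (Fin 2) K).det‖ ≤ Δ) →
      ∀ w w' : J → H3, (∀ j, c ≤ (w j).y) → (∀ j, c ≤ (w' j).y) → (∀ j, ‖(w j).z‖ ≤ Z) →
        (∀ j, ‖(w' j).z‖ ≤ Z) →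
      (∀ g ∈ S, ∀ j,
        H3.ch (w j) (Matrix.GeneralLinearGroup.map (e j) (lift g) • w' j) ≤ R) →
      S.Finite ∧ (S.ncard : ℝ) ≤ M * (H95S.ht w * H95S.ht w') ^ (4 : ℝ) :=
  H95S.count_le e he hc hR hZ hN

/-- **Good representatives.** The elements of `PGL₂(K)` which map the class of the lattice `Λ` to the
class of `Λ'` have representatives in `GL₂(K)` with a common denominator `N` and with bounded conjugates
of the determinant. By `finitely_many_determinants` in `GuideSiegel` the determinants can even be taken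
from a finite set. (`H31I2`) -/
theorem good_representatives {K : Type*} [Field K] [NumberField K] {J : Type*} [Fintype J]
    (e : J → K →+* ℂ) (Λ Λ' : H26Z.Lat (𝓞 K) K) :
    ∃ (N : K) (Δ : ℝ), N ≠ 0 ∧ ∀ g : PGL(2, K), g • H26Z.LatC.mk Λ = H26Z.LatC.mk Λ' →
      ∃ h : GL (Fin 2) K, Matrix.ProjGenLinGroup.mk h = g ∧
        (∀ a b, ∃ x : 𝓞 K, (x : K) = N * h a b) ∧
        ∀ j, ‖e j (h : Matrix (Fin 2) (Fin 2) K).det‖ ≤ Δ :=
  H31I.exists_good_lifts e Λ Λ'

/-- **Translation into a box.** The multiples of a nonzero integer `n` are cocompact: every vector `z`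
in `ℂ^J` differs from the image of such a multiple by a bounded vector. (`H31I2`) -/
theorem translate_into_box {K : Type*} [Field K] [NumberField K] {J : Type*} [Fintype J]
    (e : J → K →+* ℂ) (he : Function.Bijective fun j => InfinitePlace.mk (e j))
    (hc : ∀ j, ¬ ComplexEmbedding.IsReal (e j)) {n : 𝓞 K} (hn : n ≠ 0) :
    ∃ B : ℝ, 0 ≤ B ∧ ∀ z : J → ℂ, ∃ b : 𝓞 K, ∀ j, ‖z j - e j ((n : K) * b)‖ ≤ B :=
  H31I.exists_translate_mul e he hc hn

/-- **The count on `(J → H3) × Y`** for a set `Y` with action of `PGL₂(K)` and an equivariant map `π` to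
the classes of lattices; `y` and `y'` are fixed by the translations by the multiples of a nonzero
integer (`H31I.TrStab`). Translating `w` and `w'` into the box changes the set of the `g` by a bijection
and leaves the heights unchanged; the representatives are those of `good_representatives`, and
`count_of_lifts` applies. For the model the two hypotheses hold, and one obtains `counting` in
`GuideSiegel`. (`H31I2`, `H31I3`) -/
theorem count_abstract {K : Type*} [Field K] [NumberField K] {J : Type*} [Fintype J] {Y : Type*}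
    [MulAction PGL(2, K) Y] (e : J → K →+* ℂ)
    (he : Function.Bijective fun j => InfinitePlace.mk (e j))
    (hc : ∀ j, ¬ ComplexEmbedding.IsReal (e j)) (π : Y → H26Z.LatC (𝓞 K) K)
    (hπ : ∀ (g : PGL(2, K)) y, π (g • y) = g • π y) (y y' : Y) (hs : H31I.TrStab (K := K) y)
    (hs' : H31I.TrStab (K := K) y') (T : ℝ) {c : ℝ} (hc0 : 0 < c) :
    ∃ M, 0 ≤ M ∧ ∀ w w' : J → H3, (∀ j, c ≤ (w j).y) → (∀ j, c ≤ (w' j).y) →
      {g : PGL(2, K) | g • y' = y ∧
        ∀ j, H3.ch (w j) (Matrix.ProjGenLinGroup.map (e j) g • w' j) ≤ T}.Finite ∧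
      (({g : PGL(2, K) | g • y' = y ∧
        ∀ j, H3.ch (w j) (Matrix.ProjGenLinGroup.map (e j) g • w' j) ≤ T}.ncard : ℕ) : ℝ) ≤
          M * (H95S.ht w * H95S.ht w') ^ (4 : ℝ) :=
  H31I.count_abs e he hc π hπ y y' hs hs' T hc0

/-! ## 5. Automorphic kernels on `(J → H3) × Y`

`G` is a group acting on `J → H3` by maps which preserve all the functions `ch` and the volume
(`H86B.Iso`), and on the set `Y`; the action is properly discontinuous (`H86B.PD`). Compact boxes
`D R = {v | |z_j| ≤ R, y_j ≤ R, 1 ≤ R y_j}` are used instead of a topology on the product. -/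

/-- **Compact boxes.** Every point lies in a box; the boxes increase with `R`; if `v` lies in `D R` and
`ch(v_j, v'_j) ≤ T` for all `j` (`T ≥ 1`), then `v'` lies in `D (3 T R)`. (`H86B1`) -/
theorem compact_boxes {J : Type*} [Fintype J] :
    (∀ (R : ℝ) (v : J → H3), v ∈ H86B.D J R ↔
      ∀ j, ‖(v j).z‖ ≤ R ∧ (v j).y ≤ R ∧ 1 ≤ R * (v j).y) ∧
    (∀ v : J → H3, ∃ R, v ∈ H86B.D J R) ∧ (∀ {R R' : ℝ}, R ≤ R' → H86B.D J R ⊆ H86B.D J R') ∧
    ∀ {R T : ℝ}, 1 ≤ T → ∀ {v v' : J → H3}, v ∈ H86B.D J R →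
      (∀ j, H3.ch (v j) (v' j) ≤ T) → v' ∈ H86B.D J (3 * T * R) :=
  ⟨fun _ _ => Iff.rfl, H86B.exists_mem_D, fun h => H86B.D_mono h,
    fun hT _ _ hv h => H86B.mem_D_of_box hT hv h⟩

/-- **The hypotheses on the group and the class of kernels.** `Iso`: isometries preserving the volume.
`PD`: for all `η`, `ξ`, `w`, `w'`, `T` only finitely many `g` satisfy `g η = ξ` and
`ch(w_j, (g w')_j) ≤ T` for all `j`. `TK`: `c(g x, g y) = c(x, y)`, measurable in the first variable,
bounded; for `x` in a box and `c(x, y) ≠ 0` the point `y` lies in a box; every `η` has finitely many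
neighbours `ξ`. (`H86B1`) -/
theorem class_of_kernels {J : Type*} [Fintype J] {Y G : Type*} [Group G] [MulAction G (J → H3)]
    [MulAction G Y] (c : (J → H3) × Y → (J → H3) × Y → ℂ) :
    (H86B.Iso G J ↔
      (∀ (g : G) (v w : J → H3) (j : J), H3.ch ((g • v) j) ((g • w) j) = H3.ch (v j) (w j)) ∧
      ∀ g : G, MeasurePreserving (fun w : J → H3 => g • w) volume volume) ∧
    (H86B.PD G J Y ↔ ∀ (η ξ : Y) (w w' : J → H3) (T : ℝ),
      {g : G | g • η = ξ ∧ ∀ j, H3.ch (w j) ((g • w') j) ≤ T}.Finite) ∧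
    (H86B.TK G c ↔ (∀ (g : G) x y, c (g • x) (g • y) = c x y) ∧
      (∀ η y, Measurable fun v => c (v, η) y) ∧ (∃ M, 0 ≤ M ∧ ∀ x y, ‖c x y‖ ≤ M) ∧
      (∀ R, ∃ R', ∀ x y, x.1 ∈ H86B.D J R → c x y ≠ 0 → y.1 ∈ H86B.D J R') ∧
      ∀ η, {ξ | ∃ v w, c (v, η) (w, ξ) ≠ 0}.Finite) :=
  ⟨⟨fun h => ⟨h.1, h.2⟩, fun h => ⟨h.1, h.2⟩⟩, Iff.rfl,
    ⟨fun h => ⟨h.1, h.2, h.3, h.4, h.5⟩, fun h => ⟨h.1, h.2.1, h.2.2.1, h.2.2.2.1, h.2.2.2.2⟩⟩⟩

/-- **The class is stable under smoothing in the first variable**, so all iterates `cn κ c n = R(κ)^n c`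
belong to it. (`H86B1`) -/
theorem class_stable {J : Type*} [Fintype J] {Y G : Type*} [Group G] [MulAction G (J → H3)]
    [MulAction G Y] (hI : H86B.Iso G J) {c : (J → H3) × Y → (J → H3) × Y → ℂ}
    (hc : H86B.TK G c) {κ : (J → ℝ) → ℂ} {T L M : ℝ} (h : H95S.Ker κ T L M) :
    H86B.TK G (H86B.RC κ c) ∧ ∀ n : ℕ, H86B.TK G (H86B.cn κ c n) :=
  ⟨hc.RC hI h, hc.cn hI h⟩

/-- **The automorphic kernel is locally a finite sum.** `K(x, y) = ∑_g c(x, g y)`; for `x = (v, η)` with
`v` in the box `D R` only the finitely many `g` of one set, which does not depend on `v`, contribute; so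
`K` is bounded for `v` in the box and measurable in `v`. (`H86B1`) -/
theorem automorphic_kernel_finite {J : Type*} [Fintype J] {Y G : Type*} [Group G]
    [MulAction G (J → H3)] [MulAction G Y] (hP : H86B.PD G J Y)
    {c : (J → H3) × Y → (J → H3) × Y → ℂ} (hc : H86B.TK G c) (R : ℝ) (η : Y)
    (y : (J → H3) × Y) :
    (∀ x, H86B.K G c x y = ∑' g : G, c x (g • y)) ∧
      {g : G | ∃ v ∈ H86B.D J R, c (v, η) (g • y) ≠ 0}.Finite ∧
      (∃ s : Finset G, ∀ v ∈ H86B.D J R, H86B.K G c (v, η) y = ∑ g ∈ s, c (v, η) (g • y)) ∧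
      (∃ S, 0 ≤ S ∧ ∀ v ∈ H86B.D J R, ‖H86B.K G c (v, η) y‖ ≤ S) ∧
      Measurable fun v => H86B.K G c (v, η) y :=
  ⟨fun _ => rfl, hc.finite_supp hP R η y, ⟨_, fun _ hv => H86B.K_eq_sum hP hc R η y hv⟩,
    H86B.K_locBdd hP hc R η y, H86B.measurable_K hP hc η y⟩

/-- **Invariance and symmetry of the automorphic kernel.** `K(h x, y) = K(x, y)` for `h` in `G`; if
`c(y, x)` is the complex conjugate of `c(x, y)`, then the same holds for `K`. (`H86B1`) -/
theorem automorphic_kernel_symmetry {J : Type*} [Fintype J] {Y G : Type*} [Group G]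
    [MulAction G (J → H3)] [MulAction G Y] {c : (J → H3) × Y → (J → H3) × Y → ℂ}
    (hc : H86B.TK G c) (h : G) (x y : (J → H3) × Y) :
    H86B.K G c (h • x) y = H86B.K G c x y ∧
      ((∀ x y, c y x = conj (c x y)) → H86B.K G c y x = conj (H86B.K G c x y)) :=
  ⟨H86B.K_smul hc h x y, fun hs => H86B.K_symm hc hs x y⟩

/-- **The automorphic kernel of `R(κ) c` is `R(κ)` of the automorphic kernel of `c`**, in the first
variable: sum and integral are exchanged, which is allowed since on the ball around `w` the sum is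
finite. (`H86B1`) -/
theorem automorphic_kernel_smoothing {J : Type*} [Fintype J] {Y G : Type*} [Group G]
    [MulAction G (J → H3)] [MulAction G Y] (hP : H86B.PD G J Y)
    {c : (J → H3) × Y → (J → H3) × Y → ℂ} (hc : H86B.TK G c) {κ : (J → ℝ) → ℂ} {T L M : ℝ}
    (h : H95S.Ker κ T L M) (w : J → H3) (η : Y) (y : (J → H3) × Y) :
    H86B.K G (H86B.RC κ c) (w, η) y =
      ∫ v, κ (fun j => H3.ch (w j) (v j)) * H86B.K G c (v, η) y :=
  H86B.K_RC hP hc h w η y

/-- **Smoothing preserves vanishing constant terms**, for one function: if the integral of `f` over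
`w + P` vanishes for all `w`, the same holds for `R(κ) f`, because `R(κ)` commutes with translations
(Fubini; `f` is bounded on boxes and `P` is bounded). (`H86B1`) -/
theorem smoothing_preserves_cusp {J : Type*} [Fintype J] {κ : (J → ℝ) → ℂ} {T L M : ℝ}
    (h : H95S.Ker κ T L M) {f : (J → H3) → ℂ} (hf : Measurable f)
    (hb : ∀ R, ∃ S, ∀ v ∈ H86B.D J R, ‖f v‖ ≤ S) {P : Set (J → ℂ)} (hP : MeasurableSet P)
    {δ : ℝ} (hδ : ∀ u ∈ P, ∀ j, ‖u j‖ ≤ δ) (h0 : ∀ w, ∫ u in P, f (H95S.tr u w) = 0)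
    (w : J → H3) :
    ∫ u in P, ∫ v, κ (fun j => H3.ch (H95S.tr u w j) (v j)) * f v = 0 :=
  H86B.RK_cusp h hf hb hP hδ h0 w

/-- **The constant terms of all later iterates vanish** once those of the automorphic kernel of
`R(κ)^(n₀) c` vanish. So only one vanishing statement, for `n₀ = 1`, has to be proved for the operators
of block (C) (`cuspAll` in `GuideConstantTerms`). (`H86B1`) -/
theorem constant_terms_of_iterates {J : Type*} [Fintype J] {Y G : Type*} [Group G]
    [MulAction G (J → H3)] [MulAction G Y] (hI : H86B.Iso G J) (hP : H86B.PD G J Y)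
    {c : (J → H3) × Y → (J → H3) × Y → ℂ} (hc : H86B.TK G c) {κ : (J → ℝ) → ℂ}
    {T L M : ℝ} (h : H95S.Ker κ T L M) (Y0 : Set Y) {δ : ℝ} {n₀ : ℕ}
    (hcusp : ∀ x', H95S.Cusp Y0 δ fun x => H86B.K G (H86B.cn κ c n₀) x x') (n : ℕ)
    (hn : n₀ ≤ n) : ∀ x', H95S.Cusp Y0 δ fun x => H86B.K G (H86B.cn κ c n) x x' :=
  H86B.cusp_cn hI hP hc h Y0 hcusp n hn

/-- **Bounded kernel theorem for a group.** `bounded_kernel_abstract` of `GuideTrace` for the relation
"same orbit under `G`" and the automorphic kernels of the iterates: hypotheses are the symmetry of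
`R(κ)^k c` (`c_k(y, x)` the conjugate of `c_k(x, y)`, to exchange the variables), the vanishing of the
constant terms for `R(κ) c`, reduction theory for `G`, and the crude bound `(ht w · ht w')^A`; the
automorphic kernel of `R(κ)^k c` is bounded if `k ≥ 2 A #J`, `k > 0`. (`H86B1`) -/
theorem bounded_for_group {J : Type*} [Fintype J] {Y G : Type*} [Group G]
    [MulAction G (J → H3)] [MulAction G Y] (hI : H86B.Iso G J) (hP : H86B.PD G J Y)
    {c : (J → H3) × Y → (J → H3) × Y → ℂ} (hc : H86B.TK G c) {κ : (J → ℝ) → ℂ}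
    {T L M : ℝ} (h : H95S.Ker κ T L M) (Y0 : Set Y) (hJ : 0 < Fintype.card J) (k : ℕ)
    (hs : ∀ x y, H86B.cn κ c k y x = conj (H86B.cn κ c k x y))
    {δ : ℝ} (hcusp : ∀ x', H95S.Cusp Y0 δ fun x => H86B.K G (H86B.cn κ c 1) x x')
    {B c₀ : ℝ} (hc₀ : 0 < c₀)
    (hbal : ∀ η ∈ Y0, ∀ w : J → H3, ∃ w', (∃ g : G, g • ((w, η) : (J → H3) × Y) = (w', η)) ∧
      H95S.ht w' = H95S.ht w ∧ ∀ j, H95S.ht w ^ (1 / (Fintype.card J : ℝ)) ≤ B * (w' j).y)
    (hred : ∀ x : (J → H3) × Y, ∃ w, ∃ η ∈ Y0, (∃ g : G, g • x = (w, η)) ∧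
      ∀ j, c₀ ≤ (w j).y)
    {A : ℝ} (hA : 0 ≤ A)
    (hbase : ∀ c' > 0, ∃ S, ∀ η ∈ Y0, ∀ η' ∈ Y0, ∀ w w' : J → H3, (∀ j, c' ≤ (w j).y) →
      (∀ j, c' ≤ (w' j).y) →
        ‖H86B.K G c (w, η) (w', η')‖ ≤ S * (H95S.ht w * H95S.ht w') ^ A)
    (hk : 2 * A * Fintype.card J ≤ k) (hk0 : 0 < k) :
    ∃ S, ∀ x x', ‖H86B.K G (H86B.cn κ c k) x x'‖ ≤ S :=
  H86B.bounded hI hP hc h Y0 hJ k hs hcusp hc₀ hbal hred hA hbase hk hk0

/-! ## 6. The model

`m` is a model over the number field `K` (`GuideSiegel`, section 7): the group `PGL₂(K)` acts on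
`m.X = (J → H3) × XF m.L.fam`, on the first factor by `m.actInf`. -/

/-- **The hypotheses of section 5 hold for the model.** The action on `J → H3` preserves distances and
volume, and it is properly discontinuous on the product. (`H86B2`; proper discontinuity from `H31I3`) -/
theorem model_hypotheses {K : Type*} [Field K] [NumberField K] {J : Type*} [Fintype J]
    (m : H59D.Model K J) :
    (∀ (g : PGL(2, K)) (v w : J → H3) (j : J),
      H3.ch (m.actInf g v j) (m.actInf g w j) = H3.ch (v j) (w j)) ∧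
    (∀ g : PGL(2, K), MeasurePreserving (m.actInf g) volume volume) ∧
    ∀ (η ξ : H59XF.XF m.L.fam) (w w' : J → H3) (T : ℝ),
      {g : PGL(2, K) | g • η = ξ ∧ ∀ j, H3.ch (w j) (m.actInf g w' j) ≤ T}.Finite :=
  ⟨@H86B.Iso.ch_smul PGL(2, K) _ J _ (H86B.actJ m) (H86B.isoM m),
    @H86B.Iso.mp PGL(2, K) _ J _ (H86B.actJ m) (H86B.isoM m), H86B.pdM m⟩

/-- **Kernels of finite range belong to the class `TK`**: bounded, invariant, measurable in the first
variable, with support of bounded radius at infinity and finitely many neighbours in the finite part.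
(`H86B2`) -/
theorem finite_range {K : Type*} [Field K] [NumberField K] {J : Type*} [Fintype J]
    {m : H59D.Model K J} {c : m.X → m.X → ℂ} {T B : ℝ} (hB : ∀ x y, ‖c x y‖ ≤ B)
    (hT : ∀ x y, c x y ≠ 0 → ∀ j, H3.ch (x.1 j) (y.1 j) ≤ T)
    (hfin : ∀ η : H59XF.XF m.L.fam,
      {η' : H59XF.XF m.L.fam | ∃ w w' : J → H3, c (w, η) (w', η') ≠ 0}.Finite)
    (hinv : ∀ (g : PGL(2, K)) (x y : m.X), c (g • x) (g • y) = c x y)
    (hmeas : ∀ η y, Measurable fun v => c (v, η) y) :
    @H86B.TK J (H59XF.XF m.L.fam) PGL(2, K) _ (H86B.actJ m) _ c :=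
  H86B.TK.ofRange ⟨hB, hT, hfin⟩ hinv hmeas

/-- **Vanishing of all constant terms** of the automorphic kernel of `k` (`CutOff.autK`, the sum over
the group): for every point `η` of the finite part there is a bound `δ`, and for every second variable
`x'` a set of translations of positive measure within this bound over which the integral vanishes.
(`H86B2`) -/
theorem cuspAll_iff {K : Type*} [Field K] [NumberField K] {J : Type*} [Fintype J]
    (m : H59D.Model K J) (k : m.X → m.X → ℂ) :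
    H86B.CuspAll m k ↔ ∀ η : H59XF.XF m.L.fam, ∃ δ : ℝ, ∀ x' : m.X, ∃ P : Set (J → ℂ),
      MeasurableSet P ∧ 0 < volume P ∧ (∀ u ∈ P, ∀ j, ‖u j‖ ≤ δ) ∧
      ∀ w : J → H3, ∫ u in P,
        H32Z.CutOff.autK PGL(2, K) k ((H95S.tr u w, η) : m.X) x' = 0 :=
  Iff.rfl

/-- **Smoothing of a pure kernel** `κ' ⊗ f : (x, y) ↦ κ'(ch(x, y)) f(x_f, y_f)` in the first variable is
the pure kernel of the convolution `κ * κ'`. (`H86B2`) -/
theorem smoothing_of_pure_kernel {K : Type*} [Field K] [NumberField K] {J : Type*} [Fintype J]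
    {m : H59D.Model K J} (κ κ' : (J → ℝ) → ℂ) (f : H59XF.XF m.L.fam → H59XF.XF m.L.fam → ℂ)
    (w : J → H3) (η : H59XF.XF m.L.fam) (y : m.X) :
    m.ker κ' f ((w, η) : m.X) y = κ' (fun j => H3.ch (w j) (y.1 j)) * f η y.2 ∧
      (∫ v, κ (fun j => H3.ch (w j) (v j)) * m.ker κ' f ((v, η) : m.X) y) =
        m.ker (H56Z.conv κ κ') f ((w, η) : m.X) y :=
  ⟨rfl, congrFun (congrFun (H86B.RC_ker κ κ' f) (w, η)) y⟩

/-- **Finite sums of pure kernels.** `PK m s α κ f = ∑ α_i κ_i ⊗ f_i`; `R(κ)^k` of it is the same sum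
with `κ_i` replaced by `κ * ... * κ * κ_i`; convolution with a Lipschitz kernel preserves the class
`IsRC` of radial kernels, and it preserves real kernels. (`H86B2`) -/
theorem iterates_of_pure_kernels {K : Type*} [Field K] [NumberField K] {J : Type*} [Fintype J]
    {m : H59D.Model K J} {ι : Type*} {s : Finset ι} {α : ι → ℂ} {κs : ι → (J → ℝ) → ℂ}
    {f : ι → H59XF.XF m.L.fam → H59XF.XF m.L.fam → ℂ} {κ : (J → ℝ) → ℂ} {T L M : ℝ}
    (h : H95S.Ker κ T L M) (hκ : ∀ i ∈ s, H56Z.IsRC (κs i)) (k : ℕ) :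
    (∀ x y : m.X, H86B.PK m s α κs f x y = ∑ i ∈ s, α i * m.ker (κs i) (f i) x y) ∧
      H86B.cn κ (H86B.PK m s α κs f) k =
        H86B.PK m s α (fun i => (H56Z.conv κ)^[k] (κs i)) f ∧
      (∀ i ∈ s, H56Z.IsRC ((H56Z.conv κ)^[k] (κs i))) ∧
      ((∀ t, conj (κ t) = κ t) → ∀ i, (∀ t, conj (κs i t) = κs i t) →
        ∀ t, conj ((H56Z.conv κ)^[k] (κs i) t) = (H56Z.conv κ)^[k] (κs i) t) :=
  ⟨fun _ _ => rfl, H86B.cn_PK h hκ k,
    fun i hi => H86B.isRC_iterate (H86B.isRC_of_ker h) (hκ i hi) k,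
    fun h1 _ h2 t => H86B.conj_iterate h1 h2 k t⟩

/-- **Finite sums of pure kernels are of finite range, invariant and hermitian**, if the `f_i` are
bounded, with finite rows, invariant and hermitian, the `κ_i` are real and of the class `IsRC`, and the
`α_i` are real. (`H86B2`) -/
theorem pure_kernels_of_finite_range {K : Type*} [Field K] [NumberField K] {J : Type*}
    [Fintype J] {m : H59D.Model K J} {ι : Type*} {s : Finset ι} {α : ι → ℂ}
    {κs : ι → (J → ℝ) → ℂ} {f : ι → H59XF.XF m.L.fam → H59XF.XF m.L.fam → ℂ}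
    (hκ : ∀ i ∈ s, H56Z.IsRC (κs i)) (hκr : ∀ i ∈ s, ∀ t, conj (κs i t) = κs i t)
    (hα : ∀ i ∈ s, conj (α i) = α i)
    (hinv : ∀ i ∈ s, ∀ (g : PGL(2, K)) η ξ, f i (g • η) (g • ξ) = f i η ξ)
    (hrow : ∀ i ∈ s, ∀ η, {ξ | f i η ξ ≠ 0}.Finite)
    (hbd : ∀ i ∈ s, ∃ B : ℝ, ∀ η ξ, ‖f i η ξ‖ ≤ B)
    (hf : ∀ i ∈ s, ∀ η ξ, f i ξ η = conj (f i η ξ)) :
    (∃ T B : ℝ, (∀ x y : m.X, ‖H86B.PK m s α κs f x y‖ ≤ B) ∧
      (∀ x y : m.X, H86B.PK m s α κs f x y ≠ 0 → ∀ j, H3.ch (x.1 j) (y.1 j) ≤ T) ∧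
      ∀ η : H59XF.XF m.L.fam, {η' : H59XF.XF m.L.fam |
        ∃ w w' : J → H3, H86B.PK m s α κs f ((w, η) : m.X) (w', η') ≠ 0}.Finite) ∧
    (∀ (g : PGL(2, K)) (x y : m.X),
      H86B.PK m s α κs f (g • x) (g • y) = H86B.PK m s α κs f x y) ∧
    ∀ x y : m.X, H86B.PK m s α κs f y x = conj (H86B.PK m s α κs f x y) := by
  obtain ⟨T, B, h⟩ := H86B.PK_finRange (m := m) (α := α) hκ hrow hbd
  exact ⟨⟨T, B, h.bdd, h.ch_le, h.fin⟩, H86B.PK_smul hinv, H86B.PK_symm hα hκr hf⟩

/-- **Bounded kernel theorem for finite sums of pure kernels**: `a` is a real Lipschitz kernel; if the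
constant terms of the automorphic kernel of `∑ α_i (a * κ_i) ⊗ f_i` vanish and `k ≥ 8 #J`, the
automorphic kernel of `∑ α_i (a * ... * a * κ_i) ⊗ f_i` (`k` factors `a`) is bounded. For kernels `f_i`
of Hecke operators it is `bounded_kernel` in `GuideOctC`. (`H86B2`, `H86B3`) -/
theorem bounded_for_pure_kernels {K : Type*} [Field K] [NumberField K] {J : Type*} [Fintype J]
    {m : H59D.Model K J} {ι : Type*} {s : Finset ι} {α : ι → ℂ} {κs : ι → (J → ℝ) → ℂ}
    {f : ι → H59XF.XF m.L.fam → H59XF.XF m.L.fam → ℂ} {a : (J → ℝ) → ℂ} {T L M : ℝ}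
    (h : H95S.Ker a T L M) (ha : ∀ t, conj (a t) = a t) (hκ : ∀ i ∈ s, H56Z.IsRC (κs i))
    (hκr : ∀ i ∈ s, ∀ t, conj (κs i t) = κs i t) (hα : ∀ i ∈ s, conj (α i) = α i)
    (hinv : ∀ i ∈ s, ∀ (g : PGL(2, K)) η ξ, f i (g • η) (g • ξ) = f i η ξ)
    (hrow : ∀ i ∈ s, ∀ η, {ξ | f i η ξ ≠ 0}.Finite)
    (hbd : ∀ i ∈ s, ∃ B : ℝ, ∀ η ξ, ‖f i η ξ‖ ≤ B)
    (hf : ∀ i ∈ s, ∀ η ξ, f i ξ η = conj (f i η ξ))
    (hcusp : H86B.CuspAll m (H86B.PK m s α (fun i => H56Z.conv a (κs i)) f)) {k : ℕ}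
    (hk : 8 * Fintype.card J ≤ k) :
    ∃ B : ℝ, 0 ≤ B ∧ ∀ x y : m.X, ‖H32Z.CutOff.autK PGL(2, K)
      (H86B.PK m s α (fun i => (H56Z.conv a)^[k] (κs i)) f) x y‖ ≤ B :=
  H86B.bd_PK h ha hκ hκr hα hinv hrow hbd hf hcusp hk

/-- **The Lipschitz kernels that are used.** A function `a` of one real variable, continuous, bounded,
zero for large arguments (`IsK1`) and Lipschitz, defines kernels of the class `Ker`: `t ↦ a(t_0)` for
one complex place and `t ↦ ∏ a(t_j)` for several ones. (`H86B3`) -/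
theorem lipschitz_kernels {J : Type*} [Fintype J] {a : ℝ → ℝ} (ha : H59K.IsK1 a) {C : NNReal}
    (hC : LipschitzWith C a) :
    (H59K.IsK1 a ↔ Continuous a ∧ (∃ M : ℝ, ∀ u, |a u| ≤ M) ∧ ∃ R : ℝ, ∀ u, R < u → a u = 0) ∧
    (∃ T M : ℝ, H95S.Ker (fun t : Fin 1 → ℝ => ((a (t 0) : ℝ) : ℂ)) T C M) ∧
      ∃ T L M : ℝ, H95S.Ker (fun t : J → ℝ => ((∏ j, a (t j) : ℝ) : ℂ)) T L M := by
  obtain ⟨T, M, h⟩ := H86B.Lip1.of_lipschitz ha hC
  exact ⟨⟨fun h => ⟨h.1, h.2, h.3⟩, fun h => ⟨h.1, h.2.1, h.2.2⟩⟩, ⟨T, M, H86B.ker_k1 h⟩,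
    ⟨T, _, H86B.ker_tn h⟩⟩

/-! ## 7. Lattices of translations in the model

`(borP K).n b` and `(borP K).d a` are the classes of the matrices `(1 b; 0 1)` and `(a 0; 0 1)` in
`PGL₂(K)`. -/

/-- **Means over a period parallelepiped.** `b` is a basis of the real vector space `E` and `h` a
function on `E` which is periodic with respect to the lattice spanned by `b`. The integral of
`x ↦ h(x + w)` over the fundamental parallelepiped does not depend on `w`. (`H5ZLat`) -/
theorem mean_over_periods {E ι F : Type*} [NormedAddCommGroup E] [NormedSpace ℝ E] [Fintype ι]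
    [FiniteDimensional ℝ E] [MeasurableSpace E] [BorelSpace E] (μ : Measure E)
    [μ.IsAddHaarMeasure] [NormedAddCommGroup F] [NormedSpace ℝ F] {b : Module.Basis ι ℝ E}
    {h : E → F} (hper : ∀ x, ∀ v ∈ Submodule.span ℤ (Set.range b), h (x + v) = h x) (w : E) :
    ∫ x in ZSpan.fundamentalDomain b, h (x + w) ∂μ =
      ∫ x in ZSpan.fundamentalDomain b, h x ∂μ :=
  H5Z.Per.setIntegral_comp_add μ hper w

/-- **The lattice of integers.** For `N > 0` the image of `N 𝓞 K` in `ℂ^J` is the lattice spanned by a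
real basis of `ℂ^J`. (`H5ZModel`) -/
theorem lattice_basis {K : Type*} [Field K] [NumberField K] {J : Type*} [Fintype J]
    (m : H59D.Model K J) (N : ℕ) (hN : 0 < N) :
    ∃ (n : ℕ) (b : Module.Basis (Fin n) ℝ (J → ℂ)), ∀ v : J → ℂ,
      v ∈ Submodule.span ℤ (Set.range b) ↔ ∃ x : 𝓞 K, v = fun j => m.e j (N * (x : K)) :=
  H5Z.exists_basis_mul m N hN

/-- **Multiples of integers fix finitely many points.** For a finite set of points of the finite part
there is `N > 0` such that all `(1 N x; 0 1)`, `x` an integer of `K`, fix these points. (`H5ZModel`) -/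
theorem fixed_by_multiples {K : Type*} [Field K] [NumberField K] {J : Type*} [Fintype J]
    (m : H59D.Model K J) (Y : Finset (H59XF.XF m.L.fam)) :
    ∃ N : ℕ, 0 < N ∧ ∀ y ∈ Y, ∀ x : 𝓞 K, (H7.Z.borP K).n (N * (x : K)) • y = y :=
  H5Z.exists_fix_finset m Y

/-- **Upper triangular matrices on the model**: `(1 b; 0 1)` acts on the first factor by the
horospherical translation by `(e_j b)_j`, and `(a 0; 0 1)` by `(z_j, y_j) ↦ ((e_j a) z_j, |e_j a| y_j)`;
on the finite part they act as elements of the group. (`H5ZModel`) -/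
theorem triangular_action {K : Type*} [Field K] [NumberField K] {J : Type*} [Fintype J]
    (m : H59D.Model K J) (b : K) (a : Kˣ) (p : m.X) (j : J) :
    (H7.Z.borP K).n b • p = (H95S.tr (fun j => m.e j b) p.1, (H7.Z.borP K).n b • p.2) ∧
      (((H7.Z.borP K).d a • p).1 j).z = m.e j a * (p.1 j).z ∧
      (((H7.Z.borP K).d a • p).1 j).y = ‖m.e j a‖ * (p.1 j).y ∧
      ((H7.Z.borP K).d a • p).2 = (H7.Z.borP K).d a • p.2 := by
  rw [H5Z.d_smul]
  exact ⟨H5Z.n_smul m b p, rfl, rfl, rfl⟩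

/-- **Invariant functions are periodic on horospheres.** For finitely many points `y` of the finite part
there are `N > 0` and a real basis of `ℂ^J`, spanning the image of `N 𝓞 K`, such that for every function
`f` on the model invariant under `PGL₂(K)` the functions `f(·, y)` are invariant under the translations
by this lattice. So the constant terms are means over one period parallelepiped
(`periods_of_constant_terms` in `GuideOctCKernels`). (`H5ZIter`, `H5ZModel`) -/
theorem invariant_functions_periodic {K : Type*} [Field K] [NumberField K] {J : Type*}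
    [Fintype J] (m : H59D.Model K J) (Y : Finset (H59XF.XF m.L.fam)) :
    ∃ (N : ℕ) (_ : 0 < N) (n : ℕ) (b : Module.Basis (Fin n) ℝ (J → ℂ)),
      (∀ v : J → ℂ, v ∈ Submodule.span ℤ (Set.range b) ↔
        ∃ x : 𝓞 K, v = fun j => m.e j (N * (x : K))) ∧
      (∀ y ∈ Y, ∀ x : 𝓞 K, (H7.Z.borP K).n (N * (x : K)) • y = y) ∧
      ∀ f : m.X → ℂ, (∀ (g : PGL(2, K)) (p : m.X), f (g • p) = f p) →
        ∀ y ∈ Y, ∀ x : J → H3, ∀ v ∈ Submodule.span ℤ (Set.range b),
          f ((H95S.tr v x, y) : m.X) = f ((x, y) : m.X) :=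
  H5Z.exists_hper m Y

end Fermat.Agent.Guide.BoundedKernels
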