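import Fermat.Agent.H70HeckeAbs

/-!
# Double coset families (traces, degeneracy adjoints) and their compositions
-/

set_option autoImplicit false

noncomputable section

namespace Fermat.Agent.H70.Coh

namespace HFam

variable {S : Type*} [Monoid S] {Γ : Type*} {Γ' : Type} [Group Γ] [Group Γ']
  {ι : Γ →* S} {ι' : Γ' →* S}

/-- right translation on right cosets -/
def rtrans (H : Subgroup Γ') (g : Γ') : Equiv.Perm (Quotient (QuotientGroup.rightRel H)) where
  toFun := Quotient.map' (fun x => x * g) (by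
    intro a b hab
    change QuotientGroup.rightRel H _ _ at hab
    rw [QuotientGroup.rightRel_apply] at hab ⊢
    simpa [mul_assoc] using hab)
  invFun := Quotient.map' (fun x => x * g⁻¹) (by
    intro a b hab
    change QuotientGroup.rightRel H _ _ at hab
    rw [QuotientGroup.rightRel_apply] at hab ⊢
    simpa [mul_assoc] using hab)
  left_inv := by
    intro q
    induction q using Quotient.inductionOn' with
    | h x => simp [Quotient.map'_mk'']
  right_inv := by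
    intro q
    induction q using Quotient.inductionOn' with
    | h x => simp [Quotient.map'_mk'']

lemma out_mul_inv_mem (H : Subgroup Γ') (x : Γ') :
    x * ((Quotient.mk (QuotientGroup.rightRel H) x).out)⁻¹ ∈ H := by
  have h := Quotient.mk_out (s := QuotientGroup.rightRel H) x
  exact (QuotientGroup.rightRel_apply.mp h)

instance finite_rightRel (H : Subgroup Γ') [H.FiniteIndex] :
    Finite (Quotient (QuotientGroup.rightRel H)) :=
  Finite.of_equiv _ (QuotientGroup.quotientRightRelEquivQuotientLeftRel H).symm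

lemma mk_eq_mk (H : Subgroup Γ') {x y : Γ'} :
    (Quotient.mk (QuotientGroup.rightRel H) x) = Quotient.mk (QuotientGroup.rightRel H) y ↔
      y * x⁻¹ ∈ H := by
  rw [Quotient.eq, QuotientGroup.rightRel_apply]

/-- The family of the double coset `Γ α Γ'`, where `H ≤ Γ'` is the stabilizer of `Γ α`. -/
def dcFam (ι : Γ →* S) (ι' : Γ' →* S) (α : S) (H : Subgroup Γ') [H.FiniteIndex]
    (hH : ∀ h ∈ H, ∃ γ : Γ, α * ι' h = ι γ * α) : HFam ι ι' where
  J := Quotient (QuotientGroup.rightRel H)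
  fin := Fintype.ofFinite _
  α := fun q => α * ι' q.out
  inv := by
    intro γ'
    have key : ∀ q : Quotient (QuotientGroup.rightRel H), ∃ γ : Γ,
        α * ι' q.out * ι' γ' = ι γ * (α * ι' (rtrans H γ' q).out) := by
      intro q
      have h1 : rtrans H γ' q = Quotient.mk (QuotientGroup.rightRel H) (q.out * γ') := by
        conv_lhs => rw [← Quotient.out_eq q]
        rfl
      have h2 := out_mul_inv_mem H (q.out * γ')
      obtain ⟨γ, hγ⟩ := hH _ h2
      refine ⟨γ, ?_⟩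
      rw [h1, mul_assoc, ← map_mul, ← mul_assoc, ← hγ, mul_assoc, ← map_mul]
      congr 2
      simp
    choose δ hδ using key
    exact ⟨rtrans H γ', δ, hδ⟩

lemma dcFam_α (α : S) (H : Subgroup Γ') [H.FiniteIndex]
    (hH : ∀ h ∈ H, ∃ γ : Γ, α * ι' h = ι γ * α) (q : Quotient (QuotientGroup.rightRel H)) :
    (dcFam ι ι' α H hH).α q = α * ι' q.out := rfl

variable {R : Type*} [CommRing R] {V : Type*} [AddCommGroup V] [Module R V]
  {ρ : S →* (Module.End R V)ᵐᵒᵖ}

section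

variable (h : HFam ι ι') (i₀ : h.J) (H : Subgroup Γ') [H.FiniteIndex]
  (hH : ∀ g ∈ H, ∃ γ : Γ, h.α i₀ * ι' g = ι γ * h.α i₀)
  (hH' : ∀ (g : Γ') (γ : Γ), h.α i₀ * ι' g = ι γ * h.α i₀ → g ∈ H)
  (hinj : ∀ (i j : h.J) (γ : Γ), h.α i = ι γ * h.α j → i = j)
  (htrans : ∀ i, ∃ (g : Γ') (γ : Γ), h.α i₀ * ι' g = ι γ * h.α i)

omit [H.FiniteIndex] in
include hH' hH hinj htrans in
lemma dc_bijective : Function.Bijective
    (fun q : Quotient (QuotientGroup.rightRel H) => h.σ q.out i₀) := by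
  have hcancel : ∀ (γ δ : Γ) (x y : S), ι γ * x = ι δ * y → x = ι (γ⁻¹ * δ) * y := by
    intro γ δ x y hxy
    have := congrArg (fun z => ι γ⁻¹ * z) hxy
    simp only [← mul_assoc, ← map_mul, inv_mul_cancel, map_one, one_mul] at this
    exact this
  constructor
  · intro q q' hqq'
    have h1 := h.spec q.out i₀
    have h2 := h.spec q'.out i₀
    change h.σ q.out i₀ = h.σ q'.out i₀ at hqq'
    rw [hqq'] at h1
    have hX : h.α (h.σ q'.out i₀) = ι (h.δ q'.out i₀)⁻¹ * (h.α i₀ * ι' q'.out) := by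
      rw [h2, ← mul_assoc, ← map_mul, inv_mul_cancel, map_one, one_mul]
    rw [hX] at h1
    have h4 : h.α i₀ * ι' (q.out * q'.out⁻¹) =
        ι (h.δ q.out i₀ * (h.δ q'.out i₀)⁻¹) * h.α i₀ := by
      calc h.α i₀ * ι' (q.out * q'.out⁻¹) = (h.α i₀ * ι' q.out) * ι' q'.out⁻¹ := by
            rw [map_mul, mul_assoc]
        _ = ι (h.δ q.out i₀ * (h.δ q'.out i₀)⁻¹) * h.α i₀ * (ι' q'.out * ι' q'.out⁻¹) := by
            rw [h1, map_mul]; simp only [mul_assoc]
        _ = _ := by rw [← map_mul, mul_inv_cancel, map_one, mul_one]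
    have h6 := hH' _ _ h4
    rw [← Quotient.out_eq q, ← Quotient.out_eq q']
    exact ((mk_eq_mk H).mpr h6).symm
  · intro i
    obtain ⟨g, γ, hg⟩ := htrans i
    refine ⟨Quotient.mk _ g, ?_⟩
    have h1 := out_mul_inv_mem H g
    set r := (Quotient.mk (QuotientGroup.rightRel H) g).out with hr
    obtain ⟨δ, hδ⟩ := hH _ (H.inv_mem h1)
    have h2 := h.spec r i₀
    have h3 : h.α i₀ * ι' r = ι (δ * γ) * h.α i := by
      have h4 : r = (g * r⁻¹)⁻¹ * g := by group
      rw [h4, map_mul, ← mul_assoc, hδ, mul_assoc, hg, ← mul_assoc, ← map_mul]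
    have h5 := hcancel _ _ _ _ (h2.symm.trans h3)
    exact hinj _ _ _ h5

omit [H.FiniteIndex] in
/-- the number of cosets -/
lemma card_dcFam [Fintype (Quotient (QuotientGroup.rightRel H))]
    (hb : Function.Bijective (fun q : Quotient (QuotientGroup.rightRel H) => h.σ q.out i₀)) :
    Fintype.card (Quotient (QuotientGroup.rightRel H)) = Fintype.card h.J :=
  Fintype.card_of_bijective hb

variable [IsFreeOn ι]

include hH' hinj htrans in
/-- The double coset family of `α_{i₀}` induces the same operator on `H¹` as `h`. -/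
theorem opH_dcFam_eq : (dcFam ι ι' (h.α i₀) H hH).opH ρ = h.opH ρ := by
  refine opH_congr (dcFam ι ι' (h.α i₀) H hH) h
    (Equiv.ofBijective _ (dc_bijective h i₀ H hH hH' hinj htrans)) ?_
  intro q
  exact ⟨h.δ q.out i₀, h.spec q.out i₀⟩

end

/-- The constant family for an element commuting with `Γ`. -/
def scalFam (ι : Γ →* S) (s : S) (hs : ∀ γ, s * ι γ = ι γ * s) (J : Type) [Fintype J] :
    HFam ι ι where
  J := J
  fin := inferInstance
  α := fun _ => s
  inv := fun γ => ⟨1, fun _ => γ, fun _ => hs γ⟩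

variable [IsFreeOn ι]

lemma opH_scalFam (s : S) (hs : ∀ γ, s * ι γ = ι γ * s) (J : Type) [Fintype J]
    (c : Z1 ι ρ) (d : Z1 ι ρ) (hd : ∀ γ, d.1 γ = slash ρ s (c.1 γ)) :
    (scalFam ι s hs J).opH ρ (H1.mk ι ρ c) = (Fintype.card J) • H1.mk ι ρ d := by
  rw [opH_mk, ← map_nsmul]
  congr 1
  apply Subtype.ext
  funext γ
  rw [op_apply_of_eq (scalFam ι s hs J) c γ 1 (fun _ => γ) (fun _ => hs γ)]
  change ∑ _i : J, slash ρ s (c.1 γ) = Fintype.card J • d.1 γ
  rw [Finset.sum_const, Finset.card_univ, hd]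

/-- Sum (disjoint union) of families. -/
def add {Γ : Type*} {Γ' : Type*} [Group Γ] [Group Γ'] {ι : Γ →* S} {ι' : Γ' →* S}
    (h₁ h₂ : HFam ι ι') : HFam ι ι' where
  J := h₁.J ⊕ h₂.J
  fin := inferInstance
  α := Sum.elim h₁.α h₂.α
  inv := fun γ' => ⟨Equiv.sumCongr (h₁.σ γ') (h₂.σ γ'), Sum.elim (h₁.δ γ') (h₂.δ γ'), by
    rintro (i | i)
    · exact h₁.spec γ' i
    · exact h₂.spec γ' i⟩

lemma op_add {Γ : Type*} {Γ' : Type*} [Group Γ] [Group Γ'] {ι : Γ →* S} {ι' : Γ' →* S}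
    [IsFreeOn ι] (h₁ h₂ : HFam ι ι') (c : Z1 ι ρ) :
    (h₁.add h₂).op ρ c = h₁.op ρ c + h₂.op ρ c := by
  apply Subtype.ext
  funext γ'
  rw [op_apply_of_eq (h₁.add h₂) c γ' (Equiv.sumCongr (h₁.σ γ') (h₂.σ γ'))
    (Sum.elim (h₁.δ γ') (h₂.δ γ')) (by
      rintro (i | i)
      · exact h₁.spec γ' i
      · exact h₂.spec γ' i)]
  change ∑ i : h₁.J ⊕ h₂.J, _ = (h₁.op ρ c).1 γ' + (h₂.op ρ c).1 γ'
  rw [Fintype.sum_sum_type, op_apply, op_apply]
  rfl

theorem opH_add {Γ : Type*} {Γ' : Type*} [Group Γ] [Group Γ'] {ι : Γ →* S} {ι' : Γ' →* S}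
    [IsFreeOn ι] (h₁ h₂ : HFam ι ι') :
    (h₁.add h₂).opH ρ = h₁.opH ρ + h₂.opH ρ := by
  apply LinearMap.ext
  intro x
  obtain ⟨c, rfl⟩ := Submodule.mkQ_surjective _ x
  change H1.mk ι' ρ ((h₁.add h₂).op ρ c) = H1.mk ι' ρ (h₁.op ρ c) + H1.mk ι' ρ (h₂.op ρ c)
  rw [op_add, map_add]

section comp

variable {Γ'' : Type*} [Group Γ''] {ι'' : Γ'' →* S}

/-- Composition of a one-element family with a double coset family. -/
theorem opH_comp_dcFam (h₁ : HFam ι ι'') [Unique h₁.J] (α : S) (H : Subgroup Γ') [H.FiniteIndex]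
    (hH : ∀ h ∈ H, ∃ γ : Γ'', α * ι' h = ι'' γ * α)
    (β : S) (hβ : h₁.α default * α = β)
    (hH₁ : ∀ h ∈ H, ∃ γ : Γ, β * ι' h = ι γ * β) :
    (h₁.comp (dcFam ι'' ι' α H hH)).opH ρ = (dcFam ι ι' β H hH₁).opH ρ := by
  refine opH_congr _ _ (Equiv.uniqueProd _ h₁.J) ?_
  rintro ⟨i, q⟩
  refine ⟨1, ?_⟩
  change h₁.α i * (α * ι' q.out) = ι 1 * (β * ι' q.out)
  rw [map_one, one_mul, ← hβ, Unique.eq_default i, mul_assoc]

/-- The double coset family of an element `α` which is `Γ`-equivalent to itself under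
right multiplication by every element of `Γ'`. -/
theorem opH_dcFam_of_all (α : S) (H : Subgroup Γ') [H.FiniteIndex]
    (hH : ∀ h ∈ H, ∃ γ : Γ, α * ι' h = ι γ * α)
    (h₁ : HFam ι ι') (hJ : Quotient (QuotientGroup.rightRel H) ≃ h₁.J) (h₁α : ∀ i, h₁.α i = α)
    (hall : ∀ g : Γ', ∃ γ : Γ, α * ι' g = ι γ * α) :
    (dcFam ι ι' α H hH).opH ρ = h₁.opH ρ := by
  refine opH_congr _ _ hJ ?_
  intro q
  obtain ⟨γ, hγ⟩ := hall q.out
  exact ⟨γ, by rw [h₁α]; exact hγ⟩

end comp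

end HFam

end Fermat.Agent.H70.Coh
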