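import Fermat.Agent.H70Free
import Fermat.Agent.H70DC

/-!
# Traces `Γ₀(Mq) → Γ₀(M)` and the adjoint of `V_q`; the two-by-two matrix
-/

set_option autoImplicit false

open CongruenceSubgroup Matrix.SpecialLinearGroup
open scoped MatrixGroups

noncomputable section

namespace Fermat.Agent.H70.Coh

section

variable {N M q : ℕ} (hM : N ∣ M) (hq : q.Prime) (hqM : ¬ q ∣ M)

/-- `Γ₀(Mq)` as a subgroup of `Γ₀(M)` -/
def subQ (M q : ℕ) : Subgroup (Gamma0 M) := (Gamma0 (M * q)).subgroupOf (Gamma0 M)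

/-- the elements of `Γ₀(M)` with `q ∣ b` -/
def subQ' (M q : ℕ) : Subgroup (Gamma0 M) where
  carrier := {γ | (q : ℤ) ∣ (γ : SL(2, ℤ)) 0 1}
  mul_mem' := by
    intro a b ha hb
    change (q : ℤ) ∣ ((a : SL(2, ℤ)) * (b : SL(2, ℤ)) : SL(2, ℤ)) 0 1
    rw [Matrix.SpecialLinearGroup.coe_mul, Matrix.mul_apply, Fin.sum_univ_two]
    exact dvd_add (hb.mul_left _) (ha.mul_right _)
  one_mem' := by
    change (q : ℤ) ∣ (1 : SL(2, ℤ)) 0 1
    simp
  inv_mem' := by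
    intro a ha
    change (q : ℤ) ∣ ((a : SL(2, ℤ))⁻¹ : SL(2, ℤ)) 0 1
    rw [Matrix.SpecialLinearGroup.SL2_inv_expl]
    change (q : ℤ) ∣ -((a : SL(2, ℤ)) 0 1)
    exact (dvd_neg).mpr ha

lemma mem_subQ' {γ : Gamma0 M} : γ ∈ subQ' M q ↔ (q : ℤ) ∣ (γ : SL(2, ℤ)) 0 1 := Iff.rfl

lemma mem_subQ {γ : Gamma0 M} : γ ∈ subQ M q ↔ ((M * q : ℕ) : ℤ) ∣ (γ : SL(2, ℤ)) 1 0 := by
  rw [subQ, Subgroup.mem_subgroupOf, Gamma0_mem]
  exact ZMod.intCast_zmod_eq_zero_iff_dvd _ _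

instance [NeZero M] [NeZero q] : (subQ M q).FiniteIndex := by
  unfold subQ
  have : NeZero (M * q) := ⟨mul_ne_zero (NeZero.ne M) (NeZero.ne q)⟩
  infer_instance

instance [NeZero q] : (subQ' M q).FiniteIndex := by
  have h : (Gamma q).subgroupOf (Gamma0 M) ≤ subQ' M q := by
    intro γ hγ
    rw [Subgroup.mem_subgroupOf, Gamma_mem] at hγ
    exact (ZMod.intCast_zmod_eq_zero_iff_dvd _ _).mp hγ.2.1
  exact Subgroup.finiteIndex_of_le h

lemma dvd_mul_q (hM : N ∣ M) : N ∣ M * q := hM.trans (Dvd.intro q rfl)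

/-- the trace `Γ₀(Mq) → Γ₀(M)` -/
def trFam [NeZero M] [NeZero q] : HFam (gam N (M * q) (dvd_mul_q hM)) (gam N M hM) :=
  HFam.dcFam _ _ 1 (subQ M q) (by
    intro h hh
    refine ⟨⟨h.1, by
      rw [subQ, Subgroup.mem_subgroupOf] at hh; exact hh⟩, ?_⟩
    rw [one_mul, mul_one]
    rfl)

lemma nu_aux (g : Gamma0 M) (hg : g ∈ subQ' M q) :
    ∃ γ : Gamma0 (M * q), ut N 1 0 q one_pos hq.pos (Nat.coprime_one_left N) * gam N M hM g =
      gam N (M * q) (dvd_mul_q hM) γ * ut N 1 0 q one_pos hq.pos (Nat.coprime_one_left N) := by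
  obtain ⟨k, hk⟩ := mem_subQ'.mp hg
  have hdet : ((g : SL(2, ℤ)) : Matrix (Fin 2) (Fin 2) ℤ).det = 1 := (g : SL(2, ℤ)).det_coe
  rw [Matrix.det_fin_two] at hdet
  change ((g : SL(2, ℤ)) 0 0 * (g : SL(2, ℤ)) 1 1 - (g : SL(2, ℤ)) 0 1 * (g : SL(2, ℤ)) 1 0) = 1
    at hdet
  have hc : (M : ℤ) ∣ (g : SL(2, ℤ)) 1 0 :=
    (ZMod.intCast_zmod_eq_zero_iff_dvd _ _).mp (Gamma0_mem.mp g.2)
  refine ⟨⟨⟨!![(g : SL(2, ℤ)) 0 0, k; q * (g : SL(2, ℤ)) 1 0, (g : SL(2, ℤ)) 1 1], ?_⟩, ?_⟩, ?_⟩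
  · rw [Matrix.det_fin_two_of]
    rw [hk] at hdet
    linear_combination hdet
  · refine Gamma0_mem.mpr ?_
    change (((q : ℤ) * (g : SL(2, ℤ)) 1 0 : ℤ) : ZMod (M * q)) = 0
    rw [ZMod.intCast_zmod_eq_zero_iff_dvd]
    push_cast
    rw [mul_comm (M : ℤ)]
    exact mul_dvd_mul_left _ hc
  · apply Subtype.ext
    change (!![((1 : ℕ) : ℤ), 0; 0, (q : ℤ)]) * ((g : SL(2, ℤ)) : Matrix (Fin 2) (Fin 2) ℤ) =
      (!![(g : SL(2, ℤ)) 0 0, k; q * (g : SL(2, ℤ)) 1 0, (g : SL(2, ℤ)) 1 1]) *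
        (!![((1 : ℕ) : ℤ), 0; 0, (q : ℤ)])
    have hk' : ((g : SL(2, ℤ)) : Matrix (Fin 2) (Fin 2) ℤ) 0 1 = q * k := hk
    ext i j
    fin_cases i <;> fin_cases j <;>
      simp [Matrix.mul_apply, Fin.sum_univ_two, hk'] <;> ring

/-- the adjoint of `V_q` -/
def nuFam [NeZero q] : HFam (gam N (M * q) (dvd_mul_q hM)) (gam N M hM) :=
  HFam.dcFam _ _ (ut N 1 0 q one_pos hq.pos (Nat.coprime_one_left N)) (subQ' M q)
    (fun g hg => nu_aux hM hq g hg)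

/-- Distinctness of the classes of `T_ℓ`. -/
lemma tFam_inj {ℓ : ℕ} (hℓ : ℓ.Prime) (hℓM : ¬ ℓ ∣ M) (i j : (tFam hM hℓ hℓM).J)
    (γ : Gamma0 M) (h : (tFam hM hℓ hℓM).α i = gam N M hM γ * (tFam hM hℓ hℓM).α j) : i = j := by
  have i1 : NeZero ℓ := ⟨hℓ.ne_zero⟩
  have h1 : (1 : ℤ) < ℓ := by exact_mod_cast hℓ.one_lt
  obtain ⟨e1, e2, e3⟩ := (isUT_tFam (hM := hM) hℓ hℓM).of_coset i j γ h
  rcases i with _ | i <;> rcases j with _ | j
  · rfl
  · exfalso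
    change (ℓ : ℤ) = 1 at e1
    linarith
  · exfalso
    change (1 : ℤ) = ℓ at e1
    linarith
  · change (ℓ : ℤ) ∣ (ZMod.val i : ℤ) - (ZMod.val j : ℤ) at e3
    rw [val_eq_of_dvd e3]

/-- Transitivity from `∞`. -/
lemma tFam_trans_infty (hqM : ¬ q ∣ M) (i : (tFam hM hq hqM).J) :
    ∃ g γ : Gamma0 M, (tFam hM hq hqM).α none * gam N M hM g =
      gam N M hM γ * (tFam hM hq hqM).α i := by
  rcases i with _ | (j : ZMod q)
  · exact ⟨1, 1, by rw [map_one, mul_one, one_mul]⟩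
  · have hcop : M.Coprime q := by
      rw [Nat.coprime_comm]
      exact (Nat.Prime.coprime_iff_not_dvd hq).mpr hqM
    -- `d ≡ 1 mod M`, `d ≡ M j mod q`
    obtain ⟨d, hd1, hd2⟩ := Nat.chineseRemainder hcop 1 (M * j.val)
    have hdM : Nat.Coprime d M := by
      have := hd1.gcd_eq
      rwa [Nat.gcd_one_left] at this
    obtain ⟨a, b, hab⟩ : ∃ a b : ℤ, a * d - b * M = 1 := by
      obtain ⟨u, v, huv⟩ := Nat.isCoprime_iff_coprime.mpr hdM
      exact ⟨u, -v, by linear_combination huv⟩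
    obtain ⟨w, hw⟩ : (q : ℤ) ∣ (d : ℤ) - M * (j.val : ℤ) := by
      have := (Nat.modEq_iff_dvd.mp hd2.symm)
      push_cast at this
      exact this
    refine ⟨⟨⟨!![a, b; (M : ℤ), d], by rw [Matrix.det_fin_two_of]; linear_combination hab⟩, ?_⟩,
      ⟨⟨!![q * a, b - a * (j.val : ℤ); (M : ℤ), w], ?_⟩, ?_⟩, ?_⟩
    · refine Gamma0_mem.mpr ?_
      change ((M : ℤ) : ZMod M) = 0
      simp
    · rw [Matrix.det_fin_two_of]
      linear_combination hab - a * hw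
    · refine Gamma0_mem.mpr ?_
      change ((M : ℤ) : ZMod M) = 0
      simp
    · apply Subtype.ext
      change (!![(q : ℤ), 0; 0, ((1 : ℕ) : ℤ)]) * (!![a, b; (M : ℤ), (d : ℤ)]) =
        (!![q * a, b - a * (j.val : ℤ); (M : ℤ), w]) * (!![((1 : ℕ) : ℤ), (j.val : ℤ); 0, (q : ℤ)])
      ext x y
      fin_cases x <;> fin_cases y <;>
        simp [Matrix.mul_apply, Fin.sum_univ_two]
      · ring
      · linear_combination hw

/-- Transitivity from `0`. -/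
lemma tFam_trans_zero (hqM : ¬ q ∣ M) (i : (tFam hM hq hqM).J) :
    ∃ g γ : Gamma0 M, (tFam hM hq hqM).α (some 0) * gam N M hM g =
      gam N M hM γ * (tFam hM hq hqM).α i := by
  obtain ⟨g₀, γ₀, h₀⟩ := tFam_trans_infty hM hq hqM (some 0)
  obtain ⟨g, γ, h⟩ := tFam_trans_infty hM hq hqM i
  refine ⟨g₀⁻¹ * g, γ₀⁻¹ * γ, ?_⟩
  have h1 : (tFam hM hq hqM).α (some 0) =
      gam N M hM γ₀⁻¹ * ((tFam hM hq hqM).α none * gam N M hM g₀) := by
    rw [h₀, ← mul_assoc, ← map_mul, inv_mul_cancel, map_one, one_mul]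
  calc (tFam hM hq hqM).α (some 0) * gam N M hM (g₀⁻¹ * g)
      = gam N M hM γ₀⁻¹ * ((tFam hM hq hqM).α none * (gam N M hM g₀ * gam N M hM g₀⁻¹) *
          gam N M hM g) := by
        rw [h1, map_mul]; simp only [mul_assoc]
    _ = gam N M hM γ₀⁻¹ * ((tFam hM hq hqM).α none * gam N M hM g) := by
        rw [← map_mul, mul_inv_cancel, map_one, mul_one]
    _ = gam N M hM (γ₀⁻¹ * γ) * (tFam hM hq hqM).α i := by
        rw [h, map_mul, mul_assoc]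

lemma stab_infty (g : Gamma0 M) :
    g ∈ subQ M q ↔ ∃ γ : Gamma0 M, (tFam hM hq hqM).α none * gam N M hM g =
      gam N M hM γ * (tFam hM hq hqM).α none := by
  have hq0 : (q : ℤ) ≠ 0 := by exact_mod_cast hq.ne_zero
  constructor
  · intro hg
    obtain ⟨k, hk⟩ := mem_subQ.mp hg
    have hdet : ((g : SL(2, ℤ)) : Matrix (Fin 2) (Fin 2) ℤ).det = 1 := (g : SL(2, ℤ)).det_coe
    rw [Matrix.det_fin_two] at hdet
    change ((g : SL(2, ℤ)) 0 0 * (g : SL(2, ℤ)) 1 1 - (g : SL(2, ℤ)) 0 1 * (g : SL(2, ℤ)) 1 0) = 1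
      at hdet
    push_cast at hk
    refine ⟨⟨⟨!![(g : SL(2, ℤ)) 0 0, q * (g : SL(2, ℤ)) 0 1; M * k, (g : SL(2, ℤ)) 1 1], ?_⟩,
      ?_⟩, ?_⟩
    · rw [Matrix.det_fin_two_of]
      rw [hk] at hdet
      linear_combination hdet
    · refine Gamma0_mem.mpr ?_
      change (((M : ℤ) * k : ℤ) : ZMod M) = 0
      simp
    · apply Subtype.ext
      change (!![(q : ℤ), 0; 0, ((1 : ℕ) : ℤ)]) * ((g : SL(2, ℤ)) : Matrix (Fin 2) (Fin 2) ℤ) =
        (!![(g : SL(2, ℤ)) 0 0, q * (g : SL(2, ℤ)) 0 1; M * k, (g : SL(2, ℤ)) 1 1]) *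
          (!![(q : ℤ), 0; 0, ((1 : ℕ) : ℤ)])
      have hk' : ((g : SL(2, ℤ)) : Matrix (Fin 2) (Fin 2) ℤ) 1 0 = M * q * k := hk
      ext i j
      fin_cases i <;> fin_cases j <;>
        simp [Matrix.mul_apply, Fin.sum_univ_two, hk'] <;> ring
  · rintro ⟨γ, hγ⟩
    rw [mem_subQ]
    have h1 := congrArg Subtype.val hγ
    change (!![(q : ℤ), 0; 0, ((1 : ℕ) : ℤ)]) * ((g : SL(2, ℤ)) : Matrix (Fin 2) (Fin 2) ℤ) =
      ((γ : SL(2, ℤ)) : Matrix (Fin 2) (Fin 2) ℤ) * (!![(q : ℤ), 0; 0, ((1 : ℕ) : ℤ)]) at h1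
    have h10 := congrFun (congrFun h1 1) 0
    simp [Matrix.mul_apply, Fin.sum_univ_two] at h10
    obtain ⟨k, hk⟩ := (ZMod.intCast_zmod_eq_zero_iff_dvd _ _).mp (Gamma0_mem.mp γ.2)
    have hk' : ((γ : SL(2, ℤ)) : Matrix (Fin 2) (Fin 2) ℤ) 1 0 = M * k := hk
    change ((M * q : ℕ) : ℤ) ∣ ((g : SL(2, ℤ)) : Matrix (Fin 2) (Fin 2) ℤ) 1 0
    rw [h10, hk']
    push_cast
    exact ⟨k, by ring⟩

lemma stab_zero (g : Gamma0 M) :
    g ∈ subQ' M q ↔ ∃ γ : Gamma0 M, (tFam hM hq hqM).α (some 0) * gam N M hM g =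
      gam N M hM γ * (tFam hM hq hqM).α (some 0) := by
  have hq0 : (q : ℤ) ≠ 0 := by exact_mod_cast hq.ne_zero
  have e0 : ((tFam hM hq hqM).α (some 0)).1 = !![((1 : ℕ) : ℤ), 0; 0, (q : ℤ)] := by
    change !![((1 : ℕ) : ℤ), (((0 : ZMod q).val : ℕ) : ℤ); 0, (q : ℤ)] = _
    rw [ZMod.val_zero]
    rfl
  constructor
  · intro hg
    obtain ⟨γ, hγ⟩ := nu_aux hM hq g hg
    refine ⟨⟨γ.1, ?_⟩, ?_⟩
    · have := γ.2
      rw [Gamma0_mem] at this ⊢
      rw [ZMod.intCast_zmod_eq_zero_iff_dvd] at this ⊢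
      push_cast at this
      exact (Dvd.intro _ rfl).trans this
    · apply Subtype.ext
      have h1 := congrArg Subtype.val hγ
      change ((tFam hM hq hqM).α (some 0)).1 * (gam N M hM g).1 =
        _ * ((tFam hM hq hqM).α (some 0)).1
      rw [e0]
      exact h1
  · rintro ⟨γ, hγ⟩
    rw [mem_subQ']
    have h1 := congrArg Subtype.val hγ
    change ((tFam hM hq hqM).α (some 0)).1 * (gam N M hM g).1 =
      (gam N M hM γ).1 * ((tFam hM hq hqM).α (some 0)).1 at h1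
    rw [e0, gam_val, gam_val] at h1
    have h01 := congrFun (congrFun h1 0) 1
    simp [Matrix.mul_apply, Fin.sum_univ_two] at h01
    exact ⟨_, h01.trans (mul_comm _ _)⟩

variable {R : Type*} [CommRing R] {V : Type*} [AddCommGroup V] [Module R V]
  (ρ : DN N →* (Module.End R V)ᵐᵒᵖ)

include hq hqM in
/-- the index of `Γ₀(Mq)` in `Γ₀(M)` -/
lemma card_subQ [Fintype (Quotient (QuotientGroup.rightRel (subQ M q)))] :
    Fintype.card (Quotient (QuotientGroup.rightRel (subQ M q))) = q + 1 := by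
  have i1 : NeZero q := ⟨hq.ne_zero⟩
  rw [HFam.card_dcFam (tFam (one_dvd M) hq hqM) none (subQ M q)
    (HFam.dc_bijective (tFam (one_dvd M) hq hqM) none (subQ M q)
      (fun g hg => (stab_infty (one_dvd M) hq hqM g).mp hg)
      (fun g γ h => (stab_infty (one_dvd M) hq hqM g).mpr ⟨γ, h⟩)
      (fun i j γ h => tFam_inj (one_dvd M) hq hqM i j γ h)
      (fun i => tFam_trans_infty (one_dvd M) hq hqM i))]
  have : Fintype.card (tFam (one_dvd M) hq hqM).J = Fintype.card (Option (ZMod q)) := rfl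
  rw [this, Fintype.card_option, ZMod.card]

include hq hqM in
/-- the index of `Γ₀(M) ∩ Γ⁰(q)` in `Γ₀(M)` -/
lemma card_subQ' [Fintype (Quotient (QuotientGroup.rightRel (subQ' M q)))] :
    Fintype.card (Quotient (QuotientGroup.rightRel (subQ' M q))) = q + 1 := by
  have i1 : NeZero q := ⟨hq.ne_zero⟩
  rw [HFam.card_dcFam (tFam (one_dvd M) hq hqM) (some 0) (subQ' M q)
    (HFam.dc_bijective (tFam (one_dvd M) hq hqM) (some 0) (subQ' M q)
      (fun g hg => (stab_zero (one_dvd M) hq hqM g).mp hg)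
      (fun g γ h => (stab_zero (one_dvd M) hq hqM g).mpr ⟨γ, h⟩)
      (fun i j γ h => tFam_inj (one_dvd M) hq hqM i j γ h)
      (fun i => tFam_trans_zero (one_dvd M) hq hqM i))]
  have : Fintype.card (tFam (one_dvd M) hq hqM).J = Fintype.card (Option (ZMod q)) := rfl
  rw [this, Fintype.card_option, ZMod.card]

/-- restriction `Γ₀(M) → Γ₀(Mq)` -/
abbrev resFam : HFam (gam N M hM) (gam N (M * q) (dvd_mul_q hM)) :=
  vFam (M' := M * q) hM one_pos (Nat.coprime_one_left N) (by rw [mul_one]; exact Dvd.intro q rfl)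

/-- degeneracy map `V_q` -/
abbrev degFam (hqN : q.Coprime N) : HFam (gam N M hM) (gam N (M * q) (dvd_mul_q hM)) :=
  vFam (M' := M * q) hM hq.pos hqN dvd_rfl

instance {M' d : ℕ} (hd : 0 < d) (hdN : d.Coprime N) (h : M * d ∣ M') :
    Unique (vFam hM hd hdN h).J := inferInstanceAs (Unique Unit)

/-- `tr ∘ res = q + 1`. -/
theorem tr_res [NeZero M] [NeZero q] (hq : q.Prime) (hqM : ¬ q ∣ M)
    (x : H1 (gam N M hM) ρ) :
    (trFam hM).opH ρ ((resFam (q := q) hM).opH ρ x) = (q + 1) • x := by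
  have hH₁ : ∀ h ∈ subQ M q, ∃ γ : Gamma0 M, (1 : DN N) * gam N M hM h = gam N M hM γ * 1 :=
    fun h _ => ⟨h, by rw [one_mul, mul_one]⟩
  rw [← HFam.opH_comp]
  unfold trFam
  have e1 : ((resFam (q := q) hM).α default * (1 : DN N)) = 1 := by
    apply Subtype.ext
    change (!![((1 : ℕ) : ℤ), 0; 0, ((1 : ℕ) : ℤ)]) * 1 = 1
    rw [mul_one]
    ext i j
    fin_cases i <;> fin_cases j <;> simp
  rw [HFam.opH_comp_dcFam (resFam (q := q) hM) 1 (subQ M q) _ 1 e1 hH₁]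
  have i1 : Fintype (Quotient (QuotientGroup.rightRel (subQ M q))) := Fintype.ofFinite _
  rw [HFam.opH_dcFam_of_all 1 (subQ M q) hH₁
    (HFam.scalFam (gam N M hM) 1 (fun γ => by rw [one_mul, mul_one])
      (Quotient (QuotientGroup.rightRel (subQ M q)))) (Equiv.refl _) (fun _ => rfl)
    (fun g => ⟨g, by rw [one_mul, mul_one]⟩)]
  obtain ⟨c, rfl⟩ := Submodule.mkQ_surjective _ x
  have h2 := HFam.opH_scalFam (ι := gam N M hM) (ρ := ρ) 1 (fun γ => by rw [one_mul, mul_one])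
    (Quotient (QuotientGroup.rightRel (subQ M q))) c c (fun γ => by rw [slash_one])
  rw [card_subQ hq hqM] at h2
  exact h2

/-- `tr ∘ V_q = T_q`. -/
theorem tr_deg [NeZero M] [NeZero q] (hqN : q.Coprime N) (x : H1 (gam N M hM) ρ) :
    (trFam hM).opH ρ ((degFam hM hq hqN).opH ρ x) = (tFam hM hq hqM).opH ρ x := by
  rw [← HFam.opH_comp]
  unfold trFam
  have e1 : ((degFam hM hq hqN).α default * (1 : DN N)) = (tFam hM hq hqM).α none := by
    rw [mul_one]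
    rfl
  rw [HFam.opH_comp_dcFam (degFam hM hq hqN) 1 (subQ M q) _ _ e1
    (fun g hg => (stab_infty hM hq hqM g).mp hg),
    HFam.opH_dcFam_eq (tFam hM hq hqM) none (subQ M q)
      (fun g hg => (stab_infty hM hq hqM g).mp hg)
      (fun g γ h => (stab_infty hM hq hqM g).mpr ⟨γ, h⟩)
      (fun i j γ h => tFam_inj hM hq hqM i j γ h)
      (fun i => tFam_trans_infty hM hq hqM i)]

/-- `ν ∘ res = T_q`. -/
theorem nu_res [NeZero q] (x : H1 (gam N M hM) ρ) :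
    (nuFam hM hq).opH ρ ((resFam (q := q) hM).opH ρ x) = (tFam hM hq hqM).opH ρ x := by
  rw [← HFam.opH_comp]
  unfold nuFam
  have e1 : ((resFam (q := q) hM).α default *
      ut N 1 0 q one_pos hq.pos (Nat.coprime_one_left N)) = (tFam hM hq hqM).α (some 0) := by
    apply Subtype.ext
    change (!![((1 : ℕ) : ℤ), 0; 0, ((1 : ℕ) : ℤ)]) * (!![((1 : ℕ) : ℤ), 0; 0, (q : ℤ)]) =
      !![((1 : ℕ) : ℤ), (((0 : ZMod q).val : ℕ) : ℤ); 0, (q : ℤ)]
    rw [ZMod.val_zero]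
    ext i j
    fin_cases i <;> fin_cases j <;> simp [Matrix.mul_apply, Fin.sum_univ_two]
  rw [HFam.opH_comp_dcFam (resFam (q := q) hM) _ (subQ' M q) _ _ e1
    (fun g hg => (stab_zero hM hq hqM g).mp hg),
    HFam.opH_dcFam_eq (tFam hM hq hqM) (some 0) (subQ' M q)
      (fun g hg => (stab_zero hM hq hqM g).mp hg)
      (fun g γ h => (stab_zero hM hq hqM g).mpr ⟨γ, h⟩)
      (fun i j γ h => tFam_inj hM hq hqM i j γ h)
      (fun i => tFam_trans_zero hM hq hqM i)]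

/-- the scalar matrix `q` -/
def scal (N q : ℕ) (hq : 0 < q) (hqN : q.Coprime N) : DN N := ut N q 0 q hq hq hqN

lemma scal_comm (hq : 0 < q) (hqN : q.Coprime N) (g : DN N) :
    scal N q hq hqN * g = g * scal N q hq hqN := by
  apply Subtype.ext
  change (!![(q : ℤ), 0; 0, (q : ℤ)]) * g.1 = g.1 * (!![(q : ℤ), 0; 0, (q : ℤ)])
  ext i j
  fin_cases i <;> fin_cases j <;> simp [Matrix.mul_apply, Fin.sum_univ_two, mul_comm]

/-- `ν ∘ V_q = (q + 1) ⟨q⟩`, where `⟨q⟩` is the action of the scalar matrix. -/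
theorem nu_deg [NeZero q] (hqM : ¬ q ∣ M) (hqN : q.Coprime N) (c d : Z1 (gam N M hM) ρ)
    (hd : ∀ γ, d.1 γ = slash ρ (scal N q hq.pos hqN) (c.1 γ)) :
    (nuFam hM hq).opH ρ ((degFam hM hq hqN).opH ρ (H1.mk (gam N M hM) ρ c)) =
      (q + 1) • H1.mk (gam N M hM) ρ d := by
  rw [← HFam.opH_comp]
  unfold nuFam
  have e1 : ((degFam hM hq hqN).α default *
      ut N 1 0 q one_pos hq.pos (Nat.coprime_one_left N)) = scal N q hq.pos hqN := by
    apply Subtype.ext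
    change (!![(q : ℤ), 0; 0, ((1 : ℕ) : ℤ)]) * (!![((1 : ℕ) : ℤ), 0; 0, (q : ℤ)]) =
      !![(q : ℤ), 0; 0, (q : ℤ)]
    ext i j
    fin_cases i <;> fin_cases j <;> simp [Matrix.mul_apply, Fin.sum_univ_two]
  have hall : ∀ g : Gamma0 M, ∃ γ : Gamma0 M, scal N q hq.pos hqN * gam N M hM g =
      gam N M hM γ * scal N q hq.pos hqN := fun g => ⟨g, scal_comm hq.pos hqN _⟩
  rw [HFam.opH_comp_dcFam (degFam hM hq hqN) _ (subQ' M q) _ _ e1 (fun g _ => hall g)]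
  have i1 : Fintype (Quotient (QuotientGroup.rightRel (subQ' M q))) := Fintype.ofFinite _
  rw [HFam.opH_dcFam_of_all (scal N q hq.pos hqN) (subQ' M q) (fun g _ => hall g)
    (HFam.scalFam (gam N M hM) (scal N q hq.pos hqN) (fun γ => scal_comm hq.pos hqN _)
      (Quotient (QuotientGroup.rightRel (subQ' M q)))) (Equiv.refl _) (fun _ => rfl) hall]
  have h2 := HFam.opH_scalFam (ι := gam N M hM) (ρ := ρ) (scal N q hq.pos hqN)
    (fun γ => scal_comm hq.pos hqN _)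
    (Quotient (QuotientGroup.rightRel (subQ' M q))) c d hd
  rw [card_subQ' hq hqM] at h2
  exact h2

/-- `U_q ∘ res = res ∘ T_q - V_q` for `q ∤ M`. -/
theorem u_res [NeZero q] (hqN : q.Coprime N) (x : H1 (gam N M hM) ρ) :
    (uFam (dvd_mul_q hM) hq.pos (Dvd.intro_left M rfl)).opH ρ ((resFam (q := q) hM).opH ρ x) =
      (resFam (q := q) hM).opH ρ ((tFam hM hq hqM).opH ρ x) - (degFam hM hq hqN).opH ρ x := by
  rw [eq_sub_iff_add_eq, ← HFam.opH_comp, ← HFam.opH_comp, ← LinearMap.add_apply,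
    ← HFam.opH_add]
  congr 1
  refine HFam.opH_congr _ _
    { toFun := fun s => match s with
        | Sum.inl (_, j) => (some j, ())
        | Sum.inr _ => (none, ())
      invFun := fun p => match p with
        | (some j, _) => Sum.inl ((), j)
        | (none, _) => Sum.inr ()
      left_inv := by rintro (⟨⟨⟩, j⟩ | ⟨⟩) <;> rfl
      right_inv := by rintro ⟨_ | j, ⟨⟩⟩ <;> rfl } ?_
  rintro (⟨⟨⟩, j⟩ | ⟨⟩)
  · refine ⟨1, ?_⟩
    rw [map_one, one_mul]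
    apply Subtype.ext
    change (!![((1 : ℕ) : ℤ), 0; 0, ((1 : ℕ) : ℤ)]) * (!![((1 : ℕ) : ℤ), (ZMod.val j : ℤ); 0, (q : ℤ)]) =
      (!![((1 : ℕ) : ℤ), (ZMod.val j : ℤ); 0, (q : ℤ)]) * (!![((1 : ℕ) : ℤ), 0; 0, ((1 : ℕ) : ℤ)])
    ext i j
    fin_cases i <;> fin_cases j <;> simp [Matrix.mul_apply, Fin.sum_univ_two]
  · refine ⟨1, ?_⟩
    rw [map_one, one_mul]
    apply Subtype.ext
    change (!![(q : ℤ), 0; 0, ((1 : ℕ) : ℤ)]) =
      (!![(q : ℤ), 0; 0, ((1 : ℕ) : ℤ)]) * (!![((1 : ℕ) : ℤ), 0; 0, ((1 : ℕ) : ℤ)])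
    ext i j
    fin_cases i <;> fin_cases j <;> simp [Matrix.mul_apply, Fin.sum_univ_two]

/-- `U_q ∘ V_q = q ⟨q⟩ res`. -/
theorem u_deg [NeZero q] (hqN : q.Coprime N) (c d : Z1 (gam N M hM) ρ)
    (hd : ∀ γ, d.1 γ = slash ρ (scal N q hq.pos hqN) (c.1 γ)) :
    (uFam (dvd_mul_q hM) hq.pos (Dvd.intro_left M rfl)).opH ρ
      ((degFam hM hq hqN).opH ρ (H1.mk (gam N M hM) ρ c)) =
      q • (resFam (q := q) hM).opH ρ (H1.mk (gam N M hM) ρ d) := by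
  have h2 := HFam.opH_scalFam (ι := gam N M hM) (ρ := ρ) (scal N q hq.pos hqN)
    (fun γ => scal_comm hq.pos hqN _) (ZMod q) c d hd
  rw [ZMod.card] at h2
  rw [← map_nsmul, ← h2, ← HFam.opH_comp, ← HFam.opH_comp]
  congr 1
  refine HFam.opH_congr _ _
    { toFun := fun p => (p.2, ())
      invFun := fun p => ((), p.1)
      left_inv := by rintro ⟨⟨⟩, j⟩; rfl
      right_inv := by rintro ⟨j, ⟨⟩⟩; rfl } ?_
  rintro ⟨⟨⟩, j⟩
  refine ⟨tpow M (ZMod.val j), ?_⟩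
  apply Subtype.ext
  change (!![(q : ℤ), 0; 0, ((1 : ℕ) : ℤ)]) * (!![((1 : ℕ) : ℤ), (ZMod.val j : ℤ); 0, (q : ℤ)]) =
    (gam N M hM (tpow M (ZMod.val j))).1 * ((!![(q : ℤ), 0; 0, (q : ℤ)]) *
      (!![((1 : ℕ) : ℤ), 0; 0, ((1 : ℕ) : ℤ)]))
  rw [gam_tpow]
  ext i j
  fin_cases i <;> fin_cases j <;> simp [Matrix.mul_apply, Fin.sum_univ_two, mul_comm]

end

end Fermat.Agent.H70.Coh
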