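import Fermat.Agent.H37TrRel
import Fermat.Agent.H70Trace

/-!
# Comparison with the families `trFam`, `nuFam` of `H70Trace`
-/

set_option autoImplicit false

open CongruenceSubgroup Matrix.SpecialLinearGroup
open scoped MatrixGroups

namespace Fermat.Agent.H37.Tr

open Fermat.Agent.H70.Coh

variable {N M q : ℕ} {R : Type*} [CommRing R] {V : Type*} [AddCommGroup V] [Module R V]
  {ρ : DN N →* (Module.End R V)ᵐᵒᵖ}

lemma mem_trFam (w : AL M q) (hNM : N ∣ M) (hq : q.Prime) (hqM : ¬ q ∣ M) (g : Gamma0 M) :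
    Mem (trFam w hNM hq hqM) (gam N M hNM g) := by
  obtain ⟨k, hk⟩ := exists_rep w hq hqM ((g : SL(2, ℤ)) : Matrix (Fin 2) (Fin 2) ℤ) (gamma0_dvd g)
  refine ⟨k, ⟨((g * (trRep w k)⁻¹ : Gamma0 M) : SL(2, ℤ)), ?_⟩, ?_⟩
  · rw [Gamma0_mem, ZMod.intCast_zmod_eq_zero_iff_dvd]
    exact hk
  · change _ = _ * gam N M hNM (trRep w k)
    rw [gam_congr (hNM.mul_right q) hNM _ (g * (trRep w k)⁻¹) rfl, ← map_mul,
      inv_mul_cancel_right]

lemma subQ_gam (hNM : N ∣ M) {g : Gamma0 M} (hg : g ∈ subQ M q) :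
    ∃ γ : Gamma0 (M * q), gam N M hNM g = gam N (M * q) (hNM.mul_right q) γ :=
  ⟨⟨(g : SL(2, ℤ)), by rw [subQ, Subgroup.mem_subgroupOf] at hg; exact hg⟩, rfl⟩

/-- The two trace families induce the same operator. -/
theorem trFam_eq [NeZero M] [NeZero q] (w : AL M q) (hNM : N ∣ M) (hq : q.Prime)
    (hqM : ¬ q ∣ M) :
    (trFam w hNM hq hqM).opH ρ = (Fermat.Agent.H70.Coh.trFam hNM).opH ρ := by
  symm
  refine opH_congr_of_supp _ _ ?_ (trFam_irr w hNM hq hqM) ?_ ?_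
  · intro i i' γ h
    change (1 : DN N) * gam N M hNM (Quotient.out i) =
      gam N (M * q) (hNM.mul_right q) γ * (1 * gam N M hNM (Quotient.out i')) at h
    rw [one_mul, one_mul] at h
    have h1 : (i.out : SL(2, ℤ)) = (γ : SL(2, ℤ)) * (i'.out : SL(2, ℤ)) := by
      have h2 := congrArg Subtype.val h
      change (gam N M hNM i.out).1 =
        (gam N (M * q) (hNM.mul_right q) γ).1 * (gam N M hNM i'.out).1 at h2
      rw [gam_val, gam_val, gam_val] at h2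
      apply Subtype.ext
      rw [h2]
      rfl
    rw [← Quotient.out_eq i, ← Quotient.out_eq i']
    refine ((HFam.mk_eq_mk (subQ M q)).mpr ?_).symm
    change (i.out : SL(2, ℤ)) * (i'.out : SL(2, ℤ))⁻¹ ∈ Gamma0 (M * q)
    rw [h1, mul_inv_cancel_right]
    exact γ.2
  · intro i
    change Mem _ ((1 : DN N) * gam N M hNM (Quotient.out i))
    rw [one_mul]
    exact mem_trFam w hNM hq hqM _
  · intro j
    change Mem _ (gam N M hNM (trRep w j))
    have h1 := HFam.out_mul_inv_mem (subQ M q) (trRep w j)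
    obtain ⟨γ, hγ⟩ := subQ_gam hNM h1
    refine ⟨Quotient.mk _ (trRep w j), γ, ?_⟩
    change _ = _ * ((1 : DN N) * gam N M hNM (Quotient.out _))
    rw [one_mul, ← hγ, ← map_mul, inv_mul_cancel_right]

/-- `u₀ = (1, 0; 0, q)` -/
abbrev u0 (N : ℕ) (hq : q.Prime) : DN N := ut N 1 0 q one_pos hq.pos (Nat.coprime_one_left N)

lemma nu_aux' (hNM : N ∣ M) (hq : q.Prime) (g : Gamma0 M) (γ : Gamma0 (M * q))
    (h : u0 N hq * gam N M hNM g = gam N (M * q) (hNM.mul_right q) γ * u0 N hq) :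
    g ∈ subQ' M q := by
  rw [mem_subQ']
  have h1 := congrArg Subtype.val h
  change (!![((1 : ℕ) : ℤ), 0; 0, (q : ℤ)]) * (gam N M hNM g).1 =
    (gam N (M * q) (hNM.mul_right q) γ).1 * (!![((1 : ℕ) : ℤ), 0; 0, (q : ℤ)]) at h1
  rw [gam_val, gam_val] at h1
  have h01 := congrFun (congrFun h1 0) 1
  simp [Matrix.mul_apply, Fin.sum_univ_two] at h01
  exact ⟨_, h01.trans (mul_comm _ _)⟩

lemma mem_nuFam [NeZero q] (hNM : N ∣ M) (hq : q.Prime) (g : Gamma0 M) :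
    Mem (nuFam hNM hq) (u0 N hq * gam N M hNM g) := by
  have h1 := HFam.out_mul_inv_mem (subQ' M q) g
  obtain ⟨γ, hγ⟩ := nu_aux hNM hq _ h1
  refine ⟨Quotient.mk _ g, γ, ?_⟩
  change _ = _ * (u0 N hq * gam N M hNM (Quotient.out _))
  rw [← mul_assoc, ← hγ, mul_assoc, ← map_mul, inv_mul_cancel_right]

/-- the matrix `δ = (q x, y; M z, t) ∈ Γ₀(M)` with `W = u₀ δ` -/
def AL.del (w : AL M q) : Gamma0 M :=
  ⟨⟨!![q * w.x, w.y; M * w.z, w.t], by
    rw [Matrix.det_fin_two_of]; linear_combination w.eq⟩, Gamma0_mem.mpr (by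
    change (((M : ℤ) * w.z : ℤ) : ZMod M) = 0
    simp)⟩

lemma AL.mat_eq (w : AL M q) (hNM : N ∣ M) (hq : q.Prime) :
    w.mat hNM hq.pos = u0 N hq * gam N M hNM w.del := by
  apply dn_ext
  change (w.mat hNM hq.pos).1 = (!![((1 : ℕ) : ℤ), 0; 0, (q : ℤ)]) * (gam N M hNM w.del).1
  rw [gam_val, AL.mat_val]
  change _ = (!![((1 : ℕ) : ℤ), 0; 0, (q : ℤ)]) * !![q * w.x, w.y; M * w.z, w.t]
  ext i j
  fin_cases i <;> fin_cases j <;> simp [Matrix.mul_apply, Fin.sum_univ_two]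
  ring

/-- **`tr ∘ w = ν`.** -/
theorem trFam_wFam [NeZero q] (w : AL M q) (hNM : N ∣ M) (hq : q.Prime) (hqM : ¬ q ∣ M)
    (x : H1 (gam N (M * q) (hNM.mul_right q)) ρ) :
    (trFam w hNM hq hqM).opH ρ ((wFam hNM hq.pos w).opH ρ x) = (nuFam hNM hq).opH ρ x := by
  rw [← HFam.opH_comp]
  apply LinearMap.congr_fun
  refine opH_congr_of_supp _ _ ?_ ?_ ?_ ?_
  · rintro ⟨⟨⟩, i⟩ ⟨⟨⟩, i'⟩ γ h
    change w.mat hNM hq.pos * gam N M hNM (trRep w i) =
      gam N (M * q) (hNM.mul_right q) γ * (w.mat hNM hq.pos * gam N M hNM (trRep w i')) at h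
    obtain ⟨γ', hγ'⟩ := al_conj' hNM hq.pos w γ
    rw [← mul_assoc, hγ', mul_assoc] at h
    have h1 := dn_mul_left_cancel h
    rw [trFam_irr w hNM hq hqM i i' γ' h1]
  · intro i i' γ h
    change u0 N hq * gam N M hNM (Quotient.out i) =
      gam N (M * q) (hNM.mul_right q) γ * (u0 N hq * gam N M hNM (Quotient.out i')) at h
    rw [← Quotient.out_eq i, ← Quotient.out_eq i']
    refine ((HFam.mk_eq_mk (subQ' M q)).mpr ?_).symm
    refine nu_aux' hNM hq _ γ ?_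
    have h2 := congrArg (fun s => s * gam N M hNM (i'.out)⁻¹) h
    simp only [mul_assoc, ← map_mul, mul_inv_cancel, map_one, mul_one] at h2
    rw [h2]
  · rintro ⟨⟨⟩, i⟩
    change Mem _ (w.mat hNM hq.pos * gam N M hNM (trRep w i))
    rw [AL.mat_eq w hNM hq, mul_assoc, ← map_mul]
    exact mem_nuFam hNM hq _
  · intro j
    change Mem _ (u0 N hq * gam N M hNM (Quotient.out j))
    obtain ⟨i, γ, hi⟩ := mem_trFam w hNM hq hqM (w.del⁻¹ * Quotient.out j)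
    obtain ⟨γ', hγ'⟩ := al_conj hNM hq.pos w γ
    refine ⟨((), i), γ', ?_⟩
    change _ = gam N (M * q) (hNM.mul_right q) γ' *
      (w.mat hNM hq.pos * gam N M hNM (trRep w i))
    change gam N M hNM (w.del⁻¹ * Quotient.out j) =
      gam N (M * q) (hNM.mul_right q) γ * gam N M hNM (trRep w i) at hi
    rw [← mul_assoc, ← hγ', mul_assoc, ← hi, AL.mat_eq w hNM hq, mul_assoc, ← map_mul,
      mul_inv_cancel_left]

lemma nonempty_AL' (hq : q.Prime) (hqM : ¬ q ∣ M) : Nonempty (AL M q) :=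
  nonempty_AL ((Nat.Prime.coprime_iff_not_dvd hq).mpr hqM)

/-- `T_ℓ` commutes with the trace. -/
theorem tFam_trFam' [NeZero M] [NeZero q] {ℓ : ℕ} (hNM : N ∣ M) (hq : q.Prime) (hqM : ¬ q ∣ M)
    (hℓ : ℓ.Prime) (hℓM : ¬ ℓ ∣ M * q) (x : H1 (gam N (M * q) (hNM.mul_right q)) ρ) :
    (Fermat.Agent.H70.Coh.trFam hNM).opH ρ ((tFam (hNM.mul_right q) hℓ hℓM).opH ρ x) =
      (tFam hNM hℓ (fun h => hℓM (h.mul_right q))).opH ρ
        ((Fermat.Agent.H70.Coh.trFam hNM).opH ρ x) := by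
  obtain ⟨w⟩ := nonempty_AL' hq hqM
  rw [← trFam_eq w hNM hq hqM]
  exact tFam_trFam w hNM hq hqM hℓ hℓM x

/-- `T_ℓ` commutes with `ν`. -/
theorem tFam_nuFam [NeZero q] {ℓ : ℕ} (hNM : N ∣ M) (hq : q.Prime) (hqM : ¬ q ∣ M)
    (hℓ : ℓ.Prime) (hℓM : ¬ ℓ ∣ M * q) (x : H1 (gam N (M * q) (hNM.mul_right q)) ρ) :
    (nuFam hNM hq).opH ρ ((tFam (hNM.mul_right q) hℓ hℓM).opH ρ x) =
      (tFam hNM hℓ (fun h => hℓM (h.mul_right q))).opH ρ ((nuFam hNM hq).opH ρ x) := by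
  obtain ⟨w⟩ := nonempty_AL' hq hqM
  rw [← trFam_wFam w hNM hq hqM, ← trFam_wFam w hNM hq hqM, tFam_wFam w hNM hq.pos hℓ hℓM,
    tFam_trFam w hNM hq hqM hℓ hℓM]

/-- A class killed by both traces: `U_q w x = - x` and `U_q x = - w x`. -/
theorem u_w_of_traces_eq_zero [NeZero M] [NeZero q] (w : AL M q) (hNM : N ∣ M) (hq : q.Prime)
    (hqM : ¬ q ∣ M) (hqN : q.Coprime N) (hs : ScalTriv ρ hq.pos hqN)
    (x : H1 (gam N (M * q) (hNM.mul_right q)) ρ)
    (h1 : (Fermat.Agent.H70.Coh.trFam hNM).opH ρ x = 0) (h2 : (nuFam hNM hq).opH ρ x = 0) :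
    (uFam (hNM.mul_right q) hq.pos (dvd_mul_left q M)).opH ρ ((wFam hNM hq.pos w).opH ρ x) = - x ∧
    (uFam (hNM.mul_right q) hq.pos (dvd_mul_left q M)).opH ρ x = - (wFam hNM hq.pos w).opH ρ x := by
  constructor
  · have h3 := resFam_trFam w hNM hq hqM hqN hs x
    rw [trFam_eq w hNM hq hqM, h1, map_zero] at h3
    rw [eq_comm, neg_eq_iff_add_eq_zero]
    exact h3.symm
  · have h3 := resFam_trFam w hNM hq hqM hqN hs ((wFam hNM hq.pos w).opH ρ x)
    rw [trFam_wFam, h2, map_zero, wFam_wFam hNM hq.pos hqN w hs] at h3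
    rw [eq_comm, neg_eq_iff_add_eq_zero]
    exact h3.symm

end Fermat.Agent.H37.Tr
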