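import Fermat.Agent.H37NoNew
import Fermat.Agent.H37TrEq

/-!
# Guide: bounded rank of cohomology at Taylor-Wiles levels

**What is proved.** Let `O` be a complete discrete valuation ring of characteristic 0 with finite residue
field of characteristic `p ≠ 2`, `ρ̄` an irreducible representation of `Gal(Q̄/Q)` over the residue field,
`𝔪` the maximal ideal of the polynomial ring `O[T_ℓ]` given by the traces of `ρ̄`, and let `q_1, …, q_r` be
different primes `≡ 1 mod p`, prime to `M`, at which `ρ̄` has two different Frobenius eigenvalues,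
`Q = q_1 ⋯ q_r`. Then (`bounded_rank`)

  `rank_O H¹(Γ₀(M Q), O)_𝔪 ≤ 2 ^ r · rank_O H¹(Γ₀(M), O)_𝔪`.

The bound does not depend on the primes `q_i`; if the module at level `M` is zero, so is the module at
level `M Q` (`rank_zero`). This is what the Taylor-Wiles method needs from the Hecke side besides
freeness over the diamond operators: the rank of the modules which are patched is bounded (patching can
choose equal ranks), and a residual eigensystem which does not occur at level `M / t₀` does not occur at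
level `(M / t₀) Q` either (used for `t₀`-newness in level lowering).

**How.** By induction one prime `q` is added to the level `M`. The two traces
`tr, ν : H¹(Γ₀(M q), O) → H¹(Γ₀(M), O)` commute with the Hecke operators `T_ℓ`, so it is enough that no
eigenvector of level `M q` in the `𝔪`-part is killed by both of them (`rank_lemma`). Suppose that there
is one.
1. It is defined over a finite extension `O'` of `O`, and it has the residual eigensystem of `ρ̄`
   (`eigenvector_over_extension`, `residual_eigensystem`).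
2. It is not Eisenstein (`exists_non_eisenstein_prime`), so it gives an eigenvector `w ≠ 0` in
   `O' ⊗ T_p J₀(M q)` killed by both push-forwards to `J₀(M)` (`eigenvector_in_tate_module`).
3. A representation `ρ` is attached to it (`exists_attached_representation`), and because of
   `(φ + q w_q)(φ + w_q) = 0` on the `q`-new part (two-component reduction of `X₀(M q)` at `q`) every
   Frobenius element at `q` has the eigenvalues `u, u q` on `ρ`, where `u = ± 1`
   (`frobenius_at_new_prime`).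
4. Modulo the maximal ideal `q = 1`: the two eigenvalues are equal. But `ρ` and `ρ̄` have the same
   characteristic polynomials (`charpoly_of_frobenius`), and those of `ρ̄` at `q` are different:
   contradiction (`no_new_eigenclass`).

**Order.** 1 operators of families of matrices; 2 matrices of determinant `ℓ`, Atkin-Lehner matrices,
representatives of `Γ₀(M q) \ Γ₀(M)`; 3 the two traces and the Hecke operators; 4 ranks; 5 eigenvectors;
6 Galois representations; 7 results.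

**Files.** 1: `H70HeckeAbs`, `H37TrAbs`. 2: `H70HeckeConc`, `H37Tr`, `H37TrFam`. 3: `H37TrRel`,
`H37TrEq`, `H70Trace`. 4: `H59Loc`, `H37Rank`, `H37RankTW`, `H37NNRes`. 5: `H37NNLat`, `H37NoNew`.
6: `H94BRE`, `H37NNGal`, `H35VLattice`, `H89Inst`. 7: `H37NoNew`; used in `H59LL6` and `H35Rk`. (Authors:
the number after `H`.)

**See also.** `GuideCohomology`, `GuideTWModules` (helper70) for `H¹(Γ₀(M), V)` in general (there also the
matrix of `tr`, `ν` on the old forms) and freeness over the diamond operators, `GuideEigensystems`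
(helper59) for eigenvectors and summands, `GuideEigen`, `GuideEigenSteps` (helper4) for the passage to the
Tate module, `GuideBadRed` (helper89) for the relation at `q`, `GuideLevelsIhara` and `GuideLifting` for
the use of the results.

**Serves** S38, S43, S59, S60 and S01, and with them S03, S04, S06, S45, S46, S50: every library theorem
cited here occurs in the proof terms of all these. Sections 1 to 3 are also used in the eigen-analysis
(`H4EATr`, see `GuideEigen`), and families with members in different classes, Atkin-Lehner matrices and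
`w` also in the twist embedding (`H21JNew`, `H21JAL`, `H21JW`, `H21JEmb`, see `GuideTwistEmbedding`).
**Notes** [176]. Written by helper37.
-/

set_option autoImplicit false

noncomputable section

namespace Fermat.Agent.Guide.BoundedRank

open CongruenceSubgroup IsLocalRing TensorProduct Polynomial
open scoped MatrixGroups
open Fermat.Agent.H70.Coh Fermat.Agent.H37.Tr

/-- The field of algebraic numbers. -/
local notation "Qb" => AlgebraicClosure ℚ

/-- The absolute Galois group of `ℚ`. -/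
local notation "GQ" => (AlgebraicClosure ℚ ≃ₐ[ℚ] AlgebraicClosure ℚ)

/-! ### 1. Operators on cohomology given by families of matrices

`S` is a monoid, `Γ` and `Γ'` are groups with homomorphisms `ι`, `ι'` to `S`, and `V` is an `R`-module on
which `S` acts from the right; `slash ρ s v` is written `v | s` below. `Z1 ι ρ` is the module of the
cocycles `c : Γ → V`, `c(γ δ) = c(γ) | δ + c(δ)`, and `H1 ι ρ` is its quotient by the coboundaries
`γ ↦ v | γ - v`. A *family* `h : HFam ι ι'` is a finite set of elements `α_i` of `S` with: for every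
`γ' ∈ Γ'` there are a permutation `σ` of the indices and `δ_i ∈ Γ` with `α_i γ' = δ_i α_{σ i}`. It induces
a map `h.opH ρ : H1 ι ρ → H1 ι' ρ`. (`IsFreeOn ι`: only `1 ∈ Γ` can satisfy `γ s = s` for some `s ∈ S`.) -/

section Families

variable {S : Type*} [Monoid S] {R : Type*} [CommRing R] {V : Type*} [AddCommGroup V] [Module R V]
  {Γ Γ' Γ'' : Type*} [Group Γ] [Group Γ'] [Group Γ''] {ι : Γ →* S} {ι' : Γ' →* S} {ι'' : Γ'' →* S}
  {ρ : S →* (Module.End R V)ᵐᵒᵖ} [HFam.IsFreeOn ι]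

/-- **The operator of a family.** If `α_i γ' = δ_i α_{σ i}` for all `i`, then
`(h c)(γ') = ∑ c(δ_i) | α_{σ i}`. The value does not depend on the choice of `σ` and `δ`. (`H70HeckeAbs`.) -/
theorem operator_value (h : HFam ι ι') (c : Z1 ι ρ) (γ' : Γ') (σ : Equiv.Perm h.J) (δ : h.J → Γ)
    (hs : ∀ i, h.α i * ι' γ' = ι (δ i) * h.α (σ i)) :
    (h.op ρ c).1 γ' = ∑ i, slash ρ (h.α (σ i)) (c.1 (δ i)) :=
  HFam.op_apply_of_eq h c γ' σ δ hs

/-- **The operator depends only on the classes.** Let the members of the first family lie in different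
classes `Γ s`, also those of the second, and let both families meet the same classes. Then they induce the
same map on `H¹`. (`H37TrAbs`.) -/
theorem operator_of_classes (h₁ h₂ : HFam ι ι')
    (hi₁ : ∀ (i i' : h₁.J) (γ : Γ), h₁.α i = ι γ * h₁.α i' → i = i')
    (hi₂ : ∀ (i i' : h₂.J) (γ : Γ), h₂.α i = ι γ * h₂.α i' → i = i')
    (h12 : ∀ i, ∃ (j : h₂.J) (γ : Γ), h₁.α i = ι γ * h₂.α j)
    (h21 : ∀ j, ∃ (i : h₁.J) (γ : Γ), h₂.α j = ι γ * h₁.α i) :
    h₁.opH ρ = h₂.opH ρ :=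
  opH_congr_of_supp h₁ h₂ hi₁ hi₂ h12 h21

/-- **Composition**: the products `α_i β_j` give the composition. (`H70HeckeAbs`.) -/
theorem operator_of_products [HFam.IsFreeOn ι'] (h₁ : HFam ι ι') (h₂ : HFam ι' ι'')
    (x : H1 ι ρ) : (h₁.comp h₂).opH ρ x = h₂.opH ρ (h₁.opH ρ x) :=
  HFam.opH_comp h₁ h₂ x

end Families

/-! ### 2. Integral matrices

For `N ∣ M` the monoid `DN N` consists of the integral matrices `(a b; c d)` with positive determinant,
`N ∣ c` and `a` prime to `N`; `gam N M h : Γ₀(M) → DN N` is the inclusion. Families between such groups: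
* `tFam` (`T_ℓ` for a prime `ℓ ∤ M`): the matrices `(ℓ 0; 0 1)` and `(1 j; 0 ℓ)`, `0 ≤ j < ℓ`;
* `uFam` (`U_q` for `q ∣ M`): the matrices `(1 j; 0 q)`, `0 ≤ j < q`;
* `wFam` (`w_q` at level `M q`): one matrix `(q x, y; M q z, q t)` of determinant `q`; the structure
  `AL M q` consists of integers `x, y, z, t` with `q x t - M y z = 1`;
* `resFam` (restriction from `Γ₀(M)` to `Γ₀(M')`, `M ∣ M'`): the unit matrix;
* `trFam` (trace from `Γ₀(M q)` to `Γ₀(M)`): representatives of the classes `Γ₀(M q) \ Γ₀(M)`;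
* `nuFam` (the second trace `ν`): the matrices `(1 0; 0 q) γ`, `γ` in representatives of the classes of
  `Γ₀(M)` modulo the subgroup of the matrices with `q ∣ b`. -/

/-- **Matrices of determinant `ℓ`.** Let `ℓ ∤ M` be a prime. Every integral matrix `A = (a b; c d)` of
determinant `ℓ` with `M ∣ c` is in one of the classes `Γ₀(M) (ℓ 0; 0 1)`, `Γ₀(M) (1 j; 0 ℓ)`. (`H37Tr`.) -/
theorem matrix_of_prime_det {M ℓ : ℕ} (hℓ : ℓ.Prime) (hℓM : ¬ ℓ ∣ M)
    (A : Matrix (Fin 2) (Fin 2) ℤ) (hdet : A.det = ℓ) (hc : (M : ℤ) ∣ A 1 0) :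
    (∃ γ : Gamma0 M, A = ((γ : SL(2, ℤ)) : Matrix (Fin 2) (Fin 2) ℤ) * !![(ℓ : ℤ), 0; 0, 1]) ∨
      ∃ (j : ZMod ℓ) (γ : Gamma0 M),
        A = ((γ : SL(2, ℤ)) : Matrix (Fin 2) (Fin 2) ℤ) * !![1, (j.val : ℤ); 0, (ℓ : ℤ)] := by
  obtain ⟨_ | j, γ, h⟩ := exists_decomp (one_dvd M) hℓ hℓM A hdet hc
  · exact Or.inl ⟨γ, h⟩
  · exact Or.inr ⟨j, γ, h⟩

/-- These `ℓ + 1` classes are different. (`tRep` is the list of their matrices: `(ℓ 0; 0 1)` at the index
`∞`, `(1 j; 0 ℓ)` at the index `j`. `H37Tr`.) -/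
theorem hecke_classes_distinct {N M ℓ : ℕ} (hM : N ∣ M) (hℓ : ℓ.Prime) (hℓM : ¬ ℓ ∣ M)
    (i i' : OnePoint (ZMod ℓ)) (γ : Gamma0 M)
    (h : tRep hM hℓ hℓM i = gam N M hM γ * tRep hM hℓ hℓM i') : i = i' :=
  irr_tFam hℓ hℓM i i' γ h

/-- **Atkin-Lehner matrices exist** if `q` is prime to `M`, by Bezout. (`H37TrFam`.) -/
theorem exists_atkinLehner {M q : ℕ} (h : q.Coprime M) : Nonempty (AL M q) :=
  nonempty_AL h

/-- **Atkin-Lehner matrices normalise `Γ₀(M q)`**: with `W = (q x, y; M q z, q t)` of determinant `q`, for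
every `γ ∈ Γ₀(M q)` there is `γ' ∈ Γ₀(M q)` with `W γ = γ' W`. (`H37TrFam`.) -/
theorem atkinLehner_normalises {M q : ℕ} (hq : 0 < q) (w : AL M q) (γ : Gamma0 (M * q)) :
    ∃ γ' : Gamma0 (M * q),
      !![(q : ℤ) * w.x, w.y; M * q * w.z, q * w.t] * ((γ : SL(2, ℤ)) : Matrix (Fin 2) (Fin 2) ℤ) =
        ((γ' : SL(2, ℤ)) : Matrix (Fin 2) (Fin 2) ℤ) * !![(q : ℤ) * w.x, w.y; M * q * w.z, q * w.t] :=
  (al_conj (one_dvd M) hq w γ).imp fun _ h => congrArg Subtype.val h

/-- **Representatives of `Γ₀(M q) \ Γ₀(M)`** for a prime `q ∤ M`: the unit matrix and the `q` matrices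
`g₀ T^j`, where `g₀ = (x, y; M z, q t)` and `T = (1 1; 0 1)`, `0 ≤ j < q`. (`H37TrFam`.) -/
theorem trace_representatives {M q : ℕ} (w : AL M q) (hq : q.Prime) (hqM : ¬ q ∣ M) :
    trRep w none = 1 ∧
    (∀ j : ZMod q, ((trRep w (some j) : SL(2, ℤ)) : Matrix (Fin 2) (Fin 2) ℤ) =
      !![w.x, w.x * j.val + w.y; M * w.z, M * w.z * j.val + q * w.t]) ∧
    (∀ g : Gamma0 M, ∃ i, ((M * q : ℕ) : ℤ) ∣
      (((g : SL(2, ℤ)) : Matrix (Fin 2) (Fin 2) ℤ) *
        (((trRep w i)⁻¹ : Gamma0 M) : SL(2, ℤ)) : Matrix (Fin 2) (Fin 2) ℤ) 1 0) ∧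
    ∀ (i i' : Option (ZMod q)) (γ : Gamma0 (M * q)),
      (trRep w i : SL(2, ℤ)) = (γ : SL(2, ℤ)) * (trRep w i' : SL(2, ℤ)) → i = i' :=
  ⟨rfl, trRep_some_val w, fun g => exists_rep w hq hqM _ (gamma0_dvd g), trRep_irr w hq⟩

/-! ### 3. The two traces and the Hecke operators

`M` is a positive integer, `q ∤ M` a prime, `N ∣ M`, and `V` any module with a right action of `DN N`. (In
the application `V` is the coefficient ring with trivial action.) Further relations, not needed here: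
`tr ∘ res = q + 1` (`GuideCohomology`, section 5) and, if the scalar matrix `q` acts trivially on `V`,
`w ∘ w = 1` and `res ∘ tr = 1 + U_q w` (`GuideTwistEmbedding`, section 3). -/

section Relations

variable {N M q : ℕ} {R : Type*} [CommRing R] {V : Type*} [AddCommGroup V] [Module R V]
  {ρ : DN N →* (Module.End R V)ᵐᵒᵖ}

/-- **The trace does not depend on the representatives**, and the second trace is `ν = tr ∘ w`: with the
matrix `δ = (q x, y; M z, t) ∈ Γ₀(M)` one has `W = (1 0; 0 q) δ`. (`H37TrEq`.) -/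
theorem tr_and_nu [NeZero M] [NeZero q] (w : AL M q) (hNM : N ∣ M) (hq : q.Prime) (hqM : ¬ q ∣ M)
    (x : H1 (gam N (M * q) (hNM.mul_right q)) ρ) :
    (Fermat.Agent.H37.Tr.trFam w hNM hq hqM).opH ρ x = (Fermat.Agent.H70.Coh.trFam hNM).opH ρ x ∧
    (Fermat.Agent.H37.Tr.trFam w hNM hq hqM).opH ρ ((wFam hNM hq.pos w).opH ρ x) =
      (nuFam hNM hq).opH ρ x :=
  ⟨LinearMap.congr_fun (trFam_eq w hNM hq hqM) x, trFam_wFam w hNM hq hqM x⟩

/-- **Hecke operators commute with everything.** For a prime `ℓ ∤ M q` the operators `T_ℓ` of levels `M`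
and `M q` commute with the restriction, with `w`, with the trace and with `ν`. For `w` and the trace this
is a comparison of classes: `W t_j`, where `t_j` is a matrix of `T_ℓ`, is in some class
`Γ₀(M q) t_k W` by `matrix_of_prime_det`. (`H37TrRel`, `H37TrEq`.) -/
theorem hecke_commutes [NeZero M] [NeZero q] {ℓ : ℕ} (w : AL M q) (hNM : N ∣ M) (hq : q.Prime)
    (hqM : ¬ q ∣ M) (hℓ : ℓ.Prime) (hℓM : ¬ ℓ ∣ M * q) :
    (∀ x : H1 (gam N M hNM) ρ,
      (resFam hNM (dvd_mul_right M q)).opH ρ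
        ((tFam hNM hℓ (fun h => hℓM (h.trans (dvd_mul_right M q)))).opH ρ x) =
      (tFam (hNM.trans (dvd_mul_right M q)) hℓ hℓM).opH ρ
        ((resFam hNM (dvd_mul_right M q)).opH ρ x)) ∧
    (∀ x : H1 (gam N (M * q) (hNM.mul_right q)) ρ,
      (wFam hNM hq.pos w).opH ρ ((tFam (hNM.mul_right q) hℓ hℓM).opH ρ x) =
      (tFam (hNM.mul_right q) hℓ hℓM).opH ρ ((wFam hNM hq.pos w).opH ρ x)) ∧
    (∀ x : H1 (gam N (M * q) (hNM.mul_right q)) ρ,
      (Fermat.Agent.H70.Coh.trFam hNM).opH ρ ((tFam (hNM.mul_right q) hℓ hℓM).opH ρ x) =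
      (tFam hNM hℓ (fun h => hℓM (h.mul_right q))).opH ρ
        ((Fermat.Agent.H70.Coh.trFam hNM).opH ρ x)) ∧
    ∀ x : H1 (gam N (M * q) (hNM.mul_right q)) ρ,
      (nuFam hNM hq).opH ρ ((tFam (hNM.mul_right q) hℓ hℓM).opH ρ x) =
      (tFam hNM hℓ (fun h => hℓM (h.mul_right q))).opH ρ ((nuFam hNM hq).opH ρ x) :=
  ⟨tFam_resFam hNM (dvd_mul_right M q) hℓ hℓM, tFam_wFam w hNM hq.pos hℓ hℓM,
    tFam_trFam' hNM hq hqM hℓ hℓM, tFam_nuFam hNM hq hqM hℓ hℓM⟩

end Relations

/-! ### 4. Ranks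

`HH O M` is the cohomology `H¹(Γ₀(M), O)` with trivial action. `S` is a set of natural numbers, `Pr S` the
type of the primes `ℓ ∉ S`, and `Adm S M` says that all prime divisors of `M` are in `S`; then
`TT O hS ℓ` is the Hecke operator `T_ℓ` on `HH O M`, `ℓ ∉ S`. For a family `T` of commuting operators on
an `O`-module `H`, `act T hT P` is the polynomial `P` evaluated at `T`, and `Loc T hT e` is the image of
the operator `e(T)`. The polynomial `e` is a *local idempotent* at a residual eigensystem `θ` (a ring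
homomorphism from the polynomial ring to a field; `IsLocIdem T hT θ e`) if `θ(e) = 1`, `e(T)² = e(T)`, and
every `s` with `θ(s) ≠ 0` is invertible on the image of `e(T)`. Then `Loc T hT e` is the localisation of
`H` at the kernel `𝔪` of `θ`; for finite modules over a complete local ring such an `e` exists
(`GuideEigensystems`, section 1), and one `e` can be chosen for finitely many levels at the same time. -/

section Ranks

open Fermat.Agent.H59 Fermat.Agent.H37.Rank Fermat.Agent.H37.NN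

/-- **Cohomology with trivial action** is the group of homomorphisms: cocycles are homomorphisms, the
coboundaries vanish. (`H37RankTW`.) -/
theorem cohomology_trivial (R : Type*) [CommRing R] (M : ℕ) :
    (∀ c : Gamma0 M → R, c ∈ Z1 (gam 1 M (one_dvd M)) (psiRep (1 : (ZMod 1)ˣ →* Rˣ) R) ↔
      ∀ γ δ : Gamma0 M, c (γ * δ) = c γ + c δ) ∧
    B1 (gam 1 M (one_dvd M)) (psiRep (1 : (ZMod 1)ˣ →* Rˣ) R) = ⊥ :=
  ⟨fun c => by simp only [mem_Z1, slash_triv], B1_triv⟩

/-- It is a finitely generated torsion free module. (`H37RankTW`; `H70Psi` for the finiteness.) -/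
theorem cohomology_finite (O : Type) [CommRing O] [IsDomain O] [IsNoetherianRing O] (M : ℕ)
    [NeZero M] : Module.Finite O (HH O M) ∧ Module.IsTorsionFree O (HH O M) :=
  ⟨finite_HH, torsionFree_HH⟩

/-- **The rank lemma.** `H'`, `H` are finitely generated torsion free modules over a principal ideal
domain `O`, with commuting operators; `f₁, f₂ : H' → H` are equivariant, `e(T')` is idempotent, and `K ⊃ O`
is an algebraically closed field. If no common eigenvector of `K ⊗ H'` on which `e` has the value 1 is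
killed by both `f₁` and `f₂`, then `rank e H' ≤ 2 rank e H`. (The common kernel of `f₁`, `f₂` in `e H'` is
stable; if it were not zero, it would contain a common eigenvector after extension to `K`. So
`(f₁, f₂) : e H' → e H × e H` is injective.) (`H37Rank`.) -/
theorem rank_lemma {O ι H H' K : Type} [CommRing O] [IsDomain O] [IsPrincipalIdealRing O]
    [AddCommGroup H] [Module O H] [AddCommGroup H'] [Module O H']
    [Field K] [IsAlgClosed K] [Algebra O K] [FaithfulSMul O K]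
    [Module.Finite O H] [Module.IsTorsionFree O H] [Module.Finite O H'] [Module.IsTorsionFree O H']
    (T : ι → Module.End O H) (hT : ∀ i j, T i * T j = T j * T i)
    (T' : ι → Module.End O H') (hT' : ∀ i j, T' i * T' j = T' j * T' i)
    (f₁ f₂ : H' →ₗ[O] H) (h₁ : ∀ i x, f₁ (T' i x) = T i (f₁ x))
    (h₂ : ∀ i x, f₂ (T' i x) = T i (f₂ x)) (e : MvPolynomial ι O)
    (he' : act T' hT' e * act T' hT' e = act T' hT' e)
    (hE : ∀ (lam : ι → K) (v : K ⊗[O] H'), v ≠ 0 →
      (∀ i, (T' i).baseChange K v = lam i • v) → MvPolynomial.aeval lam e = 1 →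
      f₁.baseChange K v = 0 → f₂.baseChange K v = 0 → False) :
    Module.finrank O (Loc T' hT' e) ≤ 2 * Module.finrank O (Loc T hT e) :=
  finrank_loc_le_two_mul T hT T' hT' f₁ f₂ h₁ h₂ e he' hE

/-- **No new eigenvectors** (`NoNew K S e M q`, written out): if `q` is a prime, `q ∤ M` and all prime
divisors of `M q` are in `S`, no common eigenvector of the `T_ℓ`, `ℓ ∉ S`, in `K ⊗ H¹(Γ₀(M q), O)` on which
`e` has the value 1 is killed by both traces `tr1 = tr`, `tr2 = ν` to level `M`. (`H37RankTW`.) -/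
theorem noNew_iff {O : Type} [CommRing O] (K : Type) [Field K] [Algebra O K] (S : Set ℕ)
    (e : MvPolynomial (Pr S) O) (M q : ℕ) [NeZero M] [NeZero q] :
    NoNew K S e M q ↔ ∀ (hq : q.Prime) (_ : ¬ q ∣ M) (hS : ∀ ℓ : ℕ, ℓ.Prime → ℓ ∣ M * q → ℓ ∈ S)
      (lam : Pr S → K) (v : K ⊗[O] HH O (M * q)), v ≠ 0 →
      (∀ i, (TT O hS i).baseChange K v = lam i • v) → MvPolynomial.aeval lam e = 1 →
      (tr1 O M q).baseChange K v = 0 → (tr2 O M hq).baseChange K v = 0 → False :=
  Iff.rfl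

/-- **Iteration.** Let `Q_1, …, Q_r` be different primes not dividing `M`, and suppose that `e` is
idempotent on all levels between `M` and `M Q_1 ⋯ Q_r` and that there are no new eigenvectors at any of
the steps. Then the rank grows at most by the factor `2 ^ r`. (`H37RankTW`.) -/
theorem rank_iteration {O : Type} [CommRing O] [IsDomain O] [IsPrincipalIdealRing O] {K : Type}
    [Field K] [IsAlgClosed K] [Algebra O K] [FaithfulSMul O K] {S : Set ℕ}
    (e : MvPolynomial (Pr S) O) {M : ℕ} [NeZero M] (r : ℕ) (Q : Fin r → ℕ)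
    (hQ : ∀ i, (Q i).Prime) (hQM : ∀ i, ¬ Q i ∣ M) (hinj : Function.Injective Q)
    (he : ∀ (L : ℕ) (hL : Adm S L), M ∣ L → L ∣ M * ∏ i, Q i →
      act (TT O hL) (TT_comm hL) e * act (TT O hL) (TT_comm hL) e = act (TT O hL) (TT_comm hL) e)
    (hnew : ∀ (L q : ℕ) [NeZero L] [NeZero q], M ∣ L → L * q ∣ M * ∏ i, Q i → NoNew K S e L q)
    (hS : Adm S (M * ∏ i, Q i)) :
    Module.finrank O (Loc (TT O hS) (TT_comm hS) e) ≤
      2 ^ r * Module.finrank O (Loc (TT O (hS.of_dvd (Dvd.intro _ rfl)))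
        (TT_comm (hS.of_dvd (Dvd.intro _ rfl))) e) :=
  finrank_le_pow e r Q hQ hQM hinj he hnew hS

/-- **Restriction is injective**: the restriction `resHH O h : H¹(Γ₀(M), O) → H¹(Γ₀(M'), O)` is injective
if `O` is a domain of characteristic 0 (a power of every `γ ∈ Γ₀(M)` is in `Γ₀(M')`), and it commutes with
the Hecke operators. (`H37NNRes`.) -/
theorem restriction_injective {O : Type} [CommRing O] [IsDomain O] [CharZero O] {M M' : ℕ}
    [NeZero M'] {S : Set ℕ} (h : M ∣ M') (hS : Adm S M') :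
    Function.Injective (resHH O h) ∧
      ∀ (i : Pr S) (x : HH O M), resHH O h (TT O (hS.of_dvd h) i x) = TT O hS i (resHH O h x) :=
  ⟨resHH_injective h, resHH_TT h hS⟩

/-- Therefore a local idempotent at level `M'` is a local idempotent at every level `M ∣ M'`, for the same
residual eigensystem. (`H37NNRes`.) -/
theorem local_idempotent_of_dvd {O : Type} [CommRing O] [IsDomain O] [CharZero O] {M M' : ℕ}
    [NeZero M'] {S : Set ℕ} {κ : Type} [Field κ] {θ : MvPolynomial (Pr S) O →+* κ}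
    {e : MvPolynomial (Pr S) O} (h : M ∣ M') (hS : Adm S M')
    (he : IsLocIdem (TT O hS) (TT_comm hS) θ e) :
    IsLocIdem (TT O (hS.of_dvd h)) (TT_comm (hS.of_dvd h)) θ e :=
  isLocIdem_of_dvd h hS he

end Ranks

/-! ### 5. Eigenvectors: from an algebraically closed field to a finite extension of `O` -/

section Eigenvectors

open Fermat.Agent.H59 Fermat.Agent.H37.Rank Fermat.Agent.H37.NN

/-- **Eigenvectors over a finite extension.** `O` is a complete discrete valuation ring of characteristic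
0 with finite residue field, `K` its fraction field, `Kb ⊃ K` any field, `H` a finitely generated torsion
free `O`-module with commuting operators `T`, and `f` an equivariant map to a free module. Every common
eigenvector `v ≠ 0` in `Kb ⊗ H` with `f(v) = 0` can be replaced by one over a finite extension: there are a
complete discrete valuation ring `O'`, finite over `O`, an embedding `j : O' → Kb`, numbers `mu i ∈ O'`
with `j (mu i) = lam i`, and `x ≠ 0` in `O' ⊗ H` with `T_i x = mu_i x` and `f(x) = 0`. (The `T`-stable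
submodule `ker f` is finite over the image of the polynomial ring; the eigenvalues are integral.)
(`H37NNLat`; from `H59Eigen`, helper59, `H35VChi`, helper35.) -/
theorem eigenvector_over_extension {O : Type} [CommRing O] [IsDomain O]
    [IsDiscreteValuationRing O] [IsAdicComplete (maximalIdeal O) O] [Finite (ResidueField O)]
    [CharZero O] {ι H H₂ : Type} [AddCommGroup H] [Module O H] [Module.Finite O H]
    [Module.IsTorsionFree O H] [AddCommGroup H₂] [Module O H₂] [Module.Free O H₂]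
    (K : Type) [Field K] [Algebra O K] [IsFractionRing O K]
    {Kb : Type} [Field Kb] [Algebra K Kb] [Algebra O Kb] [IsScalarTower O K Kb]
    (T : ι → Module.End O H) (hT : ∀ i j, T i * T j = T j * T i)
    (f : H →ₗ[O] H₂) (T₂ : ι → Module.End O H₂) (hf : ∀ i x, f (T i x) = T₂ i (f x))
    (lam : ι → Kb) (v : Kb ⊗[O] H) (hv0 : v ≠ 0)
    (hv : ∀ i, (T i).baseChange Kb v = lam i • v) (hfv : f.baseChange Kb v = 0) :
    ∃ (O' : Type) (_ : CommRing O') (_ : IsDomain O') (_ : IsDiscreteValuationRing O')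
      (_ : IsAdicComplete (maximalIdeal O') O') (_ : Finite (ResidueField O')) (_ : CharZero O')
      (_ : Algebra O O') (_ : Module.Finite O O') (_ : IsLocalHom (algebraMap O O'))
      (j : O' →ₐ[O] Kb) (mu : ι → O') (x : O' ⊗[O] H),
      Function.Injective (algebraMap O O') ∧ Function.Injective j ∧ x ≠ 0 ∧
      (∀ i, j (mu i) = lam i) ∧ (∀ i, (T i).baseChange O' x = mu i • x) ∧
      f.baseChange O' x = 0 :=
  exists_lattice_eigen_ker K T hT f T₂ hf lam v hv0 hv hfv

/-- **The residual eigensystem of an eigenvector in the localised part.** Let `e` be a local idempotent at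
`θ`, and `x ∈ O' ⊗ H` an eigenvector with eigenvalues `mu i` on which `e` has the value 1. Then
`mu` reduces to `θ`: for every polynomial `P` the reduction of `P(mu)` is the image of `θ(P)`. (If
`θ(P) ≠ 0`, then `P` is invertible on `e H`, so `P(mu)` is a unit. If `θ(P) = 0`, apply this to
`1 - P ^ (q' - 1)`, `q'` the number of elements of the residue field of `O'`; in general to `P - a`, where
`a ∈ O` is a lift of `θ(P)`.) The hypothesis `hcancel` holds if `x ≠ 0` and `O' ⊗ H` is torsion free.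
(`H37NoNew`.) -/
theorem residual_eigensystem {O : Type} [CommRing O] [IsLocalRing O] {ι H : Type}
    [AddCommGroup H] [Module O H] (T : ι → Module.End O H)
    (hT : ∀ i j, T i * T j = T j * T i) {θ : MvPolynomial ι O →+* ResidueField O}
    (hθ : ∀ a : O, θ (MvPolynomial.C a) = residue O a)
    {e : MvPolynomial ι O} (he : IsLocIdem T hT θ e)
    {O' : Type} [CommRing O'] [IsLocalRing O'] [Finite (ResidueField O')]
    [Algebra O O'] [IsLocalHom (algebraMap O O')]
    (mu : ι → O') {x : O' ⊗[O] H} (hcancel : ∀ c : O', c • x = x → c = 1)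
    (hx : ∀ i, (T i).baseChange O' x = mu i • x) (hmu : MvPolynomial.aeval mu e = 1)
    (P : MvPolynomial ι O) :
    residue O' (MvPolynomial.aeval mu P) = ResidueField.map (algebraMap O O') (θ P) :=
  residue_aeval_eq T hT hθ he mu hcancel hx hmu P

/-- **Change of coefficients.** For `O ⊂ O' ⊂ K` (`K` a field) the natural map
`O' ⊗ H¹(Γ₀(M), O) → H¹(Γ₀(M), K)` is injective and commutes with the operators of all families.
(`H37NNLat`.) -/
theorem change_of_coefficients {O O' K : Type} [CommRing O] [IsDomain O] [IsPrincipalIdealRing O]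
    [CommRing O'] [IsDomain O'] [Field K] [Algebra O O'] [Algebra O' K] [Algebra O K]
    [IsScalarTower O O' K] (hinj : Function.Injective (algebraMap O O'))
    (hinj' : Function.Injective (algebraMap O' K)) :
    ∃ B : ∀ M : ℕ, O' ⊗[O] HH O M →ₗ[O'] HH K M, (∀ M, Function.Injective (B M)) ∧
      ∀ (M M' : ℕ) (h : HFam (gam 1 M (one_dvd M)) (gam 1 M' (one_dvd M'))) (x : O' ⊗[O] HH O M),
        B M' ((h.opH (psiRep (1 : (ZMod 1)ˣ →* Oˣ) O)).baseChange O' x) =
          h.opH (psiRep (1 : (ZMod 1)ˣ →* Kˣ) K) (B M x) :=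
  ⟨fun M => hhBC M O O' K, fun _ => hhBC_injective hinj hinj', fun _ _ h x => hhBC_opH h x⟩

end Eigenvectors

/-! ### 6. Galois representations

`JZero N` is `Pic⁰` of the function field of `X₀(N)` over the algebraic numbers, `TateMod p J` the Tate
module, `tateMap T` the map of Tate modules induced by `T`, `degPush d` the push-forward
`J₀(M q) → J₀(M)` along `τ ↦ d τ`, `IsEigJ p N S lam v` says `T_ℓ v = lam ℓ · v` for the primes `ℓ ∤ N`,
`ℓ ∉ S` (see `isEigJ_iff`), and `IsAttached S lam ρ` says that Frobenius elements at `ℓ ∉ S` have the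
characteristic polynomial `X² - lam ℓ X + ℓ` on `ρ` (`GuideEigen`, `isAttached_iff`). -/

section Galois

open Fermat.Agent.H4 Fermat.Agent.H30 Fermat.Agent.H35 Fermat.Agent.H62 Fermat.Agent.H67
open Fermat.Agent.H94.BR Fermat.Agent.H37.NN ModularCurve

variable {p : ℕ} [Fact p.Prime] {S : Finset ℕ}
  {𝒪' : Type} [CommRing 𝒪'] [IsDomain 𝒪'] [IsDiscreteValuationRing 𝒪']
  [IsAdicComplete (maximalIdeal 𝒪') 𝒪'] [Finite (ResidueField 𝒪')] [CharZero 𝒪']

omit [IsDomain 𝒪'] [IsDiscreteValuationRing 𝒪'] [IsAdicComplete (maximalIdeal 𝒪') 𝒪']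
  [Finite (ResidueField 𝒪')] [CharZero 𝒪'] in
/-- **Eigenvectors in the Tate module**, written out. (`H4EAJ`, helper4.) -/
theorem isEigJ_iff [Algebra ℤ_[p] 𝒪'] (N : ℕ) [NeZero N] (lam : ℕ → 𝒪')
    (v : 𝒪' ⊗[ℤ_[p]] TateMod p (JZero N)) :
    IsEigJ p N S lam v ↔ ∀ ℓ : Nat.Primes, ¬ (ℓ : ℕ) ∣ N → (ℓ : ℕ) ∉ S →
      (tateMap (p := p) (heckeOperatorBar N ℓ)).baseChange 𝒪' v = lam (ℓ : ℕ) • v :=
  Iff.rfl

/-- **Non-Eisenstein primes.** `ρ̄` is an irreducible representation over a field `k` of characteristic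
`p ≠ 2` such that Frobenius at the primes `ℓ ∉ S` has characteristic polynomial `X² - a_ℓ X + ℓ`. For every
`L > 0` there is a prime `ℓ ≡ 1 mod L`, `ℓ ∉ S`, with `a_ℓ ≠ 1 + ℓ`. (Complex conjugation has determinant
`-1`; an irreducible representation with this property has an element of trace `≠ 1 + det` over the
field of `L`-th roots of unity; Frobenius' density theorem.) (`H37NNGal`, from `H30Datum`, helper30.) -/
theorem exists_non_eisenstein_prime {k : Type} [Field k] (h2k : (2 : k) ≠ 0) (hpk : (p : k) = 0)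
    (hpS : p ∈ S) {a : ∀ ℓ : ℕ, ℓ.Prime → ℓ ∉ S → k}
    (ρbar : ResidualGaloisRep k) (hirr : ρbar.IsIrreducible)
    (hfr : ∀ (ℓ : ℕ) (hℓ : ℓ.Prime) (hℓS : ℓ ∉ S) (A : ValuationSubring Qb),
      A.LiesOverPrime ℓ → ∀ φ : GQ, A.IsFrobeniusAt φ ℓ →
        LinearMap.charpoly (ρbar.ρ φ) = X ^ 2 - C (a ℓ hℓ hℓS) * X + C ((ℓ : k)))
    {L : ℕ} (hL : 0 < L) :
    ∃ (ℓ : ℕ) (hℓ : ℓ.Prime) (hℓS : ℓ ∉ S), (ℓ : ZMod L) = 1 ∧ a ℓ hℓ hℓS ≠ 1 + (ℓ : k) :=
  exists_nonEis_residual h2k hpk hpS ρbar hirr hfr hL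

omit [IsDiscreteValuationRing 𝒪'] [IsAdicComplete (maximalIdeal 𝒪') 𝒪']
  [Finite (ResidueField 𝒪')] in
/-- **Eigenclasses give eigenvectors in the Tate module.** Let `y ≠ 0` in `H¹(Γ₀(M q), K)`, `K` the field
of fractions of `𝒪'`, be an eigenclass with eigenvalues `lam ℓ ∈ 𝒪'` which is killed by both traces to
level `M` and is not Eisenstein (there is a prime `ℓ ≡ 1 mod M q` with `lam ℓ ≠ 1 + ℓ`). Then there is an
eigenvector `w ≠ 0` in `𝒪' ⊗ T_p J₀(M q)` with the same eigenvalues, killed by both push-forwards to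
`J₀(M)`. (`H94BRE`, helper94; the comparison isomorphism is `tate_eq_hom` in `GuideEigen`.) -/
theorem eigenvector_in_tate_module [Algebra ℤ_[p] 𝒪'] {K : Type*} [Field K] [Algebra 𝒪' K]
    [IsFractionRing 𝒪' K] {M q : ℕ} [NeZero M] [NeZero q] [NeZero (M * q)] (hq : q.Prime)
    {N₀ : ℕ} (hM : N₀ ∣ M) {lam : ℕ → 𝒪'}
    {y : H1 (gam N₀ (M * q) (dvd_mul_q hM)) (psiRep (1 : (ZMod N₀)ˣ →* Kˣ) K)} (hy0 : y ≠ 0)
    (hT : ∀ (ℓ : ℕ) (hℓ : ℓ.Prime) (hℓN : ¬ ℓ ∣ M * q), ℓ ∉ S →
      (tFam (dvd_mul_q hM) hℓ hℓN).opH (psiRep (1 : (ZMod N₀)ˣ →* Kˣ) K) y =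
        algebraMap 𝒪' K (lam ℓ) • y)
    (hne : ∃ ℓ : ℕ, ℓ.Prime ∧ ¬ ℓ ∣ M * q ∧ ℓ ∉ S ∧ ((M * q : ℕ) : ℤ) ∣ (ℓ : ℤ) - 1 ∧
      lam ℓ ≠ 1 + (ℓ : 𝒪'))
    (h1 : (Fermat.Agent.H70.Coh.trFam hM).opH (psiRep (1 : (ZMod N₀)ˣ →* Kˣ) K) y = 0)
    (h2 : (nuFam hM hq).opH (psiRep (1 : (ZMod N₀)ˣ →* Kˣ) K) y = 0) :
    ∃ w : 𝒪' ⊗[ℤ_[p]] TateMod p (JZero (M * q)), w ≠ 0 ∧ IsEigJ p (M * q) S lam w ∧
      (tateMap (p := p) (degPush (M := M) (N := M * q) 1 (by simp))).baseChange 𝒪' w = 0 ∧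
      (tateMap (p := p) (degPush (M := M) (N := M * q) q (dvd_refl _))).baseChange 𝒪' w = 0 :=
  exists_new_isEigJ (K := K) (p := p) hq hM hy0 hT hne h1 h2

/-- **Attached representations exist** for every eigenvector in `𝒪' ⊗ T_p J₀(N)`, over a finite extension
`𝒪''` of `𝒪'`. On the lattice `W` of the eigenvectors with the eigenvalues `lam ℓ` one has
`φ² - lam ℓ φ + ℓ = 0` for the Frobenius elements at `ℓ ∉ S` (Eichler-Shimura). By density and continuity
every `g` in the Galois group satisfies `g² - t(g) g + χ(g) = 0` on `W`, with a number `t(g)` and the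
cyclotomic character `χ`; from `W` one obtains a two-dimensional representation with these characteristic
polynomials. (`H37NNGal`, from `H35VLattice`, `H35VChi`.) -/
theorem exists_attached_representation [Algebra ℤ_[p] 𝒪'] {N : ℕ} [NeZero N] (hpS : p ∈ S)
    (hNS : ∀ q : ℕ, q.Prime → q ∣ N → q ∈ S) (hp𝒪' : (p : 𝒪') ∈ maximalIdeal 𝒪')
    {lam : ℕ → 𝒪'} {v : 𝒪' ⊗[ℤ_[p]] TateMod p (JZero N)} (hv : IsEigJ p N S lam v)
    (hv0 : v ≠ 0) :
    ∃ (𝒪'' : Type) (_ : CommRing 𝒪'') (_ : IsDomain 𝒪'') (_ : IsDiscreteValuationRing 𝒪'')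
      (_ : IsAdicComplete (maximalIdeal 𝒪'') 𝒪'') (_ : Finite (ResidueField 𝒪''))
      (_ : CharZero 𝒪'') (_ : Algebra 𝒪' 𝒪'') (_ : Module.Finite 𝒪' 𝒪'')
      (_ : IsLocalHom (algebraMap 𝒪' 𝒪'')),
      Function.Injective (algebraMap 𝒪' 𝒪'') ∧
      ∃ ρ : GaloisRepAdic 𝒪'', IsAttached S lam ρ :=
  exists_attached hpS hNS hp𝒪' hv hv0

/-- **Frobenius at `q` on the `q`-new part.** `q ≠ p` is a prime, `q ∤ M`, and `v ≠ 0` an eigenvector in
`𝒪' ⊗ T_p J₀(M q)` killed by both push-forwards to `J₀(M)`. There is `u = ± 1` such that for every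
representation `ρ` attached to it, over any local `𝒪'`-algebra `𝒪''` which is separated for the adic
topology, every Frobenius element `σ` at `q` has characteristic polynomial `(X - u)(X - u q)`. (From
`(σ + q w_q)(σ + w_q) = 0` on the `q`-new part (`H89Inst`, helper89): `w_q` commutes with the Galois group
and with the `T_ℓ`.) (`H37NNGal`, `H35V*`.) -/
theorem frobenius_at_new_prime [Algebra ℤ_[p] 𝒪'] {M q : ℕ} [NeZero M] [NeZero (M * q)]
    [NeZero q] (hpS : p ∈ S) (hNS : ∀ r : ℕ, r.Prime → r ∣ M * q → r ∈ S)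
    (hp𝒪' : (p : 𝒪') ∈ maximalIdeal 𝒪') {lam : ℕ → 𝒪'}
    {v : 𝒪' ⊗[ℤ_[p]] TateMod p (JZero (M * q))} (hv : IsEigJ p (M * q) S lam v) (hv0 : v ≠ 0)
    (hq : q.Prime) (hqp : q ≠ p) (hqM : ¬ q ∣ M)
    (h1 : (tateMap (p := p) (degPush (M := M) (N := M * q) 1 (by simp))).baseChange 𝒪' v = 0)
    (h2 : (tateMap (p := p) (degPush (M := M) (N := M * q) q (dvd_refl _))).baseChange 𝒪' v = 0) :
    ∃ u : 𝒪', (u = 1 ∨ u = -1) ∧
      ∀ {𝒪'' : Type} [CommRing 𝒪''] [IsLocalRing 𝒪''] [IsHausdorff (maximalIdeal 𝒪'') 𝒪'']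
        [Algebra 𝒪' 𝒪''] [IsLocalHom (algebraMap 𝒪' 𝒪'')]
        (ρ : GaloisRepAdic 𝒪'') (_ : IsAttached S lam ρ)
        (A : ValuationSubring Qb) (_ : A.LiesOverPrime q)
        (σ : GQ) (_ : A.IsFrobeniusAt σ q),
        LinearMap.charpoly (ρ.ρ σ) =
          (X - C (algebraMap 𝒪' 𝒪'' u)) * (X - C (algebraMap 𝒪' 𝒪'' u * (q : 𝒪''))) :=
  E35_JZero_ext hpS hNS hp𝒪' hv hv0 hq hqp hqM
    (H89J.starInput' hq hqM Fact.out hqp.symm) h1 h2

/-- **Frobenius elements determine all characteristic polynomials.** Let `ρ₁`, `ρ₂` be two-dimensional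
representations over fields `k`, `k'` and `ι : k → k'` a homomorphism. If Frobenius elements at the primes
`ℓ ∉ S` have the characteristic polynomials `X² - a_ℓ X + ℓ` and `X² - ι(a_ℓ) X + ℓ`, then the
characteristic polynomial of `ρ₂(σ)` is the image of the one of `ρ₁(σ)`, for every `σ`. (Density.)
(`H37NNGal`.) -/
theorem charpoly_of_frobenius {k k' : Type} [Field k] [Field k'] (ι : k →+* k')
    {a : ∀ ℓ : ℕ, ℓ.Prime → ℓ ∉ S → k} (ρ₁ : ResidualGaloisRep k) (ρ₂ : ResidualGaloisRep k')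
    (h₁ : ∀ (ℓ : ℕ) (hℓ : ℓ.Prime) (hℓS : ℓ ∉ S) (A : ValuationSubring Qb),
      A.LiesOverPrime ℓ → ∀ φ : GQ, A.IsFrobeniusAt φ ℓ →
        LinearMap.charpoly (ρ₁.ρ φ) = X ^ 2 - C (a ℓ hℓ hℓS) * X + C ((ℓ : k)))
    (h₂ : ∀ (ℓ : ℕ) (hℓ : ℓ.Prime) (hℓS : ℓ ∉ S) (A : ValuationSubring Qb),
      A.LiesOverPrime ℓ → ∀ φ : GQ, A.IsFrobeniusAt φ ℓ →
        LinearMap.charpoly (ρ₂.ρ φ) = X ^ 2 - C (ι (a ℓ hℓ hℓS)) * X + C ((ℓ : k')))
    (σ : GQ) :
    LinearMap.charpoly (ρ₂.ρ σ) = (LinearMap.charpoly (ρ₁.ρ σ)).map ι :=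
  charpoly_map_of_frob ι ρ₁ ρ₂ h₁ h₂ σ

/-- **No new eigenclass at a Taylor-Wiles prime**, for classes over the fraction field. Let `p ≠ 2`,
`q ∤ M` a prime `≡ 1 mod p`, `ρ̄` an irreducible representation over a field `k` with Frobenius polynomials
`X² - a_ℓ X + ℓ`, `ℓ ∉ S`, such that some Frobenius element at `q` has two different eigenvalues
`α, β ∈ k`. Let `y` be an eigenclass in `H¹(Γ₀(M q), K)`, `K` the field of fractions of `𝒪'`, whose
eigenvalues `lam ℓ ∈ 𝒪'` reduce to the `a_ℓ` (through `ι : k → ResidueField 𝒪'`). Then `y` is not killed by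
both traces. (`H37NNGal`.) -/
theorem no_new_eigenclass (hp2 : p ≠ 2) (hpS : p ∈ S) (hp𝒪' : (p : 𝒪') ∈ maximalIdeal 𝒪')
    {M q : ℕ} [NeZero M] [NeZero q] [NeZero (M * q)] (hq : q.Prime) (hqM : ¬ q ∣ M)
    (hNS : ∀ r : ℕ, r.Prime → r ∣ M * q → r ∈ S) (hq1 : p ∣ q - 1)
    {k : Type} [Field k] (ι : k →+* ResidueField 𝒪') {a : ∀ ℓ : ℕ, ℓ.Prime → ℓ ∉ S → k}
    (ρbar : ResidualGaloisRep k) (hirr : ρbar.IsIrreducible)
    (hfr : ∀ (ℓ : ℕ) (hℓ : ℓ.Prime) (hℓS : ℓ ∉ S) (A : ValuationSubring Qb),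
      A.LiesOverPrime ℓ → ∀ φ : GQ, A.IsFrobeniusAt φ ℓ →
        LinearMap.charpoly (ρbar.ρ φ) = X ^ 2 - C (a ℓ hℓ hℓS) * X + C ((ℓ : k)))
    (hdist : ∃ A : ValuationSubring Qb, A.LiesOverPrime q ∧ ∃ φ : GQ, A.IsFrobeniusAt φ q ∧
      ∃ α β : k, α ≠ β ∧ LinearMap.charpoly (ρbar.ρ φ) = (X - C α) * (X - C β))
    {lam : ℕ → 𝒪'} (hlam : ∀ (ℓ : ℕ) (hℓ : ℓ.Prime) (hℓS : ℓ ∉ S),
      residue 𝒪' (lam ℓ) = ι (a ℓ hℓ hℓS))
    {K : Type*} [Field K] [Algebra 𝒪' K] [IsFractionRing 𝒪' K] {N₀ : ℕ} (hM : N₀ ∣ M)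
    {y : H1 (gam N₀ (M * q) (dvd_mul_q hM)) (psiRep (1 : (ZMod N₀)ˣ →* Kˣ) K)} (hy0 : y ≠ 0)
    (hT : ∀ (ℓ : ℕ) (hℓ : ℓ.Prime) (hℓN : ¬ ℓ ∣ M * q), ℓ ∉ S →
      (tFam (dvd_mul_q hM) hℓ hℓN).opH (psiRep (1 : (ZMod N₀)ˣ →* Kˣ) K) y =
        algebraMap 𝒪' K (lam ℓ) • y)
    (h1 : (Fermat.Agent.H70.Coh.trFam hM).opH (psiRep (1 : (ZMod N₀)ˣ →* Kˣ) K) y = 0)
    (h2 : (nuFam hM hq).opH (psiRep (1 : (ZMod N₀)ˣ →* Kˣ) K) y = 0) : False :=
  no_new_point hp2 hpS hp𝒪' hq hqM hNS hq1 ι ρbar hirr hfr hdist hlam (K := K) hM hy0 hT h1 h2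

end Galois

/-! ### 7. Results -/

section Results

open Fermat.Agent.H59 Fermat.Agent.H37.Rank Fermat.Agent.H37.NN

variable {O : Type} [CommRing O] [IsDomain O] [IsDiscreteValuationRing O]
  [IsAdicComplete (maximalIdeal O) O] [Finite (ResidueField O)] [CharZero O]
  {p : ℕ} [Fact p.Prime] {S : Finset ℕ}

/-- **No new eigenvectors at Taylor-Wiles primes.** `O` is a complete discrete valuation ring of
characteristic 0 with finite residue field of characteristic `p ≠ 2`, `θ` a residual eigensystem to which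
the irreducible representation `ρ̄` is attached (`hfr`), `e` a local idempotent at `θ`, `q ≡ 1 mod p` a prime
at which some Frobenius element has two different eigenvalues on `ρ̄`. Then no eigenvector of the
localised part of `Kb ⊗ H¹(Γ₀(M q), O)`, `Kb` any extension of the fraction field, is killed by both
traces. (`H37NoNew`.) -/
theorem no_new_eigenvector (K : Type) [Field K] [Algebra O K] [IsFractionRing O K]
    {Kb : Type} [Field Kb] [Algebra K Kb] [Algebra O Kb] [IsScalarTower O K Kb]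
    (hp2 : p ≠ 2) (hpO : (p : O) ∈ maximalIdeal O) (hpS : p ∈ S)
    {θ : MvPolynomial (Pr (↑S : Set ℕ)) O →+* ResidueField O}
    (hθ : ∀ a : O, θ (MvPolynomial.C a) = residue O a)
    (ρbar : ResidualGaloisRep (ResidueField O)) (hirr : ρbar.IsIrreducible)
    (hfr : ∀ (ℓ : ℕ) (hℓ : ℓ.Prime) (hℓS : ℓ ∉ (↑S : Set ℕ)) (A : ValuationSubring Qb),
      A.LiesOverPrime ℓ → ∀ φ : GQ, A.IsFrobeniusAt φ ℓ →
        LinearMap.charpoly (ρbar.ρ φ) = X ^ 2 -
          C (θ (MvPolynomial.X ⟨ℓ, hℓ, hℓS⟩)) * X + C ((ℓ : ResidueField O)))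
    {e : MvPolynomial (Pr (↑S : Set ℕ)) O} {M q : ℕ} [NeZero M] [NeZero q]
    (hq1 : q.Prime → p ∣ q - 1)
    (hdist : q.Prime → ∃ A : ValuationSubring Qb, A.LiesOverPrime q ∧
      ∃ φ : GQ, A.IsFrobeniusAt φ q ∧ ∃ α β : ResidueField O, α ≠ β ∧
        LinearMap.charpoly (ρbar.ρ φ) = (X - C α) * (X - C β))
    (he : ∀ hS : Adm (↑S : Set ℕ) (M * q), IsLocIdem (TT O hS) (TT_comm hS) θ e) :
    NoNew Kb (↑S : Set ℕ) e M q :=
  noNew K hp2 hpO hpS hθ ρbar hirr hfr hq1 hdist he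

/-- **Bounded rank at Taylor-Wiles levels.** `p ≠ 2`, `ρ̄` irreducible and attached to the residual
eigensystem `θ`; `Q_1, …, Q_r` different primes `≡ 1 mod p`, not dividing `M`, at each of which some
Frobenius element has two different eigenvalues on `ρ̄`; `e` a local idempotent at `θ` for the level
`M Q_1 ⋯ Q_r`. Then the rank of the `e`-part of `H¹(Γ₀(M Q_1 ⋯ Q_r), O)` is at most `2 ^ r` times the rank of
the `e`-part of `H¹(Γ₀(M), O)`, and at most `2 ^ r · rank H¹(Γ₀(M), O)`. (`H37NoNew`.) -/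
theorem bounded_rank (hp2 : p ≠ 2) (hpO : (p : O) ∈ maximalIdeal O) (hpS : p ∈ S)
    {θ : MvPolynomial (Pr (↑S : Set ℕ)) O →+* ResidueField O}
    (hθ : ∀ a : O, θ (MvPolynomial.C a) = residue O a)
    (ρbar : ResidualGaloisRep (ResidueField O)) (hirr : ρbar.IsIrreducible)
    (hfr : ∀ (ℓ : ℕ) (hℓ : ℓ.Prime) (hℓS : ℓ ∉ (↑S : Set ℕ)) (A : ValuationSubring Qb),
      A.LiesOverPrime ℓ → ∀ φ : GQ, A.IsFrobeniusAt φ ℓ →
        LinearMap.charpoly (ρbar.ρ φ) = X ^ 2 -
          C (θ (MvPolynomial.X ⟨ℓ, hℓ, hℓS⟩)) * X + C ((ℓ : ResidueField O)))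
    {e : MvPolynomial (Pr (↑S : Set ℕ)) O} {M : ℕ} [NeZero M] {r : ℕ} (Q : Fin r → ℕ)
    (hQ : ∀ i, (Q i).Prime) (hQM : ∀ i, ¬ Q i ∣ M) (hQinj : Function.Injective Q)
    (hQ1 : ∀ i, p ∣ Q i - 1)
    (hdist : ∀ i, ∃ A : ValuationSubring Qb, A.LiesOverPrime (Q i) ∧
      ∃ φ : GQ, A.IsFrobeniusAt φ (Q i) ∧ ∃ α β : ResidueField O, α ≠ β ∧
        LinearMap.charpoly (ρbar.ρ φ) = (X - C α) * (X - C β))
    (hS : Adm (↑S : Set ℕ) (M * ∏ i, Q i)) (he : IsLocIdem (TT O hS) (TT_comm hS) θ e) :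
    Module.finrank O (Loc (TT O hS) (TT_comm hS) e) ≤
      2 ^ r * Module.finrank O (Loc (TT O (hS.of_dvd (Dvd.intro _ rfl)))
        (TT_comm (hS.of_dvd (Dvd.intro _ rfl))) e) ∧
    Module.finrank O (Loc (TT O hS) (TT_comm hS) e) ≤ 2 ^ r * Module.finrank O (HH O M) :=
  ⟨finrank_le_pow_TW hp2 hpO hpS hθ ρbar hirr hfr Q hQ hQM hQinj hQ1 hdist hS he,
    finrank_le_pow_TW' hp2 hpO hpS hθ ρbar hirr hfr Q hQ hQM hQinj hQ1 hdist hS he⟩

/-- **Zero stays zero.** In the situation of `bounded_rank`: if the residual eigensystem does not occur at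
level `M` (the `e`-part of `H¹(Γ₀(M), O)` has rank 0), it does not occur at level `M Q_1 ⋯ Q_r`.
In level lowering (S43) this is applied to the level `M / t₀`, at which `W[p]` is supposed not to be
modular. (`H37NoNew`; used in `H59LL6` and `H35Rk`.) -/
theorem rank_zero (hp2 : p ≠ 2) (hpO : (p : O) ∈ maximalIdeal O) (hpS : p ∈ S)
    {θ : MvPolynomial (Pr (↑S : Set ℕ)) O →+* ResidueField O}
    (hθ : ∀ a : O, θ (MvPolynomial.C a) = residue O a)
    (ρbar : ResidualGaloisRep (ResidueField O)) (hirr : ρbar.IsIrreducible)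
    (hfr : ∀ (ℓ : ℕ) (hℓ : ℓ.Prime) (hℓS : ℓ ∉ (↑S : Set ℕ)) (A : ValuationSubring Qb),
      A.LiesOverPrime ℓ → ∀ φ : GQ, A.IsFrobeniusAt φ ℓ →
        LinearMap.charpoly (ρbar.ρ φ) = X ^ 2 -
          C (θ (MvPolynomial.X ⟨ℓ, hℓ, hℓS⟩)) * X + C ((ℓ : ResidueField O)))
    {e : MvPolynomial (Pr (↑S : Set ℕ)) O} {M : ℕ} [NeZero M] {r : ℕ} (Q : Fin r → ℕ)
    (hQ : ∀ i, (Q i).Prime) (hQM : ∀ i, ¬ Q i ∣ M) (hQinj : Function.Injective Q)
    (hQ1 : ∀ i, p ∣ Q i - 1)
    (hdist : ∀ i, ∃ A : ValuationSubring Qb, A.LiesOverPrime (Q i) ∧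
      ∃ φ : GQ, A.IsFrobeniusAt φ (Q i) ∧ ∃ α β : ResidueField O, α ≠ β ∧
        LinearMap.charpoly (ρbar.ρ φ) = (X - C α) * (X - C β))
    (hS : Adm (↑S : Set ℕ) (M * ∏ i, Q i)) (he : IsLocIdem (TT O hS) (TT_comm hS) θ e)
    (h0 : Module.finrank O (Loc (TT O (hS.of_dvd (Dvd.intro _ rfl)))
      (TT_comm (hS.of_dvd (Dvd.intro _ rfl))) e) = 0) :
    Module.finrank O (Loc (TT O hS) (TT_comm hS) e) = 0 :=
  finrank_eq_zero_TW hp2 hpO hpS hθ ρbar hirr hfr Q hQ hQM hQinj hQ1 hdist hS he h0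

end Results

end Fermat.Agent.Guide.BoundedRank

end
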