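import Mathlib
import Fermat.Prelude.Def_ModularCurve_PeriodHomPair
import Fermat.Prelude.Thm_Subgroup_IsArithmetic_exists_nat_mem_strictPeriods_conj

set_option autoImplicit false

open UpperHalfPlane hiding I
open CongruenceSubgroup Filter Topology ModularForm Complex ModularCurve
open scoped MatrixGroups Manifold ComplexConjugate Pointwise

namespace Fermat.Agent.H21

/-- `G` is a primitive of `g` on the upper half plane. -/
def IsPrim (G g : ℍ → ℂ) : Prop := ∀ τ : ℍ, HasDerivAt (G ∘ ofComplex) (g τ) ↑τ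

theorem exists_isPrim {g : ℍ → ℂ} (hg : MDiff g) : ∃ G : ℍ → ℂ, IsPrim G g := by
  rw [UpperHalfPlane.mdifferentiable_iff] at hg
  obtain ⟨G, hG⟩ := (convex_halfSpace_im_gt (0 : ℝ)).exists_forall_hasDerivWithinAt (𝕜 := ℂ) hg
  refine ⟨fun τ => G τ, fun τ => ?_⟩
  have h1 : HasDerivAt G ((g ∘ ofComplex) τ) (τ : ℂ) :=
    (hG τ τ.im_pos).hasDerivAt (isOpen_upperHalfPlaneSet.mem_nhds τ.im_pos)
  have h2 : ((fun τ : ℍ => G τ) ∘ ofComplex) =ᶠ[𝓝 (τ : ℂ)] G := by
    filter_upwards [isOpen_upperHalfPlaneSet.mem_nhds τ.im_pos] with w hw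
    simp [ofComplex_apply_of_im_pos hw]
  simpa [ofComplex_apply] using h1.congr_of_eventuallyEq h2

theorem IsPrim.add {F G f g : ℍ → ℂ} (hF : IsPrim F f) (hG : IsPrim G g) :
    IsPrim (F + G) (f + g) := fun τ => (hF τ).add (hG τ)

theorem IsPrim.sub {F G f g : ℍ → ℂ} (hF : IsPrim F f) (hG : IsPrim G g) :
    IsPrim (F - G) (f - g) := fun τ => (hF τ).sub (hG τ)

theorem IsPrim.const_smul {F f : ℍ → ℂ} (c : ℂ) (hF : IsPrim F f) :
    IsPrim (c • F) (c • f) := fun τ => (hF τ).const_smul c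

theorem IsPrim.sub_const {F f : ℍ → ℂ} (hF : IsPrim F f) (c : ℂ) :
    IsPrim (fun τ => F τ - c) f := fun τ => (hF τ).sub_const c

theorem IsPrim.mdiff {G g : ℍ → ℂ} (hG : IsPrim G g) : MDiff G := by
  intro τ
  rw [UpperHalfPlane.mdifferentiableAt_iff]
  exact (hG τ).differentiableAt

theorem IsPrim.eq_deriv {G g : ℍ → ℂ} (hG : IsPrim G g) (τ : ℍ) :
    deriv (G ∘ ofComplex) τ = g τ := (hG τ).deriv

theorem IsPrim.exists_const {G : ℍ → ℂ} (hG : IsPrim G 0) : ∃ c : ℂ, ∀ τ, G τ = c := by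
  refine ⟨G UpperHalfPlane.I, fun τ => ?_⟩
  have hconv : Convex ℝ upperHalfPlaneSet := convex_halfSpace_im_gt (0 : ℝ)
  have hd : DifferentiableOn ℂ (G ∘ ofComplex) upperHalfPlaneSet := fun z hz =>
    ((hG ⟨z, hz⟩).differentiableAt).differentiableWithinAt
  have h0 : ∀ z ∈ upperHalfPlaneSet, fderivWithin ℂ (G ∘ ofComplex) upperHalfPlaneSet z = 0 := by
    intro z hz
    have := (hG ⟨z, hz⟩).hasFDerivAt.hasFDerivWithinAt (s := upperHalfPlaneSet)
    have h2 := this.fderivWithin (isOpen_upperHalfPlaneSet.uniqueDiffWithinAt hz)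
    simpa using h2
  have := hconv.is_const_of_fderivWithin_eq_zero hd h0 τ.im_pos UpperHalfPlane.I.im_pos
  have e1 : (G ∘ ofComplex) (τ : ℂ) = G τ := by simp only [Function.comp_apply, ofComplex_apply]
  have e2 : (G ∘ ofComplex) ((UpperHalfPlane.I : ℍ) : ℂ) = G UpperHalfPlane.I := by
    simp only [Function.comp_apply, ofComplex_apply]
  rw [← e1, ← e2]
  exact this

theorem IsPrim.exists_sub_const {F G g : ℍ → ℂ} (hF : IsPrim F g) (hG : IsPrim G g) :
    ∃ c : ℂ, ∀ τ, F τ - G τ = c := by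
  have : IsPrim (F - G) 0 := by simpa using hF.sub hG
  simpa using this.exists_const

/-- chain rule for primitives. -/
theorem IsPrim.comp_smul {G g : ℍ → ℂ} (hG : IsPrim G g) (δ : SL(2, ℤ)) :
    IsPrim (fun τ => G (δ • τ)) (g ∣[(2 : ℤ)] δ) := by
  intro τ
  have hdet1 : (δ : GL (Fin 2) ℝ).val.det = 1 := by
    rw [← Matrix.GeneralLinearGroup.val_det_apply]; simp
  have hdet : 0 < (δ : GL (Fin 2) ℝ).val.det := by rw [hdet1]; exact one_pos
  have h1 := (hasStrictDerivAt_smul hdet τ).hasDerivAt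
  have h2 : HasDerivAt (G ∘ ofComplex) (g (δ • τ)) (↑((δ : GL (Fin 2) ℝ) • ofComplex (τ : ℂ))) := by
    simpa [ofComplex_apply] using hG (δ • τ)
  have h3 := h2.comp (τ : ℂ) h1
  have h4 : ((fun τ => G (δ • τ)) ∘ ofComplex) = (G ∘ ofComplex) ∘ (fun w : ℂ => (↑((δ : GL (Fin 2) ℝ) • ofComplex w) : ℂ)) := by
    ext w
    simp [ofComplex_apply]
  rw [h4]
  have h5 : (g ∣[(2 : ℤ)] δ) τ = g (δ • τ) * (((δ : GL (Fin 2) ℝ).val.det : ℂ) / denom (δ : GL (Fin 2) ℝ) τ ^ 2) := by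
    rw [SL_slash_apply, hdet1, zpow_neg, div_eq_mul_inv]
    norm_cast
    simp
  rw [h5]
  exact h3

/-- exponential decay at infinity, uniform in the real part. -/
def ExpDecay (g : ℍ → ℂ) : Prop := ∃ c : ℝ, 0 < c ∧ g =O[atImInfty] fun τ => Real.exp (-c * τ.im)

theorem IsPrim.exists_tendsto {G g : ℍ → ℂ} (hG : IsPrim G g) (hg : ExpDecay g) :
    ∃ L : ℂ, Tendsto G atImInfty (𝓝 L) := by
  obtain ⟨c, hc, hO⟩ := hg
  obtain ⟨C, hC0, hC⟩ := hO.exists_nonneg
  rw [Asymptotics.isBigOWith_iff] at hC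
  obtain ⟨A, hA⟩ := (atImInfty_mem _).mp hC
  set A' : ℝ := max A 1 with hA'
  have hbound : ∀ z : ℂ, A' ≤ z.im → ‖(g ∘ ofComplex) z‖ ≤ C * Real.exp (-c * z.im) := by
    intro z hz
    have hz0 : 0 < z.im := lt_of_lt_of_le one_pos ((le_max_right _ _).trans hz)
    have := hA ⟨z, hz0⟩ ((le_max_left _ _).trans hz)
    simpa [ofComplex_apply_of_im_pos hz0] using this
  have hlip : ∀ y : ℝ, A' ≤ y → ∀ z w : ℂ, y ≤ z.im → y ≤ w.im →
      ‖(G ∘ ofComplex) w - (G ∘ ofComplex) z‖ ≤ C * Real.exp (-c * y) * ‖w - z‖ := by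
    intro y hy z w hz hw
    refine Convex.norm_image_sub_le_of_norm_hasDerivWithin_le (s := {z : ℂ | y ≤ z.im})
      (f' := g ∘ ofComplex) (fun x hx => ?_) (fun x hx => ?_) (convex_halfSpace_im_ge y) hz hw
    · have hx0 : 0 < x.im := lt_of_lt_of_le one_pos ((le_max_right _ _).trans (hy.trans hx))
      have := (hG ⟨x, hx0⟩).hasDerivWithinAt (s := {z : ℂ | y ≤ z.im})
      simpa [ofComplex_apply_of_im_pos hx0] using this
    · refine (hbound x (hy.trans hx)).trans ?_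
      have : Real.exp (-c * x.im) ≤ Real.exp (-c * y) := by
        apply Real.exp_le_exp.mpr
        have : y ≤ x.im := hx
        nlinarith
      exact mul_le_mul_of_nonneg_left this hC0
  set r : ℝ := Real.exp (-c) with hr
  have hr0 : 0 < r := Real.exp_pos _
  have hr1 : r < 1 := Real.exp_lt_one_iff.mpr (by linarith)
  have hstep : ∀ y : ℝ, A' ≤ y → ∀ z : ℂ, y ≤ z.im → ∀ n : ℕ,
      ‖(G ∘ ofComplex) (z + n * I) - (G ∘ ofComplex) z‖ ≤ C * Real.exp (-c * y) / (1 - r) := by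
    intro y hy z hz n
    have h1 : ∀ n : ℕ, ‖(G ∘ ofComplex) (z + n * I) - (G ∘ ofComplex) z‖ ≤
        C * Real.exp (-c * y) * ∑ k ∈ Finset.range n, r ^ k := by
      intro n
      induction n with
      | zero => simp
      | succ n ih =>
        have h2 := hlip (y + n) (by linarith [(Nat.cast_nonneg n : (0:ℝ) ≤ n)]) (z + n * I) (z + (n + 1 : ℕ) * I)
          (by simp [hz]) (by simp; linarith)
        have h3 : (z + ((n + 1 : ℕ) : ℂ) * I) - (z + n * I) = I := by push_cast; ring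
        rw [h3, norm_I, mul_one] at h2
        have h4 : Real.exp (-c * (y + n)) = Real.exp (-c * y) * r ^ n := by
          rw [hr, ← Real.exp_nat_mul, ← Real.exp_add]; ring_nf
        rw [h4] at h2
        rw [Finset.sum_range_succ, mul_add]
        calc _ ≤ ‖(G ∘ ofComplex) (z + (n + 1 : ℕ) * I) - (G ∘ ofComplex) (z + n * I)‖
              + ‖(G ∘ ofComplex) (z + n * I) - (G ∘ ofComplex) z‖ := by
              rw [← sub_add_sub_cancel]
              exact norm_add_le _ _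
          _ ≤ _ := by linarith
    refine (h1 n).trans ?_
    rw [div_eq_mul_inv]
    refine mul_le_mul_of_nonneg_left ?_ (mul_nonneg hC0 (Real.exp_pos _).le)
    rw [← tsum_geometric_of_lt_one hr0.le hr1]
    exact (summable_geometric_of_lt_one hr0.le hr1).sum_le_tsum _ (fun _ _ => by positivity)
  have hcau : ∀ y : ℝ, A' ≤ y → ∀ z w : ℂ, y ≤ z.im → y ≤ w.im →
      ‖(G ∘ ofComplex) w - (G ∘ ofComplex) z‖ ≤ 2 * (C * Real.exp (-c * y) / (1 - r)) := by
    intro y hy z w hz hw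
    have h1 : ∀ n : ℕ, ‖(G ∘ ofComplex) w - (G ∘ ofComplex) z‖ ≤
        2 * (C * Real.exp (-c * y) / (1 - r)) + C * Real.exp (-c * y) * ‖w - z‖ * r ^ n := by
      intro n
      have a1 := hstep y hy z hz n
      have a2 := hstep y hy w hw n
      have a3 := hlip (y + n) (by linarith [(Nat.cast_nonneg n : (0:ℝ) ≤ n)]) (z + n * I) (w + n * I)
          (by simp [hz]) (by simp [hw])
      have h4 : Real.exp (-c * (y + n)) = Real.exp (-c * y) * r ^ n := by
          rw [hr, ← Real.exp_nat_mul, ← Real.exp_add]; ring_nf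
      have h5 : (w + n * I) - (z + n * I) = w - z := by ring
      rw [h4, h5] at a3
      have a4 : (G ∘ ofComplex) w - (G ∘ ofComplex) z =
        ((G ∘ ofComplex) (w + n * I) - (G ∘ ofComplex) (z + n * I))
        + ((G ∘ ofComplex) (z + n * I) - (G ∘ ofComplex) z)
        - ((G ∘ ofComplex) (w + n * I) - (G ∘ ofComplex) w) := by ring
      rw [a4]
      refine (norm_sub_le _ _).trans ?_
      refine (add_le_add_left (norm_add_le _ _) _).trans ?_
      linarith
    have h2 : Tendsto (fun n : ℕ => 2 * (C * Real.exp (-c * y) / (1 - r)) + C * Real.exp (-c * y) * ‖w - z‖ * r ^ n)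
        atTop (𝓝 (2 * (C * Real.exp (-c * y) / (1 - r)) + C * Real.exp (-c * y) * ‖w - z‖ * 0)) :=
      ((tendsto_pow_atTop_nhds_zero_of_lt_one hr0.le hr1).const_mul _).const_add _
    have h3 := ge_of_tendsto' h2 h1
    simpa using h3
  have hcauchy : Cauchy (map G atImInfty) := by
    rw [Metric.cauchy_iff]
    refine ⟨inferInstance, fun ε hε => ?_⟩
    have h2 : Tendsto (fun y : ℝ => 2 * (C * Real.exp (-c * y) / (1 - r))) atTop (𝓝 (2 * (C * 0 / (1 - r)))) := by
      refine (((Real.tendsto_exp_atBot.comp ?_).const_mul C).div_const _).const_mul _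
      exact tendsto_id.const_mul_atTop_of_neg (by linarith)
    have h3 : ∀ᶠ y : ℝ in atTop, 2 * (C * Real.exp (-c * y) / (1 - r)) < ε := by
      apply h2.eventually_lt_const
      simpa using hε
    obtain ⟨y, hy1, hy2⟩ := (h3.and (eventually_ge_atTop A')).exists
    refine ⟨G '' {τ : ℍ | y ≤ τ.im}, ?_, ?_⟩
    · apply image_mem_map
      exact (atImInfty_mem _).mpr ⟨y, fun z hz => hz⟩
    · rintro _ ⟨τ, hτ, rfl⟩ _ ⟨τ', hτ', rfl⟩
      have := hcau y hy2 τ' τ hτ' hτ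
      rw [dist_eq_norm]
      refine lt_of_le_of_lt ?_ hy1
      simpa [ofComplex_apply] using this
  exact cauchy_map_iff_exists_tendsto.mp hcauchy

set_option linter.unusedSectionVars false

variable {N : ℕ} [NeZero N]

theorem slash_expDecay (f : CuspForm (Gamma0 N) 2) (δ : SL(2, ℤ)) :
    ExpDecay ((f : ℍ → ℂ) ∣[(2 : ℤ)] δ) := by
  obtain ⟨M, hM, hper⟩ := Subgroup.IsArithmetic.exists_nat_mem_strictPeriods_conj
    ((Gamma0 N : Subgroup SL(2, ℤ)) : Subgroup (GL (Fin 2) ℝ))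
  have h1 := hper δ⁻¹
  have h2 : (CuspForm.translate f (δ : GL (Fin 2) ℝ) : ℍ → ℂ) = (f : ℍ → ℂ) ∣[(2 : ℤ)] δ := rfl
  have hM' : (0 : ℝ) < M := Nat.cast_pos.mpr hM
  rw [map_inv] at h1
  have h3 := CuspFormClass.exp_decay_atImInfty (CuspForm.translate f (δ : GL (Fin 2) ℝ)) hM' h1
  refine ⟨2 * Real.pi / M, by positivity, ?_⟩
  rw [h2] at h3
  convert h3 using 3
  ring

theorem cuspForm_mdiff (f : CuspForm (Gamma0 N) 2) : MDiff (f : ℍ → ℂ) := CuspFormClass.holo f

theorem cuspForm_slash (f : CuspForm (Gamma0 N) 2) {γ : SL(2, ℤ)} (hγ : γ ∈ Gamma0 N) :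
    (f : ℍ → ℂ) ∣[(2 : ℤ)] γ = f := by
  have := SlashInvariantFormClass.slash_action_eq f (γ : GL (Fin 2) ℝ) (Subgroup.mem_map_of_mem _ hγ)
  exact this

theorem hasEquivariantPrimitive_of_isPrim (f : CuspForm (Gamma0 N) 2) {F : ℍ → ℂ}
    (hF : IsPrim F f) (hF0 : Tendsto F atImInfty (𝓝 0)) : HasEquivariantPrimitive N f F := by
  refine ⟨hF, hF0, fun γ => ?_, fun δ => ?_⟩
  · have h1 := hF.comp_smul (γ : SL(2, ℤ))
    rw [cuspForm_slash f γ.2] at h1
    exact h1.exists_sub_const hF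
  · exact (hF.comp_smul δ).exists_tendsto (slash_expDecay f δ)

theorem exists_hasEquivariantPrimitive (f : CuspForm (Gamma0 N) 2) :
    ∃ F : ℍ → ℂ, HasEquivariantPrimitive N f F := by
  obtain ⟨F, hF⟩ := exists_isPrim (cuspForm_mdiff f)
  have h1 := hF.comp_smul 1
  have h2 : (f : ℍ → ℂ) ∣[(2 : ℤ)] (1 : SL(2, ℤ)) = f := SlashAction.slash_one _ _
  have h3 := slash_expDecay f 1
  rw [h2] at h3
  obtain ⟨L, hL⟩ := hF.exists_tendsto h3
  refine ⟨fun τ => F τ - L, hasEquivariantPrimitive_of_isPrim f (hF.sub_const L) ?_⟩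
  simpa using hL.sub_const L

theorem hasEquivariantPrimitive_unique {f : CuspForm (Gamma0 N) 2} {F G : ℍ → ℂ}
    (hF : HasEquivariantPrimitive N f F) (hG : HasEquivariantPrimitive N f G) : F = G := by
  obtain ⟨c, hc⟩ := IsPrim.exists_sub_const (F := F) (G := G) hF.1 hG.1
  have h1 : Tendsto (fun τ => F τ - G τ) atImInfty (𝓝 (0 - 0)) := hF.2.1.sub hG.2.1
  simp_rw [hc, sub_zero] at h1
  have h2 : c = 0 := tendsto_nhds_unique tendsto_const_nhds h1
  ext τ
  have := hc τ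
  rw [h2] at this
  exact sub_eq_zero.mp this

/-- the (unique) equivariant primitive. -/
noncomputable def prim (f : CuspForm (Gamma0 N) 2) : ℍ → ℂ := (exists_hasEquivariantPrimitive f).choose

theorem prim_spec (f : CuspForm (Gamma0 N) 2) : HasEquivariantPrimitive N f (prim f) :=
  (exists_hasEquivariantPrimitive f).choose_spec

theorem prim_isPrim (f : CuspForm (Gamma0 N) 2) : IsPrim (prim f) f := (prim_spec f).1

theorem prim_eq {f : CuspForm (Gamma0 N) 2} {F : ℍ → ℂ} (hF : HasEquivariantPrimitive N f F) :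
    prim f = F := hasEquivariantPrimitive_unique (prim_spec f) hF

theorem periodMap_apply (f : CuspForm (Gamma0 N) 2) (γ : Gamma0 N) (z : ℍ) :
    periodMap N f (Additive.ofMul γ) = prim f ((γ : SL(2, ℤ)) • z) - prim f z := by
  obtain ⟨F₀, h₀, h⟩ := periodMap_def N f (prim_spec f)
  have h1 := prim_eq h₀
  subst h1
  rw [h, Period.IsEquivariantPrimitive.periodHom_apply, Period.IsEquivariantPrimitive.sub_eq_period]

theorem prim_add (f g : CuspForm (Gamma0 N) 2) : prim (f + g) = prim f + prim g := by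
  apply prim_eq
  apply hasEquivariantPrimitive_of_isPrim
  · have := (prim_isPrim f).add (prim_isPrim g)
    simpa using this
  · have := (prim_spec f).2.1.add (prim_spec g).2.1
    rw [add_zero] at this
    exact this

theorem prim_smul (c : ℂ) (f : CuspForm (Gamma0 N) 2) : prim (c • f) = c • prim f := by
  apply prim_eq
  apply hasEquivariantPrimitive_of_isPrim
  · have := (prim_isPrim f).const_smul c
    simpa using this
  · have := (prim_spec f).2.1.const_smul c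
    rw [smul_zero] at this
    exact this

theorem existsPeriodMapLinear : ExistsPeriodMapLinear N := by
  refine ⟨{ toFun := fun f => periodMap N f, map_add' := ?_, map_smul' := ?_ }, fun f => rfl⟩
  · intro f g
    refine AddMonoidHom.ext fun γ => ?_
    obtain ⟨γ, rfl⟩ := Additive.ofMul.surjective γ
    rw [periodMap_apply _ _ UpperHalfPlane.I]
    simp only [AddMonoidHom.add_apply, periodMap_apply _ _ UpperHalfPlane.I, prim_add, Pi.add_apply]
    ring
  · intro c f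
    refine AddMonoidHom.ext fun γ => ?_
    obtain ⟨γ, rfl⟩ := Additive.ofMul.surjective γ
    rw [periodMap_apply _ _ UpperHalfPlane.I]
    simp only [AddMonoidHom.smul_apply, periodMap_apply _ _ UpperHalfPlane.I, prim_smul, Pi.smul_apply,
      RingHom.id_apply, smul_eq_mul]
    ring

/-- an upper triangular element of `SL(2, ℤ)` acts as a translation. -/
theorem smul_of_lower_zero (M : SL(2, ℤ)) (h : M 1 0 = 0) :
    ∃ m : ℤ, ∀ w : ℍ, M • w = (m : ℝ) +ᵥ w := by
  have hdet : M 0 0 * M 1 1 = 1 := by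
    have := M.det_coe
    rw [Matrix.det_fin_two] at this
    rw [h] at this
    linarith
  have h2 : (M 0 0 = 1 ∧ M 1 1 = 1) ∨ (M 0 0 = -1 ∧ M 1 1 = -1) := Int.mul_eq_one_iff_eq_one_or_neg_one.mp hdet
  rcases h2 with ⟨ha, hd⟩ | ⟨ha, hd⟩
  · refine ⟨M 0 1, fun w => ?_⟩
    ext
    rw [UpperHalfPlane.coe_specialLinearGroup_apply]
    simp [ha, hd, h, add_comm]
  · refine ⟨-M 0 1, fun w => ?_⟩
    ext
    rw [UpperHalfPlane.coe_specialLinearGroup_apply]
    simp [ha, hd, h]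
    ring

/-- parabolic elements (and `±1`) of `SL(2, ℤ)` are conjugate to translations. -/
theorem exists_conj_of_trace_sq (γ : SL(2, ℤ))
    (h : ((γ : Matrix (Fin 2) (Fin 2) ℤ)).trace ^ 2 = 4) :
    ∃ δ : SL(2, ℤ), ∃ m : ℤ, ∀ w : ℍ, γ • δ • w = δ • ((m : ℝ) +ᵥ w) := by
  have hdet : γ 0 0 * γ 1 1 - γ 0 1 * γ 1 0 = 1 := by
    have := γ.det_coe
    rwa [Matrix.det_fin_two] at this
  rw [Matrix.trace_fin_two] at h
  have hε : ∃ ε : ℤ, ε * ε = 1 ∧ γ 0 0 + γ 1 1 = 2 * ε := by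
    have h1 : (γ 0 0 + γ 1 1 - 2) * (γ 0 0 + γ 1 1 + 2) = 0 := by linear_combination h
    rcases mul_eq_zero.mp h1 with h1 | h1
    · exact ⟨1, by norm_num, by linarith⟩
    · exact ⟨-1, by norm_num, by linarith⟩
  obtain ⟨ε, hε1, hε2⟩ := hε
  suffices H : ∃ δ : SL(2, ℤ), (δ⁻¹ * γ * δ) 1 0 = 0 by
    obtain ⟨δ, hδ⟩ := H
    obtain ⟨m, hm⟩ := smul_of_lower_zero _ hδ
    refine ⟨δ, m, fun w => ?_⟩
    rw [← hm w, ← mul_smul, ← mul_smul]
    congr 1
    group
  by_cases hc : γ 1 0 = 0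
  · exact ⟨1, by simpa using hc⟩
  have hg : 0 < Int.gcd (γ 0 0 - ε) (γ 1 0) := Int.gcd_pos_of_ne_zero_right _ hc
  obtain ⟨p, q, hpq, hp, hq⟩ := Int.exists_gcd_one hg
  set g : ℤ := (Int.gcd (γ 0 0 - ε) (γ 1 0) : ℤ) with hgdef
  have hg0 : g ≠ 0 := by rw [hgdef]; exact_mod_cast hg.ne'
  obtain ⟨δ, h0, h1⟩ := (Int.isCoprime_iff_gcd_eq_one.mpr hpq).exists_SL2_col 0
  refine ⟨δ, ?_⟩
  have e1 : γ 0 0 * p + γ 0 1 * q = ε * p := by
    apply mul_right_cancel₀ hg0
    have : γ 0 0 * (p * g) + γ 0 1 * (q * g) = ε * (p * g) := by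
      rw [← hp, ← hq]
      linear_combination (γ 0 0) * hε2 - hdet + hε1
    linear_combination this
  have e2 : γ 1 0 * p + γ 1 1 * q = ε * q := by
    apply mul_right_cancel₀ hg0
    have : γ 1 0 * (p * g) + γ 1 1 * (q * g) = ε * (q * g) := by
      rw [← hp, ← hq]
      linear_combination (γ 1 0) * hε2
    linear_combination this
  have : (δ⁻¹ * γ * δ) 1 0 = -(δ 1 0) * (γ 0 0 * δ 0 0 + γ 0 1 * δ 1 0) + δ 0 0 * (γ 1 0 * δ 0 0 + γ 1 1 * δ 1 0) := by
    simp [Matrix.SpecialLinearGroup.coe_mul, Matrix.SpecialLinearGroup.coe_inv, Matrix.mul_apply, Fin.sum_univ_two, Matrix.adjugate_fin_two, Matrix.vecMul, dotProduct]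
    ring
  rw [this, h0, h1, e1, e2]
  ring

theorem tendsto_vadd_atImInfty (x : ℝ) : Tendsto (fun w : ℍ => x +ᵥ w) atImInfty atImInfty := by
  simp only [atImInfty, tendsto_comap_iff, Function.comp_def, vadd_im]
  exact tendsto_comap

theorem period_eq_zero_of_parabolic {F : ℍ → ℂ}
    (hlim : ∀ δ : SL(2, ℤ), ∃ L : ℂ, Tendsto (fun w : ℍ => F (δ • w)) atImInfty (𝓝 L))
    {γ : SL(2, ℤ)} (h : ((γ : Matrix (Fin 2) (Fin 2) ℤ)).trace ^ 2 = 4) {c : ℂ}
    (hc : ∀ z, F (γ • z) - F z = c) : c = 0 := by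
  obtain ⟨δ, m, hm⟩ := exists_conj_of_trace_sq γ h
  obtain ⟨L, hL⟩ := hlim δ
  have h1 : Tendsto (fun w : ℍ => F (δ • ((m : ℝ) +ᵥ w)) - F (δ • w)) atImInfty (𝓝 (L - L)) :=
    (hL.comp (tendsto_vadd_atImInfty _)).sub hL
  have h2 : (fun w : ℍ => F (δ • ((m : ℝ) +ᵥ w)) - F (δ • w)) = fun _ => c := by
    ext w
    rw [← hm w, hc]
  rw [h2, sub_self] at h1
  exact tendsto_nhds_unique tendsto_const_nhds h1

variable {N : ℕ} [NeZero N]

theorem periodMap_mem_parabolicHoms (f : CuspForm (Gamma0 N) 2) :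
    periodMap N f ∈ Period.parabolicHoms ℂ (Gamma0 N) ℂ := by
  rw [Period.mem_parabolicHoms_iff]
  intro γ hγ
  exact period_eq_zero_of_parabolic (prim_spec f).2.2.2 hγ (fun z => (periodMap_apply f γ z).symm)

theorem periodHomPair_apply (f g : CuspForm (Gamma0 N) 2) :
    periodHomPair N (f, g) = (periodMap N f + Period.charInvolution N ℂ ℂ (periodMap N f)) +
      (periodMap N g - Period.charInvolution N ℂ ℂ (periodMap N g)) := by
  obtain ⟨pml, hpml, h⟩ := periodHomPair_def N existsPeriodMapLinear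
  rw [h]
  simp [hpml]

theorem range_le : LinearMap.range (periodHomPair N) ≤ Period.parabolicHoms ℂ (Gamma0 N) ℂ := by
  rintro _ ⟨⟨f, g⟩, rfl⟩
  rw [periodHomPair_apply]
  have hf := periodMap_mem_parabolicHoms f
  have hg := periodMap_mem_parabolicHoms g
  exact Submodule.add_mem _ (Submodule.add_mem _ hf (Period.charInvolution_mem_parabolicHoms N ℂ ℂ hf))
    (Submodule.sub_mem _ hg (Period.charInvolution_mem_parabolicHoms N ℂ ℂ hg))

end Fermat.Agent.H21
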