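import Fermat.Agent.H90Bridge
import Fermat.Agent.H21Prim

/-!
# Characters of torsion classes kill parabolic and elliptic elements; the isomorphism `kappa`
(BRIDGE, helper90)
-/

set_option autoImplicit false
set_option linter.unusedSectionVars false
set_option linter.style.haveILetI false

noncomputable section

namespace Fermat.Agent.H90

open UpperHalfPlane hiding I
open Complex MatrixGroups ModularGroup ModularCurve Fermat.Agent.H24 Filter AlgebraicCurve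
open CongruenceSubgroup
open scoped Manifold Real Topology

local notation "𝕢" => Function.Periodic.qParam

section Geometry

/-- Elliptic elements have a fixed point. -/
theorem exists_fixed (γ : SL(2, ℤ))
    (h : ((γ : Matrix (Fin 2) (Fin 2) ℤ)).trace ^ 2 < 4) : ∃ τ₀ : ℍ, γ • τ₀ = τ₀ := by
  have hdet : γ 0 0 * γ 1 1 - γ 0 1 * γ 1 0 = 1 := by
    have := γ.det_coe
    rwa [Matrix.det_fin_two] at this
  rw [Matrix.trace_fin_two] at h
  set a : ℤ := γ 0 0 with ha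
  set b : ℤ := γ 0 1 with hb
  set c : ℤ := γ 1 0 with hc
  set d : ℤ := γ 1 1 with hd
  have h' : (a + d) ^ 2 < 4 := h
  have hc0 : c ≠ 0 := by
    intro h0
    rw [h0, mul_zero, sub_zero] at hdet
    rcases Int.eq_one_or_neg_one_of_mul_eq_one' hdet with ⟨h1, h2⟩ | ⟨h1, h2⟩
    · rw [h1, h2] at h'; norm_num at h'
    · rw [h1, h2] at h'; norm_num at h'
  have hcR : (c : ℝ) ≠ 0 := by exact_mod_cast hc0
  have hD : (0 : ℝ) < 4 - ((a : ℝ) + d) ^ 2 := by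
    have : ((a : ℝ) + d) ^ 2 < 4 := by exact_mod_cast h'
    linarith
  set x : ℝ := ((a : ℝ) - d) / (2 * c) with hx
  set y : ℝ := Real.sqrt (4 - ((a : ℝ) + d) ^ 2) / (2 * |(c : ℝ)|) with hy
  have hy0 : 0 < y := div_pos (Real.sqrt_pos.mpr hD) (by positivity)
  have hy2 : y ^ 2 = (4 - ((a : ℝ) + d) ^ 2) / (4 * (c : ℝ) ^ 2) := by
    rw [hy, div_pow, Real.sq_sqrt hD.le, mul_pow, sq_abs]
    norm_num
  have hdetR : (a : ℝ) * d - b * c = 1 := by exact_mod_cast hdet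
  have hxy : (c : ℝ) * (x ^ 2 + y ^ 2) + b = 0 := by
    rw [hy2, hx]
    field_simp
    linear_combination (-16) * hdetR
  have hx2 : 2 * (c : ℝ) * x = a - d := by
    rw [hx]; field_simp
  let τ₀ : ℍ := ⟨⟨x, y⟩, hy0⟩
  refine ⟨τ₀, ?_⟩
  apply UpperHalfPlane.ext
  have hden := SL_denom_ne_zero γ τ₀
  rw [coe_SL_smul, div_eq_iff hden]
  change (a : ℂ) * (⟨x, y⟩ : ℂ) + (b : ℂ) = (⟨x, y⟩ : ℂ) * ((c : ℂ) * (⟨x, y⟩ : ℂ) + (d : ℂ))
  apply Complex.ext
  · simp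
    linear_combination (-x) * hx2 + hxy
  · simp
    linear_combination (-y) * hx2

theorem aux1 (P Q R w : ℂ) (hQ : Q ≠ 0) : (P / Q - w) * (Q * R) = (P - w * Q) * R := by
  field_simp

theorem aux2 (X Y Q R R' : ℂ) (hQ : Q ≠ 0) (hR : R ≠ 0) (hR' : R' ≠ 0) (hY : Y ≠ 0) :
    (X / (Q * R)) / (Y / (Q * R')) = R' / R * (X / Y) := by
  field_simp

theorem cayley_smul {γ : SL(2, ℤ)} {τ₀ : ℍ} (h : γ • τ₀ = τ₀) :
    ∃ ζ : ℂˣ, ‖(ζ : ℂ)‖ = 1 ∧ ∀ τ, cayley τ₀ (γ • τ) = ζ * cayley τ₀ τ := by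
  have hden := SL_denom_ne_zero γ τ₀
  set c : ℂ := ((γ 1 0 : ℤ) : ℂ) with hc
  set d : ℂ := ((γ 1 1 : ℤ) : ℂ) with hd
  set a : ℂ := ((γ 0 0 : ℤ) : ℂ) with ha
  set b : ℂ := ((γ 0 1 : ℤ) : ℂ) with hb
  have hdet : a * d - b * c = 1 := by
    have := SL_det_eq γ
    rw [ha, hb, hc, hd]
    exact_mod_cast this
  set w : ℂ := (τ₀ : ℂ) with hw
  have hden0 : c * w + d ≠ 0 := hden
  have hconj : (starRingEnd ℂ) (c * w + d) = c * (starRingEnd ℂ) w + d := by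
    rw [map_add, map_mul]
    simp [hc, hd]
  have hden1 : c * (starRingEnd ℂ) w + d ≠ 0 := by
    rw [← hconj]
    exact (map_ne_zero _).mpr hden0
  have hfix : a * w + b = w * (c * w + d) := by
    have := congrArg (fun z : ℍ => (z : ℂ)) h
    simp only [coe_SL_smul] at this
    rwa [div_eq_iff hden] at this
  have hfix' : a * (starRingEnd ℂ) w + b =
      (starRingEnd ℂ) w * (c * (starRingEnd ℂ) w + d) := by
    have := congrArg (starRingEnd ℂ) hfix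
    rw [map_mul, hconj, map_add, map_mul] at this
    simpa [ha, hb] using this
  refine ⟨Units.mk0 ((c * (starRingEnd ℂ) w + d) / (c * w + d)) (div_ne_zero hden1 hden0), ?_,
    fun τ => ?_⟩
  · rw [Units.val_mk0, norm_div, ← hconj, Complex.norm_conj, div_self (norm_ne_zero_iff.mpr hden0)]
  · have hdτ : c * (τ : ℂ) + d ≠ 0 := SL_denom_ne_zero γ τ
    have h1 := cayley_den_ne τ₀ τ
    have h2 := cayley_den_ne τ₀ (γ • τ)
    have key : ∀ w' : ℂ, a * w' + b = w' * (c * w' + d) → c * w' + d ≠ 0 →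
        (a * (τ : ℂ) + b) / (c * τ + d) - w' = ((τ : ℂ) - w') / ((c * τ + d) * (c * w' + d)) := by
      intro w' hw' hw'0
      rw [eq_div_iff (mul_ne_zero hdτ hw'0), aux1 _ _ _ _ hdτ]
      linear_combination (c * τ + d) * hw' + ((τ : ℂ) - w') * hdet
    have e0 : ((γ • τ : ℍ) : ℂ) = (a * (τ : ℂ) + b) / (c * τ + d) := coe_SL_smul γ τ
    rw [e0] at h2
    simp only [cayley, Units.val_mk0]
    rw [e0]
    change ((a * (τ : ℂ) + b) / (c * τ + d) - w) /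
      ((a * (τ : ℂ) + b) / (c * τ + d) - (starRingEnd ℂ) w) = _
    rw [key w hfix hden0, key _ hfix' hden1]
    have h1' : (τ : ℂ) - (starRingEnd ℂ) w ≠ 0 := h1
    exact aux2 _ _ _ _ _ hdτ hden0 hden1 h1'

end Geometry

section Key

/-- The multiplier of a function under a rotation of the chart. -/
theorem eq_zpow_order {z : ℍ → ℂ} (hz : Chart z) {φ : ℍ → ℍ} {ζ : ℂˣ} (hζ : ‖(ζ : ℂ)‖ = 1)
    (hφ : ∀ τ, z (φ τ) = ζ * z τ) {f : ℍ → ℂ} {F : LaurentSeries ℂ} (hF : HasExpC z f F)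
    (hF0 : F ≠ 0) {c : ℂ} (hc : ∀ τ, f (φ τ) = c * f τ) : c = (ζ : ℂ) ^ F.order := by
  have h1 : twist ζ F = c • F := by
    refine eq_of_evalAt_eq (isConv_twist hζ hF.1) (isConv_smul c hF.1) fun w hw0 hw1 => ?_
    obtain ⟨τ, rfl⟩ := hz.surj w hw0 hw1
    have h2 : z (φ τ) ≠ 0 := by rw [hφ]; exact mul_ne_zero ζ.ne_zero hw0
    rw [evalAt_twist, ← hφ, hF.2 _ h2, hc, evalAt_smul, hF.2 _ hw0]
  have h2 := congrArg (fun G : LaurentSeries ℂ => G.coeff F.order) h1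
  simp only [twist_coeff, HahnSeries.coeff_smul, smul_eq_mul] at h2
  have h3 : F.coeff F.order ≠ 0 := fun h => hF0 (HahnSeries.coeff_order_eq_zero.mp h)
  rw [← mul_right_cancel₀ h3 h2, Units.val_zpow_eq_zpow_val]

variable {K : Type*} [Field K] [Algebra K ℂ] [IsAlgClosed K] [CharZero K] [Algebra ℚ K]
variable {N : ℕ} [NeZero N]

theorem hasExpC_sX {z : ℍ → ℂ} (hz : GoodChart K N z) (γ : SL(2, ℤ)) {x : FX K N}
    (hx : Good K N (x : LaurentSeries K))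
    (hexp : compHom γ (ev K (x : LaurentSeries K)) ∈ ExpAlg hz.chart) :
    HasExpC z (compHom γ (ev K (x : LaurentSeries K))) (sX hz γ x) := by
  obtain ⟨X, hX⟩ := hexp
  rw [sX_eq hz γ x hx.conv hX]
  exact hX

/-- `ζ` to the order of any modular function is `1`. -/
theorem zpow_order_sX {z : ℍ → ℂ} (hz : GoodChart K N z) (γ : SL(2, ℤ)) {φ : ℍ → ℍ} {ζ : ℂˣ}
    (hζ : ‖(ζ : ℂ)‖ = 1) (hφ : ∀ τ, z (φ τ) = ζ * z τ) (σ : Gamma0 N)
    (hσ : ∀ τ, (σ : SL(2, ℤ)) • γ • τ = γ • φ τ)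
    (hexp : ∀ x : FX K N, Good K N (x : LaurentSeries K) →
      compHom γ (ev K (x : LaurentSeries K)) ∈ ExpAlg hz.chart) {f : FX K N} (hf : f ≠ 0) :
    (ζ : ℂ) ^ (sX hz γ f).order = 1 := by
  have key : ∀ x : FX K N, Good K N (x : LaurentSeries K) → x ≠ 0 →
      (ζ : ℂ) ^ (sX hz γ x).order = 1 := fun x hx hx0 => by
    refine (eq_zpow_order hz.chart hζ hφ (hasExpC_sX hz γ hx (hexp x hx))
      ((map_ne_zero _).mpr hx0) fun τ => ?_).symm
    rw [one_mul, compHom_apply, compHom_apply, ← hσ]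
    exact congrFun (hx.inv σ σ.2) (γ • τ)
  obtain ⟨c, d, hc, hd, hd0, hfd⟩ := exists_good_div f
  have hc0 : c ≠ 0 := by rw [← hfd]; exact mul_ne_zero hf hd0
  have h1 : (sX hz γ c).order = (sX hz γ f).order + (sX hz γ d).order := by
    rw [← hfd, map_mul, HahnSeries.order_mul ((map_ne_zero _).mpr hf) ((map_ne_zero _).mpr hd0)]
  have h2 := key c hc hc0
  have hζ0 : (ζ : ℂ) ≠ 0 := ζ.ne_zero
  rw [h1, zpow_add₀ hζ0, key d hd hd0, mul_one] at h2
  exact h2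

theorem val_eq_one_of_chart {z : ℍ → ℂ} (hz : GoodChart K N z) (γ : SL(2, ℤ)) {φ : ℍ → ℍ}
    {ζ : ℂˣ} (hζ : ‖(ζ : ℂ)‖ = 1) (hφ : ∀ τ, z (φ τ) = ζ * z τ) (σ : Gamma0 N)
    (hσ : ∀ τ, (σ : SL(2, ℤ)) • γ • τ = γ • φ τ)
    (hexp : ∀ x : FX K N, Good K N (x : LaurentSeries K) →
      compHom γ (ev K (x : LaurentSeries K)) ∈ ExpAlg hz.chart) {n : ℕ} (hn : n ≠ 0)
    {D : Divisor K (FX K N)} {a : FX K N} {h : ℍ → ℂ} (ha : a ≠ 0)
    (hg : Good K N (a : LaurentSeries K)) (hord : ∀ v : Place K (FX K N), v.ord a = n * D v)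
    (hpow : h ^ n = ev K (a : LaurentSeries K)) {c : ℂ}
    (hc : ∀ τ : ℍ, h ((σ : SL(2, ℤ)) • τ) = c * h τ)
    (hhexp : compHom γ h ∈ ExpAlg hz.chart) : c = 1 := by
  obtain ⟨H, hH⟩ := hhexp
  have hX := hasExpC_sX hz γ hg (hexp a hg)
  have hXH : sX hz γ a = H ^ n := by
    refine hX.unique hz.chart ⟨isConv_pow hH.1 n, fun τ hτ => ?_⟩
    rw [evalAt_pow hH.1 n hτ (hz.chart.lt τ), hH.2 τ hτ, ← hpow, map_pow, Pi.pow_apply]
  have hH0 : H ≠ 0 := by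
    rintro rfl
    rw [zero_pow hn] at hXH
    exact (map_ne_zero (sX hz γ)).mpr ha hXH
  have h1 := eq_zpow_order hz.chart hζ hφ hH hH0 (c := c) (fun τ => by
    rw [compHom_apply, compHom_apply, ← hσ, hc])
  rw [h1]
  have h2 : (sX hz γ a).order = n * H.order := by
    rw [hXH, HahnSeries.order_pow, nsmul_eq_mul]
  have hn' : (n : ℤ) ≠ 0 := by exact_mod_cast hn
  rcases order_eq_zero_or_place (sX hz γ) with h0 | ⟨v, m, hm, hv⟩
  · rw [h0] at h2
    have h3 : H.order = 0 := by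
      rcases mul_eq_zero.mp h2.symm with h4 | h4
      · exact absurd h4 hn'
      · exact h4
    rw [h3, zpow_zero]
  · rw [hv, hord] at h2
    have h3 : H.order = m * D v := by
      apply mul_left_cancel₀ hn'
      rw [← h2]; ring
    obtain ⟨p, hp0, hp⟩ := H67.exists_ord_eq_one v
    have h4 := zpow_order_sX hz γ hζ hφ σ hσ hexp hp0
    rw [hv, hp, mul_one] at h4
    rw [h3, zpow_mul, h4, one_zpow]

/-- The chart `q_M` for `M` a multiple of `N`. -/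
theorem mem_ExpAlg_mul (M : ℕ) [NeZero M] {f : ℍ → ℂ} (hf : f ∈ ExpAlg (chart_qParam N)) :
    haveI : NeZero (N * M) := ⟨Nat.mul_ne_zero (NeZero.ne N) (NeZero.ne M)⟩
    f ∈ ExpAlg (chart_qParam (N * M)) := by
  haveI : NeZero (N * M) := ⟨Nat.mul_ne_zero (NeZero.ne N) (NeZero.ne M)⟩
  obtain ⟨F, hF⟩ := hf
  refine ⟨qExpand ℂ M F, isConv_qExpand M hF.1, fun τ hτ => ?_⟩
  rw [evalAt_qExpand M hF.1 hτ (qParam_norm_lt_one (N * M) τ)]
  have h1 : 𝕢 ((N * M : ℕ) : ℝ) (τ : ℂ) ^ M = 𝕢 (N : ℝ) τ := by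
    have hM : (M : ℂ) ≠ 0 := Nat.cast_ne_zero.mpr (NeZero.ne M)
    have hN : (N : ℂ) ≠ 0 := Nat.cast_ne_zero.mpr (NeZero.ne N)
    simp only [Function.Periodic.qParam]
    rw [← Complex.exp_nat_mul]
    congr 1
    push_cast
    field_simp
  rw [h1]
  exact hF.2 τ (Function.Periodic.qParam_ne_zero _)

theorem Rel.val_eq_one {n : ℕ} {c : Pic0 K (FX K N)} {χ : Additive (Gamma0 N) →+ Mu}
    (h : Rel n c χ) (hn : n ≠ 0) (σ : Gamma0 N)
    (hσ : ((σ : SL(2, ℤ)) : Matrix (Fin 2) (Fin 2) ℤ).trace ^ 2 ≤ 4) :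
    (χ (Additive.ofMul σ)).val = 1 := by
  have hnχ := h.char_torsion hn
  obtain ⟨D, a, f, hD, ha, hg, hord, hf, hfn, hχ⟩ := h
  rcases hσ.lt_or_eq with hlt | heq
  · -- elliptic
    obtain ⟨τ₀, hτ₀⟩ := exists_fixed (σ : SL(2, ℤ)) hlt
    obtain ⟨ζ, hζ, hφ⟩ := cayley_smul hτ₀
    refine val_eq_one_of_chart (goodChart_cayley K N τ₀) 1 (φ := fun τ => (σ : SL(2, ℤ)) • τ) hζ hφ
      σ (fun τ => by rw [one_smul, one_smul]) (fun x hx => ?_) hn ha hg hord hfn (hχ σ) ?_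
    · exact Hol_le_ExpAlg_cayley τ₀ (compHom_mem_Hol 1 hx.hol)
    · exact Hol_le_ExpAlg_cayley τ₀ (compHom_mem_Hol 1 hf)
  · -- parabolic
    obtain ⟨δ, m, hδ⟩ := H21.exists_conj_of_trace_sq (σ : SL(2, ℤ)) heq
    haveI : NeZero n := ⟨hn⟩
    haveI hNn : NeZero (N * n) := ⟨Nat.mul_ne_zero (NeZero.ne N) (NeZero.ne n)⟩
    have hgc : GoodChart K N (fun τ : ℍ => 𝕢 ((N * n : ℕ) : ℝ) τ) :=
      { chart := chart_qParam (N * n)
        exp := fun x hx γ => mem_ExpAlg_mul n ((good_of_mem K hx).exp γ) }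
    let ζ : ℂˣ := Units.mk0 (Complex.exp (2 * π * Complex.I * m / (N * n : ℕ)))
      (Complex.exp_ne_zero _)
    have hζ : ‖(ζ : ℂ)‖ = 1 := by
      have : (2 * π * Complex.I * m / (N * n : ℕ) : ℂ) =
        ((2 * π * m / (N * n : ℕ) : ℝ) : ℂ) * Complex.I := by push_cast; ring
      rw [Units.val_mk0, this, Complex.norm_exp_ofReal_mul_I]
    have hφ : ∀ τ : ℍ, 𝕢 ((N * n : ℕ) : ℝ) ((((m : ℝ) +ᵥ τ : ℍ)) : ℂ) =
        ζ * 𝕢 ((N * n : ℕ) : ℝ) τ := by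
      intro τ
      simp only [Function.Periodic.qParam, ζ, Units.val_mk0, UpperHalfPlane.coe_vadd]
      rw [← Complex.exp_add]
      congr 1
      push_cast
      ring
    have hpe : ∀ τ : ℍ, compHom δ f ((T ^ (N * n) : SL(2, ℤ)) • τ) = compHom δ f τ := by
      intro τ
      have e1 : (δ * T ^ (N * n) * δ⁻¹ : SL(2, ℤ)) = (δ * T ^ N * δ⁻¹) ^ n := by
        rw [conj_pow, pow_mul]
      have e2 : f ((((⟨_, T_pow_mem_Gamma0 (N := N) δ⟩ : Gamma0 N) ^ n : Gamma0 N) : SL(2, ℤ)) •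
          δ • τ) = f (δ • τ) := by
        rw [hχ, ofMul_pow, map_nsmul, ← AddMonoidHom.nsmul_apply, hnχ, AddMonoidHom.zero_apply,
          Mu.val_zero, one_mul]
      rw [compHom_apply, compHom_apply, ← e2, Subgroup.coe_pow]
      congr 1
      show δ • T ^ (N * n) • τ = (δ * T ^ N * δ⁻¹) ^ n • δ • τ
      rw [← e1, ← mul_smul, ← mul_smul, inv_mul_cancel_right]
    refine val_eq_one_of_chart hgc δ (φ := fun τ => ((m : ℝ) +ᵥ τ : ℍ)) hζ hφ σ hδ
      (fun x hx => mem_ExpAlg_mul n (hx.exp δ)) hn ha hg hord hfn (hχ σ) ?_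
    refine mem_ExpAlg_of_pow (N * n) (compHom_mem_Hol δ hf) hpe hn ?_
    rw [← map_pow, hfn]
    exact mem_ExpAlg_mul n (hg.exp δ)

/-- **Characters of torsion classes kill parabolic and elliptic elements.** -/
theorem Rel.isPE {n : ℕ} {c : Pic0 K (FX K N)} {χ : Additive (Gamma0 N) →+ Mu}
    (h : Rel n c χ) (hn : n ≠ 0) : H4.IsPE χ := fun σ hσ => Mu.eq_zero (h.val_eq_one hn σ hσ)

/-! ### the isomorphism -/

variable (N) in
/-- The characters of `Γ₀(N)` of order dividing `n` killing parabolic and elliptic elements. -/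
def charGroup (n : ℕ) : AddSubgroup (Additive (Gamma0 N) →+ Mu) where
  carrier := {χ | H4.IsPE χ ∧ n • χ = 0}
  zero_mem' := ⟨fun _ _ => rfl, smul_zero n⟩
  add_mem' {φ ψ} hφ hψ := ⟨fun γ hγ => by
    rw [AddMonoidHom.add_apply, hφ.1 γ hγ, hψ.1 γ hγ, add_zero], by
    rw [smul_add, hφ.2, hψ.2, add_zero]⟩
  neg_mem' {φ} hφ := ⟨fun γ hγ => by rw [AddMonoidHom.neg_apply, hφ.1 γ hγ, neg_zero], by
    rw [smul_neg, hφ.2, neg_zero]⟩

theorem mem_charGroup {n : ℕ} {χ : Additive (Gamma0 N) →+ Mu} :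
    χ ∈ charGroup N n ↔ H4.IsPE χ ∧ n • χ = 0 := Iff.rfl

theorem exists_rel_torsion {n : ℕ} (hn : n ≠ 0) (c : Pic0.torsion K (FX K N) n) :
    ∃ χ : charGroup N n, Rel n (c : Pic0 K (FX K N)) (χ : Additive (Gamma0 N) →+ Mu) := by
  obtain ⟨χ, hχ⟩ := exists_rel hn (c := (c : Pic0 K (FX K N))) (by
    have := Pic0.mem_torsion.mp c.2
    rwa [natCast_zsmul] at this)
  exact ⟨⟨χ, hχ.isPE hn, hχ.char_torsion hn⟩, hχ⟩

variable (K N) in
/-- **The Kummer isomorphism** `J₀(N)[n] ≃ Hom_PE(Γ₀(N), μ_n)`. -/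
def kappa {n : ℕ} (hn : n ≠ 0) : Pic0.torsion K (FX K N) n ≃+ charGroup N n :=
  AddEquiv.ofBijective
    (AddMonoidHom.mk' (fun c => (exists_rel_torsion hn c).choose) (fun c c' => by
      apply Subtype.ext
      refine (exists_rel_torsion hn (c + c')).choose_spec.char_eq ?_ hn
      exact (exists_rel_torsion hn c).choose_spec.add (exists_rel_torsion hn c').choose_spec))
    ⟨fun c c' h => by
      have h1 : (exists_rel_torsion hn c).choose = (exists_rel_torsion hn c').choose := h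
      have h2 := (exists_rel_torsion hn c).choose_spec
      rw [h1] at h2
      exact Subtype.ext (h2.inj (exists_rel_torsion hn c').choose_spec hn),
    fun χ => by
      obtain ⟨c, hc⟩ := exists_rel_of_isPE (K := K) hn χ.1 χ.2.1 χ.2.2
      have hct : c ∈ Pic0.torsion K (FX K N) n := by
        rw [Pic0.mem_torsion, natCast_zsmul]
        exact hc.torsion
      refine ⟨⟨c, hct⟩, Subtype.ext ?_⟩
      exact (exists_rel_torsion hn ⟨c, hct⟩).choose_spec.char_eq hc hn⟩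

theorem rel_kappa {n : ℕ} (hn : n ≠ 0) (c : Pic0.torsion K (FX K N) n) :
    Rel n (c : Pic0 K (FX K N)) (kappa K N hn c : Additive (Gamma0 N) →+ Mu) :=
  (exists_rel_torsion hn c).choose_spec

theorem kappa_eq {n : ℕ} (hn : n ≠ 0) {c : Pic0.torsion K (FX K N) n}
    {χ : Additive (Gamma0 N) →+ Mu} (h : Rel n (c : Pic0 K (FX K N)) χ) :
    (kappa K N hn c : Additive (Gamma0 N) →+ Mu) = χ :=
  (rel_kappa hn c).char_eq h hn

/-- Hecke equivariance of `kappa`. -/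
theorem kappa_hecke {n : ℕ} (hn : n ≠ 0) {ℓ : ℕ} [Fact ℓ.Prime] (hℓN : ¬ ℓ ∣ N)
    (c c' : Pic0.torsion K (FX K N) n)
    (h : (c' : Pic0 K (FX K N)) = heckeOperatorAlong K N ℓ (c : Pic0 K (FX K N))) :
    (kappa K N hn c' : Additive (Gamma0 N) →+ Mu) =
      H4.heckeHom hℓN (kappa K N hn c : Additive (Gamma0 N) →+ Mu) := by
  apply kappa_eq hn
  rw [h]
  exact H4.rel_hecke hℓN (rel_kappa hn c)

end Key

end Fermat.Agent.H90

end
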