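import Fermat.Agent.H90Faithful
import Fermat.Agent.H90Kappa

/-!
# Guide: characters of `Γ₀(N)` and torsion classes of `J₀(N)` (the Kummer bridge)

Modular forms of weight two occur in this proof in two forms.

* `Hom(Γ₀(N), A)` for arbitrary coefficients `A`. Here one can count, twist by characters, change the
  level and patch. There is no Galois action.
* The torsion of `J₀(N)` = `Pic⁰` of the function field of `X₀(N)` over `Q̄`. Here `Gal(Q̄/Q)` acts.

This file collects the theorems that connect the two. No topology of Riemann surfaces, no étale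
cohomology, no Weil pairing and no Jacobian variety are used: only `q`-expansions, holomorphic functions
on the upper half plane `ℍ` and divisors of functions. It is continued in `GuideEigen` (Tate modules,
Galois representations). Steps of the proofs are in `GuideBridgeSteps`, `GuideKummerSteps` and
`GuidePeriodLattice`. Primitives of cusp forms, the Eichler-Shimura isomorphism and the lattice of
periods are in `GuidePeriods`, the Galois action and the Hecke operators on `J₀(N)` in `GuideGalois`.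

**Order.**
1. Hecke operators `T_ℓ` on `Hom(Γ₀(N), A)`: explicit sums over the projective line over `F_ℓ`.
2. Periods of cusp forms; every mod `p` eigensystem occurs in `Hom(Γ₀(N), k)`.
3. The Kummer relation between torsion classes and characters: definition, existence, uniqueness in both
   directions, surjectivity, Hecke equivariance. Consequences: `J₀(N)[n]` is finite and isomorphic to the
   group of characters of `Γ₀(N)` of order dividing `n` that kill the parabolic and elliptic elements; the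
   Hecke operators act faithfully on the torsion.

**Statements served.** S01, S03, S04, S06, S09, S12, S15, S29-S36, S38-S40, S42-S46, S50, S58-S60
(`exists_nthRoot` also S17, S47 and S48; the Kummer relation, `exists_character`, `modular_of_good` and the
finiteness of `J₀(N)[n]` also S17; the period homomorphism also S21 and S41; good series also S17-S19, S24
and S37). Every library theorem cited here occurs in the proof term of S01. NOTES: [157]
NOTES-KUMMERBRIDGE, [192] NOTES-KUMMERBRIDGE-2. Authors of the library files cited here: `H4*` helper4,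
`H90*` helper90, `H24*` helper24, `H96Chart` helper96, `H21Prim` helper21, `H31Mod` helper31.

**Conventions.** `Additive (Gamma0 N) →+ A` is the group of homomorphisms from the (multiplicative) group
`Γ₀(N)` to the (additive) group `A`. `Mu` is the group `ℂˣ` written additively, `Mu.val : Mu → ℂ` the
inclusion. `K` is an algebraically closed field with an embedding in `ℂ` (in the applications `Q̄` or
`ℂ`); `FX K N` is the function field of `X₀(N)` over `K`, generated inside the Laurent series `K((q))` by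
the `j(q^d)`, `d ∣ N`. Every theorem below is proved by citing the theorem of the library.
-/

set_option autoImplicit false

noncomputable section

open UpperHalfPlane hiding I
open Complex MatrixGroups ModularGroup ModularCurve AlgebraicCurve CongruenceSubgroup
open scoped Manifold Real TensorProduct

namespace Fermat.Agent.Guide.Bridge

/-! ## 1. Hecke operators on homomorphisms `Γ₀(N) → A` -/

/-- **The representatives.** The Hecke operator `T_ℓ` (`ℓ` prime) is defined with `ℓ + 1` matrices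
`rep ℓ x`, indexed by the projective line `x ∈ P¹(F_ℓ)` = `OnePoint (ZMod ℓ)`. For `x = ∞` the matrix is
`diag(ℓ, 1)`, for `x = j ∈ F_ℓ` it has the rows `(1, j)`, `(0, ℓ)`. They act on the upper half plane by
`τ ↦ ℓ τ` and `τ ↦ (τ + j)/ℓ`. (`Fermat.Prelude`.) -/
theorem rep_smul {ℓ : ℕ} (hℓ : ℓ ≠ 0) (j : ZMod ℓ) (τ : ℍ) :
    ((H4.rep ℓ OnePoint.infty • τ : ℍ) : ℂ) = (ℓ : ℂ) * (τ : ℂ) ∧
      ((H4.rep ℓ (j : OnePoint (ZMod ℓ)) • τ : ℍ) : ℂ) = ((τ : ℂ) + (j.val : ℕ)) / ℓ :=
  ⟨ModularForm.coe_heckeDiagMatrix_smul hℓ τ, ModularForm.coe_heckeMatrix_smul hℓ j.val τ⟩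

/-- **The cocycle.** If `ℓ ∤ N` and `γ ∈ Γ₀(N)`, then `rep ℓ x · γ = δ · rep ℓ (x·γ)` with
`δ = coc hℓN γ x ∈ Γ₀(N)`, where `x ↦ x·γ = act γ x` is a permutation of `P¹(F_ℓ)` (a right action of
`Γ₀(N)`). Proved in `H4Transfer` (from the invariance of cusp forms under `T_ℓ` in `Fermat.Prelude`). -/
theorem cocycle_spec {N ℓ : ℕ} [Fact ℓ.Prime] (hℓN : ¬ ℓ ∣ N) (γ : Gamma0 N)
    (x : OnePoint (ZMod ℓ)) :
    H4.rep ℓ x * (Matrix.SpecialLinearGroup.mapGL ℝ (γ : SL(2, ℤ)) : GL (Fin 2) ℝ) =
      Matrix.SpecialLinearGroup.mapGL ℝ (H4.coc hℓN γ x : SL(2, ℤ)) *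
        H4.rep ℓ (H4.act (γ : SL(2, ℤ)) x) :=
  H4.coc_spec hℓN γ x

/-- **Definition of `T_ℓ` on `Hom(Γ₀(N), A)`** for an arbitrary abelian group `A`: the sum of the values
of `φ` at the `ℓ + 1` elements `δ = coc hℓN γ x` (this is the transfer). Holds by definition. -/
theorem heckeHom_def {N ℓ : ℕ} [Fact ℓ.Prime] {A : Type*} [AddCommGroup A] (hℓN : ¬ ℓ ∣ N)
    (φ : Additive (Gamma0 N) →+ A) (γ : Gamma0 N) :
    H4.heckeHom hℓN φ (Additive.ofMul γ) =
      ∑ x : OnePoint (ZMod ℓ), φ (Additive.ofMul (H4.coc hℓN γ x)) :=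
  rfl

/-- **Naturality in the coefficients.** `T_ℓ (f ∘ φ) = f ∘ T_ℓ φ` for a homomorphism `f : A → B`. So the
same operators act on homomorphisms with values in `ℤ`, `ℤ_p`, a finite field or the roots of unity.
Proved in `H4Transfer`. -/
theorem heckeHom_natural {N ℓ : ℕ} [Fact ℓ.Prime] {A B : Type*} [AddCommGroup A] [AddCommGroup B]
    (hℓN : ¬ ℓ ∣ N) (φ : Additive (Gamma0 N) →+ A) (f : A →+ B) :
    H4.heckeHom hℓN (f.comp φ) = f.comp (H4.heckeHom hℓN φ) :=
  H4.heckeHom_comp hℓN φ f

/-- **The period identity.** Let `F` be a function on `ℍ` with `F(γτ) = F(τ) + φ(γ)` for `γ ∈ Γ₀(N)`. Then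
`G(τ) = Σ_x F(rep x · τ)` satisfies `G(γτ) = G(τ) + (T_ℓ φ)(γ)`. (For a primitive `F` of a cusp form `f`
of weight two, `G` is a primitive of `T_ℓ f`.) Proved in `H4Transfer`. -/
theorem period_identity {N ℓ : ℕ} [Fact ℓ.Prime] (hℓN : ¬ ℓ ∣ N) {A : Type*} [AddCommGroup A]
    (F : ℍ → A) (φ : Additive (Gamma0 N) →+ A)
    (hF : ∀ (γ : Gamma0 N) (τ : ℍ), F ((γ : SL(2, ℤ)) • τ) = F τ + φ (Additive.ofMul γ))
    (γ : Gamma0 N) (τ : ℍ) :
    ∑ x : OnePoint (ZMod ℓ), F (H4.rep ℓ x • ((γ : SL(2, ℤ)) • τ)) =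
      (∑ x : OnePoint (ZMod ℓ), F (H4.rep ℓ x • τ)) + H4.heckeHom hℓN φ (Additive.ofMul γ) :=
  H4.sum_rep_smul hℓN F φ hF γ τ

/-- **The same for products.** If `h(γτ) = χ(γ) h(τ)` with a character `χ : Γ₀(N) → ℂˣ`, then the product
of the `h(rep x · τ)` has the character `T_ℓ χ`. This one line replaces the comparison of Hecke
correspondences with the cup product or the Weil pairing. Proved in `H4Transfer`, used in `rel_hecke`. -/
theorem product_identity {N ℓ : ℕ} [Fact ℓ.Prime] (hℓN : ¬ ℓ ∣ N) (h : ℍ → ℂ)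
    (χ : Additive (Gamma0 N) →+ Additive ℂˣ)
    (hF : ∀ (γ : Gamma0 N) (τ : ℍ), h ((γ : SL(2, ℤ)) • τ) =
      ((χ (Additive.ofMul γ)).toMul : ℂ) * h τ)
    (γ : Gamma0 N) (τ : ℍ) :
    ∏ x : OnePoint (ZMod ℓ), h (H4.rep ℓ x • ((γ : SL(2, ℤ)) • τ)) =
      ((H4.heckeHom hℓN χ (Additive.ofMul γ)).toMul : ℂ) *
        ∏ x : OnePoint (ZMod ℓ), h (H4.rep ℓ x • τ) :=
  H4.prod_rep_smul hℓN h χ hF γ τ

/-- **The condition `IsPE`** ("parabolic and elliptic elements are killed"): `φ(γ) = 0` for all
`γ ∈ Γ₀(N)` with `(tr γ)² ≤ 4`, that is, for all parabolic and elliptic elements and for `±1`. It is the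
condition that `φ` comes from the compact curve `X₀(N)`. Holds by definition. -/
theorem isPE_iff {N : ℕ} {A : Type*} [AddCommGroup A] (φ : Additive (Gamma0 N) →+ A) :
    H4.IsPE φ ↔ ∀ γ : Gamma0 N, ((γ : SL(2, ℤ)) : Matrix (Fin 2) (Fin 2) ℤ).trace ^ 2 ≤ 4 →
      φ (Additive.ofMul γ) = 0 :=
  Iff.rfl

/-- **`T_ℓ` preserves `IsPE`.** On a cycle of length `m` of the permutation `x ↦ x·γ` the sum in the
definition of `T_ℓ φ` is the value of `φ` at a conjugate of `γ^m` in `GL₂(ℝ)`, and `(tr γ)² ≤ 4` implies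
`(tr γ^m)² ≤ 4`. Proved in `H4TransferPE`. -/
theorem isPE_heckeHom {N ℓ : ℕ} [Fact ℓ.Prime] (hℓN : ¬ ℓ ∣ N) {A : Type*} [AddCommGroup A]
    {φ : Additive (Gamma0 N) →+ A} (hφ : H4.IsPE φ) : H4.IsPE (H4.heckeHom hℓN φ) :=
  H4.IsPE.heckeHom hℓN hφ

/-! ## 2. Periods of cusp forms, mod `p` eigenclasses -/

/-- **The period homomorphism** `periodMap N f : Γ₀(N) → ℂ` of a cusp form `f` of weight two: its value at
`γ` is `F(γz) - F(z)` for a primitive `F` of `f` on `ℍ` and any `z ∈ ℍ`. Proved in `H21Prim`. -/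
theorem period_spec {N : ℕ} [NeZero N] (f : CuspForm (Gamma0 N) 2) :
    ∃ F : ℍ → ℂ, (∀ τ : ℍ, HasDerivAt (F ∘ ofComplex) (f τ) (τ : ℂ)) ∧
      ∀ (γ : Gamma0 N) (z : ℍ),
        periodMap N f (Additive.ofMul γ) = F ((γ : SL(2, ℤ)) • z) - F z :=
  ⟨H21.prim f, H21.prim_isPrim f, H21.periodMap_apply f⟩

/-- **Periods and Hecke operators**: `per (T_ℓ f) = T_ℓ (per f)`, from `period_identity` and
`(Σ_x F(rep x · τ))' = (T_ℓ f)(τ)`. Proved in `H4Periods`. -/
theorem period_hecke {N ℓ : ℕ} [Fact ℓ.Prime] (hℓN : ¬ ℓ ∣ N) (f : CuspForm (Gamma0 N) 2) :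
    periodMap N (CuspForm.heckeTLin 2 (Fact.out : ℓ.Prime) hℓN f) =
      H4.heckeHom hℓN (periodMap N f) :=
  H4.periodMap_heckeTLin hℓN f

/-- **Periods kill parabolic and elliptic elements, and they determine the form** (a form whose periods
vanish has a `Γ₀(N)`-invariant holomorphic primitive that is bounded at the cusps, hence constant). Proved
in `H4Periods`. -/
theorem period_isPE_injective {N : ℕ} [NeZero N] (f : CuspForm (Gamma0 N) 2) :
    H4.IsPE (periodMap N f) ∧ (periodMap N f = 0 ↔ f = 0) :=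
  ⟨H4.isPE_periodMap f, H4.periodMap_eq_zero_iff f⟩

/-- **Mod `p` eigenclasses.** Let `S` contain the primes dividing `N`, `k` any field and
`θ : heckeAlgebra N 2 S → k` a ring homomorphism. There is a homomorphism `ψ ≠ 0` from `Γ₀(N)` to `k`
which kills the parabolic and elliptic elements and satisfies `T_ℓ ψ = θ(T_ℓ) ψ` for all primes `ℓ ∤ N`,
`ℓ ∉ S`. Idea: the periods of all forms along `γ` form a finitely generated faithful module (the period
lattice), so each prime ideal of the Hecke algebra (here the kernel of `θ`) occurs in it, by Nakayama. No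
lifting to characteristic 0 is needed. Proved in `H4Lattice`; used in `H59Occ` (the eigensystem of `W[p]`
occurs in `Hom(Γ₀(M), k)`), so in S01, S03, S04, S06, S38, S43, S45, S46, S50, S59 and S60. The same
argument for `Γ₁(N)` is used in S47 and S48 (`H48Per`, `H48Eig1`). -/
theorem mod_p_eigenclass {N : ℕ} [NeZero N] {S : Set ℕ}
    (hNS : ∀ q : ℕ, q.Prime → q ∣ N → q ∈ S) {k : Type*} [Field k]
    (θ : CuspForm.heckeAlgebra N 2 S →+* k) :
    ∃ ψ : Additive (Gamma0 N) →+ k, ψ ≠ 0 ∧ H4.IsPE ψ ∧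
      ∀ (ℓ : ℕ) [hℓ : Fact ℓ.Prime] (hℓN : ¬ ℓ ∣ N) (hℓS : ℓ ∉ S),
        H4.heckeHom hℓN ψ = θ (CuspForm.heckeAlgebra.T hℓ.out hℓN hℓS) • ψ :=
  H4.exists_eigenclass hNS θ

/-! ## 3. The Kummer relation -/

/-- **Good series.** A Laurent series `x ∈ K((q))`, `K ⊂ ℂ`, is good (`Good K N x`) if it converges for
`0 < |q| < 1` (as the series `incl K x` over `ℂ`), the function `ev K x : τ ↦ x(e^{2πiτ})` is holomorphic on
`ℍ` and invariant under `Γ₀(N)`, and for each `γ ∈ SL₂(ℤ)` the function `τ ↦ x(γτ)` has a (convergent)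
Laurent expansion in `e^{2πiτ/N}` with finitely many negative exponents. This is the definition, written
out (`H24Ring`). -/
theorem good_iff (K : Type*) [Field K] [Algebra K ℂ] (N : ℕ) [NeZero N] (x : LaurentSeries K) :
    H24.Good K N x ↔ H24.IsConv (H24.incl K x) ∧ MDifferentiable 𝓘(ℂ) 𝓘(ℂ) (H24.ev K x) ∧
      (∀ γ : SL(2, ℤ), ∃ X : LaurentSeries ℂ, H24.IsConv X ∧ ∀ τ : ℍ,
        Function.Periodic.qParam (N : ℝ) τ ≠ 0 →
          ∑' n : ℤ, X.coeff n * Function.Periodic.qParam (N : ℝ) τ ^ n = H24.ev K x (γ • τ)) ∧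
      ∀ γ ∈ Gamma0 N, ∀ τ : ℍ, H24.ev K x (γ • τ) = H24.ev K x τ :=
  ⟨fun h => ⟨h.conv, h.hol, h.exp, fun γ hγ τ => congrFun (h.inv γ hγ) τ⟩,
    fun h => ⟨h.1, h.2.1, h.2.2.1, fun γ hγ => funext (h.2.2.2 γ hγ)⟩⟩

/-- **Good series are modular functions**: they lie in the field `K(j(q^d) : d ∣ N)`. (Its elements are
quotients of good series, `H90.exists_good_div`.) Idea: every good series satisfies a monic equation of
degree `ψ(N) = [SL₂(ℤ) : Γ₀(N)]` over `K[j]` (its conjugates under the cosets). `FX K N` and `x` generate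
a field whose elements are quotients of good series; by the theorem of the primitive element its degree
over `K(j)` is at most `ψ(N)`, and this is the degree of `FX K N`. This replaces "every meromorphic
function on the compact Riemann surface `X₀(N)` is algebraic". Proved in `H90Deg`. -/
theorem modular_of_good {K : Type*} [Field K] [Algebra K ℂ] [IsAlgClosed K] {N : ℕ} [NeZero N]
    {x : LaurentSeries K} (hx : H24.Good K N x) : x ∈ modularFunctionFieldFullC K N :=
  H90.mem_full_of_good hx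

/-- **The Kummer relation** `Rel n c χ` between a class `c` in `Pic⁰` of `X₀(N)` and a character `χ` of
`Γ₀(N)`: there are a divisor `D` of degree 0 with class `c`, a good function `a ≠ 0` with `div a = n D`
and a holomorphic `n`-th root `h` of `a` on the upper half plane with `h(γτ) = χ(γ) h(τ)` for all
`γ ∈ Γ₀(N)`. This is the definition, written out (`H90Rel`). -/
theorem rel_iff {K : Type*} [Field K] [Algebra K ℂ] [IsAlgClosed K] [CharZero K] [Algebra ℚ K]
    {N : ℕ} [NeZero N] (n : ℕ) (c : Pic0 K (H90.FX K N)) (χ : Additive (Gamma0 N) →+ H90.Mu) :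
    H90.Rel n c χ ↔ ∃ (D : Divisor.degZero (K := K) (F := H90.FX K N)) (a : H90.FX K N) (h : ℍ → ℂ),
      Pic0.mk D = c ∧ a ≠ 0 ∧ H24.Good K N (a : LaurentSeries K) ∧
      (∀ v : Place K (H90.FX K N), v.ord a = n * (D : Divisor K (H90.FX K N)) v) ∧
      MDifferentiable 𝓘(ℂ) 𝓘(ℂ) h ∧ (h ^ n = H24.ev K (a : LaurentSeries K)) ∧
      ∀ (γ : Gamma0 N) (τ : ℍ), h ((γ : SL(2, ℤ)) • τ) = (χ (Additive.ofMul γ)).val * h τ :=
  Iff.rfl

/-- **Holomorphic `n`-th roots on `ℍ`.** A holomorphic function `U ≠ 0` on the upper half plane whose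
zeros all have multiplicity divisible by `n` has a holomorphic `n`-th root. Proved in `H4Root`: a rectangle
contains finitely many zeros; divide them out and take the exponential of `1/n` times a primitive of the
logarithmic derivative (Mathlib has primitives on convex open sets); the roots on an increasing sequence of
rectangles, with the same value at a base point, fit together (`GuideBridgeSteps`, section 2). -/
theorem exists_nthRoot {n : ℕ} (hn : n ≠ 0) (U : ℍ → ℂ) (hU : MDifferentiable 𝓘(ℂ) 𝓘(ℂ) U)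
    (hne : U ≠ 0) (hord : ∀ τ : ℍ, n ∣ analyticOrderNatAt (U ∘ ofComplex) (τ : ℂ)) :
    ∃ h : ℍ → ℂ, MDifferentiable 𝓘(ℂ) 𝓘(ℂ) h ∧ ∀ τ, h τ ^ n = U τ :=
  H4.exists_nthRoot hn U hU hne hord

/-- **Every `n`-torsion class has a character.** Proved in `H90Exist` from `exists_nthRoot`: the orders of
`a` at the points of `ℍ` are divisible by `n` because they are multiples of the orders of `a` at places. -/
theorem exists_character {K : Type*} [Field K] [Algebra K ℂ] [IsAlgClosed K] [CharZero K]
    [Algebra ℚ K] {N : ℕ} [NeZero N] {n : ℕ} (hn : n ≠ 0) {c : Pic0 K (H90.FX K N)}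
    (hc : n • c = 0) : ∃ χ : Additive (Gamma0 N) →+ H90.Mu, H90.Rel n c χ :=
  H90.exists_rel hn hc

/-- **The relation is additive, the character is unique, and it determines the class**; the class is
killed by `n`, the character has order dividing `n`. Proved in `H90Rel`: if `D = div g` is principal then
`h` is a constant times `g`, so `χ = 1`; if `χ = 1` then `h` is a modular function and `D = div h` is
principal. -/
theorem rel_unique {K : Type*} [Field K] [Algebra K ℂ] [IsAlgClosed K] [CharZero K] [Algebra ℚ K]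
    {N : ℕ} [NeZero N] {n : ℕ} (hn : n ≠ 0) {c c' : Pic0 K (H90.FX K N)}
    {χ χ' : Additive (Gamma0 N) →+ H90.Mu} (h : H90.Rel n c χ) :
    n • c = 0 ∧ n • χ = 0 ∧ (H90.Rel n c χ' → χ = χ') ∧ (H90.Rel n c' χ → c = c') ∧
      (H90.Rel n c' χ' → H90.Rel n (c + c') (χ + χ')) :=
  ⟨h.torsion, h.char_torsion hn, fun h' => h.char_eq h' hn, fun h' => h.inj h' hn,
    fun h' => h.add h'⟩

/-- **Characters of torsion classes kill the parabolic and elliptic elements.** At a cusp and at an
elliptic point one compares the expansions of `h` and of `a = h^n` in a local coordinate. Proved in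
`H90Kappa`. -/
theorem rel_isPE {K : Type*} [Field K] [Algebra K ℂ] [IsAlgClosed K] [CharZero K] [Algebra ℚ K]
    {N : ℕ} [NeZero N] {n : ℕ} (hn : n ≠ 0) {c : Pic0 K (H90.FX K N)}
    {χ : Additive (Gamma0 N) →+ H90.Mu} (h : H90.Rel n c χ) : H4.IsPE χ :=
  h.isPE hn

/-- **Functions with a given character.** For every unitary character `χ` of `Γ₀(N)` which is trivial on
the stabiliser of `∞` there is a holomorphic function `h ≠ 0` on `ℍ` with `h(γz) = χ(γ) h(z)`, with at
most poles at all cusps. It is `E/Δ` with an Eisenstein series `E = ½ Σ χ(γ)⁻¹ (cz + d)⁻¹²` of weight 12;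
`χ` may have infinite order. This replaces Riemann-Roch on a compact surface. Proved in `H90TwistedEis`. -/
theorem exists_twisted_function (N : ℕ) (χ : Gamma0 N →* ℂˣ) (h1 : ∀ γ, ‖(χ γ : ℂ)‖ = 1)
    (hpar : ∀ γ : Gamma0 N, (γ : SL(2, ℤ)) 1 0 = 0 → χ γ = 1) :
    ∃ h : ℍ → ℂ, MDifferentiable 𝓘(ℂ) 𝓘(ℂ) h ∧
      (∀ (γ : Gamma0 N) (z : ℍ), h ((γ : SL(2, ℤ)) • z) = (χ γ : ℂ) * h z) ∧
      (∀ δ : SL(2, ℤ), IsBoundedAtImInfty
        (fun z => h (δ • z) * ModularForm.discriminant z)) ∧
      Filter.Tendsto (fun z => h z * ModularForm.discriminant z) atImInfty (nhds 1) :=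
  H90.exists_twisted_function N χ h1 hpar

/-- **Descent of Kummer functions.** Let `L0 ⊆ L1` be algebraically closed fields of characteristic 0 and
`F₀` a field of Laurent series over `ℚ` that contains a series of order 1, such that `L1·F₀` is a function
field of one variable over `L1` (`H3RR.IsFF`). If the `n`-torsion of its `Pic⁰` is finite, then each
`u ∈ L1·F₀` whose divisor is divisible by `n` is `u₀ wⁿ` with `u₀ ∈ L0·F₀`. So torsion classes do not
change between `Q̄` and `ℂ`. Proved in `H90Descent` (finite orbits under `Aut(L1/L0)` and one-dimensional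
spaces `L(D + mP)`). -/
theorem descent {L0 L1 : Type*} [Field L0] [Field L1] [Algebra L0 L1] [Algebra ℚ L0] [Algebra ℚ L1]
    [IsAlgClosed L0] [IsAlgClosed L1]
    {F₀ : IntermediateField ℚ (LaurentSeries ℚ)} [H3RR.IsFF L1 (laurentBaseChange L1 F₀)]
    (hinf : ∃ x ∈ F₀, x.order = 1) {n : ℕ} (hn : 0 < n)
    (hfin : Finite (Pic0.torsion L1 (laurentBaseChange L1 F₀) n))
    {u : laurentBaseChange L1 F₀} (hu : u ≠ 0)
    (hdiv : ∀ v : Place L1 (laurentBaseChange L1 F₀), (n : ℤ) ∣ v.ord u) :
    ∃ (u0 : laurentBaseChange L0 F₀) (w : laurentBaseChange L1 F₀), u0 ≠ 0 ∧ w ≠ 0 ∧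
      u = H90.baseIncl L0 L1 F₀ u0 * w ^ n :=
  H90.exists_descent hinf hn hfin hu hdiv

/-- **Extension of the constants** from `K` to `ℂ` (`H90.baseIncl`, on the coefficients of the series) keeps
good series good and does not change their values. Proved in `H90Surj`. -/
theorem good_over_complex {K : Type*} [Field K] [Algebra K ℂ] [IsAlgClosed K] [CharZero K]
    [Algebra ℚ K] {N : ℕ} [NeZero N] {x : H90.FX K N} (hx : H24.Good K N (x : LaurentSeries K)) :
    H24.Good ℂ N ((H90.baseIncl K ℂ (modularFunctionFieldFull N) x : H90.FX ℂ N) :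
      LaurentSeries ℂ) ∧
    H24.ev ℂ ((H90.baseIncl K ℂ (modularFunctionFieldFull N) x : H90.FX ℂ N) :
      LaurentSeries ℂ) = H24.ev K (x : LaurentSeries K) :=
  ⟨H90.good_baseIncl hx, H90.ev_baseIncl x⟩

/-- **Roots of quotients.** Let `f`, `g`, `U` be holomorphic on `ℍ`, `g ≠ 0`, `U ≠ 0` and `fⁿ = U gⁿ`. Then
`U` is the `n`-th power of a holomorphic function: its orders are divisible by `n`. Proved in `H90Surj`. -/
theorem root_of_quotient {n : ℕ} (hn : n ≠ 0) {U f g : ℍ → ℂ} (hU : MDifferentiable 𝓘(ℂ) 𝓘(ℂ) U)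
    (hf : MDifferentiable 𝓘(ℂ) 𝓘(ℂ) f) (hg : MDifferentiable 𝓘(ℂ) 𝓘(ℂ) g) (hU0 : U ≠ 0)
    (hg0 : g ≠ 0) (h : f ^ n = U * g ^ n) :
    ∃ h : ℍ → ℂ, MDifferentiable 𝓘(ℂ) 𝓘(ℂ) h ∧ h ^ n = U :=
  H90.exists_root_of_mul hn hU hf hg hU0 hg0 h

/-- **Surjectivity**: every character `φ` of `Γ₀(N)` with `n φ = 0` that kills the parabolic and elliptic
elements comes from a torsion class over `K` (any algebraically closed subfield of `ℂ`). Take `h` as in
`exists_twisted_function`; `hⁿ` is a modular function over `ℂ`, and its divisor is divisible by `n`: at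
every point and cusp `h` has a Laurent expansion in the local chart, of order divisible by the
ramification index. For this `φ` must be trivial on the parabolic and elliptic elements (dictionary
between places and charts: file `H96Chart`, definition `H90.PlaceDict`). By `descent`, `hⁿ = u wⁿ` with `u`
over `K` and `w` over `ℂ`; after multiplying with `n`-th powers of good series `u` is good, so it has a root
by `good_over_complex` and `root_of_quotient`, and the root has the character `φ`. Proved in `H90Surj`,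
`H90Bridge`. -/
theorem exists_class {K : Type*} [Field K] [Algebra K ℂ] [IsAlgClosed K] [CharZero K] [Algebra ℚ K]
    {N : ℕ} [NeZero N] {n : ℕ} (hn : n ≠ 0) (φ : Additive (Gamma0 N) →+ H90.Mu) (hφ : H4.IsPE φ)
    (hnφ : n • φ = 0) : ∃ c : Pic0 K (H90.FX K N), H90.Rel n c φ :=
  H90.exists_rel_of_isPE hn φ hφ hnφ

/-- **A Hecke correspondence on functions is a norm, and a norm is a product.** Let `a` be a good function
on `X₀(N)`, `β a = a(ℓτ)` and `N_α` the norm from `X₀(Nℓ)` to `X₀(N)` along `α(τ) = τ`. Then `N_α(β a)` is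
the product of the `a(rep x · τ)`, `x ∈ P¹(F_ℓ)`, and it is good. Proved in `H4NormEmb`, `H4NormForm`,
`H4GoodDiv`, `H4RelHecke`. -/
theorem norm_formula {K : Type*} [Field K] [Algebra K ℂ] [IsAlgClosed K] [CharZero K] [Algebra ℚ K]
    {N ℓ : ℕ} [NeZero N] [NeZero ℓ] [Fact ℓ.Prime] (hℓN : ¬ ℓ ∣ N) {a : H4.FN K N}
    (ha : H24.Good K N a.1) :
    H24.Good K N (H4.normAlpha K N ℓ (heckeBetaBar K N ℓ a)).1 ∧
      H24.ev K (H4.normAlpha K N ℓ (heckeBetaBar K N ℓ a)).1 =
        fun τ => ∏ x : OnePoint (ZMod ℓ), H24.ev K a.1 (H4.rep ℓ x • τ) :=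
  H4.good_normAlpha_beta hℓN ha

/-- **The Kummer relation is Hecke equivariant**: if `c` and `χ` correspond to each other, so do `T_ℓ c`
and `T_ℓ χ`. From `norm_formula` and `product_identity`. Proved in `H4RelHecke`. -/
theorem rel_hecke {K : Type*} [Field K] [Algebra K ℂ] [IsAlgClosed K] [CharZero K] [Algebra ℚ K]
    {N ℓ : ℕ} [NeZero N] [NeZero ℓ] [Fact ℓ.Prime] (hℓN : ¬ ℓ ∣ N) {n : ℕ}
    {c : Pic0 K (H90.FX K N)} {χ : Additive (Gamma0 N) →+ H90.Mu} (h : H90.Rel n c χ) :
    H90.Rel n (heckeOperatorAlong K N ℓ c) (H4.heckeHom hℓN χ) :=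
  H4.rel_hecke hℓN h

/-- **The Kummer bijection.** Over any algebraically closed `K ⊂ ℂ`, every class `c` with `n c = 0` is
related to exactly one character, and a character `χ` of `Γ₀(N)` is related to exactly one class if and
only if `n χ = 0` and `χ` kills the parabolic and elliptic elements. Together with the additivity in
`rel_unique`: the Kummer relation is the graph of an isomorphism between `J₀(N)[n]` and the group of these
characters. From `exists_character`, `rel_unique`, `rel_isPE` and `exists_class`. -/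
theorem kummer_bijection {K : Type*} [Field K] [Algebra K ℂ] [IsAlgClosed K] [CharZero K]
    [Algebra ℚ K] {N : ℕ} [NeZero N] {n : ℕ} (hn : n ≠ 0) :
    (∀ c : Pic0 K (H90.FX K N), n • c = 0 →
      ∃! χ : Additive (Gamma0 N) →+ H90.Mu, H90.Rel n c χ) ∧
    ∀ χ : Additive (Gamma0 N) →+ H90.Mu,
      H4.IsPE χ ∧ n • χ = 0 ↔ ∃! c : Pic0 K (H90.FX K N), H90.Rel n c χ :=
  ⟨fun _ hc => (H90.exists_rel hn hc).elim fun χ h => ⟨χ, h, fun _ h' => h'.char_eq h hn⟩,
    fun χ => ⟨fun h => (H90.exists_rel_of_isPE hn χ h.1 h.2).elim fun c hc =>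
      ⟨c, hc, fun _ h' => h'.inj hc hn⟩,
      fun h => h.exists.elim fun _ h' => ⟨h'.isPE hn, h'.char_torsion hn⟩⟩⟩

/-- **`J₀(N)[n]` is finite**, because `Γ₀(N)` is finitely generated. `JZero N` is `Pic⁰` of the function
field of `X₀(N)` over `Q̄` (`Fermat.Prelude`). Proved in `H90Exist`. -/
theorem finite_torsion {N : ℕ} [NeZero N] {n : ℕ} (hn : n ≠ 0) :
    {x : JZero N | n • x = 0}.Finite :=
  H90.finite_jzero N hn

/-- **Hecke operators act faithfully on the torsion of `J₀(N)`, up to a bounded error** (`HeckeFaithful`,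
written out). Let `S` contain the primes dividing `N`; `P` denotes polynomials with integral coefficients
in variables `T_ℓ`, `ℓ ∤ N`, `ℓ ∉ S` (`GoodPrimes N S`), `inclHecke N S P` its action on `J₀(N)` and
`evHecke N S P` its value in `heckeAlgebra N 2 S`. There are `c` and `u`, `p ∤ u`, such that for all `n`
and `P`: if `P` kills `J₀(N)[pⁿ]` then `u·P ∈ p^(n-c) heckeAlgebra N 2 S`. So a relation that holds on
`J₀(N)[pⁿ]` for all `n` holds on cusp forms. Proved in `H4Faithful`, `H4FaithfulJ`, `H90Faithful`; used in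
S29-S36. -/
theorem hecke_faithful (N : ℕ) [NeZero N] {S : Set ℕ} (hNS : ∀ q : ℕ, q.Prime → q ∣ N → q ∈ S)
    {p : ℕ} (hp : p.Prime) :
    letI := heckeModuleBar N
    ∃ c u : ℕ, ¬ p ∣ u ∧ ∀ (n : ℕ) (P : MvPolynomial (H31.GoodPrimes N S) ℤ),
      (∀ x : JZero N, p ^ n • x = 0 → H31.inclHecke N S P • x = 0) →
        ∃ y : CuspForm.heckeAlgebra N 2 S,
          (u : CuspForm.heckeAlgebra N 2 S) * H31.evHecke N S P =
            (p : CuspForm.heckeAlgebra N 2 S) ^ (n - c) * y :=
  H90.heckeFaithful_jzero N hNS hp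

end Fermat.Agent.Guide.Bridge

end
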