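import Mathlib
import Fermat.Agent.H21Prim

set_option autoImplicit false

open UpperHalfPlane hiding I
open CongruenceSubgroup Filter Topology ModularForm Complex ModularCurve
open scoped MatrixGroups Manifold ComplexConjugate Pointwise

local notation "𝕢" => Function.Periodic.qParam

namespace Fermat.Agent.H21

set_option linter.unusedSectionVars false

variable {N : ℕ} [NeZero N]

theorem conj_T_pow_mem (x : SL(2, ℤ)) : x * ModularGroup.T ^ N * x⁻¹ ∈ Gamma0 N := by
  have h1 : ModularGroup.T ^ N ∈ CongruenceSubgroup.Gamma N := by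
    rw [Gamma_mem]
    have := ModularGroup.coe_T_zpow (N : ℤ)
    rw [zpow_natCast] at this
    rw [this]
    simp
  have h2 : x * ModularGroup.T ^ N * x⁻¹ ∈ CongruenceSubgroup.Gamma N := (Gamma_normal N).conj_mem _ h1 x
  rw [Gamma0_mem]
  exact ((Gamma_mem).mp h2).2.2.1

theorem trace_conj_T_pow (x : SL(2, ℤ)) :
    (((x * ModularGroup.T ^ N * x⁻¹ : SL(2, ℤ)) : Matrix (Fin 2) (Fin 2) ℤ)).trace ^ 2 = 4 := by
  have : (((x * ModularGroup.T ^ N * x⁻¹ : SL(2, ℤ)) : Matrix (Fin 2) (Fin 2) ℤ)).trace = 2 := by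
    rw [Matrix.SpecialLinearGroup.coe_mul, Matrix.trace_mul_comm, ← Matrix.SpecialLinearGroup.coe_mul,
      ← mul_assoc, inv_mul_cancel, one_mul]
    have := ModularGroup.coe_T_zpow (N : ℤ)
    rw [zpow_natCast] at this
    rw [this]
    simp [Matrix.trace_fin_two]
  rw [this]; norm_num

theorem smul_T_pow_smul (x : SL(2, ℤ)) (w : ℍ) :
    x • (((N : ℕ) : ℝ) +ᵥ w) = (x * ModularGroup.T ^ N * x⁻¹) • x • w := by
  rw [← mul_smul]
  have : x * ModularGroup.T ^ N * x⁻¹ * x = x * ModularGroup.T ^ N := by group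
  rw [this, mul_smul]
  congr 1
  have := UpperHalfPlane.modular_T_zpow_smul w (N : ℤ)
  rw [zpow_natCast] at this
  rw [this]
  simp

/-- Maximum principle on `Γ₀(N) \ ℍ*`: a holomorphic function whose real part is
`Γ₀(N)`-invariant and which converges at all cusps is constant. -/
theorem eq_zero_of_re_invariant {G g : ℍ → ℂ} (hG : IsPrim G g)
    (hinv : ∀ γ ∈ Gamma0 N, ∃ c : ℂ, c.re = 0 ∧ ∀ z, G (γ • z) - G z = c)
    (hlim : ∀ δ : SL(2, ℤ), ∃ L : ℂ, Tendsto (fun w : ℍ => G (δ • w)) atImInfty (𝓝 L)) :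
    g = 0 := by
  have hN : (0 : ℝ) < (N : ℝ) := Nat.cast_pos.mpr (Nat.pos_of_ne_zero (NeZero.ne N))
  set E : SL(2, ℤ) → ℍ → ℂ := fun x w => cexp (G (x • w)) with hE
  have hper' : ∀ (x : SL(2, ℤ)) (w : ℍ), G (x • ((N : ℝ) +ᵥ w)) = G (x • w) := by
    intro x w
    obtain ⟨c, -, hc⟩ := hinv _ (conj_T_pow_mem (N := N) x)
    have h1 := period_eq_zero_of_parabolic hlim (trace_conj_T_pow (N := N) x) hc
    have h2 := hc (x • w)
    rw [← smul_T_pow_smul, h1] at h2
    exact sub_eq_zero.mp h2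
  have hper : ∀ x, Function.Periodic (E x ∘ ofComplex) (N : ℝ) := by
    intro x w
    by_cases hw : 0 < im w
    · have : 0 < im (w + (N : ℝ)) := by simp [hw]
      simp only [Function.comp_apply, ofComplex_apply_of_im_pos this, ofComplex_apply_of_im_pos hw, hE]
      rw [← hper' x ⟨w, hw⟩]
      congr 3
      ext
      simp [add_comm]
    · have h2 : im (w + (N : ℝ)) ≤ 0 := by simpa using hw
      simp only [Function.comp_apply, ofComplex_apply_of_im_nonpos h2,
        ofComplex_apply_of_im_nonpos (not_lt.mp hw)]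
  have hmd : ∀ x, MDiff (E x) := by
    intro x
    have h1 := (hG.comp_smul x)
    intro τ
    rw [UpperHalfPlane.mdifferentiableAt_iff]
    exact (h1 τ).differentiableAt.cexp
  have hbdd : ∀ x, IsBoundedAtImInfty (E x) := by
    intro x
    obtain ⟨L, hL⟩ := hlim x
    have : Tendsto (E x) atImInfty (𝓝 (cexp L)) := (continuous_exp.tendsto L).comp hL
    exact this.isBigO_one ℝ
  set c : SL(2, ℤ) → ℂ → ℂ := fun x => cuspFunction N (E x) with hc
  have hcd : ∀ x, DifferentiableOn ℂ (c x) (Metric.ball 0 1) := fun x =>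
    differentiableOn_cuspFunction_ball hN (hper x) (hmd x) (hbdd x)
  have hceq : ∀ x (τ : ℍ), c x (𝕢 N τ) = E x τ := fun x τ => eq_cuspFunction τ hN.ne' (hper x)
  -- coset representatives
  have : Finite (SL(2, ℤ) ⧸ Gamma0 N) := Subgroup.finite_quotient_of_finiteIndex
  set r : ℝ := Real.exp (-Real.pi / N) with hr
  have hr0 : 0 ≤ r := (Real.exp_pos _).le
  have hr1 : r < 1 := by
    rw [hr, Real.exp_lt_one_iff]
    exact div_neg_of_neg_of_pos (neg_lt_zero.mpr Real.pi_pos) hN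
  have hrep : ∀ δ : SL(2, ℤ), ∃ q : SL(2, ℤ) ⧸ Gamma0 N, ∀ w : ℍ, ‖E δ w‖ = ‖E (q.out)⁻¹ w‖ := by
    intro δ
    refine ⟨((δ⁻¹ : SL(2, ℤ)) : SL(2, ℤ) ⧸ Gamma0 N), fun w => ?_⟩
    obtain ⟨h, hh⟩ := QuotientGroup.mk_out_eq_mul (Gamma0 N) (δ⁻¹ : SL(2, ℤ))
    rw [hh, mul_inv_rev, inv_inv]
    simp only [hE, norm_exp]
    obtain ⟨c, hc0, hc⟩ := hinv (h : SL(2, ℤ))⁻¹ (inv_mem h.2)
    have := hc (δ • w)
    rw [mul_smul]
    have h2 : G ((h : SL(2, ℤ))⁻¹ • δ • w) = G (δ • w) + c := by linear_combination this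
    rw [h2, add_re, hc0, add_zero]
  -- the maximum over the compact part
  have hmax : ∀ q : SL(2, ℤ) ⧸ Gamma0 N, ∃ z ∈ Metric.closedBall (0 : ℂ) r,
      ∀ w ∈ Metric.closedBall (0 : ℂ) r, ‖c (q.out)⁻¹ w‖ ≤ ‖c (q.out)⁻¹ z‖ := by
    intro q
    obtain ⟨z, hz, hz'⟩ := (isCompact_closedBall (0 : ℂ) r).exists_isMaxOn
      (Metric.nonempty_closedBall.mpr hr0)
      (((hcd (q.out)⁻¹).continuousOn.mono (Metric.closedBall_subset_ball hr1)).norm)
    exact ⟨z, hz, fun w hw => hz' hw⟩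
  choose z hz hz' using hmax
  obtain ⟨q₀, hq₀⟩ := Finite.exists_max (fun q => ‖c (q.out)⁻¹ (z q)‖)
  set x₀ : SL(2, ℤ) := (q₀.out)⁻¹ with hx₀
  have hM : ∀ x : SL(2, ℤ), ∀ w ∈ Metric.ball (0 : ℂ) 1, w ≠ 0 → ‖c x w‖ ≤ ‖c x₀ (z q₀)‖ := by
    intro x w hw hw0
    have him := Function.Periodic.im_invQParam_pos_of_norm_lt_one hN (by simpa using hw) hw0
    set τ : ℍ := ⟨_, him⟩ with hτ
    have h1 : 𝕢 N (τ : ℂ) = w := Function.Periodic.qParam_right_inv hN.ne' hw0
    obtain ⟨σ, hσ⟩ := ModularGroup.exists_one_half_le_im_smul τ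
    obtain ⟨q, hq⟩ := hrep (x * σ⁻¹)
    have h2 : E x τ = E (x * σ⁻¹) (σ • τ) := by
      simp only [hE]
      congr 2
      rw [mul_smul, inv_smul_smul]
    have h3 : ‖𝕢 N ((σ • τ : ℍ) : ℂ)‖ ≤ r := by
      rw [Function.Periodic.norm_qParam, hr, Real.exp_le_exp]
      apply div_le_div_of_nonneg_right _ hN.le
      have : (1 / 2 : ℝ) ≤ ((σ • τ : ℍ) : ℂ).im := hσ
      nlinarith [Real.pi_pos]
    rw [← h1, hceq, h2, hq, ← hceq]
    exact (hz' q _ (by simpa using h3)).trans (hq₀ q)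
  have hM' : IsMaxOn (norm ∘ c x₀) (Metric.ball 0 1) (z q₀) := by
    intro w hw
    by_cases hw0 : w = 0
    · subst hw0
      exact hz' q₀ 0 (by simpa using hr0)
    · exact hM x₀ w hw hw0
  have hconst := eqOn_of_isPreconnected_of_isMaxOn_norm (convex_ball (0 : ℂ) 1).isPreconnected
    Metric.isOpen_ball (hcd x₀) (Metric.closedBall_subset_ball hr1 (hz q₀)) hM'
  have hEconst : ∀ τ : ℍ, cexp (G (x₀ • τ)) = c x₀ (z q₀) := by
    intro τ
    have h1 : E x₀ τ = c x₀ (𝕢 N τ) := (hceq x₀ τ).symm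
    have h2 := hconst (x := 𝕢 N τ) (by simpa using Function.Periodic.norm_qParam_lt_one hN τ.im_pos)
    exact h1.trans h2
  ext τ
  have h1 := (hG.comp_smul 1) τ
  have h2 : ∀ τ : ℍ, cexp (G τ) = c x₀ (z q₀) := by
    intro τ
    have := hEconst (x₀⁻¹ • τ)
    rwa [smul_inv_smul] at this
  have h3 := (hG τ).cexp
  have h4 : (fun x => cexp ((G ∘ ofComplex) x)) = fun _ => c x₀ (z q₀) := by
    ext x
    exact h2 _
  rw [h4] at h3
  have h5 := h3.unique (hasDerivAt_const _ _)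
  exact (mul_eq_zero.mp h5).resolve_left (exp_ne_zero _)

/-- the reflection `τ ↦ conj (F (-conj τ))`. -/
noncomputable def reflFun (F : ℍ → ℂ) : ℍ → ℂ := fun τ => conj (F (J • τ))

theorem IsPrim.reflFun {F f : ℍ → ℂ} (hF : IsPrim F f) : IsPrim (reflFun F) (-(reflFun f)) := by
  intro τ
  have h1 := (hF (J • τ)).conj_conj
  rw [coe_J_smul, map_neg, conj_conj] at h1
  have h2 : HasDerivAt (fun z : ℂ => -z) (-1) (τ : ℂ) := hasDerivAt_neg _
  have h3 := h1.comp (τ : ℂ) h2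
  have h4 : (H21.reflFun F ∘ ofComplex) =ᶠ[𝓝 (τ : ℂ)]
      ((conj ∘ (F ∘ ofComplex) ∘ conj) ∘ fun z : ℂ => -z) := by
    filter_upwards [isOpen_upperHalfPlaneSet.mem_nhds τ.im_pos] with w hw
    simp only [Function.comp_apply, H21.reflFun]
    congr 2
    ext
    rw [coe_J_smul, ofComplex_apply_of_im_pos hw, ofComplex_apply_of_im_pos (by simpa using hw)]
    simp
  have h5 := h3.congr_of_eventuallyEq h4
  have h6 : (-(H21.reflFun f)) τ = conj (f (J • τ)) * -1 := by
    simp [H21.reflFun]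
  rw [h6]
  exact h5

theorem J_smul_smul (γ : SL(2, ℤ)) (z : ℍ) : J • (γ • z) = (Period.jConjSL γ) • (J • z) := by
  have h : (J : GL (Fin 2) ℝ) * (γ : GL (Fin 2) ℝ) = ((Period.jConjSL γ : SL(2, ℤ)) : GL (Fin 2) ℝ) * J := by
    ext i j
    fin_cases i <;> fin_cases j <;>
    simp [Matrix.mul_apply, Fin.sum_univ_two, Period.jConjMat]
  have h1 : J • ((γ : GL (Fin 2) ℝ) • z) = ((Period.jConjSL γ : SL(2, ℤ)) : GL (Fin 2) ℝ) • (J • z) := by
    rw [← mul_smul, ← mul_smul, h]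
  exact h1

theorem tendsto_J_smul_atImInfty : Tendsto (fun w : ℍ => J • w) atImInfty atImInfty := by
  simp only [atImInfty, tendsto_comap_iff, Function.comp_def]
  have : ∀ w : ℍ, (J • w).im = w.im := by
    intro w
    have := congrArg Complex.im (coe_J_smul w)
    simpa using this
  simp only [this]
  exact tendsto_comap


/-- If `per(h₁)(γ) + per(h₂)(γ^ι) = 0` for all `γ`, then `h₁ = h₂ = 0`. -/
theorem eq_zero_of_period_add (h₁ h₂ : CuspForm (Gamma0 N) 2)
    (h : ∀ γ : Gamma0 N, periodMap N h₁ (Additive.ofMul γ) +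
      periodMap N h₂ (Additive.ofMul (Period.jConjGamma0 N γ)) = 0) : h₁ = 0 ∧ h₂ = 0 := by
  set H := prim h₁ with hH
  set K := reflFun (prim h₂) with hK
  have hHp : IsPrim H h₁ := prim_isPrim h₁
  have hKp : IsPrim K (-(reflFun h₂)) := (prim_isPrim h₂).reflFun
  have hHγ : ∀ (γ : Gamma0 N) (z : ℍ), H ((γ : SL(2, ℤ)) • z) - H z = periodMap N h₁ (Additive.ofMul γ) :=
    fun γ z => (periodMap_apply h₁ γ z).symm
  have hKγ : ∀ (γ : Gamma0 N) (z : ℍ), K ((γ : SL(2, ℤ)) • z) - K z =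
      - conj (periodMap N h₁ (Additive.ofMul γ)) := by
    intro γ z
    have e1 := h γ
    rw [periodMap_apply h₂ (Period.jConjGamma0 N γ) (J • z), Period.jConjGamma0_coe, ← J_smul_smul] at e1
    have e2 : prim h₂ (J • ((γ : SL(2, ℤ)) • z)) - prim h₂ (J • z) = - periodMap N h₁ (Additive.ofMul γ) := by
      linear_combination e1
    have e3 := congrArg conj e2
    rw [map_sub, map_neg] at e3
    exact e3
  have hHlim : ∀ δ : SL(2, ℤ), ∃ L : ℂ, Tendsto (fun w : ℍ => H (δ • w)) atImInfty (𝓝 L) :=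
    (prim_spec h₁).2.2.2
  have hKlim : ∀ δ : SL(2, ℤ), ∃ L : ℂ, Tendsto (fun w : ℍ => K (δ • w)) atImInfty (𝓝 L) := by
    intro δ
    obtain ⟨L, hL⟩ := (prim_spec h₂).2.2.2 (Period.jConjSL δ)
    refine ⟨conj L, ?_⟩
    have h1 : (fun w : ℍ => K (δ • w)) = fun w : ℍ => conj (prim h₂ (Period.jConjSL δ • (J • w))) := by
      ext w
      rw [← J_smul_smul]
      rfl
    rw [h1]
    exact (continuous_conj.tendsto L).comp (hL.comp tendsto_J_smul_atImInfty)
  have key1 : (h₁ : ℍ → ℂ) + (-(reflFun h₂)) = 0 := by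
    refine eq_zero_of_re_invariant (N := N) (hHp.add hKp) (fun γ hγ => ?_) (fun δ => ?_)
    · refine ⟨periodMap N h₁ (Additive.ofMul ⟨γ, hγ⟩) - conj (periodMap N h₁ (Additive.ofMul ⟨γ, hγ⟩)), by simp, fun z => ?_⟩
      have e1 := hHγ ⟨γ, hγ⟩ z
      have e2 := hKγ ⟨γ, hγ⟩ z
      simp only [Pi.add_apply]
      linear_combination e1 + e2
    · obtain ⟨L, hL⟩ := hHlim δ
      obtain ⟨L', hL'⟩ := hKlim δ
      exact ⟨L + L', hL.add hL'⟩
  have key2 : Complex.I • ((h₁ : ℍ → ℂ) - (-(reflFun h₂))) = 0 := by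
    refine eq_zero_of_re_invariant (N := N) ((hHp.sub hKp).const_smul Complex.I) (fun γ hγ => ?_) (fun δ => ?_)
    · refine ⟨Complex.I * (periodMap N h₁ (Additive.ofMul ⟨γ, hγ⟩) + conj (periodMap N h₁ (Additive.ofMul ⟨γ, hγ⟩))), by simp, fun z => ?_⟩
      have e1 := hHγ ⟨γ, hγ⟩ z
      have e2 := hKγ ⟨γ, hγ⟩ z
      simp only [Pi.smul_apply, Pi.sub_apply, smul_eq_mul]
      linear_combination Complex.I * e1 - Complex.I * e2
    · obtain ⟨L, hL⟩ := hHlim δ
      obtain ⟨L', hL'⟩ := hKlim δ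
      exact ⟨Complex.I • (L - L'), (hL.sub hL').const_smul _⟩
  have key3 : (h₁ : ℍ → ℂ) - (-(reflFun h₂)) = 0 := by
    have := congrArg (fun f => (-Complex.I) • f) key2
    simpa [smul_smul] using this
  have a1 : (h₁ : ℍ → ℂ) = 0 := by
    ext τ
    have b1 := congrFun key1 τ
    have b2 := congrFun key3 τ
    simp only [Pi.add_apply, Pi.sub_apply, Pi.zero_apply] at b1 b2 ⊢
    linear_combination (b1 + b2) / 2
  have a2 : (h₂ : ℍ → ℂ) = 0 := by
    ext τ
    have b1 := congrFun key1 (J • τ)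
    have b2 := congrFun key3 (J • τ)
    simp only [Pi.add_apply, Pi.sub_apply, Pi.zero_apply, Pi.neg_apply, reflFun] at b1 b2 ⊢
    have b3 : conj (h₂ (J • J • τ)) = 0 := by linear_combination (b2 - b1) / 2
    have b4 : (J • J • τ : ℍ) = τ := by rw [← mul_smul, ← sq, J_sq, one_smul]
    rw [b4] at b3
    simpa using b3
  exact ⟨DFunLike.coe_injective a1, DFunLike.coe_injective a2⟩

theorem periodHomPair_injective : Function.Injective (periodHomPair N) := by
  rw [injective_iff_map_eq_zero]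
  rintro ⟨f, g⟩ hfg
  rw [periodHomPair_apply] at hfg
  obtain ⟨pml, hpml⟩ := existsPeriodMapLinear (N := N)
  have h1 : ∀ γ : Gamma0 N, periodMap N (f + g) (Additive.ofMul γ) +
      periodMap N (f - g) (Additive.ofMul (Period.jConjGamma0 N γ)) = 0 := by
    intro γ
    have e := DFunLike.congr_fun hfg (Additive.ofMul γ)
    simp only [AddMonoidHom.add_apply, AddMonoidHom.sub_apply, Period.charInvolution_apply, AddMonoidHom.zero_apply,
      toMul_ofMul] at e
    rw [← hpml, ← hpml, map_add, map_sub, hpml, hpml]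
    simp only [AddMonoidHom.add_apply, AddMonoidHom.sub_apply]
    linear_combination e
  obtain ⟨h2, h3⟩ := eq_zero_of_period_add _ _ h1
  have h4 : f = g := sub_eq_zero.mp h3
  subst h4
  have h5 : (2 : ℂ) • f = 0 := by rw [two_smul]; exact h2
  have h6 : f = 0 := (smul_eq_zero.mp h5).resolve_left two_ne_zero
  simp [h6]

theorem finiteDimensional_cuspForm [FiniteDimensional ℂ (Period.parabolicHoms ℂ (Gamma0 N) ℂ)] :
    FiniteDimensional ℂ (CuspForm (Gamma0 N) 2) := by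
  have h1 : Function.Injective ((periodHomPair N).codRestrict (Period.parabolicHoms ℂ (Gamma0 N) ℂ)
      (fun x => range_le (LinearMap.mem_range_self _ x))) := by
    intro x y hxy
    exact periodHomPair_injective (congrArg Subtype.val hxy)
  have h2 : FiniteDimensional ℂ (CuspForm (Gamma0 N) 2 × CuspForm (Gamma0 N) 2) :=
    Module.Finite.of_injective _ h1
  exact Module.Finite.of_surjective (LinearMap.fst ℂ _ (CuspForm (Gamma0 N) 2)) LinearMap.fst_surjective

theorem finrank_range_periodHomPair [FiniteDimensional ℂ (CuspForm (Gamma0 N) 2)] :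
    Module.finrank ℂ (LinearMap.range (periodHomPair N)) = 2 * Module.finrank ℂ (CuspForm (Gamma0 N) 2) := by
  rw [LinearMap.finrank_range_of_inj (periodHomPair_injective (N := N)), Module.finrank_prod]
  ring

/-- `2 dim S₂ ≤ dim Hom_par`. -/
theorem two_mul_finrank_le [FiniteDimensional ℂ (Period.parabolicHoms ℂ (Gamma0 N) ℂ)] :
    2 * Module.finrank ℂ (CuspForm (Gamma0 N) 2) ≤
      Module.finrank ℂ (Period.parabolicHoms ℂ (Gamma0 N) ℂ) := by
  have := finiteDimensional_cuspForm (N := N)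
  rw [← finrank_range_periodHomPair]
  exact Submodule.finrank_mono (range_le (N := N))

theorem eichlerShimura_of_le [FiniteDimensional ℂ (Period.parabolicHoms ℂ (Gamma0 N) ℂ)]
    (h : Module.finrank ℂ (Period.parabolicHoms ℂ (Gamma0 N) ℂ) ≤
      2 * Module.finrank ℂ (CuspForm (Gamma0 N) 2)) :
    Function.Injective (periodHomPair N)
      ∧ LinearMap.range (periodHomPair N) = Period.parabolicHoms ℂ (Gamma0 N) ℂ := by
  have := finiteDimensional_cuspForm (N := N)
  refine ⟨periodHomPair_injective, ?_⟩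
  apply Submodule.eq_of_le_of_finrank_le (range_le (N := N))
  rwa [finrank_range_periodHomPair]

end Fermat.Agent.H21
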