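import Fermat.Agent.H4TransferPE
import Fermat.Agent.H21Prim
import Fermat.Agent.H21Inj
import Fermat.Prelude.Def_CuspForm_HeckeAlgebra

set_option autoImplicit false

/-!
# Periods of weight two cusp forms and Hecke operators (helper4, KummerBridge)

`periodMap_heckeTLin : periodMap N (T_ℓ f) = heckeHom (periodMap N f)`.
-/

open CongruenceSubgroup UpperHalfPlane ModularForm ModularCurve
open scoped MatrixGroups Manifold

namespace Fermat.Agent.H4

open Fermat.Agent.H21

noncomputable section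

/-- chain rule for primitives under an element of `GL₂(ℝ)` of positive determinant. -/
theorem isPrim_comp_smul {G g : ℍ → ℂ} (hG : IsPrim G g) (δ : GL (Fin 2) ℝ)
    (hdet : 0 < δ.val.det) :
    IsPrim (fun τ => G (δ • τ)) (g ∣[(2 : ℤ)] δ) := by
  intro τ
  have h1 := (hasStrictDerivAt_smul hdet τ).hasDerivAt
  have h2 : HasDerivAt (G ∘ ofComplex) (g (δ • τ)) (↑(δ • ofComplex (τ : ℂ))) := by
    simpa [ofComplex_apply] using hG (δ • τ)
  have h3 := h2.comp (τ : ℂ) h1
  have h4 : ((fun τ => G (δ • τ)) ∘ ofComplex) =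
      (G ∘ ofComplex) ∘ (fun w : ℂ => (↑(δ • ofComplex w) : ℂ)) := by
    ext w
    simp [ofComplex_apply]
  rw [h4]
  have h5 : (g ∣[(2 : ℤ)] δ) τ = g (δ • τ) * ((δ.val.det : ℂ) / denom δ τ ^ 2) := by
    rw [ModularForm.slash_apply, UpperHalfPlane.σ, if_pos (by
      rwa [Matrix.GeneralLinearGroup.val_det_apply])]
    rw [Matrix.GeneralLinearGroup.val_det_apply, abs_of_pos hdet, zpow_neg]
    norm_num
    rw [div_eq_mul_inv, mul_assoc]
  rw [h5]
  exact h3

theorem isPrim_sum {ι : Type*} (s : Finset ι) {F h : ι → ℍ → ℂ} (H : ∀ i ∈ s, IsPrim (F i) (h i)) :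
    IsPrim (fun τ => ∑ i ∈ s, F i τ) (fun τ => ∑ i ∈ s, h i τ) := by
  intro τ
  have : ((fun τ => ∑ i ∈ s, F i τ) ∘ ofComplex) = fun w => ∑ i ∈ s, (F i ∘ ofComplex) w := rfl
  rw [this]
  exact HasDerivAt.fun_sum fun i hi => H i hi τ

variable {N ℓ : ℕ} [Fact ℓ.Prime]

lemma det_rep_pos (x : OnePoint (ZMod ℓ)) : 0 < (rep ℓ x).val.det := by
  rw [← Matrix.GeneralLinearGroup.val_det_apply]
  induction x using OnePoint.rec with
  | infty => exact det_heckeDiagMatrix_pos ℓ
  | coe j => exact det_heckeMatrix_pos ℓ j.val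

/-- The primitive of `T_ℓ f`. -/
theorem isPrim_heckeT {F f : ℍ → ℂ} (hF : IsPrim F f) :
    IsPrim (fun τ => ∑ x : OnePoint (ZMod ℓ), F (rep ℓ x • τ)) (heckeT 2 ℓ f) := by
  haveI : NeZero ℓ := ⟨(Fact.out : ℓ.Prime).ne_zero⟩
  rw [P2MW.S_ModularForm_heckeT_slash_eq_self_of_mem_Gamma0.ModularForm.HeckeSlashInvariance.heckeT_eq_sum_onePoint]
  have := isPrim_sum (Finset.univ : Finset (OnePoint (ZMod ℓ)))
    (F := fun x τ => F (rep ℓ x • τ)) (h := fun x => f ∣[(2 : ℤ)] rep ℓ x)
    (fun x _ => isPrim_comp_smul hF (rep ℓ x) (det_rep_pos x))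
  convert this using 1
  ext τ
  simp

/-- **`T_ℓ` and the period map commute.** -/
theorem periodMap_heckeTLin (hℓN : ¬ ℓ ∣ N) (f : CuspForm (Gamma0 N) 2) :
    periodMap N (CuspForm.heckeTLin 2 (Fact.out : ℓ.Prime) hℓN f) =
      heckeHom hℓN (periodMap N f) := by
  haveI : NeZero N := ⟨fun h => hℓN (h ▸ dvd_zero ℓ)⟩
  set g := CuspForm.heckeTLin 2 (Fact.out : ℓ.Prime) hℓN f with hg
  have hgf : (g : ℍ → ℂ) = heckeT 2 ℓ f := rfl
  obtain ⟨c, hc⟩ := IsPrim.exists_sub_const (prim_isPrim g)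
    (hgf ▸ isPrim_heckeT (prim_isPrim f) :
      IsPrim (fun τ => ∑ x : OnePoint (ZMod ℓ), prim f (rep ℓ x • τ)) g)
  refine AddMonoidHom.ext fun γ => ?_
  obtain ⟨γ, rfl⟩ := Additive.ofMul.surjective γ
  have h1 := sum_rep_smul hℓN (prim f) (periodMap N f)
    (fun γ τ => by rw [periodMap_apply f γ τ]; ring) γ UpperHalfPlane.I
  rw [periodMap_apply g γ UpperHalfPlane.I]
  have h2 := hc ((γ : SL(2, ℤ)) • UpperHalfPlane.I)
  have h3 := hc UpperHalfPlane.I
  linear_combination h2 - h3 + h1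

/-- elements of trace of absolute value `< 2` have finite order -/
lemma pow_twelve_eq_one (γ : SL(2, ℤ)) (h : (γ : Matrix (Fin 2) (Fin 2) ℤ).trace ^ 2 < 4) :
    γ ^ 12 = 1 := by
  set M : Matrix (Fin 2) (Fin 2) ℤ := (γ : Matrix (Fin 2) (Fin 2) ℤ) with hM
  have hch : M ^ 2 = M.trace • M - 1 := by
    have h1 := Matrix.aeval_self_charpoly M
    rw [Matrix.charpoly_fin_two, (show M.det = 1 from γ.det_coe)] at h1
    simp only [map_add, map_sub, map_pow, Polynomial.aeval_X, map_mul, Polynomial.aeval_C,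
      map_one] at h1
    rw [Algebra.algebraMap_eq_smul_one, smul_mul_assoc, one_mul] at h1
    rw [eq_sub_iff_add_eq, ← sub_eq_zero, ← h1]
    abel
  have ht : M.trace = -1 ∨ M.trace = 0 ∨ M.trace = 1 := by
    have h1 : -2 < M.trace := by nlinarith
    have h2 : M.trace < 2 := by nlinarith
    omega
  have key : M ^ 12 = 1 := by
    rcases ht with ht | ht | ht <;> rw [ht] at hch
    · have h3 : M ^ 3 = 1 := by
        rw [pow_succ, hch, sub_mul, smul_mul_assoc, ← pow_two, hch]
        simp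
      rw [show 12 = 3 * 4 from rfl, pow_mul, h3, one_pow]
    · have h3 : M ^ 4 = 1 := by
        rw [show 4 = 2 * 2 from rfl, pow_mul, hch]
        simp
      rw [show 12 = 4 * 3 from rfl, pow_mul, h3, one_pow]
    · have h3 : M ^ 3 = -1 := by
        rw [pow_succ, hch, sub_mul, smul_mul_assoc, ← pow_two, hch]
        simp
      rw [show 12 = 3 * 4 from rfl, pow_mul, h3, Even.neg_one_pow (by decide)]
  apply Subtype.ext
  rw [Matrix.SpecialLinearGroup.coe_pow, Matrix.SpecialLinearGroup.coe_one]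
  exact key

/-- The period map of a cusp form kills parabolic and elliptic elements. -/
theorem isPE_periodMap [NeZero N] (f : CuspForm (Gamma0 N) 2) : IsPE (periodMap N f) := by
  intro γ hγ
  rcases hγ.lt_or_eq with h | h
  · have h1 : γ ^ 12 = 1 := by
      apply Subtype.ext
      push_cast
      exact pow_twelve_eq_one _ h
    have h2 : (12 : ℕ) • periodMap N f (Additive.ofMul γ) = 0 := by
      rw [← map_nsmul, ← ofMul_pow, h1, ofMul_one, map_zero]
    simpa using h2
  · exact Period.mem_parabolicHoms_iff.1 (periodMap_mem_parabolicHoms f) γ h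

theorem periodMap_add' [NeZero N] (f g : CuspForm (Gamma0 N) 2) :
    periodMap N (f + g) = periodMap N f + periodMap N g := by
  refine AddMonoidHom.ext fun γ => ?_
  obtain ⟨γ, rfl⟩ := Additive.ofMul.surjective γ
  rw [periodMap_apply _ _ UpperHalfPlane.I]
  simp only [AddMonoidHom.add_apply, periodMap_apply _ _ UpperHalfPlane.I, prim_add, Pi.add_apply]
  ring

theorem periodMap_smul' [NeZero N] (c : ℂ) (f : CuspForm (Gamma0 N) 2) :
    periodMap N (c • f) = c • periodMap N f := by
  refine AddMonoidHom.ext fun γ => ?_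
  obtain ⟨γ, rfl⟩ := Additive.ofMul.surjective γ
  rw [periodMap_apply _ _ UpperHalfPlane.I]
  simp only [AddMonoidHom.smul_apply, periodMap_apply _ _ UpperHalfPlane.I, prim_smul,
    Pi.smul_apply, smul_eq_mul]
  ring

theorem periodMap_zero' [NeZero N] : periodMap N (0 : CuspForm (Gamma0 N) 2) = 0 := by
  have := periodMap_smul' (N := N) 0 0
  simpa using this

theorem periodMap_eq_zero_iff [NeZero N] (f : CuspForm (Gamma0 N) 2) : periodMap N f = 0 ↔ f = 0 := by
  constructor
  · intro h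
    have h1 : periodHomPair N (f, 0) = periodHomPair N (0, 0) := by
      rw [periodHomPair_apply, periodHomPair_apply, h, periodMap_zero']
    have := periodHomPair_injective h1
    exact congrArg Prod.fst this
  · rintro rfl
    exact periodMap_zero'

end

end Fermat.Agent.H4
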