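import Fermat.Agent.H4TransferPE
import Fermat.Agent.H4Periods

/-!
# Non-Eisenstein classes kill the parabolic elements (MODLIFT, ML-EA, helper4)

For a prime `ℓ ≡ 1 mod N`, `T_ℓ φ (γ) = (1 + ℓ) φ (γ)` for `γ` with `(trace γ)² = 4` and `φ` with
values in a torsion free group.
-/

set_option autoImplicit false

noncomputable section

open CongruenceSubgroup UpperHalfPlane Matrix.SpecialLinearGroup ModularGroup
open scoped MatrixGroups

namespace Fermat.Agent.H4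

/-- elements of `SL(2, ℤ)` of trace `2` are conjugate to translations. -/
theorem exists_conj_T (γ : SL(2, ℤ)) (h : (γ : Matrix (Fin 2) (Fin 2) ℤ).trace = 2) :
    ∃ (g : SL(2, ℤ)) (k : ℤ), γ = g * T ^ k * g⁻¹ := by
  have hdet : γ 0 0 * γ 1 1 - γ 0 1 * γ 1 0 = 1 := by
    have := γ.det_coe
    rwa [Matrix.det_fin_two] at this
  rw [Matrix.trace_fin_two] at h
  have h' : γ 0 0 + γ 1 1 = 2 := h
  suffices H : ∃ δ : SL(2, ℤ), (δ⁻¹ * γ * δ) 1 0 = 0 by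
    obtain ⟨δ, hδ⟩ := H
    set M := δ⁻¹ * γ * δ with hM
    have htr : M 0 0 + M 1 1 = 2 := by
      have h1 : (M : Matrix (Fin 2) (Fin 2) ℤ).trace = 2 := by
        rw [hM, Matrix.SpecialLinearGroup.coe_mul, Matrix.trace_mul_comm,
          ← Matrix.SpecialLinearGroup.coe_mul, ← mul_assoc, mul_inv_cancel, one_mul,
          Matrix.trace_fin_two]
        exact h'
      rwa [Matrix.trace_fin_two] at h1
    have hdM : M 0 0 * M 1 1 = 1 := by
      have := M.det_coe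
      rw [Matrix.det_fin_two, hδ, mul_zero, sub_zero] at this
      exact this
    have h3 : (M 0 0 - 1) ^ 2 = 0 := by
      have : M 1 1 = 2 - M 0 0 := by linarith
      rw [this] at hdM
      linear_combination -hdM
    have h4 : M 0 0 = 1 := by
      have := pow_eq_zero_iff (two_ne_zero) |>.mp h3
      linarith
    have h5 : M 1 1 = 1 := by linarith
    refine ⟨δ, M 0 1, ?_⟩
    have h6 : M = T ^ (M 0 1) := by
      ext i j
      rw [coe_T_zpow]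
      fin_cases i <;> fin_cases j <;> simp [h4, h5, hδ]
    rw [← h6, hM]
    group
  by_cases hc : γ 1 0 = 0
  · exact ⟨1, by simpa using hc⟩
  have hg : 0 < Int.gcd (γ 0 0 - 1) (γ 1 0) := Int.gcd_pos_of_ne_zero_right _ hc
  obtain ⟨p, q, hpq, hp, hq⟩ := Int.exists_gcd_one hg
  set g : ℤ := (Int.gcd (γ 0 0 - 1) (γ 1 0) : ℤ) with hgdef
  have hg0 : g ≠ 0 := by rw [hgdef]; exact_mod_cast hg.ne'
  obtain ⟨δ, h0, h1⟩ := (Int.isCoprime_iff_gcd_eq_one.mpr hpq).exists_SL2_col 0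
  refine ⟨δ, ?_⟩
  have e1 : γ 0 0 * p + γ 0 1 * q = p := by
    apply mul_right_cancel₀ hg0
    have : γ 0 0 * (p * g) + γ 0 1 * (q * g) = (p * g) := by
      rw [← hp, ← hq]
      linear_combination (γ 0 0) * h' - hdet
    linear_combination this
  have e2 : γ 1 0 * p + γ 1 1 * q = q := by
    apply mul_right_cancel₀ hg0
    have : γ 1 0 * (p * g) + γ 1 1 * (q * g) = (q * g) := by
      rw [← hp, ← hq]
      linear_combination (γ 1 0) * h'
    linear_combination this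
  have : (δ⁻¹ * γ * δ) 1 0 = -(δ 1 0) * (γ 0 0 * δ 0 0 + γ 0 1 * δ 1 0) + δ 0 0 * (γ 1 0 * δ 0 0 + γ 1 1 * δ 1 0) := by
    simp [Matrix.SpecialLinearGroup.coe_mul, Matrix.SpecialLinearGroup.coe_inv, Matrix.mul_apply, Fin.sum_univ_two, Matrix.adjugate_fin_two, Matrix.vecMul, dotProduct]
    ring
  rw [this, h0, h1, e1, e2]
  ring

variable {N ℓ : ℕ} [Fact ℓ.Prime]

/-- the upper right entry of the representative -/
def shiftOf (x : OnePoint (ZMod ℓ)) : ℤ := x.elim 0 (fun j => (j.val : ℤ))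

/-- `ℓ · T^m` exponent: `rep y T^(ℓ m) = T^(ratio y * m) rep y` -/
def ratioOf (ℓ : ℕ) (x : OnePoint (ZMod ℓ)) : ℤ := x.elim ((ℓ : ℤ) ^ 2) (fun _ => 1)

lemma exists_delta (g : SL(2, ℤ)) (x : OnePoint (ZMod ℓ)) :
    ∃ δ : SL(2, ℤ), rep ℓ x * mapGL ℝ g = mapGL ℝ δ * rep ℓ (act g x) := by
  obtain ⟨g', -, h⟩ :=
    P2MW.S_ModularForm_heckeT_slash_eq_self_of_mem_Gamma0.ModularForm.HeckeSlashInvariance.heckeRep_mul
      (N := 1) (p := ℓ) (fun h => (Fact.out : ℓ.Prime).one_lt.ne' (Nat.dvd_one.mp h)) g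
      (by simp) x
  exact ⟨g', h⟩

lemma val_mapGL_T (n : ℤ) :
    ((mapGL ℝ (T ^ n) : GL (Fin 2) ℝ) : Matrix (Fin 2) (Fin 2) ℝ) = !![1, (n : ℝ); 0, 1] := by
  rw [mapGL_coe_matrix]
  ext i j
  fin_cases i <;> fin_cases j <;> simp [coe_T_zpow, -map_zpow]

lemma rep_mul_T (y : OnePoint (ZMod ℓ)) (m : ℤ) :
    rep ℓ y * mapGL ℝ (T ^ ((ℓ : ℤ) * m)) = mapGL ℝ (T ^ (ratioOf ℓ y * m)) * rep ℓ y := by
  have hℓ : ℓ ≠ 0 := (Fact.out : ℓ.Prime).ne_zero
  induction y using OnePoint.rec with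
  | infty =>
    rw [rep_infty]
    apply Units.ext
    simp only [Units.val_mul]
    rw [ModularForm.val_heckeDiagMatrix hℓ, val_mapGL_T, val_mapGL_T]
    ext i j
    fin_cases i <;> fin_cases j <;>
      simp [Matrix.mul_apply, Fin.sum_univ_two, ratioOf] <;> ring
  | coe j =>
    rw [rep_coe]
    apply Units.ext
    simp only [Units.val_mul]
    rw [ModularForm.val_heckeMatrix hℓ, val_mapGL_T, val_mapGL_T]
    ext i j'
    fin_cases i <;> fin_cases j' <;>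
      simp [Matrix.mul_apply, Fin.sum_univ_two, ratioOf] <;> ring

lemma val_rep_lower (x : OnePoint (ZMod ℓ)) :
    (rep ℓ x : Matrix (Fin 2) (Fin 2) ℝ) 1 0 = 0 := by
  have hℓ : ℓ ≠ 0 := (Fact.out : ℓ.Prime).ne_zero
  induction x using OnePoint.rec with
  | infty => rw [rep_infty, ModularForm.val_heckeDiagMatrix hℓ]; simp
  | coe j => rw [rep_coe, ModularForm.val_heckeMatrix hℓ]; simp

/-- `δ T^(shift y) g⁻¹ ∈ Γ₀(N)` if `ℓ ≡ 1 mod N` and `α_x g = δ α_y`. -/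
lemma delta_mem (h1 : (N : ℤ) ∣ (ℓ : ℤ) - 1) {g δ : SL(2, ℤ)} {x y : OnePoint (ZMod ℓ)}
    (h : rep ℓ x * mapGL ℝ g = mapGL ℝ δ * rep ℓ y) :
    δ * T ^ (shiftOf y) * g⁻¹ ∈ Gamma0 N := by
  have hℓ : ℓ ≠ 0 := (Fact.out : ℓ.Prime).ne_zero
  rw [Gamma0_mem, ZMod.intCast_zmod_eq_zero_iff_dvd]
  have hent : (δ * T ^ (shiftOf y) * g⁻¹) 1 0 =
      δ 1 0 * g 1 1 - (shiftOf y * δ 1 0 + δ 1 1) * g 1 0 := by
    simp [Matrix.SpecialLinearGroup.coe_mul, Matrix.SpecialLinearGroup.coe_inv, Matrix.mul_apply,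
      Fin.sum_univ_two, Matrix.adjugate_fin_two, coe_T_zpow]
    ring
  rw [hent]
  have e0 := congrArg (fun m : GL (Fin 2) ℝ => (m : Matrix (Fin 2) (Fin 2) ℝ) 1 0) h
  have e1 := congrArg (fun m : GL (Fin 2) ℝ => (m : Matrix (Fin 2) (Fin 2) ℝ) 1 1) h
  simp only [Units.val_mul, Matrix.mul_apply, Fin.sum_univ_two] at e0 e1
  obtain ⟨c, hc⟩ := h1
  induction x using OnePoint.rec with
  | infty =>
    rw [rep_infty, ModularForm.val_heckeDiagMatrix hℓ] at e0 e1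
    induction y using OnePoint.rec with
    | infty =>
      rw [rep_infty, ModularForm.val_heckeDiagMatrix hℓ] at e0 e1
      simp at e0 e1
      have e0' : g 1 0 = δ 1 0 * ℓ := by exact_mod_cast e0
      have e1' : g 1 1 = δ 1 1 := by exact_mod_cast e1
      refine ⟨-c * (δ 1 0 * δ 1 1), ?_⟩
      have hs : shiftOf (OnePoint.infty : OnePoint (ZMod ℓ)) = 0 := rfl
      rw [hs, e0', e1']
      linear_combination (-(δ 1 0 * δ 1 1)) * hc
    | coe j =>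
      rw [rep_coe, ModularForm.val_heckeMatrix hℓ] at e0 e1
      simp at e0 e1
      have e0' : g 1 0 = δ 1 0 := by exact_mod_cast e0
      have e1' : g 1 1 = δ 1 0 * j.val + δ 1 1 * ℓ := by
        have : ((g 1 1 : ℤ) : ℝ) = ((δ 1 0 * j.val + δ 1 1 * ℓ : ℤ) : ℝ) := by
          push_cast
          convert e1 using 3
          simp
        exact_mod_cast this
      refine ⟨c * (δ 1 0 * δ 1 1), ?_⟩
      have hs : shiftOf (j : OnePoint (ZMod ℓ)) = j.val := rfl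
      rw [hs, e0', e1']
      linear_combination (δ 1 0 * δ 1 1) * hc
  | coe i =>
    rw [rep_coe, ModularForm.val_heckeMatrix hℓ] at e0 e1
    induction y using OnePoint.rec with
    | infty =>
      rw [rep_infty, ModularForm.val_heckeDiagMatrix hℓ] at e0 e1
      simp [hℓ] at e0 e1
      have hℓR : (ℓ : ℝ) ≠ 0 := by exact_mod_cast hℓ
      have e0' : δ 1 0 = g 1 0 := by
        have : ((δ 1 0 : ℤ) : ℝ) = ((g 1 0 : ℤ) : ℝ) := by
          apply mul_left_cancel₀ hℓR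
          linarith
        exact_mod_cast this
      have e1' : δ 1 1 = ℓ * g 1 1 := by exact_mod_cast e1.symm
      refine ⟨-c * (g 1 0 * g 1 1), ?_⟩
      have hs : shiftOf (OnePoint.infty : OnePoint (ZMod ℓ)) = 0 := rfl
      rw [hs, e0', e1']
      linear_combination (-(g 1 0 * g 1 1)) * hc
    | coe j =>
      rw [rep_coe, ModularForm.val_heckeMatrix hℓ] at e0 e1
      simp at e0 e1
      have hℓZ : (ℓ : ℤ) ≠ 0 := by exact_mod_cast hℓ
      have e0' : δ 1 0 = ℓ * g 1 0 := by exact_mod_cast e0.symm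
      have e1'' : ℓ * g 1 1 = δ 1 0 * j.val + δ 1 1 * ℓ := by
        have : (((ℓ : ℤ) * g 1 1 : ℤ) : ℝ) = ((δ 1 0 * j.val + δ 1 1 * ℓ : ℤ) : ℝ) := by
          push_cast
          convert e1 using 3
          simp
        exact_mod_cast this
      have e1' : δ 1 1 = g 1 1 - g 1 0 * j.val := by
        apply mul_left_cancel₀ hℓZ
        rw [e0'] at e1''
        linear_combination (-1 : ℤ) * e1''
      refine ⟨c * (g 1 0 * (g 1 1 - g 1 0 * j.val)), ?_⟩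
      have hs : shiftOf (j : OnePoint (ZMod ℓ)) = j.val := rfl
      rw [hs, e1', e0']
      linear_combination (g 1 0 * (g 1 1 - g 1 0 * j.val)) * hc

lemma act_T_pow (m : ℤ) (x : OnePoint (ZMod ℓ)) : act (T ^ ((ℓ : ℤ) * m)) x = x := by
  have : redMat ℓ (T ^ ((ℓ : ℤ) * m)) = 1 := by
    ext i j
    fin_cases i <;> fin_cases j <;>
      simp [P2MW.S_ModularForm_heckeT_slash_eq_self_of_mem_Gamma0.ModularForm.HeckeSlashInvariance.redMatrix,
        coe_T_zpow]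
  rw [act_apply, this, one_smul]

/-- the cocycle of `γ ^ ℓ` for `γ = g T^k g⁻¹`. -/
lemma coc_pow_eq (hℓN : ¬ ℓ ∣ N) (h1 : (N : ℤ) ∣ (ℓ : ℤ) - 1) (γ : Gamma0 N) (g : SL(2, ℤ)) (k : ℤ)
    (hγ : (γ : SL(2, ℤ)) = g * T ^ k * g⁻¹) (x : OnePoint (ZMod ℓ)) :
    ∃ ε : Gamma0 N, coc hℓN (γ ^ ℓ) x = ε * γ ^ (ratioOf ℓ (act g x)) * ε⁻¹ := by
  obtain ⟨δ, hδ⟩ := exists_delta (ℓ := ℓ) g x
  refine ⟨⟨_, delta_mem (N := N) h1 hδ⟩, ?_⟩
  symm
  have hpow : ((γ ^ ℓ : Gamma0 N) : SL(2, ℤ)) = g * T ^ ((ℓ : ℤ) * k) * g⁻¹ := by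
    push_cast
    rw [hγ, ← zpow_natCast (g * T ^ k * g⁻¹) ℓ, conj_zpow, ← zpow_mul, mul_comm k]
  have hact : act ((γ ^ ℓ : Gamma0 N) : SL(2, ℤ)) x = x := by
    rw [hpow, act_mul, act_mul, act_T_pow, ← act_mul, mul_inv_cancel, act_one]
  apply coc_unique
  rw [hact, hpow]
  have hcoe : (((⟨_, delta_mem (N := N) h1 hδ⟩ : Gamma0 N) * γ ^ (ratioOf ℓ (act g x)) *
      (⟨_, delta_mem (N := N) h1 hδ⟩ : Gamma0 N)⁻¹ : Gamma0 N) : SL(2, ℤ)) =
      δ * T ^ (ratioOf ℓ (act g x) * k) * δ⁻¹ := by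
    push_cast
    rw [hγ, conj_zpow, ← zpow_mul, mul_comm k]
    have : ∀ m : ℤ, δ * T ^ shiftOf (act g x) * g⁻¹ * (g * T ^ m * g⁻¹) *
        (δ * T ^ shiftOf (act g x) * g⁻¹)⁻¹ = δ * (T ^ shiftOf (act g x) * T ^ m *
          (T ^ shiftOf (act g x))⁻¹) * δ⁻¹ := by
      intro m; group
    rw [this, ← zpow_add, ← zpow_neg, ← zpow_add]
    congr 3
    ring_nf
  rw [hcoe, map_mul, map_mul, map_mul, map_mul, map_inv, map_inv, ← mul_assoc, ← mul_assoc, hδ,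
    mul_assoc (mapGL ℝ δ), rep_mul_T]
  have h2 : (mapGL ℝ δ : GL (Fin 2) ℝ)⁻¹ * rep ℓ x = rep ℓ (act g x) * (mapGL ℝ g)⁻¹ := by
    rw [inv_mul_eq_iff_eq_mul, ← mul_assoc, ← hδ]
    group
  rw [mul_assoc _ _ (rep ℓ x), h2]
  simp only [mul_assoc]

variable {A : Type*} [AddCommGroup A]

lemma sum_ratioOf : ∑ y : OnePoint (ZMod ℓ), ratioOf ℓ y = (ℓ : ℤ) * (1 + ℓ) := by
  have : ∑ y : OnePoint (ZMod ℓ), ratioOf ℓ y = (ℓ : ℤ) ^ 2 + ∑ j : ZMod ℓ, 1 := by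
    exact Fintype.sum_option _
  rw [this]
  simp [ZMod.card]
  ring

/-- `ℓ ≡ 1 mod N` ⇒ `T_ℓ φ (γ) = (1 + ℓ) φ (γ)` for `γ` of trace `2`. -/
theorem heckeHom_apply_trace_two [IsAddTorsionFree A] (hℓN : ¬ ℓ ∣ N) (h1 : (N : ℤ) ∣ (ℓ : ℤ) - 1)
    (φ : Additive (Gamma0 N) →+ A) (γ : Gamma0 N)
    (h : ((γ : SL(2, ℤ)) : Matrix (Fin 2) (Fin 2) ℤ).trace = 2) :
    heckeHom hℓN φ (Additive.ofMul γ) = ((1 : ℤ) + ℓ) • φ (Additive.ofMul γ) := by
  obtain ⟨g, k, hγ⟩ := exists_conj_T _ h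
  have e1 : heckeHom hℓN φ (Additive.ofMul (γ ^ ℓ)) =
      ((ℓ : ℤ) * (1 + ℓ)) • φ (Additive.ofMul γ) := by
    rw [heckeHom_apply, ← sum_ratioOf, Finset.sum_smul,
      ← Equiv.sum_comp (act g) (fun y => ratioOf ℓ y • φ (Additive.ofMul γ))]
    refine Finset.sum_congr rfl fun x _ => ?_
    obtain ⟨ε, hε⟩ := coc_pow_eq hℓN h1 γ g k hγ x
    rw [toMul_ofMul, hε]
    simp only [ofMul_mul, ofMul_inv, ofMul_zpow, map_add, map_neg, map_zsmul]
    abel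
  have e2 : heckeHom hℓN φ (Additive.ofMul (γ ^ ℓ)) =
      (ℓ : ℤ) • heckeHom hℓN φ (Additive.ofMul γ) := by
    rw [ofMul_pow, map_nsmul, natCast_zsmul]
  rw [e1, mul_smul] at e2
  have hℓ : (ℓ : ℤ) ≠ 0 := by exact_mod_cast (Fact.out : ℓ.Prime).ne_zero
  exact (zsmul_right_injective hℓ e2).symm

/-- `ℓ ≡ 1 mod N` ⇒ `T_ℓ φ (γ) = (1 + ℓ) φ (γ)` for `γ` with `(trace γ)² = 4`. -/
theorem heckeHom_apply_trace_sq_eq_four [IsAddTorsionFree A] (hℓN : ¬ ℓ ∣ N)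
    (h1 : (N : ℤ) ∣ (ℓ : ℤ) - 1) (φ : Additive (Gamma0 N) →+ A) (γ : Gamma0 N)
    (h : ((γ : SL(2, ℤ)) : Matrix (Fin 2) (Fin 2) ℤ).trace ^ 2 = 4) :
    heckeHom hℓN φ (Additive.ofMul γ) = ((1 : ℤ) + ℓ) • φ (Additive.ofMul γ) := by
  have h2 : (((γ ^ 2 : Gamma0 N) : SL(2, ℤ)) : Matrix (Fin 2) (Fin 2) ℤ).trace = 2 := by
    push_cast
    have := trace_pow_rec (γ : SL(2, ℤ)) 0
    simp only [zero_add, pow_one, pow_zero] at this
    rw [this, ← pow_two, h]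
    simp
  have h3 := heckeHom_apply_trace_two hℓN h1 φ (γ ^ 2) h2
  rw [ofMul_pow, map_nsmul, map_nsmul, smul_comm] at h3
  exact nsmul_right_injective two_ne_zero h3

/-- Non-Eisenstein eigenclasses (at one prime `ℓ ≡ 1 mod N`) kill all parabolic and elliptic
elements. -/
theorem isPE_of_heckeHom_eq [IsAddTorsionFree A] {R : Type*} [Ring R] [Module R A]
    (hℓN : ¬ ℓ ∣ N) (h1 : (N : ℤ) ∣ (ℓ : ℤ) - 1)
    (φ : Additive (Gamma0 N) →+ A) (lam : R) (hT : heckeHom hℓN φ = lam • φ)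
    (hlam : ∀ a : A, (lam - (1 + (ℓ : R))) • a = 0 → a = 0) : IsPE φ := by
  intro γ hγ
  rcases hγ.lt_or_eq with h | h
  · have h12 : γ ^ 12 = 1 := Subtype.ext (by push_cast; exact pow_twelve_eq_one _ h)
    have : (12 : ℕ) • φ (Additive.ofMul γ) = 0 := by
      rw [← map_nsmul, ← ofMul_pow, h12, ofMul_one, map_zero]
    exact (nsmul_eq_zero_iff_right (by norm_num)).1 this
  · have h2 := heckeHom_apply_trace_sq_eq_four hℓN h1 φ γ h
    rw [hT] at h2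
    apply hlam
    rw [sub_smul, sub_eq_zero]
    rw [AddMonoidHom.smul_apply] at h2
    rw [h2, add_smul, add_smul, one_smul, one_smul, Nat.cast_smul_eq_nsmul, Nat.cast_smul_eq_nsmul]

end Fermat.Agent.H4

end
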