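import Fermat.Agent.H4EANE
import Fermat.Agent.H4EAPE
import Fermat.Agent.H4FaithfulJ

/-!
# Guide: steps of the proofs in `GuideBridge` (Hecke operators, roots, norms, parabolic elements)

Companion of `GuideBridge`, for a reader who wants to see how the results quoted there are proved.
Nothing of `GuideBridge` is repeated; every theorem below is a step of the proof of a theorem of that
file (for section 7: of `GuideEigen`, section 2) and is proved by citing the theorem of the library.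

**Order.**
1. `T_ℓ` on `Hom(Γ₀(N), A)`: the permutation of `P¹(F_ℓ)`, the cocycle identity, sums over cycles, traces
   of powers. Result: `GuideBridge.heckeHom_def`, `isPE_heckeHom`.
2. Holomorphic `n`-th roots on the upper half plane: convex sets, finitely many zeros, exhaustion by
   rectangles. Result: `GuideBridge.exists_nthRoot`.
3. Primitives and periods under `T_ℓ`. Result: `GuideBridge.period_hecke`, `period_isPE_injective`.
4. The norm along the degeneracy map `τ ↦ τ` from `X₀(Nℓ)` to `X₀(N)` as a product over `P¹(F_ℓ)`.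
   Result: `GuideBridge.norm_formula`, `rel_hecke`.
5. Holomorphic quotients of modular functions. Used in 4.
6. Homomorphisms `Γ₀(N) → ℤ/m` as torsion points of `J₀(N)`. Result: `GuideBridge.hecke_faithful`.
7. The value of `T_ℓ φ` at parabolic elements is an Eisenstein value. Result:
   `GuideEigen.isPE_of_nonEisenstein`, `exists_nonEisenstein_prime`.

**Statements served.** Sections 1 to 5: S01, S03, S04, S06, S09, S12, S15, S29-S36, S38-S40, S42-S46, S50,
S58-S60 (section 2 also S17, S47, S48; `sum_over_cycles`, `trace_of_powers`, the product formula for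
`redMat` in `right_action` and the last part of `period_linear` also S47, S48); section 6 the same without
S09, S12, S15; section 7: S01, S03, S04, S06, S38, S43, S45, S46, S50, S59, S60. NOTES: [157]
NOTES-KUMMERBRIDGE, [192] NOTES-KUMMERBRIDGE-2, for section 7 [158] NOTES-EIGEN-ANALYSIS. Author of the
library theorems cited here: helper4 (`H4*`); definitions also by helper21 (`H21*`: primitives), helper24
(`H24*`: rings of modular functions, expansions), helper62 and helper90.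

**Conventions** of `GuideBridge`: `Additive (Gamma0 N) →+ A` is the group of homomorphisms from `Γ₀(N)` to
the abelian group `A`, the value at `γ` is `φ (Additive.ofMul γ)`; `ℓ` is a prime which does not divide
`N`; `rep ℓ x`, `x ∈ P¹(F_ℓ)` = `OnePoint (ZMod ℓ)`, are the `ℓ + 1` matrices of the Hecke operator:
`diag(ℓ, 1)` for `x = ∞`, rows `(1, j)`, `(0, ℓ)` for `x = j`; `rep ℓ x · γ = coc γ x · rep ℓ (act γ x)`.
-/

set_option autoImplicit false

noncomputable section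

open UpperHalfPlane hiding I
open Complex MatrixGroups ModularGroup ModularCurve AlgebraicCurve CongruenceSubgroup
open Matrix.SpecialLinearGroup
open scoped Manifold Real ModularForm

namespace Fermat.Agent.Guide.BridgeSteps

/-! ## 1. `T_ℓ` on `Hom(Γ₀(N), A)` -/

/-- **The permutation of `P¹(F_ℓ)`.** Let `γ ∈ SL₂(ℤ)` have the rows `(a, b)`, `(c, d)`. The matrix
`redMat ℓ γ` has the rows `(d, b)`, `(c, a)` modulo `ℓ`, and `act γ` is its Möbius transformation:
`x ↦ (d x + b) / (c x + a)`, `∞ ↦ d / c`. As `redMat` reverses products this is a RIGHT action of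
`SL₂(ℤ)`: first `γ`, then `γ'`. Proved in `H4Transfer`. -/
theorem right_action {ℓ : ℕ} [Fact ℓ.Prime] (γ γ' : SL(2, ℤ)) (x : OnePoint (ZMod ℓ)) :
    (H4.redMat ℓ γ : Matrix (Fin 2) (Fin 2) (ZMod ℓ)) =
        !![((γ 1 1 : ℤ) : ZMod ℓ), ((γ 0 1 : ℤ) : ZMod ℓ); ((γ 1 0 : ℤ) : ZMod ℓ),
          ((γ 0 0 : ℤ) : ZMod ℓ)] ∧
      H4.act γ x = H4.redMat ℓ γ • x ∧ H4.redMat ℓ (γ * γ') = H4.redMat ℓ γ' * H4.redMat ℓ γ ∧
      H4.act (γ * γ') x = H4.act γ' (H4.act γ x) ∧ H4.act 1 x = x :=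
  ⟨rfl, H4.act_apply γ x, H4.redMat_mul γ γ', H4.act_mul γ γ' x, H4.act_one x⟩

/-- **The cocycle identity** `coc (γ γ') x = coc γ x · coc γ' (x·γ)`; it follows from the uniqueness of
the element `δ` with `rep x · γ = δ · rep (x·γ)`. So `γ ↦ Σ_x φ(coc γ x)` is a homomorphism again (reorder
the second sum by the permutation `act γ`). This is the transfer, written out. Proved in `H4Transfer`. -/
theorem cocycle_identity {N ℓ : ℕ} [Fact ℓ.Prime] (hℓN : ¬ ℓ ∣ N) (γ γ' : Gamma0 N)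
    (x : OnePoint (ZMod ℓ)) :
    (∀ δ : Gamma0 N, H4.rep ℓ x * mapGL ℝ (γ : SL(2, ℤ)) =
        mapGL ℝ (δ : SL(2, ℤ)) * H4.rep ℓ (H4.act (γ : SL(2, ℤ)) x) → δ = H4.coc hℓN γ x) ∧
      H4.coc hℓN (γ * γ') x = H4.coc hℓN γ x * H4.coc hℓN γ' (H4.act (γ : SL(2, ℤ)) x) :=
  ⟨fun _ h => H4.coc_unique hℓN γ x h, H4.coc_mul hℓN γ γ' x⟩

/-- **Sums over cycles.** If the sum of `f` over the cycle of every point `x` of a permutation `σ` of a
finite set vanishes, then the sum of all values of `f` vanishes. Proved in `H4TransferPE`. -/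
theorem sum_over_cycles {X A : Type*} [Fintype X] [AddCommGroup A] (σ : Equiv.Perm X) (f : X → A)
    (h : ∀ x, ∑ i ∈ Finset.range (Function.minimalPeriod σ x), f ((σ : X → X)^[i] x) = 0) :
    ∑ x, f x = 0 :=
  H4.sum_eq_zero_of_cycles σ f h

/-- **The contribution of a cycle.** The sum of `φ(coc γ (x·γⁱ))` over `i < n` is `φ(coc (γⁿ) x)`. If `γⁿ`
fixes `x` then `coc (γⁿ) x = rep x · γⁿ · (rep x)⁻¹`, so it has the trace of `γⁿ`. Proved in
`H4TransferPE`. -/
theorem contribution_of_cycle {N ℓ : ℕ} [Fact ℓ.Prime] (hℓN : ¬ ℓ ∣ N) {A : Type*}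
    [AddCommGroup A] (φ : Additive (Gamma0 N) →+ A) (γ : Gamma0 N) (x : OnePoint (ZMod ℓ)) :
    (∀ n : ℕ, H4.act ((γ : SL(2, ℤ)) ^ n) x = (H4.act (γ : SL(2, ℤ)))^[n] x ∧
      ∑ i ∈ Finset.range n, φ (Additive.ofMul (H4.coc hℓN γ ((H4.act (γ : SL(2, ℤ)))^[i] x))) =
        φ (Additive.ofMul (H4.coc hℓN (γ ^ n) x))) ∧
    (H4.act (γ : SL(2, ℤ)) x = x →
      ((H4.coc hℓN γ x : SL(2, ℤ)) : Matrix (Fin 2) (Fin 2) ℤ).trace =
        ((γ : SL(2, ℤ)) : Matrix (Fin 2) (Fin 2) ℤ).trace) :=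
  ⟨fun n => ⟨H4.act_pow _ n x, H4.coc_pow hℓN φ γ x n⟩, H4.trace_coc hℓN γ x⟩

/-- **Traces of powers.** For `g ∈ SL₂(ℤ)` one has `tr gⁿ⁺² = tr g · tr gⁿ⁺¹ - tr gⁿ`; so if
`tr g = 2 cos θ` then `tr gⁿ = 2 cos nθ`; so if `(tr g)² ≤ 4` then `(tr gⁿ)² ≤ 4`. With
`sum_over_cycles` and `contribution_of_cycle`: if `φ` kills the elements with `(tr γ)² ≤ 4`, so does
`T_ℓ φ`. Proved in `H4TransferPE`. -/
theorem trace_of_powers (g : SL(2, ℤ)) :
    (∀ n : ℕ, ((g ^ (n + 2) : SL(2, ℤ)) : Matrix (Fin 2) (Fin 2) ℤ).trace =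
      (g : Matrix (Fin 2) (Fin 2) ℤ).trace *
        ((g ^ (n + 1) : SL(2, ℤ)) : Matrix (Fin 2) (Fin 2) ℤ).trace -
          ((g ^ n : SL(2, ℤ)) : Matrix (Fin 2) (Fin 2) ℤ).trace) ∧
    (∀ θ : ℝ, (((g : Matrix (Fin 2) (Fin 2) ℤ).trace : ℤ) : ℝ) = 2 * Real.cos θ → ∀ n : ℕ,
      ((((g ^ n : SL(2, ℤ)) : Matrix (Fin 2) (Fin 2) ℤ).trace : ℤ) : ℝ) = 2 * Real.cos (n * θ)) ∧
    ((g : Matrix (Fin 2) (Fin 2) ℤ).trace ^ 2 ≤ 4 → ∀ n : ℕ,
      ((g ^ n : SL(2, ℤ)) : Matrix (Fin 2) (Fin 2) ℤ).trace ^ 2 ≤ 4) :=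
  ⟨H4.trace_pow_rec g, fun _ h => H4.trace_pow_cos g h, H4.trace_sq_pow_le g⟩

/-! ## 2. Holomorphic `n`-th roots on the upper half plane -/

/-- **Functions without zeros.** On a convex open set `R` a holomorphic function `g` without zeros has a
holomorphic `n`-th root: `g'/g` has a primitive `L` on `R`, `g e^(-L)` is constant, and the root is a
constant times `e^(L/n)`. Proved in `H4Root`. -/
theorem root_without_zeros {R : Set ℂ} (hRo : IsOpen R) (hRc : Convex ℝ R) {n : ℕ} (hn : n ≠ 0)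
    {g : ℂ → ℂ} (hg : DifferentiableOn ℂ g R) (h0 : ∀ z ∈ R, g z ≠ 0) :
    ∃ h : ℂ → ℂ, DifferentiableOn ℂ h R ∧ ∀ z ∈ R, h z ^ n = g z :=
  H4.exists_root_of_ne_zero hRo hRc hn hg h0

/-- **Functions with finitely many zeros**, all of multiplicity divisible by `n`: induction on the number
of zeros, division by `(z - z₀)^m`, `n ∣ m`. Proved in `H4Root`. -/
theorem root_with_finitely_many_zeros {R : Set ℂ} (hRo : IsOpen R) (hRc : Convex ℝ R) {n : ℕ}
    (hn : n ≠ 0) (g : ℂ → ℂ) (hg : AnalyticOnNhd ℂ g R) (hfin : ({z | z ∈ R ∧ g z = 0}).Finite)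
    (htop : ∀ z ∈ R, analyticOrderAt g z ≠ ⊤) (hdvd : ∀ z ∈ R, n ∣ analyticOrderNatAt g z) :
    ∃ h : ℂ → ℂ, DifferentiableOn ℂ h R ∧ ∀ z ∈ R, h z ^ n = g z :=
  H4.exists_root_of_finite hRo hRc hn _ g hg hfin rfl htop hdvd

/-- **Exhaustion of the upper half plane** by the open rectangles
`rect m = {|Re z| < m + 1, 1/(m + 1) < Im z < m + 1}`: they are open, convex and increasing, contained in
compact subsets of the upper half plane (so a function `≠ 0` has only finitely many zeros in each of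
them), and they cover it. Proved in `H4Root`. -/
theorem exhaustion :
    (∀ m : ℕ, H4.rect m = {z : ℂ | |z.re| < m + 1 ∧ 1 / ((m : ℝ) + 1) < z.im ∧ z.im < m + 1} ∧
      IsOpen (H4.rect m) ∧ Convex ℝ (H4.rect m) ∧
        ∃ C : Set ℂ, H4.rect m ⊆ C ∧ IsCompact C ∧ C ⊆ {z : ℂ | 0 < z.im}) ∧
    (∀ m m' : ℕ, m ≤ m' → H4.rect m ⊆ H4.rect m') ∧
    ∀ z : ℂ, 0 < z.im → ∃ m : ℕ, z ∈ H4.rect m :=
  ⟨fun m => ⟨rfl, H4.isOpen_rect m, H4.convex_rect m,
    H4.crect m, H4.rect_subset_crect m, H4.isCompact_crect m, H4.crect_subset m⟩,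
    fun _ _ h => H4.rect_mono h, fun _ hz => H4.exists_mem_rect hz⟩

/-- **The root on the upper half plane**: the roots on the rectangles, normalised to have the same value
`≠ 0` at one point, agree on smaller rectangles (they agree near this point, since
`aⁿ - bⁿ = (a - b)(aⁿ⁻¹ + ...)` and the second factor is not zero there; identity theorem), so they define
one function. Proved in `H4Root`. -/
theorem root_on_half_plane {n : ℕ} (hn : n ≠ 0) (g : ℂ → ℂ)
    (hg : DifferentiableOn ℂ g {z : ℂ | 0 < z.im}) (hne : ∃ z : ℂ, 0 < z.im ∧ g z ≠ 0)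
    (hord : ∀ z : ℂ, 0 < z.im → n ∣ analyticOrderNatAt g z) :
    ∃ h : ℂ → ℂ, DifferentiableOn ℂ h {z : ℂ | 0 < z.im} ∧ ∀ z : ℂ, 0 < z.im → h z ^ n = g z :=
  H4.exists_nthRoot_aux hn g hg hne hord

/-! ## 3. Primitives and periods under `T_ℓ`

`H21.IsPrim G g` says that `G` is a primitive of `g` on the upper half plane: the derivative of `G` at
every point `τ ∈ ℍ` is `g τ`. -/

/-- **Chain rule.** If `G` is a primitive of `g` and `δ` is a real matrix of positive determinant, then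
`τ ↦ G(δτ)` is a primitive of `g ∣₂ δ` (the slash operator of weight two). Proved in `H4Periods`. -/
theorem primitive_smul {G g : ℍ → ℂ}
    (hG : ∀ τ : ℍ, HasDerivAt (G ∘ ofComplex) (g τ) (τ : ℂ)) (δ : GL (Fin 2) ℝ)
    (hdet : 0 < δ.val.det) : H21.IsPrim (fun τ => G (δ • τ)) (g ∣[(2 : ℤ)] δ) :=
  H4.isPrim_comp_smul hG δ hdet

/-- **The primitive of `T_ℓ f`** is the sum of the `F(rep x · τ)`, `x ∈ P¹(F_ℓ)`, if `F` is a primitive of
`f`. With `GuideBridge.period_identity` this gives `per (T_ℓ f) = T_ℓ (per f)`. Proved in `H4Periods`. -/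
theorem primitive_hecke {ℓ : ℕ} [Fact ℓ.Prime] {F f : ℍ → ℂ} (hF : H21.IsPrim F f) :
    H21.IsPrim (fun τ => ∑ x : OnePoint (ZMod ℓ), F (H4.rep ℓ x • τ))
      (ModularForm.heckeT 2 ℓ f) :=
  H4.isPrim_heckeT hF

/-- **The period map is linear**; and elements with `(tr γ)² < 4` have order dividing `12`, so periods kill
them (`tr γ = 0, 1, -1` and `γ² = (tr γ) γ - 1`). Proved in `H4Periods`. -/
theorem period_linear {N : ℕ} [NeZero N] :
    (∀ f g : CuspForm (Gamma0 N) 2, periodMap N (f + g) = periodMap N f + periodMap N g) ∧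
    (∀ (c : ℂ) (f : CuspForm (Gamma0 N) 2), periodMap N (c • f) = c • periodMap N f) ∧
    ∀ γ : SL(2, ℤ), (γ : Matrix (Fin 2) (Fin 2) ℤ).trace ^ 2 < 4 → γ ^ 12 = 1 :=
  ⟨H4.periodMap_add', H4.periodMap_smul', H4.pow_twelve_eq_one⟩

/-! ## 4. The norm from `X₀(Nℓ)` to `X₀(N)` as a product over `P¹(F_ℓ)` -/

/-- **A norm is a product of embeddings.** Let `F'/F` be a finite separable extension of fields,
`s₀ : F → E` a homomorphism to a field, and `s i : F' → E` distinct extensions of `s₀`, at least `[F' : F]`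
many. Then `s₀ (N y) = ∏ s i (y)`. Here `E` need not be algebraically closed: below it is the field of
Laurent series at a point of `ℍ`. Proved in `H4Norm`. -/
theorem norm_is_product {F F' E ι : Type*} [Field F] [Field F'] [Field E] [Algebra F F']
    [FiniteDimensional F F'] [Algebra.IsSeparable F F'] [Fintype ι] (s0 : F →+* E)
    (s : ι → F' →+* E) (hs : Function.Injective s)
    (hs0 : ∀ i x, s i (algebraMap F F' x) = s0 x)
    (hcard : Module.finrank F F' ≤ Fintype.card ι) (y : F') :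
    s0 (Algebra.norm F y) = ∏ i, s i y :=
  H4.norm_eq_prod_of_embeddings s0 s hs hs0 hcard y

/-- **Conjugates of `ℓτ`.** Elements of `SL₂(ℤ)` whose lower left entry is divisible by `ℓ` fix
`∞ ∈ P¹(F_ℓ)`; and as `ℓ ∤ N`, the group `Γ₀(N)` acts transitively (Chinese remainder theorem): `del x`
is a chosen element of `Γ₀(N)` which moves `∞` to `x`. So `P¹(F_ℓ)` is the set of cosets of `Γ₀(Nℓ)` in
`Γ₀(N)`. The points `ℓ · (del x · τ)` and `rep x · τ` differ by an element of `Γ₀(N)`; hence for a function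
`a` of level `N` the conjugates of `a(ℓτ)` are the `a(rep x · τ)`. Proved in `H4Norm`. -/
theorem conjugates {N ℓ : ℕ} [Fact ℓ.Prime] (hℓN : ¬ ℓ ∣ N) (x : OnePoint (ZMod ℓ)) (τ : ℍ) :
    (∀ g : SL(2, ℤ), (ℓ : ℤ) ∣ g 1 0 →
      H4.act g (OnePoint.infty : OnePoint (ZMod ℓ)) = OnePoint.infty) ∧
    H4.act (H4.del hℓN x : SL(2, ℤ)) (OnePoint.infty : OnePoint (ZMod ℓ)) = x ∧
    H4.rep ℓ OnePoint.infty • ((H4.del hℓN x : SL(2, ℤ)) • τ) =
      (H4.coc hℓN (H4.del hℓN x) OnePoint.infty : SL(2, ℤ)) • (H4.rep ℓ x • τ) :=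
  ⟨H4.act_infty_of_mem, H4.act_del hℓN x, H4.rep_infty_smul_del hℓN x τ⟩

/-- **Functions of level `N`.** `A K N` is the `K`-algebra generated by the `q`-expansions of the
`j(dτ)`, `d ∣ N`, and `FN K N` the function field of `X₀(N)` over `K`; `toF` is the inclusion, and the
elements of `FN K N` are the fractions. Proved in `H4Norm`. -/
theorem fractions (K : Type*) [Field K] [Algebra ℚ K] {N : ℕ} :
    Function.Injective (H4.toF K N) ∧
      ∀ y : H4.FN K N, ∃ a b : H24.A K N, b ≠ 0 ∧ y = H4.toF K N a / H4.toF K N b :=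
  ⟨H4.toF_injective K N, H4.exists_eq_div K⟩

/-- **The two degeneracy maps on functions**: `x ↦ x` and `x ↦ x(q^ℓ)` map `A K N` to `A K (Nℓ)`; the value
of `x(q^ℓ)` at `τ` is the value of `x` at `ℓτ` = `rep ∞ · τ`. Proved in `H4NormEmb`. -/
theorem degeneracy_maps (K : Type*) [Field K] [Algebra K ℂ] {N ℓ : ℕ} [NeZero N] [NeZero ℓ]
    [Fact ℓ.Prime] (a : H24.A K N) :
    (a : LaurentSeries K) ∈ H24.A K (N * ℓ) ∧ qExpand K ℓ a.1 ∈ H24.A K (N * ℓ) ∧
      ∀ τ : ℍ, H24.ev K (qExpand K ℓ a.1) τ = H24.ev K a.1 (H4.rep ℓ OnePoint.infty • τ) :=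
  ⟨H4.A_mono K (dvd_mul_right N ℓ) a.2, H4.qExpand_mem_A K ℓ a.2,
    fun τ => (H4.ev_qExpand K ℓ a τ).trans (congrArg _ (H4.scale_eq_rep ℓ τ))⟩

section Field

variable (K : Type*) [Field K] [Algebra K ℂ] [Algebra ℚ K]

/-- **The embeddings.** For `δ ∈ SL₂(ℤ)` there is an embedding `sF δ` of the function field into the
Laurent series over `ℂ`: the expansion of `τ ↦ a(δτ)` in the coordinate `z = (τ - i)/(τ + i)` at the point
`i` of the upper half plane. (`HasExpC z f F`: the Laurent series `F` converges for `0 < |w| < 1`, and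
`F(z(τ)) = f(τ)` if `z(τ) ≠ 0`.) Proved in `H4NormEmb`. -/
theorem embedding_spec {N : ℕ} [NeZero N] (δ : SL(2, ℤ)) (a : H24.A K N) :
    H24.HasExpC (H24.cayley UpperHalfPlane.I) (fun τ => H24.ev K a.1 (δ • τ))
      (H4.sF K N δ (H4.toF K N a)) :=
  H4.hasExpC_sF_toF K δ a

/-- **They form a complete family.** For `δ ∈ Γ₀(N)` the embedding `sF δ` of the function field of level
`Nℓ` restricts to `sF 1` on the functions of level `N`, and the embeddings for `δ = del x`,
`x ∈ P¹(F_ℓ)`, are distinct. Proved in `H4NormEmb`, `H4NormForm`. -/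
theorem embeddings_complete {N ℓ : ℕ} [NeZero N] [NeZero ℓ] [Fact ℓ.Prime] (hℓN : ¬ ℓ ∣ N) :
    (∀ (δ : Gamma0 N) (y : H4.FN K N),
      H4.sF K (N * ℓ) (δ : SL(2, ℤ)) (heckeAlphaBar K N ℓ y) = H4.sF K N 1 y) ∧
    Function.Injective (fun x : OnePoint (ZMod ℓ) =>
      H4.sF K (N * ℓ) (H4.del hℓN x : SL(2, ℤ))) :=
  ⟨H4.sF_alpha K, H4.sF_injective_rep K hℓN⟩

/-- **The norm along `α(τ) = τ`**, as a Laurent series at the point `i`, is the product of the conjugates:
`norm_is_product` applies because the degree of `X₀(Nℓ)` over `X₀(N)` is `ℓ + 1`. Proved in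
`H4NormForm`. -/
theorem norm_expansion [IsAlgClosed K] [CharZero K] {N ℓ : ℕ} [NeZero N] [NeZero ℓ]
    [Fact ℓ.Prime] (hℓN : ¬ ℓ ∣ N) (y : H4.FN K (N * ℓ)) :
    H4.sF K N 1 (H4.normAlpha K N ℓ y) =
      ∏ x : OnePoint (ZMod ℓ), H4.sF K (N * ℓ) (H4.del hℓN x : SL(2, ℤ)) y :=
  H4.sF_normAlpha K hℓN y

/-- **The factors** for `y = β a`, `β a = a(ℓτ)`, are the expansions of the functions `a(rep x · τ)`; their
product is holomorphic on `ℍ` (`H24.Hol`). Here `a` is a good function (`GuideBridge.good_iff`). Proved in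
`H4NormForm`. -/
theorem factors {N ℓ : ℕ} [NeZero N] [NeZero ℓ] [Fact ℓ.Prime] (hℓN : ¬ ℓ ∣ N)
    {a : H4.FN K N} (ha : H24.Good K N a.1) :
    (∀ x : OnePoint (ZMod ℓ),
      H24.HasExpC (H24.cayley UpperHalfPlane.I) (fun τ => H24.ev K a.1 (H4.rep ℓ x • τ))
        (H4.sF K (N * ℓ) (H4.del hℓN x : SL(2, ℤ)) (heckeBetaBar K N ℓ a))) ∧
    (fun τ => ∏ x : OnePoint (ZMod ℓ), H24.ev K a.1 (H4.rep ℓ x • τ)) ∈ H24.Hol :=
  ⟨H4.hasExpC_beta K hℓN ha, H4.prod_rep_mem_Hol ha.hol⟩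

/-- **Comparison of functions.** If `N_α(β a) · d = c` with `c`, `d` in `A K N`, then
`c(τ) = (∏_x a(rep x · τ)) · d(τ)` for all `τ`: both sides are holomorphic and have the same expansion at
`i`. Proved in `H4NormForm`. -/
theorem norm_values [IsAlgClosed K] [CharZero K] {N ℓ : ℕ} [NeZero N] [NeZero ℓ]
    [Fact ℓ.Prime] (hℓN : ¬ ℓ ∣ N) {a : H4.FN K N} (ha : H24.Good K N a.1) {c d : H24.A K N}
    (h : H4.normAlpha K N ℓ (heckeBetaBar K N ℓ a) * H4.toF K N d = H4.toF K N c) (τ : ℍ) :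
    H24.ev K c.1 τ =
      (∏ x : OnePoint (ZMod ℓ), H24.ev K a.1 (H4.rep ℓ x • τ)) * H24.ev K d.1 τ :=
  H4.ev_normAlpha_beta K hℓN ha h τ

end Field

/-- **The divisor side** of `rel_hecke`: if `div a = n D` then `div (N_α(β a)) = n T_ℓ D`. The divisor of a
norm is the push forward of the divisor; `T_ℓ` on divisors is the pull back along `β` followed by the push
forward along `α`. (The hypotheses `hα`, `hβ` and the existence of principal divisors are theorems, see
`H67.heckeInputsAlong`.) Proved in `H4RelHecke`. -/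
theorem divisor_of_norm (K : Type*) [Field K] [IsAlgClosed K] [CharZero K] [Algebra ℚ K]
    {N ℓ : ℕ} [NeZero N] [NeZero ℓ] {a : H4.FN K N} (ha : a ≠ 0) {n : ℕ}
    {D : Divisor K (H4.FN K N)} (hD : ∀ v : Place K (H4.FN K N), v.ord a = n * D v)
    [HasPrincipalDivisors K (H4.FN K (N * ℓ))]
    (hα : HeckeAlphaBarIntegral K N ℓ) (hβ : HeckeBetaBarIntegral K N ℓ)
    (v : Place K (H4.FN K N)) :
    v.ord (H4.normAlpha K N ℓ (heckeBetaBar K N ℓ a)) =
      n * (Divisor.correspondence (heckeBetaBar K N ℓ) (heckeAlphaBar K N ℓ) hβ hα D) v :=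
  H4.ord_normAlpha_beta K ha hD hα hβ v

/-! ## 5. Holomorphic quotients of modular functions -/

/-- **Lower bound near `i∞`.** A convergent Laurent series `F ≠ 0` in `q = e^(2πiτ/N)` satisfies
`|F(q)| ≥ B |q|^k` with `B > 0` for all `τ` with large imaginary part. Proved in `H4GoodDiv`. -/
theorem lower_bound (N : ℕ) [NeZero N] {F : LaurentSeries ℂ} (hF : H24.IsConv F) (hF0 : F ≠ 0) :
    ∃ (k : ℕ) (B A : ℝ), 0 < B ∧ ∀ τ : ℍ, A ≤ τ.im →
      B * ‖Function.Periodic.qParam (N : ℝ) τ‖ ^ k ≤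
        ‖H24.evalAt (Function.Periodic.qParam (N : ℝ) τ) F‖ :=
  H4.exists_lower_bound N hF hF0

/-- **A holomorphic quotient of good functions is good.** If `y d = c` in `K((q))` with `c`, `d` good,
`d ≠ 0`, and `P` is a holomorphic function on `ℍ` with `P · d = c`, then `y` is good and `P` is its value
function. (Invariance: identity theorem; expansions at the cusps: `P` is periodic and, by `lower_bound`,
of moderate growth.) With `norm_values`: `N_α(β a)` is good. Proved in `H4GoodDiv`. -/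
theorem quotient_good (K : Type*) [Field K] [Algebra K ℂ] [IsAlgClosed K] [CharZero K]
    [Algebra ℚ K] {N : ℕ} [NeZero N] {y c d : LaurentSeries K} {P : ℍ → ℂ}
    (hc : H24.Good K N c) (hd : H24.Good K N d) (hd0 : d ≠ 0) (h : y * d = c)
    (hP : MDifferentiable 𝓘(ℂ) 𝓘(ℂ) P) (hPd : ∀ τ, P τ * H24.ev K d τ = H24.ev K c τ) :
    H24.Good K N y ∧ H24.ev K y = P :=
  H4.good_of_div K hc hd hd0 h hP hPd

/-! ## 6. Homomorphisms `Γ₀(N) → ℤ/m` as torsion points -/

/-- **From homomorphisms to torsion points.** `ℤ/m` embeds in the group `Mu` = `ℂˣ` (written additively)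
by `1 ↦ e^(2πi/m)`. So an element of `PE N (ZMod m)`, the group of the homomorphisms `Γ₀(N) → ℤ/m` which
kill the parabolic and elliptic elements, becomes a character of finite order. If every such character has
a class (`KummerSurj`, proved as `GuideBridge.exists_class`), we get an injective homomorphism from
`PE N (ZMod m)` to `J₀(N)` which commutes with all `T_ℓ`, `ℓ ∤ N` (`heckePE` is `T_ℓ` on `PE`). Proved in
`H4FaithfulJ`. -/
theorem characters_in_jacobian {N : ℕ} [NeZero N] (hsurj : H4.KummerSurj N) {m : ℕ} (hm : m ≠ 0) :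
    (∃ e : ZMod m →+ H90.Mu, Function.Injective e) ∧
    ∃ j : H4.PE N (ZMod m) →+ JZero N, Function.Injective j ∧
      ∀ (ℓ : ℕ) [hℓ : Fact ℓ.Prime] (hℓN : ¬ ℓ ∣ N) (φ : H4.PE N (ZMod m)),
        j (H4.heckePE _ hℓN φ) = heckeOperatorBar N ⟨ℓ, hℓ.out⟩ (j φ) :=
  ⟨H4.exists_zmod_mu m hm, H4.exists_embedding hsurj hm⟩

/-! ## 7. The value of `T_ℓ φ` at parabolic elements

Let `ℓ ≡ 1` modulo `N`. For a homomorphism `φ` to a torsion free group and a parabolic `γ ∈ Γ₀(N)` one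
has `(T_ℓ φ)(γ) = (1 + ℓ) φ(γ)`. Classically: the boundary part of the cohomology is Eisenstein. -/

/-- **Elements of trace two** are conjugate in `SL₂(ℤ)` to a translation `T^k`. Proved in `H4EAPE`. -/
theorem conjugate_to_translation (γ : SL(2, ℤ))
    (h : (γ : Matrix (Fin 2) (Fin 2) ℤ).trace = 2) :
    ∃ (g : SL(2, ℤ)) (k : ℤ), γ = g * T ^ k * g⁻¹ :=
  H4.exists_conj_T γ h

/-- **Translations and representatives.** `T^(ℓm)` fixes all points of `P¹(F_ℓ)`, and
`rep y · T^(ℓm) = T^(r m) · rep y`, where `r = ratioOf ℓ y` is `ℓ²` for `y = ∞` and `1` for the other `ℓ`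
points. The sum of these numbers is `ℓ (1 + ℓ)`. Proved in `H4EAPE`. -/
theorem translations {ℓ : ℕ} [Fact ℓ.Prime] (m : ℤ) (y : OnePoint (ZMod ℓ)) :
    H4.act (T ^ ((ℓ : ℤ) * m)) y = y ∧
      H4.rep ℓ y * mapGL ℝ (T ^ ((ℓ : ℤ) * m)) =
        mapGL ℝ (T ^ (H4.ratioOf ℓ y * m)) * H4.rep ℓ y ∧
      ∑ x : OnePoint (ZMod ℓ), H4.ratioOf ℓ x = (ℓ : ℤ) * (1 + ℓ) :=
  ⟨H4.act_T_pow m y, H4.rep_mul_T y m, H4.sum_ratioOf⟩

/-- **The cocycle at `γ^ℓ`.** If `ℓ ≡ 1` modulo `N` and `γ = g T^k g⁻¹` is in `Γ₀(N)`, then `coc (γ^ℓ) x` is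
conjugate IN `Γ₀(N)` to `γ^r`, `r = ratioOf ℓ (x·g)`. (By the congruence the cusps fixed by the two
elements are equivalent under `Γ₀(N)`; for other `ℓ` they need not be.) Summing over `x` gives
`(T_ℓ φ)(γ^ℓ) = ℓ (1 + ℓ) φ(γ)`, hence `(T_ℓ φ)(γ) = (1 + ℓ) φ(γ)` if the values are in a torsion free
group. Proved in `H4EAPE`. -/
theorem cocycle_at_power {N ℓ : ℕ} [Fact ℓ.Prime] (hℓN : ¬ ℓ ∣ N) (h1 : (N : ℤ) ∣ (ℓ : ℤ) - 1)
    (γ : Gamma0 N) (g : SL(2, ℤ)) (k : ℤ) (hγ : (γ : SL(2, ℤ)) = g * T ^ k * g⁻¹)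
    (x : OnePoint (ZMod ℓ)) :
    ∃ ε : Gamma0 N, H4.coc hℓN (γ ^ ℓ) x = ε * γ ^ (H4.ratioOf ℓ (H4.act g x)) * ε⁻¹ :=
  H4.coc_pow_eq hℓN h1 γ g k hγ x

/-- **The odd residual representation** of a Galois representation `ρ` over a noetherian local ring `O`
with `p` in its maximal ideal, attached to numbers `lam ℓ`
(`charpoly(Frob_ℓ) = X² - lam_ℓ X + ℓ` for `ℓ ∉ S`): complex conjugation has determinant `-1`, and for
odd `p` one has `2 ≠ 0` in the residue field. If the residual representation is irreducible, this and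
Frobenius' density theorem yield primes `ℓ ≡ 1` modulo `N` with `lam ℓ ≠ 1 + ℓ` modulo the maximal ideal
(`GuideEigen.exists_nonEisenstein_prime`); this is the hypothesis under which eigenclasses kill the
parabolic elements. Proved in `H4EANE`. -/
theorem residual_is_odd {p : ℕ} [Fact p.Prime] {O : Type} [CommRing O] [IsLocalRing O]
    [IsNoetherianRing O] (hpO : (p : O) ∈ IsLocalRing.maximalIdeal O) (S : Finset ℕ)
    (lam : ℕ → O) (ρ : GaloisRepAdic O) (hρ : H62.IsAttached S lam ρ) :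
    LinearMap.det (ρ.residual.ρ complexConjugation) = -1 ∧
      (p ≠ 2 → (2 : IsLocalRing.ResidueField O) ≠ 0) :=
  ⟨H4.det_residual_complexConjugation hpO S lam ρ hρ, fun hp2 => H4.two_ne_zero_residue hp2 hpO⟩

end Fermat.Agent.Guide.BridgeSteps

end
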