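import Fermat.Agent.S36

/-!
# Reader's guide to the block CARAYOL (statement S36)

This file contains no new mathematics: it lists the key theorems of the block in the order in which
they should be read, each written out in full and proved by citing the library.  Only the list
`Guide` imports it.  All theorems listed here are used in the proof of S36, the last theorem of the
file.  S36 is used in S58; the main result of the block (theorem 30) also in S03, S04, S06, S38,
S43, S45, S46, S50, S59, S60 and S01.

## The statement and the idea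

Let `g` be a newform of weight `2` on `Γ₀(M)`, `p` a prime, and `q ≠ p` a prime which divides `M`
exactly twice, `M = q² m`.  S36 says that the `p`-adic representation of `g` is not unipotent on
inertia at `q`.  (In the literature this is a special case of Carayol's theorem.)  The proof works
with functions on `X₀(q² m)`, given by their `q`-expansions, and has four stages.

1. *Linear algebra.*  If the representation were unipotent on inertia at `q`, the Tate module of
   `J₀(q² m)` would contain a nonzero vector fixed by inertia and killed by both push-forwards to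
   `J₀(q m)`, because the eigensystem of `g` does not occur in `J₀(q m)`.  So it is enough to bound
   the inertia invariants of `J₀(q² m)[p^∞]` which are killed by the two push-forwards:
   `H35.FixedInput` (theorems 2 and 5).
2. *From points to functions.*  A fixed point of order `d = p ^ n` is given by a function `f` over
   the inertia field `K_I` with `d ∣ div f`, and the two norms of `f` to `X₀(q m)` are constants
   times `d`-th powers.  It is enough to show that then `f ^ C`, `C = (q+1)(q-1)(q²-1)`, is a
   constant times a `d`-th power: `H92.CoreK` (theorems 3 and 6).  Here one may enlarge `m` by the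
   factor `4` (or `9` if `q = 2`), so that there is a coordinate `X` on `X₀(m)` which is etale
   outside the cusps (theorems 7 and 8).
3. *The model.*  The normal model of `X₀(q² m)` over the valuation ring of `K_I` has three
   components in characteristic `q`, each of them a copy of `X₀(m)`, with multiplicities `1`,
   `q - 1`, `1`, and all three pass through each supersingular point.  Only rings are used: the
   chart ring `B` (functions regular outside the cusps) inside the function field, three valuation
   rings `V 0`, `V 1`, `V 2` of the function field and their residue maps, which are computed on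
   `q`-expansions (theorems 9 to 18).  The main fact is that all local rings of `B` are factorial,
   so that `f = u h ^ d` locally (theorem 19).
4. *Normalisation and windings.*  Multiplying by powers of `q` and `d`-th powers, and raising to
   powers dividing `C`, one obtains first that `f` is a unit at the three components (theorem 20),
   then that `f` is congruent to `1` along all components (theorem 21), and finally, from the norm
   conditions at the supersingular points (theorem 22), that the local `d`-th root `h` of `f` takes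
   the same value along all branches at every point (theorem 23).  Then the covering `y ^ d = f` is
   unramified with split special fibre, and the connectedness of the special fibre shows that `f`
   is a `d`-th power (theorems 24 to 27).  Theorems 28 to 31 put everything together.

## Where to read more

Stage 1 is explained in `GuideNewforms`, sections 3, 5 and 6 (absence from lower levels,
eigenlattice, fixed vector of a unipotent group).  `GuideCarayolModel` contains the details of
stage 3, `GuideCarayolTools` those of stages 2 and 4.  The steps of the proofs are in the following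
files.  Stage 2: `GuideFixedFunctions` (theorems 2, 3 and 6), `GuideCarayolSteps`, section 8
(theorems 7 and 8).  Stage 3: `GuideIgusa` (theorem 9), `GuideFunctionLifting` (11 and 12),
`GuideTwoComponents` (12 and 13), `GuideThreeSheets` (15, 16 and 18) and `GuideCharts` (17 and 18).
Stages 3 and 4: `GuideCarayolSteps` (14, 16 and 19 to 23).  Stage 4: `GuideCusps` (24) and
`GuideConnectedness` (25 to 29).

Chapters of `NOTES.md`: [272] NOTES-CARAYOL-S36 (overview); then [130] C8 (stage 2), [109] C1
(coordinates of level 4 and 9), [118] C2 (special fibre of `X₀(m)`), [138] C3 (level `q m`), [104]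
C4 (level `q² m`), [259] C6 (chart rings), [180] C5 (cusps), [266] CONN-INJ-C7 (connectedness);
[240] NOTES-GALREP-GLUE (stage 1) and [194] NOTES-S58 (use of S36).

## Notation

`Place K F` is the type of places of the function field `F / K`, `P.ord f` the order of `f` at `P`.
`LaurentSeries R = R((q))`; `coeffMap φ` applies the ring homomorphism `φ` to the coefficients,
`qExpand R d` is the substitution `q ↦ q ^ d`, `H61.theta = q d/dq`, `H60.twist ζ` is the
substitution `q ↦ ζ q`, and `jqModC R` is the expansion of `j` in `R((q))`.  The residue field `k`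
(characteristic `q`) is algebraically closed where `[IsAlgClosed k]` is assumed.
-/

set_option autoImplicit false

namespace Fermat.Agent.Guide.Carayol

open ModularCurve AlgebraicCurve Polynomial
open scoped IntermediateField

/-! ## A. The notions in which the problem is stated -/

/-- **1. The function field of `X₀(N)` and the two degeneracy maps.**  Functions on `X₀(N)` over a
field `L` of characteristic zero are given by their `q`-expansions:
`H99.FX L N = L(j(q^d) : d ∣ N) ⊂ L((q))` (by definition `laurentBaseChange L
(modularFunctionFieldFull N)`).  The degeneracy maps from level `N` to level `N ℓ` are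
`α : f(q) ↦ f(q)` (`heckeAlphaBar`) and `β : f(q) ↦ f(q^ℓ)` (`heckeBetaBar`).
Files: Prelude, `H99Emb1`. -/
theorem functionField {L : Type*} [Field L] [Algebra ℚ L] (N ℓ : ℕ) [NeZero N] [NeZero ℓ] :
    H99.FX L N = IntermediateField.adjoin L
        {x | ∃ (d : ℕ) (_ : NeZero d), d ∣ N ∧ x = qExpand L d (jqModC L)} ∧
      (∀ f : H99.FX L N, (heckeAlphaBar L N ℓ f : LaurentSeries L) = f) ∧
      (∀ f : H99.FX L N, (heckeBetaBar L N ℓ f : LaurentSeries L) = qExpand L ℓ f) :=
  ⟨H99.FX_eq N, coe_heckeAlphaBar N ℓ, coe_heckeBetaBar N ℓ⟩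

/-- **2. What has to be proved about Jacobians.**  `JZero N` is the group of divisor classes of
degree zero of `X₀(N)` over the algebraic closure of `ℚ`, and `H67.degPush d` the push-forward along
the degeneracy map `f(q) ↦ f(q^d)`.  `H35.FixedInput p q M`: for some place `A` above `q` there is a
bound `p ^ c` for the order of the inertia invariants in the `p`-power torsion of `J₀(M q)` which
are killed by both push-forwards to `J₀(M)`.  (It is used for `M = m q`.)  File: `H35Fin`. -/
theorem fixedInput_iff (p q M : ℕ) [NeZero M] [NeZero (M * q)] [NeZero q] :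
    H35.FixedInput p q M ↔
      ∃ (c : ℕ) (A : ValuationSubring (AlgebraicClosure ℚ)), A.LiesOverPrime q ∧
        ∀ x : JZero (M * q), (∃ n : ℕ, p ^ n • x = 0) →
          (∀ σ ∈ A.inertiaSubgroupIn ℚ, σ • x = x) →
          H67.degPush (M := M) 1 (by simp) x = 0 → H67.degPush (M := M) q (dvd_refl _) x = 0 →
          p ^ c • x = 0 :=
  Iff.rfl

/-- **3. What has to be proved about functions.**  `H92.CoreK K m q d C`: let `f ≠ 0` be a function
on `X₀(q² m)` over `K` whose divisor is divisible by `d` and whose norms `N_α f`, `N_β f` to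
`X₀(q m)` (`H60.normAlong φ` is `Algebra.norm` along `φ`) are constants times `d`-th powers.  Then
`f ^ C` is a constant times a `d`-th power.  File: `H92CarC`. -/
theorem coreK_iff (K : Type*) [Field K] [Algebra ℚ K] (m q d C : ℕ) [NeZero m] [NeZero q]
    [NeZero (m * q)] [NeZero (m * q * q)] :
    H92.CoreK K m q d C ↔
      ∀ f : H99.FX K (m * q * q), f ≠ 0 →
        (∀ P : Place K (H99.FX K (m * q * q)), (d : ℤ) ∣ P.ord f) →
        ∀ (c c' : K) (g g' : H99.FX K (m * q)), c ≠ 0 → c' ≠ 0 → g ≠ 0 → g' ≠ 0 →
          H60.normAlong (heckeAlphaBar K (m * q) q) f = algebraMap K _ c * g ^ d →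
          H60.normAlong (heckeBetaBar K (m * q) q) f = algebraMap K _ c' * g' ^ d →
          ∃ (c₁ : K) (g₁ : H99.FX K (m * q * q)), c₁ ≠ 0 ∧ g₁ ≠ 0 ∧
            f ^ C = algebraMap K _ c₁ * g₁ ^ d :=
  Iff.rfl

/-- **4. The base field.**  `A` is a valuation ring of the algebraic closure of `ℚ` above `q`,
`H36.KI A` the fixed field of its inertia group, `H36.OI A` its valuation ring and `H36.piI A π` the
restriction of the residue map `π` to `H36.OI A`.  The residue map is still surjective, `q` is a
uniformizer of `OI A`, and units of `OI A` have `d`-th roots if `q ∤ d`.  These properties are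
collected in the structure `H83.BaseHyp`, which is a hypothesis of the theorems below.
Files: `H83WindA`, `H36KI` (with `H1Inertia`, `H44EDisc`). -/
theorem inertiaField (A : ValuationSubring (AlgebraicClosure ℚ)) {q : ℕ} [Fact q.Prime]
    (hA : A.LiesOverPrime q) {d : ℕ} (hd : ¬ q ∣ d) :
    (∀ x, x ∈ H36.KI A ↔ ∀ σ ∈ A.inertiaSubgroupIn ℚ, σ x = x) ∧
      (∀ x : H36.KI A, x ∈ H36.OI A ↔ (x : AlgebraicClosure ℚ) ∈ A) ∧
      Function.Surjective (H36.piI A (IsLocalRing.residue A)) ∧
      (∀ c : H36.KI A, c ≠ 0 → ∃ (n : ℤ) (o : H36.OI A),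
        H36.piI A (IsLocalRing.residue A) o ≠ 0 ∧ c = (q : H36.KI A) ^ n * (o : H36.KI A)) ∧
      (∀ o : H36.OI A, H36.piI A (IsLocalRing.residue A) o ≠ 0 → ∃ r : H36.OI A, r ^ d = o) :=
  have h := H36.baseHyp A (IsLocalRing.residue A) hA IsLocalRing.residue_surjective hd
  ⟨fun _ => H36.mem_KI, fun _ => Iff.rfl, h.surj, h.exists_zpow, h.exists_root⟩

/-! ## B. From S36 to functions (stages 1 and 2) -/

/-- **5. S36 follows from the bound for inertia invariants.**  `H30.JZeroInputs N` collects the
standard facts on `J₀(N)` (finite torsion, commuting Galois and Hecke actions, specialisation at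
good primes with the Eichler-Shimura relation, faithfulness of the Hecke action on torsion; proved
for all `N` as `H31.jzeroInputs`), and `H35.S36Conclusion` is literally the conclusion of theorem
31.  Proof: let `χ` be the eigensystem of `g`, and suppose that its representation is unipotent on
inertia at `q`.  Then the `χ`-part of `O ⊗ T_p J₀(q² m)` contains a nonzero vector fixed by inertia.
As `χ` does not occur in `J₀(q m)`, some Hecke operator kills `J₀(q m)[p^∞]` but has a nonzero
eigenvalue on the `χ`-part, so both push-forwards are zero on the `χ`-part.  Taking coordinates over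
`ℤ_p` one finds a nonzero vector of `T_p J₀(q² m)` which is fixed by inertia and killed by both
push-forwards (`H35.exists_fixed_of_unipotent`); but `p ^ c` would kill it.
Files: `H35Fin`, `H35S35`, `H35VFinal`, `H35VGlue`. -/
theorem s36_of_fixedInput {M : ℕ} [NeZero M] {g : CuspForm (CongruenceSubgroup.Gamma0 M) 2}
    (hg : g.IsNewform) (p : ℕ) [Fact p.Prime] (S : Finset ℕ)
    (O' : Type) [CommRing O'] [IsDomain O'] [IsDiscreteValuationRing O']
    [IsAdicComplete (IsLocalRing.maximalIdeal O') O'] [Finite (IsLocalRing.ResidueField O')]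
    [CharZero O'] (hpO' : (p : O') ∈ IsLocalRing.maximalIdeal O')
    (chig : CuspForm.heckeAlgebra M 2 (↑S : Set ℕ) →+* ℂ)
    (hchig : ∀ (ℓ : ℕ) (hℓ : ℓ.Prime) (hℓM : ¬ ℓ ∣ M) (hℓS : ℓ ∉ (↑S : Set ℕ)),
      chig (CuspForm.heckeAlgebra.T hℓ hℓM hℓS) = ModularFormClass.qCoeff g ℓ)
    (iota : chig.range →+* O') (hpS : p ∈ S) (hMS : ∀ q : ℕ, q.Prime → q ∣ M → q ∈ S)
    (hJ : ∀ (N : ℕ) [NeZero N], H30.JZeroInputs N)
    (hfix : ∀ (p q m : ℕ) [NeZero m] [NeZero (m * q * q)] [NeZero (m * q)] [NeZero q],
      p.Prime → q.Prime → q ≠ p → ¬ q ∣ m → H35.FixedInput p q (m * q)) :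
    H35.S36Conclusion p M S O' (iota.comp chig.rangeRestrict) :=
  H35.S36_of_fixed hg p S O' hpO' chig hchig iota hpS hMS hJ hfix

/-- **6. The bound for inertia invariants follows from the statement on functions.**  It may be
proved at a level `m'` which is a multiple of `m` (prime to `q`), over the inertia field of any
place `A` above `q`.  Proof: let `x` be fixed by inertia, `p ^ n x = 0`.  For the smallest `r` such
that `x + r ∞` is the class of an effective divisor `E`, this divisor is unique, and so is the
function `f` with divisor `p ^ n (E - r ∞)` and leading coefficient `1`.  Hence `f` is invariant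
under inertia (`H40.exists_isRep`) and has coefficients in `K_I` (`H92.exists_baseIncl_eq`).  The
push-forward of `x` is represented by the norm of `f`; if it vanishes, the norm is a constant times
a `p ^ n`-th power (`H92.isPowInv_norm`).  Divisibility of orders descends to `K_I`
(`H92.dvd_ord_of_baseIncl`).  Finally `f ^ C = c g ^ (p ^ n)` means `C x = 0`.  The passage from `m`
to `m'` uses the base change formula for push-forward and pull-back, `H92.degPull_degPush_aux`.
Files: `H40Rep`, `H92CarAux`, `H92CarB`, `H92CarBase`, `H92CarC`, `H92CarD`. -/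
theorem fixedInput_of_coreK {p q m m' : ℕ} [NeZero m] [NeZero m'] [NeZero q] [NeZero (m * q)]
    [NeZero (m' * q)] [NeZero (m * q * q)] [NeZero (m' * q * q)] (hp : p.Prime) (hq : q.Prime)
    (hqm' : ¬ q ∣ m') (hmm' : m ∣ m') (A : ValuationSubring (AlgebraicClosure ℚ))
    (hA : A.LiesOverPrime q) {C : ℕ} (hC : C ≠ 0)
    (hcore : ∀ n : ℕ, H92.CoreK (H36.KI A) m' q (p ^ n) C) : H35.FixedInput p q (m * q) :=
  H92.fixedInput_of_core_KI hp hq hqm' hmm' A hA hC hcore

/-! ## C. The coordinate of level 4 or 9 (chapter C1) -/

/-- **7. The Hauptmoduln.**  `H1.X4 = (η(z)/η(4z))^8` and `H1.X9 = (η(z)/η(9z))^3`, as Laurent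
series over any commutative ring; `H1.Xc c` is the coordinate of level `c = 4` or `9`.  Both are
integral over `ℤ[j]` by these explicit equations.  They follow from the equations `(t+256)³ = j t²`
and `(t+27)(t+243)³ = j t³` for `t = (η(z)/η(2z))^24` and `t = (η(z)/η(3z))^12` (`H23HauptL`), by
`t = X4²/(X4+16)` and `t = X9³/(X9²+9 X9+27)`.  Files: `H1Haupt`, `H1HauptMem`. -/
theorem hauptmodul (K : Type*) [CommRing K] :
    H1.Xc 4 K = H1.X4 K ∧ H1.Xc 9 K = H1.X9 K ∧
      (H1.X4 K ^ 2 + 256 * H1.X4 K + 4096) ^ 3 = jqModC K * (H1.X4 K ^ 4 * (H1.X4 K + 16)) ∧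
      (H1.X9 K + 9) ^ 3 * (H1.X9 K ^ 3 + 243 * H1.X9 K ^ 2 + 2187 * H1.X9 K + 6561) ^ 3 =
        jqModC K * (H1.X9 K ^ 9 * (H1.X9 K ^ 2 + 9 * H1.X9 K + 27)) :=
  ⟨H1.Xc_four K, H1.Xc_nine K, H1.X4_j K, H1.X9_j K⟩

/-- **8. The derivation `d/dX`.**  If `c = 4` or `9` divides `N`, the coordinate `X = H1.Xc c` is a
function on `X₀(N)`, the derivation `d/dX = θ(·)/θ(X)` maps the function field of `X₀(N)` to itself,
and it preserves the functions which are regular outside the cusps, i.e. integral over `L[j]`.  The
last point says that `X` is etale outside the cusps: at each place where `j` is finite some `X - a`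
is a uniformizer (`H1.Coord.exists_uniformizer`).  Reason: the ramification index of `j` is at most
`3` over `0`, `2` over `1728` and `1` elsewhere, and there are equations `P(X)³ = j T(X)` (theorem
7), `S(X)² = (j - 1728) T(X)`.  Proved over `ℂ` and descended to `L ⊂ ℂ`.
Files: `H1HauptMem`, `H1HauptRing`, `H1HauptDer`, `H1HauptFinal`, `H68TwoDer`. -/
theorem derivation {L : Type*} [Field L] [Algebra ℚ L] [CharZero L] (ι : L →+* ℂ) {N c : ℕ}
    [NeZero N] (hc : c = 4 ∨ c = 9) (hcN : c ∣ N) :
    H1.Xc c L ∈ H99.FX L N ∧
      (∀ f ∈ H99.FX L N, H61.theta f / H61.theta (H1.Xc c L) ∈ H99.FX L N) ∧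
      ∀ f ∈ H99.FX L N, IsIntegral (Algebra.adjoin L {jqModC L}) f →
        IsIntegral (Algebra.adjoin L {jqModC L}) (H61.theta f / H61.theta (H1.Xc c L)) :=
  ⟨H1.Xc_mem_baseChange L hc (NeZero.ne N) hcN, fun f hf => H68.ddXs_mem L c N hc hcN ⟨f, hf⟩,
    fun f hf h => H68.dX_eq L c f ▸ H1.intJ_iff.2 (H1.dX_intJ ι hc hcN hf (H1.intJ_iff.1 h))⟩

/-! ## D. The special fibre of `X₀(m)`, `q ∤ m` (chapter C2) -/

/-- **9. Good reduction of `X₀(N)` at `ℓ ∤ N` (Igusa).**  The function field of `X₀(N)` in
characteristic `ℓ`, `k(j(q^d) : d ∣ N) ⊂ k((q))`, has the same genus (`genusFF`, the genus of the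
Riemann-Roch theorem) as the function field in characteristic zero.  The proof does not belong to
this block; see `GuideFunctionField`, section 3, and chapter [291] NOTES-S18-GENUS of `NOTES.md`.
Files: `H88GenusEq`, `H18Inst`. -/
theorem igusa_genus (N : ℕ) [NeZero N] {ℓ : ℕ} [Fact ℓ.Prime] (hℓN : ¬ ℓ ∣ N)
    (A : ValuationSubring (AlgebraicClosure ℚ)) (hA : A.LiesOverPrime ℓ) :
    genusFF (AlgebraicClosure ℚ) (H99.FX (AlgebraicClosure ℚ) N) =
      genusFF (IsLocalRing.ResidueField A)
        (modularFunctionFieldFullC (IsLocalRing.ResidueField A) N) :=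
  H88.genusFFEq N hℓN A hA

/-- **10. Residues of Laurent series: the Gauss ring.**  `A` is a valuation ring of `K` with residue
map `π : A → k`.  `H99.GR A π ⊂ K((q))` is the ring of quotients `y / z` of series with coefficients
in `A` with `z` nonzero modulo the maximal ideal; `H99.gres A π` is the residue map to `k((q))`
(extended by `0`).  All the residue maps of the block are defined in this way.
File: `H99Gauss`. -/
theorem gaussRing {K : Type*} [Field K] {A : ValuationSubring K} {k : Type*} [Field k]
    {π : A →+* k} :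
    (∀ x : LaurentSeries K, x ∈ H99.GR A π ↔ ∃ y z : LaurentSeries A,
        coeffMap π z ≠ 0 ∧ x * coeffMap A.subtype z = coeffMap A.subtype y) ∧
      ∀ y : LaurentSeries A, H99.gres A π (coeffMap A.subtype y) = coeffMap π y :=
  ⟨fun _ => H99.gr_mem_iff, H99.gres_int⟩

/-- **11. Lifting of functions.**  Each function `x` on the special fibre of `X₀(m)` which is
regular outside the cusps is the residue of a function `f` on `X₀(m)` over the inertia field which
is regular outside the cusps.  Proof: by theorem 9 the Riemann-Roch spaces `L(n D)`, `D` the divisor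
of poles of `j` (of degree `[F : K(j)] = ψ(m)` in both cases), have the same dimension in
characteristic `0` and `q` for large `n`, so reduction maps the one onto the other (`H88.red_eq`).
The first has a basis of functions with coefficients in `K_I` (Galois descent,
`H18.exists_rational_basis`), and by dimensions these functions have all the reductions
(`H18.exists_rational_lift`).  Files: `H18LiftK`, `H18LiftKK`, `H68TwoInst`, `H83C9b`. -/
theorem lift_special {q m : ℕ} [NeZero m] [Fact q.Prime] (hqm : ¬ q ∣ m)
    (A : ValuationSubring (AlgebraicClosure ℚ)) (hA : A.LiesOverPrime q)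
    (x : LaurentSeries (IsLocalRing.ResidueField A))
    (hx : x ∈ modularFunctionFieldFullC (IsLocalRing.ResidueField A) m)
    (hxj : IsIntegral (Algebra.adjoin (IsLocalRing.ResidueField A)
      {jqModC (IsLocalRing.ResidueField A)}) x) :
    ∃ f : H99.FX (H36.KI A) m,
      IsIntegral (Algebra.adjoin (H36.KI A) {jqModC (H36.KI A)}) (f : LaurentSeries (H36.KI A)) ∧
      (f : LaurentSeries (H36.KI A)) ∈ H99.GR (H36.OI A) (H36.piI A (IsLocalRing.residue A)) ∧
      H99.gres (H36.OI A) (H36.piI A (IsLocalRing.residue A)) f = x :=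
  H83.liftK_KI hqm A hA x ⟨hx, hxj⟩

/-- **12. The residue data.**  `H83.ResData k E q` (file `H83Def`) describes the target of all
residue maps, `E = k((q))`, `k` algebraically closed of characteristic `q`: the endomorphism `Φ`
with `x ^ q = Φ (φ x)`, where `φ` is the coefficientwise Frobenius; the coordinate ring `C` of the
special fibre of `X₀(m)` outside the cusps, which is a Dedekind ring with residue fields `k` and
stable under `φ` (it is `H18.Cm k m` in the theorems below); the coordinate `X ∈ C` and the
derivation `D = d/dX` which maps `C` to itself.  It exists: `D C ⊂ C` follows from theorems 8 and 11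
by reduction (`H68.ddX_mem_Cm`); the hypothesis `hg` is the equality of genera of theorem 9.
Files: `H18ResData`, `H68TwoInst`. -/
theorem exists_resData {q m c : ℕ} [Fact q.Prime] [NeZero m] (hqm : ¬ q ∣ m) (hc : c = 4 ∨ c = 9)
    (hcm : c ∣ m) (A : ValuationSubring (AlgebraicClosure ℚ)) (hA : A.LiesOverPrime q) {k : Type*}
    [Field k] [IsAlgClosed k] [CharP k q] (π : A →+* k) [IsLocalHom π]
    (hπ : Function.Surjective π) (hg : H18.GenusFFEq (AlgebraicClosure ℚ) k m) :
    ∃ R : H83.ResData k (LaurentSeries k) q,
      (∀ x, x ∈ R.C ↔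
        x ∈ modularFunctionFieldFullC k m ∧ IsIntegral (Algebra.adjoin k {jqModC k}) x) ∧
      R.X = H1.Xc c k ∧ (∀ x, R.D x = H61.theta x / H61.theta (H1.Xc c k)) ∧
      ∀ x, R.Φ x = qExpand k q x :=
  ⟨H68.resDataX A π hπ (H36.natCast_ne_zero_of_not_dvd A π hA hqm) hc hcm q H24.embBar hg,
    fun _ => Iff.rfl, rfl, fun _ => rfl, fun _ => rfl⟩

/-! ## E. Level `q m`: two components (chapter C3)

`H83.CompSys F E q ι` (file `H83Def`) is the language for the models: a field `F`, a ring `hor ⊂ F`
of functions regular in characteristic zero on a chart, valuation rings `V i` (`i : ι`) of `F`, the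
components of the special fibre, with residue maps `ρ i : V i → E` and multiplicities `e i` (the
`e i`-th power of a nonunit is divisible by `q`).  For `x : F`, `res i x` is the residue of `x`, and
`0` if `x ∉ V i`.  The chart ring is `B = hor ∩ ⋂ V i`, and `p i ⊂ B` is the prime ideal of the
component `i`. -/

/-- **13. The two components of `X₀(q m)`.**  `H83.TwoData R F'`: a `CompSys` with two components of
multiplicity one whose residue maps send the chart ring onto `R.C`, the involution `W = w_q` which
exchanges the components, the coordinate `X` (with `res 0 (W X) = X ^ q`), the derivation `d/dX` and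
its compatibility with the residue map and with `W`, and the fact that `(1/q) dW(X)/dX` does not
vanish along the component `0`.  Here `F'` is the function field of `X₀(q m)` over `K`; the
component `0` is given by the Gauss valuation of the `q`-expansion of `x` and the component `1` by
that of `w_q x`.  `w : H99.AL K m q` is the Atkin-Lehner involution, `H99.Unif A π q` says that `q`
is a uniformizer of `A`.  Surjectivity onto `R.C` comes from the lifting theorem 11; integrality of
residues from `[F' : K(j)] = (q + 1) ψ(m)`.  Files: `H68TwoBase`, `H68TwoDer`, `H68TwoFrame`,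
`H68TwoData`. -/
theorem exists_twoData {K k : Type*} [Field K] [Algebra ℚ K] [CharZero K] [Field k] [IsAlgClosed k]
    {q m c : ℕ} [Fact q.Prime] [NeZero q] [NeZero m] [CharP k q] (hqm : ¬ q ∣ m)
    (hc : c = 4 ∨ c = 9) (hcm : c ∣ m) {A : ValuationSubring K} {π : A →+* k}
    (hπ : Function.Surjective π) (hq : H99.Unif A π (q : A)) (ι : K →+* ℂ) (w : H99.AL K m q)
    (R : H83.ResData k (LaurentSeries k) q) (hRC : ∀ x, x ∈ R.C ↔ x ∈ H18.Cm k m)
    (hRX : R.X = H1.Xc c k) (hRD : ∀ x, R.D x = H61.theta x / H61.theta (H1.Xc c k))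
    (hlift : ∀ x ∈ H18.Cm k m, ∃ f : H99.FX K m,
      IsIntegral (Algebra.adjoin K {jqModC K}) (f : LaurentSeries K) ∧
      (f : LaurentSeries K) ∈ H99.GR A π ∧ H99.gres A π (f : LaurentSeries K) = x) :
    ∃ T : H83.TwoData R (H99.FX K (m * q)),
      (∀ x, x ∈ T.hor ↔ IsIntegral (Algebra.adjoin K {jqModC K}) (x : LaurentSeries K)) ∧
      (∀ x, x ∈ T.V 0 ↔ (x : LaurentSeries K) ∈ H99.GR A π) ∧
      (∀ x, x ∈ T.V 1 ↔ (w.W x : LaurentSeries K) ∈ H99.GR A π) ∧
      (∀ x, T.res 0 x = H99.gres A π (x : LaurentSeries K)) ∧
      (∀ x, T.res 1 x = H99.gres A π (w.W x : LaurentSeries K)) ∧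
      (∀ x, T.W x = w.W x) ∧ (T.X : LaurentSeries K) = H1.Xc c K :=
  ⟨H68.twoData hc hcm w hq R ι hπ hqm hRC hRX hRD hlift, fun _ => H68.mem_hor, fun _ => Iff.rfl,
    fun _ => Iff.rfl, H68.twoSys_res w hq 0, H68.twoSys_res w hq 1, fun _ => rfl, rfl⟩

/-- **14. The supersingular points of `X₀(q m)`.**  Let `Y = w_q X`.  Along the component `0` one
has `Y ≡ X ^ q`, along the component `1` one has `X ≡ Y ^ q`, so that `(X - Y^q)(Y - X^q)/q` is in
the chart ring.  At a point through which both components pass it is a unit, i.e. the local equation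
of the model is `(X - Y^q)(Y - X^q) = q · unit`.  Proof: on the component `0` the function `X - Y^q`
reduces to `X - X^(q²)`, with derivative `1`; it vanishes at the point, because it vanishes along
the component `1`; so it is a uniformizer there.  If the function of the theorem vanished at the
point, the residue of `(Y - X^q)/q` would be regular at the point, hence also the residue of
`δ/q = d((Y - X^q)/q)/dX + X^(q-1)`, where `δ = dY/dX`.  But its inverse `q/δ = q W(δ)` vanishes
along the component `1`, hence at the point.  File: `H83Two`. -/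
theorem double_point {k E : Type*} [Field k] [Field E] [Algebra k E] {q : ℕ} {R : H83.ResData k E q}
    {F' : Type*} [Field F'] (T : H83.TwoData R F') (m : Ideal T.B) [m.IsPrime] (h0 : T.p 0 ≤ m)
    (h1 : T.p 1 ≤ m) :
    (⟨(T.X - T.W T.X ^ q) * (T.W T.X - T.X ^ q) / (q : F'), T.zz_mem⟩ : T.B) ∉ m :=
  T.zz_notMem m h0 h1

/-! ## F. Level `q² m`: three components (chapter C4) -/

/-- **15. The three embeddings.**  `K' = K(ζ)`, `ζ` a primitive `q`-th root of unity, is a totally
ramified extension with the same residue field (`H99.RamData`, for `K = K_I` constructed in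
`H16Ram`).  The component `i` of `X₀(q² m)` is given by the embedding `H99.emb3 i` of its function
field into `K'((q))`, followed by the Gauss valuation: for `i = 0` the `q`-expansion of `x`, for
`i = 2` that of `w_{q²} x`, and for `i = 1` the expansion at the middle cusp, which is determined by
its values on the images of `α` and `β` (they generate the function field).  Here `w`, `w₂` are the
Atkin-Lehner involutions of `X₀(q m)` and `X₀(q² m)`.  Files: `H99Emb1`-`H99Emb3`, `H99Three3`. -/
theorem three_embeddings {K K' k : Type*} [Field K] [Field K'] [Algebra K K'] [Field k]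
    [Algebra ℚ K] [Algebra ℚ K'] [CharZero K'] [Fact (H66.HasRoots K')]
    {A : ValuationSubring K} {π : A →+* k} {A' : ValuationSubring K'} {π' : A' →+* k}
    {q m : ℕ} [NeZero m] [NeZero q] (hq : q.Prime) (hqm : ¬ q ∣ m)
    {w : H99.AL K m q} (w' : H99.AL K' m q) (w₂ : H99.AL2 K m q w) (D : H99.RamData A π A' π' q) :
    (∀ x, H99.emb3 hq hqm w' w₂ D 0 x = coeffMap (algebraMap K K') (x : LaurentSeries K)) ∧
      (∀ x, H99.emb3 hq hqm w' w₂ D 2 x =
        coeffMap (algebraMap K K') (w₂.W₂ x : LaurentSeries K)) ∧
      (∀ x : H99.FX K (m * q), H99.emb3 hq hqm w' w₂ D 1 (heckeAlphaBar K (m * q) q x) =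
        coeffMap (algebraMap K K') (x : LaurentSeries K)) ∧
      (∀ x : H99.FX K (m * q), H99.emb3 hq hqm w' w₂ D 1 (heckeBetaBar K (m * q) q x) =
        H60.twist D.ζ (coeffMap (algebraMap K K') (w.W x : LaurentSeries K))) :=
  ⟨fun _ => rfl, fun _ => rfl, H99.midK_alpha hq hqm w' D.prim, H99.midK_beta hq hqm w' w D.prim⟩

/-- **16. Residues of norms.**  `H83.ThreeData T F`: a `CompSys` with three components of
multiplicities `1, q - 1, 1`, whose residue maps send the chart ring onto `R.C`, with the two maps
`α, β : F' → F` from level `q m`, the norms `Nα, Nβ : F → F'`, and the residues of `α x`, `β x`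
(`res 0, res 1` of `α x` are `res 0 x` and `res 2 (α x) = Φ (res 1 x)`; `res 1, res 2` of `β x` are
`res 1 x` and `res 0 (β x) = Φ (res 0 x)`).  A uniformizer at the middle component is
`w = X(q²z) - X(z) = β (W X) - α X`, and `w ^ (q - 1) / q` has residue `-(1/q) dW(X)/dX`.  The
residues of the norms are the following; they replace the description of the degeneracy maps on
the special fibre.  In the instance they are computed by writing the norm as the product over the
`q` embeddings, one of type `0` and `q - 1` conjugates of the middle one.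
Files: `H83Def`, `H99Three5` (`H99.normHom_alpha_zero`, `H99.normHom_alpha_one`), `H99Three6`. -/
theorem norm_residues {k E : Type*} [Field k] [Field E] [Algebra k E] {q : ℕ}
    {R : H83.ResData k E q} {F' F : Type*} [Field F'] [Field F] {T : H83.TwoData R F'}
    (S : H83.ThreeData T F) (x : F) :
    (x ∈ S.V 0 → x ∈ S.V 1 →
        S.Nα x ∈ T.V 0 ∧ T.res 0 (S.Nα x) = S.res 0 x * S.res 1 x ^ (q - 1)) ∧
      (x ∈ S.V 2 → S.Nα x ∈ T.V 1 ∧ T.res 1 (S.Nα x) = R.φ (S.res 2 x)) ∧
      (x ∈ S.V 2 → x ∈ S.V 1 →
        S.Nβ x ∈ T.V 1 ∧ T.res 1 (S.Nβ x) = S.res 2 x * S.res 1 x ^ (q - 1)) ∧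
      (x ∈ S.V 0 → S.Nβ x ∈ T.V 0 ∧ T.res 0 (S.Nβ x) = R.φ (S.res 0 x)) :=
  ⟨S.Nα_V0 x, S.Nα_V1 x, S.Nβ_V1 x, S.Nβ_V0 x⟩

/-- **17. The chart rings are integral closures (chapter C6).**  `O` is a discrete valuation ring
with fraction field `K` and uniformizer `q`, `J` a transcendental element of `F`, and `S` a
`CompSys` on `F` such that the residue `jb i` of `J` at each component `i` is transcendental over
`k` (`H16.Ch.GaussRes`).  Suppose that for each `i` there are elements of `⋂ V i` as follows
(`H16.Ch.Enough`): `μ i` elements whose residues at `i` are independent over `k[jb i]`, a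
uniformizer at `i`, and an element with nonzero residue at `i` only.  If `∑ e i μ i = [F : K(J)]`,
then the `V i` are all the components of the model: the functions regular on the chart `t = J` or
`t = 1/J` in characteristic zero and at all `V i` are the functions integral over `O[t]`, and they
form a noetherian ring.  Files: `H16Fund`, `H16Chart`, `H16Gs`. -/
theorem chart_ring {O K F k E : Type*} [CommRing O] [IsDomain O] [IsDiscreteValuationRing O]
    [Field K] [CharZero K] [Algebra O K] [IsFractionRing O K] [Field F] [Algebra K F] [Algebra O F]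
    [IsScalarTower O K F] [Field k] [Field E] [Algebra k E] {q : ℕ} {ι : Type*} [Fintype ι]
    [Nonempty ι] {S : H83.CompSys F E q ι} {red : O →+* k} {J : F} {jb : ι → E} {μ : ι → ℕ}
    (hq : Prime (q : O)) (hJ : Transcendental K J) (h : H16.Ch.GaussRes S red J jb)
    (hE : H16.Ch.Enough S k jb μ) (hcard : ∑ i, S.e i * μ i = Module.finrank K⟮J⟯ F)
    (hpos : 0 < ∑ i, S.e i * μ i) (t : F) (ht : t = J ∨ t = J⁻¹) :
    (∀ x : F, (IsIntegral (Algebra.adjoin K {t}) x ∧ ∀ i, x ∈ S.V i) ↔
        IsIntegral (Algebra.adjoin O {t}) x) ∧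
      IsNoetherianRing (integralClosure (Algebra.adjoin O {t}) F) :=
  H16.Ch.chart_main hq hJ h hE hcard hpos t ht

/-- **18. The three components of `X₀(q² m)`.**  The three embeddings of theorem 15 give a
`ThreeData`: in theorem 17 one has `μ = (ψ(m), ψ(m), q² ψ(m))`, `e = (1, q - 1, 1)` and
`[F : K(j)] = (q² + q) ψ(m)`.  The last line says that the chart ring is the integral closure of
`A[j]`.  `S.Hyp A π` (file `H83WindB`) are compatibilities with constants: the residue maps are `π`
on `A`, every element of `F` is a quotient of elements of the chart ring, and `α`, `β` are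
`K`-linear.  Files: `H99Hor`, `H99Three1`-`H99Three8`, `H67Eps`, `H89Car`, `H89Car2`, `H16ResInd`,
`H16Three`, `H16Inst`, `H24CuspX`. -/
theorem exists_threeData {K K' k : Type*} [Field K] [Field K'] [Algebra K K'] [Field k]
    [Algebra ℚ K] [Algebra ℚ K'] [CharZero K] [CharZero K'] [IsAlgClosed k]
    [Fact (H66.HasRoots K')] {A : ValuationSubring K} [IsDiscreteValuationRing A] {π : A →+* k}
    {A' : ValuationSubring K'} {π' : A' →+* k} {q m c : ℕ} [hq : Fact q.Prime] [NeZero q] [NeZero m]
    [CharP k q] (hqm : ¬ q ∣ m) (hc : c = 4 ∨ c = 9) (hcm : c ∣ m) {w : H99.AL K m q}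
    (w' : H99.AL K' m q) (w₂ : H99.AL2 K m q w) (w₂' : H99.AL2 K' m q w')
    (D : H99.RamData A π A' π' q) (hG : D.Gal) (hπ : Function.Surjective π) (ι : K →+* ℂ)
    (R : H83.ResData k (LaurentSeries k) q) (hRC : ∀ x, x ∈ R.C ↔ x ∈ H18.Cm k m)
    (hRX : R.X = H1.Xc c k) (hRD : ∀ x, R.D x = H61.theta x / H61.theta (H1.Xc c k))
    (hRΦ : ∀ x, R.Φ x = qExpand k q x)
    (hlift : ∀ x ∈ H18.Cm k m, ∃ f : H99.FX K m,
      IsIntegral (Algebra.adjoin K {jqModC K}) (f : LaurentSeries K) ∧
      (f : LaurentSeries K) ∈ H99.GR A π ∧ H99.gres A π (f : LaurentSeries K) = x) :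
    ∃ (T : H83.TwoData R (H99.FX K (m * q))) (S : H83.ThreeData T (H99.FX K (m * q * q))),
      (∀ i x, x ∈ S.V i ↔ H99.emb3 hq.out hqm w' w₂ D i x ∈ H99.GR A' π') ∧
      (∀ i x, S.res i x = H99.gres A' π' (H99.emb3 hq.out hqm w' w₂ D i x)) ∧
      (∀ x, S.α x = heckeAlphaBar K (m * q) q x) ∧ (∀ x, S.β x = heckeBetaBar K (m * q) q x) ∧
      (∀ x, S.Nα x = H60.normAlong (heckeAlphaBar K (m * q) q) x) ∧
      (∀ x, S.Nβ x = H60.normAlong (heckeBetaBar K (m * q) q) x) ∧ S.Hyp A π ∧
      S.B = H36.chart A (H99.jX K (m * q * q)) :=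
  ⟨_, H99.threeX hqm w' w₂ w₂' D hG R hc hcm ι hπ hRC hRX hRD hlift hRΦ, fun _ _ => Iff.rfl,
    H99.threeSys_res _ hqm w' w₂ D, fun _ => rfl, fun _ => rfl, fun _ => rfl, fun _ => rfl,
    H99.threeX_hyp hqm w' w₂ w₂' D hG R hc hcm ι hπ hRC hRX hRD hlift hRΦ,
    (H24.chartX hqm w' w₂ w₂' D hG R hc hcm ι hπ hRC hRX hRD hlift hRΦ).1⟩

/-! ## G. Local rings, normalisation, windings

In this section `S` is a `ThreeData`, `d` a natural number, `hO : H83.BaseHyp O π q d` are the
properties of the base ring listed in theorem 4 and `H : S.Hyp O π` the compatibilities mentioned in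
18.  `H83.locRing S.B m` is the localization of the chart ring at a prime ideal `m`, as a subring of
`F`; `S.p i ≤ m` means that the component `i` passes through the point `m`. -/

/-- **19. Local structure of the model of `X₀(q² m)`.**  Let `m` be a prime of the chart ring
containing `q`.  (a) If two components pass through `m`, all three do.  (b) The local ring is
factorial.  (c) A function which is `≡ 1` along all components and whose divisor in characteristic
zero is divisible by `d` is `h ^ d` times a unit of the local ring.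

Proof of (a): by theorem 14, a point of the components `0, 1` lies on the component `2` if its image
under `α` lies on the component `1` of level `q m`, and it is then determined by this image, because
`α` is the Frobenius on the component `2`; and `α` takes the same value at the points of the
components `0` and `1` with the same coordinates.  Similarly for `β`, with `0` and `2` exchanged.
Proof of (b): one component through `m` is defined at `m` by one equation `z` (`α (X - Y ^ q)` for
the component `2` at a point on all components, by theorem 14; otherwise `q` or, for the middle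
component, the function `w` of theorem 16), and it is a smooth curve; a noetherian local domain with
a prime element `z` such that `R/(z)` is a principal ideal ring is factorial (`H83.ufd_of_prime`).
Proof of (c): the exponents in `f` of the prime elements of the local ring are orders of `f` at
places, or `0` if the prime element defines a component.
Files: `H83Comp`, `H83Point`, `H83UFD`, `H83Three`, `H83Fact`, `H83Unit`. -/
theorem local_structure {k E : Type*} [Field k] [Field E] [Algebra k E] {q : ℕ}
    {R : H83.ResData k E q} {F' F : Type*} [Field F'] [Field F] {T : H83.TwoData R F'}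
    (S : H83.ThreeData T F) {K : Type*} [Field K] [Algebra K F'] [Algebra K F]
    {O : ValuationSubring K} {π : O →+* k} {d : ℕ} (hO : H83.BaseHyp O π q d) (H : S.Hyp O π)
    (m : Ideal S.B) [m.IsPrime] (hqm : (q : S.B) ∈ m) :
    ((S.p 0 ≤ m ∧ S.p 1 ≤ m) ∨ (S.p 0 ≤ m ∧ S.p 2 ≤ m) ∨ (S.p 1 ≤ m ∧ S.p 2 ≤ m) →
        S.p 0 ≤ m ∧ S.p 1 ≤ m ∧ S.p 2 ≤ m) ∧
      UniqueFactorizationMonoid (H83.locRing S.B m) ∧
      ∀ f : F, (∀ i, S.res i f = 1) → (∀ P : Place K F, (d : ℤ) ∣ P.ord f) →
        ∃ (h : F) (a b : S.B), h ≠ 0 ∧ a ∉ m ∧ b ∉ m ∧ f * (b : F) = h ^ d * (a : F) :=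
  ⟨S.all_of_two m, S.ufd m hqm, fun _ hf hord => H.fact hO hf hord m hqm⟩

/-- **20. Normalisation of the valuations.**  If the norms of `f` are constants times `d`-th powers,
then some `q ^ z f ^ (q + 1) / a ^ d` is a unit at all three components.  Proof: let `n₀, n₁, n₂` be
the valuations of `f`.  Theorem 16 gives `n₀ + n₁ ≡ v`, `q n₂ ≡ v`, `n₂ + n₁ ≡ v'`, `q n₀ ≡ v'`
modulo `d`, where `v, v'` are the valuations of the constants; hence `(q + 1) (n₂ - n₀) ≡ 0` and
`(q + 1) n₁ ≡ (q - 1) (q + 1) n₀`.  Then use weak approximation for `V 0`, `V 1`, `V 2`.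
Files: `H83WA`, `H83Val`, `H83WindB`. -/
theorem normalisation {k E : Type*} [Field k] [Field E] [Algebra k E] {q : ℕ}
    {R : H83.ResData k E q} {F' F : Type*} [Field F'] [Field F] {T : H83.TwoData R F'}
    {S : H83.ThreeData T F} {K : Type*} [Field K] [Algebra K F'] [Algebra K F]
    {O : ValuationSubring K} {π : O →+* k} {d : ℕ} (hO : H83.BaseHyp O π q d) (H : S.Hyp O π)
    {f : F} (hf : f ≠ 0) {c c' : K} (hc : c ≠ 0) (hc' : c' ≠ 0) {g g' : F'} (hg : g ≠ 0)
    (hg' : g' ≠ 0) (hα : S.Nα f = algebraMap K F' c * g ^ d)
    (hβ : S.Nβ f = algebraMap K F' c' * g' ^ d) :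
    ∃ (z : ℤ) (a : F), a ≠ 0 ∧ ∀ i, S.res i ((q : F) ^ z * f ^ (q + 1) / a ^ d) ≠ 0 :=
  H83.ThreeData.exists_normalize hO H hf hc hc' hg hg' hα hβ

/-- **21. Normalisation of the residues.**  If `f` is a unit at the three components and both norms
are `d`-th powers, then some `f ^ (q - 1) / a ^ d` has residue `1` along all three components.
Proof: by theorem 16, `res 0 f`, `res 2 f` and `res 0 f · (res 1 f) ^ (q - 1)` are `d`-th powers, so
the three residues of `f ^ (q - 1)` are `d`-th powers, and they can be approximated by one function.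
File: `H83WindC`. -/
theorem residues_one {k E : Type*} [Field k] [Field E] [Algebra k E] {q : ℕ}
    {R : H83.ResData k E q} {F' F : Type*} [Field F'] [Field F] {T : H83.TwoData R F'}
    {S : H83.ThreeData T F} {K : Type*} [Field K] [Algebra K F'] [Algebra K F]
    {O : ValuationSubring K} {π : O →+* k} {d : ℕ} (hO : H83.BaseHyp O π q d) (H : S.Hyp O π)
    {f : F} (hf : ∀ i, S.res i f ≠ 0) {g g' : F'} (hα : S.Nα f = g ^ d) (hβ : S.Nβ f = g' ^ d) :
    ∃ a : F, (∀ i, S.res i a ≠ 0) ∧ ∀ i, S.res i (f ^ (q - 1) / a ^ d) = 1 :=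
  H83.ThreeData.exists_residue_one hO H hf hα hβ

/-- **22. The relations at a supersingular point.**  Let `f` have residue `1` along all components,
and let `f = h ^ d · (unit)` at a point `m` through which all three components pass (`f b = h ^ d a`
with `a, b ∉ m`).  Let `v i` be the value at `m` of the residue of `h` along the component `i`
(`S.nn m i` is the point of the Dedekind ring `R.C` corresponding to `m`, and `H83.IsVal R n x v`
says that `x` is regular at `n` with value `v`; these values are `d`-th roots of one and the same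
constant, the value of `b / a` at `m`).  If the norms of `f` are `g ^ d` and `g' ^ d`, then the
residues of `g` and `g'` are constant roots of unity `ζ₀, ζ₁`, `ζ₀', ζ₁'`, and the values satisfy
two relations in which these constants do not depend on the point.  Proof: compare `g` with the norm
of `h` at the image point of level `q m`, and use theorem 16.  Files: `H83WindD`, `H83WindE`. -/
theorem supersingular_relations {k E : Type*} [Field k] [Field E] [Algebra k E] {q : ℕ}
    {R : H83.ResData k E q} {F' F : Type*} [Field F'] [Field F] {T : H83.TwoData R F'}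
    {S : H83.ThreeData T F} {K : Type*} [Field K] [Algebra K F'] [Algebra K F]
    {O : ValuationSubring K} {π : O →+* k} {d : ℕ} (hO : H83.BaseHyp O π q d) (H : S.Hyp O π)
    (m : Ideal S.B) [m.IsPrime] (hm : ∀ i, S.p i ≤ m) (hmax : (S.nn m 1).IsMaximal) {f h : F}
    {a b : S.B} (hh : h ≠ 0) (ha : a ∉ m) (hb : b ∉ m) (hfb : f * (b : F) = h ^ d * (a : F))
    (hf : ∀ i, S.res i f = 1) {g g' : F'} (hα : S.Nα f = g ^ d) (hβ : S.Nβ f = g' ^ d)
    {v₀ v₁ v₂ ζ₀ ζ₁ ζ₀' ζ₁' : k} (h0 : H83.IsVal R (S.nn m 0) (S.res 0 h) v₀)
    (h1 : H83.IsVal R (S.nn m 1) (S.res 1 h) v₁) (h2 : H83.IsVal R (S.nn m 2) (S.res 2 h) v₂)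
    (z0 : T.res 0 g = algebraMap k E ζ₀) (z1 : T.res 1 g = algebraMap k E ζ₁)
    (z0' : T.res 0 g' = algebraMap k E ζ₀') (z1' : T.res 1 g' = algebraMap k E ζ₁')
    (n0 : ζ₀ ≠ 0) (n1 : ζ₁ ≠ 0) (n0' : ζ₀' ≠ 0) (n1' : ζ₁' ≠ 0) :
    v₀ * v₁ ^ (q - 1) / ζ₀ = v₂ ^ q / ζ₁ ∧ v₂ * v₁ ^ (q - 1) / ζ₁' = v₀ ^ q / ζ₀' :=
  ⟨H83.ThreeData.relation_α hO H m hm hmax hh ha hb hfb hf h0 h1 h2 z0 z1 n0 n1 hα,
    H83.ThreeData.relation_β hO H m hm hmax hh ha hb hfb hf h0 h1 h2 z0' z1' n0' n1' hβ⟩

/-- **23. Trivial windings.**  Let `f` have residue `1` along all components, `d ∣ div f`, and let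
both norms of `f` be `d`-th powers.  Then for some `a₀` with constant residues the function
`f₁ = f ^ (q² - 1) a₀ ^ d` has again residue `1` along all components, and at each closed point `m`
of the special fibre one has `f₁ = h ^ d · (unit)` with some `h` whose residues along all components
through `m` have the value `1` at `m` (the last line: `res i h = s/a` with `a, s ∉ m`, `a ≡ s`).
Proof: the relations of theorem 22 imply `v₀ ^ (q²-1) κ = v₁ ^ (q²-1) = v₂ ^ (q²-1) κ'` with
constants `κ, κ'` independent of the point (`H83.rel_solve`); take `a₀` with residues `κ, 1, κ'`.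
Through the other points only one component passes (theorem 19).  Files: `H83WindF`, `H83WindG`. -/
theorem windings {k E : Type*} [Field k] [Field E] [Algebra k E] [IsAlgClosed k] {q : ℕ}
    {R : H83.ResData k E q} {F' F : Type*} [Field F'] [Field F] {T : H83.TwoData R F'}
    {S : H83.ThreeData T F} {K : Type*} [Field K] [Algebra K F'] [Algebra K F]
    {O : ValuationSubring K} {π : O →+* k} {d : ℕ} (hO : H83.BaseHyp O π q d) (H : S.Hyp O π)
    {f : F} (hf : ∀ i, S.res i f = 1) (hord : ∀ P : Place K F, (d : ℤ) ∣ P.ord f) {g g' : F'}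
    (hα : S.Nα f = g ^ d) (hβ : S.Nβ f = g' ^ d) :
    ∃ a₀ : F, (∀ i, S.res i a₀ ≠ 0) ∧ (∀ i, S.res i (f ^ (q * q - 1) * a₀ ^ d) = 1) ∧
      ∀ (m : Ideal S.B) (hm : m.IsMaximal), (q : S.B) ∈ m →
        haveI := hm.isPrime
        ∃ h : F, h ≠ 0 ∧ f ^ (q * q - 1) * a₀ ^ d / h ^ d ∈ H83.locRing S.B m ∧
          (f ^ (q * q - 1) * a₀ ^ d / h ^ d)⁻¹ ∈ H83.locRing S.B m ∧
          ∀ i, S.p i ≤ m → ∃ a s : S.B, s ∉ m ∧ a - s ∈ m ∧ S.res i ((a : F) / s * h) = 1 :=
  H83.ThreeData.windings hO H hf hord hα hβ

/-! ## H. The cusps, the covering `y ^ d = f` and the end of the proof -/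

/-- **24. The cusps (chapter C5).**  `H24.CuspSys` describes the chart `1/j` of `X₀(q² m)`, with the
same three components; `D.yB` is the function `y = 1/j`, which vanishes at the cusps, as an element
of the chart ring.  Through a cusp of the special fibre passes exactly one component (so that there
is no condition on windings), and the local ring is factorial.  The proof uses the functions
`1/j(z)`, `1/j(q z)`, `1/j(q² z)` and integral relations between them, which come from the modular
polynomial over `ℤ`; see `GuideCarayolTools`, section D, and `GuideCusps`.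
Files: `H24Cusp`, `H24CuspSys`; instance: `H24CuspInst`, `H24CuspData`. -/
theorem cusps {k F E : Type*} [Field k] [Field F] [Field E] [Algebra k E] {q : ℕ}
    (D : H24.CuspSys k F E q) (m : Ideal D.B) [m.IsPrime] (hy : D.yB ∈ m) (hq : (q : D.B) ∈ m) :
    (∃! i, D.p i ≤ m) ∧ UniqueFactorizationMonoid (H83.locRing D.B m) :=
  ⟨D.existsUnique_p m hy hq, D.ufd m hy hq⟩

/-- **25. Charts.**  `O` is a discrete valuation ring contained in the field `F`, `t ∈ F`.
`H36.chart O t` is the ring of elements which are integral over `O[t]`; `H36.gs O t` is the integral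
closure of the Gauss ring, the semilocal ring of all components of the special fibre of the normal
model of `F` over the projective `t`-line over `O` (it does not change if `t` is replaced by
`t⁻¹`); `H36.InP t ϖ x` says that `x` is divisible by the uniformizer `ϖ` in this ring.
File: `H36Chart`. -/
theorem charts {O F : Type*} [CommRing O] [IsDomain O] [IsDiscreteValuationRing O] [Field F]
    [Algebra O F] (t : F) (ϖ : O) (x : F) :
    (x ∈ H36.chart O t ↔ IsIntegral (Algebra.adjoin O {t}) x) ∧
      (x ∈ H36.gs O t ↔
        ∃ p : O[X], p.map (IsLocalRing.residue O) ≠ 0 ∧ aeval t p * x ∈ H36.chart O t) ∧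
      (H36.InP t ϖ x ↔ (algebraMap O F ϖ)⁻¹ * x ∈ H36.gs O t) :=
  ⟨H36.mem_chart_iff_adjoin, Iff.rfl, Iff.rfl⟩

/-- **26. The special fibre is connected (chapter C7).**  `F` is a function field over the fraction
field `K` of `O`, with a rational point at which `t⁻¹` is a uniformizer (`H36.RatPoint K t⁻¹`: an
embedding `e : F → K((T))` over `K` such that `e t⁻¹` is a power series with zero constant term and
nonzero linear coefficient).  A function modulo `ϖ` on the special fibre which is idempotent, given
by `b` on the chart `t` and by `b'` on the chart `t⁻¹`, is `0` or `1`.  Proof: evaluation at the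
rational point gives the value `0` or `1`, say `0`; then one shows by a dimension count with Taylor
coefficients at the rational point that `b` is divisible by `ϖ` (see theorem 29 of
`GuideCarayolTools`).  This replaces Zariski's connectedness theorem.
Files: `H36ConnA`, `H36ConnB`, `H36Conn`. -/
theorem connectedness {O K F : Type*} [CommRing O] [IsDomain O] [IsDiscreteValuationRing O]
    [Field K] [CharZero K] [Algebra O K] [IsFractionRing O K] [Field F] [Algebra O F] [Algebra K F]
    [IsScalarTower O K F] {t : F} (ht : Transcendental K t) [FiniteDimensional K⟮t⟯ F]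
    (p : H36.RatPoint K t⁻¹) {ϖ : O} (hϖ : Irreducible ϖ) {b b' : F} (hb : b ∈ H36.chart O t)
    (hb' : b' ∈ H36.chart O t⁻¹) (h : H36.InP t ϖ (b ^ 2 - b)) (h' : H36.InP t ϖ (b - b')) :
    H36.InP t ϖ b ∨ H36.InP t ϖ (1 - b) :=
  H36.conn ht p hϖ hb hb' h h'

/-- **27. Trivial windings imply `d`-th power (chapter C7).**  Let `V i` be the valuation rings of
the components of the special fibre (`hS`: their intersection is `gs O t`; `hR`: they are
archimedean), `d` invertible in `O`, and suppose that `O` contains the `d`-th roots of unity.  Let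
`f ≡ 1` along all components; at each closed point of the special fibre, in both charts, let
`f = h ^ d · (unit)`, where the residues of `h` along all components through the point have the same
value there (this is the condition `hloc`: for `B` one of the two chart rings and `m` a maximal
ideal containing `ϖ`, the value is `1/c`); and let `f` be a `d`-th power in the Laurent series field
of the rational point.  Then `f` is a `d`-th power in `F`.  Proof: by theorem 26 for the
normalisation of the model in the splitting field `F'` of `y ^ d - f`, some root `y` is congruent to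
`1` at all maximal ideals of the ring `gs` of `F'`, hence fixed by the Galois group.
Files: `H36Max`, `H36MaxB`, `H36InjA`, `H36InjB`, `H36InjC`, `H36Inj`, `H36InjS`. -/
theorem root_of_trivial_windings {O K F : Type*} [CommRing O] [IsDomain O]
    [IsDiscreteValuationRing O] [Field K] [CharZero K] [Algebra O K] [IsFractionRing O K] [Field F]
    [Algebra O F] [Algebra K F] [IsScalarTower O K F] {t : F} (ht : Transcendental K t)
    [FiniteDimensional K⟮t⟯ F] (p : H36.RatPoint K t⁻¹) {ι : Type*} [Finite ι] [Nonempty ι]
    (V : ι → ValuationSubring F) (hS : ∀ x, x ∈ H36.gs O t ↔ ∀ i, x ∈ V i)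
    (hR : ∀ i (g z : F), (V i).valuation g < 1 → ∃ N : ℕ, g ^ N * z ∈ V i) {f : F} {d : ℕ}
    (hd : IsUnit (d : O)) {ζ : O} (hζ : IsPrimitiveRoot ζ d)
    (hf : ∀ i, (V i).valuation (f - 1) < 1) {ϖ : O} (hϖ : Irreducible ϖ)
    (hloc : ∀ B : Subring F, B = H36.chart O t ∨ B = H36.chart O t⁻¹ →
      ∀ m : Ideal B, m.IsMaximal → (∀ z : B, (z : F) = algebraMap O F ϖ → z ∈ m) →
        ∃ (h : F) (a b : B) (c : O) (c' : B), h ≠ 0 ∧ a ∉ m ∧ b ∉ m ∧
          f * (b : F) = h ^ d * (a : F) ∧ (c' : F) = algebraMap O F c ∧
          ∀ i, (∀ z : B, (V i).valuation (z : F) < 1 → z ∈ m) →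
            ∃ x s : B, s ∉ m ∧ (V i).valuation ((x : F) * h - s) < 1 ∧ x - c' * s ∈ m)
    {Y : LaurentSeries K} (hY : Y ^ d = p.e f) : ∃ y : F, y ^ d = f :=
  H36.inj ht p V hS hR hd hζ hf hϖ (hloc _ (Or.inl rfl)) (hloc _ (Or.inr rfl)) hY

/-- **28. The core theorem, abstract form.**  `H83.CoreHyp S O π D t` (file `H83Core`) says that the
three-component systems `S` on the chart `t` (`= j`) and `D` on the chart `t⁻¹` describe the normal
model over `O` of one and the same function field: same valuation rings, chart rings as in theorem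
17.  Let `d ∣ div f` and let the two norms of `f` be constants times `d`-th powers.  Then `f ^ C`
with `C = (q + 1)(q - 1)(q² - 1)` is a constant times a `d`-th power.  Proof: theorem 20 (exponent
`q + 1`); the constants are powers of `q` times units, which are `d`-th powers, so after this step
the norms are `d`-th powers; theorem 21 (exponent `q - 1`); theorem 23 (exponent `q² - 1`); finally
27, where the conditions at the cusps come from theorem 24, and `f` is a `d`-th power in the Laurent
series field because it is `h ^ d` times a unit at the cusp, and the constant term of the unit is a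
unit of `O` (`H83.CuspHyp.exists_root`).  Files: `H83CoreA`, `H83CoreB`, `H83Core`. -/
theorem core_abstract {k E : Type*} [Field k] [Field E] [Algebra k E] [IsAlgClosed k] {q : ℕ}
    {R : H83.ResData k E q} {F' F : Type*} [Field F'] [Field F] {T : H83.TwoData R F'}
    {S : H83.ThreeData T F} {K : Type*} [Field K] [CharZero K] [Algebra K F'] [Algebra K F]
    {O : ValuationSubring K} [IsDiscreteValuationRing O] {π : O →+* k} {d : ℕ}
    {D : H24.CuspSys k F E q} {t : F} (hO : H83.BaseHyp O π q d) (C : H83.CoreHyp S O π D t)
    (p : H36.RatPoint K t⁻¹) (hq : Irreducible (q : O)) {ζ : O} (hζ : IsPrimitiveRoot ζ d) {f : F}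
    (hf : f ≠ 0) (hord : ∀ P : Place K F, (d : ℤ) ∣ P.ord f) {c c' : K} (hc : c ≠ 0) (hc' : c' ≠ 0)
    {g g' : F'} (hg : g ≠ 0) (hg' : g' ≠ 0) (hα : S.Nα f = algebraMap K F' c * g ^ d)
    (hβ : S.Nβ f = algebraMap K F' c' * g' ^ d) :
    ∃ (c₁ : K) (g₁ : F), c₁ ≠ 0 ∧ g₁ ≠ 0 ∧
      f ^ ((q + 1) * (q - 1) * (q * q - 1)) = algebraMap K F c₁ * g₁ ^ d :=
  C.core hO p hq hζ hf hord hc hc' hg hg' hα hβ

/-- **29. The core theorem for `X₀(q² m)` over the inertia field** (see theorem 3 for `H92.CoreK`).
The hypotheses of theorem 28 are satisfied by theorems 4, 12, 13, 18 and 24, with `K' = K_I(ζ_q)`.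
Files: `H16Ram`, `H24CuspX`, `H36KIDesc`, `H83Inst`, `H83Inst2`, `H83C9`, `H83C9b`. -/
theorem core_inertiaField {q m c d : ℕ} [NeZero m] [NeZero q] [NeZero (m * q)]
    [NeZero (m * q * q)] (hq : q.Prime) (hqm : ¬ q ∣ m) (hc : c = 4 ∨ c = 9) (hcm : c ∣ m)
    (A : ValuationSubring (AlgebraicClosure ℚ)) (hA : A.LiesOverPrime q) (hd : ¬ q ∣ d) :
    H92.CoreK (H36.KI A) m q d ((q + 1) * (q - 1) * (q * q - 1)) :=
  H83.coreK_KI hq hqm hc hcm A hA hd

/-- **30. Carayol's bound.**  For all primes `p ≠ q` and all levels `m` prime to `q`: the inertia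
invariants of `J₀(q² m)[p^∞]` which are killed by both push-forwards to `J₀(q m)` are killed by a
power of `p` (see theorem 2).  Proof: theorem 6 with `m' = 4 m`, or `m' = 9 m` if `q = 2`, and 29.
This is also the field `fixed` of `H4.GeomInputs` (`H4EA`); in this way it is used in S03, S04, S06,
S38, S43, S45, S46, S50, S59, S60 and S01.  Files: `H83C9b`, `H92CarD`. -/
theorem fixedInput (p q m : ℕ) [NeZero m] [NeZero (m * q * q)] [NeZero (m * q)] [NeZero q]
    (hp : p.Prime) (hq : q.Prime) (hqp : q ≠ p) (hqm : ¬ q ∣ m) : H35.FixedInput p q (m * q) :=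
  H92.fixedInput_all H83.carCore p q m hp hq hqp hqm

/-- **31. S36.**  `g` is a newform of weight `2` on `Γ₀(M)`, `lam` a prime, `O'` a complete discrete
valuation ring with finite residue field of characteristic `lam`, and `iota ∘ chig` the system of
Hecke eigenvalues of `g` outside `S ∋ lam` with values in `O'`.  There are a finite extension `O''`
of `O'` and a representation `ρ` of the Galois group of `ℚ` over `O''` with the characteristic
polynomials `X² - a_ℓ(g) X + ℓ` of Frobenius elements, such that for all primes `q ≠ lam` which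
divide `M` exactly twice, `ρ` is not unipotent on inertia at `q`.  The hypotheses `lam ≠ 2` and
`hres` (residual irreducibility) of the frozen statement are not used in the proof: theorems 5 and
30.  File: `S36`. -/
theorem s36 {M : ℕ} [NeZero M] {g : CuspForm (CongruenceSubgroup.Gamma0 M) 2} (hg : g.IsNewform)
    (lam : ℕ) [Fact lam.Prime] (S : Finset ℕ)
    (O' : Type) [CommRing O'] [IsDomain O'] [IsDiscreteValuationRing O']
    [IsAdicComplete (IsLocalRing.maximalIdeal O') O'] [Finite (IsLocalRing.ResidueField O')]
    [CharZero O'] (hlamO' : (lam : O') ∈ IsLocalRing.maximalIdeal O') (hlam2 : lam ≠ 2)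
    (chig : CuspForm.heckeAlgebra M 2 (↑S : Set ℕ) →+* ℂ)
    (hchig : ∀ (ℓ : ℕ) (hℓ : ℓ.Prime) (hℓM : ¬ ℓ ∣ M) (hℓS : ℓ ∉ (↑S : Set ℕ)),
      chig (CuspForm.heckeAlgebra.T hℓ hℓM hℓS) = ModularFormClass.qCoeff g ℓ)
    (iota : chig.range →+* O') (hlamS : lam ∈ S) (hMS : ∀ q : ℕ, q.Prime → q ∣ M → q ∈ S)
    (hres : ∀ (O'' : Type) [CommRing O''] [IsDomain O''] [IsDiscreteValuationRing O'']
      [IsAdicComplete (IsLocalRing.maximalIdeal O'') O''] [Finite (IsLocalRing.ResidueField O'')]
      [CharZero O''] [Algebra O' O''] [Module.Finite O' O''] [IsLocalHom (algebraMap O' O'')],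
      Function.Injective (algebraMap O' O'') → ∀ (ρ : GaloisRepAdic O''),
      (∀ (ℓ : ℕ) (hℓ : ℓ.Prime) (_ : ℓ ≠ lam) (hℓM : ¬ ℓ ∣ M) (hℓS : ℓ ∉ (↑S : Set ℕ)),
        ∀ A : ValuationSubring (AlgebraicClosure ℚ), A.LiesOverPrime ℓ →
          ∀ σ : AlgebraicClosure ℚ ≃ₐ[ℚ] AlgebraicClosure ℚ, A.IsFrobeniusAt σ ℓ →
            LinearMap.charpoly (ρ.ρ σ) =
              X ^ 2 - C (algebraMap O' O'' ((iota.comp chig.rangeRestrict)
                (CuspForm.heckeAlgebra.T hℓ hℓM hℓS))) * X + C ((ℓ : O''))) →
      ρ.residual.IsAbsolutelyIrreducible ∧ ρ.residual.IsOdd) :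
    ∃ (O'' : Type) (_ : CommRing O'') (_ : IsDomain O'') (_ : IsDiscreteValuationRing O'')
      (_ : IsAdicComplete (IsLocalRing.maximalIdeal O'') O'')
      (_ : Finite (IsLocalRing.ResidueField O'')) (_ : CharZero O'') (_ : Algebra O' O'')
      (_ : Module.Finite O' O'') (_ : IsLocalHom (algebraMap O' O'')),
      Function.Injective (algebraMap O' O'') ∧
      ∃ ρ : GaloisRepAdic O'',
        (∀ (ℓ : ℕ) (hℓ : ℓ.Prime) (hℓM : ¬ ℓ ∣ M) (hℓS : ℓ ∉ (↑S : Set ℕ)),
          ∀ A : ValuationSubring (AlgebraicClosure ℚ), A.LiesOverPrime ℓ →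
            ∀ σ : AlgebraicClosure ℚ ≃ₐ[ℚ] AlgebraicClosure ℚ, A.IsFrobeniusAt σ ℓ →
              LinearMap.charpoly (ρ.ρ σ) =
                X ^ 2 - C (algebraMap O' O'' ((iota.comp chig.rangeRestrict)
                  (CuspForm.heckeAlgebra.T hℓ hℓM hℓS))) * X + C ((ℓ : O''))) ∧
        (∀ q : ℕ, q.Prime → q ≠ lam → M.factorization q = 2 →
          ¬ ρ.IsUnipotentOnInertiaAt q) :=
  S36.result hg lam S O' hlamO' hlam2 chig hchig iota hlamS hMS hres

end Fermat.Agent.Guide.Carayol
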