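import Fermat.Agent.S36

/-!
# Reader's guide to the block CARAYOL, part 2: the components of `X₀(q m)` and `X₀(q² m)`

Companion of `GuideCarayol` (read that file first).  It shows how the two-component system of
`X₀(q m)` (theorem 13 there) and the three-component system of `X₀(q² m)` (theorem 18 there) are
obtained from `q`-expansions.  As in the first file nothing is new: every theorem is written out in
full and proved by citing the library, and all of them are used in the proof of theorem 30 there,
the bound for inertia invariants, and so in the proofs of S01, S03, S04, S06, S36, S38, S43, S45,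
S46, S50, S58, S59 and S60.  Only the list `Guide` imports the file.

## Setting

`q` is a prime which does not divide `m`; `K` is a field of characteristic zero with a discrete
valuation ring `A` with uniformizer `q` and residue map `π : A → k`, `k` algebraically closed of
characteristic `q` (in the application the inertia field at `q`); `c = 4` or `9` divides `m`.

There are no schemes.  A component of the special fibre is a valuation ring of the function field
`F_N = H99.FX K N ⊂ K((t))`, obtained by composing an embedding of `F_N` into a field of Laurent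
series with the Gauss valuation (sections A and B).  The function field of level `q m` has two such
embeddings, the expansion at `∞` and its composition with the Atkin-Lehner involution; that of level
`q² m` has a third one in the middle, defined over `K' = K(ζ)`, where `ζ` is a primitive `q`-th root
of unity.  That these are all components, that residues of regular functions are regular, and that
the chart rings are integral closures, follows by comparing the degrees of the residue fields with
`[F_{q m} : K(j)] = (q + 1) ψ(m)` and `[F_{q² m} : K(j)] = (q² + q) ψ(m)`.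

## Reading order

A. Gauss rings.  B. Function fields of modular curves in `K((t))`.  C. Level `q m`.  D. Level
`q² m`.  E. Chart rings.  In `NOTES.md`: chapters [138] C3, [104] C4, [259] C6.  The theorems were
selected by helper68 (B, C), helper99 (A, D) and helper83; the library files are mainly theirs and
helper16's (E).  The proofs are explained step by step in `GuideIgusaModel`, sections 1 and 2 (B,
and the derivation `d/dX`), `GuideTwoComponents` (C), `GuideThreeSheets` (A, B, D) and `GuideCharts`
(E, and the extension `K(ζ)` of theorem 22).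
-/

set_option autoImplicit false

namespace Fermat.Agent.Guide.CarayolModel

open ModularCurve AlgebraicCurve Polynomial
open scoped IntermediateField

/-! ## A. Gauss rings -/

/-- **1. Uniformizers.**  `H99.Unif A π ϖ` says that `ϖ ≠ 0` generates the kernel of the residue map
`π : A → k` and that every nonzero element of `A` divides a power of `ϖ`, i.e. `A` is a discrete
valuation ring with uniformizer `ϖ` and residue map `π`.  File: `H99Gauss`. -/
theorem unif_iff {K : Type*} [Field K] {A : ValuationSubring K} {k : Type*} [Field k] {π : A →+* k}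
    (ϖ : A) : H99.Unif A π ϖ ↔ ϖ ≠ 0 ∧ π ϖ = 0 ∧ (∀ a : A, π a = 0 → ϖ ∣ a) ∧
      ∀ a : A, a ≠ 0 → ∃ n : ℕ, a ∣ ϖ ^ n :=
  ⟨fun h => ⟨h.1, h.2, h.3, h.4⟩, fun h => ⟨h.1, h.2.1, h.2.2.1, h.2.2.2⟩⟩

/-- **2. Residues.**  If `x = y / z` with series `y`, `z` with coefficients in `A`, and `z` is not
zero modulo the maximal ideal, then the residue `H99.gres A π x ∈ k((t))` is the quotient of the
reductions of `y` and `z`.  (The ring of all such `x` is the Gauss ring `H99.GR A π`, see theorem 10
of `GuideCarayol`; outside of it `gres` has the value `0`.)  File: `H99Gauss`. -/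
theorem residue_eq {K : Type*} [Field K] {A : ValuationSubring K} {k : Type*} [Field k]
    {π : A →+* k} {x : LaurentSeries K} {y z : LaurentSeries A} (hz : coeffMap π z ≠ 0)
    (h : x * coeffMap A.subtype z = coeffMap A.subtype y) :
    H99.gres A π x = coeffMap π y / coeffMap π z :=
  H99.gres_eq_div hz h

/-- **3. The Gauss ring as a valuation ring.**  `H99.Bdd A ⊂ K((t))` is the field of quotients of
series with bounded denominators.  On this field the Gauss ring is a valuation ring: if `x` is in
`H99.Bdd A`, then `x` is in the Gauss ring, or `x⁻¹` is and has residue `0`.  File: `H99Gauss2`. -/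
theorem gaussRing_valuation {K : Type*} [Field K] {A : ValuationSubring K} {k : Type*} [Field k]
    {π : A →+* k} {ϖ : A} (hϖ : H99.Unif A π ϖ) {x : LaurentSeries K} (hx : x ∈ H99.Bdd A) :
    x ∈ H99.GR A π ∨ (x⁻¹ ∈ H99.GR A π ∧ H99.gres A π x⁻¹ = 0) :=
  H99.mem_or_inv hϖ hx

/-- **4. Modular functions are bounded.**  Every element of the function field of `X₀(N)` is a
quotient of series with bounded denominators, because `j(t^d)` has coefficients in `ℤ`.  So the
Gauss ring induces a valuation ring of the function field.  File: `H99Gauss2`. -/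
theorem functionField_bounded {K : Type*} [Field K] [Algebra ℚ K] (A : ValuationSubring K) (N : ℕ)
    [NeZero N] (x : H99.FX K N) : (x : LaurentSeries K) ∈ H99.Bdd A :=
  H99.FX_le_Bdd A N (NeZero.ne N) x.2

/-! ## B. Function fields of modular curves in `L((t))` -/

/-- **5. Generators.**  `H66.J L d` is the series of `j(d z)`, that is `j` with `t` replaced by
`t ^ d`, and `H99.FX L N` is generated over `L` by the `H66.J L d` with `d ∣ N`.
Files: `H66Field`, `H66Gen`, `H99Emb1`. -/
theorem functionField_generators (L : Type*) [Field L] [Algebra ℚ L] {N : ℕ} (hN : N ≠ 0) :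
    (∀ (d : ℕ) [NeZero d], H66.J L d = qExpand L d (jqModC L)) ∧
      ∀ F : IntermediateField L (LaurentSeries L),
        H99.FX L N ≤ F ↔ ∀ d, d ∣ N → H66.J L d ∈ F :=
  ⟨fun d _ => H66.J_eq L d, fun F => by rw [H99.FX_eq]; exact H66.full_le_iff hN F⟩

/-- **6. Degrees.**  The degree of the function field of `X₀(N)` over `L(j)` is
`ψ(N) = N ∏ (1 + 1/p)`, for every field `L` of characteristic zero.  Over a field with enough roots
of unity all conjugates of `j(N z)` are written down as Laurent series in `t^(1/N)`; the general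
case follows by linear disjointness.  Files: `H66Degree`, `H99Base`. -/
theorem functionField_degree (L : Type*) [Field L] [Algebra ℚ L] (N : ℕ) [NeZero N] :
    IntermediateField.relfinrank L⟮jqModC L⟯ (modularFunctionFieldFullC L N) = dedekindPsi N :=
  H99.degreeFact L N

/-- **7. Homomorphisms are determined by the `j(d z)`.**  Two homomorphisms from the function field
of `X₀(M)` to a field which agree on constants and on all `j(d z)`, `d ∣ M`, are equal.  This is how
all identities between embeddings, degeneracy maps and Atkin-Lehner involutions are proved.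
File: `H99Base2`. -/
theorem ringHom_determined {L : Type*} [Field L] [Algebra ℚ L] {M : ℕ} (hM : M ≠ 0) {E : Type*}
    [Field E] (φ ψ : H99.FX L M →+* E)
    (h0 : ∀ c : L, φ (algebraMap L _ c) = ψ (algebraMap L _ c))
    (h : ∀ (d : ℕ) (hd : d ∣ M),
      φ ⟨H66.J L d, H99.J_mem_FX hM hd⟩ = ψ ⟨H66.J L d, H99.J_mem_FX hM hd⟩) : φ = ψ :=
  H99.ringHom_ext_J hM φ ψ h0 h

/-- **8. Regular functions.**  `H68.hor K N` is the ring of functions on `X₀(N)` which are integral
over `K[j]`, i.e. regular outside the cusps.  It contains `j(d z)`, and `j` is integral over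
`K[j(d z)]`: the functions `j(d z)` have the same poles.  File: `H68TwoBase`. -/
theorem regular_functions (K : Type*) [Field K] [CharZero K] [Algebra ℚ K] (N d : ℕ) [NeZero N]
    (hd : d ≠ 0) :
    (∀ x : H99.FX K N, x ∈ H68.hor K N ↔
        IsIntegral (Algebra.adjoin K {jqModC K}) (x : LaurentSeries K)) ∧
      IsIntegral (Algebra.adjoin K {jqModC K}) (H66.J K d) ∧
      IsIntegral (Algebra.adjoin K {H66.J K d}) (jqModC K) :=
  ⟨fun _ => H68.mem_hor, H68.isIntegral_J K d hd⟩

/-- **9. Kronecker's congruence.**  In characteristic `q` one has `j(t ^ q) = j(t) ^ q`, and the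
same holds for the coordinate `X` of level `4` or `9`, because the coefficients are in the prime
field.  Files: `H68TwoBase`, `H68TwoDer`. -/
theorem kronecker (k : Type*) [Field k] (c q : ℕ) [Fact q.Prime] [NeZero q] [CharP k q] :
    H66.J k q = jqModC k ^ q ∧ H1.Xc c k ^ q = qExpand k q (H1.Xc c k) :=
  ⟨H68.J_prime_eq_pow k q, H68.Xc_pow c q⟩

/-- **10. The Atkin-Lehner involution of level `q m`.**  `H99.AL K m q` is the type of automorphisms
`W` of the function field of `X₀(q m)` over `K` with `W² = 1` which exchange the two degeneracy maps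
from `X₀(m)`.  Such a `W` exists for every field `K ⊂ ℂ`, `m` and `q` coprime.  File: `H99Emb2`. -/
theorem exists_atkinLehner {K : Type*} [Field K] [Algebra ℚ K] {m q : ℕ} [NeZero m] [NeZero q]
    (ι : K →+* ℂ) (h : m.Coprime q) :
    ∃ W : H99.FX K (m * q) ≃ₐ[K] H99.FX K (m * q), (∀ x, W (W x) = x) ∧
      (∀ x, W (heckeAlphaBar K m q x) = heckeBetaBar K m q x) ∧
      ∀ x, W (heckeBetaBar K m q x) = heckeAlphaBar K m q x := by
  obtain ⟨w⟩ := H99.nonempty_AL ι h; exact ⟨w.W, w.invol, w.alpha, w.beta⟩

/-- **11. The Atkin-Lehner involution of level `q² m`.**  `H99.AL2 K m q w`, for `w : H99.AL K m q`,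
is the type of automorphisms `W₂` of the function field of `X₀(q² m)` with `W₂² = 1` which exchange
the two degeneracy maps `α, β` from `X₀(q m)` up to `w`.  File: `H99Emb3`. -/
theorem exists_atkinLehner_sq {K : Type*} [Field K] [Algebra ℚ K] {m q : ℕ} [NeZero m] [NeZero q]
    (ι : K →+* ℂ) (hq : q.Prime) (hqm : ¬ q ∣ m) (w : H99.AL K m q) :
    ∃ W₂ : H99.FX K (m * q * q) ≃ₐ[K] H99.FX K (m * q * q), (∀ x, W₂ (W₂ x) = x) ∧
      (∀ x, W₂ (heckeAlphaBar K (m * q) q x) = heckeBetaBar K (m * q) q (w.W x)) ∧
      ∀ x, W₂ (heckeBetaBar K (m * q) q x) = heckeAlphaBar K (m * q) q (w.W x) := by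
  obtain ⟨w₂⟩ := H99.nonempty_AL2 ι hq hqm w; exact ⟨w₂.W₂, w₂.invol, w₂.alpha, w₂.beta⟩

/-- **12. `d/dX` and residues.**  The derivation `d/dX = θ(·)/θ(X)` preserves the Gauss ring and
commutes with the residue map, because the coefficients of `X` are integers and its leading term is
`t⁻¹`, so that `θ(X)` has leading coefficient `-1`.  With `θ(f(t^q)) = q (θ f)(t^q)` this gives the
residue of `(1/q) dX(t^q)/dX(t)`, which is not zero (last field of `H83.TwoData`).
Files: `H68TwoDer`, `H68TwoData`. -/
theorem derivation_residue {K : Type*} [Field K] {A : ValuationSubring K} {k : Type*} [Field k]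
    {π : A →+* k} (c q : ℕ) [NeZero q] {x : LaurentSeries K} (hx : x ∈ H99.GR A π) :
    H61.theta x / H61.theta (H1.Xc c K) ∈ H99.GR A π ∧
      H99.gres A π (H61.theta x / H61.theta (H1.Xc c K)) =
        H61.theta (H99.gres A π x) / H61.theta (H1.Xc c k) ∧
      H61.theta (qExpand K q x) = (q : LaurentSeries K) * qExpand K q (H61.theta x) :=
  ⟨(H68.ddX_mem c hx).1, (H68.ddX_mem c hx).2, H68.theta_qExpand q x⟩

/-! ## C. Level `q m` (chapter C3) -/

/-- **13. The system of level `q m`.**  The chart ring `B` of the `CompSys` `H68.twoSys w hϖ`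
consists of the functions on `X₀(q m)` which are regular outside the cusps and whose two expansions
`H68.emb w 0 x = x` (at `∞`) and `H68.emb w 1 x = w_q x` are in the Gauss ring.  The residues of `x`
along the two components are the residues of these expansions.  File: `H68TwoBase`. -/
theorem twoSys_spec {K : Type*} [Field K] [Algebra ℚ K] [CharZero K] {m q : ℕ} [NeZero m]
    [NeZero q] {A : ValuationSubring K} {k : Type*} [Field k] [CharP k q] {π : A →+* k}
    (w : H99.AL K m q) (hϖ : H99.Unif A π (q : A)) (x : H99.FX K (m * q)) :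
    H68.emb w 0 x = (x : LaurentSeries K) ∧ H68.emb w 1 x = (w.W x : LaurentSeries K) ∧
      (x ∈ (H68.twoSys (k := k) w hϖ).B ↔
        x ∈ H68.hor K (m * q) ∧ ∀ i : Fin 2, H68.emb w i x ∈ H99.GR A π) ∧
      ∀ i, (H68.twoSys (k := k) w hϖ).res i x = H99.gres A π (H68.emb w i x) :=
  ⟨rfl, rfl, (H68.twoSys (k := k) w hϖ).mem_B, fun i => H68.twoSys_res w hϖ i x⟩

/-- **14. The two components are different**: neither valuation ring is contained in the other.
Kronecker's function `j(q z) - j(z)^q` has residue zero on one and not on the other.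
File: `H68TwoFrame`. -/
theorem components_incomparable {K : Type*} [Field K] [Algebra ℚ K] [CharZero K] {m q : ℕ}
    [NeZero m] [NeZero q] [Fact q.Prime] {A : ValuationSubring K} {k : Type*} [Field k] [CharP k q]
    {π : A →+* k} (w : H99.AL K m q) (hϖ : H99.Unif A π (q : A)) (i j : Fin 2) (hij : i ≠ j) :
    ¬ (H68.twoSys (k := k) w hϖ).V i ≤ (H68.twoSys (k := k) w hϖ).V j :=
  H68.incomparable w hϖ i j hij

/-- **15. Every function is a quotient of chart functions.**  For each `x` on `X₀(q m)` there is a
nonzero `b` in the chart ring with `x b` in the chart ring.  File: `H68TwoHyp`. -/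
theorem exists_quotient {K : Type*} [Field K] [Algebra ℚ K] [CharZero K] {m q : ℕ} [NeZero m]
    [NeZero q] {A : ValuationSubring K} {k : Type*} [Field k] [CharP k q] {π : A →+* k}
    (w : H99.AL K m q) (hϖ : H99.Unif A π (q : A)) (x : H99.FX K (m * q)) :
    ∃ b : (H68.twoSys (k := k) w hϖ).B, (b : H99.FX K (m * q)) ≠ 0 ∧
      x * b ∈ (H68.twoSys (k := k) w hϖ).B :=
  H68.twoSys_frac w hϖ x

/-- **16. The residue fields are large enough**: every function on `X₀(m)` over `k` is the residue,
along each of the two components, of a function on `X₀(q m)`.  Proof: the residues of `j(d z)` and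
`j(q d z)`.  File: `H68TwoFrame`. -/
theorem exists_lift_function {K : Type*} [Field K] [Algebra ℚ K] [CharZero K] {m q : ℕ} [NeZero m]
    [NeZero q] [Fact q.Prime] {A : ValuationSubring K} {k : Type*} [Field k] [CharP k q]
    {π : A →+* k} (w : H99.AL K m q) (hϖ : H99.Unif A π (q : A)) (hπ : Function.Surjective π)
    (i : Fin 2) (t : LaurentSeries k) (ht : t ∈ modularFunctionFieldFullC k m) :
    ∃ x : H99.FX K (m * q), H68.emb w i x ∈ H99.GR A π ∧ H99.gres A π (H68.emb w i x) = t := by
  obtain ⟨x, hx, h⟩ := H68.full_le_image w hϖ hπ i t ht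
  exact ⟨x, hx, (H68.comp_red w hϖ i x).symm.trans h⟩

/-- **17. The degrees.**  `[F_{q m} : K(j)] = ψ(q m) = (q + 1) ψ(m)` is the sum of the degrees of
the residue fields over the field generated by the residue of `j`, which is `j` on the component of
`∞` (degree `ψ(m)`) and `j ^ q` on the other one (degree `q ψ(m)`).  Hence there are no other
components and both residue fields are equal to the function field of `X₀(m)`.  (`H68.jF K N` and
`H18.jFull k m` are `j` as elements of the function fields.)  File: `H68TwoFrame`. -/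
theorem degree_sum (K : Type*) [Field K] [Algebra ℚ K] [CharZero K] (m q : ℕ) [NeZero m] [NeZero q]
    [Fact q.Prime] (k : Type*) [Field k] [CharP k q] [IsAlgClosed k] (hqm : ¬ q ∣ m)
    (hm : (m : k) ≠ 0) :
    Module.finrank K⟮H68.jF K (m * q)⟯ (H99.FX K (m * q)) = dedekindPsi (m * q) ∧
      Module.finrank k⟮H18.jFull k m⟯ (modularFunctionFieldFullC k m) = dedekindPsi m ∧
      Module.finrank k⟮H18.jFull k m ^ q⟯ (modularFunctionFieldFullC k m) = q * dedekindPsi m ∧
      dedekindPsi (m * q) = (q + 1) * dedekindPsi m :=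
  ⟨H68.finrank_jF (H99.degreeFact K) _, H68.finrank_jFull hm, H68.finrank_jFull_pow hm, by
    rw [mul_comm m q, H45.dedekindPsi_mul_of_not_dvd Fact.out (NeZero.ne m) hqm]⟩

/-- **18. Residues of chart functions are regular.**  If `b` is in the chart ring of `X₀(q m)`,
both residues of `b` are in `H18.Cm k m`, the ring of functions on `X₀(m)` over `k` which are
integral over `k[j]`.  Proof: by theorem 17 there is a basis adapted to both valuations (a frame),
so that the minimal polynomial of `b` over `K(j)` has coefficients in `A[j]`.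
Files: `H68TwoFrame`, `H84Int`. -/
theorem residue_regular {K : Type*} [Field K] [Algebra ℚ K] [CharZero K] {m q : ℕ} [NeZero m]
    [NeZero q] [Fact q.Prime] {A : ValuationSubring K} {k : Type*} [Field k] [IsAlgClosed k]
    [CharP k q] {π : A →+* k} (w : H99.AL K m q) (hϖ : H99.Unif A π (q : A))
    (hπ : Function.Surjective π) (hqm : ¬ q ∣ m) (hm : (m : k) ≠ 0) (i : Fin 2)
    {b : H99.FX K (m * q)} (hb : b ∈ (H68.twoSys (k := k) w hϖ).B) :
    H99.gres A π (H68.emb w i b) ∈ modularFunctionFieldFullC k m ∧
      IsIntegral (Algebra.adjoin k {jqModC k}) (H99.gres A π (H68.emb w i b)) :=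
  H68.r_mem w hϖ hπ (H99.degreeFact K) hqm hm i hb

/-- **19. Lifting of regular functions.**  Suppose that regular functions lift from the special
fibre of `X₀(m)` (theorem 11 of `GuideCarayol`).  Then every element of `H18.Cm k m` is the residue,
along each of the two components, of an element of the chart ring of `X₀(q m)`: apply one of the two
degeneracy maps.  File: `H68TwoData`. -/
theorem exists_lift_regular {K : Type*} [Field K] [Algebra ℚ K] [CharZero K] {m q : ℕ} [NeZero m]
    [NeZero q] [Fact q.Prime] {A : ValuationSubring K} {k : Type*} [Field k] [CharP k q]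
    {π : A →+* k} (w : H99.AL K m q) (hϖ : H99.Unif A π (q : A)) [IsAlgClosed k]
    (hlift : ∀ x ∈ H18.Cm k m, ∃ f : H99.FX K m,
      IsIntegral (Algebra.adjoin K {jqModC K}) (f : LaurentSeries K) ∧
        (f : LaurentSeries K) ∈ H99.GR A π ∧ H99.gres A π (f : LaurentSeries K) = x)
    (i : Fin 2) {x : LaurentSeries k} (hx : x ∈ H18.Cm k m) :
    ∃ b ∈ (H68.twoSys (k := k) w hϖ).B, H99.gres A π (H68.emb w i b) = x := by
  obtain ⟨b, hb⟩ := H68.exists_lift (k := k) w hϖ hlift i hx
  exact ⟨b, b.2, hb⟩

/-! ## D. Level `q² m` (chapter C4)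

`α = heckeAlphaBar K (m * q) q` and `β = heckeBetaBar K (m * q) q` are the two degeneracy maps from
level `q m` to level `q² m`. -/

/-- **20. The middle embedding.**  Let `v` be a primitive `q`-th root of unity in `L` and `W` the
Atkin-Lehner involution of level `q m`.  There is an embedding `σ` of the function field of
`X₀(q² m)` in `L((t))` with `σ (α x) = x` and `σ (β x) = (W x)(v t)`.  It is the expansion at a cusp
between `∞` and `0`.  (`H66.HasRoots L`: `L` contains the roots of unity of all prime orders.)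
File: `H99Emb1`. -/
theorem exists_middleEmbedding {L : Type*} [Field L] [Algebra ℚ L] [Fact (H66.HasRoots L)]
    [CharZero L] {m q : ℕ} [NeZero m] [NeZero q] (hq : q.Prime) (hqm : ¬ q ∣ m) {v : Lˣ}
    (hv : IsPrimitiveRoot v q) (W : H99.FX L (m * q) →ₐ[L] H99.FX L (m * q))
    (hα : ∀ x, W (heckeAlphaBar L m q x) = heckeBetaBar L m q x)
    (hβ : ∀ x, W (heckeBetaBar L m q x) = heckeAlphaBar L m q x) :
    ∃ σ : H99.FX L (m * q * q) →ₐ[L] LaurentSeries L,
      (∀ x : H99.FX L (m * q), σ (heckeAlphaBar L (m * q) q x) = (x : LaurentSeries L)) ∧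
      ∀ x : H99.FX L (m * q),
        σ (heckeBetaBar L (m * q) q x) = H60.twist v (W x : LaurentSeries L) :=
  H99.exists_midEmb hq hqm hv W hα hβ

/-- **21. The norm along `α`** is the product over the `q` embeddings of the function field of
`X₀(q² m)` which extend the inclusion of the one of `X₀(q m)`: the inclusion itself and the `q - 1`
middle embeddings (`H99.allEmb`).  This gives the residues of norms, theorem 16 of `GuideCarayol`.
File: `H99Emb2`. -/
theorem norm_eq_prod {L : Type*} [Field L] [Algebra ℚ L] [Fact (H66.HasRoots L)] [CharZero L]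
    {m q : ℕ} [NeZero m] [NeZero q] (hq : q.Prime) (hqm : ¬ q ∣ m) (w : H99.AL L m q)
    {u : Lˣ} (hu : IsPrimitiveRoot u q) (z : H99.FX L (m * q * q)) :
    ((H60.normAlong (heckeAlphaBar L (m * q) q) z : H99.FX L (m * q)) : LaurentSeries L) =
      ∏ i, H99.allEmb hq hqm w hu i z :=
  H99.coe_normAlong_alpha hq hqm w hu z

/-- **22. The extension `K' = K(ζ)`.**  `D : H99.RamData A π A' π' q` consists of a primitive `q`-th
root of unity `D.ζ` in `K'` and the statements that `q` is a uniformizer of `A`, that
`D.ϖ = D.ζ - 1` is a uniformizer of `A'`, and that the residue map of `A'` extends that of `A` (same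
residue field `k`).  `D.Gal` says that for each `i` prime to `q` there is an endomorphism of `K'`
over `K` which preserves `A'`, acts trivially on the residue field and maps `ζ` to `ζ ^ i` (so that
the `q - 1` conjugates of the middle embedding give the same component).  For the inertia field:
`H16Ram`.  Files: `H99Three1`, `H99Three3`. -/
theorem ramData_spec {K K' k : Type*} [Field K] [Field K'] [Algebra K K'] [Field k]
    {A : ValuationSubring K} {π : A →+* k} {A' : ValuationSubring K'} {π' : A' →+* k} {q : ℕ}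
    (D : H99.RamData A π A' π' q) :
    IsPrimitiveRoot D.ζ q ∧ (D.ϖ : K') = (D.ζ : K') - 1 ∧ H99.Unif A π (q : A) ∧
      H99.Unif A' π' D.ϖ ∧ ∀ a : A, ∃ h : algebraMap K K' a ∈ A', π' ⟨_, h⟩ = π a :=
  ⟨D.prim, D.coe_ϖ, D.unif, D.unif', fun a => ⟨D.mem a, D.map a⟩⟩

/-- **23. `(ζ - 1)^(q-1) = - q · (1 + …)`.**  `(1 - ζ)^(q-1)` times the product of the
`1 + ζ + … + ζ^(i-1)`, `0 < i < q`, is `q`; and this product is `≡ (q - 1)! ≡ -1` modulo `1 - ζ`.
So `ϖ = ζ - 1` has `ϖ^(q-1)/q ≡ -1`: this is why the middle component has multiplicity `q - 1`.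
File: `H99Cyclo`. -/
theorem one_sub_zeta_pow {R : Type*} [CommRing R] [IsDomain R] {q : ℕ} (hq : q.Prime) {ζ : R}
    (hζ : IsPrimitiveRoot ζ q) {k : Type*} [Field k] [CharP k q] (f : R →+* k) (h1 : f ζ = 1) :
    (1 - ζ) ^ (q - 1) * ∏ i ∈ Finset.Ico 1 q, (∑ j ∈ Finset.range i, ζ ^ j) = (q : R) ∧
      f (∏ i ∈ Finset.Ico 1 q, (∑ j ∈ Finset.range i, ζ ^ j)) = -1 :=
  ⟨H99.one_sub_pow_mul hq hζ, H99.prod_geom_eq hq f h1⟩

/-- **24. Twisting is differentiation.**  For a series `X` with coefficients in `A'`, the quotient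
`(X(ζ t) - X(t)) / (ζ - 1)` has coefficients in `A'` and reduces to `θ X̄ = t dX̄/dt`.
File: `H99Three1`. -/
theorem twist_sub_eq_theta {K K' k : Type*} [Field K] [Field K'] [Algebra K K'] [Field k]
    {A : ValuationSubring K} {π : A →+* k} {A' : ValuationSubring K'} {π' : A' →+* k} {q : ℕ}
    (D : H99.RamData A π A' π' q) (X : LaurentSeries A') :
    ∃ Y : LaurentSeries A', H60.twist D.u X - X = HahnSeries.single 0 D.ϖ * Y ∧
      coeffMap π' Y = H61.theta (coeffMap π' X) :=
  D.exists_twist_sub X

/-- **25. The three embeddings on `α f` and `β f`.**  With `(f)` the `q`-expansion, in `K'((t))`: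
`0`: `(f)(t)` and `(f)(t^q)`; `1`: `(f)(t)` and `(w f)(ζ t)`; `2`: `(w f)(t^q)` and `(w f)(t)`.
(`w'`, `w₂` are as in theorem 15 of `GuideCarayol`.)  File: `H99Three4`. -/
theorem embeddings_on_generators {K K' k : Type*} [Field K] [Field K'] [Algebra K K'] [Field k]
    {A : ValuationSubring K} {π : A →+* k} {A' : ValuationSubring K'} {π' : A' →+* k} {q : ℕ}
    [Algebra ℚ K] [Algebra ℚ K'] [CharZero K'] [Fact (H66.HasRoots K')] {m : ℕ} [NeZero m]
    [NeZero q] (hq : q.Prime) (hqm : ¬ q ∣ m) {w : H99.AL K m q} (w' : H99.AL K' m q)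
    (w₂ : H99.AL2 K m q w) (D : H99.RamData A π A' π' q) (f : H99.FX K (m * q)) :
    (H99.emb3 hq hqm w' w₂ D 0 (heckeAlphaBar K (m * q) q f) =
        coeffMap (algebraMap K K') (f : LaurentSeries K) ∧
      H99.emb3 hq hqm w' w₂ D 0 (heckeBetaBar K (m * q) q f) =
        qExpand K' q (coeffMap (algebraMap K K') (f : LaurentSeries K))) ∧
    (H99.emb3 hq hqm w' w₂ D 1 (heckeAlphaBar K (m * q) q f) =
        coeffMap (algebraMap K K') (f : LaurentSeries K) ∧
      H99.emb3 hq hqm w' w₂ D 1 (heckeBetaBar K (m * q) q f) =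
        H60.twist D.ζ (coeffMap (algebraMap K K') (w.W f : LaurentSeries K))) ∧
    (H99.emb3 hq hqm w' w₂ D 2 (heckeAlphaBar K (m * q) q f) =
        qExpand K' q (coeffMap (algebraMap K K') (w.W f : LaurentSeries K)) ∧
      H99.emb3 hq hqm w' w₂ D 2 (heckeBetaBar K (m * q) q f) =
        coeffMap (algebraMap K K') (w.W f : LaurentSeries K)) :=
  ⟨⟨H99.emb3_zero_alpha hq hqm w' w₂ D f, H99.emb3_zero_beta hq hqm w' w₂ D f⟩,
    ⟨H99.emb3_one_alpha hq hqm w' w₂ D f, H99.emb3_one_beta hq hqm w' w₂ D f⟩,
    ⟨H99.emb3_two_alpha hq hqm w' w₂ D f, H99.emb3_two_beta hq hqm w' w₂ D f⟩⟩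

/-- **26. The components of `X₀(q² m)`**: the valuation ring `V i` consists of the functions whose
image under the `i`-th embedding is in the Gauss ring, and the residue is the residue of this
expansion.  File: `H99Three3`. -/
theorem threeSys_spec {K K' k : Type*} [Field K] [Field K'] [Algebra K K'] [Field k]
    {A : ValuationSubring K} {π : A →+* k} {A' : ValuationSubring K'} {π' : A' →+* k} {q : ℕ}
    [Algebra ℚ K] [Algebra ℚ K'] [CharZero K'] [Fact (H66.HasRoots K')] {m : ℕ} [NeZero m]
    [NeZero q] (hq : q.Prime) (hqm : ¬ q ∣ m) {w : H99.AL K m q} (w' : H99.AL K' m q)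
    (w₂ : H99.AL2 K m q w) (D : H99.RamData A π A' π' q) [CharP k q] [CharZero K] (i : Fin 3)
    (x : H99.FX K (m * q * q)) :
    (x ∈ (H99.threeSys hq hqm w' w₂ D).V i ↔ H99.emb3 hq hqm w' w₂ D i x ∈ H99.GR A' π') ∧
      (H99.threeSys hq hqm w' w₂ D).res i x = H99.gres A' π' (H99.emb3 hq hqm w' w₂ D i x) :=
  ⟨H99.mem_threeSys_V hq hqm w' w₂ D, H99.threeSys_res hq hqm w' w₂ D i x⟩

/-- **27. Residues of `α f` and `β f`** along the components `0, 1, 2`, if `f₀, f₁` are the residues
of `f` along the two components of `X₀(q m)` and `Φ : t ↦ t^q`: `α f` has the residues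
`f₀, f₀, Φ f₁` and `β f` has the residues `Φ f₀, f₁, f₁`.  (These are fields of the structure
`H83.ThreeData` of `H83Def`; for the instance they follow from theorem 25.) -/
theorem residues_alpha_beta {k E : Type*} [Field k] [Field E] [Algebra k E] {q : ℕ}
    {R : H83.ResData k E q} {F' : Type*} [Field F'] {T : H83.TwoData R F'} {F : Type*} [Field F]
    (S : H83.ThreeData T F) (f : F') :
    (S.res 0 (S.α f) = T.res 0 f ∧ S.res 1 (S.α f) = T.res 0 f ∧
      S.res 2 (S.α f) = R.Φ (T.res 1 f)) ∧
    S.res 0 (S.β f) = R.Φ (T.res 0 f) ∧ S.res 1 (S.β f) = T.res 1 f ∧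
      S.res 2 (S.β f) = T.res 1 f :=
  ⟨⟨S.α_res0 f, S.α_res1 f, S.α_res2 f⟩, S.β_res0 f, S.β_res1 f, S.β_res2 f⟩

/-- **28. The uniformizer of the middle component.**  `w = X(q² z) - X(z) = β (W X) - α X` has
residue `0` along the middle component, and `w^(q-1) / q` is a unit there with residue
`-(1/q) dX(q z)/dX(z)`.  (Fields of `H83.ThreeData`; for the instance: by theorem 25, `w` is
`X(ζ t) - X(t)` in the middle embedding, now use theorems 24 and 23; `H67Eps`, `H99Three6`.) -/
theorem middle_uniformizer {k E : Type*} [Field k] [Field E] [Algebra k E] {q : ℕ}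
    {R : H83.ResData k E q} {F' : Type*} [Field F'] {T : H83.TwoData R F'} {F : Type*} [Field F]
    (S : H83.ThreeData T F) :
    S.res 1 (S.β (T.W T.X) - S.α T.X) = 0 ∧
      (S.β (T.W T.X) - S.α T.X) ^ (q - 1) / (q : F) ∈ S.V 1 ∧
      S.res 1 ((S.β (T.W T.X) - S.α T.X) ^ (q - 1) / (q : F)) =
        - T.res 0 (T.der (T.W T.X) / (q : F')) :=
  ⟨S.w_res, S.w_pow, S.w_pow_res⟩

/-! ## E. Chart rings are integral closures (chapter C6) -/

/-- **29. The hypotheses of the theorem on chart rings** (theorem 17 of `GuideCarayol`).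
`H16.Ch.GaussRes S red J jb`: the kernel of `red` is contained in `q O`, constants and `J` are in
all `V i`, with residues given by `red` and `jb i`, and `jb i` is transcendental.
`H16.Ch.Enough S k jb μ`: at each `i` there are `μ i` elements of `⋂ V i` with residues independent
over `k[jb i]`, a separator `s` and an element `w` with `w ^ e i / q` a unit.
File: `H16Chart`. -/
theorem gaussRes_enough {O F k E : Type*} [CommRing O] [IsDomain O] [Field F] [Algebra O F]
    [Field k] [Field E] [Algebra k E] {q : ℕ} {ι : Type*} {S : H83.CompSys F E q ι} {red : O →+* k}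
    {J : F} {jb : ι → E} {μ : ι → ℕ} :
    (H16.Ch.GaussRes S red J jb ↔ (∀ a : O, red a = 0 → (q : O) ∣ a) ∧
        (∀ i (a : O), algebraMap O F a ∈ S.V i ∧
          S.res i (algebraMap O F a) = algebraMap k E (red a)) ∧
        ∀ i, J ∈ S.V i ∧ S.res i J = jb i ∧ Transcendental k (jb i)) ∧
      (H16.Ch.Enough S k jb μ ↔ ∀ i, 0 < S.e i ∧
        (∃ (c : Fin (μ i) → E) (b : Fin (μ i) → F),
          (∀ P : Fin (μ i) → k[X], ∑ a, aeval (jb i) (P a) * c a = 0 → ∀ a, P a = 0) ∧
          (∀ a i', b a ∈ S.V i') ∧ ∀ a, S.res i (b a) = c a) ∧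
        (∃ s : F, (∀ i', s ∈ S.V i') ∧ S.res i s ≠ 0 ∧ ∀ i', i' ≠ i → S.res i' s = 0) ∧
        ∃ w : F, w ≠ 0 ∧ (∀ i', w ∈ S.V i') ∧ w ^ S.e i / (q : F) ∈ S.V i ∧
          (q : F) / w ^ S.e i ∈ S.V i) :=
  ⟨⟨fun h => ⟨h.1, fun i a => ⟨h.2 i a, h.3 i a⟩, fun i => ⟨h.4 i, h.5 i, h.6 i⟩⟩, fun h =>
    ⟨h.1, fun i a => (h.2.1 i a).1, fun i a => (h.2.1 i a).2, fun i => (h.2.2 i).1,
      fun i => (h.2.2 i).2.1, fun i => (h.2.2 i).2.2⟩⟩,
    fun h i => ⟨h.1 i, h.2 i, h.3 i, h.4 i⟩, fun h => ⟨fun i => (h i).1, fun i => (h i).2.1,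
      fun i => (h i).2.2.1, fun i => (h i).2.2.2⟩⟩

/-- **30. Chart rings, abstract form.**  `O` is a discrete valuation ring with fraction field `K`
and uniformizer `ϖ`, `J ∈ F` transcendental, and the `V i` are valuation rings of `F` which induce
the Gauss valuation on `K(J)` (`hG`).  If there are `[F : K(J)]` elements `b j` of `⋂ V i` which are
independent modulo `ϖ` (`hb`), then for `t = J` or `J⁻¹` the elements of `⋂ V i` which are integral
over `K[t]` are integral over `O[t]`, and the integral closure of `O[t]` is noetherian.  Proof: each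
`x ∈ ⋂ V i` is a combination of the `b j` with coefficients in the Gauss ring, so its minimal
polynomial has coefficients in the Gauss ring, and `K[t] ∩ (Gauss ring) = O[t]`.
File: `H16Fund`. -/
theorem chart_abstract {O K F : Type*} [CommRing O] [IsDomain O] [IsDiscreteValuationRing O]
    [Field K] [CharZero K] [Algebra O K] [IsFractionRing O K] [Field F] [Algebra K F] [Algebra O F]
    [IsScalarTower O K F] {ϖ : O} {J : F} {ι : Type*} [Nonempty ι] {V : ι → ValuationSubring F}
    {β : Type*} [Fintype β] {b : β → F} (hϖ : Prime ϖ) (hJ : Transcendental K J)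
    (hb : ∀ P : β → O[X], (∀ i, (∑ j, aeval J (P j) * b j) / algebraMap O F ϖ ∈ V i) →
      ∀ j, C ϖ ∣ P j) (hbV : ∀ j i, b j ∈ V i)
    (hG : ∀ i, (∀ P : O[X], aeval J P ∈ V i) ∧ (∀ P : O[X], ¬ C ϖ ∣ P → (aeval J P)⁻¹ ∈ V i) ∧
      (algebraMap O F ϖ)⁻¹ ∉ V i)
    (hcard : Fintype.card β = Module.finrank K⟮J⟯ F) (hβ : 0 < Fintype.card β) (t : F)
    (ht : t = J ∨ t = J⁻¹) :
    (∀ x : F, (IsIntegral (Algebra.adjoin K {t}) x ∧ ∀ i, x ∈ V i) ↔
      IsIntegral (Algebra.adjoin O {t}) x) ∧
    IsNoetherianRing (integralClosure (Algebra.adjoin O {t}) F) :=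
  H16.Ch.main hϖ hJ hb hbV (fun i => ⟨(hG i).1, (hG i).2.1, (hG i).2.2⟩) hcard hβ t ht

end Fermat.Agent.Guide.CarayolModel
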