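import Fermat.Agent.S36

/-!
# Reader's guide to the block CARAYOL, part 4: the steps of the local analysis

Companion of `GuideCarayol` (part 1), `GuideCarayolModel` (part 2) and `GuideCarayolTools` (part 3);
"theorem n of part 1" refers to these files, and part 1 should be read first.  Part 1 states the
main results on the model of `X₀(q² m)` and on windings; this file contains the steps of their
proofs, in the order of the library files `H83*`: points and local rings (theorems 1 to 7,
for theorem 19 of part 1), the double points of level `q m` (8 to 11, for 14), the three components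
of level `q² m` (12 to 17, for 16 and 19), the normalisation of a function (18 to 22, for 20 and
21), values at points (23 to 29, for 22 and 23), and the verification of hypotheses for `X₀(q² m)`
and for the inertia field (30 to 37, for 18, 24, 28 and 29).  The last section is on the coordinate
of level `4` or `9` (38 to 48, for 7 and 8).  There is nothing new: the theorems are written out in
full and proved by citing the library, and all of them are used in the proof
of theorem 30 of part 1, the bound for inertia invariants, and so in the proofs of S01, S03, S04,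
S06, S36, S38, S43, S45, S46, S50, S58, S59 and S60.  Only the list `Guide` imports the file.

In `NOTES.md`: [272] NOTES-CARAYOL-S36 (overview).  The other companions of part 1:
`GuideFixedFunctions` (from points of the Jacobian to functions), `GuideFunctionLifting` (lifting of
functions), `GuideTwoComponents` (level `q m`), `GuideThreeSheets` (level `q² m`), `GuideCusps` (the
chart `1/j`), `GuideCharts` (chart rings, and the field `K(ζ)`) and `GuideConnectedness` (chapter
C7, and the passage between the charts `j` and `1/j`).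

## Language

`S : CompSys F E q ι` describes a chart of a model of a curve with function field `F`: the ring
`S.hor` of the functions which are regular on the chart in characteristic zero, the valuation rings
`S.V i` of the components of the special fibre, the residues `S.res i x` in the field `E` (for
`X₀(N)` this is `k((q))`), the chart ring `S.B = hor ∩ ⋂ V i`, and the prime ideals `S.p i` of the
components (theorem 11 of part 3).  A *point* is a prime ideal `m` of `B` which contains `q`; it is
on the component `i` if `S.p i ≤ m`, and `locRing S.B m` is its local ring, as a subring of `F`.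
`R : ResData k E q` describes the special fibre of `X₀(m)` (theorem 12 of part 1): the Dedekind ring
`C` (`R.Cs` is `C` as a subring of `E`), the coordinate `X`, the derivation `D = d/dX`, the
coefficientwise Frobenius `φ` and `Φ : t ↦ t^q`, with `x^q = Φ (φ x)`.  `T : TwoData R F'` and
`S : ThreeData T F` describe `X₀(q m)` and `X₀(q² m)` (theorems 13 and 16 of part 1).  The residue
field `k` (characteristic `q`) is algebraically closed where `[IsAlgClosed k]` is assumed.
-/

set_option autoImplicit false

namespace Fermat.Agent.Guide.CarayolSteps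

open ModularCurve AlgebraicCurve Polynomial
open scoped IntermediateField
open Fermat.Agent.H83

/-! ## 1. Residues and chart rings -/

/-- **1. Rules for residues.**  `res i x` is the residue of `x` at the component `i` (and `0` if
`x ∉ V i`).  It is additive and multiplicative on `V i`, it is not zero exactly for the units of
`V i`, and the residue of `q` is `0`.  Files: `H83Comp`, `H83WA`. -/
theorem residue_rules {F E : Type*} [Field F] [Field E] {q : ℕ} {ι : Type*}
    (S : CompSys F E q ι) (i : ι) (x y : F) :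
    (x ∈ S.V i → y ∈ S.V i →
      S.res i (x + y) = S.res i x + S.res i y ∧ S.res i (x * y) = S.res i x * S.res i y) ∧
    (x ∈ S.V i → S.res i y ≠ 0 → x / y ∈ S.V i ∧ S.res i (x / y) = S.res i x / S.res i y) ∧
    (S.res i x ≠ 0 ↔ x ≠ 0 ∧ x ∈ S.V i ∧ x⁻¹ ∈ S.V i) ∧
    S.res i (q : F) = 0 :=
  ⟨fun hx hy => ⟨CompSys.res_add hx hy, CompSys.res_mul hx hy⟩,
    fun hx hy => ⟨CompSys.div_mem hx hy, CompSys.res_div hx hy⟩,
    ⟨fun h => ⟨CompSys.ne_zero_of_res h, CompSys.res_mul_ne h, CompSys.inv_mem h⟩,
      fun h => CompSys.res_ne_zero h.1 h.2.1 h.2.2⟩, CompSys.res_q S i⟩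

/-- **2. The chart ring** `B = hor ∩ ⋂ V i` is integrally closed.  A function in `hor` which is
divisible by `q` in every `V i` is divisible by `q` in `B`.  Every prime `P ∋ q` of `B` contains one
of the `p i`: each point is on some component.  Proof: otherwise there are `u i ∈ p i` outside `P`;
a high power of `∏ u i` is divisible by `q` in every `V i`, hence in `B`, so it is in `P`, a
contradiction.  File: `H83Comp`. -/
theorem chart_ring {F E : Type*} [Field F] [Field E] {q : ℕ} {ι : Type*} [Fintype ι]
    (S : CompSys F E q ι) :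
    (∀ x : F, IsIntegral S.B x → x ∈ S.B) ∧
    (∀ x ∈ S.hor, (∀ i, x / (q : F) ∈ S.V i) → x / (q : F) ∈ S.B) ∧
    ∀ P : Ideal S.B, P.IsPrime → (q : S.B) ∈ P → ∃ i, S.p i ≤ P :=
  ⟨S.B_closed, fun _ hx h => S.div_q_mem hx h, fun P _ hq => S.exists_p_le P hq⟩

/-- **3. Points of a component.**  Suppose that the residue map `S.r i : B → E` has image `C`.  Let
`m` be a point of the component `i` and `S.nI m hmem` the ideal of `C` which is generated by the
residues of the elements of `m`.  An element of `B` is in `m` if and only if its residue is in this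
ideal; the ideal is prime, and maximal if `m` is.  So the points of the component `i` are the primes
of `C`.  File: `H83Point`. -/
theorem point_on_component {F E : Type*} [Field F] [Field E] {q : ℕ} {ι : Type*}
    (S : CompSys F E q ι) (m : Ideal S.B) [m.IsPrime] {i : ι} (hp : S.p i ≤ m) {C : Subring E}
    (hmem : ∀ b : S.B, S.r i b ∈ C) (hsurj : ∀ c ∈ C, ∃ b : S.B, S.r i b = c) :
    (∀ b : S.B, (⟨S.r i b, hmem b⟩ : C) ∈ S.nI m hmem ↔ b ∈ m) ∧ (S.nI m hmem).IsPrime ∧
      (m.IsMaximal → (S.nI m hmem).IsMaximal) :=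
  ⟨fun _ => S.mem_nI m hp hmem hsurj, S.nI_isPrime m hp hmem hsurj,
    S.nI_isMaximal m hp hmem hsurj⟩

/-- **4. Local rings and residues.**  In the situation of theorem 3 the residue map sends the local
ring of `B` at `m` onto the local ring of `C` at the corresponding prime ideal.  File:
`H83Point`. -/
theorem local_ring_residues {F E : Type*} [Field F] [Field E] {q : ℕ} {ι : Type*}
    (S : CompSys F E q ι) (m : Ideal S.B) [m.IsPrime] {i : ι} (hp : S.p i ≤ m) {C : Subring E}
    (hmem : ∀ b : S.B, S.r i b ∈ C) (hsurj : ∀ c ∈ C, ∃ b : S.B, S.r i b = c)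
    [(S.nI m hmem).IsPrime] :
    (∀ x ∈ locRing S.B m, x ∈ S.V i ∧ S.res i x ∈ locRing C (S.nI m hmem)) ∧
      ∀ c ∈ locRing C (S.nI m hmem), ∃ x ∈ locRing S.B m, S.res i x = c :=
  ⟨fun x hx => ⟨S.locRing_le_V m hp hx, S.ρloc_mem m hp hmem hsurj ⟨x, hx⟩⟩,
    fun c hc => (S.exists_ρloc_eq m hp hmem hsurj c hc).elim fun x hx => ⟨x, x.2, hx⟩⟩

/-- **5. Factorial local rings.**  In the situation of theorem 3 let `B` be noetherian and `C` a
Dedekind ring, and suppose that the component `i` is given at `m` by one equation `z`: `z` has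
residue `0` and divides all elements of `p i` in the local ring.  Then the local ring is factorial.
Proof: `z` is a prime element, and the quotient by `z` is the local ring of `C`, a principal ideal
ring (theorem 14 of part 3).  The equations `z` for `X₀(q² m)` are given in theorem 19 (b) of part
1.  File: `H83Point`. -/
theorem factorial_at_point {F E : Type*} [Field F] [Field E] {q : ℕ} {ι : Type*}
    (S : CompSys F E q ι) (m : Ideal S.B) [m.IsPrime] {i : ι} (hp : S.p i ≤ m) {C : Subring E}
    (hmem : ∀ b : S.B, S.r i b ∈ C) (hsurj : ∀ c ∈ C, ∃ b : S.B, S.r i b = c)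
    [IsNoetherianRing S.B] [IsDedekindDomain C] (z : F) (hz0 : z ≠ 0) (hz : z ∈ locRing S.B m)
    (hzr : S.res i z = 0) (hgen : ∀ b ∈ S.p i, (b : F) / z ∈ locRing S.B m) :
    UniqueFactorizationMonoid (locRing S.B m) :=
  S.ufd_at m hp hmem hsurj z hz0 hz hzr hgen

/-! ## 2. Factorisation and places -/

/-- **6. Exponents.**  `R ⊂ F` is a factorial ring with fraction field `F` and `w` a prime element.
Every `x ≠ 0` is `w ^ n a / b` with `a`, `b` not divisible by `w`.  If for some `f` the exponents
`n` are divisible by `d` for all prime elements `w`, then `f` is a unit times a `d`-th power.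
File: `H83Fact`. -/
theorem factorisation {F : Type*} [Field F] (R : Subring F) [UniqueFactorizationMonoid R]
    (hfrac : ∀ x : F, ∃ a b : R, (b : F) ≠ 0 ∧ x * b = a) :
    (∀ w : R, Prime w → ∀ x : F, x ≠ 0 →
      ∃ (n : ℤ) (a b : R), ¬ w ∣ a ∧ ¬ w ∣ b ∧ x * b = (w : F) ^ n * a) ∧
    ∀ (d : ℕ), d ≠ 0 → ∀ f : F, f ≠ 0 →
      (∀ w : R, Prime w → ∀ (n : ℤ) (a b : R), ¬ w ∣ a → ¬ w ∣ b →
        f * b = (w : F) ^ n * a → (d : ℤ) ∣ n) →
      ∃ (u : Rˣ) (h : F), h ≠ 0 ∧ f = ((u : R) : F) * h ^ d :=
  ⟨fun _ hw _ hx => exists_zpow_mul hfrac hw hx,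
    fun _ hd _ hf H => exists_unit_mul_pow R hfrac hd hf H⟩

/-- **7. The place of a prime element.**  If the localization of `R` at the prime element `w`
contains the constants, it is the valuation ring of a place, and the order at this place is the
exponent of `w`.  Together with theorem 6, for the local ring at a point, this is the proof
of theorem 16 of part 3: if `w` does not divide `q`, then constants are in the localization, because
each constant becomes an element of `B` after multiplication by a power of `q`; if `w` divides `q`,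
then `w` defines a component, and the exponent of `w` in a function which is a unit at all
components is `0`.  File: `H83Fact`. -/
theorem place_of_prime {K F : Type*} [Field K] [Field F] [Algebra K F] (R : Subring F)
    [UniqueFactorizationMonoid R] (hfrac : ∀ x : F, ∃ a b : R, (b : F) ≠ 0 ∧ x * b = a)
    (w : R) (hw : Prime w)
    (hK : ∀ c : K, ∃ a b : R, ¬ w ∣ b ∧ algebraMap K F c * (b : F) = a) :
    ∃ P : Place K F, ∀ (x : F) (n : ℤ) (a b : R), ¬ w ∣ a → ¬ w ∣ b →
      x * b = (w : F) ^ n * a → P.ord x = n :=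
  have h' : ∀ c : K, algebraMap K F c ∈ primeVal R hfrac w hw := fun c => hK c
  ⟨primePlace hfrac w hw h', fun _ _ _ _ ha hb h => primePlace_ord hfrac h' ha hb h⟩

/-! ## 3. Level `q m`: the functions of the double points -/

/-- **8. The coordinates on the two components.**  Let `Y = W X`.  The residues of `X` and `Y` are
`X` and `X^q` on the component `0`, and `X^q` and `X` on the component `1`.  So `z' = Y - X^q`
vanishes on the component `0` and `z = X - Y^q` on the component `1`; the other two residues are
`X - X^(q²)`, which is not `0` because its derivative is `1`; and `z z' / q` is in the chart ring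
(theorem 14 of part 1 says where it is a unit).  Files: `H83Two`, `H83WindA`. -/
theorem residues_of_coordinates {k E : Type*} [Field k] [Field E] [Algebra k E] {q : ℕ}
    {R : ResData k E q} {F' : Type*} [Field F'] (T : TwoData R F') :
    (T.res 0 T.X = R.X ∧ T.res 0 (T.W T.X) = R.X ^ q) ∧
    (T.res 1 T.X = R.X ^ q ∧ T.res 1 (T.W T.X) = R.X) ∧
    (T.res 0 (T.X - T.W T.X ^ q) = R.X - R.X ^ (q * q) ∧ T.res 1 (T.X - T.W T.X ^ q) = 0) ∧
    (T.res 0 (T.W T.X - T.X ^ q) = 0 ∧ T.res 1 (T.W T.X - T.X ^ q) = R.X - R.X ^ (q * q)) ∧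
    R.X - R.X ^ (q * q) ≠ 0 ∧ (T.X - T.W T.X ^ q) * (T.W T.X - T.X ^ q) / (q : F') ∈ T.B :=
  ⟨⟨T.res0_X, T.res0_Y⟩, ⟨T.res1_X, T.res1_Y⟩, ⟨T.res0_z, T.res1_z⟩, ⟨T.res0_z', T.res1_z'⟩,
    ThreeData.R_X_ne T, T.zz_mem⟩

/-- **9. Uniformizers from the derivation.**  Let `n` be a prime of `C`.  The derivation `D` maps
the local ring of `C` at `n` to itself, and an element `c ∈ n` with `D c = 1` divides all elements
of `n` there.  Proof: if `c = u w ^ e` with a uniformizer `w` and `e ≥ 2`, then `D c` is divisible
by `w`.  Applied to `c = X - X^(q²)`.  File: `H83Two`. -/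
theorem uniformizer_by_derivation {k E : Type*} [Field k] [Field E] [Algebra k E] {q : ℕ}
    (R : ResData k E q) (n : Ideal R.Cs) [n.IsPrime] :
    (∀ x ∈ locRing R.Cs n, R.D x ∈ locRing R.Cs n) ∧
    ∀ c : R.Cs, c ∈ n → R.D (c : E) = 1 → ∀ x : R.Cs, x ∈ n →
      (x : E) / (c : E) ∈ locRing R.Cs n :=
  ⟨fun _ hx => R.D_locRing n hx, fun _ hc hD _ hx => R.dvd_of_D_eq_one n hc hD hx⟩

/-- **10. The derivative of `Y`.**  Let `δ = dY/dX`.  As `Y = X^q + z'`, the function `δ / q` is in
`V 0`, with residue `D (res 0 (z' / q)) + X^(q-1)`.  The function `θ = q / δ = q W(δ)` is in the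
chart ring; its residue along the component `0` is the inverse of that of `δ / q`, which is not `0`
(field `res_delta` of `TwoData`), and it vanishes along the component `1`.  File: `H83Two`. -/
theorem delta_and_theta {k E : Type*} [Field k] [Field E] [Algebra k E] {q : ℕ}
    {R : ResData k E q} {F' : Type*} [Field F'] (T : TwoData R F') :
    (T.der (T.W T.X) / (q : F') ∈ T.V 0 ∧ T.res 0 (T.der (T.W T.X) / (q : F')) =
      R.D (T.res 0 ((T.W T.X - T.X ^ q) / (q : F'))) + R.X ^ (q - 1)) ∧
    (q : F') * T.W (T.der (T.W T.X)) = (q : F') / T.der (T.W T.X) ∧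
    (q : F') * T.W (T.der (T.W T.X)) ∈ T.B ∧
    T.res 0 ((q : F') * T.W (T.der (T.W T.X))) = (T.res 0 (T.der (T.W T.X) / (q : F')))⁻¹ ∧
    T.res 1 ((q : F') * T.W (T.der (T.W T.X))) = 0 :=
  ⟨⟨T.delta_V0, T.res0_delta⟩, T.θ_eq, T.θ_mem, T.res0_θ, T.res1_θ⟩

/-- **11. Zeros of `θ`.**  The function `θ = q W(δ)` of theorem 10 vanishes at a point (or prime)
`m` if and only if the component `1` passes through `m`.  Proof: if some `u ∈ p 1` is not in `m`,
then `u² δ / q` is in the chart ring, and its product with `θ` is `u²`, which is not in `m`.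
File: `H83Two`. -/
theorem theta_zero_iff {k E : Type*} [Field k] [Field E] [Algebra k E] {q : ℕ}
    {R : ResData k E q} {F' : Type*} [Field F'] (T : TwoData R F') (m : Ideal T.B) [m.IsPrime] :
    (⟨(q : F') * T.W (T.der (T.W T.X)), T.θ_mem⟩ : T.B) ∈ m ↔ T.p 1 ≤ m :=
  T.θ_mem_iff m

/-! ## 4. Level `q² m`: points of the three components -/

/-- **12. The degeneracy maps on the components.**  Along the components `0` and `1` of `X₀(q² m)`
the residue of `α x` is the residue of `x` at the component `0` of `X₀(q m)`; along `2` it is `Φ` of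
the residue of `x` at `1`.  The residue of `β x` is that of `x` at the component `1` along `1` and
`2`, and `Φ` of the residue of `x` at the component `0` along `0` (theorem 27 of part 2).  Both maps
preserve the chart rings.  Files: `H83Def`, `H83Three`. -/
theorem residues_of_alpha_beta {k E : Type*} [Field k] [Field E] [Algebra k E] {q : ℕ}
    {R : ResData k E q} {F' F : Type*} [Field F'] [Field F] {T : TwoData R F'}
    (S : ThreeData T F) (x : F') :
    (S.res 0 (S.α x) = T.res 0 x ∧ S.res 1 (S.α x) = T.res 0 x ∧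
      S.res 2 (S.α x) = R.Φ (T.res 1 x)) ∧
    (S.res 0 (S.β x) = R.Φ (T.res 0 x) ∧ S.res 1 (S.β x) = T.res 1 x ∧
      S.res 2 (S.β x) = T.res 1 x) ∧
    (x ∈ T.B → S.α x ∈ S.B ∧ S.β x ∈ S.B) :=
  ⟨⟨S.α_res0 x, S.α_res1 x, S.α_res2 x⟩, ⟨S.β_res0 x, S.β_res1 x, S.β_res2 x⟩,
    fun h => ⟨S.α_mem_B h, S.β_mem_B h⟩⟩

/-- **13. Points in coordinates.**  `S.pt i n` is the prime of `B` on the component `i` which
corresponds to the ideal `n` of `C` (the inverse image of `n` under the residue map), and every
point of the component `i` has this form (theorem 3).  By theorem 12 the points `pt 0 n` and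
`pt 1 n` have the same image under `α`, and `pt 1 n` and `pt 2 n` the same image under `β`.
(`S.αB`, `S.βB` are `α`, `β` as maps of chart rings.)  File: `H83Three`. -/
theorem points {k E : Type*} [Field k] [Field E] [Algebra k E] {q : ℕ}
    {R : ResData k E q} {F' F : Type*} [Field F'] [Field F] {T : TwoData R F'}
    (S : ThreeData T F) :
    (∀ (m : Ideal S.B) (_ : m.IsPrime) (i : Fin 3), S.p i ≤ m →
      m = S.pt i (S.nI m (S.r_mem_Cs i))) ∧
    ∀ n : Ideal R.Cs, (∀ i, S.p i ≤ S.pt i n) ∧
      (S.pt 0 n).comap S.αB = (S.pt 1 n).comap S.αB ∧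
      (S.pt 1 n).comap S.βB = (S.pt 2 n).comap S.βB :=
  ⟨fun m _ _ h => S.eq_pt m h, fun n => ⟨fun i => S.p_le_pt i n, S.comap_α_pt01 n,
    S.comap_β_pt12 n⟩⟩

/-- **14. Images of points.**  Let `m` be a point on the component `0` or `1`.  Its image under `α`
is on the component `0` of `X₀(q m)`; if the image is also on the component `1`, then `m` is also on
the component `2`.  Proof: otherwise let `u` be in `p 2` and not in `m`.  Then `u α(z') / q` is in
the chart ring, and its product with `α z`, which vanishes at `m`, is `u α(z z' / q)`, which does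
not vanish at `m` by theorem 14 of part 1.  Similarly for `β`.  File: `H83Three`. -/
theorem images_of_points {k E : Type*} [Field k] [Field E] [Algebra k E] {q : ℕ}
    {R : ResData k E q} {F' F : Type*} [Field F'] [Field F] {T : TwoData R F'}
    (S : ThreeData T F) (m : Ideal S.B) [m.IsPrime] :
    (S.p 0 ≤ m ∨ S.p 1 ≤ m → T.p 0 ≤ m.comap S.αB ∧ (T.p 1 ≤ m.comap S.αB → S.p 2 ≤ m)) ∧
    (S.p 1 ≤ m ∨ S.p 2 ≤ m → T.p 1 ≤ m.comap S.βB ∧ (T.p 0 ≤ m.comap S.βB → S.p 0 ≤ m)) :=
  ⟨fun h => ⟨S.α_comap0 m h, S.p2_le_of_α m h⟩, fun h => ⟨S.β_comap1 m h, S.p0_le_of_β m h⟩⟩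

/-- **15. Points of the outer components.**  A point of the component `2` is determined by its image
under `α`, and a point of the component `0` by its image under `β`.  Proof for `α`: let `b` have the
residue `y`, and let `b'` of level `q m` have the residue `φ y` at the component `1`.  Then `α b'`
has the residue `y^q` (theorem 12), so `b ∈ m` if and only if `b'` is in the image of `m`.
Theorems 13, 14 and 15 give theorem 19 (a) of part 1: for example, let `m` be on the components `0`
and `1`.  Then `m = pt 1 n` and `pt 2 n` have the same image under `β`, so `pt 2 n` is on the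
component `0` by theorem 14, and `m = pt 2 n` by theorem 15.  File: `H83Three`. -/
theorem determined_by_image {k E : Type*} [Field k] [Field E] [Algebra k E] {q : ℕ}
    {R : ResData k E q} {F' F : Type*} [Field F'] [Field F] {T : TwoData R F'}
    (S : ThreeData T F) {m m' : Ideal S.B} [m.IsPrime] [m'.IsPrime] :
    (S.p 2 ≤ m → S.p 2 ≤ m' → m.comap S.αB = m'.comap S.αB → m = m') ∧
    (S.p 0 ≤ m → S.p 0 ≤ m' → m.comap S.βB = m'.comap S.βB → m = m') :=
  ⟨fun h h' => S.eq_of_comap_α h h', fun h h' => S.eq_of_comap_β h h'⟩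

/-- **16. A point on all three components.**  `S.nn m i` is the prime of `C` which corresponds to
`m` on the component `i` (theorem 3).  These primes are the same for `i = 0, 1, 2`.  The image of
`m` under `α` is on both components of `X₀(q m)`; it corresponds to the same prime on the component
`0` and to its image under `φ` on the component `1` (`φC` is `φ` on `C`).  Similarly for `β`.
File: `H83WindE`. -/
theorem common_point {k E : Type*} [Field k] [Field E] [Algebra k E] {q : ℕ}
    {R : ResData k E q} {F' F : Type*} [Field F'] [Field F] {T : TwoData R F'}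
    (S : ThreeData T F) (m : Ideal S.B) [m.IsPrime] (hm : ∀ i, S.p i ≤ m)
    [(m.comap S.αB).IsPrime] :
    S.nn m 0 = S.nn m 1 ∧ S.nn m 1 = S.nn m 2 ∧
    (T.p 0 ≤ m.comap S.αB ∧ T.p 1 ≤ m.comap S.αB) ∧
    T.nI (m.comap S.αB) (T.r_mem_Cs 0) = S.nn m 0 ∧
    ∀ c : R.Cs, φC c ∈ T.nI (m.comap S.αB) (T.r_mem_Cs 1) ↔ c ∈ S.nn m 2 :=
  have h0 := S.α_comap0 m (Or.inl (hm 0))
  have h1 := S.α_comap1 m (hm 2)
  ⟨S.nn_eq01 m (hm 0) (hm 1), S.nn_eq12 m (hm 1) (hm 2), ⟨h0, h1⟩, S.nn_α0 m (hm 0) h0,
    S.nn_α1 m (hm 2) h1⟩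

/-- **17. The middle component.**  The function `w = X(q² z) - X(z) = β Y - α X` is in the chart
ring and vanishes along the middle component, and the residue of `w ^ (q-1) / q` is
`-res 0 (δ / q)`, which is not zero.  If `x` and `y` vanish along the middle component (which has
multiplicity `q - 1`), then `x y ^ (q-2)` is divisible by `q` in `V 1`.  With `y = w`
and theorems 10 and 11 one obtains that `w` is an equation of the middle component at the points
which are only on this component.  File: `H83Three`. -/
theorem middle_component {k E : Type*} [Field k] [Field E] [Algebra k E] {q : ℕ}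
    {R : ResData k E q} {F' F : Type*} [Field F'] [Field F] {T : TwoData R F'}
    (S : ThreeData T F) :
    (S.β (T.W T.X) - S.α T.X ∈ S.B ∧ S.res 1 (S.β (T.W T.X) - S.α T.X) = 0) ∧
    (S.res 1 ((S.β (T.W T.X) - S.α T.X) ^ (q - 1) / (q : F)) =
      - T.res 0 (T.der (T.W T.X) / (q : F')) ∧ T.res 0 (T.der (T.W T.X) / (q : F')) ≠ 0) ∧
    ∀ x y : F, x ∈ S.V 1 → S.res 1 x = 0 → y ∈ S.V 1 → S.res 1 y = 0 →
      x * y ^ (q - 2) / (q : F) ∈ S.V 1 :=
  ⟨⟨S.w_mem, S.res1_w⟩, ⟨S.res1_ω, T.res0_delta_ne⟩,
    fun _ _ hx h hy h' => S.mul_pow_div_q1 hx h hy h' (ThreeData.two_le_q' (T := T))⟩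

/-! ## 5. Valuations and residues -/

/-- **18. Functions which separate the components.**  With `z`, `z'` as in theorem 8 the three
functions `β z`, `α z · β z'` and `α z'` (called `uu 0`, `uu 1`, `uu 2`) are in the chart ring, and
`uu i` has nonzero residue exactly along the component `i`.  File: `H83WindA`. -/
theorem separating_functions {k E : Type*} [Field k] [Field E] [Algebra k E] {q : ℕ}
    {R : ResData k E q} {F' F : Type*} [Field F'] [Field F] {T : TwoData R F'}
    (S : ThreeData T F) :
    S.uu = ![S.β (T.X - T.W T.X ^ q), S.α (T.X - T.W T.X ^ q) * S.β (T.W T.X - T.X ^ q),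
      S.α (T.W T.X - T.X ^ q)] ∧
    (∀ i, S.uu i ∈ S.B) ∧ ∀ i j, S.res j (S.uu i) = 0 ↔ i ≠ j :=
  ⟨rfl, S.uu_mem, fun i j => ⟨fun h e => S.res_uu_self i (e ▸ h), S.res_uu_ne i j⟩⟩

/-- **19. Approximation.**  If the valuation rings `V i` are archimedean (`S.Arch`), there are
functions with given valuations at the three components, and functions with given nonzero residues,
if these are quotients of elements of `C` (`InFrac R y`).  `S.unif i` is the uniformizer at the
component `i`, that is, `q`, `w`, `q`, and `S.HasVal i t x n` says that `x / t ^ n` is a unit at `i`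
(theorem 18 of part 3).  Proof: theorem 17 of part 3 with the functions of theorem 18.
Files: `H83WA`, `H83WindA`, `H83WindC`. -/
theorem approximation {k E : Type*} [Field k] [Field E] [Algebra k E] {q : ℕ}
    {R : ResData k E q} {F' F : Type*} [Field F'] [Field F] {T : TwoData R F'}
    (S : ThreeData T F) (hA : S.Arch) :
    (∀ n : Fin 3 → ℤ, ∃ x : F, ∀ i, S.HasVal i (S.unif i) x (n i)) ∧
    ∀ y : Fin 3 → E, (∀ i, InFrac R (y i)) → (∀ i, y i ≠ 0) → ∃ x : F, ∀ i, S.res i x = y i :=
  ⟨S.approx_val hA, S.approx_res hA⟩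

/-- **20. Valuations of the norms.**  Let `n₀`, `n₁`, `n₂` be the valuations of `f` at the three
components.  Then `N_α f` has the valuations `n₀ + n₁` at the component `0` and `q n₂` at the
component `1`, and `N_β f` has `n₂ + n₁` at the component `1` and `q n₀` at the component `0`.  They
give the congruences in the proof of theorem 20 of part 1.  Files: `H83Val`, `H83WindA`. -/
theorem valuations_of_norms {k E : Type*} [Field k] [Field E] [Algebra k E] {q : ℕ}
    {R : ResData k E q} {F' F : Type*} [Field F'] [Field F] {T : TwoData R F'}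
    (S : ThreeData T F) (hA : S.Arch) {f : F} {n₀ n₁ n₂ : ℤ} (h0 : S.HasVal 0 (q : F) f n₀)
    (h1 : S.HasVal 1 (S.β (T.W T.X) - S.α T.X) f n₁) (h2 : S.HasVal 2 (q : F) f n₂) :
    (T.HasVal 0 (q : F') (S.Nα f) (n₀ + n₁) ∧ T.HasVal 1 (q : F') (S.Nα f) (q * n₂)) ∧
      T.HasVal 1 (q : F') (S.Nβ f) (n₂ + n₁) ∧ T.HasVal 0 (q : F') (S.Nβ f) (q * n₀) :=
  ⟨⟨S.val_Nα_0 hA h0 h1, S.val_Nα_1 h2⟩, S.val_Nβ_1 hA h1 h2, S.val_Nβ_0 h0⟩

/-- **21. A constant times a `d`-th power** which is a unit at a component of multiplicity one is a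
`d`-th power.  Proof: the constant is a power `q ^ n` times a unit of `O`, which is a `d`-th power,
and comparing valuations one sees that `d` divides `n`.  It is applied to the norms of the function
of theorem 20 of part 1 (`BaseHyp`, `Consts`: theorems 12 and 13 of part 3).  File: `H83WindA`. -/
theorem constant_times_power {K k F E : Type*} [Field K] [Field k] [Field F] [Field E]
    [Algebra k E] [Algebra K F] {q d : ℕ} {ι : Type*} {S : CompSys F E q ι}
    {O : ValuationSubring K} {π : O →+* k} (hO : BaseHyp O π q d) (hS : S.Consts O π)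
    (hA : S.Arch) {i : ι} (he : S.e i = 1) {x g : F} {c : K} (hc : c ≠ 0) (hg : g ≠ 0)
    (hx : x = algebraMap K F c * g ^ d) (hr : S.res i x ≠ 0) : ∃ h : F, h ≠ 0 ∧ x = h ^ d :=
  exists_eq_pow hO hS hA he hc hg hx hr

/-- **22. Residues are quotients of elements of `C`.**  Let every function be a quotient of elements
of `B`.  Each `x ∈ V i` is then a quotient `a / b` of elements of `B` such that `b` has nonzero
residue at `i`, and the residues of the elements of `V i` are exactly the quotients of elements of
`C`.  Proof: replace the denominator `b` by `b ^ e i`, whose valuation at `i` is that of a power of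
`q`, multiply numerator and denominator by a high power of `uu i` and divide by this power of `q`.
File: `H83WindC`. -/
theorem residues_are_quotients {k E : Type*} [Field k] [Field E] [Algebra k E] {q : ℕ}
    {R : ResData k E q} {F' F : Type*} [Field F'] [Field F] {T : TwoData R F'}
    (S : ThreeData T F) (hA : S.Arch)
    (hfrac : ∀ x : F, ∃ b : S.B, (b : F) ≠ 0 ∧ x * b ∈ S.B) (i : Fin 3) :
    (∀ x ∈ S.V i, ∃ a b : S.B, S.res i (b : F) ≠ 0 ∧ x * b = a) ∧
    ∀ y : E, (∃ x ∈ S.V i, S.res i x = y) ↔
      ∃ c c' : E, c ∈ R.C ∧ c' ∈ R.C ∧ c' ≠ 0 ∧ y * c' = c :=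
  ⟨fun _ hx => S.exists_frac' hA hfrac i hx,
    fun _ => ⟨fun h => h.elim fun _ hx => hx.2 ▸ S.inFrac_res hA hfrac i hx.1,
      fun h => S.exists_res_eq i h⟩⟩

/-! ## 6. Values at points -/

/-- **23. Values at a point of `C`.**  `IsVal R n x v`: the element `x` of `E` is regular at the
prime `n` of `C` with value `v ∈ k` (`R.cst v` is the constant `v` in `C`).  The value is unique and
multiplicative, and every element of the local ring at a maximal ideal has a value.
File: `H83WindD`. -/
theorem value_rules {k E : Type*} [Field k] [Field E] [Algebra k E] {q : ℕ} (R : ResData k E q)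
    (n : Ideal R.Cs) [n.IsPrime] :
    (∀ x v, IsVal R n x v ↔
      ∃ a s : R.Cs, s ∉ n ∧ x * (s : E) = a ∧ a - R.cst v * s ∈ n) ∧
    (∀ x v v', IsVal R n x v → IsVal R n x v' → v = v') ∧
    (∀ x v y w, IsVal R n x v → IsVal R n y w →
      IsVal R n (x * y) (v * w) ∧ (w ≠ 0 → IsVal R n (x / y) (v / w))) ∧
    (∀ v, IsVal R n (algebraMap k E v) v) ∧
    (n.IsMaximal → ∀ x ∈ locRing R.Cs n, ∃ v, IsVal R n x v) :=
  ⟨fun _ _ => Iff.rfl, fun _ _ _ h h' => h.unique h', fun _ _ _ _ h h' => ⟨h.mul h', h.div h'⟩,
    isVal_const, fun hn _ hx => exists_isVal hn hx⟩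

/-- **24. Values and Frobenius.**  If `n'` is the image of `n` under `φ` and `x` has the value `v`
at `n`, then `φ x` has the value `v ^ q` at `n'`.  This is the source of the exponent `q`
in theorem 22 of part 1.  File: `H83WindD`. -/
theorem value_of_frobenius {k E : Type*} [Field k] [Field E] [Algebra k E] {q : ℕ}
    {R : ResData k E q} {n n' : Ideal R.Cs} (h : ∀ c : R.Cs, φC c ∈ n' ↔ c ∈ n) {x : E} {v : k}
    (hx : IsVal R n x v) : IsVal R n' (R.φ x) (v ^ q) :=
  hx.φ h

/-- **25. Regular functions have the same value on all components.**  Let `m` be a closed point and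
let `y` be in the local ring at `m`.  The residues of `y` along all components through `m` have the
same value at `m`.  Proof: `y` is congruent to a constant `o ∈ O` modulo the maximal ideal of the
local ring, and so the value is `π o` on every component.  In the proof of theorem 22 of part 1 it
is applied to `y = N h / g` at the image of the point.  File: `H83WindD` (`exists_ptVal`,
`PtVal.isVal`). -/
theorem same_value {K k F E : Type*} [Field K] [Field k] [Field F] [Field E] [Algebra k E]
    [Algebra K F] {q : ℕ} {ι : Type*} {S : CompSys F E q ι} {O : ValuationSubring K}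
    {π : O →+* k} (hπ : Function.Surjective π) (hS : S.Consts O π) (R : ResData k E q)
    (hmem : ∀ i (b : S.B), S.r i b ∈ R.Cs) (hsurj : ∀ i, ∀ c ∈ R.Cs, ∃ b : S.B, S.r i b = c)
    (m : Ideal S.B) (hm : m.IsMaximal) {i : ι} (hi : S.p i ≤ m) :
    haveI := hm.isPrime
    ∀ y ∈ locRing S.B m, ∃ v : k,
      ∀ j, S.p j ≤ m → IsVal R (S.nI m (hmem j)) (S.res j y) v :=
  have := hm.isPrime
  fun _ hy => (exists_ptVal (R := R) hπ hS hi (hmem i) (hsurj i)
    (S.nI_isMaximal m hi (hmem i) (hsurj i) hm) hy).imp fun _ hv j hj =>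
      hv.isVal hj (hmem j) (hsurj j)

/-- **26. The value of the local root.**  Let `f = h ^ d · (unit)` at the point `m`, and let `f`
have residue `1` along a component `i` through `m`.  Then the residue of `h` along `i` has a value
at `m`, and it is not `0`.  Proof: its `d`-th power is a unit at the point, and `C` is integrally
closed (`hInFrac` holds by theorem 22).  Files: `H83WindD`, `H83WindF`. -/
theorem value_of_root {K k F E : Type*} [Field K] [Field k] [Field F] [Field E] [Algebra k E]
    [Algebra K F] {q d : ℕ} {ι : Type*} {S : CompSys F E q ι} {O : ValuationSubring K}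
    {π : O →+* k} {R : ResData k E q} (hO : BaseHyp O π q d) {i : ι}
    (hmem : ∀ b : S.B, S.r i b ∈ R.Cs) (hsurj : ∀ c ∈ R.Cs, ∃ b : S.B, S.r i b = c)
    (m : Ideal S.B) [m.IsPrime] (hi : S.p i ≤ m) (hmax : (S.nI m hmem).IsMaximal)
    (hInFrac : ∀ x ∈ S.V i, InFrac R (S.res i x)) {f h : F} {a b : S.B} (ha : a ∉ m) (hb : b ∉ m)
    (hfb : f * b = h ^ d * a) (hf : S.res i f = 1) :
    ∃ V : k, V ≠ 0 ∧ IsVal R (S.nI m hmem) (S.res i h) V :=
  exists_val_h hO hmem hsurj m hi hmax hInFrac ha hb hfb hf

/-- **27. Roots of unity in `E` are constant** (because `k` is algebraically closed).  Applied to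
the residues of `g` and `g'`, where `N_α f = g ^ d` and `N_β f = g' ^ d`.  File: `H83WindF`. -/
theorem roots_of_unity_are_constant {k E : Type*} [Field k] [Field E] [Algebra k E]
    [IsAlgClosed k] {d : ℕ} (hd : d ≠ 0) {ω : E} (h : ω ^ d = 1) :
    ∃ ζ : k, ω = algebraMap k E ζ ∧ ζ ^ d = 1 :=
  exists_root_of_unity hd h

/-- **28. Trivial winding at a point.**  `HM S d m f` is the condition at the point `m` which occurs
in theorem 23 of part 1: `f = h ^ d · (unit)` at `m`, where the residues of `h` along all components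
through `m` have the value `1` at `m` (`a / s` is a unit with value `1`).  File: `H83WindF`. -/
theorem hm_iff {F E : Type*} [Field F] [Field E] {q : ℕ} {ι : Type*} (S : CompSys F E q ι)
    (d : ℕ) (m : Ideal S.B) [m.IsPrime] (f : F) :
    HM S d m f ↔ ∃ h : F, h ≠ 0 ∧ f / h ^ d ∈ locRing S.B m ∧ (f / h ^ d)⁻¹ ∈ locRing S.B m ∧
      ∀ i, S.p i ≤ m → ∃ a s : S.B, s ∉ m ∧ a - s ∈ m ∧ S.res i ((a : F) / s * h) = 1 :=
  Iff.rfl

/-- **29. Equal values give `HM`.**  Let `f = h ^ d · (unit)` at `m`, and suppose that the residues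
of `h` along all components through `m` have the same value `V ≠ 0`.  Then `HM` holds: divide `h` by
a constant with residue `V`.  File: `H83WindF`. -/
theorem hm_of_equal_values {K k F E : Type*} [Field K] [Field k] [Field F] [Field E]
    [Algebra k E] [Algebra K F] {q d : ℕ} {ι : Type*} {S : CompSys F E q ι}
    {O : ValuationSubring K} {π : O →+* k} {R : ResData k E q} (hO : BaseHyp O π q d)
    (hS : S.Consts O π) (hmem : ∀ i, ∀ b : S.B, S.r i b ∈ R.Cs)
    (hsurj : ∀ i, ∀ c ∈ R.Cs, ∃ b : S.B, S.r i b = c) (m : Ideal S.B) [m.IsPrime] {f h : F}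
    {a b : S.B} (hh : h ≠ 0) (ha : a ∉ m) (hb : b ∉ m) (hfb : f * b = h ^ d * a) {V : k}
    (hV : V ≠ 0) (hval : ∀ i, S.p i ≤ m → IsVal R (S.nI m (hmem i)) (S.res i h) V) :
    HM S d m f :=
  HM_of hO hS hmem hsurj m hh ha hb hfb hV hval

/-! ## 7. The hypotheses for `X₀(q² m)`

The way from theorem 29 to theorem 28 of part 1 (residue fields of closed points, the points of the
chart `1/j`, the local condition, the theorem on roots) is section 6 of `GuideConnectedness`. -/

/-- **30. The condition `HM` depends only on the local ring**, for two systems (charts) with the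
same valuation rings and residues.  So it has to be checked at the points of the chart `j`, and at
the points of the chart `1/j` with `1/j = 0`.  File: `H83Core`. -/
theorem hm_depends_on_local_ring {F E : Type*} [Field F] [Field E] {q d : ℕ} {ι : Type*}
    {S D : CompSys F E q ι} (hV : ∀ i x, x ∈ D.V i ↔ x ∈ S.V i)
    (hres : ∀ i x, D.res i x = S.res i x) (m : Ideal S.B) [m.IsPrime] (n : Ideal D.B)
    [n.IsPrime] (hloc : locRing S.B m = locRing D.B n) {f : F} (h : HM S d m f) : HM D d n f :=
  HM_transfer hV hres m n hloc h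

/-- **31. Every function is a quotient of elements of the chart ring**, if the chart ring is the
integral closure of `O[t]`.  File: `H83Inst2` (with `H36Chart`). -/
theorem quotients_of_chart {K F : Type*} [Field K] [Field F] [Algebra K F]
    {O : ValuationSubring K} [IsDiscreteValuationRing O] {E : Type*} [Field E] {q : ℕ}
    {ι : Type*} {S : CompSys F E q ι} {t : F} (ht : Transcendental K t)
    [FiniteDimensional K⟮t⟯ F] (hB : S.B = H36.chart O t) (x : F) :
    ∃ b : S.B, (b : F) ≠ 0 ∧ x * b ∈ S.B :=
  frac_of_chart ht hB x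

/-- **32. Residues on the second chart.**  `D : H24.CuspSys` describes the chart `t⁻¹` of the model
(theorem 24 of part 1), with the same valuation rings as the chart `t`.  All residues are quotients
of elements of the Dedekind ring `D.C` (the last condition in `CuspHyp`, theorem 28 of part 3).
Proof: as in theorem 22, with the elements `t⁻ᴺ · uu i` of the second chart, and with theorem 31 for
the second chart.  File: `H83Inst2`. -/
theorem residues_on_second_chart {k E : Type*} [Field k] [Field E] [Algebra k E] {q : ℕ}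
    {R : ResData k E q} {F' : Type*} [Field F'] {T : TwoData R F'} {F : Type*} [Field F]
    {S : ThreeData T F} {K : Type*} [Field K] [CharZero K] [Algebra K F'] [Algebra K F]
    {O : ValuationSubring K} [IsDiscreteValuationRing O] {D : H24.CuspSys k F E q} {t : F}
    (hA : S.Arch) (ht : Transcendental K t) [FiniteDimensional K⟮t⟯ F] (y_eq : D.y = t⁻¹)
    (V_eq : ∀ i, D.V i = S.V i) (res_eq : ∀ i x, D.res i x = S.res i x)
    (hhor : ∀ x, x ∈ S.hor ↔ x ∈ H36.chart K t)
    (hhorD : ∀ x, x ∈ D.hor ↔ x ∈ H36.chart K t⁻¹) (hDB : D.B = H36.chart O t⁻¹) (i : Fin 3)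
    (x : F) (hx : x ∈ D.V i) : ∃ c c' : E, c ∈ D.C ∧ c' ∈ D.C ∧ c' ≠ 0 ∧ D.res i x * c' = c :=
  fracC_of hA ht y_eq V_eq res_eq hhor hhorD hDB i x hx

/-- **33. Constants and denominators.**  The three embeddings `emb3` of the function field of
`X₀(q² m)` into `K'((t))` (theorem 15 of part 1) are the inclusion of `K` in `K'` on constants.
Each element of the field `H99.Bdd A'` (theorem 3 of part 2), in particular each value of `emb3`,
comes into the Gauss ring after multiplication by a power of `q`, because `q` is `(ζ - 1) ^ (q-1)`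
times a unit and `ζ - 1` is a uniformizer.  File: `H89Car`. -/
theorem constants_and_denominators {K K' k : Type*} [Field K] [Field K'] [Algebra K K'] [Field k]
    {A : ValuationSubring K} {π : A →+* k} {A' : ValuationSubring K'} {π' : A' →+* k} {q : ℕ}
    [Algebra ℚ K] [Algebra ℚ K'] [CharZero K'] [Fact (H66.HasRoots K')] {m : ℕ} [NeZero m]
    [NeZero q] (hq : q.Prime) (hqm : ¬ q ∣ m) {w : H99.AL K m q} (w' : H99.AL K' m q)
    (w₂ : H99.AL2 K m q w) (D : H99.RamData A π A' π' q) [CharP k q] :
    (∀ i c, H99.emb3 hq hqm w' w₂ D i (algebraMap K (H99.FX K (m * q * q)) c) =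
      algebraMap K' (LaurentSeries K') (algebraMap K K' c)) ∧
    ∀ x ∈ H99.Bdd A', ∃ n : ℕ, ∀ M, n ≤ M → (q : LaurentSeries K') ^ M * x ∈ H99.GR A' π' :=
  ⟨H99.emb3_algebraMap hq hqm w' w₂ D, fun _ hx => D.exists_pow_mul_mem_GR hq hx⟩

/-- **34. The compatibilities for `X₀(q² m)`.**  For the three-component system
of theorem 18 of part 1: the residue maps are `π` on `A`, the valuation rings are archimedean, and
every function is a quotient of elements of the chart ring.  The corresponding facts for `X₀(q m)`
are `constants_and_powers` in `GuideTwoComponents` and theorem 15 of part 2.  Together with the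
`K`-linearity of `α` and `β` they are the conditions `S.Hyp A π` of theorem 13 of part 3
(`H89Car2`).  File: `H89Car`. -/
theorem compatibilities {K K' k : Type*} [Field K] [Field K'] [Algebra K K'] [Field k]
    {A : ValuationSubring K} {π : A →+* k} {A' : ValuationSubring K'} {π' : A' →+* k} {q : ℕ}
    [Algebra ℚ K] [Algebra ℚ K'] [CharZero K'] [Fact (H66.HasRoots K')] {m : ℕ} [NeZero m]
    [NeZero q] (hq : q.Prime) (hqm : ¬ q ∣ m) {w : H99.AL K m q} (w' : H99.AL K' m q)
    (w₂ : H99.AL2 K m q w) (D : H99.RamData A π A' π' q) [CharP k q] [CharZero K] :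
    (H99.threeSys hq hqm w' w₂ D).Consts A π ∧ (H99.threeSys hq hqm w' w₂ D).Arch ∧
    ∀ x : H99.FX K (m * q * q), ∃ b : (H99.threeSys hq hqm w' w₂ D).B,
      (b : H99.FX K (m * q * q)) ≠ 0 ∧ x * b ∈ (H99.threeSys hq hqm w' w₂ D).B :=
  ⟨H99.threeSys_consts hq hqm w' w₂ D, H99.threeSys_arch hq hqm w' w₂ D,
    H99.threeSys_frac hq hqm w' w₂ D⟩

/-- **35. Specification of the data of level `q m`.**  The three-component data
of theorem 18 of part 1 are constructed from data `T` of level `q m` which satisfy
`H99.TwoSpec T w π X₀`: `T` is as described in theorem 13 of part 1, moreover `W X` is the series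
`X(t^q)`, the derivation is `θ / θ X`, where `θ X ≠ 0` modulo `q`, and `Φ` is `t ↦ t^q` (`X₀` is the
series of `X` over `ℤ`).  Such data exist.  File: `H99Three7` (definition: `H99Three4`). -/
theorem specification {K k : Type*} [Field K] [Algebra ℚ K] [CharZero K] [Field k] [IsAlgClosed k]
    {q m c : ℕ} [Fact q.Prime] [NeZero q] [NeZero m] [CharP k q] (hqm : ¬ q ∣ m)
    (hc : c = 4 ∨ c = 9) (hcm : c ∣ m) {A : ValuationSubring K} {π : A →+* k}
    (hπ : Function.Surjective π) (hq : H99.Unif A π (q : A)) (ι : K →+* ℂ) (w : H99.AL K m q)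
    (R : ResData k (LaurentSeries k) q) (hRC : ∀ x, x ∈ R.C ↔ x ∈ H18.Cm k m)
    (hRX : R.X = H1.Xc c k) (hRD : ∀ x, R.D x = H61.theta x / H61.theta (H1.Xc c k))
    (hRΦ : ∀ x, R.Φ x = qExpand k q x) (hlift : H68.LiftK K m A π) :
    ∃ T : TwoData R (H99.FX K (m * q)),
      H99.TwoSpec T w π (H1.Xc c ℤ) ∧ T.toCompSys = H68.twoSys w hq ∧
      (T.W T.X : LaurentSeries K) = qExpand K q (H1.Xc c K) ∧
      ∀ x, (T.der x : LaurentSeries K) * H61.theta (H1.Xc c K) = H61.theta (x : LaurentSeries K) :=
  have h := H99.twoSpec_twoData hc hcm w hq R ι hπ hqm hRC hRX hRD hlift hRΦ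
  have e := H99.coeffMap_Xc_int K c
  ⟨_, h, rfl, (congrArg _ (h.W _)).trans (h.WX.trans (by rw [e])), fun x => by
    have h1 := h.der x
    rwa [h.X, e] at h1⟩

/-- **36. The chart ring of `X₀(q² m)` is noetherian** (a field of `ThreeData`): it is the integral
closure of `A[j]` in the function field, by theorem 17 of part 1.  The steps are in `GuideCharts`.
File: `H99Three7` (with `H16Inst`). -/
theorem noetherian {K K' k : Type*} [Field K] [Field K'] [Algebra K K'] [Field k]
    {A : ValuationSubring K} {π : A →+* k} {A' : ValuationSubring K'} {π' : A' →+* k} {q : ℕ}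
    [Algebra ℚ K] [Algebra ℚ K'] [CharZero K'] [Fact (H66.HasRoots K')] {m : ℕ} [NeZero m]
    [NeZero q] (hq : q.Prime) (hqm : ¬ q ∣ m) {w : H99.AL K m q} (w' : H99.AL K' m q)
    (w₂ : H99.AL2 K m q w) (D : H99.RamData A π A' π' q) [CharP k q] [CharZero K]
    {R : ResData k (LaurentSeries k) q} {T : TwoData R (H99.FX K (m * q))}
    {X₀ : LaurentSeries ℤ} (hT : H99.TwoSpec T w π X₀) [IsDiscreteValuationRing A] [IsAlgClosed k]
    {hϖ : H99.Unif A π (q : A)} (hTS : T.toCompSys = H68.twoSys w hϖ)
    (hC : ∀ x, x ∈ R.C ↔ x ∈ H18.Cm k m) (hφX : R.φ R.X = R.X) :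
    IsNoetherianRing (H99.threeSys hq hqm w' w₂ D).B :=
  H99.isNoetherianRing_B hq hqm w' w₂ D hT hTS hC hφX

/-- **37. Lifting of functions over the inertia field.**  The inertia field `H36.KI A`
(theorem 4 of part 1) is the fixed field of its Galois group in `ℚbar`; this is used for the descent
in theorem 11 of part 1, here called `H68.LiftK`: functions on `X₀(m)` modulo `q` which are integral
over `k[j]` lift.  Functions which are integral over `k[1/j]` lift as well (`H24.LiftInv`); this is
used for the chart `1/j`.  File: `H83C9b` (with `H18LiftGR`). -/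
theorem lifting_over_inertiaField {q m : ℕ} [NeZero m] [Fact q.Prime] (hqm : ¬ q ∣ m)
    (A : ValuationSubring (AlgebraicClosure ℚ)) (hA : A.LiesOverPrime q) :
    (∀ z : AlgebraicClosure ℚ,
      (∀ σ : AlgebraicClosure ℚ ≃ₐ[H36.KI A] AlgebraicClosure ℚ, σ z = z) →
        ∃ a : H36.KI A, algebraMap (H36.KI A) (AlgebraicClosure ℚ) a = z) ∧
    H68.LiftK (H36.KI A) m (H36.OI A) (H36.piI A (IsLocalRing.residue A)) ∧
    H24.LiftInv (H36.OI A) (H36.piI A (IsLocalRing.residue A)) m :=
  ⟨fix_KI A, liftK_KI hqm A hA, liftInv_KI hqm A hA⟩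

/-! ## 8. The coordinate of level 4 or 9 (chapter C1)

The proofs of theorems 7 and 8 of part 1 (library files by helper1).  The levels `4` and `9` are
used because `X₀(4)` and `X₀(9)` have genus zero and no elliptic points.  All functions are
series in `t`: `jqModC R` is the series of `j(z)` over the ring `R`, and the substitution
`qExpand R d` of `t^d` for `t` gives `j(d z)`.  `H23.Haupt.t2` and `H23.Haupt.t3` are
`(η(z)/η(2z))^24` and `(η(z)/η(3z))^12`; their equations over the `j`-line are `level_two` and
`level_three` in `GuideModularCurves`.  `modularFunctionFieldFullC K N` is the field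
`K(j(d z) : d ∣ N)`, for `K ⊇ ℚ` also written `laurentBaseChange K (modularFunctionFieldFull N)`:
the function field of `X₀(N)`.  The theorems of this section are also used in S39, S40 and S44. -/

/-- **38. The products.**  `X4 = (η(z)/η(4z))^8` and `X9 = (η(z)/η(9z))^3`, where `H1.eP R` is the
product `∏ (1 - t^n)` and `H1.eI R` its inverse.  So `X4³ = t2(z) t2(2z)` and `X9⁴ = t3(z) t3(3z)`.
Both series begin with `1/t`.  File: `H1Haupt`. -/
theorem eta_quotients (R : Type*) [CommRing R] :
    (H1.X4 R = HahnSeries.single (-1 : ℤ) 1 * H1.eP R ^ 8 * qExpand R 4 (H1.eI R) ^ 8 ∧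
      H1.X9 R = HahnSeries.single (-1 : ℤ) 1 * H1.eP R ^ 3 * qExpand R 9 (H1.eI R) ^ 3 ∧
      H1.eP R * H1.eI R = 1) ∧
    (H1.X4 R ^ 3 = H23.Haupt.t2 R * qExpand R 2 (H23.Haupt.t2 R) ∧
      H1.X9 R ^ 4 = H23.Haupt.t3 R * qExpand R 3 (H23.Haupt.t3 R)) ∧
    (H66.HasLead (H1.X4 R) (-1) 1 ∧ H66.HasLead (H1.X9 R) (-1) 1) :=
  ⟨⟨rfl, rfl, H1.eP_mul_eI R⟩, ⟨H1.X4_cube R, H1.X9_pow_four R⟩, H1.hasLead_X4 R, H1.hasLead_X9 R⟩

/-- **39. Relations with the functions of level `2` and `3`.**  Proof of the first one, for
`t = t2(z)`, `s = t2(2z)` and `X = X4`: over `ℤ` the equations `(t + 16)³ = j(2z) t` and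
`(s + 256)³ = j(2z) s²` give `(t s - 4096) (t² s + 48 t s - s² + 4096 t) = 0`.  The first factor is
not zero, and as `X³ = t s`, the product of `t²` and the second factor is the product of
`t (X + 16) - X²` and a series which is not zero, because of its leading term.  Similarly for `X9`.
The other two relations follow.  File: `H1Haupt`. -/
theorem relations_between_coordinates (R : Type*) [CommRing R] :
    (H23.Haupt.t2 R * (H1.X4 R + 16) = H1.X4 R ^ 2 ∧
      qExpand R 2 (H23.Haupt.t2 R) = H1.X4 R * (H1.X4 R + 16)) ∧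
    (H23.Haupt.t3 R * (H1.X9 R ^ 2 + 9 * H1.X9 R + 27) = H1.X9 R ^ 3 ∧
      qExpand R 3 (H23.Haupt.t3 R) = H1.X9 R * (H1.X9 R ^ 2 + 9 * H1.X9 R + 27)) :=
  ⟨⟨H1.X4_rel R, H1.qExpand_t2 R⟩, H1.X9_rel R, H1.qExpand_t3 R⟩

/-- **40. The equations of `j(2z)`, `j(4z)`, `j(3z)`, `j(9z)`** over the lines with coordinates `X4`
and `X9` (those of `j(z)` are in theorem 7 of part 1).  File: `H1Haupt`. -/
theorem equations_of_j (R : Type*) [CommRing R] :
    ((H1.X4 R ^ 2 + 16 * H1.X4 R + 256) ^ 3 =
        qExpand R 2 (jqModC R) * (H1.X4 R ^ 2 * (H1.X4 R + 16) ^ 2) ∧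
      (H1.X4 R ^ 2 + 16 * H1.X4 R + 16) ^ 3 =
        qExpand R 4 (jqModC R) * (H1.X4 R * (H1.X4 R + 16))) ∧
    ((H1.X9 R + 9) ^ 3 * (H1.X9 R + 3) ^ 3 * (H1.X9 R ^ 2 + 27) ^ 3 =
        qExpand R 3 (jqModC R) * (H1.X9 R ^ 3 * (H1.X9 R ^ 2 + 9 * H1.X9 R + 27) ^ 3) ∧
      (H1.X9 R + 3) ^ 3 * (H1.X9 R ^ 3 + 9 * H1.X9 R ^ 2 + 27 * H1.X9 R + 3) ^ 3 =
        qExpand R 9 (jqModC R) * (H1.X9 R * (H1.X9 R ^ 2 + 9 * H1.X9 R + 27))) :=
  ⟨⟨H1.X4_j2 R, H1.X4_j4 R⟩, H1.X9_j3 R, H1.X9_j9 R⟩

/-- **41. A criterion for membership.**  Let `A ⊆ B ⊆ K(X)` be fields, and let `X` be a root of a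
monic polynomial over `A` of degree at most `[B : A]`.  Then `X ∈ B`.  File: `H1HauptMem`. -/
theorem mem_by_degree {K L : Type*} [Field K] [Field L] [Algebra K L]
    {A B : IntermediateField K L} {X : L} (hAB : A ≤ B) (hBX : B ≤ K⟮X⟯) {P : Polynomial A}
    (hP : P.Monic) (hPX : aeval X P = 0) (hdeg : P.natDegree ≤ IntermediateField.relfinrank A B) :
    X ∈ B :=
  H1.mem_of_relfinrank hAB hBX hP hPX hdeg

/-- **42. The coordinate is a modular function.**  Because of the equations in theorem 7 of part 1
and theorem 40 the field `K(j(d z) : d ∣ 4)` is contained in `K(X4)`, and similarly for `9`.  Let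
`K` be algebraically closed and `c ≠ 0` in `K`.  The degree over `K(j)` of this field is `ψ(4) = 6`
or `ψ(9) = 12`, and this is the degree of the equation of `X` over `K(j)`; so it contains `X`
by theorem 41.  For `K = ℚ` one descends from `ℚbar` by a `ℚ`-linear map `ℚbar → ℚ` on the
coefficients (of numerator and denominator), and the other fields of characteristic zero contain
`ℚ`.  File: `H1HauptMem` (with `H90DescentLin`). -/
theorem coordinate_is_modular (K : Type*) [Field K] :
    (modularFunctionFieldFullC K 4 ≤ K⟮H1.X4 K⟯ ∧ modularFunctionFieldFullC K 9 ≤ K⟮H1.X9 K⟯) ∧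
    (dedekindPsi 4 = 6 ∧ dedekindPsi 9 = 12) ∧
    (IsAlgClosed K → ∀ {c N : ℕ}, (c = 4 ∨ c = 9) → N ≠ 0 → c ∣ N → (c : K) ≠ 0 →
      H1.Xc c K ∈ modularFunctionFieldFullC K N) ∧
    ∀ [Algebra ℚ K] {c N : ℕ}, (c = 4 ∨ c = 9) → N ≠ 0 → c ∣ N →
      H1.Xc c K ∈ laurentBaseChange K (modularFunctionFieldFull N) :=
  ⟨⟨H1.full_le_X4 K, H1.full_le_X9 K⟩, ⟨H1.psi_four, H1.psi_nine⟩,
    fun _ _ _ hc hN hcN h => H1.Xc_mem_full K hc hN hcN h,
    fun hc hN hcN => H1.Xc_mem_baseChange K hc hN hcN⟩

/-- **43. The derivation on series.**  `H1.dX c R` is `d/dX = θ(·) / θ(X)` with `θ = t d/dt`, for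
`X = X4` or `X9`; `H1.thetaL` is `θ`, and `H1.thInv c R` is the inverse of `θ X = -1/t + …`.  It is
a derivation with value `1` at `X`.  As `θ X` is a unit over every ring, `d/dX` exists also modulo
`q` and commutes with reduction.  File: `H1HauptRing`. -/
theorem derivation_of_series (c : ℕ) (R : Type*) [CommRing R] :
    (∀ f, H1.dX c R f = H1.thInv c R * H1.thetaL R f) ∧
    H1.thetaL R (H1.Xc c R) * H1.thInv c R = 1 ∧
    (∀ f g, H1.dX c R (f * g) = H1.dX c R f * g + f * H1.dX c R g) ∧ H1.dX c R (H1.Xc c R) = 1 ∧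
    ∀ {S : Type*} [CommRing S] (φ : R →+* S) (f : LaurentSeries R),
      coeffMap φ (H1.dX c R f) = H1.dX c S (coeffMap φ f) :=
  ⟨H1.dX_apply c, H1.theta_mul_thInv c R, H1.dX_mul c, H1.dX_Xc c,
    fun φ f => H1.coeffMap_dX c φ f⟩

/-- **44. Integrality and places.**  Let `F` be a function field over the algebraically closed field
`K` of characteristic zero.  A function is integral over `K[j]` if and only if it is regular at all
places at which `j` is regular.  File: `H1HauptDer`. -/
theorem integral_iff_regular {K F : Type*} [Field K] [Field F] [Algebra K F] [CharZero K]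
    [IsAlgClosed K] [H94.FunField K F] {j f : F} :
    IsIntegral (Algebra.adjoin K {j}) f ↔
      ∀ v : Place K F, j ∈ v.toValuationSubring → f ∈ v.toValuationSubring :=
  H1.isIntegral_iff_places

/-- **45. The two equations.**  Let `F` be a field with an embedding into `K((t))` which maps `j`
and `X` to the series of `j` and of `X4` or `X9`.  There are polynomials `P`, `S`, `T` with
`P(X)³ = j T(X)` and `S(X)² = (j - 1728) T(X)`; here `P` is monic, `deg T < 3 deg P`, and `P` and
`T` have no common root.  (`H1.Coord K F j X` is the structure of these data; the polynomials are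
given in `H1.coord4` and `H1.coord9`, for `X4` they are `X² + 256 X + 4096`,
`(X + 32) (X² - 512 X - 8192)` and `X⁴ (X + 16)`.)  So `X` is integral over `K[j]`.
File: `H1HauptFinal`. -/
theorem coordinate_equations {K F : Type*} [Field K] [CharZero K] [Field F] [Algebra K F]
    (φ : F →+* LaurentSeries K) {j X : F} (hj : φ j = jqModC K) {c : ℕ} (hc : c = 4 ∨ c = 9)
    (hX : φ X = H1.Xc c K) :
    (∃ P S T : K[X], aeval X P ^ 3 = j * aeval X T ∧
      aeval X S ^ 2 = (j - algebraMap K F 1728) * aeval X T ∧ P.Monic ∧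
      T.natDegree < 3 * P.natDegree ∧ ∀ a : K, T.eval a = 0 → P.eval a ≠ 0) ∧
    IsIntegral (Algebra.adjoin K {j}) X :=
  let C := H1.coordC φ hj hc hX
  ⟨⟨C.P, C.S, C.T, C.P3, C.S2, C.monic, C.deg, C.coprime⟩, C.isIntegral⟩

/-- **46. The coordinate is etale outside the cusps.**  `H94.X0PlaceData K F N j` describes the
ramification of `j` on `X₀(N)`: the order of `j` at a zero divides `3`, that of `j - 1728` divides
`2`, and that of `j - b` is `1` for `b ≠ 0, 1728`.  Let `X` be as in theorem 45.  At each place at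
which `j` is regular some `X - a` is a uniformizer.  Proof: let `a` be the value of `X`, `b` the
value of `j` and `e` the order of `X - a`; then `T(a) ≠ 0`.  If `P(a) = 0`, then `3 e` is at most
the order of `P(X)³ = j T(X)`, which is at most `3`; if `S(a) = 0`, then `2 e ≤ 2` in the same way;
otherwise `b ≠ 0, 1728` and `e` is at most the order of `(P³ - b T)(X) = (j - b) T(X)`, which is
`1`.  File: `H1HauptDer`. -/
theorem uniformizer_outside_cusps {K F : Type*} [Field K] [Field F] [Algebra K F] [CharZero K]
    [IsAlgClosed K] [H94.FunField K F] {j X : F} {N : ℕ} (C : H1.Coord K F j X)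
    (D : H94.X0PlaceData K F N j) (v : Place K F) (hv : j ∈ v.toValuationSubring) :
    ∃ a : K, v.ord (X - algebraMap K F a) = 1 :=
  C.exists_uniformizer D v hv

/-- **47. The derivation preserves regular functions.**  `H94.dd hX` is the derivation `d/dX` of the
function field.  In the situation of theorem 46 it maps functions which are integral over `K[j]` to
such functions, because the derivation with respect to a uniformizer preserves the valuation ring of
the place (theorem 44).  If an embedding of the function field into `K((t))` maps `X` to the series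
of `X4` or `X9`, then `d/dX` is transformed into the derivation of theorem 43.  Files: `H1HauptDer`,
`H1HauptFinal`. -/
theorem derivation_preserves_regular {K F : Type*} [Field K] [Field F] [Algebra K F] [CharZero K]
    [H94.FunField K F] {j X : F} {N : ℕ} :
    (∀ [IsAlgClosed K], H1.Coord K F j X → H94.X0PlaceData K F N j →
      ∀ (hX : Transcendental K X) {f : F}, IsIntegral (Algebra.adjoin K {j}) f →
        IsIntegral (Algebra.adjoin K {j}) (H94.dd hX f)) ∧
    ∀ (φ : F →ₐ[K] LaurentSeries K) (hX : Transcendental K X) (c : ℕ), φ X = H1.Xc c K →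
      ∀ f : F, φ (H94.dd hX f) = H1.dX c K (φ f) :=
  ⟨fun C D hX _ hf => C.dd_isIntegral D hX hf, fun φ hX c hc f => H1.map_dd_eq φ hX c hc f⟩

/-- **48. The conclusion over `ℂ`**: if `c ∣ N`, then `d/dX` maps the function field of `X₀(N)` to
itself, and functions which are integral over `ℂ[j]` to such functions (`H1.IntJ`: integral over
`ℂ[j]`).  For fields `L` with an embedding in `ℂ`, as in theorem 8 of part 1, one uses that a series
over `L` is integral over `L[j]` if it is integral over `ℂ[j]` (apply an `L`-linear map `ℂ → L` to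
the coefficients of an equation); that `d/dX` maps the function field to itself is true over every
`L` by `derivation_mem` in `GuideIgusaModel`.  File: `H1HauptFinal`. -/
theorem derivation_over_complex {N c : ℕ} [NeZero N] (hc : c = 4 ∨ c = 9) (hcN : c ∣ N)
    {f : LaurentSeries ℂ} (hf : f ∈ laurentBaseChange ℂ (modularFunctionFieldFull N)) :
    H1.dX c ℂ f ∈ laurentBaseChange ℂ (modularFunctionFieldFull N) ∧
      (H1.IntJ ℂ (jqModC ℂ) f → H1.IntJ ℂ (jqModC ℂ) (H1.dX c ℂ f)) :=
  H1.dX_mem_complex hc hcN hf

end Fermat.Agent.Guide.CarayolSteps
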