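import Fermat.Agent.S36

/-!
# Reader's guide to the block CARAYOL, part 3: the tools

Companion of `GuideCarayol` (read that file first; "theorem n of part 1" refers to it).  It contains
the steps which part 1 only mentions: the passage from points of `J₀(q² m)` to functions over the
inertia field (A), the definitions of the language of components (B), the lemmas behind the local
structure and the windings (C), the modular polynomial and the cusps (D), and the charts and the
finiteness statement behind the connectedness theorem (E).  As in part 1 nothing is new: the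
theorems are written out in full and proved by citing the library, and all of them are used in the
proof of theorem 30 of part 1, the bound for inertia invariants, and so in the proofs of S01, S03,
S04, S06, S36, S38, S43, S45, S46, S50, S58, S59 and S60.  Only the list `Guide` imports the file.

In `NOTES.md`: [130] C8 (A), [272] overview (B, C), [180] C5 (D), [266] CONN-INJ-C7 (E).  Section A
was written by helper92, section E partly by helper36.  The proofs are explained step by step in
`GuideFixedFunctions` (A), `GuideCarayolSteps` (B, C), `GuideCusps` (D) and `GuideConnectedness`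
(E).
-/

set_option autoImplicit false

namespace Fermat.Agent.Guide.CarayolTools

open ModularCurve AlgebraicCurve Polynomial
open scoped IntermediateField

/-- The field of algebraic numbers. -/
local notation "ℚbar" => AlgebraicClosure ℚ

/-! ## A. From points to functions (chapter C8)

`F_N = H99.FX L N` is the function field of `X₀(N)` over `L` and `H90.baseIncl K L _` the inclusion
of function fields induced by an extension `L / K` of the constants. -/

/-- **1. Places above a place.**  Let `K' / K` be algebraic and let `F'` be a function field over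
`K'` which contains `F`.  `H92.Above P v`: the valuation ring of `P` is the trace on `F` of the
valuation ring of `v`.  Above each place of `F / K` there is a place of `F' / K'`.  Proof: Zorn's
lemma; a valuation ring of `F'` above `P` contains `K'` because it is integrally closed.
File: `H92CarOrd`. -/
theorem exists_place_above {K K' F F' : Type*} [Field K] [Field K'] [Field F] [Field F']
    [Algebra K K'] [Algebra K F] [Algebra K' F'] [Algebra F F'] [Algebra K F']
    [IsScalarTower K K' F'] [IsScalarTower K F F'] [H3RR.IsFF K' F'] [Algebra.IsIntegral K K']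
    (P : Place K F) : ∃ v : Place K' F', H92.Above P v ∧
      ∀ x : F, x ∈ P.toValuationSubring ↔ algebraMap F F' x ∈ v.toValuationSubring := by
  obtain ⟨v, hv⟩ := H92.exists_above (K' := K') (F' := F') P; exact ⟨v, hv, hv⟩

/-- **2. Constant field extensions are unramified** in characteristic zero: if `v` lies above `P`,
`K' / K` is algebraic and every element of `F'` is a polynomial over `F` in one element of `K'`,
then `v` and `P` have the same order function on `F`.  Proof: the derivative of the minimal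
polynomial of `α ∈ K'` at `α` is a unit at `v`.  File: `H92CarOrd`. -/
theorem order_constant_extension {K K' F F' : Type*} [Field K] [Field K'] [Field F] [Field F']
    [Algebra K K'] [Algebra K F] [Algebra K' F'] [Algebra F F'] [Algebra K F']
    [IsScalarTower K K' F'] [IsScalarTower K F F'] {P : Place K F} {v : Place K' F'}
    (h : H92.Above P v) [CharZero K] [Algebra.IsIntegral K K']
    (hgen : ∀ z : F', ∃ (α : K') (Z : F[X]), z = aeval (algebraMap K' F' α) Z) (f : F) :
    v.ord (algebraMap F F' f) = P.ord f :=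
  h.ord_eq hgen f

/-- **3. Divisibility of divisors descends.**  If the divisor of `f`, computed over the algebraic
extension `L₁` of `L₀`, is divisible by `d`, then it is divisible by `d` over `L₀`.
File: `H92CarBase`. -/
theorem dvd_order_descends {L₀ L₁ : Type*} [Field L₀] [Field L₁] [Algebra L₀ L₁] [Algebra ℚ L₀]
    [Algebra ℚ L₁] (F₀ : IntermediateField ℚ (LaurentSeries ℚ)) [Algebra.IsIntegral L₀ L₁]
    [H3RR.IsFF L₁ (laurentBaseChange L₁ F₀)] {d : ℤ} {f : laurentBaseChange L₀ F₀}
    (h : ∀ v : Place L₁ (laurentBaseChange L₁ F₀), d ∣ v.ord (H90.baseIncl L₀ L₁ F₀ f))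
    (P : Place L₀ (laurentBaseChange L₀ F₀)) : d ∣ P.ord f :=
  H92.dvd_ord_of_baseIncl F₀ h P

/-- **4. Invariant representatives.**  Let `x` be a point of `J₀(N)` (over `ℚbar`) killed by `n`.
There is a function `u` with divisor `n D`, `D` in the class `x`, and leading coefficient `1`
(`H40.IsRep n x u`), which is fixed by every Galois automorphism that fixes `x`.  Proof: take
`D = E - r ∞` with `E ≥ 0` and `r` minimal; then `E` is unique.  (`hN`: some function has an
expansion of order one, i.e. `∞` is a place and the order there is the order of the expansion; for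
example `1/j`.)  File: `H40Rep`. -/
theorem exists_invariant_function {N : ℕ} [NeZero N] [H3RR.IsFF ℚbar (H99.FX ℚbar N)]
    (hN : ∃ x ∈ modularFunctionFieldFull N, x.order = 1) {n : ℕ} {x : JZero N} (hx : n • x = 0) :
    ∃ u : H99.FX ℚbar N, (u ≠ 0 ∧ H40.lc u = 1 ∧ ∃ D : Divisor.degZero (K := ℚbar)
        (F := H99.FX ℚbar N), Pic0.mk D = x ∧
          ∀ v : Place ℚbar (H99.FX ℚbar N), v.ord u = n * (D : Divisor ℚbar (H99.FX ℚbar N)) v) ∧
      ∀ σ : ℚbar ≃ₐ[ℚ] ℚbar, σ • x = x →
        arithmeticGalois (modularFunctionFieldFull N) σ • u = u := by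
  obtain ⟨u, h, h'⟩ := H40.exists_isRep hN hx; exact ⟨u, ⟨h.ne_zero, h.lc_eq, h.exists_div⟩, h'⟩

/-- **5. Invariant functions are defined over the fixed field.**  If the field `K ⊂ ℚbar` contains
all elements fixed by the group `I`, then every function on `X₀(N)` over `ℚbar` which is fixed by
`I` comes from a function over `K` (look at the coefficients of the `q`-expansion).
File: `H92CarC`. -/
theorem descend_invariant_function (K : Type*) [Field K] [Algebra ℚ K] [Algebra K ℚbar]
    {I : Subgroup (ℚbar ≃ₐ[ℚ] ℚbar)}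
    (hK : ∀ a : ℚbar, (∀ σ ∈ I, σ a = a) → ∃ c : K, algebraMap K ℚbar c = a)
    {N : ℕ} (u : H99.FX ℚbar N)
    (hu : ∀ σ ∈ I, arithmeticGalois (modularFunctionFieldFull N) σ • u = u) :
    ∃ f : H99.FX K N, H90.baseIncl K ℚbar _ f = u :=
  H92.exists_baseIncl_eq K hK u hu

/-- **6. The norm along `β` commutes with extension of the constants.**  For `α` this is linear
disjointness; `β` is conjugate to `α` under the Atkin-Lehner involutions.  File: `H92CarD`. -/
theorem norm_beta_baseChange {L L' : Type*} [Field L] [Field L'] [Algebra ℚ L] [Algebra ℚ L']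
    [Algebra L L'] {m q : ℕ} [NeZero m] [NeZero q] (ι : L' →+* ℂ) (hq : q.Prime) (hqm : ¬ q ∣ m)
    (z : H99.FX L (m * q * q)) :
    H60.normAlong (heckeBetaBar L' (m * q) q) (H90.baseIncl L L' _ z) =
      H90.baseIncl L L' _ (H60.normAlong (heckeBetaBar L (m * q) q) z) :=
  H92.baseIncl_normAlong_beta ι hq hqm z

/-- **7. The statement on invariant functions.**  `H92.IsPowInv N I d z`: `z` is a constant times
the `d`-th power of a function on `X₀(N)`, both fixed by `I`.  `H92.CoreQ m q d C I` is the analogue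
of `H92.CoreK` (theorem 3 of part 1) for `I`-invariant functions `u` over `ℚbar`; `H67.dg L a _` is
the degeneracy map `f(t) ↦ f(t^a)`.  File: `H92CarB`. -/
theorem coreQ_iff (m q d C N : ℕ) [NeZero q] [NeZero (m * q)] [NeZero (m * q * q)]
    (I : Subgroup (ℚbar ≃ₐ[ℚ] ℚbar)) (z : H99.FX ℚbar N) :
    (H92.IsPowInv N I d z ↔ ∃ (g : H99.FX ℚbar N) (a : ℚbar),
        (∀ σ ∈ I, arithmeticGalois (modularFunctionFieldFull N) σ • g = g) ∧
        (∀ σ ∈ I, σ a = a) ∧ z = algebraMap ℚbar _ a * g ^ d) ∧
      (H92.CoreQ m q d C I ↔ ∀ u : H99.FX ℚbar (m * q * q), u ≠ 0 →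
        (∀ σ ∈ I, arithmeticGalois (modularFunctionFieldFull (m * q * q)) σ • u = u) →
        (∀ v : Place ℚbar (H99.FX ℚbar (m * q * q)), (d : ℤ) ∣ v.ord u) →
        H92.IsPowInv (m * q) I d (H60.normAlong (H67.dg ℚbar 1 (by simp)) u) →
        H92.IsPowInv (m * q) I d (H60.normAlong (H67.dg ℚbar q (dvd_refl _)) u) →
        ∃ (h : H99.FX ℚbar (m * q * q)) (a : ℚbar), u ^ C = algebraMap ℚbar _ a * h ^ d) :=
  ⟨Iff.rfl, Iff.rfl⟩

/-- **8. From invariant functions to points.**  The bound `H35.FixedInput` (theorem 2 of part 1)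
follows from `H92.CoreQ` for the inertia group of a place above `q` and all `d = p ^ n`, with one
constant `C`: apply it to the function of theorem 4.  File: `H92CarB`. -/
theorem fixedInput_of_coreQ {m q p : ℕ} [NeZero m] [NeZero q] [NeZero (m * q)]
    [NeZero (m * q * q)] (hp : p.Prime) (A : ValuationSubring ℚbar) (hA : A.LiesOverPrime q)
    {C : ℕ} (hC : C ≠ 0) (hcore : ∀ n : ℕ, H92.CoreQ m q (p ^ n) C (A.inertiaSubgroupIn ℚ)) :
    H35.FixedInput p q (m * q) :=
  H92.fixedIn_of_coreQ hp A hA hC hcore

/-- **9. From functions over `K` to invariant functions** (theorems 3, 5, 6).  File: `H92CarC`. -/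
theorem coreQ_of_coreK (K : Type*) [Field K] [Algebra ℚ K] [Algebra K ℚbar]
    {I : Subgroup (ℚbar ≃ₐ[ℚ] ℚbar)}
    (hK : ∀ a : ℚbar, (∀ σ ∈ I, σ a = a) → ∃ c : K, algebraMap K ℚbar c = a)
    {m q : ℕ} [NeZero m] [NeZero q] [NeZero (m * q)] [NeZero (m * q * q)]
    [Algebra.IsIntegral K ℚbar] {d C : ℕ} (hd : d ≠ 0)
    (hβ : ∀ f : H99.FX K (m * q * q),
      H60.normAlong (heckeBetaBar ℚbar (m * q) q) (H90.baseIncl K ℚbar _ f) =
        H90.baseIncl K ℚbar _ (H60.normAlong (heckeBetaBar K (m * q) q) f))
    (hcore : H92.CoreK K m q d C) : H92.CoreQ m q d C I :=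
  H92.coreQ_of_coreK K hK hd hβ hcore

/-- **10. The auxiliary level.**  The bound at a multiple `m'` of `m`, prime to `q`, implies the
bound at `m`: pull back to level `q² m'` and push forward; the degree of the covering changes only
the exponent.  Used with `m' = 4 m` or `9 m`.  File: `H92CarAux`. -/
theorem fixedInput_of_multiple {m m' q : ℕ} [NeZero m] [NeZero m'] [NeZero q] [NeZero (m * q)]
    [NeZero (m' * q)] [NeZero (m * q * q)] [NeZero (m' * q * q)] {p : ℕ} (hp : p.Prime)
    (hq : q.Prime) (hqm' : ¬ q ∣ m') (hmm : m ∣ m') (h : H35.FixedInput p q (m' * q)) :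
    H35.FixedInput p q (m * q) :=
  H92.fixedIn_of_dvd hp hq hqm' hmm h

/-! ## B. The language of components (`H83Def`) -/

/-- **11. The chart ring of a component system** `S : H83.CompSys F E q ι`: `B = hor ∩ ⋂ V i`; the
residue `res i x` is the value of `ρ i : V i → E`, and `0` outside `V i`; `p i` is the prime ideal
of `B` of the elements with residue `0`; and `H83.locRing B m` is the localization of `B` at `m`
inside `F`.  Files: `H83Def`, `H83Loc`. -/
theorem compSys_spec {F E : Type*} [Field F] [Field E] {q : ℕ} {ι : Type*}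
    (S : H83.CompSys F E q ι) (x : F) (m : Ideal S.B) [m.IsPrime] :
    (x ∈ S.B ↔ x ∈ S.hor ∧ ∀ i, x ∈ S.V i) ∧
      (∀ (i : ι) (h : x ∈ S.V i), S.res i x = S.ρ i ⟨x, h⟩) ∧
      (∀ (i : ι) (b : S.B), b ∈ S.p i ↔ S.res i b = 0) ∧
      (x ∈ H83.locRing S.B m ↔ ∃ a : S.B, ∃ b ∉ m, x * (b : F) = a) :=
  ⟨S.mem_B, fun _ h => S.res_of_mem h, fun _ _ => S.mem_p_iff, Iff.rfl⟩

/-- **12. The base ring.**  `H83.BaseHyp O π q d`: the residue map `π : O → k` of the valuation ring
`O` is surjective, elements outside its kernel are units, every `c ≠ 0` is a power of `q` times a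
unit, units have `d`-th roots, and `d` is invertible in `k`.  File: `H83WindA`. -/
theorem baseHyp_iff {K k : Type*} [Field K] [Field k] (O : ValuationSubring K) (π : O →+* k)
    (q d : ℕ) :
    H83.BaseHyp O π q d ↔ Function.Surjective π ∧ (∀ o : O, π o ≠ 0 → IsUnit o) ∧
      (∀ c : K, c ≠ 0 → ∃ (n : ℤ) (o : O), π o ≠ 0 ∧ c = (q : K) ^ n * (o : K)) ∧
      (∀ o : O, π o ≠ 0 → ∃ r : O, r ^ d = o) ∧ (d : k) ≠ 0 :=
  ⟨fun h => ⟨h.1, h.2, h.3, h.4, h.5⟩, fun h => ⟨h.1, h.2.1, h.2.2.1, h.2.2.2.1, h.2.2.2.2⟩⟩

/-- **13. Compatibility with constants.**  `S.Hyp O π` for a three-component system: `O` maps to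
all `V i` and constants are in `hor`, the residue of a constant is given by `π`; every element of
the field becomes integral at all components after multiplication by a power of `q`; every element
is a quotient of elements of the chart ring; `α` and `β` are `K`-linear (the last two fields, which
are not used in the end).  Files: `H83WindA`, `H83WindB`. -/
theorem threeHyp_iff {k E : Type*} [Field k] [Field E] [Algebra k E] {q : ℕ}
    {R : H83.ResData k E q} {F' F : Type*} [Field F'] [Field F] {T : H83.TwoData R F'}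
    {S : H83.ThreeData T F} {K : Type*} [Field K] [Algebra K F'] [Algebra K F]
    {O : ValuationSubring K} {π : O →+* k} :
    S.Hyp O π ↔
      (∀ c : K, algebraMap K F' c ∈ T.hor) ∧ (∀ c : K, algebraMap K F c ∈ S.hor) ∧
      (∀ i (o : O), algebraMap K F' (o : K) ∈ T.V i ∧
        T.res i (algebraMap K F' (o : K)) = algebraMap k E (π o)) ∧
      (∀ i (o : O), algebraMap K F (o : K) ∈ S.V i ∧
        S.res i (algebraMap K F (o : K)) = algebraMap k E (π o)) ∧
      (∀ i (x : F'), ∃ n : ℕ, (q : F') ^ n * x ∈ T.V i) ∧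
      (∀ i (x : F), ∃ n : ℕ, (q : F) ^ n * x ∈ S.V i) ∧
      (∀ x : F', ∃ b : T.B, (b : F') ≠ 0 ∧ x * b ∈ T.B) ∧
      (∀ x : F, ∃ b : S.B, (b : F) ≠ 0 ∧ x * b ∈ S.B) ∧
      (∀ c : K, S.α (algebraMap K F' c) = algebraMap K F c) ∧
      ∀ c : K, S.β (algebraMap K F' c) = algebraMap K F c := by
  constructor
  · rintro ⟨⟨a, b, c⟩, ⟨a', b', c'⟩, e, f, g, h, i, j⟩
    exact ⟨a, a', fun i o => ⟨b i o, c i o⟩, fun i o => ⟨b' i o, c' i o⟩, e, f, g, h, i, j⟩
  · rintro ⟨a, a', b, b', e, f, g, h, i, j⟩
    exact ⟨⟨a, fun i o => (b i o).1, fun i o => (b i o).2⟩,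
      ⟨a', fun i o => (b' i o).1, fun i o => (b' i o).2⟩, e, f, g, h, i, j⟩

/-! ## C. Local structure and windings -/

/-- **14. A criterion for factoriality.**  A noetherian local domain with a prime element `z` such
that the quotient by `z` is a principal ideal ring is factorial.  File: `H83UFD`. -/
theorem factorial_of_prime {R : Type*} [CommRing R] [IsDomain R] [IsLocalRing R]
    [IsNoetherianRing R] {z : R} (hz : Prime z) [IsPrincipalIdealRing (R ⧸ Ideal.span {z})] :
    UniqueFactorizationMonoid R :=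
  H83.ufd_of_prime hz

/-- **15. Points on two components.**  A point `m` (a prime of the chart ring) on the component `0`
or `1` of `S` whose image under `α` lies on the component `1` of `T` lies on the component `2` of
`S`; points of the component `2` with the same image under `α` are equal.  Similarly for `β`, with
the components `0` and `2` of `S` and `0` and `1` of `T` exchanged.  (`S.αB`, `S.βB` are `α`, `β` as
maps of chart rings.)  Proof of the first assertion: let `z = X - Y^q`, `z' = Y - X^q`, as in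
part 1, theorem 14.  If some `u ∈ p 2` were not in `m`, then `α(z') u / q` would be regular, and
`α(z)` is in `m`, so `α(z z' / q)` would be in `m`, which contradicts that theorem.
File: `H83Three`. -/
theorem third_component {k E : Type*} [Field k] [Field E] [Algebra k E] {q : ℕ}
    {R : H83.ResData k E q} {F' F : Type*} [Field F'] [Field F] {T : H83.TwoData R F'}
    (S : H83.ThreeData T F) (m m' : Ideal S.B) [m.IsPrime] [m'.IsPrime] :
    (S.p 0 ≤ m ∨ S.p 1 ≤ m → T.p 1 ≤ m.comap S.αB → S.p 2 ≤ m) ∧
      (S.p 1 ≤ m ∨ S.p 2 ≤ m → T.p 0 ≤ m.comap S.βB → S.p 0 ≤ m) ∧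
      (S.p 2 ≤ m → S.p 2 ≤ m' → m.comap S.αB = m'.comap S.αB → m = m') ∧
      (S.p 0 ≤ m → S.p 0 ≤ m' → m.comap S.βB = m'.comap S.βB → m = m') :=
  ⟨S.p2_le_of_α m, S.p0_le_of_β m, fun h h' e => S.eq_of_comap_α h h' e,
    fun h h' e => S.eq_of_comap_β h h' e⟩

/-- **16. Functions with divisor divisible by `d`.**  Let the local ring at `m` be factorial, let
`f` be a unit at all components, and let all orders of `f` at places be divisible by `d`.  Then
`f = h ^ d · (unit)` at `m`.  Proof: the localization of the local ring at a prime element which is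
not a component is the valuation ring of a place.  Files: `H83Fact`, `H83Unit`. -/
theorem local_power {K F E : Type*} [Field K] [Field F] [Algebra K F] [Field E] {q : ℕ}
    {ι : Type*} [Fintype ι] (S : H83.CompSys F E q ι)
    (hK : ∀ c : K, ∃ N : ℕ, algebraMap K F c * (q : F) ^ N ∈ S.B)
    (hfrac : ∀ x : F, ∃ b : S.B, (b : F) ≠ 0 ∧ x * b ∈ S.B)
    (m : Ideal S.B) [m.IsPrime] [UniqueFactorizationMonoid (H83.locRing S.B m)]
    {d : ℕ} (hd : d ≠ 0) {f : F} (hf : ∀ i, S.res i f ≠ 0) (hf0 : f ≠ 0)
    (hord : ∀ P : Place K F, (d : ℤ) ∣ P.ord f) :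
    ∃ (h : F) (a b : S.B), h ≠ 0 ∧ a ∉ m ∧ b ∉ m ∧ f * b = h ^ d * a :=
  S.fact_at hK hfrac m hd hf hf0 hord

/-- **17. Approximation.**  If the valuation rings `V i` are archimedean (`S.Arch`), the
multiplicities `S.e i` are not zero, and there are elements `u i ∈ ⋂ V j` with nonzero residue
exactly at `i`, then for given `a i ≠ 0` there is an `x` with `x / a i ≡ 1` at `i`, for all `i`.
File: `H83WA`. -/
theorem weak_approximation {F E : Type*} [Field F] [Field E] {q : ℕ} {ι : Type*}
    (S : H83.CompSys F E q ι) [Fintype ι] [DecidableEq ι]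
    (harch : ∀ i (x : F), ∃ n : ℕ, (q : F) ^ n * x ∈ S.V i) (he : ∀ i, S.e i ≠ 0) (u : ι → F)
    (hu : ∀ i j, u i ∈ S.V j) (hu1 : ∀ i, S.res i (u i) ≠ 0)
    (hu0 : ∀ i j, i ≠ j → S.res j (u i) = 0) (a : ι → F) (ha : ∀ i, a i ≠ 0) :
    ∃ x : F, ∀ i, S.res i (x / a i) = 1 :=
  S.exists_approx harch he u hu hu1 hu0 a ha

/-- **18. Valuations of norms.**  `S.HasVal i t x n` means that `x / t ^ n` is a unit at `i`, and
`S.IsUnif b t` that `t` has residue `0` and `t ^ (S.e b) / q` is a unit at `b`.  Let `N` be a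
multiplicative map with `N q = q ^ q`.  (a) If the residue of `N x` at `c` is `φ` of the residue of
`x` at `a`, then `N f` has valuation `q n` at `c` if `f` has valuation `n` at `a`.  (b) If the
residue of `N x` at `c`, a component of multiplicity one, is the product of the residue at `a` and
the `(q-1)`-st power of the residue at `b`, a component of multiplicity `q - 1` with uniformizer
`t`, then the valuations add.  (`x`, `y` are auxiliary elements.)  This gives the congruences used
in theorem 20 of part 1.  File: `H83Val`. -/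
theorem valuation_of_norm {F E F' : Type*} [Field F] [Field E] [Field F'] {q : ℕ} {ι ι' : Type*}
    {S : H83.CompSys F E q ι} {T : H83.CompSys F' E q ι'} (N : F →*₀ F')
    (hNq : N (q : F) = (q : F') ^ q) {a b : ι} {c : ι'} :
    (∀ φ : E →+* E, (∀ x, x ∈ S.V a → N x ∈ T.V c ∧ T.res c (N x) = φ (S.res a x)) →
        ∀ (f : F) (n : ℤ), S.HasVal a (q : F) f n → T.HasVal c (q : F') (N f) (q * n)) ∧
      ∀ (Q : ℕ), Q + 1 = q → Q ≠ 0 →
        (∀ x, x ∈ S.V a → x ∈ S.V b → N x ∈ T.V c ∧
          T.res c (N x) = S.res a x * S.res b x ^ Q) →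
        ∀ (t x y : F), S.IsUnif b t → S.e b = Q → T.e c = 1 → S.HasVal a (q : F) x 1 →
          S.HasVal b t x 0 → S.HasVal a (q : F) y 0 → S.HasVal b t y 1 →
          ∀ (f : F) (n₀ n₁ : ℤ), S.HasVal a (q : F) f n₀ → S.HasVal b t f n₁ →
            T.HasVal c (q : F') (N f) (n₀ + n₁) :=
  ⟨fun φ hN _ _ h => H83.CompSys.norm_val' N φ hN hNq h,
    fun _ hQ hQ0 hN _ _ _ hb heb hec hx0 hx1 hy0 hy1 _ _ _ h0 h1 =>
      H83.CompSys.norm_val N hQ hQ0 hN hNq hb heb hec hx0 hx1 hy0 hy1 h0 h1⟩

/-- **19. The two relations between the values** `v₀, v₁, v₂` at a supersingular point (theorem 22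
of part 1) imply that `v₀ ^ (q² - 1)` and `v₁ ^ (q² - 1)` differ by a constant factor which depends
only on `ζ₀, ζ₁, ζ₀', ζ₁'`.  File: `H83WindF`. -/
theorem relations_solved {k : Type*} [Field k] {q : ℕ} (hq : 2 ≤ q) {v₀ v₁ v₂ ζ₀ ζ₁ ζ₀' ζ₁' : k}
    (h₀ : v₀ ≠ 0) (n0 : ζ₀ ≠ 0) (n1 : ζ₁ ≠ 0) (n0' : ζ₀' ≠ 0) (n1' : ζ₁' ≠ 0)
    (h : v₀ * v₁ ^ (q - 1) / ζ₀ = v₂ ^ q / ζ₁) (h' : v₂ * v₁ ^ (q - 1) / ζ₁' = v₀ ^ q / ζ₀') :
    v₀ ^ (q * q - 1) * (ζ₀ / ζ₁ * (ζ₁' / ζ₀') ^ q) = v₁ ^ (q * q - 1) :=
  H83.rel_solve hq h₀ n0 n1 n0' n1' h h'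

/-! ## D. The modular polynomial and the cusps (chapter C5) -/

/-- **20. The modular polynomial over `ℤ`.**  `H24.Psi q = Ψ(x; z)` is monic of degree `q + 1` in
`x`, the coefficient of `x ^ k` has degree at most `q (q + 1 - k)` in `z`, Kronecker's congruence
`Ψ ≡ (x - z^q)(x^q - z)` modulo `q` holds, and `Ψ(j(t); j(t^q)) = 0` over every ring.  Proof: the
product of the `x - j(ζ^a t)`, `0 ≤ a < q`, and `x - j(t^(q²))` has coefficients in `ℤ[j(t^q)]`.
Files: `H24ModPoly`, `H24ModPoly2`, `H24Kron`, `H24Int`. -/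
theorem modularPolynomial (q : ℕ) [Fact q.Prime] (A : Type*) [CommRing A] :
    (H24.Psi q).Monic ∧ (H24.Psi q).natDegree = q + 1 ∧
      (∀ k, k ≤ q + 1 → ((H24.Psi q).coeff k).natDegree ≤ q * (q + 1 - k)) ∧
      (∃ H : ℤ[X][X], H24.Psi q = (X - C (X ^ q)) * (X ^ q - C X) + C (C (q : ℤ)) * H) ∧
      ((H24.Psi q).map (eval₂RingHom (Int.castRingHom _) (qExpand A q (jqModC A)))).eval
        (jqModC A) = 0 :=
  ⟨H24.Psi_monic q, H24.Psi_natDegree q, H24.natDegree_coeff_le (H24.Psi_prod q),
    H24.kronecker (H24.Psi_prod q), H24.rel_j q A⟩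

/-- **21. Integrality from the modular polynomial.**  If `Ψ(x; z) = 0` in a field, then `x` is
integral over `ℤ[z]`, and `z^(-q) x` is integral over `ℤ[z⁻¹]`.  Applied to `j(τ)`, `j(q τ)` and
`j(q² τ)` this gives the integral relations between them (fields `int1`, `int2` of `H24.CuspSys`)
and between their inverses (`int3`, `int4`).  File: `H24Int`. -/
theorem integral_of_relation {q : ℕ} [Fact q.Prime] {F : Type*} [Field F] {x z : F}
    (h : ((H24.Psi q).map (eval₂RingHom (Int.castRingHom F) z)).eval x = 0) :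
    IsIntegral (Algebra.adjoin ℤ {z}) x ∧
      (z ≠ 0 → IsIntegral (Algebra.adjoin ℤ {z⁻¹}) (z⁻¹ ^ q * x)) :=
  ⟨H24.Rel.isIntegral h, fun hz => H24.Rel.isIntegral_inv h hz⟩

/-- **22. Vanishing at the cusps.**  Let `R` be an integrally closed subring of the field `F`, let
`y ∈ R` be in the Jacobson radical of `R`, and let `1 / y` be integral over `ℤ[1 / z]`.  Then `z` is
in `R`.  (With `R` the local ring of the chart at a cusp, `y = 1/j(τ)` and `z = 1/j(q τ)`.)
File: `H24Cusp`. -/
theorem mem_of_integral_inverse {F : Type*} [Field F] {R : Subring F}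
    (hR : ∀ x : F, IsIntegral R x → x ∈ R) {y z : F} (hy : y ≠ 0) (hz : z ≠ 0) (hyR : y ∈ R)
    (hrad : ∀ r ∈ R, ∃ s ∈ R, (1 - y * r) * s = 1)
    (hint : IsIntegral (Algebra.adjoin ℤ {z⁻¹}) y⁻¹) : z ∈ R :=
  H24.mem_of_isIntegral_inv hR hy hz hyR hrad hint

/-- **23. The functions `1/j` on the components.**  `D.y, D.y2, D.y3` are `1/j(τ), 1/j(q τ)` and
`1/j(q² τ)`.  With `Y = 1/j` on the special fibre of `X₀(m)` their residues are `Y, Y^q, Y^(q²)` on
the component `0`, `Y, Y^q, Y` on `1`, and `Y^(q²), Y^q, Y` on `2`.  Hence `y^q / y2` is `1` on `1`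
(and on `0`) and vanishes at the cusps of `2`, and `y3^q / y2` is `1` on `1` and `2` and vanishes at
the cusps of `0`; so no two components meet at a cusp.  File: `H24CuspSys`. -/
theorem cuspSys_residues {k F E : Type*} [Field k] [Field F] [Field E] [Algebra k E] {q : ℕ}
    (D : H24.CuspSys k F E q) :
    (D.res 0 D.y = D.Y ∧ D.res 0 D.y2 = D.Y ^ q ∧ D.res 0 D.y3 = D.Y ^ (q * q)) ∧
      (D.res 1 D.y = D.Y ∧ D.res 1 D.y2 = D.Y ^ q ∧ D.res 1 D.y3 = D.Y) ∧
      (D.res 2 D.y = D.Y ^ (q * q) ∧ D.res 2 D.y2 = D.Y ^ q ∧ D.res 2 D.y3 = D.Y) ∧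
      (IsIntegral (Algebra.adjoin ℤ {D.y}) (D.y ^ q * D.y2⁻¹) ∧
        D.res 1 (D.y ^ q * D.y2⁻¹) = 1 ∧
        D.res 2 (D.y ^ q * D.y2⁻¹) = D.Y ^ (q * q * q - q)) ∧
      IsIntegral (Algebra.adjoin ℤ {D.y3}) (D.y3 ^ q * D.y2⁻¹) ∧
        D.res 0 (D.y3 ^ q * D.y2⁻¹) = D.Y ^ (q * q * q - q) ∧
        D.res 1 (D.y3 ^ q * D.y2⁻¹) = 1 ∧ D.res 2 (D.y3 ^ q * D.y2⁻¹) = 1 :=
  ⟨⟨D.res0_y, D.res0_y2, D.res0_y3⟩, ⟨D.res1_y, D.res1_y2, D.res1_y3⟩,
    ⟨D.res2_y, D.res2_y2, D.res2_y3⟩, ⟨D.int3, D.res1_fα, D.res2_fα⟩, D.int4, D.res0_gβ,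
    D.res1_gβ, D.res2_gβ⟩

/-- **24. The derivative of `1/j` at the cusps.**  In characteristic `q` the function
`(θ(1/j) j)^(q-1)` is a rational function of `1/j` which is regular and nonzero at `1/j = 0`.  It is
used for the uniformizer `y3 - y` of the middle component at the cusps: the residue of
`(y3 - y)^(q-1) / q` is `-(θY)^(q-1)` (field `eps` of `H24.CuspSys`; `H67Eps`).
File: `H24Eps`. -/
theorem derivative_at_cusps (q : ℕ) [Fact q.Prime] (k : Type*) [Field k] [CharP k q] :
    ∃ P Q : k[X], P.eval 0 ≠ 0 ∧ Q.eval 0 ≠ 0 ∧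
      (H1.thetaL k (jqModC k)⁻¹) ^ (q - 1) * Q.eval₂ HahnSeries.C (jqModC k)⁻¹ =
        ((jqModC k)⁻¹) ^ (q - 1) * P.eval₂ HahnSeries.C (jqModC k)⁻¹ :=
  H24.exists_eps q k

/-! ## E. Charts, rational points and connectedness (chapter C7) -/

/-- **25. The ring of the generic points of the special fibre is the same on both charts.**
(`H36.chart`, `H36.gs`: theorem 25 of part 1.)  File: `H36Chart`. -/
theorem gs_inv {O : Type*} [CommRing O] [IsDomain O] [IsDiscreteValuationRing O] {F : Type*}
    [Field F] [Algebra O F] {t : F} (ht : t ≠ 0) : H36.gs O t⁻¹ = H36.gs O t :=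
  H36.gs_inv ht

/-- **26. Regular in codimension one.**  An element which is integral at the generic points of the
special fibre and on the generic fibre is integral over `O[t]`.  Proof: `O[t]` is factorial.
File: `H36Chart`. -/
theorem mem_chart_of_gs {O K F : Type*} [CommRing O] [IsDomain O] [IsDiscreteValuationRing O]
    [Field K] [Algebra O K] [IsFractionRing O K] [Field F] [Algebra O F] [Algebra K F]
    [IsScalarTower O K F] {t x : F} (ht : Transcendental K t) (hx : x ∈ H36.gs O t)
    (hx' : x ∈ H36.chart K t) : x ∈ H36.chart O t :=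
  H36.mem_chart_of_gs_of_chartK K ht hx hx'

/-- **27. Rational points.**  `H36.RatPoint K τ` consists of an embedding `e : F → K((T))` which is
the identity on constants, such that `e τ` is a power series with constant term zero and nonzero
linear coefficient.  For the function field of `X₀(N)` and `τ = 1/j`: the `q`-expansion.
File: `H36ConnB`. -/
theorem ratPoint_spec {K F : Type*} [Field K] [Field F] [Algebra K F] {τ : F}
    (p : H36.RatPoint K τ) :
    (∀ c : K, p.e (algebraMap K F c) = HahnSeries.C c) ∧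
      ∃ P : PowerSeries K, p.e τ = HahnSeries.ofPowerSeries ℤ K P ∧
        PowerSeries.coeff 0 P = 0 ∧ PowerSeries.coeff 1 P ≠ 0 :=
  ⟨p.he, p.P, p.hP, p.hP0, p.hP1⟩

/-- **28. The `d`-th root at the cusp.**  A function with residue `1` along all components and
divisor divisible by `d` is a `d`-th power in `K((T))`, if `D.y = 1/j` is a uniformizer at the
rational point `p`: near the cusp it is `h ^ d · (unit)` by theorem 16, and the unit has a constant
term which is a unit of `O`, hence a `d`-th power.  (`H83.CuspHyp D O π`: `D` is compatible with the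
constants as in theorem 13, its chart ring is the integral closure of `O[1/j]`, every function is a
quotient of elements of the chart ring, and every residue a quotient of elements of `D.C`.)
Files: `H83CoreA`, `H83CoreB`. -/
theorem root_at_cusp {K k F E : Type*} [Field K] [Field k] [Field F] [Field E] [Algebra k E]
    [Algebra K F] {q d : ℕ} {O : ValuationSubring K} {π : O →+* k} {D : H24.CuspSys k F E q}
    [IsDiscreteValuationRing O] [CharZero K] (hO : H83.BaseHyp O π q d) (H : H83.CuspHyp D O π)
    (p : H36.RatPoint K D.y) {f : F} (hf : ∀ i, D.res i f = 1)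
    (hord : ∀ P : Place K F, (d : ℤ) ∣ P.ord f) : ∃ Y : LaurentSeries K, Y ^ d = p.e f :=
  H.exists_root hO p hf hord

/-- **29. The finiteness statement behind connectedness.**  Let `b` be integral over `O[τ]` with
value a unit `u` of `O` at the rational point (`p.ev b`), and let `W` be a finite dimensional space
of functions over `K` which are regular on the chart of `τ`.  The `O`-submodule `H36.goodSub` of the
`x ∈ W` for which some `b ^ N x` is in the ring `gs O τ` is finitely generated.  (If `b ≡ 1` on one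
part of the special fibre, through which the point passes, and `b ≡ 0` on the rest, these are the
functions which are integral on the first part only; by finiteness and a count of dimensions the
rest is empty.)  File: `H36ConnB`. -/
theorem finite_goodSub {K F O : Type*} [Field K] [Field F] [Algebra K F] {τ : F}
    (p : H36.RatPoint K τ) [CommRing O] [IsDomain O] [IsDiscreteValuationRing O] [Algebra O K]
    [IsFractionRing O K] [Algebra O F] [IsScalarTower O K F] [CharZero K] {b : F}
    (hτ : Transcendental K τ) [FiniteDimensional K⟮τ⟯ F] (hb : b ∈ H36.chart O τ)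
    {u : O} (hu : algebraMap O K u = p.ev b) (hu' : IsUnit u) (W : Submodule K F)
    [FiniteDimensional K W] (hW : ∀ x ∈ W, x ∈ H36.chart K τ) (hb' : b ∈ H36.gs O τ) :
    Module.Finite O (H36.goodSub O τ hb' W) :=
  p.finite_goodSub hτ hb hu hu' W hW

end Fermat.Agent.Guide.CarayolTools
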