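import Fermat.Agent.H16Inst
import Fermat.Agent.H16Ram

/-!
# Reader's guide: chart rings are integral closures (block CARAYOL, chapter C6)

**Statements served:** S36, and through `fixedInput` of `GuideCarayol` also S01, S03, S04, S06, S38,
S43, S45, S46, S50, S58, S59, S60.  Companion of `GuideCarayol` (theorems 17, 18) and of
`GuideCarayolModel` (theorems 22, 29, 30): here are the steps of their proofs.  Every library theorem
cited below is used in the proofs of these statements.  In prose: NOTES [259].

**The problem.**  `O` is a discrete valuation ring with uniformizer `ϖ` and fraction field `K`,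
`F / K` a function field and `J ∈ F` transcendental.  The chart of the normal model of `F` over `O`
is the integral closure of `O[J]` in `F`.  It consists of the functions which are regular in
characteristic zero (integral over `K[J]`) and regular at the components of the special fibre, the
valuation rings of `F` above the Gauss valuation of `K(J)`.  For `X₀(q² m)` three such valuation rings
`V 0`, `V 1`, `V 2` are given by expansions.  Are these all?

**The answer.**  Let `e i` be the multiplicity of the component `i` and `μ i` the degree of its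
residue field over the field generated by the residue of `J`.  If `∑ e i μ i = [F : K(J)]`, there are
no others.  Extensions of valuations are not used: from elements `b` with independent residues,
uniformizers `w` and separators `s` one forms the `∑ e i μ i` elements `s i ^ N * w i ^ l * b a`, and
shows that they are a basis of the functions regular at all `V i` over the Gauss ring of `K(J)`.
For `X₀(q² m)` one has `e = (1, q - 1, 1)`, `μ = (ψ(m), ψ(m), q² ψ(m))` and
`[F : K(j)] = ψ(q² m) = (q² + q) ψ(m)`.  (For components of multiplicity one the same count is made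
with frames: `GuideFrames`, and `GuideTwoComponents` for `X₀(q m)`.  The embeddings which define the
`V i`, the residues of the images of `α` and `β` and of `X(q² z) - X(z)` are in `GuideThreeSheets`.)

**Contents.**
1. The Gauss valuation (`H16Fund`).
2. Independent elements modulo `ϖ`, minimal polynomials, integral closures (`H16Fund`).
3. Component systems: residues, peeling off a uniformizer, construction of independent elements
   (`H16Chart`).
4. Independent residues in characteristic `q` (`H16Three`, `H16ResInd`).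
5. Three components: separators and uniformizers at level `q² m` (`H16Three`, `H16Gs`).
6. The modular instance (`H16Inst`).
7. The ramified extension `K_I(ζ)` of the inertia field, in which the middle component is defined
   (`H16Ram`).

**Notation.**  `aeval J P` is `P(J)`, `C ϖ` the constant polynomial; `K⟮J⟯` is the field `K(J)`;
`Algebra.adjoin O {t}` is `O[t]`; `S : H83.CompSys F E q ι` is a system of components, see
`compSys_spec` in `GuideCarayolTools`, with `S.res i x` the residue of `x` (and `0` if `x` is not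
regular at `i`).  `R : H83.ResData k E q` describes the special fibre of `X₀(m)` (the ring of functions
`R.C`, the coordinate `R.X`, the Frobenius `R.φ` of the coefficients) and `T : H83.TwoData R F'` the
two components of `X₀(q m)` (theorems 12 and 13 of `GuideCarayol`); `H99.AL K m q` is the type of the
Atkin-Lehner involutions `w` of level `q m`; `S.Consts A π` says that constants are in `S.hor` and that
a constant `a` in `A` has the residue `π a` at all components.
-/

set_option autoImplicit false

namespace Fermat.Agent.Guide.Charts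

open Polynomial ModularCurve
open scoped IntermediateField

/-! ## 1. The Gauss valuation -/

/-- **Primitive part.**  A non zero polynomial over `O` is `ϖ^k` times a polynomial which is not
divisible by `ϖ`, and only `0` is divisible by all powers of `ϖ`.  In `H16Fund`. -/
theorem primitive_part {O : Type*} [CommRing O] [IsDomain O] [IsDiscreteValuationRing O] {ϖ : O}
    (hϖ : Prime ϖ) (P : O[X]) :
    (P ≠ 0 → ∃ (k : ℕ) (P₀ : O[X]), P = C ϖ ^ k * P₀ ∧ ¬ C ϖ ∣ P₀) ∧
      ((∀ k, C ϖ ^ k ∣ P) → P = 0) :=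
  ⟨H16.Ch.exists_pow_mul hϖ, H16.Ch.eq_zero_of_forall_pow_dvd hϖ⟩

/-- **Common denominators.**  Finitely many elements of `K(J)` have a common denominator
`ϖ^k Q(J)` with `Q` a polynomial over `O` which is not divisible by `ϖ`.  In `H16Fund`. -/
theorem common_denominator {O K F : Type*} [CommRing O] [IsDomain O] [IsDiscreteValuationRing O]
    [Field K] [Field F] [Algebra O K] [IsFractionRing O K] [Algebra K F] [Algebra O F]
    [IsScalarTower O K F] {ϖ : O} (hϖ : Prime ϖ) {J : F} (hJ : Transcendental K J) {β : Type*}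
    (s : Finset β) (x : β → K⟮J⟯) :
    ∃ (k : ℕ) (P : β → O[X]) (Q : O[X]), ¬ C ϖ ∣ Q ∧
      ∀ j ∈ s, algebraMap O F ϖ ^ k * aeval J Q * (x j : F) = aeval J (P j) :=
  H16.Ch.exists_common O hϖ hJ s x

/-- **`V` induces the Gauss valuation on `K(J)`**: polynomials in `J` over `O` are in `V`, they are
units of `V` if they are not divisible by `ϖ`, and `1/ϖ` is not in `V`.  The same is then true for
`1/J` in place of `J` (use the reversed polynomial).  In `H16Fund`. -/
theorem gaussAt_iff {O F : Type*} [CommRing O] [Field F] [Algebra O F] {ϖ : O} {J : F}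
    {V : ValuationSubring F} :
    (H16.Ch.GaussAt ϖ J V ↔ (∀ P : O[X], aeval J P ∈ V) ∧
      (∀ P : O[X], ¬ C ϖ ∣ P → (aeval J P)⁻¹ ∈ V) ∧ (algebraMap O F ϖ)⁻¹ ∉ V) ∧
    (H16.Ch.GaussAt ϖ J V → H16.Ch.GaussAt ϖ J⁻¹ V) :=
  ⟨⟨fun h => ⟨h.mem, h.inv_mem, h.not_mem⟩, fun h => ⟨h.1, h.2.1, h.2.2⟩⟩, fun h => h.inv⟩

/-- **All `V i` have the same intersection with `K(J)`**, the Gauss ring.  In `H16Fund`. -/
theorem same_gauss_ring {O K F : Type*} [CommRing O] [IsDomain O] [IsDiscreteValuationRing O]
    [Field K] [Field F] [Algebra O K] [IsFractionRing O K] [Algebra K F] [Algebra O F]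
    [IsScalarTower O K F] {ϖ : O} (hϖ : Prime ϖ) {J : F} (hJ : Transcendental K J)
    {V₀ V₁ : ValuationSubring F} (h0 : H16.Ch.GaussAt ϖ J V₀) (h1 : H16.Ch.GaussAt ϖ J V₁)
    (y : K⟮J⟯) : (y : F) ∈ V₀ ↔ (y : F) ∈ V₁ :=
  ⟨h0.mem_of_mem h1 hϖ hJ y, h1.mem_of_mem h0 hϖ hJ y⟩

/-- **`K[t] ∩ V₀ = O[t]`** (one inclusion; the other is clear).  In `H16Fund`. -/
theorem polynomials_in_gauss_ring {O K F : Type*} [CommRing O] [IsDomain O]
    [IsDiscreteValuationRing O] [Field K] [Field F] [Algebra O K] [IsFractionRing O K] [Algebra K F]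
    [Algebra O F] [IsScalarTower O K F] {ϖ : O} (hϖ : Prime ϖ) {t : F} (ht : Transcendental K t)
    {V₀ : ValuationSubring F} (hG : H16.Ch.GaussAt ϖ t V₀) {c : F}
    (hc : c ∈ Algebra.adjoin K {t}) (hcV : c ∈ V₀) : c ∈ Algebra.adjoin O {t} :=
  H16.Ch.mem_adjoin_of_mem hϖ ht hG hc hcV

/-! ## 2. Independent elements and integral closures -/

/-- **Independence modulo `ϖ`.**  The family `b` is independent modulo `ϖ` if `∑ P_j(J) b_j` can be
divisible by `ϖ` in all `V i` only if all `P_j` are divisible by `ϖ`.  Such a family is linearly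
independent over `K(J)`: clear denominators, then divide by `ϖ` again and again.  In `H16Fund`. -/
theorem linearly_independent {O K F : Type*} [CommRing O] [IsDomain O] [IsDiscreteValuationRing O]
    [Field K] [Field F] [Algebra O K] [IsFractionRing O K] [Algebra K F] [Algebra O F]
    [IsScalarTower O K F] {ϖ : O} (hϖ : Prime ϖ) {J : F} (hJ : Transcendental K J) {ι : Type*}
    {V : ι → ValuationSubring F} {β : Type*} [Fintype β] {b : β → F} :
    (H16.Ch.IndepMod ϖ J V b ↔ ∀ P : β → O[X],
      (∀ i, (∑ j, aeval J (P j) * b j) / algebraMap O F ϖ ∈ V i) → ∀ j, C ϖ ∣ P j) ∧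
    (H16.Ch.IndepMod ϖ J V b → LinearIndependent K⟮J⟯ b) :=
  ⟨Iff.rfl, H16.Ch.linearIndependent_of_indepMod hϖ hJ⟩

/-- **A basis over the Gauss ring.**  If there are `[F : K(J)]` elements `b_j` independent modulo `ϖ`,
every function `x` which is regular at all `V i` is a combination of the `b_j` with coefficients
`P_j(J)/Q(J)` in the Gauss ring (`Q` not divisible by `ϖ`): write `x` in the basis `b` of `F` over
`K(J)`, and remove the powers of `ϖ` from the common denominator by independence.  In `H16Fund`. -/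
theorem combination {O K F : Type*} [CommRing O] [IsDomain O] [IsDiscreteValuationRing O]
    [Field K] [Field F] [Algebra O K] [IsFractionRing O K] [Algebra K F] [Algebra O F]
    [IsScalarTower O K F] {ϖ : O} (hϖ : Prime ϖ) {J : F} (hJ : Transcendental K J) {ι : Type*}
    {V : ι → ValuationSubring F} {β : Type*} [Fintype β] {b : β → F}
    (hb : H16.Ch.IndepMod ϖ J V b) (hG : ∀ i, H16.Ch.GaussAt ϖ J (V i))
    (hcard : Fintype.card β = Module.finrank K⟮J⟯ F) (x : F) (hβ : 0 < Fintype.card β)
    (hx : ∀ i, x ∈ V i) : ∃ (P : β → O[X]) (Q : O[X]), ¬ C ϖ ∣ Q ∧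
      aeval J Q * x = ∑ j, aeval J (P j) * b j :=
  H16.Ch.exists_repr hϖ hJ hb hG hcard x hβ hx

/-- **Minimal polynomials.**  If moreover the `b_j` are regular at all `V i`, the functions regular at
all `V i` form a finite module over the Gauss ring.  So each such `x` is integral over the Gauss ring,
which is integrally closed, and the minimal polynomial of `x` over `K(J)` has coefficients in the
Gauss ring.  In `H16Fund`. -/
theorem minimal_polynomial {O K F : Type*} [CommRing O] [IsDomain O] [IsDiscreteValuationRing O]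
    [Field K] [Field F] [Algebra O K] [IsFractionRing O K] [Algebra K F] [Algebra O F]
    [IsScalarTower O K F] {ϖ : O} (hϖ : Prime ϖ) {J : F} (hJ : Transcendental K J) {ι : Type*}
    {V : ι → ValuationSubring F} {β : Type*} [Fintype β] {b : β → F}
    (hb : H16.Ch.IndepMod ϖ J V b) (hbV : ∀ j i, b j ∈ V i)
    (hG : ∀ i, H16.Ch.GaussAt ϖ J (V i)) (hcard : Fintype.card β = Module.finrank K⟮J⟯ F)
    (hβ : 0 < Fintype.card β) (i₀ : ι) (x : F) (hx : ∀ i, x ∈ V i) (n : ℕ) :
    (((minpoly K⟮J⟯ x).coeff n : K⟮J⟯) : F) ∈ V i₀ :=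
  H16.Ch.coeff_minpoly_mem hϖ hJ hb hbV hG hcard hβ K⟮J⟯ rfl i₀ x hx n

/-- **From `K[t]` to `O[t]`.**  If `x` is integral over `K[t]` and its minimal polynomial over `K(t)`
has coefficients in `V₀`, these coefficients are in `K[t] ∩ V₀ = O[t]`, and `x` is integral over
`O[t]`.  In `H16Fund`. -/
theorem integral_of_minimal_polynomial {O K F : Type*} [CommRing O] [IsDomain O]
    [IsDiscreteValuationRing O] [Field K] [Field F] [Algebra O K] [IsFractionRing O K] [Algebra K F]
    [Algebra O F] [IsScalarTower O K F] {ϖ : O} (hϖ : Prime ϖ) {t : F} (ht : Transcendental K t)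
    {V₀ : ValuationSubring F} (hG : H16.Ch.GaussAt ϖ t V₀) {x : F}
    (hx : IsIntegral (Algebra.adjoin K {t}) x)
    (hmin : ∀ n, (((minpoly K⟮t⟯ x).coeff n : K⟮t⟯) : F) ∈ V₀) :
    IsIntegral (Algebra.adjoin O {t}) x :=
  H16.Ch.isIntegral_adjoin hϖ ht hG hx hmin

/-- **The converse**: an element which is integral over `O[t]` is in every valuation ring which
induces the Gauss valuation.  In `H16Fund`. -/
theorem regular_of_integral {O F : Type*} [CommRing O] [Field F] [Algebra O F] {ϖ : O} {t : F}
    {V : ValuationSubring F} (hG : H16.Ch.GaussAt ϖ t V) {x : F}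
    (hx : IsIntegral (Algebra.adjoin O {t}) x) : x ∈ V :=
  H16.Ch.mem_of_isIntegral hG hx

/-- **The chart ring is noetherian**: the integral closure of the noetherian, integrally closed ring
`O[t]` in a finite separable extension of its fraction field `K(t)` is a finite module.  In
`H16Fund`. -/
theorem noetherian {O K F : Type*} [CommRing O] [IsDomain O] [IsDiscreteValuationRing O]
    [Field K] [Field F] [Algebra O K] [IsFractionRing O K] [Algebra K F] [Algebra O F]
    [IsScalarTower O K F] {ϖ : O} (hϖ : Prime ϖ) {t : F} (ht : Transcendental K t)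
    [FiniteDimensional K⟮t⟯ F] [Algebra.IsSeparable K⟮t⟯ F] :
    IsNoetherianRing (integralClosure (Algebra.adjoin O {t}) F) :=
  H16.Ch.isNoetherianRing_integralClosure hϖ ht

/-! ## 3. Component systems -/

/-- **Rules for residues.**  On `S.V i` the map `S.res i` is a homomorphism of rings, and an element
with non zero residue is a unit of `S.V i`.  In `H16Chart`. -/
theorem residue_rules {F E : Type*} [Field F] [Field E] {q : ℕ} {ι : Type*}
    (S : H83.CompSys F E q ι) {i : ι} {x y : F} (hx : x ∈ S.V i) (hy : y ∈ S.V i) :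
    S.res i (x * y) = S.res i x * S.res i y ∧ S.res i (x + y) = S.res i x + S.res i y ∧
      S.res i (x - y) = S.res i x - S.res i y ∧ S.res i 0 = 0 ∧ S.res i 1 = 1 ∧
      (S.res i x ≠ 0 → x⁻¹ ∈ S.V i) :=
  ⟨H16.Ch.res_mul S hx hy, H16.Ch.res_add S hx hy, H16.Ch.res_sub S hx hy, H16.Ch.res_zero S,
    H16.Ch.res_one S, H16.Ch.inv_mem_of_res_ne_zero S hx⟩

/-- **The components lie over `q`**: `q` has residue `0`, `1/q` is not regular, and an element which
is divisible by `q` has residue `0`.  In `H16Chart`. -/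
theorem residue_of_q {F E : Type*} [Field F] [Field E] {q : ℕ} {ι : Type*}
    (S : H83.CompSys F E q ι) (i : ι) : (q : F) ∈ S.V i ∧ S.res i (q : F) = 0 ∧
      ((q : F))⁻¹ ∉ S.V i ∧ ∀ x : F, x / (q : F) ∈ S.V i → S.res i x = 0 :=
  ⟨H16.Ch.q_mem S, H16.Ch.res_q S, H16.Ch.qinv_not_mem S, fun _ h => H16.Ch.res_eq_zero_of_div S h⟩

/-- **Peeling off powers of a uniformizer.**  Let `w^e / q` be a unit of `V i`, and let the `y_l`,
`0 ≤ l < e`, be regular and divisible by `q` as soon as the residue is `0`.  If
`∑ w^l y_l` is divisible by `q`, all `y_l` have residue `0`: if the terms before the `l`-th one are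
already removed, then `w^l y_l` is divisible by `w^(l+1)`, so `y_l` has residue `0`, is divisible by
`q`, and the term may be removed too.  In `H16Chart`. -/
theorem peel {F E : Type*} [Field F] [Field E] {q : ℕ} {ι : Type*} (S : H83.CompSys F E q ι)
    {i : ι} {w : F} {e : ℕ} (he : 0 < e) (hw0 : w ≠ 0) (hw : w ∈ S.V i)
    (hwe : w ^ e / (q : F) ∈ S.V i) (hwe' : (q : F) / w ^ e ∈ S.V i) (y : ℕ → F)
    (hy : ∀ l, y l ∈ S.V i) (hdiv : ∀ l < e, S.res i (y l) = 0 → y l / (q : F) ∈ S.V i)
    (hsum : (∑ l ∈ Finset.range e, w ^ l * y l) / (q : F) ∈ S.V i) :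
    ∀ l < e, S.res i (y l) = 0 :=
  H16.Ch.peel S he hw0 hw hwe hwe' y hy hdiv hsum

/-- **Residues of polynomials in `J`.**  The residue of `P(J)` is the value of the reduced polynomial
at the residue `jb i` of `J` (`GaussRes`, see `gaussRes_enough` in `GuideCarayolModel`).  As `jb i`
is transcendental, `V i` induces the Gauss valuation on `K(J)`.  In `H16Chart`. -/
theorem residue_of_polynomial {O F k E : Type*} [CommRing O] [Field F] [Algebra O F] [Field k]
    [Field E] [Algebra k E] {q : ℕ} {ι : Type*} {S : H83.CompSys F E q ι} {red : O →+* k} {J : F}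
    {jb : ι → E} (h : H16.Ch.GaussRes S red J jb) (i : ι) :
    (∀ P : O[X], aeval J P ∈ S.V i ∧ S.res i (aeval J P) = aeval (jb i) (P.map red)) ∧
      (∀ P : O[X], P.map red = 0 → C (q : O) ∣ P) ∧ H16.Ch.GaussAt (q : O) J (S.V i) :=
  ⟨fun P => ⟨h.aeval_mem i P, h.res_aeval i P⟩, fun _ hP => h.C_dvd hP, h.gaussAt i⟩

/-- **Construction of independent elements.**  With the data `Enough` (residues `c a` independent over
`k[jb i]` with lifts `b a`, separators `s i`, uniformizers `w i`) the `∑ e i μ i` elements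
`s i ^ N * w i ^ l * b a`, `0 ≤ l < e i`, `N = ∑ e i`, are regular everywhere and independent modulo
`q`.  Proof: at the component `i` the terms with `i' ≠ i` are divisible by `q` because of the
separator and of the definition of multiplicity, and `s i` is a unit; now use `peel`.  In
`H16Chart`. -/
theorem independent_elements {O F k E : Type*} [CommRing O] [IsDomain O]
    [IsDiscreteValuationRing O] [Field F] [Algebra O F] [Field k] [Field E] [Algebra k E] {q : ℕ}
    {ι : Type*} {S : H83.CompSys F E q ι} {red : O →+* k} {J : F} {jb : ι → E} [Fintype ι]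
    {μ : ι → ℕ} (h : H16.Ch.GaussRes S red J jb) (hE : H16.Ch.Enough S k jb μ) :
    ∃ b : (Σ i, Fin (S.e i) × Fin (μ i)) → F, (∀ j i, b j ∈ S.V i) ∧
      H16.Ch.IndepMod (q : O) J S.V b :=
  H16.Ch.exists_indepMod h hE

/-- **The chart ring of a component system** is the integral closure of `O[t]`, `t = J` or `1/J`, if
`S.hor` is the integral closure of `K[t]` and `∑ e i μ i = [F : K(J)]`.  From `chart_ring` of
`GuideCarayol`.  In `H16Chart`. -/
theorem chart_ring_of_system {O K F k E : Type*} [CommRing O] [IsDomain O]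
    [IsDiscreteValuationRing O] [Field K] [CharZero K] [Algebra O K] [IsFractionRing O K] [Field F]
    [Algebra K F] [Algebra O F] [IsScalarTower O K F] [Field k] [Field E] [Algebra k E] {q : ℕ}
    {ι : Type*} [Fintype ι] [Nonempty ι] {S : H83.CompSys F E q ι} {red : O →+* k} {J : F}
    {jb : ι → E} {μ : ι → ℕ} (hq : Prime (q : O)) (hJ : Transcendental K J)
    (h : H16.Ch.GaussRes S red J jb) (hE : H16.Ch.Enough S k jb μ)
    (hcard : ∑ i, S.e i * μ i = Module.finrank K⟮J⟯ F) (hpos : 0 < ∑ i, S.e i * μ i) (t : F)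
    (ht : t = J ∨ t = J⁻¹) (hhor : ∀ x : F, x ∈ S.hor ↔ IsIntegral (Algebra.adjoin K {t}) x) :
    (∀ x : F, x ∈ S.B ↔ IsIntegral (Algebra.adjoin O {t}) x) ∧ IsNoetherianRing S.B :=
  H16.Ch.isNoetherianRing_B hq hJ h hE hcard hpos t ht hhor

/-! ## 4. Independent residues in characteristic `q` -/

/-- **Powers of `j`.**  `ResIndep k j c` says that the family `c` is independent over `k[j]`.  If `c`
has `n` elements, the `n N` elements `c a * j^b`, `0 ≤ b < N`, are independent over `k[j^N]`.  It is
used for `N = q²` at the component `2`, where the residue of `j` is `j^(q²)`.  In `H16Three`. -/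
theorem independent_over_power {k E : Type*} [Field k] [Field E] [Algebra k E] {jb : E} {n : ℕ}
    {c : Fin n → E} (N : ℕ) (hN : 0 < N) :
    (H16.Ch.ResIndep k jb c ↔ ∀ P : Fin n → k[X], ∑ a, aeval jb (P a) * c a = 0 → ∀ a, P a = 0) ∧
    (H16.Ch.ResIndep k jb c → H16.Ch.ResIndep k (jb ^ N) (fun x : Fin (n * N) =>
      c (finProdFinEquiv.symm x).1 * jb ^ ((finProdFinEquiv.symm x).2 : ℕ))) :=
  ⟨Iff.rfl, fun hc => hc.pow N hN⟩

/-- **Integral elements which are independent.**  If `M` is an extension of degree `n` of `k(j)`,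
there are `n` elements of `M` which are integral over `k[j]` and independent over `k[j]`: multiply a
basis by denominators.  In `H16ResInd`. -/
theorem independent_integral {k L : Type*} [Field k] [Field L] [Algebra k L] {j : L}
    (hj : Transcendental k j) (M : IntermediateField k L) (hM : k⟮j⟯ ≤ M) {n : ℕ}
    (hn : IntermediateField.relfinrank k⟮j⟯ M = n) (hn0 : n ≠ 0) :
    ∃ c : Fin n → L, (∀ a, c a ∈ M ∧ IsIntegral (Algebra.adjoin k {j}) (c a)) ∧
      H16.Ch.ResIndep k j c :=
  H16.Ch.exists_resIndep hj M hM hn hn0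

/-- **The special fibre of `X₀(m)`.**  Over an algebraically closed field `k` whose characteristic
does not divide `m` there are `ψ(m)` functions on `X₀(m)`, integral over `k[j]` (`H18.Cm k m` is the
ring of these), and independent over `k[j]`.  In `H16ResInd`. -/
theorem independent_modular (k : Type*) [Field k] [IsAlgClosed k] (m : ℕ) (hm : (m : k) ≠ 0) :
    ∃ c : Fin (dedekindPsi m) → LaurentSeries k,
      (∀ a, c a ∈ H18.Cm k m) ∧ H16.Ch.ResIndep k (jqModC k) c :=
  H16.Ch.exists_resIndep_Cm k m hm

/-- **The count.**  `ψ(q² m) = (q² + q) ψ(m)` for a prime `q` which does not divide `m`, and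
`1 · ψ(m) + (q - 1) ψ(m) + 1 · q² ψ(m)` is the same number.  In `H16ResInd`. -/
theorem psi_count {m q : ℕ} (hq : q.Prime) (hm0 : m ≠ 0) (hqm : ¬ q ∣ m) :
    dedekindPsi (m * q * q) = dedekindPsi m * (q ^ 2 + q) :=
  H16.Ch.dedekindPsi_mul_mul hq hm0 hqm

/-! ## 5. Three components -/

/-- **What is used of the three-component system.**  `PreThree T S α β` collects the fields of
`H83.ThreeData` which describe the images of level `q m` under `α`, `β` and their residues
(`residues_alpha_beta`, `middle_uniformizer` of `GuideCarayolModel`); regularity on the chart and the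
norms do not occur, so that it applies to both charts, `j` and `1/j`, before it is known that the
chart ring is noetherian.  In `H16Three`. -/
theorem preThree_of_threeData {k E : Type*} [Field k] [Field E] [Algebra k E] {q : ℕ}
    {R : H83.ResData k E q} {F' F : Type*} [Field F'] [Field F] {T : H83.TwoData R F'}
    (D : H83.ThreeData T F) (S : H83.CompSys F E q (Fin 3)) (hV : S.V = D.V)
    (hρ : ∀ i x, S.res i x = D.res i x) (he : S.e = D.e) : H16.Ch.PreThree T S D.α D.β :=
  H16.Ch.PreThree.of_threeData D S hV hρ he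

/-- **`X^(q^n) ≠ X` in characteristic `q`**, for `n ≥ 1`: the derivative `d/dX` of `X^(q^n) - X` is
`-1`, because `q = 0` in `E`.  In `H16Three`. -/
theorem x_pow_ne {k E : Type*} [Field k] [Field E] [Algebra k E] {q : ℕ} {R : H83.ResData k E q}
    {F' : Type*} [Field F'] (T : H83.TwoData R F') :
    (q : E) = 0 ∧ 2 ≤ q ∧ ∀ n : ℕ, n ≠ 0 → R.X ^ (q ^ n) - R.X ≠ 0 :=
  ⟨H16.Ch.q_eq_zero T, H16.Ch.two_le_q T, H16.Ch.X_pow_ne T⟩

/-- **Residues of `X` and `W X`** (`W` the Atkin-Lehner involution of level `q m`): along the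
component `0` they are `X`, `X^q`, along the component `1` they are `X^q`, `X`.  In `H16Three`. -/
theorem residues_of_x {k E : Type*} [Field k] [Field E] [Algebra k E] {q : ℕ}
    {R : H83.ResData k E q} {F' : Type*} [Field F'] (T : H83.TwoData R F') :
    (T.res 0 T.X = R.X ∧ T.res 0 (T.W T.X) = R.X ^ q) ∧
      T.res 1 T.X = R.X ^ q ∧ T.res 1 (T.W T.X) = R.X :=
  ⟨⟨T.res_X, T.res_WX⟩, H16.Ch.res1_X T, H16.Ch.res1_WX T⟩

/-- **Separators.**  With `a = X(z)`, `b = X(q z)`, `c = X(q² z)` the three elements `c - a`,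
`c - b^q` and `a - b^q` have the residues `(X^(q²) - X, 0, X - X^(q²))`,
`(0, X - X^(q²), X - X^(q²))` and `(X - X^(q²), X - X^(q²), 0)` along the components `0, 1, 2`; so the
product of two of them has non zero residue along exactly one component.  (Here `b = α (W X)` and
`c = β (W X)`, and `R.φ R.X = R.X` holds because `X` has coefficients in the prime field.)  In
`H16Three`. -/
theorem separators {k E : Type*} [Field k] [Field E] [Algebra k E] {q : ℕ} {R : H83.ResData k E q}
    {F' F : Type*} [Field F'] [Field F] {T : H83.TwoData R F'} {S : H83.CompSys F E q (Fin 3)}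
    {α β : F' →+* F} (P : H16.Ch.PreThree T S α β) (hφ : R.φ R.X = R.X) (i : Fin 3) :
    ∃ s : F, (∀ i', s ∈ S.V i') ∧ S.res i s ≠ 0 ∧ ∀ i', i' ≠ i → S.res i' s = 0 :=
  P.sep hφ i

/-- **Uniformizers.**  At the components `0` and `2` (multiplicity one) it is `q`; at the middle
component it is `w = X(q² z) - X(z)`, and `w^(q-1)/q` is a unit because its residue, up to sign the
residue of `(1/q) dX(q z)/dX`, is not zero.  In `H16Three`. -/
theorem uniformizers {k E : Type*} [Field k] [Field E] [Algebra k E] {q : ℕ}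
    {R : H83.ResData k E q} {F' F : Type*} [Field F'] [Field F] {T : H83.TwoData R F'}
    {S : H83.CompSys F E q (Fin 3)} {α β : F' →+* F} (P : H16.Ch.PreThree T S α β)
    (hφ : R.φ R.X = R.X) (i : Fin 3) :
    ∃ w : F, w ≠ 0 ∧ (∀ i', w ∈ S.V i') ∧ w ^ S.e i / (q : F) ∈ S.V i ∧
      (q : F) / w ^ S.e i ∈ S.V i :=
  P.unif hφ i

/-- **The hypotheses for three components.**  `JData` says that `J' = j` at level `q m` has the
residues `jb` and `jb^q`, `jb ∈ R.C` transcendental and fixed by `φ`, and that constants have the right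
residues.  Then `α J' = j` has the residues `jb, jb, jb^(q²)`; and from `μ` elements of `R.C`
independent over `k[jb]` one gets `Enough` with `(μ, μ, μ q²)`: lift to level `q m` and apply `α`
(components `0`, `1`) or `β` (component `2`).  In `H16Three`. -/
theorem hypotheses_three {O k E : Type*} [CommRing O] [Field k] [Field E] [Algebra k E] {q : ℕ}
    {R : H83.ResData k E q} {F' F : Type*} [Field F'] [Field F] [Algebra O F]
    {T : H83.TwoData R F'} {S : H83.CompSys F E q (Fin 3)} {α β : F' →+* F} {red : O →+* k}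
    {J' : F'} {jb : E} (P : H16.Ch.PreThree T S α β) (hφ : R.φ R.X = R.X)
    (hJ : H16.Ch.JData T S α red J' jb) {μ : ℕ} {c : Fin μ → E} (hcC : ∀ a, c a ∈ R.C)
    (hc : H16.Ch.ResIndep k jb c) :
    H16.Ch.GaussRes S red (α J') ![jb, jb, jb ^ (q ^ 2)] ∧
      H16.Ch.Enough S k ![jb, jb, jb ^ (q ^ 2)] ![μ, μ, μ * q ^ 2] :=
  ⟨hJ.gaussRes P, P.enough hφ hJ.jb_mem hcC hc⟩

/-- **The chart ring at level `q² m`.**  `H36.chart O t` is the ring of the elements integral over
`O[t]`.  If the part of `S` regular in characteristic zero is the chart of `t = j` or `t = 1/j` over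
`K` and `[F : K(j)] = ψ(q² m)`, the chart ring of `S` is the chart of `t` over `O`, and noetherian.  In
`H16Three`, `H16ResInd`, `H16Gs`. -/
theorem chart_ring_three {O K k : Type*} [CommRing O] [IsDomain O] [IsDiscreteValuationRing O]
    [Field K] [Algebra O K] [IsFractionRing O K] [CharZero K] [Field k] [IsAlgClosed k] {q : ℕ}
    [Fact q.Prime] {R : H83.ResData k (LaurentSeries k) q} {F' F : Type*} [Field F'] [Field F]
    [Algebra K F] [Algebra O F] [IsScalarTower O K F] {T : H83.TwoData R F'}
    {S : H83.CompSys F (LaurentSeries k) q (Fin 3)} {α β : F' →+* F} {red : O →+* k} {J' : F'}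
    (P : H16.Ch.PreThree T S α β) (hφ : R.φ R.X = R.X)
    (hJ : H16.Ch.JData T S α red J' (jqModC k)) (hq : Prime (q : O)) {m : ℕ} (hm : (m : k) ≠ 0)
    (hqm : ¬ q ∣ m) (hC : R.C = H18.Cm k m)
    (hcard : Module.finrank K⟮α J'⟯ F = dedekindPsi (m * q * q)) (hJt : Transcendental K (α J'))
    (t : F) (ht : t = α J' ∨ t = (α J')⁻¹) (hhor : S.hor = H36.chart K t) :
    S.B = H36.chart O t ∧ IsNoetherianRing S.B :=
  P.isNoetherianRing_B_chart hφ hJ hq hm hqm hC hcard hJt t ht hhor

/-! ## 6. The modular instance -/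

/-- **The hypothesis `JData` holds** for the two-component system of `X₀(q m)` (`twoSys_spec` in
`GuideCarayolModel`), `J' = j` and `α` the inclusion of function fields; `jF K N` is `j` as an element
of the function field.  In `H16Inst`. -/
theorem residues_of_j {K k : Type*} [Field K] [Algebra ℚ K] [CharZero K] {m q : ℕ} [NeZero m]
    [NeZero q] [Fact q.Prime] {A : ValuationSubring K} [Field k] [IsAlgClosed k] [CharP k q]
    {π : A →+* k} {w : H99.AL K m q} {hϖ : H99.Unif A π (q : A)}
    {R : H83.ResData k (LaurentSeries k) q} {T : H83.TwoData R (H99.FX K (m * q))}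
    {S : H83.CompSys (H99.FX K (m * q * q)) (LaurentSeries k) q (Fin 3)}
    (hT : T.toCompSys = H68.twoSys w hϖ) (hC : ∀ x, x ∈ R.C ↔ x ∈ H18.Cm k m)
    (hφ : ∀ x, R.φ x = coeffMap (frobenius k q) x) (hS : S.Consts A π) :
    H16.Ch.JData T S (heckeAlphaBar K (m * q) q : H99.FX K (m * q) →+* H99.FX K (m * q * q)) π
        (H68.jF K (m * q)) (jqModC k) ∧
      (heckeAlphaBar K (m * q) q : H99.FX K (m * q) →+* H99.FX K (m * q * q))
        (H68.jF K (m * q)) = H68.jF K (m * q * q) :=
  ⟨H16.Ch.jData hT hC hφ hS, H16.Ch.alpha_jF⟩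

/-- **`j` and `X` in characteristic `q`** are fixed by the Frobenius `φ` of the coefficients; in
characteristic zero `j` is transcendental over `K`; and a uniformizer of `A` is a prime element (it is
used for `q`).  In `H16Inst`. -/
theorem fixed_and_transcendental {K k : Type*} [Field K] [Field k] {q : ℕ} [Fact q.Prime]
    [CharP k q] [IsAlgClosed k] {R : H83.ResData k (LaurentSeries k) q} {c : ℕ}
    (hφ : ∀ x, R.φ x = coeffMap (frobenius k q) x) (hX : R.X = H1.Xc c k) [Algebra ℚ K] (N : ℕ)
    [NeZero N] {A : ValuationSubring K} {π : A →+* k} {ϖ : A} (hϖ : H99.Unif A π ϖ) :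
    R.φ (jqModC k) = jqModC k ∧ R.φ R.X = R.X ∧ Transcendental K (H68.jF K N) ∧ Prime ϖ :=
  ⟨H16.Ch.φ_jq hφ, H16.Ch.φ_X hφ hX, H16.Ch.transcendental_jF K N, H16.Ch.prime_of_unif hϖ⟩

/-- **The chart rings of `X₀(q² m)`**, for `t = j` and for `t = 1/j`.  The degree `ψ(q² m)` comes from
`functionField_degree` of `GuideCarayolModel`.  In `H16Inst`. -/
theorem chart_rings_modular {K k : Type*} [Field K] [Algebra ℚ K] [CharZero K] {m q : ℕ} [NeZero m]
    [NeZero q] [Fact q.Prime] {A : ValuationSubring K} [Field k] [IsAlgClosed k] [CharP k q]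
    {π : A →+* k} {w : H99.AL K m q} {hϖ : H99.Unif A π (q : A)}
    {R : H83.ResData k (LaurentSeries k) q} {T : H83.TwoData R (H99.FX K (m * q))}
    {S : H83.CompSys (H99.FX K (m * q * q)) (LaurentSeries k) q (Fin 3)}
    {α β : H99.FX K (m * q) →+* H99.FX K (m * q * q)} [IsDiscreteValuationRing A] (hqm : ¬ q ∣ m)
    (hT : T.toCompSys = H68.twoSys w hϖ) (hC : ∀ x, x ∈ R.C ↔ x ∈ H18.Cm k m)
    (hφ : ∀ x, R.φ x = coeffMap (frobenius k q) x) (hφX : R.φ R.X = R.X) (hS : S.Consts A π)
    (hα : α = (heckeAlphaBar K (m * q) q : H99.FX K (m * q) →+* H99.FX K (m * q * q)))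
    (P : H16.Ch.PreThree T S α β) (t : H99.FX K (m * q * q))
    (ht : t = H68.jF K (m * q * q) ∨ t = (H68.jF K (m * q * q))⁻¹)
    (hhor : S.hor = H36.chart K t) : S.B = H36.chart A t ∧ IsNoetherianRing S.B :=
  H16.Ch.B_eq_inst hqm hT hC hφ hφX hS hα P t ht hhor

/-! ## 7. The extension `K_I(ζ)` of the inertia field

`A` is a valuation ring of the algebraic closure of `ℚ` above the prime `q`, `K_I = H36.KI A` the fixed
field of its inertia group, `H36.OI A` the valuation ring of `K_I` and `H36.piI A π` the restriction to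
it of the residue map `π`, `ζ` a primitive `q`-th root of unity and `H16.Ram.KR A ζ = K_I(ζ)`. -/

/-- **The inertia group preserves the valuation.**  (It preserves `A`, and every element of the
algebraic closure of `ℚ` has a finite orbit under `σ`, so `|σ x|` cannot be smaller or larger than
`|x|`.)  In `H16Ram`. -/
theorem inertia_preserves_valuation {A : ValuationSubring (AlgebraicClosure ℚ)}
    {σ : AlgebraicClosure ℚ ≃ₐ[ℚ] AlgebraicClosure ℚ} (hσ : σ ∈ A.inertiaSubgroupIn ℚ)
    (x : AlgebraicClosure ℚ) : A.valuation (σ x) = A.valuation x ∧ (σ x ∈ A ↔ x ∈ A) :=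
  ⟨H16.Ram.val_inertia hσ x, H16.Ram.inertia_mem_iff hσ x⟩

/-- **The value of `ζ - 1`**: `|q| = |ζ - 1|^(q-1)`, and `q`-th roots of unity have residue `1`.  From
`one_sub_zeta_pow` of `GuideCarayolModel`.  In `H16Ram`. -/
theorem value_of_zeta_sub_one {A : ValuationSubring (AlgebraicClosure ℚ)} {k : Type*} [Field k]
    (π : A →+* k) [IsLocalHom π] {q : ℕ} [Fact q.Prime] (hA : A.LiesOverPrime q) :
    (∀ ζ : AlgebraicClosure ℚ, IsPrimitiveRoot ζ q →
      A.valuation (q : AlgebraicClosure ℚ) = A.valuation (ζ - 1) ^ (q - 1)) ∧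
    ∀ z : A, z ^ q = 1 → π z = 1 :=
  ⟨fun _ hζ => H16.Ram.val_q π hA hζ, fun _ hz => H16.Ram.pi_root π hA hz⟩

/-- **The cyclotomic character modulo `q` is surjective on inertia** at `q`.  In `H16Ram`. -/
theorem cyclotomic_on_inertia {A : ValuationSubring (AlgebraicClosure ℚ)} {q : ℕ} [Fact q.Prime]
    (hA : A.LiesOverPrime q) (u : (ZMod q)ˣ) :
    ∃ σ ∈ A.inertiaSubgroupIn ℚ, ExtCitation.cycloChar q σ = u :=
  H16.Ram.exists_inertia_cycloChar hA u

/-- **Elements of inertia and `K_I(ζ)`.**  If `σ` is in the inertia group and fixes `ζ`, it fixes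
`K_I(ζ)`; if `σ ζ ∈ K_I(ζ)`, it maps `K_I(ζ)` to itself.  In `H16Ram`. -/
theorem inertia_on_extension {A : ValuationSubring (AlgebraicClosure ℚ)} {ζ c : AlgebraicClosure ℚ}
    (hc : c ∈ H16.Ram.KR A ζ) {σ : AlgebraicClosure ℚ ≃ₐ[ℚ] AlgebraicClosure ℚ}
    (hσ : σ ∈ A.inertiaSubgroupIn ℚ) :
    (σ ζ = ζ → σ c = c) ∧ (σ ζ ∈ H16.Ram.KR A ζ → σ c ∈ H16.Ram.KR A ζ) :=
  ⟨H16.Ram.fix_KR hc hσ, H16.Ram.apply_mem_KR hc hσ⟩

/-- **The valuation of `K_I(ζ)` is discrete** with uniformizer `ζ - 1`: every `c ≠ 0` has the value of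
a power of `ζ - 1`.  Proof: the product of `σ_u c` over elements `σ_u` of inertia with cyclotomic
character `u ∈ (ℤ/q)ˣ` is in `K_I`, so it has the value of `q^n`; it also has the value of `c^(q-1)`;
and `|q| = |ζ - 1|^(q-1)`.  In `H16Ram`. -/
theorem discrete_valuation {A : ValuationSubring (AlgebraicClosure ℚ)} {k : Type*} [Field k]
    (π : A →+* k) [IsLocalHom π] {q : ℕ} [Fact q.Prime] (hA : A.LiesOverPrime q)
    {ζ : AlgebraicClosure ℚ} (hζ : IsPrimitiveRoot ζ q) {c : AlgebraicClosure ℚ}
    (hc : c ∈ H16.Ram.KR A ζ) (hc0 : c ≠ 0) :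
    ∃ n : ℤ, A.valuation c = A.valuation (ζ - 1) ^ n :=
  H16.Ram.exists_val_eq π hA hζ hc hc0

/-- **A criterion for uniformizers.**  Let `f` be an embedding of the field `F` in the algebraic
closure of `ℚ`, `O` the valuation ring of `F` induced by `A` and `π'` the residue map.  If `ϖ ≠ 0` has
residue `0` and all non zero elements of `F` have the value of a power of `ϖ`, then `ϖ` is a
uniformizer of `O` (`H99.Unif`, see `unif_iff` in `GuideCarayolModel`).  In `H16Ram`. -/
theorem uniformizer_criterion {A : ValuationSubring (AlgebraicClosure ℚ)} {k : Type*} [Field k]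
    (π : A →+* k) [IsLocalHom π] {F : Type*} [Field F] (f : F →+* AlgebraicClosure ℚ)
    (O : ValuationSubring F) (hO : ∀ x, x ∈ O ↔ f x ∈ A) (ϖ : O) (π' : O →+* k)
    (hπ' : ∀ o : O, π' o = π ⟨f o, (hO o).1 o.2⟩) (h0 : ϖ ≠ 0) (hϖ : π' ϖ = 0)
    (hdisc : ∀ c : F, c ≠ 0 → ∃ n : ℤ, A.valuation (f c) = A.valuation (f ϖ) ^ n) :
    H99.Unif O π' ϖ :=
  H16.Ram.unif_of π f O hO ϖ π' hπ' h0 hϖ hdisc

/-- **`q` is a uniformizer of the inertia field** `K_I`.  In `H16Ram`. -/
theorem uniformizer_inertia_field {A : ValuationSubring (AlgebraicClosure ℚ)} {k : Type*} [Field k]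
    (π : A →+* k) [IsLocalHom π] {q : ℕ} [Fact q.Prime] (hA : A.LiesOverPrime q) :
    H99.Unif (H36.OI A) (H36.piI A π) (q : H36.OI A) :=
  H16.Ram.unif_OI π hA

/-- **The extension of the inertia field.**  `K_I(ζ)` with the valuation ring `H16.Ram.OR A ζ` induced
by `A` and the residue map `H16.Ram.piR A π ζ` has all the properties `H99.RamData` needed for the
middle component (`ramData_spec` in `GuideCarayolModel`), with root of unity `ζ`, and the property
`Gal`: for `i` prime to `q` an element of the inertia group gives an endomorphism of `K_I(ζ)` over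
`K_I` which maps `ζ` to `ζ^i`, preserves the valuation ring and acts trivially on the residue field.
In `H16Ram`. -/
theorem exists_ramData {A : ValuationSubring (AlgebraicClosure ℚ)} {k : Type*} [Field k]
    (π : A →+* k) [IsLocalHom π] {q : ℕ} [Fact q.Prime] (hA : A.LiesOverPrime q)
    {ζ : AlgebraicClosure ℚ} (hζ : IsPrimitiveRoot ζ q) :
    (∀ x : H16.Ram.KR A ζ, x ∈ H16.Ram.OR A ζ ↔ (x : AlgebraicClosure ℚ) ∈ A) ∧
      ∃ D : H99.RamData (H36.OI A) (H36.piI A π) (H16.Ram.OR A ζ) (H16.Ram.piR A π ζ) q,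
        (((D.ζ : (H16.Ram.KR A ζ)ˣ) : H16.Ram.KR A ζ) : AlgebraicClosure ℚ) = ζ ∧ D.Gal :=
  ⟨fun _ => H16.Ram.mem_OR, H16.Ram.ramData π hA hζ, rfl, H16.Ram.ramData_gal π hA hζ⟩

/-- **Roots of unity.**  `K_I(ζ)` contains the roots of unity of all prime orders (those of order
`≠ q` are in `K_I`), as needed for the embeddings of the function field (`exists_middleEmbedding` in
`GuideCarayolModel`).  In `H16Ram`. -/
theorem roots_of_unity {A : ValuationSubring (AlgebraicClosure ℚ)} {q : ℕ} [Fact q.Prime]
    (hA : A.LiesOverPrime q) {ζ : AlgebraicClosure ℚ} (hζ : IsPrimitiveRoot ζ q) :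
    (H66.HasRoots (H16.Ram.KR A ζ) ↔ ∀ p : ℕ, p.Prime → (p : H16.Ram.KR A ζ) ≠ 0 →
      ∃ u : (H16.Ram.KR A ζ)ˣ, IsPrimitiveRoot u p) ∧ H66.HasRoots (H16.Ram.KR A ζ) :=
  ⟨Iff.rfl, H16.Ram.hasRoots_KR hA hζ⟩

end Fermat.Agent.Guide.Charts
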