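import Fermat.Agent.H85Cheb

/-!
# Guide: from bounded zeta functions to Chebotarev's density theorem

Companion of `GuideDeligneSerre`, section 4 (`twisted_zeta_bounded`, `density_notions`, `chebotarev`), and of
`GuideDensity`. Every theorem is a citation of a theorem of the library with its statement written out.

**The theorem.** Let `L` be a finite Galois extension of `ℚ` with group `G`. For every `g ∈ G` the primes
whose Frobenius elements are conjugate to `g` or to `g⁻¹` have the density which is expected. This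
*symmetric form* is all that is needed for the theorem of Deligne and Serre, since the functions which occur
there (absolute values of traces, for example) have the same value at `g` and `g⁻¹`. Density means
*logarithmic density*: `c : primes → ℝ` has density `δ` (`H99.HasLogDensity c δ`) if the series
`∑ c(p) p^(-s)` (`H99.dsum c s`) converges for `s > 1` and `(∑ c(p) p^(-s)) / log (1 / (s - 1))` tends to `δ`
as `s → 1+`.

**The proof** follows Chebotarev, without class field theory. No value or non-vanishing of an `L`-function at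
`s = 1` is used: only that zeta functions twisted by a character of the norm are *bounded* for `1 < s ≤ 2`
(`DeligneSerre.twisted_zeta_bounded`). This bounds the real part of the corresponding sum over primes from
*above*, which is the reason for the symmetric form; lower bounds come from exact densities of sums
(`squeeze`). The characters are squares `χ²` of Dirichlet characters, because the sums over ideals are turned
into sums over elements, whose norm is that of the ideal up to sign: the character has to be even.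
1. *Characters of norms* (completes the proof of `twisted_zeta_bounded`): if an even character `ψ` is trivial
   on the norms of elements, `ψ ∘ N` is a character of the class group, up to finitely many Euler factors.
2. *Euler products*: a bounded series over the ideals gives an upper bound for the sum over the primes of
   degree one, that is, for `∑_p a_K(p) Re χ(p)² p^(-s)`, `a_K(p)` the number of ideals of norm `p`.
3. *Densities*: upper densities and the squeezing argument.
4. *Elements on which the square of the cyclotomic character is injective* (`cyclic_case`): the abstract form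
   of the abelian case, applied to the fixed fields of subgroups.
5. *The crossing argument* in `L(ζ_q)`, `q` a prime `≡ 1` modulo a high power of the order of `g`.
6. *Number fields and finite level representations.*

Files `H85NCB`, `H85Euler`, `H85Twist`, `H85LogDens`, `H85Cheb1` to `H85Cheb5`, `H85ChebGal` (helper85), on
top of `H99PrimeSum`, `H99Combo` (helper99), `H76*` (helper76), `H82FrobDensity` (helper82). Closures: S47,
S48 (the other statements use the weaker theorem of Frobenius, `H86.frobDensityFinite`).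
Notes [185]; [218] and the end of [104] (the input on zeta functions). Written by helper85.
-/

set_option autoImplicit false

noncomputable section

open NumberField IsDedekindDomain Filter Topology
open scoped nonZeroDivisors
open Fermat.Agent.H99 (dsum HasLogDensity)

namespace Fermat.Agent.Guide.Chebotarev

/-! ## 1. Characters of norms -/

section

variable {K : Type} [Field K] [NumberField K]

/-- **Every ideal class contains an ideal of norm prime to `m`.** (`H85NCB`.) -/
theorem coprime_representative (m : ℕ) (hm : m ≠ 0) (C : ClassGroup (𝓞 K)) :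
    ∃ I : (Ideal (𝓞 K))⁰, ClassGroup.mk0 I = C ∧
      (Ideal.absNorm (I : Ideal (𝓞 K))).Coprime m :=
  H85.exists_coprime_rep m hm C

/-- **The character of the class group.** Let `ψ` be an even Dirichlet character modulo `m` which takes only
the values `0` and `1` on the norms of elements of `𝓞 K`. Then there is a character `κ` of the class group
with `κ(I) = ψ(N I)` for all ideals `I` of norm prime to `m`. (`H85NCB`.) -/
theorem class_group_character {m : ℕ} (hm : m ≠ 0) (ψ : DirichletCharacter ℂ m) (hev : ψ (-1) = 1)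
    (h01 : ∀ a : 𝓞 K, ψ ((Algebra.norm ℤ a : ℤ) : ZMod m) ≠ 0 →
      ψ ((Algebra.norm ℤ a : ℤ) : ZMod m) = 1) :
    ∃ κ : ClassGroup (𝓞 K) →* ℂˣ, ∀ I : (Ideal (𝓞 K))⁰,
      (Ideal.absNorm (I : Ideal (𝓞 K))).Coprime m →
      (κ (ClassGroup.mk0 I) : ℂ) = ψ ((Ideal.absNorm (I : Ideal (𝓞 K)) : ℕ) : ZMod m) :=
  H85.exists_kappa hm ψ hev h01

open scoped Classical in
/-- **Removal of Euler factors.** For a non-trivial character `κ` of the class group and a finite set `S` of
prime ideals the series `∑ κ(I) N(I)^(-s)` over the ideals which are not divisible by a prime of `S` is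
bounded for `1 < s ≤ 2`. Proof: for `S = ∅` this is `H76.classLSeries_bounded` (see `GuideDensity`);
adding a prime `P` multiplies the series by `1 - κ(P) N(P)^(-s)`, of absolute value at most `2`.
(`H85NCB`.) -/
theorem bounded_without_factors (κ : ClassGroup (𝓞 K) →* ℂˣ) (hκ : κ ≠ 1)
    (S : Finset (Ideal (𝓞 K))) (hS : ∀ P ∈ S, Prime P) : ∃ C : ℝ, ∀ s : ℝ, 1 < s → s ≤ 2 →
      ‖∑' I : (Ideal (𝓞 K))⁰, (if ∀ P ∈ S, ¬ P ∣ (I : Ideal (𝓞 K)) then
        (κ (ClassGroup.mk0 I) : ℂ) * (((Ideal.absNorm (I : Ideal (𝓞 K)) : ℝ) ^ (-s) : ℝ) : ℂ)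
          else 0)‖ ≤ C := by
  obtain ⟨C, hC⟩ := H85.bounded_free κ hκ S hS
  refine ⟨C, fun s h1 h2 => le_of_eq_of_le (congrArg _ (tsum_congr fun I => ?_)) (hC s h1 h2)⟩
  rw [H85.gterm, H85.FreeOf]
  congr

end

/-! ## 2. Euler products and sums over primes

`w` is a completely multiplicative function on the ideals of `𝓞 K` with `w(0) = 0`, `∑ ‖w(I)‖ < ∞` and
`‖w(P)‖ < 1` for all primes `P`; `H99.SuppIn K F` is the set of non-zero ideals all of whose prime factors
are in the finite set `F`. -/

section

variable {K : Type*} [Field K] [NumberField K]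

/-- **Finite Euler products.** The sum of `w(I)` over the ideals composed of the primes of `F` is the product
of the `(1 - w(P))⁻¹`, `P ∈ F`. (`H85Euler`; for real weights in `H99PrimeSum`.) -/
theorem finite_euler_product (w : Ideal (𝓞 K) → ℂ) (h1 : w 1 = 1)
    (hmul : ∀ I J, w (I * J) = w I * w J) (hsum : Summable fun I => ‖w I‖)
    (hlt : ∀ P : HeightOneSpectrum (𝓞 K), ‖w P.asIdeal‖ < 1)
    (F : Finset (HeightOneSpectrum (𝓞 K))) :
    ∑' I : H99.SuppIn K F, w (I : Ideal (𝓞 K)) = ∏ P ∈ F, (1 - w P.asIdeal)⁻¹ :=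
  H85.tsum_suppIn_complex w h1 hmul hsum hlt F

/-- **They converge to the whole series.** (`H85Euler`.) -/
theorem euler_product_limit (w : Ideal (𝓞 K) → ℂ) (h0 : w ⊥ = 0) (hsum : Summable fun I => ‖w I‖) :
    Tendsto (fun F : Finset (HeightOneSpectrum (𝓞 K)) =>
        ∑' I : H99.SuppIn K F, w (I : Ideal (𝓞 K)))
      atTop (𝓝 (∑' I, w I)) :=
  H85.tendsto_suppIn w h0 hsum

/-- **An upper bound for the sum over the primes.** If `‖∑ w(I)‖ ≤ C` and `∑ ‖w(P)‖² / 2 ≤ B`, then
`∑_P Re w(P) ≤ log C + B`. Proof: `‖1 - z‖ ≤ exp (-Re z + ‖z‖² / 2)` in the Euler product. A lower bound for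
the series would be needed for a lower bound; it is never used. (`H85Euler`.) -/
theorem prime_sum_le (w : Ideal (𝓞 K) → ℂ) (h0 : w ⊥ = 0) (h1 : w 1 = 1)
    (hmul : ∀ I J, w (I * J) = w I * w J) (hsum : Summable fun I => ‖w I‖)
    (hlt : ∀ P : HeightOneSpectrum (𝓞 K), ‖w P.asIdeal‖ < 1)
    (C : ℝ) (hC : ‖∑' I, w I‖ ≤ C) (B : ℝ)
    (hB : ∑' P : HeightOneSpectrum (𝓞 K), ‖w P.asIdeal‖ ^ 2 / 2 ≤ B) :
    ∑' P : HeightOneSpectrum (𝓞 K), (w P.asIdeal).re ≤ Real.log C + B :=
  H85.sum_re_le w h0 h1 hmul hsum hlt C hC B hB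

end

/-- **Prime sums twisted by `χ²`** (`H85.TwistBound`). Let `K` be a number field, `χ` a Dirichlet character
and suppose that `χ(N I)² ≠ 0, 1` for some ideal `I`. Then `∑_p a_K(p) Re χ(p)² p^(-s)`, `a_K(p)` the number
of ideals of norm `p`, is bounded from above for `1 < s ≤ 2`. Proof: `prime_sum_le` with
`w(I) = χ(N I)² N(I)^(-s)` and `DeligneSerre.twisted_zeta_bounded` for the even character `χ²`; the primes
of degree `≥ 2` contribute a bounded amount. (`H85Twist`, `H85NCB`.) -/
theorem twisted_prime_sums (K : Type) [Field K] [NumberField K] (m : ℕ) [NeZero m]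
    (χ : DirichletCharacter ℂ m)
    (h : ∃ I : Ideal (𝓞 K), (χ ((Ideal.absNorm I : ℕ) : ZMod m)) ^ 2 ≠ 1 ∧
      χ ((Ideal.absNorm I : ℕ) : ZMod m) ≠ 0) :
    ∃ C : ℝ, ∀ s : ℝ, 1 < s → s ≤ 2 →
      ∑' p : Nat.Primes, (Nat.card {I : Ideal (𝓞 K) // Ideal.absNorm I = (p : ℕ)} : ℝ) *
        ((χ ((p : ℕ) : ZMod m)) ^ 2).re * ((p : ℕ) : ℝ) ^ (-s) ≤ C :=
  H85.twistBound_of H85.normCharBound K m χ h

/-! ## 3. Densities

`H85.ULD c δ`: the upper logarithmic density of `c` is at most `δ` (`DeligneSerre.density_notions`). -/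

/-- **Upper densities and densities.** A density is an upper density; and `c` has the density `δ` if `c` and
`-c` have upper densities at most `δ` and `-δ`. (`H85LogDens`.) -/
theorem upper_density {c : Nat.Primes → ℝ} {δ : ℝ} :
    (HasLogDensity c δ → H85.ULD c δ) ∧
      (H85.ULD c δ → H85.ULD (fun p => -c p) (-δ) → HasLogDensity c δ) :=
  ⟨H85.uld_of_hasLogDensity, H85.hasLogDensity_of_uld⟩

/-- **Rules for upper densities**: sums, comparison, and changes at finitely many primes. (`H85LogDens`.) -/
theorem upper_density_rules {c d : Nat.Primes → ℝ} {δ ε : ℝ} (hc : H85.ULD c δ)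
    (hd : H85.ULD d ε) :
    H85.ULD (fun p => c p + d p) (δ + ε) ∧
    (∀ S : Finset ℕ, ∀ e : Nat.Primes → ℝ, (∀ p : Nat.Primes, (p : ℕ) ∉ S → e p = c p) →
      H85.ULD e δ) ∧
    ((∀ p, c p ≤ d p) → H85.ULD c ε) :=
  ⟨hc.add hd, fun S _ h => hc.congr_off S h, fun h => hd.mono h hc.1⟩

/-- **Squeezing.** If the functions `c_i` of a finite family have upper densities at most `δ_i` and their sum
has the exact density `∑ δ_i`, then every `c_i` has the exact density `δ_i`. (`H85LogDens`.) -/
theorem squeeze {ι : Type*} (t : Finset ι) {c : ι → Nat.Primes → ℝ} {δ : ι → ℝ}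
    (h : ∀ i ∈ t, H85.ULD (c i) (δ i))
    (hsum : HasLogDensity (fun p => ∑ i ∈ t, c i p) (∑ i ∈ t, δ i)) :
    ∀ i ∈ t, HasLogDensity (c i) (δ i) :=
  H85.squeeze_sum t h hsum

/-! ## 4. The case of a cyclic group and the cyclotomic character

`W` is a finite group (a Galois group over `ℚ`), `c : W → (ℤ/m)ˣ` a homomorphism (the cyclotomic character),
`F p ∈ W` Frobenius elements and `a H p` the number of ideals of norm `p` in the fixed field of the subgroup
`H`. -/

/-- **The arithmetic data** (`H85.ArithData`, a structure): a fixed field has on average one ideal of norm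
`p` (`dens`); for good `p` one has `#{y | y⁻¹ F_p y ∈ H} = #H · a(H, p)` (`count`) and `c(F_p) = p` (`cyc`);
and the bound of `twisted_prime_sums` (`tw`). (`H85Cheb2`.) -/
theorem arithData_iff (W : Type) [Group W] [Finite W] (m : ℕ) [NeZero m] (c : W →* (ZMod m)ˣ)
    (a : Subgroup W → Nat.Primes → ℕ) (bad : Finset ℕ) (F : Nat.Primes → W) :
    H85.ArithData W m c a bad F ↔
      (∀ H, HasLogDensity (fun p => (a H p : ℝ)) 1) ∧
      (∀ p : Nat.Primes, (p : ℕ) ∉ bad → ∀ H : Subgroup W,
        Nat.card {y : W // y⁻¹ * F p * y ∈ H} = Nat.card H * a H p) ∧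
      (∀ p : Nat.Primes, (p : ℕ) ∉ bad →
        ((c (F p) : (ZMod m)ˣ) : ZMod m) = ((p : ℕ) : ZMod m)) ∧
      ∀ (H : Subgroup W) (χ : DirichletCharacter ℂ m),
        (∃ p : Nat.Primes, a H p ≠ 0 ∧ (χ ((p : ℕ) : ZMod m)) ^ 2 ≠ 1 ∧
          χ ((p : ℕ) : ZMod m) ≠ 0) →
        ∃ C : ℝ, ∀ s : ℝ, 1 < s → s ≤ 2 →
          dsum (fun p => (a H p : ℝ) * ((χ ((p : ℕ) : ZMod m)) ^ 2).re) s ≤ C :=
  ⟨fun h => ⟨h.dens, h.count, h.cyc, h.tw⟩, fun h => ⟨h.1, h.2.1, h.2.2.1, h.2.2.2⟩⟩

/-- **Orthogonality, and counting of characters.** The sum of `Re χ(u)` over the Dirichlet characters modulo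
`m` is `φ(m)` for `u = 1` and `0` for the other units; the number of characters which are trivial on the unit
`u`, multiplied by the order of `u`, is `φ(m)`. (`H85Cheb1`.) -/
theorem characters {m : ℕ} [NeZero m] (u : (ZMod m)ˣ) :
    ∑ χ : DirichletCharacter ℂ m, (χ (u : ZMod m)).re = (if u = 1 then (m.totient : ℝ) else 0) ∧
    ((Finset.univ.filter (fun χ : DirichletCharacter ℂ m => χ (u : ZMod m) = 1)).card : ℝ) *
      orderOf u = m.totient :=
  ⟨H85.sum_re_char u, H85.card_chars_trivial u⟩

/-- **The cyclic case.** Let `N₀` be a normal subgroup on which `c²` is trivial, and let `τ ∈ W` be such that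
`c(τ)^(2j) = 1` implies `τ^j ∈ N₀`: `c²` is injective on the image of `⟨τ⟩` in `W/N₀`. Then the number of the
`y ∈ W` with `y⁻¹ F_p y ∈ τ N₀`, plus the number of those with `y⁻¹ F_p y ∈ τ⁻¹ N₀`, has the density
`2 #N₀`. Proof: let `H = ⟨τ⟩ N₀`. For every Dirichlet character `χ` the function `a(H, p) Re χ(p)²` has upper
density at most `1` or `0`, as `χ(c(τ)²) = 1` or not (in the second case there is a Frobenius element which
generates a conjugate of `⟨τ⟩`, by `H99.exists_conj_generator`, and `tw` applies). The sum over all `χ` is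
`φ(m) a(H, p)` if `c(F_p)² = 1` and `0` otherwise; this is `φ(m) a(N₀, p) #N₀ / #H`, because a conjugate of
`F_p` in `H` with `c(F_p)² = 1` is in `N₀`: so the sum has an exact density, namely `φ(m) #N₀ / #H`, the
number of the `χ` with `χ(c(τ)²) = 1` (`characters`). By `squeeze` all densities are exact, and the
orthogonality of the characters gives the claim. (`H85Cheb1`.) -/
theorem cyclic_case {W : Type} [Group W] [Finite W] (m : ℕ) [NeZero m] (c : W →* (ZMod m)ˣ)
    (N0 : Subgroup W) [N0.Normal] (hN0 : ∀ w ∈ N0, (c w) ^ 2 = 1) (τ : W)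
    (hτ : ∀ j : ℤ, (c τ ^ 2) ^ j = 1 → τ ^ j ∈ N0) (a : Subgroup W → Nat.Primes → ℕ)
    (bad : Finset ℕ) (F : Nat.Primes → W) (hD : H85.ArithData W m c a bad F) :
    HasLogDensity (fun p => (Nat.card {y : W // τ⁻¹ * (y⁻¹ * F p * y) ∈ N0} : ℝ) +
      (Nat.card {y : W // τ * (y⁻¹ * F p * y) ∈ N0} : ℝ)) (2 * Nat.card N0) :=
  H85.cheb1 m c N0 hN0 τ hτ a hD.dens bad F hD.count hD.cyc hD.tw

/-! ## 5. The crossing argument

`L/ℚ` is a finite Galois extension with group `G`, `H85.TT L q = L(ζ_q)` for a prime `q`, `W` its group over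
`ℚ`, `H85.resL L q : W → G` the restriction and `H85.cyc L q : W → (ℤ/q)ˣ` the cyclotomic character.
`H85.bfun g x` is the number of the `z ∈ G` with `z⁻¹ x z = g`, plus the number of those with
`z⁻¹ x z = g⁻¹`; as a function of `x` it is supported on the conjugacy classes of `g` and `g⁻¹`. -/

/-- **The Galois group of the compositum**: if `q` does not divide the discriminant of `L`, then `W` is
`G × (ℤ/q)ˣ` (the discriminants of `L` and `ℚ(ζ_q)` are coprime); in particular for every condition `P` the
lifts `τ` of `g` with `P(c(τ))` are counted by the units with `P`. (`H85Cheb4`.) -/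
theorem group_of_compositum (L : Type) [Field L] [NumberField L] [IsGalois ℚ L] (q : ℕ)
    [Fact q.Prime] (hdisc : ¬ (q : ℤ) ∣ discr L) :
    Function.Bijective (fun σ : H85.TT L q ≃ₐ[ℚ] H85.TT L q => (H85.resL L q σ, H85.cyc L q σ)) ∧
    (∀ (g : L ≃ₐ[ℚ] L) (P : (ZMod q)ˣ → Prop),
      Nat.card {τ : H85.TT L q ≃ₐ[ℚ] H85.TT L q // H85.resL L q τ = g ∧ P (H85.cyc L q τ)} =
        Nat.card {u : (ZMod q)ˣ // P u}) ∧
    Nat.card (H85.resL L q).ker = q - 1 :=
  ⟨H85.prod_bijective L q hdisc, fun g P => H85.card_lifts L q hdisc g P, H85.card_ker L q hdisc⟩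

/-- **Most units are useful.** If `q ≡ 1` modulo `n^r`, the number of units `u` modulo `q` such that `n`
divides the order of `u²` is at least `(1 - 4n / 2^r) (q - 1)`. (`H85Cheb3`.) -/
theorem many_units (q n r : ℕ) [Fact q.Prime] (hn : n ≠ 0) (hr : 1 ≤ r) (hq : n ^ r ∣ q - 1) :
    (1 - (4 * n : ℝ) / 2 ^ r) * (q - 1 : ℕ) ≤
      Nat.card {u : (ZMod q)ˣ // n ∣ orderOf (u ^ 2)} :=
  H85.card_good_units q n r hn hr hq

/-- **Frobenius elements** (`H85.IsFrobElt L p F`): `F x ≡ x^p` modulo a prime ideal of `𝓞 L` above `p`.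
Those of `L(ζ_q)` restrict to those of `L`. (`H85Cheb5`.) -/
theorem frobenius_restricts (L : Type) [Field L] [NumberField L] [IsGalois ℚ L] (q : ℕ)
    [Fact q.Prime] (p : ℕ) (F : H85.TT L q ≃ₐ[ℚ] H85.TT L q) :
    (H85.IsFrobElt (H85.TT L q) p F ↔ ∃ P : Ideal (𝓞 (H85.TT L q)), P.IsPrime ∧
      ((p : ℕ) : 𝓞 (H85.TT L q)) ∈ P ∧ ∀ x : 𝓞 (H85.TT L q), F • x - x ^ p ∈ P) ∧
    (H85.IsFrobElt (H85.TT L q) p F → H85.IsFrobElt L p (H85.resL L q F)) :=
  ⟨Iff.rfl, H85.isFrobElt_resL L q p F⟩

/-- **At an unramified prime Frobenius elements are conjugate.** Unramified is used in the form `hfree`: no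
`h ≠ 1` fixes a homomorphism from `𝓞 L` to a field of characteristic `p`; this holds for almost all `p`
(`Density.inertia_trivial`). (`H85Cheb5`.) -/
theorem frobenius_conjugate (L : Type) [Field L] [NumberField L] [IsGalois ℚ L] (p : ℕ)
    (hp : p.Prime)
    (hfree : ∀ (Ω : Type) [Field Ω] [CharP Ω p] (ψ : 𝓞 L →+* Ω)
      (h : L ≃ₐ[ℚ] L), (∀ b : 𝓞 L, ψ (h • b) = ψ b) → h = 1)
    (F F' : L ≃ₐ[ℚ] L) (hF : H85.IsFrobElt L p F) (hF' : H85.IsFrobElt L p F') : IsConj F F' :=
  H85.isConj_of_isFrobElt L p hp hfree F F' hF hF'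

/-- **The arithmetic data of `L(ζ_q)`**: they exist, with Frobenius elements `F p`. Density one for the fixed
fields comes from the pole of their zeta functions (`H99PrimeSum`, `Density.degree_one`), the counting
formula is `Density.frobenius_data` (`H82FrobDensity`), and `tw` is `twisted_prime_sums`. (`H85Cheb5`.) -/
theorem exists_arithmetic_data (L : Type) [Field L] [NumberField L] [IsGalois ℚ L] (q : ℕ)
    [Fact q.Prime] :
    ∃ (a : Subgroup (H85.TT L q ≃ₐ[ℚ] H85.TT L q) → Nat.Primes → ℕ) (bad : Finset ℕ)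
      (F : Nat.Primes → (H85.TT L q ≃ₐ[ℚ] H85.TT L q)),
      H85.ArithData (H85.TT L q ≃ₐ[ℚ] H85.TT L q) q (H85.cyc L q) a bad F ∧
      ∀ p : Nat.Primes, (p : ℕ) ∉ bad → H85.IsFrobElt (H85.TT L q) p (F p) :=
  H85.exists_arithData (H85.twistBound_of H85.normCharBound) L q

/-- **Crossing.** Let `res : W → G` be a homomorphism such that `res(F_p)` is conjugate to the given elements
`Fb p` of `G` for good `p`. Call a lift `τ` of `g` useful if the order of `g` divides that of `c(τ)²`. If at
least `(1 - δ) #ker(res)` lifts of `g` are useful, then `bfun g (Fb p)` has *lower* density at least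
`2 (1 - δ)`. Proof: `cyclic_case` for every useful `τ`, with `N₀` the kernel of `(res, c²)`, which is normal;
different cosets `τ N₀` give disjoint conditions. (`H85Cheb2`.) -/
theorem crossing {G : Type*} [Group G] [Finite G] (Fb : Nat.Primes → G) (g : G)
    {W : Type} [Group W] [Finite W] (res : W →* G) {m : ℕ} [NeZero m]
    (c : W →* (ZMod m)ˣ) (a : Subgroup W → Nat.Primes → ℕ) (bad : Finset ℕ) (F : Nat.Primes → W)
    (hD : H85.ArithData W m c a bad F)
    (hconj : ∀ p : Nat.Primes, (p : ℕ) ∉ bad → IsConj (res (F p)) (Fb p))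
    (δ : ℝ) (hδ : (1 - δ) * Nat.card res.ker ≤
      Nat.card {τ : W // res τ = g ∧ orderOf g ∣ orderOf ((c τ) ^ 2)}) :
    H85.ULD (fun p => -(((Nat.card {z : G // z⁻¹ * Fb p * z = g} +
      Nat.card {z : G // z⁻¹ * Fb p * z = g⁻¹} : ℕ)) : ℝ)) (-(2 * (1 - δ))) :=
  H85.cross Fb g res c a bad F hD hconj δ hδ

/-- **From lower bounds to exact densities.** If the lower densities of all `bfun g (Fb p)`, `g ∈ G`, are at
least `2 (1 - δ)` for every `δ > 0`, they are exactly `2`: the sum over `g` is the constant `2 #G`. Here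
`bfun g x` is written out. (`H85Cheb2`.) -/
theorem exact_densities {G : Type*} [Group G] [Finite G] (Fb : Nat.Primes → G)
    (h : ∀ g : G, ∀ δ : ℝ, 0 < δ → H85.ULD (fun p => -(H85.bfun g (Fb p) : ℝ)) (-(2 * (1 - δ))))
    (g : G) :
    (∀ x : G, H85.bfun g x = Nat.card {z : G // z⁻¹ * x * z = g} +
      Nat.card {z : G // z⁻¹ * x * z = g⁻¹}) ∧
    HasLogDensity (fun p => (H85.bfun g (Fb p) : ℝ)) 2 :=
  ⟨fun _ => rfl, H85.hasLogDensity_bfun Fb h g⟩

/-- **Symmetric class functions.** If all `bfun g (Fb p)` have the density `2`, the density of `f (Fb p)` is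
the mean value of `f`, for every function `f` on `G` which is constant on conjugacy classes and satisfies
`f(x⁻¹) = f(x)`. (`H85Cheb2`.) -/
theorem class_functions {G : Type*} [Group G] [Fintype G] (Fb : Nat.Primes → G)
    (h : ∀ g : G, HasLogDensity (fun p => (H85.bfun g (Fb p) : ℝ)) 2) (f : G → ℝ)
    (hconj : ∀ x y, f (y⁻¹ * x * y) = f x) (hinv : ∀ x, f x⁻¹ = f x) :
    HasLogDensity (fun p => f (Fb p)) ((∑ g : G, f g) / Fintype.card G) :=
  H85.hasLogDensity_classFun Fb h f hconj hinv

/-! ## 6. Number fields and representations of the absolute Galois group -/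

/-- **Chebotarev's theorem for a number field**, symmetric form: `L/ℚ` finite Galois, `Fb p` Frobenius
elements for the primes outside of a finite set. For every `g` the number of the `z` with `z⁻¹ Fb_p z = g`,
plus the number of those with `z⁻¹ Fb_p z = g⁻¹`, has the density `2`. So if `g` is conjugate to `g⁻¹`, the
primes with Frobenius conjugate to `g` have the density `#(class of g) / #G`; otherwise the primes with
Frobenius conjugate to `g` or `g⁻¹` have twice this density. Proof: given `δ`, let `n` be the order of `g`,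
take `r` with `4n / 2^r ≤ δ` and a prime `q ≡ 1` modulo `n^r` which does not divide the discriminant of `L`
(there are infinitely many such primes, by cyclotomic polynomials); then `group_of_compositum`,
`many_units`, `exists_arithmetic_data` and `crossing`. (`H85Cheb5`.) -/
theorem chebotarev_number_field (L : Type) [Field L] [NumberField L] [IsGalois ℚ L]
    (Fb : Nat.Primes → (L ≃ₐ[ℚ] L)) (S : Finset ℕ)
    (hFb : ∀ p : Nat.Primes, (p : ℕ) ∉ S → H85.IsFrobElt L p (Fb p)) (g : L ≃ₐ[ℚ] L) :
    HasLogDensity (fun p => (((Nat.card {z : L ≃ₐ[ℚ] L // z⁻¹ * Fb p * z = g} +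
      Nat.card {z : L ≃ₐ[ℚ] L // z⁻¹ * Fb p * z = g⁻¹} : ℕ)) : ℝ)) 2 :=
  H85.chebotarev_symm_of (H85.twistBound_of H85.normCharBound) L Fb S hFb g

/-- **Frobenius elements of the absolute Galois group** restrict to Frobenius elements of the Galois number
fields `M ⊂ ℚ̄`; `H85.Fr p` is a chosen Frobenius element above `p` (`DeligneSerre.density_notions`). With
`chebotarev_number_field` and `class_functions` for the field cut out by the representation this gives
`DeligneSerre.chebotarev`. (`H85ChebGal`.) -/
theorem chosen_frobenius_restricts (M : IntermediateField ℚ (AlgebraicClosure ℚ)) [NumberField M]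
    [Normal ℚ M] (p : Nat.Primes) :
    H85.IsFrobElt M p (AlgEquiv.restrictNormalHom M (H85.Fr p)) :=
  H85.isFrobElt_restrict M p

end Fermat.Agent.Guide.Chebotarev
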