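import Fermat.Agent.H63Dict
set_option autoImplicit false

namespace Fermat.Agent.H63

open Pointwise NumberField Polynomial

section Lift

variable {K L : Type*} [Field K] [Field L] [CharZero L] [Algebra.IsAlgebraic ℚ L] [Algebra K L]
  [IsGalois K L]

omit [CharZero L] [Algebra.IsAlgebraic ℚ L] in
theorem continuousSMul_ringOfIntegers [TopologicalSpace (𝓞 L)] [DiscreteTopology (𝓞 L)] :
    ContinuousSMul (L ≃ₐ[K] L) (𝓞 L) := by
  rw [continuousSMul_iff_stabilizer_isOpen]
  intro x
  have h := stabilizer_isOpen_of_isIntegral (K := K) (L := L) (x : L)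
  have h2 : (MulAction.stabilizer (L ≃ₐ[K] L) (x : L) : Set (L ≃ₐ[K] L)) =
      MulAction.stabilizer (L ≃ₐ[K] L) x := by
    ext σ
    simp only [SetLike.mem_coe, MulAction.mem_stabilizer_iff]
    constructor
    · intro h; exact RingOfIntegers.ext h
    · intro h; exact congrArg (fun y : 𝓞 L => (y : L)) h
  rw [← h2]
  exact h

/-- Lifting elements of inertia groups from a finite layer. -/
theorem exists_mul_mem_inertiaSubgroupIn (A : ValuationSubring L) (H : Subgroup (L ≃ₐ[K] L))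
    (hH : IsClosed (H : Set (L ≃ₐ[K] L))) (σ : L ≃ₐ[K] L)
    (hσ : ∀ b : 𝓞 L, (∀ h ∈ H, h • b = b) → σ • b - b ∈ center A) :
    ∃ h ∈ H, σ * h ∈ A.inertiaSubgroupIn K := by
  let _ : TopologicalSpace (𝓞 L) := ⊥
  have : DiscreteTopology (𝓞 L) := ⟨rfl⟩
  have : ContinuousSMul (L ≃ₐ[K] L) (𝓞 L) := continuousSMul_ringOfIntegers
  obtain ⟨h, hh, hh2⟩ := exists_mul_mem_inertia (B := 𝓞 L) (G := L ≃ₐ[K] L) H hH (center A) σ hσ
  exact ⟨h, hh, (mem_inertiaSubgroupIn_iff_center A _).mpr hh2⟩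

variable {F : Type*} [Field F] [Algebra K F] [Algebra F L] [IsScalarTower K F L] [Normal K F]
  [IsGalois F L]

omit [CharZero L] [Algebra.IsAlgebraic ℚ L] [IsGalois K L] [Normal K F] in
/-- The elements of `𝓞 L` fixed by `Gal(L/F)` come from `𝓞 F`. -/
theorem exists_ringOfIntegers_of_fixed (b : 𝓞 L)
    (hb : ∀ h : L ≃ₐ[K] L, (∀ x : F, h (algebraMap F L x) = algebraMap F L x) → h • b = b) :
    ∃ a : 𝓞 F, algebraMap (𝓞 F) (𝓞 L) a = b := by
  have h1 : (b : L) ∈ (algebraMap F L).range := by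
    have := (InfiniteGalois.mem_range_algebraMap_iff_fixed (k := F) (K := L) (b : L)).mpr ?_
    · exact this
    · intro f
      have := hb (f.restrictScalars K) (fun x => f.commutes x)
      exact congrArg (fun y : 𝓞 L => (y : L)) this
  obtain ⟨a, ha⟩ := h1
  have hint : IsIntegral ℤ a := by
    have h2 : IsIntegral ℤ (algebraMap F L a) := by
      rw [ha]; exact RingOfIntegers.isIntegral_coe b
    exact (isIntegral_algebraMap_iff (algebraMap F L).injective).mp h2
  refine ⟨⟨a, hint⟩, ?_⟩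
  apply RingOfIntegers.ext
  exact ha

/-- Inertia surjects onto the inertia group of a normal layer. -/
theorem exists_mem_inertiaSubgroupIn_restrict (A : ValuationSubring L) (σ₀ : F ≃ₐ[K] F)
    (hσ₀ : σ₀ ∈ ((center A).comap (algebraMap (𝓞 F) (𝓞 L))).inertia (F ≃ₐ[K] F)) :
    ∃ τ ∈ A.inertiaSubgroupIn K, AlgEquiv.restrictNormalHom F τ = σ₀ := by
  obtain ⟨σ, hσ⟩ := AlgEquiv.restrictNormalHom_surjective (F := K) (K₁ := F) L σ₀
  set H : Subgroup (L ≃ₐ[K] L) := (AlgEquiv.restrictNormalHom F).ker with hH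
  have hfix : ∀ h ∈ H, ∀ x : F, h (algebraMap F L x) = algebraMap F L x := by
    intro h hh x
    have h1 := AlgEquiv.restrictNormal_commutes h F x
    have h2 : h.restrictNormal F = 1 := hh
    rw [← h1, h2]; rfl
  have hfix' : ∀ h : L ≃ₐ[K] L, (∀ x : F, h (algebraMap F L x) = algebraMap F L x) → h ∈ H := by
    intro h hh
    rw [hH, MonoidHom.mem_ker]
    ext x
    apply (algebraMap F L).injective
    have h1 := AlgEquiv.restrictNormal_commutes h F x
    have h2 : AlgEquiv.restrictNormalHom F h = h.restrictNormal F := rfl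
    rw [h2, h1, hh]; rfl
  have hclosed : IsClosed (H : Set (L ≃ₐ[K] L)) := by
    have : (H : Set (L ≃ₐ[K] L)) = ⋂ x : F, MulAction.stabilizer (L ≃ₐ[K] L) (algebraMap F L x) := by
      ext h
      simp only [SetLike.mem_coe, Set.mem_iInter, MulAction.mem_stabilizer_iff]
      exact ⟨fun hh x => hfix h hh x, fun hh => hfix' h hh⟩
    rw [this]
    exact isClosed_iInter fun x => Subgroup.isClosed_of_isOpen _
      (stabilizer_isOpen_of_isIntegral _)
  obtain ⟨h, hh, hτ⟩ := exists_mul_mem_inertiaSubgroupIn A H hclosed σ (by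
    intro b hb
    obtain ⟨a, rfl⟩ := exists_ringOfIntegers_of_fixed (K := K) (F := F) b
      (fun h hh => hb h (hfix' h hh))
    have h1 : σ • algebraMap (𝓞 F) (𝓞 L) a = algebraMap (𝓞 F) (𝓞 L) (σ₀ • a) := by
      apply RingOfIntegers.ext
      have := AlgEquiv.restrictNormal_commutes σ F (a : F)
      have h2 : σ.restrictNormal F = σ₀ := hσ
      rw [h2] at this
      exact this.symm
    rw [h1, ← map_sub]
    exact hσ₀ a)
  refine ⟨σ * h, hτ, ?_⟩
  rw [map_mul, hσ, MonoidHom.mem_ker.mp hh, mul_one]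

end Lift

end Fermat.Agent.H63
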