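import Fermat.Agent.H64Thaine

set_option autoImplicit false

open NumberField Polynomial

namespace Fermat.Agent.H64

section below

/-- A nonzero prime of a number ring lies over a rational prime. -/
theorem exists_prime_liesOver {L : Type*} [Field L] [NumberField L] (P : Ideal (𝓞 L))
    [hP : P.IsPrime] (h0 : P ≠ ⊥) :
    ∃ ℓ : ℕ, ℓ.Prime ∧ P.LiesOver (Ideal.span {(ℓ : ℤ)}) := by
  have h1 : (P.under ℤ).IsPrime := inferInstance
  have h2 : P.under ℤ ≠ ⊥ := by
    intro h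
    exact h0 (Ideal.eq_bot_of_comap_eq_bot h)
  obtain ⟨g, hg⟩ := (IsPrincipalIdealRing.principal (P.under ℤ)).principal
  have hg' : P.under ℤ = Ideal.span {g} := hg
  have hg0 : g ≠ 0 := by
    rintro rfl
    apply h2
    rw [hg']; simp
  have hgp : Prime g := by
    rw [← Ideal.span_singleton_prime hg0, ← hg']
    exact h1
  refine ⟨g.natAbs, Int.prime_iff_natAbs_prime.1 hgp, ⟨?_⟩⟩
  rw [hg', Int.span_natAbs]

end below

section tower

variable {p q : ℕ} {K F : Type*} [Field K] [NumberField K] [Field F] [NumberField F]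
  [Algebra K F]

theorem natCast_mem_iff_of_liesOver {L : Type*} [Field L] [NumberField L] (P : Ideal (𝓞 L))
    (ℓ : ℕ) [hP : P.LiesOver (Ideal.span {(ℓ : ℤ)})] (m : ℕ) :
    (m : 𝓞 L) ∈ P ↔ ℓ ∣ m := by
  have h1 := hP.over
  have h2 : (m : ℤ) ∈ P.under ℤ ↔ (m : 𝓞 L) ∈ P := by
    rw [Ideal.under_def, Ideal.mem_comap]
    simp
  rw [← h2, ← h1, Ideal.mem_span_singleton]
  exact Int.natCast_dvd_natCast

theorem ramificationIdx_of_not_mem [Fact p.Prime] [Fact q.Prime] (hpq : p ≠ q)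
    [IsCyclotomicExtension {p} ℚ K] [IsCyclotomicExtension {q} K F]
    (P : Ideal (𝓞 F)) [P.IsPrime] (hP0 : P ≠ ⊥) (hq : (q : 𝓞 F) ∉ P) :
    P.ramificationIdx (𝓞 K) = 1 := by
  have hpp : p.Prime := Fact.out
  have hqq : q.Prime := Fact.out
  have hext := isCyclotomicExtension_mul (K := K) (F := F) hpq
  obtain ⟨ℓ, hℓ, hover⟩ := exists_prime_liesOver P hP0
  have : Fact ℓ.Prime := ⟨hℓ⟩
  have hnz : NeZero (p * q) := ⟨mul_ne_zero hpp.ne_zero hqq.ne_zero⟩
  have : (P.under (𝓞 K)).IsPrime := inferInstance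
  have h3 : (P.under (𝓞 K)).LiesOver (Ideal.span {(ℓ : ℤ)}) := by
    constructor
    rw [Ideal.under_under]
    exact hover.over
  have htow := Ideal.ramificationIdx_tower (R := ℤ) (P.under (𝓞 K)) P
  have hq' : ¬ ℓ ∣ q := by
    rw [← natCast_mem_iff_of_liesOver P]; exact hq
  by_cases hℓp : ℓ = p
  · subst hℓp
    rw [IsCyclotomicExtension.Rat.ramificationIdx_eq (ℓ * q) (m := q) (k := 0) F P (by simp) hq',
      IsCyclotomicExtension.Rat.ramificationIdx_eq_of_prime ℓ K] at htow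
    have h4 : 0 < ℓ - 1 := Nat.sub_pos_of_lt hℓ.one_lt
    have h5 : (ℓ - 1) * 1 = (ℓ - 1) * P.ramificationIdx (𝓞 K) := by rw [← htow]; simp
    exact (Nat.eq_of_mul_eq_mul_left h4 h5).symm
  · have h6 : ¬ ℓ ∣ p * q := by
      rw [hℓ.dvd_mul]
      rintro (h | h)
      · exact hℓp ((Nat.prime_dvd_prime_iff_eq hℓ hpp).1 h)
      · exact hq' h
    rw [IsCyclotomicExtension.Rat.ramificationIdx_eq_of_not_dvd (m := p * q) ℓ F P h6] at htow
    exact Nat.eq_one_of_mul_eq_one_left htow.symm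

theorem ramificationIdx_of_mem [Fact p.Prime] [Fact q.Prime] (hpq : p ≠ q)
    [IsCyclotomicExtension {p} ℚ K] [IsCyclotomicExtension {q} K F]
    (P : Ideal (𝓞 F)) [P.IsPrime] (hP0 : P ≠ ⊥) (hq : (q : 𝓞 F) ∈ P) :
    P.ramificationIdx ℤ = q - 1 ∧ P.ramificationIdx (𝓞 K) = q - 1 := by
  have hpp : p.Prime := Fact.out
  have hqq : q.Prime := Fact.out
  have hext := isCyclotomicExtension_mul (K := K) (F := F) hpq
  obtain ⟨ℓ, hℓ, hover⟩ := exists_prime_liesOver P hP0
  have hF : Fact ℓ.Prime := ⟨hℓ⟩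
  have hnz : NeZero (p * q) := ⟨mul_ne_zero hpp.ne_zero hqq.ne_zero⟩
  have : (P.under (𝓞 K)).IsPrime := inferInstance
  have h3 : (P.under (𝓞 K)).LiesOver (Ideal.span {(ℓ : ℤ)}) := by
    constructor
    rw [Ideal.under_under]
    exact hover.over
  have htow := Ideal.ramificationIdx_tower (R := ℤ) (P.under (𝓞 K)) P
  have hq' : ℓ ∣ q := by
    rw [← natCast_mem_iff_of_liesOver P]; exact hq
  have hℓq : ℓ = q := (Nat.prime_dvd_prime_iff_eq hℓ hqq).1 hq'
  subst hℓq
  have hnd : ¬ ℓ ∣ p := fun h => hpq ((Nat.prime_dvd_prime_iff_eq hℓ hpp).1 h).symm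
  have h5 : P.ramificationIdx ℤ = ℓ - 1 := by
    rw [IsCyclotomicExtension.Rat.ramificationIdx_eq (p * ℓ) (m := p) (k := 0) F P
      (by simp [mul_comm]) hnd]
    simp
  refine ⟨h5, ?_⟩
  rw [h5, IsCyclotomicExtension.Rat.ramificationIdx_eq_of_not_dvd (m := p) ℓ K
    (P.under (𝓞 K)) hnd, one_mul] at htow
  exact htow.symm

end tower

section dedekind

/-- In a Dedekind domain: if `π` generates `P` locally at `P` and `v = v_P(β)` then
`β y = π ^ v x` with `x, y ∉ P`. -/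
theorem exists_mul_eq_pow_mul {R : Type*} [CommRing R] [IsDedekindDomain R]
    (P : Ideal R) [hP : P.IsPrime] (hP0 : P ≠ ⊥) {π β : R} (hπ : multiplicity P (Ideal.span {π}) = 1)
    (hπ0 : π ≠ 0) (hβ : β ≠ 0) :
    ∃ x y : R, x ∉ P ∧ y ∉ P ∧ β * y = π ^ (multiplicity P (Ideal.span {β})) * x := by
  have hprime : Prime P := Ideal.prime_of_isPrime hP0 hP
  have hspan : ∀ z : R, z ≠ 0 → Ideal.span {z} ≠ (0 : Ideal R) := by
    intro z hz h
    rw [Ideal.zero_eq_bot, Ideal.span_singleton_eq_bot] at h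
    exact hz h
  have hfin : ∀ z : R, z ≠ 0 → FiniteMultiplicity P (Ideal.span {z}) := fun z hz =>
    FiniteMultiplicity.of_prime_left hprime (hspan z hz)
  obtain ⟨C, hC, hC'⟩ := (hfin β hβ).exists_eq_pow_mul_and_not_dvd
  obtain ⟨B, hB, hB'⟩ := (hfin π hπ0).exists_eq_pow_mul_and_not_dvd
  rw [hπ, pow_one] at hB
  set v := multiplicity P (Ideal.span {β}) with hv
  have hBv : ¬ P ∣ B ^ v := fun h => hB' (hprime.dvd_of_dvd_pow h)
  rw [Ideal.dvd_iff_le] at hBv
  obtain ⟨y, hy, hyP⟩ := SetLike.not_le_iff_exists.1 hBv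
  have h1 : Ideal.span {β * y} ≤ Ideal.span {π ^ v} := by
    rw [← Ideal.span_singleton_mul_span_singleton, ← Ideal.span_singleton_pow, hB, mul_pow, hC,
      mul_assoc]
    refine Ideal.mul_mono_right ?_
    refine le_trans Ideal.mul_le_right ?_
    rw [Ideal.span_singleton_le_iff_mem]
    exact hy
  rw [Ideal.span_singleton_le_span_singleton] at h1
  obtain ⟨x, hx⟩ := h1
  refine ⟨x, y, ?_, hyP, hx⟩
  intro hxP
  have h2 : P ^ v * (C * Ideal.span {y}) = P ^ v * (B ^ v * Ideal.span {x}) := by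
    rw [← mul_assoc, ← hC, Ideal.span_singleton_mul_span_singleton, hx,
      ← Ideal.span_singleton_mul_span_singleton, ← Ideal.span_singleton_pow, hB, mul_pow,
      mul_assoc]
  have h3 : C * Ideal.span {y} = B ^ v * Ideal.span {x} :=
    mul_left_cancel₀ (pow_ne_zero _ hprime.ne_zero) h2
  have h4 : P ∣ C * Ideal.span {y} := by
    rw [h3]
    refine Dvd.dvd.mul_left ?_ _
    rw [Ideal.dvd_iff_le, Ideal.span_singleton_le_iff_mem]
    exact hxP
  rcases hprime.dvd_or_dvd h4 with h5 | h5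
  · exact hC' h5
  · rw [Ideal.dvd_iff_le, Ideal.span_singleton_le_iff_mem] at h5
    exact hyP h5

end dedekind

end Fermat.Agent.H64
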