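import Fermat.Agent.H63Minkowski
import Fermat.Agent.H63Cyclo
import Fermat.Agent.H64Ram

/-!
# Ramification of Kummer extensions, in terms of places of `ℚ̄`
-/

set_option autoImplicit false

open NumberField IsDedekindDomain Fermat.Agent.H63

namespace Fermat.Agent.H64

section generalL

variable {L : Type*} [Field L] [CharZero L] [IsGalois ℚ L]

omit [CharZero L] [IsGalois ℚ L] in
/-- the centre of a place lying over a prime is nonzero on every number field -/
theorem comap_center_ne_bot {K : Type*} [Field K] [Algebra K L] {q : ℕ}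
    (hq : q.Prime) {A : ValuationSubring L} (hA : A.LiesOverPrime q) [CharZero K] :
    (center A).comap (algebraMap (𝓞 K) (𝓞 L)) ≠ ⊥ := by
  intro h
  have h1 : (q : 𝓞 K) ∈ (center A).comap (algebraMap (𝓞 K) (𝓞 L)) := by
    rw [Ideal.mem_comap, map_natCast]
    exact (liesOverPrime_iff A q).1 hA
  rw [h, Ideal.mem_bot] at h1
  exact hq.ne_zero (Nat.cast_eq_zero.1 h1)

/-- the place of a number field below a place of `L` -/
noncomputable def placeBelow (K : Type*) [Field K] [NumberField K] [Algebra K L] {q : ℕ}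
    (hq : q.Prime) {A : ValuationSubring L} (hA : A.LiesOverPrime q) : HeightOneSpectrum (𝓞 K) :=
  ⟨(center A).comap (algebraMap (𝓞 K) (𝓞 L)), inferInstance, comap_center_ne_bot hq hA⟩

omit [CharZero L] [IsGalois ℚ L] in
@[simp] theorem placeBelow_asIdeal (K : Type*) [Field K] [NumberField K] [Algebra K L] {q : ℕ}
    (hq : q.Prime) {A : ValuationSubring L} (hA : A.LiesOverPrime q) :
    (placeBelow K hq hA).asIdeal = (center A).comap (algebraMap (𝓞 K) (𝓞 L)) := rfl

/-- An element of `K` with valuation `≤ 1` lies in `A`. -/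
theorem algebraMap_mem_of_valuation_le_one (K : Type*) [Field K] [NumberField K] [Algebra K L]
    {q : ℕ} (hq : q.Prime) {A : ValuationSubring L} (hA : A.LiesOverPrime q) {u : K}
    (hu : (placeBelow K hq hA).valuation K u ≤ 1) : algebraMap K L u ∈ A := by
  obtain ⟨n, ⟨d, hd⟩, h⟩ := (placeBelow K hq hA).exists_primeCompl_mul_eq_of_integer u hu
  have hd' : d ∉ (placeBelow K hq hA).asIdeal := hd
  rw [mem_iff_exists]
  refine ⟨algebraMap (𝓞 K) (𝓞 L) n, algebraMap (𝓞 K) (𝓞 L) d, ?_, ?_⟩
  · intro h'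
    exact hd' (by rw [placeBelow_asIdeal, Ideal.mem_comap]; exact h')
  · have h2 := congrArg (algebraMap K L) h
    rw [map_mul] at h2
    exact h2

/-- units at the place below are units of `A` -/
theorem valuation_algebraMap_eq_one (K : Type*) [Field K] [NumberField K] [Algebra K L]
    {q : ℕ} (hq : q.Prime) {A : ValuationSubring L} (hA : A.LiesOverPrime q) {u : K}
    (hu : (placeBelow K hq hA).valuation K u = 1) : A.valuation (algebraMap K L u) = 1 := by
  have hu0 : u ≠ 0 := by
    rintro rfl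
    rw [map_zero] at hu
    exact zero_ne_one hu
  have h1 := algebraMap_mem_of_valuation_le_one K hq hA hu.le
  have h2 : algebraMap K L u⁻¹ ∈ A :=
    algebraMap_mem_of_valuation_le_one K hq hA (by rw [map_inv₀, hu, inv_one])
  rw [← ValuationSubring.valuation_le_one_iff] at h1 h2
  rw [map_inv₀, map_inv₀] at h2
  have h3 : A.valuation (algebraMap K L u) ≠ 0 := by
    rw [Valuation.ne_zero_iff]
    exact (map_ne_zero _).2 hu0
  refine le_antisymm h1 ?_
  exact (inv_le_one₀ (zero_lt_iff.2 h3)).1 h2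

/-- Kummer extensions by elements of valuation divisible by `p` are unramified away from `p`. -/
theorem inertia_fixes_root {p : ℕ} (hp : p.Prime) {K : Type*} [Field K] [NumberField K]
    [Algebra K L] {q : ℕ} (hq : q.Prime) {A : ValuationSubring L} (hA : A.LiesOverPrime q)
    (hpA : (p : 𝓞 L) ∉ center A) {σ : L ≃ₐ[ℚ] L} (hσ : σ ∈ A.inertiaSubgroupIn ℚ)
    (hσK : ∀ x : K, σ (algebraMap K L x) = algebraMap K L x)
    {x : K} (n : ℤ)
    (hvx : (placeBelow K hq hA).valuation K x = WithZero.exp ((p : ℤ) * n))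
    {y : L} (hy : y ^ p = algebraMap K L x) : σ y = y := by
  set v := placeBelow K hq hA with hv
  obtain ⟨π, hπ⟩ := v.valuation_exists_uniformizer K
  have hπ0 : π ≠ 0 := by
    rintro rfl
    rw [map_zero] at hπ
    exact WithZero.exp_ne_zero hπ.symm
  set z : K := π ^ (-n) with hz
  have hz0 : z ≠ 0 := zpow_ne_zero _ hπ0
  have hvz : v.valuation K z = WithZero.exp n := by
    rw [hz, map_zpow₀, hπ, ← WithZero.exp_zsmul]
    simp
  have hvu : v.valuation K (x / z ^ p) = 1 := by
    rw [map_div₀, map_pow, hvz, hvx, ← WithZero.exp_nsmul, nsmul_eq_mul, div_self]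
    exact WithZero.exp_ne_zero
  set Z : L := algebraMap K L z with hZ
  have hZ0 : Z ≠ 0 := (map_ne_zero _).2 hz0
  set w : L := y / Z with hw
  have hwp : w ^ p = algebraMap K L (x / z ^ p) := by
    rw [hw, div_pow, hy, map_div₀, map_pow]
  have hvw : A.valuation w = 1 := by
    have h1 : A.valuation w ^ p = 1 := by
      rw [← map_pow, hwp]
      exact valuation_algebraMap_eq_one K hq hA hvu
    rcases lt_trichotomy (A.valuation w) 1 with h2 | h2 | h2
    · exact absurd h1 (pow_lt_one₀ zero_le h2 hp.ne_zero).ne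
    · exact h2
    · exact absurd h1 (one_lt_pow₀ h2 hp.ne_zero).ne'
  have hw0 : w ≠ 0 := by
    intro h
    rw [h, map_zero] at hvw
    exact zero_ne_one hvw
  have hwA : w ∈ A := by
    rw [← ValuationSubring.valuation_le_one_iff, hvw]
  have hin := ((mem_inertiaSubgroupIn_iff A σ).1 hσ).2 w hwA
  -- the root of unity
  have hσw : (σ w) ^ p = w ^ p := by
    rw [← map_pow, hwp, hσK]
  have hroot : (σ w / w) ^ p = 1 := by
    rw [div_pow, hσw, div_self (pow_ne_zero _ hw0)]
  have hint : IsIntegral ℤ (σ w / w) :=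
    ⟨Polynomial.X ^ p - 1, Polynomial.monic_X_pow_sub_C 1 hp.ne_zero, by simp [hroot]⟩
  obtain ⟨t, ht⟩ : ∃ t : 𝓞 L, (t : L) = σ w / w := ⟨⟨σ w / w, hint⟩, rfl⟩
  have h1 : t = 1 := by
    apply eq_of_pow_eq_one_of_sub_mem (center A) hpA
    · apply RingOfIntegers.ext
      have : ((t ^ p : 𝓞 L) : L) = (t : L) ^ p := rfl
      rw [this, ht, hroot]
      rfl
    · exact one_pow p
    · rw [mem_center_iff]
      have h2 : ((t - 1 : 𝓞 L) : L) = (σ w - w) / w := by
        rw [sub_div, div_self hw0, ← ht]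
        rfl
      rw [h2, ValuationSubring.mem_nonunits_iff, map_div₀, hvw, div_one]
      exact (ValuationSubring.mem_nonunits_iff A).1 hin
  have h3 : σ w = w := by
    have h4 : σ w / w = 1 := by
      rw [← ht, h1]; rfl
    rwa [div_eq_one_iff_eq hw0] at h4
  have h5 : y = w * Z := by rw [hw, div_mul_cancel₀ _ hZ0]
  rw [h5, map_mul, h3, hZ, hσK]

/-- If the inertia group of `A` acts trivially on a Galois number field `E`, the place of `E`
below `A` is unramified. -/
theorem ramificationIdx_eq_one_of_inertia (E : Type*) [Field E] [NumberField E] [IsGalois ℚ E]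
    [Algebra E L] (A : ValuationSubring L)
    (hI : ∀ σ ∈ A.inertiaSubgroupIn ℚ, ∀ x : E, σ (algebraMap E L x) = algebraMap E L x) :
    ((center A).comap (algebraMap (𝓞 E) (𝓞 L))).ramificationIdx ℤ = 1 := by
  set P := (center A).comap (algebraMap (𝓞 E) (𝓞 L)) with hP
  have hgal : IsGaloisGroup (E ≃ₐ[ℚ] E) ℤ (𝓞 E) :=
    IsGaloisGroup.of_isFractionRing (E ≃ₐ[ℚ] E) ℤ (𝓞 E) ℚ E
  have hPover : P.LiesOver (P.under ℤ) := inferInstance
  have : IsGalois E L := IsGalois.tower_top_of_isGalois ℚ E L
  have hbot : P.inertia (E ≃ₐ[ℚ] E) = ⊥ := by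
    rw [Subgroup.eq_bot_iff_forall]
    intro σ₀ hσ₀
    obtain ⟨τ, hτ, rfl⟩ := exists_mem_inertiaSubgroupIn_restrict (F := E) A σ₀ hσ₀
    ext x
    apply (algebraMap E L).injective
    have h1 := AlgEquiv.restrictNormal_commutes τ E x
    have h2 : AlgEquiv.restrictNormalHom E τ = τ.restrictNormal E := rfl
    rw [h2, h1, hI τ hτ]; rfl
  have hcard := Ideal.card_inertia_eq_ramificationIdxIn (G := E ≃ₐ[ℚ] E) (P.under ℤ) P
  rw [hbot, Ideal.ramificationIdxIn_eq_ramificationIdx (P.under ℤ) P (E ≃ₐ[ℚ] E)] at hcard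
  rw [← hcard]
  simp

/-- comparison of valuations in an unramified tower -/
theorem valuation_placeBelow_tower (K E : Type*) [Field K] [NumberField K] [Field E]
    [NumberField E] [IsGalois ℚ E] [Algebra K E] [Algebra E L] [Algebra K L] [IsScalarTower K E L]
    {q : ℕ} (hq : q.Prime) {A : ValuationSubring L} (hA : A.LiesOverPrime q)
    (hI : ∀ σ ∈ A.inertiaSubgroupIn ℚ, ∀ x : E, σ (algebraMap E L x) = algebraMap E L x) (x : K) :
    (placeBelow K hq hA).valuation K x = (placeBelow E hq hA).valuation E (algebraMap K E x) := by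
  have htower : (algebraMap (𝓞 E) (𝓞 L)).comp (algebraMap (𝓞 K) (𝓞 E)) =
      algebraMap (𝓞 K) (𝓞 L) := by
    ext a
    exact (IsScalarTower.algebraMap_apply K E L (a : K)).symm
  have hover : (placeBelow E hq hA).asIdeal.LiesOver (placeBelow K hq hA).asIdeal := by
    constructor
    rw [Ideal.under_def, placeBelow_asIdeal, placeBelow_asIdeal, Ideal.comap_comap, htower]
  have h1 := HeightOneSpectrum.valuation_liesOver (K := K) E (placeBelow K hq hA)
    (placeBelow E hq hA) x
  have h2 := ramificationIdx_eq_one_of_inertia E A hI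
  have h3 := Ideal.ramificationIdx_tower (R := ℤ) (placeBelow K hq hA).asIdeal
    (placeBelow E hq hA).asIdeal
  rw [placeBelow_asIdeal E, h2] at h3
  have h4 := Nat.eq_one_of_mul_eq_one_left h3.symm
  rw [Ideal.ramificationIdx'_eq_ramificationIdx _ _ (placeBelow K hq hA).ne_bot,
    placeBelow_asIdeal E, h4, pow_one] at h1
  exact h1

/-- If `y ^ p = x` and inertia acts trivially on a Galois number field containing `y`, then
the valuation of `x` is divisible by `p`. -/
theorem exists_valuation_eq_exp_mul (p : ℕ) (K E : Type*) [Field K] [NumberField K] [Field E]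
    [NumberField E] [IsGalois ℚ E] [Algebra K E] [Algebra E L] [Algebra K L] [IsScalarTower K E L]
    {q : ℕ} (hq : q.Prime) {A : ValuationSubring L} (hA : A.LiesOverPrime q)
    (hI : ∀ σ ∈ A.inertiaSubgroupIn ℚ, ∀ x : E, σ (algebraMap E L x) = algebraMap E L x)
    {x : K} (hx : x ≠ 0) {y : E} (hy : y ^ p = algebraMap K E x) :
    ∃ n : ℤ, (placeBelow K hq hA).valuation K x = WithZero.exp ((p : ℤ) * n) := by
  rw [valuation_placeBelow_tower K E hq hA hI x, ← hy, map_pow]
  have hy0 : (placeBelow E hq hA).valuation E y ≠ 0 ∨ p = 0 := by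
    by_cases hp : p = 0
    · exact Or.inr hp
    · left
      rw [Valuation.ne_zero_iff]
      rintro rfl
      rw [zero_pow hp] at hy
      exact hx ((map_eq_zero _).1 hy.symm)
  rcases hy0 with h | h
  · refine ⟨WithZero.log ((placeBelow E hq hA).valuation E y), ?_⟩
    conv_lhs => rw [← WithZero.exp_log h]
    rw [← WithZero.exp_nsmul, nsmul_eq_mul]
  · exact ⟨0, by rw [h]; simp⟩

end generalL

end Fermat.Agent.H64
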