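import Mathlib

set_option autoImplicit false

namespace Fermat.Agent.H47

/-- For a finitely generated abelian group `A` and `n ≠ 0`,
`[A : nA] = n ^ (rank A) * |A[n]|`. -/
theorem index_range_nsmul_eq (A : Type*) [AddCommGroup A] [Module.Finite ℤ A] {n : ℕ}
    (hn : n ≠ 0) :
    (nsmulAddMonoidHom (α := A) n).range.index =
      n ^ Module.finrank ℤ A * Nat.card (nsmulAddMonoidHom (α := A) n).ker := by
  classical
  have hfg : AddGroup.FG A := by
    rw [← Module.Finite.iff_addGroup_fg]; infer_instance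
  obtain ⟨r, ι, _, q, hq, e, ⟨f⟩⟩ := AddCommGroup.equiv_free_prod_directSum_zmod A
  have : ∀ i, NeZero (q i ^ e i) := fun i => ⟨pow_ne_zero _ (hq i).ne_zero⟩
  set D := DirectSum ι fun i => ZMod (q i ^ e i) with hD
  have hfinD : Finite D := by
    have := Fintype.ofEquiv _ (DirectSum.addEquivProd fun i => ZMod (q i ^ e i)).symm.toEquiv
    infer_instance
  have hrank : Module.finrank ℤ A = r := by
    rw [f.toIntLinearEquiv.finrank_eq]
    have h := Submodule.finrank_quotient_add_finrank
      (LinearMap.ker (LinearMap.fst ℤ (Fin r →₀ ℤ) D))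
    have h1 : Module.finrank ℤ (LinearMap.ker (LinearMap.fst ℤ (Fin r →₀ ℤ) D)) = 0 := by
      apply Module.IsTorsion.finrank_eq_zero
      rintro ⟨⟨a, d⟩, hx⟩
      have ha : a = 0 := hx
      refine ⟨⟨(Nat.card D : ℤ), mem_nonZeroDivisors_of_ne_zero
        (by exact_mod_cast Nat.card_pos.ne')⟩, ?_⟩
      rw [Submonoid.mk_smul]
      apply Subtype.ext
      rw [Submodule.coe_smul, Prod.smul_mk, ha, smul_zero, Submodule.coe_zero]
      refine Prod.ext rfl ?_
      change (Nat.card D : ℤ) • d = 0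
      rw [natCast_zsmul]
      exact card_nsmul_eq_zero'
    have h2 := (LinearMap.quotKerEquivOfSurjective (LinearMap.fst ℤ (Fin r →₀ ℤ) D)
      LinearMap.fst_surjective).finrank_eq
    rw [h1, h2, add_zero] at h
    rw [← h, Module.finrank_finsupp_self, Fintype.card_fin]
  have hidx : (nsmulAddMonoidHom (α := A) n).range.index =
      (nsmulAddMonoidHom (α := (Fin r →₀ ℤ) × D) n).range.index := by
    rw [← AddSubgroup.index_map_equiv (nsmulAddMonoidHom (α := A) n).range f,
      AddEquiv.map_range_nsmulAddMonoidHom]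
  have hker : Nat.card (nsmulAddMonoidHom (α := A) n).ker =
      Nat.card (nsmulAddMonoidHom (α := (Fin r →₀ ℤ) × D) n).ker := by
    refine Nat.card_congr (Equiv.subtypeEquiv f.toEquiv fun a => ?_)
    rw [AddMonoidHom.mem_ker, AddMonoidHom.mem_ker]
    simp only [nsmulAddMonoidHom_apply, AddEquiv.toEquiv_eq_coe, EquivLike.coe_coe]
    rw [← map_nsmul, EmbeddingLike.map_eq_zero_iff]
  have hrange : (nsmulAddMonoidHom (α := (Fin r →₀ ℤ) × D) n).range =
      (nsmulAddMonoidHom (α := (Fin r →₀ ℤ)) n).range.prod (nsmulAddMonoidHom (α := D) n).range := by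
    ext ⟨a, d⟩
    simp only [AddMonoidHom.mem_range, AddSubgroup.mem_prod, nsmulAddMonoidHom_apply,
      Prod.exists, Prod.smul_mk, Prod.mk.injEq]
    constructor
    · rintro ⟨b, c, hb, hc⟩; exact ⟨⟨b, hb⟩, ⟨c, hc⟩⟩
    · rintro ⟨⟨b, hb⟩, ⟨c, hc⟩⟩; exact ⟨b, c, hb, hc⟩
  have hkerD : Nat.card (nsmulAddMonoidHom (α := (Fin r →₀ ℤ) × D) n).ker =
      Nat.card (nsmulAddMonoidHom (α := D) n).ker := by
    refine Nat.card_congr ⟨fun x => ⟨x.1.2, ?_⟩, fun x => ⟨(0, x.1), ?_⟩, fun x => ?_, fun x => rfl⟩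
    · have := x.2
      rw [AddMonoidHom.mem_ker] at this ⊢
      exact congrArg Prod.snd this
    · have := x.2
      rw [AddMonoidHom.mem_ker] at this ⊢
      simp only [nsmulAddMonoidHom_apply, Prod.smul_mk, smul_zero, Prod.mk_eq_zero, true_and]
      exact this
    · apply Subtype.ext
      have := x.2
      rw [AddMonoidHom.mem_ker] at this
      have h1 : n • x.1.1 = 0 := congrArg Prod.fst this
      have h2 : x.1.1 = 0 := by
        rcases smul_eq_zero.1 h1 with h | h
        · exact absurd h hn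
        · exact h
      refine Prod.ext h2.symm rfl
  rw [hidx, hrange, AddSubgroup.index_prod, AddSubgroup.index_range_nsmul, hker, hkerD, hrank,
    Module.finrank_finsupp_self, Fintype.card_fin, AddSubgroup.index_range]

end Fermat.Agent.H47
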