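import Mathlib
import Fermat.Agent.H47FGIndex

set_option autoImplicit false

namespace Fermat.Agent.H47

open IsDedekindDomain FractionalIdeal
open scoped WithZero nonZeroDivisors

noncomputable section

section Dedekind

variable {R : Type*} [CommRing R] [IsDedekindDomain R] {K : Type*} [Field K]
  [Algebra R K] [IsFractionRing R K]

/-- The additive `v`-adic order of a nonzero element (normalised so that uniformisers have
order `1`). -/
def ordHom (v : HeightOneSpectrum R) : Additive Kˣ →+ ℤ :=
  -(v.valuationOfNeZero (K := K)).toAdditiveLeft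

theorem ordHom_apply (v : HeightOneSpectrum R) (x : Kˣ) :
    ordHom v (Additive.ofMul x) = -(Multiplicative.toAdd (v.valuationOfNeZero x)) := rfl

theorem ordHom_eq_zero_iff (v : HeightOneSpectrum R) (x : Kˣ) :
    ordHom v (Additive.ofMul x) = 0 ↔ v.valuation K (x : K) = 1 := by
  rw [ordHom_apply, neg_eq_zero, ← v.valuationOfNeZero_eq, ← WithZero.coe_one, WithZero.coe_inj]
  exact Iff.rfl

theorem valuation_eq_exp_ordHom (v : HeightOneSpectrum R) (x : Kˣ) :
    v.valuation K (x : K) = WithZero.exp (-(ordHom v (Additive.ofMul x))) := by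
  rw [ordHom_apply, neg_neg, ← v.valuationOfNeZero_eq]
  rfl

theorem ordHom_eq_count (v : HeightOneSpectrum R) (x : Kˣ) :
    ordHom v (Additive.ofMul x) = FractionalIdeal.count K v (spanSingleton R⁰ (x : K)) := by
  classical
  have hx : spanSingleton R⁰ (x : K) ≠ 0 := by
    rw [Ne, spanSingleton_eq_zero_iff]; exact x.ne_zero
  have key : spanSingleton R⁰ (x : K) = spanSingleton R⁰
      ((algebraMap R K) ((IsLocalization.sec R⁰ (x : K)).2 : R))⁻¹ *
      ((Ideal.span {(IsLocalization.sec R⁰ (x : K)).1} : Ideal R) : FractionalIdeal R⁰ K) := by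
    rw [coeIdeal_span_singleton, spanSingleton_mul_spanSingleton]
    congr 1
    have h := IsLocalization.sec_spec R⁰ (x : K)
    have h2 : (algebraMap R K) ((IsLocalization.sec R⁰ (x : K)).2 : R) ≠ 0 := by
      rw [Ne, IsFractionRing.to_map_eq_zero_iff]
      exact nonZeroDivisors.coe_ne_zero _
    rw [← h]
    field_simp
  rw [FractionalIdeal.count_well_defined K v hx key, ordHom_apply]
  simp only [HeightOneSpectrum.valuationOfNeZero, HeightOneSpectrum.valuationOfNeZeroToFun,
    MonoidHom.coe_mk, OneHom.coe_mk, toAdd_ofAdd]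
  ring

theorem finite_ordHom_ne_zero (x : Additive Kˣ) :
    {v : HeightOneSpectrum R | ordHom v x ≠ 0}.Finite := by
  have h := FractionalIdeal.finite_factors (R := R) (K := K)
    (spanSingleton R⁰ ((x.toMul : Kˣ) : K))
  rw [Filter.eventually_cofinite] at h
  refine h.subset fun v hv => ?_
  rw [Set.mem_ofPred_eq] at hv ⊢
  rwa [← ordHom_eq_count]

variable (R K) in
/-- The principal divisor of a nonzero element. -/
def divHom : Additive Kˣ →+ (HeightOneSpectrum R →₀ ℤ) where
  toFun x := Finsupp.ofSupportFinite (fun v => ordHom v x) (finite_ordHom_ne_zero x)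
  map_zero' := by ext v; simp [Finsupp.ofSupportFinite_coe]
  map_add' x y := by
    ext v
    rw [Finsupp.add_apply]
    exact map_add (ordHom v) x y

@[simp]
theorem divHom_apply (x : Additive Kˣ) (v : HeightOneSpectrum R) :
    divHom R K x v = ordHom v x := rfl

variable (K) in
/-- The invertible fractional ideal attached to a divisor. -/
def idealOf : Multiplicative (HeightOneSpectrum R →₀ ℤ) →* (FractionalIdeal R⁰ K)ˣ where
  toFun D := Finsupp.prod (Multiplicative.toAdd D) fun v n =>
    (Units.mk0 (v.asIdeal : FractionalIdeal R⁰ K) (coeIdeal_ne_zero.mpr v.ne_bot)) ^ n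
  map_one' := by simp
  map_mul' D E := by
    rw [toAdd_mul, Finsupp.prod_add_index' (by simp) (by intro a m n; exact zpow_add _ _ _)]

theorem coe_idealOf (D : Multiplicative (HeightOneSpectrum R →₀ ℤ)) :
    (idealOf K D : FractionalIdeal R⁰ K) =
      (Multiplicative.toAdd D).prod (fun v n => (v.asIdeal : FractionalIdeal R⁰ K) ^ n) := by
  simp only [idealOf, MonoidHom.coe_mk, OneHom.coe_mk, Finsupp.prod]
  rw [Units.coe_prod]
  refine Finset.prod_congr rfl fun v _ => ?_
  rw [Units.val_zpow_eq_zpow_val, Units.val_mk0]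

theorem count_idealOf (D : Multiplicative (HeightOneSpectrum R →₀ ℤ)) (v : HeightOneSpectrum R) :
    FractionalIdeal.count K v (idealOf K D : FractionalIdeal R⁰ K) =
      Multiplicative.toAdd D v := by
  rw [coe_idealOf]
  exact FractionalIdeal.count_finsuppProd K v _

theorem ext_count {I J : FractionalIdeal R⁰ K} (hI : I ≠ 0) (hJ : J ≠ 0)
    (h : ∀ v, FractionalIdeal.count K v I = FractionalIdeal.count K v J) : I = J := by
  rw [← FractionalIdeal.finprod_heightOneSpectrum_factorization' K hI,
    ← FractionalIdeal.finprod_heightOneSpectrum_factorization' K hJ]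
  exact finprod_congr fun v => by rw [h v]

variable (K) in
theorem idealOf_bijective : Function.Bijective (idealOf (R := R) K) := by
  constructor
  · intro D E h
    apply Multiplicative.toAdd.injective
    ext v
    rw [← count_idealOf (K := K), ← count_idealOf (K := K), h]
  · intro I
    refine ⟨Multiplicative.ofAdd (Finsupp.ofSupportFinite
      (fun v => FractionalIdeal.count K v (I : FractionalIdeal R⁰ K)) ?_), ?_⟩
    · have h := FractionalIdeal.finite_factors (R := R) (K := K) (I : FractionalIdeal R⁰ K)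
      rw [Filter.eventually_cofinite] at h
      exact h
    · apply Units.ext
      apply ext_count (Units.ne_zero _) (Units.ne_zero _)
      intro v
      rw [count_idealOf]
      rfl

variable (K) in
/-- The ideal class of a divisor. -/
def classOf : (HeightOneSpectrum R →₀ ℤ) →+ Additive (ClassGroup R) :=
  MonoidHom.toAdditiveRight ((ClassGroup.mk K).comp (idealOf K))

variable (K) in
theorem classOf_surjective : Function.Surjective (classOf (R := R) K) := by
  intro c
  refine ClassGroup.induction (R := R) K (P := fun c => ∃ D, classOf (R := R) K D = Additive.ofMul c)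
    (fun I => ?_) c.toMul
  obtain ⟨D, rfl⟩ := (idealOf_bijective K).2 I
  exact ⟨Multiplicative.toAdd D, rfl⟩

theorem mk_eq_one_iff_mem_range (I : (FractionalIdeal R⁰ K)ˣ) :
    ClassGroup.mk K I = 1 ↔ I ∈ (toPrincipalIdeal R K).range := by
  rw [← (ClassGroup.equiv K).injective.eq_iff]
  simp only [ClassGroup.equiv_mk, canonicalEquiv_self, RingEquiv.coe_mulEquiv_refl,
    QuotientGroup.mk'_apply, map_one, QuotientGroup.eq_one_iff, MonoidHom.mem_range, Units.ext_iff,
    coe_toPrincipalIdeal, Units.coe_mapEquiv, MulEquiv.refl_apply]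

theorem idealOf_divHom (x : Kˣ) :
    idealOf K (Multiplicative.ofAdd (divHom R K (Additive.ofMul x))) = toPrincipalIdeal R K x := by
  apply Units.ext
  apply ext_count (Units.ne_zero _) (Units.ne_zero _)
  intro v
  rw [count_idealOf, coe_toPrincipalIdeal, ← ordHom_eq_count]
  rfl

variable (K) in
theorem ker_classOf : (classOf (R := R) K).ker = (divHom R K).range := by
  ext D
  rw [AddMonoidHom.mem_ker, AddMonoidHom.mem_range]
  have h1 : classOf (R := R) K D = 0 ↔
      (ClassGroup.mk K (idealOf K (Multiplicative.ofAdd D)) : ClassGroup R) = 1 := Iff.rfl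
  rw [h1, mk_eq_one_iff_mem_range]
  constructor
  · rintro ⟨x, hx⟩
    refine ⟨Additive.ofMul x, ?_⟩
    have := (idealOf_bijective (R := R) K).1 ((idealOf_divHom (R := R) x).trans hx)
    exact Multiplicative.ofAdd.injective this
  · rintro ⟨x, rfl⟩
    exact ⟨x.toMul, (idealOf_divHom (R := R) x.toMul).symm⟩

theorem exists_unit_of_forall_ordHom_eq_zero {x : Kˣ}
    (h : ∀ v : HeightOneSpectrum R, ordHom v (Additive.ofMul x) = 0) :
    ∃ u : Rˣ, Units.map (algebraMap R K : R →* K) u = x := by
  have h1 : ∀ v : HeightOneSpectrum R, v.valuation K (x : K) ≤ 1 := fun v =>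
    ((ordHom_eq_zero_iff v x).1 (h v)).le
  have h2 : ∀ v : HeightOneSpectrum R, v.valuation K ((x⁻¹ : Kˣ) : K) ≤ 1 := fun v => by
    rw [Units.val_inv_eq_inv_val, map_inv₀, (ordHom_eq_zero_iff v x).1 (h v), inv_one]
  obtain ⟨a, ha⟩ := HeightOneSpectrum.mem_integers_of_valuation_le_one K (x : K) h1
  obtain ⟨b, hb⟩ := HeightOneSpectrum.mem_integers_of_valuation_le_one K ((x⁻¹ : Kˣ) : K) h2
  have hab : a * b = 1 := by
    apply IsFractionRing.injective R K
    rw [map_mul, ha, hb, map_one, Units.mul_inv]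
  refine ⟨⟨a, b, hab, by rw [mul_comm]; exact hab⟩, ?_⟩
  ext
  exact ha

theorem ordHom_unit (v : HeightOneSpectrum R) (u : Rˣ) :
    ordHom v (Additive.ofMul (Units.map (algebraMap R K : R →* K) u)) = 0 := by
  rw [ordHom_apply, HeightOneSpectrum.valuation_of_unit_eq]
  rfl

theorem mem_unit_iff {T : Set (HeightOneSpectrum R)} {x : Kˣ} :
    x ∈ T.unit K ↔ ∀ v ∉ T, ordHom v (Additive.ofMul x) = 0 := by
  simp only [ordHom_eq_zero_iff]
  exact Iff.rfl

end Dedekind

section NumberField

open NumberField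

variable (K : Type*) [Field K] [NumberField K] (T : Set (HeightOneSpectrum (𝓞 K)))

/-- The vector of orders on `T`-units. -/
def ordT : Additive (T.unit K) →ₗ[ℤ] (T → ℤ) :=
  AddMonoidHom.toIntLinearMap (AddMonoidHom.mk'
    (fun x v => ordHom v.1 (Additive.ofMul (x.toMul : Kˣ)))
    (fun x y => by ext v; exact map_add (ordHom v.1) _ _))

@[simp]
theorem ordT_apply (x : Additive (T.unit K)) (v : T) :
    ordT K T x v = ordHom v.1 (Additive.ofMul (x.toMul : Kˣ)) := rfl

/-- The inclusion of units in `T`-units. -/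
def unitsToT : Additive (𝓞 K)ˣ →ₗ[ℤ] Additive (T.unit K) :=
  AddMonoidHom.toIntLinearMap (MonoidHom.toAdditive
    ((Units.map (algebraMap (𝓞 K) K : 𝓞 K →* K)).codRestrict (T.unit K)
      (fun u => mem_unit_iff.2 fun v _ => ordHom_unit v u)))

theorem unitsToT_apply (u : (𝓞 K)ˣ) :
    ((unitsToT K T (Additive.ofMul u)).toMul : Kˣ) = Units.map (algebraMap (𝓞 K) K : 𝓞 K →* K) u :=
  rfl

theorem unitsToT_injective : Function.Injective (unitsToT K T) := by
  intro a b h
  have h1 : ((unitsToT K T a).toMul : Kˣ) = ((unitsToT K T b).toMul : Kˣ) := by rw [h]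
  have h2 : (Units.map (algebraMap (𝓞 K) K : 𝓞 K →* K)) a.toMul =
    (Units.map (algebraMap (𝓞 K) K : 𝓞 K →* K)) b.toMul := h1
  have h3 : a.toMul = b.toMul := by
    apply Units.ext
    apply IsFractionRing.injective (𝓞 K) K
    exact congrArg Units.val h2
  exact h3

theorem range_unitsToT : LinearMap.range (unitsToT K T) = LinearMap.ker (ordT K T) := by
  ext x
  rw [LinearMap.mem_range, LinearMap.mem_ker]
  constructor
  · rintro ⟨u, rfl⟩
    ext v
    exact ordHom_unit v.1 u.toMul
  · intro h
    have h' : ∀ v : HeightOneSpectrum (𝓞 K), ordHom v (Additive.ofMul (x.toMul : Kˣ)) = 0 := by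
      intro v
      by_cases hv : v ∈ T
      · exact congrFun h ⟨v, hv⟩
      · exact mem_unit_iff.1 x.toMul.2 v hv
    obtain ⟨u, hu⟩ := exists_unit_of_forall_ordHom_eq_zero h'
    refine ⟨Additive.ofMul u, ?_⟩
    apply Additive.toMul.injective
    apply Subtype.ext
    exact hu

/-- Some positive power of every prime ideal is principal. -/
theorem exists_pow_principal (v : HeightOneSpectrum (𝓞 K)) :
    ∃ n : ℕ, 0 < n ∧ ∃ x : Kˣ, divHom (𝓞 K) K (Additive.ofMul x) = Finsupp.single v (n : ℤ) := by
  classical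
  refine ⟨Fintype.card (ClassGroup (𝓞 K)), Fintype.card_pos, ?_⟩
  have h : classOf (R := 𝓞 K) K (Finsupp.single v (Fintype.card (ClassGroup (𝓞 K)) : ℤ)) = 0 := by
    have h1 : (Finsupp.single v (Fintype.card (ClassGroup (𝓞 K)) : ℤ) :
        HeightOneSpectrum (𝓞 K) →₀ ℤ) = Fintype.card (ClassGroup (𝓞 K)) • Finsupp.single v 1 := by
      rw [Finsupp.smul_single]; simp
    rw [h1, map_nsmul]
    exact congrArg Additive.ofMul (pow_card_eq_one (G := ClassGroup (𝓞 K))
      (x := (classOf (R := 𝓞 K) K (Finsupp.single v 1)).toMul))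
  have h2 : Finsupp.single v (Fintype.card (ClassGroup (𝓞 K)) : ℤ) ∈ (divHom (𝓞 K) K).range := by
    rw [← ker_classOf]; exact h
  obtain ⟨x, hx⟩ := h2
  exact ⟨x.toMul, hx⟩

theorem isTorsion_quotient_range_ordT [Finite T] :
    Module.IsTorsion ℤ ((T → ℤ) ⧸ LinearMap.range (ordT K T)) := by
  classical
  have := Fintype.ofFinite T
  have hmem : ∀ f : T → ℤ, Submodule.mkQ (LinearMap.range (ordT K T)) f ∈
      Submodule.torsion ℤ ((T → ℤ) ⧸ LinearMap.range (ordT K T)) := by
    intro f
    have hf : f = ∑ v : T, f v • Pi.single v (1 : ℤ) := by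
      ext w
      simp [Finset.sum_apply, Pi.single_apply]
    rw [hf, map_sum]
    refine Submodule.sum_mem _ fun v _ => ?_
    rw [map_smul]
    refine Submodule.smul_mem _ _ ?_
    obtain ⟨n, hn, x, hx⟩ := exists_pow_principal K v.1
    rw [Submodule.mem_torsion_iff]
    refine ⟨⟨(n : ℤ), mem_nonZeroDivisors_of_ne_zero (by exact_mod_cast hn.ne')⟩, ?_⟩
    rw [Submonoid.mk_smul, ← map_smul, Submodule.mkQ_apply, Submodule.Quotient.mk_eq_zero]
    have hxT : x ∈ T.unit K := by
      rw [mem_unit_iff]
      intro w hw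
      rw [← divHom_apply, hx, Finsupp.single_apply, if_neg]
      rintro rfl
      exact hw v.2
    refine ⟨Additive.ofMul ⟨x, hxT⟩, ?_⟩
    ext w
    rw [ordT_apply]
    change ordHom w.1 (Additive.ofMul x) = _
    rw [← divHom_apply, hx, Finsupp.single_apply]
    simp only [Pi.smul_apply, Pi.single_apply, smul_eq_mul, mul_ite, mul_one, mul_zero]
    congr 1
    rw [eq_iff_iff, Subtype.ext_iff]
    exact eq_comm
  intro y
  obtain ⟨f, rfl⟩ := Submodule.mkQ_surjective _ y
  exact (Submodule.mem_torsion_iff _).1 (hmem f)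

instance instModuleFiniteTUnit [Finite T] : Module.Finite ℤ (Additive (T.unit K)) := by
  rw [Module.finite_def]
  refine Submodule.fg_of_fg_map_of_fg_inf_ker (ordT K T) (IsNoetherian.noetherian _) ?_
  rw [inf_of_le_right le_top, ← range_unitsToT, LinearMap.range_eq_map]
  exact (Module.Finite.fg_top (R := ℤ) (M := Additive (𝓞 K)ˣ)).map (unitsToT K T)

theorem finrank_additive_unit [Finite T] :
    Module.finrank ℤ (Additive (T.unit K)) = NumberField.Units.rank K + Nat.card T := by
  classical
  have := Fintype.ofFinite T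
  have h1 := Submodule.finrank_quotient_add_finrank (LinearMap.ker (ordT K T))
  have h2 := Submodule.finrank_quotient_add_finrank (LinearMap.range (ordT K T))
  have h3 := (LinearMap.quotKerEquivRange (ordT K T)).finrank_eq
  have h4 : Module.finrank ℤ (LinearMap.ker (ordT K T)) = NumberField.Units.rank K := by
    rw [← NumberField.Units.finrank_eq K, ← range_unitsToT]
    exact (LinearEquiv.ofInjective _ (unitsToT_injective K T)).finrank_eq.symm
  have h5 := (isTorsion_quotient_range_ordT K T).finrank_eq_zero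
  rw [h5, zero_add, Module.finrank_fintype_fun_eq_card] at h2
  rw [← h1, h3, h2, h4, Nat.card_eq_fintype_card, add_comm]

/-- `[E_T : E_T^n] = n ^ (rank) * |μ_n(K)|`. -/
theorem index_range_pow_unit [Finite T] {n : ℕ} (hn : n ≠ 0) :
    (powMonoidHom n : T.unit K →* T.unit K).range.index =
      n ^ (NumberField.Units.rank K + Nat.card T) *
        Nat.card (powMonoidHom n : T.unit K →* T.unit K).ker := by
  rw [← finrank_additive_unit]
  exact index_range_nsmul_eq (Additive (T.unit K)) hn

/-- The `n`-torsion of the `T`-units is `μ_n(K)`. -/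
theorem card_ker_pow_unit {n : ℕ} [NeZero n] {ζ : K} (hζ : IsPrimitiveRoot ζ n) :
    Nat.card (powMonoidHom n : T.unit K →* T.unit K).ker = n := by
  refine Eq.trans ?_ hζ.card_rootsOfUnity
  refine Nat.card_congr ⟨fun x => ⟨x.1.1, ?_⟩, fun x => ⟨⟨x.1, ?_⟩, ?_⟩, fun x => rfl, fun x => rfl⟩
  · have := x.2
    rw [MonoidHom.mem_ker] at this
    rw [mem_rootsOfUnity]
    exact congrArg Subtype.val this
  · rw [mem_unit_iff]
    intro v _
    have h1 : n • ordHom v (Additive.ofMul (x : Kˣ)) = 0 := by
      rw [← map_nsmul, ← ofMul_pow, (mem_rootsOfUnity n (x : Kˣ)).1 x.2, ofMul_one, map_zero]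
    rcases smul_eq_zero.1 h1 with h | h
    · exact absurd h (NeZero.ne n)
    · exact h
  · rw [MonoidHom.mem_ker]
    exact Subtype.ext ((mem_rootsOfUnity n (x : Kˣ)).1 x.2)

theorem rank_add_one : NumberField.Units.rank K + 1 = Fintype.card (InfinitePlace K) := by
  rw [NumberField.Units.rank]
  exact Nat.succ_pred_eq_of_pos Fintype.card_pos

/-- If `ζ_n ∈ K`, then `[E_T : E_T^n] = n ^ (#S_∞ + #T)`. -/
theorem index_range_pow_unit_of_primitiveRoot [Finite T] {n : ℕ} [NeZero n] {ζ : K}
    (hζ : IsPrimitiveRoot ζ n) :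
    (powMonoidHom n : T.unit K →* T.unit K).range.index =
      n ^ (Fintype.card (InfinitePlace K) + Nat.card T) := by
  rw [index_range_pow_unit K T (NeZero.ne n), card_ker_pow_unit K T hζ, ← pow_succ,
    ← rank_add_one]
  congr 1
  ring

theorem map_pow_subgroupOf {G : Type*} [CommGroup G] (H : Subgroup G) (n : ℕ) :
    (H.map (powMonoidHom n : G →* G)).subgroupOf H = (powMonoidHom n : H →* H).range := by
  ext x
  rw [Subgroup.mem_subgroupOf, Subgroup.mem_map, MonoidHom.mem_range]
  constructor
  · rintro ⟨y, hy, hyx⟩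
    exact ⟨⟨y, hy⟩, Subtype.ext hyx⟩
  · rintro ⟨y, hyx⟩
    exact ⟨y, y.2, congrArg Subtype.val hyx⟩

/-- `(TU)`: if `ζ_n ∈ K`, then `[E_T : E_T^n] = n ^ (rank K + #T + 1)`. -/
theorem relIndex_map_pow_unit (hT : T.Finite) {n : ℕ} [NeZero n] {ζ : K}
    (hζ : IsPrimitiveRoot ζ n) :
    ((T.unit K).map (powMonoidHom n : Kˣ →* Kˣ)).relIndex (T.unit K) =
      n ^ (NumberField.Units.rank K + T.ncard + 1) := by
  have : Finite T := hT
  rw [Subgroup.relIndex, map_pow_subgroupOf, index_range_pow_unit_of_primitiveRoot K T hζ,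
    ← rank_add_one, Nat.card_coe_set_eq]
  congr 1
  ring

end NumberField

end

end Fermat.Agent.H47
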