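import Mathlib

/-!
# Completion-free local conditions for number fields

Definitions used for the second inequality / Hasse norm theorem in T-unit form.
-/

set_option autoImplicit false

noncomputable section

open IsDedekindDomain NumberField WithZero

namespace Fermat.Agent.H82

variable {K : Type*} [Field K] [NumberField K]

/-- The finite places of `L` above the finite place `v` of `K`. -/
def above (L : Type*) [Field L] [NumberField L] [Algebra K L]
    (v : HeightOneSpectrum (𝓞 K)) : Set (HeightOneSpectrum (𝓞 L)) :=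
  {w | w.asIdeal.under (𝓞 K) = v.asIdeal}

/-- The finite places of `L` above a set `T` of finite places of `K`. -/
def aboveSet (L : Type*) [Field L] [NumberField L] [Algebra K L]
    (T : Set (HeightOneSpectrum (𝓞 K))) : Set (HeightOneSpectrum (𝓞 L)) :=
  {w | ∃ v ∈ T, w ∈ above L v}

/-- `v` has exactly one place of `L` above it. -/
def NonSplit (L : Type*) [Field L] [NumberField L] [Algebra K L]
    (v : HeightOneSpectrum (𝓞 K)) : Prop :=
  (above L v).ncard = 1

/-- `{x ∈ Kˣ : v(x) = 1, v(x - 1) ≤ exp (-m)}`: the congruence subgroups at `v`. -/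
def congr (v : HeightOneSpectrum (𝓞 K)) (m : ℕ) : Subgroup Kˣ where
  carrier := {x | v.valuation K (x : K) = 1 ∧ v.valuation K ((x : K) - 1) ≤ exp (-(m : ℤ))}
  mul_mem' := by
    rintro x y ⟨hx1, hx2⟩ ⟨hy1, hy2⟩
    refine ⟨by simp [hx1, hy1], ?_⟩
    have : ((x * y : Kˣ) : K) - 1 = (x : K) * ((y : K) - 1) + ((x : K) - 1) := by
      push_cast; ring
    rw [this]
    refine (Valuation.map_add _ _ _).trans (max_le ?_ hx2)
    rw [map_mul, hx1, one_mul]
    exact hy2
  one_mem' := by simp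
  inv_mem' := by
    rintro x ⟨hx1, hx2⟩
    refine ⟨by simp [hx1], ?_⟩
    have : ((x⁻¹ : Kˣ) : K) - 1 = -((x⁻¹ : Kˣ) : K) * ((x : K) - 1) := by
      have := x.inv_mul
      linear_combination this
    rw [this, map_mul, Valuation.map_neg]
    simpa [hx1] using hx2

theorem mem_congr {v : HeightOneSpectrum (𝓞 K)} {m : ℕ} {x : Kˣ} :
    x ∈ congr v m ↔ v.valuation K (x : K) = 1 ∧ v.valuation K ((x : K) - 1) ≤ exp (-(m : ℤ)) :=
  Iff.rfl

theorem congr_anti (v : HeightOneSpectrum (𝓞 K)) {m n : ℕ} (h : m ≤ n) :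
    congr v n ≤ congr v m := by
  rintro x ⟨h1, h2⟩
  exact ⟨h1, h2.trans (by rw [exp_le_exp]; omega)⟩

theorem mem_congr_zero {v : HeightOneSpectrum (𝓞 K)} {x : Kˣ} :
    x ∈ congr v 0 ↔ v.valuation K (x : K) = 1 := by
  refine ⟨fun h => h.1, fun h => ⟨h, ?_⟩⟩
  refine (Valuation.map_sub _ _ _).trans ?_
  simp [h]

/-- A congruence modulo a positive power of `v` forces the element to be a unit at `v`. -/
theorem valuation_eq_one_of_sub_one_lt {v : HeightOneSpectrum (𝓞 K)} {x : K}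
    (h : v.valuation K (x - 1) < 1) : v.valuation K x = 1 := by
  have h1 : v.valuation K (1 : K) = 1 := map_one _
  have := Valuation.map_add_eq_of_lt_right (v.valuation K) (x := x - 1) (y := 1) (by rwa [h1])
  simpa [h1] using this

theorem mem_congr_of_pos {v : HeightOneSpectrum (𝓞 K)} {m : ℕ} (hm : 0 < m) {x : Kˣ} :
    x ∈ congr v m ↔ v.valuation K ((x : K) - 1) ≤ exp (-(m : ℤ)) := by
  refine ⟨fun h => h.2, fun h => ⟨valuation_eq_one_of_sub_one_lt (h.trans_lt ?_), h⟩⟩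
  rw [← exp_zero, exp_lt_exp]
  omega

/-- The group of global norms. -/
def normGroup (K : Type*) [Field K] (L : Type*) [Field L] [Algebra K L] : Subgroup Kˣ :=
  (Units.map (Algebra.norm K : L →* K)).range

/-- `Kˣᵖ · (1 + v^m)`; this is `Kˣ ∩ K_vˣᵖ` for `m` large. -/
def locPow (p : ℕ) (v : HeightOneSpectrum (𝓞 K)) (m : ℕ) : Subgroup Kˣ :=
  (powMonoidHom p : Kˣ →* Kˣ).range ⊔ congr v m

/-- `N(Lˣ) · (1 + v^m)`; this is `Kˣ ∩ N(L_vˣ)` for `m` large. -/
def locNorm (L : Type*) [Field L] [Algebra K L] (v : HeightOneSpectrum (𝓞 K)) (m : ℕ) :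
    Subgroup Kˣ :=
  normGroup K L ⊔ congr v m

/-- Every element of `Kˣ` is principal up to `T`: the `T`-class group vanishes. -/
def ClTrivial (T : Set (HeightOneSpectrum (𝓞 K))) : Prop :=
  ∀ v, v ∉ T → ∃ x : Kˣ, v.valuation K (x : K) = exp (-1) ∧
    ∀ v', v' ∉ T → v' ≠ v → v'.valuation K (x : K) = 1

theorem ClTrivial.mono {T T' : Set (HeightOneSpectrum (𝓞 K))} (h : T ⊆ T')
    (hT : ClTrivial T) : ClTrivial T' := by
  intro v hv
  obtain ⟨x, hx1, hx2⟩ := hT v (fun h' => hv (h h'))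
  exact ⟨x, hx1, fun v' hv' hne => hx2 v' (fun h' => hv' (h h')) hne⟩

theorem mem_locPow {p : ℕ} {v : HeightOneSpectrum (𝓞 K)} {m : ℕ} {x : Kˣ} :
    x ∈ locPow p v m ↔ ∃ z : Kˣ, x / z ^ p ∈ congr v m := by
  rw [locPow, Subgroup.mem_sup]
  constructor
  · rintro ⟨y, ⟨z, rfl⟩, c, hc, rfl⟩
    exact ⟨z, by simpa using hc⟩
  · rintro ⟨z, hz⟩
    exact ⟨z ^ p, ⟨z, rfl⟩, _, hz, by simp⟩

theorem mem_locNorm {L : Type*} [Field L] [Algebra K L] {v : HeightOneSpectrum (𝓞 K)} {m : ℕ}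
    {x : Kˣ} : x ∈ locNorm L v m ↔
      ∃ z : Lˣ, x / Units.map (Algebra.norm K : L →* K) z ∈ congr v m := by
  rw [locNorm, Subgroup.mem_sup]
  constructor
  · rintro ⟨y, ⟨z, rfl⟩, c, hc, rfl⟩
    exact ⟨z, by simpa using hc⟩
  · rintro ⟨z, hz⟩
    exact ⟨_, ⟨z, rfl⟩, _, hz, by simp⟩

theorem locPow_anti (p : ℕ) (v : HeightOneSpectrum (𝓞 K)) {m n : ℕ} (h : m ≤ n) :
    locPow p v n ≤ locPow p v m :=
  sup_le_sup_left (congr_anti v h) _

theorem locNorm_anti (L : Type*) [Field L] [Algebra K L] (v : HeightOneSpectrum (𝓞 K))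
    {m n : ℕ} (h : m ≤ n) : locNorm L v n ≤ locNorm L v m :=
  sup_le_sup_left (congr_anti v h) _

theorem pow_mem_normGroup (K : Type*) [Field K] (L : Type*) [Field L] [Algebra K L]
    (x : Kˣ) : x ^ Module.finrank K L ∈ normGroup K L := by
  refine ⟨Units.map (algebraMap K L : K →* L) x, ?_⟩
  ext
  simp [Algebra.norm_algebraMap]

theorem locPow_le_locNorm (L : Type*) [Field L] [Algebra K L] {p : ℕ}
    (h : Module.finrank K L = p) (v : HeightOneSpectrum (𝓞 K)) (m : ℕ) :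
    locPow p v m ≤ locNorm L v m := by
  refine sup_le_sup_right ?_ _
  rintro _ ⟨x, rfl⟩
  rw [powMonoidHom_apply, ← h]
  exact pow_mem_normGroup K L x

end Fermat.Agent.H82
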