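import Mathlib
import Fermat.Agent.H47TUnits
import Fermat.Agent.H82CftDefs

set_option autoImplicit false

namespace Fermat.Agent.H47

open IsDedekindDomain NumberField
open scoped WithZero nonZeroDivisors Pointwise

noncomputable section

section galois

variable {K L : Type*} [Field K] [Field L] [NumberField L] [Algebra K L]

/-- The image of a finite place under an automorphism. -/
def smulPlace (σ : L ≃ₐ[K] L) (w : HeightOneSpectrum (𝓞 L)) : HeightOneSpectrum (𝓞 L) where
  asIdeal := σ • w.asIdeal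
  isPrime := inferInstance
  ne_bot := by
    intro h
    apply w.ne_bot
    rw [← inv_smul_smul σ w.asIdeal, h]
    exact Ideal.map_bot

@[simp]
theorem smulPlace_asIdeal (σ : L ≃ₐ[K] L) (w : HeightOneSpectrum (𝓞 L)) :
    (smulPlace σ w).asIdeal = σ • w.asIdeal := rfl

theorem intValuation_smulPlace (σ : L ≃ₐ[K] L) (w : HeightOneSpectrum (𝓞 L)) (r : 𝓞 L) :
    (smulPlace σ w).intValuation (σ • r) = w.intValuation r := by
  have key : ∀ n : ℕ, (smulPlace σ w).intValuation (σ • r) ≤ WithZero.exp (-(n : ℤ)) ↔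
      w.intValuation r ≤ WithZero.exp (-(n : ℤ)) := by
    intro n
    rw [HeightOneSpectrum.intValuation_le_pow_iff_mem, HeightOneSpectrum.intValuation_le_pow_iff_mem,
      smulPlace_asIdeal, ← smul_pow', Ideal.smul_mem_pointwise_smul_iff]
  by_cases hr : r = 0
  · subst hr; simp
  have hr' : σ • r ≠ 0 := by
    intro h
    apply hr
    rw [← inv_smul_smul σ r, h, smul_zero]
  apply le_antisymm
  · rw [w.intValuation_eq_exp_neg_multiplicity hr, key,
      w.intValuation_eq_exp_neg_multiplicity hr]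
  · rw [(smulPlace σ w).intValuation_eq_exp_neg_multiplicity hr', ← key,
      (smulPlace σ w).intValuation_eq_exp_neg_multiplicity hr']

theorem valuation_smulPlace (σ : L ≃ₐ[K] L) (w : HeightOneSpectrum (𝓞 L)) (x : L) :
    (smulPlace σ w).valuation L (σ x) = w.valuation L x := by
  obtain ⟨a, b, hb, rfl⟩ := IsFractionRing.div_surjective (A := 𝓞 L) x
  have h : ∀ a : 𝓞 L, σ (algebraMap (𝓞 L) L a) = algebraMap (𝓞 L) L (σ • a) := fun a => rfl
  rw [map_div₀, map_div₀, map_div₀, h, h, HeightOneSpectrum.valuation_of_algebraMap,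
    HeightOneSpectrum.valuation_of_algebraMap, HeightOneSpectrum.valuation_of_algebraMap,
    HeightOneSpectrum.valuation_of_algebraMap, intValuation_smulPlace, intValuation_smulPlace]

theorem ordHom_smulPlace (σ : L ≃ₐ[K] L) (w : HeightOneSpectrum (𝓞 L)) (x : Lˣ) :
    ordHom (smulPlace σ w) (Additive.ofMul (Units.map (σ : L →* L) x)) =
      ordHom w (Additive.ofMul x) := by
  have h := valuation_smulPlace σ w (x : L)
  rw [valuation_eq_exp_ordHom] at h
  have h2 := valuation_eq_exp_ordHom (smulPlace σ w) (Units.map (σ : L →* L) x)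
  have h3 : ((Units.map (σ : L →* L) x : Lˣ) : L) = σ x := rfl
  rw [h3, h, WithZero.exp_inj, neg_inj] at h2
  exact h2.symm

theorem smulPlace_mem_above [NumberField K] (σ : L ≃ₐ[K] L) {v : HeightOneSpectrum (𝓞 K)}
    {w : HeightOneSpectrum (𝓞 L)} (hw : w ∈ H82.above L v) : smulPlace σ w ∈ H82.above L v := by
  change (σ • w.asIdeal).under (𝓞 K) = v.asIdeal
  rw [← show w.asIdeal.under (𝓞 K) = v.asIdeal from hw]
  ext a
  rw [Ideal.mem_comap, Ideal.mem_comap, ← Ideal.smul_mem_pointwise_smul_iff (a := σ⁻¹),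
    inv_smul_smul]
  have : σ⁻¹ • (algebraMap (𝓞 K) (𝓞 L) a) = algebraMap (𝓞 K) (𝓞 L) a := by
    apply RingOfIntegers.coe_injective
    exact (σ⁻¹ : L ≃ₐ[K] L).commutes (a : K)
  rw [this]

theorem smulPlace_mem_aboveSet_iff [NumberField K] (σ : L ≃ₐ[K] L)
    {T : Set (HeightOneSpectrum (𝓞 K))}
    {w : HeightOneSpectrum (𝓞 L)} : smulPlace σ w ∈ H82.aboveSet L T ↔ w ∈ H82.aboveSet L T := by
  constructor
  · rintro ⟨v, hv, hw⟩
    refine ⟨v, hv, ?_⟩
    have := smulPlace_mem_above σ⁻¹ hw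
    convert this
    apply HeightOneSpectrum.ext
    rw [smulPlace_asIdeal, smulPlace_asIdeal, inv_smul_smul]
  · rintro ⟨v, hv, hw⟩
    exact ⟨v, hv, smulPlace_mem_above σ hw⟩

theorem exists_smulPlace_eq [NumberField K] [IsGalois K L] {v : HeightOneSpectrum (𝓞 K)}
    {w w' : HeightOneSpectrum (𝓞 L)} (hw : w ∈ H82.above L v) (hw' : w' ∈ H82.above L v) :
    ∃ σ : L ≃ₐ[K] L, smulPlace σ w = w' := by
  have h1 : w.asIdeal.LiesOver v.asIdeal := ⟨hw.symm⟩
  have h2 : w'.asIdeal.LiesOver v.asIdeal := ⟨hw'.symm⟩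
  obtain ⟨σ, hσ⟩ := Ideal.exists_smul_eq_of_isGaloisGroup v.asIdeal w.asIdeal w'.asIdeal
    (L ≃ₐ[K] L)
  exact ⟨σ, HeightOneSpectrum.ext hσ⟩

theorem ordHom_algebraMap [NumberField K] {v : HeightOneSpectrum (𝓞 K)}
    {w : HeightOneSpectrum (𝓞 L)} (hw : w ∈ H82.above L v) (x : Kˣ) :
    ordHom w (Additive.ofMul (Units.map (algebraMap K L : K →* L) x)) =
      v.asIdeal.ramificationIdx' w.asIdeal * ordHom v (Additive.ofMul x) := by
  have h1 : w.asIdeal.LiesOver v.asIdeal := ⟨hw.symm⟩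
  have h := HeightOneSpectrum.valuation_liesOver L v w (x : K)
  have h2 := valuation_eq_exp_ordHom w (Units.map (algebraMap K L : K →* L) x)
  have h3 : ((Units.map (algebraMap K L : K →* L) x : Lˣ) : L) = algebraMap K L x := rfl
  rw [h3, ← h, valuation_eq_exp_ordHom, ← WithZero.exp_nsmul, WithZero.exp_inj] at h2
  rw [nsmul_eq_mul] at h2
  linarith

/-- The place of `K` below a place of `L`. -/
def below (K : Type*) [Field K] [NumberField K] [Algebra K L] (w : HeightOneSpectrum (𝓞 L)) :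
    HeightOneSpectrum (𝓞 K) where
  asIdeal := w.asIdeal.under (𝓞 K)
  isPrime := inferInstance
  ne_bot := Ideal.under_ne_bot _ w.ne_bot

theorem mem_above_below [NumberField K] (w : HeightOneSpectrum (𝓞 L)) :
    w ∈ H82.above L (below K w) := rfl

theorem eq_below_of_mem_above [NumberField K] {v : HeightOneSpectrum (𝓞 K)}
    {w : HeightOneSpectrum (𝓞 L)} (hw : w ∈ H82.above L v) : v = below K w :=
  HeightOneSpectrum.ext hw.symm

theorem above_nonempty [NumberField K] (v : HeightOneSpectrum (𝓞 K)) :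
    (H82.above L v).Nonempty := by
  have := v.isMaximal
  obtain ⟨P, hP, hPv⟩ := Ideal.exists_ideal_over_maximal_of_isIntegral (S := 𝓞 L) v.asIdeal (by
    rw [(RingHom.injective_iff_ker_eq_bot _).1 (FaithfulSMul.algebraMap_injective (𝓞 K) (𝓞 L))]
    exact bot_le)
  refine ⟨⟨P, hP.isPrime, ?_⟩, hPv⟩
  rintro rfl
  apply v.ne_bot
  rw [← hPv]
  exact Ideal.comap_bot_of_injective _ (FaithfulSMul.algebraMap_injective (𝓞 K) (𝓞 L))

/-- If the `T`-class group vanishes, every divisor is principal away from `T`. -/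
theorem exists_ordHom_eq [NumberField K] {T : Set (HeightOneSpectrum (𝓞 K))}
    (hT : H82.ClTrivial T) (D : HeightOneSpectrum (𝓞 K) →₀ ℤ) :
    ∃ x : Kˣ, ∀ v ∉ T, ordHom v (Additive.ofMul x) = D v := by
  classical
  induction D using Finsupp.induction with
  | zero => exact ⟨1, fun v _ => by simp⟩
  | single_add u n D _ _ ih =>
    obtain ⟨x, hx⟩ := ih
    by_cases hu : u ∈ T
    · refine ⟨x, fun v hv => ?_⟩
      rw [hx v hv, Finsupp.add_apply, Finsupp.single_apply, if_neg, zero_add]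
      rintro rfl
      exact hv hu
    · obtain ⟨z, hz1, hz2⟩ := hT u hu
      refine ⟨z ^ n * x, fun v hv => ?_⟩
      rw [ofMul_mul, map_add, ofMul_zpow, map_zsmul, hx v hv, Finsupp.add_apply,
        Finsupp.single_apply]
      split_ifs with h
      · subst h
        rw [valuation_eq_exp_ordHom, WithZero.exp_inj, neg_inj] at hz1
        rw [hz1, smul_eq_mul, mul_one]
      · have := (ordHom_eq_zero_iff v z).2 (hz2 v hv (Ne.symm h))
        rw [this, smul_zero]

/-- Key step for `H¹(G, E_{L,T}) = 0`: a nonzero element of `L` whose divisor away from `T` is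
Galois stable is an element of `K` times a `T`-unit, if `L/K` is unramified outside `T` and the
`T`-class group of `K` vanishes. -/
theorem exists_div_mem_unit [NumberField K] [IsGalois K L] {T : Set (HeightOneSpectrum (𝓞 K))}
    (hT : H82.ClTrivial T)
    (hunr : ∀ v ∉ T, ∀ w ∈ H82.above L v, v.asIdeal.ramificationIdx' w.asIdeal = 1) (y : Lˣ)
    (hy : ∀ σ : L ≃ₐ[K] L, Units.map (σ : L →* L) y / y ∈ (H82.aboveSet L T).unit L) :
    ∃ x : Kˣ, y / Units.map (algebraMap K L : K →* L) x ∈ (H82.aboveSet L T).unit L := by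
  classical
  have hconst : ∀ v ∉ T, ∀ w ∈ H82.above L v, ∀ w' ∈ H82.above L v,
      ordHom w' (Additive.ofMul y) = ordHom w (Additive.ofMul y) := by
    intro v hv w hw w' hw'
    obtain ⟨σ, rfl⟩ := exists_smulPlace_eq hw hw'
    have h1 := mem_unit_iff.1 (hy σ) (smulPlace σ w) (by
      rintro ⟨v', hv', hw''⟩
      apply hv
      rwa [eq_below_of_mem_above hw', ← eq_below_of_mem_above hw''])
    rw [ofMul_div, map_sub, ordHom_smulPlace, sub_eq_zero] at h1
    exact h1.symm
  choose c hc using fun v : HeightOneSpectrum (𝓞 K) => above_nonempty (L := L) v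
  have hcinj : Function.Injective c := by
    intro v v' h
    rw [eq_below_of_mem_above (hc v), eq_below_of_mem_above (hc v'), h]
  let D : HeightOneSpectrum (𝓞 K) →₀ ℤ :=
    Finsupp.ofSupportFinite (fun v => ordHom (c v) (Additive.ofMul y))
      (Set.Finite.preimage hcinj.injOn (finite_ordHom_ne_zero (Additive.ofMul y)))
  obtain ⟨x, hx⟩ := exists_ordHom_eq hT D
  refine ⟨x, mem_unit_iff.2 fun w hw => ?_⟩
  have hv : below K w ∉ T := fun h => hw ⟨_, h, mem_above_below w⟩
  rw [ofMul_div, map_sub, ordHom_algebraMap (mem_above_below w), hx _ hv,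
    hunr _ hv w (mem_above_below w), Nat.cast_one, one_mul, sub_eq_zero]
  exact hconst _ hv _ (hc _) _ (mem_above_below w)

/-- `T`-units of `L` are stable under Galois. -/
theorem map_mem_unit [NumberField K] (σ : L ≃ₐ[K] L) {T : Set (HeightOneSpectrum (𝓞 K))} {y : Lˣ}
    (hy : y ∈ (H82.aboveSet L T).unit L) :
    Units.map (σ : L →* L) y ∈ (H82.aboveSet L T).unit L := by
  rw [mem_unit_iff] at hy ⊢
  intro w hw
  have hw' : smulPlace σ⁻¹ w ∉ H82.aboveSet L T := by
    rwa [smulPlace_mem_aboveSet_iff]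
  have h := ordHom_smulPlace σ (smulPlace σ⁻¹ w) y
  rw [hy _ hw'] at h
  convert h
  apply HeightOneSpectrum.ext
  rw [smulPlace_asIdeal, smulPlace_asIdeal, smul_inv_smul]

/-- `H¹(G, E_{L,T}) = 0`, cocycle form, if `L/K` is unramified outside `T` and the `T`-class group
of `K` vanishes. -/
theorem exists_unit_of_isMulCocycle₁ [NumberField K] [IsGalois K L]
    {T : Set (HeightOneSpectrum (𝓞 K))} (hT : H82.ClTrivial T)
    (hunr : ∀ v ∉ T, ∀ w ∈ H82.above L v, v.asIdeal.ramificationIdx' w.asIdeal = 1)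
    (f : (L ≃ₐ[K] L) → Lˣ) (hf : groupCohomology.IsMulCocycle₁ f)
    (hfT : ∀ σ, f σ ∈ (H82.aboveSet L T).unit L) :
    ∃ z ∈ (H82.aboveSet L T).unit L, ∀ σ : L ≃ₐ[K] L, Units.map (σ : L →* L) z / z = f σ := by
  have : FiniteDimensional K L := Module.Finite.of_restrictScalars_finite ℚ K L
  obtain ⟨y, hy⟩ := groupCohomology.isMulCoboundary₁_of_isMulCocycle₁_of_aut_to_units f hf
  have hy' : ∀ σ : L ≃ₐ[K] L, Units.map (σ : L →* L) y / y = f σ := fun σ => hy σ
  obtain ⟨x, hx⟩ := exists_div_mem_unit hT hunr y (fun σ => by rw [hy']; exact hfT σ)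
  refine ⟨_, hx, fun σ => ?_⟩
  have hσx : Units.map (σ : L →* L) (Units.map (algebraMap K L : K →* L) x) =
      Units.map (algebraMap K L : K →* L) x := by
    ext; exact σ.commutes (x : K)
  rw [map_div, hσx, div_div_div_cancel_right, hy']

/-- `H¹(G, E_{L,T}) = 0`, cyclic form (Hilbert 90 for `T`-units). -/
theorem hilbert90_unit {K L : Type} [Field K] [Field L] [NumberField L] [Algebra K L]
    [NumberField K] [IsGalois K L] [IsCyclic (L ≃ₐ[K] L)]
    {g : L ≃ₐ[K] L} (hg : ∀ x, x ∈ Subgroup.zpowers g)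
    {T : Set (HeightOneSpectrum (𝓞 K))} (hT : H82.ClTrivial T)
    (hunr : ∀ v ∉ T, ∀ w ∈ H82.above L v, v.asIdeal.ramificationIdx' w.asIdeal = 1)
    {u : Lˣ} (hu : u ∈ (H82.aboveSet L T).unit L) (hN : Algebra.norm K (u : L) = 1) :
    ∃ z ∈ (H82.aboveSet L T).unit L, Units.map (g : L →* L) z / z = u := by
  have : FiniteDimensional K L := Module.Finite.of_restrictScalars_finite ℚ K L
  obtain ⟨y, hy⟩ := groupCohomology.exists_div_of_norm_eq_one hg hN
  have hgy : Units.map (g : L →* L) y⁻¹ / y⁻¹ = u := by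
    ext
    rw [← hy]
    simp [div_eq_mul_inv, mul_comm]
  have key : ∀ σ : L ≃ₐ[K] L, Units.map (σ : L →* L) y⁻¹ / y⁻¹ ∈ (H82.aboveSet L T).unit L := by
    let H : Subgroup (L ≃ₐ[K] L) :=
      { carrier := {σ | Units.map (σ : L →* L) y⁻¹ / y⁻¹ ∈ (H82.aboveSet L T).unit L}
        one_mem' := by
          have : Units.map ((1 : L ≃ₐ[K] L) : L →* L) y⁻¹ = y⁻¹ := rfl
          rw [Set.mem_ofPred_eq, this, div_self']
          exact one_mem _
        mul_mem' := by
          intro σ τ hσ hτ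
          have h1 : Units.map ((σ * τ : L ≃ₐ[K] L) : L →* L) y⁻¹ =
            Units.map (σ : L →* L) (Units.map (τ : L →* L) y⁻¹) := rfl
          have h2 : Units.map ((σ * τ : L ≃ₐ[K] L) : L →* L) y⁻¹ / y⁻¹ =
            Units.map (σ : L →* L) (Units.map (τ : L →* L) y⁻¹ / y⁻¹) *
              (Units.map (σ : L →* L) y⁻¹ / y⁻¹) := by
            rw [h1, map_div, div_mul_div_cancel]
          rw [Set.mem_ofPred_eq, h2]
          exact mul_mem (map_mem_unit σ hτ) hσ
        inv_mem' := by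
          intro σ hσ
          have h1 : Units.map (σ⁻¹ : L ≃ₐ[K] L) (Units.map (σ : L →* L) y⁻¹) = y⁻¹ := by
            ext
            exact σ.symm_apply_apply _
          have h2 : Units.map ((σ⁻¹ : L ≃ₐ[K] L) : L →* L) y⁻¹ / y⁻¹ =
            (Units.map ((σ⁻¹ : L ≃ₐ[K] L) : L →* L) (Units.map (σ : L →* L) y⁻¹ / y⁻¹))⁻¹ := by
            rw [map_div, h1, inv_div]
          rw [Set.mem_ofPred_eq, h2]
          exact inv_mem (map_mem_unit σ⁻¹ hσ) }
    have hgH : g ∈ H := by
      change Units.map (g : L →* L) y⁻¹ / y⁻¹ ∈ (H82.aboveSet L T).unit L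
      rw [hgy]; exact hu
    intro σ
    exact (Subgroup.zpowers_le.2 hgH) (hg σ)
  obtain ⟨x, hx⟩ := exists_div_mem_unit hT hunr y⁻¹ key
  refine ⟨_, hx, ?_⟩
  have hσx : Units.map (g : L →* L) (Units.map (algebraMap K L : K →* L) x) =
      Units.map (algebraMap K L : K →* L) x := by
    ext; exact g.commutes (x : K)
  rw [map_div, hσx, div_div_div_cancel_right, hgy]

/-- `(E_{L,T})^G = E_{K,T}`. -/
theorem algebraMap_mem_unit_iff [NumberField K] {T : Set (HeightOneSpectrum (𝓞 K))} {x : Kˣ} :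
    Units.map (algebraMap K L : K →* L) x ∈ (H82.aboveSet L T).unit L ↔ x ∈ T.unit K := by
  rw [mem_unit_iff, mem_unit_iff]
  constructor
  · intro h v hv
    obtain ⟨w, hw⟩ := above_nonempty (L := L) v
    have h1 := h w (by
      rintro ⟨v', hv', hw''⟩
      apply hv
      rwa [eq_below_of_mem_above hw, ← eq_below_of_mem_above hw''])
    rw [ordHom_algebraMap hw, mul_eq_zero] at h1
    rcases h1 with h1 | h1
    · exfalso
      have h2 : w.asIdeal.LiesOver v.asIdeal := ⟨hw.symm⟩
      exact Ideal.IsDedekindDomain.ramificationIdx'_ne_zero_of_liesOver w.asIdeal v.ne_bot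
        (by exact_mod_cast h1)
    · exact h1
  · intro h w hw
    rw [ordHom_algebraMap (mem_above_below w), h _ (fun hv => hw ⟨_, hv, mem_above_below w⟩),
      mul_zero]

theorem exists_unit_of_fixed [NumberField K] [IsGalois K L]
    {T : Set (HeightOneSpectrum (𝓞 K))} {y : Lˣ} (hy : y ∈ (H82.aboveSet L T).unit L)
    (hfix : ∀ σ : L ≃ₐ[K] L, σ (y : L) = y) :
    ∃ x ∈ T.unit K, Units.map (algebraMap K L : K →* L) x = y := by
  have : FiniteDimensional K L := Module.Finite.of_restrictScalars_finite ℚ K L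
  have h0 : (y : L) ∈ Set.range (algebraMap K L) := by
    rw [IsGalois.mem_range_algebraMap_iff_fixed]
    exact hfix
  obtain ⟨x, hx⟩ := h0
  have hx0 : x ≠ 0 := by
    rintro rfl
    exact y.ne_zero (by rw [← hx, map_zero])
  have hxy : Units.map (algebraMap K L : K →* L) (Units.mk0 x hx0) = y := by
    ext; exact hx
  exact ⟨Units.mk0 x hx0, algebraMap_mem_unit_iff.1 (by rw [hxy]; exact hy), hxy⟩

end galois

section clTrivial

variable (K : Type*) [Field K] [NumberField K]

/-- There are arbitrarily large finite sets `T` with vanishing `T`-class group. -/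
theorem exists_clTrivial {T₁ : Set (HeightOneSpectrum (𝓞 K))} (hT₁ : T₁.Finite) :
    ∃ T : Set (HeightOneSpectrum (𝓞 K)), T₁ ⊆ T ∧ T.Finite ∧ H82.ClTrivial T := by
  classical
  choose D hD using classOf_surjective (R := 𝓞 K) K
  refine ⟨T₁ ∪ ⋃ c : Additive (ClassGroup (𝓞 K)), (D c).support, Set.subset_union_left,
    hT₁.union (Set.finite_iUnion fun c => (D c).support.finite_toSet), ?_⟩
  intro v hv
  have hv' : ∀ c, D c v = 0 := by
    intro c
    by_contra h
    exact hv (Or.inr (Set.mem_iUnion.2 ⟨c, Finsupp.mem_support_iff.2 h⟩))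
  have h0 : Finsupp.single v (1 : ℤ) - D (classOf K (Finsupp.single v 1)) ∈
      (divHom (𝓞 K) K).range := by
    rw [← ker_classOf, AddMonoidHom.mem_ker, map_sub, hD, sub_self]
  obtain ⟨x, hx⟩ := h0
  refine ⟨x.toMul, ?_, ?_⟩
  · rw [valuation_eq_exp_ordHom]
    have : ordHom v x = 1 := by
      rw [← divHom_apply, hx, Finsupp.sub_apply, hv', Finsupp.single_eq_same, sub_zero]
    rw [ofMul_toMul, this]
  · intro v' hv' hne
    have h1 : D (classOf K (Finsupp.single v 1)) v' = 0 := by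
      by_contra h
      exact hv' (Or.inr (Set.mem_iUnion.2 ⟨_, Finsupp.mem_support_iff.2 h⟩))
    rw [← ordHom_eq_zero_iff, ofMul_toMul, ← divHom_apply, hx, Finsupp.sub_apply, h1,
      Finsupp.single_apply, if_neg (Ne.symm hne), sub_zero]

end clTrivial

end

end Fermat.Agent.H47
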