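import Mathlib
import Fermat.Agent.H82CftDefs

/-!
# Counting primes above in a Galois extension of prime degree
-/

set_option autoImplicit false

open NumberField IsDedekindDomain Module

namespace Fermat.Agent.H65

variable {K L : Type*} [Field K] [NumberField K] [Field L] [NumberField L] [Algebra K L]

open Fermat.Agent.H82 (above aboveSet NonSplit)

omit [NumberField K] in
theorem image_above (v : HeightOneSpectrum (𝓞 K)) :
    HeightOneSpectrum.asIdeal '' (above L v) = v.asIdeal.primesOver (𝓞 L) := by
  ext P
  constructor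
  · rintro ⟨w, hw, rfl⟩
    exact ⟨w.isPrime, ⟨hw.symm⟩⟩
  · rintro ⟨hP, hP'⟩
    have hne : P ≠ ⊥ := Ideal.ne_bot_of_liesOver_of_ne_bot v.ne_bot P
    exact ⟨⟨P, hP, hne⟩, hP'.over.symm, rfl⟩

theorem ncard_above (v : HeightOneSpectrum (𝓞 K)) :
    (above L v).ncard = (v.asIdeal.primesOver (𝓞 L)).ncard := by
  rw [← image_above, Set.ncard_image_of_injective]
  exact fun a b h => HeightOneSpectrum.ext h

theorem ncard_above_eq_one_or [IsGalois K L] {p : ℕ} (hp : p.Prime) (hL : finrank K L = p)
    (v : HeightOneSpectrum (𝓞 K)) :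
    (above L v).ncard = 1 ∨ (above L v).ncard = p := by
  have h := Ideal.ncard_primesOver_mul_ramificationIdxIn_mul_inertiaDegIn v.asIdeal (𝓞 L) Gal(L/K)
  rw [IsGalois.card_aut_eq_finrank, hL] at h
  rw [ncard_above]
  exact (Nat.dvd_prime hp).1 (Dvd.intro _ h)

theorem finite_above (v : HeightOneSpectrum (𝓞 K)) : (above L v).Finite := by
  have h : (HeightOneSpectrum.asIdeal '' (above L v)).Finite := by
    rw [image_above]
    exact Algebra.QuasiFinite.finite_primesOver v.asIdeal
  exact Set.Finite.of_finite_image h (fun a _ b _ h => HeightOneSpectrum.ext h)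

omit [NumberField K] in
theorem above_disjoint {v v' : HeightOneSpectrum (𝓞 K)} (h : v ≠ v') :
    Disjoint (above L v) (above L v') := by
  rw [Set.disjoint_left]
  intro w hw hw'
  exact h (HeightOneSpectrum.ext (hw.symm.trans hw'))

theorem ncard_biUnion_above [IsGalois K L] {p : ℕ} (hp : p.Prime) (hL : finrank K L = p)
    (T : Set (HeightOneSpectrum (𝓞 K))) (hT : T.Finite) :
    (⋃ v ∈ T, above L v).ncard + (p - 1) * {v ∈ T | (above L v).ncard = 1}.ncard
      = p * T.ncard := by
  classical
  induction T, hT using Set.Finite.induction_on with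
  | empty => simp
  | @insert v T hv hT ih =>
    have hfin : (⋃ v ∈ T, above L v).Finite := hT.biUnion (fun v _ => finite_above v)
    have hdis : Disjoint (above L v) (⋃ v ∈ T, above L v) := by
      rw [Set.disjoint_iUnion₂_right]
      intro v' hv'
      exact above_disjoint (fun h => hv (h ▸ hv'))
    rw [Set.biUnion_insert, Set.ncard_union_eq hdis (finite_above v) hfin,
      Set.ncard_insert_of_notMem hv hT]
    have hp1 := hp.one_lt
    obtain ⟨k, rfl⟩ : ∃ k, p = k + 1 := ⟨p - 1, by omega⟩
    rcases ncard_above_eq_one_or (L := L) hp hL v with h1 | h1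
    · have : {v' ∈ insert v T | (above L v').ncard = 1}
          = insert v {v' ∈ T | (above L v').ncard = 1} := by
        ext v'
        simp only [Set.mem_insert_iff, Set.mem_ofPred_eq]
        constructor
        · rintro ⟨h | h, h'⟩
          · exact Or.inl h
          · exact Or.inr ⟨h, h'⟩
        · rintro (h | h)
          · exact ⟨Or.inl h, h ▸ h1⟩
          · exact ⟨Or.inr h.1, h.2⟩
      rw [this, Set.ncard_insert_of_notMem (fun h => hv h.1) (hT.subset (Set.sep_subset _ _)), h1]
      simp only [Nat.add_sub_cancel] at ih ⊢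
      rw [mul_add, mul_add, ← ih]
      ring
    · have : {v' ∈ insert v T | (above L v').ncard = 1}
          = {v' ∈ T | (above L v').ncard = 1} := by
        ext v'
        simp only [Set.mem_insert_iff, Set.mem_ofPred_eq]
        constructor
        · rintro ⟨h | h, h'⟩
          · rw [h, h1] at h'; omega
          · exact ⟨h, h'⟩
        · rintro h
          exact ⟨Or.inr h.1, h.2⟩
      rw [this, h1]
      simp only [Nat.add_sub_cancel] at ih ⊢
      rw [mul_add, ← ih]
      ring

theorem aboveSet_eq (T : Set (HeightOneSpectrum (𝓞 K))) :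
    aboveSet L T = ⋃ v ∈ T, above L v := by
  ext w
  simp [aboveSet]

theorem finite_aboveSet {T : Set (HeightOneSpectrum (𝓞 K))} (hT : T.Finite) :
    (aboveSet L T).Finite := by
  rw [aboveSet_eq]
  exact hT.biUnion (fun v _ => finite_above v)

/-- `#T_L + (p - 1) * #{nonsplit v ∈ T} = p * #T`. -/
theorem ncard_aboveSet [IsGalois K L] {p : ℕ} (hp : p.Prime) (hL : finrank K L = p)
    {T : Set (HeightOneSpectrum (𝓞 K))} (hT : T.Finite) :
    (aboveSet L T).ncard + (p - 1) * {v ∈ T | NonSplit L v}.ncard = p * T.ncard := by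
  rw [aboveSet_eq]
  exact ncard_biUnion_above hp hL T hT

end Fermat.Agent.H65
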