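import Mathlib

/-!
# Herbrand quotients in terms of relative indices

For an additive commutative group `M` with endomorphisms `f g` such that `f ∘ g = 0 = g ∘ f`
we put `h0 f g = [ker f : im g]` (as a natural number, `0` meaning infinite).
The Herbrand quotient is `h0 f g / h0 g f`.
-/

set_option autoImplicit false

namespace Fermat.Agent.H54

open AddSubgroup

section Basic

variable {M A C : Type*} [AddCommGroup M] [AddCommGroup A] [AddCommGroup C]

/-- `[ker f : im g]`, with `0` meaning infinite. -/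
noncomputable def h0 (f g : M →+ M) : ℕ := g.range.relIndex f.ker

/-- The auxiliary index `[g M ∩ B : g B]` for `B = i(A)`. -/
noncomputable def cIdx (i : A →+ M) (g : M →+ M) : ℕ :=
  (i.range.map g).relIndex (g.range ⊓ i.range)

theorem relIndex_sup_inf_eq (P Q R : AddSubgroup M) (h : Q ≤ P) :
    (Q ⊔ (P ⊓ R)).relIndex P = (Q ⊔ R).relIndex (P ⊔ R) := by
  have h1 : Q ⊔ (P ⊓ R) = P ⊓ (Q ⊔ R) := by
    rw [inf_comm P R, inf_comm P, sup_inf_assoc_of_le R h]
  rw [h1, inf_relIndex_left]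
  have h2 : P ⊔ R = (Q ⊔ R) ⊔ P := by
    rw [sup_right_comm, sup_of_le_right h]
  rw [h2, relIndex_sup_left]

theorem relIndex_comap_of_surjective (j : M →+ C) (hj : Function.Surjective j)
    (H K : AddSubgroup C) : (H.comap j).relIndex (K.comap j) = H.relIndex K := by
  rw [relIndex_comap, map_comap_eq_self_of_surjective hj]

/-- the key identities behind the multiplicativity of the Herbrand quotient -/
theorem exists_h0_eq (i : A →+ M) (j : M →+ C) (hi : Function.Injective i)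
    (hj : Function.Surjective j) (hex : j.ker = i.range)
    (f g : M →+ M) (fA gA : A →+ A) (fC gC : C →+ C)
    (hfg : ∀ x, f (g x) = 0)
    (hfA : ∀ a, i (fA a) = f (i a)) (hgA : ∀ a, i (gA a) = g (i a))
    (hfC : ∀ m, j (f m) = fC (j m)) (hgC : ∀ m, j (g m) = gC (j m)) :
    ∃ a b : ℕ, h0 f g = b * a ∧ h0 fA gA = cIdx i g * b ∧ h0 fC gC = a * cIdx i f := by
  have hgf : g.range ≤ f.ker := by
    rintro _ ⟨x, rfl⟩
    exact hfg x
  -- `A` side
  have hA : h0 fA gA = (i.range.map g).relIndex (f.ker ⊓ i.range) := by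
    rw [h0, ← relIndex_map_map_of_injective gA.range fA.ker hi]
    congr 1
    · ext x
      simp only [mem_map, AddMonoidHom.mem_range]
      constructor
      · rintro ⟨_, ⟨a, rfl⟩, rfl⟩
        exact ⟨i a, ⟨a, rfl⟩, (hgA a).symm⟩
      · rintro ⟨_, ⟨a, rfl⟩, rfl⟩
        exact ⟨gA a, ⟨a, rfl⟩, hgA a⟩
    · ext x
      simp only [mem_map, mem_inf, AddMonoidHom.mem_range, AddMonoidHom.mem_ker]
      constructor
      · rintro ⟨a, ha, rfl⟩
        exact ⟨by rw [← hfA, ha, map_zero], a, rfl⟩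
      · rintro ⟨hx, a, rfl⟩
        exact ⟨a, hi (by rw [hfA, hx, map_zero]), rfl⟩
  -- `C` side
  have hC : h0 fC gC = (g.range ⊔ i.range).relIndex (i.range.comap f) := by
    rw [h0, ← relIndex_comap_of_surjective j hj]
    congr 1
    · rw [← hex]
      have : gC.range = g.range.map j := by
        ext x
        simp only [mem_map, AddMonoidHom.mem_range]
        constructor
        · rintro ⟨c, rfl⟩
          obtain ⟨m, rfl⟩ := hj c
          exact ⟨g m, ⟨m, rfl⟩, hgC m⟩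
        · rintro ⟨_, ⟨m, rfl⟩, rfl⟩
          exact ⟨j m, (hgC m).symm⟩
      rw [this, comap_map_eq]
    · rw [← hex]
      ext x
      simp only [mem_comap, AddMonoidHom.mem_ker, hfC]
  have hfle : f.ker ⊔ i.range ≤ i.range.comap f := by
    apply sup_le
    · intro x hx
      rw [AddMonoidHom.mem_ker] at hx
      rw [mem_comap, hx]
      exact zero_mem _
    · rintro _ ⟨a, rfl⟩
      exact ⟨fA a, hfA a⟩
  -- `[f⁻¹B : ker f + B] = [fM ∩ B : fB]`
  have h1 : (f.ker ⊔ i.range).relIndex (i.range.comap f) = cIdx i f := by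
    rw [cIdx]
    have e1 : f.ker ⊔ i.range = (i.range.map f).comap f := by
      rw [comap_map_eq, sup_comm]
    rw [e1, relIndex_comap, map_comap_eq]
  -- chain
  have h2 : h0 fC gC = (g.range ⊔ i.range).relIndex (f.ker ⊔ i.range) * cIdx i f := by
    rw [hC, ← h1, relIndex_mul_relIndex _ _ _ (sup_le_sup_right hgf _) hfle]
  have h3 : (g.range ⊔ i.range).relIndex (f.ker ⊔ i.range)
      = (g.range ⊔ (f.ker ⊓ i.range)).relIndex f.ker :=
    (relIndex_sup_inf_eq _ _ _ hgf).symm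
  have h4 : g.range.relIndex (g.range ⊔ (f.ker ⊓ i.range)) * 
      (g.range ⊔ (f.ker ⊓ i.range)).relIndex f.ker = h0 f g :=
    relIndex_mul_relIndex _ _ _ le_sup_left (sup_le hgf inf_le_left)
  have h5 : g.range.relIndex (g.range ⊔ (f.ker ⊓ i.range))
      = (g.range ⊓ i.range).relIndex (f.ker ⊓ i.range) := by
    rw [relIndex_sup_left, ← inf_relIndex_right, ← inf_assoc, inf_of_le_left hgf]
  have h6 : cIdx i g * (g.range ⊓ i.range).relIndex (f.ker ⊓ i.range) = h0 fA gA := by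
    rw [hA, cIdx]
    refine relIndex_mul_relIndex _ _ _ ?_ (inf_le_inf_right _ hgf)
    rintro _ ⟨_, ⟨a, rfl⟩, rfl⟩
    exact ⟨⟨i a, rfl⟩, ⟨gA a, hgA a⟩⟩
  exact ⟨_, _, h4.symm.trans (by rw [h5]), h6.symm, by rw [h2, h3]⟩

/-- multiplicativity -/
theorem h0_mul_h0 (i : A →+ M) (j : M →+ C) (hi : Function.Injective i)
    (hj : Function.Surjective j) (hex : j.ker = i.range)
    (f g : M →+ M) (fA gA : A →+ A) (fC gC : C →+ C)
    (hfg : ∀ x, f (g x) = 0)
    (hfA : ∀ a, i (fA a) = f (i a)) (hgA : ∀ a, i (gA a) = g (i a))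
    (hfC : ∀ m, j (f m) = fC (j m)) (hgC : ∀ m, j (g m) = gC (j m)) :
    h0 fA gA * h0 fC gC = h0 f g * (cIdx i f * cIdx i g) := by
  obtain ⟨a, b, h1, h2, h3⟩ := exists_h0_eq i j hi hj hex f g fA gA fC gC hfg hfA hgA hfC hgC
  rw [h1, h2, h3]
  ring

/-- **Multiplicativity of the Herbrand quotient** in a short exact sequence
`0 → A → M → C → 0` of groups with operators `f g`, `fg = gf = 0`
(with `2`-out-of-`3` finiteness, recall that `0` means infinite). -/
theorem herbrand_mul (i : A →+ M) (j : M →+ C) (hi : Function.Injective i)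
    (hj : Function.Surjective j) (hex : j.ker = i.range)
    (f g : M →+ M) (fA gA : A →+ A) (fC gC : C →+ C)
    (hfg : ∀ x, f (g x) = 0) (hgf : ∀ x, g (f x) = 0)
    (hfA : ∀ a, i (fA a) = f (i a)) (hgA : ∀ a, i (gA a) = g (i a))
    (hfC : ∀ m, j (f m) = fC (j m)) (hgC : ∀ m, j (g m) = gC (j m)) :
    (h0 fA gA ≠ 0 → h0 gA fA ≠ 0 → h0 fC gC ≠ 0 → h0 gC fC ≠ 0 → h0 f g ≠ 0 ∧ h0 g f ≠ 0) ∧
    (h0 f g ≠ 0 → h0 g f ≠ 0 → h0 fC gC ≠ 0 → h0 gC fC ≠ 0 → h0 fA gA ≠ 0 ∧ h0 gA fA ≠ 0) ∧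
    (h0 f g ≠ 0 → h0 g f ≠ 0 → h0 fA gA ≠ 0 → h0 gA fA ≠ 0 → h0 fC gC ≠ 0 ∧ h0 gC fC ≠ 0) ∧
    (∃ c : ℕ, h0 fA gA * h0 fC gC = h0 f g * c ∧ h0 gA fA * h0 gC fC = h0 g f * c ∧
      (h0 fA gA * h0 fC gC ≠ 0 → h0 gA fA * h0 gC fC ≠ 0 → c ≠ 0)) := by
  obtain ⟨a, b, h1, h2, h3⟩ := exists_h0_eq i j hi hj hex f g fA gA fC gC hfg hfA hgA hfC hgC
  obtain ⟨a', b', h1', h2', h3'⟩ := exists_h0_eq i j hi hj hex g f gA fA gC fC hgf hgA hfA hgC hfC
  rw [h1, h2, h3, h1', h2', h3']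
  refine ⟨fun k1 k2 k3 k4 => ⟨?_, ?_⟩, fun k1 k2 k3 k4 => ⟨?_, ?_⟩, fun k1 k2 k3 k4 => ⟨?_, ?_⟩,
    cIdx i f * cIdx i g, by ring, by ring, ?_⟩ <;>
  simp only [ne_eq, mul_eq_zero, not_or] at * <;> tauto

/-- **Multiplicativity of the Herbrand quotient**, as an identity of natural numbers. -/
theorem herbrand_mul_eq (i : A →+ M) (j : M →+ C) (hi : Function.Injective i)
    (hj : Function.Surjective j) (hex : j.ker = i.range)
    (f g : M →+ M) (fA gA : A →+ A) (fC gC : C →+ C)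
    (hfg : ∀ x, f (g x) = 0) (hgf : ∀ x, g (f x) = 0)
    (hfA : ∀ a, i (fA a) = f (i a)) (hgA : ∀ a, i (gA a) = g (i a))
    (hfC : ∀ m, j (f m) = fC (j m)) (hgC : ∀ m, j (g m) = gC (j m))
    (k1 : h0 fA gA ≠ 0) (k2 : h0 gA fA ≠ 0) (k3 : h0 fC gC ≠ 0) (k4 : h0 gC fC ≠ 0) :
    h0 f g * h0 gA fA * h0 gC fC = h0 g f * h0 fA gA * h0 fC gC := by
  obtain ⟨-, -, -, c, h1, h2, h3⟩ :=
    herbrand_mul i j hi hj hex f g fA gA fC gC hfg hgf hfA hgA hfC hgC
  have hc := h3 (mul_ne_zero k1 k3) (mul_ne_zero k2 k4)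
  apply Nat.eq_of_mul_eq_mul_right (Nat.pos_of_ne_zero hc)
  calc _ = (h0 f g * c) * (h0 gA fA * h0 gC fC) := by ring
    _ = (h0 g f * c) * (h0 fA gA * h0 fC gC) := by rw [← h1, ← h2]; ring
    _ = _ := by ring

/-- `h0 f g * |im f| * |im g| = |M|` for finite `M`, hence the Herbrand quotient is `1`. -/
theorem h0_eq_of_finite [Finite M] (f g : M →+ M) (hfg : ∀ x, f (g x) = 0)
    (hgf : ∀ x, g (f x) = 0) : h0 f g = h0 g f := by
  have key : ∀ (f g : M →+ M), (∀ x, f (g x) = 0) →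
      h0 f g * Nat.card g.range * Nat.card f.range = Nat.card M := by
    intro f g h
    have hle : g.range ≤ f.ker := by
      rintro _ ⟨x, rfl⟩
      exact h x
    have e1 : Nat.card g.range * h0 f g = Nat.card f.ker := by
      have := relIndex_mul_relIndex (⊥ : AddSubgroup M) g.range f.ker bot_le hle
      rwa [relIndex_bot_left, relIndex_bot_left] at this
    have e2 : Nat.card f.ker * Nat.card f.range = Nat.card M := by
      rw [← AddSubgroup.index_ker f]
      exact AddSubgroup.card_mul_index f.ker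
    rw [mul_comm (h0 f g), e1, e2]
  have h1 := key f g hfg
  have h2 := key g f hgf
  have hf : 0 < Nat.card f.range := Nat.card_pos
  have hg : 0 < Nat.card g.range := Nat.card_pos
  have : h0 f g * (Nat.card g.range * Nat.card f.range)
      = h0 g f * (Nat.card g.range * Nat.card f.range) := by
    rw [← mul_assoc, h1, mul_comm (Nat.card g.range), ← mul_assoc, h2]
  exact Nat.eq_of_mul_eq_mul_right (Nat.mul_pos hg hf) this

end Basic

end Fermat.Agent.H54
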