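import Mathlib
import Fermat.Agent.H54Herbrand

set_option autoImplicit false

namespace Fermat.Agent.H54

open AddSubgroup Polynomial

section Poly

/-- In `ℤ[X]`: `(X-1)^(p-1) = Φ + p A` with `A` invertible modulo `Φ = 1 + X + ⋯ + X^(p-1)`. -/
theorem exists_poly_identity {p : ℕ} (hp : p.Prime) :
    ∃ A U E : ℤ[X], (X - 1) ^ (p - 1) = (∑ i ∈ Finset.range p, X ^ i) + (p : ℤ[X]) * A ∧
      A * U = 1 + (∑ i ∈ Finset.range p, X ^ i) * E := by
  have : Fact p.Prime := ⟨hp⟩
  set Φ : ℤ[X] := ∑ i ∈ Finset.range p, X ^ i with hΦ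
  have h1 : (X - 1 : ℤ[X]) ^ p = (X - 1) * (X - 1) ^ (p - 1) := by
    rw [← pow_succ', Nat.sub_add_cancel hp.one_le]
  have hgeom : (X - 1 : ℤ[X]) * Φ = X ^ p - 1 := by
    rw [hΦ, mul_geom_sum]
  -- mod p
  have hmod : ∃ A : ℤ[X], (X - 1) ^ (p - 1) = Φ + (p : ℤ[X]) * A := by
    have hz : ((X - 1 : ℤ[X]) ^ (p - 1) - Φ).map (Int.castRingHom (ZMod p)) = 0 := by
      have hX : (X - 1 : (ZMod p)[X]) ≠ 0 := by
        intro h
        have := congrArg (fun f => f.coeff 1) h
        simp [coeff_one] at this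
      apply mul_left_cancel₀ hX
      rw [mul_zero]
      have : (X - 1 : (ZMod p)[X]) = (X - 1 : ℤ[X]).map (Int.castRingHom (ZMod p)) := by simp
      rw [this, ← Polynomial.map_mul, mul_sub, ← h1, hgeom]
      simp [sub_pow_char]
    have hdvd : (C (p : ℤ)) ∣ ((X - 1 : ℤ[X]) ^ (p - 1) - Φ) := by
      rw [C_dvd_iff_dvd_coeff]
      intro i
      have := congrArg (fun f => f.coeff i) hz
      simp only [coeff_map, coeff_zero, eq_intCast] at this
      exact (ZMod.intCast_zmod_eq_zero_iff_dvd _ _).mp this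
    obtain ⟨A, hA⟩ := hdvd
    exact ⟨A, by rw [← sub_eq_iff_eq_add', hA]; simp⟩
  obtain ⟨A, hA⟩ := hmod
  have hA1 : A.eval 1 = -1 := by
    have := congrArg (fun f => f.eval 1) hA
    simp only [eval_pow, eval_sub, eval_X, eval_one, sub_self, eval_add, eval_mul, eval_natCast,
      hΦ, eval_finsetSum, one_pow, Finset.sum_const, Finset.card_range, nsmul_eq_mul,
      mul_one] at this
    rw [zero_pow (Nat.sub_ne_zero_of_lt hp.one_lt)] at this
    have hp0 : (p : ℤ) ≠ 0 := by exact_mod_cast hp.ne_zero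
    have h2 : (p : ℤ) * (A.eval 1 + 1) = 0 := by linarith
    rcases mul_eq_zero.mp h2 with h | h
    · exact absurd h hp0
    · linarith
  obtain ⟨A₁, hA₁⟩ : (X - 1 : ℤ[X]) ∣ A + 1 := by
    have : (X - C (1 : ℤ)) ∣ A + 1 := by
      rw [dvd_iff_isRoot, IsRoot.def, eval_add, hA1, eval_one]
      norm_num
    simpa using this
  refine ⟨A, -(∑ i ∈ Finset.range (p - 1), ((X - 1) * A₁) ^ i) + (p : ℤ[X]) * A₁ ^ (p - 1),
    -A₁ ^ (p - 1), hA, ?_⟩
  have hA' : A = (X - 1) * A₁ - 1 := by rw [← hA₁]; ring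
  have hg := mul_geom_sum ((X - 1) * A₁) (p - 1)
  have : A * (∑ i ∈ Finset.range (p - 1), ((X - 1) * A₁) ^ i) = ((X - 1) * A₁) ^ (p - 1) - 1 := by
    rw [← hg, ← hA']
  rw [mul_add, mul_neg, this, mul_pow, hA]
  ring

end Poly

section QIndex

variable {M : Type*} [AddCommGroup M]

/-- `[M : φψM] |ker φ| |ker ψ| = [M : φM] [M : ψM] |ker φψ|`. -/
theorem index_comp_mul (φ ψ : M →+ M) :
    (φ.comp ψ).range.index * Nat.card φ.ker * Nat.card ψ.ker
      = φ.range.index * ψ.range.index * Nat.card (φ.comp ψ).ker := by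
  -- `a = [M : ψM + ker φ]`, `b = [ker φ : ker φ ∩ ψM]`, `c = |ker φ ∩ ψM|`
  have ha : (φ.comp ψ).range.index = (ψ.range ⊔ φ.ker).index * φ.range.index := by
    have h1 : (φ.comp ψ).range = ψ.range.map φ := by
      rw [AddMonoidHom.range_eq_map, ← AddSubgroup.map_map, ← AddMonoidHom.range_eq_map]
    rw [h1, AddSubgroup.index_map]
  have hb : ψ.range.index = ψ.range.relIndex φ.ker * (ψ.range ⊔ φ.ker).index := by
    rw [← relIndex_sup_left, relIndex_mul_index]
    exact le_sup_left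
  have hc : Nat.card φ.ker = Nat.card ↥(ψ.range ⊓ φ.ker) * ψ.range.relIndex φ.ker := by
    have := relIndex_mul_relIndex (⊥ : AddSubgroup M) (ψ.range ⊓ φ.ker) φ.ker bot_le inf_le_right
    rw [relIndex_bot_left, relIndex_bot_left, inf_relIndex_right] at this
    exact this.symm
  have hd : Nat.card (φ.comp ψ).ker = Nat.card ψ.ker * Nat.card ↥(ψ.range ⊓ φ.ker) := by
    have h1 : (φ.comp ψ).ker.map ψ = ψ.range ⊓ φ.ker := by
      ext x
      simp only [mem_map, AddMonoidHom.mem_ker, AddMonoidHom.comp_apply, mem_inf,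
        AddMonoidHom.mem_range]
      constructor
      · rintro ⟨y, hy, rfl⟩
        exact ⟨⟨y, rfl⟩, hy⟩
      · rintro ⟨⟨y, rfl⟩, hy⟩
        exact ⟨y, hy, rfl⟩
    rw [← h1, ← relIndex_ker]
    have hle : ψ.ker ≤ (φ.comp ψ).ker := by
      intro x hx
      rw [AddMonoidHom.mem_ker] at hx ⊢
      rw [AddMonoidHom.comp_apply, hx, map_zero]
    have := relIndex_mul_relIndex (⊥ : AddSubgroup M) ψ.ker (φ.comp ψ).ker bot_le hle
    rw [relIndex_bot_left, relIndex_bot_left] at this
    exact this.symm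
  rw [ha, hb, hd, hc]
  ring

/-- kernel of an endomorphism -/
def kerE (φ : AddMonoid.End M) : AddSubgroup M := AddMonoidHom.ker (show M →+ M from φ)

/-- image of an endomorphism -/
def rangeE (φ : AddMonoid.End M) : AddSubgroup M := AddMonoidHom.range (show M →+ M from φ)

@[simp] theorem mem_kerE {φ : AddMonoid.End M} {x : M} : x ∈ kerE φ ↔ φ x = 0 := Iff.rfl

@[simp] theorem mem_rangeE {φ : AddMonoid.End M} {x : M} : x ∈ rangeE φ ↔ ∃ y, φ y = x := Iff.rfl

theorem End_mul_apply (φ ψ : AddMonoid.End M) (x : M) : (φ * ψ) x = φ (ψ x) := rfl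

theorem index_mul_mul (φ ψ : AddMonoid.End M) :
    (rangeE (φ * ψ)).index * Nat.card (kerE φ) * Nat.card (kerE ψ)
      = (rangeE φ).index * (rangeE ψ).index * Nat.card (kerE (φ * ψ)) :=
  index_comp_mul (show M →+ M from φ) (show M →+ M from ψ)

theorem index_pow_mul (D : AddMonoid.End M) (n : ℕ) (hn : Nat.card (kerE (D ^ n)) ≠ 0) :
    (rangeE (D ^ n)).index * Nat.card (kerE D) ^ n
      = (rangeE D).index ^ n * Nat.card (kerE (D ^ n)) := by
  induction n with
  | zero =>
    have h1 : rangeE (1 : AddMonoid.End M) = ⊤ := by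
      rw [eq_top_iff]
      exact fun x _ => ⟨x, rfl⟩
    have h2 : kerE (1 : AddMonoid.End M) = ⊥ := by
      rw [eq_bot_iff]
      intro x hx
      exact hx
    simp only [pow_zero, h1, h2]
    simp
  | succ n ih =>
    have hle : kerE (D ^ n) ≤ kerE (D ^ (n + 1)) := by
      intro x hx
      rw [mem_kerE] at hx ⊢
      rw [pow_succ', End_mul_apply, hx, map_zero]
    have hn' : Nat.card (kerE (D ^ n)) ≠ 0 := by
      have : Finite (kerE (D ^ (n + 1))) := Nat.finite_of_card_ne_zero hn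
      have : Finite (kerE (D ^ n)) :=
        Finite.Set.subset (kerE (D ^ (n + 1)) : Set M) hle
      exact Nat.card_ne_zero.mpr ⟨⟨0⟩, this⟩
    have h := index_mul_mul D (D ^ n)
    rw [← pow_succ'] at h
    have := ih hn'
    apply Nat.eq_of_mul_eq_mul_right (Nat.pos_of_ne_zero hn')
    calc _ = ((rangeE (D ^ (n + 1))).index * Nat.card (kerE D) * Nat.card (kerE (D ^ n)))
          * Nat.card (kerE D) ^ n := by ring
      _ = (rangeE D).index * ((rangeE (D ^ n)).index * Nat.card (kerE D) ^ n)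
          * Nat.card (kerE (D ^ (n + 1))) := by rw [h]; ring
      _ = _ := by rw [this]; ring

end QIndex

section Prime

variable {M : Type*} [AddCommGroup M]

theorem range_eq_of_mul_eq {a b u v : AddMonoid.End M} (h1 : a = b * u) (h2 : b = a * v) :
    rangeE a = rangeE b := by
  apply le_antisymm
  · rintro _ ⟨x, rfl⟩
    exact ⟨u x, by rw [h1]; rfl⟩
  · rintro _ ⟨x, rfl⟩
    exact ⟨v x, by conv_rhs => rw [h2]
                   rfl⟩

theorem ker_eq_of_mul_eq {a b u v : AddMonoid.End M} (h1 : a = u * b) (h2 : b = v * a) :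
    kerE a = kerE b := by
  apply le_antisymm
  · intro x hx
    rw [mem_kerE] at hx ⊢
    rw [h2, End_mul_apply, hx, map_zero]
  · intro x hx
    rw [mem_kerE] at hx ⊢
    rw [h1, End_mul_apply, hx, map_zero]

/-- If `1 + σ + ⋯ + σ^(p-1) = 0` on `M` then `p` and `(σ - 1)^(p-1)` have the same kernel and
image. -/
theorem ker_range_of_norm_eq_zero {p : ℕ} (hp : p.Prime) (σ : AddMonoid.End M)
    (hN : ∑ i ∈ Finset.range p, σ ^ i = 0) :
    kerE ((σ - 1) ^ (p - 1)) = kerE (p : AddMonoid.End M) ∧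
    rangeE ((σ - 1) ^ (p - 1)) = rangeE (p : AddMonoid.End M) := by
  obtain ⟨A, U, E, h1, h2⟩ := exists_poly_identity hp
  have e1 := congrArg (Polynomial.aeval σ) h1
  have e2 := congrArg (Polynomial.aeval σ) h2
  simp only [map_pow, map_sub, aeval_X, map_one, map_add, map_sum, map_mul, map_natCast, hN,
    zero_add, zero_mul, add_zero] at e1 e2
  set a := aeval σ A with ha
  set u := aeval σ U with hu
  have hcomm : a * u = u * a := by
    rw [ha, hu, ← map_mul, mul_comm, map_mul]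
  have hpa : (p : AddMonoid.End M) * a = a * (p : AddMonoid.End M) := (Nat.cast_commute p a)
  have e3 : (p : AddMonoid.End M) = (σ - 1) ^ (p - 1) * u := by
    rw [e1, mul_assoc, e2, mul_one]
  have e4 : (p : AddMonoid.End M) = u * (σ - 1) ^ (p - 1) := by
    rw [e1, hpa, ← mul_assoc, ← hcomm, e2, one_mul]
  have e5 : (σ - 1) ^ (p - 1) = a * (p : AddMonoid.End M) := by rw [e1, hpa]
  exact ⟨ker_eq_of_mul_eq e5 e4, range_eq_of_mul_eq e1 e3⟩

/-- **Herbrand's formula for a group of prime order** on a module where the norm is zero: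
`[M : pM] |ker D|^(p-1) = [M : DM]^(p-1) |M[p]|`. -/
theorem index_mul_of_norm_eq_zero {p : ℕ} (hp : p.Prime) (σ : AddMonoid.End M)
    (hN : ∑ i ∈ Finset.range p, σ ^ i = 0)
    (hfin : Nat.card (kerE (p : AddMonoid.End M)) ≠ 0) :
    (rangeE (p : AddMonoid.End M)).index * Nat.card (kerE (σ - 1)) ^ (p - 1)
      = (rangeE (σ - 1)).index ^ (p - 1) * Nat.card (kerE (p : AddMonoid.End M)) := by
  obtain ⟨h1, h2⟩ := ker_range_of_norm_eq_zero hp σ hN
  have := index_pow_mul (σ - 1) (p - 1) (by rw [h1]; exact hfin)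
  rw [h1, h2] at this
  exact this

/-- `[ker f : im g]` for endomorphisms. -/
noncomputable def h0E (f g : AddMonoid.End M) : ℕ := (rangeE g).relIndex (kerE f)

/-- `[M : pM]` -/
noncomputable def qc (M : Type*) [AddCommGroup M] (p : ℕ) : ℕ :=
  (rangeE (p : AddMonoid.End M)).index

/-- `|M[p]|` -/
noncomputable def qk (M : Type*) [AddCommGroup M] (p : ℕ) : ℕ :=
  Nat.card (kerE (p : AddMonoid.End M))

theorem natCast_End_apply (p : ℕ) (x : M) : (p : AddMonoid.End M) x = p • x := by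
  simp

theorem h0E_zero_left (g : AddMonoid.End M) : h0E 0 g = (rangeE g).index := by
  have : kerE (0 : AddMonoid.End M) = ⊤ := by
    rw [eq_top_iff]
    intro x _
    rfl
  rw [h0E, this, relIndex_top_right]

theorem h0E_zero_right (f : AddMonoid.End M) : h0E f 0 = Nat.card (kerE f) := by
  have : rangeE (0 : AddMonoid.End M) = ⊥ := by
    rw [eq_bot_iff]
    rintro _ ⟨x, rfl⟩
    rfl
  rw [h0E, this, relIndex_bot_left]

/-- relation between the `p`-indices of the terms of a short exact sequence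
`0 → A → M → C → 0` -/
theorem exists_q_eq {A C : Type*} [AddCommGroup A] [AddCommGroup C] (i : A →+ M) (j : M →+ C)
    (hi : Function.Injective i) (hj : Function.Surjective j) (hex : j.ker = i.range) (p : ℕ) :
    ∃ a b k l c : ℕ, qc M p = b * a ∧ qc A p = c * b ∧ qc C p = a ∧
      qk M p = l * k ∧ qk A p = l ∧ qk C p = k * c := by
  have hA : ∀ a, i ((p : AddMonoid.End A) a) = (p : AddMonoid.End M) (i a) := by
    intro a
    rw [natCast_End_apply, natCast_End_apply, map_nsmul]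
  have hC : ∀ m, j ((p : AddMonoid.End M) m) = (p : AddMonoid.End C) (j m) := by
    intro a
    rw [natCast_End_apply, natCast_End_apply, map_nsmul]
  obtain ⟨a, b, h1, h2, h3⟩ := exists_h0_eq i j hi hj hex (0 : M →+ M) (p : AddMonoid.End M)
    (0 : A →+ A) (p : AddMonoid.End A) (0 : C →+ C) (p : AddMonoid.End C) (fun _ => rfl)
    (fun _ => map_zero i) hA (fun _ => map_zero j) hC
  obtain ⟨k, l, h4, h5, h6⟩ := exists_h0_eq i j hi hj hex (p : AddMonoid.End M) (0 : M →+ M)
    (p : AddMonoid.End A) (0 : A →+ A) (p : AddMonoid.End C) (0 : C →+ C)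
    (fun _ => by rw [AddMonoidHom.zero_apply]; exact map_zero _) hA
    (fun _ => map_zero i) hC (fun _ => map_zero j)
  have e0 : cIdx i (0 : M →+ M) = 1 := by
    rw [cIdx]
    have : (0 : M →+ M).range = ⊥ := by
      rw [eq_bot_iff]
      rintro _ ⟨x, rfl⟩
      rfl
    rw [this, bot_inf_eq, relIndex_bot_right]
  rw [e0, mul_one] at h3
  rw [e0, one_mul] at h5
  refine ⟨a, b, k, l, cIdx i (p : AddMonoid.End M), ?_, ?_, ?_, ?_, ?_, ?_⟩
  · rw [← h1, qc, ← h0E_zero_left]; rfl
  · rw [← h2, qc, ← h0E_zero_left]; rfl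
  · rw [← h3, qc, ← h0E_zero_left]; rfl
  · rw [← h4, qk, ← h0E_zero_right]; rfl
  · rw [← h5, qk, ← h0E_zero_right]; rfl
  · rw [← h6, qk, ← h0E_zero_right]; rfl

/-- multiplicativity of `q_p = [M : pM] / |M[p]|` and `2`-out-of-`3` finiteness -/
theorem q_mul {A C : Type*} [AddCommGroup A] [AddCommGroup C] (i : A →+ M) (j : M →+ C)
    (hi : Function.Injective i) (hj : Function.Surjective j) (hex : j.ker = i.range) (p : ℕ) :
    (qc A p ≠ 0 → qk A p ≠ 0 → qc C p ≠ 0 → qk C p ≠ 0 → qc M p ≠ 0 ∧ qk M p ≠ 0) ∧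
    (qc M p ≠ 0 → qk M p ≠ 0 → qc C p ≠ 0 → qk C p ≠ 0 → qc A p ≠ 0 ∧ qk A p ≠ 0) ∧
    (qc M p ≠ 0 → qk M p ≠ 0 → qc A p ≠ 0 → qk A p ≠ 0 → qc C p ≠ 0 ∧ qk C p ≠ 0) ∧
    (qc A p ≠ 0 → qk A p ≠ 0 → qc C p ≠ 0 → qk C p ≠ 0 →
      qc M p * qk A p * qk C p = qk M p * qc A p * qc C p) := by
  obtain ⟨a, b, k, l, c, h1, h2, h3, h4, h5, h6⟩ := exists_q_eq i j hi hj hex p
  rw [h1, h2, h3, h4, h5, h6]
  refine ⟨fun k1 k2 k3 k4 => ⟨?_, ?_⟩, fun k1 k2 k3 k4 => ⟨?_, ?_⟩, fun k1 k2 k3 k4 => ⟨?_, ?_⟩,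
    fun k1 k2 k3 k4 => ?_⟩
  all_goals try (simp only [ne_eq, mul_eq_zero, not_or] at *; tauto)
  ring

theorem q_eq_of_finite [Finite M] (p : ℕ) : qc M p = qk M p := by
  have := h0_eq_of_finite (0 : M →+ M) (p : AddMonoid.End M) (fun _ => rfl)
    (fun _ => map_zero (p : AddMonoid.End M))
  rw [qc, qk, ← h0E_zero_left, ← h0E_zero_right]
  exact this

theorem qk_ne_zero_of_finite [Finite M] (p : ℕ) : qk M p ≠ 0 :=
  Nat.card_ne_zero.mpr ⟨⟨0⟩, inferInstance⟩

theorem sub_one_mul_geom (σ : AddMonoid.End M) (p : ℕ) (hσ : σ ^ p = 1) :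
    (σ - 1) * (∑ i ∈ Finset.range p, σ ^ i) = 0 := by
  rw [mul_geom_sum, hσ, sub_self]

theorem geom_mul_sub_one (σ : AddMonoid.End M) (p : ℕ) (hσ : σ ^ p = 1) :
    (∑ i ∈ Finset.range p, σ ^ i) * (σ - 1) = 0 := by
  rw [geom_sum_mul, hσ, sub_self]

theorem sum_End_apply {ι : Type*} (s : Finset ι) (f : ι → AddMonoid.End M) (x : M) :
    (∑ i ∈ s, f i) x = ∑ i ∈ s, (f i) x := by
  classical
  induction s using Finset.induction_on with
  | empty => rfl
  | insert a s ha ih =>
    rw [Finset.sum_insert ha, Finset.sum_insert ha, ← ih]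
    rfl

theorem h0E_eq_h0 (f g : AddMonoid.End M) :
    h0E f g = h0 (show M →+ M from f) (show M →+ M from g) := rfl

/-- **Herbrand's lemma** for a cyclic group of prime order `p` acting on an arbitrary abelian
group `M`: if `q(M) = [M : pM] / |M[p]|` and `q(M^σ)` are defined, then the Herbrand quotient
`h = [M^σ : N M] / [ker N : (σ - 1) M]` is defined and `h ^ (p-1) * q(M) = q(M^σ) ^ p`. -/
theorem herbrand_prime {p : ℕ} (hp : p.Prime) (σ : AddMonoid.End M) (hσ : σ ^ p = 1)
    (h1 : qc M p ≠ 0) (h2 : qk M p ≠ 0) (h3 : qc (kerE (σ - 1)) p ≠ 0) :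
    h0E (σ - 1) (∑ i ∈ Finset.range p, σ ^ i) ≠ 0 ∧
    h0E (∑ i ∈ Finset.range p, σ ^ i) (σ - 1) ≠ 0 ∧
    h0E (σ - 1) (∑ i ∈ Finset.range p, σ ^ i) ^ (p - 1) * qc M p * qk (kerE (σ - 1)) p ^ p
      = h0E (∑ i ∈ Finset.range p, σ ^ i) (σ - 1) ^ (p - 1) * qk M p *
          qc (kerE (σ - 1)) p ^ p := by
  set N : AddMonoid.End M := ∑ i ∈ Finset.range p, σ ^ i with hN
  set B : AddSubgroup M := kerE (σ - 1) with hB
  have hBmem : ∀ x, x ∈ B ↔ σ x = x := by
    intro x
    rw [hB, mem_kerE]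
    show σ x - x = 0 ↔ _
    rw [sub_eq_zero]
  have hpow : ∀ (n : ℕ) (x : M), x ∈ B → (σ ^ n) x = x := by
    intro n
    induction n with
    | zero => intro x _; rfl
    | succ n ih =>
      intro x hx
      rw [pow_succ, End_mul_apply, (hBmem x).mp hx, ih x hx]
  have hNB : ∀ x ∈ B, N x = p • x := by
    intro x hx
    rw [hN, sum_End_apply]
    rw [Finset.sum_congr rfl (fun i _ => hpow i x hx)]
    simp
  have hDN := sub_one_mul_geom σ p hσ
  have hND := geom_mul_sub_one σ p hσ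
  rw [← hN] at hDN hND
  have hDN' : ∀ x, (σ - 1) (N x) = 0 := fun x => by rw [← End_mul_apply, hDN]; rfl
  have hND' : ∀ x, N ((σ - 1) x) = 0 := fun x => by rw [← End_mul_apply, hND]; rfl
  -- the quotient
  set D : AddMonoid.End M := σ - 1 with hD
  have hBσ : B ≤ B.comap (show M →+ M from σ) := by
    intro x hx
    rw [AddSubgroup.mem_comap]
    show σ x ∈ B
    rw [(hBmem x).mp hx]
    exact hx
  set M' := M ⧸ B with hM'
  let j : M →+ M' := QuotientAddGroup.mk' B
  let i : B →+ M := B.subtype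
  let σ' : AddMonoid.End M' := QuotientAddGroup.map B B (show M →+ M from σ) hBσ
  have hjσ : ∀ x, j (σ x) = σ' (j x) := fun x => rfl
  have hj : Function.Surjective j := QuotientAddGroup.mk'_surjective B
  have hi : Function.Injective i := B.subtype_injective
  have hex : j.ker = i.range := by
    rw [QuotientAddGroup.ker_mk', AddSubgroup.range_subtype]
  have hjσn : ∀ (n : ℕ) (x : M), j ((σ ^ n) x) = (σ' ^ n) (j x) := by
    intro n
    induction n with
    | zero => intro x; rfl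
    | succ n ih =>
      intro x
      rw [pow_succ', pow_succ', End_mul_apply, End_mul_apply, hjσ, ih x]
  have hN' : ∑ i ∈ Finset.range p, σ' ^ i = 0 := by
    ext x
    obtain ⟨x, rfl⟩ := hj x
    rw [sum_End_apply, Finset.sum_congr rfl (fun i _ => (hjσn i x).symm), ← map_sum,
      ← sum_End_apply, ← hN]
    have : N x ∈ B := by
      rw [hB, mem_kerE]; exact hDN' x
    exact (QuotientAddGroup.eq_zero_iff _).mpr this
  set D' : AddMonoid.End M' := σ' - 1 with hD'
  have hjD : ∀ x, j (D x) = D' (j x) := by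
    intro x
    show j (σ x - x) = σ' (j x) - j x
    rw [map_sub, hjσ]
  -- the pieces of the exact sequence
  have hkB : qk B p ≠ 0 := by
    have hfinM : Finite (kerE (p : AddMonoid.End M)) := Nat.finite_of_card_ne_zero h2
    have : Finite (kerE (p : AddMonoid.End B)) := by
      refine Finite.of_injective (β := kerE (p : AddMonoid.End M)) (fun x => ⟨(x.1 : M), ?_⟩) ?_
      · have h5 : p • x.1 = 0 := by
          have := x.2
          rwa [mem_kerE, natCast_End_apply] at this
        rw [mem_kerE, natCast_End_apply]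
        exact congrArg (Subtype.val) h5
      · intro x y hxy
        have h6 : (x.1 : M) = y.1 := congrArg (fun z => z.1) hxy
        exact Subtype.ext (Subtype.ext h6)
    exact Nat.card_ne_zero.mpr ⟨⟨0⟩, this⟩
  obtain ⟨-, -, q3, q4⟩ := q_mul i j hi hj hex p
  obtain ⟨hcM', hkM'⟩ := q3 h1 h2 h3 hkB
  have q5 := q4 h3 hkB hcM' hkM'
  have hpp : p - 1 ≠ 0 := Nat.sub_ne_zero_of_lt hp.one_lt
  obtain ⟨k1, k2⟩ := ker_range_of_norm_eq_zero hp σ' hN'
  have hkerD' : Nat.card (kerE D') ≠ 0 := by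
    have hle : kerE D' ≤ kerE (p : AddMonoid.End M') := by
      rw [← k1]
      intro x hx
      rw [mem_kerE] at hx ⊢
      obtain ⟨n, hn⟩ := Nat.exists_eq_succ_of_ne_zero hpp
      rw [hn, pow_succ, End_mul_apply]
      show (D' ^ n) (D' x) = 0
      rw [hx, map_zero]
    have hfin : Finite (kerE (p : AddMonoid.End M')) := Nat.finite_of_card_ne_zero hkM'
    have : Finite (kerE D') := Finite.Set.subset (kerE (p : AddMonoid.End M') : Set M') hle
    exact Nat.card_ne_zero.mpr ⟨⟨0⟩, this⟩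
  have hranD' : (rangeE D').index ≠ 0 := by
    have hle : rangeE (p : AddMonoid.End M') ≤ rangeE D' := by
      rw [← k2]
      rintro _ ⟨x, rfl⟩
      obtain ⟨n, hn⟩ := Nat.exists_eq_succ_of_ne_zero hpp
      refine ⟨(D' ^ n) x, ?_⟩
      show _ = (D' ^ (p - 1)) x
      rw [hn, pow_succ', End_mul_apply]
      rfl
    intro h0
    apply hcM'
    exact Nat.eq_zero_of_zero_dvd (h0 ▸ AddSubgroup.index_dvd_of_le hle)
  have q6 := index_mul_of_norm_eq_zero hp σ' hN' hkM'
  -- operators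
  have hgA : ∀ a : B, i ((p : AddMonoid.End B) a) = N (i a) := by
    intro a
    rw [natCast_End_apply, map_nsmul]
    exact (hNB _ a.2).symm
  have hfA : ∀ a : B, i ((0 : AddMonoid.End B) a) = D (i a) := by
    intro a
    have : D (i a) = 0 := a.2
    rw [this]
    rfl
  have hgC : ∀ m : M, j (N m) = (0 : AddMonoid.End M') (j m) := by
    intro m
    have : N m ∈ B := by
      rw [hB, mem_kerE]; exact hDN' m
    exact (QuotientAddGroup.eq_zero_iff _).mpr this
  obtain ⟨r1, -, -, -⟩ := herbrand_mul i j hi hj hex (show M →+ M from D) (show M →+ M from N)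
    (show B →+ B from (0 : AddMonoid.End B)) (show B →+ B from (p : AddMonoid.End B))
    (show M' →+ M' from D') (show M' →+ M' from (0 : AddMonoid.End M'))
    hDN' hND' hfA hgA hjD hgC
  have r2 := herbrand_mul_eq i j hi hj hex (show M →+ M from D) (show M →+ M from N)
    (show B →+ B from (0 : AddMonoid.End B)) (show B →+ B from (p : AddMonoid.End B))
    (show M' →+ M' from D') (show M' →+ M' from (0 : AddMonoid.End M'))
    hDN' hND' hfA hgA hjD hgC
  simp only [← h0E_eq_h0] at r1 r2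
  rw [h0E_zero_left, h0E_zero_right, h0E_zero_left, h0E_zero_right] at r1 r2
  obtain ⟨s1, s2⟩ := r1 h3 hkB hkerD' hranD'
  have s3 := r2 h3 hkB hkerD' hranD'
  refine ⟨s1, s2, ?_⟩
  have hpos : 0 < (rangeE D').index ^ (p - 1) * qk M' p :=
    Nat.pos_of_ne_zero (mul_ne_zero (pow_ne_zero _ hranD') hkM')
  apply Nat.eq_of_mul_eq_mul_right hpos
  have hp1 : ∀ x : ℕ, x ^ p = x ^ (p - 1) * x := by
    intro x
    rw [← pow_succ, Nat.sub_add_cancel hp.one_le]
  rw [hp1, hp1]
  change (rangeE (p : AddMonoid.End M')).index * Nat.card (kerE D') ^ (p - 1) =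
    (rangeE D').index ^ (p - 1) * qk M' p at q6
  change qc M' p * Nat.card (kerE D') ^ (p - 1) = (rangeE D').index ^ (p - 1) * qk M' p at q6
  change h0E D N * qk B p * (rangeE D').index = h0E N D * qc B p * Nat.card (kerE D') at s3
  calc _ = (h0E D N * qk B p * (rangeE D').index) ^ (p - 1) * (qc M p * qk B p * qk M' p) := by
        ring
    _ = h0E N D ^ (p - 1) * qc B p ^ (p - 1) * qc B p * qk M p *
        (qc M' p * Nat.card (kerE D') ^ (p - 1)) := by
        rw [s3, q5]; ring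
    _ = _ := by rw [q6]; ring

theorem qc_congr {A C : Type*} [AddCommGroup A] [AddCommGroup C] (e : A ≃+ C) (p : ℕ) :
    qc A p = qc C p := by
  have h := AddSubgroup.index_map_equiv (rangeE (p : AddMonoid.End A)) e
  rw [qc, qc, ← h]
  congr 1
  ext x
  rw [mem_rangeE, AddSubgroup.mem_map]
  constructor
  · rintro ⟨z, hz, rfl⟩
    obtain ⟨y, rfl⟩ := mem_rangeE.mp hz
    refine ⟨e y, ?_⟩
    rw [natCast_End_apply, natCast_End_apply]
    exact (map_nsmul e p y).symm
  · rintro ⟨y, rfl⟩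
    refine ⟨p • e.symm y, mem_rangeE.mpr ⟨e.symm y, natCast_End_apply _ _⟩, ?_⟩
    rw [natCast_End_apply]
    show e (p • e.symm y) = _
    rw [map_nsmul, AddEquiv.apply_symm_apply]

theorem qk_congr {A C : Type*} [AddCommGroup A] [AddCommGroup C] (e : A ≃+ C) (p : ℕ) :
    qk A p = qk C p := by
  rw [qk, qk]
  refine Nat.card_congr ⟨fun x => ⟨e x.1, ?_⟩, fun x => ⟨e.symm x.1, ?_⟩, fun x => ?_, fun x => ?_⟩
  · have h5 : p • x.1 = 0 := by
      have := x.2
      rwa [mem_kerE, natCast_End_apply] at this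
    rw [mem_kerE, natCast_End_apply, ← map_nsmul, h5, map_zero]
  · have h5 : p • x.1 = 0 := by
      have := x.2
      rwa [mem_kerE, natCast_End_apply] at this
    rw [mem_kerE, natCast_End_apply, ← map_nsmul, h5, map_zero]
  · exact Subtype.ext (e.symm_apply_apply _)
  · exact Subtype.ext (e.apply_symm_apply _)

theorem qc_additive (G : Type*) [CommGroup G] (p : ℕ) :
    qc (Additive G) p = (powMonoidHom p : G →* G).range.index := by
  have : rangeE (p : AddMonoid.End (Additive G)) =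
      Subgroup.toAddSubgroup (powMonoidHom p : G →* G).range := by
    ext x
    rw [mem_rangeE]
    constructor
    · rintro ⟨y, rfl⟩
      rw [natCast_End_apply]
      exact ⟨y.toMul, rfl⟩
    · rintro ⟨y, hy⟩
      refine ⟨Additive.ofMul y, ?_⟩
      rw [natCast_End_apply]
      exact hy
  rw [qc, this, Subgroup.index_toAddSubgroup]

theorem qk_additive (G : Type*) [CommGroup G] (p : ℕ) :
    qk (Additive G) p = Nat.card (powMonoidHom p : G →* G).ker := by
  rw [qk]
  refine Nat.card_congr ⟨fun x => ⟨Additive.toMul x.1, ?_⟩, fun x => ⟨Additive.ofMul x.1, ?_⟩,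
    fun x => rfl, fun x => rfl⟩
  · have h5 : p • x.1 = 0 := by
      have := x.2
      rwa [mem_kerE, natCast_End_apply] at this
    exact h5
  · rw [mem_kerE, natCast_End_apply]
    exact x.2

/-- **Herbrand's lemma**, multiplicative version, for an automorphism `σ` of order dividing `p`
of a commutative group `G`. `Fix` is the fixed subgroup, `N x = ∏ σ^i x`, `D x = σ x / x`. -/
theorem herbrand_prime_mul {G : Type*} [CommGroup G] {p : ℕ} (hp : p.Prime) (σ : G →* G)
    (hσ : ∀ x, (σ^[p]) x = x) (Fix : Subgroup G) (hFix : ∀ x, x ∈ Fix ↔ σ x = x)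
    (N D : G →* G) (hN : ∀ x, N x = ∏ i ∈ Finset.range p, (σ^[i]) x) (hD : ∀ x, D x = σ x / x)
    (h1 : (powMonoidHom p : G →* G).range.index ≠ 0)
    (h2 : Nat.card (powMonoidHom p : G →* G).ker ≠ 0)
    (h3 : (powMonoidHom p : Fix →* Fix).range.index ≠ 0) :
    N.range.relIndex Fix ≠ 0 ∧ D.range.relIndex N.ker ≠ 0 ∧
    N.range.relIndex Fix ^ (p - 1) * (powMonoidHom p : G →* G).range.index *
        Nat.card (powMonoidHom p : Fix →* Fix).ker ^ p =
      D.range.relIndex N.ker ^ (p - 1) * Nat.card (powMonoidHom p : G →* G).ker *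
        (powMonoidHom p : Fix →* Fix).range.index ^ p := by
  let s : AddMonoid.End (Additive G) := MonoidHom.toAdditive σ
  have hs : ∀ x, s x = Additive.ofMul (σ x.toMul) := fun x => rfl
  have hsn : ∀ (n : ℕ) x, (s ^ n) x = Additive.ofMul ((σ^[n]) x.toMul) := by
    intro n
    induction n with
    | zero => intro x; rfl
    | succ n ih =>
      intro x
      rw [pow_succ, End_mul_apply, ih, hs, Function.iterate_succ_apply]
      rfl
  have hsp : s ^ p = 1 := by
    ext x
    rw [hsn, hσ]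
    rfl
  have hNE : ∀ x, (∑ i ∈ Finset.range p, s ^ i) x = Additive.ofMul (N x.toMul) := by
    intro x
    rw [sum_End_apply, hN, ofMul_prod]
    exact Finset.sum_congr rfl (fun i _ => hsn i x)
  have hDE : ∀ x, (s - 1) x = Additive.ofMul (D x.toMul) := by
    intro x
    rw [hD]
    rfl
  have e1 : kerE (s - 1) = Subgroup.toAddSubgroup Fix := by
    ext x
    rw [mem_kerE, hDE]
    show D x.toMul = 1 ↔ x.toMul ∈ Fix
    rw [hFix, hD, div_eq_one]
  have e2 : kerE (∑ i ∈ Finset.range p, s ^ i) = Subgroup.toAddSubgroup N.ker := by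
    ext x
    rw [mem_kerE, hNE]
    rfl
  have e3 : rangeE (∑ i ∈ Finset.range p, s ^ i) = Subgroup.toAddSubgroup N.range := by
    ext x
    rw [mem_rangeE]
    constructor
    · rintro ⟨y, rfl⟩
      rw [hNE]
      exact ⟨y.toMul, rfl⟩
    · rintro ⟨y, hy⟩
      exact ⟨Additive.ofMul y, by rw [hNE]; exact hy⟩
  have e4 : rangeE (s - 1) = Subgroup.toAddSubgroup D.range := by
    ext x
    rw [mem_rangeE]
    constructor
    · rintro ⟨y, rfl⟩
      rw [hDE]
      exact ⟨y.toMul, rfl⟩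
    · rintro ⟨y, hy⟩
      exact ⟨Additive.ofMul y, by rw [hDE]; exact hy⟩
  have eF : Additive Fix ≃+ kerE (s - 1) :=
    { toFun := fun x => ⟨Additive.ofMul (x.toMul : G), by rw [e1]; exact x.toMul.2⟩
      invFun := fun x => Additive.ofMul ⟨(x : Additive G).toMul,
        ((le_of_eq e1) x.2 : (x : Additive G) ∈ Subgroup.toAddSubgroup Fix)⟩
      left_inv := fun x => rfl
      right_inv := fun x => rfl
      map_add' := fun x y => rfl }
  have c1 := qc_congr eF p
  have c2 := qk_congr eF p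
  rw [qc_additive] at c1
  rw [qk_additive] at c2
  have key := herbrand_prime hp s hsp (by rwa [qc_additive]) (by rwa [qk_additive])
    (by rwa [← c1])
  rw [← c1, ← c2, qc_additive, qk_additive, h0E, h0E, e1, e2, e3, e4,
    Subgroup.relIndex_toAddSubgroup, Subgroup.relIndex_toAddSubgroup] at key
  exact key

end Prime

end Fermat.Agent.H54
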