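import Mathlib
import Fermat.Agent.H54HerbrandPrime
import Fermat.Agent.H47FGIndex

/-!
# Herbrand quotients for cyclic groups of order `2^k` (LT-MOD2, M5)
-/

set_option autoImplicit false

namespace Fermat.Agent.H91.FI

open AddSubgroup Polynomial Fermat.Agent.H54

section Poly

/-- In `ℤ[X]`, `m = 2^j`: `(X-1)^m = X^m + 1 + 2 A` with `A` invertible modulo `X^m + 1`. -/
theorem exists_poly_identity_two (j : ℕ) :
    ∃ A U E : ℤ[X], (X - 1) ^ (2 ^ j) = (X ^ (2 ^ j) + 1) + 2 * A ∧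
      A * U = 1 + (X ^ (2 ^ j) + 1) * E := by
  have : Fact (Nat.Prime 2) := ⟨Nat.prime_two⟩
  set m := 2 ^ j with hm
  have hm0 : m ≠ 0 := by positivity
  set Φ : ℤ[X] := X ^ m + 1 with hΦ
  have hmod : ∃ A : ℤ[X], (X - 1) ^ m = Φ + 2 * A := by
    have hz : ((X - 1 : ℤ[X]) ^ m - Φ).map (Int.castRingHom (ZMod 2)) = 0 := by
      rw [hΦ]
      simp only [Polynomial.map_sub, Polynomial.map_pow, map_X, Polynomial.map_one,
        Polynomial.map_add]
      rw [hm, sub_pow_char_pow, one_pow]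
      have h2 : (2 : (ZMod 2)[X]) = 0 := by
        have : ((2 : ℕ) : (ZMod 2)[X]) = 0 := CharP.cast_eq_zero _ 2
        exact_mod_cast this
      have : (X ^ 2 ^ j - 1 - (X ^ 2 ^ j + 1) : (ZMod 2)[X]) = -2 := by ring
      rw [this, h2, neg_zero]
    have hdvd : (C (2 : ℤ)) ∣ ((X - 1 : ℤ[X]) ^ m - Φ) := by
      rw [C_dvd_iff_dvd_coeff]
      intro i
      have := congrArg (fun f => f.coeff i) hz
      simp only [coeff_map, coeff_zero, eq_intCast] at this
      exact (ZMod.intCast_zmod_eq_zero_iff_dvd _ 2).mp this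
    obtain ⟨A, hA⟩ := hdvd
    exact ⟨A, by rw [← sub_eq_iff_eq_add', hA]; simp⟩
  obtain ⟨A, hA⟩ := hmod
  have hA1 : A.eval 1 = -1 := by
    have := congrArg (fun f => f.eval 1) hA
    simp only [eval_pow, eval_sub, eval_X, eval_one, sub_self, eval_add, eval_mul, eval_ofNat,
      hΦ, one_pow] at this
    rw [zero_pow hm0] at this
    linarith
  obtain ⟨A₁, hA₁⟩ : (X - 1 : ℤ[X]) ∣ A + 1 := by
    have : (X - C (1 : ℤ)) ∣ A + 1 := by
      rw [dvd_iff_isRoot, IsRoot.def, eval_add, hA1, eval_one]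
      norm_num
    simpa using this
  refine ⟨A, -(∑ i ∈ Finset.range m, ((X - 1) * A₁) ^ i) + 2 * A₁ ^ m,
    -A₁ ^ m, hA, ?_⟩
  have hA' : A = (X - 1) * A₁ - 1 := by rw [← hA₁]; ring
  have hg := mul_geom_sum ((X - 1) * A₁) m
  have : A * (∑ i ∈ Finset.range m, ((X - 1) * A₁) ^ i) = ((X - 1) * A₁) ^ m - 1 := by
    rw [← hg, ← hA']
  rw [mul_add, mul_neg, this, mul_pow, hA]
  ring

end Poly

section index

variable {M : Type*} [AddCommGroup M]

/-- If `σ^m = -1` on `M`, `m = 2^j`, then `2` and `(σ - 1)^m` have the same kernel and image. -/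
theorem ker_range_of_pow_eq_neg_one {j : ℕ} (σ : AddMonoid.End M)
    (hN : σ ^ (2 ^ j) + 1 = 0) :
    kerE ((σ - 1) ^ (2 ^ j)) = kerE (2 : AddMonoid.End M) ∧
    rangeE ((σ - 1) ^ (2 ^ j)) = rangeE (2 : AddMonoid.End M) := by
  obtain ⟨A, U, E, h1, h2⟩ := exists_poly_identity_two j
  have e1 := congrArg (Polynomial.aeval σ) h1
  have e2 := congrArg (Polynomial.aeval σ) h2
  simp only [map_pow, map_sub, aeval_X, map_one, map_add, map_mul, hN,
    zero_add, zero_mul, add_zero, map_ofNat] at e1 e2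
  set a := aeval σ A with ha
  set u := aeval σ U with hu
  have hcomm : a * u = u * a := by
    rw [ha, hu, ← map_mul, ← map_mul, mul_comm]
  have h2a : (2 : AddMonoid.End M) * a = a * 2 := by
    rw [two_mul, mul_two]
  have h2u : (2 : AddMonoid.End M) * u = u * 2 := by
    rw [two_mul, mul_two]
  have h3 : (2 : AddMonoid.End M) = (σ - 1) ^ (2 ^ j) * u := by
    rw [e1, mul_assoc, e2, mul_one]
  have h4 : (2 : AddMonoid.End M) = u * (σ - 1) ^ (2 ^ j) := by
    rw [e1, h2a, ← mul_assoc, ← hcomm, e2, one_mul]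
  constructor
  · exact ker_eq_of_mul_eq (u := a) (v := u) (by rw [e1, h2a]) h4
  · exact range_eq_of_mul_eq (u := a) (v := u) e1 h3

/-- `[M : (σ-1)M] = 2 |ker (σ-1)|` if `σ^m = -1`, `rank M = m = 2^j`. -/
theorem index_sub_one [Module.Finite ℤ M] {j : ℕ} (σ : AddMonoid.End M)
    (hN : σ ^ (2 ^ j) + 1 = 0) (hr : Module.finrank ℤ M = 2 ^ j) :
    Nat.card (kerE (σ - 1)) ≠ 0 ∧ (rangeE (σ - 1)).index = 2 * Nat.card (kerE (σ - 1)) := by
  obtain ⟨hk, hrg⟩ := ker_range_of_pow_eq_neg_one σ hN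
  have h2 : (2 : AddMonoid.End M) = nsmulAddMonoidHom 2 := by
    ext x
    show (2 : AddMonoid.End M) x = (2 : ℕ) • x
    have h3 : (2 : AddMonoid.End M) = 1 + 1 := one_add_one_eq_two.symm
    rw [h3, two_nsmul]
    rfl
  have h3 : (rangeE (2 : AddMonoid.End M)).index =
      2 ^ (2 ^ j) * Nat.card (kerE (2 : AddMonoid.End M)) := by
    rw [h2, ← hr]
    exact H47.index_range_nsmul_eq M two_ne_zero
  have hfin : Finite (kerE (2 : AddMonoid.End M)) := by
    -- the 2-torsion of a finitely generated group is finite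
    have htor : kerE (2 : AddMonoid.End M) ≤
        (Submodule.torsion ℤ M).toAddSubgroup := by
      intro x hx
      rw [h2] at hx
      have hx' : (2 : ℕ) • x = 0 := hx
      rw [Submodule.mem_toAddSubgroup, Submodule.mem_torsion_iff]
      refine ⟨⟨2, mem_nonZeroDivisors_of_ne_zero two_ne_zero⟩, ?_⟩
      show (2 : ℤ) • x = 0
      rw [← hx', ← natCast_zsmul]
      rfl
    have : Finite (Submodule.torsion ℤ M) := by
      have : Module.IsTorsion ℤ (Submodule.torsion ℤ M) := Submodule.torsion_isTorsion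
      exact Module.finite_of_fg_torsion _ this
    exact Finite.Set.subset ((Submodule.torsion ℤ M : Submodule ℤ M) : Set M) htor
  have hc : Nat.card (kerE (2 : AddMonoid.End M)) ≠ 0 := Nat.card_ne_zero.mpr ⟨⟨0⟩, hfin⟩
  have h4 := index_pow_mul (σ - 1) (2 ^ j) (by rw [hk]; exact hc)
  rw [hk, hrg, h3] at h4
  have hfinD : Finite (kerE (σ - 1)) := by
    have hle : kerE (σ - 1) ≤ kerE ((σ - 1) ^ (2 ^ j)) := by
      intro x hx
      obtain ⟨m, hm⟩ : ∃ m, 2 ^ j = m + 1 := ⟨2 ^ j - 1, by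
        have : 0 < 2 ^ j := by positivity
        omega⟩
      rw [hm, pow_succ, mem_kerE, End_mul_apply]
      rw [mem_kerE] at hx
      rw [hx, map_zero]
    rw [hk] at hle
    exact Finite.Set.subset (kerE (2 : AddMonoid.End M) : Set M) hle
  refine ⟨Nat.card_ne_zero.mpr ⟨⟨0⟩, hfinD⟩, ?_⟩
  have h5 : (2 * Nat.card (kerE (σ - 1))) ^ (2 ^ j) = (rangeE (σ - 1)).index ^ (2 ^ j) := by
    apply Nat.eq_of_mul_eq_mul_right (Nat.pos_of_ne_zero hc)
    rw [← h4, mul_pow]
    ring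
  exact (Nat.pow_left_injective (by positivity : (2 ^ j : ℕ) ≠ 0) h5).symm

end index

end Fermat.Agent.H91.FI
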