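import Mathlib
import Fermat.Agent.H91FIa

/-!
# Herbrand quotients for cyclic groups of order `2^k`, continued (LT-MOD2, M5)
-/

set_option autoImplicit false

namespace Fermat.Agent.H91.FI

open AddSubgroup Fermat.Agent.H54

section HQ

variable {M A C : Type*} [AddCommGroup M] [AddCommGroup A] [AddCommGroup C]

/-- the norm element -/
noncomputable def nE (s : AddMonoid.End M) (n : ℕ) : AddMonoid.End M := ∑ i ∈ Finset.range n, s ^ i

lemma sub_one_mul_nE (s : AddMonoid.End M) (n : ℕ) : (s - 1) * nE s n = s ^ n - 1 :=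
  mul_geom_sum s n

lemma nE_mul_sub_one (s : AddMonoid.End M) (n : ℕ) : nE s n * (s - 1) = s ^ n - 1 :=
  geom_sum_mul s n

lemma nE_apply (s : AddMonoid.End M) (n : ℕ) (x : M) :
    nE s n x = ∑ i ∈ Finset.range n, (s ^ i) x := by
  rw [nE]
  induction n with
  | zero => simp
  | succ n ih =>
    rw [Finset.sum_range_succ, Finset.sum_range_succ, ← ih]
    rfl

/-- The Herbrand quotient `[ker (s-1) : im N] / [ker N : im (s-1)]` is `b / a`. -/
structure HQ (n : ℕ) (s : AddMonoid.End M) (a b : ℕ) : Prop where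
  ne1 : h0 (M := M) (s - 1 : AddMonoid.End M) (nE s n : AddMonoid.End M) ≠ 0
  ne2 : h0 (M := M) (nE s n : AddMonoid.End M) (s - 1 : AddMonoid.End M) ≠ 0
  eq : a * h0 (M := M) (s - 1 : AddMonoid.End M) (nE s n : AddMonoid.End M) =
    b * h0 (M := M) (nE s n : AddMonoid.End M) (s - 1 : AddMonoid.End M)

lemma HQ.of_finite [Finite M] {n : ℕ} {s : AddMonoid.End M} (hs : s ^ n = 1) : HQ n s 1 1 := by
  have h1 : ∀ x, (s - 1 : AddMonoid.End M) (nE s n x) = 0 := fun x => by
    have := sub_one_mul_nE s n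
    rw [hs, sub_self] at this
    exact DFunLike.congr_fun this x
  have h2 : ∀ x, nE s n ((s - 1 : AddMonoid.End M) x) = 0 := fun x => by
    have := nE_mul_sub_one s n
    rw [hs, sub_self] at this
    exact DFunLike.congr_fun this x
  have hne : ∀ f g : M →+ M, h0 f g ≠ 0 := by
    intro f g
    exact AddSubgroup.index_ne_zero_of_finite (H := g.range.addSubgroupOf f.ker)
  exact ⟨hne _ _, hne _ _, by rw [h0_eq_of_finite _ _ h1 h2]⟩

section exact

variable {n : ℕ} {s : AddMonoid.End M} {sA : AddMonoid.End A} {sC : AddMonoid.End C}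
  (i : A →+ M) (j : M →+ C)

lemma pow_comm (hi : ∀ a, i (sA a) = s (i a)) (m : ℕ) (a : A) :
    i ((sA ^ m) a) = (s ^ m) (i a) := by
  induction m generalizing a with
  | zero => rfl
  | succ m ih =>
    rw [pow_succ, pow_succ]
    show i ((sA ^ m) (sA a)) = (s ^ m) (s (i a))
    rw [ih, hi]

lemma nE_comm (hi : ∀ a, i (sA a) = s (i a)) (a : A) : i (nE sA n a) = nE s n (i a) := by
  rw [nE_apply, nE_apply, map_sum]
  exact Finset.sum_congr rfl fun m _ => pow_comm i hi m a

lemma sub_one_comm (hi : ∀ a, i (sA a) = s (i a)) (a : A) :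
    i ((sA - 1 : AddMonoid.End A) a) = (s - 1 : AddMonoid.End M) (i a) := by
  show i (sA a - a) = s (i a) - i a
  rw [map_sub, hi]

variable (hs : s ^ n = 1) (hi : Function.Injective i) (hj : Function.Surjective j)
  (hex : j.ker = i.range) (hiA : ∀ a, i (sA a) = s (i a)) (hjC : ∀ m, j (s m) = sC (j m))

include hs in
lemma D_N (x : M) : (s - 1 : AddMonoid.End M) (nE s n x) = 0 := by
  have := sub_one_mul_nE s n
  rw [hs, sub_self] at this
  exact DFunLike.congr_fun this x

include hs in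
lemma N_D (x : M) : nE s n ((s - 1 : AddMonoid.End M) x) = 0 := by
  have := nE_mul_sub_one s n
  rw [hs, sub_self] at this
  exact DFunLike.congr_fun this x

include hs hi hj hex hiA hjC in
theorem HQ.mul {a b a' b' : ℕ} (hA : HQ n sA a b) (hC : HQ n sC a' b') :
    HQ n s (a * a') (b * b') := by
  obtain ⟨h1, -, -, c, e1, e2, e3⟩ := herbrand_mul i j hi hj hex
    (s - 1 : AddMonoid.End M) (nE s n) (sA - 1 : AddMonoid.End A) (nE sA n)
    (sC - 1 : AddMonoid.End C) (nE sC n) (D_N hs) (N_D hs)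
    (sub_one_comm i hiA) (nE_comm i hiA) (fun m => sub_one_comm j hjC m) (fun m => nE_comm j hjC m)
  obtain ⟨k1, k2⟩ := h1 hA.ne1 hA.ne2 hC.ne1 hC.ne2
  have hc := e3 (mul_ne_zero hA.ne1 hC.ne1) (mul_ne_zero hA.ne2 hC.ne2)
  refine ⟨k1, k2, ?_⟩
  apply Nat.eq_of_mul_eq_mul_right (Nat.pos_of_ne_zero hc)
  have eA := hA.eq
  have eC := hC.eq
  calc _ = (a * a') * (h0 (M := M) (s - 1 : AddMonoid.End M) (nE s n) * c) := by ring
    _ = (a * h0 (M := A) (sA - 1 : AddMonoid.End A) (nE sA n)) *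
        (a' * h0 (M := C) (sC - 1 : AddMonoid.End C) (nE sC n)) := by rw [← e1]; ring
    _ = (b * b') * (h0 (M := M) (nE s n) (s - 1 : AddMonoid.End M) * c) := by
        rw [eA, eC, ← e2]; ring
    _ = _ := by ring

include hs hi hj hex hiA hjC in
theorem HQ.quot {a b a' b' : ℕ} (hM : HQ n s a b) (hA : HQ n sA a' b') :
    HQ n sC (a * b') (b * a') := by
  obtain ⟨-, -, h1, c, e1, e2, e3⟩ := herbrand_mul i j hi hj hex
    (s - 1 : AddMonoid.End M) (nE s n) (sA - 1 : AddMonoid.End A) (nE sA n)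
    (sC - 1 : AddMonoid.End C) (nE sC n) (D_N hs) (N_D hs)
    (sub_one_comm i hiA) (nE_comm i hiA) (fun m => sub_one_comm j hjC m) (fun m => nE_comm j hjC m)
  obtain ⟨k1, k2⟩ := h1 hM.ne1 hM.ne2 hA.ne1 hA.ne2
  have hc := e3 (mul_ne_zero hA.ne1 k1) (mul_ne_zero hA.ne2 k2)
  refine ⟨k1, k2, ?_⟩
  have eA := hA.eq
  have eM := hM.eq
  apply Nat.eq_of_mul_eq_mul_right (Nat.pos_of_ne_zero (mul_ne_zero hA.ne1 hA.ne2))
  calc _ = (a * b') * (h0 (M := A) (sA - 1 : AddMonoid.End A) (nE sA n) *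
        h0 (M := C) (sC - 1 : AddMonoid.End C) (nE sC n)) *
        h0 (M := A) (nE sA n) (sA - 1 : AddMonoid.End A) := by ring
    _ = (a * h0 (M := M) (s - 1 : AddMonoid.End M) (nE s n)) * c *
        (b' * h0 (M := A) (nE sA n) (sA - 1 : AddMonoid.End A)) := by rw [e1]; ring
    _ = b * (h0 (M := M) (nE s n) (s - 1 : AddMonoid.End M) * c) *
        (a' * h0 (M := A) (sA - 1 : AddMonoid.End A) (nE sA n)) := by rw [eM, ← eA]; ring
    _ = _ := by rw [← e2]; ring

include hs hi hj hex hiA hjC in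
theorem HQ.sub {a b a' b' : ℕ} (hM : HQ n s a b) (hC : HQ n sC a' b') :
    HQ n sA (a * b') (b * a') := by
  obtain ⟨-, h1, -, c, e1, e2, e3⟩ := herbrand_mul i j hi hj hex
    (s - 1 : AddMonoid.End M) (nE s n) (sA - 1 : AddMonoid.End A) (nE sA n)
    (sC - 1 : AddMonoid.End C) (nE sC n) (D_N hs) (N_D hs)
    (sub_one_comm i hiA) (nE_comm i hiA) (fun m => sub_one_comm j hjC m) (fun m => nE_comm j hjC m)
  obtain ⟨k1, k2⟩ := h1 hM.ne1 hM.ne2 hC.ne1 hC.ne2
  have hc := e3 (mul_ne_zero k1 hC.ne1) (mul_ne_zero k2 hC.ne2)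
  refine ⟨k1, k2, ?_⟩
  have eC := hC.eq
  have eM := hM.eq
  apply Nat.eq_of_mul_eq_mul_right (Nat.pos_of_ne_zero (mul_ne_zero hC.ne1 hC.ne2))
  calc _ = (a * b') * (h0 (M := A) (sA - 1 : AddMonoid.End A) (nE sA n) *
        h0 (M := C) (sC - 1 : AddMonoid.End C) (nE sC n)) *
        h0 (M := C) (nE sC n) (sC - 1 : AddMonoid.End C) := by ring
    _ = (a * h0 (M := M) (s - 1 : AddMonoid.End M) (nE s n)) * c *
        (b' * h0 (M := C) (nE sC n) (sC - 1 : AddMonoid.End C)) := by rw [e1]; ring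
    _ = b * (h0 (M := M) (nE s n) (s - 1 : AddMonoid.End M) * c) *
        (a' * h0 (M := C) (sC - 1 : AddMonoid.End C) (nE sC n)) := by rw [eM, ← eC]; ring
    _ = _ := by rw [← e2]; ring

end exact

end HQ

section chain

variable {M : Type*} [AddCommGroup M]

/-- restriction of an endomorphism to a stable subgroup -/
def resE (s : AddMonoid.End M) (H : AddSubgroup M) (hH : ∀ x ∈ H, s x ∈ H) : AddMonoid.End H :=
  AddMonoidHom.mk' (fun x => ⟨s x, hH x x.2⟩) (fun _ _ => Subtype.ext (map_add s _ _))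

@[simp] lemma coe_resE (s : AddMonoid.End M) (H : AddSubgroup M) (hH : ∀ x ∈ H, s x ∈ H) (x : H) :
    (resE s H hH x : M) = s x := rfl

lemma nE_two_pow_succ (s : AddMonoid.End M) (k : ℕ) :
    nE s (2 ^ (k + 1)) = nE s (2 ^ k) * (1 + s ^ (2 ^ k)) := by
  rw [nE, nE, pow_succ, mul_two, Finset.sum_range_add, mul_add, mul_one, Finset.sum_mul]
  congr 1
  refine Finset.sum_congr rfl fun i _ => ?_
  rw [← pow_add, add_comm]

lemma nE_two_pow_eq_zero {s : AddMonoid.End M} {i k : ℕ} (hik : i < k)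
    (h : s ^ (2 ^ i) + 1 = 0) : nE s (2 ^ k) = 0 := by
  induction k with
  | zero => omega
  | succ k ih =>
    rw [nE_two_pow_succ]
    rcases Nat.lt_or_ge i k with h1 | h1
    · rw [ih h1, zero_mul]
    · have : i = k := by omega
      subst this
      rw [add_comm, h, mul_zero]

lemma h0_zero_right (f : M →+ M) : h0 f 0 = Nat.card f.ker := by
  rw [h0, AddMonoidHom.range_zero, relIndex_bot_left]

lemma h0_zero_left (g : M →+ M) : h0 0 g = g.range.index := by
  have h3 : AddMonoidHom.ker (0 : M →+ M) = ⊤ := by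
    rw [eq_top_iff]
    intro x _
    rfl
  rw [h0, h3, relIndex_top_right]

lemma HQ.of_pow_eq_neg_one [Module.Finite ℤ M] {s : AddMonoid.End M} {i k : ℕ} (hik : i < k)
    (h : s ^ (2 ^ i) + 1 = 0) (hr : Module.finrank ℤ M = 2 ^ i) : HQ (2 ^ k) s 2 1 := by
  obtain ⟨h1, h2⟩ := index_sub_one s h hr
  have hN := nE_two_pow_eq_zero hik h
  have e1 : h0 (M := M) (s - 1 : AddMonoid.End M) (nE s (2 ^ k)) = Nat.card (kerE (s - 1)) := by
    rw [hN]
    exact h0_zero_right _
  have e2 : h0 (M := M) (nE s (2 ^ k)) (s - 1 : AddMonoid.End M) = (rangeE (s - 1)).index := by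
    rw [hN]
    exact h0_zero_left _
  refine ⟨by rwa [e1], ?_, ?_⟩
  · rw [e2, h2]
    exact mul_ne_zero two_ne_zero h1
  · rw [e1, e2, h2, one_mul]

lemma finrank_exact {A M C : Type*} [AddCommGroup A] [AddCommGroup M] [AddCommGroup C]
    [Module.Finite ℤ M] (i : A →+ M) (j : M →+ C) (hi : Function.Injective i)
    (hj : Function.Surjective j) (hex : j.ker = i.range) :
    Module.finrank ℤ M = Module.finrank ℤ A + Module.finrank ℤ C := by
  let j' : M →ₗ[ℤ] C := j.toIntLinearMap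
  let i' : A →ₗ[ℤ] M := i.toIntLinearMap
  have h1 := Submodule.finrank_quotient_add_finrank (LinearMap.ker j')
  have h2 : Module.finrank ℤ (M ⧸ LinearMap.ker j') = Module.finrank ℤ C :=
    (j'.quotKerEquivOfSurjective hj).finrank_eq
  have h3 : Module.finrank ℤ (LinearMap.ker j') = Module.finrank ℤ A := by
    have h4 : LinearMap.ker j' = LinearMap.range i' := by
      ext x
      have : x ∈ j.ker ↔ x ∈ i.range := by rw [hex]
      exact this
    rw [h4]
    exact (LinearEquiv.ofInjective i' hi).finrank_eq.symm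
  rw [← h1, h2, h3, add_comm]

/-- the subgroup fixed by `s ^ m` -/
def fixE (s : AddMonoid.End M) (m : ℕ) : AddSubgroup M := kerE (s ^ m - 1)

lemma mem_fixE {s : AddMonoid.End M} {m : ℕ} {x : M} : x ∈ fixE s m ↔ (s ^ m) x = x := by
  rw [fixE, mem_kerE]
  show (s ^ m) x - x = 0 ↔ _
  rw [sub_eq_zero]

lemma pow_apply_comm (s : AddMonoid.End M) (m : ℕ) (x : M) : (s ^ m) (s x) = s ((s ^ m) x) := by
  have h : s ^ m * s = s * s ^ m := by rw [← pow_succ, ← pow_succ']
  exact DFunLike.congr_fun h x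

lemma fixE_stable (s : AddMonoid.End M) (m : ℕ) : ∀ x ∈ fixE s m, s x ∈ fixE s m := by
  intro x hx
  rw [mem_fixE] at hx ⊢
  rw [pow_apply_comm, hx]

lemma resE_pow_apply (s : AddMonoid.End M) (H : AddSubgroup M) (hH : ∀ x ∈ H, s x ∈ H) (m : ℕ)
    (x : H) : (((resE s H hH) ^ m) x : M) = (s ^ m) x := by
  induction m generalizing x with
  | zero => rfl
  | succ m ih =>
    rw [pow_succ, pow_succ]
    show ((resE s H hH ^ m) (resE s H hH x) : M) = (s ^ m) (s x)
    rw [ih]
    rfl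

lemma resE_pow_eq_one {s : AddMonoid.End M} {H : AddSubgroup M} (hH : ∀ x ∈ H, s x ∈ H) {n : ℕ}
    (hs : s ^ n = 1) : (resE s H hH) ^ n = 1 := by
  ext x
  rw [resE_pow_apply, hs]
  rfl

/-- the induction step: from `M_i` to `M_{i+1}` -/
lemma HQ.step [Module.Finite ℤ M] {s : AddMonoid.End M} {k i : ℕ} (hik : i < k)
    (hs : s ^ (2 ^ k) = 1) {a b : ℕ}
    (hr : Module.finrank ℤ (fixE s (2 ^ (i + 1))) = Module.finrank ℤ (fixE s (2 ^ i)) + 2 ^ i)
    (h : HQ (2 ^ k) (resE s (fixE s (2 ^ i)) (fixE_stable s _)) a b) :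
    HQ (2 ^ k) (resE s (fixE s (2 ^ (i + 1))) (fixE_stable s _)) (a * 2) b := by
  set A := fixE s (2 ^ i) with hA
  set B := fixE s (2 ^ (i + 1)) with hB
  have hle : A ≤ B := by
    intro x hx
    rw [hA, mem_fixE] at hx
    rw [hB, mem_fixE, pow_succ, mul_two, pow_add]
    show (s ^ 2 ^ i) ((s ^ 2 ^ i) x) = x
    rw [hx, hx]
  let t : AddMonoid.End M := s ^ 2 ^ i - 1
  have ht : ∀ x, t x = (s ^ 2 ^ i) x - x := fun x => rfl
  let Q : AddSubgroup M := B.map (show M →+ M from t)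
  have hQs : ∀ x ∈ Q, s x ∈ Q := by
    rintro _ ⟨x, hx, rfl⟩
    refine ⟨s x, fixE_stable s _ x hx, ?_⟩
    show (s ^ 2 ^ i) (s x) - s x = s ((s ^ 2 ^ i) x - x)
    rw [pow_apply_comm, map_sub]
  let j : B →+ Q := AddMonoidHom.mk' (fun x => ⟨t x, ⟨x, x.2, rfl⟩⟩)
    (fun _ _ => Subtype.ext (map_add t _ _))
  have hj : Function.Surjective j := by
    rintro ⟨_, x, hx, rfl⟩
    exact ⟨⟨x, hx⟩, rfl⟩
  let ι : A →+ B := AddSubgroup.inclusion hle
  have hι : Function.Injective ι := AddSubgroup.inclusion_injective hle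
  have hex : j.ker = ι.range := by
    ext x
    rw [AddMonoidHom.mem_ker, AddMonoidHom.mem_range]
    constructor
    · intro h0
      have h1 : t x = 0 := congrArg Subtype.val h0
      rw [ht, sub_eq_zero] at h1
      exact ⟨⟨x, by rw [hA, mem_fixE]; exact h1⟩, rfl⟩
    · rintro ⟨y, rfl⟩
      apply Subtype.ext
      show t (y : M) = 0
      have h1 : (s ^ 2 ^ i) (y : M) = y := mem_fixE.1 y.2
      rw [ht, h1, sub_self]
  have hfB : Module.Finite ℤ B := Module.Finite.of_injective B.subtype.toIntLinearMap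
    Subtype.val_injective
  have hfQ : Module.Finite ℤ Q := Module.Finite.of_injective Q.subtype.toIntLinearMap
    Subtype.val_injective
  have hrQ : Module.finrank ℤ Q = 2 ^ i := by
    have := finrank_exact ι j hι hj hex
    omega
  have hQ1 : (resE s Q hQs) ^ (2 ^ i) + 1 = 0 := by
    ext x
    show (((resE s Q hQs) ^ (2 ^ i)) x : M) + (x : M) = 0
    rw [resE_pow_apply]
    obtain ⟨_, y, hy, rfl⟩ := x
    have hy' : (s ^ 2 ^ i) ((s ^ 2 ^ i) y) = y := by
      have h1 : y ∈ B := hy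
      rw [hB, mem_fixE, pow_succ, mul_two, pow_add] at h1
      exact h1
    show (s ^ 2 ^ i) ((s ^ 2 ^ i) y - y) + ((s ^ 2 ^ i) y - y) = 0
    rw [map_sub, hy']
    abel
  have hHQ : HQ (2 ^ k) (resE s Q hQs) 2 1 := HQ.of_pow_eq_neg_one hik hQ1 hrQ
  have := HQ.mul (s := resE s B (fixE_stable s _)) ι j (resE_pow_eq_one _ hs) hι hj hex
    (fun a => rfl) (fun m => ?_) h hHQ
  · rwa [mul_one] at this
  · apply Subtype.ext
    show (s ^ 2 ^ i) (s m) - s m = s ((s ^ 2 ^ i) m - m)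
    rw [pow_apply_comm, map_sub]

/-- Herbrand quotient from the ranks of the fixed subgroups -/
theorem HQ.of_finrank [Module.Finite ℤ M] {s : AddMonoid.End M} {k : ℕ}
    (hs : s ^ (2 ^ k) = 1)
    (hr : ∀ i ≤ k, Module.finrank ℤ (fixE s (2 ^ i)) + 1 = 2 ^ i) :
    HQ (2 ^ k) s (2 ^ k) 1 := by
  have key : ∀ i ≤ k, HQ (2 ^ k) (resE s (fixE s (2 ^ i)) (fixE_stable s _)) (2 ^ i) 1 := by
    intro i
    induction i with
    | zero =>
      intro _
      have h1 := hr 0 (Nat.zero_le _)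
      have h2 : Module.finrank ℤ (fixE s (2 ^ 0)) = 0 := by simpa using h1
      have hfB : Module.Finite ℤ (fixE s (2 ^ 0)) :=
        Module.Finite.of_injective (fixE s (2 ^ 0)).subtype.toIntLinearMap Subtype.val_injective
      have : Finite (fixE s (2 ^ 0)) := by
        have h3 : Module.IsTorsion ℤ (fixE s (2 ^ 0)) := by
          rw [Module.finrank_eq_zero_iff_isTorsion] at h2
          exact h2
        exact Module.finite_of_fg_torsion _ h3
      rw [pow_zero]
      exact HQ.of_finite (resE_pow_eq_one _ hs)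
    | succ i ih =>
      intro hi
      have h1 := hr (i + 1) hi
      have h2 := hr i (by omega)
      have h3 : 2 ^ (i + 1) = 2 ^ i * 2 := pow_succ 2 i
      rw [h3]
      refine HQ.step (by omega) hs ?_ (ih (by omega))
      omega
  have h1 := key k le_rfl
  have htop : fixE s (2 ^ k) = ⊤ := by
    rw [eq_top_iff]
    intro x _
    rw [mem_fixE, hs]
    rfl
  -- transport along `fixE s (2^k) = ⊤`
  let j : fixE s (2 ^ k) →+ M := (fixE s (2 ^ k)).subtype
  have hj : Function.Surjective j := fun x => ⟨⟨x, by rw [htop]; trivial⟩, rfl⟩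
  have hinj : Function.Injective j := Subtype.val_injective
  have h2 : HQ (2 ^ k) (0 : AddMonoid.End PUnit) 1 1 :=
    HQ.of_finite (by ext)
  have := HQ.quot (M := fixE s (2 ^ k)) (A := PUnit) (C := M)
    (s := resE s (fixE s (2 ^ k)) (fixE_stable s _)) (0 : PUnit →+ fixE s (2 ^ k)) j
    (resE_pow_eq_one _ hs) (fun _ _ _ => rfl) hj ?_ (fun a => ?_) (fun m => rfl) h1 h2
  · simpa using this
  · ext x
    rw [AddMonoidHom.mem_ker, AddMonoidHom.mem_range]
    constructor
    · intro h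
      exact ⟨PUnit.unit, (hinj (by rw [h]; rfl)).symm⟩
    · rintro ⟨y, rfl⟩
      rfl
  · simp

end chain

end Fermat.Agent.H91.FI
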