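import Mathlib
import Fermat.Agent.H91FIb

/-!
# The first inequality, abstract form (LT-MOD2, M5)
-/

set_option autoImplicit false

namespace Fermat.Agent.H91.FI

open AddSubgroup Fermat.Agent.H54

variable {M : Type*} [AddCommGroup M]

/-- finiteness of the Tate groups of a finitely generated module -/
theorem h0_ne_zero [Module.Finite ℤ M] {n : ℕ} (hn : n ≠ 0) (f' g' : AddMonoid.End M)
    (hfg : ∀ x, f' x = 0 → ∃ y, n • x = g' y) : h0 (M := M) f' g' ≠ 0 := by
  classical
  let f : M →+ M := f'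
  let g : M →+ M := g'
  have hfin : Module.Finite ℤ f.ker := Module.Finite.of_injective f.ker.subtype.toIntLinearMap
    Subtype.val_injective
  let H : AddSubgroup f.ker := g.range.addSubgroupOf f.ker
  have h1 : Module.IsTorsion ℤ (f.ker ⧸ H) := by
    intro x
    induction x using QuotientAddGroup.induction_on with
    | H x =>
      refine ⟨⟨(n : ℤ), mem_nonZeroDivisors_of_ne_zero (by exact_mod_cast hn)⟩, ?_⟩
      show (n : ℤ) • (QuotientAddGroup.mk x : f.ker ⧸ H) = 0
      rw [natCast_zsmul, ← QuotientAddGroup.mk_nsmul, QuotientAddGroup.eq_zero_iff]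
      obtain ⟨y, hy⟩ := hfg x x.2
      exact ⟨y, hy.symm⟩
  have hfq : Module.Finite ℤ (f.ker ⧸ H) :=
    Module.Finite.of_surjective (QuotientAddGroup.mk' H).toIntLinearMap
      (QuotientAddGroup.mk'_surjective H)
  have : Finite (f.ker ⧸ H) := Module.finite_of_fg_torsion _ h1
  exact AddSubgroup.index_ne_zero_of_finite (H := H)

lemma pow_fixed {s : AddMonoid.End M} {x : M} (hx : s x = x) (m : ℕ) : (s ^ m) x = x := by
  induction m with
  | zero => rfl
  | succ m ih =>
    rw [pow_succ]
    show (s ^ m) (s x) = x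
    rw [hx, ih]

lemma pow_sub_mem_range (s : AddMonoid.End M) (m : ℕ) (x : M) :
    ∃ y, (s ^ m) x - x = (s - 1 : AddMonoid.End M) y := by
  induction m with
  | zero => exact ⟨0, by rw [map_zero]; show x - x = 0; rw [sub_self]⟩
  | succ m ih =>
    obtain ⟨y, hy⟩ := ih
    refine ⟨(s ^ m) x + y, ?_⟩
    rw [map_add, ← hy, pow_succ']
    show s ((s ^ m) x) - x = (s ((s ^ m) x) - (s ^ m) x) + ((s ^ m) x - x)
    abel

/-- all Tate groups are finite -/
theorem HQ.of_fg [Module.Finite ℤ M] {n : ℕ} (hn : n ≠ 0) {s : AddMonoid.End M} (hs : s ^ n = 1) :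
    HQ n s (h0 (M := M) (nE s n) (s - 1 : AddMonoid.End M))
      (h0 (M := M) (s - 1 : AddMonoid.End M) (nE s n)) where
  ne1 := by
    refine h0_ne_zero hn (s - 1) (nE s n) (fun x hx => ⟨x, ?_⟩)
    have hx' : s x = x := sub_eq_zero.1 hx
    rw [nE_apply, Finset.sum_congr rfl (fun m _ => pow_fixed hx' m), Finset.sum_const,
      Finset.card_range]
  ne2 := by
    refine h0_ne_zero hn (nE s n) (s - 1) (fun x hx => ?_)
    choose y hy using fun m => pow_sub_mem_range s m x
    refine ⟨-∑ m ∈ Finset.range n, y m, ?_⟩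
    rw [map_neg, map_sum, Finset.sum_congr rfl (fun m _ => (hy m).symm), Finset.sum_sub_distrib,
      Finset.sum_const, Finset.card_range]
    rw [nE_apply] at hx
    rw [hx, zero_sub, neg_neg]
  eq := mul_comm _ _

/-- **first inequality, abstract form** -/
theorem first_inequality_abstract {E T : Type*} [AddCommGroup E] [AddCommGroup T]
    [Module.Finite ℤ T] [Module.Finite ℤ M] {n : ℕ} (hn : n ≠ 0)
    {sE : AddMonoid.End E} {sT : AddMonoid.End T} {sM : AddMonoid.End M}
    (i : E →+ T) (j : T →+ M) (hi : Function.Injective i) (hex : j.ker = i.range)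
    (hfin : Finite (M ⧸ j.range))
    (hiE : ∀ a, i (sE a) = sT (i a)) (hjT : ∀ a, j (sT a) = sM (j a))
    (hsT : sT ^ n = 1) (hsM : sM ^ n = 1)
    (hE : HQ n sE n 1)
    (hH : h0 (M := T) (nE sT n) (sT - 1 : AddMonoid.End T) = 1) :
    let R := (rangeE (nE sM n)) ⊔ (kerE (sT - 1)).map j
    R ≤ kerE (sM - 1) ∧ R.relIndex (kerE (sM - 1)) ≠ 0 ∧ n ≤ R.relIndex (kerE (sM - 1)) := by
  intro R
  set u := h0 (M := T) (sT - 1 : AddMonoid.End T) (nE sT n) with hu
  have hT : HQ n sT 1 u := by
    have := HQ.of_fg hn hsT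
    rw [hH] at this
    exact this
  -- the image of `j`
  have hPs : ∀ x ∈ j.range, sM x ∈ j.range := by
    rintro _ ⟨x, rfl⟩
    exact ⟨sT x, hjT x⟩
  have hP : HQ n (resE sM j.range hPs) (1 * 1) (u * n) :=
    HQ.quot (M := T) (A := E) (C := j.range) (s := sT) (sA := sE) (sC := resE sM j.range hPs)
      i j.rangeRestrict hsT hi j.rangeRestrict_surjective
      (by
        rw [← hex]
        ext x
        rw [AddMonoidHom.mem_ker, AddMonoidHom.mem_ker]
        constructor
        · intro h; exact congrArg Subtype.val h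
        · intro h; exact Subtype.ext h) hiE
      (fun m => Subtype.ext (hjT m)) hT hE
  -- the quotient
  let sC : AddMonoid.End (M ⧸ j.range) := QuotientAddGroup.map _ _ (show M →+ M from sM) (by
    intro x hx; exact hPs x hx)
  have hsC : sC ^ n = 1 := by
    have key : ∀ m : ℕ, ∀ x : M, (sC ^ m) (QuotientAddGroup.mk x : M ⧸ j.range) =
        QuotientAddGroup.mk ((sM ^ m) x) := by
      intro m
      induction m with
      | zero => intro x; rfl
      | succ m ih =>
        intro x
        rw [pow_succ, pow_succ]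
        show (sC ^ m) (sC (QuotientAddGroup.mk x)) = _
        have h1 : sC (QuotientAddGroup.mk x) = QuotientAddGroup.mk (sM x) := rfl
        rw [h1, ih]
        rfl
    refine DFunLike.ext _ _ fun y => ?_
    induction y using QuotientAddGroup.induction_on with
    | H x =>
      rw [key, hsM]
      rfl
  have hC : HQ n sC 1 1 := HQ.of_finite hsC
  have hM : HQ n sM (1 * 1 * 1) (u * n * 1) :=
    HQ.mul (M := M) (A := j.range) (C := M ⧸ j.range) (s := sM) (sA := resE sM j.range hPs)
      (sC := sC) j.range.subtype (QuotientAddGroup.mk' j.range) hsM Subtype.val_injective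
      (QuotientAddGroup.mk'_surjective _) (by
        rw [QuotientAddGroup.ker_mk', AddSubgroup.range_subtype]) (fun _ => rfl) (fun _ => rfl) hP hC
  have hxM := hM.eq
  have hne := hM.ne1
  rw [one_mul, one_mul, one_mul, mul_one] at hxM
  -- the chain of subgroups
  have hNR : rangeE (nE sM n) ≤ R := le_sup_left
  have hRK : R ≤ kerE (sM - 1) := by
    refine sup_le ?_ ?_
    · rintro _ ⟨x, rfl⟩
      exact D_N hsM x
    · rintro _ ⟨x, hx, rfl⟩
      have hx' : sT x = x := sub_eq_zero.1 hx
      show sM (j x) - j x = 0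
      rw [← hjT, hx', sub_self]
  have h1 : (rangeE (nE sM n)).relIndex R * R.relIndex (kerE (sM - 1)) =
      h0 (M := M) (sM - 1 : AddMonoid.End M) (nE sM n) :=
    relIndex_mul_relIndex _ _ _ hNR hRK
  have h2 : (rangeE (nE sM n)).relIndex R ∣ u := by
    have e1 : (rangeE (nE sM n)).relIndex R =
        (rangeE (nE sM n)).relIndex ((kerE (sT - 1)).map j) := relIndex_sup_left _ _
    rw [e1]
    have hle : (rangeE (nE sT n)).map j ≤ rangeE (nE sM n) := by
      rintro _ ⟨_, ⟨x, rfl⟩, rfl⟩
      exact ⟨j x, (nE_comm j hjT x).symm⟩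
    refine (relIndex_dvd_of_le_left _ hle).trans ?_
    rw [relIndex_map_map]
    have h3 : (rangeE (nE sT n) ⊔ j.ker).relIndex (kerE (sT - 1) ⊔ j.ker) =
        (rangeE (nE sT n) ⊔ j.ker).relIndex (kerE (sT - 1)) := by
      have h4 : kerE (sT - 1) ⊔ (rangeE (nE sT n) ⊔ j.ker) = kerE (sT - 1) ⊔ j.ker := by
        rw [← sup_assoc, sup_of_le_left (a := kerE (sT - 1))]
        rintro _ ⟨x, rfl⟩
        exact D_N hsT x
      rw [← h4, relIndex_sup_right]
    rw [h3]
    exact relIndex_dvd_of_le_left _ le_sup_left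
  have hu0 : u ≠ 0 := hT.ne1
  have hR0 : R.relIndex (kerE (sM - 1)) ≠ 0 := by
    intro h
    rw [h, mul_zero] at h1
    exact hne h1.symm
  refine ⟨hRK, hR0, ?_⟩
  have h5 : u * n ≤ h0 (M := M) (sM - 1 : AddMonoid.End M) (nE sM n) := by
    rw [hxM]
    exact Nat.le_mul_of_pos_right _ (Nat.pos_of_ne_zero hM.ne2)
  have h6 : (rangeE (nE sM n)).relIndex R ≤ u := Nat.le_of_dvd (Nat.pos_of_ne_zero hu0) h2
  have h7 : u * n ≤ u * R.relIndex (kerE (sM - 1)) := by
    calc u * n ≤ (rangeE (nE sM n)).relIndex R * R.relIndex (kerE (sM - 1)) := by rw [h1]; exact h5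
      _ ≤ _ := Nat.mul_le_mul_right _ h6
  exact Nat.le_of_mul_le_mul_left h7 (Nat.pos_of_ne_zero hu0)

end Fermat.Agent.H91.FI
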