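import Mathlib
import Fermat.Agent.H91FIc

/-!
# The first inequality: Herbrand quotient of the units (LT-MOD2, M5)
-/

set_option autoImplicit false

namespace Fermat.Agent.H91.FI

open NumberField

section units

variable {K L : Type*} [Field K] [NumberField K] [Field L] [NumberField L] [Algebra K L]

lemma rank_add_one_of_totallyComplex (F : Type*) [Field F] [NumberField F] [IsTotallyComplex F] :
    2 * (Units.rank F + 1) = Module.finrank ℚ F := by
  have h1 : Units.rank F + 1 = Fintype.card (InfinitePlace F) := by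
    rw [Units.rank]
    exact Nat.succ_pred_eq_of_pos Fintype.card_pos
  rw [h1, IsTotallyComplex.finrank]
  have h2 : Fintype.card (InfinitePlace F) =
      InfinitePlace.nrRealPlaces F + InfinitePlace.nrComplexPlaces F :=
    InfinitePlace.card_eq_nrRealPlaces_add_nrComplexPlaces F
  rw [h2, IsTotallyComplex.nrRealPlaces_eq_zero, zero_add]

/-- the action of a field automorphism on the units -/
noncomputable def unitAct (g : L ≃ₐ[K] L) : AddMonoid.End (Additive (𝓞 L)ˣ) :=
  MonoidHom.toAdditive (Units.map ((RingOfIntegers.mapAlgEquiv g : 𝓞 L ≃ₐ[𝓞 K] 𝓞 L) :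
    𝓞 L →* 𝓞 L))

omit [NumberField K] [NumberField L] in
lemma unitAct_coe (g : L ≃ₐ[K] L) (u : Additive (𝓞 L)ˣ) :
    (((unitAct g u).toMul : 𝓞 L) : L) = g ((u.toMul : 𝓞 L) : L) := rfl

omit [NumberField K] [NumberField L] in
lemma unitAct_pow (g : L ≃ₐ[K] L) (m : ℕ) : (unitAct g) ^ m = unitAct (g ^ m) := by
  induction m with
  | zero =>
    ext u
    rfl
  | succ m ih =>
    rw [pow_succ, ih, pow_succ]
    ext u
    rfl

lemma finrank_fixed_units [IsGalois K L] [IsTotallyComplex K] (hrank : Units.rank K = 0)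
    (g : L ≃ₐ[K] L) (m : ℕ)
    (hm : (Subgroup.zpowers (g ^ m)).index = m) :
    Module.finrank ℤ (fixE (unitAct g) m) + 1 = m := by
  have hfd : FiniteDimensional K L := Module.Finite.of_restrictScalars_finite ℚ K L
  let F : IntermediateField K L := IntermediateField.fixedField (Subgroup.zpowers (g ^ m))
  have hF : Module.finrank K F = m := by
    have h1 : Module.finrank F L = Nat.card (Subgroup.zpowers (g ^ m)) :=
      IntermediateField.finrank_fixedField_eq_card _
    have h2 : Module.finrank K F * Module.finrank F L = Module.finrank K L :=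
      Module.finrank_mul_finrank K F L
    have h3 : Nat.card (Subgroup.zpowers (g ^ m)) * (Subgroup.zpowers (g ^ m)).index =
      Nat.card (L ≃ₐ[K] L) := Subgroup.card_mul_index _
    have h4 : Nat.card (L ≃ₐ[K] L) = Module.finrank K L := IsGalois.card_aut_eq_finrank K L
    have h5 : 0 < Module.finrank F L := Module.finrank_pos
    rw [h4, ← h2, ← h1, hm, mul_comm] at h3
    exact (Nat.eq_of_mul_eq_mul_right h5 h3).symm
  have hNF : NumberField F := inferInstance
  have hTC : IsTotallyComplex F := isTotallyComplex_of_algebra K F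
  have hrF : Units.rank F + 1 = m := by
    have h1 := rank_add_one_of_totallyComplex F
    have h2 := rank_add_one_of_totallyComplex K
    rw [hrank] at h2
    rw [← Module.finrank_mul_finrank ℚ K F, ← h2, hF] at h1
    omega
  -- the isomorphism
  let φ : Additive (𝓞 F)ˣ →+ Additive (𝓞 L)ˣ :=
    MonoidHom.toAdditive (Units.map (algebraMap (𝓞 F) (𝓞 L) : 𝓞 F →* 𝓞 L))
  have hφ : Function.Injective φ := by
    intro a b h
    have h1 : Units.map (algebraMap (𝓞 F) (𝓞 L) : 𝓞 F →* 𝓞 L) a.toMul =
      Units.map (algebraMap (𝓞 F) (𝓞 L) : 𝓞 F →* 𝓞 L) b.toMul := h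
    apply Additive.toMul.injective
    apply Units.ext
    have h2 := congrArg Units.val h1
    exact FaithfulSMul.algebraMap_injective (𝓞 F) (𝓞 L) h2
  have hmem : ∀ x : L, x ∈ F ↔ (g ^ m) x = x := by
    intro x
    constructor
    · intro hx
      exact (IntermediateField.mem_fixedField_iff _ _).1 hx _ (Subgroup.mem_zpowers _)
    · intro hx
      refine (IntermediateField.mem_fixedField_iff _ _).2 fun f hf => ?_
      have h1 : Subgroup.zpowers (g ^ m) ≤ MulAction.stabilizer (L ≃ₐ[K] L) x := by
        rw [Subgroup.zpowers_le]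
        exact hx
      exact h1 hf
  have hrange : (φ.range : AddSubgroup (Additive (𝓞 L)ˣ)) = fixE (unitAct g) m := by
    ext u
    rw [mem_fixE, unitAct_pow]
    constructor
    · rintro ⟨a, rfl⟩
      apply Additive.toMul.injective
      apply Units.ext
      apply RingOfIntegers.ext
      rw [unitAct_coe]
      exact (hmem _).1 (a.toMul : 𝓞 F).1.2
    · intro hu
      have key : ∀ y : (𝓞 L)ˣ, unitAct (g ^ m) (Additive.ofMul y) = Additive.ofMul y →
          ∃ a : 𝓞 F, algebraMap (𝓞 F) (𝓞 L) a = y := by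
        intro y hy
        have h1 : (g ^ m) ((y : 𝓞 L) : L) = ((y : 𝓞 L) : L) := by
          have := congrArg (fun z : Additive (𝓞 L)ˣ => ((z.toMul : 𝓞 L) : L)) hy
          exact this
        have h2 : ((y : 𝓞 L) : L) ∈ F := (hmem _).2 h1
        have h3 : IsIntegral ℤ (⟨((y : 𝓞 L) : L), h2⟩ : F) := by
          have h4 : IsIntegral ℤ (algebraMap F L ⟨((y : 𝓞 L) : L), h2⟩) :=
            RingOfIntegers.isIntegral_coe (y : 𝓞 L)
          exact (isIntegral_algebraMap_iff (FaithfulSMul.algebraMap_injective F L)).1 h4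
        exact ⟨⟨_, h3⟩, RingOfIntegers.ext rfl⟩
      obtain ⟨a, ha⟩ := key u.toMul hu
      obtain ⟨b, hb⟩ := key (u.toMul)⁻¹ (by
        have h1 : unitAct (g ^ m) (-u) = -u := by rw [map_neg, hu]
        exact h1)
      have hab : a * b = 1 := by
        apply FaithfulSMul.algebraMap_injective (𝓞 F) (𝓞 L)
        rw [map_mul, ha, hb, map_one, Units.mul_inv]
      refine ⟨Additive.ofMul ⟨a, b, hab, by rw [mul_comm]; exact hab⟩, ?_⟩
      apply Additive.toMul.injective
      apply Units.ext
      exact ha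
  have h6 : Module.finrank ℤ φ.range = Module.finrank ℤ (Additive (𝓞 F)ˣ) :=
    (LinearEquiv.ofInjective φ.toIntLinearMap hφ).finrank_eq.symm
  rw [← hrange, h6, Units.finrank_eq, hrF]

/-- The Herbrand quotient of the units of a cyclic extension of degree `2 ^ k` of an imaginary
quadratic field. -/
theorem units_HQ [IsGalois K L] [IsTotallyComplex K] (hrank : Units.rank K = 0)
    {g : L ≃ₐ[K] L} (hg : ∀ x, x ∈ Subgroup.zpowers g) {k : ℕ}
    (hdeg : Module.finrank K L = 2 ^ k) :
    HQ (2 ^ k) (unitAct g) (2 ^ k) 1 := by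
  have hfd : FiniteDimensional K L := Module.Finite.of_restrictScalars_finite ℚ K L
  have h4 : Nat.card (L ≃ₐ[K] L) = 2 ^ k := by rw [IsGalois.card_aut_eq_finrank K L, hdeg]
  have h5 : orderOf g = 2 ^ k := by rw [orderOf_eq_card_of_forall_mem_zpowers hg, h4]
  refine HQ.of_finrank ?_ ?_
  · rw [unitAct_pow, ← h5, pow_orderOf_eq_one]
    ext u
    rfl
  · intro i hi
    refine finrank_fixed_units hrank g (2 ^ i) ?_
    have h1 : Nat.card (Subgroup.zpowers (g ^ 2 ^ i)) * (Subgroup.zpowers (g ^ 2 ^ i)).index =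
      Nat.card (L ≃ₐ[K] L) := Subgroup.card_mul_index _
    have h2 : Nat.card (Subgroup.zpowers (g ^ 2 ^ i)) = 2 ^ (k - i) := by
      rw [Nat.card_zpowers, orderOf_pow' g (pow_ne_zero _ two_ne_zero), h5,
        Nat.gcd_eq_right (pow_dvd_pow 2 hi), Nat.pow_div hi two_pos]
    rw [h2, h4] at h1
    have h3 : 2 ^ k = 2 ^ (k - i) * 2 ^ i := by rw [← pow_add, Nat.sub_add_cancel hi]
    rw [h3] at h1
    exact Nat.eq_of_mul_eq_mul_left (pow_pos two_pos _) h1

end units

end Fermat.Agent.H91.FI
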