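import Mathlib
import Fermat.Agent.H91FId
import Fermat.Agent.H47TClass
import Fermat.Agent.H65FirstB

/-!
# The first inequality: divisors (LT-MOD2, M5)
-/

set_option autoImplicit false

namespace Fermat.Agent.H91.FI

open NumberField IsDedekindDomain AddSubgroup Fermat.Agent.H54
open Fermat.Agent.H82 (above aboveSet ClTrivial)
open Fermat.Agent.H47 (smulPlace smulPlace_asIdeal smulPlace_mem_aboveSet_iff smulPlace_mem_above
  ordHom ordHom_smulPlace ordHom_algebraMap below mem_above_below eq_below_of_mem_above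
  above_nonempty exists_smulPlace_eq mem_unit_iff divHom divHom_apply classOf
  ordT ordT_apply unitsToT unitsToT_apply unitsToT_injective range_unitsToT)

open scoped Pointwise

noncomputable section

section places

variable {K L : Type*} [Field K] [Field L] [NumberField L] [Algebra K L]

lemma smulPlace_mul (σ τ : L ≃ₐ[K] L) (w : HeightOneSpectrum (𝓞 L)) :
    smulPlace (σ * τ) w = smulPlace σ (smulPlace τ w) := by
  apply HeightOneSpectrum.ext
  rw [smulPlace_asIdeal, smulPlace_asIdeal, smulPlace_asIdeal, mul_smul]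

lemma smulPlace_one (w : HeightOneSpectrum (𝓞 L)) : smulPlace (1 : L ≃ₐ[K] L) w = w := by
  apply HeightOneSpectrum.ext
  rw [smulPlace_asIdeal, one_smul]

/-- the order of the decomposition group -/
def stabCard (K : Type*) [Field K] [Algebra K L] (w : HeightOneSpectrum (𝓞 L)) : ℕ :=
  Nat.card (MulAction.stabilizer (L ≃ₐ[K] L) w.asIdeal)

variable [NumberField K]

lemma below_smulPlace (σ : L ≃ₐ[K] L) (w : HeightOneSpectrum (𝓞 L)) :
    below K (smulPlace σ w) = below K w :=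
  (eq_below_of_mem_above (smulPlace_mem_above σ (mem_above_below w))).symm

open scoped Classical in
lemma sum_indicator [IsGalois K L] [Fintype (L ≃ₐ[K] L)] (w w' : HeightOneSpectrum (𝓞 L)) :
    ∑ σ : L ≃ₐ[K] L, (if smulPlace σ w' = w then (1 : ℤ) else 0) =
      if below K w' = below K w then (stabCard K w : ℤ) else 0 := by
  split_ifs with h
  · obtain ⟨τ, hτ⟩ := exists_smulPlace_eq (K := K) (mem_above_below w)
      (show w' ∈ above L (below K w) from h ▸ mem_above_below w')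
    rw [← hτ]
    rw [← Equiv.sum_comp (Equiv.mulRight τ⁻¹)]
    have h1 : ∀ σ : L ≃ₐ[K] L, smulPlace ((Equiv.mulRight τ⁻¹) σ) (smulPlace τ w) =
        smulPlace σ w := by
      intro σ
      rw [← smulPlace_mul]
      simp
    simp_rw [h1]
    rw [Finset.sum_boole, stabCard, Nat.subtype_card (Finset.univ.filter fun σ : L ≃ₐ[K] L =>
      smulPlace σ w = w)]
    intro σ
    simp only [Finset.mem_filter, Finset.mem_univ, true_and]
    rw [MulAction.mem_stabilizer_iff]
    exact ⟨fun h => congrArg HeightOneSpectrum.asIdeal h, fun h => HeightOneSpectrum.ext h⟩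
  · refine Finset.sum_eq_zero fun σ _ => ?_
    rw [if_neg]
    rintro rfl
    exact h (below_smulPlace σ w').symm

/-- the action on functions on places above `T` -/
def sM (T : Set (HeightOneSpectrum (𝓞 K))) (g : L ≃ₐ[K] L) :
    AddMonoid.End (aboveSet L T → ℤ) :=
  AddMonoidHom.mk' (fun f w => f ⟨smulPlace g⁻¹ w, (smulPlace_mem_aboveSet_iff g⁻¹).2 w.2⟩)
    (fun _ _ => rfl)

lemma sM_apply (T : Set (HeightOneSpectrum (𝓞 K))) (g : L ≃ₐ[K] L) (f : aboveSet L T → ℤ)
    (w : aboveSet L T) :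
    sM T g f w = f ⟨smulPlace g⁻¹ w, (smulPlace_mem_aboveSet_iff g⁻¹).2 w.2⟩ := rfl

lemma sM_one (T : Set (HeightOneSpectrum (𝓞 K))) : sM (L := L) T 1 = 1 := by
  refine DFunLike.ext _ _ fun f => ?_
  ext w
  rw [sM_apply]
  congr 1
  apply Subtype.ext
  show smulPlace (1 : L ≃ₐ[K] L)⁻¹ w.1 = w.1
  rw [inv_one, smulPlace_one]

lemma sM_mul (T : Set (HeightOneSpectrum (𝓞 K))) (g h : L ≃ₐ[K] L) :
    sM T (g * h) = sM T g * sM T h := by
  refine DFunLike.ext _ _ fun f => ?_
  ext w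
  show sM T (g * h) f w = sM T g (sM T h f) w
  rw [sM_apply, sM_apply, sM_apply]
  congr 1
  apply Subtype.ext
  show smulPlace (g * h)⁻¹ w.1 = smulPlace h⁻¹ (smulPlace g⁻¹ w.1)
  rw [mul_inv_rev, smulPlace_mul]

lemma sM_pow (T : Set (HeightOneSpectrum (𝓞 K))) (g : L ≃ₐ[K] L) (m : ℕ) :
    (sM T g) ^ m = sM T (g ^ m) := by
  induction m with
  | zero => rw [pow_zero, pow_zero, sM_one]
  | succ m ih => rw [pow_succ, ih, pow_succ, sM_mul]

/-- the action on `T`-units -/
def sT (T : Set (HeightOneSpectrum (𝓞 K))) (g : L ≃ₐ[K] L) :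
    AddMonoid.End (Additive ((aboveSet L T).unit L)) :=
  MonoidHom.toAdditive (((Units.map (g : L →* L)).comp ((aboveSet L T).unit L).subtype).codRestrict
    ((aboveSet L T).unit L) (fun x => H47.map_mem_unit g x.2))

lemma sT_coe (T : Set (HeightOneSpectrum (𝓞 K))) (g : L ≃ₐ[K] L)
    (x : Additive ((aboveSet L T).unit L)) :
    (((sT T g x).toMul : Lˣ) : L) = g ((x.toMul : Lˣ) : L) := rfl

omit [NumberField K] in
lemma extT {T : Set (HeightOneSpectrum (𝓞 K))} {x y : Additive ((aboveSet L T).unit L)}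
    (h : ((x.toMul : Lˣ) : L) = ((y.toMul : Lˣ) : L)) : x = y :=
  Additive.toMul.injective (Subtype.ext (Units.ext h))

lemma sT_pow (T : Set (HeightOneSpectrum (𝓞 K))) (g : L ≃ₐ[K] L) (m : ℕ) :
    (sT T g) ^ m = sT T (g ^ m) := by
  induction m with
  | zero =>
    refine DFunLike.ext _ _ fun x => extT ?_
    rfl
  | succ m ih =>
    rw [pow_succ, ih, pow_succ]
    refine DFunLike.ext _ _ fun x => extT ?_
    rfl

end places

section sums

variable {K L : Type*} [Field K] [NumberField K] [Field L] [NumberField L] [Algebra K L]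

omit [NumberField K] [NumberField L] in
lemma sum_pow_eq_sum {A : Type*} [AddCommMonoid A] [Fintype (L ≃ₐ[K] L)]
    {g : L ≃ₐ[K] L} (hg : ∀ x, x ∈ Subgroup.zpowers g) {n : ℕ} (hn : orderOf g = n)
    (F : (L ≃ₐ[K] L) → A) : ∑ i ∈ Finset.range n, F (g ^ i) = ∑ σ, F σ := by
  classical
  refine Finset.sum_bij (fun i _ => g ^ i) (fun _ _ => Finset.mem_univ _) ?_ ?_ (fun _ _ => rfl)
  · intro i hi j hj h
    rw [Finset.mem_range] at hi hj
    exact pow_injOn_Iio_orderOf (by rwa [Set.mem_Iio, hn]) (by rwa [Set.mem_Iio, hn]) h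
  · intro τ _
    obtain ⟨i, hi, rfl⟩ := (mem_zpowers_iff_mem_range_orderOf.1 (hg τ) |> Finset.mem_image.1)
    exact ⟨i, by rwa [hn] at hi, rfl⟩

omit [NumberField K] [NumberField L] in
lemma prod_pow_eq_prod {A : Type*} [CommMonoid A] [Fintype (L ≃ₐ[K] L)]
    {g : L ≃ₐ[K] L} (hg : ∀ x, x ∈ Subgroup.zpowers g) {n : ℕ} (hn : orderOf g = n)
    (F : (L ≃ₐ[K] L) → A) : ∏ i ∈ Finset.range n, F (g ^ i) = ∏ σ, F σ := by
  classical
  refine Finset.prod_bij (fun i _ => g ^ i) (fun _ _ => Finset.mem_univ _) ?_ ?_ (fun _ _ => rfl)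
  · intro i hi j hj h
    rw [Finset.mem_range] at hi hj
    exact pow_injOn_Iio_orderOf (by rwa [Set.mem_Iio, hn]) (by rwa [Set.mem_Iio, hn]) h
  · intro τ _
    obtain ⟨i, hi, rfl⟩ := (mem_zpowers_iff_mem_range_orderOf.1 (hg τ) |> Finset.mem_image.1)
    exact ⟨i, by rwa [hn] at hi, rfl⟩

omit [NumberField K] [NumberField L] in
lemma sum_pow_inv_eq_sum {A : Type*} [AddCommMonoid A] [Fintype (L ≃ₐ[K] L)]
    {g : L ≃ₐ[K] L} (hg : ∀ x, x ∈ Subgroup.zpowers g) {n : ℕ} (hn : orderOf g = n)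
    (F : (L ≃ₐ[K] L) → A) : ∑ i ∈ Finset.range n, F (g ^ i)⁻¹ = ∑ σ, F σ := by
  rw [sum_pow_eq_sum hg hn (fun σ => F σ⁻¹)]
  exact Equiv.sum_comp (Equiv.inv (L ≃ₐ[K] L)) F

/-- the order of a norm -/
lemma ordHom_norm [IsGalois K L] [Fintype (L ≃ₐ[K] L)] (w : HeightOneSpectrum (𝓞 L))
    (hunr : (below K w).asIdeal.ramificationIdx' w.asIdeal = 1) (y : Lˣ) :
    ordHom (below K w) (Additive.ofMul (Units.map (Algebra.norm K : L →* K) y)) =
      ∑ σ : L ≃ₐ[K] L, ordHom (smulPlace σ w) (Additive.ofMul y) := by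
  have h1 := ordHom_algebraMap (mem_above_below (K := K) w)
    (Units.map (Algebra.norm K : L →* K) y)
  rw [hunr, Nat.cast_one, one_mul] at h1
  rw [← h1]
  have hfd : FiniteDimensional K L := Module.Finite.of_restrictScalars_finite ℚ K L
  have h2 : Units.map (algebraMap K L : K →* L) (Units.map (Algebra.norm K : L →* K) y) =
      ∏ σ : L ≃ₐ[K] L, Units.map (σ : L →* L) y := by
    apply Units.ext
    rw [Units.coe_prod]
    have h5 := Algebra.norm_eq_prod_automorphisms K (y : L)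
    show algebraMap K L (Algebra.norm K (y : L)) = ∏ σ : L ≃ₐ[K] L, σ (y : L)
    rw [h5]
    exact Finset.prod_congr (by ext; simp) fun _ _ => rfl
  rw [h2, ofMul_prod, map_sum]
  rw [← Equiv.sum_comp (Equiv.inv (L ≃ₐ[K] L))]
  refine Finset.sum_congr rfl fun σ _ => ?_
  have h3 := ordHom_smulPlace (σ⁻¹ : L ≃ₐ[K] L) (smulPlace σ w) y
  rw [← smulPlace_mul, inv_mul_cancel, smulPlace_one] at h3
  exact h3

end sums

end

end Fermat.Agent.H91.FI
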