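import Mathlib
import Fermat.Agent.H91FIe

/-!
# The first inequality (LT-MOD2, M5)
-/

set_option autoImplicit false

namespace Fermat.Agent.H91.FI

open NumberField IsDedekindDomain AddSubgroup Fermat.Agent.H54
open Fermat.Agent.H82 (above aboveSet ClTrivial)
open Fermat.Agent.H47 (smulPlace smulPlace_asIdeal smulPlace_mem_aboveSet_iff smulPlace_mem_above
  ordHom ordHom_smulPlace ordHom_algebraMap below mem_above_below eq_below_of_mem_above
  above_nonempty exists_smulPlace_eq mem_unit_iff divHom divHom_apply classOf classOf_surjective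
  ker_classOf exists_clTrivial valuation_eq_exp_ordHom ordHom_eq_zero_iff
  ordT ordT_apply unitsToT unitsToT_apply unitsToT_injective range_unitsToT)
open scoped Pointwise

noncomputable section

section pull

variable {K L : Type*} [Field K] [NumberField K] [Field L] [NumberField L] [Algebra K L]
variable (T : Set (HeightOneSpectrum (𝓞 K)))

lemma below_mem {w : HeightOneSpectrum (𝓞 L)} (hw : w ∈ aboveSet L T) : below K w ∈ T := by
  obtain ⟨v, hv, hw⟩ := hw
  rwa [← eq_below_of_mem_above hw]

/-- pullback of functions on `T` -/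
def rho : (T → ℤ) →+ (aboveSet L T → ℤ) :=
  AddMonoidHom.mk' (fun c w => c ⟨below K w.1, below_mem T w.2⟩) (fun _ _ => rfl)

lemma rho_apply (c : T → ℤ) (w : aboveSet L T) :
    rho T c w = c ⟨below K w.1, below_mem T w.2⟩ := rfl

lemma rho_injective : Function.Injective (rho (L := L) T) := by
  intro c c' h
  ext v
  obtain ⟨w, hw⟩ := above_nonempty (L := L) v.1
  have h1 := congrFun h ⟨w, v.1, v.2, hw⟩
  rw [rho_apply, rho_apply] at h1
  have h2 : (⟨below K w, below_mem T ⟨v.1, v.2, hw⟩⟩ : T) = v :=
    Subtype.ext (eq_below_of_mem_above hw).symm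
  rwa [h2] at h1

lemma range_rho [IsGalois K L] {g : L ≃ₐ[K] L} (hg : ∀ x, x ∈ Subgroup.zpowers g) :
    (rho (L := L) T).range = kerE (sM T g - 1) := by
  ext f
  rw [mem_kerE]
  have h0 : (sM T g - 1 : AddMonoid.End (aboveSet L T → ℤ)) f = 0 ↔ sM T g f = f := sub_eq_zero
  rw [h0]
  constructor
  · rintro ⟨c, rfl⟩
    ext w
    rw [sM_apply, rho_apply, rho_apply]
    congr 1
    exact Subtype.ext (below_smulPlace _ _)
  · intro hf
    have h1 : ∀ (σ : L ≃ₐ[K] L), sM T σ f = f := by
      let H : Subgroup (L ≃ₐ[K] L) :=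
        { carrier := {σ | sM T σ f = f}
          one_mem' := by
            show sM T 1 f = f
            rw [sM_one]; rfl
          mul_mem' := by
            intro σ τ (hσ : sM T σ f = f) (hτ : sM T τ f = f)
            show sM T (σ * τ) f = f
            rw [sM_mul]
            show sM T σ (sM T τ f) = f
            rw [hτ, hσ]
          inv_mem' := by
            intro σ (hσ : sM T σ f = f)
            show sM T σ⁻¹ f = f
            conv_lhs => rw [← hσ]
            have : sM T σ⁻¹ (sM T σ f) = (sM T σ⁻¹ * sM T σ) f := rfl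
            rw [this, ← sM_mul, inv_mul_cancel, sM_one]
            rfl }
      intro σ
      exact (Subgroup.zpowers_le.2 (show g ∈ H from hf)) (hg σ)
    choose c hc using fun v : HeightOneSpectrum (𝓞 K) => above_nonempty (L := L) v
    refine ⟨fun v => f ⟨c v.1, v.1, v.2, hc v.1⟩, ?_⟩
    ext w
    rw [rho_apply]
    obtain ⟨σ, hσ⟩ := exists_smulPlace_eq (K := K) (hc (below K w.1)) (mem_above_below w.1)
    have h2 := congrFun (h1 σ) w
    rw [sM_apply] at h2
    rw [← h2]
    congr 1
    apply Subtype.ext
    show c (below K w.1) = smulPlace σ⁻¹ w.1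
    have h3 : smulPlace σ⁻¹ (smulPlace σ (c (below K w.1))) = c (below K w.1) := by
      rw [← smulPlace_mul, inv_mul_cancel, smulPlace_one]
    rw [hσ] at h3
    exact h3.symm

/-- extension by zero -/
def ext0 [Finite T] : (T → ℤ) →+ (HeightOneSpectrum (𝓞 K) →₀ ℤ) :=
  (Finsupp.mapDomain.addMonoidHom Subtype.val).comp
    (Finsupp.linearEquivFunOnFinite ℤ ℤ T).symm.toLinearMap.toAddMonoidHom

omit [NumberField K] in
lemma ext0_mem [Finite T] (c : T → ℤ) {v : HeightOneSpectrum (𝓞 K)} (hv : v ∈ T) :
    ext0 T c v = c ⟨v, hv⟩ := by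
  have : ext0 T c v = Finsupp.mapDomain Subtype.val
    ((Finsupp.linearEquivFunOnFinite ℤ ℤ T).symm c) ((⟨v, hv⟩ : T) : HeightOneSpectrum (𝓞 K)) := rfl
  rw [this, Finsupp.mapDomain_apply Subtype.val_injective]
  rfl

omit [NumberField K] in
lemma ext0_notMem [Finite T] (c : T → ℤ) {v : HeightOneSpectrum (𝓞 K)} (hv : v ∉ T) :
    ext0 T c v = 0 := by
  refine Finsupp.mapDomain_of_notMem_range _ _ ?_
  rw [Subtype.range_coe]
  exact hv

/-- the class of a divisor supported in `T` -/
def piT [Finite T] : (T → ℤ) →+ Additive (ClassGroup (𝓞 K)) := (classOf K).comp (ext0 T)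

lemma piT_surjective [Finite T] (hT : ClTrivial T) : Function.Surjective (piT T) := by
  intro c
  obtain ⟨D, hD⟩ := classOf_surjective (R := 𝓞 K) K c
  obtain ⟨x, hx⟩ := H47.exists_ordHom_eq hT D
  refine ⟨fun v => D v.1 - ordHom v.1 (Additive.ofMul x), ?_⟩
  have h1 : ext0 T (fun v => D v.1 - ordHom v.1 (Additive.ofMul x)) =
      D - divHom (𝓞 K) K (Additive.ofMul x) := by
    ext v
    by_cases hv : v ∈ T
    · rw [ext0_mem T _ hv]; rfl
    · rw [ext0_notMem T _ hv, Finsupp.sub_apply, divHom_apply, hx v hv, sub_self]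
  have h2 : classOf (R := 𝓞 K) K (divHom (𝓞 K) K (Additive.ofMul x)) = 0 := by
    rw [← AddMonoidHom.mem_ker, ker_classOf]
    exact ⟨_, rfl⟩
  show classOf K (ext0 T _) = c
  rw [h1, map_sub, h2, sub_zero, hD]

end pull

section main

variable {K L : Type} [Field K] [NumberField K] [Field L] [NumberField L] [Algebra K L]

/-- The first inequality, decomposition group form. -/
theorem first_inequality_stab [IsGalois K L] [IsTotallyComplex K] (hrank : Units.rank K = 0)
    [hcyc : IsCyclic (L ≃ₐ[K] L)] {k : ℕ} (hdeg : Module.finrank K L = 2 ^ k)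
    (hunr : ∀ w : HeightOneSpectrum (𝓞 L), (below K w).asIdeal.ramificationIdx' w.asIdeal = 1) :
    2 ^ k ≤ (AddSubgroup.closure (Set.range fun w : HeightOneSpectrum (𝓞 L) =>
      stabCard K w • classOf (R := 𝓞 K) K (Finsupp.single (below K w) 1))).index := by
  classical
  obtain ⟨g, hg⟩ := hcyc.exists_generator
  have hfd : FiniteDimensional K L := Module.Finite.of_restrictScalars_finite ℚ K L
  have hcard : Nat.card (L ≃ₐ[K] L) = 2 ^ k := by rw [IsGalois.card_aut_eq_finrank K L, hdeg]
  have hord : orderOf g = 2 ^ k := by rw [orderOf_eq_card_of_forall_mem_zpowers hg, hcard]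
  have hgn : g ^ 2 ^ k = 1 := by rw [← hord, pow_orderOf_eq_one]
  -- choice of `T`
  obtain ⟨T', -, hT'fin, hT'cl⟩ := exists_clTrivial L (Set.finite_empty (α := HeightOneSpectrum (𝓞 L)))
  obtain ⟨T, hTT', hTfin, hTcl⟩ := exists_clTrivial K (hT'fin.image (below K))
  have hTLcl : ClTrivial (aboveSet L T) := by
    refine ClTrivial.mono ?_ hT'cl
    intro w hw
    exact ⟨below K w, hTT' ⟨w, hw, rfl⟩, mem_above_below w⟩
  have : Finite T := hTfin
  have : Finite (aboveSet L T) := H65.finite_aboveSet hTfin
  have hunr' : ∀ v ∉ T, ∀ w ∈ above L v, v.asIdeal.ramificationIdx' w.asIdeal = 1 := by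
    intro v _ w hw
    rw [eq_below_of_mem_above hw]
    exact hunr w
  -- the abstract inequality
  let i : Additive (𝓞 L)ˣ →+ Additive ((aboveSet L T).unit L) :=
    (unitsToT L (aboveSet L T)).toAddMonoidHom
  let j : Additive ((aboveSet L T).unit L) →+ (aboveSet L T → ℤ) :=
    (ordT L (aboveSet L T)).toAddMonoidHom
  have hex : j.ker = i.range := by
    ext x
    have h1 : x ∈ LinearMap.ker (ordT L (aboveSet L T)) ↔
      x ∈ LinearMap.range (unitsToT L (aboveSet L T)) := by rw [range_unitsToT]
    exact h1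
  have hfin : Finite ((aboveSet L T → ℤ) ⧸ j.range) := by
    have h1 := H47.isTorsion_quotient_range_ordT L (aboveSet L T)
    exact Module.finite_of_fg_torsion ((aboveSet L T → ℤ) ⧸ LinearMap.range (ordT L (aboveSet L T))) h1
  have hiE : ∀ a, i (unitAct g a) = sT T g (i a) := by
    intro a
    apply extT
    rfl
  have hjT : ∀ a, j (sT T g a) = sM T g (j a) := by
    intro a
    ext w
    rw [sM_apply]
    have h3 := ordHom_smulPlace g (smulPlace g⁻¹ w.1) (a.toMul : Lˣ)
    rw [← smulPlace_mul, mul_inv_cancel, smulPlace_one] at h3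
    exact h3
  have hsT : sT T g ^ 2 ^ k = 1 := by
    rw [sT_pow, hgn]
    refine DFunLike.ext _ _ fun x => extT ?_
    rfl
  have hsM : sM (L := L) T g ^ 2 ^ k = 1 := by rw [sM_pow, hgn, sM_one]
  have hprod : ∀ a : Additive ((aboveSet L T).unit L),
      (((nE (sT T g) (2 ^ k) a).toMul : Lˣ) : L) =
        algebraMap K L (Algebra.norm K ((a.toMul : Lˣ) : L)) := by
    intro a
    rw [nE_apply, Algebra.norm_eq_prod_automorphisms, ← prod_pow_eq_prod hg hord, toMul_sum,
      SubmonoidClass.coe_finsetProd, Units.coe_prod]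
    refine Finset.prod_congr rfl fun i _ => ?_
    rw [sT_pow, sT_coe]
  have hH : h0 (M := Additive ((aboveSet L T).unit L)) (nE (sT T g) (2 ^ k))
      (sT T g - 1 : AddMonoid.End (Additive ((aboveSet L T).unit L))) = 1 := by
    refine AddSubgroup.relIndex_eq_one.2 fun a ha => ?_
    have ha' : nE (sT T g) (2 ^ k) a = 0 := ha
    have hN : Algebra.norm K ((a.toMul : Lˣ) : L) = 1 := by
      apply (algebraMap K L).injective
      rw [← hprod, ha', map_one]
      rfl
    obtain ⟨z, hz, hza⟩ := H47.hilbert90_unit hg hTcl hunr' a.toMul.2 hN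
    refine ⟨Additive.ofMul ⟨z, hz⟩, ?_⟩
    show sT T g (Additive.ofMul ⟨z, hz⟩) - Additive.ofMul ⟨z, hz⟩ = a
    apply extT
    rw [toMul_sub]
    exact congrArg Units.val hza
  obtain ⟨hR1, hR2, hR3⟩ := first_inequality_abstract (n := 2 ^ k) (pow_ne_zero _ two_ne_zero)
    i j (unitsToT_injective L _) hex hfin hiE hjT hsT hsM (units_HQ hrank hg hdeg) hH
  set R := (rangeE (nE (sM T g) (2 ^ k))) ⊔ (kerE (sT T g - 1)).map j with hR
  -- transport to `T → ℤ`
  rw [← range_rho T hg, ← AddSubgroup.index_comap] at hR2 hR3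
  set R₀ := R.comap (rho (L := L) T) with hR₀
  -- principal divisors
  have hprin : ∀ (x : Kˣ), (∀ v ∉ T, ordHom v (Additive.ofMul x) = 0) →
      (fun v : T => ordHom v.1 (Additive.ofMul x)) ∈ R₀ := by
    intro x hx
    rw [hR₀, AddSubgroup.mem_comap, hR]
    refine AddSubgroup.mem_sup_right ?_
    refine ⟨Additive.ofMul ⟨Units.map (algebraMap K L : K →* L) x,
      H47.algebraMap_mem_unit_iff.2 (mem_unit_iff.2 hx)⟩, ?_, ?_⟩
    · show _ ∈ kerE (sT T g - 1)
      rw [mem_kerE]
      show sT T g _ - _ = 0
      rw [sub_eq_zero]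
      apply extT
      exact g.commutes (x : K)
    · ext w
      show ordHom w.1 (Additive.ofMul (Units.map (algebraMap K L : K →* L) x)) = _
      rw [ordHom_algebraMap (mem_above_below (K := K) w.1), hunr, Nat.cast_one, one_mul, rho_apply]
  have hker : (piT T).ker ≤ R₀ := by
    intro c hc
    have h1 : ext0 T c ∈ (classOf (R := 𝓞 K) K).ker := hc
    rw [ker_classOf] at h1
    obtain ⟨x, hx⟩ := h1
    have h2 := hprin x.toMul (fun v hv => by
      have h3 := DFunLike.congr_fun hx v
      rw [divHom_apply, ext0_notMem T c hv] at h3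
      exact h3)
    convert h2 using 1
    ext v
    have h3 := DFunLike.congr_fun hx v.1
    rw [divHom_apply, ext0_mem T c v.2] at h3
    exact h3.symm
  have hindex : (R₀.map (piT T)).index = R₀.index :=
    AddSubgroup.index_map_eq _ (piT_surjective T hTcl) hker
  -- the action of the norm on functions
  have hnorm : ∀ (f : HeightOneSpectrum (𝓞 L) → ℤ) (w : aboveSet L T),
      nE (sM T g) (2 ^ k) (fun w => f w.1) w = ∑ σ : L ≃ₐ[K] L, f (smulPlace σ w.1) := by
    intro f w
    rw [nE_apply, Finset.sum_apply, ← sum_pow_inv_eq_sum hg hord]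
    refine Finset.sum_congr rfl fun i _ => ?_
    rw [sM_pow, sM_apply]
  have hB : (AddSubgroup.closure (Set.range fun w : HeightOneSpectrum (𝓞 L) =>
      stabCard K w • classOf (R := 𝓞 K) K (Finsupp.single (below K w) 1))) ≤ R₀.map (piT T) := by
    rw [AddSubgroup.closure_le]
    rintro _ ⟨w, rfl⟩
    by_cases hw : w ∈ aboveSet L T
    · have hv := below_mem T hw
      refine ⟨fun v => if v.1 = below K w then (stabCard K w : ℤ) else 0, ?_, ?_⟩
      · show _ ∈ R₀
        rw [hR₀, AddSubgroup.mem_comap, hR]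
        refine AddSubgroup.mem_sup_left ?_
        refine ⟨fun w' => if w'.1 = w then 1 else 0, ?_⟩
        ext w'
        have h1 := hnorm (fun w' => if w' = w then 1 else 0) w'
        have h2 := sum_indicator (K := K) w w'.1
        exact h1.trans h2
      · show classOf K (ext0 T _) = stabCard K w • classOf (R := 𝓞 K) K
          (Finsupp.single (below K w) 1)
        rw [← map_nsmul]
        congr 1
        ext v
        rw [Finsupp.smul_apply, Finsupp.single_apply]
        by_cases hvT : v ∈ T
        · rw [ext0_mem T _ hvT]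
          by_cases hvw : v = below K w
          · rw [if_pos hvw, if_pos hvw.symm]; simp
          · rw [if_neg hvw, if_neg (Ne.symm hvw), smul_zero]
        · rw [ext0_notMem T _ hvT, if_neg (by rintro rfl; exact hvT hv), smul_zero]
    · have hv : below K w ∉ T := fun h => hw ⟨_, h, mem_above_below w⟩
      obtain ⟨y, hy1, hy2⟩ := hTLcl w hw
      have hy1' : ordHom w (Additive.ofMul y) = 1 := by
        rw [valuation_eq_exp_ordHom, WithZero.exp_inj, neg_inj] at hy1
        exact hy1
      have hy : ∀ w' ∉ aboveSet L T, ordHom w' (Additive.ofMul y) = if w' = w then 1 else 0 := by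
        intro w' hw'
        split_ifs with h
        · rw [h, hy1']
        · exact (ordHom_eq_zero_iff w' y).2 (hy2 w' hw' h)
      set x : Kˣ := Units.map (Algebra.norm K : L →* K) y with hx
      have hxT : ∀ v ∉ T, ordHom v (Additive.ofMul x) =
          if v = below K w then (stabCard K w : ℤ) else 0 := by
        intro v hv'
        obtain ⟨w', hw'⟩ := above_nonempty (L := L) v
        have hvw' := eq_below_of_mem_above hw'
        rw [hvw', hx, ordHom_norm w' (hunr w'), ← sum_indicator (K := K) w w']
        refine Finset.sum_congr rfl fun σ _ => ?_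
        refine hy _ ?_
        rw [smulPlace_mem_aboveSet_iff]
        intro h
        apply hv'
        rw [hvw']
        exact below_mem T h
      have hc : (fun v : T => ordHom v.1 (Additive.ofMul x)) ∈ R₀ := by
        rw [hR₀, AddSubgroup.mem_comap, hR]
        refine AddSubgroup.mem_sup_left ?_
        refine ⟨fun w' => ordHom w'.1 (Additive.ofMul y), ?_⟩
        ext w'
        refine (hnorm (fun w' => ordHom w' (Additive.ofMul y)) w').trans ?_
        rw [rho_apply, ← ordHom_norm w'.1 (hunr w'.1)]
      have hpi : piT T (fun v : T => ordHom v.1 (Additive.ofMul x)) =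
          - (stabCard K w • classOf (R := 𝓞 K) K (Finsupp.single (below K w) 1)) := by
        have h1 : ext0 T (fun v : T => ordHom v.1 (Additive.ofMul x)) =
            divHom (𝓞 K) K (Additive.ofMul x) -
              stabCard K w • (Finsupp.single (below K w) 1) := by
          ext v
          rw [Finsupp.sub_apply, divHom_apply, Finsupp.smul_apply, Finsupp.single_apply]
          by_cases hvT : v ∈ T
          · rw [ext0_mem T _ hvT, if_neg (by rintro rfl; exact hv hvT), smul_zero, sub_zero]
          · rw [ext0_notMem T _ hvT, hxT v hvT]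
            by_cases hvw : v = below K w
            · rw [if_pos hvw, if_pos hvw.symm]; simp
            · rw [if_neg hvw, if_neg (Ne.symm hvw), smul_zero, sub_zero]
        have h2 : classOf (R := 𝓞 K) K (divHom (𝓞 K) K (Additive.ofMul x)) = 0 := by
          rw [← AddMonoidHom.mem_ker, ker_classOf]
          exact ⟨_, rfl⟩
        show classOf K (ext0 T _) = _
        rw [h1, map_sub, h2, zero_sub, map_nsmul]
      refine ⟨-(fun v : T => ordHom v.1 (Additive.ofMul x)), neg_mem hc, ?_⟩
      rw [map_neg, hpi, neg_neg]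
  refine hR3.trans ?_
  rw [← hindex]
  refine Nat.le_of_dvd (Nat.pos_of_ne_zero ?_) (AddSubgroup.index_dvd_of_le hB)
  have : Finite (Additive (ClassGroup (𝓞 K))) := inferInstanceAs (Finite (ClassGroup (𝓞 K)))
  exact AddSubgroup.index_ne_zero_of_finite

end main

end

end Fermat.Agent.H91.FI
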