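import Mathlib
import Fermat.Agent.H91FIf
import Fermat.Agent.H64KumRam
import Fermat.Agent.H63Lift

/-!
# The first inequality in terms of places of `ℚ̄` (LT-MOD2, M5)
-/

set_option autoImplicit false

namespace Fermat.Agent.H91.FI

open NumberField IsDedekindDomain Fermat.Agent.H63
open Fermat.Agent.H47 (smulPlace below mem_above_below classOf)
open Fermat.Agent.H64 (placeBelow placeBelow_asIdeal exists_prime_liesOver
  natCast_mem_iff_of_liesOver)
open scoped Pointwise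

noncomputable section

section layer

variable {Ω : Type*} [Field Ω] [CharZero Ω] [Algebra.IsAlgebraic ℚ Ω]

/-- every finite place of a number field is below a place of `Ω` -/
theorem exists_placeBelow_eq' {L : Type*} [Field L] [NumberField L] [Algebra L Ω]
    (w : HeightOneSpectrum (𝓞 L)) :
    ∃ (ℓ : ℕ) (hℓ : ℓ.Prime) (A : ValuationSubring Ω) (hA : A.LiesOverPrime ℓ),
      placeBelow L hℓ hA = w := by
  have hv : w.asIdeal.IsPrime := w.isPrime
  have hvm : w.asIdeal.IsMaximal := w.isMaximal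
  obtain ⟨ℓ, hℓ, hover⟩ := exists_prime_liesOver w.asIdeal w.ne_bot
  have hmem : (ℓ : 𝓞 L) ∈ w.asIdeal := (natCast_mem_iff_of_liesOver w.asIdeal ℓ ℓ).2 dvd_rfl
  have : Algebra.IsAlgebraic L Ω := Algebra.IsAlgebraic.tower_top (K := ℚ) L
  obtain ⟨P, hP, hPv⟩ := Ideal.exists_maximal_ideal_liesOver_of_isIntegral (S := 𝓞 Ω) w.asIdeal
  have hPp : P.IsPrime := hP.isPrime
  obtain ⟨A, hA⟩ := exists_center_eq P
  have hcomap : (center A).comap (algebraMap (𝓞 L) (𝓞 Ω)) = w.asIdeal := by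
    rw [hA]; exact hPv.over.symm
  have hAℓ : A.LiesOverPrime ℓ := by
    rw [liesOverPrime_iff]
    rw [← hcomap, Ideal.mem_comap, map_natCast] at hmem
    exact hmem
  exact ⟨ℓ, hℓ, A, hAℓ, HeightOneSpectrum.ext hcomap⟩

variable {K L : Type*} [Field K] [NumberField K] [Field L] [NumberField L] [Algebra K L]
  [IsGalois K L] [Algebra L Ω] [Algebra K Ω] [IsScalarTower K L Ω] [IsGalois K Ω]

omit [NumberField K] in
/-- if inertia acts trivially on `L`, the inertia group in `L` is trivial -/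
theorem inertia_eq_bot {ℓ : ℕ} (hℓ : ℓ.Prime) {A : ValuationSubring Ω} (hA : A.LiesOverPrime ℓ)
    (hI : ∀ σ ∈ A.inertiaSubgroupIn K, ∀ x : L, σ (algebraMap L Ω x) = algebraMap L Ω x) :
    (placeBelow L hℓ hA).asIdeal.inertia (L ≃ₐ[K] L) = ⊥ := by
  have : IsGalois L Ω := IsGalois.tower_top_of_isGalois K L Ω
  rw [Subgroup.eq_bot_iff_forall]
  intro σ₀ hσ₀
  rw [placeBelow_asIdeal] at hσ₀
  obtain ⟨τ, hτ, rfl⟩ := exists_mem_inertiaSubgroupIn_restrict (F := L) A σ₀ hσ₀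
  ext x
  apply (algebraMap L Ω).injective
  have h1 := AlgEquiv.restrictNormal_commutes τ L x
  have h2 : AlgEquiv.restrictNormalHom L τ = τ.restrictNormal L := rfl
  rw [h2, h1, hI τ hτ]; rfl

/-- ramification index one -/
theorem ramificationIdx'_eq_one {ℓ : ℕ} (hℓ : ℓ.Prime) {A : ValuationSubring Ω}
    (hA : A.LiesOverPrime ℓ)
    (hI : ∀ σ ∈ A.inertiaSubgroupIn K, ∀ x : L, σ (algebraMap L Ω x) = algebraMap L Ω x) :
    (below K (placeBelow L hℓ hA)).asIdeal.ramificationIdx' (placeBelow L hℓ hA).asIdeal = 1 := by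
  set w := placeBelow L hℓ hA with hw
  have hover : w.asIdeal.LiesOver (below K w).asIdeal := ⟨rfl⟩
  have hcard := Ideal.card_inertia_eq_ramificationIdxIn (G := L ≃ₐ[K] L) (below K w).asIdeal
    w.asIdeal
  rw [inertia_eq_bot hℓ hA hI,
    Ideal.ramificationIdxIn_eq_ramificationIdx (below K w).asIdeal w.asIdeal (L ≃ₐ[K] L)] at hcard
  rw [Ideal.ramificationIdx'_eq_ramificationIdx _ _ (below K w).ne_bot, ← hcard]
  simp

/-- if a Frobenius element acts trivially on `L`, the decomposition group in `L` is trivial -/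
theorem stabCard_eq_one {ℓ : ℕ} (hℓ : ℓ.Prime) {A : ValuationSubring Ω} (hA : A.LiesOverPrime ℓ)
    (hI : ∀ σ ∈ A.inertiaSubgroupIn K, ∀ x : L, σ (algebraMap L Ω x) = algebraMap L Ω x)
    {φ : Ω ≃ₐ[K] Ω} (hφ : A.IsFrobeniusAt φ ℓ)
    (hφL : ∀ x : L, φ (algebraMap L Ω x) = algebraMap L Ω x) :
    stabCard K (placeBelow L hℓ hA) = 1 := by
  set w := placeBelow L hℓ hA with hw
  have hfrob := (isFrobeniusAt_iff_center A φ hℓ.ne_zero).1 hφ
  have hmax : w.asIdeal.IsMaximal := w.isMaximal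
  let _ : Field (𝓞 L ⧸ w.asIdeal) := Ideal.Quotient.field w.asIdeal
  have hℓw : (ℓ : 𝓞 L) ∈ w.asIdeal := by
    rw [hw, placeBelow_asIdeal, Ideal.mem_comap, map_natCast]
    exact (liesOverPrime_iff A ℓ).1 hA
  have hprime : Fact ℓ.Prime := ⟨hℓ⟩
  have hchar : CharP (𝓞 L ⧸ w.asIdeal) ℓ := by
    refine ringChar.of_eq (CharP.ringChar_of_prime_eq_zero hℓ ?_)
    rw [← map_natCast (Ideal.Quotient.mk w.asIdeal)]
    exact Ideal.Quotient.eq_zero_iff_mem.2 hℓw
  have key : ∀ x : 𝓞 L, ∃ n : ℤ, x - (n : 𝓞 L) ∈ w.asIdeal := by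
    intro x
    have h1 : x ^ ℓ - x ∈ w.asIdeal := by
      have h2 := hfrob (algebraMap (𝓞 L) (𝓞 Ω) x)
      have h3 : φ • algebraMap (𝓞 L) (𝓞 Ω) x = algebraMap (𝓞 L) (𝓞 Ω) x := by
        apply RingOfIntegers.ext
        exact hφL x
      rw [h3, ← map_pow, ← map_sub] at h2
      rw [hw, placeBelow_asIdeal, Ideal.mem_comap, ← neg_sub, map_neg]
      exact neg_mem h2
    have h4 : (Ideal.Quotient.mk w.asIdeal x) ^ ℓ = Ideal.Quotient.mk w.asIdeal x := by
      rw [← map_pow, ← sub_eq_zero, ← map_sub]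
      exact Ideal.Quotient.eq_zero_iff_mem.2 h1
    have h5 := (Subfield.mem_bot_iff_pow_eq_self (𝓞 L ⧸ w.asIdeal) ℓ).2 h4
    rw [mem_bot_iff_intCast ℓ] at h5
    obtain ⟨n, hn⟩ := h5
    refine ⟨n, ?_⟩
    rw [← Ideal.Quotient.eq_zero_iff_mem, map_sub, map_intCast, hn, sub_self]
  have hbot : MulAction.stabilizer (L ≃ₐ[K] L) w.asIdeal = ⊥ := by
    rw [eq_bot_iff, ← inertia_eq_bot hℓ hA hI]
    intro σ hσ x
    obtain ⟨n, hn⟩ := key x
    have h1 : σ • (x - (n : 𝓞 L)) ∈ w.asIdeal := by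
      have h2 := Ideal.smul_mem_pointwise_smul σ _ _ hn
      rwa [MulAction.mem_stabilizer_iff.1 hσ] at h2
    have h3 : σ • (n : 𝓞 L) = (n : 𝓞 L) := by
      apply RingOfIntegers.ext
      show σ (((n : 𝓞 L)) : L) = _
      simp
    rw [smul_sub, h3] at h1
    show σ • x - x ∈ w.asIdeal
    have h4 := sub_mem h1 hn
    rwa [sub_sub_sub_cancel_right] at h4
  rw [stabCard, hbot]
  simp

end layer

end

end Fermat.Agent.H91.FI
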