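import Mathlib
import Fermat.Agent.H91FIg

/-!
# The first inequality, final forms (LT-MOD2, M5)
-/

set_option autoImplicit false

namespace Fermat.Agent.H91.FI

open NumberField IsDedekindDomain Fermat.Agent.H63
open Fermat.Agent.H47 (smulPlace below mem_above_below classOf)
open Fermat.Agent.H64 (placeBelow placeBelow_asIdeal)
open scoped Pointwise nonZeroDivisors

noncomputable section

/-- the class of a finite place -/
def clv {K : Type*} [Field K] [NumberField K] (v : HeightOneSpectrum (𝓞 K)) :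
    ClassGroup (𝓞 K) := ClassGroup.mk0 ⟨v.asIdeal, mem_nonZeroDivisors_of_ne_zero v.ne_bot⟩

lemma classOf_single {K : Type*} [Field K] [NumberField K] (v : HeightOneSpectrum (𝓞 K)) :
    classOf (R := 𝓞 K) K (Finsupp.single v 1) = Additive.ofMul (clv v) := by
  have h1 : H47.idealOf (R := 𝓞 K) K (Multiplicative.ofAdd (Finsupp.single v (1 : ℤ))) =
      FractionalIdeal.mk0 K ⟨v.asIdeal, mem_nonZeroDivisors_of_ne_zero v.ne_bot⟩ := by
    apply Units.ext
    rw [H47.coe_idealOf, toAdd_ofAdd, Finsupp.prod_single_index (zpow_zero _), zpow_one]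
    rfl
  show Additive.ofMul (ClassGroup.mk K (H47.idealOf (R := 𝓞 K) K
    (Multiplicative.ofAdd (Finsupp.single v (1 : ℤ))))) = _
  rw [h1, ClassGroup.mk_mk0]
  rfl

section types

variable {K L : Type} [Field K] [NumberField K] [Field L] [NumberField L] [Algebra K L]

/-- **The first inequality** for cyclic unramified extensions of degree `2 ^ k` of an imaginary
quadratic field. -/
theorem first_inequality [IsGalois K L] [IsTotallyComplex K] (hrank : Units.rank K = 0)
    [IsCyclic (L ≃ₐ[K] L)] {k : ℕ} (hdeg : Module.finrank K L = 2 ^ k)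
    (hunr : ∀ w : HeightOneSpectrum (𝓞 L), (below K w).asIdeal.ramificationIdx' w.asIdeal = 1) :
    2 ^ k ≤ (Subgroup.closure {c : ClassGroup (𝓞 K) | ∃ w : HeightOneSpectrum (𝓞 L),
      c = clv (below K w) ^ stabCard K w}).index := by
  refine (first_inequality_stab hrank hdeg hunr).trans (le_of_eq ?_)
  rw [← Subgroup.index_toAddSubgroup, Subgroup.toAddSubgroup_closure]
  congr 2
  ext c
  rw [Set.mem_preimage, Set.mem_range]
  constructor
  · rintro ⟨w, rfl⟩
    exact ⟨w, by rw [classOf_single]; rfl⟩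
  · rintro ⟨w, hw⟩
    refine ⟨w, ?_⟩
    apply Additive.toMul.injective
    rw [hw, classOf_single]
    rfl

end types

section gen

variable {K L : Type*} [Field K] [NumberField K] [Field L] [NumberField L] [Algebra K L]

/-- the class group is generated by the classes of the finite places -/
theorem closure_clv (B : Subgroup (ClassGroup (𝓞 K))) (hB : ∀ v, clv v ∈ B) : B = ⊤ := by
  rw [eq_top_iff]
  intro c _
  obtain ⟨D, hD⟩ := H47.classOf_surjective (R := 𝓞 K) K (Additive.ofMul c)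
  have h1 : ∀ D : HeightOneSpectrum (𝓞 K) →₀ ℤ, (classOf (R := 𝓞 K) K D).toMul ∈ B := by
    intro D
    induction D using Finsupp.induction with
    | zero => rw [map_zero]; exact B.one_mem
    | single_add v n D _ _ ih =>
      rw [map_add, toMul_add]
      refine B.mul_mem ?_ ih
      have h2 : Finsupp.single v n = n • Finsupp.single v (1 : ℤ) := by
        rw [Finsupp.smul_single, smul_eq_mul, mul_one]
      rw [h2, map_zsmul, classOf_single, toMul_zsmul, toMul_ofMul]
      exact B.zpow_mem (hB v) n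
  have h3 := h1 D
  rwa [hD] at h3

theorem pow_mem_closure [IsGalois K L] {k : ℕ} (hdeg : Module.finrank K L = 2 ^ k)
    (c : ClassGroup (𝓞 K)) : c ^ 2 ^ k ∈ Subgroup.closure {c : ClassGroup (𝓞 K) |
      ∃ w : HeightOneSpectrum (𝓞 L), c = clv (below K w) ^ stabCard K w} := by
  have hfd : FiniteDimensional K L := Module.Finite.of_restrictScalars_finite ℚ K L
  set D := Subgroup.closure {c : ClassGroup (𝓞 K) |
      ∃ w : HeightOneSpectrum (𝓞 L), c = clv (below K w) ^ stabCard K w} with hD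
  have h1 := closure_clv (D.comap (powMonoidHom (2 ^ k))) (fun v => by
    obtain ⟨w, hw⟩ := H47.above_nonempty (L := L) v
    have hvw := H47.eq_below_of_mem_above hw
    have h2 : stabCard K w ∣ 2 ^ k := by
      rw [← hdeg, ← IsGalois.card_aut_eq_finrank]
      exact Subgroup.card_subgroup_dvd_card _
    obtain ⟨m, hm⟩ := h2
    rw [Subgroup.mem_comap, powMonoidHom_apply, hvw, hm, pow_mul]
    exact D.pow_mem (Subgroup.subset_closure ⟨w, rfl⟩) m)
  have h3 : c ∈ D.comap (powMonoidHom (2 ^ k)) := by rw [h1]; trivial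
  exact h3

end gen

section gal

variable {K Ω : Type} [Field K] [NumberField K] [Field Ω] [CharZero Ω] [Algebra.IsAlgebraic ℚ Ω]
  [Algebra K Ω] [IsGalois K Ω]

/-- The field cut out by an open normal subgroup containing all inertia groups. -/
theorem exists_layer (H : Subgroup (Ω ≃ₐ[K] Ω)) [H.Normal]
    (hopen : IsOpen (H : Set (Ω ≃ₐ[K] Ω)))
    (hunr : ∀ (ℓ : ℕ), ℓ.Prime → ∀ A : ValuationSubring Ω, A.LiesOverPrime ℓ →
      A.inertiaSubgroupIn K ≤ H) :
    ∃ (L : IntermediateField K Ω) (_ : NumberField L) (_ : IsGalois K L),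
      L.fixingSubgroup = H ∧ Nonempty (((Ω ≃ₐ[K] Ω) ⧸ H) ≃* (L ≃ₐ[K] L)) ∧
      Module.finrank K L = H.index ∧
      (∀ w : HeightOneSpectrum (𝓞 L), (below K w).asIdeal.ramificationIdx' w.asIdeal = 1) ∧
      ∀ (ℓ : ℕ) (hℓ : ℓ.Prime) (A : ValuationSubring Ω) (hA : A.LiesOverPrime ℓ),
        below K (placeBelow L hℓ hA) = placeBelow K hℓ hA ∧
        ∀ φ : Ω ≃ₐ[K] Ω, φ ∈ H → A.IsFrobeniusAt φ ℓ → stabCard K (placeBelow L hℓ hA) = 1 := by
  let L : IntermediateField K Ω := IntermediateField.fixedField H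
  have hclosed : IsClosed (H : Set (Ω ≃ₐ[K] Ω)) := Subgroup.isClosed_of_isOpen _ hopen
  have hfix : L.fixingSubgroup = H :=
    InfiniteGalois.fixingSubgroup_fixedField ⟨H, hclosed⟩
  have hfd : FiniteDimensional K L := by
    rw [← InfiniteGalois.isOpen_iff_finite, hfix]
    exact hopen
  have hgal : IsGalois K L := by
    rw [← InfiniteGalois.normal_iff_isGalois, hfix]
    infer_instance
  have hLQ : FiniteDimensional ℚ L := Module.Finite.trans K L
  have hNF : NumberField L := { to_charZero := inferInstance, to_finiteDimensional := hLQ }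
  have hker : (AlgEquiv.restrictNormalHom (F := K) (K₁ := Ω) L).ker = H := by
    rw [IntermediateField.restrictNormalHom_ker, hfix]
  have hsurj : Function.Surjective (AlgEquiv.restrictNormalHom (F := K) (K₁ := Ω) L) :=
    AlgEquiv.restrictNormalHom_surjective Ω
  let e : ((Ω ≃ₐ[K] Ω) ⧸ H) ≃* (L ≃ₐ[K] L) := QuotientGroup.liftEquiv H hsurj hker.symm
  have hdeg : Module.finrank K L = H.index := by
    rw [← IsGalois.card_aut_eq_finrank, ← Nat.card_congr e.toEquiv]
    rfl
  have hI : ∀ (ℓ : ℕ) (_ : ℓ.Prime) (A : ValuationSubring Ω), A.LiesOverPrime ℓ →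
      ∀ σ ∈ A.inertiaSubgroupIn K, ∀ x : L, σ (algebraMap L Ω x) = algebraMap L Ω x := by
    intro ℓ hℓ A hA σ hσ x
    have h1 := hunr ℓ hℓ A hA hσ
    rw [← hfix, IntermediateField.mem_fixingSubgroup_iff] at h1
    exact h1 x x.2
  refine ⟨L, hNF, hgal, hfix, ⟨e⟩, hdeg, ?_, ?_⟩
  · intro w
    obtain ⟨ℓ, hℓ, A, hA, rfl⟩ := exists_placeBelow_eq' (Ω := Ω) w
    exact ramificationIdx'_eq_one hℓ hA (hI ℓ hℓ A hA)
  · intro ℓ hℓ A hA
    refine ⟨?_, fun φ hφH hφ => stabCard_eq_one hℓ hA (hI ℓ hℓ A hA) hφ fun x => ?_⟩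
    · apply HeightOneSpectrum.ext
      have htower : (algebraMap (𝓞 L) (𝓞 Ω)).comp (algebraMap (𝓞 K) (𝓞 L)) =
          algebraMap (𝓞 K) (𝓞 Ω) := by
        ext a
        exact (IsScalarTower.algebraMap_apply K L Ω (a : K)).symm
      show (placeBelow L hℓ hA).asIdeal.under (𝓞 K) = (placeBelow K hℓ hA).asIdeal
      rw [Ideal.under_def, placeBelow_asIdeal, placeBelow_asIdeal, Ideal.comap_comap, htower]
    · rw [← hfix, IntermediateField.mem_fixingSubgroup_iff] at hφH
      exact hφH x x.2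

/-- **The first inequality, Galois form.** -/
theorem first_inequality_gal [IsTotallyComplex K] (hrank : Units.rank K = 0)
    (H : Subgroup (Ω ≃ₐ[K] Ω)) [H.Normal] (hopen : IsOpen (H : Set (Ω ≃ₐ[K] Ω)))
    (hcyc : IsCyclic ((Ω ≃ₐ[K] Ω) ⧸ H)) {k : ℕ} (hidx : H.index = 2 ^ k)
    (hunr : ∀ (ℓ : ℕ), ℓ.Prime → ∀ A : ValuationSubring Ω, A.LiesOverPrime ℓ →
      A.inertiaSubgroupIn K ≤ H) :
    ∃ D : Subgroup (ClassGroup (𝓞 K)), 2 ^ k ≤ D.index ∧ (∀ c, c ^ 2 ^ k ∈ D) ∧
      ∀ (ℓ : ℕ) (hℓ : ℓ.Prime) (A : ValuationSubring Ω) (hA : A.LiesOverPrime ℓ)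
        (φ : Ω ≃ₐ[K] Ω), φ ∈ H → A.IsFrobeniusAt φ ℓ → clv (placeBelow K hℓ hA) ∈ D := by
  obtain ⟨L, hNF, hgal, hfix, ⟨e⟩, hdeg, hunr', hfrob⟩ := exists_layer H hopen hunr
  have hcycL : IsCyclic (L ≃ₐ[K] L) := isCyclic_of_surjective e e.surjective
  refine ⟨_, first_inequality hrank (hdeg.trans hidx) hunr',
    pow_mem_closure (hdeg.trans hidx), fun ℓ hℓ A hA φ hφH hφ => ?_⟩
  refine Subgroup.subset_closure ⟨placeBelow L hℓ hA, ?_⟩
  rw [(hfrob ℓ hℓ A hA).1, (hfrob ℓ hℓ A hA).2 φ hφH hφ, pow_one]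

end gal

section split

variable {K L : Type*} [Field K] [NumberField K] [Field L] [NumberField L] [Algebra K L]

/-- trivial decomposition group: completely split -/
theorem ncard_above_of_stabCard_eq_one [IsGalois K L] {w : HeightOneSpectrum (𝓞 L)}
    (hw : stabCard K w = 1) : (H82.above L (below K w)).ncard = Module.finrank K L := by
  have hover : w.asIdeal.LiesOver (below K w).asIdeal := ⟨rfl⟩
  rw [H65.ncard_above]
  have h1 := Ideal.ncard_primesOver_mul_ramificationIdxIn_mul_inertiaDegIn (below K w).asIdeal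
    (𝓞 L) (L ≃ₐ[K] L)
  have h2 := Ideal.card_stabilizer_eq (G := L ≃ₐ[K] L) (below K w).asIdeal w.asIdeal
  rw [← h2, IsGalois.card_aut_eq_finrank] at h1
  have h3 : Nat.card (MulAction.stabilizer (L ≃ₐ[K] L) w.asIdeal) = 1 := hw
  rwa [h3, mul_one] at h1

end split

end

end Fermat.Agent.H91.FI
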