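import Mathlib
import Fermat.Agent.H91FIh

/-!
# M5: the end step (LT-MOD2)
-/

set_option autoImplicit false

namespace Fermat.Agent.H91.M5

open NumberField IsDedekindDomain Fermat.Agent.H63 Fermat.Agent.H91.FI
open Fermat.Agent.H64 (placeBelow placeBelow_asIdeal)
open scoped Pointwise nonZeroDivisors

noncomputable section

section abs

variable {G C : Type*} [Group G] [CommGroup C]

/-- counting step -/
theorem ker_le_of_index {κ₀ : G →* C} (hκ₀ : Function.Surjective κ₀) {H : Subgroup G} {n : ℕ}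
    (hn : n ≠ 0) (hidx : H.index = n) {D : Subgroup C} (hD : n ≤ D.index)
    (hH : H ≤ D.comap κ₀) : κ₀.ker ≤ H := by
  have h1 : (D.comap κ₀).index = D.index := Subgroup.index_comap_of_surjective D hκ₀
  have h2 : H.relIndex (D.comap κ₀) * (D.comap κ₀).index = H.index :=
    Subgroup.relIndex_mul_index hH
  rw [h1, hidx] at h2
  have h3 : H.relIndex (D.comap κ₀) = 1 := by
    have h4 : H.relIndex (D.comap κ₀) ≠ 0 := by
      intro h; rw [h, zero_mul] at h2; exact hn h2.symm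
    have h5 : H.relIndex (D.comap κ₀) * D.index ≤ 1 * D.index := by
      rw [h2, one_mul]; exact hD
    have h6 : 0 < D.index := lt_of_lt_of_le (Nat.pos_of_ne_zero hn) hD
    have h7 := Nat.le_of_mul_le_mul_right h5 h6
    omega
  have h8 : D.comap κ₀ ≤ H := Subgroup.relIndex_eq_one.1 h3
  refine le_trans ?_ h8
  intro g hg
  rw [Subgroup.mem_comap, MonoidHom.mem_ker.1 hg]
  exact D.one_mem

/-- elements outside the kernel of a character of order three generate every subgroup of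
`2`-power index -/
theorem le_of_forall_ne_one {ψ : G →* Multiplicative (ZMod 3)} (hψ : ψ ≠ 1) {H B : Subgroup G}
    {k : ℕ} (hidx : H.index = 2 ^ k) (hB : ∀ σ ∈ H, ψ σ ≠ 1 → σ ∈ B) : H ≤ B := by
  have hex : ∃ τ ∈ H, ψ τ ≠ 1 := by
    by_contra hcon
    push Not at hcon
    have h1 : H ≤ ψ.ker := fun τ hτ => hcon τ hτ
    have h2 : ψ.ker.index ∣ 2 ^ k := hidx ▸ Subgroup.index_dvd_of_le h1
    have h3 : ψ.ker.index ∣ 3 := by
      rw [Subgroup.index_ker]
      have := Subgroup.card_subgroup_dvd_card ψ.range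
      rwa [Nat.card_eq_fintype_card (α := Multiplicative (ZMod 3)), Fintype.card_multiplicative,
        ZMod.card] at this
    have h4 : ψ.ker.index ∣ 1 := by
      have : Nat.gcd (2 ^ k) 3 = 1 := Nat.Coprime.pow_left k (by norm_num)
      rw [← this]
      exact Nat.dvd_gcd h2 h3
    rw [Nat.dvd_one, Subgroup.index_eq_one] at h4
    exact hψ ((MonoidHom.ker_eq_top_iff).1 h4)
  obtain ⟨τ, hτ, hψτ⟩ := hex
  intro σ hσ
  by_cases h : ψ σ = 1
  · have h1 : σ * τ ∈ B := hB _ (H.mul_mem hσ hτ) (by rw [map_mul, h, one_mul]; exact hψτ)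
    have h2 := B.mul_mem h1 (B.inv_mem (hB τ hτ hψτ))
    rwa [mul_inv_cancel_right] at h2
  · exact hB σ hσ h

end abs

section main

variable {K Ω : Type} [Field K] [NumberField K] [Field Ω] [CharZero Ω] [Algebra.IsAlgebraic ℚ Ω]
  [Algebra K Ω] [IsGalois K Ω]

/-- Frobenius density (existence form) over `K`. -/
def Dense (K Ω : Type) [Field K] [NumberField K] [Field Ω] [Algebra K Ω] (S : Finset ℕ) : Prop :=
  ∀ U : Subgroup (Ω ≃ₐ[K] Ω), IsOpen (U : Set (Ω ≃ₐ[K] Ω)) → ∀ σ : Ω ≃ₐ[K] Ω,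
    ∃ (ℓ : ℕ) (_ : ℓ.Prime) (A : ValuationSubring Ω) (_ : A.LiesOverPrime ℓ) (φ : Ω ≃ₐ[K] Ω)
      (i j : ℕ), ℓ ∉ S ∧ A.IsFrobeniusAt φ ℓ ∧ (φ ^ i)⁻¹ * σ ∈ U ∧ (σ ^ j)⁻¹ * φ ∈ U

/-- **M5, end step.** -/
theorem m5_end [IsTotallyComplex K] (hrank : Units.rank K = 0) {S : Finset ℕ} (hdens : Dense K Ω S)
    (ψ : (Ω ≃ₐ[K] Ω) →* Multiplicative (ZMod 3)) (hψ1 : ψ ≠ 1)
    (hψ : IsOpen (ψ.ker : Set (Ω ≃ₐ[K] Ω)))
    {Γ : Type*} [CommGroup Γ] (x : ClassGroup (𝓞 K) →* Γ) (hx : ∀ c, x c = 1 → Odd (orderOf c))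
    (κ₀ : (Ω ≃ₐ[K] Ω) →* Γ) (hκ₀ : IsOpen (κ₀.ker : Set (Ω ≃ₐ[K] Ω)))
    (hκ₀f : ∀ (ℓ : ℕ) (hℓ : ℓ.Prime) (A : ValuationSubring Ω) (hA : A.LiesOverPrime ℓ)
      (φ : Ω ≃ₐ[K] Ω), ℓ ∉ S → A.IsFrobeniusAt φ ℓ → ψ φ ≠ 1 →
        κ₀ φ = x (clv (placeBelow K hℓ hA)) ∨ κ₀ φ = (x (clv (placeBelow K hℓ hA)))⁻¹)
    (hsurj : κ₀.range = x.range)
    {P : Type*} [CommGroup P] (κ : (Ω ≃ₐ[K] Ω) →* P) (hκ : IsOpen (κ.ker : Set (Ω ≃ₐ[K] Ω)))
    (h2 : ∀ g, ∃ m : ℕ, κ g ^ 2 ^ m = 1)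
    (hunr : ∀ (ℓ : ℕ), ℓ.Prime → ∀ A : ValuationSubring Ω, A.LiesOverPrime ℓ →
      A.inertiaSubgroupIn K ≤ κ.ker) :
    κ₀.ker ≤ κ.ker ∧ Nat.card κ.range ≤ Nat.card x.range := by
  classical
  have hfin : Finite (ClassGroup (𝓞 K)) := inferInstance
  have hkey : κ₀.ker ≤ κ.ker := by
    intro g hg
    by_contra hcon
    -- finiteness of the image
    have hfq : Finite ((Ω ≃ₐ[K] Ω) ⧸ κ.ker) := Subgroup.quotient_finite_of_isOpen _ hκ
    have hfr : Finite κ.range :=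
      Finite.of_equiv _ (QuotientGroup.quotientKerEquivRange κ).toEquiv
    -- a character
    have hne : (⟨κ g, g, rfl⟩ : κ.range) ≠ 1 := fun h => hcon (congrArg Subtype.val h)
    obtain ⟨χ, hχ⟩ := CommGroup.exists_apply_ne_one_of_hasEnoughRootsOfUnity κ.range ℂ hne
    set f : (Ω ≃ₐ[K] Ω) →* ℂˣ := χ.comp κ.rangeRestrict with hf
    have hle : κ.ker ≤ f.ker := by
      intro σ hσ
      rw [MonoidHom.mem_ker, hf, MonoidHom.comp_apply]
      have : κ.rangeRestrict σ = 1 := Subtype.ext hσ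
      rw [this, map_one]
    have hfopen : IsOpen (f.ker : Set (Ω ≃ₐ[K] Ω)) := Subgroup.isOpen_mono hle hκ
    have hffin : Finite f.range := by
      have : f.range ≤ χ.range := by
        rintro _ ⟨σ, rfl⟩
        exact ⟨_, rfl⟩
      have hχfin : Finite χ.range := Finite.of_surjective _ χ.rangeRestrict_surjective
      exact Finite.of_injective _ (Subgroup.inclusion_injective this)
    have hcyc : IsCyclic f.range := inferInstance
    have hcyc' : IsCyclic ((Ω ≃ₐ[K] Ω) ⧸ f.ker) :=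
      isCyclic_of_surjective (QuotientGroup.quotientKerEquivRange f).symm
        (QuotientGroup.quotientKerEquivRange f).symm.surjective
    have hp : IsPGroup 2 f.range := by
      rintro ⟨_, σ, rfl⟩
      obtain ⟨m, hm⟩ := h2 σ
      refine ⟨m, Subtype.ext ?_⟩
      show (f σ) ^ 2 ^ m = 1
      have h3 : κ.rangeRestrict σ ^ 2 ^ m = 1 := Subtype.ext hm
      rw [hf, MonoidHom.comp_apply, ← map_pow, h3, map_one]
    obtain ⟨k, hk⟩ := IsPGroup.iff_card.1 hp
    have hidx : f.ker.index = 2 ^ k := by rw [Subgroup.index_ker, hk]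
    obtain ⟨D, hD1, hD2, hD3⟩ := first_inequality_gal hrank f.ker hfopen hcyc' hidx
      (fun ℓ hℓ A hA => (hunr ℓ hℓ A hA).trans hle)
    -- the kernel of `x` is contained in `D`
    have hxD : x.ker ≤ D := by
      intro c hc
      have hodd := hx c hc
      have h3 : Nat.Coprime (2 ^ k) (orderOf c) := Nat.Coprime.pow_left k hodd.coprime_two_left
      have h4 : c ∈ Subgroup.zpowers (c ^ 2 ^ k) := by
        rw [mem_zpowers_pow_iff]
        exact h3
      exact (Subgroup.zpowers_le.2 (hD2 c)) h4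
    -- transfer to the range of `x`
    let D' : Subgroup x.range := D.map x.rangeRestrict
    have hD' : D'.index = D.index := by
      refine Subgroup.index_map_eq _ x.rangeRestrict_surjective ?_
      rwa [MonoidHom.ker_rangeRestrict]
    let κ' : (Ω ≃ₐ[K] Ω) →* x.range :=
      κ₀.codRestrict x.range (fun σ => hsurj ▸ ⟨σ, rfl⟩)
    have hκ' : Function.Surjective κ' := by
      rintro ⟨y, hy⟩
      rw [← hsurj] at hy
      obtain ⟨σ, rfl⟩ := hy
      exact ⟨σ, rfl⟩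
    have hHD : f.ker ≤ D'.comap κ' := by
      refine le_of_forall_ne_one hψ1 hidx fun σ hσ hψσ => ?_
      have hU : IsOpen ((f.ker ⊓ ψ.ker ⊓ κ₀.ker : Subgroup (Ω ≃ₐ[K] Ω)) :
          Set (Ω ≃ₐ[K] Ω)) := (hfopen.inter hψ).inter hκ₀
      obtain ⟨ℓ, hℓ, A, hA, φ, i, j, hℓS, hφ, h3, h4⟩ := hdens _ hU σ
      obtain ⟨⟨h3f, h3ψ⟩, h3κ⟩ := h3
      obtain ⟨⟨h4f, h4ψ⟩, h4κ⟩ := h4
      have hψφ : ψ φ ≠ 1 := by
        intro h
        apply hψσ
        have := MonoidHom.mem_ker.1 h3ψ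
        rw [map_mul, map_inv, map_pow, h, one_pow, inv_one, one_mul] at this
        exact this
      have hfφ : φ ∈ f.ker := by
        have h5 : σ ^ j ∈ f.ker := f.ker.pow_mem hσ j
        have h6 := f.ker.mul_mem h5 h4f
        rwa [mul_inv_cancel_left] at h6
      have h7 := hD3 ℓ hℓ A hA φ hfφ hφ
      have h8 : κ' φ ∈ D' := by
        rcases hκ₀f ℓ hℓ A hA φ hℓS hφ hψφ with h | h
        · exact ⟨_, h7, Subtype.ext h.symm⟩
        · refine ⟨(clv (placeBelow K hℓ hA))⁻¹, D.inv_mem h7, Subtype.ext ?_⟩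
          show x _ = κ₀ φ
          rw [h, map_inv]
      have h9 : κ' σ = κ' φ ^ i := by
        apply Subtype.ext
        have h10 := MonoidHom.mem_ker.1 h3κ
        rw [map_mul, map_inv, map_pow, inv_mul_eq_one] at h10
        exact h10.symm
      rw [Subgroup.mem_comap, h9]
      exact D'.pow_mem h8 i
    have hfin' := ker_le_of_index hκ' (pow_ne_zero k two_ne_zero) hidx (hD'.symm ▸ hD1) hHD
    have h10 : g ∈ f.ker := hfin' (by
      rw [MonoidHom.mem_ker]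
      exact Subtype.ext hg)
    exact hχ h10
  refine ⟨hkey, ?_⟩
  have h1 : Nat.card κ.range ∣ Nat.card κ₀.range := by
    rw [← Subgroup.index_ker, ← Subgroup.index_ker]
    exact Subgroup.index_dvd_of_le hkey
  rw [hsurj] at h1
  have hfr : Finite x.range := inferInstance
  exact Nat.le_of_dvd Nat.card_pos h1

end main

end

end Fermat.Agent.H91.M5
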