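import Mathlib
import Fermat.Agent.H91M5
import Fermat.Agent.H86DensityFinal

/-!
# M5: Frobenius density over `K` and change of base (LT-MOD2)
-/

set_option autoImplicit false

namespace Fermat.Agent.H91.M5

open NumberField IsDedekindDomain Fermat.Agent.H63 Fermat.Agent.H91.FI
open Fermat.Agent.H64 (placeBelow placeBelow_asIdeal)
open scoped Pointwise nonZeroDivisors

noncomputable section

section base

variable {K Ω : Type*} [Field K] [CharZero K] [Field Ω] [CharZero Ω] [Algebra.IsAlgebraic ℚ Ω]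
  [Algebra K Ω]

theorem isFrobeniusAt_restrictScalars (A : ValuationSubring Ω) (σ : Ω ≃ₐ[K] Ω) {q : ℕ}
    (hq : q ≠ 0) : A.IsFrobeniusAt (σ.restrictScalars ℚ) q ↔ A.IsFrobeniusAt σ q := by
  rw [isFrobeniusAt_iff_center A _ hq, isFrobeniusAt_iff_center A _ hq]
  rfl

theorem mem_inertia_restrictScalars (A : ValuationSubring Ω) (σ : Ω ≃ₐ[K] Ω) :
    σ.restrictScalars ℚ ∈ A.inertiaSubgroupIn ℚ ↔ σ ∈ A.inertiaSubgroupIn K := by
  rw [mem_inertiaSubgroupIn_iff_center, mem_inertiaSubgroupIn_iff_center]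
  rfl

end base

section density

local notation "Ω" => AlgebraicClosure ℚ

theorem isGalois_Qbar : IsGalois ℚ Ω := by
  have : Algebra.IsAlgebraic ℚ Ω := AlgebraicClosure.isAlgebraic ℚ
  have : IsAlgClosure ℚ Ω := ⟨inferInstance, inferInstance⟩
  have : Normal ℚ Ω := IsAlgClosure.normal ℚ Ω
  exact ⟨⟩

theorem isAlgebraic_Qbar : Algebra.IsAlgebraic ℚ Ω := AlgebraicClosure.isAlgebraic ℚ

variable {K : Type} [Field K] [NumberField K] [Algebra K Ω]

theorem isGalois_Qbar' : IsGalois K Ω := by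
  have := isGalois_Qbar
  exact IsGalois.tower_top_of_isGalois ℚ K Ω

theorem dense (S : Finset ℕ) : Dense K Ω S := by
  intro U hU σ
  have hgal : IsGalois K Ω := isGalois_Qbar'
  have halg : Algebra.IsAlgebraic ℚ Ω := isAlgebraic_Qbar
  obtain ⟨E, hE, hEU⟩ := (krullTopology_mem_nhds_one_iff K Ω (U : Set (Ω ≃ₐ[K] Ω))).1
    (hU.mem_nhds U.one_mem)
  have hEQ : FiniteDimensional ℚ E := Module.Finite.trans K E
  let L : IntermediateField ℚ Ω := E.restrictScalars ℚ
  have hL : FiniteDimensional ℚ L := hEQ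
  obtain ⟨ℓ, hℓ, hℓS, A, hA, φ', hφ', i, j, h1, h2⟩ :=
    H86.frobenius_density H86.frobDensityFinite L (σ.restrictScalars ℚ) S
  have hpow : ∀ (n : ℕ) (x : Ω), (σ.restrictScalars ℚ ^ n) x = (σ ^ n) x := by
    intro n x
    induction n generalizing x with
    | zero => rfl
    | succ n ih =>
      rw [pow_succ, pow_succ]
      exact ih (σ x)
  have hφK : ∀ x : K, φ' (algebraMap K Ω x) = algebraMap K Ω x := by
    intro x
    rw [h2 _ (show algebraMap K Ω x ∈ E from E.algebraMap_mem x), hpow]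
    exact (σ ^ j).commutes x
  let φ : Ω ≃ₐ[K] Ω := AlgEquiv.ofRingEquiv (f := φ'.toRingEquiv) hφK
  have hφφ' : φ.restrictScalars ℚ = φ' := by
    ext x
    rfl
  have hpow' : ∀ (n : ℕ) (x : Ω), (φ' ^ n) x = (φ ^ n) x := by
    intro n x
    induction n generalizing x with
    | zero => rfl
    | succ n ih =>
      rw [pow_succ, pow_succ]
      exact ih (φ' x)
  refine ⟨ℓ, hℓ, A, hA, φ, i, j, hℓS, ?_, ?_, ?_⟩
  · rw [← isFrobeniusAt_restrictScalars A φ hℓ.ne_zero, hφφ']
    exact hφ'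
  · apply hEU
    show (φ ^ i)⁻¹ * σ ∈ E.fixingSubgroup
    rw [IntermediateField.mem_fixingSubgroup_iff]
    intro x hx
    have h3 := h1 x hx
    rw [hpow'] at h3
    show (φ ^ i)⁻¹ (σ x) = x
    have h4 : σ x = (φ ^ i) x := h3
    rw [h4]
    exact (φ ^ i).symm_apply_apply x
  · apply hEU
    show (σ ^ j)⁻¹ * φ ∈ E.fixingSubgroup
    rw [IntermediateField.mem_fixingSubgroup_iff]
    intro x hx
    have h3 := h2 x hx
    rw [hpow] at h3
    show (σ ^ j)⁻¹ (φ x) = x
    have h4 : φ x = (σ ^ j) x := h3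
    rw [h4]
    exact (σ ^ j).symm_apply_apply x

end density

end

end Fermat.Agent.H91.M5
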