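import Mathlib
import Fermat.Agent.H91M5b

/-!
# Reader's guide: the first inequality for unramified extensions of degree `2^k` (block LT, M5)

Companion of the section M5 of `GuideResidualSteps`, where the results are stated (theorems
`herbrand_quotient_of_units`, `first_inequality`, `density`, `end_step`). This file is a table of
contents, checked by Lean, of their proofs: each theorem below is a step, written out and proved by
citing the library. Only `Guide` imports this file.

**The result.** Let `K` be an imaginary quadratic field (used: totally complex, finite unit group), `L/K`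
cyclic of degree `n = 2^k` and unramified at all places, and `D` the subgroup of the class group of `K`
generated by the classes `[v]^d`, `v` a finite place of `K`, `d` the order of the decomposition group of
`v` in `L/K` (these are the classes of the norms of the prime ideals of `L`). Then `[Cl(K) : D] ≥ n`
(theorem (17)). Use: in block LT the characters of 2-power order of `Gal(ℚ̄/ℚ(√-N))` which are unramified
everywhere have to be bounded by the 2-part of the class group (end step of M5). The Hilbert class field
and the Artin map are not available; instead one homomorphism `κ₀` with known values at Frobenius elements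
comes from theta series, and this inequality shows that there is nothing else.

**The proof** (no ideles, no completions, no cohomology groups, only indices).
 1. Herbrand quotients of a cyclic 2-group acting on a finitely generated abelian group, from the ranks of
    the fixed subgroups: the only nonformal case is `s^(2^i) = -1`, which rests on a polynomial identity.
 2. The abstract inequality: for `0 → E → U → M` with finite `M / U`, `q(E) = 1/n`, `Ĥ⁻¹(U) = 0`, the
    subgroup of `M^s` generated by the norms from `M` and by the image of `U^s` has index at least `n`.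
 3. Apply it to the units of `L`, the `T`-units of `L` and the functions on the places above `T`, `T` so
    large that the `T`-class groups of `K` and `L` vanish (`Ĥ⁻¹(U) = 0` is Hilbert 90 for `T`-units,
    theorem `hilbert90_T_units` of `GuideLocalNorms`). Then `M^s` is the group of the functions on `T`, the
    image of `U^s` the principal divisors of `K` supported in `T`, and `M^s` modulo these is `Cl(K)`.
 4. Galois form: `L` is the field cut out by an open subgroup of a Galois group; a Frobenius element which
    is trivial on `L` makes the decomposition group trivial.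
 5. The end step: counting, and elements outside the kernel of a character of order three.

Notions. `AddMonoid.End M`: the endomorphisms of `M`, a ring. For `s` with `s^n = 1`: `nE s n` is the norm
`1 + s + ... + s^(n-1)`; `kerE`, `rangeE`: kernel and image; `fixE s m`: the fixed subgroup of `s^m`;
`resE s H`: `s` restricted to `H`; `H.relIndex G = [G : H ∩ G]`, with value `0` if this is infinite.
`above L v`: the places of `L` above `v`; `aboveSet L T`: those above `T`; `below K w`: the place of `K`
below `w`; `smulPlace σ w = σ(w)`; `stabCard K w`: the order of the decomposition group of `w`;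
`ordHom v`: the order at `v`, a homomorphism from the units of the field, written additively, to `ℤ`;
`clv v`: the class of `v` in the class group.

Notes: NOTES.md, [208]. All cited theorems are in the proof terms of S01, S03, S04, S06, S38, S45, S46,
S50, S59, S60. Author: helper91 (files `H91FIa` to `H91FIh`, `H91M5`, `H91M5b`); they use Herbrand
quotients (helper54), `T`-units and divisors (helper47), places above (helper65), places of `Ω` (63, 64).
-/

set_option autoImplicit false

namespace Fermat.Agent.Guide.ClassBound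

open AddSubgroup NumberField IsDedekindDomain Polynomial
open Fermat.Agent.H54 Fermat.Agent.H63 Fermat.Agent.H91.FI
open Fermat.Agent.H82 (above aboveSet ClTrivial)
open Fermat.Agent.H47 (smulPlace below classOf ordHom)
open Fermat.Agent.H64 (placeBelow)
open scoped Pointwise

/-! ### 1. Herbrand quotients of cyclic 2-groups -/

/-- (1) `HQ n s a b` says: the two indices `[ker (s-1) : im N]` and `[ker N : im (s-1)]` are finite and the
Herbrand quotient `[ker (s-1) : im N] / [ker N : im (s-1)]` is `b / a` (`N = 1 + s + ... + s^(n-1)`).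
File H91FIb. -/
theorem hq_iff {M : Type*} [AddCommGroup M] (n : ℕ) (s : AddMonoid.End M) (a b : ℕ) (T N : M →+ M)
    (hT : ∀ x, T x = s x - x) (hN : ∀ x, N x = ∑ i ∈ Finset.range n, (s ^ i) x) :
    HQ n s a b ↔ N.range.relIndex T.ker ≠ 0 ∧ T.range.relIndex N.ker ≠ 0 ∧
      a * N.range.relIndex T.ker = b * T.range.relIndex N.ker := by
  obtain rfl : T = (s - 1 : AddMonoid.End M) := AddMonoidHom.ext hT
  obtain rfl : N = nE s n := AddMonoidHom.ext fun x => (hN x).trans (nE_apply s n x).symm
  exact ⟨fun h => ⟨h.ne1, h.ne2, h.eq⟩, fun h => ⟨h.1, h.2.1, h.2.2⟩⟩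

/-- (2) The Herbrand quotient of a finite module is 1. File H91FIb. -/
theorem hq_of_finite {M : Type*} [AddCommGroup M] [Finite M] {n : ℕ} {s : AddMonoid.End M}
    (hs : s ^ n = 1) : HQ n s 1 1 :=
  HQ.of_finite hs

/-- (3) It is multiplicative in exact sequences `0 → A → M → C → 0`. File H91FIb. -/
theorem hq_exact {M A C : Type*} [AddCommGroup M] [AddCommGroup A] [AddCommGroup C] {n : ℕ}
    {s : AddMonoid.End M} {sA : AddMonoid.End A} {sC : AddMonoid.End C} (i : A →+ M) (j : M →+ C)
    (hs : s ^ n = 1) (hi : Function.Injective i) (hj : Function.Surjective j)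
    (hex : j.ker = i.range) (hiA : ∀ a, i (sA a) = s (i a)) (hjC : ∀ m, j (s m) = sC (j m))
    {a b a' b' : ℕ} (hA : HQ n sA a b) :
    (HQ n sC a' b' → HQ n s (a * a') (b * b')) ∧ (HQ n s a' b' → HQ n sC (a' * b) (b' * a)) :=
  ⟨HQ.mul i j hs hi hj hex hiA hjC hA, fun hM => HQ.quot i j hs hi hj hex hiA hjC hM hA⟩

/-- (4) The polynomial identity: in `ℤ[X]`, with `m = 2^j`, `(X - 1)^m = (X^m + 1) + 2 A` with `A`
invertible modulo `X^m + 1`. (`A(1) = -1`, so `A = y - 1` with `y` divisible by `X - 1`; `A` divides
`y^m - 1`, and modulo `X^m + 1` it divides `y^m`, a multiple of `(X - 1)^m = 2 A`.) File H91FIa. -/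
theorem poly_identity_two (j : ℕ) :
    ∃ A U E : ℤ[X], (X - 1) ^ (2 ^ j) = (X ^ (2 ^ j) + 1) + 2 * A ∧
      A * U = 1 + (X ^ (2 ^ j) + 1) * E :=
  exists_poly_identity_two j

/-- (5) If `σ^m = -1` on `M`, `m = 2^j`, then `2` and `(σ - 1)^m` have the same kernel and the same image.
File H91FIa. -/
theorem minus_one {M : Type*} [AddCommGroup M] {j : ℕ} (σ : AddMonoid.End M)
    (hN : σ ^ (2 ^ j) + 1 = 0) : kerE ((σ - 1) ^ (2 ^ j)) = kerE (2 : AddMonoid.End M) ∧
      rangeE ((σ - 1) ^ (2 ^ j)) = rangeE (2 : AddMonoid.End M) :=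
  ker_range_of_pow_eq_neg_one σ hN

/-- (6) If moreover `M` is finitely generated of rank `m = 2^j`, then `[M : (σ-1) M] = 2 #ker (σ-1)`. Proof:
with `D = σ - 1` one has `[M : D^m M] (#ker D)^m = [M : D M]^m #ker D^m`; now use (5) and
`[M : 2M] = 2^m #M[2]`, and take `m`-th roots. File H91FIa. -/
theorem index_of_sub_one {M : Type*} [AddCommGroup M] [Module.Finite ℤ M] {j : ℕ}
    (σ : AddMonoid.End M) (hN : σ ^ (2 ^ j) + 1 = 0) (hr : Module.finrank ℤ M = 2 ^ j) :
    Nat.card (kerE (σ - 1)) ≠ 0 ∧ (rangeE (σ - 1)).index = 2 * Nat.card (kerE (σ - 1)) :=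
  index_sub_one σ hN hr

/-- (7) So, if a cyclic group of order `2^k` with generator `s` acts on a module of rank `2^i`, `i < k`, and
`s^(2^i)` acts as `-1`, then the norm is zero and the Herbrand quotient is `1/2`. File H91FIb. -/
theorem hq_of_minus_one {M : Type*} [AddCommGroup M] [Module.Finite ℤ M] {s : AddMonoid.End M}
    {i k : ℕ} (hik : i < k) (h : s ^ (2 ^ i) + 1 = 0) (hr : Module.finrank ℤ M = 2 ^ i) :
    HQ (2 ^ k) s 2 1 :=
  HQ.of_pow_eq_neg_one hik h hr

/-- (8) The induction step: let `M_i` be the fixed subgroup of `s^(2^i)`. If `M_(i+1) / M_i` has rank `2^i`,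
the Herbrand quotient of `M_(i+1)` is half of the Herbrand quotient of `M_i`: `s^(2^i) - 1` maps
`M_(i+1) / M_i` isomorphically to a subgroup of `M` on which `s^(2^i) = -1`. File H91FIb. -/
theorem hq_step {M : Type*} [AddCommGroup M] [Module.Finite ℤ M] {s : AddMonoid.End M} {k i : ℕ}
    (hik : i < k) (hs : s ^ (2 ^ k) = 1) {a b : ℕ}
    (hr : Module.finrank ℤ (fixE s (2 ^ (i + 1))) = Module.finrank ℤ (fixE s (2 ^ i)) + 2 ^ i)
    (h : HQ (2 ^ k) (resE s (fixE s (2 ^ i)) (fixE_stable s _)) a b) :
    HQ (2 ^ k) (resE s (fixE s (2 ^ (i + 1))) (fixE_stable s _)) (a * 2) b :=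
  HQ.step hik hs hr h

/-- (9) Hence: if `M` is finitely generated, `s^(2^k) = 1` and the fixed subgroup of `s^(2^i)` has rank
`2^i - 1` for all `i ≤ k`, the Herbrand quotient of `M` is `2^(-k)`. File H91FIb. -/
theorem hq_of_ranks {M : Type*} [AddCommGroup M] [Module.Finite ℤ M] {s : AddMonoid.End M} {k : ℕ}
    (hs : s ^ (2 ^ k) = 1) (hr : ∀ i ≤ k, Module.finrank ℤ (fixE s (2 ^ i)) + 1 = 2 ^ i) :
    HQ (2 ^ k) s (2 ^ k) 1 :=
  HQ.of_finrank hs hr

/-- (10) For a finitely generated module both indices are finite (the quotients are killed by `n`).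
File H91FIc. -/
theorem indices_finite {M : Type*} [AddCommGroup M] [Module.Finite ℤ M] {n : ℕ} (hn : n ≠ 0)
    {s : AddMonoid.End M} (hs : s ^ n = 1) : (rangeE (nE s n)).relIndex (kerE (s - 1)) ≠ 0 ∧
      (rangeE (s - 1)).relIndex (kerE (nE s n)) ≠ 0 :=
  ⟨(HQ.of_fg hn hs).ne1, (HQ.of_fg hn hs).ne2⟩

/-! ### 2. The abstract inequality -/

/-- (11) **The first inequality, abstract form.** `0 → E → U → M` exact (maps `i`, `j`), `U` and `M` finitely
generated, `M / j(U)` finite, with automorphisms `s` of order dividing `n`. If the Herbrand quotient of `E`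
is `1/n` and every element of norm zero in `U` is in `(s-1) U`, then the subgroup `R` of `M^s` generated
by the norms from `M` and by the image of `U^s` has finite index `≥ n` in `M^s`. Proof: with
`u = [U^s : N U]` the Herbrand quotient of `U` is `u`, the one of `M` is `u n` by (2), (3) and (10), so
`[M^s : N M] ≥ u n`, and `[R : N M] ≤ u`. File H91FIc. -/
theorem abstract_inequality {E U M : Type*} [AddCommGroup E] [AddCommGroup U] [AddCommGroup M]
    [Module.Finite ℤ U] [Module.Finite ℤ M] {n : ℕ} (hn : n ≠ 0) {sE : AddMonoid.End E}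
    {sU : AddMonoid.End U} {sM : AddMonoid.End M} (i : E →+ U) (j : U →+ M)
    (hi : Function.Injective i) (hex : j.ker = i.range) (hfin : Finite (M ⧸ j.range))
    (hiE : ∀ a, i (sE a) = sU (i a)) (hjU : ∀ a, j (sU a) = sM (j a)) (hsU : sU ^ n = 1)
    (hsM : sM ^ n = 1) (hE : HQ n sE n 1)
    (hH : (rangeE (sU - 1)).relIndex (kerE (nE sU n)) = 1) (R : AddSubgroup M)
    (hR : R = rangeE (nE sM n) ⊔ (kerE (sU - 1)).map j) :
    R ≤ kerE (sM - 1) ∧ R.relIndex (kerE (sM - 1)) ≠ 0 ∧ n ≤ R.relIndex (kerE (sM - 1)) :=
  hR ▸ first_inequality_abstract hn i j hi hex hfin hiE hjU hsU hsM hE hH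

/-! ### 3. Units, functions on places, classes -/

/-- (12) **Ranks of the fixed units.** `K` totally complex with finite unit group, `g ∈ Gal(L/K)`; if the
group generated by `g^m` has index `m`, the units of `L` fixed by `g^m` have rank `m - 1`: they are the
units of a totally complex field of degree `2m`. So (9) applies to the units of `L` (theorem
`herbrand_quotient_of_units` of `GuideResidualSteps`). File H91FId. -/
theorem rank_of_fixed_units {K L : Type*} [Field K] [NumberField K] [Field L] [NumberField L]
    [Algebra K L] [IsGalois K L] [IsTotallyComplex K] (hrank : Units.rank K = 0) (g : L ≃ₐ[K] L)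
    (m : ℕ) (hm : (Subgroup.zpowers (g ^ m)).index = m) :
    Module.finrank ℤ (fixE (unitAct g) m) + 1 = m :=
  finrank_fixed_units hrank g m hm

/-- (13) **Invariant functions.** `g` a generator of `Gal(L/K)`: the functions on the places above `T`
fixed by `g` are the functions `w ↦ c(below w)`, `c` a function on `T`. (`sM T g` is the action of `g`
on the functions on the places above `T`.) File H91FIf. -/
theorem invariant_functions {K L : Type*} [Field K] [NumberField K] [Field L] [NumberField L]
    [Algebra K L] [IsGalois K L] (T : Set (HeightOneSpectrum (𝓞 K))) {g : L ≃ₐ[K] L}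
    (hg : ∀ x, x ∈ Subgroup.zpowers g) (f : aboveSet L T → ℤ) :
    sM T g f = f ↔ ∃ c : T → ℤ, ∀ w : aboveSet L T, f w = c ⟨below K w.1, below_mem T w.2⟩ :=
  have h := (SetLike.ext_iff.1 (range_rho (L := L) T hg) f).symm
  ⟨fun hf => let ⟨c, hc⟩ := h.1 (sub_eq_zero.2 hf); ⟨c, fun w => (congrFun hc w).symm⟩,
    fun ⟨c, hc⟩ => sub_eq_zero.1 (h.2 ⟨c, funext fun w => (hc w).symm⟩)⟩

/-- (14) **The norm of a place**: the sum of the translates of the indicator function of `w` is
`d` times the indicator function of the places which lie above the same place as `w`, `d` the order of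
the decomposition group. File H91FIe. -/
theorem norm_of_indicator {K L : Type*} [Field K] [NumberField K] [Field L] [NumberField L]
    [Algebra K L] [IsGalois K L] [Fintype (L ≃ₐ[K] L)] (w w' : HeightOneSpectrum (𝓞 L))
    [DecidableEq (HeightOneSpectrum (𝓞 L))] [DecidableEq (HeightOneSpectrum (𝓞 K))] :
    ∑ σ : L ≃ₐ[K] L, (if smulPlace σ w' = w then (1 : ℤ) else 0) =
      if below K w' = below K w then (stabCard K w : ℤ) else 0 := by
  convert sum_indicator (K := K) w w'

/-- (15) **The order of a norm**: `ord_v (N y) = ∑_σ ord_{σ(w)} (y)` for `w` unramified above `v`.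
File H91FIe. -/
theorem order_of_norm {K L : Type*} [Field K] [NumberField K] [Field L] [NumberField L]
    [Algebra K L] [IsGalois K L] [Fintype (L ≃ₐ[K] L)] (w : HeightOneSpectrum (𝓞 L))
    (hunr : (below K w).asIdeal.ramificationIdx' w.asIdeal = 1) (y : Lˣ) :
    ordHom (below K w) (Additive.ofMul (Units.map (Algebra.norm K : L →* K) y)) =
      ∑ σ : L ≃ₐ[K] L, ordHom (smulPlace σ w) (Additive.ofMul y) :=
  ordHom_norm w hunr y

/-- (16) **Classes of divisors supported in `T`**: if the `T`-class group is trivial, every class contains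
a divisor supported in `T`. (`classOf K D` is the class of the divisor `D`, `ext0 T d` the divisor with
coefficients `d` in `T` and zero outside.) File H91FIf. -/
theorem class_of_divisor {K : Type*} [Field K] [NumberField K]
    (T : Set (HeightOneSpectrum (𝓞 K))) [Finite T] (hT : ClTrivial T) :
    (∀ (d : T → ℤ) (v) (hv : v ∈ T), ext0 T d v = d ⟨v, hv⟩) ∧
    (∀ (d : T → ℤ) (v), v ∉ T → ext0 T d v = 0) ∧
    ∀ c : Additive (ClassGroup (𝓞 K)), ∃ d : T → ℤ, classOf K (ext0 T d) = c :=
  ⟨fun d _ hv => ext0_mem T d hv, fun d _ hv => ext0_notMem T d hv, piT_surjective T hT⟩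

/-- (17) **The first inequality.** `K` totally complex with finite unit group, `L/K` cyclic of degree `2^k`
and unramified: the classes `[v]^d`, `v` a place of `K` and `d` the order of its decomposition group,
generate a subgroup of the class group of `K` of index at least `2^k`. Proof: (11) with (12)-(16).
Files H91FIe, H91FIf, H91FIh, H47TUnits. -/
theorem first_inequality {K L : Type} [Field K] [NumberField K] [Field L] [NumberField L]
    [Algebra K L] [IsGalois K L] [IsTotallyComplex K] (hrank : Units.rank K = 0)
    [IsCyclic (L ≃ₐ[K] L)] {k : ℕ} (hdeg : Module.finrank K L = 2 ^ k)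
    (hunr : ∀ w : HeightOneSpectrum (𝓞 L), (below K w).asIdeal.ramificationIdx' w.asIdeal = 1) :
    2 ^ k ≤ (Subgroup.closure {c : ClassGroup (𝓞 K) | ∃ w : HeightOneSpectrum (𝓞 L),
      c = clv (below K w) ^ stabCard K w}).index :=
  H91.FI.first_inequality hrank hdeg hunr

/-- (18) This subgroup contains all `2^k`-th powers: the class group is generated by the classes of the
places, and the order of a decomposition group divides `2^k`. File H91FIh. -/
theorem powers_in_subgroup {K L : Type*} [Field K] [NumberField K] [Field L] [NumberField L]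
    [Algebra K L] [IsGalois K L] {k : ℕ} (hdeg : Module.finrank K L = 2 ^ k) :
    (∀ B : Subgroup (ClassGroup (𝓞 K)), (∀ v, clv v ∈ B) → B = ⊤) ∧
    ∀ c : ClassGroup (𝓞 K), c ^ 2 ^ k ∈ Subgroup.closure {c : ClassGroup (𝓞 K) |
      ∃ w : HeightOneSpectrum (𝓞 L), c = clv (below K w) ^ stabCard K w} :=
  ⟨closure_clv, pow_mem_closure hdeg⟩

/-! ### 4. Layers of a Galois extension

`Ω` is algebraic over `ℚ`, a place of `Ω` is a valuation ring `A`; `A.LiesOverPrime ℓ`, `A.inertiaSubgroupIn
K` and `A.IsFrobeniusAt φ ℓ` are notions of the Prelude; `placeBelow L hℓ hA` is the place of `L` below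
`A`. -/

/-- (19) Every finite place of a number field `L` contained in `Ω` is below a place of `Ω`.
File H91FIg. -/
theorem exists_place_above {Ω : Type*} [Field Ω] [CharZero Ω] [Algebra.IsAlgebraic ℚ Ω] {L : Type*}
    [Field L] [NumberField L] [Algebra L Ω] (w : HeightOneSpectrum (𝓞 L)) :
    ∃ (ℓ : ℕ) (hℓ : ℓ.Prime) (A : ValuationSubring Ω) (hA : A.LiesOverPrime ℓ),
      placeBelow L hℓ hA = w :=
  exists_placeBelow_eq' w

/-- (20) **Unramified and split places.** If the inertia group at `A` acts trivially on `L`, the place of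
`L` below `A` is unramified over `K`; if moreover some Frobenius element at `A` acts trivially on `L`, its
decomposition group is trivial, and the place below has `[L : K]` places of `L` above it. (`x^ℓ = x` in
the residue field of `L`, so it has `ℓ` elements, and an element of the decomposition group is in the
inertia group.) Files H91FIg, H91FIh. -/
theorem unramified_and_split {Ω : Type*} [Field Ω] [CharZero Ω] [Algebra.IsAlgebraic ℚ Ω]
    {K L : Type*} [Field K] [NumberField K] [Field L] [NumberField L] [Algebra K L] [IsGalois K L]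
    [Algebra L Ω] [Algebra K Ω] [IsScalarTower K L Ω] [IsGalois K Ω] {ℓ : ℕ} (hℓ : ℓ.Prime)
    {A : ValuationSubring Ω} (hA : A.LiesOverPrime ℓ)
    (hI : ∀ σ ∈ A.inertiaSubgroupIn K, ∀ x : L, σ (algebraMap L Ω x) = algebraMap L Ω x) :
    (below K (placeBelow L hℓ hA)).asIdeal.ramificationIdx' (placeBelow L hℓ hA).asIdeal = 1 ∧
    ∀ φ : Ω ≃ₐ[K] Ω, A.IsFrobeniusAt φ ℓ → (∀ x : L, φ (algebraMap L Ω x) = algebraMap L Ω x) →
      stabCard K (placeBelow L hℓ hA) = 1 ∧
      (above L (below K (placeBelow L hℓ hA))).ncard = Module.finrank K L :=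
  ⟨ramificationIdx'_eq_one hℓ hA hI, fun _ hφ hx => ⟨stabCard_eq_one hℓ hA hI hφ hx,
    ncard_above_of_stabCard_eq_one (stabCard_eq_one hℓ hA hI hφ hx)⟩⟩

/-- (21) **The layer of an open normal subgroup** `H` of `Gal(Ω/K)` which contains all inertia groups: a
number field `L`, Galois over `K` of degree `[Gal(Ω/K) : H]`, with group `Gal(Ω/K) / H`, unramified at all
finite places; a Frobenius element in `H` makes the decomposition group of the place of `L` trivial. With
(17), (18) this gives the Galois form of the first inequality. It is also used for degree 3, in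
`class_character_galois` of `GuideCubicCharacter`. File H91FIh. -/
theorem layer {K Ω : Type} [Field K] [NumberField K] [Field Ω] [CharZero Ω]
    [Algebra.IsAlgebraic ℚ Ω] [Algebra K Ω] [IsGalois K Ω] (H : Subgroup (Ω ≃ₐ[K] Ω)) [H.Normal]
    (hopen : IsOpen (H : Set (Ω ≃ₐ[K] Ω))) (hunr : ∀ (ℓ : ℕ), ℓ.Prime →
      ∀ A : ValuationSubring Ω, A.LiesOverPrime ℓ → A.inertiaSubgroupIn K ≤ H) :
    ∃ (L : IntermediateField K Ω) (_ : NumberField L) (_ : IsGalois K L),
      L.fixingSubgroup = H ∧ Nonempty (((Ω ≃ₐ[K] Ω) ⧸ H) ≃* (L ≃ₐ[K] L)) ∧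
      Module.finrank K L = H.index ∧
      (∀ w : HeightOneSpectrum (𝓞 L), (below K w).asIdeal.ramificationIdx' w.asIdeal = 1) ∧
      ∀ (ℓ : ℕ) (hℓ : ℓ.Prime) (A : ValuationSubring Ω) (hA : A.LiesOverPrime ℓ),
        below K (placeBelow L hℓ hA) = placeBelow K hℓ hA ∧
        ∀ φ : Ω ≃ₐ[K] Ω, φ ∈ H → A.IsFrobeniusAt φ ℓ → stabCard K (placeBelow L hℓ hA) = 1 :=
  exists_layer H hopen hunr

/-- (22) **Change of base**: for an automorphism `σ` of `Ω` over `K` it is the same to be a Frobenius
element, or to be in the inertia group, over `K` or over `ℚ`. With the density theorem of Frobenius over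
`ℚ` this gives `density` of `GuideResidualSteps`. File H91M5b. -/
theorem change_of_base {K Ω : Type*} [Field K] [CharZero K] [Field Ω] [CharZero Ω]
    [Algebra.IsAlgebraic ℚ Ω] [Algebra K Ω] (A : ValuationSubring Ω) (σ : Ω ≃ₐ[K] Ω) {q : ℕ}
    (hq : q ≠ 0) : (A.IsFrobeniusAt (σ.restrictScalars ℚ) q ↔ A.IsFrobeniusAt σ q) ∧
      (σ.restrictScalars ℚ ∈ A.inertiaSubgroupIn ℚ ↔ σ ∈ A.inertiaSubgroupIn K) :=
  ⟨H91.M5.isFrobeniusAt_restrictScalars A σ hq, H91.M5.mem_inertia_restrictScalars A σ⟩

/-! ### 5. The end step -/

/-- (23) **Counting.** `κ₀ : G → C` surjective, `H` a subgroup of `G` of index `n`, `D` a subgroup of `C` of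
index at least `n` with `κ₀(H) ⊆ D`. Then `H` contains the kernel of `κ₀` (because `H = κ₀⁻¹(D)`). In the
application `G = Gal(Ω/K)`, `C` is the 2-part of the class group, `H` the kernel of a character of order
`n = 2^k` unramified everywhere, and `D` comes from the first inequality. File H91M5. -/
theorem counting {G C : Type*} [Group G] [CommGroup C] {κ₀ : G →* C}
    (hκ₀ : Function.Surjective κ₀) {H : Subgroup G} {n : ℕ} (hn : n ≠ 0) (hidx : H.index = n)
    {D : Subgroup C} (hD : n ≤ D.index) (hH : H ≤ D.comap κ₀) : κ₀.ker ≤ H :=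
  H91.M5.ker_le_of_index hκ₀ hn hidx hD hH

/-- (24) **Elements outside the kernel of a character of order three.** `ψ` a nontrivial homomorphism to
`ℤ/3`, `H` a subgroup of 2-power index: a subgroup `B` which contains all `σ ∈ H` with `ψ(σ) ≠ 1`
contains `H`. So for the inclusion `κ₀(H) ⊆ D` in (23) it is enough to consider Frobenius elements `φ ∈ H`
with `ψ(φ) ≠ 1` (density theorem of Frobenius), for which `κ₀(φ)` is known. File H91M5. -/
theorem outside_kernel {G : Type*} [Group G] {ψ : G →* Multiplicative (ZMod 3)} (hψ : ψ ≠ 1)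
    {H B : Subgroup G} {k : ℕ} (hidx : H.index = 2 ^ k) (hB : ∀ σ ∈ H, ψ σ ≠ 1 → σ ∈ B) : H ≤ B :=
  H91.M5.le_of_forall_ne_one hψ hidx hB

end Fermat.Agent.Guide.ClassBound
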