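import Fermat.Agent.H82G4

/-!
# Every place contributes to the cokernel, II
-/

set_option autoImplicit false

noncomputable section

open IsDedekindDomain NumberField WithZero

namespace Fermat.Agent.H82

variable {K : Type} [Field K] [NumberField K] {p : ℕ} [hp : Fact p.Prime] {ζ : K}
  (hζ : IsPrimitiveRoot ζ p) {T A : Finset (HeightOneSpectrum (𝓞 K))}
  {L : Type} [Field L] [NumberField L] [Algebra K L] [IsGalois K L]

include hζ

section data

variable (hp2 : p ≠ 2) (hcl : ClTrivial (T : Set (HeightOneSpectrum (𝓞 K))))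
    (hTp : ∀ v, v ∉ T → v.valuation K (p : K) = 1)
    (m : HeightOneSpectrum (𝓞 K) → ℕ) (hm : ∀ v ∈ T, Deep ζ p v (m v))
    (hdeg : Module.finrank K L = p) {b : Kˣ} {β : L} (hβ : IsKummer p K L b β)
    (hTb : b ∈ (T : Set (HeightOneSpectrum (𝓞 K))).unit K)
    (hA : ∀ v ∈ A, v ∉ T ∧ b ∈ locPow p v 1) (hAcard : A.card = Units.rank K + T.card)
    (hidx : (⨅ v ∈ A, locPow p v 1).relIndex
      ((T : Set (HeightOneSpectrum (𝓞 K))).unit K) = p ^ A.card)

include hTp hβ hTb in
theorem unramified_outside {v : HeightOneSpectrum (𝓞 K)} (hv : v ∉ T) :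
    ∀ w ∈ above L v, v.asIdeal.ramificationIdx' w.asIdeal = 1 := by
  intro w hw
  refine hβ.ramificationIdx'_eq_one hζ (hTp v hv) ?_ hw
  rw [mem_locPow]
  refine ⟨1, ?_⟩
  rw [one_pow, div_one, mem_congr_zero]
  exact hTb v (fun h => hv (Finset.mem_coe.1 h))

include hp2 hcl hTp hm hdeg hβ hTb hA hAcard hidx in
/-- `⨅_{v ∈ T nonsplit} N_v ≤ E_{T ∪ A} U`. -/
theorem iInf_locNorm_le : (⨅ v ∈ T, ⨅ (_ : NonSplit L v), locNorm L v (m v)) ≤
    ((T : Set (HeightOneSpectrum (𝓞 K))) ∪ A).unit K ⊔ (⨅ v ∈ T, locPow p v (m v)) := by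
  classical
  have hAp : ∀ v ∈ A, v.valuation K (p : K) = 1 := fun v hv => hTp v (hA v hv).1
  have hindex := index_unit_sup hζ hp2 hcl hTp m hm (fun v hv => (hA v hv).1) hAcard hidx
  set U := (⨅ v ∈ T, locPow p v (m v)) with hU
  set Q := (⨅ v ∈ T, ⨅ (_ : NonSplit L v), locNorm L v (m v)) with hQ
  have hUQ : U ≤ Q := by
    refine le_iInf₂ fun v hv => le_iInf fun _ => ?_
    exact (iInf₂_le v hv).trans (locPow_le_locNorm L hdeg v (m v))
  -- first inequality for `T ∪ A`
  let m' : HeightOneSpectrum (𝓞 K) → ℕ := fun v => if v ∈ T then m v else 1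
  have hm'T : ∀ v ∈ T, m' v = m v := fun v hv => if_pos hv
  have hm' : ∀ v ∈ T ∪ A, Deep ζ p v (m' v) := by
    intro v hv
    by_cases hvT : v ∈ T
    · rw [hm'T v hvT]; exact hm v hvT
    · have : m' v = 1 := if_neg hvT
      rw [this]
      exact deep_of_not_dvd hζ (hTp v hvT) one_pos
  have hcl' : ClTrivial ((T ∪ A : Finset (HeightOneSpectrum (𝓞 K))) :
      Set (HeightOneSpectrum (𝓞 K))) := by
    refine hcl.mono ?_
    rw [Finset.coe_union]; exact Set.subset_union_left
  have hfirst := first_inequality hζ hp2 hdeg hcl' (fun v hv => unramified_outside hζ hTp hβ hTb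
    (fun h => hv (Finset.mem_union_left _ h))) m' hm'
  rw [Finset.coe_union] at hfirst
  set E' := ((T : Set (HeightOneSpectrum (𝓞 K))) ∪ A).unit K with hE'
  have hQle : Q ≤ (⨅ v ∈ (T ∪ A).filter (fun v => NonSplit L v), locNorm L v (m' v)) := by
    refine le_iInf₂ fun v hv => ?_
    obtain ⟨hv1, hv2⟩ := Finset.mem_filter.1 hv
    rcases Finset.mem_union.1 hv1 with hvT | hvA
    · rw [hm'T v hvT]
      exact (iInf₂_le v hvT).trans (iInf_le _ hv2)
    · exfalso
      exact hβ.not_nonSplit hζ hdeg (deep_of_not_dvd hζ (hAp v hvA) one_pos) (hA v hvA).2 hv2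
  have hQle' : E' ⊔ Q ≤ E' ⊔
      (⨅ v ∈ (T ∪ A).filter (fun v => NonSplit L v), locNorm L v (m' v)) :=
    sup_le_sup_left hQle _
  have h1 : (E' ⊔ U).index ≠ 0 := by rw [hindex]; exact hp.out.ne_zero
  have h2 : (E' ⊔ Q).index ∣ p := by
    rw [← hindex]; exact Subgroup.index_dvd_of_le (sup_le_sup_left hUQ _)
  have h3 : (E' ⊔ Q).index = p := by
    rcases (Nat.dvd_prime hp.out).1 h2 with h | h
    · exfalso
      rw [Subgroup.index_eq_one] at h
      rw [h, top_le_iff] at hQle'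
      rw [hQle', Subgroup.index_top] at hfirst
      exact absurd hfirst (not_le.2 hp.out.one_lt)
    · exact h
  have h4 : E' ⊔ U = E' ⊔ Q := eq_of_index_eq (sup_le_sup_left hUQ _) h1 (by rw [h3, hindex])
  rw [h4]
  exact le_sup_right

include hp2 hcl hTp hm hdeg hβ hTb hA hAcard hidx in
/-- Elements which are local norms outside `T` lie in `E_{T ∪ A} U`. -/
theorem mem_of_forall_locNorm {a : Kˣ} (ha : ∀ v, v ∉ T → NonSplit L v → a ∈ locNorm L v 1) :
    a ∈ ((T : Set (HeightOneSpectrum (𝓞 K))) ∪ A).unit K ⊔ (⨅ v ∈ T, locPow p v (m v)) := by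
  classical
  by_contra hcon
  have hAp : ∀ v ∈ A, v.valuation K (p : K) = 1 := fun v hv => hTp v (hA v hv).1
  have hindex := index_unit_sup hζ hp2 hcl hTp m hm (fun v hv => (hA v hv).1) hAcard hidx
  set U := (⨅ v ∈ T, locPow p v (m v)) with hU
  set E' := ((T : Set (HeightOneSpectrum (𝓞 K))) ∪ A).unit K with hE'
  have htop : Subgroup.zpowers a ⊔ (E' ⊔ U) = ⊤ := by
    have h1 : (Subgroup.zpowers a ⊔ (E' ⊔ U)).index ∣ p := by
      rw [← hindex]; exact Subgroup.index_dvd_of_le le_sup_right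
    rcases (Nat.dvd_prime hp.out).1 h1 with h | h
    · exact Subgroup.index_eq_one.1 h
    · exfalso
      apply hcon
      have h2 : E' ⊔ U = Subgroup.zpowers a ⊔ (E' ⊔ U) :=
        eq_of_index_eq le_sup_right (by rw [hindex]; exact hp.out.ne_zero) (by rw [h, hindex])
      rw [h2]
      exact Subgroup.mem_sup_left (Subgroup.mem_zpowers a)
  -- the larger set of places
  set B : Finset (HeightOneSpectrum (𝓞 K)) := (finite_valuation_ne_one a).toFinset with hB
  set T'' : Finset (HeightOneSpectrum (𝓞 K)) := T ∪ A ∪ B with hT''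
  have hTT'' : T ⊆ T'' := fun v hv => Finset.mem_union_left _ (Finset.mem_union_left _ hv)
  have hAT'' : A ⊆ T'' := fun v hv => Finset.mem_union_left _ (Finset.mem_union_right _ hv)
  let m' : HeightOneSpectrum (𝓞 K) → ℕ := fun v => if v ∈ T then m v else 1
  have hm'T : ∀ v ∈ T, m' v = m v := fun v hv => if_pos hv
  have hm'1 : ∀ v, v ∉ T → m' v = 1 := fun v hv => if_neg hv
  have hm' : ∀ v ∈ T'', Deep ζ p v (m' v) := by
    intro v _
    by_cases hvT : v ∈ T
    · rw [hm'T v hvT]; exact hm v hvT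
    · rw [hm'1 v hvT]
      exact deep_of_not_dvd hζ (hTp v hvT) one_pos
  have hunr := fun {v} (hv : v ∉ T) => unramified_outside hζ hTp hβ hTb hv
  have hfirst := first_inequality hζ hp2 hdeg (hcl.mono (Finset.coe_subset.2 hTT''))
    (fun v hv => hunr (fun h => hv (hTT'' h))) m' hm'
  set E'' := ((T'' : Finset (HeightOneSpectrum (𝓞 K))) : Set (HeightOneSpectrum (𝓞 K))).unit K
    with hE''
  set Q := (⨅ v ∈ T''.filter (fun v => NonSplit L v), locNorm L v (m' v)) with hQ
  suffices h : E'' ⊔ Q = ⊤ by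
    rw [h, Subgroup.index_top] at hfirst
    exact absurd hfirst (not_le.2 hp.out.one_lt)
  rw [eq_top_iff]
  intro x _
  let D : HeightOneSpectrum (𝓞 K) →₀ ℤ := Finsupp.onFinset T''
    (fun v => if v ∈ T'' then H47.ordHom v (Additive.ofMul x) else 0) (fun v hv => by
      by_contra h
      exact hv (if_neg h))
  obtain ⟨y, hy⟩ := H47.exists_ordHom_eq hcl D
  have hyE'' : y ∈ E'' := by
    intro v hv
    rw [← H47.ordHom_eq_zero_iff, hy v (fun h => hv (Finset.mem_coe.2 (hTT'' (Finset.mem_coe.1 h))))]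
    change (if v ∈ T'' then _ else _) = _
    rw [if_neg (fun h => hv (Finset.mem_coe.2 h))]
  have hxy : ∀ v ∈ T'', v ∉ T → x / y ∈ congr v 0 := by
    intro v hv hvT
    rw [mem_congr_zero, ← H47.ordHom_eq_zero_iff, ofMul_div, map_sub,
      hy v (fun h => hvT (Finset.mem_coe.1 h))]
    change _ - (if v ∈ T'' then _ else _) = _
    rw [if_pos hv, sub_self]
  have hxy' : x / y ∈ Subgroup.zpowers a ⊔ (E' ⊔ U) := by rw [htop]; trivial
  rw [Subgroup.mem_sup] at hxy'
  obtain ⟨c, hc, d, hd, hcd⟩ := hxy'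
  rw [Subgroup.mem_sup] at hd
  obtain ⟨e, he, u, hu, heu⟩ := hd
  obtain ⟨i, rfl⟩ := Subgroup.mem_zpowers_iff.1 hc
  have haE'' : a ∈ E'' := by
    intro v hv
    by_contra h
    exact hv (Finset.mem_coe.2 (Finset.mem_union_right _
      ((finite_valuation_ne_one a).mem_toFinset.2 h)))
  have heE'' : e ∈ E'' := by
    intro v hv
    refine he v ?_
    rw [Set.mem_union, not_or]
    exact ⟨fun h => hv (Finset.mem_coe.2 (hTT'' (Finset.mem_coe.1 h))),
      fun h => hv (Finset.mem_coe.2 (hAT'' (Finset.mem_coe.1 h)))⟩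
  have huQ : u ∈ Q := by
    rw [hQ, Subgroup.mem_iInf]
    intro v
    rw [Subgroup.mem_iInf]
    intro hv
    obtain ⟨hvT'', hvn⟩ := Finset.mem_filter.1 hv
    by_cases hvT : v ∈ T
    · rw [hm'T v hvT]
      have h1 : U ≤ locPow p v (m v) := iInf₂_le v hvT
      exact locPow_le_locNorm L hdeg v (m v) (h1 hu)
    · rw [hm'1 v hvT]
      have hvA : v ∉ A := fun h =>
        hβ.not_nonSplit hζ hdeg (deep_of_not_dvd hζ (hAp v h) one_pos) (hA v h).2 hvn
      have hunits := units_le_locNorm hζ hdeg (hTp v hvT) hvn (hunr hvT) one_pos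
      have h1 : e ∈ congr v 0 := by
        rw [mem_congr_zero]
        refine he v ?_
        rw [Set.mem_union, not_or]
        exact ⟨fun h => hvT (Finset.mem_coe.1 h), fun h => hvA (Finset.mem_coe.1 h)⟩
      have h2 : u = (x / y) / (a ^ i * e) := by
        rw [← hcd, ← heu, ← mul_assoc, mul_div_cancel_left]
      rw [h2]
      exact div_mem (hunits (hxy v hvT'' hvT)) (mul_mem (zpow_mem (ha v hvT hvn) i) (hunits h1))
  have hx : x = (y * a ^ i * e) * u := by
    have : x = y * (x / y) := by rw [mul_div_cancel]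
    rw [this, ← hcd, ← heu]
    simp only [mul_assoc]
  rw [hx]
  exact mul_mem (Subgroup.mem_sup_left (mul_mem (mul_mem hyE'' (zpow_mem haE'' i)) heE''))
    (Subgroup.mem_sup_right huQ)

include hp2 hcl hTp hm hdeg hβ hTb hA hAcard hidx in
/-- If `w` is split, or some `a` is a local norm at all nonsplit `v ≠ w` but not at `w`, then the
`w`-component of `Kˣ/U` lies in `E_{T ∪ A} U`. -/
theorem component_le (w : HeightOneSpectrum (𝓞 K)) (hw : w ∈ T)
    (h : NonSplit L w → ∃ a : Kˣ, (∀ v, v ≠ w → NonSplit L v → ∀ n, a ∈ locNorm L v n) ∧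
      a ∉ locNorm L w (m w)) {y : Kˣ} (hy : ∀ v ∈ T, v ≠ w → y ∈ locPow p v (m v)) :
    y ∈ ((T : Set (HeightOneSpectrum (𝓞 K))) ∪ A).unit K ⊔ (⨅ v ∈ T, locPow p v (m v)) := by
  classical
  have hQ := iInf_locNorm_le hζ hp2 hcl hTp m hm hdeg hβ hTb hA hAcard hidx
  have hyN : ∀ v ∈ T, v ≠ w → y ∈ locNorm L v (m v) := fun v hv hvw =>
    locPow_le_locNorm L hdeg v (m v) (hy v hv hvw)
  by_cases hns : NonSplit L w
  · obtain ⟨a, ha1, ha2⟩ := h hns
    have haH := mem_of_forall_locNorm hζ hp2 hcl hTp m hm hdeg hβ hTb hA hAcard hidx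
      (a := a) (fun v hv hvn => ha1 v (by rintro rfl; exact hv hw) hvn 1)
    -- `y = a ^ j * n` with `n ∈ N_w`
    have hidxw := index_locNorm hζ hdeg (hm w hw) hns
    have htop : Subgroup.zpowers a ⊔ locNorm L w (m w) = ⊤ := by
      have h1 : (Subgroup.zpowers a ⊔ locNorm L w (m w)).index ∣ p := by
        rw [← hidxw]; exact Subgroup.index_dvd_of_le le_sup_right
      rcases (Nat.dvd_prime hp.out).1 h1 with h | h
      · exact Subgroup.index_eq_one.1 h
      · exfalso
        apply ha2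
        have h2 : locNorm L w (m w) = Subgroup.zpowers a ⊔ locNorm L w (m w) :=
          eq_of_index_eq le_sup_right (by rw [hidxw]; exact hp.out.ne_zero) (by rw [h, hidxw])
        rw [h2]
        exact Subgroup.mem_sup_left (Subgroup.mem_zpowers a)
    have hy' : y ∈ Subgroup.zpowers a ⊔ locNorm L w (m w) := by rw [htop]; trivial
    rw [Subgroup.mem_sup] at hy'
    obtain ⟨c, hc, n, hn, hcn⟩ := hy'
    obtain ⟨j, rfl⟩ := Subgroup.mem_zpowers_iff.1 hc
    have hnQ : n ∈ (⨅ v ∈ T, ⨅ (_ : NonSplit L v), locNorm L v (m v)) := by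
      simp only [Subgroup.mem_iInf]
      intro v hv hvn
      by_cases hvw : v = w
      · rw [hvw]; exact hn
      · have h2 : n = y / a ^ j := by rw [← hcn, mul_div_cancel_left]
        rw [h2]
        exact div_mem (hyN v hv hvw) (zpow_mem (ha1 v hvw hvn _) j)
    rw [← hcn]
    exact mul_mem (zpow_mem haH j) (hQ hnQ)
  · apply hQ
    simp only [Subgroup.mem_iInf]
    intro v hv hvn
    exact hyN v hv (by rintro rfl; exact hns hvn)

end data

/-- **(G4)** For every finite place `w` there is `b ∈ Kˣ` such that `w` is nonsplit in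
`L = K(b^(1/p))` and every `a ∈ Kˣ` which is a local norm from `L` at all places `v ≠ w` is also a
local norm at `w`. -/
theorem exists_good_b (hp2 : p ≠ 2) (w : HeightOneSpectrum (𝓞 K)) :
    ∃ b : Kˣ, b ∉ (powMonoidHom p : Kˣ →* Kˣ).range ∧
      ∀ (L : Type) [Field L] [NumberField L] [Algebra K L] [IsGalois K L] (β : L),
        Module.finrank K L = p → IsKummer p K L b β →
        NonSplit L w ∧ ∀ a : Kˣ, (∀ v, v ≠ w → NonSplit L v → ∀ n, a ∈ locNorm L v n) →
          ∀ n, a ∈ locNorm L w n := by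
  classical
  have hp0 : (p : K) ≠ 0 := by exact_mod_cast hp.out.ne_zero
  have hfin : ({v | v.valuation K ((Units.mk0 (p : K) hp0 : Kˣ) : K) ≠ 1} ∪
      {w} : Set (HeightOneSpectrum (𝓞 K))).Finite :=
    (finite_valuation_ne_one _).union (Set.finite_singleton w)
  obtain ⟨T₀, hT₁, hT₀, hcl⟩ := H47.exists_clTrivial K hfin
  obtain ⟨T, rfl⟩ : ∃ T : Finset (HeightOneSpectrum (𝓞 K)), (T : Set _) = T₀ :=
    ⟨hT₀.toFinset, hT₀.coe_toFinset⟩
  have hTp : ∀ v, v ∉ T → v.valuation K (p : K) = 1 := by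
    intro v hv
    by_contra h
    exact hv (hT₁ (Or.inl h))
  have hwT : w ∈ T := Finset.mem_coe.1 (hT₁ (Or.inr rfl))
  choose m hm using fun v : HeightOneSpectrum (𝓞 K) => exists_deep hp.out.one_lt hζ v
  set E := (T : Set (HeightOneSpectrum (𝓞 K))).unit K with hE
  set U := (⨅ v ∈ T, locPow p v (m v)) with hU
  by_contra hcon
  push Not at hcon
  -- step 3: the `w`-component lies in `E U`
  have hW : ∀ y : Kˣ, (∀ v ∈ T, v ≠ w → y ∈ locPow p v (m v)) → y ∈ E ⊔ U := by
    intro y hy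
    by_contra hyEU
    obtain ⟨b, A₀, hbE, hb, hA₀card, hA₀, hidx, hyA₀⟩ :=
      exists_separating hζ hp2 hcl hTp m (fun v _ => hm v) hyEU
    obtain ⟨L, _, _, _, _, β, hdeg, hβ, hL⟩ := hcon b hb
    apply hyA₀
    refine component_le hζ hp2 hcl hTp m (fun v _ => hm v) hdeg hβ hbE hA₀ hA₀card hidx w hwT ?_ hy
    intro hns
    obtain ⟨a, ha, n, han⟩ := hL hns
    refine ⟨a, ha, fun h => han ?_⟩
    exact (forall_mem_locNorm_iff hζ hdeg (hm w)).2 h n
  -- step 4
  -- an element which is not a local `p`-th power at `w`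
  have hVtop : locPow p w (m w) ≠ ⊤ := by
    intro h
    obtain ⟨e, -, hidx⟩ := index_locPow' hζ w (hm w)
    rw [h, Subgroup.index_top] at hidx
    have h1 : p ^ 2 ∣ 1 := by rw [hidx]; exact Dvd.intro _ rfl
    have h2 : p ∣ 1 := (dvd_pow_self p two_ne_zero).trans h1
    exact hp.out.one_lt.ne' (Nat.dvd_one.1 h2)
  -- approximate
  have happ : ∀ x : Kˣ, ∃ y : Kˣ, (∀ v ∈ T, v ≠ w → y ∈ locPow p v (m v)) ∧
      y / x ∈ locPow p w (m w) := by
    intro x
    obtain ⟨y, hy⟩ := exists_approx T m (fun v => if v = w then x else 1)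
    refine ⟨y, fun v hv hvw => ?_, ?_⟩
    · have := hy v hv
      rw [if_neg hvw, div_one] at this
      exact Subgroup.mem_sup_right this
    · have := hy w hwT
      rw [if_pos rfl] at this
      exact Subgroup.mem_sup_right this
  obtain ⟨x, hx⟩ : ∃ x : Kˣ, x ∉ locPow p w (m w) := by
    by_contra h
    push Not at h
    exact hVtop ((Subgroup.eq_top_iff' _).2 h)
  obtain ⟨y, hy1, hy2⟩ := happ x
  have hyw : y ∉ locPow p w (m w) := by
    intro h
    apply hx
    have : x = y / (y / x) := by rw [div_div_cancel]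
    rw [this]
    exact div_mem h hy2
  obtain ⟨e, he, u, hu, heu⟩ := Subgroup.mem_sup.1 (hW y hy1)
  have hUle : ∀ v ∈ T, U ≤ locPow p v (m v) := fun v hv => iInf₂_le v hv
  have hew : e ∉ locPow p w (m w) := by
    intro h
    apply hyw
    rw [← heu]
    exact mul_mem h (hUle w hwT hu)
  have hev : ∀ v ∈ T, v ≠ w → e ∈ locPow p v (m v) := by
    intro v hv hvw
    have : e = y / u := by rw [← heu, mul_div_cancel_right]
    rw [this]
    exact div_mem (hy1 v hv hvw) (hUle v hv hu)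
  have hepow : e ∉ (powMonoidHom p : Kˣ →* Kˣ).range := fun h =>
    hew ((le_sup_left : (powMonoidHom p : Kˣ →* Kˣ).range ≤ locPow p w (m w)) h)
  obtain ⟨M, _, _, _, γ, hγ, hgal, hdeg⟩ := exists_kummer hζ e hepow
  have hFI := H65.relIndex_norm_mul_of_primitiveRoot hp.out hp2 hζ hdeg T.finite_toSet hcl
    (fun v hv => unramified_outside hζ hTp hγ he (fun h => hv (Finset.mem_coe.2 h)))
  rw [← hE] at hFI
  have hsub : {v | v ∈ (T : Set (HeightOneSpectrum (𝓞 K))) ∧ NonSplit M v} ⊆ {w} := by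
    rintro v ⟨hv, hvn⟩
    by_contra hvw
    exact hγ.not_nonSplit hζ hdeg (hm v) (hev v hv hvw) hvn
  have hns : {v | v ∈ (T : Set (HeightOneSpectrum (𝓞 K))) ∧ NonSplit M v} = {w} := by
    rcases Set.subset_singleton_iff_eq.1 hsub with h | h
    · exfalso
      rw [h, Set.ncard_empty, pow_zero] at hFI
      exact hp.out.one_lt.ne' (Nat.eq_one_of_mul_eq_one_left hFI)
    · exact h
  rw [hns, Set.ncard_singleton, pow_one] at hFI
  have hNE : (((aboveSet M (T : Set (HeightOneSpectrum (𝓞 K)))).unit M).map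
      (Units.map (Algebra.norm K : M →* K))).relIndex E = 1 :=
    Nat.eq_of_mul_eq_mul_right hp.out.pos (by rw [hFI, one_mul])
  rw [Subgroup.relIndex_eq_one] at hNE
  have hwns : NonSplit M w := by
    have : w ∈ {v | v ∈ (T : Set (HeightOneSpectrum (𝓞 K))) ∧ NonSplit M v} := by
      rw [hns]; rfl
    exact this.2
  have hEN : E ≤ locNorm M w (m w) := by
    refine hNE.trans ?_
    rintro _ ⟨z, -, rfl⟩
    exact Subgroup.mem_sup_left ⟨z, rfl⟩
  have hUN : U ≤ locNorm M w (m w) :=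
    (hUle w hwT).trans (locPow_le_locNorm M hdeg w (m w))
  have htop : locNorm M w (m w) = ⊤ := by
    rw [Subgroup.eq_top_iff']
    intro z
    obtain ⟨y', hy'1, hy'2⟩ := happ z
    have h1 : y' ∈ locNorm M w (m w) := (sup_le hEN hUN) (hW y' hy'1)
    have h2 : z = y' / (y' / z) := by rw [div_div_cancel]
    rw [h2]
    exact div_mem h1 (locPow_le_locNorm M hdeg w (m w) hy'2)
  have hidxw := index_locNorm hζ hdeg (hm w) hwns
  rw [htop, Subgroup.index_top] at hidxw
  exact hp.out.one_lt.ne hidxw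

end Fermat.Agent.H82
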