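import Fermat.Agent.H82V6
import Fermat.Agent.H82G4b

/-!
# Reader's guide: class field theory of degree `p`, the steps of the proofs

Companion of `GuideQuadRec` (results and notions) and `GuideEulerChar` (use in S55). This file is a table of
contents, checked by Lean, of the PROOFS of the second inequality, of the Hasse norm theorem, of "every
place contributes" and of the product formula for the quadratic symbol: each theorem is a step, written out
in full and proved by citing the library. It is imported by no other file. The steps of the first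
inequality and of the local norm index are in `GuideLocalNorms`.

It serves the same statements as `GuideQuadRec`: S55 and, through S55 or through block LT, S56, S59, S43,
S50 and S01 (and S03, S04, S06, S38, S45, S46, S60, which use one of these blocks); and S47 (blocks C, D).

## The plan of the proofs

`K` is a number field, `ζ ∈ K` a primitive `p`-th root of unity, `L/K` a Galois extension of degree `p`.

1. *Powers near `1`.* The valuation of `x^p - 1` is computed from the factorisation `∏ (x - μ)`.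
2. *Local indices.* So the groups `(Kˣ)^p (1 + v^m)` have a known index, independent of large `m`.
3. *Kummer extensions*: existence, splitting by moving places.
4. *Norm groups at good places*: tame, unramified, split.
5. *Auxiliary places*: Frobenius' density theorem and Euler's criterion.
6. *The second inequality and the Hasse norm theorem* for a set `T` with trivial class group and
   auxiliary places `A`: (a) the `T ∪ A`-units fill the local groups at `A`; (b) a `T ∪ A`-unit which is a
   local `p`-th power at `T` is a `p`-th power; (c) counting. The only arithmetic input besides section 5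
   is the first inequality (`GuideQuadRec.first_inequality`).
7. *Every place contributes*: elements are separated from `E_T ⨅ {local p-th powers}` by auxiliary places.
8. *The quadratic symbol*: norm form, symmetry, base change, the common slot.

Notions (see section 1 of `GuideQuadRec`, where they are unfolded): `above L v`, `NonSplit L v`,
`congr v m = 1 + v^m`, `locPow p v m = (Kˣ)^p (1 + v^m)`, `locNorm L v m = N(Lˣ) (1 + v^m)`, `ClTrivial T`,
`T.unit K` (the `T`-units), `H82V.hil v b` (the local norms from `K(√b)` at `v`), `H47.divHom (𝓞 K) K x`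
(the function `v ↦ ord_v(x)`). The condition `exp (-m) < v(ζ - 1)^p` is called "`m` is deep at `v`". The
hypothesis `p ≠ 2 ∨ IsTotallyComplex K` means that `K` has no real places; the library has two versions of
such theorems, `H82.*` (`p` odd, used in S01 through S55) and `H54T.*`, `H82V.*` (`K` totally complex; S47,
and S01 for `H54T.*`).

Every cited theorem occurs in the proof term of S01 or of S47 (said in the docstring).

References: NOTES.md, notes [94], [439], [209]; J. Herbrand, *Sur les théorèmes du genre principal et des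
idéaux principaux*; C. Chevalley, *La théorie du corps de classes*; S. Lang, *Algebraic number theory*, XI.
Author of the theorems (except where stated) and of this guide: helper82.
-/

set_option autoImplicit false

open IsDedekindDomain NumberField WithZero
open Fermat.Agent.H82 (above aboveSet NonSplit congr locPow locNorm normGroup ClTrivial)

namespace Fermat.Agent.Guide.ClassField

/-!
## 1. Powers near `1`

`v` is a valuation of a field `F` (with values in any ordered group with zero, written multiplicatively).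
-/

/-- **Roots of unity.** Two different `p`-th roots of unity have a difference of valuation `v(ζ - 1)`,
and `v(p) = v(ζ - 1)^(p-1)`, because `p` is the product of `1 - μ` over the roots of unity `μ ≠ 1`.
(`H82RootVal`; S01, S47) -/
theorem val_roots {F : Type*} [Field F] {Γ : Type*} [LinearOrderedCommGroupWithZero Γ]
    (v : Valuation F Γ) {p : ℕ} [Fact p.Prime] {ζ : F} (hζ : IsPrimitiveRoot ζ p) :
    (∀ μ ν : F, μ ^ p = 1 → ν ^ p = 1 → μ ≠ ν → v (μ - ν) = v (ζ - 1)) ∧
      v (p : F) = v (ζ - 1) ^ (p - 1) :=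
  ⟨fun _ _ hμ hν h => H82.val_root_sub_root v hζ hμ hν h, H82.val_prime v hζ⟩

/-- **Valuation of `x^p - 1` near a root of unity.** If `x` is closer to the `p`-th root of unity `μ`
than `v(ζ - 1)`, then all other factors of `x^p - 1 = ∏ (x - ν)` have valuation `v(ζ - 1)`.
(`H82RootVal`; S01, S47) -/
theorem val_pow_sub_one {F : Type*} [Field F] {Γ : Type*} [LinearOrderedCommGroupWithZero Γ]
    (v : Valuation F Γ) {p : ℕ} [Fact p.Prime] {ζ x μ : F} (hζ : IsPrimitiveRoot ζ p)
    (hμ : μ ^ p = 1) (hx : v (x - μ) < v (ζ - 1)) :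
    v (x ^ p - 1) = v (x - μ) * v (ζ - 1) ^ (p - 1) :=
  H82.val_pow_sub_one_of_near v hζ hμ hx

/-- **A completion-free form of Hensel's lemma for `X^p - 1`.** If `v(x^p - 1) < v(ζ - 1)^p`, then `x`
is close to a `p`-th root of unity of `F`. (`H82RootVal`; S01, S47) -/
theorem exists_near_root {F : Type*} [Field F] {Γ : Type*} [LinearOrderedCommGroupWithZero Γ]
    (v : Valuation F Γ) {p : ℕ} [Fact p.Prime] {ζ x : F} (hζ : IsPrimitiveRoot ζ p)
    (hx : v (x ^ p - 1) < v (ζ - 1) ^ p) : ∃ μ : F, μ ^ p = 1 ∧ v (x - μ) < v (ζ - 1) :=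
  H82.exists_near_root v hζ hx

/-!
## 2. Local indices
-/

/-- **The value group and the filtration of the units.** `[Kˣ : (Kˣ)^p U_v] = p`, where `U_v` is the
group of the units at `v` (the order at `v` modulo `p`), and `[1 + v^n : 1 + v^(n+k)] = N(v)^k` for `n ≥
1`. All groups are subgroups of `Kˣ`. (`H82LocIndex`, `H82LocIndex2`; S01, S47) -/
theorem index_filtration {K : Type*} [Field K] [NumberField K] (v : HeightOneSpectrum (𝓞 K)) :
    (∀ p : ℕ, ((powMonoidHom p : Kˣ →* Kˣ).range ⊔ congr v 0).index = p) ∧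
      ∀ n k : ℕ, 0 < n →
        (congr v (n + k)).relIndex (congr v n) = Ideal.absNorm v.asIdeal ^ k :=
  ⟨H82.index_pow_sup_units v, fun _ k hn => H82.relIndex_congr v hn k⟩

/-- **The kernel of `x ↦ x^p` on units modulo `1 + v^m`.** With `v(ζ - 1) = exp (-c)` and `m > p c`: a
unit `x` at `v` satisfies `x^p ∈ 1 + v^m` if and only if it is a `p`-th root of unity of `K` times an
element of `1 + v^(m - (p-1)c)`. With the preceding theorem this gives the index of `locPow p v m`,
which is `p² N(v)^((p-1)c)` (`H82.index_locPow`, see `GuideEulerChar`). (`H82LocIndex2`; S01, S47) -/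
theorem kernel_of_power {K : Type*} [Field K] [NumberField K] (v : HeightOneSpectrum (𝓞 K)) {p : ℕ}
    [Fact p.Prime] {ζ : K} (hζ : IsPrimitiveRoot ζ p) {c : ℕ}
    (hc : v.valuation K (ζ - 1) = exp (-(c : ℤ))) {m : ℕ} (hm : p * c < m) :
    congr v 0 ⊓ (congr v m).comap (powMonoidHom p : Kˣ →* Kˣ) =
      (powMonoidHom p : Kˣ →* Kˣ).ker ⊔ congr v (m - (p - 1) * c) :=
  H82.congr_comap_pow v hζ hc hm

/-- **Stability.** If `m` and `n` are deep at `v`, then `locPow p v m = locPow p v n` and, for `L/K` of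
degree `p`, `locNorm L v m = locNorm L v n`: the indices of the groups `locPow` are equal and `locNorm`
contains `locPow`. So the intersection over all `m` is attained at any deep level. (`H82Stable`; S01,
S47) -/
theorem stability {K : Type} [Field K] [NumberField K] {p : ℕ} [Fact p.Prime] {ζ : K}
    (hζ : IsPrimitiveRoot ζ p) {L : Type} [Field L] [NumberField L] [Algebra K L]
    (hdeg : Module.finrank K L = p) {v : HeightOneSpectrum (𝓞 K)} {m n : ℕ}
    (hm : exp (-(m : ℤ)) < v.valuation K (ζ - 1) ^ p)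
    (hn : exp (-(n : ℤ)) < v.valuation K (ζ - 1) ^ p) :
    locPow p v m = locPow p v n ∧ locNorm L v m = locNorm L v n ∧
      (⨅ k, locNorm L v k) = locNorm L v m :=
  ⟨H82.locPow_eq_of_deep hζ hm hn, H82.locNorm_eq_of_deep hζ hdeg hm hn,
    H82.iInf_locNorm_eq hζ hdeg hm⟩

/-!
## 3. Kummer extensions
-/

/-- **Existence.** If `b ∈ Kˣ` is not a `p`-th power, there is a Galois extension `M/K` of degree `p`
with an element `β` such that `β^p = b` and only the identity fixes `β`. (`H82KummerExists`; S01, S47)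
-/
theorem exists_kummer {K : Type} [Field K] [NumberField K] {p : ℕ} [Fact p.Prime] {ζ : K}
    (hζ : IsPrimitiveRoot ζ p) (b : Kˣ) (hb : b ∉ (powMonoidHom p : Kˣ →* Kˣ).range) :
    ∃ (M : Type) (_ : Field M) (_ : NumberField M) (_ : Algebra K M) (β : M),
      (β ^ p = algebraMap K M b ∧ ∀ σ : M ≃ₐ[K] M, σ β = β → σ = 1) ∧ IsGalois K M ∧
        Module.finrank K M = p := by
  obtain ⟨M, i1, i2, i3, β, h, h'⟩ := H82.exists_kummer hζ b hb
  exact ⟨M, i1, i2, i3, β, ⟨h.pow_eq, h.eq_one⟩, h'⟩

/-- **Kummer generators.** Every Galois extension `L/K` of degree `p` is of this form.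
(`H82KummerExists`, from Mathlib's Kummer theory: a generator of the Galois group, a linear map of `L` with
minimal polynomial `X^p - 1`, has an eigenvector with eigenvalue `ζ`; S01, S47) -/
theorem exists_kummer_generator {K : Type*} [Field K] {p : ℕ} [Fact p.Prime] {ζ : K}
    (hζ : IsPrimitiveRoot ζ p) (L : Type*) [Field L] [Algebra K L] [IsGalois K L]
    (hdeg : Module.finrank K L = p) :
    ∃ (a : Kˣ) (α : L), (α ^ p = algebraMap K L a ∧ ∀ σ : L ≃ₐ[K] L, σ α = α → σ = 1) ∧
      a ∉ (powMonoidHom p : Kˣ →* Kˣ).range := by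
  obtain ⟨a, α, h, h'⟩ := H82.exists_isKummer hζ L hdeg
  exact ⟨a, α, ⟨h.pow_eq, h.eq_one⟩, h'⟩

/-- **Splitting.** `M = K(β)`, `β^p = b`, and `b` is a local `p`-th power at `v` (at a deep level). Then
no `σ ≠ 1` fixes a place `w` of `M` above `v` (`H47.smulPlace σ w` is the place `σ(w)`). Proof: we may
assume that `b ∈ 1 + v^m`; then `β` is close to a `p`-th root of unity `μ` at `w` (`exists_near_root`).
If `σ(w) = w`, then `σ(β) = ν β` is close to `μ` too, so `β` is close to `μ` and to `μ/ν`, which implies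
`ν = 1`. (`H82Kummer`; S01, S47) -/
theorem places_are_moved {K : Type*} [Field K] [NumberField K] {M : Type*} [Field M]
    [NumberField M] [Algebra K M] {p : ℕ} [Fact p.Prime] {ζ : K} (hζ : IsPrimitiveRoot ζ p)
    {b : Kˣ} {β : M} (hβ : β ^ p = algebraMap K M b) (hgen : ∀ σ : M ≃ₐ[K] M, σ β = β → σ = 1)
    {v : HeightOneSpectrum (𝓞 K)} {m : ℕ} (hm : exp (-(m : ℤ)) < v.valuation K (ζ - 1) ^ p)
    (hb : b ∈ locPow p v m) {w : HeightOneSpectrum (𝓞 M)} (hw : w ∈ above M v)
    (σ : M ≃ₐ[K] M) (hσ : H47.smulPlace σ w = w) : σ = 1 :=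
  H82.smulPlace_ne_of_mem_locPow hζ ⟨hβ, hgen⟩ hm hb hw σ hσ

/-!
## 4. Norm groups at good places
-/

/-- **Units modulo `p`-th powers, tame case**: for `v ∤ p` the units at `v` which are local `p`-th
powers have index `p` in all units at `v`. (`H82Tame`; S01, S47) -/
theorem index_units_powers {K : Type*} [Field K] [NumberField K] {p : ℕ} [Fact p.Prime] {ζ : K}
    (hζ : IsPrimitiveRoot ζ p) {v : HeightOneSpectrum (𝓞 K)} (hv : v.valuation K (p : K) = 1) :
    (locPow p v 1).relIndex (congr v 0) = p :=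
  H82.relIndex_locPow_units hζ hv

/-- **Tame norm groups are proper**: if `v ∤ p` does not split in `M/K`, some element of `K` is not a
local norm at `v`. Elementary: if `v` is unramified, the order of a norm at `v` is divisible by `p`; if
it is totally ramified, the norm of a unit `z` is congruent to the `p`-th power of `Tr(z)/p` modulo `v`,
but not all units are `p`-th powers modulo `v`. This is all that the second inequality needs; the exact
index (`GuideQuadRec.local_norm_index`) is used only afterwards. (`H82Tame`; S01, S47) -/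
theorem tame_norm_group_proper {K : Type*} [Field K] [NumberField K] {M : Type*} [Field M]
    [NumberField M] [Algebra K M] {p : ℕ} [Fact p.Prime] {ζ : K} (hζ : IsPrimitiveRoot ζ p)
    [IsGalois K M] (hdeg : Module.finrank K M = p) {v : HeightOneSpectrum (𝓞 K)}
    (hv : v.valuation K (p : K) = 1) (hns : NonSplit M v) : locNorm M v 1 ≠ ⊤ :=
  H82.locNorm_ne_top_of_tame hζ hdeg hv hns

/-- **Unramified norm groups**: if `v ∤ p` is unramified and does not split, the local norms at `v` are
the elements whose order at `v` is divisible by `p`. (`H82Stable`; S01, S47) -/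
theorem unramified_norm_group {K : Type} [Field K] [NumberField K] {p : ℕ} [Fact p.Prime] {ζ : K}
    (hζ : IsPrimitiveRoot ζ p) {L : Type} [Field L] [NumberField L] [Algebra K L] [IsGalois K L]
    (hdeg : Module.finrank K L = p) {v : HeightOneSpectrum (𝓞 K)}
    (hv : v.valuation K (p : K) = 1) (hns : NonSplit L v)
    (hunr : ∀ w ∈ above L v, v.asIdeal.ramificationIdx' w.asIdeal = 1) :
    locNorm L v 1 = (powMonoidHom p : Kˣ →* Kˣ).range ⊔ congr v 0 :=
  H82.locNorm_eq_of_unramified hζ hdeg hv hns hunr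

/-- **Split places**: everything is a local norm. (`H82J8`, by weak approximation in `L`: choose `z`
close to a given `x` at one place above `v` and close to `1` at the others; S47) -/
theorem split_norm_group {K : Type*} [Field K] [NumberField K] {L : Type*} [Field L]
    [NumberField L] [Algebra K L] {p : ℕ} [Fact p.Prime] [IsGalois K L]
    (hdeg : Module.finrank K L = p) {v : HeightOneSpectrum (𝓞 K)} (hv : ¬ NonSplit L v) (m : ℕ) :
    locNorm L v m = ⊤ :=
  H82.locNorm_eq_top_of_split hdeg hv m

/-!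
## 5. Auxiliary places
-/

/-- **A Galois field for two Kummer generators**: `a^(1/p)` and `x^(1/p)` lie in an extension `N` of `K`
which is Galois over `ℚ`. (`H82AuxField`; S01, S47) -/
theorem exists_galois_pair_field {K : Type} [Field K] [NumberField K] (p : ℕ) (hp : 0 < p)
    (a x : K) :
    ∃ (N : Type) (_ : Field N) (_ : NumberField N) (_ : Algebra K N) (α ξ : N),
      IsGalois ℚ N ∧ IsGalois K N ∧ α ^ p = algebraMap K N a ∧ ξ ^ p = algebraMap K N x :=
  H82.exists_galois_pair_field p hp a x

/-- **An automorphism which fixes `a^(1/p)` and moves `x^(1/p)`** exists as soon as `x` is not a power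
of `a` times a `p`-th power. (`H82AuxField`; S01, S47) -/
theorem exists_automorphism {K : Type*} [Field K] [NumberField K] {p : ℕ} [Fact p.Prime] {ζ : K}
    (hζ : IsPrimitiveRoot ζ p) (a x : Kˣ)
    (hx : ∀ j : ℕ, x / a ^ j ∉ (powMonoidHom p : Kˣ →* Kˣ).range) {N : Type*} [Field N]
    [Algebra K N] [IsGalois K N] {α ξ : N} (hα : α ^ p = algebraMap K N a)
    (hξ : ξ ^ p = algebraMap K N x) : ∃ σ : N ≃ₐ[K] N, σ α = α ∧ σ ξ ≠ ξ :=
  H82.exists_aut_pair hζ a x hx hα hξ

/-- **Euler's criterion** at a place `v` with `N(v) - 1 = p m`, `m ≠ 0`: a unit `x` at `v` is a local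
`p`-th power if and only if `x^m ≡ 1` modulo `v`. (`H82Residue`; S01, S47) -/
theorem euler_criterion {K : Type*} [Field K] [NumberField K] {p : ℕ} [Fact p.Prime]
    {v : HeightOneSpectrum (𝓞 K)} {m : ℕ} (hm : m ≠ 0) (hN : Ideal.absNorm v.asIdeal - 1 = p * m)
    {x : Kˣ} (hx : v.valuation K (x : K) = 1) : x ∈ locPow p v 1 ↔ x ^ m ∈ congr v 1 :=
  ⟨H82.pow_mem_of_mem_locPow hN hx, H82.mem_locPow_of_pow_mem hm hN hx⟩

/-- **One auxiliary place.** If `x` is not a power of `a` times a `p`-th power, there are places `v ∤ p`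
outside any given finite set at which `a` is a local `p`-th power and `x` is not. Proof: the density
theorem of Frobenius for the automorphism just found gives a place whose Frobenius element generates the
same group, so it fixes `a^(1/p)` and moves `x^(1/p)`; then Euler's criterion. (`H82AuxPrime`; S01, S47)
-/
theorem exists_auxiliary_place {K : Type*} [Field K] [NumberField K] {p : ℕ} [Fact p.Prime] {ζ : K}
    (hζ : IsPrimitiveRoot ζ p) (a x : Kˣ)
    (hx : ∀ j : ℕ, x / a ^ j ∉ (powMonoidHom p : Kˣ →* Kˣ).range)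
    (S : Set (HeightOneSpectrum (𝓞 K))) (hS : S.Finite) :
    ∃ v ∉ S, v.valuation K (p : K) = 1 ∧ a ∈ locPow p v 1 ∧ x ∉ locPow p v 1 :=
  H82.exists_aux_prime hζ a x hx S hS

/-!
## 6. The second inequality and the Hasse norm theorem

`T` is a finite set of places with trivial class group which contains the places above `p`, and `A` is a
finite set of places outside `T` such that the `T`-units fill the local groups at `A`:
`[E_T : E_T ∩ {local p-th powers at A}] = p^#A`.
-/

/-- **Step (a).** Every element of `Kˣ` is a `T ∪ A`-unit times an element which is a local `p`-th power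
at all places of `A`. (`H82Second`; S01, S47) -/
theorem units_fill_auxiliary {K : Type} [Field K] [NumberField K] {p : ℕ} [Fact p.Prime] {ζ : K}
    (hζ : IsPrimitiveRoot ζ p) {T A : Finset (HeightOneSpectrum (𝓞 K))}
    (hcl : ClTrivial (T : Set (HeightOneSpectrum (𝓞 K))))
    (hA : ∀ v ∈ A, v ∉ T ∧ v.valuation K (p : K) = 1)
    (hidx : (⨅ v ∈ A, locPow p v 1).relIndex
      ((T : Set (HeightOneSpectrum (𝓞 K))).unit K) = p ^ A.card) :
    ((T : Set (HeightOneSpectrum (𝓞 K))) ∪ A).unit K ⊔ (⨅ v ∈ A, locPow p v 1) = ⊤ :=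
  H82.unit_sup_eq_top hζ hcl hA hidx

/-- **Step (b).** A `T ∪ A`-unit `y` which is a local `p`-th power at all places of `T` is a `p`-th
power. Proof: otherwise let `M = K(y^(1/p))`. It is unramified outside `T ∪ A` and split at `T`, so the
first inequality says that `[E_{T∪A}(K) : N E_{T∪A}(M)] * p = p^n`, `n` the number of nonsplit places in
`A`. But by (a) and `tame_norm_group_proper` the units already have `p^n` different classes modulo local
norms at these `n` places. (`H82Second`, S01; `H54THasse`, S01, S47) -/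
theorem kernel_consists_of_powers {K : Type} [Field K] [NumberField K] {p : ℕ} [Fact p.Prime]
    {ζ : K} (hζ : IsPrimitiveRoot ζ p) (hp : p ≠ 2 ∨ IsTotallyComplex K)
    {T A : Finset (HeightOneSpectrum (𝓞 K))}
    (hcl : ClTrivial (T : Set (HeightOneSpectrum (𝓞 K))))
    (hTp : ∀ v, v ∉ T → v.valuation K (p : K) = 1) (m : HeightOneSpectrum (𝓞 K) → ℕ)
    (hm : ∀ v ∈ T, exp (-(m v : ℤ)) < v.valuation K (ζ - 1) ^ p) (hA : ∀ v ∈ A, v ∉ T)
    (hidx : (⨅ v ∈ A, locPow p v 1).relIndex
      ((T : Set (HeightOneSpectrum (𝓞 K))).unit K) = p ^ A.card) :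
    ((T : Set (HeightOneSpectrum (𝓞 K))) ∪ A).unit K ⊓ (⨅ v ∈ T, locPow p v (m v)) ≤
      (powMonoidHom p : Kˣ →* Kˣ).range :=
  hp.elim (fun h => H82.kernel_le hζ h hcl hTp m hm hA hidx)
    fun _ => H54T.kernel_le hζ hcl hTp m hm hA hidx

/-- **Step (c), the counting form of the Hasse norm theorem.** `L = K(α)`, `α^p = a ∈ E_T`, and `a` is a
local `p`-th power at the `rank + #T` places of `A` (so they split in `L`). A `T ∪ A`-unit which is a
local norm at all nonsplit places of `T` is the norm of a unit of `L` outside the places above `T ∪ A`: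
by the first inequality and by the second one (`GuideQuadRec.second_inequality`) both groups have index
`p^(n-1)` in `E_{T∪A}`, `n` the number of nonsplit places of `T`. (The hypothesis `hmN`, that the norm
groups at these places are proper, is true by the local norm index.) (`H82Hasse`, S01; `H54THasse`, S01,
S47) -/
theorem hasse_norm_counting {K : Type} [Field K] [NumberField K] {p : ℕ} [Fact p.Prime] {ζ : K}
    (hζ : IsPrimitiveRoot ζ p) (hp : p ≠ 2 ∨ IsTotallyComplex K) {L : Type} [Field L]
    [NumberField L] [Algebra K L] [IsGalois K L] (hdeg : Module.finrank K L = p) {a : Kˣ} {α : L}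
    (hα : α ^ p = algebraMap K L a) (hgen : ∀ σ : L ≃ₐ[K] L, σ α = α → σ = 1)
    {T A : Finset (HeightOneSpectrum (𝓞 K))}
    (hcl : ClTrivial (T : Set (HeightOneSpectrum (𝓞 K))))
    (hTp : ∀ v, v ∉ T → v.valuation K (p : K) = 1)
    (ha : a ∈ (T : Set (HeightOneSpectrum (𝓞 K))).unit K) (m : HeightOneSpectrum (𝓞 K) → ℕ)
    (hm : ∀ v ∈ T, exp (-(m v : ℤ)) < v.valuation K (ζ - 1) ^ p)
    (hmN : ∀ v ∈ T, NonSplit L v → locNorm L v (m v) ≠ ⊤)
    (hA : ∀ v ∈ A, v ∉ T ∧ a ∈ locPow p v 1) (hcard : A.card = Units.rank K + T.card)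
    (hidx : (⨅ v ∈ A, locPow p v 1).relIndex
      ((T : Set (HeightOneSpectrum (𝓞 K))).unit K) = p ^ A.card)
    (x : Kˣ) (hx : x ∈ ((T : Set (HeightOneSpectrum (𝓞 K))) ∪ A).unit K)
    (hxN : ∀ v ∈ T, NonSplit L v → x ∈ locNorm L v (m v)) :
    x ∈ ((aboveSet L ((T : Set (HeightOneSpectrum (𝓞 K))) ∪ A)).unit L).map
      (Units.map (Algebra.norm K : L →* K)) :=
  hp.elim (fun h => H82.unit_inf_le_norm hζ h hdeg ⟨hα, hgen⟩ hcl hTp ha m hm hmN hA hcard hidx
    x hx hxN) fun _ => H54T.unit_inf_le_norm hζ hdeg ⟨hα, hgen⟩ hcl hTp ha m hm hmN hA hcard hidx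
    x hx hxN

/-!
## 7. Every place contributes

`U` stands for the group of the elements which are local `p`-th powers at all places of `T`.
-/

/-- **Separation.** If `c` is not in `E_T U`, there is a `T`-unit `b`, not a `p`-th power, with a set
`A₀` of auxiliary places as in `GuideQuadRec.exists_auxiliary_places`, such that `c` is not even in
`E_{T ∪ A₀} U`. Proof: let `A` be a set of `rank + #T + 1` auxiliary places which detects all classes of
`T`-units modulo `p`-th powers; then `E_{T∪A} U = Kˣ`, `c = x u`, and the order of `x` at some `v₀ ∈ A`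
is not divisible by `p`; take `A₀ = A \ {v₀}` and a `T`-unit `b` which is a local `p`-th power at `A₀`.
(`H82G4`, S01; `H82V1`, S47) -/
theorem exists_separating {K : Type} [Field K] [NumberField K] {p : ℕ} [Fact p.Prime] {ζ : K}
    (hζ : IsPrimitiveRoot ζ p) (hp : p ≠ 2 ∨ IsTotallyComplex K)
    {T : Finset (HeightOneSpectrum (𝓞 K))}
    (hcl : ClTrivial (T : Set (HeightOneSpectrum (𝓞 K))))
    (hTp : ∀ v, v ∉ T → v.valuation K (p : K) = 1) (m : HeightOneSpectrum (𝓞 K) → ℕ)
    (hm : ∀ v ∈ T, exp (-(m v : ℤ)) < v.valuation K (ζ - 1) ^ p) {c : Kˣ}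
    (hc : c ∉ (T : Set (HeightOneSpectrum (𝓞 K))).unit K ⊔ (⨅ v ∈ T, locPow p v (m v))) :
    ∃ (b : Kˣ) (A₀ : Finset (HeightOneSpectrum (𝓞 K))),
      b ∈ (T : Set (HeightOneSpectrum (𝓞 K))).unit K ∧ b ∉ (powMonoidHom p : Kˣ →* Kˣ).range ∧
      A₀.card = Units.rank K + T.card ∧ (∀ v ∈ A₀, v ∉ T ∧ b ∈ locPow p v 1) ∧
      (⨅ v ∈ A₀, locPow p v 1).relIndex
        ((T : Set (HeightOneSpectrum (𝓞 K))).unit K) = p ^ A₀.card ∧
      c ∉ ((T : Set (HeightOneSpectrum (𝓞 K))) ∪ A₀).unit K ⊔ (⨅ v ∈ T, locPow p v (m v)) :=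
  hp.elim (fun h => H82.exists_separating hζ h hcl hTp m hm hc)
    fun _ => H82V.exists_separating hζ hcl hTp m hm hc

/-- **Norms outside `T`.** `L = K(b^(1/p))`, `b` a `T`-unit, `A` auxiliary places for `b`: an element
`a` which is a local norm at all nonsplit places outside `T` lies in `E_{T∪A} U`. Proof: this group has
index `p` (second inequality); if `a` were not in it, the powers of `a` would represent its classes, and
this contradicts the first inequality for a larger set `T`. (In the language of the reciprocity law,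
`E_{T∪A} U` is the kernel of the sum of the local symbols at the places of `T`.) (`H82G4b`, S01;
`H82V1`, S47) -/
theorem norms_outside_T {K : Type} [Field K] [NumberField K] {p : ℕ} [Fact p.Prime] {ζ : K}
    (hζ : IsPrimitiveRoot ζ p) (hp : p ≠ 2 ∨ IsTotallyComplex K) {L : Type} [Field L]
    [NumberField L] [Algebra K L] [IsGalois K L] {T A : Finset (HeightOneSpectrum (𝓞 K))}
    (hcl : ClTrivial (T : Set (HeightOneSpectrum (𝓞 K))))
    (hTp : ∀ v, v ∉ T → v.valuation K (p : K) = 1) (m : HeightOneSpectrum (𝓞 K) → ℕ)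
    (hm : ∀ v ∈ T, exp (-(m v : ℤ)) < v.valuation K (ζ - 1) ^ p)
    (hdeg : Module.finrank K L = p) {b : Kˣ} {β : L} (hβ : β ^ p = algebraMap K L b)
    (hgen : ∀ σ : L ≃ₐ[K] L, σ β = β → σ = 1)
    (hb : b ∈ (T : Set (HeightOneSpectrum (𝓞 K))).unit K)
    (hA : ∀ v ∈ A, v ∉ T ∧ b ∈ locPow p v 1) (hcard : A.card = Units.rank K + T.card)
    (hidx : (⨅ v ∈ A, locPow p v 1).relIndex
      ((T : Set (HeightOneSpectrum (𝓞 K))).unit K) = p ^ A.card) {a : Kˣ}
    (ha : ∀ v, v ∉ T → NonSplit L v → a ∈ locNorm L v 1) :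
    a ∈ ((T : Set (HeightOneSpectrum (𝓞 K))) ∪ A).unit K ⊔ (⨅ v ∈ T, locPow p v (m v)) :=
  hp.elim (fun h => H82.mem_of_forall_locNorm hζ h hcl hTp m hm hdeg ⟨hβ, hgen⟩ hb hA hcard hidx ha)
    fun _ => H82V.mem_of_forall_locNorm hζ hcl hTp m hm hdeg ⟨hβ, hgen⟩ hb hA hcard hidx ha

/-- **Norms at `T`.** In the same situation the elements which are local norms at all nonsplit places of
`T` are in `E_{T∪A} U`. (`H82G4b`, S01; `H82V1`, S47) -/
theorem norms_at_T {K : Type} [Field K] [NumberField K] {p : ℕ} [Fact p.Prime] {ζ : K}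
    (hζ : IsPrimitiveRoot ζ p) (hp : p ≠ 2 ∨ IsTotallyComplex K) {L : Type} [Field L]
    [NumberField L] [Algebra K L] [IsGalois K L] {T A : Finset (HeightOneSpectrum (𝓞 K))}
    (hcl : ClTrivial (T : Set (HeightOneSpectrum (𝓞 K))))
    (hTp : ∀ v, v ∉ T → v.valuation K (p : K) = 1) (m : HeightOneSpectrum (𝓞 K) → ℕ)
    (hm : ∀ v ∈ T, exp (-(m v : ℤ)) < v.valuation K (ζ - 1) ^ p)
    (hdeg : Module.finrank K L = p) {b : Kˣ} {β : L} (hβ : β ^ p = algebraMap K L b)
    (hgen : ∀ σ : L ≃ₐ[K] L, σ β = β → σ = 1)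
    (hb : b ∈ (T : Set (HeightOneSpectrum (𝓞 K))).unit K)
    (hA : ∀ v ∈ A, v ∉ T ∧ b ∈ locPow p v 1) (hcard : A.card = Units.rank K + T.card)
    (hidx : (⨅ v ∈ A, locPow p v 1).relIndex
      ((T : Set (HeightOneSpectrum (𝓞 K))).unit K) = p ^ A.card) :
    (⨅ v ∈ T, ⨅ (_ : NonSplit L v), locNorm L v (m v)) ≤
      ((T : Set (HeightOneSpectrum (𝓞 K))) ∪ A).unit K ⊔ (⨅ v ∈ T, locPow p v (m v)) :=
  hp.elim (fun h => H82.iInf_locNorm_le hζ h hcl hTp m hm hdeg ⟨hβ, hgen⟩ hb hA hcard hidx)
    fun _ => H82V.iInf_locNorm_le hζ hcl hTp m hm hdeg ⟨hβ, hgen⟩ hb hA hcard hidx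

/-- **The component at `w`.** In the same situation let `w ∈ T`, and suppose that `w` splits in `L`, or
that some `a` is a local norm at all nonsplit places except `w`, where it is none. Then every `y` which
is a local `p`-th power at all places of `T` except `w` is in `E_{T∪A} U`. So a generator `b` for which
this conclusion fails is good at `w`, as wanted in `GuideQuadRec.every_place_contributes`. (By the
reciprocity law the second alternative never occurs; but this is not known at this point of the proof.)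
(`H82G4b`, S01; `H82V1`, S47) -/
theorem component_at_w {K : Type} [Field K] [NumberField K] {p : ℕ} [Fact p.Prime] {ζ : K}
    (hζ : IsPrimitiveRoot ζ p) (hp : p ≠ 2 ∨ IsTotallyComplex K) {L : Type} [Field L]
    [NumberField L] [Algebra K L] [IsGalois K L] {T A : Finset (HeightOneSpectrum (𝓞 K))}
    (hcl : ClTrivial (T : Set (HeightOneSpectrum (𝓞 K))))
    (hTp : ∀ v, v ∉ T → v.valuation K (p : K) = 1) (m : HeightOneSpectrum (𝓞 K) → ℕ)
    (hm : ∀ v ∈ T, exp (-(m v : ℤ)) < v.valuation K (ζ - 1) ^ p)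
    (hdeg : Module.finrank K L = p) {b : Kˣ} {β : L} (hβ : β ^ p = algebraMap K L b)
    (hgen : ∀ σ : L ≃ₐ[K] L, σ β = β → σ = 1)
    (hb : b ∈ (T : Set (HeightOneSpectrum (𝓞 K))).unit K)
    (hA : ∀ v ∈ A, v ∉ T ∧ b ∈ locPow p v 1) (hcard : A.card = Units.rank K + T.card)
    (hidx : (⨅ v ∈ A, locPow p v 1).relIndex
      ((T : Set (HeightOneSpectrum (𝓞 K))).unit K) = p ^ A.card)
    (w : HeightOneSpectrum (𝓞 K)) (hw : w ∈ T)
    (h : NonSplit L w → ∃ a : Kˣ, (∀ v, v ≠ w → NonSplit L v → ∀ n, a ∈ locNorm L v n) ∧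
      a ∉ locNorm L w (m w)) {y : Kˣ} (hy : ∀ v ∈ T, v ≠ w → y ∈ locPow p v (m v)) :
    y ∈ ((T : Set (HeightOneSpectrum (𝓞 K))) ∪ A).unit K ⊔ (⨅ v ∈ T, locPow p v (m v)) :=
  hp.elim (fun h' => H82.component_le hζ h' hcl hTp m hm hdeg ⟨hβ, hgen⟩ hb hA hcard hidx w hw h hy)
    fun _ => H82V.component_le hζ hcl hTp m hm hdeg ⟨hβ, hgen⟩ hb hA hcard hidx w hw h hy

/-!
## 8. The quadratic symbol (S47)
-/

/-- **The norm form.** `L/K` quadratic, `L = K(β)`, `β² = b`: the norms from `L` are the values `u² - b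
w² ≠ 0`. (`H82V3`; S47) -/
theorem mem_norm_group_iff {K : Type*} [Field K] [CharZero K] {L : Type*} [Field L] [Algebra K L]
    [IsGalois K L] (hdeg : Module.finrank K L = 2) {b : Kˣ} {β : L}
    (hβ : β ^ 2 = algebraMap K L b) (hgen : ∀ σ : L ≃ₐ[K] L, σ β = β → σ = 1) (x : Kˣ) :
    x ∈ normGroup K L ↔ ∃ u w : K, u ^ 2 - b * w ^ 2 = x := by
  rw [H82V.normGroup_eq_nf hdeg ⟨hβ, hgen⟩, H82V.mem_nf]

/-- **Squares.** `(a, b t²)_v = (a, b)_v`, and if `a` is a local square at `v`, then every element is a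
local norm from `K(√a)` at `v`. (`H82V2`; S47) -/
theorem symbol_and_squares {K : Type*} [Field K] [NumberField K] (v : HeightOneSpectrum (𝓞 K)) :
    (∀ b t : Kˣ, H82V.hil v (b * t ^ 2) = H82V.hil v b) ∧
      ∀ a : Kˣ, (∀ k : ℕ, a ∈ locPow 2 v k) → H82V.hil v a = ⊤ :=
  ⟨H82V.hil_mul_sq v, fun _ h => H82V.hil_eq_top_of_locPow h⟩

/-- **Symmetry**, with an explicit depth: if `1 + v^d` consists of local squares (such a `d` exists:
`H82V.exists_depth`) and `a` is a local norm from `K(√b)` at `v`, then `b` is a local norm from `K(√a)`.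
Proof: from `u² - b w² = a t` with `t ∈ 1 + v^d` one gets `b w² = u² - a t`, `t` a local square (if `w =
0`, then `a` itself is a local square). (`H82V2`; S47) -/
theorem symbol_symmetric {K : Type*} [Field K] [NumberField K] {v : HeightOneSpectrum (𝓞 K)}
    {d : ℕ} (hd0 : 0 < d) (hd : ∀ k : ℕ, congr v d ≤ locPow 2 v k) {a b : Kˣ}
    (h : a ∈ H82V.hil v b) : b ∈ H82V.hil v a :=
  H82V.hil_symm_aux hd0 hd h

/-- **Base change**: if `(x, b)_v = 1` and `w` is a place of `L` above `v`, then `(x, b)_w = 1`.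
(`H82V4`; S47) -/
theorem symbol_base_change {K : Type} [Field K] [NumberField K] {L : Type} [Field L]
    [NumberField L] [Algebra K L] {v : HeightOneSpectrum (𝓞 K)} {w : HeightOneSpectrum (𝓞 L)}
    (hw : w ∈ above L v) {b x : Kˣ} (hx : x ∈ H82V.hil v b) :
    Units.map (algebraMap K L : K →* L) x ∈
      H82V.hil w (Units.map (algebraMap K L : K →* L) b) :=
  H82V.map_hil hw hx

/-- **The common slot.** `b` is not a square, `b'` is good at `v₀` (an element which is a local norm
from `K(√b')` at all `v ≠ v₀` is one at `v₀`), and `c = n₁ + b' n₂` with `n₁ = p₁² - b p₂²`, `n₂ = q₁² -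
b q₂²`, `p₁ q₁ = b p₂ q₂` (this is what it means that `c` is a norm from `K(√b', √b)` over `K(√b')`).
Then the symbol `(c, b)_v` cannot be `1` for all `v ≠ v₀` and `-1` at `v₀`: because `n₁ n₂ = - b (p₂ q₁
- p₁ q₂)²`, the element `c n₁ = n₁² - b b' (p₂ q₁ - p₁ q₂)²` is a norm from `K(√(b b'))`, so `(c n₁,
b')_v = (c n₁, b)_v = (c, b)_v` for all `v`, against the choice of `b'`. (Degenerate cases: if `n₂ = 0`,
then `c = n₁` is a norm from `K(√b)`; if `n₁ = 0`, then `c = b' n₂` and `(c, b)_v = (b, b')_v` for all `v`,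
and `b` contradicts the choice of `b'`.) (`H82V4`; S47) -/
theorem common_slot {K : Type} [Field K] [NumberField K] [IsTotallyComplex K]
    {v₀ : HeightOneSpectrum (𝓞 K)} {b b' c : Kˣ}
    (hb : b ∉ (powMonoidHom 2 : Kˣ →* Kˣ).range)
    (hgood : ∀ x : Kˣ, (∀ v, v ≠ v₀ → x ∈ H82V.hil v b') → x ∈ H82V.hil v₀ b')
    (h1 : ∀ v, v ≠ v₀ → c ∈ H82V.hil v b) (h0 : c ∉ H82V.hil v₀ b) {p₁ q₁ p₂ q₂ : K}
    (hc : (c : K) = (p₁ ^ 2 - b * p₂ ^ 2) + b' * (q₁ ^ 2 - b * q₂ ^ 2))
    (hpq : p₁ * q₁ = b * (p₂ * q₂)) : False :=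
  H82V.slot hb hgood h1 h0 hc hpq

/-- **Unramified places.** `L = K(√b)`, `v` prime to `2`, unramified and nonsplit in `L`: `(x, b)_v = 1`
if and only if the order of `x` at `v` is even. (At a split place the symbol is `1`:
`H82V.hil_eq_top_of_split`.) (`H82V6`; S47) -/
theorem symbol_unramified {K : Type} [Field K] [NumberField K] [IsTotallyComplex K] {L : Type}
    [Field L] [NumberField L] [Algebra K L] [IsGalois K L] (hdeg : Module.finrank K L = 2)
    {b : Kˣ} {β : L} (hβ : β ^ 2 = algebraMap K L b)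
    (hgen : ∀ σ : L ≃ₐ[K] L, σ β = β → σ = 1) {v : HeightOneSpectrum (𝓞 K)}
    (hv : v.valuation K (2 : K) = 1) (hns : NonSplit L v)
    (hunr : ∀ w ∈ above L v, v.asIdeal.ramificationIdx' w.asIdeal = 1) (x : Kˣ) :
    x ∈ H82V.hil v b ↔ 2 ∣ H47.divHom (𝓞 K) K (Additive.ofMul x) v :=
  H82V.mem_hil_iff_of_unramified hdeg ⟨hβ, hgen⟩ hv hns hunr x

end Fermat.Agent.Guide.ClassField
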