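import Fermat.Agent.H33DUnf

/-!
# Reader's guide: the coefficients of the dihedral form and the unfolding bijection

**Statement served:** S47, block (D).  Companion of `GuideOctD` (section 3: the coefficients) and of
`GuideOctDTheta` (part (b): `coefficient_identity`), which quote the results only; this file contains
the steps of the proofs.  Every library theorem cited below is used in the proof of S47.  In prose:
note [416] NOTES-S47-D-COEF.

**Setting.**  `B/E` is a quadratic extension of totally complex number fields with conjugation `τ`,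
`S` a finite set of places of `E`, `χ` a multiplicative function on the ideals of `B`, zero exactly at
the places above `S`, trivial on the ideals `(a)` with `a` close to `1` above `S`, and equal on the
ideals of `E` prime to `S` to the quadratic character of `B/E`.  The dihedral form is an explicit
series with the coefficients `c(n) = ∑ χ(I)`, the sum over the integral ideals `I` of `B` of relative
norm `n`.

**What the file does.**
1. The sum `c(n)` satisfies the Hecke recursion at the unramified primes: this is unique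
   factorisation of ideals and multiplicativity of the relative norm (`coef_basic` to `cf_spec`).
2. `χ` extends to fractional ideals and is trivial on `(x)`, `x` close to `1`; finiteness of the ray
   classes (`orders` to `finite_ray_classes`).
3. The norm of an ideal `I` of `B` is `I τ(I)`; so `c(n)` is a sum over the ideals `J` with
   `J τ(J) = n`, and `n` may be a fractional ideal (`conjugate_ideals` to `cf_eq_sum`).
4. The unfolding bijection, for abstract commutative groups: the integral ideals `K` with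
   `K τ(K) = α A` are the `x τ(r)`, `r` in a system of representatives of the solutions of
   `r τ(r) = A` and `x` in a lattice attached to `r`, of norm `α`, modulo units (`unfolding_bijection`
   to `finitely_many_classes`).
5. Its hypotheses for the data of block (D): Hilbert 90 for ideals, lifting of norms, relative units,
   and the resulting formula for `c(α A/D)` as a sum over elements of `B` (`groups` to
   `coefficient_sum`).  The only input from class field theory is the Hasse norm theorem for `B/E`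
   (theorem 26).

**Conventions.**  `cE A w` is the order of the fractional ideal `A` at `w`; `FI K` the group of the
nonzero fractional ideals; `w.valuation E x ≤ exp (-n)` says that `x` has order at least `n` at `w`;
`aboveSet B S` is the set of the places of `B` above `S`; `spanSingleton _ x` is the principal
fractional ideal `(x)`.  `d : H71D.DD E B J` are the data of block (D) (`d.tau = τ`, `d.S = S`,
`d.chi = χ`; `d.US` an open subgroup of the elements of `E` which are units at `S`; `d.n2` a level;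
`d.VS` the set of the `x ∈ B` congruent to `1` modulo `P ^ n2` at the places `P` above `S`, of norm in
`US`) and `d.Good` their properties; both are written out in `GuideOctD`, `good_iff`.
-/

set_option autoImplicit false

open IsDedekindDomain FractionalIdeal NumberField WithZero
open scoped nonZeroDivisors

namespace Fermat.Agent.Guide.Coefficients

/-! ## 1. The sums `c(n)` -/

section Dedekind

-- `S / R` is a finite torsion free extension of Dedekind domains
variable {R S : Type*} [CommRing R] [IsDedekindDomain R] [CommRing S] [IsDedekindDomain S]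
  [Algebra R S] [Module.Finite R S] [Module.IsTorsionFree R S]

/-- **1. The coefficients.**  `c(n)` is the sum of `χ(I)` over the ideals `I` of `S` with relative norm
`n`; for `n ≠ 0` these are finitely many (they divide `n S`); `c(1) = 1`, and `c(n) = 0` if `n` is not
a norm.  (H33DCoef) -/
theorem coef_basic (χ : Ideal S →*₀ ℂ) :
    (∀ n : Ideal R, H33D.coef χ n = ∑ᶠ I ∈ {I : Ideal S | Ideal.relNorm R I = n}, χ I) ∧
    (∀ n : Ideal R, n ≠ 0 → {I : Ideal S | Ideal.relNorm R I = n}.Finite) ∧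
    H33D.coef χ (1 : Ideal R) = 1 ∧
    ∀ n : Ideal R, (∀ I : Ideal S, Ideal.relNorm R I ≠ n) → H33D.coef χ n = 0 :=
  ⟨fun _ => rfl, fun _ hn => H33D.finite_normSet hn, H33D.coef_one χ,
    fun _ h => H33D.coef_of_empty χ h⟩

/-- **2. Primes dividing a norm.**  If the prime `w` of `R` divides the norm of `I ≠ 0` then a prime
`Q` of `S` above `w` divides `I`.  (H33DCoef) -/
theorem prime_dividing_norm {w : Ideal R} (hw : Prime w) {I : Ideal S} (hI : I ≠ 0)
    (h : w ∣ Ideal.relNorm R I) : ∃ Q : Ideal S, Prime Q ∧ Q ∣ I ∧ Q ∣ w.map (algebraMap R S) :=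
  H33D.exists_prime_dvd hw hI h

/-- **3. Norms of the primes of a quadratic extension.**  `S` of rank two over `R`.  If `w S = P P'`
with different primes then `P` and `P'` have norm `w`; if `w S` is prime it has norm `w²`.
(H33DCoef) -/
theorem norms_of_primes (hrank : Module.finrank R S = 2) {w : Ideal R} (hw : Prime w) :
    (∀ P P' : Ideal S, Prime P → Prime P' → P ≠ P' → w.map (algebraMap R S) = P * P' →
      Ideal.relNorm R P = w ∧ Ideal.relNorm R P' = w) ∧
    (Prime (w.map (algebraMap R S)) → Ideal.relNorm R (w.map (algebraMap R S)) = w * w) :=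
  ⟨fun _ _ hP hP' hne h => ⟨(H33D.IsSplit.mk' hrank hw hP hP' hne h).norm_P,
    (H33D.IsSplit.mk' hrank hw hP hP' hne h).norm_P'⟩,
    fun hP => (H33D.IsInert.mk' hrank hw hP).norm_P⟩

/-- **4. Split primes.**  `w S = P P'` with different primes of norm `w`.  Then `c(w) = χ(P) + χ(P')`,
`c(w n) = c(w) c(n)` if `w ∤ n`, and `c(w² n) = c(w) c(w n) - χ(P P') c(n)` for `n ≠ 0`.  Proof: an
ideal whose norm is divisible by `w` is divisible by `P` or by `P'`; count by inclusion and
exclusion.  (H33DCoef) -/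
theorem coef_split {w : Ideal R} {P P' : Ideal S} (hw : Prime w) (hP : Prime P) (hP' : Prime P')
    (hne : P ≠ P') (hmap : w.map (algebraMap R S) = P * P') (hN : Ideal.relNorm R P = w)
    (hN' : Ideal.relNorm R P' = w) (χ : Ideal S →*₀ ℂ) :
    H33D.coef χ w = χ P + χ P' ∧
    (∀ n : Ideal R, n ≠ 0 → ¬ w ∣ n → H33D.coef χ (w * n) = (χ P + χ P') * H33D.coef χ n) ∧
    ∀ n : Ideal R, n ≠ 0 → H33D.coef χ (w * (w * n)) =
      (χ P + χ P') * H33D.coef χ (w * n) - χ (P * P') * H33D.coef χ n :=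
  ⟨H33D.coef_split ⟨hw, hP, hP', hne, hmap, hN, hN'⟩ χ,
    fun _ hn h => H33D.coef_split_of_not_dvd ⟨hw, hP, hP', hne, hmap, hN, hN'⟩ χ hn h,
    fun _ hn => H33D.coef_split_mul ⟨hw, hP, hP', hne, hmap, hN, hN'⟩ χ hn⟩

/-- **5. Inert primes.**  `w S = P` prime of norm `w²`.  Then `c(w) = 0`, `c(w n) = 0` if `w ∤ n`, and
`c(w² n) = χ(P) c(n)` for `n ≠ 0`.  With `χ(P) = -1` this is the Hecke recursion for the eigenvalue
`0`.  (H33DCoef) -/
theorem coef_inert {w : Ideal R} {P : Ideal S} (hw : Prime w) (hP : Prime P)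
    (hmap : w.map (algebraMap R S) = P) (hN : Ideal.relNorm R P = w * w) (χ : Ideal S →*₀ ℂ) :
    H33D.coef χ w = 0 ∧ (∀ n : Ideal R, n ≠ 0 → ¬ w ∣ n → H33D.coef χ (w * n) = 0) ∧
    ∀ n : Ideal R, n ≠ 0 → H33D.coef χ (w * (w * n)) = χ P * H33D.coef χ n :=
  ⟨H33D.coef_inert ⟨hw, hP, hmap, hN⟩ χ,
    fun _ hn h => H33D.coef_inert_of_not_dvd ⟨hw, hP, hmap, hN⟩ χ hn h,
    fun _ hn => H33D.coef_inert_mul ⟨hw, hP, hmap, hN⟩ χ hn⟩

/-- **6. Trivial bound.**  If `|χ| ≤ 1` then `|c(n)|` is at most the number of the ideals of norm `n`.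
Together with a bound for this number (`H53Z5`) this gives the convergence of the explicit series.
(H33DCoef) -/
theorem coef_bound (χ : Ideal S →*₀ ℂ) (hχ : ∀ I, ‖χ I‖ ≤ 1) {n : Ideal R} (hn : n ≠ 0) :
    ‖H33D.coef χ n‖ ≤ {I : Ideal S | Ideal.relNorm R I = n}.ncard :=
  H33D.norm_coef_le χ hχ hn

/-- **7. Coefficients at fractional ideals.**  `cf χ J` is `c(J)` if `J` is integral and `0` otherwise;
a fractional ideal `J ≠ 0` with orders `≥ 0` is integral, one with an order `< 0` is not.  In this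
form the recursion is `c(v J) = a c(J) - c(v⁻¹ J)` (`GuideOctD`, `cf_mul`).  (H33DCoef) -/
theorem cf_spec {K : Type*} [Field K] [Algebra R K] [IsFractionRing R K] (χ : Ideal S →*₀ ℂ) :
    (∀ n : Ideal R, H33D.cf χ (n : FractionalIdeal R⁰ K) = H33D.coef χ n) ∧
    (∀ J : FractionalIdeal R⁰ K, ¬ J ≤ 1 → H33D.cf χ J = 0) ∧
    ∀ J : FractionalIdeal R⁰ K, J ≠ 0 →
      ((∀ v, 0 ≤ count K v J) → J ≤ 1) ∧ ((∃ v, count K v J < 0) → ¬ J ≤ 1) :=
  ⟨H33D.cf_coe χ, fun _ h => H33D.cf_of_not_le χ h,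
    fun _ hJ => ⟨H33D.le_one_of_count_nonneg hJ, fun ⟨_, h⟩ => H33D.not_le_one_of_count_neg h⟩⟩

end Dedekind

/-! ## 2. `χ` on fractional ideals, ray classes -/

section Character

-- `R` is a Dedekind domain with field of fractions `K`
variable {R : Type*} [CommRing R] [IsDedekindDomain R] {K : Type*} [Field K] [Algebra R K]
  [IsFractionRing R K]

/-- **8. Orders of fractional ideals.**  The order of `I + J` is the minimum of the orders, and
`I ⊂ J` if and only if the orders of `I` are not smaller than those of `J`.  (H33DChiF) -/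
theorem orders {I J : FractionalIdeal R⁰ K} (hI : I ≠ 0) (hJ : J ≠ 0) :
    (∀ v : HeightOneSpectrum R, count K v (I + J) = min (count K v I) (count K v J)) ∧
    (I ≤ J ↔ ∀ v : HeightOneSpectrum R, count K v J ≤ count K v I) :=
  ⟨H33D.count_add hI hJ, H33D.le_iff_count hI hJ⟩

/-- **9. The extension of `χ`.**  `χ(J) = ∏ χ(v) ^ ord_v(J)`; it agrees with `χ` on nonzero integral
ideals.  (H33DChiF) -/
theorem chiF_spec (χ : Ideal R →*₀ ℂ) :
    (∀ J : FractionalIdeal R⁰ K,
      H33D.chiF χ J = ∏ᶠ v : HeightOneSpectrum R, χ v.asIdeal ^ count K v J) ∧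
    (∀ I : Ideal R, I ≠ 0 → H33D.chiF χ (I : FractionalIdeal R⁰ K) = χ I) :=
  ⟨fun _ => rfl, fun _ hI => H33D.chiF_coe χ hI⟩

/-- **10. Multiplicativity** on the fractional ideals which are prime to the zeros of `χ`.
(H33DChiF) -/
theorem chiF_mul {χ : Ideal R →*₀ ℂ} {J J' : FractionalIdeal R⁰ K}
    (h : J ≠ 0 ∧ ∀ v : HeightOneSpectrum R, χ v.asIdeal = 0 → count K v J = 0)
    (h' : J' ≠ 0 ∧ ∀ v : HeightOneSpectrum R, χ v.asIdeal = 0 → count K v J' = 0) :
    H33D.chiF χ (J * J') = H33D.chiF χ J * H33D.chiF χ J' ∧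
      H33D.chiF χ J⁻¹ = (H33D.chiF χ J)⁻¹ :=
  ⟨H33D.chiF_mul h h', H33D.chiF_inv h⟩

/-- **11. Denominators.**  An element `x ≠ 0` of `K` with orders `≥ 0` at the divisors of the ideal `m`
has a denominator `b ≡ 1` modulo `m`: `b x = a ∈ R`.  Proof: the ideal `(1 + (x))⁻¹` of the
denominators of `x` is prime to `m`.  (H33DChiF) -/
theorem exists_denominator {m : Ideal R} {x : K} (hx : x ≠ 0)
    (hv : ∀ v : HeightOneSpectrum R, m ≤ v.asIdeal → 0 ≤ count K v (spanSingleton R⁰ x)) :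
    ∃ b a : R, b - 1 ∈ m ∧ algebraMap R K b * x = algebraMap R K a :=
  H33D.exists_denom hx hv

/-- **12. `χ` is trivial on `(x)`, `x` close to `1`**: if `x ≡ 1` modulo `P ^ n` for all `P` in a finite
set `T`, `n > 0`, and if this is true for integral `x`.  Proof: by 11 `x = a / b` with `a`, `b`
integral and `≡ 1`.  (H33DMod) -/
theorem chiF_principal {T : Set (HeightOneSpectrum R)} {n : ℕ} (hT : T.Finite)
    (hn : 0 < n) {χ : Ideal R →*₀ ℂ}
    (h1 : ∀ a : R, (∀ P ∈ T, P.valuation K (algebraMap R K a - 1) ≤ exp (-(n : ℤ))) →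
      χ (Ideal.span {a}) = 1) {x : K} (hx : x ≠ 0)
    (hv : ∀ P ∈ T, P.valuation K (x - 1) ≤ exp (-(n : ℤ))) :
    H33D.chiF χ (spanSingleton R⁰ x) = 1 :=
  (H33D.chiF_of_congr hT hn h1 hx hv).2

/-- **13. Powers.**  If the class group is finite, a power of every fractional ideal is principal; and
`I ^ h = J ^ h` implies `I = J`.  So an equality between ideals which is compatible with products
needs to be proved for principal ideals only.  (H33DConj) -/
theorem power_principal [Finite (ClassGroup R)] {I J : FractionalIdeal R⁰ K} (hI : I ≠ 0)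
    (hJ : J ≠ 0) : (∃ h : ℕ, 0 < h ∧ ∃ x : Kˣ, J ^ h = spanSingleton R⁰ (x : K)) ∧
      ∀ h : ℕ, 0 < h → I ^ h = J ^ h → I = J :=
  ⟨H33D.exists_pow_eq_spanSingleton hJ, fun _ hh e => H33D.eq_of_pow_eq hI hJ hh e⟩

/-- **14. Finiteness of ray classes.**  Finite class group and finite residue ring `R / m`: the
fractional ideals prime to `m` fall into finitely many classes modulo the principal ideals `(κ)`,
`κ ≡ 1` modulo `m`.  Proof: choose a reference ideal prime to `m` in each ideal class; then `d` is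
`(y)` times the reference ideal, `y = a / b` with `b ≡ 1` modulo `m` by 11, and the second invariant
of `d` is the residue class of `a`.  (H33DRay) -/
theorem finite_ray_classes [Finite (ClassGroup R)] {m : Ideal R} (hm : m ≠ 0)
    [Finite (R ⧸ m)] :
    ∃ cl : FractionalIdeal R⁰ K → ClassGroup R × (R ⧸ m), ∀ d d' : FractionalIdeal R⁰ K,
      (d ≠ 0 ∧ ∀ v : HeightOneSpectrum R, m ≤ v.asIdeal → count K v d = 0) →
      (d' ≠ 0 ∧ ∀ v : HeightOneSpectrum R, m ≤ v.asIdeal → count K v d' = 0) →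
      cl d = cl d' →
      ∃ κ : Kˣ, (∀ v : HeightOneSpectrum R, m ≤ v.asIdeal → v.valuation K (κ : K) = 1 ∧
          v.valuation K ((κ : K) - 1) ≤ exp (-(multiplicity v.asIdeal m : ℤ))) ∧
        d' = spanSingleton R⁰ (κ : K) * d :=
  H33D.exists_finite_classes hm

end Character

/-! ## 3. Norms of ideals in a quadratic extension -/

/-- **15. Conjugate ideals.**  `conj τ J` is the image of the fractional ideal `J` of `B` under the
automorphism `τ`.  (H33DConj) -/
theorem conjugate_ideals {E B : Type*} [Field E] [Field B] [NumberField B] [Algebra E B]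
    (τ : B ≃ₐ[E] B) (J : FractionalIdeal (𝓞 B)⁰ B) :
    (∀ x : B, x ∈ H33D.conj τ J ↔ τ.symm x ∈ J) ∧
    (∀ x : B, H33D.conj τ (spanSingleton (𝓞 B)⁰ x) = spanSingleton (𝓞 B)⁰ (τ x)) ∧
    ∀ P : HeightOneSpectrum (𝓞 B), count B (H47.smulPlace τ P) (H33D.conj τ J) = count B P J :=
  ⟨fun _ => H33D.mem_conj, H33D.conj_spanSingleton τ, fun P => H33D.count_conj τ P J⟩

/-- **16. Extended ideals.**  `up B n` is the extension to `B` of the fractional ideal `n` of `E`; its
order at a place `P` above `v` is `e(P/v)` times the order of `n` at `v`; `up B` is injective.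
(H33DConj) -/
theorem extended_ideals {E B : Type*} [Field E] [NumberField E] [Field B] [NumberField B]
    [Algebra E B] :
    (∀ x : E, H33D.up B (spanSingleton (𝓞 E)⁰ x) = spanSingleton (𝓞 B)⁰ (algebraMap E B x)) ∧
    (∀ n : Ideal (𝓞 E), H33D.up B (n : FractionalIdeal (𝓞 E)⁰ E) =
      ((n.map (algebraMap (𝓞 E) (𝓞 B)) : Ideal (𝓞 B)) : FractionalIdeal (𝓞 B)⁰ B)) ∧
    Function.Injective (H33D.up B : FractionalIdeal (𝓞 E)⁰ E → FractionalIdeal (𝓞 B)⁰ B) ∧
    ∀ (v : HeightOneSpectrum (𝓞 E)) (P : HeightOneSpectrum (𝓞 B)), P ∈ H82.above B v →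
      ∀ n : FractionalIdeal (𝓞 E)⁰ E, count B P (H33D.up B n) =
        v.asIdeal.ramificationIdx' P.asIdeal * count E v n :=
  ⟨H33D.up_spanSingleton, H33D.up_coe, H33D.up_injective, fun _ _ hP n => H33D.count_up hP n⟩

/-- **17. `N(I) 𝓞_B = I τ(I)`** for an ideal `I ≠ 0` of the quadratic extension `B` of `E`, `τ ≠ 1` the
conjugation; so an ideal `I ≠ 0` has norm `n` if and only if `I τ(I) = n 𝓞_B`.  Proof: by 13 one may
suppose that `I` is principal.  (H33DConj) -/
theorem norm_eq_mul_conj {E B : Type*} [Field E] [NumberField E] [Field B] [NumberField B]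
    [Algebra E B] [IsGalois E B] {τ : B ≃ₐ[E] B} (hdeg : Module.finrank E B = 2) (hτ : τ ≠ 1)
    {I : Ideal (𝓞 B)} (hI : I ≠ 0) :
    H33D.up B ((Ideal.relNorm (𝓞 E) I : Ideal (𝓞 E)) : FractionalIdeal (𝓞 E)⁰ E) =
      (I : FractionalIdeal (𝓞 B)⁰ B) * H33D.conj τ I ∧
    ∀ n : Ideal (𝓞 E), Ideal.relNorm (𝓞 E) I = n ↔
      (I : FractionalIdeal (𝓞 B)⁰ B) * H33D.conj τ I = H33D.up B (n : FractionalIdeal (𝓞 E)⁰ E) :=
  ⟨H33D.up_relNorm hdeg hτ hI, fun _ => H33D.relNorm_eq_iff hdeg hτ hI⟩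

/-- **18. The coefficient as a sum over fractional ideals.**  For every fractional ideal `n ≠ 0` of
`E` the coefficient `c(n)` is the sum of `χ(J)` over the finitely many integral ideals `J` of `B` with
`J τ(J) = n 𝓞_B`.  (H33DConj) -/
theorem cf_eq_sum {E B : Type*} [Field E] [NumberField E] [Field B] [NumberField B]
    [Algebra E B] [IsGalois E B] {τ : B ≃ₐ[E] B} (hdeg : Module.finrank E B = 2) (hτ : τ ≠ 1)
    (χ : Ideal (𝓞 B) →*₀ ℂ) {n : FractionalIdeal (𝓞 E)⁰ E} (hn : n ≠ 0) :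
    {J : FractionalIdeal (𝓞 B)⁰ B | J ≤ 1 ∧ J * H33D.conj τ J = H33D.up B n}.Finite ∧
    H33D.cf χ n = ∑ᶠ J ∈ {J : FractionalIdeal (𝓞 B)⁰ B |
      J ≤ 1 ∧ J * H33D.conj τ J = H33D.up B n}, H33D.chiF χ J :=
  ⟨H33D.finite_normSet_frac hdeg hτ hn, H33D.cf_eq_finsum hdeg hτ χ hn⟩

/-! ## 4. The unfolding bijection for abstract groups -/

section Abstract

-- `U`: elements, `I`: ideals, `π x = (x)`; `σ`, `τ`: conjugation on elements and on ideals
variable {U I : Type*} [CommGroup U] [CommGroup I] {π : U →* I} {σ : U →* U} {τ : I →* I}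
  {V : Subgroup U} {Int : Set I} {A : I}

/-- **19. The unfolding bijection.**  `π : U → I` a homomorphism of commutative groups (in the
application: `U` = units at `S` of `B`, `I` = ideals prime to `S`, `π x = (x)`), `σ` and `τ` compatible
involutions, `V` a `σ`-stable subgroup of `U` (elements close to `1` at `S`), `Int` a subset of `I`
(the integral ideals), `A ∈ I`, `α ∈ U`.  Suppose
* `r i` represent the solutions `b` of `b τ(b) = A` modulo `G = {β ∈ V | β σ(β) = 1}`;
* `R i` represent `{ξ ∈ V | π(ξ) τ(r i) ∈ Int}` modulo `G ∩ ker π`;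
* `α` is a norm `ξ σ(ξ)`, `ξ ∈ V`, as soon as `K τ(K) = π(α) A` has a solution `K ∈ Int`.

Then `(i, ξ) ↦ π(ξ) τ(r i)` is a bijection from `{(i, ξ) | ξ ∈ R i, ξ σ(ξ) = α}` onto the solutions
`K ∈ Int` of `K τ(K) = π(α) A`.  Proof of surjectivity: let `α = ξ₀ σ(ξ₀)`; then `b = τ(K / π(ξ₀))`
solves `b τ(b) = A`; write `b = π(β) r i` and take for `ξ` the representative of `ξ₀ σ(β)` in `R i`.
(H33DBij) -/
theorem unfolding_bijection {ι : Type*} {r : ι → I} {R : ι → Set U}
    (norm : ∀ i, r i * τ (r i) = A)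
    (exists_rep : ∀ b : I, b * τ b = A → ∃ i, ∃ β, (β ∈ V ∧ β * σ β = 1) ∧ b = π β * r i)
    (rep_unique : ∀ i j, ∀ β, (β ∈ V ∧ β * σ β = 1) → r j = π β * r i → i = j)
    (sub : ∀ i, ∀ ξ ∈ R i, ξ ∈ V ∧ π ξ * τ (r i) ∈ Int)
    (exists_unit : ∀ i, ∀ ξ, (ξ ∈ V ∧ π ξ * τ (r i) ∈ Int) →
      ∃ ξ' ∈ R i, ∃ u, ((u ∈ V ∧ u * σ u = 1) ∧ π u = 1) ∧ ξ = u * ξ')
    (unit_unique : ∀ i, ∀ ξ ∈ R i, ∀ ξ' ∈ R i, ∀ u, ((u ∈ V ∧ u * σ u = 1) ∧ π u = 1) →
      ξ' = u * ξ → ξ = ξ')
    (hπ : ∀ x, π (σ x) = τ (π x)) (hσ : ∀ x, σ (σ x) = x) (hτ : ∀ x, τ (τ x) = x)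
    (hVσ : ∀ x ∈ V, σ x ∈ V) {α : U}
    (hlift : ∀ K ∈ Int, K * τ K = π α * A → ∃ ξ ∈ V, ξ * σ ξ = α) :
    Set.BijOn (fun p : ι × U => π p.2 * τ (r p.1)) {p | p.2 ∈ R p.1 ∧ p.2 * σ p.2 = α}
      {K | K ∈ Int ∧ K * τ K = π α * A} :=
  H33D.Reps.bijOn ⟨norm, exists_rep, rep_unique, sub, exists_unit, unit_unique⟩ hπ hσ hτ hVσ hlift

/-- **20. Representatives exist** for every `V`, `Int`, `A`: the hypotheses of 19 on `r` and `R` can be
satisfied, with `ι` the set `Cls` of the classes of solutions of `b τ(b) = A`.  (H33DBij) -/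
theorem representatives_exist (V : Subgroup U) (Int : Set I) (A : I) :
    ∃ (r : H33D.Cls π σ τ V A → I) (R : H33D.Cls π σ τ V A → Set U),
      (∀ i, r i * τ (r i) = A) ∧
      (∀ b : I, b * τ b = A → ∃ i, ∃ β, (β ∈ V ∧ β * σ β = 1) ∧ b = π β * r i) ∧
      (∀ i j, ∀ β, (β ∈ V ∧ β * σ β = 1) → r j = π β * r i → i = j) ∧
      (∀ i, ∀ ξ ∈ R i, ξ ∈ V ∧ π ξ * τ (r i) ∈ Int) ∧
      (∀ i, ∀ ξ, (ξ ∈ V ∧ π ξ * τ (r i) ∈ Int) →
        ∃ ξ' ∈ R i, ∃ u, ((u ∈ V ∧ u * σ u = 1) ∧ π u = 1) ∧ ξ = u * ξ') ∧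
      ∀ i, ∀ ξ ∈ R i, ∀ ξ' ∈ R i, ∀ u, ((u ∈ V ∧ u * σ u = 1) ∧ π u = 1) →
        ξ' = u * ξ → ξ = ξ' :=
  let ⟨r, R, h⟩ := H33D.exists_reps π σ τ V Int A
  ⟨r, R, h.norm, h.exists_rep, h.rep_unique, fun i _ hξ => h.sub i hξ, h.exists_unit,
    h.unit_unique⟩

/-- **21. Finitely many classes.**  Suppose that two solutions `b`, `b'` of `b τ(b) = A` always differ
by `d τ(d)⁻¹` with `d` in a set `D` (Hilbert 90), that `D` falls into finitely many classes modulo
`π(W)` (ray classes), and `κ σ(κ)⁻¹ ∈ V` for `κ ∈ W`.  Then there are finitely many classes of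
solutions.  (H33DBij) -/
theorem finitely_many_classes (hπ : ∀ x, π (σ x) = τ (π x)) (hσ : ∀ x, σ (σ x) = x)
    {W : Subgroup U} (hW : ∀ κ ∈ W, κ * (σ κ)⁻¹ ∈ V) {D : Set I} {C : Type*} [Finite C] (cl : I → C)
    (hcl : ∀ d ∈ D, ∀ d' ∈ D, cl d = cl d' → ∃ κ ∈ W, d' = π κ * d)
    (h90 : ∀ b b' : I, b * τ b = A → b' * τ b' = A → ∃ d ∈ D, b' = d * (τ d)⁻¹ * b) :
    Finite (H33D.Cls π σ τ V A) :=
  H33D.finite_cls hπ hσ hW cl hcl h90

end Abstract

/-! ## 5. The data of block (D) -/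

section Data

variable {E B : Type*} [Field E] [NumberField E] [Field B] [NumberField B] [Algebra E B]
  {J : Type*} [Fintype J]

/-- **22. The groups.**  `UT` = elements of `B` which are units above `S`; `IT` = fractional ideals of
`B` prime to `S`; `VT` = elements close to `1` above `S` with norm in `US`; `piT x = (x)`; `sigT` and
`tauT` = conjugation on elements and on ideals; `upT n` = extension to `B` of an ideal `n` of `E` prime
to `S`.  (H33DUnf) -/
theorem groups {d : H71D.DD E B J} (hd : d.Good) (x : H33D.UT d) (A : H33D.IT d) (y : Bˣ)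
    (A' : H71D.FI B) (n : H71D.FI E) (hn : ∀ w ∈ d.S, H71D.cE n w = 0) :
    (y ∈ H33D.UT d ↔ ∀ P ∈ H82.aboveSet B (d.S : Set (HeightOneSpectrum (𝓞 E))),
      P.valuation B (y : B) = 1) ∧
    (A' ∈ H33D.IT d ↔ ∀ P ∈ H82.aboveSet B (d.S : Set (HeightOneSpectrum (𝓞 E))),
      H71D.cE A' P = 0) ∧
    (x ∈ H33D.VT d ↔ ((x : Bˣ) : B) ∈ d.VS) ∧
    (((H33D.piT d x : H71D.FI B) : FractionalIdeal (𝓞 B)⁰ B) =
      spanSingleton (𝓞 B)⁰ ((x : Bˣ) : B)) ∧
    ((H33D.sigT d hd x : Bˣ) : B) = d.tau ((x : Bˣ) : B) ∧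
    ((H33D.tauT d hd A : H71D.FI B) : FractionalIdeal (𝓞 B)⁰ B) =
      H33D.conj d.tau ((A : H71D.FI B) : FractionalIdeal (𝓞 B)⁰ B) ∧
    ((H33D.upT n hn : H71D.FI B) : FractionalIdeal (𝓞 B)⁰ B) =
      H33D.up B (n : FractionalIdeal (𝓞 E)⁰ E) :=
  ⟨Iff.rfl, Iff.rfl, H33D.coe_mem_VS_iff.symm, H33D.coe_piT d x, H33D.coe_sigT hd x,
    H33D.coe_tauT hd A, rfl⟩

/-- **23. Norm condition.**  `h` has norm `n` in the sense of `IsNm` (orders outside `S`, prime to `S`)
if and only if it is prime to `S` and `h τ(h) = n 𝓞_B`; and for `x` a unit above `S` and `α ∈ US` one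
has `x σ(x) = α` if and only if `α` is the norm of `x`.  (H33DUnf) -/
theorem norm_condition {d : H71D.DD E B J} (hd : d.Good) {n : H71D.FI E}
    (hn : ∀ w ∈ d.S, H71D.cE n w = 0) (h : H71D.FI B) (x : H33D.UT d) {α : Eˣ} (hα : α ∈ d.US) :
    (H71D.IsNm d.S d.tau h (H71D.cE n) ↔ ∃ hh : h ∈ H33D.IT d,
      (⟨h, hh⟩ : H33D.IT d) * H33D.tauT d hd ⟨h, hh⟩ = H33D.upT n hn) ∧
    (x * H33D.sigT d hd x = ⟨_, H33D.up_mem_UT hd hα⟩ ↔ H71U.nmU E B (x : Bˣ) = α) :=
  ⟨H33D.isNm_iff hd hn, H33D.mul_sig_eq hd x hα⟩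

/-- **24. Hilbert 90 for ideals.**  `b`, `b'` fractional ideals of `B` prime to `S` with
`b τ(b) = b' τ(b')`.  Then `b' = D τ(D)⁻¹ b` with `D` prime to `S`.  Proof: `c = b' / b` has
`c τ(c) = 1`; take `D = (1 + c⁻¹)⁻¹`, the sum in the semiring of fractional ideals.  (H33DUnf) -/
theorem hilbert90_ideals {d : H71D.DD E B J} (hd : d.Good) {A b b' : H33D.IT d}
    (h : b * H33D.tauT d hd b = A) (h' : b' * H33D.tauT d hd b' = A) :
    ∃ D : H33D.IT d, b' = D * (H33D.tauT d hd D)⁻¹ * b :=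
  H33D.h90T hd h h'

/-- **25. Finiteness**: 14, 21 and 24 give that the ideals `b` prime to `S` with `b τ(b) = A` fall into
finitely many classes modulo the `(β)`, `β ∈ V` of relative norm one.  (H33DUnf) -/
theorem finitely_many_ideal_classes {d : H71D.DD E B J} (hd : d.Good) (A : H33D.IT d) :
    Finite (H33D.Cls (H33D.piT d) (H33D.sigT d hd) (H33D.tauT d hd) (H33D.VT d) A) :=
  H33D.finite_Cls hd A

/-- **26. Norm lifting.**  `α ∈ US`.  If `α A` is of the form `K τ(K)` and `A` of the form `b τ(b)`,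
ideals prime to `S`, then `α = ξ σ(ξ)` with `ξ` close to `1` above `S`.  Proof: the order of `α` is even
at the nonsplit places outside `S`; then the Hasse norm theorem with congruences (field `lift` of
`d.Good`, from `GuideOctD`, `norm_lift`).  (H33DUnf) -/
theorem norm_lifting {d : H71D.DD E B J} (hd : d.Good) {A b : H33D.IT d}
    (hb : b * H33D.tauT d hd b = A) {α : Eˣ} (hα : α ∈ d.US) (K : H33D.IT d)
    (hK : K * H33D.tauT d hd K = H33D.piT d ⟨_, H33D.up_mem_UT hd hα⟩ * A) :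
    ∃ ξ ∈ H33D.VT d, ξ * H33D.sigT d hd ξ = ⟨_, H33D.up_mem_UT hd hα⟩ :=
  H33D.hliftT hd hb hα K hK

/-- **27. Relative units.**  The group `G ∩ ker π` of 19 is here the group of the units of `B` of
relative norm one which are congruent to `1` modulo the ideal `mS d` (intersection of the `P ^ n2`,
`P` above `S`), embedded in `Bˣ` by `incl`; compare `GuideOctDTheta`, `relative_units`.  (H33DUnf) -/
theorem relative_units_iff {d : H71D.DD E B J} (hd : d.Good) {x : H33D.UT d} :
    ((x ∈ H33D.VT d ∧ x * H33D.sigT d hd x = 1) ∧ H33D.piT d x = 1) ↔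
      (x : Bˣ) ∈ (H71U.incl d.tau (H33D.mS d)).range :=
  H33D.mem_range_incl hd

/-- **28. The lattices.**  `x ∈ LT d D h` says that `x ∈ VS` and `x ∈ D h̄⁻¹` at all places `P` of `B` not
above `S`; for `D` and `h` prime to `S` and `x` a unit above `S` this is the condition of 19: `x` is
close to `1` above `S` and `x τ(h) D⁻¹` is integral.  (H33DUnf) -/
theorem lattice_iff {d : H71D.DD E B J} (hd : d.Good) {D : H71D.FI E}
    (hD : ∀ w ∈ d.S, H71D.cE D w = 0) (h : H33D.IT d) (x : H33D.UT d) :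
    ((x : Bˣ) ∈ H33D.LT d D (h : H71D.FI B) ↔ ((x : Bˣ) : B) ∈ d.VS ∧
      ∀ P ∉ H82.aboveSet B (d.S : Set (HeightOneSpectrum (𝓞 E))), P.valuation B ((x : Bˣ) : B) ≤
        exp (-(H71D.cE D (H47.below E P) - H71D.cE (h : H71D.FI B) (H47.smulPlace d.tau P)))) ∧
    ((x : Bˣ) ∈ H33D.LT d D (h : H71D.FI B) ↔ x ∈ H33D.VT d ∧
      ((H33D.piT d x * H33D.tauT d hd (h * (H33D.upT D hD)⁻¹) : H33D.IT d) : H71D.FI B).val ≤ 1) :=
  ⟨Iff.rfl, H33D.mem_LT_iff hd hD⟩

/-- **29. Values of `χ`.**  `χ((x)) = 1` for `x ∈ V`; `χ(D 𝓞_B) = ω(D)` for an ideal `D` of `E` prime to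
`S`, `ω` the quadratic character of `B/E` outside `S` (`H71D.om`, a finite product of signs);
`ω(D)² = 1`.  (H33DUnf) -/
theorem chi_values {d : H71D.DD E B J} (hd : d.Good) {D : H71D.FI E}
    (hD : ∀ w ∈ d.S, H71D.cE D w = 0) :
    (∀ x ∈ H33D.VT d, H33D.chiF d.chi ((H33D.piT d x : H71D.FI B) :
      FractionalIdeal (𝓞 B)⁰ B) = 1) ∧
    H33D.chiF d.chi (H33D.up B (D : FractionalIdeal (𝓞 E)⁰ E)) = H71D.om B d.S D ∧
    H71D.om B d.S D * H71D.om B d.S D = 1 :=
  ⟨fun _ hx => H33D.chiF_piT hd hx, H33D.chiF_up hd hD, H33D.om_mul_self D⟩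

/-- **30. The coefficient as a sum over elements of `B`.**  `n` an ideal of `E` prime to `S`; `r i`
representatives of the solutions `b` of `b τ(b) = n` (ideals of `B` prime to `S`) modulo the `(β)`,
`β ∈ V` of relative norm one; `b₀` one solution.  For `A`, `D` prime to `S` with `A D = n` and `α ∈ US`:
`c(α A/D) = ∑ χ(r̄_i) ω(D)`, the sum over the finitely many pairs `(i, x)`, `x` a representative of a
class of `Bˣ` modulo the relative units of 27, with `x ∈ LT d D (r i)` and `N x = α`.  Proof: by 18 the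
left side is the sum of `χ(K)` over the integral `K` with `K τ(K) = α A/D`; the `r i D⁻¹` represent the
solutions of `b τ(b) = A/D`; by 19 the `K` are the `x τ(r i) D⁻¹`, and `χ(K) = χ(r̄_i) ω(D)` by 29.  The
`r i` depend on `n` only: the same ideals serve for all `(A, D)` with the same product, in particular
for `(A, D)` and its transform under a lower unipotent element.  (H33DUnf; with 25 this is
`coefficient_identity` of `GuideOctDTheta`) -/
theorem coefficient_sum {d : H71D.DD E B J} (hd : d.Good) {ι : Type*} {n : H71D.FI E}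
    (hn : ∀ w ∈ d.S, H71D.cE n w = 0) {r : ι → H33D.IT d}
    (hnorm : ∀ i, r i * H33D.tauT d hd (r i) = H33D.upT n hn)
    (hrep : ∀ b : H33D.IT d, b * H33D.tauT d hd b = H33D.upT n hn →
      ∃ i, ∃ β, (β ∈ H33D.VT d ∧ β * H33D.sigT d hd β = 1) ∧ b = H33D.piT d β * r i)
    (huniq : ∀ i j, ∀ β, (β ∈ H33D.VT d ∧ β * H33D.sigT d hd β = 1) →
      r j = H33D.piT d β * r i → i = j)
    {b₀ : H33D.IT d} (hb₀ : b₀ * H33D.tauT d hd b₀ = H33D.upT n hn) {A D : H71D.FI E}
    (hA : ∀ w ∈ d.S, H71D.cE A w = 0) (hD : ∀ w ∈ d.S, H71D.cE D w = 0) (hAD : A * D = n)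
    {α : Eˣ} (hα : α ∈ d.US) :
    {p : ι × (Bˣ ⧸ (H71U.incl d.tau (H33D.mS d)).range) |
      (p.2.out : Bˣ) ∈ H33D.LT d D (r p.1 : H71D.FI B) ∧ H71U.nmU E B p.2.out = α}.Finite ∧
    ∑ᶠ p ∈ {p : ι × (Bˣ ⧸ (H71U.incl d.tau (H33D.mS d)).range) |
        (p.2.out : Bˣ) ∈ H33D.LT d D (r p.1 : H71D.FI B) ∧ H71U.nmU E B p.2.out = α},
      H33D.chiF d.chi (H33D.conj d.tau ((r p.1 : H71D.FI B) : FractionalIdeal (𝓞 B)⁰ B)) *
        H71D.om B d.S D =
    H33D.cf d.chi (spanSingleton (𝓞 E)⁰ (α : E) *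
      ((A * D⁻¹ : H71D.FI E) : FractionalIdeal (𝓞 E)⁰ E)) :=
  let ⟨h1, h2⟩ := H33D.finsum_out_eq hd hn hnorm hrep huniq hb₀ hA hD hAD hα
  ⟨h2, h1⟩

end Data

end Fermat.Agent.Guide.Coefficients
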