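import Fermat.Agent.H70Lev11

/-!
# Guide: the group cohomology `H¹(Γ₀(M), V)` and its Hecke operators

Statements served: S38, S43, S59, S60 (modularity lifting, level lowering without Ihara's lemma) and
through them S01, S03, S04, S06, S45, S46, S50 (S43 without section 5, `U_V_matrices`, `T_V_comm`,
`orbit_weight_of_noThree` and `good_of`); the notions of sections 1 and 2 also occur in S09, S12, S15.
The patching argument needs, for every set of Taylor-Wiles primes, a module over a Hecke algebra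
which is free over the group ring `O[Δ]` (`Δ` a finite quotient of the units modulo the auxiliary
primes). Here these modules are direct summands of `H¹(Γ₀(M), R_ψ)`, where `Γ₀(M)` acts on the coefficient
ring `R = O[Δ]` through a character `ψ : (ℤ/N)ˣ → Rˣ` of the upper left entry. Nothing is geometric:
cocycles are functions `c : Γ₀(M) → V` with `c(γδ) = c(γ)|δ + c(δ)`, and the freeness is a consequence of
`PSL₂(ℤ) = ℤ/2 * ℤ/3`. The reading order is the order of the file: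

1. the abstract definition of `H¹` and of Hecke operators, given by finite families of elements
   of a semigroup (`H70HeckeAbs`);
2. the families `T_ℓ`, `U_q`, `V_d` for `Γ₀(M)`, their relations, and the comparison with
   `Hom(Γ₀(M), A)` for the trivial character (`H70HeckeConc`, `H70HeckeRel`, `H70Psi`, `H70Comp`);
3. the presentation of `PSL₂(ℤ)` and the lifting of cocycles, i.e. the vanishing of `H²`, if `2` is
   invertible and `Γ₀(M)` has no element of order three modulo `±1` (or `3` is invertible)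
   (`H70Pres`, `H70Lift`);
4. consequences: cocycles form a projective module; a direct summand of `H¹` on which `T_ℓ` minus its
   Eisenstein eigenvalue is bijective is projective, over *every* coefficient ring (`H70Free`);
5. the trace from level `M q` to level `M` and the adjoint of `V_q`: the products with restriction
   and `V_q` are `q + 1`, `T_q`, `T_q`, `(q + 1)⟨q⟩` (`H70DC`, `H70Trace`);
6. change of the coefficient ring (`H70Base`).

The sequel is `GuideTWModules` (characters of `Δ`, localised modules, Taylor-Wiles levels). The analytic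
side (for the trivial character these operators satisfy the relations of the Hecke operators on cusp
forms of weight two) is in `GuidePeriods`, `GuideBridge` and `GuideHeckeRings`; twisting (helper21) is in
`GuideTWModules`, section 3, `GuideLevelsIhara` and `GuideLiftingHecke`. Notes: NOTES.md, sections 3.5
and 3.7, and NOTES-MODLIFT-MODULES [201] (helper70).

**Conventions.** A right action of a monoid `S` on an `R`-module `V` is a homomorphism
`ρ : S →* (Module.End R V)ᵐᵒᵖ`; `slash ρ s v` is `v|s`. A group `Γ` with a homomorphism `ι : Γ →* S` acts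
through `ι`. `Z1 ι ρ` is the `R`-module of cocycles, `cob ι ρ v` the coboundary of `v`, `H1 ι ρ` the
quotient of `Z1 ι ρ` by the coboundaries and `H1.mk ι ρ c` the class of `c`. For `N ∣ M`,
`gam N M h : Gamma0 M →* DN N` is the inclusion in the semigroup `DN N` (theorem `mem_semigroup`), and
`psiRep ψ W` the action on `W` of theorem `slash_character`. The words "`R_ψ`" and "`W_ψ`" mean this action.
-/

set_option autoImplicit false

open CongruenceSubgroup ModularGroup
open scoped MatrixGroups TensorProduct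

namespace Fermat.Agent.Guide.Cohomology

open Fermat.Agent.H70 Fermat.Agent.H70.Coh

/-! ## 1. Crossed homomorphisms and Hecke families -/

/-- **Cocycles**: functions `c : Γ → V` with `c(γδ) = c(γ)|δ + c(δ)`. -/
theorem mem_cocycles {S R V Γ : Type*} [Monoid S] [CommRing R] [AddCommGroup V] [Module R V] [Group Γ]
    (ι : Γ →* S) (ρ : S →* (Module.End R V)ᵐᵒᵖ) {c : Γ → V} :
    c ∈ Z1 ι ρ ↔ ∀ γ δ : Γ, c (γ * δ) = slash ρ (ι δ) (c γ) + c δ :=
  Iff.rfl

/-- **Coboundaries**: the class of a cocycle `c` in `H1 ι ρ` is zero if and only if there is `v ∈ V` with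
`c(γ) = v|γ - v` for all `γ`. -/
theorem class_eq_zero_iff {S R V Γ : Type*} [Monoid S] [CommRing R] [AddCommGroup V] [Module R V]
    [Group Γ] (ι : Γ →* S) (ρ : S →* (Module.End R V)ᵐᵒᵖ) (c : Z1 ι ρ) :
    H1.mk ι ρ c = 0 ↔ ∃ v, ∀ γ, c.1 γ = slash ρ (ι γ) v - v :=
  (Submodule.Quotient.mk_eq_zero _).trans
    ⟨fun ⟨v, hv⟩ => ⟨v, fun _ => hv ▸ rfl⟩, fun ⟨v, hv⟩ => ⟨v, Subtype.ext (funext fun γ => (hv γ).symm)⟩⟩

/-- **Hecke families.** An element `h` of `HFam ι ι'` is a finite family of elements `h.α i` of `S` (indices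
in `h.J`) which, modulo left multiplication by `Γ`, is permuted by right multiplication by elements of
`Γ'`: `α_i γ' = δ_i α_{σ(i)}` with `δ_i ∈ Γ`. The permutation `h.σ γ'` and the cofactors `h.δ γ'` are
choices; typical examples are representatives of `Γ \ Γ α Γ'`. -/
theorem hecke_family_spec {S Γ Γ' : Type*} [Monoid S] [Group Γ] [Group Γ'] {ι : Γ →* S} {ι' : Γ' →* S}
    (h : HFam ι ι') (γ' : Γ') (i : h.J) : h.α i * ι' γ' = ι (h.δ γ' i) * h.α (h.σ γ' i) :=
  h.spec γ' i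

/-- **The Hecke operator of a family** maps a cocycle `c` of `Γ` to the cocycle
`γ' ↦ ∑ i, c(δ_i)|α_{σ(i)}` of `Γ'`. The value does not depend on the choice of `σ` and `δ`. The
hypothesis `IsFreeOn ι` says that `ι γ * x = x` holds only for `γ = 1`; it is satisfied for `Γ₀(M)` in
`DN N`. Proof (`H70HeckeAbs`): a cocycle `c` of a group acting freely on a set `X` has a primitive
`F : X → V`, `F(γ x)|γ = F(x) + c(γ)`; here `X = S`, and the operator is `F ↦ ∑ i, F(α_i x)|α_i` on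
primitives, which needs no choices. -/
theorem hecke_operator_apply {S R V Γ Γ' : Type*} [Monoid S] [CommRing R] [AddCommGroup V] [Module R V]
    [Group Γ] [Group Γ'] {ι : Γ →* S} {ι' : Γ' →* S} [HFam.IsFreeOn ι] (h : HFam ι ι')
    {ρ : S →* (Module.End R V)ᵐᵒᵖ} (c : Z1 ι ρ) (γ' : Γ') (σ : Equiv.Perm h.J) (δ : h.J → Γ)
    (hs : ∀ i, h.α i * ι' γ' = ι (δ i) * h.α (σ i)) :
    (h.op ρ c).1 γ' = ∑ i, slash ρ (h.α (σ i)) (c.1 (δ i)) :=
  h.op_apply_of_eq c γ' σ δ hs

/-- **The operator on classes** `h.opH ρ : H1 ι ρ → H1 ι' ρ` is induced by `h.op ρ`; this uses that the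
coboundary of `v` is mapped to the coboundary of `∑ i, v|α_i` (`H70HeckeAbs`). -/
theorem hecke_operator_class {S R V Γ Γ' : Type*} [Monoid S] [CommRing R] [AddCommGroup V] [Module R V]
    [Group Γ] [Group Γ'] {ι : Γ →* S} {ι' : Γ' →* S} [HFam.IsFreeOn ι] (h : HFam ι ι')
    {ρ : S →* (Module.End R V)ᵐᵒᵖ} (c : Z1 ι ρ) (v : V) :
    h.opH ρ (H1.mk ι ρ c) = H1.mk ι' ρ (h.op ρ c) ∧
      h.op ρ (cob ι ρ v) = cob ι' ρ (∑ i, slash ρ (h.α i) v) :=
  ⟨h.opH_mk c, h.op_cob v⟩

/-- **Equivalent families have the same operator on `H¹`**: it is enough that the families agree after a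
bijection of the index sets and left multiplication by elements of `Γ` (`H70HeckeAbs`; the two operators
on cocycles differ by a coboundary). -/
theorem hecke_operator_congr {S R V Γ Γ' : Type*} [Monoid S] [CommRing R] [AddCommGroup V] [Module R V]
    [Group Γ] [Group Γ'] {ι : Γ →* S} {ι' : Γ' →* S} [HFam.IsFreeOn ι]
    {ρ : S →* (Module.End R V)ᵐᵒᵖ} (h₁ h₂ : HFam ι ι') (e : h₁.J ≃ h₂.J)
    (he : ∀ i, ∃ γ : Γ, h₁.α i = ι γ * h₂.α (e i)) : h₁.opH ρ = h₂.opH ρ :=
  HFam.opH_congr h₁ h₂ e he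

/-- **Composition**: the operator of the family of products `h₁.comp h₂` (all `α_i β_j`) is the
composition of the two operators, first `h₁`, then `h₂` (`H70HeckeAbs`). With `hecke_operator_congr`, a
relation between Hecke operators is a statement about finite families of matrices. -/
theorem hecke_operator_comp {S R V Γ Γ' Γ'' : Type*} [Monoid S] [CommRing R] [AddCommGroup V]
    [Module R V] [Group Γ] [Group Γ'] [Group Γ''] {ι : Γ →* S} {ι' : Γ' →* S} {ι'' : Γ'' →* S}
    [HFam.IsFreeOn ι] [HFam.IsFreeOn ι'] {ρ : S →* (Module.End R V)ᵐᵒᵖ} (h₁ : HFam ι ι')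
    (h₂ : HFam ι' ι'') (x : H1 ι ρ) : (h₁.comp h₂).opH ρ x = h₂.opH ρ (h₁.opH ρ x) :=
  HFam.opH_comp h₁ h₂ x

/-! ## 2. The group `Γ₀(M)`, characters of the upper left entry, and the operators `T_ℓ`, `U_q`, `V_d` -/

/-- **The Hecke semigroup** `DN N`: integral matrices `(a b; c d)` of positive determinant with
`N ∣ c` and `a` prime to `N`. It contains `Γ₀(M)` for all `M` divisible by `N` (homomorphism `gam`). -/
theorem mem_semigroup {N : ℕ} {α : Matrix (Fin 2) (Fin 2) ℤ} :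
    α ∈ DN N ↔ 0 < α.det ∧ (N : ℤ) ∣ α 1 0 ∧ IsCoprime (α 0 0) (N : ℤ) :=
  Iff.rfl

/-- **The action `psiRep ψ W`** of `DN N` on an `R`-module `W` attached to a character
`ψ : (ℤ/N)ˣ → Rˣ`: a matrix with upper left entry `a` acts as multiplication by `ψ(a mod N)`;
`aUnit N α` is the class of `a` in `(ℤ/N)ˣ` (`H70Psi`). Cocycles of `Γ₀(M)` are the functions with
`c(γδ) = ψ(a_δ) c(γ) + c(δ)`. -/
theorem slash_character {N : ℕ} {R : Type*} [CommRing R] (ψ : (ZMod N)ˣ →* Rˣ) {W : Type*}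
    [AddCommGroup W] [Module R W] (α : DN N) (w : W) :
    slash (psiRep ψ W) α w = ((ψ (aUnit N α) : Rˣ) : R) • w ∧
      ((aUnit N α : (ZMod N)ˣ) : ZMod N) = ((α.1 0 0 : ℤ) : ZMod N) :=
  ⟨slash_psiRep ψ α w, aUnit_val α⟩

/-- **The family `T_ℓ`** of a prime `ℓ ∤ M`: the `ℓ + 1` matrices `(ℓ 0; 0 1)` and `(1 j; 0 ℓ)`,
`0 ≤ j < ℓ`, indexed by the projective line `OnePoint (ZMod ℓ)` (`H70HeckeConc`; the permutation is the
action of `γ` modulo `ℓ` on the projective line). -/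
theorem T_matrices {N M ℓ : ℕ} (hNM : N ∣ M) (hℓ : ℓ.Prime) (hℓM : ¬ ℓ ∣ M) (j : ZMod ℓ) :
    ((tFam hNM hℓ hℓM).α (OnePoint.infty : OnePoint (ZMod ℓ))).1 = !![(ℓ : ℤ), 0; 0, 1] ∧
      ((tFam hNM hℓ hℓM).α (j : OnePoint (ZMod ℓ))).1 = !![1, (j.val : ℤ); 0, (ℓ : ℤ)] :=
  ⟨rfl, rfl⟩

/-- **The family `U_q`** for `q ∣ M`: the matrices `(1 j; 0 q)`, `0 ≤ j < q`; **the family `V_d`** from
level `M` to a level `M'` divisible by `M d`, for `d` prime to `N`: the single matrix `(d 0; 0 1)`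
(`H70HeckeConc`). For `d = 1` it is the restriction from `Γ₀(M)` to `Γ₀(M')`. -/
theorem U_V_matrices {N M M' q d : ℕ} (hNM : N ∣ M) (hq : 0 < q) (hqM : q ∣ M) (j : ZMod q)
    (hd : 0 < d) (hdN : d.Coprime N) (h : M * d ∣ M') :
    ((uFam hNM hq hqM).α j).1 = !![1, (j.val : ℤ); 0, (q : ℤ)] ∧
      ((vFam hNM hd hdN h).α ()).1 = !![(d : ℤ), 0; 0, 1] :=
  ⟨rfl, rfl⟩

/-- **Comparison of upper triangular families.** The families `T_ℓ`, `U_q`, `V_d` and their products
consist of matrices `(a_i b_i; 0 d_i)` with `a_i > 0` (this is `IsUT h a b d`). Two such families with the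
same number of elements have the same operator on `H¹` if every element of the first is, modulo
unipotent matrices, an element of the second, and the elements of the first are distinct modulo
unipotent matrices (`H70HeckeRel`). All relations between `T_ℓ`, `U_q`, `V_d` are proved in this way
(those with the traces of section 5 by comparison of double coset families, `H70DC`). -/
theorem operator_eq_of_triangular {N M : ℕ} {hM : N ∣ M} {R V : Type*} [CommRing R] [AddCommGroup V]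
    [Module R V] {ρ : DN N →* (Module.End R V)ᵐᵒᵖ} {Γ' : Type*} [Group Γ'] {ι' : Γ' →* DN N}
    {h₁ h₂ : HFam (gam N M hM) ι'} {a₁ b₁ d₁ : h₁.J → ℤ} {a₂ b₂ d₂ : h₂.J → ℤ}
    (H₁ : IsUT h₁ a₁ b₁ d₁) (H₂ : IsUT h₂ a₂ b₂ d₂) (hcard : Fintype.card h₁.J = Fintype.card h₂.J)
    (hex : ∀ i, ∃ j, a₁ i = a₂ j ∧ d₁ i = d₂ j ∧ d₂ j ∣ b₁ i - b₂ j)
    (hinj : ∀ i i', a₁ i = a₁ i' → d₁ i = d₁ i' → d₁ i' ∣ b₁ i - b₁ i' → i = i') :
    h₁.opH ρ = h₂.opH ρ :=
  opH_eq_of_isUT H₁ H₂ hcard hex hinj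

/-- **`T_ℓ` and `T_ℓ'` commute** on `H¹(Γ₀(M), V)`, for every coefficient module with an action of
`DN N` (`H70HeckeRel`). -/
theorem T_comm {N M : ℕ} {hM : N ∣ M} {R V : Type*} [CommRing R] [AddCommGroup V] [Module R V]
    {ρ : DN N →* (Module.End R V)ᵐᵒᵖ} {ℓ ℓ' : ℕ} (hℓ : ℓ.Prime) (hℓM : ¬ ℓ ∣ M) (hℓ' : ℓ'.Prime)
    (hℓM' : ¬ ℓ' ∣ M) :
    ((tFam hM hℓ hℓM).comp (tFam hM hℓ' hℓM')).opH ρ =
      ((tFam hM hℓ' hℓM').comp (tFam hM hℓ hℓM)).opH ρ :=
  tFam_comm hℓ hℓM hℓ' hℓM'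

/-- **`T_ℓ` commutes with `V_d`** from level `M` to level `M'`, for `ℓ ∤ M'` (`H70HeckeRel`). -/
theorem T_V_comm {N M M' : ℕ} {hM : N ∣ M} {R V : Type*} [CommRing R] [AddCommGroup V] [Module R V]
    {ρ : DN N →* (Module.End R V)ᵐᵒᵖ} {ℓ d : ℕ} (hℓ : ℓ.Prime) (hℓM' : ¬ ℓ ∣ M') (hd : 0 < d)
    (hdN : d.Coprime N) (h : M * d ∣ M') :
    ((tFam hM hℓ (fun h' => hℓM' (h'.trans ((Dvd.intro d rfl).trans h)))).comp
      (vFam hM hd hdN h)).opH ρ =
      ((vFam hM hd hdN h).comp (tFam (hM.trans ((Dvd.intro d rfl).trans h)) hℓ hℓM')).opH ρ :=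
  tFam_vFam_comm hℓ hℓM' hd hdN h

/-- **Trivial character**: `H¹(Γ₀(M), A) = Hom(Γ₀(M), A)` (the isomorphism `homH1`), and `T_ℓ` is the
operator `H4.heckeHom` of `GuideBridge`, the one which is compared with cusp forms of weight two by
Eichler-Shimura (`H70Comp`). -/
theorem hom_eq_cohomology {N M : ℕ} (hM : N ∣ M) {R : Type*} [CommRing R] {A : Type*} [AddCommGroup A]
    [Module R A] {ℓ : ℕ} [Fact ℓ.Prime] (hℓM : ¬ ℓ ∣ M) (φ : Additive (Gamma0 M) →+ A) :
    (tFam hM (Fact.out : ℓ.Prime) hℓM).opH (psiRep (1 : (ZMod N)ˣ →* Rˣ) A) (homH1 hM R A φ) =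
      homH1 hM R A (H4.heckeHom hℓM φ) :=
  homH1_heckeHom hM R hℓM φ

/-- **The auxiliary level does not matter.** If `ψ₁ : (ℤ/N₁)ˣ → Rˣ` factors through
`ψ₂ : (ℤ/N₂)ˣ → Rˣ`, `N₂ ∣ N₁ ∣ M`, the cohomology formed with `ψ₁` and `N₁` is isomorphic to the
one formed with `ψ₂` and `N₂` (the isomorphism `h1Lev`), compatibly with all Hecke families with the
same matrices (`H70Comp`). -/
theorem auxiliary_level {N₁ N₂ M M' : ℕ} (hN : N₂ ∣ N₁) (hM₁ : N₁ ∣ M) (hM₂ : N₂ ∣ M) {R : Type*}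
    [CommRing R] {ψ₁ : (ZMod N₁)ˣ →* Rˣ} {ψ₂ : (ZMod N₂)ˣ →* Rˣ}
    (hψ : ψ₁ = ψ₂.comp (ZMod.unitsMap hN)) (W : Type*) [AddCommGroup W] [Module R W]
    {hM₁' : N₁ ∣ M'} {hM₂' : N₂ ∣ M'} (h : HFam (gam N₁ M hM₁) (gam N₁ M' hM₁'))
    (h₂ : HFam (gam N₂ M hM₂) (gam N₂ M' hM₂')) (e : h.J ≃ h₂.J)
    (he : ∀ i, (h.α i).1 = (h₂.α (e i)).1) (x : H1 (gam N₁ M hM₁) (psiRep ψ₁ W)) :
    h₂.opH (psiRep ψ₂ W) (h1Lev hN hM₁ hM₂ hψ W x) =
      h1Lev hN hM₁' hM₂' hψ W (h.opH (psiRep ψ₁ W) x) :=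
  opH_h1Lev hN hM₁ hM₂ hψ W h h₂ e he x

/-! ## 3. The modular group and the lifting of cocycles -/

/-- **`PSL₂(ℤ)` is the free product of `ℤ/2` and `ℤ/3`**: for elements `s`, `u` of a group `K` with
`s² = 1`, `u³ = 1` there is a homomorphism `SL(2, ℤ) → K` with `S ↦ s`, `S T ↦ u`. Proof (`H70Pres`):
ping-pong on the upper half plane (Mathlib's criterion for free products): `S` maps `Re z < 0` into
`Re z > 0`, and `S T`, `(S T)²` map `Re z > 0` into `Re z < 0`; moreover `S` and `T` generate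
`SL(2, ℤ)`, `S² = (S T)³ = -1` and `-1` acts trivially. (The same statement with ping-pong on `P¹(ℚ)`:
`GuideSymbolDuality`.) -/
theorem modular_group_universal {K : Type*} [Group K] (s u : K) (hs : s ^ 2 = 1) (hu : u ^ 3 = 1) :
    ∃ φ : SL(2, ℤ) →* K, φ S = s ∧ φ (S * T) = u :=
  exists_hom_of_relations s u hs hu

/-- **Cocycles of `SL(2, ℤ)` with given values `x` on `S` and `y` on `S T`** exist if `-1` acts
trivially and the two norm relations `x + S x = 0`, `y + (ST) y + (ST)² y = 0` hold (left actions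
here). It is `modular_group_universal` for the semidirect product (`H70Pres`). -/
theorem cocycle_of_relations {W : Type*} [AddCommGroup W] [DistribMulAction SL(2, ℤ) W]
    (hneg : ∀ w : W, (-1 : SL(2, ℤ)) • w = w) (x y : W) (hx : x + (S : SL(2, ℤ)) • x = 0)
    (hy : y + (S * T : SL(2, ℤ)) • y + (S * T * (S * T) : SL(2, ℤ)) • y = 0) :
    ∃ c : SL(2, ℤ) → W, (∀ g h, c (g * h) = c g + g • c h) ∧ c S = x ∧ c (S * T) = y :=
  exists_cocycle_of_relations hneg x y hx hy

/-- **Orbit weights**, the substitute for dividing by `2` and `3`. An `OrbitWeight R Γ` consists of two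
left `Γ`-invariant functions `χ₂, χ₃ : SL(2, ℤ) → R` such that the sum of `χ₂` over `{g, g S}` and the
sum of `χ₃` over `{g, g (ST), g (ST)²}` are `1`. It exists if `2` is invertible in `R` and no conjugate
of `S T` is in `Γ`, that is, `Γ` has no elements of order three modulo `±1` (`H70Lift`). -/
theorem orbit_weight_of_noThree {R : Type*} [CommRing R] {Γ : Subgroup SL(2, ℤ)}
    (hΓ : (-1 : SL(2, ℤ)) ∈ Γ) (h2 : IsUnit (2 : R)) (h3 : ∀ g : SL(2, ℤ), g * (S * T) * g⁻¹ ∉ Γ) :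
    ∃ χ₂ χ₃ : SL(2, ℤ) → R, (∀ (γ : Γ) g, χ₂ (γ * g) = χ₂ g ∧ χ₃ (γ * g) = χ₃ g) ∧
      (∀ g, χ₂ g + χ₂ (g * S) = 1) ∧
      ∀ g, χ₃ g + χ₃ (g * (S * T)) + χ₃ (g * (S * T * (S * T))) = 1 :=
  (nonempty_orbitWeight_of_noThree hΓ h2 h3).elim fun w =>
    ⟨w.χ₂, w.χ₃, fun γ g => ⟨w.inv₂ γ g, w.inv₃ γ g⟩, w.sum₂, w.sum₃⟩

/-- **Lifting of cocycles (`H²(Γ, -) = 0`)** for a subgroup `Γ` of `SL(2, ℤ)` containing `-1` and with
orbit weights. Let `π : V → V'` be a surjection of `R[Γ]`-modules and let `-1` act trivially on `V`. Then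
every cocycle `c'` of `Γ` with values in `V'` and `c'(-1) = 0` lifts to a cocycle with values in `V`.
Proof (`H70Lift`): by coinduction (Shapiro) one passes to `SL(2, ℤ)` and the module of functions
`w : SL(2, ℤ) → V` with `w(γ g) = γ w(g)`; there arbitrary lifts of the values on `S` and `S T` are
corrected by multiples `χ₂ (1 + S)`, `χ₃ (1 + ST + (ST)²)` such that the two norm relations of
`cocycle_of_relations` hold. -/
theorem lift_cocycle {R : Type*} [CommRing R] {Γ : Subgroup SL(2, ℤ)} (hΓ : (-1 : SL(2, ℤ)) ∈ Γ)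
    (χ : OrbitWeight R Γ) {V V' : Type*} [AddCommGroup V] [Module R V] [AddCommGroup V'] [Module R V']
    (ρ : Representation R Γ V) (ρ' : Representation R Γ V') (π : V →ₗ[R] V')
    (hπ : ∀ γ v, π (ρ γ v) = ρ' γ (π v)) (hs : Function.Surjective π)
    (hneg : ∀ v, ρ ⟨-1, hΓ⟩ v = v) (c' : Γ → V') (hc' : ∀ γ δ, c' (γ * δ) = c' γ + ρ' γ (c' δ))
    (hc'1 : c' ⟨-1, hΓ⟩ = 0) :
    ∃ c : Γ → V, (∀ γ δ, c (γ * δ) = c γ + ρ γ (c δ)) ∧ ∀ γ, π (c γ) = c' γ :=
  exists_lift_cocycle_of_weight hΓ χ ρ ρ' π hπ hs hneg c' hc' hc'1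

/-- **The hypothesis `Good M R`** of all later results: `2` is invertible in `R` and `Γ₀(M)` has orbit
weights with values in `R`. It holds if `6` is invertible, and if `2` is invertible and `x² - x + 1` has
no zero modulo some divisor `r` of `M` (`H70Free`; an element of order three modulo `±1` in `Γ₀(M)` would
give the zero). For `p = 3` the levels of the lifting theorems contain an auxiliary prime congruent
to `2` modulo `3`, which is such an `r` (`H10NE`). -/
theorem good_of {M : ℕ} {R : Type*} [CommRing R] (h2 : IsUnit (2 : R))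
    (h : IsUnit (3 : R) ∨ ∃ r, r ∣ M ∧ ∀ x : ZMod r, x ^ 2 - x + 1 ≠ 0) : Good M R :=
  h.elim (good_of_six M h2) fun ⟨_, hr, hx⟩ => good_of_noThree hr h2 hx

/-! ## 4. Projectivity -/

/-- **Cocycles with values in `R_ψ` form a finitely generated projective `R`-module** (`Good M R`,
`ψ(-1) = 1`). Proof (`H70Free`, `H70Psi`): as `2` is invertible every cocycle vanishes at `-1`, so by
`lift_cocycle` the functor `W ↦ Z¹(Γ₀(M), W_ψ)` is exact; it is `Hom_R(U, W)` for a universal finitely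
generated module `U`, so `U` is projective, and `Z¹(Γ₀(M), R_ψ)` is its dual. -/
theorem cocycles_projective {N M : ℕ} (hM : N ∣ M) {R : Type*} [CommRing R] (ψ : (ZMod N)ˣ →* Rˣ)
    (hg : Good M R) (hψ : ψ (-1) = 1) [NeZero M] :
    Module.Finite R (Z1 (gam N M hM) (psiRep ψ R)) ∧
      Module.Projective R (Z1 (gam N M hM) (psiRep ψ R)) :=
  z1_projective hM ψ hg hψ

/-- **`T_ℓ` acts on coboundaries by the Eisenstein eigenvalue** `eis = ψ(ℓ) + ℓ` (the sum of the values
of `ψ` at the upper left entries of the matrices of `T_ℓ`; `H70Free`). -/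
theorem T_coboundary {N M : ℕ} (hM : N ∣ M) {R : Type*} [CommRing R] (ψ : (ZMod N)ˣ →* Rˣ) {W : Type*}
    [AddCommGroup W] [Module R W] {ℓ : ℕ} (hℓ : ℓ.Prime) (hℓM : ¬ ℓ ∣ M) (w : W) :
    (tFam hM hℓ hℓM).op (psiRep ψ W) (cob (gam N M hM) (psiRep ψ W) w) =
      (((ψ (ZMod.unitOfCoprime ℓ (coprime_of_not_dvd hℓ hℓM hM)) : Rˣ) : R) + ℓ) •
        cob (gam N M hM) (psiRep ψ W) w :=
  op_tFam_cob hM ψ hℓ hℓM w

/-- **Non-Eisenstein direct summands of `H¹(Γ₀(M), R_ψ)` are projective**, over every ring `R` (with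
`Good M R` and `ψ(-1) = 1`; no noetherian or flatness hypothesis, so that it applies to `O[Δ]`, `O`, the
residue field and all extensions `O'` at once): let `X` be a direct summand (`p ∘ i = id`) on which
`T_ℓ - (ψ(ℓ) + ℓ)` (this is `etaH`) acts bijectively, as `e`. Proof (`H70Free`): by `T_coboundary` the
operator `T_ℓ - (ψ(ℓ) + ℓ)` on cocycles kills coboundaries, so it factors through a map `H¹ → Z¹` which
makes `X` a direct summand of the projective module `Z¹`. This is the reason for the freeness of the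
modules of Taylor-Wiles levels over `O[Δ]`. -/
theorem summand_projective {N M : ℕ} (hM : N ∣ M) {R : Type*} [CommRing R] (ψ : (ZMod N)ˣ →* Rˣ)
    (hg : Good M R) (hψ : ψ (-1) = 1) [NeZero M] {ℓ : ℕ} (hℓ : ℓ.Prime) (hℓM : ¬ ℓ ∣ M)
    {X : Type*} [AddCommGroup X] [Module R X] (i : X →ₗ[R] H1 (gam N M hM) (psiRep ψ R))
    (p : H1 (gam N M hM) (psiRep ψ R) →ₗ[R] X) (hpi : p ∘ₗ i = LinearMap.id) (e : X ≃ₗ[R] X)
    (he : ∀ x, i (e x) = etaH hM ψ hℓ hℓM R (i x)) : Module.Projective R X ∧ Module.Finite R X :=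
  h1_summand_projective hM ψ hg hψ hℓ hℓM i p hpi e he

/-! ## 5. Traces and degeneracy maps -/

/-- **Trace after restriction is `q + 1`**, the index of `Γ₀(M q)` in `Γ₀(M)`, for a prime `q ∤ M`
(`H70Trace`; `resFam = V_1` and `trFam` is the family of the double coset of `1` from `Γ₀(M q)` to
`Γ₀(M)`). -/
theorem trace_restriction {N M q : ℕ} (hM : N ∣ M) {R V : Type*} [CommRing R] [AddCommGroup V]
    [Module R V] {ρ : DN N →* (Module.End R V)ᵐᵒᵖ} [NeZero M] [NeZero q] (hq : q.Prime)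
    (hqM : ¬ q ∣ M) (x : H1 (gam N M hM) ρ) :
    (trFam hM).opH ρ ((resFam (q := q) hM).opH ρ x) = (q + 1) • x :=
  tr_res hM ρ hq hqM x

/-- **Trace after the degeneracy map `V_q` is `T_q`** (`H70Trace`). -/
theorem trace_degeneracy {N M q : ℕ} (hM : N ∣ M) (hq : q.Prime) (hqM : ¬ q ∣ M) {R V : Type*}
    [CommRing R] [AddCommGroup V] [Module R V] {ρ : DN N →* (Module.End R V)ᵐᵒᵖ} [NeZero M] [NeZero q]
    (hqN : q.Coprime N) (x : H1 (gam N M hM) ρ) :
    (trFam hM).opH ρ ((degFam hM hq hqN).opH ρ x) = (tFam hM hq hqM).opH ρ x :=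
  tr_deg hM hq hqM ρ hqN x

/-- **The adjoint `ν` of `V_q` after restriction is `T_q`**; `nuFam` is the family of the double coset of
`(1 0; 0 q)` from `Γ₀(M q)` to `Γ₀(M)` (`H70Trace`). On classes of modular symbols `ν` is the trace after
the Atkin-Lehner matrix at `q` (`GuideSymbolDuality`). -/
theorem adjoint_restriction {N M q : ℕ} (hM : N ∣ M) (hq : q.Prime) (hqM : ¬ q ∣ M) {R V : Type*}
    [CommRing R] [AddCommGroup V] [Module R V] {ρ : DN N →* (Module.End R V)ᵐᵒᵖ} [NeZero q]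
    (x : H1 (gam N M hM) ρ) :
    (nuFam hM hq).opH ρ ((resFam (q := q) hM).opH ρ x) = (tFam hM hq hqM).opH ρ x :=
  nu_res hM hq hqM ρ x

/-- **The adjoint `ν` after `V_q` is `(q + 1) ⟨q⟩`**, where `⟨q⟩` is the action of the scalar matrix `q`
on the values of a cocycle (`H70Trace`). The four theorems of this section give the matrix
`(q + 1, T_q; T_q, (q + 1) ⟨q⟩)`; a class at level `M q` with both traces zero is `q`-new. -/
theorem adjoint_degeneracy {N M q : ℕ} (hM : N ∣ M) (hq : q.Prime) {R V : Type*} [CommRing R]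
    [AddCommGroup V] [Module R V] {ρ : DN N →* (Module.End R V)ᵐᵒᵖ} [NeZero q] (hqM : ¬ q ∣ M)
    (hqN : q.Coprime N) (c d : Z1 (gam N M hM) ρ)
    (hd : ∀ γ, d.1 γ = slash ρ (scal N q hq.pos hqN) (c.1 γ)) :
    (nuFam hM hq).opH ρ ((degFam hM hq hqN).opH ρ (H1.mk (gam N M hM) ρ c)) =
      (q + 1) • H1.mk (gam N M hM) ρ d :=
  nu_deg hM hq ρ hqM hqN c d hd

/-! ## 6. Change of rings -/

/-- **Base change**: for every `R`-algebra `R'` the natural map from `R' ⊗ H¹(Γ₀(M), R_ψ)` to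
`H¹(Γ₀(M), R'_ψ)` is bijective (`Good M R`, `ψ(-1) = 1`). Proof (`H70Base`): first for cocycles, by the
universal module of `cocycles_projective`. `psiMap f ψ` is the composition of `ψ` with `f`. -/
theorem base_change {N M : ℕ} (hM : N ∣ M) {R : Type*} [CommRing R] (ψ : (ZMod N)ˣ →* Rˣ)
    {R' : Type*} [CommRing R'] [Algebra R R'] (hg : Good M R) (hψ : ψ (-1) = 1) [NeZero M] :
    Function.Bijective (h1BC hM ψ R') ∧
      ∀ (r : R') (x : H1 (gam N M hM) (psiRep ψ R)),
        h1BC hM ψ R' (r ⊗ₜ[R] x) = r • h1S hM ψ (algebraMap R R') x :=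
  ⟨h1BC_bijective hM ψ hg hψ, fun _ _ => h1BC_tmul hM ψ R' _ _⟩

/-- **Quotients**: for a surjective `f : R → R'` the map `h1S` from `H¹(Γ₀(M), R_ψ)` to
`H¹(Γ₀(M), R'_ψ)` is surjective with kernel `(ker f) H¹(Γ₀(M), R_ψ)` (`H70Base`). Two
characters which are congruent modulo `ker f` therefore have the same cohomology modulo `ker f`. -/
theorem quotient {N M : ℕ} (hM : N ∣ M) {R R' : Type*} [CommRing R] [CommRing R']
    (ψ : (ZMod N)ˣ →* Rˣ) (hg : Good M R) (hψ : ψ (-1) = 1) (f : R →+* R')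
    (hf : Function.Surjective f) [NeZero M] :
    Function.Surjective (h1S hM ψ f) ∧ ∀ x : H1 (gam N M hM) (psiRep ψ R), h1S hM ψ f x = 0 ↔
      x ∈ (RingHom.ker f • ⊤ : Submodule R (H1 (gam N M hM) (psiRep ψ R))) :=
  ⟨h1S_surjective hM ψ hg hψ f hf, h1S_eq_zero_iff hM ψ hg hψ f hf⟩

/-- **The change of rings commutes with all Hecke families** (`H70Base`). -/
theorem hecke_change_of_rings {N M M' : ℕ} (hM : N ∣ M) {hM' : N ∣ M'} {R R' : Type*} [CommRing R]
    [CommRing R'] (ψ : (ZMod N)ˣ →* Rˣ) (h : HFam (gam N M hM) (gam N M' hM')) (f : R →+* R')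
    (x : H1 (gam N M hM) (psiRep ψ R)) :
    h.opH (psiRep (psiMap f ψ) R') (h1S hM ψ f x) = h1S hM' ψ f (h.opH (psiRep ψ R) x) :=
  opH_h1S hM ψ h f x

end Fermat.Agent.Guide.Cohomology
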