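import Fermat.Agent.H42Inputs

/-!
# Reader's guide: the relation of Eichler and Shimura, step by step (S37; companion file)

This file contains no new mathematics. Every theorem below is proved by citing a theorem of the
library; the statements are written out. It is a companion of `GuideHecke`, sections 2 and 3: it
shows the steps between `norm_qExpansion`, `norm_reduction`, `hom_eq_zero_of_bounded`,
`congruence_on_divisors`, `reduction_galois` and `specialization_of_core` there. No statement of
`GuideHecke` is repeated.

## The argument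

`F_N` is the function field of `X₀(N)` over a field `L` of characteristic zero, a subfield of the
Laurent series `L((q))`; `l` is a prime, `α, β : F_N → F_{Nl}` are the two degeneracy maps,
`α(x) = x` and `β(x) = x(q^l)`. `A` is a valuation ring of `L`, `π : A → k` a homomorphism to a field of
characteristic `l`. The function field of `X₀(N)` over `k` is a subfield of `k((q))`, and functions
with coefficients in `A` are reduced coefficient by coefficient.

1. *Norm.* The Hecke operator on divisors is `T_l = α_* β^*`, so `T_l (div f)` is the divisor of the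
   norm `z` of `f(q^l)` from `F_{Nl}` to `F_N` (section 3).
2. *Embeddings.* An involution `w` of `F_{Nl}` which exchanges `α` and `β`, and the rotations
   `q ↦ ζ^i q`, `ζ^l = 1`, give `l + 1` different embeddings of `F_{Nl}` in `L((q))` with the same
   restriction `x ↦ x(q^l)` to `F_N`; as the degree is at most `l + 1`, the norm is the product of
   the conjugates: `z(q^l) = f(q^{l²}) ∏_{i < l} f(ζ^i q)` (section 2).
3. *Reduction.* The residue of `ζ` is `1`. So the reduction of `z(q^l)` is `g(q^{l²}) g(q)^l`, `g` the
   reduction of `f`, and `g^l = g^φ(q^l)` (section 1), where `g^φ` has the `l`-th powers of the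
   coefficients. Hence the reduction of `z` is `g(q^l) g^φ`. Let `t` be the automorphism `g ↦ g^φ` of the
   function field over `k` (section 5). Then `g(q^l) = (t⁻¹ g)^l`, and the divisor of the reduction of
   `z` is `t D + l t⁻¹ D`, where `D = div g` (section 6).
4. *All divisors.* Both sides are additive in the divisor and bounded on points, uniformly;
   therefore they agree on all divisors of degree zero (section 4), so on `J₀(N)`.
5. *S37.* The Galois group of the place acts on reductions through the coefficients (section 5), so a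
   Frobenius element acts as `t`, inertia acts trivially, and `t² - t T_l + l = 0` on the image of the
   reduction (section 7). S37 asks for this relation on a Hecke module: section 8.

Hecke correspondences in characteristic `l`, moduli of elliptic curves, and Néron models are not
used. The reduction of divisors is in `GuideFunctionField` (`exists_reduction`) and `GuideReduction`;
Frobenius elements exist by `GuideAbsGal`.

Every library theorem cited here is in the closure of S01 and, except for three small facts (the
rotation of a monomial, the action of `coeffAut` on a function, the norm does not vanish), in that of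
S37. Files: `H60Series`, `H60Norm`, `H60Trick`, `H60Galois`, `H60Hecke`, `H60Pic`, `H60S37`
(helper60), `H37Glue` (helper37), `H42HeckeData`, `H42Inputs` (helper42). NOTES: [202], [175].
-/

set_option autoImplicit false

namespace Fermat.Agent.Guide.CongruenceRelation

open AlgebraicCurve ModularCurve IntermediateField HahnSeries

-- instance priorities (they only make the file faster)
attribute [-instance] IsLocalRing.ResidueField.algebra
attribute [local instance 5000] SubalgebraClass.toAlgebra

/-- The algebraic closure of the rational numbers. -/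
local notation "Qb" => AlgebraicClosure ℚ

/-! ## 1. Calculus with `q`-expansions

`qExpand R p` is the substitution `q ↦ q^p`, `coeffMap f` applies the ring homomorphism `f` to all
coefficients. -/

section Series

variable {R S : Type*} [CommRing R] [CommRing S]

/-- **The rotation** `q ↦ u q` (`H60.twist u`, `u` a unit) is a ring homomorphism which multiplies the
coefficient of `q^n` by `u^n`. (`H60Series`.) -/
theorem rotation (u : Rˣ) (x : LaurentSeries R) :
    (∀ n : ℤ, (H60.twist u x).coeff n = ((u ^ n : Rˣ) : R) * x.coeff n) ∧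
    H60.twist (1 : Rˣ) x = x ∧
    ∀ (n : ℤ) (a : R), H60.twist u (HahnSeries.single n a) =
      HahnSeries.single n (((u ^ n : Rˣ) : R) * a) :=
  ⟨H60.twist_coeff u x, H60.twist_one x, H60.twist_single u⟩

/-- **Rotation after substitution**: the rotation by `u` of `x(q^p)` is the value at `q^p` of the rotation
by `u^p` of `x`. So a `p`-th root of unity does not change a series in `q^p`. (`H60Series`.) -/
theorem rotation_substitution (u : Rˣ) (p : ℕ) [NeZero p] (x : LaurentSeries R) :
    H60.twist u (qExpand R p x) = qExpand R p (H60.twist (u ^ p) x) ∧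
    (u ^ p = 1 → H60.twist u (qExpand R p x) = qExpand R p x) :=
  ⟨H60.twist_qExpand u p x, fun h => H60.twist_qExpand_of_pow_eq_one h x⟩

/-- **The product** `N_ζ(y) = y(q^{p²}) ∏_{i < p} y(ζ^i q)` (`H60.normSeries`). Change of coefficients is
compatible with the substitution, the rotations and `N_ζ`: this is used for `A → L` and `A → k`.
(`H60Series`.) -/
theorem product_series (f : R →+* S) (p : ℕ) [NeZero p] (ζ : Rˣ) (y : LaurentSeries R) :
    H60.normSeries p ζ y =
      qExpand R p (qExpand R p y) * ∏ i ∈ Finset.range p, H60.twist (ζ ^ i) y ∧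
    coeffMap f (qExpand R p y) = qExpand S p (coeffMap f y) ∧
    coeffMap f (H60.twist ζ y) = H60.twist (Units.map (f : R →* S) ζ) (coeffMap f y) ∧
    coeffMap f (H60.normSeries p ζ y) =
      H60.normSeries p (Units.map (f : R →* S) ζ) (coeffMap f y) :=
  ⟨rfl, H60.coeffMap_qExpand_H60 f p y, H60.coeffMap_twist f ζ y, H60.coeffMap_normSeries f p ζ y⟩

/-- **Power series**: there the substitution is the operation `PowerSeries.expand` of Mathlib, for which
`P^p = P^φ(q^p)` in characteristic `p` is known. (`H60Series`; used for `GuideHecke.pow_char`.) -/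
theorem power_series (p : ℕ) [NeZero p] (P : PowerSeries R) :
    qExpand R p (HahnSeries.ofPowerSeries ℤ R P) =
      HahnSeries.ofPowerSeries ℤ R (PowerSeries.expand p (NeZero.ne p) P) :=
  H60.qExpand_ofPowerSeries p P

/-- **Integral series**: a Laurent series over `L` with all coefficients in the valuation ring `A` comes
from exactly one Laurent series over `A`. (`H60Hecke`.) -/
theorem integral_series {L : Type*} [Field L] (A : ValuationSubring L) :
    (∀ x : LaurentSeries L, (∀ n, x.coeff n ∈ A) → ∃ y : LaurentSeries A,
      coeffMap A.subtype y = x) ∧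
    Function.Injective (coeffMap A.subtype : LaurentSeries A → LaurentSeries L) :=
  ⟨H60.exists_coeffMap_subtype_eq A, H60.coeffMap_injective Subtype.val_injective⟩

end Series

/-! ## 2. The `l + 1` embeddings -/

section Embeddings

variable {L : Type*} [Field L] [Algebra ℚ L] {N l : ℕ} [NeZero N] [NeZero l]

/-- **Swap embeddings** (`H60.IsSwap w`): embeddings `w` of `F_{Nl}` in `L((q))` which exchange the two
expansions, `w(α x) = x(q^l)` and `w(β x) = x`. (`H60Norm`.) -/
theorem isSwap_iff (w : laurentBaseChange L (modularFunctionFieldFull (N * l)) →+*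
      LaurentSeries L) :
    H60.IsSwap w ↔
      (∀ x : laurentBaseChange L (modularFunctionFieldFull N),
        w (heckeAlphaBar L N l x) = qExpand L l (x : LaurentSeries L)) ∧
      ∀ x : laurentBaseChange L (modularFunctionFieldFull N),
        w (heckeBetaBar L N l x) = (x : LaurentSeries L) :=
  ⟨fun h => ⟨h.alpha, h.beta⟩, fun h => ⟨h.1, h.2⟩⟩

/-- An endomorphism `W` of `F_{Nl}` with `W α = β` and `W β = α`, for instance the Atkin-Lehner
involution, defines a swap embedding. (`H60Norm`.) -/
theorem isSwap_of_involution (W : laurentBaseChange L (modularFunctionFieldFull (N * l)) →+*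
      laurentBaseChange L (modularFunctionFieldFull (N * l)))
    (hα : ∀ x, W (heckeAlphaBar L N l x) = heckeBetaBar L N l x)
    (hβ : ∀ x, W (heckeBetaBar L N l x) = heckeAlphaBar L N l x) :
    H60.IsSwap ((algebraMap (laurentBaseChange L (modularFunctionFieldFull (N * l)))
      (LaurentSeries L)).comp W) :=
  H60.IsSwap.of_algHom W hα hβ

omit [NeZero N] in
/-- **The family of embeddings** of `F_{Nl}` (`H60.heckeEmb w ζ`, indexed by `∞` and `0, ..., l - 1`): the
first one is `x ↦ x(q^l)`, the others are the rotations by `ζ^i` of `w`. (`H60Norm`.) -/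
theorem embeddings (w : laurentBaseChange L (modularFunctionFieldFull (N * l)) →+*
      LaurentSeries L) (ζ : Lˣ) (x : laurentBaseChange L (modularFunctionFieldFull (N * l))) :
    H60.heckeEmb w ζ none x = qExpand L l (x : LaurentSeries L) ∧
    ∀ i : Fin l, H60.heckeEmb w ζ (some i) x = H60.twist (ζ ^ (i : ℕ)) (w x) :=
  ⟨H60.heckeEmb_none w ζ x, fun i => H60.heckeEmb_some w ζ i x⟩

/-- **They agree on `F_N`**: all of them map `α(x)` to `x(q^l)`, because `ζ^i` is an `l`-th root of unity.
(`H60Norm`.) -/
theorem embeddings_agree {w : laurentBaseChange L (modularFunctionFieldFull (N * l)) →+*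
      LaurentSeries L} (hw : H60.IsSwap w) {ζ : Lˣ} (hζ : ζ ^ l = 1) (o : Option (Fin l))
    (x : laurentBaseChange L (modularFunctionFieldFull N)) :
    H60.heckeEmb w ζ o (heckeAlphaBar L N l x) = qExpand L l (x : LaurentSeries L) :=
  H60.heckeEmb_alpha hw hζ o x

/-- **They are different.** Look at the coefficient of `q^{-1}` of the image of `β(j)`: it is `0` for the
first embedding (the image is `j(q^{l²})`) and `ζ^{-i}` for the others. So, if the degree is at most
`l + 1` and `z ∈ F_N` is the norm of `β(x)`, `norm_eq_prod` of `GuideHecke` gives `z(q^l) = N_ζ(x)`;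
this is `norm_qExpansion` there. (`H60Norm`.) -/
theorem embeddings_different {w : laurentBaseChange L (modularFunctionFieldFull (N * l)) →+*
      LaurentSeries L} (hw : H60.IsSwap w) (hl : 1 < l) {ζ : Lˣ} (hζ : IsPrimitiveRoot ζ l) :
    Function.Injective (H60.heckeEmb w ζ) :=
  H60.heckeEmb_injective hw hl hζ

end Embeddings

/-! ## 3. Correspondences and norms

`φ, ψ : F → F'` are two homomorphisms of function fields over `K` (two coverings of a curve by another
one); the correspondence `ψ_* φ^*` is pull-back by the first and push-forward by the second covering.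
For `T_l`: `φ = β`, `ψ = α`. -/

section Correspondences

variable {K F F' : Type*} [Field K] [Field F] [Field F'] [Algebra K F] [Algebra K F']
variable [HasPrincipalDivisors K F']

/-- **The norm along `ψ`** is the norm for the field extension given by `ψ`; it does not vanish at
`z ≠ 0`. (`H60Norm`, `H60Hecke`.) -/
theorem norm_along (ψ : F →ₐ[K] F') (z : F') :
    (letI := algebraAlong ψ; H60.normAlong ψ z = Algebra.norm F z) ∧
    (FiniteAlong K ψ → z ≠ 0 → H60.normAlong ψ z ≠ 0) :=
  ⟨rfl, fun h hz => H60.normAlong_ne_zero ψ h hz⟩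

/-- **Divisor of the norm.** The correspondence `ψ_* φ^*` maps the divisor of `f` to the divisor of the
norm along `ψ` of `φ(f)` (`NormFormulaAlong`: the push-forward of a principal divisor is the divisor
of the norm, `norm_formula` in `GuideHecke`). (`H60Hecke`.) -/
theorem divisor_of_norm (φ ψ : F →ₐ[K] F') (hφ : φ.toRingHom.IsIntegral)
    (hψ : ψ.toRingHom.IsIntegral) (hfin : FiniteAlong K ψ) (hN : NormFormulaAlong K ψ hfin)
    {f : F} (hf : f ≠ 0) {D : Divisor K F} (hD : ∀ v, D v = v.ord f) (v : Place K F) :
    Divisor.correspondence φ ψ hφ hψ D v = v.ord (H60.normAlong ψ (φ f)) :=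
  H60.correspondence_apply_eq_ord φ ψ hφ hψ hfin hN hf hD v

/-- **Effective divisors** have effective push-forwards and effective images under correspondences.
(`H60Hecke`.) -/
theorem effective (φ ψ : F →ₐ[K] F') (hφ : φ.toRingHom.IsIntegral) (hψ : ψ.toRingHom.IsIntegral) :
    (∀ E : Divisor K F', (∀ w, 0 ≤ E w) → ∀ v, 0 ≤ Divisor.pushforwardAlong ψ hψ E v) ∧
    ∀ E : Divisor K F, (∀ w, 0 ≤ E w) → ∀ v, 0 ≤ Divisor.correspondence φ ψ hφ hψ E v :=
  ⟨fun _ h v => H60.pushforwardAlong_nonneg ψ hψ h v,
    fun _ h v => H60.correspondence_nonneg φ ψ hφ hψ h v⟩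

end Correspondences

/-! ## 4. Bounded homomorphisms on divisors -/

section Bounded

variable {K F : Type*} [Field K] [Field F] [Algebra K F]

/-- **Riemann's inequality in the form needed** (`H60.RiemannBound`): on a function field in one variable
over an algebraically closed field all divisors of degree at least `c` are linearly equivalent to
effective divisors (`c = g`). (`H42Inputs`.) -/
theorem riemann_bound (K F : Type*) [Field K] [Field F] [Algebra K F] [IsAlgClosed K]
    [H94.FunField K F] :
    ∃ c : ℤ, ∀ D : Divisor K F, c ≤ Divisor.degree D →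
      ∃ f : F, f ≠ 0 ∧ ∀ v : Place K F, 0 ≤ D v + v.ord f :=
  H42.riemannBound K F

/-- If all places have degree one, the degree is the sum of the coefficients, and a homomorphism
`δ` from the divisors to `ℤ[X]` is `∑ D(P) δ(P)`. (`H60Trick`.) -/
theorem degree_and_values (hdeg : ∀ v : Place K F, v.deg = 1) {X : Type*}
    (δ : Divisor K F →+ (X →₀ ℤ)) (D : Divisor K F) :
    (Divisor.degree D = D.sum fun _ n => n) ∧
    δ D = D.sum fun v n => n • δ (Finsupp.single v 1) :=
  ⟨H60.degree_eq_sum hdeg D, H60.hom_eq_sum δ D⟩

/-- **The bound on effective divisors.** If the coefficients of `δ(P)` are at most `C` in absolute value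
for all points `P`, those of `δ(E)` are at most `deg(E) · C` for every effective divisor `E`. If `δ`
vanishes on principal divisors, apply this, for points `P`, `Q` and `n ∈ ℕ`, to an effective divisor
in the class of `n P - n Q + c Q`, which has degree `c`: `n (δ P - δ Q)` is bounded, so `δ P = δ Q`
(`hom_eq_zero_of_bounded` in `GuideHecke`). (`H60Trick`.) -/
theorem bound_on_effective (hdeg : ∀ v : Place K F, v.deg = 1) {X : Type*}
    (δ : Divisor K F →+ (X →₀ ℤ)) {C : ℤ}
    (hC : ∀ (P : Place K F) (x : X), |δ (Finsupp.single P 1) x| ≤ C)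
    (E : Divisor K F) (hE : ∀ v, 0 ≤ E v) (x : X) : |δ E x| ≤ Divisor.degree E * C :=
  H60.abs_hom_le hdeg δ hC E hE x

/-- **Reduction of effective divisors.** For a map `r` from places to places the multiplicity of a point
`Q` in `r_* E`, `E ≥ 0`, is between `0` and `deg E`; so the coefficients of `r_* (T_l P)` are at most
the degree of `T_l`. (`H60Galois`.) -/
theorem mapDomain_bound {K' F' : Type*} [Field K'] [Field F'] [Algebra K' F']
    (hdeg : ∀ v : Place K F, v.deg = 1) (r : Place K F → Place K' F') (E : Divisor K F)
    (hE : ∀ v, 0 ≤ E v) (Q : Place K' F') :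
    0 ≤ Finsupp.mapDomain r E Q ∧ Finsupp.mapDomain r E Q ≤ Divisor.degree E :=
  H60.mapDomain_apply_le_degree hdeg r E hE Q

end Bounded

/-! ## 5. Galois action on reductions

`modularFunctionFieldFullC k N` is the function field of `X₀(N)` over `k`, generated over `k` by the
series `j(q^d)`, `d ∣ N`, in `k((q))`. -/

section Galois

variable {k : Type*} [Field k] {N : ℕ}

/-- **Automorphisms of the coefficients.** The `j(q^d)` have coefficients in the prime field; so an
automorphism `τ` of `k`, applied to the coefficients, maps the function field to itself. This is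
`H60.coeffAut N τ`, an element of the group of semilinear automorphisms, which acts on functions,
places and divisors. (`H60Galois`.) -/
theorem coefficient_automorphism (τ : k ≃+* k) :
    (∀ x : LaurentSeries k, x ∈ modularFunctionFieldFullC k N →
      coeffMap (τ : k →+* k) x ∈ modularFunctionFieldFullC k N) ∧
    (∀ x : modularFunctionFieldFullC k N,
      ((H60.coeffAut N τ • x : modularFunctionFieldFullC k N) : LaurentSeries k) =
        coeffMap (τ : k →+* k) (x : LaurentSeries k)) ∧
    H60.coeffAut (k := k) N (RingEquiv.refl k) = 1 :=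
  ⟨fun _ hx => H60.coeffMap_mem_fullC _ hx, H60.coe_coeffAut_smul τ, H60.coeffAut_refl⟩

variable {L : Type*} [Field L] [Algebra ℚ L] {A : ValuationSubring L} {π : A →+* k}

/-- **Compatibility.** `H60.Compat π σ s τ` says that `s` is the restriction to `A` of the automorphism
`σ` of `L` and induces `τ` on `k`. Then the coefficientwise actions of `σ`, `s`, `τ` on Laurent
series correspond to each other. (`H60Galois`.) -/
theorem compatible {σ : L ≃ₐ[ℚ] L} {s : A →+* A} {τ : k ≃+* k} :
    (H60.Compat π σ s τ ↔ (∀ a : A, ((s a : A) : L) = σ (a : L)) ∧ ∀ a : A, π (s a) = τ (π a)) ∧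
    (H60.Compat π σ s τ → ∀ y : LaurentSeries A,
      coeffMap A.subtype (coeffMap s y) = coeffMap (σ : L →+* L) (coeffMap A.subtype y) ∧
      coeffMap π (coeffMap s y) = coeffMap (τ : k →+* k) (coeffMap π y)) :=
  ⟨⟨fun h => ⟨h.sub, h.red⟩, fun h => ⟨h.1, h.2⟩⟩,
    fun h y => ⟨h.coeffMap_subtype y, h.coeffMap_red y⟩⟩

/-- **Divisors of integral functions.** Let `D` be the divisor of a function with coefficients in `A`
and nonzero reduction (`D ∈ integralPrincipalDivisors A π N`). Then the reduction of `σ D` is
`τ (red D)`: both are the divisor of the reduction of the conjugate function. (`H60Galois`; with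
section 4 this gives `reduction_galois` in `GuideHecke`.) -/
theorem integral_galois {r : Place L (laurentBaseChange L (modularFunctionFieldFull N)) →
      Place k (modularFunctionFieldFullC k N)}
    (hr : IsPlaceReductionAlong A π N r) {σ : L ≃ₐ[ℚ] L} {s : A →+* A} {τ : k ≃+* k}
    (hs : ∀ a : A, ((s a : A) : L) = σ (a : L)) (hτ : ∀ a : A, π (s a) = τ (π a))
    {D : Divisor L (laurentBaseChange L (modularFunctionFieldFull N))}
    (hD : D ∈ integralPrincipalDivisors A π N) :
    Finsupp.mapDomain r (arithmeticGalois (modularFunctionFieldFull N) σ • D) =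
      H60.coeffAut N τ • Finsupp.mapDomain r D :=
  H60.mapDomain_smul_of_mem_integral hr ⟨hs, hτ⟩ hD

/-- **Galois action on `Pic⁰`.** The reduction `Pic⁰(F_N) → Pic⁰` of the special fibre
(`reductionPic0Along`) satisfies `red (σ x) = τ (red x)`. (`H60Pic`.) -/
theorem pic_galois {r : Place L (laurentBaseChange L (modularFunctionFieldFull N)) →
      Place k (modularFunctionFieldFullC k N)}
    [HasPrincipalDivisors L (laurentBaseChange L (modularFunctionFieldFull N))]
    (hR : ∃ c : ℤ, ∀ D : Divisor L (laurentBaseChange L (modularFunctionFieldFull N)),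
      c ≤ Divisor.degree D →
        ∃ f : laurentBaseChange L (modularFunctionFieldFull N), f ≠ 0 ∧ ∀ v, 0 ≤ D v + v.ord f)
    (hdeg : ∀ v : Place L (laurentBaseChange L (modularFunctionFieldFull N)), v.deg = 1)
    (hr : IsPlaceReductionAlong A π N r) (hgen : PrincipalGeneratedByIntegral A π N)
    {σ : L ≃ₐ[ℚ] L} {s : A →+* A} {τ : k ≃+* k}
    (hs : ∀ a : A, ((s a : A) : L) = σ (a : L)) (hτ : ∀ a : A, π (s a) = τ (π a))
    (x : Pic0 L (laurentBaseChange L (modularFunctionFieldFull N))) :
    reductionPic0Along r hr hgen (σ • x) =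
      (H60.coeffAut N τ • reductionPic0Along r hr hgen x : JZeroC k N) :=
  H60.reductionPic0Along_smul hR hdeg hr hgen ⟨hs, hτ⟩ x

end Galois

/-! ## 6. The congruence relation -/

section Congruence

variable {L : Type*} [Field L] [Algebra ℚ L] [CharZero L] {A : ValuationSubring L}
variable {k : Type*} [Field k] {π : A →+* k} {N l : ℕ} [NeZero N] [NeZero l]

/-- **Divisors of integral functions.** For the divisor `D` of a function `f` with coefficients in `A`
and nonzero reduction `g` the reduction of `T_l D` is `t (red D) + l t⁻¹ (red D)`: by `divisor_of_norm`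
and `norm_reduction` of `GuideHecke` it is the divisor of `g(q^l) g^φ = (t⁻¹ g)^l (t g)`.
(`H60Hecke`.) -/
theorem integral_congruence {r : Place L (laurentBaseChange L (modularFunctionFieldFull N)) →
      Place k (modularFunctionFieldFullC k N)}
    [HasPrincipalDivisors L (laurentBaseChange L (modularFunctionFieldFull (N * l)))]
    {w : laurentBaseChange L (modularFunctionFieldFull (N * l)) →+* LaurentSeries L}
    [Fact l.Prime] [CharP k l] (hw : H60.IsSwap w)
    {ζ : Aˣ} (hζ : IsPrimitiveRoot (Units.map (A.subtype : A →* L) ζ) l)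
    (hζ1 : Units.map (π : A →* k) ζ = 1)
    (hα : HeckeAlphaBarIntegral L N l) (hβ : HeckeBetaBarIntegral L N l)
    (hfin : FiniteAlong L (heckeAlphaBar L N l))
    (hN : NormFormulaAlong L (heckeAlphaBar L N l) hfin)
    (hdeg : finrankAlong L (heckeAlphaBar L N l) ≤ l + 1)
    (hr : IsPlaceReductionAlong A π N r) {τ : k ≃+* k} (hτ : ∀ x, τ x = x ^ l)
    {D : Divisor L (laurentBaseChange L (modularFunctionFieldFull N))}
    (hD : D ∈ integralPrincipalDivisors A π N) :
    Finsupp.mapDomain r (heckeDivBar hα hβ D) =
      H60.coeffAut N τ • Finsupp.mapDomain r D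
        + (l : ℤ) • ((H60.coeffAut N τ)⁻¹ • Finsupp.mapDomain r D) :=
  H60.eichlerShimura_of_mem_integral hw hζ hζ1 hα hβ hfin hN hdeg hr hτ hD

/-- **The congruence relation on `Pic⁰`**: `red (T_l x) = t (red x) + l t⁻¹ (red x)` (`heckePic0Bar` is
`T_l` on `Pic⁰`). (`H60Pic`, from `congruence_on_divisors` in `GuideHecke`.) -/
theorem pic_congruence {r : Place L (laurentBaseChange L (modularFunctionFieldFull N)) →
      Place k (modularFunctionFieldFullC k N)}
    {w : laurentBaseChange L (modularFunctionFieldFull (N * l)) →+* LaurentSeries L}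
    [HasPrincipalDivisors L (laurentBaseChange L (modularFunctionFieldFull N))]
    [HasPrincipalDivisors L (laurentBaseChange L (modularFunctionFieldFull (N * l)))]
    [Fact l.Prime] [CharP k l] (hw : H60.IsSwap w)
    {ζ : Aˣ} (hζ : IsPrimitiveRoot (Units.map (A.subtype : A →* L) ζ) l)
    (hζ1 : Units.map (π : A →* k) ζ = 1)
    (hα : HeckeAlphaBarIntegral L N l) (hβ : HeckeBetaBarIntegral L N l)
    (hFI : FundamentalIdentityAlong L (heckeBetaBar L N l) hβ)
    (hfin : FiniteAlong L (heckeAlphaBar L N l))
    (hN : NormFormulaAlong L (heckeAlphaBar L N l) hfin)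
    (hdeg : finrankAlong L (heckeAlphaBar L N l) ≤ l + 1)
    (hR : ∃ c : ℤ, ∀ D : Divisor L (laurentBaseChange L (modularFunctionFieldFull N)),
      c ≤ Divisor.degree D →
        ∃ f : laurentBaseChange L (modularFunctionFieldFull N), f ≠ 0 ∧ ∀ v, 0 ≤ D v + v.ord f)
    (hdeg1 : ∀ v : Place L (laurentBaseChange L (modularFunctionFieldFull N)), v.deg = 1)
    (hr : IsPlaceReductionAlong A π N r) (hgen : PrincipalGeneratedByIntegral A π N)
    {τ : k ≃+* k} (hτ : ∀ x, τ x = x ^ l)
    (x : Pic0 L (laurentBaseChange L (modularFunctionFieldFull N))) :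
    reductionPic0Along r hr hgen (heckePic0Bar hα hβ hFI hfin hN x) =
      (H60.coeffAut N τ • reductionPic0Along r hr hgen x
        + (l : ℤ) • ((H60.coeffAut N τ)⁻¹ • reductionPic0Along r hr hgen x) : JZeroC k N) :=
  H60.reductionPic0Along_heckePic0Bar hw hζ hζ1 hα hβ hFI hfin hN hdeg hR hdeg1 hr hgen hτ x

end Congruence

/-! ## 7. At a place of `ℚ̄` above `l` -/

section Place

variable {A : ValuationSubring Qb} {l : ℕ}

/-- The residue field of a place above the prime `l` has characteristic `l`. (`H60S37`.) -/
theorem residue_characteristic (hl : l.Prime) (hA : A.LiesOverPrime l) :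
    ((l : ℕ) : IsLocalRing.ResidueField A) = 0 ∧ CharP (IsLocalRing.ResidueField A) l :=
  ⟨H60.natCast_residue_eq_zero hA, H60.charP_residue hl hA⟩

/-- **The root of unity**: `A` contains a primitive `l`-th root of unity, and its residue is `1`, because
`(ζ̄ - 1)^l = ζ̄^l - 1 = 0`. (`H60S37`.) -/
theorem root_of_unity (hl : l.Prime) (hA : A.LiesOverPrime l) :
    ∃ ζ : Aˣ, IsPrimitiveRoot (Units.map (A.subtype : A →* Qb) ζ) l ∧
      Units.map (IsLocalRing.residue A : A →* IsLocalRing.ResidueField A) ζ = 1 :=
  H60.exists_zeta hl hA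

/-- **Frobenius on the residue field**: `x ↦ x^l` is an automorphism of the residue field (a Frobenius
element of the place induces it). An automorphism `σ` of `ℚ̄` which preserves `A` is compatible
with the automorphism `τ` which it induces on the residue field. (`H60S37`.) -/
theorem residue_automorphisms (hl : l.Prime) (hA : A.LiesOverPrime l) :
    (∃ τ : IsLocalRing.ResidueField A ≃+* IsLocalRing.ResidueField A, ∀ x, τ x = x ^ l) ∧
    ∀ (σ : Qb ≃ₐ[ℚ] Qb) (hσ : σ ∈ A.decompositionSubgroup ℚ)
      (τ : IsLocalRing.ResidueField A ≃+* IsLocalRing.ResidueField A),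
      (∀ x : IsLocalRing.ResidueField A, (⟨σ, hσ⟩ : A.decompositionSubgroup ℚ) • x = τ x) →
      H60.Compat (IsLocalRing.residue A) σ
        (MulSemiringAction.toRingHom (A.decompositionSubgroup ℚ) A ⟨σ, hσ⟩) τ :=
  ⟨H60.exists_frobAut hl hA, fun _ hσ τ hτ => H60.compat_of_mem hσ τ hτ⟩

/-- **Hecke data at `l`** (`H60.HeckeData N l`): the standard facts on the two degeneracy maps of level
`N l` (integrality, principal divisors, fundamental identity, norm formula), the degree of
`F_{Nl}` over `F_N` is at most `l + 1`, and there is a swap embedding. They hold if the prime `l` does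
not divide `N`. (`H42HeckeData`, with the Atkin-Lehner involution and the degree `l + 1`.) -/
theorem hecke_data (N l : ℕ) [NeZero N] [NeZero l] :
    (H60.HeckeData N l ↔ HeckeInputsAlong Qb N l ∧
      finrankAlong Qb (heckeAlphaBar Qb N l) ≤ l + 1 ∧
      ∃ w : laurentBaseChange Qb (modularFunctionFieldFull (N * l)) →+* LaurentSeries Qb,
        H60.IsSwap w) ∧
    (l.Prime → ¬ l ∣ N → H60.HeckeData N l) :=
  ⟨⟨fun h => ⟨h.inputs, h.degree_le, h.swap⟩, fun h => ⟨h.1, h.2.1, h.2.2⟩⟩,
    fun hl h => H42.heckeData N l hl h⟩

/-- **One map with all properties.** Let `l` be a prime not dividing `N p` and `A` a place above `l`.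
From Riemann's inequality, the reduction inputs, the injectivity of the reduction on torsion
prime to `l` (S18) and the Hecke data one gets a homomorphism `s` from `J₀(N)` (the reduction) and an
endomorphism `F` of its target (`F = t`), such that `s` is trivial on inertia and injective on
`p`-power torsion, Frobenius elements act through `F`, and `F² - F T_l + l = 0` on the image:
`t (t y) - t (t y + l t⁻¹ y) + l y = 0`. (`H60S37`.) -/
theorem core (N p : ℕ) [NeZero N] [HasPrincipalDivisors Qb (modularFunctionFieldBar N)]
    (hR : ∃ c : ℤ, ∀ D : Divisor Qb (modularFunctionFieldBar N), c ≤ Divisor.degree D →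
      ∃ f : modularFunctionFieldBar N, f ≠ 0 ∧ ∀ v, 0 ≤ D v + v.ord f)
    (hdeg : ∀ v : Place Qb (modularFunctionFieldBar N), v.deg = 1)
    {l : ℕ} (hl : l.Prime) (hlN : ¬ l ∣ N * p) (A : ValuationSubring Qb) (hA : A.LiesOverPrime l)
    (hred : ReductionInputsModL A N) (hinj : H60.InjectivityAt N)
    (hH : haveI : NeZero l := ⟨hl.ne_zero⟩; H60.HeckeData N l) :
    ∃ (M : Type) (_ : AddCommGroup M) (s : JZero N →+ M) (F : M →+ M),
      (∀ σ ∈ A.inertiaSubgroupIn ℚ, ∀ x : JZero N, s (σ • x) = s x) ∧
      (∀ σ : Qb ≃ₐ[ℚ] Qb, A.IsFrobeniusAt σ l → ∀ x : JZero N, s (σ • x) = F (s x)) ∧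
      (∀ x : JZero N, (∃ n : ℕ, p ^ n • x = 0) → s x = 0 → x = 0) ∧
      ∀ x : JZero N, F (F (s x)) - F (s (heckeOperatorBar N ⟨l, hl⟩ x)) + l • s x = 0 := by
  obtain ⟨M, i, s, F, h⟩ := H60.exists_core N p hR hdeg hl hlN A hA hred hinj hH
  exact ⟨M, i, s, F, h.inertia, h.frob, h.inj, h.relation⟩

end Place

/-! ## 8. From one map to a Hecke module

S37 asks for a specialisation `J₀(N) → J'` which is a homomorphism of Hecke modules, with the relation
on all of `J'`. `HeckeAlg` is the polynomial ring over `ℤ` in the operators `T_l`, `l` prime. -/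

section Coinduced

variable {M : Type} [AddCommGroup M]

/-- **The coinduced module** `Hom(HeckeAlg, M)` (`H37.Coind M`): `(T f)(T') = f(T' T)`; an endomorphism
`F` of `M` acts by composition. (`H37Glue`.) -/
theorem coinduced (F : M →+ M) (f : H37.Coind M) (T T' : HeckeAlg) :
    (T • f).toHom T' = f.toHom (T' * T) ∧ (H37.Coind.mapF F f).toHom T = F (f.toHom T) :=
  ⟨rfl, rfl⟩

/-- **The submodule with the relation** (`H37.Coind.rel F l t`): the `f` with
`F² (f(T)) - F (f(T t)) + l f(T) = 0` for all `T`. It is a Hecke submodule stable under `F`, and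
`F² - t F + l = 0` holds on it. (`H37Glue`.) -/
theorem submodule_with_relation (F : M →+ M) (l : ℕ) (t : HeckeAlg) (f : H37.Coind M) :
    (f ∈ H37.Coind.rel F l t ↔
      ∀ T, F (F (f.toHom T)) - F (f.toHom (T * t)) + l • f.toHom T = 0) ∧
    (f ∈ H37.Coind.rel F l t → H37.Coind.mapF F f ∈ H37.Coind.rel F l t) :=
  ⟨Iff.rfl, fun h => H37.Coind.mapF_mem_rel F l t h⟩

/-- **The specialisation** is `x ↦ (T ↦ s (T x))` (`H37.spHom s`). From a homomorphism `s : J → M` and `F`
with the four properties of `core` one gets a specialisation of Hecke modules with the relation of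
Eichler and Shimura on the whole target, namely on the submodule above. (`H37Glue`.) -/
theorem specialisation {K L : Type*} [Field K] [Field L] [Algebra K L] {p : ℕ} {J : Type}
    [AddCommGroup J] [Module HeckeAlg J] [DistribMulAction (L ≃ₐ[K] L) J]
    [SMulCommClass (L ≃ₐ[K] L) HeckeAlg J] {A : ValuationSubring L} {l : ℕ} (hl : l.Prime)
    (s : J →+ M) (F : M →+ M)
    (h1 : ∀ σ ∈ A.inertiaSubgroupIn K, ∀ x : J, s (σ • x) = s x)
    (h2 : ∀ σ : L ≃ₐ[K] L, A.IsFrobeniusAt σ l → ∀ x : J, s (σ • x) = F (s x))
    (h3 : ∀ x : J, (∃ n : ℕ, p ^ n • x = 0) → s x = 0 → x = 0)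
    (h4 : ∀ x : J, F (F (s x)) - F (s (heckeGen ⟨l, hl⟩ • x)) + l • s x = 0) :
    (∀ (x : J) (T : HeckeAlg), (H37.spHom s x).toHom T = s (T • x)) ∧
    ∃ (J' : Type) (_ : AddCommGroup J') (_ : Module HeckeAlg J') (sp : J →+ J') (F' : J' →+ J'),
      IsSpecialization (K := K) p J J' A l sp F' ∧ SpecialFibreRelation J' l hl F' :=
  ⟨fun _ _ => rfl, H37.IsCore.exists_specialization ⟨h1, h2, h3, h4⟩⟩

end Coinduced

/-- **S37 from the equality of genera.** The other inputs are general facts on function fields and on
the degeneracy maps (sections 4 and 7); what remains is that the genus of `X₀(N)` does not change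
under reduction at a prime not dividing `N` (this gives the reduction of divisors,
`GuideFunctionField`), and the injectivity on torsion, S18. (`H42Inputs`; the statement S37 follows
with `genus_eq` of `GuideReduction` and S18.) -/
theorem s37_of_genus_eq (N p : ℕ) [NeZero N] (hcomm : HeckeOperatorsCommuteBar N)
    (hg : ∀ {l : ℕ} (_ : l.Prime) (_ : ¬ l ∣ N) (A : ValuationSubring Qb)
      (_ : A.LiesOverPrime l), genusFF Qb (modularFunctionFieldBar N) =
        genusFF (IsLocalRing.ResidueField A)
          (modularFunctionFieldFullC (IsLocalRing.ResidueField A) N))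
    (hinj : ∀ {l : ℕ} [Fact l.Prime] (_ : ¬ l ∣ N) (A : ValuationSubring Qb)
      (_ : A.LiesOverPrime l) (_ : ReductionInputsModL A N) (m : ℕ) (_ : ¬ l ∣ m) (z : JZero N)
      (_ : m • z = 0) (_ : reductionModL A N z = 0), z = 0) :
    letI := heckeModuleBar N
    ∀ (_ : SMulCommClass (Qb ≃ₐ[ℚ] Qb) HeckeAlg (JZero N)),
      SpecializationExists (K := ℚ) (L := Qb) N p (JZero N) :=
  H42.S37_of_genusEq N p hcomm hg hinj

end Fermat.Agent.Guide.CongruenceRelation
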