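import Fermat.Agent.H83C9b

/-!
# Guide to the proof: connectedness of the special fibre and trivial windings, step by step

This file is a machine-checked table of contents. Every theorem below is a citation of a theorem of
the library, with its statement written out. Nothing imports this file. It is a companion of
`GuideCarayol`, section H (theorems 25 - 29), and of `GuideCarayolTools`, section E: read these
first. They contain the final statements; here are the steps of the proofs.

**The situation.** `O` is a discrete valuation ring with uniformizer `ϖ` and fraction field `K` of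
characteristic zero, and `F` is a finite extension of `K(t)`. We think of the normal model of `F`
over the projective `t`-line over `O`. No schemes are used; the model is given by
 * the ring `H36.chart O t` of the elements of `F` which are integral over `O[t]` (first chart) and
   the ring `H36.chart O t⁻¹` (second chart; it contains the points with `t = ∞`);
 * the semilocal ring `H36.gs O t`, whose maximal ideals are the components of the special fibre: the
   `x` such that `p(t) x` is in `H36.chart O t` for some polynomial `p` which is primitive, that is,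
   not zero modulo `ϖ` (`H36.Prim O p`). It is the same ring for `t` and for `t⁻¹`;
 * `H36.InP t ϖ x`: the element `x` is divisible by `ϖ` in `H36.gs O t`, that is, it vanishes on the
   special fibre.

**The connectedness theorem** (`GuideCarayol.connectedness`). Suppose that `t⁻¹` is a uniformizer at a
rational point of `F`, and let a function on the special fibre which is idempotent be given by `b` on
the first and by `b'` on the second chart. Then it is `0` or `1`. Idea of the proof: we may suppose
that `b'` is a unit at the rational point, so that this point meets only the part of the special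
fibre where `b = 1`. Let `w_1, ..., w_r` be a basis of `F` over `K(t)` consisting of elements of
`H36.chart O t`, and `W` the space with basis `t^j w_i`, `j ≤ n`. The functions in `W` which are
integral on the part `b = 1` form an `O`-module which is finitely generated, because the Taylor
coefficients at the rational point bound the denominators (section 3). It is free of rank `r (n + 1)`,
and modulo `ϖ` it gives this number of independent functions on the part `b = 1`. If the part `b = 0`
were not empty, the functions `(1 - b) t^j`, `j ≤ n`, would be `n + 1` further independent functions on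
the special fibre. But the special fibre has degree at most `r` over the line, so that the functions
on it with these bounds for the poles form a space of dimension at most `r (n + const)` (section 2),
and `(r + 1) (n + 1) > r (n + const)` for large `n`. This replaces Zariski's connectedness theorem.

**The theorem on roots** (`GuideCarayol.root_of_trivial_windings`). Let `f` be `1` on the special fibre,
everywhere locally a `d`-th power times a unit, with trivial windings, and a `d`-th power in the field
of Laurent series at the rational point. Then `f` is a `d`-th power in `F`. Idea of the proof: let `F'`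
be the splitting field of `Y^d - f` over `F`. The `d`-th root in the field of Laurent series gives a
rational point of `F'`, so the special fibre for `F'` is connected. A root `y ∈ F'` is congruent to a
`d`-th root of unity along every component for `F'`, and by the local condition two components along
which `y` has different values never meet. So the components with `y ≡ 1` and the others can be
separated by an idempotent function, and if `y ≡ 1` along one component, then along all of them. Now
let `σ` be in the Galois group of `F'` over `F`: then `σ y = ζ y` with `ζ ^ d = 1`, and `σ y ≡ 1` along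
all components too, so `ζ ≡ 1` and `ζ = 1`. So `y ∈ F`.

**Order of the file.** 1. Charts. 2. Linear algebra modulo the uniformizer. 3. The rational point.
4. Connectedness. 5. Roots. 6. The hypotheses for `X₀(q² m)`.

**Where.** `NOTES.md`: [266] CONN-INJ-C7. All theorems are used, through the bound for inertia invariants
(`GuideCarayol.fixedInput`), in the proofs of S01, S03, S04, S06, S36, S38, S43, S45, S46, S50, S58,
S59 and S60. Authors: helper36 (sections 1 - 5),
helper83 and helper24 (section 6).
-/

set_option autoImplicit false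

open Polynomial IntermediateField
open Fermat.Agent

namespace Fermat.Agent.Guide.Connectedness

/-! ## 1. Charts -/

/-- **1. Coprime denominators.** Let `A` be a factorial domain contained in the field `F`, and let `c₁`,
`c₂` be coprime elements of `A`. If `c₁ x` and `c₂ x` are integral over `A`, then `x` is integral over
`A`. (The coefficients of the minimal polynomial of `x` become elements of `A` after multiplication by
a power of `c₁`, and also after multiplication by a power of `c₂`.) File: `H36Chart`. -/
theorem integral_of_coprime {A F : Type*} [CommRing A] [IsDomain A] [UniqueFactorizationMonoid A]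
    [Field F] [Algebra A F] [FaithfulSMul A F] {c₁ c₂ : A} (hc : IsRelPrime c₁ c₂) {x : F}
    (h₁ : IsIntegral A (c₁ • x)) (h₂ : IsIntegral A (c₂ • x)) (hc₁ : c₁ ≠ 0) (hc₂ : c₂ ≠ 0) :
    IsIntegral A x :=
  H36.isIntegral_of_relPrime hc h₁ h₂ hc₁ hc₂

/-- **2. Primitive polynomials.** `H36.Prim O p`: the polynomial `p` over `O` is not zero modulo the
maximal ideal, that is, not divisible by `ϖ`. Then it is coprime to the powers of `ϖ`.
File: `H36Chart`. -/
theorem primitive {O : Type*} [CommRing O] [IsDomain O] [IsDiscreteValuationRing O] {ϖ : O}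
    (hϖ : Irreducible ϖ) (p : O[X]) :
    (H36.Prim O p ↔ p.map (IsLocalRing.residue O) ≠ 0) ∧ (¬ H36.Prim O p ↔ C ϖ ∣ p) ∧
      (H36.Prim O p → ∀ n : ℕ, IsRelPrime (C ϖ ^ n) p) :=
  ⟨Iff.rfl, H36.not_prim_iff hϖ p, fun hp n => H36.Prim.isRelPrime hϖ hp n⟩

/-- **3. Integrality on a chart from two conditions.** Let `x` be integral over `K[t]`. Then some
`ϖ ^ n x` is integral over `O[t]`; and if moreover `x` is in the ring `H36.gs O t`, then `x` itself is
integral over `O[t]`, by theorem 1 for `A = O[t]`, `c₁ = ϖ ^ n` and `c₂` the primitive polynomial in the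
definition of `H36.gs`. (The result is theorem 26 of `GuideCarayolTools`.) File: `H36Chart`. -/
theorem integral_of_two {O K F : Type*} [CommRing O] [IsDomain O] [IsDiscreteValuationRing O]
    [Field K] [Algebra O K] [IsFractionRing O K] [Field F] [Algebra O F] [Algebra K F]
    [IsScalarTower O K F] {ϖ : O} (hϖ : Irreducible ϖ) {t x : F} (ht : Transcendental K t) :
    (x ∈ H36.chart K t → ∃ n : ℕ, algebraMap O F ϖ ^ n * x ∈ H36.chart O t) ∧
      (x ∈ H36.gs O t → ∀ n : ℕ, algebraMap O F ϖ ^ n * x ∈ H36.chart O t → x ∈ H36.chart O t) :=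
  ⟨fun hx => H36.exists_pow_mul_mem_chart K hϖ hx,
    fun hx _ hn => H36.mem_chart_of_gs_of_pow K hϖ ht hx hn⟩

/-- **4. Denominators along the special fibre.** Every element of `F` is in `H36.gs O t` after
multiplication by a power of `ϖ`. File: `H36ConnB`. -/
theorem exists_power_in_gs {O K F : Type*} [CommRing O] [IsDomain O] [IsDiscreteValuationRing O]
    [Field K] [Algebra O K] [IsFractionRing O K] [Field F] [Algebra O F] [Algebra K F]
    [IsScalarTower O K F] {ϖ : O} (hϖ : Irreducible ϖ) {t : F} (ht : Transcendental K t)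
    [FiniteDimensional K⟮t⟯ F] (x : F) : ∃ n : ℕ, algebraMap O F ϖ ^ n * x ∈ H36.gs O t :=
  H36.exists_pow_mul_mem_gs hϖ ht x

/-- **5. Poles at infinity.** An element of the first chart is in the second chart after multiplication
by a power of `t⁻¹` (for every ring `R`; it is applied to `O` and to `K`). File: `H36Chart`. -/
theorem exists_power_in_second_chart {R F : Type*} [CommRing R] [Field F] [Algebra R F] {t x : F}
    (ht : t ≠ 0) (hx : x ∈ H36.chart R t) : ∃ n : ℕ, t⁻¹ ^ n * x ∈ H36.chart R t⁻¹ :=
  H36.exists_inv_pow_mul_mem_chart ht hx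

/-- **6. Divisibility by the uniformizer.** `H36.InP t ϖ x` means that `x` is `ϖ` times an element of
`H36.gs O t`. It depends only on the pair `t`, `t⁻¹`, is an ideal of `H36.gs O t`, and if
`p(t) x` is divisible by `ϖ` for a primitive polynomial `p`, then `x` is divisible by `ϖ`.
File: `H36Chart`. -/
theorem divisible {O F : Type*} [CommRing O] [IsDomain O] [IsDiscreteValuationRing O] [Field F]
    [Algebra O F] {t : F} {ϖ : O} :
    (∀ x, H36.InP t ϖ x ↔ (algebraMap O F ϖ)⁻¹ * x ∈ H36.gs O t) ∧
      (t ≠ 0 → ∀ x, H36.InP t⁻¹ ϖ x ↔ H36.InP t ϖ x) ∧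
      (∀ x y, H36.InP t ϖ x → H36.InP t ϖ y → H36.InP t ϖ (x + y)) ∧
      (∀ x s, s ∈ H36.gs O t → H36.InP t ϖ x → H36.InP t ϖ (s * x)) ∧
      ∀ (p : O[X]) (x : F), H36.Prim O p → H36.InP t ϖ (aeval t p * x) → H36.InP t ϖ x :=
  ⟨fun _ => Iff.rfl, fun ht _ => H36.inP_inv_iff ht, fun _ _ hx hy => hx.add hy,
    fun _ _ hs hx => hx.mul_left hs, fun _ _ hp h => H36.InP.of_prim_mul hp h⟩

/-! ## 2. Linear algebra modulo the uniformizer

The ring `H36.gs O t / ϖ` is an algebra over the field of rational functions in `t` over the residue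
field, of dimension at most `r = [F : K(t)]`. To avoid this quotient, the notions of linear algebra are
written out for elements of `F` and polynomials over `O`. -/

/-- **7. Relations.** Between more than `[F : K(t)]` elements of `F` there is a relation whose
coefficients are polynomials over `O`, not all divisible by `ϖ`. File: `H36ConnA`. -/
theorem exists_relation_primitive {O K F : Type*} [CommRing O] [IsDomain O]
    [IsDiscreteValuationRing O] [Field K] [Algebra O K] [IsFractionRing O K] [Field F] [Algebra O F]
    [Algebra K F] [IsScalarTower O K F] {ϖ : O} (hϖ : Irreducible ϖ) {t : F}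
    (ht : Transcendental K t) [FiniteDimensional K⟮t⟯ F] {ι : Type*} [Fintype ι] (s : ι → F)
    (hs : Module.finrank K⟮t⟯ F < Fintype.card ι) :
    ∃ p : ι → O[X], (∃ i, H36.Prim O (p i)) ∧ ∑ i, aeval t (p i) * s i = 0 :=
  H36.exists_prim_relation K hϖ ht s hs

/-- **8. Independent and generating families modulo `ϖ`.** `H36.Indep t ϖ s`: if a combination of the
`s i` with polynomial coefficients is divisible by `ϖ`, then so are the coefficients. `H36.Gen t ϖ s`:
every element of `H36.gs O t` is modulo `ϖ` a combination of the `s i` with coefficients which are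
quotients of polynomials, with a primitive denominator `q`. File: `H36Chart`. -/
theorem indep_gen_iff {O F : Type*} [CommRing O] [IsDomain O] [IsDiscreteValuationRing O] [Field F]
    [Algebra O F] (t : F) (ϖ : O) {ι : Type*} [Fintype ι] (s : ι → F) :
    (H36.Indep t ϖ s ↔ ∀ p : ι → O[X], H36.InP t ϖ (∑ i, aeval t (p i) * s i) →
      ∀ i, ¬ H36.Prim O (p i)) ∧
    (H36.Gen t ϖ s ↔ ∀ x ∈ H36.gs O t, ∃ (q : O[X]) (p : ι → O[X]), H36.Prim O q ∧
      H36.InP t ϖ (aeval t q * x - ∑ i, aeval t (p i) * s i)) :=
  ⟨Iff.rfl, Iff.rfl⟩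

/-- **9. A basis modulo `ϖ`.** There is a family in `H36.gs O t` which is independent and generating
modulo `ϖ`; it has at most `[F : K(t)]` elements (a maximal independent family; it exists by
theorem 7). File: `H36ConnA`. -/
theorem exists_basis_mod {O K F : Type*} [CommRing O] [IsDomain O] [IsDiscreteValuationRing O]
    [Field K] [Algebra O K] [IsFractionRing O K] [Field F] [Algebra O F] [Algebra K F]
    [IsScalarTower O K F] {ϖ : O} (hϖ : Irreducible ϖ) {t : F} (ht : Transcendental K t)
    [FiniteDimensional K⟮t⟯ F] :
    ∃ (m : ℕ) (s : Fin m → F), m ≤ Module.finrank K⟮t⟯ F ∧ (∀ i, s i ∈ H36.gs O t) ∧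
      H36.Indep t ϖ s ∧ H36.Gen t ϖ s :=
  H36.exists_basis_mod K hϖ ht

/-- **10. A common denominator on a chart.** For a generating family there is one primitive polynomial
`Δ` which is a denominator for all elements of `H36.chart O t` at the same time: this ring is a finitely
generated module over `O[t]`, because `K` has characteristic zero. File: `H36ConnA`. -/
theorem exists_common_denominator {O K F : Type*} [CommRing O] [IsDomain O]
    [IsDiscreteValuationRing O] [Field K] [Algebra O K] [IsFractionRing O K] [Field F] [Algebra O F]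
    [Algebra K F] [IsScalarTower O K F] {ϖ : O} {t : F} (ht : Transcendental K t) [CharZero K]
    [FiniteDimensional K⟮t⟯ F] {ι : Type*} [Fintype ι] {s : ι → F} (hg : H36.Gen t ϖ s) :
    ∃ Δ : O[X], H36.Prim O Δ ∧ ∀ x ∈ H36.chart O t, ∃ p : ι → O[X],
      H36.InP t ϖ (aeval t Δ * x - ∑ i, aeval t (p i) * s i) :=
  H36.exists_delta K ht hg

/-- **11. The degrees of the coordinates.** Let the function on the special fibre with the pole of
order at most `n` at infinity be given by `x` in the first chart and by `x'`, congruent to `t⁻ⁿ x`, in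
the second. If `Δ` and `Δ'` are denominators as in theorem 10 for the two charts, with coordinates `p i`
and `q i`, then the `p i` have modulo `ϖ` degree at most `n + deg Δ' + deg Δ`. File: `H36Chart`. -/
theorem degree_bound {O F : Type*} [CommRing O] [IsDomain O] [IsDiscreteValuationRing O] [Field F]
    [Algebra O F] {t : F} {ϖ : O} (ht : t ≠ 0) {ι : Type*} [Fintype ι] {s : ι → F}
    (hs : H36.Indep t ϖ s) {Δ Δ' : O[X]} (hΔ' : H36.Prim O Δ') {n : ℕ} {x x' : F}
    (hx' : H36.InP t ϖ (t⁻¹ ^ n * x - x')) {p q : ι → O[X]}
    (hp : H36.InP t ϖ (aeval t Δ * x - ∑ i, aeval t (p i) * s i))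
    (hq : H36.InP t ϖ (aeval t⁻¹ Δ' * x' - ∑ i, aeval t⁻¹ (q i) * s i)) (i : ι) :
    ((p i).map (IsLocalRing.residue O)).natDegree ≤ n + Δ'.natDegree + Δ.natDegree :=
  H36.degree_bound ht hs hΔ' hx' hp hq i

/-- **12. Counting.** If more than `#ι (N + 1)` elements `x l` have coordinates `p l i` with a common
primitive denominator `Δ` and of degree at most `N` modulo `ϖ`, then a combination of the `x l` with
coefficients in `O`, not all divisible by `ϖ`, is divisible by `ϖ`. File: `H36Chart`. -/
theorem exists_relation_mod {O F : Type*} [CommRing O] [IsDomain O] [IsDiscreteValuationRing O]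
    [Field F] [Algebra O F] {t : F} {ϖ : O} (hϖ : Irreducible ϖ) (h0 : algebraMap O F ϖ ≠ 0)
    {ι : Type*} [Fintype ι] {s : ι → F} (hsm : ∀ i, s i ∈ H36.gs O t) {Δ : O[X]}
    (hΔ : H36.Prim O Δ) {N : ℕ} {κ : Type*} [Fintype κ] (x : κ → F) (p : κ → ι → O[X])
    (hp : ∀ l, H36.InP t ϖ (aeval t Δ * x l - ∑ i, aeval t (p l i) * s i))
    (hN : ∀ l i, ((p l i).map (IsLocalRing.residue O)).natDegree ≤ N)
    (hcard : Fintype.card ι * (N + 1) < Fintype.card κ) :
    ∃ c : κ → O, (∃ l, ¬ ϖ ∣ c l) ∧ H36.InP t ϖ (∑ l, algebraMap O F (c l) * x l) :=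
  H36.exists_relation hϖ h0 hsm hΔ x p hp hN hcard

/-! ## 3. The rational point

`p : H36.RatPoint K τ` is a rational point at which `τ` is a uniformizer: an embedding `p.e` of `F` into
the field of Laurent series over `K` (theorem 27 of `GuideCarayolTools`). In the application `τ = t⁻¹`. -/

/-- **13. Values.** An element of the chart `H36.chart K τ` is a power series at the point. The constant
coefficient `p.ev x` is additive and, on this chart, multiplicative; it is the identity on constants
and `0` on `τ`. File: `H36ConnB`. -/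
theorem values {K F : Type*} [Field K] [Field F] [Algebra K F] {τ : F} (p : H36.RatPoint K τ) :
    (∀ x ∈ H36.chart K τ, ∃ Q : PowerSeries K, p.e x = HahnSeries.ofPowerSeries ℤ K Q) ∧
      (∀ x, p.ev x = (p.e x).coeff 0) ∧ (∀ x y, p.ev (x + y) = p.ev x + p.ev y) ∧
      (∀ x ∈ H36.chart K τ, ∀ y ∈ H36.chart K τ, p.ev (x * y) = p.ev x * p.ev y) ∧
      (∀ c : K, p.ev (algebraMap K F c) = c) ∧ p.ev τ = 0 :=
  ⟨fun _ hx => p.exists_powerSeries hx, fun _ => rfl, p.ev_add, fun _ hx _ hy => p.ev_mul hx hy,
    p.ev_algebraMap, p.ev_tau⟩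

/-- **14. Values of integral functions are integral**: `p.ev x` is in `O` if `x` is integral over
`O[τ]`. File: `H36ConnB`. -/
theorem value_integral {O K F : Type*} [CommRing O] [IsDomain O] [IsIntegrallyClosed O] [Field K]
    [Algebra O K] [IsFractionRing O K] [Field F] [Algebra O F] [Algebra K F] [IsScalarTower O K F]
    {τ : F} (p : H36.RatPoint K τ) {x : F} (hx : x ∈ H36.chart O τ) :
    ∃ c : O, algebraMap O K c = p.ev x :=
  p.ev_mem_range hx

/-- **15. The maximal ideal of the point.** There is a function `a` on the chart, not zero at the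
point, such that `a x / τ` is on the chart for all `x` on the chart which are zero at the point. (The
ring `H36.chart K τ` is a Dedekind domain, and the maximal ideal of the point divides `τ` exactly once,
since `τ` has a nonzero linear coefficient.) File: `H36ConnB`. -/
theorem exists_multiplier {K F : Type*} [Field K] [CharZero K] [Field F] [Algebra K F] {τ : F}
    (p : H36.RatPoint K τ) (hτ : Transcendental K τ) [FiniteDimensional K⟮τ⟯ F] :
    ∃ a ∈ H36.chart K τ, p.ev a ≠ 0 ∧
      ∀ x ∈ H36.chart K τ, p.ev x = 0 → a * x * τ⁻¹ ∈ H36.chart K τ :=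
  p.exists_a hτ

/-- **16. Taylor coefficients.** With `a` as in theorem 15 let `p.T a x = a (x - x(p)) / τ`, where
`x(p) = p.ev x`, and let `p.L a k x` be the value of `(p.T a)^k x` at the point. If `x ≠ 0` is on the
chart, then one of these numbers is not zero (the order of `x` at the point drops by `1` in each
step). File: `H36ConnB`. -/
theorem taylor_coefficients {K F : Type*} [Field K] [Field F] [Algebra K F] {τ : F}
    (p : H36.RatPoint K τ) {a : F} (ha : a ∈ H36.chart K τ) (ha0 : p.ev a ≠ 0)
    (ha' : ∀ x ∈ H36.chart K τ, p.ev x = 0 → a * x * τ⁻¹ ∈ H36.chart K τ) :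
    (∀ x, p.T a x = a * (x - algebraMap K F (p.ev x)) * τ⁻¹) ∧ (∀ x, p.L a 0 x = p.ev x) ∧
      (∀ k x, p.L a (k + 1) x = p.L a k (p.T a x)) ∧
      ∀ x ∈ H36.chart K τ, x ≠ 0 → ∃ k, p.L a k x ≠ 0 :=
  ⟨p.T_apply a, p.L_zero a, p.L_succ a, fun _ hx hx0 => p.exists_L_ne_zero ha ha0 ha' hx hx0⟩

/-- **17. Taylor coefficients of functions which are integral near the point.** `H36.Good O τ b x`:
some `b ^ N x` is in `H36.gs O τ`. If `b` is integral over `O[τ]` with a unit of `O` as value at the
point, and `a` (as in theorem 15) is in `H36.gs O τ`, then the Taylor coefficients `p.L a k x` of all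
such `x` on the chart are in `O`. So finitely many of them embed the `O`-module of the good elements of
a finite dimensional space into a finite free `O`-module: this is theorem 29 of `GuideCarayolTools`.
File: `H36ConnB`. -/
theorem taylor_coefficients_integral {O K F : Type*} [CommRing O] [IsDomain O]
    [IsDiscreteValuationRing O] [Field K] [Algebra O K] [IsFractionRing O K] [Field F] [Algebra O F]
    [Algebra K F] [IsScalarTower O K F] {τ : F} (p : H36.RatPoint K τ) {b : F}
    (hτ : Transcendental K τ) (hb : b ∈ H36.chart O τ) {u : O} (hu : algebraMap O K u = p.ev b)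
    (hu' : IsUnit u) {a : F} (ha : a ∈ H36.gs O τ) (hτ0 : τ ≠ 0)
    (ha' : ∀ x ∈ H36.chart K τ, p.ev x = 0 → a * x * τ⁻¹ ∈ H36.chart K τ) :
    (∀ x, H36.Good O τ b x ↔ ∃ N : ℕ, b ^ N * x ∈ H36.gs O τ) ∧
      ∀ k, ∀ x ∈ H36.chart K τ, H36.Good O τ b x → ∃ c : O, algebraMap O K c = p.L a k x :=
  ⟨fun _ => Iff.rfl, fun k => p.L_mem hτ hb hu hu' ha hτ0 ha' k⟩

/-! ## 4. Connectedness -/

/-- **18. Idempotents modulo `ϖ`.** Let `b` be in `H36.gs O t` and idempotent modulo `ϖ`, and `b'`
congruent to `b`. Then `b ^ (j + 1) ≡ b`; the same `x` are good for `b` and for `b'` (some `ϖ ^ n x` is in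
`H36.gs O t` by theorem 4); and if `b ^ N x` and `b' ^ N x` are in `H36.gs O t`, then
`b ^ (N + 1) x ≡ b' ^ (N + 1) x`. So a good function gives a function on the part `b = 1` of the special
fibre, in both charts. File: `H36Conn`. -/
theorem idempotents_mod {O F : Type*} [CommRing O] [IsDomain O] [IsDiscreteValuationRing O] [Field F]
    [Algebra O F] {t : F} {ϖ : O} (h0 : algebraMap O F ϖ ≠ 0) {b b' : F} (hb : b ∈ H36.gs O t)
    (hb' : b' ∈ H36.gs O t) (hi : H36.InP t ϖ (b ^ 2 - b)) (h : H36.InP t ϖ (b - b')) :
    (∀ j : ℕ, H36.InP t ϖ (b ^ (j + 1) - b)) ∧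
      (∀ (x : F) (n : ℕ), algebraMap O F ϖ ^ n * x ∈ H36.gs O t → H36.Good O t b' x →
        H36.Good O t b x) ∧
      ∀ (x : F) (N : ℕ), b ^ N * x ∈ H36.gs O t → b' ^ N * x ∈ H36.gs O t →
        H36.InP t ϖ (b ^ (N + 1) * x - b' ^ (N + 1) * x) :=
  ⟨H36.idem_pow hb hi, fun _ _ hn hx => hx.swap h0 hb' h hn,
    fun _ _ hx hx' => H36.pow_mul_congr hb hb' hi h hx hx'⟩

/-- **19. The main step.** In the situation of the connectedness theorem let the value of `b'` at the
rational point be a unit of `O`. Then `1 - b` is divisible by `ϖ`. Proof: the count of dimensions in the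
header, with `n = r (c + deg Δ + deg Δ')`, where the `t^-c w_i` are in the second chart; the relation of
theorem 12 between the elements `b ^ (N + 1) h_l` (`h_l` a basis of the good submodule) and the
elements `(1 - b) t^j` is multiplied by `b`, which shows that its coefficients at the first elements
are divisible by `ϖ`; then `P(t) (1 - b)` is divisible by `ϖ` for a primitive polynomial `P`. The
connectedness theorem follows: the value of `b'` is `0` or `1` modulo `ϖ`, and one can replace `b`, `b'`
by `1 - b`, `1 - b'`. File: `H36Conn`. -/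
theorem connectedness_main_step {O K F : Type*} [CommRing O] [IsDomain O]
    [IsDiscreteValuationRing O] [Field K] [CharZero K] [Algebra O K] [IsFractionRing O K] [Field F]
    [Algebra O F] [Algebra K F] [IsScalarTower O K F] {t : F} (ht : Transcendental K t)
    [FiniteDimensional K⟮t⟯ F] (p : H36.RatPoint K t⁻¹) {ϖ : O} (hϖ : Irreducible ϖ) {b b' : F}
    (hb : b ∈ H36.chart O t) (hb' : b' ∈ H36.chart O t⁻¹) (hi : H36.InP t ϖ (b ^ 2 - b))
    (hbb : H36.InP t ϖ (b - b')) {u : O} (hu : algebraMap O K u = p.ev b') (hu' : IsUnit u) :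
    H36.InP t ϖ (1 - b) :=
  H36.conn_aux ht p hϖ hb hb' hi hbb hu hu'

/-- **20. The components of the special fibre.** The ring `H36.gs O t` has finitely many maximal ideals.
No primitive polynomial in `t` is in a maximal ideal, every element divisible by `ϖ` is in all of them,
and conversely an element of all of them has a power divisible by `ϖ`. (The components may have
multiplicities.) File: `H36Max`. -/
theorem maximal_ideals {O K F : Type*} [CommRing O] [IsDomain O] [IsDiscreteValuationRing O]
    [Field K] [Algebra O K] [IsFractionRing O K] [Field F] [Algebra O F] [Algebra K F]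
    [IsScalarTower O K F] {ϖ : O} (hϖ : Irreducible ϖ) {t : F} (ht : Transcendental K t)
    [FiniteDimensional K⟮t⟯ F] :
    {P : Ideal (H36.gs O t) | P.IsMaximal}.Finite ∧
      (∀ p : O[X], H36.Prim O p → ∀ P : Ideal (H36.gs O t), P.IsMaximal →
        (⟨aeval t p, H36.aeval_mem_gs t p⟩ : H36.gs O t) ∉ P) ∧
      (∀ P : Ideal (H36.gs O t), P.IsMaximal → ∀ x : H36.gs O t, H36.InP t ϖ (x : F) → x ∈ P) ∧
      ∀ x : H36.gs O t, (∀ P : Ideal (H36.gs O t), P.IsMaximal → x ∈ P) →
        ∃ M : ℕ, H36.InP t ϖ ((x : F) ^ M) :=
  ⟨H36.finite_maximal K ht, fun _ hp P hP => H36.prim_not_mem K ht hp P hP,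
    fun P hP _ hx => H36.mem_of_inP K hϖ ht P hP hx, fun _ hx => H36.exists_pow_inP K hϖ ht hx⟩

/-- **21. The polynomial which makes idempotents.** `H36.idp M z = 1 - (1 - z ^ M) ^ M` is divisible by
`z ^ M`, `1 - H36.idp M z` is divisible by `(1 - z) ^ M`, and the product of the two by
`(z (1 - z)) ^ M`. If `M ≠ 0` and `z ≡ 0` or `z ≡ 1` modulo `P`, then `H36.idp M z ≡ z` modulo `P`. So if
`(z (1 - z)) ^ M` is divisible by `ϖ`, then `H36.idp M z` is idempotent modulo `ϖ`.
File: `H36MaxB`. -/
theorem idempotent_polynomial {R : Type*} [CommRing R] (M : ℕ) (z : R) :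
    H36.idp M z = 1 - (1 - z ^ M) ^ M ∧ z ^ M ∣ H36.idp M z ∧ (1 - z) ^ M ∣ 1 - H36.idp M z ∧
      (z * (1 - z)) ^ M ∣ H36.idp M z * (1 - H36.idp M z) ∧
      ∀ P : Ideal R, M ≠ 0 → z ∈ P ∨ 1 - z ∈ P → H36.idp M z - z ∈ P :=
  ⟨rfl, H36.dvd_idp M z, H36.dvd_one_sub_idp M z, H36.dvd_idp_sq M z,
    fun P hM hz => H36.idp_sub_mem P hM hz⟩

/-- **22. Connectedness, for the components.** Let `b` be in the first chart and `c` in the second, `b ≡ c`
along all components (modulo all maximal ideals of `H36.gs O t`), and let the value of `b` along each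
component be `0` or `1`. Then it is `0` along all components or `1` along all components. (By theorems
20 and 21 one can replace `b` and `c` by elements which are idempotent modulo `ϖ`; and idempotents which
are congruent along all components are congruent modulo `ϖ`.) File: `H36MaxB`. -/
theorem connectedness_components {O K F : Type*} [CommRing O] [IsDomain O]
    [IsDiscreteValuationRing O] [Field K] [CharZero K] [Algebra O K] [IsFractionRing O K] [Field F]
    [Algebra O F] [Algebra K F] [IsScalarTower O K F] {t : F} (ht : Transcendental K t)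
    [FiniteDimensional K⟮t⟯ F] (p : H36.RatPoint K t⁻¹) {b c : H36.gs O t}
    (hb : (b : F) ∈ H36.chart O t) (hc : (c : F) ∈ H36.chart O t⁻¹)
    (h01 : ∀ P : Ideal (H36.gs O t), P.IsMaximal → b ∈ P ∨ 1 - b ∈ P)
    (hbc : ∀ P : Ideal (H36.gs O t), P.IsMaximal → b - c ∈ P) :
    (∀ P : Ideal (H36.gs O t), P.IsMaximal → b ∈ P) ∨
      ∀ P : Ideal (H36.gs O t), P.IsMaximal → 1 - b ∈ P :=
  H36.conn_max ht p hb hc h01 hbc

/-- **23. Components and valuation rings.** If `H36.gs O t` is the intersection of the valuation rings
`V i`, finite in number, then every maximal ideal of `H36.gs O t` is the trace of the maximal ideal of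
one of the `V i`. File: `H36MaxB`. -/
theorem exists_valuation {O F : Type*} [CommRing O] [IsDomain O] [IsDiscreteValuationRing O]
    [Field F] [Algebra O F] {t : F} {ι : Type*} [Finite ι] [Nonempty ι] (V : ι → ValuationSubring F)
    (hS : ∀ x, x ∈ H36.gs O t ↔ ∀ i, x ∈ V i) (P : Ideal (H36.gs O t)) (hP : P.IsMaximal) :
    ∃ i, ∀ x : H36.gs O t, x ∈ P ↔ (V i).valuation (x : F) < 1 :=
  H36.exists_valuation V hS P hP

/-! ## 5. Roots

`F'` is an extension of `F`. In the application it is the splitting field of `Y ^ d - f`. -/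

/-- **24. Extension of the charts.** The ring homomorphisms `H36.chartMap O t` and `H36.gsMap O t` from
the chart and from the semilocal ring for `F` to those for `F'`, given by the inclusion of `F` in `F'`,
are integral. So every component for `F'` lies above a component for `F`, and every closed point above
a closed point. File: `H36MaxB`. -/
theorem extension_integral {O F F' : Type*} [CommRing O] [IsDomain O] [IsDiscreteValuationRing O]
    [Field F] [Algebra O F] [Field F'] [Algebra O F'] [Algebra F F'] [IsScalarTower O F F'] {t : F}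
    (ht : ∀ p : O[X], H36.Prim O p → aeval t p ≠ 0) :
    (∀ x, (H36.chartMap O (F' := F') t x : F') = algebraMap F F' x) ∧
      (∀ x, (H36.gsMap O (F' := F') t x : F') = algebraMap F F' x) ∧
      (H36.chartMap O (F' := F') t).IsIntegral ∧ (H36.gsMap O (F' := F') t).IsIntegral :=
  ⟨H36.coe_chartMap t, H36.coe_gsMap t, H36.chartMap_isIntegral t, H36.gsMap_isIntegral ht⟩

/-- **25. Roots of unity.** Let `d` be invertible in `O` and let `O` contain the `d`-th roots of unity. If
`y ^ d ≡ 1` modulo a prime ideal `P` of an `O`-algebra, then `y` is congruent modulo `P` to a `d`-th root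
of unity in `O`; and different `d`-th roots of unity are different modulo the maximal ideal of `O`.
Files: `H36InjA`, `H36InjB`. -/
theorem roots_of_unity {O R : Type*} [CommRing O] [IsDomain O] [IsDiscreteValuationRing O]
    [CommRing R] [Algebra O R] (P : Ideal R) (hP : P.IsPrime) {d : ℕ} (hd : 0 < d)
    (hd' : IsUnit (d : O)) {ζ : O} (hζ : IsPrimitiveRoot ζ d) :
    (∀ y : R, y ^ d - 1 ∈ P → ∃ ζ' : O, ζ' ^ d = 1 ∧ y - algebraMap O R ζ' ∈ P) ∧
      ∀ ζ' : O, ζ' ^ d = 1 → ζ' ≠ 1 → IsUnit (1 - ζ') :=
  ⟨fun _ hy => H36.exists_root_mem P hP hd hζ hy, fun _ h h1 => H36.isUnit_one_sub hd' h h1⟩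

/-- **26. The local condition.** `H36.LocCond V ϖ f d B` is the condition `hloc` of theorem 27 of
`GuideCarayol` for the chart ring `B`: at every maximal ideal `m` of `B` which contains `ϖ`, `f` is
`h ^ d` times a unit, and the residues of `h` along all components through `m` have at `m` the same
value, which is `1/c` for some `c ∈ O` (`m` contains the elements `x - c s`, where `x h ≡ s` along the
component). File: `H36InjA`. -/
theorem locCond_iff {O F : Type*} [CommRing O] [Field F] [Algebra O F] {ι : Type*}
    (V : ι → ValuationSubring F) (ϖ : O) (f : F) (d : ℕ) (B : Subring F) :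
    H36.LocCond V ϖ f d B ↔
      ∀ m : Ideal B, m.IsMaximal → (∀ z : B, (z : F) = algebraMap O F ϖ → z ∈ m) →
        ∃ (h : F) (a b : B) (c : O) (c' : B), h ≠ 0 ∧ a ∉ m ∧ b ∉ m ∧ f * b = h ^ d * a ∧
          (c' : F) = algebraMap O F c ∧
          ∀ i, (∀ z : B, (V i).valuation (z : F) < 1 → z ∈ m) →
            ∃ x s : B, s ∉ m ∧ (V i).valuation ((x : F) * h - s) < 1 ∧ x - c' * s ∈ m :=
  Iff.rfl

/-- **27. Components with different values do not meet.** Let `y` be a `d`-th root of `f` in the
semilocal ring for `F'`. There is an element `b₀` of the chart for `F'` which is congruent to `1` along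
the components with `y ≡ 1` and to `0` along all other components. Proof: otherwise a component `P` with
`y ≡ 1` and a component `P'` with `y ≡ ζ' ≠ 1` meet in a closed point `m'`. With `h`, `a`, `b`, `c` as in
the local condition at the point below `m'`, the element `T = b y / h` is in the chart, since
`T ^ d = b ^ (d - 1) a`, and by the local condition its value at `m'` is `b c` (from `P`) and also
`ζ' b c` (from `P'`). So `b c`, `T`, and then `b` or `a` are zero at `m'`, a contradiction.
File: `H36InjB`; the computation of the value of `T`: `H36.local_claim` in `H36InjA`. -/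
theorem exists_separating {O F F' : Type*} [CommRing O] [IsDomain O] [IsDiscreteValuationRing O]
    [Field F] [Algebra O F] [Field F'] [Algebra O F'] [Algebra F F'] [IsScalarTower O F F']
    (K : Type*) [Field K] [Algebra O K] [IsFractionRing O K] [Algebra K F] [IsScalarTower O K F]
    [Algebra K F'] [IsScalarTower O K F'] {t : F} (ht : Transcendental K t)
    (ht' : Transcendental K (algebraMap F F' t)) [FiniteDimensional K⟮algebraMap F F' t⟯ F']
    {ι : Type*} [Finite ι] [Nonempty ι] (V : ι → ValuationSubring F)
    (hS : ∀ x, x ∈ H36.gs O t ↔ ∀ i, x ∈ V i)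
    (hR : ∀ i (g z : F), (V i).valuation g < 1 → ∃ N : ℕ, g ^ N * z ∈ V i) {f : F} {d : ℕ}
    (hd : IsUnit (d : O)) {ζ : O} (hζ : IsPrimitiveRoot ζ d)
    (hf : ∀ i, (V i).valuation (f - 1) < 1) {ϖ : O} (hϖ : Irreducible ϖ)
    (hloc : H36.LocCond V ϖ f d (H36.chart O t)) {y : H36.gs O (algebraMap F F' t)}
    (hy : (y : F') ^ d = algebraMap F F' f) :
    ∃ b₀ : H36.gs O (algebraMap F F' t), (b₀ : F') ∈ H36.chart O (algebraMap F F' t) ∧
      ∀ P : Ideal (H36.gs O (algebraMap F F' t)), P.IsMaximal →
        (y - 1 ∈ P → 1 - b₀ ∈ P) ∧ (y - 1 ∉ P → b₀ ∈ P) :=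
  H36.exists_b0 K ht ht' V hS hR hd hζ hf hϖ hloc hy

/-- **28. The root is constant on the special fibre.** With a rational point on `F'` and the local
condition on both charts: every `d`-th root `y ∈ F'` of `f` is a `d`-th root of unity `ζ'` times an
element `y'` which is congruent to `1` along all components. (Theorem 27 in both charts and theorem
22.) File: `H36InjC`. -/
theorem root_congruent_to_one {O F F' : Type*} [CommRing O] [IsDomain O]
    [IsDiscreteValuationRing O] [Field F] [Algebra O F] [Field F'] [Algebra O F'] [Algebra F F']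
    [IsScalarTower O F F'] (K : Type*) [Field K] [CharZero K] [Algebra O K] [IsFractionRing O K]
    [Algebra K F] [IsScalarTower O K F] [Algebra K F'] [IsScalarTower O K F'] {t : F}
    (ht : Transcendental K t) (ht' : Transcendental K (algebraMap F F' t))
    [FiniteDimensional K⟮algebraMap F F' t⟯ F'] (p : H36.RatPoint K (algebraMap F F' t)⁻¹)
    {ι : Type*} [Finite ι] [Nonempty ι] (V : ι → ValuationSubring F)
    (hS : ∀ x, x ∈ H36.gs O t ↔ ∀ i, x ∈ V i)
    (hR : ∀ i (g z : F), (V i).valuation g < 1 → ∃ N : ℕ, g ^ N * z ∈ V i) {f : F} {d : ℕ}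
    (hd : IsUnit (d : O)) {ζ : O} (hζ : IsPrimitiveRoot ζ d)
    (hf : ∀ i, (V i).valuation (f - 1) < 1) {ϖ : O} (hϖ : Irreducible ϖ)
    (hloc : H36.LocCond V ϖ f d (H36.chart O t)) (hloc' : H36.LocCond V ϖ f d (H36.chart O t⁻¹))
    {y : F'} (hy : y ^ d = algebraMap F F' f) :
    ∃ (ζ' : O) (y' : H36.gs O (algebraMap F F' t)), ζ' ^ d = 1 ∧ y = algebraMap O F' ζ' * y' ∧
      ∀ P : Ideal (H36.gs O (algebraMap F F' t)), P.IsMaximal → y' - 1 ∈ P :=
  H36.exists_root_congr K ht ht' p V hS hR hd hζ hf hϖ hloc hloc' hy

/-- **29. The Galois argument.** If `F'` is moreover a finite Galois extension of `F` and contains a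
`d`-th root of `f`, then `F` contains one. (With `y' ≡ 1` as in theorem 28, `σ y' = ζ y'` with
`ζ ^ d = 1` and `σ y' ≡ 1` along all components, so `1 - ζ` is not a unit and `ζ = 1` by theorem 25.)
For `F'` = the splitting field of `Y ^ d - f`, embedded into the field of Laurent series by means of the
`d`-th root there, this is theorem 27 of `GuideCarayol`. File: `H36Inj`. -/
theorem root_descends {O F F' : Type*} [CommRing O] [IsDomain O] [IsDiscreteValuationRing O]
    [Field F] [Algebra O F] [Field F'] [Algebra O F'] [Algebra F F'] [IsScalarTower O F F']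
    (K : Type*) [Field K] [CharZero K] [Algebra O K] [IsFractionRing O K] [Algebra K F]
    [IsScalarTower O K F] [Algebra K F'] [IsScalarTower O K F'] [IsGalois F F']
    [FiniteDimensional F F'] {t : F} (ht : Transcendental K t)
    (ht' : Transcendental K (algebraMap F F' t)) [FiniteDimensional K⟮algebraMap F F' t⟯ F']
    (p : H36.RatPoint K (algebraMap F F' t)⁻¹) {ι : Type*} [Finite ι] [Nonempty ι]
    (V : ι → ValuationSubring F) (hS : ∀ x, x ∈ H36.gs O t ↔ ∀ i, x ∈ V i)
    (hR : ∀ i (g z : F), (V i).valuation g < 1 → ∃ N : ℕ, g ^ N * z ∈ V i) {f : F} {d : ℕ}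
    (hd : IsUnit (d : O)) {ζ : O} (hζ : IsPrimitiveRoot ζ d)
    (hf : ∀ i, (V i).valuation (f - 1) < 1) {ϖ : O} (hϖ : Irreducible ϖ)
    (hloc : H36.LocCond V ϖ f d (H36.chart O t)) (hloc' : H36.LocCond V ϖ f d (H36.chart O t⁻¹))
    {y : F'} (hy : y ^ d = algebraMap F F' f) : ∃ y₀ : F, y₀ ^ d = f :=
  H36.inj_galois K ht ht' p V hS hR hd hζ hf hϖ hloc hloc' hy

/-! ## 6. The hypotheses for `X₀(q² m)`

Here `S : H83.CompSys F E q ι` is a component system (`GuideCarayol`, section E; theorem 11 of
`GuideCarayolTools`): a ring `S.hor` of functions which are regular on the generic fibre of a chart,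
valuation rings `S.V i` with residue maps `S.res i` to a field `E`, for the components `i`, and the
chart ring `S.B`, the intersection of all these rings; `S.p i` is the prime ideal of the component `i`,
`S.qB` is `q` as element of `S.B`, and `H83.locRing S.B m` is the local ring at `m`. `O` is a valuation
ring of `K` with residue map `π : O → k`; for `H83.BaseHyp O π q d` see theorem 12 of
`GuideCarayolTools`; `S.Consts O π`: constants are in `S.hor`, elements of `O` are in all `S.V i`, and
their residues are given by `π`. -/

/-- **30. The base ring is a discrete valuation ring** with uniformizer `q`, if `q` has residue `0` and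
is not `0` in `K`. File: `H36InjS`. -/
theorem base_ring {K k : Type*} [Field K] [Field k] {O : ValuationSubring K} {π : O →+* k}
    {q d : ℕ} (hO : H83.BaseHyp O π q d) (hq : π (q : O) = 0) (hq0 : (q : K) ≠ 0) :
    IsDiscreteValuationRing O ∧ Irreducible (q : O) ∧
      ∀ o : O, o ≠ 0 → ∃ n : ℕ, Associated ((q : O) ^ n) o :=
  ⟨H36.BaseHyp_dvr hO hq hq0, H36.BaseHyp_irreducible hO hq hq0⟩

/-- **31. The components of the model are the components of the component system.** Suppose that the
regular functions on the generic fibre are the functions integral over `K[t]`, that the elements of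
the chart ring are integral over `O[t]` and that the residues of `t` are transcendental over `k`. Then
`H36.gs O t` is the intersection of the `S.V i`. File: `H36InjS`. -/
theorem gs_eq_intersection {K k F E : Type*} [Field K] [Field k] [Field F] [Field E] [Algebra k E]
    [Algebra K F] {q : ℕ} {ι : Type*} {S : H83.CompSys F E q ι} {O : ValuationSubring K}
    {π : O →+* k} [Algebra O F] [IsScalarTower O K F] [IsDiscreteValuationRing O]
    (hS : S.Consts O π) {t : F} (ht : Transcendental K t) [FiniteDimensional K⟮t⟯ F]
    (hhor : ∀ x, x ∈ S.hor ↔ x ∈ H36.chart K t) (hB : ∀ x ∈ S.B, x ∈ H36.chart O t)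
    (htr : ∀ i, Transcendental k (S.res i t)) (x : F) : x ∈ H36.gs O t ↔ ∀ i, x ∈ S.V i :=
  H36.mem_gs_iff_V hS ht hhor hB htr x

/-- **32. The chart ring** contains `H36.chart O t`, so with the hypothesis of theorem 31 the two rings
are equal. File: `H36InjS`. -/
theorem chart_le_chartRing {K k F E : Type*} [Field K] [Field k] [Field F] [Field E] [Algebra k E]
    [Algebra K F] {q : ℕ} {ι : Type*} {S : H83.CompSys F E q ι} {O : ValuationSubring K}
    {π : O →+* k} [Algebra O F] [IsScalarTower O K F] (hS : S.Consts O π) {t : F}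
    (hhor : ∀ x, x ∈ S.hor ↔ x ∈ H36.chart K t) (htV : ∀ i, t ∈ S.V i) {x : F}
    (hx : x ∈ H36.chart O t) : x ∈ S.B :=
  H36.chart_le_B hS hhor htV hx

/-- **33. The local condition from trivial windings.** If at every maximal ideal `m ∋ q` of the chart
ring `f = h ^ d · (unit)` for some `h` whose residues along all components through `m` have the value
`1` at `m`, as in theorem 23 of `GuideCarayol`, then `f` satisfies the local condition of theorem 26.
File: `H83CoreA`. -/
theorem local_condition {K F E : Type*} [Field K] [Field F] [Field E] [Algebra K F] {q d : ℕ}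
    {ι : Type*} {S : H83.CompSys F E q ι} {O : ValuationSubring K} {f : F} (hf0 : f ≠ 0)
    (h : ∀ (m : Ideal S.B) (hm : m.IsMaximal), S.qB ∈ m →
      haveI := hm.isPrime
      ∃ h : F, h ≠ 0 ∧ f / h ^ d ∈ H83.locRing S.B m ∧ (f / h ^ d)⁻¹ ∈ H83.locRing S.B m ∧
        ∀ i, S.p i ≤ m → ∃ a s : S.B, s ∉ m ∧ a - s ∈ m ∧ S.res i ((a : F) / s * h) = 1) :
    H36.LocCond S.V (q : O) f d S.B :=
  H83.locCond_of_HM hf0 h

/-- **34. Residue fields.** Let the chart ring be `H36.chart O t`. At a maximal ideal which contains `q`
every element of the chart ring is congruent to a constant from `O`: the residue field is algebraic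
over `k`, which is algebraically closed. File: `H83Inst`. -/
theorem residue_field {K k F E : Type*} [Field K] [Field k] [Field F] [Field E] [Algebra k E]
    [Algebra K F] {q d : ℕ} {ι : Type*} {S : H83.CompSys F E q ι} {O : ValuationSubring K}
    {π : O →+* k} [IsAlgClosed k] [Fintype ι] (hO : H83.BaseHyp O π q d) (hS : S.Consts O π) {t : F}
    (hB : S.B = H36.chart O t) (n : Ideal S.B) (hn : n.IsMaximal) (hq : S.qB ∈ n) (b : S.B) :
    ∃ o : O, b - hS.toB o ∈ n :=
  H83.exists_const_sub_mem' hO hS hB n hn hq b

/-- **35. Closed points of the second chart with `t⁻¹ ≠ 0` are points of the first chart**, with the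
same local ring. File: `H83Inst`. -/
theorem transfer {K k F E : Type*} [Field K] [Field k] [Field F] [Field E] [Algebra k E]
    [Algebra K F] {q d : ℕ} {ι : Type*} {S D : H83.CompSys F E q ι} {O : ValuationSubring K}
    {π : O →+* k} [IsAlgClosed k] [Fintype ι] (hO : H83.BaseHyp O π q d) (hS : S.Consts O π)
    (hD : D.Consts O π) {t : F} (ht : t ≠ 0) (hSB : S.B = H36.chart O t)
    (hDB : D.B = H36.chart O t⁻¹) (n : Ideal D.B) (hn : n.IsMaximal) (hq : D.qB ∈ n)
    (hy : ∀ z : D.B, (z : F) = t⁻¹ → z ∉ n) :
    haveI := hn.isPrime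
    ∃ (m : Ideal S.B) (hm : m.IsMaximal),
      haveI := hm.isPrime
      S.qB ∈ m ∧ H83.locRing S.B m = H83.locRing D.B n :=
  H83.exists_transfer hO hS hD ht hSB hDB n hn hq hy

/-- **36. The cusps.** `D` is the system of the second chart (`H24.CuspSys`; `D.yB` is the function
`1/j`). Let `f` have residue `1` along the components and divisor divisible by `d`. Then the condition of
theorem 33 holds at the maximal ideals which contain `q` and `1/j`: through such a point passes only
one component, and the local ring is factorial (theorem 24 of `GuideCarayol`). File: `H83CoreB`. -/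
theorem windings_at_cusps {K k F E : Type*} [Field K] [Field k] [Field F] [Field E] [Algebra k E]
    [Algebra K F] {q d : ℕ} {O : ValuationSubring K} {π : O →+* k} {D : H24.CuspSys k F E q}
    [IsAlgClosed k] (hO : H83.BaseHyp O π q d) (H : H83.CuspHyp D O π) (n : Ideal D.B)
    (hn : n.IsMaximal) (hy : D.yB ∈ n) (hq : D.qB ∈ n) {f : F} (hf : ∀ i, D.res i f = 1)
    (hord : ∀ P : AlgebraicCurve.Place K F, (d : ℤ) ∣ P.ord f) :
    haveI := hn.isPrime
    ∃ h : F, h ≠ 0 ∧ f / h ^ d ∈ H83.locRing D.B n ∧ (f / h ^ d)⁻¹ ∈ H83.locRing D.B n ∧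
      ∀ i, D.p i ≤ n → ∃ a s : D.B, s ∉ n ∧ a - s ∈ n ∧ D.res i ((a : F) / s * h) = 1 :=
  H.HM hO n hn hy hq hf hord

/-- **37. The two systems together.** `H83.CoreHyp S O π D t`, the hypothesis of the core theorem (theorem
28 of `GuideCarayol`), holds if `S` and `D` have the same valuation rings and residues, `D.y = t⁻¹`, the
regular functions on the generic fibre are the functions integral over `K[t]` resp. `K[t⁻¹]`, the
elements of the chart rings are integral over `O[t]` resp. `O[t⁻¹]` and the residues of `t` are
transcendental. (Theorems 31, 32, 35.) File: `H83Inst2`. -/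
theorem core_hypotheses {k E : Type*} [Field k] [Field E] [Algebra k E] [IsAlgClosed k] {q : ℕ}
    {R : H83.ResData k E q} {F' F : Type*} [Field F'] [Field F] {T : H83.TwoData R F'}
    {S : H83.ThreeData T F} {K : Type*} [Field K] [CharZero K] [Algebra K F'] [Algebra K F]
    {O : ValuationSubring K} [IsDiscreteValuationRing O] {π : O →+* k} {d : ℕ}
    {D : H24.CuspSys k F E q} {t : F} (hO : H83.BaseHyp O π q d) (H : S.Hyp O π)
    (cD : D.toCompSys.Consts O π) (ht : Transcendental K t) (hfin : FiniteDimensional K⟮t⟯ F)
    (hy : D.y = t⁻¹) (hV : ∀ i, D.V i = S.V i) (hres : ∀ i x, D.res i x = S.res i x)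
    (hhor : ∀ x, x ∈ S.hor ↔ x ∈ H36.chart K t) (hhorD : ∀ x, x ∈ D.hor ↔ x ∈ H36.chart K t⁻¹)
    (hB : ∀ x ∈ S.B, x ∈ H36.chart O t) (hDB : ∀ x ∈ D.B, x ∈ H36.chart O t⁻¹)
    (htr : ∀ i, Transcendental k (S.res i t)) : H83.CoreHyp S O π D t :=
  H83.CoreHyp.of hO H cD ht hfin hy hV hres hhor hhorD hB hDB htr

/-- **38. The theorem on roots for component systems.** In the situation of theorem 37, with a rational
point at which `t⁻¹` is a uniformizer and the `d`-th roots of unity in `O`: a function with residue `1`
along all components, with divisor divisible by `d`, and with the condition of theorem 33 at the closed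
points of the first chart, is a `d`-th power. (Theorems 33, 35, 36, theorem 28 of `GuideCarayolTools` for
the Laurent series, and theorem 27 of `GuideCarayol`.) File: `H83Core`. -/
theorem root_for_systems {k E : Type*} [Field k] [Field E] [Algebra k E] [IsAlgClosed k] {q : ℕ}
    {R : H83.ResData k E q} {F' F : Type*} [Field F'] [Field F] {T : H83.TwoData R F'}
    {S : H83.ThreeData T F} {K : Type*} [Field K] [CharZero K] [Algebra K F'] [Algebra K F]
    {O : ValuationSubring K} [IsDiscreteValuationRing O] {π : O →+* k} {d : ℕ}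
    {D : H24.CuspSys k F E q} {t : F} (hO : H83.BaseHyp O π q d) (C : H83.CoreHyp S O π D t)
    (p : H36.RatPoint K t⁻¹) (hirr : Irreducible (q : O)) {ζ : O} (hζ : IsPrimitiveRoot ζ d) {f : F}
    (hf : ∀ i, S.res i f = 1) (hord : ∀ P : AlgebraicCurve.Place K F, (d : ℤ) ∣ P.ord f)
    (hw : ∀ (m : Ideal S.B) (hm : m.IsMaximal), S.qB ∈ m →
      haveI := hm.isPrime
      ∃ h : F, h ≠ 0 ∧ f / h ^ d ∈ H83.locRing S.B m ∧ (f / h ^ d)⁻¹ ∈ H83.locRing S.B m ∧
        ∀ i, S.p i ≤ m → ∃ a s : S.B, s ∉ m ∧ a - s ∈ m ∧ S.res i ((a : F) / s * h) = 1) :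
    ∃ y : F, y ^ d = f :=
  C.exists_root hO p hirr hζ hf hord hw

/-- **39. Roots of unity in the inertia field.** The valuation ring `H36.OI A` of the inertia field of
`A` (theorem 4 of `GuideCarayol`) contains a primitive `d`-th root of unity, if `d` is not divisible by
the residue characteristic. File: `H83C9`. -/
theorem roots_of_unity_inertiaField (A : ValuationSubring (AlgebraicClosure ℚ)) {k : Type*}
    [Field k] (π : A →+* k) [IsLocalHom π] {d : ℕ} (hd : (d : k) ≠ 0) :
    ∃ ζ : H36.OI A, IsPrimitiveRoot ζ d :=
  H83.exists_primitiveRoot_OI A π hd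

/-- **40. The rational point is the cusp `∞`.** The `q`-expansion of `1/j` is a power series `q + ...`, so
the `q`-expansion is a rational point of the function field of `X₀(N)` at which `1/j` is a uniformizer.
File: `H24CuspX`. -/
theorem inverse_j (K : Type*) [Field K] :
    ∃ P : PowerSeries K, (ModularCurve.jqModC K)⁻¹ = HahnSeries.ofPowerSeries ℤ K P ∧
      PowerSeries.coeff 0 P = 0 ∧ PowerSeries.coeff 1 P = 1 :=
  ⟨H24.invJ K, H24.coe_invJ K, by simp [H24.invJ], by
    rw [H24.invJ, show (1 : ℕ) = 0 + 1 from rfl, PowerSeries.coeff_succ_X_mul]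
    simp [H24.constantCoeff_jNum_map]⟩

/-- **41. The hypotheses hold for `X₀(q² m)`.** In the situation of theorem 18 of `GuideCarayol` (`D` is
the ramified extension of theorem 15 there, `R` the residue data of theorem 12, `hlift` theorem 11), and
if moreover the functions on `X₀(m)` modulo `q` which are integral over `k[1/j]` can be lifted
(`H24.LiftInv`), there are a three-component system `S` on the function field of `X₀(q² m)` whose norms
are the two push-forwards to `X₀(q m)` and a cusp system which satisfy the hypothesis of the core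
theorem for `t = j`, and a rational point at which `1/j` is a uniformizer. (Theorems 37 and 40.)
Files: `H24CuspX`, `H24CuspInst`. -/
theorem core_hypotheses_X0 {K K' k : Type*} [Field K] [Field K'] [Algebra K K'] [Field k]
    [Algebra ℚ K] [Algebra ℚ K'] [CharZero K] [CharZero K'] [IsAlgClosed k]
    [Fact (H66.HasRoots K')] {A : ValuationSubring K} [IsDiscreteValuationRing A] {π : A →+* k}
    {A' : ValuationSubring K'} {π' : A' →+* k} {q m c : ℕ} [hq : Fact q.Prime] [NeZero q] [NeZero m]
    [CharP k q] (hqm : ¬ q ∣ m) (hc : c = 4 ∨ c = 9) (hcm : c ∣ m) {w : H99.AL K m q}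
    (w' : H99.AL K' m q) (w₂ : H99.AL2 K m q w) (w₂' : H99.AL2 K' m q w')
    (D : H99.RamData A π A' π' q) (hG : D.Gal) (hπ : Function.Surjective π) (ι : K →+* ℂ)
    (R : H83.ResData k (LaurentSeries k) q) (hRC : ∀ x, x ∈ R.C ↔ x ∈ H18.Cm k m)
    (hRX : R.X = H1.Xc c k) (hRD : ∀ x, R.D x = H61.theta x / H61.theta (H1.Xc c k))
    (hRΦ : ∀ x, R.Φ x = ModularCurve.qExpand k q x) (hlift : H68.LiftK K m A π)
    (hLinv : H24.LiftInv A π m) {d : ℕ} (hO : H83.BaseHyp A π q d) :
    ∃ (T : H83.TwoData R (H99.FX K (m * q))) (S : H83.ThreeData T (H99.FX K (m * q * q)))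
      (C : H24.CuspSys k (H99.FX K (m * q * q)) (LaurentSeries k) q),
      (∀ x, S.Nα x = H60.normAlong (ModularCurve.heckeAlphaBar K (m * q) q) x) ∧
      (∀ x, S.Nβ x = H60.normAlong (ModularCurve.heckeBetaBar K (m * q) q) x) ∧
      H83.CoreHyp S A π C (S.α (H99.jX K (m * q))) ∧
      Nonempty (H36.RatPoint K (S.α (H99.jX K (m * q)))⁻¹) :=
  ⟨_, H99.threeX hqm w' w₂ w₂' D hG R hc hcm ι hπ hRC hRX hRD hlift hRΦ, _, fun _ => rfl,
    fun _ => rfl, H24.coreHypX hqm w' w₂ w₂' D hG R hc hcm ι hπ hRC hRX hRD hlift hRΦ hLinv hO,
    ⟨H24.ratPointX hqm w' w₂ w₂' D hG R hc hcm ι hπ hRC hRX hRD hlift hRΦ⟩⟩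

end Fermat.Agent.Guide.Connectedness
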