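import Fermat.Agent.H39ZC5

/-!
# Guide: the comparison operator has no constant terms

Companion of `GuideOctC` (section 3) and `GuideOctCSpec` (section 3), which state the result.  In block
(C) of the octahedral case (S47) the trace formulas of two operators are compared, one for the sextic
field `E` (three complex places) and one for the quadratic field `F` (one complex place).  A trace
formula without truncation needs operators whose automorphic kernels have no constant terms.  This guide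
shows the steps by which this is achieved.

**The idea.**  The constant term of an invariant function `Φ`, at the point `y` of the finite part, is a
function of the logarithms `u_j` of the heights at the complex places (sections 1, 2).  On these
functions, divided by `∏ exp(u_j)`:
* the Hecke operator at a place `w` acts as `√q (S + S⁻¹)`, where `q = N(w)` and `S` is `√q` times the
  action of `diag(a, 1)` at the place `w` *alone*; here `a` is any element with valuation `1` at `w`;
* a radial operator acts by convolution with its Abel transform, and the radial operators of the family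
  differ by factors `t + t⁻¹`, where `t` is the translation of `u` by a vector `L`.
All these `S_i` and `t_k` commute.  The aleph polynomial `P` satisfies
`P(x_a + x_a⁻¹) = ∏ (1 - ∏ x_a^{±1})`, the outer product over all choices of signs, so `P` evaluated
at our operators has the factor `1 - ∏ S_i ∏ t_k`.  Take `a = -p`, where `p` is close to `-1` at the other
places of the level, so that `diag(a, 1)` does nothing there.  Then `∏ S_i ∏ t_k` is the action of the
*global* element `diag(a^r, 1)`, up to the constant `∏ √N(w_i) / ∏_j |a^r|_j`, which is `1`.  Constant terms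
are invariant under `diag(a^r, 1)`, hence killed.  Over `E`: three places `w_i`, `r = 1`, and `L_k` is
`log p` at the place `k`.  Over `F`: three times the same place, `r = 3`, and `L_k = log p`.
(The `t_k` are the inverses of the `t_j` of `GuideOctC`.)

**Serves** S47.  **Notes**: NOTES.md [470] (this block), [433] (radial kernels).

**Modules** in reading order: `H39ZPoly`, `H80Al` (aleph polynomial), `H39ZMean`, `H39ZMean2` (means),
`H39ZCT` (constant terms), `H39ZAct` (commuting operators), `H39ZInd` (induction over the monomials),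
`H39ZFD` (Hecke operators), `H39ZFin` (fixed point relation), `H39ZCusp` (kernels), `H39ZC5` (results).
Functions on the finite part invariant under all `n b` (`H12TW`, used in `step_finite` and in
`fixed_point`) are treated in `GuideUnipotent`; the kernels in `GuideOctCKernels`.

**Notation.**  `H3` is hyperbolic space with coordinates `z`, `y`; `m : Model K J` a level structure with
the complex places `m.e j`; `XF m.L.fam` the finite part (families of cosets `y v`), `m.X` the product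
of `(H3)^J` with it.  `emb m x` is the image `(m.e j x)_j` in `ℂ^J` of `x` in `K`, so in the hypothesis
`hb` below `b` is a basis of a lattice of images of integers.  `n b` and `d a` are the classes of
`(1 b; 0 1)` and `(a 0; 0 1)` in `PGL₂(K)`.  `m.L.U v` is the level group at `v`, `Gam v n` the principal
congruence subgroup of level `n` at `v`.  `H39Z.LB f` : `f` is measurable and bounded on compact sets.
For the levels (`H59D.Level`) see `GuideSiegel`; for the kernels on the finite part (`GlobKer`), their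
data (`H79S.KerData`) and the local types (`H76U.TD`) see `GuideOctCLevel`, `GuideOctCTarget`,
`GuideOctCBad`.

Text by helper39.
-/

set_option autoImplicit false

open IsDedekindDomain HeightOneSpectrum WithZero NumberField MeasureTheory Module Matrix
open scoped MatrixGroups Classical
open Fermat.Agent.H59XF Fermat.Agent.H59D Fermat.Agent.H12TW
open Fermat.Agent.H7.Z (borP)
open Fermat.Agent.H5Z (Rk tr emb)

noncomputable section

namespace Fermat.Agent.Guide.ConstantTerms

/-! ## 1. Constant terms on `(H3)^J` -/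

/-- **Definitions.**  `H39Z.cmean μ g` is the mean of `g` over a fundamental domain of any lattice of periods
(it does not depend on the lattice, see `GuideOctCSpec`).  The constant term `H39Z.ct0 f x` is the mean
of `z ↦ f(x + z)`, and `H39Z.HP b f` says that `f` is periodic in `z` under a multiple of the lattice of
the basis `b`.  (Files `H39ZMean2`, `H39ZCT`.) -/
theorem ct0_def {J ι : Type*} [Fintype J] [Fintype ι] (b : Basis ι ℝ (J → ℂ)) (f : (J → H3) → ℂ)
    (x : J → H3) :
    H39Z.ct0 f x = H39Z.cmean (volume : Measure (J → ℂ)) (fun z => f (tr z x)) ∧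
      (H39Z.HP b f ↔ ∃ n : ℕ, 0 < n ∧ ∀ x z, ∀ v ∈ Submodule.span ℤ (Set.range b),
        f (tr (z + (n : ℝ) • v) x) = f (tr z x)) :=
  ⟨rfl, Iff.rfl⟩

/-- **Linear change of variables.**  If `f` is periodic under the lattice of the basis `b`
(`H5Z.Per b f`) and `A` is an invertible linear map, then `z ↦ f (A z)` is periodic under the lattice
`A⁻¹ b`, and the two means agree.  Sums and translations are similar.  (File `H39ZMean2`.) -/
theorem cmean_comp_linear {E : Type*} [NormedAddCommGroup E] [NormedSpace ℝ E]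
    [FiniteDimensional ℝ E] [MeasurableSpace E] [BorelSpace E] (μ : Measure E)
    [μ.IsAddHaarMeasure] {ι : Type*} [Fintype ι] {b : Basis ι ℝ E} {f : E → ℂ}
    (hf : H39Z.LB f) (h : H5Z.Per b f) (A : E ≃ₗ[ℝ] E) :
    H39Z.cmean μ (fun z => f (A z)) = H39Z.cmean μ f :=
  H39Z.cmean_comp_linear μ hf h A

/-- **The constant term depends only on the heights** and is compatible with the dilations
`H39Z.dil a : (z_j, y_j) ↦ (a_j z_j, |a_j| y_j)`, `a_j` in `ℂˣ`, since the image of a lattice of periods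
is a lattice of periods.  (File `H39ZCT`.) -/
theorem ct0_tr {J ι : Type*} [Fintype J] [Fintype ι] {b : Basis ι ℝ (J → ℂ)} {f : (J → H3) → ℂ}
    (hf : H39Z.LB f) (h : H39Z.HP b f) (w : J → ℂ) (a : J → ℂˣ) (x : J → H3) :
    H39Z.ct0 f (tr w x) = H39Z.ct0 f x ∧
      H39Z.ct0 (fun x => f (H39Z.dil a x)) x = H39Z.ct0 f (H39Z.dil a x) :=
  ⟨H39Z.ct0_tr hf h w x, H39Z.ct0_comp_dil hf h a x⟩

/-- **The constant term is linear**, and radial operators (`Rk κ`, see the next theorem) commute with the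
translations `tr w : z ↦ z + w`.  With Fubini's theorem for the product of a fundamental domain and a ball
it follows that the constant term commutes with radial operators (`constantTerm_radial` in
`GuideOctCSpec`).  (Files `H39ZCT`, `H5ZIter`.) -/
theorem ct0_linear {J ι : Type*} [Fintype J] [Fintype ι] {b : Basis ι ℝ (J → ℂ)} {I : Type*}
    (s : Finset I) {f : I → (J → H3) → ℂ} (hf : ∀ i ∈ s, H39Z.LB (f i))
    (h : ∀ i ∈ s, H39Z.HP b (f i)) (x : J → H3) :
    H39Z.ct0 (fun x => ∑ i ∈ s, f i x) x = ∑ i ∈ s, H39Z.ct0 (f i) x ∧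
      (∀ i ∈ s, ∀ c : ℂ, H39Z.ct0 (fun x => c * f i x) x = c * H39Z.ct0 (f i) x) ∧
      ∀ (κ : (J → ℝ) → ℂ) (g : (J → H3) → ℂ) (w : J → ℂ),
        Rk κ g (tr w x) = Rk κ (fun x => g (tr w x)) x :=
  ⟨H39Z.ct0_sum s hf h x, fun i hi c => H39Z.ct0_const_mul (hf i hi) (h i hi) c x,
    fun κ g w => H5Z.Rk_tr κ g w x⟩

/-- **Radial operators on functions of the heights** (helper56).  `Rk κ f` is the integral operator with
kernel `κ(cosh of the distances)`, and `H56Z.abel κ` the Abel transform of `κ` in every variable.  With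
the factor `exp(-Σ u_j)`, which explains the division by `∏ y_j` below.  (File `H56ZAbel`.) -/
theorem Rk_height {J : Type*} [Fintype J] {κ : (J → ℝ) → ℂ} (hκ : H56Z.IsRC κ)
    {f : (J → ℝ) → ℂ} (hf : LocallyIntegrable f volume) (w : J → H3) :
    Rk κ (fun w' => f (H56Z.lh w')) w =
      ∫ u, f (H56Z.lh w + u) * (Real.exp (-∑ j, u j) : ℂ) * H56Z.abel κ u :=
  H56Z.Rk_height hκ hf w

/-! ## 2. Constant terms of invariant functions -/

/-- **Functions invariant under the Borel subgroup.**  `H39Z.AF m Φ` collects what is used about an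
invariant function `Φ`, locally bounded: invariance under `n b` and `d a`.  (File `H39ZFin`.) -/
theorem af_of_invariant {K : Type*} [Field K] [NumberField K] {J : Type*} [Fintype J]
    {m : Model K J} {Φ : m.X → ℂ} (h : ∀ (g : PGL(2, K)) p, Φ (g • p) = Φ p)
    (hlb : ∀ y, H39Z.LB fun x => Φ (x, y)) : H39Z.AF m (fun y x => Φ (x, y)) :=
  H39Z.AF.of_inv h hlb

/-- **Periodicity.**  For every `y` some integer `N > 0` satisfies `n (N x) y = y` for all integers `x` of
`K`; so `Φ(y)` is periodic in `z` under `N` times the lattice of integers.  (File `H39ZFin`.) -/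
theorem exists_periods {K : Type*} [Field K] [NumberField K] {J : Type*} [Fintype J]
    {m : Model K J} {Φ : XF m.L.fam → (J → H3) → ℂ} (h : H39Z.AF m Φ) {ι : Type*}
    {b : Basis ι ℝ (J → ℂ)}
    (hb : ∀ v : J → ℂ, v ∈ Submodule.span ℤ (Set.range b) → ∃ x : 𝓞 K, v = emb m (x : K))
    (y : XF m.L.fam) : H39Z.HP b (Φ y) :=
  h.exists_hp hb y

/-- **The constant term as a function of the log-heights.**  `H39Z.ph Φ y u` is the constant term of
`Φ(y)` at the point with heights `exp(u_j)`, and `H39Z.fh Φ y u` the same divided by `∏ exp(u_j)`.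
(File `H39ZFin`.) -/
theorem ct0_eq_ph {K : Type*} [Field K] [NumberField K] {J : Type*} [Fintype J] {m : Model K J}
    {Φ : XF m.L.fam → (J → H3) → ℂ} (h : H39Z.AF m Φ) {ι : Type*} [Fintype ι]
    {b : Basis ι ℝ (J → ℂ)}
    (hb : ∀ v : J → ℂ, v ∈ Submodule.span ℤ (Set.range b) → ∃ x : 𝓞 K, v = emb m (x : K))
    (y : XF m.L.fam) (x : J → H3) (u : J → ℝ) :
    H39Z.ct0 (Φ y) x = H39Z.ph Φ y (H56Z.lh x) ∧
      H39Z.fh Φ y u = (Real.exp (-∑ j, u j) : ℂ) * H39Z.ph Φ y u :=
  ⟨h.ct0_eq_ph hb y x, rfl⟩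

/-- **Invariance of constant terms** under `n t` and `d a` for `t` and `a` in the field: `n t` does nothing
on log-heights and `d a` adds `log |a|_j` at the place `j`.  (File `H39ZFin`.) -/
theorem ph_invariant {K : Type*} [Field K] [NumberField K] {J : Type*} [Fintype J]
    {m : Model K J} {Φ : XF m.L.fam → (J → H3) → ℂ} (h : H39Z.AF m Φ) {ι : Type*} [Fintype ι]
    {b : Basis ι ℝ (J → ℂ)}
    (hb : ∀ v : J → ℂ, v ∈ Submodule.span ℤ (Set.range b) → ∃ x : 𝓞 K, v = emb m (x : K))
    (t : K) (a : Kˣ) (y : XF m.L.fam) (u : J → ℝ) :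
    H39Z.ph Φ ((borP K).n t • y) u = H39Z.ph Φ y u ∧
      H39Z.ph Φ ((borP K).d a • y) (u + fun j => Real.log ‖m.e j (a : K)‖) = H39Z.ph Φ y u :=
  ⟨congrFun (h.ph_n hb t y) u, h.ph_d hb a y u⟩

/-- **Radial operators on constant terms.**  After division by the heights, `R(κ)` acts as `JJ (abel κ)`,
where `H39Z.JJ A F y u = ∫ F(y, u + v) A(v) dv`: a convolution.  (Files `H39ZInd`, `H39ZFin`.) -/
theorem ct0_Rk {K : Type*} [Field K] [NumberField K] {J : Type*} [Fintype J] {m : Model K J}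
    {Φ : XF m.L.fam → (J → H3) → ℂ} (h : H39Z.AF m Φ) {ι : Type*} [Fintype ι]
    {b : Basis ι ℝ (J → ℂ)}
    (hb : ∀ v : J → ℂ, v ∈ Submodule.span ℤ (Set.range b) → ∃ x : 𝓞 K, v = emb m (x : K))
    {κ : (J → ℝ) → ℂ} (hκ : H56Z.IsRC κ) (y : XF m.L.fam) (x : J → H3) :
    H39Z.ct0 (Rk κ (Φ y)) x = (Real.exp (∑ j, H56Z.lh x j) : ℂ) *
      ∫ v, H39Z.fh Φ y (H56Z.lh x + v) * H56Z.abel κ v :=
  h.ct0_Rk' hb hκ y x

/-- The functions considered from now on: `F(y, u)` invariant under `n b`, locally bounded in `u`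
(`H39Z.Good`).  The `fh Φ` are of this kind.  (File `H39ZFin`.) -/
theorem good_fh {K : Type*} [Field K] [NumberField K] {J : Type*} [Fintype J] {m : Model K J}
    {Φ : XF m.L.fam → (J → H3) → ℂ} (h : H39Z.AF m Φ) {ι : Type*} [Fintype ι]
    {b : Basis ι ℝ (J → ℂ)}
    (hb : ∀ v : J → ℂ, v ∈ Submodule.span ℤ (Set.range b) → ∃ x : 𝓞 K, v = emb m (x : K)) :
    H39Z.Good (H39Z.fh Φ) :=
  h.good hb

/-! ## 3. The aleph polynomial in commuting operators -/

/-- **Twisted translations**: for a commutative group `Γ` acting on a set `Ω`, `x = (g, c)` acts on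
functions by `(trop x F)(ω) = c F(g ω)`, and `H39Z.opP x P` is the value of the integral polynomial `P`
at the operators `trop (x_a) + trop (x_a)⁻¹`.  (File `H39ZAct`.) -/
theorem trop_apply {A : Type} [Fintype A] [DecidableEq A] {Γ : Type*} [CommGroup Γ] {Ω : Type*}
    [MulAction Γ Ω] (x : A → Γ × ℂˣ) (a : A) (F : Ω → ℂ) (ω : Ω) :
    H39Z.trop (x a) F ω = ((x a).2 : ℂ) * F ((x a).1 • ω) ∧
      H39Z.opP x (MvPolynomial.X a) F = H39Z.trop (x a) F + H39Z.trop (x a)⁻¹ F := by
  refine ⟨rfl, ?_⟩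
  rw [H39Z.opP_X, LinearMap.add_apply]

/-- **Killing.**  If the product of all `x_a` fixes `F`, the aleph polynomial (`H80Al.IsAleph`, see
`exists_aleph` in `GuideOctC`) kills `F`.  (File `H39ZAct`.) -/
theorem opP_kill {A : Type} [Fintype A] [DecidableEq A] {Γ : Type*} [CommGroup Γ] {Ω : Type*}
    [MulAction Γ Ω] {P : MvPolynomial A ℤ} (hP : H80Al.IsAleph P) (x : A → Γ × ℂˣ) (F : Ω → ℂ)
    (h : H39Z.trop (∏ a, x a) F = F) : H39Z.opP x P F = 0 :=
  H39Z.opP_kill hP x F h

/-- **Our group**: it acts on pairs `(u, y)` by translations of `u` and by diagonal matrices at the places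
`w_i`, independently of each other.  The parameters are `H39Z.xx a sq Lv`: for an index `i` the matrix
`diag(a, 1)` at `w_i` with the constant `sq i = √q_i`, for an index `k` the translation by `Lv k`.
(File `H39ZInd`.) -/
theorem trop_xx {K : Type*} [Field K] [NumberField K] {L : Level (𝓞 K) K} {ι κ : Type}
    [Fintype ι] [DecidableEq ι] {w : ι → HeightOneSpectrum (𝓞 K)} {J : Type*} [Fintype J]
    [Fintype κ] [DecidableEq κ] (a : Kˣ) (sq : ι → ℂˣ) (Lv : κ → J → ℝ) (i : ι) (k : κ)
    (ψ : H39Z.Om L w J → ℂ) (y : XF L.fam) (u : J → ℝ) :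
    H39Z.cu (H39Z.trop (H39Z.xx a sq Lv (Sum.inl i)) ψ) y u =
        (sq i : ℂ) * H39Z.cu ψ (XF.upd y (w i) ((borP K).d a • y (w i))) u ∧
      H39Z.cu (H39Z.trop (H39Z.xx a sq Lv (Sum.inr k)) ψ) y u = H39Z.cu ψ y (u + Lv k) :=
  ⟨H39Z.cu_trop_inl a sq Lv i ψ y u, H39Z.cu_trop_inr a sq Lv k ψ y u⟩

/-! ## 4. Induction over the monomials -/

/-- **Hecke operators.**  `H39Z.FinData w a q T f`: the level is maximal at `w_i`; the operator `T_i` at `w_i`
is the sum over the cosets `n b · d a`, `b` in a set of `q_i` elements, and `(d a)⁻¹`; and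
`f (n + e_i) = f n · T_i`.  It holds for the Hecke operators of block (C), with `q_i = N(w_i)`, for every
`a` of valuation one at the `w_i`.  (File `H39ZFD`.) -/
theorem finData_hecke {K : Type*} [Field K] [NumberField K] {J J' : Type*} [Fintype J]
    [Fintype J'] {m : Model K J'} {S : Finset (HeightOneSpectrum (𝓞 K))}
    {w0 : HeightOneSpectrum (𝓞 K)} {Ty : HeightOneSpectrum (𝓞 K) → H76U.TD K}
    (D : H79S.KerData m S w0 Ty) {ι : Type} [Fintype ι] [DecidableEq ι]
    (w : ι → HeightOneSpectrum (𝓞 K)) (hw : ∀ i, w i ∉ S ∧ w i ≠ w0) (a : Kˣ)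
    (ha : ∀ i, (w i).valuation K (a : K) = exp (-(1 : ℤ))) :
    H39Z.FinData (J := J) w a (fun i => Ideal.absNorm (w i).asIdeal) (fun i => D.D.T (w i))
      (fun n => D.D.mono (∑ i, Finsupp.single (w i) (n i)) 0) :=
  H39Z.finData_mono D w hw a ha

/-- **Step at a finite place.**  On functions invariant under `n b` the operator `T_i` is
`√q_i (S_i + S_i⁻¹)`: the `q_i` cosets `n b · d a` contribute equally, which gives
`q_i · d(a) + d(a)⁻¹`.  (`H51Z.gop f` is the operator of a kernel `f` on the finite part.)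
(File `H39ZInd`.) -/
theorem step_finite {K : Type*} [Field K] [NumberField K] {L : Level (𝓞 K) K} {ι κ : Type}
    [Fintype ι] [DecidableEq ι] {w : ι → HeightOneSpectrum (𝓞 K)} {J : Type*} [Fintype J]
    [Fintype κ] [DecidableEq κ] {a : Kˣ} {q : ι → ℕ} {T : ∀ i, LocKer (L.fam.U (w i))}
    {f : (ι → ℕ) → GlobKer L.fam} (hD : H39Z.FinData (J := J) w a q T f) (Lv : κ → J → ℝ)
    {A : (J → ℝ) → ℂ} (hA : Continuous A) (hA' : HasCompactSupport A) (n : ι → ℕ) (i : ι)
    {ψ : H39Z.Om L w J → ℂ} (h : H39Z.Good (H39Z.cu ψ)) :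
    H51Z.gop (f (n + Pi.single i 1)) (H39Z.JJ A (H39Z.cu ψ)) =
      (H39Z.sqU q hD.qpos i : ℂ) • H51Z.gop (f n) (H39Z.JJ A (H39Z.cu
        (H39Z.trop (H39Z.xx a (H39Z.sqU q hD.qpos) Lv (Sum.inl i)) ψ +
          H39Z.trop (H39Z.xx a (H39Z.sqU q hD.qpos) Lv (Sum.inl i))⁻¹ ψ))) :=
  H39Z.ind_step_inl hD Lv hA hA' n i h

/-- **Step at infinity.**  `H39Z.RadData Lv kk`: the kernels `kk n` are radial kernels, and the Abel transform
of `kk (n + e_k)` at `u` is the sum of the values of the one of `kk n` at `u + Lv k` and `u - Lv k`.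
Then one step is `t_k + t_k⁻¹`.  (File `H39ZInd`.) -/
theorem step_infinite {K : Type*} [Field K] [NumberField K] {L : Level (𝓞 K) K} {ι κ : Type}
    [Fintype ι] [DecidableEq ι] {w : ι → HeightOneSpectrum (𝓞 K)} {J : Type*} [Fintype J]
    [Fintype κ] [DecidableEq κ] {Lv : κ → J → ℝ} {kk : (κ → ℕ) → (J → ℝ) → ℂ}
    (hR : H39Z.RadData Lv kk) (a : Kˣ) (sq : ι → ℂˣ) (n : κ → ℕ) (k : κ)
    {ψ : H39Z.Om L w J → ℂ} (h : H39Z.Good (H39Z.cu ψ)) :
    H39Z.JJ (H56Z.abel (kk (n + Pi.single k 1))) (H39Z.cu ψ) =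
      H39Z.JJ (H56Z.abel (kk n)) (H39Z.cu (H39Z.trop (H39Z.xx a sq Lv (Sum.inr k)) ψ +
        H39Z.trop (H39Z.xx a sq Lv (Sum.inr k))⁻¹ ψ)) :=
  H39Z.ind_step_inr hR a sq n k h

/-- **Result of the induction**: the operator of the monomial `n`, divided by `∏ √q_i ^ (n_i)`, is the
operator of the zero monomial applied to the monomial in the `S_i + S_i⁻¹`, `t_k + t_k⁻¹`.
(File `H39ZInd`.) -/
theorem monomial_eq {K : Type*} [Field K] [NumberField K] {L : Level (𝓞 K) K} {ι κ : Type}
    [Fintype ι] [DecidableEq ι] {w : ι → HeightOneSpectrum (𝓞 K)} {J : Type*} [Fintype J]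
    [Fintype κ] [DecidableEq κ] {a : Kˣ} {q : ι → ℕ} {T : ∀ i, LocKer (L.fam.U (w i))}
    {f : (ι → ℕ) → GlobKer L.fam} (hD : H39Z.FinData (J := J) w a q T f) {Lv : κ → J → ℝ}
    {kk : (κ → ℕ) → (J → ℝ) → ℂ} (hR : H39Z.RadData Lv kk) (n : ι ⊕ κ →₀ ℕ)
    (ψ : H39Z.Om L w J → ℂ) (h : H39Z.Good (H39Z.cu ψ)) :
    (∏ i, ((H39Z.sqU q hD.qpos i : ℂ)⁻¹) ^ n (Sum.inl i)) •
      H51Z.gop (f fun i => n (Sum.inl i))
        (H39Z.JJ (H56Z.abel (kk fun k => n (Sum.inr k))) (H39Z.cu ψ)) =
      H51Z.gop (f 0) (H39Z.JJ (H56Z.abel (kk 0)) (H39Z.cu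
        (H39Z.opP (H39Z.xx a (H39Z.sqU q hD.qpos) Lv) (MvPolynomial.monomial n 1) ψ))) :=
  H39Z.ind_main hD hR n ψ h

/-- **The aleph operator kills** every good function fixed by the product of all parameters.
(File `H39ZInd`.) -/
theorem sum_eq_zero {K : Type*} [Field K] [NumberField K] {L : Level (𝓞 K) K} {ι κ : Type}
    [Fintype ι] [DecidableEq ι] {w : ι → HeightOneSpectrum (𝓞 K)} {J : Type*} [Fintype J]
    [Fintype κ] [DecidableEq κ] {P : MvPolynomial (ι ⊕ κ) ℤ} (hP : H80Al.IsAleph P) {a : Kˣ}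
    {q : ι → ℕ} {T : ∀ i, LocKer (L.fam.U (w i))} {f : (ι → ℕ) → GlobKer L.fam}
    (hD : H39Z.FinData (J := J) w a q T f) {Lv : κ → J → ℝ} {kk : (κ → ℕ) → (J → ℝ) → ℂ}
    (hR : H39Z.RadData Lv kk) (ψ : H39Z.Om L w J → ℂ) (h : H39Z.Good (H39Z.cu ψ))
    (hfix : H39Z.trop (∏ s, H39Z.xx a (H39Z.sqU q hD.qpos) Lv s) ψ = ψ) (y : XF L.fam)
    (u : J → ℝ) :
    ∑ n ∈ P.support, ((MvPolynomial.coeff n P : ℤ) : ℂ) *
      ((∏ i, ((H39Z.sqU q hD.qpos i : ℂ)⁻¹) ^ n (Sum.inl i)) *
        H51Z.gop (f fun i => n (Sum.inl i))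
          (H39Z.JJ (H56Z.abel (kk fun k => n (Sum.inr k))) (H39Z.cu ψ)) y u) = 0 :=
  H39Z.sum_eq_zero hP hD hR ψ h hfix y u

/-! ## 5. The fixed point relation -/

/-- **The product of the parameters**: the translation by `Σ Lv k`, the matrix `diag(a, 1)` once for every
index `i` at the place `w_i` (so `diag(a^r, 1)` at a place which occurs `r` times), and the constant
`∏ sq i`.  (File `H39ZFin`.) -/
theorem prod_xx {K : Type*} [Field K] [NumberField K] {ι κ : Type} [Fintype ι] [DecidableEq ι]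
    {J : Type*} [Fintype J] [Fintype κ] [DecidableEq κ] (a : Kˣ) (sq : ι → ℂˣ) (Lv : κ → J → ℝ) :
    ∏ s, H39Z.xx a sq Lv s =
      ((Multiplicative.ofAdd (∑ k, Lv k), fun _ : ι => a), ∏ i, sq i) :=
  H39Z.prod_xx a sq Lv

/-- **The fixed point relation.**  Every place among the `w_i` occurs `r` times; outside of them `a` is a
unit so close to `1` that `diag(a, 1)` is in the level group; `Σ Lv k = log |a^r|` at the complex places;
`∏ sq i = ∏_j |a^r|_j`.  Then the product of all parameters fixes the constant terms (divided by the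
heights): it acts as the global `diag(a^r, 1)`.  (`H39Z.uc w F` is `F` as a function of the pair
`(u, y)`.)  (File `H39ZFin`.) -/
theorem fixed_point {K : Type*} [Field K] [NumberField K] {J : Type*} [Fintype J]
    {m : Model K J} {Φ : XF m.L.fam → (J → H3) → ℂ} {ι κ : Type} [Fintype ι] [DecidableEq ι]
    [Fintype κ] [DecidableEq κ] (h : H39Z.AF m Φ) {ι' : Type*} [Fintype ι']
    {b : Basis ι' ℝ (J → ℂ)}
    (hb : ∀ v : J → ℂ, v ∈ Submodule.span ℤ (Set.range b) → ∃ x : 𝓞 K, v = emb m (x : K))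
    {w : ι → HeightOneSpectrum (𝓞 K)} {a : Kˣ} {r : ℕ}
    (hr : ∀ i, (Finset.univ.filter fun i' => w i' = w i).card = r)
    (ha : ∀ v, (∀ i, w i ≠ v) → v.valuation K (a : K) = 1 ∧ ∃ n : ℕ, Gam v n ≤ m.L.U v ∧
      v.valuation K ((a : K) - 1) ≤ exp (-(n : ℤ)))
    (sq : ι → ℂˣ) {Lv : κ → J → ℝ}
    (hL : ∀ j, ∑ k, Lv k j = Real.log ‖m.e j ((a ^ r : Kˣ) : K)‖)
    (hq : ∏ i, (sq i : ℂ) = ((∏ j, ‖m.e j ((a ^ r : Kˣ) : K)‖ : ℝ) : ℂ)) :
    H39Z.trop (∏ s, H39Z.xx a sq Lv s) (H39Z.uc w (H39Z.fh Φ)) = H39Z.uc w (H39Z.fh Φ) :=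
  h.fix hb hr ha sq hL hq

/-- **The constant terms of `C₁ Φ` vanish**, where `H39Z.C1 P q hq f kk` is the sum over the monomials `n` of
the aleph polynomial `P` of the operators `f n ⊗ kk n`, with the coefficients of `P` divided by
`∏ √q_i ^ (n_i)`.  (File `H39ZFin`.) -/
theorem ct0_C1 {K : Type*} [Field K] [NumberField K] {J : Type*} [Fintype J] {m : Model K J}
    {Φ : XF m.L.fam → (J → H3) → ℂ} {ι κ : Type} [Fintype ι] [DecidableEq ι] [Fintype κ]
    [DecidableEq κ] (h : H39Z.AF m Φ) {ι' : Type*} [Fintype ι'] {b : Basis ι' ℝ (J → ℂ)}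
    (hb : ∀ v : J → ℂ, v ∈ Submodule.span ℤ (Set.range b) → ∃ x : 𝓞 K, v = emb m (x : K))
    {P : MvPolynomial (ι ⊕ κ) ℤ} (hP : H80Al.IsAleph P) {w : ι → HeightOneSpectrum (𝓞 K)}
    {a : Kˣ} {q : ι → ℕ} {T : ∀ i, LocKer (m.L.fam.U (w i))} {f : (ι → ℕ) → GlobKer m.L.fam}
    (hD : H39Z.FinData (J := J) w a q T f) {Lv : κ → J → ℝ} {kk : (κ → ℕ) → (J → ℝ) → ℂ}
    (hR : H39Z.RadData Lv kk) {r : ℕ}
    (hr : ∀ i, (Finset.univ.filter fun i' => w i' = w i).card = r)
    (ha : ∀ v, (∀ i, w i ≠ v) → v.valuation K (a : K) = 1 ∧ ∃ n : ℕ, Gam v n ≤ m.L.U v ∧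
      v.valuation K ((a : K) - 1) ≤ exp (-(n : ℤ)))
    (hL : ∀ j, ∑ k, Lv k j = Real.log ‖m.e j ((a ^ r : Kˣ) : K)‖)
    (hq : ∏ i, (H39Z.sqU q hD.qpos i : ℂ) = ((∏ j, ‖m.e j ((a ^ r : Kˣ) : K)‖ : ℝ) : ℂ))
    (y : XF m.L.fam) (x : J → H3) : H39Z.ct0 (H39Z.C1 P q hD.qpos f kk Φ y) x = 0 :=
  h.ct0_C1 hb hP hD hR hr ha hL hq y x

/-! ## 6. Kernels -/

/-- **The automorphic kernel as a value of the operator.**  The automorphic kernel of
`Σ_i (a * κ_i) ⊗ f_i`, as a function of the first variable, is the operator `Σ_i f_i ⊗ κ_i` applied to the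
automorphic kernel of `a ⊗ 1` (`H39Z.Fz m a x'`).  So section 5 applies to it; this is the reason for
the additional radial kernel `a`.  (File `H39ZCusp`.) -/
theorem autK_eq {K : Type*} [Field K] [NumberField K] {J : Type*} [Fintype J] {m : Model K J}
    {I : Type*} (s : Finset I) {κs : I → (J → ℝ) → ℂ} (hκ : ∀ i ∈ s, H56Z.IsRC (κs i))
    (f : I → GlobKer m.L.fam) {a : (J → ℝ) → ℂ} (ha : H56Z.IsRC a) (x' : m.X) (v : J → H3)
    (y : XF m.L.fam) :
    H32Z.CutOff.autK PGL(2, K) (H59K.fk m s (fun i => H56Z.conv a (κs i)) f) ((v, y) : m.X) x' =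
      ∑ i ∈ s, ∑ y' ∈ H51Z.gs (f i) y, (f i).k y y' * Rk (κs i) (H39Z.Fz m a x' y') v :=
  H39Z.autK_fk s hκ f ha x' v y

/-- The automorphic kernel of `a ⊗ 1` is of the kind considered in section 2.  (File `H39ZCusp`.) -/
theorem af_Fz {K : Type*} [Field K] [NumberField K] {J : Type*} [Fintype J] {m : Model K J}
    {a : (J → ℝ) → ℂ} (ha : H56Z.IsRC a) (x' : m.X) : H39Z.AF m (H39Z.Fz m a x') :=
  H39Z.AF_Fz ha x'

/-- **Result for the kernels** in the general form.  `H86B.CuspAll`: for every `η` there is a bound, and for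
every `x'` a set of translations of positive measure within this bound, such that the integral of
the automorphic kernel over these translations of `(w, η)` vanishes, for all `w`.  (`H39Z.nf q _ n` is
the factor `∏ √q_i ^ (-n_i)` of `C1`.)  The two special cases used, for `E` and `F`, are `H39Z.final_E`
and `H39Z.final_F`; they are stated in `GuideOctC` and `GuideOctCSpec`.  (File `H39ZCusp`.) -/
theorem cuspAll {K : Type*} [Field K] [NumberField K] {J : Type*} [Fintype J] {m : Model K J}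
    {ι κ : Type} [Fintype ι] [DecidableEq ι] [Fintype κ] [DecidableEq κ]
    {P : MvPolynomial (ι ⊕ κ) ℤ} (hP : H80Al.IsAleph P) {w : ι → HeightOneSpectrum (𝓞 K)}
    {a : Kˣ} {q : ι → ℕ} {T : ∀ i, LocKer (m.L.fam.U (w i))} {f : (ι → ℕ) → GlobKer m.L.fam}
    (hD : H39Z.FinData (J := J) w a q T f) {Lv : κ → J → ℝ} {kk : (κ → ℕ) → (J → ℝ) → ℂ}
    (hR : H39Z.RadData Lv kk) {r : ℕ}
    (hr : ∀ i, (Finset.univ.filter fun i' => w i' = w i).card = r)
    (ha : ∀ v, (∀ i, w i ≠ v) → v.valuation K (a : K) = 1 ∧ ∃ n : ℕ, Gam v n ≤ m.L.U v ∧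
      v.valuation K ((a : K) - 1) ≤ exp (-(n : ℤ)))
    (hL : ∀ j, ∑ k, Lv k j = Real.log ‖m.e j ((a ^ r : Kˣ) : K)‖)
    (hq : ∏ i, (H39Z.sqU q hD.qpos i : ℂ) = ((∏ j, ‖m.e j ((a ^ r : Kˣ) : K)‖ : ℝ) : ℂ))
    {κs : (ι ⊕ κ →₀ ℕ) → (J → ℝ) → ℂ}
    (hκs : ∀ n, κs n = fun t => ((MvPolynomial.coeff n P : ℤ) : ℂ) *
      H39Z.nf q hD.qpos (fun i => n (Sum.inl i)) * kk (fun k => n (Sum.inr k)) t)
    {a0 : (J → ℝ) → ℂ} (ha0 : H56Z.IsRC a0) :
    H86B.CuspAll m (H59K.fk m P.support (fun n => H56Z.conv a0 (κs n))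
      (fun n => f fun i => n (Sum.inl i))) :=
  H39Z.cuspAll_C1 hP hD hR hr ha hL hq hκs ha0

/-- **The numerical conditions** hold in the two cases: if all `w_i` have norm `p²`, every place occurs `r`
times among the three `w_i`, there are `3 / r` complex places, and `p` is close to `-1` at the other
places of the level (`H39Z.PData`), then `a = -p` satisfies the conditions of section 5 on `a` and on the
constant.  (The valuation of `a` at the `w_i` is one by `H39Z.PData`, and the condition on the vectors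
is `Σ Lv k j = log p^r`.)  (File `H39ZC5`.) -/
theorem numerical {K : Type*} [Field K] [NumberField K] {J : Type*} [Fintype J] {m : Model K J}
    {S : Finset (HeightOneSpectrum (𝓞 K))} {w0 : HeightOneSpectrum (𝓞 K)}
    {w : Fin 3 → HeightOneSpectrum (𝓞 K)} {p : ℕ} (hP : H39Z.PData m S w0 w p) {r : ℕ}
    (hr : ∀ i, (Finset.univ.filter fun i' => w i' = w i).card = r)
    (hrJ : r * Fintype.card J = 3) (hqpos : ∀ i, 0 < Ideal.absNorm (w i).asIdeal) :
    (∀ v, (∀ i, w i ≠ v) → v.valuation K (H39Z.mp K hP.pos : K) = 1 ∧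
      ∃ n : ℕ, Gam v n ≤ m.L.U v ∧
        v.valuation K ((H39Z.mp K hP.pos : K) - 1) ≤ exp (-(n : ℤ))) ∧
    ∏ i, (H39Z.sqU (fun i => Ideal.absNorm (w i).asIdeal) hqpos i : ℂ) =
      ((∏ j : J, ‖m.e j ((H39Z.mp K hP.pos ^ r : Kˣ) : K)‖ : ℝ) : ℂ) :=
  hP.hyps hr hrJ hqpos

end Fermat.Agent.Guide.ConstantTerms
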