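import Fermat.Agent.H26Cube

/-!
# Guide to the proof: the theorem of the cube for heights, step by step (statement S26)

Companion of `GuideAbelian` (sections 3 to 5) and of `GuideAbelianTools` (section 2). There the results are
stated; here are the steps of their proofs. The goal is `GuideAbelian.height_cube`: for an abelian variety
`𝒜` over an algebraically closed field `K`, a divisor `D` on it and points `X`, `Y`, `Z` with values in the
function field `E` of a curve,

    ht(X+Y+Z) - ht(X+Y) - ht(X+Z) - ht(Y+Z) + ht(X) + ht(Y) + ht(Z) = 0.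

No line bundles, no cohomology and no theorem of the cube of algebraic geometry are used.  The plan (Weil):

1. Constant field extensions: linear algebra (section 1), degrees, bases, functions without generic poles,
   transitivity (section 2).
2. Specialisation: a curve over a field `k₁` and its reduction over the residue field `κ` of a valuation
   ring of `k₁`.  The local rings `R_τ` of the model (section 3), and specialisation of points (section 4).
3. The theorem of the square on a curve: first for two independent generic points, then for all points by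
   specialisation (section 5).
4. The theorem of the cube for heights: over the algebraic closure `k₁` of `E` the points `Y`, `Z` are
   constants, so the square gives a function `Φ` on the curve over `k₁`; compare its residues at the
   diagonal place and at a constant place (section 6).

All theorems cited in this file are used in the proof of S26; those of section 2 (except transitivity),
`tensor_ring`, `coefficients` and the first half of `linearly_disjoint` also in the library of `J₀(N)`
(`H17Div`, divisibility of groups of divisor classes), and so for S01, S03, S04, S06, S09, S12, S15, S17,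
S38, S39, S40, S43, S45, S46, S50, S59, S60. NOTES: [261] (helper26). Author of the files and of this guide:
helper26.

Notation, as in `GuideAbelianTools`: `IsFF k E`: `E` is a function field of one variable over `k`;
`Place k E`: the places, `w.ord` the valuation of `w`, `w.adicValuation x < 1` means that `x` vanishes at `w`;
`Divisor k E`: divisors; `IsCE k k' E E'`: `E'` is the quotient field of `E ⊗_k k'` (constant field
extension); `IsCE.pl k' E' c`, `IsCE.con k' E' D`: the place of `E'` above the place `c` of `E`, and the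
divisor of `E'` which belongs to the divisor `D` of `E`; `LinEq`: linear equivalence.  A place `w` of `E'` is
called generic if it is trivial on `E` (all functions in `E` are regular at `w`).  As in `GuideAbelian`:
`𝒜 : AV K` is an abelian variety seen through its points, `𝒜.Pt R` the group of its `R`-valued points,
`𝒜.map` the functoriality, `𝒜.val X f` the value of the function `f` at `X`, `D : 𝒜.CDiv` a Cartier divisor,
`D.pull k X` the divisor `X^* D` on the curve with function field `E`, and `D.ht k X` its degree.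
-/

set_option autoImplicit false

noncomputable section

open AlgebraicCurve Polynomial IntermediateField
open Fermat.Agent.H26 Fermat.Agent.H3RR Fermat.Agent.H26.AV
open scoped TensorProduct

namespace Fermat.Agent.Guide.Cube

universe u

/-! ## 1. Constant field extensions: linear algebra

In sections 1 and 2 (where nothing else is said) `k`, `k'`, `E`, `E'` are fields, `k'` and `E` are
extensions of `k`, `E'` is an extension of `k'` and of `E` (compatible over `k`), and `IsCE k k' E E'`. -/

/-- **A nonzero element of a finitely generated domain over an algebraically closed field has a nonzero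
value** at some `k`-valued point (Nullstellensatz). File `H26Tensor`. -/
theorem exists_nonzero_value {k B : Type*} [Field k] [IsAlgClosed k] [CommRing B] [IsDomain B]
    [Algebra k B] [Algebra.FiniteType k B] {b : B} (hb : b ≠ 0) : ∃ χ : B →ₐ[k] k, χ b ≠ 0 :=
  exists_algHom_ne_zero hb

/-- **The tensor product of two domains over an algebraically closed field is a domain.** Proof: if
`x y = 0` in `E ⊗ B`, write `x` and `y` in a basis of `E` over `k`, with coefficients in a finitely generated
subalgebra of `B`; a point of it at which a coefficient of `x` and a coefficient of `y` have nonzero values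
(previous theorem for their product) gives two nonzero elements of `E` with product zero. File
`H26Tensor`. -/
theorem tensor_domain (k E B : Type*) [Field k] [IsAlgClosed k] [CommRing E] [IsDomain E]
    [Algebra k E] [CommRing B] [IsDomain B] [Algebra k B] : IsDomain (E ⊗[k] B) :=
  isDomain_tensor k E B

section

variable {k k' E E' : Type*} [Field k] [Field k'] [Field E] [Field E'] [Algebra k k']
    [Algebra k E] [Algebra k' E'] [Algebra E E'] [Algebra k E'] [IsScalarTower k k' E']
    [IsScalarTower k E E']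

/-- **The tensor ring.** `tens k k' E E'` is the subring of `E'` generated by `k'` and `E`. Its elements are
the linear combinations of elements of `E` with coefficients in `k'`; more generally `IsCE.ext k' E' S` is
the `k'`-span of a `k`-subspace `S` of `E`, and each of its elements is a sum `∑ λᵢ eᵢ` with `eᵢ` in `S` and
`λᵢ` in `k'` linearly independent over `k`. File `H26CE1`. -/
theorem tensor_ring :
    (∀ x : E', x ∈ IsCE.tens k k' E E' ↔ x ∈ Submodule.span k' (Set.range (algebraMap E E'))) ∧
    (∀ x : E', x ∈ IsCE.tens k k' E E' ↔ x ∈ IsCE.ext k' E' (⊤ : Submodule k E)) ∧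
    ∀ (S : Submodule k E) (x : E'), x ∈ IsCE.ext k' E' S →
      ∃ (n : ℕ) (l : Fin n → k') (e : Fin n → E), LinearIndependent k l ∧ (∀ i, e i ∈ S) ∧
        x = ∑ i, algebraMap k' E' (l i) * algebraMap E E' (e i) :=
  ⟨fun _ => IsCE.mem_tens_iff, fun _ => IsCE.mem_tens_iff_mem_ext, fun _ _ => IsCE.exists_rep⟩

variable [IsCE k k' E E']

/-- **Linear disjointness is symmetric.** Families in `E` which are linearly independent over `k` are
linearly independent over `k'`, and families in `k'` which are linearly independent over `k` are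
linearly independent over `E`. File `H26CE1`. -/
theorem linearly_disjoint :
    (∀ (ι : Type*) (e : ι → E), LinearIndependent k e →
      LinearIndependent k' fun i => algebraMap E E' (e i)) ∧
    ∀ (ι : Type*) (l : ι → k'), LinearIndependent k l →
      LinearIndependent E fun i => algebraMap k' E' (l i) :=
  ⟨fun _ => IsCE.linInd, fun _ => IsCE.linInd'⟩

/-- **Comparison of coefficients.** Let `λᵢ` in `k'` be linearly independent over `k`. Then `∑ λᵢ eᵢ` lies
in the `k'`-span of a subspace `S` of `E` exactly if all `eᵢ` lie in `S` (for `S = 0`: the sum is zero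
exactly if all `eᵢ` are zero). Moreover the span of `S` has the same dimension over `k'` as `S` over `k`.
File `H26CE1`. -/
theorem coefficients :
    (∀ (S : Submodule k E) (n : ℕ) (l : Fin n → k'), LinearIndependent k l → ∀ e : Fin n → E,
      ((∑ i, algebraMap k' E' (l i) * algebraMap E E' (e i)) ∈ IsCE.ext k' E' S ↔ ∀ i, e i ∈ S)) ∧
    ∀ S : Submodule k E, Module.finrank k' (IsCE.ext k' E' S) = Module.finrank k S :=
  ⟨fun _ _ _ hl _ => IsCE.mem_ext_iff hl, IsCE.finrank_ext⟩

/-! ## 2. Constant field extensions of function fields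

The same notation; from `isFF_extension` on `E` is a function field of one variable over `k`, and from
`residues_above` on `k` is algebraically closed (and, from `exists_separating_element` on, `k'` too where it
is needed). `k⟮s⟯` is the subfield generated by `s`. -/

/-- **Bases.** If `s` in `E` is transcendental over `k`, then it is transcendental over `k'`, and a basis of
`E` over `k(s)` is a basis of `E'` over `k'(s)`. Proof: the elements `s ^ j eᵢ` are linearly independent
over `k`, so over `k'`; hence the `eᵢ` have no linear relation with coefficients in `k'[s]`. The ring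
generated by `E` over `k'(s)` is the span of the `eᵢ`, so it is a domain of finite dimension over a field,
that is a field; it contains `E ⊗ k'`, so it is `E'`. File `H26CE2`. -/
theorem basis_extension {s : E} (hs : Transcendental k s) :
    Transcendental k' (algebraMap E E' s) ∧
    (∀ (n : ℕ) (e : Fin n → E), LinearIndependent k⟮s⟯ e → ∀ p : Fin n → k'[X],
      ∑ i, aeval (algebraMap E E' s) (p i) * algebraMap E E' (e i) = 0 → p = 0) ∧
    ∀ (n : ℕ) (e : Module.Basis (Fin n) k⟮s⟯ E),
      ∃ e' : Module.Basis (Fin n) k'⟮algebraMap E E' s⟯ E', ∀ i, e' i = algebraMap E E' (e i) :=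
  ⟨IsCE.transcendental_map hs, fun _ e he p h => IsCE.poly_independent hs e he p h,
    fun _ e => IsCE.exists_basis hs e⟩

/-- **`E'` is a function field of one variable over `k'`** if `E` is one over `k` (by `basis_extension`). File
`H26CE2`. -/
theorem isFF_extension [IsFF k E] : IsFF k' E' :=
  IsCE.isFF k k' E E'

/-- **The place above a place `c`**, the local computation. `vLe c n` is the space of functions `e` in `E`
with `ord_c(e) ≥ -n`; so `vLe c 0` is the local ring of `c` and `vLe c (-1)` its maximal ideal; `O`, `m`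
denote their `k'`-spans in `E'`. An element of `O` is a constant in `k'` modulo `m`; nonzero constants are
not in `m`; so `m` is a prime ideal of `O` (the product of two elements outside `m` is outside `m`); and
every nonzero element of `E ⊗ k'` is an element of `O` outside `m` after multiplication with a function in
`E` of suitable order at `c` (`unif c n` is a function with `ord_c = -n`). File `H26CE3`. -/
theorem residues_above [IsAlgClosed k] [IsFF k E] (c : Place k E) :
    (∀ x ∈ IsCE.ext k' E' (vLe c 0), ∃ a : k', x - algebraMap k' E' a ∈ IsCE.ext k' E' (vLe c (-1))) ∧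
    (∀ a : k', a ≠ 0 → algebraMap k' E' a ∉ IsCE.ext k' E' (vLe c (-1))) ∧
    (∀ x y : E', x ∈ IsCE.ext k' E' (vLe c 0) → x ∉ IsCE.ext k' E' (vLe c (-1)) →
      y ∈ IsCE.ext k' E' (vLe c 0) → y ∉ IsCE.ext k' E' (vLe c (-1)) →
      x * y ∉ IsCE.ext k' E' (vLe c (-1))) ∧
    ∀ x ∈ IsCE.tens k k' E E', x ≠ 0 → ∃ n : ℤ,
      algebraMap E E' (unif c n) * x ∈ IsCE.ext k' E' (vLe c 0) ∧
      algebraMap E E' (unif c n) * x ∉ IsCE.ext k' E' (vLe c (-1)) :=
  ⟨fun _ hx => IsCE.exists_const_sub_mem c hx, fun _ ha => IsCE.one_notMem_ext c ha,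
    fun _ _ h1 h2 h3 h4 => IsCE.mul_notMem_ext c h1 h2 h3 h4,
    fun _ hx h0 => IsCE.exists_unif_mul c hx h0⟩

/-- **The place above `c` is unique**: a place `w` of `E'` whose valuation ring meets `E` in the valuation
ring of `c` is `IsCE.pl k' E' c`; and at a generic place all functions in `E` have order zero. File
`H26CE3`. -/
theorem place_above_unique [IsAlgClosed k] [IsFF k E] :
    (∀ (c : Place k E) (w : Place k' E'),
      (∀ e : E, algebraMap E E' e ∈ w.toValuationSubring ↔ e ∈ c.toValuationSubring) →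
      w = IsCE.pl k' E' c) ∧
    ∀ w : Place k' E', (∀ e : E, algebraMap E E' e ∈ w.toValuationSubring) →
      ∀ e : E, w.ord (algebraMap E E' e) = 0 :=
  ⟨fun _ _ => IsCE.eq_pl_of_comap, fun _ => IsCE.ord_generic⟩

end

/-- **Separating elements.** A function field `E` of one variable over a perfect field `k` is separable over
`k(s)` for some `s`. File `H26CE4`. -/
theorem exists_separating_element (k E : Type*) [Field k] [Field E] [Algebra k E] [PerfectField k]
    [IsFF k E] : ∃ s : E, Transcendental k s ∧ Algebra.IsSeparable k⟮s⟯ E :=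
  exists_separating k E

section

variable {k k' E E' : Type*} [Field k] [Field k'] [Field E] [Field E'] [Algebra k k']
    [Algebra k E] [Algebra k' E'] [Algebra E E'] [Algebra k E'] [IsScalarTower k k' E']
    [IsScalarTower k E E'] [IsCE k k' E E'] [IsAlgClosed k] [IsFF k E] [IsAlgClosed k']

/-- **A function `x` without poles at the generic places lies in `E ⊗ k'`.** First part: the poles of `x`
lie above places of `E`, so those where `s` is finite are removed by a polynomial `q(s)` with coefficients
in `k` (!). Second part: choose `s` separating, a basis `bᵢ` of `E` over `k(s)` and the dual basis `dᵢ` for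
the trace form; both are bases of `E'` over `k'(s)` (`basis_extension`), so `x = ∑ Tr(x bᵢ) dᵢ`. The
function `x bᵢ` has no generic poles either; so `q(s) x bᵢ` is regular where `s` is finite, for some `q`,
and therefore integral over `k'[s]`; its trace `q(s) Tr(x bᵢ)` is integral and lies in `k'(s)`, so it is a
polynomial in `s`, and `Tr(x bᵢ)` lies in `E ⊗ k'`. File `H26CE4`. -/
theorem no_generic_poles (x : E')
    (hx : ∀ w : Place k' E', (∀ e : E, algebraMap E E' e ∈ w.toValuationSubring) →
      x ∈ w.toValuationSubring) :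
    (∀ s : E, ∃ q : k[X], q ≠ 0 ∧ ∀ w : Place k' E', algebraMap E E' s ∈ w.toValuationSubring →
      algebraMap E E' (aeval s q) * x ∈ w.toValuationSubring) ∧
    x ∈ IsCE.tens k k' E E' :=
  ⟨fun s => IsCE.exists_clear s hx, IsCE.mem_tens_of_generic hx⟩

/-- **Riemann-Roch spaces** commute with constant field extensions: the space of the divisor of `E'` which
belongs to `D` is the `k'`-span of the space of `D`. Proof: an element has no poles at generic places, so
it lies in `E ⊗ k'`; compare coefficients. File `H26CE5`. -/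
theorem riemannRoch_extension (D : Divisor k E) :
    riemannRochSpace (IsCE.con k' E' D) = IsCE.ext k' E' (riemannRochSpace D) :=
  IsCE.riemannRochSpace_con D

end

/-- **Effective divisors with one section.** If `ell D > 0`, then `D` is linearly equivalent to an effective
divisor; two linearly equivalent effective divisors with `ell ≤ 1` are equal. (`D` nonspecial of degree
the genus, `ell D = 1`, in the theorem of the square.) File `H26CE5`. -/
theorem unique_effective {k E : Type*} [Field k] [Field E] [Algebra k E] [IsAlgClosed k] [IsFF k E] :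
    (∀ D : Divisor k E, 0 < ell D → ∃ D' : Divisor k E, 0 ≤ D' ∧ LinEq D' D) ∧
    ∀ D₁ D₂ : Divisor k E, 0 ≤ D₁ → 0 ≤ D₂ → LinEq D₁ D₂ → ell D₂ ≤ 1 → D₁ = D₂ :=
  ⟨fun _ => exists_effective, fun _ _ => eq_of_linEq_of_ell_le_one⟩

/-- **Transitivity**: a constant field extension of a constant field extension is one, and the places and
divisors above places and divisors of `E` are compatible. File `H26CE6`. -/
theorem constant_extension_trans (k k₁ k₂ E E₁ E₂ : Type*) [Field k] [Field k₁] [Field k₂] [Field E]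
    [Field E₁] [Field E₂] [Algebra k k₁] [Algebra k₁ k₂] [Algebra k k₂] [IsScalarTower k k₁ k₂]
    [Algebra E E₁] [Algebra E₁ E₂] [Algebra E E₂] [IsScalarTower E E₁ E₂]
    [Algebra k E] [Algebra k₁ E₁] [Algebra k₂ E₂] [Algebra k E₁] [Algebra k₁ E₂] [Algebra k E₂]
    [IsScalarTower k k₁ E₁] [IsScalarTower k E E₁] [IsScalarTower k₁ k₂ E₂]
    [IsScalarTower k₁ E₁ E₂] [IsScalarTower k k₂ E₂] [IsScalarTower k E E₂]
    [IsCE k k₁ E E₁] [IsCE k₁ k₂ E₁ E₂] :
    IsCE k k₂ E E₂ ∧ ∀ [IsCE k k₂ E E₂] [IsAlgClosed k] [IsAlgClosed k₁] [IsFF k E] [IsFF k₁ E₁],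
      (∀ c : Place k E, (IsCE.pl k₂ E₂ (IsCE.pl k₁ E₁ c) : Place k₂ E₂) = IsCE.pl k₂ E₂ c) ∧
      ∀ D : Divisor k E, (IsCE.con k₂ E₂ (IsCE.con k₁ E₁ D) : Divisor k₂ E₂) = IsCE.con k₂ E₂ D :=
  ⟨IsCE.trans k k₁ k₂ E E₁ E₂, ⟨IsCE.pl_pl, IsCE.con_con⟩⟩

/-! ## 3. The reduction of a curve and its local rings

A place `w` of `E / k`, with `k` algebraically closed, has a residue map from its valuation ring to `k`; for a
subfield `K` of `k` it is written `rsd K w : (plV K w).toSubalgebra →ₐ[K] k`. -/

/-- **The residue map of a place**: `f - rsd f` vanishes at `w`, and this determines the constant `rsd f`;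
`rsd f = 0` exactly if `f` vanishes at `w`. File `H26Red2`. -/
theorem residue_map {k E : Type*} [Field k] [Field E] [Algebra k E] [IsAlgClosed k] [IsFF k E]
    (K : Type*) [Field K] [Algebra K k] [Algebra K E] [IsScalarTower K k E] (w : Place k E)
    (x : (plV K w).toSubalgebra) :
    w.adicValuation ((x : E) - algebraMap k E (rsd K w x)) < 1 ∧
      (∀ a : k, w.adicValuation ((x : E) - algebraMap k E a) < 1 → rsd K w x = a) ∧
      (rsd K w x = 0 ↔ w.adicValuation (x : E) < 1) :=
  ⟨adicValuation_sub_rsd K w x, fun _ h => rsd_eq K w h, rsd_eq_zero_iff K w⟩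

/-- **Lifting and Gauss valuation.** A `Reduction` consists of the valuation ring `G` of `E₁` (Gauss
valuation), `ρ : G → Eκ`, the map `r` of places (see `GuideAbelianTools.reduction_of_functions`), with two
more properties: functions in the Riemann-Roch space of `r_* D` are reductions of functions in the
Riemann-Roch space of `D`, if the degree of `D` is big; and if `∑ cᵢ eᵢ` lies in `G`, where the `eᵢ` in `E`
are linearly independent over `k`, then all `cᵢ` lie in `A`. File `H26Red1`. -/
theorem lifting_and_gauss {k k₁ κ E E₁ Eκ : Type*} [Field k] [Field k₁] [Field κ] [Field E]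
    [Field E₁] [Field Eκ] [Algebra k k₁] [Algebra k E] [Algebra k₁ E₁] [Algebra E E₁]
    [Algebra κ Eκ] [Algebra E Eκ] {A : ValuationSubring k₁} {π : A →+* κ}
    (𝓡 : Reduction k k₁ κ E E₁ Eκ A π) :
    (∀ D : Divisor k₁ E₁, 𝓡.bound < Divisor.degree D →
      ∀ y ∈ riemannRochSpace (Finsupp.mapDomain 𝓡.r D), ∃ x : 𝓡.G,
        (x : E₁) ∈ riemannRochSpace D ∧ 𝓡.ρ x = y) ∧
    ∀ (n : ℕ) (e : Fin n → E), LinearIndependent k e → ∀ c : Fin n → k₁,
      (∑ i, algebraMap k₁ E₁ (c i) * algebraMap E E₁ (e i)) ∈ 𝓡.G → ∀ i, c i ∈ A :=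
  ⟨𝓡.exists_lift, fun _ => 𝓡.coeff_mem⟩

section

/-! In the rest of this section (notation of `GuideAbelianTools.reduction_of_functions`) `E` is a function
field over `k`; `E₁` and `Eκ` are its constant field extensions to `k₁` and `κ`; `A` is a valuation ring of
`k₁` which contains `k`, with a homomorphism `π : A → κ` which is the identity on `k`; the fields `k`, `k₁`,
`κ` are algebraically closed.  `K` is a subfield of `k`. -/

variable {K k k₁ κ E E₁ Eκ : Type*} [Field K] [Field k] [Field k₁] [Field κ] [Field E]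
    [Field E₁] [Field Eκ] [Algebra k k₁] [Algebra k E] [Algebra k₁ E₁] [Algebra E E₁]
    [Algebra k E₁] [IsScalarTower k k₁ E₁] [IsScalarTower k E E₁] [IsCE k k₁ E E₁]
    [Algebra k κ] [Algebra κ Eκ] [Algebra E Eκ] [Algebra k Eκ]
    [IsScalarTower k κ Eκ] [IsScalarTower k E Eκ] [IsCE k κ E Eκ]
    {A : ValuationSubring k₁} {π : A →+* κ}

/-- **The ring `E ⊗ A`** inside `E₁` with its reduction to `Eκ`: there is a subring `B` of `E₁` which
contains `A` and `E`, consists of the sums `∑ aᵢ eᵢ` with `aᵢ` in `A` and `eᵢ` in `E`, and has a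
homomorphism `ρ` to `Eκ` which is `π` on `A` and the inclusion on `E`. File `H26Red1`. -/
theorem exists_tensor_reduction (hA : ∀ c : k, algebraMap k k₁ c ∈ A)
    (hπ : ∀ c : k, π ⟨algebraMap k k₁ c, hA c⟩ = algebraMap k κ c) :
    ∃ (B : Subring E₁) (ρ : B →+* Eκ),
      (∀ a : A, ∃ h : algebraMap k₁ E₁ a ∈ B, ρ ⟨_, h⟩ = algebraMap κ Eκ (π a)) ∧
      (∀ e : E, ∃ h : algebraMap E E₁ e ∈ B, ρ ⟨_, h⟩ = algebraMap E Eκ e) ∧
      ∀ x ∈ B, ∃ (n : ℕ) (a : Fin n → A) (e : Fin n → E),
        x = ∑ i, algebraMap k₁ E₁ (a i) * algebraMap E E₁ (e i) := by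
  obtain ⟨R, h, h'⟩ := exists_redRing E E₁ Eκ hA hπ
  exact ⟨R.B, R.ρ, fun a => ⟨R.mem a, R.ρ_mem a⟩, h, h'⟩

variable [IsAlgClosed k] [IsAlgClosed k₁] [IsAlgClosed κ] [IsFF k E] [IsFF k₁ E₁] [IsFF κ Eκ]
    (𝓡 : Reduction k k₁ κ E E₁ Eκ A π)

/-- **Reduction of places and divisors of `E`**: the place of `E₁` above a place `c` of `E` reduces to the
place of `Eκ` above `c`, the same for divisors, and `r_*` preserves degrees. File `H26Red2`. -/
theorem reduction_of_places :
    (∀ c : Place k E, 𝓡.r (IsCE.pl k₁ E₁ c) = IsCE.pl κ Eκ c) ∧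
    (∀ D : Divisor k E, Finsupp.mapDomain 𝓡.r (IsCE.con k₁ E₁ D) = IsCE.con κ Eκ D) ∧
    ∀ D : Divisor k₁ E₁, Divisor.degree (Finsupp.mapDomain 𝓡.r D : Divisor κ Eκ) = Divisor.degree D :=
  ⟨𝓡.r_pl, 𝓡.mapDomain_con, 𝓡.degree_mapDomain⟩

/-- **Compatibility of residues.** Let the place `w` of `E₁` reduce to the place `𝓡.r w` of `Eκ`, and let
`e` in `E` be regular at `𝓡.r w`. Then there is `a` in `A` such that `e - a` vanishes at `w` and `e - π a`
vanishes at `𝓡.r w`: the value of `e` at `w` is integral and reduces to its value at `𝓡.r w`. File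
`H26Red2`. -/
theorem residues_compatible {w : Place k₁ E₁} {e : E}
    (he : algebraMap E Eκ e ∈ (𝓡.r w).toValuationSubring) :
    ∃ a : A, w.adicValuation (algebraMap E E₁ e - algebraMap k₁ E₁ a) < 1 ∧
      (𝓡.r w).adicValuation (algebraMap E Eκ e - algebraMap κ Eκ (π a)) < 1 :=
  𝓡.exists_residue he

variable [Algebra K k] [Algebra K k₁] [Algebra K κ] [Algebra K E] [Algebra K E₁] [Algebra K Eκ]
    [IsScalarTower K k k₁] [IsScalarTower K k κ] [IsScalarTower K k E] [IsScalarTower K k₁ E₁]
    [IsScalarTower K E E₁] [IsScalarTower K κ Eκ] [IsScalarTower K E Eκ]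

/-- **The local ring `R_τ`** of the model at a place `τ` of the reduced curve `Eκ`, a `K`-subalgebra of
`E₁`: the quotients `y / z`, where `y` and `z` lie in the ring `Reduction.Bt` generated by `A` and by the
functions in `E` which are regular at `τ`, and the reduction `ρ z` is a unit at `τ`. It contains these two
rings, its elements lie in `G` and have reductions regular at `τ`, and an element whose reduction is a unit
at `τ` is invertible in `R_τ`. File `H26Red3`. -/
theorem local_ring_of_model (hA : ∀ c : k, algebraMap k k₁ c ∈ A) (τ : Place κ Eκ) :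
    (∀ f : E₁, f ∈ 𝓡.R K τ ↔ ∃ y ∈ Reduction.Bt K k₁ E E₁ A τ, ∃ z ∈ Reduction.Bt K k₁ E E₁ A τ,
      (∃ h : z ∈ 𝓡.G, τ.adicValuation (𝓡.ρ ⟨z, h⟩) = 1) ∧ f * z = y) ∧
    (∀ a ∈ A, algebraMap k₁ E₁ a ∈ 𝓡.R K τ) ∧
    (∀ e : E, algebraMap E Eκ e ∈ τ.toValuationSubring → algebraMap E E₁ e ∈ 𝓡.R K τ) ∧
    (∀ f ∈ 𝓡.R K τ, ∃ h : f ∈ 𝓡.G, 𝓡.ρ ⟨f, h⟩ ∈ τ.toValuationSubring) ∧
    ∀ f ∈ 𝓡.R K τ, (∃ h : f ∈ 𝓡.G, τ.adicValuation (𝓡.ρ ⟨f, h⟩) = 1) → f⁻¹ ∈ 𝓡.R K τ :=
  ⟨fun _ => Iff.rfl, fun _ => 𝓡.const_mem_R K, fun _ => 𝓡.fun_mem_R K,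
    fun _ => 𝓡.R_ρ_mem K hA, fun _ hf hu => 𝓡.inv_mem_R K hA hf hu⟩

/-- **Residues on `R_τ`**: let `π` be the residue map of `A` (`π a = 0` exactly if `a` is not a unit). If `w`
reduces to `τ`, then `f` in `R_τ` is regular at `w`, and the value of `f` at `w` lies in `A` and reduces to
the value of `ρ f` at `τ`. File `H26Red3`. -/
theorem residues_on_local_ring (hA : ∀ c : k, algebraMap k k₁ c ∈ A)
    (hπl : ∀ a, π a = 0 ↔ ¬ IsUnit a) {w : Place k₁ E₁} {τ : Place κ Eκ} (hw : 𝓡.r w = τ) {f : E₁}
    (hf : f ∈ 𝓡.R K τ) :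
    f ∈ w.toValuationSubring ∧ ∃ (h : f ∈ 𝓡.G) (a : A),
      w.adicValuation (f - algebraMap k₁ E₁ a) < 1 ∧
      τ.adicValuation (𝓡.ρ ⟨f, h⟩ - algebraMap κ Eκ (π a)) < 1 :=
  have h := 𝓡.comp_of_mem_R K hA hπl hw hf
  ⟨h.mem_place, h⟩

/-- **A function `u` which is integral for the Gauss valuation and regular at all places which reduce to `τ`
lies in `R_τ`.** So `R_τ` is what it should be, a local ring of a normal model; this is the key to the
specialisation of divisors (`GuideAbelian.specialisation_of_points`). Proof: let `P` be the divisor of poles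
of `u`, `c` a place of `E` which does not lie below `τ`, and `N` a big number. The reduction of the divisor
`N c - P` does not contain `τ`, so by Riemann-Roch over `κ` it has a section which is a unit at `τ`; lift it
to a section `q` of `N c - P` in `G` (`lifting_and_gauss`). Then `q` and `u q` are sections of `N c` in `G`,
hence combinations of functions in `E` with poles at most at `c` with coefficients in `A`
(`riemannRoch_extension`, `lifting_and_gauss`), and `u = (u q) / q`. File `H26Red3`. -/
theorem mem_local_ring {τ : Place κ Eκ} {u : E₁} (hu : u ∈ 𝓡.G)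
    (h : ∀ v, 𝓡.r v = τ → u ∈ v.toValuationSubring) : u ∈ 𝓡.R K τ :=
  𝓡.mem_R_of_regular K hu h

end

/-! ## 4. Specialisation of points

`𝒜` is an abelian variety over `K` in the sense of `GuideAbelian.abstract_variety`. The fields are as in
Section 3; `c : RedCtx k k₁ κ E E₁ Eκ` bundles `A`, `π` and a `Reduction`; `c.R K τ` is the local ring
`R_τ`, `c.GK K` the Gauss valuation ring, `c.redG K` its residue map to `Eκ`, `c.toG K τ` the inclusion of
`R_τ` in it; `c.sp P` is the specialisation of a `k₁`-valued point `P` to a `κ`-valued point: extend it to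
`A` and apply `π`. -/

section

variable {K : Type u} [Field K] {𝒜 : AV K}
  {k k₁ κ E E₁ Eκ : Type u} [Field k] [Field k₁] [Field κ] [Field E]
    [Field E₁] [Field Eκ] [Algebra k k₁] [Algebra k E] [Algebra k₁ E₁] [Algebra E E₁]
    [Algebra k E₁] [IsScalarTower k k₁ E₁] [IsScalarTower k E E₁] [IsCE k k₁ E E₁]
    [Algebra k κ] [Algebra κ Eκ] [Algebra E Eκ] [Algebra k Eκ]
    [IsScalarTower k κ Eκ] [IsScalarTower k E Eκ] [IsCE k κ E Eκ]
    [IsAlgClosed k] [IsAlgClosed k₁] [IsAlgClosed κ] [IsFF k E] [IsFF k₁ E₁] [IsFF κ Eκ]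
    [Algebra K k] [Algebra K k₁] [Algebra K κ] [Algebra K E] [Algebra K E₁] [Algebra K Eκ]
    [IsScalarTower K k k₁] [IsScalarTower K k κ] [IsScalarTower K k E] [IsScalarTower K k₁ E₁]
    [IsScalarTower K E E₁] [IsScalarTower K κ Eκ] [IsScalarTower K E Eκ]
    (c : RedCtx k k₁ κ E E₁ Eκ)

/-- **Specialisation** of a point `Z` over `E₁` to a point `Zb` over `Eκ`, the definition: for every place
`τ` of the reduced curve there is a point `Y` with values in `R_τ` which induces `Z` over `E₁` and `Zb` over
`Eκ`. File `H26SP`. -/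
theorem spec_iff (Z : 𝒜.Pt E₁) (Zb : 𝒜.Pt Eκ) :
    c.Spec Z Zb ↔ ∀ τ : Place κ Eκ, ∃ Y : 𝒜.Pt (c.R K τ), 𝒜.map (c.R K τ).val Y = Z ∧
      𝒜.map ((c.redG K).comp (c.toG K τ)) Y = Zb :=
  Iff.rfl

/-- **Rules**: specialisation is compatible with the group law; a point `X` with values in `E` (a map from the
curve) specialises to itself; a constant point `P` specialises to `c.sp P`; and `c.sp` is a homomorphism
which is the identity on points with values in `k`. File `H26SP`. -/
theorem spec_rules :
    (∀ (Z Z' : 𝒜.Pt E₁) (Zb Zb' : 𝒜.Pt Eκ), c.Spec Z Zb → c.Spec Z' Zb' → c.Spec (Z + Z') (Zb + Zb')) ∧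
    (∀ X : 𝒜.Pt E, c.Spec (𝒜.map (IsScalarTower.toAlgHom K E E₁) X)
      (𝒜.map (IsScalarTower.toAlgHom K E Eκ) X)) ∧
    (∀ P : 𝒜.Pt k₁, c.Spec (𝒜.map (IsScalarTower.toAlgHom K k₁ E₁) P)
      (𝒜.map (IsScalarTower.toAlgHom K κ Eκ) (c.sp P))) ∧
    (∀ P Q : 𝒜.Pt k₁, c.sp (P + Q) = c.sp P + c.sp Q) ∧
    ∀ P : 𝒜.Pt k, c.sp (𝒜.map (IsScalarTower.toAlgHom K k k₁) P) =
      𝒜.map (IsScalarTower.toAlgHom K k κ) P :=
  ⟨fun _ _ _ _ h h' => h.add h', c.spec_fun, c.spec_const, c.sp_add, c.sp_const⟩

/-- **Values at places.** Let `Y` with values in `R_τ` induce `Z` over `E₁` and `Zb` over `Eκ`. Its image in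
the valuation ring of `τ` is the extension of `Zb`; for a place `w` of `E₁` which reduces to `τ`, its image
in the valuation ring of `w` is the extension of `Z`, and its image in `A` (value at `w`) is the extension
to `A` (`c.vA K`) of the value of `Z` at `w`. Here `liftP Z w` is the extension of `Z` to the valuation ring
of `w` (properness) and `redAt V ρ Z` its image under `ρ`. So a local equation of a divisor at the centre of
`Y` gives local equations of its pull backs by `Z` at all `w` above `τ` and by `Zb` at `τ`. File `H26SP`. -/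
theorem values_at_places {Z : 𝒜.Pt E₁} {Zb : 𝒜.Pt Eκ} {τ : Place κ Eκ} {Y : 𝒜.Pt (c.R K τ)}
    (hY : 𝒜.map (c.R K τ).val Y = Z) (hYb : 𝒜.map ((c.redG K).comp (c.toG K τ)) Y = Zb) :
    𝒜.map (c.toPl K τ) Y = liftP Zb τ ∧ ∀ (w : Place k₁ E₁) (h : c.𝓡.r w = τ),
      𝒜.map (c.toPlw K h) Y = liftP Z w ∧
      𝒜.map (c.toA K h) Y = 𝒜.lift (c.vA K) (redAt (plV K w) (rsd K w) Z) :=
  ⟨c.map_toPl hYb, fun _ h => ⟨c.map_toPlw hY h, c.map_toA hY h⟩⟩

end

/-- **Reductions along a given valuation ring.** For every valuation ring `A` of `k₁` which contains `k`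
there are `κ`, `Eκ` and a `RedCtx` with this `A` (its residue field is algebraically closed, because `k₁`
is). Such a valuation ring is found from a `k`-algebra `T` contained in `k₁` with a `k`-valued point `χ`:
there is a valuation ring of `k₁` which contains `T` and in which the elements of `T` with `χ = 0` are not
units. File `H26Gen`. -/
theorem exists_reduction_data (K k k₁ E E₁ : Type u) [Field K] [Field k] [Field k₁] [Field E]
    [Field E₁] [Algebra k k₁] [Algebra k E] [Algebra k₁ E₁] [Algebra E E₁] [Algebra k E₁]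
    [IsScalarTower k k₁ E₁] [IsScalarTower k E E₁] [IsCE k k₁ E E₁] [IsAlgClosed k]
    [IsAlgClosed k₁] [IsFF k E] [Algebra K k] [Algebra K k₁] [Algebra K E] [Algebra K E₁]
    [IsScalarTower K k k₁] [IsScalarTower K k E] [IsScalarTower K k₁ E₁] [IsScalarTower K E E₁] :
    (∀ A : ValuationSubring k₁, (∀ c : k, algebraMap k k₁ c ∈ A) →
      ∃ (κ Eκ : Type u) (_ : Field κ) (_ : Field Eκ) (_ : Algebra k κ) (_ : Algebra κ Eκ)
        (_ : Algebra E Eκ) (_ : Algebra k Eκ) (_ : IsScalarTower k κ Eκ) (_ : IsScalarTower k E Eκ)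
        (_ : IsCE k κ E Eκ) (_ : IsAlgClosed κ) (_ : IsFF κ Eκ) (_ : Algebra K κ) (_ : Algebra K Eκ)
        (_ : IsScalarTower K k κ) (_ : IsScalarTower K κ Eκ) (_ : IsScalarTower K E Eκ)
        (c : RedCtx k k₁ κ E E₁ Eκ), c.A = A) ∧
    ∀ (T : Type u) [CommRing T] [Algebra k T] (f : T →ₐ[k] k₁), Function.Injective f →
      ∀ χ : T →ₐ[k] k, ∃ A : ValuationSubring k₁, (∀ t, f t ∈ A) ∧ ∀ t, χ t = 0 → f t ∈ A.nonunits :=
  ⟨fun A hA => exists_redCtx K k k₁ E E₁ A hA, fun _ _ _ f hf χ => exists_valuationSubring_of_algHom f hf χ⟩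

/-- **Specialising a generic point with control on a second ring.** Let `Y` be a generic point with values
in `k₁` and `O` a `k`-algebra in `k₁` with a `k`-valued point `χO`, such that functions on `𝒜` which are
linearly independent over `K` have values at `Y` which are linearly independent over `O`. Then for every
point `P` with values in `k` there is a reduction for which `Y` specialises to `P` and the elements of `O`
are integral and specialise by `χO`. (With `O = k` this is `GuideAbelian.specialise_generic_point`; for the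
square `O` is the valuation ring of a place of `E`, embedded in the constants.) Proof: the ring
`O ⊗_K 𝒜.dom P` embeds in `k₁` (functions on `𝒜` by their values at `Y`) and has the `k`-valued point given by
`χO` and `P`; take the valuation ring of `exists_reduction_data`. File `H26Gen`. -/
theorem specialise_with_control {K : Type u} [Field K] {𝒜 : AV K} (k k₁ E E₁ : Type u) [Field k]
    [Field k₁] [Field E] [Field E₁] [Algebra k k₁] [Algebra k E] [Algebra k₁ E₁] [Algebra E E₁]
    [Algebra k E₁] [IsScalarTower k k₁ E₁] [IsScalarTower k E E₁] [IsCE k k₁ E E₁] [IsAlgClosed k]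
    [IsAlgClosed k₁] [IsFF k E] [IsFF k₁ E₁] [Algebra K k] [Algebra K k₁] [Algebra K E]
    [Algebra K E₁] [IsScalarTower K k k₁] [IsScalarTower K k E] [IsScalarTower K k₁ E₁]
    [IsScalarTower K E E₁] (O : Type u) [CommRing O] [Algebra K O] [Algebra k O]
    [IsScalarTower K k O] (fO : O →ₐ[k] k₁) (χO : O →ₐ[k] k) {Y : 𝒜.Pt k₁} (hY : 𝒜.dom Y = ⊤)
    (hdis : ∀ (ι : Type u) (w : ι → 𝒜.F), LinearIndependent K w → ∀ a : ι →₀ O,
      (a.sum fun i a => fO a * 𝒜.val Y (w i)) = 0 → a = 0) (P : 𝒜.Pt k) :
    ∃ (κ Eκ : Type u) (_ : Field κ) (_ : Field Eκ) (_ : Algebra k κ) (_ : Algebra κ Eκ)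
      (_ : Algebra E Eκ) (_ : Algebra k Eκ) (_ : IsScalarTower k κ Eκ) (_ : IsScalarTower k E Eκ)
      (_ : IsCE k κ E Eκ) (_ : IsAlgClosed κ) (_ : IsFF κ Eκ) (_ : Algebra K κ) (_ : Algebra K Eκ)
      (_ : IsScalarTower K k κ) (_ : IsScalarTower K κ Eκ) (_ : IsScalarTower K E Eκ)
      (c : RedCtx k k₁ κ E E₁ Eκ),
      c.sp Y = 𝒜.map (IsScalarTower.toAlgHom K k κ) P ∧
      ∀ a : O, ∃ h : fO a ∈ c.A, c.π ⟨fO a, h⟩ = algebraMap k κ (χO a) :=
  exists_redCtx_spec k k₁ E E₁ O fO χO hY (fun {ι} => hdis ι) P

/-! ## 5. The theorem of the square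

For a point `X` with values in `E` and points `P`, `Q` with values in `k`, `D.sq k X P Q` is the divisor
`(X+P+Q)^* D - (X+P)^* D - (X+Q)^* D + X^* D` of the curve with function field `E`; `tr k X P = X + P`. -/

/-- **The divisor of the theorem of the square**: its definition; it is zero if `P = 0` or `Q = 0`; its
degree is zero, by the translation invariance of heights (`GuideAbelian.height_add_const`). File `H26Rig`. -/
theorem square_divisor {K : Type u} [Field K] {𝒜 : AV K} [IsAlgClosed K] (k : Type u) {E : Type u}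
    [Field k] [Field E] [Algebra K k] [Algebra K E] [Algebra k E] [IsScalarTower K k E]
    [IsAlgClosed k] [IsFF k E] (D : 𝒜.CDiv) (X : 𝒜.Pt E) (P Q : 𝒜.Pt k) :
    D.sq k X P Q = D.pull k (X + 𝒜.map (IsScalarTower.toAlgHom K k E) (P + Q)) -
      D.pull k (X + 𝒜.map (IsScalarTower.toAlgHom K k E) P) -
      D.pull k (X + 𝒜.map (IsScalarTower.toAlgHom K k E) Q) +
      D.pull k (X + 𝒜.map (IsScalarTower.toAlgHom K k E) 0) ∧
    D.sq k X 0 Q = 0 ∧ D.sq k X P 0 = 0 ∧ Divisor.degree (D.sq k X P Q) = 0 :=
  ⟨rfl, CDiv.sq_zero_left k D X Q, CDiv.sq_zero_right k D X P, CDiv.degree_sq k D X P Q⟩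

/-- **It is compatible with constant field extensions and with specialisation** (the latter up to linear
equivalence). File `H26Rig`. -/
theorem square_divisor_specialises {K : Type u} [Field K] {𝒜 : AV K} {k k₁ κ E E₁ Eκ : Type u}
    [Field k] [Field k₁] [Field κ] [Field E] [Field E₁] [Field Eκ] [Algebra k k₁] [Algebra k E]
    [Algebra k₁ E₁] [Algebra E E₁] [Algebra k E₁] [IsScalarTower k k₁ E₁] [IsScalarTower k E E₁]
    [IsCE k k₁ E E₁] [Algebra k κ] [Algebra κ Eκ] [Algebra E Eκ] [Algebra k Eκ]
    [IsScalarTower k κ Eκ] [IsScalarTower k E Eκ] [IsCE k κ E Eκ]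
    [IsAlgClosed k] [IsAlgClosed k₁] [IsAlgClosed κ] [IsFF k E] [IsFF k₁ E₁] [IsFF κ Eκ]
    [Algebra K k] [Algebra K k₁] [Algebra K κ] [Algebra K E] [Algebra K E₁] [Algebra K Eκ]
    [IsScalarTower K k k₁] [IsScalarTower K k κ] [IsScalarTower K k E] [IsScalarTower K k₁ E₁]
    [IsScalarTower K E E₁] [IsScalarTower K κ Eκ] [IsScalarTower K E Eκ]
    (D : 𝒜.CDiv) (X : 𝒜.Pt E) :
    (∀ P Q : 𝒜.Pt k, D.sq k₁ (𝒜.map (IsScalarTower.toAlgHom K E E₁) X)
      (𝒜.map (IsScalarTower.toAlgHom K k k₁) P) (𝒜.map (IsScalarTower.toAlgHom K k k₁) Q) =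
        IsCE.con k₁ E₁ (D.sq k X P Q)) ∧
    ∀ (c : RedCtx k k₁ κ E E₁ Eκ) (P Q : 𝒜.Pt k₁),
      LinEq (c.push (D.sq k₁ (𝒜.map (IsScalarTower.toAlgHom K E E₁) X) P Q))
        (D.sq κ (𝒜.map (IsScalarTower.toAlgHom K E Eκ) X) (c.sp P) (c.sp Q)) :=
  ⟨CDiv.sq_CE D X, fun c => c.push_sq D X⟩

section

/-! In the two theorems below `k ⊆ k₁ ⊆ k₂` are algebraically closed fields, `E` is a function field over
`k`, and `E₁`, `E₂` are its constant field extensions to `k₁` and `k₂`.  `GenOver k η` says that `η` is
generic over `k`, see `GuideAbelian.exists_generic_point`. -/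

variable {K : Type u} [Field K] {𝒜 : AV K} [IsAlgClosed K]
    (k k₁ k₂ E E₁ E₂ : Type u) [Field k] [Field k₁] [Field k₂] [Field E] [Field E₁]
    [Field E₂] [Algebra k k₁] [Algebra k₁ k₂] [Algebra k k₂] [IsScalarTower k k₁ k₂]
    [Algebra E E₁] [Algebra E₁ E₂] [Algebra E E₂] [IsScalarTower E E₁ E₂]
    [Algebra k E] [Algebra k₁ E₁] [Algebra k₂ E₂] [Algebra k E₁] [Algebra k₁ E₂] [Algebra k E₂]
    [IsScalarTower k k₁ E₁] [IsScalarTower k E E₁] [IsScalarTower k₁ k₂ E₂]
    [IsScalarTower k₁ E₁ E₂] [IsScalarTower k k₂ E₂] [IsScalarTower k E E₂]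
    [IsCE k k₁ E E₁] [IsCE k₁ k₂ E₁ E₂] [IsCE k k₂ E E₂]
    [IsAlgClosed k] [IsAlgClosed k₁] [IsAlgClosed k₂] [IsFF k E] [IsFF k₁ E₁] [IsFF k₂ E₂]
    [Algebra K k] [Algebra K k₁] [Algebra K k₂] [Algebra K E] [Algebra K E₁] [Algebra K E₂]
    [IsScalarTower K k k₁] [IsScalarTower K k₁ k₂] [IsScalarTower K k k₂]
    [IsScalarTower K k E] [IsScalarTower K k₁ E₁] [IsScalarTower K k₂ E₂]
    [IsScalarTower K E E₁] [IsScalarTower K E₁ E₂] [IsScalarTower K E E₂]

/-- **The effective representative has no generic places.** Let `D₀` be an effective divisor of `E` with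
`ell D₀ = 1`, `η₁` generic over `k` with values in `k₁`, `η₂` any point with values in `k₂`, and let `𝓓` be
an effective divisor of `E₂` which is linearly equivalent to `D.sq (X, η₁, η₂) + D₀`. Then no place of `E₂`
which is trivial on `E₁` occurs in `𝓓`. Proof: let `w` be such a place; its residue map is an embedding `j`
of `E₁` in `k₂`. Choose a place `H` of `E` outside `D₀`, and let `O` be its valuation ring, embedded in `k₂`
by `j`, with the residue map at `H`. By `specialise_with_control` there is a reduction for which `η₁`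
specialises to `0` and `O` by the residue map of `H` (the values of functions at `η₁` are linearly
independent over `O`, by `linearly_disjoint`). Then the divisor of the square becomes `0`, so the reduction
of `𝓓` is effective and equivalent to `D₀`, hence equal to it (`unique_effective`). But `w` reduces to the
place above `H` (otherwise a function with a single pole, at `H`, would be regular at the reduction of `w`,
so its value under `j` would be integral, and the value of its inverse reduces to `0`); so `H` occurs in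
`D₀` if `w` occurs in `𝓓`. File `H26Square`. -/
theorem no_generic_places (D : 𝒜.CDiv) (X : 𝒜.Pt E) {η₁ : 𝒜.Pt k₁} (h₁ : GenOver k η₁)
    (η₂ : 𝒜.Pt k₂) {D₀ : Divisor k E} (hD₀ : 0 ≤ D₀) (hell : ell D₀ = 1) {𝓓 : Divisor k₂ E₂}
    (h𝓓 : 0 ≤ 𝓓)
    (hlin : LinEq 𝓓 (D.sq k₂ (𝒜.map (IsScalarTower.toAlgHom K E E₂) X)
      (𝒜.map (IsScalarTower.toAlgHom K k₁ k₂) η₁) η₂ + IsCE.con k₂ E₂ D₀))
    (w : Place k₂ E₂) (hw : ∀ e : E₁, algebraMap E₁ E₂ e ∈ w.toValuationSubring) : 𝓓 w = 0 :=
  not_generic k k₁ k₂ E E₁ E₂ D X h₁ η₂ hD₀ hell h𝓓 hlin w hw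

include E₁ in
/-- **The theorem of the square for two independent generic points** `η₁` (over `k`) and `η₂` (over `k₁`).
Proof: by Riemann-Roch there is an effective `D₀` of degree the genus with `ell D₀ = 1`, and by Riemann's
inequality the sum of the divisor of the square (degree `0`) and `D₀` is equivalent to an effective divisor
`𝓓`, which comes from a divisor of `E₁` by `no_generic_places`. Specialising `η₂` to `0` does not change a
divisor of `E₁` and makes the divisor of the square zero; so `𝓓` is equivalent to `D₀`, hence equal to it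
(`unique_effective`). The general case follows by specialising `η₂` to `Q` and `η₁` to `P`
(`GuideAbelian.square`). File `H26Square`. -/
theorem square_for_generic_points (D : 𝒜.CDiv) (X : 𝒜.Pt E) {η₁ : 𝒜.Pt k₁} (h₁ : GenOver k η₁)
    {η₂ : 𝒜.Pt k₂} (h₂ : GenOver k₁ η₂) :
    LinEq (D.sq k₂ (𝒜.map (IsScalarTower.toAlgHom K E E₂) X)
      (𝒜.map (IsScalarTower.toAlgHom K k₁ k₂) η₁) η₂) 0 :=
  square_generic k k₁ k₂ E E₁ E₂ D X h₁ h₂

end

/-! ## 6. The theorem of the cube for heights

`Res w x α`: the function `x` is a unit at the place `w` and has the value `α` there. `atPl Z w` is the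
value of the point `Z` at the place `w`, a point with values in the field of constants: extend `Z` to the
valuation ring of `w` and apply the residue map. `D.loc Z w` is the local equation of `Z^* D` at `w` (see
`GuideAbelian.height_def`), and `D.locV V Z` the same for an arbitrary valuation ring `V`. -/

/-- **Values of functions**, rules: the definition; a nonzero function with `ord_w = 0` has a value; values
are unique, multiplicative, and constants have themselves as value. File `H26Cube1`. -/
theorem value_rules {k E : Type*} [Field k] [Field E] [Algebra k E] [IsAlgClosed k] [IsFF k E]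
    (w : Place k E) :
    (∀ (x : E) (α : k), Res w x α ↔ α ≠ 0 ∧ w.adicValuation (x - algebraMap k E α) < 1) ∧
    (∀ x : E, x ≠ 0 → w.ord x = 0 → ∃ α, Res w x α) ∧
    (∀ (x : E) (α β : k), Res w x α → Res w x β → α = β) ∧
    (∀ (x y : E) (α β : k), Res w x α → Res w y β → Res w (x * y) (α * β)) ∧
    (∀ (x : E) (α : k) (n : ℤ), Res w x α → Res w (x ^ n) (α ^ n)) ∧
    ∀ α : k, α ≠ 0 → Res w (algebraMap k E α) α :=
  ⟨fun _ _ => Iff.rfl, fun _ => exists_res, fun _ _ _ h => h.unique, fun _ _ _ _ h => h.mul,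
    fun _ _ n h => h.zpow n, fun _ => res_const⟩

/-- **Values of points**: the value at a place is a homomorphism; a constant point has itself as value; and if
the function `f` on `𝒜` is a unit at the centre of the value of `Z` at `w` (`UnitIn`: `f` and `1 / f` lie in
the local ring), then the function `f(Z)` has the value `f(atPl Z w)` at `w`. Files `H26Cube1`, `H26Cube2`. -/
theorem values_of_points {K : Type u} [Field K] {𝒜 : AV K} {k E : Type u} [Field k] [Field E]
    [Algebra K k] [Algebra K E] [Algebra k E] [IsScalarTower K k E] [IsAlgClosed k] [IsFF k E]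
    (w : Place k E) :
    (∀ Z Z' : 𝒜.Pt E, atPl (Z + Z') w = atPl Z w + atPl Z' w) ∧
    (∀ P : 𝒜.Pt k, atPl (𝒜.map (IsScalarTower.toAlgHom K k E) P) w = P) ∧
    ∀ (Z : 𝒜.Pt E) (f : 𝒜.F), 𝒜.UnitIn (𝒜.dom (liftP Z w)) f →
      Res w (𝒜.val Z f) (𝒜.val (atPl Z w) f) :=
  ⟨fun Z Z' => atPl_add Z Z' w, atPl_const w, fun _ _ => res_val⟩

/-- **Values at constant places and at the diagonal.** If `w'` is the place of `E'` above the place `w` of
`E`, then the value of a point `X` over `E` at `w'` is its value at `w`. If for all `x` in a subfield `L` of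
`E` the value of `x` at `w` is `i x`, `i` an embedding of `L` in the constants, then the value of a point
over `L` is its image under `i`. File `H26Cube2`. -/
theorem values_at_constant_places {K : Type u} [Field K] {𝒜 : AV K} {k E : Type u} [Field k] [Field E]
    [Algebra K k] [Algebra K E] [Algebra k E] [IsScalarTower K k E] [IsAlgClosed k] [IsFF k E]
    (w : Place k E) :
    (∀ (k' E' : Type u) [Field k'] [Field E'] [Algebra K k'] [Algebra K E'] [Algebra k' E']
      [IsScalarTower K k' E'] [IsAlgClosed k'] [IsFF k' E'] [Algebra k k'] [Algebra E E']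
      [Algebra k E'] [IsScalarTower k k' E'] [IsScalarTower k E E'] [IsCE k k' E E']
      [IsScalarTower K E E'] [IsScalarTower K k k'] (X : 𝒜.Pt E),
      atPl (𝒜.map (IsScalarTower.toAlgHom K E E') X) (IsCE.pl k' E' w) =
        𝒜.map (IsScalarTower.toAlgHom K k k') (atPl X w)) ∧
    ∀ (L : Type u) [Field L] [Algebra K L] (j : L →ₐ[K] E) (i : L →ₐ[K] k),
      (∀ x, w.adicValuation (j x - algebraMap k E (i x)) < 1) →
        ∀ X : 𝒜.Pt L, atPl (𝒜.map j X) w = 𝒜.map i X :=
  ⟨fun _ _ => by intros; exact atPl_pl w _, fun _ => by intros; exact atPl_map_of_res w _ _ ‹_› _⟩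

/-- **Local equations along valuation rings** (`H26.VSub K L`: the valuation rings of `L` which contain `K`):
the definition of `D.locV`; it is compatible with embeddings of fields `j : L → L'` such that `V'` induces
`V` on `L`; and it is `1` if `V'` contains the image of `L` (the
extension is then the point itself, so both local equations are taken at the same centre). File `H26Pt`. -/
theorem local_equations {K : Type u} [Field K] {𝒜 : AV K} (D : 𝒜.CDiv) {L L' : Type u} [Field L]
    [Algebra K L] [Field L'] [Algebra K L'] (j : L →ₐ[K] L') (V' : H26.VSub K L') (X : 𝒜.Pt L) :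
    (∀ V : H26.VSub K L, D.locV V X = 𝒜.val X (D.eqn (𝒜.dom (𝒜.lift V X)) / D.eqn (𝒜.dom X)) ∧
      ((∀ x, x ∈ V.toSubalgebra ↔ j x ∈ V'.toSubalgebra) →
        D.locV V' (𝒜.map j X) = j (D.locV V X))) ∧
    ((∀ x, j x ∈ V'.toSubalgebra) → D.locV V' (𝒜.map j X) = 1) :=
  ⟨fun V => ⟨rfl, fun h => CDiv.locV_map D j V V' h X⟩, fun h => CDiv.locV_map_of_range_le D j V' h X⟩

/-- **The main local computation** (for the comparison of residues). Let `Zᵢ` be points over `E₁` which
specialise, `εᵢ` integers, and `Φ` a function on the curve over `k₁` with divisor `∑ εᵢ Zᵢ^* D`. There is a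
constant `t` such that at every place `w` of `E₁` the value `α` of the unit
`Φ / ∏ (local equation of Zᵢ^* D at w) ^ εᵢ` satisfies
`v(t) v(α) = ∏ v(local equation of D at Zᵢ(w) along A) ^ εᵢ`. Here `v` is the valuation of `A`, and `c.vA K`
is `A` as a valuation ring over `K`; the point is that `t` does not depend on `w`. Proof: let `w` reduce to
`τ`, let `Yᵢ` be the point over `R_τ` which induces `Zᵢ`, and `aᵢ` the local equation of `D` at the centre
of `Yᵢ`. Choose `t` such that `Ψ = t Φ / ∏ aᵢ(Zᵢ) ^ εᵢ` is a unit for the Gauss valuation (the condition on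
`t` does not depend on `τ`). At all places above `τ` the `aᵢ(Zᵢ)` are local equations, so `Ψ` has order zero
there, so `Ψ` and `1 / Ψ` lie in `R_τ` (`mem_local_ring`), and the value of `Ψ` at `w` is a unit of `A`. The
quotient of `aᵢ(Zᵢ)` and the local equation at `w` has at `w` a value with the valuation of the local
equation of `D` at `Zᵢ(w)` along `A` (`values_at_places`, `values_of_points`). File `H26Cube1`. -/
theorem residues_have_valuation {K : Type u} [Field K] {𝒜 : AV K} {k k₁ κ E E₁ Eκ : Type u}
    [Field k] [Field k₁] [Field κ] [Field E] [Field E₁] [Field Eκ] [Algebra k k₁] [Algebra k E]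
    [Algebra k₁ E₁] [Algebra E E₁] [Algebra k E₁] [IsScalarTower k k₁ E₁] [IsScalarTower k E E₁]
    [IsCE k k₁ E E₁] [Algebra k κ] [Algebra κ Eκ] [Algebra E Eκ] [Algebra k Eκ]
    [IsScalarTower k κ Eκ] [IsScalarTower k E Eκ] [IsCE k κ E Eκ]
    [IsAlgClosed k] [IsAlgClosed k₁] [IsAlgClosed κ] [IsFF k E] [IsFF k₁ E₁] [IsFF κ Eκ]
    [Algebra K k] [Algebra K k₁] [Algebra K κ] [Algebra K E] [Algebra K E₁] [Algebra K Eκ]
    [IsScalarTower K k k₁] [IsScalarTower K k κ] [IsScalarTower K k E] [IsScalarTower K k₁ E₁]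
    [IsScalarTower K E E₁] [IsScalarTower K κ Eκ] [IsScalarTower K E Eκ]
    (c : RedCtx k k₁ κ E E₁ Eκ) (D : 𝒜.CDiv) {ι : Type} [Fintype ι] (Z : ι → 𝒜.Pt E₁)
    (hZ : ∀ i, ∃ Zb, c.Spec (Z i) Zb) (ε : ι → ℤ) {Φ : E₁} (hΦ0 : Φ ≠ 0)
    (hΦ : ∀ w : Place k₁ E₁, ∑ i, ε i * D.pull k₁ (Z i) w = w.ord Φ) :
    ∃ t : k₁, t ≠ 0 ∧ ∀ (w : Place k₁ E₁) (α : k₁), Res w (Φ / ∏ i, D.loc (Z i) w ^ ε i) α →
      c.A.valuation t * c.A.valuation α =
        ∏ i, c.A.valuation (D.locV (c.vA K) (atPl (Z i) w)) ^ ε i :=
  c.exists_scalar D Z hZ ε hΦ0 hΦ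

/-- **The diagonal place.** Let `E₁` be the constant field extension of `E` to an algebraically closed field
`k₁` which contains `E`. Then there is a place `δ` of `E₁` (the point of the curve over `k₁` given by
`E → k₁`) at which every function `e` in `E` has the value `e` in `k₁`. Moreover every valuation ring of a
field `L` is induced by a valuation ring of any extension field `M`. File `H26Cube2`. -/
theorem diagonal_place (k k₁ E E₁ : Type u) [Field k] [Field k₁] [Field E] [Field E₁]
    [Algebra k k₁] [Algebra k E] [Algebra k₁ E₁] [Algebra E E₁] [Algebra k E₁]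
    [IsScalarTower k k₁ E₁] [IsScalarTower k E E₁] [IsCE k k₁ E E₁] [IsAlgClosed k]
    [IsAlgClosed k₁] [IsFF k E] [IsFF k₁ E₁] [Algebra E k₁] [IsScalarTower k E k₁] :
    (∃ δ : Place k₁ E₁, ∀ e : E,
      δ.adicValuation (algebraMap E E₁ e - algebraMap k₁ E₁ (algebraMap E k₁ e)) < 1) ∧
    ∀ (L M : Type u) [Field L] [Field M] [Algebra L M] (O : ValuationSubring L),
      ∃ A : ValuationSubring M, ∀ x : L, algebraMap L M x ∈ A ↔ x ∈ O :=
  ⟨exists_diag k k₁ E E₁, fun _ _ => by intros; exact exists_valuationSubring_extends _⟩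

section

/-! In the last two theorems `k` and `k₁` are algebraically closed, `E` is a function field over `k`, `k₁` is
an extension of `E` (for example its algebraic closure), and `E₁` is the constant field extension of `E` to
`k₁`. -/

variable {K : Type u} [Field K] {𝒜 : AV K} {k k₁ E E₁ : Type u} [Field k] [Field k₁] [Field E]
  [Field E₁] [Algebra k k₁] [Algebra k E] [Algebra k₁ E₁] [Algebra E E₁]
  [Algebra k E₁] [IsScalarTower k k₁ E₁] [IsScalarTower k E E₁] [IsCE k k₁ E E₁]
  [IsAlgClosed k] [IsAlgClosed k₁] [IsFF k E] [IsFF k₁ E₁]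
  [Algebra E k₁] [IsScalarTower k E k₁]
  [Algebra K k] [Algebra K k₁] [Algebra K E] [Algebra K E₁]
  [IsScalarTower K k k₁] [IsScalarTower K k E] [IsScalarTower K k₁ E₁] [IsScalarTower K E E₁]
  [IsScalarTower K E k₁]

/-- **Comparison of residues at the diagonal and at a constant place.** Let `X` and `Rᵢ` be points over `E`.
Over `k₁` the `Rᵢ` are constants; let `Φ` be a function on the curve over `k₁` with the divisor
`∑ εᵢ (X + Rᵢ)^* D`. Let `αδ` and `α₀` be the values of the unit `Φ / ∏ (local equation) ^ εᵢ` at the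
diagonal place `δ` and at the constant place above a place `c₀` of `E`, and suppose that the quotient
`β = αδ / α₀` lies in a function field `L` between `E` and `k₁`. Then at every place `y` of `L` the order of
`β` is `∑ εᵢ` times the difference of the orders of the pull backs of `D` by `X + Rᵢ` and by `X(c₀) + Rᵢ`.
Proof: extend the valuation ring of `y` to a valuation ring of `k₁` (`diagonal_place`) and apply
`residues_have_valuation` at `δ` and at the constant place: the constant `t` cancels. File `H26Cube`. -/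
theorem order_of_quotient (D : 𝒜.CDiv) {ι : Type} [Fintype ι] (X : 𝒜.Pt E) (R : ι → 𝒜.Pt E)
    (ε : ι → ℤ) {Φ : E₁} (hΦ0 : Φ ≠ 0)
    (hΦ : ∀ w : Place k₁ E₁, ∑ i, ε i * D.pull k₁ (tr k₁ (𝒜.map (IsScalarTower.toAlgHom K E E₁) X)
      (𝒜.map (IsScalarTower.toAlgHom K E k₁) (R i))) w = w.ord Φ)
    (δ : Place k₁ E₁) (hδ : ∀ e : E,
      δ.adicValuation (algebraMap E E₁ e - algebraMap k₁ E₁ (algebraMap E k₁ e)) < 1)
    (c₀ : Place k E) {αδ α₀ : k₁}
    (hαδ : Res δ (Φ / ∏ i, D.loc (tr k₁ (𝒜.map (IsScalarTower.toAlgHom K E E₁) X)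
      (𝒜.map (IsScalarTower.toAlgHom K E k₁) (R i))) δ ^ ε i) αδ)
    (hα₀ : Res (IsCE.pl k₁ E₁ c₀) (Φ / ∏ i, D.loc (tr k₁ (𝒜.map (IsScalarTower.toAlgHom K E E₁) X)
      (𝒜.map (IsScalarTower.toAlgHom K E k₁) (R i))) (IsCE.pl k₁ E₁ c₀) ^ ε i) α₀)
    (L : Type u) [Field L] [Algebra E L] [Algebra L k₁] [IsScalarTower E L k₁] [Algebra k L]
    [IsScalarTower k E L] [IsScalarTower k L k₁] [Algebra K L] [IsScalarTower K E L]
    [IsScalarTower K L k₁] [IsScalarTower K k L] [IsFF k L] {β : L}
    (hβ : algebraMap L k₁ β * α₀ = αδ) (y : Place k L) :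
    y.ord β = ∑ i, ε i * (D.pull k (𝒜.map (IsScalarTower.toAlgHom K E L) (X + R i)) y -
      D.pull k (𝒜.map (IsScalarTower.toAlgHom K E L)
        (𝒜.map (IsScalarTower.toAlgHom K k E) (atPl X c₀) + R i)) y) :=
  ord_beta D X R ε hΦ0 hΦ δ hδ c₀ hαδ hα₀ L hβ y

/-- **The sum of heights is zero.** In the situation of `order_of_quotient`, with `L` finite over `E`:
`∑ εᵢ (ht(X + Rᵢ) - ht(X(c₀) + Rᵢ)) = 0`. Proof: the degree of the divisor of `β` is zero, and the height of
a point over `E` is multiplied by `[L : E]` over `L`. The theorem of the cube (`GuideAbelian.height_cube`)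
follows: take `k₁` algebraic over `E` (so `L = E(β)`), the points `R = Y + Z, Y, Z, 0` with the signs
`1, -1, -1, 1` (then `Φ` exists by the theorem of the square, as `Y` and `Z` are constants over `k₁`), and
note that `ht(X(c₀) + R) = ht(R)` by translation invariance. File `H26Cube`. -/
theorem sum_of_heights (D : 𝒜.CDiv) {ι : Type} [Fintype ι] (X : 𝒜.Pt E) (R : ι → 𝒜.Pt E)
    (ε : ι → ℤ) {Φ : E₁} (hΦ0 : Φ ≠ 0)
    (hΦ : ∀ w : Place k₁ E₁, ∑ i, ε i * D.pull k₁ (tr k₁ (𝒜.map (IsScalarTower.toAlgHom K E E₁) X)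
      (𝒜.map (IsScalarTower.toAlgHom K E k₁) (R i))) w = w.ord Φ)
    (δ : Place k₁ E₁) (hδ : ∀ e : E,
      δ.adicValuation (algebraMap E E₁ e - algebraMap k₁ E₁ (algebraMap E k₁ e)) < 1)
    (c₀ : Place k E) {αδ α₀ : k₁}
    (hαδ : Res δ (Φ / ∏ i, D.loc (tr k₁ (𝒜.map (IsScalarTower.toAlgHom K E E₁) X)
      (𝒜.map (IsScalarTower.toAlgHom K E k₁) (R i))) δ ^ ε i) αδ)
    (hα₀ : Res (IsCE.pl k₁ E₁ c₀) (Φ / ∏ i, D.loc (tr k₁ (𝒜.map (IsScalarTower.toAlgHom K E E₁) X)
      (𝒜.map (IsScalarTower.toAlgHom K E k₁) (R i))) (IsCE.pl k₁ E₁ c₀) ^ ε i) α₀)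
    (L : Type u) [Field L] [Algebra E L] [Algebra L k₁] [IsScalarTower E L k₁] [Algebra k L]
    [IsScalarTower k E L] [IsScalarTower k L k₁] [Algebra K L] [IsScalarTower K E L]
    [IsScalarTower K L k₁] [IsScalarTower K k L] [IsFF k L] [FiniteDimensional E L] {β : L}
    (hβ : algebraMap L k₁ β * α₀ = αδ) :
    ∑ i, ε i * (D.ht k (X + R i) -
      D.ht k (𝒜.map (IsScalarTower.toAlgHom K k E) (atPl X c₀) + R i)) = 0 :=
  sum_ht D X R ε hΦ0 hΦ δ hδ c₀ hαδ hα₀ L hβ

end

end Fermat.Agent.Guide.Cube
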