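import Fermat.Agent.H82LTPsi

/-!
# Reader's guide: the cubic character of a good curve (block LT, step M5b)

Every theorem of this file is proved by citing a theorem of the library; nothing here is used by any other
file. Companion of `GuideResidual` (theorem `m5_cubic_character`), `GuideGenus` (the field `ℚ(√-N)`) and
`GuideQuadRec` (theorems `first_inequality`, `exists_class_character`).

## What is proved

Block LT proves that the representation on the 3-torsion of a semistable curve with even discriminant, if it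
is irreducible, is modular. It works with an auxiliary "good" curve `E'` (semistable, with negative even
discriminant in which every bad prime has odd order, and with a bad prime congruent to 23 modulo 24, which
is not used here; its choice is in `GuideGoodCurve`), whose conductor `N` is squarefree and even. The field
of the points of order two of `E'` has Galois group `S₃`; its quadratic subfield is `K = ℚ(√-N)`, so the
2-torsion of `E'` is, over the field of four elements, induced from a cubic character of the absolute Galois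
group `G_K`. On the other side there are theta series with coefficients in a field of characteristic two,
built from a character `η` of order three of the CLASS GROUP of `K`; the `ℓ`-th coefficient is the sum of the
values of `η` at the prime ideals of norm `ℓ` (`GuideResidualTheta`). This file shows how the two are
connected **without a reciprocity law**:

* the first inequality of class field theory for the cubic extension of `K` (which is unramified everywhere)
  gives a character `η` of order three of the class group of `K` which is trivial at all places which split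
  in the cubic extension (sections 3 and 4);
* that `η` is trivial ONLY at these places is the other half, usually taken from the reciprocity law. Here it
  comes from the theta side: suppose there is a representation `ρ` in characteristic two with determinant `1`
  such that the trace of a Frobenius element at `ℓ` is the sum of the values of `η` (it exists, because the
  theta series are congruent to eigenforms of weight two). Then the trace of `ρ` is the trace of the 2-torsion
  of `E'` (sections 5 and 6): it vanishes outside `G_K` and on the kernel `B` of the 2-torsion representation;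
  a small miracle of characteristic two (`trace_of_commutator`) makes it invariant under `B`, so it is a
  function on `S₃`, zero at `1` and at the transpositions; and its value at an element of order three is `1`,
  because `η` is not trivial.

## Notation

`Qb` is the algebraic closure of `ℚ` in the library, `GQ` its automorphism group, `M2 F` the `2 × 2` matrices;
a place of `Qb` is a valuation ring `A : ValuationSubring Qb`, and `A.LiesOverPrime ℓ`, `A.IsFrobeniusAt φ ℓ`,
`A.inertiaSubgroupIn ℚ` have their usual meaning (`GuideAbsGal`). `QuadData K N w`: `K` is a quadratic field,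
`w² = -N`, `N` is squarefree and even. `LT.FinLevel f`: there is a number field `L` such that `f(g σ) = f(g)`
for all `σ` which are the identity on `L`. `H64.placeBelow K hℓ hA` is the place of `K` below `A`.

Closure: S01, S03, S04, S06, S38, S45, S46, S50, S59, S60, through `H82.LT.exists_eta`, which is used in
`H55LTI`. NOTES.md, note [93] (M5b). Authors of the theorems: helper82 (`H82LTFI`, `H82LTPsiA`, `H82LTPsiB`,
`H82LTPsi`, density theorem `H82FrobDensity`), on top of helper63 (`QuadData`), helper65 (first inequality),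
helper91 (fields of finite level), helper86 (density theorem in `Qb`), helper64, helper54, helper47. Guide:
helper82.
-/

set_option autoImplicit false

open NumberField IsDedekindDomain
open scoped nonZeroDivisors
open Fermat.Agent.H53 (GQ M2 mapMat)
open Fermat.Agent.LT (Qb GK FinLevel primesOver cls GoodCurve EData cond)
open Fermat.Agent.H63.LT (QuadData)
open Fermat.Agent.H64 (placeBelow)
open Fermat.Agent.H82 (above NonSplit congr placeClass)
open Fermat.Agent.H47 (ordHom divHom smulPlace)
open Fermat.Agent.H91.FI (clv)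

namespace Fermat.Agent.Guide.CubicCharacter

/-!
## 1. Prime ideals of norm `ℓ` of `ℚ(√-N)`

`primesOver K ℓ` is the finite set of the prime ideals of norm `ℓ`, and `cls K P` the class of the ideal `P`
in the class group.
-/

/-- The two notions: `P ∈ primesOver K ℓ` means that `P` is a prime ideal of norm `ℓ`; the class `cls K P`
of a nonzero ideal is the class of Mathlib. For a place `v` it is also called `clv v` and `placeClass v` in
the library. (`H46LTDefsTA`, `H82LTPsiB`) -/
theorem notions_of_primes {K : Type} [Field K] [NumberField K] :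
    (∀ (ℓ : ℕ) (P : Ideal (𝓞 K)), P ∈ primesOver K ℓ ↔ P.IsPrime ∧ Ideal.absNorm P = ℓ) ∧
      (∀ (P : Ideal (𝓞 K)) (hP : P ≠ ⊥),
        cls K P = ClassGroup.mk0 ⟨P, mem_nonZeroDivisors_of_ne_zero hP⟩) ∧
      ∀ v : HeightOneSpectrum (𝓞 K), cls K v.asIdeal = clv v ∧ placeClass v = clv v :=
  ⟨fun _ _ => H82.LT.mem_primesOver, fun _ hP => H82.LT.cls_eq_mk0 hP,
    fun v => ⟨H82.LT.cls_eq v, rfl⟩⟩

/-- **Degree one.** Let `ℓ` be a prime number and `P` an ideal. If `P` has norm `ℓ`, then every integer of
`K` is congruent modulo `P` to a rational integer; conversely, if `P` is a proper ideal which contains `ℓ`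
and every integer of `K` is congruent to a rational integer, then `P` has norm `ℓ`. In both cases the
rational integers in `P` are the multiples of `ℓ`. (`H82LTPsiB`) -/
theorem degree_one {K : Type} [Field K] [NumberField K] {ℓ : ℕ} (hℓ : ℓ.Prime) (P : Ideal (𝓞 K)) :
    (Ideal.absNorm P = ℓ → ∀ x : 𝓞 K, ∃ n : ℤ, x - (n : 𝓞 K) ∈ P) ∧
      (P ≠ ⊤ → (ℓ : 𝓞 K) ∈ P → (∀ x : 𝓞 K, ∃ n : ℤ, x - (n : 𝓞 K) ∈ P) → Ideal.absNorm P = ℓ) ∧
      (P ≠ ⊤ → (ℓ : 𝓞 K) ∈ P → ∀ n : ℤ, (n : 𝓞 K) ∈ P → (ℓ : ℤ) ∣ n) :=
  ⟨fun h x => H82.LT.exists_int_of_absNorm hℓ h x,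
    fun h1 h2 h3 => H82.LT.absNorm_eq_of_int hℓ h1 h2 h3,
    fun h1 h2 _ h3 => H82.LT.dvd_of_intCast_mem hℓ h1 h2 h3⟩

section Quadratic

variable {K : Type} [Field K] [NumberField K] {N : ℕ} {w : 𝓞 K}

/-- **Generators.** If the proper ideal `P` contains the prime number `ℓ` and `w - n`, `n ∈ ℤ`, then `P =
(ℓ, w - n)`, because the ring of integers is `ℤ[w]`; and then `n² + N ∈ P` (so `ℓ ∣ n² + N`). (`H82LTPsiB`)
-/
theorem generators (h : QuadData K N w) {ℓ : ℕ} (hℓ : ℓ.Prime) {P : Ideal (𝓞 K)} (hP : P ≠ ⊤)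
    (hℓP : (ℓ : 𝓞 K) ∈ P) {n : ℤ} (hn : w - (n : 𝓞 K) ∈ P) :
    P = Ideal.span {(ℓ : 𝓞 K), w - (n : 𝓞 K)} ∧ (ℓ : ℤ) ∣ n ^ 2 + N :=
  ⟨H82.LT.eq_span_of_absNorm h hℓ hP hℓP hn,
    H82.LT.dvd_of_intCast_mem hℓ hP hℓP (H82.LT.sq_add_mem h hn)⟩

/-- **A split prime.** Let `ℓ` be a prime number which does not divide `2 N`, and `ℓ ∣ n² + N`. Then `(ℓ, w
- n) (ℓ, w + n) = (ℓ)`, both factors have norm `ℓ`, they are different, and they are the only prime ideals
of norm `ℓ`. (Dedekind's theorem by hand: `ℓ = a ℓ² + b ((w + n) ℓ - (w - n) ℓ)` with `a ℓ + 2 b n = 1`.)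
(`H82LTPsiB`) -/
theorem split_prime (h : QuadData K N w) {ℓ : ℕ} (hℓ : ℓ.Prime) (hℓN : ¬ ℓ ∣ 2 * N) {n : ℤ}
    (hn : (ℓ : ℤ) ∣ n ^ 2 + N) :
    Ideal.span {(ℓ : 𝓞 K), w - (n : 𝓞 K)} * Ideal.span {(ℓ : 𝓞 K), w + (n : 𝓞 K)} =
        Ideal.span {(ℓ : 𝓞 K)} ∧
      Ideal.absNorm (Ideal.span {(ℓ : 𝓞 K), w - (n : 𝓞 K)}) = ℓ ∧
      Ideal.absNorm (Ideal.span {(ℓ : 𝓞 K), w + (n : 𝓞 K)}) = ℓ ∧
      Ideal.span {(ℓ : 𝓞 K), w - (n : 𝓞 K)} ≠ Ideal.span {(ℓ : 𝓞 K), w + (n : 𝓞 K)} ∧
      ∀ Q : Ideal (𝓞 K), Q ∈ primesOver K ℓ ↔ Q = Ideal.span {(ℓ : 𝓞 K), w - (n : 𝓞 K)} ∨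
        Q = Ideal.span {(ℓ : 𝓞 K), w + (n : 𝓞 K)} :=
  ⟨H82.LT.span_mul_span h hℓ hℓN hn, (H82.LT.absNorm_span h hℓ hℓN hn).1,
    (H82.LT.absNorm_span h hℓ hℓN hn).2, H82.LT.span_ne_span h hℓ hℓN hn,
    fun _ => H82.LT.primesOver_eq h hℓ hℓN hn⟩

/-- **The classes of conjugate primes are inverse to each other**: for `ℓ` as in `split_prime` the classes
of `(ℓ, w - n)` and `(ℓ, w + n)` have the product `1`. (`H82LTPsiB`) -/
theorem classes_of_conjugates (h : QuadData K N w) {ℓ : ℕ} (hℓ : ℓ.Prime) (hℓN : ¬ ℓ ∣ 2 * N) {n : ℤ}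
    (hn : (ℓ : ℤ) ∣ n ^ 2 + N) : cls K (Ideal.span {(ℓ : 𝓞 K), w - (n : 𝓞 K)}) *
      cls K (Ideal.span {(ℓ : 𝓞 K), w + (n : 𝓞 K)}) = 1 :=
  H82.LT.cls_mul_cls h hℓ hℓN hn

/-- **The coefficient of the theta series at a split prime.** Let `η` be a character of the class group with
values in a field `F`, `ℓ ∤ 2 N` a prime number and `P` a prime ideal of norm `ℓ`. Then the sum of the
values of `η` at the prime ideals of norm `ℓ` is `η(P) + η(P)⁻¹`. (`H82LTPsiB`) -/
theorem coefficient (h : QuadData K N w) {ℓ : ℕ} (hℓ : ℓ.Prime) (hℓN : ¬ ℓ ∣ 2 * N) {F : Type} [Field F]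
    (η : ClassGroup (𝓞 K) →* Fˣ) {P : Ideal (𝓞 K)} (hP : P ∈ primesOver K ℓ) :
    ∑ Q ∈ primesOver K ℓ, ((η (cls K Q) : Fˣ) : F) =
      ((η (cls K P) : Fˣ) : F) + ((η (cls K P) : Fˣ) : F)⁻¹ :=
  H82.LT.sum_primesOver h hℓ hℓN η hP

/-- **In characteristic two** `x + x⁻¹ = 1` for every element `x ≠ 1` with `x³ = 1`. So, for `η` of order
three, the coefficient at a split prime is `0` if `η(P) = 1` and `1` otherwise: it does not see the
difference between `η` and `η⁻¹`. (`H82LTPsi`) -/
theorem cube_root_of_unity {F : Type} [Field F] (h2 : (2 : F) = 0) {x : Fˣ} (hx : x ≠ 1)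
    (hx3 : x ^ 3 = 1) : (x : F) + (x : F)⁻¹ = 1 :=
  H82.LT.add_inv_eq_one h2 hx hx3

/-- **Places which are not principal have degree one**: a place `v` of `K` above a prime number `ℓ`, whose
class is not `1`, has norm `ℓ`. (Its norm divides `ℓ²`, and if it is `ℓ²`, then the ideal is `(ℓ)`.)
(`H82LTPsiB`) -/
theorem degree_one_of_not_principal (h : QuadData K N w) {ℓ : ℕ} (hℓ : ℓ.Prime)
    {v : HeightOneSpectrum (𝓞 K)} (hℓv : (ℓ : 𝓞 K) ∈ v.asIdeal) (hv : clv v ≠ 1) :
    v.asIdeal ∈ primesOver K ℓ :=
  H82.LT.mem_primesOver_of_clv_ne_one h hℓ hℓv hv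

end Quadratic

/-- **A character sees places away from a given integer.** `K` any number field: a nontrivial character `η`
of the class group is nontrivial at some place whose prime ideal does not contain the integer `n ≠ 0`.
(Write a class as a sum of places; by weak approximation its part at the finitely many places above `n` can
be removed by a principal divisor.) (`H82LTPsiB`) -/
theorem exists_place {K : Type} [Field K] [NumberField K] {A : Type*} [CommGroup A]
    (η : ClassGroup (𝓞 K) →* A) (hη : η ≠ 1) (n : ℕ) (hn : n ≠ 0) :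
    ∃ v : HeightOneSpectrum (𝓞 K), (n : 𝓞 K) ∉ v.asIdeal ∧ η (clv v) ≠ 1 :=
  H82.LT.exists_place_of_ne_one η hη n hn

/-!
## 2. The Galois group of `ℚ(√-N)` and Frobenius elements

`GK N` is the group of the automorphisms of `Qb` which fix the square roots of `-N`. In this section `K` is
embedded into `Qb` (`Algebra K Qb`).
-/

section Galois

variable {K : Type} [Field K] [NumberField K] [Algebra K Qb] {N : ℕ} {w : 𝓞 K}

/-- **`GK N` is the absolute Galois group of `K`**: it consists of the automorphisms which are the identity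
on `K`, and the automorphisms outside map `w` to `-w`. (`H82LTPsiB`) -/
theorem galois_group (h : QuadData K N w) (φ : GQ) :
    (φ ∈ GK N ↔ ∀ x : K, φ (algebraMap K Qb x) = algebraMap K Qb x) ∧
      (φ ∉ GK N → φ (algebraMap K Qb w) = - algebraMap K Qb w) :=
  ⟨H82.LT.mem_GK_iff h φ, fun hφ => H82.LT.apply_w_eq_neg h hφ⟩

/-- **From `Gal(Qb/K)` to `GQ`.** The restriction of scalars `H82.LT.resK K` is the inclusion; its image is
`GK N`, and it respects inertia groups and Frobenius elements. (`H82LTPsi`) -/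
theorem restriction_of_scalars (h : QuadData K N w) :
    (∀ σ : Qb ≃ₐ[K] Qb, (∀ x : Qb, H82.LT.resK K σ x = σ x) ∧ H82.LT.resK K σ ∈ GK N) ∧
      (∀ g ∈ GK N, ∃ σ : Qb ≃ₐ[K] Qb, H82.LT.resK K σ = g) ∧
      ∀ (A : ValuationSubring Qb) (σ : Qb ≃ₐ[K] Qb),
        (σ ∈ A.inertiaSubgroupIn K → H82.LT.resK K σ ∈ A.inertiaSubgroupIn ℚ) ∧
        ∀ ℓ : ℕ, ℓ.Prime → (A.IsFrobeniusAt (H82.LT.resK K σ) ℓ ↔ A.IsFrobeniusAt σ ℓ) :=
  ⟨fun σ => ⟨fun _ => rfl, H82.LT.resK_mem_GK h σ⟩, fun _ hg => H82.LT.exists_resK_eq h hg,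
    fun _ _ => ⟨fun hσ => H82.LT.resK_mem_inertia hσ, fun _ hℓ => H82.LT.isFrobeniusAt_resK hℓ⟩⟩

/-- **A homomorphism of finite level is continuous on `Gal(Qb/K)`**: its kernel is open. (The fixing group
of the field generated over `K` by a basis of the level is contained in it.) (`H82LTPsi`) -/
theorem open_kernel {M : Type*} [Monoid M] {f : GQ →* M} (hf : FinLevel f) :
    IsOpen (((f.comp (H82.LT.resK K)).ker : Subgroup (Qb ≃ₐ[K] Qb)) : Set (Qb ≃ₐ[K] Qb)) :=
  H82.LT.isOpen_ker_comp hf

omit w in
/-- **Frobenius elements on integers of `K`.** If the Frobenius element `φ` at the place `A` above `ℓ` maps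
the integer `x` of `K` to the integer `y` of `K`, then `y` is congruent to `x^ℓ` at the place of `K` below
`A`; and this place contains `ℓ`. (`H82LTPsiB`) -/
theorem frobenius_on_integers {ℓ : ℕ} (hℓ : ℓ.Prime) {A : ValuationSubring Qb} (hA : A.LiesOverPrime ℓ) :
    (ℓ : 𝓞 K) ∈ (placeBelow K hℓ hA).asIdeal ∧
      ∀ φ : GQ, A.IsFrobeniusAt φ ℓ → ∀ x y : 𝓞 K, φ (algebraMap K Qb x) = algebraMap K Qb y →
        y - x ^ ℓ ∈ (placeBelow K hℓ hA).asIdeal :=
  ⟨H82.LT.natCast_mem_placeBelow hℓ hA, fun _ hφ x y hxy => H82.LT.smul_sub_pow_mem hℓ hA hφ x y hxy⟩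

/-- **Frobenius elements inside `G_K`**: the place of `K` below has degree one. (`x ≡ x^ℓ` for all integers
`x`, so the residue field is `𝔽_ℓ`.) (`H82LTPsiB`) -/
theorem frobenius_inside (h : QuadData K N w) {ℓ : ℕ} (hℓ : ℓ.Prime) {A : ValuationSubring Qb}
    (hA : A.LiesOverPrime ℓ) {φ : GQ} (hφ : A.IsFrobeniusAt φ ℓ) (hφK : φ ∈ GK N) :
    (placeBelow K hℓ hA).asIdeal ∈ primesOver K ℓ :=
  H82.LT.placeBelow_mem_primesOver h hℓ hA hφ hφK

/-- **Frobenius elements outside `G_K`**, `ℓ ∤ 2 N`: there are no prime ideals of norm `ℓ`. (If there is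
one, then `ℓ ∣ n² + N` for some `n`, so `w ≡ ± n` at the place below `A`, and `-w ≡ w^ℓ` gives `ℓ ∣ 2 n`.)
(`H82LTPsiB`) -/
theorem frobenius_outside (h : QuadData K N w) {ℓ : ℕ} (hℓ : ℓ.Prime) (hℓN : ¬ ℓ ∣ 2 * N)
    {A : ValuationSubring Qb} (hA : A.LiesOverPrime ℓ) {φ : GQ} (hφ : A.IsFrobeniusAt φ ℓ)
    (hφK : φ ∉ GK N) : primesOver K ℓ = ∅ :=
  H82.LT.primesOver_eq_empty h hℓ hℓN hA hφ hφK

end Galois

/-!
## 3. The first inequality in the form of a class group character: the steps

`K` is a number field, `L/K` a Galois extension of prime degree `p`. The order of `x ∈ Kˣ` at the place `v`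
is `ordHom v x` (written additively), `divHom` maps `x` to the finitely supported function of all its orders
(its divisor), `congr v 0` is the group of the units at `v`. The result is
`GuideQuadRec.exists_class_character`.
-/

/-- **Detecting an element modulo `p`-th powers.** An element `g` of a commutative group which is not in the
subgroup `H`, where `H` contains all `p`-th powers, is detected by a homomorphism to `ℤ/p` which is trivial
on `H`. (Linear algebra over `𝔽_p`.) (`H82LTFI`) -/
theorem exists_functional {G : Type*} [CommGroup G] {p : ℕ} [Fact p.Prime] {H : Subgroup G} {g : G}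
    (hg : g ∉ H) (hpow : ∀ x : G, x ^ p ∈ H) :
    ∃ χ : Additive G →+ ZMod p, χ (Additive.ofMul g) ≠ 0 ∧ ∀ x ∈ H, χ (Additive.ofMul x) = 0 :=
  H82.exists_char_of_notMem hg hpow

/-- **Characters of the class group are functions on places**: a function `f` on the finite places of `K`
with values in a commutative group, such that `∑ ord_v(x) f(v) = 0` for all `x ∈ Kˣ`, comes from a
homomorphism of the class group. (`H82LTFI`) -/
theorem exists_character {K : Type*} [Field K] [NumberField K] {A : Type*} [AddCommGroup A]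
    (f : HeightOneSpectrum (𝓞 K) → A)
    (hf : ∀ x : Kˣ, Finsupp.liftAddHom (fun v => zmultiplesHom A (f v))
      (divHom (𝓞 K) K (Additive.ofMul x)) = 0) :
    ∃ η : Additive (ClassGroup (𝓞 K)) →+ A, ∀ v, η (Additive.ofMul (placeClass v)) = f v :=
  H82.exists_hom_of_principal f hf

/-- **The order of a norm** at a place `v` of `K` which is unramified in `L`, `w` a place above it: the
order of `N(z)` at `v` is the sum of the orders of `z` at the places `σ w`, `σ ∈ Gal(L/K)`. (`H82LTFI`) -/
theorem order_of_norm {K : Type*} [Field K] [NumberField K] {L : Type*} [Field L] [NumberField L]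
    [Algebra K L] [IsGalois K L] {v : HeightOneSpectrum (𝓞 K)} {w : HeightOneSpectrum (𝓞 L)}
    (hw : w ∈ above L v) (hunr : v.asIdeal.ramificationIdx' w.asIdeal = 1) (z : Lˣ) :
    ordHom v (Additive.ofMul (Units.map (Algebra.norm K : L →* K) z)) =
      ∑ σ : L ≃ₐ[K] L, ordHom (smulPlace σ w) (Additive.ofMul z) :=
  H82.ordHom_norm hw hunr z

/-- **Two cases** of the preceding theorem, `[L : K] = p`, `v` unramified: (1) if `v` does not split, then
the order of `N(z)` at `v` is divisible by `p`; (2) if `v` splits, `w` is above `v` and `z` has order zero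
at all other places above `v`, then the order of `N(z)` at `v` is the order of `z` at `w`. (`H82LTFI`) -/
theorem order_of_norm_cases {K : Type*} [Field K] [NumberField K] {L : Type*} [Field L] [NumberField L]
    [Algebra K L] [IsGalois K L] {p : ℕ} [Fact p.Prime] (hdeg : Module.finrank K L = p)
    {v : HeightOneSpectrum (𝓞 K)} (hunr : ∀ w ∈ above L v, v.asIdeal.ramificationIdx' w.asIdeal = 1) :
    (NonSplit L v → ∀ z : Lˣ,
      (p : ℤ) ∣ ordHom v (Additive.ofMul (Units.map (Algebra.norm K : L →* K) z))) ∧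
    (¬ NonSplit L v → ∀ w ∈ above L v, ∀ z : Lˣ,
      (∀ w' ∈ above L v, w' ≠ w → ordHom w' (Additive.ofMul z) = 0) →
        ordHom v (Additive.ofMul (Units.map (Algebra.norm K : L →* K) z)) =
          ordHom w (Additive.ofMul z)) :=
  ⟨fun hns z => H82.ordHom_norm_of_nonSplit hdeg hns hunr z,
    fun hns w hw z hz => H82.ordHom_norm_of_split hdeg hns hw (hunr w hw) z hz⟩

/-- **The group `(Kˣ)^p U_v`** consists of the elements whose order at `v` is divisible by `p`. Let `T` be a
finite set of places such that the `T`-class groups of `K` and `L` are trivial, `E_T` and `E_T(L)` the groups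
of the `T`-units. The intersection `Q` of the groups `(Kˣ)^p U_v` over the `s` places `v ∈ T` which do not
split in `L` has index `p^s` (weak approximation). It contains the norms of the `T`-units of `L`, and by the
first inequality `[E_T : N E_T(L)] p = p^s`; hence `E_T Q` is not the whole group, and `exists_functional`
gives a homomorphism `χ` which is trivial on `E_T Q`. Since `χ` is trivial on `Q`, it is
`∑ ord_v(x) χ(t_v)`, the sum over these places, with elements `t_v` of order one at `v` and zero at the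
others; since it is trivial on `E_T` and the `T`-class group of `K` is trivial, it defines a function on all
places with the property of `exists_character`. At a place `v` outside `T` which splits it is zero by
`order_of_norm_cases`, applied to an element `z` of order one at one place above `v` and zero at the others
outside `T` (the `T`-class group of `L` is trivial too). (`H82LTFI`) -/
theorem mem_powers_times_units {K : Type*} [Field K] [NumberField K] {p : ℕ}
    {v : HeightOneSpectrum (𝓞 K)} {x : Kˣ} :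
    x ∈ (powMonoidHom p : Kˣ →* Kˣ).range ⊔ congr v 0 ↔ (p : ℤ) ∣ ordHom v (Additive.ofMul x) :=
  H82.mem_pow_sup_units_iff

/-- **The first inequality in Galois form.** `K` totally complex, `Ω` an algebraic Galois extension of `K`,
`H` an open normal subgroup of index `p` of `Gal(Ω/K)` which contains all inertia groups. Then there is a
nontrivial homomorphism `η` from the class group of `K` to `ℤ/p` which is trivial at every place below a
place with a Frobenius element in `H`. (The fixed field `L` of `H` is unramified of degree `p` over `K`,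
`H91FIh`; a place with a Frobenius element in `H` splits in `L`; `GuideQuadRec.exists_class_character`.)
(`H82LTPsi`) -/
theorem class_character_galois {K Ω : Type} [Field K] [NumberField K] [Field Ω] [CharZero Ω]
    [Algebra.IsAlgebraic ℚ Ω] [Algebra K Ω] [IsGalois K Ω] [IsTotallyComplex K] {p : ℕ} [Fact p.Prime]
    (H : Subgroup (Ω ≃ₐ[K] Ω)) [H.Normal] (hopen : IsOpen (H : Set (Ω ≃ₐ[K] Ω))) (hidx : H.index = p)
    (hunr : ∀ (ℓ : ℕ), ℓ.Prime → ∀ A : ValuationSubring Ω, A.LiesOverPrime ℓ →
      A.inertiaSubgroupIn K ≤ H) :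
    ∃ η : Additive (ClassGroup (𝓞 K)) →+ ZMod p, (∃ v, η (Additive.ofMul (clv v)) ≠ 0) ∧
      ∀ (ℓ : ℕ) (hℓ : ℓ.Prime) (A : ValuationSubring Ω) (hA : A.LiesOverPrime ℓ)
        (φ : Ω ≃ₐ[K] Ω), φ ∈ H → A.IsFrobeniusAt φ ℓ →
          η (Additive.ofMul (clv (placeBelow K hℓ hA))) = 0 :=
  H82.LT.exists_class_char_gal H hopen hidx hunr

/-!
## 4. The 2-torsion of a good curve and its cubic character
-/

/-- What is used about the 2-torsion representation `rb : GQ →* M2 (ZMod 2)`: finite level, surjective onto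
`GL₂(𝔽₂)`, `GK N` is the inverse image of the elements of order `1` and `3` (identity or trace `1`), and the
elements of all inertia groups have trace zero (they have order `1` or `2`). (`H82LTPsi`) -/
theorem rbData_iff {N : ℕ} {rb : GQ →* M2 (ZMod 2)} : H82.LT.RbData N rb ↔
    FinLevel rb ∧ (∀ M : M2 (ZMod 2), M.det ≠ 0 → ∃ g, rb g = M) ∧
      (∀ g : GQ, g ∈ GK N ↔ rb g = 1 ∨ (rb g).trace = 1) ∧
      ∀ ℓ : ℕ, ℓ.Prime → ∀ P : ValuationSubring Qb, P.LiesOverPrime ℓ →
        ∀ σ ∈ P.inertiaSubgroupIn ℚ, (rb σ).trace = 0 :=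
  ⟨fun h => ⟨h.fin, h.surj, h.mem_GK, h.inert⟩, fun h => ⟨h.1, h.2.1, h.2.2.1, h.2.2.2⟩⟩

/-- **A good curve satisfies this** with `N` its conductor. The condition on inertia: at a prime of good
reduction different from `2` inertia acts trivially; at a bad prime (`2` is one of them) the Steinberg type
says `(r(σ) - det r(σ)) (r(σ) - 1) = 0`, and modulo `2` a matrix `M` with `(M - 1)² = 0` has trace zero.
(`H82LTPsi`) -/
theorem rbData_of_good_curve {W : WeierstrassCurve ℤ} {r : GQ →* M2 ℤ_[2]} {s : ℕ → ℤ}
    (hW : GoodCurve W) (hE : EData W r s) :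
    H82.LT.RbData (cond W) (mapMat PadicInt.toZMod r) ∧ Squarefree (cond W) ∧ 2 ∣ cond W :=
  ⟨H82.LT.rbData_of_eData hW hE, H82.LT.squarefree_cond W, H82.LT.two_dvd_cond hW⟩

/-- **`GL₂(𝔽₂)`**: every element has determinant `1`, and two elements of trace `1` (the elements of order
three) are equal or inverse to each other. (`H82LTPsiA`) -/
theorem elements_of_order_three (rb : GQ →* M2 (ZMod 2)) :
    (∀ g, (rb g).det = 1) ∧ ∀ x y : M2 (ZMod 2), x.det = 1 → y.det = 1 → x.trace = 1 → y.trace = 1 →
      x = y ∨ x * y = 1 :=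
  ⟨H82.LT.det_eq_one rb, fun x y hx hy hx' hy' => H82.LT.m2_eq_or x y hx hy hx' hy'⟩

/-- **The field**: for `N` squarefree and even and `K` a quadratic field with a square root of `-N` there is
an integer `w` of `K` with `QuadData K N w`, and `K` is totally complex. (`H82LTPsi`) -/
theorem quadratic_field {K : Type} [Field K] [NumberField K] {N : ℕ} (hN : Squarefree N) (h2 : 2 ∣ N)
    (hK : Module.finrank ℚ K = 2) (hx : ∃ x : K, x ^ 2 = -(N : K)) :
    (∃ w : 𝓞 K, QuadData K N w) ∧ IsTotallyComplex K :=
  ⟨H82.LT.exists_quadData hN h2 hK hx,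
    let ⟨_, h⟩ := H82.LT.exists_quadData hN h2 hK hx; H82.LT.isTotallyComplex h⟩

section Torsion

variable {K : Type} [Field K] [NumberField K] [Algebra K Qb] {N : ℕ} {w : 𝓞 K}

/-- **An unramified cubic extension.** On `Gal(Qb/K)` the kernel of the 2-torsion representation has index
three, and it contains all inertia groups: their elements are in `GK N` and have trace zero, so they act
trivially. (`H82LTPsi`) -/
theorem unramified_cubic (h : QuadData K N w) {rb : GQ →* M2 (ZMod 2)} (hrb : H82.LT.RbData N rb) :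
    ((rb.comp (H82.LT.resK K)).ker).index = 3 ∧
      ∀ (ℓ : ℕ), ℓ.Prime → ∀ A : ValuationSubring Qb, A.LiesOverPrime ℓ →
        A.inertiaSubgroupIn K ≤ (rb.comp (H82.LT.resK K)).ker :=
  ⟨H82.LT.index_ker h hrb, fun _ hℓ _ hA => H82.LT.inertia_le_ker h hrb hℓ hA⟩

/-- **The cubic character of the class group.** There is a character `η ≠ 1` of the class group of `K` with
`η³ = 1`, with values in the field `F` of four elements, which is `1` at every place below a place with a
Frobenius element that acts trivially on the 2-torsion. (`class_character_galois` with `p = 3` for the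
preceding theorem, followed by an isomorphism of `ℤ/3` with `Fˣ`.) (`H82LTPsi`) -/
theorem exists_cubic_character (h : QuadData K N w) {rb : GQ →* M2 (ZMod 2)}
    (hrb : H82.LT.RbData N rb) {F : Type} [Field F] (hF : Nat.card F = 4) :
    ∃ η : ClassGroup (𝓞 K) →* Fˣ, η ≠ 1 ∧ (∀ c, η c ^ 3 = 1) ∧
      ∀ (ℓ : ℕ) (hℓ : ℓ.Prime) (A : ValuationSubring Qb) (hA : A.LiesOverPrime ℓ) (φ : GQ),
        A.IsFrobeniusAt φ ℓ → rb φ = 1 → η (clv (placeBelow K hℓ hA)) = 1 :=
  H82.LT.exists_cubic_char h hrb hF

end Torsion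

/-!
## 5. Traces in characteristic two
-/

/-- **The identity**: let `2 = 0` in `F`, `U` a matrix with trace zero and determinant `1`, `X` a matrix
with determinant `1`. Then `tr(U X U X⁻¹) = (tr X - tr(U X))²` (the adjugate of `X` is its inverse).
(`H82LTPsiA`) -/
theorem trace_of_commutator {F : Type} [CommRing F] (h2 : (2 : F) = 0) {U X : M2 F} (hU : U.trace = 0)
    (hUd : U.det = 1) (hX : X.det = 1) :
    (U * X * U * X.adjugate).trace = (X.trace - (U * X).trace) ^ 2 :=
  H82.LT.trace_conj_id h2 hU hUd hX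

/-- **Invariance.** `ρ` a representation of `GQ` over a field of characteristic two with determinant `1`,
`B` a normal subgroup on which the trace of `ρ` vanishes: then the trace of `ρ` is invariant under `B`. (For
`u ∈ B` the element `u (g u g⁻¹)` is in `B`, so the square in `trace_of_commutator` is zero.) (`H82LTPsiA`)
-/
theorem trace_is_invariant {F : Type} [Field F] (h2 : (2 : F) = 0) (ρ : GQ →* M2 F)
    (hdet : ∀ g, (ρ g).det = 1) (B : Subgroup GQ) [B.Normal] (hB : ∀ g ∈ B, (ρ g).trace = 0) {u : GQ}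
    (hu : u ∈ B) (g : GQ) : (ρ (u * g)).trace = (ρ g).trace :=
  H82.LT.trace_mul_eq h2 ρ hdet B hB hu g

/-- **Powers**: a matrix with trace zero and determinant `1` in characteristic two has square `1`, so all
its powers have trace zero. (`H82LTPsiA`) -/
theorem powers_of_trace_zero {F : Type} [CommRing F] (h2 : (2 : F) = 0) {U : M2 F} (hU : U.trace = 0)
    (hUd : U.det = 1) : U * U = 1 ∧ ∀ n : ℕ, (U ^ n).trace = 0 :=
  ⟨H82.LT.sq_eq_one h2 hU hUd, H82.LT.trace_pow_eq_zero h2 hU hUd⟩

/-- **The density theorem of Frobenius**: for a number field `L`, `σ ∈ GQ` and a finite set `S` of prime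
numbers there are a prime number `ℓ ∉ S`, a place above `ℓ` and a Frobenius element `φ` at it such that on
`L` the automorphism `σ` is a power of `φ` and `φ` is a power of `σ` (the two generate the same group). This
replaces the theorem of Chebotarev. (`H82LTPsiA`; proof in `H86Density`, from `H82FrobDensity`;
`GuideQuadRec.frobenius_density`) -/
theorem frobenius_density (L : IntermediateField ℚ Qb) (hL : FiniteDimensional ℚ L) (σ : GQ)
    (S : Finset ℕ) :
    ∃ ℓ : ℕ, ℓ.Prime ∧ ℓ ∉ S ∧ ∃ A : ValuationSubring Qb, A.LiesOverPrime ℓ ∧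
      ∃ φ : GQ, A.IsFrobeniusAt φ ℓ ∧ ∃ j k : ℕ,
        (∀ x ∈ L, σ x = (φ ^ j) x) ∧ (∀ x ∈ L, φ x = (σ ^ k) x) :=
  H82.LT.exists_frob L hL σ S

/-- **Comparison of traces, abstract form.** Let `rb` be a representation of finite level over `𝔽₂`, `G` the
subgroup of the elements with `rb(g) = 1` or of trace `1`, `ρ` a representation of finite level over a field
`F` of characteristic two; outside the finite set `S` let the Frobenius elements `φ` satisfy: `det ρ(φ) =
1`; `tr ρ(φ) = 0` if `φ ∉ G`; `tr ρ(φ) = 0` if `rb(φ) = 1`; and let `tr ρ(φ₀) = 1` for one element `φ₀ ∈ G`.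
Then `det ρ = 1` and `tr ρ = tr rb`. (The density theorem, with `powers_of_trace_zero`, extends the first
three conditions to all elements of `GQ`; then `trace_is_invariant` for the kernel of `rb`, and
`elements_of_order_three`.) (`H82LTPsiA`) -/
theorem comparison_of_traces {F : Type} [Field F] (h2 : (2 : F) = 0) (ρ : GQ →* M2 F)
    (hρ : FinLevel ρ) (rb : GQ →* M2 (ZMod 2)) (hrb : FinLevel rb) (G : Subgroup GQ)
    (hmem : ∀ g, g ∈ G ↔ rb g = 1 ∨ (rb g).trace = 1) (S : Finset ℕ)
    (hdet : ∀ ℓ : ℕ, ℓ.Prime → ℓ ∉ S → ∀ A : ValuationSubring Qb, A.LiesOverPrime ℓ →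
      ∀ φ : GQ, A.IsFrobeniusAt φ ℓ → (ρ φ).det = 1)
    (hout : ∀ ℓ : ℕ, ℓ.Prime → ℓ ∉ S → ∀ A : ValuationSubring Qb, A.LiesOverPrime ℓ →
      ∀ φ : GQ, A.IsFrobeniusAt φ ℓ → φ ∉ G → (ρ φ).trace = 0)
    (hker : ∀ ℓ : ℕ, ℓ.Prime → ℓ ∉ S → ∀ A : ValuationSubring Qb, A.LiesOverPrime ℓ →
      ∀ φ : GQ, A.IsFrobeniusAt φ ℓ → rb φ = 1 → (ρ φ).trace = 0)
    (φ₀ : GQ) (hφ₀G : φ₀ ∈ G) (hφ₀ : (ρ φ₀).trace = 1) :
    (∀ g, (ρ g).det = 1) ∧ ∀ (c : ZMod 2 →+* F) (g : GQ), (ρ g).trace = c (rb g).trace :=
  H82.LT.trace_matching h2 ρ hρ rb hrb G hmem S hdet hout hker φ₀ hφ₀G hφ₀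

/-!
## 6. The result
-/

/-- **The class group character determines the traces.** `rb` as in `rbData_iff`, `η` a character of order
three of the class group as in `exists_cubic_character`, now with values in any field `F` of characteristic
two; `ρ` a representation of finite level over `F` whose Frobenius elements `φ` at almost all `ℓ` satisfy
`det ρ(φ) = 1` and `tr ρ(φ) = ∑ η(P)`, the sum over the prime ideals of norm `ℓ`. Then `det ρ = 1` and `tr ρ
= tr rb`. (The hypotheses of `comparison_of_traces`: outside `G_K` the sum is empty by `frobenius_outside`;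
if `rb(φ) = 1`, then the sum is `1 + 1 = 0` by `frobenius_inside`, `coefficient` and the property of `η`;
and `exists_place` with `degree_one_of_not_principal` gives a prime number `ℓ₀` with a prime ideal `P` of
norm `ℓ₀` and `η(P) ≠ 1`, so every Frobenius element at `ℓ₀` is in `G_K` and has trace `1`.) (`H82LTPsi`) -/
theorem traces_from_class_character {K : Type} [Field K] [NumberField K] [Algebra K Qb] {N : ℕ}
    {w : 𝓞 K} (h : QuadData K N w) {rb : GQ →* M2 (ZMod 2)} (hrb : H82.LT.RbData N rb)
    {F : Type} [Field F] (h2 : (2 : F) = 0) (η : ClassGroup (𝓞 K) →* Fˣ) (hη : η ≠ 1)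
    (hη3 : ∀ c, η c ^ 3 = 1)
    (hηk : ∀ (ℓ : ℕ) (hℓ : ℓ.Prime) (A : ValuationSubring Qb) (hA : A.LiesOverPrime ℓ) (φ : GQ),
        A.IsFrobeniusAt φ ℓ → rb φ = 1 → η (clv (placeBelow K hℓ hA)) = 1)
    (ρ : GQ →* M2 F) (hρ : FinLevel ρ) (S : Finset ℕ)
    (hdet : ∀ ℓ : ℕ, ℓ.Prime → ℓ ∉ S → ∀ A : ValuationSubring Qb, A.LiesOverPrime ℓ →
      ∀ φ : GQ, A.IsFrobeniusAt φ ℓ → (ρ φ).det = 1)
    (htr : ∀ ℓ : ℕ, ℓ.Prime → ℓ ∉ S → ∀ A : ValuationSubring Qb, A.LiesOverPrime ℓ →
      ∀ φ : GQ, A.IsFrobeniusAt φ ℓ →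
        (ρ φ).trace = ∑ P ∈ primesOver K ℓ, ((η (cls K P) : Fˣ) : F)) :
    (∀ g, (ρ g).det = 1) ∧ ∀ (c : ZMod 2 →+* F) (g : GQ), (ρ g).trace = c (rb g).trace :=
  H82.LT.trace_eq_of_class_char h hrb h2 η hη hη3 hηk ρ hρ S hdet htr

/-- **The cubic character of a good curve**, the form in which the block uses the result (it is
`GuideResidual.m5_cubic_character`): `r` the 2-adic representation of the good curve `W`, `K = ℚ(√-N)`, `N`
the conductor, `F` a field with four elements. There is a character `η ≠ 1` of the class group of `K` with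
`η³ = 1` such that every representation over an extension `k` of `F`, of finite level, whose Frobenius
elements at almost all `ℓ` have determinant `1` and trace `∑ η(P)`, has the trace of the 2-torsion of `W`.
It is applied to the residual representation of the theta side (`GuideGluing.matching`), where the traces
are the coefficients of the theta series. (`H82LTPsi`) -/
theorem cubic_character {W : WeierstrassCurve ℤ} {r : GQ →* M2 ℤ_[2]} {s : ℕ → ℤ}
    (hW : GoodCurve W) (hE : EData W r s) (K : Type) [Field K] [NumberField K]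
    (hK : Module.finrank ℚ K = 2) (hx : ∃ x : K, x ^ 2 = -((cond W : ℕ) : K))
    (F : Type) [Field F] (hF : Nat.card F = 4) :
    ∃ η : ClassGroup (𝓞 K) →* Fˣ, η ≠ 1 ∧ (∀ c, η c ^ 3 = 1) ∧
      ∀ (k : Type) [Field k] (ι : F →+* k) (ρ : GQ →* M2 k) (S : Finset ℕ), FinLevel ρ →
        (∀ ℓ : ℕ, ℓ.Prime → ℓ ∉ S → ∀ A : ValuationSubring Qb, A.LiesOverPrime ℓ →
          ∀ φ : GQ, A.IsFrobeniusAt φ ℓ → (ρ φ).det = 1) →
        (∀ ℓ : ℕ, ℓ.Prime → ℓ ∉ S → ∀ A : ValuationSubring Qb, A.LiesOverPrime ℓ →
          ∀ φ : GQ, A.IsFrobeniusAt φ ℓ →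
            (ρ φ).trace = ι (∑ P ∈ primesOver K ℓ, ((η (cls K P) : Fˣ) : F))) →
        (∀ g, (ρ g).det = 1) ∧
          ∀ (c : ZMod 2 →+* k) (g : GQ), (ρ g).trace = c (mapMat PadicInt.toZMod r g).trace :=
  H82.LT.exists_eta hW hE K hK hx F hF

end Fermat.Agent.Guide.CubicCharacter
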