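import Fermat.Agent.H74VarChange
import Fermat.Prelude.Def_EllipticCurve_FrobeniusTrace
import Fermat.Prelude.Def_FLTPrelim_ModularRep

/-!
# Galois equivariant isomorphism of point groups induced by a change of variables over `ℚ`
-/

set_option autoImplicit false

namespace Fermat.Agent.H62

open WeierstrassCurve WeierstrassCurve.Affine WeierstrassCurve.Affine.Point

section

variable {F K : Type*} [Field F] [Field K] [DecidableEq K] [Algebra F K]

/-- transported form of `H74.pointEquiv` -/
lemma exists_pointEquiv_of_eq (W : WeierstrassCurve K) (C : VariableChange K)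
    (X : WeierstrassCurve K) (hX : X = C • W) :
    ∃ e : X.toAffine.Point ≃+ W.toAffine.Point,
      ∀ (x y : K) (h : X.toAffine.Nonsingular x y), ∃ h', e (.some x y h) =
        .some (H74.vcX C x) (H74.vcY C x y) h' := by
  subst hX
  exact ⟨H74.pointEquiv W C, fun x y h => ⟨_, H74.pointEquiv_some W C h⟩⟩

/-- **Galois equivariant isomorphism** `(C • E)(K) ≃ E(K)`. -/
theorem exists_equivariant_equiv (E : WeierstrassCurve F) (C : VariableChange F) :
    ∃ e : ((C • E)⁄K).Point ≃+ (E⁄K).Point,
      ∀ (σ : K ≃ₐ[F] K) (P : ((C • E)⁄K).Point), e (σ • P) = σ • e P := by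
  obtain ⟨e, he⟩ := exists_pointEquiv_of_eq (E⁄K) (C.map (algebraMap F K)) ((C • E)⁄K)
    (map_variableChange ..).symm
  refine ⟨e, fun σ P => ?_⟩
  rcases P with _ | ⟨x, y, h⟩
  · change e 0 = σ • e 0
    rw [_root_.map_zero, smul_zero]
  · obtain ⟨h', e1⟩ := he x y h
    rw [e1]
    obtain ⟨h'', e2⟩ := he (σ x) (σ y) (by
      have := ((C • E).toAffine.baseChange_nonsingular (f := σ.toAlgHom) σ.injective x y).mpr h
      exact this)
    refine (e2.trans ?_)
    change _ = Point.map σ.toAlgHom _
    rw [Point.map_some, Point.some.injEq]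
    constructor
    · simp [H74.vcX, VariableChange.map]
    · simp [H74.vcY, VariableChange.map]

/-- the induced isomorphism on torsion -/
theorem exists_equivariant_torsion_equiv (E : WeierstrassCurve F) (C : VariableChange F) (n : ℕ) :
    ∃ e : Submodule.torsionBy ℤ ((C • E)⁄K).Point n ≃ₗ[ZMod n]
        Submodule.torsionBy ℤ (E⁄K).Point n,
      ∀ (σ : K ≃ₐ[F] K) (P : Submodule.torsionBy ℤ ((C • E)⁄K).Point n), e (σ • P) = σ • e P := by
  obtain ⟨e, he⟩ := exists_equivariant_equiv (K := K) E C
  have h1 : ∀ P : ((C • E)⁄K).Point, P ∈ Submodule.torsionBy ℤ ((C • E)⁄K).Point n →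
      e P ∈ Submodule.torsionBy ℤ (E⁄K).Point n := by
    intro P hP
    rw [Submodule.mem_torsionBy_iff] at hP ⊢
    rw [← map_zsmul, hP, _root_.map_zero]
  have h2 : ∀ P : (E⁄K).Point, P ∈ Submodule.torsionBy ℤ (E⁄K).Point n →
      e.symm P ∈ Submodule.torsionBy ℤ ((C • E)⁄K).Point n := by
    intro P hP
    rw [Submodule.mem_torsionBy_iff] at hP ⊢
    rw [← map_zsmul, hP, _root_.map_zero]
  let e' : Submodule.torsionBy ℤ ((C • E)⁄K).Point n ≃+ Submodule.torsionBy ℤ (E⁄K).Point n :=
    { toFun := fun P => ⟨e P, h1 P P.2⟩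
      invFun := fun P => ⟨e.symm P, h2 P P.2⟩
      left_inv := fun P => Subtype.ext (e.symm_apply_apply _)
      right_inv := fun P => Subtype.ext (e.apply_symm_apply _)
      map_add' := fun P Q => Subtype.ext (map_add e _ _) }
  refine ⟨{ e' with map_smul' := fun c x => ZMod.map_smul e'.toAddMonoidHom c x }, ?_⟩
  intro σ P
  exact Subtype.ext (he σ P)

/-- Irreducibility is invariant under a change of variables over the base field. -/
theorem galoisRepIsIrreducible_variableChange (E : WeierstrassCurve F) (C : VariableChange F)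
    (n : ℕ) (h : GaloisRepIsIrreducible (K := K) F E n) :
    GaloisRepIsIrreducible (K := K) F (C • E) n := by
  obtain ⟨e, he⟩ := exists_equivariant_torsion_equiv (K := K) E C n
  obtain ⟨hnt, hirr⟩ := h
  refine ⟨e.toEquiv.nontrivial, fun N hN => ?_⟩
  have hst : IsGaloisStable F (N.map (e : Submodule.torsionBy ℤ ((C • E)⁄K).Point n →ₗ[ZMod n]
        Submodule.torsionBy ℤ (E⁄K).Point n)) := by
    rintro σ _ ⟨x, hx, rfl⟩
    exact ⟨σ • x, hN σ x hx, he σ x⟩
  rcases hirr _ hst with h1 | h1
  · left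
    rw [Submodule.eq_bot_iff]
    intro x hx
    have : e x ∈ (⊥ : Submodule (ZMod n) (Submodule.torsionBy ℤ (E⁄K).Point n)) := by
      rw [← h1]; exact ⟨x, hx, rfl⟩
    rw [Submodule.mem_bot] at this
    exact e.map_eq_zero_iff.mp this
  · right
    rw [Submodule.eq_top_iff']
    intro x
    have : e x ∈ N.map (e : Submodule.torsionBy ℤ ((C • E)⁄K).Point n →ₗ[ZMod n]
        Submodule.torsionBy ℤ (E⁄K).Point n) := by
      rw [h1]; trivial
    obtain ⟨y, hy, hxy⟩ := this
    have : y = x := e.injective hxy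
    rwa [← this]

end

end Fermat.Agent.H62
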