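import Fermat.Agent.H62NEGroup
import Fermat.Agent.H62FrobTrace
import Fermat.Agent.H62VarChange
import Fermat.Agent.H86DensityFinal
import Fermat.Agent.H87Res
import Fermat.Prelude.Def_FLTPrelim_ModularRep

/-!
# Irreducible `E[p]` is not Eisenstein
-/

set_option autoImplicit false

namespace Fermat.Agent.H62

open WeierstrassCurve WeierstrassCurve.Affine WeierstrassCurve.Affine.Point

local notation "Qb" => AlgebraicClosure ℚ
local notation "Gq" => (AlgebraicClosure ℚ ≃ₐ[ℚ] AlgebraicClosure ℚ)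

section

variable {W : WeierstrassCurve ℤ} {p : ℕ} [hp : Fact p.Prime]

/-- complex conjugation acts on `E[n]` with determinant `-1`. -/
lemma det_complexConjugation (E : WeierstrassCurve ℚ) (hΔ : E.Δ ≠ 0) {n : ℕ} [NeZero n] :
    LinearMap.det (galoisRepModuleEnd (K := Qb) ℚ E n complexConjugation) = -1 := by
  have hr : Nat.card (rootsOfUnity n Qb) = n := by
    have : NeZero (n : Qb) := ⟨Nat.cast_ne_zero.mpr (NeZero.ne n)⟩
    exact HasEnoughRootsOfUnity.natCard_rootsOfUnity Qb n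
  rw [H39.det_galoisRepModuleEnd_rat E hΔ hr,
    H87.Res.cyclotomic_involution complexConjugation_mul_self H87.Res.complexConjugation_ne_one hr,
    Units.val_neg, Units.val_one]

lemma sq_complexConjugation (E : WeierstrassCurve ℚ) (n : ℕ) :
    galoisRepModuleEnd (K := Qb) ℚ E n complexConjugation *
      galoisRepModuleEnd (K := Qb) ℚ E n complexConjugation = 1 := by
  rw [← _root_.map_mul, complexConjugation_mul_self, _root_.map_one]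

lemma irr_of_modRepIsIrreducible (hirr : W.ModRepIsIrreducible p) :
    Irr (galoisRepModuleEnd (K := Qb) ℚ (W.map (Int.castRingHom ℚ)) p) :=
  fun N hN => hirr.2 N hN

lemma two_ne_zero_zmod (hp2 : p ≠ 2) : (2 : ZMod p) ≠ 0 := by
  intro h
  have h1 : ((2 : ℕ) : ZMod p) = 0 := by exact_mod_cast h
  rw [ZMod.natCast_eq_zero_iff] at h1
  exact hp2 ((Nat.prime_dvd_prime_iff_eq hp.out Nat.prime_two).mp h1)

lemma map_Δ_ne_zero (hΔ : W.Δ ≠ 0) : (W.map (Int.castRingHom ℚ)).Δ ≠ 0 := by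
  rw [WeierstrassCurve.map_Δ, eq_intCast]
  exact_mod_cast hΔ

/-- **NE1** for integral models. -/
theorem ne1 (hΔ : W.Δ ≠ 0) (hp2 : p ≠ 2) (hirr : W.ModRepIsIrreducible p) {B : ℕ} (hB : 0 < B) :
    ∃ ℓ, ℓ.Prime ∧ W.IsGoodPrimeFor ℓ ∧ ¬ ℓ ∣ B ∧ ℓ ≠ p ∧
      ((W.apOfModel ℓ : ZMod p)) ^ 2 ≠ ((ℓ : ZMod p) + 1) ^ 2 := by
  classical
  have hΔ' := map_Δ_ne_zero hΔ
  have hp0 : p ≠ 0 := hp.out.ne_zero
  have : NeZero p := ⟨hp0⟩
  have h2 := H87.EC.finrank_torsionBy_rat (W.map (Int.castRingHom ℚ)) hΔ' hp0 hp.out.ne_one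
  obtain ⟨g, hg⟩ := exists_sq_tr_ne h2 (irr_of_modRepIsIrreducible hirr) (two_ne_zero_zmod hp2)
    (sq_complexConjugation _ p) (det_complexConjugation _ hΔ')
  obtain ⟨ℓ, hℓ, hℓS, A, hA, φ, hφ, j, k, h3, h4⟩ := H86.density_hom H86.frobDensityFinite
    (H87.EC.galoisFactorsThroughFiniteLevel (W.map (Int.castRingHom ℚ)) hΔ' hp0) g
    (p * B * W.Δ.natAbs).primeFactors
  have hne : p * B * W.Δ.natAbs ≠ 0 :=
    mul_ne_zero (mul_ne_zero hp0 hB.ne') (Int.natAbs_ne_zero.mpr hΔ)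
  have hndvd : ¬ ℓ ∣ p * B * W.Δ.natAbs := fun h =>
    hℓS (Nat.mem_primeFactors.mpr ⟨hℓ, h, hne⟩)
  have hℓp : ¬ ℓ ∣ p := fun h => hndvd ((h.mul_right B).mul_right _)
  have hℓB : ¬ ℓ ∣ B := fun h => hndvd ((h.mul_left p).mul_right _)
  have hgood : W.IsGoodPrimeFor ℓ := fun h =>
    hndvd ((Int.natCast_dvd.mp h).mul_left _)
  refine ⟨ℓ, hℓ, hgood, hℓB, fun h => hℓp (h ▸ dvd_rfl), fun hcon => hg ?_⟩
  rw [h3]
  apply sq_tr_pow h2
  rw [trace_frob_rat W hℓ hgood hℓp hA hφ, det_frob_rat W hℓ hgood hℓp hA hφ, hcon, add_comm]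

/-- the mod `M` cyclotomic character as a homomorphism on the Galois group -/
noncomputable def cycHom (M : ℕ) [NeZero M] (hr : Nat.card (rootsOfUnity M Qb) = M) :
    Gq →* (ZMod M)ˣ where
  toFun σ := modularCyclotomicCharacter Qb hr (σ : Qb ≃+* Qb)
  map_one' := (_root_.map_one (modularCyclotomicCharacter Qb hr) : _)
  map_mul' σ τ := (_root_.map_mul (modularCyclotomicCharacter Qb hr) (σ : Qb ≃+* Qb) τ : _)

/-- Frobenius density with prescribed action on roots of unity. -/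
theorem density_hom_cyc {X : Type} [Monoid X] {ρ : Gq →* X}
    (hρ : GaloisFactorsThroughFiniteLevel ρ) {M : ℕ} (hM : 0 < M) (σ : Gq)
    (hσ : ∀ ζ : Qb, ζ ^ M = 1 → σ ζ = ζ) (S : Finset ℕ) :
    ∃ ℓ : ℕ, ℓ.Prime ∧ ℓ ∉ S ∧ (ℓ : ZMod M) = 1 ∧ ∃ A : ValuationSubring Qb, A.LiesOverPrime ℓ ∧
      ∃ φ : Gq, A.IsFrobeniusAt φ ℓ ∧ ∃ j k : ℕ, ρ σ = ρ φ ^ j ∧ ρ φ = ρ σ ^ k := by
  classical
  have hM' : NeZero (M : Qb) := ⟨Nat.cast_ne_zero.mpr hM.ne'⟩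
  obtain ⟨ζ, hζ⟩ := HasEnoughRootsOfUnity.exists_primitiveRoot Qb M
  obtain ⟨L, hfin, hL⟩ := hρ
  have hint : IsIntegral ℚ ζ := (hζ.isIntegral hM).tower_top
  have hfin' : FiniteDimensional ℚ (IntermediateField.adjoin ℚ {ζ}) :=
    IntermediateField.adjoin.finiteDimensional hint
  have hfin2 : FiniteDimensional ℚ (L ⊔ IntermediateField.adjoin ℚ {ζ} :
    IntermediateField ℚ Qb) := IntermediateField.finiteDimensional_sup _ _
  obtain ⟨ℓ, h1, h2, A, h3, φ, h4, j, k, h5, h6⟩ := H86.frobenius_density H86.frobDensityFinite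
    (L ⊔ IntermediateField.adjoin ℚ {ζ}) σ (S ∪ M.primeFactors)
  have hζL : ζ ∈ (L ⊔ IntermediateField.adjoin ℚ {ζ} : IntermediateField ℚ Qb) :=
    (le_sup_right : IntermediateField.adjoin ℚ {ζ} ≤ L ⊔ IntermediateField.adjoin ℚ {ζ})
      (IntermediateField.mem_adjoin_simple_self ℚ ζ)
  have hℓM : ¬ ℓ ∣ M := fun h =>
    h2 (Finset.mem_union_right _ (Nat.mem_primeFactors.mpr ⟨h1, h, hM.ne'⟩))
  have hφζ : φ ζ = ζ := by
    rw [h6 ζ hζL]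
    have : ∀ n : ℕ, (σ ^ n) ζ = ζ := by
      intro n
      induction n with
      | zero => rfl
      | succ n ih => rw [pow_succ, AlgEquiv.mul_apply, hσ ζ hζ.pow_eq_one, ih]
    exact this k
  have hφζ' : φ ζ = ζ ^ ℓ := H31.frobenius_apply_rootOfUnity A h3
    ((Nat.Prime.coprime_iff_not_dvd h1).mpr hℓM) hM h4 hζ.pow_eq_one
  have hmod : (ℓ : ZMod M) = 1 := by
    have h7 : ζ ^ ℓ = ζ ^ 1 := by rw [← hφζ', hφζ, pow_one]
    rw [pow_eq_pow_mod ℓ hζ.pow_eq_one, pow_eq_pow_mod 1 hζ.pow_eq_one] at h7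
    have h8 : ℓ % M = 1 % M := hζ.pow_inj (Nat.mod_lt _ hM) (Nat.mod_lt _ hM) h7
    have := (ZMod.natCast_eq_natCast_iff ℓ 1 M).mpr h8
    rwa [Nat.cast_one] at this
  refine ⟨ℓ, h1, fun h => h2 (Finset.mem_union_left _ h), hmod, A, h3, φ, h4, j, k, ?_, ?_⟩
  · rw [← _root_.map_pow]
    exact H86.map_eq_of_forall_mem hL fun x hx => h5 x ((le_sup_left : L ≤ _) hx)
  · rw [← _root_.map_pow]
    exact H86.map_eq_of_forall_mem hL fun x hx => h6 x ((le_sup_left : L ≤ _) hx)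

/-- **NE2** for integral models. -/
theorem ne2 (hΔ : W.Δ ≠ 0) (hp2 : p ≠ 2) (hirr : W.ModRepIsIrreducible p) {B : ℕ} (hB : 0 < B)
    {M : ℕ} (hM : 0 < M) :
    ∃ ℓ, ℓ.Prime ∧ W.IsGoodPrimeFor ℓ ∧ ¬ ℓ ∣ B ∧ ℓ ≠ p ∧ (ℓ : ZMod M) = 1 ∧
      (W.apOfModel ℓ : ZMod p) ≠ (ℓ : ZMod p) + 1 := by
  classical
  have hΔ' := map_Δ_ne_zero hΔ
  have hp0 : p ≠ 0 := hp.out.ne_zero
  have : NeZero p := ⟨hp0⟩
  have : NeZero M := ⟨hM.ne'⟩
  have hM' : NeZero (M : Qb) := ⟨Nat.cast_ne_zero.mpr hM.ne'⟩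
  have hr : Nat.card (rootsOfUnity M Qb) = M := HasEnoughRootsOfUnity.natCard_rootsOfUnity Qb M
  have h2 := H87.EC.finrank_torsionBy_rat (W.map (Int.castRingHom ℚ)) hΔ' hp0 hp.out.ne_one
  obtain ⟨g, hgker, hg⟩ := exists_tr_ne h2 (irr_of_modRepIsIrreducible hirr)
    (two_ne_zero_zmod hp2) (sq_complexConjugation _ p) (det_complexConjugation _ hΔ')
    (cycHom M hr).ker (fun g => by
      rw [MonoidHom.mem_ker, _root_.map_mul, _root_.map_mul, _root_.map_mul, map_inv, map_inv,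
        mul_comm (cycHom M hr g), mul_assoc, mul_assoc, mul_inv_cancel_left]
      rw [mul_inv_cancel])
  have hfix : ∀ ζ : Qb, ζ ^ M = 1 → g ζ = ζ := by
    intro ζ hζ
    have hu : IsUnit ζ := IsUnit.of_pow_eq_one hζ hM.ne'
    obtain ⟨t, rfl⟩ := hu
    have ht : t ∈ rootsOfUnity M Qb := by
      rw [mem_rootsOfUnity]
      exact Units.ext (by rw [Units.val_pow_eq_pow_val, hζ, Units.val_one])
    have h3 := modularCyclotomicCharacter.spec Qb hr (g : Qb ≃+* Qb) ht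
    have h4 : modularCyclotomicCharacter Qb hr (g : Qb ≃+* Qb) = 1 := hgker
    rw [h4] at h3
    refine h3.trans ?_
    rw [Units.val_one, ZMod.val_one_eq_one_mod]
    have h5 := pow_eq_pow_mod (M := Qb) 1 hζ
    rw [pow_one] at h5
    rw [← h5]
  obtain ⟨ℓ, hℓ, hℓS, hℓM, A, hA, φ, hφ, j, k, h3, h4⟩ := density_hom_cyc
    (H87.EC.galoisFactorsThroughFiniteLevel (W.map (Int.castRingHom ℚ)) hΔ' hp0) hM g hfix
    (p * B * W.Δ.natAbs).primeFactors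
  have hne : p * B * W.Δ.natAbs ≠ 0 :=
    mul_ne_zero (mul_ne_zero hp0 hB.ne') (Int.natAbs_ne_zero.mpr hΔ)
  have hndvd : ¬ ℓ ∣ p * B * W.Δ.natAbs := fun h =>
    hℓS (Nat.mem_primeFactors.mpr ⟨hℓ, h, hne⟩)
  have hℓp : ¬ ℓ ∣ p := fun h => hndvd ((h.mul_right B).mul_right _)
  have hℓB : ¬ ℓ ∣ B := fun h => hndvd ((h.mul_left p).mul_right _)
  have hgood : W.IsGoodPrimeFor ℓ := fun h =>
    hndvd ((Int.natCast_dvd.mp h).mul_left _)
  refine ⟨ℓ, hℓ, hgood, hℓB, fun h => hℓp (h ▸ dvd_rfl), hℓM, fun hcon => hg ?_⟩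
  rw [h3]
  apply tr_pow h2
  rw [trace_frob_rat W hℓ hgood hℓp hA hφ, det_frob_rat W hℓ hgood hℓp hA hφ, hcon, add_comm]

section transfer

variable {E : WeierstrassCurve ℚ}

lemma Δ_ne_zero_of_isIntegralModelOf (hE : E.Δ ≠ 0) (hW : W.IsIntegralModelOf E) : W.Δ ≠ 0 := by
  obtain ⟨C, hC⟩ := hW
  intro h
  have h1 : (C • E).Δ = 0 := by rw [hC, WeierstrassCurve.map_Δ, h, _root_.map_zero]
  rw [variableChange_Δ] at h1
  exact mul_ne_zero (pow_ne_zero _ (Units.ne_zero _)) hE h1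

lemma modRepIsIrreducible_of_isIntegralModelOf (hW : W.IsIntegralModelOf E) {n : ℕ}
    (hirr : GaloisRepIsIrreducible (K := AlgebraicClosure ℚ) ℚ E n) : W.ModRepIsIrreducible n := by
  obtain ⟨C, hC⟩ := hW
  rw [ModRepIsIrreducible, ← hC]
  exact galoisRepIsIrreducible_variableChange E C n hirr

/-- **NE1**. -/
theorem not_eisenstein1 (hE : E.Δ ≠ 0) (hW : W.IsIntegralModelOf E) (hp2 : p ≠ 2)
    (hirr : GaloisRepIsIrreducible (K := AlgebraicClosure ℚ) ℚ E p) {B : ℕ} (hB : 0 < B) :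
    ∃ ℓ, ℓ.Prime ∧ W.IsGoodPrimeFor ℓ ∧ ¬ ℓ ∣ B ∧ ℓ ≠ p ∧
      ((W.apOfModel ℓ : ZMod p)) ^ 2 ≠ ((ℓ : ZMod p) + 1) ^ 2 :=
  ne1 (Δ_ne_zero_of_isIntegralModelOf hE hW) hp2 (modRepIsIrreducible_of_isIntegralModelOf hW hirr)
    hB

/-- **NE2**. -/
theorem not_eisenstein2 (hE : E.Δ ≠ 0) (hW : W.IsIntegralModelOf E) (hp2 : p ≠ 2)
    (hirr : GaloisRepIsIrreducible (K := AlgebraicClosure ℚ) ℚ E p) {B : ℕ} (hB : 0 < B)
    {M : ℕ} (hM : 0 < M) :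
    ∃ ℓ, ℓ.Prime ∧ W.IsGoodPrimeFor ℓ ∧ ¬ ℓ ∣ B ∧ ℓ ≠ p ∧ (ℓ : ZMod M) = 1 ∧
      (W.apOfModel ℓ : ZMod p) ≠ (ℓ : ZMod p) + 1 :=
  ne2 (Δ_ne_zero_of_isIntegralModelOf hE hW) hp2 (modRepIsIrreducible_of_isIntegralModelOf hW hirr)
    hB hM

end transfer

end

end Fermat.Agent.H62
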