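import Fermat.Agent.H63Center
set_option autoImplicit false

namespace Fermat.Agent.H63

open Pointwise NumberField Polynomial

section Dict

variable {L : Type*} [Field L]

theorem exists_center_eq (P : Ideal (𝓞 L)) [hP : P.IsPrime] :
    ∃ A : ValuationSubring L, center A = P := by
  let R : Subring L := (integralClosure ℤ L).toSubring
  let P' : Ideal R := P
  have hP' : P'.IsPrime := hP
  obtain ⟨B, hle, hloc⟩ := (LocalSubring.ofPrime R P').exists_le_valuationSubring
  refine ⟨B, ?_⟩
  ext x
  have hxR : (x : L) ∈ R := x.2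
  rw [mem_center_iff]
  have hmem : (x : L) ∈ (LocalSubring.ofPrime R P').toSubring := LocalSubring.le_ofPrime R P' hxR
  set y : (LocalSubring.ofPrime R P').toSubring := ⟨(x : L), hmem⟩ with hy
  have h1 : algebraMap R (LocalSubring.ofPrime R P').toSubring x = y := rfl
  have h2 : x ∈ P ↔ y ∈ IsLocalRing.maximalIdeal (LocalSubring.ofPrime R P').toSubring := by
    rw [← h1]
    exact (IsLocalization.AtPrime.to_map_mem_maximal_iff _ P' x).symm
  rw [h2]
  have h3 : (x : L) ∈ B.nonunits ↔
      (Subring.inclusion hle y) ∈ IsLocalRing.maximalIdeal B.toLocalSubring.toSubring := by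
    have := B.coe_mem_nonunits_iff (a := ⟨(x : L), coe_mem B x⟩)
    exact this
  rw [h3, IsLocalRing.mem_maximalIdeal, IsLocalRing.mem_maximalIdeal, mem_nonunits_iff,
    mem_nonunits_iff, isUnit_map_iff]

theorem center_smul {G : Type*} [Group G] [MulSemiringAction G L] (σ : G) (A : ValuationSubring L) :
    center (σ • A) = σ • center A := by
  ext x
  rw [Ideal.mem_pointwise_smul_iff_inv_smul_mem, mem_center_iff, mem_center_iff,
    ValuationSubring.mem_nonunits_iff_or, ValuationSubring.mem_nonunits_iff_or]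
  have h1 : ((σ⁻¹ • x : 𝓞 L) : L) = σ⁻¹ • (x : L) := rfl
  rw [h1, ValuationSubring.mem_pointwise_smul_iff_inv_smul_mem, smul_inv'', smul_eq_zero_iff_eq]

variable [CharZero L] [Algebra.IsAlgebraic ℚ L]

theorem mem_iff_exists (A : ValuationSubring L) (x : L) :
    x ∈ A ↔ ∃ a b : 𝓞 L, b ∉ center A ∧ x * (b : L) = (a : L) := by
  constructor
  · intro hx
    obtain ⟨b, hb, hbA, hxb⟩ := exists_isIntegral_mul_of_mem A hx (Algebra.IsAlgebraic.isAlgebraic x)
    exact ⟨⟨x * b, hxb⟩, ⟨b, hb⟩, fun h => hbA ((mem_center_iff A _).mp h), rfl⟩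
  · rintro ⟨a, b, hb, hab⟩
    rw [mem_center_iff, ValuationSubring.mem_nonunits_iff, not_lt] at hb
    have hb0 : (b : L) ≠ 0 := by
      intro h0
      rw [h0, map_zero] at hb
      exact absurd hb (by simp)
    have hx : x = (a : L) * (b : L)⁻¹ := by rw [← hab, mul_inv_cancel_right₀ hb0]
    rw [hx]
    refine mul_mem (coe_mem A a) ?_
    rw [← A.valuation_le_one_iff, map_inv₀]
    exact inv_le_one_of_one_le₀ hb

theorem center_injective : Function.Injective (center (L := L)) := by
  intro A B h
  ext x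
  rw [mem_iff_exists, mem_iff_exists, h]


end Dict

section Inertia

variable {K L : Type*} [Field K] [Field L] [Algebra K L]

theorem mem_inertiaSubgroupIn_iff (A : ValuationSubring L) (σ : L ≃ₐ[K] L) :
    σ ∈ A.inertiaSubgroupIn K ↔ σ • A = A ∧ ∀ x ∈ A, σ x - x ∈ A.nonunits := by
  constructor
  · rintro ⟨τ, hτ, rfl⟩
    refine ⟨τ.2, fun x hx => ?_⟩
    have h1 : ∀ y : IsLocalRing.ResidueField A, τ • y = y := fun y => by
      have := congrArg (fun f : RingAut (IsLocalRing.ResidueField A) => f y) (MonoidHom.mem_ker.mp hτ)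
      exact this
    have h2 := h1 (IsLocalRing.residue A ⟨x, hx⟩)
    have h3 : IsLocalRing.residue A (τ • (⟨x, hx⟩ : A)) = IsLocalRing.residue A ⟨x, hx⟩ := h2
    rw [← sub_eq_zero, ← map_sub, IsLocalRing.residue_eq_zero_iff,
      ← ValuationSubring.coe_mem_nonunits_iff] at h3
    exact h3
  · rintro ⟨hσ, h⟩
    refine ⟨⟨σ, hσ⟩, ?_, rfl⟩
    refine MonoidHom.mem_ker.mpr ?_
    ext y
    obtain ⟨x, rfl⟩ := IsLocalRing.residue_surjective y
    change IsLocalRing.residue A ((⟨σ, hσ⟩ : A.decompositionSubgroup K) • x) = IsLocalRing.residue A x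
    rw [← sub_eq_zero, ← map_sub, IsLocalRing.residue_eq_zero_iff,
      ← ValuationSubring.coe_mem_nonunits_iff]
    exact h x x.2

theorem isFrobeniusAt_iff (A : ValuationSubring L) (σ : L ≃ₐ[K] L) (q : ℕ) :
    A.IsFrobeniusAt σ q ↔ σ • A = A ∧ ∀ x ∈ A, σ x - x ^ q ∈ A.nonunits := by
  constructor
  · rintro ⟨hσ, h⟩
    refine ⟨hσ, fun x hx => ?_⟩
    have h2 := h (IsLocalRing.residue A ⟨x, hx⟩)
    have h3 : IsLocalRing.residue A ((⟨σ, hσ⟩ : A.decompositionSubgroup K) • (⟨x, hx⟩ : A)) =
      IsLocalRing.residue A ⟨x, hx⟩ ^ q := h2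
    rw [← map_pow, ← sub_eq_zero, ← map_sub, IsLocalRing.residue_eq_zero_iff,
      ← ValuationSubring.coe_mem_nonunits_iff] at h3
    exact h3
  · rintro ⟨hσ, h⟩
    refine ⟨hσ, fun y => ?_⟩
    obtain ⟨x, rfl⟩ := IsLocalRing.residue_surjective y
    change IsLocalRing.residue A ((⟨σ, hσ⟩ : A.decompositionSubgroup K) • x) = IsLocalRing.residue A x ^ q
    rw [← map_pow, ← sub_eq_zero, ← map_sub, IsLocalRing.residue_eq_zero_iff,
      ← ValuationSubring.coe_mem_nonunits_iff]
    exact h x x.2

variable [CharZero L] [Algebra.IsAlgebraic ℚ L]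

theorem smul_eq_iff_center {G : Type*} [Group G] [MulSemiringAction G L] (σ : G)
    (A : ValuationSubring L) : σ • A = A ↔ σ • center A = center A := by
  rw [← center_smul, center_injective.eq_iff]

omit [CharZero L] [Algebra.IsAlgebraic ℚ L] in
theorem not_mem_nonunits_of_not_mem_center {A : ValuationSubring L} {b : 𝓞 L} (hb : b ∉ center A) :
    A.valuation (b : L) = 1 := by
  rw [mem_center_iff, ValuationSubring.mem_nonunits_iff, not_lt] at hb
  exact le_antisymm (A.valuation_le_one ⟨(b : L), coe_mem A b⟩) hb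

/-- inertia group in terms of integral elements -/
theorem mem_inertiaSubgroupIn_iff_center (A : ValuationSubring L) (σ : L ≃ₐ[K] L) :
    σ ∈ A.inertiaSubgroupIn K ↔ σ ∈ (center A).inertia (L ≃ₐ[K] L) := by
  rw [mem_inertiaSubgroupIn_iff]
  constructor
  · rintro ⟨-, h⟩ x
    rw [Submodule.mem_toAddSubgroup, mem_center_iff]
    exact h x (coe_mem A x)
  · intro h
    have key : ∀ τ ∈ (center A).inertia (L ≃ₐ[K] L), ∀ x ∈ center A, τ • x ∈ center A := by
      intro τ hτ x hx
      have := (center A).add_mem (hτ x) hx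
      simpa using this
    have hstab : σ • A = A := by
      rw [smul_eq_iff_center]
      ext x
      rw [Ideal.mem_pointwise_smul_iff_inv_smul_mem]
      constructor
      · intro hx
        have := key σ h _ hx
        rwa [smul_inv_smul] at this
      · exact key σ⁻¹ (inv_mem h) x
    refine ⟨hstab, fun x hx => ?_⟩
    obtain ⟨a, b, hb, hab⟩ := (mem_iff_exists A x).mp hx
    have hσb : σ • b ∉ center A := by
      intro hcon
      apply hb
      have := key σ⁻¹ (inv_mem h) _ hcon
      rwa [inv_smul_smul] at this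
    have vb := not_mem_nonunits_of_not_mem_center hb
    have vσb := not_mem_nonunits_of_not_mem_center hσb
    have hb0 : (b : L) ≠ 0 := fun h0 => by rw [h0, map_zero] at vb; exact zero_ne_one vb
    have hσb0 : (σ • b : 𝓞 L) ≠ (0 : L) := fun h0 => by
      rw [h0, map_zero] at vσb; exact zero_ne_one vσb
    have e1 : σ x * ((σ • b : 𝓞 L) : L) = ((σ • a : 𝓞 L) : L) := by
      have := congrArg σ hab
      rw [map_mul] at this
      exact this
    have e2 : (σ x - x) * ((b : L) * ((σ • b : 𝓞 L) : L)) =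
        (((σ • a - a) * b - a * (σ • b - b) : 𝓞 L) : L) := by
      have h1 : algebraMap (𝓞 L) L (σ • a) = σ x * algebraMap (𝓞 L) L (σ • b) := e1.symm
      have h2 : algebraMap (𝓞 L) L a = x * algebraMap (𝓞 L) L b := hab.symm
      change (σ x - x) * (algebraMap (𝓞 L) L b * algebraMap (𝓞 L) L (σ • b)) =
        algebraMap (𝓞 L) L ((σ • a - a) * b - a * (σ • b - b))
      simp only [map_sub, map_mul]
      rw [h1, h2]
      ring
    have e3 : A.valuation (σ x - x) = A.valuation (((σ • a - a) * b - a * (σ • b - b) : 𝓞 L) : L) := by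
      rw [← e2, map_mul, map_mul, vb, vσb, mul_one, mul_one]
    rw [ValuationSubring.mem_nonunits_iff, e3, ← ValuationSubring.mem_nonunits_iff, ← mem_center_iff]
    exact (center A).sub_mem (Ideal.mul_mem_right _ _ (h a)) (Ideal.mul_mem_left _ _ (h b))

/-- Frobenius elements in terms of integral elements -/
theorem isFrobeniusAt_iff_center (A : ValuationSubring L) (σ : L ≃ₐ[K] L) {q : ℕ} (hq : q ≠ 0) :
    A.IsFrobeniusAt σ q ↔ ∀ x : 𝓞 L, σ • x - x ^ q ∈ center A := by
  rw [isFrobeniusAt_iff]
  constructor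
  · rintro ⟨-, h⟩ x
    rw [mem_center_iff]
    have := h x (coe_mem A x)
    exact this
  · intro h
    have key : ∀ x, x ∈ center A ↔ σ • x ∈ center A := by
      intro x
      constructor
      · intro hx
        have := (center A).add_mem (h x) (Ideal.pow_mem_of_mem _ hx q (Nat.pos_of_ne_zero hq))
        simpa using this
      · intro hx
        have := (center A).sub_mem hx (h x)
        rw [sub_sub_cancel] at this
        exact Ideal.IsPrime.mem_of_pow_mem inferInstance q this
    have hstab : σ • A = A := by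
      rw [smul_eq_iff_center]
      ext x
      rw [Ideal.mem_pointwise_smul_iff_inv_smul_mem, key (σ⁻¹ • x), smul_inv_smul]
    refine ⟨hstab, fun x hx => ?_⟩
    obtain ⟨a, b, hb, hab⟩ := (mem_iff_exists A x).mp hx
    have hσb : σ • b ∉ center A := by rwa [← key]
    have vb := not_mem_nonunits_of_not_mem_center hb
    have vσb := not_mem_nonunits_of_not_mem_center hσb
    have e1 : σ x * ((σ • b : 𝓞 L) : L) = ((σ • a : 𝓞 L) : L) := by
      have := congrArg σ hab
      rw [map_mul] at this
      exact this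
    have e2 : (σ x - x ^ q) * ((b : L) ^ q * ((σ • b : 𝓞 L) : L)) =
        (((σ • a - a ^ q) * b ^ q - a ^ q * (σ • b - b ^ q) : 𝓞 L) : L) := by
      have h1 : algebraMap (𝓞 L) L (σ • a) = σ x * algebraMap (𝓞 L) L (σ • b) := e1.symm
      have h2 : algebraMap (𝓞 L) L a = x * algebraMap (𝓞 L) L b := hab.symm
      change (σ x - x ^ q) * (algebraMap (𝓞 L) L b ^ q * algebraMap (𝓞 L) L (σ • b)) =
        algebraMap (𝓞 L) L ((σ • a - a ^ q) * b ^ q - a ^ q * (σ • b - b ^ q))
      simp only [map_sub, map_mul, map_pow]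
      rw [h1, h2]
      ring
    have e3 : A.valuation (σ x - x ^ q) =
        A.valuation (((σ • a - a ^ q) * b ^ q - a ^ q * (σ • b - b ^ q) : 𝓞 L) : L) := by
      rw [← e2, map_mul, map_mul, map_pow, vb, vσb, one_pow, mul_one, mul_one]
    rw [ValuationSubring.mem_nonunits_iff, e3, ← ValuationSubring.mem_nonunits_iff, ← mem_center_iff]
    exact (center A).sub_mem (Ideal.mul_mem_right _ _ (h a)) (Ideal.mul_mem_left _ _ (h b))

end Inertia

end Fermat.Agent.H63
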