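import Fermat.Agent.H72Kummer

/-!
Kernel of reduction and good reduction, via the Kummer relation, for an arbitrary valuation.
-/

set_option autoImplicit false

namespace Fermat.Agent.H72

open WeierstrassCurve WeierstrassCurve.Affine WeierstrassCurve.Affine.Point

section valuation_lemmas

variable {K : Type*} [Field K] {Γ₀ : Type*} [LinearOrderedCommGroupWithZero Γ₀]
  (v : Valuation K Γ₀)

lemma sm_mul {x y : K} (hx : v x ≤ 1) (hy : v y < 1) : v (x * y) < 1 := by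
  rw [map_mul]
  exact lt_of_le_of_lt (mul_le_mul' hx le_rfl) (by rwa [one_mul])

lemma sm_mul' {x y : K} (hx : v x < 1) (hy : v y ≤ 1) : v (x * y) < 1 := by
  rw [mul_comm]; exact sm_mul v hy hx

lemma in_mul {x y : K} (hx : v x ≤ 1) (hy : v y ≤ 1) : v (x * y) ≤ 1 := by
  rw [map_mul]; exact mul_le_one' hx hy

lemma in_add {x y : K} (hx : v x ≤ 1) (hy : v y ≤ 1) : v (x + y) ≤ 1 :=
  (v.map_add x y).trans (max_le hx hy)

lemma in_sub {x y : K} (hx : v x ≤ 1) (hy : v y ≤ 1) : v (x - y) ≤ 1 :=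
  (v.map_sub x y).trans (max_le hx hy)

lemma sm_add {x y : K} (hx : v x < 1) (hy : v y < 1) : v (x + y) < 1 :=
  (v.map_add x y).trans_lt (max_lt hx hy)

lemma sm_sub {x y : K} (hx : v x < 1) (hy : v y < 1) : v (x - y) < 1 :=
  (v.map_sub x y).trans_lt (max_lt hx hy)

lemma in_natCast (n : ℕ) : v (n : K) ≤ 1 := by
  induction n with
  | zero => simp
  | succ n ih => rw [Nat.cast_succ]; exact in_add v ih (by rw [map_one])

lemma in_ofNat (n : ℕ) [n.AtLeastTwo] : v (OfNat.ofNat n : K) ≤ 1 := in_natCast v n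

lemma in_pow {x : K} (hx : v x ≤ 1) (n : ℕ) : v (x ^ n) ≤ 1 := by
  rw [map_pow]; exact pow_le_one' hx n

lemma sm_pow {x : K} (hx : v x < 1) {n : ℕ} (hn : n ≠ 0) : v (x ^ n) < 1 := by
  rw [map_pow]; exact pow_lt_one' hx hn

end valuation_lemmas

section

variable {F : Type*} [Field F] [DecidableEq F] {W : Affine F}
  {Γ₀ : Type*} [LinearOrderedCommGroupWithZero Γ₀] {v : Valuation F Γ₀}

/-- `w = 1/x` -/
noncomputable def wc (P : W.Point) : F := xD P / xN P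

omit [DecidableEq F] in
lemma xD_eq_zero {P : W.Point} : xD P = 0 ↔ P = 0 := by
  rcases P with _ | ⟨x, y, h⟩
  · change xD (0 : W.Point) = 0 ↔ (0 : W.Point) = 0
    simp
  · simp

/-- relation in terms of `w`. -/
lemma wc_rel {P Q : W.Point} (nP : xN P ≠ 0) (nQ : xN Q ≠ 0)
    (hF : 1 - W.b₄ * (wc P * wc Q) - W.b₆ * (wc P + wc Q) * (wc P * wc Q)
      - W.b₈ * (wc P * wc Q) ^ 2 ≠ 0) :
    xN (P + Q) ≠ 0 ∧ xN (P - Q) ≠ 0 ∧
    (1 - W.b₄ * (wc P * wc Q) - W.b₆ * (wc P + wc Q) * (wc P * wc Q)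
      - W.b₈ * (wc P * wc Q) ^ 2) * (wc (P + Q) + wc (P - Q)) =
      2 * (wc P + wc Q) + W.b₂ * (wc P * wc Q) + W.b₄ * (wc P + wc Q) * (wc P * wc Q)
      + W.b₆ * (wc P * wc Q) ^ 2 := by
  obtain ⟨c, hc, h0, h1, -⟩ := kummerRel P Q
  have e0 : c * (xN (P + Q) * xN (P - Q)) = (xN P * xN Q) ^ 2 *
      (1 - W.b₄ * (wc P * wc Q) - W.b₆ * (wc P + wc Q) * (wc P * wc Q)
      - W.b₈ * (wc P * wc Q) ^ 2) := by
    rw [h0]; simp only [wc]; field_simp
    ring
  have e1 : c * (xN (P + Q) * xD (P - Q) + xD (P + Q) * xN (P - Q)) = (xN P * xN Q) ^ 2 *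
      (2 * (wc P + wc Q) + W.b₂ * (wc P * wc Q) + W.b₄ * (wc P + wc Q) * (wc P * wc Q)
      + W.b₆ * (wc P * wc Q) ^ 2) := by
    rw [h1]; simp only [wc]; field_simp
    ring
  have hne : xN (P + Q) * xN (P - Q) ≠ 0 := by
    intro h
    rw [h, mul_zero] at e0
    exact mul_ne_zero (pow_ne_zero 2 (mul_ne_zero nP nQ)) hF e0.symm
  have n1 := left_ne_zero_of_mul hne
  have n2 := right_ne_zero_of_mul hne
  refine ⟨n1, n2, ?_⟩
  apply mul_left_cancel₀ (pow_ne_zero 2 (mul_ne_zero nP nQ))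
  rw [← mul_assoc, ← e0, ← e1]
  simp only [wc]
  field_simp
  ring

/-- Induction for multiples of a point in the kernel of reduction. -/
lemma wc_nsmul (hb₂ : v W.b₂ ≤ 1) (hb₄ : v W.b₄ ≤ 1) (hb₆ : v W.b₆ ≤ 1) (hb₈ : v W.b₈ ≤ 1)
    {P : W.Point} (hP0 : P ≠ 0) (nP : xN P ≠ 0) (hP : v (wc P) < 1) (n : ℕ) :
    xN (n • P) ≠ 0 ∧ v (wc (n • P) / wc P - (n : F) ^ 2) < 1 := by
  have w0 : wc P ≠ 0 := by
    rw [wc]; exact div_ne_zero (fun h => hP0 (xD_eq_zero.mp h)) nP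
  suffices H : ∀ n : ℕ, (xN (n • P) ≠ 0 ∧ v (wc (n • P) / wc P - (n : F) ^ 2) < 1) ∧
      (xN ((n + 1) • P) ≠ 0 ∧ v (wc ((n + 1) • P) / wc P - ((n + 1 : ℕ) : F) ^ 2) < 1) from
    (H n).1
  intro n
  induction n with
  | zero =>
    refine ⟨⟨by simp, by simp [wc]⟩, ?_⟩
    simp only [zero_add, one_nsmul, Nat.cast_one, one_pow]
    exact ⟨nP, by rw [div_self w0, sub_self, _root_.map_zero]; exact zero_lt_one⟩
  | succ n ih =>
    obtain ⟨⟨ha, ha'⟩, hb, hb'⟩ := ih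
    refine ⟨⟨hb, hb'⟩, ?_⟩
    obtain ⟨ω', hω'⟩ : ∃ ω', ω' = wc (n • P) / wc P := ⟨_, rfl⟩
    obtain ⟨ω, hω⟩ : ∃ ω, ω = wc ((n + 1) • P) / wc P := ⟨_, rfl⟩
    obtain ⟨w, hw⟩ : ∃ w, w = wc P := ⟨_, rfl⟩
    rw [← hω'] at ha'
    rw [← hω] at hb'
    have e' : wc (n • P) = w * ω' := by rw [hω', hw]; field_simp
    have e : wc ((n + 1) • P) = w * ω := by rw [hω, hw]; field_simp
    rw [← hw] at w0 hP
    have iω : v ω ≤ 1 := by
      have := in_add v hb'.le (in_pow v (in_natCast v (n + 1)) 2)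
      rwa [sub_add_cancel] at this
    have iω' : v ω' ≤ 1 := by
      have := in_add v ha'.le (in_pow v (in_natCast v n) 2)
      rwa [sub_add_cancel] at this
    obtain ⟨ε, hε⟩ : ∃ ε, ε = W.b₄ * (wc ((n + 1) • P) * wc P) +
      W.b₆ * (wc ((n + 1) • P) + wc P) * (wc ((n + 1) • P) * wc P)
      + W.b₈ * (wc ((n + 1) • P) * wc P) ^ 2 := ⟨_, rfl⟩
    have hwn : v (wc ((n + 1) • P)) < 1 := by rw [e]; exact sm_mul' v hP iω
    have hw1 : v (wc P) < 1 := by rw [← hw]; exact hP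
    have hww : v (wc ((n + 1) • P) * wc P) < 1 := sm_mul v hwn.le hw1
    have sε : v ε < 1 := by
      rw [hε]
      refine sm_add v (sm_add v (sm_mul v hb₄ hww) (sm_mul v ?_ hww)) (sm_mul v hb₈ (sm_pow v hww two_ne_zero))
      exact in_mul v hb₆ (in_add v hwn.le hw1.le)
    have hF1 : v (1 - ε) = 1 := by
      rw [Valuation.map_sub_eq_of_lt_left v (by rwa [map_one]), map_one]
    have hF0 : (1 - ε) ≠ 0 := by rw [← Valuation.ne_zero_iff v, hF1]; exact one_ne_zero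
    have hFeq : 1 - W.b₄ * (wc ((n + 1) • P) * wc P) -
        W.b₆ * (wc ((n + 1) • P) + wc P) * (wc ((n + 1) • P) * wc P)
      - W.b₈ * (wc ((n + 1) • P) * wc P) ^ 2 = 1 - ε := by rw [hε]; ring
    obtain ⟨h1, h2, h3⟩ := wc_rel (P := (n + 1) • P) (Q := P) hb nP (by rw [hFeq]; exact hF0)
    rw [hFeq] at h3
    have s1 : (n + 1) • P + P = (n + 1 + 1) • P := (succ_nsmul P (n + 1)).symm
    have s2 : (n + 1) • P - P = n • P := by rw [succ_nsmul]; abel
    rw [s1] at h1 h3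
    rw [s2] at h2 h3
    refine ⟨h1, ?_⟩
    obtain ⟨ω'', hω''⟩ : ∃ ω, ω = wc ((n + 1 + 1) • P) / wc P := ⟨_, rfl⟩
    have e'' : wc ((n + 1 + 1) • P) = w * ω'' := by rw [hω'', hw]; rw [hw] at w0; field_simp
    rw [← hω'']
    rw [e'', e', e, ← hw] at h3
    have key : (1 - ε) * (ω'' - ((n + 1 + 1 : ℕ) : F) ^ 2) =
        2 * (ω - ((n + 1 : ℕ) : F) ^ 2) + (W.b₂ * (w * ω) + W.b₄ * (w * ω + w) * (w * ω)
        + W.b₆ * (w * (w * w) * (ω * ω))) - (ω' - (n : F) ^ 2)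
        + ε * (ω' + ((n + 1 + 1 : ℕ) : F) ^ 2) := by
      apply mul_left_cancel₀ w0
      push_cast
      linear_combination h3
    have : v ((1 - ε) * (ω'' - ((n + 1 + 1 : ℕ) : F) ^ 2)) < 1 := by
      rw [key]
      have hwω : v (w * ω) < 1 := sm_mul' v hP iω
      refine sm_add v (sm_sub v (sm_add v (sm_mul v (in_ofNat v 2) hb') (sm_add v (sm_add v ?_ ?_) ?_)) ha') ?_
      · exact sm_mul v hb₂ hwω
      · exact sm_mul v (in_mul v hb₄ (in_add v hwω.le hP.le)) hwω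
      · exact sm_mul v hb₆ (sm_mul' v (sm_mul' v hP (in_mul v hP.le hP.le)) (in_mul v iω iω))
      · exact sm_mul' v sε (in_add v iω' (in_pow v (in_natCast v _) 2))
    rwa [map_mul, hF1, one_mul] at this

/-- **Kernel of reduction has no `n`-torsion if `n` is a unit.** -/
theorem nsmul_ne_zero_of_wc_lt (hb₂ : v W.b₂ ≤ 1) (hb₄ : v W.b₄ ≤ 1) (hb₆ : v W.b₆ ≤ 1)
    (hb₈ : v W.b₈ ≤ 1) {P : W.Point} (hP0 : P ≠ 0) (hP : v (xD P) < v (xN P)) {n : ℕ}
    (hn : v (n : F) = 1) : n • P ≠ 0 := by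
  intro h
  have nP : xN P ≠ 0 := by
    intro h0; rw [h0, _root_.map_zero] at hP; exact not_lt_zero hP
  have hP' : v (wc P) < 1 := by
    rw [wc, map_div₀]
    exact (div_lt_one₀ (zero_lt_iff.mpr ((Valuation.ne_zero_iff v).mpr nP))).mpr hP
  have := (wc_nsmul hb₂ hb₄ hb₆ hb₈ hP0 nP hP' n).2
  rw [h, wc, xD_zero, zero_div, zero_div, zero_sub, Valuation.map_neg, map_pow, hn, one_pow] at this
  exact lt_irrefl _ this

/-- affine points of order prime to the residue characteristic have integral `x` -/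
lemma x_le_one_of_nsmul (hb₂ : v W.b₂ ≤ 1) (hb₄ : v W.b₄ ≤ 1) (hb₆ : v W.b₆ ≤ 1)
    (hb₈ : v W.b₈ ≤ 1) {n : ℕ} (hn : v (n : F) = 1) {x y : F} {h : W.Nonsingular x y}
    (hP : n • (Point.some x y h) = 0) : v x ≤ 1 := by
  by_contra hx
  push Not at hx
  refine nsmul_ne_zero_of_wc_lt hb₂ hb₄ hb₆ hb₈ (P := Point.some x y h) (some_ne_zero h) ?_ hn hP
  rw [xD_some, xN_some, map_one]
  exact hx

omit [DecidableEq F] in
/-- integrality of `y` from that of `x` -/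
lemma y_le_one (ha₁ : v W.a₁ ≤ 1) (ha₂ : v W.a₂ ≤ 1) (ha₃ : v W.a₃ ≤ 1) (ha₄ : v W.a₄ ≤ 1)
    (ha₆ : v W.a₆ ≤ 1) {x y : F} (h : W.Equation x y) (hx : v x ≤ 1) : v y ≤ 1 := by
  by_contra hy
  push Not at hy
  have heq := (equation_iff ..).mp h
  have h1 : v (x ^ 3 + W.a₂ * x ^ 2 + W.a₄ * x + W.a₆) ≤ 1 :=
    in_add v (in_add v (in_add v (in_pow v hx 3) (in_mul v ha₂ (in_pow v hx 2)))
      (in_mul v ha₄ hx)) ha₆
  have h2 : v (W.a₁ * x + W.a₃) ≤ 1 := in_add v (in_mul v ha₁ hx) ha₃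
  have h3 : y * (y + (W.a₁ * x + W.a₃)) = x ^ 3 + W.a₂ * x ^ 2 + W.a₄ * x + W.a₆ := by
    rw [← heq]; ring
  have h4 : v (y + (W.a₁ * x + W.a₃)) = v y :=
    Valuation.map_add_eq_of_lt_left v (h2.trans_lt hy)
  rw [← h3, map_mul, h4] at h1
  exact absurd h1 (not_le.mpr (one_lt_mul_of_lt_of_le hy hy.le))

omit [DecidableEq F] in
/-- Resultant identity. -/
lemma delta_eq (s t : F) : W.Δ =
    (-12 * t ^ 2 - 4 * W.b₂ * t + (W.b₂ ^ 2 - 32 * W.b₄)) *
      (s ^ 2 - W.b₄ * s - W.b₆ * t - W.b₈) +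
    (6 * s * t - W.b₂ * s - 5 * W.b₄ * t + (W.b₂ * W.b₄ - 27 * W.b₆)) *
      (2 * t * s + W.b₂ * s + W.b₄ * t + W.b₆) +
    (-8 * W.b₄ * s - 12 * W.b₆ * t + (W.b₄ ^ 2 - 28 * W.b₈)) * (t ^ 2 - 4 * s) := by
  simp only [Δ]
  linear_combination (-(W.b₂ * t + 8 * W.b₄ - 4 * t ^ 2 + 28 * s)) * W.b_relation

omit [DecidableEq F] in
/-- In the good reduction case, `F₀`, `F₁`, `F₂` cannot all be small. -/
lemma good_F (hb₂ : v W.b₂ ≤ 1) (hb₄ : v W.b₄ ≤ 1) (hb₆ : v W.b₆ ≤ 1)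
    (hb₈ : v W.b₈ ≤ 1) (hΔ : v W.Δ = 1) {s t : F} (hs : v s ≤ 1) (ht : v t ≤ 1)
    (h0 : v (s ^ 2 - W.b₄ * s - W.b₆ * t - W.b₈) < 1)
    (h1 : v (2 * t * s + W.b₂ * s + W.b₄ * t + W.b₆) < 1)
    (h2 : v (t ^ 2 - 4 * s) < 1) : False := by
  have := delta_eq (W := W) s t
  have h : v W.Δ < 1 := by
    rw [this]
    refine sm_add v (sm_add v (sm_mul v ?_ h0) (sm_mul v ?_ h1)) (sm_mul v ?_ h2)
    · refine in_add v (in_sub v (in_mul v ?_ (in_pow v ht 2)) (in_mul v (in_mul v (in_ofNat v 4) hb₂) ht))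
        (in_sub v (in_pow v hb₂ 2) (in_mul v (in_ofNat v 32) hb₄))
      rw [Valuation.map_neg]; exact in_ofNat v 12
    · refine in_add v (in_sub v (in_sub v (in_mul v (in_mul v (in_ofNat v 6) hs) ht) (in_mul v hb₂ hs))
        (in_mul v (in_mul v (in_ofNat v 5) hb₄) ht)) (in_sub v (in_mul v hb₂ hb₄) (in_mul v (in_ofNat v 27) hb₆))
    · refine in_add v (in_sub v (in_mul v (in_mul v ?_ hb₄) hs) (in_mul v (in_mul v (in_ofNat v 12) hb₆) ht))
        (in_sub v (in_pow v hb₄ 2) (in_mul v (in_ofNat v 28) hb₈))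
      rw [Valuation.map_neg]; exact in_ofNat v 8
  rw [hΔ] at h
  exact lt_irrefl _ h

/-- **Injectivity of reduction on prime-to-residue-characteristic torsion (good reduction)**:
two `n`-torsion points with congruent coordinates are equal. -/
theorem eq_of_good
    (hb₂ : v W.b₂ ≤ 1) (hb₄ : v W.b₄ ≤ 1) (hb₆ : v W.b₆ ≤ 1)
    (hb₈ : v W.b₈ ≤ 1) (hΔ : v W.Δ = 1) {n : ℕ} (hn : v (n : F) = 1)
    {x y x' y' : F} {h : W.Nonsingular x y} {h' : W.Nonsingular x' y'}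
    (hP : n • (Point.some x y h) = 0) (hQ : n • (Point.some x' y' h') = 0)
    (hxx : v (x - x') < 1) (hyy : v (y - y') < 1) : Point.some x y h = Point.some x' y' h' := by
  have ix := x_le_one_of_nsmul hb₂ hb₄ hb₆ hb₈ hn hP
  have ix' := x_le_one_of_nsmul hb₂ hb₄ hb₆ hb₈ hn hQ
  have hL2 : ∀ R : W.Point, n • R = 0 → v (xD R) < v (xN R) → R = 0 := by
    intro R hR hv
    by_contra h0
    exact nsmul_ne_zero_of_wc_lt hb₂ hb₄ hb₆ hb₈ h0 hv hn hR
  by_cases hS : Point.some x y h + Point.some x' y' h' = 0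
  · -- sum is zero: `Q = -P`
    have hQP : Point.some x' y' h' = - Point.some x y h := (neg_eq_of_add_eq_zero_right hS).symm
    rw [neg_some] at hQP
    simp only [Point.some.injEq] at hQP
    have e2 : v (2 * y + W.a₁ * x + W.a₃) < 1 := by
      have : 2 * y + W.a₁ * x + W.a₃ = y - y' := by
        rw [hQP.2, negY]; ring
      rw [this]; exact hyy
    obtain ⟨c, hc, k0, k1, -⟩ := kummerRel (Point.some x y h) (Point.some x y h)
    simp only [xN_some, xD_some, sub_self, xN_zero, xD_zero, mul_one, one_mul, mul_zero, zero_add] at k0 k1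
    have heq := (equation_iff ..).mp h.1
    have f1 : c * xD (Point.some x y h + Point.some x y h) = (2 * y + W.a₁ * x + W.a₃) ^ 2 := by
      rw [k1]; simp only [b₂, b₄, b₆]
      linear_combination (-4 : F) * heq
    have f1' : v (2 * (x + x) * (x * x) + W.b₂ * (x * x) + W.b₄ * (x + x) + W.b₆) < 1 := by
      have : 2 * (x + x) * (x * x) + W.b₂ * (x * x) + W.b₄ * (x + x) + W.b₆ =
        (2 * y + W.a₁ * x + W.a₃) ^ 2 := by
        simp only [b₂, b₄, b₆]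
        linear_combination (-4 : F) * heq
      rw [this]; exact sm_pow v e2 two_ne_zero
    have f0 : v ((x * x) ^ 2 - W.b₄ * (x * x) - W.b₆ * (x + x) - W.b₈) = 1 := by
      refine le_antisymm ?_ (not_lt.mp fun hlt => ?_)
      · exact in_sub v (in_sub v (in_sub v (in_pow v (in_mul v ix ix) 2) (in_mul v hb₄ (in_mul v ix ix)))
          (in_mul v hb₆ (in_add v ix ix))) hb₈
      · refine good_F hb₂ hb₄ hb₆ hb₈ hΔ (in_mul v ix ix) (in_add v ix ix) hlt f1' ?_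
        have : (x + x) ^ 2 - 4 * (x * x) = 0 := by ring
        rw [this, _root_.map_zero]; exact zero_lt_one
    have g : v (xD (Point.some x y h + Point.some x y h)) <
        v (xN (Point.some x y h + Point.some x y h)) := by
      have vc : 0 < v c := zero_lt_iff.mpr ((Valuation.ne_zero_iff v).mpr hc)
      rw [← mul_lt_mul_iff_right₀ vc, ← map_mul, ← map_mul, f1, k0]
      have : (x * x) ^ 2 - b₄ W * (x * x) - b₆ W * (x + x) - b₈ W * 1 ^ 2 =
        (x * x) ^ 2 - W.b₄ * (x * x) - W.b₆ * (x + x) - W.b₈ := by ring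
      rw [this, f0]
      exact sm_pow v e2 two_ne_zero
    have h2P := hL2 _ (by rw [nsmul_add, hP, add_zero]) g
    have : Point.some x y h = - Point.some x y h := eq_neg_of_add_eq_zero_left h2P
    rw [this]
    exact (neg_eq_of_add_eq_zero_right hS)
  · by_cases hD : Point.some x y h - Point.some x' y' h' = 0
    · exact sub_eq_zero.mp hD
    · exfalso
      obtain ⟨c, hc, k0, k1, k2⟩ := kummerRel (Point.some x y h) (Point.some x' y' h')
      obtain ⟨S, hS'⟩ : ∃ S, S = Point.some x y h + Point.some x' y' h' := ⟨_, rfl⟩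
      obtain ⟨D, hD'⟩ : ∃ D, D = Point.some x y h - Point.some x' y' h' := ⟨_, rfl⟩
      have nS : n • S = 0 := by rw [hS', nsmul_add, hP, hQ, add_zero]
      have nD : n • D = 0 := by rw [hD', nsmul_sub, hP, hQ, sub_zero]
      rw [← hS', ← hD'] at k0 k1 k2
      rw [← hS'] at hS
      rw [← hD'] at hD
      rcases S with _ | ⟨u, u', hu⟩
      · exact hS rfl
      rcases D with _ | ⟨w, w', hw⟩
      · exact hD rfl
      have iu := x_le_one_of_nsmul hb₂ hb₄ hb₆ hb₈ hn nS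
      have iw := x_le_one_of_nsmul hb₂ hb₄ hb₆ hb₈ hn nD
      simp only [xN_some, xD_some, mul_one, one_mul] at k0 k1 k2
      have sc : v c < 1 := by rw [k2]; exact sm_pow v hxx two_ne_zero
      refine good_F hb₂ hb₄ hb₆ hb₈ hΔ (s := x * x') (t := x + x') (in_mul v ix ix') (in_add v ix ix') ?_ ?_ ?_
      · have : (x * x') ^ 2 - W.b₄ * (x * x') - W.b₆ * (x + x') - W.b₈ = c * (u * w) := by
          rw [k0]; ring
        rw [this]; exact sm_mul' v sc (in_mul v iu iw)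
      · have : 2 * (x + x') * (x * x') + W.b₂ * (x * x') + W.b₄ * (x + x') + W.b₆ = c * (u + w) := by
          rw [k1]; ring
        rw [this]; exact sm_mul' v sc (in_add v iu iw)
      · have : (x + x') ^ 2 - 4 * (x * x') = (x - x') ^ 2 := by ring
        rw [this]; exact sm_pow v hxx two_ne_zero

end

end Fermat.Agent.H72
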