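import Mathlib.AlgebraicGeometry.EllipticCurve.Affine.Point
import Mathlib.AlgebraicGeometry.EllipticCurve.VariableChange
import Mathlib.Tactic

/-!
# The isomorphism of affine point groups induced by a change of variables

For a field `F`, `W : WeierstrassCurve F` and `C : WeierstrassCurve.VariableChange F`,
`Fermat.Agent.H74.pointEquiv W C : (C • W).toAffine.Point ≃+ W.toAffine.Point` sends
`(x, y)` to `(u²x + r, u³y + u²sx + t)`.
-/

set_option autoImplicit false

namespace Fermat.Agent.H74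

open WeierstrassCurve WeierstrassCurve.Affine

variable {F : Type*} [Field F]

/-- The `x`-coordinate on `W` of the point `(x, y)` of `C • W`. -/
def vcX (C : VariableChange F) (x : F) : F := (C.u : F) ^ 2 * x + C.r

/-- The `y`-coordinate on `W` of the point `(x, y)` of `C • W`. -/
def vcY (C : VariableChange F) (x y : F) : F :=
  (C.u : F) ^ 3 * y + (C.u : F) ^ 2 * C.s * x + C.t

/-- The `x`-coordinate on `C • W` of the point `(x, y)` of `W`. -/
def vcX' (C : VariableChange F) (x : F) : F := ((C.u⁻¹ : Fˣ) : F) ^ 2 * (x - C.r)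

/-- The `y`-coordinate on `C • W` of the point `(x, y)` of `W`. -/
def vcY' (C : VariableChange F) (x y : F) : F :=
  ((C.u⁻¹ : Fˣ) : F) ^ 3 * (y - C.s * (x - C.r) - C.t)

variable (W : WeierstrassCurve F) (C : VariableChange F)

lemma u_ne_zero : (C.u : F) ≠ 0 := C.u.ne_zero

lemma vcX_vcX' (x : F) : vcX C (vcX' C x) = x := by
  have h := u_ne_zero C
  simp only [vcX, vcX', Units.val_inv_eq_inv_val]
  field_simp
  ring

lemma vcX'_vcX (x : F) : vcX' C (vcX C x) = x := by
  have h := u_ne_zero C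
  simp only [vcX, vcX', Units.val_inv_eq_inv_val]
  field_simp
  ring

lemma vcY_vcY' (x y : F) : vcY C (vcX' C x) (vcY' C x y) = y := by
  have h := u_ne_zero C
  simp only [vcY, vcX', vcY', Units.val_inv_eq_inv_val]
  field_simp
  ring

lemma vcY'_vcY (x y : F) : vcY' C (vcX C x) (vcY C x y) = y := by
  have h := u_ne_zero C
  simp only [vcY, vcX, vcY', Units.val_inv_eq_inv_val]
  field_simp
  ring

lemma equation_vc (x y : F) :
    W.toAffine.Equation (vcX C x) (vcY C x y) ↔ (C • W).toAffine.Equation x y := by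
  have h := u_ne_zero C
  rw [equation_iff', equation_iff']
  have key : vcY C x y ^ 2 + W.a₁ * vcX C x * vcY C x y + W.a₃ * vcY C x y -
      (vcX C x ^ 3 + W.a₂ * vcX C x ^ 2 + W.a₄ * vcX C x + W.a₆) =
      (C.u : F) ^ 6 * (y ^ 2 + (C • W).a₁ * x * y + (C • W).a₃ * y -
        (x ^ 3 + (C • W).a₂ * x ^ 2 + (C • W).a₄ * x + (C • W).a₆)) := by
    simp only [vcX, vcY, variableChange_a₁, variableChange_a₂, variableChange_a₃,
      variableChange_a₄, variableChange_a₆, Units.val_inv_eq_inv_val]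
    field_simp
    ring
  rw [key]
  simp [h]

lemma nonsingular_vc (x y : F) :
    W.toAffine.Nonsingular (vcX C x) (vcY C x y) ↔ (C • W).toAffine.Nonsingular x y := by
  have h := u_ne_zero C
  rw [nonsingular_iff', nonsingular_iff', equation_vc]
  refine and_congr_right fun _ => ?_
  have keyY : 2 * vcY C x y + W.a₁ * vcX C x + W.a₃ =
      (C.u : F) ^ 3 * (2 * y + (C • W).a₁ * x + (C • W).a₃) := by
    simp only [vcX, vcY, variableChange_a₁, variableChange_a₃, Units.val_inv_eq_inv_val]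
    field_simp
    ring
  have keyX : W.a₁ * vcY C x y - (3 * vcX C x ^ 2 + 2 * W.a₂ * vcX C x + W.a₄) =
      (C.u : F) ^ 4 * ((C • W).a₁ * y - (3 * x ^ 2 + 2 * (C • W).a₂ * x + (C • W).a₄))
        - C.s * (2 * vcY C x y + W.a₁ * vcX C x + W.a₃) := by
    simp only [vcX, vcY, variableChange_a₁, variableChange_a₂, variableChange_a₄,
      Units.val_inv_eq_inv_val]
    field_simp
    ring
  constructor
  · intro hor
    by_contra hcon
    push Not at hcon
    obtain ⟨h1, h2⟩ := hcon
    have e2 : 2 * vcY C x y + W.a₁ * vcX C x + W.a₃ = 0 := by rw [keyY, h2, mul_zero]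
    have e1 : W.a₁ * vcY C x y - (3 * vcX C x ^ 2 + 2 * W.a₂ * vcX C x + W.a₄) = 0 := by
      rw [keyX, h1, e2]; ring
    exact hor.elim (fun h' => h' e1) (fun h' => h' e2)
  · intro hor
    by_contra hcon
    push Not at hcon
    obtain ⟨h1, h2⟩ := hcon
    have e2 : 2 * y + (C • W).a₁ * x + (C • W).a₃ = 0 := by
      have := keyY.symm.trans h2
      simpa [h] using this
    have e1 : (C • W).a₁ * y - (3 * x ^ 2 + 2 * (C • W).a₂ * x + (C • W).a₄) = 0 := by
      have := keyX.symm.trans h1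
      rw [h2, mul_zero, sub_zero] at this
      simpa [h] using this
    exact hor.elim (fun h' => h' e1) (fun h' => h' e2)

lemma negY_vc (x y : F) :
    W.toAffine.negY (vcX C x) (vcY C x y) = vcY C x ((C • W).toAffine.negY x y) := by
  have h := u_ne_zero C
  simp only [negY, vcX, vcY, variableChange_a₁, variableChange_a₃, Units.val_inv_eq_inv_val]
  field_simp
  ring

lemma vcX_inj {x₁ x₂ : F} : vcX C x₁ = vcX C x₂ ↔ x₁ = x₂ := by
  constructor
  · intro h
    rw [← vcX'_vcX C x₁, h, vcX'_vcX]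
  · rintro rfl; rfl

lemma vcY_inj {x y₁ y₂ : F} : vcY C x y₁ = vcY C x y₂ ↔ y₁ = y₂ := by
  constructor
  · intro h
    rw [← vcY'_vcY C x y₁, h, vcY'_vcY]
  · rintro rfl; rfl

lemma slope_vc [DecidableEq F] {x₁ x₂ y₁ y₂ : F}
    (h₁ : (C • W).toAffine.Equation x₁ y₁) (h₂ : (C • W).toAffine.Equation x₂ y₂)
    (hxy : ¬(x₁ = x₂ ∧ y₁ = (C • W).toAffine.negY x₂ y₂)) :
    W.toAffine.slope (vcX C x₁) (vcX C x₂) (vcY C x₁ y₁) (vcY C x₂ y₂) =
      C.u * (C • W).toAffine.slope x₁ x₂ y₁ y₂ + C.s := by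
  have h := u_ne_zero C
  by_cases hx : x₁ = x₂
  · have hy : y₁ ≠ (C • W).toAffine.negY x₂ y₂ := fun h' => hxy ⟨hx, h'⟩
    obtain rfl : y₁ = y₂ := Y_eq_of_Y_ne h₁ h₂ hx hy
    subst hx
    have hy' : vcY C x₁ y₁ ≠ W.toAffine.negY (vcX C x₁) (vcY C x₁ y₁) := by
      rw [negY_vc]
      exact fun h' => hy ((vcY_inj C).mp h')
    rw [slope_of_Y_ne rfl hy', slope_of_Y_ne rfl hy, negY_vc]
    have hd : y₁ - (C • W).toAffine.negY x₁ y₁ ≠ 0 := sub_ne_zero.mpr hy
    have h2 : vcY C x₁ y₁ - vcY C x₁ ((C • W).toAffine.negY x₁ y₁) =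
        (C.u : F) ^ 3 * (y₁ - (C • W).toAffine.negY x₁ y₁) := by
      simp only [vcY]; ring
    rw [h2, div_eq_iff (mul_ne_zero (pow_ne_zero 3 h) hd)]
    have h3 : (3 * vcX C x₁ ^ 2 + 2 * W.a₂ * vcX C x₁ + W.a₄ - W.a₁ * vcY C x₁ y₁) =
        (C.u : F) ^ 4 *
          (3 * x₁ ^ 2 + 2 * (C • W).a₂ * x₁ + (C • W).a₄ - (C • W).a₁ * y₁) +
        C.s * ((C.u : F) ^ 3 * (y₁ - (C • W).toAffine.negY x₁ y₁)) := by
      simp only [vcX, vcY, negY, variableChange_a₁, variableChange_a₂, variableChange_a₃,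
        variableChange_a₄, Units.val_inv_eq_inv_val]
      field_simp
      ring
    rw [h3]
    field_simp
  · rw [slope_of_X_ne (fun h' => hx ((vcX_inj C).mp h')), slope_of_X_ne hx]
    have h1 : x₁ - x₂ ≠ 0 := sub_ne_zero.mpr hx
    have h2 : vcX C x₁ - vcX C x₂ = (C.u : F) ^ 2 * (x₁ - x₂) := by
      simp only [vcX]; ring
    have h3 : vcY C x₁ y₁ - vcY C x₂ y₂ =
        (C.u : F) ^ 3 * (y₁ - y₂) + (C.u : F) ^ 2 * C.s * (x₁ - x₂) := by
      simp only [vcY]; ring
    rw [h2, h3]
    field_simp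

lemma addX_vc (x₁ x₂ ℓ : F) :
    W.toAffine.addX (vcX C x₁) (vcX C x₂) (C.u * ℓ + C.s) =
      vcX C ((C • W).toAffine.addX x₁ x₂ ℓ) := by
  have h := u_ne_zero C
  simp only [addX, vcX, variableChange_a₁, variableChange_a₂, Units.val_inv_eq_inv_val]
  field_simp
  ring

lemma addY_vc (x₁ x₂ y₁ ℓ : F) :
    W.toAffine.addY (vcX C x₁) (vcX C x₂) (vcY C x₁ y₁) (C.u * ℓ + C.s) =
      vcY C ((C • W).toAffine.addX x₁ x₂ ℓ) ((C • W).toAffine.addY x₁ x₂ y₁ ℓ) := by
  rw [addY, addY, addX_vc, ← negY_vc]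
  congr 1
  rw [negAddY, negAddY, addX_vc]
  have h := u_ne_zero C
  simp only [vcX, vcY]
  ring

/-- The map on points induced by a change of variables. -/
def pointMap : (C • W).toAffine.Point → W.toAffine.Point
  | .zero => .zero
  | .some x y h => .some (vcX C x) (vcY C x y) ((nonsingular_vc W C x y).mpr h)

/-- The inverse of the map on points induced by a change of variables. -/
def pointInv : W.toAffine.Point → (C • W).toAffine.Point
  | .zero => .zero
  | .some x y h => .some (vcX' C x) (vcY' C x y) ((nonsingular_vc W C _ _).mp (by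
      rw [vcX_vcX', vcY_vcY']; exact h))

@[simp] lemma pointMap_zero : pointMap W C 0 = 0 := rfl

@[simp] lemma pointMap_some {x y : F} (h : (C • W).toAffine.Nonsingular x y) :
    pointMap W C (.some x y h) =
      .some (vcX C x) (vcY C x y) ((nonsingular_vc W C x y).mpr h) := rfl

@[simp] lemma pointInv_zero : pointInv W C 0 = 0 := rfl

@[simp] lemma pointInv_some {x y : F} (h : W.toAffine.Nonsingular x y) :
    pointInv W C (.some x y h) =
      .some (vcX' C x) (vcY' C x y) ((nonsingular_vc W C _ _).mp (by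
        rw [vcX_vcX', vcY_vcY']; exact h)) := rfl

lemma pointInv_pointMap (P : (C • W).toAffine.Point) : pointInv W C (pointMap W C P) = P := by
  rcases P with _ | ⟨x, y, h⟩
  · rfl
  · simp only [pointMap, pointInv, Point.some.injEq]
    exact ⟨vcX'_vcX C x, vcY'_vcY C x y⟩

lemma pointMap_pointInv (P : W.toAffine.Point) : pointMap W C (pointInv W C P) = P := by
  rcases P with _ | ⟨x, y, h⟩
  · rfl
  · simp only [pointMap, pointInv, Point.some.injEq]
    exact ⟨vcX_vcX' C x, vcY_vcY' C x y⟩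

lemma pointMap_add [DecidableEq F] (P Q : (C • W).toAffine.Point) :
    pointMap W C (P + Q) = pointMap W C P + pointMap W C Q := by
  rcases P with _ | ⟨x₁, y₁, h₁⟩
  · change pointMap W C (0 + Q) = 0 + pointMap W C Q
    rw [zero_add, zero_add]
  rcases Q with _ | ⟨x₂, y₂, h₂⟩
  · change pointMap W C (_ + 0) = pointMap W C _ + 0
    rw [add_zero, add_zero]
  by_cases hxy : x₁ = x₂ ∧ y₁ = (C • W).toAffine.negY x₂ y₂
  · rw [Point.add_of_Y_eq hxy.1 hxy.2, pointMap_zero, pointMap_some, pointMap_some,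
      Point.add_of_Y_eq]
    · rw [hxy.1]
    · rw [negY_vc, hxy.2, hxy.1]
  · have hxy' : ¬(vcX C x₁ = vcX C x₂ ∧ vcY C x₁ y₁ =
        W.toAffine.negY (vcX C x₂) (vcY C x₂ y₂)) := by
      rintro ⟨hx, hy⟩
      have hx' := (vcX_inj C).mp hx
      subst hx'
      rw [negY_vc] at hy
      exact hxy ⟨rfl, (vcY_inj C).mp hy⟩
    rw [Point.add_some hxy, pointMap_some, pointMap_some, pointMap_some, Point.add_some hxy']
    simp only [Point.some.injEq]
    rw [slope_vc W C h₁.1 h₂.1 hxy, addX_vc, addY_vc]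
    exact ⟨rfl, rfl⟩

/-- The isomorphism of point groups induced by a change of variables over a field. -/
def pointEquiv [DecidableEq F] : (C • W).toAffine.Point ≃+ W.toAffine.Point where
  toFun := pointMap W C
  invFun := pointInv W C
  left_inv := pointInv_pointMap W C
  right_inv := pointMap_pointInv W C
  map_add' := pointMap_add W C

@[simp] lemma pointEquiv_some [DecidableEq F] {x y : F}
    (h : (C • W).toAffine.Nonsingular x y) :
    pointEquiv W C (.some x y h) =
      .some (vcX C x) (vcY C x y) ((nonsingular_vc W C x y).mpr h) := rfl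

@[simp] lemma pointEquiv_symm_some [DecidableEq F] {x y : F} (h : W.toAffine.Nonsingular x y) :
    (pointEquiv W C).symm (.some x y h) =
      .some (vcX' C x) (vcY' C x y) ((nonsingular_vc W C _ _).mp (by
        rw [vcX_vcX', vcY_vcY']; exact h)) := rfl

end Fermat.Agent.H74
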