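import Fermat.Agent.H87Generic

set_option autoImplicit false
set_option linter.unusedSimpArgs false

/-!
# Multiplication by `n` on Weierstrass curves via division polynomials (H87)

Main results (for `W : WeierstrassCurve.Affine K` over a field `K`, `h : W.Nonsingular x y`):

* `xRep_nsmul` : `(Φ_n(x) : ΨSq_n(x))` is, up to a nonzero scalar, `(n • P).xRep`.
* `nsmul_eq_zero_iff` : `n • P = 0 ↔ ΨSq_n(x) = 0`.
* `x_nsmul` : `x(n • P) * ΨSq_n(x) = Φ_n(x)`.
* `isCoprime_Φ_ΨSq` : coprimality of `Φ_n` and `ΨSq_n` when `Δ ≠ 0`.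
* `ident` : elliptic-divisibility type identities for division polynomial values over any ring.
-/

namespace Fermat.Agent.H87

open WeierstrassCurve WeierstrassCurve.Affine WeierstrassCurve.Affine.Point

section ident

/-- the polynomial identities to be transferred -/
def Ident {R : Type*} [CommRing R] (W : WeierstrassCurve R) (x y : R) (n : ℕ) : Prop :=
  (x * ev W x y (n + 1) ^ 2 - ev W x y (n + 2) * ev W x y n) *
      ev W x y (n - 1) ^ 2 +
    (x * ev W x y (n - 1) ^ 2 - ev W x y n * ev W x y (n - 2)) * ev W x y (n + 1) ^ 2 =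
  (2 * ((x * ev W x y n ^ 2 - ev W x y (n + 1) * ev W x y (n - 1)) + x * ev W x y n ^ 2) *
      ((x * ev W x y n ^ 2 - ev W x y (n + 1) * ev W x y (n - 1)) * x) +
    W.b₂ * ((x * ev W x y n ^ 2 - ev W x y (n + 1) * ev W x y (n - 1)) * x) * ev W x y n ^ 2 +
    W.b₄ * ((x * ev W x y n ^ 2 - ev W x y (n + 1) * ev W x y (n - 1)) + x * ev W x y n ^ 2) *
      ev W x y n ^ 2 + W.b₆ * (ev W x y n ^ 2) ^ 2) ∧
  (x * ev W x y (n + 1) ^ 2 - ev W x y (n + 2) * ev W x y n) *
    (x * ev W x y (n - 1) ^ 2 - ev W x y n * ev W x y (n - 2)) =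
  (((x * ev W x y n ^ 2 - ev W x y (n + 1) * ev W x y (n - 1)) * x) ^ 2 -
    W.b₄ * ((x * ev W x y n ^ 2 - ev W x y (n + 1) * ev W x y (n - 1)) * x) * ev W x y n ^ 2 -
    W.b₆ * ((x * ev W x y n ^ 2 - ev W x y (n + 1) * ev W x y (n - 1)) + x * ev W x y n ^ 2) *
      ev W x y n ^ 2 - W.b₈ * (ev W x y n ^ 2) ^ 2)

lemma Ident.map {R S : Type*} [CommRing R] [CommRing S] {W : WeierstrassCurve R} {x y : R} {n : ℕ}
    (h : Ident W x y n) (f : R →+* S) : Ident (W.map f) (f x) (f y) n := by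
  obtain ⟨h1, h2⟩ := h
  have h1' := congrArg f h1
  have h2' := congrArg f h2
  simp only [map_add, map_sub, map_mul, map_pow, ← map_ev, ← map_b₂, ← map_b₄, ← map_b₆, ← map_b₈,
    map_ofNat] at h1' h2'
  exact ⟨h1', h2'⟩

lemma Ident.of_map {R S : Type*} [CommRing R] [CommRing S] {W : WeierstrassCurve R} {x y : R} {n : ℕ}
    (f : R →+* S) (hf : Function.Injective f) (h : Ident (W.map f) (f x) (f y) n) :
    Ident W x y n := by
  obtain ⟨h1, h2⟩ := h
  constructor
  · apply hf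
    simp only [map_add, map_sub, map_mul, map_pow, ← map_ev, ← map_b₂, ← map_b₄, ← map_b₆, ← map_b₈,
      map_ofNat]
    exact h1
  · apply hf
    simp only [map_add, map_sub, map_mul, map_pow, ← map_ev, ← map_b₂, ← map_b₄, ← map_b₆, ← map_b₈,
      map_ofNat]
    exact h2

variable {K : Type*} [Field K] [DecidableEq K] {W : Affine K} {x y : K}

omit [DecidableEq K] in
lemma ident_one (h : W.Equation x y) : Ident W x y 1 := by
  have h2 := ev_two_sq h
  have e2 : ev W x y ((1 : ℕ) + 1) = ev W x y 2 := by norm_num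
  have e3 : ev W x y ((1 : ℕ) + 2) = ev W x y 3 := by norm_num
  have e0 : ev W x y ((1 : ℕ) - 1) = 0 := by norm_num [ev_zero]
  have em : ev W x y ((1 : ℕ) - 2) = -1 := by
    norm_num [ev, normEDS_neg]
  have e1 : ev W x y ((1 : ℕ)) = 1 := by norm_num [ev_one]
  rw [Ident, e2, e3, e0, em, e1, h2, ev_three]
  simp only [Ψ₂Sq, Ψ₃, Polynomial.eval_add, Polynomial.eval_mul, Polynomial.eval_C,
        Polynomial.eval_pow, Polynomial.eval_X, Polynomial.eval_ofNat]
  constructor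
  · ring
  · ring

theorem ident_generic (h : W.Nonsingular x y) (hne : ∀ k : ℕ, 1 ≤ k → ev W x y k ≠ 0) (n : ℕ)
    (hn : 1 ≤ n) : Ident W x y n := by
  rcases n with _ | _ | i
  · omega
  · simpa using ident_one h.1
  · -- n = i + 2
    set P : W.Point := some x y h with hPdef
    obtain ⟨hP1, h1⟩ := generic_mul h hne (i + 1) i (by omega)
    obtain ⟨hP2, h2⟩ := generic_mul h hne (i + 2) (i + 1) (by omega)
    obtain ⟨hP3, h3⟩ := generic_mul h hne (i + 3) (i + 2) (by omega)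
    have hP : P ≠ 0 := some_ne_zero h
    obtain ⟨c, hc, k0, k1, k2⟩ := addSubRel ((i + 1 + 1) • P) P
    have e1 : (i + 1 + 1) • P + P = (i + 2 + 1) • P := by rw [← succ_nsmul]
    have e2 : (i + 1 + 1) • P - P = (i + 1) • P := by rw [succ_nsmul, add_sub_cancel_right]
    rw [e1, e2] at k0 k1 k2
    obtain ⟨s0, s1, s2⟩ := sym2x_eq hP2 hP
    obtain ⟨t0, t1, t2⟩ := sym2x_eq hP3 hP1
    have hx : P.xRep 0 = x := by simp [hPdef]
    rw [s0, s1, s2, t0, hx] at k0
    rw [s0, s1, s2, t1, hx] at k1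
    rw [s0, s1, s2, t2, hx] at k2
    simp only [XX, ← hPdef] at h1 h2 h3
    have g0 : ev W x y (((i + 1 + 1 : ℕ) : ℤ) - 2) = ev W x y (i : ℤ) := by congr 1; push_cast; ring
    have g1 : ev W x y (((i + 1 + 1 : ℕ) : ℤ) - 1) = ev W x y ((i + 1 : ℕ) : ℤ) := by
      congr 1; push_cast; ring
    have g3 : ev W x y (((i + 1 + 1 : ℕ) : ℤ) + 1) = ev W x y ((i + 2 + 1 : ℕ) : ℤ) := rfl
    have g4 : ev W x y (((i + 1 + 1 : ℕ) : ℤ) + 2) = ev W x y ((i + 2 + 2 : ℕ) : ℤ) := rfl
    have g2 : ev W x y ((i + 1 + 1 : ℕ) : ℤ) = ev W x y ((i + 2 : ℕ) : ℤ) := rfl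
    have g3' : ev W x y ((i + 1 + 2 : ℕ) : ℤ) = ev W x y ((i + 2 + 1 : ℕ) : ℤ) := rfl
    have n1 : ev W x y ((i + 1 : ℕ) : ℤ) ≠ 0 := hne _ (by omega)
    have n2 : ev W x y ((i + 2 : ℕ) : ℤ) ≠ 0 := hne _ (by omega)
    rw [Ident, g0, g1, g3, g4, g2]
    rw [g2, g3'] at h2
    generalize ev W x y ((i : ℕ) : ℤ) = E0 at *
    generalize ev W x y ((i + 1 : ℕ) : ℤ) = E1 at *
    generalize ev W x y ((i + 2 : ℕ) : ℤ) = E2 at *
    generalize ev W x y ((i + 2 + 1 : ℕ) : ℤ) = E3 at *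
    generalize ev W x y ((i + 2 + 2 : ℕ) : ℤ) = E4 at *
    generalize ((i + 1) • P).xRep 0 = A1 at *
    generalize ((i + 1 + 1) • P).xRep 0 = A2 at *
    generalize ((i + 2 + 1) • P).xRep 0 = A3 at *
    have f1 : x * E1 ^ 2 - E2 * E0 = A1 * E1 ^ 2 := by linear_combination h1
    have f2 : x * E2 ^ 2 - E3 * E1 = A2 * E2 ^ 2 := by linear_combination h2
    have f3 : x * E3 ^ 2 - E4 * E2 = A3 * E3 ^ 2 := by linear_combination h3
    have hc' : c * E2 ^ 4 = E3 ^ 2 * E1 ^ 2 := by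
      have : E3 ^ 2 * E1 ^ 2 = (x - A2) ^ 2 * E2 ^ 4 := by
        linear_combination -(E3 * E1 + (x - A2) * E2 ^ 2) * h2
      rw [aS2] at k2
      linear_combination -E2 ^ 4 * k2 - this
    rw [f1, f2, f3]
    rw [aS0] at k0
    rw [aS1] at k1
    constructor
    · linear_combination -(E2 ^ 4) * k1 - (A3 + A1) * hc'
    · linear_combination -(E2 ^ 4) * k0 - (A3 * A1) * hc'

end ident

section universal

open MvPolynomial

/-- the universal ring `ℤ[a₁, a₂, a₃, a₄, x, y]` -/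
abbrev U : Type := MvPolynomial (Fin 6) ℤ

/-- the universal pointed Weierstrass curve -/
noncomputable def WU : WeierstrassCurve U where
  a₁ := X 0
  a₂ := X 1
  a₃ := X 2
  a₄ := X 3
  a₆ := X 5 ^ 2 + X 0 * X 4 * X 5 + X 2 * X 5 - (X 4 ^ 3 + X 1 * X 4 ^ 2 + X 3 * X 4)

/-- specialisation homomorphism -/
noncomputable def specU {R : Type*} [CommRing R] (W : WeierstrassCurve R) (x y : R) : U →+* R :=
  MvPolynomial.eval₂Hom (Int.castRingHom R) ![W.a₁, W.a₂, W.a₃, W.a₄, x, y]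

lemma specU_map {R : Type*} [CommRing R] (W : WeierstrassCurve R) (x y : R)
    (h : W.toAffine.Equation x y) : WU.map (specU W x y) = W := by
  have heq := (equation_iff ..).mp h
  ext
  · simp [WU, specU]
  · simp [WU, specU]
  · simp [WU, specU]
  · simp [WU, specU]
  · simp [WU, specU]
    linear_combination heq

lemma specU_x {R : Type*} [CommRing R] (W : WeierstrassCurve R) (x y : R) :
    specU W x y (X 4) = x := by simp [specU]

lemma specU_y {R : Type*} [CommRing R] (W : WeierstrassCurve R) (x y : R) :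
    specU W x y (X 5) = y := by simp [specU]

/-- the zero curve `y^2 = x^3` over `ℚ` -/
noncomputable def W0 : WeierstrassCurve ℚ := ⟨0, 0, 0, 0, 0⟩

lemma W0_equation : (W0.map (Polynomial.C : ℚ →+* Polynomial ℚ)).toAffine.Equation
    (Polynomial.X ^ 2) (Polynomial.X ^ 3) := by
  rw [equation_iff]
  simp [W0]
  ring

lemma ev_universal_ne_zero (k : ℕ) (hk : 1 ≤ k) : ev WU (X 4) (X 5) k ≠ 0 := by
  intro h0
  have h1 := congrArg (specU (W0.map (Polynomial.C : ℚ →+* Polynomial ℚ))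
    (Polynomial.X ^ 2) (Polynomial.X ^ 3)) h0
  rw [← map_ev, specU_map _ _ _ W0_equation, specU_x, specU_y, _root_.map_zero] at h1
  have h2 := ev_sq W0_equation k
  rw [h1, map_ΨSq] at h2
  have h3 : W0.ΨSq k ≠ 0 := ΨSq_ne_zero _ (by simpa using (by omega : k ≠ 0))
  apply h3
  have h4 : Polynomial.expand ℚ 2 (W0.ΨSq k) = 0 := by
    rw [Polynomial.expand_eq_comp_X_pow, Polynomial.comp]
    rw [Polynomial.eval_map] at h2
    rw [← h2]
    simp
  rwa [Polynomial.expand_eq_zero (by norm_num)] at h4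

lemma WU_equation : WU.toAffine.Equation (X 4) (X 5) := by
  rw [equation_iff]
  simp [WU]

theorem ident_universal (n : ℕ) (hn : 1 ≤ n) : Ident WU (X 4) (X 5) n := by
  classical
  set f : U →+* FractionRing U := algebraMap U (FractionRing U) with hf
  have hinj : Function.Injective f := IsFractionRing.injective U (FractionRing U)
  apply Ident.of_map f hinj
  have heq : (WU.map f).toAffine.Equation (f (X 4)) (f (X 5)) := by
    have := WU_equation.map f
    exact this
  have hne : ∀ k : ℕ, 1 ≤ k → ev (WU.map f) (f (X 4)) (f (X 5)) k ≠ 0 := by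
    intro k hk h0
    rw [map_ev] at h0
    exact ev_universal_ne_zero k hk ((map_eq_zero_iff f hinj).mp h0)
  have hns : (WU.map f).toAffine.Nonsingular (f (X 4)) (f (X 5)) := by
    rw [nonsingular_iff']
    refine ⟨heq, Or.inr ?_⟩
    have := hne 2 (by norm_num)
    rw [show ((2 : ℕ) : ℤ) = 2 from rfl, ev_two] at this
    exact this
  exact ident_generic hns hne n hn

/-- the identities hold at every point of every Weierstrass curve over a commutative ring -/
theorem ident {R : Type*} [CommRing R] {W : WeierstrassCurve R} {x y : R}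
    (h : W.toAffine.Equation x y) (n : ℕ) (hn : 1 ≤ n) : Ident W x y n := by
  have := (ident_universal n hn).map (specU W x y)
  rwa [specU_map W x y h, specU_x, specU_y] at this

end universal

section final

variable {K : Type*} [Field K] [DecidableEq K] {W : Affine K} {x y : K}

/-- `(Φ_n(x) : ΨSq_n(x))` is the x-coordinate of `n • P`, projectively, for every nonsingular point
of every Weierstrass curve over a field. -/
theorem xRep_nsmul (h : W.Nonsingular x y) (n : ℕ) :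
    ∃ c : K, c ≠ 0 ∧ (W.Φ n).eval x = c * (n • (some x y h : W.Point)).xRep 0 ∧
      (W.ΨSq n).eval x = c * (n • (some x y h : W.Point)).xRep 1 := by
  set P : W.Point := some x y h with hP
  induction n using Nat.strong_induction_on with
  | _ n ih =>
    rcases n with _ | _ | n
    · exact ⟨1, one_ne_zero, by simp, by simp⟩
    · exact ⟨1, one_ne_zero, by simp [hP], by simp [hP]⟩
    · change ∃ c : K, c ≠ 0 ∧ (W.Φ ((n + 2 : ℕ) : ℤ)).eval x = c * ((n + 2) • P).xRep 0 ∧
        (W.ΨSq ((n + 2 : ℕ) : ℤ)).eval x = c * ((n + 2) • P).xRep 1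
      obtain ⟨c₁, hc₁, hΦ₁, hΨ₁⟩ := ih (n + 1) (by omega)
      obtain ⟨c₀, hc₀, hΦ₀, hΨ₀⟩ := ih n (by omega)
      obtain ⟨i1, i2⟩ := ident h.1 (n + 1) (by omega)
      have g0 : ((n + 1 : ℕ) : ℤ) - 1 = (n : ℤ) := by push_cast; ring
      have g2 : ((n + 1 : ℕ) : ℤ) + 1 = ((n + 2 : ℕ) : ℤ) := by push_cast; ring
      have p0 := eval_Φ h.1 (n : ℤ)
      have p1 := eval_Φ h.1 ((n + 1 : ℕ) : ℤ)
      have p2 := eval_Φ h.1 ((n + 2 : ℕ) : ℤ)
      have q0 := ev_sq h.1 (n : ℤ)
      have q1 := ev_sq h.1 ((n + 1 : ℕ) : ℤ)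
      have q2 := ev_sq h.1 ((n + 2 : ℕ) : ℤ)
      have g4 : ((n + 2 : ℕ) : ℤ) + 1 = ((n + 1 : ℕ) : ℤ) + 2 := by push_cast; ring
      have g5 : ((n + 2 : ℕ) : ℤ) - 1 = ((n + 1 : ℕ) : ℤ) := by push_cast; ring
      have g6 : (n : ℤ) + 1 = ((n + 1 : ℕ) : ℤ) := by push_cast; ring
      have g7 : (n : ℤ) - 1 = ((n + 1 : ℕ) : ℤ) - 2 := by push_cast; ring
      rw [g6, g7] at p0
      rw [g4, g5] at p2
      rw [g2, g0] at p1
      rw [g2, g0, ← p2, ← p0, ← p1, q0, q1, q2] at i1 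
      rw [g2, g0, ← p2, ← p0, ← p1, q1] at i2
      have i3 : (W.ΨSq ((n + 2 : ℕ) : ℤ)).eval x * (W.ΨSq (n : ℤ)).eval x =
        ((W.Φ ((n + 1 : ℕ) : ℤ)).eval x + x * (W.ΨSq ((n + 1 : ℕ) : ℤ)).eval x) ^ 2 - 4 *
          ((W.Φ ((n + 1 : ℕ) : ℤ)).eval x * x) * (W.ΨSq ((n + 1 : ℕ) : ℤ)).eval x := by
        rw [p1, ← q0, ← q1, ← q2]
        ring
      obtain ⟨c, hc, k0, k1, k2⟩ := addSubRel ((n + 1) • P) P
      have e1 : (n + 1) • P + P = (n + 2) • P := by rw [← succ_nsmul]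
      have e2 : (n + 1) • P - P = n • P := by rw [succ_nsmul, add_sub_cancel_right]
      rw [e1, e2] at k0 k1 k2
      have hx0 : P.xRep 0 = x := by simp [hP]
      have hx1 : P.xRep 1 = 1 := by simp [hP]
      simp only [sym2x, hx0, hx1, Matrix.cons_val_zero, Matrix.cons_val_one, Matrix.cons_val,
        aS0, aS1, aS2] at k0 k1 k2
      rw [hΦ₁, hΨ₁] at i1 i2 i3
      rw [hΦ₀, hΨ₀] at i1
      rw [hΦ₀] at i2
      rw [hΨ₀] at i3
      have m0 : (W.Φ ((n + 2 : ℕ) : ℤ)).eval x * (c₀ * (n • P).xRep 0) =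
          c₁ ^ 2 * c * (((n + 2) • P).xRep 0 * (n • P).xRep 0) := by
        linear_combination i2 + c₁ ^ 2 * k0
      have m1 : (W.Φ ((n + 2 : ℕ) : ℤ)).eval x * (c₀ * (n • P).xRep 1) +
          (c₀ * (n • P).xRep 0) * (W.ΨSq ((n + 2 : ℕ) : ℤ)).eval x =
          c₁ ^ 2 * c * (((n + 2) • P).xRep 0 * (n • P).xRep 1 +
            ((n + 2) • P).xRep 1 * (n • P).xRep 0) := by
        linear_combination i1 + c₁ ^ 2 * k1
      have m2 : (W.ΨSq ((n + 2 : ℕ) : ℤ)).eval x * (c₀ * (n • P).xRep 1) =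
          c₁ ^ 2 * c * (((n + 2) • P).xRep 1 * (n • P).xRep 1) := by
        linear_combination i3 + c₁ ^ 2 * k2
      refine ⟨c₁ ^ 2 * c / c₀, div_ne_zero (mul_ne_zero (pow_ne_zero 2 hc₁) hc) hc₀, ?_, ?_⟩
      · rw [div_mul_eq_mul_div, eq_div_iff hc₀]
        by_cases hn0 : n • P = 0
        · rw [hn0] at m0
          simp only [xRep_zero, Matrix.cons_val_zero, mul_one] at m0
          exact m0
        · rw [xRep_one hn0] at m1 m2
          linear_combination m1 - (n • P).xRep 0 * m2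
      · rw [div_mul_eq_mul_div, eq_div_iff hc₀]
        by_cases hn0 : n • P = 0
        · rw [hn0] at m1
          simp only [xRep_zero, Matrix.cons_val_zero, Matrix.cons_val_one, mul_one, mul_zero,
            zero_add] at m1
          linear_combination m1
        · rw [xRep_one hn0] at m2
          linear_combination m2

theorem nsmul_eq_zero_iff (n : ℕ) (h : W.Nonsingular x y) :
    n • (some x y h : W.Point) = 0 ↔ (W.ΨSq n).eval x = 0 := by
  obtain ⟨c, hc, -, h1⟩ := xRep_nsmul h n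
  rw [h1]
  constructor
  · intro h0
    rw [h0]
    simp
  · intro h0
    by_contra hne
    rw [xRep_one hne, mul_one] at h0
    exact hc h0

theorem x_nsmul (n : ℕ) {x₂ y₂ : K} (h : W.Nonsingular x y) (h₂ : W.Nonsingular x₂ y₂)
    (he : n • (some x y h : W.Point) = some x₂ y₂ h₂) :
    x₂ * (W.ΨSq n).eval x = (W.Φ n).eval x := by
  obtain ⟨c, hc, h0, h1⟩ := xRep_nsmul h n
  rw [h0, h1, he]
  simp [mul_comm]

omit [DecidableEq K] in
theorem eval_Φ_ne_zero_or (n : ℕ) (h : W.Nonsingular x y) :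
    (W.Φ n).eval x ≠ 0 ∨ (W.ΨSq n).eval x ≠ 0 := by
  classical
  obtain ⟨c, hc, h0, h1⟩ := xRep_nsmul h n
  by_cases hn : n • (some x y h : W.Point) = 0
  · left
    rw [h0, hn]
    simpa using hc
  · right
    rw [h1, xRep_one hn]
    simpa using hc

omit [DecidableEq K] in
lemma exists_equation [IsAlgClosed K] (x : K) : ∃ y : K, W.Equation x y := by
  obtain ⟨y, hy⟩ := IsAlgClosed.exists_root (Polynomial.C (1 : K) * Polynomial.X ^ 2 +
    Polynomial.C (W.a₁ * x + W.a₃) * Polynomial.X +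
    Polynomial.C (-(x ^ 3 + W.a₂ * x ^ 2 + W.a₄ * x + W.a₆)))
    (by rw [Polynomial.degree_quadratic one_ne_zero]; norm_num)
  refine ⟨y, ?_⟩
  rw [equation_iff]
  simp only [Polynomial.IsRoot.def, Polynomial.eval_add, Polynomial.eval_mul, Polynomial.eval_C,
    Polynomial.eval_pow, Polynomial.eval_X] at hy
  linear_combination hy

omit [DecidableEq K] in
theorem isCoprime_Φ_ΨSq (hΔ : W.Δ ≠ 0) (n : ℕ) : IsCoprime (W.Φ n) (W.ΨSq n) := by
  classical
  rw [Polynomial.isCoprime_iff_aeval_ne_zero_of_isAlgClosed K (AlgebraicClosure K)]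
  intro x
  set f : K →+* AlgebraicClosure K := algebraMap K (AlgebraicClosure K) with hf
  obtain ⟨y, hy⟩ : ∃ y : AlgebraicClosure K, (W.map f).toAffine.Equation x y :=
    exists_equation (W := W.map f) x
  have hns : (W.map f).toAffine.Nonsingular x y := by
    rw [← equation_iff_nonsingular_of_Δ_ne_zero]
    · exact hy
    · rw [map_Δ]
      simpa using hΔ
  have := eval_Φ_ne_zero_or n hns
  rw [map_Φ, map_ΨSq, Polynomial.eval_map_algebraMap, Polynomial.eval_map_algebraMap] at this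
  exact this

end final

end Fermat.Agent.H87
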