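import Mathlib
import Fermat.Agent.H13NodeRed
import Fermat.Agent.H87Mul

/-!
# Division polynomials at a node, and the existence of a `p`-torsion point near the node in residue
characteristic `p` (helper13)
-/

set_option autoImplicit false

namespace Fermat.Agent.H13

open WeierstrassCurve WeierstrassCurve.Affine IsLocalRing

section eds

variable {R : Type*} [CommRing R]

lemma preNormEDS'_zero_zero_zero (n : ℕ) (hn : 3 ≤ n) : preNormEDS' (0 : R) 0 0 n = 0 := by
  induction n using Nat.strong_induction_on with
  | _ n ih =>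
    rcases Nat.even_or_odd' n with ⟨m, rfl | rfl⟩
    · -- `n = 2 m`, `m ≥ 2`
      rcases m with _ | _ | _ | m
      · omega
      · omega
      · simp
      · rw [show 2 * (m + 1 + 1 + 1) = 2 * (m + 3) by ring, preNormEDS'_even,
          ih (m + 3) (by omega) (by omega)]
        ring
    · rcases m with _ | _ | m
      · omega
      · simp
      · rw [show 2 * (m + 1 + 1) + 1 = 2 * (m + 2) + 1 by ring, preNormEDS'_odd,
          ih (m + 3) (by omega) (by omega), ih (m + 4) (by omega) (by omega)]
        ring

variable {W : WeierstrassCurve R} {x₀ y₀ α β : R}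

/-- All the division polynomials `ΨSq n`, `n ≥ 2`, vanish at a node. -/
lemma NodeData.eval_ΨSq (h : NodeData W x₀ y₀ α β 0) (n : ℕ) (hn : 2 ≤ n) :
    (W.ΨSq n).eval x₀ = 0 := by
  have h2 : W.Ψ₂Sq.eval x₀ = 0 := by
    simp only [WeierstrassCurve.Ψ₂Sq, Polynomial.eval_add, Polynomial.eval_mul, Polynomial.eval_C,
      Polynomial.eval_pow, Polynomial.eval_X, WeierstrassCurve.b₂, WeierstrassCurve.b₄,
      WeierstrassCurve.b₆]
    rw [h.a₆, h.a₄, h.a₃]
    ring
  rw [WeierstrassCurve.ΨSq, Polynomial.eval_mul, Polynomial.eval_pow]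
  rcases hn.eq_or_lt with rfl | hn3
  · rw [if_pos (by decide), h2, mul_zero]
  · have h3 : W.Ψ₃.eval x₀ = 0 := by
      simp only [WeierstrassCurve.Ψ₃, Polynomial.eval_add, Polynomial.eval_mul, Polynomial.eval_C,
        Polynomial.eval_pow, Polynomial.eval_X, Polynomial.eval_ofNat, WeierstrassCurve.b₂,
        WeierstrassCurve.b₄, WeierstrassCurve.b₆, WeierstrassCurve.b₈]
      rw [h.a₆, h.a₄, h.a₃]
      ring
    have h4 : W.preΨ₄.eval x₀ = 0 := by
      simp only [WeierstrassCurve.preΨ₄, Polynomial.eval_add,
        Polynomial.eval_mul, Polynomial.eval_C,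
        Polynomial.eval_pow, Polynomial.eval_X, Polynomial.eval_ofNat, WeierstrassCurve.b₂,
        WeierstrassCurve.b₄, WeierstrassCurve.b₆, WeierstrassCurve.b₈]
      rw [h.a₆, h.a₄, h.a₃]
      ring
    have h5 : (W.preΨ n).eval x₀ = 0 := by
      rw [WeierstrassCurve.preΨ, ← Polynomial.coe_evalRingHom, map_preNormEDS,
        Polynomial.coe_evalRingHom, Polynomial.eval_pow, h2, h3, h4, zero_pow two_ne_zero,
        preNormEDS_ofNat]
      exact preNormEDS'_zero_zero_zero n hn3
    rw [h5]
    ring

end eds

section val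

variable {K : Type*} [Field K] {A : ValuationSubring K}

/-- a polynomial all of whose roots are outside `A` has constant valuation on `A`. -/
lemma valuation_eval_eq [IsAlgClosed K] {f : Polynomial K} (hroots : ∀ r : K, f.IsRoot r → r ∉ A)
    {a b : K} (ha : a ∈ A) (hb : b ∈ A) : A.valuation (f.eval a) = A.valuation (f.eval b) := by
  have hs := IsAlgClosed.splits f
  rcases eq_or_ne f 0 with rfl | hf
  · simp
  rw [hs.eval_eq_prod_roots, hs.eval_eq_prod_roots, map_mul, map_mul]
  congr 1
  rw [map_multiset_prod, map_multiset_prod, Multiset.map_map, Multiset.map_map]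
  congr 1
  refine Multiset.map_congr rfl fun r hr => ?_
  have hr' := hroots r ((Polynomial.mem_roots hf).mp hr)
  rw [← A.valuation_le_one_iff, not_le] at hr'
  rw [← A.valuation_le_one_iff] at ha hb
  simp only [Function.comp_apply]
  rw [Valuation.map_sub_eq_of_lt_right _ (lt_of_le_of_lt ha hr'),
    Valuation.map_sub_eq_of_lt_right _ (lt_of_le_of_lt hb hr')]

end val

section main

variable {K : Type*} [Field K] [DecidableEq K] {A : ValuationSubring K} {W : WeierstrassCurve A}
  {x₀ y₀ α β g : A} {EL : Affine K}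

/-- In residue characteristic `p`, a point with nonsingular reduction which is `p`-power torsion is in
the kernel of reduction. -/
lemma reduces_zero_of_pow_nsmul (hN : GoodNode W x₀ y₀ α β g) (hL : W.map A.subtype = EL)
    {p : ℕ} (hp : p.Prime) (hpk : (p : ResidueField A) = 0) {P : EL.Point} (hP : ¬ Near A x₀ P)
    {m : ℕ} (h : H59.Reduces A (residue A) (p ^ m • P)
      (0 : (W.map (residue A)).toAffine.Point)) :
    H59.Reduces A (residue A) P (0 : (W.map (residue A)).toAffine.Point) := by
  classical
  obtain ⟨P', hP'⟩ := exists_reduces_of_not_near hN hL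
    (Ek := (W.map (residue A)).toAffine) rfl hP
  have h1 : H59.Reduces A (residue A) (p ^ m • P) (p ^ m • P') := hP'.nsmul hL rfl _
  have h2 : p ^ m • P' = 0 := h1.unique h
  have hnd := hN.ndk (Ek := (W.map (residue A)).toAffine) rfl
  have h3 := mulT_nsmul hnd hN.αβk P' (p ^ m)
  rw [h2, mulT_zero] at h3
  have hchar : CharP (ResidueField A) p := by
    rw [← CharP.ringChar_of_prime_eq_zero hp hpk]
    exact ringChar.charP _
  have := Fact.mk hp
  have h4 : mulT (residue A x₀) (residue A y₀) (residue A α) (residue A β) P' = 1 := by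
    have h5 : (mulT (residue A x₀) (residue A y₀) (residue A α) (residue A β) P' - 1) ^ (p ^ m) = 0 := by
      rw [sub_pow_char_pow, ← h3, one_pow, sub_self]
    exact sub_eq_zero.mp (pow_eq_zero_iff (pow_ne_zero m hp.ne_zero) |>.mp h5)
  have h6 := mulT_eq_one hnd hN.αβk h4
  rw [h6] at hP'
  exact hP'

/-- In residue characteristic `p` there is a `p`-torsion point near the node. -/
theorem exists_near_of_char [IsAlgClosed K] [CharZero K] (hN : GoodNode W x₀ y₀ α β g)
    (hL : W.map A.subtype = EL) {p : ℕ} (hp : p.Prime) (hpk : (p : ResidueField A) = 0) :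
    ∃ P : EL.Point, p • P = 0 ∧ Near A x₀ P := by
  classical
  by_contra hcon
  push Not at hcon
  have hΔ : EL.Δ ≠ 0 := by
    rw [(hN.nd' hL).disc]
    have h1 : IsUnit ((W.b₂ + 12 * x₀) ^ 3 + 432 * g) := by
      rw [← hN.nd.delta_sq]
      by_contra h
      have h2 := (mem_maximalIdeal _).mpr h
      have h3 : ((α - β) ^ 2) ^ 3 ∈ maximalIdeal A := by
        have := sub_mem h2 (Ideal.mul_mem_left _ (432 : A) hN.g_mem)
        simpa using this
      exact (mem_maximalIdeal _).mp h3 ((hN.unit.pow 2).pow 3)
    have h2 : EL.b₂ + 12 * (x₀ : K) = ((W.b₂ + 12 * x₀ : A) : K) := by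
      subst hL
      rw [map_b₂]
      push_cast
      have : ((12 : A) : K) = 12 := map_ofNat A.subtype 12
      rw [this]; rfl
    have h3 : (EL.b₂ + 12 * (x₀ : K)) ^ 3 + 432 * (g : K) =
        (((W.b₂ + 12 * x₀) ^ 3 + 432 * g : A) : K) := by
      rw [h2]; push_cast
      have : ((432 : A) : K) = 432 := map_ofNat A.subtype 432
      rw [this]
    rw [h3]
    refine mul_ne_zero (neg_ne_zero.mpr hN.g_ne') ?_
    intro h4
    have : ((W.b₂ + 12 * x₀) ^ 3 + 432 * g : A) = 0 := Subtype.ext h4
    rw [this] at h1
    exact not_isUnit_zero h1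
  set f : Polynomial K := EL.ΨSq p with hf
  -- all roots are outside `A`
  have hroots : ∀ r : K, f.IsRoot r → r ∉ A := by
    intro r hr
    obtain ⟨y, hy⟩ := H87.exists_equation (W := EL) r
    have hns : EL.Nonsingular r y := (equation_iff_nonsingular_of_Δ_ne_zero hΔ).mp hy
    have h0 : p • (Point.some r y hns : EL.Point) = 0 := (H87.nsmul_eq_zero_iff p hns).mpr hr
    have h1 := hcon _ h0
    exact reduces_zero_of_pow_nsmul hN hL hp hpk h1 (m := 1) (by
      rw [pow_one, h0]; trivial)
  -- the value at `x₀`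
  have hval : ∀ a : A, f.eval (a : K) = (((W.ΨSq p).eval a : A) : K) := by
    intro a
    subst hL
    rw [hf, map_ΨSq, ← ValuationSubring.subtype_apply, Polynomial.eval_map_apply]
    rfl
  have hres : ∀ a : A, residue A ((W.ΨSq p).eval a) =
      ((W.map (residue A)).ΨSq p).eval (residue A a) := by
    intro a
    rw [map_ΨSq, Polynomial.eval_map_apply]
  have h0 : A.valuation (f.eval (x₀ : K)) < 1 := by
    rw [hval, ← ValuationSubring.valuation_lt_one_iff, ← residue_eq_zero_iff, hres]
    exact (hN.ndk (Ek := (W.map (residue A)).toAffine) rfl).eval_ΨSq p hp.two_le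
  -- the value at `x₀ + 1`
  have h1 : A.valuation (f.eval ((x₀ + 1 : A) : K)) = 1 := by
    rw [hval]
    apply valuation_unit
    by_contra hcon2
    have h2 := (residue_eq_zero_iff _).mpr ((mem_maximalIdeal _).mpr hcon2)
    rw [hres] at h2
    obtain ⟨y, hy⟩ := H87.exists_equation (W := EL) ((x₀ + 1 : A) : K)
    have hns : EL.Nonsingular ((x₀ + 1 : A) : K) y := (equation_iff_nonsingular_of_Δ_ne_zero hΔ).mp hy
    have hnear : ¬ Near A x₀ (Point.some _ y hns : EL.Point) := by
      intro h
      have h' : A.valuation (((x₀ + 1 : A) : K) - x₀) < 1 := h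
      push_cast at h'
      rw [add_sub_cancel_left, map_one] at h'
      exact lt_irrefl _ h'
    obtain ⟨P', hP'⟩ := exists_reduces_of_not_near hN hL
      (Ek := (W.map (residue A)).toAffine) rfl hnear
    rcases P' with _ | ⟨x', y', h'⟩
    · exact hP' (x₀ + 1 : A).2
    · obtain ⟨a, b, ha, hb, rfl, rfl⟩ := hP'
      have ha' : a = x₀ + 1 := Subtype.ext ha
      subst ha'
      have h3 := (H87.nsmul_eq_zero_iff p h').mpr h2
      have hnd := hN.ndk (Ek := (W.map (residue A)).toAffine) rfl
      have h4 := mulT_nsmul hnd hN.αβk (Point.some _ _ h') p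
      rw [h3, mulT_zero] at h4
      have hchar : CharP (ResidueField A) p := by
        rw [← CharP.ringChar_of_prime_eq_zero hp hpk]
        exact ringChar.charP _
      have := Fact.mk hp
      have h5 : mulT (residue A x₀) (residue A y₀) (residue A α) (residue A β)
          (Point.some _ _ h' : (W.map (residue A)).toAffine.Point) = 1 := by
        have h6 : (mulT (residue A x₀) (residue A y₀) (residue A α) (residue A β)
          (Point.some _ _ h' : (W.map (residue A)).toAffine.Point) - 1) ^ p = 0 := by
          rw [sub_pow_char, ← h4, one_pow, sub_self]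
        exact sub_eq_zero.mp (pow_eq_zero_iff hp.ne_zero |>.mp h6)
      exact Point.some_ne_zero h' (mulT_eq_one hnd hN.αβk h5)
  rw [valuation_eval_eq hroots x₀.2 (x₀ + 1 : A).2, h1] at h0
  exact lt_irrefl _ h0

end main

end Fermat.Agent.H13
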