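import Mathlib
import Fermat.Agent.H13NodeDiv

/-!
# The component index of a torsion point (helper13)
-/

set_option autoImplicit false

namespace Fermat.Agent.H13

open WeierstrassCurve WeierstrassCurve.Affine IsLocalRing

section

variable {K : Type*} [Field K] {A : ValuationSubring K} {W : WeierstrassCurve A}
  {x₀ y₀ α β g : A} {EL : Affine K}

/-- `P` has component `v(g) ^ (j / n)`. -/
def IsIdx (x₀ y₀ α β g : A) (n : ℕ) (P : EL.Point) (j : ℤ) : Prop :=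
  ∃ c, Comp A x₀ y₀ α β P c ∧ c ^ n = A.valuation (g : K) ^ j

lemma IsIdx.unique (hN : GoodNode W x₀ y₀ α β g) (hL : W.map A.subtype = EL) {n : ℕ}
    {P : EL.Point} {i j : ℤ} (hi : IsIdx x₀ y₀ α β g n P i) (hj : IsIdx x₀ y₀ α β g n P j) :
    (n : ℤ) ∣ j - i := by
  obtain ⟨c, hc, hci⟩ := hi
  obtain ⟨d, hd, hdj⟩ := hj
  obtain ⟨k, rfl⟩ := hc.unique hN hL hd
  have hne : A.valuation (g : K) ≠ 0 := (Valuation.ne_zero_iff _).mpr hN.g_ne'
  have h1 : A.valuation (g : K) ^ j = A.valuation (g : K) ^ (i + n * k) := by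
    rw [← hdj, mul_pow, hci, zpow_add₀ hne, mul_comm (n : ℤ) k, zpow_mul, zpow_natCast]
  have h2 : j = i + n * k := by
    have hinj := zpow_right_injective₀ (zero_lt_iff.mpr hne) hN.v_g.ne
    exact hinj h1
  exact ⟨k, by rw [h2]; ring⟩

lemma isIdx_of_not_near (n : ℕ) {P : EL.Point} (hP : ¬ Near A x₀ P) :
    IsIdx x₀ y₀ α β g n P 0 := ⟨1, comp_of_not_near hP, by simp⟩

lemma not_near_of_isIdx (hN : GoodNode W x₀ y₀ α β g) (hL : W.map A.subtype = EL) {n : ℕ}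
    (hn : n ≠ 0) {P : EL.Point} {j : ℤ} (h : IsIdx x₀ y₀ α β g n P j) (hj : (n : ℤ) ∣ j) :
    ¬ Near A x₀ P := by
  obtain ⟨l, rfl⟩ := hj
  obtain ⟨c, hc, hcj⟩ := h
  have : c = A.valuation (g : K) ^ l := by
    rcases lt_trichotomy c (A.valuation (g : K) ^ l) with hlt | heq | hgt
    · have := pow_lt_pow_left₀ hlt zero_le hn
      rw [hcj, ← zpow_natCast, ← zpow_mul, mul_comm] at this
      exact absurd this (lt_irrefl _)
    · exact heq
    · have := pow_lt_pow_left₀ hgt zero_le hn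
      rw [hcj, ← zpow_natCast, ← zpow_mul, mul_comm] at this
      exact absurd this (lt_irrefl _)
  rw [this] at hc
  exact not_near_of_comp hN hL hc

lemma not_near_iff_isIdx (hN : GoodNode W x₀ y₀ α β g) (hL : W.map A.subtype = EL) {n : ℕ}
    (hn : n ≠ 0) {P : EL.Point} {j : ℤ} (h : IsIdx x₀ y₀ α β g n P j) :
    ¬ Near A x₀ P ↔ (n : ℤ) ∣ j := by
  refine ⟨fun h' => ?_, not_near_of_isIdx hN hL hn h⟩
  have := (isIdx_of_not_near (y₀ := y₀) (α := α) (β := β) (g := g) n h').unique hN hL h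
  rwa [sub_zero] at this

lemma IsIdx.neg (hN : GoodNode W x₀ y₀ α β g) (hL : W.map A.subtype = EL) {n : ℕ}
    {P : EL.Point} {j : ℤ} (h : IsIdx x₀ y₀ α β g n P j) : IsIdx x₀ y₀ α β g n (-P) (-j) := by
  obtain ⟨c, hc, hcj⟩ := h
  exact ⟨c⁻¹, hc.neg hN hL, by rw [inv_pow, hcj, zpow_neg]⟩

variable [DecidableEq K]

lemma exists_isIdx (hN : GoodNode W x₀ y₀ α β g) (hL : W.map A.subtype = EL) {n : ℕ}
    {P : EL.Point} (h : ¬ Near A x₀ (n • P)) : ∃ j, IsIdx x₀ y₀ α β g n P j := by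
  obtain ⟨c, hc⟩ := exists_comp x₀ y₀ α β P
  obtain ⟨k, hk⟩ := hc.nsmul hN hL n (comp_of_not_near h)
  refine ⟨-k, c, hc, ?_⟩
  rw [zpow_neg]
  exact eq_inv_of_mul_eq_one_left hk.symm

lemma IsIdx.add (hN : GoodNode W x₀ y₀ α β g) (hL : W.map A.subtype = EL) {n : ℕ}
    {P Q : EL.Point} {i j : ℤ} (hi : IsIdx x₀ y₀ α β g n P i) (hj : IsIdx x₀ y₀ α β g n Q j) :
    ∃ l : ℤ, IsIdx x₀ y₀ α β g n (P + Q) (i + j + n * l) := by
  have hne : A.valuation (g : K) ≠ 0 := (Valuation.ne_zero_iff _).mpr hN.g_ne'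
  obtain ⟨c, hc, hci⟩ := hi
  obtain ⟨d, hd, hdj⟩ := hj
  obtain ⟨e, he⟩ := exists_comp x₀ y₀ α β (P + Q)
  obtain ⟨l, hl⟩ := hc.add hN hL hd he
  refine ⟨l, e, he, ?_⟩
  rw [hl, mul_pow, mul_pow, hci, hdj, zpow_add₀ hne, zpow_add₀ hne, mul_comm (n : ℤ) l, zpow_mul,
    zpow_natCast]

lemma IsIdx.nsmul (hN : GoodNode W x₀ y₀ α β g) (hL : W.map A.subtype = EL) {n : ℕ}
    {P : EL.Point} {i : ℤ} (hi : IsIdx x₀ y₀ α β g n P i) (m : ℕ) :
    ∃ l : ℤ, IsIdx x₀ y₀ α β g n (m • P) (m * i + n * l) := by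
  induction m with
  | zero =>
    refine ⟨0, ?_⟩
    rw [zero_nsmul, Nat.cast_zero, zero_mul, mul_zero, add_zero]
    exact ⟨1, rfl, by simp⟩
  | succ m ih =>
    obtain ⟨l, hl⟩ := ih
    obtain ⟨l', hl'⟩ := hl.add hN hL hi
    refine ⟨l + l', ?_⟩
    rw [succ_nsmul]
    convert hl' using 1
    push_cast
    ring

lemma IsIdx.sub (hN : GoodNode W x₀ y₀ α β g) (hL : W.map A.subtype = EL) {n : ℕ}
    {P Q : EL.Point} {i j : ℤ} (hi : IsIdx x₀ y₀ α β g n P i) (hj : IsIdx x₀ y₀ α β g n Q j) :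
    ∃ l : ℤ, IsIdx x₀ y₀ α β g n (P - Q) (i - j + n * l) := by
  rw [sub_eq_add_neg, sub_eq_add_neg]
  exact hi.add hN hL (hj.neg hN hL)

/-- The kernel of reduction is `p`-divisible in residue characteristic `p` (multiplicative
reduction). -/
theorem exists_nsmul_eq_of_reduces_zero [IsAlgClosed K] [CharZero K]
    (hN : GoodNode W x₀ y₀ α β g) (hL : W.map A.subtype = EL)
    {p : ℕ} (hp : p.Prime) (hpk : (p : ResidueField A) = 0)
    (hdiv : ∀ Q : EL.Point, ∃ P : EL.Point, p • P = Q) {Q : EL.Point}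
    (hQ : H59.Reduces A (residue A) Q (0 : (W.map (residue A)).toAffine.Point)) :
    ∃ P : EL.Point, H59.Reduces A (residue A) P (0 : (W.map (residue A)).toAffine.Point) ∧
      p • P = Q := by
  classical
  obtain ⟨P, rfl⟩ := hdiv Q
  have hnear : ¬ Near A x₀ (p • P) := not_near_of_reduces hN rfl hQ
  obtain ⟨j, hj⟩ := exists_isIdx (y₀ := y₀) (α := α) (β := β) (g := g) hN hL hnear
  -- a `p`-torsion point near the node
  obtain ⟨T, hT, hTn⟩ := exists_near_of_char hN hL hp hpk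
  obtain ⟨i, hi⟩ := exists_isIdx (y₀ := y₀) (α := α) (β := β) (g := g) hN hL
    (n := p) (P := T) (by rw [hT]; exact id)
  have hpi : ¬ (p : ℤ) ∣ i := fun h => not_near_of_isIdx hN hL hp.ne_zero hi h hTn
  -- choose `m` with `m i ≡ j`
  obtain ⟨a, b, hab⟩ := (Prime.coprime_iff_not_dvd (Nat.prime_iff_prime_int.mp hp)).mpr hpi
  -- `b * i ≡ 1`, take `m ≡ b * j` nonnegative
  set m : ℕ := (b * j % p).toNat with hm
  have hm' : (m : ℤ) = b * j % p := Int.toNat_of_nonneg (Int.emod_nonneg _ (by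
    exact_mod_cast hp.ne_zero))
  obtain ⟨l, hl⟩ := hi.nsmul hN hL m
  obtain ⟨l', hl'⟩ := hj.sub hN hL hl
  have hdvd : (p : ℤ) ∣ j - (m * i + p * l) + p * l' := by
    have h1 : (p : ℤ) ∣ (m : ℤ) - b * j := by
      rw [hm']
      exact ⟨-(b * j / p), by
        have := Int.emod_add_mul_ediv (b * j) p
        linear_combination this⟩
    obtain ⟨u, hu⟩ := h1
    refine ⟨a * j - u * i - l + l', ?_⟩
    linear_combination (-j) * hab - i * hu
  have hnn : ¬ Near A x₀ (P - m • T) := not_near_of_isIdx hN hL hp.ne_zero hl' hdvd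
  have hsum : p • (P - m • T) = p • P := by
    rw [nsmul_sub, smul_comm p m T, hT, smul_zero, sub_zero]
  refine ⟨P - m • T, ?_, hsum⟩
  refine reduces_zero_of_pow_nsmul hN hL hp hpk hnn (m := 1) ?_
  rw [pow_one, hsum]
  exact hQ

end

end Fermat.Agent.H13
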