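import Fermat.Agent.H87TateDet
import Fermat.Prelude.Def_GaloisRep_StrictOrdinary

/-!
# Strict ordinarity of the Tate module from a `p`-divisible subgroup
-/

set_option autoImplicit false

noncomputable section

open WeierstrassCurve WeierstrassCurve.Affine WeierstrassCurve.Affine.Point PadicInt
open Fermat.Agent.H53 (GQ M2)

namespace Fermat.Agent.H87.Ord

section Criterion

variable {A : Type} [CommRing A] [IsLocalRing A]

/-- Strict ordinarity in terms of bases. -/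
theorem isStrictOrdinaryAt_of_basis (ρ : GaloisRepAdic A) {p : ℕ}
    (hp : (p : A) ∈ IsLocalRing.maximalIdeal A)
    (h : ∀ P : ValuationSubring (AlgebraicClosure ℚ), P.LiesOverPrime p →
      ∃ b : Module.Basis (Fin 2) A ρ.V, ∀ σ ∈ P.decompositionSubgroup ℚ, ∃ x y z : A,
        ρ.ρ σ (b 0) = x • b 0 ∧ ρ.ρ σ (b 1) = y • b 0 + z • b 1 ∧
        (σ ∈ P.inertiaSubgroupIn ℚ → z = 1) ∧
        ∀ (n a : ℕ), (∀ μ : AlgebraicClosure ℚ, μ ^ p ^ n = 1 → σ μ = μ ^ a) →
          x - (a : A) * z ∈ Ideal.span {((p ^ n : ℕ) : A)}) :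
    ρ.IsStrictOrdinaryAt p := by
  refine ⟨hp, fun P hP => ?_⟩
  obtain ⟨b, hb⟩ := h P hP
  have hv : ∀ v : ρ.V, v = b.repr v 0 • b 0 + b.repr v 1 • b 1 := fun v => by
    have h4 := b.sum_repr v
    rw [Fin.sum_univ_two] at h4
    exact h4.symm
  have hmem : ∀ c : A, c • b 0 ∈ Submodule.span A {b 0} := fun c =>
    Submodule.smul_mem _ _ (Submodule.mem_span_singleton_self _)
  have hinert : ∀ σ ∈ P.inertiaSubgroupIn ℚ, σ ∈ P.decompositionSubgroup ℚ := by
    rintro _ ⟨⟨σ, hσ⟩, -, rfl⟩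
    exact hσ
  refine ⟨Submodule.span A {b 0}, ⟨b, rfl⟩, ?_, ?_, ?_⟩
  · intro σ hσ v hvL
    obtain ⟨x, y, z, h0, -⟩ := hb σ hσ
    obtain ⟨c, rfl⟩ := Submodule.mem_span_singleton.mp hvL
    rw [map_smul, h0, smul_smul]
    exact hmem _
  · intro σ hσ v
    obtain ⟨x, y, z, h0, h1, h2, -⟩ := hb σ (hinert σ hσ)
    have hz := h2 hσ
    have h3 : ρ.ρ σ v - v = (b.repr v 0 * x + b.repr v 1 * y - b.repr v 0) • b 0 := by
      conv_lhs => rw [hv v]
      rw [map_add, map_smul, map_smul, h0, h1, hz, one_smul, smul_add, smul_smul, smul_smul,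
        sub_smul, add_smul]
      abel
    rw [h3]
    exact hmem _
  · intro σ hσ
    obtain ⟨x, y, z, h0, h1, -, h3⟩ := hb σ hσ
    refine ⟨x, z, fun w hw => ?_, fun v => ?_, h3⟩
    · obtain ⟨c, rfl⟩ := Submodule.mem_span_singleton.mp hw
      rw [map_smul, h0, smul_comm]
    · have h4 : ρ.ρ σ v - z • v =
          (b.repr v 0 * x + b.repr v 1 * y - z * b.repr v 0) • b 0 := by
        conv_lhs => rw [hv v]
        rw [map_add, map_smul, map_smul, h0, h1, smul_add, smul_add, smul_smul, smul_smul,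
          smul_smul, smul_smul, smul_smul, sub_smul, add_smul, mul_comm z (b.repr v 1)]
        abel
      rw [h4]
      exact hmem _

/-- invariance under equivalence -/
theorem isStrictOrdinaryAt_of_isEquiv {ρ₁ ρ₂ : GaloisRepAdic A} (e : ρ₁.IsEquiv ρ₂) {p : ℕ}
    (h : ρ₁.IsStrictOrdinaryAt p) : ρ₂.IsStrictOrdinaryAt p := by
  obtain ⟨e⟩ := e
  refine ⟨h.1, fun P hP => ?_⟩
  obtain ⟨L, ⟨b, hL⟩, h1, h2, h3⟩ := h.2 P hP
  have hmap : ∀ σ (v : ρ₂.V), ρ₂.ρ σ v = e.toLinearEquiv (ρ₁.ρ σ (e.toLinearEquiv.symm v)) := by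
    intro σ v
    rw [e.map_apply, LinearEquiv.apply_symm_apply]
  refine ⟨L.map (e.toLinearEquiv : ρ₁.V →ₗ[A] ρ₂.V), ⟨b.map e.toLinearEquiv, ?_⟩, ?_, ?_, ?_⟩
  · rw [hL, Submodule.map_span, Set.image_singleton, Module.Basis.map_apply]
    rfl
  · rintro σ hσ _ ⟨v, hv, rfl⟩
    refine ⟨ρ₁.ρ σ v, h1 σ hσ v hv, ?_⟩
    exact e.map_apply σ v
  · intro σ hσ v
    refine ⟨ρ₁.ρ σ (e.toLinearEquiv.symm v) - e.toLinearEquiv.symm v, h2 σ hσ _, ?_⟩
    change e.toLinearEquiv (_ - _) = _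
    rw [map_sub, e.map_apply, LinearEquiv.apply_symm_apply]
  · intro σ hσ
    obtain ⟨x, z, hx, hz, ha⟩ := h3 σ hσ
    refine ⟨x, z, ?_, fun v => ?_, ha⟩
    · rintro _ ⟨v, hv, rfl⟩
      change ρ₂.ρ σ (e.toLinearEquiv v) = x • e.toLinearEquiv v
      rw [← e.map_apply, hx v hv, map_smul]
    · refine ⟨ρ₁.ρ σ (e.toLinearEquiv.symm v) - z • e.toLinearEquiv.symm v, hz _, ?_⟩
      change e.toLinearEquiv (_ - _) = _
      rw [map_sub, e.map_apply, map_smul, LinearEquiv.apply_symm_apply]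

/-- base change along a local homomorphism -/
theorem isStrictOrdinaryAt_baseChangeAlong {B : Type} [CommRing B] [IsLocalRing B] (φ : A →+* B)
    (hφ : IsLocalHom φ) {ρ : GaloisRepAdic A} {p : ℕ} (h : ρ.IsStrictOrdinaryAt p) :
    (ρ.baseChangeAlong φ hφ).IsStrictOrdinaryAt p := by
  have hp : (p : B) ∈ IsLocalRing.maximalIdeal B := by
    have := H53.map_maximalIdeal_pow φ hφ 1 (by rw [pow_one]; exact h.1)
    rwa [pow_one, map_natCast] at this
  refine isStrictOrdinaryAt_of_basis _ hp fun P hP => ?_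
  obtain ⟨L, ⟨b, hL⟩, h1, h2, h3⟩ := h.2 P hP
  refine ⟨H53.bcBasis φ hφ ρ b, fun σ hσ => ?_⟩
  obtain ⟨x, z, hx, hz, ha⟩ := h3 σ hσ
  have hb0 : b 0 ∈ L := by rw [hL]; exact Submodule.mem_span_singleton_self _
  have h4 := hz (b 1)
  rw [hL] at h4
  obtain ⟨y, hy⟩ := Submodule.mem_span_singleton.mp h4
  have hx0 := hx (b 0) hb0
  have hz1 : ρ.ρ σ (b 1) = y • b 0 + z • b 1 := by rw [hy]; abel
  let _ : Algebra A B := φ.toAlgebra
  have hbc : ∀ i, H53.bcBasis φ hφ ρ b i = (1 : B) ⊗ₜ[A] b i := fun i =>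
    Algebra.TensorProduct.basis_apply b i
  have hρ : ∀ v : ρ.V, (ρ.baseChangeAlong φ hφ).ρ σ ((1 : B) ⊗ₜ[A] v) =
      (1 : B) ⊗ₜ[A] (ρ.ρ σ v) := fun v => LinearMap.baseChange_tmul _ _ _
  have hsm : ∀ (a : A) (v : ρ.V), ((1 : B) ⊗ₜ[A] (a • v) : (ρ.baseChangeAlong φ hφ).V) =
      φ a • ((1 : B) ⊗ₜ[A] v : (ρ.baseChangeAlong φ hφ).V) := by
    intro a v
    change (1 : B) ⊗ₜ[A] (a • v) = φ a • ((1 : B) ⊗ₜ[A] v)
    rw [TensorProduct.tmul_smul]
    exact (algebraMap_smul B a _).symm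
  refine ⟨φ x, φ y, φ z, ?_, ?_, ?_, ?_⟩
  · rw [hbc, hρ, hx0, hsm]
    rfl
  · rw [hbc, hbc, hρ, hz1, TensorProduct.tmul_add, hsm, hsm]
    rfl
  · intro hσI
    have h5 := h2 σ hσI (b 1)
    rw [hz1, hL] at h5
    obtain ⟨w, hw⟩ := Submodule.mem_span_singleton.mp h5
    have h6 : z = 1 := by
      have h7 := congrArg (fun v => b.repr v 1) hw
      simp only [map_smul, map_sub, map_add, Module.Basis.repr_self, Finsupp.smul_apply,
        Finsupp.sub_apply, Finsupp.add_apply, Finsupp.single_eq_same, smul_eq_mul,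
        Finsupp.single_eq_of_ne (show (1 : Fin 2) ≠ 0 by decide), mul_zero, mul_one, zero_add]
        at h7
      exact (sub_eq_zero.mp h7.symm)
    rw [h6, map_one]
  · intro n a hna
    have h8 := Ideal.mem_map_of_mem φ (ha n a hna)
    rw [Ideal.map_span, Set.image_singleton, map_natCast, map_sub, map_mul, map_natCast] at h8
    exact h8

end Criterion

section Abstract

variable {A : Type*} [AddCommGroup A] (D : AddSubgroup A) {p : ℕ}

lemma mem_of_zsmul_mem (hp : p.Prime) {y : A} (hy : p • y = 0) {t : ℤ} (ht : ¬ (p : ℤ) ∣ t)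
    (h : t • y ∈ D) : y ∈ D := by
  obtain ⟨u, v, huv⟩ := (Nat.prime_iff_prime_int.mp hp).coprime_iff_not_dvd.mpr ht
  have h3 : y = v • (t • y) := by
    calc y = (u * p + v * t) • y := by rw [huv, one_smul]
      _ = u • ((p : ℤ) • y) + v • (t • y) := by rw [add_smul, mul_smul, mul_smul]
      _ = _ := by rw [natCast_zsmul, hy, smul_zero, zero_add]
  rw [h3]
  exact D.zsmul_mem h _

lemma dvd_of_zsmul_mem (hp : p.Prime) (s : ℕ → A) (hs : ∀ n, p • s (n + 1) = s n)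
    (h1 : p • s 1 = 0) (h1D : s 1 ∉ D) (n : ℕ) (c : ℤ) (hc : c • s n ∈ D) : (p : ℤ) ^ n ∣ c := by
  have hpow : ∀ n, (p ^ n) • s (n + 1) = s 1 := by
    intro n
    induction n with
    | zero => simp
    | succ n ih => rw [pow_succ, mul_smul, hs, ih]
  induction n generalizing c with
  | zero => simp
  | succ n ih =>
    have h2 : c • s n ∈ D := by
      rw [← hs n, smul_comm]
      exact D.nsmul_mem hc _
    obtain ⟨d, rfl⟩ := ih c h2
    have h3 : ((p : ℤ) ^ n * d) • s (n + 1) = d • s 1 := by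
      rw [← hpow n, mul_comm, mul_smul, ← Nat.cast_pow, natCast_zsmul]
    rw [h3] at hc
    have h4 : (p : ℤ) ∣ d := by
      by_contra hd
      exact h1D (mem_of_zsmul_mem D hp h1 hd hc)
    rw [pow_succ]
    exact mul_dvd_mul_left _ h4

end Abstract

section Curve

open Tate

variable (W : WeierstrassCurve ℚ) (hΔ : W.Δ ≠ 0) (p : ℕ) [hp : Fact p.Prime]

/-- shorthand for the group of points -/
abbrev Pt (W : WeierstrassCurve ℚ) := (W⁄(AlgebraicClosure ℚ)).Point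

omit hp in
lemma coe_rep (m : ℕ) (σ : GQ) (x : Tor W m) : (rep W m σ x : Pt W) = σ • (x : Pt W) := rfl

/-- **Strict ordinarity of the Tate module** from a `p`-divisible subgroup `D` with `D[p]` a line,
on whose quotient the decomposition group acts through a sign, trivial on inertia. -/
theorem isStrictOrdinaryAt_tate
    (h : ∀ P : ValuationSubring (AlgebraicClosure ℚ), P.LiesOverPrime p →
      ∃ D : AddSubgroup (Pt W), (∀ x ∈ D, ∃ y ∈ D, p • y = x) ∧ (∃ x ∈ D, x ≠ 0 ∧ p • x = 0) ∧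
        (∃ y : Pt W, p • y = 0 ∧ y ∉ D) ∧
        (∀ σ ∈ P.decompositionSubgroup ℚ, (∀ x ∈ D, σ • x ∈ D) ∧
          ((∀ (n : ℕ) (x : Pt W), p ^ n • x = 0 → σ • x - x ∈ D) ∨
            (∀ (n : ℕ) (x : Pt W), p ^ n • x = 0 → σ • x + x ∈ D))) ∧
        (∀ σ ∈ P.inertiaSubgroupIn ℚ, ∀ (n : ℕ) (x : Pt W), p ^ n • x = 0 → σ • x - x ∈ D)) :
    (tate W hΔ p).IsStrictOrdinaryAt p := by
  classical
  have hp0 : p ≠ 0 := hp.out.ne_zero
  refine isStrictOrdinaryAt_of_basis _ (detIsCyclotomic W hΔ p).1 fun P hP => ?_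
  obtain ⟨D, hdiv, ⟨x₁, hx₁D, hx₁0, hx₁p⟩, ⟨y₁, hy₁p, hy₁D⟩, hdec, hin⟩ := h P hP
  -- basis of the `p`-torsion
  let X : Tor W p := ⟨x₁, (Submodule.mem_torsionBy_iff _ _).mpr (by rw [natCast_zsmul]; exact hx₁p)⟩
  let Y : Tor W p := ⟨y₁, (Submodule.mem_torsionBy_iff _ _).mpr (by rw [natCast_zsmul]; exact hy₁p)⟩
  have hli : LinearIndependent (ZMod p) ![X, Y] := by
    rw [LinearIndependent.pair_iff]
    intro s t hst
    obtain ⟨s, rfl⟩ := ZMod.intCast_surjective s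
    obtain ⟨t, rfl⟩ := ZMod.intCast_surjective t
    rw [Int.cast_smul_eq_zsmul, Int.cast_smul_eq_zsmul] at hst
    have h1 : s • x₁ + t • y₁ = 0 := congrArg (fun z : Tor W p => (z : Pt W)) hst
    have ht : (t : ZMod p) = 0 := by
      by_contra ht
      rw [ZMod.intCast_zmod_eq_zero_iff_dvd] at ht
      refine hy₁D (mem_of_zsmul_mem D hp.out hy₁p ht ?_)
      rw [← neg_eq_of_add_eq_zero_right h1]
      exact D.neg_mem (D.zsmul_mem hx₁D _)
    refine ⟨?_, ht⟩
    have h2 : t • Y = 0 := by rw [← Int.cast_smul_eq_zsmul (ZMod p), ht, zero_smul]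
    rw [h2, add_zero, ← Int.cast_smul_eq_zsmul (ZMod p)] at hst
    refine (smul_eq_zero.mp hst).resolve_right fun h0 => hx₁0 ?_
    exact congrArg (fun z : Tor W p => (z : Pt W)) h0
  have hfr : Module.finrank (ZMod p) (Tor W p) = 2 :=
    EC.finrank_torsionBy_rat W hΔ hp0 hp.out.one_lt.ne'
  have hcard : Fintype.card (Fin 2) = Module.finrank (ZMod p) (Tor W p) := by
    rw [hfr, Fintype.card_fin]
  let b₁ := basisOfLinearIndependentOfCardEqFinrank hli hcard
  have hb₁ : ⇑b₁ = ![X, Y] := coe_basisOfLinearIndependentOfCardEqFinrank hli hcard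
  -- adapted compatible basis
  obtain ⟨b, hbc, hb1, hbD⟩ := exists_compat_basis_adapted (p := p) (A := Pt W)
    (![(D : Set (Pt W)), Set.univ]) (by
      intro i x hx
      fin_cases i
      · exact hdiv x hx
      · obtain ⟨y, hy⟩ := EC.exists_nsmul_eq W (EC.algebraMap_Δ_ne_zero hΔ) hp0 x
        exact ⟨y, trivial, hy⟩) b₁ (by
      intro i
      rw [hb₁]
      fin_cases i
      · exact hx₁D
      · trivial)
  obtain ⟨r, hr, hrmap, hequiv⟩ := exists_ofMatrix_of_compat W hΔ p b hbc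
  obtain ⟨e⟩ := hequiv
  -- elements of `D` in `Pt W[p^n]`
  have hb0D : ∀ n, (b n 0 : Pt W) ∈ D := by
    intro n
    cases n with
    | zero =>
      have h1 := hbc 0 0
      rw [← h1]
      exact D.nsmul_mem (hbD 0 0) _
    | succ n => exact hbD n 0
  have htor : ∀ n i, p ^ n • (b n i : Pt W) = 0 := by
    intro n i
    have := (Submodule.mem_torsionBy_iff _ _).mp (b n i).2
    rwa [natCast_zsmul] at this
  have hkey : ∀ n (c : ℤ), c • (b n 1 : Pt W) ∈ D → (c : ZMod (p ^ n)) = 0 := by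
    intro n c hc
    rw [ZMod.intCast_zmod_eq_zero_iff_dvd, Nat.cast_pow]
    refine dvd_of_zsmul_mem D hp.out (fun n => (b n 1 : Pt W)) (fun n => hbc n 1) ?_ ?_ n c hc
    · change p • (b 1 1 : Pt W) = 0
      rw [hb1, hb₁]
      exact hy₁p
    · rw [hb1, hb₁]
      exact hy₁D
  -- coordinates
  have hcoord : ∀ n (x : Tor W (p ^ n)), (x : Pt W) ∈ D → (b n).repr x 1 = 0 := by
    intro n x hx
    have h1 := (b n).sum_repr x
    rw [Fin.sum_univ_two] at h1
    obtain ⟨c0, hc0⟩ := ZMod.intCast_surjective ((b n).repr x 0)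
    obtain ⟨c1, hc1⟩ := ZMod.intCast_surjective ((b n).repr x 1)
    rw [← hc1]
    apply hkey n
    rw [← hc0, ← hc1, Int.cast_smul_eq_zsmul, Int.cast_smul_eq_zsmul] at h1
    have h2 : c0 • (b n 0 : Pt W) + c1 • (b n 1 : Pt W) = x := congrArg (fun z : Tor W (p ^ n) => (z : Pt W)) h1
    have h3 : c1 • (b n 1 : Pt W) = x - c0 • (b n 0 : Pt W) := by rw [← h2]; abel
    rw [h3]
    exact D.sub_mem hx (D.zsmul_mem (hb0D n) _)
  have hr10 : ∀ σ ∈ P.decompositionSubgroup ℚ, r σ 1 0 = 0 := by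
    intro σ hσ
    refine padic_ext fun n => ?_
    have h1 := congrFun (congrFun (hrmap n σ) 1) 0
    rw [Matrix.map_apply, LinearMap.toMatrix_apply] at h1
    rw [h1, _root_.map_zero (toZModPow n)]
    exact hcoord n (rep W (p ^ n) σ (b n 0)) ((hdec σ hσ).1 _ (hb0D n))
  have hr11 : ∀ (σ : GQ) (ε : ℤ), (∀ (n : ℕ) (x : Pt W), p ^ n • x = 0 → σ • x - ε • x ∈ D) →
      r σ 1 1 = (ε : ℤ_[p]) := by
    intro σ ε hε
    refine padic_ext fun n => ?_
    have h1 := congrFun (congrFun (hrmap n σ) 1) 1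
    rw [Matrix.map_apply, LinearMap.toMatrix_apply] at h1
    rw [h1, map_intCast]
    have h2 : (rep W (p ^ n) σ (b n 1) - ε • b n 1 : Tor W (p ^ n)) = _ := rfl
    have h3 := hcoord n (rep W (p ^ n) σ (b n 1) - ε • b n 1) (hε n _ (htor n 1))
    rw [← Int.cast_smul_eq_zsmul (ZMod (p ^ n)), map_sub, map_smul, Module.Basis.repr_self,
      Finsupp.sub_apply, Finsupp.smul_apply, Finsupp.single_eq_same, smul_eq_mul, mul_one,
      sub_eq_zero] at h3
    exact h3
  -- transfer to the Tate module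
  let bs : Module.Basis (Fin 2) ℤ_[p] (tate W hΔ p).V := (H53.stdBasis r hr).map e.toLinearEquiv.symm
  have hbs : ∀ σ i, (tate W hΔ p).ρ σ (bs i) = r σ 0 i • bs 0 + r σ 1 i • bs 1 := by
    intro σ i
    apply e.toLinearEquiv.injective
    rw [e.map_apply, map_add, map_smul, map_smul]
    simp only [bs, Module.Basis.map_apply, LinearEquiv.apply_symm_apply]
    have h1 := congrFun (congrArg DFunLike.coe (H53.toMat_stdBasis r hr)) σ
    rw [H53.toMat_apply] at h1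
    have h2 := (H53.stdBasis r hr).sum_repr ((H53.ofMatrix r hr).ρ σ (H53.stdBasis r hr i))
    rw [Fin.sum_univ_two] at h2
    rw [← h2, ← h1, LinearMap.toMatrix_apply, LinearMap.toMatrix_apply]
  have hdet : ∀ σ, LinearMap.det ((tate W hΔ p).ρ σ) = (r σ).det := by
    intro σ
    rw [← LinearMap.det_toMatrix bs]
    congr 1
    ext i j
    rw [LinearMap.toMatrix_apply, hbs σ j]
    simp only [map_add, map_smul, Module.Basis.repr_self, Finsupp.add_apply, Finsupp.smul_apply,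
      smul_eq_mul, Finsupp.single_apply]
    fin_cases i <;> simp
  refine ⟨bs, fun σ hσ => ⟨r σ 0 0, r σ 0 1, r σ 1 1, ?_, hbs σ 1, ?_, ?_⟩⟩
  · rw [hbs σ 0, hr10 σ hσ, zero_smul, add_zero]
  · intro hσI
    have := hr11 σ 1 (fun n x hx => by rw [one_smul]; exact hin σ hσI n x hx)
    rw [this, Int.cast_one]
  · intro n a ha
    have h1 := (detIsCyclotomic W hΔ p).2 n σ a ha
    rw [hdet, Matrix.det_fin_two, hr10 σ hσ, mul_zero, sub_zero] at h1
    obtain ⟨ε, hε, hz⟩ : ∃ ε : ℤ, ε * ε = 1 ∧ r σ 1 1 = (ε : ℤ_[p]) := by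
      rcases (hdec σ hσ).2 with h2 | h2
      · exact ⟨1, rfl, hr11 σ 1 fun n x hx => by rw [one_smul]; exact h2 n x hx⟩
      · exact ⟨-1, rfl, hr11 σ (-1) fun n x hx => by
          rw [neg_smul, one_smul, sub_neg_eq_add]; exact h2 n x hx⟩
    have h3 : r σ 0 0 - (a : ℤ_[p]) * r σ 1 1 =
        (ε : ℤ_[p]) * (r σ 0 0 * r σ 1 1 - (a : ℤ_[p])) := by
      have h4 : (ε : ℤ_[p]) * (ε : ℤ_[p]) = 1 := by exact_mod_cast congrArg (Int.cast (R := ℤ_[p])) hε
      rw [hz]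
      linear_combination (-r σ 0 0) * h4
    rw [h3]
    exact Ideal.mul_mem_left _ _ h1

end Curve

end Fermat.Agent.H87.Ord
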