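import Mathlib
import Fermat.Agent.H13NodeIdx
import Fermat.Agent.H13EC6
import Fermat.Agent.H87Ord

/-!
# EC8: the Tate module is strictly ordinary at a prime `p` of multiplicative reduction (helper13)
-/

set_option autoImplicit false

namespace Fermat.Agent.H13

open WeierstrassCurve WeierstrassCurve.Affine IsLocalRing
open scoped WeierstrassCurve.Affine Pointwise

section local_

variable {R S K : Type*} [CommRing R] [Field S] [Field K] [Algebra R S] [Algebra R K] [Algebra S K]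
  [IsScalarTower R S K] [Algebra.IsAlgebraic S K] {W : WeierstrassCurve ℤ} {E : Affine R}
  {A : ValuationSubring K} {x₀ y₀ α β g : A} [DecidableEq K]

/-- The decomposition group acts on the components through a sign. -/
theorem smul_sub_or_add_not_near (hN : GoodNode (W.map (Int.castRingHom A)) x₀ y₀ α β g)
    (hE : W.map (Int.castRingHom R) = E) {σ : K ≃ₐ[S] K} (hσ : σ ∈ A.decompositionSubgroup S) :
    (∀ P : (E⁄K).Point, ¬ Near A x₀ (σ • P - P)) ∨ (∀ P : (E⁄K).Point, ¬ Near A x₀ (σ • P + P)) := by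
  obtain ⟨h1, h2, -, h⟩ := hN.decomp hσ
  rcases h with ⟨h3, h4⟩ | ⟨h3, h4⟩
  · left
    intro P
    obtain ⟨c, hc⟩ := exists_comp x₀ y₀ α β P
    have hc' := hc.smul_of_fix hσ h1 h2 h3 h4
    exact sub_not_near hN (H59.model_map hE) hc' hc ⟨0, by simp⟩
  · right
    intro P
    obtain ⟨c, hc⟩ := exists_comp x₀ y₀ α β P
    have hc' := hc.smul_of_swap hσ h1 h2 h3 h4
    have := sub_not_near hN (H59.model_map hE) hc' (hc.neg hN (H59.model_map hE)) ⟨0, by simp⟩
    rwa [sub_neg_eq_add] at this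

/-- There is a nonzero `p`-torsion point in the kernel of reduction. -/
theorem exists_ne_zero_reduces_zero (hN : GoodNode (W.map (Int.castRingHom A)) x₀ y₀ α β g)
    (hE : W.map (Int.castRingHom R) = E) {p : ℕ} (hp : p.Prime) (hpk : (p : ResidueField A) = 0)
    (hcard : Nat.card (Submodule.torsionBy ℤ (E⁄K).Point (p : ℤ)) = p ^ 2) :
    ∃ P : (E⁄K).Point, H59.Reduces A (residue A) P
      (0 : ((W.map (Int.castRingHom A)).map (residue A)).toAffine.Point) ∧ P ≠ 0 ∧ p • P = 0 := by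
  classical
  have hL := H59.model_map (A := A) (K := K) hE
  have hT : ∀ P : Submodule.torsionBy ℤ (E⁄K).Point (p : ℤ), p • (P : (E⁄K).Point) = 0 := by
    intro P
    have h := (Submodule.mem_torsionBy_iff _ _).mp P.2
    rw [← natCast_zsmul]
    exact h
  have hidx : ∀ P : Submodule.torsionBy ℤ (E⁄K).Point (p : ℤ),
      ∃ j, IsIdx x₀ y₀ α β g p (P : (E⁄K).Point) j := fun P =>
    exists_isIdx hN hL (by rw [hT P]; exact id)
  choose j hj using hidx
  have hninj : ¬ Function.Injective (fun P : Submodule.torsionBy ℤ (E⁄K).Point (p : ℤ) =>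
      ((j P : ℤ) : ZMod p)) := by
    intro hinj
    have hfin : Finite (ZMod p) := by
      have := NeZero.mk hp.ne_zero
      infer_instance
    have h1 := Nat.card_le_card_of_injective _ hinj
    rw [hcard, Nat.card_zmod] at h1
    have := hp.two_le
    nlinarith
  rw [Function.Injective] at hninj
  push Not at hninj
  obtain ⟨P, Q, hPQ, hne⟩ := hninj
  obtain ⟨l, hl⟩ := (hj P).sub hN hL (hj Q)
  have hdvd : (p : ℤ) ∣ j P - j Q + p * l := by
    have h1 : (p : ℤ) ∣ j P - j Q := by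
      rw [← ZMod.intCast_zmod_eq_zero_iff_dvd]
      push_cast
      exact sub_eq_zero.mpr hPQ
    exact dvd_add h1 (dvd_mul_right _ _)
  have hnn := not_near_of_isIdx hN hL hp.ne_zero hl hdvd
  have h0 : p • ((P : (E⁄K).Point) - Q) = 0 := by rw [nsmul_sub, hT, hT, sub_zero]
  refine ⟨(P : (E⁄K).Point) - Q, ?_, ?_, h0⟩
  · refine reduces_zero_of_pow_nsmul hN hL hp hpk hnn (m := 1) ?_
    rw [pow_one, h0]
    trivial
  · rw [sub_ne_zero]
    exact fun h => hne (Subtype.ext h)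

end local_

/-- The hypothesis of `H87.Ord.isStrictOrdinaryAt_tate` at a prime of multiplicative reduction:
the kernel of reduction. -/
theorem exists_divisible_subgroup {W : WeierstrassCurve ℤ} {p : ℕ} (hp : p.Prime)
    (hbad : (p : ℤ) ∣ W.Δ) (hΔ : W.Δ ≠ 0) (hc : ¬ (p : ℤ) ∣ W.c₄)
    (P : ValuationSubring (AlgebraicClosure ℚ)) (hP : P.LiesOverPrime p) :
    ∃ D : AddSubgroup (H87.Ord.Pt (W.map (Int.castRingHom ℚ))),
      (∀ x ∈ D, ∃ y ∈ D, p • y = x) ∧ (∃ x ∈ D, x ≠ 0 ∧ p • x = 0) ∧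
        (∃ y : H87.Ord.Pt (W.map (Int.castRingHom ℚ)), p • y = 0 ∧ y ∉ D) ∧
        (∀ σ ∈ P.decompositionSubgroup ℚ, (∀ x ∈ D, σ • x ∈ D) ∧
          ((∀ (n : ℕ) (x : H87.Ord.Pt (W.map (Int.castRingHom ℚ))), p ^ n • x = 0 → σ • x - x ∈ D) ∨
            (∀ (n : ℕ) (x : H87.Ord.Pt (W.map (Int.castRingHom ℚ))),
              p ^ n • x = 0 → σ • x + x ∈ D))) ∧
        (∀ σ ∈ P.inertiaSubgroupIn ℚ, ∀ (n : ℕ) (x : H87.Ord.Pt (W.map (Int.castRingHom ℚ))),
          p ^ n • x = 0 → σ • x - x ∈ D) := by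
  classical
  have := H73.isAlgebraic_Qbar
  obtain ⟨x₀, y₀, α, β, g, hN⟩ := exists_goodNode hp hbad hΔ hc hP
  have hpk := H59.natCast_residue_eq_zero hP
  have hL := H59.model_map (A := P) (K := AlgebraicClosure ℚ)
    (rfl : W.map (Int.castRingHom ℚ) = W.map (Int.castRingHom ℚ))
  have hred : ∀ {x : H87.Ord.Pt (W.map (Int.castRingHom ℚ))} {n : ℕ}, p ^ n • x = 0 →
      ¬ Near P x₀ x → x ∈ H59.E1 (ρ := residue P) hL rfl := fun {x n} hx hnn =>
    reduces_zero_of_pow_nsmul hN hL hp hpk hnn (m := n) (by rw [hx]; trivial)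
  refine ⟨H59.E1 (ρ := residue P) hL rfl, ?_, ?_, ?_, ?_, ?_⟩
  · intro x hx
    obtain ⟨y, hy, hyx⟩ := exists_nsmul_eq_of_reduces_zero hN hL hp hpk
      (H87.EC.exists_nsmul_eq _ (H87.EC.algebraMap_Δ_ne_zero (H87.EC.map_int_Δ_ne_zero hΔ))
        hp.ne_zero) hx
    exact ⟨y, hy, hyx⟩
  · obtain ⟨x, hx, hx0, hpx⟩ := exists_ne_zero_reduces_zero (E := W.map (Int.castRingHom ℚ)) hN rfl
      hp hpk (H87.EC.natCard_torsionBy_rat _ (H87.EC.map_int_Δ_ne_zero hΔ) hp.ne_zero)
    exact ⟨x, hx, hx0, hpx⟩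
  · obtain ⟨y, hy, hyn⟩ := exists_near_of_char hN hL hp hpk
    exact ⟨y, hy, fun h => not_near_of_reduces hN rfl h hyn⟩
  · intro σ hσ
    refine ⟨?_, ?_⟩
    · intro x hx
      rcases x with _ | ⟨x, y, h⟩
      · exact hx
      · have hx' : x ∉ P := hx
        have : σ x ∉ P := fun h => hx' ((H73.mem_iff_of_decomposition hσ).mp h)
        exact this
    · have hpow : ∀ {n : ℕ} {x : H87.Ord.Pt (W.map (Int.castRingHom ℚ))}, p ^ n • x = 0 →
          p ^ n • (σ • x) = 0 := fun {n x} hx => by rw [smul_comm _ σ x, hx]; rfl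
      rcases smul_sub_or_add_not_near (E := W.map (Int.castRingHom ℚ)) hN rfl hσ with h | h
      · exact Or.inl fun n x hx => hred (n := n) (by rw [nsmul_sub, hpow hx, hx, sub_zero]) (h x)
      · exact Or.inr fun n x hx => hred (n := n) (by rw [nsmul_add, hpow hx, hx, add_zero]) (h x)
  · intro σ hσ n x hx
    refine hred (n := n) ?_ (smul_sub_not_near hN rfl hσ x)
    rw [nsmul_sub, smul_comm _ σ x, hx, sub_zero]
    rfl

/-- **EC8.** The Tate module of an integral Weierstrass curve with multiplicative reduction at `p` is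
strictly ordinary at `p`. -/
theorem isStrictOrdinaryAt_tate {W : WeierstrassCurve ℤ} {p : ℕ} [hp : Fact p.Prime]
    (hbad : (p : ℤ) ∣ W.Δ) (hΔ : W.Δ ≠ 0) (hc : ¬ (p : ℤ) ∣ W.c₄) :
    (H87.Tate.tate (W.map (Int.castRingHom ℚ)) (H87.EC.map_int_Δ_ne_zero hΔ) p).IsStrictOrdinaryAt
      p :=
  H87.Ord.isStrictOrdinaryAt_tate _ _ p fun P hP =>
    exists_divisible_subgroup hp.out hbad hΔ hc P hP

end Fermat.Agent.H13
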