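import Fermat.Agent.H87Glue
import Fermat.Agent.H13EC6
import Fermat.Agent.H13EC7
import Fermat.Agent.H13EC8

/-!
# The Galois representations of an integral Weierstrass curve at multiplicative primes
-/

set_option autoImplicit false

noncomputable section

open WeierstrassCurve WeierstrassCurve.Affine WeierstrassCurve.Affine.Point PadicInt
open Fermat.Agent.H53 (GQ M2)
open Polynomial

namespace Fermat.Agent.H87.Glue

open Tate

variable (W : WeierstrassCurve ℤ) (hΔ : W.Δ ≠ 0) (p : ℕ) [hp : Fact p.Prime]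

/-- determinant one and trace two of inertia at a multiplicative prime -/
theorem trace_det_inertia_mult (hΔ : W.Δ ≠ 0) {q n : ℕ} (hq : q.Prime) (hn0 : n ≠ 0)
    (hqn : ¬ q ∣ n) (hbad : (q : ℤ) ∣ W.Δ) (hc : ¬ (q : ℤ) ∣ W.c₄)
    {P : ValuationSubring (AlgebraicClosure ℚ)} (hP : P.LiesOverPrime q) {σ : GQ}
    (hσ : σ ∈ P.inertiaSubgroupIn ℚ) :
    LinearMap.trace (ZMod n) (Tor (EQ W) n) (rep (EQ W) n σ) = 2 ∧
      LinearMap.det (rep (EQ W) n σ) = 1 := by
  have hdet := det_rep_inertia (EQ W) (EC.map_int_Δ_ne_zero hΔ)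
    ((Nat.Prime.coprime_iff_not_dvd hq).mpr hqn) hn0 hP hσ
  refine ⟨?_, hdet⟩
  obtain ⟨b⟩ := EC.exists_basis_torsionBy_rat (EQ W) (EC.map_int_Δ_ne_zero hΔ) hn0
  refine H62.trace_eq_of_relation b _ (d := (1 : ZMod n)) ?_ hdet isUnit_one
  intro x
  have h := H13.unipotent_of_multiplicative hq hbad hΔ hc hqn P hP σ hσ x
  rw [galoisRepModuleEnd_apply, galoisRepModuleEnd_apply]
  rw [smul_sub, sub_eq_iff_eq_add] at h
  rw [h, one_smul, two_smul]
  abel

/-- unipotent inertia on the Tate module at a multiplicative prime `q ≠ p` -/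
theorem isUnipotentOnInertiaAt_of_mult {q : ℕ} (hq : q.Prime) (hqp : q ≠ p)
    (hbad : (q : ℤ) ∣ W.Δ) (hc : ¬ (q : ℤ) ∣ W.c₄) :
    (tateZ W hΔ p).IsUnipotentOnInertiaAt q :=
  isUnipotentOnInertiaAt_tate (EQ W) (EC.map_int_Δ_ne_zero hΔ) p fun n _ hP _ hσ =>
    trace_det_inertia_mult W hΔ hq (pow_ne_zero _ hp.out.ne_zero)
      (fun h => hqp ((Nat.prime_dvd_prime_iff_eq hq hp.out).mp (hq.dvd_of_dvd_pow h)))
      hbad hc hP hσ

/-- unipotent inertia at a good prime `q ≠ p` -/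
theorem isUnipotentOnInertiaAt_of_good {q : ℕ} (hq : q.Prime) (hqp : q ≠ p)
    (hW : W.IsGoodPrimeFor q) : (tateZ W hΔ p).IsUnipotentOnInertiaAt q := by
  intro P hP σ hσ
  rw [isUnramifiedAt_of_good W hΔ p hq hqp hW P hP σ hσ]
  have : LinearMap.charpoly (1 : Module.End ℤ_[p] (tateZ W hΔ p).V) =
      (X - 1) ^ Module.finrank ℤ_[p] (tateZ W hΔ p).V := LinearMap.charpoly_one
  rw [this, (tateZ W hΔ p).finrank_eq]

/-- **semistable curves: unipotent inertia at all `q ≠ p`** -/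
theorem isUnipotentOnInertiaAt_of_semistable (hss : W.IsSemistableModel) {q : ℕ} (hq : q.Prime)
    (hqp : q ≠ p) : (tateZ W hΔ p).IsUnipotentOnInertiaAt q := by
  by_cases h : (q : ℤ) ∣ W.Δ
  · exact isUnipotentOnInertiaAt_of_mult W hΔ p hq hqp h (hss q hq h)
  · exact isUnipotentOnInertiaAt_of_good W hΔ p hq hqp h

/-- strict ordinarity at a multiplicative `p` -/
theorem isStrictOrdinaryAt_of_mult (hbad : (p : ℤ) ∣ W.Δ) (hc : ¬ (p : ℤ) ∣ W.c₄) :
    (tateZ W hΔ p).IsStrictOrdinaryAt p :=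
  H13.isStrictOrdinaryAt_tate hbad hΔ hc

/-- **semistable curves: flat or strictly ordinary at an odd `p`** -/
theorem flat_or_strictOrdinary_of_semistable (hss : W.IsSemistableModel) (hp2 : p ≠ 2) :
    (tateZ W hΔ p).IsFlatAt p ∨ (tateZ W hΔ p).IsStrictOrdinaryAt p := by
  by_cases h : (p : ℤ) ∣ W.Δ
  · exact Or.inr (isStrictOrdinaryAt_of_mult W hΔ p h (hss p hp.out h))
  · exact Or.inl (isFlatAt_of_good W hΔ p hp2 h)

/-- `resZ` is unramified at a multiplicative `q ≠ p` iff `p ∣ v_q(Δ)` -/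
theorem resZ_isUnramifiedAt_iff_of_mult {q : ℕ} (hq : q.Prime) (hqp : q ≠ p)
    (hbad : (q : ℤ) ∣ W.Δ) (hc : ¬ (q : ℤ) ∣ W.c₄) :
    (resZ W hΔ p).IsUnramifiedAt q ↔ p ∣ padicValInt q W.Δ := by
  rw [← H13.unramified_iff hq hp.out hbad hΔ hc hqp]
  constructor
  · intro h A hA σ hσ x
    exact LinearMap.congr_fun (h A hA σ hσ) x
  · intro h A hA σ hσ
    exact LinearMap.ext fun x => h A hA σ hσ x

/-- semistable curves: `resZ` is unramified at `q ≠ p` iff `p ∣ v_q(Δ)` -/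
theorem resZ_isUnramifiedAt_iff (hss : W.IsSemistableModel) {q : ℕ} (hq : q.Prime)
    (hqp : q ≠ p) : (resZ W hΔ p).IsUnramifiedAt q ↔ p ∣ padicValInt q W.Δ := by
  by_cases h : (q : ℤ) ∣ W.Δ
  · exact resZ_isUnramifiedAt_iff_of_mult W hΔ p hq hqp h (hss q hq h)
  · refine iff_of_true (resZ_isUnramifiedAt W hΔ p hq hqp h) ?_
    rw [padicValInt.eq_zero_of_not_dvd h]
    exact dvd_zero _

/-- inertia at a multiplicative (or good) `q ≠ p` acts unipotently on the residual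
representation -/
theorem resZ_unipotent (hss : W.IsSemistableModel) {q : ℕ} (hq : q.Prime) (hqp : q ≠ p)
    {P : ValuationSubring (AlgebraicClosure ℚ)} (hP : P.LiesOverPrime q) {σ : GQ}
    (hσ : σ ∈ P.inertiaSubgroupIn ℚ) (x : (resZ W hΔ p).V) :
    (resZ W hΔ p).ρ σ ((resZ W hΔ p).ρ σ x - x) = (resZ W hΔ p).ρ σ x - x := by
  by_cases h : (q : ℤ) ∣ W.Δ
  · have hnd : ¬ q ∣ p := fun h => hqp ((Nat.prime_dvd_prime_iff_eq hq hp.out).mp h)
    exact H13.unipotent_of_multiplicative hq h hΔ (hss q hq h) hnd P hP σ hσ x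
  · rw [resZ_isUnramifiedAt W hΔ p hq hqp h P hP σ hσ]
    simp

end Fermat.Agent.H87.Glue
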