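import Fermat.Agent.H39WeilDet
import Fermat.Agent.H62NE
import Fermat.Agent.H63Dict
import Fermat.Agent.H72Red
import Fermat.Agent.H74VarChange
import Fermat.Agent.H87Glue2

set_option autoImplicit false

/-!
# Reader's guide: elliptic curves I (group law, torsion, Weil pairing, Frobenius)

**What this file is.**  Every theorem below is *proved by citing the library* (at most three lines); the
statement is written out in full, so that the list of results on elliptic curves which the proof of
Fermat's Last Theorem uses is itself checked by Lean.  No other module imports this file.  Companions: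
`GuideCurvesSteps` and `GuideWeil` (steps of the proofs), `GuideCurvesLocal` and `GuideNode` (multiplicative
primes), `GuideCurvesTate` (the representations `W[p]` and `T_p W`), `GuideFrey` (S05, S13), `GuideSwitch`
(S51, S52), `GuideAbsGal` (places of `Q̄`, inertia, Frobenius elements).

**What the library does.**  Mathlib has Weierstrass curves over arbitrary rings, the group law over a field
and the division polynomials `Φ_n`, `ΨSq_n` (as polynomials).  It has neither their relation with the group
law, nor the structure of `E[n]`, the Weil pairing, reduction of points, Tate modules, Hasse's theorem or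
Tate curves. The library constructs all this by elementary algebra with the x-coordinate: no formal groups,
no isogenies, no Riemann-Roch, no Tate curves, no Néron models, no completions.

**Reading order.**
1. Two forms of the addition theorem for x-coordinates; division polynomials describe multiplication by `n`
   (section 1).
2. `E[n] ≅ (ℤ/n)²`, divisibility, finite level; the Weil pairing; the determinant of `E[n]` is the
   cyclotomic character (section 2).
3. Elliptic curves over finite fields: Frobenius satisfies `X² - a X + q`, Hasse's bound (section 3).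
4. Reduction at a place: torsion is unramified at good primes, Frobenius elements on torsion (section 4).

**Where it is used.**  In the main line (S01) everywhere from residual modularity to level lowering: S38-S46,
S50, S58-S60, and so S03, S04, S06; further in S05 (Kummer relation), S09, S12, S13, S15, S52.  The line
"Closures: ..." at the end of a docstring names all statements SNN whose proof term depends on the cited
library theorem (computed by a traversal of the proof terms of the 60 statements, not by hand).

**Conventions.**  `W : WeierstrassCurve ℤ` is an integral equation, `W.map (Int.castRingHom ℚ)` the curve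
over `ℚ`, `E⁄K` its base change (Mathlib), `(E⁄K).Point` the group of points.  `Submodule.torsionBy ℤ _ n`
is the `n`-torsion, with the action of automorphisms of `K` of the Prelude (`Def_FLTPrelim_GaloisRep`).
A *place* of `Q̄` is a valuation subring `A`; no embeddings of `Q̄` into local fields are chosen.

**Texts** by helper87 (sections 1, 2, 4), helper72 (x-coordinates), helper74 (changes of variables),
helper39 (Weil pairing), helper62 (section 3).  **Prose**: NOTES.md, section 3.1 and Appendix A: NOTES-ECLIB
(helper87), NOTES-TORSION-S42 (helper42), NOTES-WEIL-PAIRING (helper39), NOTES-PARTS-helper62.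
-/

namespace Fermat.Agent.Guide.Curves

open WeierstrassCurve WeierstrassCurve.Affine Polynomial
open scoped Pointwise

/-- the field of algebraic numbers -/
local notation "Qbar" => AlgebraicClosure ℚ
/-- its Galois group over `ℚ` -/
local notation "GQ" => AlgebraicClosure ℚ ≃ₐ[ℚ] AlgebraicClosure ℚ

/-! ## 0. Vocabulary: places, inertia, Frobenius elements -/

/-- *Inertia.* A valuation subring `A` of a field `L` lies over the prime `q` (`A.LiesOverPrime q`) if `q`
is a nonunit of `A`; `A.nonunits` is its maximal ideal, as a set of elements of `L`. The inertia group in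
the sense of the Prelude consists of the `K`-automorphisms `σ` of `L` with `σ A = A` and `σ x ≡ x` for all
`x ∈ A`. Module `H63Dict`.
Closures: S01, S03, S04, S06, S09, S12, S13, S15, S17, S33, S36, S38-S40, S43-S47, S50, S55, S56,
S58-S60. -/
theorem mem_inertia_iff {K L : Type*} [Field K] [Field L] [Algebra K L] (A : ValuationSubring L)
    (σ : L ≃ₐ[K] L) :
    σ ∈ A.inertiaSubgroupIn K ↔ σ • A = A ∧ ∀ x ∈ A, σ x - x ∈ A.nonunits :=
  H63.mem_inertiaSubgroupIn_iff A σ

/-- *Frobenius elements.* `σ` is a Frobenius element at `A` for `q` if `σ A = A` and `σ x ≡ x ^ q` modulo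
the maximal ideal for all `x ∈ A`. Module `H63Dict`.
Closures: S01, S03, S04, S06, S38, S43, S45, S46, S50, S56, S59, S60. -/
theorem isFrobeniusAt_iff {K L : Type*} [Field K] [Field L] [Algebra K L] (A : ValuationSubring L)
    (σ : L ≃ₐ[K] L) (q : ℕ) :
    A.IsFrobeniusAt σ q ↔ σ • A = A ∧ ∀ x ∈ A, σ x - x ^ q ∈ A.nonunits :=
  H63.isFrobeniusAt_iff A σ q

/-- *The coefficients `a_ℓ(W)` of the Prelude*: `a_ℓ = ℓ + 1 - #W(𝔽_ℓ)`, where `#W(𝔽_ℓ)` is the number of
nonsingular points of the reduction of the given equation (including the point at infinity). It is used only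
for `ℓ ∤ Δ(W)`; at a multiplicative prime the value is 2 or 0, not the usual 1 or -1. -/
theorem apOfModel_eq (W : WeierstrassCurve ℤ) (ℓ : ℕ) :
    W.apOfModel ℓ = (ℓ : ℤ) + 1 -
      (Nat.card (W.map (Int.castRingHom (ZMod ℓ))).toAffine.Point : ℤ) :=
  congrArg (fun n : ℕ => (n : ℤ) + 1 - _) (Nat.card_zmod ℓ)

/-- *Irreducible and semistable*, the definitions of the Prelude: `W[p]` is irreducible over `𝔽_p`; a prime
dividing `Δ` does not divide `c₄`. -/
theorem vocabulary (W : WeierstrassCurve ℤ) (p : ℕ) :
    (W.ModRepIsIrreducible p ↔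
      Nontrivial (Submodule.torsionBy ℤ ((W.map (Int.castRingHom ℚ))⁄Qbar).Point (p : ℤ)) ∧
      ∀ N : Submodule (ZMod p)
        (Submodule.torsionBy ℤ ((W.map (Int.castRingHom ℚ))⁄Qbar).Point (p : ℤ)),
        (∀ σ : GQ, ∀ x ∈ N, σ • x ∈ N) → N = ⊥ ∨ N = ⊤) ∧
    (W.IsSemistableModel ↔ ∀ q : ℕ, q.Prime → (q : ℤ) ∣ W.Δ → ¬ (q : ℤ) ∣ W.c₄) :=
  ⟨Iff.rfl, Iff.rfl⟩

/-! ## 1. The group law and the x-coordinate; division polynomials -/

/-- **Changes of variables are isomorphisms of groups.** For a Weierstrass curve `W` over a field and a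
change of variables `C = (u, r, s, t)` the map `(x, y) ↦ (u² x + r, u³ y + u² s x + t)` is an isomorphism
from the group of points of `C • W` to the group of points of `W`. (Mathlib has the action on equations
only.) Module `H74VarChange`.
Closures: S01, S03, S09, S12, S15, S41, S43-S45. -/
theorem points_change_of_variables {F : Type*} [Field F] [DecidableEq F] (W : WeierstrassCurve F)
    (C : VariableChange F) :
    ∃ e : (C • W).toAffine.Point ≃+ W.toAffine.Point,
      ∀ (x y : F) (h : (C • W).toAffine.Nonsingular x y),
        ∃ h' : W.toAffine.Nonsingular ((C.u : F) ^ 2 * x + C.r)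
          ((C.u : F) ^ 3 * y + (C.u : F) ^ 2 * C.s * x + C.t), e (.some x y h) = .some _ _ h' :=
  ⟨H74.pointEquiv W C, fun _ _ h => ⟨_, H74.pointEquiv_some W C h⟩⟩

/-- *Homogeneous x-coordinates.* `W.Point` is Mathlib's group of points of a Weierstrass curve over a field
`F`. `H72.xN P` and `H72.xD P` are homogeneous coordinates of `x(P)` on the projective line: `(x : 1)` for
an affine point `(x, y)` and `(1 : 0)` for the origin. Modules `H72Kummer`, `H72Red`.
Closures: S01, S03, S05, S39, S40, S43-S45. -/
theorem xN_xD {F : Type*} [Field F] {W : Affine F} :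
    (H72.xN (0 : W.Point) = 1 ∧ H72.xD (0 : W.Point) = 0) ∧
    (∀ (x y : F) (h : W.Nonsingular x y),
      H72.xN (Point.some x y h) = x ∧ H72.xD (Point.some x y h) = 1) ∧
    (∀ P : W.Point, H72.xD P = 0 ↔ P = 0) ∧
    (∀ P : W.Point, H72.xN (-P) = H72.xN P ∧ H72.xD (-P) = H72.xD P) :=
  ⟨⟨H72.xN_zero, H72.xD_zero⟩, fun _ _ h => ⟨H72.xN_some h, H72.xD_some h⟩,
    fun _ => H72.xD_eq_zero, fun P => ⟨H72.xN_neg P, H72.xD_neg P⟩⟩

/-- **The Kummer relation**: for all points `P`, `Q` of a Weierstrass curve over a field (any
characteristic, no hypothesis on the discriminant) the unordered pair `{x(P+Q), x(P-Q)}` is given by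
biquadratic forms in `x(P)`, `x(Q)`: up to ONE common nonzero factor `c` the symmetric functions of
`(xN : xD)(P+Q)` and `(xN : xD)(P-Q)` are the three forms below. Proof: the chord-tangent formulas and
polynomial identities (cases: one point is the origin, `Q = P`, `Q = -P`, general). Module `H72Kummer`. Used
for S05 (`H72Red`, `H72Mult`), for the curves of S12 (`H12Curve`, `H12Loc`), for S13 (`H13NoFixed`), for
`P + T` and `P - T` with `T` in the kernel of reduction (`H47ESOrd`, S39 and S40), and for heights over
function fields (section 3, `H62Height`).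
Closures: S01, S03-S06, S09, S12, S13, S38-S41, S43-S46, S50, S52, S58-S60. -/
theorem kummer_relation {F : Type*} [Field F] [DecidableEq F] {W : Affine F} (P Q : W.Point) :
    ∃ c : F, c ≠ 0 ∧
    c * (H72.xN (P + Q) * H72.xN (P - Q)) =
      (H72.xN P * H72.xN Q) ^ 2 - W.b₄ * (H72.xN P * H72.xN Q) * (H72.xD P * H72.xD Q)
      - W.b₆ * (H72.xN P * H72.xD Q + H72.xD P * H72.xN Q) * (H72.xD P * H72.xD Q)
      - W.b₈ * (H72.xD P * H72.xD Q) ^ 2 ∧
    c * (H72.xN (P + Q) * H72.xD (P - Q) + H72.xD (P + Q) * H72.xN (P - Q)) =
      2 * (H72.xN P * H72.xD Q + H72.xD P * H72.xN Q) * (H72.xN P * H72.xN Q)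
      + W.b₂ * (H72.xN P * H72.xN Q) * (H72.xD P * H72.xD Q)
      + W.b₄ * (H72.xN P * H72.xD Q + H72.xD P * H72.xN Q) * (H72.xD P * H72.xD Q)
      + W.b₆ * (H72.xD P * H72.xD Q) ^ 2 ∧
    c * (H72.xD (P + Q) * H72.xD (P - Q)) = (H72.xN P * H72.xD Q - H72.xD P * H72.xN Q) ^ 2 :=
  H72.kummerRel P Q

/-- **Addition-subtraction theorem in Mathlib's notation.** The same relation for Mathlib's quadratic map
`addSubMap W` of `ℙ²`: it sends `P.sym2x Q = (x(P)x(Q) : x(P)+x(Q) : 1)` to the corresponding point of
`{x(P+Q), x(P-Q)}` (the TODO of Mathlib's file on this map), over an arbitrary field and without exceptions.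
Module `H87AddSub`. It is the only way in which the group law enters the next two theorems.
Closures: S01, S03, S04, S06, S09, S12, S13, S15, S38-S46, S50, S52, S58-S60. -/
theorem add_sub {K : Type*} [Field K] [DecidableEq K] {W : Affine K} (P Q : W.Point) :
    ∃ c : K, c ≠ 0 ∧ ∀ i, MvPolynomial.eval (P.sym2x Q) (WeierstrassCurve.addSubMap W i) =
      c * (P + Q).sym2x (P - Q) i := by
  obtain ⟨c, hc, h0, h1, h2⟩ := H87.addSubRel P Q
  refine ⟨c, hc, Fin.forall_fin_succ.2 ⟨?_, Fin.forall_fin_two.2 ⟨?_, ?_⟩⟩⟩ <;>
    simpa [WeierstrassCurve.addSubMap, H87.aS0, H87.aS1, H87.aS2] using by assumption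

/-- **Torsion and division polynomials**: `n P = 0` if and only if `ΨSq_n(x(P)) = 0`, for every point of
every Weierstrass curve over every field and every `n`. Proof: algebraic induction on division polynomials
at a point where none of them vanishes (`H87Chain`, `H87Generic`), identities on the universal pointed
curve, specialisation (`H87Mul`). Used in S13 and for the structure of `E[n]`.
Closures: S01, S03, S04, S06, S09, S12, S13, S15, S38-S46, S50, S52, S58-S60. -/
theorem nsmul_eq_zero_iff {K : Type*} [Field K] [DecidableEq K] {W : Affine K} (n : ℕ) {x y : K}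
    (h : W.Nonsingular x y) :
    n • (Point.some x y h : W.Point) = 0 ↔ (W.ΨSq n).eval x = 0 :=
  H87.nsmul_eq_zero_iff n h

/-- **Multiplication by `n` on x-coordinates**: `x(nP) = Φ_n(x)/ΨSq_n(x)`. Module `H87Mul`.
Closures: S01, S03, S04, S06, S09, S12, S13, S15, S38-S46, S50, S52, S58-S60. -/
theorem x_nsmul {K : Type*} [Field K] [DecidableEq K] {W : Affine K} (n : ℕ) {x y x' y' : K}
    (h : W.Nonsingular x y) (h' : W.Nonsingular x' y')
    (he : n • (Point.some x y h : W.Point) = Point.some x' y' h') :
    x' * (W.ΨSq n).eval x = (W.Φ n).eval x :=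
  H87.x_nsmul n h h' he

/-! ## 2. Torsion points and the Weil pairing -/

/-- **`#E[n] = n²`** for `Δ(E) ≠ 0`, over an algebraically closed field in which `n ≠ 0`. Proof
(`H42Torsion`): the Wronskian of `Φ_n` and `ΨSq_n` is not zero, so `Φ_n - c ΨSq_n` is separable for all but
finitely many `c`; by `x_nsmul` (`H87DivFormula`) a point with such an x-coordinate `c` has exactly `n²`
preimages under multiplication by `n`, and the fibres of a homomorphism are cosets of the kernel. Module
`H87ECTorsion`.
Closures: S01, S03, S04, S06, S38-S40, S43-S46, S50, S58-S60. -/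
theorem natCard_torsion {R K : Type*} [CommRing R] [Field K] [DecidableEq K] [Algebra R K]
    [IsAlgClosed K] (E : Affine R) (hΔ : algebraMap R K E.Δ ≠ 0) {n : ℕ} (hn : (n : K) ≠ 0) :
    Nat.card (Submodule.torsionBy ℤ (E⁄K).Point (n : ℤ)) = n ^ 2 :=
  H87.EC.natCard_torsionBy E hΔ hn

/-- **`E[n] ≅ (ℤ/n)²`.** Modules `H42Rank2` (group theory), `H87ECTorsion`.
Closures: S01, S03, S04, S06, S38-S41, S43-S46, S50, S58-S60. -/
theorem exists_basis_torsion {R K : Type*} [CommRing R] [Field K] [DecidableEq K] [Algebra R K]
    [IsAlgClosed K] (E : Affine R) (hΔ : algebraMap R K E.Δ ≠ 0) {n : ℕ} (hn : (n : K) ≠ 0) :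
    Nonempty (Module.Basis (Fin 2) (ZMod n) (Submodule.torsionBy ℤ (E⁄K).Point (n : ℤ))) :=
  H87.EC.exists_basis_torsionBy E hΔ hn

/-- **Divisibility**: multiplication by `n ≠ 0` is surjective (in every characteristic). Module
`H87ECTorsion`.
Closures: S01, S03, S04, S06, S38, S45, S46, S50, S58-S60. -/
theorem nsmul_surjective {R K : Type*} [CommRing R] [Field K] [DecidableEq K] [Algebra R K]
    [IsAlgClosed K] (E : Affine R) (hΔ : algebraMap R K E.Δ ≠ 0) {n : ℕ} (hn : n ≠ 0)
    (Q : (E⁄K).Point) : ∃ P : (E⁄K).Point, n • P = Q :=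
  H87.EC.exists_nsmul_eq E hΔ hn Q

/-- *Finite level*: the torsion points of order `n` are defined over a finite extension of `ℚ`, generated by
the coordinates of these finitely many points. Modules `H42Glue`, `H87ECTorsion`.
Closures: S01, S03, S04, S06, S09, S13, S38-S41, S43-S46, S50, S58-S60. -/
theorem exists_finite_level (E : WeierstrassCurve ℚ) (hΔ : E.Δ ≠ 0) {n : ℕ} (hn : n ≠ 0) :
    ∃ L : IntermediateField ℚ Qbar, FiniteDimensional ℚ L ∧ ∀ σ : GQ, (∀ x ∈ L, σ x = x) →
      ∀ P : Submodule.torsionBy ℤ (E⁄Qbar).Point (n : ℤ), σ • P = P := by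
  obtain ⟨L, hL, h⟩ := H87.EC.galoisFactorsThroughFiniteLevel E hΔ hn
  exact ⟨L, hL, fun σ hσ P => LinearMap.congr_fun (h σ hσ) P⟩

/-- **Functions with multiplier.** Let `S = (xs, ys)` be a nonsingular point of the affine Weierstrass curve
`W` over `F` with `n S = 0`. There is a function `f` on the affine curve with pole of order `n` at infinity
(`H39.deg f = n`), without zeros except at `-S`, such that for every `φ` in the space `L(n·O)`
(`H39.Ldeg W n`: functions with pole order at most `n` at infinity) the function `P ↦ f(P) φ(P + S)` is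
again in `L(n·O)` (identity at all affine points with `x ≠ xs`; `H39.evalPt`, `H39.fn` are values at
points). So translation by a point of order dividing `n` lifts to an operator on `L(n·O)`. Proof: the `n`-th
power of the ideal of the point `-S` is principal, since `n S = 0` in the class group. Module `H39WeilLift`.
Closures: S01, S03, S04, S06, S09, S12, S38-S41, S43-S46, S50, S58-S60. -/
theorem exists_multiplier {F : Type*} [Field F] {W : WeierstrassCurve.Affine F} [DecidableEq F]
    {xs ys : F} (hS : W.Nonsingular xs ys) {n : ℕ} (hn : n • Point.some xs ys hS = 0) :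
    ∃ f : W.CoordinateRing, f ≠ 0 ∧ H39.deg f = n ∧
      (∀ (x' y' : F) (h' : W.Nonsingular x' y'),
        Point.some x' y' h' ≠ -Point.some xs ys hS → H39.evalPt h'.1 f ≠ 0) ∧
      ∀ φ ∈ H39.Ldeg W n, ∃ ψ ∈ H39.Ldeg W n, ∀ (x y : F) (h : W.Nonsingular x y), x ≠ xs →
        H39.evalPt h.1 ψ = H39.evalPt h.1 f *
          H39.fn φ (Point.some x y h + Point.some xs ys hS) :=
  H39.exists_multiplier hS hn

/-- **Nondegeneracy (counting form).** Two lifts `A`, `B` of the translations by `S`, `T` to `L(n·O)`
satisfy `A B = c B A`; the constant `c` is the Weil pairing of `S` and `T` (`H39.WeilRel n S T c`). If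
`c = 1` and `S`, `T` are not both zero, then the points `i S + j T` are at most `n + 2` in number. Proof:
commuting lifts have a common eigenvector `φ` in `L(n·O)`; `φ` is not constant, so it has a zero `P₀`; then
all translates `P₀ + R`, `R = i S + j T`, `R ≠ ± P₀`, are zeros, and there are at most `n` zeros. For a
basis of `E[n]`, `n ≥ 3`, there are `n² > n + 2` points, so the pairing is not trivial. Module
`H39WeilNondeg`.
Closures: S01, S03, S04, S06, S09, S12, S38-S41, S43-S46, S50, S58-S60. -/
theorem card_le_of_trivial_pairing {F : Type*} [Field F] [IsAlgClosed F] [DecidableEq F]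
    {W : WeierstrassCurve.Affine F} [W.IsElliptic] {n : ℕ} {S T : W.Point} (hn : 1 ≤ n)
    (hS : n • S = 0) (hT : n • T = 0) (h : H39.WeilRel n S T 1) (hne : S ≠ 0 ∨ T ≠ 0)
    (s : Finset W.Point) (hs : ∀ P ∈ s, ∃ i j : ℕ, P = i • S + j • T) : s.card ≤ n + 2 :=
  H39.card_le_of_weilRel_one hn hS hT h hne s hs

/-- **The Weil pairing**, for an algebraically closed field `K`, a subfield `S` over which `E` is defined
and `n ≥ 3`: bilinear (with values in the multiplicative group), alternating, of order `n`, a primitive
`n`-th root of unity on every basis of `E[n]`, and equivariant under the automorphisms of `K` over `S`.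
Proof: `e(S, T)` is the commutator of the lifts of the translations by `S` and `T` to operators on `L(n·O)`
(Mumford's theta group); no divisor calculus, no Weil reciprocity. Modules `H39Weil*` (`H39WeilMain`,
`H39WeilDet`).
Closures: S01, S03, S09, S12, S39, S40, S43-S45. -/
theorem exists_weilPairing {R S K : Type*} [CommRing R] [Field S] [Field K] [DecidableEq K]
    [Algebra R S] [Algebra S K] [Algebra R K] [IsScalarTower R S K] [IsAlgClosed K] (E : Affine R)
    (hΔ : algebraMap R K E.Δ ≠ 0) {n : ℕ} (hn : 3 ≤ n) :
    ∃ e : Submodule.torsionBy ℤ (E⁄K).Point n → Submodule.torsionBy ℤ (E⁄K).Point n → K,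
      (∀ x y z, e (x + y) z = e x z * e y z) ∧ (∀ x y z, e x (y + z) = e x y * e x z) ∧
      (∀ x, e x x = 1) ∧ (∀ x y, e x y ^ n = 1) ∧
      (∀ b : Module.Basis (Fin 2) (ZMod n) (Submodule.torsionBy ℤ (E⁄K).Point n),
        IsPrimitiveRoot (e (b 0) (b 1)) n) ∧
      (∀ (σ : K ≃ₐ[S] K) x y, e (σ • x) (σ • y) = σ (e x y)) :=
  H39.exists_weilPairing E hΔ hn

/-- **The determinant of `E[n]` is the cyclotomic character** (`modularCyclotomicCharacter` is Mathlib's:
`σ ζ = ζ ^ χ(σ)` on `n`-th roots of unity; `galoisRepModuleEnd` is the action on `E[n]` as a homomorphism to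
`End_{ℤ/n}(E[n])`), every `n ≥ 1`. Proof: equivariance of the Weil pairing on a basis of `E[n]` (`n = 1, 2`
directly). Module `H39WeilDet`.
Closures: S01, S03, S04, S06, S38-S41, S43-S46, S50, S58-S60. -/
theorem det_eq_cyclotomic (E : WeierstrassCurve ℚ) (hΔ : E.Δ ≠ 0) {n : ℕ} [NeZero n]
    (hr : Nat.card (rootsOfUnity n Qbar) = n) (σ : GQ) :
    LinearMap.det (Point.galoisRepModuleEnd (K := Qbar) ℚ E n σ) =
      ((modularCyclotomicCharacter Qbar hr (σ : Qbar ≃+* Qbar) : (ZMod n)ˣ) : ZMod n) :=
  H39.det_galoisRepModuleEnd_rat E hΔ hr σ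

/-! ## 3. Elliptic curves over finite fields -/

/-- *Degree of an x-coordinate.* Let `W` be a Weierstrass curve over the field `K`, `F` an extension of `K`
and `t ∈ F` (later transcendental over `K`). `PRep t P A B d` says: the point `(A(t) : B(t))` of the
projective line over `F` is the x-coordinate of `P` (`xN_xD`), where `A, B ∈ K[X]` are coprime and
`d = max (deg A, deg B)`: the number `d` is the degree (the naive height) of the x-coordinate. Modules
`H62Prim`, `H62Height`.
Closures: S01, S03, S04, S06, S38-S41, S43-S46, S50, S52, S58-S60. -/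
theorem prep_iff {K F : Type*} [Field K] [Field F] [Algebra K F] {W : WeierstrassCurve K} (t : F)
    (P : (W⁄F).Point) (A B : K[X]) (d : ℕ) :
    H62.PRep t P A B d ↔ (IsCoprime A B ∧ d = max A.natDegree B.natDegree) ∧
      ∃ c : F, c ≠ 0 ∧ H72.xN P = c * aeval t A ∧ H72.xD P = c * aeval t B :=
  and_congr_left' ⟨fun h => ⟨h.isCoprime, h.eq_max⟩, fun h => h.2 ▸ H62.Prim.of_isCoprime h.1⟩

/-- **Parallelogram law for the degree of the x-coordinate.** Let `W` be elliptic over the field `K`,
`t ∈ F` transcendental over `K` (the map `K[X] → F`, `X ↦ t` is injective) and `P, Q` points over `F` such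
that the x-coordinates of `P, Q, P + Q, P - Q` have the degrees `d, d', d₁, d₂` over `K(t)`. Then
`d₁ + d₂ = 2 (d + d')`. Proof: by `kummer_relation` x(P + Q) and x(P - Q) are the roots of a quadratic
polynomial whose coefficients are forms of degree 2 in x(P), x(Q); these forms have no common zero. Module
`H62Height`.
Closures: S01, S03, S04, S06, S38-S41, S43-S46, S50, S52, S58-S60. -/
theorem height_parallelogram {K F : Type*} [Field K] [Field F] [DecidableEq F] [Algebra K F]
    {W : WeierstrassCurve K} [W.IsElliptic] {t : F}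
    (ht : Function.Injective (aeval t : K[X] →ₐ[K] F)) {P Q : (W⁄F).Point}
    {A B A' B' A₁ B₁ A₂ B₂ : K[X]} {d d' d₁ d₂ : ℕ} (hP : H62.PRep t P A B d)
    (hQ : H62.PRep t Q A' B' d') (hS : H62.PRep t (P + Q) A₁ B₁ d₁)
    (hD : H62.PRep t (P - Q) A₂ B₂ d₂) : d₁ + d₂ = 2 * (d + d') :=
  H62.PRep.parallelogram ht hP hQ hS hD

/-- **The height of `Frob - 1` is the number of rational points.** `W` is elliptic over the finite field `K`
with `q` elements, `F = H62.FF W` its function field (`K(t)[y]` modulo the Weierstrass equation),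
`Q₀ = (t, y)` the generic point (`FF.genData W`: the data of the function field, `GuideCurvesSteps.height`)
and `frobP` the map `(x, y) ↦ (x^q, y^q)`. The x-coordinate of `(t^q, y^q) - (t, y)` is `A(t)/B(t)` with
`A, B` coprime and `max (deg A, deg B) = #W(K)`. Proof: explicit formula for the x-coordinate and
determination of the multiplicities of the zeros of numerator and denominator at the elements of `K`.
Modules `H62Count`, `H62Generic`.
Closures: S01, S03, S04, S06, S38-S41, S43-S46, S50, S52, S58-S60. -/
theorem height_frobenius_sub_one {K : Type*} [Field K] [Fintype K] (W : WeierstrassCurve K)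
    [W.IsElliptic] [DecidableEq (H62.FF W)] :
    ∃ A B : K[X], H62.PRep (H62.FF.genData W).t
      (H62.frobP K (H62.FF W) W (H62.FF.genData W).Q₀ - (H62.FF.genData W).Q₀) A B
      (Nat.card W.toAffine.Point) :=
  (H62.FF.genData W).rep_frob_sub

/-- **A quadratic inequality.** Let `H` be an integer valued function on an abelian group with
`H (x + y) + H (x - y) = 2 H x + 2 H y` for all `x, y` and `H ≥ 0`. If `H x = 1` then
`(H (x + y) - H x - H y)² ≤ 4 H y`. With `x` = generic point, `y` = its image under Frobenius and `H` =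
degree of the x-coordinate (`H y = q`, `H (y - x) = #W(K)`) this is Hasse's inequality. Module `H62Quad`.
Closures: S01, S03, S04, S06, S38-S41, S43-S46, S50, S52, S58-S60. -/
theorem quadratic_inequality {A : Type*} [AddCommGroup A] {H : A → ℤ}
    (hpar : ∀ x y, H (x + y) + H (x - y) = 2 * H x + 2 * H y) (hpos : ∀ x, 0 ≤ H x) (x y : A)
    (hx : H x = 1) : (H (x + y) - H x - H y) ^ 2 ≤ 4 * H y :=
  H62.Parall.sq_le ⟨hpar⟩ hpos x y hx

/-- **The characteristic equation of Frobenius.** `k` is a finite field with `q` elements, `W` a Weierstrass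
curve over `k` with nonzero discriminant, `L` any extension field of `k`, `P ∈ W(L)` and
`φ(x, y) = (x^q, y^q)`. Then `φ(φ P) - a φ(P) + q P = 0` where `a = q + 1 - #W(k)`. Proof (after Manin): let
`Q` be the generic point and `Z = φ(φ Q) - a φ(Q) + q Q`. The quadratic form of `quadratic_inequality`
vanishes at `Z`: the x-coordinate of `Z` is constant. The substitution `Q ↦ n Q` of the function field gives
`n Z = ± Z` for all `n ≠ 0`, hence `Z = 0` (`n = 2, 3`). Every point of `W(L)` is a difference of two
points, over an extension field of `L`, with x-coordinates transcendental over `k`, i.e. of two images of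
`Q`. No isogenies, no dual isogeny, no Weil pairing. Steps: `generic_point_equation` and the theorems before
it in `GuideCurvesSteps`. Modules `H62Frob`, `H62Generic`, `H62FrobCharpoly`.
Closures: S01, S03, S04, S06, S38-S41, S43-S46, S50, S52, S58-S60. -/
theorem frobenius_equation {k : Type*} [Field k] [Fintype k] (W : WeierstrassCurve k)
    (hΔ : W.Δ ≠ 0) (L : Type*) [Field L] [DecidableEq L] [Algebra k L] (P : (W⁄L).Point) :
    Point.map (W' := W) (FiniteField.frobeniusAlgHom k L)
        (Point.map (W' := W) (FiniteField.frobeniusAlgHom k L) P)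
      - ((Nat.card k : ℤ) + 1 - Nat.card W.toAffine.Point) •
        Point.map (W' := W) (FiniteField.frobeniusAlgHom k L) P
      + (Nat.card k : ℤ) • P = 0 :=
  H62.frob_charpoly W hΔ L P

/-- **Hasse's inequality**: an elliptic curve `W` over the finite field `k` with `q` elements satisfies
`(q + 1 - #W(k))² ≤ 4 q`, from `height_parallelogram`, `height_frobenius_sub_one` and `quadratic_inequality`
(steps: `GuideCurvesSteps`, section 3). Module `H62FrobCharpoly`; used for S58, S59 in the form
`a_q² ≠ (q + 1)²` for good primes `q`.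
Closures: S01, S03, S04, S06, S38, S45, S46, S50, S58-S60. -/
theorem hasse_inequality {k : Type*} [Field k] [Finite k] (W : WeierstrassCurve k) (hΔ : W.Δ ≠ 0) :
    ((Nat.card k : ℤ) + 1 - Nat.card W.toAffine.Point) ^ 2 ≤ 4 * (Nat.card k : ℤ) :=
  H62.hasse_bound W hΔ

/-! ## 4. Reduction at a place; good primes -/

/-- *Reduction of points, as a relation.* `A` is a valuation subring of `L`, `ρ : A → k` a ring homomorphism
to a field and `E` a Weierstrass equation over `A`. `H59.Reduces A ρ P Q` says that the point `P` of `E`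
over `L` reduces to the point `Q` of the (possibly singular) curve `ρ(E)`: a point `(x, y)` reduces to
`(x', y')` if `x, y ∈ A` have these images, it reduces to `0` iff `x ∉ A`, and `0` reduces to `0`. Points
which reduce to the singular point are in no relation. In the next two theorems `ρ` is local: all nonunits
of `A` are mapped to `0`. Module `H59Red`. -/
theorem reduces_iff {L k : Type*} [Field L] [Field k] {A : ValuationSubring L} {ρ : A →+* k}
    {E : WeierstrassCurve A} {x y : L} {x' y' : k}
    (h : (E.map A.subtype).toAffine.Nonsingular x y)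
    (h' : (E.map ρ).toAffine.Nonsingular x' y') :
    (H59.Reduces A ρ (Point.some x y h) (Point.some x' y' h') ↔
      ∃ a b : A, (a : L) = x ∧ (b : L) = y ∧ ρ a = x' ∧ ρ b = y') ∧
    (H59.Reduces A ρ (Point.some x y h) (0 : (E.map ρ).toAffine.Point) ↔ x ∉ A) ∧
    H59.Reduces A ρ (0 : (E.map A.subtype).toAffine.Point) (0 : (E.map ρ).toAffine.Point) :=
  ⟨Iff.rfl, Iff.rfl, trivial⟩

/-- **Reduction is additive**, for points with nonsingular reduction, over any valuation ring, of any
(possibly singular) reduction. Proof by intersection with lines: if the reductions are not opposite, the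
slope is integral and reduces to the slope of the reduced line; otherwise the x-coordinate of the sum is not
integral. Module `H59Red`.
Closures: S01, S03, S04, S06, S09, S12, S15, S38-S41, S43-S46, S50, S58-S60. -/
theorem reduces_add {L k : Type*} [Field L] [DecidableEq L] [Field k] [DecidableEq k]
    {A : ValuationSubring L} {ρ : A →+* k} [IsLocalHom ρ] {E : WeierstrassCurve A}
    {P Q : (E.map A.subtype).toAffine.Point} {P' Q' : (E.map ρ).toAffine.Point}
    (hP : H59.Reduces A ρ P P') (hQ : H59.Reduces A ρ Q Q') :
    H59.Reduces A ρ (P + Q) (P' + Q') :=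
  H59.Reduces.add rfl rfl hP hQ

/-- **The kernel of reduction has no torsion prime to the residue characteristic.** Proof: after a change of
scale the point is integral with reduction `(1, 1)` on the cuspidal cubic `y² = x³`, whose nonsingular
points form the additive group of `k`; so `n P` reduces to `n ≠ 0`, not to the origin. Module `H59RedTors`.
Closures: S01, S03, S04, S06, S09, S12, S15, S38-S41, S43-S46, S50, S58-S60. -/
theorem eq_zero_of_reduces_zero {L k : Type*} [Field L] [DecidableEq L] [Field k] [DecidableEq k]
    {A : ValuationSubring L} {ρ : A →+* k} [IsLocalHom ρ] {E : WeierstrassCurve A}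
    {P : (E.map A.subtype).toAffine.Point}
    (hP : H59.Reduces A ρ P (0 : (E.map ρ).toAffine.Point)) {n : ℕ} (hn : (n : k) ≠ 0)
    (h : n • P = 0) : P = 0 :=
  H59.eq_zero_of_nsmul_eq_zero rfl hP hn h

/-- **Torsion is unramified at good primes** `q ∤ n` (the easy half of the criterion of Néron, Ogg and
Shafarevich). Module `H59RedGal`.
Closures: S01, S03, S04, S06, S38, S43, S45, S46, S50, S58-S60. -/
theorem unramified_of_good (W : WeierstrassCurve ℤ) {q n : ℕ} (hq : q.Prime)
    (hΔ : ¬ (q : ℤ) ∣ W.Δ) (hn : ¬ q ∣ n) (A : ValuationSubring Qbar) (hA : A.LiesOverPrime q)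
    (σ : GQ) (hσ : σ ∈ A.inertiaSubgroupIn ℚ)
    (P : Submodule.torsionBy ℤ ((W.map (Int.castRingHom ℚ))⁄Qbar).Point (n : ℤ)) : σ • P = P :=
  H59.galoisRepUnramifiedAt_of_good (S := ℚ) rfl hq hΔ hn A hA σ hσ P

/-- **Frobenius elements on torsion points**: for a good prime `ℓ ∤ n` and a Frobenius element `σ` at a
place above `ℓ`, `σ² - a_ℓ(W) σ + ℓ = 0` on `W[n]`. Proof: `frobenius_equation` for the reduced point;
reduction is injective on points of order prime to `ℓ`. Module `H62FrobTrace`.
Closures: S01, S03, S04, S06, S38-S41, S43-S46, S50, S58-S60. -/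
theorem frobenius_relation (W : WeierstrassCurve ℤ) {ℓ n : ℕ} (hℓ : ℓ.Prime)
    (hΔ : ¬ (ℓ : ℤ) ∣ W.Δ) (hn : ¬ ℓ ∣ n) {A : ValuationSubring Qbar} (hA : A.LiesOverPrime ℓ)
    {σ : GQ} (hσ : A.IsFrobeniusAt σ ℓ) (P : ((W.map (Int.castRingHom ℚ))⁄Qbar).Point)
    (hP : n • P = 0) : σ • σ • P - W.apOfModel ℓ • σ • P + (ℓ : ℤ) • P = 0 :=
  H62.frob_relation (S := ℚ) rfl hℓ hΔ hn hA hσ P hP

/-- **Trace and determinant of Frobenius** on `W[n]` are `a_ℓ(W)` and `ℓ` (the determinant by
`det_eq_cyclotomic`). Module `H62FrobTrace`.
Closures: S01, S03, S04, S06, S38-S41, S43-S46, S50, S58-S60. -/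
theorem trace_det_frobenius (W : WeierstrassCurve ℤ) {ℓ n : ℕ} [NeZero n] (hℓ : ℓ.Prime)
    (hΔ : ¬ (ℓ : ℤ) ∣ W.Δ) (hn : ¬ ℓ ∣ n) {A : ValuationSubring Qbar} (hA : A.LiesOverPrime ℓ)
    {σ : GQ} (hσ : A.IsFrobeniusAt σ ℓ) :
    LinearMap.trace (ZMod n) _
        (Point.galoisRepModuleEnd (K := Qbar) ℚ (W.map (Int.castRingHom ℚ)) n σ) =
      (W.apOfModel ℓ : ZMod n) ∧
    LinearMap.det (Point.galoisRepModuleEnd (K := Qbar) ℚ (W.map (Int.castRingHom ℚ)) n σ) =
      (ℓ : ZMod n) :=
  ⟨H62.trace_frob_rat W hℓ hΔ hn hA hσ, H62.det_frob_rat W hℓ hΔ hn hA hσ⟩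

end Fermat.Agent.Guide.Curves
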