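import Mathlib
import Fermat.Prelude.Def_FLTPrelim_FreyPackage
import Fermat.Prelude.Def_FLTPrelim_GaloisRep
import Fermat.Prelude.Def_FLTPrelim_Modularity
import Fermat.Prelude.Def_FLTPrelim_ModularRep
import Fermat.Prelude.Def_FreyPackage_IsConductorLevel
import Fermat.Prelude.Def_WeierstrassCurve_Mlc1RowStatement
import Fermat.Prelude.Def_WeierstrassCurve_ConductorLevel

/-!
# Basic facts on the Frey curve of a Frey package

* `freyCurveInt_map` : the integral model base changes to the rational Frey curve;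
* `freyCurveInt_Δ` : `256 * Δ = (abc)^(2p)`;
* `freyCurveInt_c₄` : `c₄ = a^(2p) + a^p b^p + b^(2p)`;
* `freyCurveInt_isSemistableModel`, `freyCurveInt_Δ_ne_zero`;
* wiring lemmas for S04 and S06.
-/

set_option autoImplicit false

namespace Fermat.Agent.H6

open FreyPackage

variable (P : FreyPackage)

lemma thirtyTwo_dvd_b_pow : (32 : ℤ) ∣ P.b ^ P.p := by
  have h2 : (2 : ℤ) ∣ P.b := (ZMod.intCast_zmod_eq_zero_iff_dvd P.b 2).1 P.hb2
  have h5 : (2 : ℤ) ^ 5 ∣ P.b ^ 5 := pow_dvd_pow_of_dvd h2 5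
  have h : P.b ^ 5 ∣ P.b ^ P.p := pow_dvd_pow _ P.hp5
  exact (by norm_num : (32 : ℤ) = 2 ^ 5) ▸ h5.trans h

lemma a_pow_mod4 : (4 : ℤ) ∣ P.a ^ P.p + 1 := by
  have h : ((P.a ^ P.p + 1 : ℤ) : ZMod 4) = 0 := by
    push_cast
    rw [P.ha4]
    obtain ⟨k, hk⟩ := P.hp_odd
    rw [hk, pow_succ, pow_mul]
    have : (3 : ZMod 4) ^ 2 = 1 := by decide
    rw [this, one_pow]
    decide
  exact (ZMod.intCast_zmod_eq_zero_iff_dvd _ 4).1 h

lemma four_dvd_a₂ : (4 : ℤ) ∣ P.b ^ P.p - 1 - P.a ^ P.p := by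
  have h1 : (4 : ℤ) ∣ P.b ^ P.p := dvd_trans (by norm_num) (thirtyTwo_dvd_b_pow P)
  have h2 := a_pow_mod4 P
  have : P.b ^ P.p - 1 - P.a ^ P.p = P.b ^ P.p - (P.a ^ P.p + 1) := by ring
  rw [this]
  exact dvd_sub h1 h2

lemma sixteen_dvd_a₄ : (16 : ℤ) ∣ -(P.a ^ P.p) * (P.b ^ P.p) :=
  dvd_mul_of_dvd_right (dvd_trans (by norm_num) (thirtyTwo_dvd_b_pow P)) _

lemma freyCurveInt_a₂_mul : 4 * P.freyCurveInt.a₂ = P.b ^ P.p - 1 - P.a ^ P.p :=
  Int.mul_ediv_cancel' (four_dvd_a₂ P)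

lemma freyCurveInt_a₄_mul : 16 * P.freyCurveInt.a₄ = -(P.a ^ P.p) * (P.b ^ P.p) :=
  Int.mul_ediv_cancel' (sixteen_dvd_a₄ P)

theorem freyCurveInt_map : P.freyCurveInt.map (Int.castRingHom ℚ) = P.freyCurve := by
  have h2 : ((P.freyCurveInt.a₂ : ℤ) : ℚ) = P.freyCurve.a₂ := by
    have := congrArg (fun z : ℤ => (z : ℚ)) (freyCurveInt_a₂_mul P)
    push_cast at this
    simp only [freyCurve]
    linarith
  have h4 : ((P.freyCurveInt.a₄ : ℤ) : ℚ) = P.freyCurve.a₄ := by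
    have := congrArg (fun z : ℤ => (z : ℚ)) (freyCurveInt_a₄_mul P)
    push_cast at this
    simp only [freyCurve]
    linarith
  ext
  · simp [freyCurveInt, freyCurve]
  · simpa using h2
  · simp [freyCurveInt, freyCurve]
  · simpa using h4
  · simp [freyCurveInt, freyCurve]

theorem freyCurveInt_isIntegralModelOf : P.freyCurveInt.IsIntegralModelOf P.freyCurve :=
  ⟨1, by rw [one_smul, freyCurveInt_map]⟩

lemma freyCurveInt_b₂ : P.freyCurveInt.b₂ = P.b ^ P.p - P.a ^ P.p := by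
  have := freyCurveInt_a₂_mul P
  simp only [WeierstrassCurve.b₂]
  have h1 : P.freyCurveInt.a₁ = 1 := rfl
  rw [h1, this]; ring

theorem freyCurveInt_c₄ :
    P.freyCurveInt.c₄ = P.a ^ (2 * P.p) + P.a ^ P.p * P.b ^ P.p + P.b ^ (2 * P.p) := by
  have h1 : P.freyCurveInt.a₁ = 1 := rfl
  have h3 : P.freyCurveInt.a₃ = 0 := rfl
  have hb4 : P.freyCurveInt.b₄ = 2 * P.freyCurveInt.a₄ := by
    simp [WeierstrassCurve.b₄, h3]
  have h4 := freyCurveInt_a₄_mul P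
  have key : 2 * P.freyCurveInt.c₄ =
      2 * (P.a ^ (2 * P.p) + P.a ^ P.p * P.b ^ P.p + P.b ^ (2 * P.p)) := by
    simp only [WeierstrassCurve.c₄, freyCurveInt_b₂, hb4]
    have e1 : P.a ^ (2 * P.p) = (P.a ^ P.p) ^ 2 := by rw [mul_comm, pow_mul]
    have e2 : P.b ^ (2 * P.p) = (P.b ^ P.p) ^ 2 := by rw [mul_comm, pow_mul]
    rw [e1, e2]
    linear_combination (-6) * h4
  linarith

theorem freyCurveInt_Δ : 256 * P.freyCurveInt.Δ = (P.a * P.b * P.c) ^ (2 * P.p) := by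
  have h1 : P.freyCurveInt.a₁ = 1 := rfl
  have h3 : P.freyCurveInt.a₃ = 0 := rfl
  have h6 : P.freyCurveInt.a₆ = 0 := rfl
  have hb4 : P.freyCurveInt.b₄ = 2 * P.freyCurveInt.a₄ := by
    simp [WeierstrassCurve.b₄, h3]
  have hb6 : P.freyCurveInt.b₆ = 0 := by
    simp [WeierstrassCurve.b₆, h3, h6]
  have hb8 : P.freyCurveInt.b₈ = - P.freyCurveInt.a₄ ^ 2 := by
    simp [WeierstrassCurve.b₈, h1, h3, h6]
  have h4 := freyCurveInt_a₄_mul P
  have hF := P.hFLT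
  have e : (P.a * P.b * P.c) ^ (2 * P.p) = (P.a ^ P.p * P.b ^ P.p) ^ 2 * (P.a ^ P.p + P.b ^ P.p) ^ 2 := by
    rw [hF, mul_comm 2, pow_mul, mul_pow, mul_pow]; ring
  rw [e]
  simp only [WeierstrassCurve.Δ, freyCurveInt_b₂, hb4, hb6, hb8]
  have h4' : P.a ^ P.p * P.b ^ P.p = - 16 * P.freyCurveInt.a₄ := by linarith
  rw [h4']
  linear_combination (-1024 * P.freyCurveInt.a₄ ^ 2) * h4'

theorem freyCurveInt_Δ_ne_zero : P.freyCurveInt.Δ ≠ 0 := by
  intro h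
  have := freyCurveInt_Δ P
  rw [h, mul_zero] at this
  exact pow_ne_zero _ P.habc0 this.symm

lemma prime_dvd_abc_of_dvd_Δ {q : ℕ} (hq : q.Prime) (h : (q : ℤ) ∣ P.freyCurveInt.Δ) :
    (q : ℤ) ∣ P.a * P.b * P.c := by
  have hΔ := freyCurveInt_Δ P
  have h2 : (q : ℤ) ∣ (P.a * P.b * P.c) ^ (2 * P.p) := by
    rw [← hΔ]; exact dvd_mul_of_dvd_right h _
  exact Int.Prime.dvd_pow' hq h2

theorem freyCurveInt_isSemistableModel : P.freyCurveInt.IsSemistableModel := by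
  intro q hq hqΔ hc4
  have hqp : Prime (q : ℤ) := Nat.prime_iff_prime_int.mp hq
  have habc := prime_dvd_abc_of_dvd_Δ P hq hqΔ
  rw [freyCurveInt_c₄] at hc4
  have e1 : P.a ^ (2 * P.p) = (P.a ^ P.p) ^ 2 := by rw [mul_comm, pow_mul]
  have e2 : P.b ^ (2 * P.p) = (P.b ^ P.p) ^ 2 := by rw [mul_comm, pow_mul]
  rw [e1, e2] at hc4
  have hab : IsCoprime P.a P.b := by
    rw [← gcd_isUnit_iff]; rw [P.hgcdab]; exact isUnit_one
  have hac : IsCoprime P.a P.c := by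
    rw [← gcd_isUnit_iff]; rw [P.hgcdac]; exact isUnit_one
  have hbc : IsCoprime P.b P.c := by
    rw [← gcd_isUnit_iff]; rw [P.hgcdbc]; exact isUnit_one
  have hpne : P.p ≠ 0 := P.hp0
  have hnot : ∀ {x y : ℤ}, IsCoprime x y → (q : ℤ) ∣ x → (q : ℤ) ∣ y → False := by
    intro x y hxy hx hy
    exact hqp.not_isUnit (hxy.isUnit_of_dvd' hx hy)
  rcases hqp.dvd_or_dvd habc with hab' | hc
  · rcases hqp.dvd_or_dvd hab' with ha | hb
    · have : (q : ℤ) ∣ (P.b ^ P.p) ^ 2 := by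
        have h1 : (q : ℤ) ∣ P.a ^ P.p := dvd_pow ha hpne
        have h2 : (q : ℤ) ∣ (P.a ^ P.p) * ((P.a ^ P.p) + P.b ^ P.p) := dvd_mul_of_dvd_left h1 _
        have h3 := dvd_sub hc4 h2
        have e : (P.a ^ P.p) ^ 2 + P.a ^ P.p * P.b ^ P.p + (P.b ^ P.p) ^ 2
            - (P.a ^ P.p) * ((P.a ^ P.p) + P.b ^ P.p) = (P.b ^ P.p) ^ 2 := by ring
        rwa [e] at h3
      have hb := hqp.dvd_of_dvd_pow (hqp.dvd_of_dvd_pow this)
      exact hnot hab ha hb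
    · have : (q : ℤ) ∣ (P.a ^ P.p) ^ 2 := by
        have h1 : (q : ℤ) ∣ P.b ^ P.p := dvd_pow hb hpne
        have h2 : (q : ℤ) ∣ (P.b ^ P.p) * ((P.a ^ P.p) + P.b ^ P.p) := dvd_mul_of_dvd_left h1 _
        have h3 := dvd_sub hc4 h2
        have e : (P.a ^ P.p) ^ 2 + P.a ^ P.p * P.b ^ P.p + (P.b ^ P.p) ^ 2
            - (P.b ^ P.p) * ((P.a ^ P.p) + P.b ^ P.p) = (P.a ^ P.p) ^ 2 := by ring
        rwa [e] at h3
      have ha := hqp.dvd_of_dvd_pow (hqp.dvd_of_dvd_pow this)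
      exact hnot hab ha hb
  · have : (q : ℤ) ∣ (P.a ^ P.p) ^ 2 := by
      have h1 : (q : ℤ) ∣ P.c ^ P.p := dvd_pow hc hpne
      rw [← P.hFLT] at h1
      have h2 : (q : ℤ) ∣ (P.a ^ P.p + P.b ^ P.p) * (P.b ^ P.p) := dvd_mul_of_dvd_left h1 _
      have h3 := dvd_sub hc4 h2
      have e : (P.a ^ P.p) ^ 2 + P.a ^ P.p * P.b ^ P.p + (P.b ^ P.p) ^ 2
          - (P.a ^ P.p + P.b ^ P.p) * (P.b ^ P.p) = (P.a ^ P.p) ^ 2 := by ring
      rwa [e] at h3
    have ha := hqp.dvd_of_dvd_pow (hqp.dvd_of_dvd_pow this)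
    exact hnot hac ha hc

/-- Exact modularity of the minimal Frey model at a squarefree level supported on the bad primes
gives S06. -/
theorem s06_of_isModularModelOfLevel {N : ℕ} (hN : 0 < N) (hsf : Squarefree N)
    (hsupp : ∀ q : ℕ, q.Prime → q ∣ N → (q : ℤ) ∣ P.freyCurveInt.Δ)
    (hmod : P.freyCurveInt.IsModularModelOfLevel N) :
    P.IsConductorLevel N ∧ P.ModularRepOfLevel N := by
  refine ⟨⟨hN, hsf, fun q hq hqN => prime_dvd_abc_of_dvd_Δ P hq (hsupp q hq hqN)⟩, ?_⟩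
  obtain ⟨f, hf, hfa⟩ := hmod
  obtain ⟨𝔪, h𝔪, hp𝔪⟩ := FLTPrelim.exists_maximalIdeal_natCast_prime_mem P.pp
  refine ⟨f, P.freyCurveInt, 𝔪, hf, freyCurveInt_isIntegralModelOf P, h𝔪, hp𝔪, ?_⟩
  intro ℓ hℓ hgood hℓN _
  refine ⟨((P.freyCurveInt.apOfModel ℓ : ℤ) : integralClosure ℤ ℂ), ?_, ?_⟩
  · rw [hfa ℓ hℓ hgood hℓN]; simp
  · rw [sub_self]; exact 𝔪.zero_mem

theorem s06_of_exactConductorLevel (h : Mlc1IsModularModelOfExactConductorLevel P.freyCurveInt) :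
    ∃ N : ℕ, P.IsConductorLevel N ∧ P.ModularRepOfLevel N := by
  obtain ⟨N, hN, hsf, hq, hmod⟩ := h
  exact ⟨N, s06_of_isModularModelOfLevel P hN hsf (fun q hqp hqN => (hq q hqp).1 hqN) hmod⟩

theorem s06_of_conductorLevel
    (h : P.freyCurveInt.IsModularModelOfLevel P.freyCurveInt.conductorLevel) :
    ∃ N : ℕ, P.IsConductorLevel N ∧ P.ModularRepOfLevel N :=
  ⟨_, s06_of_isModularModelOfLevel P (WeierstrassCurve.conductorLevel_pos _)
    (WeierstrassCurve.squarefree_conductorLevel _)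
    (fun _ hq hqN => (WeierstrassCurve.prime_dvd_conductorLevel_iff _
      (freyCurveInt_Δ_ne_zero P) hq).1 hqN) h⟩

/-- S04 from modularity of the base change of the integral Frey model (S60). -/
theorem s04_of_isModular (h : (P.freyCurveInt.map (Int.castRingHom ℚ)).IsModular) :
    P.freyCurve.IsModular := by
  rwa [freyCurveInt_map] at h

end Fermat.Agent.H6
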