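import Mathlib
import Fermat.Prelude.Def_FLTPrelim_FreyPackage
import Fermat.Prelude.Def_FLTPrelim_GaloisRep
import Fermat.Prelude.Def_FLTPrelim_Ramification
import Fermat.Prelude.Def_FLTPrelim_CofixedLine
import Fermat.Agent.H6_FreyCurve
import Fermat.Agent.H73Inertia

set_option autoImplicit false

/-!
# Local analysis of the Frey curve at every place of `ℚ̄` (for S13)
-/

namespace Fermat.Agent.H73

open WeierstrassCurve WeierstrassCurve.Affine.Point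
open scoped WeierstrassCurve.Affine

local notation "Qbar" => AlgebraicClosure ℚ

section arith

variable {A : ValuationSubring Qbar} {ℓ : ℕ}

lemma intCast_mem (n : ℤ) : (n : Qbar) ∈ A := _root_.intCast_mem A n

lemma intCast_mem_nonunits (hA : A.LiesOverPrime ℓ) {n : ℤ} (h : (ℓ : ℤ) ∣ n) :
    (n : Qbar) ∈ A.nonunits := by
  obtain ⟨m, rfl⟩ := h
  push_cast
  rw [mul_comm]
  exact mul_mem_nonunits (intCast_mem m) hA

lemma intCast_notMem_nonunits (hℓ : ℓ.Prime) (hA : A.LiesOverPrime ℓ) {n : ℤ}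
    (h : ¬ (ℓ : ℤ) ∣ n) : (n : Qbar) ∉ A.nonunits := by
  intro hn
  have hcop : IsCoprime (ℓ : ℤ) n :=
    (Nat.prime_iff_prime_int.mp hℓ).coprime_iff_not_dvd.mpr h
  obtain ⟨u, v, huv⟩ := hcop
  have h1 : (1 : Qbar) = (u : Qbar) * (ℓ : Qbar) + (v : Qbar) * (n : Qbar) := by
    have := congrArg (fun z : ℤ => (z : Qbar)) huv
    push_cast at this
    exact this.symm
  apply one_notMem_nonunits (A := A)
  rw [h1]
  exact add_mem (mul_mem_nonunits (intCast_mem u) hA) (mul_mem_nonunits (intCast_mem v) hn)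

lemma inv_intCast_mem (hℓ : ℓ.Prime) (hA : A.LiesOverPrime ℓ) {n : ℤ}
    (h : ¬ (ℓ : ℤ) ∣ n) : (n : Qbar)⁻¹ ∈ A :=
  inv_mem_of_notMem_nonunits (intCast_notMem_nonunits hℓ hA h)

end arith

variable (P : FreyPackage)

/-- The Frey curve over `ℚ̄`. -/
noncomputable abbrev freyBar : WeierstrassCurve Qbar := P.freyCurve.map (algebraMap ℚ Qbar)

lemma freyBar_a₁ : (freyBar P).a₁ = 1 := by simp [freyBar, FreyPackage.freyCurve]
lemma freyBar_a₃ : (freyBar P).a₃ = 0 := by simp [freyBar, FreyPackage.freyCurve]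
lemma freyBar_a₆ : (freyBar P).a₆ = 0 := by simp [freyBar, FreyPackage.freyCurve]
lemma freyBar_a₂ : (freyBar P).a₂ = ((P.b : Qbar) ^ P.p - 1 - (P.a : Qbar) ^ P.p) / 4 := by
  simp [freyBar, FreyPackage.freyCurve]
lemma freyBar_a₄ : (freyBar P).a₄ = -((P.a : Qbar) ^ P.p) * ((P.b : Qbar) ^ P.p) / 16 := by
  simp [freyBar, FreyPackage.freyCurve]

lemma freyBar_int (A : ValuationSubring Qbar) :
    ∃ W₀ : WeierstrassCurve A, W₀.map (algebraMap A Qbar) = freyBar P := by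
  refine ⟨P.freyCurveInt.map (Int.castRingHom A), ?_⟩
  rw [freyBar, ← H6.freyCurveInt_map, WeierstrassCurve.map_map, WeierstrassCurve.map_map]
  congr 1

lemma a_ne : (P.a : Qbar) ≠ 0 := by exact_mod_cast P.ha0
lemma b_ne : (P.b : Qbar) ≠ 0 := by exact_mod_cast P.hb0
lemma c_ne : (P.c : Qbar) ≠ 0 := by exact_mod_cast P.hc0

lemma hFLTbar : (P.a : Qbar) ^ P.p + (P.b : Qbar) ^ P.p = (P.c : Qbar) ^ P.p := by
  exact_mod_cast P.hFLT

/-- Nodal at `(0,0)` -/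
lemma nodal_zero {A : ValuationSubring Qbar}
    (h4 : ((P.freyCurveInt.a₄ : ℤ) : Qbar) ∈ A.nonunits)
    (h2 : ((P.b ^ P.p - P.a ^ P.p : ℤ) : Qbar) ∉ A.nonunits) : Nodal A (freyBar P) 0 0 := by
  have e4 : ((P.freyCurveInt.a₄ : ℤ) : Qbar) = (freyBar P).a₄ := by
    have := congrArg (fun z : ℤ => (z : Qbar)) (H6.freyCurveInt_a₄_mul P)
    push_cast at this
    rw [freyBar_a₄, eq_div_iff (by norm_num)]
    linear_combination this
  refine ⟨freyBar_int P A, A.zero_mem, A.zero_mem, ?_, ?_, ?_, ?_, ?_⟩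
  · rw [Affine.equation_iff]
    change _ = _ + (freyBar P).a₆
    rw [freyBar_a₆]; ring
  · rw [freyBar_a₃]; ring
  · rw [freyBar_a₄]
    have ha := pow_ne_zero P.p (a_ne P)
    have hb := pow_ne_zero P.p (b_ne P)
    simp [ha, hb]
  · rw [e4] at h4
    simpa using h4
  · convert h2 using 1
    rw [WeierstrassCurve.b₂, freyBar_a₁, freyBar_a₂]
    push_cast
    ring

/-- Nodal at `(a^p/4, -a^p/8)` -/
lemma nodal_A {A : ValuationSubring Qbar} {ℓ : ℕ} (hℓ : ℓ.Prime) (hℓ2 : ℓ ≠ 2)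
    (hA : A.LiesOverPrime ℓ) (hc : (ℓ : ℤ) ∣ P.c) (ha : ¬ (ℓ : ℤ) ∣ P.a) :
    Nodal A (freyBar P) ((P.a : Qbar) ^ P.p / 4) (-(P.a : Qbar) ^ P.p / 8) := by
  have hF := hFLTbar P
  have hodd : ∀ k : ℕ, ¬ (ℓ : ℤ) ∣ ((2 ^ k : ℕ) : ℤ) := by
    intro k h
    have h1 : ℓ ∣ 2 ^ k := by exact_mod_cast h
    have h2 := hℓ.dvd_of_dvd_pow h1
    exact hℓ2 ((Nat.prime_dvd_prime_iff_eq hℓ Nat.prime_two).mp h2)
  have h4 : (4 : Qbar)⁻¹ ∈ A := by
    have := inv_intCast_mem hℓ hA (hodd 2)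
    simpa using this
  have h8 : (8 : Qbar)⁻¹ ∈ A := by
    have := inv_intCast_mem hℓ hA (hodd 3)
    norm_num at this
    simpa using this
  have h16 : (16 : Qbar)⁻¹ ∈ A := by
    have := inv_intCast_mem hℓ hA (hodd 4)
    norm_num at this
    simpa using this
  have hapow : (P.a : Qbar) ^ P.p ∈ A := pow_mem (intCast_mem P.a) _
  refine ⟨freyBar_int P A, ?_, ?_, ?_, ?_, ?_, ?_, ?_⟩
  · rw [div_eq_mul_inv]; exact mul_mem hapow h4
  · rw [div_eq_mul_inv]; exact mul_mem (neg_mem hapow) h8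
  · rw [Affine.equation_iff]
    change _ + (freyBar P).a₁ * _ * _ + (freyBar P).a₃ * _ =
      _ + (freyBar P).a₂ * _ + (freyBar P).a₄ * _ + (freyBar P).a₆
    rw [freyBar_a₁, freyBar_a₂, freyBar_a₃, freyBar_a₄, freyBar_a₆]
    ring
  · rw [freyBar_a₁, freyBar_a₃]; ring
  · rw [freyBar_a₁, freyBar_a₂, freyBar_a₄]
    have e : 3 * ((P.a : Qbar) ^ P.p / 4) ^ 2 +
        2 * (((P.b : Qbar) ^ P.p - 1 - (P.a : Qbar) ^ P.p) / 4) * ((P.a : Qbar) ^ P.p / 4) +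
        -((P.a : Qbar) ^ P.p) * ((P.b : Qbar) ^ P.p) / 16 - 1 * (-(P.a : Qbar) ^ P.p / 8) =
        (P.a : Qbar) ^ P.p * (P.c : Qbar) ^ P.p / 16 := by
      rw [← hF]; ring
    rw [e]
    exact div_ne_zero (mul_ne_zero (pow_ne_zero _ (a_ne P)) (pow_ne_zero _ (c_ne P)))
      (by norm_num)
  · rw [freyBar_a₁, freyBar_a₂, freyBar_a₄]
    have e : 3 * ((P.a : Qbar) ^ P.p / 4) ^ 2 +
        2 * (((P.b : Qbar) ^ P.p - 1 - (P.a : Qbar) ^ P.p) / 4) * ((P.a : Qbar) ^ P.p / 4) +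
        -((P.a : Qbar) ^ P.p) * ((P.b : Qbar) ^ P.p) / 16 - 1 * (-(P.a : Qbar) ^ P.p / 8) =
        ((P.a : Qbar) ^ P.p * (16 : Qbar)⁻¹) * ((P.c ^ P.p : ℤ) : Qbar) := by
      push_cast
      rw [← hF]; ring
    rw [e]
    exact mul_mem_nonunits (mul_mem hapow h16)
      (intCast_mem_nonunits hA (dvd_pow hc P.hp0))
  · have e : (freyBar P).b₂ + 12 * ((P.a : Qbar) ^ P.p / 4) = ((P.c ^ P.p + P.a ^ P.p : ℤ) : Qbar) := by
      rw [WeierstrassCurve.b₂, freyBar_a₁, freyBar_a₂]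
      push_cast
      rw [← hF]
      ring
    rw [e]
    apply intCast_notMem_nonunits hℓ hA
    intro h
    have h1 : (ℓ : ℤ) ∣ P.c ^ P.p := dvd_pow hc P.hp0
    have h2 : (ℓ : ℤ) ∣ P.a ^ P.p := (Int.dvd_add_right h1).mp h
    exact ha ((Nat.prime_iff_prime_int.mp hℓ).dvd_of_dvd_pow h2)

/-- The Frey curve `W⁄ℚ̄` used in the statements is `freyBar P`. -/
lemma smul_some {x y : Qbar} (σ : Qbar ≃ₐ[ℚ] Qbar)
    (h : (freyBar P).toAffine.Nonsingular x y) :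
    ∃ h' : (freyBar P).toAffine.Nonsingular (σ x) (σ y),
      (σ • (Affine.Point.some x y h : (P.freyCurve⁄Qbar).Point) : (P.freyCurve⁄Qbar).Point) =
        Affine.Point.some (σ x) (σ y) h' :=
  ⟨_, rfl⟩

lemma dvd_aux {ℓ : ℕ} (hℓ : ℓ.Prime) (h : (ℓ : ℤ) ∣ P.a * P.b * P.c) :
    ((ℓ : ℤ) ∣ P.a ∧ ¬ (ℓ : ℤ) ∣ P.b) ∨ ((ℓ : ℤ) ∣ P.b ∧ ¬ (ℓ : ℤ) ∣ P.a) ∨
      ((ℓ : ℤ) ∣ P.c ∧ ¬ (ℓ : ℤ) ∣ P.a) := by
  have hp := Nat.prime_iff_prime_int.mp hℓ
  have hn : ¬ (ℓ : ℤ) ∣ 1 := fun h1 => hp.not_isUnit (isUnit_of_dvd_one h1)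
  have hab : ¬ ((ℓ : ℤ) ∣ P.a ∧ (ℓ : ℤ) ∣ P.b) := fun ⟨h1, h2⟩ =>
    hn (P.hgcdab ▸ dvd_gcd h1 h2)
  have hac : ¬ ((ℓ : ℤ) ∣ P.a ∧ (ℓ : ℤ) ∣ P.c) := fun ⟨h1, h2⟩ =>
    hn (P.hgcdac ▸ dvd_gcd h1 h2)
  rcases hp.dvd_or_dvd h with h | h
  · rcases hp.dvd_or_dvd h with h | h <;> tauto
  · tauto

lemma InE1.notMem_of_eq {K : Type*} [Field K] {A : ValuationSubring K} {W : WeierstrassCurve K}
    {R : W.toAffine.Point} (hR : InE1 A R) {x y : K} {h : W.toAffine.Nonsingular x y}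
    (he : R = .some x y h) : x ∉ A := by
  rw [he] at hR; exact hR

/-- The local filtration `E₁ ≤ E₀ ≤ E(ℚ̄)` at a place `A`. -/
theorem local_groups {ℓ : ℕ} (hℓ : ℓ.Prime) {A : ValuationSubring Qbar}
    (hA : A.LiesOverPrime ℓ) :
    ∃ E0 : AddSubgroup (P.freyCurve⁄Qbar).Point,
      (∀ σ ∈ A.inertiaSubgroupIn ℚ, ∀ Q : (P.freyCurve⁄Qbar).Point, σ • Q - Q ∈ E0) ∧
      (∀ σ ∈ A.inertiaSubgroupIn ℚ, ∀ Q ∈ E0, ∀ x y h,
        (σ • Q - Q : (P.freyCurve⁄Qbar).Point) = .some x y h → x ∉ A) := by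
  have hnodal : ∀ x₀ y₀ : Qbar, Nodal A (freyBar P) x₀ y₀ →
      (∀ σ : Qbar ≃ₐ[ℚ] Qbar, σ x₀ = x₀) → (∀ σ : Qbar ≃ₐ[ℚ] Qbar, σ y₀ = y₀) →
      ∃ E0 : AddSubgroup (P.freyCurve⁄Qbar).Point,
      (∀ σ ∈ A.inertiaSubgroupIn ℚ, ∀ Q : (P.freyCurve⁄Qbar).Point, σ • Q - Q ∈ E0) ∧
      (∀ σ ∈ A.inertiaSubgroupIn ℚ, ∀ Q ∈ E0, ∀ x y h,
        (σ • Q - Q : (P.freyCurve⁄Qbar).Point) = .some x y h → x ∉ A) := by
    intro x₀ y₀ hN hx₀ hy₀
    have hA4 : ∀ σ : Qbar ≃ₐ[ℚ] Qbar, σ (nodA4 (freyBar P) x₀ y₀) = nodA4 (freyBar P) x₀ y₀ := by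
      intro σ
      rw [nodA4, freyBar_a₁, freyBar_a₂, freyBar_a₄]
      simp [hx₀ σ, hy₀ σ, map_ofNat]
    refine ⟨{ carrier := {Q | InE0 A x₀ Q}
              zero_mem' := by
                change InE0 A x₀ (0 : (freyBar P).toAffine.Point)
                trivial
              add_mem' := fun h1 h2 => InE0.add hN h1 h2
              neg_mem' := fun h1 => InE0.neg h1 }, ?_, ?_⟩
    · intro σ hσ Q
      have hin := isInertial_of_mem_inertia_Qbar hσ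
      cases Q with
      | zero =>
        change InE0 A x₀ ((0 : (P.freyCurve⁄Qbar).Point) - 0)
        rw [sub_zero]; trivial
      | some x y h =>
        obtain ⟨h', he⟩ := smul_some P σ h
        rw [he]
        have h3 := InE0.neg (hN.sub_inE0 hin (hx₀ σ) (hy₀ σ) (hA4 σ) h h')
        rw [neg_sub] at h3
        exact h3
    · intro σ hσ Q hQ x y h heq
      have hin := isInertial_of_mem_inertia_Qbar hσ
      cases Q with
      | zero =>
        change (0 : (P.freyCurve⁄Qbar).Point) - 0 = _ at heq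
        rw [sub_zero] at heq
        exact absurd heq.symm (Affine.Point.some_ne_zero h)
      | some x₁ y₁ h₁ =>
        obtain ⟨h', he⟩ := smul_some P σ h₁
        rw [he] at heq
        have h3 := hN.sub_inE1 hin h₁ h' hQ
        have h4 := InE1.neg h3
        rw [neg_sub] at h4
        exact InE1.notMem_of_eq h4 heq
  have hp := Nat.prime_iff_prime_int.mp hℓ
  by_cases hℓ2 : ℓ = 2
  · subst hℓ2
    refine hnodal 0 0 (nodal_zero P ?_ ?_) (fun σ => map_zero σ) (fun σ => map_zero σ)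
    · refine intCast_mem_nonunits hA ?_
      have h32 := H6.thirtyTwo_dvd_b_pow P
      have h16 := H6.freyCurveInt_a₄_mul P
      obtain ⟨m, hm⟩ := h32
      refine ⟨-(P.a ^ P.p) * m, ?_⟩
      have : 16 * P.freyCurveInt.a₄ = 16 * (2 * (-(P.a ^ P.p) * m)) := by
        rw [h16, hm]; ring
      push_cast
      linarith
    · refine intCast_notMem_nonunits hℓ hA ?_
      intro h
      have h32 := H6.thirtyTwo_dvd_b_pow P
      have h4 := H6.a_pow_mod4 P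
      have h2 : (2 : ℤ) ∣ P.b ^ P.p := dvd_trans (by norm_num) h32
      have h2' : (2 : ℤ) ∣ P.a ^ P.p + 1 := dvd_trans (by norm_num) h4
      push_cast at h
      omega
  · by_cases hgood : (ℓ : ℤ) ∣ P.a * P.b * P.c
    · have hodd : ¬ (ℓ : ℤ) ∣ 16 := by
        intro h
        have h1 : ℓ ∣ 2 ^ 4 := by exact_mod_cast h
        exact hℓ2 ((Nat.prime_dvd_prime_iff_eq hℓ Nat.prime_two).mp (hℓ.dvd_of_dvd_pow h1))
      have ha4 : (ℓ : ℤ) ∣ (P.a ^ P.p) * (P.b ^ P.p) → (ℓ : ℤ) ∣ P.freyCurveInt.a₄ := by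
        intro h
        have h16 := H6.freyCurveInt_a₄_mul P
        have h1 : (ℓ : ℤ) ∣ 16 * P.freyCurveInt.a₄ := by
          rw [h16, neg_mul]; exact (dvd_neg).mpr h
        exact (hp.dvd_or_dvd h1).resolve_left hodd
      rcases dvd_aux P hℓ hgood with ⟨h1, h2⟩ | ⟨h1, h2⟩ | ⟨h1, h2⟩
      · refine hnodal 0 0 (nodal_zero P ?_ ?_) (fun σ => map_zero σ) (fun σ => map_zero σ)
        · exact intCast_mem_nonunits hA (ha4 ((dvd_pow h1 P.hp0).mul_right _))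
        · refine intCast_notMem_nonunits hℓ hA ?_
          intro h
          have h3 := (Int.dvd_iff_dvd_of_dvd_sub h).mpr (dvd_pow h1 P.hp0)
          exact h2 (hp.dvd_of_dvd_pow h3)
      · refine hnodal 0 0 (nodal_zero P ?_ ?_) (fun σ => map_zero σ) (fun σ => map_zero σ)
        · exact intCast_mem_nonunits hA (ha4 ((dvd_pow h1 P.hp0).mul_left _))
        · refine intCast_notMem_nonunits hℓ hA ?_
          intro h
          have h3 := (Int.dvd_iff_dvd_of_dvd_sub h).mp (dvd_pow h1 P.hp0)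
          exact h2 (hp.dvd_of_dvd_pow h3)
      · refine hnodal _ _ (nodal_A P hℓ hℓ2 hA h1 h2) (fun σ => ?_) (fun σ => ?_)
        · simp [map_ofNat]
        · simp [map_ofNat]
    · refine ⟨⊤, fun _ _ _ => trivial, ?_⟩
      have hΔ : (freyBar P).Δ ∉ A.nonunits := by
        have e : (freyBar P).Δ = ((P.freyCurveInt.Δ : ℤ) : Qbar) := by
          rw [freyBar, ← H6.freyCurveInt_map, WeierstrassCurve.map_map, WeierstrassCurve.map_Δ]
          simp
        rw [e]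
        exact intCast_notMem_nonunits hℓ hA (fun h => hgood (H6.prime_dvd_abc_of_dvd_Δ P hℓ h))
      intro σ hσ Q _ x y h heq
      have hin := isInertial_of_mem_inertia_Qbar hσ
      cases Q with
      | zero =>
        change (0 : (P.freyCurve⁄Qbar).Point) - 0 = _ at heq
        rw [sub_zero] at heq
        exact absurd heq.symm (Affine.Point.some_ne_zero h)
      | some x₁ y₁ h₁ =>
        obtain ⟨h', he⟩ := smul_some P σ h₁
        rw [he] at heq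
        have h3 := good_sub_inE1 (freyBar_int P A) hΔ hin h₁ h'
        have h4 := InE1.neg h3
        rw [neg_sub] at h4
        exact InE1.notMem_of_eq h4 heq

/-- The `p`-torsion of the Frey curve. -/
abbrev FreyTors : Type := Submodule.torsionBy ℤ (P.freyCurve⁄Qbar).Point P.p

variable {P}

lemma coe_smul_tors (σ : Qbar ≃ₐ[ℚ] Qbar) (Q : FreyTors P) :
    ((σ • Q : FreyTors P) : (P.freyCurve⁄Qbar).Point) = σ • (Q : (P.freyCurve⁄Qbar).Point) := rfl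

/-- Case (I): if all nonzero points of the simple stable `N` are integral at `A` then the inertia
group of `A` acts trivially on `N`. -/
theorem case_I (N : Submodule (ZMod P.p) (FreyTors P)) (hstab : IsGaloisStable ℚ N)
    (hN1 : ∀ M : Submodule (ZMod P.p) (FreyTors P), M ≤ N → M = ⊥ ∨ M = N)
    {ℓ : ℕ} (hℓ : ℓ.Prime) {A : ValuationSubring Qbar} (hA : A.LiesOverPrime ℓ)
    (hI : ∀ Q ∈ N, ∀ x y h, (Q : (P.freyCurve⁄Qbar).Point) = .some x y h → x ∈ A)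
    (σ : Qbar ≃ₐ[ℚ] Qbar) (hσ : σ ∈ A.inertiaSubgroupIn ℚ) : ∀ Q ∈ N, σ • Q = Q := by
  obtain ⟨E0, h0, h1⟩ := local_groups P hℓ hA
  set E0p : Submodule (ZMod P.p) (FreyTors P) :=
    AddSubgroup.toZModSubmodule P.p (E0.comap (Submodule.subtype _).toAddMonoidHom) with hE0p
  have hmem : ∀ Q : FreyTors P, Q ∈ E0p ↔ (Q : (P.freyCurve⁄Qbar).Point) ∈ E0 := fun Q => Iff.rfl
  have hzero : ∀ R ∈ N, (∀ x y h, (R : (P.freyCurve⁄Qbar).Point) = .some x y h → x ∉ A) →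
      R = 0 := by
    intro R hR hx
    apply Subtype.ext
    rcases hR' : (R : (P.freyCurve⁄Qbar).Point) with _ | ⟨x, y, h⟩
    · rfl
    · exact absurd (hI R hR x y h hR') (hx x y h hR')
  intro Q hQ
  have hd : σ • Q - Q ∈ N := N.sub_mem (hstab σ Q hQ) hQ
  rw [← sub_eq_zero]
  rcases hN1 (N ⊓ E0p) inf_le_left with hbot | htop
  · have : σ • Q - Q ∈ N ⊓ E0p := ⟨hd, (hmem _).mpr (h0 σ hσ Q)⟩
    rw [hbot] at this
    simpa using this
  · have hQ0 : Q ∈ E0p := by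
      have : Q ∈ N ⊓ E0p := by rw [htop]; exact hQ
      exact this.2
    exact hzero _ hd (fun x y h he => h1 σ hσ Q ((hmem Q).mp hQ0) x y h he)

/-- Case (II): if all points outside the maximal stable `N` are integral at `A` then the inertia
group of `A` acts trivially on `E[p]/N`. -/
theorem case_II (N : Submodule (ZMod P.p) (FreyTors P)) (hstab : IsGaloisStable ℚ N)
    (hN2 : ∀ M : Submodule (ZMod P.p) (FreyTors P), N ≤ M → M = N ∨ M = ⊤)
    {ℓ : ℕ} (hℓ : ℓ.Prime) {A : ValuationSubring Qbar} (hA : A.LiesOverPrime ℓ)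
    (hII : ∀ Q, Q ∉ N → ∀ x y h, (Q : (P.freyCurve⁄Qbar).Point) = .some x y h → x ∈ A)
    (σ : Qbar ≃ₐ[ℚ] Qbar) (hσ : σ ∈ A.inertiaSubgroupIn ℚ) : ∀ Q, σ • Q - Q ∈ N := by
  obtain ⟨E0, h0, h1⟩ := local_groups P hℓ hA
  set E0p : Submodule (ZMod P.p) (FreyTors P) :=
    AddSubgroup.toZModSubmodule P.p (E0.comap (Submodule.subtype _).toAddMonoidHom) with hE0p
  have hmem : ∀ Q : FreyTors P, Q ∈ E0p ↔ (Q : (P.freyCurve⁄Qbar).Point) ∈ E0 := fun Q => Iff.rfl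
  have hmemN : ∀ R : FreyTors P,
      (∀ x y h, (R : (P.freyCurve⁄Qbar).Point) = .some x y h → x ∉ A) → R ∈ N := by
    intro R hx
    by_contra hR
    have hR0 : R ≠ 0 := by rintro rfl; exact hR N.zero_mem
    rcases hR' : (R : (P.freyCurve⁄Qbar).Point) with _ | ⟨x, y, h⟩
    · exact hR0 (Subtype.ext hR')
    · exact hx x y h hR' (hII R hR x y h hR')
  intro Q
  rcases hN2 (N ⊔ E0p) le_sup_left with hN | htop
  · have : σ • Q - Q ∈ E0p := (hmem _).mpr (h0 σ hσ Q)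
    have h2 : E0p ≤ N := by rw [← hN]; exact le_sup_right
    exact h2 this
  · have hQ : Q ∈ N ⊔ E0p := by rw [htop]; trivial
    obtain ⟨n, hn, e, he, rfl⟩ := Submodule.mem_sup.mp hQ
    have e1 : σ • (n + e) - (n + e) = (σ • n - n) + (σ • e - e) := by
      rw [smul_add]; abel
    rw [e1]
    refine N.add_mem (N.sub_mem (hstab σ n hn) hn) (hmemN _ ?_)
    exact fun x y h heq => h1 σ hσ e ((hmem e).mp he) x y h heq

end Fermat.Agent.H73
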