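import Fermat.Agent.H13EC7
import Fermat.Agent.H13EC8
import Fermat.Agent.H59RedGal
import Fermat.Agent.H73Frey

set_option autoImplicit false

/-!
# Reader's guide: elliptic curves II (local theory)

Every theorem of this file is a citation of the library (at most three lines), with the statement written
out in full; no other module imports it.  Companions: `GuideCurves`, `GuideNode`, `GuideNodeSteps`,
`GuideCurvesTate`, `GuideFrey`.

**Section 1: primes of multiplicative reduction.**  Only the results: inertia is unipotent on `W[n]`, `W[p]`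
is unramified if and only if `p ∣ v_q(Δ)`, and in residue characteristic `p` there is the subgroup predicted
by the Tate curve.  No Tate curve, no Néron model and no completion is used.  The method (centre of the node,
components of points) is explained in `GuideNode` and `GuideNodeSteps` (helper13).

**Section 2: kernel of reduction and nodes over an arbitrary valuation ring** (text: helper73).  The input of
S13: an independent and more elementary analysis of a node which is a point of order two, over an arbitrary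
valuation ring of an arbitrary field, in any residue characteristic (also 2 and `p`).  Everything is read off
from one symmetric relation between `x(P)`, `x(Q)`, `x(P + Q)`.  It gives the local filtration of the Frey
curve (`GuideFrey`); `x_relation` and `kernel_of_reduction_add` are also used for the finite flat models
(`GuideCurvesTate`).

**Reading order** of the modules: `H13NodeVal` ... `H13EC8` (see `GuideNode`); `H73SymRel`, `H73Local`,
`H73Inertia`, `H73Frey`.

**Conventions.**  A *place* of `Q̄` is a valuation subring `A`; `A.LiesOverPrime q` means that `q` is a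
nonunit of `A`, `A.inertiaSubgroupIn ℚ` is the inertia group, `A.decompositionSubgroup ℚ` the decomposition
group.  The line "Closures: ..." at the end of a docstring names all statements SNN whose proof term depends
on the library theorem cited (computed by a traversal of the proof terms of the 60 statements).

**Prose**: NOTES.md, Appendix A: NOTES-EC-NODE (helper13), NOTES-S13-LOCAL (helper73).
-/

namespace Fermat.Agent.Guide.CurvesLocal

open WeierstrassCurve WeierstrassCurve.Affine WeierstrassCurve.Affine.Point IsLocalRing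

/-- the field of algebraic numbers -/
local notation "Qbar" => AlgebraicClosure ℚ
/-- its Galois group over `ℚ` -/
local notation "GQ" => AlgebraicClosure ℚ ≃ₐ[ℚ] AlgebraicClosure ℚ

/-! ## 1. Primes of multiplicative reduction

In this section `q` divides `Δ(W) ≠ 0` but not `c₄(W)`: the reduction at `q` has a node. -/

/-- **The centre of the node.** Over the valuation ring `A` the Weierstrass polynomial has a critical point
`(x₀, y₀)`; `α ≠ β` (modulo the maximal ideal) are the slopes of the two tangents, and the equation becomes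
`((y - y₀) - α (x - x₀)) ((y - y₀) - β (x - x₀)) = (x - x₀)³ + g` with `g` in the maximal ideal. For a point
near the node the value of `(y - y₀) - α (x - x₀)`, modulo powers of the value of `g`, is its *component*;
components are additive, and trivial exactly for the points with nonsingular reduction (`H13NodeComp`,
`H13NodeRed`). Modules `H13NodeExists`, `H13EC6`.
Closures: S01, S03, S04, S06, S38-S40, S43-S46, S50, S58-S60. -/
theorem exists_node {K : Type*} [Field K] [IsAlgClosed K] [CharZero K] {W : WeierstrassCurve ℤ}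
    {q : ℕ} (hq : q.Prime) (hbad : (q : ℤ) ∣ W.Δ) (hΔ : W.Δ ≠ 0) (hc : ¬ (q : ℤ) ∣ W.c₄)
    {A : ValuationSubring K} (hA : A.LiesOverPrime q) :
    ∃ x₀ y₀ α β g : A, g ∈ IsLocalRing.maximalIdeal A ∧ g ≠ 0 ∧ IsUnit (α - β) ∧
      ∀ x y : K, (W.map (Int.castRingHom K)).toAffine.Equation x y →
        ((y - y₀) - α * (x - x₀)) * ((y - y₀) - β * (x - x₀)) = (x - x₀) ^ 3 + g := by
  obtain ⟨x₀, y₀, α, β, g, hN⟩ := H13.exists_goodNode (K := K) hq hbad hΔ hc hA
  exact ⟨x₀, y₀, α, β, g, hN.g_mem, hN.g_ne, hN.unit, fun x y h => (hN.nd' rfl).st h⟩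

/-- **Inertia acts unipotently.** `W` an integral Weierstrass equation, `q` a prime of multiplicative
reduction, `n` prime to `q`, `σ` in the inertia group of a place above `q`: `(σ - 1)² = 0` on `W[n]`. Proof:
`σ P - P` has nonsingular reduction because `σ P` and `P` have the same component, and an `n`-torsion point
with nonsingular reduction is fixed by inertia. Module `H13EC6` (valid for all primes `q`, also 2 and 3).
Closures: S01, S03, S04, S06, S38, S43, S45, S46, S50, S58-S60. -/
theorem inertia_unipotent {W : WeierstrassCurve ℤ} {q n : ℕ} (hq : q.Prime)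
    (hbad : (q : ℤ) ∣ W.Δ) (hΔ : W.Δ ≠ 0) (hc : ¬ (q : ℤ) ∣ W.c₄) (hqn : ¬ q ∣ n)
    (A : ValuationSubring Qbar) (hA : A.LiesOverPrime q) (σ : GQ)
    (hσ : σ ∈ A.inertiaSubgroupIn ℚ)
    (P : Submodule.torsionBy ℤ ((W.map (Int.castRingHom ℚ))⁄Qbar).Point (n : ℤ)) :
    σ • (σ • P - P) = σ • P - P :=
  H13.unipotent_of_multiplicative hq hbad hΔ hc hqn A hA σ hσ P

/-- Inertia moves the radicals of `q`: not every inertia element above `q` fixes every `p`-th root of `q`
(`p ≥ 2`). Otherwise the splitting field of `X^p - q` would be unramified at `q`, but `q` is a `p`-th power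
in it. Module `H13Tame`.
Closures: S01, S03, S43, S45. -/
theorem inertia_moves_root {q p : ℕ} (hq : q.Prime) (hp : 2 ≤ p) :
    ¬ ∀ A : ValuationSubring Qbar, A.LiesOverPrime q →
      ∀ σ ∈ A.inertiaSubgroupIn ℚ, ∀ π : Qbar, π ^ p = q → σ π = π :=
  fun h => H13.not_forall_inertia_fix hq hp h

/-- **`W[p]` is unramified at the multiplicative prime `q ≠ p` if and only if `p ∣ v_q(Δ)`.** If
`p ∣ v_q(Δ)`, the component of a `p`-torsion point is an integral power of `|q|` and equality of leading
coefficients (`H13NodeRed`) gives `σ P = P`. Otherwise there is a `p`-torsion point near the node, with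
component `|q|^(j/p)`, `p` not dividing `j`; if inertia fixed such points it would fix the `p`-th roots of
`q`, against `inertia_moves_root`. For the Frey curve and `q ≠ 2, p` the condition is always satisfied.
Module `H13EC7`; used in S43, S45.
Closures: S01, S03, S43, S45. -/
theorem unramified_iff {W : WeierstrassCurve ℤ} {q p : ℕ} (hq : q.Prime) (hp : p.Prime)
    (hbad : (q : ℤ) ∣ W.Δ) (hΔ : W.Δ ≠ 0) (hc : ¬ (q : ℤ) ∣ W.c₄) (hqp : q ≠ p) :
    (∀ A : ValuationSubring Qbar, A.LiesOverPrime q → ∀ σ ∈ A.inertiaSubgroupIn ℚ,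
      ∀ P : Submodule.torsionBy ℤ ((W.map (Int.castRingHom ℚ))⁄Qbar).Point (p : ℤ),
        σ • P = P) ↔ p ∣ padicValInt q W.Δ :=
  H13.unramified_iff hq hp hbad hΔ hc hqp

/-- **The canonical subgroup in residue characteristic `p`.** Let `p` be multiplicative and `A` a place
above `p`. There is a `p`-divisible group `D` of points with `0 ≠ D[p] ≠ W[p]` (in the proof: the kernel of
reduction at `A`; for the Tate curve: the image of the units congruent to 1), stable under the decomposition
group, which acts on `W[p^∞]/D[p^∞]` by a sign; inertia acts trivially on this quotient. Module `H13EC8`.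
Closures: S01, S03, S04, S06, S38, S45, S46, S50, S59, S60. -/
theorem exists_divisible_subgroup {W : WeierstrassCurve ℤ} {p : ℕ} (hp : p.Prime)
    (hbad : (p : ℤ) ∣ W.Δ) (hΔ : W.Δ ≠ 0) (hc : ¬ (p : ℤ) ∣ W.c₄)
    (A : ValuationSubring Qbar) (hA : A.LiesOverPrime p) :
    ∃ D : AddSubgroup ((W.map (Int.castRingHom ℚ))⁄Qbar).Point,
      (∀ x ∈ D, ∃ y ∈ D, p • y = x) ∧ (∃ x ∈ D, x ≠ 0 ∧ p • x = 0) ∧
      (∃ y, p • y = 0 ∧ y ∉ D) ∧
      (∀ σ ∈ A.decompositionSubgroup ℚ, (∀ x ∈ D, σ • x ∈ D) ∧
        ((∀ (n : ℕ) x, p ^ n • x = 0 → σ • x - x ∈ D) ∨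
          (∀ (n : ℕ) x, p ^ n • x = 0 → σ • x + x ∈ D))) ∧
      (∀ σ ∈ A.inertiaSubgroupIn ℚ, ∀ (n : ℕ) x, p ^ n • x = 0 → σ • x - x ∈ D) :=
  H13.exists_divisible_subgroup hp hbad hΔ hc A hA

/-! ## 2. A node at a point of order two, over an arbitrary valuation ring -/

/-- **The relation between `x(P)`, `x(Q)` and `x(P + Q)`** on a Weierstrass curve over a field. It is
symmetric in the three coordinates; the only input is that `P`, `Q`, `-(P + Q)` lie on a line. All local
statements below are read off from it. Module `H73SymRel`.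
Closures: S01, S03, S04, S06, S09, S13, S38, S45, S46, S50, S59, S60. -/
theorem x_relation {F : Type*} [Field F] [DecidableEq F] {W : WeierstrassCurve F}
    {x₁ y₁ x₂ y₂ x₃ y₃ : F} {h₁ : W.toAffine.Nonsingular x₁ y₁} {h₂ : W.toAffine.Nonsingular x₂ y₂}
    {h₃ : W.toAffine.Nonsingular x₃ y₃}
    (h : Point.some x₁ y₁ h₁ + Point.some x₂ y₂ h₂ = Point.some x₃ y₃ h₃) :
    (x₁ * x₂) ^ 2 + (x₂ * x₃) ^ 2 + (x₃ * x₁) ^ 2 - 2 * x₁ * x₂ * x₃ * (x₁ + x₂ + x₃)
      - W.b₂ * x₁ * x₂ * x₃ - W.b₄ * (x₁ * x₂ + x₂ * x₃ + x₃ * x₁) - W.b₆ * (x₁ + x₂ + x₃)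
      - W.b₈ = 0 :=
  H73.symRel_add h

/-- *Vocabulary.* `H73.InE1 A P` ("`P` lies in the kernel of reduction at the valuation ring `A`"): `P = 0`
or `x(P)` is not integral at `A`. `H73.InE0 A x₀ P` ("`P` has nonsingular reduction", if the reduction of
the curve has its only singular point over `x₀`): `P = 0` or `x(P) - x₀` is not in the maximal ideal. -/
theorem inE_iff {K : Type*} [Field K] [DecidableEq K] (A : ValuationSubring K)
    {W : WeierstrassCurve K} (x₀ : K) {x y : K} (h : W.toAffine.Nonsingular x y) :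
    H73.InE1 A (0 : W.toAffine.Point) ∧ (H73.InE1 A (Point.some x y h) ↔ x ∉ A) ∧
      H73.InE0 A x₀ (0 : W.toAffine.Point) ∧
      (H73.InE0 A x₀ (Point.some x y h) ↔ x - x₀ ∉ A.nonunits) :=
  ⟨trivial, Iff.rfl, trivial, Iff.rfl⟩

/-- **The kernel of reduction is a subgroup**, for every valuation ring `A` of every field and every
Weierstrass curve with coefficients in `A` (no hypothesis on the reduction). From `x_relation` modulo the
maximal ideal, divided by `x(P)² x(Q)²`. Module `H73Local`.
Closures: S01, S03, S04, S06, S09, S13, S38, S45, S46, S50, S59, S60. -/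
theorem kernel_of_reduction_add {K : Type*} [Field K] [DecidableEq K] {A : ValuationSubring K}
    {W : WeierstrassCurve K} (hW : ∃ W₀ : WeierstrassCurve A, W₀.map (algebraMap A K) = W)
    {P Q : W.toAffine.Point} (hP : H73.InE1 A P) (hQ : H73.InE1 A Q) :
    H73.InE1 A (P + Q) ∧ H73.InE1 A (-P) :=
  ⟨hP.add hW hQ, hP.neg⟩

/-- *Nodes at a point of order two.* `H73.Nodal A W x₀ y₀`: `W` has coefficients in `A`, `(x₀, y₀)` is an
integral point of order two (`2 y₀ + a₁ x₀ + a₃ = 0`) at which the other partial derivative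
`a₄' = 3 x₀² + 2 a₂ x₀ + a₄ - a₁ y₀` is nonzero but lies in the maximal ideal, and the discriminant
`b₂ + 12 x₀` of the tangent directions is a unit: the reduction has a node at the reduction of `(x₀, y₀)`.
Module `H73Local`.
Closures: S01, S03, S09, S13. -/
theorem nodal_iff {K : Type*} [Field K] (A : ValuationSubring K) (W : WeierstrassCurve K)
    (x₀ y₀ : K) :
    H73.Nodal A W x₀ y₀ ↔ (∃ W₀ : WeierstrassCurve A, W₀.map (algebraMap A K) = W) ∧ x₀ ∈ A ∧
      y₀ ∈ A ∧ W.toAffine.Equation x₀ y₀ ∧ 2 * y₀ + W.a₁ * x₀ + W.a₃ = 0 ∧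
      3 * x₀ ^ 2 + 2 * W.a₂ * x₀ + W.a₄ - W.a₁ * y₀ ≠ 0 ∧
      3 * x₀ ^ 2 + 2 * W.a₂ * x₀ + W.a₄ - W.a₁ * y₀ ∈ A.nonunits ∧ W.b₂ + 12 * x₀ ∉ A.nonunits :=
  ⟨fun h => ⟨h.1, h.2, h.3, h.4, h.5, h.6, h.7, h.8⟩,
    fun ⟨h1, h2, h3, h4, h5, h6, h7, h8⟩ => ⟨h1, h2, h3, h4, h5, h6, h7, h8⟩⟩

/-- **The points with nonsingular reduction form a subgroup** (nodal reduction). Module `H73Local`.
Closures: S01, S03, S09, S13. -/
theorem nonsingular_reduction_add {K : Type*} [Field K] [DecidableEq K] {A : ValuationSubring K}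
    {W : WeierstrassCurve K} {x₀ y₀ : K} (hN : H73.Nodal A W x₀ y₀)
    {P Q : W.toAffine.Point} (hP : H73.InE0 A x₀ P) (hQ : H73.InE0 A x₀ Q) :
    H73.InE0 A x₀ (P + Q) ∧ H73.InE0 A x₀ (-P) :=
  ⟨hP.add hN hQ, hP.neg⟩

/-- **Two points far inside the node have their sum outside the node**: if `x(P) - x₀` and `x(Q) - x₀` are
both divisible by `a₄'`, then `P + Q` has nonsingular reduction. This is all that is needed of the group of
components for `sub_mem_nonsingular_of_nodal`, over a valuation ring which is not discrete and without the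
Tate curve. Module `H73Local`.
Closures: S01, S03, S09, S13. -/
theorem sum_of_middle_points {K : Type*} [Field K] [DecidableEq K] {A : ValuationSubring K}
    {W : WeierstrassCurve K} {x₀ y₀ : K} (hN : H73.Nodal A W x₀ y₀)
    {x₁ y₁ x₂ y₂ : K} (h₁ : W.toAffine.Nonsingular x₁ y₁) (h₂ : W.toAffine.Nonsingular x₂ y₂)
    (hx₁ : ∃ a ∈ A, x₁ - x₀ = (3 * x₀ ^ 2 + 2 * W.a₂ * x₀ + W.a₄ - W.a₁ * y₀) * a)
    (hx₂ : ∃ a ∈ A, x₂ - x₀ = (3 * x₀ ^ 2 + 2 * W.a₂ * x₀ + W.a₄ - W.a₁ * y₀) * a) :
    H73.InE0 A x₀ (Point.some x₁ y₁ h₁ + Point.some x₂ y₂ h₂) :=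
  H73.inE0_add_of_middle hN h₁ h₂ hx₁ hx₂

/-- *Inertial endomorphisms.* `H73.IsInertial A σ`: `σ` moves every element of `A` inside its residue class
and multiplies every `z` by an element of `A`. Module `H73Local`.
Closures: S01, S03, S09, S13. -/
theorem isInertial_iff {K : Type*} [Field K] [DecidableEq K] (A : ValuationSubring K)
    (σ : K →+* K) :
    H73.IsInertial A σ ↔ (∀ z, σ z / z ∈ A) ∧ ∀ a ∈ A, σ a - a ∈ A.nonunits :=
  ⟨fun h => ⟨h.1, h.2⟩, fun h => ⟨h.1, h.2⟩⟩

/-- **Inertia is inertial**: every element of the inertia group of a place of `Q̄` has the property of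
`isInertial_iff`. Uses only that `Q̄` is algebraic over `ℚ`. Module `H73Inertia`.
Closures: S01, S03, S09, S13. -/
theorem isInertial_of_mem_inertia {A : ValuationSubring Qbar} {σ : GQ}
    (hσ : σ ∈ A.inertiaSubgroupIn ℚ) : H73.IsInertial A (σ : Qbar →+* Qbar) :=
  H73.isInertial_of_mem_inertia_Qbar hσ

/-- **Good reduction**: for inertial `σ` the point `P - σ P` lies in the kernel of reduction, for every `P`.
Module `H73Local`.
Closures: S01, S03, S09, S13. -/
theorem sub_mem_kernel_of_good {K : Type*} [Field K] [DecidableEq K] {A : ValuationSubring K}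
    {σ : K →+* K} {W : WeierstrassCurve K}
    (hW : ∃ W₀ : WeierstrassCurve A, W₀.map (algebraMap A K) = W) (hΔ : W.Δ ∉ A.nonunits)
    (hσ : H73.IsInertial A σ) {x y : K} (h : W.toAffine.Nonsingular x y)
    (h' : W.toAffine.Nonsingular (σ x) (σ y)) :
    H73.InE1 A (Point.some x y h - Point.some (σ x) (σ y) h') :=
  H73.good_sub_inE1 hW hΔ hσ h h'

/-- **Nodal reduction, first step**: `P - σ P` has nonsingular reduction for EVERY `P`, if `σ` is inertial
and fixes the node `(x₀, y₀)` and `a₄'`. Module `H73Local`.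
Closures: S01, S03, S09, S13. -/
theorem sub_mem_nonsingular_of_nodal {K : Type*} [Field K] [DecidableEq K]
    {A : ValuationSubring K} {σ : K →+* K} {W : WeierstrassCurve K} {x₀ y₀ : K}
    (hN : H73.Nodal A W x₀ y₀) (hσ : H73.IsInertial A σ) (hx₀ : σ x₀ = x₀) (hy₀ : σ y₀ = y₀)
    (hA4 : σ (3 * x₀ ^ 2 + 2 * W.a₂ * x₀ + W.a₄ - W.a₁ * y₀) =
      3 * x₀ ^ 2 + 2 * W.a₂ * x₀ + W.a₄ - W.a₁ * y₀)
    {x y : K} (h : W.toAffine.Nonsingular x y) (h' : W.toAffine.Nonsingular (σ x) (σ y)) :
    H73.InE0 A x₀ (Point.some x y h - Point.some (σ x) (σ y) h') :=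
  hN.sub_inE0 hσ hx₀ hy₀ hA4 h h'

/-- **Nodal reduction, second step**: if `P` has nonsingular reduction then `P - σ P` lies in the kernel of
reduction. Hence inertia acts unipotently of length two on torsion prime to the residue characteristic.
Module `H73Local`.
Closures: S01, S03, S09, S13. -/
theorem sub_mem_kernel_of_nodal {K : Type*} [Field K] [DecidableEq K] {A : ValuationSubring K}
    {σ : K →+* K} {W : WeierstrassCurve K} {x₀ y₀ : K} (hN : H73.Nodal A W x₀ y₀)
    (hσ : H73.IsInertial A σ) {x y : K} (h : W.toAffine.Nonsingular x y)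
    (h' : W.toAffine.Nonsingular (σ x) (σ y)) (hP : H73.InE0 A x₀ (Point.some x y h)) :
    H73.InE1 A (Point.some x y h - Point.some (σ x) (σ y) h') :=
  hN.sub_inE1 hσ h h' hP

end Fermat.Agent.Guide.CurvesLocal
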