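import Fermat.Agent.H62Height

/-!
# The function field of an elliptic curve as a model of `GenData`
-/

set_option autoImplicit false

namespace Fermat.Agent.H62

open Polynomial WeierstrassCurve WeierstrassCurve.Affine

universe u v w

variable {K : Type u} [Field K] (W : WeierstrassCurve K)

/-- The Weierstrass polynomial over `K(t)`. -/
noncomputable def gPoly : (FractionRing K[X])[X] :=
  (W.toAffine.polynomial).map (algebraMap K[X] (FractionRing K[X]))

lemma gPoly_monic : (gPoly W).Monic := (monic_polynomial (W := W.toAffine)).map _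

lemma gPoly_natDegree : (gPoly W).natDegree = 2 := by
  rw [gPoly, (monic_polynomial (W := W.toAffine)).natDegree_map, natDegree_polynomial]

instance gPoly_irreducible : Fact (Irreducible (gPoly W)) :=
  ⟨((monic_polynomial (W := W.toAffine)).irreducible_iff_irreducible_map_fraction_map
    (K := FractionRing K[X])).mp irreducible_polynomial⟩

/-- The function field of `W`. -/
abbrev FF : Type u := AdjoinRoot (gPoly W)

namespace FF

/-- the embedding of `K(t)`. -/
noncomputable def i : FractionRing K[X] →ₐ[K] FF W := IsScalarTower.toAlgHom K _ _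

/-- the coordinate function `x` -/
noncomputable def t : FF W := i W (algebraMap K[X] (FractionRing K[X]) X)

/-- the coordinate function `y` -/
noncomputable def y : FF W := AdjoinRoot.root (gPoly W)

lemma aeval_t (A : K[X]) : aeval (t W) A = i W (algebraMap K[X] (FractionRing K[X]) A) := by
  rw [t, aeval_algHom_apply]
  congr 1
  rw [aeval_algebraMap_apply, aeval_X_left_apply]

lemma aeval_t_injective : Function.Injective (aeval (t W) : K[X] →ₐ[K] FF W) := by
  intro A B h
  rw [aeval_t, aeval_t] at h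
  exact IsFractionRing.injective K[X] (FractionRing K[X]) ((i W).injective h)

/-- evaluation of the Weierstrass polynomial -/
lemma eval₂_gPoly {F' : Type*} [Field F'] [Algebra K F'] (j : FractionRing K[X] →ₐ[K] F')
    (y' : F') : eval₂ (j : FractionRing K[X] →+* F') y' (gPoly W) =
      y' ^ 2 + (algebraMap K F' W.a₁ * j (algebraMap K[X] _ X) + algebraMap K F' W.a₃) * y' -
        (j (algebraMap K[X] _ X) ^ 3 + algebraMap K F' W.a₂ * j (algebraMap K[X] _ X) ^ 2 +
          algebraMap K F' W.a₄ * j (algebraMap K[X] _ X) + algebraMap K F' W.a₆) := by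
  have hC : ∀ a : K, j (algebraMap K[X] (FractionRing K[X]) (C a)) = algebraMap K F' a := by
    intro a
    rw [← Polynomial.algebraMap_eq, ← IsScalarTower.algebraMap_apply]
    exact j.commutes a
  rw [gPoly, Affine.polynomial, eval₂_map]
  simp only [eval₂_add, eval₂_sub, eval₂_mul, eval₂_pow, eval₂_X, eval₂_C, RingHom.comp_apply,
    RingHom.coe_coe, map_add, map_mul, map_pow, hC]

lemma equation : (W⁄(FF W)).Equation (t W) (y W) := by
  have h1 := eval₂_gPoly W (i W) (y W)
  have h2 : eval₂ (i W : FractionRing K[X] →+* FF W) (y W) (gPoly W) = 0 :=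
    AdjoinRoot.eval₂_root (gPoly W)
  rw [h2] at h1
  rw [equation_iff]
  change y W ^ 2 + algebraMap K (FF W) W.a₁ * t W * y W + algebraMap K (FF W) W.a₃ * y W =
    t W ^ 3 + algebraMap K (FF W) W.a₂ * t W ^ 2 + algebraMap K (FF W) W.a₄ * t W
      + algebraMap K (FF W) W.a₆
  change 0 = y W ^ 2 + (algebraMap K (FF W) W.a₁ * t W + algebraMap K (FF W) W.a₃) * y W -
    (t W ^ 3 + algebraMap K (FF W) W.a₂ * t W ^ 2 + algebraMap K (FF W) W.a₄ * t W
      + algebraMap K (FF W) W.a₆) at h1
  linear_combination -h1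

/-- The universal property. -/
theorem exists_lift {F' : Type*} [Field F'] [Algebra K F'] (t' y' : F')
    (ht : Function.Injective (aeval t' : K[X] →ₐ[K] F')) (h : (W⁄F').Equation t' y') :
    ∃ ψ : FF W →ₐ[K] F', ψ (t W) = t' ∧ ψ (y W) = y' := by
  let j : FractionRing K[X] →ₐ[K] F' := IsFractionRing.liftAlgHom ht
  have hj : ∀ A : K[X], j (algebraMap K[X] _ A) = aeval t' A := fun A =>
    IsFractionRing.lift_algebraMap (g := (aeval t' : K[X] →ₐ[K] F').toRingHom) ht A
  have h0 : eval₂ (j : FractionRing K[X] →+* F') y' (gPoly W) = 0 := by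
    rw [eval₂_gPoly, hj, aeval_X]
    have := (equation_iff ..).mp h
    change y' ^ 2 + algebraMap K F' W.a₁ * t' * y' + algebraMap K F' W.a₃ * y' =
      t' ^ 3 + algebraMap K F' W.a₂ * t' ^ 2 + algebraMap K F' W.a₄ * t'
        + algebraMap K F' W.a₆ at this
    linear_combination this
  refine ⟨AdjoinRoot.liftAlgHom (gPoly W) j y' h0, ?_, ?_⟩
  · have : AdjoinRoot.liftAlgHom (gPoly W) j y' h0 (t W) = j (algebraMap K[X] _ X) :=
      AdjoinRoot.lift_of h0
    rw [this, hj, aeval_X]
  · exact AdjoinRoot.lift_root h0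

lemma equation_neg : (W⁄(FF W)).Equation (t W) ((W⁄(FF W)).negY (t W) (y W)) :=
  (Affine.equation_neg ..).mpr (equation W)

lemma eval₂_neg : eval₂ ((Algebra.ofId (FractionRing K[X]) (FF W) :
    FractionRing K[X] →ₐ[FractionRing K[X]] FF W) : FractionRing K[X] →+* FF W)
      ((W⁄(FF W)).negY (t W) (y W)) (gPoly W) = 0 := by
  have h1 := eval₂_gPoly W (i W) ((W⁄(FF W)).negY (t W) (y W))
  have h2 := (equation_iff ..).mp (equation_neg W)
  refine Eq.trans h1 ?_
  rw [← t]
  simp only [Affine.baseChange_a₁, Affine.baseChange_a₂, Affine.baseChange_a₃,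
    Affine.baseChange_a₄, Affine.baseChange_a₆] at h2
  linear_combination h2

/-- the involution over `K(t)`. -/
noncomputable def σ' : FF W →ₐ[FractionRing K[X]] FF W :=
  AdjoinRoot.liftAlgHom (gPoly W) (Algebra.ofId (FractionRing K[X]) (FF W))
    ((W⁄(FF W)).negY (t W) (y W)) (eval₂_neg W)

lemma σ'_of (a : FractionRing K[X]) : σ' W (i W a) = i W a := (σ' W).commutes a

lemma σ'_y : σ' W (y W) = (W⁄(FF W)).negY (t W) (y W) := AdjoinRoot.lift_root (eval₂_neg W)

lemma exists_repr (z : FF W) : ∃ a b : FractionRing K[X], z = i W a + i W b * y W := by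
  obtain ⟨p, rfl⟩ := AdjoinRoot.mk_surjective z
  have h1 := AdjoinRoot.mk_leftInverse (gPoly_monic W) (AdjoinRoot.mk (gPoly W) p)
  rw [AdjoinRoot.modByMonicHom_mk] at h1
  have h2 : (p %ₘ gPoly W).natDegree < 2 := by
    rw [← gPoly_natDegree W]
    apply natDegree_modByMonic_lt _ (gPoly_monic W)
    intro h0
    have := gPoly_natDegree W
    rw [h0, natDegree_one] at this
    omega
  have h3 : p %ₘ gPoly W = C ((p %ₘ gPoly W).coeff 0) + C ((p %ₘ gPoly W).coeff 1) * X := by
    conv_lhs => rw [(p %ₘ gPoly W).as_sum_range' 2 h2]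
    rw [Finset.sum_range_succ, Finset.sum_range_one, monomial_zero_left, ← C_mul_X_eq_monomial]
  refine ⟨(p %ₘ gPoly W).coeff 0, (p %ₘ gPoly W).coeff 1, ?_⟩
  rw [← h1, h3, map_add, map_mul, ← h3]
  rfl

lemma repr_eq_zero {a b : FractionRing K[X]} (h : i W a + i W b * y W = 0) : a = 0 ∧ b = 0 := by
  have h1 : AdjoinRoot.mk (gPoly W) (C a + C b * X) = 0 := by
    rw [map_add, map_mul]
    exact h
  by_contra hcon
  have h2 : (C a + C b * X : (FractionRing K[X])[X]) ≠ 0 := by
    intro h0
    apply hcon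
    constructor
    · simpa using congrArg (coeff · 0) h0
    · simpa using congrArg (coeff · 1) h0
  refine AdjoinRoot.mk_ne_zero_of_natDegree_lt (gPoly_monic W) h2 ?_ h1
  rw [gPoly_natDegree]
  refine Nat.lt_succ_of_le (natDegree_add_le_of_degree_le ?_ ?_)
  · rw [natDegree_C]; omega
  · exact (natDegree_C_mul_le _ _).trans natDegree_X_le

lemma fixed [W.IsElliptic] (z : FF W) (hz : σ' W z = z) :
    ∃ A B : K[X], B ≠ 0 ∧ z * aeval (t W) B = aeval (t W) A := by
  obtain ⟨a, b, rfl⟩ := exists_repr W z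
  rw [map_add, map_mul, σ'_of, σ'_of, σ'_y, negY] at hz
  have h1 : i W b * (i W (algebraMap K[X] _ (C W.a₁ * X + C W.a₃)) + i W 2 * y W) = 0 := by
    rw [← aeval_t, map_ofNat]
    simp only [Affine.baseChange_a₁, Affine.baseChange_a₃] at hz
    simp only [map_add, map_mul, aeval_X, aeval_C]
    linear_combination -hz
  have hb : b = 0 := by
    by_contra hb
    rcases mul_eq_zero.mp h1 with h2 | h2
    · exact hb ((map_eq_zero (i W)).mp h2)
    · obtain ⟨h3, h4⟩ := repr_eq_zero W h2
      have h5 : (C W.a₁ * X + C W.a₃ : K[X]) = 0 :=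
        IsFractionRing.injective K[X] (FractionRing K[X]) (by rw [h3, map_zero])
      have h6 : W.a₁ = 0 := by simpa using congrArg (coeff · 1) h5
      have h7 : W.a₃ = 0 := by simpa using congrArg (coeff · 0) h5
      have h8 : (2 : K) = 0 := by
        have : algebraMap K[X] (FractionRing K[X]) (C 2) = 0 := by
          rw [show (C (2 : K) : K[X]) = 2 from map_ofNat C 2, map_ofNat]; exact h4
        have h9 : (C 2 : K[X]) = 0 :=
          IsFractionRing.injective K[X] (FractionRing K[X]) (by rw [this, map_zero])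
        exact C_eq_zero.mp h9
      have h9 : W.Δ = 0 := by
        rw [WeierstrassCurve.Δ, WeierstrassCurve.b₂, WeierstrassCurve.b₄, WeierstrassCurve.b₆,
          WeierstrassCurve.b₈, h6, h7]
        linear_combination (-8 * (W.a₂ ^ 2 * (4 * W.a₂ * W.a₆ - W.a₄ ^ 2)) - 32 * W.a₄ ^ 3
          - 216 * W.a₆ ^ 2 + 144 * W.a₂ * W.a₄ * W.a₆) * h8
      exact W.isUnit_Δ.ne_zero h9
  subst hb
  obtain ⟨A, B, hB, hAB⟩ := IsFractionRing.div_surjective (A := K[X]) a
  refine ⟨A, B, nonZeroDivisors.ne_zero hB, ?_⟩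
  rw [map_zero, zero_mul, add_zero, aeval_t, aeval_t, ← map_mul, ← hAB]
  have hB' : algebraMap K[X] (FractionRing K[X]) B ≠ 0 := by
    intro h0
    exact nonZeroDivisors.ne_zero hB
      (IsFractionRing.injective K[X] (FractionRing K[X]) (by rw [h0, map_zero]))
  rw [div_mul_cancel₀ _ hB']

/-- The function field satisfies the axioms. -/
noncomputable def genData [W.IsElliptic] : GenData W (FF W) where
  t := t W
  y := y W
  eqn := equation W
  inj := aeval_t_injective W
  σ := (σ' W).restrictScalars K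
  σt := σ'_of W _
  σy := σ'_y W
  fixed := fixed W
  lift t' y' ht h := exists_lift W t' y' ht h

end FF

end Fermat.Agent.H62
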