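import Fermat.Agent.H62Generic
import Fermat.Agent.H62FunField
import Fermat.Prelude.Def_FLTPrelim_Modularity

/-!
# The characteristic polynomial of Frobenius on an elliptic curve over a finite field
-/

set_option autoImplicit false

namespace Fermat.Agent.H62

open Polynomial WeierstrassCurve WeierstrassCurve.Affine Fermat.Agent.H72

universe u v

section

variable {k : Type u} [Field k] [Fintype k] {W : WeierstrassCurve k} [W.IsElliptic]

/-- The relation at points whose x-coordinate is transcendental over `k`. -/
lemma Psi_transcendental {F : Type v} [Field F] [DecidableEq F] [Algebra k F] {x y : F}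
    (h : (W⁄F).Nonsingular x y) (hx : Function.Injective (aeval x : k[X] →ₐ[k] F)) (a : ℤ)
    (ha : a = (Fintype.card k : ℤ) + 1 - (Nat.card W.toAffine.Point : ℤ)) :
    Psi k F W a (Point.some x y h) = 0 := by
  classical
  obtain ⟨ψ, h1, h2⟩ := FF.exists_lift W x y hx h.1
  have h3 := ((FF.genData W).charpoly_generic a ha).1
  have h4 := congrArg (Point.map (W' := W) ψ) h3
  rw [map_Psi, map_zero] at h4
  convert h4
  rw [GenData.Q₀, Point.map_some, Point.some.injEq]
  exact ⟨h1.symm, h2.symm⟩

end

section

variable {k : Type u} [Field k] (W : WeierstrassCurve k)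

/-- points with algebraic x-coordinate come from the relative algebraic closure -/
lemma mem_range_of_algebraic {L : Type v} [Field L] [Algebra k L]
    {F : Type v} [Field F] [DecidableEq F]
    [Algebra k F] [Algebra L F] [IsScalarTower k L F] {x y : F} (h : (W⁄F).Nonsingular x y)
    (hx : IsAlgebraic L x) :
    Point.some x y h ∈ (Point.map (W' := W)
      ((algebraicClosure L F).val.restrictScalars k)).range := by
  obtain ⟨M, hM⟩ : ∃ M, M = algebraicClosure L F := ⟨_, rfl⟩
  rw [← hM]
  have hmem : ∀ x : F, x ∈ M ↔ IsAlgebraic L x := by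
    intro x; rw [hM]; exact mem_algebraicClosure_iff
  have hint : Algebra.IsIntegral L M := by
    rw [hM]; infer_instance
  clear hM
  let i : M →ₐ[k] F := M.val.restrictScalars k
  have hi : ∀ a : k, algebraMap M F (algebraMap k M a) = algebraMap k F a := fun a => i.commutes a
  have hxM : x ∈ M := (hmem x).mpr hx
  have hyM : y ∈ M := by
    apply (hmem y).mpr
    have : IsIntegral M y := by
      refine ⟨X ^ 2 + C (algebraMap k M W.a₁ * ⟨x, hxM⟩ + algebraMap k M W.a₃) * X -
        C ((⟨x, hxM⟩ : M) ^ 3 + algebraMap k M W.a₂ * ⟨x, hxM⟩ ^ 2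
          + algebraMap k M W.a₄ * ⟨x, hxM⟩ + algebraMap k M W.a₆), ?_, ?_⟩
      · monicity!
      · have h1 := (equation_iff ..).mp h.1
        simp only [eval₂_add, eval₂_sub, eval₂_mul, eval₂_pow, eval₂_X, eval₂_C, map_add, map_mul,
          map_pow, hi]
        change y ^ 2 + (algebraMap k F W.a₁ * x + algebraMap k F W.a₃) * y - (x ^ 3 +
          algebraMap k F W.a₂ * x ^ 2 + algebraMap k F W.a₄ * x + algebraMap k F W.a₆) = 0
        simp only [Affine.baseChange_a₁, Affine.baseChange_a₂, Affine.baseChange_a₃,
          Affine.baseChange_a₄, Affine.baseChange_a₆] at h1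
        linear_combination h1
    exact (isIntegral_trans (R := L) y this).isAlgebraic
  have hns : (W⁄M).Nonsingular ⟨x, hxM⟩ ⟨y, hyM⟩ :=
    (W.toAffine.baseChange_nonsingular (f := i) i.injective _ _).mp h
  exact ⟨Point.some _ _ hns, rfl⟩

end

/-- Transcendental x-coordinate, or algebraic. -/
lemma aeval_injective_or {k : Type u} [Field k] {F : Type v} [Field F] [Algebra k F] (x : F) :
    Function.Injective (aeval x : k[X] →ₐ[k] F) ∨ IsAlgebraic k x := by
  by_cases h : IsAlgebraic k x
  · exact Or.inr h
  · exact Or.inl (transcendental_iff_injective.mp h)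

/-- **The characteristic equation of Frobenius** on the points of an elliptic curve over a finite
field with values in an arbitrary extension field. -/
theorem Psi_eq_zero {k : Type u} [Field k] [Fintype k] (W : WeierstrassCurve k) [W.IsElliptic]
    (L : Type v) [Field L] [DecidableEq L] [Algebra k L] (P : (W⁄L).Point) (a : ℤ)
    (ha : a = (Fintype.card k : ℤ) + 1 - (Nat.card W.toAffine.Point : ℤ)) :
    Psi k L W a P = 0 := by
  classical
  let WL : WeierstrassCurve L := W.map (algebraMap k L)
  let F := FF WL
  have hcurve : (W⁄F) = (WL⁄F) := by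
    change W.map (algebraMap k F) = (W.map (algebraMap k L)).map (algebraMap L F)
    rw [WeierstrassCurve.map_map, ← IsScalarTower.algebraMap_eq]
  have hQ : (W⁄F).Nonsingular (FF.t WL) (FF.y WL) := by
    apply GenData.nonsing
    rw [hcurve]
    exact FF.equation WL
  let Q : (W⁄F).Point := Point.some _ _ hQ
  let P' : (W⁄F).Point := Point.map (W' := W) (IsScalarTower.toAlgHom k L F) P
  have htL : ¬ IsAlgebraic L (FF.t WL) :=
    transcendental_iff_injective.mpr (FF.aeval_t_injective WL)
  have hQ0 : Psi k F W a Q = 0 := by
    apply Psi_transcendental hQ _ a ha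
    rcases aeval_injective_or (k := k) (FF.t WL) with h | h
    · exact h
    · exact absurd (h.tower_top L) htL
  have hQP : Psi k F W a (Q + P') = 0 := by
    rcases hS : Q + P' with _ | ⟨x, y, h⟩
    · exact map_zero _
    · apply Psi_transcendental h _ a ha
      rcases aeval_injective_or (k := k) x with h' | h'
      · exact h'
      · exfalso
        have h1 := mem_range_of_algebraic (L := L) W h (h'.tower_top L)
        have h2 : P' ∈ (Point.map (W' := W)
            ((algebraicClosure L F).val.restrictScalars k)).range := by
          refine ⟨Point.map (W' := W) (IsScalarTower.toAlgHom k L (algebraicClosure L F)) P, ?_⟩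
          rw [Point.map_map]
          rfl
        have h3 : Q ∈ (Point.map (W' := W)
            ((algebraicClosure L F).val.restrictScalars k)).range := by
          have : Q = Point.some x y h - P' := by rw [← hS]; abel
          rw [this]
          exact AddSubgroup.sub_mem _ h1 h2
        obtain ⟨R, hR⟩ := h3
        rcases R with _ | ⟨x', y', h'⟩
        · exact Point.some_ne_zero hQ hR.symm
        · rw [Point.map_some, Point.some.injEq] at hR
          apply htL
          rw [← hR.1]
          exact mem_algebraicClosure_iff.mp x'.2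
  have h1 : Psi k F W a P' = 0 := by
    have : P' = (Q + P') - Q := by abel
    rw [this, map_sub, hQP, hQ0, sub_zero]
  have h2 : Point.map (W' := W) (IsScalarTower.toAlgHom k L F) (Psi k L W a P) =
      Point.map (W' := W) (IsScalarTower.toAlgHom k L F) 0 := by
    rw [map_Psi, map_zero]; exact h1
  exact Point.map_injective _ h2

/-- **The characteristic equation of Frobenius** (final form):
`φ² - a φ + q = 0` on `E(L)` for every extension `L` of the finite field `k`. -/
theorem frob_charpoly {k : Type u} [Field k] [Fintype k] (W : WeierstrassCurve k)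
    (hΔ : W.Δ ≠ 0) (L : Type v) [Field L] [DecidableEq L] [Algebra k L] (P : (W⁄L).Point) :
    Point.map (W' := W) (FiniteField.frobeniusAlgHom k L)
        (Point.map (W' := W) (FiniteField.frobeniusAlgHom k L) P)
      - W.traceOfFrobenius • Point.map (W' := W) (FiniteField.frobeniusAlgHom k L) P
      + (Nat.card k : ℤ) • P = 0 := by
  have : W.IsElliptic := ⟨isUnit_iff_ne_zero.mpr hΔ⟩
  have h := Psi_eq_zero W L P W.traceOfFrobenius (by
    rw [WeierstrassCurve.traceOfFrobenius, WeierstrassCurve.card, Nat.card_eq_fintype_card])
  rw [Psi_apply, one_smul, neg_smul] at h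
  rw [Nat.card_eq_fintype_card]
  change frobP k L W (frobP k L W P) - W.traceOfFrobenius • frobP k L W P +
    (Fintype.card k : ℤ) • P = 0
  rw [← h]
  abel

/-- **Hasse's bound**: `a² ≤ 4q`. -/
theorem hasse_bound {k : Type u} [Field k] [Finite k] (W : WeierstrassCurve k)
    (hΔ : W.Δ ≠ 0) : W.traceOfFrobenius ^ 2 ≤ 4 * (Nat.card k : ℤ) := by
  classical
  have : W.IsElliptic := ⟨isUnit_iff_ne_zero.mpr hΔ⟩
  have := Fintype.ofFinite k
  rw [Nat.card_eq_fintype_card]
  exact ((FF.genData W).charpoly_generic W.traceOfFrobenius (by
    rw [WeierstrassCurve.traceOfFrobenius, WeierstrassCurve.card,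
      Nat.card_eq_fintype_card (α := k)])).2

end Fermat.Agent.H62
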