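import Mathlib

set_option autoImplicit false
set_option linter.style.haveILetI false

/-! Structure of the `n`-torsion of a divisible-enough abelian group with `#A[m] = m ^ 2`. -/

namespace Fermat.Agent.H42

variable {A : Type*} [AddCommGroup A]

theorem finrank_eq_two_of_natCard {T : Type*} [AddCommGroup T] {p : ℕ} [hp : Fact p.Prime]
    [Module (ZMod p) T] (hcard : Nat.card T = p ^ 2) : Module.finrank (ZMod p) T = 2 := by
  haveI : Finite T :=
    Nat.finite_of_card_ne_zero (by rw [hcard]; exact pow_ne_zero 2 hp.out.ne_zero)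
  have h := Module.natCard_eq_pow_finrank (K := ZMod p) (V := T)
  rw [hcard, Nat.card_zmod] at h
  exact (Nat.pow_right_injective hp.out.two_le h).symm

theorem exists_indep_prime_aux' {T : Type*} [AddCommGroup T] {p : ℕ} [hp : Fact p.Prime]
    [Module (ZMod p) T] (hcard : Nat.card T = p ^ 2) :
    ∃ P Q : T, ∀ a b : ℤ, a • P + b • Q = 0 → (p : ℤ) ∣ a ∧ (p : ℤ) ∣ b := by
  haveI : Finite T :=
    Nat.finite_of_card_ne_zero (by rw [hcard]; exact pow_ne_zero 2 hp.out.ne_zero)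
  have hfr := finrank_eq_two_of_natCard (p := p) hcard
  have b : Module.Basis (Fin 2) (ZMod p) T := Module.finBasisOfFinrankEq (ZMod p) T hfr
  refine ⟨b 0, b 1, fun x y hxy => ?_⟩
  have hli := Fintype.linearIndependent_iff.mp b.linearIndependent ![(x : ZMod p), (y : ZMod p)]
    (by
      rw [Fin.sum_univ_two]
      simp only [Matrix.cons_val_zero, Matrix.cons_val_one]
      rw [Int.cast_smul_eq_zsmul, Int.cast_smul_eq_zsmul]
      exact hxy)
  have h0 := hli 0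
  have h1 := hli 1
  simp only [Matrix.cons_val_zero, Matrix.cons_val_one] at h0 h1
  exact ⟨(ZMod.intCast_zmod_eq_zero_iff_dvd x p).mp h0,
    (ZMod.intCast_zmod_eq_zero_iff_dvd y p).mp h1⟩

theorem exists_indep_prime_aux {T : Type*} [AddCommGroup T] {p : ℕ} (hp : p.Prime)
    (h0 : ∀ x : T, p • x = 0) (hcard : Nat.card T = p ^ 2) :
    ∃ P Q : T, ∀ a b : ℤ, a • P + b • Q = 0 → (p : ℤ) ∣ a ∧ (p : ℤ) ∣ b := by
  haveI : Fact p.Prime := ⟨hp⟩
  letI m : Module (ZMod p) T := AddCommGroup.zmodModule h0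
  exact exists_indep_prime_aux' hcard

/-- For a prime `p` with `#A[p] = p ^ 2` there are two independent elements in `A[p]`. -/
theorem exists_indep_prime {p : ℕ} (hp : p.Prime)
    (hcard : Nat.card {P : A // p • P = 0} = p ^ 2) :
    ∃ P Q : A, p • P = 0 ∧ p • Q = 0 ∧
      ∀ a b : ℤ, a • P + b • Q = 0 → (p : ℤ) ∣ a ∧ (p : ℤ) ∣ b := by
  let T : AddSubgroup A := (zsmulAddGroupHom (p : ℤ)).ker
  have hT : ∀ x : A, x ∈ T ↔ p • x = 0 := fun x => by
    rw [AddMonoidHom.mem_ker, zsmulAddGroupHom_apply, natCast_zsmul]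
  have hcT : Nat.card T = p ^ 2 := by
    rw [← hcard]; exact Nat.card_congr (Equiv.subtypeEquivRight hT)
  obtain ⟨P, Q, h⟩ := exists_indep_prime_aux (T := T) hp (fun x => by
    apply Subtype.ext
    rw [AddSubgroup.coe_nsmul]
    exact (hT x.1).mp x.2) hcT
  refine ⟨P, Q, (hT _).mp P.2, (hT _).mp Q.2, fun a b hab => h a b ?_⟩
  apply Subtype.ext
  simpa using hab

/-- CRT-type lemma. -/
theorem exists_div_eq {n : ℕ} (hn : n ≠ 0)
    (hsurj : ∀ m : ℕ, m ∣ n → ∀ Q : A, ∃ P, m • P = Q) (R : ℕ → A)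
    (hR : ∀ p ∈ n.primeFactors, p • R p = 0) :
    ∃ P : A, n • P = 0 ∧ ∀ p ∈ n.primeFactors, (n / p) • P = R p := by
  classical
  have hS : ∀ p : ℕ, ∃ S : A, p ∈ n.primeFactors → (n / p) • S = R p := fun p => by
    by_cases hp : p ∈ n.primeFactors
    · obtain ⟨S, hS⟩ := hsurj (n / p) (Nat.div_dvd_of_dvd (Nat.dvd_of_mem_primeFactors hp)) (R p)
      exact ⟨S, fun _ => hS⟩
    · exact ⟨0, fun h => absurd h hp⟩
  choose S hS using hS
  have hm : ∀ p : ℕ, ∃ m : ℤ, p ∈ n.primeFactors → (p : ℤ) ∣ m - 1 ∧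
      ∀ q ∈ n.primeFactors, q ≠ p → (q : ℤ) ∣ m := fun p => by
    by_cases hp : p ∈ n.primeFactors
    · have hpp := Nat.prime_of_mem_primeFactors hp
      have hco : IsCoprime (p : ℤ) (∏ q ∈ n.primeFactors.erase p, (q : ℤ)) := by
        refine IsCoprime.prod_right fun q hq => ?_
        rw [Nat.isCoprime_iff_coprime]
        refine (Nat.coprime_primes hpp (Nat.prime_of_mem_primeFactors
          (Finset.mem_of_mem_erase hq))).mpr (Finset.ne_of_mem_erase hq).symm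
      obtain ⟨u, v, huv⟩ := hco
      refine ⟨v * ∏ q ∈ n.primeFactors.erase p, (q : ℤ), fun _ => ⟨⟨-u, ?_⟩, fun q hq hqp => ?_⟩⟩
      · rw [← huv]; ring
      · exact Dvd.dvd.mul_left (Finset.dvd_prod_of_mem (fun q : ℕ => (q : ℤ))
          (Finset.mem_erase.mpr ⟨hqp, hq⟩)) v
    · exact ⟨0, fun h => absurd h hp⟩
  choose m hm using hm
  have key : ∀ q ∈ n.primeFactors,
      (n / q) • (∑ p ∈ n.primeFactors, m p • S p) = R q := by
    intro q hq
    rw [Finset.smul_sum, Finset.sum_eq_single q]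
    · rw [smul_comm, hS q hq]
      obtain ⟨c, hc⟩ := (hm q hq).1
      have : m q = 1 + c * q := by rw [mul_comm]; linarith
      rw [this, add_smul, one_smul, mul_smul, natCast_zsmul, hR q hq, smul_zero, add_zero]
    · intro p hp hpq
      obtain ⟨c, hc⟩ := (hm p hp).2 q hq hpq.symm
      have hnq : q * (n / q) = n := Nat.mul_div_cancel' (Nat.dvd_of_mem_primeFactors hq)
      have hnp : p * (n / p) = n := Nat.mul_div_cancel' (Nat.dvd_of_mem_primeFactors hp)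
      rw [smul_comm, hc, mul_comm, mul_smul, natCast_zsmul, ← mul_smul, hnq, ← hnp, mul_smul,
        hS p hp, hR p hp, smul_zero]
    · exact fun h => absurd hq h
  by_cases h1 : n = 1
  · subst h1
    exact ⟨0, smul_zero _, fun p hp => by simp at hp⟩
  · refine ⟨_, ?_, key⟩
    obtain ⟨p, hp⟩ : n.primeFactors.Nonempty := by
      rw [Nat.nonempty_primeFactors]; omega
    have hnp : p * (n / p) = n := Nat.mul_div_cancel' (Nat.dvd_of_mem_primeFactors hp)
    rw [← hnp, mul_smul, hnp, key p hp, hR p hp]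

/-- Independent generators of `A[n]`. -/
theorem exists_indep {n : ℕ} (hn : n ≠ 0)
    (hsurj : ∀ m : ℕ, m ∣ n → ∀ Q : A, ∃ P, m • P = Q)
    (hcard : ∀ p : ℕ, p.Prime → p ∣ n → Nat.card {P : A // p • P = 0} = p ^ 2) :
    ∃ P Q : A, n • P = 0 ∧ n • Q = 0 ∧
      ∀ a b : ℤ, a • P + b • Q = 0 → (n : ℤ) ∣ a ∧ (n : ℤ) ∣ b := by
  classical
  have h0 : ∀ p : ℕ, ∃ PQ : A × A, p ∈ n.primeFactors → p • PQ.1 = 0 ∧ p • PQ.2 = 0 ∧
      ∀ a b : ℤ, a • PQ.1 + b • PQ.2 = 0 → (p : ℤ) ∣ a ∧ (p : ℤ) ∣ b := fun p => by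
    by_cases hp : p ∈ n.primeFactors
    · obtain ⟨P, Q, h⟩ := exists_indep_prime (Nat.prime_of_mem_primeFactors hp)
        (hcard p (Nat.prime_of_mem_primeFactors hp) (Nat.dvd_of_mem_primeFactors hp))
      exact ⟨(P, Q), fun _ => h⟩
    · exact ⟨0, fun h => absurd h hp⟩
  choose PQ hPQ using h0
  obtain ⟨P, hP, hP'⟩ := exists_div_eq hn hsurj (fun p => (PQ p).1) fun p hp => (hPQ p hp).1
  obtain ⟨Q, hQ, hQ'⟩ := exists_div_eq hn hsurj (fun p => (PQ p).2) fun p hp => (hPQ p hp).2.1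
  refine ⟨P, Q, hP, hQ, fun a b hab => ?_⟩
  -- gcd argument
  set g : ℕ := Nat.gcd n (Int.gcd a b) with hg
  have hgn : g ∣ n := Nat.gcd_dvd_left _ _
  have hga : (g : ℤ) ∣ a := (Int.natCast_dvd_natCast.mpr (Nat.gcd_dvd_right _ _)).trans
    (Int.gcd_dvd_left _ _)
  have hgb : (g : ℤ) ∣ b := (Int.natCast_dvd_natCast.mpr (Nat.gcd_dvd_right _ _)).trans
    (Int.gcd_dvd_right _ _)
  suffices hgn' : g = n by
    rw [← hgn']; exact ⟨hga, hgb⟩
  by_contra hne
  obtain ⟨d, hd⟩ := hgn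
  have hd1 : d ≠ 1 := by rintro rfl; exact hne (by omega)
  obtain ⟨p, hp, hpd⟩ := Nat.exists_prime_and_dvd hd1
  obtain ⟨e, he⟩ := hpd
  have hpn : p ∣ n := ⟨g * e, by rw [hd, he]; ring⟩
  have hpm : p ∈ n.primeFactors := Nat.mem_primeFactors.mpr ⟨hp, hpn, hn⟩
  have hnp : n / p = e * g := by
    refine Nat.div_eq_of_eq_mul_right hp.pos ?_
    rw [hd, he]; ring
  obtain ⟨a', ha'⟩ := hga
  obtain ⟨b', hb'⟩ := hgb
  have h1 : a' • (PQ p).1 + b' • (PQ p).2 = 0 := by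
    rw [← hP' p hpm, ← hQ' p hpm, hnp]
    have h2 : e • (a • P + b • Q) = 0 := by rw [hab, smul_zero]
    rw [ha', hb'] at h2
    rw [← natCast_zsmul, ← natCast_zsmul, ← mul_smul, ← mul_smul]
    rw [← natCast_zsmul, smul_add, ← mul_smul, ← mul_smul] at h2
    convert h2 using 3 <;> push_cast <;> ring
  obtain ⟨⟨a'', ha''⟩, ⟨b'', hb''⟩⟩ := (hPQ p hpm).2.2 a' b' h1
  have h3 : g * p ∣ g := by
    conv_rhs => rw [hg]
    refine Nat.dvd_gcd ⟨e, by rw [hd, he]; ring⟩ ?_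
    refine Int.natCast_dvd_natCast.mp (Int.dvd_coe_gcd ⟨a'', ?_⟩ ⟨b'', ?_⟩)
    · rw [ha', ha'']; push_cast; ring
    · rw [hb', hb'']; push_cast; ring
  have hg0 : 0 < g := Nat.pos_of_ne_zero fun h => hn (by rw [hd, h, zero_mul])
  have h4 := Nat.le_of_dvd hg0 h3
  have := hp.two_le
  nlinarith

/-- `A[n] ≃ (ℤ/n)²`: there are `P, Q` such that `(a, b) ↦ a P + b Q` is bijective onto `A[n]`. -/
theorem exists_basis {n : ℕ} (hn : n ≠ 0)
    (hsurj : ∀ m : ℕ, m ∣ n → ∀ Q : A, ∃ P, m • P = Q)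
    (hcard : ∀ m : ℕ, m ∣ n → Nat.card {P : A // m • P = 0} = m ^ 2) :
    ∃ P Q : A, n • P = 0 ∧ n • Q = 0 ∧
      (∀ a b : ℤ, a • P + b • Q = 0 ↔ (n : ℤ) ∣ a ∧ (n : ℤ) ∣ b) ∧
      ∀ R : A, n • R = 0 → ∃ a b : ℤ, R = a • P + b • Q := by
  obtain ⟨P, Q, hP, hQ, h⟩ := exists_indep hn hsurj fun p _ hpn => hcard p hpn
  refine ⟨P, Q, hP, hQ, fun a b => ⟨h a b, ?_⟩, ?_⟩
  · rintro ⟨⟨a', rfl⟩, ⟨b', rfl⟩⟩
    rw [mul_comm, mul_smul, natCast_zsmul, hP, mul_comm, mul_smul, natCast_zsmul, hQ]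
    simp
  · haveI : NeZero n := ⟨hn⟩
    have hc := hcard n dvd_rfl
    haveI : Finite {P : A // n • P = 0} :=
      Nat.finite_of_card_ne_zero (by rw [hc]; exact pow_ne_zero 2 hn)
    let f : Fin n × Fin n → {P : A // n • P = 0} := fun ab =>
      ⟨(ab.1 : ℕ) • P + (ab.2 : ℕ) • Q, by
        rw [smul_add, smul_comm, hP, smul_comm n, hQ]; simp⟩
    have hf : Function.Injective f := by
      rintro ⟨a, b⟩ ⟨a', b'⟩ hab
      have h1 : ((a : ℕ) : ℤ) • P + ((b : ℕ) : ℤ) • Q = ((a' : ℕ) : ℤ) • P + ((b' : ℕ) : ℤ) • Q := by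
        have := congrArg Subtype.val hab
        simpa only [natCast_zsmul] using this
      have h2 : (((a : ℕ) : ℤ) - (a' : ℕ)) • P + (((b : ℕ) : ℤ) - (b' : ℕ)) • Q = 0 := by
        rw [sub_smul, sub_smul]
        have := sub_eq_zero.mpr h1
        rw [← this]; abel
      obtain ⟨h3, h4⟩ := h _ _ h2
      have h5 := Int.eq_zero_of_abs_lt_dvd h3 (by
        have := a.2; have := a'.2
        rw [abs_lt]; constructor <;> omega)
      have h6 := Int.eq_zero_of_abs_lt_dvd h4 (by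
        have := b.2; have := b'.2
        rw [abs_lt]; constructor <;> omega)
      refine Prod.ext (Fin.ext ?_) (Fin.ext ?_)
      · simp only; omega
      · simp only; omega
    have hbij : Function.Bijective f := by
      refine (Nat.bijective_iff_injective_and_card f).mpr ⟨hf, ?_⟩
      rw [hc]; simp [sq]
    intro R hR
    obtain ⟨⟨a, b⟩, hab⟩ := hbij.2 ⟨R, hR⟩
    refine ⟨(a : ℕ), (b : ℕ), ?_⟩
    rw [natCast_zsmul, natCast_zsmul]
    exact (congrArg Subtype.val hab).symm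

/-- From independent generators to a basis over `ZMod n`. -/
theorem exists_zmod_basis {T : Type*} [AddCommGroup T] {n : ℕ} [Module (ZMod n) T] (P Q : T)
    (hind : ∀ a b : ℤ, a • P + b • Q = 0 → (n : ℤ) ∣ a ∧ (n : ℤ) ∣ b)
    (hgen : ∀ R : T, ∃ a b : ℤ, R = a • P + b • Q) :
    ∃ b : Module.Basis (Fin 2) (ZMod n) T, b 0 = P ∧ b 1 = Q := by
  have hli : LinearIndependent (ZMod n) ![P, Q] := by
    rw [Fintype.linearIndependent_iff]
    intro g hg
    obtain ⟨x, hx⟩ := ZMod.intCast_surjective (g 0)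
    obtain ⟨y, hy⟩ := ZMod.intCast_surjective (g 1)
    rw [Fin.sum_univ_two, ← hx, ← hy, Int.cast_smul_eq_zsmul, Int.cast_smul_eq_zsmul] at hg
    simp only [Matrix.cons_val_zero, Matrix.cons_val_one] at hg
    obtain ⟨h0, h1⟩ := hind x y hg
    intro i
    fin_cases i
    · simp only [Fin.zero_eta]
      rw [← hx]
      exact (ZMod.intCast_zmod_eq_zero_iff_dvd x n).mpr h0
    · simp only [Fin.mk_one]
      rw [← hy]
      exact (ZMod.intCast_zmod_eq_zero_iff_dvd y n).mpr h1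
  have hsp : ⊤ ≤ Submodule.span (ZMod n) (Set.range ![P, Q]) := by
    intro R _
    obtain ⟨a, b, rfl⟩ := hgen R
    refine Submodule.add_mem _ ?_ ?_
    · rw [← Int.cast_smul_eq_zsmul (ZMod n)]
      exact Submodule.smul_mem _ _ (Submodule.subset_span ⟨0, rfl⟩)
    · rw [← Int.cast_smul_eq_zsmul (ZMod n)]
      exact Submodule.smul_mem _ _ (Submodule.subset_span ⟨1, rfl⟩)
  refine ⟨Module.Basis.mk hli hsp, ?_, ?_⟩
  · rw [Module.Basis.mk_apply]; rfl
  · rw [Module.Basis.mk_apply]; rfl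

end Fermat.Agent.H42
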