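import Mathlib
import Fermat.Prelude.Def_FLTPrelim_GaloisRep
import Fermat.Prelude.Def_EllipticCurve_FrobeniusTrace
import Fermat.Prelude.Def_GaloisRep_Residual
import Fermat.Agent.H42Rank2
import Fermat.Agent.H42Glue

set_option autoImplicit false
set_option linter.style.haveILetI false

open Polynomial WeierstrassCurve

namespace Fermat.Agent.H42

/-- The division polynomial formula package (supplied by helper87's `H87Mul`). -/
structure DivFormula {K : Type*} [Field K] [DecidableEq K] (W : WeierstrassCurve K) : Prop where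
  nsmul_eq_zero_iff : ∀ (n : ℕ) {x y : K} (h : W.toAffine.Nonsingular x y),
    n • (Affine.Point.some x y h : W.toAffine.Point) = 0 ↔ (W.ΨSq n).eval x = 0
  x_nsmul : ∀ (n : ℕ) {x y x2 y2 : K} (h : W.toAffine.Nonsingular x y)
    (h2 : W.toAffine.Nonsingular x2 y2)
    (_ : n • (Affine.Point.some x y h : W.toAffine.Point) = Affine.Point.some x2 y2 h2),
    x2 * (W.ΨSq n).eval x = (W.Φ n).eval x
  isCoprime_Φ_ΨSq : ∀ (n : ℕ), IsCoprime (W.Φ n) (W.ΨSq n)

section

variable {K : Type*} [Field K] (W : WeierstrassCurve K)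

theorem wronskian_ne_zero {n : ℕ} (hn : (n : K) ≠ 0) :
    derivative (W.Φ n) * W.ΨSq n - W.Φ n * derivative (W.ΨSq n) ≠ 0 := by
  have hn0 : n ≠ 0 := by rintro rfl; simp at hn
  by_cases h1 : n = 1
  · subst h1
    simp
  have hn2 : 2 ≤ n := by omega
  obtain ⟨d, hd⟩ : ∃ d, n ^ 2 = d + 2 := ⟨n ^ 2 - 2, by
    have : 2 * 2 ≤ n ^ 2 := by nlinarith
    omega⟩
  intro h
  have hΦ : (W.Φ n).natDegree ≤ d + 2 := by
    have := W.natDegree_Φ_le n
    simpa [hd] using this
  have hΦc : (W.Φ n).coeff (d + 2) = 1 := by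
    have := W.coeff_Φ n
    simpa [hd] using this
  have hΨ : (W.ΨSq n).natDegree ≤ d + 1 := by
    have := W.natDegree_ΨSq_le n
    simpa [hd] using this
  have hΨc : (W.ΨSq n).coeff (d + 1) = (d + 2 : K) := by
    have := W.coeff_ΨSq n
    have h2 : ((n : K)) ^ 2 = d + 2 := by exact_mod_cast congrArg (Nat.cast : ℕ → K) hd
    simpa [hd, h2] using this
  have hc := congrArg (fun p => coeff p ((d + 1) + (d + 1))) h
  simp only [coeff_sub, coeff_zero] at hc
  rw [coeff_mul_add_eq_of_natDegree_le (df := d + 1) (dg := d + 1)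
    ((natDegree_derivative_le _).trans (by omega)) hΨ,
    show (d + 1) + (d + 1) = (d + 2) + d by ring,
    coeff_mul_add_eq_of_natDegree_le (df := d + 2) (dg := d) hΦ
      ((natDegree_derivative_le _).trans (by omega)), coeff_derivative, coeff_derivative,
    hΦc, hΨc] at hc
  have h2 : ((n : K)) ^ 2 = d + 2 := by exact_mod_cast congrArg (Nat.cast : ℕ → K) hd
  have h3 : ((n : K)) ^ 2 = 0 := by
    rw [h2]
    push_cast at hc
    linear_combination hc
  exact hn (pow_eq_zero_iff (two_ne_zero) |>.mp h3)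

end

section AlgClosed

variable {K : Type*} [Field K] {W : WeierstrassCurve K}

theorem exists_nonsingular [IsAlgClosed K] (hΔ : W.Δ ≠ 0) (x : K) :
    ∃ y, W.toAffine.Nonsingular x y := by
  obtain ⟨y, hy⟩ := IsAlgClosed.exists_root
    (X ^ 2 + C (W.a₁ * x + W.a₃) * X - C (x ^ 3 + W.a₂ * x ^ 2 + W.a₄ * x + W.a₆) : K[X])
    (by
      have : (X ^ 2 + C (W.a₁ * x + W.a₃) * X - C (x ^ 3 + W.a₂ * x ^ 2 + W.a₄ * x + W.a₆) :
          K[X]).degree = 2 := by compute_degree!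
      rw [this]; norm_num)
  refine ⟨y, (W.toAffine.equation_iff_nonsingular_of_Δ_ne_zero hΔ).mp
    ((W.toAffine.equation_iff x y).mpr ?_)⟩
  simp only [IsRoot.def, eval_sub, eval_add, eval_pow, eval_X, eval_mul, eval_C] at hy
  linear_combination hy

/-- the polynomial whose roots are the `x`-coordinates of `[n]⁻¹(± (x₀, *))`. -/
noncomputable def fibPoly (W : WeierstrassCurve K) (n : ℕ) (x₀ : K) : K[X] :=
  W.Φ n - C x₀ * W.ΨSq n

theorem natDegree_fibPoly {n : ℕ} (hn : n ≠ 0) (x₀ : K) :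
    (fibPoly W n x₀).natDegree = n ^ 2 := by
  have h1 : (W.Φ n).natDegree = n ^ 2 := by simpa using W.natDegree_Φ (n : ℤ)
  have h2 : (C x₀ * W.ΨSq n).natDegree < n ^ 2 := by
    have h3 : (C x₀ * W.ΨSq n).natDegree ≤ n ^ 2 - 1 := by
      refine (natDegree_C_mul_le _ _).trans ?_
      simpa using W.natDegree_ΨSq_le (n : ℤ)
    have : 0 < n ^ 2 := by positivity
    omega
  rw [fibPoly, natDegree_sub_eq_left_of_natDegree_lt (by rw [h1]; exact h2), h1]

theorem fibPoly_ne_zero {n : ℕ} (hn : n ≠ 0) (x₀ : K) : fibPoly W n x₀ ≠ 0 := by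
  intro h
  have := natDegree_fibPoly (W := W) hn x₀
  rw [h, natDegree_zero] at this
  have h2 : 0 < n ^ 2 := by positivity
  omega

theorem isRoot_fibPoly {n : ℕ} {x₀ r : K} :
    (fibPoly W n x₀).IsRoot r ↔ x₀ * (W.ΨSq n).eval r = (W.Φ n).eval r := by
  rw [IsRoot.def, fibPoly, eval_sub, eval_mul, eval_C, sub_eq_zero, eq_comm]

variable [DecidableEq K]

theorem ΨSq_eval_ne_zero_of_isRoot (D : DivFormula W) {n : ℕ} {x₀ r : K}
    (h : (fibPoly W n x₀).IsRoot r) : (W.ΨSq n).eval r ≠ 0 := by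
  intro h0
  obtain ⟨a, b, hab⟩ := D.isCoprime_Φ_ΨSq n
  have h1 := isRoot_fibPoly.mp h
  rw [h0, mul_zero] at h1
  have := congrArg (eval r) hab
  rw [eval_add, eval_mul, eval_mul, h0, ← h1, mul_zero, mul_zero, add_zero, eval_one] at this
  exact zero_ne_one this

/-- a multiple of a point lying above a root of the fibre polynomial. -/
theorem nsmul_of_isRoot (D : DivFormula W) {n : ℕ} {x₀ y₀ r y : K}
    (h₀ : W.toAffine.Nonsingular x₀ y₀) (hr : (fibPoly W n x₀).IsRoot r)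
    (h : W.toAffine.Nonsingular r y) :
    n • (Affine.Point.some r y h : W.toAffine.Point) = Affine.Point.some x₀ y₀ h₀ ∨
      n • (Affine.Point.some r y h : W.toAffine.Point) = -Affine.Point.some x₀ y₀ h₀ := by
  have hne := ΨSq_eval_ne_zero_of_isRoot D hr
  have h1 : n • (Affine.Point.some r y h : W.toAffine.Point) ≠ 0 := fun h2 =>
    hne ((D.nsmul_eq_zero_iff n h).mp h2)
  rcases hP : n • (Affine.Point.some r y h : W.toAffine.Point) with _ | ⟨x₂, y₂, h₂⟩
  · exact absurd hP h1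
  · have h3 := D.x_nsmul n h h₂ hP
    rw [← isRoot_fibPoly.mp hr] at h3
    exact Affine.Point.X_eq_iff.mp (mul_right_cancel₀ hne h3)

theorem isRoot_of_nsmul (D : DivFormula W) {n : ℕ} {x₀ y₀ r y : K}
    (h₀ : W.toAffine.Nonsingular x₀ y₀) (h : W.toAffine.Nonsingular r y)
    (hn : n • (Affine.Point.some r y h : W.toAffine.Point) = Affine.Point.some x₀ y₀ h₀) :
    (fibPoly W n x₀).IsRoot r :=
  isRoot_fibPoly.mpr (D.x_nsmul n h h₀ hn)

/-- Multiplication by `n ≠ 0` is surjective on points over an algebraically closed field. -/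
theorem exists_nsmul_eq [IsAlgClosed K] (hΔ : W.Δ ≠ 0) (D : DivFormula W) {n : ℕ} (hn : n ≠ 0)
    (Q : W.toAffine.Point) : ∃ P : W.toAffine.Point, n • P = Q := by
  rcases Q with _ | ⟨x₀, y₀, h₀⟩
  · exact ⟨0, smul_zero _⟩
  · obtain ⟨r, hr⟩ := IsAlgClosed.exists_root (fibPoly W n x₀) (by
      rw [degree_eq_natDegree (fibPoly_ne_zero hn x₀), natDegree_fibPoly hn]
      have : 0 < n ^ 2 := by positivity
      exact_mod_cast this.ne')
    obtain ⟨y, hy⟩ := exists_nonsingular hΔ r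
    rcases nsmul_of_isRoot D h₀ hr hy with h | h
    · exact ⟨_, h⟩
    · exact ⟨-Affine.Point.some r y hy, by rw [smul_neg, h, neg_neg]⟩

/-- `x`-coordinate with junk value `0` at the origin. -/
def xco : W.toAffine.Point → K
  | .zero => 0
  | .some x _ _ => x

theorem natCard_fiber [IsAlgClosed K] (hΔ : W.Δ ≠ 0) (D : DivFormula W) {n : ℕ}
    (hn : n ≠ 0) {x₀ y₀ : K} (h₀ : W.toAffine.Nonsingular x₀ y₀)
    (hneg : (Affine.Point.some x₀ y₀ h₀ : W.toAffine.Point) ≠ -Affine.Point.some x₀ y₀ h₀) :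
    Nat.card {P : W.toAffine.Point // n • P = Affine.Point.some x₀ y₀ h₀} =
      (fibPoly W n x₀).roots.toFinset.card := by
  classical
  have hne0 := fibPoly_ne_zero (W := W) hn x₀
  have hmem : ∀ P : {P : W.toAffine.Point // n • P = Affine.Point.some x₀ y₀ h₀},
      xco P.1 ∈ (fibPoly W n x₀).roots.toFinset := by
    rintro ⟨_ | ⟨x, y, h⟩, hP⟩
    · exfalso
      rw [← Affine.Point.zero_def, smul_zero] at hP
      exact Affine.Point.some_ne_zero _ hP.symm
    · rw [Multiset.mem_toFinset, mem_roots hne0]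
      exact isRoot_of_nsmul D h₀ h hP
  have hbij : Function.Bijective
      (fun P : {P : W.toAffine.Point // n • P = Affine.Point.some x₀ y₀ h₀} =>
        (⟨xco P.1, hmem P⟩ : {r // r ∈ (fibPoly W n x₀).roots.toFinset})) := by
    constructor
    · rintro ⟨_ | ⟨x, y, h⟩, hP⟩ ⟨_ | ⟨x', y', h'⟩, hP'⟩ hPP
      · rfl
      · exfalso
        rw [← Affine.Point.zero_def, smul_zero] at hP
        exact Affine.Point.some_ne_zero _ hP.symm
      · exfalso
        rw [← Affine.Point.zero_def, smul_zero] at hP'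
        exact Affine.Point.some_ne_zero _ hP'.symm
      · have hx : x = x' := by simpa [xco] using hPP
        apply Subtype.ext
        rcases (Affine.Point.X_eq_iff (h₁ := h) (h₂ := h')).mp hx with h1 | h1
        · exact h1
        · exfalso
          rw [h1, smul_neg, hP'] at hP
          exact hneg hP.symm
    · rintro ⟨r, hr⟩
      rw [Multiset.mem_toFinset, mem_roots hne0] at hr
      obtain ⟨y, hy⟩ := exists_nonsingular hΔ r
      rcases nsmul_of_isRoot D h₀ hr hy with h | h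
      · exact ⟨⟨_, h⟩, rfl⟩
      · exact ⟨⟨-Affine.Point.some r y hy, by rw [smul_neg, h, neg_neg]⟩, rfl⟩
  rw [Nat.card_eq_of_bijective _ hbij, Nat.card_eq_fintype_card, Fintype.card_coe]

theorem ΨSq_ne_zero' (D : DivFormula W) {n : ℕ} (hn : n ≠ 0) : W.ΨSq n ≠ 0 := by
  intro h
  have h1 := D.isCoprime_Φ_ΨSq n
  rw [h, isCoprime_zero_right] at h1
  have h2 := natDegree_eq_zero_of_isUnit h1
  rw [W.natDegree_Φ] at h2
  simp [hn] at h2

theorem exists_good [IsAlgClosed K] (hΔ : W.Δ ≠ 0) (D : DivFormula W) {n : ℕ}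
    (hn : (n : K) ≠ 0) : ∃ (x₀ y₀ : K) (h₀ : W.toAffine.Nonsingular x₀ y₀),
      (Affine.Point.some x₀ y₀ h₀ : W.toAffine.Point) ≠ -Affine.Point.some x₀ y₀ h₀ ∧
        (fibPoly W n x₀).roots.Nodup := by
  classical
  have hn0 : n ≠ 0 := by rintro rfl; simp at hn
  have hinf : Infinite K := inferInstance
  set w := derivative (W.Φ n) * W.ΨSq n - W.Φ n * derivative (W.ΨSq n) with hw
  have hw0 : w ≠ 0 := wronskian_ne_zero W hn
  obtain ⟨x₀, hx₀⟩ := Infinite.exists_notMem_finset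
    ((w.roots.toFinset.image fun r => (W.Φ n).eval r / (W.ΨSq n).eval r) ∪
      (W.ΨSq (2 : ℕ)).roots.toFinset)
  rw [Finset.mem_union, not_or] at hx₀
  obtain ⟨y₀, h₀⟩ := exists_nonsingular hΔ x₀
  refine ⟨x₀, y₀, h₀, fun h => ?_, ?_⟩
  · have h2 : 2 • (Affine.Point.some x₀ y₀ h₀ : W.toAffine.Point) = 0 := by
      rw [two_nsmul]
      nth_rewrite 1 [h]
      exact neg_add_cancel _
    refine hx₀.2 ?_
    rw [Multiset.mem_toFinset, mem_roots (ΨSq_ne_zero' D two_ne_zero)]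
    exact (D.nsmul_eq_zero_iff 2 h₀).mp h2
  · rw [Multiset.nodup_iff_count_le_one]
    intro r
    rw [count_roots]
    by_contra! hlt
    obtain ⟨hr, hr'⟩ := (one_lt_rootMultiplicity_iff_isRoot (fibPoly_ne_zero hn0 x₀)).mp hlt
    have hne := ΨSq_eval_ne_zero_of_isRoot D hr
    refine hx₀.1 (Finset.mem_image.mpr ⟨r, ?_, ?_⟩)
    · rw [Multiset.mem_toFinset, mem_roots hw0, IsRoot.def, hw]
      have h1 := isRoot_fibPoly.mp hr
      rw [IsRoot.def, fibPoly, derivative_sub, derivative_C_mul, eval_sub, eval_mul, eval_C,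
        sub_eq_zero] at hr'
      rw [eval_sub, eval_mul, eval_mul, hr', ← h1]
      ring
    · rw [div_eq_iff hne]
      exact (isRoot_fibPoly.mp hr).symm

/-- `#E[n] = n ^ 2`. -/
theorem natCard_nsmul_eq_zero [IsAlgClosed K] (hΔ : W.Δ ≠ 0) (D : DivFormula W) {n : ℕ}
    (hn : (n : K) ≠ 0) : Nat.card {P : W.toAffine.Point // n • P = 0} = n ^ 2 := by
  classical
  have hn0 : n ≠ 0 := by rintro rfl; simp at hn
  obtain ⟨x₀, y₀, h₀, hneg, hnd⟩ := exists_good hΔ D hn
  obtain ⟨P₀, hP₀⟩ := exists_nsmul_eq hΔ D hn0 (Affine.Point.some x₀ y₀ h₀)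
  have e : {P : W.toAffine.Point // n • P = 0} ≃
      {P : W.toAffine.Point // n • P = Affine.Point.some x₀ y₀ h₀} :=
    { toFun := fun P => ⟨P.1 + P₀, by rw [smul_add, P.2, hP₀, zero_add]⟩
      invFun := fun P => ⟨P.1 - P₀, by rw [smul_sub, P.2, hP₀, sub_self]⟩
      left_inv := fun P => Subtype.ext (add_sub_cancel_right _ _)
      right_inv := fun P => Subtype.ext (sub_add_cancel _ _) }
  rw [Nat.card_congr e, natCard_fiber hΔ D hn0 h₀ hneg, Multiset.toFinset_card_of_nodup hnd,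
    IsAlgClosed.card_roots_eq_natDegree, natDegree_fibPoly hn0]

theorem setOf_nsmul_eq_zero_finite (D : DivFormula W) {n : ℕ} (hn : n ≠ 0) :
    {P : W.toAffine.Point | n • P = 0}.Finite := by
  classical
  have hf : ((W.ΨSq n).roots.toFinset : Set K).Finite := Finset.finite_toSet _
  -- each `x` has at most two points above it
  refine Set.Finite.subset (s := {0} ∪ ⋃ x ∈ ((W.ΨSq n).roots.toFinset : Set K),
    {P : W.toAffine.Point | P ≠ 0 ∧ xco P = x}) ((Set.finite_singleton _).union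
      (hf.biUnion fun x _ => ?_)) ?_
  · by_cases hx : ∃ P : W.toAffine.Point, P ≠ 0 ∧ xco P = x
    · obtain ⟨P, hP, hPx⟩ := hx
      refine Set.Finite.subset (s := {P, -P}) ((Set.finite_singleton _).insert _) ?_
      rintro Q ⟨hQ, hQx⟩
      rcases P with _ | ⟨x₁, y₁, h₁⟩
      · exact absurd rfl hP
      rcases Q with _ | ⟨x₂, y₂, h₂⟩
      · exact absurd rfl hQ
      have hxx : x₂ = x₁ := hQx.trans hPx.symm
      exact Affine.Point.X_eq_iff.mp hxx
    · refine Set.Finite.subset Set.finite_empty ?_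
      intro P h
      exact absurd ⟨P, h⟩ hx
  · rintro (_ | ⟨x, y, h⟩) hP
    · exact Or.inl rfl
    · refine Or.inr ?_
      simp only [Set.mem_iUnion]
      refine ⟨x, ?_, Affine.Point.some_ne_zero h, rfl⟩
      rw [Finset.mem_coe, Multiset.mem_toFinset, mem_roots (ΨSq_ne_zero' D hn)]
      exact (D.nsmul_eq_zero_iff n h).mp hP

theorem mem_torsionBy_iff (n : ℕ) (P : W.toAffine.Point) :
    P ∈ Submodule.torsionBy ℤ W.toAffine.Point (n : ℤ) ↔ n • P = 0 := by
  rw [Submodule.mem_torsionBy_iff, natCast_zsmul]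

theorem finite_torsionBy (D : DivFormula W) {n : ℕ} (hn : n ≠ 0) :
    Finite (Submodule.torsionBy ℤ W.toAffine.Point (n : ℤ)) := by
  refine Set.Finite.subset (setOf_nsmul_eq_zero_finite D hn) fun P hP => ?_
  exact (mem_torsionBy_iff n P).mp hP

theorem natCard_torsionBy [IsAlgClosed K] (hΔ : W.Δ ≠ 0) (D : DivFormula W) {n : ℕ}
    (hn : (n : K) ≠ 0) :
    Nat.card (Submodule.torsionBy ℤ W.toAffine.Point (n : ℤ)) = n ^ 2 := by
  rw [← natCard_nsmul_eq_zero hΔ D hn]
  exact Nat.card_congr (Equiv.subtypeEquivRight fun P => mem_torsionBy_iff n P)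

/-- `E[n] ≃ (ℤ/n)²`, elementary form. -/
theorem exists_torsion_basis [IsAlgClosed K] (hΔ : W.Δ ≠ 0) (D : DivFormula W) {n : ℕ}
    (hn : (n : K) ≠ 0) :
    ∃ P Q : W.toAffine.Point, n • P = 0 ∧ n • Q = 0 ∧
      (∀ a b : ℤ, a • P + b • Q = 0 ↔ (n : ℤ) ∣ a ∧ (n : ℤ) ∣ b) ∧
      ∀ R : W.toAffine.Point, n • R = 0 → ∃ a b : ℤ, R = a • P + b • Q := by
  have hn0 : n ≠ 0 := by rintro rfl; simp at hn
  refine exists_basis hn0 (fun m hm Q => exists_nsmul_eq hΔ D ?_ Q)
    (fun m hm => natCard_nsmul_eq_zero hΔ D ?_)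
  · rintro rfl; exact hn0 (zero_dvd_iff.mp hm)
  · intro h
    obtain ⟨c, rfl⟩ := hm
    exact hn (by rw [Nat.cast_mul, h, zero_mul])

/-- `E[n] ≃ (ℤ/n)²`, as a basis of the `ZMod n`-module `E[n]`. -/
theorem exists_torsion_zmod_basis [IsAlgClosed K] (hΔ : W.Δ ≠ 0) (D : DivFormula W) {n : ℕ}
    (hn : (n : K) ≠ 0) [Module (ZMod n) (Submodule.torsionBy ℤ W.toAffine.Point (n : ℤ))] :
    Nonempty (Module.Basis (Fin 2) (ZMod n)
      (Submodule.torsionBy ℤ W.toAffine.Point (n : ℤ))) := by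
  obtain ⟨P, Q, hP, hQ, hind, hgen⟩ := exists_torsion_basis hΔ D hn
  obtain ⟨b, -, -⟩ := exists_zmod_basis (n := n)
    (T := Submodule.torsionBy ℤ W.toAffine.Point (n : ℤ))
    ⟨P, (mem_torsionBy_iff n P).mpr hP⟩ ⟨Q, (mem_torsionBy_iff n Q).mpr hQ⟩
    (fun a b hab => (hind a b).mp (congrArg Subtype.val hab))
    (fun R => by
      obtain ⟨a, b, h⟩ := hgen R.1 ((mem_torsionBy_iff n R.1).mp R.2)
      exact ⟨a, b, Subtype.ext h⟩)
  exact ⟨b⟩

end AlgClosed

section Qbar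

open scoped WeierstrassCurve.Affine
open WeierstrassCurve.Affine.Point

variable {R : Type*} {K : Type*} [CommRing R] [Field K] [DecidableEq K] [Algebra R K]
  (W' : Affine R)

omit [DecidableEq K] in
theorem map_Δ_ne_zero (hΔ : algebraMap R K W'.Δ ≠ 0) : (W'⁄K).Δ ≠ 0 := by
  change (WeierstrassCurve.map W' (algebraMap R K)).Δ ≠ 0
  rw [WeierstrassCurve.map_Δ]; exact hΔ

theorem finite_torsionBy_baseChange (D : DivFormula (W'⁄K)) {n : ℕ} (hn : n ≠ 0) :
    Finite (Submodule.torsionBy ℤ (W'⁄K).Point (n : ℤ)) :=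
  finite_torsionBy D hn

theorem natCard_torsionBy_baseChange [IsAlgClosed K] (hΔ : algebraMap R K W'.Δ ≠ 0)
    (D : DivFormula (W'⁄K)) {n : ℕ} (hn : (n : K) ≠ 0) :
    Nat.card (Submodule.torsionBy ℤ (W'⁄K).Point (n : ℤ)) = n ^ 2 :=
  natCard_torsionBy (map_Δ_ne_zero W' hΔ) D hn

theorem exists_basis_torsionBy_baseChange [IsAlgClosed K] (hΔ : algebraMap R K W'.Δ ≠ 0)
    (D : DivFormula (W'⁄K)) {n : ℕ} (hn : (n : K) ≠ 0) :
    Nonempty (Module.Basis (Fin 2) (ZMod n) (Submodule.torsionBy ℤ (W'⁄K).Point (n : ℤ))) :=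
  exists_torsion_zmod_basis (map_Δ_ne_zero W' hΔ) D hn

theorem finrank_torsionBy_baseChange [IsAlgClosed K] (hΔ : algebraMap R K W'.Δ ≠ 0)
    (D : DivFormula (W'⁄K)) {n : ℕ} (hn1 : n ≠ 1) (hn : (n : K) ≠ 0) :
    Module.finrank (ZMod n) (Submodule.torsionBy ℤ (W'⁄K).Point (n : ℤ)) = 2 := by
  obtain ⟨b⟩ := exists_basis_torsionBy_baseChange W' hΔ D hn
  haveI : Nontrivial (ZMod n) := by
    rw [← not_subsingleton_iff_nontrivial, ZMod.subsingleton_iff]; exact hn1
  rw [Module.finrank_eq_card_basis b, Fintype.card_fin]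

theorem nontrivial_torsionBy_baseChange [IsAlgClosed K] (hΔ : algebraMap R K W'.Δ ≠ 0)
    (D : DivFormula (W'⁄K)) {n : ℕ} (hn1 : n ≠ 1) (hn : (n : K) ≠ 0) :
    Nontrivial (Submodule.torsionBy ℤ (W'⁄K).Point (n : ℤ)) := by
  have hn0 : n ≠ 0 := by rintro rfl; simp at hn
  haveI := finite_torsionBy_baseChange W' D hn0
  refine (Finite.one_lt_card_iff_nontrivial).mp ?_
  rw [natCard_torsionBy_baseChange W' hΔ D hn]
  exact Nat.one_lt_pow two_ne_zero (by omega)

theorem galoisFactors_of_divFormula (W : WeierstrassCurve ℚ)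
    (D : DivFormula (W⁄(AlgebraicClosure ℚ))) {n : ℕ} (hn : n ≠ 0) :
    GaloisFactorsThroughFiniteLevel
      (WeierstrassCurve.Affine.Point.galoisRepModuleEnd (K := AlgebraicClosure ℚ) ℚ W n) :=
  galoisFactorsThroughFiniteLevel_torsion W n (finite_torsionBy_baseChange W D hn)

end Qbar

end Fermat.Agent.H42
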