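import Fermat.Agent.H87Mul
import Fermat.Agent.H42Torsion

set_option autoImplicit false

/-!
# Unconditional division polynomial package (supplies `H42.DivFormula`)
-/

namespace Fermat.Agent.H87

open WeierstrassCurve

/-- The division polynomial package holds for every Weierstrass curve with `Δ ≠ 0`. -/
theorem divFormula {K : Type*} [Field K] [DecidableEq K] {W : WeierstrassCurve K}
    (hΔ : W.Δ ≠ 0) : H42.DivFormula W where
  nsmul_eq_zero_iff n _ _ h := nsmul_eq_zero_iff (W := W.toAffine) n h
  x_nsmul n _ _ _ _ h h2 he := x_nsmul (W := W.toAffine) n h h2 he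
  isCoprime_Φ_ΨSq n := isCoprime_Φ_ΨSq (W := W.toAffine) hΔ n

end Fermat.Agent.H87
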