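import Fermat.Agent.H59RedTors
import Fermat.Agent.H62FrobCharpoly
import Fermat.Agent.H87DivFormula

set_option autoImplicit false

/-!
# Reader's guide: elliptic curves, steps of the proofs

Every theorem of this file is a citation of the library (at most three lines), with the statement written
out in full; no other module imports it.  It is a companion of `GuideCurves`: for the main theorems of that
file it shows the intermediate statements of the proofs.

**The theorems of `GuideCurves` and their steps.**
* **Division polynomials** (section 1, for `nsmul_eq_zero_iff`, `x_nsmul`): the values of the division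
  polynomials at a point are an elliptic divisibility sequence (`ev_eq`, `ev_recursion`, `ev_sq`); a symmetric
  three-variable form computes x-coordinates (`symmetric_form`); the induction for a point at which no
  division polynomial vanishes (`chain`, `generic_multiples`); passage to all points through the universal
  pointed curve (`universal_ne_zero`, `universal_identity`, `projective_multiples`, `coprime`).
* **`#E[n] = n²`** (section 2, for `natCard_torsion`, `exists_basis_torsion`): the fibres of multiplication by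
  `n` (`wronskian`, `fibre_degree`, `multiple_of_root`, `natCard_fibre`, `separable_fibre`), and the
  structure of `A[n]` (`exists_two_generators`).
* **Curves over finite fields** (section 3, for `height_frobenius_sub_one`, `height_parallelogram`,
  `frobenius_equation`, `hasse_inequality`): the x-coordinate of `φQ - Q`, `Q` the generic point, its zeros
  and poles (`lucas_values`, `numerator`, `numerator_value`, `lucas_cases`, `simple_zero`, `numerator_zeros`,
  `points_above`, `reduced_fraction`); the height on the function field (`function_field`, `height`,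
  `addition_forms`, `substitution`, `endomorphism_of_point`, `height_of_frobenius`,
  `generic_point_equation`); all points are specialisations of the generic one (`transcendental_points`).
* **Reduction** (section 4, for `reduces_add`, `eq_zero_of_reduces_zero`): `slope_reduces`,
  `sum_in_kernel`, `kernel_is_closed`, `good_reduction`; the cuspidal cubic and a change of scale
  (`cusp_additive`, `rescaling`), `injective_on_torsion`.

For the Weil pairing see `GuideWeil`, for the Tate module `GuideCurvesTate` and `GuideTateModule`.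

**Why this way.**  Mathlib has the group law and the definition of the division polynomials, but not their
relation to multiplication by `n`, no isogenies, no divisors on curves and no reduction of points.  All of
this is replaced by identities between coordinates, polynomials in one variable and counting.

**Conventions.**  `K` is a field, `W` a Weierstrass equation in Mathlib's sense, `W.Point` its group of points
with the point `0` at infinity.  The line "Closures: ..." at the end of a docstring names all statements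
SNN whose proof term depends on the library theorem cited (computed by a traversal of the proof terms of the
60 statements).

**Modules** by helper87 (section 1), helper42 (section 2), helper62 (section 3), helper59 (section 4); text by
helper87.  **Prose**: NOTES.md, Appendix A: NOTES-ECLIB (helper87), NOTES-TORSION-S42 (helper42),
NOTES-PARTS-helper62.
-/

namespace Fermat.Agent.Guide.CurvesSteps

open WeierstrassCurve WeierstrassCurve.Affine WeierstrassCurve.Affine.Point Polynomial

/-! ## 1. Division polynomials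

`GuideCurves` states the results: `n P = 0` if and only if `ΨSq_n(x(P)) = 0`, and `x(nP) = Φ_n(x)/ΨSq_n(x)`.
Here is the proof. -/

/-- *The sequence.* `H87.ev W x y n` is the value of the `n`-th division polynomial at `(x, y)`, defined as
Mathlib's normalised elliptic divisibility sequence with the first values `2y + a₁x + a₃`, `Ψ₃(x)` and
`preΨ₄(x)`. Module `H87Generic`.
Closures: S01, S03, S04, S06, S09, S12, S13, S15, S38-S46, S50, S52, S58-S60. -/
theorem ev_eq {R : Type*} [CommRing R] (W : WeierstrassCurve R) (x y : R) :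
    (∀ n : ℤ, H87.ev W x y n =
      normEDS (2 * y + W.a₁ * x + W.a₃) (W.Ψ₃.eval x) (W.preΨ₄.eval x) n) ∧
    H87.ev W x y 0 = 0 ∧ H87.ev W x y 1 = 1 ∧ H87.ev W x y 2 = 2 * y + W.a₁ * x + W.a₃ ∧
    H87.ev W x y 3 = W.Ψ₃.eval x ∧
    H87.ev W x y 4 = W.preΨ₄.eval x * (2 * y + W.a₁ * x + W.a₃) :=
  ⟨fun _ => rfl, H87.ev_zero .., H87.ev_one .., H87.ev_two .., H87.ev_three .., H87.ev_four ..⟩

/-- *The recursion*, for every commutative ring, also outside the curve. Module `H87Generic`.
Closures: S01, S03, S04, S06, S09, S12, S13, S15, S38-S46, S50, S52, S58-S60. -/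
theorem ev_recursion {R : Type*} [CommRing R] (W : WeierstrassCurve R) (x y : R) (m : ℤ) :
    H87.ev W x y (2 * m) * H87.ev W x y 2 =
      H87.ev W x y (m - 1) ^ 2 * H87.ev W x y m * H87.ev W x y (m + 2) -
        H87.ev W x y (m - 2) * H87.ev W x y m * H87.ev W x y (m + 1) ^ 2 ∧
    H87.ev W x y (2 * m + 1) = H87.ev W x y (m + 2) * H87.ev W x y m ^ 3 -
      H87.ev W x y (m - 1) * H87.ev W x y (m + 1) ^ 3 :=
  ⟨H87.ev_even W x y m, H87.ev_odd W x y m⟩

/-- *On the curve* the polynomials `ΨSq_n` and `Φ_n` of Mathlib are `ψ_n²` and `x ψ_n² - ψ_(n+1) ψ_(n-1)`.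
Module `H87Generic`.
Closures: S01, S03, S04, S06, S09, S12, S13, S15, S38-S46, S50, S52, S58-S60. -/
theorem ev_sq {R : Type*} [CommRing R] {W : WeierstrassCurve R} {x y : R}
    (h : W.toAffine.Equation x y) (n : ℤ) :
    (W.ΨSq n).eval x = H87.ev W x y n ^ 2 ∧
    (W.Φ n).eval x = x * H87.ev W x y n ^ 2 - H87.ev W x y (n + 1) * H87.ev W x y (n - 1) :=
  ⟨(H87.ev_sq h n).symm, H87.eval_Φ h n⟩

/-- **The symmetric form.** There is a polynomial `H(a, b, c)` in three x-coordinates (`H87.HH`, made from
the three forms of the Kummer relation), invariant under cyclic permutation, with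
`H(a, x(A), x(B)) = (a - x(A+B)) (a - x(A-B)) (x(A) - x(B))²` for all points `A`, `B` with `A`, `B`, `A ± B`
not zero. Its symmetry relates the x-coordinates of the points `mP` for different triples of multiples. Here
`Q.xRep 0` is the x-coordinate of `Q ≠ 0` (Mathlib). Modules `H87AddSub`, `H87Generic`.
Closures: S01, S03, S04, S06, S09, S12, S13, S15, S38-S46, S50, S52, S58-S60. -/
theorem symmetric_form {K : Type*} [Field K] [DecidableEq K] {W : Affine K} :
    (∀ a b c : K, H87.HH W a b c = H87.HH W c a b) ∧
    ∀ A B : W.Point, A ≠ 0 → B ≠ 0 → A + B ≠ 0 → A - B ≠ 0 → ∀ a : K,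
      H87.HH W a (A.xRep 0) (B.xRep 0) =
        (a - (A + B).xRep 0) * (a - (A - B).xRep 0) * (A.xRep 0 - B.xRep 0) ^ 2 :=
  ⟨H87.HH_symm, fun _ _ h1 h2 h3 h4 a => H87.HH_eq h1 h2 h3 h4 a⟩

/-- **The chain lemma** (no curve in it): two sequences `X` (x-coordinates of the multiples of `P`) and `e`
(division polynomials, not zero) in a field. From the formula for `X 1 - X (i+1)` (`h1`) and the relations
given by the symmetric form (`star1`, `star`) follows the formula for all differences:
`(X (m+j) - X m) e(m+j)² e(m)² = - e(2m+j) e(j)`. Module `H87Chain`.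
Closures: S01, S03, S04, S06, S09, S12, S13, S15, S38-S46, S50, S52, S58-S60. -/
theorem chain {K : Type*} [Field K] (X e : ℕ → K) (M : ℕ) (he1 : e 1 = 1)
    (hne : ∀ k, 1 ≤ k → k ≤ M → e k ≠ 0)
    (h1 : ∀ i, i + 1 ≤ M → (X 1 - X (i + 1)) * e (i + 1) ^ 2 = e (i + 2) * e i)
    (star1 : ∀ j, 1 ≤ j → j + 3 ≤ M → (X (j + 2) - X 2) * e 2 ^ 2 =
      -((X 1 - X (j + 3)) * (X 1 - X (j + 1)) * (X (j + 2) - X 1) ^ 2))
    (star : ∀ i j, 2 ≤ j → 2 * i + 4 + j ≤ M →
      (X (i + 2 + j) - X (i + 3)) * (X (i + 2 + j) - X (i + 1)) * (X (i + 2) - X 1) ^ 2 =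
      (X 1 - X (2 * i + 4 + j)) * (X 1 - X j) * (X (i + 2 + j) - X (i + 2)) ^ 2) :
    ∀ m j, 1 ≤ m → 1 ≤ j → 2 * m + j ≤ M + 1 →
      (X (m + j) - X m) * e (m + j) ^ 2 * e m ^ 2 = -(e (2 * m + j) * e j) :=
  H87.chain X e M he1 hne h1 star1 star

/-- **Multiples of a generic point**: if no division polynomial vanishes at the point `P = (x, y)`, then no
multiple of `P` is zero and `(x - x(kP)) ψ_k² = ψ_(k+1) ψ_(k-1)`. Induction on `k` with `chain` and the
recursion. Module `H87Generic`.
Closures: S01, S03, S04, S06, S09, S12, S13, S15, S38-S46, S50, S52, S58-S60. -/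
theorem generic_multiples {K : Type*} [Field K] [DecidableEq K] {W : Affine K} {x y : K}
    (h : W.Nonsingular x y) (hne : ∀ k : ℕ, 1 ≤ k → H87.ev W x y k ≠ 0) (i : ℕ) :
    (i + 1) • (Point.some x y h : W.Point) ≠ 0 ∧
      (x - ((i + 1) • (Point.some x y h : W.Point)).xRep 0) *
          H87.ev W x y ((i + 1 : ℕ) : ℤ) ^ 2 =
        H87.ev W x y ((i + 2 : ℕ) : ℤ) * H87.ev W x y ((i : ℕ) : ℤ) :=
  H87.generic_mul h hne (i + 1) i le_rfl

/-- **The universal pointed curve** `H87.WU` over `ℤ[a₁, a₂, a₃, a₄, x, y]` (`a₆` is determined by the point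
`(x, y)`): no division polynomial vanishes at its point (specialise to `y² = x³` and the point `(t², t³)`),
and every point of every curve is a specialisation of it. Module `H87Mul`.
Closures: S01, S03, S04, S06, S09, S12, S13, S15, S38-S46, S50, S52, S58-S60. -/
theorem universal_ne_zero :
    (∀ k : ℕ, 1 ≤ k → H87.ev H87.WU (MvPolynomial.X 4) (MvPolynomial.X 5) k ≠ 0) ∧
    ∀ {R : Type*} [CommRing R] (W : WeierstrassCurve R) (x y : R), W.toAffine.Equation x y →
      H87.WU.map (H87.specU W x y) = W ∧ H87.specU W x y (MvPolynomial.X 4) = x ∧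
        H87.specU W x y (MvPolynomial.X 5) = y :=
  ⟨H87.ev_universal_ne_zero, fun W x y h => ⟨H87.specU_map W x y h, H87.specU_x W x y,
    H87.specU_y W x y⟩⟩

/-- **The identities which pass to all points.** With `e = ψ` and `f n = x ψ_n² - ψ_(n+1) ψ_(n-1)`
(`= Φ_n`), the sum and the product of `x((n+1)P)` and `x((n-1)P)` are given by the Kummer relation of `nP`
and `P`. They hold on the universal curve by `generic_multiples`, hence at every point of every Weierstrass
curve over every commutative ring. Module `H87Mul`.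
Closures: S01, S03, S04, S06, S09, S12, S13, S15, S38-S46, S50, S52, S58-S60. -/
theorem universal_identity {R : Type*} [CommRing R] {W : WeierstrassCurve R} {x y : R}
    (h : W.toAffine.Equation x y) (n : ℕ) (hn : 1 ≤ n) (e f : ℤ → R)
    (he : ∀ k, e k = H87.ev W x y k) (hf : ∀ k, f k = x * e k ^ 2 - e (k + 1) * e (k - 1)) :
    f (n + 1) * e (n - 1) ^ 2 + f (n - 1) * e (n + 1) ^ 2 =
      2 * (f n + x * e n ^ 2) * (f n * x) + W.b₂ * (f n * x) * e n ^ 2 +
        W.b₄ * (f n + x * e n ^ 2) * e n ^ 2 + W.b₆ * (e n ^ 2) ^ 2 ∧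
    f (n + 1) * f (n - 1) = (f n * x) ^ 2 - W.b₄ * (f n * x) * e n ^ 2 -
      W.b₆ * (f n + x * e n ^ 2) * e n ^ 2 - W.b₈ * (e n ^ 2) ^ 2 := by
  simpa [H87.Ident, hf, he, add_assoc, one_add_one_eq_two, sub_sub] using H87.ident h n hn

/-- **`(Φ_n(x) : ΨSq_n(x))` are homogeneous coordinates of `x(nP)`**, for every nonsingular point of every
Weierstrass curve over every field. From `universal_identity` by induction on `n`. Module `H87Mul`.
Closures: S01, S03, S04, S06, S09, S12, S13, S15, S38-S46, S50, S52, S58-S60. -/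
theorem projective_multiples {K : Type*} [Field K] [DecidableEq K] {W : Affine K} {x y : K}
    (h : W.Nonsingular x y) (n : ℕ) :
    ∃ c : K, c ≠ 0 ∧ (W.Φ n).eval x = c * (n • (Point.some x y h : W.Point)).xRep 0 ∧
      (W.ΨSq n).eval x = c * (n • (Point.some x y h : W.Point)).xRep 1 :=
  H87.xRep_nsmul h n

/-- **`Φ_n` and `ΨSq_n` are coprime** if the discriminant is not zero (a common zero `x` would give a point
`P` such that `nP` has homogeneous coordinates `(0 : 0)`). Module `H87Mul`.
Closures: S01, S03, S04, S06, S09, S12, S13, S15, S38-S46, S50, S52, S58-S60. -/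
theorem coprime {K : Type*} [Field K] {W : Affine K} (hΔ : W.Δ ≠ 0) (n : ℕ) :
    IsCoprime (W.Φ n) (W.ΨSq n) :=
  H87.isCoprime_Φ_ΨSq hΔ n

/-! ## 2. `#E[n] = n²`

`H42.fibPoly W n c` is the polynomial `Φ_n - c ΨSq_n`: its roots are the x-coordinates of the points `P` with
`x(nP) = c`. -/

/-- **The Wronskian of `Φ_n` and `ΨSq_n` is not zero** if `n ≠ 0` in `K`: its leading coefficient is `n²`
(the leading coefficients of `Φ_n`, `ΨSq_n` are `1`, `n²`). So only finitely many `Φ_n - c ΨSq_n` have a
double root. Module `H42Torsion`.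
Closures: S01, S03, S04, S06, S09, S12, S13, S15, S38-S41, S43-S46, S50, S52, S58-S60. -/
theorem wronskian {K : Type*} [Field K] (W : WeierstrassCurve K) {n : ℕ} (hn : (n : K) ≠ 0) :
    derivative (W.Φ n) * W.ΨSq n - W.Φ n * derivative (W.ΨSq n) ≠ 0 :=
  H42.wronskian_ne_zero W hn

/-- *The fibre polynomial* has degree `n²`. Module `H42Torsion`.
Closures: S01, S03, S04, S06, S09, S12, S13, S15, S38-S41, S43-S46, S50, S52, S58-S60. -/
theorem fibre_degree {K : Type*} [Field K] {W : WeierstrassCurve K} {n : ℕ} (hn : n ≠ 0) (c : K) :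
    (H42.fibPoly W n c).natDegree = n ^ 2 ∧
      ∀ r, (H42.fibPoly W n c).IsRoot r ↔ c * (W.ΨSq n).eval r = (W.Φ n).eval r :=
  ⟨H42.natDegree_fibPoly hn c, fun _ => H42.isRoot_fibPoly⟩

/-- *Points above a root*: if `r` is a root of `Φ_n - x₀ ΨSq_n`, then `n (r, y) = ± (x₀, y₀)`. With
`fibre_degree` this shows that multiplication by `n` is surjective over an algebraically closed field
(`nsmul_surjective` in `GuideCurves`). Modules `H42Torsion`, `H87DivFormula`.
Closures: S01, S03, S04, S06, S09, S12, S13, S38-S41, S43-S46, S50, S58-S60. -/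
theorem multiple_of_root {K : Type*} [Field K] [DecidableEq K] {W : WeierstrassCurve K}
    (hΔ : W.Δ ≠ 0) {n : ℕ} {x₀ y₀ r y : K} (h₀ : W.toAffine.Nonsingular x₀ y₀)
    (hr : (H42.fibPoly W n x₀).IsRoot r) (h : W.toAffine.Nonsingular r y) :
    n • (Point.some r y h : W.toAffine.Point) = Point.some x₀ y₀ h₀ ∨
      n • (Point.some r y h : W.toAffine.Point) = -Point.some x₀ y₀ h₀ :=
  H42.nsmul_of_isRoot (H87.divFormula hΔ) h₀ hr h

/-- **The fibre over a point `Q = (x₀, y₀)` with `Q ≠ -Q`** has as many elements as `Φ_n - x₀ ΨSq_n` has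
distinct roots: above every root lie two points `P`, `-P`, and exactly one of them has `nP = Q`. Modules
`H42Torsion`, `H87DivFormula`.
Closures: S01, S03, S04, S06, S09, S12, S13, S38-S41, S43-S46, S50, S58-S60. -/
theorem natCard_fibre {K : Type*} [Field K] [DecidableEq K] [IsAlgClosed K]
    {W : WeierstrassCurve K} (hΔ : W.Δ ≠ 0) {n : ℕ} (hn : n ≠ 0) {x₀ y₀ : K}
    (h₀ : W.toAffine.Nonsingular x₀ y₀)
    (hneg : (Point.some x₀ y₀ h₀ : W.toAffine.Point) ≠ -Point.some x₀ y₀ h₀) :
    Nat.card {P : W.toAffine.Point // n • P = Point.some x₀ y₀ h₀} =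
      (H42.fibPoly W n x₀).roots.toFinset.card :=
  H42.natCard_fiber hΔ (H87.divFormula hΔ) hn h₀ hneg

/-- **A fibre with `n²` elements**: some `Q ≠ -Q` is such that `Φ_n - x(Q) ΨSq_n` has no double root, by
`wronskian`. The fibre over it is a coset of `E[n]`, so `#E[n] = n²`. Modules `H42Torsion`, `H87DivFormula`.
Closures: S01, S03, S04, S06, S09, S12, S13, S38-S41, S43-S46, S50, S58-S60. -/
theorem separable_fibre {K : Type*} [Field K] [DecidableEq K] [IsAlgClosed K]
    {W : WeierstrassCurve K} (hΔ : W.Δ ≠ 0) {n : ℕ} (hn : (n : K) ≠ 0) :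
    ∃ (x₀ y₀ : K) (h₀ : W.toAffine.Nonsingular x₀ y₀),
      (Point.some x₀ y₀ h₀ : W.toAffine.Point) ≠ -Point.some x₀ y₀ h₀ ∧
        (H42.fibPoly W n x₀).roots.Nodup :=
  H42.exists_good hΔ (H87.divFormula hΔ) hn

/-- **`A[n] ≅ (ℤ/n)²`** for an abelian group `A` in which multiplication by every divisor `m` of `n` is
surjective and `#A[m] = m²`. Module `H42Rank2`.
Closures: S01, S03, S04, S06, S09, S12, S13, S38-S41, S43-S46, S50, S58-S60. -/
theorem exists_two_generators {A : Type*} [AddCommGroup A] {n : ℕ} (hn : n ≠ 0)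
    (hsurj : ∀ m : ℕ, m ∣ n → ∀ Q : A, ∃ P, m • P = Q)
    (hcard : ∀ m : ℕ, m ∣ n → Nat.card {P : A // m • P = 0} = m ^ 2) :
    ∃ P Q : A, n • P = 0 ∧ n • Q = 0 ∧
      (∀ a b : ℤ, a • P + b • Q = 0 ↔ (n : ℤ) ∣ a ∧ (n : ℤ) ∣ b) ∧
      ∀ R : A, n • R = 0 → ∃ a b : ℤ, R = a • P + b • Q :=
  H42.exists_basis hn hsurj hcard

/-! ## 3. Elliptic curves over finite fields: the degree of `φ - 1`

`K` is a finite field with `q` elements, `φ(x, y) = (x^q, y^q)` and `Q = (t, y)` the generic point of `W`.
Write the equation as `y² + e(t) y = f(t)` (`H62.eP`, `H62.fP`). The x-coordinate of `φQ - Q` is a fraction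
`Num(t) / (t^q - t)²`; `GuideCurves`, `height_frobenius_sub_one`, says that its degree is `#W(K)`. -/

/-- *Lucas sequences*: `V_n = α^n + β^n` and `(α - β) U_n = α^n - β^n` for the roots `α`, `β` of
`Y² + eY - f`, as polynomials in `e` and `f` (`H62.luV`, `H62.luU`). They are used to write symmetric
functions of `y` and `-y - e` as polynomials in `t`, also in characteristic 2. Module `H62Lucas`.
Closures: S01, S03, S04, S06, S38-S41, S43-S46, S50, S52, S58-S60. -/
theorem lucas_values {R : Type*} [CommRing R] {e f α β : R} (h1 : α + β = -e) (h2 : α * β = -f)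
    (n : ℕ) : H62.luV e f n = α ^ n + β ^ n ∧ (α - β) * H62.luU e f n = α ^ n - β ^ n :=
  ⟨H62.luV_eq_pow h1 h2 n, H62.luU_eq_pow h1 h2 n⟩

/-- **The numerator of `x(φQ - Q)`** is a polynomial in `t` of degree `2q + 1`; the denominator is
`(t^q - t)²`. Module `H62Count`.
Closures: S01, S03, S04, S06, S38-S41, S43-S46, S50, S52, S58-S60. -/
theorem numerator {K : Type*} [Field K] [Fintype K] (W : WeierstrassCurve K) :
    H62.NumP W = (H62.fP W + H62.fP W ^ Fintype.card K +
        H62.luV (H62.eP W) (H62.fP W) (Fintype.card K + 1)) -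
      (C W.a₂ + X ^ Fintype.card K + X) * (X ^ Fintype.card K - X) ^ 2 ∧
    (H62.NumP W).natDegree = 2 * Fintype.card K + 1 :=
  ⟨rfl, H62.natDegree_NumP W⟩

/-- **Value and derivative of the numerator** at an element `c` of `K`, in terms of the Lucas sequences of
`y² + e(c) y = f(c)`: `Num(c) = 2 f(c) + V_{q+1}` and `Num'(c) = f'(c) + U_q f'(c) - U_{q+1} a₁`. (The term
with `(t^q - t)²` has a double zero at `c`, and `V_{n+1}' = (n + 1) (U_n f' - U_{n+1} e')` with `q + 1 = 1`
in `K`.) Modules `H62Lucas`, `H62Count`.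
Closures: S01, S03, S04, S06, S38-S41, S43-S46, S50, S52, S58-S60. -/
theorem numerator_value {K : Type*} [Field K] [Fintype K] (W : WeierstrassCurve K) (c : K) :
    (H62.NumP W).eval c = 2 * (H62.fP W).eval c +
        H62.luV ((H62.eP W).eval c) ((H62.fP W).eval c) (Fintype.card K + 1) ∧
    (derivative (H62.NumP W)).eval c = (derivative (H62.fP W)).eval c
      + H62.luU ((H62.eP W).eval c) ((H62.fP W).eval c) (Fintype.card K) *
        (derivative (H62.fP W)).eval c
      - H62.luU ((H62.eP W).eval c) ((H62.fP W).eval c) (Fintype.card K + 1) * W.a₁ :=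
  ⟨(H62.eval_NumP W c).trans (H62.eval_SP W c),
    (H62.eval_derivative_NumP W c).trans (H62.eval_derivative_SP W c)⟩

/-- **The three cases**, for an equation `y² + e y = f` over `K`. No solution in `K`: Frobenius exchanges
the two roots, `α^q = β`, and `V_{q+1} = -2 f`, `U_q = -1`, `U_{q+1} = 0`. A double solution `α`:
`V_{q+1} = -2 f`, `U_q = 0`, `U_{q+1} = α`. Two solutions: `2 f + V_{q+1} = (α - β)² ≠ 0`. So by
`numerator_value` the numerator has at `c` a zero which is not simple in the first case, and no zero in the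
third. Module `H62Count`.
Closures: S01, S03, S04, S06, S38-S41, S43-S46, S50, S52, S58-S60. -/
theorem lucas_cases {K : Type*} [Field K] [Fintype K] (e f : K) :
    ((∀ y : K, y ^ 2 + e * y ≠ f) → H62.luV e f (Fintype.card K + 1) = -2 * f ∧
      H62.luU e f (Fintype.card K) = -1 ∧ H62.luU e f (Fintype.card K + 1) = 0) ∧
    ∀ α : K, α ^ 2 + e * α = f →
      (α + α = -e → H62.luV e f (Fintype.card K + 1) = -2 * f ∧
        H62.luU e f (Fintype.card K) = 0 ∧ H62.luU e f (Fintype.card K + 1) = α) ∧
      (α + α ≠ -e → 2 * f + H62.luV e f (Fintype.card K + 1) ≠ 0) :=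
  ⟨H62.loc_none e f, fun _ h => ⟨H62.loc_one h, H62.loc_two h⟩⟩

/-- **The zero at a single point is simple**: if `(c, y)` is the only point above `c`, the derivative of the
numerator at `c` is `f'(c) - a₁ y` by the last two theorems, and this is not zero because `W` is nonsingular
at `(c, y)` (the derivative of the equation with respect to `y` vanishes there). Module `H62Count`.
Closures: S01, S03, S04, S06, S38-S41, S43-S46, S50, S52, S58-S60. -/
theorem simple_zero {K : Type*} [Field K] (W : WeierstrassCurve K) [W.IsElliptic] {c y : K}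
    (h : y ^ 2 + (H62.eP W).eval c * y = (H62.fP W).eval c) (h2 : y + y = -(H62.eP W).eval c) :
    (derivative (H62.fP W)).eval c - y * W.a₁ ≠ 0 :=
  H62.nonsing_double W h h2

/-- **The zeros of the numerator** at the elements `c` of `K`: multiplicity 0, 1, `≥ 2` if there are 2, 1, 0
points above `c` (`H62.nAbove W c` is the number of `y` in `K` with `(c, y) ∈ W`). The denominator has a
double zero at every `c`, so exactly `nAbove W c` factors `t - c` remain in the denominator. By
`numerator_value`, `lucas_cases` and `simple_zero`. Module `H62Count`.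
Closures: S01, S03, S04, S06, S38-S41, S43-S46, S50, S52, S58-S60. -/
theorem numerator_zeros {K : Type*} [Field K] [Fintype K] (W : WeierstrassCurve K)
    [W.IsElliptic] (c : K) :
    (H62.nAbove W c = 0 ∧ 2 ≤ (H62.NumP W).rootMultiplicity c) ∨
    (H62.nAbove W c = 1 ∧ (H62.NumP W).rootMultiplicity c = 1) ∨
    (H62.nAbove W c = 2 ∧ (H62.NumP W).rootMultiplicity c = 0) :=
  H62.rootMultiplicity_NumP W c

/-- *Counting points by their x-coordinate*: `#W(K) = 1 + ∑ nAbove W c`. Module `H62Count`.
Closures: S01, S03, S04, S06, S38-S41, S43-S46, S50, S52, S58-S60. -/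
theorem points_above {K : Type*} [Field K] [Fintype K] (W : WeierstrassCurve K) [W.IsElliptic] :
    Nat.card W.toAffine.Point = 1 + ∑ c : K, H62.nAbove W c :=
  H62.card_point W

/-- **The reduced fraction** `A/B` of `Num / (t^q - t)²` has degree `#W(K)`: the degree of `B` is
`∑ nAbove W c`, and that of `A` is one more. `H62.Prim ![A, B] d` says that `A`, `B` generate the unit ideal
and that `d` is the larger of their degrees. Module `H62Count`.
Closures: S01, S03, S04, S06, S38-S41, S43-S46, S50, S52, S58-S60. -/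
theorem reduced_fraction {K : Type*} [Field K] [Fintype K] (W : WeierstrassCurve K)
    [W.IsElliptic] :
    ∃ A B : K[X], H62.Prim ![A, B] (Nat.card W.toAffine.Point) ∧
      A * (X ^ Fintype.card K - X) ^ 2 = B * H62.NumP W :=
  H62.exists_reduced W

/-! ### Heights of points over the function field

The height of a point with values in the function field is the degree of its x-coordinate. It is a quadratic
form; its values at combinations of `Q`, `φQ`, `φφQ` give the Hasse inequality and the characteristic equation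
(`hasse_inequality`, `frobenius_equation` of `GuideCurves`). `H62.PRep t P A B d` is explained in
`prep_iff` of `GuideCurves`: `x(P) = A(t)/B(t)` is a reduced fraction of degree `d`. -/

/-- **The function field** `FF W` of `W` over any field `K` is `K(t)[y]` modulo the equation (`H62.FF.i W`
is the inclusion of `K(t)`): `(t, y)` is a point of `W` with `t` transcendental over `K`, every element is
`a + b y` with `a`, `b` in `K(t)`, and every point `(t', y')` of `W` over a field `F'` with `t'`
transcendental over `K` is the image of `(t, y)` under a homomorphism `FF W → F'`. Module `H62FunField`.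
Closures: S01, S03, S04, S06, S38-S41, S43-S46, S50, S52, S58-S60. -/
theorem function_field {K : Type*} [Field K] (W : WeierstrassCurve K) :
    (W⁄(H62.FF W)).Equation (H62.FF.t W) (H62.FF.y W) ∧
      Function.Injective (aeval (H62.FF.t W) : K[X] →ₐ[K] H62.FF W) ∧
      (∀ z : H62.FF W, ∃ a b : FractionRing K[X],
        z = H62.FF.i W a + H62.FF.i W b * H62.FF.y W) ∧
      ∀ (F' : Type*) [Field F'] [Algebra K F'] (t' y' : F'),
        Function.Injective (aeval t' : K[X] →ₐ[K] F') → (W⁄F').Equation t' y' →
          ∃ ψ : H62.FF W →ₐ[K] F', ψ (H62.FF.t W) = t' ∧ ψ (H62.FF.y W) = y' :=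
  ⟨H62.FF.equation W, H62.FF.aeval_t_injective W, H62.FF.exists_repr W,
    fun _ _ _ t' y' h h' => H62.FF.exists_lift W t' y' h h'⟩

/-- **The height.** `D : H62.GenData W F` (for instance `H62.FF.genData W`) consists of the properties of
the function field `F` which are needed: the generic point `Q₀ = (t, y)`, the automorphism `σ` over `K(t)`
with `σ(y) = -y - a₁ t - a₃` (its fixed field is `K(t)`), and the homomorphisms of `function_field`. The
points `P` with `σ(P) = -P` (`D.sig` is the action of `σ`) form a group `D.G`; their x-coordinates are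
fractions in `t`, `D.ht P` is the degree, and the parallelogram law holds. `Q₀` has height one. Module
`H62Height`.
Closures: S01, S03, S04, S06, S38-S41, S43-S46, S50, S52, S58-S60. -/
theorem height {K F : Type*} [Field K] [Field F] [DecidableEq F] [Algebra K F]
    {W : WeierstrassCurve K} [W.IsElliptic] (D : H62.GenData W F) :
    (∀ P, P ∈ D.G ↔ D.sig P = -P) ∧
      (∀ P ∈ D.G, ∃ A B d, H62.PRep D.t P A B d ∧ D.ht P = d) ∧
      (∀ P ∈ D.G, ∀ Q ∈ D.G, D.ht (P + Q) + D.ht (P - Q) = 2 * D.ht P + 2 * D.ht Q) ∧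
      D.Q₀ ∈ D.G ∧ D.ht D.Q₀ = 1 :=
  ⟨fun _ => D.mem_G, fun _ h => D.exists_rep' h, fun P hP Q hQ => D.parall.par ⟨P, hP⟩ ⟨Q, hQ⟩,
    D.Q₀_mem, (D.ht_eq D.rep_Q₀).trans Nat.cast_one⟩

/-- **The addition forms have no common zero**: for the x-coordinates `α/β` of `P` and `α'/β'` of `Q` (also
`∞ = 1/0`) the three numbers are, up to sign and a common factor, the coefficients of the quadratic
polynomial with the zeros `x(P + Q)`, `x(P - Q)`. Applied over the residue fields of `K[t]` and to the
leading coefficients it shows that nothing cancels in the parallelogram law (`height_parallelogram` of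
`GuideCurves`). Module `H62Prim`.
Closures: S01, S03, S04, S06, S38-S41, S43-S46, S50, S52, S58-S60. -/
theorem addition_forms {κ : Type*} [Field κ] (W : WeierstrassCurve κ) [W.IsElliptic]
    {α β α' β' : κ} (h : α ≠ 0 ∨ β ≠ 0) (h' : α' ≠ 0 ∨ β' ≠ 0) :
    ¬ ((α * α') ^ 2 - W.b₄ * (α * α') * (β * β') - W.b₆ * (α * β' + β * α') * (β * β')
        - W.b₈ * (β * β') ^ 2 = 0 ∧
      2 * (α * β' + β * α') * (α * α') + W.b₂ * (α * α') * (β * β')
        + W.b₄ * (α * β' + β * α') * (β * β') + W.b₆ * (β * β') ^ 2 = 0 ∧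
      (α * β' - β * α') ^ 2 = 0) :=
  H62.addSub_ne_zero W h h'

/-- **Substitution**: if the x-coordinate of `R` is a fraction of degree `N` in `t`, and `ψ` is a
homomorphism of fields with `ψ(t) = U(t')/V(t')` of degree `d`, the x-coordinate of `ψ(R)` is a fraction of
degree `N d` in `t'`. Module `H62Height`.
Closures: S01, S03, S04, S06, S38-S41, S43-S46, S50, S52, S58-S60. -/
theorem substitution {K F F' : Type*} [Field K] [Field F] [DecidableEq F] [Algebra K F]
    [Field F'] [DecidableEq F'] [Algebra K F'] {W : WeierstrassCurve K} {t : F} {t' : F'}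
    {R : (W⁄F).Point} {A B : K[X]} {N : ℕ} (hR : H62.PRep t R A B N) {U V : K[X]} {d : ℕ}
    (hUV : H62.Prim ![U, V] d) (ψ : F →ₐ[K] F') (hψ : ψ t * aeval t' V = aeval t' U) :
    ∃ A' B' : K[X], H62.PRep t' (Point.map (W' := W) ψ R) A' B' (N * d) :=
  ⟨_, _, hR.comp hUV hψ ψ rfl⟩

/-- **A point of positive height is the image of the generic point** under an endomorphism `ψ` of the
function field, and the degree of `ψ(t) = U(t)/V(t)` is the height of the point. Module `H62Height`.
Closures: S01, S03, S04, S06, S38-S41, S43-S46, S50, S52, S58-S60. -/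
theorem endomorphism_of_point {K F : Type*} [Field K] [Field F] [DecidableEq F] [Algebra K F]
    {W : WeierstrassCurve K} [W.IsElliptic] (D : H62.GenData W F) {P : (W⁄F).Point}
    (hP : P ∈ D.G) (hpos : 0 < D.ht P) :
    ∃ ψ : F →ₐ[K] F, Point.map (W' := W) ψ D.Q₀ = P ∧ ∃ (U V : K[X]) (d : ℕ),
      H62.PRep D.t P U V d ∧ D.ht P = d ∧ ψ D.t * aeval D.t V = aeval D.t U :=
  D.exists_lift hP hpos

/-- **Frobenius multiplies the height by `q`** (`frobP` is `(x, y) ↦ (x^q, y^q)`). Module `H62Frob`.
Closures: S01, S03, S04, S06, S38-S41, S43-S46, S50, S52, S58-S60. -/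
theorem height_of_frobenius {K F : Type*} [Field K] [Fintype K] [Field F] [DecidableEq F]
    [Algebra K F] {W : WeierstrassCurve K} (D : H62.GenData W F) {P : (W⁄F).Point}
    (hP : P ∈ D.G) :
    H62.frobP K F W P ∈ D.G ∧ D.ht (H62.frobP K F W P) = Fintype.card K * D.ht P :=
  ⟨D.frobP_mem hP, D.ht_frob hP⟩

/-- **The Hasse inequality and the characteristic equation at the generic point** `Q`, with `a = q + 1 - N`
for the height `N` of `φQ - Q`. Proof: let `H` be the height and `B` its bilinear form,
`B(x, y) = H(x + y) - H(x) - H(y)`. Then `B(Q, φQ) = 1 + q - N = a`, so `a² ≤ 4 q` (`quadratic_inequality`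
of `GuideCurves`); `B(φQ, φφQ) = q a`; and `B(Q, φφQ) = a² - 2 q`, because `φφQ - Q` is the image of
`φQ - Q` under the endomorphism `Q ↦ Q + φQ` and so has height `N (1 + q + a)`. Hence the height of
`Z = φφQ - a φQ + q Q`, which is `H62.Psi K F W a Q`, is zero. If `Z ≠ 0`, the x-coordinate of `Z` is a
constant, and for `n ≠ 0` the endomorphism `Q ↦ n Q` gives `n Z = ± Z`; a contradiction for `n = 2` or
`n = 3`. Module `H62Frob`.
Closures: S01, S03, S04, S06, S38-S41, S43-S46, S50, S52, S58-S60. -/
theorem generic_point_equation {K F : Type*} [Field K] [Fintype K] [Field F] [DecidableEq F]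
    [Algebra K F] {W : WeierstrassCurve K} [W.IsElliptic] (D : H62.GenData W F) {A B : K[X]}
    {N : ℕ} (hN : H62.PRep D.t (H62.frobP K F W D.Q₀ - D.Q₀) A B N) (a : ℤ)
    (ha : a = Fintype.card K + 1 - N) :
    H62.Psi K F W a D.Q₀ = 0 ∧ a ^ 2 ≤ 4 * Fintype.card K :=
  D.Psi_Q₀ hN a ha

/-- **From the generic point to all points with transcendental x-coordinate**: such a point is the image of
the generic point under a homomorphism of the function field, so it satisfies the equation
`φ² - a φ + q = 0` (`H62.Psi k F W a P` is `q P - a φ(P) + φ(φ(P))`). The other points are differences of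
two such points, over a larger field. Module `H62FrobCharpoly`.
Closures: S01, S03, S04, S06, S38-S41, S43-S46, S50, S52, S58-S60. -/
theorem transcendental_points {k : Type*} [Field k] [Fintype k] {W : WeierstrassCurve k}
    [W.IsElliptic] {F : Type*} [Field F] [DecidableEq F] [Algebra k F] {x y : F}
    (h : (W⁄F).Nonsingular x y) (hx : Function.Injective (aeval x : k[X] →ₐ[k] F)) (a : ℤ)
    (ha : a = (Fintype.card k : ℤ) + 1 - (Nat.card W.toAffine.Point : ℤ)) :
    H62.Psi k F W a (Point.some x y h) = 0 :=
  H62.Psi_transcendental h hx a ha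

/-! ## 4. Reduction of points

`A` is a valuation subring of the field `L`, `ρ : A → k` a local homomorphism to a field, `E` a Weierstrass
equation over `A`. -/

/-- **The slope reduces**: if the reductions of two integral points are not opposite, the slope of the line
through the points is integral and reduces to the slope of the reduced line. Module `H59Red`.
Closures: S01, S03, S04, S06, S09, S12, S15, S38-S41, S43-S46, S50, S58-S60. -/
theorem slope_reduces {L k : Type*} [Field L] [DecidableEq L] [Field k] [DecidableEq k]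
    {A : ValuationSubring L} {ρ : A →+* k} [IsLocalHom ρ] {E : WeierstrassCurve A}
    {x₁ y₁ x₂ y₂ : A} (h₁ : (E.map A.subtype).toAffine.Equation (x₁ : L) y₁)
    (h₂ : (E.map A.subtype).toAffine.Equation (x₂ : L) y₂)
    (hne : ¬ (ρ x₁ = ρ x₂ ∧ ρ y₁ = (E.map ρ).toAffine.negY (ρ x₂) (ρ y₂))) :
    ∃ ℓ : A, (ℓ : L) = (E.map A.subtype).toAffine.slope x₁ x₂ y₁ y₂ ∧
      ρ ℓ = (E.map ρ).toAffine.slope (ρ x₁) (ρ x₂) (ρ y₁) (ρ y₂) :=
  H59.slope_red rfl rfl h₁ h₂ hne

/-- **Opposite reductions**: if the reductions are opposite nonsingular points, but the points are not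
opposite, their sum is in the kernel of reduction (its x-coordinate is not integral). Module `H59Red`.
Closures: S01, S03, S04, S06, S09, S12, S15, S38-S41, S43-S46, S50, S58-S60. -/
theorem sum_in_kernel {L k : Type*} [Field L] [DecidableEq L] [Field k]
    {A : ValuationSubring L} {ρ : A →+* k} {E : WeierstrassCurve A}
    {x₁ y₁ x₂ y₂ : A} (h₁ : (E.map A.subtype).toAffine.Equation (x₁ : L) y₁)
    (h₂ : (E.map A.subtype).toAffine.Equation (x₂ : L) y₂)
    (hns : (E.map ρ).toAffine.Nonsingular (ρ x₂) (ρ y₂)) (hx : ρ x₁ = ρ x₂)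
    (hy : ρ y₁ = (E.map ρ).toAffine.negY (ρ x₂) (ρ y₂))
    (hxy : ¬ ((x₁ : L) = x₂ ∧ (y₁ : L) = (E.map A.subtype).toAffine.negY x₂ y₂)) :
    (E.map A.subtype).toAffine.addX x₁ x₂
      ((E.map A.subtype).toAffine.slope x₁ x₂ y₁ y₂) ∉ A :=
  H59.addX_not_mem rfl rfl h₁ h₂ hns hx hy hxy

/-- **The kernel of reduction is closed under addition.** Module `H59Red`.
Closures: S01, S03, S04, S06, S09, S12, S15, S38-S41, S43-S46, S50, S58-S60. -/
theorem kernel_is_closed {L k : Type*} [Field L] [DecidableEq L] [Field k]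
    {A : ValuationSubring L} {E : WeierstrassCurve A} {x₁ y₁ x₂ y₂ : L}
    (h₁ : (E.map A.subtype).toAffine.Nonsingular x₁ y₁)
    (h₂ : (E.map A.subtype).toAffine.Nonsingular x₂ y₂)
    (hxy : ¬ (x₁ = x₂ ∧ y₁ = (E.map A.subtype).toAffine.negY x₂ y₂)) (hx₁ : x₁ ∉ A)
    (hx₂ : x₂ ∉ A) (ρ : A →+* k) [IsLocalHom ρ] :
    (E.map A.subtype).toAffine.addX x₁ x₂
      ((E.map A.subtype).toAffine.slope x₁ x₂ y₁ y₂) ∉ A :=
  H59.addX_not_mem_of_not_mem rfl h₁ h₂ hxy hx₁ hx₂ ρ

/-- *Good reduction*: if the reduced equation has nonzero discriminant, every point reduces to some point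
(an integral equation shows that `x ∈ A` implies `y ∈ A`). Module `H59Red`.
Closures: S01, S03, S04, S06, S09, S12, S15, S38-S41, S43-S46, S50, S58-S60. -/
theorem good_reduction {L k : Type*} [Field L] [Field k] {A : ValuationSubring L}
    {ρ : A →+* k} {E : WeierstrassCurve A} (hΔ : (E.map ρ).Δ ≠ 0)
    (P : (E.map A.subtype).toAffine.Point) :
    ∃ P' : (E.map ρ).toAffine.Point, H59.Reduces A ρ P P' :=
  H59.exists_reduces_of_Δ_ne_zero rfl rfl hΔ P

/-- **The nonsingular points of the cuspidal cubic `y² = x³` are the additive group**: `a = x / y`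
(`H59.cuspT`) is additive, and `x = a⁻²`, `y = a⁻³`. Module `H59RedTors`.
Closures: S01, S03, S04, S06, S09, S12, S15, S38-S41, S43-S46, S50, S58-S60. -/
theorem cusp_additive {k : Type*} [Field k] [DecidableEq k] :
    H59.cusp k = ⟨0, 0, 0, 0, 0⟩ ∧ H59.cuspT (0 : (H59.cusp k).toAffine.Point) = 0 ∧
    (∀ (x y : k) (h : (H59.cusp k).toAffine.Nonsingular x y),
      H59.cuspT (Point.some x y h) = x / y ∧
        ∃ a : k, a ≠ 0 ∧ x = (a ^ 2)⁻¹ ∧ y = (a ^ 3)⁻¹ ∧ x / y = a) ∧
    ∀ P Q : (H59.cusp k).toAffine.Point, H59.cuspT (P + Q) = H59.cuspT P + H59.cuspT Q :=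
  ⟨rfl, rfl, fun _ _ h => ⟨rfl, H59.cusp_param h⟩, H59.cuspT_add⟩

/-- *Change of scale*: `(x, y) ↦ (c² x, c³ y)` is a homomorphism to the points of the equation with `aᵢ`
replaced by `cⁱ aᵢ`. For a point in the kernel of reduction, `c = x / y` is in the maximal ideal and makes
it integral with reduction `(1, 1)` on the cuspidal cubic; by `cusp_additive` `n` times this point is not
`0` if `n ≠ 0` in `k`. Module `H59RedTors`.
Closures: S01, S03, S04, S06, S09, S12, S15, S38-S41, S43-S46, S50, S58-S60. -/
theorem rescaling {L : Type*} [Field L] [DecidableEq L] {c : L} (hc : c ≠ 0) (W : Affine L) :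
    H59.scale c W = ⟨c * W.a₁, c ^ 2 * W.a₂, c ^ 3 * W.a₃, c ^ 4 * W.a₄, c ^ 6 * W.a₆⟩ ∧
    ∃ φ : W.Point →+ (H59.scale c W).Point, ∀ (x y : L) (h : W.Nonsingular x y),
      ∃ h', φ (Point.some x y h) = Point.some (c ^ 2 * x) (c ^ 3 * y) h' :=
  ⟨rfl, H59.scaleHom hc W, fun _ _ h => ⟨H59.nonsingular_scale hc h, rfl⟩⟩

/-- **Reduction is injective on torsion points** of order prime to the residue characteristic, with
nonsingular reduction. Module `H59RedTors`.
Closures: S01, S03, S04, S06, S09, S12, S15, S38, S43, S45, S46, S50, S58-S60. -/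
theorem injective_on_torsion {L k : Type*} [Field L] [DecidableEq L] [Field k] [DecidableEq k]
    {A : ValuationSubring L} {ρ : A →+* k} [IsLocalHom ρ] {E : WeierstrassCurve A}
    {P Q : (E.map A.subtype).toAffine.Point} {P' : (E.map ρ).toAffine.Point}
    (hP : H59.Reduces A ρ P P') (hQ : H59.Reduces A ρ Q P') {n : ℕ} (hn : (n : k) ≠ 0)
    (h : n • P = 0) (h' : n • Q = 0) : P = Q :=
  H59.eq_of_reduces_of_nsmul_eq_zero rfl rfl hP hQ hn h h'

end Fermat.Agent.Guide.CurvesSteps
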