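import Mathlib
import Fermat.Prelude.Def_GaloisRep_Flat

set_option autoImplicit false

open scoped TensorProduct

namespace Fermat.Agent.H19

section Generic

variable {R K L : Type*} [CommRing R] [Field K] [Field L] [Algebra R K]
  [Algebra K L] [Algebra R L] [IsScalarTower R K L]

variable {M : Type*}

/-- Functions equivariant for a "Galois action" which are linearly independent over the small
field remain independent over the big field. -/
theorem linearIndependent_of_equivariant [IsGalois K L] (act : (L ≃ₐ[K] L) → M → M)
    (hact : ∀ σ, Function.Surjective (act σ)) {ι : Type*} (s : ι → M → L)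
    (hs : ∀ i σ m, s i (act σ m) = σ (s i m)) (hlin : LinearIndependent K s) :
    LinearIndependent L s := by
  classical
  rw [linearIndependent_iff']
  intro t
  induction t using Finset.induction_on with
  | empty => intro g _ i hi; simp at hi
  | insert a t ha ih =>
    intro g hg
    by_cases hga : g a = 0
    · have h1 : ∑ i ∈ t, g i • s i = 0 := by
        rw [Finset.sum_insert ha, hga, zero_smul, zero_add] at hg
        exact hg
      intro i hi
      rcases Finset.mem_insert.mp hi with rfl | hi
      · exact hga
      · exact ih g h1 i hi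
    · exfalso
      have h1 : ∀ m, s a m + ∑ i ∈ t, ((g a)⁻¹ * g i) * s i m = 0 := by
        intro m
        have := congrFun hg m
        rw [Finset.sum_insert ha] at this
        simp only [Pi.add_apply, Pi.smul_apply, Finset.sum_apply, smul_eq_mul, Pi.zero_apply] at this
        have h2 : (g a)⁻¹ * (g a * s a m + ∑ x ∈ t, g x * s x m) = 0 := by rw [this, mul_zero]
        rw [mul_add, ← mul_assoc, inv_mul_cancel₀ hga, one_mul, Finset.mul_sum] at h2
        rw [← h2]
        congr 1
        exact Finset.sum_congr rfl fun i _ => by ring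
      have h2 : ∀ (σ : L ≃ₐ[K] L), ∀ i ∈ t, σ ((g a)⁻¹ * g i) - (g a)⁻¹ * g i = 0 := by
        intro σ
        refine ih (fun i => σ ((g a)⁻¹ * g i) - (g a)⁻¹ * g i) ?_
        funext m
        obtain ⟨m', rfl⟩ := hact σ m
        have e1 := congrArg σ (h1 m')
        rw [map_add, map_sum, map_zero] at e1
        simp only [map_mul, ← hs] at e1
        have e2 := h1 (act σ m')
        simp only [Finset.sum_apply, Pi.smul_apply, smul_eq_mul, Pi.zero_apply, sub_mul,
          Finset.sum_sub_distrib]
        simp only [map_mul]
        linear_combination e1 - e2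
      have h3 : ∀ i ∈ t, ∃ k : K, algebraMap K L k = (g a)⁻¹ * g i := by
        intro i hi
        exact (InfiniteGalois.mem_range_algebraMap_iff_fixed _).mpr
          fun σ => sub_eq_zero.mp (h2 σ i hi)
      choose! k hk using h3
      have h4 : ∑ i ∈ insert a t, (if i = a then (1 : K) else k i) • s i = 0 := by
        funext m
        rw [Finset.sum_insert ha]
        simp only [if_true, one_smul, Pi.add_apply, Finset.sum_apply, Pi.smul_apply, Pi.zero_apply]
        rw [← h1 m]
        congr 1
        refine Finset.sum_congr rfl fun i hi => ?_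
        have hia : i ≠ a := by rintro rfl; exact ha hi
        rw [if_neg hia, ← hk i hi, Algebra.smul_def]
      have h5 := linearIndependent_iff'.mp hlin (insert a t) _ h4 a (Finset.mem_insert_self _ _)
      simp at h5

/-- products of two linearly independent families on a product. -/
theorem linearIndependent_prod {X Y : Type*} {ι κ : Type*} [Fintype ι] [Fintype κ]
    {u : ι → X → L} {v : κ → Y → L}
    (hu : LinearIndependent L u) (hv : LinearIndependent L v) :
    LinearIndependent L (fun (p : ι × κ) (q : X × Y) => u p.1 q.1 * v p.2 q.2) := by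
  rw [Fintype.linearIndependent_iff] at hu hv ⊢
  intro g hg
  have h1 : ∀ y, ∀ i, ∑ j, g (i, j) * v j y = 0 := by
    intro y
    refine hu (fun i => ∑ j, g (i, j) * v j y) ?_
    funext x
    have h := congrFun hg (x, y)
    simp only [Finset.sum_apply, Pi.smul_apply, smul_eq_mul, Pi.zero_apply,
      Fintype.sum_prod_type] at h ⊢
    rw [← h]
    refine Finset.sum_congr rfl fun i _ => ?_
    rw [Finset.sum_mul]
    exact Finset.sum_congr rfl fun j _ => by ring
  rintro ⟨i, j⟩
  refine hv (fun j => g (i, j)) ?_ j
  funext y
  simpa only [Finset.sum_apply, Pi.smul_apply, smul_eq_mul, Pi.zero_apply] using h1 y i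

/-- A linear map from a free module to a space of functions is "`L`-injective" if it carries some
finite basis to an `L`-linearly independent family. -/
def LInj {P X : Type*} [AddCommGroup P] [Module R P] (φ : P →ₗ[R] (X → L)) : Prop :=
  ∃ (n : ℕ) (b : Module.Basis (Fin n) R P), LinearIndependent L (fun i => φ (b i))

theorem LInj.injective [FaithfulSMul R L] {P X : Type*} [AddCommGroup P] [Module R P]
    {φ : P →ₗ[R] (X → L)} (h : LInj φ) : Function.Injective φ := by
  obtain ⟨n, b, hb⟩ := h
  rw [injective_iff_map_eq_zero]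
  intro p hp
  rw [Fintype.linearIndependent_iff] at hb
  have h1 : ∑ i, algebraMap R L (b.repr p i) • φ (b i) = 0 := by
    rw [← hp]
    conv_rhs => rw [← b.sum_repr p]
    rw [map_sum]
    refine Finset.sum_congr rfl fun i _ => ?_
    rw [map_smul, algebraMap_smul]
  have h2 := hb _ h1
  rw [← b.sum_repr p]
  refine Finset.sum_eq_zero fun i _ => ?_
  rw [(FaithfulSMul.algebraMap_injective R L) ((h2 i).trans (map_zero _).symm), zero_smul]

/-- the pairing `p ⊗ q ↦ φ p x * ψ q y`. -/
noncomputable def extProd {P Q X Y : Type*} [AddCommGroup P] [Module R P] [AddCommGroup Q]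
    [Module R Q] (φ : P →ₗ[R] (X → L)) (ψ : Q →ₗ[R] (Y → L)) : P ⊗[R] Q →ₗ[R] (X × Y → L) :=
  TensorProduct.lift
    (LinearMap.mk₂ R (fun p q z => φ p z.1 * ψ q z.2)
      (by intro a b c; funext z; simp [add_mul])
      (by intro a b c; funext z; simp)
      (by intro a b c; funext z; simp [mul_add])
      (by intro a b c; funext z; simp))

@[simp] theorem extProd_tmul {P Q X Y : Type*} [AddCommGroup P] [Module R P] [AddCommGroup Q]
    [Module R Q] (φ : P →ₗ[R] (X → L)) (ψ : Q →ₗ[R] (Y → L)) (p : P) (q : Q) (z : X × Y) :
    extProd φ ψ (p ⊗ₜ q) z = φ p z.1 * ψ q z.2 := rfl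

theorem LInj.extProd {P Q X Y : Type*} [AddCommGroup P] [Module R P] [AddCommGroup Q]
    [Module R Q] {φ : P →ₗ[R] (X → L)} {ψ : Q →ₗ[R] (Y → L)} (hφ : LInj φ) (hψ : LInj ψ) :
    LInj (extProd φ ψ) := by
  obtain ⟨n, b, hb⟩ := hφ
  obtain ⟨m, c, hc⟩ := hψ
  refine ⟨n * m, (b.tensorProduct c).reindex finProdFinEquiv, ?_⟩
  have h := linearIndependent_prod hb hc
  have h2 := h.comp finProdFinEquiv.symm finProdFinEquiv.symm.injective
  convert h2 using 1
  funext i z
  simp [Module.Basis.reindex_apply, Module.Basis.tensorProduct_apply']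

end Generic

section Order

variable (R K L : Type*) [CommRing R] [Field K] [Field L] [Algebra R K]
  [Algebra K L] [Algebra R L]

variable {M : Type} [AddCommGroup M]

/-- `H` is a finite flat Hopf order in the ring of functions on the Galois module `M`. -/
structure IsFlatOrder (act : (L ≃ₐ[K] L) → M → M) (H : Subalgebra R (M → L)) : Prop where
  fg : (Subalgebra.toSubmodule H).FG
  equivariant : ∀ f ∈ H, ∀ σ m, f (act σ m) = σ (f m)
  separates : ∀ m m', (∀ f ∈ H, f m = f m') → m = m'
  comul : ∀ f ∈ H, ∃ (n : ℕ) (a b : Fin n → M → L), (∀ i, a i ∈ H) ∧ (∀ i, b i ∈ H) ∧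
    ∀ m m', f (m + m') = ∑ i, a i m * b i m'

end Order

theorem faithfulSMul_of_fractionRing (R K L : Type*) [CommRing R] [IsDomain R] [Field K] [Field L]
    [Algebra R K] [IsFractionRing R K] [Algebra K L] [Algebra R L] [IsScalarTower R K L] :
    FaithfulSMul R L := by
  rw [faithfulSMul_iff_algebraMap_injective, IsScalarTower.algebraMap_eq R K L]
  exact (algebraMap K L).injective.comp (IsFractionRing.injective R K)

theorem isTorsionFree_subalgebra {R L M : Type*} [CommRing R] [IsDomain R] [Field L]
    [Algebra R L] [FaithfulSMul R L] (H : Subalgebra R (M → L)) : Module.IsTorsionFree R H := by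
  have : Module.IsTorsionFree R L := inferInstance
  exact Function.Injective.moduleIsTorsionFree (N := M → L) (f := fun x : H => (x : M → L))
    Subtype.val_injective (fun r m => rfl)

namespace IsFlatOrder

set_option linter.unusedSectionVars false

variable {R K L : Type*} [CommRing R] [IsDomain R] [IsPrincipalIdealRing R]
  [Field K] [Field L] [Algebra R K] [IsFractionRing R K]
  [Algebra K L] [Algebra R L] [IsScalarTower R K L] [IsGalois K L]

variable {M : Type} [AddCommGroup M]
  {act : (L ≃ₐ[K] L) → M → M} {H : Subalgebra R (M → L)}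

theorem act_injective (h : IsFlatOrder R K L act H) (σ : L ≃ₐ[K] L) :
    Function.Injective (act σ) := by
  intro m m' hm
  refine h.separates _ _ fun f hf => σ.injective ?_
  rw [← h.equivariant f hf, ← h.equivariant f hf, hm]

theorem act_surjective [Finite M] (h : IsFlatOrder R K L act H) (σ : L ≃ₐ[K] L) :
    Function.Surjective (act σ) :=
  Finite.surjective_of_injective (h.act_injective σ)

theorem act_add (h : IsFlatOrder R K L act H) (σ : L ≃ₐ[K] L) (m m' : M) :
    act σ (m + m') = act σ m + act σ m' := by
  refine h.separates _ _ fun f hf => ?_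
  obtain ⟨n, a, b, ha, hb, hab⟩ := h.comul f hf
  rw [h.equivariant f hf, hab, hab, map_sum]
  refine Finset.sum_congr rfl fun i _ => ?_
  rw [map_mul, h.equivariant _ (ha i), h.equivariant _ (hb i)]

theorem act_zero (h : IsFlatOrder R K L act H) (σ : L ≃ₐ[K] L) : act σ 0 = 0 := by
  have := h.act_add σ 0 0
  rw [add_zero] at this
  simpa using this

theorem finite (h : IsFlatOrder R K L act H) : Module.Finite R H :=
  Module.Finite.iff_fg.mpr h.fg

theorem free (h : IsFlatOrder R K L act H) : Module.Free R H := by
  have := h.finite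
  have := faithfulSMul_of_fractionRing R K L
  have := isTorsionFree_subalgebra H
  infer_instance

/-- the inclusion of `H` in the space of functions is `L`-injective -/
theorem lInj [Finite M] (h : IsFlatOrder R K L act H) :
    LInj (R := R) (L := L) (H.toSubmodule.subtype) := by
  have := h.finite
  have := h.free
  let b := Module.finBasis R H
  refine ⟨_, b, ?_⟩
  refine linearIndependent_of_equivariant act h.act_surjective _
    (fun i σ m => h.equivariant _ (b i).2 σ m) ?_
  rw [← LinearIndependent.iff_fractionRing R K]
  exact b.linearIndependent.map' (H.toSubmodule.subtype) (Submodule.ker_subtype _)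

/-- evaluation of two-variable functions, as algebra hom `H ⊗ H → (M × M → L)`. -/
noncomputable def eval₂ (H : Subalgebra R (M → L)) : H ⊗[R] H →ₐ[R] (M × M → L) :=
  Algebra.TensorProduct.productMap
    ((AlgHom.pi (fun p : M × M => Pi.evalAlgHom R (fun _ => L) p.1)).comp H.val)
    ((AlgHom.pi (fun p : M × M => Pi.evalAlgHom R (fun _ => L) p.2)).comp H.val)

theorem eval₂_tmul (f g : H) (p : M × M) :
    eval₂ H (f ⊗ₜ g) p = (f : M → L) p.1 * (g : M → L) p.2 := by
  simp [eval₂]

theorem eval₂_eq : (eval₂ H).toLinearMap =
    extProd (H.toSubmodule.subtype) (H.toSubmodule.subtype) := by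
  refine TensorProduct.ext' fun f g => ?_
  funext p
  exact eval₂_tmul f g p

theorem eval₂_injective [Finite M] (h : IsFlatOrder R K L act H) :
    Function.Injective (eval₂ H) := by
  have := faithfulSMul_of_fractionRing R K L
  have h1 := (h.lInj.extProd h.lInj).injective
  rw [← eval₂_eq] at h1
  exact h1

/-- `f ↦ ((m, m') ↦ f (m + m'))` -/
noncomputable def addPull (H : Subalgebra R (M → L)) : H →ₐ[R] (M × M → L) :=
  (AlgHom.pi (fun p : M × M => Pi.evalAlgHom R (fun _ => L) (p.1 + p.2))).comp H.val

theorem addPull_apply (f : H) (p : M × M) : addPull H f p = (f : M → L) (p.1 + p.2) := rfl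

theorem addPull_mem (h : IsFlatOrder R K L act H) (f : H) : addPull H f ∈ (eval₂ H).range := by
  obtain ⟨n, a, b, ha, hb, hab⟩ := h.comul f f.2
  refine ⟨∑ i, (⟨a i, ha i⟩ : H) ⊗ₜ[R] (⟨b i, hb i⟩ : H), ?_⟩
  funext p
  rw [addPull_apply, hab]
  simp [eval₂_tmul]

/-- the comultiplication. -/
noncomputable def comulHom [Finite M] (h : IsFlatOrder R K L act H) : H →ₐ[R] H ⊗[R] H :=
  ((AlgEquiv.ofInjective (eval₂ H) h.eval₂_injective).symm.toAlgHom).comp
    ((addPull H).codRestrict _ h.addPull_mem)

theorem eval₂_comulHom [Finite M] (h : IsFlatOrder R K L act H) (f : H) :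
    eval₂ H (h.comulHom f) = addPull H f := by
  have := (AlgEquiv.ofInjective (eval₂ H) h.eval₂_injective).apply_symm_apply
    ((addPull H).codRestrict _ h.addPull_mem f)
  exact congrArg Subtype.val this

theorem eval_zero_mem (h : IsFlatOrder R K L act H) (f : H) :
    (f : M → L) 0 ∈ (⊥ : Subalgebra R L) := by
  have h1 : ∀ σ : L ≃ₐ[K] L, σ ((f : M → L) 0) = (f : M → L) 0 := by
    intro σ
    rw [← h.equivariant f f.2, h.act_zero]
  obtain ⟨k, hk⟩ := (InfiniteGalois.mem_range_algebraMap_iff_fixed _).mpr h1
  have h2 : IsIntegral R ((f : M → L) 0) := by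
    have := h.finite
    have h3 : IsIntegral R f := Algebra.IsIntegral.isIntegral f
    exact h3.map ((Pi.evalAlgHom R (fun _ : M => L) 0).comp H.val)
  rw [← hk] at h2
  have h4 : IsIntegral R k := (isIntegral_algHom_iff (IsScalarTower.toAlgHom R K L)
    (algebraMap K L).injective).mp h2
  obtain ⟨r, hr⟩ := IsIntegrallyClosed.algebraMap_eq_of_integral h4
  rw [Algebra.mem_bot]
  exact ⟨r, by rw [← hk, ← hr, ← IsScalarTower.algebraMap_apply]⟩

/-- the counit. -/
noncomputable def counitHom (h : IsFlatOrder R K L act H) : H →ₐ[R] R :=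
  ((Algebra.botEquivOfInjective (faithfulSMul_of_fractionRing R K L).algebraMap_injective).toAlgHom).comp
    ((((Pi.evalAlgHom R (fun _ : M => L) 0).comp H.val)).codRestrict _ h.eval_zero_mem)

theorem algebraMap_counitHom (h : IsFlatOrder R K L act H) (f : H) :
    algebraMap R L (h.counitHom f) = (f : M → L) 0 := by
  have := (Algebra.botEquivOfInjective
    (faithfulSMul_of_fractionRing R K L).algebraMap_injective).symm_apply_apply
    ((((Pi.evalAlgHom R (fun _ : M => L) 0).comp H.val)).codRestrict _ h.eval_zero_mem f)
  exact congrArg Subtype.val this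

theorem comp_nsmul_mem (h : IsFlatOrder R K L act H) (n : ℕ) : ∀ f ∈ H, (fun m => f (n • m)) ∈ H := by
  induction n with
  | zero =>
    intro f hf
    have h1 := h.eval_zero_mem ⟨f, hf⟩
    rw [Algebra.mem_bot] at h1
    obtain ⟨r, hr⟩ := h1
    have h2 : (fun m : M => f (0 • m)) = algebraMap R (M → L) r := by
      funext m
      rw [zero_smul]
      exact hr.symm
    rw [h2]
    exact Subalgebra.algebraMap_mem _ _
  | succ n ih =>
    intro f hf
    obtain ⟨k, a, b, ha, hb, hab⟩ := h.comul f hf
    have h2 : (fun m : M => f ((n + 1) • m)) = ∑ i, (fun m => a i (n • m)) * b i := by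
      funext m
      rw [add_smul, one_smul, hab]
      simp
    rw [h2]
    exact Subalgebra.sum_mem _ fun i _ => Subalgebra.mul_mem _ (ih _ (ha i)) (hb i)

theorem comp_neg_mem [Finite M] (h : IsFlatOrder R K L act H) (f : M → L) (hf : f ∈ H) :
    (fun m => f (-m)) ∈ H := by
  have h1 := h.comp_nsmul_mem (Nat.card M - 1) f hf
  convert h1 using 3 with m
  rw [eq_comm, ← sub_eq_zero, sub_neg_eq_add]
  have h2 : (Nat.card M - 1) • m + m = (Nat.card M - 1 + 1) • m := by rw [add_smul, one_smul]
  rw [h2, Nat.sub_add_cancel Nat.card_pos]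
  exact card_nsmul_eq_zero'

/-- the antipode. -/
noncomputable def antipodeHom [Finite M] (h : IsFlatOrder R K L act H) : H →ₐ[R] H :=
  AlgHom.codRestrict
    ((AlgHom.pi (fun p : M => Pi.evalAlgHom R (fun _ => L) (-p))).comp H.val) H
    (fun f => h.comp_neg_mem f f.2)

theorem antipodeHom_apply [Finite M] (h : IsFlatOrder R K L act H) (f : H) (m : M) :
    (h.antipodeHom f : M → L) m = (f : M → L) (-m) := rfl

theorem assoc_aux [Finite M] (h : IsFlatOrder R K L act H) (t : H ⊗[R] H) (x y z : M) :
    extProd (H.toSubmodule.subtype) (extProd (H.toSubmodule.subtype) (H.toSubmodule.subtype))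
      (Algebra.TensorProduct.assoc R R R H H H (Algebra.TensorProduct.map h.comulHom (.id R H) t))
      (x, (y, z)) = eval₂ H t (x + y, z) := by
  induction t using TensorProduct.induction_on with
  | zero => simp
  | add a b ha hb => simp only [map_add, Pi.add_apply, ha, hb]
  | tmul a b =>
    rw [Algebra.TensorProduct.map_tmul, eval₂_tmul]
    have h1 : ∀ u : H ⊗[R] H,
        extProd (H.toSubmodule.subtype) (extProd (H.toSubmodule.subtype) (H.toSubmodule.subtype))
          (Algebra.TensorProduct.assoc R R R H H H (u ⊗ₜ b)) (x, (y, z))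
        = eval₂ H u (x, y) * (b : M → L) z := by
      intro u
      induction u using TensorProduct.induction_on with
      | zero => simp
      | add a b ha hb => simp only [map_add, Pi.add_apply, ha, hb, TensorProduct.add_tmul, add_mul]
      | tmul a c =>
        rw [Algebra.TensorProduct.assoc_tmul, eval₂_tmul]
        simp [mul_assoc]
    rw [show (AlgHom.id R H) b = b from rfl, h1, h.eval₂_comulHom, addPull_apply]

theorem assoc_aux' [Finite M] (h : IsFlatOrder R K L act H) (t : H ⊗[R] H) (x y z : M) :
    extProd (H.toSubmodule.subtype) (extProd (H.toSubmodule.subtype) (H.toSubmodule.subtype))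
      (Algebra.TensorProduct.map (.id R H) h.comulHom t)
      (x, (y, z)) = eval₂ H t (x, y + z) := by
  induction t using TensorProduct.induction_on with
  | zero => simp
  | add a b ha hb => simp only [map_add, Pi.add_apply, ha, hb]
  | tmul a b =>
    rw [Algebra.TensorProduct.map_tmul, eval₂_tmul]
    have h1 := congrFun (h.eval₂_comulHom b) (y, z)
    rw [addPull_apply] at h1
    rw [extProd_tmul]
    simp only
    rw [← h1]
    have h2 : extProd (H.toSubmodule.subtype) (H.toSubmodule.subtype) (h.comulHom b) =
        eval₂ H (h.comulHom b) := by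
      rw [← eval₂_eq]; rfl
    rw [h2]
    rfl

/-- The bialgebra structure on a flat order. -/
@[reducible] noncomputable def bialgebra [Finite M] (h : IsFlatOrder R K L act H) : Bialgebra R H :=
  Bialgebra.ofAlgHom h.comulHom h.counitHom
    (by
      have := faithfulSMul_of_fractionRing R K L
      refine AlgHom.ext fun f => ?_
      apply (h.lInj.extProd (h.lInj.extProd h.lInj)).injective
      funext ⟨x, y, z⟩
      have e1 := h.assoc_aux (h.comulHom f) x y z
      have e2 := h.assoc_aux' (h.comulHom f) x y z
      rw [h.eval₂_comulHom, addPull_apply] at e1 e2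
      exact e1.trans ((by simp [add_assoc]) : _ = _) |>.trans e2.symm)
    (by
      refine AlgHom.ext fun f => ?_
      apply (Algebra.TensorProduct.lid R H).injective
      apply Subtype.ext
      funext m
      have h1 : ∀ t : H ⊗[R] H, ((Algebra.TensorProduct.lid R H
          (Algebra.TensorProduct.map h.counitHom (.id R H) t) : H) : M → L) m
          = eval₂ H t (0, m) := by
        intro t
        induction t using TensorProduct.induction_on with
        | zero => simp
        | add a b ha hb => simp only [map_add, Pi.add_apply, ← ha, ← hb]; rfl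
        | tmul a b =>
          rw [Algebra.TensorProduct.map_tmul, eval₂_tmul, Algebra.TensorProduct.lid_tmul,
            ← h.algebraMap_counitHom a, ← Algebra.smul_def]
          rfl
      have h2 := h1 (h.comulHom f)
      rw [h.eval₂_comulHom, addPull_apply] at h2
      simpa using h2)
    (by
      refine AlgHom.ext fun f => ?_
      apply (Algebra.TensorProduct.rid R R H).injective
      apply Subtype.ext
      funext m
      have h1 : ∀ t : H ⊗[R] H, ((Algebra.TensorProduct.rid R R H
          (Algebra.TensorProduct.map (.id R H) h.counitHom t) : H) : M → L) m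
          = eval₂ H t (m, 0) := by
        intro t
        induction t using TensorProduct.induction_on with
        | zero => simp
        | add a b ha hb => simp only [map_add, Pi.add_apply, ← ha, ← hb]; rfl
        | tmul a b =>
          rw [Algebra.TensorProduct.map_tmul, eval₂_tmul, Algebra.TensorProduct.rid_tmul,
            ← h.algebraMap_counitHom b, mul_comm, ← Algebra.smul_def]
          rfl
      have h2 := h1 (h.comulHom f)
      rw [h.eval₂_comulHom, addPull_apply] at h2
      simpa using h2)

/-- The Hopf algebra structure on a flat order. -/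
@[reducible] noncomputable def hopfAlgebra [Finite M] (h : IsFlatOrder R K L act H) : HopfAlgebra R H :=
  letI := h.bialgebra
  HopfAlgebra.ofAlgHom h.antipodeHom
    (by
      refine AlgHom.ext fun f => ?_
      apply Subtype.ext
      funext m
      have h1 : ∀ t : H ⊗[R] H, ((Algebra.TensorProduct.lift h.antipodeHom (.id R H)
          (fun _ => Commute.all _) t : H) : M → L) m = eval₂ H t (-m, m) := by
        intro t
        induction t using TensorProduct.induction_on with
        | zero => simp
        | add a b ha hb => simp only [map_add, Pi.add_apply, ← ha, ← hb]; rfl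
        | tmul a b =>
          rw [eval₂_tmul, Algebra.TensorProduct.lift_tmul]
          rfl
      have h2 := h1 (h.comulHom f)
      rw [h.eval₂_comulHom, addPull_apply] at h2
      simp only [neg_add_cancel] at h2
      rw [← h.algebraMap_counitHom f] at h2
      exact h2)
    (by
      refine AlgHom.ext fun f => ?_
      apply Subtype.ext
      funext m
      have h1 : ∀ t : H ⊗[R] H, ((Algebra.TensorProduct.lift (.id R H) h.antipodeHom
          (fun _ _ => Commute.all _ _) t : H) : M → L) m = eval₂ H t (m, -m) := by
        intro t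
        induction t using TensorProduct.induction_on with
        | zero => simp
        | add a b ha hb => simp only [map_add, Pi.add_apply, ← ha, ← hb]; rfl
        | tmul a b =>
          rw [eval₂_tmul, Algebra.TensorProduct.lift_tmul]
          rfl
      have h2 := h1 (h.comulHom f)
      rw [h.eval₂_comulHom, addPull_apply] at h2
      simp only [add_neg_cancel] at h2
      rw [← h.algebraMap_counitHom f] at h2
      exact h2)

/-- evaluation at a point. -/
noncomputable def ev (H : Subalgebra R (M → L)) (m : M) : H →ₐ[R] L :=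
  (Pi.evalAlgHom R (fun _ : M => L) m).comp H.val

theorem ev_apply (m : M) (f : H) : ev H m f = (f : M → L) m := rfl

theorem ev_injective (h : IsFlatOrder R K L act H) : Function.Injective (ev H) := by
  intro m m' hmm
  refine h.separates _ _ fun f hf => ?_
  exact DFunLike.congr_fun hmm (⟨f, hf⟩ : H)

theorem ev_surjective [Finite M] (h : IsFlatOrder R K L act H) : Function.Surjective (ev H) := by
  classical
  intro φ
  by_contra hne
  push Not at hne
  have h1 : ∀ m, ∃ f : H, φ f ≠ (f : M → L) m := by
    intro m
    by_contra hcon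
    push Not at hcon
    exact hne m (AlgHom.ext fun f => (hcon f).symm)
  choose F hF using h1
  have := Fintype.ofFinite M
  let θ : L ⊗[R] H →ₐ[L] (M → L) :=
    Algebra.TensorProduct.lift (Algebra.ofId L (M → L)) H.val (fun _ _ => Commute.all _ _)
  let φL : L ⊗[R] H →ₐ[L] L :=
    Algebra.TensorProduct.lift (Algebra.ofId L L) φ (fun _ _ => Commute.all _ _)
  have hθ : Function.Injective θ := by
    have h2 : LInj (R := L) (L := L) θ.toLinearMap := by
      obtain ⟨n, b, hb⟩ := h.lInj
      refine ⟨n, b.baseChange L, ?_⟩
      convert hb using 2 with i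
      rw [Module.Basis.baseChange_apply]
      simp only [θ, AlgHom.toLinearMap_apply, Algebra.TensorProduct.lift_tmul, map_one, one_mul]
      rfl
    exact h2.injective
  let P : L ⊗[R] H := ∏ m, ((1 : L) ⊗ₜ[R] (F m) - ((F m : M → L) m) ⊗ₜ[R] (1 : H))
  have hP : P = 0 := by
    apply hθ
    rw [map_zero]
    funext m
    simp only [P, map_prod, Finset.prod_apply, Pi.zero_apply]
    refine Finset.prod_eq_zero (Finset.mem_univ m) ?_
    simp only [map_sub, θ, Algebra.TensorProduct.lift_tmul, map_one, one_mul, mul_one,
      Pi.sub_apply, sub_eq_zero]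
    rfl
  have hP2 : φL P ≠ 0 := by
    simp only [P, map_prod]
    refine Finset.prod_ne_zero_iff.mpr fun m _ => ?_
    simp only [map_sub, φL, Algebra.TensorProduct.lift_tmul, map_one, one_mul, mul_one]
    rw [sub_ne_zero]
    exact hF m
  exact hP2 (by rw [hP, map_zero])

theorem lift_ev (m m' : M) (t : H ⊗[R] H) :
    Algebra.TensorProduct.lift (ev H m) (ev H m') (fun _ _ => Commute.all _ _) t
      = eval₂ H t (m, m') := by
  induction t using TensorProduct.induction_on with
  | zero => simp
  | add a b ha hb => simp only [map_add, Pi.add_apply, ha, hb]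
  | tmul a b => rw [eval₂_tmul, Algebra.TensorProduct.lift_tmul]; rfl

theorem conv_ev [Finite M] (h : IsFlatOrder R K L act H) (m m' : M) :
    letI := h.hopfAlgebra
    (WithConv.toConv (ev H m) * WithConv.toConv (ev H m') : WithConv (H →ₐ[R] L))
      = WithConv.toConv (ev H (m + m')) := by
  let _ := h.hopfAlgebra
  apply WithConv.ofConv_injective
  refine AlgHom.ext fun f => ?_
  have h1 := AlgHom.convMul_apply (WithConv.toConv (ev H m)) (WithConv.toConv (ev H m')) f
  refine h1.trans ?_
  have h2 := lift_ev m m' (h.comulHom f)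
  rw [h.eval₂_comulHom, addPull_apply] at h2
  exact h2

theorem isCocomm [Finite M] (h : IsFlatOrder R K L act H) :
    letI := h.hopfAlgebra
    Coalgebra.IsCocomm R H := by
  let _ := h.hopfAlgebra
  refine ⟨?_⟩
  refine LinearMap.ext fun f => ?_
  apply h.eval₂_injective
  funext ⟨x, y⟩
  have h1 : ∀ t : H ⊗[R] H, eval₂ H (TensorProduct.comm R H H t) (x, y) = eval₂ H t (y, x) := by
    intro t
    induction t using TensorProduct.induction_on with
    | zero => simp
    | add a b ha hb => simp only [map_add, Pi.add_apply, ha, hb]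
    | tmul a b => rw [TensorProduct.comm_tmul, eval₂_tmul, eval₂_tmul, mul_comm]
  refine (h1 (h.comulHom f)).trans ?_
  change _ = eval₂ H (h.comulHom f) (x, y)
  rw [h.eval₂_comulHom, addPull_apply, addPull_apply]
  simp only [add_comm]

end IsFlatOrder

/-- `M` (with its "action") is the Galois module of points of a finite flat commutative
group scheme over `R`. -/
def HasFlatModel (R K L : Type) [CommRing R] [Field K] [Field L] [Algebra K L] [Algebra R L]
    (M : Type) [AddCommGroup M] (act : (L ≃ₐ[K] L) → M → M) : Prop :=
  ∃ (H : Type) (_ : CommRing H) (_ : HopfAlgebra R H),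
      Module.Finite R H ∧ Module.Flat R H ∧ Coalgebra.IsCocomm R H ∧
      ∃ e : WithConv (H →ₐ[R] L) ≃ M,
        (∀ f g, e (f * g) = e f + e g) ∧
        ∀ (σ : L ≃ₐ[K] L) (f g : WithConv (H →ₐ[R] L)),
          (∀ h : H, g h = σ (f h)) → e g = act σ (e f)

section Main

variable {R K L : Type} [CommRing R] [IsDomain R] [IsPrincipalIdealRing R]
  [Field K] [Field L] [Algebra R K] [IsFractionRing R K]
  [Algebra K L] [Algebra R L] [IsScalarTower R K L] [IsGalois K L]

variable {M : Type} [AddCommGroup M] {act : (L ≃ₐ[K] L) → M → M}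

theorem IsFlatOrder.hasFlatModel [Finite M] {H : Subalgebra R (M → L)}
    (h : IsFlatOrder R K L act H) : HasFlatModel R K L M act := by
  have := faithfulSMul_of_fractionRing R K L
  have := isTorsionFree_subalgebra H
  refine ⟨H, inferInstance, h.hopfAlgebra, h.finite, inferInstance, h.isCocomm, ?_⟩
  let _ := h.hopfAlgebra
  let e' : M ≃ WithConv (H →ₐ[R] L) := Equiv.ofBijective (fun m => WithConv.toConv (IsFlatOrder.ev H m))
    ⟨fun m m' hmm => h.ev_injective (WithConv.toConv_injective hmm), fun φ => by
      obtain ⟨m, hm⟩ := h.ev_surjective φ.ofConv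
      exact ⟨m, by simp only [hm, WithConv.toConv_ofConv]⟩⟩
  refine ⟨e'.symm, ?_, ?_⟩
  · intro f g
    obtain ⟨m, rfl⟩ := e'.surjective f
    obtain ⟨m', rfl⟩ := e'.surjective g
    rw [e'.symm_apply_apply, e'.symm_apply_apply, Equiv.symm_apply_eq]
    exact h.conv_ev m m'
  · intro σ f g hfg
    obtain ⟨m, rfl⟩ := e'.surjective f
    obtain ⟨m', rfl⟩ := e'.surjective g
    rw [e'.symm_apply_apply, e'.symm_apply_apply]
    refine h.separates _ _ fun f hf => ?_
    rw [h.equivariant f hf]
    exact hfg ⟨f, hf⟩

/-- Conversely, a finite flat model gives a flat order (the image of `H` in the ring of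
functions) and `M` is finite. -/
theorem exists_isFlatOrder_of_hasFlatModel (h : HasFlatModel R K L M act) :
    Finite M ∧ ∃ H : Subalgebra R (M → L), IsFlatOrder R K L act H := by
  classical
  obtain ⟨H, _, _, hfin, hflat, hcomm, e, he, heq⟩ := h
  have := faithfulSMul_of_fractionRing R K L
  -- finiteness of the set of points
  have hfinM : Finite M := by
    obtain ⟨s, hs⟩ := hfin.fg_top
    have hint : ∀ x : H, IsIntegral R x := fun x => Algebra.IsIntegral.isIntegral x
    choose P hPm hP using hint
    let T : H → Finset L := fun x => ((P x).map (algebraMap R L)).roots.toFinset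
    have hT : ∀ (φ : H →ₐ[R] L) (x : H), φ x ∈ T x := by
      intro φ x
      rw [Multiset.mem_toFinset, Polynomial.mem_roots ((hPm x).map _).ne_zero, Polynomial.IsRoot.def,
        Polynomial.eval_map]
      have h1 := Polynomial.hom_eval₂ (P x) (algebraMap R H) (φ : H →+* L) x
      rw [hP x, map_zero, φ.comp_algebraMap] at h1
      exact h1.symm
    let Φ : (H →ₐ[R] L) → ((x : s) → T (x : H)) := fun φ x => ⟨φ x, hT φ x⟩
    have hΦ : Function.Injective Φ := by
      intro φ ψ h1
      have h2 : ∀ x ∈ (s : Set H), φ.toLinearMap x = ψ.toLinearMap x := fun x hx =>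
        congrArg Subtype.val (congrFun h1 ⟨x, hx⟩)
      have h3 : φ.toLinearMap = ψ.toLinearMap := LinearMap.ext_on_range (v := fun x : s => (x : H))
        (by rw [Subtype.range_coe_subtype]; exact hs) (fun x => h2 x x.2)
      exact AlgHom.toLinearMap_injective h3
    have : Finite (H →ₐ[R] L) := Finite.of_injective Φ hΦ
    have : Finite (WithConv (H →ₐ[R] L)) :=
      Finite.of_injective WithConv.ofConv WithConv.ofConv_injective
    exact Finite.of_equiv _ e
  refine ⟨hfinM, ?_⟩
  let θ : H →ₐ[R] (M → L) := AlgHom.pi (fun m => (e.symm m).ofConv)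
  have hθ : ∀ x m, θ x m = (e.symm m) x := fun x m => rfl
  refine ⟨θ.range, ?_, ?_, ?_, ?_⟩
  · have : Module.Finite R θ.range :=
      Module.Finite.of_surjective θ.rangeRestrict.toLinearMap θ.rangeRestrict_surjective
    exact Module.Finite.iff_fg.mp this
  · rintro _ ⟨x, rfl⟩ σ m
    let ψ : WithConv (H →ₐ[R] L) :=
      WithConv.toConv (((σ : L →ₐ[K] L).restrictScalars R).comp (e.symm m).ofConv)
    have h1 : e ψ = act σ (e (e.symm m)) := heq σ (e.symm m) ψ (fun h => rfl)
    rw [e.apply_symm_apply] at h1
    change θ x (act σ m) = σ (θ x m)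
    rw [hθ, hθ, ← h1, e.symm_apply_apply]
    rfl
  · intro m m' hmm
    apply e.symm.injective
    apply WithConv.ofConv_injective
    refine AlgHom.ext fun x => ?_
    exact hmm (θ x) ⟨x, rfl⟩
  · rintro _ ⟨x, rfl⟩
    obtain ⟨S, hS⟩ := TensorProduct.exists_finset (Coalgebra.comul (R := R) x)
    refine ⟨S.card, fun i => θ (S.equivFin.symm i : H × H).1, fun i => θ (S.equivFin.symm i : H × H).2,
      fun i => ⟨_, rfl⟩, fun i => ⟨_, rfl⟩, fun m m' => ?_⟩
    have h1 : e.symm (m + m') = e.symm m * e.symm m' := by
      rw [Equiv.symm_apply_eq, he, e.apply_symm_apply, e.apply_symm_apply]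
    change θ x (m + m') = _
    rw [hθ, h1, AlgHom.convMul_apply, hS, map_sum]
    rw [← Finset.sum_coe_sort S, ← Equiv.sum_comp S.equivFin.symm]
    refine Finset.sum_congr rfl fun i _ => ?_
    rw [Algebra.TensorProduct.lift_tmul]
    rfl

theorem hasFlatModel_iff : HasFlatModel R K L M act ↔
    Finite M ∧ ∃ H : Subalgebra R (M → L), IsFlatOrder R K L act H :=
  ⟨exists_isFlatOrder_of_hasFlatModel, fun ⟨_, _, h⟩ => h.hasFlatModel⟩

end Main

end Fermat.Agent.H19
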