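import Mathlib
import Fermat.Prelude.Def_GaloisRep_Flat
import Fermat.Prelude.Def_FLTPrelim_Ramification
import Fermat.Agent.H19Flat

set_option autoImplicit false

namespace Fermat.Agent.H19

/-- `ℤ_(ℓ)` -/
abbrev Zl (ℓ : ℕ) : Subring ℚ := GaloisRep.ratLocalizedAt ℓ

theorem mem_Zl_iff {ℓ : ℕ} {x : ℚ} : x ∈ Zl ℓ ↔ x.den.Coprime ℓ := Iff.rfl

theorem inv_natCast_mem_Zl {ℓ n : ℕ} (h : n.Coprime ℓ) : ((n : ℚ))⁻¹ ∈ Zl ℓ := by
  rcases Nat.eq_zero_or_pos n with rfl | hn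
  · simp
  rw [mem_Zl_iff, Rat.inv_natCast_den_of_pos hn]
  exact h

instance isPrime_span (ℓ : ℕ) [hℓ : Fact ℓ.Prime] : (Ideal.span {(ℓ : ℤ)}).IsPrime :=
  (Ideal.span_singleton_prime (by exact_mod_cast hℓ.out.ne_zero)).mpr
    (Nat.prime_iff_prime_int.mp hℓ.out)

instance isLocalization_Zl (ℓ : ℕ) [hℓ : Fact ℓ.Prime] :
    IsLocalization.AtPrime (Zl ℓ) (Ideal.span {(ℓ : ℤ)}) := by
  have hcop : ∀ z : ℤ, z ∈ (Ideal.span {(ℓ : ℤ)}).primeCompl → z.natAbs.Coprime ℓ := by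
    intro z hz
    rw [Nat.Coprime, Nat.gcd_comm]
    refine (Nat.Prime.coprime_iff_not_dvd hℓ.out).mpr fun h => hz ?_
    rw [SetLike.mem_coe, Ideal.mem_span_singleton]
    exact Int.natCast_dvd.mpr h
  refine (isLocalization_iff _ _).mpr ⟨?_, ?_, ?_⟩
  · rintro ⟨z, hz⟩
    have h1 := inv_natCast_mem_Zl (hcop z hz)
    have hz0 : z ≠ 0 := by
      rintro rfl
      exact hz (Ideal.zero_mem _)
    have h2 : ((z : ℚ))⁻¹ ∈ Zl ℓ := by
      rcases Int.natAbs_eq z with h | h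
      · rw [h, Int.cast_natCast]; exact h1
      · rw [h, Int.cast_neg, Int.cast_natCast, inv_neg]; exact neg_mem h1
    refine IsUnit.of_mul_eq_one ⟨_, h2⟩ (Subtype.ext ?_)
    change (z : ℚ) * (z : ℚ)⁻¹ = 1
    rw [mul_inv_cancel₀]
    exact_mod_cast hz0
  · rintro ⟨x, hx⟩
    refine ⟨(x.num, ⟨(x.den : ℤ), ?_⟩), Subtype.ext ?_⟩
    · change ¬ ((x.den : ℤ) ∈ Ideal.span {(ℓ : ℤ)})
      rw [Ideal.mem_span_singleton, Int.natCast_dvd_natCast]
      intro hd
      have := Nat.Coprime.eq_one_of_dvd (Nat.Coprime.symm hx) hd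
      exact hℓ.out.one_lt.ne' this
    · change x * ((x.den : ℤ) : ℚ) = (x.num : ℚ)
      exact_mod_cast Rat.mul_den_eq_num x
  · intro x y hxy
    refine ⟨1, ?_⟩
    have h : ((x : ℤ) : ℚ) = (y : ℚ) := congrArg Subtype.val hxy
    have h' : x = y := by exact_mod_cast h
    rw [h']

instance isDomain_Zl (ℓ : ℕ) : IsDomain (Zl ℓ) := inferInstance

instance isDVR_Zl (ℓ : ℕ) [hℓ : Fact ℓ.Prime] : IsDiscreteValuationRing (Zl ℓ) :=
  IsLocalization.AtPrime.isDiscreteValuationRing_of_dedekind_domain ℤ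
    (P := Ideal.span {(ℓ : ℤ)}) (by
      rw [Ne, Ideal.span_singleton_eq_bot]
      exact_mod_cast hℓ.out.ne_zero) _

instance isPID_Zl (ℓ : ℕ) [Fact ℓ.Prime] : IsPrincipalIdealRing (Zl ℓ) := inferInstance

instance isFractionRing_Zl (ℓ : ℕ) : IsFractionRing (Zl ℓ) ℚ := by
  refine (isLocalization_iff _ _).mpr ⟨?_, ?_, ?_⟩
  · rintro ⟨x, hx⟩
    have : (x : ℚ) ≠ 0 := fun h => nonZeroDivisors.ne_zero hx (Subtype.ext h)
    exact this.isUnit
  · intro x
    have h0 : ((x.den : Zl ℓ)) ∈ nonZeroDivisors (Zl ℓ) := by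
      refine mem_nonZeroDivisors_of_ne_zero fun h => ?_
      have := congrArg Subtype.val h
      have h2 : (x.den : ℚ) = 0 := this
      exact x.den_ne_zero (by exact_mod_cast h2)
    refine ⟨((x.num : Zl ℓ), ⟨(x.den : Zl ℓ), h0⟩), ?_⟩
    change x * (((x.den : Zl ℓ)) : ℚ) = (((x.num : Zl ℓ)) : ℚ)
    simp
  · intro x y hxy
    exact ⟨1, by rw [Subtype.ext hxy]⟩

/-- rational numbers lying in a place above `ℓ` are `ℓ`-integral. -/
theorem mem_Zl_of_mem {L : Type*} [Field L] [CharZero L] {ℓ : ℕ} [hℓ : Fact ℓ.Prime]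
    {A : ValuationSubring L} (hA : A.LiesOverPrime ℓ) {x : ℚ} (hx : (x : L) ∈ A) : x ∈ Zl ℓ := by
  rw [mem_Zl_iff]
  by_contra hcon
  have hdvd : ℓ ∣ x.den := by
    by_contra h
    exact hcon (Nat.Coprime.symm ((Nat.Prime.coprime_iff_not_dvd hℓ.out).mpr h))
  have hnum : ¬ (ℓ : ℤ) ∣ x.num := by
    intro h
    have h1 := x.reduced
    have h2 : ℓ ∣ x.num.natAbs := Int.natCast_dvd.mp h
    have := Nat.dvd_gcd h2 hdvd
    rw [h1] at this
    exact hℓ.out.one_lt.ne' (Nat.dvd_one.mp this)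
  -- the numerator is then a nonunit and a unit
  have h1 : (x.num : L) ∈ A.nonunits := by
    obtain ⟨c, hc⟩ := hdvd
    have h2 : (x.num : L) = (ℓ : L) * ((c : L) * (x : L)) := by
      have h3 : (x.num : ℚ) = x * x.den := (Rat.mul_den_eq_num x).symm
      have h4 : (x.num : L) = (x : L) * (x.den : L) := by exact_mod_cast congrArg (Rat.cast (K := L)) h3
      rw [h4, hc]
      push_cast
      ring
    rw [h2]
    have h5 : (c : L) * (x : L) ∈ A := mul_mem (natCast_mem A c) hx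
    rw [ValuationSubring.mem_nonunits_iff, map_mul]
    calc A.valuation (ℓ : L) * A.valuation ((c : L) * (x : L))
        ≤ A.valuation (ℓ : L) * 1 := by
          gcongr
          exact (A.valuation_le_one_iff _).mpr h5
      _ < 1 := by rw [mul_one]; exact ((ValuationSubring.mem_nonunits_iff A).mp hA)
  obtain ⟨a, b, hab⟩ := (Int.isCoprime_iff_gcd_eq_one (m := x.num) (n := (ℓ : ℤ))).mpr (by
    rw [Int.gcd_comm]
    exact (Int.isCoprime_iff_gcd_eq_one.mp
      ((Nat.prime_iff_prime_int.mp hℓ.out).coprime_iff_not_dvd.mpr hnum)))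
  have h6 : (1 : L) ∈ A.nonunits := by
    have h7 : (1 : L) = (a : L) * (x.num : L) + (b : L) * (ℓ : L) := by exact_mod_cast hab.symm
    rw [h7, ValuationSubring.mem_nonunits_iff]
    refine lt_of_le_of_lt (Valuation.map_add _ _ _) (max_lt ?_ ?_)
    · rw [map_mul]
      calc A.valuation (a : L) * A.valuation (x.num : L) ≤ 1 * A.valuation (x.num : L) := by
            gcongr
            exact (A.valuation_le_one_iff _).mpr (intCast_mem A a)
        _ < 1 := by rw [one_mul]; exact ((ValuationSubring.mem_nonunits_iff A).mp h1)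
    · rw [map_mul]
      calc A.valuation (b : L) * A.valuation (ℓ : L) ≤ 1 * A.valuation (ℓ : L) := by
            gcongr
            exact (A.valuation_le_one_iff _).mpr (intCast_mem A b)
        _ < 1 := by rw [one_mul]; exact ((ValuationSubring.mem_nonunits_iff A).mp hA)
  rw [ValuationSubring.mem_nonunits_iff, map_one] at h6
  exact lt_irrefl _ h6

end Fermat.Agent.H19
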