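import Mathlib
import Fermat.Agent.H73Local

set_option autoImplicit false

/-!
# The chart `(t, s) = (x / ψ₂, 1 / ψ₂)` of a Weierstrass curve and a complete addition law on it

Used to show that the `p`-power torsion of an elliptic curve with good reduction at an odd prime
`p` is the generic fibre of a finite flat group scheme.
-/

namespace Fermat.Agent.H73

open WeierstrassCurve

section poly

variable {R : Type*} [CommRing R]

/-- the cubic form `4t³ + b₂t²s + 2b₄ts² + b₆s³`; the curve is `Gf = s`. -/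
def Gf (b₂ b₄ b₆ t s : R) : R := 4 * t ^ 3 + b₂ * t ^ 2 * s + 2 * b₄ * t * s ^ 2 + b₆ * s ^ 3

/-- linear coefficient of the restriction of `Gf - s` to a line -/
def C1 (b₂ b₄ b₆ t s u v : R) : R :=
  (12 * t ^ 2 + 2 * b₂ * t * s + 2 * b₄ * s ^ 2) * u +
    (b₂ * t ^ 2 + 4 * b₄ * t * s + 3 * b₆ * s ^ 2 - 1) * v

/-- quadratic coefficient of the restriction of `Gf - s` to a line -/
def C2 (b₂ b₄ b₆ t s u v : R) : R :=
  (12 * t + b₂ * s) * u ^ 2 + 2 * (b₂ * t + 2 * b₄ * s) * u * v + (2 * b₄ * t + 3 * b₆ * s) * v ^ 2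

lemma Gf_line (b₂ b₄ b₆ t s u v τ : R) : Gf b₂ b₄ b₆ (t + τ * u) (s + τ * v) - (s + τ * v) =
    Gf b₂ b₄ b₆ t s - s + C1 b₂ b₄ b₆ t s u v * τ + C2 b₂ b₄ b₆ t s u v * τ ^ 2 +
      Gf b₂ b₄ b₆ u v * τ ^ 3 := by
  simp only [Gf, C1, C2]; ring

/-- divided difference of `Gf` in the first variable -/
def Uf (b₂ b₄ t₁ s₁ t₂ : R) : R :=
  4 * (t₁ ^ 2 + t₁ * t₂ + t₂ ^ 2) + b₂ * s₁ * (t₁ + t₂) + 2 * b₄ * s₁ ^ 2

/-- divided difference of `Gf` in the second variable -/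
def Vf (b₂ b₄ b₆ s₁ t₂ s₂ : R) : R :=
  b₂ * t₂ ^ 2 + 2 * b₄ * t₂ * (s₁ + s₂) + b₆ * (s₁ ^ 2 + s₁ * s₂ + s₂ ^ 2)

lemma Gf_sub (b₂ b₄ b₆ t₁ s₁ t₂ s₂ : R) : Gf b₂ b₄ b₆ t₁ s₁ - Gf b₂ b₄ b₆ t₂ s₂ =
    (t₁ - t₂) * Uf b₂ b₄ t₁ s₁ t₂ + (s₁ - s₂) * Vf b₂ b₄ b₆ s₁ t₂ s₂ := by
  simp only [Gf, Uf, Vf]; ring

/-- The four relations satisfied by a direction vector `(u, v)` of the line through
`P₁, P₂, -P₃`. -/
structure Rel (b₂ b₄ b₆ t₁ s₁ t₂ s₂ t₃ s₃ u v : R) : Prop where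
  c2u : C2 b₂ b₄ b₆ t₁ s₁ u v * u = - Gf b₂ b₄ b₆ u v * (t₂ - 2 * t₁ - t₃)
  c2v : C2 b₂ b₄ b₆ t₁ s₁ u v * v = - Gf b₂ b₄ b₆ u v * (s₂ - 2 * s₁ - s₃)
  c1u : C1 b₂ b₄ b₆ t₁ s₁ u v * u ^ 2 = Gf b₂ b₄ b₆ u v * ((t₂ - t₁) * (- t₃ - t₁))
  c1v : C1 b₂ b₄ b₆ t₁ s₁ u v * v ^ 2 = Gf b₂ b₄ b₆ u v * ((s₂ - s₁) * (- s₃ - s₁))

lemma Rel.of_chord {b₂ b₄ b₆ t₁ s₁ t₂ s₂ t₃ s₃ e f : R} (τ₂ τ₃ : R)
    (h1 : τ₂ * e = t₂ - t₁) (h2 : τ₂ * f = s₂ - s₁) (h3 : τ₃ * e = - t₃ - t₁)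
    (h4 : τ₃ * f = - s₃ - s₁) (h5 : C2 b₂ b₄ b₆ t₁ s₁ e f = - Gf b₂ b₄ b₆ e f * (τ₂ + τ₃))
    (h6 : C1 b₂ b₄ b₆ t₁ s₁ e f = Gf b₂ b₄ b₆ e f * τ₂ * τ₃) (κ : R) :
    Rel b₂ b₄ b₆ t₁ s₁ t₂ s₂ t₃ s₃ (κ * e) (κ * f) := by
  have hG : Gf b₂ b₄ b₆ (κ * e) (κ * f) = κ ^ 3 * Gf b₂ b₄ b₆ e f := by simp only [Gf]; ring
  have hC1 : C1 b₂ b₄ b₆ t₁ s₁ (κ * e) (κ * f) = κ * C1 b₂ b₄ b₆ t₁ s₁ e f := by
    simp only [C1]; ring
  have hC2 : C2 b₂ b₄ b₆ t₁ s₁ (κ * e) (κ * f) = κ ^ 2 * C2 b₂ b₄ b₆ t₁ s₁ e f := by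
    simp only [C2]; ring
  constructor
  · rw [hG, hC2, h5]
    linear_combination (- κ ^ 3 * Gf b₂ b₄ b₆ e f) * (h1 + h3)
  · rw [hG, hC2, h5]
    linear_combination (- κ ^ 3 * Gf b₂ b₄ b₆ e f) * (h2 + h4)
  · rw [hG, hC1, h6]
    linear_combination (κ ^ 3 * Gf b₂ b₄ b₆ e f * (τ₃ * e)) * h1 +
      (κ ^ 3 * Gf b₂ b₄ b₆ e f * (t₂ - t₁)) * h3
  · rw [hG, hC1, h6]
    linear_combination (κ ^ 3 * Gf b₂ b₄ b₆ e f * (τ₃ * f)) * h2 +
      (κ ^ 3 * Gf b₂ b₄ b₆ e f * (s₂ - s₁)) * h4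

end poly

section field

variable {k : Type*} [Field k]

/-- the cubic contains no line -/
lemma no_line (h2 : (2 : k) ≠ 0) {b₂ b₄ b₆ t s u v : k} (hG : Gf b₂ b₄ b₆ t s = s)
    (hd : Gf b₂ b₄ b₆ u v = 0) (hc1 : C1 b₂ b₄ b₆ t s u v = 0) (hc2 : C2 b₂ b₄ b₆ t s u v = 0) :
    u = 0 ∧ v = 0 := by
  have h4 : (4 : k) ≠ 0 := by
    have : (4 : k) = 2 * 2 := by norm_num
    rw [this]; exact mul_ne_zero h2 h2
  by_cases hv : v = 0
  · subst hv
    simp only [Gf] at hd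
    have : 4 * u ^ 3 = 0 := by linear_combination hd
    have h3 := (mul_eq_zero.mp this).resolve_left h4
    exact ⟨pow_eq_zero_iff (by norm_num) |>.mp h3, rfl⟩
  · exfalso
    have hline := Gf_line b₂ b₄ b₆ t s u v (- s / v)
    rw [hG, hd, hc1, hc2] at hline
    have e1 : s + -s / v * v = 0 := by field_simp; ring
    rw [e1] at hline
    have h3 : 4 * (t + -s / v * u) ^ 3 = 0 := by
      simp only [Gf] at hline
      linear_combination hline
    have h4 := pow_eq_zero_iff (by norm_num) |>.mp ((mul_eq_zero.mp h3).resolve_left h4)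
    have h5 : t = s / v * u := by linear_combination h4
    have h6 : s = s / v * v := by field_simp
    have h7 : Gf b₂ b₄ b₆ t s = (s / v) ^ 3 * Gf b₂ b₄ b₆ u v := by
      conv_lhs => rw [h5, h6]
      simp only [Gf]
      field_simp
    rw [hG, hd, mul_zero] at h7
    subst h7
    have h8 : t = 0 := by rw [h5]; simp
    subst h8
    simp only [C1] at hc1
    apply hv
    linear_combination -hc1

/-- the cubic is smooth -/
lemma smooth_chart (h2 : (2 : k) ≠ 0) {b₂ b₄ b₆ t s : k} (hG : Gf b₂ b₄ b₆ t s = s)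
    (hU : Uf b₂ b₄ t s t = 0) (hV : 1 - Vf b₂ b₄ b₆ s t s = 0) : False := by
  have h4 : (4 : k) ≠ 0 := by
    have : (4 : k) = 2 * 2 := by norm_num
    rw [this]; exact mul_ne_zero h2 h2
  simp only [Gf, Uf, Vf] at hG hU hV
  have h1 : 2 * s = 0 := by linear_combination t * hU - s * hV - 3 * hG
  have hs : s = 0 := (mul_eq_zero.mp h1).resolve_left h2
  subst hs
  have h3 : 4 * t ^ 3 = 0 := by linear_combination hG
  have ht := pow_eq_zero_iff (by norm_num) |>.mp ((mul_eq_zero.mp h3).resolve_left h4)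
  subst ht
  simp at hV

lemma chordA {R : Type*} [CommRing R] {b₂ b₄ b₆ x₁ w₁ x₂ w₂ x₃ w₃ m : R}
    (E1 : w₁ ^ 2 = 4 * x₁ ^ 3 + b₂ * x₁ ^ 2 + 2 * b₄ * x₁ + b₆)
    (L1 : m * (x₁ - x₂) = w₁ - w₂)
    (L2 : m * (w₁ + w₂) = 4 * (x₁ ^ 2 + x₁ * x₂ + x₂ ^ 2) + b₂ * (x₁ + x₂) + 2 * b₄)
    (L3 : 4 * (x₁ + x₂ + x₃) = m ^ 2 - b₂)
    (L4 : w₃ = -(m * (x₃ - x₁) + w₁)) :
    Gf b₂ b₄ b₆ (m * x₁ - w₁) m = 4 * w₁ * w₂ * w₃ := by
  have h2 : w₂ = w₁ - m * (x₁ - x₂) := by linear_combination L1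
  subst h2 L4
  simp only [Gf]
  linear_combination (-m ^ 3) * E1 + (w₁ * m ^ 2) * L2 + (m * w₁ * (w₁ - m * (x₁ - x₂))) * L3

lemma chordB {R : Type*} [CommRing R] {b₂ b₄ b₆ x₁ w₁ x₂ w₂ x₃ w₃ m : R}
    (E1 : w₁ ^ 2 = 4 * x₁ ^ 3 + b₂ * x₁ ^ 2 + 2 * b₄ * x₁ + b₆)
    (L1 : m * (x₁ - x₂) = w₁ - w₂)
    (L2 : m * (w₁ + w₂) = 4 * (x₁ ^ 2 + x₁ * x₂ + x₂ ^ 2) + b₂ * (x₁ + x₂) + 2 * b₄)
    (L3 : 4 * (x₁ + x₂ + x₃) = m ^ 2 - b₂)
    (L4 : w₃ = -(m * (x₃ - x₁) + w₁)) :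
    (12 * x₁ + b₂) * (m * x₁ - w₁) ^ 2 + 2 * (b₂ * x₁ + 2 * b₄) * (m * x₁ - w₁) * m +
      (2 * b₄ * x₁ + 3 * b₆) * m ^ 2 = 4 * w₁ * (w₃ * (x₂ - x₁) - w₂ * (x₃ - x₁)) := by
  have h2 : w₂ = w₁ - m * (x₁ - x₂) := by linear_combination L1
  subst h2 L4
  linear_combination (-3 * m ^ 2) * E1 + (2 * w₁ * m) * L2 + (w₁ * (w₁ - 2 * m * (x₁ - x₂))) * L3

lemma chordC {R : Type*} [CommRing R] {b₂ b₄ b₆ x₁ w₁ x₂ w₂ x₃ w₃ m : R}
    (E1 : w₁ ^ 2 = 4 * x₁ ^ 3 + b₂ * x₁ ^ 2 + 2 * b₄ * x₁ + b₆)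
    (L1 : m * (x₁ - x₂) = w₁ - w₂)
    (L2 : m * (w₁ + w₂) = 4 * (x₁ ^ 2 + x₁ * x₂ + x₂ ^ 2) + b₂ * (x₁ + x₂) + 2 * b₄)
    (L3 : 4 * (x₁ + x₂ + x₃) = m ^ 2 - b₂)
    (L4 : w₃ = -(m * (x₃ - x₁) + w₁)) :
    (12 * x₁ ^ 2 + 2 * b₂ * x₁ + 2 * b₄) * (m * x₁ - w₁) +
      (b₂ * x₁ ^ 2 + 4 * b₄ * x₁ + 3 * b₆ - w₁ ^ 2) * m = - 4 * (x₂ - x₁) * (x₃ - x₁) * w₁ := by
  have h2 : w₂ = w₁ - m * (x₁ - x₂) := by linear_combination L1
  subst h2 L4
  linear_combination (-3 * m) * E1 + w₁ * L2 + (w₁ * (x₂ - x₁)) * L3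

/-- chord/tangent computation in terms of `x` and `w = ψ₂`. -/
lemma chord_generic {b₂ b₄ b₆ x₁ w₁ x₂ w₂ x₃ w₃ m : k} (hw₁ : w₁ ≠ 0) (hw₂ : w₂ ≠ 0)
    (hw₃ : w₃ ≠ 0)
    (E1 : w₁ ^ 2 = 4 * x₁ ^ 3 + b₂ * x₁ ^ 2 + 2 * b₄ * x₁ + b₆)
    (L1 : m * (x₁ - x₂) = w₁ - w₂)
    (L2 : m * (w₁ + w₂) = 4 * (x₁ ^ 2 + x₁ * x₂ + x₂ ^ 2) + b₂ * (x₁ + x₂) + 2 * b₄)
    (L3 : 4 * (x₁ + x₂ + x₃) = m ^ 2 - b₂)
    (L4 : w₃ = -(m * (x₃ - x₁) + w₁)) (κ : k) :
    Rel b₂ b₄ b₆ (x₁ * w₁⁻¹) w₁⁻¹ (x₂ * w₂⁻¹) w₂⁻¹ (x₃ * w₃⁻¹) w₃⁻¹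
      (κ * (m * x₁ - w₁)) (κ * m) := by
  have hA := chordA E1 L1 L2 L3 L4
  have hB : C2 b₂ b₄ b₆ (x₁ * w₁⁻¹) w₁⁻¹ (m * x₁ - w₁) m =
      4 * (w₃ * (x₂ - x₁) - w₂ * (x₃ - x₁)) := by
    simp only [C2]
    field_simp
    linear_combination chordB E1 L1 L2 L3 L4
  have hC : C1 b₂ b₄ b₆ (x₁ * w₁⁻¹) w₁⁻¹ (m * x₁ - w₁) m =
      - 4 * (x₂ - x₁) * (x₃ - x₁) / w₁ := by
    simp only [C1]
    field_simp
    linear_combination chordC E1 L1 L2 L3 L4
  refine Rel.of_chord (- (x₂ - x₁) / (w₁ * w₂)) ((x₃ - x₁) / (w₁ * w₃)) ?_ ?_ ?_ ?_ ?_ ?_ κ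
  · field_simp
    linear_combination x₁ * L1
  · field_simp
    linear_combination L1
  · field_simp
    linear_combination x₁ * L4
  · field_simp
    linear_combination L4
  · rw [hA, hB]
    field_simp
    ring
  · rw [hA, hC]
    field_simp

end field

section points

variable {k : Type*} [Field k] [DecidableEq k] (W : WeierstrassCurve k)

/-- `1 / ψ₂` on points -/
def sC : W.toAffine.Point → k
  | .zero => 0
  | .some x y _ => (2 * y + W.a₁ * x + W.a₃)⁻¹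

/-- `x / ψ₂` on points -/
def tC : W.toAffine.Point → k
  | .zero => 0
  | .some x y _ => x * (2 * y + W.a₁ * x + W.a₃)⁻¹

/-- not a nonzero two-torsion point -/
def No2 : W.toAffine.Point → Prop
  | .zero => True
  | .some x y _ => 2 * y + W.a₁ * x + W.a₃ ≠ 0

@[simp] lemma sC_zero : sC W 0 = 0 := rfl
@[simp] lemma tC_zero : tC W 0 = 0 := rfl
@[simp] lemma sC_some {x y : k} (h : W.toAffine.Nonsingular x y) :
    sC W (.some x y h) = (2 * y + W.a₁ * x + W.a₃)⁻¹ := rfl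
@[simp] lemma tC_some {x y : k} (h : W.toAffine.Nonsingular x y) :
    tC W (.some x y h) = x * (2 * y + W.a₁ * x + W.a₃)⁻¹ := rfl
@[simp] lemma no2_some {x y : k} (h : W.toAffine.Nonsingular x y) :
    No2 W (.some x y h) ↔ 2 * y + W.a₁ * x + W.a₃ ≠ 0 := Iff.rfl

variable {W}

lemma w_sq {x y : k} (h : W.toAffine.Equation x y) : (2 * y + W.a₁ * x + W.a₃) ^ 2 =
    4 * x ^ 3 + W.b₂ * x ^ 2 + 2 * W.b₄ * x + W.b₆ := by
  have e := (Affine.equation_iff _ _).mp h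
  simp only [WeierstrassCurve.b₂, WeierstrassCurve.b₄, WeierstrassCurve.b₆]
  linear_combination 4 * e

lemma Gf_point {P : W.toAffine.Point} (hP : No2 W P) :
    Gf W.b₂ W.b₄ W.b₆ (tC W P) (sC W P) = sC W P := by
  cases P with
  | zero => simp [Gf, tC, sC]
  | some x y h =>
    rw [no2_some] at hP
    rw [tC_some, sC_some]
    have e := w_sq h.left
    generalize 2 * y + W.a₁ * x + W.a₃ = w at *
    simp only [Gf]
    field_simp
    linear_combination -e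

lemma sC_neg (P : W.toAffine.Point) : sC W (-P) = - sC W P := by
  cases P with
  | zero => simp [sC, ← Affine.Point.zero_def]
  | some x y h =>
    rw [Affine.Point.neg_some, sC_some, sC_some, Affine.negY, ← inv_neg]
    congr 1; ring

lemma tC_neg (P : W.toAffine.Point) : tC W (-P) = - tC W P := by
  cases P with
  | zero => simp [tC, ← Affine.Point.zero_def]
  | some x y h =>
    rw [Affine.Point.neg_some, tC_some, tC_some, Affine.negY, ← mul_neg, ← inv_neg]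
    congr 2; ring

lemma sC_eq_zero {P : W.toAffine.Point} (hP : No2 W P) : sC W P = 0 ↔ P = 0 := by
  cases P with
  | zero => simp [sC, ← Affine.Point.zero_def]
  | some x y h =>
    rw [sC_some]
    simp only [Affine.Point.some_ne_zero, iff_false]
    exact inv_ne_zero hP

lemma eq_of_chart (h2 : (2 : k) ≠ 0) {P Q : W.toAffine.Point} (hP : No2 W P) (hQ : No2 W Q)
    (ht : tC W P = tC W Q) (hs : sC W P = sC W Q) : P = Q := by
  by_cases hP0 : P = 0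
  · subst hP0
    rw [sC_zero] at hs
    exact ((sC_eq_zero hQ).mp hs.symm).symm
  · have hQ0 : Q ≠ 0 := by
      rintro rfl
      rw [sC_zero] at hs
      exact hP0 ((sC_eq_zero hP).mp hs)
    cases P with
    | zero => exact absurd rfl hP0
    | some x₁ y₁ h₁ =>
      cases Q with
      | zero => exact absurd rfl hQ0
      | some x₂ y₂ h₂ =>
        rw [sC_some, sC_some] at hs
        rw [tC_some, tC_some] at ht
        rw [no2_some] at hP hQ
        have hw := inv_injective hs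
        rw [← hs] at ht
        have hx := mul_right_cancel₀ (inv_ne_zero hP) ht
        subst hx
        have hy : y₁ = y₂ := by
          apply mul_left_cancel₀ h2
          linear_combination hw
        subst hy
        rfl

/-- the two candidate direction vectors are parallel to each other -/
lemma parallel {b₂ b₄ b₆ t₁ s₁ t₂ s₂ : k} (h₁ : Gf b₂ b₄ b₆ t₁ s₁ = s₁)
    (h₂ : Gf b₂ b₄ b₆ t₂ s₂ = s₂) :
    (s₁ - s₂) * (1 - Vf b₂ b₄ b₆ s₁ t₂ s₂) = (t₁ - t₂) * Uf b₂ b₄ t₁ s₁ t₂ := by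
  have := Gf_sub b₂ b₄ b₆ t₁ s₁ t₂ s₂
  rw [h₁, h₂] at this
  linear_combination this

lemma exists_scale_of_parallel {u v e f : k} (hne : ¬ (e = 0 ∧ f = 0)) (h : u * f = v * e) :
    ∃ κ, u = κ * e ∧ v = κ * f := by
  by_cases he : e = 0
  · have hf : f ≠ 0 := fun hf => hne ⟨he, hf⟩
    subst he
    refine ⟨v / f, ?_, by field_simp⟩
    rw [mul_zero] at h ⊢
    exact (mul_eq_zero.mp h).resolve_right hf
  · refine ⟨u / e, by field_simp, ?_⟩
    field_simp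
    linear_combination -h

/-- the relations between `P, Q, P+Q` in the chart: there is a direction vector `(e, f) ≠ 0`. -/
lemma exists_direction (h2 : (2 : k) ≠ 0) {P Q : W.toAffine.Point} (hP : No2 W P) (hQ : No2 W Q)
    (hPQ : No2 W (P + Q)) :
    ∃ e f : k, ¬ (e = 0 ∧ f = 0) ∧
      (tC W P - tC W Q) * f = (sC W P - sC W Q) * e ∧
      (P = Q → (1 - Vf W.b₂ W.b₄ W.b₆ (sC W P) (tC W P) (sC W P)) * f =
        Uf W.b₂ W.b₄ (tC W P) (sC W P) (tC W P) * e) ∧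
      ∀ κ : k, Rel W.b₂ W.b₄ W.b₆ (tC W P) (sC W P) (tC W Q) (sC W Q) (tC W (P + Q))
        (sC W (P + Q)) (κ * e) (κ * f) := by
  by_cases hP0 : P = 0
  · subst hP0
    by_cases hQ0 : Q = 0
    · subst hQ0
      refine ⟨1, 0, by simp, by simp, fun _ => by simp [Uf], fun κ => ?_⟩
      rw [add_zero, tC_zero, sC_zero]
      refine Rel.of_chord 0 0 ?_ ?_ ?_ ?_ ?_ ?_ κ <;> simp [C1, C2]
    · have hs0 : sC W Q ≠ 0 := fun h => hQ0 ((sC_eq_zero hQ).mp h)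
      have hG := Gf_point hQ
      refine ⟨tC W Q, sC W Q, fun h => hs0 h.2, by rw [tC_zero, sC_zero]; ring,
        fun h => absurd h.symm hQ0, fun κ => ?_⟩
      rw [zero_add, tC_zero, sC_zero]
      refine Rel.of_chord 1 (-1) ?_ ?_ ?_ ?_ ?_ ?_ κ
      · ring
      · ring
      · ring
      · ring
      · simp only [C2]; ring
      · rw [hG]; simp only [C1]; ring
  · have hs0 : sC W P ≠ 0 := fun h => hP0 ((sC_eq_zero hP).mp h)
    have hG := Gf_point hP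
    have hc2 : C2 W.b₂ W.b₄ W.b₆ (tC W P) (sC W P) (tC W P) (sC W P) = 3 * sC W P := by
      have : C2 W.b₂ W.b₄ W.b₆ (tC W P) (sC W P) (tC W P) (sC W P) =
          3 * Gf W.b₂ W.b₄ W.b₆ (tC W P) (sC W P) := by simp only [Gf, C2]; ring
      rw [this, hG]
    have hc1 : C1 W.b₂ W.b₄ W.b₆ (tC W P) (sC W P) (tC W P) (sC W P) = 2 * sC W P := by
      have : C1 W.b₂ W.b₄ W.b₆ (tC W P) (sC W P) (tC W P) (sC W P) =
          3 * Gf W.b₂ W.b₄ W.b₆ (tC W P) (sC W P) - sC W P := by simp only [Gf, C1]; ring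
      rw [this, hG]; ring
    by_cases hQ0 : Q = 0
    · subst hQ0
      refine ⟨tC W P, sC W P, fun h => hs0 h.2, by rw [tC_zero, sC_zero]; ring,
        fun h => absurd h hP0, fun κ => ?_⟩
      rw [add_zero, tC_zero, sC_zero]
      refine Rel.of_chord (-1) (-2) ?_ ?_ ?_ ?_ ?_ ?_ κ
      · ring
      · ring
      · ring
      · ring
      · rw [hc2, hG]; ring
      · rw [hc1, hG]; ring
    · by_cases hPQ0 : P + Q = 0
      · have hQ' : Q = -P := (neg_eq_of_add_eq_zero_right hPQ0).symm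
        subst hQ'
        refine ⟨tC W P, sC W P, fun h => hs0 h.2, by rw [tC_neg, sC_neg]; ring,
          fun h => ?_, fun κ => ?_⟩
        · exfalso
          apply hs0
          have := congrArg (sC W) h
          rw [sC_neg] at this
          have h3 : 2 * sC W P = 0 := by linear_combination this
          exact (mul_eq_zero.mp h3).resolve_left h2
        · rw [add_neg_cancel, tC_zero, sC_zero, tC_neg, sC_neg]
          refine Rel.of_chord (-2) (-1) ?_ ?_ ?_ ?_ ?_ ?_ κ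
          · ring
          · ring
          · ring
          · ring
          · rw [hc2, hG]; ring
          · rw [hc1, hG]; ring
      · rcases hR : P + Q with _ | ⟨x₃, y₃, h₃⟩
        · exact absurd hR hPQ0
        · rw [hR] at hPQ
          cases P with
          | zero => exact absurd rfl hP0
          | some x₁ y₁ h₁ =>
            cases Q with
            | zero => exact absurd rfl hQ0
            | some x₂ y₂ h₂ =>
              obtain ⟨l, hl₁, hl₂, hx₃, hy₃⟩ := exists_slope hR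
              rw [no2_some] at hP hQ hPQ
              have e₁ := w_sq h₁.left
              have e₂ := w_sq h₂.left
              have L1 : (2 * l + W.a₁) * (x₁ - x₂) = (2 * y₁ + W.a₁ * x₁ + W.a₃) -
                  (2 * y₂ + W.a₁ * x₂ + W.a₃) := by linear_combination 2 * hl₁
              have L2 : (2 * l + W.a₁) * ((2 * y₁ + W.a₁ * x₁ + W.a₃) +
                  (2 * y₂ + W.a₁ * x₂ + W.a₃)) =
                  4 * (x₁ ^ 2 + x₁ * x₂ + x₂ ^ 2) + W.b₂ * (x₁ + x₂) + 2 * W.b₄ := by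
                simp only [WeierstrassCurve.b₂, WeierstrassCurve.b₄]
                linear_combination 4 * hl₂ - 2 * W.a₁ * hl₁
              have L3 : 4 * (x₁ + x₂ + x₃) = (2 * l + W.a₁) ^ 2 - W.b₂ := by
                simp only [WeierstrassCurve.b₂]
                linear_combination 4 * hx₃
              have L4 : 2 * y₃ + W.a₁ * x₃ + W.a₃ =
                  -((2 * l + W.a₁) * (x₃ - x₁) + (2 * y₁ + W.a₁ * x₁ + W.a₃)) := by
                linear_combination 2 * hy₃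
              refine ⟨(2 * l + W.a₁) * x₁ - (2 * y₁ + W.a₁ * x₁ + W.a₃), 2 * l + W.a₁, ?_, ?_, ?_,
                ?_⟩
              · rintro ⟨h3, h4⟩
                apply hP
                rw [h4] at h3
                linear_combination -h3
              · rw [tC_some, tC_some, sC_some, sC_some]
                generalize 2 * l + W.a₁ = m at *
                generalize 2 * y₁ + W.a₁ * x₁ + W.a₃ = w₁ at *
                generalize 2 * y₂ + W.a₁ * x₂ + W.a₃ = w₂ at *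
                field_simp
                linear_combination w₁ * L1
              · intro hPQe
                rw [Affine.Point.some.injEq] at hPQe
                obtain ⟨rfl, rfl⟩ := hPQe
                rw [tC_some, sC_some]
                generalize 2 * l + W.a₁ = m at *
                generalize 2 * y₁ + W.a₁ * x₁ + W.a₃ = w₁ at *
                simp only [Vf, Uf]
                field_simp
                linear_combination (3 * m) * e₁ - w₁ * L2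
              · rw [tC_some, tC_some, sC_some, sC_some, tC_some, sC_some]
                exact chord_generic hP hQ hPQ e₁ L1 L2 L3 L4

/-- The complete addition law in the chart. -/
theorem rel_of_add (h2 : (2 : k) ≠ 0) {P Q : W.toAffine.Point} (hP : No2 W P) (hQ : No2 W Q)
    (hPQ : No2 W (P + Q)) :
    Rel W.b₂ W.b₄ W.b₆ (tC W P) (sC W P) (tC W Q) (sC W Q) (tC W (P + Q)) (sC W (P + Q))
      (tC W P - tC W Q) (sC W P - sC W Q) ∧
    Rel W.b₂ W.b₄ W.b₆ (tC W P) (sC W P) (tC W Q) (sC W Q) (tC W (P + Q)) (sC W (P + Q))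
      (1 - Vf W.b₂ W.b₄ W.b₆ (sC W P) (tC W Q) (sC W Q)) (Uf W.b₂ W.b₄ (tC W P) (sC W P) (tC W Q)) := by
  obtain ⟨e, f, hne, h1, h3, h4⟩ := exists_direction h2 hP hQ hPQ
  constructor
  · obtain ⟨κ, hκ, hκ'⟩ := exists_scale_of_parallel hne h1
    rw [hκ, hκ']
    exact h4 κ
  · have h5 : (1 - Vf W.b₂ W.b₄ W.b₆ (sC W P) (tC W Q) (sC W Q)) * f =
        Uf W.b₂ W.b₄ (tC W P) (sC W P) (tC W Q) * e := by
      by_cases hPQe : P = Q
      · subst hPQe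
        exact h3 rfl
      · obtain ⟨κ, hκ, hκ'⟩ := exists_scale_of_parallel hne h1
        have hκ0 : κ ≠ 0 := by
          rintro rfl
          rw [zero_mul, sub_eq_zero] at hκ hκ'
          exact hPQe (eq_of_chart h2 hP hQ hκ hκ')
        have h6 := parallel (Gf_point hP) (Gf_point hQ)
        rw [hκ, hκ'] at h6
        apply mul_left_cancel₀ hκ0
        linear_combination h6
    obtain ⟨κ, hκ, hκ'⟩ := exists_scale_of_parallel hne h5
    rw [hκ, hκ']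
    exact h4 κ

end points

end Fermat.Agent.H73
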