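import Mathlib
import Fermat.Agent.H73FlatAlg

set_option autoImplicit false

/-!
# Integrality of the chart `(t, s)` on points of odd order on a curve with good reduction
-/

namespace Fermat.Agent.H73

open WeierstrassCurve

section val

variable {K : Type*} [Field K] {A : ValuationSubring K}

lemma mem_of_sq_mem {a : K} (h : a ^ 2 ∈ A) : a ∈ A := by
  by_contra ha
  have h1 := inv_mem_nonunits_of_notMem ha
  have ha0 : a ≠ 0 := by rintro rfl; exact ha A.zero_mem
  refine one_notMem_nonunits (A := A) ?_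
  have : (1 : K) = a ^ 2 * (a⁻¹ * a⁻¹) := by field_simp
  rw [this]
  exact mul_mem_nonunits h (mul_mem_nonunits (mem_of_mem_nonunits h1) h1)

lemma mem_nonunits_of_mul {a b : K} (ha : a ∈ A) (hb : b ∈ A) (h : a * b ∈ A.nonunits) :
    a ∈ A.nonunits ∨ b ∈ A.nonunits := by
  by_contra hcon
  push Not at hcon
  have h1 := inv_mem_of_notMem_nonunits hcon.1
  have h2 := inv_mem_of_notMem_nonunits hcon.2
  have ha0 := ne_zero_of_notMem_nonunits hcon.1
  have hb0 := ne_zero_of_notMem_nonunits hcon.2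
  refine one_notMem_nonunits (A := A) ?_
  have : (1 : K) = (a⁻¹ * b⁻¹) * (a * b) := by field_simp
  rw [this]
  exact mul_mem_nonunits (mul_mem h1 h2) h

lemma mem_nonunits_of_mul_pow {a b : K} (n : ℕ) (ha : a ∈ A) (hb : b ∈ A)
    (h : a * b ^ n ∈ A.nonunits) (hb' : b ∉ A.nonunits) : a ∈ A.nonunits := by
  induction n generalizing a with
  | zero => simpa using h
  | succ n ih =>
    have h1 : (a * b) * b ^ n ∈ A.nonunits := by
      have : (a * b) * b ^ n = a * b ^ (n + 1) := by ring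
      rwa [this]
    rcases mem_nonunits_of_mul ha hb (ih (mul_mem ha hb) h1) with h2 | h2
    · exact h2
    · exact absurd h2 hb'

/-- points with the same reduction on a curve with good reduction -/
theorem inE1_sub_of_congr [DecidableEq K] {W : WeierstrassCurve K}
    (hW : ∃ W₀ : WeierstrassCurve A, W₀.map (algebraMap A K) = W)
    (hΔ : W.Δ ∉ A.nonunits) {x y x' y' : K} (h : W.toAffine.Nonsingular x y)
    (h' : W.toAffine.Nonsingular x' y') (hx : x ∈ A) (hxx : x' - x ∈ A.nonunits)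
    (hyy : y' - y ∈ A.nonunits) :
    InE1 A (Affine.Point.some x y h - Affine.Point.some x' y' h') := by
  have hy := y_mem_of_x_mem hW h.left hx
  by_contra hcon
  obtain ⟨h1, h2⟩ := singular_of_sub_notInE1 hW h h' hx hy hxx hyy hcon
  obtain ⟨W₀, rfl⟩ := hW
  have e := (Affine.equation_iff _ _).mp h.left
  have hΔ' : (W₀.map (IsLocalRing.residue A)).Δ ≠ 0 := by
    rw [WeierstrassCurve.map_Δ, Ne, residue_eq_zero_iff]
    rwa [WeierstrassCurve.map_Δ] at hΔ
  have heq : (W₀.map (IsLocalRing.residue A)).toAffine.Equation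
      (IsLocalRing.residue A ⟨x, hx⟩) (IsLocalRing.residue A ⟨y, hy⟩) := by
    rw [Affine.equation_iff]
    have e' : (⟨y, hy⟩ : A) ^ 2 + W₀.a₁ * ⟨x, hx⟩ * ⟨y, hy⟩ + W₀.a₃ * ⟨y, hy⟩ =
        ⟨x, hx⟩ ^ 3 + W₀.a₂ * ⟨x, hx⟩ ^ 2 + W₀.a₄ * ⟨x, hx⟩ + W₀.a₆ := by
      apply Subtype.ext; push_cast; exact e
    have := congrArg (IsLocalRing.residue A) e'
    simp only [map_add, map_mul, map_pow] at this
    exact this
  have hns := (Affine.equation_iff_nonsingular_of_Δ_ne_zero hΔ').mp heq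
  rw [Affine.nonsingular_iff] at hns
  rcases hns.2 with h3 | h3
  · apply h3
    have : IsLocalRing.residue A (3 * ⟨x, hx⟩ ^ 2 + 2 * W₀.a₂ * ⟨x, hx⟩ + W₀.a₄
        - W₀.a₁ * ⟨y, hy⟩) = 0 := (residue_eq_zero_iff _).mpr h2
    simp only [map_add, map_sub, map_mul, map_pow, map_ofNat] at this
    simp only [WeierstrassCurve.map_a₁, WeierstrassCurve.map_a₂, WeierstrassCurve.map_a₄]
    linear_combination -this
  · apply h3
    have : IsLocalRing.residue A (2 * ⟨y, hy⟩ + W₀.a₁ * ⟨x, hx⟩ + W₀.a₃) = 0 :=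
      (residue_eq_zero_iff _).mpr h1
    simp only [map_add, map_mul, map_ofNat] at this
    simp only [WeierstrassCurve.map_a₁, WeierstrassCurve.map_a₃]
    linear_combination this

lemma InE1.nsmul [DecidableEq K] {W : WeierstrassCurve K}
    (hW : ∃ W₀ : WeierstrassCurve A, W₀.map (algebraMap A K) = W)
    {P : W.toAffine.Point} (hP : InE1 A P) (n : ℕ) : InE1 A (n • P) := by
  induction n with
  | zero => rw [zero_smul]; exact inE1_zero
  | succ n ih => rw [succ_nsmul]; exact InE1.add hW ih hP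

/-- points of odd order are not nonzero two-torsion points -/
lemma no2_of_odd [DecidableEq K] {W : WeierstrassCurve K} {n : ℕ} (hn : Odd n)
    {P : W.toAffine.Point} (hP : n • P = 0) : No2 W P := by
  cases P with
  | zero => trivial
  | some x y h =>
    intro hw
    have hneg : - Affine.Point.some x y h = Affine.Point.some x y h := by
      rw [Affine.Point.neg_some, Affine.Point.some.injEq]
      refine ⟨rfl, ?_⟩
      rw [Affine.negY]
      linear_combination -hw
    have h2 : 2 • Affine.Point.some x y h = 0 := by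
      rw [two_nsmul]
      nth_rewrite 1 [← hneg]
      exact neg_add_cancel _
    obtain ⟨m, rfl⟩ := hn
    rw [add_nsmul, mul_nsmul, h2, one_nsmul, smul_zero, zero_add] at hP
    exact Affine.Point.some_ne_zero h hP

/-- **Integrality of the chart** on points of odd order. -/
theorem chart_mem [DecidableEq K] {W : WeierstrassCurve K}
    (hW : ∃ W₀ : WeierstrassCurve A, W₀.map (algebraMap A K) = W)
    (hΔ : W.Δ ∉ A.nonunits) (h2 : (2 : K) ∉ A.nonunits) {n : ℕ} (hn : Odd n)
    {P : W.toAffine.Point} (hP : n • P = 0) : tC W P ∈ A ∧ sC W P ∈ A := by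
  have hN := no2_of_odd hn hP
  cases P with
  | zero => exact ⟨A.zero_mem, A.zero_mem⟩
  | some x y h =>
    rw [no2_some] at hN
    rw [tC_some, sC_some]
    have hb₂ : W.b₂ ∈ A := by obtain ⟨W₀, rfl⟩ := hW; rw [map_b₂]; exact W₀.b₂.2
    have hb₄ : W.b₄ ∈ A := by obtain ⟨W₀, rfl⟩ := hW; rw [map_b₄]; exact W₀.b₄.2
    have hb₆ : W.b₆ ∈ A := by obtain ⟨W₀, rfl⟩ := hW; rw [map_b₆]; exact W₀.b₆.2
    have ha₁ : W.a₁ ∈ A := by obtain ⟨W₀, rfl⟩ := hW; rw [map_a₁]; exact W₀.a₁.2
    have ha₃ : W.a₃ ∈ A := by obtain ⟨W₀, rfl⟩ := hW; rw [map_a₃]; exact W₀.a₃.2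
    have h2A : (2 : K) ∈ A := by
      have := natCast_mem A 2; exact_mod_cast this
    by_cases hx : x ∈ A
    · have hy := y_mem_of_x_mem hW h.left hx
      have hw : 2 * y + W.a₁ * x + W.a₃ ∈ A :=
        add_mem (add_mem (mul_mem h2A hy) (mul_mem ha₁ hx)) ha₃
      by_cases hwn : 2 * y + W.a₁ * x + W.a₃ ∈ A.nonunits
      · exfalso
        have h' : W.toAffine.Nonsingular x (W.toAffine.negY x y) :=
          (Affine.nonsingular_neg ..).mpr h
        have key := inE1_sub_of_congr hW hΔ h h' hx (by rw [sub_self]; exact A.nonunits.zero_mem)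
          (by
            rw [Affine.negY]
            have : -y - W.toAffine.a₁ * x - W.toAffine.a₃ - y = -(2 * y + W.a₁ * x + W.a₃) := by
              ring
            rw [this]
            exact neg_mem hwn)
        rw [← Affine.Point.neg_some h, sub_neg_eq_add, ← two_nsmul] at key
        obtain ⟨m, rfl⟩ := hn
        have h3 := InE1.nsmul hW key m
        rw [← mul_nsmul] at h3
        rw [add_nsmul, one_nsmul, add_comm] at hP
        have h4 : Affine.Point.some x y h = -((2 * m) • Affine.Point.some x y h) :=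
          eq_neg_of_add_eq_zero_left hP
        have h5 := h3.neg
        rw [← h4, inE1_some] at h5
        exact h5 hx
      · have := inv_mem_of_notMem_nonunits hwn
        exact ⟨mul_mem hx this, this⟩
    · have e := w_sq h.left
      generalize 2 * y + W.a₁ * x + W.a₃ = w at *
      have hx0 : x ≠ 0 := by rintro rfl; exact hx A.zero_mem
      have hα := inv_mem_nonunits_of_notMem hx
      have hαA := mem_of_mem_nonunits hα
      set α := x⁻¹ with hαdef
      have hu : 4 + (W.b₂ + 2 * W.b₄ * α + W.b₆ * α ^ 2) * α ∉ A.nonunits := by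
        intro hcon
        have h3 : (W.b₂ + 2 * W.b₄ * α + W.b₆ * α ^ 2) * α ∈ A.nonunits := by
          refine mul_mem_nonunits ?_ hα
          exact add_mem (add_mem hb₂ (mul_mem (mul_mem h2A hb₄) hαA))
            (mul_mem hb₆ (pow_mem hαA 2))
        have h4 : (2 : K) * 2 ∈ A.nonunits := by
          have := sub_mem hcon h3
          have e2 : (2 : K) * 2 = 4 + (W.b₂ + 2 * W.b₄ * α + W.b₆ * α ^ 2) * α -
            (W.b₂ + 2 * W.b₄ * α + W.b₆ * α ^ 2) * α := by ring
          rwa [e2]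
        rcases mem_nonunits_of_mul h2A h2A h4 with h5 | h5 <;> exact h2 h5
      have hui := inv_mem_of_notMem_nonunits hu
      have hu0 := ne_zero_of_notMem_nonunits hu
      have e' : w ^ 2 = x ^ 3 * (4 + (W.b₂ + 2 * W.b₄ * α + W.b₆ * α ^ 2) * α) := by
        rw [e, hαdef]; field_simp; ring
      constructor
      · apply mem_of_sq_mem
        have : (x * w⁻¹) ^ 2 = α * (4 + (W.b₂ + 2 * W.b₄ * α + W.b₆ * α ^ 2) * α)⁻¹ := by
          rw [mul_pow, inv_pow, e', mul_inv, hαdef]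
          generalize (4 + (W.b₂ + 2 * W.b₄ * x⁻¹ + W.b₆ * x⁻¹ ^ 2) * x⁻¹)⁻¹ = z
          field_simp
        rw [this]
        exact mul_mem hαA hui
      · apply mem_of_sq_mem
        have : (w⁻¹) ^ 2 = α ^ 3 * (4 + (W.b₂ + 2 * W.b₄ * α + W.b₆ * α ^ 2) * α)⁻¹ := by
          rw [inv_pow, e', mul_inv, ← inv_pow]
        rw [this]
        exact mul_mem (pow_mem hαA 3) hui

end val

section residue

variable {K : Type*} [Field K] {A : ValuationSubring K}

lemma Gf_notMem_nonunits (h2 : (2 : K) ∉ A.nonunits) {b₂ b₄ b₆ t₁ s₁ t₂ s₂ t₃ s₃ u v : A}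
    (hG : Gf b₂ b₄ b₆ t₁ s₁ = s₁) (hrel : Rel b₂ b₄ b₆ t₁ s₁ t₂ s₂ t₃ s₃ u v)
    (hd : ¬ ((u : K) ∈ A.nonunits ∧ (v : K) ∈ A.nonunits)) :
    ((Gf b₂ b₄ b₆ u v : A) : K) ∉ A.nonunits := by
  intro hcon
  have h2' : (2 : IsLocalRing.ResidueField A) ≠ 0 := by
    have h3 : IsLocalRing.residue A 2 ≠ 0 := by
      rw [Ne, residue_eq_zero_iff]; exact h2
    rwa [map_ofNat] at h3
  obtain ⟨r1, r2, r3, r4⟩ := hrel
  have hGr := congrArg (IsLocalRing.residue A) hG
  have q0 := (residue_eq_zero_iff _).mpr hcon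
  have q1 := congrArg (IsLocalRing.residue A) r1
  have q2 := congrArg (IsLocalRing.residue A) r2
  have q3 := congrArg (IsLocalRing.residue A) r3
  have q4 := congrArg (IsLocalRing.residue A) r4
  rw [map_mul, map_mul, map_neg, q0, neg_zero, zero_mul] at q1 q2
  rw [map_mul, map_mul, q0, zero_mul, map_pow] at q3 q4
  have hmapG : ∀ t s : A, IsLocalRing.residue A (Gf b₂ b₄ b₆ t s) =
      Gf (IsLocalRing.residue A b₂) (IsLocalRing.residue A b₄) (IsLocalRing.residue A b₆)
        (IsLocalRing.residue A t) (IsLocalRing.residue A s) := by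
    intro t s; simp only [Gf, map_add, map_mul, map_pow, map_ofNat]
  have hmap1 : IsLocalRing.residue A (C1 b₂ b₄ b₆ t₁ s₁ u v) =
      C1 (IsLocalRing.residue A b₂) (IsLocalRing.residue A b₄) (IsLocalRing.residue A b₆)
        (IsLocalRing.residue A t₁) (IsLocalRing.residue A s₁) (IsLocalRing.residue A u)
        (IsLocalRing.residue A v) := by
    simp only [C1, map_add, map_sub, map_one, map_mul, map_pow, map_ofNat]
  have hmap2 : IsLocalRing.residue A (C2 b₂ b₄ b₆ t₁ s₁ u v) =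
      C2 (IsLocalRing.residue A b₂) (IsLocalRing.residue A b₄) (IsLocalRing.residue A b₆)
        (IsLocalRing.residue A t₁) (IsLocalRing.residue A s₁) (IsLocalRing.residue A u)
        (IsLocalRing.residue A v) := by
    simp only [C2, map_add, map_mul, map_pow, map_ofNat]
  rw [hmapG] at hGr q0
  rw [hmap1] at q3 q4
  rw [hmap2] at q1 q2
  have hd' : ¬ (IsLocalRing.residue A u = 0 ∧ IsLocalRing.residue A v = 0) := by
    rwa [residue_eq_zero_iff, residue_eq_zero_iff]
  apply hd'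
  refine no_line h2' hGr q0 ?_ ?_
  · by_cases hu : IsLocalRing.residue A u = 0
    · have hv : IsLocalRing.residue A v ≠ 0 := fun hv => hd' ⟨hu, hv⟩
      exact (mul_eq_zero.mp q4).resolve_right (pow_ne_zero 2 hv)
    · exact (mul_eq_zero.mp q3).resolve_right (pow_ne_zero 2 hu)
  · by_cases hu : IsLocalRing.residue A u = 0
    · have hv : IsLocalRing.residue A v ≠ 0 := fun hv => hd' ⟨hu, hv⟩
      exact (mul_eq_zero.mp q2).resolve_right hv
    · exact (mul_eq_zero.mp q1).resolve_right hu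

/-- one of the two addition laws is defined at every point -/
theorem Gf_unit_or (h2 : (2 : K) ∉ A.nonunits) {b₂ b₄ b₆ t₁ s₁ t₂ s₂ t₃ s₃ : A}
    (hG : Gf b₂ b₄ b₆ t₁ s₁ = s₁)
    (hrel : Rel b₂ b₄ b₆ t₁ s₁ t₂ s₂ t₃ s₃ (t₁ - t₂) (s₁ - s₂))
    (hrel' : Rel b₂ b₄ b₆ t₁ s₁ t₂ s₂ t₃ s₃ (1 - Vf b₂ b₄ b₆ s₁ t₂ s₂) (Uf b₂ b₄ t₁ s₁ t₂)) :
    ((Gf b₂ b₄ b₆ (t₁ - t₂) (s₁ - s₂) : A) : K) ∉ A.nonunits ∨
      ((Gf b₂ b₄ b₆ (1 - Vf b₂ b₄ b₆ s₁ t₂ s₂) (Uf b₂ b₄ t₁ s₁ t₂) : A) : K) ∉ A.nonunits := by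
  have h2' : (2 : IsLocalRing.ResidueField A) ≠ 0 := by
    have h3 : IsLocalRing.residue A 2 ≠ 0 := by
      rw [Ne, residue_eq_zero_iff]; exact h2
    rwa [map_ofNat] at h3
  by_cases hd : ((t₁ - t₂ : A) : K) ∈ A.nonunits ∧ ((s₁ - s₂ : A) : K) ∈ A.nonunits
  · right
    refine Gf_notMem_nonunits h2 hG hrel' ?_
    rintro ⟨h3, h4⟩
    rw [← residue_eq_zero_iff, map_sub, sub_eq_zero] at hd
    rw [← residue_eq_zero_iff, map_sub, sub_eq_zero] at hd
    rw [← residue_eq_zero_iff] at h3 h4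
    have hGr := congrArg (IsLocalRing.residue A) hG
    simp only [Gf, Uf, Vf, map_add, map_sub, map_one, map_mul, map_pow, map_ofNat, ← hd.1,
      ← hd.2] at hGr h3 h4
    exact smooth_chart h2' hGr h4 h3
  · left
    exact Gf_notMem_nonunits h2 hG hrel hd

end residue

end Fermat.Agent.H73
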