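import Mathlib
import Fermat.Agent.H73FlatVal
import Fermat.Agent.H19Zl

set_option autoImplicit false

/-!
# Valuation-theoretic criteria for functions on a finite set with values in `ℚ̄`
-/

namespace Fermat.Agent.H73

open Fermat.Agent.H19

local notation "Qbar" => AlgebraicClosure ℚ

/-- A proper ideal of a ring of functions on a finite set with values in a field is
"contained in a valuation ideal at a point". -/
theorem exists_valuation_of_ne_top {X K : Type*} [Finite X] [Field K] (B : Subring (X → K))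
    (I : Ideal B) (hI : I ≠ ⊤) :
    ∃ (j : X) (A : ValuationSubring K), (∀ b : B, (b : X → K) j ∈ A) ∧
      ∀ b ∈ I, (b : X → K) j ∈ A.nonunits := by
  classical
  obtain ⟨M, hM, hIM⟩ := I.exists_le_maximal hI
  have := Fintype.ofFinite X
  let ev : X → (B →+* K) := fun j => (Pi.evalRingHom (fun _ => K) j).comp B.subtype
  have hprod : ∏ j, RingHom.ker (ev j) ≤ M := by
    refine le_trans Ideal.prod_le_inf ?_
    intro b hb
    rw [Submodule.mem_finsetInf] at hb
    have : b = 0 := by
      apply Subtype.ext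
      funext j
      exact hb j (Finset.mem_univ j)
    rw [this]; exact M.zero_mem
  obtain ⟨j, -, hj⟩ := (Ideal.IsPrime.prod_le hM.isPrime).mp hprod
  let J : Ideal (ev j).range := M.map (ev j).rangeRestrict
  have hJ : J ≠ ⊤ := by
    intro h
    rw [Ideal.eq_top_iff_one] at h
    obtain ⟨m, hm, hm1⟩ := (Ideal.mem_map_iff_of_surjective _
      (ev j).rangeRestrict_surjective).mp h
    apply hM.ne_top
    rw [Ideal.eq_top_iff_one]
    have h1 : (1 : B) - m ∈ M := by
      apply hj
      rw [RingHom.mem_ker, map_sub, map_one, sub_eq_zero]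
      exact (congrArg Subtype.val hm1).symm
    have := M.add_mem h1 hm
    rwa [sub_add_cancel] at this
  obtain ⟨A, hA, hJA⟩ := Ideal.image_subset_nonunits_valuationSubring J hJ
  exact ⟨j, A, fun b => hA ⟨b, rfl⟩, fun b hb =>
    hJA ⟨(ev j).rangeRestrict b, Ideal.mem_map_of_mem _ (hIM hb), rfl⟩⟩

lemma natCast_mem_maximalIdeal (p : ℕ) [hp : Fact p.Prime] :
    ((p : ℕ) : Zl p) ∈ IsLocalRing.maximalIdeal (Zl p) := by
  rw [IsLocalRing.mem_maximalIdeal, mem_nonunits_iff]
  intro hu
  obtain ⟨v, hv⟩ := isUnit_iff_exists_inv.mp hu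
  have h1 : (p : ℚ) * (v : ℚ) = 1 := congrArg Subtype.val hv
  have h2 : (v : ℚ) = (p : ℚ)⁻¹ := eq_inv_of_mul_eq_one_right h1
  have h3 : (v : ℚ).den.Coprime p := mem_Zl_iff.mp v.2
  rw [h2, Rat.inv_natCast_den_of_pos hp.out.pos] at h3
  rw [Nat.coprime_self] at h3
  exact hp.out.ne_one h3

/-- Version over `ℤ_(p)`: the valuation lies over `p`. -/
theorem exists_valuation_of_ne_top' {X : Type*} [Finite X] (p : ℕ) [hp : Fact p.Prime]
    (B : Subalgebra (Zl p) (X → Qbar)) [Algebra.IsIntegral (Zl p) B]
    (I : Ideal B) (hI : I ≠ ⊤) :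
    ∃ (j : X) (A : ValuationSubring Qbar), A.LiesOverPrime p ∧ (∀ b : B, (b : X → Qbar) j ∈ A) ∧
      ∀ b ∈ I, (b : X → Qbar) j ∈ A.nonunits := by
  obtain ⟨M, hM, hIM⟩ := I.exists_le_maximal hI
  obtain ⟨j, A, h1, h2⟩ := exists_valuation_of_ne_top B.toSubring M hM.ne_top
  refine ⟨j, A, ?_, h1, fun b hb => h2 b (hIM hb)⟩
  have hmax := Ideal.isMaximal_comap_of_isIntegral_of_isMaximal (R := Zl p) (S := B) M
  have h3 : ((p : ℕ) : Zl p) ∈ M.comap (algebraMap (Zl p) B) := by
    rw [IsLocalRing.eq_maximalIdeal hmax]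
    exact natCast_mem_maximalIdeal p
  rw [Ideal.mem_comap] at h3
  have h4 := h2 _ h3
  have h5 : (((algebraMap (Zl p) B) ((p : ℕ) : Zl p) : B) : X → Qbar) j = (p : Qbar) := by
    rw [map_natCast]
    rfl
  rw [h5] at h4
  exact h4

/-- An algebraic number lying in all places above `p` is integral over `ℤ_(p)`. -/
theorem isIntegral_of_forall {p : ℕ} [hp : Fact p.Prime] {x : Qbar}
    (h : ∀ A : ValuationSubring Qbar, A.LiesOverPrime p → x ∈ A) : IsIntegral (Zl p) x := by
  by_contra hx
  let C : Subring Qbar := (integralClosure (Zl p) Qbar).toSubring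
  have hC : IsIntegrallyClosedIn C Qbar := by
    have : IsIntegrallyClosedIn (integralClosure (Zl p) Qbar) Qbar := inferInstance
    exact this
  obtain ⟨V, hV, hxV⟩ := Subring.exists_le_valuationSubring_of_isIntegrallyClosedIn
    (R := C) (x := x) hx
  apply hxV
  by_cases hpV : (p : Qbar) ∈ V.nonunits
  · exact h V hpV
  · have hZ : ∀ r : Zl p, algebraMap (Zl p) Qbar r ∈ V := by
      intro r
      exact hV (show algebraMap (Zl p) Qbar r ∈ C from
        (integralClosure (Zl p) Qbar).algebraMap_mem r)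
    -- all nonzero naturals are units of `V`
    have hnat : ∀ n : ℕ, n ≠ 0 → (n : Qbar)⁻¹ ∈ V := by
      intro n
      induction n using Nat.recOnMul with
      | zero => intro h0; exact absurd rfl h0
      | one => intro _; rw [Nat.cast_one, inv_one]; exact V.one_mem
      | prime q hq =>
        intro _
        by_cases hqp : q = p
        · subst hqp
          exact inv_mem_of_notMem_nonunits hpV
        · have hcop : q.Coprime p := (Nat.coprime_primes hq hp.out).mpr hqp
          have := hZ ⟨((q : ℚ))⁻¹, inv_natCast_mem_Zl hcop⟩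
          have e : algebraMap (Zl p) Qbar ⟨((q : ℚ))⁻¹, inv_natCast_mem_Zl hcop⟩ =
              (q : Qbar)⁻¹ := by
            change algebraMap ℚ Qbar ((q : ℚ))⁻¹ = _
            rw [map_inv₀, map_natCast]
          rwa [e] at this
      | mul a b ha hb =>
        intro hab
        rw [Nat.cast_mul, mul_inv]
        exact V.mul_mem _ _ (ha (left_ne_zero_of_mul hab)) (hb (right_ne_zero_of_mul hab))
    have hQ : ∀ q : ℚ, algebraMap ℚ Qbar q ∈ V := by
      intro q
      have : algebraMap ℚ Qbar q = (q.num : Qbar) * (q.den : Qbar)⁻¹ := by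
        conv_lhs => rw [← Rat.num_div_den q]
        rw [map_div₀, map_intCast, map_natCast, div_eq_mul_inv]
      rw [this]
      exact V.mul_mem _ _ (intCast_mem V _) (hnat _ q.den_ne_zero)
    let f : ℚ →+* V := (algebraMap ℚ Qbar).codRestrict V.toSubring hQ
    have hint : IsIntegral V x := by
      have h1 : IsIntegral ℚ x := by
        have : Algebra.IsAlgebraic ℚ Qbar := AlgebraicClosure.isAlgebraic ℚ
        exact Algebra.IsIntegral.isIntegral x
      obtain ⟨P, hP, hPx⟩ := h1
      refine ⟨P.map f, hP.map f, ?_⟩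
      rw [Polynomial.eval₂_map]
      have : (algebraMap V Qbar).comp f = algebraMap ℚ Qbar := RingHom.ext fun q => rfl
      rw [this]
      exact hPx
    obtain ⟨y, hy⟩ := IsIntegrallyClosed.isIntegral_iff.mp hint
    rw [← hy]
    exact y.2

/-- integrality of functions on a finite set is pointwise -/
theorem isIntegral_pi {R K X : Type*} [CommRing R] [Field K] [Algebra R K] [Finite X]
    {f : X → K} (h : ∀ x, IsIntegral R (f x)) : IsIntegral R f := by
  classical
  have := Fintype.ofFinite X
  choose P hP hPx using h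
  refine ⟨∏ x, P x, Polynomial.monic_prod_of_monic _ _ fun x _ => hP x, ?_⟩
  rw [← Polynomial.aeval_def]
  funext x
  have h1 : (Polynomial.aeval f (∏ x, P x)) x = Polynomial.aeval (f x) (∏ x, P x) := by
    exact (Polynomial.aeval_algHom_apply (Pi.evalAlgHom R (fun _ : X => K) x) f _).symm
  rw [h1, map_prod]
  exact Finset.prod_eq_zero (Finset.mem_univ x) (hPx x)

end Fermat.Agent.H73
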