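import Mathlib
import Fermat.Agent.H73FlatLoc
import Fermat.Agent.H87ECTorsion
import Fermat.Agent.H73Frey

set_option autoImplicit false

/-!
# Torsion of odd order of an elliptic curve with good reduction at an odd prime `p` has a finite
flat model over `ℤ_(p)` (job EC9)
-/

namespace Fermat.Agent.H73

open WeierstrassCurve Fermat.Agent.H19
open scoped WeierstrassCurve.Affine TensorProduct

local notation "Qbar" => AlgebraicClosure ℚ

section

variable (W : WeierstrassCurve ℤ)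

/-- the curve over `ℚ̄` -/
noncomputable abbrev curveBar : WeierstrassCurve Qbar :=
  (W.map (Int.castRingHom ℚ)).map (algebraMap ℚ Qbar)

lemma curveBar_eq : curveBar W = W.map (Int.castRingHom Qbar) := by
  rw [curveBar, WeierstrassCurve.map_map]
  congr 1

lemma curveBar_int (A : ValuationSubring Qbar) :
    ∃ W₀ : WeierstrassCurve A, W₀.map (algebraMap A Qbar) = curveBar W := by
  refine ⟨W.map (Int.castRingHom A), ?_⟩
  rw [curveBar_eq, WeierstrassCurve.map_map]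
  congr 1

lemma curveBar_b₂ : (curveBar W).b₂ = (W.b₂ : Qbar) := by
  rw [curveBar_eq, map_b₂]; rfl
lemma curveBar_b₄ : (curveBar W).b₄ = (W.b₄ : Qbar) := by
  rw [curveBar_eq, map_b₄]; rfl
lemma curveBar_b₆ : (curveBar W).b₆ = (W.b₆ : Qbar) := by
  rw [curveBar_eq, map_b₆]; rfl

lemma curveBar_Δ_notMem {p : ℕ} (hp : p.Prime) (hΔ : ¬ (p : ℤ) ∣ W.Δ) {A : ValuationSubring Qbar}
    (hA : A.LiesOverPrime p) : (curveBar W).Δ ∉ A.nonunits := by
  rw [curveBar_eq, map_Δ]
  exact intCast_notMem_nonunits hp hA hΔ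

lemma two_notMem {p : ℕ} (hp : p.Prime) (hp2 : p ≠ 2) {A : ValuationSubring Qbar}
    (hA : A.LiesOverPrime p) : (2 : Qbar) ∉ A.nonunits := by
  have h : ¬ (p : ℤ) ∣ 2 := by
    intro h
    have h' : p ∣ 2 := by exact_mod_cast h
    exact hp2 ((Nat.prime_dvd_prime_iff_eq hp Nat.prime_two).mp h')
  have := intCast_notMem_nonunits hp hA h
  exact_mod_cast this

/-- The `n`-torsion. -/
abbrev Tors (n : ℕ) : Type :=
  ↥(Submodule.torsionBy ℤ ((W.map (Int.castRingHom ℚ))⁄Qbar).Point (n : ℤ))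

variable {W} {n : ℕ}

lemma nsmul_coe_tors (m : Tors W n) :
    n • (m : ((W.map (Int.castRingHom ℚ))⁄Qbar).Point) = 0 := by
  have := (Submodule.mem_torsionBy_iff _ _).mp m.2
  rwa [natCast_zsmul] at this

/-- the function `t` on the torsion -/
noncomputable def tT (m : Tors W n) : Qbar :=
  tC (curveBar W) (m : ((W.map (Int.castRingHom ℚ))⁄Qbar).Point)

/-- the function `s` on the torsion -/
noncomputable def sT (m : Tors W n) : Qbar :=
  sC (curveBar W) (m : ((W.map (Int.castRingHom ℚ))⁄Qbar).Point)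

lemma no2_tors (hn : Odd n) (m : Tors W n) :
    No2 (curveBar W) (m : ((W.map (Int.castRingHom ℚ))⁄Qbar).Point) :=
  no2_of_odd hn (nsmul_coe_tors m)

lemma tT_mem {p : ℕ} (hp : p.Prime) (hp2 : p ≠ 2) (hΔ : ¬ (p : ℤ) ∣ W.Δ) (hn : Odd n)
    {A : ValuationSubring Qbar} (hA : A.LiesOverPrime p) (m : Tors W n) : tT m ∈ A :=
  (chart_mem (curveBar_int W A) (curveBar_Δ_notMem W hp hΔ hA) (two_notMem hp hp2 hA) hn
    (nsmul_coe_tors m)).1

lemma sT_mem {p : ℕ} (hp : p.Prime) (hp2 : p ≠ 2) (hΔ : ¬ (p : ℤ) ∣ W.Δ) (hn : Odd n)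
    {A : ValuationSubring Qbar} (hA : A.LiesOverPrime p) (m : Tors W n) : sT m ∈ A :=
  (chart_mem (curveBar_int W A) (curveBar_Δ_notMem W hp hΔ hA) (two_notMem hp hp2 hA) hn
    (nsmul_coe_tors m)).2

lemma sC_smul (σ : Qbar ≃ₐ[ℚ] Qbar) (P : ((W.map (Int.castRingHom ℚ))⁄Qbar).Point) :
    sC (curveBar W) (σ • P) = σ (sC (curveBar W) P) := by
  have h1 : σ (curveBar W).a₁ = (curveBar W).a₁ := by
    rw [curveBar_eq, map_a₁]; simp
  have h3 : σ (curveBar W).a₃ = (curveBar W).a₃ := by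
    rw [curveBar_eq, map_a₃]; simp
  cases P with
  | zero => exact (map_zero σ).symm
  | some x y h =>
    change (2 * σ y + (curveBar W).a₁ * σ x + (curveBar W).a₃)⁻¹ =
      σ ((2 * y + (curveBar W).a₁ * x + (curveBar W).a₃)⁻¹)
    rw [map_inv₀, map_add, map_add, map_mul, map_mul, h1, h3, map_ofNat]

lemma tC_smul (σ : Qbar ≃ₐ[ℚ] Qbar) (P : ((W.map (Int.castRingHom ℚ))⁄Qbar).Point) :
    tC (curveBar W) (σ • P) = σ (tC (curveBar W) P) := by
  have h1 : σ (curveBar W).a₁ = (curveBar W).a₁ := by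
    rw [curveBar_eq, map_a₁]; simp
  have h3 : σ (curveBar W).a₃ = (curveBar W).a₃ := by
    rw [curveBar_eq, map_a₃]; simp
  cases P with
  | zero => exact (map_zero σ).symm
  | some x y h =>
    change σ x * (2 * σ y + (curveBar W).a₁ * σ x + (curveBar W).a₃)⁻¹ =
      σ (x * (2 * y + (curveBar W).a₁ * x + (curveBar W).a₃)⁻¹)
    rw [map_mul, map_inv₀, map_add, map_add, map_mul, map_mul, h1, h3, map_ofNat]

/-- the order generated by `t` and `s` -/
noncomputable def order (W : WeierstrassCurve ℤ) (n p : ℕ) : Subalgebra (Zl p) (Tors W n → Qbar) :=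
  Algebra.adjoin (Zl p) {tT, sT}

variable {p : ℕ} [hp : Fact p.Prime]

lemma tT_mem_order : (tT : Tors W n → Qbar) ∈ order W n p :=
  Algebra.subset_adjoin (Set.mem_insert _ _)

lemma sT_mem_order : (sT : Tors W n → Qbar) ∈ order W n p :=
  Algebra.subset_adjoin (Set.mem_insert_of_mem _ rfl)

lemma order_fg [Finite (Tors W n)] (hp2 : p ≠ 2) (hΔ : ¬ (p : ℤ) ∣ W.Δ) (hn : Odd n) :
    (Subalgebra.toSubmodule (order W n p)).FG := by
  refine fg_adjoin_of_finite (Set.toFinite _) ?_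
  intro f hf
  rcases hf with rfl | hf
  · exact isIntegral_pi fun m => isIntegral_of_forall fun A hA => tT_mem hp.out hp2 hΔ hn hA m
  · rw [Set.mem_singleton_iff] at hf
    subst hf
    exact isIntegral_pi fun m => isIntegral_of_forall fun A hA => sT_mem hp.out hp2 hΔ hn hA m

/-- functions on pairs of torsion points -/
noncomputable abbrev ord2 (W : WeierstrassCurve ℤ) (n p : ℕ) :
    Subalgebra (Zl p) (Tors W n × Tors W n → Qbar) :=
  (IsFlatOrder.eval₂ (order W n p)).range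

lemma fst_mem_ord2 {f : Tors W n → Qbar} (hf : f ∈ order W n p) :
    (fun q : Tors W n × Tors W n => f q.1) ∈ ord2 W n p := by
  refine ⟨(⟨f, hf⟩ : order W n p) ⊗ₜ 1, ?_⟩
  funext q
  erw [IsFlatOrder.eval₂_tmul]
  simp

lemma snd_mem_ord2 {f : Tors W n → Qbar} (hf : f ∈ order W n p) :
    (fun q : Tors W n × Tors W n => f q.2) ∈ ord2 W n p := by
  refine ⟨1 ⊗ₜ (⟨f, hf⟩ : order W n p), ?_⟩
  funext q
  erw [IsFlatOrder.eval₂_tmul]
  simp

lemma intCast_mem_ord2 (z : ℤ) : (fun _ : Tors W n × Tors W n => (z : Qbar)) ∈ ord2 W n p := by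
  have : (fun _ : Tors W n × Tors W n => (z : Qbar)) = ((z : ℤ) : Tors W n × Tors W n → Qbar) := by
    funext q; simp
  rw [this]
  exact _root_.intCast_mem _ z

lemma Rel.comap {R S : Type*} [CommRing R] [CommRing S] (f : R →+* S)
    (hf : Function.Injective f) {b₂ b₄ b₆ t₁ s₁ t₂ s₂ t₃ s₃ u v : R}
    (h : Rel (f b₂) (f b₄) (f b₆) (f t₁) (f s₁) (f t₂) (f s₂) (f t₃) (f s₃) (f u) (f v)) :
    Rel b₂ b₄ b₆ t₁ s₁ t₂ s₂ t₃ s₃ u v := by
  obtain ⟨r1, r2, r3, r4⟩ := h
  constructor <;> apply hf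
  · simpa only [C1, C2, Gf, map_add, map_sub, map_mul, map_pow, map_neg, map_one, map_ofNat]
      using r1
  · simpa only [C1, C2, Gf, map_add, map_sub, map_mul, map_pow, map_neg, map_one, map_ofNat]
      using r2
  · simpa only [C1, C2, Gf, map_add, map_sub, map_mul, map_pow, map_neg, map_one, map_ofNat]
      using r3
  · simpa only [C1, C2, Gf, map_add, map_sub, map_mul, map_pow, map_neg, map_one, map_ofNat]
      using r4

lemma Rel.of_pi {X K : Type*} [CommRing K] {b₂ b₄ b₆ t₁ s₁ t₂ s₂ t₃ s₃ u v : X → K}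
    (h : ∀ x, Rel (b₂ x) (b₄ x) (b₆ x) (t₁ x) (s₁ x) (t₂ x) (s₂ x) (t₃ x) (s₃ x) (u x) (v x)) :
    Rel b₂ b₄ b₆ t₁ s₁ t₂ s₂ t₃ s₃ u v := by
  constructor <;> funext x
  · exact (h x).c2u
  · exact (h x).c2v
  · exact (h x).c1u
  · exact (h x).c1v

/-- The pulled back coordinate functions are in the order on pairs. -/
theorem add_mem_ord2 [Finite (Tors W n)] (hp2 : p ≠ 2) (hΔ : ¬ (p : ℤ) ∣ W.Δ) (hn : Odd n) :
    (fun q : Tors W n × Tors W n => (tT (q.1 + q.2) : Qbar)) ∈ ord2 W n p ∧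
      (fun q : Tors W n × Tors W n => (sT (q.1 + q.2) : Qbar)) ∈ ord2 W n p := by
  have hfin : Module.Finite (Zl p) (order W n p) :=
    Module.Finite.iff_fg.mpr (order_fg hp2 hΔ hn)
  have hfin2 : Module.Finite (Zl p) (ord2 W n p) :=
    Module.Finite.of_surjective (IsFlatOrder.eval₂ (order W n p)).rangeRestrict.toLinearMap
      (IsFlatOrder.eval₂ (order W n p)).rangeRestrict_surjective
  let T3 : Tors W n × Tors W n → Qbar := fun q => tT (q.1 + q.2)
  let S3 : Tors W n × Tors W n → Qbar := fun q => sT (q.1 + q.2)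
  let t1 : Tors W n × Tors W n → Qbar := fun q => tT q.1
  let t2 : Tors W n × Tors W n → Qbar := fun q => tT q.2
  let s1 : Tors W n × Tors W n → Qbar := fun q => sT q.1
  let s2 : Tors W n × Tors W n → Qbar := fun q => sT q.2
  let b2 : Tors W n × Tors W n → Qbar := fun _ => (W.b₂ : Qbar)
  let b4 : Tors W n × Tors W n → Qbar := fun _ => (W.b₄ : Qbar)
  let b6 : Tors W n × Tors W n → Qbar := fun _ => (W.b₆ : Qbar)
  let u : Tors W n × Tors W n → Qbar := t1 - t2
  let v : Tors W n × Tors W n → Qbar := s1 - s2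
  let u' : Tors W n × Tors W n → Qbar := 1 - Vf b2 b4 b6 s1 t2 s2
  let v' : Tors W n × Tors W n → Qbar := Uf b2 b4 t1 s1 t2
  have ht1 : t1 ∈ ord2 W n p := fst_mem_ord2 tT_mem_order
  have hs1 : s1 ∈ ord2 W n p := fst_mem_ord2 sT_mem_order
  have ht2 : t2 ∈ ord2 W n p := snd_mem_ord2 tT_mem_order
  have hs2 : s2 ∈ ord2 W n p := snd_mem_ord2 sT_mem_order
  have hb2 : b2 ∈ ord2 W n p := intCast_mem_ord2 W.b₂
  have hb4 : b4 ∈ ord2 W n p := intCast_mem_ord2 W.b₄
  have hb6 : b6 ∈ ord2 W n p := intCast_mem_ord2 W.b₆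
  have hnum : ∀ m : ℕ, (m : Tors W n × Tors W n → Qbar) ∈ ord2 W n p := fun m => natCast_mem _ m
  have h2m : (2 : Tors W n × Tors W n → Qbar) ∈ ord2 W n p := by exact_mod_cast hnum 2
  have h3m : (3 : Tors W n × Tors W n → Qbar) ∈ ord2 W n p := by exact_mod_cast hnum 3
  have h4m : (4 : Tors W n × Tors W n → Qbar) ∈ ord2 W n p := by exact_mod_cast hnum 4
  have h12m : (12 : Tors W n × Tors W n → Qbar) ∈ ord2 W n p := by exact_mod_cast hnum 12
  have hu : u ∈ ord2 W n p := sub_mem ht1 ht2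
  have hv : v ∈ ord2 W n p := sub_mem hs1 hs2
  have hGmem : ∀ {a b : Tors W n × Tors W n → Qbar}, a ∈ ord2 W n p → b ∈ ord2 W n p →
      Gf b2 b4 b6 a b ∈ ord2 W n p := by
    intro a b ha hb
    exact add_mem (add_mem (add_mem (mul_mem h4m (pow_mem ha 3)) (mul_mem (mul_mem hb2
      (pow_mem ha 2)) hb)) (mul_mem (mul_mem (mul_mem h2m hb4) ha) (pow_mem hb 2)))
      (mul_mem hb6 (pow_mem hb 3))
  have hu' : u' ∈ ord2 W n p := by
    refine sub_mem (one_mem _) ?_
    exact add_mem (add_mem (mul_mem hb2 (pow_mem ht2 2))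
      (mul_mem (mul_mem (mul_mem h2m hb4) ht2) (add_mem hs1 hs2)))
      (mul_mem hb6 (add_mem (add_mem (pow_mem hs1 2) (mul_mem hs1 hs2)) (pow_mem hs2 2)))
  have hv' : v' ∈ ord2 W n p := by
    exact add_mem (add_mem (mul_mem h4m (add_mem (add_mem (pow_mem ht1 2) (mul_mem ht1 ht2))
      (pow_mem ht2 2))) (mul_mem (mul_mem hb2 hs1) (add_mem ht1 ht2)))
      (mul_mem (mul_mem h2m hb4) (pow_mem hs1 2))
  have hC2mem : ∀ {a b : Tors W n × Tors W n → Qbar}, a ∈ ord2 W n p → b ∈ ord2 W n p →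
      C2 b2 b4 b6 t1 s1 a b ∈ ord2 W n p := by
    intro a b ha hb
    refine add_mem (add_mem (mul_mem (add_mem (mul_mem h12m ht1) (mul_mem hb2 hs1))
      (pow_mem ha 2)) (mul_mem (mul_mem (mul_mem h2m (add_mem (mul_mem hb2 ht1)
      (mul_mem (mul_mem h2m hb4) hs1))) ha) hb)) (mul_mem (add_mem (mul_mem (mul_mem h2m hb4) ht1)
      (mul_mem (mul_mem h3m hb6) hs1)) (pow_mem hb 2))
  -- pointwise relations
  have hpt : ∀ q : Tors W n × Tors W n,
      Rel (b2 q) (b4 q) (b6 q) (t1 q) (s1 q) (t2 q) (s2 q) (T3 q) (S3 q) (u q) (v q) ∧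
      Rel (b2 q) (b4 q) (b6 q) (t1 q) (s1 q) (t2 q) (s2 q) (T3 q) (S3 q) (u' q) (v' q) := by
    intro q
    have h2 : (2 : Qbar) ≠ 0 := two_ne_zero
    have := rel_of_add (W := curveBar W) h2 (no2_tors hn q.1) (no2_tors hn q.2)
      (no2_tors hn (q.1 + q.2))
    rw [curveBar_b₂, curveBar_b₄, curveBar_b₆] at this
    exact this
  have hR : Rel b2 b4 b6 t1 s1 t2 s2 T3 S3 u v := Rel.of_pi fun q => (hpt q).1
  have hR' : Rel b2 b4 b6 t1 s1 t2 s2 T3 S3 u' v' := Rel.of_pi fun q => (hpt q).2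
  -- denominators
  have hden : ∀ {a b : Tors W n × Tors W n → Qbar}, a ∈ ord2 W n p → b ∈ ord2 W n p →
      Rel b2 b4 b6 t1 s1 t2 s2 T3 S3 a b →
      Gf b2 b4 b6 a b * T3 ∈ ord2 W n p ∧ Gf b2 b4 b6 a b * S3 ∈ ord2 W n p := by
    intro a b ha hb hr
    constructor
    · have e : Gf b2 b4 b6 a b * T3 = C2 b2 b4 b6 t1 s1 a b * a +
          Gf b2 b4 b6 a b * (t2 - 2 * t1) := by linear_combination -hr.c2u
      rw [e]
      exact add_mem (mul_mem (hC2mem ha hb) ha) (mul_mem (hGmem ha hb)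
        (sub_mem ht2 (mul_mem h2m ht1)))
    · have e : Gf b2 b4 b6 a b * S3 = C2 b2 b4 b6 t1 s1 a b * b +
          Gf b2 b4 b6 a b * (s2 - 2 * s1) := by linear_combination -hr.c2v
      rw [e]
      exact add_mem (mul_mem (hC2mem ha hb) hb) (mul_mem (hGmem ha hb)
        (sub_mem hs2 (mul_mem h2m hs1)))
  let I : Ideal (ord2 W n p) :=
    { carrier := {b | (b : Tors W n × Tors W n → Qbar) * T3 ∈ ord2 W n p ∧
        (b : Tors W n × Tors W n → Qbar) * S3 ∈ ord2 W n p}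
      add_mem' := by
        rintro a b ⟨h1, h2⟩ ⟨h3, h4⟩
        refine ⟨?_, ?_⟩
        · have := add_mem h1 h3
          rwa [← add_mul] at this
        · have := add_mem h2 h4
          rwa [← add_mul] at this
      zero_mem' := by
        refine ⟨?_, ?_⟩
        · simpa using zero_mem (ord2 W n p)
        · simpa using zero_mem (ord2 W n p)
      smul_mem' := by
        rintro c a ⟨h1, h2⟩
        refine ⟨?_, ?_⟩
        · have := mul_mem c.2 h1
          rwa [← mul_assoc] at this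
        · have := mul_mem c.2 h2
          rwa [← mul_assoc] at this }
  have hI : I = ⊤ := by
    by_contra hne
    obtain ⟨j, A, hA, hBA, hIA⟩ := exists_valuation_of_ne_top' p (ord2 W n p) I hne
    have hx : ∀ {f : Tors W n × Tors W n → Qbar}, f ∈ ord2 W n p → f j ∈ A :=
      fun hf => hBA ⟨_, hf⟩
    have hT3 : T3 j ∈ A := tT_mem hp.out hp2 hΔ hn hA _
    have hS3 : S3 j ∈ A := sT_mem hp.out hp2 hΔ hn hA _
    have hG1 : (Gf b2 b4 b6 u v) j ∈ A.nonunits := hIA ⟨_, hGmem hu hv⟩ (hden hu hv hR)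
    have hG2 : (Gf b2 b4 b6 u' v') j ∈ A.nonunits := hIA ⟨_, hGmem hu' hv'⟩ (hden hu' hv' hR')
    have hGP : Gf (b2 j) (b4 j) (b6 j) (t1 j) (s1 j) = s1 j := by
      have := Gf_point (no2_tors hn j.1)
      rw [curveBar_b₂, curveBar_b₄, curveBar_b₆] at this
      exact this
    have key := Gf_unit_or (A := A) (two_notMem hp.out hp2 hA) (b₂ := ⟨b2 j, hx hb2⟩)
      (b₄ := ⟨b4 j, hx hb4⟩) (b₆ := ⟨b6 j, hx hb6⟩) (t₁ := ⟨t1 j, hx ht1⟩)
      (s₁ := ⟨s1 j, hx hs1⟩) (t₂ := ⟨t2 j, hx ht2⟩) (s₂ := ⟨s2 j, hx hs2⟩) (t₃ := ⟨T3 j, hT3⟩)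
      (s₃ := ⟨S3 j, hS3⟩) (Subtype.ext hGP)
      (Rel.comap (A.subtype) Subtype.val_injective (hpt j).1)
      (Rel.comap (A.subtype) Subtype.val_injective (hpt j).2)
    rcases key with h | h
    · exact h hG1
    · exact h hG2
  have h1 : (1 : ord2 W n p) ∈ I := by rw [hI]; trivial
  refine ⟨?_, ?_⟩
  · have := h1.1
    rwa [OneMemClass.coe_one, one_mul] at this
  · have := h1.2
    rwa [OneMemClass.coe_one, one_mul] at this

/-- `order` is a finite flat Hopf order. -/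
theorem isFlatOrder_order [Finite (Tors W n)] (hp2 : p ≠ 2) (hΔ : ¬ (p : ℤ) ∣ W.Δ)
    (hn : Odd n) :
    IsFlatOrder (Zl p) ℚ Qbar (fun σ (m : Tors W n) => σ • m) (order W n p) := by
  refine ⟨order_fg hp2 hΔ hn, ?_, ?_, ?_⟩
  · intro f hf σ m
    refine Algebra.adjoin_induction (p := fun f _ => f (σ • m) = σ (f m)) ?_ ?_ ?_ ?_ hf
    · rintro f (rfl | hf)
      · exact tC_smul σ _
      · rw [Set.mem_singleton_iff] at hf
        subst hf
        exact sC_smul σ _
    · intro r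
      change algebraMap (Zl p) Qbar r = σ (algebraMap (Zl p) Qbar r)
      exact (σ.commutes (r : ℚ)).symm
    · intro f g _ _ h1 h2
      change f (σ • m) + g (σ • m) = σ (f m + g m)
      rw [h1, h2, map_add]
    · intro f g _ _ h1 h2
      change f (σ • m) * g (σ • m) = σ (f m * g m)
      rw [h1, h2, map_mul]
  · intro m m' h
    apply Subtype.ext
    exact eq_of_chart (two_ne_zero) (no2_tors hn m) (no2_tors hn m') (h _ tT_mem_order)
      (h _ sT_mem_order)
  · intro f hf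
    -- pull back along addition
    let φ : (Tors W n → Qbar) →ₐ[Zl p] (Tors W n × Tors W n → Qbar) :=
      AlgHom.pi (fun q : Tors W n × Tors W n => Pi.evalAlgHom (Zl p) (fun _ => Qbar) (q.1 + q.2))
    have h1 : order W n p ≤ (ord2 W n p).comap φ := by
      refine Algebra.adjoin_le ?_
      rintro g (rfl | hg)
      · exact (add_mem_ord2 hp2 hΔ hn).1
      · rw [Set.mem_singleton_iff] at hg
        subst hg
        exact (add_mem_ord2 hp2 hΔ hn).2
    have h2 : φ f ∈ ord2 W n p := h1 hf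
    obtain ⟨x, hx⟩ := h2
    obtain ⟨S, hS⟩ := TensorProduct.exists_finset x
    let e := S.equivFin
    refine ⟨S.card, fun i => ((e.symm i : (order W n p) × (order W n p)).1 : Tors W n → Qbar),
      fun i => ((e.symm i : (order W n p) × (order W n p)).2 : Tors W n → Qbar),
      fun i => Subtype.property _, fun i => Subtype.property _, ?_⟩
    intro m m'
    have h3 : f (m + m') = (φ f) (m, m') := rfl
    rw [h3, ← hx, hS]
    have h4 : ((IsFlatOrder.eval₂ (order W n p)).toRingHom (∑ i ∈ S, i.1 ⊗ₜ[Zl p] i.2)) (m, m') =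
        ∑ i ∈ S, (i.1 : Tors W n → Qbar) m * (i.2 : Tors W n → Qbar) m' := by
      rw [map_sum, Finset.sum_apply]
      refine Finset.sum_congr rfl fun i _ => ?_
      exact IsFlatOrder.eval₂_tmul i.1 i.2 (m, m')
    rw [h4, ← Finset.sum_coe_sort]
    exact (Equiv.sum_comp e.symm (fun i : S =>
      ((i : (order W n p) × (order W n p)).1 : Tors W n → Qbar) m *
      ((i : (order W n p) × (order W n p)).2 : Tors W n → Qbar) m')).symm

end

/-- **EC9**: for `W` over `ℤ` with good reduction at the odd prime `p` and `n` odd, the Galois module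
`E[n]` has a finite flat model over `ℤ_(p)`. -/
theorem hasFlatModel_tors (W : WeierstrassCurve ℤ) {p n : ℕ} [hp : Fact p.Prime] (hp2 : p ≠ 2)
    (hΔ : ¬ (p : ℤ) ∣ W.Δ) (hn : Odd n) :
    HasFlatModel (Zl p) ℚ Qbar (Tors W n) (fun σ m => σ • m) := by
  have hΔ0 : W.Δ ≠ 0 := by rintro h; rw [h] at hΔ; exact hΔ (dvd_zero _)
  have hn0 : n ≠ 0 := by rintro rfl; exact (Nat.not_odd_zero) hn
  have hfin : Finite (Tors W n) := H87.EC.finite_torsionBy_rat _ (H87.EC.map_int_Δ_ne_zero hΔ0) hn0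
  have h1 : Algebra.IsAlgebraic ℚ Qbar := AlgebraicClosure.isAlgebraic ℚ
  have h2 : IsAlgClosure ℚ Qbar := ⟨inferInstance, inferInstance⟩
  have h3 : IsGalois ℚ Qbar := IsAlgClosure.isGalois ℚ Qbar
  exact (isFlatOrder_order hp2 hΔ hn).hasFlatModel

end Fermat.Agent.H73
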