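import Fermat.Agent.H87Ord
import Fermat.Agent.H62FrobTrace
import Fermat.Agent.H73Flat
import Fermat.Agent.H86Charpoly
import Fermat.Prelude.Def_FLTPrelim_Modularity

/-!
# Summary: the Galois representations of an integral Weierstrass curve

For `W : WeierstrassCurve ℤ`, `hΔ : W.Δ ≠ 0` and a prime `p` : the Tate module `tateZ W hΔ p` and the
residual representation `resZ W hΔ p`, with Frobenius, determinant, ramification at good primes and
flatness at a good odd `p`.
-/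

set_option autoImplicit false

noncomputable section

open WeierstrassCurve WeierstrassCurve.Affine WeierstrassCurve.Affine.Point PadicInt
open Fermat.Agent.H53 (GQ M2)
open Polynomial

namespace Fermat.Agent.H87.Glue

open Tate

variable (W : WeierstrassCurve ℤ) (hΔ : W.Δ ≠ 0) (p : ℕ) [hp : Fact p.Prime]

/-- the curve over `ℚ` -/
abbrev EQ (W : WeierstrassCurve ℤ) : WeierstrassCurve ℚ := W.map (Int.castRingHom ℚ)

/-- the `p`-adic Tate module of the integral model `W` -/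
abbrev tateZ : GaloisRepAdic ℤ_[p] := tate (EQ W) (EC.map_int_Δ_ne_zero hΔ) p

/-- order of the `p`-torsion -/
theorem card_tor (hΔ : W.Δ ≠ 0) : Nat.card (Submodule.torsionBy ℤ
      ((W.map (Int.castRingHom ℚ))⁄(AlgebraicClosure ℚ)).Point p) = p ^ 2 :=
  EC.natCard_torsionBy_rat (EQ W) (EC.map_int_Δ_ne_zero hΔ) hp.out.ne_zero

/-- finite level -/
theorem finiteLevel (hΔ : W.Δ ≠ 0) : GaloisFactorsThroughFiniteLevel
      (WeierstrassCurve.Affine.Point.galoisRepModuleEnd (K := AlgebraicClosure ℚ) ℚ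
        (W.map (Int.castRingHom ℚ)) p) :=
  EC.galoisFactorsThroughFiniteLevel (EQ W) (EC.map_int_Δ_ne_zero hΔ) hp.out.ne_zero

/-- the residual representation of the integral model `W` -/
abbrev resZ : ResidualGaloisRep (ZMod p) :=
  (W.map (Int.castRingHom ℚ)).residualGaloisRepOf p (card_tor W p hΔ) (finiteLevel W p hΔ)

/-! ### Tate module -/

/-- characteristic polynomial of Frobenius on the Tate module -/
theorem charpoly_frob {ℓ : ℕ} (hℓ : ℓ.Prime) (hℓp : ℓ ≠ p) (hW : W.IsGoodPrimeFor ℓ)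
    {P : ValuationSubring (AlgebraicClosure ℚ)} (hP : P.LiesOverPrime ℓ) {σ : GQ}
    (hσ : P.IsFrobeniusAt σ ℓ) :
    LinearMap.charpoly ((tateZ W hΔ p).ρ σ) =
      X ^ 2 - C (W.apOfModel ℓ : ℤ_[p]) * X + C (ℓ : ℤ_[p]) := by
  refine charpoly_tate_frobenius (EQ W) (EC.map_int_Δ_ne_zero hΔ) p hℓ hℓp hP hσ fun n x => ?_
  apply Subtype.ext
  have hx := (Submodule.mem_torsionBy_iff _ _).mp x.2
  rw [natCast_zsmul] at hx
  exact H62.frob_relation (S := ℚ) (R := ℚ) (W := W) rfl hℓ hW (n := p ^ n)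
    (fun h => hℓp ((Nat.prime_dvd_prime_iff_eq hℓ hp.out).mp (hℓ.dvd_of_dvd_pow h))) hP hσ _ hx

/-- the Tate module is unramified at good `q ≠ p` -/
theorem isUnramifiedAt_of_good {q : ℕ} (hq : q.Prime) (hqp : q ≠ p) (hW : W.IsGoodPrimeFor q) :
    (tateZ W hΔ p).IsUnramifiedAt q :=
  isUnramifiedAt_tate (EQ W) (EC.map_int_Δ_ne_zero hΔ) p fun n =>
    H59.galoisRepUnramifiedAt_of_good (S := ℚ) (W := W) rfl hq hW
      (fun h => hqp ((Nat.prime_dvd_prime_iff_eq hq hp.out).mp (hq.dvd_of_dvd_pow h)))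

/-- cyclotomic determinant -/
theorem detIsCyclotomic : (tateZ W hΔ p).DetIsCyclotomic p :=
  Tate.detIsCyclotomic (EQ W) (EC.map_int_Δ_ne_zero hΔ) p

/-- flatness at a good odd prime -/
theorem isFlatAt_of_good (hp2 : p ≠ 2) (hW : W.IsGoodPrimeFor p) : (tateZ W hΔ p).IsFlatAt p :=
  isFlatAt_tate (EQ W) (EC.map_int_Δ_ne_zero hΔ) p fun n =>
    H73.hasFlatModel_tors W (p := p) (n := p ^ n) hp2 hW ((hp.out.odd_of_ne_two hp2).pow)

/-- the residual representation of the Tate module -/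
theorem residual_isEquiv {O : Type} [CommRing O] [IsLocalRing O] (f : ℤ_[p] →+* O)
    (hf : IsLocalHom f) (φ : ZMod p →+* IsLocalRing.ResidueField O) :
    ((resZ W hΔ p).baseChangeAlong φ).IsEquiv
      ((tateZ W hΔ p).baseChangeAlong f hf).residual :=
  residual_tate_baseChange (EQ W) (EC.map_int_Δ_ne_zero hΔ) p f hf φ _ _

/-! ### Residual representation -/

theorem resZ_isOdd : (resZ W hΔ p).IsOdd :=
  residual_isOdd (EQ W) (EC.map_int_Δ_ne_zero hΔ) p _ _

theorem resZ_isIrreducible (h : W.ModRepIsIrreducible p) : (resZ W hΔ p).IsIrreducible :=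
  Res.isIrreducible_of_galoisRepIsIrreducible _ _ h

theorem resZ_isAbsolutelyIrreducible (hp2 : p ≠ 2) (h : W.ModRepIsIrreducible p) :
    (resZ W hΔ p).IsAbsolutelyIrreducible :=
  residual_isAbsolutelyIrreducible (EQ W) (EC.map_int_Δ_ne_zero hΔ) p hp2 _ _ h

theorem resZ_isUnramifiedAt {q : ℕ} (hq : q.Prime) (hqp : q ≠ p) (hW : W.IsGoodPrimeFor q) :
    (resZ W hΔ p).IsUnramifiedAt q := by
  intro A hA σ hσ
  refine LinearMap.ext fun x => ?_
  exact H59.galoisRepUnramifiedAt_of_good (S := ℚ) (W := W) rfl hq hW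
      (fun h => hqp ((Nat.prime_dvd_prime_iff_eq hq hp.out).mp h)) A hA σ hσ x

/-- characteristic polynomial of Frobenius on the residual representation -/
theorem resZ_charpoly_frob {ℓ : ℕ} (hℓ : ℓ.Prime) (hℓp : ℓ ≠ p) (hW : W.IsGoodPrimeFor ℓ)
    {P : ValuationSubring (AlgebraicClosure ℚ)} (hP : P.LiesOverPrime ℓ) {σ : GQ}
    (hσ : P.IsFrobeniusAt σ ℓ) :
    LinearMap.charpoly ((resZ W hΔ p).ρ σ) =
      X ^ 2 - C (W.apOfModel ℓ : ZMod p) * X + C (ℓ : ZMod p) := by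
  have hnd : ¬ ℓ ∣ p := fun h => hℓp ((Nat.prime_dvd_prime_iff_eq hℓ hp.out).mp h)
  have : NeZero p := ⟨hp.out.ne_zero⟩
  rw [H86.charpoly_eq_of_finrank_two (resZ W hΔ p).finrank_eq]
  have h1 := H62.trace_frob_rat W (n := p) hℓ hW hnd hP hσ
  have h2 := H62.det_frob_rat W (n := p) hℓ hW hnd hP hσ
  change X ^ 2 - C (LinearMap.trace (ZMod p) _ (galoisRepModuleEnd (K := AlgebraicClosure ℚ) ℚ
      (W.map (Int.castRingHom ℚ)) p σ)) * X +
    C (LinearMap.det (galoisRepModuleEnd (K := AlgebraicClosure ℚ) ℚ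
      (W.map (Int.castRingHom ℚ)) p σ)) = _
  rw [h1, h2]

end Fermat.Agent.H87.Glue
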