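import Fermat.Agent.H73TWAlg
import Fermat.Agent.H73Quad
import Fermat.Agent.H87Glue
import Fermat.Agent.H13EC6
import Fermat.Prelude.Def_GaloisRep_ResidualEquiv

/-!
# EC10: the Taylor-Wiles condition for `W[p]`, `W` semistable over `ℚ`, `p = 3, 5`
-/

set_option autoImplicit false

noncomputable section

open WeierstrassCurve WeierstrassCurve.Affine WeierstrassCurve.Affine.Point
open scoped TensorProduct

namespace Fermat.Agent.H73.TW

open H87.Glue H87.Tate H87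

local notation "Qb" => AlgebraicClosure ℚ
local notation "GQ" => (AlgebraicClosure ℚ ≃ₐ[ℚ] AlgebraicClosure ℚ)

/-- the cyclotomic character is surjective (pointwise form) -/
theorem exists_cyclo {n a : ℕ} (hn : 0 < n) (ha : a.Coprime n) :
    ∃ σ : GQ, ∀ μ : Qb, μ ^ n = 1 → σ μ = μ ^ a := by
  have : NeZero n := ⟨hn.ne'⟩
  obtain ⟨ζ, hζ⟩ := HasEnoughRootsOfUnity.exists_primitiveRoot Qb n
  have hζa : IsPrimitiveRoot (ζ ^ a) n := hζ.pow_of_coprime a ha
  have h1 : IsConjRoot ℚ (ζ ^ a) ζ := by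
    change minpoly ℚ (ζ ^ a) = minpoly ℚ ζ
    rw [← Polynomial.cyclotomic_eq_minpoly_rat hζ hn, ← Polynomial.cyclotomic_eq_minpoly_rat hζa hn]
  obtain ⟨σ, hσ⟩ := isConjRoot_iff_exists_algEquiv.mp h1
  refine ⟨σ, fun μ hμ => ?_⟩
  obtain ⟨i, -, rfl⟩ := hζ.eq_pow_of_pow_eq_one hμ
  rw [map_pow, hσ, ← pow_mul, ← pow_mul, mul_comm]

theorem not_sq_three : ∀ r : ZMod 3, ((2 : ℕ) : ZMod 3) ≠ r * r := by decide

theorem not_sq_five : ∀ r : ZMod 5, ((2 : ℕ) : ZMod 5) ≠ r * r := by decide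

variable (W : WeierstrassCurve ℤ) (hΔ : W.Δ ≠ 0) {p : ℕ} [hp : Fact p.Prime]

/-- the inertia elements outside `p` -/
def inertiaSet (p : ℕ) : Set GQ :=
  {σ | ∃ q : ℕ, q.Prime ∧ q ≠ p ∧ ∃ A : ValuationSubring Qb, A.LiesOverPrime q ∧
    σ ∈ A.inertiaSubgroupIn ℚ}

theorem isNilpotent_resZ (hW : W.IsSemistableModel) {σ : GQ} (hσ : σ ∈ inertiaSet p) :
    IsNilpotent ((resZ W hΔ p).ρ σ - 1) := by
  obtain ⟨q, hq, hqp, A, hA, hσ⟩ := hσ
  by_cases hgood : W.IsGoodPrimeFor q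
  · rw [resZ_isUnramifiedAt W hΔ p hq hqp hgood A hA σ hσ, sub_self]
    exact IsNilpotent.zero
  · refine ⟨2, ?_⟩
    have hbad : (q : ℤ) ∣ W.Δ := not_not.mp hgood
    have hqp' : ¬ q ∣ p := fun h => hqp ((Nat.prime_dvd_prime_iff_eq hq hp.out).mp h)
    refine LinearMap.ext fun x => ?_
    have h1 := H13.unipotent_of_multiplicative hq hbad hΔ (hW q hq hbad) hqp' A hA σ hσ x
    rw [sq, Module.End.mul_apply, LinearMap.sub_apply, LinearMap.sub_apply,
      Module.End.one_apply, Module.End.one_apply, LinearMap.zero_apply, sub_eq_zero]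
    exact h1

/-- **EC10.** -/
theorem hTW_resZ (h35 : p = 3 ∨ p = 5) (hW : W.IsSemistableModel) (hirr : W.ModRepIsIrreducible p)
    {K : Type*} [Field K] [Algebra (ZMod p) K] (G : Subgroup GQ) (hG : G.index = 2)
    (L : Submodule K (K ⊗[ZMod p] (resZ W hΔ p).V))
    (hL : ∀ σ ∈ G, ∀ x ∈ L, ((resZ W hΔ p).ρ σ).baseChange K x ∈ L) : L = ⊥ ∨ L = ⊤ := by
  have hp2 : p ≠ 2 := by rcases h35 with rfl | rfl <;> norm_num
  have hcc : complexConjugation * complexConjugation = 1 := complexConjugation_mul_self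
  refine core h35 (resZ W hΔ p).finrank_eq (resZ W hΔ p).ρ
    (resZ_isIrreducible W hΔ p hirr) complexConjugation (by rw [← map_mul, hcc, map_one])
    (resZ_isOdd W hΔ p _ hcc Res.complexConjugation_ne_one) ?_ (inertiaSet p)
    (fun σ hσ => isNilpotent_resZ W hΔ hW hσ) ?_ G hG L hL
  · obtain ⟨τ, hτ⟩ := exists_cyclo (n := p) (a := 2) hp.out.pos (by
      rcases h35 with rfl | rfl <;> norm_num)
    refine ⟨τ, fun h => ?_⟩
    have h1 := congrArg Units.val h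
    have h2 : LinearMap.det ((resZ W hΔ p).ρ τ) = ((2 : ℕ) : ZMod p) :=
      det_rep_eq (EQ W) (EC.map_int_Δ_ne_zero hΔ) hp.out.ne_zero τ 2 hτ
    rw [qdet_apply, h2] at h1
    have h3 : ((2 : ℕ) : ZMod p) ≠ 0 := by
      rw [Ne, ZMod.natCast_eq_zero_iff]
      rcases h35 with rfl | rfl <;> norm_num
    have h4 := (quadraticChar_one_iff_isSquare h3).mp h1
    obtain ⟨r, hr⟩ := h4
    rcases h35 with rfl | rfl
    · exact not_sq_three r hr
    · exact not_sq_five r hr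
  · intro G₁ G₂ h₁ h₂ hk₁ hk₂ hS₁ hS₂
    obtain ⟨E, hE, hE1⟩ := (resZ W hΔ p).factorsThroughFiniteLevel
    have hopen : ∀ G' : Subgroup GQ, (∀ σ, (resZ W hΔ p).ρ σ = 1 → σ ∈ G') →
        IsOpen (G' : Set GQ) := fun G' hG' => by
      refine Subgroup.isOpen_mono (H₁ := E.fixingSubgroup) (fun σ hσ => hG' σ (hE1 σ fun x hx => ?_))
        (IntermediateField.fixingSubgroup_isOpen E)
      exact (IntermediateField.mem_fixingSubgroup_iff E σ).mp hσ x hx
    exact Quad.eq_of_index_two hp.out hp2 G₁ G₂ (hopen _ hk₁) (hopen _ hk₂) h₁ h₂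
      (fun q hq hqp A hA σ hσ => hS₁ ⟨q, hq, hqp, A, hA, hσ⟩)
      (fun q hq hqp A hA σ hσ => hS₂ ⟨q, hq, hqp, A, hA, hσ⟩)

/-- transport of the condition to an arbitrary model of `K ⊗ V` -/
theorem hTW_transport {k K V U Γ : Type*} [Field k] [Field K] [Algebra k K] [AddCommGroup V]
    [Module k V] [AddCommGroup U] [Module K U] (ρ : Γ → Module.End k V) (r : Γ → Module.End K U)
    (e : (K ⊗[k] V) ≃ₗ[K] U) (he : ∀ σ x, e ((ρ σ).baseChange K x) = r σ (e x)) (S : Set Γ)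
    (h : ∀ L : Submodule K (K ⊗[k] V), (∀ σ ∈ S, ∀ x ∈ L, (ρ σ).baseChange K x ∈ L) →
      L = ⊥ ∨ L = ⊤)
    (L : Submodule K U) (hL : ∀ σ ∈ S, ∀ x ∈ L, r σ x ∈ L) : L = ⊥ ∨ L = ⊤ := by
  rcases h (L.comap e.toLinearMap) (fun σ hσ x hx => by
    rw [Submodule.mem_comap, LinearEquiv.coe_coe, he]
    exact hL σ hσ _ hx) with h1 | h1
  · left
    rw [eq_bot_iff]
    intro x hx
    have h2 : e.symm x ∈ L.comap e.toLinearMap := by
      rw [Submodule.mem_comap, LinearEquiv.coe_coe, e.apply_symm_apply]; exact hx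
    rw [h1, Submodule.mem_bot, LinearEquiv.map_eq_zero_iff] at h2
    rw [h2]; exact Submodule.zero_mem _
  · right
    rw [eq_top_iff]
    intro x _
    have h2 : e.symm x ∈ L.comap e.toLinearMap := by rw [h1]; trivial
    rw [Submodule.mem_comap, LinearEquiv.coe_coe, e.apply_symm_apply] at h2
    exact h2

/-- **EC10**, for any residual representation isomorphic to an extension of scalars of `W[p]`;
exactly the hypothesis `hTW` of `S56`. -/
theorem hTW_of_isEquiv (h35 : p = 3 ∨ p = 5) (hW : W.IsSemistableModel)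
    (hirr : W.ModRepIsIrreducible p) {k : Type} [Field k] (φ : ZMod p →+* k)
    (ρbar : ResidualGaloisRep k)
    (hρ : ((resZ W hΔ p).baseChangeAlong φ).IsEquiv ρbar)
    (K : Type) [Field K] [Algebra k K] (G : Subgroup GQ) (hG : G.index = 2)
    (L : Submodule K (ρbar.baseChange K).V)
    (hL : ∀ σ ∈ G, ∀ x ∈ L, (ρbar.baseChange K).ρ σ x ∈ L) : L = ⊥ ∨ L = ⊤ := by
  letI : Algebra (ZMod p) k := φ.toAlgebra
  letI : Algebra (ZMod p) K := ((algebraMap k K).comp φ).toAlgebra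
  haveI : IsScalarTower (ZMod p) k K := IsScalarTower.of_algebraMap_eq fun _ => rfl
  obtain ⟨ε⟩ := hρ
  let ε' : (k ⊗[ZMod p] (resZ W hΔ p).V) ≃ₗ[k] ρbar.V := ε.toLinearEquiv
  have hε' : ∀ σ x, ε' (((resZ W hΔ p).ρ σ).baseChange k x) = ρbar.ρ σ (ε' x) := ε.map_apply
  let e : (K ⊗[ZMod p] (resZ W hΔ p).V) ≃ₗ[K] (K ⊗[k] ρbar.V) :=
    (TensorProduct.AlgebraTensorModule.cancelBaseChange (ZMod p) k K K (resZ W hΔ p).V).symm ≪≫ₗ
      TensorProduct.AlgebraTensorModule.congr (LinearEquiv.refl K K) ε'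
  refine hTW_transport (fun σ => (resZ W hΔ p).ρ σ) (fun σ => (ρbar.baseChange K).ρ σ) e ?_
    (G : Set GQ) (fun L hL => hTW_resZ W hΔ h35 hW hirr G hG L hL) L hL
  intro σ x
  induction x with
  | zero => simp
  | add x y hx hy => rw [map_add, map_add, hx, hy, map_add, map_add]
  | tmul a v =>
    have h1 : e (a ⊗ₜ[ZMod p] v) = a ⊗ₜ[k] ε' (1 ⊗ₜ[ZMod p] v) := by
      simp [e]
    have h2 : e (a ⊗ₜ[ZMod p] ((resZ W hΔ p).ρ σ v)) =
        a ⊗ₜ[k] ε' (1 ⊗ₜ[ZMod p] ((resZ W hΔ p).ρ σ v)) := by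
      simp [e]
    rw [LinearMap.baseChange_tmul, h1, h2]
    change _ = a ⊗ₜ[k] (ρbar.ρ σ (ε' (1 ⊗ₜ[ZMod p] v)))
    rw [← hε', LinearMap.baseChange_tmul]

end Fermat.Agent.H73.TW
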