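import Fermat.Agent.H62NE
import Fermat.Agent.H73Flat
import Fermat.Agent.H73TW
import Fermat.Agent.H87Glue2

set_option autoImplicit false

/-!
# Reader's guide: elliptic curves III (the representations `W[p]` and `T_p W`)

Every theorem of this file is a citation of the library (at most three lines), with the statement written
out in full; no other module imports it.  Companions: `GuideCurves`, `GuideCurvesLocal`, `GuideNode`.
More steps of the proofs: `GuideTateModule` (sections 1, 3), `GuideFlatCurve` (section 2), `GuideTWCondition`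
(section 4, for all odd `p`), `GuideTWDihedral` (section 4), `GuideNonEisenstein` (section 5).

**What the block does.**  For an integral Weierstrass equation `W` with `Δ(W) ≠ 0` and any prime `p` the
library constructs
* `H87.Glue.resZ W hΔ p`, the representation of `Gal(Q̄/ℚ)` on `W[p]` (a `ResidualGaloisRep (ZMod p)`),
* `H87.Glue.tateZ W hΔ p`, the `p`-adic Tate module (a `GaloisRepAdic ℤ_[p]`),

structures of the Prelude: a `ResidualGaloisRep` is a two-dimensional representation over a field whose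
kernel contains the Galois group of a finite extension of `ℚ`, a `GaloisRepAdic` is a free module of rank two
over a local ring with an adically continuous action.  All properties which modularity lifting needs are
proved:
1. Comparison of `W[p]` with `T_p W`; Frobenius, determinant, local behaviour at good and multiplicative
   primes `q ≠ p`; strictly ordinary at a multiplicative prime `p` (section 1).
2. Flat at a good odd prime `p`: `W[n]`, `n` odd, has a finite flat model over `ℤ_(p)`, given by functions in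
   the chart `(x/ψ₂, 1/ψ₂)` and a complete addition law (section 2).
3. Odd, absolutely irreducible (section 3).
4. The condition of Taylor and Wiles for `p = 3, 5` (section 4).
5. An irreducible `W[p]` is not Eisenstein (section 5).

**Where it is used.**  S38, S45, S46, S50, S58-S60, and so S03, S04, S06 and S01; sections 3 and 5 also in
S39-S41, S43, S44 (`fixed_rootOfUnity` also in S47 and S56).  The line "Closures: ..." at the end of a
docstring names all statements SNN whose proof term depends on the library theorem cited (computed by a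
traversal of the proof terms of the 60 statements).

**Conventions.**  As in `GuideCurves`: `(E⁄K).Point` is the group of points of the base change,
`Submodule.torsionBy ℤ _ n` the `n`-torsion, `W.apOfModel ℓ = ℓ + 1 - #W(𝔽_ℓ)`; a place of `Q̄` is a valuation
subring `A`, `A.LiesOverPrime q` means that `q` is a nonunit of `A`.

**Texts** by helper87 (sections 1, 3), helper73 (sections 2, 4), helper62 (section 5).  **Prose**: NOTES.md,
Appendix A: NOTES-ECLIB (helper87), NOTES-EC9-FLAT and NOTES-EC10-TW (helper73), NOTES-PARTS-helper62.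
-/

namespace Fermat.Agent.Guide.CurvesTate

open WeierstrassCurve WeierstrassCurve.Affine WeierstrassCurve.Affine.Point Polynomial
open scoped Pointwise TensorProduct

/-- the field of algebraic numbers -/
local notation "Qbar" => AlgebraicClosure ℚ
/-- its Galois group over `ℚ` -/
local notation "GQ" => AlgebraicClosure ℚ ≃ₐ[ℚ] AlgebraicClosure ℚ

/-! ## 1. The representations `W[p]` and `T_p W` -/

/-- *The residual representation* `resZ W hΔ p` is the action of `Gal(Q̄/ℚ)` on `W[p]`. Module `H87Glue`. -/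
theorem resZ_apply (W : WeierstrassCurve ℤ) (hΔ : W.Δ ≠ 0) (p : ℕ) [Fact p.Prime] (σ : GQ) :
    (H87.Glue.resZ W hΔ p).ρ σ =
      Point.galoisRepModuleEnd (K := Qbar) ℚ (W.map (Int.castRingHom ℚ)) p σ :=
  rfl

/-- *Compatible bases* of the groups `A[p^n]` exist for an abelian group `A` on which `p` is surjective; the
basis of `A[p]` can be prescribed. Module `H87Tate`.
Closures: S01, S03, S04, S06, S38, S45, S46, S50, S58-S60. -/
theorem compatible_bases {A ι : Type*} [AddCommGroup A] [Fintype ι] [DecidableEq ι] {p : ℕ}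
    [Fact p.Prime] [∀ n : ℕ, Module (ZMod n) (Submodule.torsionBy ℤ A (n : ℤ))]
    (hsurj : ∀ x : A, ∃ y, p • y = x)
    (b₁ : Module.Basis ι (ZMod p) (Submodule.torsionBy ℤ A (p : ℤ))) :
    ∃ b : ∀ n : ℕ, Module.Basis ι (ZMod (p ^ n)) (Submodule.torsionBy ℤ A ((p ^ n : ℕ) : ℤ)),
      (∀ n i, p • (b (n + 1) i : A) = b n i) ∧ ∀ i, (b 1 i : A) = b₁ i :=
  H87.Tate.exists_compat_basis hsurj b₁

/-- *The limit of compatible representations* on free modules over `ℤ/p^n` with compatible bases is a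
representation by matrices over `ℤ_p`. No inverse limit is formed: only the matrix entries have a limit.
Module `H87Tate`.
Closures: S01, S03, S04, S06, S38, S45, S46, S50, S58-S60. -/
theorem padic_representation {p : ℕ} [Fact p.Prime] {V : ℕ → Type*} [∀ n, AddCommGroup (V n)]
    [∀ n, Module (ZMod (p ^ n)) (V n)] (t : ∀ n, V (n + 1) →+ V n) {ι : Type*} [Fintype ι]
    [DecidableEq ι] (b : ∀ n, Module.Basis ι (ZMod (p ^ n)) (V n))
    (hb : ∀ n i, t n (b (n + 1) i) = b n i) {G : Type*} [Monoid G]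
    (ρ : ∀ n, G →* Module.End (ZMod (p ^ n)) (V n))
    (hρ : ∀ n σ x, t n (ρ (n + 1) σ x) = ρ n σ (t n x)) :
    ∃ r : G →* Matrix ι ι ℤ_[p], ∀ n σ,
      (r σ).map (PadicInt.toZModPow n) = LinearMap.toMatrix (b n) (b n) (ρ n σ) :=
  H87.Tate.exists_padic_rep t b hb ρ hρ

/-- *The Tate module* `tateZ W hΔ p` is characterised by its finite levels: it has a basis `e` and there are
bases `b n` of `W[p^n]` with `p b (n+1) i = b n i` such that the matrix of `σ` with respect to `e` reduces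
modulo `p^n` to the matrix of `σ` with respect to `b n`. Modules `H87Tate`, `H87TateEC`.
Closures: S01, S03, S04, S06, S38, S45, S46, S50, S59, S60. -/
theorem tate_levels (W : WeierstrassCurve ℤ) (hΔ : W.Δ ≠ 0) (p : ℕ) [Fact p.Prime] :
    ∃ (e : Module.Basis (Fin 2) ℤ_[p] (H87.Glue.tateZ W hΔ p).V)
      (b : ∀ n : ℕ, Module.Basis (Fin 2) (ZMod (p ^ n))
        (Submodule.torsionBy ℤ ((W.map (Int.castRingHom ℚ))⁄Qbar).Point ((p ^ n : ℕ) : ℤ))),
      (∀ n i, p • (b (n + 1) i : ((W.map (Int.castRingHom ℚ))⁄Qbar).Point) = b n i) ∧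
      ∀ n (σ : GQ), (LinearMap.toMatrix e e ((H87.Glue.tateZ W hΔ p).ρ σ)).map
        (PadicInt.toZModPow n) = LinearMap.toMatrix (b n) (b n)
          (Point.galoisRepModuleEnd (K := Qbar) ℚ (W.map (Int.castRingHom ℚ)) (p ^ n) σ) :=
  ⟨H87.Tate.tateStd _ _ p, H87.Tate.tateBasis _ (H87.EC.map_int_Δ_ne_zero hΔ) p,
    H87.Tate.tateBasis_compat _ _ p, fun n σ => by
      rw [← H87.Tate.tateMat_map, ← H87.Tate.toMat_tateStd]; rfl⟩

/-- *Comparison*: for a local homomorphism `f : ℤ_p → O` and any `φ : 𝔽_p → k`, `k` the residue field of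
`O`, `W[p] ⊗ k` is the residual representation of `T_p W ⊗ O`. Modules `H87TateEC`, `H87Glue`.
Closures: S01, S03, S04, S06, S38, S45, S46, S50, S59, S60. -/
theorem residual_tate (W : WeierstrassCurve ℤ) (hΔ : W.Δ ≠ 0) (p : ℕ) [Fact p.Prime] {O : Type}
    [CommRing O] [IsLocalRing O] (f : ℤ_[p] →+* O) (hf : IsLocalHom f)
    (φ : ZMod p →+* IsLocalRing.ResidueField O) :
    ((H87.Glue.resZ W hΔ p).baseChangeAlong φ).IsEquiv
      ((H87.Glue.tateZ W hΔ p).baseChangeAlong f hf).residual :=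
  H87.Glue.residual_isEquiv W hΔ p f hf φ

/-- **Frobenius on the Tate module**: characteristic polynomial `X² - a_ℓ(W) X + ℓ` for good `ℓ ≠ p`. Module
`H87Glue`.
Closures: S01, S03, S04, S06, S38, S45, S46, S50, S58-S60. -/
theorem tate_frobenius (W : WeierstrassCurve ℤ) (hΔ : W.Δ ≠ 0) (p : ℕ) [Fact p.Prime] {ℓ : ℕ}
    (hℓ : ℓ.Prime) (hℓp : ℓ ≠ p) (hgood : ¬ (ℓ : ℤ) ∣ W.Δ) {A : ValuationSubring Qbar}
    (hA : A.LiesOverPrime ℓ) {σ : GQ} (hσ : A.IsFrobeniusAt σ ℓ) :
    LinearMap.charpoly ((H87.Glue.tateZ W hΔ p).ρ σ) =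
      X ^ 2 - C (W.apOfModel ℓ : ℤ_[p]) * X + C (ℓ : ℤ_[p]) :=
  H87.Glue.charpoly_frob W hΔ p hℓ hℓp hgood hA hσ

/-- **The determinant of the Tate module is the cyclotomic character**, modulo every `p ^ n` (Weil pairing).
Modules `H87TateDet`, `H87Glue`.
Closures: S01, S03, S04, S06, S38, S45, S46, S50, S59, S60. -/
theorem tate_det (W : WeierstrassCurve ℤ) (hΔ : W.Δ ≠ 0) (p : ℕ) [Fact p.Prime] (n : ℕ) (σ : GQ)
    (a : ℕ) (ha : ∀ μ : Qbar, μ ^ p ^ n = 1 → σ μ = μ ^ a) :
    LinearMap.det ((H87.Glue.tateZ W hΔ p).ρ σ) - (a : ℤ_[p]) ∈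
      Ideal.span {((p ^ n : ℕ) : ℤ_[p])} :=
  (H87.Glue.detIsCyclotomic W hΔ p).2 n σ a ha

/-- **Good primes `q ≠ p`**: inertia acts trivially on the Tate module. Module `H87Glue`.
Closures: S01, S03, S04, S06, S38, S45, S46, S50, S58-S60. -/
theorem tate_unramified (W : WeierstrassCurve ℤ) (hΔ : W.Δ ≠ 0) (p : ℕ) [Fact p.Prime] {q : ℕ}
    (hq : q.Prime) (hqp : q ≠ p) (hgood : ¬ (q : ℤ) ∣ W.Δ) (A : ValuationSubring Qbar)
    (hA : A.LiesOverPrime q) (σ : GQ) (hσ : σ ∈ A.inertiaSubgroupIn ℚ) :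
    (H87.Glue.tateZ W hΔ p).ρ σ = 1 :=
  H87.Glue.isUnramifiedAt_of_good W hΔ p hq hqp hgood A hA σ hσ

/-- **All primes `q ≠ p`**, if `W` is semistable (for every prime `q`, `q ∣ Δ` implies `q ∤ c₄`): inertia
acts on the Tate module with characteristic polynomial `(X - 1)²`. Module `H87Glue2`.
Closures: S01, S03, S04, S06, S38, S45, S46, S50, S58-S60. -/
theorem tate_unipotent (W : WeierstrassCurve ℤ) (hΔ : W.Δ ≠ 0) (p : ℕ) [Fact p.Prime]
    (hss : ∀ q : ℕ, q.Prime → (q : ℤ) ∣ W.Δ → ¬ (q : ℤ) ∣ W.c₄) {q : ℕ} (hq : q.Prime)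
    (hqp : q ≠ p) (A : ValuationSubring Qbar) (hA : A.LiesOverPrime q) (σ : GQ)
    (hσ : σ ∈ A.inertiaSubgroupIn ℚ) :
    LinearMap.charpoly ((H87.Glue.tateZ W hΔ p).ρ σ) = (X - 1) ^ 2 :=
  H87.Glue.isUnipotentOnInertiaAt_of_semistable W hΔ p hss hq hqp A hA σ hσ

/-- **A multiplicative prime `p`**: `T_p W` is strictly ordinary. There is a line `L`, a direct summand,
stable under the decomposition group, with trivial action of inertia on `T_p W / L`; and if `σ` in the
decomposition group acts on `L` by `x` and on `T_p W / L` by `z`, then `x = χ(σ) z`, `χ` the cyclotomic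
character (the Prelude expresses this modulo every `p ^ n`). From `exists_divisible_subgroup`
(`GuideCurvesLocal`); modules `H87Ord`, `H13EC8`, `H87Glue2`.
Closures: S01, S03, S04, S06, S38, S45, S46, S50, S59, S60. -/
theorem tate_strictOrdinary (W : WeierstrassCurve ℤ) (hΔ : W.Δ ≠ 0) (p : ℕ) [Fact p.Prime]
    (hbad : (p : ℤ) ∣ W.Δ) (hc : ¬ (p : ℤ) ∣ W.c₄) (A : ValuationSubring Qbar)
    (hA : A.LiesOverPrime p) :
    ∃ L : Submodule ℤ_[p] (H87.Glue.tateZ W hΔ p).V,
      (∃ b : Module.Basis (Fin 2) ℤ_[p] (H87.Glue.tateZ W hΔ p).V, L = Submodule.span _ {b 0}) ∧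
      (∀ σ ∈ A.decompositionSubgroup ℚ, ∀ v ∈ L, (H87.Glue.tateZ W hΔ p).ρ σ v ∈ L) ∧
      (∀ σ ∈ A.inertiaSubgroupIn ℚ, ∀ v, (H87.Glue.tateZ W hΔ p).ρ σ v - v ∈ L) ∧
      (∀ σ ∈ A.decompositionSubgroup ℚ, ∃ x z : ℤ_[p],
        (∀ w ∈ L, (H87.Glue.tateZ W hΔ p).ρ σ w = x • w) ∧
        (∀ v, (H87.Glue.tateZ W hΔ p).ρ σ v - z • v ∈ L) ∧
        ∀ n a : ℕ, (∀ μ : Qbar, μ ^ p ^ n = 1 → σ μ = μ ^ a) →
          x - (a : ℤ_[p]) * z ∈ Ideal.span {((p ^ n : ℕ) : ℤ_[p])}) :=
  (H87.Glue.isStrictOrdinaryAt_of_mult W hΔ p hbad hc).2 A hA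

/-! ## 2. Finite flat models at a good odd prime -/

/-- *The chart*: `t = x / ψ₂` and `s = 1 / ψ₂` with `ψ₂ = 2 y + a₁ x + a₃`; both are `0` at the origin
(`H73.tC`, `H73.sC`). It contains all points of odd order, since `ψ₂ ≠ 0` at them, also modulo `p`.
`H73.No2 W P` says that `P` is not a point of exact order two. Module `H73FlatAlg`. -/
theorem chart_some {k : Type*} [Field k] (W : WeierstrassCurve k) {x y : k}
    (h : W.toAffine.Nonsingular x y) :
    H73.tC W (.some x y h) = x * (2 * y + W.a₁ * x + W.a₃)⁻¹ ∧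
    H73.sC W (.some x y h) = (2 * y + W.a₁ * x + W.a₃)⁻¹ ∧
    (H73.No2 W (.some x y h) ↔ 2 * y + W.a₁ * x + W.a₃ ≠ 0) ∧ H73.tC W 0 = 0 ∧ H73.sC W 0 = 0 :=
  ⟨rfl, rfl, Iff.rfl, rfl, rfl⟩

/-- **The cubic in the chart**: `4 t³ + b₂ t² s + 2 b₄ t s² + b₆ s³ = s` for every point which is not of
exact order two; the origin is the inflection point `(0, 0)`. Module `H73FlatAlg`.
Closures: S01, S03, S04, S06, S38, S45, S46, S50, S59, S60. -/
theorem chart_equation {k : Type*} [Field k] [DecidableEq k] {W : WeierstrassCurve k}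
    {P : W.toAffine.Point} (hP : H73.No2 W P) :
    4 * H73.tC W P ^ 3 + W.b₂ * H73.tC W P ^ 2 * H73.sC W P
      + 2 * W.b₄ * H73.tC W P * H73.sC W P ^ 2 + W.b₆ * H73.sC W P ^ 3 = H73.sC W P :=
  H73.Gf_point hP

/-- **Integrality in the chart**: a point of odd order has integral coordinates `(t, s)` at every valuation
ring `A` at which the coefficients are integral and the discriminant and `2` are units. (If `ψ₂(P)` were not
a unit, `P` and `-P` would have the same reduction, so `2 P` would lie in the kernel of reduction, hence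
`P`.) Module `H73FlatVal`.
Closures: S01, S03, S04, S06, S38, S45, S46, S50, S59, S60. -/
theorem chart_integral {k : Type*} [Field k] [DecidableEq k] {A : ValuationSubring k} {W : WeierstrassCurve k}
    (hW : ∃ W₀ : WeierstrassCurve A, W₀.map (algebraMap A k) = W)
    (hΔ : W.Δ ∉ A.nonunits) (h2 : (2 : k) ∉ A.nonunits) {n : ℕ} (hn : Odd n)
    {P : W.toAffine.Point} (hP : n • P = 0) : H73.tC W P ∈ A ∧ H73.sC W P ∈ A :=
  H73.chart_mem hW hΔ h2 hn hP

/-- *The relation of the addition law.* `H73.Rel` is the addition law in the chart along a direction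
`(u, v)`. With `G(t, s) = 4 t³ + b₂ t² s + 2 b₄ t s² + b₆ s³` (`H73.Gf`) the line through `(t₁, s₁)` with
direction `(u, v)` meets the cubic `G(t, s) = s` again in two points; `C1`, `C2` are the coefficients of `τ`
and `τ²` of `G(t₁ + τ u, s₁ + τ v) - (s₁ + τ v)`, and the four equations say that the two points are
`(t₂, s₂)` and `(-t₃, -s₃)`, after multiplication by the leading coefficient `G(u, v)`. Module `H73FlatAlg`.
Closures: S01, S03, S04, S06, S38, S45, S46, S50, S59, S60. -/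
theorem rel_iff {R : Type*} [CommRing R] (b₂ b₄ b₆ t₁ s₁ t₂ s₂ t₃ s₃ u v : R) :
    H73.Rel b₂ b₄ b₆ t₁ s₁ t₂ s₂ t₃ s₃ u v ↔
      H73.C2 b₂ b₄ b₆ t₁ s₁ u v * u = -H73.Gf b₂ b₄ b₆ u v * (t₂ - 2 * t₁ - t₃) ∧
      H73.C2 b₂ b₄ b₆ t₁ s₁ u v * v = -H73.Gf b₂ b₄ b₆ u v * (s₂ - 2 * s₁ - s₃) ∧
      H73.C1 b₂ b₄ b₆ t₁ s₁ u v * u ^ 2 = H73.Gf b₂ b₄ b₆ u v * ((t₂ - t₁) * (-t₃ - t₁)) ∧
      H73.C1 b₂ b₄ b₆ t₁ s₁ u v * v ^ 2 = H73.Gf b₂ b₄ b₆ u v * ((s₂ - s₁) * (-s₃ - s₁)) :=
  ⟨fun h => ⟨h.1, h.2, h.3, h.4⟩, fun ⟨h1, h2, h3, h4⟩ => ⟨h1, h2, h3, h4⟩⟩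

/-- **A complete addition law**: for `P`, `Q`, `P + Q` in the chart the addition law holds along TWO
directions, the chord `(t₁ - t₂, s₁ - s₂)` and the one given by the difference quotients `Uf`, `Vf` of the
cubic (which is the tangent for `P = Q`). Module `H73FlatAlg`.
Closures: S01, S03, S04, S06, S38, S45, S46, S50, S59, S60. -/
theorem addition_law {k : Type*} [Field k] [DecidableEq k] {W : WeierstrassCurve k}
    (h2 : (2 : k) ≠ 0) {P Q : W.toAffine.Point}
    (hP : H73.No2 W P) (hQ : H73.No2 W Q) (hPQ : H73.No2 W (P + Q)) :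
    H73.Rel W.b₂ W.b₄ W.b₆ (H73.tC W P) (H73.sC W P) (H73.tC W Q) (H73.sC W Q)
      (H73.tC W (P + Q)) (H73.sC W (P + Q)) (H73.tC W P - H73.tC W Q) (H73.sC W P - H73.sC W Q) ∧
    H73.Rel W.b₂ W.b₄ W.b₆ (H73.tC W P) (H73.sC W P) (H73.tC W Q) (H73.sC W Q)
      (H73.tC W (P + Q)) (H73.sC W (P + Q))
      (1 - H73.Vf W.b₂ W.b₄ W.b₆ (H73.sC W P) (H73.tC W Q) (H73.sC W Q))
      (H73.Uf W.b₂ W.b₄ (H73.tC W P) (H73.sC W P) (H73.tC W Q)) :=
  H73.rel_of_add h2 hP hQ hPQ

/-- **A proper ideal of a ring of functions is visible at one point**: for a ring `B` of functions from a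
finite set `X` to a field and a proper ideal `I` of `B` there are a point `j` and a valuation ring `A` with
`b(j) ∈ A` for `b ∈ B` and `b(j)` in the maximal ideal of `A` for `b ∈ I`. It is applied to the ideal
generated by the two denominators `G(u, v)` of `addition_law`, one of which is a unit at every place; this
replaces the language of schemes. Module `H73FlatLoc`.
Closures: S01, S03, S04, S06, S38, S45, S46, S50, S59, S60. -/
theorem exists_valuation_of_proper_ideal {X K : Type*} [Finite X] [Field K]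
    (B : Subring (X → K)) (I : Ideal B) (hI : I ≠ ⊤) :
    ∃ (j : X) (A : ValuationSubring K), (∀ b : B, (b : X → K) j ∈ A) ∧
      ∀ b ∈ I, (b : X → K) j ∈ A.nonunits :=
  H73.exists_valuation_of_ne_top B I hI

/-- **Finite flat models**: for `n` odd and `p` an odd prime not dividing the discriminant, `W[n]` is the
group of `Q̄`-valued points of a finite flat cocommutative Hopf algebra `H` over `ℤ_(p)`
(`GaloisRep.ratLocalizedAt p`, the rational numbers with denominator prime to `p`; `WithConv` is the set of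
algebra maps with the convolution product). `H` is the `ℤ_(p)`-algebra of functions on `W[n]` generated by
`t` and `s`: the ring generated by `t(P), s(P), t(Q), s(Q)` contains `t(P+Q)`, `s(P+Q)` by `addition_law`
and `exists_valuation_of_proper_ideal`. Modules `H73Flat*`.
Closures: S01, S03, S04, S06, S38, S45, S46, S50, S59, S60. -/
theorem exists_flat_model (W : WeierstrassCurve ℤ) {p n : ℕ} [Fact p.Prime] (hp2 : p ≠ 2)
    (hgood : ¬ (p : ℤ) ∣ W.Δ) (hn : Odd n) :
    ∃ (H : Type) (_ : CommRing H) (_ : HopfAlgebra (GaloisRep.ratLocalizedAt p) H),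
      Module.Finite (GaloisRep.ratLocalizedAt p) H ∧ Module.Flat (GaloisRep.ratLocalizedAt p) H ∧
      Coalgebra.IsCocomm (GaloisRep.ratLocalizedAt p) H ∧
      ∃ e : WithConv (H →ₐ[GaloisRep.ratLocalizedAt p] Qbar) ≃
          Submodule.torsionBy ℤ ((W.map (Int.castRingHom ℚ))⁄Qbar).Point (n : ℤ),
        (∀ f g, e (f * g) = e f + e g) ∧
        ∀ (σ : GQ) (f g : WithConv (H →ₐ[GaloisRep.ratLocalizedAt p] Qbar)),
          (∀ h : H, g h = σ (f h)) → e g = σ • e f :=
  H73.hasFlatModel_tors W hp2 hgood hn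

/-- **The Tate module is flat at a good odd prime `p`**: every finite quotient `T/I T` has a finite flat
model over `ℤ_(p)` (`GaloisRepAdic.IsFlatAt`, Prelude `Def_GaloisRep_Flat`). Module `H87Glue`.
Closures: S01, S03, S04, S06, S38, S45, S46, S50, S59, S60. -/
theorem tate_flat (W : WeierstrassCurve ℤ) (hΔ : W.Δ ≠ 0) (p : ℕ) [Fact p.Prime] (hp2 : p ≠ 2)
    (hgood : ¬ (p : ℤ) ∣ W.Δ) : (H87.Glue.tateZ W hΔ p).IsFlatAt p :=
  H87.Glue.isFlatAt_of_good W hΔ p hp2 hgood

/-! ## 3. Odd and absolutely irreducible -/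

/-- *Fixed roots of unity of an involution are `±1`*: let `K₀` be the field of fixed points. A sum of
squares of elements of `K₀` is a square in `K₀`, but `-1` is not; and `ζ ∈ K₀` of odd order would make
`-1 = ζ + ... + ζ^(2m)` a sum of squares. Module `H87Invol`.
Closures: S01, S03, S04, S06, S38-S41, S43-S47, S50, S56, S58-S60. -/
theorem fixed_rootOfUnity {K : Type*} [Field K] [IsAlgClosed K] (h2 : (2 : K) ≠ 0) (c : K ≃+* K)
    (hc : ∀ x, c (c x) = x) {γ : K} (hγ : c γ ≠ γ) {n : ℕ} (hn : n ≠ 0) {ζ : K} (hζ : ζ ^ n = 1)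
    (hcζ : c ζ = ζ) : ζ ^ 2 = 1 :=
  H87.Invol.sq_eq_one h2 c hc hγ hn hζ hcζ

/-- **Complex conjugation inverts roots of unity**, for every nontrivial involution `c` of an algebraically
closed field of characteristic `≠ 2` (so no real closed field and no embedding into `ℂ` is needed). Proof
after Artin and Schreier: for `ζ = η²` the norm `η c(η)` is a root of unity fixed by `c`, hence `± 1` by
`fixed_rootOfUnity`, and so `ζ c(ζ) = 1`. Module `H87Invol`.
Closures: S01, S03, S04, S06, S38, S43, S45, S46, S50, S58-S60. -/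
theorem involution_rootOfUnity {K : Type*} [Field K] [IsAlgClosed K] (h2 : (2 : K) ≠ 0)
    (c : K ≃+* K) (hc : ∀ x, c (c x) = x) {γ : K} (hγ : c γ ≠ γ) {n : ℕ} (hn : n ≠ 0) {ζ : K}
    (hζ : ζ ^ n = 1) : c ζ = ζ⁻¹ :=
  H87.Invol.map_rootOfUnity_eq_inv h2 c hc hγ hn hζ

/-- **`W[p]` is odd.** Module `H87Glue`.
Closures: S01, S03, S04, S06, S38, S45, S46, S50, S58-S60. -/
theorem resZ_odd (W : WeierstrassCurve ℤ) (hΔ : W.Δ ≠ 0) (p : ℕ) [Fact p.Prime] (c : GQ)
    (hc : c * c = 1) (hc1 : c ≠ 1) : LinearMap.det ((H87.Glue.resZ W hΔ p).ρ c) = -1 :=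
  H87.Glue.resZ_isOdd W hΔ p c hc hc1

/-- *An involution of determinant `-1` on a plane* is diagonalisable with eigenvalues `1`, `-1` (`2 ≠ 0`).
Module `H87AbsIrr`.
Closures: S01, S03, S04, S06, S38-S40, S43-S46, S50, S58-S60. -/
theorem eigenbasis {k V : Type*} [Field k] [AddCommGroup V] [Module k V] (h2 : (2 : k) ≠ 0)
    (hV : Module.finrank k V = 2) (C : Module.End k V) (hC : C * C = 1)
    (hdet : LinearMap.det C = -1) :
    ∃ b : Module.Basis (Fin 2) k V, C (b 0) = b 0 ∧ C (b 1) = - b 1 :=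
  H87.AbsIrr.exists_eigenbasis h2 hV C hC hdet

/-- **Odd and irreducible implies absolutely irreducible** in characteristic `≠ 2`: a stable line over an
extension is one of the two eigenlines of the involution, and these are rational. Module `H87AbsIrr`.
Closures: S01, S03, S04, S06, S38-S40, S43-S46, S50, S58-S60. -/
theorem absolutely_irreducible {k : Type} [Field k] (h2 : (2 : k) ≠ 0) (ρ : ResidualGaloisRep k)
    (hirr : ρ.IsIrreducible) (c : GQ) (hc : c * c = 1) (hdet : LinearMap.det (ρ.ρ c) = -1) :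
    ρ.IsAbsolutelyIrreducible :=
  H87.AbsIrr.isAbsolutelyIrreducible_of_involution h2 ρ hirr c hc hdet

/-! ## 4. The condition of Taylor and Wiles -/

/-- **Dihedral form**: let `V` be a plane over a field `k` with an action of a group `Γ` which stays
irreducible over the extension `K`, and let `G` be a subgroup of index two such that `K ⊗ V` has a
`G`-stable line. Then there is a basis in which `G` is diagonal and the complement of `G` is antidiagonal.
Module `H73TWAlg`.
Closures: S01, S03, S04, S06, S38, S45, S46, S50, S59, S60. -/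
theorem exists_dihedral_basis {k K V Γ : Type*} [Field k] [Field K] [Algebra k K]
    [AddCommGroup V] [Module k V] [Group Γ] (ρ : Γ →* Module.End k V) {G : Subgroup Γ}
    (hV : Module.finrank k V = 2) (hG : G.index = 2)
    (hirr : ∀ W : Submodule K (K ⊗[k] V), (∀ σ, ∀ x ∈ W, (ρ σ).baseChange K x ∈ W) →
      W = ⊥ ∨ W = ⊤)
    (L : Submodule K (K ⊗[k] V)) (hL : ∀ σ ∈ G, ∀ x ∈ L, (ρ σ).baseChange K x ∈ L)
    (hbot : L ≠ ⊥) (htop : L ≠ ⊤) :
    ∃ b : Module.Basis (Fin 2) K (K ⊗[k] V),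
      (∀ g ∈ G, ∃ x y : K, (ρ g).baseChange K (b 0) = x • b 0 ∧
        (ρ g).baseChange K (b 1) = y • b 1) ∧
      (∀ g ∉ G, ∃ x y : K, (ρ g).baseChange K (b 0) = x • b 1 ∧
        (ρ g).baseChange K (b 1) = y • b 0) :=
  H73.TW.exists_dih ρ hV hG hirr L hL hbot htop

/-- **Uniqueness of the quadratic field unramified outside an odd prime `p`**, in group form: two open
subgroups of index two of `Gal(Q̄/ℚ)` which contain all inertia groups at the primes different from `p` are
equal. Module `H73Quad`.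
Closures: S01, S03, S04, S06, S38, S45, S46, S50, S59, S60. -/
theorem unique_quadratic_field {p : ℕ} (hp : p.Prime) (hp2 : p ≠ 2) (G₁ G₂ : Subgroup GQ)
    (ho₁ : IsOpen (G₁ : Set GQ)) (ho₂ : IsOpen (G₂ : Set GQ)) (h₁ : G₁.index = 2)
    (h₂ : G₂.index = 2)
    (hi₁ : ∀ q : ℕ, q.Prime → q ≠ p → ∀ A : ValuationSubring Qbar, A.LiesOverPrime q →
      A.inertiaSubgroupIn ℚ ≤ G₁)
    (hi₂ : ∀ q : ℕ, q.Prime → q ≠ p → ∀ A : ValuationSubring Qbar, A.LiesOverPrime q →
      A.inertiaSubgroupIn ℚ ≤ G₂) : G₁ = G₂ :=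
  H73.Quad.eq_of_index_two hp hp2 G₁ G₂ ho₁ ho₂ h₁ h₂ hi₁ hi₂

/-- **The condition of Taylor and Wiles**: if `W` is semistable and `W[p]` irreducible, `p = 3` or `5`, then
`K ⊗ W[p]` has no line stable under a subgroup of index 2 of `Gal(Q̄/ℚ)` (any subgroup, not only an open
one), `K` any field of characteristic `p` (hypothesis `hTW` of S56). Proof: if not, the image is dihedral by
`exists_dihedral_basis`; unipotent elements are trivial, so `W[p]` is unramified outside `p` by
semistability and `G` is unique by `unique_quadratic_field`. Then the image is a 2-group (`p = 3`: elements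
of order 3 are unipotent; `p = 5`: `G` is the kernel of the quadratic character of the determinant and
contains complex conjugation, because `-1` is a square modulo 5, so it is diagonalisable over `𝔽₅`) with
only one subgroup of index 2, hence cyclic, and `W[p]` is reducible. For every odd `p`, as needed for S38:
`GuideTWCondition.condition`. Module `H73TW`.
Closures: S01, S03, S04, S06, S38, S45, S46, S50, S59, S60. -/
theorem taylor_wiles (W : WeierstrassCurve ℤ) (hΔ : W.Δ ≠ 0) {p : ℕ} [Fact p.Prime]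
    (h35 : p = 3 ∨ p = 5) (hW : W.IsSemistableModel) (hirr : W.ModRepIsIrreducible p)
    {K : Type*} [Field K] [Algebra (ZMod p) K] (G : Subgroup GQ) (hG : G.index = 2)
    (L : Submodule K (TensorProduct (ZMod p) K (H87.Glue.resZ W hΔ p).V))
    (hL : ∀ σ ∈ G, ∀ x ∈ L, ((H87.Glue.resZ W hΔ p).ρ σ).baseChange K x ∈ L) : L = ⊥ ∨ L = ⊤ :=
  H73.TW.hTW_resZ W hΔ h35 hW hirr G hG L hL

/-! ## 5. An irreducible `W[p]` is not Eisenstein -/

/-- **Group theory I.** Let `ρ : G → End V` be a homomorphism, `V` of dimension 2 over a field in which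
`2 ≠ 0`, without stable subspaces except `0` and `V`, and `c ∈ G` with `ρ(c)² = 1`, `det ρ(c) = -1`. Then
some `g` has `(tr ρ(g))² ≠ (1 + det ρ(g))²`. (Otherwise every element of determinant 1 is plus or minus a
unipotent one; these have a common eigenline or are scalars.) Module `H62NEGroup`.
Closures: S01, S03, S04, S06, S38, S41, S43, S45, S46, S50, S59, S60. -/
theorem exists_trace_sq_ne {k V G : Type*} [Field k] [AddCommGroup V] [Module k V] [Group G]
    {ρ : G →* Module.End k V} (h2 : Module.finrank k V = 2)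
    (hirr : ∀ N : Submodule k V, (∀ g, ∀ x ∈ N, ρ g x ∈ N) → N = ⊥ ∨ N = ⊤) (hk : (2 : k) ≠ 0)
    {c : G} (hc : ρ c * ρ c = 1) (hdet : LinearMap.det (ρ c) = -1) :
    ∃ g, LinearMap.trace k V (ρ g) ^ 2 ≠ (1 + LinearMap.det (ρ g)) ^ 2 :=
  H62.exists_sq_tr_ne h2 hirr hk hc hdet

/-- **Group theory II.** In the same situation let `G₁` be a normal subgroup that contains all commutators
`g c g⁻¹ c⁻¹`. Then some `g ∈ G₁` has `tr ρ(g) ≠ 1 + det ρ(g)`. Module `H62NEGroup`.
Closures: S01, S03, S04, S06, S38-S41, S43-S46, S50, S59, S60. -/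
theorem exists_trace_ne {k V G : Type*} [Field k] [AddCommGroup V] [Module k V] [Group G]
    {ρ : G →* Module.End k V} (h2 : Module.finrank k V = 2)
    (hirr : ∀ N : Submodule k V, (∀ g, ∀ x ∈ N, ρ g x ∈ N) → N = ⊥ ∨ N = ⊤) (hk : (2 : k) ≠ 0)
    {c : G} (hc : ρ c * ρ c = 1) (hdet : LinearMap.det (ρ c) = -1) (G₁ : Subgroup G) [G₁.Normal]
    (hcomm : ∀ g, g * c * g⁻¹ * c⁻¹ ∈ G₁) :
    ∃ g ∈ G₁, LinearMap.trace k V (ρ g) ≠ 1 + LinearMap.det (ρ g) :=
  H62.exists_tr_ne h2 hirr hk hc hdet G₁ hcomm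

/-- **Not Eisenstein I**: for odd `p` and `B ≥ 1` there is a good prime `ℓ ∤ B`, `ℓ ≠ p`, with
`a_ℓ² ≠ (ℓ + 1)²` in `𝔽_p`. From `exists_trace_sq_ne`, trace and determinant of Frobenius (`GuideCurves`)
and the density theorem of Frobenius: every element of a finite Galois group generates the same subgroup as
some Frobenius element. Module `H62NE`; used in S41, S43, S59.
Closures: S01, S03, S04, S06, S38, S41, S43, S45, S46, S50, S59, S60. -/
theorem exists_ne_one (W : WeierstrassCurve ℤ) {p : ℕ} [Fact p.Prime] (hΔ : W.Δ ≠ 0) (hp2 : p ≠ 2)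
    (hirr : W.ModRepIsIrreducible p) {B : ℕ} (hB : 0 < B) :
    ∃ ℓ : ℕ, ℓ.Prime ∧ ¬ (ℓ : ℤ) ∣ W.Δ ∧ ¬ ℓ ∣ B ∧ ℓ ≠ p ∧
      ((W.apOfModel ℓ : ZMod p)) ^ 2 ≠ ((ℓ : ZMod p) + 1) ^ 2 :=
  H62.ne1 hΔ hp2 hirr hB

/-- **Not Eisenstein II**: for every `M > 0` there is a good prime `ℓ ≡ 1` modulo `M` with `a_ℓ ≠ ℓ + 1` in
`𝔽_p`. From `exists_trace_ne` for the subgroup `G₁` which fixes the `M`-th roots of unity. Module `H62NE`;
used in S39-S41, S43, S44, S59.
Closures: S01, S03, S04, S06, S38-S41, S43-S46, S50, S59, S60. -/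
theorem exists_ne_two (W : WeierstrassCurve ℤ) {p : ℕ} [Fact p.Prime] (hΔ : W.Δ ≠ 0) (hp2 : p ≠ 2)
    (hirr : W.ModRepIsIrreducible p) {B : ℕ} (hB : 0 < B) {M : ℕ} (hM : 0 < M) :
    ∃ ℓ : ℕ, ℓ.Prime ∧ ¬ (ℓ : ℤ) ∣ W.Δ ∧ ¬ ℓ ∣ B ∧ ℓ ≠ p ∧ (ℓ : ZMod M) = 1 ∧
      (W.apOfModel ℓ : ZMod p) ≠ (ℓ : ZMod p) + 1 :=
  H62.ne2 hΔ hp2 hirr hB hM

end Fermat.Agent.Guide.CurvesTate
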