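import Fermat.Agent.H9Core

/-!
# Reader's guide: Hecke operators on the cuspidal class of `X₀(p)`

Companion of `GuideMazur` (section 4, `cuspidal_class`) and continuation of `GuideCuspidalSteps`.  No new
mathematics, and nothing imports it: every theorem is proved by citing theorems of the library.  Text and
library files (`H9Beta`, `H9Hecke`, `H9HeckeCusp`, `H9HeckeAct`): helper9.  In prose: NOTES.md, Appendix
A.2, [100].

**The result.**  Let `p` be a prime, `∞` and `0` the two cusps of `X₀(p)` and `c` the class of `(0) - (∞)`.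
Then `T_ℓ c = (1 + ℓ) c` for primes `ℓ ≠ p`, and `U_p c = c`.

**Where it is used.**  In the proof terms of S15, S12, S09, S03 and S01 (`c` is an Eisenstein class, with
which Mazur's descent starts).  The degree of `β` and the first two theorems of section 2 are also used for
S39 and S40; `degree_over_jp` and `ψ(p) = p + 1` for S04, S06, S38, S39, S40, S43, S45, S46, S50, S59, S60.

**The idea.**  The Hecke operators are defined by places of function fields: pull-back along
`β : F_p → F_{pℓ}`, `f(q) ↦ f(q^ℓ)`, and push-forward along the inclusion `α`.  No adelic description of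
the cusps and no `q`-expansions at other cusps are needed: at a place `W` of `F_{pℓ}` the orders of `j(q)`,
`j(q^ℓ)`, `j(q^p)`, `j(q^{pℓ})` determine the cusps below `W` along `α` and `β`, and the number of places
above a cusp follows from the degrees of the two maps, because over an algebraically closed field the
ramification indices above a place add up to the degree.

**Notation.**  As in `GuideCuspidalSteps`: `F_N` is the field of modular functions of level `N`, a field of
Laurent series in `q`; `H66.J K d` is the series `j(q^d)`; `H9.j₁ K ℓ`, `H9.jₚ K ℓ` are `j(q)` and `j(q^ℓ)`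
as elements of the field of level `ℓ`, for a prime `ℓ`; `H9.CuspSpec L p F i z` says that `i = ∞` and
`z = 0` are the cusps of the field `F = F_p`, and `S.cls` is the class `c`
(`GuideCuspidalSteps.cuspSpec_properties`).  `W.restrictAlong φ _` is the place below `W` along an
embedding `φ` of function fields, `W.ramificationIndexAlong φ` its ramification index, and
`Place.fiberAlong φ _ v` the finite set of the places above `v`.
-/

set_option autoImplicit false

open Polynomial IntermediateField ModularCurve AlgebraicCurve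

noncomputable section

namespace Fermat.Agent.Guide.CuspidalHecke

/-! ## 1. The degrees of the degeneracy maps

`heckeAlphaBar L N ℓ` and `heckeBetaBar L N ℓ` are the two embeddings `f(q) ↦ f(q)` and `f(q) ↦ f(q^ℓ)` of
`F_N` into `F_{Nℓ}` (over `L ⊇ ℚ` algebraically closed), and `finrankAlong L φ` is the degree of the larger
field over the image of `φ`.  The Hecke operator `T_ℓ` (`U_ℓ` for `ℓ ∣ N`) is pull-back along `β` followed
by push-forward along `α`. -/

section Degrees

/-- The values of `ψ(N) = [F_N : K(j)]` which are used: `ψ(p) = p + 1`, `ψ(pℓ) = (p + 1)(ℓ + 1)`,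
`ψ(p²) = p (p + 1)`.  Files `H9Beta`, `H9HeckeCusp`. -/
theorem psi_values {p : ℕ} (hp : p.Prime) :
    dedekindPsi p = p + 1 ∧ (∀ {ℓ : ℕ}, ℓ.Prime → ℓ ≠ p → dedekindPsi (p * ℓ) = (p + 1) * (ℓ + 1)) ∧
      dedekindPsi (p * p) = p * (p + 1) :=
  ⟨H9.dedekindPsi_prime hp, fun hℓ hne => H9.psi_mul_of_ne hp hℓ hne, H9.psi_sq hp⟩

/-- `F_{Np}` has the same degree over `K(j(q^p))` and over `K(j(q))`: for `N = 1` by the involution, and
then in the tower over `F_p`.  File `H9Beta`. -/
theorem degree_over_jp (K : Type*) [Field K] [IsAlgClosed K] (p : ℕ) [Fact p.Prime] (hp0 : (p : K) ≠ 0)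
    (N : ℕ) [NeZero N] :
    relfinrank K⟮H66.J K p⟯ (modularFunctionFieldFullC K (N * p)) =
      relfinrank K⟮jqModC K⟯ (modularFunctionFieldFullC K (N * p)) :=
  H9.relfinrank_J_p_full K p hp0 N

/-- **Degrees of the two degeneracy maps**: both are `ψ(Nℓ)/ψ(N)`.  Files `H9HeckeAct`, `H9Beta`. -/
theorem degrees (L : Type*) [Field L] [Algebra ℚ L] [IsAlgClosed L] [CharZero L] (N ℓ : ℕ) [NeZero N]
    [Fact ℓ.Prime] :
    dedekindPsi N * finrankAlong L (heckeAlphaBar L N ℓ) = dedekindPsi (N * ℓ) ∧
      dedekindPsi N * finrankAlong L (heckeBetaBar L N ℓ) = dedekindPsi (N * ℓ) :=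
  ⟨H9.psi_mul_finrank_alpha L N ℓ, H9.psi_mul_finrank_beta L N ℓ⟩

/-- In particular for level `p`: `β` has degree `ℓ + 1` for `ℓ ≠ p`, and for `ℓ = p` both maps have degree
`p`.  File `H9HeckeAct`. -/
theorem degrees_level_p (L : Type*) [Field L] [Algebra ℚ L] [IsAlgClosed L] [CharZero L] (p ℓ : ℕ)
    [Fact p.Prime] [Fact ℓ.Prime] :
    (ℓ ≠ p → finrankAlong L (heckeBetaBar L p ℓ) = ℓ + 1) ∧ finrankAlong L (heckeBetaBar L p p) = p ∧
      finrankAlong L (heckeAlphaBar L p p) = p :=
  ⟨H9.finrank_beta_of_ne L p ℓ, H9.finrank_beta_self L p, H9.finrank_alpha_self L p⟩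

end Degrees

/-! ## 2. Hecke operators on the cusps -/

section Along

variable {K F F' : Type*} [Field K] [Field F] [Field F'] [Algebra K F] [Algebra K F']

/-- **The number of places above `v`**, counted with ramification indices, is the degree, if all places
have degree `1`.  File `H9Hecke`. -/
theorem sum_of_ramification [HasPrincipalDivisors K F'] (φ : F →ₐ[K] F') (hφ : φ.toRingHom.IsIntegral)
    (hFI : FundamentalIdentityAlong K φ hφ) (hdeg : ∀ w : Place K F', w.deg = 1) (v : Place K F)
    (hv : v.deg = 1) :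
    ∑ W ∈ Place.fiberAlong φ hφ v, (W.ramificationIndexAlong φ : ℤ) = finrankAlong K φ :=
  H9.sum_ramificationIndexAlong φ hφ hFI hdeg v hv

/-- **The correspondence on a point**: pull-back along `φ` and push-forward along `ψ` maps `(v)` to the sum
over the places `W` above `v` along `φ` of `e_φ(W)` times the place below `W` along `ψ`.  File
`H9Hecke`. -/
theorem correspondence_of_point [HasPrincipalDivisors K F'] (φ ψ : F →ₐ[K] F')
    (hφ : φ.toRingHom.IsIntegral) (hψ : ψ.toRingHom.IsIntegral) (hdeg : ∀ w : Place K F', w.deg = 1)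
    (v : Place K F) :
    Divisor.correspondence φ ψ hφ hψ (Finsupp.single v 1) =
      ∑ W ∈ Place.fiberAlong φ hφ v,
        Finsupp.single (W.restrictAlong ψ hψ) (W.ramificationIndexAlong φ : ℤ) :=
  H9.correspondence_single φ ψ hφ hψ hdeg v

/-- If all places above `v` along `φ` lie above `v` along `ψ`, the correspondence multiplies `(v)` by the
degree of `φ`.  File `H9Hecke`. -/
theorem correspondence_of_fixed_point [HasPrincipalDivisors K F'] (φ ψ : F →ₐ[K] F')
    (hφ : φ.toRingHom.IsIntegral) (hψ : ψ.toRingHom.IsIntegral) (hFI : FundamentalIdentityAlong K φ hφ)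
    (hdeg : ∀ w : Place K F', w.deg = 1) (v : Place K F) (hv : v.deg = 1)
    (h : ∀ W : Place K F', W.restrictAlong φ hφ = v → W.restrictAlong ψ hψ = v) :
    Divisor.correspondence φ ψ hφ hψ (Finsupp.single v 1) =
      Finsupp.single v (finrankAlong K φ : ℤ) :=
  H9.correspondence_single_of_forall φ ψ hφ hψ hFI hdeg v hv h

/-- **Orders of `j(q)` and `j(q^ℓ)` at a place of a larger field.**  Let `F_ℓ → E` be an embedding of
function fields and `W` a place of `E`.  If one of them has a pole at `W`, then both have, and one order is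
`ℓ` times the other: the place below is a cusp (`orders_at_cusps`, `poles_of_j` of `GuideCuspidalSteps`).
File `H9Hecke`. -/
theorem orders_in_extension (K : Type*) [Field K] [IsAlgClosed K] (ℓ : ℕ) [Fact ℓ.Prime]
    (hℓ0 : (ℓ : K) ≠ 0) {E : Type*} [Field E] [Algebra K E] [H94.FunField K E]
    (φ : modularFunctionFieldFullC K ℓ →ₐ[K] E) (W : Place K E) :
    (W.ord (φ (H9.jₚ K ℓ)) < 0 → W.ord (φ (H9.j₁ K ℓ)) < 0) ∧
      (W.ord (φ (H9.j₁ K ℓ)) < 0 →
        W.ord (φ (H9.jₚ K ℓ)) = ℓ * W.ord (φ (H9.j₁ K ℓ)) ∨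
          W.ord (φ (H9.j₁ K ℓ)) = ℓ * W.ord (φ (H9.jₚ K ℓ))) :=
  ⟨H9.ord_neg_of_ord_jₚ_neg K ℓ hℓ0 φ W, H9.ord_ratio_cases K ℓ hℓ0 φ W⟩

end Along

section Good

variable {L : Type*} [Field L] [Algebra ℚ L] [IsAlgClosed L] [CharZero L]
  {p : ℕ} [Fact p.Prime] {i z : Place L (laurentBaseChange L (modularFunctionFieldFull p))}

/-- **Arithmetic of the orders.**  Let `p ≠ ℓ` be primes and `e`, `f > 0`.  One cannot have both
(`e = ℓ p f` or `p f = ℓ e`) and (`p e = ℓ f` or `f = ℓ p e`).  File `H9HeckeCusp`. -/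
theorem orders_incompatible {p ℓ e f : ℕ} (hp : p.Prime) (hℓ : ℓ.Prime) (hne : ℓ ≠ p) (he : 0 < e)
    (hf : 0 < f) (h2 : e = ℓ * (p * f) ∨ p * f = ℓ * e) (h5 : p * e = ℓ * f ∨ f = ℓ * (p * e)) :
    False :=
  H9.arith_cusps hp hℓ hne he hf h2 h5

/-- **The cusps do not mix**, `ℓ ≠ p`: a place `W` of `F_{pℓ}` above a cusp along `β` is above the same cusp
along `α`.  (Compare the orders at `W` of `j(q)`, `j(q^ℓ)`, `j(q^p)`, `j(q^{pℓ})`: along both maps the pair
`j`, `j_p` tells `∞` from `0`, and `orders_in_extension` for `ℓ` excludes the mixed case by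
`orders_incompatible`.)  File `H9HeckeCusp`. -/
theorem cusps_do_not_mix (S : H9.CuspSpec L p (laurentBaseChange L (modularFunctionFieldFull p)) i z)
    (ℓ : ℕ) [Fact ℓ.Prime] (hα : HeckeAlphaBarIntegral L p ℓ) (hβ : HeckeBetaBarIntegral L p ℓ)
    (W : Place L (laurentBaseChange L (modularFunctionFieldFull (p * ℓ)))) (hne : ℓ ≠ p) :
    (W.restrictAlong (heckeBetaBar L p ℓ) hβ = i → W.restrictAlong (heckeAlphaBar L p ℓ) hα = i) ∧
      (W.restrictAlong (heckeBetaBar L p ℓ) hβ = z → W.restrictAlong (heckeAlphaBar L p ℓ) hα = z) :=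
  ⟨H9.restrict_alpha_of_beta_inf S ℓ hα hβ W hne, H9.restrict_alpha_of_beta_zero S ℓ hα hβ W hne⟩

/-- **`T_ℓ c = (1 + ℓ) c`** for `ℓ ≠ p`, by `cusps_do_not_mix`, `correspondence_of_fixed_point` and
`degrees_level_p`.  File `H9HeckeAct`. -/
theorem hecke_of_class (S : H9.CuspSpec L p (laurentBaseChange L (modularFunctionFieldFull p)) i z)
    (ℓ : ℕ) [Fact ℓ.Prime] (hne : ℓ ≠ p) :
    heckeOperatorAlong L p ℓ S.cls = (1 + (ℓ : ℤ)) • S.cls :=
  H9.heckeAlong_cls_of_ne S ℓ hne

/-- **`U_p` on the cusps**: `U_p (∞) = p (∞)` and `U_p (0) = (0) + (p - 1)(∞)`.  The cusp `∞` of `F_{p²}` is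
the only place above `∞` along `β` (its ramification index is `p`, the degree); there is only one place
above `0` along `α`, with ramification index `p`, and it lies above `0` with index `1` along `β`; so the
other places above `0` along `β`, of total index `p - 1`, lie above `∞` along `α`.  File `H9HeckeAct`. -/
theorem up_on_cusps (S : H9.CuspSpec L p (laurentBaseChange L (modularFunctionFieldFull p)) i z)
    (hα : HeckeAlphaBarIntegral L p p) (hβ : HeckeBetaBarIntegral L p p)
    [HasPrincipalDivisors L (laurentBaseChange L (modularFunctionFieldFull (p * p)))]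
    (hFI : FundamentalIdentityAlong L (heckeBetaBar L p p) hβ)
    (hFI' : FundamentalIdentityAlong L (heckeAlphaBar L p p) hα)
    (hdeg : ∀ w : Place L (laurentBaseChange L (modularFunctionFieldFull (p * p))), w.deg = 1) :
    Divisor.correspondence (heckeBetaBar L p p) (heckeAlphaBar L p p) hβ hα
        (Finsupp.single i 1) = Finsupp.single i (p : ℤ) ∧
      Divisor.correspondence (heckeBetaBar L p p) (heckeAlphaBar L p p) hβ hα
        (Finsupp.single z 1) = Finsupp.single z 1 + Finsupp.single i ((p : ℤ) - 1) :=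
  H9.up_divisor S hα hβ hFI hFI' hdeg

/-- **`U_p c = c`**: `(0) + (p - 1)(∞) - p (∞) = (0) - (∞)`.  File `H9HeckeAct`. -/
theorem up_of_class (S : H9.CuspSpec L p (laurentBaseChange L (modularFunctionFieldFull p)) i z) :
    heckeOperatorAlong L p p S.cls = (1 : ℤ) • S.cls :=
  H9.heckeAlong_cls_self S

end Good

end Fermat.Agent.Guide.CuspidalHecke
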