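import Fermat.Agent.H9Core

/-!
# Reader's guide: the cusps of `X₀(p)`, the modular unit and the order of the cuspidal class

Companion of `GuideMazur`, section 4, where the results are stated (`two_cusps`, `theta_j_pow_six`,
`div_modular_unit`, `root_modular_unit`, `cuspidal_class`, `cuspidal_prime`); this file contains the steps
of their proofs, except for the Hecke operators, which are in `GuideCuspidalHecke`.  No new mathematics,
and nothing imports it: every theorem is proved by citing theorems of the library.  Text and library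
files (`H9Theta`, `H9Swap`, `H9Cusp`, `H9Unit`, `H9Cuspidal`, `H9Order`, `H9Spec`, `H9JZero`, `H9Core`):
helper9.  In prose: NOTES.md, Appendix A.2, [100].

**The result.**  Let `p` be a prime.  The function field `F_p` of `X₀(p)` over `ℚ̄` has exactly two places
where `j` has a pole, the cusps `∞` and `0`.  The class `c` of `(0) - (∞)` is rational and killed by
`p - 1`; if `m c = 0` then `p - 1` divides `24 m`.

**Where it is used.**  Everything is in the proof terms of S15, S12, S09, S03 and S01: `c` is the point of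
`J₀(p)` with which Mazur's descent starts.  Section 1 and the first two theorems of section 4 (the function
`Δ(q^p)/Δ(q)` and its equation, in every characteristic `≠ p`) are also used for S39, S40, S43, S44, S45;
section 2 and `degree_over_j` for S04, S06, S38, S39, S40, S43, S45, S46, S50, S59, S60; the rest of section
3 for S39 and S40 (except the order of `j_p` at `0`).

**The idea.**  There are no modular forms on the upper half plane in this file, no eta quotients, and no
model of `X₀(p)` over `ℤ`.  A modular function is a Laurent series in `q` which lies in the field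
`F_N = K(j(q^d) : d ∣ N)` (`modularFunctionFieldFullC K N`), for a field `K` of any characteristic not
dividing `N`, and the cusp `∞` is the order of Laurent series.
1. `R = Δ(q^p)/Δ(q)` is in `F_p`, because `(θj)⁶ = j⁴ (j - 1728)³ Δ` for `θ = q d/dq`, so for `j_p = j(q^p)`
   also `(θj_p)⁶ = p⁶ j_p⁴ (j_p - 1728)³ Δ(q^p)`, and `θj_p/θj` is in `F_p` by differentiation of the modular
   equation (section 1).
2. The modular equation is symmetric, so there is an automorphism `w` of `F_p` which exchanges `j` and
   `j_p`; no formula for its action on expansions is needed (section 2).  The cusp `0` is `w(∞)`, and the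
   degree `p + 1` of `F_p` over `K(j)` shows that there are no other poles of `j` (section 3).
3. `R` is a unit wherever `j` is finite, by its integral equation over `K[j]`; hence
   `div R = (p - 1)((∞) - (0))` (section 4).
4. If `m c = 0`, then `R = h^k` with `k = (p - 1)/gcd(m, p - 1)`; the coefficients of `h` are rational, in
   fact integers, and the coefficient of `q` in `k θh/h = θR/R = (p - 1) + 24 q + ...` shows `k ∣ 24`
   (section 5).

**Notation.**  `jqModC K` is the series `j(q) = 1/q + 744 + ...` with coefficients in `K`, `H66.J K d` the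
series `j(q^d)`, `qExpand K d` the substitution `q ↦ q^d`, `H28.deltaL K` and `H28.deltaInvL K` the series
`Δ(q)` and `1/Δ(q)`, `H61.theta` the derivation `q d/dq`.  `H9.j₁ K p` and `H9.jₚ K p` are `j(q)` and
`j(q^p)` as elements of `F_p`.  `v.ord` is the normalised order at a place `v`, `w • v` the image of `v`
under an automorphism `w`.  In sections 1, 2 and 4, `u ∈ K` is a primitive `p`-th root of unity
(`IsPrimitiveRoot u p`); it exists if `K` is algebraically closed of characteristic `≠ p`.  For
`H66.phiAt`, `H66.jf` (the conjugates of `j(q^p)`) and the modular polynomial `Φ_p` see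
`GuideModularEquation`.
-/

set_option autoImplicit false

open Polynomial IntermediateField ModularCurve AlgebraicCurve

noncomputable section

namespace Fermat.Agent.Guide.CuspidalSteps

/-! ## 1. The modular unit is a modular function of level `p` -/

section Unit

variable {K : Type*} [Field K] {p : ℕ} [Fact p.Prime] {u : Kˣ}

/-- The modular unit `R = H9.deltaRatio K p` is the Laurent series `Δ(q^p)/Δ(q)`; it starts with
`q^(p - 1)`.  File `H9Theta`. -/
theorem modular_unit (K : Type*) [Field K] (p : ℕ) [NeZero p] :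
    H9.deltaRatio K p = qExpand K p (H28.deltaL K) / H28.deltaL K ∧
      (H9.deltaRatio K p).coeff ((p : ℤ) - 1) = 1 ∧
      ∀ m < (p : ℤ) - 1, (H9.deltaRatio K p).coeff m = 0 :=
  ⟨H9.deltaRatio_eq_div p, (H9.hasLead_deltaRatio p).1, (H9.hasLead_deltaRatio p).2⟩

/-- `θ (a(q^p)) = p (θa)(q^p)`, over every commutative ring.  File `H9Theta`. -/
theorem theta_substitution {R : Type*} [CommRing R] (p : ℕ) [NeZero p] (a : LaurentSeries R) :
    H61.theta (qExpand R p a) = (p : LaurentSeries R) * qExpand R p (H61.theta a) :=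
  H9.theta_qExpand p a

/-- **Differentiation of a relation.**  For `Φ ∈ K[Y][X]` and `x`, `y` in a field `F` of Laurent series,
`θ (Φ(x, y)) = a θx + (∂Φ/∂X)(x, y) θy` with `a ∈ F`.  File `H9Theta`. -/
theorem theta_relation (F : IntermediateField K (LaurentSeries K)) {x y : LaurentSeries K} (hx : x ∈ F)
    (hy : y ∈ F) (Φ : K[X][X]) :
    ∃ a ∈ F, H61.theta ((H66.phiAt K Φ x).eval y) =
      a * H61.theta x + (H66.phiAt K Φ x).derivative.eval y * H61.theta y :=
  H9.exists_theta_eval F hx hy Φ

/-- For the modular polynomial `Φ_p` the derivative `∂Φ_p/∂X` does not vanish at `(j, j_p)`: the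
conjugate `j(q^p)` of order `-p` at the cusp is different from the `p` other conjugates, which have order
`-1/p`.  File `H9Theta`. -/
theorem derivative_modular_polynomial {Φ : K[X][X]}
    (hΦ : H66.phiAt K Φ (H66.J K p) = ∏ a, (X - C (H66.jf K p u a))) :
    (H66.phiAt K Φ (H66.J K 1)).derivative.eval (H66.J K p) ≠ 0 :=
  H9.eval_derivative_phiAt_one_ne_zero hΦ

/-- **`θj_p / θj` is in `F_p`**: apply `θ` to `Φ_p(j, j_p) = 0`.  File `H9Theta`. -/
theorem theta_jp_div_theta_j (hu : IsPrimitiveRoot u p) :
    ∃ z ∈ modularFunctionFieldFullC K p, H61.theta (H66.J K p) = z * H61.theta (H66.J K 1) :=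
  H9.exists_theta_J_eq hu

/-- **The modular unit is in `F_p`** in every characteristic `≠ p`: by `GuideMazur.theta_j_pow_six`,
applied to `j` and to `j_p`, `R` is `z⁶ j⁴ (j - 1728)³ / (p⁶ j_p⁴ (j_p - 1728)³)` with `z = θj_p/θj`.
File `H9Theta`. -/
theorem modular_unit_mem (hp0 : (p : K) ≠ 0) (hu : IsPrimitiveRoot u p) :
    H9.deltaRatio K p ∈ modularFunctionFieldFullC K p :=
  H9.deltaRatio_mem hp0 hu

/-! ## 2. The Atkin-Lehner involution -/

/-- `F_p` is generated by `j(q)` and `j(q^p)`; so a homomorphism of fields over `K` on `F_p` is determined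
by its values at `j` and `j_p`.  File `H9Swap`. -/
theorem two_generators : modularFunctionFieldFullC K p = adjoin K {H66.J K 1, H66.J K p} :=
  H9.full_eq_adjoin

/-- **The Atkin-Lehner involution**: there is an automorphism of `F_p` over `K` which exchanges `j` and
`j_p`.  (`Φ_p(j, X)` is the minimal polynomial of `j_p` over `K(j)`, and `Φ_p(j_p, j) = 0`; so
`f(q) ↦ f(q^p)` extends from `K(j)` to `F_p` with the value `j` at `j_p`.)  File `H9Swap`. -/
theorem atkin_lehner (hp0 : (p : K) ≠ 0) (hu : IsPrimitiveRoot u p) :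
    ∃ w : modularFunctionFieldFullC K p ≃ₐ[K] modularFunctionFieldFullC K p,
      w (H9.j₁ K p) = H9.jₚ K p ∧ w (H9.jₚ K p) = H9.j₁ K p :=
  H9.exists_swap hp0 hu

end Unit

/-! ## 3. The two cusps -/

section Cusps

variable (K : Type*) [Field K] [IsAlgClosed K]

/-- **The cusp `∞`** of `X₀(N)` is the place `H9.infPl K N` of `F_N` given by the order of Laurent series.
File `H9Cusp`. -/
theorem cusp_infinity (N : ℕ) [NeZero N] (f : modularFunctionFieldFullC K N) :
    (H9.infPl K N).ord f = (f : LaurentSeries K).order :=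
  H9.infPl_ord K N f

variable (p : ℕ) [Fact p.Prime] (hp0 : (p : K) ≠ 0)

/-- **The cusp `0`** of `X₀(p)` is the image of `∞` under the involution `w = H9.wAL K p hp0` of
`atkin_lehner`.  File `H9Cusp`. -/
theorem cusp_zero (f : modularFunctionFieldFullC K p) :
    H9.zeroPl K p hp0 = H9.wAL K p hp0 • H9.infPl K p ∧
      (H9.zeroPl K p hp0).ord f = (H9.infPl K p).ord (H9.wAL K p hp0 f) ∧
      H9.wAL K p hp0 (H9.j₁ K p) = H9.jₚ K p ∧ H9.wAL K p hp0 (H9.jₚ K p) = H9.j₁ K p ∧
      H9.wAL K p hp0 (H9.wAL K p hp0 f) = f :=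
  ⟨rfl, H9.zeroPl_ord K p hp0 f, H9.wAL_j₁ K p hp0, H9.wAL_jₚ K p hp0, H9.wAL_wAL K p hp0 f⟩

/-- The orders of `j` and `j_p`: `-1`, `-p` at `∞` and `-p`, `-1` at `0`; so the cusps are different.
File `H9Cusp`. -/
theorem orders_at_cusps :
    (H9.infPl K p).ord (H9.j₁ K p) = -1 ∧ (H9.infPl K p).ord (H9.jₚ K p) = -p ∧
      (H9.zeroPl K p hp0).ord (H9.j₁ K p) = -p ∧ (H9.zeroPl K p hp0).ord (H9.jₚ K p) = -1 ∧
      H9.infPl K p ≠ H9.zeroPl K p hp0 :=
  ⟨H9.infPl_ord_j₁ K p, H9.infPl_ord_jₚ K p, H9.zeroPl_ord_j₁ K p hp0, H9.zeroPl_ord_jₚ K p hp0,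
    H9.infPl_ne_zeroPl K p hp0⟩

include hp0 in
/-- `F_p` has degree `p + 1` over `K(j)` (`GuideModularEquation.degree_of_roots`).  File `H9Cusp`. -/
theorem degree_over_j :
    Module.finrank K⟮H9.j₁ K p⟯ (modularFunctionFieldFullC K p) = p + 1 :=
  H9.finrank_adjoin_j₁ K p hp0

/-- **There are exactly two cusps**: `j`, and also `j_p`, have their poles at `∞` and `0` only.  The
degree `p + 1` of the divisor of poles of `j` is reached with the orders `1` at `∞` and `p` at `0`.  Files
`H9Cusp`, `H9Hecke`. -/
theorem poles_of_j (v : Place K (modularFunctionFieldFullC K p)) :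
    (v.ord (H9.j₁ K p) < 0 → v = H9.infPl K p ∨ v = H9.zeroPl K p hp0) ∧
      (v.ord (H9.jₚ K p) < 0 → v = H9.infPl K p ∨ v = H9.zeroPl K p hp0) :=
  ⟨H9.eq_cusp_of_ord_neg K p hp0, H9.eq_cusp_of_ord_jₚ_neg K p hp0⟩

/-! ## 4. The divisor of the modular unit -/

/-- **A criterion for units.**  Let `O` be an integrally closed domain containing the field `K`, `x ∈ O`,
and let `y` be in the field of fractions.  If `H(x, y) = 0` for a monic polynomial `H ∈ K[Y][X]` with
constant coefficient `H(Y, 0) = c ∈ K`, `c ≠ 0`, then `y` is a unit of `O`.  File `H9Unit`. -/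
theorem unit_of_root {K O F : Type*} [Field K] [CommRing O] [IsDomain O] [IsIntegrallyClosed O] [Field F]
    [Algebra O F] [IsFractionRing O F] [Algebra K O] (H : K[X][X]) (hm : H.Monic) {c : K} (hc : c ≠ 0)
    (h0 : H.coeff 0 = C c) (x : O) {y : F}
    (hy : (H.map (aeval x : K[X] →ₐ[K] O).toRingHom).eval₂ (algebraMap O F) y = 0) :
    ∃ z : Oˣ, algebraMap O F z = y :=
  H9.exists_unit_of_root H hm hc h0 x hy

/-- **The equation of the modular unit.**  `(p¹² R)^p` is a root of a monic polynomial over `K[j]` whose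
constant coefficient is a constant `c ≠ 0`: it is, up to sign, the product of the conjugates, a
polynomial in `j` by the modular equations, and its order at the cusp is `0`.  File `H9Unit`. -/
theorem equation_of_unit {K : Type*} [Field K] {p : ℕ} [Fact p.Prime] {u : Kˣ} (hp0 : (p : K) ≠ 0)
    (hu : IsPrimitiveRoot u p) :
    ∃ (H : K[X][X]) (c : K), H.Monic ∧ c ≠ 0 ∧ H.coeff 0 = C c ∧
      (H66.phiAt K H (H66.J K 1)).eval
        ((HahnSeries.C ((p : K) ^ 12) * qExpand K p (H28.deltaL K) * H28.deltaInvL K) ^ p) = 0 :=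
  H9.exists_poly_vv hp0 hu

/-- The modular unit (`H9.ratio K p hp0`, as an element of `F_p`) has neither zero nor pole where `j` is
finite; its order at `∞` is `p - 1`.  File `H9Unit`. -/
theorem orders_of_unit (v : Place K (modularFunctionFieldFullC K p)) :
    (0 ≤ v.ord (H9.j₁ K p) → v.ord (H9.ratio K p hp0) = 0) ∧
      (H9.infPl K p).ord (H9.ratio K p hp0) = p - 1 :=
  ⟨H9.ord_ratio_of_nonneg K p hp0, H9.infPl_ord_ratio K p hp0⟩

/-- A divisor of degree `0` supported on the two cusps is a multiple of `(0) - (∞)`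
(`H9.cuspDiv K p hp0`).  With `orders_of_unit` this gives `GuideMazur.div_modular_unit`.  File
`H9Cuspidal`. -/
theorem divisors_on_cusps {D : Divisor K (modularFunctionFieldFullC K p)}
    (hD : D ∈ Divisor.degZero (K := K) (F := modularFunctionFieldFullC K p))
    (hs : ∀ v, v ≠ H9.zeroPl K p hp0 → v ≠ H9.infPl K p → D v = 0) :
    D = -(D (H9.infPl K p)) • (Finsupp.single (H9.zeroPl K p hp0) 1 - Finsupp.single (H9.infPl K p) 1) :=
  H9.eq_smul_cuspDiv K p hp0 hD hs

/-- **Roots of the modular unit.**  If `m` kills the class of `(0) - (∞)` (`H9.cuspClass K p hp0`), then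
the modular unit is a `k`-th power in `F_p` for `k = (p - 1)/gcd(m, p - 1)`.  (Bezout, from a function with
divisor `m ((0) - (∞))` and the modular unit; functions without zeros and poles are constant.)  File
`H9Cuspidal`. -/
theorem unit_is_power {m : ℕ} (hm : m ≠ 0) (hmc : m • H9.cuspClass K p hp0 = 0) :
    ∃ h : modularFunctionFieldFullC K p, h ^ ((p - 1) / Nat.gcd m (p - 1)) = H9.ratio K p hp0 :=
  H9.exists_pow_eq_ratio K p hp0 hm hmc

end Cusps

/-! ## 5. The order of the cuspidal class -/

section Order

local notation "Qb" => AlgebraicClosure ℚ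

/-- A root in `K((q))` of the polynomial `X^k - 1` is a constant, `K` algebraically closed.  File
`H9Order`. -/
theorem roots_of_unity_constant {K : Type*} [Field K] [IsAlgClosed K] {t : LaurentSeries K} {k : ℕ}
    (hk : 0 < k) (ht : t ^ k = 1) : ∃ ζ : K, t = HahnSeries.C ζ :=
  H9.exists_C_of_pow_eq_one hk ht

/-- Hence a `k`-th root with leading coefficient `1` is unique.  So a root `h` of the modular unit over
`ℚ̄`, normalised in this way, is fixed by the Galois group, that is, its coefficients are rational
(`H66.HasLead x n 1`: `x = qⁿ + ...`).  File `H9Order`. -/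
theorem unique_root {K : Type*} [Field K] [IsAlgClosed K] {x y : LaurentSeries K} {k : ℕ} {n : ℤ}
    (hk : 0 < k) (hx : H66.HasLead x n 1) (hy : H66.HasLead y n 1) (h : x ^ k = y ^ k) : x = y :=
  H9.eq_of_pow_eq hk hx hy h

/-- **Integrality.**  If a power of a modular function `f` with rational coefficients has coefficients in
`ℤ_(ℓ)`, then so has `f`.  (`H68.coeffSubring Z` is the ring of Laurent series with coefficients in
`Z ⊂ ℚ`.  A modular function is a quotient of two elements of this ring for `Z = ℤ_(ℓ)`, so `f` is almost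
integral over it.)  File `H9Order`. -/
theorem integral_of_power (ℓ : ℕ) [Fact ℓ.Prime] {N : ℕ} {f : LaurentSeries ℚ}
    (hf : f ∈ modularFunctionFieldFull N) {k : ℕ} (hk : 0 < k)
    (h : f ^ k ∈ H68.coeffSubring (GaloisRep.ratLocalizedAt ℓ)) :
    f ∈ H68.coeffSubring (GaloisRep.ratLocalizedAt ℓ) :=
  H9.mem_coeffSubring_of_pow_mem ℓ hf hk h

/-- `Δ(q^p)/Δ(q)` and its inverse have integral coefficients, and `θ` preserves the integrality: so
`θh/h = θh h^(k-1) R⁻¹` has coefficients in `ℤ_(ℓ)` if `h^k = R`.  File `H9Order`. -/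
theorem unit_integral (Z : Subring ℚ) (p : ℕ) [NeZero p] :
    H9.deltaRatio ℚ p ∈ H68.coeffSubring Z ∧ (H9.deltaRatio ℚ p)⁻¹ ∈ H68.coeffSubring Z ∧
      ∀ f ∈ H68.coeffSubring Z, H61.theta f ∈ H68.coeffSubring Z :=
  ⟨H9.deltaRatio_mem_coeffSubring Z p, H9.deltaRatio_inv_mem_coeffSubring Z p,
    fun _ h => H9.theta_mem_coeffSubring Z h⟩

/-- A rational number which is in `ℤ_(ℓ)` for every prime `ℓ` is an integer.  It is applied to the
coefficient of `q` in `θh/h` (`GuideMazur.root_modular_unit`).  File `H9Order`. -/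
theorem integer_of_local {x : ℚ} (h : ∀ ℓ : ℕ, Fact ℓ.Prime → x ∈ GaloisRep.ratLocalizedAt ℓ) :
    ∃ n : ℤ, x = n :=
  H9.exists_int_of_forall_mem h

/-- **Roots over `ℚ̄`**: if `h^k = Δ(q^p)/Δ(q)` for a modular function `h` over `ℚ̄`, then `k ∣ 24`.  (By
`unique_root` one may assume that `h` has rational coefficients: `GuideMazur.root_modular_unit`.)  File
`H9Order`. -/
theorem dvd_24 {p : ℕ} [Fact p.Prime] {k : ℕ} (hk : 0 < k) {h : LaurentSeries Qb}
    (hh : h ∈ modularFunctionFieldFullC Qb p) (hpow : h ^ k = H9.deltaRatio Qb p) : k ∣ 24 :=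
  H9.dvd_of_pow_eq hk hh hpow

/-- **Arithmetic.**  If `p` is not `2, 3, 5, 7, 13`, there is a prime `r` dividing the numerator of
`(p - 1)/12` such that `p - 1 ∣ 24 m` implies `r ∣ m`.  (Every odd prime divisor has this property; if the
numerator is a power of `2`, then `16 ∣ p - 1`, because `9` and `25` are not prime, and `r = 2` works.)
File `H9Spec`. -/
theorem exists_prime {p : ℕ} [Fact p.Prime] (hp' : p ∉ ({2, 3, 5, 7, 13} : Finset ℕ)) :
    ∃ r : ℕ, r.Prime ∧ r ∣ eisensteinNumerator p ∧ ∀ m : ℕ, p - 1 ∣ 24 * m → r ∣ m :=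
  H9.exists_prime_dvd_order hp'

end Order

/-! ## 6. The cusps in other presentations of the function field

The function field of `X₀(p)` occurs in the library in several forms (`modularFunctionFieldFullC K p`,
`laurentBaseChange K (modularFunctionFieldFull p)`, `modularFunctionFieldBar p`), which are equal as
fields of Laurent series but not by definition.  The structure `H9.CuspSpec K p F i z` collects the
facts about the cusps `i = ∞`, `z = 0` which are used, for a field `F` equal to `F_p`. -/

section Spec

variable {K : Type*} [Field K] {p : ℕ} [Fact p.Prime] {F : IntermediateField K (LaurentSeries K)}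
  {i z : Place K F}

/-- The cusps exist in every presentation (sections 3 and 4).  File `H9Spec`. -/
theorem exists_cusps (K : Type*) [Field K] [IsAlgClosed K] (p : ℕ) [Fact p.Prime] (hp0 : (p : K) ≠ 0)
    (F : IntermediateField K (LaurentSeries K)) (hF : F = modularFunctionFieldFullC K p) :
    ∃ i z : Place K F, H9.CuspSpec K p F i z :=
  H9.exists_cuspSpec K p hp0 F hF

/-- What `H9.CuspSpec` says: all places have degree `1`; the order of `f` at `∞` and the orders of `j`,
`j_p` at `0`; there are no other poles of `j` or `j_p`; and the divisor of the modular unit is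
`(p - 1)((∞) - (0))`.  (The other fields are: `F = F_p`; the involution of section 2, with `z = w • i`; and
the statement of `unit_is_power`.)  File `H9Spec`. -/
theorem cuspSpec_properties (S : H9.CuspSpec K p F i z) :
    (∀ v : Place K F, v.deg = 1) ∧ (∀ f : F, i.ord f = (f : LaurentSeries K).order) ∧
      (∀ x : F, (x : LaurentSeries K) = H66.J K 1 → z.ord x = -p) ∧
      (∀ x : F, (x : LaurentSeries K) = H66.J K p → z.ord x = -1) ∧ i ≠ z ∧
      (∀ (v : Place K F) (x : F), (x : LaurentSeries K) = H66.J K 1 ∨ (x : LaurentSeries K) = H66.J K p →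
        v.ord x < 0 → v = i ∨ v = z) ∧
      ∃ U : F, (U : LaurentSeries K) = H9.deltaRatio K p ∧ ∀ v : Place K F,
        v.ord U = (-((p : ℤ) - 1) • (Finsupp.single z 1 - Finsupp.single i 1 : Divisor K F)) v :=
  ⟨S.deg_eq, S.inf_ord, S.zero_J₁, S.zero_Jₚ, S.ne,
    fun v x h hv => h.elim (fun h => S.cusp v x h hv) fun h => S.cusp' v x h hv, S.ratio⟩

/-- The cuspidal class `c` (`S.cls`, the class of `(0) - (∞)`) is killed by `p - 1`.  File `H9Spec`. -/
theorem class_killed (S : H9.CuspSpec K p F i z) :
    S.cls = Pic0.mk ⟨Finsupp.single z 1 - Finsupp.single i 1, S.mem_degZero⟩ ∧ (p - 1) • S.cls = 0 :=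
  ⟨rfl, S.smul_cls_eq_zero⟩

/-- Over `ℚ̄`: if `m c = 0`, then `p - 1` divides `24 m` (`unit_is_power` and `dvd_24`).  File `H9Spec`. -/
theorem order_of_class {p : ℕ} [Fact p.Prime]
    {F : IntermediateField (AlgebraicClosure ℚ) (LaurentSeries (AlgebraicClosure ℚ))}
    {i z : Place (AlgebraicClosure ℚ) F} (S : H9.CuspSpec (AlgebraicClosure ℚ) p F i z) {m : ℕ}
    (h : m • S.cls = 0) : p - 1 ∣ 24 * m :=
  S.sub_one_dvd h

/-- **The cusps are rational**: they are distinguished by the orders of `j`, and `j` has rational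
coefficients; so `c` is rational.  File `H9JZero`. -/
theorem galois_fixes_cusps {p : ℕ} [Fact p.Prime]
    {i z : Place (AlgebraicClosure ℚ) (modularFunctionFieldBar p)}
    (S : H9.CuspSpec (AlgebraicClosure ℚ) p (modularFunctionFieldBar p) i z)
    (σ : AlgebraicClosure ℚ ≃ₐ[ℚ] AlgebraicClosure ℚ) :
    arithmeticGalois (modularFunctionFieldFull p) σ • i = i ∧
      arithmeticGalois (modularFunctionFieldFull p) σ • z = z ∧ σ • (S.cls : JZero p) = S.cls :=
  ⟨(S.smul_cusp σ).1, (S.smul_cusp σ).2, S.smul_cls σ⟩

end Spec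

end Fermat.Agent.Guide.CuspidalSteps
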