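import Mathlib

/-!
# Level one modular forms are spanned by forms with integral `q`-expansions
-/

set_option autoImplicit false

noncomputable section

open UpperHalfPlane ModularForm ModularFormClass MatrixGroups EisensteinSeries

namespace Fermat.Agent.H23

/-- A power series over `ℂ` with integral coefficients. -/
def IntPS (p : PowerSeries ℂ) : Prop := ∀ n, ∃ m : ℤ, p.coeff n = (m : ℂ)

lemma intPS_iff {p : PowerSeries ℂ} :
    IntPS p ↔ ∃ P : PowerSeries ℤ, p = P.map (Int.castRingHom ℂ) := by
  constructor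
  · intro h
    choose m hm using h
    refine ⟨PowerSeries.mk m, ?_⟩
    ext n
    simp [hm]
  · rintro ⟨P, rfl⟩ n
    exact ⟨P.coeff n, by simp⟩

lemma IntPS.mul {p q : PowerSeries ℂ} (hp : IntPS p) (hq : IntPS q) : IntPS (p * q) := by
  rw [intPS_iff] at *
  obtain ⟨P, rfl⟩ := hp
  obtain ⟨Q, rfl⟩ := hq
  exact ⟨P * Q, by simp⟩

lemma IntPS.add {p q : PowerSeries ℂ} (hp : IntPS p) (hq : IntPS q) : IntPS (p + q) := by
  rw [intPS_iff] at *
  obtain ⟨P, rfl⟩ := hp
  obtain ⟨Q, rfl⟩ := hq
  exact ⟨P + Q, by simp⟩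

lemma IntPS.sub {p q : PowerSeries ℂ} (hp : IntPS p) (hq : IntPS q) : IntPS (p - q) := by
  rw [intPS_iff] at *
  obtain ⟨P, rfl⟩ := hp
  obtain ⟨Q, rfl⟩ := hq
  exact ⟨P - Q, by simp⟩

lemma IntPS.one : IntPS (1 : PowerSeries ℂ) := by
  rw [intPS_iff]
  exact ⟨1, by simp⟩

lemma IntPS.zero : IntPS (0 : PowerSeries ℂ) := by
  rw [intPS_iff]
  exact ⟨0, by simp⟩

lemma IntPS.pow {p : PowerSeries ℂ} (hp : IntPS p) (n : ℕ) : IntPS (p ^ n) := by
  induction n with
  | zero => simpa using IntPS.one
  | succ n ih => rw [pow_succ]; exact ih.mul hp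

lemma intPS_E₄ : IntPS (qExpansion 1 E₄) := by
  intro n
  rw [E_qExpansion_coeff _ ⟨2, rfl⟩]
  rcases eq_or_ne n 0 with rfl | hn
  · exact ⟨1, by simp⟩
  · refine ⟨240 * (ArithmeticFunction.sigma 3 n : ℤ), ?_⟩
    norm_num [show bernoulli 4 = -1 / 30 by decide +kernel, hn]

lemma intPS_E₆ : IntPS (qExpansion 1 E₆) := by
  intro n
  rw [E_qExpansion_coeff _ ⟨3, rfl⟩]
  rcases eq_or_ne n 0 with rfl | hn
  · exact ⟨1, by simp⟩
  · refine ⟨-504 * (ArithmeticFunction.sigma 5 n : ℤ), ?_⟩
    norm_num [show bernoulli 6 = 1 / 42 by decide +kernel, hn]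

lemma qExpansion_disc :
    (1728 : ℂ) • qExpansion 1 CuspForm.discriminant =
      (qExpansion 1 E₄) ^ 3 - (qExpansion 1 E₆) ^ 2 := by
  rw [← ModularForm.qExpansion_smul one_pos one_mem_strictPeriods_SL,
    ← ModularForm.qExpansion_pow one_pos one_mem_strictPeriods_SL,
    ← ModularForm.qExpansion_pow one_pos one_mem_strictPeriods_SL,
    ← ModularForm.qExpansion_sub one_pos one_mem_strictPeriods_SL]
  congr 1
  ext z
  have := discriminant_eq_E₄_cube_sub_E₆_sq z
  simp only [Pi.smul_apply, Pi.sub_apply, coe_pow, Pi.pow_apply, smul_eq_mul,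
    CuspForm.coe_discriminant]
  rw [this]
  ring

lemma intPS_disc : IntPS ((1728 : ℂ) • qExpansion 1 CuspForm.discriminant) := by
  rw [qExpansion_disc]
  exact (intPS_E₄.pow 3).sub (intPS_E₆.pow 2)

/-- The set of level one modular forms with integral `q`-expansion. -/
def intForms (k : ℤ) : Set (ModularForm 𝒮ℒ k) := {F | IntPS (qExpansion 1 F)}

/-- The set of level one cusp forms with integral `q`-expansion. -/
def intCuspForms (k : ℤ) : Set (CuspForm 𝒮ℒ k) := {F | IntPS (qExpansion 1 F)}

lemma cusp_span_of (k : ℤ) (h : Submodule.span ℂ (intForms (k - 12)) = ⊤) :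
    Submodule.span ℂ (intCuspForms k) = ⊤ := by
  rw [eq_top_iff]
  intro F _
  have hF : CuspForm.discriminantEquiv F ∈ Submodule.span ℂ (intForms (k - 12)) := by
    rw [h]; trivial
  have h2 : CuspForm.discriminantEquiv.symm (CuspForm.discriminantEquiv F) ∈
      Submodule.span ℂ (intCuspForms k) := by
    refine Submodule.span_induction (p := fun G _ => CuspForm.discriminantEquiv.symm G ∈
      Submodule.span ℂ (intCuspForms k)) ?_ ?_ ?_ ?_ hF
    · intro G hG
      have : (1728 : ℂ) • CuspForm.discriminantEquiv.symm G ∈ intCuspForms k := by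
        show IntPS _
        have hG' : IntPS (qExpansion 1 G) := hG
        have h1 := intPS_disc.mul hG'
        rw [smul_mul_assoc, ← ModularForm.qExpansion_mul_coe one_pos one_mem_strictPeriods_SL] at h1
        rw [FunLike.coe_smul, ModularForm.qExpansion_smul one_pos one_mem_strictPeriods_SL]
        exact h1
      have h3 := Submodule.smul_mem _ ((1728 : ℂ)⁻¹) (Submodule.subset_span this)
      rwa [smul_smul, inv_mul_cancel₀ (by norm_num), one_smul] at h3
    · simp
    · intro x y _ _ hx hy
      rw [map_add]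
      exact Submodule.add_mem _ hx hy
    · intro a x _ hx
      rw [map_smul]
      exact Submodule.smul_mem _ _ hx
  rwa [LinearEquiv.symm_apply_apply] at h2

/-- A level one modular form with constant term `1` and integral `q`-expansion in every even
weight `k ≥ 4`. -/
lemma exists_intForm (k : ℤ) (hk : 4 ≤ k) (hk2 : Even k) :
    ∃ G : ModularForm 𝒮ℒ k, IntPS (qExpansion 1 G) ∧ (qExpansion 1 G).coeff 0 = 1 := by
  obtain ⟨a, b, hab⟩ : ∃ a b : ℕ, (a : ℤ) * 4 + (b : ℤ) * 6 = k := by
    obtain ⟨m, hm⟩ := hk2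
    rcases Int.even_or_odd m with ⟨l, hl⟩ | ⟨l, hl⟩
    · exact ⟨l.toNat, 0, by omega⟩
    · exact ⟨(l - 1).toNat, 1, by omega⟩
  refine ⟨ModularForm.mcast (by linarith) ((E₄.pow a).mul (E₆.pow b)), ?_, ?_⟩
  · rw [ModularForm.qExpansion_mcast, ModularForm.qExpansion_mul one_pos one_mem_strictPeriods_SL,
      ModularForm.qExpansion_pow one_pos one_mem_strictPeriods_SL,
      ModularForm.qExpansion_pow one_pos one_mem_strictPeriods_SL]
    exact (intPS_E₄.pow a).mul (intPS_E₆.pow b)
  · rw [ModularForm.qExpansion_mcast, ModularForm.qExpansion_mul one_pos one_mem_strictPeriods_SL,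
      ModularForm.qExpansion_pow one_pos one_mem_strictPeriods_SL,
      ModularForm.qExpansion_pow one_pos one_mem_strictPeriods_SL]
    have h4 := E_qExpansion_coeff_zero (k := 4) (by norm_num) ⟨2, rfl⟩
    have h6 := E_qExpansion_coeff_zero (k := 6) (by norm_num) ⟨3, rfl⟩
    rw [PowerSeries.coeff_zero_eq_constantCoeff_apply] at h4 h6 ⊢
    rw [map_mul, map_pow, map_pow, h4, h6]
    simp

lemma levelOne_span_of_odd {k : ℤ} (hk : Odd k) : Submodule.span ℂ (intForms k) = ⊤ := by
  rw [eq_top_iff]
  intro F _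
  rw [levelOne_odd_weight_eq_zero hk F]
  exact Submodule.zero_mem _

lemma levelOne_span_of_neg {k : ℤ} (hk : k < 0) : Submodule.span ℂ (intForms k) = ⊤ := by
  rw [eq_top_iff]
  intro F _
  rw [rank_zero_iff_forall_zero.mp (levelOne_neg_weight_rank_zero hk) F]
  exact Submodule.zero_mem _

/-- Level one modular forms are spanned by forms with integral `q`-expansions. -/
theorem levelOne_span (k : ℤ) : Submodule.span ℂ (intForms k) = ⊤ := by
  by_contra hcon
  -- minimal counterexample
  have hk0 : 0 ≤ k := by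
    by_contra h
    exact hcon (levelOne_span_of_neg (not_le.mp h))
  induction hn : k.toNat using Nat.strong_induction_on generalizing k with
  | h n ih =>
  have hkn : k = n := by omega
  rcases Int.even_or_odd k with hke | hko
  swap
  · exact hcon (levelOne_span_of_odd hko)
  have h12 : Submodule.span ℂ (intForms (k - 12)) = ⊤ := by
    by_contra h
    have hk12 : 0 ≤ k - 12 := by
      by_contra h'
      exact h (levelOne_span_of_neg (not_le.mp h'))
    exact ih (k - 12).toNat (by omega) (k - 12) h hk12 rfl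
  have hcusp := cusp_span_of k h12
  rcases lt_or_ge k 4 with hk4 | hk4
  · have : k = 0 ∨ k = 2 := by
      obtain ⟨m, hm⟩ := hke
      omega
    rcases this with rfl | rfl
    · apply hcon
      rw [eq_top_iff]
      intro F _
      obtain ⟨c, hc⟩ := levelOne_weight_zero_const F
      have : F = c • (1 : ModularForm 𝒮ℒ 0) := by
        ext z
        simp [hc]
      rw [this]
      refine Submodule.smul_mem _ _ (Submodule.subset_span ?_)
      show IntPS _
      rw [ModularForm.qExpansion_one]
      exact IntPS.one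
    · apply hcon
      rw [eq_top_iff]
      intro F _
      rw [rank_zero_iff_forall_zero.mp levelOne_weight_two_rank_zero F]
      exact Submodule.zero_mem _
  · apply hcon
    rw [eq_top_iff]
    intro F _
    obtain ⟨G, hG, hG0⟩ := exists_intForm k hk4 hke
    obtain ⟨H, hH⟩ := sub_smul_isCuspForm F G hG0
    have hmem : CuspForm.toModularFormₗ H ∈ Submodule.span ℂ (intForms k) := by
      have hH' : H ∈ Submodule.span ℂ (intCuspForms k) := by rw [hcusp]; trivial
      refine Submodule.span_induction (p := fun H _ => CuspForm.toModularFormₗ H ∈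
        Submodule.span ℂ (intForms k)) ?_ ?_ ?_ ?_ hH'
      · intro x hx
        exact Submodule.subset_span hx
      · simp
      · intro x y _ _ hx hy
        rw [map_add]
        exact Submodule.add_mem _ hx hy
      · intro a x _ hx
        rw [map_smul]
        exact Submodule.smul_mem _ _ hx
    rw [hH] at hmem
    have h2 := Submodule.add_mem _ hmem
      (Submodule.smul_mem _ ((qExpansion 1 F).coeff 0) (Submodule.subset_span (s := intForms k) hG))
    simpa using h2

/-- Level one cusp forms are spanned by forms with integral `q`-expansions. -/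
theorem levelOne_cusp_span (k : ℤ) : Submodule.span ℂ (intCuspForms k) = ⊤ :=
  cusp_span_of k (levelOne_span (k - 12))

/-- Conjugation of the coefficients of a level one modular form. -/
theorem levelOne_conj (σ : ℂ →+* ℂ) {k : ℤ} (G : ModularForm 𝒮ℒ k) :
    ∃ G' : ModularForm 𝒮ℒ k, qExpansion 1 G' = (qExpansion 1 G).map σ := by
  have hG : G ∈ Submodule.span ℂ (intForms k) := by rw [levelOne_span]; trivial
  refine Submodule.span_induction (p := fun (G : ModularForm 𝒮ℒ k) _ => ∃ G' : ModularForm 𝒮ℒ k,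
    qExpansion 1 G' = (qExpansion 1 G).map σ) ?_ ?_ ?_ ?_ hG
  · intro x hx
    refine ⟨x, ?_⟩
    ext n
    obtain ⟨m, hm⟩ := hx n
    rw [PowerSeries.coeff_map, hm]
    simp
  · refine ⟨0, ?_⟩
    rw [FunLike.coe_zero, qExpansion_zero, map_zero]
  · rintro x y _ _ ⟨x', hx⟩ ⟨y', hy⟩
    refine ⟨x' + y', ?_⟩
    rw [FunLike.coe_add, FunLike.coe_add,
      ModularForm.qExpansion_add one_pos one_mem_strictPeriods_SL,
      ModularForm.qExpansion_add one_pos one_mem_strictPeriods_SL, hx, hy, map_add]
  · rintro a x _ ⟨x', hx⟩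
    refine ⟨σ a • x', ?_⟩
    rw [FunLike.coe_smul, FunLike.coe_smul,
      ModularForm.qExpansion_smul one_pos one_mem_strictPeriods_SL,
      ModularForm.qExpansion_smul one_pos one_mem_strictPeriods_SL, hx]
    ext n
    simp

/-- Conjugation of the coefficients of a level one cusp form. -/
theorem levelOne_cusp_conj (σ : ℂ →+* ℂ) {k : ℤ} (G : CuspForm 𝒮ℒ k) :
    ∃ G' : CuspForm 𝒮ℒ k, qExpansion 1 G' = (qExpansion 1 G).map σ := by
  have hG : G ∈ Submodule.span ℂ (intCuspForms k) := by rw [levelOne_cusp_span]; trivial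
  refine Submodule.span_induction (p := fun (G : CuspForm 𝒮ℒ k) _ => ∃ G' : CuspForm 𝒮ℒ k,
    qExpansion 1 G' = (qExpansion 1 G).map σ) ?_ ?_ ?_ ?_ hG
  · intro x hx
    refine ⟨x, ?_⟩
    ext n
    obtain ⟨m, hm⟩ := hx n
    rw [PowerSeries.coeff_map, hm]
    simp
  · refine ⟨0, ?_⟩
    rw [FunLike.coe_zero, qExpansion_zero, map_zero]
  · rintro x y _ _ ⟨x', hx⟩ ⟨y', hy⟩
    refine ⟨x' + y', ?_⟩
    rw [FunLike.coe_add, FunLike.coe_add,
      ModularForm.qExpansion_add one_pos one_mem_strictPeriods_SL,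
      ModularForm.qExpansion_add one_pos one_mem_strictPeriods_SL, hx, hy, map_add]
  · rintro a x _ ⟨x', hx⟩
    refine ⟨σ a • x', ?_⟩
    rw [FunLike.coe_smul, FunLike.coe_smul,
      ModularForm.qExpansion_smul one_pos one_mem_strictPeriods_SL,
      ModularForm.qExpansion_smul one_pos one_mem_strictPeriods_SL, hx]
    ext n
    simp

end Fermat.Agent.H23
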