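import Mathlib
import Fermat.Agent.H23LevelOne

/-!
# Bounded denominators
-/

set_option autoImplicit false

noncomputable section

namespace Fermat.Agent.H23

/-- A rational number which is almost integral over `ℤ` is an integer. -/
lemma rat_int_of_almost {x : ℚ} {a : ℤ} (ha : a ≠ 0) (h : ∀ m : ℕ, ∃ z : ℤ, (a : ℚ) * x ^ m = z) :
    ∃ z : ℤ, x = z := by
  have h1 : IsAlmostIntegral ℤ x := by
    refine ⟨a, mem_nonZeroDivisors_of_ne_zero ha, fun m => ?_⟩
    obtain ⟨z, hz⟩ := h m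
    exact ⟨z, by simp [hz]⟩
  have h2 : IsIntegral ℤ x := h1.isIntegral
  obtain ⟨z, hz⟩ := IsIntegrallyClosed.isIntegral_iff.mp h2
  exact ⟨z, by simpa using hz.symm⟩

/-- `ℤ⟦X⟧` is completely integrally closed in `ℚ⟦X⟧`. -/
lemma int_of_almostIntegral {g : PowerSeries ℚ} (h : IsAlmostIntegral (PowerSeries ℤ) g) (n : ℕ) :
    ∃ z : ℤ, g.coeff n = z := by
  induction n using Nat.strong_induction_on with
  | h n ih =>
  -- truncated part
  have hp : ∃ p : PowerSeries ℤ, ∀ i, (i < n → (p.coeff i : ℚ) = g.coeff i) ∧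
      (n ≤ i → p.coeff i = 0) := by
    classical
    refine ⟨PowerSeries.mk fun i => if hi : i < n then (ih i hi).choose else 0, fun i => ⟨?_, ?_⟩⟩
    · intro hi
      rw [PowerSeries.coeff_mk, dif_pos hi]
      exact (ih i hi).choose_spec.symm
    · intro hi
      rw [PowerSeries.coeff_mk, dif_neg (not_lt.mpr hi)]
  obtain ⟨p, hp⟩ := hp
  let P : PowerSeries ℚ := algebraMap (PowerSeries ℤ) (PowerSeries ℚ) p
  have hP : ∀ i, P.coeff i = (p.coeff i : ℚ) := fun i => by
    simp [P, PowerSeries.algebraMap_apply'']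
  have hg1 : IsAlmostIntegral (PowerSeries ℤ) (g - P) :=
    (completeIntegralClosure (PowerSeries ℤ) (PowerSeries ℚ)).sub_mem h
      ((completeIntegralClosure (PowerSeries ℤ) (PowerSeries ℚ)).algebraMap_mem p)
  obtain ⟨r, hr, hr'⟩ := hg1
  have hr0 : r ≠ 0 := nonZeroDivisors.ne_zero hr
  set g2 : PowerSeries ℚ := PowerSeries.mk fun i => g.coeff (i + n) with hg2
  have hgX : g - P = PowerSeries.X ^ n * g2 := by
    ext i
    rw [PowerSeries.coeff_X_pow_mul', map_sub, hP]
    split_ifs with hi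
    · rw [(hp i).2 hi, hg2, PowerSeries.coeff_mk, Nat.sub_add_cancel hi]
      simp
    · rw [(hp i).1 (not_le.mp hi), sub_self]
  apply rat_int_of_almost (a := r.coeff r.order.toNat) (PowerSeries.coeff_order hr0)
  intro m
  obtain ⟨s, hs⟩ := hr' m
  refine ⟨s.coeff (r.order.toNat + n * m), ?_⟩
  have h1 := congrArg (PowerSeries.coeff (r.order.toNat + n * m)) hs
  rw [Algebra.smul_def, hgX, mul_pow, ← pow_mul, PowerSeries.algebraMap_apply'',
    PowerSeries.algebraMap_apply'', PowerSeries.coeff_map] at h1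
  simp only [eq_intCast] at h1
  rw [h1]
  have hmap : PowerSeries.map (algebraMap ℤ ℚ) r =
      PowerSeries.X ^ r.order.toNat * PowerSeries.map (algebraMap ℤ ℚ) r.divXPowOrder := by
    conv_lhs => rw [← PowerSeries.X_pow_order_mul_divXPowOrder (f := r)]
    rw [map_mul, map_pow, PowerSeries.map_X]
  rw [hmap,
    show ∀ a b c d : PowerSeries ℚ, a * b * (c * d) = (a * c) * (b * d) from fun a b c d => by ring,
    ← pow_add, PowerSeries.coeff_X_pow_mul', if_pos le_rfl, Nat.sub_self,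
    PowerSeries.coeff_zero_eq_constantCoeff_apply, map_mul, map_pow]
  congr 1
  · rw [← PowerSeries.coeff_zero_eq_constantCoeff_apply, PowerSeries.coeff_map]
    simp
  · rw [← PowerSeries.coeff_zero_eq_constantCoeff_apply, hg2, PowerSeries.coeff_mk, zero_add]

/-- The complex span of the power series with integral coefficients. -/
def SpanInt : Submodule ℂ (PowerSeries ℂ) := Submodule.span ℂ {p | IntPS p}

/-- Apply a `ℚ`-linear functional coefficientwise. -/
def applyLin (l : ℂ →ₗ[ℚ] ℚ) (p : PowerSeries ℂ) : PowerSeries ℚ :=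
  PowerSeries.mk fun n => l (p.coeff n)

/-- A power series over `ℚ` with bounded denominators. -/
def BddDen (p : PowerSeries ℚ) : Prop :=
  ∃ D : ℤ, D ≠ 0 ∧ ∃ P : PowerSeries ℤ, (D : ℚ) • p = algebraMap (PowerSeries ℤ) (PowerSeries ℚ) P

lemma bddDen_iff {p : PowerSeries ℚ} :
    BddDen p ↔ ∃ D : ℤ, D ≠ 0 ∧ ∀ n, ∃ z : ℤ, (D : ℚ) * p.coeff n = z := by
  constructor
  · rintro ⟨D, hD, P, hP⟩
    refine ⟨D, hD, fun n => ⟨P.coeff n, ?_⟩⟩
    have := congrArg (PowerSeries.coeff n) hP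
    rw [PowerSeries.algebraMap_apply'', PowerSeries.coeff_map] at this
    simpa using this
  · rintro ⟨D, hD, h⟩
    choose z hz using h
    refine ⟨D, hD, PowerSeries.mk z, ?_⟩
    ext n
    rw [PowerSeries.algebraMap_apply'', PowerSeries.coeff_map]
    simp [hz]

lemma bddDen_applyLin {p : PowerSeries ℂ} (hp : p ∈ SpanInt) (l : ℂ →ₗ[ℚ] ℚ) :
    BddDen (applyLin l p) := by
  rw [bddDen_iff]
  have key : ∀ l : ℂ →ₗ[ℚ] ℚ, ∃ D : ℤ, D ≠ 0 ∧ ∀ n, ∃ z : ℤ, (D : ℚ) * l (p.coeff n) = z := by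
    refine Submodule.span_induction (p := fun p _ => ∀ l : ℂ →ₗ[ℚ] ℚ, ∃ D : ℤ, D ≠ 0 ∧
      ∀ n, ∃ z : ℤ, (D : ℚ) * l (p.coeff n) = z) ?_ ?_ ?_ ?_ hp
    · intro p hp l
      refine ⟨(l 1).den, by exact_mod_cast (l 1).den_nz, fun n => ?_⟩
      obtain ⟨m, hm⟩ := hp n
      refine ⟨m * (l 1).num, ?_⟩
      have h1 : l (m : ℂ) = m * l 1 := by
        have : (m : ℂ) = (m : ℚ) • (1 : ℂ) := by
          rw [Algebra.smul_def]; simp
        rw [this, map_smul, smul_eq_mul]
      rw [hm, h1]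
      have h2 : ((l 1).den : ℚ) * l 1 = (l 1).num := by
        rw [mul_comm]; exact Rat.mul_den_eq_num (l 1)
      push_cast
      calc ((l 1).den : ℚ) * (m * l 1) = m * ((l 1).den * l 1) := by ring
        _ = _ := by rw [h2]
    · intro l
      exact ⟨1, one_ne_zero, fun n => ⟨0, by simp⟩⟩
    · intro x y _ _ hx hy l
      obtain ⟨D, hD, h⟩ := hx l
      obtain ⟨D', hD', h'⟩ := hy l
      refine ⟨D * D', mul_ne_zero hD hD', fun n => ?_⟩
      obtain ⟨z, hz⟩ := h n
      obtain ⟨z', hz'⟩ := h' n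
      refine ⟨D' * z + D * z', ?_⟩
      rw [map_add, map_add]
      push_cast
      rw [← hz, ← hz']
      ring
    · intro a x _ hx l
      obtain ⟨D, hD, h⟩ := hx (l ∘ₗ (LinearMap.mulLeft ℚ a))
      refine ⟨D, hD, fun n => ?_⟩
      obtain ⟨z, hz⟩ := h n
      exact ⟨z, by simpa using hz⟩
  exact key l |>.imp fun D h => ⟨h.1, fun n => by simpa [applyLin] using h.2 n⟩

lemma applyLin_mul (l : ℂ →ₗ[ℚ] ℚ) (A : PowerSeries ℂ) (f : PowerSeries ℚ) :
    applyLin l (A * f.map (algebraMap ℚ ℂ)) = applyLin l A * f := by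
  ext n
  rw [applyLin, PowerSeries.coeff_mk, PowerSeries.coeff_mul, PowerSeries.coeff_mul, map_sum]
  refine Finset.sum_congr rfl fun ij _ => ?_
  rw [PowerSeries.coeff_map, mul_comm, ← Algebra.smul_def, map_smul, smul_eq_mul, mul_comm,
    applyLin, PowerSeries.coeff_mk]

lemma applyLin_add (l : ℂ →ₗ[ℚ] ℚ) (A B : PowerSeries ℂ) :
    applyLin l (A + B) = applyLin l A + applyLin l B := by
  ext n
  simp [applyLin]

lemma applyLin_sum (l : ℂ →ₗ[ℚ] ℚ) {ι : Type*} (s : Finset ι) (A : ι → PowerSeries ℂ) :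
    applyLin l (∑ i ∈ s, A i) = ∑ i ∈ s, applyLin l (A i) := by
  ext n
  simp [applyLin]

/-- There is a `ℚ`-linear functional on `ℂ` not vanishing at a given nonzero number. -/
lemma exists_lin {x : ℂ} (hx : x ≠ 0) : ∃ l : ℂ →ₗ[ℚ] ℚ, l x = 1 := by
  have h := (Module.forall_dual_apply_eq_zero_iff ℚ x).not.mpr hx
  push Not at h
  obtain ⟨f, hf⟩ := h
  exact ⟨(f x)⁻¹ • f, by simp [hf]⟩

/-- A power series with rational coefficients, which is a quotient `B / A` of elements of the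
complex span of the integral power series, and which is integral over that span, has bounded
denominators. -/
theorem bddDen_of {f : PowerSeries ℚ} {A B : PowerSeries ℂ} (hA0 : A ≠ 0)
    (hA : A ∈ SpanInt) (hB : B ∈ SpanInt) (hAB : A * f.map (algebraMap ℚ ℂ) = B)
    {n : ℕ} {c : ℕ → PowerSeries ℂ} (hc : ∀ i, c i ∈ SpanInt)
    (h : (f.map (algebraMap ℚ ℂ)) ^ n +
      ∑ i ∈ Finset.Icc 1 n, c i * (f.map (algebraMap ℚ ℂ)) ^ (n - i) = 0) :
    BddDen f := by
  -- the relation `A * f = B` over `ℚ`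
  obtain ⟨m, hm⟩ : ∃ m, A.coeff m ≠ 0 := by
    by_contra hcon
    push Not at hcon
    exact hA0 (PowerSeries.ext fun n => by simpa using hcon n)
  obtain ⟨l, hl⟩ := exists_lin hm
  have hA' : applyLin l A ≠ 0 := by
    intro h0
    have := congrArg (PowerSeries.coeff m) h0
    simp [applyLin, hl] at this
  obtain ⟨DA, hDA, PA, hPA⟩ := bddDen_applyLin hA l
  obtain ⟨DB, hDB, PB, hPB⟩ := bddDen_applyLin hB l
  have hAB' : applyLin l A * f = applyLin l B := by rw [← applyLin_mul, hAB]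
  have hrel : algebraMap (PowerSeries ℤ) (PowerSeries ℚ) (DB • PA) * f =
      algebraMap (PowerSeries ℤ) (PowerSeries ℚ) (DA • PB) := by
    rw [map_zsmul, map_zsmul, ← hPA, ← hPB, ← hAB', Int.cast_smul_eq_zsmul,
      Int.cast_smul_eq_zsmul]
    simp only [zsmul_eq_mul]
    ring
  have hPA0 : DB • PA ≠ 0 := by
    intro h0
    have h0' : PA = 0 := by
      ext k
      have := congrArg (PowerSeries.coeff k) h0
      rw [map_zsmul, map_zero, smul_eq_zero] at this
      simpa [hDB] using this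
    subst h0'
    rw [map_zero, smul_eq_zero] at hPA
    rcases hPA with h0 | h0
    · exact hDA (by exact_mod_cast h0)
    · exact hA' h0
  -- the integral equation over `ℚ`
  obtain ⟨l1, hl1⟩ := exists_lin (one_ne_zero (α := ℂ))
  have hone : applyLin l1 1 = 1 := by
    ext n
    rw [applyLin, PowerSeries.coeff_mk, PowerSeries.coeff_one, PowerSeries.coeff_one]
    split_ifs <;> simp [hl1]
  have hpow : ∀ k, applyLin l1 ((f.map (algebraMap ℚ ℂ)) ^ k) = f ^ k := by
    intro k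
    rw [← map_pow, ← one_mul (PowerSeries.map (algebraMap ℚ ℂ) (f ^ k)), applyLin_mul, hone,
      one_mul]
  have hint : f ^ n + ∑ i ∈ Finset.Icc 1 n, applyLin l1 (c i) * f ^ (n - i) = 0 := by
    have h1 := congrArg (applyLin l1) h
    rw [applyLin_add, applyLin_sum, hpow] at h1
    have h2 : applyLin l1 0 = 0 := by ext n; simp [applyLin]
    rw [h2] at h1
    rw [← h1]
    congr 1
    refine Finset.sum_congr rfl fun i _ => ?_
    rw [← map_pow, applyLin_mul]
  have hden : ∀ i, ∃ D : ℤ, D ≠ 0 ∧ ∃ P : PowerSeries ℤ,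
      (D : ℚ) • applyLin l1 (c i) = algebraMap (PowerSeries ℤ) (PowerSeries ℚ) P :=
    fun i => bddDen_applyLin (hc i) l1
  choose Di hDi Pi hPi using hden
  let D : ℤ := ∏ i ∈ Finset.Icc 1 n, Di i
  have hD : D ≠ 0 := Finset.prod_ne_zero_iff.mpr fun i _ => hDi i
  have hQ : ∀ i ∈ Finset.Icc 1 n, ∃ Q : PowerSeries ℤ,
      (D : PowerSeries ℚ) * applyLin l1 (c i) = algebraMap (PowerSeries ℤ) (PowerSeries ℚ) Q := by
    intro i hi
    refine ⟨(∏ j ∈ (Finset.Icc 1 n).erase i, Di j) • Pi i, ?_⟩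
    rw [map_zsmul, ← hPi, Int.cast_smul_eq_zsmul, zsmul_eq_mul, zsmul_eq_mul, ← mul_assoc]
    congr 1
    rw [← Int.cast_mul, mul_comm, Finset.mul_prod_erase _ _ hi]
  have hQ' : ∀ i, ∃ Q : PowerSeries ℤ, i ∈ Finset.Icc 1 n →
      (D : PowerSeries ℚ) * applyLin l1 (c i) = algebraMap (PowerSeries ℤ) (PowerSeries ℚ) Q := by
    intro i
    by_cases hi : i ∈ Finset.Icc 1 n
    · obtain ⟨Q, hQ⟩ := hQ i hi
      exact ⟨Q, fun _ => hQ⟩
    · exact ⟨0, fun h => absurd h hi⟩
  choose Q hQ using hQ'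
  have hn : 0 < n := by
    rcases Nat.eq_zero_or_pos n with rfl | hn
    · simp at hint
    · exact hn
  let g : PowerSeries ℚ := (D : PowerSeries ℚ) * f
  have hg : IsIntegral (PowerSeries ℤ) g := by
    refine ⟨Polynomial.X ^ n + ∑ i ∈ Finset.Icc 1 n,
      Polynomial.C ((D : PowerSeries ℤ) ^ (i - 1) * Q i) * Polynomial.X ^ (n - i), ?_, ?_⟩
    · apply Polynomial.monic_X_pow_add
      refine (Polynomial.degree_sum_le _ _).trans_lt ?_
      rw [Finset.sup_lt_iff (by exact_mod_cast WithBot.bot_lt_coe n)]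
      intro i hi
      rw [Finset.mem_Icc] at hi
      refine (Polynomial.degree_C_mul_X_pow_le _ _).trans_lt ?_
      exact_mod_cast (by omega : n - i < n)
    · rw [Polynomial.eval₂_add, Polynomial.eval₂_X_pow, Polynomial.eval₂_finsetSum]
      have h1 : ∀ i ∈ Finset.Icc 1 n, Polynomial.eval₂ (algebraMap (PowerSeries ℤ) (PowerSeries ℚ)) g
          (Polynomial.C ((D : PowerSeries ℤ) ^ (i - 1) * Q i) * Polynomial.X ^ (n - i)) =
          (D : PowerSeries ℚ) ^ n * (applyLin l1 (c i) * f ^ (n - i)) := by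
        intro i hi
        rw [Polynomial.eval₂_mul, Polynomial.eval₂_C, Polynomial.eval₂_X_pow, map_mul, ← hQ i hi,
          map_pow, map_intCast]
        rw [Finset.mem_Icc] at hi
        have h2 : (D : PowerSeries ℚ) ^ n = (D : PowerSeries ℚ) ^ (i - 1) * (D : PowerSeries ℚ) *
            (D : PowerSeries ℚ) ^ (n - i) := by
          rw [← pow_succ, ← pow_add]
          congr 1
          omega
        rw [h2]
        simp only [g, mul_pow]
        ring
      rw [Finset.sum_congr rfl h1, ← Finset.mul_sum]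
      have h3 : g ^ n = (D : PowerSeries ℚ) ^ n * f ^ n := by simp only [g, mul_pow]
      rw [h3, ← mul_add, hint, mul_zero]
  have hg2 : IsAlmostIntegral (PowerSeries ℤ) g := by
    refine hg.isAlmostIntegral_of_exists_smul_mem_range
      ⟨DB • PA, mem_nonZeroDivisors_of_ne_zero hPA0, (D : PowerSeries ℤ) * (DA • PB), ?_⟩
    rw [map_mul, ← hrel, Algebra.smul_def, map_intCast]
    simp only [g]
    ring
  rw [bddDen_iff]
  refine ⟨D, hD, fun k => ?_⟩
  obtain ⟨z, hz⟩ := int_of_almostIntegral hg2 k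
  refine ⟨z, ?_⟩
  rw [← hz]
  have hg' : g = D • f := (zsmul_eq_mul _ _).symm
  rw [hg', map_zsmul, zsmul_eq_mul]

end Fermat.Agent.H23
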