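import Mathlib

/-!
# Descent from `ℂ` to `ℚ` by ring endomorphisms of `ℂ`
-/

set_option autoImplicit false

noncomputable section

namespace Fermat.Agent.H23

open Polynomial

/-- Extension of embeddings into an algebraically closed field along algebraic extensions. -/
lemma exists_ringHom_extend {R K L : Type*} [CommRing R] [IsDomain R] [Field K] [Field L]
    [IsAlgClosed L] (i : R →+* K) (hi : Function.Injective i)
    (halg : ∀ x : K, ∃ p : R[X], p ≠ 0 ∧ p.eval₂ i x = 0)
    (φ : R →+* L) (hφ : Function.Injective φ) : ∃ σ : K →+* L, ∀ r, σ (i r) = φ r := by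
  let := i.toAlgebra
  let := φ.toAlgebra
  have : FaithfulSMul R K := (faithfulSMul_iff_algebraMap_injective R K).mpr hi
  have : FaithfulSMul R L := (faithfulSMul_iff_algebraMap_injective R L).mpr hφ
  have : Algebra.IsAlgebraic R K := ⟨fun x => by
    obtain ⟨p, hp, hpx⟩ := halg x
    exact ⟨p, hp, by rw [Polynomial.aeval_def]; exact hpx⟩⟩
  let s : K →ₐ[R] L := IsAlgClosed.lift
  exact ⟨s.toRingHom, fun r => s.commutes r⟩

lemma exists_ringHom_of_basis {F : Type*} {K : Type*} [Field F] [Field K] [IsAlgClosed K]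
    [Algebra F K] {B : Set K} (hB : IsTranscendenceBasis F ((↑) : B → K))
    (φ : MvPolynomial B F →+* K) (hφ : Function.Injective φ) :
    ∃ σ : K →+* K, ∀ r, σ (MvPolynomial.aeval ((↑) : B → K) r) = φ r := by
  have hinj : Function.Injective (MvPolynomial.aeval (R := F) ((↑) : B → K)) := hB.1
  refine exists_ringHom_extend (MvPolynomial.aeval (R := F) ((↑) : B → K)).toRingHom hinj ?_ φ hφ
  intro x
  have halg := hB.isAlgebraic
  obtain ⟨p, hp, hpx⟩ := halg.1 x
  let e := hB.1.aevalEquiv
  refine ⟨p.map e.symm.toRingHom, ?_, ?_⟩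
  · intro h
    apply hp
    have := Polynomial.map_injective e.symm.toRingHom e.symm.injective
    apply this
    rw [h, Polynomial.map_zero]
  · rw [Polynomial.eval₂_map]
    rw [Polynomial.aeval_def] at hpx
    rw [← hpx]
    congr 1
    ext a
    show MvPolynomial.aeval ((↑) : B → K) (e.symm a) = (a : K)
    have h2 : e (e.symm a) = a := e.apply_symm_apply a
    conv_rhs => rw [← h2]
    exact (AlgebraicIndependent.algebraMap_aevalEquiv hB.1 _).symm

/-- A complex number moved by no ring endomorphism of `ℂ` is rational. -/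
theorem exists_rat_of_forall_ringHom {z : ℂ} (hz : ∀ σ : ℂ →+* ℂ, σ z = z) :
    ∃ q : ℚ, z = (q : ℂ) := by
  by_cases htr : Transcendental ℚ z
  · exfalso
    have hind : AlgebraicIndepOn ℚ id ({z} : Set ℂ) := by
      rw [AlgebraicIndepOn, algebraicIndependent_singleton_iff (⟨z, rfl⟩ : ({z} : Set ℂ))]
      exact htr
    obtain ⟨B, hzB, hB⟩ := exists_isTranscendenceBasis_superset hind
    have hzB' : z ∈ B := hzB rfl
    let sh : MvPolynomial B ℚ →ₐ[ℚ] MvPolynomial B ℚ :=
      MvPolynomial.aeval (fun b => MvPolynomial.X b + 1)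
    let sh' : MvPolynomial B ℚ →ₐ[ℚ] MvPolynomial B ℚ :=
      MvPolynomial.aeval (fun b => MvPolynomial.X b - 1)
    have hsh : Function.Injective sh := by
      have : sh'.comp sh = AlgHom.id ℚ _ := by
        ext b
        simp [sh, sh']
      intro a b hab
      have h1 := congrArg sh' hab
      rw [← AlgHom.comp_apply, ← AlgHom.comp_apply, this] at h1
      simpa using h1
    have hinj : Function.Injective (MvPolynomial.aeval (R := ℚ) ((↑) : B → ℂ)) := hB.1
    obtain ⟨σ, hσ⟩ := exists_ringHom_of_basis hB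
      (((MvPolynomial.aeval (R := ℚ) ((↑) : B → ℂ)).comp sh).toRingHom) (hinj.comp hsh)
    have h1 := hσ (MvPolynomial.X ⟨z, hzB'⟩)
    have h2 := hz σ
    simp [sh] at h1
    rw [h2] at h1
    exact one_ne_zero (left_eq_add.mp h1)
  · rw [Transcendental, not_not] at htr
    let S := algebraicClosure ℚ ℂ
    have : IsAlgClosure ℚ S := algebraicClosure.isAlgClosure ℚ ℂ
    have : IsGalois ℚ S := IsAlgClosure.isGalois ℚ S
    let z' : S := ⟨z, mem_algebraicClosure_iff.mpr htr⟩
    have hfix : ∀ τ : S ≃ₐ[ℚ] S, τ z' = z' := by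
      intro τ
      obtain ⟨B, hB⟩ := exists_isTranscendenceBasis S ℂ
      have hinj : Function.Injective (MvPolynomial.aeval (R := S) ((↑) : B → ℂ)) := hB.1
      obtain ⟨σ, hσ⟩ := exists_ringHom_of_basis hB
        (((MvPolynomial.aeval (R := S) ((↑) : B → ℂ)).toRingHom).comp
          (MvPolynomial.map (τ : S →+* S))) (by
            rw [RingHom.coe_comp]
            exact hinj.comp (MvPolynomial.map_injective _ τ.injective))
      have h1 := hσ (MvPolynomial.C z')
      simp only [MvPolynomial.aeval_C, RingHom.comp_apply, MvPolynomial.map_C] at h1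
      have h2 : σ z = (τ z' : ℂ) := by
        simpa [z', S] using h1
      rw [hz σ] at h2
      exact Subtype.ext h2.symm
    have : z' ∈ (⊥ : IntermediateField ℚ S) := (InfiniteGalois.mem_bot_iff_fixed z').mpr hfix
    rw [IntermediateField.mem_bot] at this
    obtain ⟨q, hq⟩ := this
    refine ⟨q, ?_⟩
    have := congrArg (Subtype.val) hq
    simpa [z'] using this.symm

/-- Let `W` be a finite-dimensional complex vector space with a jointly injective family of
functionals `c i`, such that for every ring endomorphism `σ` of `ℂ` and `w : W` there is `w' : W`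
with `c i w' = σ (c i w)` for all `i`.  Then `W` is spanned by the vectors all of whose
coordinates `c i w` are rational. -/
theorem descent {W : Type*} [AddCommGroup W] [Module ℂ W] [FiniteDimensional ℂ W]
    {ι : Type*} (c : ι → W →ₗ[ℂ] ℂ) (hc : ∀ w, (∀ i, c i w = 0) → w = 0)
    (hσ : ∀ (σ : ℂ →+* ℂ) (w : W), ∃ w' : W, ∀ i, c i w' = σ (c i w)) :
    Submodule.span ℂ {w : W | ∀ i, ∃ q : ℚ, c i w = (q : ℂ)} = ⊤ := by
  classical
  have hspan : Submodule.span ℂ (Set.range c) = ⊤ := by
    have h0 : (Submodule.span ℂ (Set.range c)).dualCoannihilator = ⊥ := by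
      rw [eq_bot_iff]
      intro w hw
      rw [← SetLike.mem_coe, Submodule.coe_dualCoannihilator_span] at hw
      exact hc w fun i => hw (c i) ⟨i, rfl⟩
    have h := Subspace.dualCoannihilator_dualAnnihilator_eq
      (W := (Submodule.span ℂ (Set.range c) : Submodule ℂ (Module.Dual ℂ W)))
    rw [h0, Submodule.dualAnnihilator_bot] at h
    exact h.symm
  obtain ⟨κ, a, ha, hsp, hli⟩ := exists_linearIndependent' ℂ c
  let b : Module.Basis κ ℂ (Module.Dual ℂ W) := Module.Basis.mk hli (by rw [hsp, hspan])
  have : Finite κ := Module.Finite.finite_basis b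
  let b' : Module.Basis κ ℂ W := b.dualBasis.map (Module.evalEquiv ℂ W).symm
  have hb : ∀ i, b i = c (a i) := fun i => by simp [b]
  have hb' : ∀ i j, c (a i) (b' j) = if i = j then 1 else 0 := by
    intro i j
    rw [← hb, ← Module.Basis.dualBasis_apply_self b j i, Module.Basis.map_apply]
    exact Module.apply_evalEquiv_symm_apply ℂ W (b i) (b.dualBasis j)
  have hinj : ∀ w w' : W, (∀ i : κ, c (a i) w = c (a i) w') → w = w' := by
    intro w w' h
    rw [← sub_eq_zero, ← Module.forall_dual_apply_eq_zero_iff ℂ]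
    intro φ
    have hφ : φ ∈ Submodule.span ℂ (Set.range b) := by rw [b.span_eq]; trivial
    refine Submodule.span_induction (p := fun φ _ => φ (w - w') = 0) ?_ ?_ ?_ ?_ hφ
    · rintro _ ⟨i, rfl⟩
      rw [hb, map_sub, h i, sub_self]
    · simp
    · intro x y _ _ hx hy
      rw [LinearMap.add_apply, hx, hy, add_zero]
    · intro r x _ hx
      rw [LinearMap.smul_apply, hx, smul_zero]
  rw [eq_top_iff, ← b'.span_eq]
  apply Submodule.span_mono
  rintro _ ⟨j, rfl⟩ i
  apply exists_rat_of_forall_ringHom
  intro σ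
  obtain ⟨w', hw'⟩ := hσ σ (b' j)
  have : w' = b' j := by
    apply hinj
    intro i
    rw [hw', hb']
    split_ifs <;> simp
  rw [← hw' i, this]

end Fermat.Agent.H23
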