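import Mathlib

/-!
# Analytic lemmas for S23 (piece C)

Given holomorphic `A ≠ 0`, `B` on the upper half plane with `B / A` integral over holomorphic
functions, `B / A` extends holomorphically.
-/

set_option autoImplicit false

open Filter Topology Complex UpperHalfPlane
open scoped Manifold MatrixGroups ModularForm

namespace Fermat.Agent.H79

/-- If `w ^ n + ∑ c i * w ^ (n - i) = 0` and `∑ ‖c i‖ * ε⁻¹ ^ i < 1` then `‖w‖ < ε`. -/
theorem norm_lt_of_root {n : ℕ} (c : ℕ → ℂ) (w : ℂ) (ε : ℝ) (hε : 0 < ε)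
    (h : w ^ n + ∑ i ∈ Finset.Icc 1 n, c i * w ^ (n - i) = 0)
    (hs : ∑ i ∈ Finset.Icc 1 n, ‖c i‖ * (ε⁻¹) ^ i < 1) : ‖w‖ < ε := by
  by_contra hw
  push Not at hw
  have hw0 : 0 < ‖w‖ := lt_of_lt_of_le hε hw
  have h1 : w ^ n = - ∑ i ∈ Finset.Icc 1 n, c i * w ^ (n - i) := by
    linear_combination h
  have h2 : ‖w‖ ^ n ≤ ∑ i ∈ Finset.Icc 1 n, ‖c i‖ * ‖w‖ ^ (n - i) := by
    rw [← norm_pow, h1, norm_neg]
    refine (norm_sum_le _ _).trans (le_of_eq ?_)
    refine Finset.sum_congr rfl fun i _ => ?_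
    rw [norm_mul, norm_pow]
  have h3 : ∑ i ∈ Finset.Icc 1 n, ‖c i‖ * ‖w‖ ^ (n - i) ≤
      ∑ i ∈ Finset.Icc 1 n, (‖c i‖ * (ε⁻¹) ^ i) * ‖w‖ ^ n := by
    refine Finset.sum_le_sum fun i hi => ?_
    have hin : i ≤ n := (Finset.mem_Icc.mp hi).2
    have h4 : ‖w‖ ^ (n - i) ≤ (ε⁻¹) ^ i * ‖w‖ ^ n := by
      have h5 : ‖w‖ ^ n = ‖w‖ ^ (n - i) * ‖w‖ ^ i := by
        rw [← pow_add]; congr 1; omega
      rw [h5]
      have h6 : 1 ≤ (ε⁻¹) ^ i * ‖w‖ ^ i := by
        rw [← mul_pow]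
        apply one_le_pow₀
        rw [inv_mul_eq_div, le_div_iff₀ hε, one_mul]
        exact hw
      calc ‖w‖ ^ (n - i) = ‖w‖ ^ (n - i) * 1 := by ring
        _ ≤ ‖w‖ ^ (n - i) * ((ε⁻¹) ^ i * ‖w‖ ^ i) :=
            mul_le_mul_of_nonneg_left h6 (by positivity)
        _ = _ := by ring
    calc ‖c i‖ * ‖w‖ ^ (n - i) ≤ ‖c i‖ * ((ε⁻¹) ^ i * ‖w‖ ^ n) :=
          mul_le_mul_of_nonneg_left h4 (norm_nonneg _)
      _ = _ := by ring
  rw [← Finset.sum_mul] at h3
  have h7 : ‖w‖ ^ n < ‖w‖ ^ n := by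
    calc ‖w‖ ^ n ≤ _ := h2.trans h3
      _ < 1 * ‖w‖ ^ n := mul_lt_mul_of_pos_right hs (by positivity)
      _ = ‖w‖ ^ n := one_mul _
  exact lt_irrefl _ h7

/-- Crude bound for a root of a monic polynomial. -/
theorem norm_le_of_root {n : ℕ} (c : ℕ → ℂ) (w : ℂ)
    (h : w ^ n + ∑ i ∈ Finset.Icc 1 n, c i * w ^ (n - i) = 0) :
    ‖w‖ ≤ 1 + ∑ i ∈ Finset.Icc 1 n, ‖c i‖ := by
  by_contra hw
  push Not at hw
  set s := ∑ i ∈ Finset.Icc 1 n, ‖c i‖ with hs
  have hs0 : 0 ≤ s := Finset.sum_nonneg fun i _ => norm_nonneg _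
  have key := norm_lt_of_root c w (1 + s) (by positivity) h ?_
  · linarith
  · have h1 : ∑ i ∈ Finset.Icc 1 n, ‖c i‖ * ((1 + s)⁻¹) ^ i ≤
        ∑ i ∈ Finset.Icc 1 n, ‖c i‖ * (1 + s)⁻¹ := by
      refine Finset.sum_le_sum fun i hi => ?_
      have hi1 : 1 ≤ i := (Finset.mem_Icc.mp hi).1
      refine mul_le_mul_of_nonneg_left ?_ (norm_nonneg _)
      have h01 : (1 + s)⁻¹ ≤ 1 := inv_le_one_of_one_le₀ (by linarith)
      calc ((1 + s)⁻¹) ^ i ≤ ((1 + s)⁻¹) ^ 1 :=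
            pow_le_pow_of_le_one (by positivity) h01 hi1
        _ = _ := pow_one _
    refine lt_of_le_of_lt h1 ?_
    rw [← Finset.sum_mul, ← hs, ← div_eq_mul_inv, div_lt_one (by positivity)]
    linarith

/-- Local/global extension: on an open preconnected set, if `b / a` is integral over analytic
functions, then `b = a * F` with `F` analytic. -/
theorem exists_analytic_div {U : Set ℂ} (hU : IsOpen U) (hUc : IsPreconnected U)
    {a b : ℂ → ℂ} (ha : AnalyticOnNhd ℂ a U) (hb : AnalyticOnNhd ℂ b U)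
    (ha0 : ∃ z ∈ U, a z ≠ 0) {n : ℕ} (c : ℕ → ℂ → ℂ)
    (hc : ∀ i, AnalyticOnNhd ℂ (c i) U)
    (h : ∀ z ∈ U, b z ^ n + ∑ i ∈ Finset.Icc 1 n, c i z * a z ^ i * b z ^ (n - i) = 0) :
    ∃ F : ℂ → ℂ, AnalyticOnNhd ℂ F U ∧ ∀ z ∈ U, a z * F z = b z := by
  -- `a` is nonzero on punctured neighbourhoods
  have hane : ∀ z ∈ U, ∀ᶠ w in 𝓝[≠] z, a w ≠ 0 := by
    intro z hz
    rcases (ha z hz).eventually_eq_zero_or_eventually_ne_zero with h0 | h0
    · exfalso
      obtain ⟨z₁, hz₁, hz₁'⟩ := ha0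
      have := ha.eqOn_zero_of_preconnected_of_eventuallyEq_zero hUc hz h0
      exact hz₁' (this hz₁)
    · exact h0
  set m : ℂ → ℂ := fun z => b z / a z with hm
  have hmer : MeromorphicOn m U := fun z hz =>
    (hb z hz).meromorphicAt.div (ha z hz).meromorphicAt
  -- the quotient is bounded near each point
  have hroot : ∀ z ∈ U, a z ≠ 0 →
      m z ^ n + ∑ i ∈ Finset.Icc 1 n, c i z * m z ^ (n - i) = 0 := by
    intro z hz haz
    have h1 := h z hz
    have h2 : b z = a z * m z := by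
      simp only [hm]; field_simp
    rw [h2] at h1
    have h3 : a z ^ n * (m z ^ n + ∑ i ∈ Finset.Icc 1 n, c i z * m z ^ (n - i)) = 0 := by
      rw [mul_add, Finset.mul_sum]
      rw [mul_pow] at h1
      rw [← h1]
      congr 1
      refine Finset.sum_congr rfl fun i hi => ?_
      have hin : i ≤ n := (Finset.mem_Icc.mp hi).2
      have h5 : a z ^ n = a z ^ i * a z ^ (n - i) := by
        rw [← pow_add]; congr 1; omega
      rw [h5, mul_pow]; ring
    exact (mul_eq_zero.mp h3).resolve_left (pow_ne_zero _ haz)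
  have hord : ∀ z ∈ U, 0 ≤ meromorphicOrderAt m z := by
    intro z hz
    by_contra hlt
    push Not at hlt
    have ht := tendsto_cobounded_of_meromorphicOrderAt_neg hlt
    -- bounded
    have hcont : ContinuousAt (fun w => 1 + ∑ i ∈ Finset.Icc 1 n, ‖c i w‖) z := by
      refine continuousAt_const.add ?_
      refine tendsto_finsetSum _ fun i _ => ?_
      exact ((hc i z hz).continuousAt).norm
    have hev : ∀ᶠ w in 𝓝[≠] z, ‖m w‖ ≤ (1 + ∑ i ∈ Finset.Icc 1 n, ‖c i z‖) + 1 := by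
      have h1 : ∀ᶠ w in 𝓝 z, (1 + ∑ i ∈ Finset.Icc 1 n, ‖c i w‖) <
          (1 + ∑ i ∈ Finset.Icc 1 n, ‖c i z‖) + 1 := by
        exact hcont.eventually_lt continuousAt_const (by linarith)
      have h2 : ∀ᶠ w in 𝓝 z, w ∈ U := hU.mem_nhds hz
      filter_upwards [h1.filter_mono nhdsWithin_le_nhds, h2.filter_mono nhdsWithin_le_nhds,
        hane z hz] with w hw1 hw2 hw3
      exact (norm_le_of_root (fun i => c i w) (m w) (hroot w hw2 hw3)).trans hw1.le
    have hev2 : ∀ᶠ w in 𝓝[≠] z, (1 + ∑ i ∈ Finset.Icc 1 n, ‖c i z‖) + 1 < ‖m w‖ := by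
      have := (tendsto_norm_cobounded_atTop.comp ht)
      exact this.eventually_gt_atTop _
    obtain ⟨w, hw1, hw2⟩ := (hev.and hev2).exists
    linarith
  refine ⟨toMeromorphicNFOn m U, ?_, ?_⟩
  · intro z hz
    have hnf := meromorphicNFOn_toMeromorphicNFOn m U hz
    rw [← hnf.meromorphicOrderAt_nonneg_iff_analyticAt,
      meromorphicOrderAt_toMeromorphicNFOn hmer hz]
    exact hord z hz
  · intro z hz
    have hF : AnalyticAt ℂ (toMeromorphicNFOn m U) z := by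
      have hnf := meromorphicNFOn_toMeromorphicNFOn m U hz
      rw [← hnf.meromorphicOrderAt_nonneg_iff_analyticAt,
        meromorphicOrderAt_toMeromorphicNFOn hmer hz]
      exact hord z hz
    have hev : ∀ᶠ w in 𝓝[≠] z, a w * toMeromorphicNFOn m U w = b w := by
      filter_upwards [hmer.toMeromorphicNFOn_eq_self_on_nhdsNE hz, hane z hz] with w hw1 hw2
      rw [hw1]
      simp only [hm]
      field_simp
    have h1 : Tendsto (fun w => a w * toMeromorphicNFOn m U w) (𝓝[≠] z)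
        (𝓝 (a z * toMeromorphicNFOn m U z)) :=
      (((ha z hz).continuousAt.mul hF.continuousAt).tendsto).mono_left nhdsWithin_le_nhds
    have h2 : Tendsto b (𝓝[≠] z) (𝓝 (b z)) :=
      ((hb z hz).continuousAt.tendsto).mono_left nhdsWithin_le_nhds
    exact tendsto_nhds_unique (h1.congr' hev) h2

end Fermat.Agent.H79
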