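import Mathlib
import Fermat.Agent.H79Analytic

/-!
# Integral quotients of modular forms are cusp forms (piece C of S23)
-/

set_option autoImplicit false

open Filter Topology Complex UpperHalfPlane
open scoped Manifold MatrixGroups ModularForm

namespace Fermat.Agent.H79

/-- Version of `exists_analytic_div` for functions on the upper half plane. -/
theorem exists_mdiff_div {A B : ℍ → ℂ} (hA : MDiff A) (hB : MDiff B) (hA0 : A ≠ 0) {n : ℕ}
    (c : ℕ → ℍ → ℂ) (hc : ∀ i, MDiff (c i))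
    (h : ∀ τ : ℍ, B τ ^ n + ∑ i ∈ Finset.Icc 1 n, c i τ * A τ ^ i * B τ ^ (n - i) = 0) :
    ∃ F : ℍ → ℂ, MDiff F ∧ ∀ τ, A τ * F τ = B τ := by
  have hU : IsOpen upperHalfPlaneSet := isOpen_upperHalfPlaneSet
  have hUc : IsPreconnected upperHalfPlaneSet := (convex_halfSpace_im_gt 0).isPreconnected
  have an : ∀ {f : ℍ → ℂ}, MDiff f → AnalyticOnNhd ℂ (f ∘ ofComplex) upperHalfPlaneSet := by
    intro f hf
    rw [mdifferentiable_iff] at hf
    exact hf.analyticOnNhd hU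
  obtain ⟨τ₀, hτ₀⟩ : ∃ τ, A τ ≠ 0 := by
    by_contra hcon
    push Not at hcon
    exact hA0 (funext hcon)
  obtain ⟨F, hF, hAF⟩ := exists_analytic_div hU hUc (an hA) (an hB)
    ⟨τ₀, τ₀.2, by simpa [ofComplex_apply] using hτ₀⟩ (n := n) (fun i => c i ∘ ofComplex)
    (fun i => an (hc i)) (fun z hz => h (ofComplex z))
  refine ⟨fun τ => F τ, ?_, ?_⟩
  · rw [mdifferentiable_iff]
    refine hF.differentiableOn.congr fun z hz => ?_
    simp [ofComplex_apply_of_im_pos hz]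
  · intro τ
    have := hAF τ τ.2
    simpa [ofComplex_apply] using this

/-- Piece (C): if `B / A` is integral over level one cusp forms, it is a cusp form. -/
theorem exists_cuspForm_mul_eq (Γ : Subgroup SL(2, ℤ)) [Γ.FiniteIndex] {k w : ℤ}
    (A : ModularForm Γ w) (hA : A ≠ 0) (B : ModularForm Γ (w + k)) {n : ℕ}
    (c : (i : ℕ) → CuspForm 𝒮ℒ ((i : ℤ) * k))
    (h : ∀ τ : ℍ, B τ ^ n + ∑ i ∈ Finset.Icc 1 n, c i τ * A τ ^ i * B τ ^ (n - i) = 0) :
    ∃ F : CuspForm Γ k, ∀ τ, A τ * F τ = B τ := by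
  have hA0 : (⇑A : ℍ → ℂ) ≠ 0 := fun h0 => hA (DFunLike.ext _ _ fun τ => congrFun h0 τ)
  obtain ⟨F, hF, hAF⟩ := exists_mdiff_div (ModularFormClass.holo A) (ModularFormClass.holo B) hA0
    (n := n) (fun i => ⇑(c i)) (fun i => CuspFormClass.holo (c i)) h
  -- the equation for `F`
  have hFeq : ∀ τ : ℍ, F τ ^ n + ∑ i ∈ Finset.Icc 1 n, c i τ * F τ ^ (n - i) = 0 := by
    have hmd : MDiff (fun τ => F τ ^ n + ∑ i ∈ Finset.Icc 1 n, c i τ * F τ ^ (n - i)) := by
      refine (hF.pow n).add ?_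
      have e : (fun τ : ℍ => ∑ i ∈ Finset.Icc 1 n, c i τ * F τ ^ (n - i)) =
          ∑ i ∈ Finset.Icc 1 n, fun τ => c i τ * F τ ^ (n - i) := by
        funext τ
        simp only [Finset.sum_apply]
      rw [e]
      refine MDifferentiable.sum fun i _ => ?_
      exact (CuspFormClass.holo (c i)).mul (hF.pow (n - i))
    have hprod : (fun τ => A τ ^ n) *
        (fun τ => F τ ^ n + ∑ i ∈ Finset.Icc 1 n, c i τ * F τ ^ (n - i)) = 0 := by
      ext τ
      simp only [Pi.mul_apply, Pi.zero_apply]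
      rw [← h τ, ← hAF τ, mul_add, Finset.mul_sum, mul_pow]
      congr 1
      refine Finset.sum_congr rfl fun i hi => ?_
      have hin : i ≤ n := (Finset.mem_Icc.mp hi).2
      have h5 : A τ ^ n = A τ ^ i * A τ ^ (n - i) := by
        rw [← pow_add]; congr 1; omega
      rw [h5, mul_pow]; ring
    rcases (mul_eq_zero_iff ((ModularFormClass.holo A).pow n) hmd).mp hprod with h0 | h0
    · exfalso
      apply hA0
      ext τ
      have := congrFun h0 τ
      simp only [Pi.zero_apply] at this ⊢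
      exact eq_zero_of_pow_eq_zero this
    · intro τ
      exact congrFun h0 τ
  -- invariance
  have hinv : ∀ γ ∈ (Γ : Subgroup (GL (Fin 2) ℝ)), F ∣[k] γ = F := by
    rintro _ ⟨γ, hγ, rfl⟩
    have h1 : (⇑A : ℍ → ℂ) * F = ⇑B := funext hAF
    have hAγ : (⇑A : ℍ → ℂ) ∣[w] γ = ⇑A :=
      SlashInvariantFormClass.slash_action_eq A _ ⟨γ, hγ, rfl⟩
    have hBγ : (⇑B : ℍ → ℂ) ∣[w + k] γ = ⇑B :=
      SlashInvariantFormClass.slash_action_eq B _ ⟨γ, hγ, rfl⟩
    have h2 : ((⇑A : ℍ → ℂ) * F) ∣[w + k] γ = (⇑A : ℍ → ℂ) * (F ∣[k] γ) := by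
      rw [ModularForm.mul_slash_SL2, hAγ]
    rw [h1, hBγ, ← h1] at h2
    have h3 : (⇑A : ℍ → ℂ) * (F ∣[k] γ - F) = 0 := by
      rw [mul_sub, ← h2, sub_self]
    have hFγ : MDiff (F ∣[k] γ) := hF.slash k _
    rcases (mul_eq_zero_iff (ModularFormClass.holo A) (hFγ.sub hF)).mp h3 with h0 | h0
    · exact absurd h0 hA0
    · exact sub_eq_zero.mp h0
  -- vanishing at cusps
  have hcusp : ∀ γ : SL(2, ℤ), IsZeroAtImInfty (F ∣[k] γ) := by
    intro γ
    have heq : ∀ τ : ℍ, (F ∣[k] γ) τ ^ n +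
        ∑ i ∈ Finset.Icc 1 n, c i τ * (F ∣[k] γ) τ ^ (n - i) = 0 := by
      intro τ
      have h1 := hFeq (γ • τ)
      have hd : denom γ τ ≠ 0 := denom_ne_zero _ _
      have hci : ∀ i, c i (γ • τ) = denom γ τ ^ ((i : ℤ) * k) * c i τ := by
        intro i
        have hγ : (Matrix.SpecialLinearGroup.mapGL ℝ γ) ∈ (𝒮ℒ : Subgroup (GL (Fin 2) ℝ)) :=
          ⟨γ, rfl⟩
        exact SlashInvariantForm.slash_action_eqn'' (c i) hγ τ
      rw [ModularForm.SL_slash_apply]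
      have h2 : (denom γ τ ^ (-k)) ^ n * (F (γ • τ) ^ n +
          ∑ i ∈ Finset.Icc 1 n, c i (γ • τ) * F (γ • τ) ^ (n - i)) = 0 := by
        rw [h1, mul_zero]
      rw [← h2, mul_add, Finset.mul_sum, ← mul_pow, mul_comm (denom γ τ ^ (-k))]
      congr 1
      refine Finset.sum_congr rfl fun i hi => ?_
      have hin : i ≤ n := (Finset.mem_Icc.mp hi).2
      have h3 : (denom γ τ ^ (-k)) ^ n * denom γ τ ^ ((i : ℤ) * k) =
          (denom γ τ ^ (-k)) ^ (n - i) := by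
        rw [← zpow_natCast, ← zpow_natCast, ← zpow_mul, ← zpow_mul, ← zpow_add₀ hd]
        congr 1
        push_cast [Nat.cast_sub hin]
        ring
      rw [hci i, mul_pow, ← h3]
      ring
    rw [IsZeroAtImInfty, ZeroAtFilter, Metric.tendsto_nhds]
    intro ε hε
    have hz : ∀ i, Tendsto (fun τ => c i τ) atImInfty (𝓝 0) := by
      intro i
      have := CuspFormClass.zero_at_infty (c i)
      exact this
    have hs : Tendsto (fun τ : ℍ => ∑ i ∈ Finset.Icc 1 n, ‖c i τ‖ * (ε⁻¹) ^ i) atImInfty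
        (𝓝 (∑ i ∈ Finset.Icc 1 n, ‖(0 : ℂ)‖ * (ε⁻¹) ^ i)) := by
      refine tendsto_finsetSum _ fun i _ => ?_
      exact ((hz i).norm).mul_const _
    have hs' := hs.eventually_lt_const (show (∑ i ∈ Finset.Icc 1 n, ‖(0 : ℂ)‖ * (ε⁻¹) ^ i) < 1 by simp)
    filter_upwards [hs'] with τ hτ
    rw [dist_zero_right]
    exact norm_lt_of_root (fun i => c i τ) _ ε hε (heq τ) hτ
  refine ⟨{ toFun := F, slash_action_eq' := hinv, holo' := hF, zero_at_cusps' := ?_ }, hAF⟩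
  intro x hx
  rw [Subgroup.IsArithmetic.isCusp_iff_isCusp_SL2Z] at hx
  rw [OnePoint.isZeroAt_iff_forall_SL2Z hx]
  intro γ _
  exact hcusp γ

end Fermat.Agent.H79
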