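import Mathlib
import Fermat.Agent.H79GalStab
import Fermat.Prelude.Thm_CongruenceSubgroup_one_mem_strictPeriods_Gamma0

/-!
# Galois stability of spaces of cusp forms (piece D of S23)

`S_k(Γ₀(N))` is stable under applying a ring homomorphism `σ : ℂ →+* ℂ` to `q`-expansions,
given level one stability, a primitive element and integrality over level one.
-/

set_option autoImplicit false

open Filter Topology Complex UpperHalfPlane
open scoped Manifold MatrixGroups ModularForm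

namespace Fermat.Agent.H79

/-- `f : ℍ → ℂ` is (the function underlying) a modular form. -/
def IsMF (Γ : Subgroup (GL (Fin 2) ℝ)) (k : ℤ) (f : ℍ → ℂ) : Prop :=
  ∃ F : ModularForm Γ k, (⇑F : ℍ → ℂ) = f

section IsMF

variable {Γ : Subgroup (GL (Fin 2) ℝ)} {k l : ℤ} {f g : ℍ → ℂ}

theorem isMF_coe (F : ModularForm Γ k) : IsMF Γ k F := ⟨F, rfl⟩

theorem isMF_of_class {F : Type*} [FunLike F ℍ ℂ] [ModularFormClass F Γ k] (f : F) :
    IsMF Γ k f := ⟨ModularFormClass.modularForm f, rfl⟩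

theorem IsMF.weight_eq (h : IsMF Γ k f) (hk : k = l) : IsMF Γ l f := hk ▸ h

theorem isMF_zero : IsMF Γ k 0 := ⟨0, rfl⟩

theorem IsMF.add (hf : IsMF Γ k f) (hg : IsMF Γ k g) : IsMF Γ k (f + g) := by
  obtain ⟨F, rfl⟩ := hf
  obtain ⟨G, rfl⟩ := hg
  exact ⟨F + G, rfl⟩

theorem IsMF.mul [Γ.HasDetPlusMinusOne] (hf : IsMF Γ k f) (hg : IsMF Γ l g) :
    IsMF Γ (k + l) (f * g) := by
  obtain ⟨F, rfl⟩ := hf
  obtain ⟨G, rfl⟩ := hg
  exact ⟨F.mul G, rfl⟩

theorem IsMF.pow [Γ.HasDetPlusMinusOne] (hf : IsMF Γ k f) (n : ℕ) :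
    IsMF Γ ((n : ℤ) * k) (f ^ n) := by
  obtain ⟨F, rfl⟩ := hf
  exact ⟨F.pow n, ModularForm.coe_pow F n⟩

theorem isMF_sum {ι : Type*} (s : Finset ι) (F : ι → ℍ → ℂ) (h : ∀ i ∈ s, IsMF Γ k (F i)) :
    IsMF Γ k (∑ i ∈ s, F i) := by
  classical
  induction s using Finset.induction_on with
  | empty => simpa using isMF_zero
  | insert a s ha ih =>
    rw [Finset.sum_insert ha]
    exact (h a (Finset.mem_insert_self a s)).add
      (ih fun i hi => h i (Finset.mem_insert_of_mem hi))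

/-- Restriction to a subgroup. -/
theorem IsMF.mono {Γ' : Subgroup (GL (Fin 2) ℝ)} (hf : IsMF Γ k f) (hle : Γ' ≤ Γ) :
    IsMF Γ' k f := by
  obtain ⟨F, rfl⟩ := hf
  exact ⟨{ toFun := F
           slash_action_eq' := fun γ hγ => SlashInvariantFormClass.slash_action_eq F γ (hle hγ)
           holo' := ModularFormClass.holo F
           bdd_at_cusps' := fun hc => ModularFormClass.bdd_at_cusps F (hc.mono hle) }, rfl⟩

end IsMF

/-- `f` has analytic cusp function and `q`-expansion `P`. -/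
def HasQ (f : ℍ → ℂ) (P : PowerSeries ℂ) : Prop :=
  AnalyticAt ℂ (cuspFunction 1 f) 0 ∧ qExpansion 1 f = P

section HasQ

variable {f g : ℍ → ℂ} {P Q : PowerSeries ℂ}

theorem HasQ.add (hf : HasQ f P) (hg : HasQ g Q) : HasQ (f + g) (P + Q) := by
  refine ⟨?_, ?_⟩
  · rw [cuspFunction_add hf.1.continuousAt hg.1.continuousAt]
    exact hf.1.add hg.1
  · rw [qExpansion_add hf.1 hg.1, hf.2, hg.2]

theorem HasQ.mul (hf : HasQ f P) (hg : HasQ g Q) : HasQ (f * g) (P * Q) := by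
  refine ⟨?_, ?_⟩
  · rw [cuspFunction_mul hf.1.continuousAt hg.1.continuousAt]
    exact hf.1.mul hg.1
  · rw [qExpansion_mul hf.1 hg.1, hf.2, hg.2]

theorem hasQ_one : HasQ 1 1 := by
  refine ⟨?_, qExpansion_one 1⟩
  have h1 : cuspFunction 1 1 = 1 := by
    ext q
    rcases eq_or_ne q 0 with rfl | hq
    · simpa [cuspFunction, Function.Periodic.cuspFunction] using!
        (tendsto_const_nhds (x := (1 : ℂ))).limUnder_eq
    · simp [cuspFunction, Function.Periodic.cuspFunction_eq_of_nonzero 1 _ hq]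
  rw [h1]
  exact analyticAt_const

theorem hasQ_zero : HasQ 0 0 := by
  refine ⟨?_, qExpansion_zero 1⟩
  have h1 : cuspFunction 1 0 = 0 := by
    ext q
    rcases eq_or_ne q 0 with rfl | hq
    · simpa [cuspFunction, Function.Periodic.cuspFunction] using!
        (tendsto_const_nhds (x := (0 : ℂ))).limUnder_eq
    · simp [cuspFunction, Function.Periodic.cuspFunction_eq_of_nonzero 1 _ hq]
  rw [h1]
  exact analyticAt_const

theorem HasQ.pow (hf : HasQ f P) (n : ℕ) : HasQ (f ^ n) (P ^ n) := by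
  induction n with
  | zero => simpa using hasQ_one
  | succ n ih => rw [pow_succ, pow_succ]; exact ih.mul hf

theorem hasQ_sum {ι : Type*} (s : Finset ι) (F : ι → ℍ → ℂ) (P : ι → PowerSeries ℂ)
    (h : ∀ i ∈ s, HasQ (F i) (P i)) : HasQ (∑ i ∈ s, F i) (∑ i ∈ s, P i) := by
  classical
  induction s using Finset.induction_on with
  | empty => simpa using hasQ_zero
  | insert a s ha ih =>
    rw [Finset.sum_insert ha, Finset.sum_insert ha]
    exact (h a (Finset.mem_insert_self a s)).add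
      (ih fun i hi => h i (Finset.mem_insert_of_mem hi))

theorem hasQ_of_class {Γ : Subgroup (GL (Fin 2) ℝ)} {k : ℤ} {F : Type*} [FunLike F ℍ ℂ]
    [ModularFormClass F Γ k] (hΓ : (1 : ℝ) ∈ Γ.strictPeriods) (f : F) :
    HasQ f (qExpansion 1 f) :=
  ⟨ModularFormClass.analyticAt_cuspFunction_zero f one_pos hΓ, rfl⟩

end HasQ

/-- Galois stability of cusp forms on `Γ`, given (A) level-one stability, (B1) integrality over
level one and (B2) a primitive element. -/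
theorem exists_conj_cuspForm_of (Γ : Subgroup SL(2, ℤ)) [Γ.FiniteIndex]
    (h1 : (1 : ℝ) ∈ (Γ : Subgroup (GL (Fin 2) ℝ)).strictPeriods) (σ : ℂ →+* ℂ)
    (hA : ∀ (k : ℤ) (G : ModularForm 𝒮ℒ k), ∃ G' : ModularForm 𝒮ℒ k,
      qExpansion 1 G' = (qExpansion 1 G).map σ)
    (hAc : ∀ (k : ℤ) (G : CuspForm 𝒮ℒ k), ∃ G' : CuspForm 𝒮ℒ k,
      qExpansion 1 G' = (qExpansion 1 G).map σ)
    {k w : ℤ} (f : CuspForm Γ k)
    {m : ℕ} (c : (i : ℕ) → CuspForm 𝒮ℒ ((i : ℤ) * k))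
    (hc : ∀ τ, f τ ^ m + ∑ i ∈ Finset.Icc 1 m, c i τ * f τ ^ (m - i) = 0)
    {n : ℕ} (g : ModularForm Γ w) (D : ModularForm Γ (w * ((n : ℤ) - 1)))
    (hg : (qExpansion 1 g).map σ = qExpansion 1 g) (hD : D ≠ 0)
    (G : (i : ℕ) → ModularForm 𝒮ℒ (w * ((n : ℤ) - 1 - i)))
    (hG : ∀ τ, D τ = ∑ i ∈ Finset.range n, G i τ * g τ ^ i)
    (H : (i : ℕ) → ModularForm 𝒮ℒ (k + w * ((n : ℤ) - 1 - i)))
    (hH : ∀ τ, D τ * f τ = ∑ i ∈ Finset.range n, H i τ * g τ ^ i) :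
    ∃ f' : CuspForm Γ k, qExpansion 1 f' = (qExpansion 1 f).map σ := by
  have hle : (Γ : Subgroup (GL (Fin 2) ℝ)) ≤ 𝒮ℒ := by
    rintro _ ⟨γ, -, rfl⟩
    exact ⟨γ, rfl⟩
  have h1' : (1 : ℝ) ∈ (𝒮ℒ : Subgroup (GL (Fin 2) ℝ)).strictPeriods :=
    one_mem_strictPeriods_SL
  choose G' hG' using fun i => hA _ (G i)
  choose H' hH' using fun i => hA _ (H i)
  choose c' hc' using fun i => hAc _ (c i)
  set Pg := qExpansion 1 (g : ℍ → ℂ) with hPg
  set Pf := qExpansion 1 (f : ℍ → ℂ) with hPf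
  -- the form `A = D^σ`
  obtain ⟨A, hAe⟩ : IsMF (Γ : Subgroup (GL (Fin 2) ℝ)) (w * ((n : ℤ) - 1))
      (∑ i ∈ Finset.range n, (⇑(G' i) : ℍ → ℂ) * (⇑g : ℍ → ℂ) ^ i) := by
    refine isMF_sum _ _ fun i _ => ?_
    exact (((isMF_coe (G' i)).mono hle).mul ((isMF_coe g).pow i)).weight_eq (by ring)
  obtain ⟨B, hBe⟩ : IsMF (Γ : Subgroup (GL (Fin 2) ℝ)) (w * ((n : ℤ) - 1) + k)
      (∑ i ∈ Finset.range n, (⇑(H' i) : ℍ → ℂ) * (⇑g : ℍ → ℂ) ^ i) := by
    refine isMF_sum _ _ fun i _ => ?_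
    exact (((isMF_coe (H' i)).mono hle).mul ((isMF_coe g).pow i)).weight_eq (by ring)
  have hQg : HasQ (g : ℍ → ℂ) Pg := hasQ_of_class h1 g
  have hQf : HasQ (f : ℍ → ℂ) Pf := hasQ_of_class h1 f
  have hQA : HasQ (A : ℍ → ℂ) ((qExpansion 1 D).map σ) := by
    have e1 : HasQ (D : ℍ → ℂ) (∑ i ∈ Finset.range n, qExpansion 1 (G i : ℍ → ℂ) * Pg ^ i) := by
      have : (⇑D : ℍ → ℂ) = ∑ i ∈ Finset.range n, (⇑(G i) : ℍ → ℂ) * (⇑g : ℍ → ℂ) ^ i := by
        funext τ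
        rw [hG τ]
        simp only [Finset.sum_apply, Pi.mul_apply, Pi.pow_apply]
      rw [this]
      exact hasQ_sum _ _ _ fun i _ => (hasQ_of_class h1' (G i)).mul (hQg.pow i)
    rw [e1.2, map_sum, hAe]
    refine hasQ_sum _ _ _ fun i _ => ?_
    rw [map_mul, map_pow, hg, ← hG' i]
    exact (hasQ_of_class h1' (G' i)).mul (hQg.pow i)
  have hQB : HasQ (B : ℍ → ℂ) ((qExpansion 1 D).map σ * Pf.map σ) := by
    have e1 : qExpansion 1 D * Pf =
        ∑ i ∈ Finset.range n, qExpansion 1 (H i : ℍ → ℂ) * Pg ^ i := by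
      have e2 : HasQ ((D : ℍ → ℂ) * (f : ℍ → ℂ)) (qExpansion 1 D * Pf) :=
        (hasQ_of_class h1 D).mul hQf
      have e3 : HasQ ((D : ℍ → ℂ) * (f : ℍ → ℂ))
          (∑ i ∈ Finset.range n, qExpansion 1 (H i : ℍ → ℂ) * Pg ^ i) := by
        have : (⇑D : ℍ → ℂ) * (⇑f : ℍ → ℂ) =
            ∑ i ∈ Finset.range n, (⇑(H i) : ℍ → ℂ) * (⇑g : ℍ → ℂ) ^ i := by
          funext τ
          simp only [Finset.sum_apply, Pi.mul_apply, Pi.pow_apply]
          exact hH τ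
        rw [this]
        exact hasQ_sum _ _ _ fun i _ => (hasQ_of_class h1' (H i)).mul (hQg.pow i)
      rw [← e2.2, ← e3.2]
    rw [← map_mul, e1, map_sum, hBe]
    refine hasQ_sum _ _ _ fun i _ => ?_
    rw [map_mul, map_pow, hg, ← hH' i]
    exact (hasQ_of_class h1' (H' i)).mul (hQg.pow i)
  have hQD : qExpansion 1 D ≠ 0 := fun h0 =>
    hD ((ModularForm.qExpansion_eq_zero_iff one_pos h1 D).mp h0)
  have hinj : Function.Injective (PowerSeries.map (σ : ℂ →+* ℂ)) := by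
    intro P Q hPQ
    ext i
    have := congrArg (PowerSeries.coeff i) hPQ
    rw [PowerSeries.coeff_map, PowerSeries.coeff_map] at this
    exact σ.injective this
  have hPA : (qExpansion 1 D).map σ ≠ 0 := by
    intro h0
    exact hQD (hinj (by rw [h0, map_zero]))
  have hA0 : A ≠ 0 := by
    rintro rfl
    apply hPA
    rw [← hQA.2]
    exact qExpansion_zero 1
  -- integrality relation for q-expansions of `f`
  have hrel : Pf ^ m + ∑ i ∈ Finset.Icc 1 m, qExpansion 1 (c i : ℍ → ℂ) * Pf ^ (m - i) = 0 := by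
    have e1 : HasQ ((f : ℍ → ℂ) ^ m + ∑ i ∈ Finset.Icc 1 m, (c i : ℍ → ℂ) * (f : ℍ → ℂ) ^ (m - i))
        (Pf ^ m + ∑ i ∈ Finset.Icc 1 m, qExpansion 1 (c i : ℍ → ℂ) * Pf ^ (m - i)) :=
      (hQf.pow m).add (hasQ_sum _ _ _ fun i _ => (hasQ_of_class h1' (c i)).mul (hQf.pow _))
    have e2 : ((f : ℍ → ℂ) ^ m + ∑ i ∈ Finset.Icc 1 m, (c i : ℍ → ℂ) * (f : ℍ → ℂ) ^ (m - i)) =
        0 := by
      funext τ
      simp only [Pi.add_apply, Pi.pow_apply, Finset.sum_apply, Pi.mul_apply, Pi.zero_apply]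
      exact hc τ
    rw [e2] at e1
    rw [← e1.2]
    exact qExpansion_zero 1
  have hrel' : (Pf.map σ) ^ m +
      ∑ i ∈ Finset.Icc 1 m, qExpansion 1 (c' i : ℍ → ℂ) * (Pf.map σ) ^ (m - i) = 0 := by
    have := congrArg (PowerSeries.map σ) hrel
    rw [map_add, map_pow, map_sum, map_zero] at this
    rw [← this]
    congr 1
    refine Finset.sum_congr rfl fun i _ => ?_
    rw [map_mul, map_pow, hc' i]
  -- the integral relation between `A` and `B`
  have hAB : ∀ τ : ℍ, B τ ^ m + ∑ i ∈ Finset.Icc 1 m, c' i τ * A τ ^ i * B τ ^ (m - i) = 0 := by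
    obtain ⟨E, hE⟩ : IsMF (Γ : Subgroup (GL (Fin 2) ℝ)) ((m : ℤ) * (w * ((n : ℤ) - 1) + k))
        ((B : ℍ → ℂ) ^ m + ∑ i ∈ Finset.Icc 1 m, (c' i : ℍ → ℂ) * (A : ℍ → ℂ) ^ i *
          (B : ℍ → ℂ) ^ (m - i)) := by
      refine ((isMF_coe B).pow m).add (isMF_sum _ _ fun i hi => ?_)
      have him : i ≤ m := (Finset.mem_Icc.mp hi).2
      refine ((((isMF_of_class (c' i)).mono hle).mul ((isMF_coe A).pow i)).mul
        ((isMF_coe B).pow (m - i))).weight_eq ?_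
      push_cast [Nat.cast_sub him]
      ring
    have hQE : HasQ (E : ℍ → ℂ) 0 := by
      rw [hE]
      set PA := (qExpansion 1 D).map σ with hPAdef
      have e1 : HasQ ((B : ℍ → ℂ) ^ m + ∑ i ∈ Finset.Icc 1 m, (c' i : ℍ → ℂ) * (A : ℍ → ℂ) ^ i *
          (B : ℍ → ℂ) ^ (m - i)) ((PA * Pf.map σ) ^ m + ∑ i ∈ Finset.Icc 1 m,
            qExpansion 1 (c' i : ℍ → ℂ) * PA ^ i * (PA * Pf.map σ) ^ (m - i)) :=
        (hQB.pow m).add (hasQ_sum _ _ _ fun i _ =>
          ((hasQ_of_class h1' (c' i)).mul (hQA.pow i)).mul (hQB.pow (m - i)))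
      convert e1 using 1
      have e2 : (PA * Pf.map σ) ^ m + ∑ i ∈ Finset.Icc 1 m,
            qExpansion 1 (c' i : ℍ → ℂ) * PA ^ i * (PA * Pf.map σ) ^ (m - i) =
          PA ^ m * ((Pf.map σ) ^ m +
            ∑ i ∈ Finset.Icc 1 m, qExpansion 1 (c' i : ℍ → ℂ) * (Pf.map σ) ^ (m - i)) := by
        rw [mul_add, mul_pow, Finset.mul_sum]
        congr 1
        refine Finset.sum_congr rfl fun i hi => ?_
        have him : i ≤ m := (Finset.mem_Icc.mp hi).2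
        have h5 : PA ^ m = PA ^ i * PA ^ (m - i) := by
          rw [← pow_add]; congr 1; omega
        rw [h5, mul_pow]; ring
      rw [e2, hrel', mul_zero]
    have hE0 : E = 0 := (ModularForm.qExpansion_eq_zero_iff one_pos h1 E).mp hQE.2
    intro τ
    have := congrFun hE τ
    rw [hE0] at this
    simp only [Pi.add_apply, Pi.pow_apply, Finset.sum_apply, Pi.mul_apply] at this
    rw [← this]
    rfl
  obtain ⟨F, hF⟩ := exists_cuspForm_mul_eq Γ A hA0 B c' hAB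
  refine ⟨F, ?_⟩
  have hQF : HasQ (F : ℍ → ℂ) (qExpansion 1 F) := hasQ_of_class h1 F
  have e1 : (qExpansion 1 D).map σ * qExpansion 1 F = (qExpansion 1 D).map σ * Pf.map σ := by
    have e2 := hQA.mul hQF
    have e3 : (⇑A : ℍ → ℂ) * (⇑F : ℍ → ℂ) = ⇑B := funext hF
    rw [e3] at e2
    rw [← e2.2, ← hQB.2]
  exact mul_left_cancel₀ hPA e1

end Fermat.Agent.H79
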