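import Mathlib
import Fermat.Agent.H23LevelOne
import Fermat.Agent.H23Descent
import Fermat.Agent.H23Denom
import Fermat.Agent.H79Conj
import Fermat.Prelude.Def_CuspForm_IntegralStructure
import Fermat.Prelude.Thm_ModularForm_sturm_bound_Gamma0
import Fermat.Prelude.Thm_CongruenceSubgroup_one_mem_strictPeriods_Gamma0

/-!
# Integral structure on cusp forms of level `N` (assembly)
-/

set_option autoImplicit false

noncomputable section

open UpperHalfPlane ModularForm ModularFormClass MatrixGroups CongruenceSubgroup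
open Fermat.Agent.H79

namespace Fermat.Agent.H23

lemma IntPS.mem_spanInt {p : PowerSeries ℂ} (h : IntPS p) : p ∈ SpanInt :=
  Submodule.subset_span h

lemma spanInt_mul {p q : PowerSeries ℂ} (hp : p ∈ SpanInt) (hq : q ∈ SpanInt) :
    p * q ∈ SpanInt := by
  refine Submodule.span_induction (p := fun p _ => p * q ∈ SpanInt) ?_ ?_ ?_ ?_ hp
  · intro p hp
    refine Submodule.span_induction (p := fun q _ => p * q ∈ SpanInt) ?_ ?_ ?_ ?_ hq
    · intro q hq
      exact (IntPS.mul hp hq).mem_spanInt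
    · rw [mul_zero]; exact Submodule.zero_mem _
    · intro x y _ _ hx hy
      rw [mul_add]; exact Submodule.add_mem _ hx hy
    · intro a x _ hx
      rw [mul_smul_comm]; exact Submodule.smul_mem _ _ hx
  · rw [zero_mul]; exact Submodule.zero_mem _
  · intro x y _ _ hx hy
    rw [add_mul]; exact Submodule.add_mem _ hx hy
  · intro a x _ hx
    rw [smul_mul_assoc]; exact Submodule.smul_mem _ _ hx

lemma spanInt_pow {p : PowerSeries ℂ} (hp : p ∈ SpanInt) (n : ℕ) : p ^ n ∈ SpanInt := by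
  induction n with
  | zero => rw [pow_zero]; exact IntPS.one.mem_spanInt
  | succ n ih => rw [pow_succ]; exact spanInt_mul ih hp

lemma spanInt_levelOne {k : ℤ} (F : ModularForm 𝒮ℒ k) : qExpansion 1 F ∈ SpanInt := by
  have hF : F ∈ Submodule.span ℂ (intForms k) := by rw [levelOne_span]; trivial
  refine Submodule.span_induction (p := fun (F : ModularForm 𝒮ℒ k) _ => qExpansion 1 F ∈ SpanInt)
    ?_ ?_ ?_ ?_ hF
  · intro x hx
    exact IntPS.mem_spanInt hx
  · rw [FunLike.coe_zero, qExpansion_zero]; exact Submodule.zero_mem _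
  · intro x y _ _ hx hy
    rw [FunLike.coe_add, ModularForm.qExpansion_add one_pos one_mem_strictPeriods_SL]
    exact Submodule.add_mem _ hx hy
  · intro a x _ hx
    rw [FunLike.coe_smul, ModularForm.qExpansion_smul one_pos one_mem_strictPeriods_SL]
    exact Submodule.smul_mem _ _ hx

lemma spanInt_levelOne_cusp {k : ℤ} (F : CuspForm 𝒮ℒ k) : qExpansion 1 F ∈ SpanInt :=
  spanInt_levelOne (ModularFormClass.modularForm F : ModularForm 𝒮ℒ k)

section

variable (N : ℕ) [NeZero N] (k : ℤ)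

omit [NeZero N] in
lemma strict : (1 : ℝ) ∈ (Gamma0 N : Subgroup (GL (Fin 2) ℝ)).strictPeriods :=
  CongruenceSubgroup.one_mem_strictPeriods_Gamma0 N

/-- The `n`-th `q`-coefficient as a linear functional on cusp forms. -/
def coeffLin (n : ℕ) : CuspForm (Gamma0 N) k →ₗ[ℂ] ℂ where
  toFun f := qCoeff f n
  map_add' f g := by
    rw [qCoeff, qCoeff, qCoeff, FunLike.coe_add,
      ModularForm.qExpansion_add one_pos (strict N), map_add]
  map_smul' a f := by
    rw [qCoeff, qCoeff, FunLike.coe_smul, ModularForm.qExpansion_smul one_pos (strict N)]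
    simp

omit [NeZero N] in
lemma coeffLin_apply (n : ℕ) (f : CuspForm (Gamma0 N) k) : coeffLin N k n f = qCoeff f n := rfl

lemma cuspForm_eq_zero_of_coeff (f : CuspForm (Gamma0 N) k)
    (h : ∀ n ≤ (k * (Gamma0 N).index).toNat / 12, qCoeff f n = 0) : f = 0 := by
  have h1 := ModularForm.sturm_bound_Gamma0 N (ModularFormClass.modularForm f :
    ModularForm (Gamma0 N) k) (fun n hn => h n hn)
  ext z
  exact DFunLike.congr_fun h1 z

instance finiteDimensional_cuspForm : FiniteDimensional ℂ (CuspForm (Gamma0 N) k) := by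
  let B := (k * (Gamma0 N).index).toNat / 12
  let L : CuspForm (Gamma0 N) k →ₗ[ℂ] (Fin (B + 1) → ℂ) :=
    LinearMap.pi fun i => coeffLin N k i
  refine Module.Finite.of_injective L ?_
  rw [← LinearMap.ker_eq_bot, LinearMap.ker_eq_bot']
  intro f hf
  apply cuspForm_eq_zero_of_coeff
  intro n hn
  exact congrFun hf ⟨n, Nat.lt_succ_of_le hn⟩

end

/-- Integrality of a cusp form over level one (statement (B1)). -/
def PropB1 (N : ℕ) (k : ℤ) : Prop :=
  ∀ f : CuspForm (Gamma0 N) k, ∃ n : ℕ, 0 < n ∧ ∃ c : (i : ℕ) → CuspForm 𝒮ℒ ((i : ℤ) * k),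
    ∀ τ, f τ ^ n + ∑ i ∈ Finset.Icc 1 n, c i τ * f τ ^ (n - i) = 0

/-- Existence of a primitive element with common denominator (statement (B2)). -/
def PropB2 (N : ℕ) : Prop :=
  ∃ (w : ℤ) (n : ℕ) (g : ModularForm (Gamma0 N) w) (D : ModularForm (Gamma0 N) (w * ((n : ℤ) - 1))),
    (∀ m, ∃ z : ℤ, (qExpansion 1 g).coeff m = z) ∧ D ≠ 0 ∧
    (∃ G : (i : ℕ) → ModularForm 𝒮ℒ (w * ((n : ℤ) - 1 - i)),
      ∀ τ, D τ = ∑ i ∈ Finset.range n, G i τ * g τ ^ i) ∧
    ∀ (k : ℤ) (f : ModularForm (Gamma0 N) k),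
      ∃ G : (i : ℕ) → ModularForm 𝒮ℒ (k + w * ((n : ℤ) - 1 - i)),
        ∀ τ, D τ * f τ = ∑ i ∈ Finset.range n, G i τ * g τ ^ i

/-- **Conjugation of cusp forms**: coefficientwise application of a ring endomorphism of `ℂ`. -/
theorem conj_of (N : ℕ) [NeZero N] (k : ℤ) (h1 : PropB1 N k) (h2 : PropB2 N) (σ : ℂ →+* ℂ)
    (f : CuspForm (Gamma0 N) k) :
    ∃ f' : CuspForm (Gamma0 N) k, qExpansion 1 f' = (qExpansion 1 f).map σ := by
  obtain ⟨m, hm, c, hc⟩ := h1 f
  obtain ⟨w, n, g, D, hg, hD, ⟨G, hG⟩, hH⟩ := h2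
  obtain ⟨H, hH⟩ := hH k (ModularFormClass.modularForm f)
  refine exists_conj_cuspForm_of (Gamma0 N) (strict N) σ (fun k G => levelOne_conj σ G)
    (fun k G => levelOne_cusp_conj σ G) f c hc g D ?_ hD G hG H hH
  ext i
  obtain ⟨z, hz⟩ := hg i
  rw [PowerSeries.coeff_map, hz]
  simp

/-- `S_k(Γ₀(N))` is spanned by forms with rational `q`-expansions. -/
theorem rational_span_of (N : ℕ) [NeZero N] (k : ℤ) (h1 : PropB1 N k) (h2 : PropB2 N) :
    Submodule.span ℂ {f : CuspForm (Gamma0 N) k | ∀ n, ∃ q : ℚ, qCoeff f n = (q : ℂ)} = ⊤ := by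
  refine descent (coeffLin N k) (fun w hw => ?_) (fun σ w => ?_)
  · exact cuspForm_eq_zero_of_coeff N k w fun n _ => hw n
  · obtain ⟨w', hw'⟩ := conj_of N k h1 h2 σ w
    refine ⟨w', fun i => ?_⟩
    rw [coeffLin_apply, coeffLin_apply, qCoeff, qCoeff, hw', PowerSeries.coeff_map]

/-- A cusp form with rational `q`-expansion has bounded denominators. -/
theorem bddDen_cuspForm_of (N : ℕ) [NeZero N] (k : ℤ) (h1 : PropB1 N k) (h2 : PropB2 N)
    (f : CuspForm (Gamma0 N) k) (hf : ∀ n, ∃ q : ℚ, qCoeff f n = (q : ℂ)) :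
    ∃ D : ℤ, D ≠ 0 ∧ ∀ n, ∃ z : ℤ, (D : ℂ) * qCoeff f n = z := by
  obtain ⟨m, hm, c, hc⟩ := h1 f
  obtain ⟨w, n, g, D, hg, hD, ⟨G, hG⟩, hH⟩ := h2
  obtain ⟨H, hH⟩ := hH k (ModularFormClass.modularForm f)
  choose q hq using hf
  let F : PowerSeries ℚ := PowerSeries.mk q
  have hF : F.map (algebraMap ℚ ℂ) = qExpansion 1 f := by
    ext i
    rw [PowerSeries.coeff_map, PowerSeries.coeff_mk]
    exact (hq i).symm
  have hgS : qExpansion 1 g ∈ SpanInt := IntPS.mem_spanInt hg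
  have h1' : (1 : ℝ) ∈ (𝒮ℒ : Subgroup (GL (Fin 2) ℝ)).strictPeriods :=
    one_mem_strictPeriods_SL
  have hst := strict N
  have hQg : HasQ (g : ℍ → ℂ) (qExpansion 1 g) := hasQ_of_class hst g
  have hQf : HasQ (f : ℍ → ℂ) (qExpansion 1 f) := hasQ_of_class hst f
  have hQD : qExpansion 1 D ≠ 0 := fun h0 =>
    hD ((ModularForm.qExpansion_eq_zero_iff one_pos hst D).mp h0)
  have hDq : qExpansion 1 D = ∑ i ∈ Finset.range n, qExpansion 1 (G i) * qExpansion 1 g ^ i := by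
    have e1 : HasQ (D : ℍ → ℂ) (∑ i ∈ Finset.range n, qExpansion 1 (G i : ℍ → ℂ) *
        qExpansion 1 g ^ i) := by
      have : (⇑D : ℍ → ℂ) = ∑ i ∈ Finset.range n, (⇑(G i) : ℍ → ℂ) * (⇑g : ℍ → ℂ) ^ i := by
        funext τ
        rw [hG τ]
        simp only [Finset.sum_apply, Pi.mul_apply, Pi.pow_apply]
      rw [this]
      exact hasQ_sum _ _ _ fun i _ => (hasQ_of_class h1' (G i)).mul (hQg.pow i)
    exact e1.2
  have hBq : qExpansion 1 D * qExpansion 1 f =
      ∑ i ∈ Finset.range n, qExpansion 1 (H i) * qExpansion 1 g ^ i := by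
    have e2 : HasQ ((D : ℍ → ℂ) * (f : ℍ → ℂ)) (qExpansion 1 D * qExpansion 1 f) :=
      (hasQ_of_class hst D).mul hQf
    have e3 : HasQ ((D : ℍ → ℂ) * (f : ℍ → ℂ))
        (∑ i ∈ Finset.range n, qExpansion 1 (H i : ℍ → ℂ) * qExpansion 1 g ^ i) := by
      have : (⇑D : ℍ → ℂ) * (⇑f : ℍ → ℂ) =
          ∑ i ∈ Finset.range n, (⇑(H i) : ℍ → ℂ) * (⇑g : ℍ → ℂ) ^ i := by
        funext τ
        simp only [Finset.sum_apply, Pi.mul_apply, Pi.pow_apply]
        exact hH τ
      rw [this]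
      exact hasQ_sum _ _ _ fun i _ => (hasQ_of_class h1' (H i)).mul (hQg.pow i)
    rw [← e2.2, ← e3.2]
  have hrel : qExpansion 1 f ^ m +
      ∑ i ∈ Finset.Icc 1 m, qExpansion 1 (c i : ℍ → ℂ) * qExpansion 1 f ^ (m - i) = 0 := by
    have e1 : HasQ ((f : ℍ → ℂ) ^ m + ∑ i ∈ Finset.Icc 1 m, (c i : ℍ → ℂ) * (f : ℍ → ℂ) ^ (m - i))
        (qExpansion 1 f ^ m +
          ∑ i ∈ Finset.Icc 1 m, qExpansion 1 (c i : ℍ → ℂ) * qExpansion 1 f ^ (m - i)) :=
      (hQf.pow m).add (hasQ_sum _ _ _ fun i _ => (hasQ_of_class h1' (c i)).mul (hQf.pow _))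
    have e2 : ((f : ℍ → ℂ) ^ m + ∑ i ∈ Finset.Icc 1 m, (c i : ℍ → ℂ) * (f : ℍ → ℂ) ^ (m - i)) =
        0 := by
      funext τ
      simp only [Pi.add_apply, Pi.pow_apply, Finset.sum_apply, Pi.mul_apply, Pi.zero_apply]
      exact hc τ
    rw [e2] at e1
    rw [← e1.2]
    exact qExpansion_zero 1
  have key : BddDen F := by
    refine bddDen_of (A := qExpansion 1 D)
      (B := ∑ i ∈ Finset.range n, qExpansion 1 (H i) * qExpansion 1 g ^ i) hQD ?_ ?_ ?_
      (n := m) (c := fun i => qExpansion 1 (c i : ℍ → ℂ)) ?_ ?_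
    · rw [hDq]
      exact Submodule.sum_mem _ fun i _ => spanInt_mul (spanInt_levelOne _) (spanInt_pow hgS i)
    · exact Submodule.sum_mem _ fun i _ => spanInt_mul (spanInt_levelOne _) (spanInt_pow hgS i)
    · rw [hF, hBq]
    · intro i
      exact spanInt_levelOne_cusp _
    · rw [hF]
      exact hrel
  rw [bddDen_iff] at key
  obtain ⟨D', hD', h⟩ := key
  refine ⟨D', hD', fun i => ?_⟩
  obtain ⟨z, hz⟩ := h i
  refine ⟨z, ?_⟩
  rw [hq i]
  rw [PowerSeries.coeff_mk] at hz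
  exact_mod_cast hz

/-- `S_k(Γ₀(N))` is spanned by forms with integral `q`-expansions. -/
theorem hasIntegralStructure_of (N : ℕ) [NeZero N] (k : ℤ) (h1 : PropB1 N k) (h2 : PropB2 N) :
    CuspForm.HasIntegralStructure N k := by
  rw [CuspForm.HasIntegralStructure, eq_top_iff, ← rational_span_of N k h1 h2, Submodule.span_le]
  intro f hf
  obtain ⟨D, hD, h⟩ := bddDen_cuspForm_of N k h1 h2 f hf
  have hmem : (D : ℂ) • f ∈ CuspForm.intLattice N k := by
    refine Submodule.subset_span fun n => ?_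
    obtain ⟨z, hz⟩ := h n
    refine ⟨z, ?_⟩
    have h3 := (coeffLin N k n).map_smul (D : ℂ) f
    rw [coeffLin_apply, coeffLin_apply, smul_eq_mul, hz] at h3
    exact h3
  have hmem' : (D : ℂ) • f ∈ Submodule.span ℂ
      ((CuspForm.intLattice N k : Submodule ℤ (CuspForm (Gamma0 N) k)) :
        Set (CuspForm (Gamma0 N) k)) := Submodule.subset_span (SetLike.mem_coe.mpr hmem)
  have h4 := Submodule.smul_mem _ ((D : ℂ)⁻¹) hmem'
  rwa [smul_smul, inv_mul_cancel₀ (by exact_mod_cast hD), one_smul] at h4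

end Fermat.Agent.H23
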