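import Mathlib
import Fermat.Prelude.Def_CuspForm_HeckeAlgebra
import Fermat.Prelude.Def_CuspForm_IntegralStructure
import Fermat.Prelude.Thm_CuspForm_intLattice_fg
import Fermat.Prelude.Thm_CuspForm_mem_intLattice_of_mem_heckeAlgebra
import Fermat.Prelude.Thm_ModularForm_sturm_bound_Gamma0
import Fermat.Prelude.Thm_CongruenceSubgroup_one_mem_strictPeriods_Gamma0

/-!
# Finiteness of the Hecke algebra from an integral structure
-/

set_option autoImplicit false

noncomputable section

open CongruenceSubgroup

namespace Fermat.Agent.H23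

/-- An endomorphism algebra preserving a finitely generated spanning lattice is finite. -/
theorem moduleFinite_of_lattice {W : Type*} [AddCommGroup W] [Module ℂ W]
    (A : Subalgebra ℤ (Module.End ℂ W)) (L : Submodule ℤ W) (hfg : L.FG)
    (hspan : Submodule.span ℂ (L : Set W) = ⊤) (hA : ∀ t ∈ A, ∀ f ∈ L, t f ∈ L) :
    Module.Finite ℤ A := by
  have : Module.Finite ℤ L := Module.Finite.iff_fg.mpr hfg
  have : IsAddTorsionFree W := .of_isTorsionFree ℂ _
  have : IsAddTorsionFree L :=
    ⟨fun n hn a b hab => Subtype.ext (nsmul_right_injective hn (congrArg Subtype.val hab))⟩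
  have : Module.Free ℤ L := Module.free_of_finite_type_torsion_free'
  let φ : A →ₗ[ℤ] Module.End ℤ L :=
    { toFun := fun t => LinearMap.restrict ((t : Module.End ℂ W).restrictScalars ℤ)
        (fun f hf => hA t t.2 f hf)
      map_add' := fun _ _ => LinearMap.ext fun _ => Subtype.ext rfl
      map_smul' := fun n t => LinearMap.ext fun x => Subtype.ext (by
        show ((n • t : A) : Module.End ℂ W) (x : W) = n • ((t : Module.End ℂ W) (x : W))
        rw [show ((n • t : A) : Module.End ℂ W) = n • (t : Module.End ℂ W) from rfl]
        rfl) }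
  refine Module.Finite.of_injective φ ?_
  intro s t hst
  apply Subtype.ext
  refine LinearMap.ext_on hspan fun x hx => ?_
  have := congrArg (fun u : Module.End ℤ L => ((u ⟨x, hx⟩ : L) : W)) hst
  exact this

theorem moduleFinite_heckeAlgebra_of (N : ℕ) [NeZero N] (k : ℤ) (S : Set ℕ)
    (h : 1 ≤ k → CuspForm.HasIntegralStructure N k) :
    Module.Finite ℤ (CuspForm.heckeAlgebra N k S) := by
  rcases le_or_gt 1 k with hk | hk
  · exact moduleFinite_of_lattice _ (CuspForm.intLattice N k) (CuspForm.intLattice_fg N k) (h hk)
      fun t ht f hf => CuspForm.mem_intLattice_of_mem_heckeAlgebra hk ht hf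
  · -- cusp forms of weight `≤ 0` vanish
    have h0 : ∀ f : CuspForm (Gamma0 N) k, f = 0 := by
      intro f
      have h1 := ModularForm.sturm_bound_Gamma0 N (ModularFormClass.modularForm f :
        ModularForm (Gamma0 N) k) (fun n hn => by
          have hle : (k * (Gamma0 N).index).toNat = 0 := by
            rw [Int.toNat_eq_zero]
            exact mul_nonpos_of_nonpos_of_nonneg (by omega) (by positivity)
          rw [hle] at hn
          obtain rfl : n = 0 := by simpa using hn
          exact CuspFormClass.qExpansion_coeff_zero f one_pos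
            (CongruenceSubgroup.one_mem_strictPeriods_Gamma0 N))
      ext z
      exact DFunLike.congr_fun h1 z
    have : Subsingleton (CuspForm (Gamma0 N) k) := ⟨fun a b => by rw [h0 a, h0 b]⟩
    have : Subsingleton (Module.End ℂ (CuspForm (Gamma0 N) k)) :=
      ⟨fun a b => LinearMap.ext fun x => Subsingleton.elim _ _⟩
    have : Subsingleton (CuspForm.heckeAlgebra N k S) :=
      ⟨fun a b => Subtype.ext (Subsingleton.elim _ _)⟩
    infer_instance

end Fermat.Agent.H23
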