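import Mathlib
import Fermat.Prelude.Def_FLTPrelim_Modularity

/-!
Coset families of modular forms, their elementary symmetric functions (level one forms),
and Lagrange interpolation.  (Parts (B1), (B2) of the proof of S23.)
-/

set_option autoImplicit false

open UpperHalfPlane ModularForm ModularFormClass MatrixGroups EisensteinSeries OnePoint
open scoped Manifold

noncomputable section

namespace Fermat.Agent.H78

/-! ### Level one forms from functions -/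

/-- build a level one modular form from a function -/
def mkLevelOne (k : ℤ) (G : ℍ → ℂ) (hol : MDifferentiable 𝓘(ℂ) 𝓘(ℂ) G)
    (bdd : IsBoundedAtImInfty G) (sl : ∀ h ∈ 𝒮ℒ, G ∣[k] h = G) : ModularForm 𝒮ℒ k where
  toFun := G
  slash_action_eq' := sl
  holo' := hol
  bdd_at_cusps' {c} hc := by
    rw [isBoundedAt_iff_forall_SL2Z hc]
    intro γ _
    have : G ∣[k] γ = G := sl _ ⟨γ, rfl⟩
    rw [this]; exact bdd

/-- build a level one cusp form from a function -/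
def mkLevelOneCusp (k : ℤ) (G : ℍ → ℂ) (hol : MDifferentiable 𝓘(ℂ) 𝓘(ℂ) G)
    (bdd : IsZeroAtImInfty G) (sl : ∀ h ∈ 𝒮ℒ, G ∣[k] h = G) : CuspForm 𝒮ℒ k where
  toFun := G
  slash_action_eq' := sl
  holo' := hol
  zero_at_cusps' {c} hc := by
    rw [isZeroAt_iff_forall_SL2Z hc]
    intro γ _
    have : G ∣[k] γ = G := sl _ ⟨γ, rfl⟩
    rw [this]; exact bdd

/-- `F` is (the underlying function of) a modular form of weight `k` for `Γ` -/
def IsMF (Γ : Subgroup (GL (Fin 2) ℝ)) (k : ℤ) (F : ℍ → ℂ) : Prop :=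
  ∃ f : ModularForm Γ k, (f : ℍ → ℂ) = F

lemma IsMF.add {Γ : Subgroup (GL (Fin 2) ℝ)} {k : ℤ} {F G : ℍ → ℂ} (hF : IsMF Γ k F)
    (hG : IsMF Γ k G) : IsMF Γ k (F + G) := by
  obtain ⟨f, rfl⟩ := hF
  obtain ⟨g, rfl⟩ := hG
  exact ⟨f + g, rfl⟩

lemma IsMF.zero {Γ : Subgroup (GL (Fin 2) ℝ)} {k : ℤ} : IsMF Γ k 0 := ⟨0, rfl⟩

lemma IsMF.sum {Γ : Subgroup (GL (Fin 2) ℝ)} {k : ℤ} {ι : Type*} {s : Finset ι} {F : ι → ℍ → ℂ}
    (hF : ∀ i ∈ s, IsMF Γ k (F i)) : IsMF Γ k (∑ i ∈ s, F i) := by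
  classical
  induction s using Finset.induction_on with
  | empty => simpa using IsMF.zero
  | insert a s ha ih =>
    rw [Finset.sum_insert ha]
    exact (hF a (Finset.mem_insert_self _ _)).add (ih fun i hi => hF i (Finset.mem_insert_of_mem hi))

lemma IsMF.smul {Γ : Subgroup (GL (Fin 2) ℝ)} [Γ.HasDetOne] {k : ℤ} {F : ℍ → ℂ} (c : ℂ)
    (hF : IsMF Γ k F) : IsMF Γ k (c • F) := by
  obtain ⟨f, rfl⟩ := hF
  exact ⟨c • f, rfl⟩

lemma IsMF.mul {Γ : Subgroup (GL (Fin 2) ℝ)} [Γ.HasDetPlusMinusOne] {k l : ℤ} {F G : ℍ → ℂ}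
    (hF : IsMF Γ k F) (hG : IsMF Γ l G) : IsMF Γ (k + l) (F * G) := by
  obtain ⟨f, rfl⟩ := hF
  obtain ⟨g, rfl⟩ := hG
  exact ⟨f.mul g, rfl⟩

lemma IsMF.cast {Γ : Subgroup (GL (Fin 2) ℝ)} {k l : ℤ} {F : ℍ → ℂ} (hF : IsMF Γ k F)
    (h : k = l) : IsMF Γ l F := h ▸ hF

lemma IsMF.pow {Γ : Subgroup (GL (Fin 2) ℝ)} [Γ.HasDetOne] {k : ℤ} {F : ℍ → ℂ}
    (hF : IsMF Γ k F) (n : ℕ) : IsMF Γ (n * k) (F ^ n) := by
  induction n with
  | zero =>
    refine ⟨ModularForm.mcast (by simp) (ModularForm.const 1 : ModularForm Γ 0), ?_⟩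
    ext z; simp [ModularForm.const_apply]
  | succ n ih =>
    rw [pow_succ]
    exact (ih.mul hF).cast (by push_cast; ring)

lemma IsMF.restrict {Γ Γ' : Subgroup (GL (Fin 2) ℝ)} (h : Γ' ≤ Γ) {k : ℤ} {F : ℍ → ℂ}
    (hF : IsMF Γ k F) : IsMF Γ' k F := by
  obtain ⟨f, rfl⟩ := hF
  exact ⟨{ toFun := f
           holo' := f.holo'
           bdd_at_cusps' := fun hc => f.bdd_at_cusps' (hc.mono h)
           slash_action_eq' := fun γ hγ => f.slash_action_eq' γ (h hγ) }, rfl⟩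

/-! ### Families -/

/-- An equivariant family of functions, indexed by a `𝒮ℒ`-set `X`. -/
structure Fam {X : Type} [MulAction 𝒮ℒ X] (k : ℤ) (F : X → ℍ → ℂ) : Prop where
  holo : ∀ q, MDifferentiable 𝓘(ℂ) 𝓘(ℂ) (F q)
  bdd : ∀ q, IsBoundedAtImInfty (F q)
  slash : ∀ (h : GL (Fin 2) ℝ) (hh : h ∈ 𝒮ℒ) (q : X),
    F q ∣[k] h = F ((⟨h, hh⟩ : 𝒮ℒ)⁻¹ • q)

namespace Fam

variable {X : Type} [MulAction 𝒮ℒ X] {k l : ℤ} {F G : X → ℍ → ℂ}

lemma abs_det {h : GL (Fin 2) ℝ} (hh : h ∈ 𝒮ℒ) : |h.det.val| = 1 := by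
  obtain ⟨γ, rfl⟩ := hh
  simp

lemma mul (hF : Fam k F) (hG : Fam l G) : Fam (k + l) (fun q => F q * G q) where
  holo q := (hF.holo q).mul (hG.holo q)
  bdd q := (hF.bdd q).mul (hG.bdd q)
  slash h hh q := by
    rw [ModularForm.mul_slash, abs_det hh, one_smul, hF.slash h hh q, hG.slash h hh q]

lemma pow (hF : Fam k F) (n : ℕ) : Fam (n * k) (fun q => F q ^ n) := by
  induction n with
  | zero =>
    refine ⟨fun q => ?_, fun q => ?_, fun h hh q => ?_⟩
    · simp only [pow_zero]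
      exact mdifferentiable_const
    · simp only [pow_zero]
      exact Filter.const_boundedAtFilter _ _
    · obtain ⟨γ, rfl⟩ := hh
      simp only [pow_zero, Nat.cast_zero, zero_mul]
      exact ModularForm.is_invariant_one' γ
  | succ n ih =>
    have := ih.mul hF
    have h2 : ((n + 1 : ℕ) : ℤ) * k = n * k + k := by push_cast; ring
    rw [h2]
    simpa [pow_succ] using this

/-- The sum of a family is a level one form. -/
lemma sum [Fintype X] (hF : Fam k F) : IsMF 𝒮ℒ k (∑ q, F q) := by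
  refine ⟨mkLevelOne k (∑ q, F q) ?_ ?_ ?_, rfl⟩
  · exact MDifferentiable.sum fun q _ => hF.holo q
  · rw [IsBoundedAtImInfty, Filter.BoundedAtFilter, Finset.sum_fn]
    exact .fun_sum fun q _ => hF.bdd q
  · intro h hh
    rw [SlashAction.sum_slash]
    simp_rw [hF.slash h hh]
    exact Equiv.sum_comp (MulAction.toPerm ((⟨h, hh⟩ : 𝒮ℒ)⁻¹)) F

/-- the elementary symmetric functions of a family -/
def esymm [Fintype X] (F : X → ℍ → ℂ) (i : ℕ) : ℍ → ℂ :=
  ∑ t ∈ Finset.powersetCard i Finset.univ, ∏ q ∈ t, F q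

omit [MulAction 𝒮ℒ X] in
lemma esymm_apply [Fintype X] (F : X → ℍ → ℂ) (i : ℕ) (z : ℍ) :
    esymm F i z = (Finset.univ.val.map fun q => F q z).esymm i := by
  rw [Finset.esymm_map_val, esymm, Finset.sum_apply]
  simp

lemma esymm_slash [Fintype X] (hF : Fam k F) (i : ℕ) (h : GL (Fin 2) ℝ) (hh : h ∈ 𝒮ℒ) :
    esymm F i ∣[(k * i : ℤ)] h = esymm F i := by
  classical
  rw [esymm, SlashAction.sum_slash]
  have h1 : ∀ t ∈ Finset.powersetCard i (Finset.univ : Finset X),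
      (∏ q ∈ t, F q) ∣[(k * i : ℤ)] h = ∏ q ∈ t.map (MulAction.toPerm ((⟨h, hh⟩ : 𝒮ℒ)⁻¹)).toEmbedding,
        F q := by
    intro t ht
    have hcard : i = t.card := (Finset.mem_powersetCard.mp ht).2.symm
    rw [Finset.prod_map]
    subst hcard
    rw [ModularForm.prod_slash, abs_det hh, one_zpow, one_smul]
    refine Finset.prod_congr rfl fun q _ => ?_
    rw [hF.slash h hh]
    rfl
  rw [Finset.sum_congr rfl h1]
  refine Finset.sum_bij' (fun t _ => t.map (MulAction.toPerm ((⟨h, hh⟩ : 𝒮ℒ)⁻¹)).toEmbedding)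
    (fun t _ => t.map (MulAction.toPerm ((⟨h, hh⟩ : 𝒮ℒ))).toEmbedding) ?_ ?_ ?_ ?_ ?_
  · intro t ht
    rw [Finset.mem_powersetCard] at ht ⊢
    exact ⟨Finset.subset_univ _, by rw [Finset.card_map]; exact ht.2⟩
  · intro t ht
    rw [Finset.mem_powersetCard] at ht ⊢
    exact ⟨Finset.subset_univ _, by rw [Finset.card_map]; exact ht.2⟩
  · intro t ht
    rw [Finset.map_map]
    convert Finset.map_refl
    ext x
    simp
  · intro t ht
    rw [Finset.map_map]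
    convert Finset.map_refl
    ext x
    simp
  · intro t ht
    rfl

lemma mdiff_prod (hF : Fam k F) (t : Finset X) : MDifferentiable 𝓘(ℂ) 𝓘(ℂ) (∏ q ∈ t, F q) :=
  MDifferentiable.prod fun q _ => hF.holo q

lemma bdd_prod (hF : Fam k F) (t : Finset X) : IsBoundedAtImInfty (∏ q ∈ t, F q) := by
  classical
  induction t using Finset.induction_on with
  | empty =>
    rw [Finset.prod_empty]
    exact Filter.const_boundedAtFilter _ _
  | insert a s ha ih =>
    rw [Finset.prod_insert ha]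
    exact (hF.bdd a).mul ih

lemma zero_prod (hF : Fam k F) (h0 : ∀ q, IsZeroAtImInfty (F q)) (t : Finset X)
    (ht : t.Nonempty) : IsZeroAtImInfty (∏ q ∈ t, F q) := by
  classical
  obtain ⟨a, ha⟩ := ht
  rw [← Finset.mul_prod_erase t F ha]
  have h1 := h0 a
  have h2 := hF.bdd_prod (t.erase a)
  rw [IsZeroAtImInfty, Filter.ZeroAtFilter] at h1 ⊢
  rw [IsBoundedAtImInfty, Filter.BoundedAtFilter] at h2
  rw [← Asymptotics.isLittleO_one_iff (F := ℝ)] at h1 ⊢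
  have := h1.mul_isBigO h2
  have h3 : (fun x : ℍ => (1 : ℝ) * (1 : ℍ → ℝ) x) = fun _ => 1 := by ext; simp
  rw [h3] at this
  exact this

lemma isMF_esymm [Fintype X] (hF : Fam k F) (i : ℕ) : IsMF 𝒮ℒ (k * i) (esymm F i) := by
  refine ⟨mkLevelOne _ (esymm F i) ?_ ?_ (hF.esymm_slash i), rfl⟩
  · exact MDifferentiable.sum fun t _ => hF.mdiff_prod t
  · rw [esymm, IsBoundedAtImInfty, Filter.BoundedAtFilter, Finset.sum_fn]
    exact .fun_sum fun t _ => hF.bdd_prod t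

lemma isCusp_esymm [Fintype X] (hF : Fam k F) (h0 : ∀ q, IsZeroAtImInfty (F q)) (i : ℕ)
    (hi : i ≠ 0) : ∃ c : CuspForm 𝒮ℒ (k * i), (c : ℍ → ℂ) = esymm F i := by
  refine ⟨mkLevelOneCusp _ (esymm F i) ?_ ?_ (hF.esymm_slash i), rfl⟩
  · exact MDifferentiable.sum fun t _ => hF.mdiff_prod t
  · rw [esymm, IsZeroAtImInfty, Filter.ZeroAtFilter, Finset.sum_fn]
    rw [show (0 : ℂ) = ∑ t ∈ Finset.powersetCard i (Finset.univ : Finset X), 0 by simp]
    refine tendsto_finsetSum _ fun t ht => ?_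
    refine hF.zero_prod h0 t ?_
    rw [← Finset.card_pos, (Finset.mem_powersetCard.mp ht).2]
    exact Nat.pos_of_ne_zero hi

end Fam

/-! ### Families of translates of modular forms -/

section Translates

variable {𝒢 : Subgroup (GL (Fin 2) ℝ)} [𝒢.IsArithmetic] {k : ℤ}

/-- the finite `𝒮ℒ`-set of cosets -/
abbrev CosetSpace (𝒢 : Subgroup (GL (Fin 2) ℝ)) : Type := 𝒮ℒ ⧸ (𝒢.subgroupOf 𝒮ℒ)

lemma translate_good {F : Type*} [FunLike F ℍ ℂ] [ModularFormClass F 𝒢 k] (f : F)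
    (h : GL (Fin 2) ℝ) (hh : h ∈ 𝒮ℒ) :
    MDifferentiable 𝓘(ℂ) 𝓘(ℂ) ((f : ℍ → ℂ) ∣[k] h) ∧ IsBoundedAtImInfty ((f : ℍ → ℂ) ∣[k] h) := by
  refine ⟨(ModularForm.translate f h).holo', ?_⟩
  obtain ⟨γ, rfl⟩ := hh
  have hc : IsCusp (Matrix.SpecialLinearGroup.mapGL ℝ γ • (∞ : OnePoint ℝ)) 𝒢 := by
    rw [Subgroup.IsArithmetic.isCusp_iff_isCusp_SL2Z]
    exact isCusp_SL2Z_iff'.mpr ⟨γ, rfl⟩
  exact ModularFormClass.bdd_at_cusps f hc _ rfl

lemma translate_zero {F : Type*} [FunLike F ℍ ℂ] [CuspFormClass F 𝒢 k] (f : F)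
    (h : GL (Fin 2) ℝ) (hh : h ∈ 𝒮ℒ) : IsZeroAtImInfty ((f : ℍ → ℂ) ∣[k] h) := by
  obtain ⟨γ, rfl⟩ := hh
  have hc : IsCusp (Matrix.SpecialLinearGroup.mapGL ℝ γ • (∞ : OnePoint ℝ)) 𝒢 := by
    rw [Subgroup.IsArithmetic.isCusp_iff_isCusp_SL2Z]
    exact isCusp_SL2Z_iff'.mpr ⟨γ, rfl⟩
  exact CuspFormClass.zero_at_cusps f hc _ rfl

/-- The family of translates of a modular form. -/
lemma fam_quotientFunc {F : Type*} [FunLike F ℍ ℂ] [ModularFormClass F 𝒢 k] (f : F) :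
    Fam (X := CosetSpace 𝒢) k (SlashInvariantForm.quotientFunc f) where
  holo := Quotient.forall.mpr fun ⟨r, hr⟩ => (translate_good f r⁻¹ (inv_mem hr)).1
  bdd := Quotient.forall.mpr fun ⟨r, hr⟩ => (translate_good f r⁻¹ (inv_mem hr)).2
  slash h hh q := SlashInvariantForm.quotientFunc_smul f hh q

lemma zero_quotientFunc {F : Type*} [FunLike F ℍ ℂ] [CuspFormClass F 𝒢 k] (f : F)
    (q : CosetSpace 𝒢) : IsZeroAtImInfty (SlashInvariantForm.quotientFunc f q) := by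
  induction q using Quotient.inductionOn with
  | _ r => exact translate_zero f _ (inv_mem r.2)

instance : Finite (CosetSpace 𝒢) :=
  Subgroup.finite_quotient_of_finiteIndex

/-- **(B1)** integral equation of a cusp form over level one cusp forms -/
theorem cuspForm_integral (f : CuspForm 𝒢 k) :
    ∃ n : ℕ, 0 < n ∧ ∃ c : (i : ℕ) → CuspForm 𝒮ℒ ((i : ℤ) * k),
      ∀ τ, f τ ^ n + ∑ i ∈ Finset.Icc 1 n, c i τ * f τ ^ (n - i) = 0 := by
  classical
  let := Fintype.ofFinite (CosetSpace 𝒢)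
  set F : CosetSpace 𝒢 → ℍ → ℂ := SlashInvariantForm.quotientFunc f with hFdef
  have hF : Fam k F := fam_quotientFunc f
  have h0 : ∀ q, IsZeroAtImInfty (F q) := zero_quotientFunc f
  set q0 : CosetSpace 𝒢 := ⟦1⟧ with hq0
  have hFq0 : F q0 = f := by
    rw [hFdef, hq0, SlashInvariantForm.quotientFunc_mk]
    simp
  have hc : ∀ i : ℕ, ∃ c : CuspForm 𝒮ℒ ((i : ℤ) * k), i ≠ 0 → ∀ z, c z =
      (-1) ^ i * Fam.esymm F i z := by
    intro i
    by_cases hi : i = 0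
    · exact ⟨0, fun h => absurd hi h⟩
    · obtain ⟨c, hc⟩ := hF.isCusp_esymm h0 i hi
      refine ⟨CuspForm.mcast (mul_comm _ _) (((-1 : ℂ) ^ i) • c), fun _ z => ?_⟩
      have : (((-1 : ℂ) ^ i) • c) z = (-1) ^ i * Fam.esymm F i z := by
        rw [← hc]; rfl
      exact this
  choose c hc using hc
  refine ⟨Fintype.card (CosetSpace 𝒢), Fintype.card_pos, c, fun τ => ?_⟩
  have key := congrArg (Polynomial.eval (f τ))
    (Multiset.prod_X_sub_X_eq_sum_esymm (Finset.univ.val.map fun q => F q τ))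
  have hz : Polynomial.eval (f τ) (Multiset.map (fun t => Polynomial.X - Polynomial.C t)
      (Multiset.map (fun q => F q τ) Finset.univ.val)).prod = 0 := by
    rw [Multiset.map_map, Polynomial.eval_multiset_prod, Multiset.prod_eq_zero_iff,
      Multiset.map_map, Multiset.mem_map]
    refine ⟨q0, by simp, ?_⟩
    simp [hFq0]
  rw [hz] at key
  rw [Polynomial.eval_finsetSum] at key
  simp only [Multiset.card_map, Finset.card_val, Finset.card_univ] at key
  rw [Finset.range_eq_Ico, Finset.sum_eq_sum_Ico_succ_bot (Nat.succ_pos _)] at key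
  simp only [pow_zero, one_mul, Nat.sub_zero, Multiset.esymm, Multiset.powersetCard_zero_left,
    Multiset.map_singleton, Multiset.prod_zero, Multiset.sum_singleton, map_one,
    Polynomial.eval_pow, Polynomial.eval_X] at key
  rw [key]
  congr 1
  refine Finset.sum_congr ?_ fun i hi => ?_
  · ext x; simp
  · rw [Finset.mem_Ico] at hi
    rw [hc i (by omega), Fam.esymm_apply]
    simp [Multiset.esymm]
    ring

end Translates

end Fermat.Agent.H78
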