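import Mathlib
import Fermat.Agent.H78Coset

/-!
Lagrange interpolation for modular forms (part (B2) of the proof of S23).
-/

set_option autoImplicit false

open UpperHalfPlane ModularForm ModularFormClass MatrixGroups EisensteinSeries OnePoint
open scoped Manifold

noncomputable section

namespace Fermat.Agent.H78

section Algebra

open Polynomial

variable {K : Type*} [Field K] {ι : Type*} [Fintype ι] (x y : ι → K) (q0 : ι)

/-- the polynomial with the given roots -/
def rootPoly : K[X] := ∏ q, (X - C (x q))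

lemma rootPoly_natDegree : (rootPoly x).natDegree = Fintype.card ι := by
  rw [rootPoly, natDegree_prod_of_monic _ _ fun i _ => monic_X_sub_C _]
  simp

lemma rootPoly_eval (q : ι) : (rootPoly x).eval (x q) = 0 := by
  rw [rootPoly, eval_prod, Finset.prod_eq_zero (Finset.mem_univ q)]
  simp

lemma rootPoly_derivative_eval [DecidableEq ι] :
    (rootPoly x).derivative.eval (x q0) = ∏ q ∈ Finset.univ.erase q0, (x q0 - x q) := by
  rw [rootPoly, ← Finset.mul_prod_erase _ _ (Finset.mem_univ q0), derivative_mul]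
  simp [eval_prod]

lemma rootPoly_coeff {l : ℕ} (hl : l ≤ Fintype.card ι) :
    (rootPoly x).coeff l = (-1) ^ (Fintype.card ι - l) *
      (Finset.univ.val.map x).esymm (Fintype.card ι - l) := by
  have h := Multiset.prod_X_sub_C_coeff (Finset.univ.val.map x) (k := l)
    (by simpa using hl)
  rw [Multiset.map_map] at h
  simpa [rootPoly] using h

lemma rootPoly_derivative_eval' :
    (rootPoly x).derivative.eval (x q0) = ∑ i ∈ Finset.range (Fintype.card ι),
      ((i + 1 : ℕ) : K) * (rootPoly x).coeff (i + 1) * x q0 ^ i := by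
  have hdeg : (rootPoly x).derivative.natDegree < Fintype.card ι := by
    have hpos : 0 < Fintype.card ι := Fintype.card_pos_iff.mpr ⟨q0⟩
    rw [← rootPoly_natDegree x]
    exact natDegree_derivative_lt (by rw [rootPoly_natDegree]; omega)
  rw [eval_eq_sum_range' hdeg]
  refine Finset.sum_congr rfl fun i _ => ?_
  rw [coeff_derivative]
  push_cast
  ring

/-- divided difference of the root polynomial -/
lemma dd_eq [DecidableEq ι] (q : ι) : (∑ l ∈ Finset.range (Fintype.card ι + 1), (rootPoly x).coeff l *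
      ∑ i ∈ Finset.range l, x q0 ^ i * x q ^ (l - 1 - i)) =
    if q = q0 then (rootPoly x).derivative.eval (x q0) else 0 := by
  set D := ∑ l ∈ Finset.range (Fintype.card ι + 1), (rootPoly x).coeff l *
      ∑ i ∈ Finset.range l, x q0 ^ i * x q ^ (l - 1 - i) with hD
  have h1 : D * (x q0 - x q) = 0 := by
    have : D * (x q0 - x q) = (rootPoly x).eval (x q0) - (rootPoly x).eval (x q) := by
      rw [eval_eq_sum_range, eval_eq_sum_range, ← Finset.sum_sub_distrib, hD, Finset.sum_mul,
        rootPoly_natDegree]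
      refine Finset.sum_congr rfl fun l _ => ?_
      rw [mul_assoc, geom_sum₂_mul]
      ring
    rw [this, rootPoly_eval, rootPoly_eval, sub_zero]
  by_cases hx : x q = x q0
  · have h2 : D = (rootPoly x).derivative.eval (x q0) := by
      rw [hD, rootPoly_derivative_eval', Finset.sum_range_succ']
      simp only [Finset.range_zero, Finset.sum_empty, mul_zero, add_zero]
      refine Finset.sum_congr rfl fun l _ => ?_
      have : ∑ i ∈ Finset.range (l + 1), x q0 ^ i * x q ^ (l + 1 - 1 - i) =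
          ((l + 1 : ℕ) : K) * x q0 ^ l := by
        rw [hx, Finset.sum_congr rfl (g := fun _ => x q0 ^ l)]
        · simp
        · intro i hi
          rw [Finset.mem_range] at hi
          rw [← pow_add]
          congr 1
          omega
      rw [this]
      ring
    rw [h2]
    split_ifs with hq
    · rfl
    · rw [rootPoly_derivative_eval]
      refine Finset.prod_eq_zero (i := q) (by simp [hq]) (by rw [hx, sub_self])
  · have hne : x q0 - x q ≠ 0 := sub_ne_zero.mpr (Ne.symm hx)
    rw [if_neg (by rintro rfl; exact hx rfl)]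
    exact (mul_eq_zero.mp h1).resolve_right hne

/-- Lagrange interpolation in Horner form. -/
theorem lagrange_identity :
    (rootPoly x).derivative.eval (x q0) * y q0 = ∑ i ∈ Finset.range (Fintype.card ι),
      (∑ l ∈ Finset.Ico (i + 1) (Fintype.card ι + 1), (rootPoly x).coeff l *
        ∑ q, y q * x q ^ (l - 1 - i)) * x q0 ^ i := by
  classical
  have h1 : (rootPoly x).derivative.eval (x q0) * y q0 = ∑ q, y q *
      (∑ l ∈ Finset.range (Fintype.card ι + 1), (rootPoly x).coeff l *
      ∑ i ∈ Finset.range l, x q0 ^ i * x q ^ (l - 1 - i)) := by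
    simp_rw [dd_eq]
    simp [mul_comm]
  rw [h1]
  simp_rw [Finset.mul_sum, Finset.sum_mul]
  rw [Finset.sum_comm]
  have h2 : ∀ F : ℕ → ℕ → K, ∑ i ∈ Finset.range (Fintype.card ι),
      ∑ l ∈ Finset.Ico (i + 1) (Fintype.card ι + 1), F i l =
      ∑ l ∈ Finset.range (Fintype.card ι + 1), ∑ i ∈ Finset.range l, F i l := by
    intro F
    rw [Finset.sum_sigma', Finset.sum_sigma']
    refine Finset.sum_bij' (fun a _ => ⟨a.2, a.1⟩) (fun a _ => ⟨a.2, a.1⟩) ?_ ?_ ?_ ?_ ?_
    · rintro ⟨i, l⟩ h
      simp only [Finset.mem_sigma, Finset.mem_range, Finset.mem_Ico] at h ⊢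
      omega
    · rintro ⟨l, i⟩ h
      simp only [Finset.mem_sigma, Finset.mem_range, Finset.mem_Ico] at h ⊢
      omega
    · rintro ⟨i, l⟩ _; rfl
    · rintro ⟨l, i⟩ _; rfl
    · rintro ⟨i, l⟩ _; rfl
  rw [h2]
  refine Finset.sum_congr rfl fun l _ => ?_
  rw [Finset.sum_comm]
  refine Finset.sum_congr rfl fun i _ => ?_
  refine Finset.sum_congr rfl fun q _ => ?_
  ring

end Algebra

section Forms

variable {𝒢 : Subgroup (GL (Fin 2) ℝ)} [𝒢.IsArithmetic]

/-- **(B2)**, general form. -/
theorem lagrange_forms (hle : 𝒢 ≤ 𝒮ℒ) [𝒢.HasDetOne] {w : ℤ} (g : ModularForm 𝒢 w)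
    (hstab : ∀ h ∈ 𝒮ℒ, (g : ℍ → ℂ) ∣[w] h = g → h ∈ 𝒢) :
    ∃ (n : ℕ) (D : ModularForm 𝒢 (w * (n - 1))), 0 < n ∧ D ≠ 0 ∧
      (∃ Gi : (i : ℕ) → ModularForm 𝒮ℒ (w * (n - 1 - i)),
        ∀ τ, D τ = ∑ i ∈ Finset.range n, Gi i τ * g τ ^ i) ∧
      ∀ (k : ℤ) (f : ModularForm 𝒢 k), ∃ Gi : (i : ℕ) → ModularForm 𝒮ℒ (k + w * (n - 1 - i)),
        ∀ τ, D τ * f τ = ∑ i ∈ Finset.range n, Gi i τ * g τ ^ i := by
  classical
  let := Fintype.ofFinite (CosetSpace 𝒢)
  set n := Fintype.card (CosetSpace 𝒢) with hn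
  set G : CosetSpace 𝒢 → ℍ → ℂ := SlashInvariantForm.quotientFunc g with hGdef
  have hG : Fam w G := fam_quotientFunc g
  set q0 : CosetSpace 𝒢 := ⟦1⟧ with hq0
  have hGq0 : G q0 = g := by
    rw [hGdef, hq0, SlashInvariantForm.quotientFunc_mk]
    simp
  -- the coefficients of the characteristic polynomial
  set b : ℕ → ℍ → ℂ := fun l τ => (rootPoly fun q => G q τ).coeff l with hb
  have hbMF : ∀ l ≤ n, IsMF 𝒮ℒ (w * (n - l)) (b l) := by
    intro l hl
    have h1 := (hG.isMF_esymm (n - l)).smul ((-1) ^ (n - l))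
    have h2 : ((-1 : ℂ) ^ (n - l)) • Fam.esymm G (n - l) = b l := by
      funext τ
      rw [hb]
      simp only
      rw [rootPoly_coeff _ (hn ▸ hl), Pi.smul_apply, Fam.esymm_apply, smul_eq_mul]
    rw [h2] at h1
    exact h1.cast (by push_cast [Nat.cast_sub hl]; ring)
  -- the function D
  set Df : ℍ → ℂ := fun τ => (rootPoly fun q => G q τ).derivative.eval (g τ) with hDf
  have hDf' : ∀ τ, Df τ = ∑ i ∈ Finset.range n, ((i + 1 : ℕ) : ℂ) * b (i + 1) τ * g τ ^ i := by
    intro τ
    have := rootPoly_derivative_eval' (fun q => G q τ) q0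
    simp only [hGq0] at this
    rw [hDf]
    exact this
  have hgMF : IsMF 𝒢 w g := ⟨g, rfl⟩
  have hDMF : IsMF 𝒢 (w * (n - 1)) Df := by
    have h1 : Df = ∑ i ∈ Finset.range n, (((i + 1 : ℕ) : ℂ) • b (i + 1)) * (g : ℍ → ℂ) ^ i := by
      funext τ
      rw [hDf' τ, Finset.sum_apply]
      rfl
    rw [h1]
    refine IsMF.sum fun i hi => ?_
    rw [Finset.mem_range] at hi
    refine ((((hbMF (i + 1) (by omega)).smul _).restrict hle).mul (hgMF.pow i)).cast ?_
    push_cast; ring
  obtain ⟨D, hD⟩ := hDMF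
  have hGi : ∀ i : ℕ, ∃ F : ModularForm 𝒮ℒ (w * (n - 1 - i)), i < n → ∀ τ, F τ =
      ((i + 1 : ℕ) : ℂ) * b (i + 1) τ := by
    intro i
    by_cases hi : i < n
    · obtain ⟨F, hF⟩ := ((hbMF (i + 1) (by omega)).smul ((i + 1 : ℕ) : ℂ)).cast
        (l := w * (n - 1 - i)) (by push_cast; ring)
      exact ⟨F, fun _ τ => by rw [hF]; rfl⟩
    · exact ⟨0, fun h => absurd h hi⟩
  choose Gi hGi using hGi
  refine ⟨n, D, Fintype.card_pos_iff.mpr ⟨q0⟩, ?_, ⟨Gi, fun τ => ?_⟩, fun k f => ?_⟩
  · -- D ≠ 0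
    intro hD0
    have hDf0 : Df = 0 := by rw [← hD, hD0]; rfl
    have h1 : Df = ∏ q ∈ Finset.univ.erase q0, ((g : ℍ → ℂ) - G q) := by
      funext τ
      have := rootPoly_derivative_eval (fun q => G q τ) q0
      simp only [hGq0] at this
      rw [hDf, Finset.prod_apply]
      exact this
    rw [h1, UpperHalfPlane.prod_eq_zero_iff] at hDf0
    · obtain ⟨q, hq, hq0'⟩ := hDf0
      rw [Finset.mem_erase] at hq
      apply hq.1
      have hgq : (g : ℍ → ℂ) = G q := sub_eq_zero.mp hq0'
      obtain ⟨r, rfl⟩ := Quotient.exists_rep q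
      rw [hGdef, SlashInvariantForm.quotientFunc_mk] at hgq
      have hr := hstab _ (inv_mem r.2) hgq.symm
      rw [hq0, Quotient.eq, QuotientGroup.leftRel_apply, Subgroup.mem_subgroupOf]
      simpa using hr
    · intro q _
      exact (ModularFormClass.holo g).sub (hG.holo q)
  · rw [show D τ = Df τ from congrFun hD τ, hDf' τ]
    refine Finset.sum_congr rfl fun i hi => ?_
    rw [hGi i (Finset.mem_range.mp hi) τ]
  · -- interpolation
    set F : CosetSpace 𝒢 → ℍ → ℂ := SlashInvariantForm.quotientFunc f with hFdef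
    have hF : Fam k F := fam_quotientFunc f
    have hFq0 : F q0 = f := by
      rw [hFdef, hq0, SlashInvariantForm.quotientFunc_mk]
      simp
    have hTr : ∀ m : ℕ, IsMF 𝒮ℒ (k + m * w) (∑ q, F q * G q ^ m) := fun m =>
      (hF.mul (hG.pow m)).sum
    have hCi : ∀ i : ℕ, ∃ C : ModularForm 𝒮ℒ (k + w * (n - 1 - i)), i < n → ∀ τ, C τ =
        ∑ l ∈ Finset.Ico (i + 1) (n + 1), b l τ * ∑ q, F q τ * G q τ ^ (l - 1 - i) := by
      intro i
      by_cases hi : i < n
      · have : IsMF 𝒮ℒ (k + w * (n - 1 - i)) (∑ l ∈ Finset.Ico (i + 1) (n + 1),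
            b l * ∑ q, F q * G q ^ (l - 1 - i)) := by
          refine IsMF.sum fun l hl => ?_
          rw [Finset.mem_Ico] at hl
          refine ((hbMF l (by omega)).mul (hTr (l - 1 - i))).cast ?_
          rw [Nat.sub_sub, Nat.cast_sub (by omega)]
          push_cast; ring
        obtain ⟨C, hC⟩ := this
        refine ⟨C, fun _ τ => ?_⟩
        rw [hC]
        simp [Finset.sum_apply]
      · exact ⟨0, fun h => absurd h hi⟩
    choose C hC using hCi
    refine ⟨C, fun τ => ?_⟩
    have key := lagrange_identity (fun q => G q τ) (fun q => F q τ) q0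
    simp only [hGq0, hFq0] at key
    rw [show D τ = Df τ from congrFun hD τ, hDf]
    simp only
    rw [key]
    refine Finset.sum_congr rfl fun i hi => ?_
    rw [hC i (Finset.mem_range.mp hi) τ]

end Forms

end Fermat.Agent.H78
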