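import Mathlib
import Fermat.Prelude.Def_FLTPrelim_Modularity

/-!
The ring `H78.BRing` of holomorphic, `1`-periodic functions on the upper half plane which are
bounded at `i∞`, with its injective q-expansion homomorphism to `ℂ⟦X⟧`;
Galois conjugates of level one forms.
-/

set_option autoImplicit false

open UpperHalfPlane ModularForm ModularFormClass MatrixGroups EisensteinSeries
open scoped Manifold

noncomputable section

namespace Fermat.Agent.H78

/-- holomorphic, `1`-periodic functions on the upper half plane which are bounded at `i∞` -/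
structure InB (F : ℍ → ℂ) : Prop where
  holo : MDifferentiable 𝓘(ℂ) 𝓘(ℂ) F
  bdd : IsBoundedAtImInfty F
  per : Function.Periodic (F ∘ ofComplex) 1

lemma InB.analytic {F : ℍ → ℂ} (hF : InB F) : AnalyticAt ℂ (cuspFunction 1 F) 0 :=
  analyticAt_cuspFunction_zero one_pos (by simpa using hF.per) hF.holo hF.bdd

lemma InB.add {F G : ℍ → ℂ} (hF : InB F) (hG : InB G) : InB (F + G) where
  holo := hF.holo.add hG.holo
  bdd := hF.bdd.add hG.bdd
  per := by
    intro z
    have h1 := hF.per z
    have h2 := hG.per z
    simp only [Function.comp_apply, Pi.add_apply] at *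
    rw [h1, h2]

lemma InB.mul {F G : ℍ → ℂ} (hF : InB F) (hG : InB G) : InB (F * G) where
  holo := hF.holo.mul hG.holo
  bdd := hF.bdd.mul hG.bdd
  per := by
    intro z
    have h1 := hF.per z
    have h2 := hG.per z
    simp only [Function.comp_apply, Pi.mul_apply] at *
    rw [h1, h2]

lemma InB.neg {F : ℍ → ℂ} (hF : InB F) : InB (-F) where
  holo := hF.holo.neg
  bdd := hF.bdd.neg
  per := by
    intro z
    have h1 := hF.per z
    simp only [Function.comp_apply, Pi.neg_apply] at *
    rw [h1]

lemma InB.const (c : ℂ) : InB (fun _ => c) where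
  holo := mdifferentiable_const
  bdd := Filter.const_boundedAtFilter _ _
  per := by intro z; rfl

/-- The ring of holomorphic `1`-periodic functions bounded at `i∞`. -/
def BRing : Subring (ℍ → ℂ) where
  carrier := {F | InB F}
  mul_mem' := InB.mul
  one_mem' := InB.const 1
  add_mem' := InB.add
  zero_mem' := InB.const 0
  neg_mem' := InB.neg

lemma mem_BRing {F : ℍ → ℂ} : F ∈ BRing ↔ InB F := Iff.rfl

/-- the q-expansion homomorphism -/
def qHom : BRing →+* PowerSeries ℂ where
  toFun F := qExpansion 1 (F : ℍ → ℂ)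
  map_one' := qExpansion_one 1
  map_mul' F G := qExpansion_mul F.2.analytic G.2.analytic
  map_zero' := qExpansion_zero 1
  map_add' F G := qExpansion_add F.2.analytic G.2.analytic

lemma qHom_apply (F : BRing) : qHom F = qExpansion 1 (F : ℍ → ℂ) := rfl

lemma qHom_injective : Function.Injective qHom := by
  rw [injective_iff_map_eq_zero]
  intro F hF
  have := (qExpansion_eq_zero_iff (h := 1) one_pos (by simpa using F.2.per) F.2.holo F.2.bdd).mp hF
  exact Subtype.ext this

lemma qExpansion_eq_iff {F G : ℍ → ℂ} (hF : InB F) (hG : InB G) :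
    qExpansion 1 F = qExpansion 1 G ↔ F = G :=
  ⟨fun h => congrArg Subtype.val (qHom_injective (a₁ := ⟨F, hF⟩) (a₂ := ⟨G, hG⟩) h),
    fun h => by rw [h]⟩

instance : IsDomain BRing := qHom_injective.isDomain

/-- modular forms for groups containing `T` are in `BRing` -/
lemma inB_of_modularFormClass {F : Type*} [FunLike F ℍ ℂ] {Γ : Subgroup (GL (Fin 2) ℝ)} {k : ℤ}
    [ModularFormClass F Γ k] (f : F) (hΓ : (1 : ℝ) ∈ Γ.strictPeriods) : InB f where
  holo := ModularFormClass.holo f
  bdd := by
    have : Fact (IsCusp OnePoint.infty Γ) := ⟨Γ.isCusp_of_mem_strictPeriods one_pos hΓ⟩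
    exact ModularFormClass.bdd_at_infty f
  per := by
    simpa using SlashInvariantFormClass.periodic_comp_ofComplex f hΓ

section LevelOne

variable (σ : ℂ →+* ℂ)

lemma map_qExpansion_E {k : ℕ} (hk : 3 ≤ k) (hk2 : Even k) :
    (qExpansion 1 (E hk)).map σ = qExpansion 1 (E hk) := by
  ext n
  rw [PowerSeries.coeff_map, E_qExpansion_coeff hk hk2]
  split_ifs <;> simp [map_ofNat]

lemma map_qExpansion_discriminant :
    (qExpansion 1 CuspForm.discriminant).map σ = qExpansion 1 CuspForm.discriminant := by
  have h4 : InB (E₄ : ℍ → ℂ) := inB_of_modularFormClass _ one_mem_strictPeriods_SL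
  have h6 : InB (E₆ : ℍ → ℂ) := inB_of_modularFormClass _ one_mem_strictPeriods_SL
  have hD : InB (CuspForm.discriminant : ℍ → ℂ) :=
    inB_of_modularFormClass _ one_mem_strictPeriods_SL
  set e4 : BRing := ⟨E₄, h4⟩
  set e6 : BRing := ⟨E₆, h6⟩
  set d : BRing := ⟨CuspForm.discriminant, hD⟩
  have key : 1728 * d = e4 ^ 3 - e6 ^ 2 := by
    apply Subtype.ext
    funext z
    have := discriminant_eq_E₄_cube_sub_E₆_sq z
    have h2 : (CuspForm.discriminant z) = (E₄ z ^ 3 - E₆ z ^ 2) / 1728 := this
    change 1728 * CuspForm.discriminant z = E₄ z ^ 3 - E₆ z ^ 2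
    rw [h2]; field_simp
  have hq : 1728 * qHom d = qHom e4 ^ 3 - qHom e6 ^ 2 := by
    rw [← map_pow, ← map_pow, ← map_sub, ← key, map_mul, map_ofNat]
  have e4σ : (qHom e4).map σ = qHom e4 := map_qExpansion_E σ (by norm_num) ⟨2, rfl⟩
  have e6σ : (qHom e6).map σ = qHom e6 := map_qExpansion_E σ (by norm_num) ⟨3, rfl⟩
  have hq' : 1728 * (qHom d).map σ = qHom e4 ^ 3 - qHom e6 ^ 2 := by
    have := congrArg (PowerSeries.map σ) hq
    rw [map_mul, map_sub, map_pow, map_pow, e4σ, e6σ, map_ofNat] at this
    exact this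
  have : (1728 : PowerSeries ℂ) * (qHom d).map σ = 1728 * qHom d := by rw [hq, hq']
  have h1728 : (1728 : PowerSeries ℂ) ≠ 0 := by
    have : (1728 : PowerSeries ℂ) = PowerSeries.C (1728 : ℂ) := (map_ofNat PowerSeries.C 1728).symm
    rw [this]
    intro h
    have := PowerSeries.C_injective (h.trans (map_zero _).symm)
    norm_num at this
  exact mul_left_cancel₀ h1728 this

theorem levelOne_conj_nat (k : ℕ) (f : ModularForm 𝒮ℒ (k : ℤ)) :
    ∃ f' : ModularForm 𝒮ℒ (k : ℤ), qExpansion 1 f' = (qExpansion 1 f).map σ := by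
  induction k using Nat.strong_induction_on with | h k ih =>
  by_cases hodd : Odd k
  · have : f = 0 := ModularForm.levelOne_odd_weight_eq_zero (by exact_mod_cast hodd) f
    exact ⟨0, by subst this; simp [qExpansion_zero]⟩
  have heven : Even k := Nat.not_odd_iff_even.mp hodd
  rcases Nat.lt_or_ge k 3 with hk | hk
  · have : k = 0 ∨ k = 2 := by
      rcases heven with ⟨m, rfl⟩; omega
    rcases this with rfl | rfl
    · obtain ⟨c, hc⟩ := levelOne_weight_zero_const f
      refine ⟨ModularForm.const (σ c), ?_⟩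
      have h1 : (f : ℍ → ℂ) = c • (1 : ℍ → ℂ) := by rw [hc]; ext; simp
      have h2 : ((ModularForm.const (σ c) : ModularForm 𝒮ℒ 0) : ℍ → ℂ) = (σ c) • (1 : ℍ → ℂ) := by
        ext; simp [ModularForm.const_apply]
      have h3 : AnalyticAt ℂ (cuspFunction 1 (1 : ℍ → ℂ)) 0 := (InB.const 1).analytic
      rw [h1]
      erw [h2]
      rw [UpperHalfPlane.qExpansion_smul h3, UpperHalfPlane.qExpansion_smul h3, qExpansion_one]
      ext n
      simp only [PowerSeries.coeff_smul, PowerSeries.coeff_map, PowerSeries.coeff_one, smul_eq_mul,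
        mul_ite, mul_one, mul_zero]
      split_ifs <;> simp
    · have := rank_zero_iff_forall_zero.mp levelOne_weight_two_rank_zero f
      exact ⟨0, by subst this; simp [qExpansion_zero]⟩
  · set a : ℂ := (qExpansion 1 f).coeff 0 with ha
    have hper := one_mem_strictPeriods_SL
    set c : ModularForm 𝒮ℒ k := f - a • E hk with hc
    have hc0 : (qExpansion 1 c).coeff 0 = 0 := by
      rw [hc, FunLike.coe_sub, ModularForm.qExpansion_sub one_pos hper, FunLike.coe_smul,
        ModularForm.qExpansion_smul one_pos hper, map_sub, PowerSeries.coeff_smul,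
        E_qExpansion_coeff_zero hk heven, smul_eq_mul, mul_one, ← ha, sub_self]
    have hc1 := ModularForm.qExpansion_eq_qExpansion_discriminant_mul c hc0
    set g := CuspForm.discriminantEquiv (toCuspForm c hc0) with hg
    have hg' : ∃ g' : ModularForm 𝒮ℒ ((k : ℤ) - 12), qExpansion 1 g' = (qExpansion 1 g).map σ := by
      rcases lt_or_ge k 12 with h12 | h12
      · have : g = 0 := rank_zero_iff_forall_zero.mp
          (ModularForm.levelOne_neg_weight_rank_zero (by lia)) g
        exact ⟨0, by rw [this]; simp [qExpansion_zero]⟩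
      · have hcast : ((k : ℤ) - 12) = ((k - 12 : ℕ) : ℤ) := by omega
        obtain ⟨g', hg'⟩ := ih (k - 12) (by omega) (ModularForm.mcast hcast g)
        exact ⟨ModularForm.mcast hcast.symm g', by simpa using hg'⟩
    obtain ⟨g', hg'⟩ := hg'
    have hfc : f = a • E hk + c := by rw [hc]; abel
    refine ⟨(σ a) • E hk + (CuspForm.toModularFormₗ (CuspForm.ofMulDiscriminant g')), ?_⟩
    have h1 : ((CuspForm.toModularFormₗ (CuspForm.ofMulDiscriminant g') : ModularForm 𝒮ℒ k) : ℍ → ℂ)
        = (CuspForm.discriminant : ℍ → ℂ) * g' := by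
      ext z; rfl
    rw [hfc, FunLike.coe_add, FunLike.coe_add, ModularForm.qExpansion_add one_pos hper,
      ModularForm.qExpansion_add one_pos hper, FunLike.coe_smul, FunLike.coe_smul,
      ModularForm.qExpansion_smul one_pos hper, ModularForm.qExpansion_smul one_pos hper,
      hc1, h1, ModularForm.qExpansion_mul_coe one_pos hper, hg', map_add, map_mul]
    rw [show qExpansion 1 ModularForm.discriminant = qExpansion 1 CuspForm.discriminant from rfl,
      map_qExpansion_discriminant]
    congr 1
    ext n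
    have hE : σ ((qExpansion 1 (E hk)).coeff n) = (qExpansion 1 (E hk)).coeff n := by
      rw [← PowerSeries.coeff_map, map_qExpansion_E σ hk heven]
    rw [PowerSeries.coeff_smul, PowerSeries.coeff_map, PowerSeries.coeff_smul, smul_eq_mul,
      smul_eq_mul, map_mul, hE]

/-- Galois conjugates of level one forms. -/
theorem levelOne_conj (k : ℤ) (f : ModularForm 𝒮ℒ k) :
    ∃ f' : ModularForm 𝒮ℒ k, qExpansion 1 f' = (qExpansion 1 f).map σ := by
  rcases lt_or_ge k 0 with hk | hk
  · have : f = 0 := rank_zero_iff_forall_zero.mp (ModularForm.levelOne_neg_weight_rank_zero hk) f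
    exact ⟨0, by subst this; simp [qExpansion_zero]⟩
  · lift k to ℕ using hk
    exact levelOne_conj_nat σ k f

end LevelOne

end Fermat.Agent.H78
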