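import Mathlib
import Fermat.Prelude.Def_FLTPrelim_Modularity
import Fermat.Prelude.Def_ModularForm_HeckeOperator
import Fermat.Agent.H78Lagrange
import Fermat.Agent.H78Ring

/-!
The form `E₄(Nτ)` of level `Γ₀(N)`: integral q-expansion and stabiliser exactly `Γ₀(N)`.
-/

set_option autoImplicit false

open UpperHalfPlane ModularForm ModularFormClass MatrixGroups EisensteinSeries OnePoint
open CongruenceSubgroup
open scoped Manifold

noncomputable section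

namespace Fermat.Agent.H78

variable (N : ℕ) [NeZero N]

local notation "M_" => heckeDiagMatrix N

lemma heckeDiag_eq_map : ∃ g : GL (Fin 2) ℚ,
    heckeDiagMatrix N = Matrix.GeneralLinearGroup.map (Rat.castHom ℝ) g := by
  have hp : N ≠ 0 := NeZero.ne N
  refine ⟨Matrix.GeneralLinearGroup.mkOfDetNeZero !![(N : ℚ), 0; 0, 1]
    (by rw [Matrix.det_fin_two_of]; simpa using hp), ?_⟩
  ext i j
  fin_cases i <;> fin_cases j <;>
    simp [heckeDiagMatrix, hp, upperTriangularGL, Matrix.GeneralLinearGroup.mkOfDetNeZero]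

lemma isCusp_rat_smul {Γ : Subgroup (GL (Fin 2) ℝ)} [Γ.IsArithmetic] {c : OnePoint ℝ}
    (hc : IsCusp c Γ) (g : GL (Fin 2) ℚ) :
    IsCusp (Matrix.GeneralLinearGroup.map (Rat.castHom ℝ) g • c) Γ := by
  rw [Subgroup.IsArithmetic.isCusp_iff_isCusp_SL2Z, isCusp_SL2Z_iff] at hc ⊢
  obtain ⟨c, rfl⟩ := hc
  exact ⟨g • c, by rw [← Rat.coe_castHom, OnePoint.map_smul]⟩

lemma mapGL_val (A : SL(2, ℤ)) :
    ((Matrix.SpecialLinearGroup.mapGL ℝ A : GL (Fin 2) ℝ) : Matrix (Fin 2) (Fin 2) ℝ) =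
      !![(A 0 0 : ℝ), A 0 1; A 1 0, A 1 1] := by
  ext i j
  fin_cases i <;> fin_cases j <;> simp

lemma mapGL_inv_val (A : SL(2, ℤ)) :
    (((Matrix.SpecialLinearGroup.mapGL ℝ A)⁻¹ : GL (Fin 2) ℝ) : Matrix (Fin 2) (Fin 2) ℝ) =
      !![(A 1 1 : ℝ), -A 0 1; -A 1 0, A 0 0] := by
  rw [← map_inv, mapGL_val]
  have h := Matrix.SpecialLinearGroup.SL2_inv_expl A
  have h00 : (A⁻¹) 0 0 = A 1 1 := by rw [h]; rfl
  have h01 : (A⁻¹) 0 1 = -A 0 1 := by rw [h]; rfl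
  have h10 : (A⁻¹) 1 0 = -A 1 0 := by rw [h]; rfl
  have h11 : (A⁻¹) 1 1 = A 0 0 := by rw [h]; rfl
  rw [h00, h01, h10, h11]
  push_cast
  rfl

/-- Conjugating `Γ₀(N)` into `SL₂(ℤ)`. -/
lemma diag_mul_gamma {γ : SL(2, ℤ)} (hγ : γ ∈ Gamma0 N) : ∃ γ' : SL(2, ℤ),
    heckeDiagMatrix N * (Matrix.SpecialLinearGroup.mapGL ℝ γ) =
      (Matrix.SpecialLinearGroup.mapGL ℝ γ') * heckeDiagMatrix N := by
  have hN : N ≠ 0 := NeZero.ne N
  rw [Gamma0_mem, ZMod.intCast_zmod_eq_zero_iff_dvd] at hγ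
  obtain ⟨c, hc⟩ := hγ
  have hdet := γ.det_coe
  rw [Matrix.det_fin_two] at hdet
  have hdet' : Matrix.det !![γ 0 0, N * γ 0 1; c, γ 1 1] = 1 := by
    rw [Matrix.det_fin_two_of]
    rw [hc] at hdet
    linear_combination hdet
  let γ' : SL(2, ℤ) := ⟨!![γ 0 0, N * γ 0 1; c, γ 1 1], hdet'⟩
  have h00 : γ' 0 0 = γ 0 0 := rfl
  have h01 : γ' 0 1 = N * γ 0 1 := rfl
  have h10 : γ' 1 0 = c := rfl
  have h11 : γ' 1 1 = γ 1 1 := rfl
  refine ⟨γ', ?_⟩
  apply Units.ext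
  rw [Units.val_mul, Units.val_mul, mapGL_val, mapGL_val, val_heckeDiagMatrix hN, h00, h01, h10,
    h11]
  have hcR : ((γ 1 0 : ℤ) : ℝ) = N * c := by rw [hc]; push_cast; rfl
  rw [hcR]
  ext i j
  fin_cases i <;> fin_cases j <;>
    simp [Matrix.mul_apply, Fin.sum_univ_two, mul_comm]

/-- For every `γ ∈ SL₂(ℤ)` there is `δ ∈ SL₂(ℤ)` with `δ⁻¹ M γ` upper triangular. -/
lemma exists_upper (γ : SL(2, ℤ)) : ∃ (δ : SL(2, ℤ)) (e : ℤ), e ∣ γ 1 0 ∧
    ((Matrix.SpecialLinearGroup.mapGL ℝ δ)⁻¹ * heckeDiagMatrix N *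
      Matrix.SpecialLinearGroup.mapGL ℝ γ) 1 0 = 0 ∧
    ((Matrix.SpecialLinearGroup.mapGL ℝ δ)⁻¹ * heckeDiagMatrix N *
      Matrix.SpecialLinearGroup.mapGL ℝ γ) 0 0 = e := by
  have hN : N ≠ 0 := NeZero.ne N
  set x : ℤ := N * γ 0 0 with hx
  set y : ℤ := γ 1 0 with hy
  have hdet := γ.det_coe
  rw [Matrix.det_fin_two] at hdet
  have hne : x ≠ 0 ∨ y ≠ 0 := by
    by_contra h
    push Not at h
    have h0 : γ 0 0 = 0 := by
      have := h.1
      rw [hx] at this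
      rcases mul_eq_zero.mp this with h | h
      · exact absurd (by exact_mod_cast h) hN
      · exact h
    rw [h0, ← hy, h.2] at hdet
    simp at hdet
  have he : Int.gcd x y ≠ 0 := by
    rw [Ne, Int.gcd_eq_zero_iff]
    tauto
  set e : ℤ := ((Int.gcd x y : ℕ) : ℤ) with hedef
  have he0 : e ≠ 0 := Nat.cast_ne_zero.mpr he
  obtain ⟨x', hx'⟩ : e ∣ x := Int.gcd_dvd_left x y
  obtain ⟨y', hy'⟩ : e ∣ y := Int.gcd_dvd_right x y
  have hcop : IsCoprime x' y' := by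
    have : (Int.gcd x y : ℤ) = x * Int.gcdA x y + y * Int.gcdB x y := Int.gcd_eq_gcd_ab x y
    refine ⟨Int.gcdA x y, Int.gcdB x y, ?_⟩
    rw [← hedef] at this
    have h2 : e * (Int.gcdA x y * x' + Int.gcdB x y * y') = e * 1 := by
      rw [mul_one]
      have h3 : e * (Int.gcdA x y * x' + Int.gcdB x y * y') =
        (e * x') * Int.gcdA x y + (e * y') * Int.gcdB x y := by ring
      rw [h3, ← hx', ← hy', ← this]
    exact mul_left_cancel₀ he0 h2
  obtain ⟨δ, hδ0, hδ1⟩ := hcop.exists_SL2_col 0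
  have hδdet := δ.det_coe
  rw [Matrix.det_fin_two, hδ0, hδ1] at hδdet
  have hxR : (N : ℝ) * ((γ 0 0 : ℤ) : ℝ) = e * x' := by
    have : ((N * γ 0 0 : ℤ) : ℝ) = ((e * x' : ℤ) : ℝ) := by rw [← hx, hx']
    push_cast at this
    exact this
  have hyR : ((γ 1 0 : ℤ) : ℝ) = e * y' := by
    have : ((γ 1 0 : ℤ) : ℝ) = ((e * y' : ℤ) : ℝ) := by rw [← hy, hy']
    push_cast at this
    exact this
  have hdR : (x' : ℝ) * (δ 1 1 : ℤ) - (δ 0 1 : ℤ) * y' = 1 := by exact_mod_cast hδdet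
  refine ⟨δ, e, ⟨y', hy'⟩, ?_, ?_⟩
  · rw [Units.val_mul, Units.val_mul, mapGL_inv_val, mapGL_val, val_heckeDiagMatrix hN]
    simp only [Matrix.mul_apply, Fin.sum_univ_two, hδ0, hδ1, Matrix.of_apply, Matrix.cons_val',
      Matrix.cons_val_zero, Matrix.cons_val_one, Matrix.cons_val_fin_one]
    rw [hyR]
    linear_combination (-(y' : ℝ)) * hxR
  · rw [Units.val_mul, Units.val_mul, mapGL_inv_val, mapGL_val, val_heckeDiagMatrix hN]
    simp only [Matrix.mul_apply, Fin.sum_univ_two, hδ0, hδ1, Matrix.of_apply, Matrix.cons_val',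
      Matrix.cons_val_zero, Matrix.cons_val_one, Matrix.cons_val_fin_one]
    rw [hyR]
    linear_combination ((δ 1 1 : ℤ) : ℝ) * hxR + (e : ℝ) * hdR

lemma E4_tendsto : Filter.Tendsto (E₄ : ℍ → ℂ) atImInfty (nhds 1) := by
  have h1 : InB (E₄ : ℍ → ℂ) := inB_of_modularFormClass _ one_mem_strictPeriods_SL
  have h2 : (E₄ : ℍ → ℂ) = (cuspFunction 1 E₄) ∘ fun τ : ℍ => Function.Periodic.qParam 1 τ := by
    funext τ
    exact (eq_cuspFunction (h := 1) τ one_ne_zero (by simpa using h1.per)).symm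
  have h3 : cuspFunction 1 E₄ 0 = 1 := by
    have := E_qExpansion_coeff_zero (k := 4) (by norm_num) ⟨2, rfl⟩
    rw [qExpansion_coeff] at this
    simpa using this
  rw [h2]
  have h4 := h1.analytic.continuousAt.tendsto
  rw [h3] at h4
  exact h4.comp (qParam_tendsto_atImInfty one_pos)

/-- limits of slashed functions under upper triangular matrices -/
lemma tendsto_slash {F : ℍ → ℂ} {L : ℂ} (hF : Filter.Tendsto F atImInfty (nhds L)) (k : ℤ)
    {V : GL (Fin 2) ℝ} (hV : V 1 0 = 0) (hdet : 0 < V.det.val) :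
    Filter.Tendsto (F ∣[k] V) atImInfty
      (nhds (L * (V.det.val : ℂ) ^ (k - 1) * ((V 1 1 : ℝ) : ℂ) ^ (-k))) := by
  have h1 : (F ∣[k] V) = fun τ => F (V • τ) * (V.det.val : ℂ) ^ (k - 1) *
      ((V 1 1 : ℝ) : ℂ) ^ (-k) := by
    funext τ
    rw [ModularForm.slash_apply, UpperHalfPlane.σ, if_pos hdet, abs_of_pos hdet]
    simp [denom, hV]
  rw [h1]
  exact ((hF.comp (tendsto_smul_atImInfty hV)).mul_const _).mul_const _

/-- the underlying function of `E₄(Nτ)` -/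
def e4N : ℍ → ℂ := fun τ => E₄ (heckeDiagMatrix N • τ)

lemma e4N_eq : (N : ℂ) ^ (3 : ℤ) • e4N N = (E₄ : ℍ → ℂ) ∣[(4 : ℤ)] heckeDiagMatrix N := by
  funext τ
  rw [slash_heckeDiagMatrix_apply 4 (NeZero.ne N)]
  rfl

lemma e4N_eq' : e4N N = ((N : ℂ) ^ (3 : ℤ))⁻¹ • ((E₄ : ℍ → ℂ) ∣[(4 : ℤ)] heckeDiagMatrix N) := by
  rw [← e4N_eq, inv_smul_smul₀]
  exact zpow_ne_zero _ (by exact_mod_cast NeZero.ne N)

lemma E4_slash (γ : SL(2, ℤ)) : (E₄ : ℍ → ℂ) ∣[(4 : ℤ)] (Matrix.SpecialLinearGroup.mapGL ℝ γ) = E₄ :=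
  SlashInvariantFormClass.slash_action_eq E₄ _ ⟨γ, rfl⟩

lemma σ_mapGL (γ : SL(2, ℤ)) : UpperHalfPlane.σ (Matrix.SpecialLinearGroup.mapGL ℝ γ) =
    .refl ℝ ℂ := by
  rw [UpperHalfPlane.σ, if_pos (by simp)]

/-- The modular form `E₄(Nτ)`. -/
def E4N : ModularForm (Gamma0 N) 4 where
  toFun := e4N N
  slash_action_eq' := by
    rintro _ ⟨γ, hγ, rfl⟩
    obtain ⟨γ', hγ'⟩ := diag_mul_gamma N hγ
    rw [e4N_eq', ModularForm.smul_slash, ← SlashAction.slash_mul, hγ', SlashAction.slash_mul,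
      E4_slash, σ_mapGL]
    rfl
  holo' := by
    have : MDifferentiable 𝓘(ℂ) 𝓘(ℂ) (e4N N) := by
      rw [e4N_eq']
      exact (ModularForm.translate E₄ (heckeDiagMatrix N)).holo'.const_smul _
    exact this
  bdd_at_cusps' := by
    intro c hc
    obtain ⟨g, hg⟩ := heckeDiag_eq_map N
    have hc' : IsCusp (heckeDiagMatrix N • c) 𝒮ℒ := by
      rw [hg]
      refine isCusp_rat_smul ?_ g
      rwa [Subgroup.IsArithmetic.isCusp_iff_isCusp_SL2Z] at hc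
    have h1 : IsBoundedAt c ((E₄ : ℍ → ℂ) ∣[(4 : ℤ)] heckeDiagMatrix N) 4 :=
      OnePoint.IsBoundedAt.smul_iff.mp (ModularFormClass.bdd_at_cusps E₄ hc')
    have h2 : IsBoundedAt c (e4N N) 4 := by
      intro h hh
      have := h1 h hh
      rw [e4N_eq', ModularForm.smul_slash]
      exact this.const_smul_left _
    exact h2

lemma coe_E4N : (E4N N : ℍ → ℂ) = e4N N := rfl

/-- The stabiliser of `E₄(Nτ)` in `SL₂(ℤ)` is `Γ₀(N)`. -/
theorem E4N_stab (γ : SL(2, ℤ))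
    (h : (E4N N : ℍ → ℂ) ∣[(4 : ℤ)] (Matrix.SpecialLinearGroup.mapGL ℝ γ) = E4N N) :
    γ ∈ Gamma0 N := by
  have hN : N ≠ 0 := NeZero.ne N
  have hNC : (N : ℂ) ≠ 0 := by exact_mod_cast hN
  rw [coe_E4N, e4N_eq', ModularForm.smul_slash, σ_mapGL] at h
  have h' : ((E₄ : ℍ → ℂ) ∣[(4 : ℤ)] heckeDiagMatrix N) ∣[(4 : ℤ)]
      (Matrix.SpecialLinearGroup.mapGL ℝ γ) = (E₄ : ℍ → ℂ) ∣[(4 : ℤ)] heckeDiagMatrix N := by
    have h2 : ((N : ℂ) ^ (3 : ℤ))⁻¹ ≠ 0 := inv_ne_zero (zpow_ne_zero _ hNC)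
    exact smul_right_injective _ h2 h
  obtain ⟨δ, e, hedvd, hV10, hV00⟩ := exists_upper N γ
  set V : GL (Fin 2) ℝ := (Matrix.SpecialLinearGroup.mapGL ℝ δ)⁻¹ * heckeDiagMatrix N *
      Matrix.SpecialLinearGroup.mapGL ℝ γ with hVdef
  have hVdet : V.det.val = N := by
    rw [hVdef, map_mul, map_mul, Units.val_mul, Units.val_mul, det_heckeDiagMatrix hN, map_inv]
    simp
  have hV : (E₄ : ℍ → ℂ) ∣[(4 : ℤ)] V = (E₄ : ℍ → ℂ) ∣[(4 : ℤ)] heckeDiagMatrix N := by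
    rw [hVdef, SlashAction.slash_mul, SlashAction.slash_mul, ← map_inv, E4_slash, h']
  have hNpos : (0 : ℝ) < N := by exact_mod_cast Nat.pos_of_ne_zero hN
  have lim1 := tendsto_slash E4_tendsto 4 hV10 (by rw [hVdet]; exact hNpos)
  have lim2 := tendsto_slash E4_tendsto 4 (V := heckeDiagMatrix N)
    (by rw [val_heckeDiagMatrix hN]; simp) (by rw [det_heckeDiagMatrix hN]; exact hNpos)
  rw [hV] at lim1
  have heq := tendsto_nhds_unique lim1 lim2
  rw [hVdet, det_heckeDiagMatrix hN, val_heckeDiagMatrix hN] at heq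
  have hdetV : V.det.val = V 0 0 * V 1 1 := by
    rw [Matrix.GeneralLinearGroup.val_det_apply, Matrix.det_fin_two, hV10]; ring
  have hV11 : V 1 1 ≠ 0 := by
    intro h0
    rw [h0, mul_zero, hVdet] at hdetV
    exact hNpos.ne' hdetV
  have h4 : (V 1 1) ^ 4 = 1 := by
    have hz : ((N : ℝ) : ℂ) ^ ((4 : ℤ) - 1) ≠ 0 := zpow_ne_zero _ (by exact_mod_cast hNC)
    simp only [one_mul, Matrix.of_apply, Matrix.cons_val', Matrix.cons_val_one,
      Matrix.cons_val_fin_one, Complex.ofReal_one, one_zpow, mul_one] at heq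
    have h5 := mul_right_eq_self₀.mp heq
    rcases h5 with h5 | h5
    · rw [zpow_neg, inv_eq_one] at h5
      exact_mod_cast h5
    · exact absurd h5 hz
  have h11 : V 1 1 = 1 ∨ V 1 1 = -1 := by
    have : (V 1 1 - 1) * (V 1 1 + 1) * ((V 1 1) ^ 2 + 1) = 0 := by linear_combination h4
    rcases mul_eq_zero.mp this with h | h
    · rcases mul_eq_zero.mp h with h | h
      · left; linarith
      · right; linarith
    · nlinarith [sq_nonneg (V 1 1)]
  have he : e = N ∨ e = -N := by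
    rw [hV00, hVdet] at hdetV
    rcases h11 with h | h
    · left
      rw [h, mul_one] at hdetV
      exact_mod_cast hdetV.symm
    · right
      rw [h] at hdetV
      have : (e : ℝ) = -N := by linarith
      exact_mod_cast this
  rw [Gamma0_mem, ZMod.intCast_zmod_eq_zero_iff_dvd]
  rcases he with rfl | rfl
  · exact hedvd
  · exact (neg_dvd).mp hedvd

/-- the q-expansion of `E₄(Nτ)` is integral -/
theorem E4N_integral (m : ℕ) : ∃ z : ℤ, (qExpansion 1 (E4N N)).coeff m = z := by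
  have hN : N ≠ 0 := NeZero.ne N
  set c : ℕ → ℂ := fun m => if N ∣ m then (qExpansion 1 E₄).coeff (m / N) else 0 with hc
  have hper := one_mem_strictPeriods_SL
  have hsum : ∀ τ : ℍ, HasSum (fun m => c m • Function.Periodic.qParam 1 τ ^ m) (E4N N τ) := by
    intro τ
    have h1 := ModularForm.hasSum_qExpansion one_pos (f := E₄) hper (heckeDiagMatrix N • τ)
    have hinj : Function.Injective (fun n : ℕ => N * n) :=
      fun a b hab => Nat.eq_of_mul_eq_mul_left (Nat.pos_of_ne_zero hN) hab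
    have hq : Function.Periodic.qParam 1 ((heckeDiagMatrix N • τ : ℍ) : ℂ) =
        Function.Periodic.qParam 1 (τ : ℂ) ^ N := by
      rw [Function.Periodic.qParam, Function.Periodic.qParam, coe_heckeDiagMatrix_smul hN,
        ← Complex.exp_nat_mul]
      congr 1
      ring
    have h2 : (fun n : ℕ => (qExpansion 1 E₄).coeff n *
        Function.Periodic.qParam 1 ((heckeDiagMatrix N • τ : ℍ) : ℂ) ^ n) =
        (fun m => c m • Function.Periodic.qParam 1 τ ^ m) ∘ (fun n : ℕ => N * n) := by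
      funext n
      simp only [Function.comp_apply, hc, Nat.dvd_mul_right, if_true, smul_eq_mul,
        Nat.mul_div_cancel_left n (Nat.pos_of_ne_zero hN), hq, ← pow_mul]
    rw [h2, hinj.hasSum_iff] at h1
    · exact h1
    · intro m hm
      have : ¬ N ∣ m := by
        rintro ⟨k, rfl⟩
        exact hm ⟨k, rfl⟩
      simp [hc, this]
  have hper2 : (1 : ℝ) ∈ (Gamma0 N : Subgroup (GL (Fin 2) ℝ)).strictPeriods := by simp
  have key := ModularFormClass.qExpansion_coeff_unique one_pos hper2 hsum m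
  rw [← key, hc]
  simp only
  split_ifs with h
  · rw [E_qExpansion_coeff (by norm_num) ⟨2, rfl⟩]
    split_ifs with h0
    · exact ⟨1, by simp⟩
    · refine ⟨240 * (ArithmeticFunction.sigma 3 (m / N) : ℕ), ?_⟩
      have hb : bernoulli 4 = -1 / 30 := by decide +kernel
      rw [hb]
      push_cast
      norm_num
  · exact ⟨0, by simp⟩

/-- **(B2)** for `Γ₀(N)`. -/
theorem lagrange_Gamma0 : ∃ (w : ℤ) (n : ℕ) (g : ModularForm (Gamma0 N) w)
    (D : ModularForm (Gamma0 N) (w * (n - 1))),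
    (∀ m, ∃ z : ℤ, (qExpansion 1 g).coeff m = z) ∧ D ≠ 0 ∧
      (∃ Gi : (i : ℕ) → ModularForm 𝒮ℒ (w * (n - 1 - i)),
        ∀ τ, D τ = ∑ i ∈ Finset.range n, Gi i τ * g τ ^ i) ∧
      ∀ (k : ℤ) (f : ModularForm (Gamma0 N) k),
        ∃ Gi : (i : ℕ) → ModularForm 𝒮ℒ (k + w * (n - 1 - i)),
        ∀ τ, D τ * f τ = ∑ i ∈ Finset.range n, Gi i τ * g τ ^ i := by
  have hle : (Gamma0 N : Subgroup (GL (Fin 2) ℝ)) ≤ 𝒮ℒ := by
    rintro _ ⟨γ, _, rfl⟩
    exact ⟨γ, rfl⟩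
  obtain ⟨n, D, _, hD, h1, h2⟩ := lagrange_forms hle (E4N N) (by
    rintro _ ⟨γ, rfl⟩ h
    exact ⟨γ, E4N_stab N γ h, rfl⟩)
  exact ⟨4, n, E4N N, D, E4N_integral N, hD, h1, h2⟩

/-- **(B1)** for `Γ₀(N)`. -/
theorem cuspForm_integral_Gamma0 {k : ℤ} (f : CuspForm (Gamma0 N) k) :
    ∃ n : ℕ, 0 < n ∧ ∃ c : (i : ℕ) → CuspForm 𝒮ℒ ((i : ℤ) * k),
      ∀ τ, f τ ^ n + ∑ i ∈ Finset.Icc 1 n, c i τ * f τ ^ (n - i) = 0 :=
  cuspForm_integral f

end Fermat.Agent.H78
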