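import Mathlib
import Fermat.Agent.H23Final
import Fermat.Agent.H23Hecke
import Fermat.Agent.H78EisN

/-!
# `S_k(Γ₀(N))` has an integral structure, for all `N` and `k`
-/

set_option autoImplicit false

noncomputable section

open UpperHalfPlane ModularForm ModularFormClass MatrixGroups CongruenceSubgroup

namespace Fermat.Agent.H23

theorem propB1 (N : ℕ) [NeZero N] (k : ℤ) : PropB1 N k :=
  fun f => H78.cuspForm_integral_Gamma0 N f

theorem propB2 (N : ℕ) [NeZero N] : PropB2 N := H78.lagrange_Gamma0 N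

/-- **Integral structure** in every level and weight. -/
theorem hasIntegralStructure (N : ℕ) [NeZero N] (k : ℤ) : CuspForm.HasIntegralStructure N k :=
  hasIntegralStructure_of N k (propB1 N k) (propB2 N)

/-- **Galois conjugation of cusp forms**: for every ring endomorphism `σ` of `ℂ` and every cusp
form `f` on `Γ₀(N)` there is a cusp form whose `q`-expansion is obtained by applying `σ`. -/
theorem exists_conj (N : ℕ) [NeZero N] (k : ℤ) (σ : ℂ →+* ℂ) (f : CuspForm (Gamma0 N) k) :
    ∃ f' : CuspForm (Gamma0 N) k, qExpansion 1 f' = (qExpansion 1 f).map σ :=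
  conj_of N k (propB1 N k) (propB2 N) σ f

theorem exists_conj_qCoeff (N : ℕ) [NeZero N] (k : ℤ) (σ : ℂ →+* ℂ) (f : CuspForm (Gamma0 N) k) :
    ∃ f' : CuspForm (Gamma0 N) k, ∀ n, qCoeff f' n = σ (qCoeff f n) := by
  obtain ⟨f', hf'⟩ := exists_conj N k σ f
  exact ⟨f', fun n => by rw [qCoeff, hf', PowerSeries.coeff_map]; rfl⟩

/-- `S_k(Γ₀(N))` is spanned by forms with rational `q`-expansions. -/
theorem rational_span (N : ℕ) [NeZero N] (k : ℤ) :
    Submodule.span ℂ {f : CuspForm (Gamma0 N) k | ∀ n, ∃ q : ℚ, qCoeff f n = (q : ℂ)} = ⊤ :=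
  rational_span_of N k (propB1 N k) (propB2 N)

/-- Cusp forms with rational `q`-expansions have bounded denominators. -/
theorem bddDen_cuspForm (N : ℕ) [NeZero N] (k : ℤ)
    (f : CuspForm (Gamma0 N) k) (hf : ∀ n, ∃ q : ℚ, qCoeff f n = (q : ℂ)) :
    ∃ D : ℤ, D ≠ 0 ∧ ∀ n, ∃ z : ℤ, (D : ℂ) * qCoeff f n = z :=
  bddDen_cuspForm_of N k (propB1 N k) (propB2 N) f hf

/-- Finiteness of the Hecke algebra. -/
theorem moduleFinite_heckeAlgebra (N : ℕ) [NeZero N] (k : ℤ) (S : Set ℕ) :
    Module.Finite ℤ (CuspForm.heckeAlgebra N k S) :=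
  moduleFinite_heckeAlgebra_of N k S fun _ => hasIntegralStructure N k

end Fermat.Agent.H23
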