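import Mathlib
import Fermat.Agent.H31Mod
import Fermat.Agent.H23Main
import Fermat.Agent.H86DensityFinal
import Fermat.Agent.H54Frobenius

/-!
# Strong multiplicity one for Hecke algebras, via Galois representations

`exists_mul_T_eq`: for a prime `r ∤ N` and a finite set `S` of primes, a non-zero multiple of `T_r`
is a polynomial in the `T_ℓ`, `ℓ ∤ N`, `ℓ ∉ S`.
-/

set_option autoImplicit false
set_option linter.style.haveILetI false

noncomputable section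

open CuspForm ModularCurve Fermat.Agent.H31

namespace Fermat.Agent.H35

/-- the inclusion of polynomial rings in good Hecke operators -/
def renameGood {N N' : ℕ} {S S' : Set ℕ} (hN : N' ∣ N) (hS : S' ⊆ S) :
    MvPolynomial (GoodPrimes N S) ℤ →+* MvPolynomial (GoodPrimes N' S') ℤ :=
  (MvPolynomial.rename (fun a : GoodPrimes N S =>
    (⟨a.1, fun h => a.2.1 (h.trans hN), fun h => a.2.2 (hS h)⟩ : GoodPrimes N' S'))).toRingHom

@[simp] theorem renameGood_X {N N' : ℕ} {S S' : Set ℕ} (hN : N' ∣ N) (hS : S' ⊆ S)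
    (a : GoodPrimes N S) :
    renameGood hN hS (MvPolynomial.X a) =
      MvPolynomial.X (⟨a.1, fun h => a.2.1 (h.trans hN), fun h => a.2.2 (hS h)⟩ : GoodPrimes N' S') :=
  MvPolynomial.rename_X _ _

theorem inclHecke_renameGood {N N' : ℕ} {S S' : Set ℕ} (hN : N' ∣ N) (hS : S' ⊆ S)
    (P : MvPolynomial (GoodPrimes N S) ℤ) :
    inclHecke N' S' (renameGood hN hS P) = inclHecke N S P := by
  show MvPolynomial.rename _ (MvPolynomial.rename _ P) = MvPolynomial.rename _ P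
  rw [MvPolynomial.rename_rename]
  rfl

/-- evaluation of polynomials in good Hecke operators as endomorphisms of `S_2(Γ₀(N'))`, `N' ∣ N` -/
def evEnd {N : ℕ} (N' : ℕ) [NeZero N'] (hN : N' ∣ N) (S : Set ℕ) :
    MvPolynomial (GoodPrimes N S) ℤ →+*
      Module.End ℂ (CuspForm (CongruenceSubgroup.Gamma0 N') 2) :=
  ((heckeAlgebra N' 2 S).val.toRingHom.comp (evHecke N' S)).comp (renameGood hN subset_rfl)

theorem evEnd_X {N : ℕ} (N' : ℕ) [NeZero N'] (hN : N' ∣ N) (S : Set ℕ) (a : GoodPrimes N S) :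
    evEnd N' hN S (MvPolynomial.X a) =
      heckeTLin 2 a.1.2 (fun h => a.2.1 (h.trans hN)) := by
  show ((evHecke N' S (renameGood hN subset_rfl (MvPolynomial.X a)) : heckeAlgebra N' 2 S) :
    Module.End ℂ (CuspForm (CongruenceSubgroup.Gamma0 N') 2)) = _
  rw [renameGood_X, evHecke_X]
  rfl

/-- The congruence: `T_r` is congruent to a polynomial in `T_ℓ`. -/
theorem exists_cong_of_module {p : ℕ} {J : Type*} [AddCommGroup J] [Module HeckeAlg J]
    [DistribMulAction GQ J] [SMulCommClass GQ HeckeAlg J]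
    {N : ℕ} [NeZero N] (hp : p.Prime) {r : ℕ} (hr : r.Prime) (hrp : r ≠ p) (hrN : ¬ r ∣ N)
    {S₀ : Set ℕ} (hrS₀ : r ∉ S₀) (S : Finset ℕ) (hpS : p ∈ S)
    (hNS : ∀ q : ℕ, q.Prime → q ∣ N → q ∈ S) (hS₀ : S₀ ⊆ (↑S : Set ℕ))
    (hF : FrobeniusQuadratic (K := ℚ) (L := AlgebraicClosure ℚ) N p J)
    (hfin : FiniteLevel p J) (hfaith : HeckeFaithful N S₀ p J) :
    ∃ c u : ℕ, ¬ p ∣ u ∧ ∀ n : ℕ, ∃ (P : MvPolynomial (GoodPrimes N (↑S : Set ℕ)) ℤ)
      (y : heckeAlgebra N 2 S₀),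
      (u : heckeAlgebra N 2 S₀) * (heckeAlgebra.T hr hrN hrS₀ -
        evHecke N S₀ (renameGood dvd_rfl hS₀ P)) = (p : heckeAlgebra N 2 S₀) ^ (n - c) * y := by
  obtain ⟨c, u, hu, hfaith⟩ := hfaith
  refine ⟨c, u, hu, fun n => ?_⟩
  obtain ⟨L₂, hL₂, hL₂'⟩ := hfin n
  have hpn : 0 < p ^ n := pow_pos hp.pos n
  have : NeZero (p ^ n) := ⟨hpn.ne'⟩
  obtain ⟨ζ, hζ⟩ := HasEnoughRootsOfUnity.exists_primitiveRoot (AlgebraicClosure ℚ) (p ^ n)
  set L₃ : IntermediateField ℚ (AlgebraicClosure ℚ) := IntermediateField.adjoin ℚ {ζ} with hL₃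
  have halg : Algebra.IsAlgebraic ℚ (AlgebraicClosure ℚ) := AlgebraicClosure.isAlgebraic ℚ
  have hfd₃ : FiniteDimensional ℚ L₃ :=
    IntermediateField.adjoin.finiteDimensional
      (Algebra.IsAlgebraic.isAlgebraic (R := ℚ) ζ).isIntegral
  have := hL₂
  obtain ⟨B, hB⟩ := H54.exists_liesOverPrime hr
  obtain ⟨σ, hσ⟩ := H54.exists_isFrobeniusAt hr hB
  obtain ⟨ℓ, hℓ, hℓS, A, hA, φ, hφ, j, -, hj, -⟩ :=
    H86.frobenius_density H86.frobDensityFinite (L₂ ⊔ L₃) σ S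
  have hle₂ : L₂ ≤ L₂ ⊔ L₃ := le_sup_left
  have hle₃ : L₃ ≤ L₂ ⊔ L₃ := le_sup_right
  have hℓN : ¬ ℓ ∣ N := fun h => hℓS (hNS ℓ hℓ h)
  have hℓp : ℓ ≠ p := fun h => hℓS (h ▸ hpS)
  have hgood : ∀ s : ℕ, s.Prime → ¬ s ∣ N → s ≠ p → ¬ s ∣ N * p := by
    intro s hs hsN hsp h
    rcases hs.dvd_mul.mp h with h | h
    · exact hsN h
    · exact hsp ((Nat.prime_dvd_prime_iff_eq hs hp).mp h)
  have hℓS2 : ℓ ∉ (↑S : Set ℕ) := by simpa using hℓS
  have hℓn : Nat.Coprime ℓ (p ^ n) :=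
    Nat.Coprime.pow_right n ((Nat.coprime_primes hℓ hp).mpr hℓp)
  have hrn : Nat.Coprime r (p ^ n) :=
    Nat.Coprime.pow_right n ((Nat.coprime_primes hr hp).mpr hrp)
  have hζL : ζ ∈ L₃ := IntermediateField.subset_adjoin ℚ _ (Set.mem_singleton ζ)
  have hfrob : ∀ i : ℕ, (φ ^ i) ζ = ζ ^ (ℓ ^ i) := by
    intro i
    induction i with
    | zero => simp
    | succ i ih =>
      rw [pow_succ, AlgEquiv.mul_apply,
        frobenius_apply_rootOfUnity A hA hℓn hpn hφ hζ.pow_eq_one, map_pow, ih, ← pow_mul,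
        ← pow_succ]
  have hmod : ((p ^ n : ℕ) : ℤ) ∣ (r : ℤ) - (ℓ : ℤ) ^ j := by
    have h1 : ζ ^ (ℓ ^ j) = ζ ^ r := by
      rw [← hfrob j, ← hj ζ (hle₃ hζL),
        frobenius_apply_rootOfUnity B hB hrn hpn hσ hζ.pow_eq_one]
    have h2 : ℓ ^ j ≡ r [MOD p ^ n] := by
      rw [(hζ.isOfFinOrder hpn.ne').pow_eq_pow_iff_modEq, ← hζ.eq_orderOf] at h1
      exact h1
    have h3 := Nat.modEq_iff_dvd.mp h2
    push_cast at h3 ⊢
    exact h3
  -- the two quadratic relations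
  have q1 := quadratic_pow (heckeGen ⟨ℓ, hℓ⟩) (ℓ : HeckeAlg) (torsEnd p n J φ)
    (frobenius_quadratic_torsEnd hF n hℓ (hgood ℓ hℓ hℓN hℓp) hA hφ) j
  have g1 : torsEnd p n J σ = torsEnd p n J φ ^ j := by
    rw [← map_pow]
    exact torsEnd_eq_of_agree hL₂' _ _ (fun x hx => hj x (hle₂ hx))
  rw [← g1] at q1
  have q2 := frobenius_quadratic_torsEnd hF n hr (hgood r hr hrN hrp) hB hσ
  let E := Module.End HeckeAlg (Submodule.torsionBy HeckeAlg J ((p : HeckeAlg) ^ n))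
  let P₁ := luc (heckeGen ⟨ℓ, hℓ⟩) (ℓ : HeckeAlg) j
  let T₁ : HeckeAlg := heckeGen ⟨r, hr⟩
  have q3 : algebraMap HeckeAlg E (T₁ - P₁) * torsEnd p n J σ =
      algebraMap HeckeAlg E ((r : HeckeAlg) - (ℓ : HeckeAlg) ^ j) :=
    sub_mul_eq_of_quadratic T₁ P₁ _ _ _ q2 q1
  have q4 : algebraMap HeckeAlg E ((r : HeckeAlg) - (ℓ : HeckeAlg) ^ j) = 0 := by
    obtain ⟨k, hk⟩ := hmod
    have h1 : ((r : HeckeAlg) - (ℓ : HeckeAlg) ^ j) = (k : HeckeAlg) * (p : HeckeAlg) ^ n := by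
      have := congrArg (Int.cast : ℤ → HeckeAlg) hk
      push_cast at this
      rw [this, mul_comm]
    rw [h1]
    refine LinearMap.ext fun x => ?_
    rw [Module.algebraMap_end_apply, mul_smul, Submodule.smul_torsionBy, smul_zero]
    rfl
  have q5 : algebraMap HeckeAlg E (T₁ - P₁) = 0 := by
    have hinv : torsEnd p n J σ * torsEnd p n J σ⁻¹ = 1 := by
      rw [← map_mul, mul_inv_cancel, map_one]
    rw [← mul_one (algebraMap HeckeAlg E (T₁ - P₁)), ← hinv, ← mul_assoc, q3, q4, zero_mul]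
  -- apply faithfulness
  let ℓ₁ : GoodPrimes N (↑S : Set ℕ) := ⟨⟨ℓ, hℓ⟩, hℓN, hℓS2⟩
  let r₁ : GoodPrimes N S₀ := ⟨⟨r, hr⟩, hrN, hrS₀⟩
  let P : MvPolynomial (GoodPrimes N (↑S : Set ℕ)) ℤ :=
    luc (MvPolynomial.X ℓ₁) (ℓ : MvPolynomial (GoodPrimes N (↑S : Set ℕ)) ℤ) j
  obtain ⟨y, hy⟩ := hfaith n (MvPolynomial.X r₁ - renameGood dvd_rfl hS₀ P) (by
      intro x hx
      have h1 : inclHecke N S₀ (MvPolynomial.X r₁ - renameGood dvd_rfl hS₀ P) = T₁ - P₁ := by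
        rw [map_sub, inclHecke_X, inclHecke_renameGood]
        have a1 := map_luc (inclHecke N (↑S : Set ℕ)).toRingHom (MvPolynomial.X ℓ₁)
          (ℓ : MvPolynomial (GoodPrimes N (↑S : Set ℕ)) ℤ) j
        simp only [AlgHom.toRingHom_eq_coe, RingHom.coe_coe, inclHecke_X, map_natCast] at a1
        rw [a1]
      rw [h1]
      have hxm : x ∈ Submodule.torsionBy HeckeAlg J ((p : HeckeAlg) ^ n) := by
        rw [Submodule.mem_torsionBy_iff]
        have e : ((p ^ n : ℕ) : HeckeAlg) = ((p : HeckeAlg) ^ n) := by push_cast; rfl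
        rw [← e, Nat.cast_smul_eq_nsmul]
        exact hx
      have h2 := LinearMap.congr_fun q5 ⟨x, hxm⟩
      exact congrArg Subtype.val h2)
  refine ⟨P, y, ?_⟩
  rw [map_sub, evHecke_X] at hy
  exact hy

/-- A Krull intersection argument. -/
theorem exists_mul_mem_of_forall_cong {A : Type*} [AddCommGroup A] [Module.Finite ℤ A]
    (B : AddSubgroup A) {p : ℕ} (hp : p.Prime) (c : ℕ) (x : A)
    (h : ∀ n : ℕ, ∃ b ∈ B, ∃ y : A, x = b + p ^ (n - c) • y) :
    ∃ e : ℤ, e ≠ 0 ∧ e • x ∈ B := by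
  let Q := A ⧸ AddSubgroup.toIntSubmodule B
  haveI : Module.Finite ℤ Q := inferInstance
  have hx : (Submodule.Quotient.mk x : Q) ∈
      (⨅ i : ℕ, (Ideal.span {(p : ℤ)}) ^ i • ⊤ : Submodule ℤ Q) := by
    rw [Submodule.mem_iInf]
    intro i
    obtain ⟨b, hb, y, hy⟩ := h (i + c)
    rw [Nat.add_sub_cancel] at hy
    have h1 : (Submodule.Quotient.mk x : Q) = ((p : ℤ) ^ i) • (Submodule.Quotient.mk y : Q) := by
      rw [hy, Submodule.Quotient.mk_add, (Submodule.Quotient.mk_eq_zero _).mpr hb, zero_add,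
        ← Submodule.Quotient.mk_smul, ← natCast_zsmul, Nat.cast_pow]
    rw [h1, Ideal.span_singleton_pow]
    exact Submodule.smul_mem_smul (Ideal.mem_span_singleton_self _) trivial
  obtain ⟨⟨r, hr⟩, hrx⟩ := (Ideal.mem_iInf_smul_pow_eq_bot_iff _ _).mp hx
  refine ⟨1 - r, ?_, ?_⟩
  · intro h0
    have h1 : r = 1 := by omega
    rw [h1, Ideal.mem_span_singleton] at hr
    exact hp.one_lt.ne' (by exact_mod_cast Int.isUnit_iff.mp (isUnit_of_dvd_one hr) |>.resolve_right (by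
      intro h2
      have := hp.pos
      omega))
  · have h2 : (Submodule.Quotient.mk ((1 - r) • x) : Q) = 0 := by
      rw [Submodule.Quotient.mk_smul, sub_smul, one_smul, sub_eq_zero]
      exact hrx.symm
    exact (Submodule.Quotient.mk_eq_zero _).mp h2

/-- **Strong multiplicity one** at the level of Hecke algebras. -/
theorem exists_mul_T_eq {p : ℕ} {J : Type*} [AddCommGroup J] [Module HeckeAlg J]
    [DistribMulAction GQ J] [SMulCommClass GQ HeckeAlg J]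
    {N : ℕ} [NeZero N] (hp : p.Prime) {r : ℕ} (hr : r.Prime) (hrp : r ≠ p) (hrN : ¬ r ∣ N)
    {S₀ : Set ℕ} (hrS₀ : r ∉ S₀) (S : Finset ℕ)
    (hF : FrobeniusQuadratic (K := ℚ) (L := AlgebraicClosure ℚ) N p J)
    (hfin : FiniteLevel p J) (hfaith : HeckeFaithful N S₀ p J)
    (hS₀ : S₀ ⊆ (↑(S ∪ N.primeFactors ∪ {p}) : Set ℕ)) :
    ∃ (e : ℤ) (P : MvPolynomial (GoodPrimes N (↑S : Set ℕ)) ℤ), e ≠ 0 ∧
      e • heckeTLin 2 hr hrN = evEnd N dvd_rfl (↑S : Set ℕ) P := by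
  classical
  set S' : Finset ℕ := S ∪ N.primeFactors ∪ {p} with hS'
  obtain ⟨c, u, hu, h⟩ := exists_cong_of_module (J := J) hp hr hrp hrN hrS₀ S' (by simp [hS'])
    (by
      intro q hq hqN
      simp [hS', hq, hqN, NeZero.ne N]) hS₀ hF hfin hfaith
  haveI := H23.moduleFinite_heckeAlgebra N 2 S₀
  let ev : MvPolynomial (GoodPrimes N (↑S' : Set ℕ)) ℤ →+* heckeAlgebra N 2 S₀ :=
    (evHecke N S₀).comp (renameGood dvd_rfl hS₀)
  obtain ⟨e, he, hmem⟩ := exists_mul_mem_of_forall_cong ev.toAddMonoidHom.range hp c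
    ((u : heckeAlgebra N 2 S₀) * heckeAlgebra.T hr hrN hrS₀) (by
      intro n
      obtain ⟨P, y, hy⟩ := h n
      refine ⟨ev (u * P), ⟨_, rfl⟩, y, ?_⟩
      rw [map_mul, map_natCast, nsmul_eq_mul, Nat.cast_pow, ← hy]
      show _ = _ * evHecke N S₀ (renameGood dvd_rfl hS₀ P) + _
      ring)
  obtain ⟨P, hP⟩ := hmem
  have hSS' : (↑S : Set ℕ) ⊆ (↑S' : Set ℕ) := by
    intro x hx
    simp only [hS', Finset.coe_union, Set.mem_union]
    exact Or.inl (Or.inl hx)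
  refine ⟨e * u, renameGood dvd_rfl hSS' P, ?_, ?_⟩
  · refine mul_ne_zero he ?_
    intro h0
    exact hu (by rw [show u = 0 by exact_mod_cast h0]; exact dvd_zero p)
  · have h1 := congrArg (Subtype.val : heckeAlgebra N 2 S₀ →
      Module.End ℂ (CuspForm (CongruenceSubgroup.Gamma0 N) 2)) hP
    have h2 : ∀ P : MvPolynomial (GoodPrimes N (↑S' : Set ℕ)) ℤ,
        ((ev P : heckeAlgebra N 2 S₀) : Module.End ℂ (CuspForm (CongruenceSubgroup.Gamma0 N) 2))
          = evEnd N dvd_rfl (↑S : Set ℕ) (renameGood dvd_rfl hSS' P) := by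
      intro P
      have h3 : ((heckeAlgebra N 2 S₀).val.toRingHom.comp ev) =
          (evEnd N dvd_rfl (↑S : Set ℕ)).comp (renameGood dvd_rfl hSS') := by
        refine MvPolynomial.ringHom_ext ?_ ?_
        · intro z
          simp
        · intro a
          have e1 : (evEnd N dvd_rfl (↑S : Set ℕ)).comp (renameGood dvd_rfl hSS')
              (MvPolynomial.X a) = heckeTLin 2 a.1.2 (fun h => a.2.1 h) := by
            rw [RingHom.comp_apply, renameGood_X]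
            exact evEnd_X N dvd_rfl (↑S : Set ℕ) _
          rw [e1]
          show ((evHecke N S₀ (renameGood dvd_rfl hS₀ (MvPolynomial.X a)) : heckeAlgebra N 2 S₀) :
            Module.End ℂ (CuspForm (CongruenceSubgroup.Gamma0 N) 2)) = _
          rw [renameGood_X, evHecke_X]
          rfl
      exact RingHom.congr_fun h3 P
    rw [← h2]
    refine Eq.trans ?_ h1.symm
    show _ = e • (((u : heckeAlgebra N 2 S₀) * heckeAlgebra.T hr hrN hrS₀ : heckeAlgebra N 2 S₀) :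
      Module.End ℂ (CuspForm (CongruenceSubgroup.Gamma0 N) 2))
    rw [mul_smul]
    congr 1

end Fermat.Agent.H35
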