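/-
Atkin-Lehner operator at an exact prime divisor `q` of the level, on `Γ₀(q M)`.
helper44.
-/
import Mathlib
import Fermat.Prelude.Def_ModularForm_HeckeOperator
import Fermat.Prelude.Def_ModularForm_HeckeOperatorForms

set_option autoImplicit false

noncomputable section

open Matrix.SpecialLinearGroup UpperHalfPlane ModularForm
open scoped MatrixGroups ModularForm OnePoint

namespace Fermat.Agent.H44

theorem mapGL_apply (g : SL(2, ℤ)) (i j : Fin 2) :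
    (mapGL ℝ g : GL (Fin 2) ℝ) i j = ((g i j : ℤ) : ℝ) := by
  simp

theorem det_eq (g : SL(2, ℤ)) : g 0 0 * g 1 1 - g 0 1 * g 1 0 = 1 := by
  have h := g.det_coe
  rwa [Matrix.det_fin_two] at h

/-- Constructor for elements of `SL(2, ℤ)`. -/
def slMk (a b c d : ℤ) (h : a * d - b * c = 1) : SL(2, ℤ) :=
  ⟨!![a, b; c, d], by rw [Matrix.det_fin_two_of]; exact h⟩

section slMk

variable (a b c d : ℤ) (h : a * d - b * c = 1)

@[simp] theorem slMk_00 : (slMk a b c d h) 0 0 = a := rfl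
@[simp] theorem slMk_01 : (slMk a b c d h) 0 1 = b := rfl
@[simp] theorem slMk_10 : (slMk a b c d h) 1 0 = c := rfl
@[simp] theorem slMk_11 : (slMk a b c d h) 1 1 = d := rfl

end slMk

/-- Data for the Atkin–Lehner matrix at `q` for level `N = q * M`. -/
structure ALData (q M : ℕ) where
  a : ℤ
  b : ℤ
  h : a * (q : ℤ) - b * (M : ℤ) = 1

theorem ALData.exists {q M : ℕ} (hq : q.Prime) (hqM : ¬ q ∣ M) : Nonempty (ALData q M) := by
  have hcop : IsCoprime (q : ℤ) (M : ℤ) :=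
    Nat.isCoprime_iff_coprime.mpr ((Nat.Prime.coprime_iff_not_dvd hq).mpr hqM)
  obtain ⟨u, v, huv⟩ := hcop
  exact ⟨⟨u, -v, by linear_combination huv⟩⟩

variable {q M : ℕ}

/-- The matrix `[[a, b], [M, q]]` in `Γ₀(M)`. -/
def ALData.gam (D : ALData q M) : SL(2, ℤ) := slMk D.a D.b M q D.h

/-- The Atkin–Lehner matrix `[[q a, b], [q M, q]]`. -/
def ALData.W (D : ALData q M) : GL (Fin 2) ℝ := mapGL ℝ D.gam * heckeDiagMatrix q

theorem ALData.val_W (D : ALData q M) (hq : q ≠ 0) :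
    ((D.W : GL (Fin 2) ℝ) : Matrix (Fin 2) (Fin 2) ℝ) =
      !![(q : ℝ) * (D.a : ℝ), (D.b : ℝ); (q : ℝ) * (M : ℝ), (q : ℝ)] := by
  ext i j
  fin_cases i <;> fin_cases j <;>
    simp [ALData.W, ALData.gam, hq, Matrix.mul_apply, Fin.sum_univ_two, mul_comm]

theorem ALData.real_h (D : ALData q M) : (D.a : ℝ) * (q : ℝ) - (D.b : ℝ) * (M : ℝ) = 1 := by
  have := congrArg (Int.cast : ℤ → ℝ) D.h
  push_cast at this
  exact this

/-- `W` normalizes `Γ₀(q M)`: conjugation formula. -/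
theorem ALData.W_mul (D : ALData q M) (hq : q ≠ 0) (g : SL(2, ℤ)) (z : ℤ)
    (hz : g 1 0 = (q : ℤ) * (M : ℤ) * z) :
    ∃ g' : SL(2, ℤ), (∃ z' : ℤ, g' 1 0 = (q : ℤ) * (M : ℤ) * z') ∧
      D.W * mapGL ℝ g = mapGL ℝ g' * D.W := by
  have hdet := det_eq g
  have hD := D.h
  have hDr := D.real_h
  refine ⟨slMk ((q : ℤ) * D.a * g 0 0 + D.b * (q : ℤ) * M * z - (q * D.a * g 0 1 + D.b * g 1 1) * M)
      (-D.a * D.b * g 0 0 - D.b ^ 2 * M * z + D.a * (q * D.a * g 0 1 + D.b * g 1 1))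
      ((q : ℤ) * (M : ℤ) * (g 0 0 + q * z - M * g 0 1 - g 1 1))
      (- D.b * M * g 0 0 - D.b * q * M * z + D.a * (q * M * g 0 1 + q * g 1 1)) ?_, ⟨_, rfl⟩, ?_⟩
  · rw [hz] at hdet
    linear_combination ((D.a * (q : ℤ) - D.b * (M : ℤ)) ^ 2) * hdet
      + ((D.a * (q : ℤ) - D.b * (M : ℤ)) + 1) * hD
  · ext i j
    fin_cases i <;> fin_cases j <;>
      simp [ALData.val_W, hq, Matrix.mul_apply, Fin.sum_univ_two, hz]
    · linear_combination (-(((g 0 0 : ℤ) : ℝ) * q * D.a) - (q : ℝ) * M * z * D.b) * hDr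
    · linear_combination (-((q : ℝ) * D.a * ((g 0 1 : ℤ) : ℝ) + D.b * ((g 1 1 : ℤ) : ℝ))) * hDr
    · linear_combination (-((q : ℝ) * M * (((g 0 0 : ℤ) : ℝ) + q * z))) * hDr
    · linear_combination (-((q : ℝ) * (M * ((g 0 1 : ℤ) : ℝ) + ((g 1 1 : ℤ) : ℝ)))) * hDr

/-- `W² = q · (element of Γ₀(q M))`. -/
theorem ALData.W_sq (D : ALData q M) (hq : q ≠ 0) :
    ∃ g' : SL(2, ℤ), (∃ z' : ℤ, g' 1 0 = (q : ℤ) * (M : ℤ) * z') ∧
      ∃ s : GL (Fin 2) ℝ, (s : Matrix (Fin 2) (Fin 2) ℝ) = !![(q : ℝ), 0; 0, (q : ℝ)] ∧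
      D.W * D.W = s * mapGL ℝ g' := by
  have hD := D.h
  have hDr := D.real_h
  refine ⟨slMk ((q : ℤ) * D.a ^ 2 + D.b * M) (D.b * (D.a + 1)) ((q : ℤ) * (M : ℤ) * (D.a + 1))
    (M * D.b + q) ?_, ⟨_, rfl⟩, ?_⟩
  · linear_combination (D.a * (q : ℤ) - D.b * (M : ℤ) + 1) * hD
  · refine ⟨upperTriangularGL q 0 q (by
      have : (q : ℝ) ≠ 0 := by exact_mod_cast hq
      exact mul_ne_zero this this), val_upperTriangularGL _ _ _ _, ?_⟩
    ext i j
    fin_cases i <;> fin_cases j <;>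
      simp [ALData.val_W, hq, Matrix.mul_apply, Fin.sum_univ_two]
    all_goals ring

/-- The matrix `γ T^j = [[a, a j + b], [M, M j + q]]`. -/
def ALData.gamT (D : ALData q M) (j : ℕ) : SL(2, ℤ) :=
  slMk D.a (D.a * j + D.b) M (M * j + q) (by linear_combination D.h)

/-- `W · [[1, j], [0, q]] = q · γ T^j`. -/
theorem ALData.W_mul_heckeMatrix (D : ALData q M) (hq : q ≠ 0) (j : ℕ) :
    ∃ s : GL (Fin 2) ℝ, (s : Matrix (Fin 2) (Fin 2) ℝ) = !![(q : ℝ), 0; 0, (q : ℝ)] ∧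
      D.W * heckeMatrix q j = s * mapGL ℝ (D.gamT j) := by
  refine ⟨upperTriangularGL q 0 q (by
      have : (q : ℝ) ≠ 0 := by exact_mod_cast hq
      exact mul_ne_zero this this), val_upperTriangularGL _ _ _ _, ?_⟩
  ext i k
  fin_cases i <;> fin_cases k <;>
      simp [ALData.val_W, ALData.gamT, hq, Matrix.mul_apply, Fin.sum_univ_two]
  all_goals ring

/-- Scalar matrices act trivially in weight two. -/
theorem slash_scalar_two (f : ℍ → ℂ) (hq : q ≠ 0) (s : GL (Fin 2) ℝ)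
    (hs : (s : Matrix (Fin 2) (Fin 2) ℝ) = !![(q : ℝ), 0; 0, (q : ℝ)]) :
    f ∣[(2 : ℤ)] s = f := by
  have hq' : (q : ℝ) ≠ 0 := by exact_mod_cast hq
  have hdet : (s.det : ℝ) = (q : ℝ) * q := by
    rw [Matrix.GeneralLinearGroup.val_det_apply, hs, Matrix.det_fin_two_of]; ring
  have hpos : 0 < (s.det : ℝ) := by rw [hdet]; positivity
  ext τ
  rw [ModularForm.slash_apply]
  have hσ : UpperHalfPlane.σ s = .refl ℝ ℂ := by rw [UpperHalfPlane.σ, if_pos hpos]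
  have hsm : s • τ = τ := by
    ext
    rw [UpperHalfPlane.coe_smul_of_det_pos hpos]
    simp only [UpperHalfPlane.num, UpperHalfPlane.denom, hs]
    simp
    field_simp
  have hden : UpperHalfPlane.denom s τ = q := by
    simp [UpperHalfPlane.denom, hs]
  rw [hσ, hsm, hden, hdet]
  simp only [ContinuousAlgEquiv.refl_apply]
  have hqc : (q : ℂ) ≠ 0 := by exact_mod_cast hq
  have : |(q : ℝ) * q| = (q : ℝ) * q := abs_of_pos (by positivity)
  rw [this]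
  push_cast
  simp [zpow_neg]
  field_simp

/-- Möbius matrix over `ZMod p`. -/
def redM (p : ℕ) [Fact p.Prime] (A B C D : ℤ) (h : ((A * D - B * C : ℤ) : ZMod p) ≠ 0) :
    GL (Fin 2) (ZMod p) :=
  Matrix.GeneralLinearGroup.mkOfDetNeZero
    !![(A : ZMod p), (B : ZMod p); (C : ZMod p), (D : ZMod p)]
    (by rw [Matrix.det_fin_two_of]; push_cast at h; exact h)

section redM

variable (p : ℕ) [Fact p.Prime] (A B C D : ℤ) (h : ((A * D - B * C : ℤ) : ZMod p) ≠ 0)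

@[simp] theorem redM_00 : redM p A B C D h 0 0 = (A : ZMod p) := by simp [redM]
@[simp] theorem redM_01 : redM p A B C D h 0 1 = (B : ZMod p) := by simp [redM]
@[simp] theorem redM_10 : redM p A B C D h 1 0 = (C : ZMod p) := by simp [redM]
@[simp] theorem redM_11 : redM p A B C D h 1 1 = (D : ZMod p) := by simp [redM]

end redM

/-- Representatives for `Γ₀(q M) \ Γ₀(M)`. -/
def ALData.rho (D : ALData q M) (x : OnePoint (ZMod q)) : SL(2, ℤ) :=
  x.elim 1 (fun j => D.gamT j.val)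

@[simp] theorem ALData.rho_infty (D : ALData q M) : D.rho ∞ = 1 := rfl

@[simp] theorem ALData.rho_coe (D : ALData q M) (j : ZMod q) : D.rho j = D.gamT j.val := rfl

/-- Two elements of `Γ₀(M)` with proportional bottom rows mod `q` are in the same right coset of
`Γ₀(q M)`. -/
theorem mul_inv_mem_of_dvd (hqM : IsCoprime (q : ℤ) (M : ℤ)) (g h : SL(2, ℤ)) (hg : (M : ℤ) ∣ g 1 0)
    (hh : (M : ℤ) ∣ h 1 0) (hgh : (q : ℤ) ∣ g 1 0 * h 1 1 - g 1 1 * h 1 0) :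
    g * h⁻¹ ∈ CongruenceSubgroup.Gamma0 (q * M) := by
  rw [CongruenceSubgroup.Gamma0_mem, ZMod.intCast_zmod_eq_zero_iff_dvd]
  have : (g * h⁻¹) 1 0 = g 1 0 * h 1 1 - g 1 1 * h 1 0 := by
    rw [Matrix.SpecialLinearGroup.coe_mul, Matrix.SpecialLinearGroup.coe_inv,
      Matrix.mul_apply, Fin.sum_univ_two, Matrix.adjugate_fin_two]
    simp
    ring
  rw [this]
  push_cast
  refine hqM.mul_dvd hgh (dvd_sub ?_ ?_)
  · exact dvd_mul_of_dvd_left hg _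
  · exact dvd_mul_of_dvd_right hh _

theorem slash_eq_of_dvd (k : ℤ) (hqM : IsCoprime (q : ℤ) (M : ℤ)) (f : ℍ → ℂ)
    (hf : ∀ γ ∈ (CongruenceSubgroup.Gamma0 (q * M) : Subgroup (GL (Fin 2) ℝ)), f ∣[k] γ = f)
    (g h : SL(2, ℤ)) (hg : (M : ℤ) ∣ g 1 0)
    (hh : (M : ℤ) ∣ h 1 0) (hgh : (q : ℤ) ∣ g 1 0 * h 1 1 - g 1 1 * h 1 0) :
    f ∣[k] (mapGL ℝ g) = f ∣[k] (mapGL ℝ h) := by
  have h1 := mul_inv_mem_of_dvd hqM g h hg hh hgh
  have h2 : mapGL ℝ g = mapGL ℝ (g * h⁻¹) * mapGL ℝ h := by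
    rw [← map_mul]; simp
  rw [h2, SlashAction.slash_mul, hf _ (Subgroup.mem_map_of_mem (mapGL ℝ) h1)]

theorem ALData.rho_mul [Fact q.Prime] (D : ALData q M) (g : SL(2, ℤ)) (hg : (M : ℤ) ∣ g 1 0)
    (hdet : ((g 1 1 * g 0 0 - g 0 1 * g 1 0 : ℤ) : ZMod q) ≠ 0) (x : OnePoint (ZMod q)) :
    (M : ℤ) ∣ (D.rho x * g) 1 0 ∧
    (M : ℤ) ∣ (D.rho (redM q (g 1 1) (g 0 1) (g 1 0) (g 0 0) hdet • x)) 1 0 ∧
    (q : ℤ) ∣ (D.rho x * g) 1 0 * (D.rho (redM q (g 1 1) (g 0 1) (g 1 0) (g 0 0) hdet • x)) 1 1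
      - (D.rho x * g) 1 1 * (D.rho (redM q (g 1 1) (g 0 1) (g 1 0) (g 0 0) hdet • x)) 1 0 := by
  have hM : ∀ y : OnePoint (ZMod q), (M : ℤ) ∣ (D.rho y) 1 0 := by
    intro y
    induction y using OnePoint.rec with
    | infty => simp
    | coe j => simp [ALData.gamT]
  refine ⟨?_, hM _, ?_⟩
  · simp only [Matrix.SpecialLinearGroup.coe_mul, Matrix.mul_apply, Fin.sum_univ_two]
    exact dvd_add (dvd_mul_of_dvd_left (hM x) _) (dvd_mul_of_dvd_right hg _)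
  · induction x using OnePoint.rec with
    | infty =>
      rw [OnePoint.smul_infty_eq_ite]
      by_cases hc : ((g 1 0 : ℤ) : ZMod q) = 0
      · rw [if_pos (by simpa using hc)]
        have := (ZMod.intCast_zmod_eq_zero_iff_dvd _ _).mp hc
        simpa using this
      · rw [if_neg (by simpa using hc)]
        rw [← ZMod.intCast_zmod_eq_zero_iff_dvd]
        simp [ALData.gamT]
        field_simp
        ring
    | coe j =>
      rw [OnePoint.smul_some_eq_ite]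
      by_cases hc : ((g 1 0 : ℤ) : ZMod q) * j + ((g 0 0 : ℤ) : ZMod q) = 0
      · rw [if_pos (by simpa using hc)]
        rw [← ZMod.intCast_zmod_eq_zero_iff_dvd]
        simp [ALData.gamT, Matrix.SpecialLinearGroup.coe_mul, Matrix.mul_apply, Fin.sum_univ_two]
        linear_combination (M : ZMod q) * hc
      · rw [if_neg (by simpa using hc)]
        rw [← ZMod.intCast_zmod_eq_zero_iff_dvd]
        simp only [redM_00, redM_01, redM_10, redM_11, ALData.rho_coe]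
        have hy : (((g 1 1 : ℤ) : ZMod q) * j + ((g 0 1 : ℤ) : ZMod q)) /
            (((g 1 0 : ℤ) : ZMod q) * j + ((g 0 0 : ℤ) : ZMod q)) *
            (((g 1 0 : ℤ) : ZMod q) * j + ((g 0 0 : ℤ) : ZMod q)) =
            ((g 1 1 : ℤ) : ZMod q) * j + ((g 0 1 : ℤ) : ZMod q) := div_mul_cancel₀ _ hc
        generalize (((g 1 1 : ℤ) : ZMod q) * j + ((g 0 1 : ℤ) : ZMod q)) /
            (((g 1 0 : ℤ) : ZMod q) * j + ((g 0 0 : ℤ) : ZMod q)) = y at hy ⊢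
        simp [ALData.gamT, Matrix.SpecialLinearGroup.coe_mul, Matrix.mul_apply, Fin.sum_univ_two]
        linear_combination (M : ZMod q) ^ 2 * hy

/-- The trace from `Γ₀(q M)` to `Γ₀(M)`. -/
def ALData.tr [Fact q.Prime] (D : ALData q M) (k : ℤ) (f : ℍ → ℂ) : ℍ → ℂ :=
  ∑ x : OnePoint (ZMod q), f ∣[k] (mapGL ℝ (D.rho x) : GL (Fin 2) ℝ)

theorem ALData.tr_slash [Fact q.Prime] (D : ALData q M) (k : ℤ)
    (hqM : IsCoprime (q : ℤ) (M : ℤ)) (f : ℍ → ℂ)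
    (hf : ∀ γ ∈ (CongruenceSubgroup.Gamma0 (q * M) : Subgroup (GL (Fin 2) ℝ)), f ∣[k] γ = f)
    (g : SL(2, ℤ)) (hg : g ∈ CongruenceSubgroup.Gamma0 M) :
    D.tr k f ∣[k] (mapGL ℝ g : GL (Fin 2) ℝ) = D.tr k f := by
  have hcM : (M : ℤ) ∣ g 1 0 :=
    (ZMod.intCast_zmod_eq_zero_iff_dvd _ _).mp (CongruenceSubgroup.Gamma0_mem.mp hg)
  have hdet : ((g 1 1 * g 0 0 - g 0 1 * g 1 0 : ℤ) : ZMod q) ≠ 0 := by
    have : (g 1 1 * g 0 0 - g 0 1 * g 1 0 : ℤ) = 1 := by linear_combination det_eq g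
    rw [this]; simp
  rw [ALData.tr, SlashAction.sum_slash]
  calc ∑ x : OnePoint (ZMod q), (f ∣[k] (mapGL ℝ (D.rho x) : GL (Fin 2) ℝ)) ∣[k] mapGL ℝ g
      = ∑ x : OnePoint (ZMod q),
          f ∣[k] (mapGL ℝ (D.rho (redM q (g 1 1) (g 0 1) (g 1 0) (g 0 0) hdet • x)) : GL (Fin 2) ℝ) := by
        refine Finset.sum_congr rfl fun x _ ↦ ?_
        obtain ⟨h1, h2, h3⟩ := D.rho_mul g hcM hdet x
        rw [← SlashAction.slash_mul, ← map_mul]
        exact slash_eq_of_dvd k hqM f hf _ _ h1 h2 h3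
    _ = ∑ x : OnePoint (ZMod q), f ∣[k] (mapGL ℝ (D.rho x) : GL (Fin 2) ℝ) :=
        Equiv.sum_comp (MulAction.toPerm (redM q (g 1 1) (g 0 1) (g 1 0) (g 0 0) hdet))
          (fun x ↦ f ∣[k] (mapGL ℝ (D.rho x) : GL (Fin 2) ℝ))

theorem sum_range_eq_sum_zmod {p : ℕ} [NeZero p] {A : Type*} [AddCommMonoid A] (F : ℕ → A) :
    ∑ j ∈ Finset.range p, F j = ∑ x : ZMod p, F x.val := by
  refine Finset.sum_nbij' (fun j : ℕ ↦ (j : ZMod p)) (fun x : ZMod p ↦ x.val) (fun _ _ ↦ Finset.mem_univ _)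
    (fun x _ ↦ Finset.mem_range.mpr x.val_lt) (fun j hj ↦ ?_) (fun x _ ↦ ?_) (fun j hj ↦ ?_)
  · exact ZMod.val_cast_of_lt (Finset.mem_range.mp hj)
  · exact ZMod.natCast_zmod_val x
  · rw [ZMod.val_cast_of_lt (Finset.mem_range.mp hj)]

/-- `Tr f = f + U_q (f | W)` in weight two. -/
theorem ALData.tr_eq [Fact q.Prime] (D : ALData q M) (f : ℍ → ℂ) :
    D.tr 2 f = f + heckeU 2 q (f ∣[(2 : ℤ)] D.W) := by
  have hq : q ≠ 0 := (Fact.out : q.Prime).ne_zero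
  have : NeZero q := ⟨hq⟩
  rw [ALData.tr, heckeU_def, sum_range_eq_sum_zmod]
  have : ∑ x : OnePoint (ZMod q), f ∣[(2 : ℤ)] (mapGL ℝ (D.rho x) : GL (Fin 2) ℝ)
      = f ∣[(2 : ℤ)] (mapGL ℝ (D.rho ∞) : GL (Fin 2) ℝ) +
        ∑ x : ZMod q, f ∣[(2 : ℤ)] (mapGL ℝ (D.rho (x : OnePoint (ZMod q))) : GL (Fin 2) ℝ) :=
    Fintype.sum_option (fun x : OnePoint (ZMod q) ↦ f ∣[(2 : ℤ)] (mapGL ℝ (D.rho x) : GL (Fin 2) ℝ))
  rw [this]
  congr 1
  · simp
  · refine Finset.sum_congr rfl fun x _ ↦ ?_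
    obtain ⟨s, hs, hmul⟩ := D.W_mul_heckeMatrix hq x.val
    rw [← SlashAction.slash_mul, hmul, SlashAction.slash_mul, slash_scalar_two f hq s hs,
      ALData.rho_coe]

section commT

variable {p : ℕ}

def hRep (p : ℕ) (x : OnePoint (ZMod p)) : GL (Fin 2) ℝ :=
  x.elim (heckeDiagMatrix p) (fun j ↦ heckeMatrix p j.val)

@[simp] theorem hRep_infty : hRep p ∞ = heckeDiagMatrix p := rfl

@[simp] theorem hRep_coe (j : ZMod p) : hRep p j = heckeMatrix p j.val := rfl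

theorem heckeT_eq_sum_hRep [NeZero p] (k : ℤ) (f : ℍ → ℂ) :
    heckeT k p f = ∑ x : OnePoint (ZMod p), f ∣[k] hRep p x := by
  rw [heckeT_eq_heckeU_add, heckeU_def, sum_range_eq_sum_zmod, add_comm]
  exact (Fintype.sum_option (fun x : OnePoint (ZMod p) ↦ f ∣[k] hRep p x)).symm

theorem ALData.heckeMatrix_mul_W (D : ALData q M) (hp : p ≠ 0) (hq : q ≠ 0) (j j' : ℕ) (e : ℤ)
    (he : D.b + j * q = j' * (q * D.a + j * (q * M)) + p * e) :
    ∃ g' : SL(2, ℤ), (∃ z' : ℤ, g' 1 0 = (q : ℤ) * (M : ℤ) * z') ∧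
      heckeMatrix p j * D.W = mapGL ℝ g' * (D.W * heckeMatrix p j') := by
  have hD := D.h
  have hDr := D.real_h
  have her := congrArg (Int.cast : ℤ → ℝ) he
  push_cast at her
  refine ⟨slMk ((D.a + j * M) * q - M * e) (-(D.a + j * M) * D.b + D.a * e)
    ((q : ℤ) * (M : ℤ) * (M * j' + p - 1))
    (q * D.a - M * (q * D.a * j' + D.b * p)) ?_, ⟨_, rfl⟩, ?_⟩
  · linear_combination (D.a * q - D.b * M + 1) * hD + M * (D.a * q - D.b * M) * he
  · ext i k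
    fin_cases i <;> fin_cases k <;>
      simp [ALData.val_W, hq, hp, Matrix.mul_apply, Fin.sum_univ_two]
    · linear_combination (-(q : ℝ) * (D.a + j * M)) * hDr
    · linear_combination (-(((D.a : ℝ) + j * M) * q * j' + e * p)) * hDr + her
    · linear_combination (-(q : ℝ) * M * p) * hDr
    · linear_combination (-(q : ℝ) * p) * hDr

theorem ALData.heckeMatrix_mul_W' (D : ALData q M) (hp : p ≠ 0) (hq : q ≠ 0) (j : ℕ) (e : ℤ)
    (he : D.a + j * M = p * e) :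
    ∃ g' : SL(2, ℤ), (∃ z' : ℤ, g' 1 0 = (q : ℤ) * (M : ℤ) * z') ∧
      heckeMatrix p j * D.W = mapGL ℝ g' * (D.W * heckeDiagMatrix p) := by
  have hD := D.h
  have hDr := D.real_h
  have her := congrArg (Int.cast : ℤ → ℝ) he
  push_cast at her
  refine ⟨slMk (q * e - (D.b + j * q) * M) (-e * D.b + (D.b + j * q) * D.a)
    ((q : ℤ) * (M : ℤ) * (1 - p))
    (- M * D.b + q * D.a * p) ?_, ⟨_, rfl⟩, ?_⟩
  · linear_combination (D.a * q - D.b * M + 1) * hD - q * (D.a * q - D.b * M) * he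
  · ext i k
    fin_cases i <;> fin_cases k <;>
      simp [ALData.val_W, hq, hp, Matrix.mul_apply, Fin.sum_univ_two]
    · linear_combination (-(q : ℝ) * e * p) * hDr + (q : ℝ) * her
    · linear_combination (-((D.b : ℝ) + j * q)) * hDr
    · linear_combination (-(q : ℝ) * M * p) * hDr
    · linear_combination (-(q : ℝ) * p) * hDr

theorem ALData.heckeDiagMatrix_mul_W (D : ALData q M) (hp : p ≠ 0) (hq : q ≠ 0) (j' : ℕ) (e : ℤ)
    (he : 1 = M * (j' : ℤ) + p * e) :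
    ∃ g' : SL(2, ℤ), (∃ z' : ℤ, g' 1 0 = (q : ℤ) * (M : ℤ) * z') ∧
      heckeDiagMatrix p * D.W = mapGL ℝ g' * (D.W * heckeMatrix p j') := by
  have hD := D.h
  have hDr := D.real_h
  have her := congrArg (Int.cast : ℤ → ℝ) he
  push_cast at her
  refine ⟨slMk (D.a * q * (M * j' + p) - D.b * M) (-D.a * (q * D.a * j' + D.b * p) + D.a * D.b)
    ((q : ℤ) * (M : ℤ) * (1 - e))
    (q * D.a * e - M * D.b) ?_, ⟨_, rfl⟩, ?_⟩
  · linear_combination (D.a * q - D.b * M + 1) * hD - D.a * q * (D.a * q - D.b * M) * he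
  · ext i k
    fin_cases i <;> fin_cases k <;>
      simp [ALData.val_W, hq, hp, Matrix.mul_apply, Fin.sum_univ_two]
    · linear_combination (-(D.a : ℝ) * q * p) * hDr
    · linear_combination (-(D.b : ℝ) * p) * hDr
    · linear_combination (-(q : ℝ) * M) * hDr
    · linear_combination (-(q : ℝ) * (M * j' + e * p)) * hDr + (q : ℝ) * her

theorem ALData.hRep_mul_W [Fact p.Prime] (D : ALData q M) (hq : q.Prime) (hpN : ¬ p ∣ q * M)
    (hdet : ((((q : ℤ)) * ((q : ℤ) * D.a) - D.b * ((q : ℤ) * (M : ℤ)) : ℤ) : ZMod p) ≠ 0)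
    (x : OnePoint (ZMod p)) :
    ∃ g' : SL(2, ℤ), (∃ z' : ℤ, g' 1 0 = (q : ℤ) * (M : ℤ) * z') ∧
      hRep p x * D.W = mapGL ℝ g' *
        (D.W * hRep p (redM p (q : ℤ) D.b ((q : ℤ) * (M : ℤ)) ((q : ℤ) * D.a) hdet • x)) := by
  have hp : p ≠ 0 := (Fact.out : p.Prime).ne_zero
  have hq0 : q ≠ 0 := hq.ne_zero
  have hqp : ((q : ℤ) : ZMod p) ≠ 0 := by
    intro h
    rw [ZMod.intCast_zmod_eq_zero_iff_dvd] at h
    exact hpN (dvd_mul_of_dvd_left (by exact_mod_cast h) _)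
  have hMp : ((M : ℤ) : ZMod p) ≠ 0 := by
    intro h
    rw [ZMod.intCast_zmod_eq_zero_iff_dvd] at h
    exact hpN (dvd_mul_of_dvd_right (by exact_mod_cast h) _)
  induction x using OnePoint.rec with
  | infty =>
    rw [OnePoint.smul_infty_eq_ite]
    have hqp' : (q : ZMod p) ≠ 0 := by simpa using hqp
    have hMp' : (M : ZMod p) ≠ 0 := by simpa using hMp
    rw [if_neg (by simpa using ⟨hqp', hMp'⟩)]
    simp only [redM_00, redM_10]
    set y : ZMod p := ((q : ℤ) : ZMod p) / (((q : ℤ) * (M : ℤ) : ℤ) : ZMod p) with hy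
    obtain ⟨e, he⟩ : (p : ℤ) ∣ 1 - M * (y.val : ℤ) := by
      rw [← ZMod.intCast_zmod_eq_zero_iff_dvd]
      push_cast
      rw [ZMod.natCast_zmod_val, hy]
      push_cast at hqp hMp ⊢
      field_simp
      ring
    obtain ⟨g', hg', hmul⟩ := D.heckeDiagMatrix_mul_W hp hq0 y.val e (by linear_combination he)
    exact ⟨g', hg', hmul⟩
  | coe j =>
    rw [OnePoint.smul_some_eq_ite]
    simp only [redM_00, redM_01, redM_10, redM_11]
    by_cases h : (((q : ℤ) * (M : ℤ) : ℤ) : ZMod p) * j + (((q : ℤ) * D.a : ℤ) : ZMod p) = 0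
    · rw [if_pos h]
      obtain ⟨e, he⟩ : (p : ℤ) ∣ D.a + j.val * M := by
        rw [← ZMod.intCast_zmod_eq_zero_iff_dvd]
        push_cast
        rw [ZMod.natCast_zmod_val]
        apply mul_left_cancel₀ hqp
        push_cast at h ⊢
        linear_combination h
      obtain ⟨g', hg', hmul⟩ := D.heckeMatrix_mul_W' hp hq0 j.val e he
      exact ⟨g', hg', hmul⟩
    · rw [if_neg h]
      set y : ZMod p := (((q : ℤ) : ZMod p) * j + (D.b : ZMod p)) /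
        ((((q : ℤ) * (M : ℤ) : ℤ) : ZMod p) * j + (((q : ℤ) * D.a : ℤ) : ZMod p)) with hy
      obtain ⟨e, he⟩ : (p : ℤ) ∣ D.b + j.val * q - y.val * (q * D.a + j.val * (q * M)) := by
        rw [← ZMod.intCast_zmod_eq_zero_iff_dvd]
        have hy' : y * ((((q : ℤ) * (M : ℤ) : ℤ) : ZMod p) * j + (((q : ℤ) * D.a : ℤ) : ZMod p)) =
          (((q : ℤ) : ZMod p) * j + (D.b : ZMod p)) := by rw [hy, div_mul_cancel₀ _ h]
        push_cast at hy' ⊢
        rw [ZMod.natCast_zmod_val, ZMod.natCast_zmod_val]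
        linear_combination -hy'
      obtain ⟨g', hg', hmul⟩ := D.heckeMatrix_mul_W hp hq0 j.val y.val e (by linear_combination he)
      exact ⟨g', hg', hmul⟩

theorem ALData.heckeT_slash_W [Fact p.Prime] (D : ALData q M) (k : ℤ) (hq : q.Prime)
    (hpN : ¬ p ∣ q * M) (f : ℍ → ℂ)
    (hf : ∀ γ ∈ (CongruenceSubgroup.Gamma0 (q * M) : Subgroup (GL (Fin 2) ℝ)), f ∣[k] γ = f) :
    heckeT k p f ∣[k] D.W = heckeT k p (f ∣[k] D.W) := by
  have : NeZero p := ⟨(Fact.out : p.Prime).ne_zero⟩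
  have hdet : ((((q : ℤ)) * ((q : ℤ) * D.a) - D.b * ((q : ℤ) * (M : ℤ)) : ℤ) : ZMod p) ≠ 0 := by
    have : ((q : ℤ)) * ((q : ℤ) * D.a) - D.b * ((q : ℤ) * (M : ℤ)) = (q : ℤ) := by
      linear_combination (q : ℤ) * D.h
    rw [this]
    intro h
    rw [ZMod.intCast_zmod_eq_zero_iff_dvd] at h
    exact hpN (dvd_mul_of_dvd_left (by exact_mod_cast h) _)
  rw [heckeT_eq_sum_hRep, heckeT_eq_sum_hRep, SlashAction.sum_slash]
  calc ∑ x : OnePoint (ZMod p), (f ∣[k] hRep p x) ∣[k] D.W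
      = ∑ x : OnePoint (ZMod p), (f ∣[k] D.W) ∣[k]
          hRep p (redM p (q : ℤ) D.b ((q : ℤ) * (M : ℤ)) ((q : ℤ) * D.a) hdet • x) := by
        refine Finset.sum_congr rfl fun x _ ↦ ?_
        obtain ⟨g', ⟨z', hg'⟩, hmul⟩ := D.hRep_mul_W hq hpN hdet x
        have hg'N : g' ∈ CongruenceSubgroup.Gamma0 (q * M) := by
          rw [CongruenceSubgroup.Gamma0_mem, ZMod.intCast_zmod_eq_zero_iff_dvd]
          exact ⟨z', by rw [hg']; push_cast; ring⟩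
        rw [← SlashAction.slash_mul, hmul, SlashAction.slash_mul,
          hf _ (Subgroup.mem_map_of_mem (mapGL ℝ) hg'N), SlashAction.slash_mul]
    _ = ∑ x : OnePoint (ZMod p), (f ∣[k] D.W) ∣[k] hRep p x :=
        Equiv.sum_comp (MulAction.toPerm (redM p (q : ℤ) D.b ((q : ℤ) * (M : ℤ)) ((q : ℤ) * D.a) hdet))
          (fun x ↦ (f ∣[k] D.W) ∣[k] hRep p x)

end commT

section RatCusps

variable {F : Type*} [FunLike F ℍ ℂ] {Γ : Subgroup (GL (Fin 2) ℝ)} [Γ.IsArithmetic] {k : ℤ}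

theorem isCusp_ratCast_smul {c : OnePoint ℝ} (hc : IsCusp c Γ) (g : GL (Fin 2) ℚ) :
    IsCusp (Matrix.GeneralLinearGroup.map (Rat.castHom ℝ) g • c) Γ := by
  rw [Subgroup.IsArithmetic.isCusp_iff_isCusp_SL2Z, isCusp_SL2Z_iff] at hc ⊢
  obtain ⟨c, rfl⟩ := hc
  exact ⟨g • c, by rw [← Rat.coe_castHom, OnePoint.map_smul]⟩

theorem isZeroAt_slash_ratCast [CuspFormClass F Γ k] (f : F) (g : GL (Fin 2) ℚ) {c : OnePoint ℝ}
    (hc : IsCusp c Γ) : c.IsZeroAt (⇑f ∣[k] (Matrix.GeneralLinearGroup.map (Rat.castHom ℝ) g)) k :=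
  OnePoint.IsZeroAt.smul_iff.mp (CuspFormClass.zero_at_cusps f (isCusp_ratCast_smul hc g))

end RatCusps

/-- The Atkin–Lehner matrix over `ℚ`. -/
def ALData.WQ (D : ALData q M) (hq : q ≠ 0) : GL (Fin 2) ℚ :=
  Matrix.GeneralLinearGroup.mkOfDetNeZero !![(q : ℚ) * (D.a : ℚ), (D.b : ℚ); (q : ℚ) * (M : ℚ), (q : ℚ)]
    (by
      rw [Matrix.det_fin_two_of]
      have h1 : (D.a : ℚ) * (q : ℚ) - (D.b : ℚ) * (M : ℚ) = 1 := by
        have := congrArg (Int.cast : ℤ → ℚ) D.h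
        push_cast at this
        exact this
      have h2 : (q : ℚ) * (D.a : ℚ) * (q : ℚ) - (D.b : ℚ) * ((q : ℚ) * (M : ℚ)) = q := by
        linear_combination (q : ℚ) * h1
      rw [h2]
      exact_mod_cast hq)

theorem ALData.W_eq_map (D : ALData q M) (hq : q ≠ 0) :
    D.W = Matrix.GeneralLinearGroup.map (Rat.castHom ℝ) (D.WQ hq) := by
  ext i j
  fin_cases i <;> fin_cases j <;>
    simp [ALData.val_W, hq, ALData.WQ, Matrix.GeneralLinearGroup.mkOfDetNeZero]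

theorem ALData.slashW_slash (D : ALData q M) (k : ℤ) (hq : q ≠ 0) (f : ℍ → ℂ)
    (hf : ∀ γ ∈ (CongruenceSubgroup.Gamma0 (q * M) : Subgroup (GL (Fin 2) ℝ)), f ∣[k] γ = f)
    (γ : GL (Fin 2) ℝ) (hγ : γ ∈ (CongruenceSubgroup.Gamma0 (q * M) : Subgroup (GL (Fin 2) ℝ))) :
    (f ∣[k] D.W) ∣[k] γ = f ∣[k] D.W := by
  obtain ⟨g, hg, rfl⟩ := hγ
  have hcN : ((q * M : ℕ) : ℤ) ∣ g 1 0 :=
    (ZMod.intCast_zmod_eq_zero_iff_dvd _ _).mp (CongruenceSubgroup.Gamma0_mem.mp hg)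
  obtain ⟨z, hz⟩ := hcN
  obtain ⟨g', ⟨z', hg'⟩, hmul⟩ := D.W_mul hq g z (by rw [hz]; push_cast; ring)
  have hg'N : g' ∈ CongruenceSubgroup.Gamma0 (q * M) := by
    rw [CongruenceSubgroup.Gamma0_mem, ZMod.intCast_zmod_eq_zero_iff_dvd]
    exact ⟨z', by rw [hg']; push_cast; ring⟩
  rw [← SlashAction.slash_mul, hmul, SlashAction.slash_mul,
    hf _ (Subgroup.mem_map_of_mem (mapGL ℝ) hg'N)]

theorem ALData.slashW_slashW (D : ALData q M) (hq : q ≠ 0) (f : ℍ → ℂ)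
    (hf : ∀ γ ∈ (CongruenceSubgroup.Gamma0 (q * M) : Subgroup (GL (Fin 2) ℝ)), f ∣[(2 : ℤ)] γ = f) :
    (f ∣[(2 : ℤ)] D.W) ∣[(2 : ℤ)] D.W = f := by
  obtain ⟨g', ⟨z', hg'⟩, s, hs, hmul⟩ := D.W_sq hq
  have hg'N : g' ∈ CongruenceSubgroup.Gamma0 (q * M) := by
    rw [CongruenceSubgroup.Gamma0_mem, ZMod.intCast_zmod_eq_zero_iff_dvd]
    exact ⟨z', by rw [hg']; push_cast; ring⟩
  rw [← SlashAction.slash_mul, hmul, SlashAction.slash_mul, slash_scalar_two f hq s hs,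
    hf _ (Subgroup.mem_map_of_mem (mapGL ℝ) hg'N)]

/-- The Atkin–Lehner operator on cusp forms of level `q M`. -/
def ALData.wCusp (D : ALData q M) (k : ℤ) [NeZero (q * M)]
    (f : CuspForm (CongruenceSubgroup.Gamma0 (q * M)) k) :
    CuspForm (CongruenceSubgroup.Gamma0 (q * M)) k where
  toFun := ⇑f ∣[k] D.W
  slash_action_eq' γ hγ := D.slashW_slash k (fun h => NeZero.ne (q * M) (by simp [h])) f
    (fun γ hγ => SlashInvariantFormClass.slash_action_eq f γ hγ) γ hγ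
  holo' := (CuspForm.translate f D.W).holo'
  zero_at_cusps' {c} hc := by
    have hq : q ≠ 0 := fun h => NeZero.ne (q * M) (by simp [h])
    rw [D.W_eq_map hq]
    exact isZeroAt_slash_ratCast f _ hc

@[simp] theorem ALData.coe_wCusp (D : ALData q M) (k : ℤ) [NeZero (q * M)]
    (f : CuspForm (CongruenceSubgroup.Gamma0 (q * M)) k) :
    ⇑(D.wCusp k f) = ⇑f ∣[k] D.W := rfl

/-- A cusp form of level `N` invariant under `Γ₀(M)`, `M ∣ N`, is a cusp form of level `M`. -/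
def lowerCusp {N M' : ℕ} [NeZero N] [NeZero M'] (k : ℤ) (f : CuspForm (CongruenceSubgroup.Gamma0 N) k)
    (hf : ∀ g ∈ CongruenceSubgroup.Gamma0 M', ⇑f ∣[k] (mapGL ℝ g : GL (Fin 2) ℝ) = ⇑f) :
    CuspForm (CongruenceSubgroup.Gamma0 M') k where
  toFun := ⇑f
  slash_action_eq' γ hγ := by
    obtain ⟨g, hg, rfl⟩ := hγ
    exact hf g hg
  holo' := f.holo'
  zero_at_cusps' {c} hc := by
    refine f.zero_at_cusps' ?_
    rw [Subgroup.IsArithmetic.isCusp_iff_isCusp_SL2Z] at hc ⊢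
    exact hc

@[simp] theorem coe_lowerCusp {N M' : ℕ} [NeZero N] [NeZero M'] (k : ℤ)
    (f : CuspForm (CongruenceSubgroup.Gamma0 N) k)
    (hf : ∀ g ∈ CongruenceSubgroup.Gamma0 M', ⇑f ∣[k] (mapGL ℝ g : GL (Fin 2) ℝ) = ⇑f) :
    ⇑(lowerCusp k f hf) = ⇑f := rfl

end Fermat.Agent.H44
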