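import Mathlib
import Fermat.Prelude.Def_FLTPrelim_Modularity
import Fermat.Prelude.Def_ModularForm_HeckeOperatorForms
import Fermat.Prelude.Thm_ModularFormClass_qCoeff_heckeT
import Fermat.Prelude.Thm_ModularFormClass_qCoeff_heckeU
import Fermat.Prelude.Thm_UpperHalfPlane_qCoeff_heckeT
import Fermat.Prelude.Thm_CongruenceSubgroup_one_mem_strictPeriods_Gamma0
import Fermat.Prelude.Sol.S_UpperHalfPlane_qCoeff_heckeT
import Fermat.Prelude.Sol.S_CuspFormClass_isZeroAt_heckeT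
import Fermat.Prelude.Sol.S_ModularForm_heckeU_slash_eq_self_of_mem_Gamma0

/-!
Level raising of normalised eigenforms (q-stabilisation, level inclusion).

Main results (namespace `Fermat.Agent.H58`):

* `CuspForm` level inclusion `levelIncl : CuspForm (Gamma0 M) k →ₗ[ℂ] CuspForm (Gamma0 N) k` for
  `M ∣ N`.
* the operator `vLin : CuspForm (Gamma0 M) k →ₗ[ℂ] CuspForm (Gamma0 N) k` (`f ↦ f(q z)`) for
  `M * q ∣ N`.
* `exists_isNormalizedEigenform_of_dvd`: every normalised eigenform of level `M` yields a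
  normalised eigenform of level `N` for every nonzero multiple `N` of `M`, with the same
  `n`-th coefficients for all `n` such that every prime dividing `n` and `N` divides `M`.
-/

set_option autoImplicit false

noncomputable section

open UpperHalfPlane ModularForm CongruenceSubgroup ModularFormClass
open scoped MatrixGroups ModularForm

namespace Fermat.Agent.H58

theorem Gamma0_le_of_dvd {M N : ℕ} (h : M ∣ N) : Gamma0 N ≤ Gamma0 M := by
  intro γ hγ
  rw [Gamma0_mem] at hγ ⊢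
  rw [ZMod.intCast_zmod_eq_zero_iff_dvd] at hγ ⊢
  exact (Int.natCast_dvd_natCast.mpr h).trans hγ

theorem coe_Gamma0_le_of_dvd {M N : ℕ} (h : M ∣ N) :
    (Gamma0 N : Subgroup (GL (Fin 2) ℝ)) ≤ (Gamma0 M : Subgroup (GL (Fin 2) ℝ)) :=
  Subgroup.map_mono (Gamma0_le_of_dvd h)

theorem isCusp_of_dvd {M N : ℕ} [NeZero N] [NeZero M] {c : OnePoint ℝ}
    (hc : IsCusp c (Gamma0 N : Subgroup (GL (Fin 2) ℝ))) :
    IsCusp c (Gamma0 M : Subgroup (GL (Fin 2) ℝ)) := by
  rw [Subgroup.IsArithmetic.isCusp_iff_isCusp_SL2Z] at hc ⊢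
  exact hc

variable {M N : ℕ} [NeZero M] [NeZero N] {k : ℤ}

/-- Inclusion of levels. -/
def levelIncl (k : ℤ) (h : M ∣ N) : CuspForm (Gamma0 M) k →ₗ[ℂ] CuspForm (Gamma0 N) k where
  toFun f :=
    { toFun := ⇑f
      slash_action_eq' := fun γ hγ =>
        SlashInvariantFormClass.slash_action_eq f γ (coe_Gamma0_le_of_dvd h hγ)
      holo' := CuspFormClass.holo f
      zero_at_cusps' := fun hc => CuspFormClass.zero_at_cusps f (isCusp_of_dvd hc) }
  map_add' _ _ := rfl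
  map_smul' _ _ := rfl

@[simp] theorem coe_levelIncl (h : M ∣ N) (f : CuspForm (Gamma0 M) k) :
    ⇑(levelIncl k h f) = ⇑f := rfl

omit [NeZero M] [NeZero N] in
theorem heckeDiag_mul_mem {q : ℕ} (hq : q ≠ 0) (h : M * q ∣ N) {γ : GL (Fin 2) ℝ}
    (hγ : γ ∈ (Gamma0 N : Subgroup (GL (Fin 2) ℝ))) :
    ∃ γ' ∈ (Gamma0 M : Subgroup (GL (Fin 2) ℝ)),
      heckeDiagMatrix q * γ = γ' * heckeDiagMatrix q := by
  obtain ⟨g, hg, rfl⟩ := hγ
  have hg0 : (N : ℤ) ∣ g 1 0 := by
    have := Gamma0_mem.mp hg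
    rwa [ZMod.intCast_zmod_eq_zero_iff_dvd] at this
  have h' : ((M * q : ℕ) : ℤ) ∣ g 1 0 := (Int.natCast_dvd_natCast.mpr h).trans hg0
  obtain ⟨e, he⟩ := h'
  obtain ⟨g', hg', hmul⟩ :=
    P2MW.S_ModularForm_heckeU_slash_eq_self_of_mem_Gamma0.ModularForm.HeckeSlashInvariance.heckeDiagMatrix_mul_of_eq'
      hq g ((M : ℤ) * e) (by rw [he]; push_cast; ring)
  refine ⟨Matrix.SpecialLinearGroup.mapGL ℝ g', ⟨g', ?_, rfl⟩, hmul⟩
  show g' ∈ Gamma0 M
  rw [Gamma0_mem, ZMod.intCast_zmod_eq_zero_iff_dvd, hg']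
  exact dvd_mul_right _ _

/-- The operator `f ↦ f ∣[k] diag(q,1) = q^(k-1) f(q z)`. -/
def slashDiagLin (k : ℤ) {q : ℕ} (hq : q ≠ 0) (h : M * q ∣ N) :
    CuspForm (Gamma0 M) k →ₗ[ℂ] CuspForm (Gamma0 N) k where
  toFun f :=
    { toFun := ⇑f ∣[k] heckeDiagMatrix q
      slash_action_eq' := fun γ hγ => by
        obtain ⟨γ', hγ', hmul⟩ := heckeDiag_mul_mem hq h hγ
        show (⇑f ∣[k] heckeDiagMatrix q) ∣[k] γ = ⇑f ∣[k] heckeDiagMatrix q
        rw [← SlashAction.slash_mul, hmul, SlashAction.slash_mul]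
        congr 1
        exact SlashInvariantFormClass.slash_action_eq f γ' hγ'
      holo' := by
        have h1 : (⇑f ∣[k] heckeDiagMatrix q) =
            heckeT k q ⇑f - heckeU k q ⇑f := by
          rw [heckeT_eq_heckeU_add]; abel
        have h2 := (mdifferentiable_heckeT (CuspFormClass.holo f) k q).sub
          (mdifferentiable_heckeU (CuspFormClass.holo f) k q)
        rw [← h1] at h2
        exact h2
      zero_at_cusps' := fun {c} hc => by
        obtain ⟨g, hg⟩ :=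
          P2MW.S_CuspFormClass_isZeroAt_heckeT.ModularForm.S06W2.exists_heckeDiagMatrix_eq_map q
        rw [hg]
        exact P2MW.S_CuspFormClass_isZeroAt_heckeT.ModularForm.S06W2.isZeroAt_slash_ratCast f g
          (isCusp_of_dvd (M := M) hc) }
  map_add' f g := DFunLike.coe_injective <|
    show (⇑(f + g) ∣[k] heckeDiagMatrix q) = _ by
      rw [FunLike.coe_add, SlashAction.add_slash]; rfl
  map_smul' c f := DFunLike.coe_injective <|
    show (⇑(c • f) ∣[k] heckeDiagMatrix q) = _ by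
      rw [FunLike.coe_smul, ModularForm.smul_slash, σ_heckeDiagMatrix]; rfl

@[simp] theorem coe_slashDiagLin {q : ℕ} (hq : q ≠ 0) (h : M * q ∣ N)
    (f : CuspForm (Gamma0 M) k) :
    ⇑(slashDiagLin k hq h f) = ⇑f ∣[k] heckeDiagMatrix q := rfl


section qCoeff

omit [NeZero M] in
theorem analyticAt_cuspFunction (f : CuspForm (Gamma0 M) k) :
    AnalyticAt ℂ (cuspFunction 1 ⇑f) 0 :=
  ModularFormClass.analyticAt_cuspFunction_zero f one_pos
    (CongruenceSubgroup.one_mem_strictPeriods_Gamma0 M)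

omit [NeZero M] in
theorem qCoeff_add (f g : CuspForm (Gamma0 M) k) (n : ℕ) :
    qCoeff ⇑(f + g) n = qCoeff ⇑f n + qCoeff ⇑g n := by
  rw [qCoeff, FunLike.coe_add, qExpansion_add (analyticAt_cuspFunction f)
    (analyticAt_cuspFunction g), map_add]
  rfl

omit [NeZero M] in
theorem qCoeff_sub (f g : CuspForm (Gamma0 M) k) (n : ℕ) :
    qCoeff ⇑(f - g) n = qCoeff ⇑f n - qCoeff ⇑g n := by
  rw [qCoeff, FunLike.coe_sub, qExpansion_sub (analyticAt_cuspFunction f)
    (analyticAt_cuspFunction g), map_sub]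
  rfl

omit [NeZero M] in
theorem qCoeff_smul (c : ℂ) (f : CuspForm (Gamma0 M) k) (n : ℕ) :
    qCoeff ⇑(c • f) n = c * qCoeff ⇑f n := by
  rw [qCoeff, FunLike.coe_smul, qExpansion_smul (analyticAt_cuspFunction f)]
  rfl

theorem qCoeff_levelIncl (h : M ∣ N) (f : CuspForm (Gamma0 M) k) (n : ℕ) :
    qCoeff ⇑(levelIncl k h f) n = qCoeff ⇑f n := rfl

theorem qCoeff_slashDiagLin {q : ℕ} (hq : q ≠ 0) (h : M * q ∣ N) (f : CuspForm (Gamma0 M) k)
    (n : ℕ) : qCoeff ⇑(slashDiagLin k hq h f) n =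
      if q ∣ n then (q : ℂ) ^ (k - 1) * qCoeff ⇑f (n / q) else 0 := by
  have hsum : ∀ τ : ℍ, HasSum (fun n : ℕ ↦
      (if q ∣ n then (q : ℂ) ^ (k - 1) * qCoeff ⇑f (n / q) else 0) •
        Function.Periodic.qParam 1 τ ^ n) (slashDiagLin k hq h f τ) := by
    intro τ
    rw [coe_slashDiagLin, slash_heckeDiagMatrix_apply k hq]
    have hper := SlashInvariantFormClass.periodic_comp_ofComplex f
      (CongruenceSubgroup.one_mem_strictPeriods_Gamma0 M)
    have : Fact (IsCusp OnePoint.infty (Gamma0 M : Subgroup (GL (Fin 2) ℝ))) :=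
      ⟨Subgroup.isCusp_of_mem_strictPeriods one_pos
        (CongruenceSubgroup.one_mem_strictPeriods_Gamma0 M)⟩
    have := P2MW.S_UpperHalfPlane_qCoeff_heckeT.M4cP1W2.hasSum_diag hq hper
      (ModularFormClass.holo f) (ModularFormClass.bdd_at_infty f) k τ
    convert this using 2 with n
    split_ifs <;> simp
  exact (P2MW.S_UpperHalfPlane_qCoeff_heckeT.M4cP1W2.qExpansion_coeff_unique'
    (CuspFormClass.holo (slashDiagLin k hq h f)).continuous
    (analyticAt_cuspFunction (slashDiagLin k hq h f)) hsum n).symm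

end qCoeff

/-- `f - c f(q z)` on `Gamma0 N` for `M q ∣ N`. -/
def stab {q : ℕ} (hq : q ≠ 0) (h : M * q ∣ N) (c : ℂ) (f : CuspForm (Gamma0 M) 2) :
    CuspForm (Gamma0 N) 2 :=
  levelIncl 2 (dvd_of_mul_right_dvd h) f - (c * (q : ℂ)⁻¹) • slashDiagLin 2 hq h f

theorem qCoeff_stab {q : ℕ} (hq : q ≠ 0) (h : M * q ∣ N) (c : ℂ) (f : CuspForm (Gamma0 M) 2)
    (n : ℕ) : qCoeff ⇑(stab hq h c f) n =
      qCoeff ⇑f n - if q ∣ n then c * qCoeff ⇑f (n / q) else 0 := by
  have hq' : (q : ℂ) ≠ 0 := by exact_mod_cast hq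
  rw [stab, qCoeff_sub, qCoeff_smul, qCoeff_levelIncl, qCoeff_slashDiagLin]
  split_ifs
  · norm_num
    field_simp
  · simp

section Stabilisation

open _root_.CuspForm

omit [NeZero M] in
theorem IsNormalizedEigenform.qCoeff_pow_of_dvd {f : CuspForm (Gamma0 M) 2}
    (hf : f.IsNormalizedEigenform) {p : ℕ} (hp : p.Prime) (hpM : p ∣ M) (r : ℕ) :
    qCoeff ⇑f (p ^ r) = qCoeff ⇑f p ^ r := by
  induction r with
  | zero => simp [hf.qCoeff_one]
  | succ r ih =>
    rcases r with _ | r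
    · simp
    · rw [hf.qCoeff_prime_pow_of_dvd p r hp hpM, ih]; ring

/-- The level inclusion of a normalised eigenform is a normalised eigenform if the new level has
the same prime divisors. -/
theorem isNormalizedEigenform_levelIncl (h : M ∣ N) {f : CuspForm (Gamma0 M) 2}
    (hf : f.IsNormalizedEigenform) (hpr : ∀ p : ℕ, p.Prime → p ∣ N → p ∣ M) :
    (levelIncl 2 h f).IsNormalizedEigenform where
  qCoeff_one := hf.qCoeff_one
  qCoeff_mul_of_coprime := hf.qCoeff_mul_of_coprime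
  qCoeff_prime_pow_of_not_dvd p r hp hpN :=
    hf.qCoeff_prime_pow_of_not_dvd p r hp fun hpM => hpN (hpM.trans h)
  qCoeff_prime_pow_of_dvd p r hp hpN := hf.qCoeff_prime_pow_of_dvd p r hp (hpr p hp hpN)

/-- Main stabilisation lemma. `α, β` are the roots of `X² - a_q X + q`; then `f - β f(qz)` is a
normalised eigenform of level `Mq` with `U_q`-eigenvalue `α`. -/
theorem isNormalizedEigenform_stab {q : ℕ} (hq : q.Prime) (hqM : ¬ q ∣ M) (h : M * q ∣ N)
    (hpr : ∀ p : ℕ, p.Prime → p ∣ N → p ∣ M * q)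
    {f : CuspForm (Gamma0 M) 2} (hf : f.IsNormalizedEigenform) {α β : ℂ}
    (hsum : α + β = qCoeff ⇑f q) (hprod : α * β = q) :
    (stab hq.ne_zero h β f).IsNormalizedEigenform ∧
      qCoeff ⇑(stab hq.ne_zero h β f) q = α := by
  have hcoef := qCoeff_stab hq.ne_zero h β f
  have hq1 : ¬ q ∣ 1 := hq.one_lt.ne' ∘ Nat.dvd_one.mp
  have hpow : ∀ p r : ℕ, p.Prime → p ≠ q → qCoeff ⇑(stab hq.ne_zero h β f) (p ^ r) =
      qCoeff ⇑f (p ^ r) := by
    intro p r hp hpq
    rw [hcoef, if_neg, sub_zero]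
    intro hdvd
    exact hpq ((Nat.prime_dvd_prime_iff_eq hq hp).mp (hq.dvd_of_dvd_pow hdvd)).symm
  have hpow1 : ∀ p : ℕ, p.Prime → p ≠ q → qCoeff ⇑(stab hq.ne_zero h β f) p =
      qCoeff ⇑f p := fun p hp hpq => by simpa using hpow p 1 hp hpq
  have hqq : qCoeff ⇑(stab hq.ne_zero h β f) q = α := by
    rw [hcoef, if_pos dvd_rfl, Nat.div_self hq.pos, hf.qCoeff_one, ← hsum]; ring
  refine ⟨⟨?_, ?_, ?_, ?_⟩, hqq⟩
  · rw [hcoef, if_neg hq1, hf.qCoeff_one, sub_zero]
  · intro m n hmn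
    rw [hcoef, hcoef, hcoef, hf.qCoeff_mul_of_coprime m n hmn]
    by_cases hm : q ∣ m
    · have hn : ¬ q ∣ n := fun hn => by
        have := Nat.dvd_gcd hm hn
        rw [hmn] at this
        exact hq1 this
      rw [if_pos (hm.mul_right n), if_pos hm, if_neg hn, Nat.mul_div_right_comm hm,
        hf.qCoeff_mul_of_coprime _ _ (hmn.coprime_dvd_left (Nat.div_dvd_of_dvd hm))]
      ring
    · by_cases hn : q ∣ n
      · rw [if_pos (hn.mul_left m), if_neg hm, if_pos hn, Nat.mul_div_assoc m hn,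
          hf.qCoeff_mul_of_coprime _ _ (hmn.coprime_dvd_right (Nat.div_dvd_of_dvd hn))]
        ring
      · rw [if_neg, if_neg hm, if_neg hn]
        · ring
        · intro hd
          rcases hq.dvd_mul.mp hd with h1 | h1
          · exact hm h1
          · exact hn h1
  · intro p r hp hpN
    have hpq : p ≠ q := by
      rintro rfl
      exact hpN ((dvd_mul_left _ _).trans h)
    have hpM : ¬ p ∣ M := fun hd => hpN ((hd.mul_right q).trans h)
    rw [hpow _ _ hp hpq, hpow _ _ hp hpq, hpow _ _ hp hpq, hpow1 p hp hpq]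
    exact hf.qCoeff_prime_pow_of_not_dvd p r hp hpM
  · intro p r hp hpN
    by_cases hpq : p = q
    · subst hpq
      have hdvd : ∀ j : ℕ, p ∣ p ^ (j + 1) := fun j => dvd_pow_self p (Nat.succ_ne_zero j)
      have hdiv : ∀ j : ℕ, p ^ (j + 1) / p = p ^ j := fun j => by
        rw [pow_succ, Nat.mul_div_cancel _ hp.pos]
      rw [hqq, hcoef, hcoef, if_pos (hdvd (r + 1)), if_pos (hdvd r), hdiv, hdiv,
        hf.qCoeff_prime_pow_of_not_dvd p r hp hqM, ← hsum]
      linear_combination (qCoeff ⇑f (p ^ r)) * hprod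
    · have hpM : p ∣ M := by
        rcases hp.dvd_mul.mp (hpr p hp hpN) with h1 | h1
        · exact h1
        · exact absurd ((Nat.prime_dvd_prime_iff_eq hp hq).mp h1) hpq
      rw [hpow _ _ hp hpq, hpow _ _ hp hpq, hpow1 p hp hpq]
      exact hf.qCoeff_prime_pow_of_dvd p r hp hpM

theorem exists_roots (a b : ℂ) : ∃ α β : ℂ, α + β = a ∧ α * β = b := by
  obtain ⟨s, hs⟩ := IsAlgClosed.exists_pow_nat_eq (a ^ 2 - 4 * b) (n := 2) (by norm_num)
  refine ⟨(a + s) / 2, (a - s) / 2, by ring, ?_⟩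
  linear_combination (-1 / 4) * hs

/-- Raising the level of a normalised eigenform by a prime not dividing the level. -/
theorem exists_isNormalizedEigenform_mul_prime {q : ℕ} (hq : q.Prime) (hqM : ¬ q ∣ M)
    (h : M * q ∣ N) (hpr : ∀ p : ℕ, p.Prime → p ∣ N → p ∣ M * q)
    {f : CuspForm (Gamma0 M) 2} (hf : f.IsNormalizedEigenform) :
    ∃ g : CuspForm (Gamma0 N) 2, g.IsNormalizedEigenform ∧
      ∀ n : ℕ, ¬ q ∣ n → qCoeff ⇑g n = qCoeff ⇑f n := by
  obtain ⟨α, β, hsum, hprod⟩ := exists_roots (qCoeff ⇑f q) q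
  refine ⟨_, (isNormalizedEigenform_stab hq hqM h hpr hf hsum hprod).1, fun n hn => ?_⟩
  rw [qCoeff_stab, if_neg hn, sub_zero]

theorem exists_isNormalizedEigenform_aux {N : ℕ} (hN : N ≠ 0) (d : ℕ) :
    ∀ {M : ℕ}, M * d = N → ∀ {f : CuspForm (Gamma0 M) 2}, f.IsNormalizedEigenform →
    ∃ g : CuspForm (Gamma0 N) 2, g.IsNormalizedEigenform ∧
      ∀ n : ℕ, (∀ q : ℕ, q.Prime → q ∣ n → q ∣ N → q ∣ M) → qCoeff ⇑g n = qCoeff ⇑f n := by
  induction d using Nat.strong_induction_on with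
  | _ d ih =>
    intro M hMd f hf
    have hM : M ≠ 0 := by rintro rfl; exact hN (by rw [← hMd, zero_mul])
    have hd : d ≠ 0 := by rintro rfl; exact hN (by rw [← hMd, mul_zero])
    have : NeZero M := ⟨hM⟩
    have : NeZero N := ⟨hN⟩
    have hdvd : M ∣ N := ⟨d, hMd.symm⟩
    by_cases hpr : ∀ p : ℕ, p.Prime → p ∣ N → p ∣ M
    · exact ⟨levelIncl 2 hdvd f, isNormalizedEigenform_levelIncl _ hf hpr, fun n _ => rfl⟩
    · push Not at hpr
      obtain ⟨q, hq, hqN, hqM⟩ := hpr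
      have hqd : q ∣ d := (hq.dvd_mul.mp (hMd ▸ hqN)).resolve_left hqM
      obtain ⟨e, rfl⟩ := hqd
      have he : e ≠ 0 := right_ne_zero_of_mul hd
      have : NeZero (M * q) := ⟨mul_ne_zero hM hq.ne_zero⟩
      obtain ⟨g₁, hg₁, hc₁⟩ := exists_isNormalizedEigenform_mul_prime (N := M * q) hq hqM
        dvd_rfl (fun _ _ hp => hp) hf
      have hlt : e < q * e := lt_mul_of_one_lt_left (Nat.pos_of_ne_zero he) hq.one_lt
      obtain ⟨g, hg, hc⟩ := ih e hlt (M := M * q) (by rw [← hMd, mul_assoc]) hg₁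
      refine ⟨g, hg, fun n hn => ?_⟩
      have hqn : ¬ q ∣ n := fun hd => hqM (hn q hq hd hqN)
      rw [hc n fun p hp hpn hpN => (hn p hp hpn hpN).mul_right q, hc₁ n hqn]

/-- Raising the level of a normalised eigenform to any nonzero multiple. -/
theorem exists_isNormalizedEigenform_of_dvd {M N : ℕ} (hN : N ≠ 0) (h : M ∣ N)
    {f : CuspForm (Gamma0 M) 2} (hf : f.IsNormalizedEigenform) :
    ∃ g : CuspForm (Gamma0 N) 2, g.IsNormalizedEigenform ∧
      ∀ n : ℕ, (∀ q : ℕ, q.Prime → q ∣ n → q ∣ N → q ∣ M) → qCoeff ⇑g n = qCoeff ⇑f n := by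
  obtain ⟨d, hd⟩ := h
  exact exists_isNormalizedEigenform_aux hN d hd.symm hf

/-- prime coefficients version. -/
theorem exists_isNormalizedEigenform_of_dvd' {M N : ℕ} (hN : N ≠ 0) (h : M ∣ N)
    {f : CuspForm (Gamma0 M) 2} (hf : f.IsNormalizedEigenform) :
    ∃ g : CuspForm (Gamma0 N) 2, g.IsNormalizedEigenform ∧
      ∀ ℓ : ℕ, ℓ.Prime → ¬ ℓ ∣ N → qCoeff ⇑g ℓ = qCoeff ⇑f ℓ := by
  obtain ⟨g, hg, hc⟩ := exists_isNormalizedEigenform_of_dvd hN h hf
  refine ⟨g, hg, fun ℓ hℓ hℓN => hc ℓ fun q hq hqℓ hqN => ?_⟩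
  rw [(Nat.prime_dvd_prime_iff_eq hq hℓ).mp hqℓ] at hqN
  exact absurd hqN hℓN

end Stabilisation

end Fermat.Agent.H58

namespace WeierstrassCurve

end WeierstrassCurve
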