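import Mathlib
import Fermat.Agent.H58Stab
import Fermat.Prelude.Def_FLTPrelim_ModularRep
import Fermat.Prelude.Def_CuspForm_Newforms
import Fermat.Prelude.Def_CuspForm_HeckeAlgebra
import Fermat.Prelude.Thm_UpperHalfPlane_eq_of_forall_qCoeff_eq

/-!
Newform descent, eigencharacters of normalised eigenforms and monotonicity of the modularity
predicates in the level.
-/

set_option autoImplicit false

noncomputable section

open UpperHalfPlane ModularForm CongruenceSubgroup ModularFormClass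
open scoped MatrixGroups ModularForm

namespace Fermat.Agent.H58

/-! ### Monotonicity in the level -/

theorem isModularModelOfLevel_of_dvd {W : WeierstrassCurve ℤ} {M N : ℕ} (hN : N ≠ 0)
    (h : M ∣ N) (hM : W.IsModularModelOfLevel M) : W.IsModularModelOfLevel N := by
  obtain ⟨f, hf, hcoef⟩ := hM
  obtain ⟨g, hg, hc⟩ := exists_isNormalizedEigenform_of_dvd' hN h hf
  exact ⟨g, hg, fun p hp hgood hpN => by
    rw [hc p hp hpN]; exact hcoef p hp hgood fun hd => hpN (hd.trans h)⟩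

theorem isResiduallyModularOfLevel_of_dvd {W : WeierstrassCurve ℤ} {p M N : ℕ} (hN : N ≠ 0)
    (h : M ∣ N) (hM : W.IsResiduallyModularOfLevel p M) : W.IsResiduallyModularOfLevel p N := by
  obtain ⟨f, 𝔪, hf, h1, h2, hcoef⟩ := hM
  obtain ⟨g, hg, hc⟩ := exists_isNormalizedEigenform_of_dvd' hN h hf
  exact ⟨g, 𝔪, hg, h1, h2, fun ℓ hℓ hgood hℓN hℓp => by
    rw [hc ℓ hℓ hℓN]; exact hcoef ℓ hℓ hgood (fun hd => hℓN (hd.trans h)) hℓp⟩

theorem modularRepOfLevel_of_dvd {P : FreyPackage} {M N : ℕ} (hN : N ≠ 0)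
    (h : M ∣ N) (hM : P.ModularRepOfLevel M) : P.ModularRepOfLevel N := by
  obtain ⟨f, W, 𝔪, hf, hW, h1, h2, hcoef⟩ := hM
  obtain ⟨g, hg, hc⟩ := exists_isNormalizedEigenform_of_dvd' hN h hf
  exact ⟨g, W, 𝔪, hg, hW, h1, h2, fun ℓ hℓ hgood hℓN hℓp => by
    rw [hc ℓ hℓ hℓN]; exact hcoef ℓ hℓ hgood (fun hd => hℓN (hd.trans h)) hℓp⟩

/-- If a good eigensystem occurs at level `M` then it occurs at every nonzero multiple. -/
theorem goodEigensystemOccursAt_of_dvd {L M N : ℕ} (hN : N ≠ 0) (h : M ∣ N)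
    (hNL : ∀ ℓ : ℕ, ℓ.Prime → ℓ ∣ N → ℓ ∣ L)
    {f : CuspForm (Gamma0 L) 2} (hM : f.GoodEigensystemOccursAt M) :
    f.GoodEigensystemOccursAt N := by
  obtain ⟨g, hg, hc⟩ := hM
  obtain ⟨g', hg', hc'⟩ := exists_isNormalizedEigenform_of_dvd' hN h hg
  exact ⟨g', hg', fun ℓ hℓ hℓL => by
    rw [hc' ℓ hℓ fun hd => hℓL (hNL ℓ hℓ hd), hc ℓ hℓ hℓL]⟩

/-! ### Newform descent -/

/-- Every normalised eigenform of level `N` comes from a newform of level `M ∣ N`. -/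
theorem exists_isNewform {N : ℕ} (hN : N ≠ 0) {f : CuspForm (Gamma0 N) 2}
    (hf : f.IsNormalizedEigenform) :
    ∃ M : ℕ, M ∣ N ∧ ∃ g : CuspForm (Gamma0 M) 2, g.IsNewform ∧
      ∀ ℓ : ℕ, ℓ.Prime → ¬ ℓ ∣ N → qCoeff g ℓ = qCoeff f ℓ := by
  classical
  have hex : ∃ M : ℕ, M ∣ N ∧ f.GoodEigensystemOccursAt M :=
    ⟨N, dvd_rfl, CuspForm.GoodEigensystemOccursAt.refl hf⟩
  obtain ⟨hMN, g, hg, hc⟩ := Nat.find_spec hex
  refine ⟨Nat.find hex, hMN, g, ⟨hg, fun L hL hLne ⟨g', hg', hc'⟩ => ?_⟩, hc⟩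
  have hM0 : Nat.find hex ≠ 0 := fun h0 => hN (by rw [h0, zero_dvd_iff] at hMN; exact hMN)
  have hlt : L < Nat.find hex := lt_of_le_of_ne (Nat.le_of_dvd (Nat.pos_of_ne_zero hM0) hL) hLne
  refine Nat.find_min hex hlt ⟨hL.trans hMN, g', hg', fun ℓ hℓ hℓN => ?_⟩
  rw [hc' ℓ hℓ fun hd => hℓN (hd.trans hMN), hc ℓ hℓ hℓN]

/-! ### Hecke eigencharacter -/

variable {N : ℕ} [NeZero N]

omit [NeZero N] in
/-- `a(ℓ n) + ℓ a(n/ℓ) = a(ℓ) a(n)` for a prime `ℓ` not dividing the level. -/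
theorem qCoeff_mul_add {f : CuspForm (Gamma0 N) 2} (hf : f.IsNormalizedEigenform)
    {ℓ : ℕ} (hℓ : ℓ.Prime) (hℓN : ¬ ℓ ∣ N) (n : ℕ) (hn : n ≠ 0) :
    qCoeff ⇑f (ℓ * n) + (if ℓ ∣ n then (ℓ : ℂ) * qCoeff ⇑f (n / ℓ) else 0) =
      qCoeff ⇑f ℓ * qCoeff ⇑f n := by
  obtain ⟨r, m, hm, rfl⟩ := Nat.exists_eq_pow_mul_and_not_dvd hn ℓ hℓ.ne_one
  have hcop : ∀ j : ℕ, Nat.Coprime (ℓ ^ j) m := fun j =>
    Nat.Coprime.pow_left j ((Nat.Prime.coprime_iff_not_dvd hℓ).mpr hm)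
  have h1 : ℓ * (ℓ ^ r * m) = ℓ ^ (r + 1) * m := by ring
  rw [h1, hf.qCoeff_mul_of_coprime _ _ (hcop _), hf.qCoeff_mul_of_coprime _ _ (hcop _)]
  rcases r with _ | r
  · rw [if_neg (by simpa using hm)]
    simp [hf.qCoeff_one]
  · have hd : ℓ ∣ ℓ ^ (r + 1) * m := (dvd_pow_self ℓ (Nat.succ_ne_zero r)).mul_right m
    have h2 : ℓ ^ (r + 1) * m / ℓ = ℓ ^ r * m := by
      rw [pow_succ, mul_right_comm, Nat.mul_div_cancel _ hℓ.pos]
    rw [if_pos hd, h2, hf.qCoeff_mul_of_coprime _ _ (hcop _),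
      hf.qCoeff_prime_pow_of_not_dvd ℓ r hℓ hℓN]
    ring

omit [NeZero N] in
/-- `a(q n) = a(q) a(n)` for a prime `q` dividing the level. -/
theorem qCoeff_mul_of_dvd {f : CuspForm (Gamma0 N) 2} (hf : f.IsNormalizedEigenform)
    {q : ℕ} (hq : q.Prime) (hqN : q ∣ N) (n : ℕ) (hn : n ≠ 0) :
    qCoeff ⇑f (q * n) = qCoeff ⇑f q * qCoeff ⇑f n := by
  obtain ⟨r, m, hm, rfl⟩ := Nat.exists_eq_pow_mul_and_not_dvd hn q hq.ne_one
  have hcop : ∀ j : ℕ, Nat.Coprime (q ^ j) m := fun j =>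
    Nat.Coprime.pow_left j ((Nat.Prime.coprime_iff_not_dvd hq).mpr hm)
  have h1 : q * (q ^ r * m) = q ^ (r + 1) * m := by ring
  rw [h1, hf.qCoeff_mul_of_coprime _ _ (hcop _), hf.qCoeff_mul_of_coprime _ _ (hcop _)]
  rcases r with _ | r
  · simp [hf.qCoeff_one]
  · rw [hf.qCoeff_prime_pow_of_dvd q r hq hqN]
    ring

omit [NeZero N] in
theorem qCoeff_zero (f : CuspForm (Gamma0 N) 2) : qCoeff ⇑f 0 = 0 := by
  have : Fact (IsCusp OnePoint.infty (Gamma0 N : Subgroup (GL (Fin 2) ℝ))) :=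
    ⟨Subgroup.isCusp_of_mem_strictPeriods one_pos
      (CongruenceSubgroup.one_mem_strictPeriods_Gamma0 N)⟩
  exact CuspFormClass.qExpansion_coeff_zero f one_pos
    (CongruenceSubgroup.one_mem_strictPeriods_Gamma0 N)

omit [NeZero N] in
/-- q-expansion principle for cusp forms. -/
theorem eq_of_qCoeff_eq {k : ℤ} {f g : CuspForm (Gamma0 N) k}
    (h : ∀ n : ℕ, qCoeff ⇑f n = qCoeff ⇑g n) : f = g :=
  P2MW.S_UpperHalfPlane_qCoeff_heckeT.M4cP1W2.eq_of_forall_qCoeff_eq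
    (CongruenceSubgroup.one_mem_strictPeriods_Gamma0 N) h

omit [NeZero N] in
theorem heckeTLin_eq_smul {f : CuspForm (Gamma0 N) 2} (hf : f.IsNormalizedEigenform)
    {ℓ : ℕ} (hℓ : ℓ.Prime) (hℓN : ¬ ℓ ∣ N) :
    CuspForm.heckeTLin 2 hℓ hℓN f = qCoeff ⇑f ℓ • f := by
  refine eq_of_qCoeff_eq fun n => ?_
  rw [CuspForm.coe_heckeTLin_apply, ModularFormClass.qCoeff_heckeT f
    (CongruenceSubgroup.one_mem_strictPeriods_Gamma0 N) hℓ.ne_zero, qCoeff_smul,
    coeffHeckeT_apply]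
  rcases eq_or_ne n 0 with rfl | hn
  · simp [qCoeff_zero]
  · rw [← qCoeff_mul_add hf hℓ hℓN n hn, mul_comm n ℓ]
    norm_num

theorem heckeULin_eq_smul {f : CuspForm (Gamma0 N) 2} (hf : f.IsNormalizedEigenform)
    {q : ℕ} (hq : q.Prime) (hqN : q ∣ N) :
    CuspForm.heckeULin 2 hqN f = qCoeff ⇑f q • f := by
  refine eq_of_qCoeff_eq fun n => ?_
  rw [CuspForm.coe_heckeULin_apply, ModularFormClass.qCoeff_heckeU f
    (CongruenceSubgroup.one_mem_strictPeriods_Gamma0 N) hq.ne_zero, qCoeff_smul,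
    coeffHeckeU_apply]
  rcases eq_or_ne n 0 with rfl | hn
  · simp [qCoeff_zero]
  · rw [← qCoeff_mul_of_dvd hf hq hqN n hn, mul_comm n q]

/-- Every element of the Hecke algebra acts on a normalised eigenform by a scalar. -/
theorem exists_smul_of_mem_heckeAlgebra {f : CuspForm (Gamma0 N) 2}
    (hf : f.IsNormalizedEigenform) {S : Set ℕ}
    {t : Module.End ℂ (CuspForm (Gamma0 N) 2)} (ht : t ∈ CuspForm.heckeAlgebra N 2 S) :
    ∃ c : ℂ, t f = c • f := by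
  refine Algebra.adjoin_induction (p := fun t _ => ∃ c : ℂ, t f = c • f) ?_ ?_ ?_ ?_ ht
  · rintro T (⟨ℓ, hℓ, hℓN, hℓS, rfl⟩ | ⟨q, hqN, hq, hqS, rfl⟩)
    · exact ⟨_, heckeTLin_eq_smul hf hℓ hℓN⟩
    · exact ⟨_, heckeULin_eq_smul hf hq hqN⟩
  · intro r
    exact ⟨r, by rw [Algebra.algebraMap_eq_smul_one, LinearMap.smul_apply,
      Module.End.one_apply, Int.cast_smul_eq_zsmul]⟩
  · rintro x y _ _ ⟨a, ha⟩ ⟨b, hb⟩
    exact ⟨a + b, by rw [LinearMap.add_apply, ha, hb, add_smul]⟩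
  · rintro x y _ _ ⟨a, ha⟩ ⟨b, hb⟩
    exact ⟨b * a, by rw [Module.End.mul_apply, hb, map_smul, ha, smul_smul]⟩

theorem heckeAlgebra_apply_eq {f : CuspForm (Gamma0 N) 2} (hf : f.IsNormalizedEigenform)
    {S : Set ℕ} (t : CuspForm.heckeAlgebra N 2 S) :
    (t : Module.End ℂ (CuspForm (Gamma0 N) 2)) f =
      qCoeff ⇑((t : Module.End ℂ (CuspForm (Gamma0 N) 2)) f) 1 • f := by
  obtain ⟨c, hc⟩ := exists_smul_of_mem_heckeAlgebra hf t.2
  rw [hc, qCoeff_smul, hf.qCoeff_one, mul_one]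

/-- The eigencharacter of a normalised eigenform. -/
def eigenChar {f : CuspForm (Gamma0 N) 2} (hf : f.IsNormalizedEigenform) (S : Set ℕ) :
    CuspForm.heckeAlgebra N 2 S →+* ℂ where
  toFun t := qCoeff ⇑((t : Module.End ℂ (CuspForm (Gamma0 N) 2)) f) 1
  map_one' := hf.qCoeff_one
  map_zero' := by
    show qCoeff ⇑((0 : Module.End ℂ (CuspForm (Gamma0 N) 2)) f) 1 = 0
    rw [LinearMap.zero_apply, show (0 : CuspForm (Gamma0 N) 2) = (0 : ℂ) • f by rw [zero_smul],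
      qCoeff_smul, zero_mul]
  map_mul' s t := by
    show qCoeff ⇑((s : Module.End ℂ (CuspForm (Gamma0 N) 2))
      ((t : Module.End ℂ (CuspForm (Gamma0 N) 2)) f)) 1 = _
    rw [heckeAlgebra_apply_eq hf t, map_smul, qCoeff_smul, qCoeff_smul, hf.qCoeff_one]
    ring
  map_add' s t := by
    show qCoeff ⇑((s : Module.End ℂ (CuspForm (Gamma0 N) 2)) f +
      (t : Module.End ℂ (CuspForm (Gamma0 N) 2)) f) 1 = _
    rw [qCoeff_add]

theorem eigenChar_smul {f : CuspForm (Gamma0 N) 2} (hf : f.IsNormalizedEigenform) (S : Set ℕ)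
    (t : CuspForm.heckeAlgebra N 2 S) :
    (t : Module.End ℂ (CuspForm (Gamma0 N) 2)) f = eigenChar hf S t • f :=
  heckeAlgebra_apply_eq hf t

theorem eigenChar_T {f : CuspForm (Gamma0 N) 2} (hf : f.IsNormalizedEigenform) {S : Set ℕ}
    {ℓ : ℕ} (hℓ : ℓ.Prime) (hℓN : ¬ ℓ ∣ N) (hℓS : ℓ ∉ S) :
    eigenChar hf S (CuspForm.heckeAlgebra.T hℓ hℓN hℓS) = qCoeff ⇑f ℓ := by
  show qCoeff ⇑(CuspForm.heckeTLin 2 hℓ hℓN f) 1 = _
  rw [heckeTLin_eq_smul hf hℓ hℓN, qCoeff_smul, hf.qCoeff_one, mul_one]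

theorem eigenChar_U {f : CuspForm (Gamma0 N) 2} (hf : f.IsNormalizedEigenform) {S : Set ℕ}
    {q : ℕ} (hq : q.Prime) (hqN : q ∣ N) (hqS : q ∉ S) :
    eigenChar hf S (CuspForm.heckeAlgebra.U hq hqN hqS) = qCoeff ⇑f q := by
  show qCoeff ⇑(CuspForm.heckeULin 2 hqN f) 1 = _
  rw [heckeULin_eq_smul hf hq hqN, qCoeff_smul, hf.qCoeff_one, mul_one]

/-- Conversely, a nonzero common eigenvector of all Hecke operators has nonzero first coefficient
and after normalisation is a normalised eigenform. -/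
theorem qCoeff_eq_of_eigen {f : CuspForm (Gamma0 N) 2} (a : ℕ → ℂ)
    (hT : ∀ (ℓ : ℕ) (hℓ : ℓ.Prime) (hℓN : ¬ ℓ ∣ N), CuspForm.heckeTLin 2 hℓ hℓN f = a ℓ • f)
    (hU : ∀ (q : ℕ) (_ : q.Prime) (hqN : q ∣ N), CuspForm.heckeULin 2 hqN f = a q • f) :
    (∀ (ℓ : ℕ), ℓ.Prime → ¬ ℓ ∣ N → ∀ n : ℕ,
      qCoeff ⇑f (ℓ * n) + (if ℓ ∣ n then (ℓ : ℂ) * qCoeff ⇑f (n / ℓ) else 0) =
        a ℓ * qCoeff ⇑f n) ∧
    (∀ (q : ℕ), q.Prime → q ∣ N → ∀ n : ℕ, qCoeff ⇑f (q * n) = a q * qCoeff ⇑f n) := by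
  refine ⟨fun ℓ hℓ hℓN n => ?_, fun q hq hqN n => ?_⟩
  · have h := congrArg (fun g : CuspForm (Gamma0 N) 2 => qCoeff ⇑g n) (hT ℓ hℓ hℓN)
    simp only [CuspForm.coe_heckeTLin_apply] at h
    rw [ModularFormClass.qCoeff_heckeT f
      (CongruenceSubgroup.one_mem_strictPeriods_Gamma0 N) hℓ.ne_zero, qCoeff_smul,
      coeffHeckeT_apply, mul_comm n ℓ] at h
    rw [← h]
    norm_num
  · have h := congrArg (fun g : CuspForm (Gamma0 N) 2 => qCoeff ⇑g n) (hU q hq hqN)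
    simp only [CuspForm.coe_heckeULin_apply] at h
    rw [ModularFormClass.qCoeff_heckeU f
      (CongruenceSubgroup.one_mem_strictPeriods_Gamma0 N) hq.ne_zero, qCoeff_smul,
      coeffHeckeU_apply, mul_comm n q] at h
    exact h

theorem isNormalizedEigenform_of_eigen {f : CuspForm (Gamma0 N) 2} (h1 : qCoeff ⇑f 1 = 1)
    (hT : ∀ (ℓ : ℕ) (hℓ : ℓ.Prime) (hℓN : ¬ ℓ ∣ N),
      ∃ c : ℂ, CuspForm.heckeTLin 2 hℓ hℓN f = c • f)
    (hU : ∀ (q : ℕ) (_ : q.Prime) (hqN : q ∣ N), ∃ c : ℂ, CuspForm.heckeULin 2 hqN f = c • f) :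
    f.IsNormalizedEigenform := by
  classical
  have hex : ∀ p : ℕ, ∃ c : ℂ, (∀ (hp : p.Prime) (hpN : ¬ p ∣ N),
      CuspForm.heckeTLin 2 hp hpN f = c • f) ∧
      (∀ (_ : p.Prime) (hpN : p ∣ N), CuspForm.heckeULin 2 hpN f = c • f) := by
    intro p
    by_cases hp : p.Prime
    · by_cases hpN : p ∣ N
      · obtain ⟨c, hc⟩ := hU p hp hpN
        exact ⟨c, fun _ h => absurd hpN h, fun _ _ => hc⟩
      · obtain ⟨c, hc⟩ := hT p hp hpN
        exact ⟨c, fun _ _ => hc, fun _ h => absurd h hpN⟩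
    · exact ⟨0, fun h => absurd h hp, fun h => absurd h hp⟩
  choose a ha using hex
  obtain ⟨hA, hB⟩ := qCoeff_eq_of_eigen a (fun ℓ hℓ hℓN => (ha ℓ).1 hℓ hℓN)
    (fun q hq hqN => (ha q).2 hq hqN)
  have hprime : ∀ p : ℕ, p.Prime → a p = qCoeff ⇑f p := by
    intro p hp
    by_cases hpN : p ∣ N
    · have := hB p hp hpN 1
      rw [mul_one, h1, mul_one] at this
      exact this.symm
    · have := hA p hp hpN 1
      rw [mul_one, h1, mul_one, if_neg (fun h => hp.one_lt.ne' (Nat.dvd_one.mp h)),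
        add_zero] at this
      exact this.symm
  refine ⟨h1, ?_, ?_, ?_⟩
  · -- multiplicativity
    have key : ∀ m : ℕ, ∀ n : ℕ, m.Coprime n → qCoeff ⇑f (m * n) = qCoeff ⇑f m * qCoeff ⇑f n := by
      intro m
      induction m using Nat.recOnPosPrimePosCoprime with
      | zero =>
        intro n hn
        rw [(Nat.coprime_zero_left n).mp hn]; simp [h1]
      | one => intro n _; simp [h1]
      | prime_pow p r hp hr =>
        intro n hn
        have hpn : ¬ p ∣ n := by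
          intro hd
          have : p ∣ Nat.gcd (p ^ r) n := Nat.dvd_gcd (dvd_pow_self p hr.ne') hd
          rw [hn] at this
          exact hp.one_lt.ne' (Nat.dvd_one.mp this)
        clear hn
        have hgen : ∀ r : ℕ, qCoeff ⇑f (p ^ r * n) = qCoeff ⇑f (p ^ r) * qCoeff ⇑f n := by
          intro r
          induction r using Nat.strong_induction_on with
          | _ r ih =>
            rcases r with _ | r
            · simp [h1]
            · by_cases hpN : p ∣ N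
              · rw [pow_succ', mul_assoc, hB p hp hpN, hB p hp hpN, ih r (Nat.lt_succ_self r)]
                ring
              · have e1 := hA p hp hpN (p ^ r * n)
                have e2 := hA p hp hpN (p ^ r)
                rw [← mul_assoc, ← pow_succ'] at e1
                rw [← pow_succ'] at e2
                rw [eq_sub_of_add_eq e1, eq_sub_of_add_eq e2, ih r (Nat.lt_succ_self r)]
                rcases r with _ | r
                · simp only [pow_zero, one_mul]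
                  rw [if_neg hpn, if_neg (fun h => hp.one_lt.ne' (Nat.dvd_one.mp h))]
                  ring
                · have hd : p ∣ p ^ (r + 1) := dvd_pow_self p (Nat.succ_ne_zero r)
                  rw [if_pos (hd.mul_right n), if_pos hd, pow_succ, Nat.mul_div_cancel _ hp.pos,
                    mul_right_comm, Nat.mul_div_cancel _ hp.pos, ih r (by omega)]
                  ring
        exact hgen r
      | coprime a b ha hb hab iha ihb =>
        intro n hn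
        have han : a.Coprime n := Nat.Coprime.coprime_mul_right hn
        have hbn : b.Coprime n := Nat.Coprime.coprime_mul_left hn
        have habn : a.Coprime (b * n) := Nat.Coprime.mul_right hab han
        rw [mul_assoc, iha _ habn, ihb _ hbn, iha _ hab]
        ring
    exact key
  · intro p r hp hpN
    have e := hA p hp hpN (p ^ (r + 1))
    have hd : p ∣ p ^ (r + 1) := dvd_pow_self p (Nat.succ_ne_zero r)
    have h2 : p * p ^ (r + 1) = p ^ (r + 2) := by ring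
    have h3 : p ^ (r + 1) / p = p ^ r := by rw [pow_succ, Nat.mul_div_cancel _ hp.pos]
    rw [if_pos hd, h2, h3, hprime p hp] at e
    rw [← e]
    ring
  · intro p r hp hpN
    have e := hB p hp hpN (p ^ (r + 1))
    have h2 : p * p ^ (r + 1) = p ^ (r + 2) := by ring
    rw [hprime p hp, h2] at e
    exact e

end Fermat.Agent.H58
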