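/-
Old-form descent: an eigenform of level `q M` (`q ∤ M`) with `a_q² ≠ 1` has the same eigenvalues
(away from `q M`) as an eigenform of level `M`.  helper44.
-/
import Mathlib
import Fermat.Agent.H44AtkinLehner
import Fermat.Agent.H49DeligneSerre
import Fermat.Agent.H49HeckeBasic
import Fermat.Agent.H58Newform
import Fermat.Prelude.Def_CuspForm_Newforms
import Fermat.Prelude.Def_CuspForm_HeckeAlgebra

set_option autoImplicit false

noncomputable section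

open Matrix.SpecialLinearGroup UpperHalfPlane ModularForm CongruenceSubgroup ModularFormClass
open scoped MatrixGroups ModularForm

namespace Fermat.Agent.H44

open Fermat.Agent.H49

variable {q M : ℕ}

theorem ALData.wCusp_zero (D : ALData q M) (k : ℤ) [NeZero (q * M)] :
    D.wCusp k 0 = 0 := by
  apply DFunLike.coe_injective
  show ((0 : ℍ → ℂ)) ∣[k] D.W = 0
  simp

theorem ALData.wCusp_smul (D : ALData q M) (k : ℤ) [NeZero (q * M)] (c : ℂ)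
    (f : CuspForm (Gamma0 (q * M)) k) :
    D.wCusp k (c • f) = c • D.wCusp k f := by
  have hq : q ≠ 0 := fun h => NeZero.ne (q * M) (by simp [h])
  apply DFunLike.coe_injective
  show (c • ⇑f) ∣[k] D.W = c • (⇑f ∣[k] D.W)
  rw [ModularForm.smul_slash]
  congr 1
  have hdet : 0 < ((D.W).det : ℝ) := by
    rw [Matrix.GeneralLinearGroup.val_det_apply, D.val_W hq, Matrix.det_fin_two_of]
    have := D.real_h
    have h2 : (q : ℝ) * D.a * q - D.b * (q * M) = q := by linear_combination (q : ℝ) * this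
    rw [h2]
    exact_mod_cast Nat.pos_of_ne_zero hq
  rw [UpperHalfPlane.σ, if_pos hdet]
  rfl

theorem ALData.wCusp_wCusp (D : ALData q M) [NeZero (q * M)] (f : CuspForm (Gamma0 (q * M)) 2) :
    D.wCusp 2 (D.wCusp 2 f) = f := by
  have hq : q ≠ 0 := fun h => NeZero.ne (q * M) (by simp [h])
  apply DFunLike.coe_injective
  exact D.slashW_slashW hq f fun γ hγ => SlashInvariantFormClass.slash_action_eq f γ hγ

theorem ALData.wCusp_heckeTLin (D : ALData q M) (k : ℤ) [NeZero (q * M)] (hq : q.Prime)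
    {ℓ : ℕ} (hℓ : ℓ.Prime) (hℓN : ¬ ℓ ∣ q * M)
    (f : CuspForm (Gamma0 (q * M)) k) :
    D.wCusp k (CuspForm.heckeTLin k hℓ hℓN f) = CuspForm.heckeTLin k hℓ hℓN (D.wCusp k f) := by
  have : Fact ℓ.Prime := ⟨hℓ⟩
  apply DFunLike.coe_injective
  exact D.heckeT_slash_W k hq hℓN f fun γ hγ => SlashInvariantFormClass.slash_action_eq f γ hγ

/-- The trace to level `M`, as a cusp form of level `q M`. -/
def ALData.trCusp (D : ALData q M) [NeZero (q * M)] (f : CuspForm (Gamma0 (q * M)) 2) :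
    CuspForm (Gamma0 (q * M)) 2 :=
  f + CuspForm.heckeULin 2 (dvd_mul_right q M) (D.wCusp 2 f)

theorem ALData.trCusp_slash (D : ALData q M) [NeZero (q * M)] (hq : q.Prime) (hqM : ¬ q ∣ M)
    (f : CuspForm (Gamma0 (q * M)) 2) (g : SL(2, ℤ)) (hg : g ∈ Gamma0 M) :
    ⇑(D.trCusp f) ∣[(2 : ℤ)] (mapGL ℝ g : GL (Fin 2) ℝ) = ⇑(D.trCusp f) := by
  have : Fact q.Prime := ⟨hq⟩
  have hcop : IsCoprime (q : ℤ) (M : ℤ) :=
    Nat.isCoprime_iff_coprime.mpr ((Nat.Prime.coprime_iff_not_dvd hq).mpr hqM)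
  have h1 : ⇑(D.trCusp f) = D.tr 2 ⇑f := by
    rw [D.tr_eq]
    rfl
  rw [h1]
  exact D.tr_slash 2 hcop f (fun γ hγ => SlashInvariantFormClass.slash_action_eq f γ hγ) g hg

theorem ALData.trCusp_eigen (D : ALData q M) [NeZero (q * M)] (hq : q.Prime)
    {ℓ : ℕ} (hℓ : ℓ.Prime) (hℓN : ¬ ℓ ∣ q * M) (f : CuspForm (Gamma0 (q * M)) 2) (c : ℂ)
    (hc : CuspForm.heckeTLin 2 hℓ hℓN f = c • f) :
    CuspForm.heckeTLin 2 hℓ hℓN (D.trCusp f) = c • D.trCusp f := by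
  have hcomm : CuspForm.heckeTLin 2 hℓ hℓN
      (CuspForm.heckeULin 2 (dvd_mul_right q M) (D.wCusp 2 f)) =
      CuspForm.heckeULin 2 (dvd_mul_right q M)
        (CuspForm.heckeTLin 2 hℓ hℓN (D.wCusp 2 f)) :=
    LinearMap.congr_fun (CuspForm.heckeTLin_heckeULin_comm 2 hℓ hℓN (dvd_mul_right q M)).eq
      (D.wCusp 2 f)
  rw [ALData.trCusp, map_add, hc, hcomm, ← D.wCusp_heckeTLin 2 hq hℓ hℓN, hc, D.wCusp_smul,
    map_smul, smul_add]

/-- A nonzero Hecke eigenvector (away from the level) at level `q M` which is a `U_q`-eigenvector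
with eigenvalue `a`, `a² ≠ 1`, gives a nonzero form of level `M` with the same eigenvalues. -/
theorem exists_lower (hq : q.Prime) (hqM : ¬ q ∣ M) [NeZero M] [NeZero (q * M)]
    (f : CuspForm (Gamma0 (q * M)) 2) (hf : f ≠ 0) (a : ℂ) (ha : a ^ 2 ≠ 1)
    (hU : CuspForm.heckeULin 2 (dvd_mul_right q M) f = a • f)
    (lam : ℕ → ℂ) (hT : ∀ (ℓ : ℕ) (hℓ : ℓ.Prime) (hℓN : ¬ ℓ ∣ q * M),
      CuspForm.heckeTLin 2 hℓ hℓN f = lam ℓ • f) :
    ∃ h : CuspForm (Gamma0 M) 2, h ≠ 0 ∧ ∀ (ℓ : ℕ) (hℓ : ℓ.Prime) (_ : ¬ ℓ ∣ q * M)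
      (hℓM : ¬ ℓ ∣ M), CuspForm.heckeTLin 2 hℓ hℓM h = lam ℓ • h := by
  obtain ⟨D⟩ := ALData.exists hq hqM
  have key : ∀ f' : CuspForm (Gamma0 (q * M)) 2, D.trCusp f' ≠ 0 →
      (∀ (ℓ : ℕ) (hℓ : ℓ.Prime) (hℓN : ¬ ℓ ∣ q * M),
      CuspForm.heckeTLin 2 hℓ hℓN f' = lam ℓ • f') →
      ∃ h : CuspForm (Gamma0 M) 2, h ≠ 0 ∧ ∀ (ℓ : ℕ) (hℓ : ℓ.Prime) (_ : ¬ ℓ ∣ q * M)
      (hℓM : ¬ ℓ ∣ M), CuspForm.heckeTLin 2 hℓ hℓM h = lam ℓ • h := by
    intro f' hne hT'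
    refine ⟨lowerCusp 2 (D.trCusp f') (D.trCusp_slash hq hqM f'), fun h0 => hne ?_, ?_⟩
    · apply DFunLike.coe_injective
      have := congrArg (fun g : CuspForm (Gamma0 M) 2 => (⇑g : ℍ → ℂ)) h0
      exact this
    · intro ℓ hℓ hℓN hℓM
      have h1 := D.trCusp_eigen hq hℓ hℓN f' (lam ℓ) (hT' ℓ hℓ hℓN)
      have h2 := congrArg (fun g : CuspForm (Gamma0 (q * M)) 2 => (⇑g : ℍ → ℂ)) h1
      apply DFunLike.coe_injective
      exact h2
  by_cases h1 : D.trCusp f = 0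
  · by_cases h2 : D.trCusp (D.wCusp 2 f) = 0
    · exfalso
      apply hf
      rw [ALData.trCusp] at h1 h2
      rw [D.wCusp_wCusp, hU] at h2
      -- f|W = - a f
      have h3 : D.wCusp 2 f = (-a) • f := by
        rw [_root_.neg_smul]
        exact eq_neg_of_add_eq_zero_left h2
      rw [h3, map_smul, hU, smul_smul] at h1
      have h4 : (1 - a ^ 2) • f = 0 := by
        rw [sub_smul, one_smul, ← h1]
        rw [sub_eq_add_neg, ← _root_.neg_smul]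
        congr 2
        ring
      rcases smul_eq_zero.mp h4 with h5 | h5
      · exact absurd (by linear_combination -h5) ha
      · exact h5
    · exact key _ h2 fun ℓ hℓ hℓN => by
        rw [← D.wCusp_heckeTLin 2 hq hℓ hℓN, hT ℓ hℓ hℓN, D.wCusp_smul]
  · exact key _ h1 hT

/-- From a nonzero form of level `M` which is an eigenvector for `T_ℓ`, `ℓ ∤ N`, (`M ∣ N`) get a
normalised eigenform with the same eigenvalues. -/
theorem exists_normalizedEigenform_of_partial {M N : ℕ} [NeZero M] (hMN : M ∣ N)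
    (h : CuspForm (Gamma0 M) 2) (hne : h ≠ 0) (lam : ℕ → ℂ)
    (hT : ∀ (ℓ : ℕ) (hℓ : ℓ.Prime) (_ : ¬ ℓ ∣ N)
      (hℓM : ¬ ℓ ∣ M), CuspForm.heckeTLin 2 hℓ hℓM h = lam ℓ • h) :
    ∃ g : CuspForm (Gamma0 M) 2, g.IsNormalizedEigenform ∧
      ∀ ℓ : ℕ, ℓ.Prime → ¬ ℓ ∣ N → qCoeff g ℓ = lam ℓ := by
  have : FiniteDimensional ℂ (CuspForm (Gamma0 M) 2) := finiteDimensional_cuspForm M 2
  let E : Submodule ℂ (CuspForm (Gamma0 M) 2) :=
    { carrier := {g | ∀ (ℓ : ℕ) (hℓ : ℓ.Prime) (_ : ¬ ℓ ∣ N) (hℓM : ¬ ℓ ∣ M),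
        CuspForm.heckeTLin 2 hℓ hℓM g = lam ℓ • g}
      add_mem' := by
        intro a b ha hb ℓ hℓ hℓN hℓM
        rw [map_add, ha ℓ hℓ hℓN hℓM, hb ℓ hℓ hℓN hℓM, smul_add]
      zero_mem' := by
        intro ℓ hℓ hℓN hℓM
        rw [map_zero, smul_zero]
      smul_mem' := by
        intro c a ha ℓ hℓ hℓN hℓM
        rw [map_smul, ha ℓ hℓ hℓN hℓM, smul_comm] }
  have hE : E ≠ ⊥ := by
    intro h0
    have : h ∈ E := hT
    rw [h0] at this
    exact hne ((Submodule.mem_bot ℂ).mp this)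
  obtain ⟨v, hvE, hv0, χ, hχ⟩ := exists_common_eigenvector (CuspForm.heckeGenerators M 2 ∅)
    (fun s hs t ht => CuspForm.commute_of_mem_heckeGenerators hs ht) E hE (by
      intro t ht v hv ℓ hℓ hℓN hℓM
      have hc := CuspForm.commute_of_mem_heckeGenerators
        (CuspForm.heckeTLin_mem_heckeGenerators (k := 2) hℓ hℓM (Set.notMem_empty _)) ht
      have hc2 := LinearMap.congr_fun hc.eq v
      simp only [Module.End.mul_apply] at hc2
      rw [hc2, hv ℓ hℓ hℓN hℓM, map_smul])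
  obtain ⟨c, hc⟩ := IsHeckeEigenvector.of_generators (f := v) fun t ht => ⟨χ t, hχ t ht⟩
  obtain ⟨g, -, hg, hgc, -⟩ := hc.exists_normalized hv0
  refine ⟨g, hg, fun ℓ hℓ hℓN => ?_⟩
  have hℓM : ¬ ℓ ∣ M := fun hd => hℓN (hd.trans hMN)
  rw [hgc ℓ hℓ]
  have h1 := hc.T ℓ hℓ hℓM
  have h2 := hvE ℓ hℓ hℓN hℓM
  rw [h1] at h2
  have h3 : (c ℓ - lam ℓ) • v = 0 := by rw [sub_smul, h2, sub_self]
  rcases smul_eq_zero.mp h3 with h4 | h4
  · exact sub_eq_zero.mp h4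
  · exact absurd h4 hv0

/-- **Old-form descent.** -/
theorem goodEigensystemOccursAt_of_qCoeff_sq_ne_one (hq : q.Prime) (hqM : ¬ q ∣ M) (hM : M ≠ 0)
    {f : CuspForm (Gamma0 (q * M)) 2} (hf : f.IsNormalizedEigenform) (ha : qCoeff f q ^ 2 ≠ 1) :
    f.GoodEigensystemOccursAt M := by
  have : NeZero M := ⟨hM⟩
  have : NeZero (q * M) := ⟨mul_ne_zero hq.ne_zero hM⟩
  have hev := hf.isHeckeEigenvector_H49
  obtain ⟨h, hne, hT⟩ := exists_lower hq hqM f hf.ne_zero _ ha (hev.U q hq (dvd_mul_right q M))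
    (fun p => qCoeff f p) hev.T
  exact exists_normalizedEigenform_of_partial (dvd_mul_left M q) h hne _ hT

/-- `a_q(f)² = 1` for an eigenform new at an exact prime divisor `q` of the level. -/
theorem qCoeff_sq_eq_one_of_isNewformAt {N : ℕ} (hN : N ≠ 0) (hq : q.Prime) (hqN2 : ¬ q ^ 2 ∣ N)
    {f : CuspForm (Gamma0 N) 2} (hf : f.IsNewformAt q) : qCoeff f q ^ 2 = 1 := by
  obtain ⟨h1, ⟨M, rfl⟩, h3⟩ := hf
  by_contra hne
  have hM : M ≠ 0 := fun h => hN (by simp [h])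
  have hqM : ¬ q ∣ M := fun ⟨c, hc⟩ => hqN2 ⟨c, by rw [hc]; ring⟩
  apply h3
  rw [Nat.mul_div_cancel_left M hq.pos]
  exact goodEigensystemOccursAt_of_qCoeff_sq_ne_one hq hqM hM h1 hne

/-! ### `q² ∣ N` : `U_q` lowers the level -/

open P2MW.S_ModularForm_heckeU_slash_eq_self_of_mem_Gamma0.ModularForm.HeckeSlashInvariance in
theorem heckeU_slash_lower (k : ℤ) [NeZero q] (hqM : q ∣ M) (f : ℍ → ℂ)
    (hf : ∀ γ ∈ (Gamma0 (q * M) : Subgroup (GL (Fin 2) ℝ)), f ∣[k] γ = f)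
    (g : SL(2, ℤ)) (hg : g ∈ Gamma0 M) :
    heckeU k q f ∣[k] (mapGL ℝ g : GL (Fin 2) ℝ) = heckeU k q f := by
  have hcN : (M : ℤ) ∣ g 1 0 :=
    (ZMod.intCast_zmod_eq_zero_iff_dvd _ _).mp (CongruenceSubgroup.Gamma0_mem.mp hg)
  have hc : (q : ℤ) ∣ g 1 0 := (Int.natCast_dvd_natCast.mpr hqM).trans hcN
  rw [heckeU_eq_sum_zmod k f, SlashAction.sum_slash]
  calc ∑ x : ZMod q, (f ∣[k] heckeMatrix q x.val) ∣[k] (mapGL ℝ g : GL (Fin 2) ℝ)
      = ∑ x : ZMod q, f ∣[k] heckeMatrix q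
          (affinePerm g ((ZMod.intCast_zmod_eq_zero_iff_dvd _ _).mpr hc) x).val := by
        refine Finset.sum_congr rfl fun x _ ↦ ?_
        obtain ⟨g', hg', hmul⟩ := heckeMatrix_mul_of_dvd g hc x
        have hg'N : g' ∈ CongruenceSubgroup.Gamma0 (q * M) := by
          rw [CongruenceSubgroup.Gamma0_mem, ZMod.intCast_zmod_eq_zero_iff_dvd, hg']
          push_cast
          exact mul_dvd_mul_left _ hcN
        rw [← SlashAction.slash_mul, hmul, SlashAction.slash_mul,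
          hf _ (Subgroup.mem_map_of_mem (mapGL ℝ) hg'N)]
    _ = ∑ x : ZMod q, f ∣[k] heckeMatrix q x.val :=
        Equiv.sum_comp (affinePerm g _) (fun x ↦ f ∣[k] heckeMatrix q x.val)

/-- If `q² ∣ N = q M` and `a_q(f) ≠ 0`, then `f` itself has level `M`. -/
theorem exists_lower_of_qCoeff_ne_zero (hq : q.Prime) (hqM : q ∣ M) (hM : M ≠ 0)
    {f : CuspForm (Gamma0 (q * M)) 2} (hf : f.IsNormalizedEigenform) (ha : qCoeff f q ≠ 0) :
    ∃ g : CuspForm (Gamma0 M) 2, g.IsNormalizedEigenform ∧ (⇑g : ℍ → ℂ) = ⇑f := by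
  have : NeZero M := ⟨hM⟩
  have : NeZero (q * M) := ⟨mul_ne_zero hq.ne_zero hM⟩
  have : NeZero q := ⟨hq.ne_zero⟩
  have hev := hf.isHeckeEigenvector_H49
  have hU := hev.U q hq (dvd_mul_right q M)
  have hU2 : heckeU 2 q ⇑f = (qCoeff f q) • (⇑f : ℍ → ℂ) :=
    congrArg (fun g : CuspForm (Gamma0 (q * M)) 2 => (⇑g : ℍ → ℂ)) hU
  have hinv : ∀ g ∈ Gamma0 M, ⇑f ∣[(2 : ℤ)] (mapGL ℝ g : GL (Fin 2) ℝ) = ⇑f := by
    intro g hg
    have h1 := heckeU_slash_lower 2 hqM ⇑f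
      (fun γ hγ => SlashInvariantFormClass.slash_action_eq f γ hγ) g hg
    rw [hU2] at h1
    have h2 : (qCoeff f q • (⇑f : ℍ → ℂ)) ∣[(2 : ℤ)] (mapGL ℝ g : GL (Fin 2) ℝ) =
        qCoeff f q • (⇑f ∣[(2 : ℤ)] (mapGL ℝ g : GL (Fin 2) ℝ)) := by
      rw [ModularForm.smul_slash]
      congr 1
      have hdet : 0 < ((mapGL ℝ g : GL (Fin 2) ℝ).det : ℝ) := by simp
      rw [UpperHalfPlane.σ, if_pos hdet]
      rfl
    rw [h2] at h1
    exact smul_right_injective _ ha h1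
  refine ⟨lowerCusp 2 f hinv, ⟨?_, ?_, ?_, ?_⟩, rfl⟩
  · exact hf.qCoeff_one
  · exact hf.qCoeff_mul_of_coprime
  · intro p r hp hpM
    refine hf.qCoeff_prime_pow_of_not_dvd p r hp fun h => ?_
    rcases (Nat.Prime.dvd_mul hp).mp h with h | h
    · exact hpM (h.trans hqM)
    · exact hpM h
  · intro p r hp hpM
    exact hf.qCoeff_prime_pow_of_dvd p r hp (hpM.mul_left q)

theorem qCoeff_eq_zero_of_isNewformAt {N : ℕ} (hN : N ≠ 0) (hq : q.Prime) (hqN2 : q ^ 2 ∣ N)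
    {f : CuspForm (Gamma0 N) 2} (hf : f.IsNewformAt q) : qCoeff f q = 0 := by
  obtain ⟨h1, ⟨M, rfl⟩, h3⟩ := hf
  by_contra hne
  have hM : M ≠ 0 := fun h => hN (by simp [h])
  have hqM : q ∣ M := by
    obtain ⟨c, hc⟩ := hqN2
    refine ⟨c, Nat.eq_of_mul_eq_mul_left hq.pos ?_⟩
    rw [hc]; ring
  apply h3
  rw [Nat.mul_div_cancel_left M hq.pos]
  obtain ⟨g, hg, hgf⟩ := exists_lower_of_qCoeff_ne_zero hq hqM hM h1 hne
  exact ⟨g, hg, fun ℓ _ _ => by rw [hgf]⟩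

/-- The Atkin–Lehner–Li description of `a_q` for newforms: the Prelude predicate
`CuspForm.NewformBadPrimeCoeff N` holds for all `N ≠ 0`. -/
theorem newformBadPrimeCoeff {N : ℕ} (hN : N ≠ 0) : CuspForm.NewformBadPrimeCoeff N := by
  intro f hf q hq hqN
  exact ⟨fun h => qCoeff_sq_eq_one_of_isNewformAt hN hq h (hf.isNewformAt hq hqN hN),
    fun h => qCoeff_eq_zero_of_isNewformAt hN hq h (hf.isNewformAt hq hqN hN)⟩

end Fermat.Agent.H44
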