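import Fermat.Prelude.Def_CuspForm_HeckeLocal
import Fermat.Prelude.Def_CuspForm_IntegralLattice
import Fermat.Prelude.Def_FormalHecke_Eigensystem
import Fermat.Prelude.Def_ModularForm_EisensteinChiNegThree
import Fermat.Prelude.Thm_ModularFormClass_qCoeff_heckeT
import Fermat.Prelude.Thm_CongruenceSubgroup_one_mem_strictPeriods_Gamma0

set_option autoImplicit false

namespace Fermat.Agent.H71

open ModularFormClass CuspForm EisensteinWeightOne

local notation "Γ₀(" N ")" => CongruenceSubgroup.Gamma0 N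

section qCoeff

variable {N : ℕ} {k : ℤ}

theorem hΓ (N : ℕ) :
    (1 : ℝ) ∈ (Subgroup.map (Matrix.SpecialLinearGroup.mapGL ℝ) Γ₀(N)).strictPeriods :=
  CongruenceSubgroup.one_mem_strictPeriods_Gamma0 N

theorem qCoeff_add (f g : CuspForm Γ₀(N) k) (n : ℕ) :
    qCoeff ⇑(f + g) n = qCoeff ⇑f n + qCoeff ⇑g n := by
  simp only [qCoeff, FunLike.coe_add]
  rw [ModularForm.qExpansion_add one_pos (hΓ N) f g, map_add]

theorem qCoeff_smul (c : ℂ) (f : CuspForm Γ₀(N) k) (n : ℕ) :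
    qCoeff ⇑(c • f) n = c * qCoeff ⇑f n := by
  have h1 : ⇑(c • f) = c • ⇑f := by
    ext z
    simp
  simp only [qCoeff, h1]
  rw [ModularForm.qExpansion_smul one_pos (hΓ N) c f]
  simp

theorem qCoeff_zsmul (c : ℤ) (f : CuspForm Γ₀(N) k) (n : ℕ) :
    qCoeff ⇑(c • f) n = c * qCoeff ⇑f n := by
  rw [← qCoeff_smul, Int.cast_smul_eq_zsmul]

theorem qCoeff_sub (f g : CuspForm Γ₀(N) k) (n : ℕ) :
    qCoeff ⇑(f - g) n = qCoeff ⇑f n - qCoeff ⇑g n := by
  have : f - g = f + (-1 : ℤ) • g := by rw [neg_smul, one_smul, sub_eq_add_neg]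
  rw [this, qCoeff_add, qCoeff_zsmul]
  push_cast
  ring

/-- membership in the lattice of forms with integral `q`-expansion. -/
theorem mem_intLattice_iff (f : CuspForm Γ₀(N) k) :
    f ∈ CuspForm.intLattice N k ↔ ∀ n : ℕ, ∃ m : ℤ, qCoeff f n = (m : ℂ) := by
  refine ⟨fun hf => ?_, fun hf => Submodule.subset_span hf⟩
  induction hf using Submodule.span_induction with
  | mem x hx => exact hx
  | zero =>
    intro n
    refine ⟨0, ?_⟩
    have h := qCoeff_smul (0 : ℂ) (0 : CuspForm Γ₀(N) k) n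
    rw [zero_smul] at h
    simpa using h
  | add x y _ _ hx hy =>
    intro n
    obtain ⟨a, ha⟩ := hx n
    obtain ⟨b, hb⟩ := hy n
    exact ⟨a + b, by rw [qCoeff_add, ha, hb]; push_cast; ring⟩
  | smul c x _ hx =>
    intro n
    obtain ⟨a, ha⟩ := hx n
    exact ⟨c * a, by rw [qCoeff_zsmul, ha]; push_cast; ring⟩

theorem mem_qIntegralSet_iff (f : CuspForm Γ₀(N) 2) :
    f ∈ CuspForm.qIntegralSet N ↔ ∀ n : ℕ, ∃ m : ℤ, qCoeff f n = (m : ℂ) := by
  simp only [CuspForm.qIntegralSet, Set.mem_ofPred_eq, Subring.mem_bot]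
  exact forall_congr' fun n => exists_congr fun m => eq_comm

end qCoeff

/-- The bridge product is congruent to `a` modulo `3`. -/
theorem three_dvd_coeff_bridgeProduct_sub (a : ℕ → ℤ) (n : ℕ) :
    (3 : ℤ) ∣ (bridgeProduct a).coeff n - a n := by
  have h1 : e1Chi3In ℤ = 1 + PowerSeries.C (3 : ℤ) *
      PowerSeries.mk (fun n => if n = 0 then 0 else 2 * sigmaChi n) := by
    ext m
    rw [e1Chi3In, PowerSeries.coeff_map, e1Chi3, PowerSeries.coeff_mk, map_add,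
      PowerSeries.coeff_C_mul, PowerSeries.coeff_mk, PowerSeries.coeff_one]
    split_ifs with h
    · simp
    · simp
      ring
  rw [bridgeProduct, h1, mul_add, mul_one, map_add, PowerSeries.coeff_mk, add_sub_cancel_left,
    mul_left_comm, PowerSeries.coeff_C_mul]
  exact dvd_mul_right _ _

theorem three_dvd_natCast_sub_chiNegThree (l : ℕ) : (3 : ℤ) ∣ (l : ℤ) - chiNegThree l := by
  unfold chiNegThree
  split_ifs with h1 h2 <;> omega

/-- The ideal of Hecke operators sending `f₀` into `3 L`. -/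
def congIdeal (N : ℕ) [NeZero N] (f₀ : CuspForm Γ₀(N) 2) (p : ℤ) : Ideal (heckeAlgebra N 2 ∅) where
  carrier := {t | ∃ g ∈ intLattice N 2, (t : Module.End ℂ (CuspForm Γ₀(N) 2)) f₀ = p • g}
  zero_mem' := ⟨0, zero_mem _, by simp⟩
  add_mem' := by
    rintro s t ⟨g, hg, hgs⟩ ⟨h, hh, hht⟩
    exact ⟨g + h, add_mem hg hh, by simp [hgs, hht]⟩
  smul_mem' := by
    rintro s t ⟨g, hg, hgt⟩
    refine ⟨(s : Module.End ℂ (CuspForm Γ₀(N) 2)) g,
      mem_intLattice_of_mem_heckeAlgebra one_le_two s.2 hg, ?_⟩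
    show (s : Module.End ℂ (CuspForm Γ₀(N) 2)) ((t : Module.End ℂ (CuspForm Γ₀(N) 2)) f₀) = _
    rw [hgt, map_zsmul]

theorem mem_congIdeal {N : ℕ} [NeZero N] {f₀ : CuspForm Γ₀(N) 2} {p : ℤ} {t : heckeAlgebra N 2 ∅} :
    t ∈ congIdeal N f₀ p ↔
      ∃ g ∈ intLattice N 2, (t : Module.End ℂ (CuspForm Γ₀(N) 2)) f₀ = p • g := Iff.rfl

/-- An element of the lattice all of whose coefficients are divisible by `p` is `p` times an
element of the lattice. -/
theorem exists_eq_smul_of_forall_dvd {N : ℕ} {k : ℤ} {p : ℤ} (hp : p ≠ 0) (f : CuspForm Γ₀(N) k)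
    (hf : ∀ n, ∃ m : ℤ, qCoeff f n = ((p * m : ℤ) : ℂ)) :
    ∃ g ∈ intLattice N k, f = p • g := by
  have hp' : (p : ℂ) ≠ 0 := Int.cast_ne_zero.mpr hp
  refine ⟨(p : ℂ)⁻¹ • f, ?_, ?_⟩
  · rw [mem_intLattice_iff]
    intro n
    obtain ⟨m, hm⟩ := hf n
    refine ⟨m, ?_⟩
    rw [qCoeff_smul, hm]
    push_cast
    field_simp
  · rw [← Int.cast_smul_eq_zsmul ℂ, smul_smul, mul_inv_cancel₀ hp', one_smul]

theorem intCast_mem_congIdeal {N : ℕ} [NeZero N] {f₀ : CuspForm Γ₀(N) 2} (hf₀ : f₀ ∈ intLattice N 2)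
    (p : ℤ) : ((p : ℤ) : heckeAlgebra N 2 ∅) ∈ congIdeal N f₀ p := by
  refine ⟨f₀, hf₀, ?_⟩
  have : (((p : ℤ) : heckeAlgebra N 2 ∅) : Module.End ℂ (CuspForm Γ₀(N) 2)) =
    ((p : ℤ) : Module.End ℂ (CuspForm Γ₀(N) 2)) := rfl
  rw [this]
  simp

/-- If the coefficients of `f₀` are congruent modulo `3` to a formal eigensystem with character
`χ₋₃` then `T_ℓ - a_ℓ` sends `f₀` into `3 L`. -/
theorem T_sub_mem_congIdeal {N : ℕ} [NeZero N] {f₀ : CuspForm Γ₀(N) 2} {a af : ℕ → ℤ}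
    (heig : FormalHecke.IsEigensystem
      (fun ℓ => if ℓ ∣ N then 0 else ((chiNegThree ℓ : ℤ) : ℤ)) a)
    (haf : ∀ n, (af n : ℂ) = ModularFormClass.qCoeff f₀ n)
    (hcong : ∀ n, (3 : ℤ) ∣ af n - a n) {l : ℕ} (hl : l.Prime) (hlN : ¬ l ∣ N) :
    heckeAlgebra.T hl hlN (Set.notMem_empty l) - ((a l : ℤ) : heckeAlgebra N 2 ∅) ∈
      congIdeal N f₀ 3 := by
  rw [mem_congIdeal]
  have h1 : ((heckeAlgebra.T hl hlN (Set.notMem_empty l) - ((a l : ℤ) : heckeAlgebra N 2 ∅) :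
      heckeAlgebra N 2 ∅) : Module.End ℂ (CuspForm Γ₀(N) 2)) f₀ =
      heckeTLin 2 hl hlN f₀ - (a l) • f₀ := by
    show ((heckeAlgebra.T hl hlN (Set.notMem_empty l) : heckeAlgebra N 2 ∅) :
      Module.End ℂ (CuspForm Γ₀(N) 2)) f₀ -
      ((a l : ℤ) : Module.End ℂ (CuspForm Γ₀(N) 2)) f₀ = _
    rw [heckeAlgebra.coe_T]
    simp
  rw [h1]
  refine exists_eq_smul_of_forall_dvd three_ne_zero _ fun n => ?_
  have h2 : qCoeff ⇑(heckeTLin 2 hl hlN f₀) n =
      ((af (n * l) + if l ∣ n then (l : ℤ) * af (n / l) else 0 : ℤ) : ℂ) := by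
    rw [coe_heckeTLin_apply, ModularFormClass.qCoeff_heckeT f₀ (hΓ N) hl.ne_zero,
      ModularForm.coeffHeckeT_apply, ← haf, ← haf]
    split_ifs <;> norm_num
  rw [qCoeff_sub, qCoeff_zsmul, h2, ← haf]
  have h3 := heig.2 l hl n
  simp only [hlN, if_false] at h3
  have h4 : (3 : ℤ) ∣ (af (n * l) + if l ∣ n then (l : ℤ) * af (n / l) else 0) - a l * af n := by
    have c1 := hcong (n * l)
    have c2 := hcong (n / l)
    have c3 := hcong n
    have c4 := three_dvd_natCast_sub_chiNegThree l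
    rw [mul_comm l n] at h3
    obtain ⟨x1, hx1⟩ := c1
    obtain ⟨x2, hx2⟩ := c2
    obtain ⟨x3, hx3⟩ := c3
    obtain ⟨x4, hx4⟩ := c4
    split_ifs at h3 ⊢ with h
    · refine ⟨x1 + l * x2 + x4 * a (n / l) - a l * x3, ?_⟩
      have e1 : af (n * l) = 3 * x1 + a (n * l) := by linarith
      have e2 : af (n / l) = 3 * x2 + a (n / l) := by linarith
      have e3 : af n = 3 * x3 + a n := by linarith
      have e4 : (l : ℤ) = 3 * x4 + chiNegThree l := by linarith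
      rw [e1, e2, e3]
      have e5 : a (n * l) = a l * a n - chiNegThree l * a (n / l) := by
        linarith
      rw [e5]
      linear_combination (a (n / l)) * e4
    · refine ⟨x1 - a l * x3, ?_⟩
      have e1 : af (n * l) = 3 * x1 + a (n * l) := by linarith
      have e3 : af n = 3 * x3 + a n := by linarith
      rw [e1, e3]
      linear_combination h3
  obtain ⟨m, hm⟩ := h4
  exact ⟨m, by rw [← hm]; push_cast; ring⟩

theorem congIdeal_ne_top {N : ℕ} [NeZero N] {f₀ : CuspForm Γ₀(N) 2} {a af : ℕ → ℤ}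
    (ha : a 1 = 1) (haf : ∀ n, (af n : ℂ) = ModularFormClass.qCoeff f₀ n)
    (hcong : ∀ n, (3 : ℤ) ∣ af n - a n) : congIdeal N f₀ 3 ≠ ⊤ := by
  intro htop
  have h1 : (1 : heckeAlgebra N 2 ∅) ∈ congIdeal N f₀ 3 := htop ▸ Submodule.mem_top
  obtain ⟨g, hg, hgf⟩ := h1
  obtain ⟨m, hm⟩ := (mem_intLattice_iff g).mp hg 1
  have h2 : f₀ = (3 : ℤ) • g := hgf
  have h3 : (af 1 : ℂ) = ((3 * m : ℤ) : ℂ) := by
    rw [haf, h2, qCoeff_zsmul, hm]
    push_cast
    ring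
  have h4 : af 1 = 3 * m := by exact_mod_cast h3
  have h5 := hcong 1
  rw [ha, h4] at h5
  omega

end Fermat.Agent.H71
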