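import Mathlib
import Fermat.Agent.H35Mult
import Fermat.Agent.H35Eigen
import Fermat.Agent.H44OldForm
import Fermat.Agent.H58Stab
import Fermat.Agent.H49HeckeBasic
import Fermat.Agent.H71S49Ideal
import Fermat.Prelude.Def_CuspForm_HeckeLocal

/-!
# A newform is absent from lower levels, at the level of Hecke algebras

`exists_polynomial_absent`: for a newform `g` of level `M`, a proper divisor `M'` of `M` and a finite
set `S` there is an integral polynomial in the `T_ℓ`, `ℓ ∉ S`, `ℓ ∤ M`, which kills `S_2(Γ₀(M'))` but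
not `g`.
-/

set_option autoImplicit false
set_option linter.style.haveILetI false

noncomputable section

open CuspForm ModularCurve Fermat.Agent.H31 ModularFormClass

namespace Fermat.Agent.H35

/-- Families with integral `q`-expansions that are independent over `ℤ` are independent over `ℂ`. -/
theorem sum_ne_zero_of_intCoeff {N : ℕ} [NeZero N] {m : ℕ}
    (b : Fin m → CuspForm (CongruenceSubgroup.Gamma0 N) 2)
    (hb : ∀ i n, ∃ z : ℤ, qCoeff (b i) n = (z : ℂ)) (hli : LinearIndependent ℤ b)
    (v : Fin m → ℂ) (hv : ∑ i, v i • b i = 0) : v = 0 := by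
  classical
  choose z hz using hb
  let B := Module.Basis.ofVectorSpace ℚ ℂ
  -- the relations on coefficients
  have hrel : ∀ n, ∑ i, v i * (z i n : ℂ) = 0 := by
    intro n
    have h1 := congrArg (H49.qCoeffLin N 2 n) hv
    rw [map_sum, map_zero] at h1
    simp only [map_smul, H49.qCoeffLin_apply, hz, smul_eq_mul] at h1
    exact h1
  -- rational relations vanish
  have hrat : ∀ w : Fin m → ℚ, (∀ n, ∑ i, w i * (z i n : ℚ) = 0) → w = 0 := by
    intro w hw
    obtain ⟨d, hd⟩ := IsLocalization.exist_integer_multiples_of_finite (nonZeroDivisors ℤ) w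
    choose y hy using hd
    have hy' : ∀ i, (y i : ℚ) = ((d : ℤ) : ℚ) * w i := by
      intro i
      have := hy i
      rw [zsmul_eq_mul] at this
      exact this
    have h1 : ∑ i, y i • b i = 0 := by
      refine H49.ext_of_forall_qCoeff fun n => ?_
      have h2 : H49.qCoeffLin N 2 n (∑ i, y i • b i) = 0 := by
        rw [map_sum]
        have h3 : ∀ i, H49.qCoeffLin N 2 n (y i • b i) = ((y i * z i n : ℤ) : ℂ) := by
          intro i
          rw [map_zsmul, H49.qCoeffLin_apply, hz, zsmul_eq_mul]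
          push_cast
          ring
        simp only [h3]
        rw [← Int.cast_sum]
        have h4 : ∑ i, y i * z i n = 0 := by
          have h5 : ((∑ i, y i * z i n : ℤ) : ℚ) = 0 := by
            push_cast
            simp only [hy', mul_assoc]
            rw [← Finset.mul_sum, hw n, mul_zero]
          exact_mod_cast h5
        rw [h4, Int.cast_zero]
      rw [H49.qCoeffLin_apply] at h2
      rw [h2, H49.qCoeff_zero]
    have h2 := Fintype.linearIndependent_iff.mp hli y h1
    funext i
    have h3 := hy' i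
    rw [h2 i] at h3
    have hd0 : ((d : ℤ) : ℚ) ≠ 0 := by
      exact_mod_cast nonZeroDivisors.coe_ne_zero d
    have h4 : ((d : ℤ) : ℚ) * w i = 0 := by rw [← h3]; simp
    rcases mul_eq_zero.mp h4 with h5 | h5
    · exact absurd h5 hd0
    · exact h5
  funext i
  refine B.ext_elem fun κ => ?_
  have h1 := hrat (fun i => B.repr (v i) κ) (by
    intro n
    have h2 := congrArg (fun x : ℂ => B.repr x κ) (hrel n)
    simp only [map_zero, Finsupp.coe_zero, Pi.zero_apply] at h2
    rw [map_sum, Finsupp.finsetSum_apply] at h2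
    rw [← h2]
    refine Finset.sum_congr rfl fun j _ => ?_
    have h3 : v j * (z j n : ℂ) = (z j n : ℚ) • v j := by
      rw [Rat.smul_def, mul_comm]
      push_cast
      rfl
    rw [h3, map_smul, Finsupp.smul_apply, smul_eq_mul, mul_comm])
  have h2 := congrFun h1 i
  simpa using h2

/-- Eigenforms from characters of the integral Hecke algebra. -/
theorem exists_eigenform_of_char {N N' : ℕ} [NeZero N'] (hN : N' ∣ N) (S : Set ℕ)
    (ψ : MvPolynomial (GoodPrimes N S) ℤ →+* ℂ)
    (hψ : ∀ P, evEnd N' hN S P = 0 → ψ P = 0) :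
    ∃ f : CuspForm (CongruenceSubgroup.Gamma0 N') 2, f ≠ 0 ∧
      ∀ P, evEnd N' hN S P f = ψ P • f := by
  classical
  haveI := intLattice.moduleFinite N'
  haveI := intLattice.moduleFree N'
  let m := Module.finrank ℤ ↥(intLattice N' 2)
  let b : Module.Basis (Fin m) ℤ ↥(intLattice N' 2) := Module.finBasis ℤ ↥(intLattice N' 2)
  let act₀ : MvPolynomial (GoodPrimes N S) ℤ →+* Module.End ℤ ↥(intLattice N' 2) :=
    (latticeActionHom N' S).comp ((evHecke N' S).comp (renameGood hN subset_rfl))
  let act : MvPolynomial (GoodPrimes N S) ℤ →+* Matrix (Fin m) (Fin m) ℤ :=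
    (LinearMap.toMatrixAlgEquiv b).toAlgHom.toRingHom.comp act₀
  have hact₀ : ∀ P (x : ↥(intLattice N' 2)),
      ((act₀ P x : ↥(intLattice N' 2)) : CuspForm (CongruenceSubgroup.Gamma0 N') 2) =
        evEnd N' hN S P x := fun P x => rfl
  have hzero : ∀ P, act₀ P = 0 → evEnd N' hN S P = 0 := by
    intro P hP
    have h1 := latticeRestrict_injective N' S (H23.hasIntegralStructure N' 2)
      (evHecke N' S (renameGood hN subset_rfl P)) hP
    exact congrArg Subtype.val h1
  obtain ⟨v, hv0, hv⟩ := exists_eigenvector_matrix (Z := ℤ) (O := ℂ)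
    (by intro a b h; exact_mod_cast h) act ψ (by
      intro F hF
      have h1 : act (∑ i ∈ F, i.1 • i.2) = 0 := by
        rw [map_sum, ← hF]
        exact Finset.sum_congr rfl fun i _ => map_zsmul act _ _
      have h2 : act₀ (∑ i ∈ F, i.1 • i.2) = 0 :=
        (map_eq_zero_iff _ (LinearMap.toMatrixAlgEquiv b).injective).mp h1
      have h3 := hψ _ (hzero _ h2)
      rw [map_sum] at h3
      rw [← h3]
      refine Finset.sum_congr rfl fun i _ => ?_
      rw [map_zsmul, zsmul_eq_mul]
      rfl)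
  let f : CuspForm (CongruenceSubgroup.Gamma0 N') 2 :=
    ∑ i, v i • (b i : CuspForm (CongruenceSubgroup.Gamma0 N') 2)
  have hli : LinearIndependent ℤ
      (fun i => ((b i : ↥(intLattice N' 2)) : CuspForm (CongruenceSubgroup.Gamma0 N') 2)) :=
    b.linearIndependent.map' (intLattice N' 2).subtype (Submodule.ker_subtype _)
  refine ⟨f, ?_, ?_⟩
  · intro h0
    exact hv0 (sum_ne_zero_of_intCoeff _ (fun i n => (H71.mem_intLattice_iff _).mp (b i).2 n) hli v h0)
  · intro P
    have h1 : ∀ j, evEnd N' hN S P (b j) =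
        ∑ i, (act P i j : ℂ) • (b i : CuspForm (CongruenceSubgroup.Gamma0 N') 2) := by
      intro j
      have h2 : act₀ P (b j) = ∑ i, act P i j • b i := by
        conv_lhs => rw [← b.sum_repr (act₀ P (b j))]
        refine Finset.sum_congr rfl fun i _ => ?_
        congr 1
        exact (LinearMap.toMatrixAlgEquiv_apply b (act₀ P) i j).symm
      rw [← hact₀, h2, Submodule.coe_sum]
      refine Finset.sum_congr rfl fun i _ => ?_
      rw [Submodule.coe_smul, Int.cast_smul_eq_zsmul]
    show evEnd N' hN S P (∑ i, v i • _) = ψ P • ∑ i, v i • _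
    rw [map_sum]
    simp only [map_smul, h1, Finset.smul_sum]
    rw [Finset.sum_comm]
    refine Finset.sum_congr rfl fun i _ => ?_
    have h3 := congrFun (hv P) i
    simp only [Matrix.mulVec, dotProduct, Matrix.map_apply, Pi.smul_apply, smul_eq_mul] at h3
    rw [← mul_smul, ← h3, Finset.sum_smul]
    refine Finset.sum_congr rfl fun j _ => ?_
    rw [← mul_smul]
    congr 1
    rw [mul_comm]
    rfl

/-- Level inclusion commutes with the good Hecke operators. -/
theorem levelIncl_heckeTLin {M N : ℕ} [NeZero M] [NeZero N] (h : M ∣ N) {ℓ : ℕ} (hℓ : ℓ.Prime)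
    (hℓN : ¬ ℓ ∣ N) (f : CuspForm (CongruenceSubgroup.Gamma0 M) 2) :
    H58.levelIncl 2 h (heckeTLin 2 hℓ (fun h' => hℓN (h'.trans h)) f) =
      heckeTLin 2 hℓ hℓN (H58.levelIncl 2 h f) :=
  DFunLike.coe_injective rfl

theorem levelIncl_evEnd {M N : ℕ} [NeZero M] [NeZero N] (h : M ∣ N) (S : Set ℕ)
    (P : MvPolynomial (GoodPrimes N S) ℤ) (f : CuspForm (CongruenceSubgroup.Gamma0 M) 2) :
    H58.levelIncl 2 h (evEnd M h S P f) = evEnd N dvd_rfl S P (H58.levelIncl 2 h f) := by
  induction P using MvPolynomial.induction_on generalizing f with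
  | C a =>
    have h1 : (MvPolynomial.C a : MvPolynomial (GoodPrimes N S) ℤ) =
        (a : MvPolynomial (GoodPrimes N S) ℤ) := by simp
    rw [h1, map_intCast, map_intCast, Module.End.intCast_apply, Module.End.intCast_apply,
      map_zsmul]
  | add P Q hP hQ =>
    rw [map_add, map_add, LinearMap.add_apply, LinearMap.add_apply, map_add, hP, hQ]
  | mul_X P a hP =>
    rw [map_mul, map_mul, Module.End.mul_apply, Module.End.mul_apply, hP, evEnd_X, evEnd_X]
    congr 1

theorem evEnd_eigen {N : ℕ} [NeZero N] (S : Set ℕ) {g : CuspForm (CongruenceSubgroup.Gamma0 N) 2}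
    (hg : g.IsNormalizedEigenform) (P : MvPolynomial (GoodPrimes N S) ℤ) :
    evEnd N dvd_rfl S P g = MvPolynomial.eval₂ (Int.castRingHom ℂ)
      (fun a : GoodPrimes N S => qCoeff g (a.1 : ℕ)) P • g := by
  induction P using MvPolynomial.induction_on with
  | C a =>
    have h1 : (MvPolynomial.C a : MvPolynomial (GoodPrimes N S) ℤ) =
        (a : MvPolynomial (GoodPrimes N S) ℤ) := by simp
    rw [MvPolynomial.eval₂_C, h1, map_intCast, Module.End.intCast_apply]
    exact (Int.cast_smul_eq_zsmul ℂ a g).symm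
  | add P Q hP hQ =>
    rw [map_add, LinearMap.add_apply, hP, hQ, MvPolynomial.eval₂_add, add_smul]
  | mul_X P a hP =>
    rw [map_mul, Module.End.mul_apply, evEnd_X, MvPolynomial.eval₂_mul, MvPolynomial.eval₂_X]
    have h1 := hg.isHeckeEigenvector_H49.T (a.1 : ℕ) a.1.2 a.2.1
    rw [h1, map_smul, hP, smul_smul, mul_comm]

/-- **Absence.** -/
theorem exists_polynomial_absent {M M' : ℕ} [NeZero M] [NeZero M'] (hM' : M' ∣ M) (hne : M' ≠ M)
    {g : CuspForm (CongruenceSubgroup.Gamma0 M) 2} (hg : g.IsNewform) (S : Set ℕ)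
    (hmult : ∀ (r : ℕ) (hr : r.Prime) (hrM : ¬ r ∣ M), ∃ (e : ℤ)
      (P : MvPolynomial (GoodPrimes M S) ℤ), e ≠ 0 ∧
        e • heckeTLin 2 hr hrM = evEnd M dvd_rfl S P) :
    ∃ P : MvPolynomial (GoodPrimes M S) ℤ, evEnd M' hM' S P = 0 ∧
      MvPolynomial.eval₂ (Int.castRingHom ℂ) (fun a : GoodPrimes M S => qCoeff g (a.1 : ℕ)) P ≠ 0 := by
  by_contra hcon
  push Not at hcon
  let ψ : MvPolynomial (GoodPrimes M S) ℤ →+* ℂ :=
    MvPolynomial.eval₂Hom (Int.castRingHom ℂ) (fun a : GoodPrimes M S => qCoeff g (a.1 : ℕ))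
  obtain ⟨f, hf0, hf⟩ := exists_eigenform_of_char hM' S ψ hcon
  -- `f` has the eigenvalues of `g` for all good primes
  have hT : ∀ (r : ℕ) (hr : r.Prime) (_ : ¬ r ∣ M) (hrM' : ¬ r ∣ M'),
      heckeTLin 2 hr hrM' f = qCoeff g r • f := by
    intro r hr hrM hrM'
    obtain ⟨e, P, he, hP⟩ := hmult r hr hrM
    have h1 : (e : ℂ) * qCoeff g r = ψ P := by
      have h2 := LinearMap.congr_fun hP g
      rw [evEnd_eigen S hg.1, LinearMap.smul_apply, hg.1.isHeckeEigenvector_H49.T r hr hrM] at h2
      have h3 : ((e : ℂ) * qCoeff g r - ψ P) • g = 0 := by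
        rw [sub_smul, mul_smul, Int.cast_smul_eq_zsmul, h2]
        exact sub_self _
      rcases smul_eq_zero.mp h3 with h4 | h4
      · exact sub_eq_zero.mp h4
      · exact absurd h4 hg.ne_zero
    have h2 := LinearMap.congr_fun hP (H58.levelIncl 2 hM' f)
    rw [← levelIncl_evEnd, hf, LinearMap.smul_apply, ← levelIncl_heckeTLin, ← h1,
      ← Int.cast_smul_eq_zsmul ℂ, ← map_smul, mul_smul] at h2
    have h3 : (e : ℂ) • heckeTLin 2 hr hrM' f = (e : ℂ) • qCoeff g r • f :=
      DFunLike.coe_injective (congrArg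
        (fun F : CuspForm (CongruenceSubgroup.Gamma0 M) 2 => (⇑F : UpperHalfPlane → ℂ)) h2)
    exact smul_right_injective _ (Int.cast_ne_zero.mpr he) h3
  obtain ⟨g', hg', hcoef⟩ := H44.exists_normalizedEigenform_of_partial hM' f hf0 (fun ℓ => qCoeff g ℓ) hT
  exact hg.2 M' hM' hne ⟨g', hg', hcoef⟩

end Fermat.Agent.H35
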