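import Mathlib
import Fermat.Prelude.Def_ModularCurve_GenusNumerics

/-!
# Cusps of `Γ₀(N)`: orbits of `T` on `SL(2, ℤ) ⧸ Γ₀(N)`
-/

set_option autoImplicit false

open CongruenceSubgroup
open scoped MatrixGroups

namespace Fermat.Agent.H50

/-- Equality of left cosets `g Γ₀(N) = h Γ₀(N)` in terms of first columns. -/
theorem mk_eq_mk_iff (N : ℕ) (g h : SL(2, ℤ)) :
    ((g : SL(2, ℤ) ⧸ Gamma0 N) = (h : SL(2, ℤ) ⧸ Gamma0 N)) ↔
      (N : ℤ) ∣ g 0 0 * h 1 0 - g 1 0 * h 0 0 := by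
  rw [QuotientGroup.eq, Gamma0_mem, ZMod.intCast_zmod_eq_zero_iff_dvd]
  have : (g⁻¹ * h : SL(2, ℤ)) 1 0 = g 0 0 * h 1 0 - g 1 0 * h 0 0 := by
    rw [Matrix.SpecialLinearGroup.coe_mul, Matrix.SpecialLinearGroup.coe_inv,
      Matrix.adjugate_fin_two]
    simp [Matrix.mul_apply, Fin.sum_univ_two]
    ring
  rw [this]

theorem T_zpow_mul_apply_zero_zero (k : ℤ) (g : SL(2, ℤ)) :
    (ModularGroup.T ^ k * g : SL(2, ℤ)) 0 0 = g 0 0 + k * g 1 0 := by
  rw [Matrix.SpecialLinearGroup.coe_mul, ModularGroup.coe_T_zpow]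
  simp [Matrix.mul_apply, Fin.sum_univ_two]

theorem T_zpow_mul_apply_one_zero (k : ℤ) (g : SL(2, ℤ)) :
    (ModularGroup.T ^ k * g : SL(2, ℤ)) 1 0 = g 1 0 := by
  rw [Matrix.SpecialLinearGroup.coe_mul, ModularGroup.coe_T_zpow]
  simp [Matrix.mul_apply, Fin.sum_univ_two]

/-- `T ^ k • (g Γ₀(N)) = h Γ₀(N)` in terms of first columns. -/
theorem T_zpow_smul_eq_iff (N : ℕ) (k : ℤ) (g h : SL(2, ℤ)) :
    ModularGroup.T ^ k • (g : SL(2, ℤ) ⧸ Gamma0 N) = (h : SL(2, ℤ) ⧸ Gamma0 N) ↔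
      (N : ℤ) ∣ (g 0 0 + k * g 1 0) * h 1 0 - g 1 0 * h 0 0 := by
  rw [MulAction.Quotient.smul_coe, smul_eq_mul, mk_eq_mk_iff, T_zpow_mul_apply_zero_zero,
    T_zpow_mul_apply_one_zero]

/-- The `T`-width: `T ^ k` fixes the coset `g Γ₀(N)` iff `N ∣ k c²`. -/
theorem T_zpow_smul_eq_self_iff (N : ℕ) (k : ℤ) (g : SL(2, ℤ)) :
    ModularGroup.T ^ k • (g : SL(2, ℤ) ⧸ Gamma0 N) = (g : SL(2, ℤ) ⧸ Gamma0 N) ↔
      (N : ℤ) ∣ k * g 1 0 ^ 2 := by
  rw [T_zpow_smul_eq_iff]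
  ring_nf

theorem isCoprime_col (g : SL(2, ℤ)) : IsCoprime (g 0 0) (g 1 0) := by
  have h := g.det_coe
  rw [Matrix.det_fin_two] at h
  exact ⟨g 1 1, -g 0 1, by linear_combination h⟩

/-- The level-`d` gcd `gcd(d, N/d)`. -/
def eN (N d : ℕ) : ℕ := Nat.gcd d (N / d)

theorem dvd_mul_sub_iff_exists {m n x e : ℤ} (he : e = (Int.gcd m n : ℤ)) :
    (∃ k : ℤ, n ∣ x + k * m) ↔ e ∣ x := by
  subst he
  constructor
  · rintro ⟨k, hk⟩
    have h1 : (Int.gcd m n : ℤ) ∣ x + k * m := (Int.gcd_dvd_right _ _).trans hk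
    have h2 : (Int.gcd m n : ℤ) ∣ k * m := (Int.gcd_dvd_left _ _).mul_left k
    exact (Int.dvd_iff_dvd_of_dvd_add h1).mpr h2
  · rintro ⟨y, hy⟩
    refine ⟨-(y * Int.gcdA m n), ⟨y * Int.gcdB m n, ?_⟩⟩
    have := Int.gcd_eq_gcd_ab m n
    rw [hy, this]; ring

/-- Key criterion for two cosets to be in the same `T`-orbit. -/
theorem same_orbit_iff {N : ℕ} (hN : N ≠ 0) (g h : SL(2, ℤ)) :
    (∃ k : ℤ, ModularGroup.T ^ k • (g : SL(2, ℤ) ⧸ Gamma0 N) = (h : SL(2, ℤ) ⧸ Gamma0 N)) ↔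
      Int.gcd (g 1 0) N = Int.gcd (h 1 0) N ∧
        (eN N (Int.gcd (g 1 0) N) : ℤ) ∣
          g 0 0 * (h 1 0 / (Int.gcd (g 1 0) N : ℤ)) - h 0 0 * (g 1 0 / (Int.gcd (g 1 0) N : ℤ)) := by
  simp only [T_zpow_smul_eq_iff]
  constructor
  · rintro ⟨k, hk⟩
    -- first the gcds agree
    have hcg := isCoprime_col g
    have hch := isCoprime_col h
    have e1 : Int.gcd (g 1 0) N ∣ Int.gcd (h 1 0) N := by
      apply Int.natCast_dvd_natCast.mp
      apply Int.dvd_coe_gcd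
      · -- gcd(c,N) divides (a + k c) c'; coprime to a + k c
        have hd : (Int.gcd (g 1 0) N : ℤ) ∣ (g 0 0 + k * g 1 0) * h 1 0 := by
          have h1 : (Int.gcd (g 1 0) N : ℤ) ∣ (g 0 0 + k * g 1 0) * h 1 0 - g 1 0 * h 0 0 :=
            (Int.gcd_dvd_right _ _).trans hk
          have h2 : (Int.gcd (g 1 0) N : ℤ) ∣ g 1 0 * h 0 0 := (Int.gcd_dvd_left _ _).mul_right _
          have := dvd_add h1 h2
          simpa using this
        have hcop : IsCoprime (Int.gcd (g 1 0) N : ℤ) (g 0 0 + k * g 1 0) := by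
          have : IsCoprime (g 1 0) (g 0 0 + k * g 1 0) :=
            (IsCoprime.add_mul_right_left_iff.mpr hcg).symm
          exact this.of_isCoprime_of_dvd_left (Int.gcd_dvd_left _ _)
        exact hcop.dvd_of_dvd_mul_left hd
      · exact Int.gcd_dvd_right _ _
    have e2 : Int.gcd (h 1 0) N ∣ Int.gcd (g 1 0) N := by
      apply Int.natCast_dvd_natCast.mp
      apply Int.dvd_coe_gcd
      · have hd : (Int.gcd (h 1 0) N : ℤ) ∣ h 0 0 * g 1 0 := by
          have h1 : (Int.gcd (h 1 0) N : ℤ) ∣ (g 0 0 + k * g 1 0) * h 1 0 - g 1 0 * h 0 0 :=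
            (Int.gcd_dvd_right _ _).trans hk
          have h2 : (Int.gcd (h 1 0) N : ℤ) ∣ (g 0 0 + k * g 1 0) * h 1 0 :=
            (Int.gcd_dvd_left _ _).mul_left _
          have := dvd_sub h2 h1
          have e : (g 0 0 + k * g 1 0) * h 1 0 - ((g 0 0 + k * g 1 0) * h 1 0 - g 1 0 * h 0 0)
            = h 0 0 * g 1 0 := by ring
          rwa [e] at this
        have hcop : IsCoprime (Int.gcd (h 1 0) N : ℤ) (h 0 0) :=
          hch.symm.of_isCoprime_of_dvd_left (Int.gcd_dvd_left _ _)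
        exact hcop.dvd_of_dvd_mul_left hd
      · exact Int.gcd_dvd_right _ _
    have hde : Int.gcd (g 1 0) N = Int.gcd (h 1 0) N := Nat.dvd_antisymm e1 e2
    refine ⟨hde, ?_⟩
    set d := Int.gcd (g 1 0) N with hd
    have hd0 : (d : ℤ) ≠ 0 := by
      have : d ≠ 0 := by
        rw [hd]; intro h0
        rw [Int.gcd_eq_zero_iff] at h0
        exact hN (by exact_mod_cast h0.2)
      exact_mod_cast this
    obtain ⟨c, hc⟩ : (d : ℤ) ∣ g 1 0 := Int.gcd_dvd_left _ _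
    obtain ⟨c', hc'⟩ : (d : ℤ) ∣ h 1 0 := by rw [hde]; exact Int.gcd_dvd_left _ _
    obtain ⟨n, hn⟩ : (d : ℤ) ∣ N := Int.gcd_dvd_right _ _
    rw [hc, hc', Int.mul_ediv_cancel_left _ hd0, Int.mul_ediv_cancel_left _ hd0]
    rw [hc, hc', hn] at hk
    have hk' : n ∣ (g 0 0 * c' - h 0 0 * c) + (k * c * c') * d := by
      have : (d : ℤ) * n ∣ d * ((g 0 0 * c' - h 0 0 * c) + (k * c * c') * d) := by
        convert hk using 1; ring
      exact (mul_dvd_mul_iff_left hd0).mp this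
    have he : (eN N d : ℤ) = (Int.gcd (d : ℤ) n : ℤ) := by
      unfold eN
      have : (N / d : ℕ) = n.natAbs := by
        have h1 : (N : ℤ) / (d : ℤ) = n := by rw [hn, Int.mul_ediv_cancel_left _ hd0]
        have h2 : ((N / d : ℕ) : ℤ) = n := by rw [← h1]; norm_cast
        rw [← h2, Int.natAbs_natCast]
      rw [this]; rfl
    exact (dvd_mul_sub_iff_exists he).mp ⟨k * c * c', hk'⟩
  · rintro ⟨hde, hdvd⟩
    set d := Int.gcd (g 1 0) N with hd
    have hd0 : (d : ℤ) ≠ 0 := by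
      have : d ≠ 0 := by
        rw [hd]; intro h0
        rw [Int.gcd_eq_zero_iff] at h0
        exact hN (by exact_mod_cast h0.2)
      exact_mod_cast this
    obtain ⟨c, hc⟩ : (d : ℤ) ∣ g 1 0 := Int.gcd_dvd_left _ _
    obtain ⟨c', hc'⟩ : (d : ℤ) ∣ h 1 0 := by rw [hde]; exact Int.gcd_dvd_left _ _
    obtain ⟨n, hn⟩ : (d : ℤ) ∣ N := Int.gcd_dvd_right _ _
    rw [hc, hc', Int.mul_ediv_cancel_left _ hd0, Int.mul_ediv_cancel_left _ hd0] at hdvd
    have hcn : IsCoprime c n := by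
      rw [Int.isCoprime_iff_gcd_eq_one]
      have h1 : Int.gcd (g 1 0) N = d := rfl
      rw [hc, hn, Int.gcd_mul_left] at h1
      simp only [Int.natAbs_natCast] at h1
      have hdpos : 0 < d := Nat.pos_of_ne_zero (by exact_mod_cast hd0)
      exact Nat.eq_of_mul_eq_mul_left hdpos (by rw [h1, mul_one])
    have hcn' : IsCoprime c' n := by
      rw [Int.isCoprime_iff_gcd_eq_one]
      have h1 : Int.gcd (h 1 0) N = d := hde.symm
      rw [hc', hn, Int.gcd_mul_left] at h1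
      simp only [Int.natAbs_natCast] at h1
      have hdpos : 0 < d := Nat.pos_of_ne_zero (by exact_mod_cast hd0)
      exact Nat.eq_of_mul_eq_mul_left hdpos (by rw [h1, mul_one])
    have he : (eN N d : ℤ) = (Int.gcd ((c * c') * d) n : ℤ) := by
      unfold eN
      have h3 : (N / d : ℕ) = n.natAbs := by
        have h1 : (N : ℤ) / (d : ℤ) = n := by rw [hn, Int.mul_ediv_cancel_left _ hd0]
        have h2 : ((N / d : ℕ) : ℤ) = n := by rw [← h1]; norm_cast
        rw [← h2, Int.natAbs_natCast]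
      rw [h3]
      have hcop : IsCoprime (c * c') n := hcn.mul_left hcn'
      rw [Int.isCoprime_iff_gcd_eq_one] at hcop
      have : Nat.gcd ((c * c') * d : ℤ).natAbs n.natAbs = Nat.gcd d n.natAbs := by
        rw [Int.natAbs_mul, Int.natAbs_natCast]
        exact Nat.Coprime.gcd_mul_left_cancel _ hcop
      rw [Int.gcd_def, this]
    obtain ⟨k, hk⟩ := (dvd_mul_sub_iff_exists he).mpr hdvd
    refine ⟨k, ?_⟩
    rw [hc, hc', hn]
    have := mul_dvd_mul_left (d : ℤ) hk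
    have e : (g 0 0 + k * (↑d * c)) * (↑d * c') - ↑d * c * h 0 0 =
        ↑d * (g 0 0 * c' - h 0 0 * c + k * (c * c' * ↑d)) := by ring
    rw [e]; exact this

/-- Parameter set for the cusps. -/
def cuspParam (N : ℕ) : Finset (Σ _ : ℕ, ℕ) :=
  N.divisors.sigma fun d => (Finset.range (eN N d)).filter (eN N d).Coprime

theorem card_cuspParam (N : ℕ) : (cuspParam N).card = ModularCurve.cuspCount N := by
  rw [cuspParam, Finset.card_sigma, ModularCurve.cuspCount]
  exact Finset.sum_congr rfl fun d _ => (Nat.totient_eq_card_coprime _).symm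

theorem exists_matrix {N : ℕ} (d r : ℕ) (hd : d ≠ 0) (hr : (eN N d).Coprime r) :
    ∃ g : SL(2, ℤ), g 1 0 = d ∧ (eN N d : ℤ) ∣ g 0 0 - r := by
  have : NeZero d := ⟨hd⟩
  have hed : eN N d ∣ d := Nat.gcd_dvd_left _ _
  have he0 : eN N d ≠ 0 := fun h => hd (Nat.eq_zero_of_zero_dvd (h ▸ hed))
  have : NeZero (eN N d) := ⟨he0⟩
  obtain ⟨u, hu⟩ := ZMod.unitsMap_surjective hed (ZMod.unitOfCoprime r hr.symm)
  have hcop : Nat.Coprime (u : ZMod d).val d := ZMod.val_coe_unit_coprime u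
  have hcop' : IsCoprime ((u : ZMod d).val : ℤ) (d : ℤ) := Nat.isCoprime_iff_coprime.mpr hcop
  obtain ⟨x, y, hxy⟩ := hcop'
  refine ⟨⟨!![((u : ZMod d).val : ℤ), -y; (d : ℤ), x], ?_⟩, ?_, ?_⟩
  · rw [Matrix.det_fin_two_of]; linear_combination hxy
  · simp
  · have h1 : (((u : ZMod d).val : ℤ) : ZMod (eN N d)) = (r : ZMod (eN N d)) := by
      have h2 := congrArg (Units.val) hu
      rw [ZMod.unitsMap_val, ZMod.coe_unitOfCoprime] at h2
      rw [← h2, Int.cast_natCast, ZMod.natCast_val]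
    have h3 : ((((u : ZMod d).val : ℤ) - (r : ℤ) : ℤ) : ZMod (eN N d)) = 0 := by
      push_cast at h1 ⊢
      rw [h1, sub_self]
    simpa using (ZMod.intCast_zmod_eq_zero_iff_dvd _ _).mp h3

/-- The number of `T`-orbits on `SL(2, ℤ) ⧸ Γ₀(N)` is the cusp count. -/
theorem card_orbits_T {N : ℕ} (hN : N ≠ 0) :
    Nat.card (MulAction.orbitRel.Quotient (Subgroup.zpowers ModularGroup.T)
      (SL(2, ℤ) ⧸ Gamma0 N)) = ModularCurve.cuspCount N := by
  classical
  have hpar : ∀ x : cuspParam N, x.1.1 ≠ 0 ∧ x.1.1 ∣ N ∧ x.1.2 < eN N x.1.1 ∧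
      (eN N x.1.1).Coprime x.1.2 := by
    rintro ⟨⟨d, r⟩, hx⟩
    simp only [cuspParam, Finset.mem_sigma, Nat.mem_divisors, Finset.mem_filter,
      Finset.mem_range] at hx
    exact ⟨fun h => hN (Nat.eq_zero_of_zero_dvd (h ▸ hx.1.1)), hx.1.1, hx.2.1, hx.2.2⟩
  have hex : ∀ x : cuspParam N, ∃ g : SL(2, ℤ), g 1 0 = x.1.1 ∧
      (eN N x.1.1 : ℤ) ∣ g 0 0 - x.1.2 := fun x =>
    exists_matrix x.1.1 x.1.2 (hpar x).1 (hpar x).2.2.2
  choose γ hγ1 hγ2 using hex
  have hgcd : ∀ x : cuspParam N, Int.gcd (γ x 1 0) N = x.1.1 := by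
    intro x
    rw [hγ1 x]
    simp only [Int.gcd_natCast_natCast]
    exact Nat.gcd_eq_left (hpar x).2.1
  have horb : ∀ x y : SL(2, ℤ) ⧸ Gamma0 N,
      (Quotient.mk (MulAction.orbitRel (Subgroup.zpowers ModularGroup.T) _) y =
        Quotient.mk (MulAction.orbitRel (Subgroup.zpowers ModularGroup.T) _) x) ↔
      ∃ k : ℤ, ModularGroup.T ^ k • x = y := by
    intro x y
    rw [Quotient.eq, MulAction.orbitRel_apply, MulAction.mem_orbit_iff]
    constructor
    · rintro ⟨⟨t, ht⟩, htx⟩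
      obtain ⟨k, rfl⟩ := Subgroup.mem_zpowers_iff.mp ht
      exact ⟨k, htx⟩
    · rintro ⟨k, hk⟩
      exact ⟨⟨ModularGroup.T ^ k, Subgroup.mem_zpowers_iff.mpr ⟨k, rfl⟩⟩, hk⟩
  let f : cuspParam N → MulAction.orbitRel.Quotient (Subgroup.zpowers ModularGroup.T)
      (SL(2, ℤ) ⧸ Gamma0 N) := fun x => Quotient.mk _ ((γ x : SL(2, ℤ)) : SL(2, ℤ) ⧸ Gamma0 N)
  have hf : Function.Bijective f := by
    constructor
    · intro x y hxy
      have h1 := (horb _ _).mp hxy.symm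
      rw [same_orbit_iff hN] at h1
      obtain ⟨h2, h3⟩ := h1
      rw [hgcd, hgcd] at h2
      rw [hgcd x, hγ1, hγ1, ← h2] at h3
      have hx0 : (x.1.1 : ℤ) ≠ 0 := by exact_mod_cast (hpar x).1
      rw [Int.ediv_self hx0, mul_one, mul_one] at h3
      have h4 : (eN N x.1.1 : ℤ) ∣ (x.1.2 : ℤ) - y.1.2 := by
        have h5 := hγ2 x
        have h6 := hγ2 y
        rw [← h2] at h6
        have := dvd_add (dvd_sub h3 h5) h6
        have e : (x.1.2 : ℤ) - y.1.2 =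
          (γ x 0 0 - γ y 0 0 - (γ x 0 0 - x.1.2)) + (γ y 0 0 - y.1.2) := by ring
        rw [e]; exact this
      have h5 : x.1.2 = y.1.2 := by
        have hx := (hpar x).2.2.1
        have hy := (hpar y).2.2.1
        rw [← h2] at hy
        have := Int.eq_zero_of_abs_lt_dvd h4 (by rw [abs_lt]; constructor <;> omega)
        omega
      apply Subtype.ext
      exact Sigma.ext h2 (heq_of_eq h5)
    · intro q
      induction q using Quotient.inductionOn with
      | h q =>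
      induction q using Quotient.inductionOn with
      | h g =>
      set d := Int.gcd (g 1 0) N with hd
      have hd0 : d ≠ 0 := by
        rw [hd]; intro h0
        rw [Int.gcd_eq_zero_iff] at h0
        exact hN (by exact_mod_cast h0.2)
      have hdN : d ∣ N := by
        have : (d : ℤ) ∣ N := Int.gcd_dvd_right _ _
        exact_mod_cast this
      have hd0' : (d : ℤ) ≠ 0 := by exact_mod_cast hd0
      obtain ⟨c, hc⟩ : (d : ℤ) ∣ g 1 0 := Int.gcd_dvd_left _ _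
      obtain ⟨n, hn⟩ := hdN
      have hn0 : n ≠ 0 := fun h => hN (by rw [hn, h, mul_zero])
      have hNd : N / d = n := by rw [hn]; exact Nat.mul_div_cancel_left _ (Nat.pos_of_ne_zero hd0)
      have hcn : IsCoprime c (n : ℤ) := by
        rw [Int.isCoprime_iff_gcd_eq_one]
        have h1 : Int.gcd (g 1 0) N = d := rfl
        rw [hc, hn, Nat.cast_mul, Int.gcd_mul_left] at h1
        simp only [Int.natAbs_natCast] at h1
        exact Nat.eq_of_mul_eq_mul_left (Nat.pos_of_ne_zero hd0) (by rw [h1, mul_one])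
      have hed : (eN N d : ℤ) ∣ d := by exact_mod_cast Nat.gcd_dvd_left _ _
      have hen : (eN N d : ℤ) ∣ n := by
        have : eN N d ∣ N / d := Nat.gcd_dvd_right _ _
        rw [hNd] at this; exact_mod_cast this
      have hce : IsCoprime c (eN N d : ℤ) := hcn.of_isCoprime_of_dvd_right hen
      have hae : IsCoprime (g 0 0) (eN N d : ℤ) := by
        refine (isCoprime_col g).of_isCoprime_of_dvd_right (hed.trans ?_)
        rw [hc]; exact dvd_mul_right _ _
      have he0 : (eN N d : ℤ) ≠ 0 := by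
        intro h; rw [h] at hed; exact hd0' (zero_dvd_iff.mp hed)
      obtain ⟨u, v, huv⟩ := hce
      -- u * c + v * e = 1 ; r := a * u mod e
      set r : ℤ := (g 0 0 * u) % (eN N d : ℤ) with hr
      have hr0 : 0 ≤ r := Int.emod_nonneg _ he0
      have hre : r < (eN N d : ℤ) := by
        have := Int.emod_lt_abs (g 0 0 * u) he0
        rwa [Nat.abs_cast] at this
      have hru : (eN N d : ℤ) ∣ r - g 0 0 * u := by
        rw [hr]
        have := Int.emod_add_mul_ediv (g 0 0 * u) (eN N d : ℤ)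
        exact ⟨-((g 0 0 * u) / (eN N d : ℤ)), by linear_combination this⟩
      have hrc : (eN N d : ℤ) ∣ g 0 0 - r * c := by
        obtain ⟨w, hw⟩ := hru
        refine ⟨g 0 0 * v - w * c, ?_⟩
        linear_combination (-c) * hw - g 0 0 * huv
      have hrcop : IsCoprime r (eN N d : ℤ) := by
        obtain ⟨w, hw⟩ := hru
        have hue : IsCoprime u (eN N d : ℤ) := ⟨c, v, by linear_combination huv⟩
        have : r = g 0 0 * u + w * (eN N d : ℤ) := by linear_combination hw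
        rw [this]
        exact IsCoprime.add_mul_right_left_iff.mpr (hae.mul_left hue)
      obtain ⟨s, hs⟩ := Int.eq_ofNat_of_zero_le hr0
      have hmem : (⟨d, s⟩ : Σ _ : ℕ, ℕ) ∈ cuspParam N := by
        simp only [cuspParam, Finset.mem_sigma, Nat.mem_divisors, Finset.mem_filter,
          Finset.mem_range]
        refine ⟨⟨⟨n, hn⟩, hN⟩, by omega, ?_⟩
        rw [hs] at hrcop
        exact (Nat.isCoprime_iff_coprime.mp hrcop).symm
      refine ⟨⟨⟨d, s⟩, hmem⟩, ?_⟩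
      refine (horb _ _).mpr ?_
      show ∃ k : ℤ, ModularGroup.T ^ k • (g : SL(2, ℤ) ⧸ Gamma0 N) =
        ((γ ⟨⟨d, s⟩, hmem⟩ : SL(2, ℤ)) : SL(2, ℤ) ⧸ Gamma0 N)
      rw [same_orbit_iff hN]
      refine ⟨by rw [hgcd], ?_⟩
      rw [← hd, hγ1, hc, Int.mul_ediv_cancel_left _ hd0']
      show (eN N d : ℤ) ∣ g 0 0 * ((d : ℤ) / (d : ℤ)) - γ ⟨⟨d, s⟩, hmem⟩ 0 0 * c
      rw [Int.ediv_self hd0', mul_one]
      have h5 := hγ2 ⟨⟨d, s⟩, hmem⟩
      simp only at h5
      have h6 : (eN N d : ℤ) ∣ g 0 0 - (s : ℤ) * c := by rw [hs] at hrc; exact hrc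
      have := dvd_sub h6 (h5.mul_right c)
      have e : g 0 0 - γ ⟨⟨d, s⟩, hmem⟩ 0 0 * c =
        g 0 0 - (s : ℤ) * c - (γ ⟨⟨d, s⟩, hmem⟩ 0 0 - s) * c := by ring
      rw [e]; exact this
  rw [← Nat.card_eq_of_bijective f hf, Nat.card_eq_fintype_card, Fintype.card_coe, card_cuspParam]

end Fermat.Agent.H50
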