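import Mathlib
import Fermat.Prelude.Def_ModularCurve_GenusNumerics
import Fermat.Agent.H50Cusps

/-!
# Fixed points of `S` and `S * T` on `SL(2, ℤ) ⧸ Γ₀(N)`
-/

set_option autoImplicit false

open CongruenceSubgroup
open scoped MatrixGroups

namespace Fermat.Agent.H50

/-- `h • (g Γ₀(N)) = g Γ₀(N)` as a quadratic congruence on the first column of `g`. -/
theorem smul_mk_eq_self_iff (N : ℕ) (h g : SL(2, ℤ)) :
    h • (g : SL(2, ℤ) ⧸ Gamma0 N) = (g : SL(2, ℤ) ⧸ Gamma0 N) ↔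
      (N : ℤ) ∣ h 1 0 * g 0 0 ^ 2 + (h 1 1 - h 0 0) * (g 0 0 * g 1 0) - h 0 1 * g 1 0 ^ 2 := by
  rw [MulAction.Quotient.smul_coe, smul_eq_mul, mk_eq_mk_iff, ← dvd_neg]
  have e : -((h * g : SL(2, ℤ)) 0 0 * g 1 0 - (h * g : SL(2, ℤ)) 1 0 * g 0 0) =
      h 1 0 * g 0 0 ^ 2 + (h 1 1 - h 0 0) * (g 0 0 * g 1 0) - h 0 1 * g 1 0 ^ 2 := by
    rw [Matrix.SpecialLinearGroup.coe_mul]
    simp only [Matrix.mul_apply, Fin.sum_univ_two]
    ring
  rw [e]

/-- The matrix `[[x, -1], [1, 0]]`. -/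
def colMat (x : ℤ) : SL(2, ℤ) := ⟨!![x, -1; 1, 0], by rw [Matrix.det_fin_two_of]; ring⟩

@[simp] theorem colMat_00 (x : ℤ) : colMat x 0 0 = x := rfl
@[simp] theorem colMat_10 (x : ℤ) : colMat x 1 0 = 1 := rfl

theorem colMat_injective (N : ℕ) [NeZero N] {x y : ZMod N}
    (h : ((colMat (x.val : ℤ) : SL(2, ℤ)) : SL(2, ℤ) ⧸ Gamma0 N) =
      ((colMat (y.val : ℤ) : SL(2, ℤ)) : SL(2, ℤ) ⧸ Gamma0 N)) : x = y := by
  rw [mk_eq_mk_iff] at h
  simp only [colMat_00, colMat_10, mul_one, one_mul] at h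
  have := (ZMod.intCast_zmod_eq_zero_iff_dvd _ N).mpr h
  push_cast at this
  rw [ZMod.natCast_zmod_val, ZMod.natCast_zmod_val] at this
  exact sub_eq_zero.mp this

/-- If the first column of `g` satisfies a monic quadratic congruence, then `g` is equivalent to
`colMat x` for a root `x` of the associated polynomial. -/
theorem exists_colMat (N : ℕ) [NeZero N] (t n : ℤ) (g : SL(2, ℤ))
    (h : (N : ℤ) ∣ g 0 0 ^ 2 + t * (g 0 0 * g 1 0) + n * g 1 0 ^ 2) :
    ∃ x : ZMod N, x ^ 2 + (t : ZMod N) * x + (n : ZMod N) = 0 ∧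
      ((colMat (x.val : ℤ) : SL(2, ℤ)) : SL(2, ℤ) ⧸ Gamma0 N) =
        (g : SL(2, ℤ) ⧸ Gamma0 N) := by
  obtain ⟨u, v, huv⟩ := isCoprime_col g
  obtain ⟨k, hk⟩ := h
  set a := g 0 0 with ha
  set c := g 1 0 with hc
  -- c * s + N * w = 1
  obtain ⟨s, w, hsw⟩ : ∃ s w : ℤ, c * s + N * w = 1 := by
    refine ⟨-u ^ 2 * n * c - u ^ 2 * t * a + 2 * u * v * a + v ^ 2 * c, k * u ^ 2, ?_⟩
    linear_combination (u * a + v * c + 1) * huv - u ^ 2 * hk
  have hcs : (c : ZMod N) * (s : ZMod N) = 1 := by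
    have := congrArg (Int.cast : ℤ → ZMod N) hsw
    push_cast at this
    rwa [ZMod.natCast_self, zero_mul, add_zero] at this
  have hk' : (a : ZMod N) ^ 2 + t * (a * c) + n * (c : ZMod N) ^ 2 = 0 := by
    have := congrArg (Int.cast : ℤ → ZMod N) hk
    push_cast at this
    rwa [ZMod.natCast_self, zero_mul] at this
  refine ⟨(a : ZMod N) * s, ?_, ?_⟩
  · linear_combination (s : ZMod N) ^ 2 * hk' -
      (t * a * s + n * (c * s + 1)) * hcs
  · rw [mk_eq_mk_iff]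
    simp only [colMat_00, colMat_10, one_mul]
    rw [← ZMod.intCast_zmod_eq_zero_iff_dvd]
    push_cast
    rw [ZMod.natCast_zmod_val, ← ha, ← hc]
    linear_combination (a : ZMod N) * hcs

/-- General fixed point count: `h = [[p, q], [r, s]]` with `r = 1`. -/
theorem card_fixedBy (N : ℕ) [NeZero N] (h : SL(2, ℤ)) (hr : h 1 0 = 1) :
    Nat.card (MulAction.fixedBy (SL(2, ℤ) ⧸ Gamma0 N) h) =
      Nat.card {x : ZMod N // x ^ 2 + ((h 1 1 - h 0 0 : ℤ) : ZMod N) * x +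
        ((- h 0 1 : ℤ) : ZMod N) = 0} := by
  symm
  let f : {x : ZMod N // x ^ 2 + ((h 1 1 - h 0 0 : ℤ) : ZMod N) * x +
        ((- h 0 1 : ℤ) : ZMod N) = 0} → MulAction.fixedBy (SL(2, ℤ) ⧸ Gamma0 N) h := fun x =>
    ⟨((colMat (x.1.val : ℤ) : SL(2, ℤ)) : SL(2, ℤ) ⧸ Gamma0 N), by
      rw [MulAction.mem_fixedBy, smul_mk_eq_self_iff, ← ZMod.intCast_zmod_eq_zero_iff_dvd, hr]
      have hx := x.2
      push_cast at hx ⊢
      simp only [colMat_00, colMat_10]
      push_cast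
      rw [ZMod.natCast_zmod_val]
      linear_combination hx⟩
  refine Nat.card_eq_of_bijective f ⟨?_, ?_⟩
  · intro x y hxy
    exact Subtype.ext (colMat_injective N (congrArg Subtype.val hxy))
  · rintro ⟨q, hq⟩
    induction q using Quotient.inductionOn with
    | h g =>
    have hq' := (smul_mk_eq_self_iff N h g).mp hq
    rw [hr] at hq'
    obtain ⟨x, hx1, hx2⟩ := exists_colMat N (h 1 1 - h 0 0) (-h 0 1) g (by
      convert hq' using 1; ring)
    exact ⟨⟨x, hx1⟩, Subtype.ext hx2⟩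

theorem card_fixedBy_S (N : ℕ) [NeZero N] :
    Nat.card (MulAction.fixedBy (SL(2, ℤ) ⧸ Gamma0 N) ModularGroup.S) =
      ModularCurve.nuTwo N := by
  rw [card_fixedBy N _ (by simp [ModularGroup.coe_S]), ModularCurve.nuTwo]
  refine Nat.card_congr (Equiv.subtypeEquivRight fun x => ?_)
  simp [ModularGroup.coe_S]

@[simp] theorem coe_ST : ((ModularGroup.S * ModularGroup.T : SL(2, ℤ)) : Matrix (Fin 2) (Fin 2) ℤ) =
    !![0, -1; 1, 1] := by
  rw [Matrix.SpecialLinearGroup.coe_mul, ModularGroup.coe_S, ModularGroup.coe_T]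
  ext i j; fin_cases i <;> fin_cases j <;> simp [Matrix.mul_apply, Fin.sum_univ_two]

@[simp] theorem coe_TS : ((ModularGroup.T * ModularGroup.S : SL(2, ℤ)) : Matrix (Fin 2) (Fin 2) ℤ) =
    !![1, -1; 1, 0] := by
  rw [Matrix.SpecialLinearGroup.coe_mul, ModularGroup.coe_S, ModularGroup.coe_T]
  ext i j; fin_cases i <;> fin_cases j <;> simp [Matrix.mul_apply, Fin.sum_univ_two]

theorem card_fixedBy_ST (N : ℕ) [NeZero N] :
    Nat.card (MulAction.fixedBy (SL(2, ℤ) ⧸ Gamma0 N) (ModularGroup.S * ModularGroup.T)) =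
      ModularCurve.nuThree N := by
  rw [card_fixedBy N _ (by simp), ModularCurve.nuThree]
  refine Nat.card_congr (Equiv.subtypeEquivRight fun x => ?_)
  simp

theorem card_fixedBy_TS (N : ℕ) [NeZero N] :
    Nat.card (MulAction.fixedBy (SL(2, ℤ) ⧸ Gamma0 N) (ModularGroup.T * ModularGroup.S)) =
      ModularCurve.nuThree N := by
  rw [card_fixedBy N _ (by simp), ModularCurve.nuThree]
  refine Nat.card_congr ((Equiv.neg (ZMod N)).subtypeEquiv fun x => ?_)
  simp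

theorem card_fixedBy_inv {X : Type*} {G : Type*} [Group G] [MulAction G X] (g : G) :
    Nat.card (MulAction.fixedBy X g⁻¹) = Nat.card (MulAction.fixedBy X g) := by
  rw [MulAction.fixedBy_inv]

/-- `-1` acts trivially on `SL(2, ℤ) ⧸ Γ₀(N)`. -/
theorem neg_one_smul_mk (N : ℕ) (x : SL(2, ℤ) ⧸ Gamma0 N) :
    (-1 : SL(2, ℤ)) • x = x := by
  induction x using Quotient.inductionOn with
  | h g =>
  refine (smul_mk_eq_self_iff N (-1) g).mpr ?_
  simp

theorem neg_smul_mk (N : ℕ) (h : SL(2, ℤ)) (x : SL(2, ℤ) ⧸ Gamma0 N) :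
    (-h) • x = h • x := by
  rw [← neg_one_mul, mul_smul, neg_one_smul_mk]

theorem S_smul_S_smul (N : ℕ) (x : SL(2, ℤ) ⧸ Gamma0 N) :
    ModularGroup.S • ModularGroup.S • x = x := by
  have h : ModularGroup.S * ModularGroup.S = (-1 : SL(2, ℤ)) := by
    ext i j
    rw [Matrix.SpecialLinearGroup.coe_mul, ModularGroup.coe_S]
    fin_cases i <;> fin_cases j <;> simp [Matrix.mul_apply, Fin.sum_univ_two]
  rw [← mul_smul, h, neg_one_smul_mk]

theorem ST_pow_three : (ModularGroup.S * ModularGroup.T) ^ 3 = (-1 : SL(2, ℤ)) := by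
  ext i j
  rw [pow_succ, pow_two]
  simp only [Matrix.SpecialLinearGroup.coe_mul (ModularGroup.S * ModularGroup.T * _),
    Matrix.SpecialLinearGroup.coe_mul (ModularGroup.S * ModularGroup.T), coe_ST]
  fin_cases i <;> fin_cases j <;> simp [Matrix.mul_apply, Fin.sum_univ_two]

theorem ST_pow_three_smul (N : ℕ) (x : SL(2, ℤ) ⧸ Gamma0 N) :
    (ModularGroup.S * ModularGroup.T) ^ 3 • x = x := by
  rw [ST_pow_three, neg_one_smul_mk]

end Fermat.Agent.H50
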