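import Fermat.Agent.H80Dual
import Fermat.Agent.H50Fixed
import Fermat.Agent.H50Cusps
import Fermat.Agent.H45P1Index

/-! The dimension of `S_2(Γ₀(N))`. -/

open UpperHalfPlane ModularForm MatrixGroups CongruenceSubgroup Filter Topology
open scoped Manifold Matrix

noncomputable section

namespace Fermat.Agent.H80

open Fermat.Agent.H20

variable (N : ℕ) [NeZero N]

/-- the quotient -/
abbrev XN : Type := SL(2, ℤ) ⧸ Gamma0 N

instance : Fintype (XN N) := Fintype.ofFinite _
instance : DecidableEq (XN N) := Classical.decEq _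

variable {N}

/-- cusp form → vector valued cusp form -/
def cfVCF {w : ℤ} (f : CuspForm (Gamma0 N) w) (x : XN N) : ℍ → ℂ :=
  Quotient.liftOn' x (fun g => (f : ℍ → ℂ) ∣[w] g⁻¹) (fun a b hab => by
    have h1 : a⁻¹ * b ∈ Gamma0 N := QuotientGroup.leftRel_apply.mp hab
    have h2 : (f : ℍ → ℂ) ∣[w] (a⁻¹ * b) = f :=
      SlashInvariantFormClass.slash_action_eq f _ ⟨_, h1, rfl⟩
    show (f : ℍ → ℂ) ∣[w] a⁻¹ = (f : ℍ → ℂ) ∣[w] b⁻¹
    conv_rhs => rw [← h2]
    rw [← SlashAction.slash_mul]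
    congr 1
    group)

theorem cfVCF_mk {w : ℤ} (f : CuspForm (Gamma0 N) w) (g : SL(2, ℤ)) :
    cfVCF f (g : SL(2, ℤ) ⧸ Gamma0 N) = (f : ℍ → ℂ) ∣[w] g⁻¹ := rfl

theorem cfVCF_isVCF {w : ℤ} (f : CuspForm (Gamma0 N) w) : IsVCF (XN N) w (cfVCF f) where
  slash g x := by
    induction x using QuotientGroup.induction_on with
    | H a =>
      rw [cfVCF_mk, show g⁻¹ • (a : SL(2, ℤ) ⧸ Gamma0 N) =
        ((g⁻¹ * a : SL(2, ℤ)) : SL(2, ℤ) ⧸ Gamma0 N) from rfl, cfVCF_mk,
        ← SlashAction.slash_mul]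
      congr 1
      group
  holo x := by
    induction x using QuotientGroup.induction_on with
    | H a =>
      rw [cfVCF_mk]
      exact (ModularFormClass.holo f).slash w _
  zero x := by
    induction x using QuotientGroup.induction_on with
    | H a =>
      rw [cfVCF_mk]
      exact CuspFormClass.zero_at_infty_slash f _

/-- vector valued cusp form → cusp form -/
def vcfCF {w : ℤ} {G : XN N → ℍ → ℂ} (hG : IsVCF (XN N) w G) : CuspForm (Gamma0 N) w where
  toFun := G ((1 : SL(2, ℤ)) : XN N)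
  slash_action_eq' := by
    rintro γ ⟨g, hg, rfl⟩
    have h1 := hG.slash g ((1 : SL(2, ℤ)) : XN N)
    have h2 : g⁻¹ • ((1 : SL(2, ℤ)) : XN N) = ((1 : SL(2, ℤ)) : XN N) := by
      rw [show g⁻¹ • ((1 : SL(2, ℤ)) : XN N) = ((g⁻¹ * 1 : SL(2, ℤ)) : XN N) from rfl,
        QuotientGroup.eq]
      simpa using hg
    rw [h2] at h1
    exact h1
  holo' := hG.holo _
  zero_at_cusps' {c} hc := by
    rw [Subgroup.IsArithmetic.isCusp_iff_isCusp_SL2Z] at hc
    rw [OnePoint.isZeroAt_iff_forall_SL2Z hc]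
    intro γ _
    show IsZeroAtImInfty (G ((1 : SL(2, ℤ)) : XN N) ∣[w] γ)
    rw [hG.slash γ]
    exact hG.zero _

@[simp] theorem vcfCF_apply {w : ℤ} {G : XN N → ℍ → ℂ} (hG : IsVCF (XN N) w G) (τ : ℍ) :
    vcfCF hG τ = G ((1 : SL(2, ℤ)) : XN N) τ := rfl

theorem neg_XN (x : XN N) : (-1 : SL(2, ℤ)) • x = x := Fermat.Agent.H50.neg_one_smul_mk N x

variable {k : XN N → ℤ} {F : XN N → XN N → ℍ → ℂ}

/-- the cusp form attached to a weight 10 generator -/
def phi (h : IsFreeBasis (XN N) k F) (i : {i : XN N // k i = 10}) : CuspForm (Gamma0 N) 2 :=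
  vcfCF (w := 2) (G := dualF F i) (by
    have := dual_isVCF h neg_XN i
    rw [i.2] at this
    exact this)

theorem phi_apply (h : IsFreeBasis (XN N) k F) (i : {i : XN N // k i = 10}) (τ : ℍ) :
    phi h i τ = dualF F i ((1 : SL(2, ℤ)) : XN N) τ := rfl

theorem phi_linearIndependent (h : IsFreeBasis (XN N) k F) : LinearIndependent ℂ (phi h) := by
  rw [Fintype.linearIndependent_iff]
  intro g hg
  have h1 : ∀ τ, ∑ i, g i * dualF F i ((1 : SL(2, ℤ)) : XN N) τ = 0 := by
    intro τ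
    have := congrArg (fun f : CuspForm (Gamma0 N) 2 => f τ) hg
    simpa [phi_apply] using! this
  have h2 : ∀ x τ, ∑ i, g i * dualF F i x τ = 0 := by
    intro x τ
    induction x using QuotientGroup.induction_on with
    | H a =>
      have h3 : ∀ i : {i : XN N // k i = 10}, dualF F i (a : XN N) τ =
          dualF F i ((1 : SL(2, ℤ)) : XN N) (a⁻¹ • τ) *
            denom ((a⁻¹ : SL(2, ℤ)) : GL (Fin 2) ℝ) τ ^ (-2 : ℤ) := by
        intro i
        have h4 := congrFun (dual_slash h i a⁻¹ ((1 : SL(2, ℤ)) : XN N)) τ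
        rw [i.2, SL_slash_apply, inv_inv] at h4
        rw [show a • ((1 : SL(2, ℤ)) : XN N) = ((a * 1 : SL(2, ℤ)) : XN N) from rfl, mul_one] at h4
        rw [← h4]
        norm_num
      simp only [h3, ← mul_assoc]
      rw [← Finset.sum_mul, h1, zero_mul]
  intro j
  have h5 : ∑ x, (∑ i, g i * dualF F i x UpperHalfPlane.I) * F j x UpperHalfPlane.I =
      g j * discriminant UpperHalfPlane.I := by
    simp only [Finset.sum_mul]
    rw [Finset.sum_comm]
    have h6 : ∀ i : {i : XN N // k i = 10},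
        ∑ x, g i * dualF F i x UpperHalfPlane.I * F j x UpperHalfPlane.I =
        if i = j then g i * discriminant UpperHalfPlane.I else 0 := by
      intro i
      have h7 := dual_pairing h UpperHalfPlane.I i j
      simp only [mul_assoc]
      rw [← Finset.mul_sum, h7]
      simp only [Subtype.ext_iff]
      split_ifs <;> simp
    rw [Finset.sum_congr rfl fun i _ => h6 i]
    simp
  simp only [h2, zero_mul, Finset.sum_const_zero] at h5
  exact (mul_eq_zero.1 h5.symm).resolve_right (discriminant_ne_zero _)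

theorem phi_span (h : IsFreeBasis (XN N) k F) (f : CuspForm (Gamma0 N) 2) :
    ∃ c : {i : XN N // k i = 10} → ℂ, f = ∑ i, c i • phi h i := by
  have hG := cfVCF_isVCF f
  have hL : ∀ j, ∃ H, IsL1 (k j - 10) H ∧ ∑ x, cfVCF f x * F j x = discriminant * H := by
    intro j
    have h1 : IsL1 (2 + k j) (∑ x, cfVCF f x * F j x) := hG.isVMF.pairing (h.vmf j)
    have h2 : Tendsto (∑ x, cfVCF f x * F j x) atImInfty (𝓝 0) := by
      have h3 : ∀ x, Tendsto (fun τ => cfVCF f x τ * F j x τ) atImInfty (𝓝 0) := fun x =>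
        (hG.zero x).zero_mul_isBoundedUnder_le ((h.vmf j).bdd x).isBoundedUnder_le
      have h4 := tendsto_finsetSum (Finset.univ : Finset (XN N)) fun x _ => h3 x
      rw [Finset.sum_const_zero] at h4
      refine h4.congr fun τ => ?_
      simp
    obtain ⟨H, hH, hHe⟩ := l1_div_disc h1 h2
    exact ⟨H, hH.cast (by ring), hHe⟩
  choose H hH hHe using hL
  have hc : ∀ j, ∃ c : ℂ, (∀ τ, H j τ = c) ∧ (k j ≠ 10 → c = 0) := by
    intro j
    rcases eq_or_ne (k j) 10 with hj | hj
    · obtain ⟨c, hc⟩ := ((hH j).cast (show k j - 10 = 0 by omega)).const_of_zero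
      exact ⟨c, fun τ => by rw [hc]; rfl, fun h => absurd hj h⟩
    · have := weight_le h neg_XN j
      refine ⟨0, fun τ => ?_, fun _ => rfl⟩
      rw [(hH j).eq_zero_of_neg (by omega)]
      rfl
  choose c hc hc0 using hc
  refine ⟨fun i => c i, ?_⟩
  apply DFunLike.ext
  intro τ
  have h1 : (f : ℍ → ℂ) τ = cfVCF f ((1 : SL(2, ℤ)) : XN N) τ := by
    rw [cfVCF_mk, inv_one, SlashAction.slash_one]
  have h2 : discriminant τ * cfVCF f ((1 : SL(2, ℤ)) : XN N) τ =
      discriminant τ * ∑ i, c i * dualF F i ((1 : SL(2, ℤ)) : XN N) τ := by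
    have h3 : ∑ x, cfVCF f x τ * (∑ i, F i x τ * dualF F i ((1 : SL(2, ℤ)) : XN N) τ) =
        discriminant τ * cfVCF f ((1 : SL(2, ℤ)) : XN N) τ := by
      simp only [fmat_mul_dual h]
      simp [mul_comm]
    rw [← h3]
    simp only [Finset.mul_sum]
    rw [Finset.sum_comm]
    refine Finset.sum_congr rfl fun i _ => ?_
    have h4 := congrFun (hHe i) τ
    simp only [Finset.sum_apply, Pi.mul_apply, hc] at h4
    rw [← mul_assoc, ← h4, Finset.sum_mul]
    exact Finset.sum_congr rfl fun x _ => by ring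
  have h3 := mul_left_cancel₀ (discriminant_ne_zero τ) h2
  rw [h1, h3]
  have h4 : (∑ i : {i : XN N // k i = 10}, c i • phi h i : CuspForm (Gamma0 N) 2) τ =
      ∑ i : {i : XN N // k i = 10}, c i * dualF F i ((1 : SL(2, ℤ)) : XN N) τ := by
    simp [phi_apply]
  rw [h4]
  have h5 := Finset.sum_subtype_of_mem (p := fun i => k i = 10)
    (s := Finset.univ.filter fun i => k i = 10)
    (f := fun i => c i * dualF F i ((1 : SL(2, ℤ)) : XN N) τ) (fun i hi => (Finset.mem_filter.1 hi).2)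
  have h6 : ∑ i : {i : XN N // k i = 10}, c i * dualF F i ((1 : SL(2, ℤ)) : XN N) τ =
      ∑ i ∈ Finset.univ.filter (fun i => k i = 10),
        c i * dualF F i ((1 : SL(2, ℤ)) : XN N) τ := by
    rw [← h5]
    refine Finset.sum_congr ?_ fun i _ => rfl
    ext i
    simp [i.2]
  rw [h6]
  symm
  refine Finset.sum_subset (Finset.filter_subset _ _) fun i _ hi => ?_
  have : k i ≠ 10 := fun h => hi (Finset.mem_filter.2 ⟨Finset.mem_univ _, h⟩)
  rw [hc0 i this, zero_mul]

theorem finrank_eq_wt (h : IsFreeBasis (XN N) k F) :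
    Module.finrank ℂ (CuspForm (Gamma0 N) 2) = wt k 10 := by
  have hsp : ⊤ ≤ Submodule.span ℂ (Set.range (phi h)) := by
    intro f _
    obtain ⟨c, rfl⟩ := phi_span h f
    exact Submodule.sum_mem _ fun i _ => Submodule.smul_mem _ _
      (Submodule.subset_span ⟨i, rfl⟩)
  rw [Module.finrank_eq_card_basis (Module.Basis.mk (phi_linearIndependent h) hsp), wt,
    Fintype.card_subtype]

/-- **The dimension formula.** -/
theorem finrank_eq_genusFormula (N : ℕ) [NeZero N] :
    (Module.finrank ℂ (CuspForm (Gamma0 N) 2) : ℚ) = ModularCurve.genusFormula N := by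
  obtain ⟨k, F, h⟩ := exists_freeBasis (XN N) (gamma0_sep N)
  rw [finrank_eq_wt h, count_ten h neg_XN (weight_nonneg h) (weight_le h neg_XN)
    (wt_zero h ((1 : SL(2, ℤ)) : XN N)), ModularCurve.genusFormula]
  have h1 : Nat.card (XN N) = ModularCurve.dedekindPsi N := Fermat.Agent.H45.index_Gamma0 N
  have h2 := Fermat.Agent.H50.card_fixedBy_S N
  have h3 := Fermat.Agent.H50.card_fixedBy_ST N
  have h4 := Fermat.Agent.H50.card_orbits_T (N := N) (NeZero.ne N)
  have h5 : cuspNum (XN N) = ModularCurve.cuspCount N := h4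
  rw [h1, h2, h3, h5]

end Fermat.Agent.H80
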