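import Fermat.Agent.H77ParField
import Fermat.Agent.H45P1Genus

set_option autoImplicit false

open scoped MatrixGroups
open ModularGroup CongruenceSubgroup Module
open ModularCurve (dedekindPsi nuTwo nuThree cuspCount genusFormula)
open Fermat.Agent.H45

namespace Fermat.Agent.H77.FieldGen

variable (F : Type*) [Field F]

theorem finite_P1' (N : ℕ) [NeZero N] : Finite (SL(2, ℤ) ⧸ Gamma0 N) := by
  have h : (Gamma0 N).index ≠ 0 := Subgroup.FiniteIndex.index_ne_zero
  exact Nat.finite_of_card_ne_zero h

theorem neg_one_mem_Gamma0' (N : ℕ) : (-1 : SL(2, ℤ)) ∈ Gamma0 N := by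
  rw [Gamma0_mem]; simp

instance moduleFinite_smallHoms (N : ℕ) [NeZero N] : Module.Finite F (smallHoms (Gamma0 N) F) := by
  have := finite_P1' N
  exact (main_bound F (neg_one_mem_Gamma0' N)).1

/-- Orbit form of the upper bound. -/
theorem finrank_smallHoms_add_le (N : ℕ) [NeZero N] :
    finrank F (smallHoms (Gamma0 N) F) + orbS N + orbST N + cuspCount N ≤ dedekindPsi N + 2 := by
  have := finite_P1' N
  have h := (main_bound F (neg_one_mem_Gamma0' N)).2
  rw [← natCard_TOrbits N, ← natCard_P1 N]
  exact h

/-- Over any field, the space of homomorphisms `Γ₀(N) → F` killing parabolic and elliptic elements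
has dimension at most `2 g`. -/
theorem finrank_smallHoms_le (N : ℕ) [NeZero N] :
    (finrank F (smallHoms (Gamma0 N) F) : ℚ) ≤ 2 * genusFormula N := by
  have h := finrank_smallHoms_add_le F N
  rw [two_mul_genusFormula]
  have h' : (finrank F (smallHoms (Gamma0 N) F) : ℚ) + orbS N + orbST N
      + cuspCount N ≤ dedekindPsi N + 2 := by exact_mod_cast h
  linarith

end Fermat.Agent.H77.FieldGen
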