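import Mathlib

/-!
Primitives of holomorphic functions on the upper half plane with exponential decay on vertical
strips, and their boundary values at cusps (periods).
-/

set_option autoImplicit false

open UpperHalfPlane Filter Topology MeasureTheory Set
open scoped MatrixGroups ModularForm Manifold

noncomputable section

namespace Fermat.Agent.H22

/-- `F` is a primitive of `h` on the upper half plane. -/
def IsPrim (F h : ℍ → ℂ) : Prop :=
  ∀ τ : ℍ, HasDerivAt (F ∘ ofComplex) (h τ) (τ : ℂ)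

/-- Exponential decay in vertical strips. -/
def SDecay (h : ℍ → ℂ) : Prop :=
  ∀ R : ℝ, ∃ c > 0, ∃ C A : ℝ, ∀ τ : ℍ, |τ.re| ≤ R → A ≤ τ.im → ‖h τ‖ ≤ C * Real.exp (-c * τ.im)

/-- The function tends to zero along every vertical line. -/
def VZero (F : ℍ → ℂ) : Prop :=
  ∀ x : ℝ, Tendsto (fun y : ℝ => F (ofComplex (x + y * Complex.I))) atTop (𝓝 0)

section IsPrim

lemma isPrim_iff {F h : ℍ → ℂ} :
    IsPrim F h ↔ ∀ z : ℂ, 0 < z.im → HasDerivAt (F ∘ ofComplex) ((h ∘ ofComplex) z) z := by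
  constructor
  · intro H z hz
    have := H ⟨z, hz⟩
    simpa [Function.comp, ofComplex_apply_of_im_pos hz] using this
  · intro H τ
    have := H τ τ.im_pos
    simpa [Function.comp, ofComplex_apply] using this

lemma IsPrim.add {F G h k : ℍ → ℂ} (hF : IsPrim F h) (hG : IsPrim G k) : IsPrim (F + G) (h + k) :=
  fun τ => (hF τ).add (hG τ)

lemma IsPrim.neg {F h : ℍ → ℂ} (hF : IsPrim F h) : IsPrim (-F) (-h) :=
  fun τ => (hF τ).neg

lemma IsPrim.sub {F G h k : ℍ → ℂ} (hF : IsPrim F h) (hG : IsPrim G k) : IsPrim (F - G) (h - k) :=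
  fun τ => (hF τ).sub (hG τ)

lemma IsPrim.smul {F h : ℍ → ℂ} (hF : IsPrim F h) (c : ℂ) : IsPrim (c • F) (c • h) :=
  fun τ => (hF τ).const_smul c

lemma IsPrim.sub_const {F h : ℍ → ℂ} (hF : IsPrim F h) (c : ℂ) :
    IsPrim (fun τ => F τ - c) h :=
  fun τ => (hF τ).sub_const c

lemma isPrim_zero : IsPrim (0 : ℍ → ℂ) 0 := fun τ => hasDerivAt_const (τ : ℂ) (0 : ℂ)

/-- A primitive of zero is constant. -/
lemma IsPrim.const_of_zero {F : ℍ → ℂ} (hF : IsPrim F 0) (τ σ : ℍ) : F τ = F σ := by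
  have hopen : IsOpen {z : ℂ | 0 < z.im} := isOpen_upperHalfPlaneSet
  have hconv : Convex ℝ {z : ℂ | 0 < z.im} := convex_halfSpace_im_gt 0
  have hconn : IsPreconnected {z : ℂ | 0 < z.im} := hconv.isPreconnected
  rw [isPrim_iff] at hF
  have hd : DifferentiableOn ℂ (F ∘ ofComplex) {z : ℂ | 0 < z.im} :=
    fun z hz => (hF z hz).differentiableAt.differentiableWithinAt
  have h0 : EqOn (deriv (F ∘ ofComplex)) 0 {z : ℂ | 0 < z.im} := by
    intro z hz
    have := (hF z hz).deriv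
    simpa using this
  have := hopen.is_const_of_deriv_eq_zero hconn hd h0 τ.im_pos σ.im_pos
  simpa [Function.comp, ofComplex_apply] using this

lemma IsPrim.unique_of_vzero {F G h : ℍ → ℂ} (hF : IsPrim F h) (hG : IsPrim G h)
    (hF0 : VZero F) (hG0 : VZero G) : F = G := by
  have hd : IsPrim (F - G) 0 := by simpa using hF.sub hG
  funext τ
  have hc : ∀ y : ℝ, F (ofComplex ((0:ℝ) + y * Complex.I)) - G (ofComplex ((0:ℝ) + y * Complex.I))
      = F τ - G τ := fun y => hd.const_of_zero _ _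
  have h1 := (hF0 0).sub (hG0 0)
  simp only [hc, sub_zero] at h1
  have := tendsto_nhds_unique h1 tendsto_const_nhds
  exact sub_eq_zero.mp this.symm

/-- Existence of a primitive. -/
lemma exists_isPrim {h : ℍ → ℂ} (hh : MDifferentiable 𝓘(ℂ) 𝓘(ℂ) h) : ∃ F, IsPrim F h := by
  rw [UpperHalfPlane.mdifferentiable_iff] at hh
  have hconv : Convex ℝ {z : ℂ | 0 < z.im} := convex_halfSpace_im_gt 0
  have hopen : IsOpen {z : ℂ | 0 < z.im} := isOpen_upperHalfPlaneSet
  have hder : ∀ x ∈ {z : ℂ | 0 < z.im}, HasFDerivWithinAt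
      (fun z => ((h ∘ ofComplex) z) • (1 : ℂ →L[ℂ] ℂ))
      ((((ContinuousLinearMap.toSpanSingleton ℂ (deriv (h ∘ ofComplex) x)).restrictScalars ℝ)).smulRight
        (1 : ℂ →L[ℂ] ℂ))
      {z : ℂ | 0 < z.im} x := by
    intro x hx
    have h1 : HasDerivAt (h ∘ ofComplex) (deriv (h ∘ ofComplex) x) x :=
      ((hh x hx).differentiableAt (hopen.mem_nhds hx)).hasDerivAt
    have h2 : HasFDerivAt (h ∘ ofComplex)
      ((ContinuousLinearMap.toSpanSingleton ℂ (deriv (h ∘ ofComplex) x)).restrictScalars ℝ) x :=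
      h1.hasFDerivAt.restrictScalars ℝ
    exact (h2.smul_const (1 : ℂ →L[ℂ] ℂ)).hasFDerivWithinAt
  obtain ⟨f, hf⟩ := hconv.exists_forall_hasFDerivWithinAt_of_hasFDerivWithinAt_symmetric
    hder (by
      intro a _ x _ y _
      simp
      ring)
  refine ⟨fun τ => f τ, fun τ => ?_⟩
  have h1 : HasFDerivAt f (((h ∘ ofComplex) τ) • (1 : ℂ →L[ℂ] ℂ)) (τ : ℂ) :=
    (hf τ τ.im_pos).hasFDerivAt (hopen.mem_nhds τ.im_pos)
  have h2 : HasDerivAt f (h τ) (τ : ℂ) := by
    have := h1.hasDerivAt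
    simpa [Function.comp, ofComplex_apply] using this
  refine h2.congr_of_eventuallyEq ?_
  filter_upwards [hopen.mem_nhds τ.im_pos] with z hz
  simp [Function.comp, ofComplex_apply_of_im_pos hz]

end IsPrim

section SDecay

lemma SDecay.zero : SDecay 0 := fun R => ⟨1, one_pos, 0, 0, fun τ _ _ => by simp⟩

lemma SDecay.add {h k : ℍ → ℂ} (hh : SDecay h) (hk : SDecay k) : SDecay (h + k) := by
  intro R
  obtain ⟨c, hc, C, A, H⟩ := hh R
  obtain ⟨c', hc', C', A', H'⟩ := hk R
  refine ⟨min c c', lt_min hc hc', |C| + |C'|, max A A', fun τ hτ hA => ?_⟩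
  have h1 := H τ hτ ((le_max_left _ _).trans hA)
  have h2 := H' τ hτ ((le_max_right _ _).trans hA)
  have hy := τ.im_pos
  have e1 : Real.exp (-c * τ.im) ≤ Real.exp (-(min c c') * τ.im) := by
    apply Real.exp_le_exp.mpr
    have := min_le_left c c'
    nlinarith
  have e2 : Real.exp (-c' * τ.im) ≤ Real.exp (-(min c c') * τ.im) := by
    apply Real.exp_le_exp.mpr
    have := min_le_right c c'
    nlinarith
  calc ‖(h + k) τ‖ ≤ ‖h τ‖ + ‖k τ‖ := norm_add_le _ _
    _ ≤ C * Real.exp (-c * τ.im) + C' * Real.exp (-c' * τ.im) := add_le_add h1 h2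
    _ ≤ |C| * Real.exp (-c * τ.im) + |C'| * Real.exp (-c' * τ.im) := by
        gcongr <;> exact le_abs_self _
    _ ≤ |C| * Real.exp (-(min c c') * τ.im) + |C'| * Real.exp (-(min c c') * τ.im) := by
        gcongr
    _ = _ := by ring

lemma SDecay.smul {h : ℍ → ℂ} (hh : SDecay h) (a : ℂ) : SDecay (a • h) := by
  intro R
  obtain ⟨c, hc, C, A, H⟩ := hh R
  refine ⟨c, hc, ‖a‖ * C, A, fun τ hτ hA => ?_⟩
  have := H τ hτ hA
  calc ‖(a • h) τ‖ = ‖a‖ * ‖h τ‖ := by simp
    _ ≤ ‖a‖ * (C * Real.exp (-c * τ.im)) := by gcongr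
    _ = _ := by ring

lemma SDecay.coe_mul {h : ℍ → ℂ} (hh : SDecay h) : SDecay (fun τ => (τ : ℂ) * h τ) := by
  intro R
  obtain ⟨c, hc, C, A, H⟩ := hh R
  refine ⟨c / 2, by positivity, (|R| + 2 / c) * |C|, A, fun τ hτ hA => ?_⟩
  have h1 := H τ hτ hA
  have hy := τ.im_pos
  have hn : ‖(τ : ℂ)‖ ≤ |R| + τ.im := by
    calc ‖(τ : ℂ)‖ ≤ |(τ : ℂ).re| + |(τ : ℂ).im| := Complex.norm_le_abs_re_add_abs_im _
      _ ≤ |R| + τ.im := by
        have e1 : |(τ : ℂ).re| ≤ |R| := hτ.trans (le_abs_self R)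
        have e2 : |(τ : ℂ).im| = τ.im := abs_of_pos hy
        rw [e2]; linarith
  have he1 : (1:ℝ) ≤ Real.exp (c / 2 * τ.im) := Real.one_le_exp (by positivity)
  have he2 : τ.im ≤ 2 / c * Real.exp (c / 2 * τ.im) := by
    have := Real.add_one_le_exp (c / 2 * τ.im)
    rw [div_mul_eq_mul_div, le_div_iff₀ hc]
    nlinarith
  have he3 : |R| + τ.im ≤ (|R| + 2 / c) * Real.exp (c / 2 * τ.im) := by
    rw [add_mul]
    gcongr
    exact le_mul_of_one_le_right (abs_nonneg R) he1
  calc ‖(τ : ℂ) * h τ‖ = ‖(τ : ℂ)‖ * ‖h τ‖ := norm_mul _ _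
    _ ≤ ((|R| + 2 / c) * Real.exp (c / 2 * τ.im)) * (|C| * Real.exp (-c * τ.im)) := by
        gcongr
        · exact hn.trans he3
        · exact h1.trans (by gcongr; exact le_abs_self C)
    _ = (|R| + 2 / c) * |C| * (Real.exp (c / 2 * τ.im) * Real.exp (-c * τ.im)) := by ring
    _ = (|R| + 2 / c) * |C| * Real.exp (-(c/2) * τ.im) := by
        rw [← Real.exp_add]; ring_nf

end SDecay

section Exists

lemma ofComplex_line (x y : ℝ) (hy : 0 < y) :
    (ofComplex (x + y * Complex.I)).re = x ∧ (ofComplex (x + y * Complex.I)).im = y := by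
  have h0 : 0 < ((x : ℂ) + y * Complex.I).im := by simpa using hy
  rw [ofComplex_apply_of_im_pos h0]
  constructor
  · simp [UpperHalfPlane.re]
  · simp [UpperHalfPlane.im]

lemma coe_ofComplex_line (x y : ℝ) (hy : 0 < y) :
    ((ofComplex (x + y * Complex.I) : ℍ) : ℂ) = x + y * Complex.I := by
  have h0 : 0 < ((x : ℂ) + y * Complex.I).im := by simpa using hy
  rw [ofComplex_apply_of_im_pos h0]

lemma IsPrim.hasDerivAt_line {F h : ℍ → ℂ} (hF : IsPrim F h) (x : ℝ) {y : ℝ} (hy : 0 < y) :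
    HasDerivAt (fun y : ℝ => F (ofComplex (x + y * Complex.I)))
      (Complex.I * h (ofComplex (x + y * Complex.I))) y := by
  have h1 := hF (ofComplex (x + y * Complex.I))
  rw [coe_ofComplex_line x y hy] at h1
  have h2 : HasDerivAt (fun y : ℝ => (x : ℂ) + y * Complex.I) Complex.I y := by
    simpa using ((hasDerivAt_id y).ofReal_comp.mul_const Complex.I).const_add (x : ℂ)
  have := h1.comp y h2
  simpa [Function.comp_def, mul_comm] using this

lemma continuousOn_line {h : ℍ → ℂ} (hh : MDifferentiable 𝓘(ℂ) 𝓘(ℂ) h) (x : ℝ) :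
    ContinuousOn (fun y : ℝ => h (ofComplex (x + y * Complex.I))) (Ioi 0) := by
  rw [UpperHalfPlane.mdifferentiable_iff] at hh
  have h1 := hh.continuousOn
  have h2 : ContinuousOn (fun y : ℝ => (x : ℂ) + y * Complex.I) (Ioi 0) := by fun_prop
  exact h1.comp h2 (fun y hy => by simpa using hy)

lemma integrableOn_line {h : ℍ → ℂ} (hh : MDifferentiable 𝓘(ℂ) 𝓘(ℂ) h) (hd : SDecay h) (x : ℝ)
    {a : ℝ} (ha : 0 < a) :
    IntegrableOn (fun y : ℝ => Complex.I * h (ofComplex (x + y * Complex.I))) (Ioi a) := by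
  obtain ⟨c, hc, C, A, H⟩ := hd |x|
  set B := max A a + 1 with hB
  have hBA : A ≤ B := by have := le_max_left A a; linarith
  have hBa : a ≤ B := by have := le_max_right A a; linarith
  have hcont : ContinuousOn (fun y : ℝ => Complex.I * h (ofComplex (x + y * Complex.I))) (Ioi 0) :=
    continuousOn_const.mul (continuousOn_line hh x)
  have h1 : IntegrableOn (fun y : ℝ => Complex.I * h (ofComplex (x + y * Complex.I))) (Ioc a B) := by
    refine ((hcont.mono ?_).integrableOn_Icc (μ := volume)).mono_set Ioc_subset_Icc_self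
    intro y hy
    exact lt_of_lt_of_le ha hy.1
  have h2 : IntegrableOn (fun y : ℝ => Complex.I * h (ofComplex (x + y * Complex.I))) (Ioi B) := by
    have hexp : IntegrableOn (fun y : ℝ => C * Real.exp (-c * y)) (Ioi B) :=
      (integrableOn_exp_mul_Ioi (by linarith) B).const_mul C
    refine Integrable.mono' hexp ?_ ?_
    · exact (hcont.mono (fun y hy => lt_of_lt_of_le ha (hBa.trans (le_of_lt hy)))).aestronglyMeasurable
        measurableSet_Ioi
    · filter_upwards [ae_restrict_mem measurableSet_Ioi] with y hy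
      have hy' : B < y := hy
      have hy0 : 0 < y := by linarith
      obtain ⟨hre, him⟩ := ofComplex_line x y hy0
      have := H (ofComplex (x + y * Complex.I)) (by rw [hre]) (by rw [him]; linarith)
      rw [him] at this
      simpa using this
  rw [← Ioc_union_Ioi_eq_Ioi hBa]
  exact h1.union h2

lemma exists_isPrim_vzero {h : ℍ → ℂ} (hh : MDifferentiable 𝓘(ℂ) 𝓘(ℂ) h) (hd : SDecay h) :
    ∃ F, IsPrim F h ∧ VZero F := by
  obtain ⟨F, hF⟩ := exists_isPrim hh
  have hlim : ∀ x : ℝ, ∃ L : ℂ,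
      Tendsto (fun y : ℝ => F (ofComplex (x + y * Complex.I))) atTop (𝓝 L) := fun x =>
    ⟨_, tendsto_limUnder_of_hasDerivAt_of_integrableOn_Ioi (a := 1)
      (fun y hy => hF.hasDerivAt_line x (one_pos.trans hy)) (integrableOn_line hh hd x one_pos)⟩
  choose L hL using hlim
  have hLx : ∀ x, L x = L 0 := by
    intro x
    have h0 : Tendsto (fun y : ℝ => F (ofComplex (x + y * Complex.I)) -
        F (ofComplex ((0:ℝ) + y * Complex.I))) atTop (𝓝 (L x - L 0)) := (hL x).sub (hL 0)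
    have h1 : Tendsto (fun y : ℝ => F (ofComplex (x + y * Complex.I)) -
        F (ofComplex ((0:ℝ) + y * Complex.I))) atTop (𝓝 0) := by
      obtain ⟨c, hc, C, A, H⟩ := hd |x|
      have hb : Tendsto (fun y : ℝ => C * Real.exp (-c * y) * |x|) atTop (𝓝 0) := by
        have : Tendsto (fun y : ℝ => Real.exp (-c * y)) atTop (𝓝 0) := by
          refine Real.tendsto_exp_atBot.comp ?_
          exact tendsto_id.const_mul_atTop_of_neg (by linarith)
        simpa using (this.const_mul C).mul_const |x|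
      refine squeeze_zero_norm' ?_ hb
      filter_upwards [eventually_ge_atTop A, eventually_gt_atTop 0] with y hyA hy0
      have hconv : Convex ℝ {z : ℂ | |z.re| ≤ |x| ∧ z.im = y} := by
        have e : {z : ℂ | |z.re| ≤ |x| ∧ z.im = y} =
            (Complex.reLm ⁻¹' (Set.Icc (-|x|) |x|)) ∩ (Complex.imLm ⁻¹' {y}) := by
          ext z; simp [abs_le]
        rw [e]
        exact ((convex_Icc _ _).linear_preimage _).inter ((convex_singleton y).linear_preimage _)
      have hbd := hconv.norm_image_sub_le_of_norm_hasDerivWithin_le (𝕜 := ℂ)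
        (f := F ∘ ofComplex) (f' := h ∘ ofComplex) (C := C * Real.exp (-c * y))
        (fun z hz => ((isPrim_iff.mp hF) z (by rw [hz.2]; exact hy0)).hasDerivWithinAt)
        (fun z hz => by
          have hz0 : 0 < z.im := by rw [hz.2]; exact hy0
          have := H (ofComplex z) (by
            rw [ofComplex_apply_of_im_pos hz0]; exact hz.1) (by
            rw [ofComplex_apply_of_im_pos hz0]; exact hyA.trans (le_of_eq hz.2.symm))
          rw [ofComplex_apply_of_im_pos hz0] at this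
          simp only [Function.comp, ofComplex_apply_of_im_pos hz0]
          convert this using 3
          simp [UpperHalfPlane.im, hz.2])
        (x := ((0:ℝ) : ℂ) + y * Complex.I) (y := (x : ℂ) + y * Complex.I)
        (by simp) (by simp)
      refine hbd.trans (le_of_eq ?_)
      congr 1
      simp
    have := tendsto_nhds_unique h0 h1
    exact sub_eq_zero.mp this
  refine ⟨fun τ => F τ - L 0, hF.sub_const _, fun x => ?_⟩
  have := (hL x).sub_const (L 0)
  rwa [hLx x, sub_self] at this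

end Exists

section Moebius

/-- Chain rule for a Moebius substitution. -/
lemma IsPrim.comp_gl {F h : ℍ → ℂ} (hF : IsPrim F h) {g : GL (Fin 2) ℝ} (hg : 0 < g.val.det) :
    IsPrim (fun τ => F (g • τ)) (fun τ => h (g • τ) * (g.val.det / denom g τ ^ 2)) := by
  intro τ
  have h1 := (hasStrictDerivAt_smul hg τ).hasDerivAt
  have h2 := hF (g • τ)
  have h3 : HasDerivAt (F ∘ ofComplex) (h (g • τ))
      ((fun z ↦ ↑(g • ofComplex z) : ℂ → ℂ) τ) := by
    simpa [ofComplex_apply] using h2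
  have h4 := h3.comp (τ : ℂ) h1
  refine h4.congr_of_eventuallyEq ?_
  filter_upwards with z
  simp [Function.comp]

lemma IsPrim.comp_slash {F h : ℍ → ℂ} (hF : IsPrim F h) {g : GL (Fin 2) ℝ} (hg : 0 < g.det.val) :
    IsPrim (fun τ => F (g • τ)) (h ∣[(2 : ℤ)] g) := by
  have hg' : 0 < g.val.det := hg
  intro τ
  have h2 := hF.comp_gl hg' τ
  convert h2 using 1
  rw [ModularForm.slash_apply]
  have hσ : UpperHalfPlane.σ g = .refl ℝ ℂ := by rw [UpperHalfPlane.σ, if_pos hg]
  rw [hσ, abs_of_pos hg]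
  simp only [ContinuousAlgEquiv.refl_apply]
  rw [show (2:ℤ) - 1 = 1 by norm_num, zpow_one, zpow_neg, div_eq_mul_inv, mul_assoc]
  rfl

lemma IsPrim.comp_SL {F h : ℍ → ℂ} (hF : IsPrim F h) (g : SL(2, ℤ)) :
    IsPrim (fun τ => F (g • τ)) (h ∣[(2 : ℤ)] g) :=
  hF.comp_slash (g := Matrix.SpecialLinearGroup.mapGL ℝ g) (by simp)

lemma VZero.comp_upper {F : ℍ → ℂ} (hF : VZero F) {g : GL (Fin 2) ℝ} (h10 : g 1 0 = 0)
    (h00 : 0 < g 0 0) (h11 : 0 < g 1 1) : VZero (fun τ => F (g • τ)) := by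
  have hdet : 0 < g.det.val := by
    rw [Matrix.GeneralLinearGroup.val_det_apply, Matrix.det_fin_two, h10]
    simpa using mul_pos h00 h11
  intro x
  have h1 := hF ((g 0 0 * x + g 0 1) / g 1 1)
  have h2 : Tendsto (fun y : ℝ => (g 0 0 / g 1 1) * y) atTop atTop :=
    tendsto_id.const_mul_atTop (div_pos h00 h11)
  refine (h1.comp h2).congr' ?_
  filter_upwards [eventually_gt_atTop 0] with y hy
  simp only [Function.comp]
  congr 1
  apply UpperHalfPlane.ext
  rw [coe_smul_of_det_pos hdet, coe_ofComplex_line x y hy,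
    coe_ofComplex_line _ _ (by positivity)]
  have h11' : ((g 1 1 : ℝ) : ℂ) ≠ 0 := by exact_mod_cast h11.ne'
  simp only [num, denom, h10, Complex.ofReal_zero, zero_mul, zero_add, Complex.ofReal_div,
    Complex.ofReal_add, Complex.ofReal_mul]
  field_simp
  ring

lemma VZero.comp_T {F : ℍ → ℂ} (hF : VZero F) : VZero (fun τ => F (ModularGroup.T • τ)) := by
  refine hF.comp_upper (g := Matrix.SpecialLinearGroup.mapGL ℝ ModularGroup.T) ?_ ?_ ?_ <;>
  simp [ModularGroup.T]

end Moebius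

section Good

/-- Holomorphic functions all of whose weight 2 translates decay exponentially in strips. -/
structure Good (h : ℍ → ℂ) : Prop where
  hol : MDifferentiable 𝓘(ℂ) 𝓘(ℂ) h
  dec : ∀ g : SL(2, ℤ), SDecay (h ∣[(2 : ℤ)] g)

lemma Good.sdecay {h : ℍ → ℂ} (hh : Good h) : SDecay h := by
  simpa using hh.dec 1

lemma Good.zero : Good 0 := ⟨mdifferentiable_const, fun g => by simpa using SDecay.zero⟩

lemma Good.add {h k : ℍ → ℂ} (hh : Good h) (hk : Good k) : Good (h + k) :=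
  ⟨hh.hol.add hk.hol, fun g => by
    rw [SlashAction.add_slash]; exact (hh.dec g).add (hk.dec g)⟩

lemma Good.smul {h : ℍ → ℂ} (hh : Good h) (a : ℂ) : Good (a • h) :=
  ⟨hh.hol.const_smul a, fun g => by
    rw [ModularForm.SL_smul_slash]; exact (hh.dec g).smul a⟩

lemma Good.slash {h : ℍ → ℂ} (hh : Good h) (g : SL(2, ℤ)) : Good (h ∣[(2 : ℤ)] g) :=
  ⟨hh.hol.slash 2 _, fun g' => by
    rw [← SlashAction.slash_mul]; exact hh.dec _⟩

open Classical in
/-- The primitive vanishing at `i∞` (along vertical lines). -/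
def prim (h : ℍ → ℂ) : ℍ → ℂ :=
  if H : ∃ F, IsPrim F h ∧ VZero F then H.choose else 0

lemma Good.exists_prim {h : ℍ → ℂ} (hh : Good h) : ∃ F, IsPrim F h ∧ VZero F :=
  exists_isPrim_vzero hh.hol hh.sdecay

lemma prim_eq {F h : ℍ → ℂ} (hF : IsPrim F h) (h0 : VZero F) : prim h = F := by
  classical
  have H : ∃ F, IsPrim F h ∧ VZero F := ⟨F, hF, h0⟩
  rw [prim, dif_pos H]
  exact H.choose_spec.1.unique_of_vzero hF H.choose_spec.2 h0

lemma Good.isPrim_prim {h : ℍ → ℂ} (hh : Good h) : IsPrim (prim h) h := by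
  obtain ⟨F, hF, h0⟩ := hh.exists_prim
  rwa [prim_eq hF h0]

lemma Good.vzero_prim {h : ℍ → ℂ} (hh : Good h) : VZero (prim h) := by
  obtain ⟨F, hF, h0⟩ := hh.exists_prim
  rwa [prim_eq hF h0]

lemma VZero.add {F G : ℍ → ℂ} (hF : VZero F) (hG : VZero G) : VZero (F + G) := fun x => by
  simpa using (hF x).add (hG x)

lemma VZero.smul {F : ℍ → ℂ} (hF : VZero F) (c : ℂ) : VZero (c • F) := fun x => by
  simpa using (hF x).const_mul c

lemma vzero_zero : VZero (0 : ℍ → ℂ) := fun x => by simp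

lemma prim_zero : prim 0 = 0 := prim_eq isPrim_zero vzero_zero

lemma prim_add {h k : ℍ → ℂ} (hh : Good h) (hk : Good k) : prim (h + k) = prim h + prim k :=
  prim_eq (hh.isPrim_prim.add hk.isPrim_prim) (hh.vzero_prim.add hk.vzero_prim)

lemma prim_smul {h : ℍ → ℂ} (hh : Good h) (c : ℂ) : prim (c • h) = c • prim h :=
  prim_eq (hh.isPrim_prim.smul c) (hh.vzero_prim.smul c)

/-- The period of `h` from `∞` to `g ∞`. -/
def Phi (h : ℍ → ℂ) (g : SL(2, ℤ)) : ℂ :=
  prim h (g • UpperHalfPlane.I) - prim (h ∣[(2 : ℤ)] g) UpperHalfPlane.I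

lemma Good.prim_smul_eq {h : ℍ → ℂ} (hh : Good h) (g : SL(2, ℤ)) (τ : ℍ) :
    prim h (g • τ) = prim (h ∣[(2 : ℤ)] g) τ + Phi h g := by
  have h1 := hh.isPrim_prim.comp_SL g
  have h2 := (hh.slash g).isPrim_prim
  have h3 := h1.sub h2
  rw [sub_self] at h3
  have h4 := h3.const_of_zero τ UpperHalfPlane.I
  simp only [Pi.sub_apply] at h4
  rw [Phi]
  linear_combination h4

lemma Phi_eq_of {h : ℍ → ℂ} (hh : Good h) (g : SL(2, ℤ)) {τ : ℍ} {c : ℂ}
    (H : prim h (g • τ) = prim (h ∣[(2 : ℤ)] g) τ + c) : Phi h g = c := by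
  rw [hh.prim_smul_eq] at H
  exact add_left_cancel H

lemma Phi_zero (g : SL(2, ℤ)) : Phi 0 g = 0 := by
  simp [Phi, prim_zero]

lemma Phi_add {h k : ℍ → ℂ} (hh : Good h) (hk : Good k) (g : SL(2, ℤ)) :
    Phi (h + k) g = Phi h g + Phi k g := by
  simp only [Phi, SlashAction.add_slash, prim_add hh hk, prim_add (hh.slash g) (hk.slash g),
    Pi.add_apply]
  ring

lemma Phi_smul {h : ℍ → ℂ} (hh : Good h) (c : ℂ) (g : SL(2, ℤ)) :
    Phi (c • h) g = c * Phi h g := by
  simp only [Phi, ModularForm.SL_smul_slash, prim_smul hh, prim_smul (hh.slash g),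
    Pi.smul_apply, smul_eq_mul]
  ring

lemma Phi_one {h : ℍ → ℂ} : Phi h 1 = 0 := by
  simp [Phi]

lemma Phi_mul {h : ℍ → ℂ} (hh : Good h) (g g' : SL(2, ℤ)) :
    Phi h (g * g') = Phi h g + Phi (h ∣[(2 : ℤ)] g) g' := by
  apply Phi_eq_of hh (τ := UpperHalfPlane.I)
  rw [mul_smul, hh.prim_smul_eq, (hh.slash g).prim_smul_eq, SlashAction.slash_mul]
  ring

lemma Phi_T {h : ℍ → ℂ} (hh : Good h) : Phi h ModularGroup.T = 0 := by
  apply Phi_eq_of hh (τ := UpperHalfPlane.I)
  rw [add_zero]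
  have := prim_eq (hh.isPrim_prim.comp_SL ModularGroup.T) hh.vzero_prim.comp_T
  rw [this]

lemma Good.tendsto_phi {h : ℍ → ℂ} (hh : Good h) (g : SL(2, ℤ)) (x : ℝ) :
    Tendsto (fun y : ℝ => prim h (g • ofComplex (x + y * Complex.I))) atTop (𝓝 (Phi h g)) := by
  simp only [hh.prim_smul_eq]
  simpa using ((hh.slash g).vzero_prim x).add_const (Phi h g)

end Good

end Fermat.Agent.H22
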