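import Mathlib

/-!
Hecke operators on `Hom(Γ, A)` for `Γ` a subgroup of `SL(2, ℤ)` (transfer operators).
-/

set_option autoImplicit false

open Matrix CongruenceSubgroup
open scoped MatrixGroups

namespace Fermat.Agent.H8

/-- A finite family of integral matrices `mat i` with `mat i * Γ ⊆ ⋃ Γ * mat j`. -/
structure HeckeFamily (Γ : Subgroup SL(2, ℤ)) (ι : Type) where
  mat : ι → Matrix (Fin 2) (Fin 2) ℤ
  det_ne : ∀ i, (mat i).det ≠ 0
  ex : ∀ (γ : Γ) (i : ι), ∃ (j : ι) (δ : Γ),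
    mat i * ((γ : SL(2, ℤ)) : Matrix (Fin 2) (Fin 2) ℤ) = ((δ : SL(2, ℤ)) : Matrix (Fin 2) (Fin 2) ℤ) * mat j
  uniq : ∀ (i j : ι) (δ : Γ), mat i = ((δ : SL(2, ℤ)) : Matrix (Fin 2) (Fin 2) ℤ) * mat j → i = j

theorem mat_cancel {A B C : Matrix (Fin 2) (Fin 2) ℤ} (hC : C.det ≠ 0) (h : A * C = B * C) : A = B := by
  have h1 : A * C * C.adjugate = B * C * C.adjugate := by rw [h]
  rw [Matrix.mul_assoc, Matrix.mul_assoc, Matrix.mul_adjugate, Matrix.mul_smul, Matrix.mul_smul,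
    Matrix.mul_one, Matrix.mul_one] at h1
  exact smul_right_injective _ hC h1

namespace HeckeFamily

variable {Γ : Subgroup SL(2, ℤ)} {ι : Type} (H : HeckeFamily Γ ι)

theorem unique {i : ι} {γ : Γ} {j j' : ι} {δ δ' : Γ}
    (h : H.mat i * ((γ : SL(2, ℤ)) : Matrix (Fin 2) (Fin 2) ℤ) = ((δ : SL(2, ℤ)) : Matrix (Fin 2) (Fin 2) ℤ) * H.mat j)
    (h' : H.mat i * ((γ : SL(2, ℤ)) : Matrix (Fin 2) (Fin 2) ℤ) = ((δ' : SL(2, ℤ)) : Matrix (Fin 2) (Fin 2) ℤ) * H.mat j') :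
    j = j' ∧ δ = δ' := by
  have h1 : j = j' := by
    apply H.uniq j j' (δ⁻¹ * δ')
    have h2 : (((δ⁻¹ : Γ) : SL(2, ℤ)) : Matrix (Fin 2) (Fin 2) ℤ) * (((δ : SL(2, ℤ)) : Matrix (Fin 2) (Fin 2) ℤ)) = 1 := by
      rw [← Matrix.SpecialLinearGroup.coe_mul, ← Subgroup.coe_mul, inv_mul_cancel]
      simp
    have h3 : (((δ⁻¹ * δ' : Γ) : SL(2, ℤ)) : Matrix (Fin 2) (Fin 2) ℤ) = (((δ⁻¹ : Γ) : SL(2, ℤ)) : Matrix (Fin 2) (Fin 2) ℤ) *
      (((δ' : SL(2, ℤ)) : Matrix (Fin 2) (Fin 2) ℤ)) := by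
      rw [← Matrix.SpecialLinearGroup.coe_mul, ← Subgroup.coe_mul]
    rw [h3, Matrix.mul_assoc, ← h', h, ← Matrix.mul_assoc, h2, Matrix.one_mul]
  subst h1
  refine ⟨rfl, ?_⟩
  have h2 := mat_cancel (H.det_ne j) (h.symm.trans h')
  apply Subtype.ext
  apply Subtype.ext
  exact h2

/-- the permutation of cosets. -/
noncomputable def perm (γ : Γ) (i : ι) : ι := (H.ex γ i).choose

/-- the cocycle. -/
noncomputable def coc (γ : Γ) (i : ι) : Γ := (H.ex γ i).choose_spec.choose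

theorem spec (γ : Γ) (i : ι) :
    H.mat i * ((γ : SL(2, ℤ)) : Matrix (Fin 2) (Fin 2) ℤ) =
      ((H.coc γ i : SL(2, ℤ)) : Matrix (Fin 2) (Fin 2) ℤ) * H.mat (H.perm γ i) :=
  (H.ex γ i).choose_spec.choose_spec

theorem mul_aux (γ δ : Γ) (i : ι) :
    H.perm (γ * δ) i = H.perm δ (H.perm γ i) ∧
      H.coc (γ * δ) i = H.coc γ i * H.coc δ (H.perm γ i) := by
  apply H.unique (H.spec (γ * δ) i)
  rw [Subgroup.coe_mul, Matrix.SpecialLinearGroup.coe_mul, ← Matrix.mul_assoc, H.spec γ i,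
    Matrix.mul_assoc, H.spec δ, Subgroup.coe_mul, Matrix.SpecialLinearGroup.coe_mul, Matrix.mul_assoc]

theorem one_aux (i : ι) : H.perm 1 i = i ∧ H.coc 1 i = 1 := by
  apply H.unique (H.spec 1 i)
  simp

theorem perm_mul (γ δ : Γ) (i : ι) : H.perm (γ * δ) i = H.perm δ (H.perm γ i) := (H.mul_aux γ δ i).1

theorem coc_mul (γ δ : Γ) (i : ι) : H.coc (γ * δ) i = H.coc γ i * H.coc δ (H.perm γ i) :=
  (H.mul_aux γ δ i).2

theorem perm_one (i : ι) : H.perm 1 i = i := (H.one_aux i).1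

/-- the permutation as an equivalence. -/
noncomputable def permEquiv (γ : Γ) : ι ≃ ι where
  toFun := H.perm γ
  invFun := H.perm γ⁻¹
  left_inv i := by rw [← H.perm_mul, mul_inv_cancel, H.perm_one]
  right_inv i := by rw [← H.perm_mul, inv_mul_cancel, H.perm_one]

theorem sum_perm [Fintype ι] {A : Type*} [AddCommMonoid A] (γ : Γ) (x : ι → A) :
    ∑ i, x (H.perm γ i) = ∑ i, x i :=
  Equiv.sum_comp (H.permEquiv γ) x

variable [Fintype ι]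

/-- The Hecke operator on `Hom(Γ, A)`. -/
noncomputable def op (A : Type*) [AddCommGroup A] : (Additive Γ →+ A) →+ (Additive Γ →+ A) where
  toFun φ :=
    { toFun := fun γ => ∑ i, φ (Additive.ofMul (H.coc (Additive.toMul γ) i))
      map_zero' := by
        have : ∀ i, H.coc 1 i = 1 := fun i => (H.one_aux i).2
        simp [this]
      map_add' := fun γ δ => by
        simp only [toMul_add, H.coc_mul, ofMul_mul, map_add, Finset.sum_add_distrib]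
        congr 1
        exact H.sum_perm (Additive.toMul γ) (fun i => φ (Additive.ofMul (H.coc (Additive.toMul δ) i))) }
  map_zero' := by ext; simp
  map_add' φ ψ := by
    ext γ
    simp [Finset.sum_add_distrib]

theorem op_apply {A : Type*} [AddCommGroup A] (φ : Additive Γ →+ A) (γ : Γ) :
    H.op A φ (Additive.ofMul γ) = ∑ i, φ (Additive.ofMul (H.coc γ i)) := rfl

theorem op_comp {A B : Type*} [AddCommGroup A] [AddCommGroup B] (h : A →+ B) (φ : Additive Γ →+ A) :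
    H.op B (h.comp φ) = h.comp (H.op A φ) := by
  refine AddMonoidHom.ext fun γ => ?_
  obtain ⟨γ, rfl⟩ := Additive.ofMul.surjective γ
  rw [AddMonoidHom.comp_apply, op_apply, op_apply, map_sum]
  rfl

end HeckeFamily

section families

variable (N : ℕ)

theorem gamma0_mem_iff (A : SL(2, ℤ)) : A ∈ Gamma0 N ↔ (N : ℤ) ∣ A 1 0 := by
  rw [Gamma0_mem]
  exact ZMod.intCast_zmod_eq_zero_iff_dvd _ _

/-- matrices `(1 j; 0 q)`. -/
def matU (q : ℕ) (j : Fin q) : Matrix (Fin 2) (Fin 2) ℤ := !![1, (j : ℕ); 0, (q : ℤ)]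

/-- the matrix `(q 0; 0 1)`. -/
def matD (q : ℕ) : Matrix (Fin 2) (Fin 2) ℤ := !![(q : ℤ), 0; 0, 1]

theorem exists_residue (q : ℕ) (hq : q.Prime) (u v : ℤ) (hu : ¬ (q : ℤ) ∣ u) :
    ∃ j : Fin q, (q : ℤ) ∣ v - u * (j : ℕ) := by
  have hq' : Prime (q : ℤ) := Nat.prime_iff_prime_int.mp hq
  have hcop : IsCoprime (q : ℤ) u := (Prime.coprime_iff_not_dvd hq').mpr hu
  obtain ⟨a, b, hab⟩ := hcop
  have hqpos : (0 : ℤ) < q := by exact_mod_cast hq.pos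
  have h0 : 0 ≤ (b * v) % q := Int.emod_nonneg _ hqpos.ne'
  have h1 : (b * v) % q < q := Int.emod_lt_of_pos _ hqpos
  refine ⟨⟨((b * v) % q).toNat, by omega⟩, ?_⟩
  have h2 : ((((b * v) % q).toNat : ℕ) : ℤ) = (b * v) % q := Int.toNat_of_nonneg h0
  have h3 : (b * v) % q = b * v - q * (b * v / q) := by
    have := Int.emod_add_mul_ediv (b * v) q
    linarith
  refine ⟨a * v + u * (b * v / q), ?_⟩
  show v - u * ((((b * v) % q).toNat : ℕ) : ℤ) = _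
  rw [h2, h3]
  linear_combination (-v) * hab

theorem det_of_mul_eq {A B X : Matrix (Fin 2) (Fin 2) ℤ} (γ : SL(2, ℤ)) {d : ℤ} (hd : d ≠ 0)
    (hA : A.det = d) (hB : B.det = d)
    (h : A * (γ : Matrix (Fin 2) (Fin 2) ℤ) = X * B) : X.det = 1 := by
  have h1 := congrArg Matrix.det h
  rw [Matrix.det_mul, Matrix.det_mul, hA, hB, γ.det_coe, mul_one] at h1
  have : d * (X.det - 1) = 0 := by linear_combination -h1
  rcases mul_eq_zero.mp this with h2 | h2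
  · exact absurd h2 hd
  · linarith

theorem ex_of_matrix {N : ℕ} {A B : Matrix (Fin 2) (Fin 2) ℤ} {d : ℤ} (hd : d ≠ 0)
    (hA : A.det = d) (hB : B.det = d) (γ : Gamma0 N) (X : Matrix (Fin 2) (Fin 2) ℤ)
    (hX : A * ((γ : SL(2, ℤ)) : Matrix (Fin 2) (Fin 2) ℤ) = X * B) (hN : (N : ℤ) ∣ X 1 0) :
    ∃ δ : Gamma0 N, A * ((γ : SL(2, ℤ)) : Matrix (Fin 2) (Fin 2) ℤ) = ((δ : SL(2, ℤ)) : Matrix (Fin 2) (Fin 2) ℤ) * B :=
  ⟨⟨⟨X, det_of_mul_eq (γ : SL(2, ℤ)) hd hA hB hX⟩, (gamma0_mem_iff N _).mpr hN⟩, hX⟩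

theorem det_matU (q : ℕ) (j : Fin q) : (matU q j).det = q := by
  simp [matU, Matrix.det_fin_two_of]

theorem det_matD (q : ℕ) : (matD q).det = q := by
  simp [matD, Matrix.det_fin_two_of]

theorem ex_UU {q : ℕ} (hq : q.Prime) (γ : Gamma0 N) (i : Fin q)
    (h : ¬ (q : ℤ) ∣ (γ : SL(2, ℤ)) 0 0 + (i : ℕ) * (γ : SL(2, ℤ)) 1 0) :
    ∃ (j : Fin q) (δ : Gamma0 N),
      matU q i * ((γ : SL(2, ℤ)) : Matrix (Fin 2) (Fin 2) ℤ) = ((δ : SL(2, ℤ)) : Matrix (Fin 2) (Fin 2) ℤ) * matU q j := by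
  have hq0 : (q : ℤ) ≠ 0 := by exact_mod_cast hq.ne_zero
  obtain ⟨j, y, hy⟩ := exists_residue q hq _ ((γ : SL(2, ℤ)) 0 1 + (i : ℕ) * (γ : SL(2, ℤ)) 1 1) h
  refine ⟨j, ex_of_matrix hq0 (det_matU q i) (det_matU q j) γ
    !![(γ : SL(2, ℤ)) 0 0 + (i : ℕ) * (γ : SL(2, ℤ)) 1 0, y;
      q * (γ : SL(2, ℤ)) 1 0, (γ : SL(2, ℤ)) 1 1 - (γ : SL(2, ℤ)) 1 0 * (j : ℕ)] ?_ ?_⟩
  · ext a b
    fin_cases a <;> fin_cases b <;> simp [matU, Matrix.mul_apply, Fin.sum_univ_two]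
    · linear_combination hy
    · ring
  · simpa using Dvd.dvd.mul_left ((gamma0_mem_iff N _).mp γ.2) _

theorem ex_UD {q : ℕ} (hq : q.Prime) (γ : Gamma0 N) (i : Fin q)
    (h : (q : ℤ) ∣ (γ : SL(2, ℤ)) 0 0 + (i : ℕ) * (γ : SL(2, ℤ)) 1 0) :
    ∃ (δ : Gamma0 N),
      matU q i * ((γ : SL(2, ℤ)) : Matrix (Fin 2) (Fin 2) ℤ) = ((δ : SL(2, ℤ)) : Matrix (Fin 2) (Fin 2) ℤ) * matD q := by
  have hq0 : (q : ℤ) ≠ 0 := by exact_mod_cast hq.ne_zero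
  obtain ⟨x, hx⟩ := h
  refine ex_of_matrix hq0 (det_matU q i) (det_matD q) γ
    !![x, (γ : SL(2, ℤ)) 0 1 + (i : ℕ) * (γ : SL(2, ℤ)) 1 1;
      (γ : SL(2, ℤ)) 1 0, q * (γ : SL(2, ℤ)) 1 1] ?_ ?_
  · ext a b
    fin_cases a <;> fin_cases b <;> simp [matU, matD, Matrix.mul_apply, Fin.sum_univ_two]
    · linear_combination hx
    · ring
  · simpa using ((gamma0_mem_iff N _).mp γ.2)

theorem ex_DU {q : ℕ} (hq : q.Prime) (γ : Gamma0 N) (h : ¬ (q : ℤ) ∣ (γ : SL(2, ℤ)) 1 0) :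
    ∃ (j : Fin q) (δ : Gamma0 N),
      matD q * ((γ : SL(2, ℤ)) : Matrix (Fin 2) (Fin 2) ℤ) = ((δ : SL(2, ℤ)) : Matrix (Fin 2) (Fin 2) ℤ) * matU q j := by
  have hq0 : (q : ℤ) ≠ 0 := by exact_mod_cast hq.ne_zero
  obtain ⟨j, y, hy⟩ := exists_residue q hq _ ((γ : SL(2, ℤ)) 1 1) h
  refine ⟨j, ex_of_matrix hq0 (det_matD q) (det_matU q j) γ
    !![q * (γ : SL(2, ℤ)) 0 0, (γ : SL(2, ℤ)) 0 1 - (γ : SL(2, ℤ)) 0 0 * (j : ℕ);
      (γ : SL(2, ℤ)) 1 0, y] ?_ ?_⟩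
  · ext a b
    fin_cases a <;> fin_cases b <;> simp [matU, matD, Matrix.mul_apply, Fin.sum_univ_two]
    · ring
    · linear_combination hy
  · simpa using ((gamma0_mem_iff N _).mp γ.2)

theorem ex_DD {q : ℕ} (hq : q.Prime) (hqN : ¬ q ∣ N) (γ : Gamma0 N) (h : (q : ℤ) ∣ (γ : SL(2, ℤ)) 1 0) :
    ∃ (δ : Gamma0 N),
      matD q * ((γ : SL(2, ℤ)) : Matrix (Fin 2) (Fin 2) ℤ) = ((δ : SL(2, ℤ)) : Matrix (Fin 2) (Fin 2) ℤ) * matD q := by
  have hq0 : (q : ℤ) ≠ 0 := by exact_mod_cast hq.ne_zero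
  obtain ⟨z, hz⟩ := h
  refine ex_of_matrix hq0 (det_matD q) (det_matD q) γ
    !![(γ : SL(2, ℤ)) 0 0, q * (γ : SL(2, ℤ)) 0 1; z, (γ : SL(2, ℤ)) 1 1] ?_ ?_
  · ext a b
    fin_cases a <;> fin_cases b <;> simp [matD, Matrix.mul_apply, Fin.sum_univ_two]
    · ring
    · linear_combination hz
  · have h1 : (N : ℤ) ∣ q * z := by rw [← hz]; exact (gamma0_mem_iff N _).mp γ.2
    have h2 : IsCoprime (N : ℤ) (q : ℤ) := by
      rw [Nat.isCoprime_iff_coprime]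
      exact ((Nat.Prime.coprime_iff_not_dvd hq).mpr hqN).symm
    simpa using h2.dvd_of_dvd_mul_left h1

theorem uniq_UU {q : ℕ} (i j : Fin q) (δ : Gamma0 N)
    (h : matU q i = ((δ : SL(2, ℤ)) : Matrix (Fin 2) (Fin 2) ℤ) * matU q j) : i = j := by
  have h00 := congrFun (congrFun h 0) 0
  have h01 := congrFun (congrFun h 0) 1
  simp [matU, Matrix.mul_apply, Fin.sum_univ_two] at h00 h01
  rw [← h00, one_mul] at h01
  have hi := i.2
  have hj := j.2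
  have h2 : (q : ℤ) ∣ ((i : ℕ) : ℤ) - ((j : ℕ) : ℤ) := ⟨(δ : SL(2, ℤ)) 0 1, by linear_combination h01⟩
  have h3 : ((i : ℕ) : ℤ) - ((j : ℕ) : ℤ) = 0 := by
    apply Int.eq_zero_of_abs_lt_dvd h2
    rw [abs_lt]; constructor <;> omega
  apply Fin.ext
  omega

theorem not_UD {q : ℕ} (hq : q.Prime) (i : Fin q) (δ : Gamma0 N)
    (h : matU q i = ((δ : SL(2, ℤ)) : Matrix (Fin 2) (Fin 2) ℤ) * matD q) : False := by
  have h00 := congrFun (congrFun h 0) 0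
  simp [matU, matD, Matrix.mul_apply, Fin.sum_univ_two] at h00
  have : (q : ℤ) ∣ 1 := ⟨(δ : SL(2, ℤ)) 0 0, by linear_combination h00⟩
  have h2 : q ∣ 1 := by exact_mod_cast this
  exact hq.one_lt.ne' (Nat.dvd_one.mp h2)

theorem not_DU {q : ℕ} (hq : q.Prime) (j : Fin q) (δ : Gamma0 N)
    (h : matD q = ((δ : SL(2, ℤ)) : Matrix (Fin 2) (Fin 2) ℤ) * matU q j) : False := by
  have h10 := congrFun (congrFun h 1) 0
  have h11 := congrFun (congrFun h 1) 1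
  simp [matU, matD, Matrix.mul_apply, Fin.sum_univ_two] at h10 h11
  rw [← h10] at h11
  have : (q : ℤ) ∣ 1 := ⟨(δ : SL(2, ℤ)) 1 1, by linear_combination h11⟩
  have h2 : q ∣ 1 := by exact_mod_cast this
  exact hq.one_lt.ne' (Nat.dvd_one.mp h2)

/-- The family defining `U_q`, `q ∣ N`. -/
def famU {q : ℕ} (hq : q.Prime) (hqN : q ∣ N) : HeckeFamily (Gamma0 N) (Fin q) where
  mat := matU q
  det_ne i := by rw [det_matU]; exact_mod_cast hq.ne_zero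
  ex γ i := by
    apply ex_UU N hq γ i
    intro h
    have h1 : (q : ℤ) ∣ (γ : SL(2, ℤ)) 1 0 := (Int.natCast_dvd_natCast.mpr hqN).trans ((gamma0_mem_iff N _).mp γ.2)
    have h2 : (q : ℤ) ∣ (γ : SL(2, ℤ)) 0 0 := (dvd_add_left (Dvd.dvd.mul_left h1 _)).mp h
    have h3 := (γ : SL(2, ℤ)).det_coe
    rw [Matrix.det_fin_two] at h3
    have h4 : (q : ℤ) ∣ 1 := by
      rw [← h3]
      exact dvd_sub (Dvd.dvd.mul_right h2 _) (Dvd.dvd.mul_left h1 _)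
    have h5 : q ∣ 1 := by exact_mod_cast h4
    exact hq.one_lt.ne' (Nat.dvd_one.mp h5)
  uniq i j δ h := uniq_UU N i j δ h

/-- The family defining `T_q`, `q ∤ N`. -/
def famT {q : ℕ} (hq : q.Prime) (hqN : ¬ q ∣ N) : HeckeFamily (Gamma0 N) (Option (Fin q)) where
  mat
    | none => matD q
    | some i => matU q i
  det_ne
    | none => by simp only [det_matD]; exact_mod_cast hq.ne_zero
    | some i => by simp only [det_matU]; exact_mod_cast hq.ne_zero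
  ex γ
    | none => by
      by_cases h : (q : ℤ) ∣ (γ : SL(2, ℤ)) 1 0
      · obtain ⟨δ, hδ⟩ := ex_DD N hq hqN γ h
        exact ⟨none, δ, hδ⟩
      · obtain ⟨j, δ, hδ⟩ := ex_DU N hq γ h
        exact ⟨some j, δ, hδ⟩
    | some i => by
      by_cases h : (q : ℤ) ∣ (γ : SL(2, ℤ)) 0 0 + (i : ℕ) * (γ : SL(2, ℤ)) 1 0
      · obtain ⟨δ, hδ⟩ := ex_UD N hq γ i h
        exact ⟨none, δ, hδ⟩
      · obtain ⟨j, δ, hδ⟩ := ex_UU N hq γ i h
        exact ⟨some j, δ, hδ⟩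
  uniq
    | none, none, _, _ => rfl
    | none, some j, δ, h => (not_DU N hq j δ h).elim
    | some i, none, δ, h => (not_UD N hq i δ h).elim
    | some i, some j, δ, h => congrArg some (uniq_UU N i j δ h)

end families

end Fermat.Agent.H8
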