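import Mathlib
import Fermat.Agent.H8ShimHecke

/-!
The Shimura character `Γ₀(N) → (ℤ/N)ˣ` is Eisenstein for the transfer Hecke operators.
-/

set_option autoImplicit false

open Matrix CongruenceSubgroup
open scoped MatrixGroups

namespace Fermat.Agent.H8

section chi

variable (N : ℕ)

theorem chi_aux (γ : Gamma0 N) : (((γ : SL(2, ℤ)) 0 0 : ℤ) : ZMod N) * (((γ : SL(2, ℤ)) 1 1 : ℤ) : ZMod N) = 1 := by
  have h1 := (γ : SL(2, ℤ)).det_coe
  rw [Matrix.det_fin_two] at h1
  have h2 : (((γ : SL(2, ℤ)) 1 0 : ℤ) : ZMod N) = 0 := Gamma0_mem.mp γ.2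
  have h3 := congrArg (Int.cast : ℤ → ZMod N) h1
  push_cast at h3
  rw [h2] at h3
  linear_combination h3

/-- the upper-left entry modulo `N`. -/
def chi : Gamma0 N →* (ZMod N)ˣ where
  toFun γ := ⟨(((γ : SL(2, ℤ)) 0 0 : ℤ) : ZMod N), (((γ : SL(2, ℤ)) 1 1 : ℤ) : ZMod N),
    chi_aux N γ, by rw [mul_comm]; exact chi_aux N γ⟩
  map_one' := by ext; simp
  map_mul' γ δ := by
    ext
    have h2 : (((δ : SL(2, ℤ)) 1 0 : ℤ) : ZMod N) = 0 := Gamma0_mem.mp δ.2
    simp [Matrix.mul_apply, Fin.sum_univ_two, h2]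

@[simp] theorem coe_chi (γ : Gamma0 N) : (chi N γ : ZMod N) = (((γ : SL(2, ℤ)) 0 0 : ℤ) : ZMod N) := rfl

variable {N}

theorem chi_coc {ι : Type} (H : HeckeFamily (Gamma0 N) ι) (u : ι → (ZMod N)ˣ)
    (hu : ∀ i, ((H.mat i 0 0 : ℤ) : ZMod N) = u i) (h10 : ∀ i, H.mat i 1 0 = 0) (γ : Gamma0 N) (i : ι) :
    u i * chi N γ = chi N (H.coc γ i) * u (H.perm γ i) := by
  have h := congrFun (congrFun (H.spec γ i) 0) 0
  simp only [Matrix.mul_apply, Fin.sum_univ_two, h10, mul_zero, add_zero] at h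
  have h2 : (((γ : SL(2, ℤ)) 1 0 : ℤ) : ZMod N) = 0 := Gamma0_mem.mp γ.2
  have h3 := congrArg (Int.cast : ℤ → ZMod N) h
  push_cast at h3
  rw [h2, mul_zero, add_zero, hu, hu] at h3
  ext
  push_cast
  exact h3

theorem op_chi {ι : Type} [Fintype ι] (H : HeckeFamily (Gamma0 N) ι) (u : ι → (ZMod N)ˣ)
    (hu : ∀ i, ((H.mat i 0 0 : ℤ) : ZMod N) = u i) (h10 : ∀ i, H.mat i 1 0 = 0)
    {B : Type*} [CommGroup B] (l : (ZMod N)ˣ →* B) :
    H.op (Additive B) (MonoidHom.toAdditive (l.comp (chi N))) =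
      Fintype.card ι • (MonoidHom.toAdditive (l.comp (chi N))) := by
  refine AddMonoidHom.ext fun γ => ?_
  obtain ⟨γ, rfl⟩ := Additive.ofMul.surjective γ
  rw [HeckeFamily.op_apply, AddMonoidHom.nsmul_apply]
  have h1 : ∀ i, (MonoidHom.toAdditive (l.comp (chi N))) (Additive.ofMul (H.coc γ i)) =
      (Additive.ofMul (l (u i)) + (MonoidHom.toAdditive (l.comp (chi N))) (Additive.ofMul γ)) -
        Additive.ofMul (l (u (H.perm γ i))) := by
    intro i
    have h2 := congrArg l (chi_coc H u hu h10 γ i)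
    rw [map_mul, map_mul] at h2
    have h3 := congrArg Additive.ofMul h2
    rw [ofMul_mul, ofMul_mul] at h3
    rw [eq_sub_iff_add_eq]
    exact h3.symm
  rw [Finset.sum_congr rfl fun i _ => h1 i, Finset.sum_sub_distrib, Finset.sum_add_distrib,
    H.sum_perm γ (fun i => Additive.ofMul (l (u i)))]
  simp

end chi

section tau

variable (N : ℕ)

/-- The Hecke operator at the prime `q` on `Hom(Γ₀(N), A)`. -/
noncomputable def tau (q : Nat.Primes) (A : Type*) [AddCommGroup A] :
    Module.End ℤ (Additive (Gamma0 N) →+ A) :=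
  if h : (q : ℕ) ∣ N then ((famU N q.2 h).op A).toIntLinearMap
  else ((famT N q.2 h).op A).toIntLinearMap

theorem tau_of_dvd {q : Nat.Primes} (h : (q : ℕ) ∣ N) {A : Type*} [AddCommGroup A]
    (φ : Additive (Gamma0 N) →+ A) : tau N q A φ = (famU N q.2 h).op A φ := by
  rw [tau, dif_pos h]; rfl

theorem tau_of_not_dvd {q : Nat.Primes} (h : ¬ (q : ℕ) ∣ N) {A : Type*} [AddCommGroup A]
    (φ : Additive (Gamma0 N) →+ A) : tau N q A φ = (famT N q.2 h).op A φ := by
  rw [tau, dif_neg h]; rfl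

theorem tau_comp (q : Nat.Primes) {A B : Type*} [AddCommGroup A] [AddCommGroup B] (h : A →+ B)
    (φ : Additive (Gamma0 N) →+ A) : tau N q B (h.comp φ) = h.comp (tau N q A φ) := by
  by_cases hq : (q : ℕ) ∣ N
  · rw [tau_of_dvd N hq, tau_of_dvd N hq, HeckeFamily.op_comp]
  · rw [tau_of_not_dvd N hq, tau_of_not_dvd N hq, HeckeFamily.op_comp]

/-- action of the free algebra. -/
noncomputable def act (A : Type*) [AddCommGroup A] :
    FreeAlgebra ℤ Nat.Primes →ₐ[ℤ] Module.End ℤ (Additive (Gamma0 N) →+ A) :=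
  FreeAlgebra.lift ℤ (fun q => tau N q A)

theorem act_comp {A B : Type*} [AddCommGroup A] [AddCommGroup B] (h : A →+ B)
    (P : FreeAlgebra ℤ Nat.Primes) (φ : Additive (Gamma0 N) →+ A) :
    act N B P (h.comp φ) = h.comp (act N A P φ) := by
  induction P using FreeAlgebra.induction generalizing φ with
  | grade0 r =>
    rw [AlgHom.commutes, AlgHom.commutes, Module.algebraMap_end_apply, Module.algebraMap_end_apply]
    refine AddMonoidHom.ext fun γ => ?_
    simp
  | grade1 q =>
    rw [act, act, FreeAlgebra.lift_ι_apply, FreeAlgebra.lift_ι_apply, tau_comp]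
  | mul a b ha hb =>
    rw [map_mul, map_mul, Module.End.mul_apply, Module.End.mul_apply, hb, ha]
  | add a b ha hb =>
    rw [map_add, map_add, LinearMap.add_apply, LinearMap.add_apply, hb, ha]
    refine AddMonoidHom.ext fun γ => ?_
    simp

/-- the map from the free algebra to the polynomial algebra. -/
noncomputable def toMv : FreeAlgebra ℤ Nat.Primes →ₐ[ℤ] MvPolynomial Nat.Primes ℤ :=
  FreeAlgebra.lift ℤ MvPolynomial.X

theorem toMv_surjective : Function.Surjective toMv := by
  rw [← AlgHom.range_eq_top, eq_top_iff, ← MvPolynomial.adjoin_range_X]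
  refine Algebra.adjoin_le ?_
  rintro _ ⟨q, rfl⟩
  exact ⟨FreeAlgebra.ι ℤ q, by simp [toMv]⟩

/-- an eigenvector of all the `tau` is an eigenvector of the whole algebra. -/
theorem act_eigen {A : Type*} [AddCommGroup A] (a : Nat.Primes → ℤ) (φ : Additive (Gamma0 N) →+ A)
    (h : ∀ q, tau N q A φ = a q • φ) (P : FreeAlgebra ℤ Nat.Primes) :
    act N A P φ = MvPolynomial.aeval a (toMv P) • φ := by
  induction P using FreeAlgebra.induction with
  | grade0 r =>
    rw [AlgHom.commutes, AlgHom.commutes, Module.algebraMap_end_apply]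
    simp
  | grade1 q =>
    rw [act, FreeAlgebra.lift_ι_apply, toMv, FreeAlgebra.lift_ι_apply, MvPolynomial.aeval_X, h]
  | mul a b ha hb =>
    rw [map_mul, Module.End.mul_apply, hb, map_zsmul, ha, map_mul, map_mul, mul_comm, mul_smul]
  | add a b ha hb =>
    rw [map_add, LinearMap.add_apply, hb, ha, map_add, map_add, add_smul]

end tau

section prime

variable (p : ℕ) [Fact p.Prime]

/-- The composite of the character `chi` with a homomorphism to a group killed by `p - 1`
is an eigenvector with Eisenstein eigenvalues. -/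
theorem tau_chi {B : Type*} [CommGroup B] (l : (ZMod p)ˣ →* B) (q : Nat.Primes) :
    tau p q (Additive B) (MonoidHom.toAdditive (l.comp (chi p))) =
      (if (q : ℕ) ∣ p then (1 : ℤ) else 1 + (q : ℕ)) • (MonoidHom.toAdditive (l.comp (chi p))) := by
  by_cases hq : (q : ℕ) ∣ p
  · rw [if_pos hq, one_zsmul, tau_of_dvd p hq]
    have hqp : (q : ℕ) = p := (Nat.prime_dvd_prime_iff_eq q.2 Fact.out).mp hq
    rw [op_chi (famU p q.2 hq) (fun _ => 1) (fun i => by simp [famU, matU])
      (fun i => by simp [famU, matU]) l, Fintype.card_fin]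
    refine AddMonoidHom.ext fun γ => ?_
    obtain ⟨γ, rfl⟩ := Additive.ofMul.surjective γ
    rw [AddMonoidHom.nsmul_apply]
    show Additive.ofMul ((l (chi p γ)) ^ (q : ℕ)) = Additive.ofMul (l (chi p γ))
    congr 1
    rw [← map_pow]
    congr 1
    have h1 := ZMod.units_pow_card_sub_one_eq_one p (chi p γ)
    have h2 : (q : ℕ) = (p - 1) + 1 := by
      have := (Fact.out : p.Prime).one_lt
      omega
    rw [h2, pow_succ, h1, one_mul]
  · rw [if_neg hq, tau_of_not_dvd p hq]
    have hcop : Nat.Coprime (q : ℕ) p := (Nat.Prime.coprime_iff_not_dvd q.2).mpr hq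
    rw [op_chi (famT p q.2 hq) (fun i => match i with
      | none => ZMod.unitOfCoprime (q : ℕ) hcop
      | some _ => 1) (fun i => ?_) (fun i => ?_) l, Fintype.card_option, Fintype.card_fin]
    · rw [← natCast_zsmul]
      congr 1
      push_cast
      ring
    · cases i <;> simp [famT, matU, matD]
    · cases i <;> simp [famT, matU, matD]

end prime

end Fermat.Agent.H8
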