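import Mathlib
import Fermat.Agent.H21Inj
import Fermat.Agent.H22Prim
import Fermat.Agent.H8ShimChar
import Fermat.Prelude.Def_CuspForm_HeckeEvalForms

/-!
Hecke equivariance of the period map `S₂(Γ₀(N)) → Hom(Γ₀(N), ℂ)`.
-/

set_option autoImplicit false

open UpperHalfPlane hiding I
open CongruenceSubgroup ModularCurve
open scoped MatrixGroups ModularForm

namespace Fermat.Agent.H8

variable {N : ℕ}

theorem smul_compat {ι : Type} (H : HeckeFamily (Gamma0 N) ι) (g : ι → GL (Fin 2) ℝ)
    (hg : ∀ i, (g i : Matrix (Fin 2) (Fin 2) ℝ) = (H.mat i).map (Int.cast : ℤ → ℝ))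
    (γ : Gamma0 N) (i : ι) (z : ℍ) :
    g i • ((γ : SL(2, ℤ)) • z) = (H.coc γ i : SL(2, ℤ)) • (g (H.perm γ i) • z) := by
  have key : g i * Matrix.SpecialLinearGroup.mapGL ℝ (γ : SL(2, ℤ)) =
      Matrix.SpecialLinearGroup.mapGL ℝ (H.coc γ i : SL(2, ℤ)) * g (H.perm γ i) := by
    apply Units.ext
    rw [Units.val_mul, Units.val_mul, hg, hg, Matrix.SpecialLinearGroup.mapGL_coe_matrix,
      Matrix.SpecialLinearGroup.mapGL_coe_matrix]
    have h3 : ∀ X Y : Matrix (Fin 2) (Fin 2) ℤ, (X * Y).map (Int.cast : ℤ → ℝ) =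
        X.map (Int.cast : ℤ → ℝ) * Y.map (Int.cast : ℤ → ℝ) := fun X Y =>
      Matrix.map_mul (f := Int.castRingHom ℝ)
    have h2 := congrArg (fun M : Matrix (Fin 2) (Fin 2) ℤ => M.map (Int.cast : ℤ → ℝ)) (H.spec γ i)
    simp only [h3] at h2
    exact h2
  have := congrArg (fun x : GL (Fin 2) ℝ => x • z) key
  simp only [mul_smul] at this
  exact this

variable [NeZero N]

theorem period_of_family {ι : Type} [Fintype ι] (H : HeckeFamily (Gamma0 N) ι) (g : ι → GL (Fin 2) ℝ)
    (hg : ∀ i, (g i : Matrix (Fin 2) (Fin 2) ℝ) = (H.mat i).map (Int.cast : ℤ → ℝ))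
    (hdet : ∀ i, 0 < (g i).det.val) (f f' : CuspForm (Gamma0 N) 2)
    (hf' : (f' : ℍ → ℂ) = ∑ i, (f : ℍ → ℂ) ∣[(2 : ℤ)] g i) :
    periodMap N f' = H.op ℂ (periodMap N f) := by
  set F := H21.prim f with hF
  set G : ℍ → ℂ := fun z => ∑ i, F (g i • z) with hG
  have hGp : H21.IsPrim G f' := by
    intro τ
    have h1 : ∀ i, HasDerivAt ((fun z => F (g i • z)) ∘ ofComplex) (((f : ℍ → ℂ) ∣[(2 : ℤ)] g i) τ) (τ : ℂ) := by
      intro i
      have h2 : H22.IsPrim F f := H21.prim_isPrim f
      exact h2.comp_slash (hdet i) τ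
    have h3 := HasDerivAt.fun_sum (u := Finset.univ) (fun i _ => h1 i)
    rw [hf', Finset.sum_apply]
    exact h3
  obtain ⟨c, hc⟩ := H21.IsPrim.exists_sub_const (H21.prim_isPrim f') hGp
  refine AddMonoidHom.ext fun γ => ?_
  obtain ⟨γ, rfl⟩ := Additive.ofMul.surjective γ
  set z : ℍ := UpperHalfPlane.I
  rw [H21.periodMap_apply f' γ z, HeckeFamily.op_apply]
  have e1 := hc ((γ : SL(2, ℤ)) • z)
  have e2 := hc z
  have e3 : H21.prim f' ((γ : SL(2, ℤ)) • z) - H21.prim f' z = G ((γ : SL(2, ℤ)) • z) - G z := by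
    linear_combination e1 - e2
  rw [e3]
  have e4 : ∀ i, F (g i • ((γ : SL(2, ℤ)) • z)) =
      periodMap N f (Additive.ofMul (H.coc γ i)) + F (g (H.perm γ i) • z) := by
    intro i
    rw [smul_compat H g hg, H21.periodMap_apply f (H.coc γ i) (g (H.perm γ i) • z)]
    ring
  simp only [hG]
  rw [Finset.sum_congr rfl fun i _ => e4 i, Finset.sum_add_distrib,
    H.sum_perm γ (fun i => F (g i • z))]
  ring

theorem periodMap_heckeULin {q : ℕ} (hq : q.Prime) (hqN : q ∣ N) (f : CuspForm (Gamma0 N) 2) :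
    periodMap N (CuspForm.heckeULin 2 hqN f) = (famU N hq hqN).op ℂ (periodMap N f) := by
  apply period_of_family (famU N hq hqN) (fun i => ModularForm.heckeMatrix q i)
  · intro i
    rw [ModularForm.val_heckeMatrix hq.ne_zero]
    ext a b
    fin_cases a <;> fin_cases b <;> simp [famU, matU]
  · intro i
    exact ModularForm.det_heckeMatrix_pos q i
  · rw [CuspForm.coe_heckeULin_apply, ModularForm.heckeU_def, Finset.sum_range]

theorem periodMap_heckeTLin {q : ℕ} (hq : q.Prime) (hqN : ¬ q ∣ N) (f : CuspForm (Gamma0 N) 2) :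
    periodMap N (CuspForm.heckeTLin 2 hq hqN f) = (famT N hq hqN).op ℂ (periodMap N f) := by
  apply period_of_family (famT N hq hqN) (fun i => match i with
    | none => ModularForm.heckeDiagMatrix q
    | some i => ModularForm.heckeMatrix q i)
  · intro i
    cases i with
    | none =>
      simp only
      rw [ModularForm.val_heckeDiagMatrix hq.ne_zero]
      ext a b
      fin_cases a <;> fin_cases b <;> simp [famT, matD]
    | some i =>
      simp only
      rw [ModularForm.val_heckeMatrix hq.ne_zero]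
      ext a b
      fin_cases a <;> fin_cases b <;> simp [famT, matU]
  · intro i
    cases i with
    | none => exact ModularForm.det_heckeDiagMatrix_pos q
    | some i => exact ModularForm.det_heckeMatrix_pos q i
  · rw [CuspForm.coe_heckeTLin_apply, ModularForm.heckeT_def, Finset.sum_range, Fintype.sum_option,
      add_comm]

theorem periodMap_add (f g : CuspForm (Gamma0 N) 2) :
    periodMap N (f + g) = periodMap N f + periodMap N g := by
  obtain ⟨pml, hpml⟩ := H21.existsPeriodMapLinear (N := N)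
  rw [← hpml, ← hpml, ← hpml, map_add]

theorem periodMap_smul (c : ℂ) (f : CuspForm (Gamma0 N) 2) :
    periodMap N (c • f) = c • periodMap N f := by
  obtain ⟨pml, hpml⟩ := H21.existsPeriodMapLinear (N := N)
  rw [← hpml, ← hpml, map_smul]

variable (N) in
/-- The period map as a linear map. -/
noncomputable def periodLin : CuspForm (Gamma0 N) 2 →ₗ[ℂ] (Additive (Gamma0 N) →+ ℂ) where
  toFun := periodMap N
  map_add' := periodMap_add
  map_smul' := periodMap_smul

@[simp] theorem periodLin_apply (f : CuspForm (Gamma0 N) 2) : periodLin N f = periodMap N f := rfl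

theorem periodMap_tau (q : Nat.Primes) (f : CuspForm (Gamma0 N) 2) :
    periodMap N ((CuspForm.heckeFormsGen N 2 q : Module.End ℂ (CuspForm (Gamma0 N) 2)) f) =
      tau N q ℂ (periodMap N f) := by
  by_cases hq : (q : ℕ) ∣ N
  · rw [CuspForm.heckeFormsGen_of_dvd hq, tau_of_dvd N hq, CuspForm.heckeAlgebra.coe_U,
      periodMap_heckeULin q.2 hq]
  · rw [CuspForm.heckeFormsGen_of_not_dvd hq, tau_of_not_dvd N hq, CuspForm.heckeAlgebra.coe_T,
      periodMap_heckeTLin q.2 hq]

/-- **Hecke equivariance of the period map.** -/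
theorem periodMap_act (P : FreeAlgebra ℤ Nat.Primes) (f : CuspForm (Gamma0 N) 2) :
    act N ℂ P (periodMap N f) = periodMap N
      ((CuspForm.heckeEvalForms N 2 (toMv P) : Module.End ℂ (CuspForm (Gamma0 N) 2)) f) := by
  induction P using FreeAlgebra.induction generalizing f with
  | grade0 r =>
    rw [AlgHom.commutes, AlgHom.commutes, Module.algebraMap_end_apply]
    have h1 : CuspForm.heckeEvalForms N 2 (algebraMap ℤ (MvPolynomial Nat.Primes ℤ) r) =
      algebraMap ℤ (CuspForm.heckeAlgebra N 2 ∅) r := CuspForm.heckeEvalForms_C N 2 r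
    rw [h1]
    have h2 : ((algebraMap ℤ (CuspForm.heckeAlgebra N 2 ∅) r : CuspForm.heckeAlgebra N 2 ∅) :
      Module.End ℂ (CuspForm (Gamma0 N) 2)) f = r • f := rfl
    rw [h2]
    exact (map_zsmul (periodLin N).toAddMonoidHom r f).symm
  | grade1 q =>
    rw [act, FreeAlgebra.lift_ι_apply, toMv, FreeAlgebra.lift_ι_apply]
    have h1 : CuspForm.heckeEvalForms N 2 (MvPolynomial.X q) = CuspForm.heckeFormsGen N 2 q :=
      CuspForm.heckeEvalForms_heckeGen N 2 q
    rw [h1, periodMap_tau]
  | mul a b ha hb =>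
    rw [map_mul, map_mul, map_mul, Module.End.mul_apply, hb, ha]
    rfl
  | add a b ha hb =>
    rw [map_add, map_add, map_add, LinearMap.add_apply, hb, ha]
    exact (periodMap_add _ _).symm

end Fermat.Agent.H8
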