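import Mathlib

/-!
Field-generic version of the bound `dim H¹_par ≤ 2g`: for homomorphisms `Γ → F` killing all
elements of `Γ` with `trace² ≤ 4` (parabolic and elliptic elements), over an arbitrary field `F`.
-/

set_option autoImplicit false

open scoped MatrixGroups
open ModularGroup CongruenceSubgroup Module

namespace Fermat.Agent.H77.FieldGen

section General

variable {G : Type*} [Group G] {X : Type*} [MulAction G X] (F : Type*) [Field F]

/-- Pull back a function along the action of `g`. -/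
def res (X : Type*) [MulAction G X] (g : G) : (X → F) →ₗ[F] (X → F) :=
  LinearMap.funLeft F F (fun x => g • x)

@[simp] theorem res_apply (g : G) (v : X → F) (x : X) : res F X g v x = v (g • x) := rfl

/-- Functions all of whose sums over closed `g`-paths vanish. -/
def zsum (X : Type*) [MulAction G X] (g : G) : Submodule F (X → F) where
  carrier := {a | ∀ (n : ℕ) (x : X), g ^ n • x = x → ∑ j ∈ Finset.range n, a (g ^ j • x) = 0}
  zero_mem' := by
    intro n x _
    simp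
  add_mem' := by
    intro a b ha hb n x h
    simp only [Pi.add_apply, Finset.sum_add_distrib]
    rw [ha n x h, hb n x h, add_zero]
  smul_mem' := by
    intro c a ha n x h
    simp only [Pi.smul_apply, smul_eq_mul, ← Finset.mul_sum]
    rw [ha n x h, mul_zero]

variable {F}

theorem mem_zsum {g : G} {a : X → F} : a ∈ zsum F X g ↔
    ∀ (n : ℕ) (x : X), g ^ n • x = x → ∑ j ∈ Finset.range n, a (g ^ j • x) = 0 := Iff.rfl

theorem cob_mem_zsum (g : G) (v : X → F) : res F X g v - v ∈ zsum F X g := by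
  intro n x h
  have h1 : ∀ j ∈ Finset.range n, (res F X g v - v) (g ^ j • x)
      = v (g ^ (j + 1) • x) - v (g ^ j • x) := by
    intro j _
    rw [Pi.sub_apply, res_apply, ← mul_smul, ← pow_succ']
  rw [Finset.sum_congr rfl h1, Finset.sum_range_sub (fun j => v (g ^ j • x)), h, pow_zero, one_smul,
    sub_self]

/-- the set of orbits of `g` -/
abbrev Orb (X : Type*) [MulAction G X] (g : G) : Type _ :=
  MulAction.orbitRel.Quotient (Subgroup.zpowers g) X

open Classical in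
/-- extension by zero from base points of the orbits -/
noncomputable def ext (F : Type*) [Field F] (X : Type*) [MulAction G X] (g : G) :
    (Orb X g → F) →ₗ[F] (X → F) where
  toFun c x := if x = (Quotient.mk (MulAction.orbitRel (Subgroup.zpowers g) X) x).out then
    c (Quotient.mk _ x) else 0
  map_add' c d := by
    funext x
    show (if _ then c _ + d _ else (0 : F)) = (if _ then c _ else 0) + (if _ then d _ else 0)
    split_ifs <;> simp
  map_smul' r c := by
    funext x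
    show (if _ then r * c _ else (0 : F)) = r * (if _ then c _ else 0)
    split_ifs <;> simp

theorem ext_injective (g : G) : Function.Injective (ext F X g) := by
  rw [injective_iff_map_eq_zero]
  intro c hc
  funext q
  have h := congrFun hc q.out
  have h1 : (Quotient.mk (MulAction.orbitRel (Subgroup.zpowers g) X) q.out) = q := Quotient.out_eq q
  have h2 : ext F X g c q.out = @ite F (q.out =
      (Quotient.mk (MulAction.orbitRel (Subgroup.zpowers g) X) q.out).out)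
      (Classical.propDecidable _) (c (Quotient.mk _ q.out)) 0 := rfl
  rw [h2, h1, if_pos rfl] at h
  exact h

theorem disjoint_zsum_ext [Finite X] (g : G) :
    Disjoint (zsum F X g) (LinearMap.range (ext F X g)) := by
  rw [Submodule.disjoint_def]
  rintro _ h1 ⟨c, rfl⟩
  have hc : c = 0 := by
    funext q
    set x : X := q.out with hx
    have hq : (Quotient.mk (MulAction.orbitRel (Subgroup.zpowers g) X) x) = q := Quotient.out_eq q
    set n := Function.minimalPeriod (fun y : X => g • y) x with hn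
    have hiter : ∀ j : ℕ, (fun y : X => g • y)^[j] x = g ^ j • x := by
      intro j
      rw [smul_iterate]
    have hper : x ∈ Function.periodicPts (fun y : X => g • y) := by
      obtain ⟨m, hm, hm2⟩ := (MulAction.toPerm g : Equiv.Perm X).injective.mem_periodicPts x
      exact ⟨m, hm, hm2⟩
    have hnpos : 0 < n := Function.minimalPeriod_pos_of_mem_periodicPts hper
    have hfix : g ^ n • x = x := by
      rw [← hiter]
      exact Function.iterate_minimalPeriod
    have hsum := h1 n x hfix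
    have hmk : ∀ j : ℕ, (Quotient.mk (MulAction.orbitRel (Subgroup.zpowers g) X) (g ^ j • x)) = q := by
      intro j
      rw [← hq]
      apply Quotient.sound
      exact ⟨⟨g ^ j, Subgroup.npow_mem_zpowers g j⟩, rfl⟩
    have hval : ∀ j ∈ Finset.range n, ext F X g c (g ^ j • x) = if j = 0 then c q else 0 := by
      intro j hj
      have h2 : ext F X g c (g ^ j • x) = @ite F (g ^ j • x =
        (Quotient.mk (MulAction.orbitRel (Subgroup.zpowers g) X) (g ^ j • x)).out)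
        (Classical.propDecidable _)
        (c (Quotient.mk _ (g ^ j • x))) 0 := rfl
      rw [h2, hmk j]
      by_cases hj0 : j = 0
      · subst hj0
        rw [if_pos rfl, if_pos]
        rw [pow_zero, one_smul]
      · rw [if_neg hj0, if_neg]
        intro hcon
        rw [← hx] at hcon
        have h3 : Function.IsPeriodicPt (fun y : X => g • y) j x := by
          show (fun y : X => g • y)^[j] x = x
          rw [hiter, hcon]
        have h4 := h3.minimalPeriod_le (Nat.pos_of_ne_zero hj0)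
        rw [Finset.mem_range] at hj
        omega
    rw [Finset.sum_congr rfl hval, Finset.sum_ite_eq' (Finset.range n) 0 (fun _ => c q),
      if_pos (Finset.mem_range.mpr hnpos)] at hsum
    exact hsum
  rw [hc, map_zero]

theorem finrank_zsum_add_le [Finite X] (g : G) :
    finrank F (zsum F X g) + Nat.card (Orb X g) ≤ Nat.card X := by
  classical
  have : Fintype X := Fintype.ofFinite _
  have : Fintype (Orb X g) := Fintype.ofFinite _
  have h1 := Submodule.finrank_add_finrank_le_of_disjoint (disjoint_zsum_ext (F := F) (X := X) g)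
  rw [LinearMap.finrank_range_of_inj (ext_injective g), finrank_fintype_fun_eq_card,
    finrank_fintype_fun_eq_card] at h1
  rwa [Nat.card_eq_fintype_card, Nat.card_eq_fintype_card]

end General

section Cocycle

variable (Γ : Subgroup SL(2, ℤ))

/-- The Schreier element of `Γ` attached to `σ` and a coset `x`. -/
noncomputable def gam (σ : SL(2, ℤ)) (x : SL(2, ℤ) ⧸ Γ) : Γ :=
  ⟨(σ • x).out⁻¹ * (σ * x.out), by
    rw [← QuotientGroup.eq]
    have h : ((x.out : SL(2, ℤ)) : SL(2, ℤ) ⧸ Γ) = x := QuotientGroup.out_eq' x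
    have h2 : (((σ • x).out : SL(2, ℤ)) : SL(2, ℤ) ⧸ Γ) = σ • x := QuotientGroup.out_eq' _
    rw [h2]
    conv_lhs => rw [← h]
    rfl⟩

theorem coe_gam (σ : SL(2, ℤ)) (x : SL(2, ℤ) ⧸ Γ) :
    (gam Γ σ x : SL(2, ℤ)) = (σ • x).out⁻¹ * (σ * x.out) := rfl

theorem gam_mul (σ τ : SL(2, ℤ)) (x : SL(2, ℤ) ⧸ Γ) :
    gam Γ (σ * τ) x = gam Γ σ (τ • x) * gam Γ τ x := by
  apply Subtype.ext
  rw [Subgroup.coe_mul, coe_gam, coe_gam, coe_gam, mul_smul]
  group

variable {Γ} {F : Type*} [Field F]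

/-- `φ` kills all elements of `Γ` with `trace² ≤ 4` (parabolic and elliptic elements). -/
def KillsSmall (φ : Additive Γ →+ F) : Prop :=
  ∀ γ : Γ, ((γ : SL(2, ℤ)) : Matrix (Fin 2) (Fin 2) ℤ).trace ^ 2 ≤ 4 → φ (Additive.ofMul γ) = 0

variable (Γ F) in
/-- The space of homomorphisms killing parabolic and elliptic elements. -/
def smallHoms : Submodule F (Additive Γ →+ F) where
  carrier := {φ | KillsSmall φ}
  zero_mem' := fun _ _ => rfl
  add_mem' := by
    intro φ ψ hφ hψ γ hγ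
    show φ (Additive.ofMul γ) + ψ (Additive.ofMul γ) = 0
    rw [hφ γ hγ, hψ γ hγ, add_zero]
  smul_mem' := by
    intro c φ hφ γ hγ
    show c • φ (Additive.ofMul γ) = 0
    rw [hφ γ hγ, smul_zero]

theorem mem_smallHoms {φ : Additive Γ →+ F} : φ ∈ smallHoms Γ F ↔ KillsSmall φ := Iff.rfl

/-- The Shapiro cocycle of a homomorphism. -/
noncomputable def zc (φ : Additive Γ →+ F) (σ : SL(2, ℤ)) : (SL(2, ℤ) ⧸ Γ) → F :=
  fun x => φ (Additive.ofMul (gam Γ σ x))

theorem zc_mul (φ : Additive Γ →+ F) (σ τ : SL(2, ℤ)) (x : SL(2, ℤ) ⧸ Γ) :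
    zc φ (σ * τ) x = zc φ σ (τ • x) + zc φ τ x := by
  simp only [zc, gam_mul, ofMul_mul, map_add]

theorem zc_one (φ : Additive Γ →+ F) (x : SL(2, ℤ) ⧸ Γ) : zc φ 1 x = 0 := by
  have h := zc_mul φ 1 1 x
  rw [one_smul, mul_one] at h
  have : zc φ 1 x + zc φ 1 x = zc φ 1 x + 0 := by rw [add_zero]; exact h.symm
  exact add_left_cancel this

/-- If `σ` fixes the coset `x`, the cocycle value is `φ` of a conjugate. -/
theorem zc_of_smul_eq (φ : Additive Γ →+ F) (hφ : KillsSmall φ)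
    (σ : SL(2, ℤ)) (hσ : (σ : Matrix (Fin 2) (Fin 2) ℤ).trace ^ 2 ≤ 4) (x : SL(2, ℤ) ⧸ Γ)
    (h : σ • x = x) : zc φ σ x = 0 := by
  apply hφ
  have h1 : (gam Γ σ x : SL(2, ℤ)) = x.out⁻¹ * (σ * x.out) := by rw [coe_gam, h]
  rw [h1]
  have h2 : ((x.out⁻¹ * (σ * x.out) : SL(2, ℤ)) : Matrix (Fin 2) (Fin 2) ℤ).trace
      = (σ : Matrix (Fin 2) (Fin 2) ℤ).trace := by
    rw [Matrix.SpecialLinearGroup.coe_mul, Matrix.SpecialLinearGroup.coe_mul, Matrix.trace_mul_comm,
      Matrix.mul_assoc, ← Matrix.SpecialLinearGroup.coe_mul, mul_inv_cancel,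
      Matrix.SpecialLinearGroup.coe_one, Matrix.mul_one]
  rw [h2]; exact hσ

theorem zc_pow (φ : Additive Γ →+ F) (g : SL(2, ℤ)) (n : ℕ) (x : SL(2, ℤ) ⧸ Γ) :
    zc φ (g ^ n) x = ∑ j ∈ Finset.range n, zc φ g (g ^ j • x) := by
  induction n with
  | zero => simp [zc_one]
  | succ n ih => rw [pow_succ', zc_mul, ih, Finset.sum_range_succ, add_comm]

theorem zc_mem_zsum (φ : Additive Γ →+ F) (hφ : KillsSmall φ) (g : SL(2, ℤ))
    (htr : ∀ n : ℕ, ((g ^ n : SL(2, ℤ)) : Matrix (Fin 2) (Fin 2) ℤ).trace ^ 2 ≤ 4) :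
    zc φ g ∈ zsum F (SL(2, ℤ) ⧸ Γ) g := by
  intro n x h
  rw [← zc_pow]
  exact zc_of_smul_eq φ hφ _ (htr n) x h

/-- If the cocycle is a coboundary then `φ = 0`. -/
theorem eq_zero_of_zc (φ : Additive Γ →+ F) (v : (SL(2, ℤ) ⧸ Γ) → F)
    (h : ∀ σ x, zc φ σ x = v x - v (σ • x)) : φ = 0 := by
  refine AddMonoidHom.ext fun γ => ?_
  obtain ⟨γ, rfl⟩ := Additive.ofMul.surjective γ
  set x0 : SL(2, ℤ) ⧸ Γ := ((1 : SL(2, ℤ)) : SL(2, ℤ) ⧸ Γ) with hx0
  have hmem : x0.out ∈ Γ := by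
    have h1 : ((x0.out : SL(2, ℤ)) : SL(2, ℤ) ⧸ Γ) = ((1 : SL(2, ℤ)) : SL(2, ℤ) ⧸ Γ) :=
      QuotientGroup.out_eq' x0
    have := (QuotientGroup.eq.mp h1)
    simpa using this
  set σ : SL(2, ℤ) := x0.out * γ * x0.out⁻¹ with hσ
  have hσΓ : σ ∈ Γ := Γ.mul_mem (Γ.mul_mem hmem γ.2) (Γ.inv_mem hmem)
  have hfix : σ • x0 = x0 := by
    show ((σ * 1 : SL(2, ℤ)) : SL(2, ℤ) ⧸ Γ) = ((1 : SL(2, ℤ)) : SL(2, ℤ) ⧸ Γ)
    rw [mul_one, QuotientGroup.eq]
    simpa using hσΓ
  have h2 := h σ x0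
  rw [hfix, sub_self] at h2
  have h3 : gam Γ σ x0 = γ := by
    apply Subtype.ext
    rw [coe_gam, hfix, hσ]
    group
  rw [zc, h3] at h2
  exact h2

theorem zc_of_generators (φ : Additive Γ →+ F) (v : (SL(2, ℤ) ⧸ Γ) → F)
    (hS : ∀ x, zc φ S x = v x - v (S • x)) (hR : ∀ x, zc φ (S * T) x = v x - v ((S * T) • x))
    (σ : SL(2, ℤ)) : ∀ x, zc φ σ x = v x - v (σ • x) := by
  let H : Subgroup SL(2, ℤ) :=
    { carrier := {σ | ∀ x, zc φ σ x = v x - v (σ • x)}
      one_mem' := by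
        intro x
        rw [zc_one, one_smul, sub_self]
      mul_mem' := by
        intro a b ha hb x
        rw [zc_mul, ha, hb, mul_smul]
        ring
      inv_mem' := by
        intro a ha x
        have h1 := zc_mul φ a a⁻¹ x
        rw [mul_inv_cancel, zc_one, ha, smul_inv_smul] at h1
        linear_combination -h1 }
  have hH : H = ⊤ := by
    rw [eq_top_iff, ← SpecialLinearGroup.SL2Z_generators, Subgroup.closure_le]
    have h1 : S ∈ H := hS
    have h2 : S * T ∈ H := hR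
    rintro _ (rfl | rfl)
    · exact h1
    · have := H.mul_mem (H.inv_mem h1) h2
      rwa [inv_mul_cancel_left] at this
  have : σ ∈ H := hH ▸ Subgroup.mem_top σ
  exact this

end Cocycle

theorem rankNull {K : Type*} [Field K] {V W : Type*} [AddCommGroup V] [Module K V]
    [FiniteDimensional K V] [AddCommGroup W] [Module K W] (f : V →ₗ[K] W) :
    finrank K (LinearMap.range f) + finrank K (LinearMap.ker f) = finrank K V :=
  LinearMap.finrank_range_add_finrank_ker f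

section Bound

variable {Γ : Subgroup SL(2, ℤ)} (F : Type*) [Field F]

theorem neg_one_smul' (hneg : (-1 : SL(2, ℤ)) ∈ Γ) (x : SL(2, ℤ) ⧸ Γ) :
    (-1 : SL(2, ℤ)) • x = x := by
  obtain ⟨g, rfl⟩ := QuotientGroup.mk_surjective x
  show (((-1 : SL(2, ℤ)) * g : SL(2, ℤ)) : SL(2, ℤ) ⧸ Γ) = (g : SL(2, ℤ) ⧸ Γ)
  rw [QuotientGroup.eq]
  have : ((-1 : SL(2, ℤ)) * g)⁻¹ * g = -1 := by
    rw [mul_inv_rev, mul_assoc]
    simp
  rw [this]
  exact hneg

theorem S_sq : (S : SL(2, ℤ)) ^ 2 = -1 := by decide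

theorem ST_cube : (S * T : SL(2, ℤ)) ^ 3 = -1 := by decide

theorem trace_neg_one : ((-1 : SL(2, ℤ)) : Matrix (Fin 2) (Fin 2) ℤ).trace ^ 2 ≤ 4 := by
  decide

theorem STS : (S * (S * T) : SL(2, ℤ)) = -1 * T := by decide

theorem trace_T_pow (n : ℕ) : ((T ^ n : SL(2, ℤ)) : Matrix (Fin 2) (Fin 2) ℤ).trace ^ 2 ≤ 4 := by
  have := ModularGroup.coe_T_zpow (n : ℤ)
  rw [zpow_natCast] at this
  rw [this]
  simp [Matrix.trace_fin_two]

theorem trace_S_pow (n : ℕ) : ((S ^ n : SL(2, ℤ)) : Matrix (Fin 2) (Fin 2) ℤ).trace ^ 2 ≤ 4 := by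
  have h4 : (S : SL(2, ℤ)) ^ 4 = 1 := by decide
  rw [← Nat.div_add_mod n 4, pow_add, pow_mul, h4, one_pow, one_mul]
  have hlt : n % 4 < 4 := Nat.mod_lt _ (by norm_num)
  generalize n % 4 = m at hlt
  interval_cases m <;> decide

theorem trace_ST_pow (n : ℕ) :
    (((S * T) ^ n : SL(2, ℤ)) : Matrix (Fin 2) (Fin 2) ℤ).trace ^ 2 ≤ 4 := by
  have h6 : (S * T : SL(2, ℤ)) ^ 6 = 1 := by decide
  rw [← Nat.div_add_mod n 6, pow_add, pow_mul, h6, one_pow, one_mul]
  have hlt : n % 6 < 6 := Nat.mod_lt _ (by norm_num)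
  generalize n % 6 = m at hlt
  interval_cases m <;> decide

variable (Γ) in
/-- target of `z_S`. -/
noncomputable abbrev US : Submodule F (SL(2, ℤ) ⧸ Γ → F) := zsum F (SL(2, ℤ) ⧸ Γ) S

variable (Γ) in
/-- target of `z_{ST}`. -/
noncomputable abbrev UR : Submodule F (SL(2, ℤ) ⧸ Γ → F) := zsum F (SL(2, ℤ) ⧸ Γ) (S * T)

/-- The map `(a, b) ↦ a ∘ R + b`. -/
noncomputable def wm (Γ : Subgroup SL(2, ℤ)) :
    (US Γ F × UR Γ F) →ₗ[F] (SL(2, ℤ) ⧸ Γ → F) :=
  LinearMap.coprod (res F _ (S * T) ∘ₗ (US Γ F).subtype) (UR Γ F).subtype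

theorem wm_apply (a : US Γ F) (b : UR Γ F) (x : SL(2, ℤ) ⧸ Γ) :
    wm F Γ (a, b) x = a.1 ((S * T) • x) + b.1 x := by
  simp [wm]

variable (Γ) in
/-- `σ` such that `e_x - e_{σ x}` always lies in the range of `wm`. -/
def goodS : Subgroup SL(2, ℤ) where
  carrier := {σ | ∀ x : SL(2, ℤ) ⧸ Γ, ∀ [DecidableEq (SL(2, ℤ) ⧸ Γ)],
    (Pi.single x 1 - Pi.single (σ • x) 1 : SL(2, ℤ) ⧸ Γ → F) ∈ LinearMap.range (wm F Γ)}
  one_mem' := by
    intro x _
    rw [one_smul, sub_self]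
    exact Submodule.zero_mem _
  mul_mem' := by
    intro a b ha hb x _
    have := Submodule.add_mem _ (hb x) (ha (b • x))
    rwa [sub_add_sub_cancel, ← mul_smul] at this
  inv_mem' := by
    intro a ha x _
    have := Submodule.neg_mem _ (ha (a⁻¹ • x))
    rwa [neg_sub, smul_inv_smul] at this

theorem ST_mem_goodS : (S * T : SL(2, ℤ)) ∈ goodS Γ F := by
  intro x _
  set w : SL(2, ℤ) ⧸ Γ → F := Pi.single ((S * T) • x) 1 with hw
  refine ⟨(0, ⟨res F _ (S * T) w - w, cob_mem_zsum _ w⟩), ?_⟩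
  funext y
  rw [wm_apply]
  simp only [ZeroMemClass.coe_zero, Pi.zero_apply, zero_add, Pi.sub_apply, res_apply, hw]
  congr 1
  simp only [Pi.single_apply]
  simp

theorem conj_mem_goodS :
    ((S * T)⁻¹ * S * (S * T) : SL(2, ℤ)) ∈ goodS Γ F := by
  intro x _
  set w : SL(2, ℤ) ⧸ Γ → F := Pi.single (S • (S * T) • x) 1 with hw
  refine ⟨(⟨res F _ S w - w, cob_mem_zsum _ w⟩, 0), ?_⟩
  funext y
  rw [wm_apply]
  simp only [ZeroMemClass.coe_zero, Pi.zero_apply, add_zero, Pi.sub_apply, res_apply, hw]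
  congr 1
  · simp only [Pi.single_apply]
    simp
  · simp only [Pi.single_apply]
    congr 1
    apply propext
    rw [mul_smul ((S * T)⁻¹ * S), mul_smul (S * T)⁻¹, eq_inv_smul_iff]

theorem goodS_eq_top : goodS Γ F = ⊤ := by
  have h1 := ST_mem_goodS F (Γ := Γ)
  have h2 := conj_mem_goodS F (Γ := Γ)
  have h3 : (S : SL(2, ℤ)) ∈ goodS Γ F := by
    have := (goodS Γ F).mul_mem ((goodS Γ F).mul_mem h1 h2) ((goodS Γ F).inv_mem h1)
    convert this using 1
    group
  rw [eq_top_iff, ← SpecialLinearGroup.SL2Z_generators, Subgroup.closure_le]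
  rintro _ (rfl | rfl)
  · exact h3
  · have := (goodS Γ F).mul_mem ((goodS Γ F).inv_mem h3) h1
    rwa [inv_mul_cancel_left] at this

theorem natCard_le_finrank_range_wm [Finite (SL(2, ℤ) ⧸ Γ)] :
    Nat.card (SL(2, ℤ) ⧸ Γ) ≤ finrank F (LinearMap.range (wm F Γ)) + 1 := by
  classical
  have : Fintype (SL(2, ℤ) ⧸ Γ) := Fintype.ofFinite _
  set x0 : SL(2, ℤ) ⧸ Γ := ((1 : SL(2, ℤ)) : SL(2, ℤ) ⧸ Γ) with hx0
  have key : LinearMap.range (wm F Γ) ⊔
      Submodule.span F {(Pi.single x0 1 : SL(2, ℤ) ⧸ Γ → F)} = ⊤ := by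
    rw [eq_top_iff, ← (Pi.basisFun F (SL(2, ℤ) ⧸ Γ)).span_eq, Submodule.span_le]
    rintro _ ⟨x, rfl⟩
    rw [Pi.basisFun_apply]
    obtain ⟨g, rfl⟩ := QuotientGroup.mk_surjective x
    have h1 : g ∈ goodS Γ F := by rw [goodS_eq_top F]; trivial
    have h2 := Submodule.neg_mem _ (h1 x0)
    rw [neg_sub] at h2
    have h3 : g • x0 = (g : SL(2, ℤ) ⧸ Γ) := by
      show ((g * 1 : SL(2, ℤ)) : SL(2, ℤ) ⧸ Γ) = _
      rw [mul_one]
    rw [h3] at h2
    have h4 := Submodule.add_mem_sup h2 (Submodule.mem_span_singleton_self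
      (R := F) (Pi.single x0 1 : SL(2, ℤ) ⧸ Γ → F))
    rwa [sub_add_cancel] at h4
  have h5 : finrank F (⊤ : Submodule F (SL(2, ℤ) ⧸ Γ → F)) = Nat.card (SL(2, ℤ) ⧸ Γ) := by
    rw [finrank_top, finrank_fintype_fun_eq_card, Nat.card_eq_fintype_card]
  rw [← h5, ← key]
  refine (Submodule.finrank_add_le_finrank_add_finrank _ _).trans ?_
  gcongr
  refine (finrank_span_le_card _).trans ?_
  simp

/-- `φ ↦ (z_S, z_{ST})`. -/
noncomputable def psiPar : smallHoms Γ F →ₗ[F] (US Γ F × UR Γ F) where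
  toFun φ := (⟨zc φ.1 S, zc_mem_zsum φ.1 φ.2 S trace_S_pow⟩,
    ⟨zc φ.1 (S * T), zc_mem_zsum φ.1 φ.2 (S * T) trace_ST_pow⟩)
  map_add' _ _ := rfl
  map_smul' _ _ := rfl

/-- coboundaries -/
noncomputable def psiV : (SL(2, ℤ) ⧸ Γ → F) →ₗ[F] (US Γ F × UR Γ F) :=
  LinearMap.prod
    (LinearMap.codRestrict _ (res F _ S - LinearMap.id) fun v => cob_mem_zsum _ v)
    (LinearMap.codRestrict _ (res F _ (S * T) - LinearMap.id) fun v => cob_mem_zsum _ v)

variable {F}

theorem zc_T (hneg : (-1 : SL(2, ℤ)) ∈ Γ) (φ : Additive Γ →+ F) (hφ : KillsSmall φ) :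
    zc φ T = res F _ (S * T) (zc φ S) + zc φ (S * T) := by
  funext x
  have h1 : (T : SL(2, ℤ)) = (-1 * S) * (S * T) := by decide
  have h2 : zc φ T x = zc φ ((-1 * S) * (S * T)) x := by rw [← h1]
  rw [h2, zc_mul, zc_mul, zc_of_smul_eq φ hφ (-1) trace_neg_one _ (neg_one_smul' hneg _), zero_add]
  rfl

theorem cob_T (hneg : (-1 : SL(2, ℤ)) ∈ Γ) (v : SL(2, ℤ) ⧸ Γ → F) :
    res F _ T v - v = res F _ (S * T) (res F _ S v - v) + (res F _ (S * T) v - v) := by
  funext x
  have h1 : S • (S * T) • x = T • x := by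
    rw [← mul_smul, STS, mul_smul, neg_one_smul' hneg]
  simp only [Pi.sub_apply, Pi.add_apply, res_apply, h1]
  ring

variable (F)

theorem main_bound [Finite (SL(2, ℤ) ⧸ Γ)] (hneg : (-1 : SL(2, ℤ)) ∈ Γ) :
    Module.Finite F (smallHoms Γ F) ∧
    finrank F (smallHoms Γ F) + Nat.card (Orb (SL(2, ℤ) ⧸ Γ) (S : SL(2, ℤ)))
      + Nat.card (Orb (SL(2, ℤ) ⧸ Γ) (S * T : SL(2, ℤ))) + Nat.card (Orb (SL(2, ℤ) ⧸ Γ) (T : SL(2, ℤ)))
      ≤ Nat.card (SL(2, ℤ) ⧸ Γ) + 2 := by
  classical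
  have : Fintype (SL(2, ℤ) ⧸ Γ) := Fintype.ofFinite _
  set V := (SL(2, ℤ) ⧸ Γ → F) with hV
  -- kernel of Ψ
  have hPsi : ∀ (φ : smallHoms Γ F) (v : V), psiPar F φ + psiV F v = 0 →
      φ = 0 ∧ ∀ σ : SL(2, ℤ), ∀ x, v (σ • x) = v x := by
    intro φ v h
    have h1 : ∀ x, zc φ.1 S x = v x - v (S • x) := by
      intro x
      have := congrArg (fun p : US Γ F × UR Γ F => p.1.1 x) h
      change zc φ.1 S x + (v (S • x) - v x) = 0 at this
      linear_combination this
    have h2 : ∀ x, zc φ.1 (S * T) x = v x - v ((S * T) • x) := by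
      intro x
      have := congrArg (fun p : US Γ F × UR Γ F => p.2.1 x) h
      change zc φ.1 (S * T) x + (v ((S * T) • x) - v x) = 0 at this
      linear_combination this
    have h3 := zc_of_generators φ.1 v h1 h2
    have h4 : φ.1 = 0 := eq_zero_of_zc φ.1 v h3
    refine ⟨Subtype.ext h4, fun σ x => ?_⟩
    have h5 := h3 σ x
    rw [h4] at h5
    change (0 : F) = _ at h5
    linear_combination h5
  have hinj : Function.Injective (psiPar F (Γ := Γ)) := by
    rw [injective_iff_map_eq_zero]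
    intro φ hφ
    exact (hPsi φ 0 (by rw [hφ, map_zero, add_zero])).1
  have hfin : Module.Finite F (smallHoms Γ F) := Module.Finite.of_injective _ hinj
  refine ⟨hfin, ?_⟩
  set Ψ : (smallHoms Γ F × V) →ₗ[F] (US Γ F × UR Γ F) :=
    LinearMap.coprod (psiPar F) (psiV F) with hΨ
  set K : Submodule F (US Γ F × UR Γ F) :=
    Submodule.comap (wm F Γ) (zsum F (SL(2, ℤ) ⧸ Γ) T) with hK
  have hrange : LinearMap.range Ψ ≤ K := by
    rintro _ ⟨⟨φ, v⟩, rfl⟩
    rw [hK, Submodule.mem_comap]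
    have h1 : wm F Γ (Ψ (φ, v)) = zc φ.1 T + (res F _ T v - v) := by
      rw [zc_T hneg φ.1 φ.2, cob_T hneg v]
      funext x
      have : Ψ (φ, v) = ((Ψ (φ, v)).1, (Ψ (φ, v)).2) := rfl
      rw [this, wm_apply]
      change (zc φ.1 S ((S * T) • x) + (v (S • (S * T) • x) - v ((S * T) • x)))
        + (zc φ.1 (S * T) x + (v ((S * T) • x) - v x)) = _
      simp only [Pi.sub_apply, Pi.add_apply, res_apply]
      ring
    rw [h1]
    exact Submodule.add_mem _ (zc_mem_zsum φ.1 φ.2 T trace_T_pow) (cob_mem_zsum _ v)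
  have hker : finrank F (LinearMap.ker Ψ) ≤ 1 := by
    have hle : LinearMap.ker Ψ ≤ Submodule.span F {((0, fun _ => 1) : smallHoms Γ F × V)} := by
      rintro ⟨φ, v⟩ h
      rw [LinearMap.mem_ker] at h
      obtain ⟨h1, h2⟩ := hPsi φ v h
      rw [Submodule.mem_span_singleton]
      refine ⟨v ((1 : SL(2, ℤ)) : SL(2, ℤ) ⧸ Γ), ?_⟩
      rw [h1, Prod.smul_mk, smul_zero]
      congr 1
      funext x
      obtain ⟨g, rfl⟩ := QuotientGroup.mk_surjective x
      have := h2 g ((1 : SL(2, ℤ)) : SL(2, ℤ) ⧸ Γ)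
      have h3 : g • ((1 : SL(2, ℤ)) : SL(2, ℤ) ⧸ Γ) = (g : SL(2, ℤ) ⧸ Γ) := by
        show ((g * 1 : SL(2, ℤ)) : SL(2, ℤ) ⧸ Γ) = _
        rw [mul_one]
      rw [h3] at this
      show v _ * 1 = v _
      rw [this, mul_one]
    refine (Submodule.finrank_mono hle).trans ((finrank_span_le_card _).trans ?_)
    simp
  have e1 : finrank F (LinearMap.range Ψ) + finrank F (LinearMap.ker Ψ)
      = finrank F (smallHoms Γ F) + Nat.card (SL(2, ℤ) ⧸ Γ) := by
    have h0 := rankNull (K := F) (V := smallHoms Γ F × V) (W := US Γ F × UR Γ F) Ψ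
    have hfree : Module.Free F (smallHoms Γ F) := Module.Free.of_divisionRing F (smallHoms Γ F)
    rw [h0, finrank_prod, finrank_fintype_fun_eq_card, Nat.card_eq_fintype_card]
  have e2 : finrank F (LinearMap.range (wm F Γ)) + finrank F (LinearMap.ker (wm F Γ))
      = finrank F (US Γ F) + finrank F (UR Γ F) := by
    have h0 := rankNull (K := F) (V := US Γ F × UR Γ F) (W := V) (wm F Γ)
    rw [h0, finrank_prod]
  have e3 : finrank F (LinearMap.range Ψ) ≤ finrank F K :=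
    Submodule.finrank_mono hrange
  have e4 : finrank F (US Γ F) + Nat.card (Orb (SL(2, ℤ) ⧸ Γ) (S : SL(2, ℤ)))
      ≤ Nat.card (SL(2, ℤ) ⧸ Γ) := finrank_zsum_add_le (F := F) (X := SL(2, ℤ) ⧸ Γ) (S : SL(2, ℤ))
  have e5 : finrank F (UR Γ F) + Nat.card (Orb (SL(2, ℤ) ⧸ Γ) (S * T : SL(2, ℤ)))
      ≤ Nat.card (SL(2, ℤ) ⧸ Γ) :=
    finrank_zsum_add_le (F := F) (X := SL(2, ℤ) ⧸ Γ) (S * T : SL(2, ℤ))
  have e6 := finrank_zsum_add_le (F := F) (X := SL(2, ℤ) ⧸ Γ) (T : SL(2, ℤ))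
  have e7 := natCard_le_finrank_range_wm F (Γ := Γ)
  have e8 : finrank F K ≤ finrank F (zsum F (SL(2, ℤ) ⧸ Γ) (T : SL(2, ℤ)))
      + finrank F (LinearMap.ker (wm F Γ)) := by
    set f := LinearMap.restrict (wm F Γ) (p := K) (q := zsum F (SL(2, ℤ) ⧸ Γ) (T : SL(2, ℤ)))
      (fun x hx => hx) with hf
    have h1 := rankNull (K := F) (V := K) (W := zsum F (SL(2, ℤ) ⧸ Γ) (T : SL(2, ℤ))) f
    rw [← h1]
    refine Nat.add_le_add (Submodule.finrank_le _) ?_
    exact LinearMap.finrank_le_finrank_of_injective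
      (f := LinearMap.restrict (K.subtype) (p := LinearMap.ker f)
        (q := LinearMap.ker (wm F Γ))
        (fun x hx => congrArg (fun z : zsum F (SL(2, ℤ) ⧸ Γ) (T : SL(2, ℤ)) => z.1) hx))
      (fun a b hab => Subtype.ext (Subtype.ext
          (congrArg (fun z : LinearMap.ker (wm F Γ) => z.1) hab)))
  omega

end Bound

end Fermat.Agent.H77.FieldGen
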