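import Mathlib
import Fermat.Agent.H77ParField

/-!
The quotient of `Γ^ab` by the parabolic and elliptic elements, and a criterion for it to be free.
-/

set_option autoImplicit false

open CongruenceSubgroup Module
open scoped MatrixGroups DirectSum

namespace Fermat.Agent.H8

section abstract_free

theorem free_of_finrank {Λ : Type*} [AddCommGroup Λ] [AddGroup.FG Λ] (g : ℕ)
    (hR : g ≤ finrank ℝ (Λ →+ ℝ))
    (hfin : ∀ (ℓ : ℕ) [Fact ℓ.Prime], Module.Finite (ZMod ℓ) (Λ →+ ZMod ℓ))
    (hle : ∀ (ℓ : ℕ) [Fact ℓ.Prime], finrank (ZMod ℓ) (Λ →+ ZMod ℓ) ≤ g) :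
    Module.Free ℤ Λ := by
  classical
  obtain ⟨n, ι, _, p, hp, e, ⟨f⟩⟩ := AddCommGroup.equiv_free_prod_directSum_zmod Λ
  -- the real dimension is at most `n`
  have h1 : finrank ℝ (Λ →+ ℝ) ≤ n := by
    let L : (Λ →+ ℝ) →ₗ[ℝ] (Fin n → ℝ) :=
      { toFun := fun χ i => χ (f.symm (Finsupp.single i 1, 0))
        map_add' := fun _ _ => rfl
        map_smul' := fun _ _ => rfl }
    have hL : Function.Injective L := by
      rw [injective_iff_map_eq_zero]
      intro χ hχ
      have hχ' : ∀ i, χ (f.symm (Finsupp.single i 1, 0)) = 0 := fun i => congrFun hχ i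
      have h2 : ∀ x : Fin n →₀ ℤ, χ (f.symm (x, 0)) = 0 := by
        intro x
        induction x using Finsupp.induction_linear with
        | zero => rw [Prod.mk_zero_zero, map_zero, map_zero]
        | add x y hx hy =>
          have : ((x + y, 0) : (Fin n →₀ ℤ) × (⨁ i : ι, ZMod (p i ^ e i))) = (x, 0) + (y, 0) := by simp
          rw [this, map_add, map_add, hx, hy, add_zero]
        | single i a =>
          have : ((Finsupp.single i a, 0) : (Fin n →₀ ℤ) × (⨁ i : ι, ZMod (p i ^ e i))) =
            a • (Finsupp.single i 1, 0) := by simp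
          rw [this, map_zsmul, map_zsmul, hχ' i, smul_zero]
      have h3 : ∀ t : ⨁ i : ι, ZMod (p i ^ e i), χ (f.symm (0, t)) = 0 := by
        intro t
        induction t using DirectSum.induction_on with
        | zero => rw [Prod.mk_zero_zero, map_zero, map_zero]
        | of i x =>
          have h4 : (p i ^ e i) • χ (f.symm (0, DirectSum.of _ i x)) = 0 := by
            rw [← map_nsmul, ← map_nsmul]
            have : (p i ^ e i) • ((0, DirectSum.of _ i x) : (Fin n →₀ ℤ) × (⨁ i : ι, ZMod (p i ^ e i))) = 0 := by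
              ext1
              · simp
              · show (p i ^ e i) • (DirectSum.of (fun i => ZMod (p i ^ e i)) i x) = 0
                rw [← map_nsmul]
                have : (p i ^ e i) • x = 0 := by
                  rw [nsmul_eq_mul, ZMod.natCast_self, zero_mul]
                rw [this, map_zero]
            rw [this, map_zero, map_zero]
          rw [nsmul_eq_mul] at h4
          have h5 : ((p i ^ e i : ℕ) : ℝ) ≠ 0 := by
            exact_mod_cast pow_ne_zero _ (hp i).ne_zero
          exact (mul_eq_zero.mp h4).resolve_left h5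
        | add x y hx hy =>
          have : ((0, x + y) : (Fin n →₀ ℤ) × (⨁ i : ι, ZMod (p i ^ e i))) = (0, x) + (0, y) := by simp
          rw [this, map_add, map_add, hx, hy, add_zero]
      ext y
      obtain ⟨⟨x, t⟩, rfl⟩ := f.symm.surjective y
      have : ((x, t) : (Fin n →₀ ℤ) × (⨁ i : ι, ZMod (p i ^ e i))) = (x, 0) + (0, t) := by simp
      rw [this, map_add, map_add, h2, h3, add_zero]
      rfl
    have := LinearMap.finrank_le_finrank_of_injective hL
    simpa using this
  -- all exponents vanish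
  have h2 : ∀ i, e i = 0 := by
    by_contra hcon
    push Not at hcon
    obtain ⟨i₀, hi₀⟩ := hcon
    have : Fact (p i₀).Prime := ⟨hp i₀⟩
    have := hfin (p i₀)
    set ℓ := p i₀ with hℓ
    let π : (⨁ i : ι, ZMod (p i ^ e i)) →+ ZMod ℓ :=
      (ZMod.castHom (dvd_pow_self (p i₀) hi₀) (ZMod (p i₀))).toAddMonoidHom.comp
        (DirectSum.component ℤ ι (fun i => ZMod (p i ^ e i)) i₀).toAddMonoidHom
    have hπ : π (DirectSum.of (fun i => ZMod (p i ^ e i)) i₀ 1) = 1 := by
      simp only [π, AddMonoidHom.comp_apply, LinearMap.toAddMonoidHom_coe, RingHom.toAddMonoidHom_eq_coe,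
        AddMonoidHom.coe_coe]
      have h8 : (DirectSum.component ℤ ι (fun i => ZMod (p i ^ e i)) i₀)
          (DirectSum.of (fun i => ZMod (p i ^ e i)) i₀ 1) = 1 :=
        DirectSum.component.lof_self (R := ℤ) (ι := ι) (M := fun i => ZMod (p i ^ e i)) i₀ 1
      rw [h8, map_one]
    let coord : Fin n → (Λ →+ ZMod ℓ) := fun i =>
      ((Int.castAddHom (ZMod ℓ)).comp (Finsupp.applyAddHom i)).comp ((AddMonoidHom.fst _ _).comp f.toAddMonoidHom)
    let last : (Λ →+ ZMod ℓ) := π.comp ((AddMonoidHom.snd _ _).comp f.toAddMonoidHom)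
    let L : ((Fin n → ZMod ℓ) × ZMod ℓ) →ₗ[ZMod ℓ] (Λ →+ ZMod ℓ) :=
      LinearMap.coprod (Fintype.linearCombination (ZMod ℓ) coord) (LinearMap.toSpanSingleton (ZMod ℓ) _ last)
    have hLapp : ∀ c x, L c x = (∑ i, c.1 i * coord i x) + c.2 * last x := by
      intro c x
      simp only [L, LinearMap.coprod_apply, Fintype.linearCombination_apply, LinearMap.toSpanSingleton_apply,
        AddMonoidHom.add_apply, AddMonoidHom.smul_apply, smul_eq_mul]
      congr 1
      rw [AddMonoidHom.finsetSum_apply]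
      rfl
    have hL : Function.Injective L := by
      rw [injective_iff_map_eq_zero]
      rintro ⟨c, d⟩ hc
      have e1 : ∀ j, c j = 0 := by
        intro j
        have := DFunLike.congr_fun hc (f.symm (Finsupp.single j 1, 0))
        rw [hLapp] at this
        have h5 : ∀ i, coord i (f.symm (Finsupp.single j 1, 0)) = if i = j then 1 else 0 := by
          intro i
          simp [coord, Finsupp.single_apply, eq_comm]
        have h6 : last (f.symm (Finsupp.single j 1, 0)) = 0 := by
          simp [last]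
        simp only [h5, h6] at this
        simpa using this
      have e2 : d = 0 := by
        have := DFunLike.congr_fun hc (f.symm (0, DirectSum.of (fun i => ZMod (p i ^ e i)) i₀ 1))
        rw [hLapp] at this
        have h6 : last (f.symm (0, DirectSum.of (fun i => ZMod (p i ^ e i)) i₀ 1)) = 1 := by
          simp only [last, AddMonoidHom.comp_apply, AddEquiv.coe_toAddMonoidHom, AddEquiv.apply_symm_apply,
            AddMonoidHom.coe_snd]
          exact hπ
        rw [h6] at this
        simpa [e1] using this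
      ext1
      · funext j; exact e1 j
      · exact e2
    have h7 := LinearMap.finrank_le_finrank_of_injective hL
    rw [Module.finrank_prod, Module.finrank_pi, Module.finrank_self, Fintype.card_fin] at h7
    have := hle ℓ
    omega
  have h3 : ∀ i, Subsingleton (ZMod (p i ^ e i)) := by
    intro i
    rw [h2 i, pow_zero]
    infer_instance
  have h4 : Subsingleton (⨁ i : ι, ZMod (p i ^ e i)) := by
    constructor
    intro a b
    refine DFinsupp.ext fun i => ?_
    exact Subsingleton.elim (a i) (b i)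
  have h5 : Unique (⨁ i : ι, ZMod (p i ^ e i)) := ⟨⟨0⟩, fun a => Subsingleton.elim _ _⟩
  let f' : Λ ≃+ (Fin n →₀ ℤ) := f.trans AddEquiv.prodUnique
  exact Module.Free.of_equiv f'.toIntLinearEquiv.symm

end abstract_free

section Lam

variable (Γ : Subgroup SL(2, ℤ))

/-- parabolic and elliptic elements of `Γ`. -/
def smallSet : Set Γ := {γ | ((γ : SL(2, ℤ)) : Matrix (Fin 2) (Fin 2) ℤ).trace ^ 2 ≤ 4}

/-- The quotient of `Γ^ab` by parabolic and elliptic elements. -/
abbrev Lam : Type := Additive (Abelianization Γ ⧸ Subgroup.closure (Abelianization.of '' smallSet Γ))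

/-- The projection `Γ → Λ`. -/
def proj : Additive Γ →+ Lam Γ :=
  MonoidHom.toAdditive ((QuotientGroup.mk' (Subgroup.closure (Abelianization.of '' smallSet Γ))).comp
    Abelianization.of)

theorem proj_surjective : Function.Surjective (proj Γ) := by
  intro x
  obtain ⟨y, hy⟩ := QuotientGroup.mk'_surjective _ (Additive.toMul x)
  obtain ⟨z, hz⟩ := QuotientGroup.mk'_surjective _ y
  refine ⟨Additive.ofMul z, ?_⟩
  show Additive.ofMul (QuotientGroup.mk' (Subgroup.closure (Abelianization.of '' smallSet Γ))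
    (Abelianization.of z)) = x
  have h1 : Abelianization.of z = y := hz
  rw [h1, hy]
  rfl

theorem proj_of_mem {γ : Γ} (hγ : γ ∈ smallSet Γ) : proj Γ (Additive.ofMul γ) = 0 := by
  show Additive.ofMul (QuotientGroup.mk' (Subgroup.closure (Abelianization.of '' smallSet Γ))
    (Abelianization.of γ)) = 0
  have h1 : Abelianization.of γ ∈ Subgroup.closure (Abelianization.of '' smallSet Γ) :=
    Subgroup.subset_closure ⟨γ, hγ, rfl⟩
  have h2 : QuotientGroup.mk' (Subgroup.closure (Abelianization.of '' smallSet Γ))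
    (Abelianization.of γ) = 1 := (QuotientGroup.eq_one_iff _).mpr h1
  rw [h2]
  rfl

theorem exists_lift {A : Type*} [AddCommGroup A] (φ : Additive Γ →+ A)
    (hφ : ∀ γ ∈ smallSet Γ, φ (Additive.ofMul γ) = 0) : ∃ χ : Lam Γ →+ A, χ.comp (proj Γ) = φ := by
  let φ' : Γ →* Multiplicative A := AddMonoidHom.toMultiplicativeRight φ
  let ψ : Abelianization Γ →* Multiplicative A := Abelianization.lift φ'
  have hψ : Subgroup.closure (Abelianization.of '' smallSet Γ) ≤ ψ.ker := by
    rw [Subgroup.closure_le]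
    rintro _ ⟨γ, hγ, rfl⟩
    show ψ (Abelianization.of γ) = 1
    rw [Abelianization.lift_apply_of]
    exact congrArg Multiplicative.ofAdd (hφ γ hγ)
  let χ := QuotientGroup.lift _ ψ hψ
  refine ⟨MonoidHom.toAdditiveLeft χ, ?_⟩
  refine AddMonoidHom.ext fun γ => ?_
  obtain ⟨γ, rfl⟩ := Additive.ofMul.surjective γ
  rfl

variable (F : Type*) [Field F]

/-- `Hom(Λ, F) → ` homs killing small elements. -/
def lamLin : (Lam Γ →+ F) →ₗ[F] H77.FieldGen.smallHoms Γ F where
  toFun χ := ⟨χ.comp (proj Γ), fun γ hγ => by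
    rw [AddMonoidHom.comp_apply, proj_of_mem Γ hγ, map_zero]⟩
  map_add' _ _ := rfl
  map_smul' _ _ := rfl

/-- `Hom(Λ, F)` is the space of homs killing small elements. -/
noncomputable def lamEquiv : (Lam Γ →+ F) ≃ₗ[F] H77.FieldGen.smallHoms Γ F :=
  LinearEquiv.ofBijective (lamLin Γ F)
    (by
      constructor
      · intro χ χ' h
        have h1 : χ.comp (proj Γ) = χ'.comp (proj Γ) := congrArg Subtype.val h
        refine AddMonoidHom.ext fun x => ?_
        obtain ⟨y, rfl⟩ := proj_surjective Γ x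
        exact DFunLike.congr_fun h1 y
      · rintro ⟨φ, hφ⟩
        obtain ⟨χ, hχ⟩ := exists_lift Γ φ (fun γ hγ => hφ γ hγ)
        exact ⟨χ, Subtype.ext hχ⟩)

instance groupFG_SL2Z : Group.FG SL(2, ℤ) := by
  rw [Group.fg_iff]
  exact ⟨{ModularGroup.S, ModularGroup.T}, SpecialLinearGroup.SL2Z_generators, by simp⟩

instance addGroupFG_Lam [Γ.FiniteIndex] : AddGroup.FG (Lam Γ) := by
  have h1 : Group.FG Γ := inferInstance
  have h2 : AddGroup.FG (Additive Γ) := inferInstance
  exact AddGroup.fg_of_surjective (proj_surjective Γ)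

/-- Criterion for freeness of `Λ`. -/
theorem lam_free [Γ.FiniteIndex] (g : ℕ) (hR : g ≤ finrank ℝ (H77.FieldGen.smallHoms Γ ℝ))
    (hfin : ∀ (ℓ : ℕ) [Fact ℓ.Prime], Module.Finite (ZMod ℓ) (H77.FieldGen.smallHoms Γ (ZMod ℓ)))
    (hle : ∀ (ℓ : ℕ) [Fact ℓ.Prime], finrank (ZMod ℓ) (H77.FieldGen.smallHoms Γ (ZMod ℓ)) ≤ g) :
    Module.Free ℤ (Lam Γ) := by
  apply free_of_finrank g
  · rwa [(lamEquiv Γ ℝ).finrank_eq]
  · intro ℓ _
    have := hfin ℓ
    exact Module.Finite.equiv (lamEquiv Γ (ZMod ℓ)).symm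
  · intro ℓ _
    rw [(lamEquiv Γ (ZMod ℓ)).finrank_eq]
    exact hle ℓ

/-- If `Λ` is free, homomorphisms killing small elements lift along surjections. -/
theorem exists_lift_of_free [Module.Free ℤ (Lam Γ)] {A B : Type*} [AddCommGroup A] [AddCommGroup B]
    (f : A →+ B) (hf : Function.Surjective f) (φ : Additive Γ →+ B)
    (hφ : ∀ γ ∈ smallSet Γ, φ (Additive.ofMul γ) = 0) :
    ∃ φ' : Additive Γ →+ A, (∀ γ ∈ smallSet Γ, φ' (Additive.ofMul γ) = 0) ∧ f.comp φ' = φ := by
  obtain ⟨χ, hχ⟩ := exists_lift Γ φ hφ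
  obtain ⟨χ', hχ'⟩ := Module.projective_lifting_property f.toIntLinearMap χ.toIntLinearMap hf
  refine ⟨χ'.toAddMonoidHom.comp (proj Γ), fun γ hγ => ?_, ?_⟩
  · rw [AddMonoidHom.comp_apply, proj_of_mem Γ hγ, map_zero]
  · rw [← hχ]
    refine AddMonoidHom.ext fun γ => ?_
    exact LinearMap.congr_fun hχ' (proj Γ γ)

end Lam

end Fermat.Agent.H8
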