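import Mathlib
import Fermat.Agent.H8ShimPeriod
import Fermat.Agent.H8ShimTF
import Fermat.Agent.H77ParFieldGenus
import Fermat.Prelude.Def_ModularCurve_ModularUnit

/-!
The Eisenstein quotient of the Hecke algebra of level `p` is at least as large as the numerator of
`(p - 1) / 12`: proof by the Shimura character.
-/

set_option autoImplicit false

open UpperHalfPlane hiding I
open CongruenceSubgroup ModularCurve Module
open scoped MatrixGroups ModularForm

namespace Fermat.Agent.H8

section elliptic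

theorem sq_eq_of_det_one (M : Matrix (Fin 2) (Fin 2) ℤ) (hM : M.det = 1) :
    M ^ 2 = M.trace • M - 1 := by
  rw [Matrix.det_fin_two] at hM
  ext i j
  fin_cases i <;> fin_cases j <;>
    simp [-zsmul_eq_mul, pow_two, Matrix.mul_apply, Fin.sum_univ_two, Matrix.trace_fin_two]
  · linear_combination -hM
  · ring
  · ring
  · linear_combination -hM

theorem pow_twelve_eq_one (γ : SL(2, ℤ)) (h : ((γ : Matrix (Fin 2) (Fin 2) ℤ)).trace ^ 2 < 4) :
    γ ^ 12 = 1 := by
  set M := (γ : Matrix (Fin 2) (Fin 2) ℤ) with hM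
  have h2 := sq_eq_of_det_one M γ.det_coe
  have ht : M.trace = -1 ∨ M.trace = 0 ∨ M.trace = 1 := by
    have h1 : M.trace < 2 := by nlinarith
    have h3 : -2 < M.trace := by nlinarith
    omega
  have key : M ^ 12 = 1 := by
    rcases ht with ht | ht | ht
    · rw [ht, neg_one_smul] at h2
      have h3 : M ^ 3 = 1 := by
        calc M ^ 3 = M * M ^ 2 := by rw [pow_succ' M 2]
          _ = M * (-M - 1) := by rw [h2]
          _ = - M ^ 2 - M := by rw [mul_sub, mul_neg, pow_two, mul_one]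
          _ = 1 := by rw [h2]; abel
      calc M ^ 12 = (M ^ 3) ^ 4 := by rw [← pow_mul]
        _ = 1 := by rw [h3, one_pow]
    · rw [ht, zero_smul, zero_sub] at h2
      calc M ^ 12 = (M ^ 2) ^ 6 := by rw [← pow_mul]
        _ = 1 := by rw [h2, Even.neg_one_pow (by decide)]
    · rw [ht, one_smul] at h2
      have h3 : M ^ 3 = -1 := by
        calc M ^ 3 = M * M ^ 2 := by rw [pow_succ' M 2]
          _ = M * (M - 1) := by rw [h2]
          _ = M ^ 2 - M := by rw [mul_sub, pow_two, mul_one]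
          _ = -1 := by rw [h2]; abel
      calc M ^ 12 = (M ^ 3) ^ 4 := by rw [← pow_mul]
        _ = 1 := by rw [h3, Even.neg_one_pow (by decide)]
  apply Subtype.ext
  rw [Matrix.SpecialLinearGroup.coe_pow]
  exact key

theorem kills_of_parabolic {Γ : Subgroup SL(2, ℤ)} {F : Type*} [Field F] [CharZero F]
    (φ : Additive Γ →+ F)
    (hφ : ∀ γ : Γ, ((γ : SL(2, ℤ)) : Matrix (Fin 2) (Fin 2) ℤ).trace ^ 2 = 4 → φ (Additive.ofMul γ) = 0)
    (γ : Γ) (hγ : ((γ : SL(2, ℤ)) : Matrix (Fin 2) (Fin 2) ℤ).trace ^ 2 ≤ 4) :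
    φ (Additive.ofMul γ) = 0 := by
  rcases hγ.lt_or_eq with h | h
  · have h1 : γ ^ 12 = 1 := by
      apply Subtype.ext
      rw [Subgroup.coe_pow]
      exact pow_twelve_eq_one _ h
    have h2 : (12 : ℕ) • φ (Additive.ofMul γ) = 0 := by
      rw [← map_nsmul, ← ofMul_pow, h1, ofMul_one, map_zero]
    rw [nsmul_eq_mul] at h2
    exact (mul_eq_zero.mp h2).resolve_left (by norm_num)
  · exact hφ γ h

end elliptic

section real

variable (N : ℕ) [NeZero N]

/-- The real part of the period map. -/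
noncomputable def realPeriod : CuspForm (Gamma0 N) 2 →ₗ[ℝ] H77.FieldGen.smallHoms (Gamma0 N) ℝ where
  toFun f := ⟨Complex.reAddGroupHom.comp (periodMap N f), fun γ hγ => by
    have h := kills_of_parabolic (periodMap N f) (fun γ hγ => H21.periodMap_mem_parabolicHoms f γ hγ) γ hγ
    rw [AddMonoidHom.comp_apply, h, map_zero]⟩
  map_add' f g := by
    apply Subtype.ext
    refine AddMonoidHom.ext fun γ => ?_
    simp [periodMap_add]
  map_smul' c f := by
    apply Subtype.ext
    refine AddMonoidHom.ext fun γ => ?_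
    have h : periodMap N (c • f) = (c : ℂ) • periodMap N f := periodMap_smul (c : ℂ) f
    show (periodMap N (c • f) γ).re = c * (periodMap N f γ).re
    rw [h, AddMonoidHom.smul_apply, smul_eq_mul, Complex.re_ofReal_mul]

theorem realPeriod_coe (f : CuspForm (Gamma0 N) 2) :
    (realPeriod N f : Additive (Gamma0 N) →+ ℝ) = Complex.reAddGroupHom.comp (periodMap N f) := rfl

theorem realPeriod_injective : Function.Injective (realPeriod N) := by
  rw [injective_iff_map_eq_zero]
  intro f hf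
  have h1 : Complex.reAddGroupHom.comp (periodMap N f) = 0 := by
    rw [← realPeriod_coe, hf]; rfl
  have h2 : (f : ℍ → ℂ) = 0 := by
    refine H21.eq_zero_of_re_invariant (N := N) (H21.prim_isPrim f) (fun γ hγ => ?_) (fun δ => ?_)
    · refine ⟨periodMap N f (Additive.ofMul ⟨γ, hγ⟩), DFunLike.congr_fun h1 _, fun z => ?_⟩
      exact (H21.periodMap_apply f ⟨γ, hγ⟩ z).symm
    · exact (H21.prim_spec f).2.2.2 δ
  exact DFunLike.coe_injective h2

variable {N}

theorem realPeriod_surjective (hS20 : (finrank ℂ (CuspForm (Gamma0 N) 2) : ℚ) = genusFormula N) :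
    Function.Surjective (realPeriod N) ∧
      finrank ℝ (H77.FieldGen.smallHoms (Gamma0 N) ℝ) = 2 * finrank ℂ (CuspForm (Gamma0 N) 2) := by
  have hfin0 : Module.Finite ℝ (H77.FieldGen.smallHoms (Gamma0 N) ℝ) := inferInstance
  have hnoeth : IsNoetherian ℝ (H77.FieldGen.smallHoms (Gamma0 N) ℝ) :=
    @isNoetherian_of_isNoetherianRing_of_finite ℝ (H77.FieldGen.smallHoms (Gamma0 N) ℝ) _
      inferInstance inferInstance inferInstance hfin0
  have hfin : Module.Finite ℝ (CuspForm (Gamma0 N) 2) :=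
    Module.Finite.of_injective _ (realPeriod_injective N)
  have h1 : finrank ℝ (CuspForm (Gamma0 N) 2) = 2 * finrank ℂ (CuspForm (Gamma0 N) 2) :=
    finrank_real_of_complex _
  have h2 := LinearMap.finrank_le_finrank_of_injective (realPeriod_injective N)
  have h3 := H77.FieldGen.finrank_smallHoms_le ℝ N
  rw [← hS20] at h3
  have h4 : finrank ℝ (H77.FieldGen.smallHoms (Gamma0 N) ℝ) ≤ 2 * finrank ℂ (CuspForm (Gamma0 N) 2) := by
    exact_mod_cast h3
  have h5 : finrank ℝ (CuspForm (Gamma0 N) 2) = finrank ℝ (H77.FieldGen.smallHoms (Gamma0 N) ℝ) := by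
    omega
  refine ⟨?_, by omega⟩
  have h6 := @LinearMap.injective_iff_surjective_of_finrank_eq_finrank ℝ (CuspForm (Gamma0 N) 2)
    _ _ _ (H77.FieldGen.smallHoms (Gamma0 N) ℝ) inferInstance inferInstance hfin hfin0 h5
    (realPeriod N)
  exact h6.mp (realPeriod_injective N)

theorem lam_free_Gamma0 (hS20 : (finrank ℂ (CuspForm (Gamma0 N) 2) : ℚ) = genusFormula N) :
    Module.Free ℤ (Lam (Gamma0 N)) := by
  apply lam_free (Gamma0 N) (2 * finrank ℂ (CuspForm (Gamma0 N) 2))
  · exact (realPeriod_surjective hS20).2.ge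
  · intro ℓ _
    infer_instance
  · intro ℓ _
    have h3 := H77.FieldGen.finrank_smallHoms_le (ZMod ℓ) N
    rw [← hS20] at h3
    exact_mod_cast h3

/-- An element of the (free) Hecke algebra acting as zero on `S₂(Γ₀(N))` acts as zero on
`Hom(Γ₀(N) / (parabolic, elliptic), ℤ)`. -/
theorem act_eq_zero (hS20 : (finrank ℂ (CuspForm (Gamma0 N) 2) : ℚ) = genusFormula N)
    (P : FreeAlgebra ℤ Nat.Primes) (hP : CuspForm.heckeEvalForms N 2 (toMv P) = 0)
    (φ : Additive (Gamma0 N) →+ ℤ) (hφ : ∀ γ ∈ smallSet (Gamma0 N), φ (Additive.ofMul γ) = 0) :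
    act N ℤ P φ = 0 := by
  obtain ⟨f, hf⟩ := (realPeriod_surjective hS20).1
    ⟨(Int.castAddHom ℝ).comp φ, fun γ hγ => by rw [AddMonoidHom.comp_apply, hφ γ hγ, map_zero]⟩
  have h1 : Complex.reAddGroupHom.comp (periodMap N f) = (Int.castAddHom ℝ).comp φ :=
    congrArg Subtype.val hf
  have h2 : (Int.castAddHom ℝ).comp (act N ℤ P φ) = 0 := by
    rw [← act_comp, ← h1, act_comp, periodMap_act, hP]
    have : periodMap N (((0 : CuspForm.heckeAlgebra N 2 ∅) : Module.End ℂ (CuspForm (Gamma0 N) 2)) f) = 0 := by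
      have h3 : (((0 : CuspForm.heckeAlgebra N 2 ∅) : Module.End ℂ (CuspForm (Gamma0 N) 2)) f) = 0 := rfl
      rw [h3, ← periodLin_apply, map_zero]
    rw [this, AddMonoidHom.comp_zero]
  refine AddMonoidHom.ext fun γ => ?_
  have h3 := DFunLike.congr_fun h2 γ
  rw [AddMonoidHom.comp_apply] at h3
  simpa using h3

end real

section shimura

variable (p : ℕ) [Fact p.Prime]

theorem chi_surjective : Function.Surjective (chi p) := by
  intro u
  have hp : p.Prime := Fact.out
  have hcop : Nat.Coprime (u : ZMod p).val p := ZMod.val_coe_unit_coprime u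
  have h1 : IsCoprime ((u : ZMod p).val : ℤ) (p : ℤ) := Nat.isCoprime_iff_coprime.mpr hcop
  obtain ⟨a, b, hab⟩ := h1
  let g : SL(2, ℤ) := ⟨!![((u : ZMod p).val : ℤ), -b; (p : ℤ), a], by
    rw [Matrix.det_fin_two_of]; linear_combination hab⟩
  have hg : g ∈ Gamma0 p := by
    rw [gamma0_mem_iff]
    simp [g]
  refine ⟨⟨g, hg⟩, ?_⟩
  ext
  rw [coe_chi]
  simp [g]

theorem chi_pow_twelve (γ : Gamma0 p) (hγ : γ ∈ smallSet (Gamma0 p)) : (chi p γ) ^ 12 = 1 := by
  have h1 := chi_aux p γ
  set u : ZMod p := (((γ : SL(2, ℤ)) 0 0 : ℤ) : ZMod p) with hu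
  set v : ZMod p := (((γ : SL(2, ℤ)) 1 1 : ℤ) : ZMod p) with hv
  have h2 : ((γ : SL(2, ℤ)) : Matrix (Fin 2) (Fin 2) ℤ).trace ^ 2 ≤ 4 := hγ
  rw [Matrix.trace_fin_two] at h2
  set t : ℤ := (γ : SL(2, ℤ)) 0 0 + (γ : SL(2, ℤ)) 1 1 with ht
  have h3 : (t : ZMod p) = u + v := by rw [ht, hu, hv]; push_cast; rfl
  have ht' : t = -2 ∨ t = -1 ∨ t = 0 ∨ t = 1 ∨ t = 2 := by
    have h4 : t ≤ 2 := by nlinarith
    have h5 : -2 ≤ t := by nlinarith
    omega
  have key : u ^ 12 = 1 := by
    rcases ht' with h | h | h | h | h <;> rw [h] at h3 <;> push_cast at h3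
    · have h4 : (u + 1) ^ 2 = 0 := by linear_combination (-u) * h3 - h1
      have h5 : u = -1 := by
        have := pow_eq_zero_iff (two_ne_zero) |>.mp h4
        linear_combination this
      rw [h5, Even.neg_one_pow (by decide)]
    · have h4 : u ^ 2 = - u - 1 := by linear_combination (-u) * h3 - h1
      have h5 : u ^ 3 = 1 := by linear_combination (u - 1) * h4
      linear_combination (u ^ 9 + u ^ 6 + u ^ 3 + 1) * h5
    · have h4 : u ^ 2 = - 1 := by linear_combination (-u) * h3 - h1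
      linear_combination (u ^ 10 - u ^ 8 + u ^ 6 - u ^ 4 + u ^ 2 - 1) * h4
    · have h4 : u ^ 2 = u - 1 := by linear_combination (-u) * h3 - h1
      have h5 : u ^ 3 = -1 := by linear_combination (u + 1) * h4
      linear_combination (u ^ 9 - u ^ 6 + u ^ 3 - 1) * h5
    · have h4 : (u - 1) ^ 2 = 0 := by linear_combination (-u) * h3 - h1
      have h5 : u = 1 := by
        have := pow_eq_zero_iff (two_ne_zero) |>.mp h4
        linear_combination this
      rw [h5, one_pow]
  ext
  rw [Units.val_pow_eq_pow_val, coe_chi, Units.val_one]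
  exact key

/-- The group of `gcd(p-1, 12)`-th powers. -/
abbrev shimB : Subgroup (ZMod p)ˣ := (powMonoidHom (Nat.gcd (p - 1) 12) : (ZMod p)ˣ →* (ZMod p)ˣ).range

theorem natCard_shimB : Nat.card (shimB p) = eisensteinNumerator p := by
  have h1 : Nat.card (ZMod p)ˣ = p - 1 := by
    rw [Nat.card_eq_fintype_card, ZMod.card_units]
  rw [shimB, IsCyclic.card_powMonoidHom_range, eisensteinNumerator, h1]
  congr 1
  exact Nat.gcd_eq_right (Nat.gcd_dvd_left _ _)

/-- The Shimura character. -/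
noncomputable def shimL : (ZMod p)ˣ →* shimB p :=
  (powMonoidHom (Nat.gcd (p - 1) 12) : (ZMod p)ˣ →* (ZMod p)ˣ).rangeRestrict

theorem shimL_surjective : Function.Surjective (shimL p) := MonoidHom.rangeRestrict_surjective _

/-- **Lower bound** for the Eisenstein quotient. -/
theorem eisensteinNumerator_dvd_aeval
    (hS20 : (finrank ℂ (CuspForm (Gamma0 p) 2) : ℚ) = genusFormula p)
    (P : HeckeAlg) (hP : CuspForm.heckeEvalForms p 2 P = 0) :
    (eisensteinNumerator p : ℤ) ∣ MvPolynomial.aeval (eisensteinSystem p) P := by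
  obtain ⟨P, rfl⟩ := toMv_surjective P
  have := lam_free_Gamma0 hS20
  obtain ⟨b, hb⟩ := IsCyclic.exists_generator (α := shimB p)
  let f : ℤ →+ Additive (shimB p) := zmultiplesHom _ (Additive.ofMul b)
  have hf : Function.Surjective f := by
    intro x
    obtain ⟨k, hk⟩ := Subgroup.mem_zpowers_iff.mp (hb (Additive.toMul x))
    exact ⟨k, congrArg Additive.ofMul hk⟩
  set ψ : Additive (Gamma0 p) →+ Additive (shimB p) :=
    MonoidHom.toAdditive ((shimL p).comp (chi p)) with hψ
  have hψs : ∀ γ ∈ smallSet (Gamma0 p), ψ (Additive.ofMul γ) = 0 := by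
    intro γ hγ
    have h1 := chi_pow_twelve p γ hγ
    have h2 : (chi p γ) ^ (p - 1) = 1 := ZMod.units_pow_card_sub_one_eq_one p _
    have h3 : (chi p γ) ^ (Nat.gcd (p - 1) 12) = 1 := pow_gcd_eq_one.mpr ⟨h2, h1⟩
    show Additive.ofMul (shimL p (chi p γ)) = 0
    have h4 : shimL p (chi p γ) = 1 := Subtype.ext h3
    rw [h4]; rfl
  obtain ⟨φ, hφ, hφψ⟩ := exists_lift_of_free (Gamma0 p) f hf ψ hψs
  have h1 := act_eq_zero hS20 P hP φ hφ
  have h2 : act p (Additive (shimB p)) P ψ = 0 := by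
    rw [← hφψ, act_comp, h1, AddMonoidHom.comp_zero]
  have h3 : act p (Additive (shimB p)) P ψ = MvPolynomial.aeval (eisensteinSystem p) (toMv P) • ψ := by
    apply act_eigen
    intro q
    rw [hψ, tau_chi]
    rfl
  rw [h2] at h3
  set m := MvPolynomial.aeval (eisensteinSystem p) (toMv P) with hm
  obtain ⟨γ, hγ⟩ := (shimL_surjective p).comp (chi_surjective p) b
  have h4 : b ^ m = 1 := by
    have h5 := DFunLike.congr_fun h3 (Additive.ofMul γ)
    have h6 : (m • ψ) (Additive.ofMul γ) = Additive.ofMul (b ^ m) := by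
      rw [← hγ]; rfl
    rw [h6] at h5
    exact (congrArg Additive.toMul h5).symm
  rw [← natCard_shimB, ← orderOf_eq_card_of_forall_mem_zpowers hb]
  exact orderOf_dvd_iff_zpow_eq_one.mpr h4

end shimura

end Fermat.Agent.H8
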