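import Fermat.Agent.H90Rel

set_option autoImplicit false

/-!
# Quotients of good functions which are holomorphic are good (helper4, BRIDGE)
-/

open UpperHalfPlane hiding I
open Complex MatrixGroups ModularGroup Fermat.Agent.H61 ModularCurve Fermat.Agent.H24 AlgebraicCurve
open CongruenceSubgroup Fermat.Agent.H90 Filter
open scoped Manifold Real Polynomial Topology

namespace Fermat.Agent.H4

noncomputable section

local notation "𝕢" => Function.Periodic.qParam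

/-- A Laurent series without negative coefficients is bounded near `i∞`. -/
lemma isBounded_evalAt_of_coeff_neg (N : ℕ) [NeZero N] {F : LaurentSeries ℂ} (hF : IsConv F)
    (h0 : ∀ n < (0 : ℤ), F.coeff n = 0) :
    IsBoundedAtImInfty fun τ : ℍ => evalAt (𝕢 (N : ℝ) τ) F := by
  have hN : (0 : ℝ) < N := by exact_mod_cast Nat.pos_of_ne_zero (NeZero.ne N)
  exact isBoundedAtImInfty_of_hasSum_qExpansion (c := fun m => F.coeff (m : ℤ)) hN (fun τ => by
    have := hasSum_pow_of_coeff_neg hF h0 (Function.Periodic.qParam_ne_zero (h := (N : ℝ)) τ)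
      (qParam_norm_lt_one N τ)
    simpa using this)

lemma norm_qParam_le_exp (N : ℕ) [NeZero N] (τ : ℍ) :
    ‖𝕢 (N : ℝ) τ‖ = Real.exp (-2 * π * τ.im / N) := by
  rw [Function.Periodic.norm_qParam]
  rfl

/-- lower bound for nonzero expansions near `i∞`. -/
lemma exists_lower_bound (N : ℕ) [NeZero N] {F : LaurentSeries ℂ} (hF : IsConv F) (hF0 : F ≠ 0) :
    ∃ (k : ℕ) (B A : ℝ), 0 < B ∧ ∀ τ : ℍ, A ≤ τ.im →
      B * ‖𝕢 (N : ℝ) τ‖ ^ k ≤ ‖evalAt (𝕢 (N : ℝ) τ) F‖ := by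
  have hN : (0 : ℝ) < N := by exact_mod_cast Nat.pos_of_ne_zero (NeZero.ne N)
  set m := F.order with hm
  set c := F.coeff m with hc
  have hc0 : c ≠ 0 := fun h => hF0 (HahnSeries.coeff_order_eq_zero.mp h)
  set F1 : LaurentSeries ℂ := HahnSeries.single (-m) 1 * F with hF1
  have hF1c : IsConv F1 := (isConv_single _ _).mul hF
  have hF1coeff : ∀ n : ℤ, F1.coeff n = F.coeff (n + m) := by
    intro n
    rw [hF1, HahnSeries.coeff_single_mul, one_mul, sub_neg_eq_add]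
  set F2 : LaurentSeries ℂ := HahnSeries.single (-1) 1 * (F1 - HahnSeries.single 0 c) with hF2
  have hF2c : IsConv F2 := (isConv_single _ _).mul (isConv_sub hF1c (isConv_single _ _))
  have hF2neg : ∀ n < (0 : ℤ), F2.coeff n = 0 := by
    intro n hn
    rw [hF2, HahnSeries.coeff_single_mul, one_mul, sub_neg_eq_add, HahnSeries.coeff_sub, hF1coeff]
    rcases eq_or_ne (n + 1) 0 with h | h
    · rw [h, zero_add, HahnSeries.coeff_single_same, ← hc, sub_self]
    · rw [HahnSeries.coeff_single_of_ne h, sub_zero]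
      apply HahnSeries.coeff_eq_zero_of_lt_order
      omega
  obtain ⟨M, A, hMA⟩ := isBoundedAtImInfty_iff.1 (isBounded_evalAt_of_coeff_neg N hF2c hF2neg)
  -- evaluate
  have hev : ∀ τ : ℍ, evalAt (𝕢 (N : ℝ) τ) F =
      (𝕢 (N : ℝ) τ) ^ m * (c + 𝕢 (N : ℝ) τ * evalAt (𝕢 (N : ℝ) τ) F2) := by
    intro τ
    have hq0 : 𝕢 (N : ℝ) τ ≠ 0 := Function.Periodic.qParam_ne_zero _
    have hq1 := qParam_norm_lt_one N τ
    rw [hF2, evalAt_mul (isConv_single _ _) (isConv_sub hF1c (isConv_single _ _)) hq0 hq1,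
      evalAt_single, evalAt_sub hF1c (isConv_single _ _) hq0 hq1, hF1,
      evalAt_mul (isConv_single _ _) hF hq0 hq1, evalAt_single, evalAt_single]
    simp only [zpow_neg, zpow_one, zpow_zero, one_mul, mul_one]
    field_simp
    ring
  -- `q → 0`
  have hq : ∃ A' : ℝ, ∀ τ : ℍ, A' ≤ τ.im → ‖𝕢 (N : ℝ) τ‖ * |M| ≤ ‖c‖ / 2 := by
    have h1 : Tendsto (fun y : ℝ => Real.exp (-2 * π * y / N) * |M|) atTop (𝓝 (0 * |M|)) := by
      apply Tendsto.mul_const
      apply Real.tendsto_exp_atBot.comp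
      have : (fun y : ℝ => -2 * π * y / N) = fun y : ℝ => (-(2 * π / N)) * y := by
        funext y; ring
      rw [this]
      exact (tendsto_const_mul_atBot_of_neg (by
        have := Real.pi_pos
        have : 0 < 2 * π / N := by positivity
        linarith)).2 tendsto_id
    rw [zero_mul] at h1
    have h2 : ∀ᶠ y in atTop, Real.exp (-2 * π * y / N) * |M| < ‖c‖ / 2 :=
      h1.eventually_lt_const (by have := norm_pos_iff.2 hc0; linarith)
    obtain ⟨A', hA'⟩ := h2.exists_forall_of_atTop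
    refine ⟨A', fun τ hτ => ?_⟩
    rw [norm_qParam_le_exp]
    exact (hA' _ hτ).le
  obtain ⟨A', hA'⟩ := hq
  refine ⟨m.toNat, ‖c‖ / 2, max A A', by have := norm_pos_iff.2 hc0; linarith, fun τ hτ => ?_⟩
  have h1 := hMA τ ((le_max_left _ _).trans hτ)
  have h2 := hA' τ ((le_max_right _ _).trans hτ)
  have hq1 := qParam_norm_lt_one N τ
  have hq0 : 0 < ‖𝕢 (N : ℝ) τ‖ := norm_pos_iff.2 (Function.Periodic.qParam_ne_zero _)
  rw [hev, norm_mul, norm_zpow]
  have h3 : ‖c‖ / 2 ≤ ‖c + 𝕢 (N : ℝ) τ * evalAt (𝕢 (N : ℝ) τ) F2‖ := by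
    have h4 : ‖𝕢 (N : ℝ) τ * evalAt (𝕢 (N : ℝ) τ) F2‖ ≤ ‖c‖ / 2 := by
      rw [norm_mul]
      refine le_trans ?_ h2
      gcongr
      exact h1.trans (le_abs_self M)
    have h5 : ‖c‖ ≤ ‖c + 𝕢 (N : ℝ) τ * evalAt (𝕢 (N : ℝ) τ) F2‖ +
        ‖𝕢 (N : ℝ) τ * evalAt (𝕢 (N : ℝ) τ) F2‖ := by
      have := norm_sub_le (c + 𝕢 (N : ℝ) τ * evalAt (𝕢 (N : ℝ) τ) F2)
        (𝕢 (N : ℝ) τ * evalAt (𝕢 (N : ℝ) τ) F2)
      rwa [add_sub_cancel_right] at this
    linarith
  have h6 : ‖𝕢 (N : ℝ) τ‖ ^ m.toNat ≤ ‖𝕢 (N : ℝ) τ‖ ^ m := by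
    rw [← zpow_natCast]
    exact zpow_le_zpow_right_of_le_one₀ hq0 hq1.le (Int.self_le_toNat m)
  rw [mul_comm]
  exact mul_le_mul h6 h3 (by positivity) (by positivity)

/-- a holomorphic quotient of functions with expansions has an expansion -/
theorem mem_ExpAlg_of_mul (N : ℕ) [NeZero N] {P D C : ℍ → ℂ} (hP : P ∈ Hol)
    (hper : ∀ τ : ℍ, P ((T ^ N : SL(2, ℤ)) • τ) = P τ) (hD : D ∈ ExpAlg (chart_qParam N))
    (hD0 : D ≠ 0) (hC : C ∈ ExpAlg (chart_qParam N)) (h : ∀ τ, P τ * D τ = C τ) :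
    P ∈ ExpAlg (chart_qParam N) := by
  obtain ⟨F, hF⟩ := hD
  have hF0 : F ≠ 0 := by
    rintro rfl
    apply hD0
    funext τ
    rw [← hF.2 τ (Function.Periodic.qParam_ne_zero _)]
    simp [evalAt]
  obtain ⟨k, B, A, hB, hlow⟩ := exists_lower_bound N hF.1 hF0
  obtain ⟨k', hk'⟩ := isBounded_of_mem_ExpAlg N hC
  obtain ⟨M, A', hA'⟩ := isBoundedAtImInfty_iff.1 hk'
  refine exists_hasExpC_of_bounded N hP hper (k + k') ?_
  rw [isBoundedAtImInfty_iff]
  refine ⟨M / B, max A A', fun τ hτ => ?_⟩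
  have h1 := hlow τ ((le_max_left _ _).trans hτ)
  rw [hF.2 τ (Function.Periodic.qParam_ne_zero _)] at h1
  have h2 := hA' τ ((le_max_right _ _).trans hτ)
  rw [← h τ, norm_mul, norm_mul, norm_pow] at h2
  rw [norm_mul, norm_pow, le_div_iff₀ hB, pow_add]
  have h3 : ‖P τ‖ * (B * ‖𝕢 (N : ℝ) τ‖ ^ k) * ‖𝕢 (N : ℝ) τ‖ ^ k' ≤
      ‖P τ‖ * ‖D τ‖ * ‖𝕢 (N : ℝ) τ‖ ^ k' := by gcongr
  calc ‖P τ‖ * (‖𝕢 (N : ℝ) τ‖ ^ k * ‖𝕢 (N : ℝ) τ‖ ^ k') * B
      = ‖P τ‖ * (B * ‖𝕢 (N : ℝ) τ‖ ^ k) * ‖𝕢 (N : ℝ) τ‖ ^ k' := by ring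
    _ ≤ ‖P τ‖ * ‖D τ‖ * ‖𝕢 (N : ℝ) τ‖ ^ k' := h3
    _ ≤ M := h2

variable (K : Type*) [Field K] [Algebra K ℂ] [IsAlgClosed K] [CharZero K] [Algebra ℚ K]
variable {N : ℕ} [NeZero N]

/-- **Holomorphic quotients of good series are good.** -/
theorem good_of_div {y c d : LaurentSeries K} {P : ℍ → ℂ} (hc : Good K N c) (hd : Good K N d)
    (hd0 : d ≠ 0) (h : y * d = c) (hP : P ∈ Hol) (hPd : ∀ τ, P τ * ev K d τ = ev K c τ) :
    Good K N y ∧ ev K y = P := by
  have hevd : ev K d ≠ 0 := ev_ne_zero hd.conv hd0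
  -- invariance of `P`
  have hinv : ∀ γ ∈ CongruenceSubgroup.Gamma0 N, compHom γ P = P := by
    intro γ hγ
    have h1 : (compHom γ P - P) * ev K d = 0 := by
      funext τ
      have h2 := hPd (γ • τ)
      have h3 := congrFun (hd.inv γ hγ) τ
      have h4 := congrFun (hc.inv γ hγ) τ
      simp only [compHom_apply] at h3 h4
      rw [h3, h4] at h2
      simp only [Pi.mul_apply, Pi.sub_apply, compHom_apply, Pi.zero_apply]
      rw [sub_mul, h2, hPd τ, sub_self]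
    rcases hol_eq_zero_or (Hol.sub_mem (compHom_mem_Hol γ hP) hP) hd.hol h1 with h2 | h2
    · exact sub_eq_zero.1 h2
    · exact absurd h2 hevd
  -- expansions of `P`
  have hexp : ∀ γ : SL(2, ℤ), compHom γ P ∈ ExpAlg (chart_qParam N) := by
    intro γ
    refine mem_ExpAlg_of_mul N (compHom_mem_Hol γ hP) (fun τ => ?_) (hd.exp γ) ?_ (hc.exp γ)
      (fun τ => hPd (γ • τ))
    · have h2 := congrFun (hinv _ (T_pow_mem_Gamma0 (N := N) γ)) (γ • τ)
      simp only [compHom_apply] at h2 ⊢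
      rw [← h2, ← mul_smul, ← mul_smul, inv_mul_cancel_right]
    · intro h0
      apply hevd
      funext τ
      have := congrFun h0 (γ⁻¹ • τ)
      rw [compHom_apply, smul_inv_smul] at this
      exact this
  obtain ⟨W, hW, hWP⟩ := exists_good hP hinv hexp
  have hWc : IsConv W := by have := hW.conv; rwa [incl_complex] at this
  -- `W = incl y`
  have hWy : W = incl K y := by
    have h1 : W * incl K d = incl K c := by
      refine eq_of_evalAt_qParam_eq 1 (hWc.mul hd.conv) hc.conv fun τ => ?_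
      rw [Nat.cast_one, evalAt_mul hWc hd.conv (Function.Periodic.qParam_ne_zero _)
        (norm_qParam_one τ)]
      have h1 : evalAt (𝕢 (1 : ℝ) τ) W = P τ := by
        have := congrFun hWP τ
        rwa [ev, incl_complex] at this
      rw [h1]
      exact hPd τ
    rw [← h, map_mul] at h1
    have h2 : incl K d ≠ 0 := fun h0 => hd0 (incl_injective K (h0.trans (map_zero _).symm))
    exact mul_right_cancel₀ h2 h1
  have hev : ev K y = P := by
    rw [← hWP]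
    ext τ
    rw [ev, ev, incl_complex, hWy]
  refine ⟨⟨?_, ?_, ?_, ?_⟩, hev⟩
  · rw [← hWy]; exact hWc
  · rw [hev]; exact hP
  · intro γ; rw [hev]; exact hexp γ
  · intro γ hγ; rw [hev]; exact hinv γ hγ

end

end Fermat.Agent.H4
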