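import Fermat.Agent.H4NormForm
import Fermat.Agent.H90Rel
import Fermat.Agent.H4GoodDiv

set_option autoImplicit false

/-!
# The Kummer relation is Hecke equivariant (helper4, BRIDGE M-F)
-/

open UpperHalfPlane hiding I
open Complex MatrixGroups ModularGroup Fermat.Agent.H61 ModularCurve Fermat.Agent.H24 AlgebraicCurve
open CongruenceSubgroup Fermat.Agent.H90
open scoped Manifold Real Polynomial

namespace Fermat.Agent.H4

noncomputable section

variable (K : Type*) [Field K] [Algebra K ℂ] [IsAlgClosed K] [CharZero K] [Algebra ℚ K]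
variable {N ℓ : ℕ} [NeZero N] [NeZero ℓ]

omit [Algebra K ℂ] in
/-- the divisor side: `div (N_α (β a)) = n T_ℓ D` if `div a = n D`. -/
theorem ord_normAlpha_beta {a : FN K N} (ha : a ≠ 0) {n : ℕ} {D : Divisor K (FN K N)}
    (hD : ∀ v : Place K (FN K N), v.ord a = n * D v)
    [HasPrincipalDivisors K (FN K (N * ℓ))]
    (hα : HeckeAlphaBarIntegral K N ℓ) (hβ : HeckeBetaBarIntegral K N ℓ)
    (v : Place K (FN K N)) :
    v.ord (normAlpha K N ℓ (heckeBetaBar K N ℓ a)) =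
      n * (Divisor.correspondence (heckeBetaBar K N ℓ) (heckeAlphaBar K N ℓ) hβ hα D) v := by
  have hβa : heckeBetaBar K N ℓ a ≠ 0 := by
    rw [ne_eq, map_eq_zero]; exact ha
  have hfin : FiniteAlong K (heckeAlphaBar K N ℓ) := H67.finiteAlong_FB K (heckeAlphaBar K N ℓ)
  have hN : NormFormulaAlong K (heckeAlphaBar K N ℓ) hfin :=
    H67.normFormulaAlong_FB K (heckeAlphaBar K N ℓ) hfin
  have h1 : ∀ w : Place K (FN K (N * ℓ)),
      ((n : ℤ) • Divisor.pullbackAlong (heckeBetaBar K N ℓ) hβ D) w =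
        w.ord (heckeBetaBar K N ℓ a) := by
    intro w
    rw [Place.ord_restrictAlong (heckeBetaBar K N ℓ) hβ w a, hD]
    have h2 := Divisor.pullbackAlong_apply (heckeBetaBar K N ℓ) hβ D w
    rw [Finsupp.smul_apply, h2, smul_eq_mul]
    ring
  letI := algebraAlong (heckeAlphaBar K N ℓ)
  haveI := isScalarTower_along (heckeAlphaBar K N ℓ)
  haveI := isIntegral_along (heckeAlphaBar K N ℓ) hα
  haveI : Module.Finite (FN K N) (FN K (N * ℓ)) := hfin
  have h3 := hN (heckeBetaBar K N ℓ a) hβa _ h1 v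
  rw [map_zsmul] at h3
  rw [Divisor.correspondence_apply]
  exact h3.symm

variable {K}

/-- `N_α (β a)` is good with function `∏ ev a (rep x • τ)`. -/
theorem good_normAlpha_beta [hℓ : Fact ℓ.Prime] (hℓN : ¬ ℓ ∣ N) {a : FN K N}
    (ha : Good K N a.1) :
    Good K N (normAlpha K N ℓ (heckeBetaBar K N ℓ a)).1 ∧
      ev K (normAlpha K N ℓ (heckeBetaBar K N ℓ a)).1 =
        fun τ => ∏ x : OnePoint (ZMod ℓ), ev K a.1 (rep ℓ x • τ) := by
  obtain ⟨c, d, hd, hcd⟩ := exists_eq_div K (normAlpha K N ℓ (heckeBetaBar K N ℓ a))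
  have h1 : normAlpha K N ℓ (heckeBetaBar K N ℓ a) * toF K N d = toF K N c := by
    rw [hcd, div_mul_cancel₀ _ (toF_ne_zero K hd)]
  refine good_of_div K (good_of_mem K c.2) (good_of_mem K d.2) (fun h => hd (Subtype.ext h))
    (congrArg Subtype.val h1) (prod_rep_mem_Hol ha.hol) (fun τ => ?_)
  exact (ev_normAlpha_beta K hℓN ha h1 τ).symm

/-- multiplicative compatibility, for `Mu`-valued characters -/
theorem prod_rep_smul_Mu [Fact ℓ.Prime] (hℓN : ¬ ℓ ∣ N) (h : ℍ → ℂ)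
    (χ : Additive (Gamma0 N) →+ Mu)
    (hF : ∀ (γ : Gamma0 N) (τ : ℍ), h ((γ : SL(2, ℤ)) • τ) = (χ (Additive.ofMul γ)).val * h τ)
    (γ : Gamma0 N) (τ : ℍ) :
    ∏ x : OnePoint (ZMod ℓ), h (rep ℓ x • ((γ : SL(2, ℤ)) • τ)) =
      (heckeHom hℓN χ (Additive.ofMul γ)).val * ∏ x : OnePoint (ZMod ℓ), h (rep ℓ x • τ) :=
  prod_rep_smul hℓN h χ hF γ τ

/-- **The Kummer relation is Hecke equivariant.** -/
theorem rel_hecke [hℓ : Fact ℓ.Prime] (hℓN : ¬ ℓ ∣ N) {n : ℕ} {c : Pic0 K (FX K N)}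
    {χ : Additive (Gamma0 N) →+ Mu} (h : Rel n c χ) :
    Rel n (heckeOperatorAlong K N ℓ c) (heckeHom hℓN χ) := by
  obtain ⟨D, a, f, hD, ha, hg, hord, hf, hfn, hχ⟩ := h
  obtain ⟨hα, hβ, hP, hfin, hFI, hN⟩ := H67.heckeInputsAlong K N ℓ
  haveI := hP
  obtain ⟨hgood, hev⟩ := good_normAlpha_beta hℓN hg
  refine ⟨Pic0.degZeroCorrespondence (heckeBetaBar K N ℓ) (heckeAlphaBar K N ℓ) hβ hα hFI D,
    normAlpha K N ℓ (heckeBetaBar K N ℓ a), fun τ => ∏ x : OnePoint (ZMod ℓ), f (rep ℓ x • τ),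
    ?_, ?_, hgood, ?_, prod_rep_mem_Hol hf, ?_, ?_⟩
  · rw [heckeOperatorAlong_eq hα hβ hFI hfin hN, ← hD]
    exact (Pic0.correspondence_mk _ _ hβ hα hFI hfin hN D).symm
  · have hβa : heckeBetaBar K N ℓ a ≠ 0 := by
      rw [ne_eq, map_eq_zero]; exact ha
    letI := algebraAlong (heckeAlphaBar K N ℓ)
    haveI : Module.Finite (FN K N) (FN K (N * ℓ)) := hfin
    exact Algebra.norm_ne_zero_iff.mpr hβa
  · intro v
    exact ord_normAlpha_beta K ha hord hα hβ v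
  · rw [hev]
    funext τ
    rw [Pi.pow_apply, ← Finset.prod_pow]
    refine Finset.prod_congr rfl fun x _ => ?_
    exact congrFun hfn (rep ℓ x • τ)
  · intro γ τ
    exact prod_rep_smul_Mu hℓN f χ hχ γ τ

end

end Fermat.Agent.H4
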