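import Fermat.Agent.H24Final
import Fermat.Agent.H90Field

/-!
# The place dictionary for `X₀(N)` (BRIDGE M-C, helper96)

Every place of the function field of `X₀(N)` comes from a chart on `ℍ` (at a point or at a cusp)
and an element `γ ∈ SL₂(ℤ)`.
-/

set_option autoImplicit false

noncomputable section

namespace Fermat.Agent.H96

open UpperHalfPlane hiding I
open Complex MatrixGroups ModularGroup ModularCurve Fermat.Agent.H24 Fermat.Agent.H94 Fermat.Agent.H61
open CongruenceSubgroup AlgebraicCurve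
open scoped Manifold

/-- The dictionary statement: a place of a field `F` of Laurent series seen on `ℍ`. -/
def PlaceChart (K : Type*) [Field K] [Algebra K ℂ] (N : ℕ) [NeZero N]
    (F : IntermediateField K (LaurentSeries K)) (v : Place K F) : Prop :=
  ∃ (z : ℍ → ℂ) (_ : Chart z) (γ : SL(2, ℤ)) (m : ℕ), 0 < m ∧
    (∀ x : F, Good K N (x : LaurentSeries K) → x ≠ 0 →
      ∃ X, HasExpC z (compHom γ (ev K (x : LaurentSeries K))) X ∧ X.order = m * v.ord x) ∧
    (∀ g ∈ Hol, (∀ δ, compHom δ g ∈ ExpAlg (chart_qParam N)) →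
      ∃ G, HasExpC z (compHom γ g) G) ∧
    (∀ g ∈ Hol, (∀ σ ∈ Gamma0 N, ((σ : SL(2, ℤ)) : Matrix (Fin 2) (Fin 2) ℤ).trace ^ 2 ≤ 4 →
      compHom σ g = g) → ∀ G, HasExpC z (compHom γ g) G → G ≠ 0 → (m : ℤ) ∣ G.order)

section

variable {K : Type*} [Field K] [Algebra K ℂ] {N : ℕ} [NeZero N] {z : ℍ → ℂ}

theorem pow_smul_chart {γ₀ : SL(2, ℤ)} {ζ : ℂˣ} (hγ₀ : ∀ τ, z (γ₀ • τ) = ζ * z τ) (d : ℕ) (τ : ℍ) :
    z (γ₀ ^ d • τ) = ((ζ ^ d : ℂˣ) : ℂ) * z τ := by
  induction d with
  | zero => simp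
  | succ d ih =>
    rw [pow_succ', mul_smul, hγ₀, ih, pow_succ']
    push_cast
    ring

/-- Invariance under `γ₀^d` forces divisibility of the order. -/
theorem dvd_order_of_invariant (hz : Chart z) {γ₀ : SL(2, ℤ)} {ζ : ℂˣ} (hζ : ‖(ζ : ℂ)‖ = 1)
    (hγ₀ : ∀ τ, z (γ₀ • τ) = ζ * z τ) {e : ℕ} (hprim : IsPrimitiveRoot (ζ : ℂ) e)
    {d m : ℕ} (hd : 0 < d) (hmd : m * d = e) {f : ℍ → ℂ} (hf : ∀ τ, f (γ₀ ^ d • τ) = f τ)
    {G : LaurentSeries ℂ} (hG : HasExpC z f G) (hG0 : G ≠ 0) : (m : ℤ) ∣ G.order := by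
  have h1 : HasExpC z f (twist (ζ ^ d) G) := by
    refine ⟨isConv_twist (by simp [hζ]) hG.1, fun τ hτ => ?_⟩
    have h2 : z (γ₀ ^ d • τ) ≠ 0 := by
      rw [pow_smul_chart hγ₀]
      exact mul_ne_zero (Units.ne_zero _) hτ
    rw [evalAt_twist, ← pow_smul_chart hγ₀, hG.2 _ h2, hf]
  have h2 : twist (ζ ^ d) G = G := h1.unique hz hG
  have h3 := HahnSeries.coeff_order_eq_zero.not.mpr hG0
  have h4 : (((ζ ^ d) ^ G.order : ℂˣ) : ℂ) * G.coeff G.order = G.coeff G.order := by
    rw [← twist_coeff, h2]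
  have h5 : (((ζ ^ d) ^ G.order : ℂˣ) : ℂ) = 1 := mul_right_cancel₀ h3 (h4.trans (one_mul _).symm)
  have h6 : (ζ : ℂ) ^ ((d : ℤ) * G.order) = 1 := by
    rw [← h5, zpow_mul]
    push_cast
    rw [zpow_natCast]
  rw [hprim.zpow_eq_one_iff_dvd, ← hmd] at h6
  push_cast at h6
  rw [mul_comm] at h6
  exact Int.dvd_of_mul_dvd_mul_left (by exact_mod_cast hd.ne') h6

/-- An expansion of a good element of the function field is given by the embedding. -/
theorem hasExpC_of_good (hz : GoodChart K N z)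
    (hexp : ∀ f ∈ Hol, (∀ δ, compHom δ f ∈ ExpAlg (chart_qParam N)) → f ∈ ExpAlg hz.chart)
    (γ : SL(2, ℤ)) (x : modularFunctionFieldFullC K N) (hx : Good K N (x : LaurentSeries K)) :
    HasExpC z (compHom γ⁻¹ (ev K (x : LaurentSeries K))) (sF hz (QuotientGroup.mk γ) x) := by
  obtain ⟨X, hX⟩ : compHom γ⁻¹ (ev K (x : LaurentSeries K)) ∈ ExpAlg hz.chart := by
    refine hexp _ (compHom_mem_Hol _ hx.hol) fun δ => ?_
    rw [compHom_mul]
    exact hx.exp _
  obtain ⟨a, b, hb, hab⟩ := IsFractionRing.div_surjective (A := A K N) x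
  have hb0 : b ≠ 0 := nonZeroDivisors.ne_zero hb
  have hbF : algebraMap (A K N) (modularFunctionFieldFullC K N) b ≠ 0 := by
    intro h
    exact hb0 (IsFractionRing.injective (A K N) (modularFunctionFieldFullC K N)
      (h.trans (map_zero _).symm))
  have hmul : algebraMap (A K N) (modularFunctionFieldFullC K N) b * x =
      algebraMap (A K N) (modularFunctionFieldFullC K N) a := by
    rw [← hab, mul_div_cancel₀ _ hbF]
  have hmul2 : (b : LaurentSeries K) * (x : LaurentSeries K) = (a : LaurentSeries K) :=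
    congrArg (fun f : modularFunctionFieldFullC K N => (f : LaurentSeries K)) hmul
  have hB := phi_spec hz γ⁻¹ b
  have hA := phi_spec hz γ⁻¹ a
  have h1 : HasExpC z (fun τ => ev K a (γ⁻¹ • τ)) (phi hz γ⁻¹ b * X) := by
    refine ⟨hB.1.mul hX.1, fun τ hτ => ?_⟩
    rw [evalAt_mul hB.1 hX.1 hτ (hz.chart.lt τ), hB.2 τ hτ, hX.2 τ hτ, ← hmul2,
      ev_mul K (good_of_mem K b.2).conv hx.conv]
    rfl
  have h2 : phi hz γ⁻¹ b * X = phi hz γ⁻¹ a := h1.unique hz.chart hA
  have h3 : sF hz (QuotientGroup.mk γ) x = X := by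
    have h4 := congrArg (sF hz (QuotientGroup.mk γ)) hmul
    rw [map_mul, sF_algebraMap, sF_algebraMap, sA_mk, ← h2] at h4
    exact mul_left_cancel₀ ((map_ne_zero_iff _ (phi_injective hz γ⁻¹)).mpr hb0) h4
  rw [h3]
  exact hX

/-- The dictionary in a given chart. -/
theorem placeChart_of_chart [IsAlgClosed K] (hz : GoodChart K N z)
    (hexp : ∀ f ∈ Hol, (∀ δ, compHom δ f ∈ ExpAlg (chart_qParam N)) → f ∈ ExpAlg hz.chart)
    {γ₀ : SL(2, ℤ)} {ζ : ℂˣ} (hζ : ‖(ζ : ℂ)‖ = 1)
    (hγ₀ : ∀ τ, z (γ₀ • τ) = ζ * z τ) {e : ℕ} (he : 0 < e) (hprim : IsPrimitiveRoot (ζ : ℂ) e)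
    (htr : ∀ d : ℕ, d ∣ e → ((γ₀ ^ d : SL(2, ℤ)) : Matrix (Fin 2) (Fin 2) ℤ).trace ^ 2 ≤ 4)
    {x : modularFunctionFieldFullC K N} (hxt : Transcendental K x)
    (hfin : Nat.card (SL(2, ℤ) ⧸ Gamma0 N) =
      Module.finrank (IntermediateField.adjoin K {x}) (modularFunctionFieldFullC K N))
    {y : LaurentSeries ℂ} (hx : ∀ g, sF hz g x = y)
    (hy : y.order = e) (v : Place K (modularFunctionFieldFullC K N)) (hv : 0 < v.ord x) :
    PlaceChart K N (modularFunctionFieldFullC K N) v := by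
  have : CharZero K := charZero_of_algebra
  have : Fintype (SL(2, ℤ) ⧸ Gamma0 N) := Fintype.ofFinite _
  have hprim' : IsPrimitiveRoot (((ζ⁻¹ : ℂˣ) : ℂ)) e := by
    have := hprim.inv
    simpa using this
  obtain ⟨V, hV1, -, hV3, -, hV5, -⟩ := exists_places_orbits hxt (sF hz) (sF_injective hz)
    (by rw [← Nat.card_eq_fintype_card]; exact hfin) hx he hy hprim'
    (π := MulAction.toPerm γ₀) (fun g f n => sF_smul_coeff' hz hζ hγ₀ g f n)
  obtain ⟨g, rfl⟩ := hV3 v hv
  obtain ⟨m, hm, hmo⟩ := exists_order_eq_mul (V g) (sF hz g) (hV1 g)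
  lift m to ℕ using hm.le
  set d := Function.minimalPeriod (MulAction.toPerm γ₀ : Equiv.Perm (SL(2, ℤ) ⧸ Gamma0 N)) g with hd
  have hmd : m * d = e := by
    have h1 := hmo x
    rw [hx, hy, hV5] at h1
    exact_mod_cast h1.symm
  have hd0 : 0 < d := by
    rcases Nat.eq_zero_or_pos d with h | h
    · rw [h, mul_zero] at hmd; omega
    · exact h
  have hperiod : γ₀ ^ d • g = g := by
    have h1 := Function.iterate_minimalPeriod
      (f := (MulAction.toPerm γ₀ : Equiv.Perm (SL(2, ℤ) ⧸ Gamma0 N))) (x := g)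
    have h2 : ∀ (k : ℕ) (g : SL(2, ℤ) ⧸ Gamma0 N),
        (MulAction.toPerm γ₀ : Equiv.Perm (SL(2, ℤ) ⧸ Gamma0 N))^[k] g = γ₀ ^ k • g := by
      intro k
      induction k with
      | zero => intro g; simp
      | succ k ih => intro g; rw [Function.iterate_succ_apply', ih, pow_succ', mul_smul]; rfl
    rw [h2] at h1
    exact h1
  induction g using QuotientGroup.induction_on with
  | H γ' =>
    refine ⟨z, hz.chart, γ'⁻¹, m, by exact_mod_cast hm, ?_, ?_, ?_⟩
    · intro f hf hf0
      exact ⟨_, hasExpC_of_good hz hexp γ' f hf, hmo f⟩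
    · intro f hf hfe
      refine hexp _ (compHom_mem_Hol _ hf) fun δ => ?_
      rw [compHom_mul]
      exact hfe _
    · intro f hf hinv G hG hG0
      have hσ : γ'⁻¹ * γ₀ ^ d * γ' ∈ Gamma0 N := by
        have h1 : (QuotientGroup.mk (γ₀ ^ d * γ') : SL(2, ℤ) ⧸ Gamma0 N) = QuotientGroup.mk γ' :=
          hperiod
        have h2 := QuotientGroup.eq.mp h1.symm
        rwa [← mul_assoc] at h2
      have htr2 : ((γ'⁻¹ * γ₀ ^ d * γ' : SL(2, ℤ)) : Matrix (Fin 2) (Fin 2) ℤ).trace ^ 2 ≤ 4 := by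
        have h1 : ((γ'⁻¹ * γ₀ ^ d * γ' : SL(2, ℤ)) : Matrix (Fin 2) (Fin 2) ℤ).trace =
            ((γ₀ ^ d : SL(2, ℤ)) : Matrix (Fin 2) (Fin 2) ℤ).trace := by
          rw [Matrix.SpecialLinearGroup.coe_mul, Matrix.trace_mul_comm,
            ← Matrix.SpecialLinearGroup.coe_mul, ← mul_assoc, mul_inv_cancel, one_mul]
        rw [h1]
        exact htr d ⟨m, by rw [← hmd, mul_comm]⟩
      refine dvd_order_of_invariant hz.chart hζ hγ₀ hprim hd0 hmd (fun τ => ?_) hG hG0
      have h1 := congrFun (hinv _ hσ htr2) (γ'⁻¹ • τ)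
      simp only [compHom_apply] at h1 ⊢
      rw [← h1, ← mul_smul, ← mul_smul]
      congr 2
      group

end

section

variable {K : Type*} [Field K] [Algebra K ℂ] {N : ℕ} [NeZero N]

theorem finrank_sub (a : K) : Nat.card (SL(2, ℤ) ⧸ Gamma0 N) =
    Module.finrank (IntermediateField.adjoin K {jF K N - algebraMap K _ a})
      (modularFunctionFieldFullC K N) := by
  have : Fintype (SL(2, ℤ) ⧸ Gamma0 N) := Fintype.ofFinite _
  rw [Nat.card_eq_fintype_card, ← finrank_eq (K := K) (N := N)]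
  have h : IntermediateField.adjoin K {jF K N - algebraMap K _ a} =
      IntermediateField.adjoin K {jF K N} := by
    apply le_antisymm
    · rw [IntermediateField.adjoin_simple_le_iff]
      exact sub_mem (IntermediateField.mem_adjoin_simple_self K _)
        (IntermediateField.algebraMap_mem _ _)
    · rw [IntermediateField.adjoin_simple_le_iff]
      have := add_mem (IntermediateField.mem_adjoin_simple_self K (jF K N - algebraMap K _ a))
        (IntermediateField.algebraMap_mem (IntermediateField.adjoin K {jF K N - algebraMap K _ a}) a)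
      rwa [sub_add_cancel] at this
  rw [h]

theorem finrank_inv : Nat.card (SL(2, ℤ) ⧸ Gamma0 N) =
    Module.finrank (IntermediateField.adjoin K {(jF K N)⁻¹})
      (modularFunctionFieldFullC K N) := by
  have : Fintype (SL(2, ℤ) ⧸ Gamma0 N) := Fintype.ofFinite _
  rw [Nat.card_eq_fintype_card, ← finrank_eq (K := K) (N := N)]
  have h : IntermediateField.adjoin K {(jF K N)⁻¹} =
      IntermediateField.adjoin K {jF K N} := by
    apply le_antisymm
    · rw [IntermediateField.adjoin_simple_le_iff]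
      exact inv_mem (IntermediateField.mem_adjoin_simple_self K _)
    · rw [IntermediateField.adjoin_simple_le_iff]
      have := inv_mem (IntermediateField.mem_adjoin_simple_self K (jF K N)⁻¹)
      rwa [inv_inv] at this
  rw [h]

omit [NeZero N] in
theorem transcendental_sub (a : K) : Transcendental K (jF K N - algebraMap K _ a) := by
  intro h
  apply transcendental_jF (K := K) (N := N)
  have := h.add (isAlgebraic_algebraMap a)
  rwa [sub_add_cancel] at this

omit [NeZero N] in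
theorem transcendental_jF_inv : Transcendental K (jF K N)⁻¹ := by
  intro h
  apply transcendental_jF (K := K) (N := N)
  have := h.inv
  rwa [inv_inv] at this

theorem trace_T_pow (d : ℕ) : ((T ^ d : SL(2, ℤ)) : Matrix (Fin 2) (Fin 2) ℤ).trace ^ 2 ≤ 4 := by
  have h : ((T ^ d : SL(2, ℤ)) : Matrix (Fin 2) (Fin 2) ℤ) = !![1, (d : ℤ); 0, 1] := by
    have := ModularGroup.coe_T_zpow (d : ℤ)
    rwa [zpow_natCast] at this
  rw [h, Matrix.trace_fin_two]
  simp

theorem trace_S_pow (d : ℕ) (hd : d ∣ 2) :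
    ((S ^ d : SL(2, ℤ)) : Matrix (Fin 2) (Fin 2) ℤ).trace ^ 2 ≤ 4 := by
  rw [Nat.dvd_prime Nat.prime_two] at hd
  rcases hd with rfl | rfl <;> decide

theorem trace_ST_pow (d : ℕ) (hd : d ∣ 3) :
    (((S * T) ^ d : SL(2, ℤ)) : Matrix (Fin 2) (Fin 2) ℤ).trace ^ 2 ≤ 4 := by
  rw [Nat.dvd_prime Nat.prime_three] at hd
  rcases hd with rfl | rfl <;> decide

/-- **The place dictionary**, for `K(j(dτ) : d ∣ N)`. -/
theorem placeChart_fullC [IsAlgClosed K] (v : Place K (modularFunctionFieldFullC K N)) :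
    PlaceChart K N (modularFunctionFieldFullC K N) v := by
  have : CharZero K := charZero_of_algebra
  have hcay : ∀ (τ₀ : ℍ), ∀ f ∈ Hol, (∀ δ, compHom δ f ∈ ExpAlg (chart_qParam N)) →
      f ∈ ExpAlg (goodChart_cayley K N τ₀).chart := fun τ₀ f hf _ => Hol_le_ExpAlg_cayley τ₀ hf
  rcases lt_or_ge (v.ord (jF K N)) 0 with hj | hj
  · -- cusps
    have hj' : 0 < v.ord (jF K N)⁻¹ := by rw [v.ord_inv]; omega
    have hq : HasExpC (fun τ : ℍ => Function.Periodic.qParam (N : ℝ) τ) jInv
        (qExpand ℂ N (jqModC ℂ)) :=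
      ⟨isConv_qExpand N isConv_jqModC, fun τ _ => evalAt_qExpand_J isConv_jqModC evalAt_jqModC N τ⟩
    have hne : qExpand ℂ N (jqModC ℂ) ≠ 0 := by
      intro h
      have := order_qExpand N (jqModC ℂ)
      rw [h, order_jqModC, HahnSeries.order_zero] at this
      have hN : (N : ℤ) ≠ 0 := by exact_mod_cast NeZero.ne N
      apply hN; linarith
    refine placeChart_of_chart (goodChart_qParam K N) (fun f _ hf => ?_) (norm_zetaU N)
      (qParam_T_smul N) (Nat.pos_of_ne_zero (NeZero.ne N)) (zetaU_isPrimitiveRoot N)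
      (fun d _ => trace_T_pow d) transcendental_jF_inv finrank_inv
      (y := (qExpand ℂ N (jqModC ℂ))⁻¹) (fun g => ?_) ?_ v hj'
    · have := hf 1
      have h1 : compHom 1 f = f := by ext τ; simp
      rwa [h1] at this
    · rw [map_inv₀, sF_jF _ g hq]
    · rw [order_inv' hne, order_qExpand, order_jqModC]; ring
  · -- finite places
    obtain ⟨a, ha'⟩ := exists_sub_algebraMap_ord_pos v (mem_of_ord_nonneg v hj)
    have ha : 0 < v.ord (jF K N - algebraMap K _ a) := by
      rcases ha' with h | h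
      · exact absurd (h ▸ isAlgebraic_zero) (transcendental_sub (N := N) a)
      · exact h
    by_cases ha0 : a = 0
    · subst ha0
      obtain ⟨ζ, hζ, hζ2⟩ := exists_cayley_ρ_ST
      obtain ⟨y, hy, hy2⟩ := exists_expansion_sub (K := K) (N := N) UpperHalfPlane.ρ (a := 0)
        (e := 3) (by rw [jInv_ρ, map_zero]) (by rw [analyticOrderAt_jInv, if_pos jInv_ρ]; rfl)
      have h0 : ζ ≠ 0 := hζ.ne_zero (by norm_num)
      exact placeChart_of_chart (goodChart_cayley K N UpperHalfPlane.ρ) (hcay _)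
        (ζ := Units.mk0 ζ h0) (hζ.norm'_eq_one (by norm_num)) hζ2 (by norm_num) hζ trace_ST_pow
        (transcendental_sub 0) (finrank_sub 0) hy2 hy v ha
    · by_cases ha1 : a = 1728
      · subst ha1
        obtain ⟨y, hy, hy2⟩ := exists_expansion_sub (K := K) (N := N) UpperHalfPlane.I (a := 1728)
          (e := 2) (by rw [jInv_I, map_ofNat]) (by
            rw [analyticOrderAt_jInv, if_neg (by rw [jInv_I]; norm_num), if_pos jInv_I]; rfl)
        exact placeChart_of_chart (goodChart_cayley K N UpperHalfPlane.I) (hcay _) (ζ := -1)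
          (by simp) (fun τ => by rw [cayley_I_S]; simp) (by norm_num)
          (by simpa using IsPrimitiveRoot.neg_one 0 (by norm_num)) trace_S_pow
          (transcendental_sub _) (finrank_sub _) hy2 hy v ha
      · obtain ⟨τ₀, hτ₀⟩ := jInv_surjective (algebraMap K ℂ a)
        have h1 : jInv τ₀ ≠ 0 := by rw [hτ₀]; simpa using ha0
        have h2 : jInv τ₀ ≠ 1728 := by
          rw [hτ₀]
          intro h
          apply ha1
          apply (algebraMap K ℂ).injective
          rw [h, map_ofNat]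
        obtain ⟨y, hy, hy2⟩ := exists_expansion_sub (K := K) (N := N) τ₀ (a := a) (e := 1) hτ₀ (by
          rw [analyticOrderAt_jInv, if_neg h1, if_neg h2]; rfl)
        refine placeChart_of_chart (goodChart_cayley K N τ₀) (hcay _) (ζ := 1) (γ₀ := 1)
          (by simp) (fun τ => by simp) (by norm_num)
          (by simp) (fun d _ => by rw [one_pow]; decide)
          (transcendental_sub _) (finrank_sub _) hy2 hy v ha

theorem placeChart_of_eq [IsAlgClosed K] (F : IntermediateField K (LaurentSeries K))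
    (hF : F = modularFunctionFieldFullC K N) (v : Place K F) : PlaceChart K N F v := by
  subst hF
  exact placeChart_fullC v

variable [Algebra ℚ K]

/-- **The place dictionary** for the function field of `X₀(N)`. -/
theorem placeChart [IsAlgClosed K]
    (v : Place K (laurentBaseChange K (modularFunctionFieldFull N))) :
    PlaceChart K N (laurentBaseChange K (modularFunctionFieldFull N)) v :=
  placeChart_of_eq _ (laurentBaseChange_full K N) v

end

end Fermat.Agent.H96
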