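import Fermat.Agent.H90Surj
import Fermat.Agent.H96Chart
import Fermat.Agent.H4RelHecke

/-!
# The bridge between torsion of the Jacobian of `X₀(N)` and characters of `Γ₀(N)`
(BRIDGE, helper90; with helper4 and helper96)
-/

set_option autoImplicit false
set_option linter.unusedSectionVars false

noncomputable section

namespace Fermat.Agent.H90

open UpperHalfPlane hiding I
open Complex MatrixGroups ModularGroup ModularCurve Fermat.Agent.H24 Filter AlgebraicCurve
open CongruenceSubgroup

section

variable (K : Type*) [Field K] [Algebra K ℂ] [IsAlgClosed K] [CharZero K] [Algebra ℚ K]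
variable (N : ℕ) [NeZero N]

/-- The dictionary between places and charts holds. -/
theorem placeDict : PlaceDict K N := by
  intro v
  obtain ⟨z, hz, γ, m, hm, h1, h2, h3⟩ := H96.placeChart (K := K) (N := N) v
  exact ⟨z, hz, γ, m, hm, h1, h2, fun g hg hσ G hG hG0 =>
    h3 g hg (fun σ hσ' htr => hσ ⟨σ, hσ'⟩ htr) G hG hG0⟩

variable {K N}

/-- **Surjectivity of the Kummer correspondence.** -/
theorem exists_rel_of_isPE {n : ℕ} (hn : n ≠ 0) (φ : Additive (Gamma0 N) →+ Mu) (hφ : H4.IsPE φ)
    (hnφ : n • φ = 0) : ∃ c : Pic0 K (FX K N), Rel n c φ :=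
  exists_rel_of_char (placeDict ℂ N) (placeDict K N) hn φ hφ hnφ

end

end Fermat.Agent.H90

end
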