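import Fermat.Agent.H4FaithfulJ
import Fermat.Agent.H90Bridge
import Fermat.Agent.H8ShimMain
import Fermat.Agent.H80S20
import Fermat.Agent.H4Periods
import Fermat.Agent.H35Mult
import Fermat.Agent.H67Galois

/-!
# Hecke relations on cusp forms hold on the torsion of the Jacobian

`smul_eq_zero_of_evEnd`: an integral polynomial in the `T_ℓ` killing `S_2(Γ₀(N))` kills the torsion of
`J_0(N)`.
-/

set_option autoImplicit false
set_option linter.unusedSectionVars false
set_option linter.style.haveILetI false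

noncomputable section

open UpperHalfPlane hiding I
open Complex MatrixGroups ModularGroup ModularCurve AlgebraicCurve
open CongruenceSubgroup Fermat.Agent.H90 Fermat.Agent.H31 Fermat.Agent.H4

namespace Fermat.Agent.H35

section Link

variable {K : Type*} [Field K] [Algebra K ℂ] [IsAlgClosed K] [CharZero K] [Algebra ℚ K]
variable {N : ℕ} [NeZero N]

/-- The torsion class `c` corresponds to the integral period class of `f`. -/
def Link (e : ℤ →+ Mu) (n : ℕ) (c : Pic0 K (FX K N)) (f : CuspForm (Gamma0 N) 2) : Prop :=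
  ∃ φ : Additive (Gamma0 N) →+ ℤ,
    (Int.castAddHom ℝ).comp φ = Complex.reAddGroupHom.comp (periodMap N f) ∧
    Rel n c (e.comp φ)

variable {e : ℤ →+ Mu} {n : ℕ} {c c' : Pic0 K (FX K N)} {f f' : CuspForm (Gamma0 N) 2}

theorem Link.add (h : Link e n c f) (h' : Link e n c' f') : Link e n (c + c') (f + f') := by
  obtain ⟨φ, h1, h2⟩ := h
  obtain ⟨φ', h1', h2'⟩ := h'
  refine ⟨φ + φ', ?_, ?_⟩
  · rw [AddMonoidHom.comp_add, h1, h1', periodMap_add', AddMonoidHom.comp_add]
  · rw [AddMonoidHom.comp_add]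
    exact h2.add h2'

theorem Link.nsmul (h : Link e n c f) (k : ℕ) : Link e n (k • c) (k • f) := by
  obtain ⟨φ, h1, h2⟩ := h
  refine ⟨k • φ, ?_, ?_⟩
  · refine AddMonoidHom.ext fun γ => ?_
    have h3 := DFunLike.congr_fun h1 γ
    simp only [AddMonoidHom.comp_apply, Int.coe_castAddHom, Complex.coe_reAddGroupHom] at h3
    have h4 : periodMap N (k • f) = (k : ℂ) • periodMap N f := by
      rw [← periodMap_smul', Nat.cast_smul_eq_nsmul]
    simp only [AddMonoidHom.comp_apply, Int.coe_castAddHom, Complex.coe_reAddGroupHom, h4,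
      AddMonoidHom.smul_apply, smul_eq_mul, nsmul_eq_mul, Int.cast_mul, Int.cast_natCast]
    rw [h3]
    simp
  · have h3 : e.comp (k • φ) = k • e.comp φ := by
      refine AddMonoidHom.ext fun γ => ?_
      exact map_nsmul e k (φ γ)
    rw [h3]
    exact h2.nsmul k

theorem Link.neg (h : Link e n c f) (hn : n ≠ 0) : Link e n (-c) (-f) := by
  obtain ⟨φ, h1, h2⟩ := h
  refine ⟨-φ, ?_, ?_⟩
  · have h4 : periodMap N (-f) = - periodMap N f := by
      have := periodMap_smul' (N := N) (-1) f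
      simpa using this
    refine AddMonoidHom.ext fun γ => ?_
    have h3 := DFunLike.congr_fun h1 γ
    simp only [AddMonoidHom.comp_apply, Int.coe_castAddHom, Complex.coe_reAddGroupHom] at h3
    simp only [AddMonoidHom.comp_apply, Int.coe_castAddHom, Complex.coe_reAddGroupHom, h4,
      AddMonoidHom.neg_apply, Int.cast_neg, Complex.neg_re]
    rw [h3]
  · have h3 : e.comp (-φ) = - e.comp φ := by
      refine AddMonoidHom.ext fun γ => ?_
      simp [AddMonoidHom.comp_apply]
    rw [h3]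
    exact h2.neg hn

theorem Link.zsmul (h : Link e n c f) (hn : n ≠ 0) (k : ℤ) : Link e n (k • c) (k • f) := by
  obtain ⟨m, rfl | rfl⟩ := k.eq_nat_or_neg
  · rw [natCast_zsmul, natCast_zsmul]
    exact h.nsmul m
  · rw [neg_zsmul, neg_zsmul, natCast_zsmul, natCast_zsmul]
    exact (h.nsmul m).neg hn

theorem Link.hecke (h : Link e n c f) {ℓ : ℕ} [hℓ : Fact ℓ.Prime] (hℓN : ¬ ℓ ∣ N) :
    haveI : NeZero ℓ := ⟨hℓ.out.ne_zero⟩
    Link e n (heckeOperatorAlong K N ℓ c) (CuspForm.heckeTLin 2 hℓ.out hℓN f) := by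
  haveI : NeZero ℓ := ⟨hℓ.out.ne_zero⟩
  obtain ⟨φ, h1, h2⟩ := h
  refine ⟨heckeHom hℓN φ, ?_, ?_⟩
  · rw [← heckeHom_comp, h1, heckeHom_comp, periodMap_heckeTLin]
  · rw [← heckeHom_comp]
    exact rel_hecke hℓN h2

theorem Link.eq_zero (h : Link e n c 0) (hn : n ≠ 0) : c = 0 := by
  obtain ⟨φ, h1, h2⟩ := h
  have h3 : φ = 0 := by
    refine AddMonoidHom.ext fun γ => ?_
    have h4 := DFunLike.congr_fun h1 γ
    rw [periodMap_zero'] at h4
    simpa using h4
  rw [h3, AddMonoidHom.comp_zero] at h2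
  exact h2.eq_zero hn

theorem exists_link {n : ℕ} (hn : n ≠ 0)
    (hPE : ∀ (c : Pic0 K (FX K N)) (χ : Additive (Gamma0 N) →+ Mu), Rel n c χ → IsPE χ) :
    ∃ e : ℤ →+ Mu, ∀ c : Pic0 K (FX K N), n • c = 0 → ∃ f, Link e n c f := by
  haveI : NeZero n := ⟨hn⟩
  obtain ⟨ζ, hζ⟩ : ∃ ζ : ℂ, IsPrimitiveRoot ζ n := ⟨_, Complex.isPrimitiveRoot_exp n hn⟩
  let u : ℂˣ := hζ.isUnit (NeZero.ne n) |>.unit
  have hu : IsPrimitiveRoot u n := by
    have h1 : IsPrimitiveRoot (u : ℂ) n := hζ
    exact IsPrimitiveRoot.coe_units_iff.mp h1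
  let e : ℤ →+ Mu := (zmultiplesHom (Additive ℂˣ)) (Additive.ofMul u)
  refine ⟨e, fun c hc => ?_⟩
  obtain ⟨χ, hχ⟩ := exists_rel hn hc
  have hχPE := hPE c χ hχ
  have hnχ := hχ.char_torsion hn
  -- the character takes values in the image of `e`
  let B : AddSubgroup Mu := e.range
  have hval : ∀ γ, χ γ ∈ B := by
    intro γ
    have h1 : n • χ γ = 0 := by
      have := DFunLike.congr_fun hnχ γ
      exact this
    have h2 : (Additive.toMul (χ γ : Additive ℂˣ) : ℂˣ) ^ n = 1 := h1
    have h3 : ((Additive.toMul (χ γ : Additive ℂˣ) : ℂˣ) : ℂ) ^ n = 1 := by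
      rw [← Units.val_pow_eq_pow_val, h2, Units.val_one]
    obtain ⟨i, -, hi⟩ := hζ.eq_pow_of_pow_eq_one h3
    have h4 : u ^ i = Additive.toMul (χ γ : Additive ℂˣ) := by
      apply Units.ext
      rw [Units.val_pow_eq_pow_val]
      exact hi
    refine ⟨(i : ℤ), ?_⟩
    show ((zmultiplesHom (Additive ℂˣ)) (Additive.ofMul u)) (i : ℤ) = χ γ
    rw [zmultiplesHom_apply, natCast_zsmul, ← ofMul_pow, h4]
    rfl
  let χB : Additive (Gamma0 N) →+ B := χ.codRestrict B hval
  have hS20 := H80.finrank_eq_genusFormula N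
  haveI := H8.lam_free_Gamma0 (N := N) hS20
  obtain ⟨φ, hφ, hφe⟩ := H8.exists_lift_of_free (Gamma0 N) e.rangeRestrict
    e.rangeRestrict_surjective χB (by
      intro γ hγ
      exact Subtype.ext (hχPE γ hγ))
  obtain ⟨f, hf⟩ := (H8.realPeriod_surjective hS20).1
    ⟨(Int.castAddHom ℝ).comp φ, fun γ hγ => by rw [AddMonoidHom.comp_apply, hφ γ hγ, map_zero]⟩
  refine ⟨f, φ, ?_, ?_⟩
  · exact (congrArg Subtype.val hf).symm
  · have h1 : e.comp φ = χ := by
      refine AddMonoidHom.ext fun γ => ?_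
      exact congrArg Subtype.val (DFunLike.congr_fun hφe γ)
    rw [h1]
    exact hχ

end Link

/-- Hecke relations on cusp forms hold on torsion. -/
theorem smul_eq_zero_of_evEnd {N N' : ℕ} [NeZero N'] (hN : N' ∣ N) (S : Set ℕ)
    (hPE : letI := algQbarC
      ∀ (n : ℕ) (c : Pic0 (AlgebraicClosure ℚ) (FX (AlgebraicClosure ℚ) N'))
        (χ : Additive (Gamma0 N') →+ Mu), n ≠ 0 → Rel n c χ → IsPE χ)
    (P : MvPolynomial (GoodPrimes N S) ℤ) (hP : evEnd N' hN S P = 0) :
    letI := heckeModuleBar N'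
    ∀ n : ℕ, n ≠ 0 → ∀ c : JZero N', n • c = 0 → inclHecke N S P • c = 0 := by
  letI := algQbarC
  letI := heckeModuleBar N'
  intro n hn c hc
  obtain ⟨e, he⟩ := exists_link (K := AlgebraicClosure ℚ) (N := N') hn (fun c χ => hPE n c χ hn)
  obtain ⟨f, hf⟩ := he c hc
  have key : ∀ (Q : MvPolynomial (GoodPrimes N S) ℤ) (c : JZero N')
      (f : CuspForm (Gamma0 N') 2), Link e n c f →
        Link e n (inclHecke N S Q • c) (evEnd N' hN S Q f) := by
    intro Q
    induction Q using MvPolynomial.induction_on with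
    | C a =>
      intro c f h
      have h1 : (MvPolynomial.C a : MvPolynomial (GoodPrimes N S) ℤ) =
          (a : MvPolynomial (GoodPrimes N S) ℤ) := by simp
      rw [h1, map_intCast, map_intCast, Int.cast_smul_eq_zsmul, Module.End.intCast_apply]
      exact h.zsmul hn a
    | add Q R hQ hR =>
      intro c f h
      rw [map_add, map_add, add_smul, LinearMap.add_apply]
      exact (hQ c f h).add (hR c f h)
    | mul_X Q a hQ =>
      intro c f h
      rw [map_mul, map_mul, mul_smul, Module.End.mul_apply, inclHecke_X, evEnd_X]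
      haveI : Fact (a.1 : ℕ).Prime := ⟨a.1.2⟩
      have hgen : heckeGen a.1 • c = heckeOperatorBar N' a.1 c :=
        heckeModuleBar_heckeGen_smul (H67.heckeOperatorsCommuteBar N') a.1 c
      rw [hgen]
      exact hQ _ _ (h.hecke (fun h' => a.2.1 (h'.trans hN)))
  have h1 := key P c f hf
  rw [hP, LinearMap.zero_apply] at h1
  exact h1.eq_zero hn

end Fermat.Agent.H35
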