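import Mathlib
import Fermat.Agent.H35Eigen

/-!
# Eigenlattices in `O ⊗ T`

`Z ⊆ O` domains, `Z` a PID, `T` a finite free `Z`-module with an action of a commutative ring `A`,
`χ : A → O` a character. `chiSub act χ` is the eigenlattice in `O ⊗ T`.
-/

set_option autoImplicit false
set_option linter.style.haveILetI false
set_option linter.unusedSectionVars false

noncomputable section

open Module TensorProduct

namespace Fermat.Agent.H35

section Split

variable {Z O : Type*} [CommRing Z] [IsDomain Z] [IsPrincipalIdealRing Z] [CommRing O] [IsDomain O]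
  [Algebra Z O]

/-- Any element of `O ⊗ T` is a sum `∑ e k ⊗ x k` with `e` linearly independent over `Z`. -/
theorem exists_split (hinj : Function.Injective (algebraMap Z O)) {T : Type*} [AddCommGroup T]
    [Module Z T] (v : O ⊗[Z] T) :
    ∃ (s : ℕ) (e : Fin s → O) (x : Fin s → T), LinearIndependent Z e ∧ v = ∑ k, e k ⊗ₜ[Z] x k := by
  classical
  haveI : FaithfulSMul Z O := (faithfulSMul_iff_algebraMap_injective Z O).mpr hinj
  haveI : Module.IsTorsionFree Z O := inferInstance
  obtain ⟨S, hS⟩ := TensorProduct.exists_finset v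
  let N : Submodule Z O := Submodule.span Z ((S.image Prod.fst : Finset O) : Set O)
  haveI : Module.Finite Z N := Module.Finite.span_of_finite Z (Finset.finite_toSet _)
  haveI : Module.Free Z N := inferInstance
  let b := Module.finBasis Z N
  have hmem : ∀ i ∈ S, i.1 ∈ N := fun i hi =>
    Submodule.subset_span (by
      rw [Finset.mem_coe, Finset.mem_image]
      exact ⟨i, hi, rfl⟩)
  refine ⟨finrank Z N, fun k => (b k : O),
    fun k => ∑ i : S, b.repr ⟨i.1.1, hmem i.1 i.2⟩ k • i.1.2, ?_, ?_⟩
  · exact b.linearIndependent.map' N.subtype (Submodule.ker_subtype N)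
  · rw [hS, ← Finset.sum_coe_sort]
    have h1 : ∀ i : S, i.1.1 ⊗ₜ[Z] i.1.2
        = ∑ k, (b k : O) ⊗ₜ[Z] (b.repr ⟨i.1.1, hmem i.1 i.2⟩ k • i.1.2) := by
      intro i
      have h2 : i.1.1 = ∑ k, b.repr ⟨i.1.1, hmem i.1 i.2⟩ k • (b k : O) := by
        have h3 := congrArg (Subtype.val) (b.sum_repr ⟨i.1.1, hmem i.1 i.2⟩)
        rw [Submodule.coe_sum] at h3
        exact h3.symm
      conv_lhs => rw [h2, TensorProduct.sum_tmul]
      refine Finset.sum_congr rfl fun k _ => ?_
      rw [TensorProduct.smul_tmul]
    rw [Finset.sum_congr rfl fun i _ => h1 i, Finset.sum_comm]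
    refine Finset.sum_congr rfl fun k _ => ?_
    rw [TensorProduct.tmul_sum]

/-- Uniqueness of coefficients with respect to linearly independent elements. -/
theorem eq_zero_of_sum_tmul {T : Type*} [AddCommGroup T] [Module Z T] [Module.Free Z T] {s : ℕ}
    {e : Fin s → O} (he : LinearIndependent Z e) {y : Fin s → T}
    (h : ∑ k, e k ⊗ₜ[Z] y k = 0) (k : Fin s) : y k = 0 := by
  classical
  let b := Module.Free.chooseBasis Z T
  rw [← b.repr.map_eq_zero_iff]
  ext j
  rw [Finsupp.zero_apply]
  have h1 := congrArg (fun z => (TensorProduct.rid Z O) ((b.coord j).lTensor O z)) h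
  simp only [map_sum, LinearMap.lTensor_tmul, TensorProduct.rid_tmul, map_zero] at h1
  exact (Fintype.linearIndependent_iff.mp he) (fun k => b.coord j (y k)) h1 k

/-- Kernel conditions descend from `O ⊗ T` to `T`. -/
theorem apply_eq_zero_of_split {T T' : Type*} [AddCommGroup T] [Module Z T] [AddCommGroup T']
    [Module Z T'] [Module.Free Z T'] {v : O ⊗[Z] T} {s : ℕ} {e : Fin s → O} {x : Fin s → T}
    (he : LinearIndependent Z e) (hv : v = ∑ k, e k ⊗ₜ[Z] x k) (F : T →ₗ[Z] T')
    (hF : F.baseChange O v = 0) (k : Fin s) : F (x k) = 0 := by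
  refine eq_zero_of_sum_tmul he (y := fun k => F (x k)) ?_ k
  rw [hv, map_sum] at hF
  simpa only [LinearMap.baseChange_tmul] using hF

omit [IsDomain Z] [IsPrincipalIdealRing Z] [IsDomain O] in
theorem baseChange_eq_zero_of_split {T T' : Type*} [AddCommGroup T] [Module Z T] [AddCommGroup T']
    [Module Z T'] {v : O ⊗[Z] T} {s : ℕ} {e : Fin s → O} {x : Fin s → T}
    (hv : v = ∑ k, e k ⊗ₜ[Z] x k) (F : T →ₗ[Z] T') (hF : ∀ k, F (x k) = 0) :
    F.baseChange O v = 0 := by
  rw [hv, map_sum]
  refine Finset.sum_eq_zero fun k _ => ?_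
  rw [LinearMap.baseChange_tmul, hF, TensorProduct.tmul_zero]

end Split

section Chi

variable {Z O : Type*} [CommRing Z] [CommRing O] [Algebra Z O] {A : Type*} [CommRing A]
  {T : Type*} [AddCommGroup T] [Module Z T] (act : A →+* Module.End Z T) (χ : A →+* O)

/-- The `χ`-eigenlattice in `O ⊗ T`. -/
def chiSub : Submodule O (O ⊗[Z] T) where
  carrier := {v | ∀ P, (act P).baseChange O v = χ P • v}
  add_mem' := fun {x y} hx hy P => by rw [map_add, hx P, hy P, smul_add]
  zero_mem' := fun P => by rw [map_zero, smul_zero]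
  smul_mem' := fun c x hx P => by rw [map_smul, hx P, smul_comm]

theorem mem_chiSub {v : O ⊗[Z] T} :
    v ∈ chiSub act χ ↔ ∀ P, (act P).baseChange O v = χ P • v := Iff.rfl

/-- Endomorphisms commuting with the action preserve the eigenlattice. -/
theorem baseChange_mem_chiSub {F : Module.End Z T} (hF : ∀ P, Commute (act P) F)
    {v : O ⊗[Z] T} (hv : v ∈ chiSub act χ) : F.baseChange O v ∈ chiSub act χ := by
  intro P
  have h1 : (act P).baseChange O (F.baseChange O v) = F.baseChange O ((act P).baseChange O v) := by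
    have h2 : (act P ∘ₗ F).baseChange O v = (F ∘ₗ act P).baseChange O v := by
      congr 2
      exact (hF P).eq
    rw [LinearMap.baseChange_comp, LinearMap.baseChange_comp] at h2
    exact h2
  rw [h1, hv P, map_smul]

variable [IsDomain O]

/-- The base change of a free module is torsion free: scalars can be cancelled. -/
theorem smul_cancel [Module.Free Z T] {c : O} (hc : c ≠ 0) {v w : O ⊗[Z] T} (h : c • v = c • w) :
    v = w := by
  haveI : Module.Free O (O ⊗[Z] T) := inferInstance
  exact smul_right_injective _ hc h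

theorem chiSub_saturated [Module.Free Z T] {c : O} (hc : c ≠ 0) {v : O ⊗[Z] T}
    (h : c • v ∈ chiSub act χ) : v ∈ chiSub act χ := by
  intro P
  have h1 := h P
  rw [map_smul, smul_comm] at h1
  exact smul_cancel hc h1

/-- If an operator `F` satisfies `F ∘ act P = 0` with `χ P ≠ 0`, it kills the eigenlattice. -/
theorem baseChange_eq_zero_of_absent {T' : Type*} [AddCommGroup T'] [Module Z T']
    [Module.Free Z T'] (F : T →ₗ[Z] T') {P : A} (hP : F ∘ₗ act P = 0) (hχ : χ P ≠ 0)
    {v : O ⊗[Z] T} (hv : v ∈ chiSub act χ) : F.baseChange O v = 0 := by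
  have h1 : F.baseChange O ((act P).baseChange O v) = 0 := by
    have h2 : (F ∘ₗ act P).baseChange O v = 0 := by rw [hP]; simp
    rw [LinearMap.baseChange_comp] at h2
    exact h2
  rw [hv P, map_smul] at h1
  exact smul_cancel hχ (by rw [h1, smul_zero])

theorem finite_chiSub [IsNoetherianRing O] [Module.Finite Z T] : Module.Finite O (chiSub act χ) :=
  inferInstance

theorem torsionFree_chiSub [Module.Free Z T] : Module.IsTorsionFree O (chiSub act χ) :=
  inferInstance

omit [CommRing Z] [Algebra Z O] in
theorem free_submodule [IsPrincipalIdealRing O] {M : Type*} [AddCommGroup M] [Module O M]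
    [Module.Finite O M] [Module.Free O M] (W : Submodule O M) : Module.Free O W := inferInstance

theorem free_chiSub [IsPrincipalIdealRing O] [Module.Finite Z T] [Module.Free Z T] :
    Module.Free O (chiSub act χ) := by
  exact free_submodule (chiSub act χ)

end Chi

section Nonzero

variable {Z O : Type*} [CommRing Z] [IsDomain Z] [IsPrincipalIdealRing Z] [CommRing O] [IsDomain O]
  [IsNoetherianRing O] [Algebra Z O] {A : Type*} [CommRing A]
  {T : Type*} [AddCommGroup T] [Module Z T] [Module.Free Z T] [Module.Finite Z T]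
  (act : A →+* Module.End Z T) (χ : A →+* O)

theorem chiSub_ne_bot (hinj : Function.Injective (algebraMap Z O))
    (hker : ∀ S : Finset (Z × A), ∑ i ∈ S, i.1 • act i.2 = 0 →
      ∑ i ∈ S, algebraMap Z O i.1 * χ i.2 = 0) : chiSub act χ ≠ ⊥ := by
  classical
  let b := Module.finBasis Z T
  let tm := LinearMap.toMatrixAlgEquiv b
  obtain ⟨v, hv0, hv⟩ := exists_eigenvector_matrix hinj
    ((tm : Module.End Z T →+* Matrix (Fin (finrank Z T)) (Fin (finrank Z T)) Z).comp act) χ (by
      intro U hU
      refine hker U ?_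
      apply tm.injective
      rw [map_sum, map_zero, ← hU]
      refine Finset.sum_congr rfl fun i _ => ?_
      rw [map_smul]
      rfl)
  let bO := Algebra.TensorProduct.basis O b
  let w : O ⊗[Z] T := bO.equivFun.symm v
  intro hbot
  have hw : w ∈ chiSub act χ := by
    intro P
    apply bO.equivFun.injective
    rw [map_smul]
    have h1 : bO.equivFun w = v := LinearEquiv.apply_symm_apply _ _
    rw [h1, ← hv P]
    have h2 := LinearMap.toMatrix_mulVec_repr bO bO ((act P).baseChange O) w
    have h3 : LinearMap.toMatrix bO bO ((act P).baseChange O)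
        = (LinearMap.toMatrix b b (act P)).map (algebraMap Z O) :=
      LinearMap.toMatrix_baseChange O (act P) b b
    rw [h3] at h2
    have h4 : (⇑(bO.repr w) : Fin (finrank Z T) → O) = v := h1
    rw [h4] at h2
    exact h2.symm
  rw [hbot, Submodule.mem_bot] at hw
  apply hv0
  have h1 : bO.equivFun w = v := LinearEquiv.apply_symm_apply _ _
  rw [← h1, hw, map_zero]

end Nonzero

section DVR

variable {Z O : Type*} [CommRing Z] [CommRing O] [IsDomain O] [IsDiscreteValuationRing O]
  [Algebra Z O] {A : Type*} [CommRing A]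
  {T : Type*} [AddCommGroup T] [Module Z T] [Module.Free Z T]
  (act : A →+* Module.End Z T) (χ : A →+* O)

open IsLocalRing in
/-- The adic topology on the eigenlattice is the induced one. -/
theorem mem_pow_smul_top_of_chiSub (n : ℕ) (v : chiSub act χ)
    (h : (v : O ⊗[Z] T) ∈ maximalIdeal O ^ n • (⊤ : Submodule O (O ⊗[Z] T))) :
    v ∈ maximalIdeal O ^ n • (⊤ : Submodule O (chiSub act χ)) := by
  obtain ⟨ϖ, hϖ⟩ := IsDiscreteValuationRing.exists_irreducible O
  have hm : maximalIdeal O ^ n = Ideal.span {ϖ ^ n} := by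
    rw [hϖ.maximalIdeal_eq, Ideal.span_singleton_pow]
  rw [hm] at h ⊢
  rw [Submodule.ideal_span_singleton_smul, Submodule.mem_smul_pointwise_iff_exists] at h
  obtain ⟨w, -, hw⟩ := h
  have hw' : w ∈ chiSub act χ := by
    refine chiSub_saturated act χ (c := ϖ ^ n) (pow_ne_zero _ hϖ.ne_zero) ?_
    rw [hw]
    exact v.2
  have h1 : v = ϖ ^ n • (⟨w, hw'⟩ : chiSub act χ) := Subtype.ext hw.symm
  rw [h1]
  exact Submodule.smul_mem_smul (Ideal.mem_span_singleton_self _) Submodule.mem_top

end DVR

end Fermat.Agent.H35
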