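import Mathlib

/-!
# A fixed vector for groups of operators with `(σ - 1)² = 0`
-/

set_option autoImplicit false
set_option linter.style.haveILetI false

open Module

namespace Fermat.Agent.H35

section

variable {O W G : Type*} [CommRing O] [AddCommGroup W] [Module O W] [Group G]

theorem anticomm_of_sq_zero (I : Subgroup G) (ρ : G →* Module.End O W)
    (h : ∀ σ ∈ I, (ρ σ - 1) * (ρ σ - 1) = 0) {σ τ : G} (hσ : σ ∈ I) (hτ : τ ∈ I) :
    (ρ σ - 1) * (ρ τ - 1) + (ρ τ - 1) * (ρ σ - 1) = 0 := by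
  have hinv : ∀ g ∈ I, ρ g⁻¹ = 1 + 1 - ρ g := by
    intro g hg
    have h1 : ρ g * (1 + 1 - ρ g) = 1 := by
      have h2 := h g hg
      have h3 : ρ g * (1 + 1 - ρ g) = 1 - (ρ g - 1) * (ρ g - 1) := by noncomm_ring
      rw [h3, h2, sub_zero]
    have h2 : ρ g⁻¹ * ρ g = 1 := by rw [← map_mul, inv_mul_cancel, map_one]
    calc ρ g⁻¹ = ρ g⁻¹ * (ρ g * (1 + 1 - ρ g)) := by rw [h1, mul_one]
      _ = 1 + 1 - ρ g := by rw [← mul_assoc, h2, one_mul]
  have h1 := hinv (σ * τ) (I.mul_mem hσ hτ)
  rw [_root_.mul_inv_rev, map_mul, map_mul, hinv σ hσ, hinv τ hτ] at h1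
  have h2 : (ρ σ - 1) * (ρ τ - 1) + (ρ τ - 1) * (ρ σ - 1)
      = (1 + 1 - ρ τ) * (1 + 1 - ρ σ) - (1 + 1 - ρ σ * ρ τ) := by noncomm_ring
  rw [h2, h1, sub_self]

variable [IsDomain O] [IsNoetherianRing O] [Module.Finite O W] [Module.IsTorsionFree O W]

/-- If `(σ - 1)² = 0` for all `σ` in a group, there is a nonzero fixed vector. -/
theorem exists_fixed_of_sq_zero [Nontrivial W] (I : Subgroup G) (ρ : G →* Module.End O W)
    (h : ∀ σ ∈ I, (ρ σ - 1) * (ρ σ - 1) = 0) : ∃ w : W, w ≠ 0 ∧ ∀ σ ∈ I, ρ σ w = w := by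
  classical
  have key : ∀ (n : ℕ) (U : Submodule O W), U ≠ ⊥ → finrank O U ≤ n →
      (∀ σ ∈ I, ∀ u ∈ U, (ρ σ - 1) u ∈ U) → ∃ w : W, w ≠ 0 ∧ ∀ σ ∈ I, ρ σ w = w := by
    intro n
    induction n with
    | zero =>
      intro U hU hn _
      exfalso
      haveI : Nontrivial U := Submodule.nontrivial_iff_ne_bot.mpr hU
      have : 0 < finrank O U := Module.finrank_pos
      omega
    | succ n ih =>
      intro U hU hn hst
      by_cases hall : ∀ σ ∈ I, ∀ u ∈ U, (ρ σ - 1) u = 0
      · obtain ⟨u, hu, hu0⟩ := (Submodule.ne_bot_iff U).mp hU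
        exact ⟨u, hu0, fun σ hσ => sub_eq_zero.mp (hall σ hσ u hu)⟩
      · push Not at hall
        obtain ⟨σ, hσ, u, hu, hne⟩ := hall
        let U' := U.map (ρ σ - 1)
        have hU' : U' ≠ ⊥ := by
          rw [Submodule.ne_bot_iff]
          exact ⟨(ρ σ - 1) u, Submodule.mem_map_of_mem hu, hne⟩
        have hle : U' ≤ U := by
          rintro _ ⟨x, hx, rfl⟩
          exact hst σ hσ x hx
        refine ih U' hU' ?_ ?_
        · -- the rank drops
          let f : U →ₗ[O] W := (ρ σ - 1) ∘ₗ U.subtype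
          have hrange : LinearMap.range f = U' := by
            rw [LinearMap.range_comp, Submodule.range_subtype]
          have hrn := Submodule.finrank_quotient_add_finrank (LinearMap.ker f)
          rw [(LinearMap.quotKerEquivRange f).finrank_eq, hrange] at hrn
          have hker : 0 < finrank O (LinearMap.ker f) := by
            haveI : Nontrivial (LinearMap.ker f) := by
              rw [Submodule.nontrivial_iff_ne_bot, Submodule.ne_bot_iff]
              refine ⟨⟨(ρ σ - 1) u, hst σ hσ u hu⟩, ?_, fun h0 => hne (congrArg Subtype.val h0)⟩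
              rw [LinearMap.mem_ker]
              exact LinearMap.congr_fun (h σ hσ) u
            exact Module.finrank_pos
          omega
        · rintro τ hτ _ ⟨x, hx, rfl⟩
          have h1 := LinearMap.congr_fun (anticomm_of_sq_zero I ρ h hσ hτ) x
          refine ⟨-(ρ τ - 1) x, ?_, ?_⟩
          · exact U.neg_mem (hst τ hτ x hx)
          · rw [map_neg]
            simp only [LinearMap.add_apply, Module.End.mul_apply, LinearMap.zero_apply] at h1
            rw [neg_eq_iff_eq_neg]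
            exact eq_neg_of_add_eq_zero_left h1
  refine key (finrank O (⊤ : Submodule O W)) ⊤ ?_ le_rfl (fun _ _ _ _ => Submodule.mem_top)
  rw [Submodule.ne_bot_iff]
  obtain ⟨w, hw⟩ := exists_ne (0 : W)
  exact ⟨w, Submodule.mem_top, hw⟩

end

section

variable {O V G : Type*} [CommRing O] [AddCommGroup V] [Module O V] [Group G] [IsDomain O]
  [IsNoetherianRing O] [Module.Finite O V] [Module.IsTorsionFree O V]

/-- Version of `exists_fixed_of_sq_zero` for submodules. -/
theorem exists_fixed_of_sq_zero_sub (W : Submodule O V) (hW : W ≠ ⊥) (I : Subgroup G)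
    (ρ : G →* Module.End O W)
    (h : ∀ σ ∈ I, ∀ w : W, ρ σ (ρ σ w) - (2 : O) • ρ σ w + w = 0) :
    ∃ w : W, w ≠ 0 ∧ ∀ σ ∈ I, ρ σ w = w := by
  haveI : Nontrivial W := Submodule.nontrivial_iff_ne_bot.mpr hW
  refine exists_fixed_of_sq_zero I ρ fun σ hσ => ?_
  refine LinearMap.ext fun w => ?_
  have h1 := h σ hσ w
  simp only [Module.End.mul_apply, LinearMap.sub_apply, Module.End.one_apply, map_sub,
    LinearMap.zero_apply]
  rw [← h1]
  module

end

end Fermat.Agent.H35
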