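import Mathlib
import Fermat.Agent.H35S30

/-!
# Representations attached to Galois lattices with quadratic relations

`exists_rep_of_lattice`: `W` a finite free module over a complete DVR `O'` with a continuous action
of the absolute Galois group of `ℚ` satisfying quadratic relations at Frobenius elements.
-/

set_option autoImplicit false
set_option linter.style.haveILetI false

noncomputable section

open IsLocalRing Module Matrix Polynomial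

namespace Fermat.Agent.H35

section Lattice

variable {p : ℕ} [Fact p.Prime]

/-- The output of `exists_rep_of_lattice`: a representation over a finite extension with all
characteristic polynomials given by the quadratic relations on `W`. -/
def LatticeRep (𝒪' : Type) [CommRing 𝒪'] [IsDomain 𝒪'] [IsDiscreteValuationRing 𝒪']
    [IsAdicComplete (IsLocalRing.maximalIdeal 𝒪') 𝒪']
    (hp𝒪' : (p : 𝒪') ∈ IsLocalRing.maximalIdeal 𝒪')
    {W : Type*} [AddCommGroup W] [Module 𝒪' W] (ρW : H53.GQ →* Module.End 𝒪' W) : Prop :=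
  ∃ (𝒪'' : Type) (_ : CommRing 𝒪'') (_ : IsDomain 𝒪'') (_ : IsDiscreteValuationRing 𝒪'')
    (_ : IsAdicComplete (IsLocalRing.maximalIdeal 𝒪'') 𝒪'')
    (_ : Finite (IsLocalRing.ResidueField 𝒪'')) (_ : CharZero 𝒪'')
    (_ : Algebra 𝒪' 𝒪'') (_ : Module.Finite 𝒪' 𝒪'') (_ : IsLocalHom (algebraMap 𝒪' 𝒪'')),
  Function.Injective (algebraMap 𝒪' 𝒪'') ∧
  ∃ ρ : GaloisRepAdic 𝒪'',
    (∀ g t, (∀ w, ρW g (ρW g w) - t • ρW g w + cyc 𝒪' hp𝒪' g • w = 0) →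
      LinearMap.charpoly (ρ.ρ g) = X ^ 2 - C (algebraMap 𝒪' 𝒪'' t) * X
        + C (algebraMap 𝒪' 𝒪'' (cyc 𝒪' hp𝒪' g))) ∧
    (∀ g, ρW g = 1 → cyc 𝒪' hp𝒪' g = 1 → ρ.ρ g = 1)

theorem exists_rep_of_lattice {S : Finset ℕ} (hpS : p ∈ S)
    (𝒪' : Type) [CommRing 𝒪'] [IsDomain 𝒪'] [IsDiscreteValuationRing 𝒪']
    [IsAdicComplete (IsLocalRing.maximalIdeal 𝒪') 𝒪'] [Finite (IsLocalRing.ResidueField 𝒪')]
    [CharZero 𝒪'] (hp𝒪' : (p : 𝒪') ∈ IsLocalRing.maximalIdeal 𝒪')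
    {W : Type*} [AddCommGroup W] [Module 𝒪' W] [Module.Free 𝒪' W] [Module.Finite 𝒪' W]
    [Nontrivial W] (ρW : H53.GQ →* Module.End 𝒪' W)
    (hcont : ∀ n : ℕ, ∃ L : IntermediateField ℚ (AlgebraicClosure ℚ), FiniteDimensional ℚ L ∧
      ∀ σ : H53.GQ, (∀ x ∈ L, σ x = x) →
        ∀ w : W, ρW σ w - w ∈ maximalIdeal 𝒪' ^ n • (⊤ : Submodule 𝒪' W))
    (a : ℕ → 𝒪')
    (hfrob : ∀ ℓ : ℕ, ℓ.Prime → ℓ ∉ S → ∀ A : ValuationSubring (AlgebraicClosure ℚ),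
      A.LiesOverPrime ℓ → ∀ φ : H53.GQ, A.IsFrobeniusAt φ ℓ →
        ∀ w : W, ρW φ (ρW φ w) - a ℓ • ρW φ w + (ℓ : 𝒪') • w = 0) :
    (∀ g, ∃ t : 𝒪', ∀ w : W, ρW g (ρW g w) - t • ρW g w + cyc 𝒪' hp𝒪' g • w = 0) ∧
      LatticeRep 𝒪' hp𝒪' ρW := by
  classical
  let b := Module.finBasis 𝒪' W
  let tm := LinearMap.toMatrixAlgEquiv b
  have hr : 0 < finrank 𝒪' W := Module.finrank_pos
  let R : H53.GQ →* Matrix (Fin (finrank 𝒪' W)) (Fin (finrank 𝒪' W)) 𝒪' :=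
    (tm : Module.End 𝒪' W →* Matrix (Fin (finrank 𝒪' W)) (Fin (finrank 𝒪' W)) 𝒪').comp ρW
  have hR : ∀ g, R g = tm (ρW g) := fun g => rfl
  -- dictionary
  have hdict : ∀ (g : H53.GQ) (t c : 𝒪'), (R g * R g - t • R g
      + c • (1 : Matrix (Fin (finrank 𝒪' W)) (Fin (finrank 𝒪' W)) 𝒪') = 0) ↔
      ∀ w : W, ρW g (ρW g w) - t • ρW g w + c • w = 0 := by
    intro g t c
    have h1 : R g * R g - t • R g
      + c • (1 : Matrix (Fin (finrank 𝒪' W)) (Fin (finrank 𝒪' W)) 𝒪')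
        = tm (ρW g * ρW g - t • ρW g + c • (1 : Module.End 𝒪' W)) := by
      rw [map_add, map_sub, map_mul, map_smul, map_smul, map_one, hR]
    rw [h1]
    constructor
    · intro h w
      have h2 : ρW g * ρW g - t • ρW g + c • (1 : Module.End 𝒪' W) = 0 :=
        tm.injective (h.trans (map_zero _).symm)
      exact LinearMap.congr_fun h2 w
    · intro h
      have h2 : ρW g * ρW g - t • ρW g + c • (1 : Module.End 𝒪' W) = 0 :=
        LinearMap.ext fun w => h w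
      rw [h2, map_zero]
  have hRc : MatCont 𝒪' R := by
    intro n
    obtain ⟨F, hF, hF'⟩ := hcont n
    refine ⟨F, hF, fun σ hσ i j => ?_⟩
    have h1 := H86.repr_mem_of_mem_smul b (maximalIdeal 𝒪' ^ n) (hF' σ hσ (b j)) i
    have h2 : R σ i j = b.repr (ρW σ (b j)) i := by
      rw [hR]
      exact LinearMap.toMatrix_apply b b (ρW σ) i j
    have h3 : (1 : Matrix (Fin (finrank 𝒪' W)) (Fin (finrank 𝒪' W)) 𝒪') i j
        = b.repr (b j) i := by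
      rw [Module.Basis.repr_self, Finsupp.single_apply, Matrix.one_apply]
      by_cases h : i = j
      · subst h; simp
      · rw [if_neg h, if_neg (Ne.symm h)]
    rw [h2, h3, ← Finsupp.sub_apply, ← map_sub]
    exact h1
  have hquad := quadratic_of_frobenius hp𝒪' hr R hRc S hpS a (by
    intro ℓ hℓ hℓS A hA φ hφ
    rw [hdict]
    exact hfrob ℓ hℓ hℓS A hA φ hφ)
  refine ⟨fun g => ?_, ?_⟩
  · obtain ⟨t, ht⟩ := hquad g
    exact ⟨t, (hdict g t _).mp ht⟩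
  obtain ⟨𝒪'', i1, i2, i3, i4, i5, i6, i7, i8, i9, hinj, ρ', hρc, htd, hone⟩ :=
    exists_matrixRep_of_quadratic 𝒪' hr R hRc (cyc 𝒪' hp𝒪') (cyc_charCont 𝒪' hp𝒪') hquad
  refine ⟨𝒪'', i1, i2, i3, i4, i5, i6, i7, i8, i9, hinj, H53.ofMatrix ρ' hρc, ?_, ?_⟩
  · intro g t ht
    obtain ⟨htr, hdet⟩ := htd g t ((hdict g t _).mpr ht)
    have h1 : LinearMap.charpoly ((H53.ofMatrix ρ' hρc).ρ g) = (ρ' g).charpoly :=
      Matrix.charpoly_toLin' (ρ' g)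
    rw [h1, Matrix.charpoly_fin_two, htr, hdet]
  · intro g hg hc
    have h1 : ρ' g = 1 := hone g (by rw [hR, hg, map_one]) hc
    change (Matrix.toLinAlgEquiv' : H53.M2 𝒪'' ≃ₐ[𝒪''] _) (ρ' g) = 1
    rw [h1, map_one]

/-- The version of `LatticeRep` for submodules. -/
def SubLatticeRep (𝒪' : Type) [CommRing 𝒪'] [IsDomain 𝒪'] [IsDiscreteValuationRing 𝒪']
    [IsAdicComplete (IsLocalRing.maximalIdeal 𝒪') 𝒪']
    (hp𝒪' : (p : 𝒪') ∈ IsLocalRing.maximalIdeal 𝒪')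
    {V : Type*} [AddCommGroup V] [Module 𝒪' V] (W : Submodule 𝒪' V)
    (ρW : H53.GQ →* Module.End 𝒪' W) : Prop :=
  ∃ (𝒪'' : Type) (_ : CommRing 𝒪'') (_ : IsDomain 𝒪'') (_ : IsDiscreteValuationRing 𝒪'')
    (_ : IsAdicComplete (IsLocalRing.maximalIdeal 𝒪'') 𝒪'')
    (_ : Finite (IsLocalRing.ResidueField 𝒪'')) (_ : CharZero 𝒪'')
    (_ : Algebra 𝒪' 𝒪'') (_ : Module.Finite 𝒪' 𝒪'') (_ : IsLocalHom (algebraMap 𝒪' 𝒪'')),
  Function.Injective (algebraMap 𝒪' 𝒪'') ∧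
  ∃ ρ : GaloisRepAdic 𝒪'',
    (∀ g t, (∀ w, ρW g (ρW g w) - t • ρW g w + cyc 𝒪' hp𝒪' g • w = 0) →
      LinearMap.charpoly (ρ.ρ g) = X ^ 2 - C (algebraMap 𝒪' 𝒪'' t) * X
        + C (algebraMap 𝒪' 𝒪'' (cyc 𝒪' hp𝒪' g))) ∧
    (∀ g, ρW g = 1 → cyc 𝒪' hp𝒪' g = 1 → ρ.ρ g = 1)

theorem exists_rep_of_sublattice {S : Finset ℕ} (hpS : p ∈ S)
    (𝒪' : Type) [CommRing 𝒪'] [IsDomain 𝒪'] [IsDiscreteValuationRing 𝒪']
    [IsAdicComplete (IsLocalRing.maximalIdeal 𝒪') 𝒪'] [Finite (IsLocalRing.ResidueField 𝒪')]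
    [CharZero 𝒪'] (hp𝒪' : (p : 𝒪') ∈ IsLocalRing.maximalIdeal 𝒪')
    {V : Type*} [AddCommGroup V] [Module 𝒪' V] [Module.Free 𝒪' V] [Module.Finite 𝒪' V]
    (W : Submodule 𝒪' V) (hW : W ≠ ⊥) (ρW : H53.GQ →* Module.End 𝒪' W)
    (hcont : ∀ n : ℕ, ∃ L : IntermediateField ℚ (AlgebraicClosure ℚ), FiniteDimensional ℚ L ∧
      ∀ σ : H53.GQ, (∀ x ∈ L, σ x = x) →
        ∀ w : W, ρW σ w - w ∈ maximalIdeal 𝒪' ^ n • (⊤ : Submodule 𝒪' W))
    (a : ℕ → 𝒪')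
    (hfrob : ∀ ℓ : ℕ, ℓ.Prime → ℓ ∉ S → ∀ A : ValuationSubring (AlgebraicClosure ℚ),
      A.LiesOverPrime ℓ → ∀ φ : H53.GQ, A.IsFrobeniusAt φ ℓ →
        ∀ w : W, ρW φ (ρW φ w) - a ℓ • ρW φ w + (ℓ : 𝒪') • w = 0) :
    (∀ g, ∃ t : 𝒪', ∀ w : W, ρW g (ρW g w) - t • ρW g w + cyc 𝒪' hp𝒪' g • w = 0) ∧
      SubLatticeRep 𝒪' hp𝒪' W ρW := by
  haveI : Nontrivial W := Submodule.nontrivial_iff_ne_bot.mpr hW
  haveI : Module.Free 𝒪' W := inferInstance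
  haveI : Module.Finite 𝒪' W := inferInstance
  exact exists_rep_of_lattice (W := W) hpS 𝒪' hp𝒪' ρW hcont a hfrob

end Lattice

end Fermat.Agent.H35
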