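import Mathlib
import Fermat.Agent.H35VLattice
import Fermat.Agent.H35VChi
import Fermat.Agent.H35VKolchin

/-!
# The Galois representation on the eigenlattice and the glue for S35 and S36
-/

set_option autoImplicit false
set_option linter.style.haveILetI false
set_option linter.unusedSectionVars false

noncomputable section

open IsLocalRing Module TensorProduct Polynomial

namespace Fermat.Agent.H35

section GalChi

variable {Z O : Type*} [CommRing Z] [CommRing O] [Algebra Z O] {A : Type*} [CommRing A]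
  {T : Type*} [AddCommGroup T] [Module Z T] (act : A →+* Module.End Z T) (χ : A →+* O)
  {G : Type*} [Group G] (ρT : G →* Module.End Z T) (hcomm : ∀ P σ, Commute (act P) (ρT σ))

/-- The action on the eigenlattice. -/
def galChi : G →* Module.End O (chiSub act χ) where
  toFun σ := ((ρT σ).baseChange O).restrict
    (fun _ hv => baseChange_mem_chiSub act χ (fun P => hcomm P σ) hv)
  map_one' := by
    refine LinearMap.ext fun v => Subtype.ext ?_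
    rw [LinearMap.coe_restrict_apply, map_one]
    change (LinearMap.id : T →ₗ[Z] T).baseChange O (v : O ⊗[Z] T) = _
    rw [LinearMap.baseChange_id]
    rfl
  map_mul' σ τ := by
    refine LinearMap.ext fun v => Subtype.ext ?_
    rw [LinearMap.coe_restrict_apply, map_mul]
    change (ρT σ ∘ₗ ρT τ).baseChange O (v : O ⊗[Z] T) = _
    rw [LinearMap.baseChange_comp]
    rfl

@[simp] theorem coe_galChi (σ : G) (v : chiSub act χ) :
    ((galChi act χ ρT hcomm σ v : chiSub act χ) : O ⊗[Z] T) = (ρT σ).baseChange O v := rfl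

end GalChi

section Main

variable {p : ℕ} [Fact p.Prime]

theorem algebraMap_padic_injective {O : Type*} [CommRing O] [IsDomain O] [CharZero O]
    [Algebra ℤ_[p] O] : Function.Injective (algebraMap ℤ_[p] O) := by
  rw [injective_iff_map_eq_zero]
  intro x hx
  by_contra hne
  have h1 := PadicInt.unitCoeff_spec hne
  rw [h1, map_mul, map_pow, map_natCast] at hx
  have h2 : IsUnit (algebraMap ℤ_[p] O (PadicInt.unitCoeff hne : ℤ_[p])) :=
    (PadicInt.unitCoeff hne).isUnit.map _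
  have h3 : (p : O) ^ x.valuation = 0 := by
    rcases mul_eq_zero.mp hx with h | h
    · exact absurd h h2.ne_zero
    · exact h
  have h4 : (p : O) = 0 := eq_zero_of_pow_eq_zero h3
  exact (Fact.out : p.Prime).ne_zero (by exact_mod_cast h4)

section Setup

variable {N : ℕ} [NeZero N] {S : Finset ℕ}
    {𝒪' : Type} [CommRing 𝒪'] [IsDomain 𝒪'] [IsDiscreteValuationRing 𝒪']
    [IsAdicComplete (IsLocalRing.maximalIdeal 𝒪') 𝒪'] [Finite (IsLocalRing.ResidueField 𝒪')]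
    [CharZero 𝒪'] [Algebra ℤ_[p] 𝒪'] (hp𝒪' : (p : 𝒪') ∈ IsLocalRing.maximalIdeal 𝒪')
    (χ : CuspForm.heckeAlgebra N 2 (↑S : Set ℕ) →+* 𝒪')
    {T : Type*} [AddCommGroup T] [Module ℤ_[p] T] [Module.Free ℤ_[p] T] [Module.Finite ℤ_[p] T]
    (ρT : H53.GQ →* Module.End ℤ_[p] T)
    (act : MvPolynomial (H31.GoodPrimes N (↑S : Set ℕ)) ℤ →+* Module.End ℤ_[p] T)

/-- the eigenlattice attached to `χ` -/
abbrev VChi : Submodule 𝒪' (𝒪' ⊗[ℤ_[p]] T) :=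
  chiSub act (χ.comp (H31.evHecke N (↑S : Set ℕ)))

include hp𝒪' in
theorem galChi_continuous
    (hcont : ∀ n : ℕ, ∃ L : IntermediateField ℚ (AlgebraicClosure ℚ), FiniteDimensional ℚ L ∧
      ∀ σ : H53.GQ, (∀ x ∈ L, σ x = x) → ∀ x : T, ∃ y : T, ρT σ x - x = (p : ℤ_[p]) ^ n • y)
    (hcomm : ∀ P σ, Commute (act P) (ρT σ)) (n : ℕ) :
    ∃ L : IntermediateField ℚ (AlgebraicClosure ℚ), FiniteDimensional ℚ L ∧
      ∀ σ : H53.GQ, (∀ x ∈ L, σ x = x) →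
        ∀ w : VChi χ act, galChi act _ ρT hcomm σ w - w ∈
          maximalIdeal 𝒪' ^ n • (⊤ : Submodule 𝒪' (VChi χ act)) := by
  obtain ⟨L, hL, hL'⟩ := hcont n
  refine ⟨L, hL, fun σ hσ w => ?_⟩
  refine mem_pow_smul_top_of_chiSub _ _ n _ ?_
  rw [Submodule.coe_sub, coe_galChi]
  obtain ⟨U, hU⟩ := TensorProduct.exists_finset (w : 𝒪' ⊗[ℤ_[p]] T)
  have key : ∀ i : 𝒪' × T, (ρT σ).baseChange 𝒪' (i.1 ⊗ₜ i.2) - i.1 ⊗ₜ i.2
      ∈ maximalIdeal 𝒪' ^ n • (⊤ : Submodule 𝒪' (𝒪' ⊗[ℤ_[p]] T)) := by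
    intro i
    obtain ⟨y, hy⟩ := hL' σ hσ i.2
    rw [LinearMap.baseChange_tmul, ← TensorProduct.tmul_sub, hy]
    have h1 : i.1 ⊗ₜ[ℤ_[p]] ((p : ℤ_[p]) ^ n • y) = (p : 𝒪') ^ n • (i.1 ⊗ₜ[ℤ_[p]] y) := by
      rw [← TensorProduct.smul_tmul, TensorProduct.smul_tmul', Algebra.smul_def, map_pow,
        map_natCast, smul_eq_mul]
    rw [h1]
    exact Submodule.smul_mem_smul (Ideal.pow_mem_pow hp𝒪' n) Submodule.mem_top
  rw [hU, map_sum, ← Finset.sum_sub_distrib]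
  exact Submodule.sum_mem _ fun i _ => key i

theorem galChi_frobenius
    (hcomm : ∀ P σ, Commute (act P) (ρT σ))
    (hfrob : ∀ (a : H31.GoodPrimes N (↑S : Set ℕ)) (A : ValuationSubring (AlgebraicClosure ℚ)),
      A.LiesOverPrime (a.1 : ℕ) → ∀ φ : H53.GQ, A.IsFrobeniusAt φ (a.1 : ℕ) →
        ∀ x : T, ρT φ (ρT φ x) - act (MvPolynomial.X a) (ρT φ x) + (a.1 : ℕ) • x = 0)
    (ℓ : ℕ) (hℓ : ℓ.Prime) (hℓN : ¬ ℓ ∣ N) (hℓS : ℓ ∉ (↑S : Set ℕ))
    (A : ValuationSubring (AlgebraicClosure ℚ)) (hA : A.LiesOverPrime ℓ) (φ : H53.GQ)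
    (hφ : A.IsFrobeniusAt φ ℓ) (w : VChi χ act) :
    galChi act _ ρT hcomm φ (galChi act _ ρT hcomm φ w)
      - χ (CuspForm.heckeAlgebra.T hℓ hℓN hℓS) • galChi act _ ρT hcomm φ w + (ℓ : 𝒪') • w = 0 := by
  let a : H31.GoodPrimes N (↑S : Set ℕ) := ⟨⟨ℓ, hℓ⟩, hℓN, hℓS⟩
  have h1 : ρT φ ∘ₗ ρT φ - act (MvPolynomial.X a) ∘ₗ ρT φ + ℓ • LinearMap.id = 0 :=
    LinearMap.ext fun x => hfrob a A hA φ hφ x
  have h2 := congrArg (fun F : Module.End ℤ_[p] T => F.baseChange 𝒪' (w : 𝒪' ⊗[ℤ_[p]] T)) h1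
  simp only [LinearMap.baseChange_add, LinearMap.baseChange_sub, LinearMap.add_apply,
    LinearMap.sub_apply, LinearMap.baseChange_comp, LinearMap.comp_apply,
    LinearMap.baseChange_zero, LinearMap.zero_apply] at h2
  have h3 : (act (MvPolynomial.X a)).baseChange 𝒪' ((ρT φ).baseChange 𝒪' (w : 𝒪' ⊗[ℤ_[p]] T))
      = χ (CuspForm.heckeAlgebra.T hℓ hℓN hℓS) • (ρT φ).baseChange 𝒪' (w : 𝒪' ⊗[ℤ_[p]] T) := by
    have h4 := baseChange_mem_chiSub act (χ.comp (H31.evHecke N (↑S : Set ℕ)))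
      (fun P => hcomm P φ) w.2 (MvPolynomial.X a)
    rw [h4, RingHom.comp_apply, H31.evHecke_X]
  have h5 : (ℓ • (LinearMap.id : Module.End ℤ_[p] T)).baseChange 𝒪' (w : 𝒪' ⊗[ℤ_[p]] T)
      = (ℓ : 𝒪') • (w : 𝒪' ⊗[ℤ_[p]] T) := by
    rw [← Nat.cast_smul_eq_nsmul ℤ_[p], LinearMap.baseChange_smul, LinearMap.baseChange_id,
      LinearMap.smul_apply, LinearMap.id_apply, ← algebraMap_smul 𝒪', map_natCast]
  rw [h3, h5] at h2
  exact Subtype.ext h2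

/-- **Main structural theorem**: the eigenlattice and the attached representation. -/
theorem exists_rep_chi (hpS : p ∈ S) (hNS : ∀ q : ℕ, q.Prime → q ∣ N → q ∈ S)
    (hcont : ∀ n : ℕ, ∃ L : IntermediateField ℚ (AlgebraicClosure ℚ), FiniteDimensional ℚ L ∧
      ∀ σ : H53.GQ, (∀ x ∈ L, σ x = x) → ∀ x : T, ∃ y : T, ρT σ x - x = (p : ℤ_[p]) ^ n • y)
    (hcomm : ∀ P σ, Commute (act P) (ρT σ))
    (hfrob : ∀ (a : H31.GoodPrimes N (↑S : Set ℕ)) (A : ValuationSubring (AlgebraicClosure ℚ)),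
      A.LiesOverPrime (a.1 : ℕ) → ∀ φ : H53.GQ, A.IsFrobeniusAt φ (a.1 : ℕ) →
        ∀ x : T, ρT φ (ρT φ x) - act (MvPolynomial.X a) (ρT φ x) + (a.1 : ℕ) • x = 0)
    (hrel : ∀ U : Finset (ℤ_[p] × MvPolynomial (H31.GoodPrimes N (↑S : Set ℕ)) ℤ),
      ∑ i ∈ U, i.1 • act i.2 = 0 →
        ∑ i ∈ U, algebraMap ℤ_[p] 𝒪' i.1 * χ (H31.evHecke N (↑S : Set ℕ) i.2) = 0) :
    VChi χ act ≠ ⊥ ∧
    (∀ g, ∃ t : 𝒪', ∀ w : VChi χ act, galChi act _ ρT hcomm g (galChi act _ ρT hcomm g w)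
      - t • galChi act _ ρT hcomm g w + cyc 𝒪' hp𝒪' g • w = 0) ∧
    SubLatticeRep 𝒪' hp𝒪' (VChi χ act)
      (galChi act (χ.comp (H31.evHecke N (↑S : Set ℕ))) ρT hcomm) := by
  classical
  have hne : VChi χ act ≠ ⊥ := chiSub_ne_bot act _ algebraMap_padic_injective hrel
  let a : ℕ → 𝒪' := fun ℓ => if h : ℓ.Prime ∧ ¬ ℓ ∣ N ∧ ℓ ∉ (↑S : Set ℕ) then
    χ (CuspForm.heckeAlgebra.T h.1 h.2.1 h.2.2) else 0
  have h1 := exists_rep_of_sublattice hpS 𝒪' hp𝒪' (VChi χ act) hne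
    (galChi act (χ.comp (H31.evHecke N (↑S : Set ℕ))) ρT hcomm)
    (galChi_continuous hp𝒪' χ ρT act hcont hcomm) a (by
      intro ℓ hℓ hℓS A hA φ hφ w
      have hℓN : ¬ ℓ ∣ N := fun h => hℓS (hNS ℓ hℓ h)
      have hℓS' : ℓ ∉ (↑S : Set ℕ) := by simpa using hℓS
      have ha : a ℓ = χ (CuspForm.heckeAlgebra.T hℓ hℓN hℓS') := dif_pos ⟨hℓ, hℓN, hℓS'⟩
      rw [ha]
      exact galChi_frobenius χ ρT act hcomm hfrob ℓ hℓ hℓN hℓS' A hA φ hφ w)
  exact ⟨hne, h1⟩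

end Setup

end Main

end Fermat.Agent.H35
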