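import Mathlib
import Fermat.Prelude.Def_GaloisRep_LocalConditions
import Fermat.Agent.H35VMain

/-!
# The glue for S35 and S36

`steinberg_trace`: the trace of a Frobenius lift at a prime `q` exactly dividing the level.
`exists_fixed_of_trace`: unipotent trace on inertia gives a fixed vector in the lattice.
`s35_of_data`, `s36_of_data`: the conclusions of S35 and S36 from a Hecke-Galois lattice.
-/

set_option autoImplicit false
set_option linter.style.haveILetI false
set_option linter.unusedSectionVars false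

noncomputable section

open IsLocalRing Module TensorProduct Polynomial

namespace Fermat.Agent.H35

section General

variable {Z O : Type*} [CommRing Z] [IsDomain Z] [IsPrincipalIdealRing Z] [CommRing O] [IsDomain O]
  [CharZero O] [Algebra Z O] {A : Type*} [CommRing A] {T : Type*} [AddCommGroup T] [Module Z T]
  [Module.Free Z T] (act : A →+* Module.End Z T) (χ : A →+* O)

/-- The trace of an operator satisfying the Steinberg relation on the new part. -/
theorem steinberg_trace (hinj : Function.Injective (algebraMap Z O))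
    {s sinv : Module.End Z T} (hsinv : sinv * s = 1) {q : ℕ}
    (w D : Module.End Z T) (hw : w * w = 1) (hwact : ∀ P, Commute (act P) w)
    (hws : Commute w s) {P₀ : A} (hP₀ : D * act P₀ = 0) (hχ₀ : χ P₀ ≠ 0)
    (hst : ∀ x : T, D x = 0 → D (w x) = 0 → s (s x) + s (w x) + q • w (s x) + q • x = 0)
    (hne : chiSub act χ ≠ ⊥) {t : O}
    (ht : ∀ v ∈ chiSub act χ, s.baseChange O (s.baseChange O v) - t • s.baseChange O v
      + (q : O) • v = 0) : t = q + 1 ∨ t = -(q + 1) := by
  classical
  set sO := s.baseChange O with hsO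
  set wO := w.baseChange O with hwO
  -- the relation on the eigenlattice
  have hE : ∀ v ∈ chiSub act χ,
      sO (sO v) + sO (wO v) + (q : O) • wO (sO v) + (q : O) • v = 0 := by
    intro v hv
    obtain ⟨n, e, x, he, hvx⟩ := exists_split hinj v
    have hDv : D.baseChange O v = 0 := baseChange_eq_zero_of_absent act χ D hP₀ hχ₀ hv
    have hwv : wO v ∈ chiSub act χ := baseChange_mem_chiSub act χ hwact hv
    have hDwv : (D ∘ₗ w).baseChange O v = 0 := by
      rw [LinearMap.baseChange_comp]
      exact baseChange_eq_zero_of_absent act χ D hP₀ hχ₀ hwv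
    have h1 : ∀ k, D (x k) = 0 := apply_eq_zero_of_split he hvx D hDv
    have h2 : ∀ k, D (w (x k)) = 0 := apply_eq_zero_of_split he hvx (D ∘ₗ w) hDwv
    let F : T →ₗ[Z] T := s ∘ₗ s + s ∘ₗ w + q • (w ∘ₗ s) + q • LinearMap.id
    have h3 : ∀ k, F (x k) = 0 := fun k => hst (x k) (h1 k) (h2 k)
    have h4 := baseChange_eq_zero_of_split hvx F h3
    have h5 : F.baseChange O v = sO (sO v) + sO (wO v) + (q : O) • wO (sO v) + (q : O) • v := by
      have hsm : ∀ (G : T →ₗ[Z] T), (q • G).baseChange O v = (q : O) • G.baseChange O v := by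
        intro G
        rw [← Nat.cast_smul_eq_nsmul Z, LinearMap.baseChange_smul, LinearMap.smul_apply,
          ← algebraMap_smul O, map_natCast]
      simp only [F, LinearMap.baseChange_add, LinearMap.add_apply, hsm, LinearMap.baseChange_comp,
        LinearMap.comp_apply, LinearMap.baseChange_id, LinearMap.id_apply, hsO, hwO]
    rw [← h5, h4]
  have hww : ∀ v, wO (wO v) = v := by
    intro v
    have h1 : (w ∘ₗ w).baseChange O v = v := by
      have h2 : w ∘ₗ w = LinearMap.id := hw
      rw [h2, LinearMap.baseChange_id, LinearMap.id_apply]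
    rw [LinearMap.baseChange_comp] at h1
    exact h1
  have hwsO : ∀ v, wO (sO v) = sO (wO v) := by
    intro v
    have h1 : (w ∘ₗ s).baseChange O v = (s ∘ₗ w).baseChange O v := by
      have h2 : w ∘ₗ s = s ∘ₗ w := hws.eq
      rw [h2]
    rw [LinearMap.baseChange_comp, LinearMap.baseChange_comp] at h1
    exact h1
  have hsO0 : ∀ v, sO v = 0 → v = 0 := by
    intro v hv
    have h1 : (sinv ∘ₗ s).baseChange O v = v := by
      have h2 : sinv ∘ₗ s = LinearMap.id := hsinv
      rw [h2, LinearMap.baseChange_id, LinearMap.id_apply]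
    rw [LinearMap.baseChange_comp, LinearMap.comp_apply] at h1
    rw [← h1]
    change sinv.baseChange O (sO v) = 0
    rw [hv, map_zero]
  obtain ⟨v, hv, hv0⟩ := (Submodule.ne_bot_iff _).mp hne
  -- an eigenvector of `w`
  have hex : ∃ (ε : O) (u : O ⊗[Z] T), (ε = 1 ∨ ε = -1) ∧ u ∈ chiSub act χ ∧ u ≠ 0 ∧
      wO u = ε • u := by
    have hwv : wO v ∈ chiSub act χ := baseChange_mem_chiSub act χ hwact hv
    by_cases h1 : v + wO v = 0
    · exact ⟨-1, v, Or.inr rfl, hv, hv0,
        (eq_neg_of_add_eq_zero_right h1).trans (neg_one_smul O v).symm⟩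
    · refine ⟨1, v + wO v, Or.inl rfl, add_mem hv hwv, h1, ?_⟩
      rw [map_add, hww, one_smul, add_comm]
  obtain ⟨ε, u, hε, hu, hu0, hwu⟩ := hex
  have hεε : ε * ε = 1 := by rcases hε with rfl | rfl <;> ring
  have h1 := hE u hu
  have h2 := ht u hu
  rw [hwsO, hwu, map_smul] at h1
  have h3 : (ε * (1 + q) + t) • sO u = 0 := by
    linear_combination (norm := module) h1 - h2
  have h4 : ε * (1 + q) + t = 0 := by
    by_contra hne'
    have h5 : sO u = 0 := smul_cancel hne' (by rw [h3, smul_zero])
    exact hu0 (hsO0 u h5)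
  rcases hε with rfl | rfl
  · right
    linear_combination h4
  · left
    linear_combination h4

/-- A nonzero vector of `T` fixed by a group, from unipotence on the eigenlattice, under kernel
conditions. -/
theorem exists_fixed_of_unipotent [IsNoetherianRing O] [Module.Finite Z T]
    (hinj : Function.Injective (algebraMap Z O)) {G : Type*} [Group G] (I : Subgroup G)
    (ρT : G →* Module.End Z T) (hcomm : ∀ P σ, Commute (act P) (ρT σ))
    (hne : chiSub act χ ≠ ⊥)
    (hsq : ∀ σ ∈ I, ∀ v ∈ chiSub act χ, (ρT σ).baseChange O ((ρT σ).baseChange O v)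
      - (2 : O) • (ρT σ).baseChange O v + v = 0)
    {T₁ : Type*} [AddCommGroup T₁] [Module Z T₁] [Module.Free Z T₁] (a b : T →ₗ[Z] T₁)
    {Pa Pb : A} (hPa : a ∘ₗ act Pa = 0) (hχa : χ Pa ≠ 0) (hPb : b ∘ₗ act Pb = 0)
    (hχb : χ Pb ≠ 0) :
    ∃ x : T, x ≠ 0 ∧ (∀ σ ∈ I, ρT σ x = x) ∧ a x = 0 ∧ b x = 0 := by
  classical
  obtain ⟨w, hw0, hw⟩ := exists_fixed_of_sq_zero_sub (chiSub act χ) hne I
    (galChi act χ ρT hcomm) (fun σ hσ v => Subtype.ext (hsq σ hσ v v.2))
  obtain ⟨n, e, x, he, hvx⟩ := exists_split hinj (w : O ⊗[Z] T)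
  have hfix : ∀ σ ∈ I, ∀ k, ρT σ (x k) = x k := by
    intro σ hσ k
    have h1 : (ρT σ - LinearMap.id).baseChange O (w : O ⊗[Z] T) = 0 := by
      have h2 := congrArg Subtype.val (hw σ hσ)
      rw [coe_galChi] at h2
      rw [LinearMap.baseChange_sub, LinearMap.sub_apply, LinearMap.baseChange_id,
        LinearMap.id_apply, h2, sub_self]
    have h2 := apply_eq_zero_of_split he hvx (ρT σ - LinearMap.id) h1 k
    exact sub_eq_zero.mp h2
  have ha : ∀ k, a (x k) = 0 := apply_eq_zero_of_split he hvx a
    (baseChange_eq_zero_of_absent act χ a hPa hχa w.2)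
  have hb : ∀ k, b (x k) = 0 := apply_eq_zero_of_split he hvx b
    (baseChange_eq_zero_of_absent act χ b hPb hχb w.2)
  by_contra hcon
  push Not at hcon
  have hx0 : ∀ k, x k = 0 := by
    intro k
    by_contra hk
    exact hcon (x k) hk (fun σ hσ => hfix σ hσ k) (ha k) (hb k)
  apply hw0
  apply Subtype.ext
  rw [hvx]
  simp [hx0]

end General

end Fermat.Agent.H35
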