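import Mathlib
import Fermat.Agent.H35VGlue

/-!
# S35 and S36 from a Hecke-Galois lattice

`s35_of_data`: `T` a Hecke-Galois lattice over `ℤ_p` of level `N` and for every prime `q ∥ N`,
`q ≠ p`, and every Frobenius lift `σ` at `q` an involution `w` and an operator `D` on `T` killed by
the non-`χ` part with the relation `(σ + q w)(σ + w) x = 0` when `D x = D (w x) = 0`.

`s36_of_data`: for every prime `q` with `v_q(N) = 2`, operators `a, b` vanishing on the `χ`-part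
such that an inertia invariant `x` with `a x = b x = 0` is `0`.
-/

set_option autoImplicit false
set_option linter.style.haveILetI false
set_option linter.unusedSectionVars false

noncomputable section

open IsLocalRing Module TensorProduct Polynomial

namespace Fermat.Agent.H35

variable {p : ℕ} [Fact p.Prime]

/-- Faithfulness in the sense of `H31Mod` implies the condition on linear relations. -/
theorem rel_of_faithful {N : ℕ} [NeZero N] {S : Finset ℕ}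
    {𝒪' : Type*} [CommRing 𝒪'] [IsDomain 𝒪'] [IsLocalRing 𝒪']
    [IsHausdorff (IsLocalRing.maximalIdeal 𝒪') 𝒪']
    [CharZero 𝒪'] (hp𝒪' : (p : 𝒪') ∈ IsLocalRing.maximalIdeal 𝒪') (ι : ℤ_[p] →+* 𝒪')
    (χ : CuspForm.heckeAlgebra N 2 (↑S : Set ℕ) →+* 𝒪')
    {T : Type*} [AddCommGroup T] [Module ℤ_[p] T]
    (act : MvPolynomial (H31.GoodPrimes N (↑S : Set ℕ)) ℤ →+* Module.End ℤ_[p] T)
    (hfaith : ∃ c u : ℕ, u ≠ 0 ∧
      ∀ (n : ℕ) (P : MvPolynomial (H31.GoodPrimes N (↑S : Set ℕ)) ℤ),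
        (∀ x : T, ∃ y : T, act P x = (p : ℤ_[p]) ^ n • y) →
          ∃ y : CuspForm.heckeAlgebra N 2 (↑S : Set ℕ),
            (u : CuspForm.heckeAlgebra N 2 (↑S : Set ℕ)) * H31.evHecke N (↑S : Set ℕ) P =
              (p : CuspForm.heckeAlgebra N 2 (↑S : Set ℕ)) ^ (n - c) * y)
    (U : Finset (ℤ_[p] × MvPolynomial (H31.GoodPrimes N (↑S : Set ℕ)) ℤ))
    (hU : ∑ i ∈ U, i.1 • act i.2 = 0) :
    ∑ i ∈ U, ι i.1 * χ (H31.evHecke N (↑S : Set ℕ) i.2) = 0 := by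
  classical
  obtain ⟨c, u, hu, hfaith⟩ := hfaith
  set z := ∑ i ∈ U, ι i.1 * χ (H31.evHecke N (↑S : Set ℕ) i.2) with hz
  have key : ∀ n : ℕ, (u : 𝒪') * z ∈ maximalIdeal 𝒪' ^ (n - c) := by
    intro n
    have happ : ∀ x : ℤ_[p], ∃ (k : ℕ) (d : ℤ_[p]), x = (k : ℤ_[p]) + (p : ℤ_[p]) ^ n * d := by
      intro x
      obtain ⟨d, hd⟩ := Ideal.mem_span_singleton.mp (PadicInt.appr_spec n x)
      exact ⟨x.appr n, d, by rw [← hd]; ring⟩
    choose k d hkd using happ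
    let P : MvPolynomial (H31.GoodPrimes N (↑S : Set ℕ)) ℤ := ∑ i ∈ U, (k i.1) • i.2
    have h1 : act P = - ((p : ℤ_[p]) ^ n • ∑ i ∈ U, d i.1 • act i.2) := by
      have h2 : act P = ∑ i ∈ U, (k i.1 : ℤ_[p]) • act i.2 := by
        simp only [P, map_sum, map_nsmul, Nat.cast_smul_eq_nsmul]
      rw [h2, eq_neg_iff_add_eq_zero, Finset.smul_sum, ← Finset.sum_add_distrib, ← hU]
      refine Finset.sum_congr rfl fun i _ => ?_
      conv_rhs => rw [hkd i.1]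
      rw [add_smul, mul_smul]
    obtain ⟨y, hy⟩ := hfaith n P (fun x => ⟨- (∑ i ∈ U, d i.1 • act i.2) x, by
      rw [h1, LinearMap.neg_apply, LinearMap.smul_apply, smul_neg]⟩)
    have h3 := congrArg χ hy
    rw [map_mul, map_mul, map_pow, map_natCast, map_natCast] at h3
    have h4 : z = χ (H31.evHecke N (↑S : Set ℕ) P)
        + (p : 𝒪') ^ n * ∑ i ∈ U, ι (d i.1) * χ (H31.evHecke N (↑S : Set ℕ) i.2) := by
      have h5 : χ (H31.evHecke N (↑S : Set ℕ) P)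
          = ∑ i ∈ U, (k i.1 : 𝒪') * χ (H31.evHecke N (↑S : Set ℕ) i.2) := by
        simp only [P, map_sum, nsmul_eq_mul, map_mul, map_natCast]
      rw [h5, Finset.mul_sum, ← Finset.sum_add_distrib, hz]
      refine Finset.sum_congr rfl fun i _ => ?_
      conv_lhs => rw [hkd i.1]
      rw [map_add, map_mul, map_pow, map_natCast, map_natCast]
      ring
    rw [h4, mul_add, h3]
    refine Ideal.add_mem _ (Ideal.mul_mem_right _ _ (Ideal.pow_mem_pow hp𝒪' _)) ?_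
    refine Ideal.mul_mem_left _ _ (Ideal.mul_mem_right _ _ ?_)
    exact Ideal.pow_le_pow_right (Nat.sub_le n c) (Ideal.pow_mem_pow hp𝒪' n)
  have h0 : (u : 𝒪') * z = 0 := by
    refine IsHausdorff.haus (I := maximalIdeal 𝒪') inferInstance _ fun n => ?_
    rw [SModEq.zero, smul_eq_mul, Ideal.mul_top]
    have := key (n + c)
    rwa [Nat.add_sub_cancel] at this
  rcases mul_eq_zero.mp h0 with h | h
  · exact absurd (by exact_mod_cast h) hu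
  · exact h

/-- Steinberg data at `q` for a Frobenius lift `σ`. -/
def SteinbergData {N : ℕ} [NeZero N] {S : Finset ℕ} {𝒪' : Type*} [CommRing 𝒪']
    (χ : CuspForm.heckeAlgebra N 2 (↑S : Set ℕ) →+* 𝒪')
    {T : Type*} [AddCommGroup T] [Module ℤ_[p] T] (ρT : H53.GQ →* Module.End ℤ_[p] T)
    (act : MvPolynomial (H31.GoodPrimes N (↑S : Set ℕ)) ℤ →+* Module.End ℤ_[p] T)
    (q : ℕ) (σ : H53.GQ) : Prop :=
  ∃ w D : Module.End ℤ_[p] T, w * w = 1 ∧ (∀ P, Commute (act P) w) ∧ Commute w (ρT σ) ∧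
    (∃ P, D * act P = 0 ∧ χ (H31.evHecke N (↑S : Set ℕ) P) ≠ 0) ∧
    ∀ x : T, D x = 0 → D (w x) = 0 →
      ρT σ (ρT σ x) + ρT σ (w x) + q • w (ρT σ x) + q • x = 0

/-- Carayol data at `q`: no inertia invariants in the new part. -/
def CarayolData {N : ℕ} [NeZero N] {S : Finset ℕ} {𝒪' : Type*} [CommRing 𝒪']
    (χ : CuspForm.heckeAlgebra N 2 (↑S : Set ℕ) →+* 𝒪')
    {T : Type*} [AddCommGroup T] [Module ℤ_[p] T] (ρT : H53.GQ →* Module.End ℤ_[p] T)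
    (act : MvPolynomial (H31.GoodPrimes N (↑S : Set ℕ)) ℤ →+* Module.End ℤ_[p] T)
    (q : ℕ) : Prop :=
  ∃ A : ValuationSubring (AlgebraicClosure ℚ), A.LiesOverPrime q ∧
    ∃ (T₁ : Type) (_ : AddCommGroup T₁) (_ : Module ℤ_[p] T₁) (_ : Module.Free ℤ_[p] T₁)
      (a b : T →ₗ[ℤ_[p]] T₁),
      (∃ P, a ∘ₗ act P = 0 ∧ χ (H31.evHecke N (↑S : Set ℕ) P) ≠ 0) ∧
      (∃ P, b ∘ₗ act P = 0 ∧ χ (H31.evHecke N (↑S : Set ℕ) P) ≠ 0) ∧
      ∀ x : T, (∀ σ ∈ A.inertiaSubgroupIn ℚ, ρT σ x = x) → a x = 0 → b x = 0 → x = 0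

section Final

variable {N : ℕ} [NeZero N] {S : Finset ℕ}
    (hpS : p ∈ S) (hNS : ∀ q : ℕ, q.Prime → q ∣ N → q ∈ S)
    (𝒪' : Type) [CommRing 𝒪'] [IsDomain 𝒪'] [IsDiscreteValuationRing 𝒪']
    [IsAdicComplete (IsLocalRing.maximalIdeal 𝒪') 𝒪'] [Finite (IsLocalRing.ResidueField 𝒪')]
    [CharZero 𝒪'] (hp𝒪' : (p : 𝒪') ∈ IsLocalRing.maximalIdeal 𝒪')
    (χ : CuspForm.heckeAlgebra N 2 (↑S : Set ℕ) →+* 𝒪')
    {T : Type*} [AddCommGroup T] [Module ℤ_[p] T] [Module.Free ℤ_[p] T] [Module.Finite ℤ_[p] T]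
    (ρT : H53.GQ →* Module.End ℤ_[p] T)
    (hcont : ∀ n : ℕ, ∃ L : IntermediateField ℚ (AlgebraicClosure ℚ), FiniteDimensional ℚ L ∧
      ∀ σ : H53.GQ, (∀ x ∈ L, σ x = x) → ∀ x : T, ∃ y : T, ρT σ x - x = (p : ℤ_[p]) ^ n • y)
    (act : MvPolynomial (H31.GoodPrimes N (↑S : Set ℕ)) ℤ →+* Module.End ℤ_[p] T)
    (hcomm : ∀ P σ, Commute (act P) (ρT σ))
    (hfrob : ∀ (a : H31.GoodPrimes N (↑S : Set ℕ)) (A : ValuationSubring (AlgebraicClosure ℚ)),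
      A.LiesOverPrime (a.1 : ℕ) → ∀ φ : H53.GQ, A.IsFrobeniusAt φ (a.1 : ℕ) →
        ∀ x : T, ρT φ (ρT φ x) - act (MvPolynomial.X a) (ρT φ x) + (a.1 : ℕ) • x = 0)
    (hfaith : ∃ c u : ℕ, u ≠ 0 ∧
      ∀ (n : ℕ) (P : MvPolynomial (H31.GoodPrimes N (↑S : Set ℕ)) ℤ),
        (∀ x : T, ∃ y : T, act P x = (p : ℤ_[p]) ^ n • y) →
          ∃ y : CuspForm.heckeAlgebra N 2 (↑S : Set ℕ),
            (u : CuspForm.heckeAlgebra N 2 (↑S : Set ℕ)) * H31.evHecke N (↑S : Set ℕ) P =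
              (p : CuspForm.heckeAlgebra N 2 (↑S : Set ℕ)) ^ (n - c) * y)

include hpS hNS hp𝒪' hcont hcomm hfrob hfaith

/-- **S35** from a Hecke-Galois lattice with Steinberg data. -/
theorem s35_of_data
    (hst : ∀ q : ℕ, q.Prime → q ≠ p → q ∣ N → ¬ q ^ 2 ∣ N →
      ∀ A : ValuationSubring (AlgebraicClosure ℚ), A.LiesOverPrime q →
        ∀ σ : H53.GQ, A.IsFrobeniusAt σ q → SteinbergData χ ρT act q σ) :
    ∃ (𝒪'' : Type) (_ : CommRing 𝒪'') (_ : IsDomain 𝒪'') (_ : IsDiscreteValuationRing 𝒪'')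
      (_ : IsAdicComplete (IsLocalRing.maximalIdeal 𝒪'') 𝒪'')
      (_ : Finite (IsLocalRing.ResidueField 𝒪'')) (_ : CharZero 𝒪'')
      (_ : Algebra 𝒪' 𝒪'') (_ : Module.Finite 𝒪' 𝒪'') (_ : IsLocalHom (algebraMap 𝒪' 𝒪'')),
    Function.Injective (algebraMap 𝒪' 𝒪'') ∧
    ∃ ρ : GaloisRepAdic 𝒪'',
      (∀ (ℓ : ℕ) (hℓ : ℓ.Prime) (hℓN : ¬ ℓ ∣ N) (hℓS : ℓ ∉ (↑S : Set ℕ)),
        ∀ A : ValuationSubring (AlgebraicClosure ℚ), A.LiesOverPrime ℓ →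
          ∀ σ : AlgebraicClosure ℚ ≃ₐ[ℚ] AlgebraicClosure ℚ, A.IsFrobeniusAt σ ℓ →
            LinearMap.charpoly (ρ.ρ σ) =
              X ^ 2 - C (algebraMap 𝒪' 𝒪'' (χ (CuspForm.heckeAlgebra.T hℓ hℓN hℓS))) * X
                + C ((ℓ : 𝒪''))) ∧
      (∀ q : ℕ, q.Prime → q ≠ p → q ∣ N → ¬ q ^ 2 ∣ N →
        ∀ A : ValuationSubring (AlgebraicClosure ℚ), A.LiesOverPrime q →
          ∀ σ : AlgebraicClosure ℚ ≃ₐ[ℚ] AlgebraicClosure ℚ, A.IsFrobeniusAt σ q →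
            LinearMap.charpoly (ρ.ρ σ) = X ^ 2 - C ((q : 𝒪'') + 1) * X + C ((q : 𝒪'')) ∨
            LinearMap.charpoly (ρ.ρ σ) = X ^ 2 + C ((q : 𝒪'') + 1) * X + C ((q : 𝒪''))) := by
  classical
  letI : Algebra ℤ_[p] 𝒪' := (padicToAdic 𝒪' hp𝒪').toAlgebra
  obtain ⟨hne, hquad, 𝒪'', i1, i2, i3, i4, i5, i6, i7, i8, i9, hinj, ρ, hchar, -⟩ :=
    exists_rep_chi hp𝒪' χ ρT act hpS hNS hcont hcomm hfrob
      (rel_of_faithful hp𝒪' (algebraMap ℤ_[p] 𝒪') χ act hfaith)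
  refine ⟨𝒪'', i1, i2, i3, i4, i5, i6, i7, i8, i9, hinj, ρ, ?_, ?_⟩
  · intro ℓ hℓ hℓN hℓS A hA φ hφ
    have hℓp : ℓ ≠ p := by
      rintro rfl
      exact hℓS (by simpa using hpS)
    have hcyc : cyc 𝒪' hp𝒪' φ = (ℓ : 𝒪') := cyc_frobenius 𝒪' hp𝒪' hℓ hℓp hA hφ
    have h1 := hchar φ (χ (CuspForm.heckeAlgebra.T hℓ hℓN hℓS)) (by
      intro w
      rw [hcyc]
      exact galChi_frobenius χ ρT act hcomm hfrob ℓ hℓ hℓN hℓS A hA φ hφ w)
    rw [h1, hcyc, map_natCast]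
  · intro q hq hqp hqN hq2 A hA σ hσ
    have hcyc : cyc 𝒪' hp𝒪' σ = (q : 𝒪') := cyc_frobenius 𝒪' hp𝒪' hq hqp hA hσ
    obtain ⟨t, ht⟩ := hquad σ
    have h1 := hchar σ t ht
    rw [hcyc, map_natCast] at h1
    obtain ⟨w, D, hw, hwact, hwσ, ⟨P₀, hP₀, hχ₀⟩, hst'⟩ := hst q hq hqp hqN hq2 A hA σ hσ
    have h2 := steinberg_trace act (χ.comp (H31.evHecke N (↑S : Set ℕ)))
      algebraMap_padic_injective (s := ρT σ) (sinv := ρT σ⁻¹)
      (by rw [← map_mul, inv_mul_cancel, map_one]) w D hw hwact hwσ hP₀ hχ₀ hst' hne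
      (t := t) (by
        intro v hv
        have h3 := congrArg Subtype.val (ht ⟨v, hv⟩)
        rw [hcyc] at h3
        exact h3)
    rcases h2 with h2 | h2
    · left
      rw [h1, h2]
      simp
    · right
      rw [h1, h2]
      simp only [map_neg, map_add, map_natCast, map_one]
      ring

/-- **S36** from a Hecke-Galois lattice with Carayol data. -/
theorem s36_of_data
    (hca : ∀ q : ℕ, q.Prime → q ≠ p → N.factorization q = 2 → CarayolData χ ρT act q) :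
    ∃ (𝒪'' : Type) (_ : CommRing 𝒪'') (_ : IsDomain 𝒪'') (_ : IsDiscreteValuationRing 𝒪'')
      (_ : IsAdicComplete (IsLocalRing.maximalIdeal 𝒪'') 𝒪'')
      (_ : Finite (IsLocalRing.ResidueField 𝒪'')) (_ : CharZero 𝒪'')
      (_ : Algebra 𝒪' 𝒪'') (_ : Module.Finite 𝒪' 𝒪'') (_ : IsLocalHom (algebraMap 𝒪' 𝒪'')),
    Function.Injective (algebraMap 𝒪' 𝒪'') ∧
    ∃ ρ : GaloisRepAdic 𝒪'',
      (∀ (ℓ : ℕ) (hℓ : ℓ.Prime) (hℓN : ¬ ℓ ∣ N) (hℓS : ℓ ∉ (↑S : Set ℕ)),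
        ∀ A : ValuationSubring (AlgebraicClosure ℚ), A.LiesOverPrime ℓ →
          ∀ σ : AlgebraicClosure ℚ ≃ₐ[ℚ] AlgebraicClosure ℚ, A.IsFrobeniusAt σ ℓ →
            LinearMap.charpoly (ρ.ρ σ) =
              X ^ 2 - C (algebraMap 𝒪' 𝒪'' (χ (CuspForm.heckeAlgebra.T hℓ hℓN hℓS))) * X
                + C ((ℓ : 𝒪''))) ∧
      (∀ q : ℕ, q.Prime → q ≠ p → N.factorization q = 2 → ¬ ρ.IsUnipotentOnInertiaAt q) := by
  classical
  letI : Algebra ℤ_[p] 𝒪' := (padicToAdic 𝒪' hp𝒪').toAlgebra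
  obtain ⟨hne, hquad, 𝒪'', i1, i2, i3, i4, i5, i6, i7, i8, i9, hinj, ρ, hchar, -⟩ :=
    exists_rep_chi hp𝒪' χ ρT act hpS hNS hcont hcomm hfrob
      (rel_of_faithful hp𝒪' (algebraMap ℤ_[p] 𝒪') χ act hfaith)
  refine ⟨𝒪'', i1, i2, i3, i4, i5, i6, i7, i8, i9, hinj, ρ, ?_, ?_⟩
  · intro ℓ hℓ hℓN hℓS A hA φ hφ
    have hℓp : ℓ ≠ p := by
      rintro rfl
      exact hℓS (by simpa using hpS)
    have hcyc : cyc 𝒪' hp𝒪' φ = (ℓ : 𝒪') := cyc_frobenius 𝒪' hp𝒪' hℓ hℓp hA hφ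
    have h1 := hchar φ (χ (CuspForm.heckeAlgebra.T hℓ hℓN hℓS)) (by
      intro w
      rw [hcyc]
      exact galChi_frobenius χ ρT act hcomm hfrob ℓ hℓ hℓN hℓS A hA φ hφ w)
    rw [h1, hcyc, map_natCast]
  · intro q hq hqp hq2 huni
    obtain ⟨A, hA, T₁, j1, j2, j3, a, b, ⟨Pa, hPa, hχa⟩, ⟨Pb, hPb, hχb⟩, hinv⟩ := hca q hq hqp hq2
    obtain ⟨x, hx0, hxI, hxa, hxb⟩ := exists_fixed_of_unipotent act
      (χ.comp (H31.evHecke N (↑S : Set ℕ))) algebraMap_padic_injective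
      (A.inertiaSubgroupIn ℚ) ρT hcomm hne (by
        intro σ hσ v hv
        obtain ⟨t, ht⟩ := hquad σ
        have h1 := hchar σ t ht
        have hcyc : cyc 𝒪' hp𝒪' σ = 1 := cyc_inertia 𝒪' hp𝒪' hq hqp hA hσ
        have h2 : t = 2 := by
          apply hinj
          have h3 := huni A hA σ hσ
          rw [h1] at h3
          have h4 := congrArg (fun P : Polynomial 𝒪'' => P.coeff 1) h3
          have h5 : ((X - 1 : Polynomial 𝒪'') ^ 2) = X ^ 2 - C 2 * X + C 1 := by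
            simp only [map_ofNat, map_one]
            ring
          rw [h5] at h4
          simp only [coeff_add, coeff_sub, coeff_X_pow, coeff_C_mul, coeff_X_one, mul_one,
            coeff_C_succ, add_zero] at h4
          rw [map_ofNat]
          simpa using h4
        have h3 := congrArg Subtype.val (ht ⟨v, hv⟩)
        rw [hcyc, h2, one_smul] at h3
        exact h3) a b hPa hχa hPb hχb
    exact hx0 (hinv x hxI hxa hxb)

end Final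

end Fermat.Agent.H35
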