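import Mathlib
import Fermat.Agent.H30Final
import Fermat.Agent.H35VFinal

/-!
# J-level wrappers of the glue for S35 and S36
-/

set_option autoImplicit false
set_option linter.style.haveILetI false
set_option linter.unusedSectionVars false

noncomputable section

open Polynomial CuspForm ModularCurve AlgebraicCurve Fermat.Agent.H31 Fermat.Agent.H30

namespace Fermat.Agent.H35

section TateMap

variable {p : ℕ} [Fact p.Prime] {J J₁ : Type*} [AddCommGroup J] [AddCommGroup J₁]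

/-- The map of Tate modules induced by a homomorphism. -/
def tateMap (f : J →+ J₁) : TateMod p J →ₗ[ℤ_[p]] TateMod p J₁ where
  toFun x := ⟨fun n => f (TateMod.proj n x), by
    show f (TateMod.proj 0 x) = 0
    rw [TateMod.proj_zero, map_zero], fun n => by
    show p • f (TateMod.proj (n + 1) x) = f (TateMod.proj n x)
    rw [← map_nsmul, TateMod.smul_proj_succ]⟩
  map_add' x y := by
    ext n
    show f (TateMod.proj n (x + y)) = f (TateMod.proj n x) + f (TateMod.proj n y)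
    rw [map_add, map_add]
  map_smul' a x := by
    ext n
    show f (TateMod.proj n (a • x)) = _
    rw [RingHom.id_apply, TateMod.proj_smul, TateMod.proj_smul, map_nsmul]
    rfl

@[simp] theorem proj_tateMap (f : J →+ J₁) (x : TateMod p J) (n : ℕ) :
    TateMod.proj n (tateMap (p := p) f x) = f (TateMod.proj n x) := rfl

end TateMap

section Module

/-- The exceptional polynomial `P`: it kills the `p`-power torsion of `J₁`, but not the
eigensystem `χ`. -/
def AbsentFrom {N : ℕ} [NeZero N] {S : Set ℕ} {𝒪' : Type*} [CommRing 𝒪']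
    (χ : CuspForm.heckeAlgebra N 2 S →+* 𝒪') (p : ℕ)
    (J₁ : Type*) [AddCommGroup J₁] [Module HeckeAlg J₁] : Prop :=
  ∃ P : MvPolynomial (GoodPrimes N S) ℤ, χ (evHecke N S P) ≠ 0 ∧
    ∀ x : J₁, (∃ n : ℕ, p ^ n • x = 0) → inclHecke N S P • x = 0

/-- The homomorphism `f` commutes with the good Hecke operators. -/
def HeckeEquiv (N : ℕ) (S : Set ℕ) {J J₁ : Type*} [AddCommGroup J] [Module HeckeAlg J]
    [AddCommGroup J₁] [Module HeckeAlg J₁] (f : J →+ J₁) : Prop :=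
  ∀ (a : GoodPrimes N S) (x : J), f (heckeGen a.1 • x) = heckeGen a.1 • f x

theorem HeckeEquiv.smul {N : ℕ} {S : Set ℕ} {J J₁ : Type*} [AddCommGroup J] [Module HeckeAlg J]
    [AddCommGroup J₁] [Module HeckeAlg J₁] {f : J →+ J₁} (h : HeckeEquiv N S f)
    (P : MvPolynomial (GoodPrimes N S) ℤ) (x : J) :
    f (inclHecke N S P • x) = inclHecke N S P • f x := by
  induction P using MvPolynomial.induction_on generalizing x with
  | C a =>
    have h1 : inclHecke N S (MvPolynomial.C a) = (a : HeckeAlg) := by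
      rw [show (MvPolynomial.C a : MvPolynomial (GoodPrimes N S) ℤ) = (a : MvPolynomial (GoodPrimes N S) ℤ) by
        simp, map_intCast]
    rw [h1, Int.cast_smul_eq_zsmul, Int.cast_smul_eq_zsmul, map_zsmul]
  | add P Q hP hQ => rw [map_add, add_smul, add_smul, map_add, hP, hQ]
  | mul_X P a hP =>
    rw [map_mul, inclHecke_X, mul_smul, mul_smul, hP, h]

/-- Steinberg data at `q` on a Galois-Hecke module `J` with respect to `J₁`. -/
structure SteinbergJ (N : ℕ) (S : Set ℕ) (p q : ℕ) (J J₁ : Type*)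
    [AddCommGroup J] [Module HeckeAlg J] [DistribMulAction GQ J]
    [AddCommGroup J₁] [Module HeckeAlg J₁] where
  /-- Atkin-Lehner -/
  w : J →+ J
  /-- the first degeneracy map -/
  f : J →+ J₁
  /-- the second degeneracy map -/
  g : J₁ →+ J
  w_w : ∀ x, w (w x) = x
  w_hecke : HeckeEquiv N S w
  w_gal : ∀ (σ : GQ) (x : J), w (σ • x) = σ • w x
  f_hecke : HeckeEquiv N S f
  star : ∀ A : ValuationSubring (AlgebraicClosure ℚ), A.LiesOverPrime q →
    ∀ σ : GQ, A.IsFrobeniusAt σ q → ∀ x : J, (∃ n : ℕ, p ^ n • x = 0) →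
      g (f x) = 0 → g (f (w x)) = 0 →
        σ • (σ • x) + σ • (w x) + q • w (σ • x) + q • x = 0

/-- Carayol data at `q` on a Galois-Hecke module `J` with respect to `J₁`. -/
structure CarayolJ (N : ℕ) (S : Set ℕ) (p q : ℕ) (J J₁ : Type*)
    [AddCommGroup J] [Module HeckeAlg J] [DistribMulAction GQ J]
    [AddCommGroup J₁] [Module HeckeAlg J₁] where
  /-- the first degeneracy map -/
  a : J →+ J₁
  /-- the second degeneracy map -/
  b : J →+ J₁
  a_hecke : HeckeEquiv N S a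
  b_hecke : HeckeEquiv N S b
  /-- the exponent bounding the fixed points killed by `a` and `b` -/
  c : ℕ
  fixed : ∃ A : ValuationSubring (AlgebraicClosure ℚ), A.LiesOverPrime q ∧
    ∀ x : J, (∃ n : ℕ, p ^ n • x = 0) → (∀ σ ∈ A.inertiaSubgroupIn ℚ, σ • x = x) →
      a x = 0 → b x = 0 → p ^ c • x = 0

variable {p : ℕ} [Fact p.Prime] {N : ℕ} [NeZero N] {S : Finset ℕ} {𝒪' : Type*} [CommRing 𝒪']
    {χ : CuspForm.heckeAlgebra N 2 (↑S : Set ℕ) →+* 𝒪'}
    {J J₁ : Type*} [AddCommGroup J] [Module HeckeAlg J] [DistribMulAction GQ J]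
    [AddCommGroup J₁] [Module HeckeAlg J₁]

theorem steinbergData_of_J {q : ℕ} (D : SteinbergJ N (↑S : Set ℕ) p q J J₁)
    (habs : AbsentFrom χ p J₁) {A : ValuationSubring (AlgebraicClosure ℚ)}
    (hA : A.LiesOverPrime q) {σ : GQ} (hσ : A.IsFrobeniusAt σ q) :
    SteinbergData χ (galTate p J) (actTate p J N (↑S : Set ℕ)) q σ := by
  obtain ⟨P₀, hP₀, hkill⟩ := habs
  refine ⟨tateMap D.w, tateMap (D.g.comp D.f), ?_, ?_, ?_, ⟨P₀, ?_, hP₀⟩, ?_⟩
  · refine LinearMap.ext fun x => ?_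
    ext n
    exact D.w_w _
  · intro P
    refine LinearMap.ext fun x => ?_
    ext n
    exact (D.w_hecke.smul P _).symm
  · refine LinearMap.ext fun x => ?_
    ext n
    exact D.w_gal σ _
  · refine LinearMap.ext fun x => ?_
    ext n
    show D.g (D.f (inclHecke N (↑S : Set ℕ) P₀ • TateMod.proj n x)) = 0
    rw [D.f_hecke.smul, hkill _ ⟨n, by
      rw [← map_nsmul, TateMod.pow_smul_proj, map_zero]⟩, map_zero]
  · intro x h1 h2
    ext n
    have e1 : D.g (D.f (TateMod.proj n x)) = 0 := by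
      have := congrArg (TateMod.proj n) h1
      rwa [map_zero] at this
    have e2 : D.g (D.f (D.w (TateMod.proj n x))) = 0 := by
      have := congrArg (TateMod.proj n) h2
      rwa [map_zero] at this
    have h := D.star A hA σ hσ (TateMod.proj n x) ⟨n, TateMod.pow_smul_proj x n⟩ e1 e2
    simp only [map_add, map_nsmul, proj_galTate, proj_tateMap, map_zero]
    exact h

theorem carayolData_of_J [NoZeroDivisors 𝒪'] {q : ℕ} {J J₁ : Type} [AddCommGroup J]
    [Module HeckeAlg J] [DistribMulAction GQ J]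
    [AddCommGroup J₁] [Module HeckeAlg J₁] (D : CarayolJ N (↑S : Set ℕ) p q J J₁)
    (hfin : {x : J₁ | p • x = 0}.Finite)
    (habs : AbsentFrom χ p J₁) :
    CarayolData χ (galTate p J) (actTate p J N (↑S : Set ℕ)) q := by
  obtain ⟨P₀, hP₀, hkill⟩ := habs
  obtain ⟨A, hA, hfix⟩ := D.fixed
  have hf := TateMod.free_of_finite_torsion (p := p) (J := J₁) hfin
  refine ⟨A, hA, TateMod p J₁, inferInstance, inferInstance, hf, tateMap D.a, tateMap D.b,
    ⟨P₀, ?_, hP₀⟩, ⟨P₀, ?_, hP₀⟩, ?_⟩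
  · refine LinearMap.ext fun x => ?_
    ext n
    show D.a (inclHecke N (↑S : Set ℕ) P₀ • TateMod.proj n x) = 0
    rw [D.a_hecke.smul, hkill _ ⟨n, by
      rw [← map_nsmul, TateMod.pow_smul_proj, map_zero]⟩]
  · refine LinearMap.ext fun x => ?_
    ext n
    show D.b (inclHecke N (↑S : Set ℕ) P₀ • TateMod.proj n x) = 0
    rw [D.b_hecke.smul, hkill _ ⟨n, by
      rw [← map_nsmul, TateMod.pow_smul_proj, map_zero]⟩]
  · intro x hI ha hb
    have h0 : (p : ℤ_[p]) ^ D.c • x = 0 := by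
      ext n
      have e1 : D.a (TateMod.proj n x) = 0 := by
        have := congrArg (TateMod.proj n) ha
        rwa [map_zero] at this
      have e2 : D.b (TateMod.proj n x) = 0 := by
        have := congrArg (TateMod.proj n) hb
        rwa [map_zero] at this
      have h := hfix (TateMod.proj n x) ⟨n, TateMod.pow_smul_proj x n⟩ (fun σ hσ => by
        have := congrArg (TateMod.proj n) (hI σ hσ)
        rwa [proj_galTate] at this) e1 e2
      rw [← Nat.cast_pow, TateMod.natCast_smul, map_nsmul, h, map_zero]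
    exact TateMod.pow_smul_injective _ h0

end Module

section Final

variable {p : ℕ} [Fact p.Prime] {N : ℕ} [NeZero N] {S : Finset ℕ}
    (hpS : p ∈ S) (hNS : ∀ q : ℕ, q.Prime → q ∣ N → q ∈ S)
    (𝒪' : Type) [CommRing 𝒪'] [IsDomain 𝒪'] [IsDiscreteValuationRing 𝒪']
    [IsAdicComplete (IsLocalRing.maximalIdeal 𝒪') 𝒪'] [Finite (IsLocalRing.ResidueField 𝒪')]
    [CharZero 𝒪'] (hp𝒪' : (p : 𝒪') ∈ IsLocalRing.maximalIdeal 𝒪')
    (χ : CuspForm.heckeAlgebra N 2 (↑S : Set ℕ) →+* 𝒪')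

/-- The conclusion of S35. -/
def S35Conclusion (p N : ℕ) [NeZero N] (S : Finset ℕ) (𝒪' : Type) [CommRing 𝒪'] [IsDomain 𝒪']
    [IsDiscreteValuationRing 𝒪']
    (χ : CuspForm.heckeAlgebra N 2 (↑S : Set ℕ) →+* 𝒪') : Prop :=
  ∃ (𝒪'' : Type) (_ : CommRing 𝒪'') (_ : IsDomain 𝒪'') (_ : IsDiscreteValuationRing 𝒪'')
    (_ : IsAdicComplete (IsLocalRing.maximalIdeal 𝒪'') 𝒪'')
    (_ : Finite (IsLocalRing.ResidueField 𝒪'')) (_ : CharZero 𝒪'')
    (_ : Algebra 𝒪' 𝒪'') (_ : Module.Finite 𝒪' 𝒪'') (_ : IsLocalHom (algebraMap 𝒪' 𝒪'')),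
  Function.Injective (algebraMap 𝒪' 𝒪'') ∧
  ∃ ρ : GaloisRepAdic 𝒪'',
    (∀ (ℓ : ℕ) (hℓ : ℓ.Prime) (hℓN : ¬ ℓ ∣ N) (hℓS : ℓ ∉ (↑S : Set ℕ)),
      ∀ A : ValuationSubring (AlgebraicClosure ℚ), A.LiesOverPrime ℓ →
        ∀ σ : AlgebraicClosure ℚ ≃ₐ[ℚ] AlgebraicClosure ℚ, A.IsFrobeniusAt σ ℓ →
          LinearMap.charpoly (ρ.ρ σ) =
            X ^ 2 - C (algebraMap 𝒪' 𝒪'' (χ (CuspForm.heckeAlgebra.T hℓ hℓN hℓS))) * X
              + C ((ℓ : 𝒪''))) ∧
    (∀ q : ℕ, q.Prime → q ≠ p → q ∣ N → ¬ q ^ 2 ∣ N →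
      ∀ A : ValuationSubring (AlgebraicClosure ℚ), A.LiesOverPrime q →
        ∀ σ : AlgebraicClosure ℚ ≃ₐ[ℚ] AlgebraicClosure ℚ, A.IsFrobeniusAt σ q →
          LinearMap.charpoly (ρ.ρ σ) = X ^ 2 - C ((q : 𝒪'') + 1) * X + C ((q : 𝒪'')) ∨
          LinearMap.charpoly (ρ.ρ σ) = X ^ 2 + C ((q : 𝒪'') + 1) * X + C ((q : 𝒪'')))

/-- The conclusion of S36. -/
def S36Conclusion (p N : ℕ) [NeZero N] (S : Finset ℕ) (𝒪' : Type) [CommRing 𝒪'] [IsDomain 𝒪']
    [IsDiscreteValuationRing 𝒪']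
    (χ : CuspForm.heckeAlgebra N 2 (↑S : Set ℕ) →+* 𝒪') : Prop :=
  ∃ (𝒪'' : Type) (_ : CommRing 𝒪'') (_ : IsDomain 𝒪'') (_ : IsDiscreteValuationRing 𝒪'')
    (_ : IsAdicComplete (IsLocalRing.maximalIdeal 𝒪'') 𝒪'')
    (_ : Finite (IsLocalRing.ResidueField 𝒪'')) (_ : CharZero 𝒪'')
    (_ : Algebra 𝒪' 𝒪'') (_ : Module.Finite 𝒪' 𝒪'') (_ : IsLocalHom (algebraMap 𝒪' 𝒪'')),
  Function.Injective (algebraMap 𝒪' 𝒪'') ∧
  ∃ ρ : GaloisRepAdic 𝒪'',
    (∀ (ℓ : ℕ) (hℓ : ℓ.Prime) (hℓN : ¬ ℓ ∣ N) (hℓS : ℓ ∉ (↑S : Set ℕ)),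
      ∀ A : ValuationSubring (AlgebraicClosure ℚ), A.LiesOverPrime ℓ →
        ∀ σ : AlgebraicClosure ℚ ≃ₐ[ℚ] AlgebraicClosure ℚ, A.IsFrobeniusAt σ ℓ →
          LinearMap.charpoly (ρ.ρ σ) =
            X ^ 2 - C (algebraMap 𝒪' 𝒪'' (χ (CuspForm.heckeAlgebra.T hℓ hℓN hℓS))) * X
              + C ((ℓ : 𝒪''))) ∧
    (∀ q : ℕ, q.Prime → q ≠ p → N.factorization q = 2 → ¬ ρ.IsUnipotentOnInertiaAt q)

include hpS hNS hp𝒪'

/-- S35 from a Galois-Hecke module. -/
theorem S35_of_module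
    {J : Type*} [AddCommGroup J] [Module HeckeAlg J] [DistribMulAction GQ J]
    [SMulCommClass GQ HeckeAlg J]
    (hfin : {x : J | p • x = 0}.Finite)
    (hF : FrobeniusQuadratic (K := ℚ) (L := AlgebraicClosure ℚ) N p J)
    (hlev : FiniteLevel p J) (hfaith : HeckeFaithful N (↑S : Set ℕ) p J)
    (hst : ∀ q : ℕ, q.Prime → q ≠ p → q ∣ N → ¬ q ^ 2 ∣ N →
      ∃ (J₁ : Type) (_ : AddCommGroup J₁) (_ : Module HeckeAlg J₁),
        AbsentFrom χ p J₁ ∧ Nonempty (SteinbergJ N (↑S : Set ℕ) p q J J₁)) :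
    S35Conclusion p N S 𝒪' χ := by
  have := TateMod.finite_of_finite_torsion (p := p) (J := J) hfin
  have := TateMod.free_of_finite_torsion (p := p) (J := J) hfin
  have hgood : ∀ r : ℕ, r.Prime → ¬ r ∣ N → r ≠ p → ¬ r ∣ N * p := by
    intro r hr hrN hrp h
    rcases hr.dvd_mul.mp h with h | h
    · exact hrN h
    · exact hrp ((Nat.prime_dvd_prime_iff_eq hr Fact.out).mp h)
  refine s35_of_data hpS hNS 𝒪' hp𝒪' χ (T := TateMod p J) (galTate p J)
    (galTate_continuous hlev) (actTate p J N (↑S : Set ℕ)) (actTate_commute N (↑S : Set ℕ))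
    ?_ ?_ ?_
  · intro a A hA φ hφ x
    have hap : (a.1 : ℕ) ≠ p := by
      intro h
      exact a.2.2 (by rw [h]; simpa using hpS)
    have h := galTate_frobenius (p := p) (J := J) hF a.1.2 (hgood _ a.1.2 a.2.1 hap) hA hφ
    have h1 := LinearMap.congr_fun h x
    simp only [LinearMap.add_apply, LinearMap.sub_apply, Module.End.mul_apply,
      LinearMap.smul_apply, Module.End.one_apply, LinearMap.zero_apply] at h1
    have h2 : actTate p J N (↑S : Set ℕ) (MvPolynomial.X a) = heckeTate p J (heckeGen a.1) := by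
      show heckeTate p J (inclHecke N (↑S : Set ℕ) (MvPolynomial.X a)) = _
      rw [inclHecke_X]
    rw [h2]
    exact h1
  · obtain ⟨c, u, hu, h⟩ := actTate_faithful (p := p) (J := J) (N := N) (S := (↑S : Set ℕ)) hfin hfaith
    refine ⟨c, u, ?_, h⟩
    rintro rfl
    exact hu (dvd_zero p)
  · intro q hq hqp hqN hq2 A hA σ hσ
    obtain ⟨J₁, i1, i2, habs, ⟨D⟩⟩ := hst q hq hqp hqN hq2
    exact steinbergData_of_J D habs hA hσ

/-- S36 from a Galois-Hecke module. -/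
theorem S36_of_module
    {J : Type} [AddCommGroup J] [Module HeckeAlg J] [DistribMulAction GQ J]
    [SMulCommClass GQ HeckeAlg J]
    (hfin : {x : J | p • x = 0}.Finite)
    (hF : FrobeniusQuadratic (K := ℚ) (L := AlgebraicClosure ℚ) N p J)
    (hlev : FiniteLevel p J) (hfaith : HeckeFaithful N (↑S : Set ℕ) p J)
    (hca : ∀ q : ℕ, q.Prime → q ≠ p → N.factorization q = 2 →
      ∃ (J₁ : Type) (_ : AddCommGroup J₁) (_ : Module HeckeAlg J₁),
        {x : J₁ | p • x = 0}.Finite ∧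
        AbsentFrom χ p J₁ ∧ Nonempty (CarayolJ N (↑S : Set ℕ) p q J J₁)) :
    S36Conclusion p N S 𝒪' χ := by
  have := TateMod.finite_of_finite_torsion (p := p) (J := J) hfin
  have := TateMod.free_of_finite_torsion (p := p) (J := J) hfin
  have hgood : ∀ r : ℕ, r.Prime → ¬ r ∣ N → r ≠ p → ¬ r ∣ N * p := by
    intro r hr hrN hrp h
    rcases hr.dvd_mul.mp h with h | h
    · exact hrN h
    · exact hrp ((Nat.prime_dvd_prime_iff_eq hr Fact.out).mp h)
  refine s36_of_data hpS hNS 𝒪' hp𝒪' χ (T := TateMod p J) (galTate p J)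
    (galTate_continuous hlev) (actTate p J N (↑S : Set ℕ)) (actTate_commute N (↑S : Set ℕ))
    ?_ ?_ ?_
  · intro a A hA φ hφ x
    have hap : (a.1 : ℕ) ≠ p := by
      intro h
      exact a.2.2 (by rw [h]; simpa using hpS)
    have h := galTate_frobenius (p := p) (J := J) hF a.1.2 (hgood _ a.1.2 a.2.1 hap) hA hφ
    have h1 := LinearMap.congr_fun h x
    simp only [LinearMap.add_apply, LinearMap.sub_apply, Module.End.mul_apply,
      LinearMap.smul_apply, Module.End.one_apply, LinearMap.zero_apply] at h1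
    have h2 : actTate p J N (↑S : Set ℕ) (MvPolynomial.X a) = heckeTate p J (heckeGen a.1) := by
      show heckeTate p J (inclHecke N (↑S : Set ℕ) (MvPolynomial.X a)) = _
      rw [inclHecke_X]
    rw [h2]
    exact h1
  · obtain ⟨c, u, hu, h⟩ := actTate_faithful (p := p) (J := J) (N := N) (S := (↑S : Set ℕ)) hfin hfaith
    refine ⟨c, u, ?_, h⟩
    rintro rfl
    exact hu (dvd_zero p)
  · intro q hq hqp hq2
    obtain ⟨J₁, i1, i2, hfin₁, habs, ⟨D⟩⟩ := hca q hq hqp hq2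
    exact carayolData_of_J D hfin₁ habs

end Final

end Fermat.Agent.H35
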