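import Mathlib
import Fermat.Agent.H35Abs
import Fermat.Agent.H35Kill
import Fermat.Agent.H35S35

/-!
# (E1): the eigensystem of a newform is absent from the Jacobians of lower levels
-/

set_option autoImplicit false
set_option linter.style.haveILetI false

noncomputable section

open CuspForm ModularCurve AlgebraicCurve Fermat.Agent.H31 Fermat.Agent.H30 ModularFormClass

namespace Fermat.Agent.H35

/-- Strong multiplicity one for Hecke algebras, from the properties of `JZero N`. -/
theorem hmult_of_JZero {N : ℕ} [NeZero N] (h : JZeroInputs N) (S : Finset ℕ)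
    (r : ℕ) (hr : r.Prime) (hrN : ¬ r ∣ N) :
    ∃ (e : ℤ) (P : MvPolynomial (GoodPrimes N (↑S : Set ℕ)) ℤ), e ≠ 0 ∧
      e • heckeTLin 2 hr hrN = evEnd N dvd_rfl (↑S : Set ℕ) P := by
  classical
  obtain ⟨p, hp, hrp⟩ : ∃ p : ℕ, p.Prime ∧ r ≠ p := by
    by_cases h2 : r = 2
    · exact ⟨3, Nat.prime_three, by omega⟩
    · exact ⟨2, Nat.prime_two, h2⟩
  letI := heckeModuleBar N
  haveI := h.comm
  haveI := h.principal
  let S₀ : Finset ℕ := N.primeFactors ∪ {p}
  have hS₀ : (↑S₀ : Set ℕ) ⊆ (↑(S ∪ N.primeFactors ∪ {p}) : Set ℕ) := by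
    intro x hx
    simp only [S₀, Finset.coe_union, Set.mem_union] at hx ⊢
    rcases hx with hx | hx
    · exact Or.inl (Or.inr hx)
    · exact Or.inr hx
  have hrS₀ : r ∉ (↑S₀ : Set ℕ) := by
    simp only [S₀, Finset.coe_union, Set.mem_union, Finset.mem_coe, Nat.mem_primeFactors,
      Finset.mem_singleton]
    rintro (h1 | h1)
    · exact hrN h1.2.1
    · exact hrp h1
  exact exists_mul_T_eq (J := JZero N) hp hr hrp hrN hrS₀ S
    (frobeniusQuadratic_of_specializationExists (h.spec p hp))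
    (finiteLevel_JZero N p (fun n => h.finite p n hp))
    (h.faithful p S₀ hp (by simp [S₀]) (by
      intro q hq hqN
      simp [S₀, hq, hqN, NeZero.ne N])) hS₀

/-- Injectivity of a ring homomorphism from the ring of Hecke eigenvalues. -/
theorem iota_injective {N : ℕ} [NeZero N] {S : Set ℕ} (chi : heckeAlgebra N 2 S →+* ℂ)
    {O' : Type*} [CommRing O'] [IsDomain O'] [CharZero O'] (iota : chi.range →+* O') :
    Function.Injective iota := by
  haveI := H23.moduleFinite_heckeAlgebra N 2 S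
  haveI : Module.Finite ℤ chi.range := by
    have h1 : Function.Surjective chi.rangeRestrict := chi.rangeRestrict_surjective
    exact Module.Finite.of_surjective (chi.rangeRestrict.toAddMonoidHom.toIntLinearMap) h1
  haveI : Algebra.IsIntegral ℤ chi.range := Algebra.IsIntegral.of_finite ℤ chi.range
  rw [RingHom.injective_iff_ker_eq_bot]
  apply Ideal.eq_bot_of_comap_eq_bot (R := ℤ)
  rw [eq_bot_iff]
  intro x hx
  have h1 : iota (algebraMap ℤ chi.range x) = 0 := hx
  rw [eq_intCast, map_intCast] at h1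
  exact (Submodule.mem_bot ℤ).mpr (by exact_mod_cast h1)

/-- **(E1)** -/
theorem absentFrom_of_newform {M : ℕ} [NeZero M]
    {g : CuspForm (CongruenceSubgroup.Gamma0 M) 2} (hg : g.IsNewform)
    (lam : ℕ) (S : Finset ℕ)
    {O' : Type*} [CommRing O'] [IsDomain O'] [CharZero O']
    (chig : CuspForm.heckeAlgebra M 2 (↑S : Set ℕ) →+* ℂ)
    (hchig : ∀ (ℓ : ℕ) (hℓ : ℓ.Prime) (hℓM : ¬ ℓ ∣ M) (hℓS : ℓ ∉ (↑S : Set ℕ)),
      chig (CuspForm.heckeAlgebra.T hℓ hℓM hℓS) = ModularFormClass.qCoeff g ℓ)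
    (iota : chig.range →+* O')
    (h : JZeroInputs M) {M' : ℕ} [NeZero M'] (hM' : M' ∣ M) (hne : M' ≠ M) (hlam : lam.Prime)
    (hPE : letI := H90.algQbarC
      ∀ (n : ℕ) (c : Pic0 (AlgebraicClosure ℚ) (H90.FX (AlgebraicClosure ℚ) M'))
        (χ : Additive (CongruenceSubgroup.Gamma0 M') →+ H90.Mu), n ≠ 0 → H90.Rel n c χ → H4.IsPE χ) :
    letI := heckeModuleBar M'
    AbsentFrom (iota.comp chig.rangeRestrict) lam (JZero M') := by
  letI := heckeModuleBar M'
  obtain ⟨P, hP1, hP2⟩ := exists_polynomial_absent hM' hne hg (↑S : Set ℕ) (hmult_of_JZero h S)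
  refine ⟨P, ?_, ?_⟩
  · intro h0
    apply hP2
    have h1 : chig.rangeRestrict (evHecke M (↑S : Set ℕ) P) = 0 := by
      apply iota_injective chig iota
      rw [map_zero]
      exact h0
    have h2 : chig (evHecke M (↑S : Set ℕ) P) = 0 := congrArg Subtype.val h1
    have h3 : chig.comp (evHecke M (↑S : Set ℕ)) =
        MvPolynomial.eval₂Hom (Int.castRingHom ℂ)
          (fun a : GoodPrimes M (↑S : Set ℕ) => qCoeff g (a.1 : ℕ)) := by
      refine MvPolynomial.ringHom_ext ?_ ?_
      · intro z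
        simp
      · intro a
        rw [RingHom.comp_apply, evHecke_X]
        rw [show (MvPolynomial.eval₂Hom (Int.castRingHom ℂ)
          (fun a : GoodPrimes M (↑S : Set ℕ) => qCoeff g (a.1 : ℕ))) (MvPolynomial.X a) =
          qCoeff g (a.1 : ℕ) from MvPolynomial.eval₂_X _ _ _]
        exact hchig _ _ _ _
    rw [← h2]
    exact (RingHom.congr_fun h3 P).symm
  · rintro x ⟨n, hn⟩
    exact smul_eq_zero_of_evEnd hM' (↑S : Set ℕ) hPE P hP1 (lam ^ n) (pow_ne_zero n hlam.ne_zero) x hn

end Fermat.Agent.H35
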