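import Mathlib
import Fermat.Prelude.Def_GaloisRep_LocalConditions
import Fermat.Agent.H31Mod
import Fermat.Agent.H31Wire
import Fermat.Agent.H31JZero
import Fermat.Agent.H86DensityFinal

/-!
# The glue for S34

`S34_of_module`: if `(σ - 1)² = 0` on the `p`-power torsion of a faithful Galois-Hecke module `J` for
all `σ` in inertia at `q ≠ p`, then the representation of any Hecke-Galois datum is unipotent on
inertia at `q`.
-/

set_option autoImplicit false
set_option linter.style.haveILetI false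

noncomputable section

open Polynomial CuspForm ModularCurve Fermat.Agent.H31

namespace Fermat.Agent.H35

variable {p : ℕ} {J : Type*} [AddCommGroup J] [Module HeckeAlg J] [DistribMulAction GQ J]
  [SMulCommClass GQ HeckeAlg J]

/-- Unipotence of inertia at `q` on the `p`-power torsion. -/
def UnipotentTorsion (p q : ℕ) (J : Type*) [AddCommGroup J] [DistribMulAction GQ J] : Prop :=
  ∀ A : ValuationSubring (AlgebraicClosure ℚ), A.LiesOverPrime q →
    ∀ σ ∈ A.inertiaSubgroupIn ℚ, ∀ x : J, (∃ n : ℕ, p ^ n • x = 0) → σ • (σ • x - x) = σ • x - x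

/-- `S34` from: a faithful Galois-Hecke module with unipotent inertia on torsion. -/
theorem S34_of_module
    {N : ℕ} [NeZero N] {S : Finset ℕ}
    {𝒪 : Type} [CommRing 𝒪] [IsDomain 𝒪] [IsDiscreteValuationRing 𝒪]
    [IsAdicComplete (IsLocalRing.maximalIdeal 𝒪) 𝒪]
    {θ : CuspForm.heckeAlgebra N 2 (↑S : Set ℕ) →+* IsLocalRing.ResidueField 𝒪}
    {T : Type} [CommRing T] [IsLocalRing T] [IsNoetherianRing T]
    [IsAdicComplete (IsLocalRing.maximalIdeal T) T] [Algebra 𝒪 T] [IsLocalHom (algebraMap 𝒪 T)]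
    [Module.Finite 𝒪 T] [Module.Free 𝒪 T]
    (hp : p.Prime)
    (hp𝒪 : (p : 𝒪) ∈ IsLocalRing.maximalIdeal 𝒪) (hpS : p ∈ S)
    (hNS : ∀ q : ℕ, q.Prime → q ∣ N → q ∈ S)
    (H : CuspForm.HeckeGaloisRepDatum N (↑S : Set ℕ) 𝒪 θ T)
    (q : ℕ) (hq : q.Prime) (hqp : q ≠ p)
    (hF : FrobeniusQuadratic (K := ℚ) (L := AlgebraicClosure ℚ) N p J)
    (hfin : FiniteLevel p J) (hfaith : HeckeFaithful N (↑S : Set ℕ) p J)
    (hss : UnipotentTorsion p q J) :
    H.ρ.IsUnipotentOnInertiaAt q := by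
  intro B hB σ hσ
  have hpT : (p : T) ∈ IsLocalRing.maximalIdeal T := by
    have h1 : algebraMap 𝒪 T (p : 𝒪) ∈ IsLocalRing.maximalIdeal T := by
      rw [IsLocalRing.mem_maximalIdeal] at hp𝒪 ⊢
      exact map_mem_nonunits_iff (algebraMap 𝒪 T) _ |>.mpr hp𝒪
    rwa [map_natCast] at h1
  have hunit : ∀ u : ℕ, ¬ p ∣ u → IsUnit (u : T) := by
    intro u hu
    have hcop : Nat.Coprime p u := (Nat.Prime.coprime_iff_not_dvd hp).mpr hu
    by_contra hnu
    have hu' : (u : T) ∈ IsLocalRing.maximalIdeal T := by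
      rwa [IsLocalRing.mem_maximalIdeal, mem_nonunits_iff]
    obtain ⟨a, b, hab⟩ := Nat.isCoprime_iff_coprime.mpr hcop
    have h1 : (1 : T) ∈ IsLocalRing.maximalIdeal T := by
      have : (1 : T) = (a : T) * (p : T) + (b : T) * (u : T) := by
        have := congrArg (Int.cast : ℤ → T) hab
        push_cast at this
        exact this.symm
      rw [this]
      exact Ideal.add_mem _ (Ideal.mul_mem_left _ _ hpT) (Ideal.mul_mem_left _ _ hu')
    exact (Ideal.ne_top_iff_one _).mp (IsLocalRing.maximalIdeal.isMaximal T).ne_top h1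
  set M := IsLocalRing.maximalIdeal T with hM
  have haus : ∀ x : T, (∀ n : ℕ, x ∈ M ^ n) → x = 0 := by
    intro x hx
    refine IsHausdorff.haus (I := M) inferInstance _ fun n => ?_
    rw [SModEq.zero, smul_eq_mul, Ideal.mul_top]
    exact hx n
  have hqn : ∀ n : ℕ, Nat.Coprime q (p ^ n) := fun n =>
    Nat.Coprime.pow_right n ((Nat.coprime_primes hq hp).mpr hqp)
  -- the determinant
  have hdet : LinearMap.det (H.ρ.ρ σ) = 1 := by
    have h1 := H86.detIsCyclotomic_of_frobenius H86.frobDensityFinite H.ρ hp hpT S (by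
      intro ℓ hℓ hℓS P hP φ hφ
      have hℓN : ¬ ℓ ∣ N := fun h => hℓS (hNS ℓ hℓ h)
      have hℓS2 : ℓ ∉ (↑S : Set ℕ) := by simpa using hℓS
      exact det_eq_of_charpoly H.ρ.finrank_eq _ _ _ (H.charpoly_frob ℓ hℓ hℓN hℓS2 P hP φ hφ))
    rw [← sub_eq_zero]
    refine haus _ fun n => ?_
    have h2 := h1.2 n σ 1 (fun μ hμ => by
      rw [pow_one]
      exact inertia_apply_rootOfUnity B hB (hqn n) (pow_pos hp.pos n) hσ hμ)
    rw [Nat.cast_one] at h2
    have h3 : Ideal.span {((p ^ n : ℕ) : T)} ≤ M ^ n := by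
      rw [Ideal.span_singleton_le_iff_mem, Nat.cast_pow]
      exact Ideal.pow_mem_pow hpT n
    exact h3 h2
  -- the trace
  have htr : LinearMap.trace T H.ρ.V (H.ρ.ρ σ) = 2 := by
    rw [← sub_eq_zero]
    obtain ⟨c, u, hu, hfaith⟩ := hfaith
    have key : ∀ n : ℕ, LinearMap.trace T H.ρ.V (H.ρ.ρ σ) - 2 ∈ M ^ (n - c) := by
      intro n
      obtain ⟨L₁, hL₁, hL₁'⟩ := H.ρ.isAdicContinuous n
      obtain ⟨L₂, hL₂, hL₂'⟩ := hfin n
      have hpn : 0 < p ^ n := pow_pos hp.pos n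
      have : NeZero (p ^ n) := ⟨hpn.ne'⟩
      obtain ⟨ζ, hζ⟩ := HasEnoughRootsOfUnity.exists_primitiveRoot (AlgebraicClosure ℚ) (p ^ n)
      set L₃ : IntermediateField ℚ (AlgebraicClosure ℚ) := IntermediateField.adjoin ℚ {ζ} with hL₃
      have halg : Algebra.IsAlgebraic ℚ (AlgebraicClosure ℚ) := AlgebraicClosure.isAlgebraic ℚ
      have hfd₃ : FiniteDimensional ℚ L₃ :=
        IntermediateField.adjoin.finiteDimensional
          (Algebra.IsAlgebraic.isAlgebraic (R := ℚ) ζ).isIntegral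
      have := hL₁
      have := hL₂
      obtain ⟨ℓ, hℓ, hℓS, A, hA, φ, hφ, j, -, hj, -⟩ :=
        H86.frobenius_density H86.frobDensityFinite (L₁ ⊔ L₂ ⊔ L₃) σ S
      have hle₁ : L₁ ≤ L₁ ⊔ L₂ ⊔ L₃ := le_sup_left.trans le_sup_left
      have hle₂ : L₂ ≤ L₁ ⊔ L₂ ⊔ L₃ := le_sup_right.trans le_sup_left
      have hle₃ : L₃ ≤ L₁ ⊔ L₂ ⊔ L₃ := le_sup_right
      have hℓN : ¬ ℓ ∣ N := fun h => hℓS (hNS ℓ hℓ h)
      have hℓp : ℓ ≠ p := fun h => hℓS (h ▸ hpS)
      have hℓNp : ¬ ℓ ∣ N * p := by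
        intro h
        rcases hℓ.dvd_mul.mp h with h | h
        · exact hℓN h
        · exact hℓp ((Nat.prime_dvd_prime_iff_eq hℓ hp).mp h)
      have hℓS2 : ℓ ∉ (↑S : Set ℕ) := by simpa using hℓS
      have hℓn : Nat.Coprime ℓ (p ^ n) :=
        Nat.Coprime.pow_right n ((Nat.coprime_primes hℓ hp).mpr hℓp)
      -- `ℓ ^ j ≡ 1`
      have hζL : ζ ∈ L₃ := IntermediateField.subset_adjoin ℚ _ (Set.mem_singleton ζ)
      have hfrob : ∀ i : ℕ, (φ ^ i) ζ = ζ ^ (ℓ ^ i) := by
        intro i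
        induction i with
        | zero => simp
        | succ i ih =>
          rw [pow_succ, AlgEquiv.mul_apply,
            frobenius_apply_rootOfUnity A hA hℓn hpn hφ hζ.pow_eq_one, map_pow, ih, ← pow_mul,
            ← pow_succ]
      have hmod : ((p ^ n : ℕ) : ℤ) ∣ (ℓ : ℤ) ^ j - 1 := by
        have h1 : ζ ^ (ℓ ^ j) = ζ ^ 1 := by
          rw [← hfrob j, ← hj ζ (hle₃ hζL), pow_one,
            inertia_apply_rootOfUnity B hB (hqn n) hpn hσ hζ.pow_eq_one]
        have h2 : ℓ ^ j ≡ 1 [MOD p ^ n] := by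
          rw [(hζ.isOfFinOrder hpn.ne').pow_eq_pow_iff_modEq, ← hζ.eq_orderOf] at h1
          exact h1
        have h3 := Nat.modEq_iff_dvd.mp h2.symm
        push_cast at h3 ⊢
        exact h3
      -- the two quadratic relations
      have q1 := quadratic_pow (heckeGen ⟨ℓ, hℓ⟩) (ℓ : HeckeAlg) (torsEnd p n J φ)
        (frobenius_quadratic_torsEnd hF n hℓ hℓNp hA hφ) j
      have g1 : torsEnd p n J σ = torsEnd p n J φ ^ j := by
        rw [← map_pow]
        exact torsEnd_eq_of_agree hL₂' _ _ (fun x hx => hj x (hle₂ hx))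
      rw [← g1] at q1
      have q2 : torsEnd p n J σ * torsEnd p n J σ -
          algebraMap HeckeAlg _ (2 : HeckeAlg) * torsEnd p n J σ + algebraMap HeckeAlg _ 1 = 0 := by
        refine LinearMap.ext fun x => Subtype.ext ?_
        have h := hss B hB σ hσ (x : J) ⟨n, nsmul_eq_zero_of_mem x⟩
        rw [smul_sub] at h
        simp only [LinearMap.add_apply, LinearMap.sub_apply, Module.End.mul_apply,
          Module.algebraMap_end_apply, Submodule.coe_add, Submodule.coe_sub, Submodule.coe_smul,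
          coe_torsEnd_apply, LinearMap.zero_apply, Submodule.coe_zero, one_smul]
        rw [two_smul]
        rw [sub_eq_iff_eq_add] at h
        rw [h]
        abel
      let E := Module.End HeckeAlg (Submodule.torsionBy HeckeAlg J ((p : HeckeAlg) ^ n))
      let P₁ := luc (heckeGen ⟨ℓ, hℓ⟩) (ℓ : HeckeAlg) j
      have q3 : algebraMap HeckeAlg E (P₁ - 2) * torsEnd p n J σ =
          algebraMap HeckeAlg E ((ℓ : HeckeAlg) ^ j - 1) :=
        sub_mul_eq_of_quadratic P₁ 2 _ _ _ q1 q2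
      have q4 : algebraMap HeckeAlg E ((ℓ : HeckeAlg) ^ j - 1) = 0 := by
        obtain ⟨k, hk⟩ := hmod
        have h1 : ((ℓ : HeckeAlg) ^ j - 1) = (k : HeckeAlg) * (p : HeckeAlg) ^ n := by
          have := congrArg (Int.cast : ℤ → HeckeAlg) hk
          push_cast at this
          rw [this, mul_comm]
        rw [h1]
        refine LinearMap.ext fun x => ?_
        rw [Module.algebraMap_end_apply, mul_smul, Submodule.smul_torsionBy, smul_zero]
        rfl
      have q5 : algebraMap HeckeAlg E (P₁ - 2) = 0 := by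
        have hinv : torsEnd p n J σ * torsEnd p n J σ⁻¹ = 1 := by
          rw [← map_mul, mul_inv_cancel, map_one]
        rw [← mul_one (algebraMap HeckeAlg E (P₁ - 2)), ← hinv, ← mul_assoc, q3, q4, zero_mul]
      -- apply faithfulness
      let ℓ₁ : GoodPrimes N (↑S : Set ℕ) := ⟨⟨ℓ, hℓ⟩, hℓN, hℓS2⟩
      obtain ⟨y, hy⟩ := hfaith n
        (luc (MvPolynomial.X ℓ₁) (ℓ : MvPolynomial (GoodPrimes N (↑S : Set ℕ)) ℤ) j - 2) (by
          intro x hx
          have h1 : inclHecke N (↑S : Set ℕ)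
              (luc (MvPolynomial.X ℓ₁) (ℓ : MvPolynomial (GoodPrimes N (↑S : Set ℕ)) ℤ) j - 2)
                = P₁ - 2 := by
            rw [map_sub, map_ofNat]
            have a1 := map_luc (inclHecke N (↑S : Set ℕ)).toRingHom (MvPolynomial.X ℓ₁)
              (ℓ : MvPolynomial (GoodPrimes N (↑S : Set ℕ)) ℤ) j
            simp only [AlgHom.toRingHom_eq_coe, RingHom.coe_coe, inclHecke_X, map_natCast] at a1
            rw [a1]
          rw [h1]
          have hxm : x ∈ Submodule.torsionBy HeckeAlg J ((p : HeckeAlg) ^ n) := by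
            rw [Submodule.mem_torsionBy_iff]
            have e : ((p ^ n : ℕ) : HeckeAlg) = ((p : HeckeAlg) ^ n) := by push_cast; rfl
            rw [← e, Nat.cast_smul_eq_nsmul]
            exact hx
          have h2 := LinearMap.congr_fun q5 ⟨x, hxm⟩
          exact congrArg Subtype.val h2)
      rw [map_sub, map_luc, evHecke_X, map_natCast, map_ofNat] at hy
      have h1 := congrArg H.π hy
      rw [map_mul, map_sub, map_luc, map_natCast, map_natCast, map_ofNat, map_mul, map_pow,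
        map_natCast] at h1
      have h2 : luc (H.π (heckeAlgebra.T ℓ₁.1.2 ℓ₁.2.1 ℓ₁.2.2)) (ℓ : T) j - 2 ∈ M ^ (n - c) := by
        have h3 : (p : T) ^ (n - c) * H.π y ∈ M ^ (n - c) :=
          Ideal.mul_mem_right _ _ (Ideal.pow_mem_pow hpT _)
        rw [← h1] at h3
        exact (Ideal.unit_mul_mem_iff_mem _ (hunit u hu)).mp h3
      have e1 := trace_sub_mem_of_agree H.ρ n L₁ hL₁' σ (φ ^ j) (fun x hx => hj x (hle₁ hx))
      have c1 := H.charpoly_frob ℓ hℓ hℓN hℓS2 A hA φ hφ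
      have t1 := trace_pow_of_charpoly H.ρ.finrank_eq (H.ρ.ρ φ) _ _ c1 j
      rw [← map_pow] at t1
      rw [t1] at e1
      have e2 := Ideal.add_mem _ (Ideal.pow_le_pow_right (Nat.sub_le n c) e1) h2
      rwa [sub_add_sub_cancel] at e2
    refine haus _ fun n => ?_
    have := key (n + c)
    rwa [Nat.add_sub_cancel] at this
  rw [H86.charpoly_eq_of_finrank_two H.ρ.finrank_eq, htr, hdet]
  simp only [map_ofNat, map_one]
  ring

/-- `S34` from the properties of `JZero N`. -/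
theorem S34_of_JZero
    {p N : ℕ} [NeZero N] {S : Finset ℕ}
    {𝒪 : Type} [CommRing 𝒪] [IsDomain 𝒪] [IsDiscreteValuationRing 𝒪]
    [IsAdicComplete (IsLocalRing.maximalIdeal 𝒪) 𝒪]
    {θ : CuspForm.heckeAlgebra N 2 (↑S : Set ℕ) →+* IsLocalRing.ResidueField 𝒪}
    {T : Type} [CommRing T] [IsLocalRing T] [IsNoetherianRing T]
    [IsAdicComplete (IsLocalRing.maximalIdeal T) T] [Algebra 𝒪 T] [IsLocalHom (algebraMap 𝒪 T)]
    [Module.Finite 𝒪 T] [Module.Free 𝒪 T]
    (hp : p.Prime)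
    (hp𝒪 : (p : 𝒪) ∈ IsLocalRing.maximalIdeal 𝒪) (hpS : p ∈ S)
    (hNS : ∀ q : ℕ, q.Prime → q ∣ N → q ∈ S)
    (H : CuspForm.HeckeGaloisRepDatum N (↑S : Set ℕ) 𝒪 θ T)
    (q : ℕ) (hq : q.Prime) (hqp : q ≠ p)
    [hPD : AlgebraicCurve.HasPrincipalDivisors (AlgebraicClosure ℚ) (modularFunctionFieldBar N)]
    (hfin : ∀ n : ℕ, {x : JZero N | p ^ n • x = 0}.Finite)
    (hcommG : letI := heckeModuleBar N; SMulCommClass GQ HeckeAlg (JZero N))
    (hspec : letI := heckeModuleBar N; haveI := hcommG;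
      SpecializationExists (K := ℚ) (L := AlgebraicClosure ℚ) N p (JZero N))
    (hfaith : letI := heckeModuleBar N; HeckeFaithful N (↑S : Set ℕ) p (JZero N))
    (hss : UnipotentTorsion p q (JZero N)) :
    H.ρ.IsUnipotentOnInertiaAt q := by
  letI := heckeModuleBar N
  haveI := hcommG
  exact S34_of_module hp hp𝒪 hpS hNS H q hq hqp
    (frobeniusQuadratic_of_specializationExists hspec)
    (finiteLevel_JZero N p hfin) hfaith hss

end Fermat.Agent.H35
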