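import Mathlib
import Fermat.Agent.H35E1
import Fermat.Agent.H35S34
import Fermat.Agent.H67J
import Fermat.Agent.H90Kappa

/-!
# S35 and S36 from their geometric inputs

* `StarInput p q M` : the Steinberg relation on the `p`-power torsion of `J_0(Mq)`, `q ∤ M`;
* `FixedInput p q M` : the inertia invariants of the `p`-power torsion of `J_0(Mq)` killed by both
  degeneracy maps to `J_0(M)` are bounded.
-/

set_option autoImplicit false
set_option linter.style.haveILetI false
set_option linter.unusedSectionVars false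

noncomputable section

open CuspForm ModularCurve AlgebraicCurve Fermat.Agent.H31 Fermat.Agent.H30 Fermat.Agent.H67
open ModularFormClass Polynomial

namespace Fermat.Agent.H35

theorem absentFrom {M : ℕ} [NeZero M]
    {g : CuspForm (CongruenceSubgroup.Gamma0 M) 2} (hg : g.IsNewform)
    {lam : ℕ} (hlam : lam.Prime) (S : Finset ℕ)
    {O' : Type*} [CommRing O'] [IsDomain O'] [CharZero O']
    (chig : CuspForm.heckeAlgebra M 2 (↑S : Set ℕ) →+* ℂ)
    (hchig : ∀ (ℓ : ℕ) (hℓ : ℓ.Prime) (hℓM : ¬ ℓ ∣ M) (hℓS : ℓ ∉ (↑S : Set ℕ)),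
      chig (CuspForm.heckeAlgebra.T hℓ hℓM hℓS) = ModularFormClass.qCoeff g ℓ)
    (iota : chig.range →+* O')
    (h : JZeroInputs M) {M' : ℕ} [NeZero M'] (hM' : M' ∣ M) (hne : M' ≠ M) :
    letI := heckeModuleBar M'
    AbsentFrom (iota.comp chig.rangeRestrict) lam (JZero M') := by
  letI := H90.algQbarC
  exact absentFrom_of_newform hg lam S chig hchig iota h hM' hne hlam
    (fun n c χ hn hr => hr.isPE hn)

section Degen

variable {M q : ℕ} [NeZero M] [NeZero (M * q)] [NeZero q]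

/-- The Steinberg relation on `J_0(Mq)`. -/
def StarInput (p q M : ℕ) [NeZero M] [NeZero (M * q)] [NeZero q] : Prop :=
  ∀ hc : M.Coprime q, ∀ A : ValuationSubring (AlgebraicClosure ℚ), A.LiesOverPrime q →
    ∀ σ : GQ, A.IsFrobeniusAt σ q → ∀ x : JZero (M * q), (∃ n : ℕ, p ^ n • x = 0) →
      degPull (M := M) (N := M * q) q (dvd_refl _) (degPush 1 (by simp) x) = 0 →
      degPull (M := M) (N := M * q) q (dvd_refl _) (degPush 1 (by simp) (wJ M q rfl hc x)) = 0 →
        σ • (σ • x) + σ • (wJ M q rfl hc x) + q • wJ M q rfl hc (σ • x) + q • x = 0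

/-- Boundedness of the inertia invariants in the new part of the torsion of `J_0(Mq)`. -/
def FixedInput (p q M : ℕ) [NeZero M] [NeZero (M * q)] [NeZero q] : Prop :=
  ∃ c : ℕ, ∃ A : ValuationSubring (AlgebraicClosure ℚ), A.LiesOverPrime q ∧
    ∀ x : JZero (M * q), (∃ n : ℕ, p ^ n • x = 0) →
      (∀ σ ∈ A.inertiaSubgroupIn ℚ, σ • x = x) →
      degPush (M := M) 1 (by simp) x = 0 → degPush (M := M) q (dvd_refl _) x = 0 → p ^ c • x = 0

theorem heckeEquiv_degPush (hq : q.Prime) {a : ℕ} [NeZero a] (ha : a = 1 ∨ a = q)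
    (h : M * a ∣ M * q) (S : Set ℕ) :
    letI := heckeModuleBar (M * q)
    letI := heckeModuleBar M
    HeckeEquiv (M * q) S (degPush (M := M) (N := M * q) a h) := by
  letI := heckeModuleBar (M * q)
  letI := heckeModuleBar M
  intro r x
  have hr : (r.1 : ℕ) ≠ q := by
    intro h1
    exact r.2.1 (by rw [h1]; exact dvd_mul_left q M)
  have h1 : heckeGen r.1 • x = heckeOperatorBar (M * q) r.1 x :=
    heckeModuleBar_heckeGen_smul (heckeOperatorsCommuteBar (M * q)) r.1 x
  have h2 : heckeGen r.1 • degPush (M := M) (N := M * q) a h x =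
      heckeOperatorBar M r.1 (degPush (M := M) (N := M * q) a h x) :=
    heckeModuleBar_heckeGen_smul (heckeOperatorsCommuteBar M) r.1 _
  rw [h1, h2]
  exact degPush_hecke hq ha h r.1 hr x

theorem heckeEquiv_wJ (hc : M.Coprime q) (S : Set ℕ) :
    letI := heckeModuleBar (M * q)
    HeckeEquiv (M * q) S (wJ (R := M * q) M q rfl hc) := by
  letI := heckeModuleBar (M * q)
  intro r x
  have h1 : ∀ y : JZero (M * q), heckeGen r.1 • y = heckeOperatorBar (M * q) r.1 y :=
    fun y => heckeModuleBar_heckeGen_smul (heckeOperatorsCommuteBar (M * q)) r.1 y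
  rw [h1, h1]
  refine wJ_hecke rfl hc r.1 ?_ x
  rw [Nat.Prime.coprime_iff_not_dvd r.1.2]
  intro h2
  exact r.2.1 (h2.trans (dvd_mul_left q M))

theorem steinbergJ_of_star (hq : q.Prime) (hc : M.Coprime q) (S : Set ℕ) (p : ℕ)
    (hstar : StarInput p q M) :
    letI := heckeModuleBar (M * q)
    letI := heckeModuleBar M
    Nonempty (SteinbergJ (M * q) S p q (JZero (M * q)) (JZero M)) := by
  letI := heckeModuleBar (M * q)
  letI := heckeModuleBar M
  exact ⟨{
    w := wJ M q rfl hc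
    f := degPush 1 (by simp)
    g := degPull q (dvd_refl _)
    w_w := wJ_wJ rfl hc
    w_hecke := heckeEquiv_wJ hc S
    w_gal := wJ_galois rfl hc
    f_hecke := heckeEquiv_degPush hq (Or.inl rfl) _ S
    star := hstar hc }⟩

theorem carayolJ_of_fixed (hq : q.Prime) (S : Set ℕ) (p : ℕ)
    (hfix : FixedInput p q M) :
    letI := heckeModuleBar (M * q)
    letI := heckeModuleBar M
    Nonempty (CarayolJ (M * q) S p q (JZero (M * q)) (JZero M)) := by
  letI := heckeModuleBar (M * q)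
  letI := heckeModuleBar M
  obtain ⟨c, A, hA, h⟩ := hfix
  exact ⟨{
    a := degPush 1 (by simp)
    b := degPush q (dvd_refl _)
    a_hecke := heckeEquiv_degPush hq (Or.inl rfl) _ S
    b_hecke := heckeEquiv_degPush hq (Or.inr rfl) _ S
    c := c
    fixed := ⟨A, hA, h⟩ }⟩

end Degen

/-- **S35** from `StarInput`. -/
theorem S35_of_star
    {M : ℕ} [NeZero M] {g : CuspForm (CongruenceSubgroup.Gamma0 M) 2} (hg : g.IsNewform)
    (lam : ℕ) [Fact lam.Prime]
    (S : Finset ℕ)
    (O' : Type) [CommRing O'] [IsDomain O'] [IsDiscreteValuationRing O']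
    [IsAdicComplete (IsLocalRing.maximalIdeal O') O'] [Finite (IsLocalRing.ResidueField O')]
    [CharZero O'] (hlamO' : (lam : O') ∈ IsLocalRing.maximalIdeal O')
    (chig : CuspForm.heckeAlgebra M 2 (↑S : Set ℕ) →+* ℂ)
    (hchig : ∀ (ℓ : ℕ) (hℓ : ℓ.Prime) (hℓM : ¬ ℓ ∣ M) (hℓS : ℓ ∉ (↑S : Set ℕ)),
      chig (CuspForm.heckeAlgebra.T hℓ hℓM hℓS) = ModularFormClass.qCoeff g ℓ)
    (iota : chig.range →+* O')
    (hlamS : lam ∈ S) (hMS : ∀ q : ℕ, q.Prime → q ∣ M → q ∈ S)
    (hJ : ∀ (N : ℕ) [NeZero N], JZeroInputs N)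
    (hstar : ∀ (p q M : ℕ) [NeZero M] [NeZero (M * q)] [NeZero q], p.Prime → q.Prime → q ≠ p →
      ¬ q ∣ M → StarInput p q M) :
    S35Conclusion lam M S O' (iota.comp chig.rangeRestrict) := by
  have hlam : lam.Prime := Fact.out
  letI := heckeModuleBar M
  haveI := (hJ M).comm
  haveI := (hJ M).principal
  refine S35_of_module (J := JZero M) hlamS hMS O' hlamO' _
    (by simpa using (hJ M).finite lam 1 hlam)
    (frobeniusQuadratic_of_specializationExists ((hJ M).spec lam hlam))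
    (finiteLevel_JZero M lam (fun n => (hJ M).finite lam n hlam))
    ((hJ M).faithful lam S hlam hlamS hMS) ?_
  intro q hq hqp hqM hq2
  have hM0 : M ≠ 0 := NeZero.ne M
  obtain ⟨M', rfl⟩ : ∃ M', M = M' * q := by
    obtain ⟨M', h⟩ := hqM
    exact ⟨M', by rw [h, mul_comm]⟩
  haveI : NeZero M' := ⟨fun h => hM0 (by rw [h, zero_mul])⟩
  haveI : NeZero q := ⟨hq.ne_zero⟩
  have hqM' : ¬ q ∣ M' := by
    rintro ⟨k, rfl⟩
    exact hq2 ⟨k, by ring⟩
  have hc : M'.Coprime q := (Nat.coprime_comm.mp ((Nat.Prime.coprime_iff_not_dvd hq).mpr hqM'))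
  refine ⟨JZero M', inferInstance, heckeModuleBar M', ?_, ?_⟩
  · refine absentFrom hg hlam S chig hchig iota (hJ _) (dvd_mul_right M' q) ?_
    intro h
    have h1 : M' * 1 = M' * q := by rw [mul_one]; exact h
    exact hq.one_lt.ne (Nat.eq_of_mul_eq_mul_left (Nat.pos_of_ne_zero (NeZero.ne M')) h1)
  · exact steinbergJ_of_star hq hc _ lam (hstar lam q M' hlam hq hqp hqM')

/-- **S36** from `FixedInput` (without the residual hypotheses). -/
theorem S36_of_fixed
    {M : ℕ} [NeZero M] {g : CuspForm (CongruenceSubgroup.Gamma0 M) 2} (hg : g.IsNewform)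
    (lam : ℕ) [Fact lam.Prime]
    (S : Finset ℕ)
    (O' : Type) [CommRing O'] [IsDomain O'] [IsDiscreteValuationRing O']
    [IsAdicComplete (IsLocalRing.maximalIdeal O') O'] [Finite (IsLocalRing.ResidueField O')]
    [CharZero O'] (hlamO' : (lam : O') ∈ IsLocalRing.maximalIdeal O')
    (chig : CuspForm.heckeAlgebra M 2 (↑S : Set ℕ) →+* ℂ)
    (hchig : ∀ (ℓ : ℕ) (hℓ : ℓ.Prime) (hℓM : ¬ ℓ ∣ M) (hℓS : ℓ ∉ (↑S : Set ℕ)),
      chig (CuspForm.heckeAlgebra.T hℓ hℓM hℓS) = ModularFormClass.qCoeff g ℓ)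
    (iota : chig.range →+* O')
    (hlamS : lam ∈ S) (hMS : ∀ q : ℕ, q.Prime → q ∣ M → q ∈ S)
    (hJ : ∀ (N : ℕ) [NeZero N], JZeroInputs N)
    (hfix : ∀ (p q M : ℕ) [NeZero M] [NeZero (M * q * q)] [NeZero (M * q)] [NeZero q], p.Prime →
      q.Prime → q ≠ p → ¬ q ∣ M → FixedInput p q (M * q)) :
    S36Conclusion lam M S O' (iota.comp chig.rangeRestrict) := by
  have hlam : lam.Prime := Fact.out
  letI := heckeModuleBar M
  haveI := (hJ M).comm
  haveI := (hJ M).principal
  refine S36_of_module (J := JZero M) hlamS hMS O' hlamO' _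
    (by simpa using (hJ M).finite lam 1 hlam)
    (frobeniusQuadratic_of_specializationExists ((hJ M).spec lam hlam))
    (finiteLevel_JZero M lam (fun n => (hJ M).finite lam n hlam))
    ((hJ M).faithful lam S hlam hlamS hMS) ?_
  intro q hq hqp hq2
  have hM0 : M ≠ 0 := NeZero.ne M
  obtain ⟨M', rfl, hqM'⟩ : ∃ M', M = M' * q * q ∧ ¬ q ∣ M' := by
    have h1 := Nat.ordProj_mul_ordCompl_eq_self M q
    rw [hq2] at h1
    refine ⟨M / q ^ 2, ?_, ?_⟩
    · conv_lhs => rw [← h1]
      ring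
    · have := Nat.not_dvd_ordCompl hq hM0
      rwa [hq2] at this
  haveI : NeZero M' := ⟨fun h => hM0 (by rw [h, zero_mul, zero_mul])⟩
  haveI : NeZero q := ⟨hq.ne_zero⟩
  haveI : NeZero (M' * q) := ⟨mul_ne_zero (NeZero.ne M') hq.ne_zero⟩
  refine ⟨JZero (M' * q), inferInstance, heckeModuleBar (M' * q), ?_, ?_, ?_⟩
  · simpa using (hJ (M' * q)).finite lam 1 hlam
  · refine absentFrom hg hlam S chig hchig iota (hJ _) (dvd_mul_right (M' * q) q) ?_
    intro h
    have h1 : M' * q * 1 = M' * q * q := by rw [mul_one]; exact h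
    exact hq.one_lt.ne (Nat.eq_of_mul_eq_mul_left (Nat.pos_of_ne_zero (NeZero.ne (M' * q))) h1)
  · exact carayolJ_of_fixed hq _ lam (hfix lam q M' hlam hq hqp hqM')

end Fermat.Agent.H35
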