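import Mathlib
import Fermat.Agent.H90DescentLin
import Fermat.Agent.H88Mod

/-!
# Degrees and constant field extension (helper18)

For fields `K ⊂ L` of characteristic zero, `[F_K : K(j)] ≤ [F_L : L(j)]`.
-/

set_option autoImplicit false

noncomputable section

open AlgebraicCurve ModularCurve IntermediateField Polynomial

namespace Fermat.Agent.H18

section Coeff

variable {K L : Type*} [Field K] [Field L] [Algebra K L]

theorem coeffMap_inj : Function.Injective (coeffMap (algebraMap K L)) := by
  intro x y h
  ext n
  have := congrArg (fun z : LaurentSeries L => z.coeff n) h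
  exact (algebraMap K L).injective this

/-- apply a functional to the coefficients of a polynomial -/
def mapFun (lam : L →ₗ[K] K) (P : L[X]) : K[X] :=
  ∑ i ∈ P.support, C (lam (P.coeff i)) * X ^ i

theorem coeff_mapFun (lam : L →ₗ[K] K) (P : L[X]) (n : ℕ) :
    (mapFun lam P).coeff n = lam (P.coeff n) := by
  rw [mapFun, finsetSum_coeff]
  simp only [coeff_C_mul_X_pow]
  by_cases hn : n ∈ P.support
  · rw [Finset.sum_eq_single n]
    · simp
    · intro b _ hb
      rw [if_neg (Ne.symm hb)]
    · intro h
      exact absurd hn h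
  · rw [notMem_support_iff.mp hn, map_zero]
    apply Finset.sum_eq_zero
    intro b hb
    rw [if_neg]
    rintro rfl
    exact hn hb

theorem coeffFun_aeval_mul (lam : L →ₗ[K] K) (x b : LaurentSeries K) (P : L[X]) :
    H90.coeffFun lam (aeval (coeffMap (algebraMap K L) x) P * coeffMap (algebraMap K L) b) =
      aeval x (mapFun lam P) * b := by
  rw [H90.coeffFun_mul]
  congr 1
  rw [aeval_eq_sum_range' (n := P.natDegree + 1) (Nat.lt_succ_self _), map_sum,
    aeval_eq_sum_range' (p := mapFun lam P) (n := P.natDegree + 1)
      (by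
        rw [Nat.lt_succ_iff, natDegree_le_iff_coeff_eq_zero]
        intro N hN
        rw [coeff_mapFun, coeff_eq_zero_of_natDegree_lt hN, map_zero])]
  refine Finset.sum_congr rfl fun i _ => ?_
  rw [coeff_mapFun, Algebra.smul_def, ← map_pow, H90.coeffFun_mul, Algebra.smul_def]
  congr 1
  rw [algebraMap_laurentSeries_eq_single, algebraMap_laurentSeries_eq_single]
  ext n
  rw [H90.coeffFun_coeff]
  by_cases h : n = 0
  · subst h; simp
  · simp [HahnSeries.coeff_single_of_ne h]

theorem exists_functional {a : L} (ha : a ≠ 0) : ∃ lam : L →ₗ[K] K, lam a ≠ 0 := by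
  by_contra h
  push Not at h
  exact ha ((Module.forall_dual_apply_eq_zero_iff K a).mp h)

/-- polynomial relations descend -/
theorem poly_indep_coeffMap {ι : Type*} [Fintype ι] (x : LaurentSeries K) (b : ι → LaurentSeries K)
    (hb : ∀ P : ι → K[X], ∑ i, aeval x (P i) * b i = 0 → P = 0) (P : ι → L[X])
    (hP : ∑ i, aeval (coeffMap (algebraMap K L) x) (P i) * coeffMap (algebraMap K L) (b i) = 0) :
    P = 0 := by
  by_contra hne
  obtain ⟨i, hi⟩ := Function.ne_iff.mp hne
  obtain ⟨n, hn⟩ : ∃ n, (P i).coeff n ≠ 0 := by
    by_contra h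
    push Not at h
    exact hi (Polynomial.ext fun n => by rw [h n]; simp)
  obtain ⟨lam, hlam⟩ := exists_functional (K := K) hn
  have h1 : ∑ i, aeval x (mapFun lam (P i)) * b i = 0 := by
    have := congrArg (H90.coeffFun lam) hP
    rw [map_sum, map_zero] at this
    rw [← this]
    exact Finset.sum_congr rfl fun i _ => (coeffFun_aeval_mul lam x (b i) (P i)).symm
  have h2 := congrFun (hb _ h1) i
  apply hlam
  rw [← coeff_mapFun, h2]
  simp

end Coeff

section Indep

variable {K E : Type*} [Field K] [Field E] [Algebra K E]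

/-- linear independence over `K(x)` in terms of polynomials -/
theorem linearIndependent_adjoin_iff {ι : Type*} [Fintype ι] (x : E) (hx : Transcendental K x)
    (b : ι → E) :
    LinearIndependent K⟮x⟯ b ↔ ∀ P : ι → K[X], ∑ i, aeval x (P i) * b i = 0 → P = 0 := by
  rw [Fintype.linearIndependent_iff]
  constructor
  · intro h P hP
    have h1 := h (fun i => ⟨aeval x (P i), by
      have := (aeval (R := K) (⟨x, mem_adjoin_simple_self K x⟩ : K⟮x⟯) (P i)).2
      rwa [← IntermediateField.coe_val, ← aeval_algHom_apply] at this⟩) (by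
        simpa [Algebra.smul_def] using hP)
    funext i
    have h2 := congrArg Subtype.val (h1 i)
    by_contra h3
    exact (transcendental_iff.mp hx _).mt h3 h2
  · intro h g hg i
    classical
    obtain ⟨Q, P, hQ, hP⟩ := H42.exists_common_denom (L := K) x (fun i => (g i : E))
      (fun i => (g i).2)
    have h1 : ∑ i, aeval x (P i) * b i = 0 := by
      have h2 : ∑ i, aeval x (P i) * b i = aeval x Q * ∑ i, g i • b i := by
        rw [Finset.mul_sum]
        refine Finset.sum_congr rfl fun i _ => ?_
        rw [← hP i, Algebra.smul_def, mul_assoc]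
        rfl
      rw [h2, hg, mul_zero]
    have h3 := congrFun (h P h1) i
    have h4 := hP i
    rw [h3] at h4
    simp only [Pi.zero_apply, map_zero] at h4
    rcases mul_eq_zero.mp h4 with h5 | h5
    · exact absurd h5 hQ
    · exact Subtype.ext h5

end Indep

section Rank

variable {K L : Type*} [Field K] [Field L] [Algebra K L]

theorem finrank_of_rank_le {D V : Type*} [Field D] [Field V] [Algebra D V] {n : ℕ}
    (hrank : Module.rank D V ≤ n) : Module.finrank D V ≠ 0 ∧ Module.finrank D V ≤ n := by
  have hfd : FiniteDimensional D V :=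
    Module.rank_lt_aleph0_iff.mp (hrank.trans_lt (Cardinal.natCast_lt_aleph0))
  refine ⟨Module.finrank_pos.ne', ?_⟩
  rw [← Module.finrank_eq_rank, Nat.cast_le] at hrank
  exact hrank

/-- degrees do not go up under restriction of the constant field -/
theorem relfinrank_le_of_coeffMap (FK : IntermediateField K (LaurentSeries K))
    (FL : IntermediateField L (LaurentSeries L))
    (hF : ∀ f ∈ FK, coeffMap (algebraMap K L) f ∈ FL) (x : LaurentSeries K)
    (hx : Transcendental K x) (hxK : x ∈ FK)
    (hne : relfinrank L⟮coeffMap (algebraMap K L) x⟯ FL ≠ 0) :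
    relfinrank K⟮x⟯ FK ≠ 0 ∧
      relfinrank K⟮x⟯ FK ≤ relfinrank L⟮coeffMap (algebraMap K L) x⟯ FL := by
  classical
  set n := relfinrank L⟮coeffMap (algebraMap K L) x⟯ FL with hn
  have hle : K⟮x⟯ ≤ FK := adjoin_simple_le_iff.mpr hxK
  rw [relfinrank_eq_finrank_of_le hle]
  have hrank : Module.rank K⟮x⟯ (extendScalars hle) ≤ n := by
    apply rank_le
    intro s hs
    by_contra hcard
    push Not at hcard
    let u : s → LaurentSeries K := fun i => ((i : extendScalars hle) : LaurentSeries K)
    have hu : ∀ i, u i ∈ FK := fun i => (i : extendScalars hle).2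
    have hli : LinearIndependent K⟮x⟯ u := by
      have h1 := hs.map' (extendScalars hle).val.toLinearMap
        (LinearMap.ker_eq_bot.mpr (extendScalars hle).val.injective)
      exact h1
    obtain ⟨p, ⟨i, hi⟩, hp⟩ := H42.exists_relation (coeffMap (algebraMap K L) x) FL
      (hF x hxK) hne (fun i => coeffMap (algebraMap K L) (u i)) (fun i => hF _ (hu i))
      (by rw [Fintype.card_coe]; exact hcard)
    rw [linearIndependent_adjoin_iff x hx] at hli
    have h2 := poly_indep_coeffMap x u hli p hp
    rw [h2] at hi
    simp at hi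
  exact finrank_of_rank_le hrank

end Rank

section Mod

variable {K L : Type*} [Field K] [Field L] [Algebra K L]

theorem coeffMap_mem_fullC {N : ℕ} {f : LaurentSeries K} (hf : f ∈ modularFunctionFieldFullC K N) :
    coeffMap (algebraMap K L) f ∈ modularFunctionFieldFullC L N := by
  rw [modularFunctionFieldFullC] at hf
  induction hf using IntermediateField.adjoin_induction with
  | mem y hy =>
    obtain ⟨d, hd, hdvd, rfl⟩ := hy
    rw [coeffMap_qExpand, coeffMap_jqModC]
    exact jqModCd_mem_full L N hdvd
  | algebraMap c =>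
    rw [algebraMap_laurentSeries_eq_single, coeffMap_single,
      ← algebraMap_laurentSeries_eq_single]
    exact (modularFunctionFieldFullC L N).algebraMap_mem _
  | add y z _ _ hy hz => rw [map_add]; exact add_mem hy hz
  | inv y _ hy => rw [map_inv₀]; exact inv_mem hy
  | mul y z _ _ hy hz => rw [map_mul]; exact mul_mem hy hz

theorem relfinrank_full_le [IsAlgClosed L] (N : ℕ) (hN : (N : L) ≠ 0) :
    relfinrank K⟮jqModC K⟯ (modularFunctionFieldFullC K N) ≠ 0 ∧
      relfinrank K⟮jqModC K⟯ (modularFunctionFieldFullC K N) ≤ dedekindPsi N := by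
  have h := H66.relfinrank_full_of_hasRoots (H66.hasRoots_of_isAlgClosed L) N hN
  have h1 := relfinrank_le_of_coeffMap (L := L) (modularFunctionFieldFullC K N)
    (modularFunctionFieldFullC L N) (fun f hf => coeffMap_mem_fullC hf) (jqModC K)
    (H42.transcendental_jqModC K) (jqModC_mem_full K N)
    (by rw [coeffMap_jqModC, h.1]; exact h.2)
  rw [coeffMap_jqModC, h.1] at h1
  exact h1

variable (K) in
/-- the degree inequality over any field of characteristic zero -/
theorem degLE_of_charZero [CharZero K] {k : Type*} [Field k] [IsAlgClosed k] (N : ℕ)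
    (hN : (N : k) ≠ 0) : H42.DegLE K k N := by
  have hN0 : N ≠ 0 := by rintro rfl; exact hN Nat.cast_zero
  have : CharZero (AlgebraicClosure K) :=
    charZero_of_injective_algebraMap (algebraMap K (AlgebraicClosure K)).injective
  have h1 := relfinrank_full_le (K := K) (L := AlgebraicClosure K) N (Nat.cast_ne_zero.mpr hN0)
  have h2 := H66.relfinrank_full_of_hasRoots (H66.hasRoots_of_isAlgClosed k) N hN
  exact ⟨h1.1, by rw [h2.1]; exact h1.2⟩

end Mod

end Fermat.Agent.H18
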