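import Mathlib
import Fermat.Agent.H18Div
import Fermat.Agent.H88NT

/-!
# Integral closure of `K[x]` and places (helper18)
-/

set_option autoImplicit false

noncomputable section

open AlgebraicCurve IsDedekindDomain WithZero IntermediateField
open scoped IntermediateField.algebraAdjoinAdjoin

namespace Fermat.Agent.H18

open Fermat.Agent.H94

variable {K F : Type*} [Field K] [Field F] [Algebra K F] {x : F}

/-- An element integral over `K[x]` is regular wherever `x` is regular. -/
theorem mem_of_isIntegral {f : F} (hf : IsIntegral (Algebra.adjoin K {x}) f) (v : Place K F)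
    (hv : x ∈ v.toValuationSubring) : f ∈ v.toValuationSubring :=
  mem_of_intRing hv (⟨f, hf⟩ : IntRing K x)

/-- **Integrality and places.** -/
theorem isIntegral_iff_forall_mem [FiniteDimensional K⟮x⟯ F] [Algebra.IsSeparable K⟮x⟯ F]
    (hx : Transcendental K x) {f : F} :
    IsIntegral (Algebra.adjoin K {x}) f ↔
      ∀ v : Place K F, x ∈ v.toValuationSubring → f ∈ v.toValuationSubring := by
  refine ⟨fun hf v hv => mem_of_isIntegral hf v hv, fun h => ?_⟩
  have hded := isDedekindDomain_intRing_sep (K := K) (F := F) hx
  have hfrac := isFractionRing_intRing (K := K) (x := x)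
  obtain ⟨b, hb⟩ := HeightOneSpectrum.mem_integers_of_valuation_le_one (R := IntRing K x) F f
    (fun w => by
      have h1 := h (Place.ofHeightOneSpectrum (K := K) (F := F) w) (by
        have := algebraMap_mem_ofHeightOneSpectrum (K := K) (F := F) w
          (algebraMap (Algebra.adjoin K {x}) (IntRing K x)
            ⟨x, Algebra.self_mem_adjoin_singleton K x⟩)
        exact this)
      rwa [Place.ofHeightOneSpectrum_toValuationSubring, Valuation.mem_valuationSubring_iff] at h1)
  rw [← hb]
  exact b.2

theorem isIntegral_iff_mem_aff [FiniteDimensional K⟮x⟯ F] [Algebra.IsSeparable K⟮x⟯ F]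
    (hx : Transcendental K x) {f : F} :
    IsIntegral (Algebra.adjoin K {x}) f ↔ f ∈ H88.aff K x := by
  rw [isIntegral_iff_forall_mem hx, H88.mem_aff]
  refine forall_congr' fun v => ?_
  rw [mem_iff_adicValuation_le_one, mem_iff_adicValuation_le_one]

theorem isIntegral_iff_forall_ord [FiniteDimensional K⟮x⟯ F] [Algebra.IsSeparable K⟮x⟯ F]
    (hx : Transcendental K x) {f : F} :
    IsIntegral (Algebra.adjoin K {x}) f ↔
      ∀ v : Place K F, 0 ≤ v.ord x → 0 ≤ v.ord f := by
  rw [isIntegral_iff_forall_mem hx]
  refine forall_congr' fun v => ?_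
  constructor
  · exact fun h hv => ord_nonneg_of_mem v (h (mem_of_ord_nonneg v hv))
  · exact fun h hv => mem_of_ord_nonneg v (h (ord_nonneg_of_mem v hv))

end Fermat.Agent.H18
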