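import Mathlib
import Fermat.Prelude.Def_ModularCurve_ReductionModL

set_option autoImplicit false

noncomputable section

open HahnSeries ModularCurve

namespace Fermat.Agent.H60

/-! ### Frobenius on Laurent series in characteristic `p` -/

section Frob

theorem qExpand_ofPowerSeries {R : Type*} [CommRing R] (p : ℕ) [NeZero p] (P : PowerSeries R) :
    qExpand R p (HahnSeries.ofPowerSeries ℤ R P) =
      HahnSeries.ofPowerSeries ℤ R (PowerSeries.expand p (NeZero.ne p) P) := by
  ext k
  by_cases hk : (p : ℤ) ∣ k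
  · obtain ⟨m, rfl⟩ := hk
    rw [qExpand_coeff_mul]
    rcases le_or_gt 0 m with hm | hm
    · lift m to ℕ using hm
      rw [HahnSeries.ofPowerSeries_apply_coeff]
      have : ((p : ℤ) * (m : ℤ)) = ((p * m : ℕ) : ℤ) := by push_cast; ring
      rw [this, HahnSeries.ofPowerSeries_apply_coeff, PowerSeries.coeff_expand_mul]
    · rw [ofPowerSeries_coeff_of_neg _ hm, ofPowerSeries_coeff_of_neg]
      exact mul_neg_of_pos_of_neg (by exact_mod_cast Nat.pos_of_ne_zero (NeZero.ne p)) hm
  · rw [qExpand_coeff_of_not_dvd p _ hk]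
    rcases le_or_gt 0 k with hm | hm
    · lift k to ℕ using hm
      rw [HahnSeries.ofPowerSeries_apply_coeff, PowerSeries.coeff_expand_of_not_dvd]
      exact_mod_cast hk
    · rw [ofPowerSeries_coeff_of_neg _ hm]

/-- `f^p = f^φ(q^p)` in `R((q))` when `R` has characteristic `p`. -/
theorem laurent_pow_char {R : Type*} [CommRing R] (p : ℕ) [Fact p.Prime] [NeZero p] [CharP R p]
    (f : LaurentSeries R) :
    f ^ p = qExpand R p (coeffMap (frobenius R p) f) := by
  have h := LaurentSeries.single_order_mul_powerSeriesPart f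
  set n := f.order with hn
  set P := f.powerSeriesPart with hP
  have e1 : (HahnSeries.single n (1 : R)) ^ p = HahnSeries.single ((p : ℤ) * n) 1 := by
    rw [HahnSeries.single_pow, one_pow, nsmul_eq_mul]
  rw [← h, mul_pow, map_mul, map_mul, coeffMap_single, qExpand_single, e1,
    coeffMap_ofPowerSeries, qExpand_ofPowerSeries, ← map_pow, map_one (frobenius R p)]
  congr 2
  · rw [← PowerSeries.map_expand]
    exact (MvPowerSeries.map_frobenius_expand p (NeZero.ne p)).symm

end Frob

/-! ### The substitution `q ↦ u q` -/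

section Twist

variable {R : Type*} [CommRing R]

private def twistFun (u : Rˣ) (x : LaurentSeries R) : LaurentSeries R where
  coeff n := ((u ^ n : Rˣ) : R) * x.coeff n
  isPWO_support' := x.isPWO_support.mono (fun n hn => by
    simp only [Function.mem_support] at hn
    intro h
    exact hn (by rw [h, mul_zero]))

private theorem twistFun_support (u : Rˣ) (x : LaurentSeries R) :
    (twistFun u x).support = x.support := by
  ext n
  simp only [HahnSeries.mem_support]
  show ((u ^ n : Rˣ) : R) * x.coeff n ≠ 0 ↔ _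
  rw [Ne, Units.mul_right_eq_zero]

/-- The substitution `q ↦ u q` on Laurent series. -/
def twist (u : Rˣ) : LaurentSeries R →+* LaurentSeries R where
  toFun x := twistFun u x
  map_zero' := by
    ext n
    show ((u ^ n : Rˣ) : R) * (0 : LaurentSeries R).coeff n = _
    simp
  map_one' := by
    ext n
    show ((u ^ n : Rˣ) : R) * (1 : LaurentSeries R).coeff n = _
    rw [HahnSeries.coeff_one]
    split_ifs with h
    · simp [h]
    · simp
  map_add' x y := by
    ext n
    show ((u ^ n : Rˣ) : R) * (x + y).coeff n =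
      ((u ^ n : Rˣ) : R) * x.coeff n + ((u ^ n : Rˣ) : R) * y.coeff n
    rw [HahnSeries.coeff_add, mul_add]
  map_mul' x y := by
    ext n
    show ((u ^ n : Rˣ) : R) * (x * y).coeff n = (twistFun u x * twistFun u y).coeff n
    rw [HahnSeries.coeff_mul, HahnSeries.coeff_mul, Finset.mul_sum]
    have hset : Finset.antidiagonal (twistFun u x).isPWO_support (twistFun u y).isPWO_support n
        = Finset.antidiagonal x.isPWO_support y.isPWO_support n := by
      ext ij
      simp only [Finset.mem_antidiagonal, twistFun_support]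
    rw [hset]
    refine Finset.sum_congr rfl fun ij hij => ?_
    rw [Finset.mem_antidiagonal] at hij
    show _ = (((u ^ ij.1 : Rˣ) : R) * x.coeff ij.1) * (((u ^ ij.2 : Rˣ) : R) * y.coeff ij.2)
    rw [← hij.2.2, zpow_add, Units.val_mul]
    ring

@[simp]
theorem twist_coeff (u : Rˣ) (x : LaurentSeries R) (n : ℤ) :
    (twist u x).coeff n = ((u ^ n : Rˣ) : R) * x.coeff n := rfl

@[simp]
theorem twist_one (x : LaurentSeries R) : twist (1 : Rˣ) x = x := by
  ext n; simp

theorem twist_single (u : Rˣ) (n : ℤ) (a : R) :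
    twist u (HahnSeries.single n a) = HahnSeries.single n (((u ^ n : Rˣ) : R) * a) := by
  ext m
  rcases eq_or_ne m n with rfl | h
  · simp
  · rw [twist_coeff, HahnSeries.coeff_single_of_ne h, HahnSeries.coeff_single_of_ne h, mul_zero]

theorem coeffMap_twist {S : Type*} [CommRing S] (f : R →+* S) (u : Rˣ) (x : LaurentSeries R) :
    coeffMap f (twist u x) = twist (Units.map (f : R →* S) u) (coeffMap f x) := by
  ext n
  simp only [coeffMap_coeff, twist_coeff, map_mul]
  rw [← map_zpow]
  rfl

theorem twist_qExpand (u : Rˣ) (p : ℕ) [NeZero p] (x : LaurentSeries R) :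
    twist u (qExpand R p x) = qExpand R p (twist (u ^ p) x) := by
  ext k
  by_cases hk : (p : ℤ) ∣ k
  · obtain ⟨m, rfl⟩ := hk
    rw [twist_coeff, qExpand_coeff_mul, qExpand_coeff_mul, twist_coeff, zpow_mul, zpow_natCast]
  · rw [twist_coeff, qExpand_coeff_of_not_dvd p _ hk, qExpand_coeff_of_not_dvd p _ hk, mul_zero]

theorem twist_qExpand_of_pow_eq_one {u : Rˣ} {p : ℕ} [NeZero p] (hu : u ^ p = 1)
    (x : LaurentSeries R) : twist u (qExpand R p x) = qExpand R p x := by
  rw [twist_qExpand, hu, twist_one]

end Twist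

section Norm

variable {R : Type*} [CommRing R]

theorem coeffMap_qExpand_H60 {S : Type*} [CommRing S] (f : R →+* S) (n : ℕ)
    [NeZero n] (x : LaurentSeries R) : coeffMap f (qExpand R n x) = qExpand S n (coeffMap f x) := by
  ext k
  by_cases hk : (n : ℤ) ∣ k
  · obtain ⟨m, rfl⟩ := hk
    rw [coeffMap_coeff, qExpand_coeff_mul, qExpand_coeff_mul, coeffMap_coeff]
  · rw [coeffMap_coeff, qExpand_coeff_of_not_dvd n _ hk, qExpand_coeff_of_not_dvd n _ hk,
      map_zero]

/-- `y(q^{p²}) ∏_{i<p} y(ζ^i q)`. -/
def normSeries (p : ℕ) [NeZero p] (ζ : Rˣ) (y : LaurentSeries R) : LaurentSeries R :=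
  qExpand R p (qExpand R p y) * ∏ i ∈ Finset.range p, twist (ζ ^ i) y

theorem coeffMap_normSeries {S : Type*} [CommRing S] (f : R →+* S) (p : ℕ) [NeZero p] (ζ : Rˣ)
    (y : LaurentSeries R) :
    coeffMap f (normSeries p ζ y) = normSeries p (Units.map (f : R →* S) ζ) (coeffMap f y) := by
  simp only [normSeries, map_mul, map_prod, coeffMap_qExpand_H60, coeffMap_twist, map_pow]

theorem normSeries_one (p : ℕ) [Fact p.Prime] [NeZero p] [CharP R p] (y : LaurentSeries R) :
    normSeries p (1 : Rˣ) y = qExpand R p (qExpand R p y * coeffMap (frobenius R p) y) := by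
  simp only [normSeries, one_pow, twist_one, Finset.prod_const, Finset.card_range, map_mul]
  rw [laurent_pow_char p y]

end Norm

end Fermat.Agent.H60
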