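import Mathlib
import Fermat.Prelude.Def_AlgebraicCurve_DivisorClassGroup

set_option autoImplicit false

noncomputable section

open AlgebraicCurve

namespace Fermat.Agent.H60

section Trick

variable {K F : Type*} [Field K] [Field F] [Algebra K F]

variable (K F) in
/-- Every divisor of large degree is linearly equivalent to an effective divisor. -/
def RiemannBound : Prop :=
  ∃ c : ℤ, ∀ D : Divisor K F, c ≤ Divisor.degree D →
    ∃ f : F, f ≠ 0 ∧ ∀ v : Place K F, 0 ≤ D v + v.ord f

theorem degree_eq_sum (hdeg : ∀ v : Place K F, v.deg = 1) (D : Divisor K F) :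
    Divisor.degree D = D.sum fun _ n => n := by
  rw [Divisor.degree, Finsupp.liftAddHom_apply]
  refine Finsupp.sum_congr fun v _ => ?_
  simp [hdeg]

theorem hom_eq_sum {X : Type*} (δ : Divisor K F →+ (X →₀ ℤ)) (D : Divisor K F) :
    δ D = D.sum fun v n => n • δ (Finsupp.single v 1) := by
  conv_lhs => rw [← Finsupp.sum_single D]
  rw [Finsupp.sum, map_sum, Finsupp.sum]
  refine Finset.sum_congr rfl fun v _ => ?_
  rw [← map_zsmul, Finsupp.smul_single, smul_eq_mul, mul_one]

theorem abs_hom_le (hdeg : ∀ v : Place K F, v.deg = 1) {X : Type*} (δ : Divisor K F →+ (X →₀ ℤ))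
    {C : ℤ} (hC : ∀ (P : Place K F) (x : X), |δ (Finsupp.single P 1) x| ≤ C)
    (E : Divisor K F) (hE : ∀ v, 0 ≤ E v) (x : X) :
    |δ E x| ≤ Divisor.degree E * C := by
  rw [hom_eq_sum δ E, degree_eq_sum hdeg, Finsupp.sum, Finsupp.sum, Finset.sum_apply',
    Finset.sum_mul]
  refine (Finset.abs_sum_le_sum_abs _ _).trans (Finset.sum_le_sum fun v _ => ?_)
  rw [Finsupp.smul_apply, smul_eq_mul, abs_mul, abs_of_nonneg (hE v)]
  exact mul_le_mul_of_nonneg_left (hC v x) (hE v)

theorem hom_eq_zero_of_bounded [HasPrincipalDivisors K F] (hR : RiemannBound K F)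
    (hdeg : ∀ v : Place K F, v.deg = 1) {X : Type*} (δ : Divisor K F →+ (X →₀ ℤ))
    (hδ : ∀ D ∈ Divisor.principal (K := K) (F := F), δ D = 0)
    {C : ℤ} (hC : ∀ (P : Place K F) (x : X), |δ (Finsupp.single P 1) x| ≤ C)
    (D : Divisor K F) (hD : D ∈ Divisor.degZero (K := K) (F := F)) : δ D = 0 := by
  classical
  obtain ⟨c₀, hc₀⟩ := hR
  set c := max c₀ 0 with hcdef
  have hc0 : 0 ≤ c := le_max_right _ _
  have hc : ∀ D : Divisor K F, c ≤ Divisor.degree D →
    ∃ f : F, f ≠ 0 ∧ ∀ v : Place K F, 0 ≤ D v + v.ord f := fun D h =>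
      hc₀ D ((le_max_left _ _).trans h)
  -- the key claim
  have key : ∀ P Q : Place K F, δ (Finsupp.single P 1) = δ (Finsupp.single Q 1) := by
    intro P Q
    ext x
    set a : ℤ := δ (Finsupp.single P 1) x - δ (Finsupp.single Q 1) x with ha
    have hbound : ∀ n : ℕ, (n : ℤ) * |a| ≤ 2 * (c * C) := by
      intro n
      set Dn : Divisor K F := (n : ℤ) • Finsupp.single P 1 - (n : ℤ) • Finsupp.single Q 1
        + c • Finsupp.single Q 1 with hDn
      have hdegDn : Divisor.degree Dn = c := by
        rw [hDn, map_add, map_sub, map_zsmul, map_zsmul, map_zsmul, Divisor.degree_single,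
          Divisor.degree_single, hdeg, hdeg]
        simp
      obtain ⟨f, hf0, hf⟩ := hc Dn (by rw [hdegDn])
      obtain ⟨Df, hDf, hDf0⟩ := HasPrincipalDivisors.exists_divisor (K := K) f hf0
      have hDfp : Df ∈ Divisor.principal (K := K) (F := F) := ⟨f, hf0, hDf⟩
      have hE : ∀ v, 0 ≤ (Dn + Df) v := fun v => by
        rw [Finsupp.add_apply, hDf v]; exact hf v
      have h1 := abs_hom_le hdeg δ hC (Dn + Df) hE x
      rw [map_add Divisor.degree, hdegDn, hDf0, add_zero, map_add δ, hδ Df hDfp, add_zero] at h1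
      have h2 : δ Dn x = n * a + c * δ (Finsupp.single Q 1) x := by
        rw [hDn, map_add, map_sub, map_zsmul, map_zsmul, map_zsmul]
        simp only [Finsupp.add_apply, Finsupp.sub_apply, Finsupp.smul_apply, smul_eq_mul, ha]
        ring
      have h3 : |c * δ (Finsupp.single Q 1) x| ≤ c * C := by
        rw [abs_mul, abs_of_nonneg hc0]
        exact mul_le_mul_of_nonneg_left (hC Q x) hc0
      have h4 : (n : ℤ) * a = δ Dn x - c * δ (Finsupp.single Q 1) x := by rw [h2]; ring
      have h5 : (n : ℤ) * |a| = |(n : ℤ) * a| := by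
        rw [abs_mul, abs_of_nonneg (Int.natCast_nonneg n)]
      rw [h5, h4]
      calc |δ Dn x - c * δ (Finsupp.single Q 1) x|
          ≤ |δ Dn x| + |c * δ (Finsupp.single Q 1) x| := abs_sub _ _
        _ ≤ c * C + c * C := add_le_add h1 h3
        _ = 2 * (c * C) := by ring
    have ha0 : a = 0 := by
      by_contra hne
      have hpos : 1 ≤ |a| := Int.one_le_abs hne
      have hCC : 0 ≤ 2 * (c * C) := by
        have := hbound 0
        simpa using this
      have h := hbound ((2 * (c * C)).toNat + 1)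
      have h' : (((2 * (c * C)).toNat + 1 : ℕ) : ℤ) = 2 * (c * C) + 1 := by
        push_cast
        rw [Int.toNat_of_nonneg hCC]
      rw [h'] at h
      nlinarith
    rw [ha] at ha0
    linarith
  -- conclude
  rw [hom_eq_sum δ D]
  rcases isEmpty_or_nonempty (Place K F) with hempty | ⟨⟨Q⟩⟩
  · have : D = 0 := Subsingleton.elim _ _
    rw [this, Finsupp.sum_zero_index]
  · have hsum : (D.sum fun v n => n • δ (Finsupp.single v 1))
        = (D.sum fun _ n => n) • δ (Finsupp.single Q 1) := by
      rw [Finsupp.sum, Finsupp.sum, Finset.sum_smul]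
      exact Finset.sum_congr rfl fun v _ => by rw [key v Q]
    rw [hsum, ← degree_eq_sum hdeg, Divisor.mem_degZero.mp hD, zero_smul]

end Trick

end Fermat.Agent.H60
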