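import Mathlib
import Fermat.Prelude.Def_ModularCurve_ReductionModL
import Fermat.Prelude.Def_EllipticCurve_FrobeniusTrace
import Fermat.Agent.H60Series
import Fermat.Agent.H60Trick

set_option autoImplicit false

noncomputable section

open AlgebraicCurve ModularCurve IntermediateField HahnSeries

namespace Fermat.Agent.H60

/-! ### Coefficientwise semilinear automorphisms of the function field of `X_0(N)` over `k` -/

section CoeffAut

variable {k : Type*} [Field k] {N : ℕ}

theorem mem_fullC_iff {x : LaurentSeries k} :
    x ∈ modularFunctionFieldFullC k N ↔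
      x ∈ Subfield.closure
        (Set.range (algebraMap k (LaurentSeries k)) ∪ divisorExpansionsC k N) :=
  Iff.rfl

theorem coeffMap_mem_fullC (τ : k →+* k) {x : LaurentSeries k}
    (hx : x ∈ modularFunctionFieldFullC k N) :
    coeffMap τ x ∈ modularFunctionFieldFullC k N := by
  rw [mem_fullC_iff] at hx
  induction hx using Subfield.closure_induction with
  | mem y hy =>
      rcases hy with ⟨a, rfl⟩ | ⟨d, hd, hdN, rfl⟩
      · rw [coeffMap_algebraMap]
        exact (modularFunctionFieldFullC k N).algebraMap_mem _
      · haveI := hd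
        rw [coeffMap_qExpand_H60, coeffMap_jqModC]
        exact jqModCd_mem_full k N hdN
  | one => simp
  | add x y _ _ hx hy => simpa using add_mem hx hy
  | neg x _ hx => simpa using neg_mem hx
  | inv x _ hx => simpa using inv_mem hx
  | mul x y _ _ hx hy => simpa using mul_mem hx hy

variable (N) in
/-- The coefficientwise automorphism of `k(X_0(N))` attached to `τ ∈ Aut k`. -/
def coeffRingAut (τ : k ≃+* k) :
    modularFunctionFieldFullC k N ≃+* modularFunctionFieldFullC k N where
  toFun x := ⟨coeffMap (τ : k →+* k) (x : LaurentSeries k), coeffMap_mem_fullC _ x.2⟩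
  invFun x := ⟨coeffMap (τ.symm : k →+* k) (x : LaurentSeries k), coeffMap_mem_fullC _ x.2⟩
  left_inv x := Subtype.ext <| by
    show coeffMap (τ.symm : k →+* k) (coeffMap (τ : k →+* k) (x : LaurentSeries k)) = x
    rw [coeffMap_coeffMap,
      coeffMap_congr (g := RingHom.id k) (RingHom.ext fun a => τ.symm_apply_apply a),
      coeffMap_id]
  right_inv x := Subtype.ext <| by
    show coeffMap (τ : k →+* k) (coeffMap (τ.symm : k →+* k) (x : LaurentSeries k)) = x
    rw [coeffMap_coeffMap,
      coeffMap_congr (g := RingHom.id k) (RingHom.ext fun a => τ.apply_symm_apply a),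
      coeffMap_id]
  map_mul' x y := Subtype.ext (map_mul (coeffMap (τ : k →+* k)) _ _)
  map_add' x y := Subtype.ext (map_add (coeffMap (τ : k →+* k)) _ _)

@[simp]
theorem coe_coeffRingAut (τ : k ≃+* k) (x : modularFunctionFieldFullC k N) :
    (coeffRingAut N τ x : LaurentSeries k) = coeffMap (τ : k →+* k) (x : LaurentSeries k) := rfl

variable (N) in
/-- The same as an element of `SemilinearAut`. -/
def coeffAut (τ : k ≃+* k) : SemilinearAut k (modularFunctionFieldFullC k N) :=
  ⟨(coeffRingAut N τ, τ), fun a => Subtype.ext (coeffMap_algebraMap (τ : k →+* k) a)⟩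

theorem coe_coeffAut_smul (τ : k ≃+* k) (x : modularFunctionFieldFullC k N) :
    ((coeffAut N τ • x : modularFunctionFieldFullC k N) : LaurentSeries k)
      = coeffMap (τ : k →+* k) (x : LaurentSeries k) := rfl

theorem coeffAut_refl : coeffAut (k := k) N (RingEquiv.refl k) = 1 := by
  refine Subtype.ext (Prod.ext (RingEquiv.ext fun x => Subtype.ext ?_) rfl)
  show coeffMap ((RingEquiv.refl k : k ≃+* k) : k →+* k) (x : LaurentSeries k) = x
  have h := coeffMap_congr (f := ((RingEquiv.refl k : k ≃+* k) : k →+* k)) (g := RingHom.id k)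
    (RingHom.ext fun _ => rfl) (x : LaurentSeries k)
  exact h.trans (coeffMap_id _)

end CoeffAut

/-! ### Reduction intertwines the decomposition group with coefficient automorphisms -/

section Bounded

variable {K F K' F' : Type*} [Field K] [Field F] [Algebra K F] [Field K'] [Field F'] [Algebra K' F']

theorem mapDomain_apply_le_degree (hdeg : ∀ v : Place K F, v.deg = 1)
    (r : Place K F → Place K' F') (E : Divisor K F) (hE : ∀ v, 0 ≤ E v) (Q : Place K' F') :
    0 ≤ Finsupp.mapDomain r E Q ∧ Finsupp.mapDomain r E Q ≤ Divisor.degree E := by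
  classical
  rw [degree_eq_sum hdeg, Finsupp.mapDomain, Finsupp.sum_apply, Finsupp.sum, Finsupp.sum]
  constructor
  · refine Finset.sum_nonneg fun v _ => ?_
    rw [Finsupp.single_apply]
    split_ifs
    · exact hE v
    · exact le_rfl
  · refine Finset.sum_le_sum fun v _ => ?_
    rw [Finsupp.single_apply]
    split_ifs
    · exact le_rfl
    · exact hE v

theorem abs_single_one_le {X : Type*} (P x : X) : |(Finsupp.single P (1 : ℤ)) x| ≤ 1 := by
  classical
  rw [Finsupp.single_apply]
  split_ifs <;> simp

end Bounded

section Decomposition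

variable {L : Type*} [Field L] [Algebra ℚ L] {A : ValuationSubring L}
variable {k : Type*} [Field k] {π : A →+* k} {N : ℕ}

/-- Compatibility of `σ ∈ Gal(L/ℚ)`, an endomorphism `s` of `A` and an automorphism `τ` of `k`. -/
structure Compat (π : A →+* k) (σ : L ≃ₐ[ℚ] L) (s : A →+* A) (τ : k ≃+* k) : Prop where
  sub : ∀ a : A, ((s a : A) : L) = σ (a : L)
  red : ∀ a : A, π (s a) = τ (π a)

theorem Compat.coeffMap_subtype {σ : L ≃ₐ[ℚ] L} {s : A →+* A} {τ : k ≃+* k}
    (h : Compat π σ s τ) (y : LaurentSeries A) :
    coeffMap A.subtype (coeffMap s y) = coeffMap (σ : L →+* L) (coeffMap A.subtype y) := by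
  rw [coeffMap_coeffMap, coeffMap_coeffMap]
  exact coeffMap_congr (RingHom.ext fun a => h.sub a) y

theorem Compat.coeffMap_red {σ : L ≃ₐ[ℚ] L} {s : A →+* A} {τ : k ≃+* k}
    (h : Compat π σ s τ) (y : LaurentSeries A) :
    coeffMap π (coeffMap s y) = coeffMap (τ : k →+* k) (coeffMap π y) := by
  rw [coeffMap_coeffMap, coeffMap_coeffMap]
  exact coeffMap_congr (RingHom.ext fun a => h.red a) y

/-- Reduction of integral principal divisors is Galois-equivariant. -/
theorem mapDomain_smul_of_mem_integral
    {r : Place L (laurentBaseChange L (modularFunctionFieldFull N)) →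
      Place k (modularFunctionFieldFullC k N)}
    (hr : IsPlaceReductionAlong A π N r) {σ : L ≃ₐ[ℚ] L} {s : A →+* A} {τ : k ≃+* k}
    (hc : Compat π σ s τ)
    {D : Divisor L (laurentBaseChange L (modularFunctionFieldFull N))}
    (hD : D ∈ integralPrincipalDivisors A π N) :
    Finsupp.mapDomain r (arithmeticGalois (modularFunctionFieldFull N) σ • D) =
      coeffAut N τ • Finsupp.mapDomain r D := by
  obtain ⟨y, hy, hyk, hne, hDy⟩ := hD
  set g := arithmeticGalois (modularFunctionFieldFull N) σ with hg
  set f : laurentBaseChange L (modularFunctionFieldFull N) := ⟨coeffMap A.subtype y, hy⟩ with hf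
  set fk : modularFunctionFieldFullC k N := ⟨coeffMap π y, hyk⟩ with hfk
  have hDred : ∀ Q, Finsupp.mapDomain r D Q = Q.ord fk := hr.2 y hy hyk hne D hDy
  -- the conjugate function
  set y' := coeffMap s y with hy'def
  have hcoe : coeffMap A.subtype y' =
      ((g • f : laurentBaseChange L (modularFunctionFieldFull N)) : LaurentSeries L) :=
    hc.coeffMap_subtype y
  have hy' : coeffMap A.subtype y' ∈ laurentBaseChange L (modularFunctionFieldFull N) := by
    rw [hcoe]; exact (g • f).2
  have hcoek : coeffMap π y' =
      ((coeffAut N τ • fk : modularFunctionFieldFullC k N) : LaurentSeries k) :=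
    hc.coeffMap_red y
  have hyk' : coeffMap π y' ∈ modularFunctionFieldFullC k N := by
    rw [hcoek]; exact (coeffAut N τ • fk).2
  have hfk0 : fk ≠ 0 := fun h => hne (congrArg Subtype.val h)
  have hne' : coeffMap π y' ≠ 0 := by
    rw [hcoek]
    intro h
    have : coeffAut N τ • fk = 0 := Subtype.ext h
    exact hfk0 (by simpa using this)
  have hD' : ∀ P, (g • D) P = P.ord
      (⟨coeffMap A.subtype y', hy'⟩ : laurentBaseChange L (modularFunctionFieldFull N)) := by
    intro P
    have e : (⟨coeffMap A.subtype y', hy'⟩ : laurentBaseChange L (modularFunctionFieldFull N))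
        = g • f := Subtype.ext hcoe
    rw [e, SemilinearAut.divisor_smul_apply, hDy]
    have h := SemilinearAut.ord_smul g (g⁻¹ • P) f
    rw [smul_inv_smul] at h
    exact h.symm
  ext Q
  rw [hr.2 y' hy' hyk' hne' (g • D) hD' Q, SemilinearAut.divisor_smul_apply, hDred]
  have e : (⟨coeffMap π y', hyk'⟩ : modularFunctionFieldFullC k N) = coeffAut N τ • fk :=
    Subtype.ext hcoek
  rw [e]
  have h := SemilinearAut.ord_smul (coeffAut N τ) ((coeffAut N τ)⁻¹ • Q) fk
  rw [smul_inv_smul] at h
  exact h

/-- **D4**: on divisors of degree zero, reduction intertwines the action of the decomposition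
group with the coefficientwise action of its image in `Aut k`. -/
theorem mapDomain_smul_of_degZero
    [HasPrincipalDivisors L (laurentBaseChange L (modularFunctionFieldFull N))]
    (hR : RiemannBound L (laurentBaseChange L (modularFunctionFieldFull N)))
    (hdeg : ∀ v : Place L (laurentBaseChange L (modularFunctionFieldFull N)), v.deg = 1)
    {r : Place L (laurentBaseChange L (modularFunctionFieldFull N)) →
      Place k (modularFunctionFieldFullC k N)}
    (hr : IsPlaceReductionAlong A π N r)
    (hgen : PrincipalGeneratedByIntegral A π N)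
    {σ : L ≃ₐ[ℚ] L} {s : A →+* A} {τ : k ≃+* k} (hc : Compat π σ s τ)
    (D : Divisor L (laurentBaseChange L (modularFunctionFieldFull N)))
    (hD : D ∈ Divisor.degZero (K := L) (F := laurentBaseChange L (modularFunctionFieldFull N))) :
    Finsupp.mapDomain r (arithmeticGalois (modularFunctionFieldFull N) σ • D) =
      coeffAut N τ • Finsupp.mapDomain r D := by
  set g := arithmeticGalois (modularFunctionFieldFull N) σ with hg
  set t := coeffAut (k := k) N τ with ht
  let δ : Divisor L (laurentBaseChange L (modularFunctionFieldFull N)) →+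
      Divisor k (modularFunctionFieldFullC k N) :=
    (Finsupp.mapDomain.addMonoidHom r).comp (DistribSMul.toAddMonoidHom _ g) -
      (DistribSMul.toAddMonoidHom _ t).comp (Finsupp.mapDomain.addMonoidHom r)
  have hδapp : ∀ D, δ D = Finsupp.mapDomain r (g • D) - t • Finsupp.mapDomain r D := fun _ => rfl
  have hδ : ∀ D ∈ Divisor.principal (K := L)
      (F := laurentBaseChange L (modularFunctionFieldFull N)), δ D = 0 := by
    intro D hD
    have hD' := hgen hD
    clear hD
    induction hD' using AddSubgroup.closure_induction with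
    | mem E hE => rw [hδapp, mapDomain_smul_of_mem_integral hr hc hE, sub_self]
    | zero => exact map_zero δ
    | add E E' _ _ hE hE' => rw [map_add, hE, hE', add_zero]
    | neg E _ hE => rw [map_neg, hE, neg_zero]
  have hC : ∀ (P : Place L (laurentBaseChange L (modularFunctionFieldFull N)))
      (Q : Place k (modularFunctionFieldFullC k N)), |δ (Finsupp.single P 1) Q| ≤ 2 := by
    intro P Q
    rw [hδapp, SemilinearAut.smul_single, Finsupp.mapDomain_single, Finsupp.mapDomain_single,
      SemilinearAut.smul_single, Finsupp.sub_apply]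
    refine (abs_sub _ _).trans ?_
    have h1 := abs_single_one_le (r (g • P)) Q
    have h2 := abs_single_one_le (t • r P) Q
    linarith
  have := hom_eq_zero_of_bounded hR hdeg δ hδ hC D hD
  rw [hδapp, sub_eq_zero] at this
  exact this

end Decomposition

end Fermat.Agent.H60
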