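import Mathlib
import Fermat.Agent.H28Jq
import Fermat.Agent.H61Valence

set_option autoImplicit false

noncomputable section

namespace Fermat.Agent.H61

open HahnSeries

/-! ### The derivation `θ = q d/dq` on Laurent series -/

section Theta

variable {R : Type*} [CommRing R]

/-- `θ = q d/dq` on Laurent series. -/
def theta (a : LaurentSeries R) : LaurentSeries R where
  coeff n := (n : R) * a.coeff n
  isPWO_support' := a.isPWO_support'.mono (fun n hn => by
    simp only [Function.mem_support] at hn ⊢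
    exact right_ne_zero_of_mul hn)

@[simp] lemma coeff_theta (a : LaurentSeries R) (n : ℤ) :
    (theta a).coeff n = (n : R) * a.coeff n := rfl

lemma theta_add (a b : LaurentSeries R) : theta (a + b) = theta a + theta b := by
  ext n; simp [mul_add]

lemma theta_neg (a : LaurentSeries R) : theta (-a) = -theta a := by
  ext n; simp

lemma theta_sub (a b : LaurentSeries R) : theta (a - b) = theta a - theta b := by
  ext n; simp [mul_sub]

@[simp] lemma theta_zero : theta (0 : LaurentSeries R) = 0 := by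
  ext n; simp

lemma theta_smul (r : R) (a : LaurentSeries R) : theta (r • a) = r • theta a := by
  ext n; simp; ring

@[simp] lemma theta_single (k : ℤ) (r : R) :
    theta (single k r) = single k ((k : R) * r) := by
  ext n
  rw [coeff_theta]
  by_cases h : n = k
  · subst h; simp
  · simp [coeff_single_of_ne h]

@[simp] lemma theta_C (r : R) : theta (C r : LaurentSeries R) = 0 := by
  change theta (single 0 r) = 0
  simp

@[simp] lemma theta_one : theta (1 : LaurentSeries R) = 0 := by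
  rw [← map_one (C : R →+* LaurentSeries R), theta_C]

/-- The Leibniz rule. -/
lemma theta_mul (a b : LaurentSeries R) : theta (a * b) = theta a * b + a * theta b := by
  ext n
  have hs1 : (theta a).support ⊆ a.support := fun n hn => by
    rw [HahnSeries.mem_support, coeff_theta] at hn
    exact right_ne_zero_of_mul hn
  have hs2 : (theta b).support ⊆ b.support := fun n hn => by
    rw [HahnSeries.mem_support, coeff_theta] at hn
    exact right_ne_zero_of_mul hn
  rw [coeff_theta, HahnSeries.coeff_add, HahnSeries.coeff_mul,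
    HahnSeries.coeff_mul_left' a.isPWO_support hs1,
    HahnSeries.coeff_mul_right' b.isPWO_support hs2, Finset.mul_sum, ← Finset.sum_add_distrib]
  refine Finset.sum_congr rfl fun ij hij => ?_
  have h : ij.1 + ij.2 = n := (Finset.mem_antidiagonal.mp hij).2.2
  rw [coeff_theta, coeff_theta, ← h]
  push_cast
  ring

lemma theta_pow (a : LaurentSeries R) (n : ℕ) :
    theta (a ^ n) = n * a ^ (n - 1) * theta a := by
  induction n with
  | zero => simp
  | succ n ih =>
    rw [pow_succ, theta_mul, ih]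
    rcases n with _ | n
    · simp
    · simp only [Nat.add_sub_cancel, pow_succ]
      push_cast
      ring

lemma theta_natCast_mul (k : ℕ) (a : LaurentSeries R) :
    theta ((k : LaurentSeries R) * a) = k * theta a := by
  have h : (k : LaurentSeries R) = C (k : R) := by simp
  rw [h, theta_mul, theta_C, zero_mul, zero_add]

lemma theta_intCast_mul (k : ℤ) (a : LaurentSeries R) :
    theta ((k : LaurentSeries R) * a) = k * theta a := by
  have h : (k : LaurentSeries R) = C (k : R) := by simp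
  rw [h, theta_mul, theta_C, zero_mul, zero_add]

end Theta

section Analytic

open UpperHalfPlane hiding I
open Complex Real Filter Topology Fermat.Agent.H28
open Derivative
open scoped Manifold

local notation "𝕢" => Function.Periodic.qParam

lemma norm_qParam_eq {h : ℝ} (z : ℂ) :
    ‖𝕢 h z‖ = Real.exp (-2 * π * z.im / h) := by
  rw [Function.Periodic.norm_qParam]

lemma hasDerivAt_qParam_zpow {h : ℝ} (n : ℤ) (z : ℂ) :
    HasDerivAt (fun w : ℂ => 𝕢 h w ^ n) (2 * π * Complex.I / h * (n : ℂ) * 𝕢 h z ^ n) z := by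
  have h1 : (fun w : ℂ => 𝕢 h w ^ n) =
      fun w => Complex.exp ((n : ℂ) * (2 * π * Complex.I * w / h)) := by
    ext w
    rw [Function.Periodic.qParam, ← Complex.exp_int_mul]
  have h2 : 𝕢 h z ^ n = Complex.exp ((n : ℂ) * (2 * π * Complex.I * z / h)) := by
    rw [Function.Periodic.qParam, ← Complex.exp_int_mul]
  rw [h1, h2]
  have h3 : HasDerivAt (fun w : ℂ => (n : ℂ) * (2 * π * Complex.I * w / h))
      ((n : ℂ) * (2 * π * Complex.I / h)) z := by
    have := (((hasDerivAt_id z).const_mul (2 * π * Complex.I)).div_const (h : ℂ)).const_mul (n : ℂ)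
    simpa using this
  have h4 := h3.cexp
  rw [show Complex.exp ((n : ℂ) * (2 * π * Complex.I * z / h)) * ((n : ℂ) * (2 * π * Complex.I / h))
    = 2 * π * Complex.I / h * (n : ℂ) * Complex.exp ((n : ℂ) * (2 * π * Complex.I * z / h)) by
      ring] at h4
  exact h4

/-- Termwise differentiation of Laurent `q`-expansions. -/
theorem hasExp_normalizedDeriv {h : ℝ} (hh : 0 < h) {f : ℍ → ℂ} {a : LaurentSeries ℂ}
    (ha : HasExp h f a) :
    HasExp h (normalizedDerivOfComplex f) ((h : ℂ)⁻¹ • theta a) := by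
  intro τ
  -- the band
  set y0 : ℝ := τ.im / 2 with hy0
  set y1 : ℝ := 2 * τ.im with hy1
  have hτ := τ.im_pos
  have hy0p : 0 < y0 := by positivity
  have hy1p : 0 < y1 := by positivity
  let U : Set ℂ := {z | y0 < z.im ∧ z.im < y1}
  have hUo : IsOpen U :=
    (isOpen_lt continuous_const Complex.continuous_im).inter
      (isOpen_lt Complex.continuous_im continuous_const)
  have hτU : (τ : ℂ) ∈ U := by
    constructor
    · change y0 < τ.im
      linarith
    · change τ.im < y1
      linarith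
  let F : ℤ → ℂ → ℂ := fun n z => a.coeff n * 𝕢 h z ^ n
  let τ0 : ℍ := ⟨⟨0, y0⟩, hy0p⟩
  let τ1 : ℍ := ⟨⟨0, y1⟩, hy1p⟩
  have hs0 : Summable (fun n : ℤ => ‖a.coeff n * 𝕢 h τ0 ^ n‖) := (ha τ0).summable.norm
  have hs1 : Summable (fun n : ℤ => ‖a.coeff n * 𝕢 h τ1 ^ n‖) := (ha τ1).summable.norm
  have hF : ∀ n, DifferentiableOn ℂ (F n) U := fun n z _ =>
    ((hasDerivAt_qParam_zpow n z).differentiableAt.const_mul _).differentiableWithinAt
  have hle : ∀ (n : ℤ) (w : ℂ), w ∈ U → ‖F n w‖ ≤
      ‖a.coeff n * 𝕢 h τ0 ^ n‖ + ‖a.coeff n * 𝕢 h τ1 ^ n‖ := by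
    intro n w hw
    have e0 : ‖𝕢 h (τ0 : ℂ)‖ = Real.exp (-2 * π * y0 / h) := norm_qParam_eq _
    have e1 : ‖𝕢 h (τ1 : ℂ)‖ = Real.exp (-2 * π * y1 / h) := norm_qParam_eq _
    have ew : ‖𝕢 h w‖ = Real.exp (-2 * π * w.im / h) := norm_qParam_eq _
    have hpos0 : 0 < ‖𝕢 h (τ0 : ℂ)‖ := by rw [e0]; exact Real.exp_pos _
    have hpos1 : 0 < ‖𝕢 h (τ1 : ℂ)‖ := by rw [e1]; exact Real.exp_pos _
    have hposw : 0 < ‖𝕢 h w‖ := by rw [ew]; exact Real.exp_pos _
    have hw0 : ‖𝕢 h w‖ ≤ ‖𝕢 h (τ0 : ℂ)‖ := by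
      rw [ew, e0, Real.exp_le_exp]
      have := hw.1
      gcongr ?_ / h
      nlinarith [Real.pi_pos]
    have hw1 : ‖𝕢 h (τ1 : ℂ)‖ ≤ ‖𝕢 h w‖ := by
      rw [ew, e1, Real.exp_le_exp]
      have := hw.2
      gcongr ?_ / h
      nlinarith [Real.pi_pos]
    simp only [F, norm_mul, norm_zpow]
    rw [← mul_add]
    refine mul_le_mul_of_nonneg_left ?_ (norm_nonneg _)
    rcases le_or_gt 0 n with hn | hn
    · have h1 : ‖𝕢 h w‖ ^ n ≤ ‖𝕢 h (τ0 : ℂ)‖ ^ n := by
        obtain ⟨m, rfl⟩ := Int.eq_ofNat_of_zero_le hn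
        simpa using pow_le_pow_left₀ (norm_nonneg _) hw0 m
      have h2 : 0 ≤ ‖𝕢 h (τ1 : ℂ)‖ ^ n := zpow_nonneg (norm_nonneg _) _
      linarith
    · have h1 : ‖𝕢 h w‖ ^ n ≤ ‖𝕢 h (τ1 : ℂ)‖ ^ n := by
        obtain ⟨m, hm⟩ := Int.eq_ofNat_of_zero_le (show 0 ≤ -n by omega)
        have hnm : n = -(m : ℤ) := by omega
        rw [hnm, zpow_neg, zpow_neg, zpow_natCast, zpow_natCast]
        exact inv_anti₀ (pow_pos hpos1 _) (pow_le_pow_left₀ (norm_nonneg _) hw1 m)
      have h2 : 0 ≤ ‖𝕢 h (τ0 : ℂ)‖ ^ n := zpow_nonneg (norm_nonneg _) _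
      linarith
  have key := hasSum_deriv_of_summable_norm (hs0.add hs1) hF hUo hle hτU
  have hev : (f ∘ ofComplex) =ᶠ[𝓝 (τ : ℂ)] fun w : ℂ => ∑' n : ℤ, F n w := by
    filter_upwards [isOpen_upperHalfPlaneSet.mem_nhds τ.im_pos] with w hw
    rw [Function.comp_apply, ofComplex_apply_of_im_pos hw]
    exact ((ha ⟨w, hw⟩).tsum_eq).symm
  have h2 : HasSum (fun n : ℤ => ((h : ℂ)⁻¹ • theta a).coeff n * 𝕢 h τ ^ n)
      ((2 * π * Complex.I)⁻¹ * deriv (fun w : ℂ => ∑' n : ℤ, F n w) τ) := by
    have h3 := key.mul_left ((2 * π * Complex.I)⁻¹)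
    have h4 : (fun n : ℤ => (2 * π * Complex.I)⁻¹ * deriv (F n) τ) =
        fun n : ℤ => ((h : ℂ)⁻¹ • theta a).coeff n * 𝕢 h τ ^ n := by
      funext n
      have h5 := ((hasDerivAt_qParam_zpow (h := h) n (τ : ℂ)).const_mul (a.coeff n)).deriv
      have hpi : (2 * π * Complex.I) ≠ 0 := by simp [Real.pi_ne_zero]
      have hh' : (h : ℂ) ≠ 0 := by exact_mod_cast hh.ne'
      rw [show deriv (F n) τ = _ from h5, HahnSeries.coeff_smul, coeff_theta, smul_eq_mul]
      field_simp
    rw [h4] at h3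
    exact h3
  rw [LSum, normalizedDerivOfComplex, hev.deriv_eq]
  exact h2

end Analytic

/-! ### Formal Eisenstein series and Ramanujan's identities over any ring -/

section Formal

open ModularCurve Fermat.Agent.H28

/-- The formal `E₂`. -/
def E2f : PowerSeries ℤ :=
  PowerSeries.mk fun n => if n = 0 then 1 else -24 * ∑ d ∈ n.divisors, (d : ℤ)

/-- The formal `E₆`. -/
def E6f : PowerSeries ℤ :=
  PowerSeries.mk fun n => if n = 0 then 1 else -504 * ∑ d ∈ n.divisors, (d : ℤ) ^ 5

/-- Coefficient change of an integral power series to a Laurent series over `R`. -/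
def toL (R : Type*) [CommRing R] (f : PowerSeries ℤ) : LaurentSeries R :=
  HahnSeries.ofPowerSeries ℤ R (f.map (Int.castRingHom R))

lemma coeff_toL_nat (R : Type*) [CommRing R] (f : PowerSeries ℤ) (n : ℕ) :
    (toL R f).coeff (n : ℤ) = (f.coeff n : R) := by
  rw [toL, HahnSeries.ofPowerSeries_apply_coeff, PowerSeries.coeff_map]
  simp

lemma coeff_toL_neg (R : Type*) [CommRing R] (f : PowerSeries ℤ) {n : ℤ} (hn : n < 0) :
    (toL R f).coeff n = 0 :=
  ofPowerSeries_coeff_of_neg _ hn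

def E2L (R : Type*) [CommRing R] : LaurentSeries R := toL R E2f
def E4L (R : Type*) [CommRing R] : LaurentSeries R := toL R eisenstein4
def E6L (R : Type*) [CommRing R] : LaurentSeries R := toL R E6f

lemma coeffMap_toL {R S : Type*} [CommRing R] [CommRing S] (φ : R →+* S) (f : PowerSeries ℤ) :
    coeffMap φ (toL R f) = toL S f := by
  ext n
  rw [coeffMap_coeff]
  rcases lt_or_ge n 0 with hn | hn
  · rw [coeff_toL_neg _ _ hn, coeff_toL_neg _ _ hn, map_zero]
  · lift n to ℕ using hn
    rw [coeff_toL_nat, coeff_toL_nat, map_intCast]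

lemma coeffMap_theta {R S : Type*} [CommRing R] [CommRing S] (φ : R →+* S) (a : LaurentSeries R) :
    coeffMap φ (theta a) = theta (coeffMap φ a) := by
  ext n
  simp

lemma coeffMap_deltaL {R S : Type*} [CommRing R] [CommRing S] (φ : R →+* S) :
    coeffMap φ (deltaL R) = deltaL S := by
  rw [deltaL, deltaL, map_mul, coeffMap_single, map_one]
  congr 1
  exact coeffMap_toL φ _

lemma coeffMap_jqModC {R S : Type*} [CommRing R] [CommRing S] (φ : R →+* S) :
    coeffMap φ (jqModC R) = jqModC S := by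
  rw [jqModC, jqModC, map_mul, coeffMap_single, map_one]
  congr 1
  exact coeffMap_toL φ _

lemma coeffMap_injective_int : Function.Injective (coeffMap (Int.castRingHom ℂ)) := by
  intro a b h
  ext n
  have := congrArg (fun x => x.coeff n) h
  simpa using this

section Complex

open UpperHalfPlane ModularForm EisensteinSeries Derivative

lemma hasExp_E2 : HasExp 1 EisensteinSeries.E2 (E2L ℂ) := by
  intro τ
  rw [E2L, toL, LSum.ofPowerSeries]
  have h := hasSum_qExpansion_E2 (z := τ)
  have h2 : ∀ n : ℕ, (if n = 0 then 1 else -24 * ArithmeticFunction.sigma 1 n : ℂ) =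
      (E2f.map (Int.castRingHom ℂ)).coeff n := by
    intro n
    simp only [E2f, PowerSeries.coeff_map, PowerSeries.coeff_mk]
    split_ifs with hn
    · simp
    · simp [ArithmeticFunction.sigma_apply]
  have h3 : Function.Periodic.qParam 1 (τ : ℂ) = Complex.exp (2 * Real.pi * Complex.I * τ) := by
    simp [Function.Periodic.qParam]
  simp only [← h2, h3]
  simpa [smul_eq_mul] using h

lemma hasExp_E₄' : HasExp 1 (E₄ : ℍ → ℂ) (E4L ℂ) := hasExp_E₄

lemma hasExp_E₆ : HasExp 1 (E₆ : ℍ → ℂ) (E6L ℂ) := by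
  intro τ
  rw [E6L, toL, LSum.ofPowerSeries]
  have h := ModularForm.hasSum_qExpansion (f := E₆) (k := 6) one_pos one_mem_strictPeriods_SL τ
  have h2 : ∀ n : ℕ, (UpperHalfPlane.qExpansion 1 E₆).coeff n =
      (E6f.map (Int.castRingHom ℂ)).coeff n := by
    intro n
    rw [E_qExpansion_coeff _ ⟨3, rfl⟩]
    simp only [E6f, PowerSeries.coeff_map, PowerSeries.coeff_mk,
      show bernoulli 6 = 1 / 42 by decide +kernel]
    split_ifs with hn
    · simp
    · simp only [ArithmeticFunction.sigma_apply]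
      push_cast
      norm_num
  simpa [h2] using h

lemma hasExp_D {f : ℍ → ℂ} {a : LaurentSeries ℂ} (ha : HasExp 1 f a) :
    HasExp 1 (normalizedDerivOfComplex f) (theta a) := by
  have := hasExp_normalizedDeriv one_pos ha
  simpa using this

lemma theta_E4L_complex : 3 * theta (E4L ℂ) = E2L ℂ * E4L ℂ - E6L ℂ := by
  have h1 := (HasExp.const (h := 1) 3).mul (hasExp_D hasExp_E₄')
  have h2 := (hasExp_E2.mul hasExp_E₄').sub hasExp_E₆
  have h3 : ((fun _ => 3 : ℍ → ℂ) * normalizedDerivOfComplex (E₄ : ℍ → ℂ)) =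
      EisensteinSeries.E2 * (E₄ : ℍ → ℂ) - (E₆ : ℍ → ℂ) := by
    ext τ
    simp only [Pi.mul_apply, Pi.sub_apply, deriv_E₄]
    ring
  rw [h3] at h1
  have h4 := HasExp.unique one_pos h1 h2
  rw [← h4]
  congr 1

lemma theta_E6L_complex : 2 * theta (E6L ℂ) = E2L ℂ * E6L ℂ - E4L ℂ ^ 2 := by
  have h1 := (HasExp.const (h := 1) 2).mul (hasExp_D hasExp_E₆)
  have h2 := (hasExp_E2.mul hasExp_E₆).sub (hasExp_E₄'.pow 2)
  have h3 : ((fun _ => 2 : ℍ → ℂ) * normalizedDerivOfComplex (E₆ : ℍ → ℂ)) =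
      EisensteinSeries.E2 * (E₆ : ℍ → ℂ) - (E₄ : ℍ → ℂ) ^ 2 := by
    ext τ
    simp only [Pi.mul_apply, Pi.sub_apply, Pi.pow_apply, deriv_E₆]
    ring
  rw [h3] at h1
  have h4 := HasExp.unique one_pos h1 h2
  rw [← h4]
  congr 1

lemma theta_deltaL_complex : theta (deltaL ℂ) = E2L ℂ * deltaL ℂ := by
  have h1 := hasExp_D hasExp_discriminant
  have h2 := hasExp_E2.mul hasExp_discriminant
  have h3 : normalizedDerivOfComplex ModularForm.discriminant =
      EisensteinSeries.E2 * ModularForm.discriminant := by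
    ext τ
    simp only [Pi.mul_apply, deriv_disc]
  rw [h3] at h1
  exact HasExp.unique one_pos h1 h2

lemma delta_complex : 1728 * deltaL ℂ = E4L ℂ ^ 3 - E6L ℂ ^ 2 := by
  have h1 := (HasExp.const (h := 1) 1728).mul hasExp_discriminant
  have h2 := (hasExp_E₄'.pow 3).sub (hasExp_E₆.pow 2)
  have h3 : ((fun _ => 1728 : ℍ → ℂ) * ModularForm.discriminant) =
      (E₄ : ℍ → ℂ) ^ 3 - (E₆ : ℍ → ℂ) ^ 2 := by
    ext τ
    simp only [Pi.mul_apply, Pi.sub_apply, Pi.pow_apply, discriminant_eq_E₄_cube_sub_E₆_sq]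
    ring
  rw [h3] at h1
  have h4 := HasExp.unique one_pos h1 h2
  rw [← h4]
  congr 1

end Complex

section General

variable (R : Type*) [CommRing R]

lemma coeffMap_E2L {R S : Type*} [CommRing R] [CommRing S] (φ : R →+* S) :
    coeffMap φ (E2L R) = E2L S := coeffMap_toL φ _

lemma coeffMap_E4L {R S : Type*} [CommRing R] [CommRing S] (φ : R →+* S) :
    coeffMap φ (E4L R) = E4L S := coeffMap_toL φ _

lemma coeffMap_E6L {R S : Type*} [CommRing R] [CommRing S] (φ : R →+* S) :
    coeffMap φ (E6L R) = E6L S := coeffMap_toL φ _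

lemma theta_E4L_int : 3 * theta (E4L ℤ) = E2L ℤ * E4L ℤ - E6L ℤ := by
  apply coeffMap_injective_int
  simp only [map_mul, map_sub, coeffMap_theta, coeffMap_E4L, coeffMap_E2L, coeffMap_E6L,
    map_ofNat]
  exact theta_E4L_complex

/-- `3 θE₄ = E₂E₄ - E₆` over any ring. -/
theorem theta_E4L : 3 * theta (E4L R) = E2L R * E4L R - E6L R := by
  have h := congrArg (coeffMap (Int.castRingHom R)) theta_E4L_int
  simpa only [map_mul, map_sub, coeffMap_theta, coeffMap_E4L, coeffMap_E2L, coeffMap_E6L,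
    map_ofNat] using h

lemma theta_E6L_int : 2 * theta (E6L ℤ) = E2L ℤ * E6L ℤ - E4L ℤ ^ 2 := by
  apply coeffMap_injective_int
  simp only [map_mul, map_sub, map_pow, coeffMap_theta, coeffMap_E4L, coeffMap_E2L, coeffMap_E6L,
    map_ofNat]
  exact theta_E6L_complex

/-- `2 θE₆ = E₂E₆ - E₄²` over any ring. -/
theorem theta_E6L : 2 * theta (E6L R) = E2L R * E6L R - E4L R ^ 2 := by
  have h := congrArg (coeffMap (Int.castRingHom R)) theta_E6L_int
  simpa only [map_mul, map_sub, map_pow, coeffMap_theta, coeffMap_E4L, coeffMap_E2L, coeffMap_E6L,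
    map_ofNat] using h

lemma theta_deltaL_int : theta (deltaL ℤ) = E2L ℤ * deltaL ℤ := by
  apply coeffMap_injective_int
  simp only [map_mul, coeffMap_theta, coeffMap_E2L, coeffMap_deltaL]
  exact theta_deltaL_complex

/-- `θΔ = E₂Δ` over any ring. -/
theorem theta_deltaL : theta (deltaL R) = E2L R * deltaL R := by
  have h := congrArg (coeffMap (Int.castRingHom R)) theta_deltaL_int
  simpa only [map_mul, coeffMap_theta, coeffMap_E2L, coeffMap_deltaL] using h

lemma delta_int : 1728 * deltaL ℤ = E4L ℤ ^ 3 - E6L ℤ ^ 2 := by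
  apply coeffMap_injective_int
  simp only [map_mul, map_sub, map_pow, coeffMap_E4L, coeffMap_E6L, coeffMap_deltaL, map_ofNat]
  exact delta_complex

/-- `1728 Δ = E₄³ - E₆²` over any ring. -/
theorem mul_deltaL : 1728 * deltaL R = E4L R ^ 3 - E6L R ^ 2 := by
  have h := congrArg (coeffMap (Int.castRingHom R)) delta_int
  simpa only [map_mul, map_sub, map_pow, coeffMap_E4L, coeffMap_E6L, coeffMap_deltaL,
    map_ofNat] using h

/-- `j Δ = E₄³` over any ring. -/
theorem jqModC_mul_deltaL : jqModC R * deltaL R = E4L R ^ 3 := by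
  have h : jqModC R = E4L R ^ 3 * deltaInvL R := by
    rw [jqModC, deltaInvL, jNum, map_mul, map_mul, map_pow, map_pow]
    simp only [E4L, toL]
    ring
  rw [h, mul_assoc, mul_comm (deltaInvL R), deltaL_mul_deltaInvL, mul_one]

/-- `(j - 1728) Δ = E₆²` over any ring. -/
theorem jqModC_sub_mul_deltaL : (jqModC R - 1728) * deltaL R = E6L R ^ 2 := by
  rw [sub_mul, jqModC_mul_deltaL, mul_deltaL]
  ring

/-- `θ(j) Δ = - E₄² E₆` over any ring. -/
theorem theta_jqModC_mul_deltaL : theta (jqModC R) * deltaL R = -(E4L R ^ 2 * E6L R) := by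
  have h1 := congrArg theta (jqModC_mul_deltaL R)
  rw [theta_mul, theta_pow, theta_deltaL] at h1
  have h2 := theta_E4L R
  have h3 := jqModC_mul_deltaL R
  push_cast at h1
  linear_combination h1 + E4L R ^ 2 * h2 - E2L R * h3

end General

end Formal

end Fermat.Agent.H61
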