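import Mathlib
import Fermat.Agent.H83Def
import Fermat.Agent.H18Int
import Fermat.Agent.H60Galois
import Fermat.Agent.H61Formal
import Fermat.Agent.H18Inst

/-!
# The residue data for the special fibre of `X₀(m)` (helper18, CARAYOL C2)
-/

set_option autoImplicit false

noncomputable section

open AlgebraicCurve ModularCurve IntermediateField

namespace Fermat.Agent.H18

/-! ### Integrality over `K[x]` inside a larger field -/

section Adjoin

variable {K F E : Type*} [Field K] [Field F] [Algebra K F] [Field E] [Algebra K E]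

theorem isIntegral_adjoin_iff (ι : F →ₐ[K] E) (x f : F) :
    IsIntegral (Algebra.adjoin K {ι x}) (ι f) ↔ IsIntegral (Algebra.adjoin K {x}) f := by
  have hmap : (Algebra.adjoin K {x}).map ι = Algebra.adjoin K {ι x} := by
    rw [AlgHom.map_adjoin, Set.image_singleton]
  constructor
  · rintro ⟨p, hp, hpf⟩
    have hlift : ∀ a : Algebra.adjoin K {ι x}, ∃ b : Algebra.adjoin K {x}, ι b = a := by
      rintro ⟨a, ha⟩
      rw [← hmap] at ha
      obtain ⟨b, hb, hba⟩ := ha
      exact ⟨⟨b, hb⟩, hba⟩
    -- the inverse ring homomorphism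
    let φ : Algebra.adjoin K {x} →+* Algebra.adjoin K {ι x} :=
      ((ι : F →+* E).comp (algebraMap (Algebra.adjoin K {x}) F)).codRestrict
        (Algebra.adjoin K {ι x}).toSubring (fun a => by
          show ι a ∈ Algebra.adjoin K {ι x}
          rw [← hmap]
          exact ⟨a, a.2, rfl⟩)
    have hφ : ∀ a : Algebra.adjoin K {x}, ((φ a : Algebra.adjoin K {ι x}) : E) = ι a := fun _ => rfl
    have hinj : Function.Injective φ := by
      intro a b hab
      apply Subtype.ext
      apply ι.injective
      have h1 := congrArg (fun z : Algebra.adjoin K {ι x} => (z : E)) hab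
      exact h1
    have hsurj : Function.Surjective φ := by
      intro a
      obtain ⟨b, hb⟩ := hlift a
      exact ⟨b, Subtype.ext ((hφ b).trans hb)⟩
    let e := RingEquiv.ofBijective φ ⟨hinj, hsurj⟩
    refine ⟨p.map (e.symm : Algebra.adjoin K {ι x} →+* Algebra.adjoin K {x}), hp.map _, ?_⟩
    apply ι.injective
    rw [map_zero, ← hpf, Polynomial.eval₂_map]
    show (ι : F →+* E) (Polynomial.eval₂ _ f p) = _
    rw [Polynomial.hom_eval₂]
    congr 1
    ext a
    show ι ((e.symm a : Algebra.adjoin K {x}) : F) = a
    have h1 := hφ (e.symm a)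
    have h2 : φ (e.symm a) = a := e.apply_symm_apply a
    rw [h2] at h1
    exact h1.symm
  · intro h
    let φ : Algebra.adjoin K {x} →+* Algebra.adjoin K {ι x} :=
      ((ι : F →+* E).comp (algebraMap (Algebra.adjoin K {x}) F)).codRestrict
        (Algebra.adjoin K {ι x}).toSubring (fun a => by
          show ι a ∈ Algebra.adjoin K {ι x}
          rw [← hmap]
          exact ⟨a, a.2, rfl⟩)
    exact h.map_of_comp_eq φ (ι : F →+* E) (RingHom.ext fun _ => rfl)

end Adjoin

section Cm

variable (k : Type*) [Field k] (m : ℕ)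

/-- The coordinate ring of the non cuspidal part of `X₀(m)` over `k`, in `k((t))`. -/
def Cm : Subalgebra k (LaurentSeries k) where
  carrier := {x | x ∈ modularFunctionFieldFullC k m ∧
    IsIntegral (Algebra.adjoin k {jqModC k}) x}
  mul_mem' := fun ha hb => ⟨mul_mem ha.1 hb.1, ha.2.mul hb.2⟩
  add_mem' := fun ha hb => ⟨add_mem ha.1 hb.1, ha.2.add hb.2⟩
  algebraMap_mem' := fun a => ⟨(modularFunctionFieldFullC k m).algebraMap_mem a, by
    have : algebraMap k (LaurentSeries k) a =
      algebraMap (Algebra.adjoin k {jqModC k}) (LaurentSeries k)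
        (algebraMap k (Algebra.adjoin k {jqModC k}) a) := rfl
    rw [this]
    exact isIntegral_algebraMap⟩

variable {k m}

theorem mem_Cm {x : LaurentSeries k} : x ∈ Cm k m ↔ x ∈ modularFunctionFieldFullC k m ∧
    IsIntegral (Algebra.adjoin k {jqModC k}) x := Iff.rfl

/-- `j` as an element of the function field. -/
def jFull (k : Type*) [Field k] (m : ℕ) : modularFunctionFieldFullC k m :=
  ⟨jqModC k, jqModC_mem_full k m⟩

theorem mem_Cm_iff {x : modularFunctionFieldFullC k m} :
    (x : LaurentSeries k) ∈ Cm k m ↔ IsIntegral (Algebra.adjoin k {jFull k m}) x := by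
  rw [mem_Cm, and_iff_right x.2]
  exact isIntegral_adjoin_iff (modularFunctionFieldFullC k m).val (jFull k m) x

theorem jqModC_mem_Cm : jqModC k ∈ Cm k m :=
  ⟨jqModC_mem_full k m, by
    have : jqModC k = algebraMap (Algebra.adjoin k {jqModC k}) (LaurentSeries k)
      ⟨jqModC k, Algebra.self_mem_adjoin_singleton k _⟩ := rfl
    rw [this]
    exact isIntegral_algebraMap⟩

end Cm

/-! ### The derivation `θ` -/

section Theta

variable (k : Type*) [Field k]

/-- derivations of the field `E` over `k` (fixes the instances). -/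
abbrev Der (k E : Type*) [Field k] [Field E] [Algebra k E] := Derivation k E E

/-- derivations of a field over a subfield, from the Leibniz rule. -/
def mkDer {k E : Type*} [Field k] [Field E] [Algebra k E] (f : E → E)
    (hadd : ∀ x y, f (x + y) = f x + f y) (hmul : ∀ x y, f (x * y) = f x * y + x * f y)
    (hk : ∀ a : k, f (algebraMap k E a) = 0) : Derivation k E E where
  toFun := f
  map_add' := hadd
  map_smul' a x := by
    rw [Algebra.smul_def, hmul, hk, zero_mul, zero_add, RingHom.id_apply, Algebra.smul_def]
  map_one_eq_zero' := by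
    have := hk 1
    rwa [map_one] at this
  leibniz' a b := by
    show f (a * b) = a • f b + b • f a
    rw [hmul, smul_eq_mul, smul_eq_mul]
    ring

@[simp] theorem mkDer_apply {k E : Type*} [Field k] [Field E] [Algebra k E] (f : E → E)
    (hadd : ∀ x y, f (x + y) = f x + f y) (hmul : ∀ x y, f (x * y) = f x * y + x * f y)
    (hk : ∀ a : k, f (algebraMap k E a) = 0) (x : E) : mkDer f hadd hmul hk x = f x := rfl

theorem theta_algebraMap (a : k) : H61.theta (algebraMap k (LaurentSeries k) a) = 0 := by
  rw [algebraMap_laurentSeries_eq_single, H61.theta_single, Int.cast_zero, zero_mul,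
    HahnSeries.single_eq_zero]

/-- `θ/θX = d/dX` as a derivation. -/
def derivX (X : LaurentSeries k) : Der k (LaurentSeries k) :=
  mkDer (fun x => H61.theta x / H61.theta X)
    (fun x y => by rw [H61.theta_add, add_div])
    (fun x y => by rw [H61.theta_mul]; ring)
    (fun a => by rw [theta_algebraMap, zero_div])

theorem derivX_apply (X x : LaurentSeries k) : derivX k X x = H61.theta x / H61.theta X := rfl

theorem derivX_self {X : LaurentSeries k} (hX : H61.theta X ≠ 0) : derivX k X X = 1 := by
  rw [derivX_apply, div_self hX]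

end Theta

/-! ### The coefficientwise Frobenius -/

section Frob

variable (k : Type*) [Field k]

/-- coefficientwise application of a field automorphism, as an automorphism of `k((t))` -/
def coeffEquiv (τ : k ≃+* k) : LaurentSeries k ≃+* LaurentSeries k where
  toFun x := coeffMap (τ : k →+* k) x
  invFun x := coeffMap (τ.symm : k →+* k) x
  left_inv x := by
    show coeffMap (τ.symm : k →+* k) (coeffMap (τ : k →+* k) x) = x
    rw [coeffMap_coeffMap,
      coeffMap_congr (g := RingHom.id k) (RingHom.ext fun a => τ.symm_apply_apply a),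
      coeffMap_id]
  right_inv x := by
    show coeffMap (τ : k →+* k) (coeffMap (τ.symm : k →+* k) x) = x
    rw [coeffMap_coeffMap,
      coeffMap_congr (g := RingHom.id k) (RingHom.ext fun a => τ.apply_symm_apply a),
      coeffMap_id]
  map_mul' x y := map_mul (coeffMap (τ : k →+* k)) _ _
  map_add' x y := map_add (coeffMap (τ : k →+* k)) _ _

theorem coeffEquiv_apply (τ : k ≃+* k) (x : LaurentSeries k) :
    coeffEquiv k τ x = coeffMap (τ : k →+* k) x := rfl

theorem coeffEquiv_symm_apply (τ : k ≃+* k) (x : LaurentSeries k) :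
    (coeffEquiv k τ).symm x = coeffMap (τ.symm : k →+* k) x := rfl

theorem isIntegral_coeffMap (τ : k →+* k) {x : LaurentSeries k}
    (hx : IsIntegral (Algebra.adjoin k {jqModC k}) x) :
    IsIntegral (Algebra.adjoin k {jqModC k}) (coeffMap τ x) := by
  have hmem : ∀ a ∈ Algebra.adjoin k {jqModC k}, coeffMap τ a ∈ Algebra.adjoin k {jqModC k} := by
    intro a ha
    induction ha using Algebra.adjoin_induction with
    | mem y hy =>
        rw [Set.mem_singleton_iff] at hy
        rw [hy, coeffMap_jqModC]
        exact Algebra.self_mem_adjoin_singleton k _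
    | algebraMap r =>
        rw [coeffMap_algebraMap]
        exact Subalgebra.algebraMap_mem _ _
    | add x y _ _ hx hy => rw [map_add]; exact add_mem hx hy
    | mul x y _ _ hx hy => rw [map_mul]; exact mul_mem hx hy
  let φ : Algebra.adjoin k {jqModC k} →+* Algebra.adjoin k {jqModC k} :=
    ((coeffMap τ).comp (algebraMap (Algebra.adjoin k {jqModC k}) (LaurentSeries k))).codRestrict
      (Algebra.adjoin k {jqModC k}).toSubring (fun a => hmem a a.2)
  exact hx.map_of_comp_eq φ (coeffMap τ) (RingHom.ext fun _ => rfl)

theorem coeffMap_mem_Cm {m : ℕ} (τ : k →+* k) {x : LaurentSeries k} (hx : x ∈ Cm k m) :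
    coeffMap τ x ∈ Cm k m :=
  ⟨H60.coeffMap_mem_fullC τ hx.1, isIntegral_coeffMap k τ hx.2⟩

theorem coeffEquiv_mem_Cm_iff {m : ℕ} (τ : k ≃+* k) {x : LaurentSeries k} :
    x ∈ Cm k m ↔ coeffEquiv k τ x ∈ Cm k m := by
  constructor
  · exact coeffMap_mem_Cm k _
  · intro h
    have := coeffMap_mem_Cm k (τ.symm : k →+* k) h
    rw [← coeffEquiv_symm_apply, RingEquiv.symm_apply_apply] at this
    exact this

end Frob

end Fermat.Agent.H18
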