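import Mathlib
import Fermat.Agent.H18ResData
import Fermat.Agent.H88Mod

/-!
# The coordinate ring of the special fibre is Dedekind (helper18, CARAYOL C2)
-/

set_option autoImplicit false

noncomputable section

open AlgebraicCurve ModularCurve IntermediateField Fermat.Agent.H94
open scoped IntermediateField.algebraAdjoinAdjoin

namespace Fermat.Agent.H18

theorem isDedekindDomain_of_ringEquiv {R S : Type*} [CommRing R] [CommRing S] (e : R ≃+* S)
    [IsDedekindDomain R] : IsDedekindDomain S := by
  have : IsDomain S := MulEquiv.isDomain R e.symm.toMulEquiv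
  have : IsNoetherianRing S := isNoetherianRing_of_ringEquiv R e
  have : Ring.DimensionLEOne S := Ring.DimensionLEOne.of_ringEquiv e.symm
  have : IsIntegrallyClosed S := IsIntegrallyClosed.of_equiv e
  have : IsDedekindRing S := { }
  infer_instance

section Residue

/-- residue fields of finitely generated algebras over an algebraically closed field. -/
theorem exists_sub_mem_of_isMaximal {k C : Type*} [Field k] [IsAlgClosed k] [CommRing C]
    [Algebra k C] [Algebra.FiniteType k C] (n : Ideal C) (hn : n.IsMaximal) (c : C) :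
    ∃ a : k, c - algebraMap k C a ∈ n := by
  let : Field (C ⧸ n) := Ideal.Quotient.field n
  have : Algebra.FiniteType k (C ⧸ n) := inferInstance
  have hfin : Module.Finite k (C ⧸ n) := finite_of_finite_type_of_isJacobsonRing k (C ⧸ n)
  obtain ⟨a, ha⟩ := (IsAlgClosed.algebraMap_bijective_of_isIntegral (k := k) (K := C ⧸ n)).2
    (Ideal.Quotient.mk n c)
  refine ⟨a, ?_⟩
  rw [← Ideal.Quotient.eq, ← ha]
  rfl

theorem finiteType_intRing {K F : Type*} [Field K] [Field F] [Algebra K F] {x : F}
    [FiniteDimensional K⟮x⟯ F] [Algebra.IsSeparable K⟮x⟯ F] (hx : Transcendental K x) :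
    Algebra.FiniteType K (IntRing K x) := by
  have h1 := finite_intRing_sep (K := K) (F := F) hx
  have h2 : Algebra.FiniteType K (Algebra.adjoin K {x}) := by
    have := Subalgebra.fg_adjoin_finset (R := K) ({x} : Finset F)
    rw [Finset.coe_singleton] at this
    exact (Subalgebra.fg_iff_finiteType _).1 this
  have h3 : Algebra.FiniteType (Algebra.adjoin K {x}) (IntRing K x) := inferInstance
  exact Algebra.FiniteType.trans h2 h3

end Residue

section Abstract

variable {K F E : Type*} [Field K] [Field F] [Algebra K F] [Field E] [Algebra K E]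
  (ι : F →ₐ[K] E) (x : F) (C : Subalgebra K E)
  (hC : ∀ y, y ∈ C ↔ ∃ f : F, ι f = y ∧ IsIntegral (Algebra.adjoin K {x}) f)

/-- the integral closure of `K[x]` and its image under an embedding -/
def intImageEquiv : IntRing K x ≃+* C :=
  RingEquiv.ofBijective
    (((ι : F →+* E).comp (algebraMap (IntRing K x) F)).codRestrict C.toSubring
      (fun b => (hC _).2 ⟨b, rfl, b.2⟩))
    ⟨fun a b h => Subtype.ext (ι.injective (congrArg (fun z : C => (z : E)) h)),
      fun y => by
        obtain ⟨f, hf, hi⟩ := (hC y).1 y.2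
        exact ⟨⟨f, hi⟩, Subtype.ext hf⟩⟩

theorem intImageEquiv_algebraMap (a : K) :
    intImageEquiv ι x C hC (algebraMap K (IntRing K x) a) = algebraMap K C a :=
  Subtype.ext (ι.commutes a)

variable [FiniteDimensional K⟮x⟯ F] [Algebra.IsSeparable K⟮x⟯ F] (hx : Transcendental K x)

include hC hx in
theorem isDedekindDomain_intImage : IsDedekindDomain C := by
  have := isDedekindDomain_intRing_sep hx
  exact isDedekindDomain_of_ringEquiv (intImageEquiv ι x C hC)

include hC hx in
theorem res_surj_intImage [IsAlgClosed K] (n : Ideal C) (hn : n.IsMaximal) (c : C) :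
    ∃ a : K, c - algebraMap K C a ∈ n := by
  have := finiteType_intRing hx
  have hmax : (n.comap (intImageEquiv ι x C hC : IntRing K x →+* C)).IsMaximal :=
    Ideal.comap_isMaximal_of_surjective (intImageEquiv ι x C hC : IntRing K x →+* C)
      (intImageEquiv ι x C hC).surjective
  obtain ⟨a, ha⟩ := exists_sub_mem_of_isMaximal (k := K) _ hmax
    ((intImageEquiv ι x C hC).symm c)
  refine ⟨a, ?_⟩
  rw [Ideal.mem_comap, map_sub] at ha
  change (intImageEquiv ι x C hC) ((intImageEquiv ι x C hC).symm c) -
    (intImageEquiv ι x C hC) (algebraMap K (IntRing K x) a) ∈ n at ha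
  rwa [intImageEquiv_algebraMap, RingEquiv.apply_symm_apply] at ha

end Abstract

section IF

/-- separability over `k(j)` of the function field generated by Laurent series. -/
theorem cm_aux {k : Type*} [Field k] [IsAlgClosed k] (F : IntermediateField k (LaurentSeries k))
    (hj : jqModC k ∈ F) (m : ℕ) (hm : (m : k) ≠ 0) (hF : F = modularFunctionFieldFullC k m)
    (hFF : FunField k F) :
    FiniteDimensional k⟮(⟨jqModC k, hj⟩ : F)⟯ F ∧ Algebra.IsSeparable k⟮(⟨jqModC k, hj⟩ : F)⟯ F ∧
      Transcendental k (⟨jqModC k, hj⟩ : F) := by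
  have htr : Transcendental k (⟨jqModC k, hj⟩ : F) := by
    intro h1
    exact H42.transcendental_jqModC k (h1.algHom F.val)
  have : H3RR.IsFF k F := inferInstance
  exact ⟨FunField.finiteDimensional htr,
    H88.isSeparable_of_hasLead F one_ne_zero htr H66.HasLead.jqModC, htr⟩

theorem cm_mem_aux {k : Type*} [Field k] (F : IntermediateField k (LaurentSeries k))
    (hj : jqModC k ∈ F) (m : ℕ) (hF : F = modularFunctionFieldFullC k m) (y : LaurentSeries k) :
    y ∈ Cm k m ↔ ∃ f : F, F.val f = y ∧
      IsIntegral (Algebra.adjoin k {(⟨jqModC k, hj⟩ : F)}) f := by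
  rw [mem_Cm, ← hF]
  constructor
  · rintro ⟨h1, h2⟩
    exact ⟨⟨y, h1⟩, rfl, (isIntegral_adjoin_iff F.val ⟨jqModC k, hj⟩ ⟨y, h1⟩).1 h2⟩
  · rintro ⟨f, rfl, h2⟩
    exact ⟨f.2, (isIntegral_adjoin_iff F.val ⟨jqModC k, hj⟩ f).2 h2⟩

theorem cm_main_aux {k : Type*} [Field k] [IsAlgClosed k]
    (F : IntermediateField k (LaurentSeries k))
    (hj : jqModC k ∈ F) (m : ℕ) (hm : (m : k) ≠ 0) (hF : F = modularFunctionFieldFullC k m)
    (hFF : FunField k F) :
    IsDedekindDomain (Cm k m) ∧ ∀ n : Ideal (Cm k m), n.IsMaximal → ∀ c : Cm k m,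
      ∃ a : k, c - algebraMap k (Cm k m) a ∈ n := by
  obtain ⟨h1, h2, h3⟩ := cm_aux F hj m hm hF hFF
  exact ⟨isDedekindDomain_intImage F.val ⟨jqModC k, hj⟩ (Cm k m) (cm_mem_aux F hj m hF) h3,
    res_surj_intImage F.val ⟨jqModC k, hj⟩ (Cm k m) (cm_mem_aux F hj m hF) h3⟩

end IF

section Cm

variable (k : Type*) [Field k] [IsAlgClosed k] (m : ℕ) (hm : (m : k) ≠ 0)

include hm in
theorem funField_Cm : FunField k (modularFunctionFieldFullC k m) := by
  apply H42.funField_full
  have h := H66.relfinrank_full_of_hasRoots (H66.hasRoots_of_isAlgClosed k) m hm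
  rw [h.1]
  exact h.2

include hm in
theorem isDedekindDomain_Cm : IsDedekindDomain (Cm k m) :=
  (cm_main_aux (modularFunctionFieldFullC k m) (jqModC_mem_full k m) m hm rfl
    (funField_Cm k m hm)).1

include hm in
theorem res_surj_Cm (n : Ideal (Cm k m)) (hn : n.IsMaximal) (c : Cm k m) :
    ∃ a : k, c - algebraMap k (Cm k m) a ∈ n :=
  (cm_main_aux (modularFunctionFieldFullC k m) (jqModC_mem_full k m) m hm rfl
    (funField_Cm k m hm)).2 n hn c

end Cm

end Fermat.Agent.H18
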