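import Mathlib
import Fermat.Agent.H18Dedekind
import Fermat.Agent.H42RedInputs

/-!
# `d/dX` and reduction (helper18, CARAYOL C2)
-/

set_option autoImplicit false

noncomputable section

open AlgebraicCurve ModularCurve IntermediateField

namespace Fermat.Agent.H18

theorem coeffMap_theta {R S : Type*} [CommRing R] [CommRing S] (f : R →+* S)
    (x : LaurentSeries R) : coeffMap f (H61.theta x) = H61.theta (coeffMap f x) := by
  ext n
  simp

section Std

variable {L : Type*} [Field L] {A : ValuationSubring L} {k : Type*} [Field k]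
  {π : A →+* k}
  {F : IntermediateField L (LaurentSeries L)} {Fk : IntermediateField k (LaurentSeries k)}

/-- reduction data given by coefficientwise reduction of Laurent series. -/
structure IsStd (R : H42.RedRing F Fk A π) : Prop where
  mem : ∀ y : LaurentSeries A, ∀ hy : coeffMap A.subtype y ∈ F,
    (⟨coeffMap A.subtype y, hy⟩ : F) ∈ R.B
  exists_eq : ∀ f : R.B, ∃ y : LaurentSeries A, coeffMap A.subtype y = ((f : F) : LaurentSeries L)
  ρ : ∀ (y : LaurentSeries A) (hy : coeffMap A.subtype y ∈ F) (h : (⟨_, hy⟩ : F) ∈ R.B),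
    ((R.ρ ⟨⟨coeffMap A.subtype y, hy⟩, h⟩ : Fk) : LaurentSeries k) = coeffMap π y

variable {R : H42.RedRing F Fk A π} (hR : IsStd R)

include hR in
theorem IsStd.ρ' (f : R.B) {y : LaurentSeries A}
    (hy : coeffMap A.subtype y = ((f : F) : LaurentSeries L)) :
    ((R.ρ f : Fk) : LaurentSeries k) = coeffMap π y := by
  obtain ⟨⟨f, hf⟩, hfB⟩ := f
  change coeffMap A.subtype y = f at hy
  subst hy
  exact hR.ρ y hf hfB

include hR in
set_option maxHeartbeats 1000000 in
/-- **`d/dX` commutes with reduction.** -/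
theorem IsStd.exists_der {XA : LaurentSeries A} {u : LaurentSeries A}
    (hu : u * H61.theta XA = 1)
    (hF : ∀ f ∈ F, H61.theta f / H61.theta (coeffMap A.subtype XA) ∈ F) (f : R.loc) :
    ∃ g : R.loc, ((g : F) : LaurentSeries L) =
        H61.theta ((f : F) : LaurentSeries L) / H61.theta (coeffMap A.subtype XA) ∧
      ((R.res g : Fk) : LaurentSeries k) =
        H61.theta ((R.res f : Fk) : LaurentSeries k) / H61.theta (coeffMap π XA) := by
  have huL : coeffMap A.subtype u * H61.theta (coeffMap A.subtype XA) = 1 := by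
    rw [← coeffMap_theta, ← map_mul, hu, map_one]
  have huk : coeffMap π u * H61.theta (coeffMap π XA) = 1 := by
    rw [← coeffMap_theta, ← map_mul, hu, map_one]
  set tL := H61.theta (coeffMap A.subtype XA) with htL
  set tk := H61.theta (coeffMap π XA) with htk
  have htL0 : tL ≠ 0 := right_ne_zero_of_mul_eq_one huL
  have htk0 : tk ≠ 0 := right_ne_zero_of_mul_eq_one huk
  have huL' : coeffMap A.subtype u = tL⁻¹ := eq_inv_of_mul_eq_one_left huL
  have huk' : coeffMap π u = tk⁻¹ := eq_inv_of_mul_eq_one_left huk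
  -- derivative on `B`
  have key : ∀ b : R.B, ∃ d : R.B, ((d : F) : LaurentSeries L) =
        H61.theta ((b : F) : LaurentSeries L) / tL ∧
      ((R.ρ d : Fk) : LaurentSeries k) = H61.theta ((R.ρ b : Fk) : LaurentSeries k) / tk := by
    intro b
    obtain ⟨y, hy⟩ := hR.exists_eq b
    have h1 : coeffMap A.subtype (u * H61.theta y) =
        H61.theta ((b : F) : LaurentSeries L) / tL := by
      rw [map_mul, huL', coeffMap_theta, hy, div_eq_inv_mul]
    have hmem : coeffMap A.subtype (u * H61.theta y) ∈ F := by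
      rw [h1]
      exact hF _ (b : F).2
    refine ⟨⟨⟨_, hmem⟩, hR.mem _ hmem⟩, h1, ?_⟩
    rw [hR.ρ, map_mul, huk', coeffMap_theta, hR.ρ' b hy, div_eq_inv_mul]
  obtain ⟨f, y, z, hz, hf⟩ := f
  obtain ⟨dy, hdy, hdy'⟩ := key y
  obtain ⟨dz, hdz, hdz'⟩ := key z
  have hfL : (f : LaurentSeries L) * ((z : F) : LaurentSeries L) = ((y : F) : LaurentSeries L) :=
    congrArg (fun w : F => (w : LaurentSeries L)) hf
  have hz0 : ((z : F) : LaurentSeries L) ≠ 0 := by
    intro h0
    have : z = 0 := Subtype.ext (Subtype.ext h0)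
    exact hz (by rw [this, map_zero])
  let g : F := ⟨H61.theta (f : LaurentSeries L) / tL, hF _ f.2⟩
  have hg : g * ((z * z : R.B) : F) = ((dy * z - y * dz : R.B) : F) := by
    apply Subtype.ext
    show H61.theta (f : LaurentSeries L) / tL * (((z : F) : LaurentSeries L) *
      ((z : F) : LaurentSeries L)) = ((dy : F) : LaurentSeries L) * ((z : F) : LaurentSeries L) -
      ((y : F) : LaurentSeries L) * ((dz : F) : LaurentSeries L)
    rw [hdy, hdz, ← hfL, H61.theta_mul]
    field_simp
    ring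
  have hzz : R.ρ (z * z) ≠ 0 := by
    rw [map_mul]
    exact mul_ne_zero hz hz
  refine ⟨⟨g, dy * z - y * dz, z * z, hzz, hg⟩, rfl, ?_⟩
  have e1 : R.res ⟨g, dy * z - y * dz, z * z, hzz, hg⟩ * R.ρ (z * z) = R.ρ (dy * z - y * dz) :=
    R.res_mul_eq _ hzz hg
  have e2 : R.res ⟨f, y, z, hz, hf⟩ * R.ρ z = R.ρ y := R.res_mul_eq _ hz hf
  set rg := R.res ⟨g, dy * z - y * dz, z * z, hzz, hg⟩
  set rf := R.res ⟨f, y, z, hz, hf⟩
  have hzk : ((R.ρ z : Fk) : LaurentSeries k) ≠ 0 := fun h0 => hz (Subtype.ext h0)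
  have e2' : (rf : LaurentSeries k) * ((R.ρ z : Fk) : LaurentSeries k) =
      ((R.ρ y : Fk) : LaurentSeries k) := congrArg (fun w : Fk => (w : LaurentSeries k)) e2
  have e1' : (rg : LaurentSeries k) * (((R.ρ z : Fk) : LaurentSeries k) *
      ((R.ρ z : Fk) : LaurentSeries k)) =
      ((R.ρ dy : Fk) : LaurentSeries k) * ((R.ρ z : Fk) : LaurentSeries k) -
      ((R.ρ y : Fk) : LaurentSeries k) * ((R.ρ dz : Fk) : LaurentSeries k) := by
    rw [map_sub, map_mul, map_mul, map_mul] at e1
    exact congrArg (fun w : Fk => (w : LaurentSeries k)) e1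
  rw [hdy', hdz', ← e2', H61.theta_mul] at e1'
  apply mul_right_cancel₀ (mul_ne_zero hzk hzk)
  rw [e1']
  field_simp
  ring

end Std

section Mod

variable {L : Type*} [Field L] [Algebra ℚ L] (A : ValuationSubring L) {k : Type*} [Field k]
  (π : A →+* k) (N : ℕ) (hπ : Function.Surjective π) (hdeg : H42.DegLE L k N)

theorem isStd_modGauss : IsStd (H42.modGauss A π N hπ hdeg).toRedRing where
  mem y hy := ⟨y, rfl⟩
  exists_eq f := f.2
  ρ y hy _ := H42.coe_modGauss_ρ A π N hπ hdeg y hy

end Mod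

end Fermat.Agent.H18
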