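import Mathlib
import Fermat.Agent.H18DerLift
import Fermat.Agent.H88GenusEq

/-!
# Lifting integral functions (helper18, CARAYOL C2)
-/

set_option autoImplicit false

noncomputable section

open AlgebraicCurve ModularCurve IntermediateField Fermat.Agent.H3RR Fermat.Agent.H94
open scoped IntermediateField.algebraAdjoinAdjoin

namespace Fermat.Agent.H18

section Abstract

variable {K F k E : Type*} [Field K] [Field F] [Algebra K F] [Field k] [Field E] [Algebra k E]
  [IsAlgClosed K] [IsAlgClosed k] [FunField K F] [FunField k E] (R : H40.ReductionData K F k E)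
  [CharZero K] (x : R.B) (hx : Transcendental k (R.ρ x))
  (hdeg : Module.finrank K⟮(x : F)⟯ F = Module.finrank k⟮R.ρ x⟯ E)
  (hsep : Algebra.IsSeparable k⟮R.ρ x⟯ E)

include hx hdeg hsep

/-- the reduction of an integral function is integral -/
theorem isIntegral_ρ {b : R.B} (hb : IsIntegral (Algebra.adjoin K {(x : F)}) (b : F)) :
    IsIntegral (Algebra.adjoin k {R.ρ x}) (R.ρ b) := by
  have hxK := R.transcendental_of_ρ hx
  have := FunField.finiteDimensional hxK
  have := FunField.finiteDimensional hx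
  have := isSeparable_adjoin (K := K) (x := (x : F))
  rw [isIntegral_iff_mem_aff hx]
  rw [isIntegral_iff_mem_aff hxK] at hb
  exact H88.ρ_mem_aff R hx hdeg hb

/-- **lifting of integral functions** -/
theorem exists_lift_isIntegral (hg : genusFF K F = genusFF k E) {e : E}
    (he : IsIntegral (Algebra.adjoin k {R.ρ x}) e) :
    ∃ b : R.B, R.ρ b = e ∧ IsIntegral (Algebra.adjoin K {(x : F)}) (b : F) := by
  have hxK := R.transcendental_of_ρ hx
  have := FunField.finiteDimensional hxK
  have := FunField.finiteDimensional hx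
  have := isSeparable_adjoin (K := K) (x := (x : F))
  rw [isIntegral_iff_mem_aff hx] at he
  obtain ⟨b, hb, hb'⟩ := H88.exists_lift R hx hdeg hg he
  exact ⟨b, hb, (isIntegral_iff_mem_aff hxK).2 hb'⟩

/-- a derivation preserving integral functions upstairs preserves them downstairs -/
theorem isIntegral_der (hg : genusFF K F = genusFF k E) (D : F → F) (D' : E → E)
    (hD : ∀ b : R.B, ∃ g : R.B, (g : F) = D b ∧ R.ρ g = D' (R.ρ b))
    (hint : ∀ f, IsIntegral (Algebra.adjoin K {(x : F)}) f →
      IsIntegral (Algebra.adjoin K {(x : F)}) (D f)) {e : E}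
    (he : IsIntegral (Algebra.adjoin k {R.ρ x}) e) :
    IsIntegral (Algebra.adjoin k {R.ρ x}) (D' e) := by
  obtain ⟨b, rfl, hb⟩ := exists_lift_isIntegral R x hx hdeg hsep hg he
  obtain ⟨g, hg1, hg2⟩ := hD b
  rw [← hg2]
  apply isIntegral_ρ R x hx hdeg hsep
  rw [hg1]
  exact hint _ hb

end Abstract

section IF

variable {L : Type*} [Field L] {k : Type*} [Field k]
  {F : IntermediateField L (LaurentSeries L)} {Fk : IntermediateField k (LaurentSeries k)}
  [IsAlgClosed L] [IsAlgClosed k] [CharZero L] [FunField L F] [FunField k Fk]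
  (R : H40.ReductionData L F k Fk) (x : R.B) (hjL : jqModC L ∈ F) (hjk : jqModC k ∈ Fk)
  (hxL : (x : F) = ⟨jqModC L, hjL⟩) (hxk : R.ρ x = ⟨jqModC k, hjk⟩)
  (m : ℕ) (hFk : Fk = modularFunctionFieldFullC k m)
  (hdeg : Module.finrank L⟮(x : F)⟯ F = Module.finrank k⟮R.ρ x⟯ Fk)
  (hg : genusFF L F = genusFF k Fk)

include hxk in
theorem transcendental_ρ_aux : Transcendental k (R.ρ x) := by
  rw [hxk]
  intro h1
  exact H42.transcendental_jqModC k (h1.algHom Fk.val)

include hxk in
theorem isSeparable_ρ_aux : Algebra.IsSeparable k⟮R.ρ x⟯ Fk := by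
  have := transcendental_ρ_aux R x hjk hxk
  rw [hxk] at this ⊢
  exact H88.isSeparable_of_hasLead Fk one_ne_zero this H66.HasLead.jqModC

include hxL hxk hFk hdeg hg in
theorem lift_aux {c : LaurentSeries k} (hc : c ∈ Cm k m) :
    ∃ b : R.B, ((R.ρ b : Fk) : LaurentSeries k) = c ∧
      IsIntegral (Algebra.adjoin L {jqModC L}) ((b : F) : LaurentSeries L) := by
  have hcF : c ∈ Fk := by rw [hFk]; exact hc.1
  have h1 : IsIntegral (Algebra.adjoin k {R.ρ x}) (⟨c, hcF⟩ : Fk) := by
    rw [hxk]
    exact (isIntegral_adjoin_iff Fk.val ⟨jqModC k, hjk⟩ ⟨c, hcF⟩).1 hc.2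
  obtain ⟨b, hb, hb'⟩ := exists_lift_isIntegral R x (transcendental_ρ_aux R x hjk hxk) hdeg
    (isSeparable_ρ_aux R x hjk hxk) hg h1
  refine ⟨b, by rw [hb], ?_⟩
  rw [hxL] at hb'
  exact (isIntegral_adjoin_iff F.val ⟨jqModC L, hjL⟩ (b : F)).2 hb'

include hxL hxk hFk hdeg in
theorem ρ_mem_Cm_aux {b : R.B}
    (hb : IsIntegral (Algebra.adjoin L {jqModC L}) ((b : F) : LaurentSeries L)) :
    ((R.ρ b : Fk) : LaurentSeries k) ∈ Cm k m := by
  refine ⟨by rw [← hFk]; exact (R.ρ b).2, ?_⟩
  have h1 : IsIntegral (Algebra.adjoin L {(x : F)}) (b : F) := by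
    rw [hxL]
    exact (isIntegral_adjoin_iff F.val ⟨jqModC L, hjL⟩ (b : F)).1 hb
  have h2 := isIntegral_ρ R x (transcendental_ρ_aux R x hjk hxk) hdeg
    (isSeparable_ρ_aux R x hjk hxk) h1
  rw [hxk] at h2
  exact (isIntegral_adjoin_iff Fk.val ⟨jqModC k, hjk⟩ (R.ρ b)).2 h2

end IF

section Mod

variable {L : Type*} [Field L] [Algebra ℚ L] [IsAlgClosed L] (A : ValuationSubring L)
  {k : Type*} [Field k] [IsAlgClosed k] (π : A →+* k) [IsLocalHom π] (m : ℕ)
  (hπ : Function.Surjective π) (hdeg : H42.DegLE L k m) (hm : (m : k) ≠ 0)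

/-- The valuation ring (Gauss valuation) of the function field of level `m`. -/
abbrev Vm : Subring (laurentBaseChange L (modularFunctionFieldFull m)) :=
  (H42.modReductionData A π m hπ hdeg).B

include hm in
theorem lift_Cm (hg : GenusFFEq L k m) {c : LaurentSeries k} (hc : c ∈ Cm k m) :
    ∃ b : (H42.modReductionData A π m hπ hdeg).B,
      (((H42.modReductionData A π m hπ hdeg).ρ b : modularFunctionFieldFullC k m) :
        LaurentSeries k) = c ∧
      IsIntegral (Algebra.adjoin L {jqModC L})
        ((b : laurentBaseChange L (modularFunctionFieldFull m)) : LaurentSeries L) := by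
  have : CharZero L := algebraRat.charZero L
  have hm0 : m ≠ 0 := by rintro rfl; exact hm Nat.cast_zero
  have i1 := H42.funField_left (L := L) (k := k) m hdeg
  have i2 := H42.funField_right (L := L) (k := k) m hdeg
  have hjL : jqModC L ∈ laurentBaseChange L (modularFunctionFieldFull m) := by
    rw [H42.laurentBaseChange_full]; exact jqModC_mem_full L m
  obtain ⟨x, hx1, hx2⟩ := H88.exists_j A π hπ hdeg hjL
  have d1 := H88.finrank_j L m _ (H42.laurentBaseChange_full L m) hjL (Nat.cast_ne_zero.mpr hm0)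
  have d3 := H88.finrank_j k m _ rfl (jqModC_mem_full k m) hm
  refine lift_aux (H42.modReductionData A π m hπ hdeg) x hjL (jqModC_mem_full k m) hx1 hx2 m rfl
    ?_ hg hc
  rw [hx1, hx2]
  exact d1.1.trans d3.1.symm

include hm in
theorem res_mem_Cm {b : (H42.modReductionData A π m hπ hdeg).B}
    (hb : IsIntegral (Algebra.adjoin L {jqModC L})
      ((b : laurentBaseChange L (modularFunctionFieldFull m)) : LaurentSeries L)) :
    (((H42.modReductionData A π m hπ hdeg).ρ b : modularFunctionFieldFullC k m) :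
        LaurentSeries k) ∈ Cm k m := by
  have : CharZero L := algebraRat.charZero L
  have hm0 : m ≠ 0 := by rintro rfl; exact hm Nat.cast_zero
  have i1 := H42.funField_left (L := L) (k := k) m hdeg
  have i2 := H42.funField_right (L := L) (k := k) m hdeg
  have hjL : jqModC L ∈ laurentBaseChange L (modularFunctionFieldFull m) := by
    rw [H42.laurentBaseChange_full]; exact jqModC_mem_full L m
  obtain ⟨x, hx1, hx2⟩ := H88.exists_j A π hπ hdeg hjL
  have d1 := H88.finrank_j L m _ (H42.laurentBaseChange_full L m) hjL (Nat.cast_ne_zero.mpr hm0)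
  have d3 := H88.finrank_j k m _ rfl (jqModC_mem_full k m) hm
  refine ρ_mem_Cm_aux (H42.modReductionData A π m hπ hdeg) x hjL (jqModC_mem_full k m) hx1 hx2 m
    rfl ?_ hb
  rw [hx1, hx2]
  exact d1.1.trans d3.1.symm

include hm hdeg hπ in
/-- **`d/dX` preserves the coordinate ring of the special fibre.** -/
theorem derX_mem_Cm (hg : GenusFFEq L k m) {XA u : LaurentSeries A} (hu : u * H61.theta XA = 1)
    (hF : ∀ f ∈ laurentBaseChange L (modularFunctionFieldFull m),
      H61.theta f / H61.theta (coeffMap A.subtype XA) ∈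
        laurentBaseChange L (modularFunctionFieldFull m))
    (hint : ∀ f ∈ laurentBaseChange L (modularFunctionFieldFull m),
      IsIntegral (Algebra.adjoin L {jqModC L}) f →
      IsIntegral (Algebra.adjoin L {jqModC L})
        (H61.theta f / H61.theta (coeffMap A.subtype XA)))
    {c : LaurentSeries k} (hc : c ∈ Cm k m) :
    H61.theta c / H61.theta (coeffMap π XA) ∈ Cm k m := by
  obtain ⟨b, rfl, hb⟩ := lift_Cm A π m hπ hdeg hm hg hc
  obtain ⟨g, hg1, hg2⟩ := (isStd_modGauss A π m hπ hdeg).exists_der hu hF b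
  have h1 := hint _ (b : laurentBaseChange L (modularFunctionFieldFull m)).2 hb
  rw [← hg1] at h1
  have h2 := res_mem_Cm A π m hπ hdeg hm (b := g) h1
  exact (congrArg (fun z => z ∈ Cm k m) hg2).mp h2

end Mod

end Fermat.Agent.H18
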