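import Mathlib
import Fermat.Agent.H18Lift
import Fermat.Agent.H18BaseDeg

/-!
# Lifting integral functions over subfields (helper18, CARAYOL C2)
-/

set_option autoImplicit false

noncomputable section

open AlgebraicCurve ModularCurve IntermediateField Fermat.Agent.H3RR Fermat.Agent.H94
open scoped IntermediateField.algebraAdjoinAdjoin

namespace Fermat.Agent.H18

/-! ### Galois descent for finite dimensional spaces with coordinates -/

/-- Galois descent: a finite-dimensional space with coordinates which is stable under `Aut(L/K)`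
is spanned by its `K`-rational elements. -/
theorem descent_gen {K L : Type*} [Field K] [Field L] [Algebra K L]
    (hfix : ∀ z : L, (∀ σ : L ≃ₐ[K] L, σ z = z) → ∃ a : K, algebraMap K L a = z)
    {W : Type*} [AddCommGroup W] [Module L W] [FiniteDimensional L W]
    {ι : Type*} (c : ι → W →ₗ[L] L) (hc : ∀ w, (∀ i, c i w = 0) → w = 0)
    (hσ : ∀ (σ : L ≃ₐ[K] L) (w : W), ∃ w' : W, ∀ i, c i w' = σ (c i w)) :
    Submodule.span L {w : W | ∀ i, ∃ a : K, algebraMap K L a = c i w} = ⊤ := by
  classical
  have hspan : Submodule.span L (Set.range c) = ⊤ := by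
    have h0 : (Submodule.span L (Set.range c)).dualCoannihilator = ⊥ := by
      rw [eq_bot_iff]
      intro w hw
      rw [← SetLike.mem_coe, Submodule.coe_dualCoannihilator_span] at hw
      exact hc w fun i => hw (c i) ⟨i, rfl⟩
    have h := Subspace.dualCoannihilator_dualAnnihilator_eq
      (W := (Submodule.span L (Set.range c) : Submodule L (Module.Dual L W)))
    rw [h0, Submodule.dualAnnihilator_bot] at h
    exact h.symm
  obtain ⟨κ, a, ha, hsp, hli⟩ := exists_linearIndependent' L c
  let b : Module.Basis κ L (Module.Dual L W) := Module.Basis.mk hli (by rw [hsp, hspan])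
  have : Finite κ := Module.Finite.finite_basis b
  let b' : Module.Basis κ L W := b.dualBasis.map (Module.evalEquiv L W).symm
  have hb : ∀ i, b i = c (a i) := fun i => by simp [b]
  have hb' : ∀ i j, c (a i) (b' j) = if i = j then 1 else 0 := by
    intro i j
    rw [← hb, ← Module.Basis.dualBasis_apply_self b j i, Module.Basis.map_apply]
    exact Module.apply_evalEquiv_symm_apply L W (b i) (b.dualBasis j)
  have hinj : ∀ w w' : W, (∀ i : κ, c (a i) w = c (a i) w') → w = w' := by
    intro w w' h
    rw [← sub_eq_zero, ← Module.forall_dual_apply_eq_zero_iff L]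
    intro φ
    have hφ : φ ∈ Submodule.span L (Set.range b) := by rw [b.span_eq]; trivial
    refine Submodule.span_induction (p := fun φ _ => φ (w - w') = 0) ?_ ?_ ?_ ?_ hφ
    · rintro _ ⟨i, rfl⟩
      rw [hb, map_sub, h i, sub_self]
    · simp
    · intro x y _ _ hx hy
      rw [LinearMap.add_apply, hx, hy, add_zero]
    · intro r x _ hx
      rw [LinearMap.smul_apply, hx, smul_zero]
  rw [eq_top_iff, ← b'.span_eq]
  apply Submodule.span_mono
  rintro _ ⟨j, rfl⟩ i
  apply hfix
  intro σ
  obtain ⟨w', hw'⟩ := hσ σ (b' j)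
  have : w' = b' j := by
    apply hinj
    intro i
    rw [hw', hb']
    split_ifs <;> simp
  rw [← hw' i, this]

theorem exists_linearIndependent_of_span {L W : Type*} [Field L] [AddCommGroup W] [Module L W]
    [FiniteDimensional L W] {S : Set W} (hS : Submodule.span L S = ⊤) :
    ∃ f : Fin (Module.finrank L W) → W, (∀ i, f i ∈ S) ∧ LinearIndependent L f := by
  obtain ⟨f, hf1, hf2, hf3⟩ := Submodule.exists_fun_fin_finrank_span_eq L S
  have h : Module.finrank L (Submodule.span L S) = Module.finrank L W := by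
    rw [hS, finrank_top]
  exact ⟨f ∘ Fin.cast h.symm, fun i => hf1 _, hf3.comp _ (Fin.cast_injective _)⟩

/-! ### The spaces `L(m (x)_∞)` and integrality -/

section Pole

variable {K F : Type*} [Field K] [Field F] [Algebra K F] [IsAlgClosed K] [CharZero K]
  [FunField K F]

theorem mem_L_pole_iff_isIntegral {x : F} (hx : Transcendental K x) (m : ℕ) (f : F) :
    f ∈ riemannRochSpace (m • (poleDiv x : Divisor K F)) ↔
      IsIntegral (Algebra.adjoin K {x}) f ∧ IsIntegral (Algebra.adjoin K {x⁻¹}) (f * x⁻¹ ^ m) := by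
  have hx0 : x ≠ 0 := by
    rintro rfl
    exact hx isAlgebraic_zero
  have hx' : Transcendental K x⁻¹ := fun h => hx (by simpa using h.inv)
  have := FunField.finiteDimensional hx
  have := FunField.finiteDimensional hx'
  have := isSeparable_adjoin (K := K) (x := x)
  have := isSeparable_adjoin (K := K) (x := x⁻¹)
  rw [H88.mem_L_pole hx0, isIntegral_iff_mem_aff hx, isIntegral_iff_mem_aff hx', H88.mem_aff,
    H88.mem_aff]
  have hinv : ∀ v : Place K F, v.adicValuation x⁻¹ = (v.adicValuation x)⁻¹ := fun v => map_inv₀ _ _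
  have hpos : ∀ v : Place K F, 0 < v.adicValuation x := fun v => by
    rw [zero_lt_iff]
    exact (Valuation.ne_zero_iff _).mpr hx0
  constructor
  · intro h
    constructor
    · intro v hv
      have := h v
      rwa [max_eq_left hv, one_pow] at this
    · intro v hv
      rw [hinv, inv_le_one₀ (hpos v)] at hv
      have := h v
      rw [max_eq_right hv] at this
      rw [map_mul, map_pow, hinv, inv_pow]
      exact mul_inv_le_one_of_le₀ this zero_le
  · rintro ⟨h1, h2⟩ v
    rcases le_or_gt (v.adicValuation x) 1 with h | h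
    · rw [max_eq_left h, one_pow]
      exact h1 v h
    · rw [max_eq_right h.le]
      have h3 := h2 v (by rw [hinv, inv_le_one₀ (hpos v)]; exact h.le)
      rw [map_mul, map_pow, hinv, inv_pow, ← div_eq_mul_inv, div_le_one₀ (pow_pos (hpos v) m)] at h3
      exact h3

end Pole

/-! ### Rational bases -/

section Rational

variable {K L : Type*} [Field K] [Field L] [Algebra K L]

theorem isIntegral_coeffMap_of_eq {k : Type*} [Field k] (τ : k →+* k) {y x : LaurentSeries k}
    (hy : coeffMap τ y = y) (hx : IsIntegral (Algebra.adjoin k {y}) x) :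
    IsIntegral (Algebra.adjoin k {y}) (coeffMap τ x) := by
  have hmem : ∀ a ∈ Algebra.adjoin k {y}, coeffMap τ a ∈ Algebra.adjoin k {y} := by
    intro a ha
    induction ha using Algebra.adjoin_induction with
    | mem z hz =>
        rw [Set.mem_singleton_iff] at hz
        rw [hz, hy]
        exact Algebra.self_mem_adjoin_singleton k _
    | algebraMap r =>
        rw [coeffMap_algebraMap]
        exact Subalgebra.algebraMap_mem _ _
    | add x y _ _ hx hy => rw [map_add]; exact add_mem hx hy
    | mul x y _ _ hx hy => rw [map_mul]; exact mul_mem hx hy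
  let φ : Algebra.adjoin k {y} →+* Algebra.adjoin k {y} :=
    ((coeffMap τ).comp (algebraMap (Algebra.adjoin k {y}) (LaurentSeries k))).codRestrict
      (Algebra.adjoin k {y}).toSubring (fun a => hmem a a.2)
  exact hx.map_of_comp_eq φ (coeffMap τ) (RingHom.ext fun _ => rfl)

/-- integrality inside an intermediate field of Laurent series, applied to a coefficient map -/
theorem isIntegral_coeffMap_sub {F : IntermediateField L (LaurentSeries L)} (τ : L →+* L)
    (hF : ∀ f ∈ F, coeffMap τ f ∈ F) {y x : F} (hy : coeffMap τ (y : LaurentSeries L) = y)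
    (hx : IsIntegral (Algebra.adjoin L {y}) x) :
    IsIntegral (Algebra.adjoin L {y}) (⟨coeffMap τ x, hF _ x.2⟩ : F) := by
  have h1 := (isIntegral_adjoin_iff F.val y x).2 hx
  exact (isIntegral_adjoin_iff F.val y ⟨coeffMap τ x, hF _ x.2⟩).1
    (isIntegral_coeffMap_of_eq τ hy h1)

theorem linearIndependent_of_ringHom {FK FL : Type*} [Field FK] [Field FL] [Algebra K FK]
    [Algebra L FL] (ε : FK →+* FL) (hε : ∀ a : K, ε (algebraMap K FK a) =
      algebraMap L FL (algebraMap K L a)) {ι : Type*} [Fintype ι] (g : ι → FK)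
    (hf : LinearIndependent L (fun i => ε (g i))) : LinearIndependent K g := by
  rw [Fintype.linearIndependent_iff] at hf ⊢
  intro c hc i
  have h2 := congrArg ε hc
  rw [map_sum, map_zero] at h2
  have h3 := hf (fun i => algebraMap K L (c i)) (by
    rw [← h2]
    refine Finset.sum_congr rfl fun i _ => ?_
    rw [Algebra.smul_def, Algebra.smul_def, map_mul, hε]) i
  exact (algebraMap K L).injective (by rw [h3, map_zero])

/-- coefficient of a Laurent series, as a functional on a subspace -/
def coeffFunctional {F : IntermediateField L (LaurentSeries L)} (V : Submodule L F) (n : ℤ) :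
    V →ₗ[L] L where
  toFun v := ((v : F) : LaurentSeries L).coeff n
  map_add' _ _ := rfl
  map_smul' a v := by
    show ((a • (v : F) : F) : LaurentSeries L).coeff n = a * _
    have : ((a • (v : F) : F) : LaurentSeries L) =
      algebraMap L (LaurentSeries L) a * ((v : F) : LaurentSeries L) := by
      rw [IntermediateField.coe_smul, Algebra.smul_def]
    rw [this, algebraMap_laurentSeries_eq_single, HahnSeries.coeff_single_zero_mul]

variable [IsAlgClosed L] [CharZero L]
  (hfix : ∀ z : L, (∀ σ : L ≃ₐ[K] L, σ z = z) → ∃ a : K, algebraMap K L a = z)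
  (FL : IntermediateField L (LaurentSeries L)) [FunField L FL]
  (hσF : ∀ σ : L ≃ₐ[K] L, ∀ f ∈ FL, coeffMap (σ : L →+* L) f ∈ FL)
  (FK : IntermediateField K (LaurentSeries K))
  (hdesc : ∀ g : LaurentSeries K, coeffMap (algebraMap K L) g ∈ FL → g ∈ FK)
  (hKL : ∀ g ∈ FK, coeffMap (algebraMap K L) g ∈ FL)
  (x : FL) (hx : Transcendental L x) (hxσ : ∀ σ : L ≃ₐ[K] L, coeffMap (σ : L →+* L) (x :
    LaurentSeries L) = x)

include hfix hσF hdesc hKL hx hxσ in
/-- **Rational bases of `L(m (x)_∞)`.** -/
theorem exists_rational_basis (m : ℕ) :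
    ∃ g : Fin (Module.finrank L (riemannRochSpace (m • (poleDiv x : Divisor L FL)))) → FK,
      LinearIndependent K g ∧ ∀ i, ∃ h : coeffMap (algebraMap K L) (g i : LaurentSeries K) ∈ FL,
        (⟨_, h⟩ : FL) ∈ riemannRochSpace (m • (poleDiv x : Divisor L FL)) := by
  classical
  set V := riemannRochSpace (m • (poleDiv x : Divisor L FL)) with hV
  have hVfin : FiniteDimensional L V := finite_L _
  have hx1 : ∀ σ : L ≃ₐ[K] L, coeffMap (σ : L →+* L) ((x⁻¹ : FL) : LaurentSeries L) =
      ((x⁻¹ : FL) : LaurentSeries L) := fun σ => by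
    rw [IntermediateField.coe_inv, map_inv₀, hxσ]
  have hspan := descent_gen (K := K) (L := L) hfix (W := V) (coeffFunctional V) (fun w hw => by
      apply Subtype.ext
      apply Subtype.ext
      ext n
      exact hw n) (fun σ w => by
      have hw := (mem_L_pole_iff_isIntegral hx m (w : FL)).1 w.2
      refine ⟨⟨⟨coeffMap (σ : L →+* L) ((w : FL) : LaurentSeries L), hσF σ _ (w : FL).2⟩,
        (mem_L_pole_iff_isIntegral hx m _).2 ⟨?_, ?_⟩⟩, fun i => rfl⟩
      · exact isIntegral_coeffMap_sub (σ : L →+* L) (hσF σ) (hxσ σ) hw.1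
      · have h1 := isIntegral_coeffMap_sub (σ : L →+* L) (hσF σ) (hx1 σ) hw.2
        have h2 : (⟨coeffMap (σ : L →+* L) (((w : FL) * x⁻¹ ^ m : FL) : LaurentSeries L),
            hσF σ _ ((w : FL) * x⁻¹ ^ m).2⟩ : FL) =
            ⟨coeffMap (σ : L →+* L) ((w : FL) : LaurentSeries L), hσF σ _ (w : FL).2⟩ *
              x⁻¹ ^ m := by
          apply Subtype.ext
          show coeffMap (σ : L →+* L) (((w : FL) * x⁻¹ ^ m : FL) : LaurentSeries L) =
            coeffMap (σ : L →+* L) ((w : FL) : LaurentSeries L) *
              ((x⁻¹ ^ m : FL) : LaurentSeries L)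
          rw [IntermediateField.coe_mul, IntermediateField.coe_pow, map_mul, map_pow, hx1 σ]
        rwa [h2] at h1)
  obtain ⟨f, hf1, hf3⟩ := exists_linearIndependent_of_span hspan
  have hchoose : ∀ i, ∃ g : LaurentSeries K,
      coeffMap (algebraMap K L) g = ((f i : FL) : LaurentSeries L) := by
    intro i
    choose a ha using hf1 i
    refine ⟨HahnSeries.mk a ?_, ?_⟩
    · refine ((f i : FL) : LaurentSeries L).isPWO_support'.mono ?_
      intro n hn
      simp only [Function.mem_support] at hn ⊢
      intro h0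
      apply hn
      apply (algebraMap K L).injective
      rw [ha n, map_zero]
      exact h0
    · ext n
      exact ha n
  choose g hg using hchoose
  have hgK : ∀ i, g i ∈ FK := fun i => hdesc (g i) (by rw [hg i]; exact (f i : FL).2)
  let ε : FK →+* FL := ((coeffMap (algebraMap K L)).comp (algebraMap FK (LaurentSeries K))).codRestrict
    FL.toSubfield.toSubring (fun f => hKL f f.2)
  have hε : ∀ a : K, ε (algebraMap K FK a) = algebraMap L FL (algebraMap K L a) := by
    intro a
    apply Subtype.ext
    show coeffMap (algebraMap K L) (algebraMap K (LaurentSeries K) a) =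
      algebraMap L (LaurentSeries L) (algebraMap K L a)
    rw [algebraMap_laurentSeries_eq_single, algebraMap_laurentSeries_eq_single, coeffMap_single]
  refine ⟨fun i => ⟨g i, hgK i⟩, ?_, fun i => ⟨by rw [hg i]; exact (f i : FL).2, ?_⟩⟩
  · have h1 : LinearIndependent L (fun i => (f i : FL)) :=
      hf3.map' V.subtype (Submodule.ker_subtype V)
    apply linearIndependent_of_ringHom (L := L) ε hε
    have h2 : (fun i => ε (⟨g i, hgK i⟩ : FK)) = fun i => (f i : FL) :=
      funext fun i => Subtype.ext (hg i)
    rw [h2]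
    exact h1
  · have h1 : (⟨coeffMap (algebraMap K L) (g i), by rw [hg i]; exact (f i : FL).2⟩ : FL) =
        (f i : FL) := Subtype.ext (hg i)
    rw [h1]
    exact (f i).2

end Rational

/-! ### Comparison of reductions over `K` and `L` -/

section Compare

variable {K L k FK FL E : Type*} [Field K] [Field L] [Algebra K L] [Field k] [Field FK] [Field FL]
  [Field E] [Algebra K FK] [Algebra L FL] [Algebra k E]
  (RK : H40.ReductionData K FK k E) (RL : H40.ReductionData L FL k E) (ε : FK →+* FL)
  (hε : ∀ a : K, ε (algebraMap K FK a) = algebraMap L FL (algebraMap K L a))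
  (hcomp : ∀ b : RK.B, ∃ h : ε (b : FK) ∈ RL.B, RL.ρ ⟨_, h⟩ = RK.ρ b)

include hε hcomp in
/-- if `V` has a `K`-rational basis then all reductions of elements of `V` are reductions of
rational elements -/
theorem exists_rational_lift (V : Submodule L FL) [FiniteDimensional L V]
    (g : Fin (Module.finrank L V) → FK) (hg : LinearIndependent K g) (hgV : ∀ i, ε (g i) ∈ V)
    {e : E} (he : e ∈ RL.red V) : ∃ b : RK.B, RK.ρ b = e ∧ ε (b : FK) ∈ V := by
  set W : Submodule K FK := Submodule.span K (Set.range g) with hW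
  have hWV : ∀ w ∈ W, ε w ∈ V := by
    intro w hw
    refine Submodule.span_induction (p := fun w _ => ε w ∈ V) ?_ ?_ ?_ ?_ hw
    · rintro _ ⟨i, rfl⟩
      exact hgV i
    · rw [map_zero]; exact V.zero_mem
    · intro x y _ _ hx hy
      rw [map_add]; exact V.add_mem hx hy
    · intro a x _ hx
      rw [Algebra.smul_def, map_mul, hε, ← Algebra.smul_def]
      exact V.smul_mem _ hx
  have hWfin : FiniteDimensional K W := FiniteDimensional.span_of_finite K (Set.finite_range g)
  have hWrank : Module.finrank K W = Module.finrank L V := by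
    rw [hW, finrank_span_eq_card hg, Fintype.card_fin]
  have hle : RK.red W ≤ RL.red V := by
    rintro _ ⟨b, hb, rfl⟩
    obtain ⟨h, hρ⟩ := hcomp b
    exact ⟨⟨_, h⟩, hWV _ hb, hρ⟩
  have h1 := RK.finrank_red W
  have h2 := RL.finrank_red V
  have h3 := h1.1
  have h4 := h2.1
  have heq : RK.red W = RL.red V := by
    apply Submodule.eq_of_le_of_finrank_le hle
    rw [h1.2, h2.2, hWrank]
  rw [← heq] at he
  obtain ⟨b, hb, hbe⟩ := he
  exact ⟨b, hbe, hWV _ hb⟩

end Compare

section Compare2

variable {K L : Type*} [Field K] [Field L] [Algebra ℚ K] [Algebra ℚ L] [Algebra K L]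
  (AK : ValuationSubring K) (AL : ValuationSubring L)
  {k : Type*} [Field k] (πK : AK →+* k) (πL : AL →+* k) (iA : AK →+* AL)
  (hiA : ∀ a, ((iA a : AL) : L) = algebraMap K L a) (hπ : πK = πL.comp iA) (m : ℕ)
  (hπK : Function.Surjective πK) (hπL : Function.Surjective πL)
  (hdK : H42.DegLE K k m) (hdL : H42.DegLE L k m)

/-- inclusion of the function field over `K` in the function field over `L` -/
def incKL : laurentBaseChange K (modularFunctionFieldFull m) →+*
    laurentBaseChange L (modularFunctionFieldFull m) :=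
  ((coeffMap (algebraMap K L)).comp (algebraMap (laurentBaseChange K (modularFunctionFieldFull m))
    (LaurentSeries K))).codRestrict
    (laurentBaseChange L (modularFunctionFieldFull m)).toSubfield.toSubring (fun f => by
      show coeffMap (algebraMap K L) (f : LaurentSeries K) ∈
        laurentBaseChange L (modularFunctionFieldFull m)
      rw [H42.laurentBaseChange_full]
      apply coeffMap_mem_fullC
      rw [← H42.laurentBaseChange_full]
      exact f.2)

@[simp] theorem coe_incKL (f : laurentBaseChange K (modularFunctionFieldFull m)) :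
    ((incKL (L := L) m f : laurentBaseChange L (modularFunctionFieldFull m)) : LaurentSeries L) =
      coeffMap (algebraMap K L) (f : LaurentSeries K) := rfl

theorem incKL_algebraMap (a : K) :
    incKL m (algebraMap K (laurentBaseChange K (modularFunctionFieldFull m)) a) =
      algebraMap L (laurentBaseChange L (modularFunctionFieldFull m)) (algebraMap K L a) := by
  apply Subtype.ext
  show coeffMap (algebraMap K L) (algebraMap K (LaurentSeries K) a) =
    algebraMap L (LaurentSeries L) (algebraMap K L a)
  rw [algebraMap_laurentSeries_eq_single, algebraMap_laurentSeries_eq_single, coeffMap_single]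

include hiA in
theorem coeffMap_iA (y : LaurentSeries AK) :
    coeffMap AL.subtype (coeffMap iA y) = coeffMap (algebraMap K L) (coeffMap AK.subtype y) := by
  ext n
  simp [hiA]

include hiA hπ in
theorem gauss_comp (b : (H42.modGauss AK πK m hπK hdK).B) :
    ∃ h : incKL (L := L) m (b : laurentBaseChange K (modularFunctionFieldFull m)) ∈
        (H42.modGauss AL πL m hπL hdL).B,
      (H42.modGauss AL πL m hπL hdL).ρ ⟨_, h⟩ = (H42.modGauss AK πK m hπK hdK).ρ b := by
  obtain ⟨⟨f, hf⟩, y, hy⟩ := b
  obtain rfl : coeffMap AK.subtype y = f := hy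
  have h1 : coeffMap AL.subtype (coeffMap iA y) =
      ((incKL (L := L) m (⟨coeffMap AK.subtype y, hf⟩ :
        laurentBaseChange K (modularFunctionFieldFull m)) :
        laurentBaseChange L (modularFunctionFieldFull m)) : LaurentSeries L) :=
    coeffMap_iA AK AL iA hiA y
  have h0 := (H42.mem_modGauss_B AL πL m hπL hdL).2 ⟨coeffMap iA y, h1⟩
  refine ⟨h0, ?_⟩
  apply Subtype.ext
  have h2 := (isStd_modGauss AL πL m hπL hdL).ρ' ⟨_, h0⟩ h1
  refine h2.trans ?_
  refine Eq.trans ?_ (H42.coe_modGauss_ρ AK πK m hπK hdK y hf).symm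
  rw [hπ, coeffMap_coeffMap]

variable [IsLocalHom πK] [IsLocalHom πL]

include hiA hπ in
/-- **comparison of the reductions over `K` and over `L`.** -/
theorem red_comp (b : (H42.modReductionData AK πK m hπK hdK).B) :
    ∃ h : incKL (L := L) m (b : laurentBaseChange K (modularFunctionFieldFull m)) ∈
        (H42.modReductionData AL πL m hπL hdL).B,
      (H42.modReductionData AL πL m hπL hdL).ρ ⟨_, h⟩ =
        (H42.modReductionData AK πK m hπK hdK).ρ b := by
  obtain ⟨f, y, z, hz, hf⟩ := b
  obtain ⟨hy', hρy⟩ := gauss_comp AK AL πK πL iA hiA hπ m hπK hπL hdK hdL y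
  obtain ⟨hz', hρz⟩ := gauss_comp AK AL πK πL iA hiA hπ m hπK hπL hdK hdL z
  have hz0 : (H42.modGauss AL πL m hπL hdL).ρ ⟨_, hz'⟩ ≠ 0 := by
    rw [hρz]; exact hz
  have hf' : incKL (L := L) m f *
      incKL (L := L) m (z : laurentBaseChange K (modularFunctionFieldFull m)) =
      incKL (L := L) m (y : laurentBaseChange K (modularFunctionFieldFull m)) := by
    rw [← map_mul, hf]
  refine ⟨⟨⟨_, hy'⟩, ⟨_, hz'⟩, hz0, hf'⟩, ?_⟩
  have h1 : (H42.modReductionData AL πL m hπL hdL).ρ ⟨_, ⟨⟨_, hy'⟩, ⟨_, hz'⟩, hz0, hf'⟩⟩ =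
      (H42.modGauss AL πL m hπL hdL).ρ ⟨_, hy'⟩ / (H42.modGauss AL πL m hπL hdL).ρ ⟨_, hz'⟩ :=
    (H42.modGauss AL πL m hπL hdL).res_eq_div ⟨_, ⟨⟨_, hy'⟩, ⟨_, hz'⟩, hz0, hf'⟩⟩ hz0 hf'
  have h2 : (H42.modReductionData AK πK m hπK hdK).ρ ⟨f, y, z, hz, hf⟩ =
      (H42.modGauss AK πK m hπK hdK).ρ y / (H42.modGauss AK πK m hπK hdK).ρ z :=
    (H42.modGauss AK πK m hπK hdK).res_eq_div ⟨f, y, z, hz, hf⟩ hz hf
  rw [h1, h2, hρy, hρz]

end Compare2

/-! ### Integrality over `K[j]` and over `L[j]` -/

section IntKL

variable {K L EK EL : Type*} [Field K] [Field L] [Algebra K L] [Field EK] [Field EL]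
  [Algebra K EK] [Algebra L EL] (ε : EK →+* EL)
  (hε : ∀ a : K, ε (algebraMap K EK a) = algebraMap L EL (algebraMap K L a))

include hε in
theorem isIntegral_ext {y f : EK} (hf : IsIntegral (Algebra.adjoin K {y}) f) :
    IsIntegral (Algebra.adjoin L {ε y}) (ε f) := by
  have hmem : ∀ a ∈ Algebra.adjoin K {y}, ε a ∈ Algebra.adjoin L {ε y} := by
    intro a ha
    induction ha using Algebra.adjoin_induction with
    | mem z hz =>
        rw [Set.mem_singleton_iff] at hz
        rw [hz]
        exact Algebra.self_mem_adjoin_singleton L _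
    | algebraMap r => rw [hε]; exact Subalgebra.algebraMap_mem _ _
    | add x y _ _ hx hy => rw [map_add]; exact add_mem hx hy
    | mul x y _ _ hx hy => rw [map_mul]; exact mul_mem hx hy
  let φ : Algebra.adjoin K {y} →+* Algebra.adjoin L {ε y} :=
    (ε.comp (algebraMap (Algebra.adjoin K {y}) EK)).codRestrict
      (Algebra.adjoin L {ε y}).toSubring (fun a => hmem a a.2)
  exact hf.map_of_comp_eq φ ε (RingHom.ext fun _ => rfl)

include hε in
theorem isIntegral_of_ext [Algebra.IsAlgebraic K L] {y f : EK}
    (hf : IsIntegral (Algebra.adjoin L {ε y}) (ε f)) : IsIntegral (Algebra.adjoin K {y}) f := by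
  let φ : Algebra.adjoin K {y} →+* EL := ε.comp (algebraMap (Algebra.adjoin K {y}) EK)
  let : Algebra (Algebra.adjoin K {y}) EL := φ.toAlgebra
  let S := integralClosure (Algebra.adjoin K {y}) EL
  have hL : ∀ a : L, algebraMap L EL a ∈ S := by
    intro a
    have ha : IsIntegral K a := Algebra.IsIntegral.isIntegral a
    exact ha.map_of_comp_eq (algebraMap K (Algebra.adjoin K {y})) (algebraMap L EL)
      (RingHom.ext fun b => hε b)
  have hy : ε y ∈ S := by
    have : ε y = algebraMap (Algebra.adjoin K {y}) EL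
      ⟨y, Algebra.self_mem_adjoin_singleton K y⟩ := rfl
    rw [this]
    exact S.algebraMap_mem _
  have hmem : ∀ a ∈ Algebra.adjoin L {ε y}, a ∈ S := by
    intro a ha
    induction ha using Algebra.adjoin_induction with
    | mem z hz =>
        rw [Set.mem_singleton_iff] at hz
        rw [hz]
        exact hy
    | algebraMap r => exact hL r
    | add x y _ _ hx hy => exact add_mem hx hy
    | mul x y _ _ hx hy => exact mul_mem hx hy
  let ψ : Algebra.adjoin L {ε y} →+* S :=
    (algebraMap (Algebra.adjoin L {ε y}) EL).codRestrict S.toSubring (fun a => hmem a a.2)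
  have h1 : IsIntegral S (ε f) :=
    hf.map_of_comp_eq ψ (RingHom.id EL) (RingHom.ext fun _ => rfl)
  have : Algebra.IsIntegral (Algebra.adjoin K {y}) S := integralClosure.AlgebraIsIntegral
  obtain ⟨p, hp, hpf⟩ := isIntegral_trans (R := Algebra.adjoin K {y}) (ε f) h1
  refine ⟨p, hp, ?_⟩
  apply ε.injective
  rw [Polynomial.hom_eval₂, map_zero]
  exact hpf

end IntKL

end Fermat.Agent.H18
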