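import Mathlib
import Fermat.Agent.H18LiftK

/-!
# Lifting integral functions over `K` (helper18, CARAYOL C2)
-/

set_option autoImplicit false

noncomputable section

open AlgebraicCurve ModularCurve IntermediateField Fermat.Agent.H3RR Fermat.Agent.H94
open scoped IntermediateField.algebraAdjoinAdjoin

namespace Fermat.Agent.H18

section Main

variable {K L : Type*} [Field K] [Field L] [Algebra ℚ K] [Algebra ℚ L] [Algebra K L]
  (AK : ValuationSubring K) (AL : ValuationSubring L)
  {k : Type*} [Field k] (πK : AK →+* k) (πL : AL →+* k) (iA : AK →+* AL)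
  (hiA : ∀ a, ((iA a : AL) : L) = algebraMap K L a) (hπ : πK = πL.comp iA) (m : ℕ)
  (hπK : Function.Surjective πK) (hπL : Function.Surjective πL)
  (hdK : H42.DegLE K k m) (hdL : H42.DegLE L k m)

theorem ne_zero_of_transcendental {K E : Type*} [Field K] [Field E] [Algebra K E] {x : E}
    (hx : Transcendental K x) : x ≠ 0 := by
  rintro rfl
  exact hx isAlgebraic_zero

set_option maxHeartbeats 1000000 in
/-- the general algebraic lifting step -/
theorem lift_aux_K {FK : IntermediateField K (LaurentSeries K)}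
    {FL : IntermediateField L (LaurentSeries L)} {Fk : IntermediateField k (LaurentSeries k)}
    [IsAlgClosed L] [IsAlgClosed k] [CharZero L] [FunField L FL] [FunField k Fk]
    (RK : H40.ReductionData K FK k Fk) (RL : H40.ReductionData L FL k Fk) (ε : FK →+* FL)
    (hεc : ∀ f : FK, ((ε f : FL) : LaurentSeries L) = coeffMap (algebraMap K L)
      (f : LaurentSeries K))
    (hε : ∀ a : K, ε (algebraMap K FK a) = algebraMap L FL (algebraMap K L a))
    (hcomp : ∀ b : RK.B, ∃ h : ε (b : FK) ∈ RL.B, RL.ρ ⟨_, h⟩ = RK.ρ b)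
    (hfix : ∀ z : L, (∀ σ : L ≃ₐ[K] L, σ z = z) → ∃ a : K, algebraMap K L a = z)
    (hσF : ∀ σ : L ≃ₐ[K] L, ∀ f ∈ FL, coeffMap (σ : L →+* L) f ∈ FL)
    (hdesc : ∀ g : LaurentSeries K, coeffMap (algebraMap K L) g ∈ FL → g ∈ FK)
    (x : RL.B) (hx : Transcendental k (RL.ρ x))
    (hxσ : ∀ σ : L ≃ₐ[K] L, coeffMap (σ : L →+* L) ((x : FL) : LaurentSeries L) = (x : FL))
    (hdeg : Module.finrank L⟮(x : FL)⟯ FL = Module.finrank k⟮RL.ρ x⟯ Fk)
    (hsep : Algebra.IsSeparable k⟮RL.ρ x⟯ Fk)
    (hg : genusFF L FL = genusFF k Fk) {e : Fk}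
    (he : IsIntegral (Algebra.adjoin k {RL.ρ x}) e) :
    ∃ b : RK.B, RK.ρ b = e ∧ IsIntegral (Algebra.adjoin L {(x : FL)}) (ε (b : FK)) := by
  have hxL := RL.transcendental_of_ρ hx
  have := FunField.finiteDimensional hxL
  have := FunField.finiteDimensional hx
  rw [isIntegral_iff_mem_aff hx] at he
  obtain ⟨m₀, hm₀⟩ := H88.exists_mem_L (ne_zero_of_transcendental hx) he
  set n := max m₀ (2 * genusFF L FL) with hn
  have h1 := hm₀ n (le_max_left _ _)
  rw [← H88.red_eq RL hx hdeg hg (le_max_right _ _), ← hn] at h1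
  have hfin : FiniteDimensional L (riemannRochSpace (n • (poleDiv (x : FL) : Divisor L FL))) :=
    finite_L _
  obtain ⟨g, hg1, hg2⟩ := exists_rational_basis hfix FL hσF FK hdesc
    (fun f hf => by
      have := (ε ⟨f, hf⟩).2
      rwa [hεc] at this) (x : FL) hxL hxσ n
  obtain ⟨b, hb, hbV⟩ := exists_rational_lift RK RL ε hε hcomp
    (riemannRochSpace (n • (poleDiv (x : FL) : Divisor L FL))) g hg1 (fun i => by
      obtain ⟨h, h'⟩ := hg2 i
      have h2 : ε (g i) = ⟨_, h⟩ := Subtype.ext (hεc (g i))
      rw [h2]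
      exact h') h1
  exact ⟨b, hb, ((mem_L_pole_iff_isIntegral hxL n _).1 hbV).1⟩

variable [IsAlgClosed L] [IsAlgClosed k] [IsLocalHom πK] [IsLocalHom πL]
  [Algebra.IsAlgebraic K L] (hm : (m : k) ≠ 0)
  (hfix : ∀ z : L, (∀ σ : L ≃ₐ[K] L, σ z = z) → ∃ a : K, algebraMap K L a = z)

include hiA hπ hπL hm hfix in
/-- **LIFT over `K`**: every element of the coordinate ring of the special fibre is the
reduction of an integral function with coefficients in `K`. -/
theorem lift_Cm_K (hg : GenusFFEq L k m) {c : LaurentSeries k} (hc : c ∈ Cm k m) :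
    ∃ b : (H42.modReductionData AK πK m hπK hdK).B,
      (((H42.modReductionData AK πK m hπK hdK).ρ b : modularFunctionFieldFullC k m) :
        LaurentSeries k) = c ∧
      IsIntegral (Algebra.adjoin K {jqModC K})
        ((b : laurentBaseChange K (modularFunctionFieldFull m)) : LaurentSeries K) := by
  have : CharZero L := algebraRat.charZero L
  have hm0 : m ≠ 0 := by rintro rfl; exact hm Nat.cast_zero
  have hdL : H42.DegLE L k m := H88.degLE m hm
  have i1 := H42.funField_left (L := L) (k := k) m hdL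
  have i2 := H42.funField_right (L := L) (k := k) m hdL
  have hjL : jqModC L ∈ laurentBaseChange L (modularFunctionFieldFull m) := by
    rw [H42.laurentBaseChange_full]; exact jqModC_mem_full L m
  have hjK : jqModC K ∈ laurentBaseChange K (modularFunctionFieldFull m) := by
    rw [H42.laurentBaseChange_full]; exact jqModC_mem_full K m
  obtain ⟨x, hx1, hx2⟩ := H88.exists_j AL πL hπL hdL hjL
  have d1 := H88.finrank_j L m _ (H42.laurentBaseChange_full L m) hjL (Nat.cast_ne_zero.mpr hm0)
  have d3 := H88.finrank_j k m _ rfl (jqModC_mem_full k m) hm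
  have htr := transcendental_ρ_aux (H42.modReductionData AL πL m hπL hdL) x
    (jqModC_mem_full k m) hx2
  have hsep := isSeparable_ρ_aux (H42.modReductionData AL πL m hπL hdL) x
    (jqModC_mem_full k m) hx2
  have he : IsIntegral (Algebra.adjoin k {(H42.modReductionData AL πL m hπL hdL).ρ x})
      (⟨c, hc.1⟩ : modularFunctionFieldFullC k m) := by
    rw [hx2]
    exact (isIntegral_adjoin_iff (modularFunctionFieldFullC k m).val
      ⟨jqModC k, jqModC_mem_full k m⟩ ⟨c, hc.1⟩).1 hc.2
  obtain ⟨b, hb, hb'⟩ := lift_aux_K (H42.modReductionData AK πK m hπK hdK)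
    (H42.modReductionData AL πL m hπL hdL) (incKL m) (fun f => rfl) (incKL_algebraMap m)
    (red_comp AK AL πK πL iA hiA hπ m hπK hπL hdK hdL) hfix
    (fun σ f hf => by
      rw [H42.laurentBaseChange_full] at hf ⊢
      exact H60.coeffMap_mem_fullC (σ : L →+* L) hf)
    (fun g hg => H90.exists_of_coeff_mem _ hg) x htr
    (fun σ => by rw [hx1]; exact coeffMap_jqModC _)
    (by rw [hx1, hx2]; exact d1.1.trans d3.1.symm) hsep hg he
  refine ⟨b, by rw [hb], ?_⟩
  have h1 := (isIntegral_adjoin_iff (laurentBaseChange L (modularFunctionFieldFull m)).val _ _).2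
    hb'
  rw [hx1] at h1
  have h2 : IsIntegral (Algebra.adjoin L {coeffMap (algebraMap K L) (jqModC K)})
      (coeffMap (algebraMap K L)
        ((b : laurentBaseChange K (modularFunctionFieldFull m)) : LaurentSeries K)) := by
    rw [coeffMap_jqModC]
    exact h1
  exact isIntegral_of_ext (coeffMap (algebraMap K L)) (fun a => by
    rw [algebraMap_laurentSeries_eq_single, algebraMap_laurentSeries_eq_single,
      coeffMap_single]) h2

include hiA hπ hπL hm hfix hπK in
/-- LIFT over `K`, expressed with the reduction over `L`. -/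
theorem lift_Cm_KL (hg : GenusFFEq L k m) {c : LaurentSeries k} (hc : c ∈ Cm k m) :
    ∃ f : laurentBaseChange K (modularFunctionFieldFull m),
      IsIntegral (Algebra.adjoin K {jqModC K}) (f : LaurentSeries K) ∧
      ∃ h : incKL (L := L) m f ∈ (H42.modReductionData AL πL m hπL hdL).B,
      (((H42.modReductionData AL πL m hπL hdL).ρ ⟨_, h⟩ : modularFunctionFieldFullC k m) :
        LaurentSeries k) = c := by
  have : CharZero K := algebraRat.charZero K
  have hdK := degLE_of_charZero K (k := k) m hm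
  obtain ⟨b, hb, hb'⟩ := lift_Cm_K AK AL πK πL iA hiA hπ m hπK hπL hdK hm hfix hg hc
  obtain ⟨h, hρ⟩ := red_comp AK AL πK πL iA hiA hπ m hπK hπL hdK hdL b
  exact ⟨b, hb', h, by rw [hρ]; exact hb⟩

include hiA hπ hπL hm in
/-- the reduction of an integral function over `K` -/
theorem res_mem_Cm_K {b : (H42.modReductionData AK πK m hπK hdK).B}
    (hb : IsIntegral (Algebra.adjoin K {jqModC K})
      ((b : laurentBaseChange K (modularFunctionFieldFull m)) : LaurentSeries K)) :
    (((H42.modReductionData AK πK m hπK hdK).ρ b : modularFunctionFieldFullC k m) :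
        LaurentSeries k) ∈ Cm k m := by
  have hdL : H42.DegLE L k m := H88.degLE m hm
  obtain ⟨h, hρ⟩ := red_comp AK AL πK πL iA hiA hπ m hπK hπL hdK hdL b
  rw [← hρ]
  apply res_mem_Cm AL πL m hπL hdL hm
  have h1 := isIntegral_ext (K := K) (L := L) (coeffMap (algebraMap K L)) (fun a => by
    rw [algebraMap_laurentSeries_eq_single, algebraMap_laurentSeries_eq_single,
      coeffMap_single]) hb
  rw [coeffMap_jqModC] at h1
  exact h1

end Main

end Fermat.Agent.H18
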