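import Fermat.Agent.H42GaussMod
import Fermat.Agent.H60Series

/-!
# The Gauss ring of Laurent series over a discretely valued field

`A` a valuation ring of `K` with residue map `π : A → k` and uniformizer `ϖ`
(`Unif A π ϖ`: discrete of rank one).  `(laurentRed A π).loc ⊆ K((t))` is the ring of quotients
`y / z`, `y z : A((t))`, `z̄ ≠ 0`.  `Bdd` is the field of quotients of series with bounded
denominators; on it the Gauss ring is a (discrete) valuation ring.
-/

set_option autoImplicit false
set_option linter.unusedSectionVars false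

noncomputable section

open ModularCurve Fermat.Agent.H42 Fermat.Agent.H60

namespace Fermat.Agent.H99

variable {K : Type*} [Field K] (A : ValuationSubring K) {k : Type*} [Field k] (π : A →+* k)

/-- `ϖ` is a uniformizer of the discrete valuation ring `A` and `π` a residue map. -/
structure Unif (ϖ : A) : Prop where
  ne_zero : ϖ ≠ 0
  map : π ϖ = 0
  dvd : ∀ a : A, π a = 0 → ϖ ∣ a
  arch : ∀ a : A, a ≠ 0 → ∃ n : ℕ, a ∣ ϖ ^ n

/-- The Gauss ring in `K((t))`. -/
abbrev GR : Subring (LaurentSeries K) := (laurentRed A π).loc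

open Classical in
/-- The residue of a Laurent series in the Gauss ring (junk value `0` outside). -/
def gres (x : LaurentSeries K) : LaurentSeries k :=
  if h : x ∈ GR A π then (laurentRed A π).res ⟨x, h⟩ else 0

variable {A π}

theorem gres_of_mem {x : LaurentSeries K} (h : x ∈ GR A π) :
    gres A π x = (laurentRed A π).res ⟨x, h⟩ := by
  unfold gres
  rw [dif_pos h]

variable (A π) in
/-- a series over `A` as an element of the ring `(laurentRed A π).B` -/
def intB (y : LaurentSeries A) : (laurentRed A π).B := ⟨coeffMap A.subtype y, ⟨y, rfl⟩⟩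

@[simp] theorem coe_intB (y : LaurentSeries A) :
    (intB A π y : LaurentSeries K) = coeffMap A.subtype y := rfl

@[simp] theorem ρ_intB (y : LaurentSeries A) : (laurentRed A π).ρ (intB A π y) = coeffMap π y :=
  laurentRed_ρ A π y _

theorem exists_intB (z : (laurentRed A π).B) : ∃ y, z = intB A π y := by
  obtain ⟨y, hy⟩ := z.2
  exact ⟨y, Subtype.ext hy.symm⟩

theorem int_mem (y : LaurentSeries A) : coeffMap A.subtype y ∈ GR A π :=
  (laurentRed A π).le_loc (intB A π y).2

theorem gres_int (y : LaurentSeries A) : gres A π (coeffMap A.subtype y) = coeffMap π y := by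
  rw [gres_of_mem (int_mem y)]
  have h := (laurentRed A π).res_coe (intB A π y)
  rw [ρ_intB] at h
  exact h

theorem gr_mem_iff {x : LaurentSeries K} : x ∈ GR A π ↔ ∃ y z : LaurentSeries A,
    coeffMap π z ≠ 0 ∧ x * coeffMap A.subtype z = coeffMap A.subtype y := by
  constructor
  · rintro ⟨y, z, hz, h⟩
    obtain ⟨y, rfl⟩ := exists_intB y
    obtain ⟨z, rfl⟩ := exists_intB z
    exact ⟨y, z, by rwa [ρ_intB] at hz, h⟩
  · rintro ⟨y, z, hz, h⟩
    exact ⟨intB A π y, intB A π z, by rwa [ρ_intB], h⟩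

theorem gres_mul_eq {x : LaurentSeries K} {y z : LaurentSeries A} (hz : coeffMap π z ≠ 0)
    (h : x * coeffMap A.subtype z = coeffMap A.subtype y) :
    gres A π x * coeffMap π z = coeffMap π y := by
  have hx : x ∈ GR A π := gr_mem_iff.2 ⟨y, z, hz, h⟩
  rw [gres_of_mem hx]
  have h1 := (laurentRed A π).res_mul_eq ⟨x, hx⟩ (y := intB A π y) (z := intB A π z)
    (by rwa [ρ_intB]) h
  rwa [ρ_intB, ρ_intB] at h1

theorem gres_eq_div {x : LaurentSeries K} {y z : LaurentSeries A} (hz : coeffMap π z ≠ 0)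
    (h : x * coeffMap A.subtype z = coeffMap A.subtype y) :
    gres A π x = coeffMap π y / coeffMap π z := by
  rw [eq_div_iff hz]
  exact gres_mul_eq hz h

@[simp] theorem gres_zero : gres A π 0 = 0 := by
  rw [gres_of_mem (zero_mem _)]
  exact map_zero _

@[simp] theorem gres_one : gres A π 1 = 1 := by
  rw [gres_of_mem (one_mem _)]
  exact map_one _

theorem gres_add {x y : LaurentSeries K} (hx : x ∈ GR A π) (hy : y ∈ GR A π) :
    gres A π (x + y) = gres A π x + gres A π y := by
  rw [gres_of_mem hx, gres_of_mem hy, gres_of_mem (add_mem hx hy), ← map_add]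
  rfl

theorem gres_mul {x y : LaurentSeries K} (hx : x ∈ GR A π) (hy : y ∈ GR A π) :
    gres A π (x * y) = gres A π x * gres A π y := by
  rw [gres_of_mem hx, gres_of_mem hy, gres_of_mem (mul_mem hx hy), ← map_mul]
  rfl

theorem gres_neg {x : LaurentSeries K} (hx : x ∈ GR A π) :
    gres A π (-x) = -gres A π x := by
  rw [gres_of_mem hx, gres_of_mem (neg_mem hx), ← map_neg]
  rfl

theorem gres_sub {x y : LaurentSeries K} (hx : x ∈ GR A π) (hy : y ∈ GR A π) :
    gres A π (x - y) = gres A π x - gres A π y := by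
  rw [sub_eq_add_neg, gres_add hx (neg_mem hy), gres_neg hy, sub_eq_add_neg]

theorem gres_pow {x : LaurentSeries K} (hx : x ∈ GR A π) (n : ℕ) :
    gres A π (x ^ n) = gres A π x ^ n := by
  rw [gres_of_mem hx, gres_of_mem (pow_mem hx n), ← map_pow]
  rfl

theorem gres_prod {ι : Type*} (s : Finset ι) (f : ι → LaurentSeries K)
    (h : ∀ i ∈ s, f i ∈ GR A π) : gres A π (∏ i ∈ s, f i) = ∏ i ∈ s, gres A π (f i) := by
  classical
  induction s using Finset.induction_on with
  | empty => simp
  | insert a s ha ih =>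
    rw [Finset.prod_insert ha, Finset.prod_insert ha,
      gres_mul (h a (Finset.mem_insert_self _ _))
        (prod_mem fun i hi => h i (Finset.mem_insert_of_mem hi)),
      ih fun i hi => h i (Finset.mem_insert_of_mem hi)]

theorem gres_sum {ι : Type*} (s : Finset ι) (f : ι → LaurentSeries K)
    (h : ∀ i ∈ s, f i ∈ GR A π) : gres A π (∑ i ∈ s, f i) = ∑ i ∈ s, gres A π (f i) := by
  classical
  induction s using Finset.induction_on with
  | empty => simp
  | insert a s ha ih =>
    rw [Finset.sum_insert ha, Finset.sum_insert ha,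
      gres_add (h a (Finset.mem_insert_self _ _))
        (sum_mem fun i hi => h i (Finset.mem_insert_of_mem hi)),
      ih fun i hi => h i (Finset.mem_insert_of_mem hi)]

theorem mem_of_gres_ne_zero {x : LaurentSeries K} (h0 : gres A π x ≠ 0) : x ∈ GR A π := by
  by_contra h
  exact h0 (by unfold gres; rw [dif_neg h])

theorem inv_mem_gr {x : LaurentSeries K} (h0 : gres A π x ≠ 0) :
    x⁻¹ ∈ GR A π := by
  obtain ⟨y, z, hz, h⟩ := gr_mem_iff.1 (mem_of_gres_ne_zero h0)
  have h1 := gres_mul_eq hz h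
  have hy : coeffMap π y ≠ 0 := by
    rw [← h1]
    exact mul_ne_zero h0 hz
  refine gr_mem_iff.2 ⟨z, y, hy, ?_⟩
  have hx0 : x ≠ 0 := by
    rintro rfl
    exact h0 gres_zero
  rw [← h, inv_mul_cancel_left₀ hx0]

theorem gres_inv {x : LaurentSeries K} (h0 : gres A π x ≠ 0) :
    gres A π x⁻¹ = (gres A π x)⁻¹ := by
  have hx0 : x ≠ 0 := by
    rintro rfl
    exact h0 gres_zero
  have h1 := gres_mul (mem_of_gres_ne_zero h0) (inv_mem_gr h0)
  rw [mul_inv_cancel₀ hx0, gres_one] at h1
  exact eq_inv_of_mul_eq_one_right h1.symm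

theorem gres_div {x y : LaurentSeries K} (hx : x ∈ GR A π) (h0 : gres A π y ≠ 0) :
    gres A π (x / y) = gres A π x / gres A π y := by
  rw [div_eq_mul_inv, gres_mul hx (inv_mem_gr h0), gres_inv h0, div_eq_mul_inv]

theorem div_mem_gr {x y : LaurentSeries K} (hx : x ∈ GR A π) (h0 : gres A π y ≠ 0) :
    x / y ∈ GR A π := by
  rw [div_eq_mul_inv]
  exact mul_mem hx (inv_mem_gr h0)

theorem const_mem (a : A) : algebraMap K (LaurentSeries K) a ∈ GR A π := by
  rw [← coeffMap_single_eq]
  exact int_mem _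

theorem gres_const (a : A) :
    gres A π (algebraMap K (LaurentSeries K) a) = algebraMap k (LaurentSeries k) (π a) := by
  rw [← coeffMap_single_eq, gres_int, coeffMap_single, algebraMap_laurentSeries_eq_single]

section Uniformizer

variable {ϖ : A} (hϖ : Unif A π ϖ)

include hϖ

/-- a series over `A` with zero reduction is divisible by `ϖ` -/
theorem exists_eq_smul {y : LaurentSeries A} (hy : coeffMap π y = 0) :
    ∃ y' : LaurentSeries A, y = HahnSeries.single 0 ϖ * y' := by
  have h1 : ∀ n, ∃ b : A, y.coeff n = ϖ * b := fun n => hϖ.dvd _ (by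
    rw [← coeffMap_coeff, hy, HahnSeries.coeff_zero])
  choose b hb using h1
  have hsupp : (Function.support b).IsPWO := by
    refine y.isPWO_support.mono ?_
    intro n hn
    rw [HahnSeries.mem_support, hb n]
    exact mul_ne_zero hϖ.ne_zero hn
  refine ⟨⟨b, hsupp⟩, ?_⟩
  ext n
  rw [HahnSeries.coeff_single_mul, sub_zero, hb n]

/-- If `x` is in the Gauss ring with zero residue, then `x / ϖ` is in the Gauss ring. -/
theorem div_mem_of_gres_eq_zero {x : LaurentSeries K} (hx : x ∈ GR A π) (h0 : gres A π x = 0) :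
    x / algebraMap K (LaurentSeries K) ϖ ∈ GR A π := by
  obtain ⟨y, z, hz, h⟩ := gr_mem_iff.1 hx
  have h1 := gres_mul_eq hz h
  rw [h0, zero_mul] at h1
  obtain ⟨y', hy'⟩ := exists_eq_smul hϖ h1.symm
  refine gr_mem_iff.2 ⟨y', z, hz, ?_⟩
  have hc : algebraMap K (LaurentSeries K) (ϖ : K) ≠ 0 := by
    rw [ne_eq, map_eq_zero]
    exact fun h => hϖ.ne_zero (Subtype.ext h)
  rw [div_mul_eq_mul_div, div_eq_iff hc, h, hy', map_mul, coeffMap_single_eq, mul_comm]

variable (A) in
omit hϖ in
/-- series with bounded denominators -/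
def bddRing : Subring (LaurentSeries K) where
  carrier := {x | ∃ (c : K) (y : LaurentSeries A), c ≠ 0 ∧
    algebraMap K (LaurentSeries K) c * x = coeffMap A.subtype y}
  one_mem' := ⟨1, 1, one_ne_zero, by simp⟩
  zero_mem' := ⟨1, 0, one_ne_zero, by simp⟩
  neg_mem' := by
    rintro x ⟨c, y, hc, h⟩
    exact ⟨c, -y, hc, by rw [map_neg, ← h, mul_neg]⟩
  mul_mem' := by
    rintro x x' ⟨c, y, hc, h⟩ ⟨c', y', hc', h'⟩
    refine ⟨c * c', y * y', mul_ne_zero hc hc', ?_⟩
    rw [map_mul, map_mul, ← h, ← h']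
    ring
  add_mem' := by
    rintro x x' ⟨c, y, hc, h⟩ ⟨c', y', hc', h'⟩
    rcases A.mem_or_inv_mem (c / c') with hd | hd
    · refine ⟨c, y + HahnSeries.single 0 ⟨c / c', hd⟩ * y', hc, ?_⟩
      rw [map_add, map_mul, coeffMap_single_eq, ← h, ← h', map_div₀]
      have : algebraMap K (LaurentSeries K) c' ≠ 0 := by simpa using hc'
      field_simp
    · rw [inv_div] at hd
      refine ⟨c', HahnSeries.single 0 ⟨c' / c, hd⟩ * y + y', hc', ?_⟩
      rw [map_add, map_mul, coeffMap_single_eq, ← h, ← h', map_div₀]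
      have : algebraMap K (LaurentSeries K) c ≠ 0 := by simpa using hc
      field_simp

/-- every nonzero element of `K` is a power of `ϖ` times a unit -/
theorem exists_zpow {a : K} (ha : a ≠ 0) : ∃ (n : ℤ) (u : A), π u ≠ 0 ∧
    a = (ϖ : K) ^ n * u := by
  have hϖ0 : (ϖ : K) ≠ 0 := fun h => hϖ.ne_zero (Subtype.ext h)
  -- first for `a : A`
  have key : ∀ a : A, a ≠ 0 → ∃ (n : ℕ) (u : A), π u ≠ 0 ∧ a = ϖ ^ n * u := by
    intro a ha
    by_contra hcon
    push Not at hcon
    have hall : ∀ n : ℕ, ϖ ^ n ∣ a := by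
      intro n
      induction n with
      | zero => simp
      | succ n ih =>
        obtain ⟨u, hu⟩ := ih
        by_cases h0 : π u = 0
        · obtain ⟨u', hu'⟩ := hϖ.dvd u h0
          exact ⟨u', by rw [hu, hu', pow_succ, mul_assoc]⟩
        · exact absurd hu (hcon n u h0)
    obtain ⟨n, hn⟩ := hϖ.arch a ha
    have h1 : ϖ ^ (n + 1) ∣ ϖ ^ n := (hall (n + 1)).trans hn
    obtain ⟨c, hc⟩ := h1
    have h2 : ϖ * c = 1 := by
      apply mul_left_cancel₀ (pow_ne_zero n hϖ.ne_zero)
      rw [mul_one, ← mul_assoc, ← pow_succ, ← hc]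
    have h3 := congrArg π h2
    rw [map_mul, hϖ.map, zero_mul, map_one] at h3
    exact zero_ne_one h3
  rcases A.mem_or_inv_mem a with h | h
  · obtain ⟨n, u, hu, he⟩ := key ⟨a, h⟩ (fun h0 => ha (congrArg Subtype.val h0))
    exact ⟨n, u, hu, by
      have := congrArg (Subtype.val) he
      simpa using this⟩
  · obtain ⟨n, u, hu, he⟩ := key ⟨a⁻¹, h⟩ (fun h0 => inv_ne_zero ha (congrArg Subtype.val h0))
    have hu0 : (u : K) ≠ 0 := by
      intro h0
      apply hu
      have : u = 0 := Subtype.ext h0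
      rw [this, map_zero]
    have hiu : (u : K)⁻¹ ∈ A := by
      by_contra hcon
      have h1 : (u : K) = (⟨u, u.2⟩ : A) := rfl
      have hnu : ¬ IsUnit u := by
        intro hU
        obtain ⟨v, hv⟩ := hU
        apply hcon
        have h2 : ((v⁻¹ : Aˣ).val : K) = (u : K)⁻¹ := by
          have h3 : (v.val : K) * ((v⁻¹ : Aˣ).val : K) = 1 :=
            congrArg Subtype.val (v.mul_inv)
          rw [hv] at h3
          exact eq_inv_of_mul_eq_one_right h3
        rw [← h2]
        exact (v⁻¹ : Aˣ).val.2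
      -- a nonunit of `A` has zero residue: `ϖ ∣ u` or `u ∣ 1`
      obtain ⟨n, hn⟩ := hϖ.arch u (fun h => hu0 (congrArg Subtype.val h))
      have key2 : ∀ n : ℕ, u ∣ ϖ ^ n → False := by
        intro n
        induction n with
        | zero =>
          intro h
          rw [pow_zero] at h
          exact hnu (isUnit_of_dvd_one h)
        | succ n ih =>
          rintro ⟨c, hc⟩
          have h2 := congrArg π hc
          rw [map_pow, hϖ.map, map_mul, zero_pow (Nat.succ_ne_zero n)] at h2
          have h3 : π c = 0 := by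
            rcases mul_eq_zero.1 h2.symm with h4 | h4
            · exact absurd h4 hu
            · exact h4
          obtain ⟨d, hd⟩ := hϖ.dvd c h3
          apply ih
          refine ⟨d, mul_left_cancel₀ hϖ.ne_zero ?_⟩
          rw [← pow_succ', hc, hd]
          ring
      exact key2 n hn
    refine ⟨-n, ⟨(u : K)⁻¹, hiu⟩, ?_, ?_⟩
    · intro h0
      have h1 : u * ⟨(u : K)⁻¹, hiu⟩ = 1 := Subtype.ext (mul_inv_cancel₀ hu0)
      have h2 := congrArg π h1
      rw [map_mul, h0, mul_zero, map_one] at h2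
      exact zero_ne_one h2
    · have h1 : a⁻¹ = (ϖ : K) ^ n * u := by
        have := congrArg (Subtype.val) he
        simpa using this
      rw [← inv_inv a, h1, mul_inv, zpow_neg, zpow_natCast]

/-- **Content**: a nonzero bounded series is a power of `ϖ` times a series with nonzero
reduction. -/
theorem exists_content {x : LaurentSeries K} (hx : x ∈ bddRing A) (hx0 : x ≠ 0) :
    ∃ (n : ℤ) (y : LaurentSeries A), coeffMap π y ≠ 0 ∧
      x = algebraMap K (LaurentSeries K) ((ϖ : K) ^ n) * coeffMap A.subtype y := by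
  have hϖ0 : (ϖ : K) ≠ 0 := fun h => hϖ.ne_zero (Subtype.ext h)
  obtain ⟨c, y, hc, h⟩ := hx
  obtain ⟨N, u, hu, hcu⟩ := exists_zpow hϖ hc
  -- `c x = y`
  have hy0 : y ≠ 0 := by
    rintro rfl
    rw [map_zero] at h
    rcases mul_eq_zero.1 h with h1 | h1
    · rw [map_eq_zero] at h1
      exact hc h1
    · exact hx0 h1
  -- divide `y` by the maximal power of `ϖ`
  have key : ∃ (n : ℕ) (y' : LaurentSeries A), coeffMap π y' ≠ 0 ∧
      y = HahnSeries.single 0 (ϖ ^ n) * y' := by
    by_contra hcon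
    push Not at hcon
    have hall : ∀ n : ℕ, ∃ y', y = HahnSeries.single 0 (ϖ ^ n) * y' := by
      intro n
      induction n with
      | zero => exact ⟨y, by simp⟩
      | succ n ih =>
        obtain ⟨y', hy'⟩ := ih
        by_cases h0 : coeffMap π y' = 0
        · obtain ⟨y'', hy''⟩ := exists_eq_smul hϖ h0
          exact ⟨y'', by
            rw [hy', hy'', ← mul_assoc, HahnSeries.single_mul_single, add_zero, ← pow_succ]⟩
        · exact absurd hy' (hcon n y' h0)
    obtain ⟨i, hi⟩ : ∃ i, y.coeff i ≠ 0 := by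
      by_contra hcon
      push Not at hcon
      exact hy0 (HahnSeries.ext (funext hcon))
    obtain ⟨n, hn⟩ := hϖ.arch _ hi
    obtain ⟨y', hy'⟩ := hall (n + 1)
    have h1 : ϖ ^ (n + 1) ∣ ϖ ^ n := by
      refine dvd_trans ⟨y'.coeff i, ?_⟩ hn
      conv_lhs => rw [hy']
      rw [HahnSeries.coeff_single_mul, sub_zero]
    obtain ⟨c, hc⟩ := h1
    have h2 : ϖ * c = 1 := by
      apply mul_left_cancel₀ (pow_ne_zero n hϖ.ne_zero)
      rw [mul_one, ← mul_assoc, ← pow_succ, ← hc]
    have h3 := congrArg π h2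
    rw [map_mul, hϖ.map, zero_mul, map_one] at h3
    exact zero_ne_one h3
  obtain ⟨n, y', hy', he⟩ := key
  -- the unit part of `c`
  have hu0 : (u : K) ≠ 0 := by
    intro h0
    apply hu
    have : u = 0 := Subtype.ext h0
    rw [this, map_zero]
  obtain ⟨n₂, u₂, hu₂, he₂⟩ := exists_zpow hϖ (inv_ne_zero hu0)
  have hn₂ : n₂ = 0 := by
    have h1 : (1 : K) = (ϖ : K) ^ n₂ * ((u₂ * u : A) : K) := by
      rw [MulMemClass.coe_mul, ← mul_assoc, ← he₂, inv_mul_cancel₀ hu0]
    have h2 : π (u₂ * u) ≠ 0 := by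
      rw [map_mul]
      exact mul_ne_zero hu₂ hu
    rcases lt_trichotomy n₂ 0 with hn | hn | hn
    · exfalso
      obtain ⟨j, rfl⟩ : ∃ j : ℕ, n₂ = -(j + 1 : ℕ) := ⟨(-n₂ - 1).toNat, by omega⟩
      have h3 : u₂ * u = ϖ ^ (j + 1) := by
        apply Subtype.ext
        rw [zpow_neg, zpow_natCast, eq_inv_mul_iff_mul_eq₀ (pow_ne_zero _ hϖ0), mul_one] at h1
        rw [← h1]
        rfl
      rw [h3, map_pow, hϖ.map, zero_pow (Nat.succ_ne_zero j)] at h2
      exact h2 rfl
    · exact hn
    · exfalso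
      obtain ⟨j, rfl⟩ : ∃ j : ℕ, n₂ = (j + 1 : ℕ) := ⟨(n₂ - 1).toNat, by omega⟩
      have h3 : 1 = ϖ ^ (j + 1) * (u₂ * u) := by
        apply Subtype.ext
        rw [zpow_natCast] at h1
        exact h1
      have h4 := congrArg π h3
      rw [map_mul, map_pow, hϖ.map, zero_pow (Nat.succ_ne_zero j), zero_mul, map_one] at h4
      exact one_ne_zero h4
  subst hn₂
  rw [zpow_zero, one_mul] at he₂
  refine ⟨n - N, HahnSeries.single 0 u₂ * y', ?_, ?_⟩
  · rw [map_mul, coeffMap_single]
    refine mul_ne_zero ?_ hy'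
    rw [ne_eq, HahnSeries.single_eq_zero_iff]
    exact hu₂
  · have h1 : x = algebraMap K (LaurentSeries K) c⁻¹ * coeffMap A.subtype y := by
      rw [← h, ← mul_assoc, ← map_mul, inv_mul_cancel₀ hc, map_one, one_mul]
    rw [h1, he, map_mul, coeffMap_single_eq, map_mul, coeffMap_single_eq, ← he₂, hcu, ← mul_assoc,
      ← mul_assoc, ← map_mul, ← map_mul]
    congr 2
    rw [mul_inv, zpow_sub₀ hϖ0, zpow_natCast]
    push_cast
    field_simp

end Uniformizer

end Fermat.Agent.H99

end
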