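import Mathlib
import Fermat.Agent.H18LiftKK
import Fermat.Agent.H99Gauss

/-!
# Lifting in terms of the Gauss ring `GR` (helper18, CARAYOL C2)
-/

set_option autoImplicit false

noncomputable section

open AlgebraicCurve ModularCurve IntermediateField Fermat.Agent.H3RR Fermat.Agent.H94
open scoped IntermediateField.algebraAdjoinAdjoin

namespace Fermat.Agent.H18

section GR

variable {L : Type*} [Field L] [Algebra ℚ L] (A : ValuationSubring L) {k : Type*} [Field k]
  (π : A →+* k) [IsLocalHom π] (N : ℕ) (hπ : Function.Surjective π) (hdeg : H42.DegLE L k N)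

theorem mem_GR_of_mem_B (b : (H42.modReductionData A π N hπ hdeg).B) :
    ((b : laurentBaseChange L (modularFunctionFieldFull N)) : LaurentSeries L) ∈ H99.GR A π ∧
    H99.gres A π ((b : laurentBaseChange L (modularFunctionFieldFull N)) : LaurentSeries L) =
      (((H42.modReductionData A π N hπ hdeg).ρ b : modularFunctionFieldFullC k N) :
        LaurentSeries k) := by
  obtain ⟨f, ⟨⟨y, hyF⟩, y', hy'⟩, ⟨⟨z, hzF⟩, z', hz'⟩, hz, hf⟩ := b
  obtain rfl : coeffMap A.subtype y' = y := hy'
  obtain rfl : coeffMap A.subtype z' = z := hz'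
  have hρz := H42.coe_modGauss_ρ A π N hπ hdeg z' hzF
  have hρy := H42.coe_modGauss_ρ A π N hπ hdeg y' hyF
  have hz0 : coeffMap π z' ≠ 0 := by
    intro h0
    apply hz
    apply Subtype.ext
    exact hρz.trans h0
  have h1 : (f : LaurentSeries L) * coeffMap A.subtype z' = coeffMap A.subtype y' :=
    congrArg (fun w : laurentBaseChange L (modularFunctionFieldFull N) => (w : LaurentSeries L)) hf
  refine ⟨H99.gr_mem_iff.2 ⟨y', z', hz0, h1⟩, ?_⟩
  rw [H99.gres_eq_div hz0 h1]
  have h2 : (H42.modReductionData A π N hπ hdeg).ρ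
      ⟨f, ⟨⟨coeffMap A.subtype y', hyF⟩, ⟨y', rfl⟩⟩, ⟨⟨coeffMap A.subtype z', hzF⟩, ⟨z', rfl⟩⟩,
        hz, hf⟩ =
      (H42.modGauss A π N hπ hdeg).ρ ⟨⟨coeffMap A.subtype y', hyF⟩, ⟨y', rfl⟩⟩ /
      (H42.modGauss A π N hπ hdeg).ρ ⟨⟨coeffMap A.subtype z', hzF⟩, ⟨z', rfl⟩⟩ :=
    (H42.modGauss A π N hπ hdeg).res_eq_div _ hz hf
  have h3 := congrArg (fun w : modularFunctionFieldFullC k N => (w : LaurentSeries k)) h2
  refine Eq.trans ?_ h3.symm
  show _ = (((H42.modGauss A π N hπ hdeg).ρ ⟨⟨coeffMap A.subtype y', hyF⟩, ⟨y', rfl⟩⟩ :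
      modularFunctionFieldFullC k N) : LaurentSeries k) /
    (((H42.modGauss A π N hπ hdeg).ρ ⟨⟨coeffMap A.subtype z', hzF⟩, ⟨z', rfl⟩⟩ :
      modularFunctionFieldFullC k N) : LaurentSeries k)
  rw [hρz, hρy]

theorem mem_A_of_algebraMap_mem_GR {c : L}
    (hc : algebraMap L (LaurentSeries L) c ∈ H99.GR A π) : c ∈ A := by
  rcases A.mem_or_inv_mem c with h | h
  · exact h
  · by_contra hcA
    have h0 : c ≠ 0 := by rintro rfl; exact hcA A.zero_mem
    have hnu : ¬ IsUnit (⟨c⁻¹, h⟩ : A) := by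
      intro hu
      obtain ⟨v, hv⟩ := hu
      apply hcA
      have h1 : ((v⁻¹ : Aˣ) : A) * ⟨c⁻¹, h⟩ = 1 := by rw [← hv, Units.inv_mul]
      have h2 : (((v⁻¹ : Aˣ) : A) : L) * c⁻¹ = 1 := congrArg Subtype.val h1
      have h3 : c = (((v⁻¹ : Aˣ) : A) : L) := by
        rw [mul_inv_eq_one₀ h0] at h2
        exact h2.symm
      rw [h3]
      exact (((v⁻¹ : Aˣ) : A)).2
    have hπ0 : π ⟨c⁻¹, h⟩ = 0 := by
      by_contra h1
      exact hnu ((isUnit_map_iff π _).1 (isUnit_iff_ne_zero.2 h1))
    have h2 := H99.gres_mul hc (H99.const_mem (π := π) ⟨c⁻¹, h⟩)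
    rw [H99.gres_const, hπ0, map_zero, mul_zero] at h2
    have h3 : algebraMap L (LaurentSeries L) c *
        algebraMap L (LaurentSeries L) ((⟨c⁻¹, h⟩ : A) : L) = 1 := by
      rw [← map_mul, ← map_one (algebraMap L (LaurentSeries L))]
      congr 1
      exact mul_inv_cancel₀ h0
    rw [h3, H99.gres_one] at h2
    exact one_ne_zero h2

/-- The valuation ring of the function field is the Gauss ring. -/
theorem mem_B_iff_mem_GR {f : laurentBaseChange L (modularFunctionFieldFull N)} :
    f ∈ (H42.modReductionData A π N hπ hdeg).B ↔ (f : LaurentSeries L) ∈ H99.GR A π := by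
  constructor
  · exact fun h => (mem_GR_of_mem_B A π N hπ hdeg ⟨f, h⟩).1
  · intro h
    by_cases h0 : f = 0
    · rw [h0]; exact zero_mem _
    obtain ⟨c, hc, u, hu, hρ⟩ := exists_scale' (H42.modReductionData A π N hπ hdeg) h0
    have hu1 := mem_GR_of_mem_B A π N hπ hdeg u
    have hu2 : H99.gres A π ((u : laurentBaseChange L (modularFunctionFieldFull N)) :
        LaurentSeries L) ≠ 0 := by
      rw [hu1.2]
      exact fun h1 => hρ (Subtype.ext h1)
    have hu0 : ((u : laurentBaseChange L (modularFunctionFieldFull N)) : LaurentSeries L) ≠ 0 := by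
      intro h1
      rw [h1, H99.gres_zero] at hu2
      exact hu2 rfl
    have h2 : (f : LaurentSeries L) = algebraMap L (LaurentSeries L) c *
        ((u : laurentBaseChange L (modularFunctionFieldFull N)) : LaurentSeries L) :=
      congrArg (fun w : laurentBaseChange L (modularFunctionFieldFull N) => (w : LaurentSeries L)) hu
    have h3 := H99.div_mem_gr h hu2
    rw [h2, mul_div_cancel_right₀ _ hu0] at h3
    have hcA := mem_A_of_algebraMap_mem_GR A π h3
    rw [hu]
    exact mul_mem ((H42.modReductionData A π N hπ hdeg).mem_B ⟨c, hcA⟩) u.2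

end GR

section Inv

theorem adjoin_inv_eq {K E : Type*} [Field K] [Field E] [Algebra K E] (x : E) :
    K⟮x⁻¹⟯ = K⟮x⟯ := by
  apply le_antisymm
  · rw [adjoin_simple_le_iff]
    exact inv_mem (mem_adjoin_simple_self K x)
  · rw [adjoin_simple_le_iff]
    have := inv_mem (mem_adjoin_simple_self K x⁻¹)
    rwa [inv_inv] at this

theorem finrank_adjoin_inv {K E : Type*} [Field K] [Field E] [Algebra K E] (x : E) :
    Module.finrank K⟮x⁻¹⟯ E = Module.finrank K⟮x⟯ E := by
  rw [adjoin_inv_eq]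

theorem isSeparable_adjoin_inv {K E : Type*} [Field K] [Field E] [Algebra K E] (x : E)
    (h : Algebra.IsSeparable K⟮x⟯ E) : Algebra.IsSeparable K⟮x⁻¹⟯ E := by
  rw [adjoin_inv_eq]
  exact h

theorem exists_B_inv {K F k E : Type*} [Field K] [Field F] [Algebra K F] [Field k] [Field E]
    [Algebra k E] (R : H40.ReductionData K F k E) (x : R.B) (hx : R.ρ x ≠ 0) :
    ∃ y : R.B, (y : F) = (x : F)⁻¹ ∧ R.ρ y = (R.ρ x)⁻¹ := by
  obtain ⟨u, hu⟩ := isUnit_of_ρ_ne_zero R hx
  have h1 : x * ((u⁻¹ : R.Bˣ) : R.B) = 1 := by rw [← hu, Units.mul_inv]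
  refine ⟨((u⁻¹ : R.Bˣ) : R.B), ?_, ?_⟩
  · exact eq_inv_of_mul_eq_one_right (congrArg Subtype.val h1)
  · have h2 := congrArg R.ρ h1
    rw [map_mul, map_one] at h2
    exact eq_inv_of_mul_eq_one_right h2

end Inv

section Main

variable {K L : Type*} [Field K] [Field L] [Algebra ℚ K] [Algebra ℚ L] [Algebra K L]
  (AK : ValuationSubring K) (AL : ValuationSubring L)
  {k : Type*} [Field k] (πK : AK →+* k) (πL : AL →+* k) (iA : AK →+* AL)
  (hiA : ∀ a, ((iA a : AL) : L) = algebraMap K L a) (hπ : πK = πL.comp iA) (m : ℕ)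
  (hπK : Function.Surjective πK) (hπL : Function.Surjective πL)
  (hdK : H42.DegLE K k m)
  [IsAlgClosed L] [IsAlgClosed k] [IsLocalHom πK] [IsLocalHom πL]
  [Algebra.IsAlgebraic K L] (hm : (m : k) ≠ 0)
  (hfix : ∀ z : L, (∀ σ : L ≃ₐ[K] L, σ z = z) → ∃ a : K, algebraMap K L a = z)

include hiA hπ hπL hm hfix in
/-- **LIFT over `K` for functions integral over `k[1/j]`** -/
theorem lift_inv_K (hg : GenusFFEq L k m) {c : LaurentSeries k}
    (hc : c ∈ modularFunctionFieldFullC k m)
    (hci : IsIntegral (Algebra.adjoin k {(jqModC k)⁻¹}) c) :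
    ∃ b : (H42.modReductionData AK πK m hπK hdK).B,
      (((H42.modReductionData AK πK m hπK hdK).ρ b : modularFunctionFieldFullC k m) :
        LaurentSeries k) = c ∧
      IsIntegral (Algebra.adjoin K {(jqModC K)⁻¹})
        ((b : laurentBaseChange K (modularFunctionFieldFull m)) : LaurentSeries K) := by
  have : CharZero L := algebraRat.charZero L
  have hm0 : m ≠ 0 := by rintro rfl; exact hm Nat.cast_zero
  have hdL : H42.DegLE L k m := H88.degLE m hm
  have i1 := H42.funField_left (L := L) (k := k) m hdL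
  have i2 := H42.funField_right (L := L) (k := k) m hdL
  have hjL : jqModC L ∈ laurentBaseChange L (modularFunctionFieldFull m) := by
    rw [H42.laurentBaseChange_full]; exact jqModC_mem_full L m
  obtain ⟨x, hx1, hx2⟩ := H88.exists_j AL πL hπL hdL hjL
  have d1 := H88.finrank_j L m _ (H42.laurentBaseChange_full L m) hjL (Nat.cast_ne_zero.mpr hm0)
  have d3 := H88.finrank_j k m _ rfl (jqModC_mem_full k m) hm
  have htr := transcendental_ρ_aux (H42.modReductionData AL πL m hπL hdL) x
    (jqModC_mem_full k m) hx2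
  have hsep := isSeparable_ρ_aux (H42.modReductionData AL πL m hπL hdL) x
    (jqModC_mem_full k m) hx2
  obtain ⟨y, hy1, hy2⟩ := exists_B_inv (H42.modReductionData AL πL m hπL hdL) x
    (ne_zero_of_transcendental htr)
  have htry : Transcendental k ((H42.modReductionData AL πL m hπL hdL).ρ y) := by
    rw [hy2]
    exact fun h => htr (by simpa using h.inv)
  have he : IsIntegral (Algebra.adjoin k {(H42.modReductionData AL πL m hπL hdL).ρ y})
      (⟨c, hc⟩ : modularFunctionFieldFullC k m) := by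
    rw [hy2, hx2]
    exact (isIntegral_adjoin_iff (modularFunctionFieldFullC k m).val
      (⟨jqModC k, jqModC_mem_full k m⟩⁻¹) ⟨c, hc⟩).1 hci
  obtain ⟨b, hb, hb'⟩ := lift_aux_K (H42.modReductionData AK πK m hπK hdK)
    (H42.modReductionData AL πL m hπL hdL) (incKL m) (fun f => rfl) (incKL_algebraMap m)
    (red_comp AK AL πK πL iA hiA hπ m hπK hπL hdK hdL) hfix
    (fun σ f hf => by
      rw [H42.laurentBaseChange_full] at hf ⊢
      exact H60.coeffMap_mem_fullC (σ : L →+* L) hf)
    (fun g hg => H90.exists_of_coeff_mem _ hg) y htry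
    (fun σ => by
      rw [hy1, hx1]
      show coeffMap _ (jqModC L)⁻¹ = (jqModC L)⁻¹
      rw [map_inv₀, coeffMap_jqModC])
    (by
      rw [hy1, hy2, finrank_adjoin_inv, finrank_adjoin_inv, hx1, hx2]
      exact d1.1.trans d3.1.symm)
    (by rw [hy2]; exact isSeparable_adjoin_inv _ hsep) hg he
  refine ⟨b, by rw [hb], ?_⟩
  have h1 := (isIntegral_adjoin_iff (laurentBaseChange L (modularFunctionFieldFull m)).val _ _).2
    hb'
  rw [hy1, hx1] at h1
  have h2 : IsIntegral (Algebra.adjoin L {coeffMap (algebraMap K L) (jqModC K)⁻¹})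
      (coeffMap (algebraMap K L)
        ((b : laurentBaseChange K (modularFunctionFieldFull m)) : LaurentSeries K)) := by
    rw [map_inv₀, coeffMap_jqModC]
    exact h1
  exact isIntegral_of_ext (coeffMap (algebraMap K L)) (fun a => by
    rw [algebraMap_laurentSeries_eq_single, algebraMap_laurentSeries_eq_single,
      coeffMap_single]) h2

include hiA hπ hπL hm hfix hπK in
/-- **LIFT over `K`**, Gauss ring form (helper99, helper68). -/
theorem lift_Cm_GR (hg : GenusFFEq L k m) {c : LaurentSeries k} (hc : c ∈ Cm k m) :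
    ∃ f : laurentBaseChange K (modularFunctionFieldFull m),
      IsIntegral (Algebra.adjoin K {jqModC K}) (f : LaurentSeries K) ∧
      (f : LaurentSeries K) ∈ H99.GR AK πK ∧ H99.gres AK πK (f : LaurentSeries K) = c := by
  have : CharZero K := algebraRat.charZero K
  have hdK := degLE_of_charZero K (k := k) m hm
  obtain ⟨b, hb, hb'⟩ := lift_Cm_K AK AL πK πL iA hiA hπ m hπK hπL hdK hm hfix hg hc
  obtain ⟨h1, h2⟩ := mem_GR_of_mem_B AK πK m hπK hdK b
  exact ⟨b, hb', h1, h2.trans hb⟩

include hiA hπ hπL hm hfix hπK in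
/-- **LIFT over `K` at the cusps**, Gauss ring form. -/
theorem lift_inv_GR (hg : GenusFFEq L k m) {c : LaurentSeries k}
    (hc : c ∈ modularFunctionFieldFullC k m)
    (hci : IsIntegral (Algebra.adjoin k {(jqModC k)⁻¹}) c) :
    ∃ f : laurentBaseChange K (modularFunctionFieldFull m),
      IsIntegral (Algebra.adjoin K {(jqModC K)⁻¹}) (f : LaurentSeries K) ∧
      (f : LaurentSeries K) ∈ H99.GR AK πK ∧ H99.gres AK πK (f : LaurentSeries K) = c := by
  have : CharZero K := algebraRat.charZero K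
  have hdK := degLE_of_charZero K (k := k) m hm
  obtain ⟨b, hb, hb'⟩ := lift_inv_K AK AL πK πL iA hiA hπ m hπK hπL hdK hm hfix hg hc hci
  obtain ⟨h1, h2⟩ := mem_GR_of_mem_B AK πK m hπK hdK b
  exact ⟨b, hb', h1, h2.trans hb⟩

include hiA hπ hπL hm hπK in
/-- the residue of an integral function of level `m` -/
theorem gres_mem_Cm {f : LaurentSeries K}
    (hf : f ∈ laurentBaseChange K (modularFunctionFieldFull m))
    (hfi : IsIntegral (Algebra.adjoin K {jqModC K}) f) (hfG : f ∈ H99.GR AK πK) :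
    H99.gres AK πK f ∈ Cm k m := by
  have : CharZero K := algebraRat.charZero K
  have hdK := degLE_of_charZero K (k := k) m hm
  have hB := (mem_B_iff_mem_GR AK πK m hπK hdK (f := ⟨f, hf⟩)).2 hfG
  have h1 := (mem_GR_of_mem_B AK πK m hπK hdK ⟨_, hB⟩).2
  have h2 := res_mem_Cm_K AK AL πK πL iA hiA hπ m hπK hπL hdK hm (b := ⟨_, hB⟩) hfi
  rw [← h1] at h2
  exact h2

end Main

end Fermat.Agent.H18
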