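import Mathlib

/-!
# Chart rings as integral closures (helper16, CARAYOL [C6])

`O` a DVR with uniformizer `ϖ` and fraction field `K`, `F / K(J)` finite, `V i` valuation rings of
`F` which all induce the Gauss valuation on `K(J)`. If there are `[F : K(J)]` elements of `⋂ V i`
which are "linearly independent modulo `ϖ`", then every element of `⋂ V i` is integral over the
Gauss ring, and every element of `⋂ V i` which is integral over `K[J]` is integral over `O[J]`.
-/

set_option autoImplicit false

namespace Fermat.Agent.H16.Ch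

open Polynomial

variable {O K F : Type*} [CommRing O] [IsDomain O] [IsDiscreteValuationRing O] [Field K] [Field F]
  [Algebra O K] [IsFractionRing O K] [Algebra K F] [Algebra O F] [IsScalarTower O K F]

/-- `V` induces the Gauss valuation on `K(J)`. -/
structure GaussAt (ϖ : O) (J : F) (V : ValuationSubring F) : Prop where
  mem : ∀ P : O[X], aeval J P ∈ V
  inv_mem : ∀ P : O[X], ¬ C ϖ ∣ P → (aeval J P)⁻¹ ∈ V
  not_mem : (algebraMap O F ϖ)⁻¹ ∉ V

section Aux

omit [IsDiscreteValuationRing O] in
lemma exists_pow_mul {ϖ : O} [IsNoetherianRing O] (hϖ : Prime ϖ) {P : O[X]} (hP : P ≠ 0) :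
    ∃ (k : ℕ) (P₀ : O[X]), P = C ϖ ^ k * P₀ ∧ ¬ C ϖ ∣ P₀ := by
  have hprime : Prime (C ϖ : O[X]) := Polynomial.prime_C_iff.mpr hϖ
  have hfin : FiniteMultiplicity (C ϖ) P :=
    FiniteMultiplicity.of_prime_left hprime hP
  obtain ⟨P₀, h1, h2⟩ := hfin.exists_eq_pow_mul_and_not_dvd
  exact ⟨_, P₀, h1, h2⟩

lemma eq_zero_of_forall_pow_dvd {ϖ : O} (hϖ : Prime ϖ) {P : O[X]} (h : ∀ k, C ϖ ^ k ∣ P) :
    P = 0 := by
  by_contra hP
  have hprime : Prime (C ϖ : O[X]) := Polynomial.prime_C_iff.mpr hϖ
  have hfin : FiniteMultiplicity (C ϖ) P :=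
    FiniteMultiplicity.of_prime_left hprime hP
  exact hfin.not_pow_dvd_of_multiplicity_lt (Nat.lt_succ_self _) (h _)

variable (O) in
/-- elements of `K(J)` in terms of polynomials over `O`. -/
lemma exists_num_den {ϖ : O} (hϖ : Prime ϖ) {J : F} (hJ : Transcendental K J)
    (x : IntermediateField.adjoin K {J}) :
    ∃ (k : ℕ) (P Q : O[X]), ¬ C ϖ ∣ Q ∧
      algebraMap O F ϖ ^ k * aeval J Q * (x : F) = aeval J P := by
  obtain ⟨r, s, hx⟩ := (IntermediateField.mem_adjoin_simple_iff K (x : F)).mp x.2
  by_cases hs : s = 0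
  · refine ⟨0, 0, 1, ?_, ?_⟩
    · intro h
      have h1 := isUnit_of_dvd_one h
      rw [Polynomial.isUnit_C] at h1
      exact hϖ.not_isUnit h1
    · rw [hx, hs]; simp
  obtain ⟨d, hd, h1⟩ := IsLocalization.integerNormalization_spec (nonZeroDivisors O) r
  obtain ⟨d', hd', h2⟩ := IsLocalization.integerNormalization_spec (nonZeroDivisors O) s
  set r₁ := IsLocalization.integerNormalization (nonZeroDivisors O) r
  set s₁ := IsLocalization.integerNormalization (nonZeroDivisors O) s
  have hd0 : d ≠ 0 := nonZeroDivisors.ne_zero hd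
  have hd0' : d' ≠ 0 := nonZeroDivisors.ne_zero hd'
  have hs1 : s₁ ≠ 0 := by
    intro h
    rw [h, Polynomial.map_zero] at h2
    have h3 : algebraMap O K d' • s = 0 := by
      rw [algebraMap_smul]; exact h2.symm
    rcases smul_eq_zero.mp h3 with h4 | h4
    · exact hd0' ((IsFractionRing.injective O K) (by rw [h4, map_zero]))
    · exact hs h4
  have e1 : aeval J r₁ = algebraMap O F d * aeval J r := by
    have := congrArg (aeval J) h1
    rw [aeval_map_algebraMap] at this
    rw [this, ← algebraMap_smul K, map_smul, Algebra.smul_def,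
      ← IsScalarTower.algebraMap_apply]
  have e2 : aeval J s₁ = algebraMap O F d' * aeval J s := by
    have := congrArg (aeval J) h2
    rw [aeval_map_algebraMap] at this
    rw [this, ← algebraMap_smul K, map_smul, Algebra.smul_def,
      ← IsScalarTower.algebraMap_apply]
  have hs' : aeval J s ≠ 0 := by
    intro h
    exact hs ((transcendental_iff.mp hJ) s h)
  obtain ⟨k, Q, hQ, hQ'⟩ := exists_pow_mul hϖ (P := C d * s₁)
    (mul_ne_zero (C_ne_zero.mpr hd0) hs1)
  refine ⟨k, C d' * r₁, Q, hQ', ?_⟩
  have e3 : aeval J (C d * s₁) = algebraMap O F ϖ ^ k * aeval J Q := by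
    rw [hQ, map_mul, map_pow, aeval_C]
  rw [← e3, map_mul, map_mul, aeval_C, aeval_C, e1, e2, hx]
  field_simp

variable (O) in
/-- common denominators -/
lemma exists_common {ϖ : O} (hϖ : Prime ϖ) {J : F} (hJ : Transcendental K J) {β : Type*}
    (s : Finset β) (x : β → IntermediateField.adjoin K {J}) :
    ∃ (k : ℕ) (P : β → O[X]) (Q : O[X]), ¬ C ϖ ∣ Q ∧
      ∀ j ∈ s, algebraMap O F ϖ ^ k * aeval J Q * (x j : F) = aeval J (P j) := by
  classical
  have hprime : Prime (C ϖ : O[X]) := Polynomial.prime_C_iff.mpr hϖ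
  induction s using Finset.cons_induction with
  | empty =>
    refine ⟨0, 0, 1, ?_, by simp⟩
    intro h
    exact hprime.not_isUnit (isUnit_of_dvd_one h)
  | cons a s ha ih =>
    obtain ⟨k, P, Q, hQ, h⟩ := ih
    obtain ⟨k', P', Q', hQ', h'⟩ := exists_num_den O hϖ hJ (x a)
    refine ⟨k + k', fun j => if j = a then C ϖ ^ k * Q * P' else C ϖ ^ k' * Q' * P j, Q * Q',
      fun hd => (hprime.dvd_or_dvd hd).elim hQ hQ', ?_⟩
    intro j hj
    by_cases hja : j = a
    · subst hja
      simp only [↓reduceIte]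
      rw [map_mul, map_mul, map_mul, map_pow, aeval_C, ← h']
      ring
    · simp only [hja, ↓reduceIte]
      rw [map_mul, map_mul, map_mul, map_pow, aeval_C,
        ← h j ((Finset.mem_cons.mp hj).resolve_left hja)]
      ring

end Aux

section Main

variable {ϖ : O} {J : F} {ι : Type*} {V : ι → ValuationSubring F} {β : Type*} [Fintype β]
  {b : β → F}

/-- linear independence modulo `ϖ` of the family `b` -/
def IndepMod (ϖ : O) (J : F) (V : ι → ValuationSubring F) (b : β → F) : Prop :=
  ∀ P : β → O[X], (∀ i, (∑ j, aeval J (P j) * b j) / algebraMap O F ϖ ∈ V i) →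
    ∀ j, C ϖ ∣ P j

lemma linearIndependent_of_indepMod (hϖ : Prime ϖ) (hJ : Transcendental K J)
    (hb : IndepMod ϖ J V b) : LinearIndependent (IntermediateField.adjoin K {J}) b := by
  rw [Fintype.linearIndependent_iff]
  intro l hl j
  have hϖ0 : algebraMap O F ϖ ≠ 0 := by
    rw [IsScalarTower.algebraMap_apply O K F, ne_eq, map_eq_zero]
    exact fun h => hϖ.ne_zero ((IsFractionRing.injective O K) (by rw [h, map_zero]))
  obtain ⟨k, P, Q, hQ, h⟩ := exists_common O hϖ hJ Finset.univ l
  have h1 : ∑ j, aeval J (P j) * b j = 0 := by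
    have h2 : ∀ j, aeval J (P j) * b j = algebraMap O F ϖ ^ k * aeval J Q * ((l j : F) * b j) := by
      intro j
      rw [← h j (Finset.mem_univ j)]; ring
    simp_rw [h2]
    rw [← Finset.mul_sum]
    have h3 : ∑ j, (l j : F) * b j = 0 := hl
    rw [h3, mul_zero]
  have h4 : ∀ n : ℕ, ∃ P' : β → O[X], (∀ j, P j = C ϖ ^ n * P' j) ∧
      ∑ j, aeval J (P' j) * b j = 0 := by
    intro n
    induction n with
    | zero => exact ⟨P, fun j => by simp, h1⟩
    | succ n ih =>
      obtain ⟨P', hP', hs⟩ := ih
      have h5 := hb P' (fun i => by rw [hs, zero_div]; exact zero_mem _)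
      choose P'' hP'' using h5
      refine ⟨P'', fun j => ?_, ?_⟩
      · rw [hP', hP'']; ring
      · have h6 : ∑ j, aeval J (P' j) * b j = algebraMap O F ϖ * ∑ j, aeval J (P'' j) * b j := by
          rw [Finset.mul_sum]
          refine Finset.sum_congr rfl fun j _ => ?_
          rw [hP'', map_mul, aeval_C]; ring
        rw [hs] at h6
        exact (mul_eq_zero.mp h6.symm).resolve_left hϖ0
  have h5 : P j = 0 := eq_zero_of_forall_pow_dvd hϖ fun n => by
    obtain ⟨P', hP', -⟩ := h4 n
    exact ⟨P' j, hP' j⟩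
  have h6 := h j (Finset.mem_univ j)
  rw [h5, map_zero] at h6
  have hQ0 : aeval J Q ≠ 0 := by
    have hJ' : Transcendental O J := hJ.restrictScalars (IsFractionRing.injective O K)
    intro h0
    apply hQ
    rw [(transcendental_iff.mp hJ') Q h0]
    exact dvd_zero _
  have h7 : ((l j : IntermediateField.adjoin K {J}) : F) = 0 := by
    rcases mul_eq_zero.mp h6 with h8 | h8
    · rcases mul_eq_zero.mp h8 with h9 | h9
      · exact absurd h9 (pow_ne_zero _ hϖ0)
      · exact absurd h9 hQ0
    · exact h8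
  exact Subtype.ext h7

/-- every element of `⋂ V i` is a combination of the `b j`, up to a primitive polynomial. -/
theorem exists_repr (hϖ : Prime ϖ) (hJ : Transcendental K J) (hb : IndepMod ϖ J V b)
    (hG : ∀ i, GaussAt ϖ J (V i))
    (hcard : Fintype.card β = Module.finrank (IntermediateField.adjoin K {J}) F) (x : F)
    (hβ : 0 < Fintype.card β)
    (hx : ∀ i, x ∈ V i) : ∃ (P : β → O[X]) (Q : O[X]), ¬ C ϖ ∣ Q ∧
      aeval J Q * x = ∑ j, aeval J (P j) * b j := by
  have hli := linearIndependent_of_indepMod (K := K) hϖ hJ hb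
  have : Nonempty β := Fintype.card_pos_iff.mp hβ
  let B := basisOfLinearIndependentOfCardEqFinrank hli hcard
  have hϖ0 : algebraMap O F ϖ ≠ 0 := by
    rw [IsScalarTower.algebraMap_apply O K F, ne_eq, map_eq_zero]
    exact fun h => hϖ.ne_zero ((IsFractionRing.injective O K) (by rw [h, map_zero]))
  obtain ⟨k, P, Q, hQ, h⟩ := exists_common O hϖ hJ Finset.univ fun j => B.repr x j
  have h1 : x = ∑ j, ((B.repr x j : IntermediateField.adjoin K {J}) : F) * b j := by
    conv_lhs => rw [← B.sum_repr x]
    refine Finset.sum_congr rfl fun j _ => ?_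
    rw [coe_basisOfLinearIndependentOfCardEqFinrank]
    rfl
  have h2 : algebraMap O F ϖ ^ k * aeval J Q * x = ∑ j, aeval J (P j) * b j := by
    conv_lhs => rw [h1, Finset.mul_sum]
    refine Finset.sum_congr rfl fun j _ => ?_
    rw [← h j (Finset.mem_univ j)]
    ring
  clear h
  induction k generalizing P with
  | zero => exact ⟨P, Q, hQ, by rw [← h2]; ring⟩
  | succ k ih =>
    have h5 := hb P (fun i => by
      rw [← h2]
      have : algebraMap O F ϖ ^ (k + 1) * aeval J Q * x / algebraMap O F ϖ =
          aeval J (C ϖ ^ k * Q) * x := by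
        rw [div_eq_iff hϖ0, map_mul, map_pow, aeval_C]
        ring
      rw [this]
      exact mul_mem ((hG i).mem _) (hx i))
    choose P' hP' using h5
    apply ih P'
    have h6 : ∑ j, aeval J (P j) * b j = algebraMap O F ϖ * ∑ j, aeval J (P' j) * b j := by
      rw [Finset.mul_sum]
      refine Finset.sum_congr rfl fun j _ => ?_
      rw [hP', map_mul, aeval_C]; ring
    rw [h6] at h2
    apply mul_left_cancel₀ hϖ0
    rw [← h2]; ring

lemma GaussAt.mem_of_mem {V₀ V₁ : ValuationSubring F} (h0 : GaussAt ϖ J V₀)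
    (h1 : GaussAt ϖ J V₁) (hϖ : Prime ϖ) (hJ : Transcendental K J)
    (y : IntermediateField.adjoin K {J}) (hy : (y : F) ∈ V₀) : (y : F) ∈ V₁ := by
  have hϖ0 : algebraMap O F ϖ ≠ 0 := by
    rw [IsScalarTower.algebraMap_apply O K F, ne_eq, map_eq_zero]
    exact fun h => hϖ.ne_zero ((IsFractionRing.injective O K) (by rw [h, map_zero]))
  have hJ' : Transcendental O J := hJ.restrictScalars (IsFractionRing.injective O K)
  obtain ⟨k, P, Q, hQ, h⟩ := exists_num_den O hϖ hJ y
  have hQ0 : aeval J Q ≠ 0 := by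
    intro h0
    apply hQ
    rw [(transcendental_iff.mp hJ') Q h0]
    exact dvd_zero _
  by_cases hP : P = 0
  · rw [hP, map_zero] at h
    have : (y : F) = 0 := by
      rcases mul_eq_zero.mp h with h8 | h8
      · rcases mul_eq_zero.mp h8 with h9 | h9
        · exact absurd h9 (pow_ne_zero _ hϖ0)
        · exact absurd h9 hQ0
      · exact h8
    rw [this]; exact zero_mem _
  obtain ⟨a, P₀, hPa, hP₀⟩ := exists_pow_mul hϖ hP
  have hP00 : aeval J P₀ ≠ 0 := by
    intro h0
    apply hP₀
    rw [(transcendental_iff.mp hJ') P₀ h0]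
    exact dvd_zero _
  rw [hPa, map_mul, map_pow, aeval_C] at h
  rcases le_or_gt k a with hka | hka
  · obtain ⟨l, rfl⟩ := Nat.exists_eq_add_of_le hka
    have h2 : (y : F) = aeval J (C ϖ ^ l * P₀) * (aeval J Q)⁻¹ := by
      rw [map_mul, map_pow, aeval_C]
      rw [pow_add] at h
      have h3 : aeval J Q * (y : F) = algebraMap O F ϖ ^ l * aeval J P₀ := by
        apply mul_left_cancel₀ (pow_ne_zero k hϖ0)
        rw [← mul_assoc, h]; ring
      rw [← h3]
      field_simp
    rw [h2]
    exact mul_mem (h1.mem _) (h1.inv_mem _ hQ)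
  · exfalso
    obtain ⟨l, rfl⟩ := Nat.exists_eq_add_of_lt hka
    have h3 : (algebraMap O F ϖ)⁻¹ = aeval J (C ϖ ^ l * Q) * (y : F) * (aeval J P₀)⁻¹ := by
      have h4 : algebraMap O F ϖ * (aeval J (C ϖ ^ l * Q) * (y : F)) = aeval J P₀ := by
        apply mul_left_cancel₀ (pow_ne_zero a hϖ0)
        rw [← h, map_mul, map_pow, aeval_C]; ring
      rw [← h4]
      rw [← h4] at hP00
      have h5 : aeval J (C ϖ ^ l * Q) * (y : F) ≠ 0 := right_ne_zero_of_mul hP00
      rw [mul_inv, mul_left_comm, mul_inv_cancel₀ h5, mul_one]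
    apply h0.not_mem
    rw [h3]
    exact mul_mem (mul_mem (h0.mem _) hy) (h0.inv_mem _ hP₀)

/-- Elements of `⋂ V i` are integral over the Gauss ring. -/
theorem coeff_minpoly_mem (hϖ : Prime ϖ) (hJ : Transcendental K J) (hb : IndepMod ϖ J V b)
    (hbV : ∀ j i, b j ∈ V i) (hG : ∀ i, GaussAt ϖ J (V i))
    (hcard : Fintype.card β = Module.finrank (IntermediateField.adjoin K {J}) F)
    (hβ : 0 < Fintype.card β) (L : IntermediateField K F)
    (hL : L = IntermediateField.adjoin K {J}) (i₀ : ι) (x : F)
    (hx : ∀ i, x ∈ V i) (n : ℕ) : (((minpoly L x).coeff n : L) : F) ∈ V i₀ := by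
  subst hL
  let L := IntermediateField.adjoin K {J}
  let R : ValuationSubring L := (V i₀).comap (algebraMap L F)
  have hR : ∀ y : L, y ∈ R → ∀ i, (y : F) ∈ V i := fun y hy i =>
    (hG i₀).mem_of_mem (hG i) hϖ hJ y hy
  let M : Subalgebra R F :=
    { carrier := {x | ∀ i, x ∈ V i}
      mul_mem' := fun ha hb i => mul_mem (ha i) (hb i)
      add_mem' := fun ha hb i => add_mem (ha i) (hb i)
      algebraMap_mem' := fun y i => hR y.1 y.2 i }
  have hfin : (Subalgebra.toSubmodule M).FG := by
    classical
    refine ⟨Finset.univ.image b, ?_⟩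
    apply le_antisymm
    · rw [Submodule.span_le]
      intro z hz
      simp only [Finset.coe_image, Finset.coe_univ, Set.image_univ, Set.mem_range] at hz
      obtain ⟨j, rfl⟩ := hz
      exact hbV j
    · intro z hz
      obtain ⟨P, Q, hQ, h⟩ := exists_repr hϖ hJ hb hG hcard z hβ hz
      have hJ' : Transcendental O J := hJ.restrictScalars (IsFractionRing.injective O K)
      have hQ0 : aeval J Q ≠ 0 := by
        intro h0
        apply hQ
        rw [(transcendental_iff.mp hJ') Q h0]
        exact dvd_zero _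
      have hmemL : ∀ P : O[X], aeval J P ∈ L := by
        intro P
        have : aeval J P = aeval J (P.map (algebraMap O K)) := by
          rw [aeval_map_algebraMap]
        rw [this]
        exact IntermediateField.algebra_adjoin_le_adjoin K _
          (Polynomial.aeval_mem_adjoin_singleton _ _)
      have h2 : z = ∑ j, (aeval J (P j) * (aeval J Q)⁻¹) * b j := by
        have : z = (aeval J Q)⁻¹ * (aeval J Q * z) := by field_simp
        rw [this, h, Finset.mul_sum]
        exact Finset.sum_congr rfl fun j _ => by ring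
      rw [h2]
      refine Submodule.sum_mem _ fun j _ => ?_
      have h3 : aeval J (P j) * (aeval J Q)⁻¹ ∈ L := mul_mem (hmemL _) (inv_mem (hmemL _))
      have h4 : (⟨_, h3⟩ : L) ∈ R :=
        show aeval J (P j) * (aeval J Q)⁻¹ ∈ V i₀ from mul_mem ((hG i₀).mem _)
          ((hG i₀).inv_mem _ hQ)
      have h5 : (aeval J (P j) * (aeval J Q)⁻¹) * b j = (⟨⟨_, h3⟩, h4⟩ : R) • b j := rfl
      rw [h5]
      exact Submodule.smul_mem _ _ (Submodule.subset_span (by simp))
  have hint : IsIntegral R x := IsIntegral.of_mem_of_fg M hfin x hx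
  rw [minpoly.isIntegrallyClosed_eq_field_fractions' L hint, Polynomial.coeff_map]
  exact ((minpoly R x).coeff n).2

end Main

section Chart

variable {ϖ : O} {t : F} {V₀ : ValuationSubring F}

omit [IsDomain O] [IsDiscreteValuationRing O] in
lemma algebraMap_ne_zero (hϖ : Prime ϖ) (K F : Type*) [Field K] [Field F] [Algebra O K]
    [IsFractionRing O K] [Algebra K F] [Algebra O F] [IsScalarTower O K F] :
    algebraMap O F ϖ ≠ 0 := by
  rw [IsScalarTower.algebraMap_apply O K F, ne_eq, map_eq_zero]
  exact fun h => hϖ.ne_zero ((IsFractionRing.injective O K) (by rw [h, map_zero]))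

/-- `K[t] ∩ V₀ = O[t]` -/
lemma mem_adjoin_of_mem (hϖ : Prime ϖ) (ht : Transcendental K t) (hG : GaussAt ϖ t V₀) {c : F}
    (hc : c ∈ Algebra.adjoin K {t}) (hcV : c ∈ V₀) : c ∈ Algebra.adjoin O {t} := by
  have hϖ0 := algebraMap_ne_zero hϖ K F
  rw [Algebra.adjoin_singleton_eq_range_aeval, AlgHom.mem_range] at hc
  obtain ⟨r, rfl⟩ := hc
  -- clear denominators
  obtain ⟨d, hd, h1⟩ := IsLocalization.integerNormalization_spec (nonZeroDivisors O) r
  set r₁ := IsLocalization.integerNormalization (nonZeroDivisors O) r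
  have hd0 : d ≠ 0 := nonZeroDivisors.ne_zero hd
  have e1 : aeval t r₁ = algebraMap O F d * aeval t r := by
    have := congrArg (aeval t) h1
    rw [aeval_map_algebraMap] at this
    rw [this, ← algebraMap_smul K, map_smul, Algebra.smul_def,
      ← IsScalarTower.algebraMap_apply]
  obtain ⟨k, u, hu⟩ := IsDiscreteValuationRing.associated_pow_irreducible hd0 hϖ.irreducible
  -- hu : d * u = ϖ ^ k
  have e2 : algebraMap O F ϖ ^ k * aeval t r = aeval t (C (u : O) * r₁) := by
    rw [map_mul, aeval_C, e1, ← mul_assoc, ← map_pow, ← hu, map_mul]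
    ring
  generalize C (u : O) * r₁ = P at e2
  clear hu
  induction k generalizing P with
  | zero =>
    rw [pow_zero, one_mul] at e2
    rw [e2]
    exact Polynomial.aeval_mem_adjoin_singleton _ _
  | succ k ih =>
    by_cases hP : C ϖ ∣ P
    · obtain ⟨P', rfl⟩ := hP
      refine ih P' ?_
      apply mul_left_cancel₀ hϖ0
      rw [← mul_assoc, ← pow_succ', e2, map_mul, aeval_C]
    · exfalso
      apply hG.not_mem
      have hP0 : aeval t P ≠ 0 := by
        have ht' : Transcendental O t := ht.restrictScalars (IsFractionRing.injective O K)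
        intro h0
        apply hP
        rw [(transcendental_iff.mp ht') P h0]
        exact dvd_zero _
      have h3 : (algebraMap O F ϖ)⁻¹ = aeval t (C ϖ ^ k) * aeval t r * (aeval t P)⁻¹ := by
        rw [← e2, pow_succ', map_pow, aeval_C]
        rw [← e2, pow_succ'] at hP0
        have h5 : algebraMap O F ϖ ^ k * aeval t r ≠ 0 := by
          rw [mul_assoc] at hP0
          exact right_ne_zero_of_mul hP0
        rw [mul_assoc (algebraMap O F ϖ), mul_inv, mul_left_comm, mul_inv_cancel₀ h5, mul_one]
      rw [h3]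
      exact mul_mem (mul_mem (hG.mem _) hcV) (hG.inv_mem _ hP)

open scoped IntermediateField.algebraAdjoinAdjoin in
/-- if the minimal polynomial over `K(t)` has coefficients in `V₀` and `x` is integral over `K[t]`
then `x` is integral over `O[t]`. -/
theorem isIntegral_adjoin (hϖ : Prime ϖ) (ht : Transcendental K t) (hG : GaussAt ϖ t V₀)
    {x : F} (hx : IsIntegral (Algebra.adjoin K {t}) x)
    (hmin : ∀ n, (((minpoly (IntermediateField.adjoin K {t}) x).coeff n :
      IntermediateField.adjoin K {t}) : F) ∈ V₀) :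
    IsIntegral (Algebra.adjoin O {t}) x := by
  let A₁ := Algebra.adjoin K {t}
  let L := IntermediateField.adjoin K {t}
  have : IsIntegrallyClosed A₁ :=
    IsIntegrallyClosed.of_equiv (Polynomial.algEquivOfTranscendental K t ht).toRingEquiv
  have h1 := minpoly.isIntegrallyClosed_eq_field_fractions' (R := A₁) L hx
  have h2 : ∀ n, (((minpoly L x).coeff n : L) : F) ∈ Algebra.adjoin O {t} := by
    intro n
    refine mem_adjoin_of_mem hϖ ht hG ?_ (hmin n)
    rw [h1, Polynomial.coeff_map]
    exact ((minpoly A₁ x).coeff n).2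
  have h3 : (minpoly L x).Monic := by
    rw [h1]
    exact (minpoly.monic hx).map _
  have h4 : (minpoly L x).map (algebraMap L F) ∈
      Polynomial.lifts (algebraMap (Algebra.adjoin O {t}) F) := by
    rw [Polynomial.lifts_iff_coeff_lifts]
    intro n
    rw [Polynomial.coeff_map]
    exact ⟨⟨_, h2 n⟩, rfl⟩
  obtain ⟨p, hp1, -, hp2⟩ := Polynomial.lifts_and_natDegree_eq_and_monic h4 (h3.map _)
  refine ⟨p, hp2, ?_⟩
  rw [← Polynomial.eval_map, hp1, Polynomial.eval_map]
  have := minpoly.aeval L x
  rwa [Polynomial.aeval_def] at this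

omit [IsDomain O] [IsDiscreteValuationRing O] in
lemma GaussAt.inv {J : F} {V : ValuationSubring F} (hG : GaussAt ϖ J V) : GaussAt ϖ J⁻¹ V := by
  by_cases hJ : J = 0
  · rwa [hJ, inv_zero, ← hJ]
  have hJmem : J ∈ V := by simpa using hG.mem X
  have hO : ∀ a : O, algebraMap O F a ∈ V := fun a => by simpa using hG.mem (C a)
  by_cases hunit : IsUnit ϖ
  · exfalso
    apply hG.not_mem
    obtain ⟨u, rfl⟩ := hunit
    rw [← map_units_inv]
    exact hO _
  have hJinv : J⁻¹ ∈ V := by
    have := hG.inv_mem X (fun h => by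
      rw [Polynomial.C_dvd_iff_dvd_coeff] at h
      have := h 1
      rw [coeff_X_one] at this
      exact hunit (isUnit_of_dvd_one this))
    simpa using this
  refine ⟨fun P => ?_, fun P hP => ?_, hG.not_mem⟩
  · rw [Polynomial.aeval_eq_sum_range]
    refine sum_mem fun n _ => ?_
    rw [Algebra.smul_def]
    exact mul_mem (hO _) (pow_mem hJinv n)
  · letI : Invertible J⁻¹ := invertibleOfNonzero (inv_ne_zero hJ)
    have h1 := Polynomial.eval₂_reverse_mul_pow (algebraMap O F) J⁻¹ P
    rw [invOf_eq_inv, inv_inv] at h1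
    have h2 : aeval J⁻¹ P = aeval J P.reverse * J⁻¹ ^ P.natDegree := by
      rw [Polynomial.aeval_def, Polynomial.aeval_def, h1]
    rw [h2, mul_inv, ← inv_pow, inv_inv]
    refine mul_mem (hG.inv_mem _ fun h => hP ?_) (pow_mem hJmem _)
    rw [Polynomial.C_dvd_iff_dvd_coeff] at h ⊢
    intro n
    by_cases hn : n ≤ P.natDegree
    · have := h (Polynomial.revAt P.natDegree n)
      rw [Polynomial.coeff_reverse, Polynomial.revAt_invol] at this
      exact this
    · rw [Polynomial.coeff_eq_zero_of_natDegree_lt (by omega)]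
      exact dvd_zero _

omit [IsDomain O] [IsDiscreteValuationRing O] [IsFractionRing O K] [Algebra O K]
  [Algebra K F] [IsScalarTower O K F] [Field K] in
lemma mem_of_isIntegral {V : ValuationSubring F} (hG : GaussAt ϖ t V) {x : F}
    (hx : IsIntegral (Algebra.adjoin O {t}) x) : x ∈ V := by
  have hle : ∀ y ∈ Algebra.adjoin O {t}, y ∈ V := by
    intro y hy
    rw [Algebra.adjoin_singleton_eq_range_aeval, AlgHom.mem_range] at hy
    obtain ⟨r, rfl⟩ := hy
    exact hG.mem r
  let f : Algebra.adjoin O {t} →+* V :=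
    { toFun := fun y => ⟨y, hle y y.2⟩
      map_one' := rfl
      map_mul' := fun _ _ => rfl
      map_zero' := rfl
      map_add' := fun _ _ => rfl }
  obtain ⟨p, hp, hp0⟩ := hx
  have hx' : IsIntegral V x := ⟨p.map f, hp.map f, by rw [Polynomial.eval₂_map]; exact hp0⟩
  obtain ⟨y, hy⟩ := IsIntegrallyClosed.isIntegral_iff.mp hx'
  rw [← hy]
  exact y.2

omit [IsDomain O] [IsDiscreteValuationRing O] [IsFractionRing O K] in
variable (O K t) in
lemma adjoin_le_adjoin : Algebra.adjoin O {t} ≤ (Algebra.adjoin K {t}).restrictScalars O :=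
  Algebra.adjoin_le (by simp)

omit [IsDomain O] [IsDiscreteValuationRing O] [IsFractionRing O K] in
lemma isIntegral_of_isIntegral {x : F} (hx : IsIntegral (Algebra.adjoin O {t}) x) :
    IsIntegral (Algebra.adjoin K {t}) x :=
  IsIntegral.map_of_comp_eq (φ := (Subalgebra.inclusion (adjoin_le_adjoin O K t)).toRingHom)
    (ψ := RingHom.id F) rfl hx

variable (O K t) in
/-- the inclusion `O[t] → K(t)` -/
def inclL : Algebra.adjoin O {t} →+* IntermediateField.adjoin K {t} where
  toFun y := ⟨y, by
    obtain ⟨y, hy⟩ := y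
    rw [Algebra.adjoin_singleton_eq_range_aeval, AlgHom.mem_range] at hy
    obtain ⟨r, rfl⟩ := hy
    change aeval t r ∈ IntermediateField.adjoin K {t}
    rw [← Polynomial.aeval_map_algebraMap K]
    exact IntermediateField.algebra_adjoin_le_adjoin K _
      (Polynomial.aeval_mem_adjoin_singleton _ _)⟩
  map_one' := rfl
  map_mul' _ _ := rfl
  map_zero' := rfl
  map_add' _ _ := rfl

variable (O K t) in
@[reducible] def algL : Algebra (Algebra.adjoin O {t}) (IntermediateField.adjoin K {t}) :=
  (inclL O K t).toAlgebra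

section

attribute [local instance] algL

omit [IsDomain O] [IsDiscreteValuationRing O] [IsFractionRing O K] in
lemma algL_coe (x : Algebra.adjoin O {t}) :
    ((algebraMap (Algebra.adjoin O {t}) (IntermediateField.adjoin K {t}) x :
      IntermediateField.adjoin K {t}) : F) = x := rfl

omit [IsDomain O] [IsDiscreteValuationRing O] [IsFractionRing O K] in
variable (O K t) in
lemma scalarTower_algL : IsScalarTower (Algebra.adjoin O {t}) (IntermediateField.adjoin K {t}) F :=
  IsScalarTower.of_algebraMap_eq fun _ => rfl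

omit [IsDomain O] [IsDiscreteValuationRing O] [IsFractionRing O K] in
variable (O K t) in
lemma faithful_algL : FaithfulSMul (Algebra.adjoin O {t}) (IntermediateField.adjoin K {t}) := by
  rw [faithfulSMul_iff_algebraMap_injective]
  intro a b hab
  apply Subtype.ext
  rw [← algL_coe (K := K), ← algL_coe (K := K) b, hab]

lemma isFractionRing_algL (hϖ : Prime ϖ) (ht : Transcendental K t) :
    IsFractionRing (Algebra.adjoin O {t}) (IntermediateField.adjoin K {t}) := by
  have ht' : Transcendental O t := ht.restrictScalars (IsFractionRing.injective O K)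
  have := faithful_algL O K t
  refine IsFractionRing.of_field _ _ fun z => ?_
  obtain ⟨k, P, Q, hQ, h⟩ := exists_num_den O hϖ ht z
  have hϖ0 := algebraMap_ne_zero hϖ K F
  have hQ0 : aeval t Q ≠ 0 := by
    intro h0
    apply hQ
    rw [(transcendental_iff.mp ht') Q h0]
    exact dvd_zero _
  refine ⟨⟨aeval t P, Polynomial.aeval_mem_adjoin_singleton _ _⟩,
    ⟨aeval t (C ϖ ^ k * Q), Polynomial.aeval_mem_adjoin_singleton _ _⟩, ?_⟩
  apply Subtype.ext
  change (z : F) = aeval t P / aeval t (C ϖ ^ k * Q)
  rw [map_mul, map_pow, aeval_C, ← h]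
  field_simp

/-- the integral closure of `O[t]` in `F` is noetherian -/
theorem isNoetherianRing_integralClosure (hϖ : Prime ϖ) (ht : Transcendental K t)
    [FiniteDimensional (IntermediateField.adjoin K {t}) F]
    [Algebra.IsSeparable (IntermediateField.adjoin K {t}) F] :
    IsNoetherianRing (integralClosure (Algebra.adjoin O {t}) F) := by
  have ht' : Transcendental O t := ht.restrictScalars (IsFractionRing.injective O K)
  have h1 : IsIntegrallyClosed (Algebra.adjoin O {t}) :=
    IsIntegrallyClosed.of_equiv (Polynomial.algEquivOfTranscendental O t ht').toRingEquiv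
  have h2 : IsNoetherianRing (Algebra.adjoin O {t}) :=
    isNoetherianRing_of_ringEquiv O[X] (Polynomial.algEquivOfTranscendental O t ht').toRingEquiv
  have h3 := scalarTower_algL O K t
  have h4 := isFractionRing_algL hϖ ht
  exact IsIntegralClosure.isNoetherianRing (Algebra.adjoin O {t}) (IntermediateField.adjoin K {t}) F
    (integralClosure (Algebra.adjoin O {t}) F)

end

end Chart

/-- **[C6], abstract form**. -/
theorem main {ϖ : O} {J : F} {ι : Type*} {V : ι → ValuationSubring F} {β : Type*} [Fintype β]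
    {b : β → F} (hϖ : Prime ϖ) (hJ : Transcendental K J) (hb : IndepMod ϖ J V b)
    (hbV : ∀ j i, b j ∈ V i) (hG : ∀ i, GaussAt ϖ J (V i)) [Nonempty ι]
    (hcard : Fintype.card β = Module.finrank (IntermediateField.adjoin K {J}) F)
    (hβ : 0 < Fintype.card β) [CharZero K] (t : F)
    (ht : t = J ∨ t = J⁻¹) :
    (∀ x : F, (IsIntegral (Algebra.adjoin K {t}) x ∧ ∀ i, x ∈ V i) ↔
      IsIntegral (Algebra.adjoin O {t}) x) ∧
    IsNoetherianRing (integralClosure (Algebra.adjoin O {t}) F) := by
  have hL : IntermediateField.adjoin K {t} = IntermediateField.adjoin K {J} := by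
    rcases ht with rfl | rfl
    · rfl
    · apply le_antisymm
      · rw [IntermediateField.adjoin_simple_le_iff]
        exact inv_mem (IntermediateField.mem_adjoin_simple_self K J)
      · rw [IntermediateField.adjoin_simple_le_iff]
        have := inv_mem (IntermediateField.mem_adjoin_simple_self K J⁻¹)
        rwa [inv_inv] at this
  have hGt : ∀ i, GaussAt ϖ t (V i) := by
    rcases ht with rfl | rfl
    · exact hG
    · exact fun i => (hG i).inv
  have htr : Transcendental K t := by
    rcases ht with rfl | rfl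
    · exact hJ
    · exact fun h => hJ (by simpa using h.inv)
  have hfd : FiniteDimensional (IntermediateField.adjoin K {t}) F := by
    rw [hL]
    exact FiniteDimensional.of_finrank_pos (hcard ▸ hβ)
  have : CharZero F := charZero_of_injective_algebraMap (algebraMap K F).injective
  obtain ⟨i₀⟩ := ‹Nonempty ι›
  refine ⟨fun x => ⟨fun ⟨hx1, hx2⟩ => ?_, fun hx => ⟨isIntegral_of_isIntegral hx, fun i => ?_⟩⟩, ?_⟩
  · exact isIntegral_adjoin hϖ htr (hGt i₀) hx1
      (coeff_minpoly_mem hϖ hJ hb hbV hG hcard hβ _ hL i₀ x hx2)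
  · exact mem_of_isIntegral (hGt i) hx
  · exact isNoetherianRing_integralClosure hϖ htr

end Fermat.Agent.H16.Ch
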