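import Mathlib
import Fermat.Agent.H16Fund
import Fermat.Agent.H83Def

/-!
# Chart rings of `CompSys` are integral closures (helper16, CARAYOL [C6])
-/

set_option autoImplicit false

namespace Fermat.Agent.H16.Ch

open Polynomial Fermat.Agent.H83

section Res

variable {F E : Type*} [Field F] [Field E] {q : ℕ} {ι : Type*} (S : CompSys F E q ι)

lemma res_mul {i : ι} {x y : F} (hx : x ∈ S.V i) (hy : y ∈ S.V i) :
    S.res i (x * y) = S.res i x * S.res i y := by
  rw [S.res_of_mem hx, S.res_of_mem hy, S.res_of_mem (mul_mem hx hy), ← map_mul]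
  rfl

lemma res_add {i : ι} {x y : F} (hx : x ∈ S.V i) (hy : y ∈ S.V i) :
    S.res i (x + y) = S.res i x + S.res i y := by
  rw [S.res_of_mem hx, S.res_of_mem hy, S.res_of_mem (add_mem hx hy), ← map_add]
  rfl

lemma res_neg {i : ι} {x : F} (hx : x ∈ S.V i) :
    S.res i (-x) = - S.res i x := by
  rw [S.res_of_mem hx, S.res_of_mem (neg_mem hx), ← map_neg]
  rfl

lemma res_sub {i : ι} {x y : F} (hx : x ∈ S.V i) (hy : y ∈ S.V i) :
    S.res i (x - y) = S.res i x - S.res i y := by
  rw [sub_eq_add_neg, res_add S hx (neg_mem hy), res_neg S hy, sub_eq_add_neg]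

lemma res_zero {i : ι} : S.res i 0 = 0 := by
  rw [S.res_of_mem (zero_mem _)]
  exact map_zero _

lemma res_one {i : ι} : S.res i 1 = 1 := by
  rw [S.res_of_mem (one_mem _)]
  exact map_one _

lemma res_pow {i : ι} {x : F} (hx : x ∈ S.V i) (n : ℕ) :
    S.res i (x ^ n) = S.res i x ^ n := by
  induction n with
  | zero => rw [pow_zero, pow_zero, res_one]
  | succ n ih => rw [pow_succ, pow_succ, res_mul S (pow_mem hx n) hx, ih]

lemma res_sum {i : ι} {α : Type*} (s : Finset α) {f : α → F} (hf : ∀ a ∈ s, f a ∈ S.V i) :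
    S.res i (∑ a ∈ s, f a) = ∑ a ∈ s, S.res i (f a) := by
  classical
  induction s using Finset.cons_induction with
  | empty => simp [res_zero]
  | cons a s ha ih =>
    rw [Finset.sum_cons, Finset.sum_cons, res_add S (hf a (Finset.mem_cons_self a s))
      (sum_mem fun b hb => hf b (Finset.mem_cons_of_mem hb)),
      ih fun b hb => hf b (Finset.mem_cons_of_mem hb)]

lemma inv_mem_of_res_ne_zero {i : ι} {x : F} (hx : x ∈ S.V i) (h : S.res i x ≠ 0) :
    x⁻¹ ∈ S.V i := by
  rw [S.res_of_mem hx] at h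
  obtain ⟨u, hu⟩ := S.ρ_unit i _ h
  have h1 : x * ((u⁻¹ : (S.V i)ˣ) : S.V i) = 1 := by
    have h2 : (u : S.V i) * ((u⁻¹ : (S.V i)ˣ) : S.V i) = 1 := by simp
    rw [hu] at h2
    exact congrArg Subtype.val h2
  rw [inv_eq_of_mul_eq_one_right h1]
  exact ((u⁻¹ : (S.V i)ˣ) : S.V i).2

lemma q_mem {i : ι} : (q : F) ∈ S.V i := natCast_mem _ _

lemma res_q {i : ι} : S.res i (q : F) = 0 := by
  rw [S.res_of_mem (q_mem S)]
  exact S.ρ_q i

lemma qinv_not_mem {i : ι} : ((q : F))⁻¹ ∉ S.V i := by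
  intro h
  have h1 : S.res i ((q : F) * (q : F)⁻¹) = 0 := by
    rw [res_mul S (q_mem S) h, res_q, zero_mul]
  rw [mul_inv_cancel₀ S.q_ne, res_one] at h1
  exact one_ne_zero h1

lemma res_eq_zero_of_div {i : ι} {x : F} (h : x / (q : F) ∈ S.V i) : S.res i x = 0 := by
  have h1 : x = (q : F) * (x / q) := by
    have := S.q_ne
    field_simp
  rw [h1, res_mul S (q_mem S) h, res_q, zero_mul]

lemma mem_of_div {i : ι} {x : F} (h : x / (q : F) ∈ S.V i) : x ∈ S.V i := by
  have h1 : x = (q : F) * (x / q) := by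
    have := S.q_ne
    field_simp
  rw [h1]
  exact mul_mem (q_mem S) h

/-- peeling off powers of a uniformizer. -/
lemma peel {i : ι} {w : F} {e : ℕ} (he : 0 < e) (hw0 : w ≠ 0) (hw : w ∈ S.V i)
    (hwe : w ^ e / (q : F) ∈ S.V i) (hwe' : (q : F) / w ^ e ∈ S.V i) (y : ℕ → F)
    (hy : ∀ l, y l ∈ S.V i) (hdiv : ∀ l < e, S.res i (y l) = 0 → y l / (q : F) ∈ S.V i)
    (hsum : (∑ l ∈ Finset.range e, w ^ l * y l) / (q : F) ∈ S.V i) :
    ∀ l < e, S.res i (y l) = 0 := by
  have hq := S.q_ne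
  have hresw : S.res i w = 0 := by
    have h1 : S.res i (w ^ e) = 0 := res_eq_zero_of_div S hwe
    rw [res_pow S hw] at h1
    exact pow_eq_zero_iff (he.ne') |>.mp h1
  have key : ∀ l ≤ e, ((∑ l' ∈ Finset.Ico l e, w ^ l' * y l') / (q : F) ∈ S.V i) ∧
      ∀ l' < l, S.res i (y l') = 0 := by
    intro l
    induction l with
    | zero =>
      intro _
      rw [Nat.Ico_zero_eq_range]
      exact ⟨hsum, fun l' hl' => absurd hl' (Nat.not_lt_zero _)⟩
    | succ l ih =>
      intro hl
      obtain ⟨h1, h2⟩ := ih (by omega)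
      have hle : l < e := hl
      rw [Finset.sum_eq_sum_Ico_succ_bot hle] at h1
      -- the tail is w^(l+1) * R
      have h3 : ∑ l' ∈ Finset.Ico (l + 1) e, w ^ l' * y l' =
          w ^ l * (w * ∑ l' ∈ Finset.Ico (l + 1) e, w ^ (l' - (l + 1)) * y l') := by
        rw [← mul_assoc, ← pow_succ, Finset.mul_sum]
        refine Finset.sum_congr rfl fun l' hl' => ?_
        rw [Finset.mem_Ico] at hl'
        rw [← mul_assoc, ← pow_add]
        congr 2
        omega
      set R := ∑ l' ∈ Finset.Ico (l + 1) e, w ^ (l' - (l + 1)) * y l' with hR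
      have hRmem : R ∈ S.V i := sum_mem fun l' _ => mul_mem (pow_mem hw _) (hy _)
      have h4 : S.res i (y l) = 0 := by
        have h5 : y l + w * R = (w ^ l * y l + w ^ l * (w * R)) / (q : F) *
            ((q : F) / w ^ e) * w ^ (e - l) := by
          have hwl : w ^ e = w ^ l * w ^ (e - l) := by
            rw [← pow_add]; congr 1; omega
          rw [hwl]
          have h6 : w ^ l ≠ 0 := pow_ne_zero _ hw0
          have h7 : w ^ (e - l) ≠ 0 := pow_ne_zero _ hw0
          field_simp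
        rw [h3] at h1
        have h6 : S.res i (y l + w * R) = 0 := by
          rw [h5, res_mul S (mul_mem h1 hwe') (pow_mem hw _), res_pow S hw, hresw,
            zero_pow (by omega), mul_zero]
        rw [res_add S (hy l) (mul_mem hw hRmem), res_mul S hw hRmem, hresw, zero_mul,
          add_zero] at h6
        exact h6
      refine ⟨?_, fun l' hl' => ?_⟩
      · have h5 := hdiv l hle h4
        have h6 : (∑ l' ∈ Finset.Ico (l + 1) e, w ^ l' * y l') / (q : F) =
            (w ^ l * y l + ∑ l' ∈ Finset.Ico (l + 1) e, w ^ l' * y l') / (q : F) -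
              w ^ l * (y l / (q : F)) := by
          field_simp
          ring
        rw [h6]
        exact sub_mem h1 (mul_mem (pow_mem hw _) h5)
      · rcases Nat.lt_succ_iff_lt_or_eq.mp hl' with h | rfl
        · exact h2 l' h
        · exact h4
  exact (key e le_rfl).2

end Res

section Gauss

variable {O K F : Type*} [CommRing O] [IsDomain O] [IsDiscreteValuationRing O] [Field K] [Field F]
  [Algebra O K] [IsFractionRing O K] [Algebra K F] [Algebra O F] [IsScalarTower O K F]
  {k E : Type*} [Field k] [Field E] [Algebra k E] {q : ℕ} {ι : Type*}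

/-- residue data of the function `J` on the constants `O` and on `J` -/
structure GaussRes (S : CompSys F E q ι) (red : O →+* k) (J : F) (jb : ι → E) : Prop where
  red_eq_zero : ∀ a : O, red a = 0 → (q : O) ∣ a
  O_mem : ∀ i (a : O), algebraMap O F a ∈ S.V i
  res_O : ∀ i (a : O), S.res i (algebraMap O F a) = algebraMap k E (red a)
  J_mem : ∀ i, J ∈ S.V i
  res_J : ∀ i, S.res i J = jb i
  transc : ∀ i, Transcendental k (jb i)

variable {S : CompSys F E q ι} {red : O →+* k} {J : F} {jb : ι → E}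

omit [IsDomain O] [IsDiscreteValuationRing O] in
lemma GaussRes.aeval_mem (h : GaussRes S red J jb) (i : ι) (P : O[X]) : aeval J P ∈ S.V i := by
  rw [Polynomial.aeval_eq_sum_range]
  refine sum_mem fun n _ => ?_
  rw [Algebra.smul_def]
  exact mul_mem (h.O_mem i _) (pow_mem (h.J_mem i) n)

omit [IsDomain O] [IsDiscreteValuationRing O] in
lemma GaussRes.res_aeval (h : GaussRes S red J jb) (i : ι) (P : O[X]) :
    S.res i (aeval J P) = aeval (jb i) (P.map red) := by
  rw [Polynomial.aeval_eq_sum_range, res_sum S _ fun n _ => by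
    rw [Algebra.smul_def]; exact mul_mem (h.O_mem i _) (pow_mem (h.J_mem i) n),
    Polynomial.aeval_eq_sum_range' (n := P.natDegree + 1)
      (Nat.lt_succ_of_le Polynomial.natDegree_map_le)]
  refine Finset.sum_congr rfl fun n _ => ?_
  rw [Algebra.smul_def, Algebra.smul_def, res_mul S (h.O_mem i _) (pow_mem (h.J_mem i) n), h.res_O,
    res_pow S (h.J_mem i), h.res_J, Polynomial.coeff_map]

omit [IsDomain O] [IsDiscreteValuationRing O] in
lemma GaussRes.C_dvd (h : GaussRes S red J jb) {P : O[X]} (hP : P.map red = 0) :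
    C (q : O) ∣ P := by
  rw [Polynomial.C_dvd_iff_dvd_coeff]
  intro n
  apply h.red_eq_zero
  rw [← Polynomial.coeff_map, hP, Polynomial.coeff_zero]

omit [IsDomain O] [IsDiscreteValuationRing O] in
lemma GaussRes.gaussAt (h : GaussRes S red J jb) (i : ι) : GaussAt (q : O) J (S.V i) where
  mem P := h.aeval_mem i P
  inv_mem P hP := by
    apply inv_mem_of_res_ne_zero S (h.aeval_mem i P)
    rw [h.res_aeval]
    intro h0
    exact hP (h.C_dvd ((transcendental_iff.mp (h.transc i)) _ h0))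
  not_mem := by
    rw [map_natCast]
    exact qinv_not_mem S

/-- data giving enough elements which are independent modulo `q` -/
structure Enough (S : CompSys F E q ι) (k : Type*) [Field k] [Algebra k E] (jb : ι → E)
    (μ : ι → ℕ) : Prop where
  e_pos : ∀ i, 0 < S.e i
  /-- residues, linearly independent over `k[jb i]` and liftable to `⋂ V i`. -/
  lift : ∀ i, ∃ (c : Fin (μ i) → E) (b : Fin (μ i) → F),
    (∀ P : Fin (μ i) → k[X], ∑ a, aeval (jb i) (P a) * c a = 0 → ∀ a, P a = 0) ∧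
    (∀ a i', b a ∈ S.V i') ∧ ∀ a, S.res i (b a) = c a
  /-- separators -/
  sep : ∀ i, ∃ s : F, (∀ i', s ∈ S.V i') ∧ S.res i s ≠ 0 ∧ ∀ i', i' ≠ i → S.res i' s = 0
  /-- uniformizers -/
  unif : ∀ i, ∃ w : F, w ≠ 0 ∧ (∀ i', w ∈ S.V i') ∧ w ^ S.e i / (q : F) ∈ S.V i ∧
    (q : F) / w ^ S.e i ∈ S.V i

theorem exists_indepMod [Fintype ι] {μ : ι → ℕ} (h : GaussRes S red J jb)
    (hE : Enough S k jb μ) :
    ∃ b : (Σ i, Fin (S.e i) × Fin (μ i)) → F, (∀ j i, b j ∈ S.V i) ∧
      IndepMod (q : O) J S.V b := by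
  classical
  choose c bb hc hbb hres using hE.lift
  choose s hs hs1 hs0 using hE.sep
  choose w hw0 hw hwe hwe' using hE.unif
  set N := ∑ i, S.e i with hN
  have hNi : ∀ i, S.e i ≤ N := fun i => Finset.single_le_sum (f := S.e) (fun _ _ => Nat.zero_le _)
    (Finset.mem_univ i)
  have hq := S.q_ne
  refine ⟨fun j => s j.1 ^ N * w j.1 ^ (j.2.1 : ℕ) * bb j.1 j.2.2, fun j i =>
    mul_mem (mul_mem (pow_mem (hs _ _) _) (pow_mem (hw _ _) _)) (hbb _ _ _), ?_⟩
  intro P hP
  -- work at the component i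
  suffices hmain : ∀ i (l : Fin (S.e i)) (a : Fin (μ i)), C (q : O) ∣ P ⟨i, (l, a)⟩ by
    rintro ⟨i, l, a⟩
    exact hmain i l a
  intro i
  have h1 := hP i
  rw [Fintype.sum_sigma, ← Finset.add_sum_erase _ _ (Finset.mem_univ i), add_div] at h1
  have h2 : (∑ i' ∈ Finset.univ.erase i, ∑ x : Fin (S.e i') × Fin (μ i'),
      aeval J (P ⟨i', x⟩) * (s i' ^ N * w i' ^ (x.1 : ℕ) * bb i' x.2)) / (q : F) ∈ S.V i := by
    rw [Finset.sum_div]
    refine sum_mem fun i' hi' => ?_
    rw [Finset.sum_div]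
    refine sum_mem fun x _ => ?_
    have hne : i ≠ i' := (Finset.ne_of_mem_erase hi').symm
    have h3 : s i' ^ N / (q : F) ∈ S.V i := by
      have h4 := S.pow_div i ⟨s i', hs i' i⟩ (by
        rw [← S.res_of_mem (hs i' i)]; exact hs0 i' i hne)
      have h5 : s i' ^ N / (q : F) = s i' ^ S.e i / (q : F) * s i' ^ (N - S.e i) := by
        rw [div_mul_eq_mul_div, ← pow_add]
        congr 2
        have := hNi i
        omega
      rw [h5]
      exact mul_mem h4 (pow_mem (hs i' i) _)
    have h6 : aeval J (P ⟨i', x⟩) * (s i' ^ N * w i' ^ (x.1 : ℕ) * bb i' x.2) / (q : F) =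
        aeval J (P ⟨i', x⟩) * ((s i' ^ N / (q : F)) * w i' ^ (x.1 : ℕ) * bb i' x.2) := by
      field_simp
    rw [h6]
    exact mul_mem (h.aeval_mem i _) (mul_mem (mul_mem h3 (pow_mem (hw _ _) _)) (hbb _ _ _))
  rw [map_natCast] at h1
  have h3 := sub_mem h1 h2
  rw [add_sub_cancel_right] at h3
  -- remove the unit s i ^ N
  have hsinv : (s i ^ N)⁻¹ ∈ S.V i := by
    apply inv_mem_of_res_ne_zero S (pow_mem (hs i i) N)
    rw [res_pow S (hs i i)]
    exact pow_ne_zero _ (hs1 i)
  have hsne : s i ≠ 0 := by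
    intro h0
    apply hs1 i
    rw [h0, res_zero]
  let y : ℕ → F := fun l => if hl : l < S.e i then
    ∑ a, aeval J (P ⟨i, (⟨l, hl⟩, a)⟩) * bb i a else 0
  have hy : ∀ l, y l ∈ S.V i := by
    intro l
    simp only [y]
    split_ifs with hl
    · exact sum_mem fun a _ => mul_mem (h.aeval_mem i _) (hbb _ _ _)
    · exact zero_mem _
  have h4 : (∑ l ∈ Finset.range (S.e i), w i ^ l * y l) / (q : F) ∈ S.V i := by
    have h5 : (∑ l ∈ Finset.range (S.e i), w i ^ l * y l) / (q : F) = (s i ^ N)⁻¹ *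
        ((∑ x : Fin (S.e i) × Fin (μ i),
          aeval J (P ⟨i, x⟩) * (s i ^ N * w i ^ (x.1 : ℕ) * bb i x.2)) / (q : F)) := by
      have h6 : ∑ x : Fin (S.e i) × Fin (μ i),
          aeval J (P ⟨i, x⟩) * (s i ^ N * w i ^ (x.1 : ℕ) * bb i x.2) =
          s i ^ N * ∑ l ∈ Finset.range (S.e i), w i ^ l * y l := by
        rw [Fintype.sum_prod_type, Finset.sum_range, Finset.mul_sum]
        refine Finset.sum_congr rfl fun l _ => ?_
        simp only [y, l.2, ↓reduceDIte, Finset.mul_sum]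
        refine Finset.sum_congr rfl fun a _ => ?_
        ring
      rw [h6]
      have := pow_ne_zero N hsne
      field_simp
    rw [h5]
    exact mul_mem hsinv h3
  have hresy : ∀ l (hl : l < S.e i), S.res i (y l) = 0 →
      ∀ a, C (q : O) ∣ P ⟨i, (⟨l, hl⟩, a)⟩ := by
    intro l hl h0 a
    simp only [y, hl, ↓reduceDIte] at h0
    rw [res_sum S _ fun a _ => mul_mem (h.aeval_mem i _) (hbb _ _ _)] at h0
    have h5 := hc i (fun a => (P ⟨i, (⟨l, hl⟩, a)⟩).map red) (by
      rw [← h0]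
      refine Finset.sum_congr rfl fun a _ => ?_
      rw [res_mul S (h.aeval_mem i _) (hbb _ _ _), h.res_aeval, hres])
    exact h.C_dvd (h5 a)
  have h5 := peel S (hE.e_pos i) (hw0 i) (hw i i) (hwe i) (hwe' i) y hy (by
    intro l hl h0
    have h6 := hresy l hl h0
    simp only [y, hl, ↓reduceDIte]
    rw [Finset.sum_div]
    refine sum_mem fun a _ => ?_
    obtain ⟨P', hP'⟩ := h6 a
    rw [hP', map_mul, aeval_C, map_natCast]
    have h7 : (q : F) * aeval J P' * bb i a / (q : F) = aeval J P' * bb i a := by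
      field_simp
    rw [h7]
    exact mul_mem (h.aeval_mem i _) (hbb _ _ _)) h4
  intro l a
  exact hresy l l.2 (h5 l l.2) a

/-- **[C6]** for a `CompSys`: if `[F : K(J)] = ∑ e i * μ i`, the chart rings `hor ∩ ⋂ V i` are
integral closures of `O[J]`, `O[1/J]` and noetherian. -/
theorem chart_main [Fintype ι] [Nonempty ι] {μ : ι → ℕ} (hq : Prime (q : O)) [CharZero K]
    (hJ : Transcendental K J) (h : GaussRes S red J jb) (hE : Enough S k jb μ)
    (hcard : ∑ i, S.e i * μ i = Module.finrank (IntermediateField.adjoin K {J}) F)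
    (hpos : 0 < ∑ i, S.e i * μ i) (t : F) (ht : t = J ∨ t = J⁻¹) :
    (∀ x : F, (IsIntegral (Algebra.adjoin K {t}) x ∧ ∀ i, x ∈ S.V i) ↔
      IsIntegral (Algebra.adjoin O {t}) x) ∧
    IsNoetherianRing (integralClosure (Algebra.adjoin O {t}) F) := by
  obtain ⟨b, hbV, hb⟩ := exists_indepMod h hE
  have hc : Fintype.card (Σ i, Fin (S.e i) × Fin (μ i)) = ∑ i, S.e i * μ i := by
    simp
  exact main hq hJ hb hbV h.gaussAt (hc.trans hcard) (hc ▸ hpos) t ht

/-- noetherianity of the chart ring `B` of a `CompSys` whose `hor` is the integral closure of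
`K[t]`. -/
theorem isNoetherianRing_B [Fintype ι] [Nonempty ι] {μ : ι → ℕ} (hq : Prime (q : O)) [CharZero K]
    (hJ : Transcendental K J) (h : GaussRes S red J jb) (hE : Enough S k jb μ)
    (hcard : ∑ i, S.e i * μ i = Module.finrank (IntermediateField.adjoin K {J}) F)
    (hpos : 0 < ∑ i, S.e i * μ i) (t : F) (ht : t = J ∨ t = J⁻¹)
    (hhor : ∀ x : F, x ∈ S.hor ↔ IsIntegral (Algebra.adjoin K {t}) x) :
    (∀ x : F, x ∈ S.B ↔ IsIntegral (Algebra.adjoin O {t}) x) ∧ IsNoetherianRing S.B := by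
  obtain ⟨h1, h2⟩ := chart_main hq hJ h hE hcard hpos t ht
  have h3 : ∀ x : F, x ∈ S.B ↔ IsIntegral (Algebra.adjoin O {t}) x := by
    intro x
    rw [S.mem_B, hhor, h1]
  refine ⟨h3, ?_⟩
  have h4 : S.B = (integralClosure (Algebra.adjoin O {t}) F).toSubring := by
    ext x
    rw [h3]
    rfl
  rw [h4]
  exact h2

end Gauss

end Fermat.Agent.H16.Ch
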