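import Mathlib
import Fermat.Agent.H16Chart

/-!
# The chart ring at level `q² m` is an integral closure, noetherian (helper16, CARAYOL [C6])

The hypotheses are literally the fields of `H83.ThreeData` (without `noeth` and without norms),
plus the residue data of `j` and of the constants.
-/

set_option autoImplicit false

namespace Fermat.Agent.H16.Ch

open Polynomial Fermat.Agent.H83

section Pre

variable {k E : Type*} [Field k] [Field E] [Algebra k E] {q : ℕ} {R : ResData k E q}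
  {F' : Type*} [Field F'] {F : Type*} [Field F]

/-- the part of `ThreeData` used to prove noetherianity of the chart ring; `S` is any `CompSys`
(with any `hor`). -/
structure PreThree (T : TwoData R F') (S : CompSys F E q (Fin 3)) (α β : F' →+* F) : Prop where
  e_zero : S.e 0 = 1
  e_one : S.e 1 = q - 1
  e_two : S.e 2 = 1
  α_V0 : ∀ x, α x ∈ S.V 0 ↔ x ∈ T.V 0
  α_V1 : ∀ x, α x ∈ S.V 1 ↔ x ∈ T.V 0
  α_V2 : ∀ x, α x ∈ S.V 2 ↔ x ∈ T.V 1
  α_res0 : ∀ x, S.res 0 (α x) = T.res 0 x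
  α_res1 : ∀ x, S.res 1 (α x) = T.res 0 x
  α_res2 : ∀ x, S.res 2 (α x) = R.Φ (T.res 1 x)
  β_V0 : ∀ x, β x ∈ S.V 0 ↔ x ∈ T.V 0
  β_V1 : ∀ x, β x ∈ S.V 1 ↔ x ∈ T.V 1
  β_V2 : ∀ x, β x ∈ S.V 2 ↔ x ∈ T.V 1
  β_res0 : ∀ x, S.res 0 (β x) = R.Φ (T.res 0 x)
  β_res1 : ∀ x, S.res 1 (β x) = T.res 1 x
  β_res2 : ∀ x, S.res 2 (β x) = T.res 1 x
  w_res : S.res 1 (β (T.W T.X) - α T.X) = 0
  w_pow : (β (T.W T.X) - α T.X) ^ (q - 1) / (q : F) ∈ S.V 1
  w_pow_res : S.res 1 ((β (T.W T.X) - α T.X) ^ (q - 1) / (q : F)) =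
    - T.res 0 (T.der (T.W T.X) / (q : F'))

/-- `PreThree` from `ThreeData`, for the chart of `S` and for any other `hor`. -/
theorem PreThree.of_threeData {T : TwoData R F'} (D : ThreeData T F) (S : CompSys F E q (Fin 3))
    (hV : S.V = D.V) (hρ : ∀ i x, S.res i x = D.res i x) (he : S.e = D.e) :
    PreThree T S D.α D.β where
  e_zero := by rw [he, D.e_zero]
  e_one := by rw [he, D.e_one]
  e_two := by rw [he, D.e_two]
  α_V0 x := by rw [hV]; exact D.α_V0 x
  α_V1 x := by rw [hV]; exact D.α_V1 x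
  α_V2 x := by rw [hV]; exact D.α_V2 x
  α_res0 x := by rw [hρ]; exact D.α_res0 x
  α_res1 x := by rw [hρ]; exact D.α_res1 x
  α_res2 x := by rw [hρ]; exact D.α_res2 x
  β_V0 x := by rw [hV]; exact D.β_V0 x
  β_V1 x := by rw [hV]; exact D.β_V1 x
  β_V2 x := by rw [hV]; exact D.β_V2 x
  β_res0 x := by rw [hρ]; exact D.β_res0 x
  β_res1 x := by rw [hρ]; exact D.β_res1 x
  β_res2 x := by rw [hρ]; exact D.β_res2 x
  w_res := by rw [hρ]; exact D.w_res
  w_pow := by rw [hV]; exact D.w_pow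
  w_pow_res := by rw [hρ]; exact D.w_pow_res

variable {T : TwoData R F'} {S : CompSys F E q (Fin 3)} {α β : F' →+* F}

/-- `k[jb]`-independence -/
def ResIndep (k : Type*) [Field k] {E : Type*} [Field E] [Algebra k E] (jb : E) {n : ℕ}
    (c : Fin n → E) : Prop :=
  ∀ P : Fin n → k[X], ∑ a, aeval jb (P a) * c a = 0 → ∀ a, P a = 0

/-- from a `k[jb]`-independent family of size `n`, a `k[jb^N]`-independent family of size
`n * N`. -/
theorem ResIndep.pow {jb : E} {n : ℕ} {c : Fin n → E} (hc : ResIndep k jb c) (N : ℕ)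
    (hN : 0 < N) :
    ResIndep k (jb ^ N) (fun x : Fin (n * N) =>
      c (finProdFinEquiv.symm x).1 * jb ^ ((finProdFinEquiv.symm x).2 : ℕ)) := by
  intro P hP x
  rw [← finProdFinEquiv.sum_comp, Fintype.sum_prod_type] at hP
  simp only [Equiv.symm_apply_apply] at hP
  -- collect
  let Q : Fin n → k[X] := fun a => ∑ b : Fin N, expand k N (P (finProdFinEquiv (a, b))) * X ^ (b : ℕ)
  have h1 := hc Q (by
    rw [← hP]
    refine Finset.sum_congr rfl fun a _ => ?_
    simp only [Q, map_sum, Finset.sum_mul, map_mul, map_pow, aeval_X]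
    refine Finset.sum_congr rfl fun b _ => ?_
    rw [expand_aeval]
    ring)
  obtain ⟨⟨a, b⟩, rfl⟩ := finProdFinEquiv.surjective x
  have h2 := h1 a
  ext l
  rw [coeff_zero]
  have h3 : (Q a).coeff (N * l + b) = (P (finProdFinEquiv (a, b))).coeff l := by
    simp only [Q]
    rw [finsetSum_coeff, Finset.sum_eq_single b]
    · rw [coeff_mul_X_pow', if_pos (by omega), Nat.add_sub_cancel, mul_comm N l,
        coeff_expand_mul hN]
    · intro b' _ hne
      rw [coeff_mul_X_pow', coeff_expand hN]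
      have hb := b.2
      have hb' := b'.2
      split_ifs with h4 h5
      · exfalso
        apply hne
        obtain ⟨d, hd⟩ := h5
        apply Fin.ext
        have h6 : N * l + b = N * d + b' := by omega
        have h7 : (N * l + b) % N = (N * d + b') % N := by rw [h6]
        rw [Nat.mul_add_mod, Nat.mul_add_mod, Nat.mod_eq_of_lt hb, Nat.mod_eq_of_lt hb'] at h7
        exact h7.symm
      · rfl
      · rfl
    · intro h; exact absurd (Finset.mem_univ b) h
  rw [← h3, h2, coeff_zero]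

section Facts

variable (T)

include T in
theorem q_eq_zero : (q : E) = 0 := by
  have h := T.ρ_q 0
  rw [map_natCast] at h
  exact h

include T in
theorem two_le_q : 2 ≤ q := by
  have h0 := T.q_ne
  have h1 := q_eq_zero T
  rcases Nat.lt_or_ge q 2 with h | h
  · interval_cases q
    · simp at h0
    · simp at h1
  · exact h

include T in
theorem X_pow_ne (n : ℕ) (hn : n ≠ 0) : R.X ^ (q ^ n) - R.X ≠ 0 := by
  intro h
  have h1 : R.D (R.X ^ (q ^ n) - R.X) = 0 := by rw [h, map_zero]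
  rw [map_sub, Derivation.leibniz_pow, R.D_X] at h1
  have h2 : ((q ^ n : ℕ) : E) = 0 := by
    rw [Nat.cast_pow, q_eq_zero T, zero_pow hn]
  rw [← Nat.cast_smul_eq_nsmul E, h2, zero_smul, zero_sub, neg_eq_zero] at h1
  exact one_ne_zero h1

theorem res1_X : T.res 1 T.X = R.X ^ q := by rw [T.W_res, T.res_WX]

theorem res1_WX : T.res 1 (T.W T.X) = R.X := by rw [T.W_res, T.W_W, T.res_X]

theorem WX_V (i : Fin 2) : T.W T.X ∈ T.V i := by
  fin_cases i
  · exact (T.W_V _).1 (T.X_V 1)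
  · refine (T.W_V _).2 ?_
    rw [T.W_W]
    exact T.X_V 0

theorem Φ_X (hφ : R.φ R.X = R.X) : R.Φ R.X = R.X ^ q := by
  rw [R.pow_q, hφ]

end Facts

variable (P : PreThree T S α β)

include P

theorem PreThree.α_V {x : F'} (hx : ∀ i, x ∈ T.V i) (i : Fin 3) : α x ∈ S.V i := by
  fin_cases i
  · exact (P.α_V0 x).2 (hx 0)
  · exact (P.α_V1 x).2 (hx 0)
  · exact (P.α_V2 x).2 (hx 1)

theorem PreThree.β_V {x : F'} (hx : ∀ i, x ∈ T.V i) (i : Fin 3) : β x ∈ S.V i := by
  fin_cases i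
  · exact (P.β_V0 x).2 (hx 0)
  · exact (P.β_V1 x).2 (hx 1)
  · exact (P.β_V2 x).2 (hx 1)

/-- the element `w = X(q²z) - X(z)` -/
theorem PreThree.w_mem (i : Fin 3) : β (T.W T.X) - α T.X ∈ S.V i :=
  sub_mem (P.β_V (WX_V T) i) (P.α_V T.X_V i)

theorem PreThree.u_mem (i : Fin 3) : β (T.W T.X) - α (T.W T.X) ^ q ∈ S.V i :=
  sub_mem (P.β_V (WX_V T) i) (pow_mem (P.α_V (WX_V T) i) q)

theorem PreThree.u'_mem (i : Fin 3) : α T.X - α (T.W T.X) ^ q ∈ S.V i :=
  sub_mem (P.α_V T.X_V i) (pow_mem (P.α_V (WX_V T) i) q)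

theorem PreThree.sep (hφ : R.φ R.X = R.X) (i : Fin 3) :
    ∃ s : F, (∀ i', s ∈ S.V i') ∧ S.res i s ≠ 0 ∧ ∀ i', i' ≠ i → S.res i' s = 0 := by
  have hΦ := Φ_X hφ
  have hne : R.X ^ (q ^ 2) - R.X ≠ 0 := X_pow_ne T 2 (by norm_num)
  have hqq : R.X ^ (q ^ 2) = (R.X ^ q) ^ q := by rw [← pow_mul, sq]
  rw [hqq] at hne
  have hne' : R.X - (R.X ^ q) ^ q ≠ 0 := by
    rw [← neg_sub]; exact neg_ne_zero.mpr hne
  -- residues of w, u, u'
  have w0 : S.res 0 (β (T.W T.X) - α T.X) = (R.X ^ q) ^ q - R.X := by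
    rw [res_sub S (P.β_V (WX_V T) 0) (P.α_V T.X_V 0), P.β_res0, P.α_res0, T.res_WX, T.res_X,
      map_pow, hΦ]
  have w1 : S.res 1 (β (T.W T.X) - α T.X) = 0 := P.w_res
  have w2 : S.res 2 (β (T.W T.X) - α T.X) = R.X - (R.X ^ q) ^ q := by
    rw [res_sub S (P.β_V (WX_V T) 2) (P.α_V T.X_V 2), P.β_res2, P.α_res2, res1_WX, res1_X,
      map_pow, hΦ]
  have u0 : S.res 0 (β (T.W T.X) - α (T.W T.X) ^ q) = 0 := by
    rw [res_sub S (P.β_V (WX_V T) 0) (pow_mem (P.α_V (WX_V T) 0) q), res_pow S (P.α_V (WX_V T) 0),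
      P.β_res0, P.α_res0, T.res_WX, map_pow, hΦ, sub_self]
  have u1 : S.res 1 (β (T.W T.X) - α (T.W T.X) ^ q) = R.X - (R.X ^ q) ^ q := by
    rw [res_sub S (P.β_V (WX_V T) 1) (pow_mem (P.α_V (WX_V T) 1) q), res_pow S (P.α_V (WX_V T) 1),
      P.β_res1, P.α_res1, T.res_WX, res1_WX]
  have u2 : S.res 2 (β (T.W T.X) - α (T.W T.X) ^ q) = R.X - (R.X ^ q) ^ q := by
    rw [res_sub S (P.β_V (WX_V T) 2) (pow_mem (P.α_V (WX_V T) 2) q), res_pow S (P.α_V (WX_V T) 2),
      P.β_res2, P.α_res2, res1_WX, hΦ]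
  have v0 : S.res 0 (α T.X - α (T.W T.X) ^ q) = R.X - (R.X ^ q) ^ q := by
    rw [res_sub S (P.α_V T.X_V 0) (pow_mem (P.α_V (WX_V T) 0) q), res_pow S (P.α_V (WX_V T) 0),
      P.α_res0, P.α_res0, T.res_WX, T.res_X]
  have v1 : S.res 1 (α T.X - α (T.W T.X) ^ q) = R.X - (R.X ^ q) ^ q := by
    rw [res_sub S (P.α_V T.X_V 1) (pow_mem (P.α_V (WX_V T) 1) q), res_pow S (P.α_V (WX_V T) 1),
      P.α_res1, P.α_res1, T.res_WX, T.res_X]
  have v2 : S.res 2 (α T.X - α (T.W T.X) ^ q) = 0 := by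
    rw [res_sub S (P.α_V T.X_V 2) (pow_mem (P.α_V (WX_V T) 2) q), res_pow S (P.α_V (WX_V T) 2),
      P.α_res2, P.α_res2, res1_WX, res1_X, map_pow, hΦ, sub_self]
  have hw := P.w_mem
  have hu := P.u_mem
  have hv := P.u'_mem
  fin_cases i
  · refine ⟨(β (T.W T.X) - α T.X) * (α T.X - α (T.W T.X) ^ q), fun i' => mul_mem (hw i') (hv i'),
      ?_, ?_⟩
    · rw [res_mul S (hw _) (hv _)]
      exact mul_ne_zero (w0 ▸ hne) (v0 ▸ hne')
    · intro i' hi'
      rw [res_mul S (hw _) (hv _)]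
      fin_cases i'
      · exact absurd rfl hi'
      · exact mul_eq_zero_of_left w1 _
      · exact mul_eq_zero_of_right _ v2
  · refine ⟨(β (T.W T.X) - α (T.W T.X) ^ q) * (α T.X - α (T.W T.X) ^ q),
      fun i' => mul_mem (hu i') (hv i'), ?_, ?_⟩
    · rw [res_mul S (hu _) (hv _)]
      exact mul_ne_zero (u1 ▸ hne') (v1 ▸ hne')
    · intro i' hi'
      rw [res_mul S (hu _) (hv _)]
      fin_cases i'
      · exact mul_eq_zero_of_left u0 _
      · exact absurd rfl hi'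
      · exact mul_eq_zero_of_right _ v2
  · refine ⟨(β (T.W T.X) - α (T.W T.X) ^ q) * (β (T.W T.X) - α T.X),
      fun i' => mul_mem (hu i') (hw i'), ?_, ?_⟩
    · rw [res_mul S (hu _) (hw _)]
      exact mul_ne_zero (u2 ▸ hne') (w2 ▸ hne')
    · intro i' hi'
      rw [res_mul S (hu _) (hw _)]
      fin_cases i'
      · exact mul_eq_zero_of_left u0 _
      · exact mul_eq_zero_of_right _ w1
      · exact absurd rfl hi'

theorem PreThree.unif (hφ : R.φ R.X = R.X) (i : Fin 3) :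
    ∃ w : F, w ≠ 0 ∧ (∀ i', w ∈ S.V i') ∧ w ^ S.e i / (q : F) ∈ S.V i ∧
    (q : F) / w ^ S.e i ∈ S.V i := by
  have hq := S.q_ne
  have hcase : ∀ i, S.e i = 1 → ∃ w : F, w ≠ 0 ∧ (∀ i', w ∈ S.V i') ∧
      w ^ S.e i / (q : F) ∈ S.V i ∧ (q : F) / w ^ S.e i ∈ S.V i := by
    intro i hi
    refine ⟨(q : F), hq, fun i' => q_mem S, ?_, ?_⟩
    · rw [hi, pow_one, div_self hq]; exact one_mem _
    · rw [hi, pow_one, div_self hq]; exact one_mem _
  fin_cases i
  · exact hcase 0 P.e_zero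
  · have hw1 : β (T.W T.X) - α T.X ≠ 0 := by
      intro h0
      have h1 : S.res 0 (β (T.W T.X) - α T.X) = R.X ^ (q ^ 2) - R.X := by
        rw [res_sub S (P.β_V (WX_V T) 0) (P.α_V T.X_V 0), P.β_res0, P.α_res0, T.res_WX, T.res_X,
          map_pow, Φ_X hφ, sq, pow_mul]
      rw [h0, res_zero] at h1
      exact X_pow_ne T 2 (by norm_num) h1.symm
    refine ⟨β (T.W T.X) - α T.X, hw1, P.w_mem, ?_, ?_⟩
    · have h := P.w_pow
      rw [← P.e_one] at h
      exact h
    · have h2 : (q : F) / (β (T.W T.X) - α T.X) ^ S.e 1 =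
          ((β (T.W T.X) - α T.X) ^ (q - 1) / (q : F))⁻¹ := by
        rw [P.e_one, inv_div]
      change (q : F) / (β (T.W T.X) - α T.X) ^ S.e 1 ∈ S.V 1
      rw [h2]
      apply inv_mem_of_res_ne_zero S P.w_pow
      rw [P.w_pow_res]
      exact neg_ne_zero.mpr T.res_delta
  · exact hcase 2 P.e_two

/-- the residue multiplicities -/
def mu3 (q μ : ℕ) : Fin 3 → ℕ := ![μ, μ, μ * q ^ 2]

/-- the residues of `j` -/
def jb3 {E : Type*} [Field E] (q : ℕ) (jb : E) : Fin 3 → E := ![jb, jb, jb ^ (q ^ 2)]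

theorem PreThree.enough (hφ : R.φ R.X = R.X) {jb : E} {μ : ℕ} (hjb : jb ∈ R.C)
    {c : Fin μ → E} (hcC : ∀ a, c a ∈ R.C) (hc : ResIndep k jb c) :
    Enough S k (jb3 q jb) (mu3 q μ) := by
  have hq2 := two_le_q T
  refine ⟨?_, ?_, P.sep hφ, P.unif hφ⟩
  · intro i
    fin_cases i
    · change 0 < S.e 0
      rw [P.e_zero]; norm_num
    · change 0 < S.e 1
      rw [P.e_one]; omega
    · change 0 < S.e 2
      rw [P.e_two]; norm_num
  · intro i
    fin_cases i
    · choose b hb using fun a => T.r_surj 0 (c a) (hcC a)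
      refine ⟨c, fun a => α (b a), hc, fun a i' => P.α_V (T.mem_B.1 (b a).2).2 i', fun a => ?_⟩
      change S.res 0 _ = _
      rw [P.α_res0, T.res_of_mem ((T.mem_B.1 (b a).2).2 0)]
      exact hb a
    · choose b hb using fun a => T.r_surj 0 (c a) (hcC a)
      refine ⟨c, fun a => α (b a), hc, fun a i' => P.α_V (T.mem_B.1 (b a).2).2 i', fun a => ?_⟩
      change S.res 1 _ = _
      rw [P.α_res1, T.res_of_mem ((T.mem_B.1 (b a).2).2 0)]
      exact hb a
    · have hcC' : ∀ x : Fin (μ * q ^ 2), c (finProdFinEquiv.symm x).1 *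
          jb ^ ((finProdFinEquiv.symm x).2 : ℕ) ∈ R.C :=
        fun x => mul_mem (hcC _) (pow_mem hjb _)
      choose b hb using fun a => T.r_surj 1 _ (hcC' a)
      refine ⟨_, fun a => β (b a), hc.pow (q ^ 2) (by positivity), fun a i' =>
        P.β_V (T.mem_B.1 (b a).2).2 i', fun a => ?_⟩
      change S.res 2 _ = _
      rw [P.β_res2, T.res_of_mem ((T.mem_B.1 (b a).2).2 1)]
      exact hb a

end Pre

section Main

variable {O K : Type*} [CommRing O] [IsDomain O] [IsDiscreteValuationRing O] [Field K]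
  [Algebra O K] [IsFractionRing O K] [CharZero K]
  {k E : Type*} [Field k] [Field E] [Algebra k E] {q : ℕ} {R : ResData k E q}
  {F' : Type*} [Field F'] {F : Type*} [Field F] [Algebra K F] [Algebra O F] [IsScalarTower O K F]

/-- residue data of the constants and of `J' = j` (level `qm`), with `J = α J' = j` at level
`q² m`. -/
structure JData (T : TwoData R F') (S : CompSys F E q (Fin 3)) (α : F' →+* F) (red : O →+* k)
    (J' : F') (jb : E) : Prop where
  red_eq_zero : ∀ a : O, red a = 0 → (q : O) ∣ a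
  O_mem : ∀ i (a : O), algebraMap O F a ∈ S.V i
  res_O : ∀ i (a : O), S.res i (algebraMap O F a) = algebraMap k E (red a)
  J_mem : ∀ i, J' ∈ T.V i
  res_J : T.res 0 J' = jb
  res_WJ : T.res 1 J' = jb ^ q
  φ_jb : R.φ jb = jb
  transc : Transcendental k jb
  jb_mem : jb ∈ R.C

variable {T : TwoData R F'} {S : CompSys F E q (Fin 3)} {α β : F' →+* F}
  {red : O →+* k} {J' : F'} {jb : E}

omit [IsDomain O] [IsDiscreteValuationRing O] in
theorem JData.gaussRes (P : PreThree T S α β) (h : JData T S α red J' jb) :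
    GaussRes S red (α J') (jb3 q jb) where
  red_eq_zero := h.red_eq_zero
  O_mem := h.O_mem
  res_O := h.res_O
  J_mem i := P.α_V h.J_mem i
  res_J i := by
    have hΦ : R.Φ jb = jb ^ q := by rw [R.pow_q, h.φ_jb]
    fin_cases i
    · change S.res 0 _ = jb
      rw [P.α_res0, h.res_J]
    · change S.res 1 _ = jb
      rw [P.α_res1, h.res_J]
    · change S.res 2 _ = jb ^ (q ^ 2)
      rw [P.α_res2, h.res_WJ, map_pow, hΦ, ← pow_mul, sq]
  transc i := by
    have hq2 := two_le_q T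
    fin_cases i
    · exact h.transc
    · exact h.transc
    · exact h.transc.pow (by positivity)

/-- **[C6]** for level `q² m`. `μ = [κ(m) : k(jbar)] = ψ(m)`; `[F : K(j)] = ψ(q² m)`.
The chart ring (of `j` or of `1/j`) is the integral closure of `O[j]` (`O[1/j]`), and is
noetherian. -/
theorem PreThree.isNoetherianRing_B (P : PreThree T S α β) (hφ : R.φ R.X = R.X)
    (hJ : JData T S α red J' jb) (hq : Prime (q : O)) {μ : ℕ} (hμ : 0 < μ)
    (hC : ∃ c : Fin μ → E, (∀ a, c a ∈ R.C) ∧ ResIndep k jb c)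
    (hcard : Module.finrank (IntermediateField.adjoin K {α J'}) F = μ * (q ^ 2 + q))
    (hJt : Transcendental K (α J')) (t : F) (ht : t = α J' ∨ t = (α J')⁻¹)
    (hhor : ∀ x : F, x ∈ S.hor ↔ IsIntegral (Algebra.adjoin K {t}) x) :
    (∀ x : F, x ∈ S.B ↔ IsIntegral (Algebra.adjoin O {t}) x) ∧ IsNoetherianRing S.B := by
  obtain ⟨c, hcC, hc⟩ := hC
  have hq2 := two_le_q T
  have hsum : ∑ i, S.e i * mu3 q μ i = μ * (q ^ 2 + q) := by
    rw [Fin.sum_univ_three, P.e_zero, P.e_one, P.e_two]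
    simp only [mu3, Matrix.cons_val_zero, Matrix.cons_val_one, Matrix.cons_val]
    obtain ⟨r, rfl⟩ : ∃ r, q = r + 1 := ⟨q - 1, by omega⟩
    simp only [Nat.add_sub_cancel]
    ring
  refine Ch.isNoetherianRing_B (O := O) (K := K) hq hJt (hJ.gaussRes P)
    (P.enough hφ hJ.jb_mem hcC hc) (hsum.trans hcard.symm) ?_ t ht hhor
  rw [hsum]
  positivity

end Main

end Fermat.Agent.H16.Ch
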