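import Mathlib
import Fermat.Agent.H18Lift
import Fermat.Agent.H83Def

/-!
# The residue data of `X₀(m)` (helper18, CARAYOL C2)
-/

set_option autoImplicit false

noncomputable section

open AlgebraicCurve ModularCurve IntermediateField

namespace Fermat.Agent.H18

section ResData

variable (k : Type*) [Field k] [IsAlgClosed k] (q : ℕ) [Fact q.Prime] [CharP k q] (m : ℕ)

theorem qExpand_algebraMap (k : Type*) [Field k] (q : ℕ) [NeZero q] (a : k) :
    qExpand k q (algebraMap k (LaurentSeries k) a) = algebraMap k (LaurentSeries k) a :=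
  (qExpandAlgHomC k q).commutes a

/-- the coefficientwise Frobenius of `k((t))` -/
def frobL : LaurentSeries k ≃+* LaurentSeries k := coeffEquiv k (frobeniusEquiv k q)

theorem frobL_apply (x : LaurentSeries k) : frobL k q x = coeffMap (frobenius k q) x := rfl

theorem pow_eq_qExpand_frobL (x : LaurentSeries k) : x ^ q = qExpand k q (frobL k q x) :=
  H60.laurent_pow_char q x

/-- **The residue data.** -/
def resData (hm : (m : k) ≠ 0) (X : LaurentSeries k) (hX : X ∈ Cm k m)
    (hθ : H61.theta X ≠ 0)
    (hD : ∀ x ∈ Cm k m, H61.theta x / H61.theta X ∈ Cm k m) :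
    H83.ResData k (LaurentSeries k) q where
  Φ := qExpand k q
  φ := frobL k q
  pow_q := pow_eq_qExpand_frobL k q
  Φ_algebraMap := qExpand_algebraMap k q
  φ_algebraMap a := by
    rw [frobL_apply, coeffMap_algebraMap]
    rfl
  C := Cm k m
  φ_mem _ := coeffEquiv_mem_Cm_iff k (frobeniusEquiv k q)
  dedekind := isDedekindDomain_Cm k m hm
  res_surj := res_surj_Cm k m hm
  D := derivX k X
  D_mem x hx := hD x hx
  X := X
  X_mem := hX
  D_X := derivX_self k hθ

end ResData

end Fermat.Agent.H18
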