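import Mathlib
import Fermat.Agent.H16Three
import Fermat.Agent.H18C2
import Fermat.Agent.H66Degree

/-!
# Independent residues in `C_m` (helper16, CARAYOL [C6])
-/

set_option autoImplicit false

namespace Fermat.Agent.H16.Ch

open Polynomial IntermediateField AlgebraicCurve ModularCurve

open scoped IntermediateField.algebraAdjoinAdjoin

theorem exists_resIndep {k L : Type*} [Field k] [Field L] [Algebra k L] {j : L}
    (hj : Transcendental k j) (M : IntermediateField k L) (hM : k⟮j⟯ ≤ M) {n : ℕ}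
    (hn : IntermediateField.relfinrank k⟮j⟯ M = n) (hn0 : n ≠ 0) :
    ∃ c : Fin n → L, (∀ a, c a ∈ M ∧ IsIntegral (Algebra.adjoin k {j}) (c a)) ∧
      ResIndep k j c := by
  classical
  rw [relfinrank_eq_finrank_of_le hM] at hn
  have hfd : FiniteDimensional k⟮j⟯ (extendScalars hM) :=
    FiniteDimensional.of_finrank_pos (by omega)
  let b : Module.Basis (Fin n) k⟮j⟯ (extendScalars hM) := Module.finBasisOfFinrankEq _ _ hn
  have halg : ∀ a, IsAlgebraic (Algebra.adjoin k {j}) ((b a : extendScalars hM) : L) := by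
    intro a
    have h1 : IsAlgebraic k⟮j⟯ ((b a : extendScalars hM) : L) := by
      have h2 : IsAlgebraic k⟮j⟯ (b a) := Algebra.IsAlgebraic.isAlgebraic _
      exact (h2.algHom (extendScalars hM).val)
    exact h1.restrictScalars (Algebra.adjoin k {j})
  choose y hy0 hy using fun a => (halg a).exists_integral_multiple
  refine ⟨fun a => y a • ((b a : extendScalars hM) : L), fun a => ⟨?_, hy a⟩, ?_⟩
  · change y a • ((b a : extendScalars hM) : L) ∈ M
    rw [Algebra.smul_def]
    refine mul_mem (hM ?_) (b a).2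
    exact algebra_adjoin_le_adjoin k {j} (y a).2
  · intro P hP
    have h1 : ∀ a, (aeval j (P a) * ((y a : Algebra.adjoin k {j}) : L)) ∈ k⟮j⟯ := by
      intro a
      refine mul_mem ?_ (algebra_adjoin_le_adjoin k {j} (y a).2)
      exact algebra_adjoin_le_adjoin k {j} (aeval_mem_adjoin_singleton k j)
    have h2 : ∑ a, (⟨_, h1 a⟩ : k⟮j⟯) • b a = 0 := by
      apply Subtype.ext
      rw [ZeroMemClass.coe_zero, ← hP]
      rw [show ((∑ a, (⟨_, h1 a⟩ : k⟮j⟯) • b a : extendScalars hM) : L) =
        (extendScalars hM).val (∑ a, (⟨_, h1 a⟩ : k⟮j⟯) • b a) from rfl, map_sum]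
      refine Finset.sum_congr rfl fun a _ => ?_
      rw [map_smul, Algebra.smul_def]
      change (aeval j (P a) * ((y a : Algebra.adjoin k {j}) : L)) * ((b a : extendScalars hM) : L) =
        aeval j (P a) * (y a • ((b a : extendScalars hM) : L))
      rw [Algebra.smul_def, mul_assoc]
      rfl
    intro a
    have h3 := Fintype.linearIndependent_iff.mp b.linearIndependent _ h2 a
    have h4 : aeval j (P a) * ((y a : Algebra.adjoin k {j}) : L) = 0 := congrArg Subtype.val h3
    rcases mul_eq_zero.mp h4 with h5 | h5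
    · exact (transcendental_iff.mp hj) _ h5
    · exact absurd (Subtype.ext h5) (hy0 a)

/-- the residue input of [C6]: `ψ(m)` elements of `C_m` independent over `k[jbar]`. -/
theorem exists_resIndep_Cm (k : Type*) [Field k] [IsAlgClosed k] (m : ℕ) (hm : (m : k) ≠ 0) :
    ∃ c : Fin (dedekindPsi m) → LaurentSeries k,
      (∀ a, c a ∈ Fermat.Agent.H18.Cm k m) ∧ ResIndep k (jqModC k) c := by
  have hm0 : m ≠ 0 := by rintro rfl; exact hm Nat.cast_zero
  have : NeZero m := ⟨hm0⟩
  obtain ⟨h1, h2⟩ := Fermat.Agent.H66.relfinrank_full_of_hasRoots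
    (Fermat.Agent.H66.hasRoots_of_isAlgClosed k) m hm
  exact exists_resIndep (Fermat.Agent.H42.transcendental_jqModC k) _
    (Fermat.Agent.H66.adjoin_j_le_full k m) h1 h2

theorem dedekindPsi_mul_mul {m q : ℕ} (hq : q.Prime) (hm0 : m ≠ 0) (hqm : ¬ q ∣ m) :
    dedekindPsi (m * q * q) = dedekindPsi m * (q ^ 2 + q) := by
  have h1 := Fermat.Agent.H45.dedekindPsi_mul_of_not_dvd hq hm0 hqm
  have h2 := Fermat.Agent.H45.dedekindPsi_mul_of_dvd hq (M := q * m)
    (mul_ne_zero hq.ne_zero hm0) (dvd_mul_right q m)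
  rw [show m * q * q = q * (q * m) by ring, h2, h1]
  ring

section Final

variable {O K : Type*} [CommRing O] [IsDomain O] [IsDiscreteValuationRing O] [Field K]
  [Algebra O K] [IsFractionRing O K] [CharZero K]
  {k : Type*} [Field k] [IsAlgClosed k] {q : ℕ} [Fact q.Prime]
  {R : Fermat.Agent.H83.ResData k (LaurentSeries k) q}
  {F' : Type*} [Field F'] {F : Type*} [Field F] [Algebra K F] [Algebra O F] [IsScalarTower O K F]
  {T : Fermat.Agent.H83.TwoData R F'} {S : Fermat.Agent.H83.CompSys F (LaurentSeries k) q (Fin 3)}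
  {α β : F' →+* F} {red : O →+* k} {J' : F'}

/-- **[C6]** final form for the modular curve: only the degree formula over `K` is needed. -/
theorem PreThree.isNoetherianRing_B_psi (P : PreThree T S α β) (hφ : R.φ R.X = R.X)
    (hJ : JData T S α red J' (jqModC k)) (hq : Prime (q : O)) {m : ℕ} (hm : (m : k) ≠ 0)
    (hqm : ¬ q ∣ m) (hC : R.C = Fermat.Agent.H18.Cm k m)
    (hcard : Module.finrank (IntermediateField.adjoin K {α J'}) F = dedekindPsi (m * q * q))
    (hJt : Transcendental K (α J')) (t : F) (ht : t = α J' ∨ t = (α J')⁻¹)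
    (hhor : ∀ x : F, x ∈ S.hor ↔ IsIntegral (Algebra.adjoin K {t}) x) :
    (∀ x : F, x ∈ S.B ↔ IsIntegral (Algebra.adjoin O {t}) x) ∧ IsNoetherianRing S.B := by
  have hm0 : m ≠ 0 := by rintro rfl; exact hm Nat.cast_zero
  refine P.isNoetherianRing_B hφ hJ hq (μ := dedekindPsi m) ?_ ?_ ?_ hJt t ht hhor
  · exact Nat.pos_of_ne_zero (Fermat.Agent.H66.relfinrank_full_of_hasRoots
      (Fermat.Agent.H66.hasRoots_of_isAlgClosed k) m hm).2
  · rw [hC]
    exact exists_resIndep_Cm k m hm
  · rw [hcard, dedekindPsi_mul_mul Fact.out hm0 hqm]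

end Final

end Fermat.Agent.H16.Ch
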