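import Mathlib
import Fermat.Agent.H16ResInd
import Fermat.Agent.H36InjS

/-!
# CARAYOL [C6] in the language of `H36.gs`, `H36.chart` (helper16)
-/

set_option autoImplicit false

namespace Fermat.Agent.H16.Ch

open Polynomial Fermat.Agent.H83

section Gen

variable {O K F : Type*} [CommRing O] [IsDomain O] [IsDiscreteValuationRing O] [Field K] [Field F]
  [Algebra O K] [IsFractionRing O K] [Algebra K F] [Algebra O F] [IsScalarTower O K F]
  {ϖ : O} {J : F} {V₀ : ValuationSubring F}

theorem GaussAt.exists_prim (h0 : GaussAt ϖ J V₀) (hϖ : Prime ϖ) (hJ : Transcendental K J)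
    (y : IntermediateField.adjoin K {J}) (hy : (y : F) ∈ V₀) :
    ∃ P Q : O[X], ¬ C ϖ ∣ Q ∧ aeval J Q * (y : F) = aeval J P := by
  have hϖ0 : algebraMap O F ϖ ≠ 0 := algebraMap_ne_zero hϖ K F
  have hJ' : Transcendental O J := hJ.restrictScalars (IsFractionRing.injective O K)
  obtain ⟨k, P, Q, hQ, h⟩ := exists_num_den O hϖ hJ y
  induction k generalizing P with
  | zero =>
    refine ⟨P, Q, hQ, ?_⟩
    rw [← h]; ring
  | succ k ih =>
    by_cases hP : C ϖ ∣ P
    · obtain ⟨P', rfl⟩ := hP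
      refine ih P' ?_
      apply mul_left_cancel₀ hϖ0
      rw [map_mul, aeval_C] at h
      rw [← h, pow_succ']
      ring
    · exfalso
      apply h0.not_mem
      have hP0 : aeval J P ≠ 0 := by
        intro h1
        apply hP
        rw [(transcendental_iff.mp hJ') P h1]
        exact dvd_zero _
      have h3 : (algebraMap O F ϖ)⁻¹ = aeval J (C ϖ ^ k * Q) * (y : F) * (aeval J P)⁻¹ := by
        have h4 : algebraMap O F ϖ * (aeval J (C ϖ ^ k * Q) * (y : F)) = aeval J P := by
          rw [← h, map_mul, map_pow, aeval_C]; ring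
        rw [← h4]
        rw [← h4] at hP0
        have h5 : aeval J (C ϖ ^ k * Q) * (y : F) ≠ 0 := right_ne_zero_of_mul hP0
        rw [mul_inv, mul_left_comm, mul_inv_cancel₀ h5, mul_one]
      rw [h3]
      exact mul_mem (mul_mem (h0.mem _) hy) (h0.inv_mem _ hP)

/-- if the minimal polynomial over `K(J)` has coefficients in `V₀` then `x ∈ gs O J`. -/
theorem mem_gs_of_coeff (hϖ : Prime ϖ) (hJ : Transcendental K J) (hG : GaussAt ϖ J V₀)
    {x : F} (hx : IsIntegral (IntermediateField.adjoin K {J}) x)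
    (hmin : ∀ n, (((minpoly (IntermediateField.adjoin K {J}) x).coeff n :
      IntermediateField.adjoin K {J}) : F) ∈ V₀) :
    x ∈ H36.gs O J := by
  classical
  set L := IntermediateField.adjoin K {J} with hL
  set m := minpoly L x with hm
  choose P Q hQ hPQ using fun n => hG.exists_prim hϖ hJ (m.coeff n) (hmin n)
  set d := m.natDegree with hd
  let QQ : O[X] := ∏ n ∈ Finset.range (d + 1), Q n
  have hQQ : ¬ C ϖ ∣ QQ := by
    intro h
    obtain ⟨n, _, hn⟩ := (Polynomial.prime_C_iff.mpr hϖ).exists_mem_finset_dvd h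
    exact hQ n hn
  have hcoef : ∀ n, aeval J QQ * ((m.coeff n : L) : F) ∈ Algebra.adjoin O {J} := by
    intro n
    rcases Nat.lt_or_ge d n with hn | hn
    · rw [Polynomial.coeff_eq_zero_of_natDegree_lt hn]
      simp
    · have h1 : QQ = Q n * ∏ l ∈ (Finset.range (d + 1)).erase n, Q l := by
        rw [Finset.mul_prod_erase]
        exact Finset.mem_range.mpr (Nat.lt_succ_of_le hn)
      rw [h1, map_mul, mul_right_comm, hPQ, ← map_mul]
      exact Polynomial.aeval_mem_adjoin_singleton _ _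
  refine ⟨QQ, ?_, ?_⟩
  · rw [← not_not (a := H36.Prim O QQ), H36.not_prim_iff hϖ.irreducible]
    exact hQQ
  rw [H36.mem_chart_iff_adjoin]
  let p : F[X] := C (aeval J QQ) * m.map (algebraMap L F)
  have h4 : p ∈ Polynomial.lifts (algebraMap (Algebra.adjoin O {J}) F) := by
    rw [Polynomial.lifts_iff_coeff_lifts]
    intro n
    rw [Polynomial.coeff_C_mul, Polynomial.coeff_map]
    exact ⟨⟨_, hcoef n⟩, rfl⟩
  obtain ⟨r, hr1, hr2⟩ := Polynomial.exists_degree_eq_of_mem_lifts h4
  have hmonic : m.Monic := minpoly.monic hx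
  have hQQ0 : aeval J QQ ≠ 0 := by
    have hJ' : Transcendental O J := hJ.restrictScalars (IsFractionRing.injective O K)
    intro h0
    apply hQQ
    rw [(transcendental_iff.mp hJ') QQ h0]
    exact dvd_zero _
  have hlead : algebraMap (Algebra.adjoin O {J}) F r.leadingCoeff = aeval J QQ := by
    have h5 : p.leadingCoeff = aeval J QQ := by
      simp only [p]
      rw [Polynomial.leadingCoeff_mul, Polynomial.leadingCoeff_C,
        (hmonic.map (algebraMap L F)).leadingCoeff, mul_one]
    rw [← h5, Polynomial.leadingCoeff, Polynomial.leadingCoeff, ← Polynomial.coeff_map, hr1,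
      Polynomial.natDegree_eq_of_degree_eq hr2]
  have haev : aeval x r = 0 := by
    rw [Polynomial.aeval_def, ← Polynomial.eval_map, hr1, Polynomial.eval_mul,
      Polynomial.eval_map, ← Polynomial.aeval_def, minpoly.aeval, mul_zero]
  have h6 := isIntegral_leadingCoeff_smul r x haev
  rw [Algebra.smul_def, hlead] at h6
  exact h6

/-- `gs O J = ⋂ V i`. -/
theorem mem_gs_iff_forall {ι : Type*} {V : ι → ValuationSubring F} {β : Type*} [Fintype β]
    {b : β → F} (hϖ : Prime ϖ) (hJ : Transcendental K J) (hb : IndepMod ϖ J V b)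
    (hbV : ∀ j i, b j ∈ V i) (hG : ∀ i, GaussAt ϖ J (V i)) [Nonempty ι]
    (hcard : Fintype.card β = Module.finrank (IntermediateField.adjoin K {J}) F)
    (hβ : 0 < Fintype.card β) (x : F) : x ∈ H36.gs O J ↔ ∀ i, x ∈ V i := by
  constructor
  · rintro ⟨p, hp, hpx⟩ i
    have h1 := mem_of_isIntegral (hG i) (H36.mem_chart_iff_adjoin.mp hpx)
    have hJ' : Transcendental O J := hJ.restrictScalars (IsFractionRing.injective O K)
    have hp' : ¬ C ϖ ∣ p := by
      rw [← H36.not_prim_iff hϖ.irreducible, not_not]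
      exact hp
    have hp0 : aeval J p ≠ 0 := by
      intro h0
      apply hp'
      rw [(transcendental_iff.mp hJ') p h0]
      exact dvd_zero _
    have h2 : x = (aeval J p)⁻¹ * (aeval J p * x) := by field_simp
    rw [h2]
    exact mul_mem ((hG i).inv_mem p hp') h1
  · intro hx
    obtain ⟨i₀⟩ := ‹Nonempty ι›
    have hfd : FiniteDimensional (IntermediateField.adjoin K {J}) F :=
      FiniteDimensional.of_finrank_pos (hcard ▸ hβ)
    exact mem_gs_of_coeff hϖ hJ (hG i₀) (Algebra.IsIntegral.isIntegral x)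
      (coeff_minpoly_mem hϖ hJ hb hbV hG hcard hβ _ rfl i₀ x hx)

end Gen

section CS

variable {O K F : Type*} [CommRing O] [IsDomain O] [IsDiscreteValuationRing O] [Field K] [Field F]
  [Algebra O K] [IsFractionRing O K] [Algebra K F] [Algebra O F] [IsScalarTower O K F]
  {k E : Type*} [Field k] [Field E] [Algebra k E] {q : ℕ} {ι : Type*}
  {S : CompSys F E q ι} {red : O →+* k} {J : F} {jb : ι → E}

/-- `gs O J = ⋂ V i` for a `CompSys`. -/
theorem gs_iff [Fintype ι] [Nonempty ι] {μ : ι → ℕ} (hq : Prime (q : O))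
    (hJ : Transcendental K J) (h : GaussRes S red J jb) (hE : Enough S k jb μ)
    (hcard : ∑ i, S.e i * μ i = Module.finrank (IntermediateField.adjoin K {J}) F)
    (hpos : 0 < ∑ i, S.e i * μ i) (x : F) : x ∈ H36.gs O J ↔ ∀ i, x ∈ S.V i := by
  obtain ⟨b, hbV, hb⟩ := exists_indepMod h hE
  have hc : Fintype.card (Σ i, Fin (S.e i) × Fin (μ i)) = ∑ i, S.e i * μ i := by
    simp
  exact mem_gs_iff_forall hq hJ hb hbV h.gaussAt (hc.trans hcard) (hc ▸ hpos) x

end CS

section Final

open ModularCurve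

variable {O K : Type*} [CommRing O] [IsDomain O] [IsDiscreteValuationRing O] [Field K]
  [Algebra O K] [IsFractionRing O K] [CharZero K]
  {k : Type*} [Field k] [IsAlgClosed k] {q : ℕ} [Fact q.Prime]
  {R : Fermat.Agent.H83.ResData k (LaurentSeries k) q}
  {F' : Type*} [Field F'] {F : Type*} [Field F] [Algebra K F] [Algebra O F] [IsScalarTower O K F]
  {T : Fermat.Agent.H83.TwoData R F'} {S : Fermat.Agent.H83.CompSys F (LaurentSeries k) q (Fin 3)}
  {α β : F' →+* F} {red : O →+* k} {J' : F'}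

omit [CharZero K] in
/-- **[C6]** `gs_eq` of `H83.CoreHyp`. -/
theorem PreThree.gs_iff_psi (P : PreThree T S α β) (hφ : R.φ R.X = R.X)
    (hJ : JData T S α red J' (jqModC k)) (hq : Prime (q : O)) {m : ℕ} (hm : (m : k) ≠ 0)
    (hqm : ¬ q ∣ m) (hC : R.C = Fermat.Agent.H18.Cm k m)
    (hcard : Module.finrank (IntermediateField.adjoin K {α J'}) F = dedekindPsi (m * q * q))
    (hJt : Transcendental K (α J')) (x : F) :
    x ∈ H36.gs O (α J') ↔ ∀ i, x ∈ S.V i := by
  have hm0 : m ≠ 0 := by rintro rfl; exact hm Nat.cast_zero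
  obtain ⟨c, hcC, hc⟩ := exists_resIndep_Cm k m hm
  rw [← hC] at hcC
  have hq2 := two_le_q T
  have hμ : 0 < dedekindPsi m := Nat.pos_of_ne_zero (Fermat.Agent.H66.relfinrank_full_of_hasRoots
      (Fermat.Agent.H66.hasRoots_of_isAlgClosed k) m hm).2
  have hsum : ∑ i, S.e i * mu3 q (dedekindPsi m) i = dedekindPsi m * (q ^ 2 + q) := by
    rw [Fin.sum_univ_three, P.e_zero, P.e_one, P.e_two]
    simp only [mu3, Matrix.cons_val_zero, Matrix.cons_val_one, Matrix.cons_val]
    obtain ⟨r, hr⟩ : ∃ r, q = r + 1 := ⟨q - 1, by omega⟩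
    rw [hr]
    simp only [Nat.add_sub_cancel]
    ring
  refine gs_iff (O := O) (K := K) hq hJt (hJ.gaussRes P)
    (P.enough hφ hJ.jb_mem hcC hc) (hsum.trans ?_) ?_ x
  · rw [hcard, dedekindPsi_mul_mul Fact.out hm0 hqm]
  · rw [hsum]
    positivity

/-- **[C6]** noetherianity, with `hor = H36.chart K t`, `t = j` or `1/j`. -/
theorem PreThree.isNoetherianRing_B_chart (P : PreThree T S α β) (hφ : R.φ R.X = R.X)
    (hJ : JData T S α red J' (jqModC k)) (hq : Prime (q : O)) {m : ℕ} (hm : (m : k) ≠ 0)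
    (hqm : ¬ q ∣ m) (hC : R.C = Fermat.Agent.H18.Cm k m)
    (hcard : Module.finrank (IntermediateField.adjoin K {α J'}) F = dedekindPsi (m * q * q))
    (hJt : Transcendental K (α J')) (t : F) (ht : t = α J' ∨ t = (α J')⁻¹)
    (hhor : S.hor = H36.chart K t) :
    S.B = H36.chart O t ∧ IsNoetherianRing S.B := by
  have h := P.isNoetherianRing_B_psi hφ hJ hq hm hqm hC hcard hJt t ht (fun x => by
    rw [hhor, H36.mem_chart_iff_adjoin])
  refine ⟨?_, h.2⟩
  ext x
  rw [h.1 x, H36.mem_chart_iff_adjoin]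

end Final

end Fermat.Agent.H16.Ch
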