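import Mathlib
import Fermat.Agent.H18LiftGR

/-!
# The coordinate ring of the special fibre near the cusps (helper18, CARAYOL C5)
-/

set_option autoImplicit false

noncomputable section

open AlgebraicCurve ModularCurve IntermediateField Fermat.Agent.H3RR Fermat.Agent.H94
open scoped IntermediateField.algebraAdjoinAdjoin

namespace Fermat.Agent.H18

section CmInv

variable (k : Type*) [Field k] (m : ℕ)

/-- The integral closure of `k[1/j]` in the function field of `X₀(m)` over `k`. -/
def CmInv : Subalgebra k (LaurentSeries k) where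
  carrier := {x | x ∈ modularFunctionFieldFullC k m ∧
    IsIntegral (Algebra.adjoin k {(jqModC k)⁻¹}) x}
  mul_mem' := fun ha hb => ⟨mul_mem ha.1 hb.1, ha.2.mul hb.2⟩
  add_mem' := fun ha hb => ⟨add_mem ha.1 hb.1, ha.2.add hb.2⟩
  algebraMap_mem' := fun a => ⟨(modularFunctionFieldFullC k m).algebraMap_mem a, by
    have : algebraMap k (LaurentSeries k) a =
      algebraMap (Algebra.adjoin k {(jqModC k)⁻¹}) (LaurentSeries k)
        (algebraMap k (Algebra.adjoin k {(jqModC k)⁻¹}) a) := rfl
    rw [this]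
    exact isIntegral_algebraMap⟩

variable {k m}

theorem mem_CmInv {x : LaurentSeries k} : x ∈ CmInv k m ↔ x ∈ modularFunctionFieldFullC k m ∧
    IsIntegral (Algebra.adjoin k {(jqModC k)⁻¹}) x := Iff.rfl

theorem inv_jqModC_mem_CmInv : (jqModC k)⁻¹ ∈ CmInv k m :=
  ⟨inv_mem (jqModC_mem_full k m), by
    have : (jqModC k)⁻¹ = algebraMap (Algebra.adjoin k {(jqModC k)⁻¹}) (LaurentSeries k)
      ⟨(jqModC k)⁻¹, Algebra.self_mem_adjoin_singleton k _⟩ := rfl
    rw [this]
    exact isIntegral_algebraMap⟩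

theorem cmInv_mem_aux (F : IntermediateField k (LaurentSeries k))
    (hj : jqModC k ∈ F) (hF : F = modularFunctionFieldFullC k m) (y : LaurentSeries k) :
    y ∈ CmInv k m ↔ ∃ f : F, F.val f = y ∧
      IsIntegral (Algebra.adjoin k {(⟨jqModC k, hj⟩⁻¹ : F)}) f := by
  rw [mem_CmInv, ← hF]
  constructor
  · rintro ⟨h1, h2⟩
    exact ⟨⟨y, h1⟩, rfl, (isIntegral_adjoin_iff F.val (⟨jqModC k, hj⟩⁻¹ : F) ⟨y, h1⟩).1 h2⟩
  · rintro ⟨f, rfl, h2⟩
    exact ⟨f.2, (isIntegral_adjoin_iff F.val (⟨jqModC k, hj⟩⁻¹ : F) f).2 h2⟩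

theorem cmInv_main_aux [IsAlgClosed k] (F : IntermediateField k (LaurentSeries k))
    (hj : jqModC k ∈ F) (hm : (m : k) ≠ 0) (hF : F = modularFunctionFieldFullC k m)
    (hFF : FunField k F) :
    IsDedekindDomain (CmInv k m) ∧ ∀ n : Ideal (CmInv k m), n.IsMaximal → ∀ c : CmInv k m,
      ∃ a : k, c - algebraMap k (CmInv k m) a ∈ n := by
  obtain ⟨h1, h2, h3⟩ := cm_aux F hj m hm hF hFF
  have h4 := isSeparable_adjoin_inv _ h2
  have h5 : Transcendental k (⟨jqModC k, hj⟩⁻¹ : F) := fun h => h3 (by simpa using h.inv)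
  have h6 := FunField.finiteDimensional h5
  exact ⟨isDedekindDomain_intImage F.val (⟨jqModC k, hj⟩⁻¹ : F) (CmInv k m)
      (cmInv_mem_aux F hj hF) h5,
    res_surj_intImage F.val (⟨jqModC k, hj⟩⁻¹ : F) (CmInv k m) (cmInv_mem_aux F hj hF) h5⟩

variable [IsAlgClosed k] (hm : (m : k) ≠ 0)

include hm in
theorem isDedekindDomain_CmInv : IsDedekindDomain (CmInv k m) :=
  (cmInv_main_aux (modularFunctionFieldFullC k m) (jqModC_mem_full k m) hm rfl
    (funField_Cm k m hm)).1

include hm in
theorem res_surj_CmInv (n : Ideal (CmInv k m)) (hn : n.IsMaximal) (c : CmInv k m) :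
    ∃ a : k, c - algebraMap k (CmInv k m) a ∈ n :=
  (cmInv_main_aux (modularFunctionFieldFullC k m) (jqModC_mem_full k m) hm rfl
    (funField_Cm k m hm)).2 n hn c

omit [IsAlgClosed k] in
theorem coeffMap_mem_CmInv (τ : k →+* k) {x : LaurentSeries k} (hx : x ∈ CmInv k m) :
    coeffMap τ x ∈ CmInv k m :=
  ⟨H60.coeffMap_mem_fullC τ hx.1,
    isIntegral_coeffMap_of_eq τ (by rw [map_inv₀, coeffMap_jqModC]) hx.2⟩

omit [IsAlgClosed k] in
theorem coeffEquiv_mem_CmInv_iff (τ : k ≃+* k) {x : LaurentSeries k} :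
    x ∈ CmInv k m ↔ coeffEquiv k τ x ∈ CmInv k m := by
  constructor
  · exact coeffMap_mem_CmInv _
  · intro h
    have := coeffMap_mem_CmInv (τ.symm : k →+* k) h
    rw [← coeffEquiv_symm_apply, RingEquiv.symm_apply_apply] at this
    exact this

end CmInv

section Main

variable {K L : Type*} [Field K] [Field L] [Algebra ℚ K] [Algebra ℚ L] [Algebra K L]
  (AK : ValuationSubring K) (AL : ValuationSubring L)
  {k : Type*} [Field k] (πK : AK →+* k) (πL : AL →+* k) (iA : AK →+* AL)
  (hiA : ∀ a, ((iA a : AL) : L) = algebraMap K L a) (hπ : πK = πL.comp iA) (m : ℕ)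
  (hπK : Function.Surjective πK) (hπL : Function.Surjective πL)
  [IsAlgClosed L] [IsAlgClosed k] [IsLocalHom πK] [IsLocalHom πL] (hm : (m : k) ≠ 0)

include hm in
/-- over an algebraically closed field -/
theorem res_mem_CmInv (hdL : H42.DegLE L k m) {b : (H42.modReductionData AL πL m hπL hdL).B}
    (hb : IsIntegral (Algebra.adjoin L {(jqModC L)⁻¹})
      ((b : laurentBaseChange L (modularFunctionFieldFull m)) : LaurentSeries L)) :
    (((H42.modReductionData AL πL m hπL hdL).ρ b : modularFunctionFieldFullC k m) :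
        LaurentSeries k) ∈ CmInv k m := by
  have : CharZero L := algebraRat.charZero L
  have hm0 : m ≠ 0 := by rintro rfl; exact hm Nat.cast_zero
  have i1 := H42.funField_left (L := L) (k := k) m hdL
  have i2 := H42.funField_right (L := L) (k := k) m hdL
  have hjL : jqModC L ∈ laurentBaseChange L (modularFunctionFieldFull m) := by
    rw [H42.laurentBaseChange_full]; exact jqModC_mem_full L m
  obtain ⟨x, hx1, hx2⟩ := H88.exists_j AL πL hπL hdL hjL
  have d1 := H88.finrank_j L m _ (H42.laurentBaseChange_full L m) hjL (Nat.cast_ne_zero.mpr hm0)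
  have d3 := H88.finrank_j k m _ rfl (jqModC_mem_full k m) hm
  have htr := transcendental_ρ_aux (H42.modReductionData AL πL m hπL hdL) x
    (jqModC_mem_full k m) hx2
  have hsep := isSeparable_ρ_aux (H42.modReductionData AL πL m hπL hdL) x
    (jqModC_mem_full k m) hx2
  obtain ⟨y, hy1, hy2⟩ := exists_B_inv (H42.modReductionData AL πL m hπL hdL) x
    (ne_zero_of_transcendental htr)
  have htry : Transcendental k ((H42.modReductionData AL πL m hπL hdL).ρ y) := by
    rw [hy2]
    exact fun h => htr (by simpa using h.inv)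
  have h1 : IsIntegral (Algebra.adjoin L
      {(y : laurentBaseChange L (modularFunctionFieldFull m))})
      (b : laurentBaseChange L (modularFunctionFieldFull m)) := by
    rw [hy1, hx1]
    exact (isIntegral_adjoin_iff (laurentBaseChange L (modularFunctionFieldFull m)).val
      (⟨jqModC L, hjL⟩⁻¹) _).1 hb
  have h2 := isIntegral_ρ (H42.modReductionData AL πL m hπL hdL) y htry
    (by
      rw [hy1, hy2, finrank_adjoin_inv, finrank_adjoin_inv, hx1, hx2]
      exact d1.1.trans d3.1.symm)
    (by rw [hy2]; exact isSeparable_adjoin_inv _ hsep) h1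
  rw [hy2, hx2] at h2
  exact ⟨((H42.modReductionData AL πL m hπL hdL).ρ b).2,
    (isIntegral_adjoin_iff (modularFunctionFieldFullC k m).val
      (⟨jqModC k, jqModC_mem_full k m⟩⁻¹) _).2 h2⟩

include hiA hπ hπL hm hπK in
/-- the residue of a function of level `m` which is integral over `K[1/j]` -/
theorem gres_mem_CmInv {f : LaurentSeries K}
    (hf : f ∈ laurentBaseChange K (modularFunctionFieldFull m))
    (hfi : IsIntegral (Algebra.adjoin K {(jqModC K)⁻¹}) f) (hfG : f ∈ H99.GR AK πK) :
    H99.gres AK πK f ∈ CmInv k m := by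
  have : CharZero K := algebraRat.charZero K
  have hdK := degLE_of_charZero K (k := k) m hm
  have hdL : H42.DegLE L k m := H88.degLE m hm
  have hB := (mem_B_iff_mem_GR AK πK m hπK hdK (f := ⟨f, hf⟩)).2 hfG
  have h1 := (mem_GR_of_mem_B AK πK m hπK hdK ⟨_, hB⟩).2
  obtain ⟨h, hρ⟩ := red_comp AK AL πK πL iA hiA hπ m hπK hπL hdK hdL ⟨_, hB⟩
  have h2 : IsIntegral (Algebra.adjoin L {(jqModC L)⁻¹}) (coeffMap (algebraMap K L) f) := by
    have h3 := isIntegral_ext (K := K) (L := L) (coeffMap (algebraMap K L)) (fun a => by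
      rw [algebraMap_laurentSeries_eq_single, algebraMap_laurentSeries_eq_single,
        coeffMap_single]) hfi
    rwa [map_inv₀, coeffMap_jqModC] at h3
  have h3 := res_mem_CmInv AL πL m hπL hm hdL (b := ⟨_, h⟩) h2
  rw [hρ, ← h1] at h3
  exact h3

end Main

end Fermat.Agent.H18
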