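import Mathlib
import Fermat.Agent.H83Point

/-!
# Cusp chart for the three component system (CARAYOL C5, abstract part)
-/

set_option autoImplicit false

namespace Fermat.Agent.H24

open Fermat.Agent.H83 Fermat.Agent.H83.CompSys Polynomial

section general

variable {F : Type*} [Field F]

/-- `ℤ[z] ≤ R` -/
theorem adjoin_int_le {R : Subring F} {z : F} (hz : z ∈ R) (a : F)
    (ha : a ∈ (Algebra.adjoin ℤ {z} : Subalgebra ℤ F)) : a ∈ R := by
  induction ha using Algebra.adjoin_induction with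
  | mem x hx => rw [Set.mem_singleton_iff] at hx; rw [hx]; exact hz
  | algebraMap r => rw [eq_intCast]; exact intCast_mem R r
  | add x y _ _ hx hy => exact add_mem hx hy
  | mul x y _ _ hx hy => exact mul_mem hx hy

theorem mem_of_isIntegral_adjoin {R : Subring F} (hR : ∀ x : F, IsIntegral R x → x ∈ R)
    {z x : F} (hz : z ∈ R) (hx : IsIntegral (Algebra.adjoin ℤ {z} : Subalgebra ℤ F) x) :
    x ∈ R := by
  apply hR
  have hle := adjoin_int_le hz
  obtain ⟨P, hP, h0⟩ := hx
  let g : (Algebra.adjoin ℤ {z} : Subalgebra ℤ F) →+* R :=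
    { toFun := fun a => ⟨a, hle a a.2⟩
      map_one' := rfl
      map_mul' := fun _ _ => rfl
      map_zero' := rfl
      map_add' := fun _ _ => rfl }
  refine ⟨P.map g, hP.map _, ?_⟩
  rw [Polynomial.eval₂_map]
  exact h0

/-- if `z⁻¹` is a root of a polynomial over `R` whose constant coefficient is a unit, then `z` is
integral over `R` -/
theorem isIntegral_of_root_inv {R : Subring F} {z : F} (hz : z ≠ 0) (P : Polynomial R)
    (hP : IsUnit (P.coeff 0)) (h0 : P.eval₂ (algebraMap R F) z⁻¹ = 0) : IsIntegral R z := by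
  obtain ⟨u, hu⟩ := hP
  have hc0 : P.coeff 0 ≠ 0 := by
    rw [← hu]; exact u.ne_zero
  have hlead : P.reverse.leadingCoeff = P.coeff 0 := by
    rw [Polynomial.reverse_leadingCoeff, Polynomial.trailingCoeff]
    congr 1
    exact Polynomial.natTrailingDegree_eq_zero.2 (Or.inr hc0)
  have hroot : P.reverse.eval₂ (algebraMap R F) z = 0 := by
    let _ : Invertible z⁻¹ := ⟨z, mul_inv_cancel₀ hz, inv_mul_cancel₀ hz⟩
    exact (Polynomial.eval₂_reverse_eq_zero_iff (algebraMap R F) z⁻¹ P).2 h0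
  refine ⟨C ((u⁻¹ : Rˣ) : R) * P.reverse, ?_, ?_⟩
  · rw [Polynomial.Monic, Polynomial.leadingCoeff_mul, Polynomial.leadingCoeff_C, hlead, ← hu]
    simp
  · rw [Polynomial.eval₂_mul, hroot, mul_zero]

/-- Key lemma: `R` an integrally closed local subring of the field `F`, `y` a non unit of `R`,
`1/y` integral over `ℤ[1/z]`. Then `z` is a non unit of `R`. -/
theorem mem_of_isIntegral_inv {R : Subring F} (hR : ∀ x : F, IsIntegral R x → x ∈ R)
    {y z : F} (hy0 : y ≠ 0) (hz0 : z ≠ 0) (hy : y ∈ R)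
    (hloc : ∀ r ∈ R, ∃ s ∈ R, (1 - y * r) * s = 1)
    (h : IsIntegral (Algebra.adjoin ℤ {z⁻¹} : Subalgebra ℤ F) y⁻¹) : z ∈ R := by
  -- the subring `R[z⁻¹]`
  set A : Subalgebra R F := Algebra.adjoin R {z⁻¹} with hA
  have hle : ∀ a : F, a ∈ (Algebra.adjoin ℤ {z⁻¹} : Subalgebra ℤ F) → a ∈ A :=
    adjoin_int_le (R := A.toSubring) (Algebra.subset_adjoin (Set.mem_singleton _))
  have hint : IsIntegral A y⁻¹ := by
    obtain ⟨P, hP, h0⟩ := h
    let g : (Algebra.adjoin ℤ {z⁻¹} : Subalgebra ℤ F) →+* A :=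
      { toFun := fun a => ⟨a, hle a a.2⟩
        map_one' := rfl
        map_mul' := fun _ _ => rfl
        map_zero' := rfl
        map_add' := fun _ _ => rfl }
    refine ⟨P.map g, hP.map _, ?_⟩
    rw [Polynomial.eval₂_map]
    exact h0
  have hyA : y ∈ A := A.algebraMap_mem ⟨y, hy⟩
  have hyi : y⁻¹ ∈ A := by
    have hu : IsIntegral A (y⁻¹ : F) := hint
    -- `y⁻¹ = y^(n-1) * (y⁻¹)^n`
    obtain ⟨P, hP, h0⟩ := hu
    by_cases hn : P.natDegree = 0
    · have hP1 := (Polynomial.Monic.natDegree_eq_zero (p := P) hP).1 hn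
      rw [hP1, Polynomial.eval₂_one] at h0
      exact absurd h0 one_ne_zero
    · obtain ⟨n, hn'⟩ := Nat.exists_eq_succ_of_ne_zero hn
      rw [Polynomial.eval₂_eq_sum_range, Finset.sum_range_succ, hP.coeff_natDegree, map_one,
        one_mul, hn'] at h0
      have e1 : y⁻¹ = - ∑ i ∈ Finset.range n.succ,
          algebraMap A F (P.coeff i) * (y ^ (n - i)) := by
        have e2 : y⁻¹ = y ^ n * (y⁻¹) ^ (n.succ) := by
          rw [Nat.succ_eq_add_one, pow_succ, ← mul_assoc, ← mul_pow, mul_inv_cancel₀ hy0, one_pow,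
            one_mul]
        have e3 : (y⁻¹) ^ n.succ = - ∑ i ∈ Finset.range n.succ,
          algebraMap A F (P.coeff i) * (y⁻¹) ^ i := by
          rw [eq_neg_iff_add_eq_zero, add_comm]; exact h0
        rw [e3, mul_neg, Finset.mul_sum] at e2
        rw [e2]
        congr 1
        refine Finset.sum_congr rfl fun i hi => ?_
        have hi' : i ≤ n := Nat.lt_succ_iff.1 (Finset.mem_range.1 hi)
        have e4 : y ^ n = y ^ (n - i) * y ^ i := by rw [← pow_add, Nat.sub_add_cancel hi']
        rw [e4, inv_pow]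
        field_simp
      rw [e1]
      refine A.neg_mem (A.sum_mem fun i _ => ?_)
      exact A.mul_mem (P.coeff i).2 (A.pow_mem hyA _)
  rw [hA, Algebra.adjoin_singleton_eq_range_aeval, AlgHom.mem_range] at hyi
  obtain ⟨p, hp⟩ := hyi
  apply hR
  refine isIntegral_of_root_inv hz0 (1 - C ⟨y, hy⟩ * p) ?_ ?_
  · obtain ⟨s, hs, hs'⟩ := hloc (p.coeff 0) (p.coeff 0).2
    refine IsUnit.of_mul_eq_one ⟨s, hs⟩ (Subtype.ext ?_)
    simp only [coeff_sub, coeff_one_zero, mul_coeff_zero, coeff_C_zero]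
    exact hs'
  · rw [Polynomial.eval₂_sub, Polynomial.eval₂_mul, Polynomial.eval₂_C, Polynomial.eval₂_one]
    have : Polynomial.eval₂ (algebraMap R F) z⁻¹ p = y⁻¹ := hp
    rw [this]
    show 1 - y * y⁻¹ = 0
    rw [mul_inv_cancel₀ hy0, sub_self]

end general

section local_surj

variable {F E : Type*} [Field F] [Field E] {q : ℕ} {ι : Type*} (S : CompSys F E q ι)
  (m : Ideal S.B) [hm : m.IsPrime] {i : ι} (hp : S.p i ≤ m) {C : Subring E}
  (hmem : ∀ b : S.B, S.r i b ∈ C)
  (hsurj : ∀ c ∈ C, ∃ x : locRing S.B m, S.ρloc m hp x = c)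

theorem isLocalRing_range : IsLocalRing (S.ρloc m hp).range := by
  have h : Function.Surjective (S.ρloc m hp).rangeRestrict := (S.ρloc m hp).rangeRestrict_surjective
  exact IsLocalRing.of_surjective' _ h

include hsurj in
theorem le_range : C ≤ (S.ρloc m hp).range := by
  intro c hc
  obtain ⟨x, hx⟩ := hsurj c hc
  exact ⟨x, hx⟩

/-- the prime of `C` below the maximal ideal of the image of the local ring -/
noncomputable def nC : Ideal C :=
  letI := isLocalRing_range S m hp
  (IsLocalRing.maximalIdeal (S.ρloc m hp).range).comap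
    (Subring.inclusion (le_range S m hp hsurj))

instance nC_isPrime : (nC S m hp hsurj).IsPrime := by
  have := isLocalRing_range S m hp
  exact Ideal.IsPrime.comap _

theorem mem_nC_iff {c : C} {x : locRing S.B m} (hx : S.ρloc m hp x = c) :
    c ∈ nC S m hp hsurj ↔ ¬ IsUnit x := by
  have := isLocalRing_range S m hp
  have hloc : IsLocalHom (S.ρloc m hp).rangeRestrict :=
    (S.ρloc m hp).rangeRestrict_surjective.isLocalHom
  have e : Subring.inclusion (le_range S m hp hsurj) c = (S.ρloc m hp).rangeRestrict x :=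
    Subtype.ext hx.symm
  rw [nC, Ideal.mem_comap, e, IsLocalRing.mem_maximalIdeal, mem_nonunits_iff, not_iff_not]
  exact ⟨fun h => hloc.map_nonunit _ h, fun h => h.map _⟩

include hmem in
/-- the image of the local ring is the local ring of `C` -/
theorem range_ρloc : (S.ρloc m hp).range = locRing C (nC S m hp hsurj) := by
  ext e
  constructor
  · rintro ⟨x, rfl⟩
    obtain ⟨a, b, hb, h⟩ := x.2
    refine ⟨⟨S.r i a, hmem a⟩, ⟨S.r i b, hmem b⟩, ?_, ?_⟩
    · have hx : S.ρloc m hp (algebraMap S.B (locRing S.B m) b) = S.r i b := by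
        rw [S.r_apply]; rfl
      rw [mem_nC_iff S m hp hsurj (x := algebraMap S.B (locRing S.B m) b) hx, not_not]
      exact IsLocalization.map_units (M := m.primeCompl) (locRing S.B m) ⟨b, hb⟩
    · rw [S.ρloc_apply]
      show S.res i (x : F) * S.r i b = S.r i a
      rw [S.r_apply, S.r_apply, ← res_mul (S.locRing_le_V m hp x.2) (S.B_le_V i b.2), h]
  · rintro ⟨c, d, hd, h⟩
    obtain ⟨x, hx⟩ := hsurj c c.2
    obtain ⟨z, hz⟩ := hsurj d d.2
    rw [mem_nC_iff S m hp hsurj hz, not_not] at hd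
    obtain ⟨u, rfl⟩ := hd
    refine ⟨x * ((u⁻¹ : (locRing S.B m)ˣ) : locRing S.B m), ?_⟩
    have h1 : S.ρloc m hp (u : locRing S.B m) *
        S.ρloc m hp ((u⁻¹ : (locRing S.B m)ˣ) : locRing S.B m) = 1 := by
      rw [← map_mul]; simp
    rw [map_mul, hx, ← h, ← hz, mul_assoc, h1, mul_one]

include hmem hsurj in
theorem ufd_at_local [IsNoetherianRing S.B] [IsDedekindDomain C] (z : F) (hz0 : z ≠ 0)
    (hz : z ∈ locRing S.B m) (hzr : S.res i z = 0)
    (hgen : ∀ b ∈ S.p i, (b : F) / z ∈ locRing S.B m) :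
    UniqueFactorizationMonoid (locRing S.B m) := by
  set Z : locRing S.B m := ⟨z, hz⟩ with hZ
  have hker : RingHom.ker (S.ρloc m hp) = Ideal.span {Z} := by
    apply le_antisymm
    · rintro x hx
      rw [RingHom.mem_ker, ρloc_apply] at hx
      obtain ⟨a, b, hb, h⟩ := x.2
      have ha : a ∈ S.p i := by
        rw [S.mem_p_iff, ← h, res_mul (S.locRing_le_V m hp x.2) (S.B_le_V i b.2), hx, zero_mul]
      have h2 := hgen a ha
      have hb0 := coe_ne_zero_of_notMem hb
      rw [Ideal.mem_span_singleton]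
      refine ⟨⟨(a : F) / z, h2⟩ * ⟨(b : F)⁻¹, inv_mem_locRing hb⟩, Subtype.ext ?_⟩
      show (x : F) = z * ((a : F) / z * (b : F)⁻¹)
      rw [← h]
      field_simp
    · rw [Ideal.span_singleton_le_iff_mem, RingHom.mem_ker]
      exact hzr
  have hZ0 : Z ≠ 0 := fun h => hz0 (congrArg (fun x : locRing S.B m => (x : F)) h)
  have hprime : Prime Z := by
    rw [← Ideal.span_singleton_prime hZ0, ← hker]
    exact RingHom.ker_isPrime _
  have hpir : IsPrincipalIdealRing (S.ρloc m hp).range := by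
    rw [range_ρloc S m hp hmem hsurj]
    exact locRing_pir _
  have e : (locRing S.B m ⧸ Ideal.span {Z}) ≃+* (S.ρloc m hp).range := by
    rw [← hker]
    exact RingHom.quotientKerEquivRange _
  have : IsPrincipalIdealRing (locRing S.B m ⧸ Ideal.span {Z}) :=
    IsPrincipalIdealRing.of_surjective e.symm.toRingHom e.symm.surjective
  exact ufd_of_prime hprime

end local_surj

end Fermat.Agent.H24
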