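import Mathlib
import Fermat.Agent.H24Cusp

/-!
# Cusp chart for the three component system (CARAYOL C5, abstract theorem)
-/

set_option autoImplicit false

namespace Fermat.Agent.H24

open Fermat.Agent.H83 Fermat.Agent.H83.CompSys Polynomial

/-- The cusp chart of the three component system: `y = 1/j(z)`, `y2 = 1/j(qz)`,
`y3 = 1/j(q²z)`. -/
structure CuspSys (k F E : Type*) [Field k] [Field F] [Field E] [Algebra k E] (q : ℕ) extends
    CompSys F E q (Fin 3) where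
  hq : 2 ≤ q
  e_zero : e 0 = 1
  e_one : e 1 = q - 1
  e_two : e 2 = 1
  noeth : IsNoetherianRing toCompSys.B
  y : F
  y2 : F
  y3 : F
  y_hor : y ∈ hor
  Y : E
  Y_ne : Y ≠ 0
  res0_y : toCompSys.res 0 y = Y
  res0_y2 : toCompSys.res 0 y2 = Y ^ q
  res0_y3 : toCompSys.res 0 y3 = Y ^ (q * q)
  res1_y : toCompSys.res 1 y = Y
  res1_y2 : toCompSys.res 1 y2 = Y ^ q
  res1_y3 : toCompSys.res 1 y3 = Y
  res2_y : toCompSys.res 2 y = Y ^ (q * q)
  res2_y2 : toCompSys.res 2 y2 = Y ^ q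
  res2_y3 : toCompSys.res 2 y3 = Y
  int1 : IsIntegral (Algebra.adjoin ℤ {y2⁻¹} : Subalgebra ℤ F) y⁻¹
  int2 : IsIntegral (Algebra.adjoin ℤ {y3⁻¹} : Subalgebra ℤ F) y2⁻¹
  int3 : IsIntegral (Algebra.adjoin ℤ {y} : Subalgebra ℤ F) (y ^ q * y2⁻¹)
  int4 : IsIntegral (Algebra.adjoin ℤ {y3} : Subalgebra ℤ F) (y3 ^ q * y2⁻¹)
  const : ∀ a : k, ∃ x : toCompSys.B, ∀ i, toCompSys.r i x = algebraMap k E a
  eps : ∃ P Q : k[X], P.eval 0 ≠ 0 ∧ Q.eval 0 ≠ 0 ∧
    toCompSys.res 1 ((y3 - y) ^ (q - 1) / (q : F)) * aeval Y Q = Y ^ (q - 1) * aeval Y P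
  C : Subring E
  dedekind : IsDedekindDomain C
  r_mem : ∀ i (b : toCompSys.B), toCompSys.r i b ∈ C
  lift : ∀ i, ∀ c ∈ C, ∃ x : F, toCompSys.res i x = c ∧ x ∈ V i ∧
    IsIntegral (Algebra.adjoin toCompSys.B {y3} : Subalgebra toCompSys.B F) x

namespace CuspSys

variable {k F E : Type*} [Field k] [Field F] [Field E] [Algebra k E] {q : ℕ}
  (D : CuspSys k F E q)

theorem res_y_ne (i : Fin 3) : D.res i D.y ≠ 0 := by
  fin_cases i
  · show D.res 0 D.y ≠ 0
    rw [D.res0_y]; exact D.Y_ne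
  · show D.res 1 D.y ≠ 0
    rw [D.res1_y]; exact D.Y_ne
  · show D.res 2 D.y ≠ 0
    rw [D.res2_y]; exact pow_ne_zero _ D.Y_ne

theorem res_y2_ne (i : Fin 3) : D.res i D.y2 ≠ 0 := by
  fin_cases i
  · show D.res 0 D.y2 ≠ 0
    rw [D.res0_y2]; exact pow_ne_zero _ D.Y_ne
  · show D.res 1 D.y2 ≠ 0
    rw [D.res1_y2]; exact pow_ne_zero _ D.Y_ne
  · show D.res 2 D.y2 ≠ 0
    rw [D.res2_y2]; exact pow_ne_zero _ D.Y_ne

theorem res_y3_ne (i : Fin 3) : D.res i D.y3 ≠ 0 := by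
  fin_cases i
  · show D.res 0 D.y3 ≠ 0
    rw [D.res0_y3]; exact pow_ne_zero _ D.Y_ne
  · show D.res 1 D.y3 ≠ 0
    rw [D.res1_y3]; exact D.Y_ne
  · show D.res 2 D.y3 ≠ 0
    rw [D.res2_y3]; exact D.Y_ne

theorem y_V (i : Fin 3) : D.y ∈ D.V i := res_mul_ne (D.res_y_ne i)
theorem y2_V (i : Fin 3) : D.y2 ∈ D.V i := res_mul_ne (D.res_y2_ne i)
theorem y3_V (i : Fin 3) : D.y3 ∈ D.V i := res_mul_ne (D.res_y3_ne i)

theorem y_ne : D.y ≠ 0 := by
  intro h; apply D.res_y_ne 0; rw [h, res_zero]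
theorem y2_ne : D.y2 ≠ 0 := by
  intro h; apply D.res_y2_ne 0; rw [h, res_zero]
theorem y3_ne : D.y3 ≠ 0 := by
  intro h; apply D.res_y3_ne 0; rw [h, res_zero]

theorem y_mem_B : D.y ∈ D.B := (D.mem_B).2 ⟨D.y_hor, D.y_V⟩

/-- `y` as an element of the chart ring -/
def yB : D.B := ⟨D.y, D.y_mem_B⟩

section point

variable (m : Ideal D.B) [hm : m.IsPrime] (hy : D.yB ∈ m)

theorem R_closed (x : F) (hx : IsIntegral (locRing D.B m) x) : x ∈ locRing D.B m :=
  locRing_integrallyClosed D.B_closed x hx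

/-- `x` lies in the local ring and is a non unit there -/
def IsM (x : F) : Prop := ∃ h : x ∈ locRing D.B m, ¬ IsUnit (⟨x, h⟩ : locRing D.B m)

theorem exists_one_sub {x : F} (hx : IsM D m x) : ∀ r ∈ locRing D.B m, ∃ s ∈ locRing D.B m,
    (1 - x * r) * s = 1 := by
  intro r hr
  obtain ⟨hxR, hxu⟩ := hx
  have h1 : IsUnit ((1 : locRing D.B m) - ⟨x, hxR⟩ * ⟨r, hr⟩) := by
    rcases IsLocalRing.isUnit_or_isUnit_one_sub_self ((⟨x, hxR⟩ : locRing D.B m) * ⟨r, hr⟩) with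
      h | h
    · exact absurd (isUnit_of_mul_isUnit_left h) hxu
    · exact h
  obtain ⟨s, hs⟩ := h1.exists_right_inv
  exact ⟨s, s.2, congrArg (fun z : locRing D.B m => (z : F)) hs⟩

include hy in
theorem isM_y : IsM D m D.y := by
  refine ⟨le_locRing D.y_mem_B, fun h => ?_⟩
  rw [isUnit_locRing_iff'] at h
  obtain ⟨a, b, ha, hb, h⟩ := h
  apply ha
  have : a = D.yB * b := Subtype.ext h.symm
  rw [this]
  exact m.mul_mem_right _ hy

theorem isM_of_int {x z : F} (hx : IsM D m x) (hx0 : x ≠ 0) (hz0 : z ≠ 0)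
    (h : IsIntegral (Algebra.adjoin ℤ {z⁻¹} : Subalgebra ℤ F) x⁻¹) : IsM D m z := by
  have hz := mem_of_isIntegral_inv (R_closed D m) hx0 hz0 hx.1 (exists_one_sub D m hx) h
  refine ⟨hz, fun hu => ?_⟩
  obtain ⟨s, hs⟩ := hu.exists_right_inv
  have h1 : z * (s : F) = 1 := congrArg (fun z : locRing D.B m => (z : F)) hs
  have h2 : z⁻¹ ∈ locRing D.B m := by
    rw [inv_eq_of_mul_eq_one_right h1]; exact s.2
  have h3 := mem_of_isIntegral_adjoin (R_closed D m) h2 h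
  apply hx.2
  exact IsUnit.of_mul_eq_one ⟨x⁻¹, h3⟩ (Subtype.ext (mul_inv_cancel₀ hx0))

include hy in
theorem isM_y2 : IsM D m D.y2 :=
  isM_of_int D m (isM_y D m hy) D.y_ne D.y2_ne D.int1

include hy in
theorem isM_y3 : IsM D m D.y3 :=
  isM_of_int D m (isM_y2 D m hy) D.y2_ne D.y3_ne D.int2

/-- `y^q / y2` -/
def fα : F := D.y ^ q * D.y2⁻¹

/-- `y3^q / y2` -/
def gβ : F := D.y3 ^ q * D.y2⁻¹

include hy in
theorem fα_mem : D.fα ∈ locRing D.B m :=
  mem_of_isIntegral_adjoin (R_closed D m) (isM_y D m hy).1 D.int3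

include hy in
theorem gβ_mem : D.gβ ∈ locRing D.B m :=
  mem_of_isIntegral_adjoin (R_closed D m) (isM_y3 D m hy).1 D.int4

include D in
theorem q_pos : 0 < q := lt_of_lt_of_le (by norm_num) D.hq

theorem res_fα (i : Fin 3) : D.res i D.fα = D.res i D.y ^ q * (D.res i D.y2)⁻¹ := by
  rw [fα, res_mul (pow_mem (D.y_V i) q) (inv_mem (D.res_y2_ne i)), res_pow (D.y_V i),
    res_inv (D.res_y2_ne i)]

theorem res_gβ (i : Fin 3) : D.res i D.gβ = D.res i D.y3 ^ q * (D.res i D.y2)⁻¹ := by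
  rw [gβ, res_mul (pow_mem (D.y3_V i) q) (inv_mem (D.res_y2_ne i)), res_pow (D.y3_V i),
    res_inv (D.res_y2_ne i)]

theorem res0_fα : D.res 0 D.fα = 1 := by
  rw [res_fα, D.res0_y, D.res0_y2, mul_inv_cancel₀ (pow_ne_zero _ D.Y_ne)]

theorem res1_fα : D.res 1 D.fα = 1 := by
  rw [res_fα, D.res1_y, D.res1_y2, mul_inv_cancel₀ (pow_ne_zero _ D.Y_ne)]

theorem res2_fα : D.res 2 D.fα = D.Y ^ (q * q * q - q) := by
  rw [res_fα, D.res2_y, D.res2_y2, ← pow_mul, pow_sub₀ _ D.Y_ne]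
  have := D.q_pos
  nlinarith [Nat.mul_pos this this]

theorem res0_gβ : D.res 0 D.gβ = D.Y ^ (q * q * q - q) := by
  rw [res_gβ, D.res0_y3, D.res0_y2, ← pow_mul, pow_sub₀ _ D.Y_ne]
  have := D.q_pos
  nlinarith [Nat.mul_pos this this]

theorem res1_gβ : D.res 1 D.gβ = 1 := by
  rw [res_gβ, D.res1_y3, D.res1_y2, mul_inv_cancel₀ (pow_ne_zero _ D.Y_ne)]

theorem res2_gβ : D.res 2 D.gβ = 1 := by
  rw [res_gβ, D.res2_y3, D.res2_y2, mul_inv_cancel₀ (pow_ne_zero _ D.Y_ne)]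

/-- elements of the local ring with residue zero are non units -/
theorem isM_of_res {i : Fin 3} (hp : D.p i ≤ m) {x : F} (hx : x ∈ locRing D.B m)
    (h : D.res i x = 0) : IsM D m x := by
  refine ⟨hx, fun hu => ?_⟩
  have h1 : IsUnit (D.ρloc m hp ⟨x, hx⟩) := hu.map _
  rw [ρloc_apply] at h1
  exact h1.ne_zero h

theorem IsM.add {x z : F} (hx : IsM D m x) (hz : IsM D m z) : IsM D m (x + z) := by
  refine ⟨add_mem hx.1 hz.1, ?_⟩
  have h1 : (⟨x, hx.1⟩ : locRing D.B m) ∈ IsLocalRing.maximalIdeal (locRing D.B m) := hx.2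
  have h2 : (⟨z, hz.1⟩ : locRing D.B m) ∈ IsLocalRing.maximalIdeal (locRing D.B m) := hz.2
  exact (IsLocalRing.maximalIdeal (locRing D.B m)).add_mem h1 h2

theorem IsM.pow {x : F} (hx : IsM D m x) {n : ℕ} (hn : n ≠ 0) : IsM D m (x ^ n) := by
  refine ⟨pow_mem hx.1 n, ?_⟩
  have h1 : (⟨x, hx.1⟩ : locRing D.B m) ∈ IsLocalRing.maximalIdeal (locRing D.B m) := hx.2
  exact (IsLocalRing.maximalIdeal (locRing D.B m)).pow_mem_of_mem h1 n (Nat.pos_of_ne_zero hn)

theorem not_isM_of_sub_one {x : F} (hx : IsM D m (x - 1)) (hx' : IsM D m x) : False := by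
  have h1 : (⟨x, hx'.1⟩ : locRing D.B m) ∈ IsLocalRing.maximalIdeal (locRing D.B m) := hx'.2
  have h2 : (⟨x - 1, hx.1⟩ : locRing D.B m) ∈ IsLocalRing.maximalIdeal (locRing D.B m) := hx.2
  have h3 := (IsLocalRing.maximalIdeal (locRing D.B m)).sub_mem h1 h2
  have h4 : (⟨x, hx'.1⟩ : locRing D.B m) - ⟨x - 1, hx.1⟩ = 1 := Subtype.ext (by
    show x - (x - 1) = 1; ring)
  rw [h4] at h3
  exact (IsLocalRing.maximalIdeal.isMaximal (locRing D.B m)).ne_top
    ((Ideal.eq_top_iff_one _).2 h3)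

include D in
theorem exp_ne : q * q * q - q ≠ 0 := by
  have := D.hq
  have h1 : q < q * q * q := by nlinarith [Nat.mul_le_mul this this]
  omega

include hy in
theorem isM_gβ (h0 : D.p 0 ≤ m) : IsM D m D.gβ := by
  have hy' := isM_y D m hy
  have h1 : IsM D m (D.gβ - D.y ^ (q * q * q - q)) := by
    apply isM_of_res D m h0 (sub_mem (gβ_mem D m hy) (pow_mem hy'.1 _))
    have hg : D.gβ ∈ D.V 0 := D.locRing_le_V m h0 (gβ_mem D m hy)
    rw [res_sub hg (pow_mem (D.y_V 0) _), res_pow (D.y_V 0), D.res0_gβ, D.res0_y, sub_self]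
  have h2 := IsM.add D m h1 (IsM.pow D m hy' D.exp_ne)
  rwa [sub_add_cancel] at h2

include hy in
theorem isM_fα (h2 : D.p 2 ≤ m) : IsM D m D.fα := by
  have hy' := isM_y3 D m hy
  have h1 : IsM D m (D.fα - D.y3 ^ (q * q * q - q)) := by
    apply isM_of_res D m h2 (sub_mem (fα_mem D m hy) (pow_mem hy'.1 _))
    have hg : D.fα ∈ D.V 2 := D.locRing_le_V m h2 (fα_mem D m hy)
    rw [res_sub hg (pow_mem (D.y3_V 2) _), res_pow (D.y3_V 2), D.res2_fα, D.res2_y3, sub_self]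
  have h2 := IsM.add D m h1 (IsM.pow D m hy' D.exp_ne)
  rwa [sub_add_cancel] at h2

include hy in
theorem not_isM_fα {i : Fin 3} (hp : D.p i ≤ m) (h : D.res i D.fα = 1) : ¬ IsM D m D.fα := by
  intro h'
  apply not_isM_of_sub_one D m ?_ h'
  apply isM_of_res D m hp (sub_mem (fα_mem D m hy) (one_mem _))
  rw [res_sub (D.locRing_le_V m hp (fα_mem D m hy)) (one_mem _), h, res_one, sub_self]

include hy in
theorem not_isM_gβ {i : Fin 3} (hp : D.p i ≤ m) (h : D.res i D.gβ = 1) : ¬ IsM D m D.gβ := by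
  intro h'
  apply not_isM_of_sub_one D m ?_ h'
  apply isM_of_res D m hp (sub_mem (gβ_mem D m hy) (one_mem _))
  rw [res_sub (D.locRing_le_V m hp (gβ_mem D m hy)) (one_mem _), h, res_one, sub_self]

include hy in
theorem not_p0_p1 (h0 : D.p 0 ≤ m) (h1 : D.p 1 ≤ m) : False :=
  not_isM_gβ D m hy h1 D.res1_gβ (isM_gβ D m hy h0)

include hy in
theorem not_p0_p2 (h0 : D.p 0 ≤ m) (h2 : D.p 2 ≤ m) : False :=
  not_isM_gβ D m hy h2 D.res2_gβ (isM_gβ D m hy h0)

include hy in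
theorem not_p1_p2 (h1 : D.p 1 ≤ m) (h2 : D.p 2 ≤ m) : False :=
  not_isM_fα D m hy h1 D.res1_fα (isM_fα D m hy h2)

include hy in
/-- **(a)** exactly one component passes through a cuspidal point -/
theorem existsUnique_p (hq : D.qB ∈ m) : ∃! i, D.p i ≤ m := by
  obtain ⟨i, hi⟩ := D.exists_p_le m hq
  refine ⟨i, hi, fun j hj => ?_⟩
  have H : ∀ i j : Fin 3, D.p i ≤ m → D.p j ≤ m → j = i := by
    intro i j hi hj
    fin_cases i <;> fin_cases j <;> first
      | rfl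
      | exact (not_p0_p1 D m hy hi hj).elim
      | exact (not_p0_p1 D m hy hj hi).elim
      | exact (not_p0_p2 D m hy hi hj).elim
      | exact (not_p0_p2 D m hy hj hi).elim
      | exact (not_p1_p2 D m hy hi hj).elim
      | exact (not_p1_p2 D m hy hj hi).elim
  exact H i j hi hj

theorem div_q0 {x : F} (hx : x ∈ D.V 0) (h : D.res 0 x = 0) : x / (q : F) ∈ D.V 0 := by
  have := pow_div_mem hx h
  rwa [D.e_zero, pow_one] at this

theorem div_q2 {x : F} (hx : x ∈ D.V 2) (h : D.res 2 x = 0) : x / (q : F) ∈ D.V 2 := by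
  have := pow_div_mem hx h
  rwa [D.e_two, pow_one] at this

theorem pow_div_q1 {x : F} (hx : x ∈ D.V 1) (h : D.res 1 x = 0) :
    x ^ (q - 1) / (q : F) ∈ D.V 1 := by
  have := pow_div_mem hx h
  rwa [D.e_one] at this

theorem mul_pow_div_q1 {x y : F} (hx : x ∈ D.V 1) (h : D.res 1 x = 0) (hy : y ∈ D.V 1)
    (h' : D.res 1 y = 0) :
    x * y ^ (q - 2) / (q : F) ∈ D.V 1 := by
  have hq := D.hq
  rcases eq_or_ne x 0 with rfl | hx0
  · simp [zero_mem]
  rcases eq_or_ne y 0 with rfl | hy0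
  · rcases Nat.lt_or_ge 2 q with h2 | h2
    · rw [zero_pow (by omega)]; simp [zero_mem]
    · have h3 : q - 2 = 0 := by omega
      have := D.pow_div_q1 hx h
      rw [h3, pow_zero, mul_one]
      rwa [show q - 1 = 1 by omega, pow_one] at this
  have e1 : q - 1 = (q - 2) + 1 := by omega
  rcases (D.V 1).mem_or_inv_mem (x / y) with h1 | h1
  · have e : x * y ^ (q - 2) / (q : F) = (x / y) * (y ^ (q - 1) / q) := by
      rw [e1, pow_succ]; field_simp
    rw [e]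
    exact mul_mem h1 (D.pow_div_q1 hy h')
  · rw [inv_div] at h1
    have e : x * y ^ (q - 2) / (q : F) = (x ^ (q - 1) / q) * (y / x) ^ (q - 2) := by
      rw [e1, pow_succ, div_pow]; field_simp
    rw [e]
    exact mul_mem (D.pow_div_q1 hx h) (pow_mem h1 _)

/-- `w = y / y3 - 1` -/
def w : F := D.y / D.y3 - 1

theorem w_V (i : Fin 3) : D.w ∈ D.V i :=
  sub_mem (div_mem (D.y_V i) (D.res_y3_ne i)) (one_mem _)

theorem res1_w : D.res 1 D.w = 0 := by
  rw [w, res_sub (div_mem (D.y_V 1) (D.res_y3_ne 1)) (one_mem _),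
    res_div (D.y_V 1) (D.res_y3_ne 1), D.res1_y, D.res1_y3, div_self D.Y_ne, res_one, sub_self]

theorem isUnit_of_not_isM {x : F} (hx : x ∈ locRing D.B m) (h : ¬ IsM D m x) :
    x⁻¹ ∈ locRing D.B m := by
  by_contra hcon
  apply h
  refine ⟨hx, fun hu => hcon ?_⟩
  obtain ⟨s, hs⟩ := hu.exists_right_inv
  have h1 : x * (s : F) = 1 := congrArg (fun z : locRing D.B m => (z : F)) hs
  rw [inv_eq_of_mul_eq_one_right h1]; exact s.2

include hy in
theorem w_mem (h1 : D.p 1 ≤ m) : D.w ∈ locRing D.B m := by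
  refine sub_mem ?_ (one_mem _)
  apply R_closed
  have hg := isUnit_of_not_isM D m (gβ_mem D m hy) (not_isM_gβ D m hy h1 D.res1_gβ)
  have hpow : (D.y / D.y3) ^ q ∈ locRing D.B m := by
    have e : (D.y / D.y3) ^ q = D.fα * D.gβ⁻¹ := by
      have := D.y_ne
      have := D.y2_ne
      have := D.y3_ne
      rw [fα, gβ, div_pow]
      field_simp
    rw [e]
    exact mul_mem (fα_mem D m hy) hg
  have hint : IsIntegral (locRing D.B m) ((D.y / D.y3) ^ q) :=
    isIntegral_algebraMap (x := (⟨_, hpow⟩ : locRing D.B m))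
  exact IsIntegral.of_pow D.q_pos hint

theorem mem_primes {i : Fin 3} (hi : ¬ D.p i ≤ m) : ∃ u : D.B, D.res i (u : F) = 0 ∧ u ∉ m := by
  obtain ⟨u, hu, hu'⟩ := Set.not_subset.1 hi
  exact ⟨u, (D.mem_p_iff).1 hu, hu'⟩

/-- elements of the local ring: multiply into the chart ring -/
theorem mem_of_mul {x : F} {u : D.B} (hu : u ∉ m) (h : x * (u : F) ∈ D.B) :
    x ∈ locRing D.B m := ⟨⟨_, h⟩, u, hu, rfl⟩

/-- `w^(q-1)/q` -/
def ε : F := D.w ^ (q - 1) / (q : F)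

theorem ε_V1 : D.ε ∈ D.V 1 := D.pow_div_q1 (D.w_V 1) D.res1_w

include hy in
theorem ε_mem (h1 : D.p 1 ≤ m) : D.ε ∈ locRing D.B m := by
  have hw := w_mem D m hy h1
  obtain ⟨a, b, hb, hab⟩ := hw
  obtain ⟨u0, hu0, hu0m⟩ := mem_primes D m (i := 0) fun h => not_p0_p1 D m hy h h1
  obtain ⟨u2, hu2, hu2m⟩ := mem_primes D m (i := 2) fun h => not_p1_p2 D m hy h1 h
  have hum : b ^ (q - 1) * (u0 * u2) ∉ m := by
    intro h
    rcases hm.mem_or_mem h with h | h
    · exact hb (hm.mem_of_pow_mem _ h)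
    · exact (hm.mem_or_mem h).elim hu0m hu2m
  apply mem_of_mul D m hum
  have e : D.ε * ((b ^ (q - 1) * (u0 * u2) : D.B) : F) = (a : F) ^ (q - 1) * (u0 * u2) / (q : F) := by
    push_cast
    rw [ε, ← hab, mul_pow]; ring
  rw [e]
  apply D.div_q_mem
  · exact mul_mem (pow_mem (D.B_le_hor a.2) _) (mul_mem (D.B_le_hor u0.2) (D.B_le_hor u2.2))
  intro i
  fin_cases i
  · show (a : F) ^ (q - 1) * (u0 * u2) / (q : F) ∈ D.V 0
    have e2 : (a : F) ^ (q - 1) * (u0 * u2) / (q : F) = (u0 / q) * ((a : F) ^ (q - 1) * u2) := by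
      ring
    rw [e2]
    exact mul_mem (D.div_q0 (D.B_le_V 0 u0.2) hu0)
      (mul_mem (pow_mem (D.B_le_V 0 a.2) _) (D.B_le_V 0 u2.2))
  · show (a : F) ^ (q - 1) * (u0 * u2) / (q : F) ∈ D.V 1
    have e2 : (a : F) ^ (q - 1) * (u0 * u2) / (q : F) = D.ε * (b : F) ^ (q - 1) * (u0 * u2) := by
      rw [ε, ← hab, mul_pow]; ring
    rw [e2]
    exact mul_mem (mul_mem D.ε_V1 (pow_mem (D.B_le_V 1 b.2) _))
      (mul_mem (D.B_le_V 1 u0.2) (D.B_le_V 1 u2.2))
  · show (a : F) ^ (q - 1) * (u0 * u2) / (q : F) ∈ D.V 2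
    have e2 : (a : F) ^ (q - 1) * (u0 * u2) / (q : F) = (u2 / q) * ((a : F) ^ (q - 1) * u0) := by
      ring
    rw [e2]
    exact mul_mem (D.div_q2 (D.B_le_V 2 u2.2) hu2)
      (mul_mem (pow_mem (D.B_le_V 2 a.2) _) (D.B_le_V 2 u0.2))

/-- lift of a polynomial over `k`, evaluated at `y` -/
theorem exists_lift_poly (P : k[X]) : ∃ x : D.B, D.r 1 x = aeval D.Y P ∧
    ∃ c : D.B, (∀ i, D.r i c = algebraMap k E (P.eval 0)) ∧ ∃ z : D.B, x = c + D.yB * z := by
  induction P using Polynomial.induction_on' with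
  | add P Q hP hQ =>
    obtain ⟨x, hx, c, hc, z, hz⟩ := hP
    obtain ⟨x', hx', c', hc', z', hz'⟩ := hQ
    refine ⟨x + x', by rw [map_add, hx, hx', map_add], c + c', fun i => ?_, z + z', ?_⟩
    · rw [map_add, hc, hc', eval_add, map_add]
    · rw [hz, hz']; ring
  | monomial n a =>
    obtain ⟨c, hc⟩ := D.const a
    have hr : D.r 1 D.yB = D.Y := by rw [r_apply]; exact D.res1_y
    refine ⟨c * D.yB ^ n, ?_, ?_⟩
    · rw [map_mul, map_pow, hc, hr, aeval_monomial]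
    · rcases Nat.eq_zero_or_pos n with rfl | hn
      · refine ⟨c, fun i => ?_, 0, by simp⟩
        rw [hc]; simp
      · refine ⟨0, fun i => ?_, c * D.yB ^ (n - 1), ?_⟩
        · rw [map_zero]
          simp [eval_monomial, hn.ne']
        · obtain ⟨n, rfl⟩ := Nat.exists_eq_succ_of_ne_zero hn.ne'
          simp [pow_succ]; ring

include hy in
theorem lift_notMem {i : Fin 3} (hp : D.p i ≤ m) {x c z : D.B} {a : k}
    (hc : ∀ i, D.r i c = algebraMap k E a) (ha : a ≠ 0) (hx : x = c + D.yB * z) : x ∉ m := by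
  intro h
  have h1 : c ∈ m := by
    have := m.sub_mem h (m.mul_mem_right z hy)
    rwa [hx, add_sub_cancel_right] at this
  obtain ⟨d, hd⟩ := D.const a⁻¹
  have h2 : c * d - 1 ∈ D.p i := by
    rw [D.mem_p, map_sub, map_mul, hc, hd, ← map_mul, mul_inv_cancel₀ ha, map_one, map_one,
      sub_self]
  have h3 := m.sub_mem (m.mul_mem_right d h1) (hp h2)
  rw [sub_sub_cancel] at h3
  exact hm.ne_top ((Ideal.eq_top_iff_one _).2 h3)

theorem res_ε : D.res 1 D.ε * D.Y ^ (q - 1) = (-1) ^ (q - 1) *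
    D.res 1 ((D.y3 - D.y) ^ (q - 1) / (q : F)) := by
  have hy3 := D.y3_ne
  have e : D.ε * D.y3 ^ (q - 1) = (-1) ^ (q - 1) * ((D.y3 - D.y) ^ (q - 1) / (q : F)) := by
    have e1 : D.w * D.y3 = (-1) * (D.y3 - D.y) := by
      rw [w]; field_simp; ring
    rw [ε, div_mul_eq_mul_div, ← mul_pow, e1, mul_pow, mul_div_assoc]
  have hV : (D.y3 - D.y) ^ (q - 1) / (q : F) ∈ D.V 1 := by
    apply D.pow_div_q1 (sub_mem (D.y3_V 1) (D.y_V 1))
    rw [res_sub (D.y3_V 1) (D.y_V 1), D.res1_y, D.res1_y3, sub_self]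
  have h1 := congrArg (D.res 1) e
  rw [res_mul D.ε_V1 (pow_mem (D.y3_V 1) _), res_pow (D.y3_V 1), D.res1_y3,
    res_mul (pow_mem (neg_mem (one_mem _)) _) hV, res_pow (neg_mem (one_mem _)),
    res_neg (one_mem _), res_one] at h1
  exact h1

include hy in
theorem not_isM_ε (h1 : D.p 1 ≤ m) : ¬ IsM D m D.ε := by
  intro hM
  obtain ⟨P, Q, hP, hQ, hPQ⟩ := D.eps
  obtain ⟨x, hx, c, hc, z, hz⟩ := exists_lift_poly D P
  obtain ⟨x', hx', c', hc', z', hz'⟩ := exists_lift_poly D Q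
  have hxm : x ∉ m := lift_notMem D m hy h1 hc hP hz
  -- `ε x' - (-1)^(q-1) x` has residue zero
  have hres : D.res 1 (D.ε * (x' : F) - (-1) ^ (q - 1) * (x : F)) = 0 := by
    rw [res_sub (mul_mem D.ε_V1 (D.B_le_V 1 x'.2)) (mul_mem (pow_mem (neg_mem (one_mem _)) _)
      (D.B_le_V 1 x.2)), res_mul D.ε_V1 (D.B_le_V 1 x'.2),
      res_mul (pow_mem (neg_mem (one_mem _)) _) (D.B_le_V 1 x.2), res_pow (neg_mem (one_mem _)),
      res_neg (one_mem _), res_one, ← D.r_apply, ← D.r_apply, hx, hx']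
    have h2 := D.res_ε
    have h3 : D.Y ^ (q - 1) ≠ 0 := pow_ne_zero _ D.Y_ne
    apply mul_right_cancel₀ h3
    rw [sub_mul, zero_mul]
    calc D.res 1 D.ε * aeval D.Y Q * D.Y ^ (q - 1) - (-1) ^ (q - 1) * aeval D.Y P * D.Y ^ (q - 1)
        = (D.res 1 D.ε * D.Y ^ (q - 1)) * aeval D.Y Q
          - (-1) ^ (q - 1) * (D.Y ^ (q - 1) * aeval D.Y P) := by ring
      _ = 0 := by rw [h2, ← hPQ]; ring
  have hmem : D.ε * (x' : F) - (-1) ^ (q - 1) * (x : F) ∈ locRing D.B m :=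
    sub_mem (mul_mem (ε_mem D m hy h1) (le_locRing x'.2))
      (mul_mem (pow_mem (neg_mem (one_mem _)) _) (le_locRing x.2))
  have hM1 := isM_of_res D m h1 hmem hres
  have hM2 : IsM D m (D.ε * (x' : F)) := by
    refine ⟨mul_mem hM.1 (le_locRing x'.2), fun hu => hM.2 ?_⟩
    exact isUnit_of_mul_isUnit_left (y := (⟨x', le_locRing x'.2⟩ : locRing D.B m)) hu
  have h4 : (⟨_, hM2.1⟩ : locRing D.B m) - ⟨_, hM1.1⟩ ∈
      IsLocalRing.maximalIdeal (locRing D.B m) :=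
    (IsLocalRing.maximalIdeal (locRing D.B m)).sub_mem hM2.2 hM1.2
  have h5 : (⟨_, hM2.1⟩ : locRing D.B m) - ⟨_, hM1.1⟩ =
      algebraMap D.B (locRing D.B m) ((-1) ^ (q - 1) * x) := by
    apply Subtype.ext
    show D.ε * (x' : F) - (D.ε * (x' : F) - (-1) ^ (q - 1) * (x : F)) = _
    rw [coe_algebraMap_locRing]
    push_cast
    ring
  rw [h5, mem_maximalIdeal_locRing] at h4
  rcases hm.mem_or_mem h4 with h | h
  · have h6 := hm.mem_of_pow_mem _ h
    rw [neg_mem_iff] at h6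
    exact hm.ne_top ((Ideal.eq_top_iff_one _).2 h6)
  · exact hxm h

include hy in
theorem surj {i : Fin 3} (hp : D.p i ≤ m) :
    ∀ c ∈ D.C, ∃ x : locRing D.B m, D.ρloc m hp x = c := by
  intro c hc
  obtain ⟨x, hx, hxV, hint⟩ := D.lift i c hc
  have hle : ∀ a : F, a ∈ (Algebra.adjoin D.B {D.y3} : Subalgebra D.B F) → a ∈ locRing D.B m := by
    intro a ha
    induction ha using Algebra.adjoin_induction with
    | mem x hx => rw [Set.mem_singleton_iff] at hx; rw [hx]; exact (isM_y3 D m hy).1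
    | algebraMap r => exact le_locRing r.2
    | add x y _ _ hx hy => exact add_mem hx hy
    | mul x y _ _ hx hy => exact mul_mem hx hy
  have hmem : x ∈ locRing D.B m := by
    apply R_closed
    obtain ⟨P, hP, h0⟩ := hint
    let g : (Algebra.adjoin D.B {D.y3} : Subalgebra D.B F) →+* locRing D.B m :=
      { toFun := fun a => ⟨a, hle a a.2⟩
        map_one' := rfl
        map_mul' := fun _ _ => rfl
        map_zero' := rfl
        map_add' := fun _ _ => rfl }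
    refine ⟨P.map g, hP.map _, ?_⟩
    rw [Polynomial.eval₂_map]
    exact h0
  exact ⟨⟨x, hmem⟩, hx⟩

include hy in
/-- **(c)** the image of the local ring in `E` is a local ring of `C` -/
theorem range_eq {i : Fin 3} (hp : D.p i ≤ m) :
    (D.ρloc m hp).range = locRing D.C (nC D.toCompSys m hp (D.surj m hy hp)) :=
  range_ρloc D.toCompSys m hp (D.r_mem i) _

include hy in
theorem ε_unit (h1 : D.p 1 ≤ m) : D.ε⁻¹ ∈ locRing D.B m :=
  isUnit_of_not_isM D m (ε_mem D m hy h1) (not_isM_ε D m hy h1)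

include hy in
theorem w_ne_zero (h1 : D.p 1 ≤ m) : D.w ≠ 0 := by
  intro h
  have hq1 : q - 1 ≠ 0 := by have := D.hq; omega
  apply not_isM_ε D m hy h1
  have h0 : D.ε = 0 := by rw [ε, h, zero_pow hq1, zero_div]
  rw [h0]
  refine ⟨zero_mem _, fun hu => ?_⟩
  exact hu.ne_zero rfl

include hy in
/-- **(b)** the local rings at the cusps are UFDs -/
theorem ufd (hq : D.qB ∈ m) : UniqueFactorizationMonoid (locRing D.B m) := by
  have := D.noeth
  have := D.dedekind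
  have hq0 := D.q_ne
  obtain ⟨i, hi, hi'⟩ := existsUnique_p D m hy hq
  have hother : ∀ j, j ≠ i → ∃ u : D.B, D.res j (u : F) = 0 ∧ u ∉ m := fun j hj =>
    mem_primes D m fun h => hj (hi' j h)
  have hi2 : i = 0 ∨ i = 1 ∨ i = 2 := by fin_cases i <;> simp
  rcases hi2 with rfl | rfl | rfl
  · obtain ⟨u1, hu1, hu1m⟩ := hother 1 (by decide)
    obtain ⟨u2, hu2, hu2m⟩ := hother 2 (by decide)
    refine ufd_at_local D.toCompSys m hi (D.r_mem 0) (D.surj m hy hi) (q : F) hq0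
      (natCast_mem _ q) (res_q _ 0) ?_
    intro b hb
    have hb' := (D.mem_p_iff).1 hb
    have hmem : (b : F) * ((u1 : F) ^ (q - 1) * u2) / (q : F) ∈ D.B := by
      apply D.div_q_mem (mul_mem (D.B_le_hor b.2) (mul_mem (pow_mem (D.B_le_hor u1.2) _)
        (D.B_le_hor u2.2)))
      intro i
      fin_cases i
      · show (b : F) * ((u1 : F) ^ (q - 1) * u2) / (q : F) ∈ D.V 0
        rw [mul_comm, mul_div_assoc]
        exact mul_mem (mul_mem (pow_mem (D.B_le_V 0 u1.2) _) (D.B_le_V 0 u2.2))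
          (D.div_q0 (D.B_le_V 0 b.2) hb')
      · show (b : F) * ((u1 : F) ^ (q - 1) * u2) / (q : F) ∈ D.V 1
        have e : (b : F) * ((u1 : F) ^ (q - 1) * u2) / (q : F) =
            (b * u2) * ((u1 : F) ^ (q - 1) / q) := by ring
        rw [e]
        exact mul_mem (mul_mem (D.B_le_V 1 b.2) (D.B_le_V 1 u2.2))
          (D.pow_div_q1 (D.B_le_V 1 u1.2) hu1)
      · show (b : F) * ((u1 : F) ^ (q - 1) * u2) / (q : F) ∈ D.V 2
        have e : (b : F) * ((u1 : F) ^ (q - 1) * u2) / (q : F) =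
            (b * (u1 : F) ^ (q - 1)) * (u2 / q) := by ring
        rw [e]
        exact mul_mem (mul_mem (D.B_le_V 2 b.2) (pow_mem (D.B_le_V 2 u1.2) _))
          (D.div_q2 (D.B_le_V 2 u2.2) hu2)
    refine ⟨⟨_, hmem⟩, u1 ^ (q - 1) * u2, ?_, ?_⟩
    · intro h
      exact (hm.mem_or_mem h).elim (fun h => hu1m (hm.mem_of_pow_mem _ h)) hu2m
    · push_cast; ring
  · obtain ⟨u0, hu0, hu0m⟩ := hother 0 (by decide)
    obtain ⟨u2, hu2, hu2m⟩ := hother 2 (by decide)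
    have hw0 := w_ne_zero D m hy hi
    refine ufd_at_local D.toCompSys m hi (D.r_mem 1) (D.surj m hy hi) D.w hw0
      (w_mem D m hy hi) D.res1_w ?_
    intro b hb
    have hb' := (D.mem_p_iff).1 hb
    -- `b w^(q-2)/q`
    obtain ⟨a, c, hc, hac⟩ := w_mem D m hy hi
    have hum : c ^ (q - 2) * (u0 * u2) ∉ m := by
      intro h
      rcases hm.mem_or_mem h with h | h
      · exact hc (hm.mem_of_pow_mem _ h)
      · exact (hm.mem_or_mem h).elim hu0m hu2m
    have hx : (b : F) * D.w ^ (q - 2) / (q : F) ∈ locRing D.B m := by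
      apply mem_of_mul D m hum
      have e : (b : F) * D.w ^ (q - 2) / (q : F) * ((c ^ (q - 2) * (u0 * u2) : D.B) : F) =
          (b : F) * ((a : F) ^ (q - 2) * (u0 * u2)) / (q : F) := by
        push_cast
        rw [← hac, mul_pow]; ring
      rw [e]
      apply D.div_q_mem
      · exact mul_mem (D.B_le_hor b.2) (mul_mem (pow_mem (D.B_le_hor a.2) _)
          (mul_mem (D.B_le_hor u0.2) (D.B_le_hor u2.2)))
      intro i
      fin_cases i
      · show (b : F) * ((a : F) ^ (q - 2) * (u0 * u2)) / (q : F) ∈ D.V 0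
        have e2 : (b : F) * ((a : F) ^ (q - 2) * (u0 * u2)) / (q : F) =
            (u0 / q) * (b * (a : F) ^ (q - 2) * u2) := by ring
        rw [e2]
        exact mul_mem (D.div_q0 (D.B_le_V 0 u0.2) hu0)
          (mul_mem (mul_mem (D.B_le_V 0 b.2) (pow_mem (D.B_le_V 0 a.2) _)) (D.B_le_V 0 u2.2))
      · show (b : F) * ((a : F) ^ (q - 2) * (u0 * u2)) / (q : F) ∈ D.V 1
        have e2 : (b : F) * ((a : F) ^ (q - 2) * (u0 * u2)) / (q : F) =
            (b * D.w ^ (q - 2) / q) * ((c : F) ^ (q - 2)) * (u0 * u2) := by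
          rw [← hac, mul_pow]; ring
        rw [e2]
        exact mul_mem (mul_mem (D.mul_pow_div_q1 (D.B_le_V 1 b.2) hb' (D.w_V 1) D.res1_w)
          (pow_mem (D.B_le_V 1 c.2) _)) (mul_mem (D.B_le_V 1 u0.2) (D.B_le_V 1 u2.2))
      · show (b : F) * ((a : F) ^ (q - 2) * (u0 * u2)) / (q : F) ∈ D.V 2
        have e2 : (b : F) * ((a : F) ^ (q - 2) * (u0 * u2)) / (q : F) =
            (u2 / q) * (b * (a : F) ^ (q - 2) * u0) := by ring
        rw [e2]
        exact mul_mem (D.div_q2 (D.B_le_V 2 u2.2) hu2)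
          (mul_mem (mul_mem (D.B_le_V 2 b.2) (pow_mem (D.B_le_V 2 a.2) _)) (D.B_le_V 2 u0.2))
    have e3 : (b : F) / D.w = ((b : F) * D.w ^ (q - 2) / (q : F)) * D.ε⁻¹ := by
      have hq2 := D.hq
      have e1 : D.w ^ (q - 1) = D.w ^ (q - 2) * D.w := by
        rw [← pow_succ]; congr 1; omega
      rw [ε, e1]
      field_simp
    rw [e3]
    exact mul_mem hx (ε_unit D m hy hi)
  · obtain ⟨u0, hu0, hu0m⟩ := hother 0 (by decide)
    obtain ⟨u1, hu1, hu1m⟩ := hother 1 (by decide)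
    refine ufd_at_local D.toCompSys m hi (D.r_mem 2) (D.surj m hy hi) (q : F) hq0
      (natCast_mem _ q) (res_q _ 2) ?_
    intro b hb
    have hb' := (D.mem_p_iff).1 hb
    have hmem : (b : F) * ((u1 : F) ^ (q - 1) * u0) / (q : F) ∈ D.B := by
      apply D.div_q_mem (mul_mem (D.B_le_hor b.2) (mul_mem (pow_mem (D.B_le_hor u1.2) _)
        (D.B_le_hor u0.2)))
      intro i
      fin_cases i
      · show (b : F) * ((u1 : F) ^ (q - 1) * u0) / (q : F) ∈ D.V 0
        have e : (b : F) * ((u1 : F) ^ (q - 1) * u0) / (q : F) =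
            (b * (u1 : F) ^ (q - 1)) * (u0 / q) := by ring
        rw [e]
        exact mul_mem (mul_mem (D.B_le_V 0 b.2) (pow_mem (D.B_le_V 0 u1.2) _))
          (D.div_q0 (D.B_le_V 0 u0.2) hu0)
      · show (b : F) * ((u1 : F) ^ (q - 1) * u0) / (q : F) ∈ D.V 1
        have e : (b : F) * ((u1 : F) ^ (q - 1) * u0) / (q : F) =
            (b * u0) * ((u1 : F) ^ (q - 1) / q) := by ring
        rw [e]
        exact mul_mem (mul_mem (D.B_le_V 1 b.2) (D.B_le_V 1 u0.2))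
          (D.pow_div_q1 (D.B_le_V 1 u1.2) hu1)
      · show (b : F) * ((u1 : F) ^ (q - 1) * u0) / (q : F) ∈ D.V 2
        rw [mul_comm, mul_div_assoc]
        exact mul_mem (mul_mem (pow_mem (D.B_le_V 2 u1.2) _) (D.B_le_V 2 u0.2))
          (D.div_q2 (D.B_le_V 2 b.2) hb')
    refine ⟨⟨_, hmem⟩, u1 ^ (q - 1) * u0, ?_, ?_⟩
    · intro h
      exact (hm.mem_or_mem h).elim (fun h => hu1m (hm.mem_of_pow_mem _ h)) hu0m
    · push_cast; ring

end point

end CuspSys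

end Fermat.Agent.H24
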