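import Fermat.Agent.H24Kron

/-!
# Integrality statements from the modular equation of prime level
-/

set_option autoImplicit false

noncomputable section

namespace Fermat.Agent.H24

open ModularCurve Polynomial Fermat.Agent.H66

variable (q : ℕ) [hq : Fact q.Prime]

/-- the modular polynomial of level `q` -/
def Psi : ℤ[X][X] := (exists_modPoly q).choose

theorem Psi_monic : (Psi q).Monic := (exists_modPoly q).choose_spec.1
theorem Psi_natDegree : (Psi q).natDegree = q + 1 := (exists_modPoly q).choose_spec.2.1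
theorem Psi_prod : psiAt (Psi q) (qExpand (Rz q) q (jqModC (Rz q))) =
      ∏ a, (X - C (jf (Rz q) q (uz q) a)) := (exists_modPoly q).choose_spec.2.2

/-- the relation of level `q` : `Ψ(x; z) = 0` -/
def Rel {B : Type*} [CommRing B] (x z : B) : Prop := (psiAt (Psi q) z).eval x = 0

variable {q}

theorem Rel.map {B B' : Type*} [CommRing B] [CommRing B'] (f : B →+* B') {x z : B}
    (h : Rel q x z) : Rel q (f x) (f z) := by
  rw [Rel, ← psiAt_map, Polynomial.eval_map_apply, h, map_zero]

theorem Rel.of_map {B B' : Type*} [CommRing B] [CommRing B'] {f : B →+* B'}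
    (hf : Function.Injective f) {x z : B} (h : Rel q (f x) (f z)) : Rel q x z := by
  rw [Rel, ← psiAt_map, Polynomial.eval_map_apply] at h
  exact hf (by rw [h, map_zero])

variable (q)

theorem rel_j (A : Type*) [CommRing A] : Rel q (jqModC A) (qExpand A q (jqModC A)) :=
  eval_psi1 (Psi_prod q) A

theorem rel_j' (A : Type*) [CommRing A] : Rel q (qExpand A q (jqModC A)) (jqModC A) :=
  eval_psi2 (Psi_prod q) A

variable {q}

section field

variable {F : Type*} [Field F]

theorem evZ_mem_adjoin {z : F} (P : ℤ[X]) : evZ z P ∈ (Algebra.adjoin ℤ {z} : Subalgebra ℤ F) := by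
  have hz : z ∈ (Algebra.adjoin ℤ {z} : Subalgebra ℤ F) :=
    Algebra.subset_adjoin (Set.mem_singleton z)
  induction P using Polynomial.induction_on' with
  | add P Q hP hQ => rw [map_add]; exact add_mem hP hQ
  | monomial n a =>
    rw [← C_mul_X_pow_eq_monomial, map_mul, map_pow, evZ_C, evZ_X]
    refine mul_mem ?_ (pow_mem hz n)
    exact intCast_mem _ a

/-- an element is integral over a subalgebra containing the coefficients of a monic polynomial -/
theorem isIntegral_of_coeff_mem {A : Subalgebra ℤ F} {f : F[X]} (hf : f.Monic)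
    (hc : ∀ k, f.coeff k ∈ A) {x : F} (h0 : f.eval x = 0) : IsIntegral A x := by
  have hl : f ∈ Polynomial.lifts (algebraMap A F) := by
    rw [Polynomial.lifts_iff_coeff_lifts]
    intro k
    exact ⟨⟨f.coeff k, hc k⟩, rfl⟩
  obtain ⟨g, hg, _, hgm⟩ := Polynomial.lifts_and_natDegree_eq_and_monic hl hf
  refine ⟨g, hgm, ?_⟩
  rw [← Polynomial.eval_map, hg, h0]

theorem Rel.isIntegral {x z : F} (h : Rel q x z) :
    IsIntegral (Algebra.adjoin ℤ {z} : Subalgebra ℤ F) x := by
  refine isIntegral_of_coeff_mem (f := psiAt (Psi q) z) ((Psi_monic q).map _) (fun k => ?_) h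
  rw [psiAt_coeff]
  exact evZ_mem_adjoin _

/-- `w^N P(1/w)` is a polynomial in `w` if `deg P ≤ N` -/
theorem pow_mul_evZ_mem {z w : F} (hzw : z * w = 1) (P : ℤ[X]) (N : ℕ) (hN : P.natDegree ≤ N) :
    evZ z P * w ^ N ∈ (Algebra.adjoin ℤ {w} : Subalgebra ℤ F) := by
  have hw : w ∈ (Algebra.adjoin ℤ {w} : Subalgebra ℤ F) :=
    Algebra.subset_adjoin (Set.mem_singleton w)
  have e : evZ z P = ∑ i ∈ Finset.range (P.natDegree + 1), (P.coeff i : F) * z ^ i := by
    rw [evZ, coe_eval₂RingHom, Polynomial.eval₂_eq_sum_range]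
    rfl
  rw [e, Finset.sum_mul]
  refine sum_mem fun i hi => ?_
  have hi' : i ≤ N := by
    have := Finset.mem_range.1 hi
    omega
  have e2 : (P.coeff i : F) * z ^ i * w ^ N = (P.coeff i : F) * w ^ (N - i) := by
    have e3 : w ^ N = w ^ i * w ^ (N - i) := by rw [← pow_add, Nat.add_sub_cancel' hi']
    rw [e3, mul_assoc, ← mul_assoc (z ^ i), ← mul_pow, hzw, one_pow, one_mul]
  rw [e2]
  exact mul_mem (intCast_mem _ _) (pow_mem hw _)

theorem Rel.isIntegral_inv {x z : F} (h : Rel q x z) (hz : z ≠ 0) :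
    IsIntegral (Algebra.adjoin ℤ {z⁻¹} : Subalgebra ℤ F) (z⁻¹ ^ q * x) := by
  have hm : (psiAt (Psi q) z).Monic := (Psi_monic q).map _
  have hd : (psiAt (Psi q) z).natDegree = q + 1 := by
    rw [psiAt, (Psi_monic q).natDegree_map, Psi_natDegree]
  have hm' : ((psiAt (Psi q) z).scaleRoots (z⁻¹ ^ q)).Monic :=
    (monic_scaleRoots_iff _).2 hm
  refine isIntegral_of_coeff_mem hm' (fun k => ?_) ?_
  · rw [coeff_scaleRoots, hd, psiAt_coeff, ← pow_mul]
    rcases Nat.lt_or_ge (q + 1) k with hk | hk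
    · have : (Psi q).coeff k = 0 := coeff_eq_zero_of_natDegree_lt (by rw [Psi_natDegree]; exact hk)
      rw [this, map_zero, zero_mul]
      exact zero_mem _
    · exact pow_mul_evZ_mem (mul_inv_cancel₀ hz) _ _ (natDegree_coeff_le (Psi_prod q) k hk)
  · have h1 := Polynomial.scaleRoots_eval₂_eq_zero (RingHom.id F) (p := psiAt (Psi q) z)
      (r := x) (s := z⁻¹ ^ q) (by rw [Polynomial.eval₂_id]; exact h)
    rw [Polynomial.eval₂_id] at h1
    exact h1

end field

end Fermat.Agent.H24
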