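import Mathlib
import Fermat.Agent.H24CuspSys
import Fermat.Agent.H24Int
import Fermat.Agent.H83Three

/-!
# The cusp chart attached to `ThreeData` (CARAYOL C5)
-/

set_option autoImplicit false

noncomputable section

namespace Fermat.Agent.H24

open Fermat.Agent.H83 Fermat.Agent.H83.CompSys Polynomial

variable {k E : Type*} [Field k] [Field E] [Algebra k E] {q : ℕ} {R : ResData k E q}
  {F' : Type*} [Field F'] {T : TwoData R F'} {F : Type*} [Field F]

/-- a second chart with the same components -/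
structure Chart2 (S : ThreeData T F) where
  hor : Subring F
  hor_closed : ∀ x : F, IsIntegral hor x → x ∈ hor
  qinv_mem : ((q : F))⁻¹ ∈ hor

/-- the component system of the second chart -/
def Chart2.comp {S : ThreeData T F} (D : Chart2 S) : CompSys F E q (Fin 3) :=
  { S.toCompSys with
    hor := D.hor
    hor_closed := D.hor_closed
    qinv_mem := D.qinv_mem }

section comp

variable {S : ThreeData T F} (D : Chart2 S)

@[simp] theorem comp_V : D.comp.V = S.V := rfl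
@[simp] theorem comp_e : D.comp.e = S.e := rfl
theorem comp_res (i : Fin 3) (x : F) : D.comp.res i x = S.res i x := rfl
@[simp] theorem comp_hor : D.comp.hor = D.hor := rfl

end comp

/-- **The cusp chart** : `J = j ∈ F'`, `Y = 1/j̄`, `C` = integral closure of `k[Y]`. -/
structure CuspData (S : ThreeData T F) extends Chart2 S where
  prime : q.Prime
  /-- the function `j` of level `qm` -/
  J : F'
  /-- modular equation between `j(z)` and `j(qz)` -/
  rel : haveI := Fact.mk prime; Rel q J (T.W J)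
  αWJ : S.α (T.W J) = S.β J
  Y : E
  Y_ne : Y ≠ 0
  res_J : T.res 0 J = Y⁻¹
  res_WJ : T.res 0 (T.W J) = (Y ^ q)⁻¹
  Φ_Y : R.Φ Y = Y ^ q
  y_hor : (S.α J)⁻¹ ∈ hor
  J_hor : S.α J ∈ S.hor
  noeth : IsNoetherianRing toChart2.comp.B
  const : ∀ a : k, ∃ x : F, x ∈ S.hor ∧ x ∈ hor ∧ ∀ i, x ∈ S.V i ∧ S.res i x = algebraMap k E a
  eps : ∃ P Q : k[X], P.eval 0 ≠ 0 ∧ Q.eval 0 ≠ 0 ∧
    S.res 1 (((S.β (T.W J))⁻¹ - (S.α J)⁻¹) ^ (q - 1) / (q : F)) * aeval Y Q =
      Y ^ (q - 1) * aeval Y P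
  C : Subalgebra k E
  dedekind : IsDedekindDomain C
  C_int : ∀ c ∈ C, IsIntegral (Algebra.adjoin k {Y}) c
  res_surj : ∀ n : Ideal C, n.IsMaximal → ∀ c : C, ∃ a : k, c - algebraMap k C a ∈ n
  /-- `C` and `R.C` have the same fraction field -/
  frac : ∀ c ∈ R.C, ∃ a b : E, a ∈ C ∧ b ∈ C ∧ b ≠ 0 ∧ c * b = a
  r_mem : ∀ i (b : toChart2.comp.B), toChart2.comp.r i b ∈ C
  lift : ∀ c ∈ C, ∃ f : F', T.res 0 f = c ∧ f ∈ T.V 0 ∧ S.α f ∈ toChart2.comp.B ∧
    IsIntegral (Algebra.adjoin toChart2.comp.B {(S.β (T.W J))⁻¹} :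
      Subalgebra toChart2.comp.B F) (S.β (T.W f))
  /-- elements of one chart are, up to a power of `j`, in the other -/
  glue : ∀ x ∈ S.hor, ∃ N : ℕ, (S.α J)⁻¹ ^ N * x ∈ hor
  glue' : ∀ x ∈ hor, ∃ N : ℕ, S.α J ^ N * x ∈ S.hor

namespace CuspData

variable {S : ThreeData T F} (D : CuspData S)

theorem res_J_ne : T.res 0 D.J ≠ 0 := by
  rw [D.res_J]; exact inv_ne_zero D.Y_ne

theorem J_ne : D.J ≠ 0 := by
  intro h; apply D.res_J_ne; rw [h, res_zero]

theorem res1_J : T.res 1 D.J = (D.Y ^ q)⁻¹ := by rw [T.W_res, D.res_WJ]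

theorem res1_WJ : T.res 1 (T.W D.J) = D.Y⁻¹ := by rw [T.W_res, T.W_W, D.res_J]

/-- `y = 1/j(z)` -/
def y : F := (S.α D.J)⁻¹
/-- `y2 = 1/j(qz)` -/
def y2 : F := (S.β D.J)⁻¹
/-- `y3 = 1/j(q²z)` -/
def y3 : F := (S.β (T.W D.J))⁻¹

theorem rel1 : haveI := Fact.mk D.prime; Rel q (S.α D.J) (S.β D.J) := by
  have := Fact.mk D.prime
  rw [← D.αWJ]
  exact D.rel.map S.α

theorem rel2 : haveI := Fact.mk D.prime; Rel q (S.β D.J) (S.β (T.W D.J)) := by
  have := Fact.mk D.prime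
  exact D.rel.map S.β

theorem rel3 : haveI := Fact.mk D.prime; Rel q (S.β D.J) (S.α D.J) := by
  have := Fact.mk D.prime
  have h := D.rel.map (T.W : F' →+* F')
  have e : (T.W : F' →+* F') (T.W D.J) = D.J := T.W_W _
  rw [e] at h
  have h2 := h.map S.α
  have e2 : S.α ((T.W : F' →+* F') D.J) = S.β D.J := D.αWJ
  rwa [e2] at h2

theorem Φ_pow (n : ℕ) : R.Φ (D.Y ^ n)⁻¹ = (D.Y ^ (q * n))⁻¹ := by
  rw [map_inv₀, map_pow, D.Φ_Y, ← pow_mul]

theorem sres0_α : S.res 0 (S.α D.J) = D.Y⁻¹ := by rw [S.α_res0, D.res_J]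
theorem sres1_α : S.res 1 (S.α D.J) = D.Y⁻¹ := by rw [S.α_res1, D.res_J]
theorem sres2_α : S.res 2 (S.α D.J) = (D.Y ^ (q * q))⁻¹ := by rw [S.α_res2, D.res1_J, Φ_pow]
theorem sres0_β : S.res 0 (S.β D.J) = (D.Y ^ q)⁻¹ := by
  rw [S.β_res0, D.res_J, map_inv₀, D.Φ_Y]
theorem sres1_β : S.res 1 (S.β D.J) = (D.Y ^ q)⁻¹ := by rw [S.β_res1, D.res1_J]
theorem sres2_β : S.res 2 (S.β D.J) = (D.Y ^ q)⁻¹ := by rw [S.β_res2, D.res1_J]
theorem sres0_βW : S.res 0 (S.β (T.W D.J)) = (D.Y ^ (q * q))⁻¹ := by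
  rw [S.β_res0, D.res_WJ, Φ_pow]
theorem sres1_βW : S.res 1 (S.β (T.W D.J)) = D.Y⁻¹ := by rw [S.β_res1, D.res1_WJ]
theorem sres2_βW : S.res 2 (S.β (T.W D.J)) = D.Y⁻¹ := by rw [S.β_res2, D.res1_WJ]

theorem res_inv' {i : Fin 3} {x : F} {c : E} (hc : c ≠ 0) (h : S.res i x = c⁻¹) :
    S.res i x⁻¹ = c := by
  rw [res_inv (by rw [h]; exact inv_ne_zero hc), h, inv_inv]

/-- the cusp system -/
def sys : CuspSys k F E q :=
  haveI := Fact.mk D.prime
  { D.comp with
    hq := D.prime.two_le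
    e_zero := S.e_zero
    e_one := S.e_one
    e_two := S.e_two
    noeth := D.noeth
    y := D.y
    y2 := D.y2
    y3 := D.y3
    y_hor := D.y_hor
    Y := D.Y
    Y_ne := D.Y_ne
    res0_y := res_inv' D.Y_ne D.sres0_α
    res0_y2 := res_inv' (pow_ne_zero _ D.Y_ne) D.sres0_β
    res0_y3 := res_inv' (pow_ne_zero _ D.Y_ne) D.sres0_βW
    res1_y := res_inv' D.Y_ne D.sres1_α
    res1_y2 := res_inv' (pow_ne_zero _ D.Y_ne) D.sres1_β
    res1_y3 := res_inv' D.Y_ne D.sres1_βW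
    res2_y := res_inv' (pow_ne_zero _ D.Y_ne) D.sres2_α
    res2_y2 := res_inv' (pow_ne_zero _ D.Y_ne) D.sres2_β
    res2_y3 := res_inv' D.Y_ne D.sres2_βW
    int1 := by
      rw [y, y2, inv_inv, inv_inv]
      exact D.rel1.isIntegral
    int2 := by
      rw [y2, y3, inv_inv, inv_inv]
      exact D.rel2.isIntegral
    int3 := by
      rw [y, y2, inv_inv]
      exact D.rel3.isIntegral_inv (by rw [Ne, map_eq_zero]; exact D.J_ne)
    int4 := by
      rw [y3, y2, inv_inv]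
      exact D.rel2.isIntegral_inv (by
        rw [Ne, map_eq_zero, map_eq_zero_iff _ T.W.injective]; exact D.J_ne)
    const := by
      intro a
      obtain ⟨x, _, hx, hx'⟩ := D.const a
      have hxB : x ∈ D.comp.B := D.comp.mem_B.2 ⟨hx, fun i => (hx' i).1⟩
      refine ⟨⟨x, hxB⟩, fun i => ?_⟩
      have h1 : D.comp.r i ⟨x, hxB⟩ = S.res i x := D.comp.r_apply i ⟨x, hxB⟩
      exact h1.trans (hx' i).2
    eps := D.eps
    C := D.C.toSubring
    dedekind := D.dedekind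
    r_mem := D.r_mem
    lift := by
      intro i c hc
      obtain ⟨f, hf, hfV, hα, hβ⟩ := D.lift c hc
      have hc2 : i = 0 ∨ i = 1 ∨ i = 2 := by fin_cases i <;> simp
      rcases hc2 with rfl | rfl | rfl
      · refine ⟨S.α f, ?_, ?_, ?_⟩
        · exact (S.α_res0 f).trans hf
        · exact (S.α_V0 f).2 hfV
        · exact isIntegral_algebraMap (R := Algebra.adjoin D.comp.B {D.y3})
            (x := (⟨S.α f, (Algebra.adjoin D.comp.B {D.y3}).algebraMap_mem ⟨S.α f, hα⟩⟩ :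
              Algebra.adjoin D.comp.B {D.y3}))
      · refine ⟨S.α f, ?_, ?_, ?_⟩
        · exact (S.α_res1 f).trans hf
        · exact (S.α_V1 f).2 hfV
        · exact isIntegral_algebraMap (R := Algebra.adjoin D.comp.B {D.y3})
            (x := (⟨S.α f, (Algebra.adjoin D.comp.B {D.y3}).algebraMap_mem ⟨S.α f, hα⟩⟩ :
              Algebra.adjoin D.comp.B {D.y3}))
      · refine ⟨S.β (T.W f), ?_, ?_, hβ⟩
        · have h1 : S.res 2 (S.β (T.W f)) = c := by
            rw [S.β_res2, T.W_res, T.W_W, hf]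
          exact h1
        · have h1 : S.β (T.W f) ∈ S.V 2 := by
            rw [S.β_V2, T.W_V, T.W_W]; exact hfV
          exact h1 }

end CuspData

end Fermat.Agent.H24
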