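import Mathlib
import Fermat.Prelude.Def_ModularCurve_ArithmeticGalois

/-!
# The derivation `q d/dq` on Laurent series (helper1)

CAUTION: on `LaurentSeries K` Mathlib has two module structures over `K`
(`HahnSeries.instModule` and the one of `Algebra K (LaurentSeries K)`) which are not
definitionally equal. `thetaL` is just additive; use `mkDer` / `thetaDer` / `ddXDer` for
derivations with respect to the algebra structure.
-/

set_option autoImplicit false

noncomputable section

open HahnSeries ModularCurve

namespace Fermat.Agent.H1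

section Der

/-- constructor for derivations of algebras -/
def mkDer {k E : Type*} [CommRing k] [CommRing E] [Algebra k E] (D : E →+ E)
    (hmul : ∀ x y, D (x * y) = D x * y + x * D y) (halg : ∀ c : k, D (algebraMap k E c) = 0) :
    Derivation k E E :=
  Derivation.mk'
    { toFun := D
      map_add' := map_add D
      map_smul' := fun c x => by
        rw [Algebra.smul_def, hmul, halg, zero_mul, zero_add, RingHom.id_apply, Algebra.smul_def] }
    (fun x y => by
      show D (x * y) = x • D y + y • D x
      rw [hmul, smul_eq_mul, smul_eq_mul]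
      ring)

@[simp] theorem mkDer_apply {k E : Type*} [CommRing k] [CommRing E] [Algebra k E] (D : E →+ E)
    (hmul : ∀ x y, D (x * y) = D x * y + x * D y) (halg : ∀ c : k, D (algebraMap k E c) = 0)
    (x : E) : mkDer D hmul halg x = D x := rfl

end Der

section

variable {K : Type*} [CommRing K]

/-- coefficientwise multiplication by the exponent -/
def thetaFun (f : LaurentSeries K) : LaurentSeries K where
  coeff n := n * f.coeff n
  isPWO_support' := f.isPWO_support.mono (by
    intro n hn h
    exact hn (by simp only [h, mul_zero]))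

variable (K) in
/-- The derivation `q d/dq` on Laurent series. -/
def thetaL : LaurentSeries K →+ LaurentSeries K where
  toFun := thetaFun
  map_zero' := by
    ext n
    show (n : K) * (0 : LaurentSeries K).coeff n = 0
    rw [HahnSeries.coeff_zero, mul_zero]
  map_add' f g := by
    ext n
    show (n : K) * (f + g).coeff n = n * f.coeff n + n * g.coeff n
    rw [HahnSeries.coeff_add, mul_add]

theorem thetaL_coeff (f : LaurentSeries K) (n : ℤ) :
    (thetaL K f).coeff n = n * f.coeff n := rfl

theorem support_thetaL (f : LaurentSeries K) : (thetaL K f).support ⊆ f.support := by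
  intro n hn h
  exact hn (by rw [thetaL_coeff, h, mul_zero])

theorem thetaL_mul (f g : LaurentSeries K) :
    thetaL K (f * g) = thetaL K f * g + f * thetaL K g := by
  ext n
  rw [thetaL_coeff, HahnSeries.coeff_add, HahnSeries.coeff_mul,
    coeff_mul_left' f.isPWO_support (support_thetaL f),
    coeff_mul_right' g.isPWO_support (support_thetaL g), Finset.mul_sum,
    ← Finset.sum_add_distrib]
  refine Finset.sum_congr rfl fun ij hij => ?_
  rw [Finset.mem_antidiagonal] at hij
  rw [thetaL_coeff, thetaL_coeff, ← hij.2.2]
  push_cast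
  ring

theorem coeffMap_thetaL {L : Type*} [CommRing L] (φ : K →+* L) (f : LaurentSeries K) :
    coeffMap φ (thetaL K f) = thetaL L (coeffMap φ f) := by
  ext n
  rw [coeffMap_coeff, thetaL_coeff, thetaL_coeff, coeffMap_coeff, map_mul, map_intCast]

theorem thetaL_qExpand (N : ℕ) [NeZero N] (f : LaurentSeries K) :
    thetaL K (qExpand K N f) = (N : LaurentSeries K) * qExpand K N (thetaL K f) := by
  ext n
  have hN : ((N : LaurentSeries K) * qExpand K N (thetaL K f)).coeff n =
      N * (qExpand K N (thetaL K f)).coeff n := by
    rw [← nsmul_eq_mul, HahnSeries.coeff_nsmul, Pi.smul_apply, nsmul_eq_mul]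
  rw [hN, thetaL_coeff]
  by_cases h : (N : ℤ) ∣ n
  · obtain ⟨m, rfl⟩ := h
    rw [qExpand_coeff_mul, qExpand_coeff_mul, thetaL_coeff]
    push_cast
    ring
  · rw [qExpand_coeff_of_not_dvd _ _ h, qExpand_coeff_of_not_dvd _ _ h, mul_zero, mul_zero]

theorem thetaL_C (c : K) : thetaL K (HahnSeries.C c) = 0 := by
  ext n
  rw [thetaL_coeff]
  by_cases hn : n = 0
  · rw [hn]; simp
  · rw [HahnSeries.C_apply, HahnSeries.coeff_single_of_ne hn, mul_zero]
    rfl

theorem thetaL_one : thetaL K 1 = 0 := by
  have h := thetaL_C (1 : K)
  rwa [map_one] at h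

theorem thetaL_natCast (n : ℕ) : thetaL K (n : LaurentSeries K) = 0 := by
  have h := thetaL_C (n : K)
  rwa [map_natCast] at h

theorem thetaL_intCast (n : ℤ) : thetaL K (n : LaurentSeries K) = 0 := by
  have h := thetaL_C (n : K)
  rwa [map_intCast] at h

theorem thetaL_pow (f : LaurentSeries K) (n : ℕ) :
    thetaL K (f ^ n) = n * f ^ (n - 1) * thetaL K f := by
  rcases Nat.eq_zero_or_pos n with rfl | hn
  · simp [thetaL_one]
  · obtain ⟨n, rfl⟩ := Nat.exists_eq_succ_of_ne_zero hn.ne'
    rw [Nat.succ_sub_one]
    clear hn
    induction n with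
    | zero => simp
    | succ n ih =>
      rw [pow_succ, thetaL_mul, ih, pow_succ f n]
      push_cast
      ring

/-- in characteristic `q`, the derivation kills `f (t ^ q)` -/
theorem thetaL_qExpand_char (q : ℕ) [NeZero q] [CharP K q] (f : LaurentSeries K) :
    thetaL K (qExpand K q f) = 0 := by
  rw [thetaL_qExpand]
  have : (q : LaurentSeries K) = 0 := by
    have h : (HahnSeries.C (q : K) : LaurentSeries K) = (q : LaurentSeries K) := map_natCast _ q
    rw [← h, CharP.cast_eq_zero, map_zero]
  rw [this, zero_mul]

end

section Field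

variable {K : Type*} [Field K]

theorem thetaL_algebraMap (c : K) : thetaL K (algebraMap K (LaurentSeries K) c) = 0 := by
  rw [algebraMap_laurentSeries_eq_single]
  exact thetaL_C c

variable (K) in
/-- `q d/dq` as a derivation. -/
def thetaDer := mkDer (k := K) (thetaL K) thetaL_mul thetaL_algebraMap

theorem thetaDer_apply (f : LaurentSeries K) : thetaDer K f = thetaL K f := rfl

/-- the map `d / dX` on Laurent series -/
def ddX (X : LaurentSeries K) : LaurentSeries K →+ LaurentSeries K :=
  (AddMonoidHom.mulLeft (thetaL K X)⁻¹).comp (thetaL K)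

theorem ddX_apply (X f : LaurentSeries K) : ddX X f = thetaL K f / thetaL K X := by
  show (thetaL K X)⁻¹ * thetaL K f = _
  rw [div_eq_inv_mul]

theorem ddX_self {X : LaurentSeries K} (h : thetaL K X ≠ 0) : ddX X X = 1 := by
  rw [ddX_apply, div_self h]

theorem ddX_mul (X f g : LaurentSeries K) : ddX X (f * g) = ddX X f * g + f * ddX X g := by
  rw [ddX_apply, ddX_apply, ddX_apply, thetaL_mul]
  ring

theorem ddX_algebraMap (X : LaurentSeries K) (c : K) :
    ddX X (algebraMap K (LaurentSeries K) c) = 0 := by
  rw [ddX_apply, thetaL_algebraMap, zero_div]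

theorem coeffMap_ddX {L : Type*} [Field L] (φ : K →+* L) (X f : LaurentSeries K) :
    coeffMap φ (ddX X f) = ddX (coeffMap φ X) (coeffMap φ f) := by
  rw [ddX_apply, ddX_apply, map_div₀, coeffMap_thetaL, coeffMap_thetaL]

/-- `d / dX` as a derivation -/
def ddXDer (X : LaurentSeries K) := mkDer (k := K) (ddX X) (ddX_mul X) (ddX_algebraMap X)

theorem ddXDer_apply (X f : LaurentSeries K) : ddXDer X f = ddX X f := rfl

end Field

end Fermat.Agent.H1
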