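import Fermat.Agent.H24Kron
import Fermat.Agent.H1Theta

/-!
# `(θY)^(q-1)` is a rational function of `Y = 1/j` in characteristic `q`
-/

set_option autoImplicit false

noncomputable section

namespace Fermat.Agent.H24

open ModularCurve Polynomial Fermat.Agent.H66 Fermat.Agent.H1

variable (q : ℕ) [hq : Fact q.Prime]

theorem exists_q_mul (y : LaurentSeries ℤ) (hy : coeffMap (Int.castRingHom (ZMod q)) y = 0) :
    ∃ d : LaurentSeries ℤ, y = (q : LaurentSeries ℤ) * d := by
  have h1 : ∀ n, ∃ c : ℤ, y.coeff n = q * c := by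
    intro n
    have h2 := congrArg (fun z : LaurentSeries (ZMod q) => z.coeff n) hy
    simp only [coeffMap_coeff, HahnSeries.coeff_zero] at h2
    exact (ZMod.intCast_zmod_eq_zero_iff_dvd _ q).1 (by simpa using h2)
  choose c hc using h1
  have hq0 : (q : ℤ) ≠ 0 := by exact_mod_cast hq.out.ne_zero
  have hsupp : Function.support c ⊆ y.support := by
    intro n hn
    rw [HahnSeries.mem_support, hc n]
    exact mul_ne_zero hq0 hn
  refine ⟨⟨c, y.isPWO_support.mono hsupp⟩, ?_⟩
  ext n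
  rw [← nsmul_eq_mul, HahnSeries.coeff_nsmul, Pi.smul_apply, nsmul_eq_mul, hc n]

theorem natCast_mul_injective : Function.Injective fun d : LaurentSeries ℤ =>
    (q : LaurentSeries ℤ) * d := by
  intro a b hab
  have hq0 : (q : ℤ) ≠ 0 := by exact_mod_cast hq.out.ne_zero
  ext n
  have h := congrArg (fun z : LaurentSeries ℤ => z.coeff n) hab
  simp only [← nsmul_eq_mul, HahnSeries.coeff_nsmul, Pi.smul_apply] at h
  simp only [nsmul_eq_mul] at h
  exact mul_left_cancel₀ hq0 h

theorem coeffMap_frob (f : LaurentSeries (ZMod q)) : f ^ q = qExpand (ZMod q) q f := by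
  rw [H60.laurent_pow_char q, ZMod.frobenius_zmod, coeffMap_id]

/-- derivative of a polynomial expression -/
theorem thetaL_evZ {A : Type*} [CommRing A] (P : ℤ[X]) (y : LaurentSeries A) :
    thetaL A (evZ y P) = evZ y (derivative P) * thetaL A y := by
  induction P using Polynomial.induction_on' with
  | add P Q hP hQ => simp only [map_add, hP, hQ, add_mul]
  | monomial n a =>
    have e : evZ y (monomial n a) = (a : LaurentSeries A) * y ^ n := by
      rw [← C_mul_X_pow_eq_monomial, map_mul, map_pow, evZ_C, evZ_X]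
    rw [e, thetaL_mul, thetaL_intCast, zero_mul, zero_add, thetaL_pow,
      derivative_monomial, ← C_mul_X_pow_eq_monomial, map_mul, map_pow, evZ_C, evZ_X]
    push_cast
    ring

theorem map_eval_psi {B B' : Type*} [CommRing B] [CommRing B'] (f : B →+* B') (H : ℤ[X][X])
    (z x : B) : f ((psiAt H z).eval x) = (psiAt H (f z)).eval (f x) := by
  rw [← Polynomial.eval_map_apply, psiAt_map]

theorem hasLead_theta {A : Type*} [CommRing A] :
    HasLead (thetaL A (jqModC A)) (-1) (-1) := by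
  have h := HasLead.jqModC (A := A)
  refine ⟨?_, fun m hm => ?_⟩
  · rw [thetaL_coeff, h.1]; simp
  · rw [thetaL_coeff, h.2 m hm, mul_zero]

/-- there is a polynomial `N` with `(θj)^(q-1) (j - j^(q²))² = N(j)` in characteristic `q` -/
theorem exists_N : ∃ N : ℤ[X],
    (thetaL (ZMod q) (jqModC (ZMod q))) ^ (q - 1) *
      (jqModC (ZMod q) - (jqModC (ZMod q)) ^ (q * q)) ^ 2 = evZ (jqModC (ZMod q)) N := by
  obtain ⟨Ψ, hm, hd, hΨ⟩ := exists_modPoly q
  obtain ⟨H, hH⟩ := kronecker hΨ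
  set φ := coeffMap (Int.castRingHom (ZMod q)) with hφ
  set J := jqModC ℤ with hJ
  set Jq := qExpand ℤ q J with hJq
  set j := jqModC (ZMod q) with hj
  have hφJ : φ J = j := coeffMap_jqModC _
  have hφJq : φ Jq = j ^ q := by rw [hφ, hJq, coeffMap_qExpand, coeffMap_jqModC, coeffMap_frob]
  obtain ⟨δ, hδ⟩ := exists_q_mul q (J ^ q - Jq) (by
    rw [map_sub, map_pow, ← hφ, hφJ, hφJq, sub_self])
  -- the relation
  have h0 := eval_psi1 hΨ ℤ
  rw [← hJ, ← hJq] at h0
  set h := (psiAt H Jq).eval J with hh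
  have h1 : (J - Jq ^ q) * (J ^ q - Jq) + (q : LaurentSeries ℤ) * h = 0 := by
    rw [← h0, hH, hh, psiAt]
    simp [psiAt]
  have h2 : (J - Jq ^ q) * δ = - h := by
    apply natCast_mul_injective q
    show (q : LaurentSeries ℤ) * ((J - Jq ^ q) * δ) = q * (-h)
    rw [hδ] at h1
    linear_combination h1
  set G : ℤ[X] := - (psiAt H (X ^ q : ℤ[X])).eval X with hG
  have hφh : φ h = - evZ j G := by
    rw [hG, map_neg, neg_neg, hh, map_eval_psi, hφJ, hφJq, map_eval_psi, map_pow, evZ_X]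
  have hA : (j - j ^ (q * q)) * φ δ = evZ j G := by
    have h3 := congrArg φ h2
    rw [map_mul, map_sub, map_pow, map_neg, hφJ, hφJq, hφh, neg_neg, ← pow_mul] at h3
    exact h3
  -- derivative of `δ`
  have h4 : thetaL ℤ δ = J ^ (q - 1) * thetaL ℤ J - qExpand ℤ q (thetaL ℤ J) := by
    apply natCast_mul_injective q
    show (q : LaurentSeries ℤ) * thetaL ℤ δ =
      q * (J ^ (q - 1) * thetaL ℤ J - qExpand ℤ q (thetaL ℤ J))
    have h5 := congrArg (thetaL ℤ) hδ
    rw [map_sub, thetaL_pow, hJq, thetaL_qExpand, thetaL_mul, thetaL_natCast, zero_mul,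
      zero_add] at h5
    rw [← h5]; ring
  have h5 : thetaL (ZMod q) (φ δ) = j ^ (q - 1) * thetaL (ZMod q) j - (thetaL (ZMod q) j) ^ q := by
    have h6 := congrArg φ h4
    rw [hφ, coeffMap_thetaL, map_sub, map_mul, map_pow, coeffMap_qExpand, coeffMap_thetaL,
      coeffMap_jqModC, ← coeffMap_frob] at h6
    exact h6
  have hth : thetaL (ZMod q) j ≠ 0 := by
    exact (hasLead_theta (A := ZMod q)).ne_zero (neg_ne_zero.2 one_ne_zero)
  have hqz : (q : LaurentSeries (ZMod q)) = 0 := CharP.cast_eq_zero _ q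
  have h6 := congrArg (thetaL (ZMod q)) hA
  rw [thetaL_mul, map_sub, thetaL_pow, h5, thetaL_evZ] at h6
  have hqq : ((q * q : ℕ) : LaurentSeries (ZMod q)) = 0 := by push_cast; rw [hqz, zero_mul]
  rw [hqq, zero_mul, zero_mul, sub_zero] at h6
  set T := (thetaL (ZMod q) j) ^ (q - 1) with hT
  have hTq : (thetaL (ZMod q) j) ^ q = T * thetaL (ZMod q) j := by
    rw [hT, ← pow_succ]; congr 1
    have := hq.out.two_le
    omega
  rw [hTq] at h6
  have h7 : φ δ + (j - j ^ (q * q)) * (j ^ (q - 1) - T) = evZ j (derivative G) := by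
    apply mul_right_cancel₀ hth
    linear_combination h6
  refine ⟨(X - X ^ (q * q)) ^ 2 * X ^ (q - 1) + G - (X - X ^ (q * q)) * derivative G, ?_⟩
  rw [map_sub, map_add, map_mul, map_mul, map_pow, map_pow, map_sub, map_pow, evZ_X, ← h7]
  linear_combination hA

theorem exists_eps_zmod : ∃ P Q : (ZMod q)[X], P.eval 0 ≠ 0 ∧ Q.eval 0 ≠ 0 ∧
    (thetaL (ZMod q) (jqModC (ZMod q))⁻¹) ^ (q - 1) *
      Q.eval₂ HahnSeries.C (jqModC (ZMod q))⁻¹ =
      ((jqModC (ZMod q))⁻¹) ^ (q - 1) * P.eval₂ HahnSeries.C (jqModC (ZMod q))⁻¹ := by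
  obtain ⟨N, hN⟩ := exists_N q
  have hq2 := hq.out.two_le
  set j := jqModC (ZMod q) with hj
  have hj0 : j ≠ 0 := (HasLead.jqModC (A := ZMod q)).ne_zero one_ne_zero
  set Y := j⁻¹ with hY
  have hY0 : Y ≠ 0 := inv_ne_zero hj0
  set T := (thetaL (ZMod q) j) ^ (q - 1) with hT
  set N' := N.map (Int.castRingHom (ZMod q)) with hN'
  have hev : evZ j N = N'.eval₂ HahnSeries.C j := by
    rw [hN', Polynomial.eval₂_map, evZ, coe_eval₂RingHom]
    congr 1
  -- degree and leading coefficient of `N'`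
  have hl1 : HasLead (j - j ^ (q * q)) (-(q * q)) (-1) := by
    have h1 := (HasLead.jqModC (A := ZMod q)).pow (q * q)
    have h2 := HasLead.jqModC (A := ZMod q)
    have hlt : (-(q * q) : ℤ) < -1 := by
      have : (2 : ℤ) ≤ q := by exact_mod_cast hq2
      nlinarith
    refine ⟨?_, fun m hm => ?_⟩
    · rw [HahnSeries.coeff_sub, h2.2 _ hlt]
      have := h1.1
      rw [one_pow] at this
      have e : ((q * q : ℕ) : ℤ) * (-1) = -(q * q) := by push_cast; ring
      rw [e] at this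
      rw [this]; simp
    · rw [HahnSeries.coeff_sub, h2.2 _ (hm.trans hlt)]
      have := h1.2 m (by push_cast; linarith)
      rw [this, sub_zero]
  have hl2 := ((hasLead_theta (A := ZMod q)).pow (q - 1)).mul (hl1.pow 2)
  rw [← hj, ← hT, hN, hev] at hl2
  have hl3 := (HasLead.jqModC (A := ZMod q)).eval₂ (n := 1) one_pos N'
  rw [← hj] at hl3
  have hlead0 : ((-1 : ZMod q) ^ (q - 1) * (-1) ^ 2) ≠ 0 :=
    mul_ne_zero (pow_ne_zero _ (neg_ne_zero.2 one_ne_zero)) (pow_ne_zero _ (neg_ne_zero.2 one_ne_zero))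
  have hN0 : N' ≠ 0 := by
    intro h0
    rw [h0, Polynomial.eval₂_zero] at hl2
    exact hl2.ne_zero hlead0 rfl
  have hdeg := hl3.order_unique hl2 (leadingCoeff_ne_zero.2 hN0) hlead0
  have hD : N'.natDegree = 2 * (q * q) + (q - 1) := by
    have h8 : ((q - 1 : ℕ) : ℤ) = (q : ℤ) - 1 := by
      rw [Nat.cast_sub (by omega)]; simp
    rw [h8] at hdeg
    have h9 : (N'.natDegree : ℤ) = 2 * (q * q) + (q - 1) := by
      push_cast at hdeg
      linarith
    have h10 : ((2 * (q * q) + (q - 1) : ℕ) : ℤ) = 2 * (q * q) + (q - 1) := by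
      push_cast [h8]; ring
    exact_mod_cast h9.trans h10.symm
  -- the polynomials
  refine ⟨C ((-1) ^ (q - 1)) * N'.reverse, (X ^ (q * q - 1) - 1) ^ 2, ?_, ?_, ?_⟩
  · rw [eval_mul, eval_C, ← coeff_zero_eq_eval_zero, coeff_zero_reverse]
    exact mul_ne_zero (pow_ne_zero _ (neg_ne_zero.2 one_ne_zero)) (leadingCoeff_ne_zero.2 hN0)
  · have h1 : q * q - 1 ≠ 0 := by
      have : 4 ≤ q * q := by nlinarith
      omega
    simp [h1]
  · have hYj : Y * j = 1 := inv_mul_cancel₀ hj0
    -- `θ Y = - θ j Y²`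
    have hθY : thetaL (ZMod q) Y = - thetaL (ZMod q) j * Y ^ 2 := by
      have h1 := congrArg (thetaL (ZMod q)) hYj
      rw [thetaL_mul, thetaL_one] at h1
      calc thetaL (ZMod q) Y = thetaL (ZMod q) Y * (Y * j) := by rw [hYj, mul_one]
        _ = (thetaL (ZMod q) Y * j) * Y := by ring
        _ = - thetaL (ZMod q) j * Y ^ 2 := by
          rw [eq_neg_of_add_eq_zero_left h1]; ring
    have hrev : N'.reverse.eval₂ HahnSeries.C Y = Y ^ N'.natDegree * N'.eval₂ HahnSeries.C j := by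
      let _ : Invertible j := ⟨Y, hYj, by rw [mul_comm]; exact hYj⟩
      have h1 := Polynomial.eval₂_reverse_mul_pow (HahnSeries.C : ZMod q →+* _) j N'
      have h2 : (⅟j : LaurentSeries (ZMod q)) = Y := rfl
      rw [h2] at h1
      rw [← h1]
      have h3 : Y ^ N'.natDegree * j ^ N'.natDegree = 1 := by rw [← mul_pow, hYj, one_pow]
      linear_combination (- N'.reverse.eval₂ HahnSeries.C Y) * h3
    have hQ : Y ^ (q * q) * (j - j ^ (q * q)) = Y ^ (q * q - 1) - 1 := by
      have h1 : Y ^ (q * q) * j ^ (q * q) = 1 := by rw [← mul_pow, hYj, one_pow]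
      have h2 : Y ^ (q * q) * j = Y ^ (q * q - 1) := by
        have h3 : 0 < q * q := by positivity
        obtain ⟨n, hn⟩ := Nat.exists_eq_succ_of_ne_zero h3.ne'
        rw [hn, Nat.succ_sub_one, pow_succ, mul_assoc, hYj, mul_one]
      linear_combination h2 - h1
    rw [Polynomial.eval₂_mul, Polynomial.eval₂_C, hrev, hD, ← hev, ← hN, Polynomial.eval₂_pow,
      Polynomial.eval₂_sub, Polynomial.eval₂_pow, Polynomial.eval₂_X, Polynomial.eval₂_one, ← hQ,
      hθY, mul_pow, neg_pow, ← hT, pow_add]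
    have e1 : (HahnSeries.C ((-1 : ZMod q) ^ (q - 1)) : LaurentSeries (ZMod q)) = (-1) ^ (q - 1) := by
      rw [map_pow, map_neg, map_one]
    rw [e1]
    have e2 : (Y ^ 2) ^ (q - 1) = Y ^ (q - 1) * Y ^ (q - 1) := by
      rw [← pow_mul, ← pow_add]; congr 1; omega
    have e3 : Y ^ (2 * (q * q)) = (Y ^ (q * q)) ^ 2 := by
      rw [← pow_mul]; congr 1; ring
    rw [e2, e3]
    ring

/-- `(θY/Y)^(q-1)` is a rational function of `Y = 1/j`, regular and non zero at `Y = 0` -/
theorem exists_eps (k : Type*) [Field k] [CharP k q] : ∃ P Q : k[X],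
    P.eval 0 ≠ 0 ∧ Q.eval 0 ≠ 0 ∧
    (thetaL k (jqModC k)⁻¹) ^ (q - 1) * Q.eval₂ HahnSeries.C (jqModC k)⁻¹ =
      ((jqModC k)⁻¹) ^ (q - 1) * P.eval₂ HahnSeries.C (jqModC k)⁻¹ := by
  obtain ⟨P, Q, hP, hQ, h⟩ := exists_eps_zmod q
  let f : ZMod q →+* k := ZMod.castHom (dvd_refl q) k
  have hf : Function.Injective f := f.injective
  have hj : coeffMap f (jqModC (ZMod q))⁻¹ = (jqModC k)⁻¹ := by
    rw [map_inv₀, coeffMap_jqModC]
  have hev : ∀ P : (ZMod q)[X], coeffMap f (P.eval₂ HahnSeries.C (jqModC (ZMod q))⁻¹) =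
      (P.map f).eval₂ HahnSeries.C (jqModC k)⁻¹ := by
    intro P
    rw [Polynomial.hom_eval₂, hj, Polynomial.eval₂_map]
    congr 1
    refine RingHom.ext fun c => ?_
    rw [RingHom.comp_apply, RingHom.comp_apply, coeffMap_C]
  refine ⟨P.map f, Q.map f, ?_, ?_, ?_⟩
  · rw [← map_zero f, Polynomial.eval_map_apply]
    exact fun h0 => hP (hf (by rw [h0, map_zero]))
  · rw [← map_zero f, Polynomial.eval_map_apply]
    exact fun h0 => hQ (hf (by rw [h0, map_zero]))
  · have h1 := congrArg (coeffMap f) h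
    rwa [map_mul, map_pow, map_mul, map_pow, coeffMap_thetaL, hev, hev, hj] at h1

end Fermat.Agent.H24
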