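import Fermat.Agent.H1HauptDer
import Fermat.Agent.H90Field

/-!
# CARAYOL [C1]: `d/dX` on modular function fields (helper1)
-/

set_option autoImplicit false
set_option linter.unusedSectionVars false

noncomputable section

open ModularCurve Polynomial IntermediateField AlgebraicCurve

namespace Fermat.Agent.H1

open Fermat.Agent.H94

section Coord

variable {K F : Type*} [Field K] [CharZero K] [Field F] [Algebra K F]
  (φ : F →+* LaurentSeries K) {j X : F} (hj : φ j = jqModC K)

include hj in
theorem coord4_P3 (hX : φ X = X4 K) :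
    (X ^ 2 + 256 * X + 4096) ^ 3 = j * (X ^ 4 * (X + 16)) := by
  apply φ.injective
  simp only [map_add, map_mul, map_pow, map_ofNat, hj, hX]
  exact X4_j K

include hj in
theorem coord9_P3 (hX : φ X = X9 K) :
    ((X + 9) * (X ^ 3 + 243 * X ^ 2 + 2187 * X + 6561)) ^ 3 =
      j * (X ^ 9 * (X ^ 2 + 9 * X + 27)) := by
  apply φ.injective
  simp only [map_add, map_mul, map_pow, map_ofNat, hj, hX]
  rw [mul_pow]
  exact X9_j K

/-- the coordinate of level 4 -/
def coord4 (hX : φ X = X4 K) : Coord K F j X where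
  P := Polynomial.X ^ 2 + 256 * Polynomial.X + 4096
  S := (Polynomial.X + 32) * (Polynomial.X ^ 2 - 512 * Polynomial.X - 8192)
  T := Polynomial.X ^ 4 * (Polynomial.X + 16)
  P3 := by
    simp only [map_add, map_mul, map_pow, aeval_X, map_ofNat]
    exact coord4_P3 φ hj hX
  S2 := by
    simp only [map_add, map_sub, map_mul, map_pow, aeval_X, map_ofNat]
    linear_combination coord4_P3 φ hj hX
  monic := by monicity!
  deg := by
    have h1 : (Polynomial.X ^ 4 * (Polynomial.X + 16) : K[X]).natDegree = 5 := by compute_degree!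
    have h2 : (Polynomial.X ^ 2 + 256 * Polynomial.X + 4096 : K[X]).natDegree = 2 := by
      compute_degree!
    rw [h1, h2]
    norm_num
  coprime := by
    intro a ha
    simp only [eval_add, eval_mul, eval_pow, eval_X, eval_ofNat] at ha ⊢
    rcases mul_eq_zero.mp ha with h | h
    · have h0 := (pow_eq_zero_iff (by norm_num : (4 : ℕ) ≠ 0)).mp h
      rw [h0]
      norm_num
    · have h0 : a = -16 := by linear_combination h
      rw [h0]
      norm_num

/-- the coordinate of level 9 -/
def coord9 (hX : φ X = X9 K) : Coord K F j X where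
  P := (Polynomial.X + 9) *
    (Polynomial.X ^ 3 + 243 * Polynomial.X ^ 2 + 2187 * Polynomial.X + 6561)
  S := Polynomial.X ^ 6 - 486 * Polynomial.X ^ 5 - 24057 * Polynomial.X ^ 4 -
    367416 * Polynomial.X ^ 3 - 2657205 * Polynomial.X ^ 2 - 9565938 * Polynomial.X - 14348907
  T := Polynomial.X ^ 9 * (Polynomial.X ^ 2 + 9 * Polynomial.X + 27)
  P3 := by
    simp only [map_add, map_mul, map_pow, aeval_X, map_ofNat]
    exact coord9_P3 φ hj hX
  S2 := by
    simp only [map_add, map_sub, map_mul, map_pow, aeval_X, map_ofNat]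
    linear_combination coord9_P3 φ hj hX
  monic := by monicity!
  deg := by
    have h1 : (Polynomial.X ^ 9 * (Polynomial.X ^ 2 + 9 * Polynomial.X + 27) : K[X]).natDegree =
        11 := by compute_degree!
    have h2 : ((Polynomial.X + 9) * (Polynomial.X ^ 3 + 243 * Polynomial.X ^ 2 +
        2187 * Polynomial.X + 6561) : K[X]).natDegree = 4 := by
      compute_degree!
    rw [h1, h2]
    norm_num
  coprime := by
    intro a ha
    simp only [eval_add, eval_mul, eval_pow, eval_X, eval_ofNat] at ha ⊢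
    rcases mul_eq_zero.mp ha with h | h
    · have h0 := (pow_eq_zero_iff (by norm_num : (9 : ℕ) ≠ 0)).mp h
      rw [h0]
      norm_num
    · intro h2
      have h3 : (243 : K) * (a + 3) = 0 := by
        linear_combination h2 - (a ^ 2 + 243 * a + 2160) * h
      have h4 : a = -3 := by
        rcases mul_eq_zero.mp h3 with h5 | h5
        · norm_num at h5
        · linear_combination h5
      rw [h4] at h
      norm_num at h

/-- the coordinate of level `c` -/
def coordC {c : ℕ} (hc : c = 4 ∨ c = 9) (hX : φ X = Xc c K) : Coord K F j X :=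
  if h : c = 4 then coord4 φ hj (by rw [hX, h, Xc_four])
  else coord9 φ hj (by rw [hX, hc.resolve_left h, Xc_nine])

end Coord

section Identify

/-- a copy of `LaurentSeries K` (avoids the module structure `HahnSeries.instModule`) -/
def LS (K : Type*) [Field K] : Type _ := LaurentSeries K

instance (K : Type*) [Field K] : Field (LS K) := inferInstanceAs (Field (LaurentSeries K))

instance (K : Type*) [Field K] : Algebra K (LS K) :=
  inferInstanceAs (Algebra K (LaurentSeries K))

variable {K F : Type*} [Field K] [CharZero K] [Field F] [Algebra K F] [FunField K F]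

/-- `d/dX` on a field of Laurent series -/
theorem map_dd_eq (φ : F →ₐ[K] LaurentSeries K) {X : F} (hX : Transcendental K X) (c : ℕ)
    (hXc : φ X = Xc c K) (f : F) : φ (dd hX f) = dX c K (φ f) := by
  have := FunField.finiteDimensional (F := F) hX
  have hsep := isSeparable_adjoin (K := K) (x := X)
  let ψ : F →+* LS K := φ.toRingHom
  have hψ : ∀ f, ψ f = φ f := fun f => rfl
  let : Algebra F (LS K) := ψ.toAlgebra
  have hsm : ∀ (f : F) (m : LS K), f • m = ψ f * m := fun f m => rfl
  have hKs : ∀ (a : K) (m : LS K), a • m = algebraMap K (LS K) a * m := fun a m =>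
    Algebra.smul_def a m
  have hst : IsScalarTower K F (LS K) := IsScalarTower.of_algebraMap_eq fun a =>
    (φ.commutes a).symm
  let D1 : Derivation K F (LS K) := Derivation.mk'
    { toFun := fun f => ψ (dd hX f)
      map_add' := fun f g => by rw [map_add, map_add]
      map_smul' := fun a f => by
        rw [RingHom.id_apply, hKs, Derivation.map_smul, Algebra.smul_def, map_mul]
        congr 1
        exact φ.commutes a }
    (fun f g => by
      show ψ (dd hX (f * g)) = f • ψ (dd hX g) + g • ψ (dd hX f)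
      rw [hsm, hsm, Derivation.leibniz, smul_eq_mul, smul_eq_mul, map_add, map_mul, map_mul])
  let δ : LS K →+ LS K := dX c K
  have hδmul : ∀ x y : LS K, δ (x * y) = δ x * y + x * δ y := dX_mul c
  have hδalg : ∀ a : K, δ (algebraMap K (LS K) a) = 0 := dX_algebraMap c
  let D2 : Derivation K F (LS K) := Derivation.mk'
    { toFun := fun f => δ (ψ f)
      map_add' := fun f g => by rw [map_add, map_add]
      map_smul' := fun a f => by
        rw [RingHom.id_apply, hKs, Algebra.smul_def, map_mul, hδmul]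
        have h1 : ψ (algebraMap K F a) = algebraMap K (LS K) a := φ.commutes a
        rw [h1, hδalg, zero_mul, zero_add] }
    (fun f g => by
      show δ (ψ (f * g)) = f • δ (ψ g) + g • δ (ψ f)
      rw [hsm, hsm, map_mul, hδmul]
      ring)
  have h0 : D1 - D2 = 0 := by
    apply derivation_eq_zero (x := X)
    show ψ (dd hX X) - δ (ψ X) = 0
    rw [dd_self, map_one, sub_eq_zero]
    have h1 : dX c K (φ X) = 1 := by rw [hXc, dX_Xc]
    exact h1.symm
  have h1 := DFunLike.congr_fun h0 f
  have h2 : ψ (dd hX f) - δ (ψ f) = 0 := h1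
  exact sub_eq_zero.mp h2

end Identify

/-! ### Integrality over `K[j]` -/

section IntJ

/-- `f` is integral over `K[j]` -/
def IntJ (K : Type*) {E : Type*} [CommRing K] [CommRing E] [Algebra K E] (j f : E) : Prop :=
  (aeval (R := K) j : K[X] →ₐ[K] E).toRingHom.IsIntegralElem f

theorem intJ_iff {K E : Type*} [CommRing K] [CommRing E] [Algebra K E] {j f : E} :
    IsIntegral (Algebra.adjoin K {j}) f ↔ IntJ K j f := by
  have hmem : ∀ p : K[X], aeval j p ∈ Algebra.adjoin K {j} := fun p =>
    aeval_mem_adjoin_singleton K j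
  let g : K[X] →+* Algebra.adjoin K {j} :=
    (aeval (R := K) j : K[X] →ₐ[K] E).toRingHom.codRestrict _ hmem
  have hg : (algebraMap (Algebra.adjoin K {j}) E).comp g =
    (aeval (R := K) j : K[X] →ₐ[K] E).toRingHom := rfl
  have hsurj : Function.Surjective g := by
    rintro ⟨x, hx⟩
    rw [Algebra.adjoin_singleton_eq_range_aeval] at hx
    obtain ⟨p, hp⟩ := hx
    exact ⟨p, Subtype.ext hp⟩
  constructor
  · rintro ⟨P, hP, hPf⟩
    -- lift the monic polynomial
    obtain ⟨Q, hQ, -, hQm⟩ := Polynomial.lifts_and_natDegree_eq_and_monic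
      (f := g) (p := P) (by
        rw [Polynomial.lifts_iff_coeff_lifts]
        intro n
        exact hsurj _) hP
    refine ⟨Q, hQm, ?_⟩
    rw [← hg, ← Polynomial.eval₂_map, hQ]
    exact hPf
  · rintro ⟨P, hP, hPf⟩
    refine ⟨P.map g, hP.map g, ?_⟩
    rw [Polynomial.eval₂_map, hg]
    exact hPf

theorem intJ_map {K E E' : Type*} [CommRing K] [CommRing E] [Algebra K E] [CommRing E']
    [Algebra K E'] (φ : E →ₐ[K] E') (hφ : Function.Injective φ) {j f : E} :
    IntJ K (φ j) (φ f) ↔ IntJ K j f := by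
  have h : (aeval (R := K) (φ j) : K[X] →ₐ[K] E').toRingHom =
      φ.toRingHom.comp (aeval (R := K) j : K[X] →ₐ[K] E).toRingHom := by
    ext
    · simp
    · simp
  have h2 : ∀ P : K[X][X], P.eval₂ (aeval (R := K) (φ j) : K[X] →ₐ[K] E').toRingHom (φ f) =
      φ (P.eval₂ (aeval (R := K) j : K[X] →ₐ[K] E).toRingHom f) := by
    intro P
    rw [h]
    exact (Polynomial.hom_eval₂ P _ φ.toRingHom f).symm
  constructor
  · rintro ⟨P, hP, hPf⟩
    refine ⟨P, hP, hφ ?_⟩
    rw [← h2, hPf, map_zero]
  · rintro ⟨P, hP, hPf⟩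
    exact ⟨P, hP, by rw [h2, hPf, map_zero]⟩

end IntJ

/-! ### Descent of integrality -/

section Descent

open Fermat.Agent.H90

variable {K0 K : Type*} [Field K0] [Field K] [Algebra K0 K]

theorem coeffFun_mul_left (lam : K →ₗ[K0] K0) (a : K) (y : LaurentSeries K0) :
    coeffFun lam (algebraMap K (LaurentSeries K) a * coeffMap (algebraMap K0 K) y) =
      algebraMap K0 (LaurentSeries K0) (lam a) * y := by
  rw [coeffFun_mul]
  congr 1
  ext n
  rw [coeffFun_coeff, algebraMap_laurentSeries_eq_single, algebraMap_laurentSeries_eq_single,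
    HahnSeries.coeff_single, HahnSeries.coeff_single]
  split_ifs
  · rfl
  · exact map_zero _

theorem exists_poly_coeffFun (lam : K →ₗ[K0] K0) (j0 : LaurentSeries K0) (p : K[X]) :
    ∃ q : K0[X], ∀ y : LaurentSeries K0,
      coeffFun lam (aeval (coeffMap (algebraMap K0 K) j0) p * coeffMap (algebraMap K0 K) y) =
        aeval j0 q * y := by
  induction p using Polynomial.induction_on' with
  | add p q hp hq =>
    obtain ⟨p', hp'⟩ := hp
    obtain ⟨q', hq'⟩ := hq
    refine ⟨p' + q', fun y => ?_⟩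
    rw [map_add, add_mul, map_add, hp', hq', map_add, add_mul]
  | monomial n a =>
    refine ⟨monomial n (lam a), fun y => ?_⟩
    rw [aeval_monomial, aeval_monomial, mul_assoc, ← map_pow, ← map_mul, coeffFun_mul_left,
      mul_assoc]

theorem intJ_descent {j0 f0 : LaurentSeries K0}
    (h : IntJ K (coeffMap (algebraMap K0 K) j0) (coeffMap (algebraMap K0 K) f0)) :
    IntJ K0 j0 f0 := by
  obtain ⟨P, hP, hPf⟩ := h
  set g : K[X] →+* LaurentSeries K := (aeval (R := K) (coeffMap (algebraMap K0 K) j0) :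
        K[X] →ₐ[K] LaurentSeries K).toRingHom with hg
  set g0 : K0[X] →+* LaurentSeries K0 := (aeval (R := K0) j0 :
        K0[X] →ₐ[K0] LaurentSeries K0).toRingHom with hg0
  obtain ⟨lam, hlam⟩ : ∃ lam : K →ₗ[K0] K0, lam 1 = 1 := by
    obtain ⟨g, hg⟩ := (Algebra.linearMap K0 K).exists_leftInverse_of_injective (by
      rw [LinearMap.ker_eq_bot]
      exact (algebraMap K0 K).injective)
    refine ⟨g, ?_⟩
    have := DFunLike.congr_fun hg 1
    simpa using this
  have hq' : ∀ p : K[X], ∃ q : K0[X], ∀ y : LaurentSeries K0,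
      coeffFun lam (g p * coeffMap (algebraMap K0 K) y) = g0 q * y :=
    exists_poly_coeffFun lam j0
  choose q hq using hq'
  refine ⟨Polynomial.X ^ P.natDegree + ∑ i ∈ Finset.range P.natDegree,
    Polynomial.C (q (P.coeff i)) * Polynomial.X ^ i, monic_X_pow_add ?_, ?_⟩
  · refine lt_of_le_of_lt (degree_sum_le _ _) ?_
    rw [Finset.sup_lt_iff (WithBot.bot_lt_coe _)]
    intro i hi
    refine lt_of_le_of_lt (degree_C_mul_X_pow_le _ _) ?_
    exact_mod_cast Finset.mem_range.mp hi
  · have h2 : coeffFun lam (P.eval₂ g (coeffMap (algebraMap K0 K) f0)) = 0 := by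
      rw [hPf, map_zero]
    have h4 : P.eval₂ g (coeffMap (algebraMap K0 K) f0) =
        coeffMap (algebraMap K0 K) f0 ^ P.natDegree +
          ∑ i ∈ Finset.range P.natDegree, g (P.coeff i) * coeffMap (algebraMap K0 K) (f0 ^ i) := by
      conv_lhs => rw [hP.as_sum]
      rw [eval₂_add, eval₂_X_pow, eval₂_finsetSum]
      congr 1
      refine Finset.sum_congr rfl fun i _ => ?_
      rw [eval₂_mul, eval₂_C, eval₂_X_pow, map_pow]
    rw [h4, map_add, map_sum] at h2
    rw [eval₂_add, eval₂_X_pow, eval₂_finsetSum]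
    have h1 : coeffFun lam (coeffMap (algebraMap K0 K) f0 ^ P.natDegree) =
        f0 ^ P.natDegree := by
      have h3 := coeffFun_mul_left lam 1 (f0 ^ P.natDegree)
      rw [map_one, one_mul, hlam, map_one, one_mul, map_pow] at h3
      exact h3
    rw [h1] at h2
    rw [← h2]
    congr 1
    refine Finset.sum_congr rfl fun i _ => ?_
    rw [eval₂_mul, eval₂_C, eval₂_X_pow]
    exact (hq (P.coeff i) (f0 ^ i)).symm

theorem intJ_coeffMap {j0 f0 : LaurentSeries K0} (h : IntJ K0 j0 f0) :
    IntJ K (coeffMap (algebraMap K0 K) j0) (coeffMap (algebraMap K0 K) f0) := by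
  obtain ⟨P, hP, hPf⟩ := h
  refine ⟨P.map (Polynomial.mapRingHom (algebraMap K0 K)), hP.map _, ?_⟩
  rw [Polynomial.eval₂_map]
  have h1 : ((aeval (R := K) (coeffMap (algebraMap K0 K) j0) :
      K[X] →ₐ[K] LaurentSeries K).toRingHom.comp (Polynomial.mapRingHom (algebraMap K0 K))) =
      (coeffMap (algebraMap K0 K)).comp (aeval (R := K0) j0 :
        K0[X] →ₐ[K0] LaurentSeries K0).toRingHom := by
    ext a : 2
    · simp only [RingHom.comp_apply, AlgHom.toRingHom_eq_coe, RingHom.coe_coe, coe_mapRingHom,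
        Polynomial.map_C, aeval_C]
      rw [algebraMap_laurentSeries_eq_single, algebraMap_laurentSeries_eq_single,
        coeffMap_single]
    · simp
  rw [h1, ← Polynomial.hom_eval₂, hPf, map_zero]

theorem intJ_coeffMap_iff {j0 f0 : LaurentSeries K0} :
    IntJ K (coeffMap (algebraMap K0 K) j0) (coeffMap (algebraMap K0 K) f0) ↔ IntJ K0 j0 f0 :=
  ⟨intJ_descent, intJ_coeffMap⟩

end Descent

/-! ### `X` is a unit where `j` is regular -/

section Unit

variable {K F : Type*} [Field K] [Field F] [Algebra K F] {j X : F}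

theorem IntJ.isIntegral {f : F} (h : IntJ K j f) : IsIntegral (Algebra.adjoin K {j}) f :=
  intJ_iff.mpr h

theorem intJ_self : IntJ K j j := intJ_iff.mp
  (isIntegral_algebraMap (A := F) (x := (⟨j, Algebra.subset_adjoin rfl⟩ : Algebra.adjoin K {j})))

theorem IntJ.mul {f g : F} (hf : IntJ K j f) (hg : IntJ K j g) : IntJ K j (f * g) :=
  intJ_iff.mp (hf.isIntegral.mul hg.isIntegral)

theorem IntJ.add {f g : F} (hf : IntJ K j f) (hg : IntJ K j g) : IntJ K j (f + g) :=
  intJ_iff.mp (hf.isIntegral.add hg.isIntegral)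

theorem IntJ.sub {f g : F} (hf : IntJ K j f) (hg : IntJ K j g) : IntJ K j (f - g) :=
  intJ_iff.mp (hf.isIntegral.sub hg.isIntegral)

theorem IntJ.neg {f : F} (hf : IntJ K j f) : IntJ K j (-f) :=
  intJ_iff.mp hf.isIntegral.neg

theorem IntJ.pow {f : F} (hf : IntJ K j f) (n : ℕ) : IntJ K j (f ^ n) :=
  intJ_iff.mp (hf.isIntegral.pow n)

theorem intJ_algebraMap (a : K) : IntJ K j (algebraMap K F a) := intJ_iff.mp
  (isIntegral_algebraMap (A := F) (x := algebraMap K (Algebra.adjoin K {j}) a))

theorem IntJ.aeval {f : F} (hf : IntJ K j f) (p : K[X]) : IntJ K j (Polynomial.aeval f p) := by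
  induction p using Polynomial.induction_on' with
  | add p q hp hq => rw [map_add]; exact hp.add hq
  | monomial n a => rw [aeval_monomial]; exact (intJ_algebraMap a).mul (hf.pow n)

theorem Coord.intJ (C : Coord K F j X) : IntJ K j X := intJ_iff.mp C.isIntegral

theorem Coord.inv_intJ (C : Coord K F j X) (hT : C.T.eval 0 = 0) :
    IntJ K j X⁻¹ := by
  have hP : C.P.eval 0 ≠ 0 := C.coprime 0 hT
  set a : F := algebraMap K F (C.P.eval 0) with ha
  have ha0 : a ≠ 0 := (_root_.map_ne_zero _).mpr hP
  have h1 : ∀ p : K[X], Polynomial.aeval X p =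
      X * Polynomial.aeval X p.divX + algebraMap K F (p.eval 0) := by
    intro p
    conv_lhs => rw [← Polynomial.X_mul_divX_add p]
    rw [map_add, map_mul, aeval_X, aeval_C, coeff_zero_eq_eval_zero]
  have hP1 := h1 C.P
  have hT1 := h1 C.T
  rw [hT, map_zero, add_zero] at hT1
  have h3 := C.P3
  set U := Polynomial.aeval X C.P with hU
  set Q := Polynomial.aeval X C.P.divX with hQ
  set R := Polynomial.aeval X C.T.divX with hR
  have h4 : X⁻¹ = (j * R - Q * (U ^ 2 + U * a + a ^ 2)) * algebraMap K F ((C.P.eval 0)⁻¹ ^ 3) := by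
    rw [map_pow, map_inv₀, ← ha]
    have h5 : a ^ 3 = X * (j * R - Q * (U ^ 2 + U * a + a ^ 2)) := by
      have h6 : U - a = X * Q := by rw [hP1]; ring
      rw [hT1] at h3
      linear_combination h3 - (U ^ 2 + U * a + a ^ 2) * h6
    rw [inv_eq_iff_eq_inv, mul_inv, inv_pow, inv_inv, h5]
    have h7 : j * R - Q * (U ^ 2 + U * a + a ^ 2) ≠ 0 := by
      intro h0
      rw [h0, mul_zero] at h5
      exact ha0 ((pow_eq_zero_iff (by norm_num)).mp h5)
    rw [mul_comm X, ← mul_assoc, inv_mul_cancel₀ h7, one_mul]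
  rw [h4]
  have hXi := C.intJ
  refine IntJ.mul (IntJ.sub (intJ_self.mul (hXi.aeval _)) (IntJ.mul (hXi.aeval _)
    (IntJ.add (IntJ.add ((hXi.aeval _).pow 2) ((hXi.aeval _).mul (intJ_algebraMap _)))
      ((intJ_algebraMap _).pow 2)))) (intJ_algebraMap _)

end Unit

/-! ### Modular function fields -/

section Abs

variable {K F : Type*} [Field K] [CharZero K] [IsAlgClosed K] [Field F] [Algebra K F]
  [FunField K F]

theorem exists_dX (φ : F →ₐ[K] LaurentSeries K) {j X : F} {N : ℕ} (D : X0PlaceData K F N j)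
    (hj : φ j = jqModC K) {c : ℕ} (hc : c = 4 ∨ c = 9) (hX : φ X = Xc c K) (f : F) :
    ∃ g : F, φ g = dX c K (φ f) ∧ (IntJ K j f → IntJ K j g) := by
  let C : Coord K F j X := coordC φ.toRingHom hj hc hX
  have htr := C.transcendental D
  refine ⟨dd htr f, map_dd_eq φ htr c hX f, fun h => ?_⟩
  exact intJ_iff.mp (C.dd_isIntegral D htr h.isIntegral)

end Abs

section CC

variable {N c : ℕ} [NeZero N]

theorem dX_mem_complex (hc : c = 4 ∨ c = 9) (hcN : c ∣ N) {f : LaurentSeries ℂ}
    (hf : f ∈ laurentBaseChange ℂ (modularFunctionFieldFull N)) :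
    dX c ℂ f ∈ laurentBaseChange ℂ (modularFunctionFieldFull N) ∧
      (IntJ ℂ (jqModC ℂ) f → IntJ ℂ (jqModC ℂ) (dX c ℂ f)) := by
  have hj : jqModC ℂ ∈ laurentBaseChange ℂ (modularFunctionFieldFull N) := by
    rw [H24.laurentBaseChange_full]
    exact jqModC_mem_full ℂ N
  have hX := Xc_mem_baseChange ℂ hc (NeZero.ne N) hcN
  let φ : laurentBaseChange ℂ (modularFunctionFieldFull N) →ₐ[ℂ] LaurentSeries ℂ :=
    (laurentBaseChange ℂ (modularFunctionFieldFull N)).val
  have D : X0PlaceData ℂ (laurentBaseChange ℂ (modularFunctionFieldFull N)) N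
      ⟨jqModC ℂ, hj⟩ := x0PlaceData_of_eq (H24.laurentBaseChange_full ℂ N) rfl
  obtain ⟨g, hg, hg2⟩ := exists_dX φ D rfl hc (X := ⟨Xc c ℂ, hX⟩) rfl ⟨f, hf⟩
  have hφ : Function.Injective φ := φ.toRingHom.injective
  have hg' : (g : LaurentSeries ℂ) = dX c ℂ f := hg
  refine ⟨?_, fun h => ?_⟩
  · rw [← hg']
    exact g.2
  · have h1 : IntJ ℂ (φ ⟨jqModC ℂ, hj⟩) (φ ⟨f, hf⟩) := h
    have h2 := (intJ_map φ hφ).mpr (hg2 ((intJ_map φ hφ).mp h1))
    rw [← hg']
    exact h2

end CC

section Final

open Fermat.Agent.H90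

variable {L : Type*} [Field L] [Algebra ℚ L] (ι : L →+* ℂ) {N c : ℕ} [NeZero N]

include ι in
/-- `d/dX` preserves the function field of `X₀(N)` (`c ∣ N`) -/
theorem dX_mem (hc : c = 4 ∨ c = 9) (hcN : c ∣ N) {f : LaurentSeries L}
    (hf : f ∈ laurentBaseChange L (modularFunctionFieldFull N)) :
    dX c L f ∈ laurentBaseChange L (modularFunctionFieldFull N) := by
  let : Algebra L ℂ := ι.toAlgebra
  apply exists_of_coeff_mem (L1 := ℂ)
  rw [coeffMap_dX]
  exact (dX_mem_complex hc hcN (coeffMap_mem (L1 := ℂ) hf)).1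

include ι in
/-- `d/dX` preserves the functions which are integral over `L[j]` -/
theorem dX_intJ (hc : c = 4 ∨ c = 9) (hcN : c ∣ N) {f : LaurentSeries L}
    (hf : f ∈ laurentBaseChange L (modularFunctionFieldFull N)) (h : IntJ L (jqModC L) f) :
    IntJ L (jqModC L) (dX c L f) := by
  let : Algebra L ℂ := ι.toAlgebra
  apply intJ_descent (K := ℂ)
  rw [coeffMap_dX, coeffMap_jqModC]
  apply (dX_mem_complex hc hcN (coeffMap_mem (L1 := ℂ) hf)).2
  have h1 := intJ_coeffMap (K := ℂ) h
  rwa [coeffMap_jqModC] at h1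

/-- the derivation `d/dX` on the function field of `X₀(N)` over `L` -/
def derX (hc : c = 4 ∨ c = 9) (hcN : c ∣ N) :
    Derivation ℤ (laurentBaseChange L (modularFunctionFieldFull N))
      (laurentBaseChange L (modularFunctionFieldFull N)) :=
  Derivation.mk'
    (AddMonoidHom.toIntLinearMap
      { toFun := fun f => ⟨dX c L f, dX_mem ι hc hcN f.2⟩
        map_zero' := Subtype.ext (map_zero _)
        map_add' := fun f g => Subtype.ext (map_add _ _ _) })
    (fun f g => by
      apply Subtype.ext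
      show dX c L (f * g) = f * dX c L g + g * dX c L f
      rw [dX_mul]
      ring)

@[simp] theorem coe_derX (hc : c = 4 ∨ c = 9) (hcN : c ∣ N)
    (f : laurentBaseChange L (modularFunctionFieldFull N)) :
    (derX ι hc hcN f : LaurentSeries L) = dX c L f := rfl

omit [Algebra ℚ L] in
theorem coordC_T_eval {F : Type*} [CharZero L] [Field F] [Algebra L F] (φ : F →+* LaurentSeries L)
    {j X : F} (hj : φ j = jqModC L) {c : ℕ} (hc : c = 4 ∨ c = 9) (hX : φ X = Xc c L) :
    (coordC φ hj hc hX).T.eval 0 = 0 := by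
  rw [coordC]
  split_ifs with h
  · simp [coord4]
  · simp [coord9]

omit [Algebra ℚ L] in
variable (L) in
theorem Xc_intJ [CharZero L] (hc : c = 4 ∨ c = 9) : IntJ L (jqModC L) (Xc c L) :=
  (coordC (RingHom.id (LaurentSeries L)) (j := jqModC L) (X := Xc c L) rfl hc rfl).intJ

omit [Algebra ℚ L] in
variable (L) in
/-- `X` is a unit of the ring of functions which are integral over `L[j]` -/
theorem Xc_inv_intJ [CharZero L] (hc : c = 4 ∨ c = 9) : IntJ L (jqModC L) (Xc c L)⁻¹ :=
  (coordC (RingHom.id (LaurentSeries L)) (j := jqModC L) (X := Xc c L) rfl hc rfl).inv_intJ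
    (coordC_T_eval _ rfl hc rfl)

/-- integrality over `L[j]` inside an intermediate field -/
theorem intJ_val {F : IntermediateField L (LaurentSeries L)} {j f : F} :
    IntJ L (j : LaurentSeries L) (f : LaurentSeries L) ↔ IntJ L j f :=
  intJ_map F.val F.val.toRingHom.injective

theorem derX_intJ (hc : c = 4 ∨ c = 9) (hcN : c ∣ N)
    {j f : laurentBaseChange L (modularFunctionFieldFull N)} (hj : (j : LaurentSeries L) = jqModC L)
    (h : IsIntegral (Algebra.adjoin L {j}) f) :
    IsIntegral (Algebra.adjoin L {j}) (derX ι hc hcN f) := by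
  rw [intJ_iff, ← intJ_val] at h ⊢
  rw [hj] at h ⊢
  exact dX_intJ ι hc hcN f.2 h

end Final

end Fermat.Agent.H1
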