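import Fermat.Agent.H68TwoDer
import Fermat.Agent.H1HauptFinal

/-!
# CARAYOL C3: the two-component situation `X_0(m q)`, `TwoData` instance
-/

set_option autoImplicit false
set_option linter.unusedSectionVars false

noncomputable section

open Polynomial ModularCurve Fermat.Agent.H99 Fermat.Agent.H66 IntermediateField
open Fermat.Agent.H61 (theta)

namespace Fermat.Agent.H68

section DX

theorem thetaL_eq (K : Type*) [Field K] (f : LaurentSeries K) : H1.thetaL K f = theta f := by
  ext n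
  rw [H1.thetaL_coeff, H61.coeff_theta]

theorem dX_eq (K : Type*) [Field K] (c : ℕ) (f : LaurentSeries K) :
    H1.dX c K f = theta f / theta (H1.Xc c K) := by
  have h1 := H1.thInv_mul_theta c K
  have h0 := theta_Xc_ne_zero c K
  rw [thetaL_eq] at h1
  rw [H1.dX_apply, thetaL_eq, eq_div_iff h0, mul_right_comm, h1, one_mul]

end DX

section TwoData

variable {K : Type*} [Field K] [Algebra ℚ K] [CharZero K] {c m q : ℕ} [NeZero m] [NeZero q]
  [hq : Fact q.Prime]
variable {A : ValuationSubring K} {k : Type*} [Field k] [IsAlgClosed k] [CharP k q] {π : A →+* k}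
variable (hc : c = 4 ∨ c = 9) (hcm : c ∣ m) (w : AL K m q) (hϖ : Unif A π (q : A))

/-- The integrality input of `d/dX`, over any field embedded in `ℂ`. -/
theorem ddXF_mem_hor (ι : K →+* ℂ) {f : FX K (m * q)} (hf : f ∈ hor K (m * q)) :
    ddXF K c (m * q) hc (hcm.mul_right q) f ∈ hor K (m * q) := by
  rw [mem_hor] at hf ⊢
  rw [coe_ddXF, ← dX_eq, H1.intJ_iff]
  rw [H1.intJ_iff] at hf
  exact H1.dX_intJ ι hc (hcm.mul_right q) f.2 hf

theorem W_mem_hor {x : FX K (m * q)} (hx : x ∈ hor K (m * q)) : w.W x ∈ hor K (m * q) :=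
  map_mem_hor w.W.toAlgHom (by
    show w.W (jF K (m * q)) ∈ _
    rw [W_jF]
    exact JF_mem_hor q _) hx

/-- The lifting hypothesis: every function on the special fibre lifts to a chart function of
level `m` over `K`. -/
def LiftK (K : Type*) [Field K] [Algebra ℚ K] (m : ℕ) (A : ValuationSubring K) {k : Type*}
    [Field k] (π : A →+* k) : Prop :=
  ∀ x ∈ H18.Cm k m, ∃ f : FX K m, IsIntegral (Algebra.adjoin K {jqModC K}) (f : LaurentSeries K) ∧
    (f : LaurentSeries K) ∈ GR A π ∧ gres A π (f : LaurentSeries K) = x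

theorem exists_lift0 (hlift : LiftK K m A π) {x : LaurentSeries k} (hx : x ∈ H18.Cm k m) :
    ∃ b : FX K (m * q), b ∈ (twoSys (k := k) w hϖ).B ∧ gres A π (emb w 0 b) = x := by
  obtain ⟨f, hf1, hf2, hf3⟩ := hlift x hx
  refine ⟨heckeAlphaBar K m q f, ?_, ?_⟩
  · rw [H83.CompSys.mem_B]
    refine ⟨?_, fun i => ?_⟩
    · show heckeAlphaBar K m q f ∈ hor K (m * q)
      rw [mem_hor, coe_heckeAlphaBar]
      exact hf1
    · rw [mem_twoSys_V]
      fin_cases i
      · show ((heckeAlphaBar K m q f : FX K (m * q)) : LaurentSeries K) ∈ GR A π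
        rw [coe_heckeAlphaBar]
        exact hf2
      · show ((w.W (heckeAlphaBar K m q f) : FX K (m * q)) : LaurentSeries K) ∈ GR A π
        rw [w.alpha, coe_heckeBetaBar]
        exact expand_mem q hf2
  · rw [emb_zero, coe_heckeAlphaBar]
    exact hf3

theorem W_mem_B {b : FX K (m * q)} (hb : b ∈ (twoSys (k := k) w hϖ).B) :
    w.W b ∈ (twoSys (k := k) w hϖ).B := by
  rw [H83.CompSys.mem_B] at hb ⊢
  refine ⟨W_mem_hor w hb.1, fun i => ?_⟩
  rw [mem_twoSys_V]
  fin_cases i
  · exact hb.2 1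
  · show ((w.W (w.W b) : FX K (m * q)) : LaurentSeries K) ∈ GR A π
    rw [w.invol]
    exact hb.2 0

theorem exists_lift (hlift : LiftK K m A π) (i : Fin 2) {x : LaurentSeries k}
    (hx : x ∈ H18.Cm k m) :
    ∃ b : (twoSys (k := k) w hϖ).B, (twoSys (k := k) w hϖ).r i b = x := by
  obtain ⟨b, hb, hbx⟩ := exists_lift0 w hϖ hlift hx
  fin_cases i
  · exact ⟨⟨b, hb⟩, hbx⟩
  · refine ⟨⟨w.W b, W_mem_B w hϖ hb⟩, ?_⟩
    show gres A π ((w.W (w.W b) : FX K (m * q)) : LaurentSeries K) = x
    rw [w.invol]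
    exact hbx

variable (R : H83.ResData k (LaurentSeries k) q)

/-- **The `TwoData` instance of `X_0(m q)` over a discretely valued field `K ⊂ ℂ`.** -/
def twoData (ι : K →+* ℂ) (hπ : Function.Surjective π) (hqm : ¬ q ∣ m)
    (hRC : ∀ x, x ∈ R.C ↔ x ∈ H18.Cm k m) (hRX : R.X = H1.Xc c k)
    (hRD : ∀ x, R.D x = theta x / theta (H1.Xc c k)) (hlift : LiftK K m A π) :
    H83.TwoData R (FX K (m * q)) where
  toCompSys := twoSys w hϖ
  e_eq _ := rfl
  r_mem i b := (hRC _).2 (r_mem w hϖ hπ (H99.degreeFact K) hqm (by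
    rw [Ne, CharP.cast_eq_zero_iff k q]
    exact hqm) i b.2)
  r_surj i x hx := exists_lift w hϖ hlift i ((hRC x).1 hx)
  W := w.W.toRingEquiv
  W_W := w.invol
  W_hor x hx := W_mem_hor w hx
  W_V x := Iff.rfl
  W_res x := by
    rw [twoSys_res, twoSys_res]
    rfl
  X := XF K c (m * q) hc (hcm.mul_right q)
  X_hor := by
    show XF K c (m * q) hc (hcm.mul_right q) ∈ hor K (m * q)
    rw [mem_hor, coe_XF, H1.intJ_iff]
    exact H1.Xc_intJ K hc
  X_V i := by
    rw [mem_twoSys_V]
    fin_cases i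
    · exact Xc_mem_GR c
    · show ((w.W (XF K c (m * q) hc (hcm.mul_right q)) : FX K (m * q)) : LaurentSeries K) ∈ _
      rw [W_XF hc hcm]
      exact expand_mem q (Xc_mem_GR c)
  res_X := by
    rw [twoSys_res, emb_zero, coe_XF, gres_Xc, hRX]
  res_WX := by
    rw [twoSys_res, emb_zero]
    show gres A π ((w.W (XF K c (m * q) hc (hcm.mul_right q)) : FX K (m * q)) :
      LaurentSeries K) = _
    rw [W_XF hc hcm, gres_expand q (Xc_mem_GR c), gres_Xc, hRX, Xc_pow]
  der := derXF K c (m * q) hc (hcm.mul_right q)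
  der_X := ddXF_XF K c (m * q) hc (hcm.mul_right q)
  der_hor x hx := ddXF_mem_hor hc hcm ι hx
  der_V x hx := (ddX_mem c hx).1
  res_der x hx := by
    rw [twoSys_res, twoSys_res, hRD]
    exact (ddX_mem c hx).2
  W_der := W_der hc hcm w
  res_delta := by
    rw [twoSys_res, emb_div_q (A := A)]
    show gres A π (theta ((w.W (XF K c (m * q) hc (hcm.mul_right q)) : FX K (m * q)) :
      LaurentSeries K) / theta (H1.Xc c K) / algebraMap K (LaurentSeries K) ((q : A) : K)) ≠ 0
    have hq0 : algebraMap K (LaurentSeries K) ((q : A) : K) ≠ 0 := by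
      rw [ne_eq, map_eq_zero]
      exact fun h => hϖ.ne_zero (Subtype.ext h)
    have hqc : (q : LaurentSeries K) = algebraMap K (LaurentSeries K) ((q : A) : K) := by simp
    rw [W_XF hc hcm, theta_qExpand, hqc, div_right_comm, mul_div_cancel_left₀ _ hq0]
    have h1 := theta_mem (A := A) (π := π) (Xc_mem_GR (K := K) c)
    have h2 : gres A π (theta (H1.Xc c K)) ≠ 0 := by
      rw [gres_theta_Xc]
      exact theta_Xc_ne_zero c k
    rw [gres_div (expand_mem q h1.1) h2, gres_expand q h1.1]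
    exact div_ne_zero ((_root_.map_ne_zero _).mpr h2) h2

end TwoData

end Fermat.Agent.H68
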