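import Fermat.Agent.H99Base2

/-!
# The ring of functions on `X_0(N)` regular outside the cusps

`horX K N` : the elements of `FX K N` integral over `K[j]`.
-/

set_option autoImplicit false
set_option linter.unusedSectionVars false

noncomputable section

open ModularCurve Polynomial IntermediateField AlgebraicCurve Module Fermat.Agent.H60
  Fermat.Agent.H66

namespace Fermat.Agent.H99

section Closure

/-- the integral closure of a subring is closed -/
theorem mem_of_isIntegral_integralClosure {R E : Type*} [CommRing R] [CommRing E] [Algebra R E]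
    {x : E} (hx : IsIntegral (integralClosure R E).toSubring x) : x ∈ integralClosure R E := by
  have h1 : IsIntegral (integralClosure R E) x := hx
  exact isIntegral_trans (R := R) (A := integralClosure R E) x h1

/-- elements integral over a subalgebra contained in a closed subring are in the closed subring -/
theorem mem_of_map_isIntegral {K E E' : Type*} [Field K] [CommRing E] [Algebra K E] [CommRing E']
    (y : E) (φ : E →+* E') (H : Subring E') (hH : ∀ x : E', IsIntegral H x → x ∈ H)
    (h0 : ∀ c : K, φ (algebraMap K E c) ∈ H) (h1 : φ y ∈ H) {x : E}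
    (hx : IsIntegral (Algebra.adjoin K {y}) x) : φ x ∈ H := by
  apply hH
  have hsub : ∀ z : Algebra.adjoin K {y}, φ z ∈ H := by
    rintro ⟨z, hz⟩
    induction hz using Algebra.adjoin_induction with
    | mem z hz =>
      rw [Set.mem_singleton_iff] at hz
      subst hz
      exact h1
    | algebraMap c => exact h0 c
    | add a b _ _ ha hb =>
      show φ (a + b) ∈ H
      rw [map_add]
      exact add_mem ha hb
    | mul a b _ _ ha hb =>
      show φ (a * b) ∈ H
      rw [map_mul]
      exact mul_mem ha hb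
  let g : Algebra.adjoin K {y} →+* H :=
    (φ.comp (Algebra.adjoin K {y}).val.toRingHom).codRestrict H hsub
  obtain ⟨p, hp, hpx⟩ := hx
  refine ⟨p.map g, hp.map g, ?_⟩
  have h2 : (algebraMap H E').comp g = φ.comp (algebraMap (Algebra.adjoin K {y}) E) := rfl
  rw [eval₂_map, h2, ← hom_eval₂, hpx, map_zero]

end Closure

variable (K : Type*) [Field K] [Algebra ℚ K]

/-- `j` as an element of `FX K N` -/
def jX (N : ℕ) [NeZero N] : FX K N := ⟨J K 1, J_mem_FX (NeZero.ne N) (one_dvd N)⟩

@[simp] theorem coe_jX (N : ℕ) [NeZero N] : (jX K N : LaurentSeries K) = J K 1 := rfl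

/-- functions on `X_0(N)` regular outside the cusps -/
def horX (N : ℕ) [NeZero N] : Subring (FX K N) :=
  (integralClosure (Algebra.adjoin K {jX K N}) (FX K N)).toSubring

variable {K} {N : ℕ} [NeZero N]

theorem mem_horX {x : FX K N} : x ∈ horX K N ↔ IsIntegral (Algebra.adjoin K {jX K N}) x := Iff.rfl

theorem horX_closed {x : FX K N} (hx : IsIntegral (horX K N) x) : x ∈ horX K N :=
  mem_of_isIntegral_integralClosure hx

theorem algebraMap_mem_horX (c : K) : algebraMap K (FX K N) c ∈ horX K N := by
  rw [mem_horX]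
  exact isIntegral_algebraMap (R := Algebra.adjoin K {jX K N})
    (x := ⟨algebraMap K (FX K N) c, Subalgebra.algebraMap_mem _ c⟩)

theorem jX_mem_horX : jX K N ∈ horX K N := by
  rw [mem_horX]
  exact isIntegral_algebraMap (R := Algebra.adjoin K {jX K N})
    (x := ⟨jX K N, Algebra.subset_adjoin rfl⟩)

theorem horX_map {E' : Type*} [CommRing E'] (φ : FX K N →+* E') (H : Subring E')
    (hH : ∀ x : E', IsIntegral H x → x ∈ H) (h0 : ∀ c : K, φ (algebraMap K (FX K N) c) ∈ H)
    (h1 : φ (jX K N) ∈ H) {x : FX K N} (hx : x ∈ horX K N) : φ x ∈ H :=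
  mem_of_map_isIntegral (jX K N) φ H hH h0 h1 hx

variable (K) in
/-- Laurent series integral over `K[j]` -/
def horS : Subring (LaurentSeries K) :=
  (integralClosure (Algebra.adjoin K {J K 1}) (LaurentSeries K)).toSubring

theorem mem_horS {x : LaurentSeries K} :
    x ∈ horS K ↔ IsIntegral (Algebra.adjoin K {J K 1}) x := Iff.rfl

theorem horS_closed {x : LaurentSeries K} (hx : IsIntegral (horS K) x) : x ∈ horS K :=
  mem_of_isIntegral_integralClosure hx

theorem algebraMap_mem_horS (c : K) : algebraMap K (LaurentSeries K) c ∈ horS K := by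
  rw [mem_horS]
  exact isIntegral_algebraMap (R := Algebra.adjoin K {J K 1})
    (x := ⟨algebraMap K (LaurentSeries K) c, Subalgebra.algebraMap_mem _ c⟩)

theorem J_one_mem_horS : J K 1 ∈ horS K := by
  rw [mem_horS]
  exact isIntegral_algebraMap (R := Algebra.adjoin K {J K 1})
    (x := ⟨J K 1, Algebra.subset_adjoin rfl⟩)

/-- being in `horX` can be tested on series -/
theorem mem_horX_iff {x : FX K N} : x ∈ horX K N ↔ (x : LaurentSeries K) ∈ horS K := by
  constructor
  · intro hx
    exact horX_map (FX K N).val.toRingHom (horS K) (fun _ => horS_closed)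
      (fun c => algebraMap_mem_horS c) J_one_mem_horS hx
  · intro hx
    rw [mem_horX]
    obtain ⟨p, hp, hpx⟩ := mem_horS.1 hx
    -- the two polynomial rings are the same
    have hle : ∀ z : Algebra.adjoin K {J K 1}, ∃ z' : Algebra.adjoin K {jX K N},
        (((z' : FX K N)) : LaurentSeries K) = z := by
      rintro ⟨z, hz⟩
      have h1 : Algebra.adjoin K {J K 1} =
          (Algebra.adjoin K {jX K N}).map (FX K N).val := by
        rw [AlgHom.map_adjoin, Set.image_singleton]
        rfl
      have h2 : z ∈ (Algebra.adjoin K {jX K N}).map (FX K N).val := by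
        rw [← h1]
        exact hz
      obtain ⟨z', hz', hzz'⟩ := h2
      exact ⟨⟨z', hz'⟩, hzz'⟩
    choose g hg using hle
    let G : Algebra.adjoin K {J K 1} →+* Algebra.adjoin K {jX K N} :=
      { toFun := g
        map_one' := by
          apply Subtype.ext
          apply Subtype.ext
          rw [hg]
          rfl
        map_zero' := by
          apply Subtype.ext
          apply Subtype.ext
          rw [hg]
          rfl
        map_add' := fun a b => by
          apply Subtype.ext
          apply Subtype.ext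
          rw [hg]
          show ((a : LaurentSeries K) + b) = _
          rw [← hg a, ← hg b]
          rfl
        map_mul' := fun a b => by
          apply Subtype.ext
          apply Subtype.ext
          rw [hg]
          show ((a : LaurentSeries K) * b) = _
          rw [← hg a, ← hg b]
          rfl }
    refine ⟨p.map G, hp.map G, ?_⟩
    apply Subtype.ext
    have h2 : ((FX K N).val.toRingHom).comp
        ((algebraMap (Algebra.adjoin K {jX K N}) (FX K N)).comp G) =
        algebraMap (Algebra.adjoin K {J K 1}) (LaurentSeries K) := by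
      ext z : 1
      exact hg z
    rw [eval₂_map]
    show (FX K N).val.toRingHom _ = _
    rw [hom_eval₂, h2]
    exact hpx

/-- `j(pd τ)` is integral over `K[j(d τ)]` (fields with enough roots of unity) -/
theorem isIntegral_J_aux {L : Type*} [Field L] [CharZero L] (hL : HasRoots L) {p : ℕ}
    (hp : p.Prime) (d : ℕ) [NeZero d] : IsIntegral (Algebra.adjoin L {J L d}) (J L (p * d)) := by
  have : Fact p.Prime := ⟨hp⟩
  obtain ⟨u, Φ, -, hm, -, hΦ⟩ := hL.exists_phi p (Nat.cast_ne_zero.mpr hp.ne_zero)
  have h1 := eval_root1 hΦ d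
  have h2 : ∀ f : L[X], aeval (J L d) f ∈ Algebra.adjoin L {J L d} := fun f =>
    aeval_mem_adjoin_singleton L _
  let g : L[X] →+* Algebra.adjoin L {J L d} :=
    ((aeval (J L d) : L[X] →ₐ[L] LaurentSeries L).codRestrict _ h2).toRingHom
  refine ⟨Φ.map g, hm.map g, ?_⟩
  rw [eval₂_map]
  rw [phiAt, eval_map] at h1
  exact h1

theorem expand_algebraMap {L : Type*} [Field L] (a : ℕ) [NeZero a] (c : L) :
    qExpand L a (algebraMap L (LaurentSeries L) c) = algebraMap L (LaurentSeries L) c := by
  rw [algebraMap_laurentSeries_eq_single, qExpand_single, mul_zero]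

theorem J_mem_horS_aux {L : Type*} [Field L] [Algebra ℚ L] [CharZero L] (hL : HasRoots L) (d : ℕ)
    (hd : d ≠ 0) : J L d ∈ horS L := by
  induction d using Nat.recOnMul with
  | zero => exact absurd rfl hd
  | one => exact J_one_mem_horS
  | prime p hp =>
    have h1 := isIntegral_J_aux hL hp 1
    rw [mul_one] at h1
    exact h1
  | mul a b ha hb =>
    have ha0 : a ≠ 0 := by
      rintro rfl
      exact hd (zero_mul _)
    have hb0 : b ≠ 0 := by
      rintro rfl
      exact hd (mul_zero _)
    have : NeZero a := ⟨ha0⟩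
    have h1 := mem_of_map_isIntegral (J L 1) (qExpand L a) (horS L) (fun _ => horS_closed)
      (fun c => by rw [expand_algebraMap]; exact algebraMap_mem_horS c)
      (by rw [qExpand_J, mul_one]; exact ha ha0) (hb hb0)
    rwa [qExpand_J] at h1

/-- descent of integrality along an algebraic extension of the constants -/
theorem mem_horS_of_coeffMap {L : Type*} [Field L] [Algebra ℚ L] [Algebra K L]
    [hLalg : Algebra.IsAlgebraic K L] {x : LaurentSeries K}
    (hx : coeffMap (algebraMap K L) x ∈ horS L) : x ∈ horS K := by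
  let S := Algebra.adjoin K {J K 1}
  let f : S →+* LaurentSeries L := (coeffMap (algebraMap K L)).comp (algebraMap S (LaurentSeries K))
  let _ : Algebra S (LaurentSeries L) := f.toAlgebra
  let C : Subring (LaurentSeries L) := (integralClosure S (LaurentSeries L)).toSubring
  have hC : ∀ x, IsIntegral C x → x ∈ C := fun x hx => mem_of_isIntegral_integralClosure hx
  have hCJ : J L 1 ∈ C := by
    have h1 : f ⟨J K 1, Algebra.subset_adjoin rfl⟩ = J L 1 := coeffMap_J 1
    rw [← h1]
    exact isIntegral_algebraMap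
  have hCL : ∀ c : L, algebraMap L (LaurentSeries L) c ∈ C := by
    intro c
    have h1 : IsIntegral K c := (hLalg.isAlgebraic c).isIntegral
    obtain ⟨p, hp, hpc⟩ := h1
    let i : K →+* S := algebraMap K S
    refine ⟨p.map i, hp.map i, ?_⟩
    rw [eval₂_map]
    have h2 : (algebraMap S (LaurentSeries L)).comp i =
        (algebraMap L (LaurentSeries L)).comp (algebraMap K L) := by
      ext c : 1
      exact H90.coeffMap_algebraMap' c
    rw [h2, ← hom_eval₂, hpc, map_zero]
  obtain ⟨p, hp, hpd⟩ := mem_of_map_isIntegral (J L 1) (RingHom.id _) C hC hCL hCJ hx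
  refine mem_horS.2 ⟨p, hp, ?_⟩
  apply (coeffMap (algebraMap K L)).injective
  rw [map_zero, hom_eval₂]
  exact hpd

theorem coeffMap_mem_horS {L : Type*} [Field L] [Algebra ℚ L] [Algebra K L] {x : LaurentSeries K}
    (hx : x ∈ horS K) : coeffMap (algebraMap K L) x ∈ horS L :=
  mem_of_map_isIntegral (J K 1) (coeffMap (algebraMap K L)) (horS L) (fun _ => horS_closed)
    (fun c => by rw [H90.coeffMap_algebraMap']; exact algebraMap_mem_horS _)
    (by rw [coeffMap_J]; exact J_one_mem_horS) hx

/-- **`j(dτ)` is integral over `K[j]`.** -/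
theorem J_mem_horS {d : ℕ} (hd : d ≠ 0) : J K d ∈ horS K := by
  have : CharZero K := charZero_of_injective_algebraMap (algebraMap ℚ K).injective
  have hLalg : Algebra.IsAlgebraic K (AlgebraicClosure K) := AlgebraicClosure.isAlgebraic K
  have : CharZero (AlgebraicClosure K) :=
    charZero_of_injective_algebraMap (algebraMap K (AlgebraicClosure K)).injective
  apply mem_horS_of_coeffMap (L := AlgebraicClosure K)
  rw [coeffMap_J]
  exact J_mem_horS_aux (hasRoots_of_isAlgClosed _) d hd

theorem J_mem_horX {d : ℕ} (hd : d ∣ N) : (⟨J K d, J_mem_FX (NeZero.ne N) hd⟩ : FX K N) ∈ horX K N :=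
  mem_horX_iff.2 (J_mem_horS (fun h => NeZero.ne N (Nat.eq_zero_of_zero_dvd (h ▸ hd))))

section Maps

variable {ℓ : ℕ} [NeZero ℓ]

/-- shortcut instance -/
instance algebraHorX : Algebra (horX K N) (FX K N) := Algebra.ofSubsemiring (horX K N)

theorem alpha_jX : heckeAlphaBar K N ℓ (jX K N) = jX K (N * ℓ) :=
  Subtype.ext (coe_heckeAlphaBar (L := K) N ℓ (jX K N))

theorem alpha_mem_horX {x : FX K N} (hx : x ∈ horX K N) :
    heckeAlphaBar K N ℓ x ∈ horX K (N * ℓ) := by
  rw [mem_horX_iff, coe_heckeAlphaBar]
  exact mem_horX_iff.1 hx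

theorem alpha_mem_horX_iff {x : FX K N} :
    heckeAlphaBar K N ℓ x ∈ horX K (N * ℓ) ↔ x ∈ horX K N := by
  rw [mem_horX_iff, coe_heckeAlphaBar, mem_horX_iff]

theorem beta_mem_horX {x : FX K N} (hx : x ∈ horX K N) :
    heckeBetaBar K N ℓ x ∈ horX K (N * ℓ) := by
  rw [mem_horX_iff, coe_heckeBetaBar]
  exact mem_of_map_isIntegral (J K 1) (qExpand K ℓ) (horS K) (fun _ => horS_closed)
    (fun c => by rw [expand_algebraMap]; exact algebraMap_mem_horS c)
    (by rw [qExpand_J, mul_one]; exact J_mem_horS (NeZero.ne ℓ)) (mem_horX_iff.1 hx)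

theorem baseIncl_mem_horX {L : Type*} [Field L] [Algebra ℚ L] [Algebra K L] {x : FX K N}
    (hx : x ∈ horX K N) : H90.baseIncl K L _ x ∈ horX L N := by
  rw [mem_horX_iff, H90.coe_baseIncl]
  exact coeffMap_mem_horS (mem_horX_iff.1 hx)

variable {m q : ℕ} [NeZero m] [NeZero q]

theorem W_mem_horX (w : AL K m q) {x : FX K (m * q)} (hx : x ∈ horX K (m * q)) :
    w.W x ∈ horX K (m * q) := by
  refine horX_map (w.W : FX K (m * q) →+* FX K (m * q)) (horX K (m * q)) (fun _ => horX_closed)
    (fun c => ?_) ?_ hx
  · show w.W (algebraMap K _ c) ∈ _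
    rw [AlgEquiv.commutes]
    exact algebraMap_mem_horX c
  · show w.W (jX K (m * q)) ∈ _
    rw [← alpha_jX, w.alpha]
    exact beta_mem_horX jX_mem_horX

theorem W₂_mem_horX (w : AL K m q) (w₂ : AL2 K m q w) {x : FX K (m * q * q)}
    (hx : x ∈ horX K (m * q * q)) : w₂.W₂ x ∈ horX K (m * q * q) := by
  refine horX_map (w₂.W₂ : FX K (m * q * q) →+* FX K (m * q * q)) (horX K (m * q * q))
    (fun _ => horX_closed) (fun c => ?_) ?_ hx
  · show w₂.W₂ (algebraMap K _ c) ∈ _
    rw [AlgEquiv.commutes]
    exact algebraMap_mem_horX c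
  · show w₂.W₂ (jX K (m * q * q)) ∈ _
    rw [← alpha_jX, w₂.alpha]
    exact beta_mem_horX (W_mem_horX w jX_mem_horX)

/-- elements of `horX (Nℓ)` are integral over `horX N` -/
theorem isIntegral_horX {x : FX K (N * ℓ)} (hx : x ∈ horX K (N * ℓ)) :
    ((heckeAlphaBar K N ℓ : FX K N →+* FX K (N * ℓ)).comp
      (horX K N).subtype).IsIntegralElem x := by
  let f := (heckeAlphaBar K N ℓ : FX K N →+* FX K (N * ℓ)).comp (horX K N).subtype
  let _ : Algebra (horX K N) (FX K (N * ℓ)) := f.toAlgebra
  let C : Subring (FX K (N * ℓ)) := (integralClosure (horX K N) (FX K (N * ℓ))).toSubring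
  have h := horX_map (RingHom.id (FX K (N * ℓ))) C
    (fun x hx => mem_of_isIntegral_integralClosure hx) (fun c => ?_) ?_ hx
  · exact h
  · have h1 : algebraMap K (FX K (N * ℓ)) c = f ⟨algebraMap K _ c, algebraMap_mem_horX c⟩ :=
      ((heckeAlphaBar K N ℓ).commutes c).symm
    show algebraMap K (FX K (N * ℓ)) c ∈ C
    rw [h1]
    exact isIntegral_algebraMap
  · have h1 : f ⟨jX K N, jX_mem_horX⟩ = jX K (N * ℓ) := alpha_jX
    show jX K (N * ℓ) ∈ C
    rw [← h1]
    exact isIntegral_algebraMap

theorem normAlong_mem_horX {x : FX K (N * ℓ)} (hx : x ∈ horX K (N * ℓ)) :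
    normAlong (heckeAlphaBar K N ℓ) x ∈ horX K N := by
  let _ := algebraAlong (heckeAlphaBar K N ℓ)
  let f := (heckeAlphaBar K N ℓ : FX K N →+* FX K (N * ℓ)).comp (horX K N).subtype
  let _ : Algebra (horX K N) (FX K (N * ℓ)) := f.toAlgebra
  have : IsScalarTower (horX K N) (FX K N) (FX K (N * ℓ)) := IsScalarTower.of_algebraMap_eq
    (fun _ => rfl)
  have h1 : IsIntegral (horX K N) x := isIntegral_horX hx
  exact horX_closed (Algebra.isIntegral_norm (R := horX K N) (K := FX K N) h1)

theorem traceAlong_mem_horX {x : FX K (N * ℓ)} (hx : x ∈ horX K (N * ℓ)) :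
    H34.Two.traceAlong (heckeAlphaBar K N ℓ) x ∈ horX K N := by
  let _ := algebraAlong (heckeAlphaBar K N ℓ)
  let f := (heckeAlphaBar K N ℓ : FX K N →+* FX K (N * ℓ)).comp (horX K N).subtype
  let _ : Algebra (horX K N) (FX K (N * ℓ)) := f.toAlgebra
  have : IsScalarTower (horX K N) (FX K N) (FX K (N * ℓ)) := IsScalarTower.of_algebraMap_eq
    (fun _ => rfl)
  have h1 : IsIntegral (horX K N) x := isIntegral_horX hx
  have hfin : FiniteDimensional (FX K N) (FX K (N * ℓ)) :=
    H67.finiteAlong_alpha (degreeFact K) N ℓ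
  exact horX_closed (Algebra.isIntegral_trace (R := horX K N) (L := FX K N)
    (F := FX K (N * ℓ)) h1)

end Maps

end Fermat.Agent.H99

end
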