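import Mathlib
import Fermat.Agent.H24CuspData
import Fermat.Agent.H24Eps
import Fermat.Agent.H68TwoData
import Fermat.Agent.H99Hor
import Fermat.Agent.H18CmInv
import Fermat.Agent.H16Gs
import Fermat.Agent.H36InjS

/-!
# Instance of the cusp chart at level `q² m` (CARAYOL C5)
-/

set_option autoImplicit false
set_option linter.unusedSectionVars false

noncomputable section

open Polynomial ModularCurve Fermat.Agent.H83 Fermat.Agent.H83.CompSys

namespace Fermat.Agent.H24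

section ChartMap

variable {O F₁ F₂ : Type*} [CommRing O] [Field F₁] [Field F₂] [Algebra O F₁] [Algebra O F₂]

theorem map_evt (φ : F₁ →+* F₂) (hφ : ∀ c : O, φ (algebraMap O F₁ c) = algebraMap O F₂ c)
    (t : F₁) : φ.comp (H36.evt O t) = H36.evt O (φ t) := by
  apply Polynomial.ringHom_ext
  · intro a
    simp [H36.evt, hφ]
  · simp [H36.evt]

theorem map_mem_chart_iff (φ : F₁ →+* F₂)
    (hφ : ∀ c : O, φ (algebraMap O F₁ c) = algebraMap O F₂ c) {t x : F₁} :
    φ x ∈ H36.chart O (φ t) ↔ x ∈ H36.chart O t := by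
  rw [H36.mem_chart_iff, H36.mem_chart_iff, ← map_evt φ hφ]
  constructor
  · rintro ⟨p, hp, h⟩
    refine ⟨p, hp, φ.injective ?_⟩
    rw [map_zero, hom_eval₂]
    exact h
  · rintro ⟨p, hp, h⟩
    refine ⟨p, hp, ?_⟩
    rw [← hom_eval₂, h, map_zero]

theorem chart_closed {t : F₁} (x : F₁) (hx : IsIntegral (H36.chart O t) x) :
    x ∈ H36.chart O t := by
  let _ := H36.algT O t
  exact H99.mem_of_isIntegral_integralClosure hx

/-- membership of a subfield element in a chart can be tested in the bigger field -/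
theorem mem_chart_val_iff {K E : Type*} [Field K] [Field E] [Algebra K E]
    (F : IntermediateField K E) {t x : F} :
    (x : E) ∈ H36.chart K (t : E) ↔ x ∈ H36.chart K t :=
  map_mem_chart_iff (O := K) (F.val : F →+* E) (fun _ => rfl)

end ChartMap

section ChartInt

/-- elements of `chart O t` are integral over any subring containing `O` and `t` -/
theorem isIntegral_of_mem_chart {O F : Type*} [CommRing O] [Field F] [Algebra O F] {t x : F}
    (hx : x ∈ H36.chart O t) {R : Type*} [CommRing R] (g : R →+* F)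
    (hO : ∀ c : O, ∃ r : R, g r = algebraMap O F c) (ht : ∃ r : R, g r = t) :
    g.IsIntegralElem x := by
  have h0 : x ∈ (integralClosure g.range F).toSubring := by
    refine H36.chart_le_of_closed (O := O)
      (fun x hx => H99.mem_of_isIntegral_integralClosure hx) (fun c => ?_) ?_ hx
    · obtain ⟨r, hr⟩ := hO c
      exact isIntegral_algebraMap (R := g.range) (x := ⟨algebraMap O F c, ⟨r, hr⟩⟩)
    · obtain ⟨r, hr⟩ := ht
      exact isIntegral_algebraMap (R := g.range) (x := ⟨t, ⟨r, hr⟩⟩)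
  obtain ⟨f, hf, hfx⟩ : IsIntegral g.range x := h0
  have hs : Function.Surjective g.rangeRestrict := g.rangeRestrict_surjective
  obtain ⟨G, hG, -, hGm⟩ := lifts_and_natDegree_eq_and_monic
    ((lifts_iff_coeff_lifts _).2 fun n => by
      rw [Set.mem_range]
      exact hs _ : f ∈ lifts g.rangeRestrict) hf
  refine ⟨G, hGm, ?_⟩
  rw [← hG, eval₂_map] at hfx
  exact hfx

end ChartInt

section ResInt

variable {K k F E : Type*} [Field K] [Field k] [Field F] [Field E] [Algebra k E] [Algebra K F]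
  {q : ℕ} {ι : Type*} {S : CompSys F E q ι} {O : ValuationSubring K} {π : O →+* k}
  [Algebra O F] [IsScalarTower O K F]

theorem chart_le_V (cS : S.Consts O π) {t : F} {i : ι} (ht : t ∈ S.V i) {x : F}
    (hx : x ∈ H36.chart O t) : x ∈ S.V i := by
  refine H36.chart_le_of_closed (R := (S.V i).toSubring) ?_ (fun c => ?_) ht hx
  · intro y hy
    obtain ⟨z, hz⟩ := (IsIntegrallyClosed.isIntegral_iff (R := S.V i) (K := F)).1 hy
    rw [← hz]
    exact z.2
  · rw [H36.algebraMap_O]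
    exact cS.mem i c

/-- residues of elements integral over `O[t]` are integral over `k[t̄]` -/
theorem isIntegral_res (cS : S.Consts O π) {t : F} {i : ι} (ht : t ∈ S.V i) {x : F}
    (hx : x ∈ H36.chart O t) : IsIntegral (Algebra.adjoin k {S.res i t}) (S.res i x) := by
  have hxV := chart_le_V cS ht hx
  obtain ⟨p, hp, hpx⟩ := hx
  have h1 := H36.res_aeval cS ht (i := i)
  let ψ : O[X] →+* S.V i := (H36.evt O t).codRestrict (S.V i) (fun P => (h1 P).1)
  have h2 : ∀ P, (S.ρ i).comp ψ P = aeval (S.res i t) (P.map π) := by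
    intro P
    rw [← (h1 P).2, S.res_of_mem (h1 P).1]
    rfl
  let g : O[X] →+* Algebra.adjoin k {S.res i t} := ((S.ρ i).comp ψ).codRestrict _ (fun P => by
    rw [h2]
    exact Polynomial.aeval_mem_adjoin_singleton k _)
  refine ⟨p.map g, hp.map _, ?_⟩
  rw [eval₂_map]
  have h3 : (algebraMap (Algebra.adjoin k {S.res i t}) E).comp g = (S.ρ i).comp ψ := rfl
  rw [h3, S.res_of_mem hxV, ← hom_eval₂]
  have h4 : eval₂ ψ ⟨x, hxV⟩ p = 0 := by
    apply (S.V i).subtype_injective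
    rw [hom_eval₂, map_zero]
    exact hpx
  rw [h4, map_zero]

end ResInt

section Main

open H99 H66

variable {K : Type*} [Field K] [Algebra ℚ K] (A : ValuationSubring K) {k : Type*} [Field k]
  (π : A →+* k) {m q : ℕ} [NeZero m] [NeZero q] [hq : Fact q.Prime]
  {R : ResData k (LaurentSeries k) q} {T : TwoData R (FX K (m * q))}
  (S : ThreeData T (FX K (m * q * q))) (w : AL K m q)

variable (m) in
/-- lifting property near the cusps -/
def LiftInv : Prop := ∀ c ∈ H18.CmInv k m, ∃ f : FX K m,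
  IsIntegral (Algebra.adjoin K {(jqModC K)⁻¹}) (f : LaurentSeries K) ∧
    (f : LaurentSeries K) ∈ GR A π ∧ gres A π (f : LaurentSeries K) = c

/-- the relation between the abstract data and `q`-expansions -/
structure SeriesHyp : Prop where
  TV0 : ∀ x : FX K (m * q), x ∈ T.V 0 ↔ (x : LaurentSeries K) ∈ GR A π
  Tres0 : ∀ x : FX K (m * q), T.res 0 x = gres A π (x : LaurentSeries K)
  TW : ∀ x, T.W x = w.W x
  RΦ : ∀ x, R.Φ x = qExpand k q x
  RC : R.C = H18.Cm k m
  α_eq : ∀ x, S.α x = heckeAlphaBar K (m * q) q x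
  β_eq : ∀ x, S.β x = heckeBetaBar K (m * q) q x
  hor : ∀ x, x ∈ S.hor ↔ IsIntegral (Algebra.adjoin K {jX K (m * q * q)}) x
  cons : S.toCompSys.Consts A π
  w_pow_res : S.res 1 ((S.β (T.W (jX K (m * q))⁻¹) - S.α (jX K (m * q))⁻¹) ^ (q - 1) / (q : FX K (m * q * q))) =
    - (H1.thetaL k (jqModC k)⁻¹) ^ (q - 1)

variable {A π S w}

variable (S) in
/-- the second chart -/
def chart2 : Chart2 S where
  hor := H36.chart K (S.α (jX K (m * q)))⁻¹
  hor_closed := chart_closed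
  qinv_mem := by
    have h : ((q : FX K (m * q * q)))⁻¹ = algebraMap K _ ((q : K)⁻¹) := by
      rw [map_inv₀, map_natCast]
    rw [h]
    exact H36.algebraMap_mem_chart K _ _

namespace SeriesHyp

variable (H : SeriesHyp A π S w)

include H

theorem coe_α (x : FX K (m * q)) : ((S.α x : FX K (m * q * q)) : LaurentSeries K) = x := by
  rw [H.α_eq]
  exact coe_heckeAlphaBar (L := K) (m * q) q x

theorem coe_β (x : FX K (m * q)) : ((S.β x : FX K (m * q * q)) : LaurentSeries K) =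
    qExpand K q (x : LaurentSeries K) := by
  rw [H.β_eq]
  exact coe_heckeBetaBar (L := K) (m * q) q x

theorem W_alpha (x : FX K m) : T.W (heckeAlphaBar K m q x) = heckeBetaBar K m q x := by
  rw [H.TW, w.alpha]

theorem α_jX : S.α (jX K (m * q)) = jX K (m * q * q) := by
  rw [H.α_eq, alpha_jX]

theorem W_jX : T.W (jX K (m * q)) = heckeBetaBar K m q (jX K m) := by
  rw [← alpha_jX, H.W_alpha]

theorem α_alg (c : K) : S.α (algebraMap K _ c) = algebraMap K _ c := by
  rw [H.α_eq, AlgHom.commutes]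

theorem β_alg (c : K) : S.β (algebraMap K _ c) = algebraMap K _ c := by
  rw [H.β_eq, AlgHom.commutes]

theorem W_alg (c : K) : T.W (algebraMap K _ c) = algebraMap K _ c := by
  rw [H.TW, AlgEquiv.commutes]

theorem jX_TV (i : Fin 2) : jX K (m * q) ∈ T.V i := by
  fin_cases i
  · show jX K (m * q) ∈ T.V 0
    rw [H.TV0, coe_jX]
    exact J_mem_GR 1
  · show jX K (m * q) ∈ T.V 1
    rw [T.W_V, H.TV0, H.W_jX, coe_heckeBetaBar, coe_jX, qExpand_J]
    exact J_mem_GR _

theorem Tres0_jX : T.res 0 (jX K (m * q)) = jqModC k := by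
  rw [H.Tres0, coe_jX, gres_J, J_one]

theorem coe_W_jX : ((T.W (jX K (m * q)) : FX K (m * q)) : LaurentSeries K) = J K q := by
  rw [H.W_jX, coe_heckeBetaBar, coe_jX, qExpand_J, mul_one]

theorem Tres0_W_jX [CharP k q] : T.res 0 (T.W (jX K (m * q))) = jqModC k ^ q := by
  rw [H.Tres0, H.coe_W_jX, gres_J, H68.J_prime_eq_pow]

theorem qExpand_jqModC [CharP k q] : qExpand k q (jqModC k) = jqModC k ^ q := by
  rw [← H68.J_prime_eq_pow, J_eq]

theorem φ_j [CharP k q] : R.φ (jqModC k) = jqModC k := by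
  have h := R.pow_q (jqModC k)
  rw [H.RΦ, ← qExpand_jqModC (k := k) (q := q) H] at h
  exact ((qExpand k q).injective h).symm

theorem jqModC_mem_Cm : jqModC k ∈ H18.Cm k m :=
  H18.mem_Cm.2 ⟨jqModC_mem_full k m,
    isIntegral_algebraMap (R := Algebra.adjoin k {jqModC k})
      (x := ⟨jqModC k, Algebra.self_mem_adjoin_singleton k _⟩)⟩

theorem jData [CharP k q] (hϖ : Unif A π (q : A)) :
    H16.Ch.JData (O := A) T S.toCompSys S.α π (jX K (m * q)) (jqModC k) where
  red_eq_zero := hϖ.dvd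
  O_mem i a := H.cons.mem i a
  res_O i a := H.cons.res i a
  J_mem := H.jX_TV
  res_J := H.Tres0_jX
  res_WJ := by rw [T.W_res, H.Tres0_W_jX]
  φ_jb := H.φ_j
  transc := H42.transcendental_jqModC k
  jb_mem := by rw [H.RC]; exact H.jqModC_mem_Cm

theorem pre2 : H16.Ch.PreThree T (chart2 S).comp S.α S.β :=
  H16.Ch.PreThree.of_threeData S _ rfl (fun _ _ => rfl) rfl

theorem jData2 [CharP k q] (hϖ : Unif A π (q : A)) :
    H16.Ch.JData (O := A) T (chart2 S).comp S.α π (jX K (m * q)) (jqModC k) where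
  red_eq_zero := hϖ.dvd
  O_mem i a := H.cons.mem i a
  res_O i a := H.cons.res i a
  J_mem := H.jX_TV
  res_J := H.Tres0_jX
  res_WJ := by rw [T.W_res, H.Tres0_W_jX]
  φ_jb := H.φ_j
  transc := H42.transcendental_jqModC k
  jb_mem := by rw [H.RC]; exact H.jqModC_mem_Cm

/-- the chart at the cusps is an integral closure, and noetherian -/
theorem chart2_B [CharZero K] [IsAlgClosed k] [CharP k q] [IsDiscreteValuationRing A]
    (hϖ : Unif A π (q : A)) (hqA : Prime (q : A)) (hqm : ¬ q ∣ m) (hφX : R.φ R.X = R.X)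
    (hcard : Module.finrank (IntermediateField.adjoin K {jX K (m * q * q)}) (FX K (m * q * q)) =
      dedekindPsi (m * q * q)) (hJt : Transcendental K (jX K (m * q * q))) :
    (chart2 S).comp.B = H36.chart A (S.α (jX K (m * q)))⁻¹ ∧
      IsNoetherianRing (chart2 S).comp.B := by
  refine H.pre2.isNoetherianRing_B_chart (K := K) hφX (H.jData2 hϖ) hqA (m := m) ?_ hqm H.RC ?_ ?_ _
    (Or.inr rfl) rfl
  · rw [Ne, CharP.cast_eq_zero_iff k q]
    exact hqm
  · rw [H.α_jX]; exact hcard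
  · rw [H.α_jX]; exact hJt

theorem sres_j [CharP k q] (i : Fin 3) : ∃ n : ℕ, S.res i (S.α (jX K (m * q))) = jqModC k ^ n := by
  have h0 : i = 0 ∨ i = 1 ∨ i = 2 := by fin_cases i <;> simp
  rcases h0 with rfl | rfl | rfl
  · exact ⟨1, by rw [S.α_res0, H.Tres0_jX, pow_one]⟩
  · exact ⟨1, by rw [S.α_res1, H.Tres0_jX, pow_one]⟩
  · refine ⟨q * q, ?_⟩
    rw [S.α_res2, T.W_res, H.Tres0_W_jX, map_pow, H.RΦ, H.qExpand_jqModC, ← pow_mul]

theorem jqModC_ne : jqModC k ≠ 0 :=
  (HasLead.jqModC (A := k)).ne_zero one_ne_zero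

theorem sres_j_ne [CharP k q] (i : Fin 3) : S.res i (S.α (jX K (m * q))) ≠ 0 := by
  obtain ⟨n, hn⟩ := H.sres_j i
  rw [hn]
  exact pow_ne_zero _ H.jqModC_ne

theorem sres_y [CharP k q] (i : Fin 3) :
    ∃ n : ℕ, S.res i (S.α (jX K (m * q)))⁻¹ = (jqModC k)⁻¹ ^ n := by
  obtain ⟨n, hn⟩ := H.sres_j i
  exact ⟨n, by rw [res_inv (H.sres_j_ne i), hn, inv_pow]⟩

theorem y_V [CharP k q] (i : Fin 3) : (S.α (jX K (m * q)))⁻¹ ∈ S.V i := inv_mem (H.sres_j_ne i)

theorem α_jX_ne : S.α (jX K (m * q)) ≠ 0 := by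
  rw [Ne, map_eq_zero]
  intro h
  have h1 := congrArg (fun z : FX K (m * q) => (z : LaurentSeries K)) h
  have h2 : J K 1 = 0 := h1
  rw [J_one] at h2
  exact (HasLead.jqModC (A := K)).ne_zero one_ne_zero h2

theorem hor_iff (x : FX K (m * q * q)) : x ∈ S.hor ↔ x ∈ H36.chart K (S.α (jX K (m * q))) := by
  rw [H.hor, H36.mem_chart_iff_adjoin, H.α_jX]

theorem glue (x : FX K (m * q * q)) (hx : x ∈ S.hor) :
    ∃ N : ℕ, (S.α (jX K (m * q)))⁻¹ ^ N * x ∈ H36.chart K (S.α (jX K (m * q)))⁻¹ :=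
  H36.exists_inv_pow_mul_mem_chart H.α_jX_ne ((H.hor_iff x).1 hx)

theorem glue' (x : FX K (m * q * q)) (hx : x ∈ H36.chart K (S.α (jX K (m * q)))⁻¹) :
    ∃ N : ℕ, S.α (jX K (m * q)) ^ N * x ∈ S.hor := by
  obtain ⟨N, hN⟩ := H36.exists_inv_pow_mul_mem_chart (inv_ne_zero H.α_jX_ne) hx
  rw [inv_inv] at hN
  exact ⟨N, (H.hor_iff _).2 hN⟩

theorem r_mem [CharP k q] (hB : (chart2 S).comp.B = H36.chart A (S.α (jX K (m * q)))⁻¹)
    (i : Fin 3) (b : (chart2 S).comp.B) : (chart2 S).comp.r i b ∈ H18.CmInv k m := by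
  have hbV := (chart2 S).comp.B_le_V i b.2
  have hr : (chart2 S).comp.r i b = S.res i (b : FX K (m * q * q)) := (chart2 S).comp.r_apply i b
  rw [hr, H18.mem_CmInv]
  constructor
  · -- in the function field of level `m`
    obtain ⟨N, hN⟩ := H.glue' b ((chart2 S).comp.B_le_hor b.2)
    have hjV : ∀ i, S.α (jX K (m * q)) ∈ S.V i := fun i => res_mul_ne (H.sres_j_ne i)
    have hmem : S.α (jX K (m * q)) ^ N * (b : FX K (m * q * q)) ∈ S.B :=
      S.mem_B.2 ⟨hN, fun i => mul_mem (pow_mem (hjV i) N) ((chart2 S).comp.B_le_V i b.2)⟩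
    have h1 := S.r_mem i ⟨_, hmem⟩
    rw [S.r_apply, H.RC, H18.mem_Cm] at h1
    have h2 : S.res i (S.α (jX K (m * q)) ^ N * (b : FX K (m * q * q))) =
        S.res i (S.α (jX K (m * q))) ^ N * S.res i (b : FX K (m * q * q)) := by
      rw [res_mul (pow_mem (hjV i) N) hbV, res_pow (hjV i)]
    obtain ⟨n, hn⟩ := H.sres_j i
    rw [h2, hn] at h1
    have h3 : (jqModC k ^ n) ^ N ∈ modularFunctionFieldFullC k m :=
      pow_mem (pow_mem (jqModC_mem_full k m) _) _
    have h4 := div_mem h1.1 h3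
    rwa [mul_div_cancel_left₀] at h4
    exact pow_ne_zero _ (pow_ne_zero _ H.jqModC_ne)
  · have hb : (b : FX K (m * q * q)) ∈ H36.chart A (S.α (jX K (m * q)))⁻¹ := hB ▸ b.2
    have h1 := isIntegral_res H.cons (H.y_V i) hb
    obtain ⟨n, hn⟩ := H.sres_y i
    rw [hn] at h1
    refine H68.isIntegral_adjoin_trans h1 ?_
    exact isIntegral_algebraMap (R := Algebra.adjoin k {(jqModC k)⁻¹})
      (x := ⟨(jqModC k)⁻¹ ^ n, pow_mem (Algebra.self_mem_adjoin_singleton k _) _⟩)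

theorem frac (c : LaurentSeries k) (hc : c ∈ R.C) :
    ∃ a b : LaurentSeries k, a ∈ H18.CmInv k m ∧ b ∈ H18.CmInv k m ∧ b ≠ 0 ∧ c * b = a := by
  rw [H.RC, H18.mem_Cm, ← H36.mem_chart_iff_adjoin] at hc
  obtain ⟨N, hN⟩ := H36.exists_inv_pow_mul_mem_chart H.jqModC_ne hc.2
  rw [H36.mem_chart_iff_adjoin] at hN
  exact ⟨_, (jqModC k)⁻¹ ^ N, H18.mem_CmInv.2 ⟨mul_mem (pow_mem (inv_mem (jqModC_mem_full k m)) _)
    hc.1, hN⟩, pow_mem H18.inv_jqModC_mem_CmInv _, pow_ne_zero _ (inv_ne_zero H.jqModC_ne),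
    mul_comm _ _⟩

theorem lift (hL : LiftInv A π m) (hB : (chart2 S).comp.B = H36.chart A (S.α (jX K (m * q)))⁻¹) (c : LaurentSeries k) (hc : c ∈ H18.CmInv k m) :
    ∃ f : FX K (m * q), T.res 0 f = c ∧ f ∈ T.V 0 ∧ S.α f ∈ (chart2 S).comp.B ∧
      IsIntegral (Algebra.adjoin (chart2 S).comp.B {(S.β (T.W (jX K (m * q))))⁻¹} :
        Subalgebra (chart2 S).comp.B (FX K (m * q * q))) (S.β (T.W f)) := by
  obtain ⟨f, hf1, hf2, hf3⟩ := hL c hc
  have hfs : ((heckeAlphaBar K m q f : FX K (m * q)) : LaurentSeries K) = f :=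
    coe_heckeAlphaBar (L := K) m q f
  have hfV0 : heckeAlphaBar K m q f ∈ T.V 0 := by rw [H.TV0, hfs]; exact hf2
  have hfV1 : heckeAlphaBar K m q f ∈ T.V 1 := by
    rw [T.W_V, H.TV0, H.W_alpha, coe_heckeBetaBar]
    exact expand_mem q hf2
  -- integrality over `K[1/j]`
  have hfint : heckeAlphaBar K m q f ∈ H36.chart K (jX K (m * q))⁻¹ := by
    rw [← mem_chart_val_iff, hfs, H36.mem_chart_iff_adjoin]
    have : (((jX K (m * q))⁻¹ : FX K (m * q)) : LaurentSeries K) = (jqModC K)⁻¹ := by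
      rw [← J_one]; rfl
    rw [this]
    exact hf1
  have hαhor : S.α (heckeAlphaBar K m q f) ∈ H36.chart K (S.α (jX K (m * q)))⁻¹ := by
    rw [← map_inv₀]
    exact (map_mem_chart_iff S.α H.α_alg).2 hfint
  have hαB : S.α (heckeAlphaBar K m q f) ∈ (chart2 S).comp.B := by
    rw [(chart2 S).comp.mem_B]
    refine ⟨hαhor, fun i => ?_⟩
    have h0 : i = 0 ∨ i = 1 ∨ i = 2 := by fin_cases i <;> simp
    rcases h0 with rfl | rfl | rfl
    · exact (S.α_V0 _).2 hfV0
    · exact (S.α_V1 _).2 hfV0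
    · exact (S.α_V2 _).2 hfV1
  refine ⟨heckeAlphaBar K m q f, by rw [H.Tres0, hfs, hf3], hfV0, hαB, ?_⟩
  -- integrality over `A[1/j]`
  have h1 : heckeAlphaBar K m q f ∈ H36.chart A (jX K (m * q))⁻¹ := by
    rw [← map_mem_chart_iff (O := A) S.α (fun c => H.α_alg (c : K)), map_inv₀, ← hB]
    exact hαB
  have h2 : S.β (T.W (heckeAlphaBar K m q f)) ∈
      H36.chart A (S.β (T.W (jX K (m * q))))⁻¹ := by
    have h3 := (map_mem_chart_iff (O := A) (S.β.comp (T.W : FX K (m * q) →+* FX K (m * q)))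
      (fun c => by
        show S.β (T.W (algebraMap K _ (c : K))) = algebraMap K _ (c : K)
        rw [H.W_alg, H.β_alg])).2 h1
    rw [map_inv₀] at h3
    exact h3
  refine isIntegral_of_mem_chart h2 (algebraMap _ _) (fun c => ?_) ?_
  · have hc' : algebraMap A (FX K (m * q * q)) c ∈ (chart2 S).comp.B := by
      rw [hB]; exact H36.algebraMap_mem_chart A _ c
    exact ⟨⟨algebraMap A (FX K (m * q * q)) c,
      (Algebra.adjoin (chart2 S).comp.B {(S.β (T.W (jX K (m * q))))⁻¹}).algebraMap_mem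
        ⟨_, hc'⟩⟩, rfl⟩
  · exact ⟨⟨_, Algebra.subset_adjoin (Set.mem_singleton _)⟩, rfl⟩

theorem rel : Rel q (jX K (m * q)) (T.W (jX K (m * q))) := by
  apply Rel.of_map (f := ((FX K (m * q)).val : FX K (m * q) →+* LaurentSeries K))
    (RingHom.injective _)
  show Rel q (J K 1) ((T.W (jX K (m * q)) : FX K (m * q)) : LaurentSeries K)
  rw [H.coe_W_jX, J_one, J_eq]
  exact rel_j q K

theorem αWJ : S.α (T.W (jX K (m * q))) = S.β (jX K (m * q)) := by
  apply Subtype.ext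
  rw [H.coe_α, H.coe_β, H.coe_W_jX, coe_jX, qExpand_J, mul_one]

theorem eps [CharP k q] : ∃ P Q : k[X], P.eval 0 ≠ 0 ∧ Q.eval 0 ≠ 0 ∧
    S.res 1 (((S.β (T.W (jX K (m * q))))⁻¹ - (S.α (jX K (m * q)))⁻¹) ^ (q - 1) /
      (q : FX K (m * q * q))) * aeval (jqModC k)⁻¹ Q =
      (jqModC k)⁻¹ ^ (q - 1) * aeval (jqModC k)⁻¹ P := by
  obtain ⟨P, Q, hP, hQ, h⟩ := exists_eps q k
  refine ⟨-P, Q, by rw [eval_neg]; exact neg_ne_zero.2 hP, hQ, ?_⟩
  have h1 := H.w_pow_res
  rw [map_inv₀, map_inv₀, map_inv₀] at h1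
  have h2 : ∀ P : k[X], aeval (jqModC k)⁻¹ P = P.eval₂ HahnSeries.C (jqModC k)⁻¹ := by
    intro P
    rw [aeval_def]
    congr 1
    refine RingHom.ext fun a => ?_
    rw [algebraMap_laurentSeries_eq_single]
    rfl
  rw [h1, map_neg, h2, h2, neg_mul, mul_neg, h]

variable (A π) in
/-- **The cusp chart of `X_0(q²m)`.** -/
def cuspData [CharP k q] [IsAlgClosed k] (hπ : Function.Surjective π) (hqm : ¬ q ∣ m)
    (hL : LiftInv A π m) (hB : (chart2 S).comp.B = H36.chart A (S.α (jX K (m * q)))⁻¹)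
    (hN : IsNoetherianRing (chart2 S).comp.B) : CuspData S where
  toChart2 := chart2 S
  prime := Fact.out
  J := jX K (m * q)
  rel := H.rel
  αWJ := H.αWJ
  Y := (jqModC k)⁻¹
  Y_ne := inv_ne_zero H.jqModC_ne
  res_J := by rw [H.Tres0_jX, inv_inv]
  res_WJ := by rw [H.Tres0_W_jX, inv_pow, inv_inv]
  Φ_Y := by rw [H.RΦ, map_inv₀, H.qExpand_jqModC, inv_pow]
  y_hor := H36.self_mem_chart K _
  J_hor := (H.hor_iff _).2 (H36.self_mem_chart K _)
  noeth := hN
  const a := by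
    obtain ⟨o, rfl⟩ := hπ a
    exact ⟨algebraMap K _ (o : K), H.cons.hor _, H36.algebraMap_mem_chart K _ _, fun i =>
      ⟨H.cons.mem i o, H.cons.res i o⟩⟩
  eps := H.eps
  C := H18.CmInv k m
  dedekind := H18.isDedekindDomain_CmInv (by rw [Ne, CharP.cast_eq_zero_iff k q]; exact hqm)
  C_int c hc := (H18.mem_CmInv.1 hc).2
  res_surj := H18.res_surj_CmInv (by rw [Ne, CharP.cast_eq_zero_iff k q]; exact hqm)
  frac := H.frac
  r_mem := H.r_mem hB
  lift := H.lift hL hB
  glue := H.glue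
  glue' := H.glue'

section Facts

variable [CharP k q] [IsAlgClosed k] (hπ : Function.Surjective π) (hqm : ¬ q ∣ m)
    (hL : LiftInv A π m) (hB : (chart2 S).comp.B = H36.chart A (S.α (jX K (m * q)))⁻¹)
    (hN : IsNoetherianRing (chart2 S).comp.B)

theorem sys_y : (H.cuspData A π hπ hqm hL hB hN).sys.y = (S.α (jX K (m * q)))⁻¹ := rfl

theorem sys_V (i : Fin 3) : (H.cuspData A π hπ hqm hL hB hN).sys.V i = S.V i := rfl

theorem sys_res (i : Fin 3) (x : FX K (m * q * q)) :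
    (H.cuspData A π hπ hqm hL hB hN).sys.res i x = S.res i x := rfl

theorem sys_hor (x : FX K (m * q * q)) : x ∈ (H.cuspData A π hπ hqm hL hB hN).sys.hor ↔
    x ∈ H36.chart K (S.α (jX K (m * q)))⁻¹ := Iff.rfl

theorem sys_B (x : FX K (m * q * q)) (hx : x ∈ (H.cuspData A π hπ hqm hL hB hN).sys.B) :
    x ∈ H36.chart A (S.α (jX K (m * q)))⁻¹ := hB ▸ hx

theorem sys_consts : (H.cuspData A π hπ hqm hL hB hN).sys.Consts A π where
  hor _ := H36.algebraMap_mem_chart K _ _
  mem i o := H.cons.mem i o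
  res i o := H.cons.res i o

end Facts

end SeriesHyp

end Main

end Fermat.Agent.H24
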