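import Fermat.Agent.H99Three6

/-!
# The residue of `(f(q² z) - f(z))^(q-1) / q` on the middle component (CARAYOL C4/C5)
-/

set_option autoImplicit false
set_option linter.unusedSectionVars false

noncomputable section

open ModularCurve Polynomial IntermediateField AlgebraicCurve Module Fermat.Agent.H60
  Fermat.Agent.H66 Fermat.Agent.H42 Fermat.Agent.H99

namespace Fermat.Agent.H67

variable {K K' k : Type*} [Field K] [Field K'] [Algebra K K'] [Field k]
  {A : ValuationSubring K} {π : A →+* k} {A' : ValuationSubring K'} {π' : A' →+* k} {q : ℕ}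
variable [Algebra ℚ K] [Algebra ℚ K'] [CharZero K'] [hL : Fact (HasRoots K')]
variable {m : ℕ} [NeZero m] [NeZero q] (hq : q.Prime) (hqm : ¬ q ∣ m)
variable {w : AL K m q} (w' : AL K' m q) (w₂ : AL2 K m q w)
variable (D : RamData A π A' π' q)

/-- the expansion of `f(q² z) - f(z)` at the middle component, `f` of level `mq` with
`A`-integral expansion `y` -/
theorem emb_sub {x : FX K (m * q)} {y : LaurentSeries A}
    (hy : (x : LaurentSeries K) = coeffMap A.subtype y) : ∃ Y : LaurentSeries A',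
    emb3 hq hqm w' w₂ D 1
      (heckeBetaBar K (m * q) q (w.W x) - heckeAlphaBar K (m * q) q x) =
      algebraMap K' (LaurentSeries K') (D.ϖ : K') * coeffMap A'.subtype Y ∧
    coeffMap π' Y = H61.theta (coeffMap π y) := by
  obtain ⟨Y, hY, hY'⟩ := D.exists_twist_sub (coeffMap D.incl y)
  have e1 : coeffMap π' (coeffMap D.incl y) = coeffMap π y := by
    ext n
    simp only [coeffMap_coeff]
    exact D.map _
  rw [e1] at hY'
  refine ⟨Y, ?_, hY'⟩
  have h1 : coeffMap (algebraMap K K') (x : LaurentSeries K) =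
      coeffMap A'.subtype (coeffMap D.incl y) := by
    rw [hy]
    ext n
    simp only [coeffMap_coeff]
    rfl
  have h2 : Units.map (A'.subtype : A' →* K') D.u = D.ζ := Units.ext D.coe_u
  rw [map_sub, emb3_one_beta, emb3_one_alpha, w.invol, h1, ← h2,
    ← coeffMap_twist A'.subtype D.u, ← map_sub, hY, map_mul, coeffMap_single_eq]

variable [CharP k q] [CharZero K]

/-- the residue of `(f(q² z) - f(z))^(q-1) / q` on the middle component is `-(θ f̄)^(q-1)` -/
theorem eps_emb {x : FX K (m * q)} {y : LaurentSeries A}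
    (hy : (x : LaurentSeries K) = coeffMap A.subtype y) :
    emb3 hq hqm w' w₂ D 1 ((heckeBetaBar K (m * q) q (w.W x) - heckeAlphaBar K (m * q) q x) ^
      (q - 1) / (q : FX K (m * q * q))) ∈ GR A' π' ∧
    gres A' π' (emb3 hq hqm w' w₂ D 1
      ((heckeBetaBar K (m * q) q (w.W x) - heckeAlphaBar K (m * q) q x) ^
        (q - 1) / (q : FX K (m * q * q)))) = - H61.theta (coeffMap π y) ^ (q - 1) := by
  obtain ⟨Y, hY, hY'⟩ := emb_sub hq hqm w' w₂ D hy
  obtain ⟨v, hv, hv'⟩ := D.exists_pow_eq hq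
  have hq0 : (q : LaurentSeries K') ≠ 0 := by
    rw [← map_natCast (algebraMap K' (LaurentSeries K')), ne_eq, map_eq_zero]
    exact Nat.cast_ne_zero.mpr (NeZero.ne q)
  have h1 : ((D.ϖ : A') : K') ^ (q - 1) = (q : K') * (v : K') := by
    have := congrArg Subtype.val hv'
    simpa using this
  have h2 : emb3 hq hqm w' w₂ D 1
      ((heckeBetaBar K (m * q) q (w.W x) - heckeAlphaBar K (m * q) q x) ^ (q - 1) /
        (q : FX K (m * q * q))) =
      algebraMap K' (LaurentSeries K') (v : K') * coeffMap A'.subtype Y ^ (q - 1) := by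
    rw [map_div₀, map_pow, hY, mul_pow, ← map_pow (algebraMap K' (LaurentSeries K')), h1, map_mul,
      map_natCast, emb3_natCast, mul_assoc, mul_div_cancel_left₀ _ hq0]
  rw [h2]
  refine ⟨mul_mem (const_mem v) (pow_mem (int_mem Y) _), ?_⟩
  rw [gres_mul (const_mem v) (pow_mem (int_mem Y) _), gres_const, gres_pow (int_mem Y), gres_int,
    hv, hY', map_neg, map_one, neg_one_mul]

/-- the same for `threeSys` -/
theorem eps_res {x : FX K (m * q)} {y : LaurentSeries A}
    (hy : (x : LaurentSeries K) = coeffMap A.subtype y) :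
    (heckeBetaBar K (m * q) q (w.W x) - heckeAlphaBar K (m * q) q x) ^
      (q - 1) / (q : FX K (m * q * q)) ∈ (threeSys hq hqm w' w₂ D).V 1 ∧
    (threeSys hq hqm w' w₂ D).res 1
      ((heckeBetaBar K (m * q) q (w.W x) - heckeAlphaBar K (m * q) q x) ^
        (q - 1) / (q : FX K (m * q * q))) = - H61.theta (coeffMap π y) ^ (q - 1) := by
  rw [threeSys_res]
  exact eps_emb hq hqm w' w₂ D hy

/-- the same for functions with integral expansions -/
theorem eps_res_int {x : FX K (m * q)} {X₀ : LaurentSeries ℤ}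
    (hx : (x : LaurentSeries K) = coeffMap (Int.castRingHom K) X₀) :
    (heckeBetaBar K (m * q) q (w.W x) - heckeAlphaBar K (m * q) q x) ^
      (q - 1) / (q : FX K (m * q * q)) ∈ (threeSys hq hqm w' w₂ D).V 1 ∧
    (threeSys hq hqm w' w₂ D).res 1
      ((heckeBetaBar K (m * q) q (w.W x) - heckeAlphaBar K (m * q) q x) ^
        (q - 1) / (q : FX K (m * q * q))) =
          - H61.theta (coeffMap (Int.castRingHom k) X₀) ^ (q - 1) := by
  have h := eps_res hq hqm w' w₂ D (x := x) (y := coeffMap (Int.castRingHom A) X₀)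
    (by rw [hx, coeffMap_int_eq A A.subtype])
  rw [coeffMap_int_eq A π] at h
  exact h

/-- the series `1/j` over `ℤ` -/
theorem exists_inv_j : ∃ Y₀ : LaurentSeries ℤ, jqModC ℤ * Y₀ = 1 := by
  have hu : IsUnit (jqModC ℤ) := by
    have h1 : jqModC ℤ = HahnSeries.single (-1 : ℤ) (1 : ℤ) *
        HahnSeries.ofPowerSeries ℤ ℤ (jNum.map (Int.castRingHom ℤ)) := rfl
    rw [h1]
    refine IsUnit.mul ?_ ?_
    · refine .of_mul_eq_one (HahnSeries.single (1 : ℤ) (1 : ℤ)) ?_
      rw [HahnSeries.single_mul_single]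
      simp
    · apply IsUnit.map
      rw [PowerSeries.isUnit_iff_constantCoeff]
      have : PowerSeries.constantCoeff (jNum.map (Int.castRingHom ℤ)) = 1 := by
        rw [← PowerSeries.coeff_zero_eq_constantCoeff_apply, PowerSeries.coeff_map]
        simp [constantCoeff_jNum]
      rw [this]
      exact isUnit_one
  obtain ⟨v, hv⟩ := hu
  exact ⟨((v⁻¹ : (LaurentSeries ℤ)ˣ) : LaurentSeries ℤ), by rw [← hv, Units.mul_inv]⟩

theorem inv_j_eq {Y₀ : LaurentSeries ℤ} (h : jqModC ℤ * Y₀ = 1) (R : Type*) [Field R] :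
    (jqModC R)⁻¹ = coeffMap (Int.castRingHom R) Y₀ := by
  apply inv_eq_of_mul_eq_one_right
  rw [← coeffMap_jqModC (Int.castRingHom R), ← map_mul, h, map_one]

/-- the form used at the cusps: `f = 1/j` -/
theorem eps_inv_j {Jf : FX K (m * q)} (hJ : (Jf : LaurentSeries K) = jqModC K) :
    ((heckeBetaBar K (m * q) q (w.W Jf))⁻¹ - (heckeAlphaBar K (m * q) q Jf)⁻¹) ^
      (q - 1) / (q : FX K (m * q * q)) ∈ (threeSys hq hqm w' w₂ D).V 1 ∧
    (threeSys hq hqm w' w₂ D).res 1
      (((heckeBetaBar K (m * q) q (w.W Jf))⁻¹ - (heckeAlphaBar K (m * q) q Jf)⁻¹) ^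
        (q - 1) / (q : FX K (m * q * q))) = - H61.theta ((jqModC k)⁻¹) ^ (q - 1) := by
  obtain ⟨Y₀, hY₀⟩ := exists_inv_j
  have h := eps_res_int hq hqm w' w₂ D (x := Jf⁻¹) (X₀ := Y₀) (by
    rw [← inv_j_eq hY₀ K]
    push_cast
    rw [hJ])
  rw [← inv_j_eq hY₀ k, map_inv₀, map_inv₀, map_inv₀] at h
  exact h

end Fermat.Agent.H67

end
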