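import Mathlib

/-!
# Valuation subrings of number fields are discrete valuation rings
-/

set_option autoImplicit false
set_option linter.unusedSectionVars false

namespace Fermat.Agent.H58

open NumberField IsDedekindDomain IsDedekindDomain.HeightOneSpectrum

theorem isDVR_atPrime {R K : Type*} [CommRing R] [IsDedekindDomain R] [Field K] [Algebra R K]
    [IsFractionRing R K] (v : HeightOneSpectrum R) :
    IsDiscreteValuationRing (valuationSubringAtPrime K v) := by
  have hloc : IsLocalization.AtPrime (valuationSubringAtPrime K v) v.asIdeal :=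
    inferInstanceAs (IsLocalization v.asIdeal.primeCompl (valuationSubringAtPrime K v))
  exact IsLocalization.AtPrime.isDiscreteValuationRing_of_dedekind_domain R
    v.ne_bot (valuationSubringAtPrime K v)

section

variable {L : Type*} [Field L] [NumberField L] (V : ValuationSubring L)

theorem ringOfIntegers_mem (a : 𝓞 L) : (algebraMap (𝓞 L) L a) ∈ V := by
  have h1 : IsIntegral ℤ (algebraMap (𝓞 L) L a) := a.2
  have h2 : IsIntegral V (algebraMap (𝓞 L) L a) := h1.tower_top
  obtain ⟨b, hb⟩ := IsIntegrallyClosed.isIntegral_iff.mp h2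
  rw [← hb]
  exact b.2

/-- the inclusion of the ring of integers -/
def intToVal : 𝓞 L →+* V := (algebraMap (𝓞 L) L).codRestrict V.toSubring (ringOfIntegers_mem V)

theorem coe_intToVal (a : 𝓞 L) : ((intToVal V a : V) : L) = algebraMap (𝓞 L) L a := rfl

/-- **Valuation subrings of number fields are discrete.** -/
theorem isDVR_of_ne_top (hV : V ≠ ⊤) : IsDiscreteValuationRing V := by
  let P : Ideal (𝓞 L) := (IsLocalRing.maximalIdeal V).comap (intToVal V)
  have hPp : P.IsPrime := Ideal.IsPrime.comap _
  have hmemP : ∀ a : 𝓞 L, a ∉ P → (algebraMap (𝓞 L) L a)⁻¹ ∈ V := by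
    intro a ha
    have h1 : IsUnit (intToVal V a) := by
      by_contra h
      exact ha (Ideal.mem_comap.mpr ((IsLocalRing.mem_maximalIdeal _).mpr h))
    obtain ⟨u, hu⟩ := h1
    have h2 : (algebraMap (𝓞 L) L a) * ((u⁻¹ : Vˣ) : V) = 1 := by
      have := congrArg (fun z : V => (z : L)) u.mul_inv
      rw [hu] at this
      exact this
    have h3 : (algebraMap (𝓞 L) L a)⁻¹ = ((u⁻¹ : Vˣ) : V) := (eq_inv_of_mul_eq_one_right h2).symm
    rw [h3]
    exact ((u⁻¹ : Vˣ) : V).2
  have hP : P ≠ ⊥ := by
    intro hP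
    apply hV
    rw [eq_top_iff]
    intro x _
    obtain ⟨a, b, hb, rfl⟩ := IsFractionRing.div_surjective (A := 𝓞 L) x
    rw [div_eq_mul_inv]
    refine V.mul_mem _ _ (ringOfIntegers_mem V a) (hmemP b ?_)
    rw [hP, Ideal.mem_bot]
    exact nonZeroDivisors.ne_zero hb
  let v : HeightOneSpectrum (𝓞 L) := ⟨P, hPp, hP⟩
  have hle : valuationSubringAtPrime L v ≤ V := by
    rintro x ⟨a, s, hs, rfl⟩
    exact V.mul_mem _ _ (ringOfIntegers_mem V a) (hmemP s hs)
  have heq : valuationSubringAtPrime L v = V := ValuationSubring.eq_of_le_of_ne_top _ hle hV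
  rw [← heq]
  exact isDVR_atPrime v

/-- The restriction of a nontrivial place to a number field is discrete. -/
theorem isDVR_comap {Ω : Type*} [Field Ω] [Algebra L Ω] (A : ValuationSubring Ω) {p : ℕ}
    (hpA : ((p : Ω))⁻¹ ∉ A) :
    IsDiscreteValuationRing (A.comap (algebraMap L Ω)) := by
  apply isDVR_of_ne_top
  intro h
  have h1 : ((p : L))⁻¹ ∈ A.comap (algebraMap L Ω) := by rw [h]; trivial
  rw [ValuationSubring.mem_comap, map_inv₀, map_natCast] at h1
  exact hpA h1

end

end Fermat.Agent.H58
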