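import Mathlib

/-! Weight one: the quasi-elliptic zeta function in multiplicative form, its quasi-periodicity and
its transformation under `τ ↦ -1/τ`. -/

set_option autoImplicit false

namespace Fermat.Agent.H58

open Complex Filter Topology

noncomputable section

/-- `n`-th term of the multiplicative zeta series. -/
def zt (q w : ℂ) (n : ℕ) : ℂ :=
  q ^ (n + 1) / (w - q ^ (n + 1)) - q ^ (n + 1) * w / (1 - q ^ (n + 1) * w)

/-- Multiplicative zeta function (normalised by `π I`). -/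
def Zw (q w : ℂ) : ℂ := (w + 1) / (w - 1) + 2 * ∑' n, zt q w n

theorem zt_bound {q w : ℂ} {ρ : ℝ} (hρ : 1 < ρ) (hq1 : ‖q‖ ≤ 1) (h1 : ρ * ‖q‖ ≤ ‖w‖)
    (h2 : ρ * (‖q‖ * ‖w‖) ≤ 1) (hw : w ≠ 0) (n : ℕ) :
    ‖zt q w n‖ ≤ 2 / (ρ - 1) * ‖q‖ ^ n := by
  have hρ0 : 0 < ρ - 1 := by linarith
  have hq0 : 0 ≤ ‖q‖ := norm_nonneg q
  have hwpos : 0 < ‖w‖ := norm_pos_iff.2 hw
  have hqn : ‖q‖ ^ (n + 1) ≤ ‖q‖ := by
    calc ‖q‖ ^ (n + 1) = ‖q‖ ^ n * ‖q‖ := pow_succ _ _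
      _ ≤ 1 * ‖q‖ := by
        apply mul_le_mul_of_nonneg_right _ hq0
        exact pow_le_one₀ hq0 hq1
      _ = ‖q‖ := one_mul _
  have e1 : ‖q ^ (n + 1) / (w - q ^ (n + 1))‖ ≤ 1 / (ρ - 1) * ‖q‖ ^ n := by
    rw [norm_div, norm_pow]
    have hd : (ρ - 1) * ‖q‖ ≤ ‖w - q ^ (n + 1)‖ := by
      have := norm_sub_norm_le w (q ^ (n + 1))
      rw [norm_pow] at this
      linarith
    rcases eq_or_lt_of_le hq0 with h0 | h0
    · rw [← h0]
      simp only [ne_eq, Nat.add_eq_zero_iff, one_ne_zero, and_false, not_false_eq_true, zero_pow,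
        zero_div]
      positivity
    · rw [div_le_iff₀ (lt_of_lt_of_le (by positivity) hd)]
      calc ‖q‖ ^ (n + 1) = 1 / (ρ - 1) * ‖q‖ ^ n * ((ρ - 1) * ‖q‖) := by
            field_simp
            ring
        _ ≤ _ := by gcongr
  have e2 : ‖q ^ (n + 1) * w / (1 - q ^ (n + 1) * w)‖ ≤ 1 / (ρ - 1) * ‖q‖ ^ n := by
    rw [norm_div, norm_mul, norm_pow]
    have hx : ‖q‖ * ‖w‖ ≤ 1 / ρ := by
      rw [le_div_iff₀ (by linarith)]; linarith
    have hd : 1 - 1 / ρ ≤ ‖1 - q ^ (n + 1) * w‖ := by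
      have := norm_sub_norm_le (1 : ℂ) (q ^ (n + 1) * w)
      rw [norm_mul, norm_pow, norm_one] at this
      have h3 : ‖q‖ ^ (n + 1) * ‖w‖ ≤ ‖q‖ * ‖w‖ := by gcongr
      linarith
    have hpos : 0 < 1 - 1 / ρ := by
      rw [sub_pos, div_lt_one (by linarith)]; exact hρ
    rw [div_le_iff₀ (lt_of_lt_of_le hpos hd)]
    calc ‖q‖ ^ (n + 1) * ‖w‖ = ‖q‖ ^ n * (‖q‖ * ‖w‖) := by ring
      _ ≤ ‖q‖ ^ n * (1 / ρ) := by gcongr
      _ = 1 / (ρ - 1) * ‖q‖ ^ n * (1 - 1 / ρ) := by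
          have : ρ ≠ 0 := by linarith
          have : ρ - 1 ≠ 0 := by linarith
          field_simp
      _ ≤ _ := by gcongr
  calc ‖zt q w n‖ ≤ _ := norm_sub_le _ _
    _ ≤ 1 / (ρ - 1) * ‖q‖ ^ n + 1 / (ρ - 1) * ‖q‖ ^ n := add_le_add e1 e2
    _ = _ := by ring

theorem summable_zt {q w : ℂ} (hq : ‖q‖ < 1) (hw : w ≠ 0) : Summable (zt q w) := by
  -- comparison for large n
  have hwpos : 0 < ‖w‖ := norm_pos_iff.2 hw
  have hlim : Tendsto (fun n : ℕ => ‖q‖ ^ n) atTop (𝓝 0) :=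
    tendsto_pow_atTop_nhds_zero_of_lt_one (norm_nonneg q) hq
  have h1 : ∀ᶠ n in atTop, ‖q‖ ^ n < ‖w‖ / 2 := hlim.eventually_lt_const (by positivity)
  have h2 : ∀ᶠ n in atTop, ‖q‖ ^ n < 1 / (2 * ‖w‖) := hlim.eventually_lt_const (by positivity)
  refine Summable.of_norm_bounded_eventually_nat
    (g := fun n => (2 / ‖w‖ + 2 * ‖w‖) * ‖q‖ ^ (n + 1)) ?_ ?_
  · exact (((summable_geometric_of_lt_one (norm_nonneg q) hq).mul_right ‖q‖).mul_left _).congr
      fun n => by rw [pow_succ]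
  · have h1' := (tendsto_add_atTop_nat 1).eventually h1
    have h2' := (tendsto_add_atTop_nat 1).eventually h2
    filter_upwards [h1', h2'] with n hn1 hn2
    have e1 : ‖q ^ (n + 1) / (w - q ^ (n + 1))‖ ≤ 2 / ‖w‖ * ‖q‖ ^ (n + 1) := by
      rw [norm_div, norm_pow]
      have hd : ‖w‖ / 2 ≤ ‖w - q ^ (n + 1)‖ := by
        have := norm_sub_norm_le w (q ^ (n + 1))
        rw [norm_pow] at this
        linarith
      rw [div_le_iff₀ (lt_of_lt_of_le (by positivity) hd)]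
      calc ‖q‖ ^ (n + 1) = 2 / ‖w‖ * ‖q‖ ^ (n + 1) * (‖w‖ / 2) := by field_simp
        _ ≤ _ := by gcongr
    have e2 : ‖q ^ (n + 1) * w / (1 - q ^ (n + 1) * w)‖ ≤ 2 * ‖w‖ * ‖q‖ ^ (n + 1) := by
      rw [norm_div, norm_mul, norm_pow]
      have hx : ‖q‖ ^ (n + 1) * ‖w‖ ≤ 1 / 2 := by
        calc ‖q‖ ^ (n + 1) * ‖w‖ ≤ 1 / (2 * ‖w‖) * ‖w‖ := by gcongr
          _ = 1 / 2 := by field_simp
      have hd : 1 / 2 ≤ ‖1 - q ^ (n + 1) * w‖ := by
        have := norm_sub_norm_le (1 : ℂ) (q ^ (n + 1) * w)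
        rw [norm_mul, norm_pow, norm_one] at this
        linarith
      rw [div_le_iff₀ (lt_of_lt_of_le (by norm_num) hd)]
      calc ‖q‖ ^ (n + 1) * ‖w‖ = 2 * ‖w‖ * ‖q‖ ^ (n + 1) * (1 / 2) := by ring
        _ ≤ _ := by gcongr
    calc ‖zt q w n‖ ≤ _ := norm_sub_le _ _
      _ ≤ 2 / ‖w‖ * ‖q‖ ^ (n + 1) + 2 * ‖w‖ * ‖q‖ ^ (n + 1) := add_le_add e1 e2
      _ = _ := by ring

theorem summable_zt_left {q w : ℂ} (hq : ‖q‖ < 1) (hw : w ≠ 0) :
    Summable (fun n : ℕ => q ^ (n + 1) / (w - q ^ (n + 1))) := by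
  have hwpos : 0 < ‖w‖ := norm_pos_iff.2 hw
  have hlim : Tendsto (fun n : ℕ => ‖q‖ ^ n) atTop (𝓝 0) :=
    tendsto_pow_atTop_nhds_zero_of_lt_one (norm_nonneg q) hq
  have h1 : ∀ᶠ n in atTop, ‖q‖ ^ n < ‖w‖ / 2 := hlim.eventually_lt_const (by positivity)
  refine Summable.of_norm_bounded_eventually_nat
    (g := fun n => (2 / ‖w‖) * ‖q‖ ^ (n + 1)) ?_ ?_
  · exact (((summable_geometric_of_lt_one (norm_nonneg q) hq).mul_right ‖q‖).mul_left _).congr
      fun n => by rw [pow_succ]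
  · have h1' := (tendsto_add_atTop_nat 1).eventually h1
    filter_upwards [h1'] with n hn1
    rw [norm_div, norm_pow]
    have hd : ‖w‖ / 2 ≤ ‖w - q ^ (n + 1)‖ := by
      have := norm_sub_norm_le w (q ^ (n + 1))
      rw [norm_pow] at this
      linarith
    rw [div_le_iff₀ (lt_of_lt_of_le (by positivity) hd)]
    calc ‖q‖ ^ (n + 1) = 2 / ‖w‖ * ‖q‖ ^ (n + 1) * (‖w‖ / 2) := by field_simp
      _ ≤ _ := by gcongr

theorem summable_zt_right {q w : ℂ} (hq : ‖q‖ < 1) (hw : w ≠ 0) :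
    Summable (fun n : ℕ => q ^ (n + 1) * w / (1 - q ^ (n + 1) * w)) := by
  have := (summable_zt_left hq hw).sub (summable_zt hq hw)
  refine this.congr fun n => ?_
  simp only [zt]; ring

theorem zt_inv {q w : ℂ} (hw : w ≠ 0) (n : ℕ) : zt q w⁻¹ n = - zt q w n := by
  simp only [zt]
  have e1 : q ^ (n + 1) / (w⁻¹ - q ^ (n + 1)) = q ^ (n + 1) * w / (1 - q ^ (n + 1) * w) := by
    have : w⁻¹ - q ^ (n + 1) = (1 - q ^ (n + 1) * w) / w := by field_simp
    rw [this, div_div_eq_mul_div]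
  have e2 : q ^ (n + 1) * w⁻¹ / (1 - q ^ (n + 1) * w⁻¹) = q ^ (n + 1) / (w - q ^ (n + 1)) := by
    have : 1 - q ^ (n + 1) * w⁻¹ = (w - q ^ (n + 1)) / w := by field_simp
    rw [this, div_div_eq_mul_div, mul_assoc, inv_mul_cancel₀ hw, mul_one]
  rw [e1, e2]; ring

theorem Zw_inv {q w : ℂ} (hw : w ≠ 0) : Zw q w⁻¹ = - Zw q w := by
  have h : (w⁻¹ + 1) / (w⁻¹ - 1) = - ((w + 1) / (w - 1)) := by
    by_cases h1 : w = 1
    · subst h1; simp
    have h2 : w - 1 ≠ 0 := sub_ne_zero.2 h1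
    have h3 : 1 - w ≠ 0 := sub_ne_zero.2 (Ne.symm h1)
    have h4 : w⁻¹ - 1 = (1 - w) / w := by field_simp
    have h5 : w⁻¹ + 1 = (1 + w) / w := by field_simp
    rw [h4, h5, div_div_div_cancel_right₀ hw, ← neg_sub w 1, div_neg, add_comm]
  simp only [Zw, zt_inv hw, tsum_neg, h]
  ring

theorem Zw_mul {q w : ℂ} (hq : ‖q‖ < 1) (hq0 : q ≠ 0) (hw : w ≠ 0)
    (h1 : w ≠ 1) (h2 : w * q ≠ 1) : Zw q (w * q) = Zw q w - 2 := by
  have hwq : w * q ≠ 0 := mul_ne_zero hw hq0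
  have hs1 := summable_zt_left hq hwq
  have hs2 := summable_zt_right hq hwq
  have hs3 := summable_zt_left hq hw
  have hs4 := summable_zt_right hq hw
  have e0 : ∑' n, zt q (w * q) n = ∑' n : ℕ, q ^ (n + 1) / (w * q - q ^ (n + 1)) -
      ∑' n : ℕ, q ^ (n + 1) * (w * q) / (1 - q ^ (n + 1) * (w * q)) := hs1.tsum_sub hs2
  have e0' : ∑' n, zt q w n = ∑' n : ℕ, q ^ (n + 1) / (w - q ^ (n + 1)) -
      ∑' n : ℕ, q ^ (n + 1) * w / (1 - q ^ (n + 1) * w) := hs3.tsum_sub hs4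
  have e1 : ∑' n : ℕ, q ^ (n + 1) / (w * q - q ^ (n + 1)) =
      1 / (w - 1) + ∑' n : ℕ, q ^ (n + 1) / (w - q ^ (n + 1)) := by
    rw [hs1.tsum_eq_zero_add]
    congr 1
    · rw [zero_add, pow_one]
      have : w * q - q = (w - 1) * q := by ring
      rw [this, div_mul_cancel_right₀ hq0, one_div]
    · refine tsum_congr fun n => ?_
      have : w * q - q ^ (n + 1 + 1) = (w - q ^ (n + 1)) * q := by ring
      rw [this, pow_succ q (n + 1), mul_div_mul_right _ _ hq0]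
  have e2 : ∑' n : ℕ, q ^ (n + 1) * w / (1 - q ^ (n + 1) * w) =
      q * w / (1 - q * w) + ∑' n : ℕ, q ^ (n + 1) * (w * q) / (1 - q ^ (n + 1) * (w * q)) := by
    rw [hs4.tsum_eq_zero_add]
    congr 1
    · rw [zero_add, pow_one]
    · refine tsum_congr fun n => ?_
      have : q ^ (n + 1 + 1) * w = q ^ (n + 1) * (w * q) := by ring
      rw [this]
  have e3 : ∑' n : ℕ, q ^ (n + 1) * (w * q) / (1 - q ^ (n + 1) * (w * q)) =
    ∑' n : ℕ, q ^ (n + 1) * w / (1 - q ^ (n + 1) * w) - q * w / (1 - q * w) := by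
    rw [e2]; ring
  have h3 : w - 1 ≠ 0 := sub_ne_zero.2 h1
  have h4 : w * q - 1 ≠ 0 := sub_ne_zero.2 h2
  have h5 : 1 - q * w ≠ 0 := by
    rw [mul_comm]; exact sub_ne_zero.2 (Ne.symm h2)
  simp only [Zw]
  rw [e0, e0', e1, e3]
  generalize ∑' n : ℕ, q ^ (n + 1) / (w - q ^ (n + 1)) = A
  generalize ∑' n : ℕ, q ^ (n + 1) * w / (1 - q ^ (n + 1) * w) = B
  field_simp
  ring

/-- The nome. -/
def nm (τ : ℂ) : ℂ := exp (2 * Real.pi * I * τ)

theorem nm_ne_zero (τ : ℂ) : nm τ ≠ 0 := exp_ne_zero _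

theorem nm_add (a b : ℂ) : nm (a + b) = nm a * nm b := by
  rw [nm, nm, nm, ← exp_add]; ring_nf

theorem nm_neg (a : ℂ) : nm (-a) = (nm a)⁻¹ := by
  rw [nm, nm, ← exp_neg]; ring_nf

theorem nm_intCast (n : ℤ) : nm n = 1 := by
  rw [nm, mul_comm, exp_int_mul_two_pi_mul_I]

theorem nm_one : nm 1 = 1 := by simpa using nm_intCast 1

theorem nm_zero : nm 0 = 1 := by simpa using nm_intCast 0

theorem nm_eq_one_iff {z : ℂ} : nm z = 1 ↔ ∃ n : ℤ, z = n := by
  rw [nm, exp_eq_one_iff]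
  refine exists_congr fun n => ?_
  have h : (2 * Real.pi * I : ℂ) ≠ 0 := by
    simp [Real.pi_ne_zero]
  constructor
  · intro h1
    apply mul_left_cancel₀ h
    rw [h1]; ring
  · rintro rfl; ring

theorem norm_nm (z : ℂ) : ‖nm z‖ = Real.exp (-2 * Real.pi * z.im) := by
  rw [nm, norm_exp]
  congr 1
  simp [mul_re, mul_im]

theorem norm_nm_lt_one {z : ℂ} (hz : 0 < z.im) : ‖nm z‖ < 1 := by
  rw [norm_nm, Real.exp_lt_one_iff]
  have := Real.pi_pos
  nlinarith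

theorem differentiable_nm : Differentiable ℂ nm := by
  unfold nm; fun_prop

theorem hasDerivAt_nm (z : ℂ) : HasDerivAt nm (2 * Real.pi * I * nm z) z := by
  have h := ((hasDerivAt_id z).const_mul (2 * Real.pi * I : ℂ)).cexp
  simp only [mul_one, id] at h
  exact h.congr_deriv (by rw [nm]; ring)

/-- The quasi-elliptic zeta function of the lattice `ℤ τ + ℤ`. -/
def Zf (z τ : ℂ) : ℂ := Real.pi * I * Zw (nm τ) (nm z)

theorem Zf_neg (z τ : ℂ) : Zf (-z) τ = - Zf z τ := by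
  rw [Zf, Zf, nm_neg, Zw_inv (nm_ne_zero z)]; ring

theorem Zf_add_one (z τ : ℂ) : Zf (z + 1) τ = Zf z τ := by
  rw [Zf, Zf, nm_add, nm_one, mul_one]

theorem Zf_add_int (z τ : ℂ) (n : ℤ) : Zf (z + n) τ = Zf z τ := by
  rw [Zf, Zf, nm_add, nm_intCast, mul_one]

theorem Zf_tau_add_one (z τ : ℂ) : Zf z (τ + 1) = Zf z τ := by
  rw [Zf, Zf, nm_add, nm_one, mul_one]

theorem Zf_add_tau {z τ : ℂ} (hτ : 0 < τ.im) (h1 : ¬ ∃ n : ℤ, z = n)
    (h2 : ¬ ∃ n : ℤ, z + τ = n) : Zf (z + τ) τ = Zf z τ - 2 * Real.pi * I := by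
  rw [Zf, Zf, nm_add, Zw_mul (norm_nm_lt_one hτ) (nm_ne_zero τ) (nm_ne_zero z)]
  · ring
  · rwa [Ne, nm_eq_one_iff]
  · rwa [← nm_add, Ne, nm_eq_one_iff]

/-- The sum part is holomorphic in the strip `|Im z| < Im τ`. -/
theorem differentiableOn_tsum_zt {τ : ℂ} (hτ : 0 < τ.im) :
    DifferentiableOn ℂ (fun z => ∑' n, zt (nm τ) (nm z) n) {z | |z.im| < τ.im} := by
  intro z hz
  obtain ⟨s, hs1, hs2⟩ := exists_between (show |z.im| < τ.im from hz)
  have hπ := Real.pi_pos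
  set U : Set ℂ := {z | |z.im| < s} with hU
  have hUo : IsOpen U := isOpen_lt (by fun_prop) continuous_const
  set ρ : ℝ := Real.exp (2 * Real.pi * (τ.im - s)) with hρ
  have hρ1 : 1 < ρ := by
    rw [hρ, Real.one_lt_exp_iff]
    have : 0 < τ.im - s := by linarith
    positivity
  have hb : ∀ (n : ℕ) (z : ℂ), z ∈ U → ‖zt (nm τ) (nm z) n‖ ≤ 2 / (ρ - 1) * ‖nm τ‖ ^ n := by
    intro n z hz
    have hz' := abs_lt.1 (show |z.im| < s from hz)
    apply zt_bound hρ1 (norm_nm_lt_one hτ).le _ _ (nm_ne_zero z)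
    · rw [norm_nm, norm_nm, hρ, ← Real.exp_add, Real.exp_le_exp]
      nlinarith
    · rw [norm_nm, norm_nm, hρ, ← Real.exp_add, ← Real.exp_add, ← Real.exp_zero,
        Real.exp_le_exp]
      nlinarith
  have hd : DifferentiableOn ℂ (fun z => ∑' n, zt (nm τ) (nm z) n) U := by
    apply differentiableOn_tsum_of_summable_norm
      ((summable_geometric_of_lt_one (norm_nonneg _) (norm_nm_lt_one hτ)).mul_left _) _ hUo hb
    intro n z hz
    have hz' := abs_lt.1 (show |z.im| < s from hz)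
    have h1 : nm z - nm τ ^ (n + 1) ≠ 0 := by
      intro h
      have h2 : ‖nm z‖ = ‖nm τ‖ ^ (n + 1) := by rw [← norm_pow, sub_eq_zero.1 h]
      have h3 : ‖nm τ‖ ^ (n + 1) ≤ ‖nm τ‖ := by
        rw [pow_succ]
        exact mul_le_of_le_one_left (norm_nonneg _)
          (pow_le_one₀ (norm_nonneg _) (norm_nm_lt_one hτ).le)
      have h4 : ‖nm τ‖ < ‖nm z‖ := by
        rw [norm_nm, norm_nm, Real.exp_lt_exp]
        nlinarith
      linarith
    have h2 : 1 - nm τ ^ (n + 1) * nm z ≠ 0 := by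
      intro h
      have h2 : ‖nm τ‖ ^ (n + 1) * ‖nm z‖ = 1 := by
        rw [← norm_pow, ← norm_mul, ← sub_eq_zero.1 h, norm_one]
      have h3 : ‖nm τ‖ ^ (n + 1) * ‖nm z‖ ≤ ‖nm τ‖ * ‖nm z‖ := by
        gcongr
        rw [pow_succ]
        exact mul_le_of_le_one_left (norm_nonneg _)
          (pow_le_one₀ (norm_nonneg _) (norm_nm_lt_one hτ).le)
      have h4 : ‖nm τ‖ * ‖nm z‖ < 1 := by
        rw [norm_nm, norm_nm, ← Real.exp_add, Real.exp_lt_one_iff]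
        nlinarith
      linarith
    have := (differentiable_nm z).differentiableWithinAt (s := U)
    unfold zt
    fun_prop (disch := assumption)
  have hzU : z ∈ U := hs1
  exact ((hd z hzU).differentiableAt (hUo.mem_nhds hzU)).differentiableWithinAt

theorem differentiableAt_Zf {z τ : ℂ} (hτ : 0 < τ.im) (hz : |z.im| < τ.im)
    (hz1 : ¬ ∃ n : ℤ, z = n) : DifferentiableAt ℂ (fun z => Zf z τ) z := by
  have hUo : IsOpen {z : ℂ | |z.im| < τ.im} := isOpen_lt (by fun_prop) continuous_const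
  have h1 := (differentiableOn_tsum_zt hτ z hz).differentiableAt (hUo.mem_nhds hz)
  have h2 : nm z - 1 ≠ 0 := by
    rw [sub_ne_zero, Ne, nm_eq_one_iff]; exact hz1
  have h3 := differentiable_nm z
  unfold Zf Zw
  fun_prop (disch := assumption)

/-- Residue one at the origin. -/
theorem tendsto_mul_Zf {τ : ℂ} (hτ : 0 < τ.im) :
    Tendsto (fun z => z * Zf z τ) (𝓝[≠] 0) (𝓝 1) := by
  have hUo : IsOpen {z : ℂ | |z.im| < τ.im} := isOpen_lt (by fun_prop) continuous_const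
  have h0 : (0 : ℂ) ∈ {z : ℂ | |z.im| < τ.im} := by simpa using hτ
  have h1 : ContinuousAt (fun z => ∑' n, zt (nm τ) (nm z) n) 0 :=
    ((differentiableOn_tsum_zt hτ 0 h0).differentiableAt (hUo.mem_nhds h0)).continuousAt
  have h2 : Tendsto (fun z : ℂ => z * (Real.pi * I * (2 * ∑' n, zt (nm τ) (nm z) n)))
      (𝓝[≠] 0) (𝓝 0) := by
    have : ContinuousAt (fun z : ℂ => z * (Real.pi * I * (2 * ∑' n, zt (nm τ) (nm z) n))) 0 := by
      fun_prop
    have h := this.tendsto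
    simp only [zero_mul] at h
    exact h.mono_left nhdsWithin_le_nhds
  have h3 : Tendsto (fun z : ℂ => (nm z - 1) / z) (𝓝[≠] 0) (𝓝 (2 * Real.pi * I)) := by
    have := hasDerivAt_iff_tendsto_slope.1 (hasDerivAt_nm 0)
    rw [nm_zero, mul_one] at this
    refine this.congr fun z => ?_
    rw [slope_def_field, nm_zero, sub_zero]
  have hne : (2 * Real.pi * I : ℂ) ≠ 0 := by simp [Real.pi_ne_zero]
  have h4 : Tendsto (fun z : ℂ => Real.pi * I * (nm z + 1) * ((nm z - 1) / z)⁻¹) (𝓝[≠] 0)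
      (𝓝 (Real.pi * I * (1 + 1) * (2 * Real.pi * I)⁻¹)) := by
    refine Tendsto.mul ?_ (h3.inv₀ hne)
    have : ContinuousAt (fun z : ℂ => Real.pi * I * (nm z + 1)) 0 := by
      have := (differentiable_nm 0).continuousAt
      fun_prop
    have h := this.tendsto
    rw [nm_zero] at h
    exact h.mono_left nhdsWithin_le_nhds
  have h5 := h4.add h2
  have e : (Real.pi * I * (1 + 1) * (2 * Real.pi * I)⁻¹ + 0 : ℂ) = 1 := by
    rw [add_zero]
    have e2 : (Real.pi * I * (1 + 1) : ℂ) = 2 * Real.pi * I := by ring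
    rw [e2, mul_inv_cancel₀ hne]
  rw [e] at h5
  refine h5.congr' ?_
  filter_upwards [self_mem_nhdsWithin] with z hz
  have hz : z ≠ 0 := hz
  simp only [Zf, Zw]
  rw [inv_div]
  ring

/-- The defect of the transformation law. -/
def Df (τ z : ℂ) : ℂ := 1 / τ * Zf (z / τ) (-1 / τ) - Zf z τ - 2 * Real.pi * I * z / τ

/-- The open period parallelogram pair. -/
def Uf (τ : ℂ) : Set ℂ := {z | |z.im| < τ.im ∧ |(z / τ).im| < (-1 / τ).im}

section Transform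

variable {τ : ℂ} (hτ : 0 < τ.im)
include hτ

theorem tau_ne_zero : τ ≠ 0 := by
  rintro rfl; simp at hτ

theorem im_S_pos : 0 < (-1 / τ).im := by
  rw [div_im]
  have : 0 < normSq τ := normSq_pos.2 (tau_ne_zero hτ)
  simp only [neg_im, one_im, neg_zero, zero_mul, zero_div, neg_re, one_re, zero_sub]
  rw [neg_mul, one_mul, neg_div, neg_neg]
  positivity

theorem im_pt_div (a b : ℝ) : ((a * τ + b) / τ).im = - (b * (-1 / τ).im) := by
  have h := tau_ne_zero hτ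
  have : ((a * τ + b) / τ : ℂ) = a - b * (-1 / τ) := by
    field_simp
    ring
  rw [this, sub_im, ofReal_im, im_ofReal_mul, zero_sub]

theorem mem_Uf_pt (a b : ℝ) : ((a * τ + b : ℂ) ∈ Uf τ) ↔ |a| < 1 ∧ |b| < 1 := by
  have h1 : ((a * τ + b : ℂ)).im = a * τ.im := by simp
  have h2 := im_S_pos hτ
  simp only [Uf, Set.mem_ofPred_eq]
  rw [h1, im_pt_div hτ, abs_neg, abs_mul, abs_mul, abs_of_pos hτ, abs_of_pos h2]
  constructor
  · rintro ⟨h3, h4⟩
    exact ⟨by nlinarith, by nlinarith⟩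
  · rintro ⟨h3, h4⟩
    exact ⟨by nlinarith, by nlinarith⟩

theorem exists_coords (z : ℂ) : ∃ a b : ℝ, z = a * τ + b := by
  refine ⟨z.im / τ.im, z.re - z.im / τ.im * τ.re, ?_⟩
  apply Complex.ext
  · simp
  · simp [div_mul_cancel₀ _ hτ.ne']

theorem pt_inj {a b c d : ℝ} (h : (a * τ + b : ℂ) = c * τ + d) : a = c ∧ b = d := by
  have h1 := congrArg Complex.im h
  simp only [add_im, im_ofReal_mul, ofReal_im, add_zero] at h1
  have h2 : a = c := mul_right_cancel₀ hτ.ne' h1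
  subst h2
  refine ⟨rfl, ?_⟩
  have := add_left_cancel h
  exact_mod_cast this

theorem not_int_of_pt {a b : ℝ} (h : ¬ (a = 0 ∧ ∃ n : ℤ, b = n)) :
    ¬ ∃ n : ℤ, (a * τ + b : ℂ) = n := by
  rintro ⟨n, hn⟩
  apply h
  have : (a * τ + b : ℂ) = (0 : ℝ) * τ + (n : ℝ) := by rw [hn]; simp
  obtain ⟨h1, h2⟩ := pt_inj hτ this
  exact ⟨h1, n, h2⟩

theorem not_int_of_pt_div {a b : ℝ} (h : ¬ (b = 0 ∧ ∃ n : ℤ, a = n)) :
    ¬ ∃ n : ℤ, ((a * τ + b) / τ : ℂ) = n := by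
  rintro ⟨n, hn⟩
  apply h
  rw [div_eq_iff (tau_ne_zero hτ)] at hn
  have : (a * τ + b : ℂ) = (n : ℝ) * τ + (0 : ℝ) := by rw [hn]; simp
  obtain ⟨h1, h2⟩ := pt_inj hτ this
  exact ⟨h2, n, h1⟩

theorem Df_add_tau {a b : ℝ} (ha : -1 < a) (ha' : a < 0) :
    Df τ ((a + 1 : ℝ) * τ + b) = Df τ (a * τ + b) := by
  have h0 := tau_ne_zero hτ
  have e : (((a + 1 : ℝ) : ℂ) * τ + b) = (a * τ + b) + τ := by push_cast; ring
  have h1 : ¬ ∃ n : ℤ, (a * τ + b : ℂ) = n := not_int_of_pt hτ (by rintro ⟨h, -⟩; linarith)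
  have h2 : ¬ ∃ n : ℤ, (a * τ + b : ℂ) + τ = n := by
    rw [← e]; exact not_int_of_pt hτ (by rintro ⟨h, -⟩; linarith)
  rw [e, Df, Df, add_div, div_self h0, Zf_add_one, Zf_add_tau hτ h1 h2]
  field_simp
  ring

theorem Df_add_one {a b : ℝ} (hb : -1 < b) (hb' : b < 0) :
    Df τ (a * τ + (b + 1 : ℝ)) = Df τ (a * τ + b) := by
  have h0 := tau_ne_zero hτ
  have e : ((a : ℂ) * τ + ((b + 1 : ℝ) : ℂ)) = (a * τ + b) + 1 := by push_cast; ring
  have h1 : ¬ ∃ n : ℤ, (a * τ + (b + 1 : ℝ)) / τ = (n : ℂ) :=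
    not_int_of_pt_div hτ (by rintro ⟨h, -⟩; linarith)
  have e2 : (a * τ + b : ℂ) / τ = (a * τ + (b + 1 : ℝ)) / τ + (-1 / τ) := by
    push_cast
    field_simp
    ring
  have h2 : ¬ ∃ n : ℤ, (a * τ + (b + 1 : ℝ)) / τ + (-1 / τ) = (n : ℂ) := by
    rw [← e2]
    exact not_int_of_pt_div hτ (by rintro ⟨h, -⟩; linarith)
  have h3 := Zf_add_tau (im_S_pos hτ) h1 h2
  rw [← e2] at h3
  rw [Df, Df, h3, e, Zf_add_one]
  field_simp
  ring

omit hτ in
theorem isOpen_Uf : IsOpen (Uf τ) := by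
  have h1 : IsOpen {z : ℂ | |z.im| < τ.im} := isOpen_lt (by fun_prop) continuous_const
  have h2 : IsOpen {z : ℂ | |(z / τ).im| < (-1 / τ).im} := isOpen_lt (by fun_prop) continuous_const
  exact h1.inter h2

omit hτ in
theorem isPreconnected_Uf : IsPreconnected (Uf τ) := by
  have h1 : Convex ℝ {z : ℂ | |z.im| < τ.im} := by
    have h : {z : ℂ | |z.im| < τ.im} = Complex.imLm ⁻¹' (Set.Ioo (-τ.im) τ.im) := by
      ext z
      show |z.im| < τ.im ↔ -τ.im < z.im ∧ z.im < τ.im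
      exact abs_lt
    rw [h]; exact (convex_Ioo _ _).linear_preimage Complex.imLm
  have h2 : Convex ℝ {z : ℂ | |(z / τ).im| < (-1 / τ).im} := by
    have h : {z : ℂ | |(z / τ).im| < (-1 / τ).im} =
        (Complex.imLm ∘ₗ LinearMap.mulRight ℝ τ⁻¹) ⁻¹' (Set.Ioo (-(-1 / τ).im) (-1 / τ).im) := by
      ext z
      show |(z / τ).im| < (-1 / τ).im ↔ -(-1 / τ).im < (z * τ⁻¹).im ∧ (z * τ⁻¹).im < (-1 / τ).im
      rw [← div_eq_mul_inv]
      exact abs_lt
    rw [h]; exact (convex_Ioo _ _).linear_preimage _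
  exact (h1.inter h2).isPreconnected

theorem differentiableAt_Df {z : ℂ} (hz : z ∈ Uf τ) (hz0 : z ≠ 0) :
    DifferentiableAt ℂ (Df τ) z := by
  obtain ⟨a, b, rfl⟩ := exists_coords hτ z
  obtain ⟨ha, hb⟩ := (mem_Uf_pt hτ a b).1 hz
  have key : ∀ c : ℝ, |c| < 1 → (∃ n : ℤ, c = n) → c = 0 := by
    rintro c hc ⟨n, rfl⟩
    have h1 : |(n : ℝ)| < 1 := hc
    rw [← Int.cast_abs] at h1
    have h2 : |n| < 1 := by exact_mod_cast h1
    rw [Int.abs_lt_one_iff] at h2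
    simp [h2]
  have h1 : ¬ ∃ n : ℤ, (a * τ + b : ℂ) = n := by
    apply not_int_of_pt hτ
    rintro ⟨h, h'⟩
    apply hz0
    rw [h, key b hb h']; simp
  have h2 : ¬ ∃ n : ℤ, ((a * τ + b) / τ : ℂ) = n := by
    apply not_int_of_pt_div hτ
    rintro ⟨h, h'⟩
    apply hz0
    rw [h, key a ha h']; simp
  have d1 := differentiableAt_Zf hτ hz.1 h1
  have d2 := differentiableAt_Zf (im_S_pos hτ) hz.2 h2
  have d3 : DifferentiableAt ℂ (fun z => Zf (z / τ) (-1 / τ)) (a * τ + b) :=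
    DifferentiableAt.comp (g := fun z => Zf z (-1 / τ)) (f := fun z => z / τ) _ d2 (by fun_prop)
  unfold Df
  fun_prop

theorem zero_mem_Uf : (0 : ℂ) ∈ Uf τ := by
  have := (mem_Uf_pt hτ 0 0).2 (by simp)
  simpa using this

theorem tendsto_mul_Df : Tendsto (fun z => z * Df τ z) (𝓝[≠] 0) (𝓝 0) := by
  have h0 := tau_ne_zero hτ
  have h1 := tendsto_mul_Zf hτ
  have h2 := tendsto_mul_Zf (im_S_pos hτ)
  have h3 : Tendsto (fun z : ℂ => z / τ) (𝓝[≠] 0) (𝓝[≠] 0) := by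
    apply tendsto_nhdsWithin_iff.2
    constructor
    · have : ContinuousAt (fun z : ℂ => z / τ) 0 := by fun_prop
      have h := this.tendsto
      rw [zero_div] at h
      exact h.mono_left nhdsWithin_le_nhds
    · filter_upwards [self_mem_nhdsWithin] with z hz
      exact div_ne_zero hz h0
  have h4 := h2.comp h3
  have h5 : Tendsto (fun z : ℂ => z * (2 * Real.pi * I * z / τ)) (𝓝[≠] 0) (𝓝 0) := by
    have : ContinuousAt (fun z : ℂ => z * (2 * Real.pi * I * z / τ)) 0 := by fun_prop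
    have h := this.tendsto
    rw [zero_mul] at h
    exact h.mono_left nhdsWithin_le_nhds
  have h6 := (h4.sub h1).sub h5
  rw [sub_self, sub_zero] at h6
  refine h6.congr fun z => ?_
  simp only [Function.comp_apply, Df]
  ring

/-- The defect with its removable singularity removed. -/
theorem exists_ext_Df : ∃ F : ℂ → ℂ, DifferentiableOn ℂ F (Uf τ) ∧ ∀ z, z ≠ 0 → F z = Df τ z := by
  refine ⟨Function.update (Df τ) 0 (limUnder (𝓝[≠] 0) (Df τ)), ?_, fun z hz => by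
    rw [Function.update_of_ne hz]⟩
  apply differentiableOn_update_limUnder_of_isLittleO
    ((isOpen_Uf).mem_nhds (zero_mem_Uf hτ))
  · intro z hz
    exact (differentiableAt_Df hτ hz.1 hz.2).differentiableWithinAt
  · rw [Asymptotics.isLittleO_iff_tendsto']
    · have h1 := tendsto_mul_Df hτ
      have h2 : Tendsto (fun z : ℂ => z * Df τ 0) (𝓝[≠] 0) (𝓝 0) := by
        have : ContinuousAt (fun z : ℂ => z * Df τ 0) 0 := by fun_prop
        have h := this.tendsto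
        rw [zero_mul] at h
        exact h.mono_left nhdsWithin_le_nhds
      have h3 := h1.sub h2
      rw [sub_zero] at h3
      refine h3.congr fun z => ?_
      rw [sub_zero, div_inv_eq_mul]; ring
    · filter_upwards [self_mem_nhdsWithin] with z hz h
      rw [inv_eq_zero, sub_zero] at h
      exact absurd h hz

omit hτ in
theorem Df_neg (z : ℂ) : Df τ (-z) = - Df τ z := by
  rw [Df, Df, neg_div, Zf_neg, Zf_neg]; ring

theorem Df_eq_zero {z : ℂ} (hz : z ∈ Uf τ) (hz0 : z ≠ 0) : Df τ z = 0 := by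
  obtain ⟨F, hF, hFD⟩ := exists_ext_Df hτ
  -- compact piece
  set K : Set ℂ := (fun x : ℝ × ℝ => (x.1 * τ + x.2 : ℂ)) ''
    (Set.Icc (-(1 / 2)) (1 / 2) ×ˢ Set.Icc (-(1 / 2)) (1 / 2)) with hK
  have hKc : IsCompact K := by
    apply IsCompact.image (isCompact_Icc.prod isCompact_Icc)
    fun_prop
  have hKU : K ⊆ Uf τ := by
    rintro _ ⟨⟨a, b⟩, ⟨ha, hb⟩, rfl⟩
    simp only [Set.mem_Icc] at ha hb
    refine (mem_Uf_pt hτ a b).2 ⟨?_, ?_⟩ <;> rw [abs_lt] <;> constructor <;> linarith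
  have hKn : K.Nonempty := ⟨_, ⟨(0, 0), by simp, rfl⟩⟩
  obtain ⟨c, hcK, hc⟩ := hKc.exists_isMaxOn hKn ((hF.continuousOn.mono hKU).norm)
  have shift1 : ∀ a b : ℝ, -1 < a → a < 0 → |b| < 1 →
      F ((a + 1 : ℝ) * τ + b) = F (a * τ + b) := by
    intro a b h1 h2 h3
    rw [hFD, hFD, Df_add_tau hτ h1 h2]
    · intro h
      have := pt_inj hτ (c := 0) (d := 0) (by rw [h]; simp)
      linarith [this.1]
    · intro h
      have := pt_inj hτ (c := 0) (d := 0) (by rw [h]; simp)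
      linarith [this.1]
  have shift2 : ∀ a b : ℝ, -1 < b → b < 0 → |a| < 1 →
      F (a * τ + (b + 1 : ℝ)) = F (a * τ + b) := by
    intro a b h1 h2 h3
    rw [hFD, hFD, Df_add_one hτ h1 h2]
    · intro h
      have := pt_inj hτ (c := 0) (d := 0) (by rw [h]; simp)
      linarith [this.2]
    · intro h
      have := pt_inj hτ (c := 0) (d := 0) (by rw [h]; simp)
      linarith [this.2]
  have red1 : ∀ a b : ℝ, |a| < 1 → |b| < 1 → ∃ a' : ℝ, |a'| ≤ 1 / 2 ∧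
      F (a * τ + b) = F (a' * τ + b) := by
    intro a b ha hb
    rw [abs_lt] at ha
    by_cases h1 : a < -(1 / 2)
    · refine ⟨a + 1, ?_, (shift1 a b ha.1 (by linarith) hb).symm⟩
      rw [abs_le]; constructor <;> linarith
    by_cases h2 : 1 / 2 < a
    · refine ⟨a - 1, ?_, ?_⟩
      · rw [abs_le]; constructor <;> linarith
      · have := shift1 (a - 1) b (by linarith) (by linarith) hb
        rwa [sub_add_cancel] at this
    · refine ⟨a, ?_, rfl⟩
      rw [abs_le]; constructor <;> linarith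
  have red2 : ∀ a b : ℝ, |a| < 1 → |b| < 1 → ∃ b' : ℝ, |b'| ≤ 1 / 2 ∧
      F (a * τ + b) = F (a * τ + b') := by
    intro a b hb ha
    rw [abs_lt] at ha
    by_cases h1 : b < -(1 / 2)
    · refine ⟨b + 1, ?_, (shift2 a b ha.1 (by linarith) hb).symm⟩
      rw [abs_le]; constructor <;> linarith
    by_cases h2 : 1 / 2 < b
    · refine ⟨b - 1, ?_, ?_⟩
      · rw [abs_le]; constructor <;> linarith
      · have := shift2 a (b - 1) (by linarith) (by linarith) hb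
        rwa [sub_add_cancel] at this
    · refine ⟨b, ?_, rfl⟩
      rw [abs_le]; constructor <;> linarith
  have hmax : IsMaxOn (norm ∘ F) (Uf τ) c := by
    intro w hw
    obtain ⟨a, b, rfl⟩ := exists_coords hτ w
    obtain ⟨ha, hb⟩ := (mem_Uf_pt hτ a b).1 hw
    obtain ⟨a', ha', e1⟩ := red1 a b ha hb
    obtain ⟨b', hb', e2⟩ := red2 a' b (by linarith) hb
    have : (a' * τ + b' : ℂ) ∈ K := ⟨(a', b'), ⟨abs_le.1 ha', abs_le.1 hb'⟩, rfl⟩
    have h := hc this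
    simp only [Set.mem_ofPred_eq, Function.comp_apply] at h ⊢
    rw [e1, e2]
    exact h
  have hconst := Complex.eqOn_of_isPreconnected_of_isMaxOn_norm isPreconnected_Uf
    (isOpen_Uf) hF (hKU hcK) hmax
  have hnz : -z ≠ 0 := neg_ne_zero.2 hz0
  have hnzU : -z ∈ Uf τ := by
    refine ⟨?_, ?_⟩
    · rw [neg_im, abs_neg]; exact hz.1
    · rw [neg_div, neg_im, abs_neg]; exact hz.2
  have h1 := hconst hz
  have h2 := hconst hnzU
  rw [hFD z hz0] at h1
  rw [hFD _ hnz, Df_neg] at h2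
  simp only [Function.const_apply] at h1 h2
  have h3 : Df τ z = - Df τ z := by rw [h2, h1]
  exact self_eq_neg.1 h3

theorem Zf_S {z : ℂ} (hz : z ∈ Uf τ) (hz0 : z ≠ 0) :
    Zf (z / τ) (-1 / τ) = τ * Zf z τ + 2 * Real.pi * I * z := by
  have h0 := tau_ne_zero hτ
  have h := Df_eq_zero hτ hz hz0
  rw [Df] at h
  have h1 : 1 / τ * Zf (z / τ) (-1 / τ) = Zf z τ + 2 * Real.pi * I * z / τ := by
    linear_combination h
  have h2 : τ * (1 / τ * Zf (z / τ) (-1 / τ)) = τ * (Zf z τ + 2 * Real.pi * I * z / τ) := by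
    rw [h1]
  rw [← mul_assoc, mul_one_div_cancel h0, one_mul] at h2
  rw [h2]
  field_simp

end Transform

end

end Fermat.Agent.H58
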