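import Mathlib
import Fermat.Agent.H58Zeta

/-! Weight one Eisenstein functions `Ev x y` on the upper half plane: invariance in `(x,y)` mod `ℤ²`
and the transformation law `Ev v ∣[1] γ = Ev (v γ)`. -/

set_option autoImplicit false

namespace Fermat.Agent.H58

open Filter Topology UpperHalfPlane ModularForm
open Complex (exp)
open scoped MatrixGroups ModularForm Manifold

noncomputable section

/-- `(x, y)` is not a pair of integers. -/
def NI (x y : ℝ) : Prop := ¬ ((∃ m : ℤ, x = m) ∧ ∃ n : ℤ, y = n)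

/-- Weight one Eisenstein functions. -/
def Ev (x y : ℝ) (τ : ℍ) : ℂ := Zf (x * τ + y) τ + 2 * Real.pi * Complex.I * x

theorem NI.add_int {x y : ℝ} (h : NI x y) (m n : ℤ) : NI (x + m) (y + n) := by
  rintro ⟨⟨a, ha⟩, ⟨b, hb⟩⟩
  exact h ⟨⟨a - m, by push_cast; linarith⟩, ⟨b - n, by push_cast; linarith⟩⟩

theorem NI.not_int {x y : ℝ} (h : NI x y) (τ : ℍ) : ¬ ∃ n : ℤ, (x * τ + y : ℂ) = n := by
  apply not_int_of_pt τ.im_pos
  rintro ⟨h1, h2⟩
  exact h ⟨⟨0, by simp [h1]⟩, h2⟩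

theorem Ev_add_one_left {x y : ℝ} (h : NI x y) (τ : ℍ) : Ev (x + 1) y τ = Ev x y τ := by
  have h1 : NI (x + 1) y := by simpa using h.add_int 1 0
  have e : (((x + 1 : ℝ) : ℂ) * τ + y) = (x * τ + y) + τ := by push_cast; ring
  have h2 : ¬ ∃ n : ℤ, (x * τ + y : ℂ) + τ = n := by
    rw [← e]; exact h1.not_int τ
  rw [Ev, Ev, e, Zf_add_tau τ.im_pos (h.not_int τ) h2]
  push_cast
  ring

theorem Ev_add_int_left {x y : ℝ} (h : NI x y) (m : ℤ) (τ : ℍ) : Ev (x + m) y τ = Ev x y τ := by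
  induction m using Int.induction_on with
  | zero => simp
  | succ i ih =>
    rw [← ih]
    have h1 : NI (x + (i : ℤ)) y := by simpa using h.add_int i 0
    have := Ev_add_one_left h1 τ
    rw [← this]
    congr 1
    push_cast; ring
  | pred i ih =>
    rw [← ih]
    have h1 : NI (x + ((-i - 1 : ℤ) : ℝ)) y := by simpa using h.add_int (-i - 1) 0
    have := Ev_add_one_left h1 τ
    rw [← this]
    congr 1
    push_cast; ring

theorem Ev_add_int_right {x y : ℝ} (n : ℤ) (τ : ℍ) : Ev x (y + n) τ = Ev x y τ := by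
  rw [Ev, Ev]
  have e : ((x : ℂ) * τ + ((y + n : ℝ) : ℂ)) = (x * τ + y) + n := by push_cast; ring
  rw [e, Zf_add_int]

theorem Ev_add_int {x y : ℝ} (h : NI x y) (m n : ℤ) (τ : ℍ) :
    Ev (x + m) (y + n) τ = Ev x y τ := by
  rw [Ev_add_int_right, Ev_add_int_left h]

theorem Ev_T (x y : ℝ) (τ : ℍ) : Ev x y (ModularGroup.T • τ) = Ev x (x + y) τ := by
  rw [Ev, Ev]
  have e1 : ((ModularGroup.T • τ : ℍ) : ℂ) = τ + 1 := by
    rw [modular_T_smul, coe_vadd]; push_cast; ring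
  rw [e1, Zf_tau_add_one]
  push_cast
  ring_nf

theorem coe_S_smul (τ : ℍ) : ((ModularGroup.S • τ : ℍ) : ℂ) = -1 / τ := by
  rw [modular_S_smul, UpperHalfPlane.coe_mk, neg_div, one_div, inv_neg]

theorem NI.swap {x y : ℝ} (h : NI x y) : NI y (-x) := by
  rintro ⟨⟨a, ha⟩, ⟨b, hb⟩⟩
  exact h ⟨⟨-b, by push_cast; linarith⟩, ⟨a, ha⟩⟩

theorem Ev_S_aux {x y : ℝ} (h : NI x y) (hx : 0 ≤ x) (hx1 : x < 1) (hy : 0 ≤ y) (hy1 : y < 1)
    (τ : ℍ) : Ev x y (ModularGroup.S • τ) = τ * Ev y (-x) τ := by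
  have hτ := τ.im_pos
  have h0 : (τ : ℂ) ≠ 0 := ne_zero τ
  rw [Ev, Ev, coe_S_smul]
  have hz : ((y : ℂ) * τ + ((-x : ℝ) : ℂ)) ∈ Uf τ := by
    rw [mem_Uf_pt hτ]
    rw [abs_neg, abs_of_nonneg hx, abs_of_nonneg hy]
    exact ⟨hy1, hx1⟩
  have hz0 : ((y : ℂ) * τ + ((-x : ℝ) : ℂ)) ≠ 0 := by
    intro h1
    exact h.swap.not_int τ ⟨0, by rw [h1]; simp⟩
  have e : ((y : ℂ) * τ + ((-x : ℝ) : ℂ)) / τ = x * (-1 / τ) + y := by
    field_simp
    push_cast
    ring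
  have := Zf_S hτ hz hz0
  rw [e] at this
  rw [this]
  push_cast
  ring

theorem Ev_S {x y : ℝ} (h : NI x y) (τ : ℍ) :
    Ev x y (ModularGroup.S • τ) = τ * Ev y (-x) τ := by
  have hf : NI (Int.fract x) (Int.fract y) := by
    have := h.add_int (-⌊x⌋) (-⌊y⌋)
    simpa [Int.fract, sub_eq_add_neg] using this
  have h1 := Ev_S_aux hf (Int.fract_nonneg x) (Int.fract_lt_one x) (Int.fract_nonneg y)
    (Int.fract_lt_one y) τ
  have e1 : Ev (Int.fract x) (Int.fract y) (ModularGroup.S • τ) =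
      Ev x y (ModularGroup.S • τ) := by
    have := Ev_add_int hf ⌊x⌋ ⌊y⌋ (ModularGroup.S • τ)
    rw [Int.fract_add_floor, Int.fract_add_floor] at this
    exact this.symm
  have e2 : Ev (Int.fract y) (-Int.fract x) τ = Ev y (-x) τ := by
    have := Ev_add_int hf.swap ⌊y⌋ (-⌊x⌋) τ
    rw [Int.fract_add_floor] at this
    rw [← this]
    congr 1
    push_cast
    have := Int.fract_add_floor x
    linarith
  rw [← e1, h1, e2]

theorem Ev_slash_T (x y : ℝ) : (Ev x y) ∣[(1 : ℤ)] ModularGroup.T = Ev x (x + y) := by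
  ext τ
  rw [SL_slash_apply, Ev_T]
  have : denom ModularGroup.T τ = 1 := by
    rw [ModularGroup.denom_apply]; simp [ModularGroup.T]
  rw [this]; simp

theorem Ev_slash_S {x y : ℝ} (h : NI x y) : (Ev x y) ∣[(1 : ℤ)] ModularGroup.S = Ev y (-x) := by
  ext τ
  rw [SL_slash_apply, Ev_S h]
  have : denom ModularGroup.S τ = τ := by
    rw [ModularGroup.denom_apply]; simp [ModularGroup.S]
  rw [this, zpow_neg, zpow_one]
  have h0 : (τ : ℂ) ≠ 0 := ne_zero τ
  field_simp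

theorem NI.mul {x y : ℝ} (h : NI x y) (γ : SL(2, ℤ)) :
    NI (x * γ 0 0 + y * γ 1 0) (x * γ 0 1 + y * γ 1 1) := by
  rintro ⟨⟨a, ha⟩, ⟨b, hb⟩⟩
  have hdet : (γ 0 0 : ℝ) * γ 1 1 - γ 0 1 * γ 1 0 = 1 := by
    have := Matrix.det_fin_two γ.1
    rw [γ.2] at this
    exact_mod_cast this.symm
  apply h
  refine ⟨⟨a * γ 1 1 - b * γ 1 0, ?_⟩, ⟨b * γ 0 0 - a * γ 0 1, ?_⟩⟩
  · push_cast; rw [← ha, ← hb]; linear_combination (-x) * hdet
  · push_cast; rw [← ha, ← hb]; linear_combination (-y) * hdet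

theorem Ev_slash (γ : SL(2, ℤ)) : ∀ {x y : ℝ}, NI x y →
    (Ev x y) ∣[(1 : ℤ)] γ = Ev (x * γ 0 0 + y * γ 1 0) (x * γ 0 1 + y * γ 1 1) := by
  have hγ : γ ∈ Subgroup.closure {ModularGroup.S, ModularGroup.T} := by
    rw [SpecialLinearGroup.SL2Z_generators]; trivial
  induction hγ using Subgroup.closure_induction with
  | mem g hg =>
    intro x y h
    rcases hg with rfl | rfl
    · rw [Ev_slash_S h]
      simp [ModularGroup.S]
    · rw [Ev_slash_T]
      simp [ModularGroup.T]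
  | one => intro x y h; simp
  | mul g1 g2 _ _ h1 h2 =>
    intro x y h
    rw [SlashAction.slash_mul, h1 h, h2 (h.mul g1)]
    congr 1 <;> simp [Matrix.mul_apply, Fin.sum_univ_two] <;> ring
  | inv g _ hg =>
    intro x y h
    have h1 := hg (h.mul g⁻¹)
    have e1 : (x * (g⁻¹) 0 0 + y * (g⁻¹) 1 0) * g 0 0 + (x * (g⁻¹) 0 1 + y * (g⁻¹) 1 1) * g 1 0 = x := by
      have hdet : (g 0 0 : ℝ) * g 1 1 - g 0 1 * g 1 0 = 1 := by
        have := Matrix.det_fin_two g.1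
        rw [g.2] at this
        exact_mod_cast this.symm
      simp [Matrix.SpecialLinearGroup.SL2_inv_expl]
      linear_combination x * hdet
    have e2 : (x * (g⁻¹) 0 0 + y * (g⁻¹) 1 0) * g 0 1 + (x * (g⁻¹) 0 1 + y * (g⁻¹) 1 1) * g 1 1 = y := by
      have hdet : (g 0 0 : ℝ) * g 1 1 - g 0 1 * g 1 0 = 1 := by
        have := Matrix.det_fin_two g.1
        rw [g.2] at this
        exact_mod_cast this.symm
      simp [Matrix.SpecialLinearGroup.SL2_inv_expl]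
      linear_combination y * hdet
    rw [e1, e2] at h1
    rw [← h1, ← SlashAction.slash_mul, mul_inv_cancel, SlashAction.slash_one]

end

end Fermat.Agent.H58
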