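import Mathlib
import Fermat.Agent.H58Eis1

/-! Weight one Eisenstein functions: holomorphy and boundedness. -/

set_option autoImplicit false

namespace Fermat.Agent.H58

open Filter Topology UpperHalfPlane ModularForm
open Complex (exp)
open scoped MatrixGroups ModularForm Manifold

noncomputable section

theorem nm_nat_mul (n : ℕ) (t : ℂ) : nm t ^ n = nm (n * t) := by
  rw [nm, nm, ← Complex.exp_nat_mul]; ring_nf

theorem nm_eq_iff {a b : ℂ} : nm a = nm b ↔ ∃ n : ℤ, a - b = n := by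
  rw [← nm_eq_one_iff, sub_eq_add_neg, nm_add, nm_neg, mul_inv_eq_one₀ (nm_ne_zero b)]

theorem zt_den1 {x y : ℝ} (h : NI x y) {t : ℂ} (ht : 0 < t.im) (n : ℕ) :
    nm (x * t + y) - nm t ^ (n + 1) ≠ 0 := by
  rw [sub_ne_zero, nm_nat_mul, Ne, nm_eq_iff]
  have h1 : NI (x - (n + 1)) y := by simpa [sub_eq_add_neg] using h.add_int (-(n + 1)) 0
  rintro ⟨m, hm⟩
  apply h1.not_int ⟨t, ht⟩
  refine ⟨m, ?_⟩
  rw [← hm]
  push_cast
  ring

theorem zt_den2 {x y : ℝ} (h : NI x y) {t : ℂ} (ht : 0 < t.im) (n : ℕ) :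
    1 - nm t ^ (n + 1) * nm (x * t + y) ≠ 0 := by
  rw [sub_ne_zero, nm_nat_mul, ← nm_add, Ne, eq_comm, nm_eq_one_iff]
  have h1 : NI (x + (n + 1)) y := by simpa using h.add_int (n + 1) 0
  rintro ⟨m, hm⟩
  apply h1.not_int ⟨t, ht⟩
  refine ⟨m, ?_⟩
  rw [← hm]
  push_cast
  ring

theorem zt_den0 {x y : ℝ} (h : NI x y) {t : ℂ} (ht : 0 < t.im) :
    nm (x * t + y) - 1 ≠ 0 := by
  rw [sub_ne_zero, Ne, nm_eq_one_iff]
  exact h.not_int ⟨t, ht⟩

theorem im_pt (x y : ℝ) (t : ℂ) : (x * t + y : ℂ).im = x * t.im := by simp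

theorem zt_bound' {x y δ : ℝ} (hx : 0 ≤ x) (hx1 : x < 1) (hδ : 0 < δ) {t : ℂ} (ht : δ ≤ t.im)
    (n : ℕ) : ‖zt (nm t) (nm (x * t + y)) n‖ ≤
      2 / (Real.exp (2 * Real.pi * ((1 - x) * δ)) - 1) * Real.exp (-2 * Real.pi * δ) ^ n := by
  have hπ := Real.pi_pos
  have ht0 : 0 < t.im := lt_of_lt_of_le hδ ht
  have hρ1 : 1 < Real.exp (2 * Real.pi * ((1 - x) * δ)) := by
    rw [Real.one_lt_exp_iff]
    have : 0 < 1 - x := by linarith
    positivity
  have h1 := zt_bound (q := nm t) (w := nm (x * t + y)) hρ1 (norm_nm_lt_one ht0).le ?_ ?_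
    (nm_ne_zero _) n
  · refine h1.trans ?_
    have : 0 < Real.exp (2 * Real.pi * ((1 - x) * δ)) - 1 := by linarith
    gcongr
    rw [norm_nm, Real.exp_le_exp]
    nlinarith
  · rw [norm_nm, norm_nm, ← Real.exp_add, Real.exp_le_exp, im_pt]
    have h3 : (1 - x) * δ ≤ (1 - x) * t.im := by
      apply mul_le_mul_of_nonneg_left ht; linarith
    nlinarith
  · rw [norm_nm, norm_nm, ← Real.exp_add, ← Real.exp_add, Real.exp_le_one_iff, im_pt]
    have h3 : (1 - x) * δ ≤ 1 * t.im := by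
      apply mul_le_mul (by linarith) ht hδ.le (by linarith)
    have h4 : 0 ≤ x * t.im := by positivity
    nlinarith

theorem summable_bound (C : ℝ) {δ : ℝ} (hδ : 0 < δ) :
    Summable (fun n : ℕ => C * Real.exp (-2 * Real.pi * δ) ^ n) := by
  apply (summable_geometric_of_lt_one (Real.exp_pos _).le _).mul_left
  rw [Real.exp_lt_one_iff]
  have := Real.pi_pos
  nlinarith

theorem differentiableOn_Ev_aux {x y : ℝ} (h : NI x y) (hx : 0 ≤ x) (hx1 : x < 1) :
    DifferentiableOn ℂ (fun t : ℂ => Zf (x * t + y) t + 2 * Real.pi * Complex.I * x)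
      {t | 0 < t.im} := by
  intro t ht
  have ht : 0 < t.im := ht
  set δ : ℝ := t.im / 2 with hδ
  have hδ0 : 0 < δ := by positivity
  set U : Set ℂ := {t | δ < t.im} with hU
  have hUo : IsOpen U := isOpen_lt continuous_const (by fun_prop)
  have htU : t ∈ U := by show δ < t.im; linarith
  have hd : DifferentiableOn ℂ (fun t : ℂ => ∑' n, zt (nm t) (nm (x * t + y)) n) U := by
    apply Complex.differentiableOn_tsum_of_summable_norm (summable_bound
      (2 / (Real.exp (2 * Real.pi * ((1 - x) * δ)) - 1)) hδ0) _ hUo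
      (fun n s hs => zt_bound' hx hx1 hδ0 (le_of_lt hs) n)
    intro n s hs
    have hs0 : 0 < s.im := lt_trans hδ0 hs
    have h1 := zt_den1 h hs0 n
    have h2 := zt_den2 h hs0 n
    have h3 : DifferentiableAt ℂ nm s := differentiable_nm s
    have h4 : DifferentiableAt ℂ (fun s : ℂ => nm (x * s + y)) s :=
      (differentiable_nm _).comp s (by fun_prop)
    have : DifferentiableAt ℂ (fun s : ℂ => zt (nm s) (nm (x * s + y)) n) s := by
      unfold zt
      fun_prop (disch := assumption)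
    exact this.differentiableWithinAt
  have h1 := (hd t htU).differentiableAt (hUo.mem_nhds htU)
  have h2 := zt_den0 h ht
  have h4 : DifferentiableAt ℂ (fun s : ℂ => nm (x * s + y)) t :=
      (differentiable_nm _).comp t (by fun_prop)
  have : DifferentiableAt ℂ (fun t : ℂ => Zf (x * t + y) t + 2 * Real.pi * Complex.I * x) t := by
    unfold Zf Zw
    fun_prop (disch := assumption)
  exact this.differentiableWithinAt

theorem Ev_fract {x y : ℝ} (h : NI x y) : Ev (Int.fract x) y = Ev x y := by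
  ext τ
  have hf : NI (Int.fract x) y := by
    have := h.add_int (-⌊x⌋) 0
    simpa [Int.fract, sub_eq_add_neg] using this
  have := Ev_add_int_left hf ⌊x⌋ τ
  rw [Int.fract_add_floor] at this
  exact this.symm

theorem NI.fract {x y : ℝ} (h : NI x y) : NI (Int.fract x) y := by
  have := h.add_int (-⌊x⌋) 0
  simpa [Int.fract, sub_eq_add_neg] using this

theorem mdifferentiable_Ev {x y : ℝ} (h : NI x y) : MDiff (Ev x y) := by
  rw [← Ev_fract h, UpperHalfPlane.mdifferentiable_iff]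
  refine (differentiableOn_Ev_aux h.fract (Int.fract_nonneg x) (Int.fract_lt_one x)).congr ?_
  intro t ht
  have ht : 0 < t.im := ht
  simp only [Function.comp_apply, Ev]
  rw [ofComplex_apply_of_im_pos ht]

theorem isBoundedAtImInfty_Ev_aux {x y : ℝ} (hx : 0 ≤ x) (hx1 : x < 1) :
    IsBoundedAtImInfty (Ev x y) := by
  have hπ := Real.pi_pos
  set B : ℝ := ∑' n : ℕ, 2 / (Real.exp (2 * Real.pi * ((1 - x) * 1)) - 1) *
    Real.exp (-2 * Real.pi * 1) ^ n with hB
  have hsum : ∀ τ : ℍ, 1 ≤ τ.im → ‖∑' n, zt (nm τ) (nm (x * τ + y)) n‖ ≤ B := by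
    intro τ hτ
    exact tsum_of_norm_bounded (summable_bound _ one_pos).hasSum
      (fun n => zt_bound' hx hx1 one_pos hτ n)
  obtain ⟨C, hC⟩ : ∃ C : ℝ, ∀ τ : ℍ, 1 ≤ τ.im →
      ‖(nm (x * τ + y) + 1) / (nm (x * τ + y) - 1)‖ ≤ C := by
    rcases eq_or_lt_of_le hx with h0 | h0
    · refine ⟨‖(nm y + 1) / (nm y - 1)‖, fun τ _ => ?_⟩
      rw [← h0]; simp
    · refine ⟨2 / (1 - Real.exp (-2 * Real.pi * x)), fun τ hτ => ?_⟩
      have h1 : ‖nm (x * τ + y)‖ ≤ Real.exp (-2 * Real.pi * x) := by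
        rw [norm_nm, Real.exp_le_exp, im_pt]
        have : x ≤ x * (τ : ℂ).im := le_mul_of_one_le_right h0.le hτ
        nlinarith
      have h2 : Real.exp (-2 * Real.pi * x) < 1 := by
        rw [Real.exp_lt_one_iff]; nlinarith
      rw [norm_div]
      have h3 : ‖nm (x * τ + y) + 1‖ ≤ 2 := by
        refine (norm_add_le _ _).trans ?_
        rw [norm_one]; linarith
      have h4 : 1 - Real.exp (-2 * Real.pi * x) ≤ ‖nm (x * τ + y) - 1‖ := by
        have := norm_sub_norm_le (1 : ℂ) (nm (x * τ + y))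
        rw [norm_one, norm_sub_rev] at this
        linarith
      have h5 : 0 < 1 - Real.exp (-2 * Real.pi * x) := by linarith
      gcongr
  rw [isBoundedAtImInfty_iff]
  refine ⟨Real.pi * (C + 2 * B) + ‖(2 * Real.pi * Complex.I * x : ℂ)‖, 1, fun τ hτ => ?_⟩
  rw [Ev, Zf, Zw]
  refine (norm_add_le _ _).trans (add_le_add_left ?_ _)
  rw [norm_mul, norm_mul, Complex.norm_I, mul_one, Complex.norm_real, Real.norm_eq_abs,
    abs_of_pos hπ]
  gcongr
  refine (norm_add_le _ _).trans (add_le_add (hC τ hτ) ?_)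
  rw [norm_mul]
  have := hsum τ hτ
  simp only [Complex.norm_ofNat]
  linarith

theorem isBoundedAtImInfty_Ev {x y : ℝ} (h : NI x y) : IsBoundedAtImInfty (Ev x y) := by
  rw [← Ev_fract h]
  exact isBoundedAtImInfty_Ev_aux (Int.fract_nonneg x) (Int.fract_lt_one x)

theorem isBoundedAtImInfty_Ev_slash {x y : ℝ} (h : NI x y) (γ : SL(2, ℤ)) :
    IsBoundedAtImInfty ((Ev x y) ∣[(1 : ℤ)] γ) := by
  rw [Ev_slash γ h]
  exact isBoundedAtImInfty_Ev (h.mul γ)

end

end Fermat.Agent.H58
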