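import Mathlib
import Fermat.Agent.H58Eis2
import Fermat.Prelude.Def_FLTPrelim_Modularity
import Fermat.Prelude.Sol.S_UpperHalfPlane_qCoeff_heckeT

/-! Weight one Eisenstein functions: `q`-expansion, modular forms on `Γ₁(N)`. -/

set_option autoImplicit false

namespace Fermat.Agent.H58

open Filter Topology UpperHalfPlane ModularForm
open Complex (exp)
open CongruenceSubgroup
open scoped MatrixGroups ModularForm Manifold

noncomputable section

theorem summable_rpow_mul {r : ℝ} (hr0 : 0 ≤ r) (hr : r < 1) :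
    Summable (fun p : ℕ × ℕ => r ^ ((p.1 + 1) * (p.2 + 1))) := by
  have h1 : Summable (fun p : ℕ × ℕ => r ^ p.1 * r ^ p.2) :=
    (summable_geometric_of_lt_one hr0 hr).mul_of_nonneg (summable_geometric_of_lt_one hr0 hr)
      (fun n => by positivity) (fun n => by positivity)
  refine Summable.of_nonneg_of_le (fun p => by positivity) (fun p => ?_) h1
  rw [← pow_add]
  apply pow_le_pow_of_le_one hr0 hr.le
  nlinarith [Nat.zero_le (p.1 * p.2)]

theorem hasSum_zt_aux {q w : ℂ} (hq : ‖q‖ < 1) (hw : ‖w‖ = 1) (n : ℕ) :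
    HasSum (fun m : ℕ => q ^ ((n + 1) * (m + 1)) * (w⁻¹ ^ (m + 1) - w ^ (m + 1))) (zt q w n) := by
  have hw0 : w ≠ 0 := by rintro rfl; simp at hw
  have hqn : ‖q ^ (n + 1)‖ < 1 := by
    rw [norm_pow]; exact pow_lt_one₀ (norm_nonneg _) hq (by omega)
  have h1 : ‖q ^ (n + 1) * w⁻¹‖ < 1 := by rwa [norm_mul, norm_inv, hw, inv_one, mul_one]
  have h2 : ‖q ^ (n + 1) * w‖ < 1 := by rwa [norm_mul, hw, mul_one]
  have e1 := (hasSum_geometric_of_norm_lt_one h1).mul_left (q ^ (n + 1) * w⁻¹)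
  have e2 := (hasSum_geometric_of_norm_lt_one h2).mul_left (q ^ (n + 1) * w)
  have e3 := e1.sub e2
  have h3 : w - q ^ (n + 1) ≠ 0 := by
    intro h
    have : ‖w‖ = ‖q ^ (n + 1)‖ := by rw [sub_eq_zero.1 h]
    linarith
  have h4 : 1 - q ^ (n + 1) * w ≠ 0 := by
    intro h
    have : ‖q ^ (n + 1) * w‖ = 1 := by rw [← sub_eq_zero.1 h, norm_one]
    linarith
  have e4 : q ^ (n + 1) * w⁻¹ * (1 - q ^ (n + 1) * w⁻¹)⁻¹ -
      q ^ (n + 1) * w * (1 - q ^ (n + 1) * w)⁻¹ = zt q w n := by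
    rw [zt]
    have : 1 - q ^ (n + 1) * w⁻¹ = (w - q ^ (n + 1)) / w := by field_simp
    rw [this, inv_div, div_eq_mul_inv, div_eq_mul_inv, div_eq_mul_inv]
    rw [show q ^ (n + 1) * w⁻¹ * (w * (w - q ^ (n + 1))⁻¹) =
      q ^ (n + 1) * (w⁻¹ * w) * (w - q ^ (n + 1))⁻¹ by ring, inv_mul_cancel₀ hw0, mul_one]
  rw [e4] at e3
  refine e3.congr_fun ?_ 
  intro m
  rw [pow_mul, mul_pow, mul_pow]
  ring

/-- Divisor sums occurring as coefficients of weight one Eisenstein series. -/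
def dsum (w : ℂ) (n : ℕ) : ℂ := ∑ d ∈ n.divisors, (w⁻¹ ^ d - w ^ d)

theorem hasSum_tsum_zt {q w : ℂ} (hq : ‖q‖ < 1) (hw : ‖w‖ = 1) :
    HasSum (fun n : ℕ+ => dsum w n * q ^ (n : ℕ)) (∑' n, zt q w n) := by
  have hw0 : w ≠ 0 := by rintro rfl; simp at hw
  set F : ℕ × ℕ → ℂ := fun p => q ^ ((p.1 + 1) * (p.2 + 1)) * (w⁻¹ ^ (p.2 + 1) - w ^ (p.2 + 1))
    with hF
  have hFs : Summable F := by
    refine Summable.of_norm_bounded (g := fun p : ℕ × ℕ => 2 * ‖q‖ ^ ((p.1 + 1) * (p.2 + 1)))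
      ((summable_rpow_mul (norm_nonneg q) hq).mul_left 2) (fun p => ?_)
    rw [hF, norm_mul, norm_pow, mul_comm]
    have : ‖w⁻¹ ^ (p.2 + 1) - w ^ (p.2 + 1)‖ ≤ 2 := by
      refine (norm_sub_le _ _).trans ?_
      rw [norm_pow, norm_pow, norm_inv, hw]
      norm_num
    gcongr
  have h1 : HasSum F (∑' n, zt q w n) := by
    have h2 := hFs.hasSum
    have h3 := h2.prod_fiberwise (fun n => hasSum_zt_aux hq hw n)
    rw [h3.tsum_eq]
    exact h2
  -- move to positive integers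
  have h2 : HasSum (fun p : ℕ+ × ℕ+ => q ^ ((p.1 : ℕ) * (p.2 : ℕ)) *
      (w⁻¹ ^ (p.2 : ℕ) - w ^ (p.2 : ℕ))) (∑' n, zt q w n) := by
    have := (Equiv.prodCongr Equiv.pnatEquivNat Equiv.pnatEquivNat).hasSum_iff (f := F)
      (a := ∑' n, zt q w n)
    rw [← this] at h1
    refine h1.congr_fun ?_
    rintro ⟨a, b⟩
    simp [hF]
  have h3 := sigmaAntidiagonalEquivProd.hasSum_iff.2 h2
  have h4 := h3.sigma (fun n => hasSum_fintype _)
  refine h4.congr_fun fun n => ?_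
  simp only [Function.comp_apply]
  rw [dsum, Finset.sum_mul, ← Nat.sum_divisorsAntidiagonal' (fun a b => (w⁻¹ ^ b - w ^ b) * q ^ (n : ℕ)),
    ← Finset.sum_coe_sort]
  refine Finset.sum_congr rfl fun x _ => ?_
  obtain ⟨⟨a, b⟩, hx⟩ := x
  rw [Nat.mem_divisorsAntidiagonal] at hx
  simp only [sigmaAntidiagonalEquivProd, divisorsAntidiagonalFactors, Equiv.coe_fn_mk, PNat.mk_coe]
  rw [hx.1, mul_comm]

/-- Coefficients of weight one Eisenstein series `Ev 0 y`. -/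
def cE (w : ℂ) (n : ℕ) : ℂ :=
  if n = 0 then Real.pi * Complex.I * ((w + 1) / (w - 1)) else 2 * Real.pi * Complex.I * dsum w n

theorem hasSum_Ev (y : ℝ) (τ : ℍ) :
    HasSum (fun n : ℕ => cE (nm y) n • Function.Periodic.qParam 1 τ ^ n) (Ev 0 y τ) := by
  have hq : ‖nm τ‖ < 1 := norm_nm_lt_one τ.im_pos
  have hw : ‖nm y‖ = 1 := by rw [norm_nm]; simp
  have h := hasSum_tsum_zt hq hw
  have hq' : Function.Periodic.qParam 1 τ = nm τ := by
    rw [P2MW.S_UpperHalfPlane_qCoeff_heckeT.M4cP1W2.qParam_one]; rfl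
  rw [hq']
  have h1 : HasSum (fun n : ℕ => cE (nm y) (n + 1) • nm τ ^ (n + 1))
      (2 * Real.pi * Complex.I * ∑' n, zt (nm τ) (nm y) n) := by
    have h2 := (Equiv.pnatEquivNat.symm.hasSum_iff).2 h
    have h3 := h2.mul_left (2 * Real.pi * Complex.I)
    refine h3.congr_fun fun n => ?_
    simp only [cE, smul_eq_mul, Function.comp_apply, Nat.add_eq_zero_iff, one_ne_zero, and_false,
      if_false]
    have : ((Equiv.pnatEquivNat.symm n : ℕ+) : ℕ) = n + 1 := by simp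
    rw [this]; ring
  have h2 := (hasSum_nat_add_iff (f := fun n : ℕ => cE (nm y) n • nm τ ^ n) 1).1 h1
  have e : Ev 0 y τ = 2 * Real.pi * Complex.I * ∑' n, zt (nm τ) (nm y) n +
      ∑ i ∈ Finset.range 1, cE (nm y) i • nm τ ^ i := by
    rw [Finset.range_one, Finset.sum_singleton, pow_zero, smul_eq_mul, mul_one, cE, if_pos rfl,
      Ev, Zf, Zw]
    push_cast
    rw [zero_mul, zero_add]
    ring
  rw [e]
  exact h2

end

end Fermat.Agent.H58
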