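import Mathlib
import Fermat.Agent.H58Eis2

/-! Weight two: the functions `Pv x y` (`℘`-values at `x τ + y`, up to the Eisenstein constant):
invariance, transformation law of differences, holomorphy, boundedness, `q_M`-expansions. -/

set_option autoImplicit false

namespace Fermat.Agent.H58

open Filter Topology UpperHalfPlane ModularForm
open Complex (exp)
open scoped MatrixGroups ModularForm Manifold

noncomputable section

/-- The (negated, normalised) derivative of the zeta function. -/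
def Pf (z τ : ℂ) : ℂ := - (2 * Real.pi * Complex.I)⁻¹ ^ 2 * deriv (fun z => Zf z τ) z

theorem two_pi_I_ne_zero : (2 * Real.pi * Complex.I : ℂ) ≠ 0 := by simp [Real.pi_ne_zero]

theorem Pf_add_int (z τ : ℂ) (n : ℤ) : Pf (z + n) τ = Pf z τ := by
  have h : (fun z => Zf (z + n) τ) = fun z => Zf z τ := by
    funext z; exact Zf_add_int z τ n
  rw [Pf, Pf]
  congr 1
  rw [← deriv_comp_add_const (fun z => Zf z τ) (n : ℂ) z]
  rw [h]

theorem Pf_neg (z τ : ℂ) : Pf (-z) τ = Pf z τ := by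
  have h : (fun z => Zf (-z) τ) = fun z => - Zf z τ := by
    funext z; exact Zf_neg z τ
  rw [Pf, Pf]
  congr 1
  have h1 := deriv_comp_neg (fun z => Zf z τ) z
  rw [h] at h1
  rw [deriv.fun_neg] at h1
  exact (neg_injective h1).symm

theorem Pf_tau_add_one (z τ : ℂ) : Pf z (τ + 1) = Pf z τ := by
  rw [Pf, Pf]
  congr 2
  funext z; exact Zf_tau_add_one z τ

theorem isOpen_not_lattice (τ : ℂ) :
    IsOpen {z : ℂ | (¬ ∃ n : ℤ, z = n) ∧ ¬ ∃ n : ℤ, z + τ = n} := by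
  have h1 : IsClosed (Set.range (fun n : ℤ => (n : ℂ))) := Complex.isClosed_range_intCast
  have h2 : IsOpen {z : ℂ | ¬ ∃ n : ℤ, z = n} := by
    have : {z : ℂ | ¬ ∃ n : ℤ, z = n} = (Set.range (fun n : ℤ => (n : ℂ)))ᶜ := by
      ext z; simp [eq_comm]
    rw [this]; exact h1.isOpen_compl
  exact h2.inter (h2.preimage (continuous_id.add continuous_const))

theorem Pf_add_tau {z τ : ℂ} (hτ : 0 < τ.im) (h1 : ¬ ∃ n : ℤ, z = n)
    (h2 : ¬ ∃ n : ℤ, z + τ = n) : Pf (z + τ) τ = Pf z τ := by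
  rw [Pf, Pf]
  congr 1
  rw [← deriv_comp_add_const (fun z => Zf z τ) τ z]
  have : (fun z => Zf (z + τ) τ) =ᶠ[𝓝 z] fun z => Zf z τ - 2 * Real.pi * Complex.I := by
    filter_upwards [(isOpen_not_lattice τ).mem_nhds ⟨h1, h2⟩] with w hw
    exact Zf_add_tau hτ hw.1 hw.2
  rw [this.deriv_eq, deriv_sub_const]

theorem Pf_S {τ : ℂ} (hτ : 0 < τ.im) {z : ℂ} (hz : z ∈ Uf τ) (hz0 : z ≠ 0) :
    Pf (z / τ) (-1 / τ) = τ ^ 2 * Pf z τ - τ / (2 * Real.pi * Complex.I) := by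
  have h0 := tau_ne_zero hτ
  have hev : (fun z => Zf (z / τ) (-1 / τ)) =ᶠ[𝓝 z]
      fun z => τ * Zf z τ + 2 * Real.pi * Complex.I * z := by
    filter_upwards [isOpen_Uf.mem_nhds hz, isOpen_ne.mem_nhds hz0] with w hw hw0
    exact Zf_S hτ hw hw0
  obtain ⟨a, b, rfl⟩ := exists_coords hτ z
  obtain ⟨ha, hb⟩ := (mem_Uf_pt hτ a b).1 hz
  have key : ∀ c : ℝ, |c| < 1 → (∃ n : ℤ, c = n) → c = 0 := by
    rintro c hc ⟨n, rfl⟩
    have h1 : |(n : ℝ)| < 1 := hc
    rw [← Int.cast_abs] at h1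
    have h2 : |n| < 1 := by exact_mod_cast h1
    rw [Int.abs_lt_one_iff] at h2
    simp [h2]
  have h1 : ¬ ∃ n : ℤ, (a * τ + b : ℂ) = n := by
    apply not_int_of_pt hτ
    rintro ⟨h, h'⟩
    apply hz0
    rw [h, key b hb h']; simp
  have h2 : ¬ ∃ n : ℤ, ((a * τ + b) / τ : ℂ) = n := by
    apply not_int_of_pt_div hτ
    rintro ⟨h, h'⟩
    apply hz0
    rw [h, key a ha h']; simp
  have d1 := differentiableAt_Zf hτ hz.1 h1
  have d2 := differentiableAt_Zf (im_S_pos hτ) hz.2 h2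
  have e1 : deriv (fun z => Zf (z / τ) (-1 / τ)) (a * τ + b) =
      deriv (fun z => Zf z (-1 / τ)) ((a * τ + b) / τ) * τ⁻¹ := by
    have h3 : HasDerivAt (fun z : ℂ => z / τ) τ⁻¹ (a * τ + b) := by
      have := (hasDerivAt_id (a * τ + b : ℂ)).div_const τ
      simpa using this
    exact (HasDerivAt.comp (a * τ + b : ℂ) d2.hasDerivAt h3).deriv
  have e2 : deriv (fun z => τ * Zf z τ + 2 * Real.pi * Complex.I * z) (a * τ + b) =
      τ * deriv (fun z => Zf z τ) (a * τ + b) + 2 * Real.pi * Complex.I := by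
    have h3 := (d1.hasDerivAt.const_mul τ).add
      ((hasDerivAt_id (a * τ + b : ℂ)).const_mul (2 * Real.pi * Complex.I))
    have h4 := h3.deriv
    rw [mul_one] at h4
    exact h4
  have h3 := hev.deriv_eq
  rw [e1, e2] at h3
  have h4 := two_pi_I_ne_zero
  rw [Pf, Pf]
  have h5 : deriv (fun z => Zf z (-1 / τ)) ((a * τ + b) / τ) =
      τ * (τ * deriv (fun z => Zf z τ) (a * τ + b) + 2 * Real.pi * Complex.I) := by
    rw [← h3]
    field_simp
  rw [h5]
  field_simp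
  ring

/-- `℘`-type functions. -/
def Pv (x y : ℝ) (τ : ℍ) : ℂ := Pf (x * τ + y) τ

theorem Pv_neg (x y : ℝ) : Pv (-x) (-y) = Pv x y := by
  ext τ
  rw [Pv, Pv, ← Pf_neg]
  congr 1
  push_cast; ring

theorem Pv_add_one_left {x y : ℝ} (h : NI x y) (τ : ℍ) : Pv (x + 1) y τ = Pv x y τ := by
  have h1 : NI (x + 1) y := by simpa using h.add_int 1 0
  have e : (((x + 1 : ℝ) : ℂ) * τ + y) = (x * τ + y) + τ := by push_cast; ring
  have h2 : ¬ ∃ n : ℤ, (x * τ + y : ℂ) + τ = n := by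
    rw [← e]; exact h1.not_int τ
  rw [Pv, Pv, e, Pf_add_tau τ.im_pos (h.not_int τ) h2]

theorem Pv_add_int_left {x y : ℝ} (h : NI x y) (m : ℤ) (τ : ℍ) : Pv (x + m) y τ = Pv x y τ := by
  induction m using Int.induction_on with
  | zero => simp
  | succ i ih =>
    rw [← ih]
    have h1 : NI (x + (i : ℤ)) y := by simpa using h.add_int i 0
    have := Pv_add_one_left h1 τ
    rw [← this]
    congr 1
    push_cast; ring
  | pred i ih =>
    rw [← ih]
    have h1 : NI (x + ((-i - 1 : ℤ) : ℝ)) y := by simpa using h.add_int (-i - 1) 0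
    have := Pv_add_one_left h1 τ
    rw [← this]
    congr 1
    push_cast; ring

theorem Pv_add_int_right {x y : ℝ} (n : ℤ) (τ : ℍ) : Pv x (y + n) τ = Pv x y τ := by
  rw [Pv, Pv]
  have e : ((x : ℂ) * τ + ((y + n : ℝ) : ℂ)) = (x * τ + y) + n := by push_cast; ring
  rw [e, Pf_add_int]

theorem Pv_add_int {x y : ℝ} (h : NI x y) (m n : ℤ) (τ : ℍ) :
    Pv (x + m) (y + n) τ = Pv x y τ := by
  rw [Pv_add_int_right, Pv_add_int_left h]

theorem Pv_T (x y : ℝ) (τ : ℍ) : Pv x y (ModularGroup.T • τ) = Pv x (x + y) τ := by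
  rw [Pv, Pv]
  have e1 : ((ModularGroup.T • τ : ℍ) : ℂ) = τ + 1 := by
    rw [modular_T_smul, coe_vadd]; push_cast; ring
  rw [e1, Pf_tau_add_one]
  push_cast
  ring_nf

theorem Pv_S_aux {x y : ℝ} (h : NI x y) (hx : 0 ≤ x) (hx1 : x < 1) (hy : 0 ≤ y) (hy1 : y < 1)
    (τ : ℍ) : Pv x y (ModularGroup.S • τ) =
      (τ : ℂ) ^ 2 * Pv y (-x) τ - τ / (2 * Real.pi * Complex.I) := by
  have hτ := τ.im_pos
  have h0 : (τ : ℂ) ≠ 0 := ne_zero τ
  rw [Pv, Pv, coe_S_smul]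
  have hz : ((y : ℂ) * τ + ((-x : ℝ) : ℂ)) ∈ Uf τ := by
    rw [mem_Uf_pt hτ]
    rw [abs_neg, abs_of_nonneg hx, abs_of_nonneg hy]
    exact ⟨hy1, hx1⟩
  have hz0 : ((y : ℂ) * τ + ((-x : ℝ) : ℂ)) ≠ 0 := by
    intro h1
    exact h.swap.not_int τ ⟨0, by rw [h1]; simp⟩
  have e : ((y : ℂ) * τ + ((-x : ℝ) : ℂ)) / τ = x * (-1 / τ) + y := by
    field_simp
    push_cast
    ring
  have := Pf_S hτ hz hz0
  rw [e] at this
  rw [this]

theorem Pv_S {x y : ℝ} (h : NI x y) (τ : ℍ) :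
    Pv x y (ModularGroup.S • τ) =
      (τ : ℂ) ^ 2 * Pv y (-x) τ - τ / (2 * Real.pi * Complex.I) := by
  have hf : NI (Int.fract x) (Int.fract y) := by
    have := h.add_int (-⌊x⌋) (-⌊y⌋)
    simpa [Int.fract, sub_eq_add_neg] using this
  have h1 := Pv_S_aux hf (Int.fract_nonneg x) (Int.fract_lt_one x) (Int.fract_nonneg y)
    (Int.fract_lt_one y) τ
  have e1 : Pv (Int.fract x) (Int.fract y) (ModularGroup.S • τ) =
      Pv x y (ModularGroup.S • τ) := by
    have := Pv_add_int hf ⌊x⌋ ⌊y⌋ (ModularGroup.S • τ)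
    rw [Int.fract_add_floor, Int.fract_add_floor] at this
    exact this.symm
  have e2 : Pv (Int.fract y) (-Int.fract x) τ = Pv y (-x) τ := by
    have := Pv_add_int hf.swap ⌊y⌋ (-⌊x⌋) τ
    rw [Int.fract_add_floor] at this
    rw [← this]
    congr 1
    push_cast
    have := Int.fract_add_floor x
    linarith
  rw [← e1, h1, e2]

/-- Differences of `℘`-values: a form of weight two. -/
def Dv (x y x' y' : ℝ) : ℍ → ℂ := Pv x y - Pv x' y'

theorem Dv_slash_T (x y x' y' : ℝ) :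
    (Dv x y x' y') ∣[(2 : ℤ)] ModularGroup.T = Dv x (x + y) x' (x' + y') := by
  ext τ
  rw [SL_slash_apply, Dv, Dv, Pi.sub_apply, Pi.sub_apply, Pv_T, Pv_T]
  have : denom ModularGroup.T τ = 1 := by
    rw [ModularGroup.denom_apply]; simp [ModularGroup.T]
  rw [this]; simp

theorem Dv_slash_S {x y x' y' : ℝ} (h : NI x y) (h' : NI x' y') :
    (Dv x y x' y') ∣[(2 : ℤ)] ModularGroup.S = Dv y (-x) y' (-x') := by
  ext τ
  rw [SL_slash_apply, Dv, Dv, Pi.sub_apply, Pi.sub_apply, Pv_S h, Pv_S h']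
  have : denom ModularGroup.S τ = τ := by
    rw [ModularGroup.denom_apply]; simp [ModularGroup.S]
  rw [this]
  have h0 : (τ : ℂ) ≠ 0 := ne_zero τ
  have h1 : (τ : ℂ) ^ (-2 : ℤ) = ((τ : ℂ) ^ 2)⁻¹ := by
    rw [zpow_neg]; rfl
  rw [h1]
  field_simp
  ring

theorem Dv_slash (γ : SL(2, ℤ)) : ∀ {x y x' y' : ℝ}, NI x y → NI x' y' →
    (Dv x y x' y') ∣[(2 : ℤ)] γ = Dv (x * γ 0 0 + y * γ 1 0) (x * γ 0 1 + y * γ 1 1)
      (x' * γ 0 0 + y' * γ 1 0) (x' * γ 0 1 + y' * γ 1 1) := by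
  have hγ : γ ∈ Subgroup.closure {ModularGroup.S, ModularGroup.T} := by
    rw [SpecialLinearGroup.SL2Z_generators]; trivial
  have aux : ∀ (g : SL(2, ℤ)) (x y : ℝ),
      (x * (g⁻¹) 0 0 + y * (g⁻¹) 1 0) * g 0 0 + (x * (g⁻¹) 0 1 + y * (g⁻¹) 1 1) * g 1 0 = x ∧
      (x * (g⁻¹) 0 0 + y * (g⁻¹) 1 0) * g 0 1 + (x * (g⁻¹) 0 1 + y * (g⁻¹) 1 1) * g 1 1 = y := by
    intro g x y
    have hdet : (g 0 0 : ℝ) * g 1 1 - g 0 1 * g 1 0 = 1 := by
      have := Matrix.det_fin_two g.1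
      rw [g.2] at this
      exact_mod_cast this.symm
    constructor
    · simp [Matrix.SpecialLinearGroup.SL2_inv_expl]
      linear_combination x * hdet
    · simp [Matrix.SpecialLinearGroup.SL2_inv_expl]
      linear_combination y * hdet
  induction hγ using Subgroup.closure_induction with
  | mem g hg =>
    intro x y x' y' h h'
    rcases hg with rfl | rfl
    · rw [Dv_slash_S h h']
      simp [ModularGroup.S]
    · rw [Dv_slash_T]
      simp [ModularGroup.T]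
  | one => intro x y x' y' h h'; simp
  | mul g1 g2 _ _ h1 h2 =>
    intro x y x' y' h h'
    rw [SlashAction.slash_mul, h1 h h', h2 (h.mul g1) (h'.mul g1)]
    congr 1 <;> simp [Matrix.mul_apply, Fin.sum_univ_two] <;> ring
  | inv g _ hg =>
    intro x y x' y' h h'
    have h1 := hg (h.mul g⁻¹) (h'.mul g⁻¹)
    rw [(aux g x y).1, (aux g x y).2, (aux g x' y').1, (aux g x' y').2] at h1
    rw [← h1, ← SlashAction.slash_mul, mul_inv_cancel, SlashAction.slash_one]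

end

end Fermat.Agent.H58
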