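import Mathlib
import Fermat.Agent.H58Wp
import Fermat.Agent.H58Eis3

/-! The functions `Pv x y`: series, holomorphy, boundedness. -/

set_option autoImplicit false

namespace Fermat.Agent.H58

open Filter Topology UpperHalfPlane ModularForm
open Complex (exp)
open scoped MatrixGroups ModularForm Manifold

noncomputable section

/-- `n`-th term of the series for `Pf`. -/
def pt (q w : ℂ) (n : ℕ) : ℂ :=
  q ^ (n + 1) * w / (w - q ^ (n + 1)) ^ 2 + q ^ (n + 1) * w / (1 - q ^ (n + 1) * w) ^ 2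

theorem pt_bound {q w : ℂ} {ρ : ℝ} (hρ : 1 < ρ) (hq1 : ‖q‖ ≤ 1) (h1 : ρ * ‖q‖ ≤ ‖w‖)
    (h2 : ρ * (‖q‖ * ‖w‖) ≤ 1) (hw : w ≠ 0) (n : ℕ) :
    ‖pt q w n‖ ≤ 2 * ρ / (ρ - 1) ^ 2 * ‖q‖ ^ n := by
  have hρ0 : 0 < ρ - 1 := by linarith
  have hq0 : 0 ≤ ‖q‖ := norm_nonneg q
  have hwpos : 0 < ‖w‖ := norm_pos_iff.2 hw
  have hqn : ‖q‖ ^ (n + 1) ≤ ‖q‖ := by
    calc ‖q‖ ^ (n + 1) = ‖q‖ ^ n * ‖q‖ := pow_succ _ _
      _ ≤ 1 * ‖q‖ := by
        apply mul_le_mul_of_nonneg_right _ hq0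
        exact pow_le_one₀ hq0 hq1
      _ = ‖q‖ := one_mul _
  have e1 : ‖q ^ (n + 1) * w / (w - q ^ (n + 1)) ^ 2‖ ≤ ρ / (ρ - 1) ^ 2 * ‖q‖ ^ n := by
    rw [norm_div, norm_mul, norm_pow, norm_pow]
    have hd : (1 - 1 / ρ) * ‖w‖ ≤ ‖w - q ^ (n + 1)‖ := by
      have := norm_sub_norm_le w (q ^ (n + 1))
      rw [norm_pow] at this
      have h3 : ‖q‖ ≤ 1 / ρ * ‖w‖ := by
        rw [one_div, inv_mul_eq_div, le_div_iff₀ (by linarith)]; linarith
      linarith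
    have hpos : 0 < 1 - 1 / ρ := by
      rw [sub_pos, div_lt_one (by linarith)]; exact hρ
    have hd2 : ((1 - 1 / ρ) * ‖w‖) ^ 2 ≤ ‖w - q ^ (n + 1)‖ ^ 2 := by gcongr
    rw [div_le_iff₀ (lt_of_lt_of_le (by positivity) hd2)]
    have h4 : ‖q‖ * ‖w‖ ≤ 1 / ρ * ‖w‖ ^ 2 := by
      have : ‖q‖ ≤ 1 / ρ * ‖w‖ := by
        rw [one_div, inv_mul_eq_div, le_div_iff₀ (by linarith)]; linarith
      calc ‖q‖ * ‖w‖ ≤ (1 / ρ * ‖w‖) * ‖w‖ := by gcongr
        _ = _ := by ring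
    calc ‖q‖ ^ (n + 1) * ‖w‖ = ‖q‖ ^ n * (‖q‖ * ‖w‖) := by ring
      _ ≤ ‖q‖ ^ n * (1 / ρ * ‖w‖ ^ 2) := by gcongr
      _ = ρ / (ρ - 1) ^ 2 * ‖q‖ ^ n * ((1 - 1 / ρ) * ‖w‖) ^ 2 := by
          have : ρ ≠ 0 := by linarith
          have : ρ - 1 ≠ 0 := by linarith
          field_simp
      _ ≤ _ := by gcongr
  have e2 : ‖q ^ (n + 1) * w / (1 - q ^ (n + 1) * w) ^ 2‖ ≤ ρ / (ρ - 1) ^ 2 * ‖q‖ ^ n := by
    rw [norm_div, norm_mul, norm_pow, norm_pow]
    have hx : ‖q‖ * ‖w‖ ≤ 1 / ρ := by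
      rw [le_div_iff₀ (by linarith)]; linarith
    have hd : 1 - 1 / ρ ≤ ‖1 - q ^ (n + 1) * w‖ := by
      have := norm_sub_norm_le (1 : ℂ) (q ^ (n + 1) * w)
      rw [norm_mul, norm_pow, norm_one] at this
      have h3 : ‖q‖ ^ (n + 1) * ‖w‖ ≤ ‖q‖ * ‖w‖ := by gcongr
      linarith
    have hpos : 0 < 1 - 1 / ρ := by
      rw [sub_pos, div_lt_one (by linarith)]; exact hρ
    have hd2 : (1 - 1 / ρ) ^ 2 ≤ ‖1 - q ^ (n + 1) * w‖ ^ 2 := by gcongr
    rw [div_le_iff₀ (lt_of_lt_of_le (by positivity) hd2)]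
    calc ‖q‖ ^ (n + 1) * ‖w‖ = ‖q‖ ^ n * (‖q‖ * ‖w‖) := by ring
      _ ≤ ‖q‖ ^ n * (1 / ρ) := by gcongr
      _ = ρ / (ρ - 1) ^ 2 * ‖q‖ ^ n * (1 - 1 / ρ) ^ 2 := by
          have : ρ ≠ 0 := by linarith
          have : ρ - 1 ≠ 0 := by linarith
          field_simp
      _ ≤ _ := by gcongr
  calc ‖pt q w n‖ ≤ _ := norm_add_le _ _
    _ ≤ ρ / (ρ - 1) ^ 2 * ‖q‖ ^ n + ρ / (ρ - 1) ^ 2 * ‖q‖ ^ n := add_le_add e1 e2
    _ = _ := by ring

/-- Series for `Pf` in the strip. -/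
theorem Pf_eq {z τ : ℂ} (hτ : 0 < τ.im) (hz : |z.im| < τ.im) (hz1 : ¬ ∃ n : ℤ, z = n) :
    Pf z τ = nm z / (nm z - 1) ^ 2 + ∑' n, pt (nm τ) (nm z) n := by
  obtain ⟨s, hs1, hs2⟩ := exists_between (show |z.im| < τ.im from hz)
  have hπ := Real.pi_pos
  set U : Set ℂ := {z | |z.im| < s} with hU
  have hUo : IsOpen U := isOpen_lt (by fun_prop) continuous_const
  set ρ : ℝ := Real.exp (2 * Real.pi * (τ.im - s)) with hρ
  have hρ1 : 1 < ρ := by
    rw [hρ, Real.one_lt_exp_iff]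
    have : 0 < τ.im - s := by linarith
    positivity
  have hb : ∀ (n : ℕ) (z : ℂ), z ∈ U → ‖zt (nm τ) (nm z) n‖ ≤ 2 / (ρ - 1) * ‖nm τ‖ ^ n := by
    intro n z hz
    have hz' := abs_lt.1 (show |z.im| < s from hz)
    apply zt_bound hρ1 (norm_nm_lt_one hτ).le _ _ (nm_ne_zero z)
    · rw [norm_nm, norm_nm, hρ, ← Real.exp_add, Real.exp_le_exp]
      nlinarith
    · rw [norm_nm, norm_nm, hρ, ← Real.exp_add, ← Real.exp_add, Real.exp_le_one_iff]
      nlinarith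
  have hden1 : ∀ (n : ℕ) (z : ℂ), z ∈ U → nm z - nm τ ^ (n + 1) ≠ 0 := by
    intro n z hz h
    have hz' := abs_lt.1 (show |z.im| < s from hz)
    have h2 : ‖nm z‖ = ‖nm τ‖ ^ (n + 1) := by rw [← norm_pow, sub_eq_zero.1 h]
    have h3 : ‖nm τ‖ ^ (n + 1) ≤ ‖nm τ‖ := by
      rw [pow_succ]
      exact mul_le_of_le_one_left (norm_nonneg _)
        (pow_le_one₀ (norm_nonneg _) (norm_nm_lt_one hτ).le)
    have h4 : ‖nm τ‖ < ‖nm z‖ := by
      rw [norm_nm, norm_nm, Real.exp_lt_exp]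
      nlinarith
    linarith
  have hden2 : ∀ (n : ℕ) (z : ℂ), z ∈ U → 1 - nm τ ^ (n + 1) * nm z ≠ 0 := by
    intro n z hz h
    have hz' := abs_lt.1 (show |z.im| < s from hz)
    have h2 : ‖nm τ‖ ^ (n + 1) * ‖nm z‖ = 1 := by
      rw [← norm_pow, ← norm_mul, ← sub_eq_zero.1 h, norm_one]
    have h3 : ‖nm τ‖ ^ (n + 1) * ‖nm z‖ ≤ ‖nm τ‖ * ‖nm z‖ := by
      gcongr
      rw [pow_succ]
      exact mul_le_of_le_one_left (norm_nonneg _)
        (pow_le_one₀ (norm_nonneg _) (norm_nm_lt_one hτ).le)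
    have h4 : ‖nm τ‖ * ‖nm z‖ < 1 := by
      rw [norm_nm, norm_nm, ← Real.exp_add, Real.exp_lt_one_iff]
      nlinarith
    linarith
  have hderiv : ∀ (n : ℕ) (z : ℂ), z ∈ U → HasDerivAt (fun z => zt (nm τ) (nm z) n)
      (- (2 * Real.pi * Complex.I) * pt (nm τ) (nm z) n) z := by
    intro n z hz
    have h1 := hden1 n z hz
    have h2 := hden2 n z hz
    have h3 := hasDerivAt_nm z
    have a1 := (h3.sub_const (nm τ ^ (n + 1))).inv h1
    have a2 := ((h3.const_mul (nm τ ^ (n + 1))).const_sub 1)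
    have a3 := (h3.const_mul (nm τ ^ (n + 1))).div a2 h2
    have a4 := (a1.const_mul (nm τ ^ (n + 1))).sub a3
    refine (a4.congr_deriv ?_).congr_of_eventuallyEq ?_
    · unfold pt
      field_simp
      ring
    · filter_upwards with z
      simp only [zt, Pi.sub_apply, div_eq_mul_inv, Pi.mul_apply, Pi.inv_apply]
  have hzU : z ∈ U := hs1
  have hsum := Complex.hasSum_deriv_of_summable_norm
    ((summable_geometric_of_lt_one (norm_nonneg _) (norm_nm_lt_one hτ)).mul_left (2 / (ρ - 1)))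
    (fun n z hz => ((hderiv n z hz).differentiableAt).differentiableWithinAt) hUo hb hzU
  have hdz := hderiv
  have h1 : deriv (fun w => ∑' n, zt (nm τ) (nm w) n) z =
      - (2 * Real.pi * Complex.I) * ∑' n, pt (nm τ) (nm z) n := by
    rw [← hsum.tsum_eq, ← tsum_mul_left]
    exact tsum_congr fun n => (hderiv n z hzU).deriv
  have hUo' : IsOpen {z : ℂ | |z.im| < τ.im} := isOpen_lt (by fun_prop) continuous_const
  have hd := (differentiableOn_tsum_zt hτ z hz).differentiableAt (hUo'.mem_nhds hz)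
  have h2 : nm z - 1 ≠ 0 := by
    rw [sub_ne_zero, Ne, nm_eq_one_iff]; exact hz1
  have h3 := hasDerivAt_nm z
  have h4 : HasDerivAt (fun z => (nm z + 1) / (nm z - 1))
      (-(2 * Real.pi * Complex.I) * (2 * nm z / (nm z - 1) ^ 2)) z := by
    refine ((h3.add_const 1).div (h3.sub_const 1) h2).congr_deriv ?_
    field_simp
    ring
  have h5 : HasDerivAt (fun z => Zf z τ)
      (Real.pi * Complex.I * (-(2 * Real.pi * Complex.I) * (2 * nm z / (nm z - 1) ^ 2) +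
        2 * (- (2 * Real.pi * Complex.I) * ∑' n, pt (nm τ) (nm z) n))) z := by
    have h6 := hd.hasDerivAt
    rw [h1] at h6
    exact (h4.add (h6.const_mul 2)).const_mul (Real.pi * Complex.I)
  rw [Pf, h5.deriv]
  have h7 := two_pi_I_ne_zero
  have hpi : (Real.pi : ℂ) ≠ 0 := by exact_mod_cast Real.pi_ne_zero
  have hI := Complex.I_ne_zero
  field_simp
  ring

theorem pt_bound' {x y δ : ℝ} (hx : 0 ≤ x) (hx1 : x < 1) (hδ : 0 < δ) {t : ℂ} (ht : δ ≤ t.im)
    (n : ℕ) : ‖pt (nm t) (nm (x * t + y)) n‖ ≤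
      2 * Real.exp (2 * Real.pi * ((1 - x) * δ)) / (Real.exp (2 * Real.pi * ((1 - x) * δ)) - 1) ^ 2 *
        Real.exp (-2 * Real.pi * δ) ^ n := by
  have hπ := Real.pi_pos
  have ht0 : 0 < t.im := lt_of_lt_of_le hδ ht
  have hρ1 : 1 < Real.exp (2 * Real.pi * ((1 - x) * δ)) := by
    rw [Real.one_lt_exp_iff]
    have : 0 < 1 - x := by linarith
    positivity
  have h1 := pt_bound (q := nm t) (w := nm (x * t + y)) hρ1 (norm_nm_lt_one ht0).le ?_ ?_
    (nm_ne_zero _) n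
  · refine h1.trans ?_
    have : 0 < Real.exp (2 * Real.pi * ((1 - x) * δ)) - 1 := by linarith
    gcongr
    rw [norm_nm, Real.exp_le_exp]
    nlinarith
  · rw [norm_nm, norm_nm, ← Real.exp_add, Real.exp_le_exp, im_pt]
    have h3 : (1 - x) * δ ≤ (1 - x) * t.im := by
      apply mul_le_mul_of_nonneg_left ht; linarith
    nlinarith
  · rw [norm_nm, norm_nm, ← Real.exp_add, ← Real.exp_add, Real.exp_le_one_iff, im_pt]
    have h3 : (1 - x) * δ ≤ 1 * t.im := by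
      apply mul_le_mul (by linarith) ht hδ.le (by linarith)
    have h4 : 0 ≤ x * t.im := by positivity
    nlinarith

theorem Pv_eq_series {x y : ℝ} (h : NI x y) (hx : 0 ≤ x) (hx1 : x < 1) {t : ℂ} (ht : 0 < t.im) :
    Pf (x * t + y) t = nm (x * t + y) / (nm (x * t + y) - 1) ^ 2 +
      ∑' n, pt (nm t) (nm (x * t + y)) n := by
  apply Pf_eq ht
  · rw [im_pt, abs_of_nonneg (by positivity)]
    nlinarith
  · exact h.not_int ⟨t, ht⟩

theorem differentiableOn_Pv_aux {x y : ℝ} (h : NI x y) (hx : 0 ≤ x) (hx1 : x < 1) :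
    DifferentiableOn ℂ (fun t : ℂ => Pf (x * t + y) t) {t | 0 < t.im} := by
  have key : DifferentiableOn ℂ (fun t : ℂ => nm (x * t + y) / (nm (x * t + y) - 1) ^ 2 +
      ∑' n, pt (nm t) (nm (x * t + y)) n) {t | 0 < t.im} := by
    intro t ht
    have ht : 0 < t.im := ht
    set δ : ℝ := t.im / 2 with hδ
    have hδ0 : 0 < δ := by positivity
    set U : Set ℂ := {t | δ < t.im} with hU
    have hUo : IsOpen U := isOpen_lt continuous_const (by fun_prop)
    have htU : t ∈ U := by show δ < t.im; linarith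
    have hd : DifferentiableOn ℂ (fun t : ℂ => ∑' n, pt (nm t) (nm (x * t + y)) n) U := by
      apply Complex.differentiableOn_tsum_of_summable_norm (summable_bound
        (2 * Real.exp (2 * Real.pi * ((1 - x) * δ)) /
          (Real.exp (2 * Real.pi * ((1 - x) * δ)) - 1) ^ 2) hδ0) _ hUo
        (fun n s hs => pt_bound' hx hx1 hδ0 (le_of_lt hs) n)
      intro n s hs
      have hs0 : 0 < s.im := lt_trans hδ0 hs
      have h1 := pow_ne_zero 2 (zt_den1 h hs0 n)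
      have h2 := pow_ne_zero 2 (zt_den2 h hs0 n)
      have h3 : DifferentiableAt ℂ nm s := differentiable_nm s
      have h4 : DifferentiableAt ℂ (fun s : ℂ => nm (x * s + y)) s :=
        (differentiable_nm _).comp s (by fun_prop)
      have : DifferentiableAt ℂ (fun s : ℂ => pt (nm s) (nm (x * s + y)) n) s := by
        unfold pt
        fun_prop (disch := assumption)
      exact this.differentiableWithinAt
    have h1 := (hd t htU).differentiableAt (hUo.mem_nhds htU)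
    have h2 := pow_ne_zero 2 (zt_den0 h ht)
    have h4 : DifferentiableAt ℂ (fun s : ℂ => nm (x * s + y)) t :=
        (differentiable_nm _).comp t (by fun_prop)
    have : DifferentiableAt ℂ (fun t : ℂ => nm (x * t + y) / (nm (x * t + y) - 1) ^ 2 +
      ∑' n, pt (nm t) (nm (x * t + y)) n) t := by
      fun_prop (disch := assumption)
    exact this.differentiableWithinAt
  exact key.congr fun t ht => Pv_eq_series h hx hx1 ht

theorem Pv_fract {x y : ℝ} (h : NI x y) : Pv (Int.fract x) y = Pv x y := by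
  ext τ
  have := Pv_add_int_left h.fract ⌊x⌋ τ
  rw [Int.fract_add_floor] at this
  exact this.symm

theorem mdifferentiable_Pv {x y : ℝ} (h : NI x y) : MDiff (Pv x y) := by
  rw [← Pv_fract h, UpperHalfPlane.mdifferentiable_iff]
  refine (differentiableOn_Pv_aux h.fract (Int.fract_nonneg x) (Int.fract_lt_one x)).congr ?_
  intro t ht
  have ht : 0 < t.im := ht
  simp only [Function.comp_apply, Pv]
  rw [ofComplex_apply_of_im_pos ht]

theorem isBoundedAtImInfty_Pv_aux {x y : ℝ} (h : NI x y) (hx : 0 ≤ x) (hx1 : x < 1) :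
    IsBoundedAtImInfty (Pv x y) := by
  have hπ := Real.pi_pos
  set B : ℝ := ∑' n : ℕ, 2 * Real.exp (2 * Real.pi * ((1 - x) * 1)) /
    (Real.exp (2 * Real.pi * ((1 - x) * 1)) - 1) ^ 2 * Real.exp (-2 * Real.pi * 1) ^ n with hB
  have hsum : ∀ τ : ℍ, 1 ≤ τ.im → ‖∑' n, pt (nm τ) (nm (x * τ + y)) n‖ ≤ B := by
    intro τ hτ
    exact tsum_of_norm_bounded (summable_bound _ one_pos).hasSum
      (fun n => pt_bound' hx hx1 one_pos hτ n)
  obtain ⟨C, hC⟩ : ∃ C : ℝ, ∀ τ : ℍ, 1 ≤ τ.im →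
      ‖nm (x * τ + y) / (nm (x * τ + y) - 1) ^ 2‖ ≤ C := by
    rcases eq_or_lt_of_le hx with h0 | h0
    · refine ⟨‖nm y / (nm y - 1) ^ 2‖, fun τ _ => ?_⟩
      rw [← h0]; simp
    · refine ⟨1 / (1 - Real.exp (-2 * Real.pi * x)) ^ 2, fun τ hτ => ?_⟩
      have h1 : ‖nm (x * τ + y)‖ ≤ Real.exp (-2 * Real.pi * x) := by
        rw [norm_nm, Real.exp_le_exp, im_pt]
        have : x ≤ x * (τ : ℂ).im := le_mul_of_one_le_right h0.le hτ
        nlinarith
      have h2 : Real.exp (-2 * Real.pi * x) < 1 := by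
        rw [Real.exp_lt_one_iff]; nlinarith
      rw [norm_div, norm_pow]
      have h4 : 1 - Real.exp (-2 * Real.pi * x) ≤ ‖nm (x * τ + y) - 1‖ := by
        have := norm_sub_norm_le (1 : ℂ) (nm (x * τ + y))
        rw [norm_one, norm_sub_rev] at this
        linarith
      have h5 : 0 < 1 - Real.exp (-2 * Real.pi * x) := by linarith
      have h6 : ‖nm (x * τ + y)‖ ≤ 1 := by linarith
      gcongr
  rw [isBoundedAtImInfty_iff]
  refine ⟨C + B, 1, fun τ hτ => ?_⟩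
  rw [Pv, Pv_eq_series h hx hx1 τ.im_pos]
  exact (norm_add_le _ _).trans (add_le_add (hC τ hτ) (hsum τ hτ))

theorem isBoundedAtImInfty_Pv {x y : ℝ} (h : NI x y) : IsBoundedAtImInfty (Pv x y) := by
  rw [← Pv_fract h]
  exact isBoundedAtImInfty_Pv_aux h.fract (Int.fract_nonneg x) (Int.fract_lt_one x)

theorem mdifferentiable_Dv {x y x' y' : ℝ} (h : NI x y) (h' : NI x' y') :
    MDiff (Dv x y x' y') := (mdifferentiable_Pv h).sub (mdifferentiable_Pv h')

theorem isBoundedAtImInfty_Dv {x y x' y' : ℝ} (h : NI x y) (h' : NI x' y') :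
    IsBoundedAtImInfty (Dv x y x' y') := by
  have := (isBoundedAtImInfty_Pv h).add ((isBoundedAtImInfty_Pv h').neg)
  rwa [← sub_eq_add_neg] at this

theorem isBoundedAtImInfty_Dv_slash {x y x' y' : ℝ} (h : NI x y) (h' : NI x' y')
    (γ : SL(2, ℤ)) : IsBoundedAtImInfty ((Dv x y x' y') ∣[(2 : ℤ)] γ) := by
  rw [Dv_slash γ h h']
  exact isBoundedAtImInfty_Dv (h.mul γ) (h'.mul γ)

end

end Fermat.Agent.H58
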