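import Mathlib
import Fermat.Agent.H58Wp2

/-! The functions `Pv (a/M) (b/M)`: `q_M`-expansions. -/

set_option autoImplicit false

namespace Fermat.Agent.H58

open Filter Topology UpperHalfPlane ModularForm
open Complex (exp)
open scoped MatrixGroups ModularForm Manifold

noncomputable section

theorem natDiv_eq_iff {M : ℕ} [NeZero M] {a' e : ℕ} (haM : a' ≤ M) (he : 0 < e) :
    ((e : ZMod M) = a') ↔ ∃ n : ℕ, e = n * M + a' := by
  constructor
  · intro h
    rw [ZMod.natCast_eq_natCast_iff] at h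
    have hle : a' ≤ e := by
      by_contra hlt
      push Not at hlt
      have h1 := (Nat.modEq_iff_dvd' hlt.le).1 h
      have h2 := Nat.le_of_dvd (by omega) h1
      omega
    obtain ⟨c, hc⟩ := (Nat.modEq_iff_dvd' hle).1 h.symm
    exact ⟨c, by rw [mul_comm]; omega⟩
  · rintro ⟨n, rfl⟩
    push_cast
    simp

theorem summable_succ_mul_pow {r : ℝ} (hr0 : 0 ≤ r) (hr : r < 1) :
    Summable (fun m : ℕ => ((m : ℝ) + 1) * r ^ m) := by
  have h1 := summable_pow_mul_geometric_of_norm_lt_one 1 (r := r) (by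
    rwa [Real.norm_of_nonneg hr0])
  have h2 := summable_geometric_of_lt_one hr0 hr
  refine (h1.add h2).congr fun m => ?_
  ring

/-- Sum over one class modulo `M`. -/
def csum (M : ℕ) (a : ZMod M) (u : ℂ) (n : ℕ) : ℂ :=
  ∑ m ∈ n.divisors, if ((n / m : ℕ) : ZMod M) = a then (m : ℂ) * u ^ m else 0

theorem hasSum_class (M : ℕ) [NeZero M] {a' : ℕ} (ha0 : 0 < a') (haM : a' ≤ M) {r u : ℂ}
    (hr : ‖r‖ < 1) (hu : ‖u‖ = 1) :
    HasSum (fun n : ℕ+ => csum M a' u n * r ^ (n : ℕ))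
      (∑' n : ℕ, (r ^ (n * M + a') * u) / (1 - r ^ (n * M + a') * u) ^ 2) := by
  have hM : 1 ≤ M := NeZero.one_le
  set F : ℕ × ℕ → ℂ := fun p => ((p.2 : ℂ) + 1) * (r ^ (p.1 * M + a') * u) ^ (p.2 + 1) with hF
  have hx : ∀ n : ℕ, ‖r ^ (n * M + a') * u‖ < 1 := by
    intro n
    rw [norm_mul, hu, mul_one, norm_pow]
    exact pow_lt_one₀ (norm_nonneg _) hr (by omega)
  have hrow : ∀ n : ℕ, HasSum (fun m => F (n, m))
      ((r ^ (n * M + a') * u) / (1 - r ^ (n * M + a') * u) ^ 2) := by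
    intro n
    have h1 := hasSum_coe_mul_geometric_of_norm_lt_one (hx n)
    have h2 := (hasSum_nat_add_iff' (f := fun m : ℕ => (m : ℂ) * (r ^ (n * M + a') * u) ^ m) 1).2 h1
    simp only [Finset.range_one, Finset.sum_singleton, Nat.cast_zero, zero_mul, sub_zero] at h2
    refine h2.congr_fun fun m => ?_
    simp only [hF]
    push_cast
    ring
  have hFs : Summable F := by
    have hs : Summable (fun p : ℕ × ℕ => ‖r‖ ^ p.1 * (((p.2 : ℝ) + 1) * ‖r‖ ^ p.2)) :=
      (summable_geometric_of_lt_one (norm_nonneg r) hr).mul_of_nonneg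
        (summable_succ_mul_pow (norm_nonneg r) hr) (fun n => by positivity)
        (fun n => by positivity)
    refine Summable.of_norm_bounded hs (fun p => ?_)
    rw [hF, norm_mul, norm_pow, norm_mul, norm_pow, hu, mul_one, ← pow_mul]
    have e1 : ‖((p.2 : ℂ) + 1)‖ = (p.2 : ℝ) + 1 := by
      have : ((p.2 : ℂ) + 1) = ((p.2 + 1 : ℕ) : ℂ) := by push_cast; ring
      rw [this, Complex.norm_natCast]; push_cast; ring
    rw [e1]
    have e2 : ‖r‖ ^ ((p.1 * M + a') * (p.2 + 1)) ≤ ‖r‖ ^ (p.1 + p.2) := by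
      apply pow_le_pow_of_le_one (norm_nonneg r) hr.le
      have : p.1 ≤ p.1 * M := Nat.le_mul_of_pos_right _ hM
      nlinarith [Nat.zero_le (p.1 * p.2), Nat.zero_le (p.1 * M * p.2), Nat.zero_le p.2,
        Nat.zero_le p.1]
    calc ((p.2 : ℝ) + 1) * ‖r‖ ^ ((p.1 * M + a') * (p.2 + 1))
        ≤ ((p.2 : ℝ) + 1) * ‖r‖ ^ (p.1 + p.2) := by gcongr
      _ = _ := by rw [pow_add]; ring
  have h1 : HasSum F (∑' n : ℕ, (r ^ (n * M + a') * u) / (1 - r ^ (n * M + a') * u) ^ 2) := by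
    have h2 := hFs.hasSum
    have h3 := h2.prod_fiberwise hrow
    rw [h3.tsum_eq]
    exact h2
  -- the injection into pairs of positive integers
  set G : ℕ+ × ℕ+ → ℂ := fun p => if ((p.1 : ℕ) : ZMod M) = a' then
    ((p.2 : ℕ) : ℂ) * u ^ (p.2 : ℕ) * r ^ ((p.1 : ℕ) * (p.2 : ℕ)) else 0 with hG
  set i : ℕ × ℕ → ℕ+ × ℕ+ := fun p => (⟨p.1 * M + a', by omega⟩, ⟨p.2 + 1, by omega⟩) with hi
  have hinj : Function.Injective i := by
    rintro ⟨n, m⟩ ⟨n', m'⟩ h
    simp only [hi, Prod.mk.injEq] at h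
    have h1 : n * M + a' = n' * M + a' := congrArg PNat.val h.1
    have h2 : m + 1 = m' + 1 := congrArg PNat.val h.2
    have h3 : n * M = n' * M := by omega
    have h4 : n = n' := Nat.eq_of_mul_eq_mul_right hM h3
    have h5 : m = m' := by omega
    rw [h4, h5]
  have hGi : G ∘ i = F := by
    funext p
    simp only [Function.comp_apply, hG, hi, PNat.mk_coe]
    have : (((p.1 * M + a' : ℕ) : ZMod M)) = a' := by push_cast; simp
    rw [if_pos this, hF]
    push_cast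
    rw [mul_pow, ← pow_mul]
    ring
  have h2 : HasSum G (∑' n : ℕ, (r ^ (n * M + a') * u) / (1 - r ^ (n * M + a') * u) ^ 2) := by
    rw [← hinj.hasSum_iff, hGi]
    · exact h1
    · rintro ⟨e, m⟩ hem
      simp only [hG]
      rw [if_neg]
      intro he
      apply hem
      obtain ⟨n, hn⟩ := (natDiv_eq_iff haM e.pos).1 he
      refine ⟨(n, (m : ℕ) - 1), ?_⟩
      simp only [hi, Prod.mk.injEq]
      constructor
      · apply PNat.eq; exact hn.symm
      · apply PNat.eq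
        have := m.pos
        show (m : ℕ) - 1 + 1 = m
        omega
  have h3 := sigmaAntidiagonalEquivProd.hasSum_iff.2 h2
  have h4 := h3.sigma (fun n => hasSum_fintype _)
  refine h4.congr_fun fun n => ?_
  simp only [Function.comp_apply]
  rw [csum, Finset.sum_mul, ← Nat.sum_divisorsAntidiagonal' (fun a b =>
    (if (a : ZMod M) = a' then (b : ℂ) * u ^ b else 0) * r ^ (n : ℕ)), ← Finset.sum_coe_sort]
  refine Finset.sum_congr rfl fun x _ => ?_
  obtain ⟨⟨a, b⟩, hx⟩ := x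
  rw [Nat.mem_divisorsAntidiagonal] at hx
  simp only [sigmaAntidiagonalEquivProd, divisorsAntidiagonalFactors, Equiv.coe_fn_mk, PNat.mk_coe,
    hG]
  rw [hx.1]
  split_ifs <;> simp

/-- `q_M`-coefficients of `Pv (a/M) (b/M)`, `u = exp(2πi b/M)`. -/
def cP (M : ℕ) (a : ZMod M) (u : ℂ) (n : ℕ) : ℂ :=
  if n = 0 then (if a = 0 then u / (1 - u) ^ 2 else 0) else csum M a u n + csum M (-a) u⁻¹ n

theorem summable_class_term {M : ℕ} [NeZero M] {a' : ℕ} {r u : ℂ} (ha0 : 0 < a')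
    (hr : ‖r‖ < 1) (hu : ‖u‖ = 1) :
    Summable (fun n : ℕ => (r ^ (n * M + a') * u) / (1 - r ^ (n * M + a') * u) ^ 2) := by
  have hM : 1 ≤ M := NeZero.one_le
  have h1 := (summable_geometric_of_lt_one (norm_nonneg r) hr).mul_left (1 / (1 - ‖r‖) ^ 2)
  refine Summable.of_norm_bounded h1 fun n => ?_
  have hx : ‖r ^ (n * M + a') * u‖ ≤ ‖r‖ ^ n := by
    rw [norm_mul, hu, mul_one, norm_pow]
    apply pow_le_pow_of_le_one (norm_nonneg r) hr.le
    have : n ≤ n * M := Nat.le_mul_of_pos_right _ hM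
    omega
  have hx2 : ‖r ^ (n * M + a') * u‖ ≤ ‖r‖ := by
    rw [norm_mul, hu, mul_one, norm_pow]
    calc ‖r‖ ^ (n * M + a') ≤ ‖r‖ ^ 1 := by
          apply pow_le_pow_of_le_one (norm_nonneg r) hr.le; omega
      _ = ‖r‖ := pow_one _
  have hd : 1 - ‖r‖ ≤ ‖1 - r ^ (n * M + a') * u‖ := by
    have := norm_sub_norm_le (1 : ℂ) (r ^ (n * M + a') * u)
    rw [norm_one] at this
    linarith
  have hpos : 0 < 1 - ‖r‖ := by linarith
  rw [norm_div, norm_pow, one_div, ← div_eq_inv_mul]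
  gcongr

theorem norm_nm_ofReal (y : ℝ) : ‖nm y‖ = 1 := by rw [norm_nm]; simp

theorem hasSum_Pv_aux {M : ℕ} [NeZero M] {a : ℕ} (haM : a < M) {b : ℤ}
    (h : NI ((a : ℝ) / M) ((b : ℝ) / M)) (τ : ℍ) :
    HasSum (fun n : ℕ => cP M a (nm ((b : ℝ) / M : ℝ)) n • Function.Periodic.qParam M τ ^ n)
      (Pv ((a : ℝ) / M) ((b : ℝ) / M) τ) := by
  have hM0 : (M : ℂ) ≠ 0 := by exact_mod_cast NeZero.ne M
  have hMR : (0 : ℝ) < M := by exact_mod_cast Nat.pos_of_ne_zero (NeZero.ne M)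
  set r : ℂ := nm (τ / M) with hr
  set u : ℂ := nm ((b : ℝ) / M : ℝ) with hu
  have hu1 : ‖u‖ = 1 := norm_nm_ofReal _
  have hu0 : u ≠ 0 := nm_ne_zero _
  have hr0 : r ≠ 0 := nm_ne_zero _
  have hq' : Function.Periodic.qParam M τ = r := by
    rw [hr, nm, Function.Periodic.qParam]
    congr 1
    push_cast
    ring
  have hr1 : ‖r‖ < 1 := by
    apply norm_nm_lt_one
    have : ((τ : ℂ) / M).im = τ.im / M := by
      rw [Complex.div_natCast_im]; rfl
    rw [this]
    exact div_pos τ.im_pos hMR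
  have hq : nm τ = r ^ M := by
    rw [hr, nm_nat_mul]; congr 1; field_simp
  have hw : nm (((a : ℝ) / M : ℝ) * τ + ((b : ℝ) / M : ℝ)) = r ^ a * u := by
    rw [nm_add, hr, nm_nat_mul]
    congr 2
    push_cast; field_simp
  have hser := Pv_eq_series h (by positivity) (by
    rw [div_lt_one hMR]; exact_mod_cast haM) τ.im_pos
  set a' : ℕ := if a = 0 then M else a with ha'
  have ha'0 : 0 < a' := by
    rw [ha']; split_ifs with h0
    · exact Nat.pos_of_ne_zero (NeZero.ne M)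
    · omega
  have ha'M : a' ≤ M := by
    rw [ha']; split_ifs <;> omega
  have ha'c : ((a' : ℕ) : ZMod M) = a := by
    rw [ha']; split_ifs with h0
    · rw [h0]; simp
    · rfl
  set a'' : ℕ := M - a with ha''
  have ha''0 : 0 < a'' := by omega
  have ha''M : a'' ≤ M := by omega
  have ha''c : ((a'' : ℕ) : ZMod M) = - a := by
    rw [ha'', Nat.cast_sub haM.le]; simp
  have hui : ‖u⁻¹‖ = 1 := by rw [norm_inv, hu1, inv_one]
  have L1 := hasSum_class M ha'0 ha'M hr1 hu1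
  have L2 := hasSum_class M ha''0 ha''M hr1 hui
  have S1 := summable_class_term (M := M) ha'0 hr1 hu1
  have S2 := summable_class_term (M := M) ha''0 hr1 hui
  rw [ha'c] at L1
  rw [ha''c] at L2
  -- the value
  have hval : Pv ((a : ℝ) / M) ((b : ℝ) / M) τ = (if (a : ZMod M) = 0 then u / (1 - u) ^ 2 else 0) +
      ((∑' n : ℕ, (r ^ (n * M + a') * u) / (1 - r ^ (n * M + a') * u) ^ 2) +
      ∑' n : ℕ, (r ^ (n * M + a'') * u⁻¹) / (1 - r ^ (n * M + a'') * u⁻¹) ^ 2) := by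
    rw [Pv, hser, hw, hq]
    have e1 : ∀ n : ℕ, (r ^ M) ^ (n + 1) * (r ^ a * u) / (r ^ a * u - (r ^ M) ^ (n + 1)) ^ 2 =
        (r ^ (n * M + a'') * u⁻¹) / (1 - r ^ (n * M + a'') * u⁻¹) ^ 2 := by
      intro n
      have e2 : (r ^ M) ^ (n + 1) = r ^ a * r ^ (n * M + a'') := by
        rw [← pow_mul, ← pow_add]; congr 1
        rw [ha'']
        have : M * (n + 1) = n * M + M := by ring
        omega
      rw [e2]
      have hra : r ^ a ≠ 0 := pow_ne_zero _ hr0
      by_cases hz : u - r ^ (n * M + a'') = 0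
      · have e3 : r ^ a * u - r ^ a * r ^ (n * M + a'') = 0 := by rw [← mul_sub, hz, mul_zero]
        have e4 : 1 - r ^ (n * M + a'') * u⁻¹ = 0 := by
          rw [← sub_eq_zero.1 hz, mul_inv_cancel₀ hu0, sub_self]
        rw [e3, e4]; simp
      · have e3 : r ^ a * u - r ^ a * r ^ (n * M + a'') = r ^ a * (u - r ^ (n * M + a'')) := by ring
        have e4 : 1 - r ^ (n * M + a'') * u⁻¹ = (u - r ^ (n * M + a'')) / u := by field_simp
        rw [e3, e4]
        field_simp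
    have e5 : ∀ n : ℕ, pt (r ^ M) (r ^ a * u) n =
        (r ^ (n * M + a'') * u⁻¹) / (1 - r ^ (n * M + a'') * u⁻¹) ^ 2 +
        (r ^ ((n + 1) * M + a) * u) / (1 - r ^ ((n + 1) * M + a) * u) ^ 2 := by
      intro n
      rw [pt, e1]
      congr 1
      have : (r ^ M) ^ (n + 1) * (r ^ a * u) = r ^ ((n + 1) * M + a) * u := by
        rw [← pow_mul, ← mul_assoc, ← pow_add]; congr 2; ring
      rw [this]
    simp_rw [e5]
    by_cases h0 : a = 0
    · have e6 : ∀ n : ℕ, r ^ ((n + 1) * M + a) = r ^ (n * M + a') := by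
        intro n
        rw [ha', if_pos h0, h0]; congr 1; ring
      simp_rw [e6]
      rw [S2.tsum_add S1, h0]
      simp only [pow_zero, one_mul, Nat.cast_zero, if_true]
      rw [show (u - 1) ^ 2 = (1 - u) ^ 2 by ring]
      ring
    · have hne : ¬ ((a : ZMod M) = 0) := by
        rw [ZMod.natCast_eq_zero_iff]
        intro hd
        exact absurd (Nat.le_of_dvd (by omega) hd) (by omega)
      rw [if_neg hne]
      have ha'a : a' = a := by rw [ha', if_neg h0]
      rw [ha'a] at S1 ⊢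
      have S1' : Summable (fun n : ℕ => (r ^ ((n + 1) * M + a) * u) /
          (1 - r ^ ((n + 1) * M + a) * u) ^ 2) := by
        exact (summable_nat_add_iff (f := fun n : ℕ => (r ^ (n * M + a) * u) /
          (1 - r ^ (n * M + a) * u) ^ 2) 1).2 S1
      rw [S2.tsum_add S1', S1.tsum_eq_zero_add]
      simp only [zero_mul, zero_add]
      rw [show (r ^ a * u - 1) ^ 2 = (1 - r ^ a * u) ^ 2 by ring]
      ring
  rw [hval, hq']
  have h1 : HasSum (fun n : ℕ => cP M a u (n + 1) • r ^ (n + 1))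
      ((∑' n : ℕ, (r ^ (n * M + a') * u) / (1 - r ^ (n * M + a') * u) ^ 2) +
      ∑' n : ℕ, (r ^ (n * M + a'') * u⁻¹) / (1 - r ^ (n * M + a'') * u⁻¹) ^ 2) := by
    have h2 := (Equiv.pnatEquivNat.symm.hasSum_iff).2 (L1.add L2)
    refine h2.congr_fun fun n => ?_
    simp only [cP, smul_eq_mul, Function.comp_apply, Nat.add_eq_zero_iff, one_ne_zero, and_false,
      if_false]
    have : ((Equiv.pnatEquivNat.symm n : ℕ+) : ℕ) = n + 1 := by simp
    rw [this]; ring
  have h2 := (hasSum_nat_add_iff (f := fun n : ℕ => cP M a u n • r ^ n) 1).1 h1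
  have e : (∑ i ∈ Finset.range 1, cP M a u i • r ^ i) =
      (if (a : ZMod M) = 0 then u / (1 - u) ^ 2 else 0) := by
    rw [Finset.range_one, Finset.sum_singleton, pow_zero, smul_eq_mul, mul_one, cP, if_pos rfl]
  rw [e, add_comm] at h2
  exact h2

theorem hasSum_Pv {M : ℕ} [NeZero M] {a b : ℤ}
    (h : NI ((a : ℝ) / M) ((b : ℝ) / M)) (τ : ℍ) :
    HasSum (fun n : ℕ => cP M a (nm ((b : ℝ) / M : ℝ)) n • Function.Periodic.qParam M τ ^ n)
      (Pv ((a : ℝ) / M) ((b : ℝ) / M) τ) := by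
  have hM : (M : ℤ) ≠ 0 := by exact_mod_cast NeZero.ne M
  have hMR : (M : ℝ) ≠ 0 := by exact_mod_cast NeZero.ne M
  set a₀ : ℕ := (a % M).toNat with ha₀
  have hnn : 0 ≤ a % M := Int.emod_nonneg _ hM
  have h1 : (a₀ : ℤ) = a % M := by rw [ha₀, Int.toNat_of_nonneg hnn]
  have h2 : a₀ < M := by
    have : (a₀ : ℤ) < M := by
      rw [h1]; exact Int.emod_lt_of_pos _ (by omega)
    exact_mod_cast this
  have h3 : (a : ℝ) / M = (a₀ : ℝ) / M + ((a / M : ℤ) : ℝ) := by
    have h4 : a = a₀ + M * (a / M) := by rw [h1]; exact (Int.emod_add_mul_ediv a M).symm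
    have h5 : (a : ℝ) = a₀ + M * ((a / M : ℤ) : ℝ) := by exact_mod_cast h4
    rw [h5]; field_simp
  have h6 : NI ((a₀ : ℝ) / M) ((b : ℝ) / M) := by
    have := h.add_int (-(a / M)) 0
    rw [h3] at this
    simpa using this
  have h7 : ((a : ℤ) : ZMod M) = ((a₀ : ℕ) : ZMod M) := by
    have h4 : a = a₀ + M * (a / M) := by rw [h1]; exact (Int.emod_add_mul_ediv a M).symm
    rw [h4]; push_cast; simp
  rw [h7, h3, Pv_add_int_left h6]
  exact hasSum_Pv_aux h2 h6 τ

end

end Fermat.Agent.H58
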