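import Mathlib
import Fermat.Agent.H58Wp3

/-!
# Leading terms of differences of division values, over a ring containing roots of unity
-/

set_option autoImplicit false
set_option linter.unusedSectionVars false

namespace Fermat.Agent.H58

open Complex

noncomputable section

section Roots

variable {D : ℕ} [NeZero D]

theorem sum_range_mul_pow (u : ℂ) (n : ℕ) :
    (u - 1) * ∑ j ∈ Finset.range n, (j : ℂ) * u ^ j =
      n * u ^ n - ∑ j ∈ Finset.range n, u ^ (j + 1) := by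
  induction n with
  | zero => simp
  | succ n ih =>
    rw [Finset.sum_range_succ, mul_add, ih, Finset.sum_range_succ]
    push_cast
    ring

theorem sum_range_root {u : ℂ} (hu : u ^ D = 1) (h1 : u ≠ 1) :
    (u - 1) * ∑ j ∈ Finset.range D, (j : ℂ) * u ^ j = D := by
  rw [sum_range_mul_pow, hu, mul_one]
  have h2 : ∑ j ∈ Finset.range D, u ^ (j + 1) = 0 := by
    have h3 : ∑ j ∈ Finset.range D, u ^ (j + 1) = u * ∑ j ∈ Finset.range D, u ^ j := by
      rw [Finset.mul_sum]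
      exact Finset.sum_congr rfl fun j _ => by ring
    rw [h3, geom_sum_eq h1, hu, sub_self, zero_div, mul_zero]
  rw [h2, sub_zero]

/-- A ring containing the `D`-th roots of unity and `1 / D`. -/
structure IsCyc (D : ℕ) (R : Subring ℂ) : Prop where
  root : ∀ z : ℂ, z ^ D = 1 → z ∈ R
  inv : ((D : ℂ))⁻¹ ∈ R

variable {R : Subring ℂ}

theorem IsCyc.inv_sub_one_mem (hR : IsCyc D R) {u : ℂ} (hu : u ^ D = 1) (h1 : u ≠ 1) :
    (u - 1)⁻¹ ∈ R := by
  have hD : (D : ℂ) ≠ 0 := by exact_mod_cast NeZero.ne D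
  have h2 := sum_range_root hu h1
  have h3 : (u - 1)⁻¹ = (D : ℂ)⁻¹ * ∑ j ∈ Finset.range D, (j : ℂ) * u ^ j := by
    have h4 : u - 1 ≠ 0 := sub_ne_zero.mpr h1
    field_simp
    linear_combination -h2
  rw [h3]
  refine R.mul_mem hR.inv (R.sum_mem fun j _ => R.mul_mem (natCast_mem R j) ?_)
  exact R.pow_mem (hR.root u hu) j

theorem IsCyc.inv_sub_mem (hR : IsCyc D R) {u v : ℂ} (hu : u ^ D = 1) (hv : v ^ D = 1)
    (h1 : u ≠ v) : (u - v)⁻¹ ∈ R := by
  have hv0 : v ≠ 0 := by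
    rintro rfl
    rw [zero_pow (NeZero.ne D)] at hv
    exact zero_ne_one hv
  have h2 : u - v = v * (u / v - 1) := by field_simp
  rw [h2, mul_inv]
  refine R.mul_mem (hR.root _ (by rw [inv_pow, hv, inv_one])) (hR.inv_sub_one_mem ?_ ?_)
  · rw [div_pow, hu, hv, div_one]
  · rw [ne_eq, div_eq_one_iff_eq hv0]; exact h1

theorem inv_pow_eq_one {u : ℂ} (hu : u ^ D = 1) : (u⁻¹) ^ D = 1 := by rw [inv_pow, hu, inv_one]

theorem ne_zero_of_pow {u : ℂ} (hu : u ^ D = 1) : u ≠ 0 := by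
  rintro rfl
  rw [zero_pow (NeZero.ne D)] at hu
  exact zero_ne_one hu

theorem IsCyc.csum_mem (hR : IsCyc D R) {u : ℂ} (hu : u ^ D = 1) (a : ZMod D) (n : ℕ) :
    csum D a u n ∈ R := by
  refine R.sum_mem fun m _ => ?_
  split_ifs
  · exact R.mul_mem (natCast_mem R m) (R.pow_mem (hR.root u hu) m)
  · exact R.zero_mem

theorem IsCyc.cP_mem (hR : IsCyc D R) {u : ℂ} (hu : u ^ D = 1) {a : ZMod D}
    (h : ¬ (a = 0 ∧ u = 1)) (n : ℕ) : cP D a u n ∈ R := by
  rw [cP]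
  split_ifs with hn ha
  · have h1 : u ≠ 1 := fun hu1 => h ⟨ha, hu1⟩
    have h2 : u / (1 - u) ^ 2 = u * ((u - 1)⁻¹ * (u - 1)⁻¹) := by
      have : (1 - u) ^ 2 = (u - 1) * (u - 1) := by ring
      rw [this, div_eq_mul_inv, mul_inv]
    rw [h2]
    exact R.mul_mem (hR.root u hu) (R.mul_mem (hR.inv_sub_one_mem hu h1)
      (hR.inv_sub_one_mem hu h1))
  · exact R.zero_mem
  · exact R.add_mem (hR.csum_mem hu _ _) (hR.csum_mem (inv_pow_eq_one hu) _ _)

end Roots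

/-- Symmetry of the coefficients. -/
theorem cP_neg {D : ℕ} (a : ZMod D) {u : ℂ} (hu : u ≠ 0) (n : ℕ) :
    cP D (-a) u⁻¹ n = cP D a u n := by
  rw [cP, cP]
  split_ifs with hn h1 h2 h2
  · by_cases h3 : u = 1
    · subst h3; simp
    have h4 : 1 - u ≠ 0 := sub_ne_zero.mpr (Ne.symm h3)
    have h5 : 1 - u⁻¹ ≠ 0 := by
      intro h
      apply h3
      rw [sub_eq_zero] at h
      rw [← inv_inv u, ← h, inv_one]
    rw [div_eq_div_iff (pow_ne_zero 2 h5) (pow_ne_zero 2 h4)]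
    field_simp
    ring
  · exact absurd (neg_eq_zero.mp h1) h2
  · exact absurd (by rw [h2, neg_zero]) h1
  · rfl
  · rw [neg_neg, inv_inv, add_comm]

section Lead

variable {D : ℕ} [NeZero D]

theorem csum_zero (a : ZMod D) (u : ℂ) : csum D a u 0 = 0 := by simp [csum]

/-- `csum` vanishes below the class. -/
theorem csum_eq_zero_of_lt {a : ℕ} (haD : a ≤ D) (u : ℂ) {n : ℕ} (hn : n < a) :
    csum D (a : ZMod D) u n = 0 := by
  rw [csum]
  refine Finset.sum_eq_zero fun m hm => ?_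
  rw [if_neg]
  intro h
  have hn0 : n ≠ 0 := (Nat.mem_divisors.mp hm).2
  have hmn : m ∣ n := (Nat.mem_divisors.mp hm).1
  have h1 : n / m ≤ n := Nat.div_le_self n m
  have h2 : 0 < n / m := Nat.div_pos (Nat.le_of_dvd (Nat.pos_of_ne_zero hn0) hmn)
    (Nat.pos_of_dvd_of_pos hmn (Nat.pos_of_ne_zero hn0))
  rw [ZMod.natCast_eq_natCast_iff] at h
  have h3 : a - n / m = D * ((a - n / m) / D) :=
    (Nat.mul_div_cancel' ((Nat.modEq_iff_dvd' (by omega)).mp h)).symm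
  have h4 : D ≤ a - n / m :=
    Nat.le_of_dvd (by omega) ((Nat.modEq_iff_dvd' (by omega)).mp h)
  omega

theorem csum_self {a : ℕ} (ha : 0 < a) (haD : a ≤ D) (u : ℂ) :
    csum D (a : ZMod D) u a = u := by
  rw [csum, Finset.sum_eq_single 1]
  · simp
  · intro m hm h1
    rw [if_neg]
    intro h
    have hmn : m ∣ a := (Nat.mem_divisors.mp hm).1
    have hm0 : 0 < m := Nat.pos_of_dvd_of_pos hmn ha
    have h2 : 0 < a / m := Nat.div_pos (Nat.le_of_dvd ha hmn) hm0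
    have h5 : a / m < a := Nat.div_lt_self ha (by omega)
    rw [ZMod.natCast_eq_natCast_iff] at h
    have h4 : D ≤ a - a / m :=
      Nat.le_of_dvd (by omega) ((Nat.modEq_iff_dvd' (by omega)).mp h)
    omega
  · intro h
    exact absurd (Nat.one_mem_divisors.mpr ha.ne') h

theorem neg_natCast_eq {a : ℕ} (haD : a ≤ D) : (-(a : ZMod D)) = ((D - a : ℕ) : ZMod D) := by
  rw [Nat.cast_sub haD, ZMod.natCast_self, zero_sub]

/-- coefficients below the leading one vanish -/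
theorem cP_eq_zero_of_lt {a : ℕ} (haD : 2 * a ≤ D) (u : ℂ) {n : ℕ} (hn : n < a) :
    cP D (a : ZMod D) u n = 0 := by
  have hD : 0 < D := Nat.pos_of_ne_zero (NeZero.ne D)
  rw [cP]
  split_ifs with h0 h1
  · exfalso
    have : (a : ZMod D) = ((0 : ℕ) : ZMod D) := by rw [h1]; simp
    rw [ZMod.natCast_eq_natCast_iff] at this
    have h2 := (Nat.modEq_iff_dvd' (Nat.zero_le a)).mp this.symm
    have h3 := Nat.le_of_dvd (by omega) h2
    omega
  · rfl
  · rw [csum_eq_zero_of_lt (by omega) u hn, neg_natCast_eq (by omega),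
      csum_eq_zero_of_lt (by omega) _ (by omega), add_zero]

/-- the leading coefficient, `0 < a < D / 2` -/
theorem cP_self {a : ℕ} (ha : 0 < a) (haD : 2 * a < D) (u : ℂ) : cP D (a : ZMod D) u a = u := by
  rw [cP, if_neg ha.ne', csum_self ha (by omega), neg_natCast_eq (by omega),
    csum_eq_zero_of_lt (by omega) _ (by omega), add_zero]

/-- the leading coefficient, `a = D / 2` -/
theorem cP_half {a : ℕ} (ha : 0 < a) (haD : 2 * a = D) (u : ℂ) :
    cP D (a : ZMod D) u a = u + u⁻¹ := by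
  have h : D - a = a := by omega
  rw [cP, if_neg ha.ne', csum_self ha (by omega), neg_natCast_eq (by omega), h,
    csum_self ha (by omega)]

theorem cP_zero_zero (u : ℂ) : cP D ((0 : ℕ) : ZMod D) u 0 = u / (1 - u) ^ 2 := by
  rw [cP, if_pos rfl, if_pos (by simp)]

variable {R : Subring ℂ}

/-- Data of a leading unit coefficient. -/
def UnitLead (R : Subring ℂ) (c c' : ℕ → ℂ) : Prop :=
  ∃ n : ℕ, (∀ m < n, c m = c' m) ∧ c n ≠ c' n ∧ (c n - c' n)⁻¹ ∈ R

theorem UnitLead.symm {c c' : ℕ → ℂ} (h : UnitLead R c c') : UnitLead R c' c := by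
  obtain ⟨n, h1, h2, h3⟩ := h
  refine ⟨n, fun m hm => (h1 m hm).symm, h2.symm, ?_⟩
  have : (c' n - c n)⁻¹ = -(c n - c' n)⁻¹ := by rw [← inv_neg, neg_sub]
  rw [this]
  exact R.neg_mem h3

theorem unitLead_of_le (hR : IsCyc D R) {a a' : ℕ} (haa : a ≤ a') (ha' : 2 * a' ≤ D) {u u' : ℂ}
    (hu : u ^ D = 1) (hu' : u' ^ D = 1) (h : ¬ (a = 0 ∧ u = 1)) (h' : ¬ (a' = 0 ∧ u' = 1))
    (hne : ¬ (a = a' ∧ u = u')) (hne' : ¬ ((a : ZMod D) = -(a' : ZMod D) ∧ u = u'⁻¹)) :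
    UnitLead R (cP D (a : ZMod D) u) (cP D (a' : ZMod D) u') := by
  have hD : 0 < D := Nat.pos_of_ne_zero (NeZero.ne D)
  have hu0 := ne_zero_of_pow hu
  have hu0' := ne_zero_of_pow hu'
  refine ⟨a, fun m hm => by rw [cP_eq_zero_of_lt (by omega) u hm,
    cP_eq_zero_of_lt ha' u' (by omega)], ?_⟩
  rcases Nat.eq_zero_or_pos a with rfl | hapos
  · -- `a = 0`
    have h1 : u ≠ 1 := fun hu1 => h ⟨rfl, hu1⟩
    have h1s : u - 1 ≠ 0 := sub_ne_zero.mpr h1
    rw [cP_zero_zero]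
    rcases Nat.eq_zero_or_pos a' with rfl | ha'pos
    · have h1' : u' ≠ 1 := fun hu1 => h' ⟨rfl, hu1⟩
      have h1s' : u' - 1 ≠ 0 := sub_ne_zero.mpr h1'
      rw [cP_zero_zero]
      have h2 : u ≠ u' := fun e => hne ⟨rfl, e⟩
      have h3 : u ≠ u'⁻¹ := fun e => hne' ⟨by simp, e⟩
      have h2s : u - u' ≠ 0 := sub_ne_zero.mpr h2
      have h3s : u - u'⁻¹ ≠ 0 := sub_ne_zero.mpr h3
      have e : u / (1 - u) ^ 2 - u' / (1 - u') ^ 2 =
          -((u - u') * (u' * (u - u'⁻¹))) * ((u - 1)⁻¹ ^ 2 * (u' - 1)⁻¹ ^ 2) := by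
        have e1 : (1 - u) ≠ 0 := sub_ne_zero.mpr (Ne.symm h1)
        have e2 : (1 - u') ≠ 0 := sub_ne_zero.mpr (Ne.symm h1')
        have e3 : u' * (u - u'⁻¹) = u * u' - 1 := by
          rw [mul_sub, mul_inv_cancel₀ hu0']; ring
        rw [e3]
        have e4 : ((u - 1)⁻¹) ^ 2 = ((1 - u) ^ 2)⁻¹ := by rw [inv_pow]; congr 1; ring
        have e5 : ((u' - 1)⁻¹) ^ 2 = ((1 - u') ^ 2)⁻¹ := by rw [inv_pow]; congr 1; ring
        rw [e4, e5]
        field_simp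
        ring
      have hne0 : -((u - u') * (u' * (u - u'⁻¹))) * ((u - 1)⁻¹ ^ 2 * (u' - 1)⁻¹ ^ 2) ≠ 0 :=
        mul_ne_zero (neg_ne_zero.mpr (mul_ne_zero h2s (mul_ne_zero hu0' h3s)))
          (mul_ne_zero (pow_ne_zero 2 (inv_ne_zero h1s)) (pow_ne_zero 2 (inv_ne_zero h1s')))
      refine ⟨fun heq => hne0 ?_, ?_⟩
      · rw [← e, heq, sub_self]
      · rw [e, mul_inv, inv_neg, mul_inv, mul_inv, mul_inv, ← inv_pow, ← inv_pow, inv_inv, inv_inv]
        refine R.mul_mem (R.neg_mem (R.mul_mem (hR.inv_sub_mem hu hu' h2)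
          (R.mul_mem (hR.root _ (inv_pow_eq_one hu'))
            (hR.inv_sub_mem hu (inv_pow_eq_one hu') h3)))) ?_
        exact R.mul_mem (R.pow_mem (R.sub_mem (hR.root u hu) R.one_mem) 2)
          (R.pow_mem (R.sub_mem (hR.root u' hu') R.one_mem) 2)
    · rw [cP_eq_zero_of_lt ha' u' ha'pos, sub_zero]
      have e : u / (1 - u) ^ 2 = u * ((u - 1)⁻¹) ^ 2 := by
        have e4 : ((u - 1)⁻¹) ^ 2 = ((1 - u) ^ 2)⁻¹ := by rw [inv_pow]; congr 1; ring
        rw [e4, div_eq_mul_inv]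
      rw [e]
      refine ⟨mul_ne_zero hu0 (pow_ne_zero 2 (inv_ne_zero h1s)), ?_⟩
      rw [mul_inv, ← inv_pow, inv_inv]
      exact R.mul_mem (hR.root _ (inv_pow_eq_one hu))
        (R.pow_mem (R.sub_mem (hR.root u hu) R.one_mem) 2)
  · rcases haa.lt_or_eq with hlt | rfl
    · -- `0 < a < a'`
      rw [cP_self hapos (by omega), cP_eq_zero_of_lt ha' u' hlt, sub_zero]
      exact ⟨hu0, hR.root _ (inv_pow_eq_one hu)⟩
    · have h2 : u ≠ u' := fun e => hne ⟨rfl, e⟩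
      have h2s : u - u' ≠ 0 := sub_ne_zero.mpr h2
      rcases ha'.lt_or_eq with hlt | heq
      · rw [cP_self hapos hlt, cP_self hapos hlt]
        exact ⟨h2, hR.inv_sub_mem hu hu' h2⟩
      · rw [cP_half hapos heq, cP_half hapos heq]
        have hneg : (a : ZMod D) = -(a : ZMod D) := by
          rw [neg_natCast_eq (by omega)]
          congr 1
          omega
        have h3 : u ≠ u'⁻¹ := fun e => hne' ⟨hneg, e⟩
        have h3s : u - u'⁻¹ ≠ 0 := sub_ne_zero.mpr h3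
        have e : u + u⁻¹ - (u' + u'⁻¹) = (u - u') * ((u - u'⁻¹) * u⁻¹) := by
          field_simp
          ring
        have hne0 : (u - u') * ((u - u'⁻¹) * u⁻¹) ≠ 0 :=
          mul_ne_zero h2s (mul_ne_zero h3s (inv_ne_zero hu0))
        refine ⟨fun heq => hne0 ?_, ?_⟩
        · rw [← e, heq, sub_self]
        · rw [e, mul_inv, mul_inv, inv_inv]
          exact R.mul_mem (hR.inv_sub_mem hu hu' h2)
            (R.mul_mem (hR.inv_sub_mem hu (inv_pow_eq_one hu') h3) (hR.root u hu))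

/-- normal form of a class -/
theorem exists_norm_class (a : ZMod D) {u : ℂ} (hu : u ^ D = 1) :
    ∃ (a₀ : ℕ) (u₀ : ℂ), 2 * a₀ ≤ D ∧ u₀ ^ D = 1 ∧ cP D (a₀ : ZMod D) u₀ = cP D a u ∧
      (((a₀ : ZMod D) = a ∧ u₀ = u) ∨ ((a₀ : ZMod D) = -a ∧ u₀ = u⁻¹)) := by
  have hv : ((a.val : ℕ) : ZMod D) = a := ZMod.natCast_zmod_val a
  have hlt : a.val < D := ZMod.val_lt a
  rcases le_or_gt (2 * a.val) D with h | h
  · exact ⟨a.val, u, h, hu, by rw [hv], Or.inl ⟨hv, rfl⟩⟩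
  · have h2 : ((D - a.val : ℕ) : ZMod D) = -a := by
      rw [← neg_natCast_eq hlt.le, hv]
    refine ⟨D - a.val, u⁻¹, by omega, inv_pow_eq_one hu, ?_, Or.inr ⟨h2, rfl⟩⟩
    ext n
    rw [h2, cP_neg a (ne_zero_of_pow hu)]

/-- **Distinctness**: the expansions of division values at different points (up to sign) differ
by a series with leading coefficient a unit. -/
theorem unitLead (hR : IsCyc D R) {a a' : ZMod D} {u u' : ℂ}
    (hu : u ^ D = 1) (hu' : u' ^ D = 1) (h : ¬ (a = 0 ∧ u = 1)) (h' : ¬ (a' = 0 ∧ u' = 1))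
    (hne : ¬ (a = a' ∧ u = u')) (hne' : ¬ (a = -a' ∧ u = u'⁻¹)) :
    UnitLead R (cP D a u) (cP D a' u') := by
  have hD : 0 < D := Nat.pos_of_ne_zero (NeZero.ne D)
  obtain ⟨b, v, hb, hv, hbe, hbv⟩ := exists_norm_class a hu
  obtain ⟨b', v', hb', hv', hbe', hbv'⟩ := exists_norm_class a' hu'
  rw [← hbe, ← hbe']
  have cast_inj : ∀ {x y : ℕ}, 2 * x ≤ D → 2 * y ≤ D → (x : ZMod D) = (y : ZMod D) → x = y := by
    intro x y hx hy e
    rw [ZMod.natCast_eq_natCast_iff] at e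
    have h1 : x < D ∨ x = D := by omega
    rcases h1 with h1 | h1
    · rcases (show y < D ∨ y = D by omega) with h2 | h2
      · exact Nat.ModEq.eq_of_lt_of_lt e h1 h2
      · omega
    · omega
  have c1 : ¬ (b = 0 ∧ v = 1) := by
    rintro ⟨rfl, rfl⟩
    rcases hbv with ⟨h1, h2⟩ | ⟨h1, h2⟩
    · exact h ⟨by rw [← h1]; simp, h2.symm⟩
    · refine h ⟨?_, ?_⟩
      · rw [← neg_neg a, ← h1]; simp
      · rw [← inv_inv u, ← h2, inv_one]
  have c2 : ¬ (b' = 0 ∧ v' = 1) := by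
    rintro ⟨rfl, rfl⟩
    rcases hbv' with ⟨h1, h2⟩ | ⟨h1, h2⟩
    · exact h' ⟨by rw [← h1]; simp, h2.symm⟩
    · refine h' ⟨?_, ?_⟩
      · rw [← neg_neg a', ← h1]; simp
      · rw [← inv_inv u', ← h2, inv_one]
  have c3 : ¬ (b = b' ∧ v = v') := by
    rintro ⟨rfl, rfl⟩
    rcases hbv with ⟨h1, h2⟩ | ⟨h1, h2⟩ <;> rcases hbv' with ⟨h3, h4⟩ | ⟨h3, h4⟩
    · exact hne ⟨h1.symm.trans h3, h2.symm.trans h4⟩
    · exact hne' ⟨h1.symm.trans h3, h2.symm.trans h4⟩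
    · refine hne' ⟨?_, ?_⟩
      · rw [← h3, h1, neg_neg]
      · rw [← h4, h2, inv_inv]
    · refine hne ⟨?_, ?_⟩
      · exact neg_injective (h1.symm.trans h3)
      · exact inv_injective (h2.symm.trans h4)
  have c4 : ¬ ((b : ZMod D) = -(b' : ZMod D) ∧ v = v'⁻¹) := by
    rintro ⟨e1, e2⟩
    rcases hbv with ⟨h1, h2⟩ | ⟨h1, h2⟩ <;> rcases hbv' with ⟨h3, h4⟩ | ⟨h3, h4⟩
    · exact hne' ⟨by rw [← h1, e1, h3], by rw [← h2, e2, h4]⟩
    · exact hne ⟨by rw [← h1, e1, h3, neg_neg], by rw [← h2, e2, h4, inv_inv]⟩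
    · refine hne ⟨?_, ?_⟩
      · rw [← neg_neg a, ← h1, e1, h3, neg_neg]
      · rw [← inv_inv u, ← h2, e2, h4, inv_inv]
    · refine hne' ⟨?_, ?_⟩
      · rw [← neg_neg a, ← h1, e1, h3, neg_neg]
      · rw [← inv_inv u, ← h2, e2, h4, inv_inv]
  rcases le_total b b' with hle | hle
  · exact unitLead_of_le hR hle hb' hv hv' c1 c2 c3 c4
  · refine (unitLead_of_le hR hle hb hv' hv c2 c1 (fun ⟨e1, e2⟩ => c3 ⟨e1.symm, e2.symm⟩)
      (fun ⟨e1, e2⟩ => c4 ⟨?_, ?_⟩)).symm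
    · rw [e1, neg_neg]
    · rw [e2, inv_inv]

end Lead

end

end Fermat.Agent.H58
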