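import Mathlib
import Fermat.Agent.H58DVR
import Fermat.Agent.H58Sep1

/-!
# Number fields generated by finitely many algebraic numbers; roots of Laurent series
-/

set_option autoImplicit false
set_option linter.unusedSectionVars false

namespace Fermat.Agent.H58

open IntermediateField

section NumberField

variable {Ω : Type*} [Field Ω] [Algebra ℚ Ω] [Algebra.IsAlgebraic ℚ Ω]

/-- A finite extension containing finitely many given elements and the `D`-th roots of unity. -/
theorem exists_finite_ext (L : IntermediateField ℚ Ω) [FiniteDimensional ℚ L] (S : Finset Ω)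
    (D : ℕ) (hD : D ≠ 0) : ∃ L' : IntermediateField ℚ Ω, FiniteDimensional ℚ L' ∧ L ≤ L' ∧
      (∀ c ∈ S, c ∈ L') ∧ ∀ z : Ω, z ^ D = 1 → z ∈ L' := by
  classical
  let T : Set Ω := (S : Set Ω) ∪ {z | z ^ D = 1}
  have hfin : T.Finite := by
    refine S.finite_toSet.union ?_
    have h1 : {z : Ω | z ^ D = 1} ⊆ ((Polynomial.nthRootsFinset D (1 : Ω) : Finset Ω) : Set Ω) := by
      intro z hz
      rw [Finset.mem_coe, Polynomial.mem_nthRootsFinset (Nat.pos_of_ne_zero hD)]
      exact hz
    exact (Finset.finite_toSet _).subset h1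
  have : Finite T := hfin.to_subtype
  have h2 : FiniteDimensional ℚ (adjoin ℚ T) :=
    finiteDimensional_adjoin fun x _ => Algebra.IsIntegral.isIntegral x
  refine ⟨L ⊔ adjoin ℚ T, inferInstance, le_sup_left, fun c hc => ?_, fun z hz => ?_⟩
  · exact (le_sup_right : adjoin ℚ T ≤ L ⊔ adjoin ℚ T) (subset_adjoin ℚ T (Or.inl hc))
  · exact (le_sup_right : adjoin ℚ T ≤ L ⊔ adjoin ℚ T) (subset_adjoin ℚ T (Or.inr hz))

/-- The image in `ℂ` of a field containing the `D`-th roots of unity. -/
theorem isCyc_range {L : IntermediateField ℚ Ω} {D : ℕ} [NeZero D] (ι : Ω →+* ℂ) [IsAlgClosed Ω]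
    (hL : ∀ z : Ω, z ^ D = 1 → z ∈ L) : IsCyc D (ι.comp (algebraMap L Ω)).range := by
  constructor
  · intro z hz
    have hD : ((D : ℕ) : Ω) ≠ 0 := by
      have : CharZero Ω := charZero_of_injective_algebraMap (algebraMap ℚ Ω).injective
      exact_mod_cast NeZero.ne D
    have hne : NeZero ((D : ℕ) : Ω) := ⟨hD⟩
    obtain ⟨w, hw⟩ := HasEnoughRootsOfUnity.exists_primitiveRoot Ω D
    have hw' : IsPrimitiveRoot (ι w) D := hw.map_of_injective ι.injective
    obtain ⟨i, -, hi⟩ := hw'.eq_pow_of_pow_eq_one hz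
    exact ⟨⟨w ^ i, hL _ (by rw [← pow_mul, mul_comm, pow_mul, hw.pow_eq_one, one_pow])⟩, by
      rw [← hi, ← map_pow]; rfl⟩
  · exact ⟨((D : ℕ) : L)⁻¹, by rw [map_inv₀, map_natCast]⟩

end NumberField

section Places

variable {L Ω : Type*} [Field L] [Field Ω] [Algebra L Ω] (A : ValuationSubring Ω)

/-- the inclusion `A ∩ L → A` -/
def comapIncl : A.comap (algebraMap L Ω) →+* A :=
  ((algebraMap L Ω).comp (A.comap (algebraMap L Ω)).subtype).codRestrict A.toSubring
    fun x => x.2

theorem coe_comapIncl (x : A.comap (algebraMap L Ω)) :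
    ((comapIncl A x : A) : Ω) = algebraMap L Ω (x : L) := rfl

theorem isUnit_comap_iff (x : A.comap (algebraMap L Ω)) : IsUnit (comapIncl A x) ↔ IsUnit x := by
  constructor
  · rintro ⟨u, hu⟩
    have h1 : algebraMap L Ω (x : L) * ((u⁻¹ : Aˣ) : A) = 1 := by
      have := congrArg (fun z : A => (z : Ω)) u.mul_inv
      rw [hu] at this
      exact this
    have h0 : (x : L) ≠ 0 := by
      intro h
      rw [h, map_zero, zero_mul] at h1
      exact zero_ne_one h1
    have h2 : ((x : L))⁻¹ ∈ A.comap (algebraMap L Ω) := by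
      rw [ValuationSubring.mem_comap, map_inv₀, inv_eq_of_mul_eq_one_right h1]
      exact ((u⁻¹ : Aˣ) : A).2
    exact IsUnit.of_mul_eq_one ⟨_, h2⟩ (Subtype.ext (mul_inv_cancel₀ h0))
  · exact fun h => h.map (comapIncl A)

instance isLocalHom_comapIncl : IsLocalHom (comapIncl (L := L) A) :=
  ⟨fun x hx => (isUnit_comap_iff A x).mp hx⟩

theorem mem_maximalIdeal_comap_iff (x : A.comap (algebraMap L Ω)) :
    x ∈ IsLocalRing.maximalIdeal (A.comap (algebraMap L Ω)) ↔
      comapIncl A x ∈ IsLocalRing.maximalIdeal A := by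
  rw [IsLocalRing.mem_maximalIdeal, IsLocalRing.mem_maximalIdeal, mem_nonunits_iff,
    mem_nonunits_iff, isUnit_comap_iff]

end Places

section Roots

variable {K : Type*} [Field K]

/-- roots of power series -/
theorem exists_root_powerSeries {m : ℕ} (hm : (m : K) ≠ 0) (f : PowerSeries K)
    (hf : PowerSeries.constantCoeff f ≠ 0) {a : K} (ha : a ^ m = PowerSeries.constantCoeff f) :
    ∃ g : PowerSeries K, g ^ m = f := by
  have hm0 : m ≠ 0 := by rintro rfl; exact hm (by simp)
  have ha0 : a ≠ 0 := by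
    rintro rfl
    rw [zero_pow hm0] at ha
    exact hf ha.symm
  have hH : HenselianRing (PowerSeries K) (Ideal.span {PowerSeries.X}) := inferInstance
  have hX : ∀ g : PowerSeries K, g ∈ Ideal.span {(PowerSeries.X : PowerSeries K)} ↔
      PowerSeries.constantCoeff g = 0 := by
    intro g
    rw [Ideal.mem_span_singleton, PowerSeries.X_dvd_iff]
  obtain ⟨g, hg, -⟩ := hH.is_henselian (Polynomial.X ^ m - Polynomial.C f)
    (Polynomial.monic_X_pow_sub_C f hm0) (PowerSeries.C a)
    (by
      rw [hX]
      simp [ha])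
    (by
      have h1 : (Polynomial.derivative (Polynomial.X ^ m - Polynomial.C f :
          Polynomial (PowerSeries K))).eval (PowerSeries.C a) =
          PowerSeries.C ((m : K) * a ^ (m - 1)) := by
        simp [Polynomial.derivative_X_pow]
      rw [h1]
      apply IsUnit.map
      exact (PowerSeries.isUnit_iff_constantCoeff.mpr (by
        simpa using (mul_ne_zero hm (pow_ne_zero _ ha0)).isUnit)))
  refine ⟨g, ?_⟩
  have : g ^ m - f = 0 := by simpa [Polynomial.IsRoot] using hg
  exact sub_eq_zero.mp this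

/-- **Roots of Laurent series**: a series whose order is divisible by `m` and whose leading
coefficient is an `m`-th power is an `m`-th power. -/
theorem exists_root_laurent {m : ℕ} (hm : (m : K) ≠ 0) (f : LaurentSeries K) (hf : f ≠ 0)
    (hd : (m : ℤ) ∣ f.order) {a : K} (ha : a ^ m = f.coeff f.order) :
    ∃ g : LaurentSeries K, g ^ m = f := by
  obtain ⟨k, hk⟩ := hd
  have h1 : PowerSeries.constantCoeff f.powerSeriesPart = f.coeff f.order := by
    have : PowerSeries.coeff 0 f.powerSeriesPart = f.coeff (f.order + (0 : ℕ)) :=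
      f.powerSeriesPart_coeff 0
    rw [← PowerSeries.coeff_zero_eq_constantCoeff_apply, this]
    simp
  have h0 : PowerSeries.constantCoeff f.powerSeriesPart ≠ 0 := by
    rw [h1]; exact HahnSeries.coeff_order_eq_zero.not.mpr hf
  obtain ⟨g, hg⟩ := exists_root_powerSeries hm _ h0 (ha.trans h1.symm)
  refine ⟨HahnSeries.single k 1 * HahnSeries.ofPowerSeries ℤ K g, ?_⟩
  have h2 : (HahnSeries.single k (1 : K)) ^ m = HahnSeries.single ((m : ℤ) * k) 1 := by
    rw [HahnSeries.single_pow, one_pow, nsmul_eq_mul]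
  rw [mul_pow, h2, ← map_pow, hg]
  have := f.single_order_mul_powerSeriesPart
  rw [hk] at this
  exact this

end Roots

end Fermat.Agent.H58
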