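import Fermat.Agent.H36InjC

set_option autoImplicit false
set_option linter.style.haveILetI false
set_option linter.unusedSectionVars false
set_option linter.unnecessarySimpa false
open Polynomial

namespace Fermat.Agent.H36

section Root

variable {O : Type*} [CommRing O] [IsDomain O] [IsDiscreteValuationRing O]
  {F : Type*} [Field F] [Algebra O F]
  {F' : Type*} [Field F'] [Algebra O F'] [Algebra F F'] [IsScalarTower O F F']

open IntermediateField

lemma algEquiv_mem_chart {t : F} (σ : F' ≃ₐ[F] F') {x : F'}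
    (hx : x ∈ chart O (algebraMap F F' t)) : σ x ∈ chart O (algebraMap F F' t) := by
  obtain ⟨f, hf, hfx⟩ := hx
  refine ⟨f, hf, ?_⟩
  have h1 : evt O (algebraMap F F' t) = (σ : F' →+* F').comp (evt O (algebraMap F F' t)) := by
    refine RingHom.ext fun p => ?_
    rw [RingHom.comp_apply, evt_apply, ← algebraMap_aeval F']
    exact (σ.commutes _).symm
  change eval₂ (evt O (algebraMap F F' t)) ((σ : F' →+* F') x) f = 0
  rw [h1, ← hom_eval₂]
  have : eval₂ (evt O (algebraMap F F' t)) x f = 0 := hfx
  rw [this, map_zero]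

lemma algEquiv_mem_gs {t : F} (σ : F' ≃ₐ[F] F') {x : F'}
    (hx : x ∈ gs O (algebraMap F F' t)) : σ x ∈ gs O (algebraMap F F' t) := by
  obtain ⟨p, hp, h⟩ := hx
  refine ⟨p, hp, ?_⟩
  have := algEquiv_mem_chart σ h
  rwa [map_mul, ← algebraMap_aeval F', σ.commutes, algebraMap_aeval] at this

/-- the action of an automorphism on the Gauss closure -/
noncomputable def gsSigma (O : Type*) [CommRing O] [IsDomain O] [IsDiscreteValuationRing O]
    {F : Type*} [Field F] [Algebra O F] {F' : Type*} [Field F'] [Algebra O F'] [Algebra F F']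
    [IsScalarTower O F F'] (t : F) (σ : F' ≃ₐ[F] F') :
    gs O (algebraMap F F' t) →+* gs O (algebraMap F F' t) :=
  ((σ : F' →+* F').comp (gs O (algebraMap F F' t)).subtype).codRestrict _
    fun x => algEquiv_mem_gs σ x.2

lemma coe_gsSigma (t : F) (σ : F' ≃ₐ[F] F') (x : gs O (algebraMap F F' t)) :
    ((gsSigma O t σ x : gs O (algebraMap F F' t)) : F') = σ x := rfl

lemma gsSigma_surjective (t : F) (σ : F' ≃ₐ[F] F') :
    Function.Surjective (gsSigma O t σ) := by
  intro x
  refine ⟨⟨σ.symm x, algEquiv_mem_gs σ.symm x.2⟩, ?_⟩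
  apply Subtype.ext
  rw [coe_gsSigma]
  exact σ.apply_symm_apply _

theorem inj_galois (K : Type*) [Field K] [CharZero K] [Algebra O K] [IsFractionRing O K]
    [Algebra K F] [IsScalarTower O K F] [Algebra K F'] [IsScalarTower O K F']
    [IsGalois F F'] [FiniteDimensional F F']
    {t : F} (ht : Transcendental K t) (ht' : Transcendental K (algebraMap F F' t))
    [FiniteDimensional K⟮algebraMap F F' t⟯ F']
    (p : RatPoint K (algebraMap F F' t)⁻¹)
    {ι : Type*} [Finite ι] [Nonempty ι] (V : ι → ValuationSubring F)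
    (hS : ∀ x, x ∈ gs O t ↔ ∀ i, x ∈ V i)
    (hR : ∀ i (g z : F), (V i).valuation g < 1 → ∃ N : ℕ, g ^ N * z ∈ V i)
    {f : F} {d : ℕ} (hd : IsUnit (d : O)) {ζ : O} (hζ : IsPrimitiveRoot ζ d)
    (hf : ∀ i, (V i).valuation (f - 1) < 1) {ϖ : O} (hϖ : Irreducible ϖ)
    (hloc : LocCond V ϖ f d (chart O t)) (hloc' : LocCond V ϖ f d (chart O t⁻¹))
    {y : F'} (hy : y ^ d = algebraMap F F' f) :
    ∃ y0 : F, y0 ^ d = f := by
  classical
  have hd0 : d ≠ 0 := by
    rintro rfl
    rw [Nat.cast_zero, isUnit_zero_iff] at hd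
    exact zero_ne_one hd
  have hinjO : Function.Injective (algebraMap O F') := algebraMap_injective_OF O K F'
  obtain ⟨ζ', y', hζ', hyy, hP⟩ := exists_root_congr K ht ht' p V hS hR hd hζ hf hϖ hloc hloc' hy
  have hyd : (y' : F') ^ d = algebraMap F F' f := by
    rw [← hy, hyy, mul_pow, ← map_pow, hζ', map_one, one_mul]
  have hf0 : f ≠ 0 := by
    rintro rfl
    have := hf (Classical.arbitrary ι)
    rw [zero_sub, Valuation.map_neg, map_one] at this
    exact lt_irrefl _ this
  have hy0 : (y' : F') ≠ 0 := by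
    intro h
    rw [h, zero_pow hd0] at hyd
    exact hf0 ((map_eq_zero _).1 hyd.symm)
  have hfix : ∀ σ : F' ≃ₐ[F] F', σ (y' : F') = y' := by
    intro σ
    have h1 : (σ (y' : F') / y') ^ d = 1 := by
      rw [div_pow, ← map_pow, hyd, AlgEquiv.commutes, div_self]
      simpa using hf0
    haveI : NeZero d := ⟨hd0⟩
    obtain ⟨i, -, hi⟩ := (hζ.map_of_injective hinjO).eq_pow_of_pow_eq_one h1
    have h2 : σ (y' : F') = algebraMap O F' (ζ ^ i) * y' := by
      rw [map_pow, hi, div_mul_cancel₀ _ hy0]
    by_cases hne : ζ ^ i = 1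
    · rw [h2, hne, map_one, one_mul]
    · exfalso
      have hz : (ζ ^ i) ^ d = 1 := by rw [← pow_mul, mul_comm, pow_mul, hζ.pow_eq_one, one_pow]
      obtain ⟨u, hu⟩ := isUnit_one_sub hd hz hne
      obtain ⟨P, hPm⟩ := Ideal.exists_maximal (gs O (algebraMap F F' t))
      have hPσ : (P.comap (gsSigma O t σ)).IsMaximal := by
        haveI := hPm
        exact Ideal.comap_isMaximal_of_surjective _ (gsSigma_surjective t σ)
      have h3 := hP _ hPσ
      rw [Ideal.mem_comap, map_sub, map_one] at h3
      have h4 := hP P hPm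
      have h5 := sub_mem h4 h3
      rw [sub_sub_sub_cancel_right] at h5
      have h6 : y' ∈ P := by
        have h7 := P.mul_mem_left (⟨algebraMap O F' (u⁻¹ : Oˣ), algebraMap_mem_gs _ _⟩) h5
        convert h7 using 1
        apply Subtype.ext
        push_cast
        rw [coe_gsSigma, h2]
        have e1 : algebraMap O F' (u⁻¹ : Oˣ) * (1 - algebraMap O F' (ζ ^ i)) = 1 := by
          rw [← map_one (algebraMap O F'), ← map_sub, ← hu, ← map_mul, Units.inv_mul]
        linear_combination -(y' : F') * e1
      have h8 := sub_mem h6 h4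
      rw [sub_sub_cancel] at h8
      exact hPm.ne_top ((Ideal.eq_top_iff_one _).2 h8)
  have h1 : (y' : F') ∈ (⊥ : IntermediateField F F') := (IsGalois.mem_bot_iff_fixed _).2 hfix
  obtain ⟨y0, hy0'⟩ := IntermediateField.mem_bot.1 h1
  refine ⟨y0, (algebraMap F F').injective ?_⟩
  rw [map_pow, hy0', hyd]

end Root

section Main

variable {O : Type*} [CommRing O] [IsDomain O] [IsDiscreteValuationRing O]
  {K : Type*} [Field K] [CharZero K] [Algebra O K] [IsFractionRing O K]
  {F : Type*} [Field F] [Algebra O F] [Algebra K F] [IsScalarTower O K F]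

open IntermediateField

lemma finiteDimensional_ext {F' : Type*} [Field F'] [Algebra F F'] [Algebra K F']
    [IsScalarTower K F F'] [FiniteDimensional F F'] (t : F) [FiniteDimensional K⟮t⟯ F] :
    FiniteDimensional K⟮algebraMap F F' t⟯ F' := by
  haveI : FiniteDimensional K⟮t⟯ F' := FiniteDimensional.trans K⟮t⟯ F F'
  have h1 : K⟮t⟯ ≤ (K⟮algebraMap F F' t⟯).comap (IsScalarTower.toAlgHom K F F') := by
    rw [adjoin_simple_le_iff]
    exact mem_adjoin_simple_self K (algebraMap F F' t)
  let φ : K⟮t⟯ →+* K⟮algebraMap F F' t⟯ :=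
    ((algebraMap F F').comp (algebraMap K⟮t⟯ F)).codRestrict _ (fun x => h1 x.2)
  letI := φ.toAlgebra
  haveI : IsScalarTower K⟮t⟯ K⟮algebraMap F F' t⟯ F' :=
    IsScalarTower.of_algebraMap_eq fun x => rfl
  exact Module.Finite.of_restrictScalars_finite K⟮t⟯ K⟮algebraMap F F' t⟯ F'

/-- **INJ**: a function congruent to `1` along all the components of the special fibre, everywhere
locally a `d`-th power with trivial windings, having a `d`-th root in the Laurent series field of a
rational point, is a `d`-th power. -/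
theorem inj {t : F} (ht : Transcendental K t) [FiniteDimensional K⟮t⟯ F]
    (p : RatPoint K t⁻¹) {ι : Type*} [Finite ι] [Nonempty ι] (V : ι → ValuationSubring F)
    (hS : ∀ x, x ∈ gs O t ↔ ∀ i, x ∈ V i)
    (hR : ∀ i (g z : F), (V i).valuation g < 1 → ∃ N : ℕ, g ^ N * z ∈ V i)
    {f : F} {d : ℕ} (hd : IsUnit (d : O)) {ζ : O} (hζ : IsPrimitiveRoot ζ d)
    (hf : ∀ i, (V i).valuation (f - 1) < 1) {ϖ : O} (hϖ : Irreducible ϖ)
    (hloc : LocCond V ϖ f d (chart O t)) (hloc' : LocCond V ϖ f d (chart O t⁻¹))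
    {Y : LaurentSeries K} (hY : Y ^ d = p.e f) :
    ∃ y : F, y ^ d = f := by
  classical
  have hd0 : d ≠ 0 := by
    rintro rfl
    rw [Nat.cast_zero, isUnit_zero_iff] at hd
    exact zero_ne_one hd
  have hf0 : f ≠ 0 := by
    rintro rfl
    have := hf (Classical.arbitrary ι)
    rw [zero_sub, Valuation.map_neg, map_one] at this
    exact lt_irrefl _ this
  have hdF : (d : F) ≠ 0 := by
    have : ((d : K)) ≠ 0 := Nat.cast_ne_zero.2 hd0
    intro h
    apply this
    apply (algebraMap K F).injective
    rw [map_natCast, h, map_zero]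
  haveI : IsScalarTower O F (X ^ d - C f : F[X]).SplittingField := inferInstance
  haveI : IsScalarTower K F (X ^ d - C f : F[X]).SplittingField := inferInstance
  haveI : IsScalarTower O K (X ^ d - C f : F[X]).SplittingField := by
    refine IsScalarTower.of_algebraMap_eq fun x => ?_
    rw [IsScalarTower.algebraMap_apply O F, IsScalarTower.algebraMap_apply O K F,
      ← IsScalarTower.algebraMap_apply K F]
  haveI : IsGalois F (X ^ d - C f : F[X]).SplittingField :=
    IsGalois.of_separable_splitting_field (p := (X ^ d - C f : F[X]))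
      (separable_X_pow_sub_C f hdF hf0)
  letI : Algebra F (LaurentSeries K) := p.e.toAlgebra
  have hζL : IsPrimitiveRoot (p.e (algebraMap O F ζ)) d := by
    rw [← RingHom.comp_apply]
    refine hζ.map_of_injective ?_
    exact p.e.injective.comp (algebraMap_injective_OF O K F)
  let φ : (X ^ d - C f : F[X]).SplittingField →ₐ[F] LaurentSeries K :=
    IsSplittingField.lift _ (X ^ d - C f : F[X]) (by
      have h1 := X_pow_sub_C_splits_of_isPrimitiveRoot hζL hY
      convert h1 using 1
      simp only [Polynomial.map_sub, Polynomial.map_pow, map_X, map_C]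
      rfl)
  haveI := finiteDimensional_ext (F' := (X ^ d - C f : F[X]).SplittingField) (K := K) t
  let p' : RatPoint K (algebraMap F (X ^ d - C f : F[X]).SplittingField t)⁻¹ :=
    { e := φ
      he := fun c => by
        rw [IsScalarTower.algebraMap_apply K F, AlgHom.coe_toRingHom, AlgHom.commutes]
        exact p.he c
      P := p.P
      hP := by
        rw [← map_inv₀, AlgHom.coe_toRingHom, AlgHom.commutes]
        exact p.hP
      hP0 := p.hP0
      hP1 := p.hP1 }
  obtain ⟨y, hy⟩ : ∃ y : (X ^ d - C f : F[X]).SplittingField, y ^ d = algebraMap F _ f := by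
    have h1 := SplittingField.splits (X ^ d - C f : F[X])
    obtain ⟨y, hy⟩ := h1.exists_eval_eq_zero (by
      rw [Polynomial.degree_map, degree_X_pow_sub_C (Nat.pos_of_ne_zero hd0)]
      exact_mod_cast hd0)
    refine ⟨y, ?_⟩
    rw [eval_map] at hy
    simpa [sub_eq_zero] using hy
  exact inj_galois K ht
    ((transcendental_algebraMap_iff (algebraMap F _).injective).2 ht) p' V hS hR hd hζ hf hϖ
    hloc hloc' hy

end Main

end Fermat.Agent.H36
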