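import Mathlib
import Fermat.Prelude.Def_AlgebraicCurve_DivisorClassGroup

/-!
# Factorization in subrings of a field which are UFDs
-/

set_option autoImplicit false

namespace Fermat.Agent.H83

open AlgebraicCurve

section UFD

variable {F : Type*} [Field F] (R : Subring F) [UniqueFactorizationMonoid R]
  (hfrac : ∀ x : F, ∃ a b : R, (b : F) ≠ 0 ∧ x * b = a)

variable {R} in
theorem subring_ne_zero {b : R} : b ≠ 0 ↔ (b : F) ≠ 0 := by
  rw [Ne, Ne, not_iff_not]
  exact ⟨fun h => by rw [h]; rfl, fun h => Subtype.ext h⟩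

variable {R} in
theorem exists_pow_mul {w : R} (hw : Prime w) {a : R} (ha : a ≠ 0) :
    ∃ (n : ℕ) (a' : R), ¬ w ∣ a' ∧ a = w ^ n * a' := by
  obtain ⟨n, a', h1, h2⟩ := WfDvdMonoid.max_power_factor ha hw.irreducible
  exact ⟨n, a', h1, h2⟩

variable {R} in
include hfrac in
/-- every non zero element of `F` is `w^n * a / b` with `a,b` prime to `w` -/
theorem exists_zpow_mul {w : R} (hw : Prime w) {x : F} (hx : x ≠ 0) :
    ∃ (n : ℤ) (a b : R), ¬ w ∣ a ∧ ¬ w ∣ b ∧ x * b = (w : F) ^ n * a := by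
  obtain ⟨a, b, hb, h⟩ := hfrac x
  have hb0 : b ≠ 0 := subring_ne_zero.2 hb
  have ha0 : a ≠ 0 := by
    rw [subring_ne_zero, ← h]
    exact mul_ne_zero hx hb
  obtain ⟨k, a', ha', rfl⟩ := exists_pow_mul hw ha0
  obtain ⟨l, b', hb', rfl⟩ := exists_pow_mul hw hb0
  have hw0 : (w : F) ≠ 0 := subring_ne_zero.1 hw.ne_zero
  refine ⟨k - l, a', b', ha', hb', ?_⟩
  push_cast at h ⊢
  rw [zpow_sub₀ hw0, zpow_natCast, zpow_natCast]
  field_simp
  linear_combination h

include hfrac in
/-- If the multiplicities of `f` at all primes of `R` are divisible by `d` then `f = u h^d`. -/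
theorem exists_unit_mul_pow {d : ℕ} (hd : d ≠ 0) {f : F} (hf : f ≠ 0)
    (H : ∀ w : R, Prime w → ∀ (n : ℤ) (a b : R), ¬ w ∣ a → ¬ w ∣ b →
      f * b = (w : F) ^ n * a → (d : ℤ) ∣ n) :
    ∃ (u : Rˣ) (h : F), h ≠ 0 ∧ f = ((u : R) : F) * h ^ d := by
  classical
  obtain ⟨a, b, hb, h⟩ := hfrac f
  have hb0 : b ≠ 0 := subring_ne_zero.2 hb
  have ha0 : a ≠ 0 := by
    rw [subring_ne_zero, ← h]
    exact mul_ne_zero hf hb
  set x : R := a * b ^ (d - 1) with hx
  have hx0 : x ≠ 0 := mul_ne_zero ha0 (pow_ne_zero _ hb0)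
  have hcount : ∀ p : Associates R, Irreducible p →
      d ∣ (p.count (Associates.mk x).factors) := by
    intro p hp
    obtain ⟨w, rfl⟩ := Associates.mk_surjective p
    rw [Associates.irreducible_mk] at hp
    have hw := hp.prime
    obtain ⟨k, a', ha', rfl⟩ := exists_pow_mul hw ha0
    obtain ⟨l, b', hb', rfl⟩ := exists_pow_mul hw hb0
    have hw0 : (w : F) ≠ 0 := subring_ne_zero.1 hw.ne_zero
    have hdvd : (d : ℤ) ∣ (k : ℤ) - l := by
      apply H w hw _ a' b' ha' hb'
      push_cast at h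
      rw [zpow_sub₀ hw0, zpow_natCast, zpow_natCast]
      field_simp
      linear_combination h
    -- `x = w^(k + (d-1) l) * (a' b'^(d-1))`
    have hxe : x = w ^ (k + l * (d - 1)) * (a' * b' ^ (d - 1)) := by
      rw [hx, mul_pow, pow_add, ← pow_mul]; ring
    have hndvd : ¬ w ∣ a' * b' ^ (d - 1) := by
      intro hdv
      rcases hw.dvd_or_dvd hdv with h1 | h1
      · exact ha' h1
      · exact hb' (hw.dvd_of_dvd_pow h1)
    have hne : a' * b' ^ (d - 1) ≠ 0 := by
      intro h0; exact hndvd (h0 ▸ dvd_zero w)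
    have hirr : Irreducible (Associates.mk w) := Associates.irreducible_mk.2 hp
    have hc : (Associates.mk w).count (Associates.mk x).factors = k + l * (d - 1) := by
      rw [hxe, Associates.mk_mul_mk.symm, Associates.mk_pow,
        Associates.count_mul (pow_ne_zero _ hirr.ne_zero) (by rwa [Ne, Associates.mk_eq_zero]) hirr,
        Associates.count_pow hirr.ne_zero hirr]
      have h1 : (Associates.mk w).count (Associates.mk w).factors = 1 := by
        have := Associates.count_self hirr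
        exact this
      have h2 : (Associates.mk w).count (Associates.mk (a' * b' ^ (d - 1))).factors = 0 := by
        by_contra h3
        have h4 : 1 ≤ (Associates.mk w).count (Associates.mk (a' * b' ^ (d - 1))).factors :=
          Nat.one_le_iff_ne_zero.2 h3
        have h5 := (Associates.prime_pow_dvd_iff_le (by rwa [Ne, Associates.mk_eq_zero]) hirr).2 h4
        rw [pow_one] at h5
        exact hndvd ((Associates.mk_le_mk_iff_dvd).1 h5)
      rw [h1, h2]; ring
    rw [hc]
    have h3 : (d : ℤ) ∣ ((k + l * (d - 1) : ℕ) : ℤ) := by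
      obtain ⟨c, hc⟩ := hdvd
      refine ⟨c + l, ?_⟩
      have hd1 : ((d - 1 : ℕ) : ℤ) = (d : ℤ) - 1 := by
        have : 1 ≤ d := Nat.one_le_iff_ne_zero.2 hd
        push_cast [Nat.cast_sub this]; ring
      push_cast [hd1]
      linear_combination hc
    exact_mod_cast h3
  obtain ⟨b1, hb1⟩ := Associates.is_pow_of_dvd_count (by rwa [Ne, Associates.mk_eq_zero]) hcount
  obtain ⟨g, rfl⟩ := Associates.mk_surjective b1
  rw [← Associates.mk_pow, Associates.mk_eq_mk_iff_associated] at hb1
  obtain ⟨u, hu⟩ := hb1.symm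
  have hg0 : (g : F) ≠ 0 := by
    rw [← subring_ne_zero]
    rintro rfl
    apply hx0
    rw [← hu, zero_pow hd, zero_mul]
  refine ⟨u, (g : F) / b, div_ne_zero hg0 hb, ?_⟩
  have h1 : ((g : F)) ^ d * ((u : R) : F) = (a : F) * (b : F) ^ (d - 1) := by
    have := congrArg (fun z : R => (z : F)) hu
    push_cast at this
    rw [this, hx]; push_cast; ring
  rw [div_pow]
  have h2 : (b : F) ^ d = b ^ (d - 1) * b := by
    rw [← pow_succ, Nat.sub_add_cancel (Nat.one_le_iff_ne_zero.2 hd)]
  field_simp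
  rw [h2]
  linear_combination (b : F) ^ (d - 1) * h - h1

end UFD

section place

variable {K F : Type*} [Field K] [Field F] [Algebra K F] (R : Subring F)
  [UniqueFactorizationMonoid R]
  (hfrac : ∀ x : F, ∃ a b : R, (b : F) ≠ 0 ∧ x * b = a)

/-- The valuation ring of a prime element. -/
def primeVal (w : R) (hw : Prime w) : ValuationSubring F where
  carrier := {x | ∃ a b : R, ¬ w ∣ b ∧ x * (b : F) = a}
  mul_mem' := by
    rintro x y ⟨a, b, hb, h⟩ ⟨c, d, hd, h'⟩
    refine ⟨a * c, b * d, fun hbd => (hw.dvd_or_dvd hbd).elim hb hd, ?_⟩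
    push_cast
    rw [← h, ← h']; ring
  one_mem' := ⟨1, 1, fun h => hw.not_isUnit (isUnit_of_dvd_one h), by simp⟩
  add_mem' := by
    rintro x y ⟨a, b, hb, h⟩ ⟨c, d, hd, h'⟩
    refine ⟨a * d + c * b, b * d, fun hbd => (hw.dvd_or_dvd hbd).elim hb hd, ?_⟩
    push_cast
    rw [← h, ← h']; ring
  zero_mem' := ⟨0, 1, fun h => hw.not_isUnit (isUnit_of_dvd_one h), by simp⟩
  neg_mem' := by
    rintro x ⟨a, b, hb, h⟩
    exact ⟨-a, b, hb, by push_cast; rw [← h]; ring⟩
  mem_or_inv_mem' := by
    intro x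
    rcases eq_or_ne x 0 with rfl | hx
    · exact Or.inl ⟨0, 1, fun h => hw.not_isUnit (isUnit_of_dvd_one h), by simp⟩
    obtain ⟨n, a, b, ha, hb, h⟩ := exists_zpow_mul hfrac hw hx
    have hw0 : (w : F) ≠ 0 := subring_ne_zero.1 hw.ne_zero
    rcases le_total 0 n with hn | hn
    · left
      refine ⟨w ^ n.toNat * a, b, hb, ?_⟩
      rw [h]
      push_cast
      congr 1
      conv_lhs => rw [← Int.toNat_of_nonneg hn]
      rw [zpow_natCast]
    · right
      refine ⟨w ^ (-n).toNat * b, a, ha, ?_⟩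
      have h1 : (w : F) ^ (-n).toNat = ((w : F) ^ n)⁻¹ := by
        rw [← zpow_neg, ← zpow_natCast, Int.toNat_of_nonneg (by omega)]
      push_cast
      rw [h1]
      have := zpow_ne_zero n hw0
      field_simp
      linear_combination -h

variable {R}

theorem mem_primeVal {w : R} {hw : Prime w} {x : F} :
    x ∈ primeVal R hfrac w hw ↔ ∃ a b : R, ¬ w ∣ b ∧ x * (b : F) = a := Iff.rfl

theorem le_primeVal {w : R} (hw : Prime w) (a : R) : (a : F) ∈ primeVal R hfrac w hw :=
  ⟨a, 1, fun h => hw.not_isUnit (isUnit_of_dvd_one h), by simp⟩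

/-- `w` as an element of its valuation ring -/
def primeElt (w : R) (hw : Prime w) : primeVal R hfrac w hw := ⟨w, le_primeVal hfrac hw w⟩

theorem isUnit_primeVal {w : R} (hw : Prime w) {a b : R} (ha : ¬ w ∣ a) (hb : ¬ w ∣ b)
    (x : primeVal R hfrac w hw) (hx : (x : F) * b = a) : IsUnit x := by
  have ha0 : (a : F) ≠ 0 := subring_ne_zero.1 (fun h => ha (h ▸ dvd_zero w))
  have hb0 : (b : F) ≠ 0 := subring_ne_zero.1 (fun h => hb (h ▸ dvd_zero w))
  refine IsUnit.of_mul_eq_one ⟨(b : F) / a, ⟨b, a, ha, by field_simp⟩⟩ (Subtype.ext ?_)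
  show (x : F) * ((b : F) / a) = 1
  rw [← mul_div_assoc, hx, div_self ha0]

theorem not_isUnit_primeElt {w : R} (hw : Prime w) : ¬ IsUnit (primeElt hfrac w hw) := by
  intro h
  obtain ⟨y, hy⟩ := h.exists_right_inv
  obtain ⟨a, b, hb, h'⟩ := y.2
  have h1 : (w : F) * (y : F) = 1 := congrArg (fun z : primeVal R hfrac w hw => (z : F)) hy
  apply hb
  refine ⟨a, Subtype.ext ?_⟩
  push_cast
  rw [← h']
  linear_combination -(b : F) * h1

theorem exists_primeVal_eq {w : R} (hw : Prime w) (x : primeVal R hfrac w hw) (hx : x ≠ 0) :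
    ∃ (n : ℕ) (u : (primeVal R hfrac w hw)ˣ), x = primeElt hfrac w hw ^ n * u := by
  have hx0 : (x : F) ≠ 0 := fun h => hx (Subtype.ext h)
  have hw0 : (w : F) ≠ 0 := subring_ne_zero.1 hw.ne_zero
  obtain ⟨n, a, b, ha, hb, h⟩ := exists_zpow_mul hfrac hw hx0
  have hb0 : (b : F) ≠ 0 := subring_ne_zero.1 (fun h => hb (h ▸ dvd_zero w))
  -- `n ≥ 0`
  have hn : 0 ≤ n := by
    by_contra hn
    push Not at hn
    obtain ⟨c, d, hd, h'⟩ := x.2
    -- x * d = c, x * b = w^n a ⇒ c * b = w^n * a * d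
    have h2 : (a : F) * d = (w : F) ^ (-n) * (c * b) := by
      rw [zpow_neg]
      have := zpow_ne_zero n hw0
      field_simp
      linear_combination (b : F) * h' - (d : F) * h
    have h3 : a * d = w ^ (-n).toNat * (c * b) := by
      apply Subtype.ext
      push_cast
      rw [h2]
      congr 1
      conv_lhs => rw [← Int.toNat_of_nonneg (by omega : 0 ≤ -n)]
      rw [zpow_natCast]
    have h4 : w ∣ a * d := by
      rw [h3]
      exact Dvd.dvd.mul_right (dvd_pow_self w (by omega)) _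
    exact (hw.dvd_or_dvd h4).elim ha hd
  have hy : (a : F) / b ∈ primeVal R hfrac w hw := ⟨a, b, hb, by field_simp⟩
  have hu := isUnit_primeVal hfrac hw ha hb ⟨(a : F) / b, hy⟩ (by field_simp)
  refine ⟨n.toNat, hu.unit, Subtype.ext ?_⟩
  show (x : F) = (w : F) ^ n.toNat * ((a : F) / b)
  have h5 : (w : F) ^ n.toNat = (w : F) ^ n := by
    rw [← zpow_natCast, Int.toNat_of_nonneg hn]
  rw [h5]
  field_simp
  linear_combination h

theorem irreducible_primeElt {w : R} (hw : Prime w) : Irreducible (primeElt hfrac w hw) := by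
  have hw0 : (w : F) ≠ 0 := subring_ne_zero.1 hw.ne_zero
  constructor
  · exact not_isUnit_primeElt hfrac hw
  · rintro x y hxy
    have hx0 : x ≠ 0 := by
      rintro rfl
      rw [zero_mul] at hxy
      exact hw0 (congrArg (fun z : primeVal R hfrac w hw => (z : F)) hxy)
    have hy0 : y ≠ 0 := by
      rintro rfl
      rw [mul_zero] at hxy
      exact hw0 (congrArg (fun z : primeVal R hfrac w hw => (z : F)) hxy)
    obtain ⟨n, u, rfl⟩ := exists_primeVal_eq hfrac hw x hx0
    obtain ⟨m, v, rfl⟩ := exists_primeVal_eq hfrac hw y hy0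
    rcases Nat.eq_zero_or_pos n with rfl | hn
    · left; simp
    rcases Nat.eq_zero_or_pos m with rfl | hm
    · right; simp
    exfalso
    apply not_isUnit_primeElt hfrac hw
    set p := primeElt hfrac w hw with hp
    have hp0 : p ≠ 0 := fun h => hw0 (congrArg (fun z : primeVal R hfrac w hw => (z : F)) h)
    obtain ⟨n, rfl⟩ := Nat.exists_eq_succ_of_ne_zero hn.ne'
    obtain ⟨m, rfl⟩ := Nat.exists_eq_succ_of_ne_zero hm.ne'
    have h1 : p * 1 = p * (p * (p ^ n * p ^ m * u * v)) := by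
      rw [mul_one]
      calc p = p ^ (n + 1) * u * (p ^ (m + 1) * v) := hxy
        _ = _ := by rw [pow_succ, pow_succ]; ring
    have h2 := mul_left_cancel₀ hp0 h1
    exact IsUnit.of_mul_eq_one _ h2.symm

/-- The place of a prime element of `R` whose valuation ring contains the constants. -/
def primePlace (w : R) (hw : Prime w) (hK : ∀ c : K, algebraMap K F c ∈ primeVal R hfrac w hw) :
    Place K F where
  toValuationSubring := primeVal R hfrac w hw
  algebraMap_mem' := hK
  ne_top' := by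
    intro h
    have hw0 : (w : F) ≠ 0 := subring_ne_zero.1 hw.ne_zero
    have h1 : ((w : F))⁻¹ ∈ primeVal R hfrac w hw := by rw [h]; exact ValuationSubring.mem_top _
    apply not_isUnit_primeElt hfrac hw
    refine IsUnit.of_mul_eq_one ⟨_, h1⟩ (Subtype.ext ?_)
    show (w : F) * (w : F)⁻¹ = 1
    exact mul_inv_cancel₀ hw0
  isPrincipalIdealRing' := by
    haveI : IsDiscreteValuationRing (primeVal R hfrac w hw) := by
      apply IsDiscreteValuationRing.ofHasUnitMulPowIrreducibleFactorization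
      refine ⟨primeElt hfrac w hw, irreducible_primeElt hfrac hw, ?_⟩
      intro x hx
      obtain ⟨n, u, h⟩ := exists_primeVal_eq hfrac hw x hx
      exact ⟨n, ⟨u, h.symm⟩⟩
    infer_instance

theorem primePlace_ord {w : R} {hw : Prime w}
    (hK : ∀ c : K, algebraMap K F c ∈ primeVal R hfrac w hw)
    {x : F} {n : ℤ} {a b : R} (ha : ¬ w ∣ a) (hb : ¬ w ∣ b) (h : x * b = (w : F) ^ n * a) :
    (primePlace hfrac w hw hK).ord x = n := by
  have hb0 : (b : F) ≠ 0 := subring_ne_zero.1 (fun h => hb (h ▸ dvd_zero w))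
  have hy : (a : F) / b ∈ primeVal R hfrac w hw := ⟨a, b, hb, by field_simp⟩
  have hu := isUnit_primeVal hfrac hw ha hb ⟨(a : F) / b, hy⟩ (by field_simp)
  have hx : x = ((a : F) / b) * (w : F) ^ n := by
    field_simp
    linear_combination h
  rw [hx]
  exact (primePlace hfrac w hw hK).ord_unit_smul_zpow hu.unit
    (π := primeElt hfrac w hw) (irreducible_primeElt hfrac hw) n

end place

end Fermat.Agent.H83
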