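import Mathlib
import Fermat.Agent.H83Point
import Fermat.Agent.H83Fact

/-!
# `f = u h^d` at points where the local ring is a UFD
-/

set_option autoImplicit false

namespace Fermat.Agent.H83.CompSys

open AlgebraicCurve

variable {K F E : Type*} [Field K] [Field F] [Algebra K F] [Field E] {q : ℕ} {ι : Type*}
  [Fintype ι] (S : CompSys F E q ι)

theorem fact_at (hK : ∀ c : K, ∃ N : ℕ, algebraMap K F c * (q : F) ^ N ∈ S.B)
    (hfrac : ∀ x : F, ∃ b : S.B, (b : F) ≠ 0 ∧ x * b ∈ S.B)
    (m : Ideal S.B) [hm : m.IsPrime] [UniqueFactorizationMonoid (locRing S.B m)]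
    {d : ℕ} (hd : d ≠ 0) {f : F} (hf : ∀ i, S.res i f ≠ 0) (hf0 : f ≠ 0)
    (hord : ∀ P : Place K F, (d : ℤ) ∣ P.ord f) :
    ∃ (h : F) (a b : S.B), h ≠ 0 ∧ a ∉ m ∧ b ∉ m ∧ f * b = h ^ d * a := by
  classical
  have hfrac' : ∀ x : F, ∃ a b : locRing S.B m, (b : F) ≠ 0 ∧ x * b = a := by
    intro x
    obtain ⟨b, hb0, hb⟩ := hfrac x
    exact ⟨⟨x * b, le_locRing hb⟩, ⟨b, le_locRing b.2⟩, hb0, rfl⟩
  have key : ∀ w : locRing S.B m, Prime w → ∀ (n : ℤ) (a b : locRing S.B m), ¬ w ∣ a → ¬ w ∣ b →
      f * b = (w : F) ^ n * a → (d : ℤ) ∣ n := by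
    intro w hw n a b ha hb h
    set qR : locRing S.B m := ⟨(S.qB : F), le_locRing S.qB.2⟩ with hqR
    by_cases hwq : w ∣ qR
    · -- vertical case
      -- the prime ideal of `B` below `w`
      set P : Ideal S.B := (Ideal.span {w}).comap (algebraMap S.B (locRing S.B m)) with hP
      haveI : (Ideal.span {w} : Ideal (locRing S.B m)).IsPrime :=
        (Ideal.span_singleton_prime hw.ne_zero).2 hw
      haveI hPp : P.IsPrime := Ideal.IsPrime.comap _
      have hqP : S.qB ∈ P := by
        rw [hP, Ideal.mem_comap, Ideal.mem_span_singleton]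
        exact hwq
      obtain ⟨i, hi⟩ := S.exists_p_le P hqP
      have hPm : P ≤ m := by
        intro x hx
        by_contra hxm
        rw [hP, Ideal.mem_comap, Ideal.mem_span_singleton] at hx
        have hu : IsUnit (algebraMap S.B (locRing S.B m) x) :=
          IsLocalization.map_units (M := m.primeCompl) (locRing S.B m) ⟨x, hxm⟩
        exact hw.not_isUnit (isUnit_of_dvd_unit hx hu)
      have hpm : S.p i ≤ m := hi.trans hPm
      -- `w` has residue `0` at `i`
      have hQ : ∀ x : locRing S.B m, S.res i (x : F) = 0 → w ∣ x := by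
        intro x hx
        obtain ⟨c, e, he, hce⟩ := x.2
        have hcp : c ∈ S.p i := by
          rw [S.mem_p_iff, ← hce, res_mul (S.locRing_le_V m hpm x.2) (S.B_le_V i e.2), hx,
            zero_mul]
        have hcP : c ∈ P := hi hcp
        rw [hP, Ideal.mem_comap, Ideal.mem_span_singleton] at hcP
        have hu : IsUnit (algebraMap S.B (locRing S.B m) e) :=
          IsLocalization.map_units (M := m.primeCompl) (locRing S.B m) ⟨e, he⟩
        have : x * algebraMap S.B (locRing S.B m) e = algebraMap S.B (locRing S.B m) c :=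
          Subtype.ext hce
        rw [← this] at hcP
        exact (hu.dvd_mul_right).1 hcP
      have hw0 : S.res i (w : F) = 0 := by
        have hqR0 : qR ≠ 0 := by
          intro h0
          apply S.q_ne
          rw [← S.coe_qB]
          exact congrArg (fun z : locRing S.B m => (z : F)) h0
        obtain ⟨k, x', hx', hq'⟩ := exists_pow_mul hw hqR0
        have h1 : S.res i (qR : F) = 0 := by
          show S.res i (S.qB : F) = 0
          rw [S.coe_qB]; exact res_q S i
        rw [hq'] at h1
        push_cast at h1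
        rw [res_mul (pow_mem (S.locRing_le_V m hpm w.2) _) (S.locRing_le_V m hpm x'.2),
          res_pow (S.locRing_le_V m hpm w.2)] at h1
        rcases mul_eq_zero.1 h1 with h2 | h2
        · exact eq_zero_of_pow_eq_zero h2
        · exact absurd (hQ _ h2) hx'
      have ha0 : S.res i (a : F) ≠ 0 := fun h0 => ha (hQ _ h0)
      have hb0 : S.res i (b : F) ≠ 0 := fun h0 => hb (hQ _ h0)
      have hfV : f ∈ S.V i := res_mul_ne (hf i)
      have hwF : (w : F) ≠ 0 := subring_ne_zero.1 hw.ne_zero
      have hn : n = 0 := by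
        rcases lt_trichotomy n 0 with hn | hn | hn
        · exfalso
          have h2 : f * b * (w : F) ^ (-n).toNat = a := by
            have h3 : (w : F) ^ (-n).toNat = ((w : F) ^ n)⁻¹ := by
              rw [← zpow_neg, ← zpow_natCast, Int.toNat_of_nonneg (by omega)]
            rw [h3, h]
            have := zpow_ne_zero n hwF
            field_simp
          apply ha0
          rw [← h2, res_mul (mul_mem hfV (S.locRing_le_V m hpm b.2))
            (pow_mem (S.locRing_le_V m hpm w.2) _), res_pow (S.locRing_le_V m hpm w.2), hw0,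
            zero_pow (by omega), mul_zero]
        · exact hn
        · exfalso
          have h3 : (w : F) ^ n = (w : F) ^ n.toNat := by
            conv_lhs => rw [← Int.toNat_of_nonneg hn.le]
            rw [zpow_natCast]
          rw [h3] at h
          have h4 := congrArg (S.res i) h
          rw [res_mul hfV (S.locRing_le_V m hpm b.2),
            res_mul (pow_mem (S.locRing_le_V m hpm w.2) _) (S.locRing_le_V m hpm a.2),
            res_pow (S.locRing_le_V m hpm w.2), hw0, zero_pow (by omega), zero_mul] at h4
          exact (mul_ne_zero (hf i) hb0) h4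
      rw [hn]
      exact dvd_zero _
    · -- horizontal case
      have hKw : ∀ c : K, algebraMap K F c ∈ primeVal (locRing S.B m) hfrac' w hw := by
        intro c
        obtain ⟨N, hN⟩ := hK c
        refine ⟨⟨_, le_locRing hN⟩, qR ^ N, fun hdv => hwq (hw.dvd_of_dvd_pow hdv), ?_⟩
        show algebraMap K F c * (((qR ^ N : locRing S.B m)) : F) = _
        simp [hqR]
      have h1 := primePlace_ord hfrac' hKw ha hb h
      rw [← h1]
      exact hord _
  obtain ⟨u, h, hh, hfu⟩ := exists_unit_mul_pow (locRing S.B m) hfrac' hd hf0 key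
  obtain ⟨a, b, ha, hb, hab⟩ := (isUnit_locRing_iff' (u : locRing S.B m)).1 u.isUnit
  refine ⟨h, a, b, hh, ha, hb, ?_⟩
  rw [hfu, ← hab]
  ring

end Fermat.Agent.H83.CompSys
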