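import Mathlib
import Fermat.Agent.H83WindA

/-!
# Windings, part B: normalisation of `f`
-/

set_option autoImplicit false

namespace Fermat.Agent.H83

open CompSys

namespace ThreeData

variable {k E : Type*} [Field k] [Field E] [Algebra k E] {q : ℕ} {R : ResData k E q}
  {F' : Type*} [Field F'] {T : TwoData R F'} {F : Type*} [Field F] (S : ThreeData T F)
  {K : Type*} [Field K] [Algebra K F'] [Algebra K F]

/-- all the technical hypotheses relating `S`, `T` with the base ring `(O, π)` -/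
structure Hyp (O : ValuationSubring K) (π : O →+* k) : Prop where
  cT : T.Consts O π
  cS : S.Consts O π
  aT : T.Arch
  aS : S.Arch
  fT : ∀ x : F', ∃ b : T.B, (b : F') ≠ 0 ∧ x * b ∈ T.B
  fS : ∀ x : F, ∃ b : S.B, (b : F) ≠ 0 ∧ x * b ∈ S.B
  α_alg : ∀ c : K, S.α (algebraMap K F' c) = algebraMap K F c
  β_alg : ∀ c : K, S.β (algebraMap K F' c) = algebraMap K F c

variable {S} {O : ValuationSubring K} {π : O →+* k} {d : ℕ}

theorem Hyp.Nα_alg (H : S.Hyp O π) (c : K) :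
    S.Nα (algebraMap K F c) = (algebraMap K F' c) ^ q := by
  rw [← H.α_alg, S.Nα_α]

theorem Hyp.Nβ_alg (H : S.Hyp O π) (c : K) :
    S.Nβ (algebraMap K F c) = (algebraMap K F' c) ^ q := by
  rw [← H.β_alg, S.Nβ_β]

theorem hasVal_const (hS : T.Consts O π) (i : Fin 2) {n : ℤ} {o : O} (ho : π o ≠ 0) :
    T.HasVal i (q : F') (algebraMap K F' ((q : K) ^ n * (o : K))) n := by
  have hq := T.q_ne
  rw [map_mul, map_zpow₀, map_natCast]
  have h2 := ((hasVal_self (S := T.toCompSys) (i := i) hq).zpow n).mul hq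
    (HasVal.of_res (t := (q : F')) (hS.res_ne i ho))
  rwa [one_mul, add_zero] at h2

theorem exists_val_T (H : S.Hyp O π) (i : Fin 2) {x : F'} (hx : x ≠ 0) :
    ∃ n : ℤ, T.HasVal i (q : F') x n :=
  exists_zpow (isUnif_q (T.e_eq i)) (by rw [T.e_eq]; exact one_ne_zero) H.aT hx

/-- **Step A** : after multiplication by a power of `q`, `f ^ (q+1)` is a `d`-th power times a
unit at all components. -/
theorem exists_normalize (hO : BaseHyp O π q d) (H : S.Hyp O π) {f : F} (hf : f ≠ 0)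
    {c c' : K} (hc : c ≠ 0) (hc' : c' ≠ 0) {g g' : F'} (hg : g ≠ 0) (hg' : g' ≠ 0)
    (hα : S.Nα f = algebraMap K F' c * g ^ d) (hβ : S.Nβ f = algebraMap K F' c' * g' ^ d) :
    ∃ (z : ℤ) (a : F), a ≠ 0 ∧ ∀ i, S.res i ((q : F) ^ z * f ^ (q + 1) / a ^ d) ≠ 0 := by
  have hqF := S.q_ne
  have hqF' := T.q_ne
  have hq2 : 2 ≤ q := two_le_q' (T := T)
  obtain ⟨n₀, h0⟩ := exists_zpow S.isUnif0 (S.e_ne 0) H.aS hf
  obtain ⟨n₁, h1⟩ := exists_zpow S.isUnif1 (S.e_ne 1) H.aS hf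
  obtain ⟨n₂, h2⟩ := exists_zpow S.isUnif2 (S.e_ne 2) H.aS hf
  have h0' : S.HasVal 0 (q : F) f n₀ := h0
  have h1' : S.HasVal 1 S.w f n₁ := h1
  have h2' : S.HasVal 2 (q : F) f n₂ := h2
  obtain ⟨v, o, ho, rfl⟩ := hO.exists_zpow c hc
  obtain ⟨v', o', ho', rfl⟩ := hO.exists_zpow c' hc'
  obtain ⟨a0, ha0⟩ := exists_val_T H 0 hg
  obtain ⟨a1, ha1⟩ := exists_val_T H 1 hg
  obtain ⟨b0, hb0⟩ := exists_val_T H 0 hg'
  obtain ⟨b1, hb1⟩ := exists_val_T H 1 hg'
  have uq : ∀ (i : Fin 2) {x : F'} {n m : ℤ}, T.HasVal i (q : F') x n → T.HasVal i (q : F') x m →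
      n = m := fun i x n m hn hm => hn.unique hqF' (q_mem _ i) (res_q _ i) hm
  have e1 : n₀ + n₁ = v + a0 * d := uq 0 (S.val_Nα_0 H.aS h0' h1')
    (by rw [hα]; exact (hasVal_const H.cT 0 ho).mul hqF' (ha0.pow d))
  have e2 : q * n₂ = v + a1 * d := uq 1 (S.val_Nα_1 h2')
    (by rw [hα]; exact (hasVal_const H.cT 1 ho).mul hqF' (ha1.pow d))
  have e3 : n₂ + n₁ = v' + b1 * d := uq 1 (S.val_Nβ_1 H.aS h1' h2')
    (by rw [hβ]; exact (hasVal_const H.cT 1 ho').mul hqF' (hb1.pow d))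
  have e4 : q * n₀ = v' + b0 * d := uq 0 (S.val_Nβ_0 h0')
    (by rw [hβ]; exact (hasVal_const H.cT 0 ho').mul hqF' (hb0.pow d))
  -- congruences
  have c2 : ((q : ℤ) + 1) * (n₂ - n₀) = (-(a0 - a1) + (b1 - b0)) * d := by
    linear_combination e2 + e3 - e4 - e1
  have c1 : ((q : ℤ) + 1) * n₁ - (q - 1) * ((q + 1) * n₀) =
      ((q + 1) * (b1 - b0) - (-(a0 - a1) + (b1 - b0))) * d := by
    linear_combination (q + 1 : ℤ) * e3 - (q + 1 : ℤ) * e4 - c2
  obtain ⟨a, ha⟩ := S.approx_val H.aS ![0, (q + 1) * (b1 - b0) - (-(a0 - a1) + (b1 - b0)),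
    -(a0 - a1) + (b1 - b0)]
  have ha_0 : S.HasVal 0 (q : F) a 0 := ha 0
  have ha_1 : S.HasVal 1 S.w a ((q + 1) * (b1 - b0) - (-(a0 - a1) + (b1 - b0))) := ha 1
  have ha_2 : S.HasVal 2 (q : F) a (-(a0 - a1) + (b1 - b0)) := ha 2
  refine ⟨-((q + 1) * n₀), a, (ha 0).ne_zero, fun i => ?_⟩
  have hw0 : S.w ≠ 0 := S.unif_ne 1
  have hq1 : S.HasVal 1 S.w (q : F) (q - 1) := by
    have h3 := S.isUnif1.2.2
    rw [S.e_one] at h3
    have h4 := res_inv_ne_zero h3
    rw [inv_div] at h4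
    have e : ((q : ℤ) - 1) = ((q - 1 : ℕ) : ℤ) := by push_cast [Nat.cast_sub (by omega : 1 ≤ q)]; ring
    rw [HasVal, e, zpow_natCast]
    exact h4
  fin_cases i
  · show S.res 0 _ ≠ 0
    rw [← hasVal_zero (t := (q : F))]
    have := (((hasVal_self (S := S.toCompSys) (i := 0) hqF).zpow (-((q + 1) * n₀))).mul hqF
      (h0'.pow (q + 1))).div hqF (ha_0.pow d)
    convert this using 1
    push_cast
    ring
  · show S.res 1 _ ≠ 0
    rw [← hasVal_zero (t := S.w)]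
    have := ((hq1.zpow (-((q + 1) * n₀))).mul hw0 (h1'.pow (q + 1))).div hw0 (ha_1.pow d)
    convert this using 1
    push_cast
    linear_combination -c1
  · show S.res 2 _ ≠ 0
    rw [← hasVal_zero (t := (q : F))]
    have := (((hasVal_self (S := S.toCompSys) (i := 2) hqF).zpow (-((q + 1) * n₀))).mul hqF
      (h2'.pow (q + 1))).div hqF (ha_2.pow d)
    convert this using 1
    push_cast
    linear_combination -c2

end ThreeData

end Fermat.Agent.H83
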