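import Mathlib
import Fermat.Agent.H83WindB

/-!
# Windings, part C: residues of `f` at the components
-/

set_option autoImplicit false

namespace Fermat.Agent.H83

open CompSys

namespace CompSys

variable {F E : Type*} [Field F] [Field E] {q : ℕ} {ι : Type*} {S : CompSys F E q ι}
  [Fintype ι] [DecidableEq ι]

/-- Every element of `V i` is a quotient of elements of the chart ring, the denominator being
a unit at `i`. -/
theorem exists_frac (hA : S.Arch) {i : ι} (hei : S.e i ≠ 0) {t : F} (ht : S.IsUnif i t) {u : F}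
    (huB : u ∈ S.B) (hu1 : S.res i u ≠ 0) (hu0 : ∀ j, j ≠ i → S.res j u = 0)
    (hfrac : ∀ x : F, ∃ b : S.B, (b : F) ≠ 0 ∧ x * b ∈ S.B) {x : F} (hx : x ∈ S.V i) :
    ∃ a b : S.B, S.res i (b : F) ≠ 0 ∧ x * b = a := by
  have hq := S.q_ne
  have ht0 := ht.ne_zero hei
  obtain ⟨b₀, hb₀, hxb⟩ := hfrac x
  obtain ⟨n, hn⟩ := exists_zpow ht hei hA hb₀
  set b₁ : F := (b₀ : F) ^ S.e i with hb₁
  have hb₁B : b₁ ∈ S.B := pow_mem b₀.2 _
  have hxb₁ : x * b₁ ∈ S.B := by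
    have : x * b₁ = (x * b₀) * (b₀ : F) ^ (S.e i - 1) := by
      rw [hb₁, mul_assoc, ← pow_succ']
      congr 2
      omega
    rw [this]
    exact mul_mem hxb (pow_mem b₀.2 _)
  have h1 : S.res i (b₁ / (q : F) ^ n) ≠ 0 := by
    have e : b₁ / (q : F) ^ n = (b₀ / t ^ n) ^ S.e i * (t ^ S.e i / (q : F)) ^ n := by
      rw [hb₁, div_pow, div_zpow, ← zpow_natCast (t ^ n), ← zpow_natCast t (S.e i), ← zpow_mul,
        ← zpow_mul, mul_comm (S.e i : ℤ) n]
      have := zpow_ne_zero (n * (S.e i : ℤ)) ht0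
      field_simp
    rw [e]
    exact res_mul_ne_zero (res_pow_ne_zero hn _) (res_zpow_ne_zero ht.2.2 _)
  have hn0 : 0 ≤ n := by
    by_contra hneg
    push Not at hneg
    obtain ⟨N, hN⟩ := Int.eq_ofNat_of_zero_le (a := -n) (by omega)
    have hN0 : N ≠ 0 := by omega
    have e : b₁ / (q : F) ^ n = b₁ * (q : F) ^ N := by
      rw [div_eq_mul_inv, ← zpow_neg, hN, zpow_natCast]
    rw [e, res_mul (S.B_le_V i hb₁B) (pow_mem (q_mem S i) _), res_pow (q_mem S i), res_q,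
      zero_pow hN0, mul_zero] at h1
    exact h1 rfl
  obtain ⟨N, rfl⟩ := Int.eq_ofNat_of_zero_le hn0
  rw [zpow_natCast] at h1
  set L : ℕ := ∑ j, S.e j * N with hL
  have hLe : ∀ j, S.e j * N ≤ L := fun j =>
    Finset.single_le_sum (f := fun j => S.e j * N) (fun _ _ => Nat.zero_le _) (Finset.mem_univ j)
  have huV : ∀ j, u ∈ S.V j := fun j => S.B_le_V j huB
  have hmem : ∀ j, j ≠ i → u ^ L / (q : F) ^ N ∈ S.V j := by
    intro j hj
    have e : u ^ L / (q : F) ^ N = (u ^ S.e j / (q : F)) ^ N * u ^ (L - S.e j * N) := by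
      rw [div_pow, ← pow_mul, div_mul_eq_mul_div, ← pow_add, Nat.add_sub_of_le (hLe j)]
    rw [e]
    exact mul_mem (pow_mem (pow_div_mem (huV j) (hu0 j hj)) _) (pow_mem (huV j) _)
  have hqinv : ((q : F) ^ N)⁻¹ ∈ S.hor := by
    rw [← inv_pow]; exact pow_mem S.qinv_mem _
  have hbV : ∀ j, b₁ * u ^ L / (q : F) ^ N ∈ S.V j := by
    intro j
    by_cases hj : j = i
    · subst hj
      have e : b₁ * u ^ L / (q : F) ^ N = b₁ / (q : F) ^ N * u ^ L := by ring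
      rw [e]
      exact mul_mem (res_mul_ne h1) (pow_mem (huV _) _)
    · rw [mul_div_assoc]
      exact mul_mem (S.B_le_V j hb₁B) (hmem j hj)
  refine ⟨⟨x * (b₁ * u ^ L / (q : F) ^ N), ?_⟩, ⟨b₁ * u ^ L / (q : F) ^ N, ?_⟩, ?_, rfl⟩
  · rw [S.mem_B]
    constructor
    · have e : x * (b₁ * u ^ L / (q : F) ^ N) = (x * b₁) * u ^ L * ((q : F) ^ N)⁻¹ := by ring
      rw [e]
      exact mul_mem (mul_mem (S.B_le_hor hxb₁) (pow_mem (S.B_le_hor huB) _)) hqinv
    · intro j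
      by_cases hj : j = i
      · subst hj
        exact mul_mem hx (hbV _)
      · have e : x * (b₁ * u ^ L / (q : F) ^ N) = (x * b₁) * (u ^ L / (q : F) ^ N) := by ring
        rw [e]
        exact mul_mem (S.B_le_V j hxb₁) (hmem j hj)
  · rw [S.mem_B]
    refine ⟨?_, hbV⟩
    rw [div_eq_mul_inv]
    exact mul_mem (mul_mem (S.B_le_hor hb₁B) (pow_mem (S.B_le_hor huB) _)) hqinv
  · show S.res i (b₁ * u ^ L / (q : F) ^ N) ≠ 0
    have e : b₁ * u ^ L / (q : F) ^ N = b₁ / (q : F) ^ N * u ^ L := by ring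
    rw [e]
    exact res_mul_ne_zero h1 (res_pow_ne_zero hu1 _)

end CompSys

section InFrac

variable {k E : Type*} [Field k] [Field E] [Algebra k E] {q : ℕ} (R : ResData k E q)

/-- the fraction field of `C` inside `E` -/
def InFrac (x : E) : Prop := ∃ c c' : E, c ∈ R.C ∧ c' ∈ R.C ∧ c' ≠ 0 ∧ x * c' = c

variable {R}

theorem InFrac.mul {x y : E} (hx : InFrac R x) (hy : InFrac R y) : InFrac R (x * y) := by
  obtain ⟨c, c', h1, h2, h3, h4⟩ := hx
  obtain ⟨b, b', k1, k2, k3, k4⟩ := hy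
  exact ⟨c * b, c' * b', mul_mem h1 k1, mul_mem h2 k2, mul_ne_zero h3 k3, by rw [← h4, ← k4]; ring⟩

theorem InFrac.inv {x : E} (hx : InFrac R x) : InFrac R x⁻¹ := by
  rcases eq_or_ne x 0 with rfl | hx0
  · rwa [inv_zero]
  obtain ⟨c, c', h1, h2, h3, h4⟩ := hx
  refine ⟨c', c, h2, h1, ?_, ?_⟩
  · rw [← h4]; exact mul_ne_zero hx0 h3
  · rw [← h4, inv_mul_cancel_left₀ hx0]

theorem InFrac.div {x y : E} (hx : InFrac R x) (hy : InFrac R y) : InFrac R (x / y) := by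
  rw [div_eq_mul_inv]; exact hx.mul hy.inv

theorem InFrac.pow {x : E} (hx : InFrac R x) (n : ℕ) : InFrac R (x ^ n) := by
  obtain ⟨c, c', h1, h2, h3, h4⟩ := hx
  exact ⟨c ^ n, c' ^ n, pow_mem h1 n, pow_mem h2 n, pow_ne_zero n h3, by rw [← mul_pow, h4]⟩

theorem InFrac.φ_symm {x : E} (hx : InFrac R x) : InFrac R (R.φ.symm x) := by
  obtain ⟨c, c', h1, h2, h3, h4⟩ := hx
  refine ⟨R.φ.symm c, R.φ.symm c', ?_, ?_, ?_, ?_⟩
  · rw [R.φ_mem, RingEquiv.apply_symm_apply]; exact h1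
  · rw [R.φ_mem, RingEquiv.apply_symm_apply]; exact h2
  · exact (map_ne_zero _).2 h3
  · rw [← map_mul, h4]

theorem inFrac_of_mem {x : E} (hx : x ∈ R.C) : InFrac R x :=
  ⟨x, 1, hx, one_mem _, one_ne_zero, mul_one _⟩

end InFrac

namespace TwoData

variable {k E : Type*} [Field k] [Field E] [Algebra k E] {q : ℕ} {R : ResData k E q}
  {F' : Type*} [Field F'] (T : TwoData R F')

theorem res0_z_ne : T.res 0 T.z ≠ 0 := by
  rw [T.res0_z]; exact ThreeData.R_X_ne T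

theorem res1_z'_ne : T.res 1 T.z' ≠ 0 := by
  rw [T.res1_z']; exact ThreeData.R_X_ne T

theorem inFrac_res (hA : T.Arch) (hfrac : ∀ x : F', ∃ b : T.B, (b : F') ≠ 0 ∧ x * b ∈ T.B)
    (i : Fin 2) {x : F'} (hx : x ∈ T.V i) : InFrac R (T.res i x) := by
  have he : ∀ j, T.e j ≠ 0 := fun j => by rw [T.e_eq]; exact one_ne_zero
  have key : ∃ a b : T.B, T.res i (b : F') ≠ 0 ∧ x * b = a := by
    fin_cases i
    · refine exists_frac hA (he _) (isUnif_q (T.e_eq 0)) T.z_mem T.res0_z_ne ?_ hfrac hx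
      intro j hj
      fin_cases j
      · exact absurd rfl hj
      · exact T.res1_z
    · refine exists_frac hA (he _) (isUnif_q (T.e_eq 1)) T.z'_mem T.res1_z'_ne ?_ hfrac hx
      intro j hj
      fin_cases j
      · exact T.res0_z'
      · exact absurd rfl hj
  obtain ⟨a, b, hb, h⟩ := key
  refine ⟨T.r i a, T.r i b, T.r_mem i a, T.r_mem i b, by rw [T.r_apply]; exact hb, ?_⟩
  rw [T.r_apply, T.r_apply, ← res_mul hx (T.B_le_V i b.2), h]

end TwoData

namespace ThreeData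

variable {k E : Type*} [Field k] [Field E] [Algebra k E] {q : ℕ} {R : ResData k E q}
  {F' : Type*} [Field F'] {T : TwoData R F'} {F : Type*} [Field F] (S : ThreeData T F)

theorem exists_frac' (hA : S.Arch) (hfrac : ∀ x : F, ∃ b : S.B, (b : F) ≠ 0 ∧ x * b ∈ S.B)
    (i : Fin 3) {x : F} (hx : x ∈ S.V i) : ∃ a b : S.B, S.res i (b : F) ≠ 0 ∧ x * b = a :=
  exists_frac hA (S.e_ne i) (S.isUnif i) (S.uu_mem i) (S.res_uu_self i)
    (fun j hj => S.res_uu_ne i j (Ne.symm hj)) hfrac hx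

theorem inFrac_res (hA : S.Arch) (hfrac : ∀ x : F, ∃ b : S.B, (b : F) ≠ 0 ∧ x * b ∈ S.B)
    (i : Fin 3) {x : F} (hx : x ∈ S.V i) : InFrac R (S.res i x) := by
  obtain ⟨a, b, hb, h⟩ := S.exists_frac' hA hfrac i hx
  refine ⟨S.r i a, S.r i b, S.r_mem i a, S.r_mem i b, by rw [S.r_apply]; exact hb, ?_⟩
  rw [S.r_apply, S.r_apply, ← res_mul hx (S.B_le_V i b.2), h]

theorem exists_res_eq (i : Fin 3) {y : E} (hy : InFrac R y) : ∃ x : F, x ∈ S.V i ∧
    S.res i x = y := by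
  obtain ⟨c, c', h1, h2, h3, h4⟩ := hy
  obtain ⟨b, hb⟩ := S.r_surj i c h1
  obtain ⟨b', hb'⟩ := S.r_surj i c' h2
  rw [S.r_apply] at hb hb'
  have hb0 : S.res i (b' : F) ≠ 0 := by rw [hb']; exact h3
  refine ⟨(b : F) / b', div_mem (S.B_le_V i b.2) hb0, ?_⟩
  rw [res_div (S.B_le_V i b.2) hb0, hb, hb', ← h4]
  field_simp

/-- elements with prescribed residues -/
theorem approx_res (hA : S.Arch) (y : Fin 3 → E) (hy : ∀ i, InFrac R (y i)) (hy0 : ∀ i, y i ≠ 0) :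
    ∃ x : F, ∀ i, S.res i x = y i := by
  choose a ha using fun i => S.exists_res_eq i (hy i)
  have ha0 : ∀ i, S.res i (a i) ≠ 0 := fun i => by rw [(ha i).2]; exact hy0 i
  obtain ⟨x, hx⟩ := S.approx hA a fun i => ne_zero_of_res (ha0 i)
  refine ⟨x, fun i => ?_⟩
  have h1 : S.res i (x / a i) ≠ 0 := by rw [hx]; exact one_ne_zero
  have h2 := res_mul (res_mul_ne h1) (ha i).1
  rw [div_mul_cancel₀ _ (ne_zero_of_res (ha0 i)), hx, one_mul, (ha i).2] at h2
  exact h2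

variable {K : Type*} [Field K] [Algebra K F'] [Algebra K F]

variable {S} {O : ValuationSubring K} {π : O →+* k} {d : ℕ}

/-- **Step C** : after raising to the power `q - 1` and dividing by a `d`-th power, all residues
are `1`. -/
theorem exists_residue_one (hO : BaseHyp O π q d) (H : S.Hyp O π) {f : F}
    (hf : ∀ i, S.res i f ≠ 0) {g g' : F'} (hα : S.Nα f = g ^ d) (hβ : S.Nβ f = g' ^ d) :
    ∃ a : F, (∀ i, S.res i a ≠ 0) ∧ ∀ i, S.res i (f ^ (q - 1) / a ^ d) = 1 := by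
  have hd := hO.d_ne'
  have hV : ∀ i, f ∈ S.V i := fun i => res_mul_ne (hf i)
  obtain ⟨a1, a2⟩ := S.Nα_V0 f (hV 0) (hV 1)
  obtain ⟨b1, b2⟩ := S.Nα_V1 f (hV 2)
  obtain ⟨c1, c2⟩ := S.Nβ_V0 f (hV 0)
  have g0 : T.res 0 (g ^ d) ≠ 0 := by
    rw [← hα, a2]; exact mul_ne_zero (hf 0) (pow_ne_zero _ (hf 1))
  have g1 : T.res 1 (g ^ d) ≠ 0 := by
    rw [← hα, b2]; exact (map_ne_zero _).2 (hf 2)
  have g'0 : T.res 0 (g' ^ d) ≠ 0 := by
    rw [← hβ, c2]; exact (map_ne_zero _).2 (hf 0)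
  have k0 := res_ne_zero_of_pow hd g0
  have k1 := res_ne_zero_of_pow hd g1
  have k'0 := res_ne_zero_of_pow hd g'0
  have e0 : S.res 0 f * S.res 1 f ^ (q - 1) = T.res 0 g ^ d := by
    rw [← a2, hα, res_pow (res_mul_ne k0)]
  have e1 : S.res 2 f = R.φ.symm (T.res 1 g) ^ d := by
    rw [← map_pow, ← res_pow (res_mul_ne k1), ← hα, b2, RingEquiv.symm_apply_apply]
  have e2 : S.res 0 f = R.φ.symm (T.res 0 g') ^ d := by
    rw [← map_pow, ← res_pow (res_mul_ne k'0), ← hβ, c2, RingEquiv.symm_apply_apply]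
  set h2 := R.φ.symm (T.res 1 g) with hh2
  set h0 := R.φ.symm (T.res 0 g') with hh0
  have h0F : InFrac R h0 := (T.inFrac_res H.aT H.fT 0 (res_mul_ne k'0)).φ_symm
  have h2F : InFrac R h2 := (T.inFrac_res H.aT H.fT 1 (res_mul_ne k1)).φ_symm
  have h1F : InFrac R (T.res 0 g / h0) := (T.inFrac_res H.aT H.fT 0 (res_mul_ne k0)).div h0F
  have h0n : h0 ≠ 0 := (map_ne_zero _).2 k'0
  have h2n : h2 ≠ 0 := (map_ne_zero _).2 k1
  obtain ⟨a, ha⟩ := S.approx_res H.aS ![h0 ^ (q - 1), T.res 0 g / h0, h2 ^ (q - 1)] (by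
    intro i
    fin_cases i
    · exact h0F.pow _
    · exact h1F
    · exact h2F.pow _) (by
    intro i
    fin_cases i
    · exact pow_ne_zero _ h0n
    · exact div_ne_zero k0 h0n
    · exact pow_ne_zero _ h2n)
  have ha0 : ∀ i, S.res i a ≠ 0 := by
    intro i
    rw [ha]
    fin_cases i
    · exact pow_ne_zero _ h0n
    · exact div_ne_zero k0 h0n
    · exact pow_ne_zero _ h2n
  refine ⟨a, ha0, fun i => ?_⟩
  have had : S.res i (a ^ d) ≠ 0 := res_pow_ne_zero (ha0 i) _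
  rw [res_div (pow_mem (hV i) _) had, res_pow (hV i), res_pow (res_mul_ne (ha0 i)), div_eq_one_iff_eq
    (pow_ne_zero _ (ha0 i)), ha]
  fin_cases i
  · show S.res 0 f ^ (q - 1) = (h0 ^ (q - 1)) ^ d
    rw [e2, ← pow_mul, ← pow_mul, mul_comm]
  · show S.res 1 f ^ (q - 1) = (T.res 0 g / h0) ^ d
    rw [div_pow, ← e0, e2, mul_div_cancel_left₀ _ (pow_ne_zero _ h0n)]
  · show S.res 2 f ^ (q - 1) = (h2 ^ (q - 1)) ^ d
    rw [e1, ← pow_mul, ← pow_mul, mul_comm]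

end ThreeData

end Fermat.Agent.H83
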