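import Mathlib
import Fermat.Agent.H83WindC

/-!
# Windings, part D: values at points and the relations given by the norms
-/

set_option autoImplicit false

namespace Fermat.Agent.H83

open CompSys

section IsVal

variable {k E : Type*} [Field k] [Field E] [Algebra k E] {q : ℕ} (R : ResData k E q)

/-- constants in `Cs` -/
def ResData.cst : k →+* R.Cs where
  toFun v := ⟨algebraMap k E v, R.C.algebraMap_mem v⟩
  map_one' := Subtype.ext (map_one (algebraMap k E))
  map_mul' x y := Subtype.ext (map_mul (algebraMap k E) x y)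
  map_zero' := Subtype.ext (map_zero (algebraMap k E))
  map_add' x y := Subtype.ext (map_add (algebraMap k E) x y)

@[simp] theorem ResData.coe_cst (v : k) : (R.cst v : E) = algebraMap k E v := rfl

theorem ResData.res_surj' (n : Ideal R.Cs) (hn : n.IsMaximal) (c : R.Cs) :
    ∃ v : k, c - R.cst v ∈ n := R.res_surj n hn c

/-- the value of `x : E` at the point `n` of `C` is `v` -/
def IsVal (n : Ideal R.Cs) (x : E) (v : k) : Prop :=
  ∃ a s : R.Cs, s ∉ n ∧ x * (s : E) = a ∧ a - R.cst v * s ∈ n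

variable {R} {n : Ideal R.Cs}

section prime

variable [hn : n.IsPrime]

theorem cst_notMem {v : k} (hv : v ≠ 0) : R.cst v ∉ n := by
  intro h
  apply hn.ne_top
  rw [Ideal.eq_top_iff_one]
  have := n.mul_mem_right (R.cst v⁻¹) h
  rwa [← map_mul, mul_inv_cancel₀ hv, map_one] at this

theorem one_notMem' : (1 : R.Cs) ∉ n := fun h => hn.ne_top ((Ideal.eq_top_iff_one _).2 h)

theorem IsVal.unique {x : E} {v v' : k} (h : IsVal R n x v) (h' : IsVal R n x v') : v = v' := by
  obtain ⟨a, s, hs, hxs, has⟩ := h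
  obtain ⟨a', s', hs', hxs', has'⟩ := h'
  by_contra hne
  have e : a * s' = a' * s := by
    apply Subtype.ext
    show (a : E) * s' = a' * s
    rw [← hxs, ← hxs']; ring
  have h1 : R.cst (v' - v) * (s * s') ∈ n := by
    have h2 := n.sub_mem (n.mul_mem_right s' has) (n.mul_mem_right s has')
    have e2 : (a - R.cst v * s) * s' - (a' - R.cst v' * s') * s = R.cst (v' - v) * (s * s') := by
      rw [map_sub, sub_mul, e]
      ring
    rwa [e2] at h2
  rcases hn.mem_or_mem h1 with h3 | h3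
  · exact cst_notMem (sub_ne_zero.2 (Ne.symm hne)) h3
  · exact (hn.mem_or_mem h3).elim hs hs'

theorem isVal_const (v : k) : IsVal R n (algebraMap k E v) v :=
  ⟨R.cst v, 1, one_notMem', by simp, by simp⟩

theorem IsVal.mul {x y : E} {v w : k} (h : IsVal R n x v) (h' : IsVal R n y w) :
    IsVal R n (x * y) (v * w) := by
  obtain ⟨a, s, hs, hxs, has⟩ := h
  obtain ⟨a', s', hs', hxs', has'⟩ := h'
  refine ⟨a * a', s * s', fun h => (hn.mem_or_mem h).elim hs hs', ?_, ?_⟩
  · push_cast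
    rw [← hxs, ← hxs']; ring
  · have h2 := n.add_mem (n.mul_mem_right a' has) (n.mul_mem_left (R.cst v * s) has')
    have e : (a - R.cst v * s) * a' + R.cst v * s * (a' - R.cst w * s') =
        a * a' - R.cst (v * w) * (s * s') := by
      rw [map_mul]; ring
    rwa [e] at h2

theorem IsVal.pow {x : E} {v : k} (h : IsVal R n x v) (m : ℕ) : IsVal R n (x ^ m) (v ^ m) := by
  induction m with
  | zero =>
    rw [pow_zero, pow_zero]
    have := isVal_const (R := R) (n := n) 1
    rwa [map_one] at this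
  | succ m ih => rw [pow_succ, pow_succ]; exact ih.mul h

theorem IsVal.inv {x : E} {v : k} (h : IsVal R n x v) (hv : v ≠ 0) : IsVal R n x⁻¹ v⁻¹ := by
  obtain ⟨a, s, hs, hxs, has⟩ := h
  have ha : a ∉ n := by
    intro ha
    have h1 : R.cst v * s ∈ n := by
      have := n.sub_mem ha has
      rwa [sub_sub_cancel] at this
    exact (hn.mem_or_mem h1).elim (cst_notMem hv) hs
  have ha0 : (a : E) ≠ 0 := fun h0 => ha (by
    have : a = 0 := Subtype.ext h0
    rw [this]; exact n.zero_mem)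
  have hx0 : x ≠ 0 := by
    rintro rfl
    rw [zero_mul] at hxs
    exact ha0 hxs.symm
  refine ⟨s, a, ha, ?_, ?_⟩
  · rw [← hxs, inv_mul_cancel_left₀ hx0]
  · have h1 := n.mul_mem_left (-R.cst v⁻¹) has
    have e : -R.cst v⁻¹ * (a - R.cst v * s) = s - R.cst v⁻¹ * a := by
      have : R.cst v⁻¹ * R.cst v = 1 := by rw [← map_mul, inv_mul_cancel₀ hv, map_one]
      linear_combination s * this
    rwa [e] at h1

theorem IsVal.div {x y : E} {v w : k} (h : IsVal R n x v) (h' : IsVal R n y w) (hw : w ≠ 0) :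
    IsVal R n (x / y) (v / w) := by
  rw [div_eq_mul_inv, div_eq_mul_inv]; exact h.mul (h'.inv hw)

theorem exists_isVal (hmax : n.IsMaximal) {x : E} (hx : x ∈ locRing R.Cs n) :
    ∃ v, IsVal R n x v := by
  obtain ⟨a, s, hs, h⟩ := hx
  obtain ⟨va, hva⟩ := R.res_surj' n hmax a
  obtain ⟨vs, hvs⟩ := R.res_surj' n hmax s
  have hvs0 : vs ≠ 0 := by
    rintro rfl
    rw [map_zero, sub_zero] at hvs
    exact hs hvs
  refine ⟨va / vs, a, s, hs, h, ?_⟩
  have h1 := n.sub_mem hva (n.mul_mem_left (R.cst (va / vs)) hvs)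
  have e : (a - R.cst va) - R.cst (va / vs) * (s - R.cst vs) = a - R.cst (va / vs) * s := by
    have : R.cst (va / vs) * R.cst vs = R.cst va := by rw [← map_mul, div_mul_cancel₀ _ hvs0]
    linear_combination this
  rwa [e] at h1

theorem IsVal.ne_zero_of_unit {x : E} {v : k} (h : IsVal R n x v)
    (hx : x ≠ 0) (hx' : x⁻¹ ∈ locRing R.Cs n) : v ≠ 0 := by
  rintro rfl
  obtain ⟨a, s, hs, hxs, has⟩ := h
  obtain ⟨c, t, ht, hct⟩ := hx'
  rw [map_zero, zero_mul, sub_zero] at has
  have e : a * c = s * t := by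
    apply Subtype.ext
    show (a : E) * c = s * t
    rw [← hxs, ← hct]
    field_simp
  have h1 : s * t ∈ n := by rw [← e]; exact n.mul_mem_right _ has
  exact (hn.mem_or_mem h1).elim hs ht

/-- an element of the fraction field of `C` with a power which is a unit at `n` is a unit at `n` -/
theorem mem_locRing_of_pow {x : E} (hx : InFrac R x) {d : ℕ} (hd : d ≠ 0)
    (hxd : x ^ d ∈ locRing R.Cs n) : x ∈ locRing R.Cs n := by
  haveI : IsIntegrallyClosed (locRing R.Cs n) :=
    isIntegrallyClosed_of_isLocalization (R := R.Cs) (locRing R.Cs n) n.primeCompl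
      (Ideal.primeCompl_le_nonZeroDivisors n)
  obtain ⟨c, c', h1, h2, h3, h4⟩ := hx
  set A := locRing R.Cs n
  let cA : A := algebraMap R.Cs A ⟨c, h1⟩
  let c'A : A := algebraMap R.Cs A ⟨c', h2⟩
  have hdvd : c'A ^ d ∣ cA ^ d := by
    refine ⟨⟨x ^ d, hxd⟩, Subtype.ext ?_⟩
    show c ^ d = c' ^ d * x ^ d
    rw [← h4]; ring
  rw [IsIntegrallyClosed.pow_dvd_pow_iff hd] at hdvd
  obtain ⟨y, hy⟩ := hdvd
  have e : c = c' * (y : E) := congrArg (fun z : A => (z : E)) hy
  have : x = y := by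
    rw [← h4, mul_comm c' (y : E)] at e
    exact mul_right_cancel₀ h3 e
  rw [this]
  exact y.2

end prime

/-- `φ` on `Cs` -/
def φC (c : R.Cs) : R.Cs := ⟨R.φ c, (R.φ_mem _).1 c.2⟩

@[simp] theorem coe_φC (c : R.Cs) : (φC c : E) = R.φ c := rfl

theorem IsVal.φ {n' : Ideal R.Cs} (hnn : ∀ c : R.Cs, φC c ∈ n' ↔ c ∈ n) {x : E} {v : k}
    (h : IsVal R n x v) : IsVal R n' (R.φ x) (v ^ q) := by
  obtain ⟨a, s, hs, hxs, has⟩ := h
  refine ⟨φC a, φC s, fun h => hs ((hnn _).1 h), ?_, ?_⟩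
  · rw [coe_φC, coe_φC, ← hxs, map_mul]
  · have h1 := (hnn _).2 has
    have e : φC (a - R.cst v * s) = φC a - R.cst (v ^ q) * φC s := by
      apply Subtype.ext
      show R.φ ((a : E) - algebraMap k E v * s) = R.φ a - algebraMap k E (v ^ q) * R.φ s
      rw [map_sub, map_mul, R.φ_algebraMap]
    rwa [e] at h1

end IsVal

section PtVal

variable {K k F E : Type*} [Field K] [Field k] [Field F] [Field E] [Algebra k E]
    [Algebra K F] {q d : ℕ} {ι : Type*} {S : CompSys F E q ι} {O : ValuationSubring K}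
    {π : O →+* k}

/-- constants in the chart ring -/
def CompSys.Consts.toB (hS : S.Consts O π) (o : O) : S.B :=
  ⟨algebraMap K F (o : K), S.mem_B.2 ⟨hS.hor _, fun i => hS.mem i o⟩⟩

@[simp] theorem CompSys.Consts.coe_toB (hS : S.Consts O π) (o : O) :
    (hS.toB o : F) = algebraMap K F (o : K) := rfl

theorem CompSys.Consts.r_toB (hS : S.Consts O π) (o : O) (i : ι) :
    S.r i (hS.toB o) = algebraMap k E (π o) := by
  rw [S.r_apply, coe_toB, hS.res]

/-- the value of `y` at the point `m` of the chart -/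
def PtVal (hS : S.Consts O π) (m : Ideal S.B) (y : F) (v : k) : Prop :=
  ∃ a s : S.B, s ∉ m ∧ y * (s : F) = a ∧ ∃ o : O, π o = v ∧ a - hS.toB o * s ∈ m

variable {R : ResData k E q}

theorem PtVal.mem {hS : S.Consts O π} {m : Ideal S.B} [m.IsPrime] {y : F} {v : k}
    (h : PtVal hS m y v) : y ∈ locRing S.B m := by
  obtain ⟨a, s, hs, h, _⟩ := h
  exact ⟨a, s, hs, h⟩

theorem PtVal.isVal {hS : S.Consts O π} {m : Ideal S.B} [hm : m.IsPrime] {y : F} {v : k}
    (h : PtVal hS m y v) {i : ι} (hi : S.p i ≤ m) (hmem : ∀ b : S.B, S.r i b ∈ R.Cs)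
    (hsurj : ∀ c ∈ R.Cs, ∃ b : S.B, S.r i b = c) : IsVal R (S.nI m hmem) (S.res i y) v := by
  have hy := h.mem
  obtain ⟨a, s, hs, hys, o, ho, has⟩ := h
  refine ⟨S.rC hmem a, S.rC hmem s, fun hh => hs ((S.mem_nI m hi hmem hsurj).1 hh), ?_, ?_⟩
  · rw [coe_rC, coe_rC, S.r_apply, S.r_apply, ← res_mul (S.locRing_le_V m hi hy)
      (S.B_le_V i s.2), hys]
  · have h1 := (S.mem_nI m hi hmem hsurj).2 has
    have e : S.rC hmem (a - hS.toB o * s) = S.rC hmem a - R.cst v * S.rC hmem s := by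
      rw [map_sub, map_mul]
      congr 2
      apply Subtype.ext
      rw [coe_rC, hS.r_toB, ho]
      rfl
    rwa [e] at h1

theorem exists_ptVal (hsurjπ : Function.Surjective π) (hS : S.Consts O π) {m : Ideal S.B}
    [hm : m.IsPrime] {i : ι} (hi : S.p i ≤ m) (hmem : ∀ b : S.B, S.r i b ∈ R.Cs)
    (hsurj : ∀ c ∈ R.Cs, ∃ b : S.B, S.r i b = c) (hmax : (S.nI m hmem).IsMaximal)
    {y : F} (hy : y ∈ locRing S.B m) : ∃ v, PtVal hS m y v := by
  obtain ⟨a, s, hs, h⟩ := hy
  have key : ∀ b : S.B, ∃ v : k, ∀ o : O, π o = v → b - hS.toB o ∈ m := by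
    intro b
    obtain ⟨v, hv⟩ := R.res_surj' _ hmax (S.rC hmem b)
    refine ⟨v, fun o ho => ?_⟩
    rw [← S.mem_nI m hi hmem hsurj, map_sub]
    have e : S.rC hmem (hS.toB o) = R.cst v := by
      apply Subtype.ext
      rw [coe_rC, hS.r_toB, ho]
      rfl
    rwa [e]
  obtain ⟨va, hva⟩ := key a
  obtain ⟨vs, hvs⟩ := key s
  obtain ⟨oa, hoa⟩ := hsurjπ va
  obtain ⟨os, hos⟩ := hsurjπ vs
  have h1 := hva oa hoa
  have h2 := hvs os hos
  have hvs0 : vs ≠ 0 := by
    rintro rfl
    apply hs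
    have h3 := hvs 0 (map_zero π)
    have e : hS.toB 0 = 0 := Subtype.ext (by rw [hS.coe_toB]; simp)
    rwa [e, sub_zero] at h3
  obtain ⟨o, ho⟩ := hsurjπ (va / vs)
  refine ⟨va / vs, a, s, hs, h, o, ho, ?_⟩
  -- `toB oa - toB o * toB os ∈ m`
  have h3 : hS.toB oa - hS.toB o * hS.toB os ∈ m := by
    apply hi
    rw [S.mem_p, map_sub, map_mul, hS.r_toB, hS.r_toB, hS.r_toB, hoa, ho, hos, ← map_mul,
      div_mul_cancel₀ _ hvs0, sub_self]
  have e : a - hS.toB o * s = (a - hS.toB oa) - hS.toB o * (s - hS.toB os) +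
      (hS.toB oa - hS.toB o * hS.toB os) := by ring
  rw [e]
  exact m.add_mem (m.sub_mem h1 (m.mul_mem_left _ h2)) h3

end PtVal

end Fermat.Agent.H83
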