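import Mathlib
import Fermat.Agent.H83WindD

/-!
# Windings, part E: the norm relations at a common point
-/

set_option autoImplicit false

namespace Fermat.Agent.H83

open CompSys

section abstractRel

variable {K k E : Type*} [Field K] [Field k] [Field E] [Algebra k E] {q d : ℕ}
  {R : ResData k E q} {F F' : Type*} [Field F] [Field F'] [Algebra K F] [Algebra K F']
  {O : ValuationSubring K} {π : O →+* k}
  {S : CompSys F E q (Fin 3)} {T : CompSys F' E q (Fin 2)}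

/-- Abstract relation: `N` a norm, components `i₀`, `i₁` above `j₀`, `i₂` above `j₁`. -/
theorem norm_relation (hO : BaseHyp O π q d) (hT : T.Consts O π) (N : F →* F')
    {i₀ i₁ i₂ : Fin 3} {j₀ j₁ : Fin 2}
    (hmemS : ∀ i, ∀ b : S.B, S.r i b ∈ R.Cs) (hsurjS : ∀ i, ∀ c ∈ R.Cs, ∃ b : S.B, S.r i b = c)
    (hmemT : ∀ i, ∀ b : T.B, T.r i b ∈ R.Cs) (hsurjT : ∀ i, ∀ c ∈ R.Cs, ∃ b : T.B, T.r i b = c)
    (hjj : ∀ j, j = j₀ ∨ j = j₁)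
    (Nhor : ∀ x ∈ S.hor, N x ∈ T.hor)
    (N0 : ∀ x, x ∈ S.V i₀ → x ∈ S.V i₁ → N x ∈ T.V j₀ ∧
      T.res j₀ (N x) = S.res i₀ x * S.res i₁ x ^ (q - 1))
    (N1 : ∀ x, x ∈ S.V i₂ → N x ∈ T.V j₁ ∧ T.res j₁ (N x) = R.φ (S.res i₂ x))
    (m : Ideal S.B) [hm : m.IsPrime] (m' : Ideal T.B) [hm' : m'.IsPrime]
    (hm0 : S.p i₀ ≤ m) (hm1 : S.p i₁ ≤ m) (hm2 : S.p i₂ ≤ m)
    (hj0 : T.p j₀ ≤ m') (hj1 : T.p j₁ ≤ m')
    {n : Ideal R.Cs} (hn0 : S.nI m (hmemS i₀) = n) (hn1 : S.nI m (hmemS i₁) = n)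
    (hn2 : S.nI m (hmemS i₂) = n) (hnmax : n.IsMaximal)
    (hn' : T.nI m' (hmemT j₀) = n)
    (hφ : ∀ c : R.Cs, φC c ∈ T.nI m' (hmemT j₁) ↔ c ∈ n)
    {f h : F} {a b : S.B} (hh : h ≠ 0) (ha : a ∉ m) (hb : b ∉ m)
    (hfb : f * b = h ^ d * a) (hf : ∀ i, S.res i f = 1) {g : F'} (hNf : N f = g ^ d)
    {v₀ v₁ v₂ ζ₀ ζ₁ : k}
    (hv0 : IsVal R n (S.res i₀ h) v₀) (hv1 : IsVal R n (S.res i₁ h) v₁)
    (hv2 : IsVal R n (S.res i₂ h) v₂)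
    (hζ0 : T.res j₀ g = algebraMap k E ζ₀) (hζ1 : T.res j₁ g = algebraMap k E ζ₁)
    (hζ0' : ζ₀ ≠ 0) (hζ1' : ζ₁ ≠ 0) :
    v₀ * v₁ ^ (q - 1) / ζ₀ = v₂ ^ q / ζ₁ := by
  have hd := hO.d_ne'
  haveI hnp : n.IsPrime := hnmax.isPrime
  haveI hnp' : (T.nI m' (hmemT j₁)).IsPrime := T.nI_isPrime m' hj1 (hmemT j₁) (hsurjT j₁)
  have hres : ∀ {i : Fin 3} (hi : S.p i ≤ m) {b : S.B}, b ∉ m → S.res i (b : F) ≠ 0 :=
    fun hi b hb h0 => hb (hi (S.mem_p_iff.2 h0))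
  -- residues of `h`
  have hhr : ∀ {i : Fin 3} (hi : S.p i ≤ m), S.res i h ≠ 0 := by
    intro i hi
    apply res_ne_zero_of_pow hd
    have e : h ^ d = f * b / a := by
      rw [hfb, mul_div_cancel_right₀ _ (coe_ne_zero_of_notMem ha)]
    rw [e]
    exact res_div_ne_zero (res_mul_ne_zero (by rw [hf]; exact one_ne_zero) (hres hi hb))
      (hres hi ha)
  have hf0 : f ≠ 0 := by
    rintro rfl
    have := hf 0
    rw [res_zero] at this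
    exact zero_ne_one this
  -- norms of `a`, `b`
  have hNB : ∀ c : S.B, N c ∈ T.B := by
    intro c
    rw [T.mem_B]
    refine ⟨Nhor _ (S.B_le_hor c.2), fun j => ?_⟩
    rcases hjj j with rfl | rfl
    · exact (N0 _ (S.B_le_V _ c.2) (S.B_le_V _ c.2)).1
    · exact (N1 _ (S.B_le_V _ c.2)).1
  have hNnot : ∀ c : S.B, c ∉ m → (⟨N c, hNB c⟩ : T.B) ∉ m' := by
    intro c hc hmem
    have h1 := (T.mem_nI m' hj0 (hmemT j₀) (hsurjT j₀)).2 hmem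
    have e : T.rC (hmemT j₀) ⟨N c, hNB c⟩ =
        S.rC (hmemS i₀) c * S.rC (hmemS i₁) c ^ (q - 1) := by
      apply Subtype.ext
      push_cast
      rw [coe_rC, coe_rC, coe_rC, T.r_apply, S.r_apply, S.r_apply]
      exact (N0 _ (S.B_le_V _ c.2) (S.B_le_V _ c.2)).2
    rw [e, hn'] at h1
    rcases hnp.mem_or_mem h1 with h2 | h2
    · rw [← hn0] at h2
      exact hc ((S.mem_nI m hm0 (hmemS i₀) (hsurjS i₀)).1 h2)
    · have h3 := hnp.mem_of_pow_mem _ h2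
      rw [← hn1] at h3
      exact hc ((S.mem_nI m hm1 (hmemS i₁) (hsurjS i₁)).1 h3)
  -- `y = N h / g`
  have hg0 : T.res j₀ g ≠ 0 := by rw [hζ0]; exact (map_ne_zero _).2 hζ0'
  have hg1 : T.res j₁ g ≠ 0 := by rw [hζ1]; exact (map_ne_zero _).2 hζ1'
  have hg : g ≠ 0 := ne_zero_of_res hg0
  set y : F' := N h / g with hy
  have hNa := coe_ne_zero_of_notMem (hNnot a ha)
  have hNa' : N (a : F) ≠ 0 := hNa
  have hyd : y ^ d * N a = N b := by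
    have h1 : N f * N b = N h ^ d * N a := by rw [← map_mul, hfb, map_mul, map_pow]
    rw [hNf] at h1
    rw [hy, div_pow]
    have := pow_ne_zero d hg
    field_simp
    linear_combination -h1
  have hydm : y ^ d ∈ locRing T.B m' := ⟨⟨N b, hNB b⟩, ⟨N a, hNB a⟩, hNnot a ha, hyd⟩
  have hym : y ∈ locRing T.B m' := by
    apply locRing_integrallyClosed T.B_closed
    refine ⟨Polynomial.X ^ d - Polynomial.C ⟨y ^ d, hydm⟩, Polynomial.monic_X_pow_sub_C _ hd, ?_⟩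
    rw [Polynomial.eval₂_sub, Polynomial.eval₂_X_pow, Polynomial.eval₂_C]
    exact sub_self _
  have hmax' : (T.nI m' (hmemT j₀)).IsMaximal := by rw [hn']; exact hnmax
  obtain ⟨v, hv⟩ := exists_ptVal (R := R) hO.surj hT hj0 (hmemT j₀) (hsurjT j₀) hmax' hym
  have k0 := hv.isVal hj0 (hmemT j₀) (hsurjT j₀)
  have k1 := hv.isVal hj1 (hmemT j₁) (hsurjT j₁)
  have l0 := N0 h (res_mul_ne (hhr hm0)) (res_mul_ne (hhr hm1))
  have l1 := N1 h (res_mul_ne (hhr hm2))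
  rw [hy, res_div l0.1 hg0, l0.2, hζ0, hn'] at k0
  rw [hy, res_div l1.1 hg1, l1.2, hζ1] at k1
  have m0 := (hv0.mul (hv1.pow (q - 1))).div (isVal_const ζ₀) hζ0'
  have m1 := (IsVal.φ hφ hv2).div (isVal_const ζ₁) hζ1'
  rw [← k0.unique m0, ← k1.unique m1]

end abstractRel

namespace ThreeData

variable {k E : Type*} [Field k] [Field E] [Algebra k E] {q : ℕ} {R : ResData k E q}
  {F' : Type*} [Field F'] {T : TwoData R F'} {F : Type*} [Field F] (S : ThreeData T F)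

section points

variable (m : Ideal S.B) [hm : m.IsPrime]

/-- the point of `C` under `m` on the component `i` -/
abbrev nn (i : Fin 3) : Ideal R.Cs := S.nI m (S.r_mem_Cs i)

theorem nn_eq01 (h0 : S.p 0 ≤ m) (h1 : S.p 1 ≤ m) : S.nn m 0 = S.nn m 1 := by
  ext c
  obtain ⟨b, hb⟩ := T.r_surj_Cs 0 c c.2
  have e0 : S.rC (S.r_mem_Cs 0) (S.αB b) = c := Subtype.ext (by rw [coe_rC, r0_α, hb])
  have e1 : S.rC (S.r_mem_Cs 1) (S.αB b) = c := Subtype.ext (by rw [coe_rC, r1_α, hb])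
  constructor
  · intro h
    rw [← e0, S.mem_nI m h0 (S.r_mem_Cs 0) (S.r_surj_Cs 0)] at h
    rw [← e1, S.mem_nI m h1 (S.r_mem_Cs 1) (S.r_surj_Cs 1)]
    exact h
  · intro h
    rw [← e1, S.mem_nI m h1 (S.r_mem_Cs 1) (S.r_surj_Cs 1)] at h
    rw [← e0, S.mem_nI m h0 (S.r_mem_Cs 0) (S.r_surj_Cs 0)]
    exact h

theorem nn_eq12 (h1 : S.p 1 ≤ m) (h2 : S.p 2 ≤ m) : S.nn m 1 = S.nn m 2 := by
  ext c
  obtain ⟨b, hb⟩ := T.r_surj_Cs 1 c c.2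
  have e1 : S.rC (S.r_mem_Cs 1) (S.βB b) = c := Subtype.ext (by rw [coe_rC, r1_β, hb])
  have e2 : S.rC (S.r_mem_Cs 2) (S.βB b) = c := Subtype.ext (by rw [coe_rC, r2_β, hb])
  constructor
  · intro h
    rw [← e1, S.mem_nI m h1 (S.r_mem_Cs 1) (S.r_surj_Cs 1)] at h
    rw [← e2, S.mem_nI m h2 (S.r_mem_Cs 2) (S.r_surj_Cs 2)]
    exact h
  · intro h
    rw [← e2, S.mem_nI m h2 (S.r_mem_Cs 2) (S.r_surj_Cs 2)] at h
    rw [← e1, S.mem_nI m h1 (S.r_mem_Cs 1) (S.r_surj_Cs 1)]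
    exact h

theorem nn_α0 (h0 : S.p 0 ≤ m) (h0' : T.p 0 ≤ m.comap S.αB) :
    haveI : (m.comap S.αB).IsPrime := Ideal.IsPrime.comap _
    T.nI (m.comap S.αB) (T.r_mem_Cs 0) = S.nn m 0 := by
  haveI : (m.comap S.αB).IsPrime := Ideal.IsPrime.comap _
  ext c
  obtain ⟨b, hb⟩ := T.r_surj_Cs 0 c c.2
  have e : T.rC (T.r_mem_Cs 0) b = c := Subtype.ext (by rw [coe_rC, hb])
  have e0 : S.rC (S.r_mem_Cs 0) (S.αB b) = c := Subtype.ext (by rw [coe_rC, r0_α, hb])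
  have h1 := T.mem_nI (m.comap S.αB) h0' (T.r_mem_Cs 0) (T.r_surj_Cs 0) (b := b)
  have h2 := S.mem_nI m h0 (S.r_mem_Cs 0) (S.r_surj_Cs 0) (b := S.αB b)
  rw [e] at h1
  rw [e0] at h2
  exact h1.trans (Ideal.mem_comap.trans h2.symm)

theorem nn_β1 (h0 : S.p 2 ≤ m) (h0' : T.p 1 ≤ m.comap S.βB) :
    haveI : (m.comap S.βB).IsPrime := Ideal.IsPrime.comap _
    T.nI (m.comap S.βB) (T.r_mem_Cs 1) = S.nn m 2 := by
  haveI : (m.comap S.βB).IsPrime := Ideal.IsPrime.comap _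
  ext c
  obtain ⟨b, hb⟩ := T.r_surj_Cs 1 c c.2
  have e : T.rC (T.r_mem_Cs 1) b = c := Subtype.ext (by rw [coe_rC, hb])
  have e0 : S.rC (S.r_mem_Cs 2) (S.βB b) = c := Subtype.ext (by rw [coe_rC, r2_β, hb])
  have h1 := T.mem_nI (m.comap S.βB) h0' (T.r_mem_Cs 1) (T.r_surj_Cs 1) (b := b)
  have h2 := S.mem_nI m h0 (S.r_mem_Cs 2) (S.r_surj_Cs 2) (b := S.βB b)
  rw [e] at h1
  rw [e0] at h2
  exact h1.trans (Ideal.mem_comap.trans h2.symm)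

theorem nn_α1 (h2 : S.p 2 ≤ m) (h1' : T.p 1 ≤ m.comap S.αB) (c : R.Cs) :
    haveI : (m.comap S.αB).IsPrime := Ideal.IsPrime.comap _
    φC c ∈ T.nI (m.comap S.αB) (T.r_mem_Cs 1) ↔ c ∈ S.nn m 2 := by
  haveI : (m.comap S.αB).IsPrime := Ideal.IsPrime.comap _
  haveI : (S.nn m 2).IsPrime := S.nI_isPrime m h2 (S.r_mem_Cs 2) (S.r_surj_Cs 2)
  obtain ⟨b, hb⟩ := T.r_surj_Cs 1 _ (φC c).2
  have e : T.rC (T.r_mem_Cs 1) b = φC c := Subtype.ext (by rw [coe_rC, hb])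
  have e0 : S.rC (S.r_mem_Cs 2) (S.αB b) = c ^ q := Subtype.ext (by
    rw [coe_rC, r2_α, hb, coe_φC, ← R.pow_q]
    rfl)
  have h1 := T.mem_nI (m.comap S.αB) h1' (T.r_mem_Cs 1) (T.r_surj_Cs 1) (b := b)
  have h2 := S.mem_nI m h2 (S.r_mem_Cs 2) (S.r_surj_Cs 2) (b := S.αB b)
  rw [e] at h1
  rw [e0] at h2
  refine (h1.trans (Ideal.mem_comap.trans h2.symm)).trans ?_
  exact ⟨fun h => Ideal.IsPrime.mem_of_pow_mem inferInstance _ h,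
    fun h => Ideal.pow_mem_of_mem _ h _ (qpos T)⟩

theorem nn_β0 (h2 : S.p 0 ≤ m) (h1' : T.p 0 ≤ m.comap S.βB) (c : R.Cs) :
    haveI : (m.comap S.βB).IsPrime := Ideal.IsPrime.comap _
    φC c ∈ T.nI (m.comap S.βB) (T.r_mem_Cs 0) ↔ c ∈ S.nn m 0 := by
  haveI : (m.comap S.βB).IsPrime := Ideal.IsPrime.comap _
  haveI : (S.nn m 0).IsPrime := S.nI_isPrime m h2 (S.r_mem_Cs 0) (S.r_surj_Cs 0)
  obtain ⟨b, hb⟩ := T.r_surj_Cs 0 _ (φC c).2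
  have e : T.rC (T.r_mem_Cs 0) b = φC c := Subtype.ext (by rw [coe_rC, hb])
  have e0 : S.rC (S.r_mem_Cs 0) (S.βB b) = c ^ q := Subtype.ext (by
    rw [coe_rC, r0_β, hb, coe_φC, ← R.pow_q]
    rfl)
  have h1 := T.mem_nI (m.comap S.βB) h1' (T.r_mem_Cs 0) (T.r_surj_Cs 0) (b := b)
  have h2 := S.mem_nI m h2 (S.r_mem_Cs 0) (S.r_surj_Cs 0) (b := S.βB b)
  rw [e] at h1
  rw [e0] at h2
  refine (h1.trans (Ideal.mem_comap.trans h2.symm)).trans ?_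
  exact ⟨fun h => Ideal.IsPrime.mem_of_pow_mem inferInstance _ h,
    fun h => Ideal.pow_mem_of_mem _ h _ (qpos T)⟩

end points

section rel

variable {K : Type*} [Field K] [Algebra K F'] [Algebra K F]
variable {S} {O : ValuationSubring K} {π : O →+* k} {d : ℕ}
  (hO : BaseHyp O π q d) (H : S.Hyp O π) (m : Ideal S.B) [hm : m.IsPrime]
  (hp : ∀ i, S.p i ≤ m) (hmax : (S.nn m 1).IsMaximal)
  {f h : F} {a b : S.B} (hh : h ≠ 0) (ha : a ∉ m) (hb : b ∉ m) (hfb : f * b = h ^ d * a)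
  (hf : ∀ i, S.res i f = 1) {g : F'} {v₀ v₁ v₂ ζ₀ ζ₁ : k}
  (hv0 : IsVal R (S.nn m 0) (S.res 0 h) v₀) (hv1 : IsVal R (S.nn m 1) (S.res 1 h) v₁)
  (hv2 : IsVal R (S.nn m 2) (S.res 2 h) v₂)
  (hζ0 : T.res 0 g = algebraMap k E ζ₀) (hζ1 : T.res 1 g = algebraMap k E ζ₁)
  (hζ0' : ζ₀ ≠ 0) (hζ1' : ζ₁ ≠ 0)

include hO H hp hmax hh ha hb hfb hf hv0 hv1 hv2 hζ0 hζ1 hζ0' hζ1'

theorem relation_α (hNf : S.Nα f = g ^ d) : v₀ * v₁ ^ (q - 1) / ζ₀ = v₂ ^ q / ζ₁ := by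
  haveI : (m.comap S.αB).IsPrime := Ideal.IsPrime.comap _
  have e01 := S.nn_eq01 m (hp 0) (hp 1)
  have e12 := S.nn_eq12 m (hp 1) (hp 2)
  have hj0 := S.α_comap0 m (Or.inl (hp 0))
  have hj1 := S.α_comap1 m (hp 2)
  rw [e01] at hv0
  rw [← e12] at hv2
  refine norm_relation (S := S.toCompSys) (T := T.toCompSys) hO H.cT S.Nα (i₀ := 0) (i₁ := 1)
    (i₂ := 2) (j₀ := 0) (j₁ := 1) S.r_mem_Cs S.r_surj_Cs T.r_mem_Cs T.r_surj_Cs ?_ S.Nα_hor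
    (fun x h0 h1 => S.Nα_V0 x h0 h1) (fun x h => S.Nα_V1 x h) m (m.comap S.αB) (hp 0) (hp 1)
    (hp 2) hj0 hj1 (n := S.nn m 1) e01 rfl e12.symm hmax ?_ ?_ hh ha hb hfb hf hNf hv0 hv1 hv2
    hζ0 hζ1 hζ0' hζ1'
  · intro j
    fin_cases j
    · exact Or.inl rfl
    · exact Or.inr rfl
  · rw [S.nn_α0 m (hp 0) hj0]; exact e01
  · intro c
    rw [S.nn_α1 m (hp 2) hj1, e12]

theorem relation_β (hNf : S.Nβ f = g ^ d) : v₂ * v₁ ^ (q - 1) / ζ₁ = v₀ ^ q / ζ₀ := by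
  haveI : (m.comap S.βB).IsPrime := Ideal.IsPrime.comap _
  have e01 := S.nn_eq01 m (hp 0) (hp 1)
  have e12 := S.nn_eq12 m (hp 1) (hp 2)
  have hj0 := S.β_comap0 m (hp 0)
  have hj1 := S.β_comap1 m (Or.inr (hp 2))
  rw [e01] at hv0
  rw [← e12] at hv2
  refine norm_relation (S := S.toCompSys) (T := T.toCompSys) hO H.cT S.Nβ (i₀ := 2) (i₁ := 1)
    (i₂ := 0) (j₀ := 1) (j₁ := 0) S.r_mem_Cs S.r_surj_Cs T.r_mem_Cs T.r_surj_Cs ?_ S.Nβ_hor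
    (fun x h0 h1 => S.Nβ_V1 x h0 h1) (fun x h => S.Nβ_V0 x h) m (m.comap S.βB) (hp 2) (hp 1)
    (hp 0) hj1 hj0 (n := S.nn m 1) e12.symm rfl e01 hmax ?_ ?_ hh ha hb hfb hf hNf hv2 hv1 hv0
    hζ1 hζ0 hζ1' hζ0'
  · intro j
    fin_cases j
    · exact Or.inr rfl
    · exact Or.inl rfl
  · rw [S.nn_β1 m (hp 2) hj1]; exact e12.symm
  · intro c
    rw [S.nn_β0 m (hp 0) hj0, e01]

end rel

end ThreeData

end Fermat.Agent.H83
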