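import Mathlib
import Fermat.Agent.H83WindE
import Fermat.Agent.H83Unit

/-!
# Windings, part F: the condition `(H_m)`
-/

set_option autoImplicit false

namespace Fermat.Agent.H83

open CompSys

/-- The condition `(H_m)` at the prime `m` of the chart ring of `S`. -/
def HM {F E : Type*} [Field F] [Field E] {q : ℕ} {ι : Type*} (S : CompSys F E q ι) (d : ℕ)
    (m : Ideal S.B) [m.IsPrime] (f : F) : Prop :=
  ∃ h : F, h ≠ 0 ∧ f / h ^ d ∈ locRing S.B m ∧ (f / h ^ d)⁻¹ ∈ locRing S.B m ∧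
    ∀ i, S.p i ≤ m → ∃ a s : S.B, s ∉ m ∧ a - s ∈ m ∧ S.res i ((a : F) / s * h) = 1

theorem exists_root_of_unity {k E : Type*} [Field k] [Field E] [Algebra k E] [IsAlgClosed k]
    {d : ℕ} (hd : d ≠ 0) {ω : E} (h : ω ^ d = 1) : ∃ ζ : k, ω = algebraMap k E ζ ∧ ζ ^ d = 1 := by
  have hint : IsIntegral k ω := by
    refine ⟨Polynomial.X ^ d - Polynomial.C 1, Polynomial.monic_X_pow_sub_C _ hd, ?_⟩
    rw [Polynomial.eval₂_sub, Polynomial.eval₂_X_pow, Polynomial.eval₂_C, h, map_one, sub_self]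
  obtain ⟨ζ, hζ⟩ := minpoly.mem_range_of_degree_eq_one k ω
    (IsAlgClosed.degree_eq_one_of_irreducible k (minpoly.irreducible hint))
  refine ⟨ζ, hζ.symm, ?_⟩
  apply (algebraMap k E).injective
  rw [map_pow, hζ, h, map_one]

section general

variable {K k F E : Type*} [Field K] [Field k] [Field F] [Field E] [Algebra k E]
    [Algebra K F] {q d : ℕ} {ι : Type*} {S : CompSys F E q ι} {O : ValuationSubring K}
    {π : O →+* k} {R : ResData k E q}

theorem HM_of (hO : BaseHyp O π q d) (hS : S.Consts O π)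
    (hmem : ∀ i, ∀ b : S.B, S.r i b ∈ R.Cs) (hsurj : ∀ i, ∀ c ∈ R.Cs, ∃ b : S.B, S.r i b = c)
    (m : Ideal S.B) [hm : m.IsPrime] {f h : F} {a b : S.B} (hh : h ≠ 0) (ha : a ∉ m) (hb : b ∉ m)
    (hfb : f * b = h ^ d * a) {V : k} (hV : V ≠ 0)
    (hval : ∀ i, S.p i ≤ m → IsVal R (S.nI m (hmem i)) (S.res i h) V) : HM S d m f := by
  obtain ⟨o, ho⟩ := hO.surj V
  have ho0 : π o ≠ 0 := by rw [ho]; exact hV
  obtain ⟨u, hu⟩ := hO.isUnit o ho0
  have hou : hS.toB o * hS.toB (u⁻¹ : Oˣ) = 1 := by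
    apply Subtype.ext
    show algebraMap K F (o : K) * algebraMap K F (((u⁻¹ : Oˣ) : O) : K) = 1
    rw [← map_mul, ← hu]
    have : ((u : O) : K) * (((u⁻¹ : Oˣ) : O) : K) = 1 := by
      have h1 : (u : O) * ((u⁻¹ : Oˣ) : O) = 1 := by simp
      exact congrArg (fun z : O => (z : K)) h1
    rw [this, map_one]
  have hom : hS.toB o ∉ m := by
    intro h
    apply hm.ne_top
    rw [Ideal.eq_top_iff_one, ← hou]
    exact m.mul_mem_right _ h
  have hoF : algebraMap K F (o : K) ≠ 0 := coe_ne_zero_of_notMem hom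
  have ha0 := coe_ne_zero_of_notMem ha
  have hb0 := coe_ne_zero_of_notMem hb
  have hodm : hS.toB o ^ d ∉ m := fun h => hom (hm.mem_of_pow_mem _ h)
  have e : f / (h / algebraMap K F (o : K)) ^ d = ((hS.toB o ^ d * a : S.B) : F) / (b : F) := by
    push_cast
    rw [hS.coe_toB, div_pow]
    have := pow_ne_zero d hh
    have := pow_ne_zero d hoF
    field_simp
    linear_combination hfb
  refine ⟨h / algebraMap K F (o : K), div_ne_zero hh hoF, ?_, ?_, ?_⟩
  · rw [e]; exact div_mem_locRing _ hb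
  · rw [e, inv_div]
    exact div_mem_locRing _ (fun h => (hm.mem_or_mem h).elim hodm ha)
  · intro i hi
    haveI := S.nI_isPrime m hi (hmem i) (hsurj i)
    obtain ⟨A, s, hs, hAs, has⟩ := hval i hi
    obtain ⟨a', ha'⟩ := hsurj i A A.2
    obtain ⟨s', hs'⟩ := hsurj i s s.2
    have ea : S.rC (hmem i) a' = A := Subtype.ext (by rw [coe_rC, ha'])
    have es : S.rC (hmem i) s' = s := Subtype.ext (by rw [coe_rC, hs'])
    have hAn : A ∉ S.nI m (hmem i) := by
      intro hA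
      have h1 := (S.nI m (hmem i)).sub_mem hA has
      rw [sub_sub_cancel] at h1
      exact (Ideal.IsPrime.mem_or_mem inferInstance h1).elim (cst_notMem hV) hs
    have ha'm : a' ∉ m := by
      rw [← S.mem_nI m hi (hmem i) (hsurj i), ea]; exact hAn
    refine ⟨hS.toB o * s', a', ha'm, ?_, ?_⟩
    · rw [← S.mem_nI m hi (hmem i) (hsurj i), map_sub, map_mul, ea, es]
      have e1 : S.rC (hmem i) (hS.toB o) = R.cst V := Subtype.ext (by
        rw [coe_rC, hS.r_toB, ho]; rfl)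
      rw [e1]
      have h1 := (S.nI m (hmem i)).neg_mem has
      rwa [neg_sub] at h1
    · have ha'0 := coe_ne_zero_of_notMem ha'm
      have hra : S.res i (a' : F) ≠ 0 := fun h0 => ha'm (hi (S.mem_p_iff.2 h0))
      have hrh : S.res i h ≠ 0 := by
        intro h0
        rw [h0, zero_mul] at hAs
        rw [← S.r_apply, ha'] at hra
        exact hra hAs.symm
      have e1 : ((hS.toB o * s' : S.B) : F) / a' * (h / algebraMap K F (o : K)) = h * s' / a' := by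
        push_cast
        rw [hS.coe_toB]
        field_simp
      rw [e1, res_div (mul_mem (res_mul_ne hrh) (S.B_le_V i s'.2)) hra,
        res_mul (res_mul_ne hrh) (S.B_le_V i s'.2), ← S.r_apply, ← S.r_apply, hs', ha', hAs]
      apply div_self
      rw [← ha', S.r_apply]
      exact hra

/-- the residue of `h` at a component has a non zero value at the point -/
theorem exists_val_h (hO : BaseHyp O π q d) {i : ι}
    (hmem : ∀ b : S.B, S.r i b ∈ R.Cs) (hsurj : ∀ c ∈ R.Cs, ∃ b : S.B, S.r i b = c)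
    (m : Ideal S.B) [hm : m.IsPrime] (hi : S.p i ≤ m) (hmax : (S.nI m hmem).IsMaximal)
    (hInFrac : ∀ x ∈ S.V i, InFrac R (S.res i x))
    {f h : F} {a b : S.B} (ha : a ∉ m) (hb : b ∉ m)
    (hfb : f * b = h ^ d * a) (hf : S.res i f = 1) :
    ∃ V : k, V ≠ 0 ∧ IsVal R (S.nI m hmem) (S.res i h) V := by
  have hd := hO.d_ne'
  haveI := S.nI_isPrime m hi hmem hsurj
  have hra : S.res i (a : F) ≠ 0 := fun h0 => ha (hi (S.mem_p_iff.2 h0))
  have hrb : S.res i (b : F) ≠ 0 := fun h0 => hb (hi (S.mem_p_iff.2 h0))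
  have hf1 : S.res i f ≠ 0 := by rw [hf]; exact one_ne_zero
  have hhr : S.res i h ≠ 0 := by
    apply res_ne_zero_of_pow hd
    have e : h ^ d = f * b / a := by
      rw [hfb, mul_div_cancel_right₀ _ (coe_ne_zero_of_notMem ha)]
    rw [e]
    exact res_div_ne_zero (res_mul_ne_zero hf1 hrb) hra
  have hhV := res_mul_ne hhr
  have e1 : S.res i h ^ d * S.res i (a : F) = S.res i (b : F) := by
    rw [← res_pow hhV, ← res_mul (pow_mem hhV _) (S.B_le_V i a.2), ← hfb,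
      res_mul (res_mul_ne hf1) (S.B_le_V i b.2), hf, one_mul]
  have h1 : S.res i h ^ d ∈ locRing R.Cs (S.nI m hmem) := by
    refine ⟨S.rC hmem b, S.rC hmem a, fun hh => ha ((S.mem_nI m hi hmem hsurj).1 hh), ?_⟩
    rw [coe_rC, coe_rC, S.r_apply, S.r_apply, e1]
  have h2 : (S.res i h)⁻¹ ^ d ∈ locRing R.Cs (S.nI m hmem) := by
    refine ⟨S.rC hmem a, S.rC hmem b, fun hh => hb ((S.mem_nI m hi hmem hsurj).1 hh), ?_⟩
    rw [coe_rC, coe_rC, S.r_apply, S.r_apply, ← e1, inv_pow, inv_mul_cancel_left₀]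
    exact pow_ne_zero _ hhr
  have k1 := mem_locRing_of_pow (hInFrac h hhV) hd h1
  have k2 := mem_locRing_of_pow (hInFrac h hhV).inv hd h2
  obtain ⟨V, hV⟩ := exists_isVal hmax k1
  exact ⟨V, hV.ne_zero_of_unit hhr k2, hV⟩

end general

section algebra

variable {k : Type*} [Field k] {q : ℕ}

theorem rel_solve (hq : 2 ≤ q) {v₀ v₁ v₂ ζ₀ ζ₁ ζ₀' ζ₁' : k} (h0 : v₀ ≠ 0)
    (z0 : ζ₀ ≠ 0) (z1 : ζ₁ ≠ 0) (z0' : ζ₀' ≠ 0) (z1' : ζ₁' ≠ 0)
    (h1 : v₀ * v₁ ^ (q - 1) / ζ₀ = v₂ ^ q / ζ₁)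
    (h2 : v₂ * v₁ ^ (q - 1) / ζ₁' = v₀ ^ q / ζ₀') :
    v₀ ^ (q * q - 1) * (ζ₀ / ζ₁ * (ζ₁' / ζ₀') ^ q) = v₁ ^ (q * q - 1) := by
  have e1 : v₀ * v₁ ^ (q - 1) = ζ₀ / ζ₁ * v₂ ^ q := by
    field_simp at h1 ⊢
    linear_combination h1
  have e2 : v₂ * v₁ ^ (q - 1) = ζ₁' / ζ₀' * v₀ ^ q := by
    field_simp at h2 ⊢
    linear_combination h2
  have e3 : v₂ ^ q * v₁ ^ (q * (q - 1)) = (ζ₁' / ζ₀') ^ q * v₀ ^ (q * q) := by
    have := congrArg (fun z => z ^ q) e2
    simp only [mul_pow, ← pow_mul] at this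
    rw [mul_comm q (q - 1)]
    exact this
  have hexp : (q - 1) + q * (q - 1) = q * q - 1 := by
    obtain ⟨r, rfl⟩ : ∃ r, q = r + 1 := ⟨q - 1, by omega⟩
    simp only [Nat.add_sub_cancel]
    have : (r + 1) * (r + 1) = r + (r + 1) * r + 1 := by ring
    omega
  have e4 : v₀ * v₁ ^ (q * q - 1) = (ζ₀ / ζ₁ * (ζ₁' / ζ₀') ^ q) * v₀ ^ (q * q) := by
    rw [← hexp, pow_add]
    calc v₀ * (v₁ ^ (q - 1) * v₁ ^ (q * (q - 1))) = (v₀ * v₁ ^ (q - 1)) * v₁ ^ (q * (q - 1)) := by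
          ring
      _ = ζ₀ / ζ₁ * (v₂ ^ q * v₁ ^ (q * (q - 1))) := by rw [e1]; ring
      _ = _ := by rw [e3]; ring
  have hqq : q * q = (q * q - 1) + 1 := by
    have : 0 < q * q := Nat.mul_pos (by omega) (by omega)
    omega
  apply mul_left_cancel₀ h0
  rw [e4]
  conv_rhs => rw [hqq, pow_succ]
  ring

end algebra

end Fermat.Agent.H83
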