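import Mathlib
import Fermat.Agent.H83WindF

/-!
# Windings, part G: the main theorem on windings
-/

set_option autoImplicit false

namespace Fermat.Agent.H83

open CompSys AlgebraicCurve

namespace ThreeData

variable {k E : Type*} [Field k] [Field E] [Algebra k E] {q : ℕ} {R : ResData k E q}
  {F' : Type*} [Field F'] {T : TwoData R F'} {F : Type*} [Field F] {S : ThreeData T F}
  {K : Type*} [Field K] [Algebra K F'] [Algebra K F]
  {O : ValuationSubring K} {π : O →+* k} {d : ℕ}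

/-- constants times a power of `q` are in the chart ring -/
theorem Hyp.const_mem (hO : BaseHyp O π q d) (H : S.Hyp O π) (c : K) :
    ∃ N : ℕ, algebraMap K F c * (q : F) ^ N ∈ S.B := by
  rcases eq_or_ne c 0 with rfl | hc
  · exact ⟨0, by rw [map_zero, zero_mul]; exact zero_mem _⟩
  obtain ⟨n, o, ho, rfl⟩ := hO.exists_zpow c hc
  have hq := S.q_ne
  refine ⟨(-n).toNat, ?_⟩
  have e : algebraMap K F ((q : K) ^ n * (o : K)) * (q : F) ^ (-n).toNat =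
      algebraMap K F (o : K) * (q : F) ^ (n + (-n).toNat : ℤ) := by
    rw [map_mul, map_zpow₀, map_natCast, zpow_add₀ hq, zpow_natCast]
    ring
  obtain ⟨N, hN⟩ := Int.eq_ofNat_of_zero_le (a := n + (-n).toNat) (by
    rcases le_total 0 n with h | h
    · have := Int.toNat_of_nonneg h
      omega
    · omega)
  rw [e, hN, zpow_natCast]
  exact mul_mem (H.cS.toB o).2 (pow_mem (by rw [← S.coe_qB]; exact S.qB.2) _)

/-- `f = u h^d` at all points -/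
theorem Hyp.fact (hO : BaseHyp O π q d) (H : S.Hyp O π) {f : F} (hf : ∀ i, S.res i f = 1)
    (hord : ∀ P : Place K F, (d : ℤ) ∣ P.ord f) (m : Ideal S.B) [hm : m.IsPrime]
    (hq : S.qB ∈ m) :
    ∃ (h : F) (a b : S.B), h ≠ 0 ∧ a ∉ m ∧ b ∉ m ∧ f * b = h ^ d * a := by
  haveI := S.ufd m hq
  have hf' : ∀ i, S.res i f ≠ 0 := fun i => by rw [hf]; exact one_ne_zero
  exact S.toCompSys.fact_at (K := K) (H.const_mem hO) H.fS m hO.d_ne' hf'
    (ne_zero_of_res (hf' 0)) hord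

theorem nn_isMaximal (m : Ideal S.B) (hm : m.IsMaximal) {i : Fin 3} (hi : S.p i ≤ m) :
    haveI := hm.isPrime
    (S.nn m i).IsMaximal := by
  haveI := hm.isPrime
  exact S.nI_isMaximal m hi (S.r_mem_Cs i) (S.r_surj_Cs i) hm

/-- **Windings**: from the norm conditions. -/
theorem windings [IsAlgClosed k] (hO : BaseHyp O π q d) (H : S.Hyp O π) {f : F}
    (hf : ∀ i, S.res i f = 1) (hord : ∀ P : Place K F, (d : ℤ) ∣ P.ord f) {g g' : F'}
    (hα : S.Nα f = g ^ d) (hβ : S.Nβ f = g' ^ d) :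
    ∃ a₀ : F, (∀ i, S.res i a₀ ≠ 0) ∧ (∀ i, S.res i (f ^ (q * q - 1) * a₀ ^ d) = 1) ∧
      ∀ (m : Ideal S.B) (hm : m.IsMaximal), S.qB ∈ m →
        haveI := hm.isPrime
        HM S.toCompSys d m (f ^ (q * q - 1) * a₀ ^ d) := by
  have hd := hO.d_ne'
  have hq2 : 2 ≤ q := two_le_q' (T := T)
  have hf' : ∀ i, S.res i f ≠ 0 := fun i => by rw [hf]; exact one_ne_zero
  have hV : ∀ i, f ∈ S.V i := fun i => res_mul_ne (hf' i)
  -- roots of unity
  have hrt : ∀ {j : Fin 2} {y : F'}, T.res j (y ^ d) = 1 →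
      ∃ ζ : k, T.res j y = algebraMap k E ζ ∧ ζ ^ d = 1 := by
    intro j y hy
    have h1 : T.res j y ≠ 0 := res_ne_zero_of_pow hd (by rw [hy]; exact one_ne_zero)
    rw [res_pow (res_mul_ne h1)] at hy
    exact exists_root_of_unity hd hy
  have r0 : T.res 0 (g ^ d) = 1 := by
    rw [← hα, (S.Nα_V0 f (hV 0) (hV 1)).2, hf, hf, one_pow, one_mul]
  have r1 : T.res 1 (g ^ d) = 1 := by
    rw [← hα, (S.Nα_V1 f (hV 2)).2, hf, map_one]
  have r0' : T.res 0 (g' ^ d) = 1 := by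
    rw [← hβ, (S.Nβ_V0 f (hV 0)).2, hf, map_one]
  have r1' : T.res 1 (g' ^ d) = 1 := by
    rw [← hβ, (S.Nβ_V1 f (hV 2) (hV 1)).2, hf, hf, one_pow, one_mul]
  obtain ⟨ζ₀, hζ₀, hz₀⟩ := hrt r0
  obtain ⟨ζ₁, hζ₁, hz₁⟩ := hrt r1
  obtain ⟨ζ₀', hζ₀', hz₀'⟩ := hrt r0'
  obtain ⟨ζ₁', hζ₁', hz₁'⟩ := hrt r1'
  have nz : ∀ {ζ : k}, ζ ^ d = 1 → ζ ≠ 0 := by
    rintro ζ h rfl
    rw [zero_pow hd] at h
    exact zero_ne_one h
  set κ : k := ζ₀ / ζ₁ * (ζ₁' / ζ₀') ^ q with hκ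
  set κ' : k := ζ₁' / ζ₀' * (ζ₀ / ζ₁) ^ q with hκ'
  have hκd : κ ^ d = 1 := by
    rw [hκ, mul_pow, div_pow, ← pow_mul, mul_comm q d, pow_mul, div_pow, hz₀, hz₁, hz₀', hz₁']
    simp
  have hκ'd : κ' ^ d = 1 := by
    rw [hκ', mul_pow, div_pow, ← pow_mul, mul_comm q d, pow_mul, div_pow, hz₀, hz₁, hz₀', hz₁']
    simp
  obtain ⟨a₀, ha₀⟩ := S.approx_res H.aS ![algebraMap k E κ, 1, algebraMap k E κ'] (by
    intro i
    fin_cases i
    · exact inFrac_of_mem (R.C.algebraMap_mem _)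
    · exact inFrac_of_mem (one_mem _)
    · exact inFrac_of_mem (R.C.algebraMap_mem _)) (by
    intro i
    fin_cases i
    · exact (map_ne_zero _).2 (nz hκd)
    · exact one_ne_zero
    · exact (map_ne_zero _).2 (nz hκ'd))
  have ha₀0 : S.res 0 a₀ = algebraMap k E κ := ha₀ 0
  have ha₀1 : S.res 1 a₀ = 1 := ha₀ 1
  have ha₀2 : S.res 2 a₀ = algebraMap k E κ' := ha₀ 2
  have ha₀n : ∀ i, S.res i a₀ ≠ 0 := by
    intro i
    fin_cases i
    · show S.res 0 a₀ ≠ 0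
      rw [ha₀0]; exact (map_ne_zero _).2 (nz hκd)
    · show S.res 1 a₀ ≠ 0
      rw [ha₀1]; exact one_ne_zero
    · show S.res 2 a₀ ≠ 0
      rw [ha₀2]; exact (map_ne_zero _).2 (nz hκ'd)
  have ha₀d : ∀ i, S.res i a₀ ^ d = 1 := by
    intro i
    fin_cases i
    · show S.res 0 a₀ ^ d = 1
      rw [ha₀0, ← map_pow, hκd, map_one]
    · show S.res 1 a₀ ^ d = 1
      rw [ha₀1, one_pow]
    · show S.res 2 a₀ ^ d = 1
      rw [ha₀2, ← map_pow, hκ'd, map_one]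
  have hres1 : ∀ i, S.res i (f ^ (q * q - 1) * a₀ ^ d) = 1 := by
    intro i
    rw [res_mul (pow_mem (hV i) _) (pow_mem (res_mul_ne (ha₀n i)) _), res_pow (hV i),
      res_pow (res_mul_ne (ha₀n i)), hf, one_pow, one_mul, ha₀d]
  refine ⟨a₀, ha₀n, hres1, ?_⟩
  intro m hm hqm
  haveI := hm.isPrime
  have ha₀0' : a₀ ≠ 0 := ne_zero_of_res (ha₀n 0)
  obtain ⟨h, a, b, hh, ha, hb, hfb⟩ := H.fact hO hf hord m hqm
  have hh' : h ^ (q * q - 1) * a₀ ≠ 0 := mul_ne_zero (pow_ne_zero _ hh) ha₀0'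
  have ham : a ^ (q * q - 1) ∉ m := fun h => ha (hm.isPrime.mem_of_pow_mem _ h)
  have hbm : b ^ (q * q - 1) ∉ m := fun h => hb (hm.isPrime.mem_of_pow_mem _ h)
  have hfb' : f ^ (q * q - 1) * a₀ ^ d * ((b ^ (q * q - 1) : S.B) : F) =
      (h ^ (q * q - 1) * a₀) ^ d * ((a ^ (q * q - 1) : S.B) : F) := by
    push_cast
    calc f ^ (q * q - 1) * a₀ ^ d * (b : F) ^ (q * q - 1) = (f * b) ^ (q * q - 1) * a₀ ^ d := by
          rw [mul_pow]; ring
      _ = _ := by rw [hfb, mul_pow, mul_pow, ← pow_mul, ← pow_mul, mul_comm d]; ring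
  have hvals : ∀ i, S.p i ≤ m → ∃ V : k, V ≠ 0 ∧ IsVal R (S.nn m i) (S.res i h) V := fun i hi =>
    exists_val_h hO (S.r_mem_Cs i) (S.r_surj_Cs i) m hi (nn_isMaximal m hm hi)
      (fun x hx => S.inFrac_res H.aS H.fS i hx) ha hb hfb (hf i)
  have hhr : ∀ i, S.p i ≤ m → S.res i h ≠ 0 := by
    intro i hi
    haveI := S.nI_isPrime m hi (S.r_mem_Cs i) (S.r_surj_Cs i)
    obtain ⟨V, hV0, hV⟩ := hvals i hi
    intro h0
    rw [h0] at hV
    have h1 := isVal_const (R := R) (n := S.nn m i) 0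
    rw [map_zero] at h1
    exact hV0 (hV.unique h1)
  have hresh : ∀ i, S.p i ≤ m → S.res i (h ^ (q * q - 1) * a₀) =
      S.res i h ^ (q * q - 1) * S.res i a₀ := by
    intro i hi
    rw [res_mul (pow_mem (res_mul_ne (hhr i hi)) _) (res_mul_ne (ha₀n i)),
      res_pow (res_mul_ne (hhr i hi))]
  by_cases hall : ∀ i, S.p i ≤ m
  · -- common point
    obtain ⟨v₀, hv₀0, hv₀⟩ := hvals 0 (hall 0)
    obtain ⟨v₁, hv₁0, hv₁⟩ := hvals 1 (hall 1)
    obtain ⟨v₂, hv₂0, hv₂⟩ := hvals 2 (hall 2)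
    have hmax1 := nn_isMaximal m hm (hall 1)
    have R1 := relation_α hO H m hall hmax1 hh ha hb hfb hf hv₀ hv₁ hv₂ hζ₀ hζ₁ (nz hz₀) (nz hz₁) hα
    have R2 := relation_β hO H m hall hmax1 hh ha hb hfb hf hv₀ hv₁ hv₂ hζ₀' hζ₁' (nz hz₀')
      (nz hz₁') hβ
    have A0 := rel_solve hq2 hv₀0 (nz hz₀) (nz hz₁) (nz hz₀') (nz hz₁') R1 R2
    have A2 := rel_solve hq2 hv₂0 (nz hz₁') (nz hz₀') (nz hz₁) (nz hz₀) R2 R1
    refine HM_of hO H.cS S.r_mem_Cs S.r_surj_Cs m hh' ham hbm hfb' (V := v₁ ^ (q * q - 1))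
      (pow_ne_zero _ hv₁0) ?_
    intro i hi
    haveI := S.nI_isPrime m hi (S.r_mem_Cs i) (S.r_surj_Cs i)
    rw [hresh i hi]
    fin_cases i
    · show IsVal R (S.nn m 0) (S.res 0 h ^ (q * q - 1) * S.res 0 a₀) _
      haveI := S.nI_isPrime m hi (S.r_mem_Cs 0) (S.r_surj_Cs 0)
      rw [ha₀0, ← A0]
      exact (hv₀.pow _).mul (isVal_const κ)
    · show IsVal R (S.nn m 1) (S.res 1 h ^ (q * q - 1) * S.res 1 a₀) _
      haveI := S.nI_isPrime m hi (S.r_mem_Cs 1) (S.r_surj_Cs 1)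
      rw [ha₀1, mul_one]
      exact hv₁.pow _
    · show IsVal R (S.nn m 2) (S.res 2 h ^ (q * q - 1) * S.res 2 a₀) _
      haveI := S.nI_isPrime m hi (S.r_mem_Cs 2) (S.r_surj_Cs 2)
      have e : κ' = ζ₁' / ζ₀' * (ζ₀ / ζ₁) ^ q := hκ'
      rw [ha₀2, ← A2]
      exact (hv₂.pow _).mul (isVal_const κ')
  · -- only one component
    obtain ⟨i, hi⟩ := S.exists_p_le m hqm
    have honly : ∀ j, S.p j ≤ m → j = i := by
      intro j hj
      by_contra hji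
      apply hall
      have h3 := S.all_of_two m (by fin_cases i <;> fin_cases j <;> simp_all)
      intro l
      fin_cases l
      · exact h3.1
      · exact h3.2.1
      · exact h3.2.2
    haveI := S.nI_isPrime m hi (S.r_mem_Cs i) (S.r_surj_Cs i)
    -- redo with `h' = h^(q²-1) a₀`
    obtain ⟨V, hV0, hV⟩ := exists_val_h hO (S.r_mem_Cs i) (S.r_surj_Cs i) m hi
      (nn_isMaximal m hm hi) (fun x hx => S.inFrac_res H.aS H.fS i hx) ham hbm hfb' (hres1 i)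
    refine HM_of hO H.cS S.r_mem_Cs S.r_surj_Cs m hh' ham hbm hfb' hV0 ?_
    intro j hj
    have := honly j hj
    subst this
    exact hV

end ThreeData

end Fermat.Agent.H83
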