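import Mathlib
import Fermat.Agent.H83WindG
import Fermat.Agent.H36Inj
import Fermat.Agent.H24CuspSys

/-!
# Core theorem, part A: from `HM` to `H36.LocCond`; the cusp chart
-/

set_option autoImplicit false

namespace Fermat.Agent.H83

open CompSys AlgebraicCurve

section general

variable {K k F E : Type*} [Field K] [Field k] [Field F] [Field E] [Algebra k E]
    [Algebra K F] {q d : ℕ} {ι : Type*} {S : CompSys F E q ι} {O : ValuationSubring K}
    {π : O →+* k}

theorem valuation_lt_one (i : ι) {z : F} : (S.V i).valuation z < 1 ↔ z ∈ S.V i ∧ S.res i z = 0 := by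
  constructor
  · intro h
    have hz : z ∈ S.V i := (ValuationSubring.valuation_le_one_iff _ _).1 h.le
    refine ⟨hz, ?_⟩
    by_contra h0
    have h1 : z⁻¹ ∈ S.V i := inv_mem h0
    have h2 := (ValuationSubring.valuation_le_one_iff (S.V i) z⁻¹).2 h1
    rw [map_inv₀] at h2
    have h3 := (inv_le_one₀ (by
      rw [Valuation.pos_iff]
      exact ne_zero_of_res h0)).1 h2
    exact absurd h (not_lt.2 h3)
  · rintro ⟨hz, h0⟩
    refine lt_of_le_of_ne ((ValuationSubring.valuation_le_one_iff _ _).2 hz) fun h1 => ?_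
    have hz0 : z ≠ 0 := by
      rintro rfl
      rw [map_zero] at h1
      exact zero_ne_one h1
    have h2 : z⁻¹ ∈ S.V i := by
      rw [← ValuationSubring.valuation_le_one_iff, map_inv₀, h1, inv_one]
    exact res_ne_zero hz0 hz h2 h0

/-- From `HM` to helper36's local condition -/
theorem locCond_of_HM {f : F} (hf0 : f ≠ 0)
    (h : ∀ (m : Ideal S.B) (hm : m.IsMaximal), S.qB ∈ m →
      haveI := hm.isPrime
      HM S d m f) : H36.LocCond S.V (q : O) f d S.B := by
  intro m hm hmq
  haveI := hm.isPrime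
  have hqm : S.qB ∈ m := by
    apply hmq
    rw [S.coe_qB, map_natCast]
  obtain ⟨h, hh, hu, hu', hτ⟩ := h m hm hqm
  have h0 : f / h ^ d ≠ 0 := div_ne_zero hf0 (pow_ne_zero _ hh)
  have hunit : IsUnit (⟨f / h ^ d, hu⟩ : locRing S.B m) :=
    IsUnit.of_mul_eq_one ⟨(f / h ^ d)⁻¹, hu'⟩ (Subtype.ext (mul_inv_cancel₀ h0))
  rw [isUnit_locRing_iff'] at hunit
  obtain ⟨a, b, ha, hb, hab⟩ := hunit
  refine ⟨h, a, b, 1, 1, hh, ha, hb, ?_, by simp, ?_⟩
  · have hab' : f / h ^ d * (b : F) = a := hab
    have := pow_ne_zero d hh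
    rw [← hab']
    field_simp
  · intro i hi
    have hpi : S.p i ≤ m := by
      intro z hz
      apply hi
      rw [valuation_lt_one]
      exact ⟨S.B_le_V i z.2, S.mem_p_iff.1 hz⟩
    obtain ⟨x, s, hs, hxs, hres⟩ := hτ i hpi
    refine ⟨x, s, hs, ?_, by rwa [one_mul]⟩
    rw [valuation_lt_one]
    have hs0 := coe_ne_zero_of_notMem hs
    have h1 : S.res i ((x : F) / s * h) ≠ 0 := by rw [hres]; exact one_ne_zero
    have e : (x : F) * h - s = ((x : F) / s * h - 1) * s := by field_simp
    rw [e]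
    have h2 : (x : F) / s * h - 1 ∈ S.V i := sub_mem (res_mul_ne h1) (one_mem _)
    refine ⟨mul_mem h2 (S.B_le_V i s.2), ?_⟩
    rw [res_mul h2 (S.B_le_V i s.2), res_sub (res_mul_ne h1) (one_mem _), hres, res_one, sub_self,
      zero_mul]

/-- constants in the chart ring, as a ring hom -/
def CompSys.Consts.toBHom (hS : S.Consts O π) : O →+* S.B where
  toFun := hS.toB
  map_one' := Subtype.ext (by simp)
  map_mul' x y := Subtype.ext (by simp)
  map_zero' := Subtype.ext (by simp)
  map_add' x y := Subtype.ext (by simp)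

@[simp] theorem CompSys.Consts.toBHom_apply (hS : S.Consts O π) (o : O) :
    hS.toBHom o = hS.toB o := rfl

theorem CompSys.Consts.const_mem (hO : BaseHyp O π q d) (hS : S.Consts O π) (c : K) :
    ∃ N : ℕ, algebraMap K F c * (q : F) ^ N ∈ S.B := by
  rcases eq_or_ne c 0 with rfl | hc
  · exact ⟨0, by rw [map_zero, zero_mul]; exact zero_mem _⟩
  obtain ⟨n, o, ho, rfl⟩ := hO.exists_zpow c hc
  have hq := S.q_ne
  refine ⟨(-n).toNat, ?_⟩
  have e : algebraMap K F ((q : K) ^ n * (o : K)) * (q : F) ^ (-n).toNat =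
      algebraMap K F (o : K) * (q : F) ^ (n + (-n).toNat : ℤ) := by
    rw [map_mul, map_zpow₀, map_natCast, zpow_add₀ hq, zpow_natCast]
    ring
  obtain ⟨N, hN⟩ := Int.eq_ofNat_of_zero_le (a := n + (-n).toNat) (by
    rcases le_total 0 n with h | h
    · have := Int.toNat_of_nonneg h
      omega
    · omega)
  rw [e, hN, zpow_natCast]
  exact mul_mem (hS.toB o).2 (pow_mem (by rw [← S.coe_qB]; exact S.qB.2) _)

/-- A prime of the chart ring containing `q` contains the constants in the kernel of `π`. -/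
theorem CompSys.Consts.toB_mem [Fintype ι] (hS : S.Consts O π) (n : Ideal S.B) [n.IsPrime]
    (hq : S.qB ∈ n) {o : O} (ho : π o = 0) : hS.toB o ∈ n := by
  obtain ⟨i, hi⟩ := S.exists_p_le n hq
  apply hi
  rw [S.mem_p, hS.r_toB, ho, map_zero]

/-- The residue field at a maximal ideal containing `y`, when `B` is integral over `O[y]`. -/
theorem exists_const_sub_mem [IsAlgClosed k] [Fintype ι] (hO : BaseHyp O π q d)
    (hS : S.Consts O π) {y : F} (hB : S.B = H36.chart O y) (n : Ideal S.B) (hn : n.IsMaximal)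
    (hq : S.qB ∈ n) (hy : ∀ z : S.B, (z : F) = y → z ∈ n) (b : S.B) :
    ∃ o : O, b - hS.toB o ∈ n := by
  classical
  haveI := hn.isPrime
  letI := Ideal.Quotient.field n
  let g : O →+* S.B ⧸ n := (Ideal.Quotient.mk n).comp hS.toBHom
  have hker : RingHom.ker π ≤ RingHom.ker g := by
    intro o ho
    rw [RingHom.mem_ker] at ho ⊢
    show Ideal.Quotient.mk n (hS.toB o) = 0
    rw [Ideal.Quotient.eq_zero_iff_mem]
    exact hS.toB_mem n hq ho
  let ψ : k →+* S.B ⧸ n := (π.liftOfSurjective hO.surj) ⟨g, hker⟩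
  have hψ : ψ.comp π = g := π.liftOfSurjective_comp hO.surj ⟨g, hker⟩
  have hyB : y ∈ S.B := by rw [hB]; exact H36.self_mem_chart O y
  have hbint : (H36.evt O y).IsIntegralElem (b : F) := by
    have : (b : F) ∈ H36.chart O y := by rw [← hB]; exact b.2
    exact this
  obtain ⟨P, hP, hP0⟩ := hbint
  let θ : Polynomial O →+* k := Polynomial.eval₂RingHom π 0
  -- `O[X] → B`
  have hev : ∀ p : Polynomial O, H36.evt O y p ∈ S.B := by
    intro p
    rw [hB]
    exact H36.evt_mem_chart O y p
  let ε : Polynomial O →+* S.B := (H36.evt O y).codRestrict S.B hev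
  have hcomp : ψ.comp θ = (Ideal.Quotient.mk n).comp ε := by
    refine Polynomial.ringHom_ext (fun c => ?_) ?_
    · show ψ (Polynomial.eval₂ π 0 (Polynomial.C c)) = _
      rw [Polynomial.eval₂_C]
      have h1 : ψ (π c) = g c := by rw [← hψ]; rfl
      rw [h1]
      show Ideal.Quotient.mk n (hS.toB c) = Ideal.Quotient.mk n (ε (Polynomial.C c))
      congr 1
      apply Subtype.ext
      show algebraMap K F (c : K) = H36.evt O y (Polynomial.C c)
      rw [H36.evt_apply, Polynomial.aeval_C]
      rfl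
    · show ψ (Polynomial.eval₂ π 0 Polynomial.X) = Ideal.Quotient.mk n (ε Polynomial.X)
      rw [Polynomial.eval₂_X, map_zero]
      symm
      rw [Ideal.Quotient.eq_zero_iff_mem]
      apply hy
      show H36.evt O y Polynomial.X = y
      rw [H36.evt_apply, Polynomial.aeval_X]
  letI := ψ.toAlgebra
  have hint : IsIntegral k (Ideal.Quotient.mk n b) := by
    refine ⟨P.map θ, hP.map θ, ?_⟩
    rw [Polynomial.eval₂_map]
    have h1 : (algebraMap k (S.B ⧸ n)).comp θ = (Ideal.Quotient.mk n).comp ε := hcomp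
    rw [h1, ← Polynomial.hom_eval₂]
    have h2 : Polynomial.eval₂ ε b P = 0 := by
      apply Subtype.ext
      show S.B.subtype (Polynomial.eval₂ ε b P) = 0
      rw [Polynomial.hom_eval₂]
      exact hP0
    rw [h2, map_zero]
  obtain ⟨c, hc⟩ := minpoly.mem_range_of_degree_eq_one k _
    (IsAlgClosed.degree_eq_one_of_irreducible k (minpoly.irreducible hint))
  obtain ⟨o, rfl⟩ := hO.surj c
  refine ⟨o, ?_⟩
  rw [← Ideal.Quotient.eq_zero_iff_mem, map_sub, sub_eq_zero, ← hc]
  have h1 : ψ (π o) = g o := by rw [← hψ]; rfl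
  exact h1

end general

end Fermat.Agent.H83
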