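import Mathlib
import Fermat.Agent.H83CoreA
import Fermat.Agent.H58Num

/-!
# Core theorem, part B: the cusp chart
-/

set_option autoImplicit false

namespace Fermat.Agent.H83

open CompSys AlgebraicCurve

section cusp

variable {K k F E : Type*} [Field K] [Field k] [Field F] [Field E] [Algebra k E]
    [Algebra K F] {q d : ℕ} {O : ValuationSubring K} {π : O →+* k}
    (D : H24.CuspSys k F E q)

/-- technical hypotheses on the cusp chart -/
structure CuspHyp (O : ValuationSubring K) (π : O →+* k) : Prop where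
  cD : D.toCompSys.Consts O π
  hB : D.B = H36.chart O D.y
  frac : ∀ x : F, ∃ b : D.B, (b : F) ≠ 0 ∧ x * b ∈ D.B
  fracC : ∀ i, ∀ x ∈ D.V i, ∃ c c' : E, c ∈ D.C ∧ c' ∈ D.C ∧ c' ≠ 0 ∧ D.res i x * c' = c

variable {D}

/-- an element of the fraction field of `C` with a power in the local ring of `C` lies in it. -/
theorem mem_locRing_of_pow' {C : Subring E} (hC : IsDedekindDomain C) (n : Ideal C) [n.IsPrime]
    {x : E} (hx : ∃ c c' : E, c ∈ C ∧ c' ∈ C ∧ c' ≠ 0 ∧ x * c' = c) {d : ℕ} (hd : d ≠ 0)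
    (hxd : x ^ d ∈ locRing C n) : x ∈ locRing C n := by
  haveI : IsIntegrallyClosed (locRing C n) :=
    isIntegrallyClosed_of_isLocalization (R := C) (locRing C n) n.primeCompl
      (Ideal.primeCompl_le_nonZeroDivisors n)
  obtain ⟨c, c', h1, h2, h3, h4⟩ := hx
  set A := locRing C n
  let cA : A := algebraMap C A ⟨c, h1⟩
  let c'A : A := algebraMap C A ⟨c', h2⟩
  have hdvd : c'A ^ d ∣ cA ^ d := by
    refine ⟨⟨x ^ d, hxd⟩, Subtype.ext ?_⟩
    show c ^ d = c' ^ d * x ^ d
    rw [← h4]; ring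
  rw [IsIntegrallyClosed.pow_dvd_pow_iff hd] at hdvd
  obtain ⟨y, hy⟩ := hdvd
  have e : c = c' * (y : E) := congrArg (fun z : A => (z : E)) hy
  have : x = y := by
    rw [← h4, mul_comm c' (y : E)] at e
    exact mul_right_cancel₀ h3 e
  rw [this]
  exact y.2

/-- `f = u h^d` at cuspidal points -/
theorem CuspHyp.fact (hO : BaseHyp O π q d) (H : CuspHyp D O π) (n : Ideal D.B) [hn : n.IsPrime]
    (hy : D.yB ∈ n) (hq : D.qB ∈ n) {f : F} (hf : ∀ i, D.res i f = 1)
    (hord : ∀ P : Place K F, (d : ℤ) ∣ P.ord f) :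
    ∃ (h : F) (a b : D.B), h ≠ 0 ∧ a ∉ n ∧ b ∉ n ∧ f * b = h ^ d * a := by
  haveI := D.ufd n hy hq
  have hf' : ∀ i, D.res i f ≠ 0 := fun i => by rw [hf]; exact one_ne_zero
  exact D.toCompSys.fact_at (K := K) (H.cD.const_mem hO) H.frac n hO.d_ne' hf'
    (ne_zero_of_res (hf' 0)) hord

/-- `(H_n)` at the cuspidal points -/
theorem CuspHyp.HM [IsAlgClosed k] (hO : BaseHyp O π q d) (H : CuspHyp D O π) (n : Ideal D.B)
    (hn : n.IsMaximal) (hy : D.yB ∈ n) (hq : D.qB ∈ n) {f : F} (hf : ∀ i, D.res i f = 1)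
    (hord : ∀ P : Place K F, (d : ℤ) ∣ P.ord f) :
    haveI := hn.isPrime
    HM D.toCompSys d n f := by
  haveI := hn.isPrime
  have hd := hO.d_ne'
  obtain ⟨h, a, b, hh, ha, hb, hfb⟩ := H.fact hO n hy hq hf hord
  obtain ⟨i, hi, huniq⟩ := D.existsUnique_p n hy hq
  have hra : D.res i (a : F) ≠ 0 := fun h0 => ha (hi (D.mem_p_iff.2 h0))
  have hrb : D.res i (b : F) ≠ 0 := fun h0 => hb (hi (D.mem_p_iff.2 h0))
  have hf1 : D.res i f ≠ 0 := by rw [hf]; exact one_ne_zero
  have ha0 := coe_ne_zero_of_notMem ha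
  have hb0 := coe_ne_zero_of_notMem hb
  have hhr : D.res i h ≠ 0 := by
    apply res_ne_zero_of_pow hd
    have e : h ^ d = f * b / a := by
      rw [hfb, mul_div_cancel_right₀ _ ha0]
    rw [e]
    exact res_div_ne_zero (res_mul_ne_zero hf1 hrb) hra
  have hhV := res_mul_ne hhr
  have e1 : D.res i h ^ d * D.res i (a : F) = D.res i (b : F) := by
    rw [← res_pow hhV, ← res_mul (pow_mem hhV _) (D.B_le_V i a.2), ← hfb,
      res_mul (res_mul_ne hf1) (D.B_le_V i b.2), hf, one_mul]
  have hrange := D.range_eq n hy hi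
  have hloc : ∀ x : locRing D.B n, D.res i (x : F) ∈ locRing D.C
      (H24.nC D.toCompSys n hi (D.surj n hy hi)) := by
    intro x
    rw [← hrange]
    exact ⟨x, rfl⟩
  have hex : ∀ x ∈ locRing D.C (H24.nC D.toCompSys n hi (D.surj n hy hi)),
      ∃ t : locRing D.B n, D.res i (t : F) = x := by
    intro x hx
    rw [← hrange] at hx
    obtain ⟨t, ht⟩ := hx
    exact ⟨t, ht⟩
  have h1 : D.res i h ^ d ∈ locRing D.C (H24.nC D.toCompSys n hi (D.surj n hy hi)) := by
    have h2 := hloc ⟨(b : F) / a, div_mem_locRing b ha⟩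
    have h3 : D.res i ((b : F) / a) = D.res i h ^ d := by
      rw [res_div (D.B_le_V i b.2) hra, ← e1, mul_div_cancel_right₀ _ hra]
    rw [← h3]
    exact h2
  have h2 : (D.res i h)⁻¹ ^ d ∈ locRing D.C (H24.nC D.toCompSys n hi (D.surj n hy hi)) := by
    have h2 := hloc ⟨(a : F) / b, div_mem_locRing a hb⟩
    have h3 : D.res i ((a : F) / b) = (D.res i h)⁻¹ ^ d := by
      rw [res_div (D.B_le_V i a.2) hrb, ← e1, inv_pow]
      have := pow_ne_zero d hhr
      field_simp
    rw [← h3]
    exact h2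
  have hfr := H.fracC i h hhV
  have hfr' : ∃ c c' : E, c ∈ D.C ∧ c' ∈ D.C ∧ c' ≠ 0 ∧ (D.res i h)⁻¹ * c' = c := by
    obtain ⟨c, c', j1, j2, j3, j4⟩ := hfr
    refine ⟨c', c, j2, j1, ?_, ?_⟩
    · rw [← j4]; exact mul_ne_zero hhr j3
    · rw [← j4, inv_mul_cancel_left₀ hhr]
  obtain ⟨t1, ht1⟩ := hex _ (mem_locRing_of_pow' D.dedekind _ hfr hd h1)
  obtain ⟨t0, ht0⟩ := hex _ (mem_locRing_of_pow' D.dedekind _ hfr' hd h2)
  obtain ⟨a0, s0, hs0, hts0⟩ := t0.2
  obtain ⟨a1, s1, hs1, hts1⟩ := t1.2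
  have ht0V := D.locRing_le_V n hi t0.2
  have ht1V := D.locRing_le_V n hi t1.2
  have ha0n : a0 ∉ n := by
    intro hmem
    have k1 : a0 * a1 - s0 * s1 ∈ n := by
      apply hi
      rw [D.mem_p_iff]
      show D.res i ((a0 : F) * a1 - s0 * s1) = 0
      have e2 : (a0 : F) * a1 - s0 * s1 = ((t0 : F) * t1 - 1) * (s0 * s1) := by
        rw [← hts0, ← hts1]; ring
      have m1 : (t0 : F) * t1 - 1 ∈ D.V i := sub_mem (mul_mem ht0V ht1V) (one_mem _)
      have m2 : (s0 : F) * s1 ∈ D.V i := mul_mem (D.B_le_V i s0.2) (D.B_le_V i s1.2)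
      rw [e2, res_mul m1 m2, res_sub (mul_mem ht0V ht1V) (one_mem _), res_mul ht0V ht1V, ht0, ht1,
        inv_mul_cancel₀ hhr, res_one, sub_self, zero_mul]
    have k2 : s0 * s1 ∈ n := by
      have := n.sub_mem (n.mul_mem_right a1 hmem) k1
      rwa [sub_sub_cancel] at this
    exact (hn.isPrime.mem_or_mem k2).elim hs0 hs1
  -- constants
  have hyn : ∀ z : D.B, (z : F) = D.y → z ∈ n := by
    intro z hz
    have : z = D.yB := Subtype.ext hz
    rw [this]; exact hy
  obtain ⟨oa, hoa⟩ := exists_const_sub_mem hO H.cD H.hB n hn hq hyn a0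
  obtain ⟨os, hos⟩ := exists_const_sub_mem hO H.cD H.hB n hn hq hyn s0
  have hoa' : π oa ≠ 0 := by
    intro h0
    have := H.cD.toB_mem n hq h0
    apply ha0n
    have := n.add_mem hoa this
    rwa [sub_add_cancel] at this
  have hos' : π os ≠ 0 := by
    intro h0
    have := H.cD.toB_mem n hq h0
    apply hs0
    have := n.add_mem hos this
    rwa [sub_add_cancel] at this
  obtain ⟨o, ho⟩ := hO.surj (π oa / π os)
  have ho0 : π o ≠ 0 := by rw [ho]; exact div_ne_zero hoa' hos'
  have hoF : algebraMap K F (o : K) ≠ 0 := by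
    have := H.cD.res_ne 0 ho0
    exact ne_zero_of_res this
  have hom : H.cD.toB o ∉ n := by
    obtain ⟨u, hu⟩ := hO.isUnit o ho0
    have hou : H.cD.toBHom o * H.cD.toBHom (u⁻¹ : Oˣ) = 1 := by
      rw [← map_mul, ← hu, Units.mul_inv, map_one]
    intro h
    apply hn.isPrime.ne_top
    rw [Ideal.eq_top_iff_one, ← hou]
    exact n.mul_mem_right _ h
  have hodm : H.cD.toB o ^ d ∉ n := fun h => hom (hn.isPrime.mem_of_pow_mem _ h)
  refine ⟨h * algebraMap K F (o : K), mul_ne_zero hh hoF, ?_, ?_, ?_⟩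
  · have e : f / (h * algebraMap K F (o : K)) ^ d =
        (a : F) / ((b * H.cD.toB o ^ d : D.B) : F) := by
      push_cast
      rw [H.cD.coe_toB, mul_pow]
      have := pow_ne_zero d hh
      have := pow_ne_zero d hoF
      field_simp
      linear_combination hfb
    rw [e]
    exact div_mem_locRing _ (fun h => (hn.isPrime.mem_or_mem h).elim hb hodm)
  · have e : (f / (h * algebraMap K F (o : K)) ^ d)⁻¹ =
        ((b * H.cD.toB o ^ d : D.B) : F) / (a : F) := by
      push_cast
      rw [H.cD.coe_toB, mul_pow, inv_div]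
      have := pow_ne_zero d hh
      have := pow_ne_zero d hoF
      have hf0 : f ≠ 0 := ne_zero_of_res hf1
      field_simp
      linear_combination -hfb
    rw [e]
    exact div_mem_locRing _ ha
  · intro j hj
    have hji := huniq j hj
    subst hji
    refine ⟨a0, s0 * H.cD.toB o, fun h => (hn.isPrime.mem_or_mem h).elim hs0 hom, ?_, ?_⟩
    · have k1 : H.cD.toBHom oa - H.cD.toBHom o * H.cD.toBHom os ∈ n := by
        rw [← map_mul, ← map_sub]
        apply H.cD.toB_mem n hq
        rw [map_sub, map_mul, ho, div_mul_cancel₀ _ hos', sub_self]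
      have e : a0 - s0 * H.cD.toB o = (a0 - H.cD.toB oa) - H.cD.toB o * (s0 - H.cD.toB os) +
          (H.cD.toBHom oa - H.cD.toBHom o * H.cD.toBHom os) := by
        simp only [Consts.toBHom_apply]
        ring
      rw [e]
      exact n.add_mem (n.sub_mem hoa (n.mul_mem_left _ hos)) k1
    · have hs00 := coe_ne_zero_of_notMem hs0
      have e : (a0 : F) / ((s0 * H.cD.toB o : D.B) : F) * (h * algebraMap K F (o : K)) =
          t0 * h := by
        push_cast
        rw [H.cD.coe_toB, ← hts0]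
        field_simp
      rw [e, res_mul ht0V hhV, ht0, inv_mul_cancel₀ hhr]

variable [IsDiscreteValuationRing O]

/-- **leading coefficient**: the Laurent expansion of `f` at the rational cusp is a `d`-th power -/
theorem CuspHyp.exists_root [CharZero K] (hO : BaseHyp O π q d) (H : CuspHyp D O π)
    (p : H36.RatPoint K D.y) {f : F}
    (hf : ∀ i, D.res i f = 1) (hord : ∀ P : Place K F, (d : ℤ) ∣ P.ord f) :
    ∃ Y : LaurentSeries K, Y ^ d = p.e f := by
  have hd := hO.d_ne'
  have hchart : ∀ b : D.B, (b : F) ∈ H36.chart O D.y := fun b => by rw [← H.hB]; exact b.2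
  have hchartK : ∀ b : D.B, (b : F) ∈ H36.chart K D.y := fun b =>
    H36.chart_le_chartK O K D.y (hchart b)
  have hex : ∀ b : D.B, ∃ o : O, (o : K) = p.ev (b : F) := fun b => by
    obtain ⟨o, ho⟩ := p.ev_mem_range (hchart b)
    exact ⟨o, ho⟩
  choose ev hev using hex
  let evO : D.B →+* O :=
    { toFun := ev
      map_one' := by
        apply Subtype.ext
        rw [hev]
        exact p.ev_one
      map_mul' := fun x y => by
        apply Subtype.ext
        rw [hev]
        show _ = ((ev x : O) : K) * (ev y : K)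
        rw [hev, hev]
        exact p.ev_mul (hchartK x) (hchartK y)
      map_zero' := by
        apply Subtype.ext
        rw [hev]
        exact p.ev_zero
      map_add' := fun x y => by
        apply Subtype.ext
        rw [hev]
        show _ = ((ev x : O) : K) + (ev y : K)
        rw [hev, hev]
        exact p.ev_add _ _ }
  set n : Ideal D.B := RingHom.ker (π.comp evO) with hn
  haveI : n.IsPrime := RingHom.ker_isPrime _
  have hqn : D.qB ∈ n := by
    rw [hn, RingHom.mem_ker]
    show π (evO D.qB) = 0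
    have h1 : D.qB = ((q : ℕ) : D.B) := rfl
    rw [h1, map_natCast, map_natCast]
    have h2 := H.cD.res 0 (q : O)
    have h3 : algebraMap K F ((q : O) : K) = (q : F) := by
      rw [show ((q : O) : K) = (q : K) from rfl, map_natCast]
    rw [h3, res_q, map_natCast] at h2
    exact (map_eq_zero (algebraMap k E)).1 h2.symm
  have hyn : D.yB ∈ n := by
    rw [hn, RingHom.mem_ker]
    show π (ev D.yB) = 0
    have : ev D.yB = 0 := by
      apply Subtype.ext
      rw [hev]
      exact p.ev_tau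
    rw [this, map_zero]
  obtain ⟨h, a, b, hh, ha, hb, hfb⟩ := H.fact hO n hyn hqn hf hord
  have hu : ∀ c : D.B, c ∉ n → π (ev c) ≠ 0 := fun c hc h0 => hc h0
  -- orders
  have hordc : ∀ c : D.B, c ∉ n → (p.e (c : F)).order = 0 ∧ (p.e (c : F)).coeff 0 = (ev c : K) ∧
      (ev c : K) ≠ 0 := by
    intro c hc
    have h0 : (ev c : K) ≠ 0 := by
      intro h0
      apply hu c hc
      have : ev c = 0 := Subtype.ext h0
      rw [this, map_zero]
    have hcoef : (p.e (c : F)).coeff 0 = (ev c : K) := (hev c).symm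
    obtain ⟨Q, hQ⟩ := p.exists_powerSeries (hchartK c)
    refine ⟨?_, hcoef, h0⟩
    have hne : (p.e (c : F)) ≠ 0 := by
      intro h1
      rw [h1, HahnSeries.coeff_zero] at hcoef
      exact h0 hcoef.symm
    apply le_antisymm
    · exact HahnSeries.order_le_of_coeff_ne_zero (by rw [hcoef]; exact h0)
    · rw [HahnSeries.le_order_iff_forall hne]
      intro j hj
      rw [hQ]
      have := PowerSeries.coeff_coe Q j
      rw [this, if_pos hj]
  obtain ⟨oa, la, na⟩ := hordc a ha
  obtain ⟨ob, lb, nb⟩ := hordc b hb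
  have hf0 : f ≠ 0 := ne_zero_of_res (S := D.toCompSys) (i := 0) (by rw [hf]; exact one_ne_zero)
  have hef : p.e f ≠ 0 := (map_ne_zero _).2 hf0
  have heh : p.e h ≠ 0 := (map_ne_zero _).2 hh
  have hea : p.e (a : F) ≠ 0 := (map_ne_zero _).2 (coe_ne_zero_of_notMem ha)
  have heb : p.e (b : F) ≠ 0 := (map_ne_zero _).2 (coe_ne_zero_of_notMem hb)
  have heq : p.e f * p.e (b : F) = p.e h ^ d * p.e (a : F) := by
    rw [← map_mul, hfb, map_mul, map_pow]
  have horder : (p.e f).order = d * (p.e h).order := by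
    have h1 := congrArg HahnSeries.order heq
    rw [HahnSeries.order_mul hef heb, HahnSeries.order_mul (pow_ne_zero _ heh) hea,
      HahnSeries.order_pow, oa, ob, add_zero, add_zero, nsmul_eq_mul] at h1
    exact h1
  have hlead : (p.e f).leadingCoeff * (ev b : K) = (p.e h).leadingCoeff ^ d * (ev a : K) := by
    have h1 := congrArg HahnSeries.leadingCoeff heq
    rw [HahnSeries.leadingCoeff_mul, HahnSeries.leadingCoeff_mul] at h1
    have lc : ∀ c : D.B, c ∉ n → (p.e (c : F)).leadingCoeff = (ev c : K) := by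
      intro c hc
      obtain ⟨o1, l1, _⟩ := hordc c hc
      rw [← l1, ← o1]
      exact HahnSeries.leadingCoeff_eq
    rw [lc b hb, lc a ha] at h1
    rw [h1]
    congr 1
    have hpow : ∀ m : ℕ, (p.e h ^ m).leadingCoeff = (p.e h).leadingCoeff ^ m := by
      intro m
      induction m with
      | zero => simp
      | succ m ih => rw [pow_succ, HahnSeries.leadingCoeff_mul, ih, pow_succ]
    exact hpow d
  obtain ⟨ra, hra⟩ := hO.exists_root _ (hu a ha)
  obtain ⟨rb, hrb⟩ := hO.exists_root _ (hu b hb)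
  have hdK : (d : K) ≠ 0 := Nat.cast_ne_zero.2 hd
  have hrb0 : (rb : K) ≠ 0 := by
    intro h0
    have : rb = 0 := Subtype.ext h0
    rw [this, zero_pow hd] at hrb
    exact nb (by rw [← hrb]; rfl)
  refine H58.exists_root_laurent hdK (p.e f) hef ⟨_, horder⟩
    (a := (p.e h).leadingCoeff * ra / rb) ?_
  have h1 : (ra : K) ^ d = (ev a : K) := by rw [← hra]; rfl
  have h2 : (rb : K) ^ d = (ev b : K) := by rw [← hrb]; rfl
  have h3 : (p.e f).coeff (p.e f).order = (p.e f).leadingCoeff := HahnSeries.leadingCoeff_eq.symm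
  rw [h3, div_pow, mul_pow, h1, h2, div_eq_iff nb, hlead]

end cusp

end Fermat.Agent.H83
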