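import Mathlib
import Fermat.Agent.H83CoreB
import Fermat.Agent.H40RRBasic

/-!
# CARAYOL: the core theorem

`f` a function on `X_0(q² m)` over `K` with `d ∣ div f` whose two norms to `X_0(q m)` are
constants times `d`-th powers.  Then `f ^ ((q+1)(q-1)(q²-1))` is a constant times a `d`-th power.
-/

set_option autoImplicit false

namespace Fermat.Agent.H83

open CompSys AlgebraicCurve

section transfer

variable {F E : Type*} [Field F] [Field E] {q d : ℕ} {ι : Type*} {S D : CompSys F E q ι}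

theorem p_le_of_locRing_le {m : Ideal S.B} [hm : m.IsPrime] {i : ι}
    (h : locRing S.B m ≤ (S.V i).toSubring) : S.p i ≤ m := by
  intro b hb
  by_contra hbm
  have h1 : ((b : F))⁻¹ ∈ S.V i := h (inv_mem_locRing hbm)
  exact res_ne_zero (coe_ne_zero_of_notMem hbm) (S.B_le_V i b.2) h1 (S.mem_p_iff.1 hb)

/-- `HM` only depends on the local ring -/
theorem HM_transfer (hV : ∀ i x, x ∈ D.V i ↔ x ∈ S.V i) (hres : ∀ i x, D.res i x = S.res i x)
    (m : Ideal S.B) [hm : m.IsPrime] (n : Ideal D.B) [hn : n.IsPrime]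
    (hloc : locRing S.B m = locRing D.B n) {f : F} (h : HM S d m f) : HM D d n f := by
  obtain ⟨h, hh, h1, h2, h3⟩ := h
  refine ⟨h, hh, by rw [← hloc]; exact h1, by rw [← hloc]; exact h2, fun i hi => ?_⟩
  have hi' : S.p i ≤ m := by
    apply p_le_of_locRing_le
    intro x hx
    rw [hloc] at hx
    exact (hV i x).1 (D.locRing_le_V n hi hx)
  obtain ⟨a, s, hs, has, hr⟩ := h3 i hi'
  have hmem : (a : F) / s ∈ locRing D.B n := by rw [← hloc]; exact div_mem_locRing a hs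
  obtain ⟨a', s', hs', e⟩ := hmem
  have hs0 := coe_ne_zero_of_notMem hs
  have hs0' := coe_ne_zero_of_notMem hs'
  have e' : (a' : F) / s' = (a : F) / s := by rw [← e]; field_simp
  refine ⟨a', s', hs', ?_, by rw [hres, e']; exact hr⟩
  by_contra hcon
  -- `(a' - s') / s'` is a unit of the local ring
  have hu : ((s' : F)) / ((a' - s' : D.B) : F) ∈ locRing D.B n := div_mem_locRing _ hcon
  rw [← hloc] at hu
  obtain ⟨c, u, hum, hcu⟩ := hu
  have hne := coe_ne_zero_of_notMem hcon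
  have hne' : (a' : F) - s' ≠ 0 := hne
  have k1 : s * u = c * (a - s) := by
    apply Subtype.ext
    show (s : F) * u = c * ((a : F) - s)
    rw [← hcu]
    push_cast
    have e2 : (a : F) - s = ((a' : F) - s') / s' * s := by
      rw [sub_div, div_self hs0', e', sub_mul, div_mul_cancel₀ _ hs0, one_mul]
    rw [e2]
    field_simp
  have k2 : s * u ∈ m := by rw [k1]; exact m.mul_mem_left _ has
  exact (hm.mem_or_mem k2).elim hs hum

end transfer

open IntermediateField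

/-- hypotheses linking the two charts -/
structure CoreHyp {k E : Type*} [Field k] [Field E] [Algebra k E] {q : ℕ} {R : ResData k E q}
    {F' : Type*} [Field F'] {T : TwoData R F'} {F : Type*} [Field F] (S : ThreeData T F)
    {K : Type*} [Field K] [Algebra K F'] [Algebra K F]
    (O : ValuationSubring K) [IsDiscreteValuationRing O] (π : O →+* k)
    (D : H24.CuspSys k F E q) (t : F) : Prop where
  hyp : S.Hyp O π
  cusp : CuspHyp D O π
  trans : Transcendental K t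
  fin : FiniteDimensional K⟮t⟯ F
  y_eq : D.y = t⁻¹
  V_eq : ∀ i, D.V i = S.V i
  res_eq : ∀ i x, D.res i x = S.res i x
  B_eq : S.B = H36.chart O t
  gs_eq : ∀ x, x ∈ H36.gs O t ↔ ∀ i, x ∈ S.V i
  transfer : ∀ (n : Ideal D.B) (hn : n.IsMaximal), D.qB ∈ n → D.yB ∉ n →
    haveI := hn.isPrime
    ∃ (m : Ideal S.B) (hm : m.IsMaximal),
      haveI := hm.isPrime
      S.qB ∈ m ∧ locRing S.B m = locRing D.B n

section core

variable {k E : Type*} [Field k] [Field E] [Algebra k E] {q : ℕ} {R : ResData k E q}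
  {F' : Type*} [Field F'] {T : TwoData R F'} {F : Type*} [Field F] {S : ThreeData T F}
  {K : Type*} [Field K] [CharZero K] [Algebra K F'] [Algebra K F]
  {O : ValuationSubring K} [IsDiscreteValuationRing O] {π : O →+* k} {d : ℕ}
  {D : H24.CuspSys k F E q} {t : F}

theorem ord_dvd_pow (P : Place K F) {f : F} (h : (d : ℤ) ∣ P.ord f) (n : ℕ) :
    (d : ℤ) ∣ P.ord (f ^ n) := by
  rw [← zpow_natCast, P.ord_zpow]
  exact Dvd.dvd.mul_left h _

theorem ord_dvd_mul_pow (P : Place K F) {f a : F} (hf : f ≠ 0) (ha : a ≠ 0)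
    (h : (d : ℤ) ∣ P.ord f) : (d : ℤ) ∣ P.ord (f * a ^ d) := by
  rw [P.ord_mul hf (pow_ne_zero _ ha)]
  refine dvd_add h ?_
  rw [← zpow_natCast, P.ord_zpow]
  exact dvd_mul_right _ _

theorem ord_dvd_div_pow (P : Place K F) {f a : F} (hf : f ≠ 0) (ha : a ≠ 0)
    (h : (d : ℤ) ∣ P.ord f) : (d : ℤ) ∣ P.ord (f / a ^ d) := by
  rw [div_eq_mul_inv, ← inv_pow]
  exact ord_dvd_mul_pow P hf (inv_ne_zero ha) h

/-- The last step: trivial windings imply `d`-th power. -/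
theorem CoreHyp.exists_root [IsAlgClosed k] (hO : BaseHyp O π q d)
    (C : CoreHyp S O π D t) (p : H36.RatPoint K t⁻¹) (hirr : Irreducible (q : O)) {ζ : O}
    (hζ : IsPrimitiveRoot ζ d) {f : F} (hf : ∀ i, S.res i f = 1)
    (hord : ∀ P : Place K F, (d : ℤ) ∣ P.ord f)
    (hHM : ∀ (m : Ideal S.B) (hm : m.IsMaximal), S.qB ∈ m →
        haveI := hm.isPrime
        HM S.toCompSys d m f) : ∃ y : F, y ^ d = f := by
  have hf0 : f ≠ 0 := ne_zero_of_res (S := S.toCompSys) (i := 0) (by rw [hf]; exact one_ne_zero)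
  haveI := C.fin
  have hHMD : ∀ (n : Ideal D.B) (hn : n.IsMaximal), D.qB ∈ n →
      haveI := hn.isPrime
      HM D.toCompSys d n f := by
    intro n hn hq
    haveI := hn.isPrime
    by_cases hy : D.yB ∈ n
    · exact C.cusp.HM hO n hn hy hq (fun i => by rw [C.res_eq]; exact hf i) hord
    · obtain ⟨m, hm, hqm, hloc⟩ := C.transfer n hn hq hy
      haveI := hm.isPrime
      exact HM_transfer (S := S.toCompSys) (D := D.toCompSys) (fun i x => by rw [C.V_eq])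
        C.res_eq m n hloc (hHM m hm hqm)
  have hloc := locCond_of_HM (O := O) hf0 hHM
  have hloc' := locCond_of_HM (O := O) hf0 hHMD
  have hVV : D.V = S.V := funext C.V_eq
  rw [C.B_eq] at hloc
  rw [hVV, C.cusp.hB, C.y_eq] at hloc'
  let pD : H36.RatPoint K D.y :=
    { e := p.e
      he := p.he
      P := p.P
      hP := by rw [C.y_eq]; exact p.hP
      hP0 := p.hP0
      hP1 := p.hP1 }
  obtain ⟨Y, hY⟩ := C.cusp.exists_root hO pD (f := f)
    (fun i => by rw [C.res_eq]; exact hf i) hord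
  have hdu : IsUnit (d : O) := hO.isUnit _ (by rw [map_natCast]; exact hO.d_ne)
  refine H36.inj (O := O) (K := K) C.trans p S.V C.gs_eq ?_ hdu hζ ?_ hirr hloc hloc' hY
  · intro i g z hg
    rw [valuation_lt_one] at hg
    obtain ⟨M, hM⟩ := C.hyp.aS i z
    refine ⟨S.e i * M, ?_⟩
    have e : g ^ (S.e i * M) * z = (g ^ S.e i / (q : F)) ^ M * ((q : F) ^ M * z) := by
      have := S.q_ne
      rw [pow_mul, div_pow]
      field_simp
    rw [e]
    exact mul_mem (pow_mem (pow_div_mem hg.1 hg.2) _) hM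
  · intro i
    rw [valuation_lt_one]
    have h1 : S.res i f ≠ 0 := by rw [hf]; exact one_ne_zero
    exact ⟨sub_mem (res_mul_ne h1) (one_mem _), by
      rw [res_sub (res_mul_ne h1) (one_mem _), hf, res_one, sub_self]⟩

/-- **The core theorem.** -/
theorem CoreHyp.core [IsAlgClosed k] (hO : BaseHyp O π q d)
    (C : CoreHyp S O π D t) (p : H36.RatPoint K t⁻¹) (hirr : Irreducible (q : O)) {ζ : O}
    (hζ : IsPrimitiveRoot ζ d) {f : F} (hf : f ≠ 0)
    (hord : ∀ P : Place K F, (d : ℤ) ∣ P.ord f)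
    {c c' : K} (hc : c ≠ 0) (hc' : c' ≠ 0) {g g' : F'} (hg : g ≠ 0) (hg' : g' ≠ 0)
    (hα : S.Nα f = algebraMap K F' c * g ^ d) (hβ : S.Nβ f = algebraMap K F' c' * g' ^ d) :
    ∃ (c₁ : K) (g₁ : F), c₁ ≠ 0 ∧ g₁ ≠ 0 ∧
      f ^ ((q + 1) * (q - 1) * (q * q - 1)) = algebraMap K F c₁ * g₁ ^ d := by
  have H := C.hyp
  have hqF := S.q_ne
  have hqF' := T.q_ne
  have hqK : (q : K) ≠ 0 := by
    intro h0
    apply hqF
    rw [← map_natCast (algebraMap K F), h0, map_zero]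
  obtain ⟨z, a, ha, h1⟩ := ThreeData.exists_normalize hO H hf hc hc' hg hg' hα hβ
  set f₁ : F := (q : F) ^ z * f ^ (q + 1) / a ^ d with hf₁
  have hf₁0 : f₁ ≠ 0 := ne_zero_of_res (h1 0)
  have hNαa : S.Nα a ≠ 0 := by
    rw [← S.Nα₀_apply]; exact (map_ne_zero _).2 ha
  have hNβa : S.Nβ a ≠ 0 := by
    rw [← S.Nβ₀_apply]; exact (map_ne_zero _).2 ha
  have hord1 : ∀ P : Place K F, (d : ℤ) ∣ P.ord f₁ := by
    intro P
    apply ord_dvd_div_pow P (mul_ne_zero (zpow_ne_zero _ hqF) (pow_ne_zero _ hf)) ha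
    rw [P.ord_mul (zpow_ne_zero _ hqF) (pow_ne_zero _ hf)]
    refine dvd_add ?_ (ord_dvd_pow P (hord P) _)
    have : (q : F) ^ z = algebraMap K F ((q : K) ^ z) := by rw [map_zpow₀, map_natCast]
    rw [this, H40.ord_algebraMap]
    exact dvd_zero _
  have hα1 : S.Nα f₁ = algebraMap K F' (((q : K) ^ z) ^ q * c ^ (q + 1)) *
      (g ^ (q + 1) / S.Nα a) ^ d := by
    rw [hf₁, ← S.Nα₀_apply, map_div₀, map_mul, map_pow, map_pow, map_zpow₀, S.Nα_q, S.Nα₀_apply,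
      S.Nα₀_apply, hα, map_mul, map_pow, map_pow, map_zpow₀, map_natCast, div_pow]
    have e : ((q : F') ^ q) ^ z = ((q : F') ^ z) ^ q := by
      rw [← zpow_natCast, ← zpow_natCast, ← zpow_mul, ← zpow_mul, mul_comm]
    rw [e]
    ring
  have hβ1 : S.Nβ f₁ = algebraMap K F' (((q : K) ^ z) ^ q * c' ^ (q + 1)) *
      (g' ^ (q + 1) / S.Nβ a) ^ d := by
    rw [hf₁, ← S.Nβ₀_apply, map_div₀, map_mul, map_pow, map_pow, map_zpow₀, S.Nβ_q, S.Nβ₀_apply,
      S.Nβ₀_apply, hβ, map_mul, map_pow, map_pow, map_zpow₀, map_natCast, div_pow]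
    have e : ((q : F') ^ q) ^ z = ((q : F') ^ z) ^ q := by
      rw [← zpow_natCast, ← zpow_natCast, ← zpow_mul, ← zpow_mul, mul_comm]
    rw [e]
    ring
  have hV1 : ∀ i, f₁ ∈ S.V i := fun i => res_mul_ne (h1 i)
  have hrα : T.res 0 (S.Nα f₁) ≠ 0 := by
    rw [(S.Nα_V0 f₁ (hV1 0) (hV1 1)).2]
    exact mul_ne_zero (h1 0) (pow_ne_zero _ (h1 1))
  have hrβ : T.res 0 (S.Nβ f₁) ≠ 0 := by
    rw [(S.Nβ_V0 f₁ (hV1 0)).2]
    exact (map_ne_zero _).2 (h1 0)
  obtain ⟨G, hG0, hG⟩ := exists_eq_pow hO H.cT H.aT (T.e_eq 0)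
    (mul_ne_zero (pow_ne_zero _ (zpow_ne_zero _ hqK)) (pow_ne_zero _ hc))
    (div_ne_zero (pow_ne_zero _ hg) hNαa) hα1 hrα
  obtain ⟨G', hG0', hG'⟩ := exists_eq_pow hO H.cT H.aT (T.e_eq 0)
    (mul_ne_zero (pow_ne_zero _ (zpow_ne_zero _ hqK)) (pow_ne_zero _ hc'))
    (div_ne_zero (pow_ne_zero _ hg') hNβa) hβ1 hrβ
  obtain ⟨a₂, ha₂, h2⟩ := ThreeData.exists_residue_one hO H h1 hG hG'
  have ha₂0 : a₂ ≠ 0 := ne_zero_of_res (ha₂ 0)
  set f₂ : F := f₁ ^ (q - 1) / a₂ ^ d with hf₂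
  have hf₂0 : f₂ ≠ 0 := div_ne_zero (pow_ne_zero _ hf₁0) (pow_ne_zero _ ha₂0)
  have hord2 : ∀ P : Place K F, (d : ℤ) ∣ P.ord f₂ := fun P =>
    ord_dvd_div_pow P (pow_ne_zero _ hf₁0) ha₂0 (ord_dvd_pow P (hord1 P) _)
  have hα2 : S.Nα f₂ = (G ^ (q - 1) / S.Nα a₂) ^ d := by
    rw [hf₂, ← S.Nα₀_apply, map_div₀, map_pow, map_pow, S.Nα₀_apply, S.Nα₀_apply, hG, div_pow,
      ← pow_mul, ← pow_mul, mul_comm]
  have hβ2 : S.Nβ f₂ = (G' ^ (q - 1) / S.Nβ a₂) ^ d := by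
    rw [hf₂, ← S.Nβ₀_apply, map_div₀, map_pow, map_pow, S.Nβ₀_apply, S.Nβ₀_apply, hG', div_pow,
      ← pow_mul, ← pow_mul, mul_comm]
  obtain ⟨a₀, ha₀, h3, hHM⟩ := ThreeData.windings hO H h2 hord2 hα2 hβ2
  have ha₀0 : a₀ ≠ 0 := ne_zero_of_res (ha₀ 0)
  obtain ⟨y, hy⟩ := C.exists_root hO p hirr hζ h3
    (fun P => ord_dvd_mul_pow P (pow_ne_zero _ hf₂0) ha₀0 (ord_dvd_pow P (hord2 P) _)) hHM
  have hd := hO.d_ne'
  have hy0 : y ≠ 0 := by
    rintro rfl
    rw [zero_pow hd] at hy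
    exact mul_ne_zero (pow_ne_zero _ hf₂0) (pow_ne_zero _ ha₀0) hy.symm
  -- unwinding
  set r : ℕ := q - 1 with hr
  set s : ℕ := q * q - 1 with hs
  refine ⟨(((q : K) ^ z) ^ (r * s))⁻¹, y * a₂ ^ s * a ^ (r * s) / a₀, ?_, ?_, ?_⟩
  · exact inv_ne_zero (pow_ne_zero _ (zpow_ne_zero _ hqK))
  · exact div_ne_zero (mul_ne_zero (mul_ne_zero hy0 (pow_ne_zero _ ha₂0)) (pow_ne_zero _ ha)) ha₀0
  · have hqz : ((q : F) ^ z) ≠ 0 := zpow_ne_zero _ hqF
    have e1 : (y * a₂ ^ s * a ^ (r * s) / a₀) ^ d =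
        f₂ ^ s * (a₂ ^ d) ^ s * (a ^ d) ^ (r * s) := by
      rw [div_pow, mul_pow, mul_pow, hy]
      have := pow_ne_zero d ha₀0
      field_simp
      ring
    have e2 : f₂ ^ s * (a₂ ^ d) ^ s = f₁ ^ (r * s) := by
      rw [← mul_pow, hf₂, div_mul_cancel₀ _ (pow_ne_zero _ ha₂0), ← pow_mul]
    have e3 : f₁ ^ (r * s) * (a ^ d) ^ (r * s) = ((q : F) ^ z) ^ (r * s) * (f ^ (q + 1)) ^ (r * s) := by
      rw [← mul_pow, hf₁, div_mul_cancel₀ _ (pow_ne_zero _ ha), mul_pow]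
    rw [e1, e2, e3, map_inv₀, map_pow, map_zpow₀, map_natCast, inv_mul_cancel_left₀
      (pow_ne_zero _ hqz), ← pow_mul]
    congr 1
    ring

end core

end Fermat.Agent.H83
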