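import Mathlib
import Fermat.Agent.H83Core
import Fermat.Agent.H36InjS

/-!
# Towards the instance: residue fields, transfer between the two charts
-/

set_option autoImplicit false

namespace Fermat.Agent.H83

open CompSys AlgebraicCurve

section resfield

variable {K k F E : Type*} [Field K] [Field k] [Field F] [Field E] [Algebra k E]
    [Algebra K F] {q d : ℕ} {ι : Type*} {S : CompSys F E q ι} {O : ValuationSubring K}
    {π : O →+* k}

/-- The residue field at a maximal ideal containing `q`, when `B` is integral over `O[t]`. -/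
theorem exists_const_sub_mem' [IsAlgClosed k] [Fintype ι] (hO : BaseHyp O π q d)
    (hS : S.Consts O π) {t : F} (hB : S.B = H36.chart O t) (n : Ideal S.B) (hn : n.IsMaximal)
    (hq : S.qB ∈ n) (b : S.B) : ∃ o : O, b - hS.toB o ∈ n := by
  classical
  haveI := hn.isPrime
  letI := Ideal.Quotient.field n
  let g : O →+* S.B ⧸ n := (Ideal.Quotient.mk n).comp hS.toBHom
  have hker : RingHom.ker π ≤ RingHom.ker g := by
    intro o ho
    rw [RingHom.mem_ker] at ho ⊢
    show Ideal.Quotient.mk n (hS.toB o) = 0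
    rw [Ideal.Quotient.eq_zero_iff_mem]
    exact hS.toB_mem n hq ho
  let ψ : k →+* S.B ⧸ n := (π.liftOfSurjective hO.surj) ⟨g, hker⟩
  have hψ : ψ.comp π = g := π.liftOfSurjective_comp hO.surj ⟨g, hker⟩
  have htB : t ∈ S.B := by rw [hB]; exact H36.self_mem_chart O t
  letI := ψ.toAlgebra
  let tb : S.B ⧸ n := Ideal.Quotient.mk n ⟨t, htB⟩
  let A : Subalgebra k (S.B ⧸ n) := Algebra.adjoin k {tb}
  have htA : tb ∈ A := Algebra.subset_adjoin rfl
  let θ : Polynomial O →+* A := Polynomial.eval₂RingHom ((algebraMap k A).comp π) ⟨tb, htA⟩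
  have hev : ∀ p : Polynomial O, H36.evt O t p ∈ S.B := by
    intro p
    rw [hB]
    exact H36.evt_mem_chart O t p
  let ε : Polynomial O →+* S.B := (H36.evt O t).codRestrict S.B hev
  have hcomp : (algebraMap A (S.B ⧸ n)).comp θ = (Ideal.Quotient.mk n).comp ε := by
    refine Polynomial.ringHom_ext (fun c => ?_) ?_
    · have h0 : ((algebraMap A (S.B ⧸ n)).comp θ) (Polynomial.C c) = ψ (π c) := by
        show algebraMap A (S.B ⧸ n) (Polynomial.eval₂ _ _ (Polynomial.C c)) = ψ (π c)
        rw [Polynomial.eval₂_C]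
        rfl
      rw [h0]
      have h1 : ψ (π c) = g c := by rw [← hψ]; rfl
      rw [h1]
      show Ideal.Quotient.mk n (hS.toB c) = Ideal.Quotient.mk n (ε (Polynomial.C c))
      congr 1
      apply Subtype.ext
      show algebraMap K F (c : K) = H36.evt O t (Polynomial.C c)
      rw [H36.evt_apply, Polynomial.aeval_C]
      rfl
    · have h0 : ((algebraMap A (S.B ⧸ n)).comp θ) Polynomial.X = tb := by
        show algebraMap A (S.B ⧸ n) (Polynomial.eval₂ _ _ Polynomial.X) = tb
        rw [Polynomial.eval₂_X]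
        rfl
      rw [h0]
      have h1 : (⟨t, htB⟩ : S.B) = ε Polynomial.X := by
        apply Subtype.ext
        show t = H36.evt O t Polynomial.X
        rw [H36.evt_apply, Polynomial.aeval_X]
      show Ideal.Quotient.mk n ⟨t, htB⟩ = Ideal.Quotient.mk n (ε Polynomial.X)
      rw [h1]
  have hintA : ∀ b : S.B, IsIntegral A (Ideal.Quotient.mk n b) := by
    intro b
    have hbint : (H36.evt O t).IsIntegralElem (b : F) := by
      have : (b : F) ∈ H36.chart O t := by rw [← hB]; exact b.2
      exact this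
    obtain ⟨P, hP, hP0⟩ := hbint
    refine ⟨P.map θ, hP.map θ, ?_⟩
    rw [Polynomial.eval₂_map]
    rw [hcomp, ← Polynomial.hom_eval₂]
    have h2 : Polynomial.eval₂ ε b P = 0 := by
      apply Subtype.ext
      show S.B.subtype (Polynomial.eval₂ ε b P) = 0
      rw [Polynomial.hom_eval₂]
      exact hP0
    rw [h2, map_zero]
  haveI : Algebra.IsIntegral A (S.B ⧸ n) := ⟨fun x => by
    obtain ⟨b, rfl⟩ := Ideal.Quotient.mk_surjective x
    exact hintA b⟩
  have hA : IsField A := isField_of_isIntegral_of_isField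
    (show Function.Injective (algebraMap A (S.B ⧸ n)) from Subtype.val_injective)
    (Field.toIsField (S.B ⧸ n))
  -- `t` is algebraic over `k`
  have htint : IsIntegral k tb := by
    by_cases h0 : tb = 0
    · rw [h0]; exact isIntegral_zero
    · obtain ⟨c, hc⟩ := hA.mul_inv_cancel (a := (⟨tb, htA⟩ : A))
        (fun h => h0 (congrArg (fun z : A => (z : S.B ⧸ n)) h))
      have hcA : (c : S.B ⧸ n) ∈ Algebra.adjoin k {tb} := c.2
      rw [Algebra.adjoin_singleton_eq_range_aeval] at hcA
      obtain ⟨p, hp⟩ := hcA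
      have hc' : tb * (c : S.B ⧸ n) = 1 := congrArg (fun z : A => (z : S.B ⧸ n)) hc
      have halg : IsAlgebraic k tb := by
        refine ⟨Polynomial.X * p - 1, ?_, ?_⟩
        · intro h
          have h1 := congrArg (fun P => Polynomial.coeff P 0) h
          simp at h1
        · rw [map_sub, map_mul, map_one, Polynomial.aeval_X]
          have hp' : Polynomial.aeval tb p = (c : S.B ⧸ n) := hp
          rw [hp', hc', sub_self]
      exact halg.isIntegral
  haveI : Algebra.IsIntegral k A := by
    exact Algebra.IsIntegral.adjoin (fun x hx => by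
      rw [Set.mem_singleton_iff] at hx
      rw [hx]; exact htint)
  have hint : IsIntegral k (Ideal.Quotient.mk n b) := isIntegral_trans _ (hintA b)
  obtain ⟨c, hc⟩ := minpoly.mem_range_of_degree_eq_one k _
    (IsAlgClosed.degree_eq_one_of_irreducible k (minpoly.irreducible hint))
  obtain ⟨o, rfl⟩ := hO.surj c
  refine ⟨o, ?_⟩
  rw [← Ideal.Quotient.eq_zero_iff_mem, map_sub, sub_eq_zero, ← hc]
  have h1 : ψ (π o) = g o := by rw [← hψ]; rfl
  exact h1

end resfield

section transfer

variable {K k F E : Type*} [Field K] [Field k] [Field F] [Field E] [Algebra k E]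
    [Algebra K F] {q d : ℕ} {ι : Type*} {S D : CompSys F E q ι} {O : ValuationSubring K}
    {π : O →+* k}

theorem isUnit_toB (hO : BaseHyp O π q d) (hS : S.Consts O π) {o : O} (ho : π o ≠ 0) :
    IsUnit (hS.toB o) := by
  have := (hO.isUnit o ho).map hS.toBHom
  exact this

/-- **Transfer**: a maximal ideal of the cusp chart not containing `t⁻¹` comes from the affine
chart. -/
theorem exists_transfer [IsAlgClosed k] [Fintype ι] (hO : BaseHyp O π q d)
    (hS : S.Consts O π) (hD : D.Consts O π) {t : F} (ht : t ≠ 0)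
    (hSB : S.B = H36.chart O t) (hDB : D.B = H36.chart O t⁻¹)
    (n : Ideal D.B) (hn : n.IsMaximal) (hq : D.qB ∈ n)
    (hy : ∀ z : D.B, (z : F) = t⁻¹ → z ∉ n) :
    haveI := hn.isPrime
    ∃ (m : Ideal S.B) (hm : m.IsMaximal),
      haveI := hm.isPrime
      S.qB ∈ m ∧ locRing S.B m = locRing D.B n := by
  classical
  haveI := hn.isPrime
  have hyB : t⁻¹ ∈ D.B := by rw [hDB]; exact H36.self_mem_chart O t⁻¹
  have hyn : (⟨t⁻¹, hyB⟩ : D.B) ∉ n := hy _ rfl
  set L := locRing D.B n with hL
  -- `t` and `t⁻¹` are in `L`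
  have htL : t ∈ L := by
    have := inv_mem_locRing hyn
    rwa [inv_inv] at this
  have hyL : t⁻¹ ∈ L := le_locRing hyB
  have hle : S.B ≤ L := by
    intro b hb
    rw [hSB] at hb
    obtain ⟨N, hN⟩ := H36.exists_inv_pow_mul_mem_chart ht hb
    rw [← hDB] at hN
    have e : b = t ^ N * (t⁻¹ ^ N * b) := by
      rw [← mul_assoc, ← mul_pow, mul_inv_cancel₀ ht, one_pow, one_mul]
    rw [e]
    exact mul_mem (pow_mem htL _) (le_locRing hN)
  let inc : S.B →+* L := Subring.inclusion hle
  let m : Ideal S.B := (IsLocalRing.maximalIdeal L).comap inc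
  haveI hmp : m.IsPrime := Ideal.IsPrime.comap _
  have hmem : ∀ b : S.B, b ∈ m ↔ inc b ∈ IsLocalRing.maximalIdeal L := fun b => Iff.rfl
  -- constants in `L`
  have hconst : ∀ o : O, algebraMap K F (o : K) ∈ L := fun o => le_locRing (hD.toB o).2
  have hconst0 : ∀ o : O, π o = 0 →
      (⟨_, hconst o⟩ : L) ∈ IsLocalRing.maximalIdeal L := by
    intro o ho
    exact (mem_maximalIdeal_locRing (hD.toB o)).2 (hD.toB_mem n hq ho)
  -- residue field of `L`
  have hres : ∀ x : L, ∃ o : O, x - ⟨_, hconst o⟩ ∈ IsLocalRing.maximalIdeal L := by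
    rintro ⟨x, a, s, hs, hxs⟩
    obtain ⟨oa, hoa⟩ := exists_const_sub_mem' hO hD hDB n hn hq a
    obtain ⟨os, hos⟩ := exists_const_sub_mem' hO hD hDB n hn hq s
    have hos' : π os ≠ 0 := by
      intro h0
      have := hD.toB_mem n hq h0
      apply hs
      have := n.add_mem hos this
      rwa [sub_add_cancel] at this
    obtain ⟨o, ho⟩ := hO.surj (π oa / π os)
    refine ⟨o, ?_⟩
    -- multiply by `s`
    have hsu : IsUnit (algebraMap D.B L s) :=
      IsLocalization.map_units (M := n.primeCompl) (locRing D.B n) ⟨s, hs⟩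
    rw [← Ideal.unit_mul_mem_iff_mem _ hsu]
    have k1 : hD.toBHom oa - hD.toBHom o * hD.toBHom os ∈ n := by
      rw [← map_mul, ← map_sub]
      apply hD.toB_mem n hq
      rw [map_sub, map_mul, ho, div_mul_cancel₀ _ hos', sub_self]
    have e : a - s * hD.toB o = (a - hD.toB oa) - hD.toB o * (s - hD.toB os) +
        (hD.toBHom oa - hD.toBHom o * hD.toBHom os) := by
      simp only [Consts.toBHom_apply]
      ring
    have k2 : a - s * hD.toB o ∈ n := by
      rw [e]
      exact n.add_mem (n.sub_mem hoa (n.mul_mem_left _ hos)) k1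
    have k3 := (mem_maximalIdeal_locRing _).2 k2
    convert k3 using 1
    apply Subtype.ext
    show (s : F) * (x - algebraMap K F (o : K)) = (a : F) - s * algebraMap K F (o : K)
    rw [← hxs]
    ring
  have hresS : ∀ b : S.B, ∃ o : O, b - hS.toB o ∈ m := by
    intro b
    obtain ⟨o, ho⟩ := hres (inc b)
    refine ⟨o, ?_⟩
    rw [hmem]
    exact ho
  have hm : m.IsMaximal := by
    rw [Ideal.isMaximal_iff]
    refine ⟨fun h => hmp.ne_top ((Ideal.eq_top_iff_one _).2 h), ?_⟩
    intro J b hJ hb hbJ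
    obtain ⟨o, ho⟩ := hresS b
    have ho0 : π o ≠ 0 := by
      intro h0
      apply hb
      have h1 : hS.toB o ∈ m := hconst0 o h0
      have := m.add_mem ho h1
      rwa [sub_add_cancel] at this
    have h1 : hS.toB o ∈ J := by
      have := J.sub_mem hbJ (hJ ho)
      rwa [sub_sub_cancel] at this
    have := Ideal.eq_top_of_isUnit_mem J h1 (isUnit_toB hO hS ho0)
    rw [this]
    exact Submodule.mem_top
  refine ⟨m, hm, ?_, ?_⟩
  · rw [hmem]
    have : inc S.qB = algebraMap D.B L D.qB := Subtype.ext (by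
      show ((S.qB : S.B) : F) = ((D.qB : D.B) : F)
      rw [S.coe_qB, D.coe_qB])
    rw [this]
    exact (mem_maximalIdeal_locRing _).2 hq
  · apply le_antisymm
    · rintro x ⟨a, b, hb, hx⟩
      have hbu : IsUnit (inc b) := by
        by_contra h
        exact hb ((hmem b).2 h)
      obtain ⟨c, hc⟩ := hbu.exists_right_inv
      have hc' : (b : F) * (c : F) = 1 := congrArg (fun z : L => (z : F)) hc
      have e : x = (a : F) * c := by
        rw [← hx, mul_assoc, hc', mul_one]
      rw [e]
      exact mul_mem (hle a.2) c.2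
    · rintro x ⟨a, s, hs, hx⟩
      have ht' : t⁻¹ ≠ 0 := inv_ne_zero ht
      have key : ∀ c : D.B, ∃ N : ℕ, ∀ M, N ≤ M → t ^ M * (c : F) ∈ S.B := by
        intro c
        have hc : (c : F) ∈ H36.chart O t⁻¹ := by rw [← hDB]; exact c.2
        obtain ⟨N, hN⟩ := H36.exists_inv_pow_mul_mem_chart ht' hc
        rw [inv_inv, ← hSB] at hN
        refine ⟨N, fun M hM => ?_⟩
        have htS : t ∈ S.B := by rw [hSB]; exact H36.self_mem_chart O t
        rw [← Nat.sub_add_cancel hM, pow_add, mul_assoc]
        exact mul_mem (pow_mem htS _) hN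
      obtain ⟨N1, hN1⟩ := key a
      obtain ⟨N2, hN2⟩ := key s
      refine ⟨⟨_, hN1 (max N1 N2) (le_max_left _ _)⟩, ⟨_, hN2 (max N1 N2) (le_max_right _ _)⟩,
        ?_, ?_⟩
      · intro hcon
        rw [hmem, IsLocalRing.mem_maximalIdeal, mem_nonunits_iff] at hcon
        apply hcon
        have hsu : IsUnit (algebraMap D.B L s) :=
          IsLocalization.map_units (M := n.primeCompl) (locRing D.B n) ⟨s, hs⟩
        have htu : IsUnit (⟨t, htL⟩ : L) :=
          IsUnit.of_mul_eq_one ⟨t⁻¹, hyL⟩ (Subtype.ext (mul_inv_cancel₀ ht))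
        have := (htu.pow (max N1 N2)).mul hsu
        convert this using 1
        rfl
      · show x * (t ^ max N1 N2 * (s : F)) = t ^ max N1 N2 * (a : F)
        rw [← hx]
        ring

end transfer

end Fermat.Agent.H83
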