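import Mathlib
import Fermat.Agent.H83Inst

/-!
# Constructor for `CoreHyp`
-/

set_option autoImplicit false

namespace Fermat.Agent.H83

open CompSys AlgebraicCurve Polynomial IntermediateField

section frac

variable {K F : Type*} [Field K] [Field F] [Algebra K F] {O : ValuationSubring K}
  [IsDiscreteValuationRing O]

theorem aeval_O_ne {t : F} (ht : Transcendental K t) {p : O[X]} (hp : p ≠ 0) : aeval t p ≠ 0 := by
  intro h
  apply ht
  refine ⟨p.map (algebraMap O K), ?_, ?_⟩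
  · rwa [Ne, Polynomial.map_eq_zero_iff (IsFractionRing.injective O K)]
  · rw [aeval_map_algebraMap]
    exact h

/-- every element of `F` is a quotient of elements of the chart -/
theorem frac_of_chart {E : Type*} [Field E] {q : ℕ} {ι : Type*} {S : CompSys F E q ι} {t : F}
    (ht : Transcendental K t) [FiniteDimensional K⟮t⟯ F] (hB : S.B = H36.chart O t) (x : F) :
    ∃ b : S.B, (b : F) ≠ 0 ∧ x * b ∈ S.B := by
  obtain ⟨ϖ, hϖ⟩ := IsDiscreteValuationRing.exists_irreducible O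
  obtain ⟨n, p, hp, h⟩ := H36.exists_pow_mul_mem_gs (K := K) hϖ ht x
  have h0 : algebraMap O F ϖ ≠ 0 := by
    have h1 : algebraMap O F ϖ = algebraMap K F (ϖ : K) := rfl
    rw [h1, Ne, map_eq_zero]
    intro h
    exact hϖ.ne_zero (Subtype.ext h)
  refine ⟨⟨aeval t p * algebraMap O F ϖ ^ n, ?_⟩, ?_, ?_⟩
  · rw [hB]
    exact mul_mem (H36.evt_mem_chart O t p) (pow_mem (H36.algebraMap_mem_chart O t ϖ) _)
  · exact mul_ne_zero (aeval_O_ne ht hp.ne_zero) (pow_ne_zero _ h0)
  · show x * (aeval t p * algebraMap O F ϖ ^ n) ∈ S.B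
    rw [hB]
    convert h using 1
    ring

end frac

section cons

variable {k E : Type*} [Field k] [Field E] [Algebra k E] {q : ℕ} {R : ResData k E q}
  {F' : Type*} [Field F'] {T : TwoData R F'} {F : Type*} [Field F] {S : ThreeData T F}
  {K : Type*} [Field K] [CharZero K] [Algebra K F'] [Algebra K F]
  {O : ValuationSubring K} [IsDiscreteValuationRing O] {π : O →+* k} {d : ℕ}
  {D : H24.CuspSys k F E q} {t : F}

theorem fracC_of (hA : S.Arch) (ht : Transcendental K t) [FiniteDimensional K⟮t⟯ F]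
    (y_eq : D.y = t⁻¹) (V_eq : ∀ i, D.V i = S.V i) (res_eq : ∀ i x, D.res i x = S.res i x)
    (hhor : ∀ x, x ∈ S.hor ↔ x ∈ H36.chart K t)
    (hhorD : ∀ x, x ∈ D.hor ↔ x ∈ H36.chart K t⁻¹)
    (hDB : D.B = H36.chart O t⁻¹) (i : Fin 3) (x : F) (hx : x ∈ D.V i) :
    ∃ c c' : E, c ∈ D.C ∧ c' ∈ D.C ∧ c' ≠ 0 ∧ D.res i x * c' = c := by
  have ht0 : t ≠ 0 := by
    rintro rfl
    exact ht isAlgebraic_zero
  have hAD : D.Arch := by
    intro i x
    obtain ⟨M, hM⟩ := hA i x
    exact ⟨M, by rw [V_eq]; exact hM⟩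
  have he : ∀ j, D.e j = S.e j := by
    intro j
    fin_cases j
    · show D.e 0 = S.e 0
      rw [D.e_zero, S.e_zero]
    · show D.e 1 = S.e 1
      rw [D.e_one, S.e_one]
    · show D.e 2 = S.e 2
      rw [D.e_two, S.e_two]
  have hunif : D.IsUnif i (S.unif i) := by
    obtain ⟨h1, h2, h3⟩ := S.isUnif i
    exact ⟨by rw [V_eq]; exact h1, by rw [res_eq]; exact h2, by rw [res_eq, he]; exact h3⟩
  -- the elements `u`
  have huhor : S.uu i ∈ H36.chart K t := (hhor _).1 (S.B_le_hor (S.uu_mem i))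
  obtain ⟨N, hN⟩ := H36.exists_inv_pow_mul_mem_chart ht0 huhor
  have hyV : ∀ j, D.y ∈ D.V j := D.y_V
  have huB : t⁻¹ ^ N * S.uu i ∈ D.B := by
    rw [D.mem_B]
    refine ⟨(hhorD _).2 hN, fun j => mul_mem (pow_mem ?_ _) ?_⟩
    · rw [← y_eq]; exact hyV j
    · rw [V_eq]; exact S.uu_V i j
  have hres : ∀ j, D.res j (t⁻¹ ^ N * S.uu i) = D.res j D.y ^ N * S.res j (S.uu i) := by
    intro j
    have h1 : S.uu i ∈ D.V j := by rw [V_eq]; exact S.uu_V i j
    rw [← y_eq, res_mul (pow_mem (hyV j) _) h1, res_pow (hyV j), res_eq j (S.uu i)]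
  haveI : FiniteDimensional K⟮t⁻¹⟯ F := by rw [H36.adjoin_inv]; infer_instance
  have hfrac := frac_of_chart (O := O) (S := D.toCompSys) (t := t⁻¹)
    (H36.transcendental_inv ht) hDB
  obtain ⟨a, b, hb, hxb⟩ := exists_frac (S := D.toCompSys) hAD (by rw [he]; exact S.e_ne i) hunif huB
    (by
      rw [hres]
      exact mul_ne_zero (pow_ne_zero _ (D.res_y_ne i)) (S.res_uu_self i))
    (fun j hj => by rw [hres, S.res_uu_ne i j (Ne.symm hj), mul_zero]) hfrac hx
  refine ⟨D.r i a, D.r i b, D.r_mem i a, D.r_mem i b, by rw [D.r_apply]; exact hb, ?_⟩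
  rw [D.r_apply, D.r_apply, ← res_mul hx (D.B_le_V i b.2), hxb]

/-- **Constructor** for `CoreHyp`. -/
theorem CoreHyp.of [IsAlgClosed k] (hO : BaseHyp O π q d) (H : S.Hyp O π)
    (cD : D.toCompSys.Consts O π) (ht : Transcendental K t) (hfin : FiniteDimensional K⟮t⟯ F)
    (y_eq : D.y = t⁻¹) (V_eq : ∀ i, D.V i = S.V i) (res_eq : ∀ i x, D.res i x = S.res i x)
    (hhor : ∀ x, x ∈ S.hor ↔ x ∈ H36.chart K t)
    (hhorD : ∀ x, x ∈ D.hor ↔ x ∈ H36.chart K t⁻¹)
    (hB : ∀ x ∈ S.B, x ∈ H36.chart O t) (hDB : ∀ x ∈ D.B, x ∈ H36.chart O t⁻¹)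
    (htr : ∀ i, Transcendental k (S.res i t)) : CoreHyp S O π D t := by
  have ht0 : t ≠ 0 := by
    rintro rfl
    exact ht isAlgebraic_zero
  have htV : ∀ i, S.res i t ≠ 0 := by
    intro i h
    have := htr i
    rw [h] at this
    exact this isAlgebraic_zero
  have hSB : S.B = H36.chart O t := le_antisymm hB
    (fun x hx => H36.chart_le_B H.cS hhor (fun i => res_mul_ne (htV i)) hx)
  have hDB' : D.B = H36.chart O t⁻¹ := le_antisymm hDB
    (fun x hx => H36.chart_le_B cD hhorD (fun i => by rw [← y_eq]; exact D.y_V i) hx)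
  haveI : FiniteDimensional K⟮t⁻¹⟯ F := by rw [H36.adjoin_inv]; infer_instance
  have hfracD := frac_of_chart (O := O) (S := D.toCompSys) (t := t⁻¹)
    (H36.transcendental_inv ht) hDB'
  refine
    { hyp := H
      cusp :=
        { cD := cD
          hB := by rw [y_eq]; exact hDB'
          frac := hfracD
          fracC := fun i x hx => fracC_of H.aS ht y_eq V_eq res_eq hhor hhorD hDB' i x hx }
      trans := ht
      fin := hfin
      y_eq := y_eq
      V_eq := V_eq
      res_eq := res_eq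
      B_eq := hSB
      gs_eq := H36.mem_gs_iff_V H.cS ht hhor hB htr
      transfer := ?_ }
  intro n hn hq hy
  refine exists_transfer (S := S.toCompSys) (D := D.toCompSys) hO H.cS cD ht0 hSB hDB' n hn hq ?_
  intro z hz hzn
  apply hy
  have : D.yB = z := Subtype.ext (by
    show D.y = (z : F)
    rw [hz, y_eq])
  rw [this]
  exact hzn

end cons

end Fermat.Agent.H83
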