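import Fermat.Agent.H99Three7

/-!
# CARAYOL C4, part 8: the final constructors
-/

set_option autoImplicit false
set_option linter.unusedSectionVars false

noncomputable section

open ModularCurve Polynomial IntermediateField AlgebraicCurve Module Fermat.Agent.H60
  Fermat.Agent.H66 Fermat.Agent.H42

namespace Fermat.Agent.H99

variable {K K' k : Type*} [Field K] [Field K'] [Algebra K K'] [Field k]
  {A : ValuationSubring K} {π : A →+* k} {A' : ValuationSubring K'} {π' : A' →+* k} {q : ℕ}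
variable [Algebra ℚ K] [Algebra ℚ K'] [CharZero K'] [hL : Fact (HasRoots K')]
variable {m : ℕ} [NeZero m] [NeZero q] [hq : Fact q.Prime] (hqm : ¬ q ∣ m)
variable {w : AL K m q} (w' : AL K' m q) (w₂ : AL2 K m q w) (w₂' : AL2 K' m q w')
variable (D : RamData A π A' π' q) (hG : D.Gal)
variable [CharP k q] [CharZero K] [IsAlgClosed k] [IsDiscreteValuationRing A]
variable (R : H83.ResData k (LaurentSeries k) q) {c : ℕ} (hc : c = 4 ∨ c = 9) (hcm : c ∣ m)
  (ι : K →+* ℂ) (hπ : Function.Surjective π)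
  (hRC : ∀ x, x ∈ R.C ↔ x ∈ H18.Cm k m) (hRX : R.X = H1.Xc c k)
  (hRD : ∀ x, R.D x = H61.theta x / H61.theta (H1.Xc c k)) (hlift : H68.LiftK K m A π)
  (hRΦ : ∀ x, R.Φ x = qExpand k q x)

/-- the two-component data -/
abbrev twoX (w : AL K m q) (D : RamData A π A' π' q) : H83.TwoData R (FX K (m * q)) :=
  H68.twoData hc hcm w D.unif R ι hπ hqm hRC hRX hRD hlift

include hRΦ in
theorem twoX_spec : TwoSpec (twoX hqm R hc hcm ι hπ hRC hRX hRD hlift w D) w π (H1.Xc c ℤ) :=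
  twoSpec_twoData hc hcm w D.unif R ι hπ hqm hRC hRX hRD hlift hRΦ

include hRΦ hRX in
theorem resData_φ : ∀ x, R.φ x = coeffMap (frobenius k q) x := by
  intro x
  apply R.Φ.injective
  rw [← R.pow_q, hRΦ, ← laurent_pow_char q x]

include hRΦ hRX in
theorem resData_φ_X : R.φ R.X = R.X :=
  H16.Ch.φ_X (resData_φ R hRX hRΦ) hRX

include hRC hRX hRD hRΦ hlift hπ hc hcm ι in
theorem noeth_X : IsNoetherianRing (threeSys hq.out hqm w' w₂ D).B :=
  isNoetherianRing_B hq.out hqm w' w₂ D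
    (twoX_spec (w := w) hqm D R hc hcm ι hπ hRC hRX hRD hlift hRΦ) (hϖ := D.unif) rfl hRC
    (resData_φ_X R hRX hRΦ)

/-- **The three-component data of `X_0(m q²)`.** -/
abbrev threeX : H83.ThreeData (twoX hqm R hc hcm ι hπ hRC hRX hRD hlift w D)
    (FX K (m * q * q)) :=
  threeData hq.out hqm w' w₂ w₂' D hG
    (twoX_spec (w := w) hqm D R hc hcm ι hπ hRC hRX hRD hlift hRΦ)
    (noeth_X hqm w' w₂ D R hc hcm ι hπ hRC hRX hRD hlift hRΦ)

theorem threeX_hyp :
    (threeX hqm w' w₂ w₂' D hG R hc hcm ι hπ hRC hRX hRD hlift hRΦ).Hyp A π :=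
  threeData_hyp hq.out hqm w' w₂ w₂' D hG
    (twoX_spec (w := w) hqm D R hc hcm ι hπ hRC hRX hRD hlift hRΦ) rfl
    (noeth_X hqm w' w₂ D R hc hcm ι hπ hRC hRX hRD hlift hRΦ)

end Fermat.Agent.H99

end
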