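import Mathlib
import Fermat.Agent.H24CuspInst
import Fermat.Agent.H99Three8
import Fermat.Agent.H67Eps
import Fermat.Agent.H83Inst2
import Fermat.Agent.H83Core

/-!
# The cusp chart and the core hypotheses for `X_0(q² m)` (CARAYOL C5, C9)
-/

set_option autoImplicit false
set_option linter.unusedSectionVars false

noncomputable section

open Polynomial ModularCurve IntermediateField Fermat.Agent.H83 Fermat.Agent.H83.CompSys
  Fermat.Agent.H99 Fermat.Agent.H66

namespace Fermat.Agent.H24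

variable {K K' k : Type*} [Field K] [Field K'] [Algebra K K'] [Field k]
  {A : ValuationSubring K} {π : A →+* k} {A' : ValuationSubring K'} {π' : A' →+* k} {q : ℕ}
variable [Algebra ℚ K] [Algebra ℚ K'] [CharZero K'] [hL : Fact (HasRoots K')]
variable {m : ℕ} [NeZero m] [NeZero q] [hq : Fact q.Prime] (hqm : ¬ q ∣ m)
variable {w : AL K m q} (w' : AL K' m q) (w₂ : AL2 K m q w) (w₂' : AL2 K' m q w')
variable (D : RamData A π A' π' q) (hG : D.Gal)
variable [CharP k q] [CharZero K] [IsAlgClosed k] [IsDiscreteValuationRing A]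
variable (R : H83.ResData k (LaurentSeries k) q) {c : ℕ} (hc : c = 4 ∨ c = 9) (hcm : c ∣ m)
  (ι : K →+* ℂ) (hπ : Function.Surjective π)
  (hRC : ∀ x, x ∈ R.C ↔ x ∈ H18.Cm k m) (hRX : R.X = H1.Xc c k)
  (hRD : ∀ x, R.D x = H61.theta x / H61.theta (H1.Xc c k)) (hlift : H68.LiftK K m A π)
  (hRΦ : ∀ x, R.Φ x = qExpand k q x)

/-- **The series hypotheses hold for `threeX`** -/
theorem seriesHyp_threeX :
    SeriesHyp A π (threeX hqm w' w₂ w₂' D hG R hc hcm ι hπ hRC hRX hRD hlift hRΦ) w where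
  TV0 _ := Iff.rfl
  Tres0 x := H68.twoSys_res w D.unif 0 x
  TW _ := rfl
  RΦ := hRΦ
  RC := SetLike.ext hRC
  α_eq _ := rfl
  β_eq _ := rfl
  hor _ := Iff.rfl
  cons := (threeX_hyp hqm w' w₂ w₂' D hG R hc hcm ι hπ hRC hRX hRD hlift hRΦ).cS
  w_pow_res := by
    have h := (H67.eps_inv_j hq.out hqm w' w₂ D (Jf := jX K (m * q)) (by rw [coe_jX, J_one])).2
    rw [H68.thetaL_eq, ← h]
    rw [map_inv₀, map_inv₀, map_inv₀]
    rfl

local notation "SX" => threeX hqm w' w₂ w₂' D hG R hc hcm ι hπ hRC hRX hRD hlift hRΦ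

local notation "hSX" => seriesHyp_threeX hqm w' w₂ w₂' D hG R hc hcm ι hπ hRC hRX hRD hlift hRΦ

/-- the chart rings are integral closures, and noetherian -/
theorem chartX_inv : (chart2 SX).comp.B = H36.chart A ((SX).α (jX K (m * q)))⁻¹ ∧
    IsNoetherianRing (chart2 SX).comp.B :=
  (hSX).chart2_B D.unif (H16.Ch.prime_of_unif D.unif) hqm (resData_φ_X R hRX hRΦ)
    (H68.finrank_jF (H99.degreeFact K) (m * q * q)) (H16.Ch.transcendental_jF K (m * q * q))

theorem chartX : (SX).toCompSys.B = H36.chart A ((SX).α (jX K (m * q))) ∧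
    IsNoetherianRing (SX).toCompSys.B := by
  have hP : H16.Ch.PreThree (twoX hqm R hc hcm ι hπ hRC hRX hRD hlift w D) (SX).toCompSys
    (SX).α (SX).β := H16.Ch.PreThree.of_threeData (SX) _ rfl (fun _ _ => rfl) rfl
  refine hP.isNoetherianRing_B_chart (K := K) (resData_φ_X R hRX hRΦ) ((hSX).jData D.unif)
    (H16.Ch.prime_of_unif D.unif) (m := m) ?_ hqm (SetLike.ext hRC) ?_ ?_ _ (Or.inl rfl) ?_
  · rw [Ne, CharP.cast_eq_zero_iff k q]
    exact hqm
  · rw [(hSX).α_jX]; exact H68.finrank_jF (H99.degreeFact K) (m * q * q)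
  · rw [(hSX).α_jX]; exact H16.Ch.transcendental_jF K (m * q * q)
  · ext x
    exact (hSX).hor_iff x

/-- the cusp system of `threeX` -/
def sysX (hLinv : LiftInv A π m) : CuspSys k (FX K (m * q * q)) (LaurentSeries k) q :=
  ((hSX).cuspData A π hπ hqm hLinv (chartX_inv hqm w' w₂ w₂' D hG R hc hcm ι hπ hRC hRX hRD hlift hRΦ).1
    (chartX_inv hqm w' w₂ w₂' D hG R hc hcm ι hπ hRC hRX hRD hlift hRΦ).2).sys

theorem transc_sres (i : Fin 3) : Transcendental k ((SX).res i ((SX).α (jX K (m * q)))) := by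
  have htr := H42.transcendental_jqModC k
  have h0 : i = 0 ∨ i = 1 ∨ i = 2 := by fin_cases i <;> simp
  rcases h0 with rfl | rfl | rfl
  · rw [(SX).α_res0, (hSX).Tres0_jX]
    exact htr
  · rw [(SX).α_res1, (hSX).Tres0_jX]
    exact htr
  · rw [(SX).α_res2, (twoX hqm R hc hcm ι hπ hRC hRX hRD hlift w D).W_res, (hSX).Tres0_W_jX,
      map_pow, hRΦ, (hSX).qExpand_jqModC, ← pow_mul]
    exact H68.transcendental_pow htr (Nat.mul_pos hq.out.pos hq.out.pos)

/-- **The core hypotheses of helper83 hold for `X_0(q²m)`.** -/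
theorem coreHypX (hLinv : LiftInv A π m) {d : ℕ} (hO : BaseHyp A π q d) :
    CoreHyp (SX) A π (sysX hqm w' w₂ w₂' D hG R hc hcm ι hπ hRC hRX hRD hlift hRΦ hLinv)
      ((SX).α (jX K (m * q))) := by
  refine CoreHyp.of hO (threeX_hyp hqm w' w₂ w₂' D hG R hc hcm ι hπ hRC hRX hRD hlift hRΦ)
    ((hSX).sys_consts hπ hqm hLinv _ _) ?_ ?_ rfl (fun _ => rfl) (fun _ _ => rfl) (hSX).hor_iff
    (fun _ => Iff.rfl) (fun x hx => ?_) (fun x hx => ?_)
    (transc_sres hqm w' w₂ w₂' D hG R hc hcm ι hπ hRC hRX hRD hlift hRΦ)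
  · rw [(hSX).α_jX]
    exact H16.Ch.transcendental_jF K (m * q * q)
  · rw [(hSX).α_jX]
    exact H68.finiteDimensional_jF (H99.degreeFact K) (m * q * q)
  · rw [← (chartX hqm w' w₂ w₂' D hG R hc hcm ι hπ hRC hRX hRD hlift hRΦ).1]
    exact hx
  · rw [← (chartX_inv hqm w' w₂ w₂' D hG R hc hcm ι hπ hRC hRX hRD hlift hRΦ).1]
    exact hx

/-- the power series `1/j` over a field -/
def invJ (K : Type*) [Field K] : PowerSeries K :=
  PowerSeries.X * (jNum.map (Int.castRingHom K))⁻¹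

theorem constantCoeff_jNum_map (K : Type*) [Field K] :
    PowerSeries.constantCoeff (jNum.map (Int.castRingHom K)) = 1 := by
  rw [← PowerSeries.coeff_zero_eq_constantCoeff_apply, PowerSeries.coeff_map]
  simp [constantCoeff_jNum]

theorem coe_invJ (K : Type*) [Field K] : (jqModC K)⁻¹ = (invJ K : LaurentSeries K) := by
  apply inv_eq_of_mul_eq_one_right
  have h1 : jqModC K = HahnSeries.single (-1 : ℤ) (1 : K) *
      HahnSeries.ofPowerSeries ℤ K (jNum.map (Int.castRingHom K)) := rfl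
  have h2 : PowerSeries.constantCoeff (jNum.map (Int.castRingHom K)) ≠ 0 := by
    rw [constantCoeff_jNum_map]
    exact one_ne_zero
  have h3 : (invJ K : LaurentSeries K) = HahnSeries.single (1 : ℤ) (1 : K) *
      HahnSeries.ofPowerSeries ℤ K (jNum.map (Int.castRingHom K))⁻¹ := by
    rw [invJ]
    show HahnSeries.ofPowerSeries ℤ K _ = _
    rw [map_mul, HahnSeries.ofPowerSeries_X]
  rw [h1, h3, mul_mul_mul_comm, HahnSeries.single_mul_single, ← map_mul,
    PowerSeries.mul_inv_cancel _ h2]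
  simp

/-- the rational cusp `∞` -/
def ratPointX : H36.RatPoint K ((SX).α (jX K (m * q)))⁻¹ where
  e := ((FX K (m * q * q)).val : FX K (m * q * q) →+* LaurentSeries K)
  he c := by
    show algebraMap K (LaurentSeries K) c = _
    rw [algebraMap_laurentSeries_eq_single]
    rfl
  P := invJ K
  hP := by
    rw [← coe_invJ, (hSX).α_jX, map_inv₀]
    show (J K 1)⁻¹ = _
    rw [J_one]
  hP0 := by simp [invJ]
  hP1 := by
    rw [invJ, show (1 : ℕ) = 0 + 1 from rfl, PowerSeries.coeff_succ_X_mul]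
    simp [constantCoeff_jNum_map]

/-- **The core statement over `K`.** -/
theorem coreX (hLinv : LiftInv A π m) {d : ℕ} (hO : BaseHyp A π q d)
    (hirr : Irreducible (q : A)) {ζ : A} (hζ : IsPrimitiveRoot ζ d) {f : FX K (m * q * q)}
    (hf : f ≠ 0) (hord : ∀ P : AlgebraicCurve.Place K (FX K (m * q * q)), (d : ℤ) ∣ P.ord f)
    {c₁ c₂ : K} (hc₁ : c₁ ≠ 0) (hc₂ : c₂ ≠ 0) {g₁ g₂ : FX K (m * q)} (hg₁ : g₁ ≠ 0)
    (hg₂ : g₂ ≠ 0) (hα : (SX).Nα f = algebraMap K _ c₁ * g₁ ^ d)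
    (hβ : (SX).Nβ f = algebraMap K _ c₂ * g₂ ^ d) :
    ∃ (c₃ : K) (g₃ : FX K (m * q * q)), c₃ ≠ 0 ∧ g₃ ≠ 0 ∧
      f ^ ((q + 1) * (q - 1) * (q * q - 1)) = algebraMap K _ c₃ * g₃ ^ d :=
  CoreHyp.core hO (coreHypX hqm w' w₂ w₂' D hG R hc hcm ι hπ hRC hRX hRD hlift hRΦ hLinv hO)
    (ratPointX hqm w' w₂ w₂' D hG R hc hcm ι hπ hRC hRX hRD hlift hRΦ) hirr hζ hf hord hc₁ hc₂ hg₁
    hg₂ hα hβ

end Fermat.Agent.H24
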