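import Fermat.Agent.H68TwoHyp
import Fermat.Agent.H18C2
import Fermat.Agent.H18LiftKK

/-!
# CARAYOL C3: the residue data and the lifting property over `K`
-/

set_option autoImplicit false
set_option linter.unusedSectionVars false

noncomputable section

open Polynomial ModularCurve Fermat.Agent.H99 Fermat.Agent.H66 IntermediateField
open Fermat.Agent.H61 (theta)

namespace Fermat.Agent.H68

section ModRed

variable {L : Type*} [Field L] [Algebra ℚ L] (A : ValuationSubring L) {k : Type*} [Field k]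
  (π : A →+* k) [IsLocalHom π] (N : ℕ) (hπ : Function.Surjective π) (hdeg : H42.DegLE L k N)

/-- The reduction of helper42 is the Gauss residue. -/
theorem modRed_gres (b : (H42.modReductionData A π N hπ hdeg).B) :
    ((b : FX L N) : LaurentSeries L) ∈ GR A π ∧
    gres A π ((b : FX L N) : LaurentSeries L) =
      (((H42.modReductionData A π N hπ hdeg).ρ b : modularFunctionFieldFullC k N) :
        LaurentSeries k) := by
  obtain ⟨y, z, hz, h⟩ := b.2
  obtain ⟨yA, hy⟩ := (H42.mem_modGauss_B A π N hπ hdeg).1 y.2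
  obtain ⟨zA, hz'⟩ := (H42.mem_modGauss_B A π N hπ hdeg).1 z.2
  have key : ∀ (x : (H42.modGauss A π N hπ hdeg).B) (xA : LaurentSeries A)
      (_ : coeffMap A.subtype xA = ((x : FX L N) : LaurentSeries L)),
      (((H42.modGauss A π N hπ hdeg).ρ x : modularFunctionFieldFullC k N) : LaurentSeries k) =
        coeffMap π xA := by
    rintro ⟨⟨x, hxF⟩, hxB⟩ xA rfl
    exact H42.coe_modGauss_ρ A π N hπ hdeg xA hxF
  have e1 := key y yA hy
  have e2 := key z zA hz'
  have hz2 : coeffMap π zA ≠ 0 := by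
    rw [← e2]
    intro h0
    exact hz (Subtype.ext h0)
  have h2 : ((b : FX L N) : LaurentSeries L) * coeffMap A.subtype zA = coeffMap A.subtype yA := by
    rw [hy, hz', ← h]
    rfl
  refine ⟨gr_mem_iff.2 ⟨yA, zA, hz2, h2⟩, ?_⟩
  apply mul_right_cancel₀ hz2
  rw [gres_mul_eq hz2 h2, ← e1, ← e2]
  have h3 := (H42.modGauss A π N hπ hdeg).res_mul_eq b hz h
  exact (congrArg Subtype.val h3).symm

end ModRed

section XInt

theorem isIntegral_Xc (K : Type*) [Field K] {c : ℕ} (hc : c = 4 ∨ c = 9) :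
    IsIntegral (Algebra.adjoin K {jqModC K}) (H1.Xc c K) := by
  let j : Algebra.adjoin K {jqModC K} := ⟨jqModC K, Algebra.self_mem_adjoin_singleton K _⟩
  have hj : algebraMap (Algebra.adjoin K {jqModC K}) (LaurentSeries K) j = jqModC K := rfl
  rcases hc with rfl | rfl
  · rw [H1.Xc_four]
    refine ⟨(X ^ 2 + 256 * X + 4096) ^ 3 - C j * (X ^ 4 * (X + 16)), by monicity!, ?_⟩
    simp only [eval₂_sub, eval₂_mul, eval₂_pow, eval₂_add, eval₂_X, eval₂_ofNat, eval₂_C, hj]
    rw [H1.X4_j]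
    exact sub_self _
  · rw [H1.Xc_nine]
    refine ⟨(X + 9) ^ 3 * (X ^ 3 + 243 * X ^ 2 + 2187 * X + 6561) ^ 3 -
      C j * (X ^ 9 * (X ^ 2 + 9 * X + 27)), by monicity!, ?_⟩
    simp only [eval₂_sub, eval₂_mul, eval₂_pow, eval₂_add, eval₂_X, eval₂_ofNat, eval₂_C, hj]
    rw [H1.X9_j]
    exact sub_self _

theorem Xc_mem_Cm (k : Type*) [Field k] [IsAlgClosed k] {c m : ℕ} (hc : c = 4 ∨ c = 9)
    (hcm : c ∣ m) (hm : (m : k) ≠ 0) : H1.Xc c k ∈ H18.Cm k m := by
  have hm0 : m ≠ 0 := by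
    rintro rfl
    exact hm Nat.cast_zero
  have hck : (c : k) ≠ 0 := by
    intro h0
    obtain ⟨d, rfl⟩ := hcm
    exact hm (by rw [Nat.cast_mul, h0, zero_mul])
  exact ⟨H1.Xc_mem_full k hc hm0 hcm hck, isIntegral_Xc k hc⟩

end XInt

section Res

theorem thetaL_eq' (R : Type*) [CommRing R] (f : LaurentSeries R) : H1.thetaL R f = theta f := by
  ext n
  rw [H1.thetaL_coeff, H61.coeff_theta]

variable {L : Type*} [Field L] [Algebra ℚ L] [IsAlgClosed L] (A : ValuationSubring L)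
  {k : Type*} [Field k] [IsAlgClosed k] (π : A →+* k) [IsLocalHom π] {m : ℕ} [NeZero m]
  (hπ : Function.Surjective π) (hm : (m : k) ≠ 0) {c : ℕ} (hc : c = 4 ∨ c = 9) (hcm : c ∣ m)

include hπ hm hc hcm in
/-- `d/dX` preserves the coordinate ring of the special fibre. -/
theorem ddX_mem_Cm (ι : L →+* ℂ) (hg : H18.GenusFFEq L k m) {x : LaurentSeries k}
    (hx : x ∈ H18.Cm k m) : theta x / theta (H1.Xc c k) ∈ H18.Cm k m := by
  have : CharZero L := algebraRat.charZero L
  have hdeg : H42.DegLE L k m := H88.degLE m hm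
  have h := H18.derX_mem_Cm A π m hπ hdeg hm hg (XA := H1.Xc c A) (u := H1.thInv c A)
    (by rw [← thetaL_eq', H1.thInv_mul_theta])
    (fun f hf => by
      rw [H1.coeffMap_Xc]
      exact ddXs_mem L c m hc hcm ⟨f, hf⟩)
    (fun f hf hfi => by
      rw [H1.coeffMap_Xc, ← dX_eq, H1.intJ_iff]
      rw [H1.intJ_iff] at hfi
      exact H1.dX_intJ ι hc hcm hf hfi) hx
  rwa [H1.coeffMap_Xc] at h

/-- **The residue data of `X_0(m)`** with the coordinate `X` of level `c ∣ m`. -/
def resDataX (q : ℕ) [Fact q.Prime] [CharP k q] (ι : L →+* ℂ) (hg : H18.GenusFFEq L k m) :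
    H83.ResData k (LaurentSeries k) q :=
  H18.resData k q m hm (H1.Xc c k) (Xc_mem_Cm k hc hcm hm) (theta_Xc_ne_zero c k)
    (fun _ hx => ddX_mem_Cm A π hπ hm hc hcm ι hg hx)

theorem resDataX_C (q : ℕ) [Fact q.Prime] [CharP k q] (ι : L →+* ℂ) (hg : H18.GenusFFEq L k m)
    (x : LaurentSeries k) :
    x ∈ (resDataX A π hπ hm hc hcm q ι hg).C ↔ x ∈ H18.Cm k m := Iff.rfl

theorem resDataX_X (q : ℕ) [Fact q.Prime] [CharP k q] (ι : L →+* ℂ) (hg : H18.GenusFFEq L k m) :
    (resDataX A π hπ hm hc hcm q ι hg).X = H1.Xc c k := rfl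

theorem resDataX_D (q : ℕ) [Fact q.Prime] [CharP k q] (ι : L →+* ℂ) (hg : H18.GenusFFEq L k m)
    (x : LaurentSeries k) :
    (resDataX A π hπ hm hc hcm q ι hg).D x = theta x / theta (H1.Xc c k) := rfl

end Res

section Lift

variable {K L : Type*} [Field K] [Field L] [Algebra ℚ K] [Algebra ℚ L] [Algebra K L]
  (AK : ValuationSubring K) (AL : ValuationSubring L)
  {k : Type*} [Field k] (πK : AK →+* k) (πL : AL →+* k) (iA : AK →+* AL)
  (hiA : ∀ a, ((iA a : AL) : L) = algebraMap K L a) (hπ : πK = πL.comp iA) (m : ℕ)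
  (hπK : Function.Surjective πK) (hπL : Function.Surjective πL)
  [IsAlgClosed L] [IsAlgClosed k] [IsLocalHom πK] [IsLocalHom πL]
  [Algebra.IsAlgebraic K L] (hm : (m : k) ≠ 0)
  (hfix : ∀ z : L, (∀ σ : L ≃ₐ[K] L, σ z = z) → ∃ a : K, algebraMap K L a = z)

include hiA hπ hπK hπL hm hfix in
/-- **The lifting property over `K`.** -/
theorem liftK (hg : H18.GenusFFEq L k m) : LiftK K m AK πK := by
  have : CharZero K := algebraRat.charZero K
  intro x hx
  have hdK : H42.DegLE K k m := H18.degLE_of_charZero K m hm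
  obtain ⟨b, hb, hint⟩ := H18.lift_Cm_K AK AL πK πL iA hiA hπ m hπK hπL hdK hm hfix hg hx
  have h := modRed_gres AK πK m hπK hdK b
  exact ⟨b, hint, h.1, h.2.trans hb⟩

end Lift

end Fermat.Agent.H68
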