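import Mathlib
import Fermat.Prelude.Def_AlgebraicCurve_DivisorClassGroup
import Fermat.Prelude.Def_ModularCurve_ArithmeticGalois

/-!
# The `q`-adic place of a field of Laurent series (helper1)
-/

set_option autoImplicit false

noncomputable section

open AlgebraicCurve IntermediateField ModularCurve

namespace Fermat.Agent.H1

section QPlace

variable {K : Type*} [Field K] (F : IntermediateField K (LaurentSeries K))

theorem order_algebraMap_laurent (c : K) :
    (algebraMap K (LaurentSeries K) c).order = 0 := by
  by_cases hc : c = 0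
  · rw [hc, map_zero, HahnSeries.order_zero]
  · rw [algebraMap_laurentSeries_eq_single, HahnSeries.order_single hc]

theorem order_inv_laurent (f : LaurentSeries K) : f⁻¹.order = - f.order := by
  by_cases hf : f = 0
  · simp [hf]
  · have h1 := HahnSeries.order_mul hf (inv_ne_zero hf)
    rw [mul_inv_cancel₀ hf, HahnSeries.order_one] at h1
    omega

theorem order_pow_laurent (f : LaurentSeries K) (n : ℕ) : (f ^ n).order = n * f.order := by
  by_cases hf : f = 0
  · rcases Nat.eq_zero_or_pos n with rfl | hn
    · simp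
    · rw [hf, zero_pow hn.ne', HahnSeries.order_zero, mul_zero]
  · induction n with
    | zero => simp
    | succ n ih => rw [pow_succ, HahnSeries.order_mul (pow_ne_zero n hf) hf, ih]; push_cast; ring

/-- the valuation ring of the `q`-adic place -/
def qRing : ValuationSubring F where
  carrier := {f | 0 ≤ (f : LaurentSeries K).order}
  mul_mem' := by
    intro a b ha hb
    by_cases ha0 : (a : LaurentSeries K) = 0
    · show 0 ≤ ((a * b : F) : LaurentSeries K).order
      rw [IntermediateField.coe_mul, ha0, zero_mul, HahnSeries.order_zero]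
    by_cases hb0 : (b : LaurentSeries K) = 0
    · show 0 ≤ ((a * b : F) : LaurentSeries K).order
      rw [IntermediateField.coe_mul, hb0, mul_zero, HahnSeries.order_zero]
    show 0 ≤ ((a * b : F) : LaurentSeries K).order
    rw [IntermediateField.coe_mul, HahnSeries.order_mul ha0 hb0]
    exact add_nonneg ha hb
  one_mem' := by
    show 0 ≤ ((1 : F) : LaurentSeries K).order
    rw [IntermediateField.coe_one, HahnSeries.order_one]
  add_mem' := by
    intro a b ha hb
    show 0 ≤ ((a + b : F) : LaurentSeries K).order
    rw [IntermediateField.coe_add]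
    by_cases h0 : (a : LaurentSeries K) + b = 0
    · rw [h0, HahnSeries.order_zero]
    · exact (le_min ha hb).trans (HahnSeries.min_order_le_order_add h0)
  zero_mem' := by
    show 0 ≤ ((0 : F) : LaurentSeries K).order
    rw [IntermediateField.coe_zero, HahnSeries.order_zero]
  neg_mem' := by
    intro a ha
    show 0 ≤ ((-a : F) : LaurentSeries K).order
    rw [IntermediateField.coe_neg, HahnSeries.order_neg]
    exact ha
  mem_or_inv_mem' := by
    intro a
    rcases le_total 0 (a : LaurentSeries K).order with h | h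
    · exact Or.inl h
    · right
      show 0 ≤ ((a⁻¹ : F) : LaurentSeries K).order
      rw [IntermediateField.coe_inv, order_inv_laurent]
      omega

variable {F}

theorem mem_qRing_iff {f : F} : f ∈ qRing F ↔ 0 ≤ (f : LaurentSeries K).order := Iff.rfl

theorem isUnit_qRing_iff {f : qRing F} :
    IsUnit f ↔ f ≠ 0 ∧ ((f : F) : LaurentSeries K).order = 0 := by
  constructor
  · rintro ⟨u, rfl⟩
    refine ⟨u.ne_zero, le_antisymm ?_ (u : qRing F).2⟩
    have h1 : ((u⁻¹ : (qRing F)ˣ) : qRing F).1 = ((u : qRing F) : F)⁻¹ := by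
      have h2 : ((u : qRing F) : F) * ((u⁻¹ : (qRing F)ˣ) : qRing F).1 = 1 :=
        congrArg Subtype.val (Units.mul_inv u)
      exact (inv_eq_of_mul_eq_one_right h2).symm
    have h3 : 0 ≤ ((((u⁻¹ : (qRing F)ˣ) : qRing F) : F) : LaurentSeries K).order :=
      ((u⁻¹ : (qRing F)ˣ) : qRing F).2
    rw [h1, IntermediateField.coe_inv, order_inv_laurent] at h3
    omega
  · rintro ⟨h0, h1⟩
    have hf0 : (f : F) ≠ 0 := fun h => h0 (Subtype.ext h)
    have h2 : (f : F)⁻¹ ∈ qRing F := by
      rw [mem_qRing_iff, IntermediateField.coe_inv, order_inv_laurent, h1, neg_zero]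
    exact IsUnit.of_mul_eq_one ⟨(f : F)⁻¹, h2⟩ (Subtype.ext (mul_inv_cancel₀ hf0))

theorem irreducible_qRing {t : qRing F} (ht : ((t : F) : LaurentSeries K).order = 1) :
    Irreducible t := by
  have ht0 : t ≠ 0 := by
    rintro rfl
    simp at ht
  refine ⟨fun h => ?_, fun a b hab => ?_⟩
  · have := (isUnit_qRing_iff.mp h).2
    omega
  · have ha0 : a ≠ 0 := by
      rintro rfl
      exact ht0 (by rw [hab, zero_mul])
    have hb0 : b ≠ 0 := by
      rintro rfl
      exact ht0 (by rw [hab, mul_zero])
    have h1 : ((a : F) : LaurentSeries K).order + ((b : F) : LaurentSeries K).order = 1 := by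
      rw [← HahnSeries.order_mul, ← ht, hab]
      · rfl
      · exact fun h => ha0 (Subtype.ext (Subtype.ext h))
      · exact fun h => hb0 (Subtype.ext (Subtype.ext h))
    have ha : 0 ≤ ((a : F) : LaurentSeries K).order := a.2
    have hb : 0 ≤ ((b : F) : LaurentSeries K).order := b.2
    rw [isUnit_qRing_iff, isUnit_qRing_iff]
    rcases Int.le_iff_lt_or_eq.mp ha with h | h
    · right
      exact ⟨hb0, by omega⟩
    · left
      exact ⟨ha0, h.symm⟩

theorem isDVR_qRing {t : F} (ht : (t : LaurentSeries K).order = 1) :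
    IsDiscreteValuationRing (qRing F) := by
  have htm : t ∈ qRing F := by rw [mem_qRing_iff, ht]; omega
  have ht0 : t ≠ 0 := by
    rintro rfl
    simp at ht
  have hirr := irreducible_qRing (t := ⟨t, htm⟩) ht
  refine IsDiscreteValuationRing.ofHasUnitMulPowIrreducibleFactorization
    ⟨⟨t, htm⟩, hirr, fun {f} hf => ?_⟩
  obtain ⟨n, hn⟩ := Int.eq_ofNat_of_zero_le (show 0 ≤ ((f : F) : LaurentSeries K).order from f.2)
  have hf0 : (f : F) ≠ 0 := fun h => hf (Subtype.ext h)
  have hord : (((f : F) * (t ^ n)⁻¹ : F) : LaurentSeries K).order = 0 := by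
    rw [IntermediateField.coe_mul, HahnSeries.order_mul, IntermediateField.coe_inv,
      order_inv_laurent, IntermediateField.coe_pow, order_pow_laurent, ht, hn]
    · ring
    · exact fun h => hf0 (Subtype.ext h)
    · exact fun h => inv_ne_zero (pow_ne_zero n ht0) (Subtype.ext h)
  have hmem : (f : F) * (t ^ n)⁻¹ ∈ qRing F := by rw [mem_qRing_iff, hord]
  have hu : IsUnit (⟨(f : F) * (t ^ n)⁻¹, hmem⟩ : qRing F) := by
    rw [isUnit_qRing_iff]
    refine ⟨fun h => ?_, hord⟩
    exact mul_ne_zero hf0 (inv_ne_zero (pow_ne_zero n ht0)) (congrArg Subtype.val h)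
  refine ⟨n, hu.unit, Subtype.ext ?_⟩
  show t ^ n * ((f : F) * (t ^ n)⁻¹) = f
  field_simp

/-- The `q`-adic place. -/
def qPlace (h : ∃ t : F, (t : LaurentSeries K).order = 1) : Place K F where
  toValuationSubring := qRing F
  algebraMap_mem' a := by
    rw [mem_qRing_iff]
    have : ((algebraMap K F a : F) : LaurentSeries K) = algebraMap K (LaurentSeries K) a := rfl
    rw [this, order_algebraMap_laurent]
  ne_top' := by
    intro htop
    obtain ⟨t, ht⟩ := h
    have h1 : t⁻¹ ∈ qRing F := by rw [htop]; exact ValuationSubring.mem_top _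
    rw [mem_qRing_iff, IntermediateField.coe_inv, order_inv_laurent, ht] at h1
    omega
  isPrincipalIdealRing' := by
    obtain ⟨t, ht⟩ := h
    have := isDVR_qRing ht
    infer_instance

theorem qPlace_ord (h : ∃ t : F, (t : LaurentSeries K).order = 1) (f : F) :
    (qPlace h).ord f = (f : LaurentSeries K).order := by
  by_cases hf : f = 0
  · rw [hf, Place.ord_zero, IntermediateField.coe_zero, HahnSeries.order_zero]
  obtain ⟨t, ht⟩ := id h
  have htm : t ∈ (qPlace h).toValuationSubring := by
    show t ∈ qRing F
    rw [mem_qRing_iff, ht]; omega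
  have ht0 : t ≠ 0 := by
    rintro rfl
    simp at ht
  have hirr : Irreducible (⟨t, htm⟩ : (qPlace h).toValuationSubring) :=
    irreducible_qRing (t := ⟨t, htm⟩) ht
  obtain ⟨u, hu⟩ := (qPlace h).exists_unit_mul_zpow hf hirr
  have h2 : (((u : (qPlace h).toValuationSubring) : F) : LaurentSeries K).order = 0 :=
    (isUnit_qRing_iff (f := (u : (qPlace h).toValuationSubring)).mp u.isUnit).2
  have h4 : ∀ n : ℤ, ((t ^ n : F) : LaurentSeries K).order = n := by
    intro n
    rcases Int.eq_nat_or_neg n with ⟨m, rfl | rfl⟩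
    · rw [zpow_natCast, IntermediateField.coe_pow, order_pow_laurent, ht, mul_one]
    · rw [zpow_neg, zpow_natCast, IntermediateField.coe_inv, order_inv_laurent,
        IntermediateField.coe_pow, order_pow_laurent, ht, mul_one]
  have h3 := congrArg (fun z : F => (z : LaurentSeries K).order) hu
  simp only at h3
  rw [IntermediateField.coe_mul, HahnSeries.order_mul, h2, zero_add] at h3
  · rw [h3]
    exact (h4 _).symm
  · intro h5
    have : (u : (qPlace h).toValuationSubring) = 0 := Subtype.ext (Subtype.ext h5)
    exact u.ne_zero this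
  · intro h5
    exact zpow_ne_zero _ ht0 (Subtype.ext h5)

end QPlace

section Galois

open scoped Pointwise

variable {L : Type*} [Field L] [Algebra ℚ L] (F₀ : IntermediateField ℚ (LaurentSeries ℚ))

theorem order_coeffMap {R S : Type*} [Field R] [Field S] (f : R →+* S) (x : LaurentSeries R) :
    (coeffMap f x).order = x.order := by
  by_cases hx : x = 0
  · rw [hx, map_zero, HahnSeries.order_zero, HahnSeries.order_zero]
  · have hne : ∀ n, (coeffMap f x).coeff n = 0 ↔ x.coeff n = 0 := by
      intro n
      rw [coeffMap_coeff, _root_.map_eq_zero]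
    have hx' : coeffMap f x ≠ 0 := by
      intro h
      apply hx
      ext n
      exact (hne n).mp (by rw [h]; rfl)
    apply le_antisymm
    · apply HahnSeries.order_le_of_coeff_ne_zero
      rw [ne_eq, hne, HahnSeries.coeff_order_eq_zero]
      exact hx
    · apply HahnSeries.order_le_of_coeff_ne_zero
      rw [ne_eq, ← hne, HahnSeries.coeff_order_eq_zero]
      exact hx'

/-- The `q`-adic place is fixed by the arithmetic Galois action. -/
theorem arithmeticGalois_smul_qPlace
    (h : ∃ t : laurentBaseChange L F₀, (t : LaurentSeries L).order = 1) (σ : L ≃ₐ[ℚ] L) :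
    arithmeticGalois F₀ σ • qPlace h = qPlace h := by
  apply Place.ext
  rw [SemilinearAut.smul_toValuationSubring]
  ext f
  rw [ValuationSubring.mem_pointwise_smul_iff_inv_smul_mem]
  show (arithmeticGalois F₀ σ)⁻¹ • f ∈ qRing _ ↔ f ∈ qRing _
  rw [← map_inv, mem_qRing_iff, mem_qRing_iff, coe_arithmeticGalois_smul, order_coeffMap]

end Galois

end Fermat.Agent.H1
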