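import Fermat.Agent.H1InvMod
import Fermat.Agent.H1QPlace

/-!
# S19-E: the inertia action on the modular function field (helper1)
-/

set_option autoImplicit false
set_option linter.unusedSectionVars false

noncomputable section

open Polynomial Module IntermediateField AlgebraicCurve ModularCurve

namespace Fermat.Agent.H1

open Fermat.Agent.H42

section RD

variable {K F k E : Type*} [Field K] [Field F] [Algebra K F] [Field k] [Field E] [Algebra k E]

/-- The fields of `H19.InertiaAction`, for reduction data. -/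
structure InertiaRD (S : H40.ReductionData K F k E) (Γ : Subgroup (SemilinearAut K F)) where
  smul_mem : ∀ γ ∈ Γ, ∀ b : S.B, γ • (b : F) ∈ S.B
  ρ_smul : ∀ (γ : SemilinearAut K F) (hγ : γ ∈ Γ) (b : S.B),
    S.ρ ⟨γ • (b : F), smul_mem γ hγ b⟩ = S.ρ b
  baseAut_mem : ∀ γ ∈ Γ, ∀ a ∈ S.A, SemilinearAut.baseAut γ a ∈ S.A
  exists_const : ∀ x : k, ∃ a : S.A, (∀ γ ∈ Γ, SemilinearAut.baseAut γ (a : K) = a) ∧ S.π a = x
  Pinf : Place K F
  smul_Pinf : ∀ γ ∈ Γ, γ • Pinf = Pinf
  exists_basis_fixed : ∀ V : Submodule K F, FiniteDimensional K V →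
    (∀ γ ∈ Γ, ∀ f ∈ V, γ • f ∈ V) →
    ∃ (n : ℕ) (b : Fin n → S.B), (∀ i, ∀ γ ∈ Γ, γ • (b i : F) = b i) ∧
      Submodule.span K (Set.range fun i => (b i : F)) = V ∧
      LinearIndependent k (fun i => S.ρ (b i))

/-- helper19's inertia action. -/
def InertiaRD.toInertiaAction {S : H19.GoodRed K F k E} {Γ : Subgroup (SemilinearAut K F)}
    (h : InertiaRD S.toReductionData Γ) : H19.InertiaAction S Γ where
  smul_mem := h.smul_mem
  ρ_smul := h.ρ_smul
  baseAut_mem := h.baseAut_mem
  exists_const := h.exists_const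
  Pinf := h.Pinf
  smul_Pinf := h.smul_Pinf
  exists_basis_fixed := h.exists_basis_fixed

theorem redRing_smul_mem_loc {L F k Fk : Type*} [Field L] [Field F] [Algebra L F] [Field k]
    [Field Fk] [Algebra k Fk] {A : ValuationSubring L} {π : A →+* k} (R : RedRing F Fk A π)
    (γ : SemilinearAut L F)
    (hγ : ∀ b : R.B, ∃ h : γ • (b : F) ∈ R.B, R.ρ ⟨_, h⟩ = R.ρ b) (b : R.loc) :
    ∃ h : γ • (b : F) ∈ R.loc, R.res ⟨_, h⟩ = R.res b := by
  obtain ⟨f, y, z, hz, h⟩ := b
  obtain ⟨hy', hρy⟩ := hγ y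
  obtain ⟨hz', hρz⟩ := hγ z
  have h1 : (γ • f) * ((⟨γ • (z : F), hz'⟩ : R.B) : F) = ((⟨γ • (y : F), hy'⟩ : R.B) : F) := by
    show (γ • f) * (γ • (z : F)) = γ • (y : F)
    rw [← smul_mul', h]
  have hz0 : R.ρ ⟨_, hz'⟩ ≠ 0 := by rw [hρz]; exact hz
  have hm : γ • f ∈ R.loc := ⟨_, _, hz0, h1⟩
  refine ⟨hm, ?_⟩
  have e1 := R.res_eq_div ⟨γ • f, hm⟩ hz0 h1
  have e2 := R.res_eq_div ⟨f, y, z, hz, h⟩ hz h
  rw [hρy, hρz] at e1
  exact e1.trans e2.symm

end RD

section Modular

variable {L : Type*} [Field L] [Algebra ℚ L] [Algebra.IsAlgebraic ℚ L] [IsAlgClosed L]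
  (A : ValuationSubring L) {ℓ : ℕ} [Fact ℓ.Prime] (hA : A.LiesOverPrime ℓ)
  {k : Type*} [Field k] (π : A →+* k) [IsLocalHom π] (N : ℕ)
  (hπ : Function.Surjective π) (hdeg : DegLE L k N)

/-- The inertia group, acting on the modular function field. -/
def inertiaΓ : Subgroup (SemilinearAut L (laurentBaseChange L (modularFunctionFieldFull N))) :=
  (A.inertiaSubgroupIn ℚ).map (arithmeticGalois (modularFunctionFieldFull N))

/-- An element of the inertia group restricted to `A`. -/
def inertiaA {σ : L ≃ₐ[ℚ] L} (hσ : σ ∈ A.inertiaSubgroupIn ℚ) : A →+* A :=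
  ((σ : L →+* L).comp A.subtype).codRestrict A (fun a => inertia_mem A hσ a)

theorem coeffMap_inertiaA {σ : L ≃ₐ[ℚ] L} (hσ : σ ∈ A.inertiaSubgroupIn ℚ) (y : LaurentSeries A) :
    coeffMap A.subtype (coeffMap (inertiaA A hσ) y) =
      coeffMap (σ : L →+* L) (coeffMap A.subtype y) := by
  rw [coeffMap_coeffMap, coeffMap_coeffMap]
  exact coeffMap_congr (RingHom.ext fun a => rfl) y

theorem coeffMap_π_inertiaA {σ : L ≃ₐ[ℚ] L} (hσ : σ ∈ A.inertiaSubgroupIn ℚ)
    (y : LaurentSeries A) : coeffMap π (coeffMap (inertiaA A hσ) y) = coeffMap π y := by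
  rw [coeffMap_coeffMap]
  exact coeffMap_congr (RingHom.ext fun a => π_inertia A π hσ a) y

theorem smul_mem_intB {σ : L ≃ₐ[ℚ] L} (hσ : σ ∈ A.inertiaSubgroupIn ℚ)
    (b : (modGauss A π N hπ hdeg).B) :
    ∃ h : arithmeticGalois (modularFunctionFieldFull N) σ •
        (b : laurentBaseChange L (modularFunctionFieldFull N)) ∈ (modGauss A π N hπ hdeg).B,
      (modGauss A π N hπ hdeg).ρ ⟨_, h⟩ = (modGauss A π N hπ hdeg).ρ b := by
  obtain ⟨⟨f, hf⟩, y, hyf⟩ := b
  obtain rfl : coeffMap A.subtype y = f := hyf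
  have h1 : ((arithmeticGalois (modularFunctionFieldFull N) σ •
      (⟨coeffMap A.subtype y, hf⟩ : laurentBaseChange L (modularFunctionFieldFull N)) :
        laurentBaseChange L (modularFunctionFieldFull N)) : LaurentSeries L) =
      coeffMap A.subtype (coeffMap (inertiaA A hσ) y) :=
    (coeffMap_inertiaA A hσ y).symm
  have hmem : coeffMap A.subtype (coeffMap (inertiaA A hσ) y) ∈
      laurentBaseChange L (modularFunctionFieldFull N) := by
    rw [← h1]
    exact Subtype.mem _
  have h2 : (arithmeticGalois (modularFunctionFieldFull N) σ •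
      (⟨coeffMap A.subtype y, hf⟩ : laurentBaseChange L (modularFunctionFieldFull N))) =
      ⟨coeffMap A.subtype (coeffMap (inertiaA A hσ) y), hmem⟩ := Subtype.ext h1
  have h3 : (arithmeticGalois (modularFunctionFieldFull N) σ •
      (⟨coeffMap A.subtype y, hf⟩ : laurentBaseChange L (modularFunctionFieldFull N))) ∈
      (modGauss A π N hπ hdeg).B := by
    rw [h2]
    exact ⟨_, rfl⟩
  refine ⟨h3, ?_⟩
  apply Subtype.ext
  have h4 : (⟨_, h3⟩ : (modGauss A π N hπ hdeg).B) =
      ⟨⟨coeffMap A.subtype (coeffMap (inertiaA A hσ) y), hmem⟩, ⟨_, rfl⟩⟩ := Subtype.ext h2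
  calc (((modGauss A π N hπ hdeg).ρ ⟨_, h3⟩ : modularFunctionFieldFullC k N) : LaurentSeries k)
      = (((modGauss A π N hπ hdeg).ρ
        ⟨⟨coeffMap A.subtype (coeffMap (inertiaA A hσ) y), hmem⟩, ⟨_, rfl⟩⟩ :
          modularFunctionFieldFullC k N) : LaurentSeries k) := by rw [h4]
    _ = coeffMap π (coeffMap (inertiaA A hσ) y) := coe_modGauss_ρ A π N hπ hdeg _ hmem
    _ = coeffMap π y := coeffMap_π_inertiaA A π hσ y
    _ = _ := (coe_modGauss_ρ A π N hπ hdeg y hf).symm

theorem smul_mem_loc {σ : L ≃ₐ[ℚ] L} (hσ : σ ∈ A.inertiaSubgroupIn ℚ)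
    (b : (modGauss A π N hπ hdeg).loc) :
    ∃ h : arithmeticGalois (modularFunctionFieldFull N) σ •
        (b : laurentBaseChange L (modularFunctionFieldFull N)) ∈ (modGauss A π N hπ hdeg).loc,
      (modGauss A π N hπ hdeg).res ⟨_, h⟩ = (modGauss A π N hπ hdeg).res b :=
  redRing_smul_mem_loc (modGauss A π N hπ hdeg).toRedRing
    (arithmeticGalois (modularFunctionFieldFull N) σ)
    (fun b => smul_mem_intB A π N hπ hdeg hσ b) b

/-- `j⁻¹` has order one. -/
theorem exists_order_one : ∃ t : laurentBaseChange L (modularFunctionFieldFull N),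
    (t : LaurentSeries L).order = 1 := by
  have hmem : jqModC L ∈ laurentBaseChange L (modularFunctionFieldFull N) := by
    rw [laurentBaseChange_full]
    exact jqModC_mem_full L N
  refine ⟨(⟨jqModC L, hmem⟩ : laurentBaseChange L (modularFunctionFieldFull N))⁻¹, ?_⟩
  rw [IntermediateField.coe_inv, order_inv_laurent]
  have h1 : (jqModC L).order = -1 := by
    have hc : (jqModC L).coeff (-1) ≠ 0 := by
      have := coeff_jqModC_pow_self (K := L) 1
      rw [pow_one, Nat.cast_one] at this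
      rw [this]
      exact one_ne_zero
    apply le_antisymm
    · exact HahnSeries.order_le_of_coeff_ne_zero hc
    · by_contra hlt
      push Not at hlt
      have h2 := coeff_jqModC_of_lt (R := L) hlt
      rw [HahnSeries.coeff_order_eq_zero] at h2
      exact hc (by rw [h2]; rfl)
  show -(jqModC L).order = 1
  rw [h1]
  norm_num

theorem mod_hSΓ (s : (laurentRed A π).B) (hs : s ∈ genS A π N) :
    ∀ γ ∈ inertiaΓ A N, γ • (⟨s, genS_mem A π N s hs⟩ :
      laurentBaseChange L (modularFunctionFieldFull N)) = ⟨s, genS_mem A π N s hs⟩ := by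
  obtain ⟨d, hd, hdvd, rfl⟩ := hs
  rintro _ ⟨σ, hσ, rfl⟩
  apply Subtype.ext
  show coeffMap (σ : L →+* L) (jB A π d : LaurentSeries L) = jB A π d
  rw [coe_jB, coeffMap_qExpand, coeffMap_jqModC]

theorem mod_hconst (hA : A.LiesOverPrime ℓ) (hπ : Function.Surjective π) (x : k) :
    ∃ a : A, (∀ γ ∈ inertiaΓ A N, SemilinearAut.baseAut γ (a : L) = a) ∧ π a = x := by
  obtain ⟨a, ha, hax⟩ := exists_const_inertia A hA π hπ x
  refine ⟨a, ?_, hax⟩
  rintro _ ⟨σ, hσ, rfl⟩
  exact ha σ hσ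

theorem mod_exists_basis_fixed (hA : A.LiesOverPrime ℓ)
    (V : Submodule L (laurentBaseChange L (modularFunctionFieldFull N))) [FiniteDimensional L V]
    (hV : ∀ γ ∈ inertiaΓ A N, ∀ f ∈ V, γ • f ∈ V) :
    ∃ (n : ℕ) (w : Fin n → (modGauss A π N hπ hdeg).loc),
      (∀ i, ∀ γ ∈ inertiaΓ A N, γ • (w i : laurentBaseChange L (modularFunctionFieldFull N)) =
        w i) ∧
      Submodule.span L (Set.range fun i => (w i : laurentBaseChange L _)) = V ∧
      LinearIndependent k (fun i => (modGauss A π N hπ hdeg).res (w i)) := by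
  unfold modGauss
  exact exists_basis_fixed_gaussData (laurentRed A π)
      (laurentBaseChange L (modularFunctionFieldFull N))
      (genS A π N) (genS_mem A π N) (modularFunctionFieldFullC k N) (adjoin_image_genS A π N)
      (jB A π 1) _ _ _ _ _ (inertiaΓ A N) (mod_hSΓ A π N) (mod_hconst A π N hA hπ) hπ
      (mod_hSΓ A π N (jB A π 1) ⟨1, inferInstance, one_dvd _, rfl⟩) V hV

/-- **S19-E**: the inertia action on the modular function field. -/
def modInertiaRD (hA : A.LiesOverPrime ℓ) :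
    InertiaRD (modReductionData A π N hπ hdeg) (inertiaΓ A N) where
  smul_mem := by
    rintro _ ⟨σ, hσ, rfl⟩ b
    exact (smul_mem_loc A π N hπ hdeg hσ b).1
  ρ_smul := by
    rintro _ ⟨σ, hσ, rfl⟩ b
    exact (smul_mem_loc A π N hπ hdeg hσ b).2
  baseAut_mem := by
    rintro _ ⟨σ, hσ, rfl⟩ a ha
    exact inertia_mem A hσ ⟨a, ha⟩
  exists_const := mod_hconst A π N hA hπ
  Pinf := qPlace (exists_order_one N)
  smul_Pinf := by
    rintro _ ⟨σ, hσ, rfl⟩
    exact arithmeticGalois_smul_qPlace _ _ σ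
  exists_basis_fixed V hV hstab := mod_exists_basis_fixed A π N hπ hdeg hA V hstab

/-- **S19-E**, final form: any good reduction structure whose underlying reduction data is the
modular one has the inertia action. -/
def modInertiaAction (hA : A.LiesOverPrime ℓ)
    (S : H19.GoodRed L (laurentBaseChange L (modularFunctionFieldFull N)) k
      (modularFunctionFieldFullC k N))
    (hS : S.toReductionData = modReductionData A π N hπ hdeg) :
    H19.InertiaAction S (inertiaΓ A N) :=
  InertiaRD.toInertiaAction (hS ▸ modInertiaRD A π N hπ hdeg hA)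

end Modular

end Fermat.Agent.H1
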