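import Fermat.Agent.H1QPlace
import Fermat.Agent.H3RR_Genus
import Fermat.Agent.H3RR_Duality

/-!
# Galois-stable representatives of divisor classes (helper38)

A class `x` of degree zero has a representative `D` which is fixed by every semilinear
automorphism fixing both `x` and a given place.  For torsion classes on modular curves the
corresponding functions can be chosen fixed as well.
-/

set_option autoImplicit false

noncomputable section

open AlgebraicCurve ModularCurve Fermat.Agent.H3RR

namespace Fermat.Agent.H38.Mz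

section Rep

variable {K F : Type*} [Field K] [Field F] [Algebra K F] [IsAlgClosed K] [IsFF K F]

theorem le_of_ell_le_one {D : Divisor K F} (h1 : ell D ≤ 1) (h0 : 0 ≤ D) {h : F}
    (hh : h ∈ riemannRochSpace D) : ∃ c : K, h = algebraMap K F c := by
  have hfin : Module.Finite K (riemannRochSpace D) := inferInstance
  have hone : (1 : F) ∈ riemannRochSpace D := by
    rw [mem_riemannRochSpace_iff]
    intro v
    right
    rw [v.ord_one]
    have := h0 v
    simpa using this
  have hne : (⟨1, hone⟩ : riemannRochSpace D) ≠ 0 := fun h => one_ne_zero (congrArg Subtype.val h)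
  have h2 : Module.finrank K (riemannRochSpace D) = 1 := by
    have h3 : 0 < Module.finrank K (riemannRochSpace D) :=
      Module.finrank_pos_iff_exists_ne_zero.mpr ⟨_, hne⟩
    have : Module.finrank K (riemannRochSpace D) ≤ 1 := h1
    omega
  obtain ⟨c, hc⟩ := (finrank_eq_one_iff_of_nonzero' _ hne).mp h2 ⟨h, hh⟩
  refine ⟨c, ?_⟩
  have := congrArg Subtype.val hc
  simp only [Submodule.coe_smul] at this
  rw [← this, Algebra.smul_def, mul_one]

/-- Every class of degree zero has a representative fixed by all automorphisms which fix the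
class and the place `P₀`. -/
theorem exists_rep (P₀ : Place K F) (x : Pic0 K F) :
    ∃ D : Divisor.degZero (K := K) (F := F), Pic0.mk D = x ∧
      ∀ g : SemilinearAut K F, g • P₀ = P₀ → g • x = x → g • (D : Divisor K F) = D := by
  classical
  obtain ⟨D₀, hD₀⟩ := Pic0.mk_surjective x
  have hdeg0 : Divisor.degree (D₀ : Divisor K F) = 0 := D₀.2
  have hd1 : ∀ n : ℤ, Divisor.degree ((D₀ : Divisor K F) + Finsupp.single P₀ n) = n := by
    intro n
    rw [map_add, hdeg0, Divisor.degree_single, deg_eq_one, zero_add, Nat.cast_one, mul_one]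
  have hex : ∃ n : ℕ, 0 < ell ((D₀ : Divisor K F) + Finsupp.single P₀ (n : ℤ)) := by
    obtain ⟨γ, hγ⟩ := riemann_bound K F
    refine ⟨(γ + 1).toNat, ?_⟩
    have h1 := hγ ((D₀ : Divisor K F) + Finsupp.single P₀ (((γ + 1).toNat : ℕ) : ℤ))
    rw [hd1] at h1
    have h2 := Int.self_le_toNat (γ + 1)
    omega
  set n := Nat.find hex with hn
  have hpos := Nat.find_spec hex
  rw [← hn] at hpos
  set E : Divisor K F := (D₀ : Divisor K F) + Finsupp.single P₀ (n : ℤ) with hE
  have hle : ell E ≤ 1 := by
    have h1 : E = plus ((D₀ : Divisor K F) + Finsupp.single P₀ ((n : ℤ) - 1)) P₀ := by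
      rw [hE, plus, add_assoc, ← Finsupp.single_add]
      congr 2
      ring
    have h2 : ell ((D₀ : Divisor K F) + Finsupp.single P₀ ((n : ℤ) - 1)) = 0 := by
      rcases Nat.eq_zero_or_pos n with h0 | h0
      · apply ell_eq_zero_of_degree_neg
        rw [hd1, h0]
        norm_num
      · have h3 := Nat.find_min hex (m := n - 1) (by omega)
        rw [not_lt, Nat.le_zero] at h3
        rwa [Nat.cast_sub h0, Nat.cast_one] at h3
    have h3 := ell_plus_le ((D₀ : Divisor K F) + Finsupp.single P₀ ((n : ℤ) - 1)) P₀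
    rw [← h1, h2, deg_eq_one] at h3
    omega
  obtain ⟨f, hf0, hf⟩ := exists_mem_L_of_ell_pos hpos
  have hdegf : Divisor.degree (divOf f : Divisor K F) = 0 := degree_divOf hf0
  have hD : Divisor.degree ((D₀ : Divisor K F) + divOf f) = 0 := by rw [map_add, hdeg0, hdegf, add_zero]
  refine ⟨⟨(D₀ : Divisor K F) + divOf f, hD⟩, ?_, ?_⟩
  · rw [← hD₀]
    refine QuotientAddGroup.eq.mpr ?_
    rw [AddSubgroup.mem_addSubgroupOf]
    refine ⟨f⁻¹, inv_ne_zero hf0, fun v => ?_⟩
    show (-((D₀ : Divisor K F) + divOf f) + (D₀ : Divisor K F) : Divisor K F) v = _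
    rw [v.ord_inv, Finsupp.add_apply, Finsupp.neg_apply, Finsupp.add_apply, divOf_apply hf0]
    ring
  intro g hg hgx
  show g • ((D₀ : Divisor K F) + divOf f) = (D₀ : Divisor K F) + divOf f
  set D : Divisor K F := (D₀ : Divisor K F) + divOf f with hDdef
  have hDE : D + Finsupp.single P₀ (n : ℤ) = E + divOf f := by
    rw [hDdef, hE]; abel
  have heff : 0 ≤ D + Finsupp.single P₀ (n : ℤ) := by
    rw [hDE]
    intro v
    have h1 := (mem_riemannRochSpace_iff.mp hf v).resolve_left hf0
    rw [Finsupp.add_apply, divOf_apply hf0]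
    show (0 : ℤ) ≤ _
    omega
  have hell : ell (D + Finsupp.single P₀ (n : ℤ)) ≤ 1 := by
    rw [hDE, ell_add_divOf hf0]; exact hle
  have hD1 : g • D₀.1 - D₀.1 ∈ Divisor.principal (K := K) (F := F) := by
    have h1 : g • Pic0.mk D₀ = Pic0.mk D₀ := by rw [hD₀]; exact hgx
    rw [SemilinearAut.pic0_smul_mk] at h1
    have h2 := QuotientAddGroup.eq.mp h1
    rw [AddSubgroup.mem_addSubgroupOf] at h2
    have h3 := neg_mem h2
    convert h3 using 1
    show _ = -(-(g • D₀.1) + D₀.1)
    abel
  have hD2 : g • D - D ∈ Divisor.principal (K := K) (F := F) := by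
    have e : g • D - D = (g • D₀.1 - D₀.1) + (g • (divOf f : Divisor K F) - divOf f) := by
      rw [hDdef, smul_add]; abel
    rw [e]
    refine add_mem hD1 (sub_mem (SemilinearAut.smul_mem_principal g ⟨f, hf0, ?_⟩) ⟨f, hf0, ?_⟩) <;>
    exact fun v => divOf_apply hf0 v
  obtain ⟨h, hh0, hh⟩ := hD2
  have hmem : h ∈ riemannRochSpace (D + Finsupp.single P₀ (n : ℤ)) := by
    rw [mem_riemannRochSpace_iff]
    intro v
    right
    have h1 : (0 : ℤ) ≤ (g • (D + Finsupp.single P₀ (n : ℤ)) : Divisor K F) v := by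
      rw [SemilinearAut.divisor_smul_apply]
      exact heff _
    rw [smul_add, SemilinearAut.smul_single, hg, Finsupp.add_apply] at h1
    have h2 := hh v
    rw [Finsupp.sub_apply] at h2
    rw [Finsupp.add_apply]
    omega
  obtain ⟨c, hc⟩ := le_of_ell_le_one hell heff hmem
  have hc0 : c ≠ 0 := by rintro rfl; rw [map_zero] at hc; exact hh0 hc
  have hz : g • D - D = 0 := by
    ext v
    rw [hh v, hc]
    have h1 := adicValuation_algebraMap v hc0
    rw [v.adicValuation_eq_exp_neg_ord ((_root_.map_ne_zero _).mpr hc0), ← WithZero.exp_zero,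
      WithZero.exp_inj] at h1
    rw [Finsupp.coe_zero, Pi.zero_apply]
    omega
  exact sub_eq_zero.mp hz

end Rep

section Fun

variable {L : Type*} [Field L] [Algebra ℚ L] [IsAlgClosed L]
  {F₀ : IntermediateField ℚ (LaurentSeries ℚ)} [IsFF L (laurentBaseChange L F₀)]

theorem leadingCoeff_coeffMap {R S : Type*} [Field R] [Field S] (f : R →+* S)
    (x : LaurentSeries R) : (coeffMap f x).leadingCoeff = f x.leadingCoeff := by
  rw [HahnSeries.leadingCoeff_eq, HahnSeries.leadingCoeff_eq, H1.order_coeffMap, coeffMap_coeff]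

theorem leadingCoeff_algebraMap {K : Type*} [Field K] (c : K) :
    (algebraMap K (LaurentSeries K) c).leadingCoeff = c := by
  rw [algebraMap_laurentSeries_eq_single, HahnSeries.leadingCoeff_of_single]

/-- Fixed representatives for torsion classes: `div u = d D`, `[D] = x`, the leading coefficient
of `u` is `1`; everything fixed by the stabiliser of `x`. -/
theorem exists_fixed_repr (h1 : ∃ t : laurentBaseChange L F₀, (t : LaurentSeries L).order = 1)
    (x : Pic0 L (laurentBaseChange L F₀)) (d : ℕ) (hx : d • x = 0) :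
    ∃ (D : Divisor.degZero (K := L) (F := laurentBaseChange L F₀)) (u : laurentBaseChange L F₀),
      Pic0.mk D = x ∧ u ≠ 0 ∧ (∀ v : Place L (laurentBaseChange L F₀),
        v.ord u = d * (D : Divisor L (laurentBaseChange L F₀)) v) ∧
      (u : LaurentSeries L).leadingCoeff = 1 ∧
      ∀ σ : L ≃ₐ[ℚ] L, σ • x = x → arithmeticGalois F₀ σ • u = u ∧
        arithmeticGalois F₀ σ • (D : Divisor L (laurentBaseChange L F₀)) = D := by
  obtain ⟨D, hD, hfix⟩ := exists_rep (H1.qPlace h1) x
  have hprin : ((d • D : Divisor.degZero (K := L) (F := laurentBaseChange L F₀)) :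
      Divisor L (laurentBaseChange L F₀)) ∈ Divisor.principal := by
    have h2 : Pic0.mk (d • D) = 0 := by
      have : Pic0.mk (d • D) = d • Pic0.mk D := rfl
      rw [this, hD, hx]
    have h3 := (QuotientAddGroup.eq_zero_iff _).mp h2
    exact AddSubgroup.mem_addSubgroupOf.mp h3
  obtain ⟨u₀, hu₀, hu⟩ := hprin
  set c := (u₀ : LaurentSeries L).leadingCoeff with hc
  have hu₀' : (u₀ : LaurentSeries L) ≠ 0 := fun h => hu₀ (Subtype.ext h)
  have hc0 : c ≠ 0 := HahnSeries.leadingCoeff_ne_zero.mpr hu₀'
  have hcF : algebraMap L (laurentBaseChange L F₀) c⁻¹ ≠ 0 :=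
    (_root_.map_ne_zero _).mpr (inv_ne_zero hc0)
  have hordc : ∀ (v : Place L (laurentBaseChange L F₀)) {a : L}, a ≠ 0 →
      v.ord (algebraMap L (laurentBaseChange L F₀) a) = 0 := by
    intro v a ha
    have h1 := adicValuation_algebraMap v ha
    rw [v.adicValuation_eq_exp_neg_ord ((_root_.map_ne_zero _).mpr ha), ← WithZero.exp_zero,
      WithZero.exp_inj] at h1
    omega
  set u := algebraMap L (laurentBaseChange L F₀) c⁻¹ * u₀ with hudef
  have hu0 : u ≠ 0 := mul_ne_zero hcF hu₀
  have huord : ∀ v : Place L (laurentBaseChange L F₀),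
      v.ord u = d * (D : Divisor L (laurentBaseChange L F₀)) v := by
    intro v
    rw [hudef, v.ord_mul hcF hu₀, hordc v (inv_ne_zero hc0), zero_add, ← hu v]
    show ((d • (D : Divisor L (laurentBaseChange L F₀)) : Divisor L (laurentBaseChange L F₀))) v = _
    rw [Finsupp.smul_apply, nsmul_eq_mul]
  have hlead : (u : LaurentSeries L).leadingCoeff = 1 := by
    rw [hudef, IntermediateField.coe_mul, HahnSeries.leadingCoeff_mul]
    have : ((algebraMap L (laurentBaseChange L F₀) c⁻¹ : laurentBaseChange L F₀) :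
      LaurentSeries L) = algebraMap L (LaurentSeries L) c⁻¹ := rfl
    rw [this, leadingCoeff_algebraMap, ← hc, inv_mul_cancel₀ hc0]
  refine ⟨D, u, hD, hu0, huord, hlead, fun σ hσ => ?_⟩
  have hDσ : arithmeticGalois F₀ σ • (D : Divisor L (laurentBaseChange L F₀)) = D :=
    hfix _ (H1.arithmeticGalois_smul_qPlace F₀ h1 σ) hσ
  refine ⟨?_, hDσ⟩
  set g := arithmeticGalois F₀ σ with hg
  have hgu0 : g • u ≠ 0 := by simpa using hu0
  have hordg : ∀ w : Place L (laurentBaseChange L F₀), w.ord (g • u) = w.ord u := by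
    intro w
    have h2 := SemilinearAut.ord_smul g (g⁻¹ • w) u
    rw [smul_inv_smul] at h2
    rw [h2, huord, huord, ← SemilinearAut.divisor_smul_apply, hDσ]
  have hq0 : g • u / u ≠ 0 := div_ne_zero hgu0 hu0
  obtain ⟨c', hc'⟩ := exists_const_of_forall_le_one (K := L) (f := g • u / u) (fun v => by
    rw [v.adicValuation_eq_exp_neg_ord hq0, div_eq_mul_inv,
      v.ord_mul hgu0 (inv_ne_zero hu0), v.ord_inv, hordg v, ← WithZero.exp_zero,
      WithZero.exp_le_exp]
    omega)
  have hgu : g • u = algebraMap L (laurentBaseChange L F₀) c' * u := by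
    rw [hc', div_mul_cancel₀ _ hu0]
  have h3 : ((g • u : laurentBaseChange L F₀) : LaurentSeries L).leadingCoeff =
      ((algebraMap L (laurentBaseChange L F₀) c' * u : laurentBaseChange L F₀) :
        LaurentSeries L).leadingCoeff := by rw [hgu]
  rw [hg, coe_arithmeticGalois_smul, leadingCoeff_coeffMap, hlead, map_one,
    IntermediateField.coe_mul, HahnSeries.leadingCoeff_mul, hlead, mul_one] at h3
  have h4 : ((algebraMap L (laurentBaseChange L F₀) c' : laurentBaseChange L F₀) :
      LaurentSeries L) = algebraMap L (LaurentSeries L) c' := rfl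
  rw [h4, leadingCoeff_algebraMap] at h3
  rw [hgu, ← h3, map_one, one_mul]

end Fun

end Fermat.Agent.H38.Mz
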