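import Fermat.Agent.H36CE
import Fermat.Agent.H36KI
import Fermat.Agent.H38MzRep
import Fermat.Agent.H90Descent
import Fermat.Agent.H90Field
import Fermat.Agent.H1InvFinal

/-!
# Descent of torsion classes fixed by inertia (CARAYOL C7)
-/

set_option autoImplicit false
set_option linter.unusedSectionVars false
set_option linter.style.haveILetI false

noncomputable section

open AlgebraicCurve ModularCurve IntermediateField Fermat.Agent.H3RR WithZero Polynomial

namespace Fermat.Agent.H36

section Mod

variable {K L : Type*} [Field K] [Field L] [Algebra K L] [Algebra ℚ K] [Algebra ℚ L]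
  [IsScalarTower ℚ K L] [IsAlgClosed L] [Algebra.IsAlgebraic K L]
  (F₀ : IntermediateField ℚ (LaurentSeries ℚ)) [IsFF L (laurentBaseChange L F₀)]

/-- coefficient functionals -/
def coeffLin (L : Type*) [Field L] [Algebra ℚ L] (F₀ : IntermediateField ℚ (LaurentSeries ℚ))
    (n : ℤ) : laurentBaseChange L F₀ →ₗ[L] L where
  toFun y := (y : LaurentSeries L).coeff n
  map_add' x y := rfl
  map_smul' a y := by
    have h : ((a • y : laurentBaseChange L F₀) : LaurentSeries L) =
        HahnSeries.single 0 a * (y : LaurentSeries L) := by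
      rw [Algebra.smul_def, IntermediateField.coe_mul, ← algebraMap_laurentSeries_eq_single L a]
      rfl
    rw [h, HahnSeries.coeff_single_zero_mul]
    rfl

theorem baseIncl_algebraMap (a : K) :
    H90.baseIncl K L F₀ (algebraMap K (laurentBaseChange K F₀) a) =
      algebraMap L (laurentBaseChange L F₀) (algebraMap K L a) :=
  Subtype.ext (H90.coeffMap_algebraMap' a)

theorem transcendental_of_order {t : laurentBaseChange L F₀} (ht : (t : LaurentSeries L).order = 1) :
    Transcendental L t := by
  intro h
  obtain ⟨c, hc⟩ := exists_const_of_isAlgebraic h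
  rw [← hc] at ht
  have h1 : ((algebraMap L (laurentBaseChange L F₀) c : laurentBaseChange L F₀) : LaurentSeries L) =
      HahnSeries.single 0 c := algebraMap_laurentSeries_eq_single L c
  rw [h1] at ht
  by_cases hc0 : c = 0
  · rw [hc0, map_zero, HahnSeries.order_zero] at ht
    exact zero_ne_one ht
  · rw [HahnSeries.order_single hc0] at ht
    exact zero_ne_one ht

/-- **Laurent base change is unramified at all places.** -/
theorem exists_place_above_mod
    (hfix : ∀ z : L, (∀ σ : L ≃ₐ[K] L, σ z = z) → ∃ a : K, algebraMap K L a = z)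
    (h1 : ∃ t : laurentBaseChange K F₀, (t : LaurentSeries K).order = 1)
    (P : Place K (laurentBaseChange K F₀)) :
    ∃ w : Place L (laurentBaseChange L F₀), ∀ f, w.ord (H90.baseIncl K L F₀ f) = P.ord f := by
  obtain ⟨t, ht⟩ := h1
  refine exists_place_above (H90.baseIncl K L F₀) (coeffLin L F₀) ?_
    (fun σ => arithmeticGalois F₀ (σ.restrictScalars ℚ)) ?_ ?_ ?_ hfix (x0 := t) ?_ P
    (baseIncl_algebraMap F₀)
  · intro y hy
    apply Subtype.ext
    ext n
    exact hy n
  · intro σ y n
    change ((arithmeticGalois F₀ (σ.restrictScalars ℚ) • y : laurentBaseChange L F₀) :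
      LaurentSeries L).coeff n = σ ((y : LaurentSeries L).coeff n)
    rw [coe_arithmeticGalois_smul, coeffMap_coeff]
    rfl
  · intro f n
    refine ⟨(f : LaurentSeries K).coeff n, ?_⟩
    change _ = ((H90.baseIncl K L F₀ f : laurentBaseChange L F₀) : LaurentSeries L).coeff n
    rw [H90.coe_baseIncl, coeffMap_coeff]
  · intro y hy
    choose a ha using hy
    obtain ⟨z, hz⟩ : ∃ z : LaurentSeries K, (y : LaurentSeries L) =
        coeffMap (algebraMap K L) z := by
      refine ⟨HahnSeries.mk a ?_, ?_⟩
      · refine (y : LaurentSeries L).isPWO_support'.mono ?_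
        intro n hn
        simp only [Function.mem_support] at hn ⊢
        intro h0
        apply hn
        apply (algebraMap K L).injective
        rw [ha, map_zero]
        exact h0
      · ext n
        rw [coeffMap_coeff]
        exact (ha n).symm
    have hmem : coeffMap (algebraMap K L) z ∈ laurentBaseChange L F₀ := by
      rw [← hz]; exact y.2
    exact ⟨⟨_, H90.exists_of_coeff_mem F₀ hmem⟩, Subtype.ext hz.symm⟩
  · apply transcendental_of_order
    rw [H90.coe_baseIncl, H90.order_coeffMap, ht]

end Mod

/-- `1/j` has order one. -/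
theorem exists_order_one_gen (K : Type*) [Field K] [Algebra ℚ K] (N : ℕ) [NeZero N] :
    ∃ t : laurentBaseChange K (modularFunctionFieldFull N), (t : LaurentSeries K).order = 1 := by
  have hmem : jqModC K ∈ laurentBaseChange K (modularFunctionFieldFull N) := by
    rw [H67.laurentBaseChange_full]
    exact jqModC_mem_full K N
  refine ⟨(⟨jqModC K, hmem⟩ : laurentBaseChange K (modularFunctionFieldFull N))⁻¹, ?_⟩
  rw [IntermediateField.coe_inv, H1.order_inv_laurent]
  have h1 : (jqModC K).order = -1 := by
    have hc : (jqModC K).coeff (-1) ≠ 0 := by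
      have := ModularCurve.coeff_jqModC_pow_self (K := K) 1
      rw [pow_one, Nat.cast_one] at this
      rw [this]
      exact one_ne_zero
    apply le_antisymm
    · exact HahnSeries.order_le_of_coeff_ne_zero hc
    · by_contra hlt
      push Not at hlt
      have h2 := ModularCurve.coeff_jqModC_of_lt (R := K) hlt
      rw [HahnSeries.coeff_order_eq_zero] at h2
      exact hc (by rw [h2]; rfl)
  change -(jqModC K).order = 1
  rw [h1]
  norm_num

section KI

variable (A : ValuationSubring (AlgebraicClosure ℚ))

instance : Algebra.IsAlgebraic ℚ (KI A) :=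
  Algebra.IsAlgebraic.tower_bot ℚ (KI A) (AlgebraicClosure ℚ)

instance : Algebra.IsAlgebraic (KI A) (AlgebraicClosure ℚ) :=
  Algebra.IsAlgebraic.tower_top (K := ℚ) (KI A)

instance : IsGalois (KI A) (AlgebraicClosure ℚ) := inferInstance

theorem hfix_KI (z : AlgebraicClosure ℚ)
    (h : ∀ σ : AlgebraicClosure ℚ ≃ₐ[KI A] AlgebraicClosure ℚ, σ z = z) :
    ∃ a : KI A, algebraMap (KI A) (AlgebraicClosure ℚ) a = z := by
  have h1 : z ∈ (⊥ : IntermediateField (KI A) (AlgebraicClosure ℚ)) :=
    InfiniteGalois.mem_bot_iff_fixed z |>.2 h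
  exact IntermediateField.mem_bot.1 h1

/-- Laurent series over `Qbar` with inertia fixed coefficients descend. -/
theorem exists_descent_KI {F₀ : IntermediateField ℚ (LaurentSeries ℚ)}
    (y : laurentBaseChange (AlgebraicClosure ℚ) F₀)
    (hy : ∀ σ ∈ A.inertiaSubgroupIn ℚ, arithmeticGalois F₀ σ • y = y) :
    ∃ f : laurentBaseChange (KI A) F₀, H90.baseIncl (KI A) (AlgebraicClosure ℚ) F₀ f = y := by
  have hc : ∀ n, (y : LaurentSeries (AlgebraicClosure ℚ)).coeff n ∈ KI A := by
    intro n
    rw [mem_KI]
    intro σ hσ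
    have h1 := congrArg (fun z : laurentBaseChange (AlgebraicClosure ℚ) F₀ =>
      (z : LaurentSeries (AlgebraicClosure ℚ)).coeff n) (hy σ hσ)
    simp only [coe_arithmeticGalois_smul, coeffMap_coeff] at h1
    exact h1
  obtain ⟨z, hz⟩ : ∃ z : LaurentSeries (KI A), (y : LaurentSeries (AlgebraicClosure ℚ)) =
      coeffMap (algebraMap (KI A) (AlgebraicClosure ℚ)) z := by
    refine ⟨HahnSeries.mk (fun n => (⟨_, hc n⟩ : KI A)) ?_, ?_⟩
    · refine (y : LaurentSeries (AlgebraicClosure ℚ)).isPWO_support'.mono ?_
      intro n hn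
      simp only [Function.mem_support] at hn ⊢
      intro h0
      apply hn
      exact Subtype.ext h0
    · ext n
      rw [coeffMap_coeff]
      rfl
  have hmem : coeffMap (algebraMap (KI A) (AlgebraicClosure ℚ)) z ∈
      laurentBaseChange (AlgebraicClosure ℚ) F₀ := by
    rw [← hz]; exact y.2
  exact ⟨⟨_, H90.exists_of_coeff_mem F₀ hmem⟩, Subtype.ext hz.symm⟩

/-- **C7**: an inertia invariant torsion class is represented by a function over the inertia
field. -/
theorem exists_repr_KI (N : ℕ) [NeZero N] (x : JZero N) (n : ℕ) (hn : n • x = 0)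
    (hx : ∀ σ ∈ A.inertiaSubgroupIn ℚ, σ • x = x) :
    ∃ (D : Divisor.degZero (K := AlgebraicClosure ℚ) (F := modularFunctionFieldBar N))
      (f : laurentBaseChange (KI A) (modularFunctionFieldFull N)),
      Pic0.mk D = x ∧ f ≠ 0 ∧ (f : LaurentSeries (KI A)).leadingCoeff = 1 ∧
      (∀ v : Place (AlgebraicClosure ℚ) (modularFunctionFieldBar N),
        v.ord (H90.baseIncl (KI A) (AlgebraicClosure ℚ) (modularFunctionFieldFull N) f) =
          n * (D : Divisor (AlgebraicClosure ℚ) (modularFunctionFieldBar N)) v) ∧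
      ∀ P : Place (KI A) (laurentBaseChange (KI A) (modularFunctionFieldFull N)),
        (n : ℤ) ∣ P.ord f := by
  obtain ⟨D, u, hD, hu0, hu, hlead, hfix⟩ := H38.Mz.exists_fixed_repr
    (F₀ := modularFunctionFieldFull N) (H1.exists_order_one (L := AlgebraicClosure ℚ) N) x n hn
  obtain ⟨f, hf⟩ := exists_descent_KI A u (fun σ hσ => (hfix σ (hx σ hσ)).1)
  refine ⟨D, f, hD, ?_, ?_, ?_, ?_⟩
  · rintro rfl
    apply hu0
    rw [← hf, map_zero]
  · rw [← hf, H90.coe_baseIncl, HahnSeries.leadingCoeff_eq, H90.order_coeffMap,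
      coeffMap_coeff] at hlead
    rw [HahnSeries.leadingCoeff_eq]
    apply (algebraMap (KI A) (AlgebraicClosure ℚ)).injective
    rw [hlead, map_one]
  · intro v
    rw [hf]
    exact hu v
  · intro P
    obtain ⟨w, hw⟩ := exists_place_above_mod (K := KI A) (L := AlgebraicClosure ℚ)
      (modularFunctionFieldFull N) (hfix_KI A) (exists_order_one_gen (KI A) N) P
    rw [← hw f, hf, hu w]
    exact dvd_mul_right _ _

end KI

end Fermat.Agent.H36
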