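import Fermat.Agent.H68TwoData
import Fermat.Agent.H83WindB

/-!
# CARAYOL C3: technical hypotheses on the level `m q` system
-/

set_option autoImplicit false
set_option linter.unusedSectionVars false

noncomputable section

open Polynomial ModularCurve Fermat.Agent.H99 Fermat.Agent.H66 IntermediateField
open Fermat.Agent.H61 (theta)

namespace Fermat.Agent.H68

section Denominators

open scoped IntermediateField.algebraAdjoinAdjoin

theorem exists_poly_mul_isIntegral {K F : Type*} [Field K] [Field F] [Algebra K F] {j : F}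
    (h : ∀ f : F, IsAlgebraic K⟮j⟯ f) (x : F) :
    ∃ P : K[X], aeval j P ≠ 0 ∧ IsIntegral (Algebra.adjoin K {j}) (aeval j P * x) := by
  have h1 : IsAlgebraic (Algebra.adjoin K {j}) x :=
    (IsFractionRing.isAlgebraic_iff (Algebra.adjoin K {j}) K⟮j⟯ F).mpr (h x)
  obtain ⟨y, hy, hint⟩ := h1.exists_integral_multiple
  obtain ⟨P, hP⟩ : ∃ P : K[X], aeval j P = (y : F) :=
    (Algebra.adjoin_singleton_eq_range_aeval K j).le y.2
  refine ⟨P, ?_, ?_⟩
  · rw [hP]
    exact fun h0 => hy (Subtype.ext h0)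
  · rw [hP]
    have : y • x = (y : F) * x := rfl
    rwa [this] at hint

theorem exists_poly_mul_mem_hor {K : Type*} [Field K] [Algebra ℚ K] [CharZero K] {N : ℕ}
    [NeZero N] (x : FX K N) :
    ∃ P : K[X], aeval (jF K N) P ≠ 0 ∧ aeval (jF K N) P * x ∈ hor K N :=
  exists_poly_mul_isIntegral (isAlgebraic_of_finite
    (finiteDimensional_jF (H99.degreeFact K) N)) x

theorem aeval_mem_hor {K : Type*} [Field K] [Algebra ℚ K] {N : ℕ} [NeZero N] (P : K[X]) :
    aeval (jF K N) P ∈ hor K N := by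
  rw [aeval_eq_sum_range]
  refine Subring.sum_mem _ fun i _ => ?_
  rw [Algebra.smul_def]
  exact Subring.mul_mem _ (algebraMap_mem_hor _) (Subring.pow_mem _ jF_mem_hor i)

end Denominators

section Arch

variable {K : Type*} [Field K] {A : ValuationSubring K} {k : Type*} [Field k] {π : A →+* k}
  {ϖ : A} (hϖ : Unif A π ϖ)

include hϖ in
/-- every element of `Bdd A` is in the Gauss ring up to a power of the uniformizer -/
theorem exists_pow_mul_mem_GR {x : LaurentSeries K} (hx : x ∈ Bdd A) :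
    ∃ n : ℕ, ∀ M, n ≤ M → algebraMap K (LaurentSeries K) (ϖ : K) ^ M * x ∈ GR A π := by
  by_cases h0 : x = 0
  · exact ⟨0, fun M _ => by rw [h0, mul_zero]; exact zero_mem _⟩
  obtain ⟨n, y, z, hy, hz, h⟩ := exists_eq_of_mem_Bdd hϖ hx h0
  have hϖ0 : (ϖ : K) ≠ 0 := fun h => hϖ.ne_zero (Subtype.ext h)
  refine ⟨(-n).toNat, fun M hM => ?_⟩
  refine gr_mem_iff.2 ⟨HahnSeries.single 0 (ϖ ^ ((M : ℤ) + n).toNat) * y, z, hz, ?_⟩
  rw [mul_assoc, h, ← mul_assoc, map_mul, H42.coeffMap_single_eq, ← map_pow, ← map_mul]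
  congr 2
  have h1 : ((M : ℤ) + n).toNat = (M : ℤ) + n := Int.toNat_of_nonneg (by omega)
  rw [← zpow_natCast, ← zpow_add₀ hϖ0]
  push_cast
  rw [← zpow_natCast, h1]

end Arch

section Two

variable {K : Type*} [Field K] [Algebra ℚ K] [CharZero K] {m q : ℕ} [NeZero m] [NeZero q]
variable {A : ValuationSubring K} {k : Type*} [Field k] [CharP k q] {π : A →+* k}
variable (w : AL K m q) (hϖ : Unif A π (q : A))

theorem emb_q (i : Fin 2) : emb w i (q : FX K (m * q)) =
    algebraMap K (LaurentSeries K) ((q : A) : K) := by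
  rw [map_natCast]
  simp

theorem twoSys_consts : (twoSys (k := k) w hϖ).Consts A π where
  hor := algebraMap_mem_hor
  mem i o := by
    rw [mem_twoSys_V, emb_algebraMap]
    exact const_mem o
  res i o := by
    rw [twoSys_res, emb_algebraMap, gres_const]

theorem exists_pow_mul_mem_V (i : Fin 2) (x : FX K (m * q)) :
    ∃ n : ℕ, ∀ M, n ≤ M → (q : FX K (m * q)) ^ M * x ∈ (twoSys (k := k) w hϖ).V i := by
  obtain ⟨n, hn⟩ := exists_pow_mul_mem_GR hϖ (emb_mem A w i x)
  refine ⟨n, fun M hM => ?_⟩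
  rw [mem_twoSys_V, map_mul, map_pow, emb_q (A := A)]
  exact hn M hM

theorem twoSys_arch : (twoSys (k := k) w hϖ).Arch := by
  intro i x
  obtain ⟨n, hn⟩ := exists_pow_mul_mem_V w hϖ i x
  exact ⟨n, hn n le_rfl⟩

theorem twoSys_frac (x : FX K (m * q)) : ∃ b : (twoSys (k := k) w hϖ).B,
    (b : FX K (m * q)) ≠ 0 ∧ x * b ∈ (twoSys (k := k) w hϖ).B := by
  obtain ⟨P, hP, hPx⟩ := exists_poly_mul_mem_hor x
  set a := aeval (jF K (m * q)) P with ha
  choose n hn using fun i => exists_pow_mul_mem_V w hϖ i a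
  choose n' hn' using fun i => exists_pow_mul_mem_V w hϖ i (a * x)
  set M := max (max (n 0) (n 1)) (max (n' 0) (n' 1)) with hM
  have hq : (q : FX K (m * q)) ≠ 0 := (twoSys (k := k) w hϖ).q_ne
  have hnM : ∀ i, n i ≤ M := fun i => by
    fin_cases i
    · exact (le_max_left _ _).trans (le_max_left _ _)
    · exact (le_max_right _ _).trans (le_max_left _ _)
  have hnM' : ∀ i, n' i ≤ M := fun i => by
    fin_cases i
    · exact (le_max_left _ _).trans (le_max_right _ _)
    · exact (le_max_right _ _).trans (le_max_right _ _)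
  have hqhor : (q : FX K (m * q)) ^ M ∈ (twoSys (k := k) w hϖ).hor := by
    refine Subring.pow_mem _ ?_ M
    exact natCast_mem _ q
  refine ⟨⟨(q : FX K (m * q)) ^ M * a, ?_⟩, mul_ne_zero (pow_ne_zero _ hq) hP, ?_⟩
  · rw [H83.CompSys.mem_B]
    exact ⟨Subring.mul_mem _ hqhor (aeval_mem_hor P), fun i => hn i M (hnM i)⟩
  · have e : x * ((q : FX K (m * q)) ^ M * a) = (q : FX K (m * q)) ^ M * (a * x) := by ring
    show x * ((q : FX K (m * q)) ^ M * a) ∈ _
    rw [e, H83.CompSys.mem_B]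
    exact ⟨Subring.mul_mem _ hqhor hPx, fun i => hn' i M (hnM' i)⟩

end Two

end Fermat.Agent.H68
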