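import Mathlib
import Fermat.Agent.H83Inst2
import Fermat.Agent.H99Hor
import Fermat.Agent.H68TwoHyp

/-!
# The function `j` on `X_0(N)` over `K`: the inputs of `CoreHyp.of`
-/

set_option autoImplicit false

noncomputable section

namespace Fermat.Agent.H83

open ModularCurve Polynomial IntermediateField Fermat.Agent.H99 Fermat.Agent.H66

variable (K : Type*) [Field K] [Algebra ℚ K] [CharZero K] (N : ℕ) [NeZero N]

theorem jX_eq_jF : jX K N = H68.jF K N := rfl

theorem transcendental_jX : Transcendental K (jX K N) := by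
  have h := H67.transcendental_jqModC K
  rw [← J_one K, ← coe_jX K N] at h
  exact (transcendental_algebraMap_iff (R := K) (S := FX K N)
      (A := LaurentSeries K) (Subtype.val_injective)).mp h

theorem finiteDimensional_jX : FiniteDimensional K⟮jX K N⟯ (FX K N) :=
  H68.finiteDimensional_jF (H99.degreeFact K) N

theorem finrank_jX : Module.finrank K⟮jX K N⟯ (FX K N) = dedekindPsi N :=
  H68.finrank_jF (H99.degreeFact K) N

theorem horX_eq_chart (x : FX K N) : x ∈ horX K N ↔ x ∈ H36.chart K (jX K N) := by
  rw [mem_horX, H36.mem_chart_iff_adjoin]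

theorem ofPowerSeries_inv_mul {u : PowerSeries K} (hu : PowerSeries.constantCoeff u ≠ 0) :
    (HahnSeries.ofPowerSeries ℤ K u)⁻¹ = HahnSeries.ofPowerSeries ℤ K u⁻¹ := by
  apply inv_eq_of_mul_eq_one_right
  rw [← map_mul, PowerSeries.mul_inv_cancel _ hu, map_one]

theorem constantCoeff_ne : PowerSeries.constantCoeff (jNum.map (Int.castRingHom K)) ≠ 0 := by
  have h := coeff_jqModC_neg_one K
  rw [jqModC, HahnSeries.coeff_single_mul, one_mul, sub_self] at h
  have h3 : (HahnSeries.ofPowerSeries ℤ K (jNum.map (Int.castRingHom K))).coeff 0 =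
      PowerSeries.constantCoeff (jNum.map (Int.castRingHom K)) := by
    have := HahnSeries.ofPowerSeries_apply_coeff (Γ := ℤ)
      (jNum.map (Int.castRingHom K)) 0
    rw [Nat.cast_zero, PowerSeries.coeff_zero_eq_constantCoeff_apply] at this
    exact this
  rw [← h3, h]
  exact one_ne_zero

/-- The rational cusp `∞` -/
def ratPoint : H36.RatPoint K (jX K N)⁻¹ where
  e := (FX K N).val.toRingHom
  he c := by
    show (algebraMap K (LaurentSeries K) c) = HahnSeries.C c
    rw [HahnSeries.C_apply]
    exact algebraMap_laurentSeries_eq_single K c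
  P := PowerSeries.X * (jNum.map (Int.castRingHom K))⁻¹
  hP := by
    have hc := constantCoeff_ne K
    show ((((jX K N)⁻¹ : FX K N)) : LaurentSeries K) = _
    rw [IntermediateField.coe_inv, coe_jX, J_one, jqModC, mul_inv, ofPowerSeries_inv_mul K hc]
    rw [PowerSeries.coe_mul, PowerSeries.coe_X]
    congr 1
    apply inv_eq_of_mul_eq_one_right
    rw [HahnSeries.single_mul_single]
    simp
  hP0 := by simp
  hP1 := by
    have hc := constantCoeff_ne K
    rw [PowerSeries.coeff_succ_X_mul]
    rw [PowerSeries.coeff_zero_eq_constantCoeff_apply, PowerSeries.constantCoeff_inv]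
    exact inv_ne_zero hc

end Fermat.Agent.H83
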