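import Fermat.Agent.H92CarC
import Fermat.Agent.H35Fin
import Fermat.Agent.H36KI
import Fermat.Agent.H54Frobenius

/-!
# `H35.FixedInput` from the core statement over the inertia field
-/

set_option autoImplicit false
set_option linter.unusedSectionVars false
set_option linter.style.haveILetI false

noncomputable section

open AlgebraicCurve IntermediateField HahnSeries ModularCurve Fermat.Agent.H67
open Fermat.Agent.H40 Fermat.Agent.H99 Fermat.Agent.H60

namespace Fermat.Agent.H92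

local notation "Qb" => AlgebraicClosure ℚ
local notation "GQ" => AlgebraicClosure ℚ ≃ₐ[ℚ] AlgebraicClosure ℚ

section Beta

variable {L L' : Type*} [Field L] [Field L'] [Algebra ℚ L] [Algebra ℚ L'] [Algebra L L']
variable {m q : ℕ} [NeZero m] [NeZero q]

/-- transport of the norm by `w_{q²}` -/
theorem normAlong_beta_eq (w : AL L m q) (w₂ : AL2 L m q w) (z : FX L (m * q * q)) :
    normAlong (heckeBetaBar L (m * q) q) (w₂.W₂ z) =
      w.W (normAlong (heckeAlphaBar L (m * q) q) z) := by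
  have h := @Algebra.norm_eq_of_equiv_equiv (FX L (m * q)) (FX L (m * q * q)) (FX L (m * q))
    (FX L (m * q * q)) _ _ _ _ (algebraAlong (heckeAlphaBar L (m * q) q))
    (algebraAlong (heckeBetaBar L (m * q) q)) w.W.toRingEquiv w₂.W₂.toRingEquiv
    (by
      refine RingHom.ext fun x => ?_
      exact (w₂.alpha x).symm) z
  unfold normAlong
  rw [h]
  exact (w.W.apply_symm_apply _).symm

/-- **Base change of the norm along `β`.** -/
theorem baseIncl_normAlong_beta (ι : L' →+* ℂ) (hq : q.Prime) (hqm : ¬ q ∣ m)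
    (z : FX L (m * q * q)) :
    normAlong (heckeBetaBar L' (m * q) q) (H90.baseIncl L L' _ z) =
      H90.baseIncl L L' _ (normAlong (heckeBetaBar L (m * q) q) z) := by
  have hc : m.Coprime q := ((Nat.Prime.coprime_iff_not_dvd hq).2 hqm).symm
  obtain ⟨w⟩ := nonempty_AL (L := L) (m := m) (q := q) (ι.comp (algebraMap L L')) hc
  obtain ⟨w'⟩ := nonempty_AL (L := L') (m := m) (q := q) ι hc
  obtain ⟨w₂⟩ := nonempty_AL2 (ι.comp (algebraMap L L')) hq hqm w
  obtain ⟨w₂'⟩ := nonempty_AL2 ι hq hqm w'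
  have h1 : z = w₂.W₂ (w₂.W₂ z) := (w₂.invol z).symm
  rw [h1, normAlong_beta_eq w w₂, baseIncl_W₂ hq w w' w₂ w₂', normAlong_beta_eq w' w₂',
    baseIncl_normAlong, baseIncl_W hq w w']

end Beta

/-- **`FixedInput` from the core statement over a field `K` containing the inertia field.** -/
theorem fixedInput_of_coreK {p q m m' : ℕ} [NeZero m] [NeZero m'] [NeZero q] [NeZero (m * q)]
    [NeZero (m' * q)] [NeZero (m * q * q)] [NeZero (m' * q * q)]
    (hp : p.Prime) (hq : q.Prime) (hqm' : ¬ q ∣ m') (hmm : m ∣ m')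
    (A : ValuationSubring Qb) (hA : A.LiesOverPrime q)
    (K : Type*) [Field K] [Algebra ℚ K] [Algebra K Qb] [Algebra.IsIntegral K Qb]
    (hK : ∀ a : Qb, (∀ σ ∈ A.inertiaSubgroupIn ℚ, σ a = a) → ∃ c : K, algebraMap K Qb c = a)
    {C : ℕ} (hC : C ≠ 0) (hcore : ∀ n : ℕ, CoreK K m' q (p ^ n) C) :
    H35.FixedInput p q (m * q) := by
  have h1 : FixedIn p q (m' * q) := fixedIn_of_coreQ hp A hA hC fun n =>
    coreQ_of_coreK K hK (pow_ne_zero _ hp.ne_zero)
      (fun f => baseIncl_normAlong_beta embQbar hq hqm' f) (hcore n)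
  exact fixedIn_of_dvd hp hq hqm' hmm h1

instance isIntegral_KI (A : ValuationSubring Qb) : Algebra.IsIntegral (H36.KI A) Qb := by
  haveI : Algebra.IsAlgebraic ℚ Qb := AlgebraicClosure.isAlgebraic ℚ
  haveI : Algebra.IsIntegral ℚ Qb := Algebra.IsAlgebraic.isIntegral
  exact Algebra.IsIntegral.tower_top ℚ

/-- **`FixedInput` from the core statement over the inertia field `KI A`.** -/
theorem fixedInput_of_core_KI {p q m m' : ℕ} [NeZero m] [NeZero m'] [NeZero q] [NeZero (m * q)]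
    [NeZero (m' * q)] [NeZero (m * q * q)] [NeZero (m' * q * q)]
    (hp : p.Prime) (hq : q.Prime) (hqm' : ¬ q ∣ m') (hmm : m ∣ m')
    (A : ValuationSubring Qb) (hA : A.LiesOverPrime q)
    {C : ℕ} (hC : C ≠ 0) (hcore : ∀ n : ℕ, CoreK (H36.KI A) m' q (p ^ n) C) :
    H35.FixedInput p q (m * q) :=
  fixedInput_of_coreK hp hq hqm' hmm A hA (H36.KI A)
    (fun a ha => ⟨⟨a, H36.mem_KI.2 ha⟩, rfl⟩) hC hcore

/-- All `FixedInput`s from the core statements at the levels divisible by `4` or `9`. -/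
theorem fixedInput_all
    (hcore : ∀ (p q m c : ℕ) [NeZero m] [NeZero q] [NeZero (m * q)] [NeZero (m * q * q)],
      p.Prime → q.Prime → q ≠ p → ¬ q ∣ m → (c = 4 ∨ c = 9) → c ∣ m →
      ∀ A : ValuationSubring Qb, A.LiesOverPrime q →
      ∀ n : ℕ, CoreK (H36.KI A) m q (p ^ n) ((q + 1) * (q - 1) * (q * q - 1)))
    (p q M : ℕ) [NeZero M] [NeZero (M * q * q)] [NeZero (M * q)] [NeZero q] (hp : p.Prime)
    (hq : q.Prime) (hqp : q ≠ p) (hqM : ¬ q ∣ M) : H35.FixedInput p q (M * q) := by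
  obtain ⟨A, hA⟩ := H54.exists_liesOverPrime hq
  have hC : (q + 1) * (q - 1) * (q * q - 1) ≠ 0 := by
    have h2 := hq.two_le
    have h3 : 1 < q * q := by nlinarith
    have h4 : q - 1 ≠ 0 := by omega
    have h5 : q * q - 1 ≠ 0 := by omega
    positivity
  obtain ⟨c, hc, hqc⟩ : ∃ c : ℕ, (c = 4 ∨ c = 9) ∧ ¬ q ∣ c := by
    rcases eq_or_ne q 2 with rfl | h2
    · exact ⟨9, Or.inr rfl, by norm_num⟩
    · refine ⟨4, Or.inl rfl, fun h => h2 ?_⟩
      have h4 : q ∣ 2 ^ 2 := by simpa using h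
      exact (Nat.prime_dvd_prime_iff_eq hq Nat.prime_two).1 (hq.dvd_of_dvd_pow h4)
  have hc0 : c ≠ 0 := by rcases hc with rfl | rfl <;> norm_num
  haveI : NeZero c := ⟨hc0⟩
  haveI : NeZero (M * c * q) := ⟨mul_ne_zero (mul_ne_zero (NeZero.ne M) hc0) (NeZero.ne q)⟩
  haveI : NeZero (M * c * q * q) :=
    ⟨mul_ne_zero (mul_ne_zero (mul_ne_zero (NeZero.ne M) hc0) (NeZero.ne q)) (NeZero.ne q)⟩
  have hqm' : ¬ q ∣ M * c := fun h => (hq.dvd_mul.1 h).elim hqM hqc
  exact fixedInput_of_core_KI (m' := M * c) hp hq hqm' (dvd_mul_right _ _) A hA hC fun n =>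
    hcore p q (M * c) c hp hq hqp hqm' hc (dvd_mul_left _ _) A hA n

end Fermat.Agent.H92
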