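import Fermat.Agent.H99Three5

/-!
# CARAYOL C4, part 6: the `ThreeData` instance
-/

set_option autoImplicit false
set_option linter.unusedSectionVars false

noncomputable section

open ModularCurve Polynomial IntermediateField AlgebraicCurve Module Fermat.Agent.H60
  Fermat.Agent.H66 Fermat.Agent.H42

namespace Fermat.Agent.H99

theorem X_pow_ne {k E : Type*} [Field k] [Field E] [Algebra k E] {q : ℕ} (R : H83.ResData k E q)
    (hq0 : ((q : ℕ) : E) = 0) : R.X ^ (q * q) - R.X ≠ 0 := by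
  intro h3
  have h4 : R.D (R.X ^ (q * q) - R.X) = -1 := by
    rw [map_sub, Derivation.leibniz_pow, R.D_X, smul_eq_mul, mul_one, nsmul_eq_mul]
    push_cast
    rw [hq0]
    ring
  rw [h3, map_zero] at h4
  exact one_ne_zero (neg_eq_zero.1 h4.symm)

theorem theta_intSeries (R : Type*) [CommRing R] (X₀ : LaurentSeries ℤ) :
    H61.theta (coeffMap (Int.castRingHom R) X₀) =
      coeffMap (Int.castRingHom R) (H61.theta X₀) := by
  ext n
  simp

theorem mem_hor_iff {K : Type*} [Field K] [Algebra ℚ K] {N : ℕ} [NeZero N] {x : FX K N} :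
    x ∈ H68.hor K N ↔ x ∈ horX K N := Iff.rfl

variable {K K' k : Type*} [Field K] [Field K'] [Algebra K K'] [Field k]
  {A : ValuationSubring K} {π : A →+* k} {A' : ValuationSubring K'} {π' : A' →+* k} {q : ℕ}
variable [Algebra ℚ K] [Algebra ℚ K'] [CharZero K'] [hL : Fact (HasRoots K')]
variable {m : ℕ} [NeZero m] [NeZero q] (hq : q.Prime) (hqm : ¬ q ∣ m)
variable {w : AL K m q} (w' : AL K' m q) (w₂ : AL2 K m q w) (w₂' : AL2 K' m q w')
variable (D : RamData A π A' π' q) (hG : D.Gal)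
variable [CharP k q] [CharZero K]
variable {R : H83.ResData k (LaurentSeries k) q} {T : H83.TwoData R (FX K (m * q))}
  {X₀ : LaurentSeries ℤ} (hT : TwoSpec T w π X₀)

local notation "S" => threeSys hq hqm w' w₂ D

section Alpha

include hT

theorem alpha_hor (x : FX K (m * q)) (hx : x ∈ T.hor) :
    heckeAlphaBar K (m * q) q x ∈ (S).hor := by
  rw [hT.hor] at hx
  exact mem_hor_iff.2 (alpha_mem_horX (mem_hor_iff.1 hx))

theorem beta_hor (x : FX K (m * q)) (hx : x ∈ T.hor) :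
    heckeBetaBar K (m * q) q x ∈ (S).hor := by
  rw [hT.hor] at hx
  exact mem_hor_iff.2 (beta_mem_horX (mem_hor_iff.1 hx))

theorem alpha_V0 (x : FX K (m * q)) : heckeAlphaBar K (m * q) q x ∈ (S).V 0 ↔ x ∈ T.V 0 := by
  rw [mem_threeSys_V, emb3_zero_alpha, hT.V0' D]

theorem alpha_V1 (x : FX K (m * q)) : heckeAlphaBar K (m * q) q x ∈ (S).V 1 ↔ x ∈ T.V 0 := by
  rw [mem_threeSys_V, emb3_one_alpha, hT.V0' D]

theorem alpha_V2 (x : FX K (m * q)) : heckeAlphaBar K (m * q) q x ∈ (S).V 2 ↔ x ∈ T.V 1 := by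
  rw [mem_threeSys_V, emb3_two_alpha, expand_mem_iff D.unif' q (coeff_mem_Bdd D (NeZero.ne _) _),
    hT.V1' D]

theorem alpha_res0 (x : FX K (m * q)) :
    (S).res 0 (heckeAlphaBar K (m * q) q x) = T.res 0 x := by
  rw [threeSys_res, emb3_zero_alpha, hT.res0' D]

theorem alpha_res1 (x : FX K (m * q)) :
    (S).res 1 (heckeAlphaBar K (m * q) q x) = T.res 0 x := by
  rw [threeSys_res, emb3_one_alpha, hT.res0' D]

theorem alpha_res2 (x : FX K (m * q)) :
    (S).res 2 (heckeAlphaBar K (m * q) q x) = R.Φ (T.res 1 x) := by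
  rw [threeSys_res, emb3_two_alpha, gres_expand' D.unif' q (coeff_mem_Bdd D (NeZero.ne _) _),
    hT.Φ, hT.res1' D]

theorem beta_V0 (x : FX K (m * q)) : heckeBetaBar K (m * q) q x ∈ (S).V 0 ↔ x ∈ T.V 0 := by
  rw [mem_threeSys_V, emb3_zero_beta, expand_mem_iff D.unif' q (coeff_mem_Bdd D (NeZero.ne _) _),
    hT.V0' D]

theorem beta_V1 (x : FX K (m * q)) : heckeBetaBar K (m * q) q x ∈ (S).V 1 ↔ x ∈ T.V 1 := by
  rw [mem_threeSys_V, emb3_one_beta, twist_mem_iff D.u D.map_u D.coe_u.symm, hT.V1' D]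

theorem beta_V2 (x : FX K (m * q)) : heckeBetaBar K (m * q) q x ∈ (S).V 2 ↔ x ∈ T.V 1 := by
  rw [mem_threeSys_V, emb3_two_beta, hT.V1' D]

theorem beta_res0 (x : FX K (m * q)) :
    (S).res 0 (heckeBetaBar K (m * q) q x) = R.Φ (T.res 0 x) := by
  rw [threeSys_res, emb3_zero_beta, gres_expand' D.unif' q (coeff_mem_Bdd D (NeZero.ne _) _),
    hT.Φ, hT.res0' D]

theorem beta_res1 (x : FX K (m * q)) :
    (S).res 1 (heckeBetaBar K (m * q) q x) = T.res 1 x := by
  rw [threeSys_res, emb3_one_beta, gres_twist' D.u D.map_u D.coe_u.symm, hT.res1' D]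

theorem beta_res2 (x : FX K (m * q)) :
    (S).res 2 (heckeBetaBar K (m * q) q x) = T.res 1 x := by
  rw [threeSys_res, emb3_two_beta, hT.res1' D]

theorem alpha_mem_B {x : FX K (m * q)} (hx : x ∈ T.B) :
    heckeAlphaBar K (m * q) q x ∈ (S).B := by
  rw [H83.CompSys.mem_B] at hx ⊢
  refine ⟨alpha_hor hq hqm w' w₂ D hT x hx.1, fun i => ?_⟩
  fin_cases i
  · exact (alpha_V0 hq hqm w' w₂ D hT x).2 (hx.2 0)
  · exact (alpha_V1 hq hqm w' w₂ D hT x).2 (hx.2 0)
  · exact (alpha_V2 hq hqm w' w₂ D hT x).2 (hx.2 1)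

theorem beta_mem_B {x : FX K (m * q)} (hx : x ∈ T.B) :
    heckeBetaBar K (m * q) q x ∈ (S).B := by
  rw [H83.CompSys.mem_B] at hx ⊢
  refine ⟨beta_hor hq hqm w' w₂ D hT x hx.1, fun i => ?_⟩
  fin_cases i
  · exact (beta_V0 hq hqm w' w₂ D hT x).2 (hx.2 0)
  · exact (beta_V1 hq hqm w' w₂ D hT x).2 (hx.2 1)
  · exact (beta_V2 hq hqm w' w₂ D hT x).2 (hx.2 1)

theorem r_surj3 (i : Fin 3) (c : LaurentSeries k) (hc : c ∈ R.C) :
    ∃ b : (S).B, (S).r i b = c := by
  have key : ∀ (i : Fin 3) (x : (S).B), (S).r i x = (S).res i (x : FX K (m * q * q)) := by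
    intro i x
    rw [threeSys_res]
    rfl
  have keyT : ∀ (i : Fin 2) (x : T.B), T.r i x = T.res i (x : FX K (m * q)) := by
    intro i x
    rw [H83.CompSys.res_of_mem _ ((T.mem_B.1 x.2).2 i)]
    rfl
  fin_cases i
  · obtain ⟨b, hb⟩ := T.r_surj 0 c hc
    refine ⟨⟨heckeAlphaBar K (m * q) q b, alpha_mem_B hq hqm w' w₂ D hT b.2⟩, ?_⟩
    rw [← hb, keyT]
    exact (key 0 _).trans (alpha_res0 hq hqm w' w₂ D hT _)
  · obtain ⟨b, hb⟩ := T.r_surj 0 c hc
    refine ⟨⟨heckeAlphaBar K (m * q) q b, alpha_mem_B hq hqm w' w₂ D hT b.2⟩, ?_⟩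
    rw [← hb, keyT]
    exact (key 1 _).trans (alpha_res1 hq hqm w' w₂ D hT _)
  · obtain ⟨b, hb⟩ := T.r_surj 1 c hc
    refine ⟨⟨heckeBetaBar K (m * q) q b, beta_mem_B hq hqm w' w₂ D hT b.2⟩, ?_⟩
    rw [← hb, keyT]
    exact (key 2 _).trans (beta_res2 hq hqm w' w₂ D hT _)

end Alpha

section Trace

include hT hG w₂'

theorem trace_mem_B {b : FX K (m * q * q)} (hb : b ∈ (S).B) :
    H34.Two.traceAlong (heckeAlphaBar K (m * q) q) b ∈ T.B := by
  rw [H83.CompSys.mem_B] at hb ⊢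
  refine ⟨?_, fun i => ?_⟩
  · rw [hT.hor]
    exact mem_hor_iff.2 (traceAlong_mem_horX (mem_hor_iff.1 hb.1))
  · fin_cases i
    · exact (hT.V0' D _).2 (trace_alpha_zero hq hqm (w := w) w' D hG (hb.2 0) (hb.2 1)).1
    · exact (hT.V1' D _).2 (trace_alpha_one hq w' w₂ w₂' D (hb.2 2))

theorem res_sub_mem {b : FX K (m * q * q)} (hb : b ∈ (S).B) :
    (S).res 0 b - (S).res 1 b ∈ R.C := by
  have h1 := trace_mem_B hq hqm w' w₂ w₂' D hG hT hb
  have h2 := T.r_mem 0 ⟨_, h1⟩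
  have h3 : T.r 0 ⟨_, h1⟩ = T.res 0 (H34.Two.traceAlong (heckeAlphaBar K (m * q) q) b) := by
    rw [H83.CompSys.res_of_mem _ ((T.mem_B.1 h1).2 0)]
    rfl
  have hb' := ((S).mem_B.1 hb).2
  rw [h3, hT.res0' D, (trace_alpha_zero hq hqm (w := w) w' D hG (hb' 0) (hb' 1)).2] at h2
  rw [threeSys_res, threeSys_res]
  exact h2

theorem W₂_mem_B {b : FX K (m * q * q)} (hb : b ∈ (S).B) : w₂.W₂ b ∈ (S).B := by
  rw [H83.CompSys.mem_B] at hb ⊢
  refine ⟨mem_hor_iff.2 (W₂_mem_horX w w₂ (mem_hor_iff.1 hb.1)), fun i => ?_⟩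
  fin_cases i
  · exact hb.2 2
  · exact (midK_W₂_mem hq hqm w' w₂ D hG w₂' (hb.2 1)).1
  · show emb3 hq hqm w' w₂ D 2 (w₂.W₂ b) ∈ GR A' π'
    rw [emb3_two, w₂.invol]
    exact hb.2 0

end Trace

section W

/-- `w = X(q² z) - X(z)` -/
def wElt (T : H83.TwoData R (FX K (m * q))) : FX K (m * q * q) :=
  heckeBetaBar K (m * q) q (T.W T.X) - heckeAlphaBar K (m * q) q T.X

include hT

theorem res0_X : T.res 0 T.X = coeffMap (Int.castRingHom k) X₀ := by
  rw [hT.res0, hT.X, gres_intSeries]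

theorem res0_WX : T.res 0 (T.W T.X) = qExpand k q (coeffMap (Int.castRingHom k) X₀) := by
  rw [hT.W, hT.res0, hT.WX, gres_expand q (intSeries_mem _), gres_intSeries]

theorem X_mem_B : T.X ∈ T.B := by
  rw [H83.CompSys.mem_B]
  exact ⟨T.X_hor, T.X_V⟩

theorem WX_mem_B : T.W T.X ∈ T.B := by
  rw [H83.CompSys.mem_B]
  refine ⟨T.W_hor _ T.X_hor, fun i => ?_⟩
  fin_cases i
  · exact (T.W_V _).1 (T.X_V 1)
  · show T.W T.X ∈ T.V 1
    rw [T.W_V, T.W_W]
    exact T.X_V 0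

theorem wElt_mem : wElt T ∈ (S).B :=
  sub_mem (beta_mem_B hq hqm w' w₂ D hT (WX_mem_B hT)) (alpha_mem_B hq hqm w' w₂ D hT (X_mem_B hT))

theorem res_sub_eq {i : Fin 3} {x y : FX K (m * q * q)} (hx : x ∈ (S).V i) (hy : y ∈ (S).V i) :
    (S).res i (x - y) = (S).res i x - (S).res i y := by
  rw [threeSys_res, threeSys_res, threeSys_res, map_sub, gres_sub hx hy]

theorem res_wElt_one : (S).res 1 (wElt T) = 0 := by
  have h1 := ((S).mem_B.1 (beta_mem_B hq hqm w' w₂ D hT (WX_mem_B hT))).2 1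
  have h2 := ((S).mem_B.1 (alpha_mem_B hq hqm w' w₂ D hT (X_mem_B hT))).2 1
  rw [wElt, res_sub_eq hq hqm w' w₂ D hT h1 h2, beta_res1 hq hqm w' w₂ D hT,
    alpha_res1 hq hqm w' w₂ D hT, T.W_res, T.W_W, sub_self]

theorem res_wElt_zero : (S).res 0 (wElt T) = R.X ^ (q * q) - R.X := by
  have h1 := ((S).mem_B.1 (beta_mem_B hq hqm w' w₂ D hT (WX_mem_B hT))).2 0
  have h2 := ((S).mem_B.1 (alpha_mem_B hq hqm w' w₂ D hT (X_mem_B hT))).2 0
  have hΦ : R.Φ (R.X) = R.X ^ q := by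
    rw [hT.Φ, ← T.res_WX, res0_WX hT, ← T.res_X, res0_X hT]
  rw [wElt, res_sub_eq hq hqm w' w₂ D hT h1 h2, beta_res0 hq hqm w' w₂ D hT,
    alpha_res0 hq hqm w' w₂ D hT, T.res_X, T.res_WX, map_pow, hΦ, ← pow_mul]

end W

section RMem

include hT hG w₂'

theorem res_mul_eq {i : Fin 3} {x y : FX K (m * q * q)} (hx : x ∈ (S).V i) (hy : y ∈ (S).V i) :
    (S).res i (x * y) = (S).res i x * (S).res i y := by
  rw [threeSys_res, threeSys_res, threeSys_res, map_mul, gres_mul hx hy]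

theorem res_pow_eq {i : Fin 3} {x : FX K (m * q * q)} (hx : x ∈ (S).V i) (n : ℕ) :
    (S).res i (x ^ n) = (S).res i x ^ n := by
  rw [threeSys_res, threeSys_res, map_pow, gres_pow hx]

theorem res0_mem {b : FX K (m * q * q)} (hb : b ∈ (S).B) : (S).res 0 b ∈ R.C := by
  have := R.dedekind
  have hw := wElt_mem hq hqm w' w₂ D hT
  refine mem_of_almost R.C (a := R.X ^ (q * q) - R.X) (sub_mem (pow_mem R.X_mem _) R.X_mem)
    (X_pow_ne R (by
      rw [← map_natCast (algebraMap k (LaurentSeries k)), CharP.cast_eq_zero k q, map_zero]))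
    fun n => ?_
  have h1 := res_sub_mem hq hqm w' w₂ w₂' D hG hT (mul_mem hw (pow_mem hb n))
  have hbV := ((S).mem_B.1 hb).2
  have hwV := ((S).mem_B.1 hw).2
  rw [res_mul_eq hq hqm w' w₂ w₂' D hG hT (hwV 0) (pow_mem (hbV 0) n),
    res_mul_eq hq hqm w' w₂ w₂' D hG hT (hwV 1) (pow_mem (hbV 1) n),
    res_wElt_one hq hqm w' w₂ D hT, zero_mul, sub_zero, res_wElt_zero hq hqm w' w₂ D hT,
    res_pow_eq hq hqm w' w₂ w₂' D hG hT (hbV 0)] at h1
  exact h1

theorem r_mem3 (i : Fin 3) (b : (S).B) : (S).r i b ∈ R.C := by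
  have key : ∀ (i : Fin 3) (x : (S).B), (S).r i x = (S).res i (x : FX K (m * q * q)) := by
    intro i x
    rw [threeSys_res]
    rfl
  rw [key]
  fin_cases i
  · exact res0_mem hq hqm w' w₂ w₂' D hG hT b.2
  · have h1 := res_sub_mem hq hqm w' w₂ w₂' D hG hT b.2
    have h2 := res0_mem hq hqm w' w₂ w₂' D hG hT b.2
    have h3 := sub_mem h2 h1
    rw [sub_sub_cancel] at h3
    exact h3
  · have h1 := res0_mem hq hqm w' w₂ w₂' D hG hT (W₂_mem_B hq hqm w' w₂ w₂' D hG hT b.2)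
    rw [threeSys_res] at h1 ⊢
    exact h1

end RMem

section WPow

include hT

/-- the expansion of `w` at the middle component -/
theorem emb_wElt : ∃ Y : LaurentSeries A',
    emb3 hq hqm w' w₂ D 1 (wElt T) =
      algebraMap K' (LaurentSeries K') (D.ϖ : K') * coeffMap A'.subtype Y ∧
    coeffMap π' Y = H61.theta (coeffMap (Int.castRingHom k) X₀) := by
  obtain ⟨Y, hY, hY'⟩ := D.exists_twist_sub (coeffMap (Int.castRingHom A') X₀)
  rw [coeffMap_int_eq A' π'] at hY'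
  refine ⟨Y, ?_, hY'⟩
  have h1 : coeffMap (algebraMap K K') (T.X : LaurentSeries K) =
      coeffMap A'.subtype (coeffMap (Int.castRingHom A') X₀) := by
    rw [hT.X, coeffMap_int_eq K, coeffMap_int_eq A' A'.subtype]
  have h2 : Units.map (A'.subtype : A' →* K') D.u = D.ζ := Units.ext D.coe_u
  rw [wElt, map_sub, emb3_one_beta, emb3_one_alpha, hT.W, w.invol, h1, ← h2,
    ← coeffMap_twist A'.subtype D.u, ← map_sub, hY, map_mul, coeffMap_single_eq]

theorem w_pow_aux : emb3 hq hqm w' w₂ D 1 (wElt T ^ (q - 1) / (q : FX K (m * q * q))) ∈ GR A' π' ∧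
    gres A' π' (emb3 hq hqm w' w₂ D 1 (wElt T ^ (q - 1) / (q : FX K (m * q * q)))) =
      - H61.theta (coeffMap (Int.castRingHom k) X₀) ^ (q - 1) := by
  obtain ⟨Y, hY, hY'⟩ := emb_wElt hq hqm w' w₂ D hT
  obtain ⟨v, hv, hv'⟩ := D.exists_pow_eq hq
  have hq0 : (q : LaurentSeries K') ≠ 0 := by
    rw [← map_natCast (algebraMap K' (LaurentSeries K')), ne_eq, map_eq_zero]
    exact Nat.cast_ne_zero.mpr (NeZero.ne q)
  have h1 : ((D.ϖ : A') : K') ^ (q - 1) = (q : K') * (v : K') := by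
    have := congrArg Subtype.val hv'
    simpa using this
  have h2 : emb3 hq hqm w' w₂ D 1 (wElt T ^ (q - 1) / (q : FX K (m * q * q))) =
      algebraMap K' (LaurentSeries K') (v : K') * coeffMap A'.subtype Y ^ (q - 1) := by
    rw [map_div₀, map_pow, hY, mul_pow, ← map_pow (algebraMap K' (LaurentSeries K')), h1, map_mul,
      map_natCast, emb3_natCast, mul_assoc, mul_div_cancel_left₀ _ hq0]
  rw [h2]
  refine ⟨mul_mem (const_mem v) (pow_mem (int_mem Y) _), ?_⟩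
  rw [gres_mul (const_mem v) (pow_mem (int_mem Y) _), gres_const, gres_pow (int_mem Y), gres_int,
    hv, hY', map_neg, map_one, neg_one_mul]

include hq D in
/-- the residue of `(1/q) dX(qz)/dX(z)` -/
theorem res_der_WX : T.res 0 (T.der (T.W T.X) / (q : FX K (m * q))) =
    H61.theta (coeffMap (Int.castRingHom k) X₀) ^ (q - 1) := by
  have hFq : Fact q.Prime := ⟨hq⟩
  set θK := H61.theta (coeffMap (Int.castRingHom K) X₀) with hθK
  set θk := H61.theta (coeffMap (Int.castRingHom k) X₀) with hθk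
  have hθK' : θK ∈ GR A π := by
    rw [hθK, theta_intSeries]
    exact intSeries_mem _
  have hgθ : gres A π θK = θk := by
    rw [hθK, hθk, theta_intSeries, theta_intSeries, gres_intSeries]
  have hne : gres A π θK ≠ 0 := by
    rw [hgθ]
    exact hT.θX
  have hθ0 : θK ≠ 0 := by
    intro h
    rw [h, gres_zero] at hne
    exact hne rfl
  have hq0 : (q : LaurentSeries K) ≠ 0 := by
    rw [← map_natCast (algebraMap K (LaurentSeries K)), ne_eq, map_eq_zero]
    exact Nat.cast_ne_zero.mpr (NeZero.ne q)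
  have h1 := hT.der (T.W T.X)
  rw [hT.X, hT.W, hT.WX] at h1
  have h2 : H61.theta (qExpand K q (coeffMap (Int.castRingHom K) X₀)) =
      (q : LaurentSeries K) * qExpand K q θK := by
    ext n
    have h3 : ∀ y : LaurentSeries K, ((q : LaurentSeries K) * y).coeff n = (q : K) * y.coeff n := by
      intro y
      rw [← map_natCast (algebraMap K (LaurentSeries K)), coeff_algebraMap_mul]
    rw [h3, H61.coeff_theta]
    by_cases hn : (q : ℤ) ∣ n
    · obtain ⟨j, rfl⟩ := hn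
      rw [qExpand_coeff_mul, qExpand_coeff_mul, hθK, H61.coeff_theta]
      push_cast
      ring
    · rw [qExpand_coeff_of_not_dvd q _ hn, qExpand_coeff_of_not_dvd q _ hn, mul_zero, mul_zero]
  have h4 : ((T.der (T.W T.X) / (q : FX K (m * q)) : FX K (m * q)) : LaurentSeries K) =
      qExpand K q θK / θK := by
    have h5 : ((T.der (T.W T.X) / (q : FX K (m * q)) : FX K (m * q)) : LaurentSeries K) =
        (T.der (T.W T.X) : LaurentSeries K) / (q : LaurentSeries K) := by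
      push_cast
      rfl
    rw [h5, div_eq_div_iff hq0 hθ0, hT.W, h1, h2, mul_comm]
  rw [hT.res0, h4, gres_div (expand_mem q hθK') hne, gres_expand q hθK', hgθ]
  have h6 : θk ^ q = qExpand k q θk := by
    rw [laurent_pow_char q θk]
    congr 1
    rw [hθk, theta_intSeries, coeffMap_int_eq]
  have hθk0 : θk ≠ 0 := hT.θX
  rw [← h6, div_eq_iff hθk0, ← pow_succ, Nat.sub_add_cancel hq.one_lt.le]

end WPow

/-- **The three component data at level `m q²`.** -/
def threeData (hN : IsNoetherianRing (S).B) : H83.ThreeData T (FX K (m * q * q)) where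
  toCompSys := S
  e_zero := rfl
  e_one := rfl
  e_two := rfl
  r_mem := r_mem3 hq hqm w' w₂ w₂' D hG hT
  r_surj := r_surj3 hq hqm w' w₂ D hT
  noeth := hN
  α := (heckeAlphaBar K (m * q) q : FX K (m * q) →+* FX K (m * q * q))
  β := (heckeBetaBar K (m * q) q : FX K (m * q) →+* FX K (m * q * q))
  α_hor := alpha_hor hq hqm w' w₂ D hT
  β_hor := beta_hor hq hqm w' w₂ D hT
  α_V0 := alpha_V0 hq hqm w' w₂ D hT
  α_V1 := alpha_V1 hq hqm w' w₂ D hT
  α_V2 := alpha_V2 hq hqm w' w₂ D hT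
  α_res0 := alpha_res0 hq hqm w' w₂ D hT
  α_res1 := alpha_res1 hq hqm w' w₂ D hT
  α_res2 := alpha_res2 hq hqm w' w₂ D hT
  β_V0 := beta_V0 hq hqm w' w₂ D hT
  β_V1 := beta_V1 hq hqm w' w₂ D hT
  β_V2 := beta_V2 hq hqm w' w₂ D hT
  β_res0 := beta_res0 hq hqm w' w₂ D hT
  β_res1 := beta_res1 hq hqm w' w₂ D hT
  β_res2 := beta_res2 hq hqm w' w₂ D hT
  w_res := res_wElt_one hq hqm w' w₂ D hT
  w_pow := (w_pow_aux hq hqm w' w₂ D hT).1
  w_pow_res := by
    show (S).res 1 (wElt T ^ (q - 1) / (q : FX K (m * q * q))) = _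
    rw [threeSys_res, (w_pow_aux hq hqm w' w₂ D hT).2, res_der_WX hq D hT]
  Nα := normHom (heckeAlphaBar K (m * q) q)
  Nβ := normHom (heckeBetaBar K (m * q) q)
  Nα_hor x hx := by
    rw [hT.hor]
    exact mem_hor_iff.2 (normAlong_mem_horX (mem_hor_iff.1 hx))
  Nβ_hor x hx := by
    rw [hT.hor, normHom_beta w₂]
    exact mem_hor_iff.2 (W_mem_horX w (normAlong_mem_horX (W₂_mem_horX w w₂ (mem_hor_iff.1 hx))))
  Nα_V0 x h0 h1 := by
    have h := normHom_alpha_zero hq hqm (w := w) w' D hG h0 h1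
    rw [hT.V0' D, hT.res0' D, threeSys_res, threeSys_res]
    exact h
  Nα_V1 x h2 := by
    have h := normHom_alpha_one hq w' w₂ w₂' D h2
    rw [hT.V1' D, hT.res1' D, threeSys_res]
    refine ⟨h.1, R.Φ.injective ?_⟩
    rw [hT.Φ, h.2, ← R.pow_q]
    rfl
  Nβ_V1 x h2 h1 := by
    have h1' := midK_W₂_mem hq hqm w' w₂ D hG w₂' h1
    have h := normHom_alpha_zero hq hqm (w := w) w' D hG (x := w₂.W₂ x) h2 h1'.1
    rw [hT.V1' D, hT.res1' D, threeSys_res, threeSys_res, normHom_beta w₂, w.invol]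
    refine ⟨h.1, ?_⟩
    rw [h.2, h1'.2]
    rfl
  Nβ_V0 x h0 := by
    have h := normHom_alpha_one hq w' w₂ w₂' D (x := w₂.W₂ x) (by rw [w₂.invol]; exact h0)
    rw [w₂.invol] at h
    rw [hT.V0' D, hT.res0' D, threeSys_res, normHom_beta w₂]
    refine ⟨h.1, R.Φ.injective ?_⟩
    rw [hT.Φ, h.2, ← R.pow_q]
    rfl
  Nα_α := normHom_alpha_self hq
  Nβ_β := normHom_beta_self w₂ hq

end Fermat.Agent.H99

end
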