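import Mathlib
import Fermat.Agent.H83InstX
import Fermat.Agent.H99Three6
import Fermat.Agent.H92CarD
import Fermat.Agent.H24CuspData
import Fermat.Agent.H36KIDesc

/-!
# [C9]: `CoreK` from the data
-/

set_option autoImplicit false

noncomputable section

namespace Fermat.Agent.H83

open ModularCurve AlgebraicCurve Polynomial IntermediateField Fermat.Agent.H99 Fermat.Agent.H66
  CompSys

section general

variable {K : Type*} [Field K] [Algebra ℚ K] [CharZero K] {k : Type*} [Field k] [IsAlgClosed k]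
  {m q d : ℕ} [NeZero m] [NeZero q] [NeZero (m * q)] [NeZero (m * q * q)]
  {A : ValuationSubring K} {π : A →+* k} {R : ResData k (LaurentSeries k) q}
  {T : TwoData R (FX K (m * q))}

/-- **CoreK from the data.** -/
theorem coreK_of (S : ThreeData T (FX K (m * q * q)))
    (hNα : ∀ x, S.Nα x = H60.normAlong (heckeAlphaBar K (m * q) q) x)
    (hNβ : ∀ x, S.Nβ x = H60.normAlong (heckeBetaBar K (m * q) q) x)
    (hO : BaseHyp A π q d) (hq0 : π (q : A) = 0) {ζ : A} (hζ : IsPrimitiveRoot ζ d)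
    (H : S.Hyp A π) (D : H24.CuspSys k (FX K (m * q * q)) (LaurentSeries k) q)
    (cD : D.toCompSys.Consts A π) (y_eq : D.y = (jX K (m * q * q))⁻¹)
    (V_eq : ∀ i, D.V i = S.V i) (res_eq : ∀ i x, D.res i x = S.res i x)
    (hhor : ∀ x, x ∈ S.hor ↔ x ∈ horX K (m * q * q))
    (hhorD : ∀ x, x ∈ D.hor ↔ x ∈ H36.chart K (jX K (m * q * q))⁻¹)
    (hB : ∀ x ∈ S.B, x ∈ H36.chart A (jX K (m * q * q)))
    (hDB : ∀ x ∈ D.B, x ∈ H36.chart A (jX K (m * q * q))⁻¹)
    (htr : ∀ i, Transcendental k (S.res i (jX K (m * q * q)))) :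
    H92.CoreK K m q d ((q + 1) * (q - 1) * (q * q - 1)) := by
  have hqK : (q : K) ≠ 0 := Nat.cast_ne_zero.2 (NeZero.ne q)
  haveI := H36.BaseHyp_dvr hO hq0 hqK
  have hirr := (H36.BaseHyp_irreducible hO hq0 hqK).1
  have C : CoreHyp S A π D (jX K (m * q * q)) :=
    CoreHyp.of hO H cD (transcendental_jX K _) (finiteDimensional_jX K _) y_eq V_eq res_eq
      (fun x => (hhor x).trans (horX_eq_chart K _ x)) hhorD hB hDB htr
  intro f hf hord c c' g g' hc hc' hg hg' hα hβ
  exact C.core hO (ratPoint K _) hirr hζ hf hord hc hc' hg hg' (by rw [hNα]; exact hα)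
    (by rw [hNβ]; exact hβ)

end general

section KI

variable (A : ValuationSubring (AlgebraicClosure ℚ)) {k : Type*} [Field k] (π : A →+* k)

/-- `d`-th roots of unity are in the inertia field -/
theorem exists_primitiveRoot_OI {d : ℕ} (hd : (d : k) ≠ 0) [IsLocalHom π] :
    ∃ ζ : H36.OI A, IsPrimitiveRoot ζ d := by
  have hd0 : d ≠ 0 := by rintro rfl; exact hd (by simp)
  haveI : NeZero d := ⟨hd0⟩
  haveI : NeZero ((d : ℕ) : AlgebraicClosure ℚ) := ⟨Nat.cast_ne_zero.2 hd0⟩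
  obtain ⟨r, hr⟩ := HasEnoughRootsOfUnity.exists_primitiveRoot (AlgebraicClosure ℚ) d
  have hr1 : r ^ d = 1 := hr.pow_eq_one
  have hr0 : r ≠ 0 := hr.ne_zero hd0
  have hrA : r ∈ A := by
    rcases A.mem_or_inv_mem r with h | h
    · exact h
    · have h1 : r = (r⁻¹) ^ (d - 1) := by
        have : r ^ d = r ^ (d - 1) * r := by
          rw [← pow_succ, Nat.sub_add_cancel (Nat.one_le_iff_ne_zero.2 hd0)]
        rw [this] at hr1
        rw [inv_pow]
        exact eq_inv_of_mul_eq_one_right hr1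
      rw [h1]
      exact pow_mem h _
  have hrπ : π ⟨r, hrA⟩ ≠ 0 := by
    intro h
    have h1 : (⟨r, hrA⟩ : A) ^ d = 1 := Subtype.ext hr1
    have h2 := congrArg π h1
    rw [map_pow, h, zero_pow hd0, map_one] at h2
    exact zero_ne_one h2
  have hfix : ∀ σ ∈ A.inertiaSubgroupIn ℚ, σ r = r := by
    intro σ hσ
    have h1 : (σ r) ^ d = r ^ d := by
      rw [← map_pow, hr1, map_one]
    have hσA : σ r ∈ A := H1.inertia_mem A hσ ⟨r, hrA⟩
    have h2 : π ⟨σ r, hσA⟩ = π ⟨r, hrA⟩ := H1.π_inertia A π hσ ⟨r, hrA⟩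
    by_contra hne
    have h3 : (∑ i ∈ Finset.range d, (σ r) ^ i * r ^ (d - 1 - i)) * (σ r - r) = 0 := by
      rw [(Commute.all (σ r) r).geom_sum₂_mul, h1, sub_self]
    have h4 : (∑ i ∈ Finset.range d, (σ r) ^ i * r ^ (d - 1 - i)) = 0 := by
      rcases mul_eq_zero.1 h3 with h | h
      · exact h
      · exact absurd (sub_eq_zero.1 h) hne
    have h5 : (∑ i ∈ Finset.range d, (⟨σ r, hσA⟩ : A) ^ i * (⟨r, hrA⟩ : A) ^ (d - 1 - i)) = 0 := by
      apply Subtype.ext
      push_cast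
      exact h4
    have h6 := congrArg π h5
    rw [map_sum, map_zero] at h6
    simp only [map_mul, map_pow, h2] at h6
    have h7 : ∀ i ∈ Finset.range d, π ⟨r, hrA⟩ ^ i * π ⟨r, hrA⟩ ^ (d - 1 - i) =
        π ⟨r, hrA⟩ ^ (d - 1) := by
      intro i hi
      rw [← pow_add]
      congr 1
      have := Finset.mem_range.1 hi
      omega
    rw [Finset.sum_congr rfl h7, Finset.sum_const, Finset.card_range, nsmul_eq_mul] at h6
    exact (mul_ne_zero hd (pow_ne_zero _ hrπ)) h6
  refine ⟨⟨⟨r, H36.mem_KI.2 hfix⟩, hrA⟩, ?_⟩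
  have hinj : Function.Injective
      ((algebraMap (H36.KI A) (AlgebraicClosure ℚ)).comp (H36.OI A).subtype) :=
    (algebraMap (H36.KI A) (AlgebraicClosure ℚ)).injective.comp Subtype.val_injective
  exact (IsPrimitiveRoot.map_iff_of_injective hinj).1 hr

end KI

end Fermat.Agent.H83
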