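import Mathlib
import Fermat.Agent.H83C9
import Fermat.Agent.H24CuspX
import Fermat.Agent.H16Ram
import Fermat.Agent.H68TwoInst
import Fermat.Agent.H88GenusEq
import Fermat.Agent.H18LiftGR

/-!
# [C9]: the core statement of CARAYOL over the inertia fields
-/

set_option autoImplicit false

noncomputable section

namespace Fermat.Agent.H83

open ModularCurve AlgebraicCurve Polynomial IntermediateField Fermat.Agent.H99 Fermat.Agent.H66
  CompSys

local notation "Qb" => AlgebraicClosure ℚ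

/-- the inertia field is the fixed field of its Galois group -/
theorem fix_KI (A : ValuationSubring Qb) (z : Qb) (h : ∀ σ : Qb ≃ₐ[H36.KI A] Qb, σ z = z) :
    ∃ a : H36.KI A, algebraMap (H36.KI A) Qb a = z := by
  refine ⟨⟨z, H36.mem_KI.2 fun σ hσ => ?_⟩, rfl⟩
  let σ' : Qb ≃ₐ[H36.KI A] Qb :=
    AlgEquiv.ofRingEquiv (f := (σ : Qb ≃+* Qb)) (fun c => H36.mem_KI.1 c.2 σ hσ)
  exact h σ'

theorem liftInv_KI {q m : ℕ} [NeZero m] [Fact q.Prime] (hqm : ¬ q ∣ m)
    (A : ValuationSubring Qb) (hA : A.LiesOverPrime q) :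
    H24.LiftInv (H36.OI A) (H36.piI A (IsLocalRing.residue A)) m := by
  haveI : IsAlgClosed (IsLocalRing.ResidueField A) := H18.isAlgClosed_residueField A
  intro x hx
  have hx' := H18.mem_CmInv.1 hx
  exact H18.lift_inv_GR (H36.OI A) A (H36.piI A (IsLocalRing.residue A)) (IsLocalRing.residue A)
    (H36.inclOI A) (fun _ => rfl) rfl m
    (H36.piI_surjective A _ hA IsLocalRing.residue_surjective) IsLocalRing.residue_surjective
    (H36.natCast_ne_zero_of_not_dvd A (IsLocalRing.residue A) hA hqm) (fix_KI A)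
    (H88.genusFFEq m hqm A hA) hx'.1 hx'.2

theorem liftK_KI {q m : ℕ} [NeZero m] [Fact q.Prime] (hqm : ¬ q ∣ m)
    (A : ValuationSubring Qb) (hA : A.LiesOverPrime q) :
    H68.LiftK (H36.KI A) m (H36.OI A) (H36.piI A (IsLocalRing.residue A)) := by
  haveI : IsAlgClosed (IsLocalRing.ResidueField A) := H18.isAlgClosed_residueField A
  exact H68.liftK (H36.OI A) A (H36.piI A (IsLocalRing.residue A)) (IsLocalRing.residue A)
    (H36.inclOI A) (fun _ => rfl) rfl m
    (H36.piI_surjective A _ hA IsLocalRing.residue_surjective) IsLocalRing.residue_surjective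
    (H36.natCast_ne_zero_of_not_dvd A (IsLocalRing.residue A) hA hqm) (fix_KI A)
    (H88.genusFFEq m hqm A hA)

/-- **The core statement over the inertia field.** -/
theorem coreK_KI {q m c d : ℕ} [NeZero m] [NeZero q] [NeZero (m * q)] [NeZero (m * q * q)]
    (hq : q.Prime) (hqm : ¬ q ∣ m) (hc : c = 4 ∨ c = 9) (hcm : c ∣ m)
    (A : ValuationSubring Qb) (hA : A.LiesOverPrime q) (hd : ¬ q ∣ d) :
    H92.CoreK (H36.KI A) m q d ((q + 1) * (q - 1) * (q * q - 1)) := by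
  haveI : Fact q.Prime := ⟨hq⟩
  haveI : IsAlgClosed (IsLocalRing.ResidueField A) := H18.isAlgClosed_residueField A
  have hπ : Function.Surjective (IsLocalRing.residue A) := IsLocalRing.residue_surjective
  haveI : CharP (IsLocalRing.ResidueField A) q :=
    H1.charP_of_liesOver A hA (IsLocalRing.residue A)
  have hm : (m : IsLocalRing.ResidueField A) ≠ 0 :=
    H36.natCast_ne_zero_of_not_dvd A (IsLocalRing.residue A) hA hqm
  obtain ⟨ζq, -, hζq⟩ := H63.exists_primitiveRoot q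
  haveI : Fact (HasRoots (H16.Ram.KR A ζq)) := ⟨H16.Ram.hasRoots_KR hA hζq⟩
  have hcop : m.Coprime q := ((Nat.Prime.coprime_iff_not_dvd hq).2 hqm).symm
  let ι : Qb →+* ℂ := H24.embBar
  let ιK : H36.KI A →+* ℂ := ι.comp (algebraMap (H36.KI A) Qb)
  let ιK' : H16.Ram.KR A ζq →+* ℂ := ι.comp (algebraMap (H16.Ram.KR A ζq) Qb)
  obtain ⟨w⟩ := nonempty_AL (L := H36.KI A) (m := m) (q := q) ιK hcop
  obtain ⟨w'⟩ := nonempty_AL (L := H16.Ram.KR A ζq) (m := m) (q := q) ιK' hcop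
  obtain ⟨w₂⟩ := nonempty_AL2 ιK hq hqm w
  obtain ⟨w₂'⟩ := nonempty_AL2 ιK' hq hqm w'
  have hO : BaseHyp (H36.OI A) (H36.piI A (IsLocalRing.residue A)) q d :=
    H36.baseHyp A (IsLocalRing.residue A) hA hπ hd
  have hq0 : H36.piI A (IsLocalRing.residue A) (q : H36.OI A) = 0 := H36.piI_q A _ hA
  have hqK : (q : H36.KI A) ≠ 0 := Nat.cast_ne_zero.2 (NeZero.ne q)
  haveI := H36.BaseHyp_dvr hO hq0 hqK
  have hirr := (H36.BaseHyp_irreducible hO hq0 hqK).1
  obtain ⟨ζ, hζ⟩ := exists_primitiveRoot_OI A (IsLocalRing.residue A) (d := d)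
    (H36.natCast_ne_zero_of_not_dvd A (IsLocalRing.residue A) hA hd)
  have hg := H88.genusFFEq m hqm A hA
  intro f hf hord c₁ c₂ g₁ g₂ hc₁ hc₂ hg₁ hg₂ hα hβ
  exact H24.coreX hqm w' w₂ w₂' (H16.Ram.ramData (IsLocalRing.residue A) hA hζq)
    (H16.Ram.ramData_gal (IsLocalRing.residue A) hA hζq)
    (H68.resDataX A (IsLocalRing.residue A) hπ hm hc hcm q ι hg) hc hcm ιK
    (H36.piI_surjective A _ hA hπ) (fun _ => Iff.rfl) rfl (fun _ => rfl) (liftK_KI hqm A hA)
    (fun _ => rfl) (liftInv_KI hqm A hA) hO hirr hζ hf hord hc₁ hc₂ hg₁ hg₂ hα hβ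

/-- **[C9]: the core statement of CARAYOL.** -/
theorem carCore (p q m c : ℕ) [NeZero m] [NeZero q] [NeZero (m * q)] [NeZero (m * q * q)]
    (hp : p.Prime) (hq : q.Prime) (hqp : q ≠ p) (hqm : ¬ q ∣ m) (hc : c = 4 ∨ c = 9)
    (hcm : c ∣ m) (A : ValuationSubring Qb) (hA : A.LiesOverPrime q) (n : ℕ) :
    H92.CoreK (H36.KI A) m q (p ^ n) ((q + 1) * (q - 1) * (q * q - 1)) :=
  coreK_KI hq hqm hc hcm A hA fun h =>
    hqp ((Nat.prime_dvd_prime_iff_eq hq hp).1 (hq.dvd_of_dvd_pow h))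

end Fermat.Agent.H83
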