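import Fermat.Agent.S24
import Fermat.Agent.S36

/-!
# Reader's guide: expansions of modular functions, the modular polynomial, the cusps of `X₀(q² m)`

This file contains no new mathematics: every theorem is a theorem of the library with its statement
written out, or the unfolding of a definition. No file imports this one. It is a companion of
`GuideModularCurves` (which has the theorems about the degree of `j`, its ramification and the genus,
S24) and of `GuideCarayol` (the normal model of `X₀(q² m)` over a discrete valuation ring, S36), and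
shows what happens behind them in the files `H24*`. All library theorems cited here are used in the
proof of S01, those of part A also in S24, and all but one (`two_relations`, second half) in S36.

## What the block does

**A. Characteristic zero.** The function field of `X₀(N)` over a subfield `K` of `ℂ` is the field
`F_N = K(j(q^d) : d ∣ N) ⊂ K((q))`. One needs: `[F_N : K(j)] = [SL(2, ℤ) : Γ₀(N)]`, and for every
`a ∈ K ∪ {∞}` the embeddings of `F_N` in `ℂ((z))`, `z` a local coordinate of the upper half plane at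
a point over `a`, with the action of the stabiliser. No Riemann surface is constructed: for a function
`x ∈ K[j(q^d) : d ∣ N]` and `γ ∈ SL(2, ℤ)` one takes the Laurent series of the holomorphic function
`τ ↦ x(γ τ)` in the chart `z`. This depends only on the coset of `γ⁻¹` in `SL(2, ℤ)/Γ₀(N)`, and
different cosets give different embeddings. How one reads off places, ramification and genus from
embeddings in `ℂ((z))` with such an action is shown in `GuideRamification`. (The same charts and
expansions are used in `GuideBridge`, `GuideKummerSteps` and `GuideWeightTwoFunctions`. The degree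
of `F_N` over `K(j)` for fields `K` of any characteristic is computed by another method in
`GuideModularEquation`.)

**B. Over the integers.** For a prime `q` the modular polynomial `Ψ(X, Y)` exists over `ℤ`, is monic
of degree `q + 1` in `X`, the degrees of its coefficients are bounded, and
`Ψ ≡ (X - Y^q)(X^q - Y) mod q` (Kronecker). Consequences: the integral relations between `1/j(z)`
and `1/j(q z)` which are used at the cusps, and in characteristic `q` the formula of theorem 23: the
power `(θ(1/j))^(q-1)` is `(1/j)^(q-1)` times a rational function of `1/j` without zero or pole at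
`1/j = 0`, where `θ = t d/dt`.

**C. The cusps (chapter C5 of block CARAYOL).** The special fibre of the normal model of `X₀(q² m)`
has three components, with multiplicities `1`, `q - 1`, `1`. Away from the cusps this is treated with
the chart `j` (`GuideCarayolSteps`). In the chart `1/j` exactly one component passes through each
cusp, and the local ring is factorial. So at the cusps there is no condition on the windings of a
unit along different components. (Section D of `GuideCarayolTools` is a summary of B and C. The two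
charts are used together in `GuideConnectedness`.)

**D, E, F. Steps.** Part D contains steps of the proofs of B, part E steps of C, for the abstract
cusp system; part F shows how the cusp system of `X₀(q² m)` is obtained from the data of
`GuideCarayol` (theorems 12 to 18) by adding the chart `1/j`.

Notes: [179] (S24) and [180] (C5) in Appendix A of `NOTES.md`.

## Notation

`qExpand K d` is the substitution `q ↦ q^d` in Laurent series, `jqModC K` is the expansion
`1/q + 744 + ...` of `j` with coefficients in `K`, `coeffMap φ` applies `φ` to the coefficients,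
`H61.jInv = E₄³/Δ` is the function `j` on the upper half plane, `𝕢 N τ = exp(2πiτ/N)`.
`modularFunctionFieldFullC K N` is the field `F_N`, `H24.jF K N` is `j` as an element of `F_N`, and
`H1.thetaL k` is the derivation `θ = t d/dt` of `k((t))`.
-/

set_option autoImplicit false

open UpperHalfPlane hiding I
open Complex MatrixGroups ModularGroup CongruenceSubgroup ModularCurve Polynomial
open IntermediateField
open scoped Manifold

noncomputable section

namespace Fermat.Agent.Guide.Cusps

/-- `𝕢 h τ = exp(2πiτ/h)`. -/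
local notation "𝕢" => Function.Periodic.qParam

/-! ## A. Modular functions in a local coordinate -/

/-- **1. Convergent Laurent series.** `H24.IsConv F`: absolute convergence on the punctured unit disc.
`H24.evalAt z F` is the value at `z`. Values are multiplicative, and a convergent series is determined
by its values. (`H24Conv`.) -/
theorem convergent_series :
    (∀ F : LaurentSeries ℂ, H24.IsConv F ↔
      ∀ r : ℝ, 0 < r → r < 1 → Summable (fun n : ℤ => ‖F.coeff n‖ * r ^ n)) ∧
    (∀ (z : ℂ) (F : LaurentSeries ℂ), H24.evalAt z F = ∑' n : ℤ, F.coeff n * z ^ n) ∧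
    (∀ F G : LaurentSeries ℂ, H24.IsConv F → H24.IsConv G → ∀ z : ℂ, z ≠ 0 → ‖z‖ < 1 →
      H24.evalAt z (F * G) = H24.evalAt z F * H24.evalAt z G) ∧
    ∀ F G : LaurentSeries ℂ, H24.IsConv F → H24.IsConv G →
      (∀ z : ℂ, z ≠ 0 → ‖z‖ < 1 → H24.evalAt z F = H24.evalAt z G) → F = G :=
  ⟨fun _ => Iff.rfl, fun _ _ => rfl, fun _ _ hF hG _ h0 h1 => H24.evalAt_mul hF hG h0 h1,
    fun _ _ => H24.eq_of_evalAt_eq⟩

/-- **2. Charts.** A chart is a function `z` from the upper half plane to the unit disc which takes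
every value except possibly `0`, and is different from `0` on a dense set. There are two kinds:
`exp(2πiτ/N)` at the cusp `i∞`, and the Cayley transform `H24.cayley τ₀` at a point `τ₀`. (`H24Ring`,
`H24Cayley`.) -/
theorem charts (N : ℕ) [NeZero N] (τ₀ : ℍ) :
    (∀ z : ℍ → ℂ, H24.Chart z ↔ (∀ τ, ‖z τ‖ < 1) ∧
      (∀ w : ℂ, w ≠ 0 → ‖w‖ < 1 → ∃ τ, z τ = w) ∧ Dense {τ | z τ ≠ 0}) ∧
    H24.Chart (fun τ : ℍ => 𝕢 (N : ℝ) τ) ∧ H24.Chart (H24.cayley τ₀) ∧
    ∀ τ : ℍ, H24.cayley τ₀ τ = ((τ : ℂ) - τ₀) / ((τ : ℂ) - (starRingEnd ℂ) (τ₀ : ℂ)) :=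
  ⟨fun _ => ⟨fun h => ⟨h.lt, h.surj, h.dense⟩, fun h => ⟨h.1, h.2.1, h.2.2⟩⟩, H24.chart_qParam N,
    H24.chart_cayley τ₀, fun _ => rfl⟩

/-- **3. The expansion of a function in a chart** (`HasExpC z f F`: `F` is the expansion of `f`) is
unique. (`H24Ring`.) -/
theorem expansion_unique {z : ℍ → ℂ} (hz : H24.Chart z) (f : ℍ → ℂ) :
    (∀ F : LaurentSeries ℂ, H24.HasExpC z f F ↔
      H24.IsConv F ∧ ∀ τ, z τ ≠ 0 → H24.evalAt (z τ) F = f τ) ∧
    ∀ F G : LaurentSeries ℂ, H24.HasExpC z f F → H24.HasExpC z f G → F = G :=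
  ⟨fun _ => Iff.rfl, fun _ _ hF hG => hF.unique hz hG⟩

/-- **4. Holomorphic functions have expansions at all points** of the upper half plane: convergent
power series. If the order of vanishing is finite, it is the order of the expansion. (`H24Cayley`.) -/
theorem expansion_at_point (τ₀ : ℍ) {f : ℍ → ℂ} (hf : MDiff f) :
    ∃ P : PowerSeries ℂ, H24.IsConv (HahnSeries.ofPowerSeries ℤ ℂ P) ∧
      (∀ τ : ℍ, H24.evalAt (H24.cayley τ₀ τ) (HahnSeries.ofPowerSeries ℤ ℂ P) = f τ) ∧
      ∀ n : ℕ, analyticOrderAt (fun z : ℂ => f (ofComplex z)) (τ₀ : ℂ) = n →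
        HahnSeries.ofPowerSeries ℤ ℂ P ≠ 0 ∧ (HahnSeries.ofPowerSeries ℤ ℂ P).order = n :=
  H24.exists_expansion_cayley τ₀ hf

/-- **5. Hermite form.** For `γ ∈ SL(2, ℤ)` and `d ≥ 1` there are `a e = d`, `b` and `M ∈ SL(2, ℤ)`
with `M (d γ τ) = (a τ + b)/e`; if `e = 1` then `d` divides the lower left entry of `γ`. Here
`H24.scale d τ = d τ` and `H24.affine a b e τ = (a τ + b)/e`. (`H24Coset`.) -/
theorem hermite_form (γ : SL(2, ℤ)) (d : ℕ) [NeZero d] :
    ∃ (a e : ℕ) (b : ℤ) (_ : NeZero a) (_ : NeZero e), a * e = d ∧ (e = 1 → (d : ℤ) ∣ γ 1 0) ∧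
      ∃ M : SL(2, ℤ), ∀ τ : ℍ, M • H24.scale d (γ • τ) = H24.affine a b e τ ∧
        ((H24.scale d τ : ℍ) : ℂ) = (d : ℂ) * τ ∧
        ((H24.affine a b e τ : ℍ) : ℂ) = ((a : ℂ) * τ + b) / e :=
  let ⟨a, e, b, ha, he, h₁, h₂, M, hM⟩ := H24.exists_hermite γ d
  ⟨a, e, b, ha, he, h₁, h₂, M, fun τ => ⟨hM τ, rfl, rfl⟩⟩

/-- **6. Expansions of `j(d γ τ)` at the cusp.** For `d ∣ N` the function `τ ↦ j(d γ τ)` is a
convergent Laurent series in `exp(2πiτ/N)`. (`H24Coset`, from the Hermite form; the expansion of `j`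
itself is `H24.hasSum_jqModC` of `H24Ring`.) -/
theorem expansion_at_cusp (N : ℕ) [NeZero N] (d : ℕ) [NeZero d] (hd : d ∣ N) (γ : SL(2, ℤ)) :
    ∃ F : LaurentSeries ℂ, H24.IsConv F ∧
      ∀ τ : ℍ, H24.evalAt (𝕢 (N : ℝ) τ) F = H61.jInv (H24.scale d (γ • τ)) :=
  H24.exists_expansion_scale H24.isConv_jqModC H24.evalAt_jqModC N d hd γ

/-- **7. The coordinate ring** `H24.A K N = K[j(q^d) : d ∣ N]`. Its elements `x` converge, define
holomorphic functions `H24.ev K x` on the upper half plane, invariant under `Γ₀(N)`, and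
`τ ↦ x(γ τ)` has an expansion in `exp(2πiτ/N)` for every `γ`. (`H24Ring`.) -/
theorem coordinate_ring (K : Type*) [Field K] [Algebra K ℂ] (N : ℕ) [NeZero N] :
    H24.A K N = Algebra.adjoin K {x | ∃ (d : ℕ) (_ : NeZero d), d ∣ N ∧
      x = qExpand K d (jqModC K)} ∧
    ∀ x ∈ H24.A K N, (∀ τ : ℍ, H24.ev K x τ =
        H24.evalAt (𝕢 (1 : ℝ) τ) (coeffMap (algebraMap K ℂ) x)) ∧
      H24.IsConv (coeffMap (algebraMap K ℂ) x) ∧ MDiff (H24.ev K x) ∧
      (∀ γ ∈ Gamma0 N, ∀ τ : ℍ, H24.ev K x (γ • τ) = H24.ev K x τ) ∧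
      ∀ γ : SL(2, ℤ), ∃ F, H24.HasExpC (fun τ : ℍ => 𝕢 (N : ℝ) τ)
        (fun τ => H24.ev K x (γ • τ)) F :=
  ⟨rfl, fun _ hx => ⟨fun _ => rfl, (H24.good_of_mem K hx).conv, (H24.good_of_mem K hx).hol,
    fun γ hγ τ => congrFun ((H24.good_of_mem K hx).inv γ hγ) τ, (H24.good_of_mem K hx).exp⟩⟩

/-- **8. The stabiliser of `j(N τ)`** in `SL(2, ℤ)` is `Γ₀(N)`; the functions `j(d τ)`, `d ∣ N`, are
invariant under it. (`H24Coset`.) -/
theorem stabiliser (N : ℕ) [NeZero N] :
    (∀ γ : SL(2, ℤ), (∀ τ : ℍ, H61.jInv (H24.scale N (γ • τ)) = H61.jInv (H24.scale N τ)) →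
      γ ∈ Gamma0 N) ∧
    ∀ (d : ℕ) [NeZero d], d ∣ N → ∀ γ ∈ Gamma0 N, ∀ τ : ℍ,
      H61.jInv (H24.scale d (γ • τ)) = H61.jInv (H24.scale d τ) :=
  ⟨H24.mem_Gamma0_of_jInv_scale_eq H24.isConv_jqModC H24.order_jqModC H24.evalAt_jqModC N,
    fun d _ hd _ hγ => H24.jInv_scale_eq_of_mem_Gamma0 N d hd hγ⟩

/-- **9. Good charts.** `GoodChart K N z`: all functions `x(γ τ)`, `x` in the coordinate ring, have
expansions in the chart `z`. The charts at the cusp and at all points are good; then `H24.phi γ` is the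
map `x ↦ expansion of x(γ τ)`. It is an injective homomorphism of `K`-algebras, and `phi γ = phi γ'`
if and only if `γ' γ⁻¹ ∈ Γ₀(N)`. (`H24Ring`.) -/
theorem embeddings (K : Type*) [Field K] [Algebra K ℂ] (N : ℕ) [NeZero N] :
    H24.GoodChart K N (fun τ : ℍ => 𝕢 (N : ℝ) τ) ∧
    (∀ τ₀ : ℍ, H24.GoodChart K N (H24.cayley τ₀)) ∧
    ∀ (z : ℍ → ℂ) (hz : H24.GoodChart K N z) (γ γ' : SL(2, ℤ)),
      (∀ x : H24.A K N, H24.HasExpC z (fun τ => H24.ev K x (γ • τ)) (H24.phi hz γ x)) ∧
      Function.Injective (H24.phi hz γ) ∧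
      (H24.phi hz γ = H24.phi hz γ' ↔ γ' * γ⁻¹ ∈ Gamma0 N) :=
  ⟨H24.goodChart_qParam K N, H24.goodChart_cayley K N, fun _ hz γ _ => ⟨H24.phi_spec hz γ,
    H24.phi_injective hz γ, H24.mem_of_phi_eq hz, H24.phi_eq_of_mem hz⟩⟩

/-- **10. The embeddings of the function field** `H24.sF hz g : F_N → ℂ((z))`, indexed by the cosets
`g ∈ SL(2, ℤ)/Γ₀(N)`, are pairwise different, and have the same value at `j` (the expansion `y` of `j`
in the chart). **Local monodromy**: if `γ₀` acts on the chart as multiplication by `ζ`, `|ζ| = 1`,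
then it permutes the embeddings as the substitution `z ↦ ζ z`. (`H24Field`.) -/
theorem field_embeddings {K : Type*} [Field K] [Algebra K ℂ] {N : ℕ} [NeZero N] {z : ℍ → ℂ}
    (hz : H24.GoodChart K N z) :
    Function.Injective (H24.sF hz) ∧
    (∀ (g : SL(2, ℤ) ⧸ Gamma0 N) (y : LaurentSeries ℂ), H24.HasExpC z H61.jInv y →
      H24.sF hz g (H24.jF K N) = y) ∧
    ∀ (γ₀ : SL(2, ℤ)) (ζ : ℂˣ), ‖(ζ : ℂ)‖ = 1 → (∀ τ, z (γ₀ • τ) = ζ * z τ) →
      ∀ (g : SL(2, ℤ) ⧸ Gamma0 N) (f : modularFunctionFieldFullC K N) (n : ℤ),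
        (H24.sF hz (γ₀⁻¹ • g) f).coeff n = (ζ : ℂ) ^ n * (H24.sF hz g f).coeff n :=
  ⟨H24.sF_injective hz, fun g _ hy => H24.sF_jF hz g hy,
    fun _ _ hζ h g f n => H24.sF_smul_coeff hz hζ h g f n⟩

/-- **11. Functions invariant under `SL(2, ℤ)`.** A holomorphic invariant function which is a
(convergent) Laurent series in `exp(2πiτ/N)` is a polynomial in `j`. (`H24Inv`; subtract multiples of
powers of `j` until the expansion has no negative terms; an invariant function which is bounded at the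
cusp is constant by the maximum principle.) -/
theorem invariant_functions (N : ℕ) [NeZero N] {f : ℍ → ℂ} (hf : MDiff f)
    (hinv : ∀ (γ : SL(2, ℤ)) (τ : ℍ), f (γ • τ) = f τ) {F : LaurentSeries ℂ}
    (hF : H24.IsConv F) (hFe : ∀ τ : ℍ, H24.evalAt (𝕢 (N : ℝ) τ) F = f τ) :
    ∃ P : Polynomial ℂ, ∀ τ, f τ = P.eval (H61.jInv τ) :=
  H24.exists_poly_of_invariant H24.isConv_jqModC H24.order_jqModC H24.evalAt_jqModC N hf hinv hF hFe

/-- **12. Relations over `K[j]`.** Every `x ∈ K[j(q^d) : d ∣ N]` is a root of a monic polynomial of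
degree `[SL(2, ℤ) : Γ₀(N)]` with coefficients in `K[j]`: over `ℂ` the polynomial with the roots
`x(γ τ)` (theorem 11), then descent to `K` by a `K`-linear retraction `ℂ → K`. (`H24Rel`.) -/
theorem relation (K : Type*) [Field K] [Algebra K ℂ] (N : ℕ) [NeZero N]
    [Fintype (SL(2, ℤ) ⧸ Gamma0 N)] (x : H24.A K N) :
    ∃ p : ℕ → Polynomial K,
      (x : LaurentSeries K) ^ (Fintype.card (SL(2, ℤ) ⧸ Gamma0 N)) +
        ∑ i ∈ Finset.range (Fintype.card (SL(2, ℤ) ⧸ Gamma0 N)),
          aeval (jqModC K) (p i) * (x : LaurentSeries K) ^ i = 0 :=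
  H24.exists_relation x

/-- **13. A degree bound.** Let `F/E` be finite and separable, `F` the field of fractions of a
subalgebra `A` (over an infinite field) all of whose elements are roots of monic polynomials of degree
`n` over `E`. Then `[F : E] ≤ n`: `A` contains an element which separates the embeddings of `F` in an
algebraic closure of `E`. (`H24Degree`.) -/
theorem degree_bound {K F : Type*} [Field K] [Infinite K] [Field F] [Algebra K F]
    (E : IntermediateField K F) [FiniteDimensional E F] [Algebra.IsSeparable E F]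
    (A : Subalgebra K F) (hA : ∀ z : F, ∃ a ∈ A, ∃ b ∈ A, z = a / b) (n : ℕ)
    (hdeg : ∀ a ∈ A, ∃ q : Polynomial E, q.Monic ∧ q.natDegree = n ∧ aeval a q = 0) :
    Module.finrank E F ≤ n :=
  H24.finrank_le_of_degree_bound E A hA n hdeg

/-- **14. The degree of `j`** is the index of `Γ₀(N)`: `≤` by 12 and 13, `≥` by the different
embeddings 10 over `K(j)`. (`H24Field`; see `degree_of_j` in `GuideModularCurves`.) -/
theorem degree (K : Type*) [Field K] [Algebra K ℂ] (N : ℕ) [NeZero N]
    [Fintype (SL(2, ℤ) ⧸ Gamma0 N)] :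
    Module.finrank K⟮H24.jF K N⟯ (modularFunctionFieldFullC K N) =
      Fintype.card (SL(2, ℤ) ⧸ Gamma0 N) :=
  H24.finrank_eq

/-- **15. The local monodromy of `j`.** `H94.LocalEmb K F ℂ ι x e π` is a family of different
embeddings of `F` in `ℂ((z))`, indexed by `ι`, with the same value of order `e` at `x`, such that the
substitution `z ↦ ζ z`, `ζ` a primitive `e`-th root of unity, acts on them as the permutation `π` of
`ι`. For `F = F_N` and `ι = SL(2, ℤ)/Γ₀(N)`: at `j = ∞` one has `e = N`, `π = T`; at `j = 0` (the point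
`ρ`) `e = 3`, `π = S T`; at `j = 1728` (the point `i`) `e = 2`, `π = S`; elsewhere `e = 1`. From this
the ramification of `j` and the genus (S24) follow by `places_of_expansions` of `GuideModularCurves`.
(`H24Final`.) -/
theorem local_monodromy (K : Type*) [Field K] [Algebra K ℂ] (N : ℕ) [NeZero N] :
    Nonempty (H94.LocalEmb K (modularFunctionFieldFullC K N) ℂ (SL(2, ℤ) ⧸ Gamma0 N)
      (H24.jF K N)⁻¹ N (MulAction.toPerm T)) ∧
    Nonempty (H94.LocalEmb K (modularFunctionFieldFullC K N) ℂ (SL(2, ℤ) ⧸ Gamma0 N)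
      (H24.jF K N) 3 (MulAction.toPerm (S * T))) ∧
    Nonempty (H94.LocalEmb K (modularFunctionFieldFullC K N) ℂ (SL(2, ℤ) ⧸ Gamma0 N)
      (H24.jF K N - algebraMap K _ 1728) 2 (MulAction.toPerm S)) ∧
    ∀ a : K, a ≠ 0 → a ≠ 1728 →
      Nonempty (H94.LocalEmb K (modularFunctionFieldFullC K N) ℂ (SL(2, ℤ) ⧸ Gamma0 N)
        (H24.jF K N - algebraMap K _ a) 1 1) :=
  ⟨H24.localEmb_cusp, H24.localEmb_zero, H24.localEmb_1728, fun _ h h' => H24.localEmb_other h h'⟩

/-- **16. Two descriptions of the function field** over an extension `L` of `ℚ`: the field generated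
over `L` by the functions over `ℚ` (`laurentBaseChange L`, also `H99.FX L N` in part F), and
`L(j(q^d) : d ∣ N)`. (`H24Final`.) -/
theorem base_change (L : Type*) [Field L] [Algebra ℚ L] (N : ℕ) :
    laurentBaseChange L (modularFunctionFieldFull N) = modularFunctionFieldFullC L N :=
  H24.laurentBaseChange_full L N

/-! ## B. The modular polynomial over `ℤ`

`q` is a prime, `H24.Rz q = ℤ[ζ]`, `ζ` a primitive `q`-th root of unity (`H24.uz q` as a unit). -/

/-- **17. Notation.** `H24.evZ z P = P(z)` for an integral polynomial `P`, and `H24.psiAt Ψ z` is the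
polynomial `Ψ(X, z)` in the variable `X`, for `Ψ ∈ ℤ[Y][X]`. The series `H66.jf` are
`j(t^(q²))` and the `q` series `j(ζ^i t)`: the transforms of `j(t^q)` under the matrices of
determinant `q`; `H66.tw u` is the substitution `t ↦ u t`. (`H24ModPoly2`, `H66Modular`.) -/
theorem notation_B {B : Type*} [CommRing B] (z : B) (P : ℤ[X]) (Ψ : ℤ[X][X]) (q : ℕ)
    [Fact q.Prime] (i : Fin q) :
    H24.evZ z P = P.eval₂ (Int.castRingHom B) z ∧ H24.psiAt Ψ z = Ψ.map (H24.evZ z) ∧
    H66.jf B q 1 none = HahnSeries.C 1 * qExpand B q (qExpand B q (jqModC B)) ∧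
    ∀ u : Bˣ, H66.jf B q u (some i) = H66.tw (u ^ (i : ℕ)) (jqModC B) :=
  ⟨rfl, rfl, rfl, fun _ => rfl⟩

/-- **18. The modular polynomial** `Ψ ∈ ℤ[Y][X]` is monic of degree `q + 1` in `X`, and
`Ψ(X, j(t^q)) = (X - j(t^(q²))) ∏ (X - j(ζ^i t))`. (`H24ModPoly`, `H24ModPoly2`: the coefficients of
the product are series in `ℤ[ζ]((t))`, fixed by all `ζ ↦ ζ^a`, and polynomials in `j(t^q)` by
helper66's descent `H66*` from `ℂ`. See 31.) -/
theorem modular_polynomial (q : ℕ) [Fact q.Prime] :
    ∃ Ψ : ℤ[X][X], Ψ.Monic ∧ Ψ.natDegree = q + 1 ∧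
      H24.psiAt Ψ (qExpand (H24.Rz q) q (jqModC (H24.Rz q))) =
        ∏ a, (X - C (H66.jf (H24.Rz q) q (H24.uz q) a)) :=
  H24.exists_modPoly q

/-- **19. The two relations**, over every commutative ring: `Ψ(j(t), j(t^q)) = 0` and
`Ψ(j(t^q), j(t)) = 0`. (`H24ModPoly2`.) -/
theorem two_relations {q : ℕ} [Fact q.Prime] {Ψ : ℤ[X][X]}
    (h : H24.psiAt Ψ (qExpand (H24.Rz q) q (jqModC (H24.Rz q))) =
      ∏ a, (X - C (H66.jf (H24.Rz q) q (H24.uz q) a))) (A : Type*) [CommRing A] :
    (H24.psiAt Ψ (qExpand A q (jqModC A))).eval (jqModC A) = 0 ∧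
    (H24.psiAt Ψ (jqModC A)).eval (qExpand A q (jqModC A)) = 0 :=
  ⟨H24.eval_psi1 h A, H24.eval_psi2 h A⟩

/-- **20. Degrees of the coefficients.** The coefficient of `X^k` in `Ψ(X, Y)` has degree at most
`q (q + 1 - k)` in `Y`. (`H24ModPoly2`; compare the orders of the poles, 32.) -/
theorem coefficient_degrees {q : ℕ} [Fact q.Prime] {Ψ : ℤ[X][X]}
    (h : H24.psiAt Ψ (qExpand (H24.Rz q) q (jqModC (H24.Rz q))) =
      ∏ a, (X - C (H66.jf (H24.Rz q) q (H24.uz q) a))) (k : ℕ) (hk : k ≤ q + 1) :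
    (Ψ.coeff k).natDegree ≤ q * (q + 1 - k) :=
  H24.natDegree_coeff_le h k hk

/-- **21. Kronecker's congruence** `Ψ ≡ (X - Y^q)(X^q - Y) mod q`. (`H24Kron`; reduce the product
formula by `ζ ↦ 1`.) -/
theorem kronecker {q : ℕ} [Fact q.Prime] {Ψ : ℤ[X][X]}
    (h : H24.psiAt Ψ (qExpand (H24.Rz q) q (jqModC (H24.Rz q))) =
      ∏ a, (X - C (H66.jf (H24.Rz q) q (H24.uz q) a))) :
    ∃ H : ℤ[X][X], Ψ = (X - C (X ^ q)) * (X ^ q - C X) + C (C (q : ℤ)) * H :=
  H24.kronecker h

/-- **22. Integral relations.** Let `x`, `z` be elements of a field with `Ψ(x, z) = 0` (`H24.Psi q` is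
the modular polynomial). Then `x` is integral over `ℤ[z]`, and, if `z ≠ 0`, `x/z^q` is integral over
`ℤ[1/z]` (by 20). (`H24Int`.) -/
theorem integral_relations {q : ℕ} [Fact q.Prime] {F : Type*} [Field F] {x z : F}
    (h : (H24.psiAt (H24.Psi q) z).eval x = 0) :
    IsIntegral (Algebra.adjoin ℤ {z} : Subalgebra ℤ F) x ∧
      (z ≠ 0 → IsIntegral (Algebra.adjoin ℤ {z⁻¹} : Subalgebra ℤ F) (z⁻¹ ^ q * x)) :=
  ⟨H24.Rel.isIntegral h, fun hz => H24.Rel.isIntegral_inv h hz⟩

/-- **23. The derivative of `1/j` in characteristic `q`.** With `Y = 1/j` and `θ = t d/dt` one has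
`(θ Y)^(q-1) Q(Y) = Y^(q-1) P(Y)` with polynomials `P`, `Q` over the field, `P(0) ≠ 0`, `Q(0) ≠ 0`.
(`H24Eps`; differentiate the relation 19 over `ℤ` modulo `q²`, with Kronecker's congruence: 33.) -/
theorem theta_power (q : ℕ) [Fact q.Prime] (k : Type*) [Field k] [CharP k q] :
    ∃ P Q : k[X], P.eval 0 ≠ 0 ∧ Q.eval 0 ≠ 0 ∧
      (H1.thetaL k (jqModC k)⁻¹) ^ (q - 1) * Q.eval₂ HahnSeries.C (jqModC k)⁻¹ =
        ((jqModC k)⁻¹) ^ (q - 1) * P.eval₂ HahnSeries.C (jqModC k)⁻¹ :=
  H24.exists_eps q k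

/-! ## C. The cusps of the normal model of `X₀(q² m)`

`D : H24.CuspSys k F E q` is a system of three components (`H83.CompSys`, see `GuideCarayol`): valuation
rings `D.V i` of the function field `F`, residue maps `D.res i` with values in a field `E` (Laurent
series over `k`; outside of `D.V i` the value is `0`), the chart ring `D.B` = functions regular in the
chart `1/j` and at the three components, the restrictions `D.r i` of the residue maps to `D.B`, prime
ideals `D.p i` of the components, together with the three functions `y = 1/j(z)`, `y2 = 1/j(q z)`,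
`y3 = 1/j(q² z)`; `D.yB` is `y` as an element of `D.B`.
Let `m` be a prime ideal of `D.B` with `q ∈ m`, `y ∈ m`: a cusp of the special fibre.
`H83.locRing D.B m` is the local ring at `m`. -/

/-- **24. The three functions.** The multiplicities of the components are `1`, `q - 1`, `1`. The
residues of the three functions on the components `0`, `1`, `2` are `(Y, Y^q, Y^(q²))`, `(Y, Y^q, Y)`
and `(Y^(q²), Y^q, Y)`, where `Y` is the reduction of `1/j`, and they satisfy integral relations
(theorem 22). (`H24CuspSys`; for the instance see part F.) -/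
theorem cusp_system {k F E : Type*} [Field k] [Field F] [Field E] [Algebra k E] {q : ℕ}
    (D : H24.CuspSys k F E q) :
    (D.e 0 = 1 ∧ D.e 1 = q - 1 ∧ D.e 2 = 1) ∧
    (D.res 0 D.y = D.Y ∧ D.res 0 D.y2 = D.Y ^ q ∧ D.res 0 D.y3 = D.Y ^ (q * q)) ∧
    (D.res 1 D.y = D.Y ∧ D.res 1 D.y2 = D.Y ^ q ∧ D.res 1 D.y3 = D.Y) ∧
    (D.res 2 D.y = D.Y ^ (q * q) ∧ D.res 2 D.y2 = D.Y ^ q ∧ D.res 2 D.y3 = D.Y) ∧
    IsIntegral (Algebra.adjoin ℤ {D.y2⁻¹} : Subalgebra ℤ F) D.y⁻¹ ∧
    IsIntegral (Algebra.adjoin ℤ {D.y3⁻¹} : Subalgebra ℤ F) D.y2⁻¹ ∧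
    IsIntegral (Algebra.adjoin ℤ {D.y} : Subalgebra ℤ F) (D.y ^ q * D.y2⁻¹) ∧
    IsIntegral (Algebra.adjoin ℤ {D.y3} : Subalgebra ℤ F) (D.y3 ^ q * D.y2⁻¹) :=
  ⟨⟨D.e_zero, D.e_one, D.e_two⟩, ⟨D.res0_y, D.res0_y2, D.res0_y3⟩,
    ⟨D.res1_y, D.res1_y2, D.res1_y3⟩, ⟨D.res2_y, D.res2_y2, D.res2_y3⟩, D.int1, D.int2, D.int3,
    D.int4⟩

/-- **25. Functions at the cusp.** The local ring is integrally closed, hence by 24 it contains `y2`,
`y3`, which are not units, and `y^q/y2` and `y3^q/y2`. (`IsM`: an element of the local ring which is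
not a unit. `H24CuspSys`.) -/
theorem functions_at_cusp {k F E : Type*} [Field k] [Field F] [Field E] [Algebra k E] {q : ℕ}
    (D : H24.CuspSys k F E q) (m : Ideal D.B) [m.IsPrime] (hy : D.yB ∈ m) :
    (∀ x : F, H24.CuspSys.IsM D m x ↔ ∃ h : x ∈ H83.locRing D.B m, ¬ IsUnit
      (⟨x, h⟩ : H83.locRing D.B m)) ∧
    H24.CuspSys.IsM D m D.y ∧ H24.CuspSys.IsM D m D.y2 ∧ H24.CuspSys.IsM D m D.y3 ∧
    D.y ^ q * D.y2⁻¹ ∈ H83.locRing D.B m ∧ D.y3 ^ q * D.y2⁻¹ ∈ H83.locRing D.B m :=
  ⟨fun _ => Iff.rfl, H24.CuspSys.isM_y D m hy, H24.CuspSys.isM_y2 D m hy,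
    H24.CuspSys.isM_y3 D m hy, H24.CuspSys.fα_mem D m hy, H24.CuspSys.gβ_mem D m hy⟩

/-- **26. Their residues.** `y3^q/y2` has the residues `Y^(q³-q)`, `1`, `1` on the components `0`,
`1`, `2`, so it vanishes at the cusps of the component `0` and has the value `1` at those of the other
two. `y^q/y2` has the residues `1`, `Y^(q³-q)` on the components `1`, `2`, so it has the value `1` at
the cusps of the component `1` and vanishes at those of the component `2`. (`H24CuspSys`.) -/
theorem residues_of_quotients {k F E : Type*} [Field k] [Field F] [Field E] [Algebra k E] {q : ℕ}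
    (D : H24.CuspSys k F E q) :
    (D.res 0 (D.y3 ^ q * D.y2⁻¹) = D.Y ^ (q * q * q - q) ∧
      D.res 1 (D.y3 ^ q * D.y2⁻¹) = 1 ∧ D.res 2 (D.y3 ^ q * D.y2⁻¹) = 1) ∧
    D.res 1 (D.y ^ q * D.y2⁻¹) = 1 ∧ D.res 2 (D.y ^ q * D.y2⁻¹) = D.Y ^ (q * q * q - q) :=
  ⟨⟨D.res0_gβ, D.res1_gβ, D.res2_gβ⟩, D.res1_fα, D.res2_fα⟩

/-- **27. Exactly one component passes through a cusp**, by 26. (`H24CuspSys`; theorem 24 of
`GuideCarayol`.) -/
theorem unique_component {k F E : Type*} [Field k] [Field F] [Field E] [Algebra k E] {q : ℕ}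
    (D : H24.CuspSys k F E q) (m : Ideal D.B) [m.IsPrime] (hy : D.yB ∈ m)
    (hq : (q : D.B) ∈ m) : ∃! i, D.p i ≤ m :=
  H24.CuspSys.existsUnique_p D m hy hq

/-- **28. The middle component.** The residue of `(y3 - y)^(q-1)/q` on it is `-(θY)^(q-1)` (there `y3`
is `y` with `t` replaced by `ζ t`, see `H67Eps`), hence by 23 equal to `Y^(q-1)` times a rational
function of `Y` without zero or pole at `Y = 0`. Therefore at a cusp on this component the function
`w = y/y3 - 1` belongs to the local ring, and `w^(q-1)/q` is a unit there. (`H24CuspSys`; steps: 36,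
37.) -/
theorem middle_component {k F E : Type*} [Field k] [Field F] [Field E] [Algebra k E] {q : ℕ}
    (D : H24.CuspSys k F E q) (m : Ideal D.B) [m.IsPrime] (hy : D.yB ∈ m) (h1 : D.p 1 ≤ m) :
    (∃ P Q : k[X], P.eval 0 ≠ 0 ∧ Q.eval 0 ≠ 0 ∧
      D.res 1 ((D.y3 - D.y) ^ (q - 1) / (q : F)) * aeval D.Y Q = D.Y ^ (q - 1) * aeval D.Y P) ∧
    D.y / D.y3 - 1 ∈ H83.locRing D.B m ∧
      (D.y / D.y3 - 1) ^ (q - 1) / (q : F) ∈ H83.locRing D.B m ∧
      ((D.y / D.y3 - 1) ^ (q - 1) / (q : F))⁻¹ ∈ H83.locRing D.B m :=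
  ⟨D.eps, H24.CuspSys.w_mem D m hy h1, H24.CuspSys.ε_mem D m hy h1,
    H24.CuspSys.ε_unit D m hy h1⟩

/-- **29. The residue maps are surjective** onto the Dedekind ring `D.C` of the component: every
`c ∈ D.C` is the residue of an element of the local ring (`D.ρloc m hp` is `D.res i` on the local ring
of a point `m` of the component `i`). (`H24CuspSys`.) -/
theorem residue_surjective {k F E : Type*} [Field k] [Field F] [Field E] [Algebra k E] {q : ℕ}
    (D : H24.CuspSys k F E q) (m : Ideal D.B) [m.IsPrime] (hy : D.yB ∈ m) {i : Fin 3}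
    (hp : D.p i ≤ m) : ∀ c ∈ D.C, ∃ x : H83.locRing D.B m, D.ρloc m hp x = c :=
  H24.CuspSys.surj D m hy hp

/-- **30. The local ring at a cusp is factorial.** The kernel of the residue map of the unique
component is generated by one element (`q` on the outer components, `w` on the middle one), the image
is a localisation of a Dedekind ring, and a noetherian local domain with a principal prime ideal with
such a quotient is factorial. (`H24Cusp`, `H24CuspSys`; steps: 34, 35.) -/
theorem factorial {k F E : Type*} [Field k] [Field F] [Field E] [Algebra k E] {q : ℕ}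
    (D : H24.CuspSys k F E q) (m : Ideal D.B) [m.IsPrime] (hy : D.yB ∈ m)
    (hq : (q : D.B) ∈ m) : UniqueFactorizationMonoid (H83.locRing D.B m) :=
  H24.CuspSys.ufd D m hy hq

/-! ## D. Steps of part B -/

/-- **31. The coefficients in 18 are integral** (step of 18). `H24.cf q k` is the coefficient of
`X^k` in the product of the `X - H66.jf`, a series with coefficients in `ℤ[ζ] = H24.Rz q`, which is a
subring of `ℚ(ζ) = H24.Lz q` by `H24.iz q` (`H24.uL q` is `ζ` in `ℚ(ζ)`). An automorphism of `ℚ(ζ)`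
replaces `ζ` by another primitive root and permutes the factors; so it fixes `H24.cf q k`, and the
coefficients are rational and integral over `ℤ`. The series is a polynomial in `j(t^q)` with integral
coefficients, because it is a polynomial in `j(t^q)` over `ℚ(ζ)` (`GuideModularEquation`).
(`H24ModPoly`, `H24ModPoly2`.) -/
theorem coefficients_integral (q : ℕ) [Fact q.Prime] (k : ℕ) :
    H24.cf q k = (∏ a, (X - C (H66.jf (H24.Rz q) q (H24.uz q) a))).coeff k ∧
    (∀ σ : H24.Lz q →+* H24.Lz q, IsPrimitiveRoot (Units.map σ.toMonoidHom (H24.uL q)) q →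
      coeffMap σ (coeffMap (H24.iz q) (H24.cf q k)) = coeffMap (H24.iz q) (H24.cf q k)) ∧
    (∀ n : ℤ, ∃ z : ℤ, (z : H24.Rz q) = (H24.cf q k).coeff n) ∧
    ∃ P : ℤ[X], coeffMap (Int.castRingHom (H24.Rz q))
      (P.eval₂ HahnSeries.C (qExpand ℤ q (jqModC ℤ))) = H24.cf q k := by
  obtain ⟨P, hP⟩ := H24.exists_P q k
  exact ⟨rfl, fun σ hσ => H24.coeffMap_sigma q σ hσ k, H24.cf_coeff_int q k,
    P, hP ▸ H24.coeffMap_cfZ q k⟩

/-- **32. Orders of poles** (step of 20). `H24.Bd M y`: the series `y` has a pole of order at most `M`.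
If this holds for the `n` series `x i`, the coefficient of `X^k` in `∏ (X - x i)` has a pole of order
at most `M (n - k)`; and the `q + 1` series `H66.jf` have poles of order at most `q²`.
(`H24ModPoly2`.) -/
theorem poles {A : Type*} [CommRing A] {ι : Type*} (s : Finset ι) (x : ι → LaurentSeries A) {M : ℤ}
    (hx : ∀ i ∈ s, H24.Bd M (x i)) (k : ℕ) (hk : k ≤ s.card) (y : LaurentSeries A) (q : ℕ)
    [Fact q.Prime] (u : Aˣ) (a : Option (Fin q)) :
    (H24.Bd M y ↔ ∀ n < -M, y.coeff n = 0) ∧
      H24.Bd (M * (s.card - k)) ((∏ i ∈ s, (X - C (x i))).coeff k) ∧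
      H24.Bd ((q : ℤ) * q) (H66.jf A q u a) :=
  ⟨Iff.rfl, H24.bd_coeff_prod s x hx k hk, H24.bd_jf A u a⟩

/-- **33. The derivative of `j` in characteristic `q`** (step of 23): `(θj)^(q-1) (j - j^(q²))²` is a
polynomial in `j`. Write `j^q - j(t^q) = q δ` over `ℤ`. By Kronecker's congruence and 19 the
reduction of `δ` satisfies `(j - j^(q²)) δ = G(j)` with a polynomial `G`, and one has
`θδ = j^(q-1) θj - (θj)^q`, because `θ(j(t^q)) = q (θj)(t^q)` and `(θj)(t^q)` is congruent to
`(θj)^q`. Apply `θ` to the first equation (chain rule: second statement), divide by `θj`, and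
multiply by `j - j^(q²)`. (`H24Eps`.) -/
theorem theta_relation (q : ℕ) [Fact q.Prime] {A : Type*} [CommRing A] (P : ℤ[X])
    (y : LaurentSeries A) :
    (∃ N : ℤ[X], (H1.thetaL (ZMod q) (jqModC (ZMod q))) ^ (q - 1) *
      (jqModC (ZMod q) - (jqModC (ZMod q)) ^ (q * q)) ^ 2 = H24.evZ (jqModC (ZMod q)) N) ∧
    H1.thetaL A (H24.evZ y P) = H24.evZ y (derivative P) * H1.thetaL A y :=
  ⟨H24.exists_N q, H24.thetaL_evZ P y⟩

/-! ## E. Steps of part C

`S : H83.CompSys F E q ι` is any system of components, `m` a prime ideal of `S.B` on the component `i`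
(`hp : S.p i ≤ m`), and `S.ρloc m hp` the residue map of the component on the local ring. -/

/-- **34. The image of the local ring** (step of 30). Let `C` be a ring which contains the residues of
all chart functions, such that every element of `C` is the residue of an element of the local ring.
Then the residues of the local ring form the localisation of `C` at the prime ideal `H24.nC` of the
residues of non-units. (`H24Cusp`.) -/
theorem image_of_local_ring {F E : Type*} [Field F] [Field E] {q : ℕ} {ι : Type*}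
    (S : H83.CompSys F E q ι) (m : Ideal S.B) [m.IsPrime] {i : ι} (hp : S.p i ≤ m)
    {C : Subring E} (hmem : ∀ b : S.B, S.r i b ∈ C)
    (hsurj : ∀ c ∈ C, ∃ x : H83.locRing S.B m, S.ρloc m hp x = c) :
    (∀ (c : C) (x : H83.locRing S.B m), S.ρloc m hp x = c →
      (c ∈ H24.nC S m hp hsurj ↔ ¬ IsUnit x)) ∧
    (S.ρloc m hp).range = H83.locRing C (H24.nC S m hp hsurj) :=
  ⟨fun _ _ hx => H24.mem_nC_iff S m hp hsurj hx, H24.range_ρloc S m hp hmem hsurj⟩

/-- **35. A criterion for factorial local rings** (step of 30). If moreover `C` is a Dedekind ring,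
`S.B` is noetherian, and `z ≠ 0` is an element of the local ring with residue zero which divides all
elements of `S.p i` in the local ring, then the local ring is factorial. (`H24Cusp`; `z` generates the
kernel of the residue map, and by 34 the quotient is a principal ideal ring.) -/
theorem factorial_criterion {F E : Type*} [Field F] [Field E] {q : ℕ} {ι : Type*}
    (S : H83.CompSys F E q ι) (m : Ideal S.B) [m.IsPrime] {i : ι} (hp : S.p i ≤ m)
    {C : Subring E} (hmem : ∀ b : S.B, S.r i b ∈ C)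
    (hsurj : ∀ c ∈ C, ∃ x : H83.locRing S.B m, S.ρloc m hp x = c)
    [IsNoetherianRing S.B] [IsDedekindDomain C] (z : F) (hz0 : z ≠ 0)
    (hz : z ∈ H83.locRing S.B m) (hzr : S.res i z = 0)
    (hgen : ∀ b ∈ S.p i, (b : F) / z ∈ H83.locRing S.B m) :
    UniqueFactorizationMonoid (H83.locRing S.B m) :=
  H24.ufd_at_local S m hp hmem hsurj z hz0 hz hzr hgen

/-- **36. Division by `q` on the components** (step of 28 and 30). A function which is regular on an
outer component and has residue zero there is divisible by `q`; on the middle component, which has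
multiplicity `q - 1`, this holds for products of `q - 1` such functions (here `x y^(q-2)`). The
function `w = y/y3 - 1` is regular on all components and has residue zero on the middle one.
(`H24CuspSys`.) -/
theorem division_by_q {k F E : Type*} [Field k] [Field F] [Field E] [Algebra k E] {q : ℕ}
    (D : H24.CuspSys k F E q) :
    (∀ x : F, (x ∈ D.V 0 → D.res 0 x = 0 → x / (q : F) ∈ D.V 0) ∧
      (x ∈ D.V 2 → D.res 2 x = 0 → x / (q : F) ∈ D.V 2)) ∧
    (∀ x y : F, x ∈ D.V 1 → D.res 1 x = 0 → y ∈ D.V 1 → D.res 1 y = 0 →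
      x * y ^ (q - 2) / (q : F) ∈ D.V 1) ∧
    (∀ i, D.y / D.y3 - 1 ∈ D.V i) ∧ D.res 1 (D.y / D.y3 - 1) = 0 :=
  ⟨fun _ => ⟨D.div_q0, D.div_q2⟩, fun _ _ hx h hy h' => D.mul_pow_div_q1 hx h hy h',
    fun i => D.w_V i, D.res1_w⟩

/-- **37. Polynomials in `1/j` lift to the chart ring** (step of 28). For `P ∈ k[X]` there is `x` in
`D.B` with residue `P(Y)` on the middle component, and `x = c + y z` where `c` has the constant
residue `P(0)` on all components. If `P(0) ≠ 0`, then `x` is not in `m`. So the residue of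
`w^(q-1)/q`, which is `±P(Y)/Q(Y)` with `P`, `Q` as in 23, is the quotient of the residues of two
units of the local ring. (`H24CuspSys`.) -/
theorem lift_of_polynomials {k F E : Type*} [Field k] [Field F] [Field E] [Algebra k E] {q : ℕ}
    (D : H24.CuspSys k F E q) (P : k[X]) (m : Ideal D.B) [m.IsPrime] (hy : D.yB ∈ m) {i : Fin 3}
    (hp : D.p i ≤ m) :
    (∃ x : D.B, D.r 1 x = aeval D.Y P ∧
      ∃ c : D.B, (∀ i, D.r i c = algebraMap k E (P.eval 0)) ∧ ∃ z : D.B, x = c + D.yB * z) ∧
    ∀ (x c z : D.B) (a : k), (∀ i, D.r i c = algebraMap k E a) → a ≠ 0 → x = c + D.yB * z → x ∉ m :=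
  ⟨H24.CuspSys.exists_lift_poly D P,
    fun _ _ _ _ hc ha hx => H24.CuspSys.lift_notMem D m hy hp hc ha hx⟩

/-! ## F. The cusp system of `X₀(q² m)`

`T : H83.TwoData R F'` and `S : H83.ThreeData T F` describe `X₀(q m)` and `X₀(q² m)` at the places over
`q` (`GuideCarayol`, theorems 12 to 18): the involution `T.W`, the two embeddings `S.α : f(z) ↦ f(z)`,
`S.β : f(z) ↦ f(q z)`, and `R : H83.ResData k E q` describes the residues: the substitution `R.Φ`
(`t ↦ t^q` for `X₀(q² m)`, so it maps `Y` to `Y^q`) and the ring `R.C` of the residues of the chart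
functions. The chart of `T` and `S` is the one of `j`. Here the second chart, the one of `1/j`, is
added. `H36.chart O t` is the ring of the elements which are integral over `O[t]`. -/

/-- **38. Charts.** Membership in a chart can be tested after an embedding of fields; charts are
integrally closed; and an element of `H36.chart O t` is integral over every ring which contains `O`
and `t`. If `t` is regular on the component `i`, so are all elements of the chart of `t`, and their
residues are integral over `k[t̄]`, `t̄` the residue of `t`. (`cS : S.Consts O π`: the elements of `O`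
are regular on all components, with residues given by `π`. `H24CuspInst`.) -/
theorem chart_rings {K k F F₂ E : Type*} [Field K] [Field k] [Field F] [Field F₂] [Field E]
    [Algebra k E] [Algebra K F] {q : ℕ} {ι : Type*} {S : H83.CompSys F E q ι}
    {O : ValuationSubring K} {π : O →+* k} [Algebra O F] [IsScalarTower O K F] [Algebra O F₂]
    (φ : F →+* F₂) (hφ : ∀ c : O, φ (algebraMap O F c) = algebraMap O F₂ c) (t x : F)
    {R : Type*} [CommRing R] (g : R →+* F) (h₁ : ∀ c : O, ∃ r : R, g r = algebraMap O F c)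
    (h₂ : ∃ r : R, g r = t) (cS : S.Consts O π) {i : ι} (ht : t ∈ S.V i) :
    (φ x ∈ H36.chart O (φ t) ↔ x ∈ H36.chart O t) ∧
    (IsIntegral (H36.chart O t) x → x ∈ H36.chart O t) ∧
    (x ∈ H36.chart O t → g.IsIntegralElem x ∧ x ∈ S.V i ∧
      IsIntegral (Algebra.adjoin k {S.res i t}) (S.res i x)) :=
  ⟨H24.map_mem_chart_iff φ hφ, H24.chart_closed x, fun hx =>
    ⟨H24.isIntegral_of_mem_chart hx g h₁ h₂, H24.chart_le_V cS ht hx, H24.isIntegral_res cS ht hx⟩⟩

/-- **39. The data.** `D : H24.CuspData S` consists of the second chart (`D.toChart2 : H24.Chart2 S`,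
an integrally closed ring `D.hor` which contains `1/q`), the function `D.J = j` of level `q m`, the
residue `D.Y` of `1/j`, and a Dedekind ring `D.C` which contains the residues of the functions of the
second chart; the main properties are shown for `X₀(q² m)` in 43 to 48. Here are the relations
between `j(z)`, `j(q z)`, `j(q² z)`, that is `S.α J`, `S.β J`, `S.β (W J)`: `H24.Rel q x z` means
`Ψ(x, z) = 0`. With 22 they give the integral relations of 24. (`H24CuspData`.) -/
theorem relations_of_data {k E F' F : Type*} [Field k] [Field E] [Algebra k E] {q : ℕ}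
    [Fact q.Prime] {R : H83.ResData k E q} [Field F'] {T : H83.TwoData R F'} [Field F]
    {S : H83.ThreeData T F} (D : H24.CuspData S) :
    (∀ x z : F, H24.Rel q x z ↔ (H24.psiAt (H24.Psi q) z).eval x = 0) ∧
    S.α (T.W D.J) = S.β D.J ∧ H24.Rel q (S.α D.J) (S.β D.J) ∧
    H24.Rel q (S.β D.J) (S.β (T.W D.J)) ∧ H24.Rel q (S.β D.J) (S.α D.J) :=
  ⟨fun _ _ => Iff.rfl, D.αWJ, D.rel1, D.rel2, D.rel3⟩

/-- **40. The residues** of `j(z)`, `j(q z)`, `j(q² z)` on the three components follow from the two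
residues of `j` and `j(q z)` at level `q m`: `1/Y` and `1/Y^q` on the component of `∞`, and the same
exchanged on the other one. (`H24CuspData`.) -/
theorem residues_of_data {k E F' F : Type*} [Field k] [Field E] [Algebra k E] {q : ℕ}
    {R : H83.ResData k E q} [Field F'] {T : H83.TwoData R F'} [Field F]
    {S : H83.ThreeData T F} (D : H24.CuspData S) :
    (T.res 0 D.J = D.Y⁻¹ ∧ T.res 0 (T.W D.J) = (D.Y ^ q)⁻¹ ∧ T.res 1 D.J = (D.Y ^ q)⁻¹ ∧
      T.res 1 (T.W D.J) = D.Y⁻¹) ∧
    (S.res 0 (S.α D.J) = D.Y⁻¹ ∧ S.res 1 (S.α D.J) = D.Y⁻¹ ∧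
      S.res 2 (S.α D.J) = (D.Y ^ (q * q))⁻¹) ∧
    (S.res 0 (S.β D.J) = (D.Y ^ q)⁻¹ ∧ S.res 1 (S.β D.J) = (D.Y ^ q)⁻¹ ∧
      S.res 2 (S.β D.J) = (D.Y ^ q)⁻¹) ∧
    S.res 0 (S.β (T.W D.J)) = (D.Y ^ (q * q))⁻¹ ∧ S.res 1 (S.β (T.W D.J)) = D.Y⁻¹ ∧
      S.res 2 (S.β (T.W D.J)) = D.Y⁻¹ :=
  ⟨⟨D.res_J, D.res_WJ, D.res1_J, D.res1_WJ⟩, ⟨D.sres0_α, D.sres1_α, D.sres2_α⟩,
    ⟨D.sres0_β, D.sres1_β, D.sres2_β⟩, D.sres0_βW, D.sres1_βW, D.sres2_βW⟩

/-- **41. The cusp system of the data.** `D.sys : H24.CuspSys` has the components of `S`, the second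
chart, the three functions `1/j(z)`, `1/j(q z)`, `1/j(q² z)`, and the ring `D.C`. (`H24CuspData`.) -/
theorem system_of_data {k E F' F : Type*} [Field k] [Field E] [Algebra k E] {q : ℕ}
    {R : H83.ResData k E q} [Field F'] {T : H83.TwoData R F'} [Field F]
    {S : H83.ThreeData T F} (D : H24.CuspData S) :
    (∀ i, D.sys.V i = S.V i) ∧ (∀ i x, D.sys.res i x = S.res i x) ∧ D.sys.hor = D.hor ∧
    D.sys.y = (S.α D.J)⁻¹ ∧ D.sys.y2 = (S.β D.J)⁻¹ ∧ D.sys.y3 = (S.β (T.W D.J))⁻¹ ∧
    D.sys.Y = D.Y ∧ D.sys.C = D.C.toSubring :=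
  ⟨fun _ => rfl, fun _ _ => rfl, rfl, rfl, rfl, rfl, rfl, rfl⟩

section Instance

variable {K : Type*} [Field K] [Algebra ℚ K] {A : ValuationSubring K} {k : Type*} [Field k]
  {π : A →+* k} {m q : ℕ} [NeZero m] [NeZero q] [hq : Fact q.Prime]
  {R : H83.ResData k (LaurentSeries k) q} {T : H83.TwoData R (H99.FX K (m * q))}
  {S : H83.ThreeData T (H99.FX K (m * q * q))} {w : H99.AL K m q}

omit hq in
/-- **42. The comparison with expansions.** `H24.SeriesHyp A π S w` says that the abstract data `T`, `S`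
(with the function fields `H99.FX K N`, `N = m q`, `m q²`) are given by expansions: `T.V 0` and
`T.res 0` by the Gauss ring `H99.GR` and its residue map `H99.gres`, `T.W` by the Atkin-Lehner
involution `w : H99.AL K m q`, `R.Φ` by `t ↦ t^q`, `R.C` by the functions of level `m` over `k` which
are integral over `k[j]` (`H18.Cm`), `S.α` and `S.β` by the degeneracy maps (`heckeAlphaBar`,
`heckeBetaBar`), and the chart by the functions integral over `K[j]`; the residue of a constant
`c ∈ A` is `π c`. The last part is the derivative of `1/j` on the middle component. (`H24CuspInst`;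
for the data of `X₀(q² m)` in `GuideCarayol`, theorem 18, this is `H24.seriesHyp_threeX` of
`H24CuspX`.) -/
theorem seriesHyp_content (H : H24.SeriesHyp A π S w) :
    (∀ x : H99.FX K (m * q), (x ∈ T.V 0 ↔ (x : LaurentSeries K) ∈ H99.GR A π) ∧
      T.res 0 x = H99.gres A π (x : LaurentSeries K) ∧ T.W x = w.W x ∧
      S.α x = heckeAlphaBar K (m * q) q x ∧ S.β x = heckeBetaBar K (m * q) q x) ∧
    (∀ x, R.Φ x = qExpand k q x) ∧ R.C = H18.Cm k m ∧
    (∀ x, x ∈ S.hor ↔ IsIntegral (Algebra.adjoin K {H99.jX K (m * q * q)}) x) ∧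
    (∀ (i : Fin 3) (c : A), algebraMap K _ (c : K) ∈ S.V i ∧
      S.res i (algebraMap K _ (c : K)) = algebraMap k _ (π c)) ∧
    S.res 1 ((S.β (T.W (H99.jX K (m * q))⁻¹) - S.α (H99.jX K (m * q))⁻¹) ^ (q - 1) /
        (q : H99.FX K (m * q * q))) = - (H1.thetaL k (jqModC k)⁻¹) ^ (q - 1) :=
  ⟨fun x => ⟨H.TV0 x, H.Tres0 x, H.TW x, H.α_eq x, H.β_eq x⟩, H.RΦ, H.RC, H.hor,
    fun i c => ⟨H.cons.mem i c, H.cons.res i c⟩, H.w_pow_res⟩

/-- **43. The function `j`.** `H99.jX K N` is `j` as a function of level `N`. In characteristic `q` its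
residue on the component of `∞` is `j`, that of `w j = j(q z)` is `j^q` (and `j(t^q) = j^q`), the
coefficientwise Frobenius `R.φ` fixes `j`, and `j`, `w j` satisfy the modular equation; `H66.J K q` is
the expansion `j(t^q)`. (`H24CuspInst`.) -/
theorem function_j (H : H24.SeriesHyp A π S w) [CharP k q] :
    T.res 0 (H99.jX K (m * q)) = jqModC k ∧ T.res 0 (T.W (H99.jX K (m * q))) = jqModC k ^ q ∧
    qExpand k q (jqModC k) = jqModC k ^ q ∧ R.φ (jqModC k) = jqModC k ∧
    ((T.W (H99.jX K (m * q)) : H99.FX K (m * q)) : LaurentSeries K) = H66.J K q ∧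
    H24.Rel q (H99.jX K (m * q)) (T.W (H99.jX K (m * q))) :=
  ⟨H.Tres0_jX, H.Tres0_W_jX, H.qExpand_jqModC, H.φ_j, H.coe_W_jX, H.rel⟩

/-- **44. The second chart.** `H24.chart2 S` is the chart of `1/j`, and `(H24.chart2 S).comp` the
system of the three components of `S` with this chart. Its ring of chart functions (regular in
characteristic zero and on the components) is the ring of the functions which are integral over
`A[1/j]`, and it is noetherian; `A` is a discrete valuation ring with uniformizer `q` (`H99.Unif`),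
and `hcard` is the degree of `j` (14; `dedekindPsi N` is the index of `Γ₀(N)`). As for the chart `j`
this follows from the equality `∑ e i μ i = [F : K(j)]` (`GuideCharts`). (`H24CuspInst`, `H16Gs`.) -/
theorem second_chart (H : H24.SeriesHyp A π S w) [CharZero K] [IsAlgClosed k] [CharP k q]
    [IsDiscreteValuationRing A] (hϖ : H99.Unif A π (q : A)) (hqA : Prime (q : A)) (hqm : ¬ q ∣ m)
    (hφX : R.φ R.X = R.X)
    (hcard : Module.finrank (IntermediateField.adjoin K {H99.jX K (m * q * q)})
      (H99.FX K (m * q * q)) = dedekindPsi (m * q * q))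
    (hJt : Transcendental K (H99.jX K (m * q * q))) :
    (H24.chart2 S).hor = H36.chart K (S.α (H99.jX K (m * q)))⁻¹ ∧
    (H24.chart2 S).comp.B = H36.chart A (S.α (H99.jX K (m * q)))⁻¹ ∧
      IsNoetherianRing (H24.chart2 S).comp.B :=
  ⟨rfl, H.chart2_B hϖ hqA hqm hφX hcard hJt⟩

/-- **45. The two charts.** A function of the chart `j` belongs to the chart `1/j` after multiplication
with a power of `1/j`, and conversely. (`H24CuspInst`.) -/
theorem gluing (H : H24.SeriesHyp A π S w) (x : H99.FX K (m * q * q)) :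
    (x ∈ S.hor → ∃ N : ℕ, (S.α (H99.jX K (m * q)))⁻¹ ^ N * x ∈
      H36.chart K (S.α (H99.jX K (m * q)))⁻¹) ∧
    (x ∈ H36.chart K (S.α (H99.jX K (m * q)))⁻¹ →
      ∃ N : ℕ, S.α (H99.jX K (m * q)) ^ N * x ∈ S.hor) :=
  ⟨H.glue x, H.glue' x⟩

/-- **46. The residues of the second chart.** `H18.CmInv k m` is the ring of the functions of level `m`
over `k` which are integral over `k[1/j]`; it is a Dedekind ring if `q ∤ m`. The residues of the
functions of the second chart belong to it, and every element of the ring `R.C` of the chart `j` is a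
quotient of two elements of it. (`H24CuspInst`, `H18CmInv`; see also `GuideFunctionLifting`.) -/
theorem residue_ring (H : H24.SeriesHyp A π S w) [CharP k q] [IsAlgClosed k] (hqm : ¬ q ∣ m)
    (hB : (H24.chart2 S).comp.B = H36.chart A (S.α (H99.jX K (m * q)))⁻¹) :
    (∀ c : LaurentSeries k, c ∈ H18.CmInv k m ↔ c ∈ modularFunctionFieldFullC k m ∧
      IsIntegral (Algebra.adjoin k {(jqModC k)⁻¹}) c) ∧
    IsDedekindDomain (H18.CmInv k m) ∧
    (∀ (i : Fin 3) (b : (H24.chart2 S).comp.B), (H24.chart2 S).comp.r i b ∈ H18.CmInv k m) ∧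
    ∀ c : LaurentSeries k, c ∈ R.C →
      ∃ a b : LaurentSeries k, a ∈ H18.CmInv k m ∧ b ∈ H18.CmInv k m ∧ b ≠ 0 ∧ c * b = a :=
  ⟨fun _ => H18.mem_CmInv,
    H18.isDedekindDomain_CmInv (by rw [Ne, CharP.cast_eq_zero_iff k q]; exact hqm),
    H.r_mem hB, H.frac⟩

/-- **47. Lifting at the cusps.** `H24.LiftInv A π m`: every element of `H18.CmInv k m` is the reduction
of a function `f` of level `m` over `K` which is integral over `K[1/j]`
(`GuideFunctionLifting.lift_at_cusps`). Regarded as a function of level `q m` it has the residue `c`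
on the component of `∞`, its image under `S.α` is a function of the second chart, and the image of
`w f` under `S.β` is integral over the ring generated by the functions of the second chart and
`1/j(q² z)`. On the components `0`, `1` (with `S.α f`) and `2` (with `S.β (w f)`) this is what 29
needs. (`H24CuspInst`.) -/
theorem lifting (H : H24.SeriesHyp A π S w)
    (hB : (H24.chart2 S).comp.B = H36.chart A (S.α (H99.jX K (m * q)))⁻¹)
    (hL : H24.LiftInv A π m) (c : LaurentSeries k) (hc : c ∈ H18.CmInv k m) :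
    (∃ f : H99.FX K m, IsIntegral (Algebra.adjoin K {(jqModC K)⁻¹}) (f : LaurentSeries K) ∧
      (f : LaurentSeries K) ∈ H99.GR A π ∧ H99.gres A π (f : LaurentSeries K) = c) ∧
    ∃ f : H99.FX K (m * q), T.res 0 f = c ∧ f ∈ T.V 0 ∧ S.α f ∈ (H24.chart2 S).comp.B ∧
      IsIntegral (Algebra.adjoin (H24.chart2 S).comp.B {(S.β (T.W (H99.jX K (m * q))))⁻¹} :
        Subalgebra (H24.chart2 S).comp.B (H99.FX K (m * q * q))) (S.β (T.W f)) :=
  ⟨hL c hc, H.lift hL hB c hc⟩

/-- **48. The difference `y3 - y` on the middle component**: the field `eps` of the cusp system (28),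
from 42 (last part) and 23. (`H24CuspInst`.) -/
theorem difference_on_middle_component (H : H24.SeriesHyp A π S w) [CharP k q] :
    ∃ P Q : k[X], P.eval 0 ≠ 0 ∧ Q.eval 0 ≠ 0 ∧
      S.res 1 (((S.β (T.W (H99.jX K (m * q))))⁻¹ - (S.α (H99.jX K (m * q)))⁻¹) ^ (q - 1) /
        (q : H99.FX K (m * q * q))) * aeval (jqModC k)⁻¹ Q =
        (jqModC k)⁻¹ ^ (q - 1) * aeval (jqModC k)⁻¹ P :=
  H.eps

/-- **49. The cusp system of `X₀(q² m)`**: the data `H24.CuspData` for the second chart (44),
`J = j`, `Y = 1/j` (the series over `k`) and `C = H18.CmInv k m`; then `y = 1/j(z)`. For the data of 42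
the cusp system `D.sys` (41) is `H24.sysX`, the second chart in the core theorem of `GuideCarayol` (see
the last theorem of `GuideConnectedness`). (`H24CuspInst`, `H24CuspX`.) -/
theorem cusp_data (H : H24.SeriesHyp A π S w) [CharP k q] [IsAlgClosed k]
    (hπ : Function.Surjective π) (hqm : ¬ q ∣ m) (hL : H24.LiftInv A π m)
    (hB : (H24.chart2 S).comp.B = H36.chart A (S.α (H99.jX K (m * q)))⁻¹)
    (hN : IsNoetherianRing (H24.chart2 S).comp.B) :
    ∃ D : H24.CuspData S, D.toChart2 = H24.chart2 S ∧ D.J = H99.jX K (m * q) ∧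
      D.Y = (jqModC k)⁻¹ ∧ D.C = H18.CmInv k m ∧ D.sys.y = (S.α (H99.jX K (m * q)))⁻¹ :=
  ⟨H.cuspData A π hπ hqm hL hB hN, rfl, rfl, rfl, rfl, rfl⟩

end Instance

end Fermat.Agent.Guide.Cusps
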