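import Fermat.Agent.H53Cond7

set_option autoImplicit false
set_option linter.style.haveILetI false
set_option linter.unusedSectionVars false

/-!
# The ordinary condition is a deformation condition
-/

noncomputable section

open scoped TensorProduct
open IsLocalRing GaloisRep

namespace Fermat.Agent.H53

/-- ordinary matrix form in an adapted basis -/
def OrdBp (P : ValuationSubring (AlgebraicClosure ℚ)) {A : Type} [CommRing A] (r : GQ →* M2 A) :
    Prop :=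
  (∀ σ ∈ P.decompositionSubgroup ℚ, r σ 1 0 = 0) ∧
  (∀ σ ∈ P.inertiaSubgroupIn ℚ, r σ 1 0 = 0 ∧ r σ 1 1 = 1)

lemma ord_iff_exists_ordBp {A : Type} [CommRing A] [IsLocalRing A] (ρ : GaloisRepAdic A)
    (P : ValuationSubring (AlgebraicClosure ℚ)) :
    (∃ L : Submodule A ρ.V,
      (∃ b : Module.Basis (Fin 2) A ρ.V, L = Submodule.span A {b 0}) ∧
      (∀ σ ∈ P.decompositionSubgroup ℚ, ∀ v ∈ L, ρ.ρ σ v ∈ L) ∧
      (∀ σ ∈ P.inertiaSubgroupIn ℚ, ∀ v : ρ.V, ρ.ρ σ v - v ∈ L)) ↔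
    ∃ b : Module.Basis (Fin 2) A ρ.V, OrdBp P (toMat ρ.ρ b) := by
  constructor
  · rintro ⟨L, ⟨b, rfl⟩, hD, hI⟩
    refine ⟨b, fun σ hσ => ?_, fun σ hσ => ?_⟩
    · have h1 := hD σ hσ (b 0) (Submodule.mem_span_singleton_self _)
      rw [mem_span_basis_zero_iff, repr_apply_eq] at h1
      simpa using h1
    · have h1 := hI σ hσ (b 0)
      have h2 := hI σ hσ (b 1)
      rw [mem_span_basis_zero_iff, map_sub, Finsupp.sub_apply, repr_apply_eq] at h1 h2
      simp [sub_eq_zero] at h1 h2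
      exact ⟨h1, h2⟩
  · rintro ⟨b, hD, hI⟩
    refine ⟨_, ⟨b, rfl⟩, fun σ hσ v hv => ?_, fun σ hσ v => ?_⟩
    · rw [mem_span_basis_zero_iff] at hv ⊢
      rw [repr_apply_eq, hv, hD σ hσ, zero_mul, mul_zero, add_zero]
    · rw [mem_span_basis_zero_iff, map_sub, Finsupp.sub_apply, repr_apply_eq,
        (hI σ hσ).1, (hI σ hσ).2]
      ring

section OrdFam

variable (P : ValuationSubring (AlgebraicClosure ℚ)) (τ : GQ)

/-- the ordinarity conditions at `P` -/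
structure OrdCp {A : Type} [CommRing A] (r : GQ →* M2 A) : Prop where
  h1 : (r τ).trace = 1 + (r τ).det
  h2 : ∀ σ ∈ P.decompositionSubgroup ℚ, (r τ - (r τ).det • 1) * r σ * (r τ - 1) = 0
  h3 : ∀ σ ∈ P.inertiaSubgroupIn ℚ, (r τ - (r τ).det • 1) * (r σ - 1) = 0

lemma ordCp_conj {A : Type} [CommRing A] {r r' : GQ →* M2 A} {u : M2 A} (hu : IsUnit u)
    (h : ∀ σ, u * r σ = r' σ * u) (hr : OrdCp P τ r) : OrdCp P τ r' := by
  have htr : ∀ σ, (r σ).trace = (r' σ).trace := fun σ => NatFam.trace_conj hu (h σ)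
  have hdt : ∀ σ, (r σ).det = (r' σ).det := fun σ => NatFam.det_conj hu (h σ)
  have hsub : u * (r τ - (r τ).det • 1) = (r' τ - (r' τ).det • 1) * u := by
    rw [mul_sub, sub_mul, h, hdt]; simp
  have hsub1 : ∀ σ, u * (r σ - 1) = (r' σ - 1) * u := by
    intro σ; rw [mul_sub, sub_mul, h]; simp
  constructor
  · rw [← htr, ← hdt, hr.h1]
  · intro σ hσ
    have h1 := hr.h2 σ hσ
    have h2 : (r' τ - (r' τ).det • 1) * r' σ * (r' τ - 1) * u = 0 := by
      rw [mul_assoc, ← hsub1, ← mul_assoc, mul_assoc _ (r' σ) u, ← h, ← mul_assoc, ← hsub,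
        mul_assoc u, mul_assoc u, h1, mul_zero]
    exact hu.mul_left_eq_zero.mp h2
  · intro σ hσ
    have h1 := hr.h3 σ hσ
    have h2 : (r' τ - (r' τ).det • 1) * (r' σ - 1) * u = 0 := by
      rw [mul_assoc, ← hsub1, ← mul_assoc, ← hsub, mul_assoc u, h1, mul_zero]
    exact hu.mul_left_eq_zero.mp h2

variable {P τ}

lemma OrdBp.ordCp {A : Type} [CommRing A] {r : GQ →* M2 A}
    (hτ : τ ∈ P.inertiaSubgroupIn ℚ) (hr : OrdBp P r) : OrdCp P τ r := by
  obtain ⟨hD, hI⟩ := hr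
  have hM10 := (hI τ hτ).1
  have hM11 := (hI τ hτ).2
  have hdet : (r τ).det = r τ 0 0 := by
    rw [Matrix.det_fin_two, hM10, hM11]; ring
  have e1 : r τ - (r τ).det • 1 = !![0, r τ 0 1; 0, 1 - r τ 0 0] := by
    rw [hdet]
    ext i j
    fin_cases i <;> fin_cases j <;> simp [hM10, hM11]
  have e2 : r τ - 1 = !![r τ 0 0 - 1, r τ 0 1; 0, 0] := by
    ext i j
    fin_cases i <;> fin_cases j <;> simp [hM10, hM11]
  constructor
  · rw [Matrix.trace_fin_two, hdet, hM11, add_comm]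
  · intro σ hσ
    rw [e1, e2]
    have hs : r σ = !![r σ 0 0, r σ 0 1; 0, r σ 1 1] := by
      conv_lhs => rw [Matrix.eta_fin_two (r σ)]
      rw [hD σ hσ]
    rw [hs, Matrix.mul_fin_two, Matrix.mul_fin_two]
    ext i j
    fin_cases i <;> fin_cases j <;> simp
  · intro σ hσ
    rw [e1]
    have hs : r σ - 1 = !![r σ 0 0 - 1, r σ 0 1; 0, 0] := by
      ext i j
      fin_cases i <;> fin_cases j <;> simp [(hI σ hσ).1, (hI σ hσ).2]
    rw [hs, Matrix.mul_fin_two]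
    ext i j
    fin_cases i <;> fin_cases j <;> simp

lemma OrdCp.exists_ordBp {A : Type} [CommRing A] [IsLocalRing A] (ρ : GaloisRepAdic A)
    (b : Module.Basis (Fin 2) A ρ.V) (hδ : IsUnit ((toMat ρ.ρ b τ).det - 1))
    (hr : OrdCp P τ (toMat ρ.ρ b)) :
    ∃ b' : Module.Basis (Fin 2) A ρ.V, OrdBp P (toMat ρ.ρ b') ∧
      toMat ρ.ρ b' τ = !![(toMat ρ.ρ b τ).det, 0; 0, 1] := by
  obtain ⟨u, hu, hu2⟩ := exists_diag (toMat ρ.ρ b τ) hr.h1 hδ
  obtain ⟨b', hb'⟩ := exists_basis_conj ρ b u hu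
  have hdet : (toMat ρ.ρ b' τ).det = (toMat ρ.ρ b τ).det := NatFam.det_conj hu (hb' τ)
  have hτ' : toMat ρ.ρ b' τ = !![(toMat ρ.ρ b τ).det, 0; 0, 1] := by
    have h1 := hb' τ
    rw [hu2] at h1
    exact hu.mul_left_cancel h1
  refine ⟨b', ?_, hτ'⟩
  -- transport the conditions
  have hr' : OrdCp P τ (toMat ρ.ρ b') := by
    obtain ⟨w, hw⟩ := hu
    refine ordCp_conj P τ (u := (↑w⁻¹ : M2 A)) (w⁻¹).isUnit (fun σ => ?_) hr
    have h1 := hb' σ
    rw [← hw] at h1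
    have h2 : (↑w⁻¹ : M2 A) * ((w : M2 A) * toMat ρ.ρ b' σ) * (↑w⁻¹ : M2 A) =
        (↑w⁻¹ : M2 A) * (toMat ρ.ρ b σ * w) * (↑w⁻¹ : M2 A) := by rw [h1]
    rw [← mul_assoc, Units.inv_mul, one_mul] at h2
    rw [h2, mul_assoc, mul_assoc, Units.mul_inv, mul_one]
  set δ := (toMat ρ.ρ b τ).det with hδdef
  have e1 : toMat ρ.ρ b' τ - (toMat ρ.ρ b' τ).det • 1 = !![0, 0; 0, 1 - δ] := by
    rw [hdet, hτ']
    ext i j
    fin_cases i <;> fin_cases j <;> simp
  have e2 : toMat ρ.ρ b' τ - 1 = !![δ - 1, 0; 0, 0] := by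
    rw [hτ']
    ext i j
    fin_cases i <;> fin_cases j <;> simp
  have hδ' : IsUnit (1 - δ) := by
    have := hδ.neg
    rwa [neg_sub] at this
  refine ⟨fun σ hσ => ?_, fun σ hσ => ?_⟩
  · have h1 := congrFun (congrFun (hr'.h2 σ hσ) 1) 0
    rw [e1, e2, Matrix.eta_fin_two (toMat ρ.ρ b' σ), Matrix.mul_fin_two, Matrix.mul_fin_two] at h1
    simp at h1
    exact (hδ'.mul_right_eq_zero).mp ((hδ.mul_left_eq_zero).mp h1)
  · have h1 := congrFun (congrFun (hr'.h3 σ hσ) 1) 0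
    have h2 := congrFun (congrFun (hr'.h3 σ hσ) 1) 1
    rw [e1, Matrix.mul_apply, Fin.sum_univ_two] at h1 h2
    simp only [Matrix.of_apply, Matrix.cons_val', Matrix.cons_val_zero, Matrix.cons_val_one,
      Matrix.sub_apply, Matrix.one_apply, zero_mul, zero_add, Matrix.zero_apply,
      Matrix.cons_val_fin_one] at h1 h2
    norm_num at h1 h2
    constructor
    · exact (hδ'.mul_right_eq_zero).mp h1
    · exact sub_eq_zero.mp ((hδ'.mul_right_eq_zero).mp h2)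

end OrdFam

/-- matrix condition equivalent to `OrdCp` -/
def OrdMatp (P : ValuationSubring (AlgebraicClosure ℚ)) (τ : GQ)
    ⦃A : Type⦄ [CommRing A] [IsLocalRing A] (ρ : GaloisRepAdic A) : Prop :=
  (MatCond (PlainC (ordF1 τ)) ρ ∧ MatCond (PlainC (ordF2 P τ)) ρ) ∧
    MatCond (PlainC (ordF3 P τ)) ρ

lemma ordMatp_iff (P : ValuationSubring (AlgebraicClosure ℚ)) (τ : GQ)
    {A : Type} [CommRing A] [IsLocalRing A]
    (ρ : GaloisRepAdic A) (b : Module.Basis (Fin 2) A ρ.V) :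
    OrdMatp P τ ρ ↔ OrdCp P τ (toMat ρ.ρ b) := by
  rw [OrdMatp, (isMatCondition_plain _).matCond_iff ρ b, (isMatCondition_plain _).matCond_iff ρ b,
    (isMatCondition_plain _).matCond_iff ρ b]
  constructor
  · rintro ⟨⟨h1, h2⟩, h3⟩
    constructor
    · have e : (toMat ρ.ρ b τ).trace • (1 : M2 A) - (1 + (toMat ρ.ρ b τ).det • (1 : M2 A)) = 0 :=
        h1 ()
      have e' := congrFun (congrFun e 0) 0
      simp only [Matrix.sub_apply, Matrix.smul_apply, Matrix.add_apply, Matrix.one_apply_eq,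
        Matrix.zero_apply, smul_eq_mul, mul_one, sub_eq_zero] at e'
      exact e'
    · intro σ hσ
      exact h2 ⟨σ, hσ⟩
    · intro σ hσ
      exact h3 ⟨σ, hσ⟩
  · rintro ⟨h1, h2, h3⟩
    refine ⟨⟨fun _ => ?_, fun i => h2 i.1 i.2⟩, fun i => h3 i.1 i.2⟩
    show (toMat ρ.ρ b τ).trace • (1 : M2 A) - (1 + (toMat ρ.ρ b τ).det • (1 : M2 A)) = 0
    rw [h1, add_smul, one_smul, sub_self]

/-- **Adapted basis**: an ordinary representation with cyclotomic determinant has an adapted basis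
diagonalising any element of inertia on which the mod `p` cyclotomic character is nontrivial. -/
lemma exists_ordBp_diag (p : ℕ) [Fact p.Prime] {A : Type} [CommRing A] [IsLocalRing A]
    (ρ : GaloisRepAdic A) (hdet : ρ.DetIsCyclotomic p) (hord : ρ.IsOrdinaryAt p)
    {P : ValuationSubring (AlgebraicClosure ℚ)} (hP : P.LiesOverPrime p) {τ : GQ}
    (hτ : τ ∈ P.inertiaSubgroupIn ℚ) (hτ1 : ExtCitation.cycloChar p τ ≠ 1) :
    ∃ b : Module.Basis (Fin 2) A ρ.V, OrdBp P (toMat ρ.ρ b) ∧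
      toMat ρ.ρ b τ = !![(toMat ρ.ρ b τ).det, 0; 0, 1] ∧ IsUnit ((toMat ρ.ρ b τ).det - 1) := by
  obtain ⟨b, hb⟩ := (ord_iff_exists_ordBp ρ P).mp (hord P hP)
  have h1 := hb.ordCp hτ
  have h2 := isUnit_det_sub_one p ρ hdet b hτ1
  obtain ⟨b', h3, h4⟩ := h1.exists_ordBp ρ b h2
  have h5 : (toMat ρ.ρ b' τ).det = (toMat ρ.ρ b τ).det := by
    rw [h4, Matrix.det_fin_two_of]
    ring
  exact ⟨b', h3, by rw [h5]; exact h4, by rw [h5]; exact h2⟩

lemma det_and_ordinary_iff (p : ℕ) [Fact p.Prime] (hp2 : p ≠ 2) {A : Type} [CommRing A]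
    [IsLocalRing A] (ρ : GaloisRepAdic A) :
    (ρ.DetIsCyclotomic p ∧ ρ.IsOrdinaryAt p) ↔
      (ρ.DetIsCyclotomic p ∧
        ∀ P : {P : ValuationSubring (AlgebraicClosure ℚ) // P.LiesOverPrime p},
          OrdMatp P.1 (tauAt p hp2 P) ρ) := by
  refine and_congr_right fun hdet => ?_
  obtain ⟨b⟩ := exists_basis ρ
  constructor
  · intro h P
    have hτ := (exists_tau p hp2 P.1 P.2).choose_spec
    obtain ⟨b', hb'⟩ := (ord_iff_exists_ordBp ρ P.1).mp (h P.1 P.2)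
    exact (ordMatp_iff P.1 _ ρ b').mpr (hb'.ordCp hτ.1)
  · intro h P hP
    have hτ := (exists_tau p hp2 P hP).choose_spec
    have h1 := (ordMatp_iff P _ ρ b).mp (h ⟨P, hP⟩)
    rw [ord_iff_exists_ordBp]
    obtain ⟨b', h3, -⟩ := OrdCp.exists_ordBp ρ b (isUnit_det_sub_one p ρ hdet b hτ.2) h1
    exact ⟨b', h3⟩

theorem isDeformationCondition_det_and_ordinary (𝒪 : Type) [CommRing 𝒪] [IsLocalRing 𝒪]
    (p : ℕ) [Fact p.Prime] (hp2 : p ≠ 2) :
    IsDeformationCondition 𝒪 (fun _A _ _ _ ρ => ρ.DetIsCyclotomic p ∧ ρ.IsOrdinaryAt p) := by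
  have hp0 : p ≠ 0 := (Fact.out : p.Prime).ne_zero
  refine isDeformationCondition_congr (isDeformationCondition_and
    (isDeformationCondition_detIsCyclotomic 𝒪 p hp0)
    (isDeformationCondition_forall (fun P : {P : ValuationSubring (AlgebraicClosure ℚ) //
        P.LiesOverPrime p} => isDeformationCondition_and
      (isDeformationCondition_and
        ((isMatCondition_plain (ordF1 (tauAt p hp2 P))).isDeformationCondition 𝒪)
        ((isMatCondition_plain (ordF2 P.1 (tauAt p hp2 P))).isDeformationCondition 𝒪))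
      ((isMatCondition_plain (ordF3 P.1 (tauAt p hp2 P))).isDeformationCondition 𝒪))))
    fun _ _ _ _ ρ => (det_and_ordinary_iff p hp2 ρ).symm

/-- the ordinary condition with unipotent inertia at a set of primes -/
theorem isDeformationCondition_ordinary (𝒪 : Type) [CommRing 𝒪] [IsLocalRing 𝒪]
    (p : ℕ) [Fact p.Prime] (hp2 : p ≠ 2) (S T : Finset ℕ) :
    IsDeformationCondition 𝒪 (fun _A _ _ _ ρ => ordinaryCondition 𝒪 p S ρ ∧
      ∀ q ∈ T, q.Prime → q ≠ p → ρ.IsUnipotentOnInertiaAt q) := by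
  refine isDeformationCondition_congr (isDeformationCondition_and (isDeformationCondition_and
    (isDeformationCondition_det_and_ordinary 𝒪 p hp2)
    (isDeformationCondition_forall (fun q : {q : ℕ // q.Prime ∧ q ∉ S} =>
      isDeformationCondition_unramifiedAt 𝒪 q.1)))
    (isDeformationCondition_forall (fun q : {q : ℕ // q ∈ T ∧ q.Prime ∧ q ≠ p} =>
      isDeformationCondition_unipotentOnInertiaAt 𝒪 q.1))) ?_
  intro A _ _ _ ρ
  constructor
  · rintro ⟨⟨⟨h1, h2⟩, h3⟩, h4⟩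
    exact ⟨⟨h1, h2, fun q hq hqS => h3 ⟨q, hq, hqS⟩⟩, fun q hqT hq hqp => h4 ⟨q, hqT, hq, hqp⟩⟩
  · rintro ⟨⟨h1, h2, h3⟩, h4⟩
    exact ⟨⟨⟨h1, h2⟩, fun q => h3 q.1 q.2.1 q.2.2⟩, fun q => h4 q.1 q.2.1 q.2.2.1 q.2.2.2⟩

end Fermat.Agent.H53
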