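import Fermat.Agent.H53Flat1

set_option autoImplicit false
set_option linter.style.haveILetI false
set_option linter.unusedSectionVars false

noncomputable section

open scoped TensorProduct
open IsLocalRing GaloisRep

namespace Fermat.Agent.H53

section Test

variable {𝒪 : Type} [CommRing 𝒪] [IsLocalRing 𝒪]

lemma test_of_surjective {A B : Type} [CommRing A] [IsLocalRing A] [Algebra 𝒪 A] [CommRing B]
    [IsLocalRing B] [Algebra 𝒪 B] (hlA : IsLocalHom (algebraMap 𝒪 A))
    (hsA : Function.Surjective (IsLocalRing.residue A ∘ algebraMap 𝒪 A)) (q : A →ₐ[𝒪] B)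
    (hq : Function.Surjective q) (hB : IsArtinianRing B) : IsArtinianTestAlgebra 𝒪 B := by
  haveI hqloc : IsLocalHom (q : A →+* B) := IsLocalHom.of_surjective _ hq
  refine ⟨?_, ?_, hB⟩
  · have : algebraMap 𝒪 B = (q : A →+* B).comp (algebraMap 𝒪 A) := q.comp_algebraMap.symm
    rw [this]
    exact RingHom.isLocalHom_comp _ _
  · intro y
    obtain ⟨y', rfl⟩ := residue_surjective y
    obtain ⟨a, rfl⟩ := hq y'
    obtain ⟨c, hc⟩ := hsA (residue A a)
    refine ⟨c, ?_⟩
    rw [Function.comp_apply, ← sub_eq_zero, ← map_sub, residue_eq_zero_iff]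
    rw [Function.comp_apply, ← sub_eq_zero, ← map_sub, residue_eq_zero_iff] at hc
    have h2 : algebraMap 𝒪 B c - q a = (q : A →+* B) (algebraMap 𝒪 A c - a) := by
      rw [map_sub]
      simp
    rw [h2]
    have h3 := map_maximalIdeal_pow (q : A →+* B) hqloc 1
      (a := algebraMap 𝒪 A c - a) (by rwa [pow_one])
    rwa [pow_one] at h3

lemma finite_residueField [Finite (ResidueField 𝒪)] {A : Type} [CommRing A] [IsLocalRing A]
    [Algebra 𝒪 A] (hlA : IsLocalHom (algebraMap 𝒪 A))
    (hsA : Function.Surjective (IsLocalRing.residue A ∘ algebraMap 𝒪 A)) :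
    Finite (ResidueField A) := by
  refine Finite.of_surjective (ResidueField.map (algebraMap 𝒪 A)) ?_
  intro y
  obtain ⟨c, hc⟩ := hsA y
  exact ⟨residue 𝒪 c, by rw [ResidueField.map_residue]; exact hc⟩

lemma finite_of_artinian {A : Type} [CommRing A] [IsLocalRing A] [IsArtinianRing A]
    [Finite (ResidueField A)] : Finite A := by
  obtain ⟨n, hn⟩ := (isArtinianRing_iff_isNilpotent_maximalIdeal A).mp ‹_›
  haveI : Finite (A ⧸ maximalIdeal A) := ‹Finite (ResidueField A)›
  haveI h1 : Finite (A ⧸ maximalIdeal A ^ n) :=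
    Ideal.finite_quotient_pow (IsNoetherian.noetherian _) n
  refine Finite.of_injective (Ideal.Quotient.mk (maximalIdeal A ^ n)) ?_
  rw [RingHom.injective_iff_ker_eq_bot, Ideal.mk_ker, hn, Ideal.zero_eq_bot]

lemma finite_of_test [Finite (ResidueField 𝒪)] {A : Type} [CommRing A] [IsLocalRing A]
    [Algebra 𝒪 A] (hA : IsArtinianTestAlgebra 𝒪 A) : Finite A := by
  haveI := finite_residueField hA.isLocalHom hA.residue_surjective
  haveI := hA.isArtinian
  exact finite_of_artinian

end Test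

theorem isDeformationCondition_flatAt (𝒪 : Type) [CommRing 𝒪] [IsLocalRing 𝒪]
    [Finite (ResidueField 𝒪)] (p : ℕ) [Fact p.Prime] :
    IsDeformationCondition 𝒪 (fun _A _ _ _ ρ => ρ.IsFlatAt p) := by
  constructor
  · intro A _ _ _ hA ρ ρ' h hρ
    haveI := finite_of_test hA
    obtain ⟨b⟩ := exists_basis ρ
    obtain ⟨b'⟩ := exists_basis ρ'
    obtain ⟨u, hu, huc⟩ := (isEquiv_iff_conj ρ ρ' b b').mp h
    rw [isFlatAt_iff_flatM_of_finite p ρ' b']
    rw [isFlatAt_iff_flatM_of_finite p ρ b] at hρ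
    exact hρ.conj hu huc
  · intro A B _ _ _ _ _ _ hA hB φ hφ ρ hρ
    haveI := finite_of_test hA
    haveI := finite_of_test hB
    obtain ⟨b⟩ := exists_basis ρ
    rw [isFlatAt_iff_flatM_of_finite p ρ b] at hρ
    rw [isFlatAt_iff_flatM_of_finite p _ (bcBasis _ hφ ρ b), toMat_bcBasis]
    exact hρ.map _
  · intro A B _ _ _ _ _ _ hA hB φ hφ hinj ρ hρ
    haveI := finite_of_test hA
    haveI := finite_of_test hB
    obtain ⟨b⟩ := exists_basis ρ
    rw [isFlatAt_iff_flatM_of_finite p ρ b]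
    rw [isFlatAt_iff_flatM_of_finite p _ (bcBasis _ hφ ρ b), toMat_bcBasis] at hρ
    exact FlatM.of_injective _ hinj hρ
  · intro A B D P _ _ _ _ _ _ _ _ _ _ _ _ hA hB hD hP f g pA pB hpA hpB hfg hinj hsurj ρ h1 h2
    haveI := finite_of_test hA
    haveI := finite_of_test hB
    haveI := finite_of_test hP
    obtain ⟨b⟩ := exists_basis ρ
    rw [isFlatAt_iff_flatM_of_finite p _ (bcBasis _ hpA ρ b), toMat_bcBasis] at h1
    rw [isFlatAt_iff_flatM_of_finite p _ (bcBasis _ hpB ρ b), toMat_bcBasis] at h2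
    rw [isFlatAt_iff_flatM_of_finite p ρ b]
    exact FlatM.of_prod _ _ hinj h1 h2
  · intro A _ _ _ _ _ hlA hsA ρ
    obtain ⟨b⟩ := exists_basis ρ
    haveI hresfin := finite_residueField hlA hsA
    constructor
    · intro h B _ _ _ hB q hq hqs
      haveI := finite_of_test hB
      rw [isFlatAt_iff_flatM_of_finite p _ (bcBasis _ hq ρ b), toMat_bcBasis]
      rw [isFlatAt_iff_flatM p ρ b] at h
      let e : A ⧸ RingHom.ker (q : A →+* B) ≃+* B :=
        RingHom.quotientKerEquivOfSurjective (f := (q : A →+* B)) hqs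
      haveI : Finite (A ⧸ RingHom.ker (q : A →+* B)) := Finite.of_equiv _ e.symm.toEquiv
      have h1 := (h.2 (RingHom.ker (q : A →+* B)) this).map (e : A ⧸ RingHom.ker (q : A →+* B) →+* B)
      rw [← mapMat_comp] at h1
      have h2 : (e : A ⧸ RingHom.ker (q : A →+* B) →+* B).comp
          (Ideal.Quotient.mk (RingHom.ker (q : A →+* B))) = (q : A →+* B) := by
        ext x
        rfl
      rwa [h2] at h1
    · intro h
      rw [isFlatAt_iff_flatM p ρ b]
      refine ⟨hresfin, fun I hI => ?_⟩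
      by_cases htop : I = ⊤
      · haveI : Subsingleton (A ⧸ I) := Ideal.Quotient.subsingleton_iff.mpr htop
        exact flatM_of_subsingleton _
      · haveI : Nontrivial (A ⧸ I) := Ideal.Quotient.nontrivial_iff.mpr htop
        haveI : IsLocalRing (A ⧸ I) :=
          IsLocalRing.of_surjective' (Ideal.Quotient.mk _) Ideal.Quotient.mk_surjective
        have htest : IsArtinianTestAlgebra 𝒪 (A ⧸ I) :=
          test_of_surjective hlA hsA (Ideal.Quotient.mkₐ 𝒪 I) (Ideal.Quotient.mkₐ_surjective 𝒪 I)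
            inferInstance
        haveI hqloc : IsLocalHom (Ideal.Quotient.mk I) :=
          IsLocalHom.of_surjective _ Ideal.Quotient.mk_surjective
        have h1 := h htest (Ideal.Quotient.mkₐ 𝒪 I) hqloc (Ideal.Quotient.mkₐ_surjective 𝒪 I)
        have h2 := (isFlatAt_iff_flatM_of_finite p _
          (bcBasis (Ideal.Quotient.mk I) hqloc ρ b)).mp h1
        rw [toMat_bcBasis] at h2
        exact h2

/-- the flat condition with unipotent inertia at a set of primes -/
theorem isDeformationCondition_flat (𝒪 : Type) [CommRing 𝒪] [IsLocalRing 𝒪]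
    [Finite (ResidueField 𝒪)] (p : ℕ) [Fact p.Prime] (S T : Finset ℕ) :
    IsDeformationCondition 𝒪 (fun _A _ _ _ ρ => flatCondition 𝒪 p S ρ ∧
      ∀ q ∈ T, q.Prime → q ≠ p → ρ.IsUnipotentOnInertiaAt q) := by
  have hp0 : p ≠ 0 := (Fact.out : p.Prime).ne_zero
  refine isDeformationCondition_congr (isDeformationCondition_and (isDeformationCondition_and
    (isDeformationCondition_and (isDeformationCondition_detIsCyclotomic 𝒪 p hp0)
      (isDeformationCondition_flatAt 𝒪 p))
    (isDeformationCondition_forall (fun q : {q : ℕ // q.Prime ∧ q ∉ S} =>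
      isDeformationCondition_unramifiedAt 𝒪 q.1)))
    (isDeformationCondition_forall (fun q : {q : ℕ // q ∈ T ∧ q.Prime ∧ q ≠ p} =>
      isDeformationCondition_unipotentOnInertiaAt 𝒪 q.1))) ?_
  intro A _ _ _ ρ
  constructor
  · rintro ⟨⟨⟨h1, h2⟩, h3⟩, h4⟩
    exact ⟨⟨h1, h2, fun q hq hqS => h3 ⟨q, hq, hqS⟩⟩, fun q hqT hq hqp => h4 ⟨q, hqT, hq, hqp⟩⟩
  · rintro ⟨⟨h1, h2, h3⟩, h4⟩
    exact ⟨⟨⟨h1, h2⟩, fun q => h3 q.1 q.2.1 q.2.2⟩, fun q => h4 q.1 q.2.1 q.2.2.1 q.2.2.2⟩

end Fermat.Agent.H53
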