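import Mathlib

set_option autoImplicit false

namespace Fermat.Agent.H65

open IsLocalRing PowerSeries

section PS

variable {R : Type*} [CommRing R] [IsLocalRing R]

theorem ps_mem_maximalIdeal_iff (f : R⟦X⟧) :
    f ∈ maximalIdeal R⟦X⟧ ↔ constantCoeff f ∈ maximalIdeal R := by
  rw [mem_maximalIdeal, mem_maximalIdeal, mem_nonunits_iff, mem_nonunits_iff,
    PowerSeries.isUnit_iff_constantCoeff]

theorem ps_pow_mem_coeff (n : ℕ) : ∀ f ∈ (maximalIdeal R⟦X⟧) ^ n, ∀ i : ℕ,
    coeff i f ∈ (maximalIdeal R) ^ (n - i) := by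
  induction n with
  | zero => intro f _ i; simp
  | succ n ih =>
    intro f hf i
    rw [pow_succ] at hf
    refine Submodule.mul_induction_on (C := fun f => coeff i f ∈ (maximalIdeal R) ^ (n + 1 - i))
      hf ?_ ?_
    · intro a ha b hb
      rw [coeff_mul]
      refine Ideal.sum_mem _ fun ⟨c, d⟩ hcd => ?_
      have hcd' : c + d = i := by simpa using hcd
      simp only
      have h1 := ih a ha c
      have h2 : coeff d b ∈ (maximalIdeal R) ^ (1 - d) := by
        rcases Nat.eq_zero_or_pos d with rfl | hd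
        · simpa using (ps_mem_maximalIdeal_iff b).1 hb
        · have : 1 - d = 0 := by omega
          rw [this]; simp
      have h3 := Ideal.mul_mem_mul h1 h2
      rw [← pow_add] at h3
      exact Ideal.pow_le_pow_right (by omega) h3
    · intro x y hx hy
      rw [map_add]
      exact Ideal.add_mem _ hx hy

theorem ps_C_mem_pow {n : ℕ} {a : R} (ha : a ∈ (maximalIdeal R) ^ n) :
    (C a : R⟦X⟧) ∈ (maximalIdeal R⟦X⟧) ^ n := by
  have h1 : (maximalIdeal R).map (C : R →+* R⟦X⟧) ≤ maximalIdeal R⟦X⟧ := by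
    rw [Ideal.map_le_iff_le_comap]
    intro x hx
    rw [Ideal.mem_comap, ps_mem_maximalIdeal_iff]
    simpa using hx
  have h2 := Ideal.mem_map_of_mem (C : R →+* R⟦X⟧) ha
  rw [Ideal.map_pow] at h2
  exact Ideal.pow_right_mono h1 n h2

theorem ps_X_mem : (X : R⟦X⟧) ∈ maximalIdeal R⟦X⟧ := by
  rw [ps_mem_maximalIdeal_iff]; simp

theorem ps_mem_pow_of_coeff (n : ℕ) (f : R⟦X⟧)
    (h : ∀ i : ℕ, coeff i f ∈ (maximalIdeal R) ^ (n - i)) : f ∈ (maximalIdeal R⟦X⟧) ^ n := by
  have hdecomp : f = (∑ i ∈ Finset.range n, C (coeff i f) * X ^ i) +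
      X ^ n * PowerSeries.mk (fun i => coeff (i + n) f) := by
    have := PowerSeries.eq_X_pow_mul_shift_add_trunc n f
    ext j
    rw [map_add, coeff_X_pow_mul', map_sum]
    simp only [coeff_C_mul, coeff_X_pow, mul_ite, mul_one, mul_zero, coeff_mk]
    rw [Finset.sum_ite_eq]
    by_cases hj : j < n
    · rw [if_pos (Finset.mem_range.2 hj), if_neg (by omega), add_zero]
    · rw [if_neg (by simpa using hj), if_pos (by omega), zero_add]
      congr 2; omega
  rw [hdecomp]
  refine Ideal.add_mem _ (Ideal.sum_mem _ fun i hi => ?_) ?_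
  · have h1 := Ideal.mul_mem_mul (ps_C_mem_pow (h i)) (Ideal.pow_mem_pow (ps_X_mem (R := R)) i)
    rw [← pow_add] at h1
    exact Ideal.pow_le_pow_right (by have := Finset.mem_range.1 hi; omega) h1
  · exact Ideal.mul_mem_right _ _ (Ideal.pow_mem_pow (ps_X_mem (R := R)) n)

theorem ps_mem_pow_iff (n : ℕ) (f : R⟦X⟧) :
    f ∈ (maximalIdeal R⟦X⟧) ^ n ↔ ∀ i : ℕ, coeff i f ∈ (maximalIdeal R) ^ (n - i) :=
  ⟨fun hf => ps_pow_mem_coeff n f hf, ps_mem_pow_of_coeff n f⟩

theorem isAdicComplete_powerSeries [IsAdicComplete (maximalIdeal R) R] :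
    IsAdicComplete (maximalIdeal R⟦X⟧) R⟦X⟧ where
  haus' := by
    intro f hf
    ext i
    rw [map_zero]
    refine IsHausdorff.haus (I := maximalIdeal R) inferInstance _ fun n => ?_
    have h1 := hf (n + i)
    rw [SModEq.zero, smul_eq_mul, Ideal.mul_top] at h1 ⊢
    have := ps_pow_mem_coeff (n + i) f h1 i
    simpa using this
  prec' := by
    intro f hf
    have hf' : ∀ m n : ℕ, m ≤ n → f m - f n ∈ (maximalIdeal R⟦X⟧) ^ m := by
      intro m n hmn
      have := hf hmn
      rw [SModEq.sub_mem, smul_eq_mul, Ideal.mul_top] at this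
      exact this
    have key : ∀ i : ℕ, ∃ c : R, ∀ n : ℕ, coeff i (f (n + i)) - c ∈ (maximalIdeal R) ^ n := by
      intro i
      obtain ⟨c, hc⟩ := IsPrecomplete.prec (I := maximalIdeal R) (M := R) inferInstance
        (f := fun n => coeff i (f (n + i))) (by
          intro m n hmn
          rw [SModEq.sub_mem, smul_eq_mul, Ideal.mul_top]
          have := ps_pow_mem_coeff _ _ (hf' (m + i) (n + i) (by omega)) i
          simpa using this)
      refine ⟨c, fun n => ?_⟩
      have := hc n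
      rw [SModEq.sub_mem, smul_eq_mul, Ideal.mul_top] at this
      exact this
    choose c hc using key
    refine ⟨PowerSeries.mk c, fun n => ?_⟩
    rw [SModEq.sub_mem, smul_eq_mul, Ideal.mul_top]
    refine ps_mem_pow_of_coeff n _ fun i => ?_
    rw [map_sub, coeff_mk]
    by_cases hi : n ≤ i
    · have : n - i = 0 := by omega
      rw [this]; simp
    · have := hc i (n - i)
      rwa [Nat.sub_add_cancel (by omega)] at this

end PS

section MvPS

theorem isAdicComplete_mvPowerSeries_fin {𝒪 : Type*} [CommRing 𝒪] [IsLocalRing 𝒪]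
    [IsAdicComplete (maximalIdeal 𝒪) 𝒪] (h : ℕ) :
    IsAdicComplete (maximalIdeal (MvPowerSeries (Fin h) 𝒪)) (MvPowerSeries (Fin h) 𝒪) := by
  induction h with
  | zero =>
    let e := (MvPowerSeries.isEmptyEquiv (σ := Fin 0) (R := 𝒪)).toRingEquiv
    have := (IsAdicComplete.congr_ringEquiv (maximalIdeal (MvPowerSeries (Fin 0) 𝒪)) e).1
    rw [map_ringEquiv_maximalIdeal] at this
    exact this inferInstance
  | succ h ih =>
    let e := (MvPowerSeries.finSuccEquiv 𝒪 h).toRingEquiv
    have h1 := (IsAdicComplete.congr_ringEquiv (maximalIdeal (MvPowerSeries (Fin (h + 1)) 𝒪)) e).1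
    rw [map_ringEquiv_maximalIdeal] at h1
    exact h1 isAdicComplete_powerSeries

end MvPS

end Fermat.Agent.H65
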