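import Mathlib
import Fermat.Agent.H65PowerSeries
import Fermat.Prelude.Thm_IsLocalRing_isAdicComplete_of_module_finite

set_option autoImplicit false

namespace Fermat.Agent.H65

open IsLocalRing

section Ev

variable {𝒪 : Type} [CommRing 𝒪] {P : Type} [CommRing P] [Algebra 𝒪 P] {h : ℕ}

/-- evaluation of power series at `x` in `P ⧸ I`, when `I` contains `mP ^ n`. -/
noncomputable def ev (mP : Ideal P) (x : Fin h → P) (hx : ∀ i, x i ∈ mP) (n : ℕ) (I : Ideal P)
    (hI : mP ^ n ≤ I) : MvPowerSeries (Fin h) 𝒪 →ₐ[𝒪] P ⧸ I :=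
  (Ideal.Quotient.liftₐ ((MvPolynomial.idealOfVars (Fin h) 𝒪) ^ n)
    ((Ideal.Quotient.mkₐ 𝒪 I).comp (MvPolynomial.aeval x)) (by
      intro a ha
      have h1 : (MvPolynomial.idealOfVars (Fin h) 𝒪).map
          (MvPolynomial.aeval x : MvPolynomial (Fin h) 𝒪 →ₐ[𝒪] P) ≤ mP := by
        rw [MvPolynomial.idealOfVars, Ideal.map_span, Ideal.span_le]
        rintro _ ⟨_, ⟨i, rfl⟩, rfl⟩
        simpa using hx i
      have h2 := Ideal.mem_map_of_mem
        (MvPolynomial.aeval x : MvPolynomial (Fin h) 𝒪 →ₐ[𝒪] P) ha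
      rw [Ideal.map_pow] at h2
      rw [AlgHom.comp_apply, Ideal.Quotient.mkₐ_eq_mk, Ideal.Quotient.eq_zero_iff_mem]
      exact hI (Ideal.pow_right_mono h1 n h2))).comp
    ((MvPowerSeries.truncTotalAlgHom (Fin h) 𝒪 n).restrictScalars 𝒪)

theorem ev_apply (mP : Ideal P) (x : Fin h → P) (hx : ∀ i, x i ∈ mP) (n : ℕ) (I : Ideal P)
    (hI : mP ^ n ≤ I) (f : MvPowerSeries (Fin h) 𝒪) :
    ev mP x hx n I hI f = Ideal.Quotient.mk I (MvPolynomial.aeval x (f.truncTotal n)) := rfl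

theorem ev_X (mP : Ideal P) (x : Fin h → P) (hx : ∀ i, x i ∈ mP) (n : ℕ) (I : Ideal P)
    (hI : mP ^ n ≤ I) (i : Fin h) :
    ev mP x hx n I hI (MvPowerSeries.X i : MvPowerSeries (Fin h) 𝒪) = Ideal.Quotient.mk I (x i) := by
  have h1 := (MvPowerSeries.truncTotalAlgHom (Fin h) 𝒪 n).commutes (MvPolynomial.X i)
  have h2 : (algebraMap (MvPolynomial (Fin h) 𝒪) (MvPowerSeries (Fin h) 𝒪)) (MvPolynomial.X i) =
      MvPowerSeries.X i := MvPolynomial.coe_X i
  rw [h2] at h1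
  rw [ev, AlgHom.comp_apply, AlgHom.restrictScalars_apply, h1]
  change Ideal.Quotient.mk I (MvPolynomial.aeval x (MvPolynomial.X i)) = _
  rw [MvPolynomial.aeval_X]

theorem ev_change (mP : Ideal P) (x : Fin h → P) (hx : ∀ i, x i ∈ mP) {n m : ℕ} (hnm : n ≤ m)
    {I J : Ideal P} (hI : mP ^ n ≤ I) (hJ : mP ^ m ≤ J) (hJI : J ≤ I)
    (f : MvPowerSeries (Fin h) 𝒪) :
    Ideal.Quotient.factor hJI (ev mP x hx m J hJ f) = ev mP x hx n I hI f := by
  rw [ev_apply, ev_apply, Ideal.Quotient.factor_mk, Ideal.Quotient.eq, ← map_sub]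
  have h1 := MvPowerSeries.truncTotal_sub_truncTotal_mem_pow_idealOfVars hnm (le_refl n) f
  have h1' : (MvPolynomial.idealOfVars (Fin h) 𝒪).map
      (MvPolynomial.aeval x : MvPolynomial (Fin h) 𝒪 →ₐ[𝒪] P) ≤ mP := by
    rw [MvPolynomial.idealOfVars, Ideal.map_span, Ideal.span_le]
    rintro _ ⟨_, ⟨i, rfl⟩, rfl⟩
    simpa using hx i
  have h2 := Ideal.mem_map_of_mem
    (MvPolynomial.aeval x : MvPolynomial (Fin h) 𝒪 →ₐ[𝒪] P) h1
  rw [Ideal.map_pow] at h2
  exact hI (Ideal.pow_right_mono h1' n h2)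

end Ev

section Surj

variable {𝒪 : Type} [CommRing 𝒪] [IsLocalRing 𝒪] {P : Type} [CommRing P] [Algebra 𝒪 P] {h : ℕ}

theorem mvps_C_mem {c : 𝒪} (hc : c ∈ maximalIdeal 𝒪) :
    (algebraMap 𝒪 (MvPowerSeries (Fin h) 𝒪) c) ∈ maximalIdeal (MvPowerSeries (Fin h) 𝒪) := by
  rw [mem_maximalIdeal, mem_nonunits_iff, MvPowerSeries.isUnit_iff_constantCoeff,
    MvPowerSeries.algebraMap_apply, MvPowerSeries.constantCoeff_C]
  simpa using hc

theorem mvps_X_mem (i : Fin h) :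
    (MvPowerSeries.X i : MvPowerSeries (Fin h) 𝒪) ∈ maximalIdeal (MvPowerSeries (Fin h) 𝒪) := by
  rw [mem_maximalIdeal, mem_nonunits_iff, MvPowerSeries.isUnit_iff_constantCoeff]
  simp

theorem le_comap_ev (mP : Ideal P) (x : Fin h → P) (hx : ∀ i, x i ∈ mP) (n : ℕ) (I : Ideal P)
    (hI : mP ^ n ≤ I)
    (hgen : mP ≤ I ⊔ (maximalIdeal 𝒪).map (algebraMap 𝒪 P) ⊔ Ideal.span (Set.range x)) :
    mP ≤ ((maximalIdeal (MvPowerSeries (Fin h) 𝒪)).map (ev mP x hx n I hI)).comap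
      (Ideal.Quotient.mk I) := by
  refine hgen.trans (sup_le (sup_le ?_ ?_) ?_)
  · intro p hp
    rw [Ideal.mem_comap, Ideal.Quotient.eq_zero_iff_mem.2 hp]
    exact Ideal.zero_mem _
  · rw [Ideal.map_le_iff_le_comap]
    intro c hc
    rw [Ideal.mem_comap, Ideal.mem_comap]
    have h1 : Ideal.Quotient.mk I (algebraMap 𝒪 P c) =
        ev mP x hx n I hI (algebraMap 𝒪 (MvPowerSeries (Fin h) 𝒪) c) := by
      rw [AlgHom.commutes]; rfl
    rw [h1]
    exact Ideal.mem_map_of_mem _ (mvps_C_mem hc)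
  · rw [Ideal.span_le]
    rintro _ ⟨i, rfl⟩
    rw [SetLike.mem_coe, Ideal.mem_comap, ← ev_X (𝒪 := 𝒪) mP x hx n I hI i]
    exact Ideal.mem_map_of_mem _ (mvps_X_mem i)

theorem ev_surjective (mP : Ideal P)
    (hres : Function.Surjective ((Ideal.Quotient.mk mP).comp (algebraMap 𝒪 P)))
    (x : Fin h → P) (hx : ∀ i, x i ∈ mP) (n : ℕ) (I : Ideal P)
    (hI : mP ^ n ≤ I) [Finite (P ⧸ I)]
    (hgen : mP ≤ I ⊔ (maximalIdeal 𝒪).map (algebraMap 𝒪 P) ⊔ Ideal.span (Set.range x)) :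
    Function.Surjective (ev mP x hx n I hI : MvPowerSeries (Fin h) 𝒪 →ₐ[𝒪] P ⧸ I) := by
  set e : MvPowerSeries (Fin h) 𝒪 →ₐ[𝒪] P ⧸ I := ev mP x hx n I hI with he
  let _ : Algebra (MvPowerSeries (Fin h) 𝒪) (P ⧸ I) := (e : _ →+* P ⧸ I).toAlgebra
  have halg : ∀ s, algebraMap (MvPowerSeries (Fin h) 𝒪) (P ⧸ I) s = e s := fun _ => rfl
  have _ : Module.Finite (MvPowerSeries (Fin h) 𝒪) (P ⧸ I) := Module.Finite.of_finite
  have key : (⊤ : Submodule (MvPowerSeries (Fin h) 𝒪) (P ⧸ I)) ≤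
      LinearMap.range (Algebra.linearMap (MvPowerSeries (Fin h) 𝒪) (P ⧸ I)) := by
    refine Submodule.le_of_le_smul_of_le_jacobson_bot (I := maximalIdeal _) Module.Finite.fg_top
      (IsLocalRing.maximalIdeal_le_jacobson _) ?_
    rintro a -
    obtain ⟨p, rfl⟩ := Ideal.Quotient.mk_surjective a
    obtain ⟨c, hc⟩ := hres (Ideal.Quotient.mk mP p)
    rw [RingHom.comp_apply, Ideal.Quotient.eq] at hc
    have h1 : Ideal.Quotient.mk I p = e (algebraMap 𝒪 _ c) +
        Ideal.Quotient.mk I (p - algebraMap 𝒪 P c) := by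
      rw [AlgHom.commutes, map_sub]
      have : (algebraMap 𝒪 (P ⧸ I)) c = Ideal.Quotient.mk I (algebraMap 𝒪 P c) := rfl
      rw [this]; ring
    rw [h1]
    refine Submodule.add_mem_sup ⟨algebraMap 𝒪 _ c, rfl⟩ ?_
    rw [Ideal.smul_top_eq_map]
    have h2 : p - algebraMap 𝒪 P c ∈ mP := by
      have := mP.neg_mem hc
      rwa [neg_sub] at this
    exact le_comap_ev mP x hx n I hI hgen h2
  intro a
  obtain ⟨s, hs⟩ := key (Submodule.mem_top (x := a))
  exact ⟨s, hs⟩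

theorem factor_ev_eq_zero_iff (mP : Ideal P) [mP.IsMaximal]
    (hres : Function.Surjective ((Ideal.Quotient.mk mP).comp (algebraMap 𝒪 P)))
    (x : Fin h → P) (hx : ∀ i, x i ∈ mP) (n : ℕ) (I : Ideal P)
    (hI : mP ^ n ≤ I) (hIm : I ≤ mP) (f : MvPowerSeries (Fin h) 𝒪) :
    Ideal.Quotient.factor hIm (ev mP x hx n I hI f) = 0 ↔
      f ∈ maximalIdeal (MvPowerSeries (Fin h) 𝒪) := by
  let g : MvPowerSeries (Fin h) 𝒪 →+* P ⧸ mP :=
    (Ideal.Quotient.factor hIm).comp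
      ((ev mP x hx n I hI : MvPowerSeries (Fin h) 𝒪 →ₐ[𝒪] P ⧸ I) :
        MvPowerSeries (Fin h) 𝒪 →+* P ⧸ I)
  have hg : Function.Surjective g := by
    intro a
    obtain ⟨c, rfl⟩ := hres a
    refine ⟨algebraMap 𝒪 _ c, ?_⟩
    simp only [g, RingHom.comp_apply, RingHom.coe_coe, AlgHom.commutes]
    rfl
  let _ : Field (P ⧸ mP) := Ideal.Quotient.field mP
  have h1 := IsLocalRing.eq_maximalIdeal (RingHom.ker_isMaximal_of_surjective g hg)
  rw [← h1, RingHom.mem_ker]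
  rfl

theorem map_maximalIdeal_ev_le (mP : Ideal P) [mP.IsMaximal]
    (hres : Function.Surjective ((Ideal.Quotient.mk mP).comp (algebraMap 𝒪 P)))
    (x : Fin h → P) (hx : ∀ i, x i ∈ mP) (n : ℕ) (I : Ideal P)
    (hI : mP ^ n ≤ I) (hIm : I ≤ mP) :
    (maximalIdeal (MvPowerSeries (Fin h) 𝒪)).map (ev mP x hx n I hI) ≤
      mP.map (Ideal.Quotient.mk I) := by
  rw [Ideal.map_le_iff_le_comap]
  intro f hf
  rw [Ideal.mem_comap]
  obtain ⟨p, hp⟩ := Ideal.Quotient.mk_surjective (ev mP x hx n I hI f)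
  have h1 := (factor_ev_eq_zero_iff mP hres x hx n I hI hIm f).2 hf
  rw [← hp, Ideal.Quotient.factor_mk, Ideal.Quotient.eq_zero_iff_mem] at h1
  rw [← hp]
  exact Ideal.mem_map_of_mem _ h1

theorem pow_le_ker_ev (mP : Ideal P) [mP.IsMaximal]
    (hres : Function.Surjective ((Ideal.Quotient.mk mP).comp (algebraMap 𝒪 P)))
    (x : Fin h → P) (hx : ∀ i, x i ∈ mP) (n : ℕ) (I : Ideal P)
    (hI : mP ^ n ≤ I) (hIm : I ≤ mP) :
    (maximalIdeal (MvPowerSeries (Fin h) 𝒪)) ^ n ≤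
      RingHom.ker (ev mP x hx n I hI : MvPowerSeries (Fin h) 𝒪 →ₐ[𝒪] P ⧸ I) := by
  intro f hf
  rw [RingHom.mem_ker]
  have h1 := Ideal.mem_map_of_mem (ev mP x hx n I hI) hf
  rw [Ideal.map_pow] at h1
  have h2 := Ideal.pow_right_mono (map_maximalIdeal_ev_le mP hres x hx n I hI hIm) n h1
  rw [← Ideal.map_pow] at h2
  have h3 := Ideal.map_mono (f := Ideal.Quotient.mk I) hI h2
  rwa [Ideal.map_quotient_self, Ideal.mem_bot] at h3

theorem map_maximalIdeal_ev (mP : Ideal P) [mP.IsMaximal]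
    (hres : Function.Surjective ((Ideal.Quotient.mk mP).comp (algebraMap 𝒪 P)))
    (x : Fin h → P) (hx : ∀ i, x i ∈ mP) (n : ℕ) (I : Ideal P)
    (hI : mP ^ n ≤ I) (hIm : I ≤ mP)
    (hgen : mP ≤ I ⊔ (maximalIdeal 𝒪).map (algebraMap 𝒪 P) ⊔ Ideal.span (Set.range x)) :
    (maximalIdeal (MvPowerSeries (Fin h) 𝒪)).map (ev mP x hx n I hI) =
      mP.map (Ideal.Quotient.mk I) :=
  le_antisymm (map_maximalIdeal_ev_le mP hres x hx n I hI hIm)
    (Ideal.map_le_iff_le_comap.2 (le_comap_ev mP x hx n I hI hgen))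

instance finite_quot_mvps [Finite (ResidueField 𝒪)] [IsNoetherianRing 𝒪] (n : ℕ) :
    Finite (MvPowerSeries (Fin h) 𝒪 ⧸ (maximalIdeal (MvPowerSeries (Fin h) 𝒪)) ^ n) := by
  let g : MvPowerSeries (Fin h) 𝒪 →+* ResidueField 𝒪 :=
    (residue 𝒪).comp MvPowerSeries.constantCoeff
  have hg : Function.Surjective g := by
    intro a
    obtain ⟨c, rfl⟩ := IsLocalRing.residue_surjective a
    exact ⟨algebraMap 𝒪 _ c, by
      simp [g, MvPowerSeries.algebraMap_apply]⟩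
  have h1 := IsLocalRing.eq_maximalIdeal (RingHom.ker_isMaximal_of_surjective g hg)
  have : Finite (MvPowerSeries (Fin h) 𝒪 ⧸ maximalIdeal (MvPowerSeries (Fin h) 𝒪)) := by
    rw [← h1]
    exact Finite.of_equiv _ (RingHom.quotientKerEquivOfSurjective hg).symm.toEquiv
  exact Ideal.finite_quotient_pow (IsNoetherian.noetherian _) n

end Surj

section Least

variable {𝒪 : Type} [CommRing 𝒪] [IsLocalRing 𝒪] [IsNoetherianRing 𝒪] [Finite (ResidueField 𝒪)]
  {P : Type} [CommRing P] [Algebra 𝒪 P] {h : ℕ}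

theorem exists_least (mP : Ideal P) [mP.IsMaximal]
    (hres : Function.Surjective ((Ideal.Quotient.mk mP).comp (algebraMap 𝒪 P)))
    (Adm : Ideal P → Prop)
    (hbase : Adm mP)
    (hle : ∀ I, Adm I → I ≤ mP)
    (hfin : ∀ I, Adm I → Finite (P ⧸ I))
    (hinf : ∀ I J, Adm I → Adm J → Adm (I ⊓ J))
    (x : Fin h → P) (hx : ∀ i, x i ∈ mP)
    (hgen : ∀ I, Adm I → mP ≤ I ⊔ (maximalIdeal 𝒪).map (algebraMap 𝒪 P) ⊔ Ideal.span (Set.range x))
    (n : ℕ) (hn : n ≠ 0) :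
    ∃ I, Adm I ∧ mP ^ n ≤ I ∧ ∀ J, Adm J → mP ^ n ≤ J → I ≤ J := by
  set B := Nat.card (MvPowerSeries (Fin h) 𝒪 ⧸ (maximalIdeal (MvPowerSeries (Fin h) 𝒪)) ^ n) with hB
  have hbound : ∀ I, Adm I → mP ^ n ≤ I → Nat.card (P ⧸ I) ≤ B := by
    intro I hI hnI
    have := hfin I hI
    let g := Ideal.Quotient.lift ((maximalIdeal (MvPowerSeries (Fin h) 𝒪)) ^ n)
      ((ev mP x hx n I hnI : MvPowerSeries (Fin h) 𝒪 →ₐ[𝒪] P ⧸ I) :
        MvPowerSeries (Fin h) 𝒪 →+* P ⧸ I)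
      (fun a ha => (RingHom.mem_ker).1 (pow_le_ker_ev mP hres x hx n I hnI (hle I hI) ha))
    have hg : Function.Surjective g :=
      Ideal.Quotient.lift_surjective_of_surjective _ _
        (ev_surjective mP hres x hx n I hnI (hgen I hI))
    exact Nat.card_le_card_of_surjective g hg
  have hne : (Set.univ : Set {I : Ideal P // Adm I ∧ mP ^ n ≤ I}).Nonempty :=
    ⟨⟨mP, hbase, Ideal.pow_le_self hn⟩, trivial⟩
  obtain ⟨⟨I, hI, hnI⟩, -, hmin⟩ :=
    (measure (fun I : {I : Ideal P // Adm I ∧ mP ^ n ≤ I} => B - Nat.card (P ⧸ I.1))).wf.has_min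
      _ hne
  refine ⟨I, hI, hnI, fun J hJ hnJ => ?_⟩
  have hL := hinf I J hI hJ
  have hnL : mP ^ n ≤ I ⊓ J := le_inf hnI hnJ
  have := hfin _ hL
  have h1 : ¬ (B - Nat.card (P ⧸ (I ⊓ J)) < B - Nat.card (P ⧸ I)) :=
    hmin ⟨I ⊓ J, hL, hnL⟩ trivial
  have h2 := hbound _ hL hnL
  have h3 : Nat.card (P ⧸ (I ⊓ J)) ≤ Nat.card (P ⧸ I) := by omega
  have h4 := Function.Surjective.bijective_of_nat_card_le
    (Ideal.Quotient.factor_surjective (inf_le_left : I ⊓ J ≤ I)) h3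
  intro p hp
  have h5 : Ideal.Quotient.mk (I ⊓ J) p = 0 := by
    apply h4.1
    rw [map_zero, Ideal.Quotient.factor_mk, Ideal.Quotient.eq_zero_iff_mem]
    exact hp
  rw [Ideal.Quotient.eq_zero_iff_mem] at h5
  exact h5.2

end Least

section Chevalley

variable {S : Type} [CommRing S] [IsLocalRing S] [IsAdicComplete (maximalIdeal S) S]

theorem chevalley (a : ℕ → Ideal S) (hpow : ∀ n, (maximalIdeal S) ^ n ≤ a n)
    (hanti : ∀ m n, m ≤ n → a n ≤ a m)
    (hstep : ∀ m n, m ≤ n → a m ≤ a n ⊔ (maximalIdeal S) ^ m) (m : ℕ) :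
    a m = (⨅ n, a n) ⊔ (maximalIdeal S) ^ m := by
  apply le_antisymm _ (sup_le (iInf_le _ m) (hpow m))
  intro f hf
  -- build a sequence y j ∈ a (m + j), y (j+1) - y j ∈ m^(m+j)
  have hex : ∀ (j : ℕ) (y : {y : S // y ∈ a (m + j)}), ∃ z : {z : S // z ∈ a (m + (j + 1))},
      y.1 - z.1 ∈ (maximalIdeal S) ^ (m + j) := by
    rintro j ⟨y, hy⟩
    obtain ⟨u, hu, v, hv, huv⟩ := Submodule.mem_sup.1 (hstep (m + j) (m + (j + 1)) (by omega) hy)
    refine ⟨⟨u, hu⟩, ?_⟩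
    change y - u ∈ _
    rw [← huv]
    simpa using hv
  choose nxt hnxt using hex
  let y : (j : ℕ) → {y : S // y ∈ a (m + j)} := fun j => Nat.rec ⟨f, hf⟩ (fun j y => nxt j y) j
  have hy : ∀ j, (y j).1 - (y (j + 1)).1 ∈ (maximalIdeal S) ^ (m + j) := fun j => hnxt j (y j)
  have hyy : ∀ j k, j ≤ k → (y j).1 - (y k).1 ∈ (maximalIdeal S) ^ (m + j) := by
    intro j k hjk
    induction k, hjk using Nat.le_induction with
    | base => simp
    | succ k hjk ih =>
      have h1 : (y j).1 - (y (k + 1)).1 = ((y j).1 - (y k).1) + ((y k).1 - (y (k + 1)).1) := by ring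
      rw [h1]
      exact Ideal.add_mem _ ih (Ideal.pow_le_pow_right (by omega) (hy k))
  obtain ⟨L, hL⟩ := IsPrecomplete.prec (I := maximalIdeal S) (M := S) inferInstance
    (f := fun j => (y j).1) (by
      intro j k hjk
      rw [SModEq.sub_mem, smul_eq_mul, Ideal.mul_top]
      exact Ideal.pow_le_pow_right (by omega) (hyy j k hjk))
  have hL' : ∀ j, (y j).1 - L ∈ (maximalIdeal S) ^ j := by
    intro j
    have := hL j
    rwa [SModEq.sub_mem, smul_eq_mul, Ideal.mul_top] at this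
  have hLmem : L ∈ ⨅ n, a n := by
    rw [Ideal.mem_iInf]
    intro n
    have h1 : L = (y n).1 - ((y n).1 - L) := by ring
    rw [h1]
    exact Ideal.sub_mem _ (hanti n (m + n) (by omega) (y n).2) (hpow n (hL' n))
  have h2 : f = L + (f - L) := by ring
  rw [h2]
  refine Submodule.add_mem_sup hLmem ?_
  have h3 : f - L = ((y 0).1 - (y m).1) + ((y m).1 - L) := by
    change f - L = (f - (y m).1) + ((y m).1 - L)
    ring
  rw [h3]
  exact Ideal.add_mem _ (by simpa using hyy 0 m (by omega)) (hL' m)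

end Chevalley

section Main

theorem prorep_gen
    (𝒪 : Type) [CommRing 𝒪] [IsLocalRing 𝒪] [IsNoetherianRing 𝒪] [Finite (ResidueField 𝒪)]
    [IsAdicComplete (maximalIdeal 𝒪) 𝒪]
    (P : Type) [CommRing P] [Algebra 𝒪 P]
    (mP : Ideal P) [mP.IsMaximal]
    (hres : Function.Surjective ((Ideal.Quotient.mk mP).comp (algebraMap 𝒪 P)))
    (Adm : Ideal P → Prop)
    (hbase : Adm mP)
    (hle : ∀ I, Adm I → I ≤ mP)
    (hpow : ∀ I, Adm I → ∃ n : ℕ, mP ^ n ≤ I)
    (hfin : ∀ I, Adm I → Finite (P ⧸ I))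
    (hup : ∀ I J, Adm I → I ≤ J → J ≤ mP → Adm J)
    (hinf : ∀ I J, Adm I → Adm J → Adm (I ⊓ J))
    (h : ℕ) (x : Fin h → P) (hx : ∀ i, x i ∈ mP)
    (hgen : ∀ I, Adm I →
      mP ≤ I ⊔ (maximalIdeal 𝒪).map (algebraMap 𝒪 P) ⊔ Ideal.span (Set.range x)) :
    ∃ (R : Type) (_ : CommRing R) (_ : IsLocalRing R) (_ : IsNoetherianRing R)
      (_ : IsAdicComplete (maximalIdeal R) R) (_ : Algebra 𝒪 R) (_ : IsLocalHom (algebraMap 𝒪 R)),
      Function.Surjective (residue R ∘ algebraMap 𝒪 R) ∧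
      ∃ Φ : P →ₐ[𝒪] R,
        (∀ (n : ℕ) (r : R), ∃ p : P, r - Φ p ∈ maximalIdeal R ^ n) ∧
        (∀ n : ℕ, n ≠ 0 → Adm ((maximalIdeal R ^ n).comap Φ)) ∧
        (∀ (n : ℕ) (I : Ideal P), Adm I → mP ^ n ≤ I → (maximalIdeal R ^ n).comap Φ ≤ I) := by
  classical
  let S := MvPowerSeries (Fin h) 𝒪
  have hS : IsAdicComplete (maximalIdeal S) S := isAdicComplete_mvPowerSeries_fin h
  have hSN : IsNoetherianRing S := inferInstance
  -- the least admissible ideals
  have hleast := fun (n : ℕ) => exists_least mP hres Adm hbase hle hfin hinf x hx hgen (n + 1)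
    (Nat.succ_ne_zero n)
  choose I hIadm hIpow hImin using hleast
  have hI_anti : ∀ m n, m ≤ n → I n ≤ I m := fun m n hmn =>
    hImin n (I m) (hIadm m) ((Ideal.pow_le_pow_right (by omega)).trans (hIpow m))
  have hI_eq : ∀ m n, m ≤ n → I m ≤ I n ⊔ mP ^ (m + 1) := fun m n hmn =>
    hImin m _ (hup (I n) _ (hIadm n) le_sup_left
      (sup_le (hle _ (hIadm n)) (Ideal.pow_le_self (Nat.succ_ne_zero m)))) le_sup_right
  let e : (n : ℕ) → S →ₐ[𝒪] P ⧸ I n := fun n => ev mP x hx (n + 1) (I n) (hIpow n)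
  have hfinI : ∀ n, Finite (P ⧸ I n) := fun n => hfin _ (hIadm n)
  have hesurj : ∀ n, Function.Surjective (e n) := fun n =>
    ev_surjective mP hres x hx (n + 1) (I n) (hIpow n) (hgen _ (hIadm n))
  let a : ℕ → Ideal S := fun n => RingHom.ker (e n)
  have ha_pow : ∀ n, (maximalIdeal S) ^ (n + 1) ≤ a n := fun n =>
    pow_le_ker_ev mP hres x hx (n + 1) (I n) (hIpow n) (hle _ (hIadm n))
  have hmap : ∀ n j, ((maximalIdeal S) ^ j).map (e n) = (mP ^ j).map (Ideal.Quotient.mk (I n)) := by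
    intro n j
    rw [Ideal.map_pow, Ideal.map_pow]
    congr 1
    exact map_maximalIdeal_ev mP hres x hx (n + 1) (I n) (hIpow n) (hle _ (hIadm n))
      (hgen _ (hIadm n))
  have hfactor : ∀ m n (hmn : m ≤ n) (f : S),
      Ideal.Quotient.factor (hI_anti m n hmn) (e n f) = e m f := fun m n hmn f =>
    ev_change mP x hx (by omega) (hIpow m) (hIpow n) (hI_anti m n hmn) f
  have ha_anti : ∀ m n, m ≤ n → a n ≤ a m := by
    intro m n hmn f hf
    rw [RingHom.mem_ker] at hf ⊢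
    rw [← hfactor m n hmn f, hf, map_zero]
  have ha_step : ∀ m n, m ≤ n → a m ≤ a n ⊔ (maximalIdeal S) ^ (m + 1) := by
    intro m n hmn f hf
    rw [RingHom.mem_ker] at hf
    obtain ⟨p, hp⟩ := Ideal.Quotient.mk_surjective (e n f)
    have h1 : p ∈ I m := by
      rw [← Ideal.Quotient.eq_zero_iff_mem, ← Ideal.Quotient.factor_mk (hI_anti m n hmn), hp,
        hfactor m n hmn f, hf]
    obtain ⟨u, hu, v, hv, huv⟩ := Submodule.mem_sup.1 (hI_eq m n hmn h1)
    have h2 : e n f ∈ ((maximalIdeal S) ^ (m + 1)).map (e n) := by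
      rw [hmap, ← hp, ← huv, map_add, Ideal.Quotient.eq_zero_iff_mem.2 hu, zero_add]
      exact Ideal.mem_map_of_mem _ hv
    obtain ⟨g, hg, hgf⟩ := (Ideal.mem_map_iff_of_surjective (e n) (hesurj n)).1 h2
    have h3 : f = (f - g) + g := by ring
    rw [h3]
    refine Submodule.add_mem_sup ?_ hg
    rw [RingHom.mem_ker, map_sub, hgf, sub_self]
  -- Chevalley, with the sequence indexed from `0`
  let a' : ℕ → Ideal S := fun n => Nat.casesOn n ⊤ a
  have ha'0 : a' 0 = ⊤ := rfl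
  have ha'S : ∀ n, a' (n + 1) = a n := fun _ => rfl
  have hchev : ∀ m, a' m = (⨅ n, a' n) ⊔ (maximalIdeal S) ^ m := by
    refine chevalley a' ?_ ?_ ?_
    · intro n
      cases n with
      | zero => rw [ha'0]; exact le_top
      | succ n => rw [ha'S]; exact ha_pow n
    · intro m n hmn
      cases m with
      | zero => rw [ha'0]; exact le_top
      | succ m =>
        cases n with
        | zero => omega
        | succ n => exact ha_anti m n (by omega)
    · intro m n hmn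
      cases m with
      | zero => rw [pow_zero, Ideal.one_eq_top]; exact le_sup_of_le_right le_top
      | succ m =>
        cases n with
        | zero => omega
        | succ n => exact ha_step m n (by omega)
  set J : Ideal S := ⨅ n, a' n with hJ
  have hJle : J ≤ maximalIdeal S := by
    refine (iInf_le a' 1).trans ?_
    change a 0 ≤ maximalIdeal S
    intro f hf
    rw [RingHom.mem_ker] at hf
    refine (factor_ev_eq_zero_iff mP hres x hx (0 + 1) (I 0) (hIpow 0) (hle _ (hIadm 0)) f).1 ?_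
    change Ideal.Quotient.factor (hle _ (hIadm 0)) (e 0 f) = 0
    rw [hf, map_zero]
  have hJne : J ≠ ⊤ := fun hJtop =>
    (maximalIdeal.isMaximal S).ne_top (top_le_iff.1 (hJtop ▸ hJle))
  let R := S ⧸ J
  have hRnt : Nontrivial R := Ideal.Quotient.nontrivial_iff.2 hJne
  have hRloc : IsLocalRing R := IsLocalRing.of_surjective' (Ideal.Quotient.mk J)
    Ideal.Quotient.mk_surjective
  have hRN : IsNoetherianRing R := inferInstance
  have hlocSR : IsLocalHom (algebraMap S R) :=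
    IsLocalHom.of_surjective _ Ideal.Quotient.mk_surjective
  have hRcomplete : IsAdicComplete (maximalIdeal R) R :=
    IsLocalRing.isAdicComplete_of_module_finite (𝒪 := S)
  have hmaxR : maximalIdeal R = (maximalIdeal S).map (Ideal.Quotient.mk J) := by
    apply le_antisymm
    · intro r hr
      obtain ⟨s, rfl⟩ := Ideal.Quotient.mk_surjective r
      refine Ideal.mem_map_of_mem _ ?_
      rw [mem_maximalIdeal, mem_nonunits_iff] at hr ⊢
      exact fun hs => hr (hs.map _)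
    · rw [Ideal.map_le_iff_le_comap]
      intro s hs
      rw [Ideal.mem_comap, mem_maximalIdeal, mem_nonunits_iff]
      rw [mem_maximalIdeal, mem_nonunits_iff] at hs
      exact fun hu => hs (hlocSR.map_nonunit s hu)
  have hmem : ∀ (n : ℕ) (s : S), Ideal.Quotient.mk J s ∈ maximalIdeal R ^ n ↔ s ∈ a' n := by
    intro n s
    rw [hmaxR, ← Ideal.map_pow, ← Ideal.mem_comap,
      Ideal.comap_map_of_surjective' _ Ideal.Quotient.mk_surjective, Ideal.mk_ker, hchev n, sup_comm]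
  let q : (n : ℕ) → (S ⧸ a n) ≃ₐ[𝒪] (P ⧸ I n) := fun n =>
    Ideal.quotientKerAlgEquivOfSurjective (hesurj n)
  let t : (n : ℕ) → (S ⧸ a n) →ₐ[𝒪] R ⧸ (maximalIdeal R) ^ n := fun n =>
    Ideal.Quotient.liftₐ (a n) ((Ideal.Quotient.mkₐ 𝒪 (maximalIdeal R ^ n)).comp
      (Ideal.Quotient.mkₐ 𝒪 J)) (by
        intro s hs
        rw [AlgHom.comp_apply, Ideal.Quotient.mkₐ_eq_mk, Ideal.Quotient.mkₐ_eq_mk,
          Ideal.Quotient.eq_zero_iff_mem]
        have h1 : Ideal.Quotient.mk J s ∈ maximalIdeal R ^ (n + 1) := (hmem (n + 1) s).2 hs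
        exact Ideal.pow_le_pow_right (Nat.le_succ n) h1)
  let f : (n : ℕ) → P →ₐ[𝒪] R ⧸ (maximalIdeal R) ^ n := fun n =>
    (t n).comp (((q n).symm : (P ⧸ I n) →ₐ[𝒪] (S ⧸ a n)).comp (Ideal.Quotient.mkₐ 𝒪 (I n)))
  have hfchar : ∀ (n : ℕ) (p : P) (s : S), e n s = Ideal.Quotient.mk (I n) p →
      f n p = Ideal.Quotient.mk (maximalIdeal R ^ n) (Ideal.Quotient.mk J s) := by
    intro n p s hs
    have h1 : (q n) (Ideal.Quotient.mk (a n) s) = Ideal.Quotient.mk (I n) p := hs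
    have h2 : (q n).symm (Ideal.Quotient.mk (I n) p) = Ideal.Quotient.mk (a n) s := by
      rw [← h1, AlgEquiv.symm_apply_apply]
    change t n ((q n).symm (Ideal.Quotient.mk (I n) p)) = _
    rw [h2]
    rfl
  have hfcomp : ∀ {m n : ℕ} (hmn : m ≤ n),
      (Ideal.Quotient.factorₐ 𝒪 (Ideal.pow_le_pow_right hmn)).comp (f n) = f m := by
    intro m n hmn
    ext p
    obtain ⟨s, hs⟩ := hesurj n (Ideal.Quotient.mk (I n) p)
    have hs' : e m s = Ideal.Quotient.mk (I m) p := by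
      rw [← hfactor m n hmn s, hs, Ideal.Quotient.factor_mk]
    rw [AlgHom.comp_apply, hfchar n p s hs, hfchar m p s hs']
    rfl
  let Φ : P →ₐ[𝒪] R := IsAdicComplete.liftAlgHom (maximalIdeal R) f hfcomp
  have hΦ : ∀ (n : ℕ) (p : P) (s : S), e n s = Ideal.Quotient.mk (I n) p →
      Φ p - Ideal.Quotient.mk J s ∈ maximalIdeal R ^ n := by
    intro n p s hs
    rw [← Ideal.Quotient.eq, ← hfchar n p s hs]
    exact IsAdicComplete.mk_liftAlgHom (maximalIdeal R) f hfcomp n p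
  have hcomap : ∀ n, (maximalIdeal R ^ (n + 1)).comap Φ = I n := by
    intro n
    ext p
    obtain ⟨s, hs⟩ := hesurj (n + 1) (Ideal.Quotient.mk (I (n + 1)) p)
    have hs' : e n s = Ideal.Quotient.mk (I n) p := by
      rw [← hfactor n (n + 1) (Nat.le_succ n) s, hs, Ideal.Quotient.factor_mk]
    have h1 := hΦ (n + 1) p s hs
    rw [Ideal.mem_comap]
    have h2 : Φ p ∈ maximalIdeal R ^ (n + 1) ↔ Ideal.Quotient.mk J s ∈ maximalIdeal R ^ (n + 1) := by
      constructor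
      · intro h3
        have := Ideal.sub_mem _ h3 h1
        rwa [sub_sub_cancel] at this
      · intro h3
        have := Ideal.add_mem _ h1 h3
        rwa [sub_add_cancel] at this
    rw [h2, hmem, ha'S, RingHom.mem_ker, hs', Ideal.Quotient.eq_zero_iff_mem]
  have hloc𝒪 : IsLocalHom (algebraMap 𝒪 R) := by
    constructor
    intro c hc
    by_contra hcn
    have h1 : (algebraMap 𝒪 S c) ∈ maximalIdeal S := mvps_C_mem (by
      rwa [mem_maximalIdeal, mem_nonunits_iff])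
    have h2 : algebraMap 𝒪 R c ∈ maximalIdeal R := by
      rw [hmaxR]
      exact Ideal.mem_map_of_mem _ h1
    rw [mem_maximalIdeal, mem_nonunits_iff] at h2
    exact h2 hc
  have hdense : ∀ (n : ℕ) (r : R), ∃ p : P, r - Φ p ∈ maximalIdeal R ^ n := by
    intro n r
    obtain ⟨s, rfl⟩ := Ideal.Quotient.mk_surjective r
    obtain ⟨p, hp⟩ := Ideal.Quotient.mk_surjective (e n s)
    refine ⟨p, ?_⟩
    have := (maximalIdeal R ^ n).neg_mem (hΦ n p s hp.symm)
    rwa [neg_sub] at this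
  refine ⟨R, inferInstance, hRloc, hRN, hRcomplete, inferInstance, hloc𝒪, ?_, Φ, hdense, ?_, ?_⟩
  · intro y
    obtain ⟨r, rfl⟩ := IsLocalRing.residue_surjective y
    obtain ⟨p, hp⟩ := hdense 1 r
    obtain ⟨c, hc⟩ := hres (Ideal.Quotient.mk mP p)
    rw [RingHom.comp_apply, Ideal.Quotient.eq] at hc
    refine ⟨c, ?_⟩
    rw [Function.comp_apply]
    rw [pow_one] at hp
    have h1 : algebraMap 𝒪 R c - Φ p ∈ maximalIdeal R := by
      have h2 : algebraMap 𝒪 P c - p ∈ (maximalIdeal R ^ (0 + 1)).comap Φ := by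
        rw [hcomap 0]
        apply hIpow 0
        rw [zero_add, pow_one]
        exact hc
      rw [Ideal.mem_comap, map_sub, AlgHom.commutes, zero_add, pow_one] at h2
      exact h2
    rw [← sub_eq_zero, ← map_sub, residue_eq_zero_iff]
    have h3 : algebraMap 𝒪 R c - r = (algebraMap 𝒪 R c - Φ p) - (r - Φ p) := by ring
    rw [h3]
    exact Ideal.sub_mem _ h1 hp
  · intro n hn
    obtain ⟨k, rfl⟩ := Nat.exists_eq_succ_of_ne_zero hn
    rw [Nat.succ_eq_add_one, hcomap k]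
    exact hIadm k
  · intro n J hJ hnJ
    cases n with
    | zero =>
      rw [pow_zero, Ideal.one_eq_top] at hnJ
      rw [top_le_iff.1 hnJ]
      exact le_top
    | succ n =>
      rw [hcomap n]
      exact hImin n J hJ hnJ

theorem prorep
    (𝒪 : Type) [CommRing 𝒪] [IsLocalRing 𝒪] [IsNoetherianRing 𝒪] [Finite (ResidueField 𝒪)]
    [IsAdicComplete (maximalIdeal 𝒪) 𝒪]
    (P : Type) [CommRing P] [Algebra 𝒪 P]
    (mP : Ideal P) [mP.IsMaximal]
    (hres : Function.Surjective ((Ideal.Quotient.mk mP).comp (algebraMap 𝒪 P)))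
    (Adm : Ideal P → Prop)
    (hbase : Adm mP)
    (hle : ∀ I, Adm I → I ≤ mP)
    (hpow : ∀ I, Adm I → ∃ n : ℕ, mP ^ n ≤ I)
    (hfin : ∀ I, Adm I → Finite (P ⧸ I))
    (hup : ∀ I J, Adm I → I ≤ J → J ≤ mP → Adm J)
    (hinf : ∀ I J, Adm I → Adm J → Adm (I ⊓ J))
    (K : Ideal P) (hK : Finite (P ⧸ K))
    (hKle : ∀ I, Adm I → K ≤ I ⊔ mP ^ 2 ⊔ (maximalIdeal 𝒪).map (algebraMap 𝒪 P)) :
    ∃ (R : Type) (_ : CommRing R) (_ : IsLocalRing R) (_ : IsNoetherianRing R)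
      (_ : IsAdicComplete (maximalIdeal R) R) (_ : Algebra 𝒪 R) (_ : IsLocalHom (algebraMap 𝒪 R)),
      Function.Surjective (residue R ∘ algebraMap 𝒪 R) ∧
      ∃ Φ : P →ₐ[𝒪] R,
        (∀ (n : ℕ) (r : R), ∃ p : P, r - Φ p ∈ maximalIdeal R ^ n) ∧
        (∀ n : ℕ, n ≠ 0 → Adm ((maximalIdeal R ^ n).comap Φ)) ∧
        (∀ (n : ℕ) (I : Ideal P), Adm I → mP ^ n ≤ I → (maximalIdeal R ^ n).comap Φ ≤ I) := by
  classical
  -- finitely many representatives of `mP` modulo `K`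
  let T : Set (P ⧸ K) := (Ideal.Quotient.mk K) '' (mP : Set P)
  have hT : T.Finite := Set.toFinite T
  have hTfin : Finite T := hT
  obtain ⟨h, ⟨eqv⟩⟩ := Finite.exists_equiv_fin T
  have hch : ∀ t : T, ∃ p ∈ mP, Ideal.Quotient.mk K p = t.1 := fun t => t.2
  choose g hg1 hg2 using hch
  let x : Fin h → P := fun i => g (eqv.symm i)
  have hx : ∀ i, x i ∈ mP := fun i => hg1 _
  refine prorep_gen 𝒪 P mP hres Adm hbase hle hpow hfin hup hinf h x hx ?_
  intro I hI
  obtain ⟨n, hn⟩ := hpow I hI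
  set L : Ideal P := I ⊔ (maximalIdeal 𝒪).map (algebraMap 𝒪 P) ⊔ Ideal.span (Set.range x) with hL
  have h1 : mP ≤ L ⊔ mP ^ 2 := by
    intro p hp
    let t : T := ⟨Ideal.Quotient.mk K p, p, hp, rfl⟩
    have h2 : p - x (eqv t) ∈ K := by
      rw [← Ideal.Quotient.eq]
      simp only [x, Equiv.symm_apply_apply]
      exact (hg2 t).symm
    have h3 := hKle I hI h2
    have h4 : p = (p - x (eqv t)) + x (eqv t) := by ring
    rw [h4]
    refine Ideal.add_mem _ ?_ ?_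
    · refine (sup_le (sup_le ?_ ?_) ?_ : I ⊔ mP ^ 2 ⊔ (maximalIdeal 𝒪).map (algebraMap 𝒪 P) ≤
        L ⊔ mP ^ 2) h3
      · exact le_sup_of_le_left (le_sup_of_le_left le_sup_left)
      · exact le_sup_right
      · exact le_sup_of_le_left (le_sup_of_le_left le_sup_right)
    · exact Ideal.mem_sup_left (Ideal.mem_sup_right (Ideal.subset_span ⟨_, rfl⟩))
  have h2 : ∀ j, mP ≤ L ⊔ mP ^ (j + 1) := by
    intro j
    induction j with
    | zero => rw [zero_add, pow_one]; exact le_sup_right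
    | succ j ih =>
      have h3 : mP ^ (j + 1) ≤ L ⊔ mP ^ (j + 1 + 1) := by
        calc mP ^ (j + 1) = mP ^ j * mP := pow_succ _ _
          _ ≤ mP ^ j * (L ⊔ mP ^ 2) := Ideal.mul_mono_right h1
          _ = mP ^ j * L ⊔ mP ^ j * mP ^ 2 := Ideal.mul_sup _ _ _
          _ ≤ L ⊔ mP ^ (j + 1 + 1) := by
            refine sup_le_sup Ideal.mul_le_right (le_of_eq ?_)
            rw [← pow_add]
      exact ih.trans (sup_le le_sup_left h3)
  rcases Nat.eq_zero_or_pos n with rfl | hnpos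
  · rw [pow_zero, Ideal.one_eq_top] at hn
    exact le_sup_of_le_left (le_sup_of_le_left (le_top.trans hn))
  · obtain ⟨k, rfl⟩ := Nat.exists_eq_succ_of_ne_zero hnpos.ne'
    exact (h2 k).trans (sup_le le_rfl (hn.trans (le_sup_of_le_left le_sup_left)))

theorem exists_complete_noetherian_of_ideal_family
    (O : Type) [CommRing O] [IsLocalRing O] [IsNoetherianRing O]
    [Finite (IsLocalRing.ResidueField O)] [IsAdicComplete (maximalIdeal O) O]
    (P : Type) [CommRing P] [Algebra O P] (m : Ideal P) (hm : m.IsMaximal)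
    (hsurj : Function.Surjective ((Ideal.Quotient.mk m).comp (algebraMap O P)))
    (F : Set (Ideal P)) (hne : m ∈ F) (hle : ∀ I ∈ F, I ≤ m) (hnil : ∀ I ∈ F, ∃ n, m ^ n ≤ I)
    (hfin : ∀ I ∈ F, Finite (P ⧸ I)) (hup : ∀ I ∈ F, ∀ J, I ≤ J → J ≤ m → J ∈ F)
    (hinf : ∀ I ∈ F, ∀ J ∈ F, I ⊓ J ∈ F)
    (hbdd : ∃ B : ℕ, ∀ I ∈ F, m ^ 2 ⊔ (IsLocalRing.maximalIdeal O).map (algebraMap O P) ≤ I →
      Nat.card (P ⧸ I) ≤ B) :
    ∃ (R : Type) (_ : CommRing R) (_ : IsLocalRing R) (_ : IsNoetherianRing R)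
      (_ : IsAdicComplete (IsLocalRing.maximalIdeal R) R) (_ : Algebra O R)
      (_ : IsLocalHom (algebraMap O R)) (ι : P →ₐ[O] R),
      Function.Surjective (IsLocalRing.residue R ∘ algebraMap O R) ∧
      (∀ n, Function.Surjective
        ((Ideal.Quotient.mk (IsLocalRing.maximalIdeal R ^ n)).comp (ι : P →+* R))) ∧
      (∀ n, 0 < n → RingHom.ker
        ((Ideal.Quotient.mk (IsLocalRing.maximalIdeal R ^ n)).comp (ι : P →+* R)) ∈ F) ∧
      (∀ I ∈ F, ∃ n, RingHom.ker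
        ((Ideal.Quotient.mk (IsLocalRing.maximalIdeal R ^ n)).comp (ι : P →+* R)) ≤ I) := by
  obtain ⟨B, hB⟩ := hbdd
  set M2 : Ideal P := m ^ 2 ⊔ (IsLocalRing.maximalIdeal O).map (algebraMap O P) with hM2
  have hM2m : M2 ≤ m := by
    refine sup_le (Ideal.pow_le_self two_ne_zero) ?_
    rw [Ideal.map_le_iff_le_comap]
    let g := (Ideal.Quotient.mk m).comp (algebraMap O P)
    let _ : Field (P ⧸ m) := Ideal.Quotient.field m
    have h1 := IsLocalRing.eq_maximalIdeal (RingHom.ker_isMaximal_of_surjective g hsurj)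
    intro c hc
    rw [← h1, RingHom.mem_ker] at hc
    have hc' : Ideal.Quotient.mk m (algebraMap O P c) = 0 := hc
    exact Ideal.mem_comap.2 (Ideal.Quotient.eq_zero_iff_mem.1 hc')
  -- the smallest tangential member
  have hne' : (Set.univ : Set {I : Ideal P // I ∈ F ∧ M2 ≤ I}).Nonempty :=
    ⟨⟨m, hne, hM2m⟩, trivial⟩
  obtain ⟨⟨K, hK, hM2K⟩, -, hmin⟩ :=
    (measure (fun I : {I : Ideal P // I ∈ F ∧ M2 ≤ I} => B - Nat.card (P ⧸ I.1))).wf.has_min
      _ hne'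
  have hKmin : ∀ J ∈ F, M2 ≤ J → K ≤ J := by
    intro J hJ hnJ
    have hL := hinf K hK J hJ
    have hnL : M2 ≤ K ⊓ J := le_inf hM2K hnJ
    have := hfin _ hL
    have h1 : ¬ (B - Nat.card (P ⧸ (K ⊓ J)) < B - Nat.card (P ⧸ K)) :=
      hmin ⟨K ⊓ J, hL, hnL⟩ trivial
    have h2 := hB _ hL hnL
    have h3 : Nat.card (P ⧸ (K ⊓ J)) ≤ Nat.card (P ⧸ K) := by omega
    have h4 := Function.Surjective.bijective_of_nat_card_le
      (Ideal.Quotient.factor_surjective (inf_le_left : K ⊓ J ≤ K)) h3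
    intro p hp
    have h5 : Ideal.Quotient.mk (K ⊓ J) p = 0 := by
      apply h4.1
      rw [map_zero, Ideal.Quotient.factor_mk, Ideal.Quotient.eq_zero_iff_mem]
      exact hp
    rw [Ideal.Quotient.eq_zero_iff_mem] at h5
    exact h5.2
  obtain ⟨R, i1, i2, i3, i4, i5, i6, h1, Φ, hdense, hadm, hcof⟩ :=
    prorep O P m hsurj (fun I => I ∈ F) hne hle hnil hfin (fun I J hI hIJ hJ => hup I hI J hIJ hJ)
      (fun I J hI hJ => hinf I hI J hJ) K (hfin K hK) (by
        intro I hI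
        have h2 : I ⊔ M2 ∈ F := hup I hI _ le_sup_left (sup_le (hle I hI) hM2m)
        refine (hKmin _ h2 le_sup_right).trans ?_
        rw [hM2, sup_assoc])
  have hker : ∀ n, RingHom.ker
      ((Ideal.Quotient.mk (IsLocalRing.maximalIdeal R ^ n)).comp (Φ : P →+* R)) =
        (maximalIdeal R ^ n).comap Φ := by
    intro n
    ext p
    rw [RingHom.mem_ker, RingHom.comp_apply, Ideal.Quotient.eq_zero_iff_mem, Ideal.mem_comap]
    rfl
  refine ⟨R, i1, i2, i3, i4, i5, i6, Φ, h1, ?_, ?_, ?_⟩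
  · intro n y
    obtain ⟨r, rfl⟩ := Ideal.Quotient.mk_surjective y
    obtain ⟨p, hp⟩ := hdense n r
    exact ⟨p, ((Ideal.Quotient.eq).2 hp).symm⟩
  · intro n hn
    rw [hker n]
    exact hadm n hn.ne'
  · intro I hI
    obtain ⟨n, hn⟩ := hnil I hI
    refine ⟨n, ?_⟩
    rw [hker n]
    exact hcof n I hI hn

theorem prorep_lift
    {𝒪 : Type} [CommRing 𝒪] [IsLocalRing 𝒪]
    {P : Type} [CommRing P] [Algebra 𝒪 P]
    {R : Type} [CommRing R] [IsLocalRing R] [IsNoetherianRing R]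
    [IsAdicComplete (maximalIdeal R) R] [Algebra 𝒪 R] [IsLocalHom (algebraMap 𝒪 R)]
    (Φ : P →ₐ[𝒪] R)
    (hdense : ∀ (n : ℕ) (r : R), ∃ p : P, r - Φ p ∈ maximalIdeal R ^ n)
    {A : Type} [CommRing A] [IsLocalRing A] [IsNoetherianRing A]
    [IsAdicComplete (maximalIdeal A) A] [Algebra 𝒪 A] [IsLocalHom (algebraMap 𝒪 A)]
    (f : P →ₐ[𝒪] A)
    (hf : ∀ n : ℕ, (maximalIdeal R ^ n).comap Φ ≤ (maximalIdeal A ^ n).comap f) :
    ∃! φ : R →ₐ[𝒪] A, IsLocalHom (φ : R →+* A) ∧ φ.comp Φ = f := by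
  classical
  choose σ hσ using hdense
  -- the maps R → A / m_A^n
  have hwd : ∀ (n : ℕ) (r : R) (p : P), r - Φ p ∈ maximalIdeal R ^ n →
      Ideal.Quotient.mk (maximalIdeal A ^ n) (f (σ n r)) =
        Ideal.Quotient.mk (maximalIdeal A ^ n) (f p) := by
    intro n r p hp
    rw [Ideal.Quotient.eq, ← map_sub, ← Ideal.mem_comap]
    apply hf n
    rw [Ideal.mem_comap, map_sub]
    have h1 : Φ (σ n r) - Φ p = (r - Φ p) - (r - Φ (σ n r)) := by ring
    rw [h1]
    exact Ideal.sub_mem _ hp (hσ n r)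
  let ψ : (n : ℕ) → R →ₐ[𝒪] A ⧸ maximalIdeal A ^ n := fun n =>
    { toFun := fun r => Ideal.Quotient.mk (maximalIdeal A ^ n) (f (σ n r))
      map_one' := by
        rw [hwd n 1 1 (by rw [map_one, sub_self]; exact zero_mem _), map_one, map_one]
      map_zero' := by
        rw [hwd n 0 0 (by rw [map_zero, sub_self]; exact zero_mem _), map_zero, map_zero]
      map_mul' := fun r s => by
        rw [hwd n (r * s) (σ n r * σ n s) (by
          rw [map_mul]
          have h1 : r * s - Φ (σ n r) * Φ (σ n s) =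
            r * (s - Φ (σ n s)) + (r - Φ (σ n r)) * Φ (σ n s) := by ring
          rw [h1]
          exact Ideal.add_mem _ (Ideal.mul_mem_left _ _ (hσ n s))
            (Ideal.mul_mem_right _ _ (hσ n r))), map_mul, map_mul]
      map_add' := fun r s => by
        rw [hwd n (r + s) (σ n r + σ n s) (by
          rw [map_add]
          have h1 : r + s - (Φ (σ n r) + Φ (σ n s)) =
            (s - Φ (σ n s)) + (r - Φ (σ n r)) := by ring
          rw [h1]
          exact Ideal.add_mem _ (hσ n s) (hσ n r)), map_add, map_add]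
      commutes' := fun c => by
        rw [hwd n (algebraMap 𝒪 R c) (algebraMap 𝒪 P c) (by
          rw [AlgHom.commutes, sub_self]; exact zero_mem _), AlgHom.commutes]
        rfl }
  have hψ : ∀ (n : ℕ) (r : R) (p : P), r - Φ p ∈ maximalIdeal R ^ n →
      ψ n r = Ideal.Quotient.mk (maximalIdeal A ^ n) (f p) := fun n r p hp => hwd n r p hp
  have hcomp : ∀ {m n : ℕ} (hmn : m ≤ n),
      (Ideal.Quotient.factorₐ 𝒪 (Ideal.pow_le_pow_right hmn)).comp (ψ n) = ψ m := by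
    intro m n hmn
    ext r
    rw [AlgHom.comp_apply, hψ n r (σ n r) (hσ n r),
      hψ m r (σ n r) (Ideal.pow_le_pow_right hmn (hσ n r))]
    rfl
  let φ : R →ₐ[𝒪] A := IsAdicComplete.liftAlgHom (maximalIdeal A) ψ hcomp
  have hφ : ∀ (n : ℕ) (r : R) (p : P), r - Φ p ∈ maximalIdeal R ^ n →
      φ r - f p ∈ maximalIdeal A ^ n := by
    intro n r p hp
    rw [← Ideal.Quotient.eq, ← hψ n r p hp]
    exact IsAdicComplete.mk_liftAlgHom (maximalIdeal A) ψ hcomp n r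
  have hhaus : ∀ a b : A, (∀ n, a - b ∈ maximalIdeal A ^ n) → a = b := by
    intro a b hab
    rw [← sub_eq_zero]
    refine IsHausdorff.haus (I := maximalIdeal A) inferInstance _ fun n => ?_
    rw [SModEq.zero, smul_eq_mul, Ideal.mul_top]
    exact hab n
  refine ⟨φ, ⟨?_, ?_⟩, ?_⟩
  · constructor
    intro r hr
    by_contra hrn
    have h1 : r - Φ 0 ∈ maximalIdeal R ^ 1 := by
      rw [map_zero, sub_zero, pow_one]
      rwa [mem_maximalIdeal, mem_nonunits_iff]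
    have h2 := hφ 1 r 0 h1
    rw [map_zero, sub_zero, pow_one, mem_maximalIdeal, mem_nonunits_iff] at h2
    exact h2 hr
  · ext p
    refine hhaus _ _ fun n => ?_
    exact hφ n (Φ p) p (by rw [sub_self]; exact zero_mem _)
  · rintro φ' ⟨hloc, hcomp'⟩
    ext r
    refine hhaus _ _ fun n => ?_
    have h1 := hφ n r (σ n r) (hσ n r)
    have h2 : φ' r - f (σ n r) ∈ maximalIdeal A ^ n := by
      rw [← hcomp', AlgHom.comp_apply, ← map_sub]
      have h3 : (maximalIdeal R).map (φ' : R →+* A) ≤ maximalIdeal A := by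
        rw [Ideal.map_le_iff_le_comap]
        intro y hy
        rw [Ideal.mem_comap, mem_maximalIdeal, mem_nonunits_iff]
        rw [mem_maximalIdeal, mem_nonunits_iff] at hy
        exact fun hu => hy (hloc.map_nonunit y hu)
      have h4 := Ideal.mem_map_of_mem (φ' : R →+* A) (hσ n r)
      rw [Ideal.map_pow] at h4
      exact Ideal.pow_right_mono h3 n h4
    have h3 : φ' r - φ r = (φ' r - f (σ n r)) - (φ r - f (σ n r)) := by ring
    rw [h3]
    exact Ideal.sub_mem _ h2 h1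

end Main

end Fermat.Agent.H65
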