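import Fermat.Agent.H53Main
import Fermat.Agent.H65ProRep

set_option autoImplicit false
set_option linter.style.haveILetI false
set_option linter.unusedSectionVars false

noncomputable section

open scoped TensorProduct
open IsLocalRing GaloisRep
open Fermat.Agent.H69 (ev IsNormalized)

namespace Fermat.Agent.H53

lemma exists_least {P : Type} [CommRing P] (m : Ideal P) (F : Ideal P → Prop) (hbase : F m)
    (hle : ∀ I, F I → I ≤ m) (hfin : ∀ I, F I → Finite (P ⧸ I))
    (hup : ∀ I J, F I → I ≤ J → J ≤ m → F J)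
    (hinf : ∀ I J, F I → F J → F (I ⊓ J))
    (J : Ideal P) (hJ : J ≤ m) (N : ℕ) (hN : ∀ I, F I → J ≤ I → Nat.card (P ⧸ I) ≤ N) :
    ∃ K, F K ∧ ∀ I, F I → K ≤ I ⊔ J := by
  classical
  let S : Set ℕ := {n | ∃ I, F I ∧ J ≤ I ∧ Nat.card (P ⧸ I) = n}
  have hSne : S.Nonempty := ⟨_, m, hbase, hJ, rfl⟩
  have hSb : BddAbove S := ⟨N, by rintro n ⟨I, hI, hJI, rfl⟩; exact hN I hI hJI⟩
  obtain ⟨K, hK, hJK, hKc⟩ := Nat.sSup_mem hSne hSb
  refine ⟨K, hK, fun I hI => ?_⟩
  have hI' : F (I ⊔ J) := hup I _ hI le_sup_left (sup_le (hle I hI) hJ)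
  have hI'' : F ((I ⊔ J) ⊓ K) := hinf _ _ hI' hK
  have hJI'' : J ≤ (I ⊔ J) ⊓ K := le_inf le_sup_right hJK
  have hc : Nat.card (P ⧸ ((I ⊔ J) ⊓ K)) ≤ Nat.card (P ⧸ K) := by
    rw [hKc]
    exact le_csSup hSb ⟨_, hI'', hJI'', rfl⟩
  haveI := hfin _ hI''
  haveI := hfin _ hK
  have hinj := (Function.Surjective.bijective_of_nat_card_le
    (Ideal.Quotient.factor_surjective (inf_le_right : (I ⊔ J) ⊓ K ≤ K)) hc).1
  intro p hp
  have h1 : Ideal.Quotient.mk ((I ⊔ J) ⊓ K) p = 0 := by
    apply hinj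
    rw [Ideal.Quotient.factor_mk, map_zero]
    exact Ideal.Quotient.eq_zero_iff_mem.mpr hp
  exact (Ideal.Quotient.eq_zero_iff_mem.mp h1).1

section Aug

variable {𝒪 : Type} [CommRing 𝒪] [IsLocalRing 𝒪] {P : Type} [CommRing P] [Algebra 𝒪 P]
  (π₀ : P →ₐ[𝒪] ResidueField 𝒪)

lemma residue_eq_of_ker_le {A : Type} [CommRing A] [IsLocalRing A] [Algebra 𝒪 A]
    [IsLocalHom (algebraMap 𝒪 A)] (f : P →ₐ[𝒪] A)
    (h : RingHom.ker π₀ ≤ (maximalIdeal A).comap f) (p : P) :
    residue A (f p) = ResidueField.map (algebraMap 𝒪 A) (π₀ p) := by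
  obtain ⟨a, ha⟩ := residue_surjective (π₀ p)
  have h1 : p - algebraMap 𝒪 P a ∈ RingHom.ker π₀ := by
    rw [RingHom.mem_ker, map_sub, AlgHom.commutes, ResidueField.algebraMap_eq, ha, sub_self]
  have h2 := h h1
  rw [Ideal.mem_comap, map_sub, AlgHom.commutes] at h2
  rw [← residue_eq_zero_iff, map_sub, sub_eq_zero] at h2
  rw [h2, ← ha, ResidueField.map_residue]

end Aug

theorem main
    (𝒪 : Type) [CommRing 𝒪] [IsDomain 𝒪] [IsDiscreteValuationRing 𝒪]
    [IsAdicComplete (IsLocalRing.maximalIdeal 𝒪) 𝒪] [Finite (IsLocalRing.ResidueField 𝒪)]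
    (ρbar : ResidualGaloisRep (IsLocalRing.ResidueField 𝒪))
    (𝒟 : ∀ ⦃A : Type⦄ [CommRing A] [IsLocalRing A] [Algebra 𝒪 A], GaloisRepAdic A → Prop)
    (habs : ρbar.IsAbsolutelyIrreducible)
    (h𝒟 : GaloisRep.IsDeformationCondition 𝒪 𝒟)
    (hbar : 𝒟 (GaloisRepAdic.ofResidualGaloisRep ρbar))
    (b : Module.Basis (Fin 2) (ResidueField 𝒪) ρbar.V)
    (x z : MonoidAlgebra 𝒪 GQ)
    (hx : ev (toMat ρbar.ρ b) x = !![1, 0; 0, 0]) (hz : ev (toMat ρbar.ρ b) z = !![0, 0; 1, 0])
    (π₀ : UnivP x z →ₐ[𝒪] ResidueField 𝒪)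
    (hπ : mapMat (π₀ : UnivP x z →+* ResidueField 𝒪) (univRep x z) = toMat ρbar.ρ b)
    (N : ℕ) (hN : ∀ I : Ideal (UnivP x z), InFam π₀ 𝒟 (univRep x z) I →
      RingHom.ker π₀ ^ 2 ⊔ (maximalIdeal 𝒪).map (algebraMap 𝒪 (UnivP x z)) ≤ I →
        Nat.card (UnivP x z ⧸ I) ≤ N) :
    Nonempty (GaloisRep.DeformationRingData 𝒪 ρbar 𝒟) := by
  set rbar := toMat ρbar.ρ b with hrbar
  set r₀ := univRep x z with hr₀
  have hr₀n : IsNormalized x z r₀ := univRep_isNormalized x z
  -- the residual member of the family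
  haveI hmax : (RingHom.ker π₀).IsMaximal :=
    RingHom.ker_isMaximal_of_surjective _ (pi0_surjective π₀)
  have hGk : Good 𝒟 (ResidueField 𝒪) rbar := by
    have hk : IsArtinianTestAlgebra 𝒪 (ResidueField 𝒪) :=
      isArtinianTestAlgebra_of_algHom inferInstance (AlgHom.id 𝒪 (ResidueField 𝒪))
    exact Good.of_isEquiv h𝒟 hk (GaloisRepAdic.ofResidualGaloisRep ρbar) b hbar 1 isUnit_one
      fun σ => by rw [one_mul, mul_one]; rfl
  have hbase : InFam π₀ 𝒟 r₀ (RingHom.ker π₀) := by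
    have hS : Small π₀ (RingHom.ker π₀) := by
      refine ⟨le_refl _, ?_, 1, by rw [pow_one]⟩
      exact Finite.of_injective _ (RingHom.kerLift_injective (π₀ : UnivP x z →+* ResidueField 𝒪))
    refine { toSmall := hS, good := ?_ }
    haveI := hS.isLocalRing
    refine Good.of_injective h𝒟 hS.test
      (isArtinianTestAlgebra_of_algHom inferInstance (AlgHom.id 𝒪 (ResidueField 𝒪)))
      hS.aug hS.isLocalHom_aug ?_ ?_
    · exact RingHom.kerLift_injective (π₀ : UnivP x z →+* ResidueField 𝒪)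
    · have : mapMat (hS.aug : UnivP x z ⧸ RingHom.ker π₀ →+* ResidueField 𝒪)
          (mapMat (Ideal.Quotient.mk (RingHom.ker π₀)) r₀) = rbar := hπ
      rw [this]
      exact hGk
  have hle : ∀ I, InFam π₀ 𝒟 r₀ I → I ≤ RingHom.ker π₀ := fun I hI => hI.le
  have hnil : ∀ I, InFam π₀ 𝒟 r₀ I → ∃ n, RingHom.ker π₀ ^ n ≤ I := fun I hI => hI.nil
  have hfinI : ∀ I, InFam π₀ 𝒟 r₀ I → Finite (UnivP x z ⧸ I) := fun I hI => hI.fin
  have hup : ∀ I J, InFam π₀ 𝒟 r₀ I → I ≤ J → J ≤ RingHom.ker π₀ → InFam π₀ 𝒟 r₀ J :=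
    fun I J hI h h' => hI.of_le h𝒟 h h'
  have hinf : ∀ I J, InFam π₀ 𝒟 r₀ I → InFam π₀ 𝒟 r₀ J → InFam π₀ 𝒟 r₀ (I ⊓ J) :=
    fun I J hI hJ => hI.inf h𝒟 hJ
  have hpm : (maximalIdeal 𝒪).map (algebraMap 𝒪 (UnivP x z)) ≤ RingHom.ker π₀ := by
    rw [Ideal.map_le_iff_le_comap]
    intro a ha
    rw [Ideal.mem_comap, RingHom.mem_ker, AlgHom.commutes, ResidueField.algebraMap_eq,
      residue_eq_zero_iff]
    exact ha
  obtain ⟨K, hK, hKle⟩ := exists_least (RingHom.ker π₀) (InFam π₀ 𝒟 r₀) hbase hle hfinI hup hinf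
    (RingHom.ker π₀ ^ 2 ⊔ (maximalIdeal 𝒪).map (algebraMap 𝒪 (UnivP x z)))
    (sup_le (Ideal.pow_le_self two_ne_zero) hpm) N hN
  have hressurj : Function.Surjective
      ((Ideal.Quotient.mk (RingHom.ker π₀)).comp (algebraMap 𝒪 (UnivP x z))) := by
    intro y
    obtain ⟨p, rfl⟩ := Ideal.Quotient.mk_surjective y
    obtain ⟨a, ha⟩ := residue_surjective (π₀ p)
    refine ⟨a, ?_⟩
    rw [RingHom.comp_apply, Ideal.Quotient.eq, RingHom.mem_ker, map_sub, AlgHom.commutes,
      ResidueField.algebraMap_eq, ha, sub_self]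
  obtain ⟨R, _, _, _, _, _, _, hsR, Φ, hdense, hAdm, hmin⟩ :=
    H65.prorep 𝒪 (UnivP x z) (RingHom.ker π₀) hressurj (InFam π₀ 𝒟 r₀) hbase hle hnil hfinI hup
      hinf K (hfinI K hK) (fun I hI => by rw [sup_assoc]; exact hKle I hI)
  -- the universal representation
  set rR : GQ →* M2 R := mapMat (Φ : UnivP x z →+* R) r₀ with hrR
  have hcR : MCont R rR := by
    intro n
    by_cases hn : n = 0
    · subst hn
      refine ⟨⊥, inferInstance, fun σ _ i j => ?_⟩
      rw [pow_zero, Ideal.one_eq_top]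
      exact Submodule.mem_top
    · have hA := hAdm n hn
      obtain ⟨_, hc, -⟩ := hA.good
      haveI := hA.toSmall.isArtinianRing
      rw [mcont_iff_of_artinian] at hc
      obtain ⟨L, hL, h1⟩ := hc
      refine ⟨L, hL, fun σ hσ i j => ?_⟩
      have h2 := congrFun (congrFun (h1 σ hσ) i) j
      rw [mapMat_apply, Matrix.one_apply] at h2
      have key : (if i = j then (1 : UnivP x z ⧸ (maximalIdeal R ^ n).comap Φ) else 0) =
        Ideal.Quotient.mk _ (if i = j then 1 else 0) := by split_ifs <;> simp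
      rw [key, Ideal.Quotient.eq, Ideal.mem_comap, map_sub] at h2
      have h3 : rR σ i j - (1 : M2 R) i j = Φ (r₀ σ i j) - Φ (if i = j then 1 else 0) := by
        rw [hrR, mapMat_apply, Matrix.one_apply]
        split_ifs <;> simp
      rw [h3]
      exact h2
  have hnR : IsNormalized x z rR := isNormalized_map Φ hr₀n
  -- kernel of `P → k_R`
  have hK1 : RingHom.ker π₀ ≤ (maximalIdeal R).comap Φ := by
    have hA := hAdm 1 one_ne_zero
    rw [pow_one] at hA
    obtain ⟨n, hn⟩ := hA.nil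
    haveI : ((maximalIdeal R).comap Φ).IsPrime := inferInstance
    exact Ideal.IsPrime.le_of_pow_le hn
  have hmatR : mapMat (residue R) rR = mapMat (ResidueField.map (algebraMap 𝒪 R)) rbar := by
    ext σ i j
    rw [mapMat_apply, mapMat_apply, ← hπ, mapMat_apply]
    exact residue_eq_of_ker_le π₀ Φ hK1 _
  have hD : 𝒟 (ofMatrix rR hcR) := by
    rw [h𝒟.iff_forall_surjective (A := R) inferInstance hsR]
    intro B _ _ _ hB q hq hqs
    haveI := hB.isArtinian
    obtain ⟨n, hn⟩ := (isArtinianRing_iff_isNilpotent_maximalIdeal B).mp inferInstance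
    have hA := hAdm (n + 1) n.succ_ne_zero
    haveI := hA.toSmall.isLocalRing
    haveI := hA.toSmall.isArtinianRing
    have hker : ∀ p ∈ (maximalIdeal R ^ (n + 1)).comap Φ, (q.comp Φ) p = 0 := by
      intro p hp
      have h1 := map_maximalIdeal_pow (q : R →+* B) hq (n + 1) (Ideal.mem_comap.mp hp)
      rw [pow_succ, hn, zero_mul, Ideal.zero_eq_bot, Ideal.mem_bot] at h1
      exact h1
    have hG := hA.good.map h𝒟 hA.toSmall.test hB
      (Ideal.Quotient.liftₐ _ (q.comp Φ) hker) (isLocalHom_of_artinian _)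
    obtain ⟨_, hc, hDB⟩ := hG
    exact h𝒟.of_isEquiv hB (isEquiv_symm (bc_isEquiv (q : R →+* B) hq rR hcR)) hDB
  refine ⟨{ R := R, residue_surjective := hsR, absIrr := habs, ρ := ofMatrix rR hcR,
            isOfType := hD, residual_isEquiv := ?_, universal := ?_ }⟩
  · rw [residual_isEquiv_iff_conj _ _ (resBasis _ (stdBasis rR hcR)) (rbcBasis _ ρbar b)]
    refine ⟨1, isUnit_one, fun σ => ?_⟩
    rw [toMat_resBasis, toMat_rbcBasis, toMat_stdBasis, one_mul, mul_one, hmatR]
  · intro A _ _ _ _ _ _ hsA ρA hDA hresA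
    let bA : Module.Basis (Fin 2) A ρA.V := Module.finBasisOfFinrankEq A ρA.V ρA.finrank_eq
    rw [residual_isEquiv_iff_conj _ _ (resBasis ρA bA) (rbcBasis _ ρbar b)] at hresA
    obtain ⟨u, hu, huc⟩ := hresA
    rw [toMat_resBasis, toMat_rbcBasis] at huc
    haveI := henselian_of_complete A
    obtain ⟨V, r', hV, hn', hVc, hres'⟩ :=
      exists_normal_form hx hz (toMat ρA.ρ bA) u hu huc
    obtain ⟨Vi, hV1, hV2⟩ : ∃ Vi : M2 A, V * Vi = 1 ∧ Vi * V = 1 := by
      obtain ⟨v, rfl⟩ := hV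
      exact ⟨↑v⁻¹, v.mul_inv, v.inv_mul⟩
    have hViu : IsUnit Vi := ⟨⟨Vi, V, hV2, hV1⟩, rfl⟩
    have hVic : ∀ σ, Vi * toMat ρA.ρ bA σ = r' σ * Vi := fun σ => by
      calc Vi * toMat ρA.ρ bA σ = Vi * toMat ρA.ρ bA σ * (V * Vi) := by rw [hV1, mul_one]
        _ = Vi * (toMat ρA.ρ bA σ * V) * Vi := by simp only [mul_assoc]
        _ = Vi * (V * r' σ) * Vi := by rw [hVc]
        _ = (Vi * V) * (r' σ * Vi) := by simp only [mul_assoc]
        _ = r' σ * Vi := by rw [hV2, one_mul]
    obtain ⟨f, hf⟩ := exists_univ_lift r' hn'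
    -- the kernel of `P → k_A`
    have hfker : ∀ p, residue A (f p) = ResidueField.map (algebraMap 𝒪 A) (π₀ p) := by
      have h1 : (resₐ A).comp f = (resMapₐ A).comp π₀ := by
        apply univ_hom_ext
        have e1 : mapMat (((resₐ (𝒪 := 𝒪) A).comp f : UnivP x z →ₐ[𝒪] ResidueField A) :
            UnivP x z →+* ResidueField A) (univRep x z) = mapMat (residue A) r' := by
          rw [← hf]; rfl
        have e2 : mapMat (((resMapₐ (𝒪 := 𝒪) A).comp π₀ : UnivP x z →ₐ[𝒪] ResidueField A) :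
            UnivP x z →+* ResidueField A) (univRep x z) =
              mapMat (ResidueField.map (algebraMap 𝒪 A)) rbar := by
          rw [← hπ]; rfl
        rw [e1, e2, hres']
      intro p
      exact AlgHom.congr_fun h1 p
    have hcomap : (maximalIdeal A).comap f = RingHom.ker π₀ := by
      ext p
      rw [Ideal.mem_comap, ← residue_eq_zero_iff, hfker, RingHom.mem_ker]
      exact map_eq_zero _
    -- `A / m^n`
    haveI hfk : Finite (ResidueField A) :=
      Finite.of_surjective (ResidueField.map (algebraMap 𝒪 A)) (by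
        intro y
        obtain ⟨a, ha⟩ := hsA y
        exact ⟨residue 𝒪 a, by rw [ResidueField.map_residue]; exact ha⟩)
    have hfamA : ∀ n : ℕ, n ≠ 0 → InFam π₀ 𝒟 r₀ ((maximalIdeal A ^ n).comap f) := by
      intro n hn
      haveI : Finite (A ⧸ maximalIdeal A) := hfk
      haveI hfA : Finite (A ⧸ maximalIdeal A ^ n) :=
        Ideal.finite_quotient_pow (IsNoetherian.noetherian _) n
      have hinjn : Function.Injective
          (Ideal.quotientMap (maximalIdeal A ^ n) (f : UnivP x z →+* A)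
            (le_refl ((maximalIdeal A ^ n).comap f))) :=
        Ideal.quotientMap_injective
      have hS : Small π₀ ((maximalIdeal A ^ n).comap f) := by
        refine ⟨?_, Finite.of_injective _ hinjn, n, ?_⟩
        · rw [← hcomap]
          exact Ideal.comap_mono (Ideal.pow_le_self hn)
        · rw [← hcomap]
          exact Ideal.le_comap_pow _ n
      haveI := hS.isLocalRing
      haveI : Nontrivial (A ⧸ maximalIdeal A ^ n) := Ideal.Quotient.nontrivial_iff.mpr (by
        intro htop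
        have h1 := Ideal.pow_le_self (I := maximalIdeal A) hn
        rw [htop, top_le_iff] at h1
        exact Ideal.IsPrime.ne_top inferInstance h1)
      haveI : IsLocalRing (A ⧸ maximalIdeal A ^ n) :=
        IsLocalRing.of_surjective' (Ideal.Quotient.mk _) Ideal.Quotient.mk_surjective
      haveI hqloc : IsLocalHom (Ideal.Quotient.mk (maximalIdeal A ^ n)) :=
        IsLocalHom.of_surjective _ Ideal.Quotient.mk_surjective
      have hT : IsArtinianTestAlgebra 𝒪 (A ⧸ maximalIdeal A ^ n) := by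
        refine ⟨?_, ?_, inferInstance⟩
        · have : algebraMap 𝒪 (A ⧸ maximalIdeal A ^ n) =
              (Ideal.Quotient.mk (maximalIdeal A ^ n)).comp (algebraMap 𝒪 A) := rfl
          rw [this]
          exact RingHom.isLocalHom_comp _ _
        · intro y
          obtain ⟨y', rfl⟩ := residue_surjective y
          obtain ⟨a, rfl⟩ := Ideal.Quotient.mk_surjective y'
          obtain ⟨c, hc⟩ := hsA (residue A a)
          refine ⟨c, ?_⟩
          rw [Function.comp_apply, ← sub_eq_zero, ← map_sub, residue_eq_zero_iff]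
          rw [Function.comp_apply, ← sub_eq_zero, ← map_sub, residue_eq_zero_iff] at hc
          have h2 : algebraMap 𝒪 (A ⧸ maximalIdeal A ^ n) c - Ideal.Quotient.mk _ a =
            Ideal.Quotient.mk (maximalIdeal A ^ n) (algebraMap 𝒪 A c - a) := by
              rw [map_sub]; rfl
          rw [h2]
          have h3 := map_maximalIdeal_pow (Ideal.Quotient.mk (maximalIdeal A ^ n)) hqloc 1
            (a := algebraMap 𝒪 A c - a) (by rwa [pow_one])
          rwa [pow_one] at h3
      refine { toSmall := hS, good := ?_ }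
      haveI := hS.isArtinianRing
      haveI := hT.isArtinian
      let ψ : UnivP x z ⧸ (maximalIdeal A ^ n).comap f →ₐ[𝒪] A ⧸ maximalIdeal A ^ n :=
        Ideal.Quotient.liftₐ _ ((Ideal.Quotient.mkₐ 𝒪 (maximalIdeal A ^ n)).comp f) (by
          intro p hp
          exact Ideal.Quotient.eq_zero_iff_mem.mpr hp)
      refine Good.of_injective h𝒟 hS.test hT ψ (isLocalHom_of_artinian _) ?_ ?_
      · intro p q hpq
        apply hinjn
        obtain ⟨p, rfl⟩ := Ideal.Quotient.mk_surjective p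
        obtain ⟨q, rfl⟩ := Ideal.Quotient.mk_surjective q
        exact hpq
      · have h1 := (h𝒟.iff_forall_surjective (A := A) inferInstance hsA ρA).mp hDA hT
          (Ideal.Quotient.mkₐ 𝒪 (maximalIdeal A ^ n)) hqloc (Ideal.Quotient.mkₐ_surjective 𝒪 _)
        have h2 : mapMat (ψ : UnivP x z ⧸ (maximalIdeal A ^ n).comap f →+* A ⧸ maximalIdeal A ^ n)
            (mapMat (Ideal.Quotient.mk ((maximalIdeal A ^ n).comap f)) r₀) =
            mapMat (Ideal.Quotient.mk (maximalIdeal A ^ n)) r' := by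
          rw [← hf]; rfl
        rw [h2]
        refine Good.of_isEquiv h𝒟 hT _ (bcBasis _ hqloc ρA bA) h1
          (Vi.map (Ideal.Quotient.mk (maximalIdeal A ^ n))) ?_ ?_
        · have := hViu.map ((Ideal.Quotient.mk (maximalIdeal A ^ n)).mapMatrix :
            M2 A →+* M2 (A ⧸ maximalIdeal A ^ n))
          exact this
        · intro σ
          have e := toMat_bcBasis (Ideal.Quotient.mk (maximalIdeal A ^ n)) hqloc ρA bA
          have h3 := congrArg (fun m : M2 A => m.map (Ideal.Quotient.mk (maximalIdeal A ^ n)))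
            (hVic σ)
          simp only [Matrix.map_mul] at h3
          refine Eq.trans ?_ h3
          congr 1
          exact DFunLike.congr_fun e σ
    have hle' : ∀ n : ℕ, (maximalIdeal R ^ n).comap Φ ≤ (maximalIdeal A ^ n).comap f := by
      intro n
      by_cases hn : n = 0
      · subst hn
        rw [pow_zero, pow_zero, Ideal.one_eq_top, Ideal.one_eq_top, Ideal.comap_top,
          Ideal.comap_top]
      · refine hmin n _ (hfamA n hn) ?_
        rw [← hcomap]
        exact Ideal.le_comap_pow _ n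
    obtain ⟨φ, ⟨hφl, hφ⟩, hφu⟩ := H65.prorep_lift Φ hdense f hle'
    refine ⟨φ, ⟨hφl, ?_⟩, ?_⟩
    · rw [isEquiv_iff_conj _ _ (bcBasis (φ : R →+* A) hφl _ (stdBasis rR hcR)) bA]
      refine ⟨V, hV, fun σ => ?_⟩
      rw [toMat_bcBasis, toMat_stdBasis, ← hVc]
      congr 1
      rw [hrR, ← mapMat_comp]
      have : ((φ : R →+* A).comp (Φ : UnivP x z →+* R)) = (f : UnivP x z →+* A) := by
        rw [← hφ]; rfl
      rw [this, hf]
    · rintro φ' ⟨hφ'l, hφ'⟩
      refine hφu φ' ⟨hφ'l, ?_⟩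
      rw [isEquiv_iff_conj _ _ (bcBasis (φ' : R →+* A) hφ'l _ (stdBasis rR hcR)) bA] at hφ'
      obtain ⟨U, hU, hUc⟩ := hφ'
      rw [toMat_bcBasis, toMat_stdBasis] at hUc
      have hev1 : ∀ (y : MonoidAlgebra 𝒪 GQ) (i j : Fin 2),
          residue R (ev rR y i j) = ResidueField.map (algebraMap 𝒪 R) (ev rbar y i j) := by
        intro y i j
        have h1 := ev_map (resₐ (𝒪 := 𝒪) R) rR y i j
        have h2 := ev_map (resMapₐ (𝒪 := 𝒪) R) rbar y i j
        rw [resₐ_coe, hmatR] at h1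
        rw [resMapₐ_coe] at h2
        exact h1.symm.trans h2
      have hev2 : ∀ (y : MonoidAlgebra 𝒪 GQ) (i j : Fin 2),
          residue A (ev r' y i j) = ResidueField.map (algebraMap 𝒪 A) (ev rbar y i j) := by
        intro y i j
        have h1 := ev_map (resₐ (𝒪 := 𝒪) A) r' y i j
        have h2 := ev_map (resMapₐ (𝒪 := 𝒪) A) rbar y i j
        rw [resₐ_coe, hres'] at h1
        rw [resMapₐ_coe] at h2
        exact h1.symm.trans h2
      have hR00 : ev rR x 0 0 - 1 ∈ maximalIdeal R := by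
        rw [← residue_eq_zero_iff, map_sub, hev1, hx]; simp
      have hR11 : ev rR x 1 1 ∈ maximalIdeal R := by
        rw [← residue_eq_zero_iff, hev1, hx]; simp
      have hA00 : ev r' x 0 0 - 1 ∈ maximalIdeal A := by
        rw [← residue_eq_zero_iff, map_sub, hev2, hx]; simp
      have hA11 : ev r' x 1 1 ∈ maximalIdeal A := by
        rw [← residue_eq_zero_iff, hev2, hx]; simp
      have hφR00 : ev (mapMat (φ' : R →+* A) rR) x 0 0 - 1 ∈ maximalIdeal A := by
        rw [ev_map φ' rR, ← map_one φ', ← map_sub]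
        have := map_maximalIdeal_pow (φ' : R →+* A) hφ'l 1
          (a := ev rR x 0 0 - 1) (by rwa [pow_one])
        rwa [pow_one] at this
      have hφR11 : ev (mapMat (φ' : R →+* A) rR) x 1 1 ∈ maximalIdeal A := by
        rw [ev_map φ' rR]
        have := map_maximalIdeal_pow (φ' : R →+* A) hφ'l 1
          (a := ev rR x 1 1) (by rwa [pow_one])
        rwa [pow_one] at this
      have heq : mapMat (φ' : R →+* A) rR = r' := by
        refine H69.normalized_unique (mapMat (φ' : R →+* A) rR) r' (isNormalized_map φ' hnR) hn'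
          hφR00 hφR11 hA00 hA11 (Vi * U) (hViu.mul hU) fun σ => ?_
        rw [mul_assoc, hUc, ← mul_assoc, hVic, mul_assoc]
      apply univ_hom_ext
      rw [hf, ← heq, hrR, ← mapMat_comp]
      rfl

end Fermat.Agent.H53
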