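import Fermat.Agent.H53Univ

set_option autoImplicit false
set_option linter.style.haveILetI false
set_option linter.unusedSectionVars false

noncomputable section

open scoped TensorProduct
open IsLocalRing GaloisRep

namespace Fermat.Agent.H53

lemma mcont_iff_of_artinian {A : Type} [CommRing A] [IsLocalRing A] [IsArtinianRing A]
    (r : GQ →* M2 A) :
    MCont A r ↔ ∃ L : IntermediateField ℚ (AlgebraicClosure ℚ), FiniteDimensional ℚ L ∧
      ∀ σ : GQ, (∀ x ∈ L, σ x = x) → r σ = 1 := by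
  constructor
  · intro h
    obtain ⟨n, hn⟩ := (isArtinianRing_iff_isNilpotent_maximalIdeal A).mp ‹_›
    obtain ⟨L, hL, h1⟩ := h n
    refine ⟨L, hL, fun σ hσ => ?_⟩
    ext i j
    have h2 := h1 σ hσ i j
    rw [hn, Ideal.zero_eq_bot, Ideal.mem_bot, sub_eq_zero] at h2
    exact h2
  · rintro ⟨L, hL, h⟩ n
    refine ⟨L, hL, fun σ hσ i j => ?_⟩
    rw [h σ hσ, sub_self]
    exact Ideal.zero_mem _

lemma bc_isEquiv {A B : Type} [CommRing A] [IsLocalRing A] [CommRing B] [IsLocalRing B]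
    (φ : A →+* B) (hφ : IsLocalHom φ) (r : GQ →* M2 A) (hr : MCont A r) :
    ((ofMatrix r hr).baseChangeAlong φ hφ).IsEquiv (ofMatrix (mapMat φ r) (hr.map φ hφ)) := by
  rw [isEquiv_iff_conj _ _ (bcBasis φ hφ _ (stdBasis r hr)) (stdBasis _ _)]
  refine ⟨1, isUnit_one, fun σ => ?_⟩
  rw [toMat_bcBasis, toMat_stdBasis, toMat_stdBasis, one_mul, mul_one]

lemma isEquiv_symm {A : Type} [CommRing A] [IsLocalRing A] {ρ₁ ρ₂ : GaloisRepAdic A}
    (h : ρ₁.IsEquiv ρ₂) : ρ₂.IsEquiv ρ₁ := by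
  obtain ⟨e⟩ := h
  exact ⟨e.symm⟩

lemma isEquiv_trans {A : Type} [CommRing A] [IsLocalRing A] {ρ₁ ρ₂ ρ₃ : GaloisRepAdic A}
    (h : ρ₁.IsEquiv ρ₂) (h' : ρ₂.IsEquiv ρ₃) : ρ₁.IsEquiv ρ₃ := by
  obtain ⟨e⟩ := h
  obtain ⟨e'⟩ := h'
  exact ⟨e.trans e'⟩

section GoodDef

variable {𝒪 : Type} [CommRing 𝒪] [IsLocalRing 𝒪]
variable (𝒟 : ∀ ⦃A : Type⦄ [CommRing A] [IsLocalRing A] [Algebra 𝒪 A], GaloisRepAdic A → Prop)

/-- matrix representation of type `𝒟` -/
def Good (A : Type) [CommRing A] [Algebra 𝒪 A] (r : GQ →* M2 A) : Prop :=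
  ∃ (_ : IsLocalRing A) (hr : MCont A r), 𝒟 (ofMatrix r hr)

variable {𝒟}

lemma Good.map (h𝒟 : IsDeformationCondition 𝒪 𝒟) {A B : Type} [CommRing A] [IsLocalRing A]
    [Algebra 𝒪 A] [CommRing B] [IsLocalRing B] [Algebra 𝒪 B]
    (hA : IsArtinianTestAlgebra 𝒪 A) (hB : IsArtinianTestAlgebra 𝒪 B) (φ : A →ₐ[𝒪] B)
    (hφ : IsLocalHom (φ : A →+* B)) {r : GQ →* M2 A} (h : Good 𝒟 A r) :
    Good 𝒟 B (mapMat (φ : A →+* B) r) := by
  obtain ⟨hloc, hr, hD⟩ := h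
  have h1 := h𝒟.baseChangeAlong hA hB φ hφ hD
  exact ⟨inferInstance, hr.map _ hφ, h𝒟.of_isEquiv hB (bc_isEquiv (φ : A →+* B) hφ r hr) h1⟩

lemma Good.of_injective (h𝒟 : IsDeformationCondition 𝒪 𝒟) {A B : Type} [CommRing A]
    [IsLocalRing A] [Algebra 𝒪 A] [CommRing B] [IsLocalRing B] [Algebra 𝒪 B]
    (hA : IsArtinianTestAlgebra 𝒪 A) (hB : IsArtinianTestAlgebra 𝒪 B) (φ : A →ₐ[𝒪] B)
    (hφ : IsLocalHom (φ : A →+* B)) (hinj : Function.Injective φ) {r : GQ →* M2 A}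
    (h : Good 𝒟 B (mapMat (φ : A →+* B) r)) : Good 𝒟 A r := by
  obtain ⟨hloc, hr, hD⟩ := h
  haveI := hA.isArtinian
  haveI := hB.isArtinian
  have hrA : MCont A r := by
    rw [mcont_iff_of_artinian] at hr ⊢
    obtain ⟨L, hL, h1⟩ := hr
    refine ⟨L, hL, fun σ hσ => ?_⟩
    ext i j
    apply hinj
    have h2 := congrFun (congrFun (h1 σ hσ) i) j
    rw [mapMat_apply] at h2
    rw [show φ (r σ i j) = _ from h2, Matrix.one_apply, Matrix.one_apply]
    split_ifs <;> simp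
  refine ⟨inferInstance, hrA, h𝒟.of_baseChangeAlong_injective hA hB φ hφ hinj ?_⟩
  exact h𝒟.of_isEquiv hB (isEquiv_symm (bc_isEquiv (φ : A →+* B) hφ r hrA)) hD

lemma Good.of_conj (h𝒟 : IsDeformationCondition 𝒪 𝒟) {A : Type} [CommRing A]
    [IsLocalRing A] [Algebra 𝒪 A] (hA : IsArtinianTestAlgebra 𝒪 A) {r r' : GQ →* M2 A}
    (h : Good 𝒟 A r) (u : M2 A) (hu : IsUnit u) (huc : ∀ σ, u * r σ = r' σ * u) :
    Good 𝒟 A r' := by
  obtain ⟨hloc, hr, hD⟩ := h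
  haveI := hA.isArtinian
  have hrA : MCont A r' := by
    rw [mcont_iff_of_artinian] at hr ⊢
    obtain ⟨L, hL, h1⟩ := hr
    refine ⟨L, hL, fun σ hσ => ?_⟩
    have h2 := huc σ
    rw [h1 σ hσ, mul_one] at h2
    exact hu.mul_right_cancel (by rw [one_mul, ← h2])
  refine ⟨inferInstance, hrA, h𝒟.of_isEquiv hA ?_ hD⟩
  rw [isEquiv_iff_conj _ _ (stdBasis r hr) (stdBasis r' hrA)]
  refine ⟨u, hu, fun σ => ?_⟩
  rw [toMat_stdBasis, toMat_stdBasis, huc]

lemma Good.of_isEquiv (h𝒟 : IsDeformationCondition 𝒪 𝒟) {A : Type} [CommRing A]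
    [IsLocalRing A] [Algebra 𝒪 A] (hA : IsArtinianTestAlgebra 𝒪 A) {r : GQ →* M2 A}
    (ρ : GaloisRepAdic A) (b : Module.Basis (Fin 2) A ρ.V) (hρ : 𝒟 ρ)
    (u : M2 A) (hu : IsUnit u) (huc : ∀ σ, u * toMat ρ.ρ b σ = r σ * u) : Good 𝒟 A r := by
  refine Good.of_conj h𝒟 hA (r := toMat ρ.ρ b) ?_ u hu huc
  exact ⟨inferInstance, mcont_toMat ρ b, h𝒟.of_isEquiv hA ⟨equivOfMatrix ρ b⟩ hρ⟩

/-- criterion for test algebras -/
lemma test_of_algHom {A : Type} [CommRing A] [IsLocalRing A] [Algebra 𝒪 A]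
    (π : A →ₐ[𝒪] ResidueField 𝒪) :
    IsLocalHom (algebraMap 𝒪 A) ∧
      Function.Surjective (IsLocalRing.residue A ∘ algebraMap 𝒪 A) := by
  constructor
  · refine ⟨fun a ha => ?_⟩
    have h1 := ha.map π
    rw [AlgHom.commutes, ResidueField.algebraMap_eq] at h1
    exact (isUnit_map_iff (residue 𝒪) a).mp h1
  · intro y
    obtain ⟨b, rfl⟩ := residue_surjective y
    obtain ⟨a, ha⟩ := residue_surjective (π b)
    refine ⟨a, ?_⟩
    rw [Function.comp_apply, ← sub_eq_zero, ← map_sub, residue_eq_zero_iff, mem_maximalIdeal,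
      mem_nonunits_iff]
    intro hu
    have h1 := hu.map π
    rw [map_sub, AlgHom.commutes, ResidueField.algebraMap_eq, ha, sub_self] at h1
    exact not_isUnit_zero h1

lemma isArtinianTestAlgebra_of_algHom {A : Type} [CommRing A] [IsLocalRing A] [Algebra 𝒪 A]
    (hA : IsArtinianRing A) (π : A →ₐ[𝒪] ResidueField 𝒪) : IsArtinianTestAlgebra 𝒪 A :=
  ⟨(test_of_algHom π).1, (test_of_algHom π).2, hA⟩

/-- ring homs to a field with nil kernel are local -/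
lemma isLocalHom_of_nil {Q k : Type} [CommRing Q] [Field k] (π : Q →+* k)
    (hsurj : Function.Surjective π) (hnil : ∀ q, π q = 0 → IsNilpotent q) : IsLocalHom π := by
  refine ⟨fun q hq => ?_⟩
  obtain ⟨q', hq'⟩ := hsurj (π q)⁻¹
  have h0 : π q ≠ 0 := hq.ne_zero
  have h1 : IsNilpotent (1 - q * q') := hnil _ (by
    rw [map_sub, map_one, map_mul, hq', mul_inv_cancel₀ h0, sub_self])
  have h2 : IsUnit (q * q') := by
    have := h1.isUnit_one_sub
    rwa [sub_sub_cancel] at this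
  exact isUnit_of_mul_isUnit_left h2

/-- ring homs from an Artinian local ring to a nontrivial ring are local -/
lemma isLocalHom_of_artinian {A B : Type} [CommRing A] [IsLocalRing A] [IsArtinianRing A]
    [CommRing B] [Nontrivial B] (φ : A →+* B) : IsLocalHom φ := by
  refine ⟨fun a ha => ?_⟩
  by_contra h
  obtain ⟨n, hn⟩ := (isArtinianRing_iff_isNilpotent_maximalIdeal A).mp ‹_›
  have h1 : a ^ n ∈ maximalIdeal A ^ n := Ideal.pow_mem_pow ((mem_maximalIdeal a).mpr h) n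
  rw [hn, Ideal.zero_eq_bot, Ideal.mem_bot] at h1
  have h2 := (ha.pow n)
  rw [← map_pow, h1, map_zero] at h2
  exact not_isUnit_zero h2

end GoodDef

section Quot

variable {𝒪 : Type} [CommRing 𝒪] [IsLocalRing 𝒪] {P : Type} [CommRing P] [Algebra 𝒪 P]
  (π₀ : P →ₐ[𝒪] ResidueField 𝒪)

lemma pi0_surjective : Function.Surjective π₀ := by
  intro y
  obtain ⟨a, rfl⟩ := residue_surjective y
  exact ⟨algebraMap 𝒪 P a, by rw [AlgHom.commutes, ResidueField.algebraMap_eq]⟩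

/-- `I` is a "small" ideal: cofinite, between a power of the kernel and the kernel -/
structure Small (I : Ideal P) : Prop where
  le : I ≤ RingHom.ker π₀
  fin : Finite (P ⧸ I)
  nil : ∃ n, RingHom.ker π₀ ^ n ≤ I

variable {π₀}

/-- augmentation of the quotient -/
def Small.aug {I : Ideal P} (h : Small π₀ I) : P ⧸ I →ₐ[𝒪] ResidueField 𝒪 :=
  Ideal.Quotient.liftₐ I π₀ fun _ ha => h.le ha

@[simp] lemma Small.aug_mk {I : Ideal P} (h : Small π₀ I) (p : P) :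
    h.aug (Ideal.Quotient.mk I p) = π₀ p := rfl

lemma Small.isLocalHom_aug {I : Ideal P} (h : Small π₀ I) :
    IsLocalHom (h.aug : P ⧸ I →+* ResidueField 𝒪) := by
  apply isLocalHom_of_nil
  · intro y
    obtain ⟨p, hp⟩ := pi0_surjective π₀ y
    exact ⟨Ideal.Quotient.mk I p, hp⟩
  · intro q hq
    obtain ⟨p, rfl⟩ := Ideal.Quotient.mk_surjective q
    obtain ⟨n, hn⟩ := h.nil
    refine ⟨n, ?_⟩
    rw [← map_pow, Ideal.Quotient.eq_zero_iff_mem]
    exact hn (Ideal.pow_mem_pow hq n)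

lemma Small.isLocalRing {I : Ideal P} (h : Small π₀ I) : IsLocalRing (P ⧸ I) := by
  haveI := h.isLocalHom_aug
  exact RingHom.domain_isLocalRing (h.aug : P ⧸ I →+* ResidueField 𝒪)

lemma Small.isArtinianRing {I : Ideal P} (h : Small π₀ I) : IsArtinianRing (P ⧸ I) := by
  haveI := h.fin
  infer_instance

lemma Small.test {I : Ideal P} (h : Small π₀ I) [IsLocalRing (P ⧸ I)] :
    IsArtinianTestAlgebra 𝒪 (P ⧸ I) :=
  isArtinianTestAlgebra_of_algHom h.isArtinianRing h.aug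

lemma Small.of_le {I J : Ideal P} (h : Small π₀ I) (hIJ : I ≤ J) (hJ : J ≤ RingHom.ker π₀) :
    Small π₀ J where
  le := hJ
  fin := by
    haveI := h.fin
    exact Finite.of_surjective _ (Ideal.Quotient.factor_surjective hIJ)
  nil := by
    obtain ⟨n, hn⟩ := h.nil
    exact ⟨n, hn.trans hIJ⟩

lemma Small.inf {I J : Ideal P} (h : Small π₀ I) (h' : Small π₀ J) : Small π₀ (I ⊓ J) where
  le := inf_le_left.trans h.le
  fin := by
    haveI := h.fin
    haveI := h'.fin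
    let f : P ⧸ (I ⊓ J) → (P ⧸ I) × (P ⧸ J) := fun q =>
      (Ideal.Quotient.factor (inf_le_left : I ⊓ J ≤ I) q,
        Ideal.Quotient.factor (inf_le_right : I ⊓ J ≤ J) q)
    refine Finite.of_injective f ?_
    intro a b hab
    obtain ⟨p, rfl⟩ := Ideal.Quotient.mk_surjective a
    obtain ⟨q, rfl⟩ := Ideal.Quotient.mk_surjective b
    simp only [f, Prod.mk.injEq, Ideal.Quotient.factor_mk, Ideal.Quotient.eq] at hab ⊢
    exact hab
  nil := by
    obtain ⟨n, hn⟩ := h.nil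
    obtain ⟨m, hm⟩ := h'.nil
    refine ⟨n + m, le_inf ?_ ?_⟩
    · exact (Ideal.pow_le_pow_right (Nat.le_add_right n m)).trans hn
    · exact (Ideal.pow_le_pow_right (Nat.le_add_left m n)).trans hm

lemma Small.sup {I J : Ideal P} (h : Small π₀ I) (h' : Small π₀ J) : Small π₀ (I ⊔ J) :=
  h.of_le le_sup_left (sup_le h.le h'.le)

lemma mapMat_factor {I J : Ideal P} (hIJ : I ≤ J) (r : GQ →* M2 P) :
    mapMat ((Ideal.Quotient.factorₐ 𝒪 hIJ : P ⧸ I →ₐ[𝒪] P ⧸ J) : P ⧸ I →+* P ⧸ J)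
      (mapMat (Ideal.Quotient.mk I) r) = mapMat (Ideal.Quotient.mk J) r := rfl

variable (𝒟 : ∀ ⦃A : Type⦄ [CommRing A] [IsLocalRing A] [Algebra 𝒪 A], GaloisRepAdic A → Prop)
variable (π₀)
variable (r₀ : GQ →* M2 P)

/-- The family of ideals -/
structure InFam (I : Ideal P) : Prop extends Small π₀ I where
  good : Good 𝒟 (P ⧸ I) (mapMat (Ideal.Quotient.mk I) r₀)

variable {π₀ 𝒟 r₀}

lemma InFam.of_le (h𝒟 : IsDeformationCondition 𝒪 𝒟) {I J : Ideal P} (h : InFam π₀ 𝒟 r₀ I)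
    (hIJ : I ≤ J) (hJ : J ≤ RingHom.ker π₀) : InFam π₀ 𝒟 r₀ J := by
  have hJs := h.toSmall.of_le hIJ hJ
  haveI := h.toSmall.isLocalRing
  haveI := hJs.isLocalRing
  haveI := h.toSmall.isArtinianRing
  refine { toSmall := hJs, good := ?_ }
  exact h.good.map h𝒟 h.toSmall.test hJs.test (Ideal.Quotient.factorₐ 𝒪 hIJ)
    (isLocalHom_of_artinian _)

lemma InFam.inf (h𝒟 : IsDeformationCondition 𝒪 𝒟) {I J : Ideal P} (h : InFam π₀ 𝒟 r₀ I)
    (h' : InFam π₀ 𝒟 r₀ J) : InFam π₀ 𝒟 r₀ (I ⊓ J) := by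
  have hIJ := h.toSmall.inf h'.toSmall
  have hS := h.toSmall.sup h'.toSmall
  haveI := h.toSmall.isLocalRing
  haveI := h'.toSmall.isLocalRing
  haveI := hIJ.isLocalRing
  haveI := hS.isLocalRing
  haveI := h.toSmall.isArtinianRing
  haveI := h'.toSmall.isArtinianRing
  haveI := hIJ.isArtinianRing
  haveI := hS.isArtinianRing
  refine { toSmall := hIJ, good := ?_ }
  obtain ⟨_, hr, hD⟩ := h.good
  obtain ⟨_, hr', hD'⟩ := h'.good
  have hc : MCont (P ⧸ (I ⊓ J)) (mapMat (Ideal.Quotient.mk (I ⊓ J)) r₀) := by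
    rw [mcont_iff_of_artinian] at hr hr' ⊢
    obtain ⟨L, hL, h1⟩ := hr
    obtain ⟨L', hL', h1'⟩ := hr'
    refine ⟨L ⊔ L', inferInstance, fun σ hσ => ?_⟩
    have h2 := h1 σ fun x hx => hσ x ((le_sup_left : L ≤ L ⊔ L') hx)
    have h2' := h1' σ fun x hx => hσ x ((le_sup_right : L' ≤ L ⊔ L') hx)
    ext i j
    have h3 := congrFun (congrFun h2 i) j
    have h3' := congrFun (congrFun h2' i) j
    rw [mapMat_apply, Matrix.one_apply] at h3 h3' ⊢
    have key : ∀ K : Ideal P, (if i = j then (1 : P ⧸ K) else 0) =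
        Ideal.Quotient.mk K (if i = j then 1 else 0) := fun K => by split_ifs <;> simp
    rw [key, Ideal.Quotient.eq] at h3 h3' ⊢
    exact ⟨h3, h3'⟩
  refine ⟨inferInstance, hc, ?_⟩
  refine h𝒟.of_fibreProduct h.toSmall.test h'.toSmall.test hS.test hIJ.test
    (Ideal.Quotient.factorₐ 𝒪 (le_sup_left : I ≤ I ⊔ J))
    (Ideal.Quotient.factorₐ 𝒪 (le_sup_right : J ≤ I ⊔ J))
    (Ideal.Quotient.factorₐ 𝒪 (inf_le_left : I ⊓ J ≤ I))
    (Ideal.Quotient.factorₐ 𝒪 (inf_le_right : I ⊓ J ≤ J))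
    (isLocalHom_of_artinian _) (isLocalHom_of_artinian _) ?_ ?_ ?_ ?_ ?_
  · refine AlgHom.ext fun q => ?_
    obtain ⟨p, rfl⟩ := Ideal.Quotient.mk_surjective q
    rfl
  · intro a b hab
    obtain ⟨p, rfl⟩ := Ideal.Quotient.mk_surjective a
    obtain ⟨q, rfl⟩ := Ideal.Quotient.mk_surjective b
    have h1 : Ideal.Quotient.mk I p = Ideal.Quotient.mk I q := congrArg Prod.fst hab
    have h2 : Ideal.Quotient.mk J p = Ideal.Quotient.mk J q := congrArg Prod.snd hab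
    rw [Ideal.Quotient.eq] at h1 h2 ⊢
    exact ⟨h1, h2⟩
  · intro a b hab
    obtain ⟨p, rfl⟩ := Ideal.Quotient.mk_surjective a
    obtain ⟨q, rfl⟩ := Ideal.Quotient.mk_surjective b
    have h1 : Ideal.Quotient.mk (I ⊔ J) p = Ideal.Quotient.mk (I ⊔ J) q := hab
    rw [Ideal.Quotient.eq, Submodule.mem_sup] at h1
    obtain ⟨i, hi, j, hj, hij⟩ := h1
    refine ⟨Ideal.Quotient.mk (I ⊓ J) (p - i), ?_, ?_⟩
    · show Ideal.Quotient.mk I (p - i) = Ideal.Quotient.mk I p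
      rw [Ideal.Quotient.eq, sub_sub_cancel_left]
      exact I.neg_mem hi
    · show Ideal.Quotient.mk J (p - i) = Ideal.Quotient.mk J q
      rw [Ideal.Quotient.eq]
      have : p - i - q = j := by linear_combination -hij
      rw [this]
      exact hj
  · refine h𝒟.of_isEquiv h.toSmall.test (isEquiv_symm (bc_isEquiv _ _ _ hc)) ?_
    exact hD
  · refine h𝒟.of_isEquiv h'.toSmall.test (isEquiv_symm (bc_isEquiv _ _ _ hc)) ?_
    exact hD'

end Quot

end Fermat.Agent.H53
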