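import Mathlib
import Fermat.Agent.H53Family

set_option autoImplicit false
set_option linter.style.haveILetI false
set_option linter.unusedSimpArgs false

namespace Fermat.Agent.H69

open IsLocalRing GaloisRep
open Fermat.Agent.H53

/-- Separation of points of `P / I` (where `m_P ^ 2 + m_𝒪 P ≤ I ≤ m_P`) by homs to dual numbers. -/
theorem exists_dualNumber_hom {𝒪 P : Type*} [CommRing 𝒪] [IsLocalRing 𝒪] [CommRing P] [Algebra 𝒪 P]
    (π : P →+* ResidueField 𝒪) (hπ : ∀ c, π (algebraMap 𝒪 P c) = residue 𝒪 c)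
    (I : Ideal P) (hI1 : (RingHom.ker π) ^ 2 ≤ I)
    (hI2 : (maximalIdeal 𝒪).map (algebraMap 𝒪 P) ≤ I)
    (hI3 : I ≤ RingHom.ker π) (x : P) (hx : x ∉ I) :
    ∃ f : P →+* DualNumber (ResidueField 𝒪),
      (∀ c, f (algebraMap 𝒪 P c) = TrivSqZeroExt.inl (residue 𝒪 c)) ∧
      (∀ p, TrivSqZeroExt.fst (f p) = π p) ∧ I ≤ RingHom.ker f ∧ f x ≠ 0 := by
  classical
  by_cases hxm : π x = 0
  swap
  · refine ⟨(TrivSqZeroExt.inlHom (ResidueField 𝒪) (ResidueField 𝒪)).comp π, ?_, ?_, ?_, ?_⟩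
    · intro c
      rw [RingHom.comp_apply, hπ]; rfl
    · intro p; rfl
    · intro p hp
      have : π p = 0 := hI3 hp
      rw [RingHom.mem_ker, RingHom.comp_apply, this, map_zero]
    · intro h0
      apply hxm
      have := congrArg TrivSqZeroExt.fst h0
      simpa using this
  -- `P / I` is a vector space over the residue field
  let φ : ResidueField 𝒪 →+* P ⧸ I :=
    Ideal.Quotient.lift (maximalIdeal 𝒪) ((Ideal.Quotient.mk I).comp (algebraMap 𝒪 P)) (by
      intro a ha
      rw [RingHom.comp_apply, Ideal.Quotient.eq_zero_iff_mem]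
      exact hI2 (Ideal.mem_map_of_mem _ ha))
  have hφ : ∀ c : 𝒪, φ (residue 𝒪 c) = Ideal.Quotient.mk I (algebraMap 𝒪 P c) := fun c => rfl
  letI : Algebra (ResidueField 𝒪) (P ⧸ I) := φ.toAlgebra
  have hsmul : ∀ (c : ResidueField 𝒪) (y : P ⧸ I), c • y = φ c * y := fun c y => rfl
  let π' : P ⧸ I →+* ResidueField 𝒪 := Ideal.Quotient.lift I π (fun a ha => hI3 ha)
  have hπ' : ∀ p : P, π' (Ideal.Quotient.mk I p) = π p := fun p => rfl
  have hπφ : ∀ c : ResidueField 𝒪, π' (φ c) = c := by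
    intro c
    obtain ⟨c, rfl⟩ := IsLocalRing.residue_surjective c
    rw [hφ, hπ', hπ]
  have hx1 : (Ideal.Quotient.mk I x) ∉ Submodule.span (ResidueField 𝒪) {(1 : P ⧸ I)} := by
    intro hmem
    obtain ⟨c, hc⟩ := Submodule.mem_span_singleton.mp hmem
    rw [hsmul, mul_one] at hc
    have h1 := congrArg π' hc
    rw [hπφ, hπ', hxm] at h1
    rw [h1, map_zero] at hc
    exact hx (Ideal.Quotient.eq_zero_iff_mem.mp hc.symm)
  obtain ⟨ℓ, hℓx, hℓ1⟩ := Submodule.exists_le_ker_of_notMem hx1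
  have hℓ1' : ℓ (1 : P ⧸ I) = 0 := hℓ1 (Submodule.mem_span_singleton_self _)
  -- derivation property
  have hder : ∀ a b : P, ℓ (Ideal.Quotient.mk I (a * b)) =
      π a * ℓ (Ideal.Quotient.mk I b) + π b * ℓ (Ideal.Quotient.mk I a) := by
    intro a b
    have hprod : (Ideal.Quotient.mk I a - φ (π a)) * (Ideal.Quotient.mk I b - φ (π b)) = 0 := by
      obtain ⟨ca, hca⟩ := IsLocalRing.residue_surjective (π a)
      obtain ⟨cb, hcb⟩ := IsLocalRing.residue_surjective (π b)
      rw [← hca, ← hcb, hφ, hφ, ← map_sub, ← map_sub, ← map_mul, Ideal.Quotient.eq_zero_iff_mem]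
      apply hI1
      rw [pow_two]
      apply Ideal.mul_mem_mul
      · rw [RingHom.mem_ker, map_sub, hπ, hca, sub_self]
      · rw [RingHom.mem_ker, map_sub, hπ, hcb, sub_self]
    have hexp : Ideal.Quotient.mk I (a * b) = (π a) • Ideal.Quotient.mk I b +
        (π b) • Ideal.Quotient.mk I a - (π a * π b) • (1 : P ⧸ I) := by
      rw [hsmul, hsmul, hsmul, map_mul, map_mul]
      linear_combination hprod
    rw [hexp, map_sub, map_add, map_smul, map_smul, map_smul, hℓ1', smul_zero, sub_zero,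
      smul_eq_mul, smul_eq_mul]
  let f : P →+* DualNumber (ResidueField 𝒪) :=
    { toFun := fun p => TrivSqZeroExt.inl (π p) + TrivSqZeroExt.inr (ℓ (Ideal.Quotient.mk I p))
      map_one' := by
        rw [map_one, map_one, hℓ1']
        simp
      map_mul' := by
        intro a b
        rw [hder a b]
        ext
        · simp
        · simp [mul_comm]
      map_zero' := by simp
      map_add' := by
        intro a b
        ext
        · simp
        · simp }
  have hf : ∀ p, f p = TrivSqZeroExt.inl (π p) + TrivSqZeroExt.inr (ℓ (Ideal.Quotient.mk I p)) :=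
    fun p => rfl
  refine ⟨f, ?_, ?_, ?_, ?_⟩
  · intro c
    have h1 : Ideal.Quotient.mk I (algebraMap 𝒪 P c) = (residue 𝒪 c) • (1 : P ⧸ I) := by
      rw [hsmul, hφ, mul_one]
    rw [hf, h1, map_smul, hℓ1', smul_zero, hπ]
    simp
  · intro p
    rw [hf]; simp
  · intro p hp
    have h1 : Ideal.Quotient.mk I p = 0 := Ideal.Quotient.eq_zero_iff_mem.mpr hp
    have h2 : π p = 0 := hI3 hp
    rw [RingHom.mem_ker, hf, h1, h2, map_zero]
    simp
  · intro h0
    apply hℓx
    have h1 := congrArg TrivSqZeroExt.snd h0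
    rw [hf] at h1
    simpa using h1

/-- Finite set of homs to the dual numbers bounds the size of `P / I`. -/
theorem tangent_bound_aux {𝒪 P : Type*} [CommRing 𝒪] [IsLocalRing 𝒪] [Finite (ResidueField 𝒪)]
    [CommRing P] [Algebra 𝒪 P]
    (π : P →+* ResidueField 𝒪) (hπ : ∀ c, π (algebraMap 𝒪 P c) = residue 𝒪 c)
    (F : Set (Ideal P)) (hF : ∀ I ∈ F, I ≤ RingHom.ker π)
    (S : Set (P →+* DualNumber (ResidueField 𝒪))) (hS : S.Finite)
    (hFS : ∀ I ∈ F, (RingHom.ker π) ^ 2 ⊔ (maximalIdeal 𝒪).map (algebraMap 𝒪 P) ≤ I →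
      ∀ f : P →+* DualNumber (ResidueField 𝒪),
        (∀ c, f (algebraMap 𝒪 P c) = TrivSqZeroExt.inl (residue 𝒪 c)) →
        (∀ p, TrivSqZeroExt.fst (f p) = π p) → I ≤ RingHom.ker f → f ∈ S) :
    ∃ N : ℕ, ∀ I ∈ F, (RingHom.ker π) ^ 2 ⊔ (maximalIdeal 𝒪).map (algebraMap 𝒪 P) ≤ I →
      Finite (P ⧸ I) ∧ Nat.card (P ⧸ I) ≤ N := by
  classical
  haveI : Finite (DualNumber (ResidueField 𝒪)) :=
    inferInstanceAs (Finite (ResidueField 𝒪 × ResidueField 𝒪))
  haveI : Finite S := hS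
  let Φ : P →+* (S → DualNumber (ResidueField 𝒪)) := RingHom.pi (fun f => (f : P →+* _))
  let K : Ideal P := RingHom.ker Φ
  haveI hK : Finite (P ⧸ K) :=
    Finite.of_injective (RingHom.kerLift Φ) (RingHom.kerLift_injective Φ)
  refine ⟨Nat.card (P ⧸ K), ?_⟩
  intro I hI hle
  have hKI : K ≤ I := by
    intro x hx
    by_contra hxI
    obtain ⟨f, hf1, hf2, hf3, hf4⟩ := exists_dualNumber_hom π hπ I (le_sup_left.trans hle)
      (le_sup_right.trans hle) (hF I hI) x hxI
    have hfS := hFS I hI hle f hf1 hf2 hf3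
    apply hf4
    have := congrFun (show Φ x = 0 from hx) ⟨f, hfS⟩
    exact this
  have hsurj : Function.Surjective (Ideal.Quotient.factor hKI) :=
    Ideal.Quotient.factor_surjective hKI
  exact ⟨Finite.of_surjective _ hsurj, Nat.card_le_card_of_surjective _ hsurj⟩


section Final

variable {𝒪 : Type} [CommRing 𝒪] [IsLocalRing 𝒪]

/-- the `𝒪`-algebra structure on the dual numbers used in `TangentFinite` -/
@[reducible] noncomputable def algDual (𝒪 : Type) [CommRing 𝒪] [IsLocalRing 𝒪] :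
    Algebra 𝒪 (DualNumber (ResidueField 𝒪)) :=
  ((algebraMap (ResidueField 𝒪) (DualNumber (ResidueField 𝒪))).comp
      (algebraMap 𝒪 (ResidueField 𝒪))).toAlgebra

theorem mem_maximalIdeal_dual {k : Type} [Field k] (y : DualNumber k)
    (hy : TrivSqZeroExt.fst y = 0) : y ∈ maximalIdeal (DualNumber k) := by
  rw [mem_maximalIdeal, mem_nonunits_iff, TrivSqZeroExt.isUnit_iff_isUnit_fst, hy]
  exact not_isUnit_zero

theorem residue_dual {k : Type} [Field k] (y : DualNumber k) :
    residue (DualNumber k) y =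
      (residue (DualNumber k)).comp (algebraMap k (DualNumber k)) (TrivSqZeroExt.fst y) := by
  rw [RingHom.comp_apply, ← sub_eq_zero, ← map_sub, residue_eq_zero_iff]
  apply mem_maximalIdeal_dual
  rw [TrivSqZeroExt.fst_sub]
  show TrivSqZeroExt.fst y - TrivSqZeroExt.fst y = 0
  rw [sub_self]

theorem tangent_bound {𝒪 : Type} [CommRing 𝒪] [IsDomain 𝒪] [IsDiscreteValuationRing 𝒪]
    [Finite (ResidueField 𝒪)] (ρbar : ResidualGaloisRep (ResidueField 𝒪))
    (𝒟 : ∀ ⦃A : Type⦄ [CommRing A] [IsLocalRing A] [Algebra 𝒪 A], GaloisRepAdic A → Prop)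
    (h𝒟 : IsDeformationCondition 𝒪 𝒟) (hfin : TangentFinite 𝒪 ρbar 𝒟)
    (b : Module.Basis (Fin 2) (ResidueField 𝒪) ρbar.V) (x z : MonoidAlgebra 𝒪 GQ)
    (hx : ev (toMat ρbar.ρ b) x = !![1, 0; 0, 0]) (hz : ev (toMat ρbar.ρ b) z = !![0, 0; 1, 0])
    (π₀ : UnivP x z →ₐ[𝒪] ResidueField 𝒪)
    (hπ : mapMat (π₀ : UnivP x z →+* ResidueField 𝒪) (univRep x z) = toMat ρbar.ρ b) :
    ∃ N : ℕ, ∀ I : Ideal (UnivP x z), InFam π₀ 𝒟 (univRep x z) I →
      RingHom.ker π₀ ^ 2 ⊔ (maximalIdeal 𝒪).map (algebraMap 𝒪 (UnivP x z)) ≤ I →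
      Nat.card (UnivP x z ⧸ I) ≤ N := by
  classical
  letI := algDual 𝒪
  haveI : Finite (DualNumber (ResidueField 𝒪)) :=
    inferInstanceAs (Finite (ResidueField 𝒪 × ResidueField 𝒪))
  haveI : IsArtinianRing (DualNumber (ResidueField 𝒪)) := inferInstance
  have htest : IsArtinianTestAlgebra 𝒪 (DualNumber (ResidueField 𝒪)) := by
    refine isArtinianTestAlgebra_of_algHom inferInstance
      { (TrivSqZeroExt.fstHom (ResidueField 𝒪) (ResidueField 𝒪) (ResidueField 𝒪)).toRingHom with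
        commutes' := fun c => ?_ }
    rfl
  have hπalg : ∀ c, (π₀ : UnivP x z →+* ResidueField 𝒪) (algebraMap 𝒪 (UnivP x z) c) =
      residue 𝒪 c := fun c => by
    rw [AlgHom.coe_toRingHom, AlgHom.commutes]; rfl
  let S : Set (UnivP x z →+* DualNumber (ResidueField 𝒪)) :=
    {f | (∀ c, f (algebraMap 𝒪 (UnivP x z) c) = TrivSqZeroExt.inl (residue 𝒪 c)) ∧
      (∀ p, TrivSqZeroExt.fst (f p) = π₀ p) ∧
      ∃ I, InFam π₀ 𝒟 (univRep x z) I ∧ I ≤ RingHom.ker f}
  have hS : S.Finite := by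
    let s : Setoid {ρ : GaloisRepAdic (DualNumber (ResidueField 𝒪)) //
        𝒟 ρ ∧ ρ.residual.IsEquiv (ρbar.baseChangeAlong
          ((residue (DualNumber (ResidueField 𝒪))).comp
            (algebraMap (ResidueField 𝒪) (DualNumber (ResidueField 𝒪)))))} :=
      ⟨fun ρ ρ' => ρ.1.IsEquiv ρ'.1, ⟨fun ρ => ⟨GaloisRepAdic.Equiv.refl ρ.1⟩,
        fun ⟨e⟩ => ⟨e.symm⟩, fun ⟨e⟩ ⟨e'⟩ => ⟨e.trans e'⟩⟩⟩
    haveI hQ : Finite (Quotient s) := hfin
    -- goodness of the pushed matrices
    have hgood : ∀ f ∈ S, Good 𝒟 (DualNumber (ResidueField 𝒪)) (mapMat f (univRep x z)) := by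
      rintro f ⟨hf1, hf2, I, hI, hle⟩
      haveI := hI.toSmall.isLocalRing
      haveI := hI.toSmall.isArtinianRing
      let φ : (UnivP x z ⧸ I) →ₐ[𝒪] DualNumber (ResidueField 𝒪) :=
        Ideal.Quotient.liftₐ I { f with commutes' := hf1 } (fun a ha => hle ha)
      exact hI.good.map h𝒟 hI.toSmall.test htest φ (isLocalHom_of_artinian _)
    have hres : ∀ f ∈ S, mapMat (residue (DualNumber (ResidueField 𝒪))) (mapMat f (univRep x z)) =
        mapMat ((residue (DualNumber (ResidueField 𝒪))).comp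
            (algebraMap (ResidueField 𝒪) (DualNumber (ResidueField 𝒪)))) (toMat ρbar.ρ b) := by
      rintro f ⟨hf1, hf2, -⟩
      rw [← hπ]
      ext σ i j
      rw [mapMat_apply, mapMat_apply, mapMat_apply, mapMat_apply, residue_dual, hf2]
      rfl
    have hnorm : ∀ f ∈ S, IsNormalized x z (mapMat f (univRep x z)) := by
      rintro f ⟨hf1, hf2, -⟩
      exact isNormalized_map (A := UnivP x z) (B := DualNumber (ResidueField 𝒪))
        ({ f with commutes' := hf1 } : UnivP x z →ₐ[𝒪] DualNumber (ResidueField 𝒪))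
        (univRep_isNormalized x z)
    have hev : ∀ f ∈ S, ∀ i j, TrivSqZeroExt.fst (ev (mapMat f (univRep x z)) x i j) =
        (!![1, 0; 0, 0] : Matrix (Fin 2) (Fin 2) (ResidueField 𝒪)) i j := by
      rintro f ⟨hf1, hf2, -⟩ i j
      have h1 := H53.ev_map (A := UnivP x z) (B := DualNumber (ResidueField 𝒪))
        ({ f with commutes' := hf1 } : UnivP x z →ₐ[𝒪] DualNumber (ResidueField 𝒪))
        (univRep x z) x i j
      have h2 : ev (mapMat f (univRep x z)) x i j = f (ev (univRep x z) x i j) := h1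
      rw [h2, hf2, ← hx, ← hπ]
      exact (H53.ev_map π₀ (univRep x z) x i j).symm
    let g : S → Quotient s := fun f => Quotient.mk s
      ⟨ofMatrix (mapMat f.1 (univRep x z)) (hgood f.1 f.2).choose_spec.choose,
        (hgood f.1 f.2).choose_spec.choose_spec, by
          rw [residual_isEquiv_iff_conj _ _ (resBasis _ (stdBasis _ _)) (rbcBasis _ _ b)]
          refine ⟨1, isUnit_one, fun σ => ?_⟩
          rw [toMat_resBasis, toMat_stdBasis, toMat_rbcBasis, hres f.1 f.2, one_mul, mul_one]⟩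
    have hg : Function.Injective g := by
      rintro ⟨f, hf⟩ ⟨f', hf'⟩ hff
      have h1 : (ofMatrix (mapMat f (univRep x z)) (hgood f hf).choose_spec.choose).IsEquiv
          (ofMatrix (mapMat f' (univRep x z)) (hgood f' hf').choose_spec.choose) :=
        Quotient.exact hff
      rw [isEquiv_iff_conj _ _ (stdBasis _ _) (stdBasis _ _)] at h1
      obtain ⟨u, hu, huc⟩ := h1
      simp only [toMat_stdBasis] at huc
      have h2 : mapMat f (univRep x z) = mapMat f' (univRep x z) := by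
        refine normalized_unique (O := 𝒪) (x := x) (z := z) _ _ (hnorm f hf) (hnorm f' hf')
          ?_ ?_ ?_ ?_ u hu huc
        · apply mem_maximalIdeal_dual
          rw [TrivSqZeroExt.fst_sub, hev f hf]; simp
        · apply mem_maximalIdeal_dual
          rw [hev f hf]; simp
        · apply mem_maximalIdeal_dual
          rw [TrivSqZeroExt.fst_sub, hev f' hf']; simp
        · apply mem_maximalIdeal_dual
          rw [hev f' hf']; simp
      have h3 : ({ f with commutes' := hf.1 } : UnivP x z →ₐ[𝒪] DualNumber (ResidueField 𝒪)) =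
          { f' with commutes' := hf'.1 } := univ_hom_ext h2
      apply Subtype.ext
      ext p : 1
      exact AlgHom.congr_fun h3 p
    haveI : Finite S := Finite.of_injective g hg
    exact Set.toFinite S
  obtain ⟨N, hN⟩ := tangent_bound_aux (π₀ : UnivP x z →+* ResidueField 𝒪) hπalg
    {I | InFam π₀ 𝒟 (univRep x z) I} (fun I hI => hI.toSmall.le) S hS
    (fun I hI hle f hf1 hf2 hf3 => ⟨hf1, hf2, I, hI, hf3⟩)
  exact ⟨N, fun I hI hle => (hN I hI hle).2⟩

end Final

end Fermat.Agent.H69
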