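import Fermat.Statements.S53
import Fermat.Agent.H53Assembly
import Fermat.Agent.H69Tangent

set_option autoImplicit false
set_option autoImplicit false
open GaloisRep

namespace Fermat.Agent.S53

theorem result
    (𝒪 : Type) [CommRing 𝒪] [IsDomain 𝒪] [IsDiscreteValuationRing 𝒪]
    [IsAdicComplete (IsLocalRing.maximalIdeal 𝒪) 𝒪] [Finite (IsLocalRing.ResidueField 𝒪)]
    (ρbar : ResidualGaloisRep (IsLocalRing.ResidueField 𝒪))
    (𝒟 : ∀ ⦃A : Type⦄ [CommRing A] [IsLocalRing A] [Algebra 𝒪 A], GaloisRepAdic A → Prop)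
    (habs : ρbar.IsAbsolutelyIrreducible)
    (h𝒟 : GaloisRep.IsDeformationCondition 𝒪 𝒟)
    (hbar : 𝒟 (GaloisRepAdic.ofResidualGaloisRep ρbar))
    (hfin : GaloisRep.TangentFinite 𝒪 ρbar 𝒟) :
    Nonempty (GaloisRep.DeformationRingData 𝒪 ρbar 𝒟) := by
  let b : Module.Basis (Fin 2) (IsLocalRing.ResidueField 𝒪) ρbar.V :=
    Module.finBasisOfFinrankEq _ ρbar.V ρbar.finrank_eq
  have hspan : Submodule.span (IsLocalRing.ResidueField 𝒪)
      (Set.range (H53.toMat ρbar.ρ b)) = ⊤ := H69.burnside ρbar habs b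
  obtain ⟨x, hx⟩ := H69.exists_lift_group_ring (O := 𝒪) (H53.toMat ρbar.ρ b) hspan !![1, 0; 0, 0]
  obtain ⟨z, hz⟩ := H69.exists_lift_group_ring (O := 𝒪) (H53.toMat ρbar.ρ b) hspan !![0, 0; 1, 0]
  have hn : H69.IsNormalized x z (H53.toMat ρbar.ρ b) :=
    ⟨by rw [hx]; simp, by rw [hx]; simp, by rw [hz]; simp⟩
  obtain ⟨π₀, hπ⟩ := H53.exists_univ_lift (H53.toMat ρbar.ρ b) hn
  obtain ⟨N, hN⟩ := H69.tangent_bound ρbar 𝒟 h𝒟 hfin b x z hx hz π₀ hπ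
  exact H53.main 𝒪 ρbar 𝒟 habs h𝒟 hbar b x z hx hz π₀ hπ N hN

end Fermat.Agent.S53
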