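import Fermat.Agent.H53Tangent
import Fermat.Agent.S53

set_option autoImplicit false
set_option linter.style.haveILetI false
set_option linter.unusedSectionVars false

noncomputable section

open scoped TensorProduct
open IsLocalRing GaloisRep

namespace Fermat.Agent.H53

variable (𝒪 : Type) [CommRing 𝒪] [IsDomain 𝒪] [IsDiscreteValuationRing 𝒪]
  [IsAdicComplete (maximalIdeal 𝒪) 𝒪] [Finite (ResidueField 𝒪)]
  (p : ℕ) [Fact p.Prime] (ρbar : ResidualGaloisRep (ResidueField 𝒪)) (S T : Finset ℕ)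

/-- the type "strictly ordinary at `p`, unramified outside `S`, unipotent inertia at `T`" -/
def OrdType : ∀ ⦃A : Type⦄ [CommRing A] [IsLocalRing A] [Algebra 𝒪 A], GaloisRepAdic A → Prop :=
  fun _A _ _ _ ρ => strictOrdinaryCondition 𝒪 p S ρ ∧
    ∀ q ∈ T, q.Prime → q ≠ p → ρ.IsUnipotentOnInertiaAt q

/-- the type "flat at `p`, unramified outside `S`, unipotent inertia at `T`" -/
def FlatType : ∀ ⦃A : Type⦄ [CommRing A] [IsLocalRing A] [Algebra 𝒪 A], GaloisRepAdic A → Prop :=
  fun _A _ _ _ ρ => flatCondition 𝒪 p S ρ ∧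
    ∀ q ∈ T, q.Prime → q ≠ p → ρ.IsUnipotentOnInertiaAt q

lemma tangentFinite_ordType : TangentFinite 𝒪 ρbar (OrdType 𝒪 p S T) := by
  refine tangentFinite_of_unramified ρbar _ (S.filter Nat.Prime)
    (fun q hq => (Finset.mem_filter.mp hq).2) ?_
  intro A _ _ _ ρ hρ q hq hqS
  exact hρ.1.2.2 q hq fun h => hqS (Finset.mem_filter.mpr ⟨h, hq⟩)

lemma tangentFinite_flatType : TangentFinite 𝒪 ρbar (FlatType 𝒪 p S T) := by
  refine tangentFinite_of_unramified ρbar _ (S.filter Nat.Prime)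
    (fun q hq => (Finset.mem_filter.mp hq).2) ?_
  intro A _ _ _ ρ hρ q hq hqS
  exact hρ.1.2.2 q hq fun h => hqS (Finset.mem_filter.mpr ⟨h, hq⟩)

/-- the universal strictly ordinary deformation ring exists -/
theorem nonempty_ordType (hp2 : p ≠ 2) (habs : ρbar.IsAbsolutelyIrreducible)
    (hbar : OrdType 𝒪 p S T (GaloisRepAdic.ofResidualGaloisRep ρbar)) :
    Nonempty (DeformationRingData 𝒪 ρbar (OrdType 𝒪 p S T)) :=
  S53.result 𝒪 ρbar _ habs (isDeformationCondition_strictOrdinary 𝒪 p hp2 S T) hbar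
    (tangentFinite_ordType 𝒪 p ρbar S T)

/-- the universal flat deformation ring exists -/
theorem nonempty_flatType (habs : ρbar.IsAbsolutelyIrreducible)
    (hbar : FlatType 𝒪 p S T (GaloisRepAdic.ofResidualGaloisRep ρbar)) :
    Nonempty (DeformationRingData 𝒪 ρbar (FlatType 𝒪 p S T)) :=
  S53.result 𝒪 ρbar _ habs (isDeformationCondition_flat 𝒪 p S T) hbar
    (tangentFinite_flatType 𝒪 p ρbar S T)

end Fermat.Agent.H53
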