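import Fermat.Agent.S53
import Fermat.Agent.H53Rings
import Fermat.Agent.H53CondOrd
import Fermat.Agent.H53Flat2

/-!
# Reader's guide: deformation rings, step by step (companion of `GuideDeformations`)

Every theorem of this file is proved by citing a theorem of the library; nothing here is used by any
other file.  Editor: helper53.

**Statements served:** S53 (existence of universal deformation rings; sections 1 to 3) and S56 (the
deformation conditions; sections 1, 4, 5, 6, without `ordinary_iff`); all sections are used in S59 and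
S01 (and S03, S04, S06, S38, S45, S46, S50, S60; the example `flat_ring_exists` only in S01, S03, S43,
S45), all but section 5 in S43, some theorems of sections 1 and 4 also in S58.  This file gives the
steps behind sections 1 to 4 of `GuideDeformations` and should be read after it.  In prose: `NOTES.md`,
Appendix A.10 (NOTES-S53).

**What is proved here.**

1. *Dictionary* (section 1): representations over local rings are the same as continuous matrix
   representations up to conjugation; base change is the change of coefficients.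
2. *The generic representation* (section 2): deformations are in bijection with normalised matrix
   representations, which are the points of a ring `P` given by generators and relations.
3. *The ideals of the deformations* (section 3): the ideals `I` of `P` such that the generic
   representation modulo `I` is a deformation of the given type; how the universal ring is built.
4. *The machine* (section 4): a condition which says that certain matrices, attached functorially to a
   matrix representation, vanish (or are related by the cyclotomic character) is a deformation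
   condition.
5. *Ordinary representations* (section 5): "there is a stable line ..." is equivalent, for odd `p`, to a
   list of matrix identities.
6. *Flat representations* (section 6): flatness at `p` in terms of matrices, with its four stability
   properties.
7. *The tangent space* (section 7) is finite (a hypothesis in S53); an example of a ring.

**Conventions.**  `GQ` is the Galois group of `ℚ̄` over `ℚ`.  `GaloisRepAdic A` (Prelude) is a free module
`ρ.V` of rank two over the local ring `A` with an action of `GQ` which is continuous for the powers of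
the maximal ideal.  `H53.toMat ρ.ρ b` is the matrix representation `GQ → M₂(A)` in the basis `b`,
`H53.mapMat φ r` the representation `r` with `φ` applied to the coefficients, `H69.ev r x` the value of
`r` at the element `x` of the group ring; `Mat₂ A` (`H53.M2 A` in the library) is the ring of matrices
of size two over `A`.  A place `P` above `p` is a valuation ring of `ℚ̄` which lies over `p`, with its
decomposition group `P.decompositionSubgroup ℚ` and its inertia group `P.inertiaSubgroupIn ℚ`.

**Reading order.**  Sections 1 - 7 in order.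
-/

set_option autoImplicit false

noncomputable section

open IsLocalRing GaloisRep Polynomial

namespace Fermat.Agent.Guide.DeformationSteps

/-- The absolute Galois group of the rational numbers. -/
local notation "GQ" => (AlgebraicClosure ℚ ≃ₐ[ℚ] AlgebraicClosure ℚ)

/-- Matrices of size two. -/
local notation "Mat₂" => Matrix (Fin 2) (Fin 2)

/-! ## 1. Representations and matrices -/

/-- **Representations and matrices.**  A continuous matrix representation `r` (`MCont A r`, see
`mCont_iff` in `GuideDeformations`) gives a representation `ofMatrix r` on `A²`, whose matrices in the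
standard basis (`stdBasis`) are those of `r`; every representation is isomorphic to the one given by its
matrices in any basis.  File `H53Matrix`. -/
theorem dictionary {A : Type} [CommRing A] [IsLocalRing A] :
    (∀ (r : GQ →* Mat₂ A) (hr : H53.MCont A r),
      H53.toMat (H53.ofMatrix r hr).ρ (H53.stdBasis r hr) = r) ∧
    ∀ (ρ : GaloisRepAdic A) (b : Module.Basis (Fin 2) A ρ.V),
      ρ.IsEquiv (H53.ofMatrix (H53.toMat ρ.ρ b) (H53.mcont_toMat ρ b)) :=
  ⟨fun r hr => H53.toMat_stdBasis r hr, fun ρ b => ⟨H53.equivOfMatrix ρ b⟩⟩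

/-- **Isomorphic means conjugate.**  Two representations are isomorphic if and only if their matrices, in
any two bases, are conjugate by an invertible matrix.  File `H53Matrix`. -/
theorem isomorphic_iff_conjugate {A : Type} [CommRing A] [IsLocalRing A] (ρ₁ ρ₂ : GaloisRepAdic A)
    (b₁ : Module.Basis (Fin 2) A ρ₁.V) (b₂ : Module.Basis (Fin 2) A ρ₂.V) :
    ρ₁.IsEquiv ρ₂ ↔
      ∃ u : Mat₂ A, IsUnit u ∧ ∀ σ, u * H53.toMat ρ₁.ρ b₁ σ = H53.toMat ρ₂.ρ b₂ σ * u :=
  H53.isEquiv_iff_conj ρ₁ ρ₂ b₁ b₂

/-- **Base change** along a local homomorphism `φ : A → B` is the change of coefficients of the matrices,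
and the residual representation is the reduction of the matrices (in the bases `bcBasis` and `resBasis`
of `B ⊗ V` and `k ⊗ V`, `k` the residue field of `A`, induced by `b`).  File `H53Matrix`. -/
theorem base_change {A B : Type} [CommRing A] [IsLocalRing A] [CommRing B] [IsLocalRing B]
    (φ : A →+* B) (hφ : IsLocalHom φ) (ρ : GaloisRepAdic A) (b : Module.Basis (Fin 2) A ρ.V) :
    H53.toMat (ρ.baseChangeAlong φ hφ).ρ (H53.bcBasis φ hφ ρ b) = H53.mapMat φ (H53.toMat ρ.ρ b) ∧
      H53.toMat ρ.residual.ρ (H53.resBasis ρ b) = H53.mapMat (residue A) (H53.toMat ρ.ρ b) :=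
  ⟨H53.toMat_bcBasis φ hφ ρ b, H53.toMat_resBasis ρ b⟩

/-- **Continuity over an artinian ring** means: trivial on the Galois group of a finite extension.  File
`H53Family`. -/
theorem continuous_iff_of_artinian {A : Type} [CommRing A] [IsLocalRing A] [IsArtinianRing A]
    (r : GQ →* Mat₂ A) :
    H53.MCont A r ↔ ∃ L : IntermediateField ℚ (AlgebraicClosure ℚ), FiniteDimensional ℚ L ∧
      ∀ σ : GQ, (∀ x ∈ L, σ x = x) → r σ = 1 :=
  H53.mcont_iff_of_artinian r

/-! ## 2. The generic representation -/

/-- **Values on the group ring** are compatible with a change of coefficients, so the image of a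
normalised representation is normalised.  (`IsNormalized x z r`, see `isNormalized_iff` in
`GuideDeformations`: the value of `r` at `x` is diagonal and the lower left entry of the value at `z` is
`1`.)  File `H53Univ`. -/
theorem evaluation_of_map {O A B : Type} [CommRing O] [CommRing A] [CommRing B] [Algebra O A]
    [Algebra O B] (φ : A →ₐ[O] B) {r : GQ →* Mat₂ A} {x z : MonoidAlgebra O GQ} :
    (∀ i j, H69.ev (H53.mapMat (φ : A →+* B) r) x i j = φ (H69.ev r x i j)) ∧
      (H69.IsNormalized x z r → H69.IsNormalized x z (H53.mapMat (φ : A →+* B) r)) :=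
  ⟨H53.ev_map φ r x, H53.isNormalized_map φ⟩

/-- **The generic ring.**  `UnivP x z` is the quotient of the polynomial ring (`PolyE`, with the projection
`projP`) in the variables `X_(g,i,j)`, `g ∈ GQ`, by the relations: `X_1 = 1`, `X_(gh) = X_g X_h` (as
matrices), and the value at `x` is diagonal, the lower left entry of the value at `z` is `1`.  The generic
representation `univRep` consists of the classes of the variables, and is normalised.  Its universal
property is `universal_matrix_ring` in `GuideDeformations`.  File `H53Univ`. -/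
theorem generic_ring {O : Type} [CommRing O] (x z : MonoidAlgebra O GQ) :
    Function.Surjective (H53.projP x z) ∧
      (∀ (g : GQ) (i j : Fin 2),
        H53.univRep x z g i j = H53.projP x z (MvPolynomial.X (g, i, j))) ∧
      H69.IsNormalized x z (H53.univRep x z) :=
  ⟨H53.projP_surjective x z, fun _ _ _ => rfl, H53.univRep_isNormalized x z⟩

/-- **Complete local rings are Henselian.**  File `H53Main`. -/
theorem henselian (A : Type) [CommRing A] [IsLocalRing A] [IsAdicComplete (maximalIdeal A) A] :
    HenselianLocalRing A :=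
  H53.henselian_of_complete A

/-- **The normal form of a deformation.**  Let `x, z` be elements of the group ring with `rbar(x) = E₁₁`,
`rbar(z) = E₂₁`.  A matrix representation `r` over a Henselian local `O`-algebra `A` whose reduction is
conjugate to `rbar` is conjugate to a normalised one whose reduction is equal to `rbar`.  (First lift the
conjugating matrix; then `exists_normal_form` in `GuideDeformations`.)  File `H53Main`. -/
theorem deformation_normal_form {O : Type} [CommRing O] [IsLocalRing O]
    {x z : MonoidAlgebra O GQ} {rbar : GQ →* Mat₂ (ResidueField O)}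
    (hx : H69.ev rbar x = !![1, 0; 0, 0]) (hz : H69.ev rbar z = !![0, 0; 1, 0])
    {A : Type} [CommRing A] [HenselianLocalRing A] [Algebra O A]
    [IsLocalHom (algebraMap O A)] (r : GQ →* Mat₂ A) (u : Mat₂ (ResidueField A)) (hu : IsUnit u)
    (huc : ∀ σ, u * H53.mapMat (residue A) r σ =
      H53.mapMat (ResidueField.map (algebraMap O A)) rbar σ * u) :
    ∃ (V : Mat₂ A) (r' : GQ →* Mat₂ A), IsUnit V ∧ H69.IsNormalized x z r' ∧
      (∀ σ, V * r' σ = r σ * V) ∧
      H53.mapMat (residue A) r' = H53.mapMat (ResidueField.map (algebraMap O A)) rbar :=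
  H53.exists_normal_form hx hz r u hu huc

/-! ## 3. The ideals of the deformations -/

/-- **Matrix representations of type `D`.**  `Good D A r`: the ring `A` is local, `r` is continuous and the
representation given by `r` has type `D`.  The axioms of a deformation condition say, for artinian test
algebras `A`, `B` (local, with the residue field of `O`), that this is stable under local homomorphisms
`A → B`, descends along injective ones, and is invariant under conjugation.  File `H53Family`. -/
theorem good_stable {O : Type} [CommRing O] [IsLocalRing O]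
    {D : ∀ ⦃A : Type⦄ [CommRing A] [IsLocalRing A] [Algebra O A], GaloisRepAdic A → Prop}
    (hD : IsDeformationCondition O D) {A B : Type} [CommRing A] [IsLocalRing A] [Algebra O A]
    [CommRing B] [IsLocalRing B] [Algebra O B] (hA : IsArtinianTestAlgebra O A)
    (hB : IsArtinianTestAlgebra O B) (φ : A →ₐ[O] B) (hφ : IsLocalHom (φ : A →+* B))
    {r : GQ →* Mat₂ A} :
    (H53.Good D A r → H53.Good D B (H53.mapMat (φ : A →+* B) r)) ∧
      (Function.Injective φ → H53.Good D B (H53.mapMat (φ : A →+* B) r) → H53.Good D A r) ∧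
      ∀ (r' : GQ →* Mat₂ A) (u : Mat₂ A), IsUnit u → (∀ σ, u * r σ = r' σ * u) →
        H53.Good D A r → H53.Good D A r' :=
  ⟨fun h => h.map hD hA hB φ hφ, fun hi h => H53.Good.of_injective hD hA hB φ hφ hi h,
    fun _ u hu huc h => h.of_conj hD hA u hu huc⟩

/-- **Small ideals.**  Let `P` be an `O`-algebra with a homomorphism `π₀` to the residue field of `O`.  An
ideal `I` is small (`Small π₀ I`) if it is contained in `ker π₀`, contains a power of it, and has finite
index.  Then `P/I` is an artinian local ring with the residue field of `O`, and small ideals are stable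
under enlarging below `ker π₀`, intersections and sums.  `InFam π₀ D r₀ I`: the ideal `I` is small, and
`r₀` modulo `I` has type `D`.  File `H53Family`. -/
theorem small_ideals {O : Type} [CommRing O] [IsLocalRing O] {P : Type} [CommRing P] [Algebra O P]
    {π₀ : P →ₐ[O] ResidueField O} {I : Ideal P} (h : H53.Small π₀ I) :
    (∃ _ : IsLocalRing (P ⧸ I), IsArtinianTestAlgebra O (P ⧸ I)) ∧
      (∀ J, I ≤ J → J ≤ RingHom.ker π₀ → H53.Small π₀ J) ∧
      (∀ J, H53.Small π₀ J → H53.Small π₀ (I ⊓ J) ∧ H53.Small π₀ (I ⊔ J)) ∧
      ∀ (D : ∀ ⦃A : Type⦄ [CommRing A] [IsLocalRing A] [Algebra O A], GaloisRepAdic A → Prop)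
        (r₀ : GQ →* Mat₂ P), H53.InFam π₀ D r₀ I ↔
          H53.Good D (P ⧸ I) (H53.mapMat (Ideal.Quotient.mk I) r₀) :=
  ⟨⟨h.isLocalRing, @H53.Small.test _ _ _ _ _ _ _ _ h h.isLocalRing⟩, fun _ h1 h2 => h.of_le h1 h2,
    fun _ hJ => ⟨h.inf hJ, h.sup hJ⟩, fun _ _ => ⟨fun h1 => h1.good, fun h1 => ⟨h, h1⟩⟩⟩

/-- **A least ideal modulo `J`.**  Let `F` be a family of ideals of finite index, contained in `m`, with `m`
itself in `F`, stable under enlarging below `m` and under intersections.  If the indices of the ideals of
`F` which contain `J ≤ m` are bounded, there is `K` in `F` which is contained in `I + J` for all `I` in `F`.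
(Among the ideals of `F` which contain `J`, of which `m` is one, take `K` of the largest index.)  Applied
with `J = m² + m_O P` to the ideals of the deformations; the bound comes from the finite tangent space
(`exists_dualNumber_hom` in `GuideDeformations`), and `K` is the ideal needed in `pro_representability`
there.  File `H53Assembly`. -/
theorem least_ideal {P : Type} [CommRing P] (m : Ideal P) (F : Ideal P → Prop) (hbase : F m)
    (hle : ∀ I, F I → I ≤ m) (hfin : ∀ I, F I → Finite (P ⧸ I))
    (hup : ∀ I J, F I → I ≤ J → J ≤ m → F J) (hinf : ∀ I J, F I → F J → F (I ⊓ J))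
    (J : Ideal P) (hJ : J ≤ m) (N : ℕ) (hN : ∀ I, F I → J ≤ I → Nat.card (P ⧸ I) ≤ N) :
    ∃ K, F K ∧ ∀ I, F I → K ≤ I ⊔ J :=
  H53.exists_least m F hbase hle hfin hup hinf J hJ N hN

/-- **Assembly of S53.**  Let `rhobar` be absolutely irreducible of type `D`, `x, z` as above and
`π₀ : P → k` the point of the generic ring `P = UnivP x z` given by `rhobar`; suppose that the indices of
the ideals of the deformations which contain `m² + m_O P`, `m = ker π₀`, are bounded.  Then the universal
deformation ring exists: it is the ring `R` of `pro_representability`, with the image of the generic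
representation.  (Existence of `R → A`: bring the deformation to normal form, take the point of `P`, and
extend it by continuity; the kernels modulo the powers of the maximal ideal of `A` are ideals of the
family.  Uniqueness: uniqueness of the normal form and density of `P` in `R`.)  File `H53Assembly`. -/
theorem assembly (O : Type) [CommRing O] [IsDomain O] [IsDiscreteValuationRing O]
    [IsAdicComplete (maximalIdeal O) O] [Finite (ResidueField O)]
    (ρbar : ResidualGaloisRep (ResidueField O))
    (D : ∀ ⦃A : Type⦄ [CommRing A] [IsLocalRing A] [Algebra O A], GaloisRepAdic A → Prop)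
    (habs : ρbar.IsAbsolutelyIrreducible) (hD : IsDeformationCondition O D)
    (hbar : D (GaloisRepAdic.ofResidualGaloisRep ρbar))
    (b : Module.Basis (Fin 2) (ResidueField O) ρbar.V) (x z : MonoidAlgebra O GQ)
    (hx : H69.ev (H53.toMat ρbar.ρ b) x = !![1, 0; 0, 0])
    (hz : H69.ev (H53.toMat ρbar.ρ b) z = !![0, 0; 1, 0])
    (π₀ : H53.UnivP x z →ₐ[O] ResidueField O)
    (hπ : H53.mapMat (π₀ : H53.UnivP x z →+* ResidueField O) (H53.univRep x z) =
      H53.toMat ρbar.ρ b)
    (N : ℕ) (hN : ∀ I : Ideal (H53.UnivP x z), H53.InFam π₀ D (H53.univRep x z) I →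
      RingHom.ker π₀ ^ 2 ⊔ (maximalIdeal O).map (algebraMap O (H53.UnivP x z)) ≤ I →
        Nat.card (H53.UnivP x z ⧸ I) ≤ N) :
    Nonempty (DeformationRingData O ρbar D) :=
  H53.main O ρbar D habs hD hbar b x z hx hz π₀ hπ N hN

/-! ## 4. The machine for deformation conditions -/

/-- **Matrix conditions.**  A condition `C` on matrix representations over local rings is a matrix condition
(`IsMatCondition C`) if it is (1) invariant under conjugation, (2) stable under local homomorphisms,
(3) true over an artinian ring `P` as soon as it is true over two artinian rings `A`, `B` with local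
homomorphisms from `P` such that `P → A × B` is injective, (4) true over a noetherian ring `A` if it is
true over all `A/m^k`, `k ≥ 1`.  File `H53Cond2`. -/
theorem isMatCondition_iff
    (C : ∀ ⦃A : Type⦄ [CommRing A] [IsLocalRing A], (GQ →* Mat₂ A) → Prop) :
    H53.IsMatCondition C ↔
      (∀ ⦃A : Type⦄ [CommRing A] [IsLocalRing A] (r r' : GQ →* Mat₂ A) (u : Mat₂ A), IsUnit u →
        (∀ σ, u * r σ = r' σ * u) → C r → C r') ∧
      (∀ ⦃A B : Type⦄ [CommRing A] [IsLocalRing A] [CommRing B] [IsLocalRing B] (φ : A →+* B)
        (_ : IsLocalHom φ) (r : GQ →* Mat₂ A), C r → C (H53.mapMat φ r)) ∧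
      (∀ ⦃P A B : Type⦄ [CommRing P] [IsLocalRing P] [IsArtinianRing P] [CommRing A]
        [IsLocalRing A] [IsArtinianRing A] [CommRing B] [IsLocalRing B] [IsArtinianRing B]
        (φ : P →+* A) (ψ : P →+* B) (_ : IsLocalHom φ) (_ : IsLocalHom ψ),
        Function.Injective (fun x => (φ x, ψ x)) → ∀ r : GQ →* Mat₂ P,
          C (H53.mapMat φ r) → C (H53.mapMat ψ r) → C r) ∧
      ∀ ⦃A : Type⦄ [CommRing A] [IsLocalRing A] [IsNoetherianRing A] (r : GQ →* Mat₂ A),
        (∀ k : ℕ, k ≠ 0 → ∀ (_ : IsLocalRing (A ⧸ maximalIdeal A ^ k)),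
          C (H53.mapMat (Ideal.Quotient.mk (maximalIdeal A ^ k)) r)) → C r :=
  ⟨fun h => ⟨h.conj, h.map, h.prod, h.lim⟩, fun h => ⟨h.1, h.2.1, h.2.2.1, h.2.2.2⟩⟩

/-- **The machine.**  Let `C` be a matrix condition and `MatCond C ρ` the condition that the matrices of `ρ`
in all bases satisfy `C` (one basis is enough).  Then `MatCond C` is a deformation condition.  File
`H53Cond2`. -/
theorem machine {C : ∀ ⦃A : Type⦄ [CommRing A] [IsLocalRing A], (GQ →* Mat₂ A) → Prop}
    (hC : H53.IsMatCondition C) :
    (∀ {A : Type} [CommRing A] [IsLocalRing A] (ρ : GaloisRepAdic A)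
      (b : Module.Basis (Fin 2) A ρ.V), H53.MatCond C ρ ↔ C (H53.toMat ρ.ρ b)) ∧
      ∀ (O : Type) [CommRing O] [IsLocalRing O],
        IsDeformationCondition O (fun _A _ _ _ ρ => H53.MatCond C ρ) :=
  ⟨fun ρ b => hC.matCond_iff ρ b, fun O _ _ => hC.isDeformationCondition O⟩

/-- **Combinations**: the conjunction of two deformation conditions, and of any family of deformation
conditions, is a deformation condition.  File `H53Cond2`. -/
theorem combinations {O : Type} [CommRing O] [IsLocalRing O]
    {D E : ∀ ⦃A : Type⦄ [CommRing A] [IsLocalRing A] [Algebra O A], GaloisRepAdic A → Prop}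
    (h : IsDeformationCondition O D) (h' : IsDeformationCondition O E) {ι : Type}
    {F : ι → ∀ ⦃A : Type⦄ [CommRing A] [IsLocalRing A] [Algebra O A], GaloisRepAdic A → Prop}
    (hF : ∀ i, IsDeformationCondition O (F i)) :
    IsDeformationCondition O (fun _A _ _ _ ρ => D ρ ∧ E ρ) ∧
      IsDeformationCondition O (fun _A _ _ _ ρ => ∀ i, F i ρ) :=
  ⟨H53.isDeformationCondition_and h h', H53.isDeformationCondition_forall hF⟩

/-- **Natural families of matrices.**  `Φ : NatFam ι` attaches to every matrix representation `r` over any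
commutative ring matrices `Φ.F r i`, compatibly with the change of coefficients and with conjugation.
Examples: `r(s_i)`, the unit matrix, sums, differences, products, and trace and determinant as scalar
matrices (`NatFam.gen`, `one`, `add`, `sub`, `mul`, `tr`, `dt` in `H53Cond4`).  File `H53Cond1`. -/
theorem natural_family {ι : Type} (Φ : H53.NatFam ι) :
    (∀ {A B : Type} [CommRing A] [CommRing B] (φ : A →+* B) (r : GQ →* Mat₂ A) (i : ι),
      Φ.F (H53.mapMat φ r) i = (Φ.F r i).map φ) ∧
    ∀ {A : Type} [CommRing A] (r r' : GQ →* Mat₂ A) (u : Mat₂ A), IsUnit u →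
      (∀ σ, u * r σ = r' σ * u) → ∀ i, u * Φ.F r i = Φ.F r' i * u :=
  ⟨Φ.map, Φ.conj⟩

/-- **Vanishing of a natural family** (`PlainC Φ`) is a matrix condition.  File `H53Cond3`. -/
theorem vanishing {ι : Type} (Φ : H53.NatFam ι) :
    (∀ {A : Type} [CommRing A] [IsLocalRing A] (r : GQ →* Mat₂ A),
      H53.PlainC Φ r ↔ ∀ i, Φ.F r i = 0) ∧ H53.IsMatCondition (H53.PlainC Φ) :=
  ⟨fun _ => Iff.rfl, H53.isMatCondition_plain Φ⟩

/-- **Relations with the cyclotomic character.**  `CycC p U V s r`: `p` is in the maximal ideal, and
`U_i = ε(s_i) V_i` in the following sense: whenever `s_i` acts on the roots of unity of order `p^n` by the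
power `a` (`Cyc p n σ a`), the entries of `U_i - a V_i` are divisible by `p^n`.  This is a matrix condition,
too.  File `H53Cond3`. -/
theorem cyclotomic_relation {ι : Type} (p : ℕ) (hp : p ≠ 0) (U V : H53.NatFam ι) (s : ι → GQ) :
    (∀ {A : Type} [CommRing A] [IsLocalRing A] (r : GQ →* Mat₂ A),
      H53.CycC p U V s r ↔ (p : A) ∈ maximalIdeal A ∧ ∀ (i : ι) (n a : ℕ),
        (∀ μ : AlgebraicClosure ℚ, μ ^ p ^ n = 1 → s i μ = μ ^ a) → ∀ j k,
          U.F r i j k - (a : A) * V.F r i j k ∈ Ideal.span {((p ^ n : ℕ) : A)}) ∧
      H53.IsMatCondition (H53.CycC p U V s) :=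
  ⟨fun _ => Iff.rfl, H53.isMatCondition_cyc p U V s hp⟩

/-- **Large level is enough.**  Condition (3) for the preceding relation uses: it is enough to check it for
all large `m` instead of all `n` (an exponent `a` for `p^n` comes from one for `p^m`, and two exponents are
congruent modulo `p^n`); and over an artinian ring `p^m = 0` for large `m`, so that "divisible by `p^m`"
becomes an equation.  File `H53Cond3`. -/
theorem large_level {ι : Type} {p : ℕ} (hp0 : p ≠ 0) {U V : H53.NatFam ι} {s : ι → GQ} {A : Type}
    [CommRing A] [IsLocalRing A] (hp : (p : A) ∈ maximalIdeal A) (r : GQ →* Mat₂ A) :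
    (∀ N : ℕ, (∀ m, N ≤ m → ∀ i a, H53.Cyc p m (s i) a → ∀ j k,
        U.F r i j k - (a : A) * V.F r i j k ∈ Ideal.span {((p ^ m : ℕ) : A)}) →
          H53.CycC p U V s r) ∧
      (IsArtinianRing A → ∃ N, ∀ m, N ≤ m → ((p ^ m : ℕ) : A) = 0) :=
  ⟨fun N h => H53.cycC_of_large hp0 hp r N h, fun _ => H53.exists_pow_eq_zero hp⟩

/-- **Passage to the limit.**  In a noetherian local ring, an element which belongs to the ideal `I` modulo
every power of the maximal ideal belongs to `I` (Krull).  This is condition (4).  File `H53Cond3`. -/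
theorem closed_ideals {A : Type} [CommRing A] [IsLocalRing A] [IsNoetherianRing A] (I : Ideal A)
    (x : A) (h : ∀ k : ℕ, k ≠ 0 → Ideal.Quotient.mk (maximalIdeal A ^ k) x ∈
      I.map (Ideal.Quotient.mk (maximalIdeal A ^ k))) : x ∈ I :=
  H53.mem_of_forall_pow I x h

/-- **Three conditions as matrix conditions.**  Unramified at `q`: `r(σ) - 1 = 0` for `σ` in `Inert q`, the
set of the elements of the inertia groups of the places above `q`; unipotent inertia: `tr r(σ) - 2 = 0`
and `det r(σ) - 1 = 0` for these `σ`; cyclotomic determinant: `det r(σ) = ε(σ)`.  File `H53Cond4`. -/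
theorem three_conditions {A : Type} [CommRing A] [IsLocalRing A] (ρ : GaloisRepAdic A) (q p : ℕ)
    (hp : p ≠ 0) :
    (ρ.IsUnramifiedAt q ↔ H53.MatCond
      (H53.PlainC ((H53.NatFam.gen (fun i : H53.Inert q => i.1)).sub H53.NatFam.one)) ρ) ∧
    (ρ.IsUnipotentOnInertiaAt q ↔
      (H53.MatCond (H53.PlainC (((H53.NatFam.gen (fun i : H53.Inert q => i.1)).tr).sub
          (H53.NatFam.one.add H53.NatFam.one))) ρ ∧
        H53.MatCond (H53.PlainC
          (((H53.NatFam.gen (fun i : H53.Inert q => i.1)).dt).sub H53.NatFam.one)) ρ)) ∧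
    (ρ.DetIsCyclotomic p ↔ H53.MatCond
      (H53.CycC p ((H53.NatFam.gen (fun i : GQ => i)).dt) H53.NatFam.one (fun i : GQ => i)) ρ) :=
  ⟨H53.isUnramifiedAt_iff ρ q, H53.isUnipotentOnInertiaAt_iff ρ q,
    H53.detIsCyclotomic_iff ρ p hp⟩

/-- **Unipotent matrices** of size two: the characteristic polynomial is `(X - 1)²` if and only if the
trace is `2` and the determinant is `1`.  File `H53Cond4`. -/
theorem unipotent_iff {A : Type} [CommRing A] [Nontrivial A] (m : Mat₂ A) :
    m.charpoly = (Polynomial.X - 1) ^ 2 ↔ m.trace = 2 ∧ m.det = 1 :=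
  H53.charpoly_eq_sub_one_sq_iff m

/-! ## 5. Ordinary representations -/

/-- **Adapted bases.**  A representation is strictly ordinary at the place `P` above `p`
(`strictOrdinaryCondition_iff` in `GuideDeformations`) if and only if in some basis the decomposition group
acts by upper triangular matrices, inertia by matrices with second row `(0, 1)`, and the quotient of
the diagonal characters is the cyclotomic character (`OrdB p P`).  File `H53Cond5`. -/
theorem adapted_basis {A : Type} [CommRing A] [IsLocalRing A] (ρ : GaloisRepAdic A) (p : ℕ)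
    (P : ValuationSubring (AlgebraicClosure ℚ)) :
    (∃ L : Submodule A ρ.V, (∃ b : Module.Basis (Fin 2) A ρ.V, L = Submodule.span A {b 0}) ∧
      (∀ σ ∈ P.decompositionSubgroup ℚ, ∀ v ∈ L, ρ.ρ σ v ∈ L) ∧
      (∀ σ ∈ P.inertiaSubgroupIn ℚ, ∀ v : ρ.V, ρ.ρ σ v - v ∈ L) ∧
      (∀ σ ∈ P.decompositionSubgroup ℚ, ∃ x z : A,
        (∀ w ∈ L, ρ.ρ σ w = x • w) ∧ (∀ v : ρ.V, ρ.ρ σ v - z • v ∈ L) ∧
        ∀ (n a : ℕ), (∀ μ : AlgebraicClosure ℚ, μ ^ p ^ n = 1 → σ μ = μ ^ a) →
          x - (a : A) * z ∈ Ideal.span {((p ^ n : ℕ) : A)})) ↔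
    ∃ b : Module.Basis (Fin 2) A ρ.V,
      (∀ σ ∈ P.decompositionSubgroup ℚ, H53.toMat ρ.ρ b σ 1 0 = 0) ∧
      (∀ σ ∈ P.inertiaSubgroupIn ℚ, H53.toMat ρ.ρ b σ 1 0 = 0 ∧ H53.toMat ρ.ρ b σ 1 1 = 1) ∧
      (∀ σ ∈ P.decompositionSubgroup ℚ, ∀ n a : ℕ, H53.Cyc p n σ a →
        H53.toMat ρ.ρ b σ 0 0 - (a : A) * H53.toMat ρ.ρ b σ 1 1 ∈
          Ideal.span {((p ^ n : ℕ) : A)}) :=
  H53.strictOrd_iff_exists_ordB ρ p P

/-- **The element `τ`.**  For odd `p` there is an element `τ` of inertia above `p` on which the cyclotomic
character modulo `p` is not trivial; if the determinant of `ρ` is cyclotomic, `det ρ(τ) - 1` is a unit.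
File `H53Cond7`. -/
theorem exists_tau (p : ℕ) [Fact p.Prime] (hp2 : p ≠ 2)
    (P : ValuationSubring (AlgebraicClosure ℚ)) (hP : P.LiesOverPrime p) :
    (∃ τ ∈ P.inertiaSubgroupIn ℚ, ExtCitation.cycloChar p τ ≠ 1) ∧
      ∀ {A : Type} [CommRing A] [IsLocalRing A] (ρ : GaloisRepAdic A), ρ.DetIsCyclotomic p →
        ∀ (b : Module.Basis (Fin 2) A ρ.V) {τ : GQ}, ExtCitation.cycloChar p τ ≠ 1 →
          IsUnit ((H53.toMat ρ.ρ b τ).det - 1) :=
  ⟨H53.exists_tau p hp2 P hP, fun ρ hd b _ hτ => H53.isUnit_det_sub_one p ρ hd b hτ⟩

/-- **Diagonalisation.**  Over a local ring, a matrix of trace `1 + δ` and determinant `δ` such that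
`δ - 1` is a unit is conjugate to `diag(δ, 1)`.  File `H53Cond5`. -/
theorem diagonalisation {A : Type} [CommRing A] [IsLocalRing A] (M : Mat₂ A)
    (htr : M.trace = 1 + M.det) (hδ : IsUnit (M.det - 1)) :
    ∃ u : Mat₂ A, IsUnit u ∧ M * u = u * !![M.det, 0; 0, 1] :=
  H53.exists_diag M htr hδ

/-- **The identities** (`OrdC P τ p r`).  With `t = r(τ)`, `δ = det t`: (h1) `tr t = 1 + δ`; (h2)
`(t - δ) r(σ) (t - 1) = 0` for `σ` in the decomposition group: the line `im (t - 1)`, on which `t` is `δ`,
is stable; (h3) `(t - δ) (r(σ) - 1) = 0` for `σ` in inertia: inertia acts trivially on the quotient; (h4)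
`tr (r(σ) (t - 1)) = ε(σ) tr (r(σ) (δ - t))` for `σ` in the decomposition group: since `t - 1` and `δ - t`
are `δ - 1` times the projections to the line and to the other eigenline of `t`, these traces are
`δ - 1` times the two characters.  (This explanation is for `δ - 1` a unit.)  File `H53Cond6`. -/
theorem ordC_iff (P : ValuationSubring (AlgebraicClosure ℚ)) (τ : GQ) (p : ℕ) {A : Type}
    [CommRing A] (r : GQ →* Mat₂ A) :
    H53.OrdC P τ p r ↔ (r τ).trace = 1 + (r τ).det ∧
      (∀ σ ∈ P.decompositionSubgroup ℚ, (r τ - (r τ).det • 1) * r σ * (r τ - 1) = 0) ∧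
      (∀ σ ∈ P.inertiaSubgroupIn ℚ, (r τ - (r τ).det • 1) * (r σ - 1) = 0) ∧
      ∀ σ ∈ P.decompositionSubgroup ℚ, ∀ n a : ℕ, H53.Cyc p n σ a →
        (r σ * (r τ - 1)).trace - (a : A) * (r σ * ((r τ).det • 1 - r τ)).trace ∈
          Ideal.span {((p ^ n : ℕ) : A)} :=
  ⟨fun h => ⟨h.h1, h.h2, h.h3, h.h4⟩, fun h => ⟨h.1, h.2.1, h.2.2.1, h.2.2.2⟩⟩

/-- **Adapted basis = identities.**  Let `τ` be in inertia and `det ρ(τ) - 1` a unit.  There is an adapted
basis if and only if the matrices of `ρ` in one basis `b` (and then in every basis) satisfy the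
identities.  File `H53Cond6`. -/
theorem adapted_iff_identities {p : ℕ} {P : ValuationSubring (AlgebraicClosure ℚ)} {τ : GQ}
    (hτ : τ ∈ P.inertiaSubgroupIn ℚ) {A : Type} [CommRing A] [IsLocalRing A]
    (ρ : GaloisRepAdic A) (b : Module.Basis (Fin 2) A ρ.V)
    (hδ : IsUnit ((H53.toMat ρ.ρ b τ).det - 1)) :
    (∃ b' : Module.Basis (Fin 2) A ρ.V, H53.OrdB p P (H53.toMat ρ.ρ b')) ↔
      H53.OrdC P τ p (H53.toMat ρ.ρ b) := by
  refine ⟨fun ⟨b', h⟩ => ?_, fun h => H53.OrdC.exists_ordB ρ b hδ h⟩
  obtain ⟨u, hu, huc⟩ := (H53.isEquiv_iff_conj ρ ρ b' b).mp ⟨GaloisRepAdic.Equiv.refl ρ⟩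
  exact H53.ordC_conj P τ hu huc (h.ordC hτ)

/-- **Strictly ordinary = matrix condition.**  `OrdMat p P τ ρ` is the conjunction of three vanishing
conditions and one relation with the cyclotomic character, made of the natural families `ordF1`, `ordF2`,
`ordF3`, `ordU`, `ordV`; it says that the identities hold.  For representations with cyclotomic
determinant and odd `p`, strictly ordinary at `p` means that it holds at all places `P` above `p`, with
`τ = tauAt p hp2 P`, an element as in `exists_tau`, chosen for each `P`.  So this is a deformation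
condition by the machine.  Files `H53Cond6`, `H53Cond7`. -/
theorem strictly_ordinary_iff (p : ℕ) [Fact p.Prime] (hp2 : p ≠ 2) {A : Type} [CommRing A]
    [IsLocalRing A] (ρ : GaloisRepAdic A) :
    ((ρ.DetIsCyclotomic p ∧ ρ.IsStrictOrdinaryAt p) ↔ (ρ.DetIsCyclotomic p ∧
      ∀ P : {P : ValuationSubring (AlgebraicClosure ℚ) // P.LiesOverPrime p},
        H53.OrdMat p P.1 (H53.tauAt p hp2 P) ρ)) ∧
    ∀ (P : ValuationSubring (AlgebraicClosure ℚ)) (τ : GQ), (p : A) ∈ maximalIdeal A →
      ∀ b : Module.Basis (Fin 2) A ρ.V,
        H53.OrdMat p P τ ρ ↔ H53.OrdC P τ p (H53.toMat ρ.ρ b) :=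
  ⟨H53.det_and_strictOrdinary_iff p hp2 ρ, fun P τ hpA b =>
    H53.ordMat_iff p (Fact.out : p.Prime).ne_zero P τ hpA ρ b⟩

/-- **Ordinary representations** (no condition on the quotient of the two characters): the same with (h1),
(h2) and (h3) only; the conjunction of these three vanishing conditions is `OrdMatp P τ ρ`.  File
`H53CondOrd`. -/
theorem ordinary_iff (p : ℕ) [Fact p.Prime] (hp2 : p ≠ 2) {A : Type} [CommRing A] [IsLocalRing A]
    (ρ : GaloisRepAdic A) :
    ((ρ.DetIsCyclotomic p ∧ ρ.IsOrdinaryAt p) ↔ (ρ.DetIsCyclotomic p ∧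
      ∀ P : {P : ValuationSubring (AlgebraicClosure ℚ) // P.LiesOverPrime p},
        H53.OrdMatp P.1 (H53.tauAt p hp2 P) ρ)) ∧
    ∀ (P : ValuationSubring (AlgebraicClosure ℚ)) (τ : GQ) (b : Module.Basis (Fin 2) A ρ.V),
      H53.OrdMatp P τ ρ ↔
        (H53.toMat ρ.ρ b τ).trace = 1 + (H53.toMat ρ.ρ b τ).det ∧
        (∀ σ ∈ P.decompositionSubgroup ℚ, (H53.toMat ρ.ρ b τ - (H53.toMat ρ.ρ b τ).det • 1) *
          H53.toMat ρ.ρ b σ * (H53.toMat ρ.ρ b τ - 1) = 0) ∧
        ∀ σ ∈ P.inertiaSubgroupIn ℚ,
          (H53.toMat ρ.ρ b τ - (H53.toMat ρ.ρ b τ).det • 1) * (H53.toMat ρ.ρ b σ - 1) = 0 :=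
  ⟨H53.det_and_ordinary_iff p hp2 ρ, fun P τ b => (H53.ordMatp_iff P τ ρ b).trans
    ⟨fun h => ⟨h.h1, h.h2, h.h3⟩, fun h => ⟨h.1, h.2.1, h.2.2⟩⟩⟩

/-! ## 6. Flat representations -/

/-- **Flat orders.**  Flat at `p` (Prelude) means that the residue field is finite and that for every ideal
`I` of finite index the module `V / I V` has a flat order in its algebra of functions
(`H32.HasFlatOrder`, the notion of `GuideFlat`).  File `H53Flat1`. -/
theorem flat_iff_orders (p : ℕ) [Fact p.Prime] {A : Type} [CommRing A] [IsLocalRing A]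
    (ρ : GaloisRepAdic A) :
    ρ.IsFlatAt p ↔ Finite (ResidueField A) ∧ ∀ I : Ideal A, Finite (A ⧸ I) →
      H32.HasFlatOrder p (ρ.V ⧸ (I • (⊤ : Submodule A ρ.V)))
        (fun σ x => ρ.levelAction I σ x) :=
  H53.isFlatAt_iff p ρ

/-- **Flatness in matrices.**  `FlatM p r`, for a matrix representation over any ring `B`: the module `B²`
with this action has a flat order (so `B` is finite).  A representation is flat at `p` if and only if the
residue field is finite and the matrices modulo all ideals of finite index are `FlatM`; over a finite ring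
one may take the matrices themselves.  File `H53Flat1`. -/
theorem flat_in_matrices (p : ℕ) [Fact p.Prime] {A : Type} [CommRing A] [IsLocalRing A]
    (ρ : GaloisRepAdic A) (b : Module.Basis (Fin 2) A ρ.V) :
    (ρ.IsFlatAt p ↔ Finite (ResidueField A) ∧ ∀ I : Ideal A, Finite (A ⧸ I) →
      H53.FlatM p (H53.mapMat (Ideal.Quotient.mk I) (H53.toMat ρ.ρ b))) ∧
      (Finite A → (ρ.IsFlatAt p ↔ H53.FlatM p (H53.toMat ρ.ρ b))) :=
  ⟨H53.isFlatAt_iff_flatM p ρ b, fun _ => H53.isFlatAt_iff_flatM_of_finite p ρ b⟩

/-- **Four stability properties** of `FlatM` (from the stability of flat orders under submodules, quotients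
and products, `GuideFlat`): it descends along injective ring homomorphisms, is stable under
homomorphisms to finite rings, holds over `B` if it holds over `A`, `A'` with `B → A × A'` injective, and is
invariant under conjugation.  The second property needs no surjectivity: `B'²` is a quotient of a finite
sum of copies of `B²`.  With these the axioms of a deformation condition are verified as in section 4
(limit axiom: `A/I`, for `I ≠ A` of finite index, is itself a test algebra).  Files `H53Flat1`,
`H53Flat2`. -/
theorem flat_stability {p : ℕ} {B : Type} [CommRing B] (r : GQ →* Mat₂ B) :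
    (∀ {B' : Type} [CommRing B'] (φ : B →+* B'), Function.Injective φ →
      H53.FlatM p (H53.mapMat φ r) → H53.FlatM p r) ∧
    (∀ {B' : Type} [CommRing B'] [Finite B'] (φ : B →+* B'), H53.FlatM p r →
      H53.FlatM p (H53.mapMat φ r)) ∧
    (∀ {A A' : Type} [CommRing A] [CommRing A'] (φ : B →+* A) (ψ : B →+* A'),
      Function.Injective (fun x => (φ x, ψ x)) → H53.FlatM p (H53.mapMat φ r) →
        H53.FlatM p (H53.mapMat ψ r) → H53.FlatM p r) ∧
    ∀ (r' : GQ →* Mat₂ B) (u : Mat₂ B), IsUnit u → (∀ σ, u * r σ = r' σ * u) →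
      H53.FlatM p r → H53.FlatM p r' :=
  ⟨fun φ hφ h => H53.FlatM.of_injective φ hφ h, fun φ h => h.map φ,
    fun φ ψ hi h h' => H53.FlatM.of_prod φ ψ hi h h', fun _ _ hu h hr => hr.conj hu h⟩

/-! ## 7. The tangent space and the rings -/

/-- **Finitely many representations.**  Over a finite ring `B` there are only finitely many continuous
matrix representations unramified outside the finite set `S`: the fields cut out by them have bounded
degree and are unramified outside `S`, so there are finitely many of them (Hermite, `H63Hermite`), and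
for each there are finitely many homomorphisms from its Galois group to the finite group of matrices.
File `H53Tangent`. -/
theorem finitely_many (S : Finset ℕ) (hS : ∀ q ∈ S, q.Prime) (B : Type) [CommRing B] [Finite B] :
    {r : GQ →* Mat₂ B | (∃ L : IntermediateField ℚ (AlgebraicClosure ℚ), FiniteDimensional ℚ L ∧
      ∀ σ : GQ, (∀ x ∈ L, σ x = x) → r σ = 1) ∧
      ∀ q : ℕ, q.Prime → q ∉ S → ∀ P : ValuationSubring (AlgebraicClosure ℚ), P.LiesOverPrime q →
        ∀ σ ∈ P.inertiaSubgroupIn ℚ, r σ = 1}.Finite :=
  H53.finite_matrixRep S hS B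

/-- **Example: flat deformations.**  `FlatType`: cyclotomic determinant, flat at `p`, unramified outside the
set `S`, unipotent inertia at the primes `≠ p` of `T`.  The tangent space is finite, and if `rhobar` is
absolutely irreducible of this type, the universal deformation ring exists.  This is used in theorem
LL (`GuideLevelsIhara`); the rings of the lifting theorem are obtained in the same way for the types
with ordinary or flat condition at `p` (`H53TWB2`, see `GuideLiftingGalois`).  File `H53Rings`. -/
theorem flat_ring_exists (O : Type) [CommRing O] [IsDomain O] [IsDiscreteValuationRing O]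
    [IsAdicComplete (maximalIdeal O) O] [Finite (ResidueField O)] (p : ℕ) [Fact p.Prime]
    (ρbar : ResidualGaloisRep (ResidueField O)) (S T : Finset ℕ) :
    TangentFinite O ρbar (H53.FlatType O p S T) ∧
      (ρbar.IsAbsolutelyIrreducible →
        H53.FlatType O p S T (GaloisRepAdic.ofResidualGaloisRep ρbar) →
          Nonempty (DeformationRingData O ρbar (H53.FlatType O p S T))) :=
  ⟨H53.tangentFinite_flatType O p ρbar S T,
    fun habs h => H53.nonempty_flatType O p ρbar S T habs h⟩

end Fermat.Agent.Guide.DeformationSteps
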