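/-
Freeness criterion of Auslander-Buchsbaum type used for the patching descent step.
-/
import Mathlib.RingTheory.Regular.ProjectiveDimension
import Mathlib.RingTheory.Regular.Flat
import Mathlib.RingTheory.MvPowerSeries.Equiv
import Mathlib.RingTheory.PowerSeries.Ideal
import Mathlib.RingTheory.PowerSeries.Inverse
import Mathlib.RingTheory.DiscreteValuationRing.Basic
import Mathlib.RingTheory.FiniteLength
import Mathlib.RingTheory.LocalRing.Module

set_option autoImplicit false

namespace Fermat.Agent.H57

open CategoryTheory IsLocalRing RingTheory.Sequence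

universe u

section PS

/-- evaluation at `X = 0` on the quotient `B⟦X⟧ / X` -/
noncomputable def quotXEquiv (B : Type*) [CommRing B] :
    QuotSMulTop (PowerSeries.X : PowerSeries B) (PowerSeries B) ≃+ B :=
  (QuotientAddGroup.quotientAddEquivOfEq (by
    ext f
    simp only [Submodule.mem_toAddSubgroup, AddMonoidHom.mem_ker]
    rw [Submodule.mem_smul_pointwise_iff_exists]
    constructor
    · rintro ⟨g, -, rfl⟩
      simp
    · intro hf
      obtain ⟨g, hg⟩ := PowerSeries.X_dvd_iff.mpr hf
      exact ⟨g, trivial, by simp [hg]⟩)).trans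
    (QuotientAddGroup.quotientKerEquivOfSurjective
      (PowerSeries.constantCoeff (R := B)).toAddMonoidHom
      (fun b => ⟨PowerSeries.C b, by simp⟩))

lemma quotXEquiv_mk (B : Type*) [CommRing B] (f : PowerSeries B) :
    quotXEquiv B (Submodule.Quotient.mk f) = PowerSeries.constantCoeff f := rfl

lemma isRegular_powerSeries {B : Type*} [CommRing B] {rs : List B} (h : IsRegular B rs) :
    IsRegular (PowerSeries B) (PowerSeries.X :: rs.map (PowerSeries.C)) := by
  rw [isRegular_cons_iff]
  constructor
  · intro f g hfg
    exact PowerSeries.X_mul_cancel hfg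
  · refine (AddEquiv.isRegular_congr (e := quotXEquiv B) (bs := rs) ?_).mpr h
    rw [List.forall₂_map_left_iff, List.forall₂_same]
    intro r _ x
    induction x using Submodule.Quotient.induction_on with
    | H f =>
      rw [← Submodule.Quotient.mk_smul, quotXEquiv_mk, quotXEquiv_mk]
      simp

/-- `A` has a regular sequence generating its maximal ideal. -/
def HasRegSys (A : Type*) [CommRing A] [IsLocalRing A] : Prop :=
  ∃ xs : List A, IsRegular A xs ∧ Ideal.ofList xs = maximalIdeal A

lemma HasRegSys.powerSeries {B : Type*} [CommRing B] [IsLocalRing B] (h : HasRegSys B) :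
    HasRegSys (PowerSeries B) := by
  obtain ⟨xs, hreg, hmax⟩ := h
  refine ⟨_, isRegular_powerSeries hreg, ?_⟩
  rw [Ideal.ofList_cons, ← Ideal.map_ofList, hmax]
  apply le_antisymm
  · rw [sup_le_iff]
    constructor
    · rw [Ideal.span_singleton_le_iff_mem, mem_maximalIdeal, mem_nonunits_iff]
      intro hu
      have := hu.map (PowerSeries.constantCoeff (R := B))
      simp at this
    · rw [Ideal.map_le_iff_le_comap]
      intro b hb
      rw [Ideal.mem_comap, mem_maximalIdeal, mem_nonunits_iff]
      intro hu
      have := hu.map (PowerSeries.constantCoeff (R := B))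
      simp at this
      exact hb this
  · intro f hf
    have hc : PowerSeries.constantCoeff f ∈ maximalIdeal B := by
      rw [mem_maximalIdeal, mem_nonunits_iff]
      intro hu
      exact hf (PowerSeries.isUnit_iff_constantCoeff.mpr hu)
    have : f = (f - PowerSeries.C (PowerSeries.constantCoeff f)) +
      PowerSeries.C (PowerSeries.constantCoeff f) := by ring
    rw [this]
    refine Submodule.add_mem_sup ?_ (Ideal.mem_map_of_mem _ hc)
    rw [Ideal.mem_span_singleton, PowerSeries.X_dvd_iff]
    simp

lemma HasRegSys.of_ringEquiv {A B : Type*} [CommRing A] [IsLocalRing A] [CommRing B]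
    [IsLocalRing B] (e : A ≃+* B) (h : HasRegSys A) : HasRegSys B := by
  obtain ⟨xs, hreg, hmax⟩ := h
  refine ⟨xs.map e, ?_, ?_⟩
  · refine (AddEquiv.isRegular_congr (e := e.toAddEquiv) (as := xs) ?_).mp hreg
    rw [List.forall₂_map_right_iff, List.forall₂_same]
    intro r _ x
    simp
  · have := Ideal.map_ofList (e : A →+* B) xs
    rw [hmax] at this
    rw [← map_ringEquiv_maximalIdeal e]
    exact this.symm

lemma hasRegSys_dvr (O : Type*) [CommRing O] [IsDomain O] [IsDiscreteValuationRing O] :
    HasRegSys O := by
  obtain ⟨ϖ, hϖ⟩ := IsDiscreteValuationRing.exists_irreducible O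
  refine ⟨[ϖ], ?_, ?_⟩
  · refine IsRegular.of_isWeaklyRegular_of_mem_maximalIdeal O ?_ ?_
    · intro r hr
      rw [List.mem_singleton] at hr
      subst hr
      exact hϖ.not_isUnit
    · rw [isWeaklyRegular_singleton_iff]
      intro a b hab
      exact mul_left_cancel₀ hϖ.ne_zero hab
  · rw [Ideal.ofList_singleton, hϖ.maximalIdeal_eq]

lemma hasRegSys_mvPowerSeries (O : Type*) [CommRing O] [IsDomain O] [IsDiscreteValuationRing O]
    (n : ℕ) : HasRegSys (MvPowerSeries (Fin n) O) := by
  induction n with
  | zero =>
    exact (hasRegSys_dvr O).of_ringEquiv (MvPowerSeries.isEmptyEquiv (Fin 0) O).toRingEquiv.symm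
  | succ n ih =>
    exact ih.powerSeries.of_ringEquiv (MvPowerSeries.finSuccEquiv O n).toRingEquiv.symm

end PS

section PD

variable {A : Type u} [CommRing A] [IsLocalRing A] [IsNoetherianRing A]

omit [IsNoetherianRing A] in
lemma hasProjectiveDimensionLT_of_isFiniteLength (n : ℕ)
    (h : HasProjectiveDimensionLT (ModuleCat.of A (A ⧸ maximalIdeal A)) n)
    {L : Type u} [AddCommGroup L] [Module A L] (hL : IsFiniteLength A L) :
    HasProjectiveDimensionLT (ModuleCat.of A L) n := by
  induction hL with
  | @of_subsingleton M _ _ _ =>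
    have : Limits.IsZero (ModuleCat.of A M) := ModuleCat.isZero_of_subsingleton _
    have := this.hasProjectiveDimensionLT_zero
    exact hasProjectiveDimensionLT_of_ge _ 0 n (Nat.zero_le _)
  | @of_simple_quotient M _ _ N _ _ ih =>
    obtain ⟨I, hI, ⟨e⟩⟩ := isSimpleModule_iff_quot_maximal.mp
      (inferInstance : IsSimpleModule A (M ⧸ N))
    have hI' := IsLocalRing.eq_maximalIdeal hI
    subst hI'
    have h3 : HasProjectiveDimensionLT (ModuleCat.of A (M ⧸ N)) n :=
      hasProjectiveDimensionLT_of_iso e.symm.toModuleIso n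
    let S : ShortComplex (ModuleCat.{u} A) :=
      ShortComplex.mk (ModuleCat.ofHom N.subtype) (ModuleCat.ofHom N.mkQ) (by
        ext x; simp)
    have hS : S.ShortExact := by
      refine ShortComplex.ShortExact.mk' ?_ ?_ ?_
      · rw [ShortComplex.ShortExact.moduleCat_exact_iff_function_exact]
        intro x
        simp [S]
      · rw [ModuleCat.mono_iff_injective]
        exact N.injective_subtype
      · rw [ModuleCat.epi_iff_surjective]
        exact N.mkQ_surjective
    exact hS.hasProjectiveDimensionLT_X₂ n ih h3

lemma isArtinian_of_killed {S : Type*} [CommRing S] [IsLocalRing S] {L : Type*} [AddCommGroup L]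
    [Module S L] [Module.Finite S L] (hk : ∀ s ∈ maximalIdeal S, ∀ x : L, s • x = 0) :
    IsArtinian S L := by
  classical
  obtain ⟨n, s, hs⟩ := Module.Finite.exists_fin (R := S) (M := L)
  have : IsArtinian S (S ⧸ maximalIdeal S) := by
    have : IsSimpleModule S (S ⧸ maximalIdeal S) := 
      isSimpleModule_iff_quot_maximal.mpr ⟨_, inferInstance, ⟨LinearEquiv.refl _ _⟩⟩
    infer_instance
  let g : (Fin n → (S ⧸ maximalIdeal S)) →ₗ[S] L :=
    LinearMap.lsum S (fun _ => S ⧸ maximalIdeal S) S
      (fun i => Submodule.liftQ (maximalIdeal S) (LinearMap.toSpanSingleton S L (s i)) (by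
        intro a ha
        rw [LinearMap.mem_ker, LinearMap.toSpanSingleton_apply]
        exact hk a ha _))
  refine isArtinian_of_surjective _ g ?_
  rw [← LinearMap.range_eq_top, eq_top_iff, ← hs, Submodule.span_le]
  rintro _ ⟨i, rfl⟩
  refine ⟨Pi.single i 1, ?_⟩
  simp only [g, LinearMap.lsum_apply, LinearMap.coe_sum, Finset.sum_apply, LinearMap.comp_apply,
    LinearMap.proj_apply]
  rw [Finset.sum_eq_single i]
  · rw [Pi.single_eq_same]
    change Submodule.liftQ _ _ _ (Submodule.Quotient.mk 1) = _
    rw [Submodule.liftQ_apply]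
    simp
  · intro j _ hj
    rw [Pi.single_eq_of_ne hj, map_zero]
  · simp

/-- **Auslander-Buchsbaum type freeness criterion** -/
theorem free_of_free_of_regSys {S A N : Type u} [CommRing S] [IsLocalRing S] [IsNoetherianRing S]
    [CommRing A] [IsLocalRing A] [IsNoetherianRing A] [Algebra S A] [AddCommGroup N]
    [Module S N] [Module A N] [IsScalarTower S A N] [Module.Free S N] [Module.Finite S N]
    [Nontrivial N] (xs : List S) (hxs : IsRegular S xs) (hmS : Ideal.ofList xs = maximalIdeal S)
    (ys : List A) (hys : IsRegular A ys) (hmA : Ideal.ofList ys = maximalIdeal A)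
    (hlen : ys.length ≤ xs.length) : Module.Free A N := by
  have hfin : Module.Finite A N := Module.Finite.of_restrictScalars_finite S A N
  have hloc : ∀ x ∈ maximalIdeal S, algebraMap S A x ∈ maximalIdeal A := by
    intro x hx
    rw [mem_maximalIdeal, mem_nonunits_iff]
    intro hu
    obtain ⟨y, hy⟩ := hu.exists_right_inv
    have h1 : (⊤ : Submodule S N) ≤ maximalIdeal S • (⊤ : Submodule S N) := by
      intro n _
      have : n = x • (y • n) := by
        rw [← algebraMap_smul A x, ← mul_smul, hy, one_smul]
      rw [this]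
      exact Submodule.smul_mem_smul hx trivial
    have h2 : (⊤ : Submodule S N) ≤ ⊥ :=
      Submodule.le_of_le_smul_of_le_jacobson_bot Module.Finite.fg_top
        (maximalIdeal_le_jacobson _) (by simpa using h1)
    have h3 : (⊥ : Submodule S N) = ⊤ := le_antisymm bot_le h2
    exact bot_ne_top h3
  have hweak : IsWeaklyRegular N xs :=
    (LinearEquiv.isWeaklyRegular_congr (TensorProduct.rid S N) xs).mp
      (hxs.toIsWeaklyRegular.isWeaklyRegular_lTensor (M₂ := N))
  have hweak' : IsWeaklyRegular N (xs.map (algebraMap S A)) :=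
    (isWeaklyRegular_map_algebraMap_iff A N xs).mpr hweak
  have hxmem : ∀ r ∈ xs, r ∈ maximalIdeal S := by
    intro r hr
    rw [← hmS]
    exact Ideal.subset_span hr
  have hmem : ∀ r ∈ xs.map (algebraMap S A), r ∈ maximalIdeal A := by
    intro r hr
    obtain ⟨s, hs, rfl⟩ := List.mem_map.mp hr
    exact hloc s (hxmem s hs)
  let L := N ⧸ (Ideal.ofList (xs.map (algebraMap S A)) • ⊤ : Submodule A N)
  have hArtS : IsArtinian S L := by
    have : Module.Finite S L := by
      let q : N →ₗ[A] L := Submodule.mkQ _
      have hq : Function.Surjective q := Submodule.mkQ_surjective _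
      exact Module.Finite.of_surjective (q.restrictScalars S) hq
    refine isArtinian_of_killed ?_
    intro s hs x
    obtain ⟨n, rfl⟩ := Submodule.mkQ_surjective _ x
    rw [← algebraMap_smul A s, ← map_smul, Submodule.mkQ_apply, Submodule.Quotient.mk_eq_zero]
    refine Submodule.smul_mem_smul ?_ trivial
    rw [← Ideal.map_ofList, hmS]
    exact Ideal.mem_map_of_mem _ hs
  have hArt : IsArtinian A L := isArtinian_of_tower S hArtS
  have hL : IsFiniteLength A L := isFiniteLength_iff_isNoetherian_isArtinian.mpr
    ⟨inferInstance, hArt⟩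
  -- projective dimension of the residue field
  have hk : HasProjectiveDimensionLT (ModuleCat.of A (A ⧸ maximalIdeal A)) (ys.length + 1) := by
    have h1 := (ModuleCat.projectiveDimension_quotient_eq_length ys hys).le
    rw [projectiveDimension_le_iff] at h1
    have h2 : HasProjectiveDimensionLT
      (ModuleCat.of A (Shrink.{u} (A ⧸ Ideal.ofList ys))) (ys.length + 1) := h1
    have e : Shrink.{u} (A ⧸ Ideal.ofList ys) ≃ₗ[A] A ⧸ maximalIdeal A :=
      (Shrink.linearEquiv A (A ⧸ Ideal.ofList ys)).trans (Submodule.quotEquivOfEq _ _ hmA)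
    exact hasProjectiveDimensionLT_of_iso e.toModuleIso _
  have hpdL : projectiveDimension (ModuleCat.of A L) ≤ (ys.length : ℕ) := by
    rw [projectiveDimension_le_iff]
    exact hasProjectiveDimensionLT_of_isFiniteLength _ hk hL
  have hpd := ModuleCat.projectiveDimension_quotient_eq_add_length_of_isWeaklyRegular
    (ModuleCat.of A N) _ hweak' hmem
  have hpdN : projectiveDimension (ModuleCat.of A N) ≤ 0 := by
    have h1 : projectiveDimension (ModuleCat.of A N) + ((xs.length : ℕ) : WithBot ℕ∞) ≤
        0 + ((xs.length : ℕ) : WithBot ℕ∞) := by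
      rw [zero_add]
      rw [List.length_map] at hpd
      refine hpd.symm.le.trans (hpdL.trans ?_)
      exact_mod_cast hlen
    exact ENat.WithBot.add_le_add_natCast_right_iff.mp h1
  have hproj : Projective (ModuleCat.of A N) := by
    rw [projective_iff_hasProjectiveDimensionLT_one]
    exact (projectiveDimension_le_iff _ 0).mp (by exact_mod_cast hpdN)
  have : Module.Projective A N := (IsProjective.iff_projective N).mpr hproj
  exact Module.free_of_flat_of_isLocalRing

end PD

section Descent

variable {A R N M : Type*} [CommRing A] [CommRing R] [AddCommGroup N] [AddCommGroup M]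
  [Module A N] [Module R M]

lemma repr_mem_of_mem_smul_top {ι : Type*} (e : Module.Basis ι A N) (I : Ideal A) {x : N}
    (hx : x ∈ I • (⊤ : Submodule A N)) (i : ι) : e.repr x i ∈ I := by
  rw [← e.span_eq, Submodule.mem_ideal_smul_span_iff_exists_sum] at hx
  obtain ⟨a, ha, rfl⟩ := hx
  rw [← Finsupp.linearCombination_apply, e.repr_linearCombination]
  exact ha i

theorem descend [Module.Free A N] [Nontrivial M] (ψ : A →+* R)
    (hψ : Function.Surjective ψ) (I : Ideal A) (hI : I ≤ RingHom.ker ψ) (π : N →+ M)
    (hπs : ∀ (f : A) (x : N), π (f • x) = ψ f • π x) (hπ : Function.Surjective π)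
    (hker : ∀ x : N, π x = 0 ↔ x ∈ I • (⊤ : Submodule A N)) :
    Module.Free R M ∧ Module.annihilator R M = ⊥ ∧ RingHom.ker ψ = I := by
  classical
  let e := Module.Free.chooseBasis A N
  let v := fun i => π (e i)
  have hlin : LinearIndependent R v := by
    rw [linearIndependent_iff']
    intro s g hg i hi
    choose a ha using fun i => hψ (g i)
    have h1 : π (∑ i ∈ s, a i • e i) = 0 := by
      rw [map_sum, ← hg]
      refine Finset.sum_congr rfl fun j _ => ?_
      rw [hπs, ha]
    rw [hker] at h1
    have h2 := repr_mem_of_mem_smul_top e I h1 i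
    have h3 : e.repr (∑ i ∈ s, a i • e i) i = a i := by
      rw [map_sum, Finsupp.finsetSum_apply]
      simp only [map_smul, Module.Basis.repr_self, Finsupp.smul_single, smul_eq_mul, mul_one]
      rw [Finset.sum_eq_single i]
      · simp
      · intro j _ hj
        simp [hj]
      · intro h
        exact absurd hi h
    rw [h3] at h2
    rw [← ha i]
    exact hI h2
  have hspan : ⊤ ≤ Submodule.span R (Set.range v) := by
    rintro m -
    obtain ⟨n, rfl⟩ := hπ m
    rw [← e.linearCombination_repr n, Finsupp.linearCombination_apply, Finsupp.sum, map_sum]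
    refine Submodule.sum_mem _ fun i _ => ?_
    rw [hπs]
    exact Submodule.smul_mem _ _ (Submodule.subset_span ⟨i, rfl⟩)
  let B : Module.Basis _ R M := Module.Basis.mk hlin hspan
  have hne : Nonempty (Module.Free.ChooseBasisIndex A N) := by
    by_contra h
    rw [not_nonempty_iff] at h
    have : (⊤ : Submodule R M) ≤ ⊥ := hspan.trans (by
      rw [Submodule.span_le]; rintro _ ⟨i, -⟩; exact (h.false i).elim)
    exact bot_ne_top (le_antisymm bot_le this)
  obtain ⟨i⟩ := hne
  refine ⟨Module.Free.of_basis B, ?_, ?_⟩
  · rw [eq_bot_iff]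
    intro r hr
    rw [Module.mem_annihilator] at hr
    have h1 := hr (v i)
    exact (linearIndependent_iff'.mp hlin {i} (fun _ => r) (by simpa using h1) i (by simp))
  · refine le_antisymm ?_ hI
    intro a ha
    have h1 : π (a • e i) = 0 := by
      rw [hπs, (RingHom.mem_ker).mp ha, zero_smul]
    rw [hker] at h1
    have h2 := repr_mem_of_mem_smul_top e I h1 i
    simpa using h2

end Descent

section Twist

/-- Freeness over `A` from freeness along a ring homomorphism `φ : S → A`, both rings having a
regular sequence generating the maximal ideal. -/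
theorem free_of_ringHom {S A N : Type u} [CommRing S] [IsLocalRing S] [IsNoetherianRing S]
    [CommRing A] [IsLocalRing A] [IsNoetherianRing A] [AddCommGroup N] [Module A N]
    [Nontrivial N] (φ : S →+* A) (xs : List S) (hxs : IsRegular S xs)
    (hmS : Ideal.ofList xs = maximalIdeal S)
    (ys : List A) (hys : IsRegular A ys) (hmA : Ideal.ofList ys = maximalIdeal A)
    (hlen : ys.length ≤ xs.length) (d : ℕ) (b : Fin d → N)
    (b_span : ∀ x : N, ∃ c : Fin d → S, x = ∑ i, φ (c i) • b i)
    (b_rel : ∀ c : Fin d → S, ∑ i, φ (c i) • b i = 0 → ∀ i, c i = 0) : Module.Free A N := by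
  letI : Algebra S A := φ.toAlgebra
  letI : Module S N := Module.compHom N φ
  have hsm : ∀ (s : S) (x : N), s • x = φ s • x := fun _ _ => rfl
  haveI : IsScalarTower S A N := ⟨fun s a x => by
    rw [Algebra.smul_def, mul_smul]; rfl⟩
  have hlin : LinearIndependent S b := by
    rw [Fintype.linearIndependent_iff]
    intro g hg
    exact b_rel g hg
  have hspan : ⊤ ≤ Submodule.span S (Set.range b) := by
    rintro x -
    obtain ⟨c, rfl⟩ := b_span x
    refine Submodule.sum_mem _ fun i _ => ?_
    rw [← hsm]
    exact Submodule.smul_mem _ _ (Submodule.subset_span ⟨i, rfl⟩)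
  let B : Module.Basis (Fin d) S N := Module.Basis.mk hlin hspan
  haveI : Module.Free S N := Module.Free.of_basis B
  haveI : Module.Finite S N := Module.Finite.of_basis B
  exact free_of_free_of_regSys xs hxs hmS ys hys hmA hlen

end Twist

end Fermat.Agent.H57
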