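import Fermat.Statements.S57
import Fermat.Agent.H57Patching

set_option autoImplicit false
open Algebra Algebra.PatchingLevel

namespace Fermat.Agent.S57

theorem result
    {𝒪 : Type} [CommRing 𝒪] [IsDomain 𝒪] [IsDiscreteValuationRing 𝒪]
    {r : ℕ} {R : Type} [CommRing R] [Algebra 𝒪 R]
    {M : Type} [AddCommGroup M] [Module R M] [Nontrivial M]
    (L : Algebra.PatchingLevel 𝒪 r R M ⊥) :
    Module.Free R M ∧ Module.annihilator R M = ⊥ ∧
      RingHom.ker L.ψ = Ideal.span (Set.range fun i : Fin r => L.φ (MvPowerSeries.X i)) := by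
  have hN : Nontrivial L.N := L.π_surjective.nontrivial
  obtain ⟨xs, hxs, hmax⟩ := Fermat.Agent.H57.hasRegSys_mvPowerSeries 𝒪 r
  have hfree : Module.Free (MvPowerSeries (Fin r) 𝒪) L.N :=
    Fermat.Agent.H57.free_of_ringHom (S := MvPowerSeries (Fin r) 𝒪) L.φ.toRingHom xs hxs hmax
      xs hxs hmax le_rfl L.d L.b L.b_span (fun c hc i => by
        have := (L.b_rel c).mp hc i
        simpa using this)
  exact Fermat.Agent.H57.descend (A := MvPowerSeries (Fin r) 𝒪) (N := L.N) (L.ψ : _ →+* R)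
    L.ψ_surjective _ (by
      rw [Ideal.span_le]
      rintro _ ⟨i, rfl⟩
      exact L.ψ_φ_X i) L.π L.π_smul L.π_surjective L.ker_π

end Fermat.Agent.S57
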