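import Fermat.Agent.S53
import Fermat.Agent.S54
import Fermat.Agent.S57
import Fermat.Agent.H69Tangent
import Fermat.Agent.H53Rings
import Fermat.Agent.H53CondOrd
import Fermat.Agent.H53Flat2

/-!
# Guide to the proof: deformation rings (S53, S54) and the last step of patching (S57)

This file is a machine-checked table of contents. Every theorem below is a citation of a theorem of
the library, with its statement written out. Nothing imports this file.

**What the block does.** `O` is a complete discrete valuation ring with finite residue field `k` of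
characteristic `p`, `rhobar` an absolutely irreducible representation of `G_ℚ` on a two-dimensional
`k`-space. A *deformation condition* is a property of representations over complete local
`O`-algebras with residue field `k` (`GaloisRepAdic A`: a free module of rank two over `A` with a
continuous action). S53: if the tangent space is finite, there is a universal deformation ring.
S54: it maps onto the Hecke algebra of any compatible Hecke-Galois datum. S57: a module which is free
over the ring of diamond operators is free over the patched deformation ring.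

**The idea of S53.** No functors, no Schlessinger criterion. By Burnside's theorem there are elements
`x, z` of the group ring with `rhobar(x) = E₁₁`, `rhobar(z) = E₂₁`; every deformation has exactly one
representative for which `x` is diagonal and the lower left entry of `z` is `1`. So deformations are
the same as matrix valued homomorphisms, which have a (huge) universal ring `P` given by generators
and relations; the kernels of the deformations of the given type form a family of ideals of `P`
closed under intersections and enlargement (this is what the axioms of a deformation condition say),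
and Chevalley's theorem gives a complete noetherian ring `R` with dense image of `P`.

**Conditions.** Everything which is used at a prime (unramified, unipotent inertia, cyclotomic
determinant, ordinary, strictly ordinary, flat at `p`) is shown to be a deformation condition. For
(strictly) ordinary this needs `p > 2`, for flat it is Ramakrishna's theorem.

**Order of the file.** 1. Representations and conditions. 2. The normal form. 3. The universal ring,
S53. 4. Deformation conditions. 5. The map to the Hecke algebra, S54. 6. S57.

**Where.** NOTES.md, Appendix A.10: [245] NOTES-S53, [246] NOTES-DEFCOND, [262], [164], [140]; Appendix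
A.7: [244] NOTES-MODLIFT-S43. S53 and S54 are used in S43, S59 and through them in S01, S03, S04, S06,
S38, S45, S46, S50, S60, the deformation conditions also in S56 (`condition_ordinary` and
`condition_strictOrdinary` not in S43, `condition_ordinary` not in S56), S57 in no other statement. The
local structure at single primes and the choice of the Taylor-Wiles primes are in `GuideLocalBounds`,
`GuideFlatBound` and `GuideTaylorWiles`. The frozen notions (`IsFlatAt`, `IsDeformationCondition`,
`DeformationRingData`, `PatchingLevel`, ...) are unfolded in `GuideNotionsGalois` and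
`GuideNotionsDeformations`. The steps of the proofs are in `GuideDeformationSteps` (sections 1-4) and,
for `pro_representability`, in `GuideProRep`. Authors: helpers 53, 69, 65, 63, 54, 57, 32, 19.
-/

set_option autoImplicit false

open IsLocalRing GaloisRep Polynomial

namespace Fermat.Agent.Guide.Deformations

/-- The absolute Galois group of the rational numbers. -/
local notation "GQ" => (AlgebraicClosure ℚ ≃ₐ[ℚ] AlgebraicClosure ℚ)

/-! ## 1. Representations and conditions -/

/-- **The strictly ordinary condition, written out** (Prelude, `Def_GaloisRep_StrictOrdinary`):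
cyclotomic determinant, `p` in the maximal ideal, unramified outside `S`, and strictly ordinary at `p`:
for every place `P` above `p` there is a free line `L`, stable under the decomposition group, with
trivial action of inertia on `V/L`, and such that the characters `x`, `z` on `L` and `V/L` satisfy
`x = ε z`, `ε` the `p`-adic cyclotomic character. -/
theorem strictOrdinaryCondition_iff (O : Type) [CommRing O] (p : ℕ) (S : Finset ℕ) (A : Type)
    [CommRing A] [IsLocalRing A] [Algebra O A] (ρ : GaloisRepAdic A) :
    strictOrdinaryCondition O p S ρ ↔ ρ.DetIsCyclotomic p ∧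
      ((p : A) ∈ maximalIdeal A ∧ ∀ P : ValuationSubring (AlgebraicClosure ℚ), P.LiesOverPrime p →
        ∃ L : Submodule A ρ.V, (∃ b : Module.Basis (Fin 2) A ρ.V, L = Submodule.span A {b 0}) ∧
          (∀ σ ∈ P.decompositionSubgroup ℚ, ∀ v ∈ L, ρ.ρ σ v ∈ L) ∧
          (∀ σ ∈ P.inertiaSubgroupIn ℚ, ∀ v : ρ.V, ρ.ρ σ v - v ∈ L) ∧
          ∀ σ ∈ P.decompositionSubgroup ℚ, ∃ x z : A,
            (∀ w ∈ L, ρ.ρ σ w = x • w) ∧ (∀ v : ρ.V, ρ.ρ σ v - z • v ∈ L) ∧
            ∀ n a : ℕ, (∀ μ : AlgebraicClosure ℚ, μ ^ p ^ n = 1 → σ μ = μ ^ a) →
              x - (a : A) * z ∈ Ideal.span {((p ^ n : ℕ) : A)}) ∧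
      ∀ q : ℕ, q.Prime → q ∉ S → ρ.IsUnramifiedAt q :=
  Iff.rfl

/-- **The flat condition**: cyclotomic determinant, unramified outside `S`, and flat at `p` (`IsFlatAt`;
Prelude, `Def_GaloisRep_Flat`): the residue field is finite and every quotient of `V` by an ideal `I`
of finite index is the Galois module of a finite flat commutative group scheme over the localisation
of `ℤ` at `p` (given by its Hopf algebra). -/
theorem flatCondition_iff (O : Type) [CommRing O] (p : ℕ) (S : Finset ℕ) (A : Type)
    [CommRing A] [IsLocalRing A] [Algebra O A] (ρ : GaloisRepAdic A) :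
    flatCondition O p S ρ ↔ ρ.DetIsCyclotomic p ∧ ρ.IsFlatAt p ∧
      ∀ q : ℕ, q.Prime → q ∉ S → ρ.IsUnramifiedAt q :=
  Iff.rfl

/-- **The universal property** of a universal deformation ring (Prelude, `Def_GaloisRep_DeformationRingData`):
every deformation `ρA` of type `D` over a complete noetherian local `O`-algebra `A` with the same residue
field comes from the universal one by a unique homomorphism `R → A`. -/
theorem universal_property {O : Type} [CommRing O] [IsDomain O] [IsDiscreteValuationRing O]
    [IsAdicComplete (maximalIdeal O) O] {ρbar : ResidualGaloisRep (ResidueField O)}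
    {D : ∀ ⦃A : Type⦄ [CommRing A] [IsLocalRing A] [Algebra O A], GaloisRepAdic A → Prop}
    (U : DeformationRingData O ρbar D) (A : Type) [CommRing A] [IsLocalRing A] [IsNoetherianRing A]
    [IsAdicComplete (maximalIdeal A) A] [Algebra O A] [IsLocalHom (algebraMap O A)]
    (hA : Function.Surjective (residue A ∘ algebraMap O A)) (ρA : GaloisRepAdic A) (hD : D ρA)
    (hres : ρA.residual.IsEquiv (ρbar.baseChangeAlong (ResidueField.map (algebraMap O A)))) :
    ∃! φ : U.R →ₐ[O] A, ∃ hφ : IsLocalHom (φ : U.R →+* A),
      (U.ρ.baseChangeAlong (φ : U.R →+* A) hφ).IsEquiv ρA :=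
  U.universal A hA ρA hD hres

/-- **Deformation conditions** (Prelude, `Def_GaloisRep_DeformationCondition`): fibre products. If
`P = A ×_C B` for artinian test algebras and both base changes of `ρ` have type `D`, so has `ρ`. The
other axioms: invariance under isomorphism, base change, descent along injective homomorphisms, and
"type `D` over a complete ring = type `D` over all artinian quotients". -/
theorem deformationCondition_fibreProduct {O : Type} [CommRing O] [IsLocalRing O]
    {D : ∀ ⦃A : Type⦄ [CommRing A] [IsLocalRing A] [Algebra O A], GaloisRepAdic A → Prop}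
    (hD : IsDeformationCondition O D) {A B C P : Type} [CommRing A] [IsLocalRing A] [Algebra O A]
    [CommRing B] [IsLocalRing B] [Algebra O B] [CommRing C] [IsLocalRing C] [Algebra O C]
    [CommRing P] [IsLocalRing P] [Algebra O P]
    (hA : IsArtinianTestAlgebra O A) (hB : IsArtinianTestAlgebra O B)
    (hC : IsArtinianTestAlgebra O C) (hP : IsArtinianTestAlgebra O P)
    (f : A →ₐ[O] C) (g : B →ₐ[O] C) (pA : P →ₐ[O] A) (pB : P →ₐ[O] B)
    (hpA : IsLocalHom (pA : P →+* A)) (hpB : IsLocalHom (pB : P →+* B))
    (hcomm : f.comp pA = g.comp pB) (hinj : Function.Injective (fun x => (pA x, pB x)))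
    (hsurj : ∀ a b, f a = g b → ∃ x, pA x = a ∧ pB x = b) {ρ : GaloisRepAdic P}
    (h1 : D (ρ.baseChangeAlong (pA : P →+* A) hpA)) (h2 : D (ρ.baseChangeAlong (pB : P →+* B) hpB)) :
    D ρ :=
  hD.of_fibreProduct hA hB hC hP f g pA pB hpA hpB hcomm hinj hsurj h1 h2

/-! ## 2. The normal form -/

/-- **Matrix representations** (`H53Matrix`). `H53.MCont A r`: the homomorphism `r : GQ → GL₂(A)` is
continuous for the topology of `A` given by the powers of its maximal ideal, i.e. modulo every power
it factors through a finite extension of `ℚ`. `H53Matrix` is the dictionary (`toMat`, `ofMatrix`) with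
the coordinate free `GaloisRepAdic A` of the statements. -/
theorem mCont_iff (A : Type) [CommRing A] [IsLocalRing A] (r : GQ →* Matrix (Fin 2) (Fin 2) A) :
    H53.MCont A r ↔ ∀ n : ℕ, ∃ L : IntermediateField ℚ (AlgebraicClosure ℚ),
      FiniteDimensional ℚ L ∧ ∀ σ : GQ, (∀ x ∈ L, σ x = x) →
        ∀ i j, r σ i j - (1 : Matrix (Fin 2) (Fin 2) A) i j ∈ maximalIdeal A ^ n := Iff.rfl

/-- **Burnside** (`H69Burnside`): the image of an absolutely irreducible two-dimensional residual
representation spans the matrix algebra. -/
theorem burnside {k : Type} [Field k] (ρ : ResidualGaloisRep k) (h : ρ.IsAbsolutelyIrreducible)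
    (b : Module.Basis (Fin 2) k ρ.V) :
    Submodule.span k (Set.range fun σ => LinearMap.toMatrix b b (ρ.ρ σ)) = ⊤ :=
  H69.burnside ρ h b

/-- **Normalised representations** (`H69Normal`). `x, z` are two elements of the plain group ring `O[G]`;
in the application `rhobar(x) = E₁₁` and `rhobar(z) = E₂₁` (they exist by Burnside's theorem). `H69.ev r` is
the extension of `r` to `O[G]`, here written `r` again. A representation `r` is normalised if `r(x)` is
diagonal and the lower left entry of `r(z)` is `1`. -/
theorem isNormalized_iff {O B G : Type*} [CommRing O] [CommRing B] [Algebra O B] [Group G]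
    (x z : MonoidAlgebra O G) (r : G →* Matrix (Fin 2) (Fin 2) B) :
    H69.IsNormalized x z r ↔ H69.ev r x 0 1 = 0 ∧ H69.ev r x 1 0 = 0 ∧ H69.ev r z 1 0 = 1 :=
  ⟨fun h => ⟨h.x01, h.x10, h.z10⟩, fun h => ⟨h.1, h.2.1, h.2.2⟩⟩

/-- **Existence of the normal form** (`H69Normal`). Over a Henselian local ring `A`, a representation `r`
with `r(x) ≡ E₁₁` and `r(z) ≡ E₂₁` modulo the maximal ideal is conjugate, by a matrix congruent to `1`,
to a normalised one. (Hensel's lemma for the characteristic polynomial of `r(x)`, then one scaling.) -/
theorem exists_normal_form {O A G : Type*} [CommRing O] [CommRing A] [Algebra O A] [Group G]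
    [HenselianLocalRing A] {x z : MonoidAlgebra O G} (r : G →* Matrix (Fin 2) (Fin 2) A)
    (hx : ∀ i j, H69.ev r x i j - (!![1, 0; 0, 0] : Matrix (Fin 2) (Fin 2) A) i j ∈ maximalIdeal A)
    (hz : ∀ i j, H69.ev r z i j - (!![0, 0; 1, 0] : Matrix (Fin 2) (Fin 2) A) i j ∈
      maximalIdeal A) :
    ∃ (u : Matrix (Fin 2) (Fin 2) A) (r' : G →* Matrix (Fin 2) (Fin 2) A),
      (∀ i j, u i j - (1 : Matrix (Fin 2) (Fin 2) A) i j ∈ maximalIdeal A) ∧
      H69.IsNormalized x z r' ∧ ∀ σ, u * r' σ = r σ * u :=
  H69.exists_normalized r hx hz

/-- **Uniqueness of the normal form** (`H69Normal`). Two conjugate normalised representations (with the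
right reduction at `x`) are equal. So deformations are the same thing as normalised matrix lifts. -/
theorem normal_form_unique {O A G : Type*} [CommRing O] [CommRing A] [Algebra O A] [Group G]
    [IsLocalRing A] {x z : MonoidAlgebra O G} (r r' : G →* Matrix (Fin 2) (Fin 2) A)
    (h : H69.IsNormalized x z r) (h' : H69.IsNormalized x z r')
    (hx00 : H69.ev r x 0 0 - 1 ∈ maximalIdeal A) (hx11 : H69.ev r x 1 1 ∈ maximalIdeal A)
    (hx00' : H69.ev r' x 0 0 - 1 ∈ maximalIdeal A) (hx11' : H69.ev r' x 1 1 ∈ maximalIdeal A)
    (u : Matrix (Fin 2) (Fin 2) A) (hu : IsUnit u) (huc : ∀ σ, u * r σ = r' σ * u) : r = r' :=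
  H69.normalized_unique r r' h h' hx00 hx11 hx00' hx11' u hu huc

/-! ## 3. The universal ring, S53 -/

/-- **The universal normalised representation of the abstract group** (`H53Univ`). `H53.UnivP x z` is the
commutative `O`-algebra generated by symbols `X_{g,i,j}` with the relations saying that
`g ↦ (X_{g,i,j})` is a homomorphism normalised with respect to `x, z`: it is huge, but its universal
property is trivial. The universal deformation ring will be a completion of it. -/
theorem universal_matrix_ring {O : Type} [CommRing O] {x z : MonoidAlgebra O GQ} {B : Type}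
    [CommRing B] [Algebra O B] (r : GQ →* Matrix (Fin 2) (Fin 2) B) (hr : H69.IsNormalized x z r) :
    ∃! φ : H53.UnivP x z →ₐ[O] B, H53.mapMat (φ : H53.UnivP x z →+* B) (H53.univRep x z) = r := by
  obtain ⟨φ, hφ⟩ := H53.exists_univ_lift r hr
  exact ⟨φ, hφ, fun ψ hψ => H53.univ_hom_ext (hψ.trans hφ.symm)⟩

/-- **The ideals of the deformations** (`H53Family`). `InFam π₀ D r₀ I`: the ideal `I` of `P` is contained in
the kernel of `π₀ : P → k`, contains a power of it, `P/I` is finite, and `r₀` modulo `I` is a continuous
deformation of type `D`. The axioms of a deformation condition give the two closure properties. -/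
theorem family_of_ideals {O : Type} [CommRing O] [IsLocalRing O] {P : Type} [CommRing P]
    [Algebra O P] {π₀ : P →ₐ[O] ResidueField O}
    {D : ∀ ⦃A : Type⦄ [CommRing A] [IsLocalRing A] [Algebra O A], GaloisRepAdic A → Prop}
    {r₀ : GQ →* Matrix (Fin 2) (Fin 2) P} (hD : IsDeformationCondition O D) {I : Ideal P}
    (hI : H53.InFam π₀ D r₀ I) :
    (∀ J, I ≤ J → J ≤ RingHom.ker π₀ → H53.InFam π₀ D r₀ J) ∧
      ∀ J, H53.InFam π₀ D r₀ J → H53.InFam π₀ D r₀ (I ⊓ J) :=
  ⟨fun _ h1 h2 => hI.of_le hD h1 h2, fun _ hJ => hI.inf hD hJ⟩

/-- **Chevalley's theorem**, the form needed (`H65ProRep`; power series: `H65PowerSeries`): in a complete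
local ring, a decreasing sequence of ideals `a n ≥ m^n` which is compatible (`a m ≤ a n + m^m` for
`m ≤ n`) satisfies `a m = (⨅ a n) + m^m`. -/
theorem chevalley {S : Type} [CommRing S] [IsLocalRing S] [IsAdicComplete (maximalIdeal S) S]
    (a : ℕ → Ideal S) (h1 : ∀ n, maximalIdeal S ^ n ≤ a n) (h2 : ∀ m n, m ≤ n → a n ≤ a m)
    (h3 : ∀ m n, m ≤ n → a m ≤ a n ⊔ maximalIdeal S ^ m) (m : ℕ) :
    a m = (⨅ n, a n) ⊔ maximalIdeal S ^ m :=
  H65.chevalley a h1 h2 h3 m

/-- **Pro-representability, without functors** (`H65ProRep`). Let `P` be any `O`-algebra with a maximal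
ideal `m` with residue field that of `O`, and `Adm` a family of ideals `I ≤ m` of finite index, each
containing a power of `m`; `m` is in the family, and the family is closed under enlarging below `m` and
under intersections of two ideals. If some ideal `K` of finite index is contained in all
`I + m² + m_O P`, `I` in the family, there is a complete noetherian local `O`-algebra `R` with residue
field that of `O` and a map `Φ : P → R` with dense image such that the kernels of `P → R / m_R^n` are
in the family and cofinal. It is applied to `P = UnivP x z` and to the ideals of `family_of_ideals`. -/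
theorem pro_representability (O : Type) [CommRing O] [IsLocalRing O] [IsNoetherianRing O]
    [Finite (ResidueField O)] [IsAdicComplete (maximalIdeal O) O]
    (P : Type) [CommRing P] [Algebra O P] (m : Ideal P) [m.IsMaximal]
    (hsurj : Function.Surjective ((Ideal.Quotient.mk m).comp (algebraMap O P)))
    (Adm : Ideal P → Prop) (hne : Adm m) (hle : ∀ I, Adm I → I ≤ m)
    (hnil : ∀ I, Adm I → ∃ n, m ^ n ≤ I) (hfin : ∀ I, Adm I → Finite (P ⧸ I))
    (hup : ∀ I J, Adm I → I ≤ J → J ≤ m → Adm J) (hinf : ∀ I J, Adm I → Adm J → Adm (I ⊓ J))
    (K : Ideal P) (hK : Finite (P ⧸ K))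
    (hKle : ∀ I, Adm I → K ≤ I ⊔ m ^ 2 ⊔ (maximalIdeal O).map (algebraMap O P)) :
    ∃ (R : Type) (_ : CommRing R) (_ : IsLocalRing R) (_ : IsNoetherianRing R)
      (_ : IsAdicComplete (maximalIdeal R) R) (_ : Algebra O R)
      (_ : IsLocalHom (algebraMap O R)),
      Function.Surjective (residue R ∘ algebraMap O R) ∧
      ∃ Φ : P →ₐ[O] R,
        (∀ (n : ℕ) (r : R), ∃ p : P, r - Φ p ∈ maximalIdeal R ^ n) ∧
        (∀ n, n ≠ 0 → Adm ((maximalIdeal R ^ n).comap Φ)) ∧
        ∀ (n : ℕ) (I : Ideal P), Adm I → m ^ n ≤ I → (maximalIdeal R ^ n).comap Φ ≤ I :=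
  H65.prorep O P m hsurj Adm hne hle hnil hfin hup hinf K hK hKle

/-- **Universal property of the completion** (`H65ProRep`). Let `Φ : P → R` have dense image as above, and
let `f : P → A` be an `O`-algebra homomorphism to another complete noetherian local `O`-algebra which
is continuous for the topology of `R` (last hypothesis). Then there is exactly one local
`O`-homomorphism `φ : R → A` with `φ Φ = f`. -/
theorem lift_to_completion
    {O : Type} [CommRing O] [IsLocalRing O] {P : Type} [CommRing P] [Algebra O P]
    {R : Type} [CommRing R] [IsLocalRing R] [IsNoetherianRing R]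
    [IsAdicComplete (maximalIdeal R) R] [Algebra O R] [IsLocalHom (algebraMap O R)]
    (Φ : P →ₐ[O] R) (hdense : ∀ (n : ℕ) (r : R), ∃ p : P, r - Φ p ∈ maximalIdeal R ^ n)
    {A : Type} [CommRing A] [IsLocalRing A] [IsNoetherianRing A]
    [IsAdicComplete (maximalIdeal A) A] [Algebra O A] [IsLocalHom (algebraMap O A)]
    (f : P →ₐ[O] A)
    (hf : ∀ n : ℕ, (maximalIdeal R ^ n).comap Φ ≤ (maximalIdeal A ^ n).comap f) :
    ∃! φ : R →ₐ[O] A, IsLocalHom (φ : R →+* A) ∧ φ.comp Φ = f :=
  H65.prorep_lift Φ hdense f hf

/-- **Dual numbers separate the points of the tangent level** (`H69Tangent`). `P` is an `O`-algebra with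
residue map `π`, `m = ker π`, and `m² + m_O P ≤ I ≤ m`. Every `x ∉ I` is mapped to a nonzero element by
some homomorphism to the dual numbers over the residue field which kills `I` and lifts `π`. Hence a
finite tangent space (`TangentFinite`) bounds `P / I` uniformly, the last hypothesis of
`pro_representability`. -/
theorem exists_dualNumber_hom {O P : Type*} [CommRing O] [IsLocalRing O] [CommRing P]
    [Algebra O P] (π : P →+* ResidueField O) (hπ : ∀ c, π (algebraMap O P c) = residue O c)
    (I : Ideal P) (hI1 : (RingHom.ker π) ^ 2 ≤ I)
    (hI2 : (maximalIdeal O).map (algebraMap O P) ≤ I)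
    (hI3 : I ≤ RingHom.ker π) (x : P) (hx : x ∉ I) :
    ∃ f : P →+* DualNumber (ResidueField O),
      (∀ c, f (algebraMap O P c) = TrivSqZeroExt.inl (residue O c)) ∧
      (∀ p, TrivSqZeroExt.fst (f p) = π p) ∧ I ≤ RingHom.ker f ∧ f x ≠ 0 :=
  H69.exists_dualNumber_hom π hπ I hI1 hI2 hI3 x hx

/-- **S53.** Let `O` be a complete discrete valuation ring with finite residue field `k`,
`rhobar : GQ → GL₂(k)` absolutely irreducible, `D` a deformation condition satisfied by `rhobar` and
with finite tangent space. Then there is a universal deformation ring: a complete noetherian local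
`O`-algebra `R` with residue field `k` and a deformation of type `D` over it from which every
deformation of type `D` is obtained by a unique base change. (`S53`, from `H53Main`, `H53Assembly`.) -/
theorem universal_deformation_ring (O : Type) [CommRing O] [IsDomain O]
    [IsDiscreteValuationRing O] [IsAdicComplete (maximalIdeal O) O] [Finite (ResidueField O)]
    (ρbar : ResidualGaloisRep (ResidueField O))
    (D : ∀ ⦃A : Type⦄ [CommRing A] [IsLocalRing A] [Algebra O A], GaloisRepAdic A → Prop)
    (habs : ρbar.IsAbsolutelyIrreducible) (hD : IsDeformationCondition O D)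
    (hbar : D (GaloisRepAdic.ofResidualGaloisRep ρbar)) (hfin : TangentFinite O ρbar D) :
    Nonempty (DeformationRingData O ρbar D) :=
  S53.result O ρbar D habs hD hbar hfin

/-! ## 4. Deformation conditions -/

/-- **The simple conditions** (`H53Cond4`): unramified at `q`; unipotent inertia at `q` (every element of
inertia has characteristic polynomial `(X - 1)²`; this is the condition at the primes of multiplicative
reduction); cyclotomic determinant. All conditions are obtained from one machine (`H53Cond1` to
`H53Cond3`): a condition given by the vanishing of a family of matrices attached functorially to a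
matrix representation is a deformation condition. -/
theorem simple_conditions (O : Type) [CommRing O] [IsLocalRing O] (q p : ℕ) (hp : p ≠ 0) :
    IsDeformationCondition O (fun _A _ _ _ ρ => ρ.IsUnramifiedAt q) ∧
      IsDeformationCondition O (fun _A _ _ _ ρ => ρ.IsUnipotentOnInertiaAt q) ∧
      IsDeformationCondition O (fun _A _ _ _ ρ => ρ.DetIsCyclotomic p) :=
  ⟨H53.isDeformationCondition_unramifiedAt O q, H53.isDeformationCondition_unipotentOnInertiaAt O q,
    H53.isDeformationCondition_detIsCyclotomic O p hp⟩

/-- **The strictly ordinary condition** at an odd prime `p` (with cyclotomic determinant, unramified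
outside `S`, unipotent inertia at the primes of `T`) is a deformation condition. "There is a stable
line such that ..." is not visibly closed under fibre products; for `p > 2` an element `τ` of inertia
with `ε(τ) ≢ 1` modulo `p` has distinct eigenvalues, so the line is the image of `ρ(τ) - 1` and the
condition becomes a list of polynomial identities (`H53Cond5`, `H53Cond6`, `H53Cond7`). -/
theorem condition_strictOrdinary (O : Type) [CommRing O] [IsLocalRing O] (p : ℕ) [Fact p.Prime]
    (hp2 : p ≠ 2) (S T : Finset ℕ) :
    IsDeformationCondition O (fun _A _ _ _ ρ => strictOrdinaryCondition O p S ρ ∧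
      ∀ q ∈ T, q.Prime → q ≠ p → ρ.IsUnipotentOnInertiaAt q) :=
  H53.isDeformationCondition_strictOrdinary O p hp2 S T

/-- The same for the ordinary condition (`H53CondOrd`), used at `p` in S59 when `p` divides the level (the
representations over the Hecke rings satisfy it: `datum_ordinary` in `GuideHeckeRings`). -/
theorem condition_ordinary (O : Type) [CommRing O] [IsLocalRing O] (p : ℕ) [Fact p.Prime]
    (hp2 : p ≠ 2) (S T : Finset ℕ) :
    IsDeformationCondition O (fun _A _ _ _ ρ => ordinaryCondition O p S ρ ∧
      ∀ q ∈ T, q.Prime → q ≠ p → ρ.IsUnipotentOnInertiaAt q) :=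
  H53.isDeformationCondition_ordinary O p hp2 S T

/-- **The flat condition** is a deformation condition: stability under sub-objects, quotients and
products, proved with flat orders in the algebras of functions on the finite Galois modules
(Ramakrishna's theorem; `H53Flat1`, `H53Flat2`). -/
theorem condition_flat (O : Type) [CommRing O] [IsLocalRing O] [Finite (ResidueField O)] (p : ℕ)
    [Fact p.Prime] (S T : Finset ℕ) :
    IsDeformationCondition O (fun _A _ _ _ ρ => flatCondition O p S ρ ∧
      ∀ q ∈ T, q.Prime → q ≠ p → ρ.IsUnipotentOnInertiaAt q) :=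
  H53.isDeformationCondition_flat O p S T

/-- **Finite tangent space** for every condition which implies "unramified outside the finite set `S`"
(`H53Tangent`): there are finitely many matrix representations over the (finite) ring of dual numbers
with this property, by Hermite's theorem on number fields of given degree unramified outside `S`
(`H63Hermite`). -/
theorem tangent_finite {O : Type} [CommRing O] [IsLocalRing O] [Finite (ResidueField O)]
    (ρbar : ResidualGaloisRep (ResidueField O))
    (D : ∀ ⦃A : Type⦄ [CommRing A] [IsLocalRing A] [Algebra O A], GaloisRepAdic A → Prop)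
    (S : Finset ℕ) (hS : ∀ q ∈ S, q.Prime)
    (h : ∀ ⦃A : Type⦄ [CommRing A] [IsLocalRing A] [Algebra O A] (ρ : GaloisRepAdic A),
      D ρ → ∀ q, q.Prime → q ∉ S → ρ.IsUnramifiedAt q) :
    TangentFinite O ρbar D :=
  H53.tangentFinite_of_unramified ρbar D S hS h

/-! ## 5. The map to the Hecke algebra, S54 -/

/-- **Frobenius elements exist** (`H54Frobenius`): for every prime `ℓ` there is a place `A` of the
algebraic numbers above `ℓ`, and every such place has a Frobenius element (which acts as `x ↦ x^ℓ` on
the residue field). -/
theorem exists_frobenius {ℓ : ℕ} (hℓ : ℓ.Prime) :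
    (∃ A : ValuationSubring (AlgebraicClosure ℚ), A.LiesOverPrime ℓ) ∧
      ∀ A : ValuationSubring (AlgebraicClosure ℚ), A.LiesOverPrime ℓ →
        ∃ σ : GQ, A.IsFrobeniusAt σ ℓ :=
  ⟨H54.exists_liesOverPrime hℓ, fun _ hA => H54.exists_isFrobeniusAt hℓ hA⟩

/-- **S54: the map `R → T` is surjective.** `R` is a universal deformation ring, `H` a Hecke-Galois datum:
a representation `H.ρ` over the finite flat `O`-algebra `T`, generated by the images of the Hecke
operators, whose Frobenius elements at the primes `ℓ ∉ S`, `ℓ ∤ N`, have characteristic polynomial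
`X² - T_ℓ X + ℓ` (`hS`: `S` contains the primes dividing `N`, so that `T` is generated by the `T_ℓ`,
`ℓ ∉ S`). If `H.ρ` has type `D` and reduces to `rhobar`, the homomorphism `R → T` given by the
universal property is onto, since its image contains the traces `T_ℓ`. (`S54`; the form used in S59
is `exists_surjection` in `GuideHeckeRings`.) -/
theorem map_to_hecke_algebra {O : Type} [CommRing O] [IsDomain O] [IsDiscreteValuationRing O]
    [IsAdicComplete (maximalIdeal O) O] {ρbar : ResidualGaloisRep (ResidueField O)}
    {D : ∀ ⦃A : Type⦄ [CommRing A] [IsLocalRing A] [Algebra O A], GaloisRepAdic A → Prop}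
    (U : DeformationRingData O ρbar D) {N : ℕ} [NeZero N] {S : Set ℕ}
    {θ : CuspForm.heckeAlgebra N 2 S →+* ResidueField O} {T : Type} [CommRing T] [IsLocalRing T]
    [IsNoetherianRing T] [IsAdicComplete (maximalIdeal T) T] [Algebra O T]
    [IsLocalHom (algebraMap O T)] [Module.Finite O T] [Module.Free O T]
    (H : CuspForm.HeckeGaloisRepDatum N S O θ T) (hS : ∀ q : ℕ, q.Prime → q ∣ N → q ∈ S)
    (hD : D H.ρ)
    (hres : H.ρ.residual.IsEquiv (ρbar.baseChangeAlong (ResidueField.map (algebraMap O T)))) :
    ∃ φ : U.R →ₐ[O] T, Function.Surjective φ ∧ ∃ hφ : IsLocalHom (φ : U.R →+* T),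
      (U.ρ.baseChangeAlong (φ : U.R →+* T) hφ).IsEquiv H.ρ :=
  S54.result U H hS hD hres

/-! ## 6. The last step of patching, S57 -/

/-- The maximal ideal of `O[[X_1, .., X_n]]`, `O` a discrete valuation ring, is generated by a regular
sequence (`H57Patching`; a uniformiser, then the variables, one at a time). -/
theorem regular_system_mv_power_series (O : Type) [CommRing O] [IsDomain O]
    [IsDiscreteValuationRing O] (n : ℕ) :
    ∃ xs : List (MvPowerSeries (Fin n) O),
      RingTheory.Sequence.IsRegular (MvPowerSeries (Fin n) O) xs ∧
        Ideal.ofList xs = maximalIdeal (MvPowerSeries (Fin n) O) :=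
  H57.hasRegSys_mvPowerSeries O n

/-- If the residue field of the local ring `A` has projective dimension `< n`, then so has every
`A`-module of finite length (`H57Patching`). -/
theorem projective_dimension_of_finite_length {A : Type} [CommRing A] [IsLocalRing A] (n : ℕ)
    (h : CategoryTheory.HasProjectiveDimensionLT (ModuleCat.of A (A ⧸ maximalIdeal A)) n)
    {L : Type} [AddCommGroup L] [Module A L] (hL : IsFiniteLength A L) :
    CategoryTheory.HasProjectiveDimensionLT (ModuleCat.of A L) n :=
  H57.hasProjectiveDimensionLT_of_isFiniteLength n h hL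

/-- **Freeness criterion** (`H57Patching`; the Auslander-Buchsbaum argument). Let `S → A` be a homomorphism
of noetherian local rings whose maximal ideals are generated by regular sequences `xs`, `ys` with
`length ys ≤ length xs`. A nonzero `A`-module `N` which is free of finite rank over `S` is free over
`A`. Proof: `xs` is a regular sequence on `N` and `N / xs N` has finite length over `A`, hence
projective dimension `≤ length ys`; but it is `length xs` plus the projective dimension of `N`. -/
theorem free_over_larger_ring {S A N : Type} [CommRing S] [IsLocalRing S] [IsNoetherianRing S]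
    [CommRing A] [IsLocalRing A] [IsNoetherianRing A] [Algebra S A] [AddCommGroup N]
    [Module S N] [Module A N] [IsScalarTower S A N] [Module.Free S N] [Module.Finite S N]
    [Nontrivial N] (xs : List S) (hxs : RingTheory.Sequence.IsRegular S xs)
    (hmS : Ideal.ofList xs = maximalIdeal S)
    (ys : List A) (hys : RingTheory.Sequence.IsRegular A ys) (hmA : Ideal.ofList ys = maximalIdeal A)
    (hlen : ys.length ≤ xs.length) : Module.Free A N :=
  H57.free_of_free_of_regSys xs hxs hmS ys hys hmA hlen

/-- **Descent** (`H57Patching`). Let `N` be a free `A`-module, `ψ : A → R` surjective, `I ≤ ker ψ` and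
`π : N → M` a surjection, semilinear over `ψ`, with kernel `I N`, and `M ≠ 0`. Then `M` is free over
`R`, `R` acts faithfully on `M` and the kernel of `ψ` is exactly `I`. -/
theorem descent {A R N M : Type} [CommRing A] [CommRing R] [AddCommGroup N] [AddCommGroup M]
    [Module A N] [Module R M] [Module.Free A N] [Nontrivial M] (ψ : A →+* R)
    (hψ : Function.Surjective ψ) (I : Ideal A) (hI : I ≤ RingHom.ker ψ) (π : N →+ M)
    (hπs : ∀ (f : A) (x : N), π (f • x) = ψ f • π x) (hπ : Function.Surjective π)
    (hker : ∀ x : N, π x = 0 ↔ x ∈ I • (⊤ : Submodule A N)) :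
    Module.Free R M ∧ Module.annihilator R M = ⊥ ∧ RingHom.ker ψ = I :=
  H57.descend ψ hψ I hI π hπs hπ hker

/-- **The meaning of a patching level** `L : PatchingLevel O r R M J` (Prelude, used in `S57`). There are
homomorphisms `φ, ψ` from `O[[X_1, .., X_r]]` to `O[[X_1, .., X_r]]` and `R` with `ψ` surjective and
`ψ (φ (X i)) = 0`; a module `N` over the power series ring which through `φ` is free over `O[[X]] / J`
with basis `b`; and a `ψ`-semilinear surjection `π : N → M` with kernel `(φ (X 1), .., φ (X r)) N`. -/
theorem patching_level_fields {𝒪 : Type} [CommRing 𝒪] {r : ℕ} {R : Type} [CommRing R]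
    [Algebra 𝒪 R] {M : Type} [AddCommGroup M] [Module R M] {J : Ideal (MvPowerSeries (Fin r) 𝒪)}
    (L : Algebra.PatchingLevel 𝒪 r R M J) :
    (Function.Surjective L.ψ ∧ ∀ i, L.ψ (L.φ (MvPowerSeries.X i)) = 0) ∧
    (∀ x : L.N, ∃ c : Fin L.d → MvPowerSeries (Fin r) 𝒪, x = ∑ i, L.φ (c i) • L.b i) ∧
    (∀ c : Fin L.d → MvPowerSeries (Fin r) 𝒪, ∑ i, L.φ (c i) • L.b i = 0 ↔ ∀ i, c i ∈ J) ∧
    (∀ (f : MvPowerSeries (Fin r) 𝒪) (x : L.N), L.π (f • x) = L.ψ f • L.π x) ∧
    Function.Surjective L.π ∧
    ∀ x : L.N, L.π x = 0 ↔ x ∈ (Ideal.span (Set.range fun i : Fin r => L.φ (MvPowerSeries.X i))) •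
      (⊤ : Submodule (MvPowerSeries (Fin r) 𝒪) L.N) :=
  ⟨⟨L.ψ_surjective, L.ψ_φ_X⟩, L.b_span, L.b_rel, L.π_smul, L.π_surjective, L.ker_π⟩

/-- **S57.** For a patching level with `J = 0` over a discrete valuation ring, the module `M ≠ 0` is
free over `R`, the action of `R` is faithful, and the kernel of `O[[X_1, .., X_r]] → R` is generated by
`φ (X 1), .., φ (X r)` (as many relations as variables). (`S57`; in the main line of the proof the
patching argument is used in Kisin's form, without a ground level, see `GuideLifting`.) -/
theorem patching_conclusion {𝒪 : Type} [CommRing 𝒪] [IsDomain 𝒪] [IsDiscreteValuationRing 𝒪]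
    {r : ℕ} {R : Type} [CommRing R] [Algebra 𝒪 R]
    {M : Type} [AddCommGroup M] [Module R M] [Nontrivial M]
    (L : Algebra.PatchingLevel 𝒪 r R M ⊥) :
    Module.Free R M ∧ Module.annihilator R M = ⊥ ∧
      RingHom.ker L.ψ = Ideal.span (Set.range fun i : Fin r => L.φ (MvPowerSeries.X i)) :=
  S57.result L

end Fermat.Agent.Guide.Deformations
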