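import Mathlib
import Fermat.Agent.H49HeckeBasic

/-!
The Deligne–Serre lifting lemma for weight 2 cusp forms on `Γ₀(N)`.
-/

set_option autoImplicit false

noncomputable section

open UpperHalfPlane ModularFormClass

namespace Fermat.Agent.H49

local notation "Γ₀(" N ")" => CongruenceSubgroup.Gamma0 N
local notation "Zbar" => integralClosure ℤ ℂ

variable {N : ℕ}

/-- Effect of the `p`-th Hecke operator (`T_p` or `U_p`) in weight 2 on coefficient sequences. -/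
def heckeCoeffTwo {R : Type*} [CommRing R] (N p : ℕ) (a : ℕ → R) (n : ℕ) : R :=
  a (n * p) + if p ∣ N then 0 else if p ∣ n then (p : R) * a (n / p) else 0

theorem Zbar_range (x : ℂ) (hx : IsIntegral Zbar x) : x ∈ (algebraMap Zbar ℂ).range := by
  have h : IsIntegral ℤ x := isIntegral_trans (R := ℤ) (A := Zbar) x hx
  exact ⟨⟨x, h⟩, rfl⟩

theorem Zbar_injective : Function.Injective (algebraMap Zbar ℂ) := Subtype.val_injective

/-- cusp forms all of whose `q`-coefficients lie in the ideal `𝔪` of `ℤ̄`. -/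
def idealForms (N : ℕ) (𝔪 : Ideal Zbar) : Submodule Zbar (CuspForm Γ₀(N) 2) where
  carrier := {f | ∀ n : ℕ, ∃ b ∈ 𝔪, (b : ℂ) = qCoeff ⇑f n}
  add_mem' {f g} hf hg n := by
    obtain ⟨a, ha, ha'⟩ := hf n
    obtain ⟨b, hb, hb'⟩ := hg n
    exact ⟨a + b, 𝔪.add_mem ha hb, by rw [qCoeff_add, ← ha', ← hb']; rfl⟩
  zero_mem' n := ⟨0, 𝔪.zero_mem, by rw [qCoeff_zero]; rfl⟩
  smul_mem' c {f} hf n := by
    obtain ⟨a, ha, ha'⟩ := hf n
    refine ⟨c * a, 𝔪.mul_mem_left c ha, ?_⟩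
    have : c • f = (c : ℂ) • f := rfl
    rw [this, qCoeff_smul, ← ha']
    rfl

theorem mem_idealForms {𝔪 : Ideal Zbar} {f : CuspForm Γ₀(N) 2} :
    f ∈ idealForms N 𝔪 ↔ ∀ n : ℕ, ∃ b ∈ 𝔪, (b : ℂ) = qCoeff ⇑f n := Iff.rfl

theorem qCoeff_T_two {p : ℕ} (hp : p.Prime) (hpN : ¬ p ∣ N) (f : CuspForm Γ₀(N) 2) (n : ℕ) :
    qCoeff ⇑(CuspForm.heckeTLin 2 hp hpN f) n =
      heckeCoeffTwo N p (fun n => qCoeff ⇑f n) n := by
  rw [qCoeff_heckeTLin, heckeCoeffTwo, if_neg hpN]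
  norm_num

theorem qCoeff_U_two [NeZero N] {p : ℕ} (hp : p.Prime) (hpN : p ∣ N) (f : CuspForm Γ₀(N) 2)
    (n : ℕ) :
    qCoeff ⇑(CuspForm.heckeULin 2 hpN f) n =
      heckeCoeffTwo N p (fun n => qCoeff ⇑f n) n := by
  rw [qCoeff_heckeULin hp.ne_zero, heckeCoeffTwo, if_pos hpN, add_zero]

theorem heckeCoeffTwo_mem {𝔪 : Ideal Zbar} {p : ℕ} {a : ℕ → ℂ}
    (h : ∀ n : ℕ, ∃ b ∈ 𝔪, (b : ℂ) = a n) (n : ℕ) :
    ∃ b ∈ 𝔪, (b : ℂ) = heckeCoeffTwo N p a n := by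
  obtain ⟨b, hb, hb'⟩ := h (n * p)
  obtain ⟨c, hc, hc'⟩ := h (n / p)
  rw [heckeCoeffTwo]
  split_ifs with h1 h2
  · exact ⟨b, hb, by rw [hb', add_zero]⟩
  · refine ⟨b + (p : Zbar) * c, 𝔪.add_mem hb (𝔪.mul_mem_left _ hc), ?_⟩
    rw [← hb', ← hc']
    simp
  · exact ⟨b, hb, by rw [hb', add_zero]⟩

theorem generators_stable [NeZero N] {𝔪 : Ideal Zbar} {t : Module.End ℂ (CuspForm Γ₀(N) 2)}
    (ht : t ∈ CuspForm.heckeGenerators N 2 ∅) {f : CuspForm Γ₀(N) 2} (hf : f ∈ idealForms N 𝔪) :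
    t f ∈ idealForms N 𝔪 := by
  rcases ht with ⟨ℓ, hℓ, hℓN, -, rfl⟩ | ⟨q, hqN, hq, -, rfl⟩
  · intro n
    rw [qCoeff_T_two]
    exact heckeCoeffTwo_mem hf n
  · intro n
    rw [qCoeff_U_two hq]
    exact heckeCoeffTwo_mem hf n

/-- **Deligne–Serre lifting lemma** in weight 2, level `Γ₀(N)`. `𝔪` is a prime ideal of `ℤ̄`, `f₀` a
form some coefficient of which is integral and not in `𝔪`. Then there is a normalised eigenform `g`
with coefficients `c p` such that, for each prime `p` for which `f₀` is an eigenform mod `𝔪` for the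
`p`-th Hecke operator with eigenvalue `m`, one has `c p ≡ m` modulo `𝔪`. -/
theorem exists_normalizedEigenform_congruent [NeZero N] (hint : CuspForm.HasIntegralStructure N 2)
    (𝔪 : Ideal Zbar) [h𝔪 : 𝔪.IsPrime] (f₀ : CuspForm Γ₀(N) 2)
    (hne : ∃ n : ℕ, ∃ b : Zbar, b ∉ 𝔪 ∧ (b : ℂ) = qCoeff ⇑f₀ n) :
    ∃ g : CuspForm Γ₀(N) 2, g.IsNormalizedEigenform ∧
      ∀ p : ℕ, p.Prime → ∃ c : Zbar, (c : ℂ) = qCoeff ⇑g p ∧
        ∀ m : Zbar, (∀ n : ℕ, ∃ b ∈ 𝔪, (b : ℂ) =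
          heckeCoeffTwo N p (fun n => qCoeff ⇑f₀ n) n - (m : ℂ) * qCoeff ⇑f₀ n) → c - m ∈ 𝔪 := by
  have hfd : FiniteDimensional ℂ (CuspForm Γ₀(N) 2) := finiteDimensional_cuspForm N 2
  obtain ⟨v, hv0, hv⟩ := deligne_serre (K := ℂ) (R := Zbar) (V := CuspForm Γ₀(N) 2)
    Zbar_range Zbar_injective (CuspForm.heckeGenerators N 2 ∅)
    (fun s hs t ht => CuspForm.commute_of_mem_heckeGenerators hs ht)
    (fun t ht => ((isIntegral_of_mem_heckeAlgebra one_le_two hint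
      (Algebra.subset_adjoin ht : t ∈ CuspForm.heckeAlgebra N 2 ∅)).tower_top))
    (idealForms N 𝔪) (fun t ht f hf => generators_stable ht hf) 𝔪 f₀
    (by
      intro c hc
      obtain ⟨n, b, hb, hb'⟩ := hne
      obtain ⟨a, ha, ha'⟩ := hc n
      have h1 : c • f₀ = (c : ℂ) • f₀ := rfl
      rw [h1, qCoeff_smul, ← hb'] at ha'
      have h2 : a = c * b := Subtype.ext ha'
      rw [h2] at ha
      exact (h𝔪.mem_or_mem ha).resolve_right hb)
  obtain ⟨c, hc⟩ := IsHeckeEigenvector.of_generators (f := v) (fun t ht => by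
    obtain ⟨r, hr, -⟩ := hv t ht
    exact ⟨(r : ℂ), hr⟩)
  obtain ⟨g, -, hgn, hgc, -⟩ := hc.exists_normalized hv0
  refine ⟨g, hgn, fun p hp => ?_⟩
  by_cases hpN : p ∣ N
  · have hmem := CuspForm.heckeULin_mem_heckeGenerators (k := 2) hp hpN (Set.notMem_empty p)
    obtain ⟨r, hr, hr'⟩ := hv _ hmem
    refine ⟨r, ?_, fun m hm => hr' m ?_⟩
    · rw [hgc p hp]
      have h1 := hc.U p hp hpN
      rw [hr] at h1
      have h2 : ((r : ℂ) - c p) • v = 0 := by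
        rw [sub_smul, ← h1]
        exact sub_self _
      rcases smul_eq_zero.mp h2 with h2 | h2
      · exact sub_eq_zero.mp h2
      · exact absurd h2 hv0
    · intro n
      obtain ⟨b, hb, hb'⟩ := hm n
      refine ⟨b, hb, ?_⟩
      have h1 : m • f₀ = (m : ℂ) • f₀ := rfl
      rw [qCoeff_sub, qCoeff_U_two hp, h1, qCoeff_smul]
      exact hb'
  · have hmem := CuspForm.heckeTLin_mem_heckeGenerators (k := 2) hp hpN (Set.notMem_empty p)
    obtain ⟨r, hr, hr'⟩ := hv _ hmem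
    refine ⟨r, ?_, fun m hm => hr' m ?_⟩
    · rw [hgc p hp]
      have h1 := hc.T p hp hpN
      rw [hr] at h1
      have h2 : ((r : ℂ) - c p) • v = 0 := by
        rw [sub_smul, ← h1]
        exact sub_self _
      rcases smul_eq_zero.mp h2 with h2 | h2
      · exact sub_eq_zero.mp h2
      · exact absurd h2 hv0
    · intro n
      obtain ⟨b, hb, hb'⟩ := hm n
      refine ⟨b, hb, ?_⟩
      have h1 : m • f₀ = (m : ℂ) • f₀ := rfl
      rw [qCoeff_sub, qCoeff_T_two, h1, qCoeff_smul]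
      exact hb'

end Fermat.Agent.H49
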