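import Fermat.Agent.H71S49Ideal
import Fermat.Prelude.Thm_ModularFormClass_qCoeff_heckeU
import Fermat.Prelude.Thm_ModularForm_sturm_bound_Gamma0

set_option autoImplicit false

namespace Fermat.Agent.H71

open ModularFormClass CuspForm

local notation "Γ₀(" N ")" => CongruenceSubgroup.Gamma0 N

/-- The space of cusp forms of level `Γ₀(N)` is finite dimensional (Sturm bound). -/
theorem finiteDimensional_cuspForm (N : ℕ) [NeZero N] (k : ℤ) :
    FiniteDimensional ℂ (CuspForm Γ₀(N) k) := by
  let B := (k * (Γ₀(N)).index).toNat / 12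
  let tr : CuspForm Γ₀(N) k →ₗ[ℂ] (Fin (B + 1) → ℂ) :=
    { toFun := fun f i => qCoeff ⇑f i
      map_add' := fun f g => by
        funext i
        exact qCoeff_add f g i
      map_smul' := fun c f => by
        funext i
        exact qCoeff_smul c f i }
  have htr : Function.Injective tr := by
    refine (injective_iff_map_eq_zero _).mpr fun f hf => ?_
    have hmf : (ModularFormClass.modularForm f : ModularForm Γ₀(N) k) = 0 := by
      refine ModularForm.sturm_bound_Gamma0 N _ fun n hn => ?_
      have := congrFun hf ⟨n, Nat.lt_succ_of_le hn⟩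
      simpa [tr, qCoeff] using this
    have hcoe : (⇑f : UpperHalfPlane → ℂ) = 0 := by
      have := congrArg (fun F : ModularForm Γ₀(N) k => (⇑F : UpperHalfPlane → ℂ)) hmf
      simpa using this
    exact DFunLike.coe_injective (hcoe.trans FunLike.coe_zero.symm)
  exact FiniteDimensional.of_injective tr htr

/-- `q`-expansion principle for cusp forms. -/
theorem eq_zero_of_forall_qCoeff_eq_zero {N : ℕ} [NeZero N] {k : ℤ} (f : CuspForm Γ₀(N) k)
    (hf : ∀ n, qCoeff f n = 0) : f = 0 := by
  have hmf : (ModularFormClass.modularForm f : ModularForm Γ₀(N) k) = 0 := by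
    refine ModularForm.sturm_bound_Gamma0 N _ fun n _ => ?_
    simpa [qCoeff] using hf n
  have hcoe : (⇑f : UpperHalfPlane → ℂ) = 0 := by
    have := congrArg (fun F : ModularForm Γ₀(N) k => (⇑F : UpperHalfPlane → ℂ)) hmf
    simpa using this
  exact DFunLike.coe_injective (hcoe.trans FunLike.coe_zero.symm)

theorem qCoeff_zero_eq_zero {N : ℕ} [NeZero N] {k : ℤ} (f : CuspForm Γ₀(N) k) :
    qCoeff f 0 = 0 := by
  unfold qCoeff
  exact CuspFormClass.qExpansion_coeff_zero f one_pos (hΓ N)

/-- The Hecke relation for the coefficients of an eigenform. -/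
theorem formal_mul_of_relation {e a : ℕ → ℂ} (h0 : a 0 = 0)
    (h : ∀ ℓ : ℕ, ℓ.Prime → ∀ n : ℕ,
      a (ℓ * n) + e ℓ * (if ℓ ∣ n then a (n / ℓ) else 0) = a ℓ * a n) (h1 : a 1 = 1) :
    ∀ m n : ℕ, m.Coprime n → a (m * n) = a m * a n := by
  intro m
  induction m using Nat.strong_induction_on with
  | _ m ih =>
    intro n hmn
    rcases Nat.eq_zero_or_pos m with rfl | hmpos
    · simp [h0]
    rcases eq_or_ne m 1 with rfl | hm1
    · simp [h1]
    obtain ⟨l, hl, m', rfl⟩ := Nat.exists_prime_and_dvd hm1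
    have hm'pos : 0 < m' := Nat.pos_of_mul_pos_left hmpos |> fun _ => by
      rcases Nat.eq_zero_or_pos m' with rfl | h
      · simp at hmpos
      · exact h
    have hlt : m' < l * m' := by
      have := hl.two_le
      nlinarith
    have hln : l.Coprime n := Nat.Coprime.coprime_mul_right hmn
    have hm'n : m'.Coprime n := Nat.Coprime.coprime_mul_left hmn
    have hl' : ¬ l ∣ n := by
      intro hd
      exact hl.one_lt.ne' (Nat.eq_one_of_dvd_coprimes hln dvd_rfl hd)
    have r1 := h l hl (m' * n)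
    have r2 := h l hl m'
    have hdvd : l ∣ m' * n ↔ l ∣ m' := by
      rw [hl.dvd_mul]
      tauto
    rw [ih m' hlt n hm'n] at r1
    by_cases hd : l ∣ m'
    · obtain ⟨m'', rfl⟩ := hd
      have hm''lt : m'' < l * (l * m'') := by
        have := hl.two_le
        have : 0 < m'' := by
          rcases Nat.eq_zero_or_pos m'' with rfl | h
          · simp at hmpos
          · exact h
        nlinarith
      have hm''n : m''.Coprime n := Nat.Coprime.coprime_mul_left hm'n
      rw [if_pos (hdvd.mpr (dvd_mul_right _ _)), mul_assoc l m'' n,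
        Nat.mul_div_cancel_left _ hl.pos, ih m'' hm''lt n hm''n] at r1
      rw [if_pos (dvd_mul_right _ _), Nat.mul_div_cancel_left _ hl.pos] at r2
      rw [show l * (l * m'') * n = l * (l * (m'' * n)) by ring]
      linear_combination r1 - a n * r2
    · rw [if_neg (fun h => hd (hdvd.mp h))] at r1
      rw [if_neg hd] at r2
      rw [mul_assoc]
      linear_combination r1 - a n * r2

/-- A nonzero simultaneous eigenvector of all the Hecke operators is, after normalisation, a
normalised eigenform. -/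
theorem exists_isNormalizedEigenform {N : ℕ} [NeZero N] (χ : heckeAlgebra N 2 ∅ → ℂ)
    (v : CuspForm Γ₀(N) 2) (hv : v ≠ 0)
    (heig : ∀ t : heckeAlgebra N 2 ∅, (t : Module.End ℂ (CuspForm Γ₀(N) 2)) v = χ t • v) :
    ∃ f : CuspForm Γ₀(N) 2, f.IsNormalizedEigenform ∧
      (∀ t : heckeAlgebra N 2 ∅, (t : Module.End ℂ (CuspForm Γ₀(N) 2)) f = χ t • f) ∧
      (∀ (l : ℕ) (hl : l.Prime) (hlN : ¬ l ∣ N),
        qCoeff f l = χ (heckeAlgebra.T hl hlN (Set.notMem_empty l))) ∧
      (∀ (q : ℕ) (hq : q.Prime) (hqN : q ∣ N),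
        qCoeff f q = χ (heckeAlgebra.U hq hqN (Set.notMem_empty q))) := by
  classical
  have hT : ∀ (w : CuspForm Γ₀(N) 2),
      (∀ t : heckeAlgebra N 2 ∅, (t : Module.End ℂ (CuspForm Γ₀(N) 2)) w = χ t • w) →
      ∀ (l : ℕ) (hl : l.Prime) (hlN : ¬ l ∣ N) (n : ℕ),
      qCoeff w (n * l) + (if l ∣ n then (l : ℂ) * qCoeff w (n / l) else 0) =
        χ (heckeAlgebra.T hl hlN (Set.notMem_empty l)) * qCoeff w n := by
    intro w hw l hl hlN n
    have h1 := congrArg (fun g : CuspForm Γ₀(N) 2 => qCoeff g n)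
      (hw (heckeAlgebra.T hl hlN (Set.notMem_empty l)))
    simp only [heckeAlgebra.coe_T, coe_heckeTLin_apply, qCoeff_smul] at h1
    rw [ModularFormClass.qCoeff_heckeT w (hΓ N) hl.ne_zero, ModularForm.coeffHeckeT_apply] at h1
    rw [← h1]
    norm_num
  have hU : ∀ (w : CuspForm Γ₀(N) 2),
      (∀ t : heckeAlgebra N 2 ∅, (t : Module.End ℂ (CuspForm Γ₀(N) 2)) w = χ t • w) →
      ∀ (l : ℕ) (hl : l.Prime) (hlN : l ∣ N) (n : ℕ),
      qCoeff w (n * l) = χ (heckeAlgebra.U hl hlN (Set.notMem_empty l)) * qCoeff w n := by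
    intro w hw l hl hlN n
    have h1 := congrArg (fun g : CuspForm Γ₀(N) 2 => qCoeff g n)
      (hw (heckeAlgebra.U hl hlN (Set.notMem_empty l)))
    simp only [heckeAlgebra.coe_U, coe_heckeULin_apply, qCoeff_smul] at h1
    rw [ModularFormClass.qCoeff_heckeU w (hΓ N) hl.ne_zero, ModularForm.coeffHeckeU_apply] at h1
    exact h1
  have ha1 : qCoeff v 1 ≠ 0 := by
    intro h1
    apply hv
    apply eq_zero_of_forall_qCoeff_eq_zero
    intro n
    induction n using Nat.strong_induction_on with
    | _ n ih =>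
      rcases Nat.eq_zero_or_pos n with rfl | hn
      · exact qCoeff_zero_eq_zero v
      rcases eq_or_ne n 1 with rfl | hn1
      · exact h1
      obtain ⟨l, hl, m, rfl⟩ := Nat.exists_prime_and_dvd hn1
      have hmpos : 0 < m := by
        rcases Nat.eq_zero_or_pos m with rfl | h
        · simp at hn
        · exact h
      have hlt : m < l * m := by
        have := hl.two_le
        nlinarith
      by_cases hlN : l ∣ N
      · have := hU v heig l hl hlN m
        rw [ih m hlt, mul_zero, mul_comm] at this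
        exact this
      · have := hT v heig l hl hlN m
        rw [ih m hlt, mul_zero, mul_comm] at this
        by_cases hd : l ∣ m
        · rw [if_pos hd, ih (m / l) (lt_of_le_of_lt (Nat.div_le_self _ _) hlt), mul_zero,
            add_zero] at this
          exact this
        · rw [if_neg hd, add_zero] at this
          exact this
  let f : CuspForm Γ₀(N) 2 := (qCoeff v 1)⁻¹ • v
  have hf : ∀ t : heckeAlgebra N 2 ∅, (t : Module.End ℂ (CuspForm Γ₀(N) 2)) f = χ t • f := by
    intro t
    show (t : Module.End ℂ (CuspForm Γ₀(N) 2)) ((qCoeff v 1)⁻¹ • v) = _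
    rw [map_smul, heig, smul_comm]
  have hf1 : qCoeff f 1 = 1 := by
    show qCoeff ⇑((qCoeff v 1)⁻¹ • v) 1 = 1
    rw [qCoeff_smul, inv_mul_cancel₀ ha1]
  have hf0 : qCoeff f 0 = 0 := qCoeff_zero_eq_zero f
  have hTl : ∀ (l : ℕ) (hl : l.Prime) (hlN : ¬ l ∣ N),
      qCoeff f l = χ (heckeAlgebra.T hl hlN (Set.notMem_empty l)) := by
    intro l hl hlN
    have := hT f hf l hl hlN 1
    rw [if_neg (fun h => hl.one_lt.ne' (Nat.dvd_one.mp h)), add_zero, one_mul, hf1, mul_one] at this
    exact this
  have hUl : ∀ (l : ℕ) (hl : l.Prime) (hlN : l ∣ N),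
      qCoeff f l = χ (heckeAlgebra.U hl hlN (Set.notMem_empty l)) := by
    intro l hl hlN
    have := hU f hf l hl hlN 1
    rw [one_mul, hf1, mul_one] at this
    exact this
  have hrel : ∀ l : ℕ, l.Prime → ∀ n : ℕ,
      qCoeff f (l * n) + (if l ∣ N then 0 else (l : ℂ)) * (if l ∣ n then qCoeff f (n / l) else 0) =
        qCoeff f l * qCoeff f n := by
    intro l hl n
    by_cases hlN : l ∣ N
    · rw [if_pos hlN, zero_mul, add_zero, hUl l hl hlN, mul_comm l n]
      exact hU f hf l hl hlN n
    · rw [if_neg hlN, hTl l hl hlN, mul_comm l n, ← hT f hf l hl hlN n, mul_ite, mul_zero]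
  refine ⟨f, ⟨hf1, ?_, ?_, ?_⟩, hf, hTl, hUl⟩
  · exact formal_mul_of_relation (e := fun l => if l ∣ N then 0 else (l : ℂ))
      (a := fun n => qCoeff f n) hf0 hrel hf1
  · intro p r hp hpN
    have := hrel p hp (p ^ (r + 1))
    rw [if_neg hpN, if_pos (dvd_pow_self p (Nat.succ_ne_zero r)), ← pow_succ',
      pow_succ p r, Nat.mul_div_cancel _ hp.pos] at this
    rw [← pow_succ p r] at this
    linear_combination this
  · intro p r hp hpN
    have := hrel p hp (p ^ (r + 1))
    rw [if_pos hpN, zero_mul, add_zero, ← pow_succ'] at this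
    exact this

end Fermat.Agent.H71
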