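import Mathlib

set_option autoImplicit false

namespace Fermat.Agent.H71

open scoped IsMulCommutative in
/-- Deligne--Serre style lifting: a proper ideal of a commutative ring `T`, finite over `ℤ`, acting
faithfully on a finite dimensional complex vector space, is contained in the pull back of a maximal
ideal of the ring of algebraic integers under an eigencharacter of `T` occurring in `V`. -/
theorem exists_eigenvector_lift {V : Type*} [AddCommGroup V] [Module ℂ V] [FiniteDimensional ℂ V]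
    {T : Type*} [CommRing T] [Module.Finite ℤ T] (φ : T →+* Module.End ℂ V)
    (hφ : Function.Injective φ) (I : Ideal T) (hI : I ≠ ⊤) :
    ∃ (χ : T →+* integralClosure ℤ ℂ) (v : V) (𝔪 : Ideal (integralClosure ℤ ℂ)),
      v ≠ 0 ∧ 𝔪.IsMaximal ∧ (∀ t : T, φ t v = (χ t : ℂ) • v) ∧ ∀ t ∈ I, χ t ∈ 𝔪 := by
  classical
  obtain ⟨P, hP, hIP⟩ := Ideal.exists_le_maximal I hI
  have := hP.isPrime
  obtain ⟨q, hq, hqP⟩ := Ideal.exists_minimalPrimes_le (I := (⊥ : Ideal T)) (J := P) bot_le
  let A : Subalgebra ℂ (Module.End ℂ V) := Algebra.adjoin ℂ (Set.range φ)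
  have hcomm : IsMulCommutative A := Algebra.isMulCommutative_adjoin ℂ (by
    rintro _ ⟨s, rfl⟩ _ ⟨t, rfl⟩
    show φ s * φ t = φ t * φ s
    rw [← map_mul, ← map_mul, mul_comm])
  let ψ : T →+* A := φ.codRestrict A (fun t => Algebra.subset_adjoin ⟨t, rfl⟩)
  have hψ : Function.Injective ψ := fun s t h => hφ (congrArg Subtype.val h)
  obtain ⟨Q, hQ, hQq⟩ := Ideal.exists_comap_eq_of_mem_minimalPrimes_of_injective hψ q hq
  have : FiniteDimensional ℂ A := inferInstance
  have : IsArtinianRing A := isArtinian_of_tower ℂ inferInstance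
  have hQm : Q.IsMaximal := IsArtinianRing.isMaximal_of_isPrime Q
  have hbij : Function.Bijective (algebraMap ℂ (A ⧸ Q)) :=
    IsAlgClosed.algebraMap_bijective_of_isIntegral
  -- the complex eigencharacter
  let e : ℂ ≃ₐ[ℂ] (A ⧸ Q) := AlgEquiv.ofBijective (Algebra.ofId ℂ (A ⧸ Q)) hbij
  let lam : A →ₐ[ℂ] ℂ := e.symm.toAlgHom.comp (Ideal.Quotient.mkₐ ℂ Q)
  have hlam : ∀ a : A, lam a = 0 ↔ a ∈ Q := by
    intro a
    show e.symm (Ideal.Quotient.mk Q a) = 0 ↔ _
    rw [map_eq_zero_iff _ e.symm.injective, Ideal.Quotient.eq_zero_iff_mem]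
  -- an eigenvector
  have hann : Module.annihilator A V = ⊥ := by
    rw [eq_bot_iff]
    intro a ha
    rw [Module.mem_annihilator] at ha
    exact Subtype.ext (LinearMap.ext fun v => ha v)
  have : Module.Finite A V := Module.Finite.of_restrictScalars_finite ℂ A V
  have hQmin : Q ∈ (Module.annihilator A V).minimalPrimes := by
    rw [hann]
    refine ⟨⟨hQ, bot_le⟩, fun J hJ hJQ => ?_⟩
    have hJ' := hJ.1
    have hJm : J.IsMaximal := IsArtinianRing.isMaximal_of_isPrime J
    exact (hJm.eq_of_le hQ.ne_top hJQ).ge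
  have hQass := Module.associatedPrimes.minimalPrimes_annihilator_subset_associatedPrimes A V hQmin
  obtain ⟨-, v, hv⟩ := isAssociatedPrime_iff.mp hQass
  have hv0 : v ≠ 0 := by
    rintro rfl
    apply hQ.ne_top
    rw [hv]
    rw [Ideal.eq_top_iff_one, Submodule.mem_colon_singleton]
    simp
  have heig : ∀ t : T, φ t v = lam (ψ t) • v := by
    intro t
    have h1 : ψ t - algebraMap ℂ A (lam (ψ t)) ∈ Q := by
      rw [← hlam, map_sub, AlgHom.commutes]
      simp
    rw [hv, Submodule.mem_colon_singleton] at h1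
    have h2 : (ψ t - algebraMap ℂ A (lam (ψ t))) • v = 0 := by simpa using h1
    rw [sub_smul, sub_eq_zero, algebraMap_smul] at h2
    exact h2
  have hint : ∀ t : T, (lam : A →+* ℂ).comp ψ t ∈ integralClosure ℤ ℂ := by
    intro t
    have h1 : IsIntegral ℤ t := Algebra.IsIntegral.isIntegral t
    exact h1.map ((lam : A →+* ℂ).comp ψ).toIntAlgHom
  let χ : T →+* integralClosure ℤ ℂ := ((lam : A →+* ℂ).comp ψ).codRestrict (integralClosure ℤ ℂ) hint
  have hχ : RingHom.ker χ ≤ P := by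
    intro t ht
    apply hqP
    rw [← hQq, Ideal.mem_comap, ← hlam]
    exact congrArg Subtype.val ((RingHom.mem_ker).mp ht)
  let _ : Algebra T (integralClosure ℤ ℂ) := χ.toAlgebra
  have : Algebra.IsIntegral T (integralClosure ℤ ℂ) :=
    ⟨fun x => (Algebra.IsIntegral.isIntegral (R := ℤ) x).tower_top⟩
  obtain ⟨𝔪, h𝔪, h𝔪P⟩ := Ideal.exists_ideal_over_maximal_of_isIntegral
    (S := integralClosure ℤ ℂ) P hχ
  refine ⟨χ, v, 𝔪, hv0, h𝔪, heig, fun t ht => ?_⟩
  have h1 : t ∈ P := hIP ht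
  rw [← h𝔪P] at h1
  exact h1

end Fermat.Agent.H71
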