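import Fermat.Statements.S49
import Fermat.Agent.H71Lift
import Fermat.Agent.H71S49Ideal
import Fermat.Agent.H71Eigenform

set_option autoImplicit false
open CuspForm EisensteinWeightOne CongruenceSubgroup ModularFormClass
open FLT FLT.AbstractIntegralStructure

namespace Fermat.Agent.S49

theorem result
    {N : ℕ} [NeZero N] (h : CuspForm.HasIntegralBasis N) {a : ℕ → ℤ}
    (heig : FormalHecke.IsEigensystem
      (fun ℓ => if ℓ ∣ N then 0 else ((chiNegThree ℓ : ℤ) : ℤ)) a)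
    (hreal : CuspForm.IsLatticeRealized N a) :
    ∃ (f : CuspForm (Gamma0 N) 2) (_ : f.IsNormalizedEigenform)
      (𝔪' : Ideal (integralClosure ℤ ℂ)), 𝔪'.IsMaximal ∧
      ((3 : ℕ) : integralClosure ℤ ℂ) ∈ 𝔪' ∧
      ∀ (ℓ : ℕ) (_ : ℓ.Prime) (_ : ¬ ℓ ∣ N),
        ∃ c : integralClosure ℤ ℂ, (c : ℂ) = ModularFormClass.qCoeff f ℓ ∧
          c - (a ℓ : integralClosure ℤ ℂ) ∈ 𝔪' := by
  obtain ⟨f₀, hf₀, af, haf, hdvd⟩ := hreal
  have hf₀' : f₀ ∈ CuspForm.intLattice N 2 :=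
    (Fermat.Agent.H71.mem_intLattice_iff f₀).mpr ((Fermat.Agent.H71.mem_qIntegralSet_iff f₀).mp hf₀)
  have hint : CuspForm.HasIntegralStructure N 2 := by
    rw [CuspForm.HasIntegralStructure, eq_top_iff, ← h]
    exact Submodule.span_mono fun g hg =>
      (Fermat.Agent.H71.mem_intLattice_iff g).mpr ((Fermat.Agent.H71.mem_qIntegralSet_iff g).mp hg)
  have hcong : ∀ n, (3 : ℤ) ∣ af n - a n := fun n => by
    have h1 := dvd_add (hdvd n) (Fermat.Agent.H71.three_dvd_coeff_bridgeProduct_sub a n)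
    rwa [sub_add_sub_cancel] at h1
  have := CuspForm.intLattice.moduleFinite N
  have := CuspForm.intLattice.moduleFree N
  have hfin : Module.Finite ℤ (CuspForm.heckeAlgebra N 2 ∅) :=
    Module.Finite.of_injective (CuspForm.latticeActionHom N ∅).toIntAlgHom.toLinearMap
      (CuspForm.latticeActionHom_injective N ∅ hint)
  have := Fermat.Agent.H71.finiteDimensional_cuspForm N 2
  obtain ⟨χ, v, 𝔪, hv, h𝔪, heigv, hI⟩ := Fermat.Agent.H71.exists_eigenvector_lift
    ((CuspForm.heckeAlgebra N 2 ∅).val : CuspForm.heckeAlgebra N 2 ∅ →+*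
      Module.End ℂ (CuspForm (Gamma0 N) 2)) Subtype.val_injective
    (Fermat.Agent.H71.congIdeal N f₀ 3)
    (Fermat.Agent.H71.congIdeal_ne_top heig.1 haf hcong)
  obtain ⟨f, hf, -, hTl, -⟩ := Fermat.Agent.H71.exists_isNormalizedEigenform
    (fun t => (χ t : ℂ)) v hv heigv
  refine ⟨f, hf, 𝔪, h𝔪, ?_, fun l hl hlN =>
    ⟨χ (CuspForm.heckeAlgebra.T hl hlN (Set.notMem_empty l)), (hTl l hl hlN).symm, ?_⟩⟩
  · have := hI _ (Fermat.Agent.H71.intCast_mem_congIdeal hf₀' 3)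
    rw [map_intCast] at this
    exact_mod_cast this
  · have := hI _ (Fermat.Agent.H71.T_sub_mem_congIdeal heig haf hcong hl hlN)
    simpa using this

end Fermat.Agent.S49
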