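import Fermat.Agent.S48
import Fermat.Agent.S49
import Fermat.Agent.H49Lifting

/-!
# Reader's guide: cusp forms of weight one and their Galois representations (S48, S49)

Nothing is proved in this file. Every theorem is the exact statement of a theorem of the library,
with all hypotheses written out, followed by a citation. No file imports this one.

## What the block does

* **S48** (theorem of Deligne and Serre): a normalised cusp form `f` of weight one on `Γ₁(N)` whose
  coefficients satisfy the Hecke relations with character `ε` outside `N` has a representation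
  `ρ : Gal(ℚ̄/ℚ) → GL₂(ℂ)` with finite image, irreducible, unramified outside `N`, with
  `tr ρ(Frob_p) = a_p` and `det ρ(Frob_p) = ε(p)` for all primes `p ∤ N`.
* **S49** (lemma of Deligne and Serre, in the case used for `ρ̄_{E,3}`): an integral sequence which
  is a formal eigensystem with character `χ₋₃` and which, multiplied by the Eisenstein series of
  weight one and level three, is congruent modulo `3` to an integral form of weight two on `Γ₀(N)`,
  is congruent modulo a prime above `3` to a genuine normalised eigenform of weight two.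

## Plan of the proof of S48 (reading order of this file)

1. *Weight one, archimedean side* (theorems `nebentypus` to `exists_conjugate`): the Hecke relations
   determine the nebentypus; mean square bound for `|a_n|²`, hence the Rankin type bound for
   `∑ |a_p|² p^{-s}`; the `a_p` are algebraic integers in a number field, and the conjugate of an
   eigenform is an eigenform, so that the bound holds for all conjugates at the same time.
2. *From weight one to weight two modulo `ℓ`* (`hecke_operators` to `exists_character`): on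
   `Γ₁(ℓ)` there is an Eisenstein series of weight one congruent to `1` modulo all primes above
   `ℓ`. The product with `f` has weight two, and its system of eigenvalues modulo `ℓ` is a
   character of the Hecke algebra of `S₂(Γ₁(Nℓ))`.
3. *From weight two to Galois* (`heckeSys_notions` to `residual_of_weightOne`): the character is
   realised in the homomorphisms `Γ₁(M) → 𝔽̄_ℓ` which kill the parabolic and the elliptic
   elements; the Galois group acts on the homomorphisms with values in the roots of unity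
   (`galoisAction`; this is the subject of `Fermat.Agent.GuideGaloisAction`), with the
   Eichler-Shimura relation; Frobenius density and a lemma on quadratic relations give a
   two-dimensional representation `ρ_ℓ` over `𝔽̄_ℓ` for almost all `ℓ`.
4. *Bounding the images* (`twisted_zeta_bounded` to `card_bound`): Chebotarev's density theorem for
   functions invariant under conjugation and inversion; outside a set of primes of small density
   the `a_p` lie in a finite set; a subgroup of `GL₂(𝔽̄_ℓ)` with few characteristic polynomials is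
   small.
5. *Gluing* (`glue` to `s48`): infinitely many `ρ_ℓ` with images of bounded order come from
   one representation over `ℂ`; it is irreducible because of the Rankin type bound.

The last section (`exists_eigenvector_lift` to `exists_eigenform_congruent`) is the proof of S49
and the general lifting lemma for normalised eigenforms of weight two, which is used in the
closure of S01.

## References

NOTES.md, section A.9: [173] overview of S48 and the files `H48*` (helper48), [185] Chebotarev and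
the theorem of Deligne and Serre, files `H85*` (helper85), [161] arithmetic of forms on `Γ₁(N)`,
files `H50*` (helper50), [278] Eisenstein series of weight one, files `H58*` (helper58), [145], [238],
[279] the Galois action, [73] S49 (helper71), [167] lifting lemma for eigenforms (helper49).
Closure of `Fermat.Agent.S48`: 281 files of `Fermat/Agent`, of which 194 occur in the proof term; of
`Fermat.Agent.S49`: 4 files. Each of these 198 files is named in this file or in
`Fermat.Agent.GuideGaloisAction`.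
S48 is used in the proof of S47 (file `H48ZEnd`). It is not in the closure of S01; the theorems
`frobenius_density`, `exists_eigenvector_lift` and `exists_eigenform_congruent` are.
More details, section by section: (1) `GuideWeightOne` (`eigenvalues_integral`, `exists_conjugate`),
`GuideIntegralForms` (the same for `Γ₀(N)`, in all steps); (2) `GuideWeightOne` (`exists_character`),
`GuideEisensteinOne` (`eisenstein_congruent_one`); (3) `GuideGaloisAction` (`galoisAction`) with its
companions `GuideTwistedForms`, `GuideDivisionValues`, `GuideSeparation` and `GuideSpecialFibre`,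
`GuideLatticeReps` (`exists_twoDim`), `GuideDensity` (`frobenius_density`); (4) `GuideDensity` and
`GuideChebotarev` (`twisted_zeta_bounded`, `chebotarev`), `GuideDeligneSerreSteps` (all other theorems);
(5) `GuideDeligneSerreSteps`; (6) `GuideFormalEigensystems`, `GuideEigenLifting`.

## Notation

`Qb` is the algebraic closure of `ℚ` used by Mathlib, `Gq` its Galois group over `ℚ`, `Zb` the ring
of all algebraic integers in `ℂ`. `qCoeff f n` is the coefficient of `q ^ n` in the expansion of `f`
with respect to `q = exp (2 π i τ)`.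
-/

set_option autoImplicit false

open CongruenceSubgroup ModularFormClass
open scoped MatrixGroups ModularForm

namespace Fermat.Agent.Guide.DeligneSerre

local notation "Qb" => AlgebraicClosure ℚ
local notation "Gq" => (AlgebraicClosure ℚ ≃ₐ[ℚ] AlgebraicClosure ℚ)
local notation "Zb" => integralClosure ℤ ℂ

/-! ## 0. Conventions -/

/-- The local notions of the frozen statements. A place of `ℚ̄` above `p` is a valuation subring `A`
of `ℚ̄` in which `p` is a non-unit; the inertia group consists of the elements of the decomposition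
group which act trivially on the residue field; `σ` is a Frobenius element at `A` if it lies in the
decomposition group and acts by `x ↦ x ^ p` on the residue field.
(Definitions of `Fermat/Prelude/Def_FLTPrelim_Ramification.lean` and
`Def_EllipticCurve_FrobeniusTrace.lean`.) -/
theorem local_notions (A : ValuationSubring Qb) (p : ℕ) (σ : Gq) :
    (A.LiesOverPrime p ↔ (p : Qb) ∈ A.nonunits) ∧
    (σ ∈ A.inertiaSubgroupIn ℚ ↔ ∃ h : σ ∈ A.decompositionSubgroup ℚ,
      (⟨σ, h⟩ : A.decompositionSubgroup ℚ) ∈ A.inertiaSubgroup ℚ) ∧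
    (A.IsFrobeniusAt σ p ↔ ∃ h : σ ∈ A.decompositionSubgroup ℚ,
      ∀ x : IsLocalRing.ResidueField A, (⟨σ, h⟩ : A.decompositionSubgroup ℚ) • x = x ^ p) :=
  ⟨Iff.rfl, by simp [ValuationSubring.inertiaSubgroupIn], Iff.rfl⟩

/-! ## 1. Weight one: the archimedean side

Further files of this section: `H78Coset`, `H78Lagrange` (Lagrange interpolation over level one),
`H78EisN`, `H50EisQ`, `H50Gamma1Eis` (forms with a prescribed stabiliser), `H79Analytic`,
`H79GalStab` (integral quotients of forms are forms), `H23LevelOne`, `H23Descent`, `H23Denom`,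
`H23Final` (forms with integral coefficients, denominators). -/

/-- **Hecke relations determine the nebentypus.** If `f ∈ S_k(Γ₁(N))` satisfies the relations
`a_{pn} + p^{k-1} ε(p) a_{n/p} = a(p) a_n` for all primes `p ∤ N`, then `f ∣[k] γ = ε(d) f` for all
`γ ∈ Γ₀(N)` with lower right entry `d`. Proof: `g = ⟨p⟩ f - ε(p) f` is such that `g(pτ)` is again a
form on `Γ₁(N)` (namely `p^{1-k} (T_p f - a(p) f)`); the space of all such `g` is finite-dimensional
and stable under `g ↦ g(pτ)`, which is therefore bijective on it, so that the coefficients of `g`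
are supported on the multiples of all powers of `p`, and `g = 0`. Dirichlet's theorem on primes in
progressions gives all classes `d`. File `H48Neb`. Used for S48, which has no hypothesis on the
nebentypus. -/
theorem nebentypus {N : ℕ} [NeZero N] {k : ℤ} (ε : DirichletCharacter ℂ N)
    (f : CuspForm (Gamma1 N) k) (a : ℕ → ℂ)
    (hT : ∀ p : ℕ, p.Prime → ¬ p ∣ N → ∀ n : ℕ, qCoeff f (p * n) +
      (p : ℂ) ^ (k - 1) * (ε (p : ZMod N) * (if p ∣ n then qCoeff f (n / p) else 0)) =
        a p * qCoeff f n) (γ : SL(2, ℤ)) (hγ : γ ∈ Gamma0 N) :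
    ⇑f ∣[k] γ = ε ((γ 1 1 : ℤ) : ZMod N) • ⇑f :=
  H48.nebentypus ε f a hT γ hγ

/-- **Mean square bound.** For a cusp form of weight one on `Γ₁(N)`, `∑_{n ≤ X} |a_n|² = O(X)`.
Proof: `|f(τ)| ≤ C (im τ)^{-1/2}` and Bessel's inequality on the line `im τ = 1 / X`.
File `H48Anal`. -/
theorem mean_square {N : ℕ} [NeZero N] (f : CuspForm (Gamma1 N) 1) :
    ∃ C : ℝ, 0 ≤ C ∧ ∀ X : ℕ, ∑ n ∈ Finset.range (X + 1), ‖qCoeff f n‖ ^ 2 ≤ C * X :=
  H48.exists_sum_sq_qCoeff_le f

/-- **Rankin type bound.** For a normalised form of weight one with multiplicative coefficients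
(outside `N`), `∑_{p ∈ P} min(|a_p|², c) p^{-s} ≤ log (1 / (s - 1)) + C` for `1 < s ≤ 2`, uniformly
in the finite set `P` of primes `p ∤ N`. Proof: the mean square bound gives
`∑ |a_n|² n^{-s} = O(1 / (s - 1))`; expand `∏_{p ∈ P} (1 + |a_p|² p^{-s})` over squarefree `n` and
take logarithms; the truncation by `c` controls `log (1 + x) - x`. File `H48Rankin`. Used twice in
S48: for the finite set of eigenvalues (`exists_finite_set`) and for the irreducibility. -/
theorem rankin_bound {N : ℕ} [NeZero N] (f : CuspForm (Gamma1 N) 1) (h1 : qCoeff f 1 = 1)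
    (hT : ∀ p : ℕ, p.Prime → ¬ p ∣ N → ∀ n : ℕ, ¬ p ∣ n →
      qCoeff f (p * n) = qCoeff f p * qCoeff f n) (c : ℝ) (hc : 0 ≤ c) :
    ∃ C : ℝ, ∀ s : ℝ, 1 < s → s ≤ 2 → ∀ P : Finset ℕ, (∀ p ∈ P, p.Prime ∧ ¬ p ∣ N) →
      ∑ p ∈ P, min (‖qCoeff f p‖ ^ 2) c * (p : ℝ) ^ (-s) ≤ Real.log (1 / (s - 1)) + C :=
  H48.rankin_bound f h1 hT c hc

/-- **Arithmetic of the eigenvalues.** The coefficients `a_p`, `p ∤ N` prime, of an eigenform of
weight one are algebraic integers, and together with the values of `ε` they lie in a number field.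
Proof: the Hecke algebra of `S_1(Γ₁(N))` is a finite `ℤ`-module (file `H50Hecke1`), because it acts
faithfully on the lattice of the forms all of whose diamond translates have integral `q`-expansions;
this lattice is finitely generated and spans (files `H50Diamond`, `H50Arith`, `H50Prim1`: the
diamond operators commute with the conjugation of coefficients; there is a modular form on `Γ₁(N)`
with integral `q`-expansion and with stabiliser exactly `Γ₁(N)` in `SL₂(ℤ)`, which reduces the
question to level one). File `H50Inputs`. -/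
theorem eigenvalues_integral {N : ℕ} [NeZero N] (ε : DirichletCharacter ℂ N)
    (f : CuspForm (Gamma1 N) 1) (hf₁ : qCoeff f 1 = 1)
    (hT : ∀ p : ℕ, p.Prime → ¬ p ∣ N → ∀ n : ℕ,
      qCoeff f (p * n) + ε (p : ZMod N) * (if p ∣ n then qCoeff f (n / p) else 0) =
        qCoeff f p * qCoeff f n)
    (hε : ∀ γ : SL(2, ℤ), γ ∈ Gamma0 N → ⇑f ∣[(1 : ℤ)] γ = ε ((γ 1 1 : ℤ) : ZMod N) • ⇑f) :
    (∀ p : ℕ, p.Prime → ¬ p ∣ N → IsIntegral ℤ (qCoeff f p)) ∧
    ∃ K : IntermediateField ℚ ℂ, FiniteDimensional ℚ K ∧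
      (∀ p : ℕ, p.Prime → ¬ p ∣ N → qCoeff f p ∈ K) ∧ ∀ x : ZMod N, ε x ∈ K :=
  H50.weightOne_integral ε f hf₁ hT hε

/-- **Conjugation of eigenforms.** For every ring homomorphism `σ : ℂ → ℂ` there is an eigenform
`f'` of weight one with coefficients `σ(a_n)` and character `σ ∘ ε`. Together with `rankin_bound`
this bounds all conjugates of the `a_p` at the same time. File `H50Inputs` (the conjugate of a cusp
form on `Γ₁(N)` is a cusp form on `Γ₁(N)`: files `H50Arith`, `H50Prim1`, `H79Conj`). -/
theorem exists_conjugate {N : ℕ} [NeZero N] (ε : DirichletCharacter ℂ N)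
    (f : CuspForm (Gamma1 N) 1) (hf₁ : qCoeff f 1 = 1)
    (hT : ∀ p : ℕ, p.Prime → ¬ p ∣ N → ∀ n : ℕ,
      qCoeff f (p * n) + ε (p : ZMod N) * (if p ∣ n then qCoeff f (n / p) else 0) =
        qCoeff f p * qCoeff f n) (σ : ℂ →+* ℂ) :
    ∃ f' : CuspForm (Gamma1 N) 1, qCoeff f' 1 = 1 ∧
      (∀ p : ℕ, p.Prime → ¬ p ∣ N → ∀ n : ℕ,
        qCoeff f' (p * n) + (ε.ringHomComp σ) (p : ZMod N) *
          (if p ∣ n then qCoeff f' (n / p) else 0) = qCoeff f' p * qCoeff f' n) ∧
      ∀ n, qCoeff f' n = σ (qCoeff f n) :=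
  H50.exists_conj_eigen ε f hf₁ hT σ

/-! ## 2. From weight one to weight two modulo `ℓ`

Further files of this section: `H58Eis1`, `H58Eis2`, `H58Eis3` (Eisenstein series), `H22Gen`
(translates of forms by integral matrices), `H50Theta`, `H50ThetaB`, `H58WtOneH` (reduction of
eigenforms to characters). -/

/-- **Hecke and diamond operators on `S_k(Γ₁(N))`.** `H58.dia N k d` is the diamond operator `⟨d⟩`:
it is `f ↦ f ∣[k] γ` for every `γ ∈ Γ₀(N)` with lower right entry congruent to `d`.
`H58.T1L N k p hp hpN` is `T_p` for a prime `p ∤ N`, with the classical effect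
`a_n(T_p f) = a_{pn}(f) + p^{k-1} a_{n/p}(⟨p⟩ f)` on the coefficients. File `H58Hecke1`. -/
theorem hecke_operators {N : ℕ} [NeZero N] {k : ℤ} (f : CuspForm (Gamma1 N) k)
    {d : ℤ} (hd : IsCoprime d (N : ℤ)) {γ : SL(2, ℤ)} (hγ : γ ∈ Gamma0 N)
    (h : ((γ 1 1 : ℤ) : ZMod N) = (d : ZMod N)) {p : ℕ} (hp : p.Prime) (hpN : ¬ p ∣ N) (n : ℕ) :
    ⇑(H58.dia N k d f) = ⇑f ∣[k] γ ∧
    qCoeff (H58.T1L N k p hp hpN f) n = qCoeff f (p * n) +
      (p : ℂ) ^ (k - 1) * (if p ∣ n then qCoeff (H58.dia N k p f) (n / p) else 0) :=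
  ⟨H58.coe_dia_eq hd f hγ h, H58.qCoeff_T1L hp hpN f n⟩

/-- **The Eisenstein series of weight one congruent to `1`.** For an odd prime `ℓ` and `u` prime to
`ℓ`, `H58.Et ℓ u hu` is a modular form of weight one on `Γ₁(ℓ)`: the Eisenstein series
`∑ 1 / (z + mτ + n)` at `z = u / ℓ`, divided by its constant term `H58.kap ℓ u`. Let `R` be a subring of
`ℂ` containing the algebraic integers, `φ` a homomorphism from `R` to a field of characteristic
`ℓ`, and write `H58.RedTo φ z c` for `z ∈ R` and `φ z = c`. Then the coefficients of `Et` lie in `R`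
and reduce to those of the constant `1`. A matrix in `Γ₀(ℓ)` with lower right entry `d` maps the
series of `u` to a multiple of the series of `u d`, with a factor which reduces to `d⁻¹` (hence the
`d⁻¹` in `exists_character`). Files `H58Zeta`, `H58Eis1` to `H58Eis3` (construction from the
multiplicative form of the Weierstrass zeta function), `H58E1`. -/
theorem eisenstein_congruent_one {F : Type*} [Field F] {ℓ : ℕ} [Fact ℓ.Prime] [CharP F ℓ]
    {S : Type*} [SetLike S ℂ] [SubringClass S ℂ] {R : S} (hR : ∀ z : ℂ, IsIntegral ℤ z → z ∈ R)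
    (φ : R →+* F) (hℓ : ℓ ≠ 2) {u d : ℤ} (hu : ¬ (ℓ : ℤ) ∣ u) (hd : ¬ (ℓ : ℤ) ∣ d)
    (hud : ¬ (ℓ : ℤ) ∣ u * d) {γ : SL(2, ℤ)} (hγ : γ ∈ Gamma0 ℓ)
    (h : ((γ 1 1 : ℤ) : ZMod ℓ) = d) :
    (∀ n : ℕ, H58.RedTo φ (qCoeff (H58.Et ℓ u hu) n) (if n = 0 then 1 else 0)) ∧
    (⇑(H58.Et ℓ u hu)) ∣[(1 : ℤ)] γ =
      (H58.kap ℓ (u * d) / H58.kap ℓ u) • ⇑(H58.Et ℓ (u * d) hud) ∧
    H58.RedTo φ (H58.kap ℓ (u * d) / H58.kap ℓ u) ((d : F)⁻¹) :=
  ⟨H58.redTo_Et hR φ hℓ hu, H58.Et_slash hℓ hu hud hγ h, H58.redTo_kap_ratio hR φ hℓ hu hd⟩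

/-- **The character of the Hecke algebra of weight two attached to a form of weight one.**
`H48.HAlg M` is the `ℤ`-algebra generated by the operators `T_p` (`p ∤ M` prime) and `⟨d⟩` on
`S₂(Γ₁(M))`, with the elements `H48.HAlg.T`, `H48.HAlg.dia`. `D` is a common denominator: if the
coefficients of a form up to the Sturm bound `H50.stB N 1` lie in a ring `A`, then `D a_n ∈ A` for
all `n` (`H50.exists_den`). For `ℓ` odd, `ℓ ∤ D`, `N ∣ M`, `ℓ ∣ M` and every ring homomorphism `φ` from
the algebraic integers to a field of characteristic `ℓ` there is a character `θ` of `H48.HAlg M` with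
`T_p ↦ φ(a_p)` and `⟨d⟩ ↦ φ(ε(d)) d⁻¹`. Proof: as `ℓ ∤ D`, some multiple of `f` has its coefficients
in a valuation ring above the kernel of `φ`, one of them equal to `1` (`H50.exists_scale`); the form
`f E` of weight two, with `E` as above, reduces to it (`H58WtOne`); a lemma on congruences between
`q`-expansions (`H58Red`). File `H48C`. -/
theorem exists_character {N : ℕ} [NeZero N] {ℓ : ℕ} [Fact ℓ.Prime] {k : Type} [Field k]
    [CharP k ℓ] {D : ℤ} (hD0 : D ≠ 0)
    (hD : ∀ (g : CuspForm (Gamma1 N) 1) (A : Subring ℂ),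
      (∀ n ≤ H50.stB N 1, (UpperHalfPlane.qExpansion 1 g).coeff n ∈ A) →
        ∀ n, (D : ℂ) * (UpperHalfPlane.qExpansion 1 g).coeff n ∈ A)
    (hℓD : ¬ (ℓ : ℤ) ∣ D) (hℓ2 : ℓ ≠ 2) (ε : DirichletCharacter ℂ N) (f : CuspForm (Gamma1 N) 1)
    (hT : ∀ p : ℕ, p.Prime → ¬ p ∣ N → ∀ n : ℕ,
      qCoeff f (p * n) + ε (p : ZMod N) * (if p ∣ n then qCoeff f (n / p) else 0) =
        qCoeff f p * qCoeff f n)
    (hf1 : qCoeff f 1 = 1) (hint : ∀ p : ℕ, p.Prime → ¬ p ∣ N → IsIntegral ℤ (qCoeff f p))
    (hεint : ∀ x : ZMod N, IsIntegral ℤ (ε x)) (φ : Zb →+* k)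
    (M : ℕ) [NeZero M] (hNM : N ∣ M) (hℓM : ℓ ∣ M) :
    ∃ θ : H48.HAlg M →+* k,
      (∀ (p : ℕ) (hp : p.Prime) (hpM : ¬ p ∣ M), θ (H48.HAlg.T hp hpM) =
        φ ⟨qCoeff f p, hint p hp fun h => hpM (h.trans hNM)⟩) ∧
      (∀ (d : ℤ) (hd : IsCoprime d (M : ℤ)), θ (H48.HAlg.dia hd) =
        φ ⟨ε (d : ZMod N), hεint _⟩ * (d : k)⁻¹) :=
  H48.exists_theta_k hD0 hD hℓD hℓ2 hT hf1 φ M hNM hℓM

/-! ## 3. From weight two to Galois representations modulo `ℓ`

Further files of this section: `H21Prim`, `H22Prim`, `H22Pol`, `H22Sep`, `H4Periods` (primitives and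
periods), `H4Transfer`, `H4TransferPE` (transfer), `H48Base` (extension of scalars: the space of the
homomorphisms `Γ₁(M) → k` killing the parabolic and the elliptic elements is `k ⊗` the same space for
`𝔽_ℓ`), `H54Frobenius`, `H82Galois`, `H86DensityRep` (Frobenius elements), `H31Cyclo`,
`H62FrobTrace`, `H48Det` (roots of unity, the determinant). -/

/-- **Hecke correspondences on homomorphisms.** `H48.IsPE φ` says that the homomorphism
`φ : Γ → A` kills the elements `γ` with `(tr γ)² ≤ 4`, i.e. the parabolic and the elliptic ones.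
`H : H48.HeckeSys Γ` is a finite family `α_i` of matrices with `α_i γ = δ α_{i·γ}`, `δ = H.coc γ i` in
`Γ`; it acts on the homomorphisms `φ` by `(H φ)(γ) = ∑_i φ(H.coc γ i)` (transfer), and preserves
`IsPE`. The systems of `T_p` and `⟨d⟩` for `Γ₁(M)` are `H48.sysT M p hp hpM` (indexed by the
projective line over `𝔽_p`) and `H48.sysDia M d` (one element). File `H48Defs`. -/
theorem heckeSys_notions {Γ : Subgroup SL(2, ℤ)} {A : Type*} [AddCommGroup A]
    (H : H48.HeckeSys Γ) (φ : Additive Γ →+ A) (γ : Γ) (i : H.ι) :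
    (H48.IsPE φ ↔ ∀ γ : Γ, ((γ : SL(2, ℤ)) : Matrix (Fin 2) (Fin 2) ℤ).trace ^ 2 ≤ 4 →
      φ (Additive.ofMul γ) = 0) ∧
    H.α i * Matrix.SpecialLinearGroup.mapGL ℝ (γ : SL(2, ℤ)) =
      Matrix.SpecialLinearGroup.mapGL ℝ (H.coc γ i : SL(2, ℤ)) * H.α (H.act γ i) ∧
    H.hom φ (Additive.ofMul γ) = ∑ j : H.ι, φ (Additive.ofMul (H.coc γ j)) ∧
    (H48.IsPE φ → H48.IsPE (H.hom φ)) :=
  ⟨Iff.rfl, H.spec γ i, H.hom_apply φ _, H.isPE_hom⟩

/-- **Eigenclasses.** Every character `θ` of the Hecke algebra of `S₂(Γ₁(M))` with values in a field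
`k` occurs in the homomorphisms `Γ₁(M) → k` killing the parabolic and the elliptic elements. Proof:
the periods `γ ↦ (f ↦ ∫ f)` map `Γ₁(M)` onto a finitely generated subgroup `L` of the dual of
`S₂(Γ₁(M))`, stable under the dual Hecke operators, and a form with all periods zero is zero; so the
Hecke algebra acts faithfully on `L` (files `H4Lattice`, `H48Per`), and every character of a
commutative ring acting faithfully on a finitely generated group `L` occurs in `Hom(L, k)`. File
`H48Eig1`. -/
theorem exists_eigenclass {M : ℕ} [NeZero M] {k : Type*} [Field k] (θ : H48.HAlg M →+* k) :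
    ∃ ψ : Additive (Gamma1 M) →+ k, ψ ≠ 0 ∧ H48.IsPE ψ ∧
      (∀ (p : ℕ) (hp : p.Prime) (hpM : ¬ p ∣ M),
        (H48.sysT M p hp hpM).hom ψ = θ (H48.HAlg.T hp hpM) • ψ) ∧
      ∀ (d : ℤ) (hd : IsCoprime d (M : ℤ)),
        (H48.sysDia M d).hom ψ = θ (H48.HAlg.dia hd) • ψ :=
  H48.exists_eigenclass_Gamma1 θ

/-- **The Galois action on the characters of `Γ₁(M)`.** `H48.Vn (Gamma1 M) n` is the group of the
characters `Γ₁(M) → ℂˣ` killed by `n` and trivial on parabolic and elliptic elements, and `H.homV n`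
is the action of the system `H` (as in `heckeSys_notions`) on it. For `M ≥ 5` and a prime `n ≥ 5` the
group `Gal(ℚ̄/ℚ)` acts on it, through a finite quotient, commuting with `T_p` and `⟨d⟩`; for primes
`p ∤ M n` the action is unramified at `p`, and the Frobenius elements satisfy `F² + p ⟨p⟩ = F T_p`
(Eichler-Shimura relation). This replaces the Jacobian of `X₁(M)`. The proof is the subject of
`Fermat.Agent.GuideGaloisAction`. Files `H22Tw*`, `H58KIIn`, `H50QEIn`, `H78KI*`; `H48Gal` (definition
`H48.HasGalAction M n` of this statement). -/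
theorem galoisAction {M n : ℕ} (hM : 5 ≤ M) (hn : n.Prime) (hn5 : 5 ≤ n) :
    ∃ R : Gq →* AddMonoid.End (H48.Vn (Gamma1 M) n),
      GaloisFactorsThroughFiniteLevel R ∧
      (∀ (p : ℕ) (hp : p.Prime) (hpM : ¬ p ∣ M) (σ : Gq) (χ : H48.Vn (Gamma1 M) n),
        R σ ((H48.sysT M p hp hpM).homV n χ) = (H48.sysT M p hp hpM).homV n (R σ χ)) ∧
      (∀ d : ℤ, IsCoprime d (M : ℤ) → ∀ (σ : Gq) (χ : H48.Vn (Gamma1 M) n),
        R σ ((H48.sysDia M d).homV n χ) = (H48.sysDia M d).homV n (R σ χ)) ∧
      ∀ (p : ℕ) (hp : p.Prime) (hpM : ¬ p ∣ M), ¬ p ∣ n →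
        ∀ A : ValuationSubring Qb, A.LiesOverPrime p →
          (∀ σ ∈ A.inertiaSubgroupIn ℚ, R σ = 1) ∧
          ∀ σ : Gq, A.IsFrobeniusAt σ p → ∀ χ : H48.Vn (Gamma1 M) n,
            R σ (R σ χ) + p • (H48.sysDia M p).homV n χ =
              R σ ((H48.sysT M p hp hpM).homV n χ) :=
  have : NeZero (M * 2) := ⟨by omega⟩; have : NeZero (M * 3) := ⟨by omega⟩
  H50.hasGalAction_of_core hM hn hn5 (H78.KI.coreQE (by omega) (.inl rfl)) (H78.KI.coreQE (by omega)
    (.inr rfl)) (H78.KI.coreKI (by omega) (.inl rfl) hn) (H78.KI.coreKI (by omega) (.inr rfl) hn)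

/-- **From quadratic relations to dimension two.** Let a group `G` act on a nonzero
finite-dimensional space `W` over an algebraically closed field, let `d` be a character of `G`, and
suppose that every `g` acts as a power `F^j` of some `F` with `F² - t F + d(F) = 0`, `t` a scalar, and
that `d(g) = d(F)^j`. Then there is a two-dimensional representation whose trace and determinant at
`g` are `t` and `d(g)` whenever `g² - t g + d(g) = 0` on `W`; it is trivial at all `g` which act
trivially on `W` and have `d(g) = 1`. Proof: induction on `dim W`; in the irreducible case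
`dim W ≤ 2`. File `H96TwoDim`. -/
theorem exists_twoDim {G : Type*} [Group G] {k : Type*} [Field k] [IsAlgClosed k]
    {W : Type*} [AddCommGroup W] [Module k W] [FiniteDimensional k W] [Nontrivial W]
    (ρ : G →* Module.End k W) (d : G →* k)
    (h : ∀ g, ∃ (F : G) (j : ℕ) (t : k),
      ρ F * ρ F - t • ρ F + d F • (1 : Module.End k W) = 0 ∧ ρ g = ρ F ^ j ∧ d g = d F ^ j) :
    ∃ ρ' : G →* Matrix (Fin 2) (Fin 2) k,
      (∀ g t, ρ g * ρ g - t • ρ g + d g • (1 : Module.End k W) = 0 →
        (ρ' g).trace = t ∧ (ρ' g).det = d g) ∧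
      ∀ g, ρ g = 1 → d g = 1 → ρ' g = 1 :=
  H96.exists_twoDim_of_quadratic_of_pow ρ d h

/-- **Frobenius density** (weak form: up to powers, i.e. Frobenius' theorem, not Chebotarev's). For
every number field `L` in `ℚ̄`, every `σ` and every finite set `S` of primes there is a prime
`ℓ ∉ S` and a Frobenius element `φ` above it such that `σ` and `φ` are powers of each other on `L`.
Files `H82FrobDensity` (finite extensions; the steps are in `GuideDensity`), `H86Density`,
`H86DensityFinal`. -/
theorem frobenius_density (L : IntermediateField ℚ Qb) [FiniteDimensional ℚ L] (σ : Gq)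
    (S : Finset ℕ) :
    ∃ ℓ : ℕ, ℓ.Prime ∧ ℓ ∉ S ∧ ∃ A : ValuationSubring Qb, A.LiesOverPrime ℓ ∧
      ∃ φ : Gq, A.IsFrobeniusAt φ ℓ ∧ ∃ j k : ℕ,
        (∀ x ∈ L, σ x = (φ ^ j) x) ∧ (∀ x ∈ L, φ x = (σ ^ k) x) :=
  H86.frobenius_density H86.frobDensityFinite L σ S

open Polynomial in
/-- **Representations modulo `ℓ` attached to a form of weight one.** For all large primes `ℓ` and
every ring homomorphism `φ` from the algebraic integers to an algebraically closed field `k` of
characteristic `ℓ` there is a two-dimensional representation over `k`, unramified outside `N ℓ`, such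
that the Frobenius elements above `p ∤ N ℓ` have characteristic polynomial
`X² - φ(a_p) X + φ(ε(p))`. The hypothesis `HasGalAction (N * ℓ) ℓ` is `galoisAction`. Proof: take
`θ` of `exists_character` for `M = N ℓ`; the eigenspace of `θ` in the homomorphisms
`Γ₁(M) → k` is nonzero (`exists_eigenclass`), Galois stable, and the Frobenius elements satisfy on it
a quadratic relation, so that `exists_twoDim` and `frobenius_density` apply. Files `H48Glue`,
`H48C`. -/
theorem residual_of_weightOne {N : ℕ} [NeZero N] (ε : DirichletCharacter ℂ N)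
    (f : CuspForm (Gamma1 N) 1)
    (hT : ∀ p : ℕ, p.Prime → ¬ p ∣ N → ∀ n : ℕ,
      qCoeff f (p * n) + ε (p : ZMod N) * (if p ∣ n then qCoeff f (n / p) else 0) =
        qCoeff f p * qCoeff f n)
    (hf1 : qCoeff f 1 = 1) (hint : ∀ p : ℕ, p.Prime → ¬ p ∣ N → IsIntegral ℤ (qCoeff f p))
    (hεint : ∀ x : ZMod N, IsIntegral ℤ (ε x)) :
    ∃ ℓ₀ : ℕ, ∀ ℓ : ℕ, ℓ.Prime → ℓ₀ < ℓ → H48.HasGalAction (N * ℓ) ℓ →
      ∀ (k : Type) [Field k] [IsAlgClosed k] [CharP k ℓ] (φ : Zb →+* k),
        ∃ ρ : ResidualGaloisRep k, ∀ (p : ℕ) (hp : p.Prime) (hpN : ¬ p ∣ N), p ≠ ℓ →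
          ρ.IsUnramifiedAt p ∧ ∀ A : ValuationSubring Qb, A.LiesOverPrime p →
            ∀ σ : Gq, A.IsFrobeniusAt σ p →
              (ρ.ρ σ).charpoly = X ^ 2 - C (φ ⟨qCoeff f p, hint p hp hpN⟩) * X +
                C (φ ⟨ε (p : ZMod N), hεint _⟩) :=
  H48.exists_residual_of_weightOne hT hf1

/-! ## 4. Bounding the images

Further files of this section: `H76Tent`, `H76UnitSum`, `H76Weight`, `H76Place`, `H76Lattice`,
`H76Regroup`, `H76ClassBound`, `H76Periodic` (sums over ideals), `H85Euler` (Euler products),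
`H85Cheb1`, `H85Cheb2`, `H85Cheb3`, `H85Cheb4`, `H85Cheb5` (the crossing argument), `H82Galois`,
`H70Frob` (Frobenius elements), `H85Extend` (conjugates of algebraic integers). The steps of the
theorems from `exists_finite_set` to `s48_of_galoisAction` are in `GuideDeligneSerreSteps`. -/

open NumberField nonZeroDivisors in
/-- **The analytic input of Chebotarev's theorem.** For a number field `K` and an even Dirichlet
character `ψ` modulo `m` which is not trivial on the norms of ideals prime to `m`, the series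
`∑_I ψ(N I) N(I)^{-s}` is bounded for `1 < s ≤ 2`. Proof: if `ψ` is nontrivial on norms of elements,
compare sums over lattice points in each ideal class, with a partition of unity modulo the units
(file `H76NormChar`); otherwise `ψ ∘ N` is a nontrivial character of the class group up to finitely
many Euler factors (file `H76ClassL`). File `H85NCB`; the steps are in `GuideDensity` (sections 5
to 7) and `GuideChebotarev` (section 1). -/
theorem twisted_zeta_bounded (K : Type) [Field K] [NumberField K] (m : ℕ) [NeZero m]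
    (ψ : DirichletCharacter ℂ m) (hev : ψ (-1) = 1)
    (hψ : ∃ I : Ideal (𝓞 K), ψ ((Ideal.absNorm I : ℕ) : ZMod m) ≠ 1 ∧
      ψ ((Ideal.absNorm I : ℕ) : ZMod m) ≠ 0) :
    ∃ C : ℝ, ∀ s : ℝ, 1 < s → s ≤ 2 →
      ‖∑' I : (Ideal (𝓞 K))⁰, ψ ((Ideal.absNorm (I : Ideal (𝓞 K)) : ℕ) : ZMod m) *
        (((Ideal.absNorm (I : Ideal (𝓞 K)) : ℝ) ^ (-s) : ℝ) : ℂ)‖ ≤ C :=
  H85.normCharBound K m ψ hev hψ

open Filter Topology in
/-- **Densities.** `H99.HasLogDensity c δ`: the function `c` on the primes has logarithmic density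
`δ`, i.e. `∑_p c(p) p^{-s} ∼ δ log (1 / (s - 1))` as `s → 1+`. `H85.ULD c δ`: its upper logarithmic
density is at most `δ`. `H85.Fr p` is a chosen Frobenius element above `p` in `Gal(ℚ̄/ℚ)`.
Definitions in `H99Combo`, `H85LogDens`, `H85ChebGal`. -/
theorem density_notions (c : Nat.Primes → ℝ) (δ : ℝ) :
    (H99.HasLogDensity c δ ↔
      (∀ s : ℝ, 1 < s → Summable fun p : Nat.Primes => c p * ((p : ℕ) : ℝ) ^ (-s)) ∧
      Tendsto (fun s : ℝ => (∑' p : Nat.Primes, c p * ((p : ℕ) : ℝ) ^ (-s)) /
        Real.log (1 / (s - 1))) (𝓝[>] 1) (𝓝 δ)) ∧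
    (H85.ULD c δ ↔
      (∀ s : ℝ, 1 < s → Summable fun p : Nat.Primes => c p * ((p : ℕ) : ℝ) ^ (-s)) ∧
      ∀ ε : ℝ, 0 < ε → ∀ᶠ s in 𝓝[>] (1 : ℝ),
        ∑' p : Nat.Primes, c p * ((p : ℕ) : ℝ) ^ (-s) ≤ (δ + ε) * Real.log (1 / (s - 1))) ∧
    ∀ p : Nat.Primes, ∃ A : ValuationSubring Qb,
      A.LiesOverPrime p ∧ A.IsFrobeniusAt (H85.Fr p) p :=
  ⟨Iff.rfl, Iff.rfl, fun p => ⟨_, H85.Pl_liesOver p, H85.Fr_spec p⟩⟩

/-- **Chebotarev's density theorem**, symmetric form: for a homomorphism `ρ` from `Gal(ℚ̄/ℚ)` to a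
group, trivial on the absolute Galois group of a number field, and a real function `f` invariant
under conjugation and inversion on the image, `p ↦ f(ρ(Frob_p))` has density equal to the mean value
of `f` on the image. Proof: Chebotarev's crossing argument with cyclotomic fields (files `H85Cheb1`
to `H85Cheb5`). By `twisted_zeta_bounded` the prime sums twisted by squares of Dirichlet characters
of the norm are bounded from above (file `H85Twist`); squares because the characters must be even,
whence the invariance under inversion. These one-sided bounds for all characters together with the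
exact density `1` of the primes of degree one of every subfield (simple pole of its zeta function,
file `H99PrimeSum`) give exact densities, so that no nonvanishing at `s = 1` is needed. Files
`H85ChebGal`, `H85Cheb`; the steps are in `GuideChebotarev`. -/
theorem chebotarev {Q : Type} [Group Q] (ρ : Gq →* Q) (hρ : GaloisFactorsThroughFiniteLevel ρ)
    [Fintype ρ.range] (f : Q → ℝ)
    (hconj : ∀ x ∈ ρ.range, ∀ y ∈ ρ.range, f (y⁻¹ * x * y) = f x)
    (hinv : ∀ x ∈ ρ.range, f x⁻¹ = f x) :
    H99.HasLogDensity (fun p => f (ρ (H85.Fr p)))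
      ((∑ g : ρ.range, f g) / Fintype.card ρ.range) :=
  H85.chebotarev_gal_of (H85.twistBound_of H85.normCharBound) ρ hρ f hconj hinv

/-- **Few eigenvalues outside a set of primes of small density** (Deligne-Serre, section 5).
Let `a_p` be algebraic integers in a number field `E` such that for every `σ` and every `c` the
function `min(|σ(a_p)|², c)` has upper density at most `1`, and let the `e_p` be roots of unity of
bounded order. For every `δ > 0` there are a finite set `T` and a set `X` of primes of upper density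
at most `δ` (`H85.ind X` is its indicator function) such that `(a_p, e_p) ∈ T` for `p ∉ X`, `p ∤ N`.
Proof: the primes for which some conjugate of `a_p` is large have small density, and there are only
finitely many algebraic integers in `E` with bounded conjugates. The hypothesis on the densities
follows from `rankin_bound` and `exists_conjugate` (file `H85MeanSq`). File `H85Bad`. -/
theorem exists_finite_set (N : ℕ) (a e : ℕ → Zb) (E : IntermediateField ℚ ℂ)
    [FiniteDimensional ℚ E] (haE : ∀ p : ℕ, p.Prime → ¬ p ∣ N → (a p : ℂ) ∈ E)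
    (n : ℕ) (hn : 0 < n) (he : ∀ p : ℕ, p.Prime → ¬ p ∣ N → e p ^ n = 1)
    (hA2 : ∀ σ : ℂ →+* ℂ, ∀ c : ℝ, 0 < c →
      H85.ULD (fun p : Nat.Primes => if (p : ℕ) ∣ N then 0 else min (‖σ (a p)‖ ^ 2) c) 1)
    (δ : ℝ) (hδ : 0 < δ) :
    ∃ (T : Finset (Zb × Zb)) (X : Set Nat.Primes), H85.ULD (H85.ind X) δ ∧
      ∀ p : Nat.Primes, ¬ (p : ℕ) ∣ N → p ∉ X → (a p, e p) ∈ T :=
  H85.exists_good N a e E haE n hn he hA2 δ hδ

open Matrix in
/-- **Group theory** (Deligne-Serre, Proposition 7.2). Let `G` be a finite subgroup of `GL₂(k)`, `k`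
algebraically closed of characteristic `ℓ`, which is irreducible or of order prime to `ℓ`, with
traces in the prime field, and suppose that three quarters of its elements have at most `M`
different pairs (trace, determinant). If `ℓ` is large compared to `M`, then the order of `G` is
prime to `ℓ` and at most `160 M`. Proof: without Dickson's classification, by counting fixed points
on the projective line (`H85Orbit`, `H85Group`) and, if `ℓ` divides the order, by the lower bound
`ℓ² (ℓ - 1)` for the order of a group containing two transvections, since at most `2 ℓ²` matrices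
over `𝔽_ℓ` have given trace and determinant. File `H85Group2`. -/
theorem card_le_of_few_charpoly {k : Type*} [Field k] [IsAlgClosed k] (ℓ : ℕ) [Fact ℓ.Prime]
    [CharP k ℓ] (G : Subgroup (GL (Fin 2) k)) [Finite G]
    (hss : (∀ v : Fin 2 → k, v ≠ 0 →
      ∃ g ∈ G, ∀ c : k, (g : Matrix (Fin 2) (Fin 2) k) *ᵥ v ≠ c • v) ∨ ¬ ℓ ∣ Nat.card G)
    (htr : ∀ g ∈ G, ∃ n : ℤ, (g : Matrix (Fin 2) (Fin 2) k).trace = n)
    (M : ℕ) (H : Finset (GL (Fin 2) k)) (hHG : ∀ g ∈ H, g ∈ G)
    (hH : 3 * Nat.card G ≤ 4 * H.card)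
    (hM : ∃ T : Finset (k × k), T.card ≤ M ∧ ∀ g ∈ H,
      ((g : Matrix (Fin 2) (Fin 2) k).trace, (g : Matrix (Fin 2) (Fin 2) k).det) ∈ T)
    (hℓ : 8 * M < 3 * (ℓ - 1)) :
    ¬ ℓ ∣ Nat.card G ∧ Nat.card G ≤ 160 * M :=
  H85.card_le_of_few_charpoly ℓ G hss htr M H hHG hH hM hℓ

/-- **Uniform bound for the images.** Let `a_p`, `e_p` be algebraic integers such that
`(a_p, e_p)` lies in the finite set `T` outside a set of primes of upper density at most `1/4`, and
let `ρ` be a representation over an algebraically closed field of characteristic `ℓ`, unramified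
outside `N ℓ`, such that the Frobenius elements above `p` have trace `φ(a_p)` and determinant
`φ(e_p)`, with `φ(a_p)`, `φ(e_p)` in the prime field. If `ℓ` is large compared to the size of `T`
there is such a representation `ρ'` (the semisimplification of `ρ`) with image of order at most
`320 |T|`. Proof: `chebotarev` and `card_le_of_few_charpoly` (twice the number of elements of `T`
because of the symmetric form of Chebotarev's theorem). File `H85Bound`. -/
theorem card_bound (N : ℕ) (hN0 : N ≠ 0) (a e : ℕ → Zb) (T : Finset (Zb × Zb))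
    (X : Set Nat.Primes) (hX : H85.ULD (H85.ind X) (1 / 4))
    (hT : ∀ p : Nat.Primes, ¬ (p : ℕ) ∣ N → p ∉ X → (a p, e p) ∈ T)
    (ℓ : ℕ) [Fact ℓ.Prime] (hℓ : 16 * T.card < 3 * (ℓ - 1)) {κ : Type} [Field κ]
    [IsAlgClosed κ] [CharP κ ℓ] (φ : Zb →+* κ)
    (ha : ∀ p : ℕ, p.Prime → ¬ p ∣ N → ∃ n : ℤ, φ (a p) = n)
    (he : ∀ p : ℕ, p.Prime → ¬ p ∣ N → ∃ n : ℤ, φ (e p) = n)
    (ρ : Gq →* GL (Fin 2) κ) (hlevel : GaloisFactorsThroughFiniteLevel ρ)
    (hunr : ∀ p : ℕ, p.Prime → ¬ p ∣ N → p ≠ ℓ → ∀ A : ValuationSubring Qb,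
      A.LiesOverPrime p → ∀ σ ∈ A.inertiaSubgroupIn ℚ, ρ σ = 1)
    (hfrob : ∀ p : ℕ, p.Prime → ¬ p ∣ N → p ≠ ℓ → ∀ A : ValuationSubring Qb,
      A.LiesOverPrime p → ∀ σ : Gq, A.IsFrobeniusAt σ p →
        (ρ σ).val.trace = φ (a p) ∧ (ρ σ).val.det = φ (e p)) :
    ∃ ρ' : Gq →* GL (Fin 2) κ, GaloisFactorsThroughFiniteLevel ρ' ∧
      (∀ p : ℕ, p.Prime → ¬ p ∣ N → p ≠ ℓ → ∀ A : ValuationSubring Qb, A.LiesOverPrime p →
        (∀ σ ∈ A.inertiaSubgroupIn ℚ, ρ' σ = 1) ∧ ∀ σ : Gq, A.IsFrobeniusAt σ p →
          (ρ' σ).val.trace = φ (a p) ∧ (ρ' σ).val.det = φ (e p)) ∧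
      Finite ρ'.range ∧ Nat.card ρ'.range ≤ 320 * T.card := by
  obtain ⟨ρ', h, h1, h2⟩ := H85.card_bound (H85.twistBound_of H85.normCharBound) N hN0 a e T X hX hT
    ℓ hℓ φ ha he ρ ⟨hlevel, hunr, hfrob⟩
  exact ⟨ρ', h.level, fun p a b c A d => ⟨h.unram p a b c A d, h.frob p a b c A d⟩, h1, h2⟩

/-! ## 5. Gluing -/

/-- **Gluing.** Let `ρ_s` be representations of `Gal(ℚ̄/ℚ)` in infinitely many characteristics `s`,
with the Frobenius data `(a_p, e_p)` outside `N s`, and with images of order at most `B`. Then there is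
a representation over `ℂ` with finite image, unramified outside `N`, with the same Frobenius data.
Proof: up to isomorphism finitely many finite groups `Q` occur as images; the traces are sums of
roots of unity, hence reductions of fixed algebraic integers; a system of polynomial equations with
solutions in infinitely many characteristics has a solution in characteristic zero, so that `Q` has
a representation over `ℂ` with these traces (`H85Transfer`, `H85Pigeon`). File `H85Glue`. -/
theorem glue (N : ℕ) (hN0 : N ≠ 0) (a e : ℕ → Zb) (B : ℕ) (S : Set ℕ) (hS : S.Infinite)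
    (κ : S → Type) [∀ s, Field (κ s)] [∀ s, IsAlgClosed (κ s)] [∀ s : S, CharP (κ s) s]
    (φ : ∀ s : S, Zb →+* κ s) (ρ : ∀ s : S, Gq →* GL (Fin 2) (κ s))
    (hlevel : ∀ s : S, GaloisFactorsThroughFiniteLevel (ρ s))
    (hunr : ∀ (s : S) (p : ℕ), p.Prime → ¬ p ∣ N → p ≠ s → ∀ A : ValuationSubring Qb,
      A.LiesOverPrime p → ∀ σ ∈ A.inertiaSubgroupIn ℚ, ρ s σ = 1)
    (hfrob : ∀ (s : S) (p : ℕ), p.Prime → ¬ p ∣ N → p ≠ s → ∀ A : ValuationSubring Qb,
      A.LiesOverPrime p → ∀ σ : Gq, A.IsFrobeniusAt σ p →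
        (ρ s σ).val.trace = φ s (a p) ∧ (ρ s σ).val.det = φ s (e p))
    (hfin : ∀ s, Finite (ρ s).range) (hB : ∀ s, Nat.card (ρ s).range ≤ B) :
    ∃ ρ : Gq →* GL (Fin 2) ℂ, GaloisFactorsThroughFiniteLevel ρ ∧
      ∀ p : ℕ, p.Prime → ¬ p ∣ N →
        ∀ A : ValuationSubring Qb, A.LiesOverPrime p →
          (∀ σ ∈ A.inertiaSubgroupIn ℚ, ρ σ = 1) ∧
          ∀ σ : Gq, A.IsFrobeniusAt σ p →
            ((ρ σ : GL (Fin 2) ℂ) : Matrix (Fin 2) (Fin 2) ℂ).trace = (a p : ℂ) ∧
            ((ρ σ : GL (Fin 2) ℂ) : Matrix (Fin 2) (Fin 2) ℂ).det = (e p : ℂ) :=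
  H85.glue N hN0 a e B S hS κ φ ρ (fun s => ⟨hlevel s, hunr s, hfrob s⟩) hfin hB

/-- **Irreducibility.** If the Frobenius traces `a_p` of a representation over `ℂ` with finite image
are such that `min(|a_p|², c)` has upper density at most `1` for all `c`, the representation is
irreducible. Proof: a sum of two characters would have `|a_p|² = 2 + 2 Re χ(Frob_p)` of density `2`
or `4`, by `chebotarev`. Files `H85Final` (no common eigenvector), `H85SS`. -/
theorem irreducible (N : ℕ) (hN0 : N ≠ 0) (a : ℕ → Zb) (ρ : Gq →* GL (Fin 2) ℂ)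
    (hρ : GaloisFactorsThroughFiniteLevel ρ)
    (hfr : ∀ p : ℕ, p.Prime → ¬ p ∣ N → ∀ A : ValuationSubring Qb, A.LiesOverPrime p →
      ∀ σ : Gq, A.IsFrobeniusAt σ p →
        ((ρ σ : GL (Fin 2) ℂ) : Matrix (Fin 2) (Fin 2) ℂ).trace = (a p : ℂ))
    (hA2 : ∀ c : ℝ, 0 < c → H85.ULD (fun p : Nat.Primes =>
      if (p : ℕ) ∣ N then 0 else min (‖((a p : Zb) : ℂ)‖ ^ 2) c) 1) :
    (Deformation.matrixRepresentation ρ).IsIrreducible :=
  H85.isIrreducible_of_noLine ρ
    (H85.noLine_of (H85.twistBound_of H85.normCharBound) N hN0 a ρ hρ hfr hA2)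

/-- **The theorem of Deligne and Serre from the Galois action.** The conclusion of S48, from the
Galois action on the characters of order `ℓ` of `Γ₁(N ℓ)` for all primes `ℓ ≥ 5`. This is the sum of
the preceding theorems (files `H85MeanSq`, `H85Final`, `H85Skel`, `H85Fin`, `H85Cheb`): the primes
`ℓ` used are those for which the field `E` of the `a_p` has a residue homomorphism onto `𝔽_ℓ`
(file `H85Split`). -/
theorem s48_of_galoisAction (N : ℕ) [NeZero N] (ε : DirichletCharacter ℂ N)
    (f : CuspForm (Gamma1 N) 1)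
    (hGal : ∀ ℓ : ℕ, ℓ.Prime → 5 ≤ ℓ → H48.HasGalAction (N * ℓ) ℓ)
    (hf₁ : qCoeff f 1 = 1)
    (hT : ∀ p : ℕ, p.Prime → ¬ p ∣ N → ∀ n : ℕ,
      qCoeff f (p * n) + ε (p : ZMod N) * (if p ∣ n then qCoeff f (n / p) else 0) =
        qCoeff f p * qCoeff f n) :
    ∃ ρ : Gq →* GL (Fin 2) ℂ, GaloisFactorsThroughFiniteLevel ρ ∧
      (Deformation.matrixRepresentation ρ).IsIrreducible ∧
      ∀ p : ℕ, p.Prime → ¬ p ∣ N →
        ∀ A : ValuationSubring Qb, A.LiesOverPrime p →
          (∀ σ ∈ A.inertiaSubgroupIn ℚ, ρ σ = 1) ∧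
          ∀ σ : Gq, A.IsFrobeniusAt σ p →
            ((ρ σ : GL (Fin 2) ℂ) : Matrix (Fin 2) (Fin 2) ℂ).trace = qCoeff f p ∧
            ((ρ σ : GL (Fin 2) ℂ) : Matrix (Fin 2) (Fin 2) ℂ).det = ε (p : ZMod N) :=
  H85.S48_of_hasGalAction N ε f hGal hf₁ hT

/-- **S48**, the frozen statement. File `S48`. -/
theorem s48 (N : ℕ) [NeZero N] (ε : DirichletCharacter ℂ N) (f : CuspForm (Gamma1 N) 1)
    (hf₁ : qCoeff f 1 = 1)
    (hT : ∀ p : ℕ, p.Prime → ¬ p ∣ N → ∀ n : ℕ,
      qCoeff f (p * n) + ε (p : ZMod N) * (if p ∣ n then qCoeff f (n / p) else 0) =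
        qCoeff f p * qCoeff f n) :
    ∃ ρ : Gq →* GL (Fin 2) ℂ, GaloisFactorsThroughFiniteLevel ρ ∧
      (Deformation.matrixRepresentation ρ).IsIrreducible ∧
      ∀ p : ℕ, p.Prime → ¬ p ∣ N →
        ∀ A : ValuationSubring Qb, A.LiesOverPrime p →
          (∀ σ ∈ A.inertiaSubgroupIn ℚ, ρ σ = 1) ∧
          ∀ σ : Gq, A.IsFrobeniusAt σ p →
            ((ρ σ : GL (Fin 2) ℂ) : Matrix (Fin 2) (Fin 2) ℂ).trace = qCoeff f p ∧
            ((ρ σ : GL (Fin 2) ℂ) : Matrix (Fin 2) (Fin 2) ℂ).det = ε (p : ZMod N) :=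
  Fermat.Agent.S48.result N ε f hf₁ hT

/-! ## 6. Congruences in weight two (S49) -/

/-- **Lifting eigensystems** (Deligne-Serre, Lemme 6.11). A commutative ring `T`, finite over `ℤ`,
acts faithfully on a finite-dimensional complex vector space `V`. For every proper ideal `I` there are
an eigenvector `v ∈ V` with eigencharacter `χ : T → ℤ̄` and a maximal ideal `𝔪` of `ℤ̄` with
`χ(I) ⊆ 𝔪`. Proof: a maximal ideal above `I` contains a minimal prime; it is the trace of a prime of
the Artinian `ℂ`-algebra generated by `T`, which is associated to `V`; lying over in `ℤ̄`. File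
`H71Lift`. -/
theorem exists_eigenvector_lift {V : Type*} [AddCommGroup V] [Module ℂ V]
    [FiniteDimensional ℂ V] {T : Type*} [CommRing T] [Module.Finite ℤ T]
    (φ : T →+* Module.End ℂ V) (hφ : Function.Injective φ) (I : Ideal T) (hI : I ≠ ⊤) :
    ∃ (χ : T →+* Zb) (v : V) (𝔪 : Ideal Zb),
      v ≠ 0 ∧ 𝔪.IsMaximal ∧ (∀ t : T, φ t v = (χ t : ℂ) • v) ∧ ∀ t ∈ I, χ t ∈ 𝔪 :=
  H71.exists_eigenvector_lift φ hφ I hI

/-- **The congruence ideal.** `H71.congIdeal N f₀ 3` is the ideal of the elements `t` of the Hecke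
algebra of `S₂(Γ₀(N))` such that `t f₀` is three times a form with integral `q`-expansion. If the
coefficients of `f₀` are integers congruent modulo `3` to a formal eigensystem `a` with character
`χ₋₃` outside `N` (and `0` at the primes dividing `N`), this ideal is proper and contains `T_l - a_l`
for the primes `l ∤ N`; the point is `l ≡ χ₋₃(l)` modulo `3` for every prime `l`. File `H71S49Ideal`.
Used for S49 with the form given by `IsLatticeRealized`: the Eisenstein factor `e1Chi3` of the bridge
product is congruent to `1`. -/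
theorem congruence_ideal {N : ℕ} [NeZero N] {f₀ : CuspForm (Gamma0 N) 2} {a af : ℕ → ℤ}
    (heig : FormalHecke.IsEigensystem
      (fun ℓ => if ℓ ∣ N then 0 else ((EisensteinWeightOne.chiNegThree ℓ : ℤ) : ℤ)) a)
    (haf : ∀ n, (af n : ℂ) = qCoeff f₀ n) (hcong : ∀ n, (3 : ℤ) ∣ af n - a n) :
    H71.congIdeal N f₀ 3 ≠ ⊤ ∧
      (∀ (l : ℕ) (hl : l.Prime) (hlN : ¬ l ∣ N),
        CuspForm.heckeAlgebra.T hl hlN (Set.notMem_empty l) -
          ((a l : ℤ) : CuspForm.heckeAlgebra N 2 ∅) ∈ H71.congIdeal N f₀ 3) ∧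
      ∀ n, (3 : ℤ) ∣ (bridgeProduct a).coeff n - a n :=
  ⟨H71.congIdeal_ne_top heig.1 haf hcong,
    fun _ hl hlN => H71.T_sub_mem_congIdeal heig haf hcong hl hlN,
    H71.three_dvd_coeff_bridgeProduct_sub a⟩

/-- **Eigenvectors are eigenforms.** A nonzero simultaneous eigenvector in `S₂(Γ₀(N))` of the Hecke
algebra generated by all `T_l` (`l ∤ N`) and `U_q` (`q ∣ N`) has a multiple which is a normalised
eigenform (`IsNormalizedEigenform`: `a_1 = 1` and the usual multiplicativity of the coefficients),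
and its coefficients at primes are the eigenvalues. Proof: if the first coefficient were `0`, the
recursions would give that all coefficients are `0`. File `H71Eigenform`. -/
theorem exists_isNormalizedEigenform {N : ℕ} [NeZero N] (χ : CuspForm.heckeAlgebra N 2 ∅ → ℂ)
    (v : CuspForm (Gamma0 N) 2) (hv : v ≠ 0)
    (heig : ∀ t : CuspForm.heckeAlgebra N 2 ∅,
      (t : Module.End ℂ (CuspForm (Gamma0 N) 2)) v = χ t • v) :
    ∃ f : CuspForm (Gamma0 N) 2, f.IsNormalizedEigenform ∧
      (∀ t : CuspForm.heckeAlgebra N 2 ∅,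
        (t : Module.End ℂ (CuspForm (Gamma0 N) 2)) f = χ t • f) ∧
      (∀ (l : ℕ) (hl : l.Prime) (hlN : ¬ l ∣ N),
        qCoeff f l = χ (CuspForm.heckeAlgebra.T hl hlN (Set.notMem_empty l))) ∧
      (∀ (q : ℕ) (hq : q.Prime) (hqN : q ∣ N),
        qCoeff f q = χ (CuspForm.heckeAlgebra.U hq hqN (Set.notMem_empty q))) :=
  H71.exists_isNormalizedEigenform χ v hv heig

/-- **S49**, the frozen statement. `CuspForm.HasIntegralBasis N`: the forms with integral
`q`-expansions span `S₂(Γ₀(N))`. `FormalHecke.IsEigensystem e a`: `a_1 = 1` and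
`a_{ℓn} + e_ℓ a_{n/ℓ} = a_ℓ a_n` for all primes `ℓ`. `CuspForm.IsLatticeRealized N a`: the product of
`∑ a_n qⁿ` with the Eisenstein series of weight one and character `χ₋₃` is congruent modulo `3` to
a form of weight two on `Γ₀(N)` with integral coefficients. File `S49`. -/
theorem s49 {N : ℕ} [NeZero N] (h : CuspForm.HasIntegralBasis N) {a : ℕ → ℤ}
    (heig : FormalHecke.IsEigensystem
      (fun ℓ => if ℓ ∣ N then 0 else ((EisensteinWeightOne.chiNegThree ℓ : ℤ) : ℤ)) a)
    (hreal : CuspForm.IsLatticeRealized N a) :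
    ∃ (f : CuspForm (Gamma0 N) 2) (_ : f.IsNormalizedEigenform) (𝔪' : Ideal Zb),
      𝔪'.IsMaximal ∧ ((3 : ℕ) : Zb) ∈ 𝔪' ∧
      ∀ (ℓ : ℕ) (_ : ℓ.Prime) (_ : ¬ ℓ ∣ N),
        ∃ c : Zb, (c : ℂ) = qCoeff f ℓ ∧ c - (a ℓ : Zb) ∈ 𝔪' :=
  Fermat.Agent.S49.result h heig hreal

/-- **The lemma of Deligne and Serre for normalised eigenforms of weight two.** Let `f₀` be a form in
`S₂(Γ₀(N))` with a coefficient which is an algebraic integer outside the prime ideal `𝔪` of `ℤ̄`.
There is a normalised eigenform `g` such that, for each prime `p` for which `f₀` is an eigenform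
modulo `𝔪` of the `p`-th Hecke operator (`H49.heckeCoeffTwo N p a n` is `a_{np} + p a_{n/p}` for
`p ∤ N` and `a_{np}` for `p ∣ N`) with eigenvalue `m`, the eigenvalue of `g` is congruent to `m`
modulo `𝔪`. The hypothesis `hint`, that the forms with integral coefficients span `S₂(Γ₀(N))` over
`ℂ`, is S23. File `H49Lifting`; the steps are in `GuideEigenLifting`. Not in the closure of S48 or
S49; used in the closure of S01 (level lowering, block LT). -/
theorem exists_eigenform_congruent {N : ℕ} [NeZero N] (hint : CuspForm.HasIntegralStructure N 2)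
    (𝔪 : Ideal Zb) [𝔪.IsPrime] (f₀ : CuspForm (Gamma0 N) 2)
    (hne : ∃ n : ℕ, ∃ b : Zb, b ∉ 𝔪 ∧ (b : ℂ) = qCoeff ⇑f₀ n) :
    ∃ g : CuspForm (Gamma0 N) 2, g.IsNormalizedEigenform ∧
      ∀ p : ℕ, p.Prime → ∃ c : Zb, (c : ℂ) = qCoeff ⇑g p ∧
        ∀ m : Zb, (∀ n : ℕ, ∃ b ∈ 𝔪, (b : ℂ) =
          H49.heckeCoeffTwo N p (fun n => qCoeff ⇑f₀ n) n - (m : ℂ) * qCoeff ⇑f₀ n) →
            c - m ∈ 𝔪 :=
  H49.exists_normalizedEigenform_congruent hint 𝔪 f₀ hne

end Fermat.Agent.Guide.DeligneSerre
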