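import Fermat.Agent.H85Cheb

/-!
# Guide: finite subgroups of `GL₂`, and the passage from characteristic `ℓ` to characteristic zero

Companion of `GuideDeligneSerre`, sections 4 and 5: the steps of `exists_finite_set`,
`card_le_of_few_charpoly`, `card_bound`, `glue`, `irreducible` and `s48_of_galoisAction`. No statement of
that file is repeated. Every theorem is a citation of a theorem of the library with its statement written out.

**The situation.** `f` is an eigenform of weight one for `Γ₁(N)` with eigenvalues `a_p` and character `ε`. For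
every large prime `ℓ` and every homomorphism `φ` from the ring `Zb` of all algebraic integers to an
algebraically closed field of characteristic `ℓ` there is a representation `ρ_ℓ` of `Gal(ℚ̄/ℚ)` of dimension
two over this field, unramified outside `N ℓ`, such that the Frobenius elements above `p` have trace `φ(a_p)`
and determinant `φ(ε(p))` (`DeligneSerre.residual_of_weightOne`). We want a representation over `ℂ`,
unramified outside `N`, such that the Frobenius elements above `p` have trace `a_p` and determinant `ε(p)`.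

**The proof.**
1. *Few eigenvalues* (`density_from_finite_sums` to `finitely_many_values`). Outside a set of primes of upper
   density `≤ 1/4` the pair `(a_p, ε(p))` lies in a finite set `T` which does not depend on `ℓ`.
2. *Group theory, order prime to `ℓ`* (`orbit_arithmetic` to `prime_to_characteristic`). A finite subgroup `G`
   of `GL₂` of order prime to the characteristic acts on the projective line; an element which is not scalar
   has exactly two fixed points. Counting gives: `G` fixes a point up to index two, or the image of `G` in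
   `PGL₂` has at most `60` elements. In both cases few characteristic polynomials means few elements.
3. *Group theory, order divisible by `ℓ`* (`transvections` to `characteristic_bounded`). If `G` is
   irreducible, with traces in `𝔽_ℓ`, then it is conjugate to a subgroup of `GL₂(𝔽_ℓ)` with at least `ℓ²(ℓ-1)`
   elements, and there are at most `2ℓ²` matrices for each characteristic polynomial; so `ℓ` is bounded.
4. *The images* (`finite_image` to `irreducible_of_no_common_eigenvector`). If `φ(a_p), φ(ε(p)) ∈ 𝔽_ℓ`, the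
   semisimplification of `ρ_ℓ` has traces in `𝔽_ℓ`, since every element is a power of a Frobenius element on a
   finite level. With Chebotarev's theorem and steps 1, 2, 3 its image has at most `320 |T|` elements.
5. *From `ℓ` to zero* (`denominators` to `common_representation`). The images of the `ρ_ℓ` are quotients of
   `Gal(ℚ̄/ℚ)` of bounded order, so that infinitely many are isomorphic to the same group `Q`, with traces and
   determinants the reductions of the same algebraic integers `t(g)`, `d(g)`, `g ∈ Q`. The matrices of a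
   representation of `Q` with this trace and determinant are the solutions of a system of polynomial
   equations; it has a solution over `ℂ` because it has solutions in infinitely many characteristics.
6. *Gluing* (`finitely_many_characteristics`, `frobenius_determines`). The representations over `ℂ` obtained
   from two different `ℓ` have the same traces at the Frobenius elements, hence everywhere. So they are
   unramified at `ℓ` too.
7. *The assembly* (`primes_with_residue_map` to `deligne_serre_weight_one`). Infinitely many `ℓ` have a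
   homomorphism `φ` with `φ(a_p), φ(ε(p)) ∈ 𝔽_ℓ` for all `p`; irreducibility; S48.

Files `H85MeanSq`, `H85Bad`, `H85Extend`, `H85Orbit`, `H85Group`, `H85Group2`, `H85SS`, `H85Bound`,
`H85Transfer`, `H85Pigeon`, `H85Glue`, `H85Split`, `H85Final`, `H85Skel`, `H85Fin`. Chebotarev's theorem:
`GuideChebotarev`. Closures: S47, S48. Notes [185]. Written by helper85.
-/

set_option autoImplicit false

noncomputable section

open Filter Topology Matrix CongruenceSubgroup ModularFormClass
open scoped MatrixGroups LinearAlgebra.Projectivization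
open Fermat.Agent.H99 (dsum HasLogDensity)

namespace Fermat.Agent.Guide.DeligneSerreSteps

local notation "Qb" => AlgebraicClosure ℚ
local notation "Gq" => (AlgebraicClosure ℚ ≃ₐ[ℚ] AlgebraicClosure ℚ)
local notation "Zb" => integralClosure ℤ ℂ

/-! ## 1. Few eigenvalues outside a set of primes of small density

`H85.ULD c δ` (upper density at most `δ`) and `H99.HasLogDensity c δ` (density `δ`) are the notions of
`DeligneSerre.density_notions`, for functions `c` on the set of all primes. -/

/-- **From finite sums to upper densities.** If `0 ≤ b ≤ c` and if the sums of `b(p) p^(-s)` over all finite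
sets of primes `p ∤ N` are at most `log (1 / (s - 1)) + C` for `1 < s ≤ 2`, the function `b` (set to `0` at
the divisors of `N`) has upper density at most `1`. (`H85MeanSq`.) -/
theorem density_from_finite_sums (N : ℕ) (b : ℕ → ℝ) (c : ℝ) (hb0 : ∀ p, 0 ≤ b p)
    (hb : ∀ p, b p ≤ c) (C : ℝ) (h : ∀ s : ℝ, 1 < s → s ≤ 2 → ∀ P : Finset ℕ,
      (∀ p ∈ P, p.Prime ∧ ¬ p ∣ N) →
        ∑ p ∈ P, b p * (p : ℝ) ^ (-s) ≤ Real.log (1 / (s - 1)) + C) :
    H85.ULD (fun p : Nat.Primes => if (p : ℕ) ∣ N then 0 else b p) 1 :=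
  H85.uld_of_finite_sums N b c hb0 hb C h

/-- **Mean square of the eigenvalues and of their conjugates.** For every ring homomorphism `σ : ℂ → ℂ` and
every `c > 0` the function `min(|σ(a_p)|², c)` has upper density at most `1`: the numbers `σ(a_n)` are the
coefficients of an eigenform (`DeligneSerre.exists_conjugate`), to which the Rankin bound applies
(`DeligneSerre.rankin_bound`). (`H85MeanSq`.) -/
theorem mean_square_of_conjugates (N : ℕ) [NeZero N] (ε : DirichletCharacter ℂ N)
    (f : CuspForm (Gamma1 N) 1) (hf₁ : qCoeff f 1 = 1)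
    (hT : ∀ p : ℕ, p.Prime → ¬ p ∣ N → ∀ n : ℕ,
      qCoeff f (p * n) + ε (p : ZMod N) * (if p ∣ n then qCoeff f (n / p) else 0) =
        qCoeff f p * qCoeff f n) (σ : ℂ →+* ℂ) (c : ℝ) (hc : 0 < c) :
    H85.ULD (fun p : Nat.Primes => if (p : ℕ) ∣ N then 0 else min (‖σ (qCoeff f p)‖ ^ 2) c) 1 :=
  H85.meanSquare N ε f hf₁ hT σ c hc

/-- **Extension of embeddings.** Every embedding in `ℂ` of an algebraic extension `E ⊆ ℂ` of `ℚ` is the
restriction of a ring homomorphism `ℂ → ℂ`. So the preceding theorem bounds all conjugates of the `a_p`.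
Proof: extend to the algebraic numbers, then to the polynomials in the elements of a transcendence basis of
`ℂ`, with these elements fixed, then to `ℂ`. (`H85Extend`; the last step: `H23Descent`.) -/
theorem extend_embedding (E : IntermediateField ℚ ℂ) [Algebra.IsAlgebraic ℚ E]
    (τ : E →ₐ[ℚ] ℂ) : ∃ σ : ℂ →+* ℂ, ∀ x : E, σ (x : ℂ) = τ x :=
  H85.exists_extend_embedding E τ

/-- **Comparison of a density with an upper density**, up to finitely many primes. It is used with the values
of a class function at the Frobenius elements for `c` (the density is given by Chebotarev's theorem) and, for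
`d`, the indicator function of an exceptional set of primes in `DeligneSerre.card_bound`, the function
`min(|a_p|², 4)` in `DeligneSerre.irreducible`. (`H85Bad`.) -/
theorem density_comparison {c d : Nat.Primes → ℝ} {δ δ' : ℝ} (h : HasLogDensity c δ)
    (h' : H85.ULD d δ') (S : Finset ℕ) (hle : ∀ p : Nat.Primes, (p : ℕ) ∉ S → c p ≤ d p) :
    δ ≤ δ' :=
  H85.density_le h h' S hle

open NumberField in
/-- **Finitely many values.** There are finitely many roots of unity `x` with `xⁿ = 1` in the ring of
algebraic integers, and finitely many algebraic integers in a number field `E ⊆ ℂ` all of whose conjugates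
have absolute value at most `c` (`H85.inclZZ E` is the inclusion of the integers of `E` in `Zb`, whose image
consists of all algebraic integers in `E`). Proof of
`DeligneSerre.exists_finite_set` from here: `E` has `r` embeddings `τ`; let `c = r/δ` and let `X` be the set
of primes with `|τ(a_p)|² ≥ c` for some `τ`. Its indicator function is at most `(1/c) ∑_τ min(|τ(a_p)|², c)`,
which has upper density at most `r/c = δ`. For `p ∉ X` all conjugates of `a_p` are at most `√c`. (`H85Bad`,
`H85Split`.) -/
theorem finitely_many_values (E : IntermediateField ℚ ℂ) [FiniteDimensional ℚ E] (n : ℕ)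
    (hn : 0 < n) (c : ℝ) :
    {x : Zb | x ^ n = 1}.Finite ∧
    {x : Zb | ∃ y : 𝓞 E, H85.inclZZ E y = x ∧ ∀ τ : E →+* ℂ, ‖τ (y : E)‖ ≤ c}.Finite ∧
    (∀ y : 𝓞 E, ((H85.inclZZ E y : Zb) : ℂ) = ((y : E) : ℂ)) ∧
    ∀ x : Zb, (x : ℂ) ∈ E → ∃ y : 𝓞 E, H85.inclZZ E y = x :=
  ⟨H85.finite_rou n hn, H85.finite_bounded E c, fun _ => rfl, H85.exists_inclZZ E⟩

/-! ## 2. Finite groups of order prime to the characteristic

This is `DeligneSerre.card_le_of_few_charpoly` for groups of order prime to the characteristic of the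
field `k`. -/

/-- **Arithmetic of three orbits.** If three orbits with at least three elements have sizes `s_i = n / e_i`,
`e_i ≥ 2`, and `s₁ + s₂ + s₃ = n + 2`, then `n ≤ 60`. (With `e₁ ≤ e₂ ≤ e₃`: `e₁ = 2`, then `e₂ ≤ 3`;
`e₂ = 2` gives `s₃ = 2`, against the hypothesis, and `e₂ = 3` gives `e₃ ≤ 5`. These are the groups of
rotations of the regular solids, of orders `12`, `24`, `60`.) (`H85Orbit`.) -/
theorem orbit_arithmetic (n s1 s2 s3 e1 e2 e3 : ℕ) (h1 : s1 * e1 = n) (h2 : s2 * e2 = n)
    (h3 : s3 * e3 = n) (he1 : 2 ≤ e1) (he2 : 2 ≤ e2) (he3 : 2 ≤ e3)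
    (hs1 : 3 ≤ s1) (hs2 : 3 ≤ s2) (hs3 : 3 ≤ s3) (hsum : s1 + s2 + s3 = n + 2) : n ≤ 60 :=
  H85.arith_three' n s1 s2 s3 e1 e2 e3 h1 h2 h3 he1 he2 he3 hs1 hs2 hs3 hsum

/-- **Counting of fixed points.** Let a finite group `G` act on a set `X`, a normal subgroup `Z` acting
trivially and every element outside `Z` having exactly two fixed points. Then the stabiliser of some point has
index at most two, or `[G : Z] ≤ 60`. Proof: replace `X` by the finite set of the points fixed by some
`g ∉ Z`. Let `n = [G : Z]` and let `r` be the number of orbits; the orbit counting formula is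
`r n = |X| + 2 (n - 1)`. Every orbit has at most `n/2` elements, and at least three if the first case does not
hold; the first gives `r < 4`, the second `r ≥ 3` if `n > 1`. Then `orbit_arithmetic`. (`H85Orbit`.) -/
theorem orbit_counting {G X : Type*} [Group G] [Finite G] [MulAction G X]
    (Z : Subgroup G) [Z.Normal] (hZ : ∀ z ∈ Z, ∀ x : X, z • x = x)
    (h2 : ∀ g, g ∉ Z → Nat.card (MulAction.fixedBy X g) = 2) :
    (∃ x : X, (MulAction.stabilizer G x).index ≤ 2) ∨ Nat.card G ≤ 60 * Nat.card Z :=
  H85.orbit_count' Z hZ h2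

section

variable {k : Type*} [Field k]

/-- **Unipotent elements.** For a matrix `u` of size two: `u² - tr(u) u + det(u) = 0`; if `tr u = 2` and
`det u = 1` then `(u - 1)² = 0`; and if `(u - 1)² = 0` and `u^m = 1` with `m` not zero in `k`, then `u = 1`.
(`H85Group`.) -/
theorem unipotent_elements (u : Matrix (Fin 2) (Fin 2) k) :
    (u * u - u.trace • u + u.det • (1 : Matrix (Fin 2) (Fin 2) k) = 0) ∧
    (u.trace = 2 → u.det = 1 → (u - 1) * (u - 1) = 0) ∧
    ∀ m : ℕ, (u - 1) * (u - 1) = 0 → (m : k) ≠ 0 → u ^ m = 1 → u = 1 :=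
  ⟨H85.ch u, H85.sub_one_sq u, fun m h hm hu => H85.eq_one_of_sq_zero u h m hm hu⟩

/-- **Eigenvalues are roots of the characteristic polynomial**, and it has at most two roots.
(`H85Group`.) -/
theorem eigenvalue_equation (u : Matrix (Fin 2) (Fin 2) k) (v : Fin 2 → k) (hv : v ≠ 0) (c : k)
    (h : u *ᵥ v = c • v) (t d c1 c2 c3 : k) (h1 : c1 * c1 - t * c1 + d = 0)
    (h2 : c2 * c2 - t * c2 + d = 0) (h3 : c3 * c3 - t * c3 + d = 0) :
    c * c - u.trace * c + u.det = 0 ∧ (c1 = c2 ∨ c1 = c3 ∨ c2 = c3) :=
  ⟨H85.trace_eq_of_fixed u v hv c h, H85.root_eq_or t d c1 c2 c3 h1 h2 h3⟩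

/-- **Two eigenvectors.** A matrix `A` over an algebraically closed field which is not scalar and satisfies
`A^m = 1`, `m` not zero in `k`, has two different eigenvalues. (`H85Group`.) -/
theorem two_eigenvectors [IsAlgClosed k] (A : Matrix (Fin 2) (Fin 2) k) (m : ℕ)
    (hm : (m : k) ≠ 0) (hA : A ^ m = 1) (hns : ∀ c : k, A ≠ c • 1) :
    ∃ (l μ : k) (v w : Fin 2 → k), l ≠ μ ∧ v ≠ 0 ∧ w ≠ 0 ∧
      A *ᵥ v = l • v ∧ A *ᵥ w = μ • w :=
  H85.exists_eigen A m hm hA hns

/-- **Fixed points on the projective line.** `g` fixes the line of `v` if and only if `v` is an eigenvector;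
if `g` has eigenvectors `v`, `w` with different eigenvalues, its fixed points are the lines of `v` and `w`,
and they are different. (`H85Group`.) -/
theorem fixed_points (g : GL (Fin 2) k) (l μ : k) (v w : Fin 2 → k) (hlμ : l ≠ μ) (hv : v ≠ 0)
    (hw : w ≠ 0) (h1 : (g : Matrix (Fin 2) (Fin 2) k) *ᵥ v = l • v)
    (h2 : (g : Matrix (Fin 2) (Fin 2) k) *ᵥ w = μ • w) (x : Fin 2 → k) (hx : x ≠ 0) :
    (g • (Projectivization.mk k x hx) = Projectivization.mk k x hx ↔
      ∃ c : k, (g : Matrix (Fin 2) (Fin 2) k) *ᵥ x = c • x) ∧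
    MulAction.fixedBy (ℙ k (Fin 2 → k)) g =
      {Projectivization.mk k v hv, Projectivization.mk k w hw} ∧
    Projectivization.mk k v hv ≠ Projectivization.mk k w hw :=
  ⟨H85.smul_mk_eq_iff g x hx, H85.fixedBy_card g l μ v w hlμ hv hw h1 h2⟩

/-- **A group which fixes a line.** Let `D` be a finite group of matrices of order prime to the
characteristic, with the common eigenvector `v`. At most two elements of `D` have given trace `t` and
determinant `d`. Proof: if `g`, `h` have the same eigenvalue on `v`, then `u = h⁻¹ g` fixes `v` and has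
determinant `1`, hence trace `2`, hence `u = 1` by `unipotent_elements`; and at most two eigenvalues are
possible. (`H85Group`.) -/
theorem few_elements_on_a_line (D : Subgroup (GL (Fin 2) k)) [Finite D]
    (hD : ((Nat.card D : ℕ) : k) ≠ 0) (v : Fin 2 → k) (hv : v ≠ 0)
    (hline : ∀ g ∈ D, ∃ c : k, (g : Matrix (Fin 2) (Fin 2) k) *ᵥ v = c • v)
    (H : Finset (GL (Fin 2) k)) (hH : ∀ g ∈ H, g ∈ D) (t d : k)
    (htd : ∀ g ∈ H, (g : Matrix (Fin 2) (Fin 2) k).trace = t ∧
      (g : Matrix (Fin 2) (Fin 2) k).det = d) : H.card ≤ 2 :=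
  H85.card_le_two_of_line D hD v hv hline H hH t d htd

/-- **Order prime to the characteristic.** Let `G` be a finite subgroup of `GL₂(k)` of order prime to the
characteristic, `k` algebraically closed, and let `H ⊆ G` have at least `(3/4) |G|` elements and at most `M`
different pairs (trace, determinant). Then `|G| ≤ 160 M`. Proof: `orbit_counting` for the projective line and
the scalar matrices in `G` (`H85.scalars`). If a subgroup `D` of index at most two fixes a line, `H` has at
most `2M` elements in `D` and at least `|D| - |G|/4 ≥ |G|/4`, so that `|G| ≤ 8M`. Otherwise there are at most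
`60` classes modulo scalars, and in each class at most two elements (`x` and `-x`) have the same trace and
determinant, so that `(3/4) |G| ≤ |H| ≤ 2 · 60 · M`. (`H85Group`.) -/
theorem prime_to_characteristic [IsAlgClosed k] (G : Subgroup (GL (Fin 2) k)) [Finite G]
    (hG : ((Nat.card G : ℕ) : k) ≠ 0) (M : ℕ) (H : Finset (GL (Fin 2) k))
    (hHG : ∀ g ∈ H, g ∈ G) (hH : 3 * Nat.card G ≤ 4 * H.card)
    (hM : ∃ T : Finset (k × k), T.card ≤ M ∧ ∀ g ∈ H,
      ((g : Matrix (Fin 2) (Fin 2) k).trace, (g : Matrix (Fin 2) (Fin 2) k).det) ∈ T) :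
    Nat.card G ≤ 160 * M :=
  H85.card_le_of_prime_to G hG M H hHG hH hM

/-! ## 3. Irreducible groups of order divisible by the characteristic

This is `DeligneSerre.card_le_of_few_charpoly` in the other case: the order of the group is divisible by the
characteristic `ℓ` only for small `ℓ`. -/

/-- **Transvections.** Let `G` be a finite subgroup of `GL₂(k)` without common eigenvector, `k` of
characteristic `ℓ`, and suppose that `ℓ` divides the order of `G`. After conjugation `G` contains the matrices
`(1 1; 0 1)` and `(1 0; y 1)` with `y ≠ 0`. Proof: let `u ∈ G` have order `ℓ`, and `N = u - 1`, of square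
zero; let `v₀` span the image of `N`, let `g ∈ G` with `w = g v₀ ∉ k v₀`, and `v = N w`. In the basis `v`, `w`
the matrix of `u` is `(1 1; 0 1)`; `g u g⁻¹` fixes `w` and is the second matrix. (`H85Group2`.) -/
theorem transvections (ℓ : ℕ) [Fact ℓ.Prime] [CharP k ℓ] (G : Subgroup (GL (Fin 2) k))
    [Finite G] (hdvd : ℓ ∣ Nat.card G)
    (hirr : ∀ v : Fin 2 → k, v ≠ 0 →
      ∃ g ∈ G, ∀ c : k, (g : Matrix (Fin 2) (Fin 2) k) *ᵥ v ≠ c • v) :
    ∃ (P : GL (Fin 2) k) (u u' : GL (Fin 2) k) (y : k), u ∈ G ∧ u' ∈ G ∧ y ≠ 0 ∧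
      (P⁻¹ * u * P : GL (Fin 2) k).val = !![1, 1; 0, 1] ∧
      (P⁻¹ * u' * P : GL (Fin 2) k).val = !![1, 0; y, 1] :=
  H85.exists_normal_form ℓ G hdvd hirr

/-- **Powers of transvections, and conjugation.** `H85.cj P g` is the matrix of `P⁻¹ g P`. (`H85Group2`.) -/
theorem powers_of_transvections (x : k) (n : ℕ) (P g h : GL (Fin 2) k) :
    (!![1, x; 0, 1] : Matrix (Fin 2) (Fin 2) k) ^ n = !![1, n * x; 0, 1] ∧
    (!![1, 0; x, 1] : Matrix (Fin 2) (Fin 2) k) ^ n = !![1, 0; n * x, 1] ∧
    H85.cj P g = (P⁻¹ * g * P : GL (Fin 2) k).val ∧ H85.cj P (g * h) = H85.cj P g * H85.cj P h ∧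
    (H85.cj P g).trace = g.val.trace ∧ (H85.cj P g).det = g.val.det :=
  ⟨H85.upper_pow x n, H85.lower_pow x n, rfl, H85.cj_mul P g h, H85.cj_trace P g, H85.cj_det P g⟩

/-- **The characteristic is bounded.** In addition to the hypotheses of `transvections`, suppose that the
traces of the elements of `G` lie in the prime field, and that three quarters of the elements have at most `M`
different pairs (trace, determinant). Then `3 (ℓ - 1) ≤ 8 M`. Proof: let `u`, `u'` be as in `transvections`.
The traces of `u u'`, `g`, `g u`, `g u'`, `g u u'` show that `y` and all entries of `g` (in the new basis) are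
in `𝔽_ℓ`. There are at most `2 ℓ²` matrices over `𝔽_ℓ` with given trace and determinant: for `(a b; c d)` with
`b ≠ 0` give `a` and `b`, with `b = 0` give `a` and `c`. The elements `u^i u'^j u^m` of `G` with
`0 ≤ i, m < ℓ` and `0 < j < ℓ` are different, so `|G| ≥ ℓ² (ℓ - 1)`. Hence
`3 ℓ² (ℓ - 1) ≤ 3 |G| ≤ 4 |H| ≤ 8 ℓ² M`. (`H85Group2`.) -/
theorem characteristic_bounded (ℓ : ℕ) [Fact ℓ.Prime] [CharP k ℓ]
    (G : Subgroup (GL (Fin 2) k)) [Finite G] (hdvd : ℓ ∣ Nat.card G)
    (hirr : ∀ v : Fin 2 → k, v ≠ 0 →
      ∃ g ∈ G, ∀ c : k, (g : Matrix (Fin 2) (Fin 2) k) *ᵥ v ≠ c • v)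
    (htr : ∀ g ∈ G, ∃ n : ℤ, (g : Matrix (Fin 2) (Fin 2) k).trace = n)
    (M : ℕ) (H : Finset (GL (Fin 2) k)) (hHG : ∀ g ∈ H, g ∈ G)
    (hH : 3 * Nat.card G ≤ 4 * H.card)
    (hM : ∃ T : Finset (k × k), T.card ≤ M ∧ ∀ g ∈ H,
      ((g : Matrix (Fin 2) (Fin 2) k).trace, (g : Matrix (Fin 2) (Fin 2) k).det) ∈ T) :
    3 * (ℓ - 1) ≤ 8 * M :=
  H85.ell_le ℓ G hdvd hirr htr M H hHG hH hM

end

/-! ## 4. The images of the representations modulo `ℓ` -/

/-- **Finite image.** A homomorphism `ρ` of `Gal(ℚ̄/ℚ)` which factors through a finite level, that is, which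
is trivial on the automorphisms fixing some number field, has finite image. A homomorphism `ρ'` whose kernel
contains the kernel of `ρ` factors through a finite level, too. (`H85Bound`, `H85Glue`.) -/
theorem finite_image {Q Q' : Type} [Group Q] [Group Q'] (ρ : Gq →* Q)
    (hρ : GaloisFactorsThroughFiniteLevel ρ) (ρ' : Gq →* Q') (hker : ∀ σ, ρ σ = 1 → ρ' σ = 1) :
    Finite ρ.range ∧ GaloisFactorsThroughFiniteLevel ρ' :=
  ⟨H85.finite_range ρ hρ, H85.level_comp hρ ρ' hker⟩

/-- **Every element is a power of a Frobenius element on a finite level**, above a prime outside a given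
finite set: the density theorem of Frobenius (`DeligneSerre.frobenius_density`). (`H85Bound`.) -/
theorem frobenius_powers {Q : Type} [Group Q] (ρ : Gq →* Q)
    (hρ : GaloisFactorsThroughFiniteLevel ρ) (S : Finset ℕ) (σ : Gq) :
    ∃ p : ℕ, p.Prime ∧ p ∉ S ∧ ∃ A : ValuationSubring Qb, A.LiesOverPrime p ∧
      ∃ τ : Gq, A.IsFrobeniusAt τ p ∧ ∃ j : ℕ, ρ σ = ρ (τ ^ j) :=
  H85.exists_frob_pow ρ hρ S σ

/-- **Traces of powers.** If the trace and the determinant of a matrix of size two are in the prime field, so
are the traces of its powers; two matrices with the same trace and determinant have powers with the same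
traces. Both by the recursion `tr B^(n+2) = tr(B) tr B^(n+1) - det(B) tr B^n`. (`H85Bound`, `H85Glue`.) -/
theorem traces_of_powers {κ : Type*} [Field κ] (B C : Matrix (Fin 2) (Fin 2) κ) (j : ℕ) :
    ((∃ n : ℤ, B.trace = n) → (∃ n : ℤ, B.det = n) → ∃ n : ℤ, (B ^ j).trace = n) ∧
    (B.trace = C.trace → B.det = C.det → (B ^ j).trace = (C ^ j).trace) :=
  ⟨fun h1 h2 => H85.trace_pow_int B h1 h2 j, fun h1 h2 => H85.trace_pow_congr B C h1 h2 j⟩

/-- **Invariance under conjugation and inversion.** The pair `(tr, det)` is invariant under conjugation, and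
that of `x⁻¹` is `(tr / det, 1 / det)`. In `DeligneSerre.card_bound` the class function
"`0` if the pair of `g` or that of `g⁻¹` is in `φ(T)`, and `1` otherwise" is therefore invariant under
conjugation and inversion, as Chebotarev's theorem in its symmetric form requires, and the elements where it
is `0` have at most `2 |T|` different pairs. (`H85Bound`.) -/
theorem trace_and_determinant {κ : Type*} [Field κ] (x y : GL (Fin 2) κ) :
    H85.td x = ((x : Matrix (Fin 2) (Fin 2) κ).trace, (x : Matrix (Fin 2) (Fin 2) κ).det) ∧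
    H85.td (y⁻¹ * x * y) = H85.td x ∧
    H85.td x⁻¹ = ((H85.td x).1 / (H85.td x).2, 1 / (H85.td x).2) :=
  ⟨rfl, H85.td_conj x y, H85.td_inv x⟩

/-- **The character on a common eigenvector.** (`H85SS`.) -/
theorem character_on_eigenvector {Γ κ : Type*} [Group Γ] [Field κ] (ρ : Γ →* GL (Fin 2) κ)
    (v : Fin 2 → κ) (hv : v ≠ 0) (h : ∀ g, ∃ c : κ, (ρ g).val *ᵥ v = c • v) :
    ∃ χ : Γ →* κˣ, ∀ g, (ρ g).val *ᵥ v = (χ g : κ) • v :=
  H85.exists_char ρ v hv h

/-- **Semisimplification.** For every representation `ρ` of dimension two there is a representation `ρ'` with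
the same traces and determinants, trivial where `ρ` is trivial, which has no common eigenvector or is
diagonal. Proof: if `v` is a common eigenvector with character `χ`, take the diagonal representation with
the characters `χ` and `det(ρ) / χ`. (`H85SS`.) -/
theorem semisimplification {Γ κ : Type*} [Group Γ] [Field κ] (ρ : Γ →* GL (Fin 2) κ) :
    ∃ ρ' : Γ →* GL (Fin 2) κ,
      (∀ σ, (ρ' σ).val.trace = (ρ σ).val.trace ∧ (ρ' σ).val.det = (ρ σ).val.det) ∧
      (∀ σ, ρ σ = 1 → ρ' σ = 1) ∧
      ((∀ v : Fin 2 → κ, v ≠ 0 → ∃ g, ∀ c : κ, (ρ' g).val *ᵥ v ≠ c • v) ∨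
        ∃ χ₁ χ₂ : Γ →* κˣ, ∀ g, (ρ' g).val = Matrix.diagonal ![(χ₁ g : κ), (χ₂ g : κ)]) := by
  obtain ⟨ρ', h1, h2, h3⟩ := H85.exists_ss ρ
  exact ⟨ρ', h1, h2, h3.imp id fun ⟨χ₁, χ₂, h⟩ => ⟨χ₁, χ₂, fun g => by
    rw [h, H85.diagRep_val]⟩⟩

/-- **Diagonal groups have order prime to the characteristic.** An element of order `ℓ` would have
eigenvalues `x` with `(x - 1)^ℓ = 0`. (`H85SS`.) -/
theorem diagonal_groups {Γ κ : Type*} [Group Γ] [Field κ] (ℓ : ℕ) [Fact ℓ.Prime] [CharP κ ℓ]
    (χ₁ χ₂ : Γ →* κˣ) [Finite (H85.diagRep χ₁ χ₂).range] :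
    (∀ g, (H85.diagRep χ₁ χ₂ g).val = Matrix.diagonal ![(χ₁ g : κ), (χ₂ g : κ)]) ∧
    ¬ ℓ ∣ Nat.card (H85.diagRep χ₁ χ₂).range :=
  ⟨H85.diagRep_val χ₁ χ₂, H85.not_dvd_card_range_diagRep ℓ χ₁ χ₂⟩

/-- **Irreducibility.** A representation of dimension two without common eigenvector is irreducible in the
sense of the frozen statements. (`H85SS`.) -/
theorem irreducible_of_no_common_eigenvector {Γ : Type} [Group Γ] {κ : Type} [Field κ]
    (ρ : Γ →* GL (Fin 2) κ)
    (h : ∀ v : Fin 2 → κ, v ≠ 0 → ∃ g, ∀ c : κ, (ρ g).val *ᵥ v ≠ c • v) :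
    (Deformation.matrixRepresentation ρ).IsIrreducible :=
  H85.isIrreducible_of_noLine ρ h

/-! ## 5. From characteristic `ℓ` to characteristic zero -/

/-- **Denominators.** Every algebraic number is the quotient of an algebraic integer by a non-zero integer
(`H85.toAlg` is the inclusion of `Zb` in the field of algebraic numbers). (`H85Pigeon`.) -/
theorem denominators (x : algebraicClosure ℚ ℂ) :
    Function.Injective H85.toAlg ∧ ∃ m : ℤ, m ≠ 0 ∧ ∃ o : Zb, H85.toAlg o = m * x :=
  ⟨H85.toAlg_injective, H85.toAlg_den x⟩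

universe u in
/-- **Polynomial systems.** Let `O` be a subring of a field `k'` of characteristic zero such that every
element of `k'` has a multiple by a non-zero integer in `O`, and let `K ⊇ k'` be algebraically closed. A
finite system of polynomial equations with coefficients in `O` which has solutions in fields of infinitely
many characteristics `ℓ ∈ S`, for homomorphisms `φ` from `O` to these fields, has a solution in `K`. Proof: if
there is none, `1` is a combination of the polynomials with coefficients in `k'[x]` (Nullstellensatz); after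
multiplication by a non-zero integer `m₀` the coefficients are in `O[x]`; the value at the solution in
characteristic `ℓ` is `m₀ = 0`, so that every `ℓ ∈ S` divides `m₀`. (`H85Transfer`.) -/
theorem solutions_in_characteristic_zero {O k' K : Type*} [CommRing O] [Field k'] [Algebra O k']
    [Field K] [IsAlgClosed K] [Algebra k' K] (hinj : Function.Injective (algebraMap O k'))
    [CharZero k'] (hden : ∀ x : k', ∃ m : ℤ, m ≠ 0 ∧ ∃ o : O, algebraMap O k' o = m * x)
    {σ ι : Type*} [Finite σ] [Finite ι] (f : ι → MvPolynomial σ O) (S : Set ℕ) (hS : S.Infinite)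
    (hmod : ∀ ℓ ∈ S, ∃ (κ : Type u) (_ : Field κ) (φ : O →+* κ), CharP κ ℓ ∧
      ∃ x : σ → κ, ∀ i, MvPolynomial.eval₂ φ x (f i) = 0) :
    ∃ x : σ → K, ∀ i,
      MvPolynomial.eval₂ ((algebraMap k' K).comp (algebraMap O k')) x (f i) = 0 :=
  H85.exists_point hinj hden f S hS hmod

/-- **The equations of representations.** `H85.repEq G t d` are the equations, in the unknowns `x(g, i, j)`
(`g ∈ G`, `i, j ∈ {0, 1}`), which say that `g ↦ (x(g, i, j))` is a representation of `G` with trace `t` and
determinant `d`. Representations with trace `φ ∘ t` and determinant `φ ∘ d` over a field `κ` are solutions,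
and a solution gives a representation. (`H85Transfer`.) -/
theorem equations_of_representations {O : Type*} [CommRing O] (G : Type) [Group G] (t d : G → O)
    {κ : Type*} [Field κ] (φ : O →+* κ) :
    (∀ r : G →* GL (Fin 2) κ, (∀ g, (r g).val.trace = φ (t g)) →
      (∀ g, (r g).val.det = φ (d g)) → ∀ i,
        MvPolynomial.eval₂ φ (fun x : G × Fin 2 × Fin 2 => (r x.1).val x.2.1 x.2.2)
          (H85.repEq G t d i) = 0) ∧
    ∀ x : G × Fin 2 × Fin 2 → κ, (∀ i, MvPolynomial.eval₂ φ x (H85.repEq G t d i) = 0) →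
      ∃ r : G →* GL (Fin 2) κ, ∀ g, (r g).val.trace = φ (t g) ∧ (r g).val.det = φ (d g) :=
  ⟨fun r ht hd i => H85.repEq_of_rep G t d φ r ht hd i,
    fun x hx => H85.rep_of_repEq G t d φ x hx⟩

/-- **Lifting of representations of finite groups.** Let `t(g)`, `d(g)` be algebraic integers. If the finite
group `G` has in infinitely many characteristics a representation with the reductions of `t` and `d` as trace
and determinant, it has such a representation over `ℂ`. (`H85Pigeon`.) -/
theorem lifting_to_complex_numbers (G : Type) [Group G] [Finite G] (t d : G → Zb) (S : Set ℕ)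
    (hS : S.Infinite)
    (hmod : ∀ ℓ ∈ S, ∃ (κ : Type) (_ : Field κ) (φ : Zb →+* κ) (r : G →* GL (Fin 2) κ),
      CharP κ ℓ ∧ ∀ g, (r g).val.trace = φ (t g) ∧ (r g).val.det = φ (d g)) :
    ∃ r : G →* GL (Fin 2) ℂ, ∀ g, (r g).val.trace = (t g : ℂ) ∧ (r g).val.det = (d g : ℂ) :=
  H85.exists_rep_complex G t d S hS hmod

/-- **Roots of unity lift.** Let `φ : Zb → κ` be a homomorphism to an algebraically closed field. Every `n`-th
root of unity of `κ` is the image of an `n`-th root of unity, because `Xⁿ - 1` is a product of linear factors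
over `Zb`; the trace and the determinant of a matrix `B` with `Bⁿ = 1` are the sum and the product of two
`n`-th roots of unity. (`H85Pigeon`.) -/
theorem roots_of_unity_lift {κ : Type*} [Field κ] [IsAlgClosed κ] (φ : Zb →+* κ) (n : ℕ)
    (hn : 0 < n) (a : κ) (ha : a ^ n = 1) (B : Matrix (Fin 2) (Fin 2) κ) (hB : B ^ n = 1) :
    (∃ ζ : Zb, ζ ^ n = 1 ∧ φ ζ = a) ∧
    ∃ a b : κ, a ^ n = 1 ∧ b ^ n = 1 ∧ B.trace = a + b ∧ B.det = a * b :=
  ⟨H85.exists_rootOfUnity φ n hn a ha, H85.exists_trace_det B n hB⟩

/-- **Groups of bounded order are subgroups of one group**: the symmetric group on `A` letters.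
(`H85Pigeon`.) -/
theorem groups_of_bounded_order (G : Type*) [Group G] [Finite G] (A : ℕ) (hA : Nat.card G ≤ A) :
    ∃ e : G →* Equiv.Perm (Fin A), Function.Injective e :=
  H85.exists_embed G A hA

/-- **A common representation in characteristic zero.** Let `ρ_s : Γ → GL₂(κ_s)`, `s ∈ S`, be representations
in infinitely many characteristics with images of order at most `A`. There are a finite group `Q`, functions
`t, d : Q → Zb`, a representation `R` of `Q` over `ℂ` with trace `t` and determinant `d`, and infinitely many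
`s` for which there is a surjective homomorphism `π : Γ → Q` with the kernel of `ρ_s` and with
`tr ρ_s = φ_s ∘ t ∘ π`, `det ρ_s = φ_s ∘ d ∘ π`. Proof: embed the images in the symmetric group on `A`
letters, and write the eigenvalues of `ρ_s(σ)` as reductions of `A!`-th roots of unity. The image in the
symmetric group and the function which assigns to its elements the two roots of unity take finitely many
values, so that they are the same for infinitely many `s` (pigeonhole principle). Then
`lifting_to_complex_numbers`. (`H85Pigeon`.) -/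
theorem common_representation {Γ : Type*} [Group Γ] (A : ℕ) (S : Set ℕ) (hS : S.Infinite)
    (κ : S → Type) [∀ s, Field (κ s)] [∀ s, IsAlgClosed (κ s)] [∀ s : S, CharP (κ s) s]
    (φ : ∀ s : S, Zb →+* κ s) (ρ : ∀ s : S, Γ →* GL (Fin 2) (κ s))
    (hfin : ∀ s, Finite (ρ s).range) (hA : ∀ s, Nat.card (ρ s).range ≤ A) :
    ∃ (Q : Type) (_ : Group Q) (_ : Finite Q) (t d : Q → Zb) (R : Q →* GL (Fin 2) ℂ)
      (S' : Set S), S'.Infinite ∧
      (∀ g, (R g).val.trace = (t g : ℂ) ∧ (R g).val.det = (d g : ℂ)) ∧
      ∀ s ∈ S', ∃ π : Γ →* Q, Function.Surjective π ∧ (∀ σ, π σ = 1 ↔ ρ s σ = 1) ∧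
        ∀ σ, (ρ s σ).val.trace = φ s (t (π σ)) ∧ (ρ s σ).val.det = φ s (d (π σ)) :=
  H85.exists_common A S hS κ φ ρ hfin hA

/-! ## 6. Gluing -/

/-- **A non-zero algebraic integer vanishes in finitely many characteristics only**, for it divides a
non-zero integer. (`H85Glue`.) -/
theorem finitely_many_characteristics (S : Set ℕ) (κ : S → Type) [∀ s, Field (κ s)]
    [∀ s : S, CharP (κ s) s] (φ : ∀ s : S, Zb →+* κ s) (x : Zb) (hx : x ≠ 0) :
    {s : S | φ s x = 0}.Finite :=
  H85.finite_zeros S κ φ x hx

/-- **The Frobenius elements determine trace and determinant.** Two representations of finite level with the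
same trace and determinant at the Frobenius elements above the primes outside a finite set have the same trace
and determinant everywhere, by `frobenius_powers` and `traces_of_powers`. Proof of `DeligneSerre.glue` from
here: let `Q`, `t`, `d`, `R`, `π_s` be as in `common_representation`. (1) For every `p ∤ N` the pair
`(a_p, e_p)` is one of the `(t(g), d(g))`, since this is so in infinitely many characteristics and `Q` is
finite. (2) For almost all `s` different pairs `(t(g), d(g))` have different reductions. For these `s` the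
representation `P_s = R ∘ π_s` has the right trace and determinant at the Frobenius elements above all
`p ∤ N s`, and it is unramified outside `N s`. (3) For two such `s`, `s'` the traces and determinants of `P_s`
and `P_(s')` agree everywhere. Therefore `P_s` has the right Frobenius data at the prime `s` (if `s ∤ N`), and
the image under `P_s` of an element of an inertia group above `s` has trace `2` and determinant `1`, because
the element is in the kernel of `P_(s')`; this image has finite order, so that it is `1`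
(`unipotent_elements`). (`H85Glue`.) -/
theorem frobenius_determines {κ : Type} [Field κ] (ρ ρ' : Gq →* GL (Fin 2) κ)
    (h : GaloisFactorsThroughFiniteLevel ρ) (h' : GaloisFactorsThroughFiniteLevel ρ')
    (S : Finset ℕ)
    (hfr : ∀ p : ℕ, p.Prime → p ∉ S → ∀ A : ValuationSubring Qb, A.LiesOverPrime p →
      ∀ σ : Gq, A.IsFrobeniusAt σ p → (ρ σ).val.trace = (ρ' σ).val.trace ∧
        (ρ σ).val.det = (ρ' σ).val.det) (σ : Gq) :
    (ρ σ).val.trace = (ρ' σ).val.trace ∧ (ρ σ).val.det = (ρ' σ).val.det :=
  H85.trace_det_congr ρ ρ' h h' S hfr σ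

/-! ## 7. The assembly -/

open NumberField in
/-- **Primes with a residue map.** For infinitely many primes `ℓ` there is a homomorphism from the integers of
a given number field `K` to `𝔽_ℓ`. Proof: the number of ideals of `𝓞 K` of norm `p` has logarithmic density
`1`, from the pole of the zeta function of `K`; a function on the primes with finite support has density `0`;
and the density is unique. (`H85Split`, `H99PrimeSum`.) -/
theorem primes_with_residue_map (K : Type) [Field K] [NumberField K] :
    {ℓ : ℕ | ℓ.Prime ∧ Nonempty (𝓞 K →+* ZMod ℓ)}.Infinite ∧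
    ∀ (c : Nat.Primes → ℝ) (δ δ' : ℝ), HasLogDensity c δ → HasLogDensity c δ' → δ = δ' :=
  ⟨H85.infinite_split K, fun _ _ _ => H85.hasLogDensity_unique⟩

/-- **Residue maps of the ring of all algebraic integers.** For a number field `E ⊆ ℂ` there are infinitely
many primes `ℓ` with a homomorphism `φ : Zb → 𝔽̄_ℓ` which maps the integers of `E` to `𝔽_ℓ`: extend the
homomorphism of `primes_with_residue_map` to the integral extension `Zb`. (`H85Split`.) -/
theorem residue_maps (E : IntermediateField ℚ ℂ) [FiniteDimensional ℚ E] :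
    ∃ S : Set ℕ, S.Infinite ∧ ∀ ℓ ∈ S, ∃ _ : Fact ℓ.Prime,
      ∃ φ : Zb →+* AlgebraicClosure (ZMod ℓ), ∀ x : Zb, (x : ℂ) ∈ E → ∃ n : ℤ, φ x = n :=
  H85.exists_residue E

/-- **The absolute value of a sum of two numbers of absolute value one.** Proof of
`DeligneSerre.irreducible` from here: if the representation has a common eigenvector, its traces are the sums
`χ₁ + χ₂` of two characters of finite order. The mean value of `|χ₁ + χ₂|² = 2 + 2 Re(χ₁ / χ₂)` over the
image is at least `2`; by Chebotarev's theorem it is the density of `|a_p|²`; but `|a_p|² ≤ 4`, and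
`min(|a_p|², 4)` has upper density at most `1`. (`H85Final`.) -/
theorem absolute_value_of_sum (x y : ℂˣ) (hx : ‖(x : ℂ)‖ = 1) (hy : ‖(y : ℂ)‖ = 1) :
    ‖(x : ℂ) + y‖ ^ 2 = 2 + 2 * ((x : ℂ) * (y⁻¹ : ℂˣ)).re :=
  H85.norm_add_sq_of_norm_one x y hx hy

/-- **The theorem of Deligne and Serre, abstract form.** Let `a_p`, `e_p` be algebraic integers in a number
field `E`, the `e_p` roots of unity of order dividing `n`, such that for every ring homomorphism `σ : ℂ → ℂ`
and every `c > 0` the function `min(|σ(a_p)|², c)` has upper density at most `1`, and such that for every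
large prime `ℓ` and every homomorphism `φ` from `Zb` to an algebraically closed field of characteristic `ℓ`
there is a representation over this field with the Frobenius data `(φ(a_p), φ(e_p))`, `p ∤ N ℓ`. Then there is
an irreducible representation of `Gal(ℚ̄/ℚ)` of dimension two over `ℂ` of finite level, unramified outside
`N`, with the Frobenius data `(a_p, e_p)`, `p ∤ N`. (`H85Final`.) -/
theorem deligne_serre_abstract (N : ℕ) (hN0 : N ≠ 0) (a e : ℕ → Zb)
    (E : IntermediateField ℚ ℂ) [FiniteDimensional ℚ E]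
    (haE : ∀ p : ℕ, p.Prime → ¬ p ∣ N → (a p : ℂ) ∈ E)
    (heE : ∀ p : ℕ, p.Prime → ¬ p ∣ N → (e p : ℂ) ∈ E)
    (n : ℕ) (hn : 0 < n) (he : ∀ p : ℕ, p.Prime → ¬ p ∣ N → e p ^ n = 1)
    (hA2 : ∀ σ : ℂ →+* ℂ, ∀ c : ℝ, 0 < c →
      H85.ULD (fun p : Nat.Primes => if (p : ℕ) ∣ N then 0 else min (‖σ (a p)‖ ^ 2) c) 1)
    (hC : ∃ ℓ₀ : ℕ, ∀ ℓ : ℕ, ℓ.Prime → ℓ₀ < ℓ →
      ∀ (κ : Type) [Field κ] [IsAlgClosed κ] [CharP κ ℓ] (φ : Zb →+* κ),
        ∃ ρ : Gq →* GL (Fin 2) κ, GaloisFactorsThroughFiniteLevel ρ ∧
          ∀ p : ℕ, p.Prime → ¬ p ∣ N → p ≠ ℓ → ∀ A : ValuationSubring Qb, A.LiesOverPrime p →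
            (∀ σ ∈ A.inertiaSubgroupIn ℚ, ρ σ = 1) ∧ ∀ σ : Gq, A.IsFrobeniusAt σ p →
              (ρ σ).val.trace = φ (a p) ∧ (ρ σ).val.det = φ (e p)) :
    ∃ ρ : Gq →* GL (Fin 2) ℂ, GaloisFactorsThroughFiniteLevel ρ ∧
      (Deformation.matrixRepresentation ρ).IsIrreducible ∧
      ∀ p : ℕ, p.Prime → ¬ p ∣ N → ∀ A : ValuationSubring Qb, A.LiesOverPrime p →
        (∀ σ ∈ A.inertiaSubgroupIn ℚ, ρ σ = 1) ∧ ∀ σ : Gq, A.IsFrobeniusAt σ p →
          (ρ σ).val.trace = (a p : ℂ) ∧ (ρ σ).val.det = (e p : ℂ) := by
  refine H85.deligneSerre_of (H85.twistBound_of H85.normCharBound) N hN0 a e E haE heE n hn he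
    hA2 ?_
  obtain ⟨ℓ₀, h⟩ := hC
  refine ⟨ℓ₀, fun ℓ hℓ hlt κ _ _ _ φ => ?_⟩
  obtain ⟨ρ, h1, h2⟩ := h ℓ hℓ hlt κ φ
  exact ⟨ρ, h1, fun p a b c A hA => (h2 p a b c A hA).1, fun p a b c A hA => (h2 p a b c A hA).2⟩

open Polynomial in
/-- **Matrix form of a residual representation** (`ResidualGaloisRep`, the notion of the frozen statements):
choose a basis. The level is finite, elements which act trivially have matrix `1` (so it is unramified at the
same places), and trace and determinant can be read off the characteristic polynomial. (`H85Fin`.) -/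
theorem matrix_form {k : Type} [Field k] (ρ : ResidualGaloisRep k) :
    ∃ r : Gq →* GL (Fin 2) k, GaloisFactorsThroughFiniteLevel r ∧
      (∀ σ, ρ.ρ σ = 1 → r σ = 1) ∧
      ∀ σ (t d : k), (ρ.ρ σ).charpoly = X ^ 2 - C t * X + C d →
        (r σ).val.trace = t ∧ (r σ).val.det = d :=
  H85.exists_matrixRep ρ

/-- **The representations modulo `ℓ` of a form of weight one**, in the form needed for
`deligne_serre_abstract`, from the Galois action on the characters of `Γ₁(N ℓ)` (`H48.HasGalAction`, written
out in `DeligneSerre.galoisAction`). (`H85Fin`.) -/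
theorem representations_mod_l (N : ℕ) [NeZero N] (ε : DirichletCharacter ℂ N)
    (f : CuspForm (Gamma1 N) 1) (hf₁ : qCoeff f 1 = 1)
    (hT : ∀ p : ℕ, p.Prime → ¬ p ∣ N → ∀ n : ℕ,
      qCoeff f (p * n) + ε (p : ZMod N) * (if p ∣ n then qCoeff f (n / p) else 0) =
        qCoeff f p * qCoeff f n)
    (hGal : ∀ ℓ : ℕ, ℓ.Prime → 5 ≤ ℓ → H48.HasGalAction (N * ℓ) ℓ) (a e : ℕ → Zb)
    (hae : ∀ p : ℕ, p.Prime → ¬ p ∣ N → (a p : ℂ) = qCoeff f p ∧ (e p : ℂ) = ε (p : ZMod N)) :
    ∃ ℓ₀ : ℕ, ∀ ℓ : ℕ, ℓ.Prime → ℓ₀ < ℓ →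
      ∀ (κ : Type) [Field κ] [IsAlgClosed κ] [CharP κ ℓ] (φ : Zb →+* κ),
        ∃ ρ : Gq →* GL (Fin 2) κ, GaloisFactorsThroughFiniteLevel ρ ∧
          ∀ p : ℕ, p.Prime → ¬ p ∣ N → p ≠ ℓ → ∀ A : ValuationSubring Qb, A.LiesOverPrime p →
            (∀ σ ∈ A.inertiaSubgroupIn ℚ, ρ σ = 1) ∧ ∀ σ : Gq, A.IsFrobeniusAt σ p →
              (ρ σ).val.trace = φ (a p) ∧ (ρ σ).val.det = φ (e p) := by
  obtain ⟨ℓ₀, h⟩ := H85.hasModReps N ε f hf₁ hT hGal a e hae
  refine ⟨ℓ₀, fun ℓ hℓ hlt κ _ _ _ φ => ?_⟩
  obtain ⟨ρ, hρ⟩ := h ℓ hℓ hlt κ φ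
  exact ⟨ρ, hρ.level, fun p a b c A hA => ⟨hρ.unram p a b c A hA, hρ.frob p a b c A hA⟩⟩

/-- **The theorem of Deligne and Serre from the representations modulo `ℓ`.** Here `H85.HasModReps N ε f` is
the conclusion of the preceding theorem, for all `a`, `e`. The other hypotheses of `deligne_serre_abstract`
are `DeligneSerre.nebentypus` with `DeligneSerre.eigenvalues_integral` (the field `E`) and
`mean_square_of_conjugates`. (`H85Skel`.) -/
theorem deligne_serre_weight_one (N : ℕ) [NeZero N] (ε : DirichletCharacter ℂ N)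
    (f : CuspForm (Gamma1 N) 1) (hf₁ : qCoeff f 1 = 1)
    (hT : ∀ p : ℕ, p.Prime → ¬ p ∣ N → ∀ n : ℕ,
      qCoeff f (p * n) + ε (p : ZMod N) * (if p ∣ n then qCoeff f (n / p) else 0) =
        qCoeff f p * qCoeff f n) (hC : H85.HasModReps N ε f) :
    ∃ ρ : Gq →* GL (Fin 2) ℂ, GaloisFactorsThroughFiniteLevel ρ ∧
      (Deformation.matrixRepresentation ρ).IsIrreducible ∧
      ∀ p : ℕ, p.Prime → ¬ p ∣ N → ∀ A : ValuationSubring Qb, A.LiesOverPrime p →
        (∀ σ ∈ A.inertiaSubgroupIn ℚ, ρ σ = 1) ∧ ∀ σ : Gq, A.IsFrobeniusAt σ p →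
          (ρ σ).val.trace = qCoeff f p ∧ (ρ σ).val.det = ε (p : ZMod N) :=
  H85.deligneSerre_modular (H85.twistBound_of H85.normCharBound) N ε f hf₁ hT hC

end Fermat.Agent.Guide.DeligneSerreSteps
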