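import Mathlib

set_option autoImplicit false

namespace Fermat.Agent.H99

open NumberField IsDedekindDomain Filter Topology
open scoped ENNReal NNReal

variable (K : Type*) [Field K] [NumberField K]

noncomputable def wt (s : ℝ) (I : Ideal (𝓞 K)) : ℝ≥0∞ :=
  ENNReal.ofReal ((Ideal.absNorm I : ℝ) ^ (-s))

lemma wt_mul (s : ℝ) (I J : Ideal (𝓞 K)) : wt K s (I * J) = wt K s I * wt K s J := by
  simp only [wt, map_mul, Nat.cast_mul]
  rw [Real.mul_rpow (by positivity) (by positivity), ENNReal.ofReal_mul (by positivity)]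

lemma wt_one (s : ℝ) : wt K s 1 = 1 := by simp [wt]

lemma wt_pow (s : ℝ) (I : Ideal (𝓞 K)) (n : ℕ) : wt K s (I ^ n) = wt K s I ^ n := by
  induction n with
  | zero => rw [pow_zero, pow_zero, wt_one]
  | succ n ih => rw [pow_succ, wt_mul, ih, pow_succ]

lemma wt_bot {s : ℝ} (hs : 0 < s) : wt K s ⊥ = 0 := by
  simp [wt, Real.zero_rpow (neg_ne_zero.mpr hs.ne')]

/-- nonzero ideals all of whose prime divisors lie in `F` -/
def SuppIn (F : Finset (HeightOneSpectrum (𝓞 K))) : Set (Ideal (𝓞 K)) :=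
  {I | I ≠ ⊥ ∧ ∀ P : HeightOneSpectrum (𝓞 K), P.asIdeal ∣ I → P ∈ F}

lemma suppIn_empty : SuppIn K ∅ = {1} := by
  ext I
  simp only [SuppIn, Set.mem_ofPred_eq, Set.mem_singleton_iff, Finset.notMem_empty, imp_false]
  constructor
  · rintro ⟨h0, h⟩
    by_contra h1
    rw [Ideal.one_eq_top] at h1
    obtain ⟨M, hM, hIM⟩ := Ideal.exists_le_maximal I h1
    have hMbot : M ≠ ⊥ := by
      rintro rfl
      exact h0 (le_bot_iff.mp hIM)
    exact h ⟨M, hM.isPrime, hMbot⟩ (Ideal.dvd_iff_le.mpr hIM)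
  · rintro rfl
    refine ⟨by simp, fun P hP => ?_⟩
    exact P.isPrime.ne_top (by simpa [Ideal.one_eq_top] using Ideal.dvd_iff_le.mp hP)

lemma tsum_suppIn (s : ℝ) (F : Finset (HeightOneSpectrum (𝓞 K))) :
    ∑' I : SuppIn K F, wt K s (I : Ideal (𝓞 K)) = ∏ P ∈ F, (1 - wt K s P.asIdeal)⁻¹ := by
  classical
  induction F using Finset.induction_on with
  | empty =>
    rw [suppIn_empty, tsum_singleton, wt_one, Finset.prod_empty]
  | insert P F hPF ih =>
    rw [Finset.prod_insert hPF, ← ih, ← ENNReal.tsum_geometric]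
    have hPprime : Prime P.asIdeal := P.prime
    let f : ℕ × SuppIn K F → SuppIn K (insert P F) := fun x =>
      ⟨P.asIdeal ^ x.1 * (x.2 : Ideal (𝓞 K)), by
        refine ⟨mul_ne_zero (pow_ne_zero _ P.ne_bot) x.2.2.1, fun Q hQ => ?_⟩
        rcases Q.prime.dvd_or_dvd hQ with h | h
        · have h2 := Q.prime.dvd_of_dvd_pow h
          have : Q = P := by
            apply HeightOneSpectrum.ext
            have hle := Ideal.dvd_iff_le.mp h2
            exact (Ring.DimensionLEOne.maximalOfPrime P.ne_bot P.isPrime).eq_of_le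
              Q.isPrime.ne_top hle |>.symm
          simp [this]
        · exact Finset.mem_insert_of_mem (x.2.2.2 Q h)⟩
    have hnd : ∀ I : SuppIn K F, ¬ P.asIdeal ∣ (I : Ideal (𝓞 K)) := fun I h => hPF (I.2.2 P h)
    have hf : Function.Bijective f := by
      constructor
      · rintro ⟨m, I⟩ ⟨n, J⟩ h
        have h' : P.asIdeal ^ m * (I : Ideal (𝓞 K)) = P.asIdeal ^ n * (J : Ideal (𝓞 K)) :=
          congrArg Subtype.val h
        have hmn : m = n := by
          by_contra hne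
          rcases Nat.lt_or_gt_of_ne hne with hlt | hlt
          · obtain ⟨k, rfl⟩ := Nat.exists_eq_add_of_lt hlt
            have : (I : Ideal (𝓞 K)) = P.asIdeal ^ (k + 1) * J := by
              apply mul_left_cancel₀ (pow_ne_zero m P.ne_bot : P.asIdeal ^ m ≠ 0)
              rw [h']; ring
            exact hnd I (this ▸ Dvd.dvd.mul_right (dvd_pow_self _ (Nat.succ_ne_zero k)) _)
          · obtain ⟨k, rfl⟩ := Nat.exists_eq_add_of_lt hlt
            have : (J : Ideal (𝓞 K)) = P.asIdeal ^ (k + 1) * I := by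
              apply mul_left_cancel₀ (pow_ne_zero n P.ne_bot : P.asIdeal ^ n ≠ 0)
              rw [← h']; ring
            exact hnd J (this ▸ Dvd.dvd.mul_right (dvd_pow_self _ (Nat.succ_ne_zero k)) _)
        subst hmn
        have : (I : Ideal (𝓞 K)) = J :=
          mul_left_cancel₀ (pow_ne_zero m P.ne_bot : P.asIdeal ^ m ≠ 0) h'
        exact Prod.ext rfl (Subtype.ext this)
      · rintro ⟨J, hJ0, hJ⟩
        have hfin : FiniteMultiplicity P.asIdeal J :=
          FiniteMultiplicity.of_prime_left hPprime hJ0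
        obtain ⟨I, hI, hnI⟩ := hfin.exists_eq_pow_mul_and_not_dvd
        have hI0 : I ≠ ⊥ := by
          rintro rfl
          exact hnI (dvd_zero _)
        refine ⟨⟨multiplicity P.asIdeal J, ⟨I, hI0, fun Q hQ => ?_⟩⟩, Subtype.ext hI.symm⟩
        have hQJ : Q ∈ insert P F := hJ Q (hI ▸ Dvd.dvd.mul_left hQ _)
        rcases Finset.mem_insert.mp hQJ with rfl | h
        · exact absurd hQ hnI
        · exact h
    rw [← (Equiv.ofBijective f hf).tsum_eq]
    have h1 : ∀ c : ℕ × SuppIn K F, wt K s ((Equiv.ofBijective f hf) c : Ideal (𝓞 K)) =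
        wt K s P.asIdeal ^ c.1 * wt K s (c.2 : Ideal (𝓞 K)) := by
      intro c
      show wt K s (P.asIdeal ^ c.1 * (c.2 : Ideal (𝓞 K))) = _
      rw [wt_mul, wt_pow]
    rw [tsum_congr h1, ENNReal.tsum_prod (f := fun n (I : SuppIn K F) =>
      wt K s P.asIdeal ^ n * wt K s (I : Ideal (𝓞 K))), ← ENNReal.tsum_mul_right]
    refine tsum_congr fun n => ?_
    rw [← ENNReal.tsum_mul_left]


/-- the total mass -/
noncomputable def Z (s : ℝ) : ℝ≥0∞ := ∑' I : Ideal (𝓞 K), wt K s I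

lemma prod_le_Z (s : ℝ) (F : Finset (HeightOneSpectrum (𝓞 K))) :
    ∏ P ∈ F, (1 - wt K s P.asIdeal)⁻¹ ≤ Z K s := by
  rw [← tsum_suppIn]
  exact ENNReal.tsum_comp_le_tsum_of_injective Subtype.val_injective _

lemma Z_le {s : ℝ} (hs : 0 < s) (B : ℝ≥0∞)
    (h : ∀ F : Finset (HeightOneSpectrum (𝓞 K)), ∏ P ∈ F, (1 - wt K s P.asIdeal)⁻¹ ≤ B) :
    Z K s ≤ B := by
  classical
  rw [Z, ENNReal.tsum_eq_iSup_sum]
  refine iSup_le fun T => ?_
  -- the finite set of primes dividing some nonzero element of T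
  have hfin : (⋃ I ∈ T.filter (fun I => I ≠ ⊥),
      {P : HeightOneSpectrum (𝓞 K) | P.asIdeal ∣ I}).Finite := by
    refine Set.Finite.biUnion (Finset.finite_toSet _) fun I hI => ?_
    exact Ideal.finite_factors (by simpa using (Finset.mem_filter.mp hI).2)
  refine le_trans ?_ (h hfin.toFinset)
  rw [← tsum_suppIn]
  have h1 : ∑ I ∈ T, wt K s I = ∑ I ∈ T.filter (fun I => I ≠ ⊥), wt K s I := by
    rw [Finset.sum_filter]
    refine Finset.sum_congr rfl fun I _ => ?_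
    split_ifs with h
    · rfl
    · rw [not_not.mp h, wt_bot K hs]
  rw [h1]
  have h2 : ∀ I ∈ T.filter (fun I => I ≠ ⊥), I ∈ SuppIn K hfin.toFinset := by
    intro I hI
    refine ⟨(Finset.mem_filter.mp hI).2, fun P hP => ?_⟩
    rw [Set.Finite.mem_toFinset]
    exact Set.mem_biUnion hI hP
  rw [← Finset.sum_attach]
  let g : {x // x ∈ T.filter (fun I => I ≠ ⊥)} → SuppIn K hfin.toFinset :=
    fun x => ⟨x.1, h2 x.1 x.2⟩
  have hg : Function.Injective g := fun x y hxy => by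
    have h3 : (g x : Ideal (𝓞 K)) = (g y : Ideal (𝓞 K)) := by rw [hxy]
    exact Subtype.ext h3
  calc ∑ x ∈ (T.filter (fun I => I ≠ ⊥)).attach, wt K s x
      = ∑' x : {x // x ∈ T.filter (fun I => I ≠ ⊥)}, wt K s (g x : Ideal (𝓞 K)) := by
        rw [tsum_fintype]; rfl
    _ ≤ _ := ENNReal.tsum_comp_le_tsum_of_injective hg _

/-- the number of ideals of norm `n` -/
noncomputable def cnt (n : ℕ) : ℕ := Nat.card {I : Ideal (𝓞 K) // Ideal.absNorm I = n}

/-- real Dirichlet series -/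
noncomputable def zr (s : ℝ) : ℝ := ∑' n : ℕ, (cnt K n : ℝ) * (n : ℝ) ^ (-s)

lemma Z_eq_tsum (s : ℝ) : Z K s = ∑' n : ℕ, ENNReal.ofReal ((cnt K n : ℝ) * (n : ℝ) ^ (-s)) := by
  rw [Z, ← (Equiv.sigmaFiberEquiv (fun I : Ideal (𝓞 K) => Ideal.absNorm I)).tsum_eq,
    ENNReal.tsum_sigma']
  refine tsum_congr fun n => ?_
  have h1 : ∀ b : {I : Ideal (𝓞 K) // Ideal.absNorm I = n},
      wt K s ((Equiv.sigmaFiberEquiv (fun I : Ideal (𝓞 K) => Ideal.absNorm I)) ⟨n, b⟩) =
      ENNReal.ofReal ((n : ℝ) ^ (-s)) := by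
    intro b
    show wt K s b.1 = _
    rw [wt, b.2]
  rw [tsum_congr h1]
  have : Finite {I : Ideal (𝓞 K) // Ideal.absNorm I = n} :=
    Set.Finite.to_subtype (Ideal.finite_setOfPred_absNorm_eq (S := 𝓞 K) n)
  have := Fintype.ofFinite {I : Ideal (𝓞 K) // Ideal.absNorm I = n}
  rw [tsum_fintype, Finset.sum_const, Finset.card_univ, nsmul_eq_mul,
    ENNReal.ofReal_mul (by positivity), cnt, Nat.card_eq_fintype_card, ENNReal.ofReal_natCast]

lemma term_nonneg (s : ℝ) (n : ℕ) : 0 ≤ (cnt K n : ℝ) * (n : ℝ) ^ (-s) := by positivity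

lemma dedekindZeta_eq {s : ℝ} (hs : 0 < s) : dedekindZeta K (s : ℂ) = (zr K s : ℂ) := by
  rw [dedekindZeta, LSeries, zr, Complex.ofReal_tsum]
  refine tsum_congr fun n => ?_
  rw [LSeries.term_def]
  split_ifs with h
  · subst h
    simp [Real.zero_rpow (neg_ne_zero.mpr hs.ne')]
  · rw [Complex.ofReal_mul, Complex.ofReal_cpow (by positivity)]
    simp only [cnt, Complex.ofReal_natCast, Complex.ofReal_neg]
    rw [Complex.cpow_neg, div_eq_mul_inv]

lemma tendsto_zr : Tendsto (fun s : ℝ => (s - 1) * zr K s) (𝓝[>] 1)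
    (𝓝 (dedekindZeta_residue K)) := by
  have h := tendsto_sub_one_mul_dedekindZeta_nhdsGT K
  have h2 := (Complex.continuous_re.tendsto _).comp h
  rw [Complex.ofReal_re] at h2
  refine h2.congr' ?_
  filter_upwards [self_mem_nhdsWithin] with s hs
  have hs' : (0 : ℝ) < s := lt_trans one_pos hs
  simp only [Function.comp_apply]
  rw [dedekindZeta_eq K hs', ← Complex.ofReal_one, ← Complex.ofReal_sub, ← Complex.ofReal_mul,
    Complex.ofReal_re]

lemma summable_zr {s : ℝ} (hs : 1 < s) : Summable (fun n : ℕ => (cnt K n : ℝ) * (n : ℝ) ^ (-s)) := by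
  have h := (tendsto_zr K).eventually_ne (dedekindZeta_residue_ne_zero K)
  have h2 : ∀ᶠ t in 𝓝[>] (1:ℝ), t < s := by
    have := Ioo_mem_nhdsGT hs
    filter_upwards [this] with t ht using ht.2
  obtain ⟨t, ⟨ht1, ht2⟩, ht3⟩ := ((h.and h2).and (self_mem_nhdsWithin (a := (1:ℝ)) (s := Set.Ioi 1))).exists
  have hzr : zr K t ≠ 0 := fun h0 => ht1 (by rw [h0, mul_zero])
  have hsum : Summable (fun n : ℕ => (cnt K n : ℝ) * (n : ℝ) ^ (-t)) := by
    by_contra hns
    exact hzr (tsum_eq_zero_of_not_summable hns)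
  refine Summable.of_nonneg_of_le (term_nonneg K s) (fun n => ?_) hsum
  rcases Nat.eq_zero_or_pos n with rfl | hn
  · have : (1:ℝ) < t := ht3
    simp [Real.zero_rpow (neg_ne_zero.mpr (by linarith : s ≠ 0)),
      Real.zero_rpow (neg_ne_zero.mpr (by linarith : t ≠ 0))]
  · refine mul_le_mul_of_nonneg_left ?_ (by positivity)
    exact Real.rpow_le_rpow_of_exponent_le (by exact_mod_cast hn) (by linarith)

lemma Z_eq {s : ℝ} (hs : 1 < s) : Z K s = ENNReal.ofReal (zr K s) := by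
  rw [Z_eq_tsum, zr, ENNReal.ofReal_tsum_of_nonneg (term_nonneg K s) (summable_zr K hs)]

/-- real weight of a prime -/
noncomputable def xp (s : ℝ) (P : HeightOneSpectrum (𝓞 K)) : ℝ :=
  (Ideal.absNorm P.asIdeal : ℝ) ^ (-s)

lemma two_le_absNorm (P : HeightOneSpectrum (𝓞 K)) : 2 ≤ Ideal.absNorm P.asIdeal := by
  have h0 : Ideal.absNorm P.asIdeal ≠ 0 := by
    rw [Ne, Ideal.absNorm_eq_zero_iff]; exact P.ne_bot
  have h1 : Ideal.absNorm P.asIdeal ≠ 1 := by
    rw [Ne, Ideal.absNorm_eq_one_iff]; exact P.isPrime.ne_top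
  omega

lemma xp_pos (s : ℝ) (P : HeightOneSpectrum (𝓞 K)) : 0 < xp K s P := by
  have := two_le_absNorm K P
  exact Real.rpow_pos_of_pos (by exact_mod_cast (by omega : 0 < Ideal.absNorm P.asIdeal)) _

lemma xp_le_half {s : ℝ} (hs : 1 ≤ s) (P : HeightOneSpectrum (𝓞 K)) : xp K s P ≤ 1 / 2 := by
  have h2 : (2:ℝ) ≤ Ideal.absNorm P.asIdeal := by exact_mod_cast two_le_absNorm K P
  calc xp K s P ≤ (Ideal.absNorm P.asIdeal : ℝ) ^ (-1 : ℝ) :=
        Real.rpow_le_rpow_of_exponent_le (by linarith) (by linarith)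
    _ = (Ideal.absNorm P.asIdeal : ℝ)⁻¹ := by rw [Real.rpow_neg_one]
    _ ≤ 1 / 2 := by
        rw [one_div]
        exact inv_anti₀ (by norm_num) h2

lemma one_sub_wt_inv {s : ℝ} (hs : 1 ≤ s) (P : HeightOneSpectrum (𝓞 K)) :
    (1 - wt K s P.asIdeal)⁻¹ = ENNReal.ofReal ((1 - xp K s P)⁻¹) := by
  have h1 := xp_le_half K hs P
  have h2 := xp_pos K s P
  rw [ENNReal.ofReal_inv_of_pos (by linarith), ENNReal.ofReal_sub _ h2.le, ENNReal.ofReal_one]
  rfl

lemma prod_one_sub_wt_inv {s : ℝ} (hs : 1 ≤ s) (F : Finset (HeightOneSpectrum (𝓞 K))) :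
    ∏ P ∈ F, (1 - wt K s P.asIdeal)⁻¹ = ENNReal.ofReal (∏ P ∈ F, (1 - xp K s P)⁻¹) := by
  rw [ENNReal.ofReal_prod_of_nonneg]
  · exact Finset.prod_congr rfl fun P _ => one_sub_wt_inv K hs P
  · intro P _
    have h1 := xp_le_half K hs P
    exact inv_nonneg.mpr (by linarith)

lemma zr_nonneg (s : ℝ) : 0 ≤ zr K s := tsum_nonneg (term_nonneg K s)

lemma exp_sum_le {s : ℝ} (hs : 1 < s) (F : Finset (HeightOneSpectrum (𝓞 K))) :
    Real.exp (∑ P ∈ F, xp K s P) ≤ zr K s := by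
  have h1 : ∏ P ∈ F, (1 - xp K s P)⁻¹ ≤ zr K s := by
    have := prod_le_Z K s F
    rw [prod_one_sub_wt_inv K hs.le, Z_eq K hs] at this
    exact (ENNReal.ofReal_le_ofReal_iff (zr_nonneg K s)).mp this
  refine le_trans ?_ h1
  rw [Real.exp_sum]
  refine Finset.prod_le_prod (fun P _ => (Real.exp_pos _).le) fun P _ => ?_
  have h1 := xp_le_half K hs.le P
  have h2 : 1 - xp K s P ≤ Real.exp (-(xp K s P)) := by
    have := Real.add_one_le_exp (-(xp K s P)); linarith
  rw [← inv_inv (Real.exp (xp K s P)), ← Real.exp_neg]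
  exact inv_anti₀ (by linarith) h2

lemma zr_pos {s : ℝ} (hs : 1 < s) : 0 < zr K s :=
  lt_of_lt_of_le (Real.exp_pos _) (exp_sum_le K hs ∅)

lemma sum_xp_le_log {s : ℝ} (hs : 1 < s) (F : Finset (HeightOneSpectrum (𝓞 K))) :
    ∑ P ∈ F, xp K s P ≤ Real.log (zr K s) :=
  (Real.le_log_iff_exp_le (zr_pos K hs)).mpr (exp_sum_le K hs F)

lemma summable_xp {s : ℝ} (hs : 1 < s) : Summable (xp K s) :=
  summable_of_sum_le (fun P => (xp_pos K s P).le) (sum_xp_le_log K hs)

/-- sum over all primes -/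
noncomputable def Ps (s : ℝ) : ℝ := ∑' P : HeightOneSpectrum (𝓞 K), xp K s P

lemma Ps_le_log {s : ℝ} (hs : 1 < s) : Ps K s ≤ Real.log (zr K s) :=
  (summable_xp K hs).tsum_le_of_sum_le (sum_xp_le_log K hs)

lemma inv_one_sub_le {x : ℝ} (_h0 : 0 ≤ x) (h1 : x ≤ 1 / 2) :
    (1 - x)⁻¹ ≤ Real.exp (x + 2 * x ^ 2) := by
  have h2 : 1 ≤ (1 - x) * (x + 2 * x ^ 2 + 1) := by nlinarith [mul_nonneg _h0 (sub_nonneg.mpr h1), pow_nonneg _h0 2]
  have h3 : (1 - x)⁻¹ ≤ x + 2 * x ^ 2 + 1 := by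
    rw [inv_le_iff_one_le_mul₀ (by linarith)]
    linarith
  exact h3.trans (Real.add_one_le_exp _)

lemma xp_sq_le {s : ℝ} (hs : 1 ≤ s) (P : HeightOneSpectrum (𝓞 K)) : xp K s P ^ 2 ≤ xp K 2 P := by
  have h2 : (2:ℝ) ≤ Ideal.absNorm P.asIdeal := by exact_mod_cast two_le_absNorm K P
  rw [xp, ← Real.rpow_natCast, ← Real.rpow_mul (by linarith)]
  exact Real.rpow_le_rpow_of_exponent_le (by linarith) (by push_cast; linarith)

lemma log_le_Ps {s : ℝ} (hs : 1 < s) : Real.log (zr K s) ≤ Ps K s + 2 * Ps K 2 := by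
  rw [Real.log_le_iff_le_exp (zr_pos K hs)]
  have h := Z_le K (by linarith : 0 < s) (ENNReal.ofReal (Real.exp (Ps K s + 2 * Ps K 2))) ?_
  · rw [Z_eq K hs] at h
    exact (ENNReal.ofReal_le_ofReal_iff (Real.exp_pos _).le).mp h
  · intro F
    rw [prod_one_sub_wt_inv K hs.le]
    refine ENNReal.ofReal_le_ofReal ?_
    calc ∏ P ∈ F, (1 - xp K s P)⁻¹ ≤ ∏ P ∈ F, Real.exp (xp K s P + 2 * xp K 2 P) := by
          refine Finset.prod_le_prod (fun P _ => ?_) fun P _ => ?_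
          · have := xp_le_half K hs.le P
            exact inv_nonneg.mpr (by linarith)
          · refine (inv_one_sub_le (xp_pos K s P).le (xp_le_half K hs.le P)).trans ?_
            exact Real.exp_le_exp.mpr (by linarith [xp_sq_le K hs.le P])
      _ = Real.exp (∑ P ∈ F, xp K s P + 2 * ∑ P ∈ F, xp K 2 P) := by
          rw [← Real.exp_sum, Finset.sum_add_distrib, Finset.mul_sum]
      _ ≤ _ := by
          refine Real.exp_le_exp.mpr (add_le_add ?_ (mul_le_mul_of_nonneg_left ?_ (by norm_num)))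
          · exact (summable_xp K hs).sum_le_tsum _ (fun P _ => (xp_pos K s P).le)
          · exact (summable_xp K (by norm_num : (1:ℝ) < 2)).sum_le_tsum _
              (fun P _ => (xp_pos K 2 P).le)

/-- the rational prime below `P` -/
noncomputable def below (P : HeightOneSpectrum (𝓞 K)) : ℕ := (Ideal.absNorm P.asIdeal).minFac

lemma below_spec (P : HeightOneSpectrum (𝓞 K)) : (below K P).Prime ∧
    ((below K P : ℕ) : 𝓞 K) ∈ P.asIdeal ∧ ∃ n, 0 < n ∧ Ideal.absNorm P.asIdeal = below K P ^ n := by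
  have : P.asIdeal.IsMaximal := P.isMaximal
  obtain ⟨p, n, hn, hpP, hp, h⟩ := Ideal.exists_prime_and_absNorm_eq_pow P.asIdeal
  have hb : below K P = p := by
    rw [below, h, hp.pow_minFac hn.ne']
  rw [hb]
  exact ⟨hp, hpP, n, hn, h⟩

lemma card_below_le (p : ℕ) (hp : p.Prime) (F : Finset (HeightOneSpectrum (𝓞 K)))
    (hF : ∀ P ∈ F, below K P = p) : F.card ≤ Module.finrank ℚ K := by
  classical
  have h1 : ∏ P ∈ F, P.asIdeal ∣ Ideal.span {((p : ℕ) : 𝓞 K)} := by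
    refine Finset.prod_dvd_of_isRelPrime (fun P _ Q _ hPQ => ?_) fun P hP => ?_
    · refine (Irreducible.isRelPrime_iff_not_dvd P.prime.irreducible).mpr fun h => hPQ ?_
      apply HeightOneSpectrum.ext
      have hle := Ideal.dvd_iff_le.mp h
      exact ((Ring.DimensionLEOne.maximalOfPrime Q.ne_bot Q.isPrime).eq_of_le
              P.isPrime.ne_top hle).symm
    · rw [Ideal.dvd_span_singleton, ← hF P hP]
      exact (below_spec K P).2.1
  have h2 := map_dvd (Ideal.absNorm (S := 𝓞 K)) h1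
  rw [Ideal.absNorm_span_natCast, map_prod, RingOfIntegers.rank] at h2
  have h3 : p ^ F.card ∣ ∏ P ∈ F, Ideal.absNorm P.asIdeal := by
    rw [← Finset.prod_const]
    refine Finset.prod_dvd_prod_of_dvd _ _ fun P hP => ?_
    obtain ⟨-, -, n, hn, h⟩ := below_spec K P
    rw [h, hF P hP]
    exact dvd_pow_self _ hn.ne'
  exact (Nat.pow_dvd_pow_iff_le_right hp.one_lt).mp (h3.trans h2)

/-- primes whose norm is not a rational prime -/
def HighDeg : Set (HeightOneSpectrum (𝓞 K)) := {P | ¬ (Ideal.absNorm P.asIdeal).Prime}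

lemma sum_below_le (F : Finset (HeightOneSpectrum (𝓞 K))) :
    ∑ P ∈ F, ((below K P : ℝ) ^ 2)⁻¹ ≤ Module.finrank ℚ K * ∑' n : ℕ, ((n : ℝ) ^ 2)⁻¹ := by
  classical
  have hsum : Summable (fun n : ℕ => ((n : ℝ) ^ 2)⁻¹) := by
    simp
  rw [← Finset.sum_fiberwise_of_maps_to (t := F.image (below K)) (g := below K)
    (fun P hP => Finset.mem_image_of_mem _ hP)]
  calc ∑ p ∈ F.image (below K), ∑ P ∈ F.filter (fun P => below K P = p), ((below K P : ℝ) ^ 2)⁻¹
      ≤ ∑ p ∈ F.image (below K), (Module.finrank ℚ K : ℝ) * ((p : ℝ) ^ 2)⁻¹ := by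
        refine Finset.sum_le_sum fun p hp => ?_
        have h1 : ∀ P ∈ F.filter (fun P => below K P = p), ((below K P : ℝ) ^ 2)⁻¹ =
            ((p : ℝ) ^ 2)⁻¹ := by
          intro P hP
          rw [(Finset.mem_filter.mp hP).2]
        rw [Finset.sum_congr rfl h1, Finset.sum_const, nsmul_eq_mul]
        refine mul_le_mul_of_nonneg_right ?_ (by positivity)
        obtain ⟨Q, hQ, rfl⟩ := Finset.mem_image.mp hp
        exact_mod_cast card_below_le K (below K Q) (below_spec K Q).1 _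
          (fun P hP => (Finset.mem_filter.mp hP).2)
    _ = Module.finrank ℚ K * ∑ p ∈ F.image (below K), ((p : ℝ) ^ 2)⁻¹ := by
        rw [Finset.mul_sum]
    _ ≤ _ := by
        refine mul_le_mul_of_nonneg_left ?_ (by positivity)
        exact hsum.sum_le_tsum _ (fun n _ => by positivity)

lemma xp_le_of_highDeg {s : ℝ} (hs : 1 ≤ s) {P : HeightOneSpectrum (𝓞 K)} (hP : P ∈ HighDeg K) :
    xp K s P ≤ ((below K P : ℝ) ^ 2)⁻¹ := by
  obtain ⟨hp, -, n, hn, h⟩ := below_spec K P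
  have hn2 : 2 ≤ n := by
    by_contra hlt
    have : n = 1 := by omega
    subst this
    rw [pow_one] at h
    exact hP (h ▸ hp)
  have hp1 : (1:ℝ) ≤ below K P := by exact_mod_cast hp.one_lt.le
  have h2 : (1:ℝ) ≤ Ideal.absNorm P.asIdeal := by
    exact_mod_cast (one_le_two.trans (two_le_absNorm K P))
  calc xp K s P ≤ (Ideal.absNorm P.asIdeal : ℝ) ^ (-1 : ℝ) :=
        Real.rpow_le_rpow_of_exponent_le h2 (by linarith)
    _ = (Ideal.absNorm P.asIdeal : ℝ)⁻¹ := by rw [Real.rpow_neg_one]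
    _ ≤ ((below K P : ℝ) ^ 2)⁻¹ := by
        refine inv_anti₀ (by positivity) ?_
        rw [h, Nat.cast_pow]
        exact pow_le_pow_right₀ hp1 hn2

lemma tsum_highDeg_le {s : ℝ} (hs : 1 < s) :
    ∑' P : HighDeg K, xp K s P ≤ Module.finrank ℚ K * ∑' n : ℕ, ((n : ℝ) ^ 2)⁻¹ := by
  refine ((summable_xp K hs).subtype _).tsum_le_of_sum_le fun F => ?_
  calc ∑ P ∈ F, xp K s P ≤ ∑ P ∈ F, ((below K P : ℝ) ^ 2)⁻¹ :=
        Finset.sum_le_sum fun P _ => xp_le_of_highDeg K hs.le P.2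
    _ = ∑ P ∈ F.map (Function.Embedding.subtype _), ((below K P : ℝ) ^ 2)⁻¹ := by
        rw [Finset.sum_map]; rfl
    _ ≤ _ := sum_below_le K _

/-- primes of prime norm, fibred over rational primes -/
noncomputable def degOneEquiv :
    (Σ p : Nat.Primes, {I : Ideal (𝓞 K) // Ideal.absNorm I = (p : ℕ)}) ≃ ↥(HighDeg K)ᶜ where
  toFun x := ⟨⟨x.2.1, Ideal.isPrime_of_irreducible_absNorm
      (by rw [x.2.2]; exact Nat.prime_iff.mp x.1.2 |>.irreducible), by
      intro h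
      have := x.2.2
      rw [h, Ideal.absNorm_bot] at this
      exact x.1.2.ne_zero this.symm⟩, by
      show ¬ ¬ (Ideal.absNorm x.2.1).Prime
      rw [not_not, x.2.2]; exact x.1.2⟩
  invFun P := ⟨⟨Ideal.absNorm P.1.asIdeal, not_not.mp P.2⟩, ⟨P.1.asIdeal, rfl⟩⟩
  left_inv := by
    rintro ⟨⟨p, hp⟩, ⟨I, hI⟩⟩
    have hI' : Ideal.absNorm I = p := hI
    subst hI'
    rfl
  right_inv P := rfl

lemma summable_cnt {s : ℝ} (hs : 1 < s) :
    Summable (fun p : Nat.Primes => (cnt K p : ℝ) * ((p : ℕ) : ℝ) ^ (-s)) :=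
  (summable_zr K hs).comp_injective Subtype.val_injective

lemma tsum_degOne {s : ℝ} (hs : 1 < s) : ∑' P : ↥(HighDeg K)ᶜ, xp K s P =
    ∑' p : Nat.Primes, (cnt K p : ℝ) * ((p : ℕ) : ℝ) ^ (-s) := by
  rw [← (degOneEquiv K).tsum_eq]
  have hsum : Summable (fun x : (Σ p : Nat.Primes, {I : Ideal (𝓞 K) // Ideal.absNorm I = (p : ℕ)}) =>
      xp K s ((degOneEquiv K x : ↥(HighDeg K)ᶜ) : HeightOneSpectrum (𝓞 K))) :=
    ((degOneEquiv K).summable_iff (f := fun P : ↥(HighDeg K)ᶜ => xp K s P)).mpr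
      ((summable_xp K hs).subtype _)
  rw [hsum.tsum_sigma]
  refine tsum_congr fun p => ?_
  have h1 : ∀ b : {I : Ideal (𝓞 K) // Ideal.absNorm I = (p : ℕ)},
      xp K s ((degOneEquiv K ⟨p, b⟩ : ↥(HighDeg K)ᶜ) : HeightOneSpectrum (𝓞 K)) =
      ((p : ℕ) : ℝ) ^ (-s) := by
    intro b
    show (Ideal.absNorm b.1 : ℝ) ^ (-s) = _
    rw [b.2]
  rw [tsum_congr h1]
  have : Finite {I : Ideal (𝓞 K) // Ideal.absNorm I = (p : ℕ)} :=
    Set.Finite.to_subtype (Ideal.finite_setOfPred_absNorm_eq (S := 𝓞 K) (p : ℕ))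
  have := Fintype.ofFinite {I : Ideal (𝓞 K) // Ideal.absNorm I = (p : ℕ)}
  rw [tsum_fintype, Finset.sum_const, Finset.card_univ, nsmul_eq_mul, cnt,
    Nat.card_eq_fintype_card]

/-- the Dirichlet series over rational primes counting prime ideals of norm `p` -/
noncomputable def D1 (s : ℝ) : ℝ := ∑' p : Nat.Primes, (cnt K p : ℝ) * ((p : ℕ) : ℝ) ^ (-s)

lemma Ps_eq {s : ℝ} (hs : 1 < s) : Ps K s = ∑' P : HighDeg K, xp K s P + D1 K s := by
  rw [Ps, D1, ← tsum_degOne K hs, (summable_xp K hs).tsum_subtype_add_tsum_subtype_compl]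

/-- `D1 - log zr` is bounded on `s > 1` -/
lemma abs_D1_sub_log_le {s : ℝ} (hs : 1 < s) : |D1 K s - Real.log (zr K s)| ≤
    Module.finrank ℚ K * ∑' n : ℕ, ((n : ℝ) ^ 2)⁻¹ + 2 * Ps K 2 := by
  have h1 := Ps_le_log K hs
  have h2 := log_le_Ps K hs
  have h3 := tsum_highDeg_le K hs
  have h4 := Ps_eq K hs
  have h5 : 0 ≤ ∑' P : HighDeg K, xp K s P := tsum_nonneg fun P => (xp_pos K s _).le
  have h6 : 0 ≤ Ps K 2 := tsum_nonneg fun P => (xp_pos K 2 _).le
  rw [abs_le]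
  constructor <;> linarith

lemma tendsto_log_inv : Tendsto (fun s : ℝ => Real.log (1 / (s - 1))) (𝓝[>] 1) atTop := by
  have h1 : Tendsto (fun s : ℝ => s - 1) (𝓝[>] 1) (𝓝[>] 0) := by
    rw [tendsto_nhdsWithin_iff]
    constructor
    · have : Tendsto (fun s : ℝ => s - 1) (𝓝 1) (𝓝 (1 - 1)) := (continuous_id.sub continuous_const).tendsto 1
      rw [sub_self] at this
      exact this.mono_left nhdsWithin_le_nhds
    · filter_upwards [self_mem_nhdsWithin] with s hs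
      exact sub_pos.mpr (Set.mem_Ioi.mp hs)
  have h2 := (Real.tendsto_log_nhdsGT_zero.comp h1)
  have h3 := tendsto_neg_atBot_atTop.comp h2
  refine h3.congr fun s => ?_
  simp [Real.log_inv]

/-- **Main analytic theorem**: `∑_p #{I : N I = p} p^{-s} ~ log (1/(s-1))` as `s → 1+`. -/
theorem tendsto_primeCount :
    Tendsto (fun s : ℝ => (∑' p : Nat.Primes,
      (Nat.card {I : Ideal (𝓞 K) // Ideal.absNorm I = (p : ℕ)} : ℝ) * ((p : ℕ) : ℝ) ^ (-s)) /
        Real.log (1 / (s - 1))) (𝓝[>] 1) (𝓝 1) := by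
  show Tendsto (fun s : ℝ => D1 K s / Real.log (1 / (s - 1))) (𝓝[>] 1) (𝓝 1)
  have hL := tendsto_log_inv
  -- the bounded part
  set C : ℝ := Module.finrank ℚ K * ∑' n : ℕ, ((n : ℝ) ^ 2)⁻¹ + 2 * Ps K 2 with hC
  have hlog : Tendsto (fun s : ℝ => Real.log ((s - 1) * zr K s)) (𝓝[>] 1)
      (𝓝 (Real.log (dedekindZeta_residue K))) :=
    (Real.continuousAt_log (dedekindZeta_residue_ne_zero K)).tendsto.comp (tendsto_zr K)
  have h1 : Tendsto (fun s : ℝ => Real.log ((s - 1) * zr K s) / Real.log (1 / (s - 1))) (𝓝[>] 1)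
      (𝓝 0) := hlog.div_atTop hL
  have h2 : Tendsto (fun s : ℝ => (D1 K s - Real.log (zr K s)) / Real.log (1 / (s - 1))) (𝓝[>] 1)
      (𝓝 0) := by
    have hb : Tendsto (fun s : ℝ => C / Real.log (1 / (s - 1))) (𝓝[>] 1) (𝓝 0) :=
      tendsto_const_nhds.div_atTop hL
    refine squeeze_zero_norm' ?_ hb
    filter_upwards [self_mem_nhdsWithin, hL.eventually_gt_atTop 0] with s hs hpos
    rw [Real.norm_eq_abs, abs_div, abs_of_pos hpos]
    exact div_le_div_of_nonneg_right (abs_D1_sub_log_le K hs) hpos.le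
  have h3 : Tendsto (fun s : ℝ => (D1 K s - Real.log (zr K s)) / Real.log (1 / (s - 1)) +
      Real.log ((s - 1) * zr K s) / Real.log (1 / (s - 1)) + 1) (𝓝[>] 1) (𝓝 (0 + 0 + 1)) :=
    (h2.add h1).add tendsto_const_nhds
  rw [zero_add, zero_add] at h3
  refine h3.congr' ?_
  filter_upwards [self_mem_nhdsWithin, hL.eventually_gt_atTop 0] with s hs hpos
  have hs1 : (0:ℝ) < s - 1 := sub_pos.mpr hs
  rw [Real.log_mul hs1.ne' (zr_pos K hs).ne']
  have h4 : Real.log (1 / (s - 1)) = - Real.log (s - 1) := by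
    rw [one_div, Real.log_inv]
  rw [h4] at hpos ⊢
  have h5 : Real.log (s - 1) ≠ 0 := by
    intro h0
    rw [h0, neg_zero] at hpos
    exact lt_irrefl _ hpos
  field_simp
  ring

/-- summability companion of `tendsto_primeCount` -/
theorem summable_primeCount {s : ℝ} (hs : 1 < s) :
    Summable (fun p : Nat.Primes =>
      (Nat.card {I : Ideal (𝓞 K) // Ideal.absNorm I = (p : ℕ)} : ℝ) * ((p : ℕ) : ℝ) ^ (-s)) :=
  summable_cnt K hs

end Fermat.Agent.H99
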