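import Mathlib
import Fermat.Agent.H99PrimeSum

set_option autoImplicit false

/-!
# Euler product lower bound for class group `L`-functions

For a character `χ` of the class group of a number field, we prove
`‖L(s, χ)‖ ≥ exp (∑' P, Re (χ P · N P ^ (-s)) - C)` for `s > 1`.
-/

namespace Fermat.Agent.H45

open NumberField IsDedekindDomain Filter Topology nonZeroDivisors
open Fermat.Agent.H99

section

variable (K : Type*) [Field K] [NumberField K] (χ : ClassGroup (𝓞 K) →* ℂˣ)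

open scoped Classical in
/-- the extension by zero of a class group character to all ideals -/
noncomputable def chi (I : Ideal (𝓞 K)) : ℂ :=
  if h : I ∈ (Ideal (𝓞 K))⁰ then (χ (ClassGroup.mk0 ⟨I, h⟩) : ℂ) else 0

lemma chi_of_mem (I : (Ideal (𝓞 K))⁰) : chi K χ (I : Ideal (𝓞 K)) = χ (ClassGroup.mk0 I) := by
  rw [chi, dif_pos I.2]

lemma chi_bot : chi K χ ⊥ = 0 := by
  rw [chi, dif_neg]
  intro h
  exact (mem_nonZeroDivisors_iff_ne_zero.mp h) rfl

lemma chi_one : chi K χ 1 = 1 := by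
  have h := chi_of_mem K χ 1
  rw [map_one, map_one] at h
  exact h

lemma chi_mul (I J : Ideal (𝓞 K)) : chi K χ (I * J) = chi K χ I * chi K χ J := by
  by_cases hI : I = ⊥
  · subst hI
    rw [Ideal.bot_mul, chi_bot, zero_mul]
  by_cases hJ : J = ⊥
  · subst hJ
    rw [Ideal.mul_bot, chi_bot, mul_zero]
  have h := chi_of_mem K χ (⟨I, mem_nonZeroDivisors_iff_ne_zero.mpr hI⟩ *
    ⟨J, mem_nonZeroDivisors_iff_ne_zero.mpr hJ⟩)
  rw [map_mul, map_mul, Units.val_mul, ← chi_of_mem, ← chi_of_mem] at h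
  exact h

lemma norm_chi_unit (c : ClassGroup (𝓞 K)) : ‖(χ c : ℂ)‖ = 1 := by
  refine Complex.norm_eq_one_of_pow_eq_one (n := Fintype.card (ClassGroup (𝓞 K))) ?_
    Fintype.card_ne_zero
  rw [← Units.val_pow_eq_pow_val, ← map_pow, pow_card_eq_one, map_one, Units.val_one]

lemma norm_chi_le (I : Ideal (𝓞 K)) : ‖chi K χ I‖ ≤ 1 := by
  rw [chi]
  split_ifs with h
  · exact (norm_chi_unit K χ _).le
  · simp

/-- the terms of the `L`-series -/
noncomputable def cw (s : ℝ) (I : Ideal (𝓞 K)) : ℂ :=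
  chi K χ I * (((Ideal.absNorm I : ℝ) ^ (-s) : ℝ) : ℂ)

lemma cw_mul (s : ℝ) (I J : Ideal (𝓞 K)) : cw K χ s (I * J) = cw K χ s I * cw K χ s J := by
  simp only [cw, map_mul, Nat.cast_mul, chi_mul]
  rw [Real.mul_rpow (by positivity) (by positivity), Complex.ofReal_mul]
  ring

lemma cw_one (s : ℝ) : cw K χ s 1 = 1 := by rw [cw, chi_one, map_one]; simp

lemma cw_pow (s : ℝ) (I : Ideal (𝓞 K)) (n : ℕ) : cw K χ s (I ^ n) = cw K χ s I ^ n := by
  induction n with
  | zero => rw [pow_zero, pow_zero, cw_one]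
  | succ n ih => rw [pow_succ, cw_mul, ih, pow_succ]

lemma cw_bot (s : ℝ) : cw K χ s ⊥ = 0 := by
  rw [cw, chi_bot, zero_mul]

lemma norm_cw_le (s : ℝ) (I : Ideal (𝓞 K)) : ‖cw K χ s I‖ ≤ (Ideal.absNorm I : ℝ) ^ (-s) := by
  rw [cw, norm_mul, Complex.norm_real, Real.norm_eq_abs, abs_of_nonneg (by positivity)]
  exact mul_le_of_le_one_left (by positivity) (norm_chi_le K χ I)

lemma summable_absNorm_rpow {s : ℝ} (hs : 1 < s) :
    Summable (fun I : Ideal (𝓞 K) => (Ideal.absNorm I : ℝ) ^ (-s)) := by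
  have h1 : Z K s ≠ ⊤ := by
    rw [Z_eq K hs]
    exact ENNReal.ofReal_ne_top
  have h2 := ENNReal.summable_toReal h1
  refine h2.congr fun I => ?_
  rw [wt, ENNReal.toReal_ofReal (by positivity)]

lemma summable_norm_cw {s : ℝ} (hs : 1 < s) :
    Summable (fun I : Ideal (𝓞 K) => ‖cw K χ s I‖) :=
  Summable.of_nonneg_of_le (fun _ => norm_nonneg _) (norm_cw_le K χ s)
    (summable_absNorm_rpow K hs)

/-- the `L`-series as a sum over all ideals -/
noncomputable def cL (s : ℝ) : ℂ := ∑' I : Ideal (𝓞 K), cw K χ s I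

lemma cL_eq (s : ℝ) : cL K χ s = ∑' I : (Ideal (𝓞 K))⁰, (χ (ClassGroup.mk0 I) : ℂ) *
        (((Ideal.absNorm (I : Ideal (𝓞 K)) : ℝ) ^ (-s) : ℝ) : ℂ) := by
  have h1 : Function.support (cw K χ s) ⊆ {I | I ∈ (Ideal (𝓞 K))⁰} := by
    intro I hI
    rw [Set.mem_ofPred_eq, mem_nonZeroDivisors_iff_ne_zero]
    rintro rfl
    exact hI (cw_bot K χ s)
  rw [cL, ← tsum_subtype_eq_of_support_subset h1]
  refine tsum_congr fun I => ?_
  rw [cw]
  congr 1
  exact chi_of_mem K χ ⟨I.1, I.2⟩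

/-- the bijection behind the Euler product -/
lemma exists_equiv_suppIn_insert [DecidableEq (HeightOneSpectrum (𝓞 K))]
    (P : HeightOneSpectrum (𝓞 K)) (F : Finset (HeightOneSpectrum (𝓞 K))) (hPF : P ∉ F) :
    ∃ e : ℕ × SuppIn K F ≃ SuppIn K (insert P F),
      ∀ x, (e x : Ideal (𝓞 K)) = P.asIdeal ^ x.1 * (x.2 : Ideal (𝓞 K)) := by
  have hPprime : Prime P.asIdeal := P.prime
  let f : ℕ × SuppIn K F → SuppIn K (insert P F) := fun x =>
    ⟨P.asIdeal ^ x.1 * (x.2 : Ideal (𝓞 K)), by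
      refine ⟨mul_ne_zero (pow_ne_zero _ P.ne_bot) x.2.2.1, fun Q hQ => ?_⟩
      rcases Q.prime.dvd_or_dvd hQ with h | h
      · have h2 := Q.prime.dvd_of_dvd_pow h
        have : Q = P := by
          apply HeightOneSpectrum.ext
          have hle := Ideal.dvd_iff_le.mp h2
          exact (Ring.DimensionLEOne.maximalOfPrime P.ne_bot P.isPrime).eq_of_le
            Q.isPrime.ne_top hle |>.symm
        simp [this]
      · exact Finset.mem_insert_of_mem (x.2.2.2 Q h)⟩
  have hnd : ∀ I : SuppIn K F, ¬ P.asIdeal ∣ (I : Ideal (𝓞 K)) := fun I h => hPF (I.2.2 P h)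
  have hf : Function.Bijective f := by
    constructor
    · rintro ⟨m, I⟩ ⟨n, J⟩ h
      have h' : P.asIdeal ^ m * (I : Ideal (𝓞 K)) = P.asIdeal ^ n * (J : Ideal (𝓞 K)) :=
        congrArg Subtype.val h
      have hmn : m = n := by
        by_contra hne
        rcases Nat.lt_or_gt_of_ne hne with hlt | hlt
        · obtain ⟨k, rfl⟩ := Nat.exists_eq_add_of_lt hlt
          have : (I : Ideal (𝓞 K)) = P.asIdeal ^ (k + 1) * J := by
            apply mul_left_cancel₀ (pow_ne_zero m P.ne_bot : P.asIdeal ^ m ≠ 0)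
            rw [h']; ring
          exact hnd I (this ▸ Dvd.dvd.mul_right (dvd_pow_self _ (Nat.succ_ne_zero k)) _)
        · obtain ⟨k, rfl⟩ := Nat.exists_eq_add_of_lt hlt
          have : (J : Ideal (𝓞 K)) = P.asIdeal ^ (k + 1) * I := by
            apply mul_left_cancel₀ (pow_ne_zero n P.ne_bot : P.asIdeal ^ n ≠ 0)
            rw [← h']; ring
          exact hnd J (this ▸ Dvd.dvd.mul_right (dvd_pow_self _ (Nat.succ_ne_zero k)) _)
      subst hmn
      have : (I : Ideal (𝓞 K)) = J :=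
        mul_left_cancel₀ (pow_ne_zero m P.ne_bot : P.asIdeal ^ m ≠ 0) h'
      exact Prod.ext rfl (Subtype.ext this)
    · rintro ⟨J, hJ0, hJ⟩
      have hfin : FiniteMultiplicity P.asIdeal J :=
        FiniteMultiplicity.of_prime_left hPprime hJ0
      obtain ⟨I, hI, hnI⟩ := hfin.exists_eq_pow_mul_and_not_dvd
      have hI0 : I ≠ ⊥ := by
        rintro rfl
        exact hnI (dvd_zero _)
      refine ⟨⟨multiplicity P.asIdeal J, ⟨I, hI0, fun Q hQ => ?_⟩⟩, Subtype.ext hI.symm⟩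
      have hQJ : Q ∈ insert P F := hJ Q (hI ▸ Dvd.dvd.mul_left hQ _)
      rcases Finset.mem_insert.mp hQJ with rfl | h
      · exact absurd hQ hnI
      · exact h
  exact ⟨Equiv.ofBijective f hf, fun x => rfl⟩

lemma norm_cw_prime_le {s : ℝ} (P : HeightOneSpectrum (𝓞 K)) :
    ‖cw K χ s P.asIdeal‖ ≤ xp K s P := norm_cw_le K χ s _

lemma norm_cw_prime_lt_one {s : ℝ} (hs : 1 ≤ s) (P : HeightOneSpectrum (𝓞 K)) :
    ‖cw K χ s P.asIdeal‖ < 1 :=
  lt_of_le_of_lt ((norm_cw_prime_le K χ P).trans (xp_le_half K hs P)) (by norm_num)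

lemma tsum_suppIn_cw {s : ℝ} (hs : 1 < s) (F : Finset (HeightOneSpectrum (𝓞 K))) :
    ∑' I : SuppIn K F, cw K χ s (I : Ideal (𝓞 K)) = ∏ P ∈ F, (1 - cw K χ s P.asIdeal)⁻¹ := by
  classical
  induction F using Finset.induction_on with
  | empty =>
    rw [suppIn_empty, tsum_singleton, cw_one, Finset.prod_empty]
  | insert P F hPF ih =>
    obtain ⟨e, he⟩ := exists_equiv_suppIn_insert K P F hPF
    rw [Finset.prod_insert hPF, ← ih,
      ← tsum_geometric_of_norm_lt_one (norm_cw_prime_lt_one K χ hs.le P), ← e.tsum_eq,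
      tsum_mul_tsum_of_summable_norm
        (summable_norm_geometric_of_norm_lt_one (norm_cw_prime_lt_one K χ hs.le P))
        ((summable_norm_cw K χ hs).subtype _)]
    refine tsum_congr fun x => ?_
    rw [he, cw_mul, cw_pow]

lemma tendsto_prod_cL {s : ℝ} (hs : 1 < s) :
    Tendsto (fun F : Finset (HeightOneSpectrum (𝓞 K)) => ∏ P ∈ F, (1 - cw K χ s P.asIdeal)⁻¹)
      atTop (𝓝 (cL K χ s)) := by
  classical
  have h1 : ∀ F : Finset (HeightOneSpectrum (𝓞 K)), ∏ P ∈ F, (1 - cw K χ s P.asIdeal)⁻¹ =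
      ∑' I : Ideal (𝓞 K), (SuppIn K F).indicator (cw K χ s) I := by
    intro F
    rw [← tsum_suppIn_cw K χ hs, tsum_subtype]
  simp_rw [h1]
  refine tendsto_tsum_of_dominated_convergence (summable_norm_cw K χ hs) (fun I => ?_)
    (Eventually.of_forall fun F I => norm_indicator_le_norm_self _ _)
  by_cases hI : I = ⊥
  · subst hI
    have : ∀ F : Finset (HeightOneSpectrum (𝓞 K)),
        (SuppIn K F).indicator (cw K χ s) ⊥ = cw K χ s ⊥ := by
      intro F
      rw [Set.indicator_of_notMem, cw_bot]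
      exact fun h => h.1 rfl
    simp_rw [this]
    exact tendsto_const_nhds
  · refine tendsto_const_nhds.congr' ?_
    have hfin : {P : HeightOneSpectrum (𝓞 K) | P.asIdeal ∣ I}.Finite := Ideal.finite_factors hI
    filter_upwards [eventually_ge_atTop hfin.toFinset] with F hF
    rw [Set.indicator_of_mem]
    refine ⟨hI, fun P hP => hF ?_⟩
    rw [Set.Finite.mem_toFinset]
    exact hP

lemma norm_inv_one_sub_ge (z : ℂ) (hz : ‖z‖ < 1) :
    Real.exp (z.re - ‖z‖ ^ 2 / 2) ≤ ‖(1 - z)⁻¹‖ := by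
  have hne : (1 : ℂ) - z ≠ 0 := by
    intro h
    have : z = 1 := by linear_combination -h
    rw [this, norm_one] at hz
    exact lt_irrefl _ hz
  have hpos : 0 < ‖1 - z‖ := norm_pos_iff.mpr hne
  rw [norm_inv, show z.re - ‖z‖ ^ 2 / 2 = -(-z.re + ‖z‖ ^ 2 / 2) by ring, Real.exp_neg]
  refine inv_anti₀ hpos ?_
  refine le_of_sq_le_sq ?_ (Real.exp_pos _).le
  rw [← Real.exp_nat_mul]
  have h1 : ‖1 - z‖ ^ 2 = 1 + (((2 : ℕ) : ℝ) * (-z.re + ‖z‖ ^ 2 / 2)) := by
    rw [← Complex.normSq_eq_norm_sq, ← Complex.normSq_eq_norm_sq, Complex.normSq_apply,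
      Complex.normSq_apply]
    simp only [Complex.sub_re, Complex.one_re, Complex.sub_im, Complex.one_im]
    push_cast
    ring
  rw [h1, add_comm]
  exact Real.add_one_le_exp _

lemma summable_re_cw {s : ℝ} (hs : 1 < s) :
    Summable (fun P : HeightOneSpectrum (𝓞 K) => (cw K χ s P.asIdeal).re) := by
  refine Summable.of_norm_bounded (summable_xp K hs) fun P => ?_
  rw [Real.norm_eq_abs]
  exact (Complex.abs_re_le_norm _).trans (norm_cw_prime_le K χ P)

/-- **Euler product lower bound.** -/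
theorem exp_le_norm_cL {s : ℝ} (hs : 1 < s) :
    Real.exp (∑' P : HeightOneSpectrum (𝓞 K), (cw K χ s P.asIdeal).re - Ps K 2 / 2) ≤
      ‖cL K χ s‖ := by
  have h1 := (tendsto_prod_cL K χ hs).norm
  have h2 : Tendsto (fun F : Finset (HeightOneSpectrum (𝓞 K)) =>
      Real.exp (∑ P ∈ F, (cw K χ s P.asIdeal).re - Ps K 2 / 2)) atTop
      (𝓝 (Real.exp (∑' P : HeightOneSpectrum (𝓞 K), (cw K χ s P.asIdeal).re - Ps K 2 / 2))) :=
    (Real.continuous_exp.tendsto _).comp
      (Filter.Tendsto.sub_const (summable_re_cw K χ hs).hasSum _)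
  refine le_of_tendsto_of_tendsto' h2 h1 fun F => ?_
  have h3 : ∏ P ∈ F, Real.exp ((cw K χ s P.asIdeal).re - ‖cw K χ s P.asIdeal‖ ^ 2 / 2) ≤
      ‖∏ P ∈ F, (1 - cw K χ s P.asIdeal)⁻¹‖ := by
    rw [norm_prod]
    exact Finset.prod_le_prod (fun P _ => (Real.exp_pos _).le)
      fun P _ => norm_inv_one_sub_ge _ (norm_cw_prime_lt_one K χ hs.le P)
  refine le_trans ?_ h3
  rw [← Real.exp_sum, Finset.sum_sub_distrib]
  refine Real.exp_le_exp.mpr (sub_le_sub_left ?_ _)
  rw [← Finset.sum_div]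
  refine div_le_div_of_nonneg_right ?_ (by norm_num)
  calc ∑ P ∈ F, ‖cw K χ s P.asIdeal‖ ^ 2 ≤ ∑ P ∈ F, xp K 2 P := by
        refine Finset.sum_le_sum fun P _ => ?_
        refine le_trans ?_ (xp_sq_le K hs.le P)
        exact pow_le_pow_left₀ (norm_nonneg _) (norm_cw_prime_le K χ P) 2
    _ ≤ _ := (summable_xp K (by norm_num : (1:ℝ) < 2)).sum_le_tsum _
        (fun P _ => (xp_pos K 2 P).le)

/-- the primes whose class is not killed by `χ` -/
def NonTriv : Set (HeightOneSpectrum (𝓞 K)) := {P | chi K χ P.asIdeal ≠ 1}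

lemma re_cw_ge (s : ℝ) (P : HeightOneSpectrum (𝓞 K)) :
    xp K s P - 2 * (NonTriv K χ).indicator (xp K s) P ≤ (cw K χ s P.asIdeal).re := by
  rw [cw, Complex.re_mul_ofReal]
  change _ ≤ (chi K χ P.asIdeal).re * xp K s P
  by_cases h : P ∈ NonTriv K χ
  · rw [Set.indicator_of_mem h]
    have h1 : -1 ≤ (chi K χ P.asIdeal).re := by
      have := (Complex.abs_re_le_norm (chi K χ P.asIdeal)).trans (norm_chi_le K χ _)
      exact (abs_le.mp this).1
    nlinarith [xp_pos K s P]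
  · rw [Set.indicator_of_notMem h]
    have h1 : chi K χ P.asIdeal = 1 := not_not.mp h
    rw [h1]
    simp

/-- lower bound for `∑ Re χ(P) N P^{-s}` -/
theorem tsum_re_cw_ge {s : ℝ} (hs : 1 < s) :
    Ps K s - 2 * ∑' P : NonTriv K χ, xp K s P ≤
      ∑' P : HeightOneSpectrum (𝓞 K), (cw K χ s P.asIdeal).re := by
  have hsum := summable_xp K hs
  have hind : Summable ((NonTriv K χ).indicator (xp K s)) := hsum.indicator _
  rw [Ps, tsum_subtype, ← tsum_mul_left, ← (hsum.tsum_sub (hind.mul_left 2))]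
  exact (hsum.sub (hind.mul_left 2)).tsum_le_tsum (re_cw_ge K χ s) (summable_re_cw K χ hs)

end

end Fermat.Agent.H45
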