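import Mathlib
import Fermat.Agent.H99PrimeSum

set_option autoImplicit false

/-!
# Splitting of degree one primes in Kummer extensions of prime degree
-/

namespace Fermat.Agent.H45

open NumberField IsDedekindDomain Filter Topology nonZeroDivisors
open Fermat.Agent.H99

/-- If `ℓ` is prime, `∏ a i ∣ ℓ ^ card` and all `a i ≠ 1`, then all `a i = ℓ`. -/
lemma eq_of_prod_dvd_prime_pow {ι : Type*} [Fintype ι] {ℓ : ℕ} (hℓ : ℓ.Prime) (a : ι → ℕ)
    (h1 : ∀ i, a i ≠ 1) (hdvd : ∏ i, a i ∣ ℓ ^ Fintype.card ι) (i : ι) : a i = ℓ := by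
  have h2 : ∀ j, ∃ m, a j = ℓ * m := by
    intro j
    have hj : a j ∣ ℓ ^ Fintype.card ι := (Finset.dvd_prod_of_mem a (Finset.mem_univ j)).trans hdvd
    obtain ⟨k, -, hk⟩ := (Nat.dvd_prime_pow hℓ).mp hj
    have hk0 : k ≠ 0 := by
      rintro rfl
      exact h1 j (by rw [hk, pow_zero])
    rw [hk]
    exact dvd_pow_self ℓ hk0
  choose m hm using h2
  have h3 : ∏ j, m j ∣ 1 := by
    have : ∏ j, a j = ℓ ^ Fintype.card ι * ∏ j, m j := by
      rw [← Finset.card_univ, ← Finset.prod_const, ← Finset.prod_mul_distrib]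
      exact Finset.prod_congr rfl fun j _ => hm j
    rw [this] at hdvd
    exact (Nat.mul_dvd_mul_iff_left (pow_pos hℓ.pos _)).mp (by simpa using hdvd)
  have h4 : m i ∣ 1 := (Finset.dvd_prod_of_mem m (Finset.mem_univ i)).trans h3
  rw [hm i, Nat.dvd_one.mp h4, mul_one]

section

variable (K M : Type*) [Field K] [NumberField K] [Field M] [NumberField M] [Algebra K M]

/-- Splitting of degree one primes in Kummer extensions. -/
theorem exists_primes_above {p : ℕ} (hp : p.Prime) (hfr : Module.finrank K M = p)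
    (ζ : 𝓞 K) (hζ : IsPrimitiveRoot ζ p) (E : 𝓞 K) (θ : 𝓞 M)
    (hθ : θ ^ p = algebraMap (𝓞 K) (𝓞 M) E)
    (τ : ℕ → (𝓞 M →ₐ[𝓞 K] 𝓞 M)) (hτ : ∀ i, τ i θ = algebraMap (𝓞 K) (𝓞 M) (ζ ^ i) * θ)
    (P : HeightOneSpectrum (𝓞 K)) (hPp : (p : 𝓞 K) ∉ P.asIdeal) (hPE : E ∉ P.asIdeal)
    (x : 𝓞 K) (hx : x ^ p - E ∈ P.asIdeal) (hprime : (Ideal.absNorm P.asIdeal).Prime) :
    ∃ f : Fin p → HeightOneSpectrum (𝓞 M), Function.Injective f ∧
      ∀ i, (f i).asIdeal.comap (algebraMap (𝓞 K) (𝓞 M)) = P.asIdeal ∧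
        Ideal.absNorm (f i).asIdeal = Ideal.absNorm P.asIdeal := by
  classical
  have hPmax : P.asIdeal.IsMaximal := P.isMaximal
  obtain ⟨Q, hQmax, hQP⟩ :=
    Ideal.exists_maximal_ideal_liesOver_of_isIntegral (S := 𝓞 M) P.asIdeal
  have hQP' : ∀ a : 𝓞 K, algebraMap (𝓞 K) (𝓞 M) a ∈ Q ↔ a ∈ P.asIdeal := fun a => by
    rw [hQP.over, Ideal.under_def, Ideal.mem_comap]
  let _ : Field (𝓞 M ⧸ Q) := Ideal.Quotient.field Q
  have : NeZero p := ⟨hp.ne_zero⟩
  -- the residue maps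
  set φ : 𝓞 M →+* 𝓞 M ⧸ Q := Ideal.Quotient.mk Q with hφ
  set ψ : 𝓞 K →+* 𝓞 M ⧸ Q := φ.comp (algebraMap (𝓞 K) (𝓞 M)) with hψ
  have hψ0 : ∀ a : 𝓞 K, ψ a = 0 ↔ a ∈ P.asIdeal := fun a => by
    rw [hψ, RingHom.comp_apply, hφ, Ideal.Quotient.eq_zero_iff_mem, hQP']
  -- primitive root of unity
  have hζ1 : ψ ζ ≠ 1 := by
    intro h
    apply hPp
    rw [← hψ0, map_natCast]
    have h1 := hζ.geom_sum_eq_zero hp.one_lt
    have h2 := congrArg ψ h1
    rw [map_sum, map_zero] at h2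
    simpa [map_pow, h] using h2
  have hζp : (ψ ζ) ^ p = 1 := by rw [← map_pow, hζ.pow_eq_one, map_one]
  have hζ' : IsPrimitiveRoot (ψ ζ) p := by
    have := Fact.mk hp
    have h := orderOf_eq_prime hζp hζ1
    exact h ▸ IsPrimitiveRoot.orderOf (ψ ζ)
  have hxE : (ψ x) ^ p = ψ E := by
    have := (hψ0 _).mpr hx
    rw [map_sub, map_pow, sub_eq_zero] at this
    exact this
  have hE0 : ψ E ≠ 0 := fun h => hPE ((hψ0 _).mp h)
  have hx0 : ψ x ≠ 0 := by
    intro h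
    rw [h, zero_pow hp.ne_zero] at hxE
    exact hE0 hxE.symm
  have hθE : (φ θ) ^ p = ψ E := by
    rw [← map_pow, hθ]; rfl
  obtain ⟨j, -, hj⟩ := hζ'.eq_pow_of_pow_eq_one (ξ := φ θ / ψ x)
    (by rw [div_pow, hθE, hxE, div_self hE0])
  have hθx : φ θ = ψ ζ ^ j * ψ x := by
    rw [hj, div_mul_cancel₀ _ hx0]
  -- the conjugate residue maps
  let φi : Fin p → (𝓞 M →+* 𝓞 M ⧸ Q) := fun i => φ.comp (τ i).toRingHom
  have hφi : ∀ i a, φi i (algebraMap (𝓞 K) (𝓞 M) a) = ψ a := by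
    intro i a
    show φ (τ i (algebraMap (𝓞 K) (𝓞 M) a)) = _
    rw [AlgHom.commutes]; rfl
  have hφiθ : ∀ i, φi i θ = ψ ζ ^ ((i : ℕ) + j) * ψ x := by
    intro i
    show φ (τ i θ) = _
    rw [hτ, map_mul, hθx, ← RingHom.comp_apply, map_pow, pow_add]
    ring
  have hcomap : ∀ i, (RingHom.ker (φi i)).comap (algebraMap (𝓞 K) (𝓞 M)) = P.asIdeal := by
    intro i
    ext a
    rw [Ideal.mem_comap, RingHom.mem_ker, hφi, hψ0]
  have hbot : ∀ i, RingHom.ker (φi i) ≠ ⊥ := by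
    intro i h
    have h1 := hcomap i
    rw [h, ← RingHom.ker_eq_comap_bot, (RingHom.injective_iff_ker_eq_bot _).mp
      (FaithfulSMul.algebraMap_injective (𝓞 K) (𝓞 M))] at h1
    exact P.ne_bot h1.symm
  let f : Fin p → HeightOneSpectrum (𝓞 M) := fun i =>
    ⟨RingHom.ker (φi i), RingHom.ker_isPrime _, hbot i⟩
  have hinj : Function.Injective f := by
    intro i i' h
    have hker : RingHom.ker (φi i) = RingHom.ker (φi i') :=
      congrArg HeightOneSpectrum.asIdeal h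
    have h1 : θ - algebraMap (𝓞 K) (𝓞 M) (ζ ^ ((i : ℕ) + j) * x) ∈ RingHom.ker (φi i) := by
      rw [RingHom.mem_ker, map_sub, hφi, hφiθ, map_mul, map_pow, sub_self]
    rw [hker, RingHom.mem_ker, map_sub, hφi, hφiθ, map_mul, map_pow, sub_eq_zero,
      mul_left_inj' hx0, pow_add, pow_add, mul_left_inj'
        (pow_ne_zero _ (hζ'.ne_zero hp.ne_zero))] at h1
    exact Fin.ext (hζ'.pow_inj i'.2 i.2 h1).symm
  refine ⟨f, hinj, fun i => ⟨hcomap i, ?_⟩⟩
  -- norms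
  have hdvd : ∏ i, (f i).asIdeal ∣ P.asIdeal.map (algebraMap (𝓞 K) (𝓞 M)) := by
    refine Finset.prod_dvd_of_isRelPrime (fun i _ i' _ hii => ?_) fun i _ => ?_
    · refine (Irreducible.isRelPrime_iff_not_dvd (f i).prime.irreducible).mpr fun h => hii ?_
      apply hinj
      apply HeightOneSpectrum.ext
      have hle := Ideal.dvd_iff_le.mp h
      exact ((Ring.DimensionLEOne.maximalOfPrime (f i').ne_bot (f i').isPrime).eq_of_le
        (f i).isPrime.ne_top hle).symm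
    · rw [Ideal.dvd_iff_le, Ideal.map_le_iff_le_comap]
      exact (hcomap i).ge
  have h2 := map_dvd (Ideal.absNorm (S := 𝓞 M)) hdvd
  have hfr' : Module.finrank (𝓞 K) (𝓞 M) = p := by
    rw [← hfr]
    exact (IsFractionRing.finrank_eq (𝓞 K) K (𝓞 M) M).symm
  rw [map_prod, Ideal.absNorm_algebraMap, hfr'] at h2
  refine eq_of_prod_dvd_prime_pow hprime (fun i => Ideal.absNorm (f i).asIdeal) (fun i => ?_)
    (by rwa [Fintype.card_fin]) i
  rw [Ne, Ideal.absNorm_eq_one_iff]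
  exact (f i).isPrime.ne_top

variable {K M}

theorem mul_tsum_le_Ps {p : ℕ} (A : Set (HeightOneSpectrum (𝓞 K)))
    (hA : ∀ P ∈ A, ∃ f : Fin p → HeightOneSpectrum (𝓞 M), Function.Injective f ∧
      ∀ i, (f i).asIdeal.comap (algebraMap (𝓞 K) (𝓞 M)) = P.asIdeal ∧
        Ideal.absNorm (f i).asIdeal = Ideal.absNorm P.asIdeal) {s : ℝ} (hs : 1 < s) :
    (p : ℝ) * ∑' P : A, xp K s P ≤ Ps M s := by
  choose f hf1 hf2 using fun P : A => hA P.1 P.2
  let g : A × Fin p → HeightOneSpectrum (𝓞 M) := fun x => f x.1 x.2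
  have hg : Function.Injective g := by
    rintro ⟨P, i⟩ ⟨P', i'⟩ h
    have h' : f P i = f P' i' := h
    have hPP : P = P' := by
      apply Subtype.ext
      apply HeightOneSpectrum.ext
      rw [← (hf2 P i).1, ← (hf2 P' i').1, h']
    subst hPP
    exact Prod.ext rfl (hf1 P h')
  have hsM := summable_xp M hs
  have h1 : ∑' x : A × Fin p, xp M s (g x) ≤ Ps M s :=
    tsum_comp_le_tsum_of_inj hsM (fun Q => (xp_pos M s Q).le) hg
  have h2 : ∀ x : A × Fin p, xp M s (g x) = xp K s x.1 := by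
    intro x
    rw [xp, xp, (hf2 x.1 x.2).2]
  have hs2 : Summable (fun x : A × Fin p => xp K s (x.1 : HeightOneSpectrum (𝓞 K))) :=
    (hsM.comp_injective hg).congr h2
  rw [tsum_congr h2] at h1
  have h3 : ∑' x : A × Fin p, xp K s (x.1 : HeightOneSpectrum (𝓞 K)) =
      ∑' P : A, ∑' _ : Fin p, xp K s (P : HeightOneSpectrum (𝓞 K)) := hs2.tsum_prod
  rw [h3] at h1
  refine le_trans (le_of_eq ?_) h1
  rw [← tsum_mul_left]
  refine tsum_congr fun P => ?_
  rw [tsum_fintype, Finset.sum_const, Finset.card_univ, Fintype.card_fin, nsmul_eq_mul]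

end

end Fermat.Agent.H45
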