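import Mathlib
import Fermat.Agent.H45ClassL1
import Fermat.Agent.H45ClassL2

set_option autoImplicit false

/-!
# Degree one primes with nontrivial class character and a non-residue condition

Assembly of the Kummer splitting and the Euler product bound.
-/

namespace Fermat.Agent.H45

open NumberField IsDedekindDomain Filter Topology nonZeroDivisors Polynomial
open Fermat.Agent.H99

section

universe u

variable (K : Type u) [Field K] [NumberField K]

omit [NumberField K] in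
theorem kummer_integral_data (M : Type u) [Field M] [NumberField M] [Algebra K M]
    {p : ℕ} (hp : p.Prime) (ζ E : 𝓞 K) (r : M) (hr : r ^ p = algebraMap K M (E : K))
    (σ : ℕ → (M →ₐ[K] M)) (hσ : ∀ i, σ i r = algebraMap K M ((ζ ^ i : 𝓞 K) : K) * r) :
    ∃ θ : 𝓞 M, θ ^ p = algebraMap (𝓞 K) (𝓞 M) E ∧
        ∃ τ : ℕ → (𝓞 M →ₐ[𝓞 K] 𝓞 M),
          ∀ i, τ i θ = algebraMap (𝓞 K) (𝓞 M) (ζ ^ i) * θ := by
  have hint : IsIntegral ℤ r := by
    have h1 : IsIntegral ℤ (r ^ p) := by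
      rw [hr]
      exact E.isIntegral_coe.algebraMap
    exact h1.of_pow hp.pos
  refine ⟨⟨r, hint⟩, ?_, fun i => RingOfIntegers.mapAlgHom (σ i), fun i => ?_⟩
  · apply RingOfIntegers.ext
    exact hr
  · apply RingOfIntegers.ext
    exact hσ i

/-- the Kummer extension data -/
theorem exists_kummer_extension {p : ℕ} (hp : p.Prime) (ζ : 𝓞 K) (hζ : IsPrimitiveRoot ζ p)
    (E : 𝓞 K) (hE : ∀ x : 𝓞 K, x ^ p ≠ E) :
    ∃ (M : Type u) (_ : Field M) (_ : NumberField M) (_ : Algebra K M),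
      Module.finrank K M = p ∧ ∃ θ : 𝓞 M, θ ^ p = algebraMap (𝓞 K) (𝓞 M) E ∧
        ∃ τ : ℕ → (𝓞 M →ₐ[𝓞 K] 𝓞 M),
          ∀ i, τ i θ = algebraMap (𝓞 K) (𝓞 M) (ζ ^ i) * θ := by
  have hirr : Irreducible (X ^ p - C (E : K)) := by
    refine X_pow_sub_C_irreducible_of_prime hp fun b hb => ?_
    have hbint : IsIntegral ℤ b := by
      have h1 : IsIntegral ℤ (b ^ p) := by rw [hb]; exact E.isIntegral_coe
      exact h1.of_pow hp.pos
    obtain ⟨y, hy⟩ := (IsIntegralClosure.isIntegral_iff (A := 𝓞 K)).mp hbint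
    refine hE y ?_
    apply RingOfIntegers.ext
    rw [← hb, ← hy]
    simp
  have : Fact (Irreducible (X ^ p - C (E : K))) := ⟨hirr⟩
  have hmonic : (X ^ p - C (E : K)).Monic := monic_X_pow_sub_C _ hp.ne_zero
  have hfin : Module.Finite K (AdjoinRoot (X ^ p - C (E : K))) := hmonic.finite_adjoinRoot
  have hchar : CharZero (AdjoinRoot (X ^ p - C (E : K))) :=
    charZero_of_injective_algebraMap (algebraMap K (AdjoinRoot (X ^ p - C (E : K)))).injective
  have hfinQ : Module.Finite ℚ (AdjoinRoot (X ^ p - C (E : K))) :=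
    Module.Finite.trans K _
  have hnf : NumberField (AdjoinRoot (X ^ p - C (E : K))) := ⟨⟩
  have hroot : (AdjoinRoot.root (X ^ p - C (E : K))) ^ p =
      algebraMap K (AdjoinRoot (X ^ p - C (E : K))) E := root_X_pow_sub_C_pow p _
  have hζK : ∀ i : ℕ, ((ζ ^ i : 𝓞 K) : K) ^ p = 1 := by
    intro i
    have : (ζ ^ i) ^ p = 1 := by rw [← pow_mul, mul_comm, pow_mul, hζ.pow_eq_one, one_pow]
    have h := congrArg (algebraMap (𝓞 K) K) this
    rwa [map_pow, map_one] at h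
  let σ : ℕ → (AdjoinRoot (X ^ p - C (E : K)) →ₐ[K] AdjoinRoot (X ^ p - C (E : K))) := fun i =>
    AdjoinRoot.liftAlgHom (X ^ p - C (E : K)) (Algebra.ofId _ _)
      (algebraMap K (AdjoinRoot (X ^ p - C (E : K))) ((ζ ^ i : 𝓞 K) : K) * AdjoinRoot.root _) (by
        change aeval _ _ = _
        rw [map_sub, map_pow, aeval_C, aeval_X, mul_pow, hroot, ← map_pow, hζK, map_one, one_mul,
          sub_self])
  have hσ : ∀ i, σ i (AdjoinRoot.root _) =
      algebraMap K (AdjoinRoot (X ^ p - C (E : K))) ((ζ ^ i : 𝓞 K) : K) * AdjoinRoot.root _ :=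
    fun i => AdjoinRoot.liftAlgHom_root _ (Algebra.ofId _ _) _ _
  refine ⟨AdjoinRoot (X ^ p - C (E : K)), AdjoinRoot.instField, hnf, inferInstance, ?_,
    kummer_integral_data K _ hp ζ E _ hroot σ hσ⟩
  rw [(AdjoinRoot.powerBasis hirr.ne_zero).finrank, AdjoinRoot.powerBasis_dim,
    natDegree_X_pow_sub_C]


/-- `log ζ_K(s) = log (1/(s-1)) + O(1)` -/
lemma exists_eventually_abs_log_zr_sub_le : ∃ C : ℝ, ∀ᶠ s in 𝓝[>] (1:ℝ),
    |Real.log (zr K s) - Real.log (1 / (s - 1))| ≤ C := by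
  have hlog : Tendsto (fun s : ℝ => Real.log ((s - 1) * zr K s)) (𝓝[>] 1)
      (𝓝 (Real.log (dedekindZeta_residue K))) :=
    (Real.continuousAt_log (dedekindZeta_residue_ne_zero K)).tendsto.comp (tendsto_zr K)
  refine ⟨|Real.log (dedekindZeta_residue K)| + 1, ?_⟩
  have h1 := hlog.abs.eventually_le_const (lt_add_one _)
  filter_upwards [h1, self_mem_nhdsWithin] with s hs1 hs
  have hs' : (0:ℝ) < s - 1 := sub_pos.mpr hs
  rw [Real.log_mul hs'.ne' (zr_pos K hs).ne'] at hs1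
  rw [one_div, Real.log_inv]
  rwa [sub_neg_eq_add, add_comm]

/-- the finitely many bad primes -/
lemma finite_bad (B : ℕ) (a : 𝓞 K) (ha : a ≠ 0) :
    {P : HeightOneSpectrum (𝓞 K) | Ideal.absNorm P.asIdeal ≤ B ∨ a ∈ P.asIdeal}.Finite := by
  refine Set.Finite.union ?_ ?_
  · have h1 : {I : Ideal (𝓞 K) | Ideal.absNorm I ≤ B}.Finite :=
      Ideal.finite_setOfPred_absNorm_le B
    refine Set.Finite.of_finite_image (f := HeightOneSpectrum.asIdeal) (h1.subset ?_)
      (fun P _ Q _ h => HeightOneSpectrum.ext h)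
    rintro _ ⟨P, hP, rfl⟩
    exact hP
  · refine (Ideal.finite_factors (I := Ideal.span {a}) ?_).subset fun P hP => ?_
    · rwa [Ne, Ideal.zero_eq_bot, Ideal.span_singleton_eq_bot]
    · exact Ideal.dvd_span_singleton.mpr hP

theorem exists_prime_char_ne_one_not_pow_of
    {p : ℕ} (hp : p.Prime) (hp3 : 3 ≤ p) (ζ : 𝓞 K) (hζ : IsPrimitiveRoot ζ p)
    (E : 𝓞 K) (hE0 : E ≠ 0) (hE : ∀ x : 𝓞 K, x ^ p ≠ E)
    (χ : ClassGroup (𝓞 K) →* ℂˣ)
    (hbdd : ∃ C : ℝ, ∀ s : ℝ, 1 < s → s ≤ 2 →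
      ‖∑' I : (Ideal (𝓞 K))⁰, (χ (ClassGroup.mk0 I) : ℂ) *
        (((Ideal.absNorm (I : Ideal (𝓞 K)) : ℝ) ^ (-s) : ℝ) : ℂ)‖ ≤ C) (B : ℕ) :
    ∃ P : (Ideal (𝓞 K))⁰, (P : Ideal (𝓞 K)).IsPrime ∧
      (Ideal.absNorm (P : Ideal (𝓞 K))).Prime ∧
      B < Ideal.absNorm (P : Ideal (𝓞 K)) ∧ χ (ClassGroup.mk0 P) ≠ 1 ∧
      ∀ x : 𝓞 K, x ^ p - E ∉ (P : Ideal (𝓞 K)) := by
  by_contra hcon
  push Not at hcon
  obtain ⟨M, _, _, _, hfr, θ, hθ, τ, hτ⟩ := exists_kummer_extension K hp ζ hζ E hE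
  obtain ⟨C₀, hC₀⟩ := hbdd
  obtain ⟨C₁, hC₁⟩ := exists_eventually_abs_log_zr_sub_le K
  obtain ⟨C₂, hC₂⟩ := exists_eventually_abs_log_zr_sub_le M
  have hpK : (p : 𝓞 K) ≠ 0 := by exact_mod_cast hp.ne_zero
  set bad : Set (HeightOneSpectrum (𝓞 K)) :=
    {P | Ideal.absNorm P.asIdeal ≤ B ∨ (p : 𝓞 K) * E ∈ P.asIdeal} with hbad
  have hbadfin : bad.Finite := finite_bad K B _ (mul_ne_zero hpK hE0)
  set A : Set (HeightOneSpectrum (𝓞 K)) := NonTriv K χ \ (HighDeg K ∪ bad) with hA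
  have hAsplit : ∀ P ∈ A, ∃ f : Fin p → HeightOneSpectrum (𝓞 M), Function.Injective f ∧
      ∀ i, (f i).asIdeal.comap (algebraMap (𝓞 K) (𝓞 M)) = P.asIdeal ∧
        Ideal.absNorm (f i).asIdeal = Ideal.absNorm P.asIdeal := by
    rintro P ⟨hP1, hP2⟩
    simp only [Set.mem_union, not_or] at hP2
    obtain ⟨hP3, hP4⟩ := hP2
    have hprime : (Ideal.absNorm P.asIdeal).Prime := not_not.mp hP3
    simp only [hbad, Set.mem_ofPred_eq, not_or, not_le] at hP4
    obtain ⟨hP5, hP6⟩ := hP4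
    have hchi : χ (ClassGroup.mk0 ⟨P.asIdeal, mem_nonZeroDivisors_iff_ne_zero.mpr P.ne_bot⟩) ≠ 1 := by
      intro h
      apply hP1
      show chi K χ P.asIdeal = 1
      have := chi_of_mem K χ ⟨P.asIdeal, mem_nonZeroDivisors_iff_ne_zero.mpr P.ne_bot⟩
      rw [h, Units.val_one] at this
      exact this
    obtain ⟨x, hx⟩ := hcon ⟨P.asIdeal, mem_nonZeroDivisors_iff_ne_zero.mpr P.ne_bot⟩ P.isPrime
      hprime hP5 hchi
    exact exists_primes_above K M hp hfr ζ hζ E θ hθ τ hτ P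
      (fun h => hP6 (Ideal.mul_mem_right _ _ h)) (fun h => hP6 (Ideal.mul_mem_left _ _ h)) x hx
      hprime
  -- the constants
  set H : ℝ := Module.finrank ℚ K * ∑' n : ℕ, ((n : ℝ) ^ 2)⁻¹ with hH
  set N : ℝ := (hbadfin.toFinset.card : ℝ) with hN
  -- bound for the sum over nontrivial primes
  have hNT : ∀ s : ℝ, 1 < s → ∑' P : NonTriv K χ, xp K s P ≤ ∑' P : A, xp K s P + (H + N) := by
    intro s hs
    have hsum := summable_xp K hs
    have h1 : ∑' P : HighDeg K, xp K s P ≤ H := tsum_highDeg_le K hs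
    have h2 : ∑' P : bad, xp K s P ≤ N := by
      have h3 : ∑' P : bad, xp K s P = ∑ P ∈ hbadfin.toFinset, xp K s P := by
        rw [← Finset.tsum_subtype]
        have : (bad : Set _) = {P | P ∈ hbadfin.toFinset} := by ext; simp
        conv_lhs => rw [this]
        rfl
      rw [h3, hN]
      calc ∑ P ∈ hbadfin.toFinset, xp K s P ≤ ∑ P ∈ hbadfin.toFinset, (1 : ℝ) :=
            Finset.sum_le_sum fun P _ => (xp_le_half K hs.le P).trans (by norm_num)
        _ = _ := by simp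
    rw [tsum_subtype] at h1 h2 ⊢
    rw [tsum_subtype]
    have h3 : ∑' P, (NonTriv K χ).indicator (xp K s) P ≤
        ∑' P, (A.indicator (xp K s) P + ((HighDeg K).indicator (xp K s) P +
          bad.indicator (xp K s) P)) := by
      refine (hsum.indicator _).tsum_le_tsum (fun P => ?_)
        ((hsum.indicator _).add ((hsum.indicator _).add (hsum.indicator _)))
      have h0 : ∀ S : Set (HeightOneSpectrum (𝓞 K)), 0 ≤ S.indicator (xp K s) P := fun S =>
        Set.indicator_nonneg (fun P _ => (xp_pos K s P).le) P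
      by_cases hP : P ∈ NonTriv K χ
      · rw [Set.indicator_of_mem hP]
        by_cases hP2 : P ∈ HighDeg K
        · rw [Set.indicator_of_mem hP2]
          linarith [h0 A, h0 bad]
        by_cases hP3 : P ∈ bad
        · rw [Set.indicator_of_mem hP3]
          linarith [h0 A, h0 (HighDeg K)]
        have hPA : P ∈ A := ⟨hP, by
          rintro (h | h)
          · exact hP2 h
          · exact hP3 h⟩
        rw [Set.indicator_of_mem hPA]
        linarith [h0 bad, h0 (HighDeg K)]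
      · rw [Set.indicator_of_notMem hP]
        linarith [h0 A, h0 bad, h0 (HighDeg K)]
    rw [(hsum.indicator _).tsum_add ((hsum.indicator _).add (hsum.indicator _)),
      (hsum.indicator _).tsum_add (hsum.indicator _)] at h3
    linarith
  -- the contradiction
  have hL := tendsto_log_inv
  set D : ℝ := C₁ + 2 * Ps K 2 + 2 * (C₂ + H + N) + Ps K 2 / 2 with hD
  have h2 : ∀ᶠ s in 𝓝[>] (1:ℝ), s < 2 := by
    filter_upwards [Ioo_mem_nhdsGT (one_lt_two (α := ℝ))] with t ht using ht.2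
  have h1 : ∀ᶠ s in 𝓝[>] (1:ℝ), s ∈ Set.Ioi (1:ℝ) := self_mem_nhdsWithin
  obtain ⟨s, hs1, hs2, hsK, hsM, hs3, hs4⟩ := (h1.and (h2.and (hC₁.and (hC₂.and
    ((hL.eventually_ge_atTop 0).and
      (hL.eventually_gt_atTop (3 * (D + |C₀|)))))))).exists
  have hs : (1:ℝ) < s := hs1
  have e1 := exp_le_norm_cL K χ hs
  rw [cL_eq] at e1
  have e2 := e1.trans (hC₀ s hs hs2.le)
  have e3 := tsum_re_cw_ge K χ hs
  have e4 := hNT s hs
  have e5 := mul_tsum_le_Ps (K := K) (M := M) A hAsplit hs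
  have e6 := Ps_le_log M hs
  have e7 := log_le_Ps K hs
  have e8 := abs_le.mp hsK
  have e9 := abs_le.mp hsM
  have hp3' : (3:ℝ) ≤ p := by exact_mod_cast hp3
  have hA0 : 0 ≤ ∑' P : A, xp K s P := tsum_nonneg fun P => (xp_pos K s _).le
  have e10 : 3 * ∑' P : A, xp K s P ≤ Real.log (1 / (s - 1)) + C₂ := by
    have : 3 * ∑' P : A, xp K s P ≤ p * ∑' P : A, xp K s P :=
      mul_le_mul_of_nonneg_right hp3' hA0
    linarith [e9.2]
  have hC2' : 0 ≤ C₂ := (abs_nonneg _).trans hsM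
  have e11 : Real.log (1 / (s - 1)) / 3 - D ≤
      ∑' P : HeightOneSpectrum (𝓞 K), (cw K χ s P.asIdeal).re - Ps K 2 / 2 := by
    rw [hD]
    linarith [e8.1]
  have e12 : |C₀| < Real.log (1 / (s - 1)) / 3 - D := by linarith
  have e13 := (Real.add_one_le_exp _).trans e2
  linarith [le_abs_self C₀]

end

end Fermat.Agent.H45
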