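import Fermat.Agent.H76ClassBound
import Mathlib.NumberTheory.NumberField.ClassNumber
set_option autoImplicit false
set_option maxSynthPendingDepth 3

/-! # Boundedness of the class group L-function near `s = 1` (helper76, for S14) -/

namespace Fermat.Agent.H76

open NumberField NumberField.mixedEmbedding NumberField.Units
  NumberField.Units.dirichletUnitTheorem Module NumberField.InfinitePlace Ideal nonZeroDivisors
  Filter Topology

open scoped Classical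

variable {K : Type*} [Field K] [NumberField K]

/-- a representative of the inverse class -/
noncomputable def invRep (C : ClassGroup (𝓞 K)) : (Ideal (𝓞 K))⁰ :=
  (ClassGroup.mk0_surjective C⁻¹).choose

lemma mk0_invRep (C : ClassGroup (𝓞 K)) : ClassGroup.mk0 (invRep C) = C⁻¹ :=
  (ClassGroup.mk0_surjective C⁻¹).choose_spec

lemma hasSum_class (C : ClassGroup (𝓞 K)) {s : ℝ} (hs : 1 < s) :
    HasSum (fun I : (Ideal (𝓞 K))⁰ => if ClassGroup.mk0 I = C then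
      (absNorm (I : Ideal (𝓞 K)) : ℝ) ^ (-s) else 0) (pz (invRep C) s) := by
  have h := hasSum_indicator (invRep C) hs
  have h2 : ({I : (Ideal (𝓞 K))⁰ | ClassGroup.mk0 I * ClassGroup.mk0 (invRep C) = 1}.indicator
      (fun I : (Ideal (𝓞 K))⁰ => (absNorm (I : Ideal (𝓞 K)) : ℝ) ^ (-s))) =
      fun I : (Ideal (𝓞 K))⁰ => if ClassGroup.mk0 I = C then
      (absNorm (I : Ideal (𝓞 K)) : ℝ) ^ (-s) else 0 := by
    funext I
    rw [Set.indicator_apply]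
    congr 1
    rw [Set.mem_ofPred_eq, mk0_invRep, mul_inv_eq_one]
  rw [← h2]
  exact h

lemma hasSum_classL (χ : ClassGroup (𝓞 K) → ℂ) {s : ℝ} (hs : 1 < s) :
    HasSum (fun I : (Ideal (𝓞 K))⁰ => χ (ClassGroup.mk0 I) *
        (((absNorm (I : Ideal (𝓞 K)) : ℝ) ^ (-s) : ℝ) : ℂ))
      (∑ C : ClassGroup (𝓞 K), χ C * (pz (invRep C) s : ℂ)) := by
  have h1 : ∀ C ∈ (Finset.univ : Finset (ClassGroup (𝓞 K))),
      HasSum (fun I : (Ideal (𝓞 K))⁰ => χ C * ((if ClassGroup.mk0 I = C then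
        (absNorm (I : Ideal (𝓞 K)) : ℝ) ^ (-s) else 0 : ℝ) : ℂ)) (χ C * (pz (invRep C) s : ℂ)) :=
    fun C _ => (Complex.hasSum_ofReal.mpr (hasSum_class C hs)).mul_left (χ C)
  have h2 := hasSum_sum h1
  have h3 : (fun I : (Ideal (𝓞 K))⁰ => ∑ C : ClassGroup (𝓞 K), χ C *
      ((if ClassGroup.mk0 I = C then
        (absNorm (I : Ideal (𝓞 K)) : ℝ) ^ (-s) else 0 : ℝ) : ℂ)) =
      fun I : (Ideal (𝓞 K))⁰ => χ (ClassGroup.mk0 I) *
        (((absNorm (I : Ideal (𝓞 K)) : ℝ) ^ (-s) : ℝ) : ℂ) := by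
    funext I
    rw [Finset.sum_eq_single (ClassGroup.mk0 I)]
    · rw [if_pos rfl]
    · intro C _ hC
      rw [if_neg (Ne.symm hC), Complex.ofReal_zero, mul_zero]
    · intro h
      exact absurd (Finset.mem_univ _) h
  rw [← h3]
  exact h2

lemma sum_char_eq_zero {G : Type*} [CommGroup G] [Fintype G] (χ : G →* ℂˣ) (hχ : χ ≠ 1) :
    ∑ g : G, (χ g : ℂ) = 0 := by
  obtain ⟨a, ha⟩ : ∃ a, χ a ≠ 1 := by
    by_contra h
    push Not at h
    exact hχ (MonoidHom.ext h)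
  have h1 : (χ a : ℂ) * ∑ g : G, (χ g : ℂ) = ∑ g : G, (χ g : ℂ) := by
    rw [Finset.mul_sum]
    refine Fintype.sum_equiv (Equiv.mulLeft a) _ _ fun g => ?_
    rw [Equiv.coe_mulLeft, map_mul, Units.val_mul]
  have h2 : ((χ a : ℂ) - 1) * ∑ g : G, (χ g : ℂ) = 0 := by
    rw [sub_mul, one_mul, h1, sub_self]
  rcases mul_eq_zero.mp h2 with h | h
  · exact absurd (Units.ext (by rw [Units.val_one]; exact sub_eq_zero.mp h)) ha
  · exact h

lemma exists_sum_bound {α : Type*} [Fintype α] (χ : α → ℂ) (hχ : ∑ a, χ a = 0) (f : α → ℝ → ℝ)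
    (g : ℝ → ℝ) (P : ℝ → Prop) (h : ∀ a, ∃ C : ℝ, 0 ≤ C ∧ ∀ s, P s → |f a s - g s| ≤ C) :
    ∃ C : ℝ, ∀ s, P s → ‖∑ a, χ a * (f a s : ℂ)‖ ≤ C := by
  choose C hC0 hC using h
  refine ⟨∑ a, ‖χ a‖ * C a, fun s hs => ?_⟩
  have h1 : ∑ a, χ a * (f a s : ℂ) = ∑ a, χ a * ((f a s - g s : ℝ) : ℂ) := by
    have h2 : ∑ a, χ a * (g s : ℂ) = 0 := by rw [← Finset.sum_mul, hχ, zero_mul]
    rw [← sub_zero (∑ a, χ a * (f a s : ℂ)), ← h2, ← Finset.sum_sub_distrib]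
    refine Finset.sum_congr rfl fun a _ => ?_
    rw [Complex.ofReal_sub]
    ring
  rw [h1]
  refine norm_sum_le_of_le _ fun a _ => ?_
  rw [norm_mul, Complex.norm_real, Real.norm_eq_abs]
  exact mul_le_mul_of_nonneg_left (hC a s hs) (norm_nonneg _)

/-- [D2] The `L`-series of a nontrivial class group character is bounded near `s = 1`. -/
theorem classLSeries_bounded (K : Type*) [Field K] [NumberField K]
    (χ : ClassGroup (𝓞 K) →* ℂˣ) (hχ : χ ≠ 1) :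
    ∃ C : ℝ, ∀ s : ℝ, 1 < s → s ≤ 2 →
      ‖∑' I : (Ideal (𝓞 K))⁰, (χ (ClassGroup.mk0 I) : ℂ) *
        (((absNorm (I : Ideal (𝓞 K)) : ℝ) ^ (-s) : ℝ) : ℂ)‖ ≤ C := by
  obtain ⟨C, hC⟩ := exists_sum_bound (fun C : ClassGroup (𝓞 K) => (χ C : ℂ))
    (sum_char_eq_zero χ hχ) (fun C s => pz (invRep C) s)
    (fun s => (torsionOrder K : ℝ)⁻¹ * ∑' β : 𝓞 K, wt s (emb β)) (fun s => 1 < s ∧ s ≤ 2)
    (fun C => exists_pz_bound (invRep C))
  refine ⟨C, fun s hs1 hs2 => ?_⟩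
  rw [(hasSum_classL (fun C : ClassGroup (𝓞 K) => (χ C : ℂ)) hs1).tsum_eq]
  exact hC s ⟨hs1, hs2⟩

end Fermat.Agent.H76
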