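import Fermat.Agent.H76Limit
import Mathlib.NumberTheory.NumberField.ClassNumber
import Mathlib.NumberTheory.DirichletCharacter.Basic
import Mathlib.RingTheory.DedekindDomain.Factorization
set_option autoImplicit false
set_option maxSynthPendingDepth 3

/-! # `L`-series of `χ ∘ N` for even Dirichlet characters near `s = 1` (helper76) -/

namespace Fermat.Agent.H76

open NumberField NumberField.mixedEmbedding NumberField.Units
  NumberField.Units.dirichletUnitTheorem Module NumberField.InfinitePlace Ideal nonZeroDivisors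
  Filter Topology

open scoped Classical

variable {K : Type*} [Field K] [NumberField K]

/-! ## arithmetic preliminaries -/

lemma norm_congr (m : ℕ) (x c : 𝓞 K) :
    ((Algebra.norm ℤ (x + (m : 𝓞 K) * c) : ℤ) : ZMod m) = ((Algebra.norm ℤ x : ℤ) : ZMod m) := by
  have hb := RingOfIntegers.basis K
  rw [Algebra.norm_eq_matrix_det (RingOfIntegers.basis K), Algebra.norm_eq_matrix_det
    (RingOfIntegers.basis K)]
  have h1 : ∀ A : Matrix (Free.ChooseBasisIndex ℤ (𝓞 K)) (Free.ChooseBasisIndex ℤ (𝓞 K)) ℤ,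
      ((A.det : ℤ) : ZMod m) = (A.map (Int.castRingHom (ZMod m))).det := fun A => by
    rw [← RingHom.mapMatrix_apply, ← RingHom.map_det]; rfl
  rw [h1, h1]
  congr 1
  ext i j
  rw [Matrix.map_apply, Matrix.map_apply, map_add, map_mul, map_natCast, Matrix.add_apply,
    map_add]
  have h2 : ((m : Matrix (Free.ChooseBasisIndex ℤ (𝓞 K)) (Free.ChooseBasisIndex ℤ (𝓞 K)) ℤ) *
      Algebra.leftMulMatrix (RingOfIntegers.basis K) c) i j =
      (m : ℤ) * Algebra.leftMulMatrix (RingOfIntegers.basis K) c i j := by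
    rw [← nsmul_eq_mul, Matrix.smul_apply, nsmul_eq_mul]
  rw [h2, map_mul]
  simp

lemma exists_coprime_rep (C : ClassGroup (𝓞 K)) {m : ℕ} (hm : m ≠ 0) :
    ∃ J : (Ideal (𝓞 K))⁰, ClassGroup.mk0 J = C ∧
      (J : Ideal (𝓞 K)) ⊔ Ideal.span {(m : 𝓞 K)} = ⊤ := by
  by_cases hu : Ideal.span {(m : 𝓞 K)} = ⊤
  · obtain ⟨J, hJ⟩ := ClassGroup.mk0_surjective C
    exact ⟨J, hJ, by rw [hu, sup_top_eq]⟩
  obtain ⟨I₀, hI₀⟩ := ClassGroup.mk0_surjective C⁻¹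
  have hI₀0 : (I₀ : Ideal (𝓞 K)) ≠ 0 := nonZeroDivisors.coe_ne_zero I₀
  have hm0 : Ideal.span {(m : 𝓞 K)} ≠ 0 := by
    rw [Ne, Ideal.zero_eq_bot, Ideal.span_singleton_eq_bot]
    exact_mod_cast hm
  have hle : Ideal.span {(m : 𝓞 K)} * (I₀ : Ideal (𝓞 K)) ≤ (I₀ : Ideal (𝓞 K)) := Ideal.mul_le_right
  obtain ⟨a, ha⟩ := IsDedekindDomain.exists_sup_span_eq hle (mul_ne_zero hm0 hI₀0)
  have haI : Ideal.span {a} ≤ (I₀ : Ideal (𝓞 K)) := by
    rw [← ha]; exact le_sup_right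
  obtain ⟨J, hJ⟩ := Ideal.dvd_iff_le.mpr haI
  have hcop : J ⊔ Ideal.span {(m : 𝓞 K)} = ⊤ := by
    have h1 : (I₀ : Ideal (𝓞 K)) * (J ⊔ Ideal.span {(m : 𝓞 K)}) = (I₀ : Ideal (𝓞 K)) * 1 := by
      rw [Ideal.mul_sup, ← hJ, mul_one, mul_comm, sup_comm]
      exact ha
    have := mul_left_cancel₀ hI₀0 h1
    rwa [Ideal.one_eq_top] at this
  have hJ0 : J ≠ 0 := by
    rintro rfl
    rw [Ideal.zero_eq_bot, bot_sup_eq] at hcop
    exact hu hcop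
  have ha0 : a ≠ 0 := by
    rintro rfl
    rw [Ideal.span_singleton_eq_bot.mpr rfl] at hJ
    exact mul_ne_zero hI₀0 hJ0 hJ.symm
  refine ⟨⟨J, mem_nonZeroDivisors_of_ne_zero hJ0⟩, ?_, hcop⟩
  have h2 : ClassGroup.mk0 (I₀ * ⟨J, mem_nonZeroDivisors_of_ne_zero hJ0⟩) = 1 := by
    rw [ClassGroup.mk0_eq_one_iff]
    exact ⟨a, hJ.symm⟩
  rw [map_mul, hI₀, inv_mul_eq_one] at h2
  exact h2.symm

lemma isUnit_absNorm {m : ℕ} {J : Ideal (𝓞 K)} (hJ : J ⊔ Ideal.span {(m : 𝓞 K)} = ⊤) :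
    IsUnit ((absNorm J : ℕ) : ZMod m) := by
  have h1 : (1 : 𝓞 K) ∈ J ⊔ Ideal.span {(m : 𝓞 K)} := by rw [hJ]; trivial
  obtain ⟨x, hx, y, hy, hxy⟩ := Submodule.mem_sup.mp h1
  obtain ⟨c, hc⟩ := Ideal.mem_span_singleton'.mp hy
  have h2 : x = 1 + (m : 𝓞 K) * (-c) := by
    rw [← hxy, ← hc]; ring
  have h3 : ((Algebra.norm ℤ x : ℤ) : ZMod m) = 1 := by
    rw [h2, norm_congr, map_one, Int.cast_one]
  have h4 : absNorm J ∣ (Algebra.norm ℤ x).natAbs := by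
    rw [← Ideal.absNorm_span_singleton]
    exact Ideal.absNorm_dvd_absNorm_of_le ((Ideal.span_singleton_le_iff_mem _).mpr hx)
  have h5 : ((absNorm J : ℤ)) ∣ Algebra.norm ℤ x := Int.natCast_dvd.mpr h4
  obtain ⟨d, hd⟩ := h5
  rw [hd, Int.cast_mul, Int.cast_natCast] at h3
  exact IsUnit.of_mul_eq_one _ h3

/-- `χ ∘ N` on integers -/
noncomputable def normChar {m : ℕ} (χ : DirichletCharacter ℂ m) (β : 𝓞 K) : ℂ :=
  χ ((Algebra.norm ℤ β : ℤ) : ZMod m)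

section normChar

variable {m : ℕ} (χ : DirichletCharacter ℂ m)

lemma normChar_mul (x y : 𝓞 K) : normChar χ (x * y) = normChar χ x * normChar χ y := by
  rw [normChar, map_mul, Int.cast_mul, map_mul]; rfl

lemma normChar_periodic {x t : 𝓞 K} (ht : t ∈ Ideal.span {(m : 𝓞 K)}) :
    normChar χ (t + x) = normChar χ x := by
  obtain ⟨c, hc⟩ := Ideal.mem_span_singleton'.mp ht
  rw [normChar, normChar, ← hc, add_comm, mul_comm, norm_congr]

lemma eval_natAbs (heven : χ (-1) = 1) (n : ℤ) :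
    χ ((n.natAbs : ℕ) : ZMod m) = χ ((n : ℤ) : ZMod m) := by
  rcases Int.natAbs_eq n with h | h
  · conv_rhs => rw [h, Int.cast_natCast]
  · conv_rhs => rw [h, Int.cast_neg, Int.cast_natCast, ← neg_one_mul, map_mul, heven, one_mul]

lemma normChar_unit (heven : χ (-1) = 1) (u : (𝓞 K)ˣ) (x : 𝓞 K) :
    normChar χ ((u : 𝓞 K) * x) = normChar χ x := by
  rw [normChar_mul, normChar, ← eval_natAbs χ heven]
  have : (Algebra.norm ℤ (u : 𝓞 K)).natAbs = 1 := by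
    have h : IsUnit (Algebra.norm ℤ (u : 𝓞 K)) := u.isUnit.map (Algebra.norm ℤ)
    exact Int.isUnit_iff_natAbs_eq.mp h
  rw [this, Nat.cast_one, map_one, one_mul]

lemma normChar_eq_absNorm (heven : χ (-1) = 1) (x : 𝓞 K) :
    normChar χ x = χ ((absNorm (Ideal.span {x}) : ℕ) : ZMod m) := by
  rw [Ideal.absNorm_span_singleton, eval_natAbs χ heven]; rfl

lemma normChar_gen (heven : χ (-1) = 1) {J : (Ideal (𝓞 K))⁰} (I : InvClass J) :
    normChar χ (gen I) = χ ((absNorm (I.1 : Ideal (𝓞 K)) : ℕ) : ZMod m) *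
      χ ((absNorm (J : Ideal (𝓞 K)) : ℕ) : ZMod m) := by
  rw [normChar_eq_absNorm χ heven, span_gen, map_mul, Nat.cast_mul, map_mul]

lemma exists_mul_add_eq_one {a : 𝓞 K} (ha : normChar χ a ≠ 0) :
    ∃ b c : 𝓞 K, b * a + c * (m : 𝓞 K) = 1 := by
  have h1 : IsUnit ((Algebra.norm ℤ a : ℤ) : ZMod m) := by
    by_contra h
    exact ha (χ.map_nonunit h)
  have h2 : a ∣ ((Algebra.norm ℤ a : ℤ) : 𝓞 K) := by
    have := Ideal.absNorm_mem (Ideal.span {a})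
    rw [Ideal.absNorm_span_singleton, Ideal.mem_span_singleton] at this
    have h3 : (((Algebra.norm ℤ a).natAbs : ℕ) : 𝓞 K) ∣ ((Algebra.norm ℤ a : ℤ) : 𝓞 K) := by
      have : (((Algebra.norm ℤ a).natAbs : ℤ) : ℤ) ∣ Algebra.norm ℤ a := Int.natAbs_dvd.mpr dvd_rfl
      have h4 := map_dvd (Int.castRingHom (𝓞 K)) this
      simpa using h4
    exact this.trans h3
  obtain ⟨d, hd⟩ := h2
  obtain ⟨e, he⟩ := h1.exists_right_inv
  obtain ⟨e', rfl⟩ := ZMod.intCast_surjective e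
  have h5 : ((Algebra.norm ℤ a * e' - 1 : ℤ) : ZMod m) = 0 := by
    push_cast
    rw [he, sub_self]
  rw [ZMod.intCast_zmod_eq_zero_iff_dvd] at h5
  obtain ⟨f, hf⟩ := h5
  refine ⟨d * (e' : 𝓞 K), -(f : 𝓞 K), ?_⟩
  have h6 : ((Algebra.norm ℤ a * e' - 1 : ℤ) : 𝓞 K) = (((m : ℤ) * f : ℤ) : 𝓞 K) := by rw [hf]
  push_cast at h6
  have h7 : d * (e' : 𝓞 K) * a = ((Algebra.norm ℤ a : ℤ) : 𝓞 K) * (e' : 𝓞 K) := by
    rw [hd]; ring
  rw [h7]
  linear_combination h6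

end normChar

/-! ## the mean value is zero -/

section mean

variable {m : ℕ} (χ : DirichletCharacter ℂ m)

lemma sum_eq_zero_of_smul {α : Type*} [Fintype α] (T : Finset α) (f : α → ℂ) (φ : α → α)
    (hφ : ∀ x ∈ T, φ x ∈ T) (hinj : ∀ x ∈ T, ∀ y ∈ T, φ x = φ y → x = y) {c : ℂ} (hc : c ≠ 1)
    (hf : ∀ x ∈ T, f (φ x) = c * f x) : ∑ x ∈ T, f x = 0 := by
  have h1 : ∑ x ∈ T, f (φ x) = ∑ x ∈ T, f x := by
    have himg : T.image φ = T := by
      apply Finset.eq_of_subset_of_card_le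
      · intro y hy
        obtain ⟨x, hx, rfl⟩ := Finset.mem_image.mp hy
        exact hφ x hx
      · rw [Finset.card_image_of_injOn (fun x hx y hy h => hinj x hx y hy h)]
    conv_rhs => rw [← himg]
    rw [Finset.sum_image (fun x hx y hy h => hinj x hx y hy h)]
  rw [Finset.sum_congr rfl hf, ← Finset.mul_sum] at h1
  have h2 : (c - 1) * ∑ x ∈ T, f x = 0 := by rw [sub_mul, one_mul, h1, sub_self]
  rcases mul_eq_zero.mp h2 with h | h
  · exact absurd (sub_eq_zero.mp h) hc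
  · exact h

/-- the period lattice -/
noncomputable def perLat {m : ℕ} (hm : m ≠ 0) (J : (Ideal (𝓞 K))⁰) : (Ideal (𝓞 K))⁰ :=
  ⟨Ideal.span {(m : 𝓞 K)} * (J : Ideal (𝓞 K)), mem_nonZeroDivisors_of_ne_zero
    (mul_ne_zero (by
      rw [Ne, Ideal.zero_eq_bot, Ideal.span_singleton_eq_bot]
      exact_mod_cast hm) (nonZeroDivisors.coe_ne_zero J))⟩

lemma perLat_le (hm : m ≠ 0) (J : (Ideal (𝓞 K))⁰) :
    (perLat hm J : Ideal (𝓞 K)) ≤ (J : Ideal (𝓞 K)) := Ideal.mul_le_right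

lemma perLat_le' (hm : m ≠ 0) (J : (Ideal (𝓞 K))⁰) :
    (perLat hm J : Ideal (𝓞 K)) ≤ Ideal.span {(m : 𝓞 K)} := Ideal.mul_le_left

lemma mean_eq_zero (hm : m ≠ 0) (J : (Ideal (𝓞 K))⁰) {a : 𝓞 K} (ha0 : normChar χ a ≠ 0)
    (ha1 : normChar χ a ≠ 1) :
    ∑ q : 𝓞 K ⧸ (perLat hm J : Ideal (𝓞 K)),
      (if q.out ∈ (J : Ideal (𝓞 K)) then normChar χ q.out else 0) = 0 := by
  rw [← Finset.sum_filter]
  set M : Ideal (𝓞 K) := (perLat hm J : Ideal (𝓞 K)) with hM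
  -- representatives differ by elements of `M`
  have hout : ∀ x : 𝓞 K, ∃ t ∈ M, (Ideal.Quotient.mk M x).out = t + x := by
    intro x
    refine ⟨(Ideal.Quotient.mk M x).out - x, ?_, by ring⟩
    rw [← Ideal.Quotient.eq_zero_iff_mem, map_sub, Ideal.Quotient.mk_out, sub_self]
  refine sum_eq_zero_of_smul _ (fun q : 𝓞 K ⧸ M => normChar χ q.out)
    (fun q => Ideal.Quotient.mk M (a * q.out)) ?_ ?_ ha1 ?_
  · intro q hq
    rw [Finset.mem_filter] at hq ⊢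
    refine ⟨Finset.mem_univ _, ?_⟩
    obtain ⟨t, ht, h⟩ := hout (a * q.out)
    rw [h]
    exact Ideal.add_mem _ (perLat_le hm J ht) (Ideal.mul_mem_left _ _ hq.2)
  · intro q hq q' hq' h
    rw [Finset.mem_filter] at hq hq'
    have h1 : a * q.out - a * q'.out ∈ M := by
      rw [← Ideal.Quotient.eq_zero_iff_mem, map_sub, h, sub_self]
    obtain ⟨b, c, hbc⟩ := exists_mul_add_eq_one χ ha0
    have h2 : q.out - q'.out ∈ M := by
      have h3 : q.out - q'.out = b * (a * q.out - a * q'.out) +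
          (m : 𝓞 K) * (c * (q.out - q'.out)) := by
        linear_combination (-(q.out - q'.out)) * hbc
      rw [h3]
      refine Ideal.add_mem _ (Ideal.mul_mem_left _ _ h1) ?_
      exact Ideal.mul_mem_mul (Ideal.mem_span_singleton_self _)
        (Ideal.mul_mem_left _ _ (Ideal.sub_mem _ hq.2 hq'.2))
    rw [← Ideal.Quotient.mk_out q, ← Ideal.Quotient.mk_out q']
    exact Ideal.Quotient.eq.mpr h2
  · intro q hq
    obtain ⟨t, ht, h⟩ := hout (a * q.out)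
    rw [h, normChar_periodic χ (perLat_le' hm J ht), normChar_mul]

end mean

/-! ## the final statements -/

section final

variable {m : ℕ} (χ : DirichletCharacter ℂ m)

/-- a coprime representative of the inverse class -/
noncomputable def copRep (hm : m ≠ 0) (C : ClassGroup (𝓞 K)) : (Ideal (𝓞 K))⁰ :=
  (exists_coprime_rep C⁻¹ hm).choose

lemma mk0_copRep (hm : m ≠ 0) (C : ClassGroup (𝓞 K)) : ClassGroup.mk0 (copRep hm C) = C⁻¹ :=
  (exists_coprime_rep C⁻¹ hm).choose_spec.1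

lemma copRep_coprime (hm : m ≠ 0) (C : ClassGroup (𝓞 K)) :
    (copRep hm C : Ideal (𝓞 K)) ⊔ Ideal.span {(m : 𝓞 K)} = ⊤ :=
  (exists_coprime_rep C⁻¹ hm).choose_spec.2

lemma isUnit_copRep (hm : m ≠ 0) (C : ClassGroup (𝓞 K)) :
    IsUnit ((absNorm (copRep hm C : Ideal (𝓞 K)) : ℕ) : ZMod m) :=
  isUnit_absNorm (copRep_coprime hm C)

/-- the partial `L`-function of `χ ∘ N` -/
noncomputable def pL (hm : m ≠ 0) (C : ClassGroup (𝓞 K)) (s : ℝ) : ℂ :=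
  (χ ((absNorm (copRep hm C : Ideal (𝓞 K)) : ℕ) : ZMod m))⁻¹ *
  ∑' I : InvClass (copRep hm C : (Ideal (𝓞 K))⁰), normChar χ (gen I) *
    (((absNorm (I.1 : Ideal (𝓞 K)) : ℝ) ^ (-s) : ℝ) : ℂ)

lemma normChar_bound (hm : m ≠ 0) : ∃ B : ℝ, ∀ x : 𝓞 K, ‖normChar χ x‖ ≤ B :=
  exists_bound_of_periodic (perLat hm 1) (normChar χ)
    (fun _ _ ht => normChar_periodic χ (perLat_le' hm 1 ht))

lemma hasSum_pL (hm : m ≠ 0) (heven : χ (-1) = 1) (C : ClassGroup (𝓞 K)) {s : ℝ} (hs : 1 < s) :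
    HasSum (fun I : (Ideal (𝓞 K))⁰ => if ClassGroup.mk0 I = C then
      χ ((absNorm (I : Ideal (𝓞 K)) : ℕ) : ZMod m) *
        (((absNorm (I : Ideal (𝓞 K)) : ℝ) ^ (-s) : ℝ) : ℂ) else 0) (pL χ hm C s) := by
  obtain ⟨B, hB⟩ := normChar_bound (K := K) χ hm
  have h0 := (hasSum_invClass_weight (J := copRep hm C) (normChar χ) (normChar_unit χ heven) hB hs)
  have h1 := h0.summable.hasSum.mul_left
    (χ ((absNorm (copRep hm C : Ideal (𝓞 K)) : ℕ) : ZMod m))⁻¹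
  have hne : χ ((absNorm (copRep hm C : Ideal (𝓞 K)) : ℕ) : ZMod m) ≠ 0 :=
    ((isUnit_copRep hm C).map χ).ne_zero
  have h2 : (fun I : InvClass (copRep hm C : (Ideal (𝓞 K))⁰) =>
      (χ ((absNorm (copRep hm C : Ideal (𝓞 K)) : ℕ) : ZMod m))⁻¹ * (normChar χ (gen I) *
      (((absNorm (I.1 : Ideal (𝓞 K)) : ℝ) ^ (-s) : ℝ) : ℂ))) =
      (fun I : (Ideal (𝓞 K))⁰ => χ ((absNorm (I : Ideal (𝓞 K)) : ℕ) : ZMod m) *
        (((absNorm (I : Ideal (𝓞 K)) : ℝ) ^ (-s) : ℝ) : ℂ)) ∘ (fun I : InvClass (copRep hm C :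
          (Ideal (𝓞 K))⁰) => I.1) := by
    funext I
    rw [normChar_gen χ heven, Function.comp_apply]
    field_simp
  rw [h2] at h1
  have h3 : ({I : (Ideal (𝓞 K))⁰ | ClassGroup.mk0 I * ClassGroup.mk0 (copRep hm C) = 1}.indicator
      (fun I : (Ideal (𝓞 K))⁰ => χ ((absNorm (I : Ideal (𝓞 K)) : ℕ) : ZMod m) *
        (((absNorm (I : Ideal (𝓞 K)) : ℝ) ^ (-s) : ℝ) : ℂ))) =
      fun I : (Ideal (𝓞 K))⁰ => if ClassGroup.mk0 I = C then
      χ ((absNorm (I : Ideal (𝓞 K)) : ℕ) : ZMod m) *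
        (((absNorm (I : Ideal (𝓞 K)) : ℝ) ^ (-s) : ℝ) : ℂ) else 0 := by
    funext I
    rw [Set.indicator_apply]
    congr 1
    rw [Set.mem_ofPred_eq, mk0_copRep, mul_inv_eq_one]
  rw [← h3]
  exact hasSum_subtype_iff_indicator.mp h1

lemma hasSum_sum_pL (hm : m ≠ 0) (heven : χ (-1) = 1) (ψ : ClassGroup (𝓞 K) → ℂ) {s : ℝ}
    (hs : 1 < s) :
    HasSum (fun I : (Ideal (𝓞 K))⁰ => ψ (ClassGroup.mk0 I) *
      (χ ((absNorm (I : Ideal (𝓞 K)) : ℕ) : ZMod m) *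
        (((absNorm (I : Ideal (𝓞 K)) : ℝ) ^ (-s) : ℝ) : ℂ)))
      (∑ C : ClassGroup (𝓞 K), ψ C * pL χ hm C s) := by
  have h1 : ∀ C ∈ (Finset.univ : Finset (ClassGroup (𝓞 K))),
      HasSum (fun I : (Ideal (𝓞 K))⁰ => ψ C * (if ClassGroup.mk0 I = C then
      χ ((absNorm (I : Ideal (𝓞 K)) : ℕ) : ZMod m) *
        (((absNorm (I : Ideal (𝓞 K)) : ℝ) ^ (-s) : ℝ) : ℂ) else 0)) (ψ C * pL χ hm C s) :=
    fun C _ => (hasSum_pL χ hm heven C hs).mul_left (ψ C)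
  have h2 := hasSum_sum h1
  have h3 : (fun I : (Ideal (𝓞 K))⁰ => ∑ C : ClassGroup (𝓞 K), ψ C *
      (if ClassGroup.mk0 I = C then
      χ ((absNorm (I : Ideal (𝓞 K)) : ℕ) : ZMod m) *
        (((absNorm (I : Ideal (𝓞 K)) : ℝ) ^ (-s) : ℝ) : ℂ) else 0)) =
      fun I : (Ideal (𝓞 K))⁰ => ψ (ClassGroup.mk0 I) *
      (χ ((absNorm (I : Ideal (𝓞 K)) : ℕ) : ZMod m) *
        (((absNorm (I : Ideal (𝓞 K)) : ℝ) ^ (-s) : ℝ) : ℂ)) := by
    funext I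
    rw [Finset.sum_eq_single (ClassGroup.mk0 I)]
    · rw [if_pos rfl]
    · intro C _ hC
      rw [if_neg (Ne.symm hC), mul_zero]
    · intro h
      exact absurd (Finset.mem_univ _) h
  rw [← h3]
  exact h2

lemma exists_tendsto_pL (hm : m ≠ 0) (heven : χ (-1) = 1) {a : 𝓞 K}
    (ha0 : normChar χ a ≠ 0) (ha1 : normChar χ a ≠ 1) (C : ClassGroup (𝓞 K)) :
    ∃ L : ℂ, Tendsto (fun s : ℝ => pL χ hm C s) (𝓝[>] 1) (𝓝 L) := by
  obtain ⟨L, hL⟩ := tendsto_invClass_weight (perLat hm (copRep hm C)) (copRep hm C)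
    (perLat_le hm _) (normChar χ) (normChar_unit χ heven)
    (fun _ _ ht => normChar_periodic χ (perLat_le' hm _ ht))
    (mean_eq_zero χ hm (copRep hm C) ha0 ha1)
  exact ⟨_, hL.const_mul _⟩

lemma exists_bound_pL (hm : m ≠ 0) (heven : χ (-1) = 1) {a : 𝓞 K}
    (ha0 : normChar χ a ≠ 0) (ha1 : normChar χ a ≠ 1) (C : ClassGroup (𝓞 K)) :
    ∃ B : ℝ, ∀ s : ℝ, 1 < s ∧ s ≤ 2 → ‖pL χ hm C s‖ ≤ B := by
  obtain ⟨B, hB⟩ := exists_bound_invClass_weight (perLat hm (copRep hm C)) (copRep hm C)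
    (perLat_le hm _) (normChar χ) (normChar_unit χ heven)
    (fun _ _ ht => normChar_periodic χ (perLat_le' hm _ ht))
    (mean_eq_zero χ hm (copRep hm C) ha0 ha1)
  refine ⟨‖(χ ((absNorm (copRep hm C : Ideal (𝓞 K)) : ℕ) : ZMod m))⁻¹‖ * B, fun s hs => ?_⟩
  rw [pL, norm_mul]
  exact mul_le_mul_of_nonneg_left (hB s hs) (norm_nonneg _)

/-- For an even Dirichlet character `χ` modulo `m` such that `χ(N a) ≠ 0, 1` for some
`a : 𝓞 K`, and an arbitrary function `ψ` on the class group, the `L`-series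
`∑ ψ(I) χ(N I) N(I)^{-s}` has a finite limit as `s → 1+`. -/
theorem normCharLSeries_tendsto (K : Type*) [Field K] [NumberField K] {m : ℕ} (hm : m ≠ 0)
    (χ : DirichletCharacter ℂ m) (heven : χ (-1) = 1) (a : 𝓞 K)
    (ha0 : χ ((Algebra.norm ℤ a : ℤ) : ZMod m) ≠ 0) (ha1 : χ ((Algebra.norm ℤ a : ℤ) : ZMod m) ≠ 1)
    (ψ : ClassGroup (𝓞 K) → ℂ) :
    ∃ L : ℂ, Tendsto (fun s : ℝ => ∑' I : (Ideal (𝓞 K))⁰, ψ (ClassGroup.mk0 I) *
      (χ ((absNorm (I : Ideal (𝓞 K)) : ℕ) : ZMod m) *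
        (((absNorm (I : Ideal (𝓞 K)) : ℝ) ^ (-s) : ℝ) : ℂ))) (𝓝[>] 1) (𝓝 L) := by
  choose L hL using fun C => exists_tendsto_pL (K := K) χ hm heven (a := a) ha0 ha1 C
  have h1 := tendsto_finsetSum (Finset.univ : Finset (ClassGroup (𝓞 K)))
    (fun C _ => (hL C).const_mul (ψ C))
  refine ⟨_, h1.congr' ?_⟩
  filter_upwards [self_mem_nhdsWithin] with s hs
  exact (hasSum_sum_pL χ hm heven ψ hs).tsum_eq.symm

/-- boundedness on `(1,2]` -/
theorem normCharLSeries_bounded (K : Type*) [Field K] [NumberField K] {m : ℕ} (hm : m ≠ 0)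
    (χ : DirichletCharacter ℂ m) (heven : χ (-1) = 1) (a : 𝓞 K)
    (ha0 : χ ((Algebra.norm ℤ a : ℤ) : ZMod m) ≠ 0) (ha1 : χ ((Algebra.norm ℤ a : ℤ) : ZMod m) ≠ 1)
    (ψ : ClassGroup (𝓞 K) → ℂ) :
    ∃ C : ℝ, ∀ s : ℝ, 1 < s → s ≤ 2 →
      ‖∑' I : (Ideal (𝓞 K))⁰, ψ (ClassGroup.mk0 I) *
      (χ ((absNorm (I : Ideal (𝓞 K)) : ℕ) : ZMod m) *
        (((absNorm (I : Ideal (𝓞 K)) : ℝ) ^ (-s) : ℝ) : ℂ))‖ ≤ C := by
  choose B hB using fun C => exists_bound_pL (K := K) χ hm heven (a := a) ha0 ha1 C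
  refine ⟨∑ C : ClassGroup (𝓞 K), ‖ψ C‖ * B C, fun s hs1 hs2 => ?_⟩
  rw [(hasSum_sum_pL χ hm heven ψ hs1).tsum_eq]
  refine norm_sum_le_of_le _ fun C _ => ?_
  rw [norm_mul]
  exact mul_le_mul_of_nonneg_left (hB C s ⟨hs1, hs2⟩) (norm_nonneg _)

/-- summability -/
theorem normCharLSeries_summable (K : Type*) [Field K] [NumberField K] {m : ℕ} (hm : m ≠ 0)
    (χ : DirichletCharacter ℂ m) (heven : χ (-1) = 1) (ψ : ClassGroup (𝓞 K) → ℂ) {s : ℝ}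
    (hs : 1 < s) :
    Summable fun I : (Ideal (𝓞 K))⁰ => ψ (ClassGroup.mk0 I) *
      (χ ((absNorm (I : Ideal (𝓞 K)) : ℕ) : ZMod m) *
        (((absNorm (I : Ideal (𝓞 K)) : ℝ) ^ (-s) : ℝ) : ℂ)) :=
  (hasSum_sum_pL χ hm heven ψ hs).summable

end final

end Fermat.Agent.H76
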