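import Fermat.Agent.H82FrobDensity
import Fermat.Agent.H45ClassL
import Fermat.Agent.H76ClassL
import Fermat.Agent.H76NormChar

/-!
# Reader's guide: densities of primes and sums over ideals

Companion of `GuideGalois` (section 3), `GuideQuadRec` (section 2) and `GuideFermatSmall` (section 6,
steps 2a, 2b); it is continued in `GuideChebotarev`. The steps of three theorems:

* **(A) Frobenius** (S01 and all statements which use it: S03, S04, S06, S09, S12, S15, S29-S36, S38-S48,
  S50, S55, S56, S58-S60): every cyclic subgroup of the Galois group of a number field is generated by a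
  Frobenius element (`GuideQuadRec`, `GuideGalois.frobenius_density_finite`). Sections 1, 2, 3.
* **(B) Class characters and power residues** (S14, and so S01, S03, S09, S12, S15):
  `GuideFermatSmall.exists_auxiliary_prime`. Sections 1, 4.
* **(C) Sums over ideals.** Series over the ideals of a number field with a nontrivial character of the
  class group (`GuideFermatSmall.classGroup_LSeries_bounded`, for (B); also S47, S48) or with an even
  Dirichlet character of the norm which is not trivial on the norms of the ideals prime to its modulus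
  (`GuideDeligneSerre.twisted_zeta_bounded`, S47, S48) are bounded for `1 < s ≤ 2`. Sections 5, 6, 7.

**Analytic input.** Only the simple pole at `s = 1` of the zeta function of a number field (the residue
formula of Mathlib) and (C). All variables `s` are real; no continuation to `s ≤ 1`, no nonvanishing of an
L-function at `s = 1` and no class field theory is used.

**Notation.** `K` is a number field, `P` its nonzero prime ideals (`HeightOneSpectrum (𝓞 K)`),
`H99.cnt K n` the number of ideals of norm `n`; the other symbols of sections 1 to 4 are unfolded in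
`notions`. `H99.HasLogDensity c δ`: the function `c` on the prime numbers has logarithmic density `δ`,
`∑_p c(p) p^(-s) ∼ δ log (1 / (s - 1))` as `s → 1+` (`GuideDeligneSerre.density_notions`). In sections 5
to 7 `mixedSpace K` is Mathlib's `ℝ ^ r₁ × ℂ ^ r₂`, `H76.emb` the embedding of `𝓞 K` in it, `H76.pou` the
partition of unity and `H76.wt s y = N(y)^(-s) pou(y)` the weight (`GuideFermatSmall.weight_eq`).

Files: `H99PrimeSum`, `H99Combo` (helper99), `H82Galois`, `H82FrobDensity` (helper82), `H45ClassL`,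
`H45ClassL1`, `H45ClassL2` (helper45), `H76Tent`, `H76UnitSum`, `H76Place`, `H76Weight`, `H76Lattice`,
`H76Regroup`, `H76ClassBound`, `H76ClassL`, `H76Periodic`, `H76NormChar` (helper76). In prose: notes [95],
[104], [215], [218] of `NOTES.md`.
-/

set_option autoImplicit false
set_option maxSynthPendingDepth 3

namespace Fermat.Agent.Guide.Density

open NumberField IsDedekindDomain Filter Topology nonZeroDivisors
open Fermat.Agent.H99 (HasLogDensity)

/-! ## 1. The zeta function and the primes of degree one -/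

/-- The symbols of `H99PrimeSum`: `zr K s` is the zeta series as a real number, `Ps K s` the sum of
`N(P)^(-s)` over all primes, `D1 K s` the sum over the primes of degree one, `HighDeg K` the set of the
other primes, `xp K s P = N(P)^(-s)`. -/
theorem notions (K : Type*) [Field K] [NumberField K] (s : ℝ) :
    H99.zr K s = ∑' n : ℕ, (H99.cnt K n : ℝ) * (n : ℝ) ^ (-s) ∧
    H99.Ps K s = ∑' P : HeightOneSpectrum (𝓞 K), (Ideal.absNorm P.asIdeal : ℝ) ^ (-s) ∧
    H99.D1 K s = ∑' p : Nat.Primes, (H99.cnt K p : ℝ) * ((p : ℕ) : ℝ) ^ (-s) ∧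
    H99.HighDeg K = {P | ¬ (Ideal.absNorm P.asIdeal).Prime} :=
  ⟨rfl, rfl, rfl, rfl⟩

/-- **Finite Euler products** (`H99PrimeSum`), in `[0, ∞]`. `SuppIn K F` is the set of the nonzero ideals
all of whose prime divisors are in the finite set `F`. (Induction on `F`: such an ideal is `P^n J` with
unique `n` and `J` prime to `P`.) -/
theorem euler_product_finite (K : Type*) [Field K] [NumberField K] (s : ℝ)
    (F : Finset (HeightOneSpectrum (𝓞 K))) :
    ∑' I : H99.SuppIn K F, ENNReal.ofReal ((Ideal.absNorm (I : Ideal (𝓞 K)) : ℝ) ^ (-s)) =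
      ∏ P ∈ F, (1 - ENNReal.ofReal ((Ideal.absNorm P.asIdeal : ℝ) ^ (-s)))⁻¹ :=
  H99.tsum_suppIn K s F

/-- **The pole** (`H99PrimeSum`): the zeta series converges for `s > 1` and `(s - 1) ζ_K(s)` tends to the
residue (Mathlib), a positive number. -/
theorem zeta_pole (K : Type*) [Field K] [NumberField K] :
    (∀ s : ℝ, 0 < s → dedekindZeta K (s : ℂ) = (H99.zr K s : ℂ)) ∧
    (∀ s : ℝ, 1 < s → Summable fun n : ℕ => (H99.cnt K n : ℝ) * (n : ℝ) ^ (-s)) ∧
    Tendsto (fun s : ℝ => (s - 1) * H99.zr K s) (𝓝[>] 1) (𝓝 (dedekindZeta_residue K)) ∧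
    0 < dedekindZeta_residue K :=
  ⟨fun _ => H99.dedekindZeta_eq K, fun _ => H99.summable_zr K, H99.tendsto_zr K,
    dedekindZeta_residue_pos K⟩

/-- **Logarithm of the zeta function** (`H99PrimeSum`), by comparison with the finite Euler products:
`∑_P N(P)^(-s) ≤ log ζ_K(s) ≤ ∑_P N(P)^(-s) + 2 ∑_P N(P)^(-2)`. -/
theorem log_zeta (K : Type*) [Field K] [NumberField K] {s : ℝ} (hs : 1 < s) :
    H99.Ps K s ≤ Real.log (H99.zr K s) ∧ Real.log (H99.zr K s) ≤ H99.Ps K s + 2 * H99.Ps K 2 :=
  ⟨H99.Ps_le_log K hs, H99.log_le_Ps K hs⟩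

/-- **Primes of higher degree** (`H99PrimeSum`). `H99.below K P` is the prime number below `P`. At most
`[K : ℚ]` primes lie above a prime number, so the primes whose norm is not a prime number contribute a
bounded sum. -/
theorem higher_degree (K : Type*) [Field K] [NumberField K] :
    (∀ P : HeightOneSpectrum (𝓞 K), (H99.below K P).Prime ∧
      ((H99.below K P : ℕ) : 𝓞 K) ∈ P.asIdeal ∧
      ∃ n, 0 < n ∧ Ideal.absNorm P.asIdeal = H99.below K P ^ n) ∧
    (∀ (p : ℕ), p.Prime → ∀ F : Finset (HeightOneSpectrum (𝓞 K)),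
      (∀ P ∈ F, H99.below K P = p) → F.card ≤ Module.finrank ℚ K) ∧
    ∀ s : ℝ, 1 < s → ∑' P : H99.HighDeg K, H99.xp K s P ≤
      Module.finrank ℚ K * ∑' n : ℕ, ((n : ℝ) ^ 2)⁻¹ :=
  ⟨H99.below_spec K, fun p hp F hF => H99.card_below_le K p hp F hF,
    fun _ hs => H99.tsum_highDeg_le K hs⟩

/-- **The primes of degree one** (`H99PrimeSum`): their sum is `log ζ_K(s)` up to a bounded function.
With `zeta_pole` it follows that `p ↦ #{ideals of norm p}` has density `1`
(`GuideQuadRec.primeSum_asymptotic`). -/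
theorem degree_one (K : Type*) [Field K] [NumberField K] {s : ℝ} (hs : 1 < s) :
    |H99.D1 K s - Real.log (H99.zr K s)| ≤
      Module.finrank ℚ K * ∑' n : ℕ, ((n : ℝ) ^ 2)⁻¹ + 2 * H99.Ps K 2 :=
  H99.abs_D1_sub_log_le K hs

/-! ## 2. Calculus of densities -/

/-- **Rules for densities** (`H99Combo`): sums, multiples, finite changes, uniqueness. -/
theorem density_rules {c d : Nat.Primes → ℝ} {δ ε : ℝ} (hc : HasLogDensity c δ) :
    (HasLogDensity d ε → HasLogDensity (fun p => c p + d p) (δ + ε)) ∧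
    (∀ a : ℝ, HasLogDensity (fun p => a * c p) (a * δ)) ∧
    (∀ S : Finset ℕ, (∀ p : Nat.Primes, (p : ℕ) ∉ S → d p = c p) → HasLogDensity d δ) ∧
    (HasLogDensity c ε → δ = ε) :=
  ⟨fun hd => hc.add hd, fun a => hc.const_mul a, fun S h => hc.congr_off S h,
    fun h => hc.unique h⟩

/-! ## 3. Frobenius elements and ideals of norm `p` (A) -/

/-- **Homomorphisms which agree on the invariants** (`H82Galois`). Let a finite group `G` act on the ring
`B`, `A` the ring of invariants. Two homomorphisms from `B` to a domain which agree on `A` differ by an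
element of `G`. (If not, choose `b_g` with `ψ(b_g) ≠ ψ'(g b_g)` and put `β = ∑ b_g X^(e(g))` with distinct
exponents. The coefficients of `∏ (T - g β)` are invariant, so `ψ(β)` is a root of the image under `ψ'`,
that is `ψ(β) = ψ'(g β)` for some `g`; compare the coefficients of `X^(e(g))`.) -/
theorem homomorphisms_conjugate {A B G Ω : Type*} [CommRing A] [CommRing B] [Algebra A B]
    [Group G] [Finite G] [MulSemiringAction G B] [Algebra.IsInvariant A B G]
    [CommRing Ω] [IsDomain Ω] (ψ ψ' : B →+* Ω)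
    (h : ∀ a : A, ψ (algebraMap A B a) = ψ' (algebraMap A B a)) :
    ∃ g : G, ∀ b, ψ b = ψ' (g • b) :=
  H82.exists_smul_eq_of_agree ψ ψ' h

/-- **Homomorphisms extend** (`H82Galois`) to integral extensions, if the target is an algebraically
closed field. -/
theorem homomorphisms_extend {A B Ω : Type*} [CommRing A] [CommRing B] [Algebra A B]
    [Algebra.IsIntegral A B] (hinj : Function.Injective (algebraMap A B)) [Field Ω]
    [IsAlgClosed Ω] (φ : A →+* Ω) : ∃ ψ : B →+* Ω, ∀ a, ψ (algebraMap A B a) = φ a :=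
  H82.exists_extension hinj φ

/-- **Ideals of norm `p`** correspond to the homomorphisms `𝓞 K → 𝔽_p`, that is to the homomorphisms to
any field of characteristic `p` with values fixed by the Frobenius map (`H82Galois`). -/
theorem ideals_of_norm_p {p : ℕ} [Fact p.Prime] (K : Type*) [Field K] [NumberField K]
    (Ω : Type*) [Field Ω] [CharP Ω p] :
    Nat.card {I : Ideal (𝓞 K) // Ideal.absNorm I = p} =
      Nat.card {φ : 𝓞 K →+* Ω // ∀ x, φ x ^ p = φ x} :=
  H82.card_ideal_eq_card_hom K Ω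

/-- **Inertia is trivial at almost all primes** (`H82Galois`): `n` is the norm of
`∏_{g ≠ 1} (θ_g - g θ_g)`, the `θ_g` chosen such that this is not zero. No discriminant is used. -/
theorem inertia_trivial (L : Type*) [Field L] [NumberField L] [IsGalois ℚ L] :
    ∃ n : ℕ, n ≠ 0 ∧ ∀ p : ℕ, p.Prime → ¬ p ∣ n → ∀ (Ω : Type) [Field Ω] [CharP Ω p]
      (ψ : 𝓞 L →+* Ω) (h : L ≃ₐ[ℚ] L), (∀ b : 𝓞 L, ψ (h • b) = ψ b) → h = 1 :=
  H82.exists_bad L

/-- **Counting conjugates of the Frobenius element** (`H82FrobDensity`). Let inertia be trivial at `p`.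
There are a homomorphism `ψ₀ : 𝓞 L → 𝔽̄_p` and an `F` with `ψ₀(b)^p = ψ₀(F b)`, and for every subgroup
`H` the number of `y` with `y⁻¹ F y ∈ H` is `#H` times the number of ideals of norm `p` of the fixed
field of `H` (`GuideQuadRec`). -/
theorem frobenius_data (L : Type*) [Field L] [NumberField L] [IsGalois ℚ L] (p : ℕ)
    [Fact p.Prime] (hfree : ∀ (Ω : Type) [Field Ω] [CharP Ω p] (ψ : 𝓞 L →+* Ω)
      (h : L ≃ₐ[ℚ] L), (∀ b : 𝓞 L, ψ (h • b) = ψ b) → h = 1) :
    ∃ (ψ₀ : 𝓞 L →+* AlgebraicClosure (ZMod p)) (F : L ≃ₐ[ℚ] L),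
      (∀ b : 𝓞 L, ψ₀ b ^ p = ψ₀ (F • b)) ∧
      ∀ H : Subgroup (L ≃ₐ[ℚ] L), Nat.card {y : L ≃ₐ[ℚ] L // y⁻¹ * F * y ∈ H} =
        Nat.card H *
          Nat.card {I : Ideal (𝓞 (IntermediateField.fixedField H)) // Ideal.absNorm I = p} :=
  H82.exists_frob_data L p hfree

/-- **Inversion over subgroups** (`H99Combo`). `genCount f D` is the number of `y` such that `y⁻¹ f y`
generates `D`, `gens D` the number of generators of `D`. By `frobenius_data` and the density `1` of the
primes of degree one the left side of the first formula, as a function of `p` with `f` a Frobenius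
element, has density `#C`; by induction on `C` and the second formula `genCount f C` has density
`gens C`, which is positive for cyclic `C`: this is Frobenius' theorem
(`H99.exists_conj_generator`, `GuideQuadRec`). -/
theorem inversion {G : Type*} [Group G] [Finite G] (f : G) (C : Subgroup G)
    [Fintype (Subgroup G)] [DecidablePred (· ≤ C)] :
    Nat.card {y : G // y⁻¹ * f * y ∈ C} =
      ∑ D ∈ Finset.univ.filter (· ≤ C), H99.genCount f D ∧
    Nat.card C = ∑ D ∈ Finset.univ.filter (· ≤ C), H99.gens D :=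
  ⟨H99.sum_genCount f C, H99.sum_gens C⟩

/-! ## 4. Class characters and power residues (B)

`χ` is a character of the class group of `K`, `H45.cL K χ s = ∑ χ(I) N(I)^(-s)` its L-series,
`H45.cw K χ s I = χ(I) N(I)^(-s)`. -/

/-- **Lower bound for the L-series** (`H45ClassL1`): `|L(s, χ)| ≥ exp (∑_P Re χ(P) N(P)^(-s) - C)` with
`C = (1/2) ∑_P N(P)^(-2)`. Proof: for a finite set `F` of primes the sum of `χ(I) N(I)^(-s)` over the
ideals `I` with all prime divisors in `F` is the product of the geometric series `(1 - z)⁻¹`,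
`z = χ(P) N(P)^(-s)` (induction on `F`: the ideals for `F ∪ {P}` are the `P^n J`; `tsum_suppIn_cw`);
these products converge to `L(s, χ)` (`tendsto_prod_cL`), and `|1 - z|⁻¹ ≥ exp (Re z - |z|² / 2)`. The
sum in the exponent is at least the sum over all primes minus twice the sum over the primes with
`χ(P) ≠ 1` (`H45.NonTriv`). -/
theorem class_character_bound (K : Type*) [Field K] [NumberField K]
    (χ : ClassGroup (𝓞 K) →* ℂˣ) {s : ℝ} (hs : 1 < s) :
    Real.exp (∑' P : HeightOneSpectrum (𝓞 K), (H45.cw K χ s P.asIdeal).re - H99.Ps K 2 / 2) ≤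
      ‖H45.cL K χ s‖ ∧
    H99.Ps K s - 2 * ∑' P : H45.NonTriv K χ, H99.xp K s P ≤
      ∑' P : HeightOneSpectrum (𝓞 K), (H45.cw K χ s P.asIdeal).re :=
  ⟨H45.exp_le_norm_cL K χ hs, H45.tsum_re_cw_ge K χ hs⟩

/-- **Kummer extensions** (`H45ClassL`). Let `K` contain a primitive `p`-th root of unity `ζ` and let the
integer `E` be no `p`-th power. There is an extension `M` of degree `p` with `θ^p = E` and
automorphisms of `𝓞 M` mapping `θ` to `ζ^i θ`. -/
theorem kummer_extension (K : Type) [Field K] [NumberField K] {p : ℕ} (hp : p.Prime) (ζ : 𝓞 K)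
    (hζ : IsPrimitiveRoot ζ p) (E : 𝓞 K) (hE : ∀ x : 𝓞 K, x ^ p ≠ E) :
    ∃ (M : Type) (_ : Field M) (_ : NumberField M) (_ : Algebra K M), Module.finrank K M = p ∧
      ∃ θ : 𝓞 M, θ ^ p = algebraMap (𝓞 K) (𝓞 M) E ∧ ∃ τ : ℕ → (𝓞 M →ₐ[𝓞 K] 𝓞 M),
        ∀ i, τ i θ = algebraMap (𝓞 K) (𝓞 M) (ζ ^ i) * θ :=
  H45.exists_kummer_extension K hp ζ hζ E hE

/-- **Splitting** (`H45ClassL2`). In this extension a prime `P` of degree one, `p ∉ P`, `E ∉ P`, modulo
which `E` is a `p`-th power `x^p`, splits into `p` primes of the same norm. (Modulo a prime above `P` the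
number `θ` is some `ζ^j x`; composing with the automorphisms one gets `p` different primes above `P`;
their norms, none of which is `1`, multiply to a divisor of `N(P)^p`.) -/
theorem splitting (K M : Type*) [Field K] [NumberField K] [Field M] [NumberField M]
    [Algebra K M] {p : ℕ} (hp : p.Prime) (hfr : Module.finrank K M = p) (ζ : 𝓞 K)
    (hζ : IsPrimitiveRoot ζ p) (E : 𝓞 K) (θ : 𝓞 M)
    (hθ : θ ^ p = algebraMap (𝓞 K) (𝓞 M) E) (τ : ℕ → (𝓞 M →ₐ[𝓞 K] 𝓞 M))
    (hτ : ∀ i, τ i θ = algebraMap (𝓞 K) (𝓞 M) (ζ ^ i) * θ) (P : HeightOneSpectrum (𝓞 K))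
    (hPp : (p : 𝓞 K) ∉ P.asIdeal) (hPE : E ∉ P.asIdeal) (x : 𝓞 K)
    (hx : x ^ p - E ∈ P.asIdeal) (hprime : (Ideal.absNorm P.asIdeal).Prime) :
    ∃ f : Fin p → HeightOneSpectrum (𝓞 M), Function.Injective f ∧
      ∀ i, (f i).asIdeal.comap (algebraMap (𝓞 K) (𝓞 M)) = P.asIdeal ∧
        Ideal.absNorm (f i).asIdeal = Ideal.absNorm P.asIdeal :=
  H45.exists_primes_above K M hp hfr ζ hζ E θ hθ τ hτ P hPp hPE x hx hprime

/-- **Counting** (`H45ClassL2`, `H45ClassL`). If above every prime of a set `A` there are `p` primes of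
`M` of the same norm, then `p ∑_{P ∈ A} N(P)^(-s)` is at most the sum over all primes of `M`, hence at
most `log (1 / (s - 1)) + C`. End of the proof of (B): if `E` were a `p`-th power modulo almost all primes of
degree one with `χ(P) ≠ 1`, then by `class_character_bound`
`log |L(s, χ)| ≥ (1 - 2 / p) log (1 / (s - 1)) - C'`, and `L(s, χ)` would be unbounded, since
`p ≥ 3`. -/
theorem counting (K M : Type*) [Field K] [NumberField K] [Field M] [NumberField M]
    [Algebra K M] {p : ℕ} (A : Set (HeightOneSpectrum (𝓞 K)))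
    (hA : ∀ P ∈ A, ∃ f : Fin p → HeightOneSpectrum (𝓞 M), Function.Injective f ∧
      ∀ i, (f i).asIdeal.comap (algebraMap (𝓞 K) (𝓞 M)) = P.asIdeal ∧
        Ideal.absNorm (f i).asIdeal = Ideal.absNorm P.asIdeal) :
    (∀ s : ℝ, 1 < s → (p : ℝ) * ∑' P : A, H99.xp K s P ≤ H99.Ps M s) ∧
    ∃ C : ℝ, ∀ᶠ s in 𝓝[>] (1 : ℝ), |Real.log (H99.zr M s) - Real.log (1 / (s - 1))| ≤ C :=
  ⟨fun _ hs => H45.mul_tsum_le_Ps A hA hs, H45.exists_eventually_abs_log_zr_sub_le M⟩

/-! ## 5. The weight (C) -/

/-- **Coordinates modulo units** (`H76UnitSum`). `H76.coord K x` are the coordinates of the logarithm of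
`x` with respect to the fundamental units, `H76.unitExp K u` the exponents of the unit `u`: multiplication
by a unit translates the coordinates by integers. `H76.unitsEquiv K` is the decomposition of the unit
group into roots of unity and `ℤ ^ r`. -/
theorem coordinates (K : Type*) [Field K] [NumberField K] :
    (∀ (u : (𝓞 K)ˣ) {x : mixedEmbedding.mixedSpace K}, mixedEmbedding.norm x ≠ 0 →
      ∀ i, H76.coord K (u • x) i = H76.coord K x i + (H76.unitExp K u i : ℝ)) ∧
    ∀ (ζ : Units.torsion K) (e : Fin (Units.rank K) → ℤ) (i : Fin (Units.rank K)),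
      H76.unitExp K (H76.unitsEquiv K (ζ, e)) i = e i :=
  ⟨fun u _ hx i => H76.coord_unit_smul u hx i, H76.unitsEquiv_repr⟩

/-- **Partition of unity** (`H76UnitSum`, `H76Regroup`). `H76.pou K x` is the product of the tents
`max 0 (1 - |t|)` of the coordinates. The sum over all units of `pou (u x)` is the number `w` of roots of
unity; so the sum of the weights of all `u β` is `w N(β)^(-s)`. -/
theorem partition_of_unity (K : Type*) [Field K] [NumberField K] :
    (∀ {x : mixedEmbedding.mixedSpace K}, mixedEmbedding.norm x ≠ 0 →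
      HasSum (fun u : (𝓞 K)ˣ => H76.pou K (u • x)) (Units.torsionOrder K : ℝ)) ∧
    ∀ (s : ℝ) {β : 𝓞 K}, β ≠ 0 →
      HasSum (fun u : (𝓞 K)ˣ => H76.wt s (H76.emb ((u : 𝓞 K) * β)))
        ((mixedEmbedding.norm (H76.emb β)) ^ (-s) * Units.torsionOrder K) :=
  ⟨fun hx => H76.hasSum_pou hx, fun _ _ hβ => H76.hasSum_wt_units hβ⟩

open scoped Classical in
/-- **Comparable absolute values** (`H76Place`). On the support of `pou` the logarithms of the absolute
values of `y` differ from their mean value by a bounded quantity (`H76.logBound K`, the sum of the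
absolute values of all components of the logarithms of the fundamental units), so all absolute values
are at least `ρ ‖y‖`, with a constant `ρ > 0` (`H76.rho K`). -/
theorem comparable (K : Type*) [Field K] [NumberField K] {y : mixedEmbedding.mixedSpace K}
    (hy : mixedEmbedding.norm y ≠ 0) :
    0 < H76.rho K ∧
    ((∀ i, |H76.coord K y i| ≤ 1) → ∀ w : InfinitePlace K,
      |Real.log (mixedEmbedding.normAtPlace w y) -
        Real.log (mixedEmbedding.norm y) * (Module.finrank ℚ K : ℝ)⁻¹| ≤ H76.logBound K) ∧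
    (H76.pou K y ≠ 0 → ∀ w : InfinitePlace K,
      H76.rho K * ‖y‖ ≤ mixedEmbedding.normAtPlace w y) :=
  ⟨H76.rho_pos K, fun h w => H76.abs_log_sub_le hy h w, fun h w => H76.rho_mul_norm_le hy h w⟩

/-- **The weight is Lipschitz** (`H76Weight`): if all absolute values of `y` and `z` are at least
`m ≥ 1` and differ by at most `c`, then `|wt_s(y) - wt_s(z)| ≤ C c m^(-(n + 1))`, `n = [K : ℚ]`, uniformly
for `1 ≤ s ≤ 2`, with `C = 2 n + 4 R` (`H76.diffConst K`). The first term comes from the power of the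
norm, the second from `pou`: the components of the logarithm differ by at most `4 c / m`, and `R` is a
bound for the norm of the map from the logarithms to the coordinates. -/
theorem weight_lipschitz (K : Type*) [Field K] [NumberField K]
    {y z : mixedEmbedding.mixedSpace K} {m c s : ℝ} (hm : 1 ≤ m)
    (hy : ∀ w, m ≤ mixedEmbedding.normAtPlace w y) (hz : ∀ w, m ≤ mixedEmbedding.normAtPlace w z)
    (hyz : ∀ w, |mixedEmbedding.normAtPlace w y - mixedEmbedding.normAtPlace w z| ≤ c)
    (hs1 : 1 ≤ s) (hs2 : s ≤ 2) :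
    |H76.wt s y - H76.wt s z| ≤ H76.diffConst K * c * (m⁻¹) ^ (Module.finrank ℚ K + 1) :=
  H76.abs_wt_sub_le hm hy hz hyz hs1 hs2

open scoped Classical in
/-- **Convergence** (`H76Lattice`, `H76ClassBound`): the weight of an integer `β` is at most a constant
times `‖β‖^(-n s)`, so the sum over all integers converges for `s > 1`, and it is at most
`C / (s - 1)` for `1 < s ≤ 2`. -/
theorem convergence (K : Type*) [Field K] [NumberField K] :
    (∀ s : ℝ, 1 ≤ s → ∀ β : 𝓞 K, H76.wt s (H76.emb β) ≤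
      H76.rho K ^ (-(Module.finrank ℚ K * s)) * ‖H76.emb β‖ ^ (-(Module.finrank ℚ K * s))) ∧
    (∀ s : ℝ, 1 < s → Summable fun β : 𝓞 K => H76.wt s (H76.emb β)) ∧
    ∃ C : ℝ, 0 ≤ C ∧ ∀ s : ℝ, 1 < s ∧ s ≤ 2 →
      (s - 1) * ∑' β : 𝓞 K, H76.wt s (H76.emb β) ≤ C :=
  ⟨fun _ hs β => H76.wt_emb_le hs β, fun _ hs => H76.summable_wt_emb hs,
    H76.exists_sum_wt_le (K := K)⟩

/-! ## 6. Lattices and ideals (C)

`J` is a nonzero ideal. The ideals `I` with `I J` principal are the subtype `H76.InvClass J` (the class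
inverse to the class of `J`), `H76.gen I` is a generator of `I J`. -/

/-- **Elements of an ideal** (`H76Regroup`). The nonzero elements of `J` are the products `u gen(I)`, each
of them for one ideal `I` of the inverse class and one unit `u` (`H76.par`); the norm of `gen(I)` is
`N(I) N(J)`. -/
theorem elements {K : Type*} [Field K] [NumberField K] {J : (Ideal (𝓞 K))⁰} :
    (∀ a : H76.InvClass J × (𝓞 K)ˣ,
      ((H76.par a : (J : Ideal (𝓞 K))) : 𝓞 K) = (a.2 : 𝓞 K) * H76.gen a.1) ∧
    Function.Injective (H76.par (K := K) (J := J)) ∧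
    (∀ {β : (J : Ideal (𝓞 K))}, (β : 𝓞 K) ≠ 0 → ∃ a, H76.par a = β) ∧
    ∀ I : H76.InvClass J, Ideal.span {H76.gen I} = (I.1 : Ideal (𝓞 K)) * (J : Ideal (𝓞 K)) ∧
      mixedEmbedding.norm (H76.emb (H76.gen I)) =
        (Ideal.absNorm (I.1 : Ideal (𝓞 K)) : ℝ) * (Ideal.absNorm (J : Ideal (𝓞 K)) : ℝ) :=
  ⟨fun _ => rfl, H76.par_injective, fun h => H76.exists_par_eq h,
    fun I => ⟨H76.span_gen I, H76.norm_emb_gen I⟩⟩

/-- **Cosets** (`H76Regroup`). The sums over two cosets of `J` differ by a bounded function (sum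
`GuideFermatSmall.weight_translation` over `J`), so the sum over all integers is `N(J)` times the sum over
`J`, up to a bounded function. -/
theorem cosets {K : Type*} [Field K] [NumberField K] (J : (Ideal (𝓞 K))⁰) :
    (∀ c : 𝓞 K, ∃ C : ℝ, 0 ≤ C ∧ ∀ s : ℝ, 1 < s → s ≤ 2 →
      |(∑' t : (J : Ideal (𝓞 K)), H76.wt s (H76.emb ((t : 𝓞 K) + c))) -
        ∑' t : (J : Ideal (𝓞 K)), H76.wt s (H76.emb (t : 𝓞 K))| ≤ C) ∧
    ∃ C : ℝ, 0 ≤ C ∧ ∀ s : ℝ, 1 < s ∧ s ≤ 2 →
      |(∑' β : 𝓞 K, H76.wt s (H76.emb β)) - (Ideal.absNorm (J : Ideal (𝓞 K)) : ℝ) *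
        ∑' β : (J : Ideal (𝓞 K)), H76.wt s (H76.emb (β : 𝓞 K))| ≤ C :=
  ⟨H76.exists_coset_bound_one J, H76.exists_coset_bound J⟩

/-- **Series over classes** (`H76ClassL`). `H76.pz J s` is the zeta function of the class inverse to the
class of `J`, `H76.invRep C` an ideal of the class `C⁻¹`. A series with a coefficient depending on the
class is the finite sum of the zeta functions of the classes, multiplied by these coefficients; the zeta
functions of the classes are equal up to bounded functions (`GuideFermatSmall.partial_zeta`), and the sum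
of the values of a nontrivial character is zero. -/
theorem class_series {K : Type*} [Field K] [NumberField K] (χ : ClassGroup (𝓞 K) → ℂ) {s : ℝ}
    (hs : 1 < s) :
    HasSum (fun I : (Ideal (𝓞 K))⁰ => χ (ClassGroup.mk0 I) *
        (((Ideal.absNorm (I : Ideal (𝓞 K)) : ℝ) ^ (-s) : ℝ) : ℂ))
      (∑ C : ClassGroup (𝓞 K), χ C * (H76.pz (H76.invRep C) s : ℂ)) ∧
    ∀ ψ : ClassGroup (𝓞 K) →* ℂˣ, ψ ≠ 1 → ∑ C : ClassGroup (𝓞 K), (ψ C : ℂ) = 0 :=
  ⟨H76.hasSum_classL χ hs, fun ψ hψ => H76.sum_char_eq_zero ψ hψ⟩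

/-- **Periodic coefficients** (`H76Periodic`). Let `g` be a function on `𝓞 K` with period ideal `M`. The
sum of `g(β) wt_s(β)` is the sum of the values of `g` on the residue classes times the sum of the weights
over `M`, up to a bounded function. -/
theorem periodic {K : Type*} [Field K] [NumberField K] (M : (Ideal (𝓞 K))⁰) (g : 𝓞 K → ℂ)
    (hper : ∀ x : 𝓞 K, ∀ t ∈ (M : Ideal (𝓞 K)), g (t + x) = g x) :
    ∃ C : ℝ, ∀ s : ℝ, 1 < s ∧ s ≤ 2 →
      ‖(∑' β : 𝓞 K, g β * (H76.wt s (H76.emb β) : ℂ)) -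
        (∑ q : 𝓞 K ⧸ (M : Ideal (𝓞 K)), g q.out) *
          ((∑' t : (M : Ideal (𝓞 K)), H76.wt s (H76.emb (t : 𝓞 K)) : ℝ) : ℂ)‖ ≤ C :=
  H76.exists_periodic_bound M g hper

/-- **Regrouping with coefficients** (`H76Periodic`). If `g` is bounded and invariant under units, the
series `∑ g(gen I) N(I)^(-s)` over the ideals of the inverse class of `J` is `N(J)^s / w` times the sum
of `g(β) wt_s(β)` over the elements `β` of `J`, where `w` is the number of roots of unity. -/
theorem regrouping {K : Type*} [Field K] [NumberField K] {J : (Ideal (𝓞 K))⁰} (g : 𝓞 K → ℂ)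
    (hu : ∀ (u : (𝓞 K)ˣ) (x : 𝓞 K), g ((u : 𝓞 K) * x) = g x) {B : ℝ} (hB : ∀ x, ‖g x‖ ≤ B)
    {s : ℝ} (hs : 1 < s) :
    HasSum (fun I : H76.InvClass J => g (H76.gen I) *
        (((Ideal.absNorm (I.1 : Ideal (𝓞 K)) : ℝ) ^ (-s) : ℝ) : ℂ))
      ((((Ideal.absNorm (J : Ideal (𝓞 K)) : ℝ) ^ s * (Units.torsionOrder K : ℝ)⁻¹ : ℝ) : ℂ) *
        ∑' β : (J : Ideal (𝓞 K)), g (β : 𝓞 K) * (H76.wt s (H76.emb (β : 𝓞 K)) : ℂ)) :=
  H76.hasSum_invClass_weight g hu hB hs

open scoped Classical in
/-- **Mean value zero** (`H76Periodic`): if moreover `g` is periodic modulo an ideal `M ⊆ J` and the sum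
of its values over `J / M` is zero, this series is bounded for `1 < s ≤ 2`. -/
theorem mean_value_zero {K : Type*} [Field K] [NumberField K] (M J : (Ideal (𝓞 K))⁰)
    (hMJ : (M : Ideal (𝓞 K)) ≤ (J : Ideal (𝓞 K))) (g : 𝓞 K → ℂ)
    (hu : ∀ (u : (𝓞 K)ˣ) (x : 𝓞 K), g ((u : 𝓞 K) * x) = g x)
    (hper : ∀ x : 𝓞 K, ∀ t ∈ (M : Ideal (𝓞 K)), g (t + x) = g x)
    (hsum : ∑ q : 𝓞 K ⧸ (M : Ideal (𝓞 K)),
      (if q.out ∈ (J : Ideal (𝓞 K)) then g q.out else 0) = 0) :
    ∃ C : ℝ, ∀ s : ℝ, 1 < s ∧ s ≤ 2 →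
      ‖∑' I : H76.InvClass J, g (H76.gen I) *
        (((Ideal.absNorm (I.1 : Ideal (𝓞 K)) : ℝ) ^ (-s) : ℝ) : ℂ)‖ ≤ C :=
  H76.exists_bound_invClass_weight M J hMJ g hu hper hsum

/-! ## 7. Characters of norms (C; S47, S48) -/

/-- **The character of the norm** (`H76NormChar`). `H76.normChar χ β = χ(N β)`, `N` the norm to `ℤ`. It is
multiplicative and periodic modulo `m`; if `χ(-1) = 1`, it is invariant under units, and its value at
`gen(I)` is `χ(N I) χ(N J)`. -/
theorem norm_character {K : Type*} [Field K] [NumberField K] {m : ℕ}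
    (χ : DirichletCharacter ℂ m) :
    (∀ x y : 𝓞 K, H76.normChar χ (x * y) = H76.normChar χ x * H76.normChar χ y) ∧
    (∀ {x t : 𝓞 K}, t ∈ Ideal.span {(m : 𝓞 K)} → H76.normChar χ (t + x) = H76.normChar χ x) ∧
    (χ (-1) = 1 → ∀ (u : (𝓞 K)ˣ) (x : 𝓞 K),
      H76.normChar χ ((u : 𝓞 K) * x) = H76.normChar χ x) ∧
    (χ (-1) = 1 → ∀ {J : (Ideal (𝓞 K))⁰} (I : H76.InvClass J), H76.normChar χ (H76.gen I) =
      χ ((Ideal.absNorm (I.1 : Ideal (𝓞 K)) : ℕ) : ZMod m) *
        χ ((Ideal.absNorm (J : Ideal (𝓞 K)) : ℕ) : ZMod m)) :=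
  ⟨H76.normChar_mul χ, fun ht => H76.normChar_periodic χ ht, fun h u x => H76.normChar_unit χ h u x,
    fun h _ I => H76.normChar_gen χ h I⟩

/-- **Representatives prime to `m`** (`H76NormChar`): every ideal class contains an ideal `J` prime to
`m`, and then `χ(N J) ≠ 0`. -/
theorem prime_representatives {K : Type*} [Field K] [NumberField K] {m : ℕ} (hm : m ≠ 0)
    (C : ClassGroup (𝓞 K)) :
    ∃ J : (Ideal (𝓞 K))⁰, ClassGroup.mk0 J = C ∧
      (J : Ideal (𝓞 K)) ⊔ Ideal.span {(m : 𝓞 K)} = ⊤ ∧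
      IsUnit ((Ideal.absNorm (J : Ideal (𝓞 K)) : ℕ) : ZMod m) :=
  let ⟨J, h1, h2⟩ := H76.exists_coprime_rep C hm
  ⟨J, h1, h2, H76.isUnit_absNorm h2⟩

open scoped Classical in
/-- **The mean value** (`H76NormChar`). If `χ(N a) ≠ 0, 1` for some integer `a`, the sum of `χ(N q)` over
`J / m J` is zero (`H76.perLat hm J = m J`): multiplication by `a` permutes this group, because `a` is
invertible modulo `m`, and multiplies the sum by `χ(N a)`. -/
theorem mean_value {K : Type*} [Field K] [NumberField K] {m : ℕ} (χ : DirichletCharacter ℂ m)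
    (hm : m ≠ 0) (J : (Ideal (𝓞 K))⁰) {a : 𝓞 K} (ha0 : H76.normChar χ a ≠ 0)
    (ha1 : H76.normChar χ a ≠ 1) :
    (∃ b c : 𝓞 K, b * a + c * (m : 𝓞 K) = 1) ∧
    ∑ q : 𝓞 K ⧸ (H76.perLat hm J : Ideal (𝓞 K)),
      (if q.out ∈ (J : Ideal (𝓞 K)) then H76.normChar χ q.out else 0) = 0 :=
  ⟨H76.exists_mul_add_eq_one χ ha0, H76.mean_eq_zero χ hm J ha0 ha1⟩

/-- **Boundedness** (`H76NormChar`) for an even `χ` which is not trivial on the norms of integers, with an
arbitrary coefficient `ψ` depending on the class: sum over the classes the series of `mean_value_zero` for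
`g = χ(N ·)`, divided by `χ(N J)`. The other case, `χ` trivial on the norms of integers but not on the
norms of ideals, is reduced to class group characters in `GuideChebotarev`. -/
theorem norm_series_bounded (K : Type*) [Field K] [NumberField K] {m : ℕ} (hm : m ≠ 0)
    (χ : DirichletCharacter ℂ m) (heven : χ (-1) = 1) (a : 𝓞 K)
    (ha0 : χ ((Algebra.norm ℤ a : ℤ) : ZMod m) ≠ 0)
    (ha1 : χ ((Algebra.norm ℤ a : ℤ) : ZMod m) ≠ 1) (ψ : ClassGroup (𝓞 K) → ℂ) :
    ∃ C : ℝ, ∀ s : ℝ, 1 < s → s ≤ 2 →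
      ‖∑' I : (Ideal (𝓞 K))⁰, ψ (ClassGroup.mk0 I) *
        (χ ((Ideal.absNorm (I : Ideal (𝓞 K)) : ℕ) : ZMod m) *
          (((Ideal.absNorm (I : Ideal (𝓞 K)) : ℝ) ^ (-s) : ℝ) : ℂ))‖ ≤ C :=
  H76.normCharLSeries_bounded K hm χ heven a ha0 ha1 ψ

end Fermat.Agent.Guide.Density
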