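import Fermat.Agent.H18Torsion
import Fermat.Agent.H40Pole
import Fermat.Agent.H42RedInputs

/-!
# Guide: reduction of divisors after Deuring, and lifting of roots, step by step

Companion of `GuideFunctionField`, section 2, and of `GuideReduction`, section 3: the steps of the
proofs of `GuideFunctionField.degree_poles_reduction`, `exists_place_reduction`, `riemannRoch_lift`,
`exists_root` and `torsion_injectivity`, and the construction of the reduction datum of `X_0(N)`.

**Why.**  These theorems replace the good reduction of the jacobian `J_0(N)` and the theorem that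
reduction is injective on torsion prime to the residue characteristic.  A *reduction datum*
`R : ReductionData K F k E` consists of a valuation ring `R.A` of `K` with residue map `R.π` onto
`k`, and a ring `R.B` of integral functions of the function field `F / K` with reduction
`R.ρ : R.B → E` to the function field `E / k`.  The valuation ring is not discrete (a place of
`ℚ̄`), nothing is complete, and there is no scheme.

**The reduction datum of `X_0(N)`** (section 1, which continues `GuideGaussSeries`, sections 3 and
4).  Reduction of the coefficients of Laurent series.  That there are enough integral functions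
follows from the inequality `[F : L(j)] ≤ [F_k : k(j)]`: a basis of `F_k / k(j)` can be lifted, and
the lift is a basis of `F / L(j)`.

**Reduction of divisors** (sections 2 and 3; Deuring).  For a divisor `D` of large degree the space
`L(D)` is reduced to a space of functions of the same dimension.  By Riemann's theorem on both sides
with the same genus, and because poles do not become worse, the reduction is again a space `L(D̄)`
with `deg D̄ = deg D`: this defines `D̄`.  It is additive in `D`, hence linear, and it sends places
to places.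

**Lifting of roots** (section 4, helper18).  Let `f` be a function with reduction `1` and divisor
`m D`, `m ≠ 0` in `k`, and let the reduction of `D` be zero.  Near each place of the reduced curve
`D` is the divisor of a function with reduction `1`, so `f` has approximate `m`-th roots there by
Newton's method; the local corrections can be glued modulo a constant `μ`, because this is a
question on the reduction of one finite-dimensional space; so there are arbitrarily good
approximate roots in a *fixed* space `L(N)`.  An `m`-th root in `L(N)` is a solution of a system of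
polynomial equations over `K`; if there were none, `1` would be a combination of the equations, and
this contradicts the existence of good approximations.

**Closures.**  Every theorem is used in S01, S03, S04, S06, S09, S12, S15, S17, S29 - S40, S42 -
S46, S50 and S58 - S60.  In addition: section 1 (except `modular_inputs`), `degree_inequality` and
`degree_of_poles` in S18 and S19; `scaling`, `divisible_by_constant` and section 4 in S18;
`reduction_datum`, `coefficients_integral`, `reduction_of_space`, `generic_element` and
`independence_over_subfield` in S18, S19 and S26; the other theorems of sections 2 and 3 in S19 and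
S26.

Reading order.
1. The reduction datum of `X_0(N)`.
2. Reduction of spaces of functions.
3. Reduction of divisors and places.
4. Lifting of roots.

NOTES.md: [115] (Deuring), [230] (Gauss valuations), Section 3.3.

Text by helper97; library files by helper40 (`H40Deuring`, `H40DeuringMain`, `H40DeuringPlace`,
`H40Pole`, `H40RRBasic`), helper18 (`H18Torsion`) and helper42 (`H42Gauss`, `H42GaussField`,
`H42GaussMod`, `H42RedInputs`).
-/

set_option autoImplicit false

noncomputable section

open Polynomial Module IntermediateField ModularCurve AlgebraicCurve WithZero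
open Fermat.Agent.H40 (ReductionData RiemannFor)

namespace Fermat.Agent.Guide.Deuring

/-! ## 1. The reduction datum of `X_0(N)`

`R : H42.RedRing F Fk A π` is a ring `R.B ⊆ F` with a homomorphism `R.ρ` to `Fk`, as in
`GuideGaussSeries.redRing_rules`; `G : H42.GaussData F Fk A π` is in addition a basis of `F` over
`L(x)` with independent reductions, as in `GuideGaussSeries.gaussData_rules`.  Degrees are degrees
of subfields of a large field (`relfinrank`). -/

section Gauss

variable {L E₁ k E₂ : Type*} [Field L] [Field E₁] [Algebra L E₁] [Field k] [Field E₂] [Algebra k E₂]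
  {A : ValuationSubring L} {π : A →+* k}

/-- **Independence lifts.**  If the reductions of `b_i ∈ B` are independent over `k[ρ x]`, then the
`b_i` are independent over `L[x]`: scale the coefficients of a relation so that they are in `A` and
one of them is `1`, and reduce.  (`H42GaussField`.) -/
theorem independence_lifts (R : H42.RedRing E₁ E₂ A π) {ι : Type*} [Finite ι] [Fintype ι]
    (x : R.B) (b : ι → R.B)
    (ind : ∀ q : ι → k[X], ∑ i, aeval (R.ρ x) (q i) * R.ρ (b i) = 0 → q = 0)
    (p : ι → L[X]) (hp : ∑ i, aeval (x : E₁) (p i) * (b i : E₁) = 0) : p = 0 :=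
  R.poly_independent x b ind p hp

/-- **Relations.**  More than `[F : L(x)]` elements of `F` satisfy a nontrivial relation whose
coefficients are polynomials in `x`.  (`H42GaussField`; multiply by a common denominator.) -/
theorem exists_polynomial_relation (x : E₁) (F : IntermediateField L E₁) (hx : x ∈ F)
    (hfin : relfinrank L⟮x⟯ F ≠ 0) {κ : Type*} [Fintype κ] (u : κ → E₁) (hu : ∀ i, u i ∈ F)
    (hcard : relfinrank L⟮x⟯ F < Fintype.card κ) :
    ∃ p : κ → L[X], (∃ i, aeval x (p i) ≠ 0) ∧ ∑ i, aeval x (p i) * u i = 0 :=
  H42.exists_relation x F hx hfin u hu hcard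

/-- **Lifting of generated elements.**  If `π` is surjective and `S` is a set of elements of `B`
which lie in `F`, every element of the field generated by the reductions of `S` is a quotient of
reductions of elements of `B ∩ F` (written `(R.restrict F).B`).  (`H42GaussField`.) -/
theorem lift_of_generated (R : H42.RedRing E₁ E₂ A π) (hπ : Function.Surjective π)
    (F : IntermediateField L E₁) (S : Set R.B) (hS : ∀ s ∈ S, (s : E₁) ∈ F) {t : E₂}
    (ht : t ∈ adjoin k (R.ρ '' S)) :
    ∃ y z : (R.restrict F).B, (R.restrict F).ρ z ≠ 0 ∧
      t * (R.restrict F).ρ z = (R.restrict F).ρ y :=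
  H42.exists_frac R hπ F S hS ht

/-- **Lifting of a basis.**  Let moreover `Fk` be generated by the reductions of `S`, let `ρ x ∈ Fk`
be transcendental, and `0 ≠ [F : L(x)] ≤ [Fk : k(ρ x)] = n`.  There are `n` elements `b_i` of
`B ∩ F` with reductions in `Fk`, independent over `k[ρ x]`: a basis of `Fk` over `k(ρ x)`,
multiplied by a common denominator which is the reduction of an element of `B ∩ F`.  By
`independence_lifts` the `b_i` are independent over `L(x)`, and by the inequality and
`exists_polynomial_relation` they generate `F`; so one has the Gauss data of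
`GuideGaussSeries.gauss_data`.  (`H42GaussField`.) -/
theorem lift_of_basis (R : H42.RedRing E₁ E₂ A π) (hπ : Function.Surjective π)
    (F : IntermediateField L E₁) (S : Set R.B) (hS : ∀ s ∈ S, (s : E₁) ∈ F)
    (Fk : IntermediateField k E₂) (hFk : adjoin k (R.ρ '' S) = Fk) (x : R.B)
    (hxk : R.ρ x ∈ Fk) (htr : ∀ q : k[X], aeval (R.ρ x) q = 0 → q = 0)
    (hne : relfinrank L⟮(x : E₁)⟯ F ≠ 0)
    (hdeg : relfinrank L⟮(x : E₁)⟯ F ≤ relfinrank k⟮R.ρ x⟯ Fk) :
    ∃ b : Fin (relfinrank k⟮R.ρ x⟯ Fk) → (R.restrict F).B,
      (∀ i, (R.restrict F).ρ (b i) ∈ Fk) ∧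
      ∀ q : Fin (relfinrank k⟮R.ρ x⟯ Fk) → k[X],
        ∑ i, aeval (R.ρ x) (q i) * (R.restrict F).ρ (b i) = 0 → q = 0 :=
  H42.exists_b R hπ F S hS Fk hFk x hxk htr hne hdeg

/-- **Gauss data give a reduction datum.**  `G.loc` is the ring of the quotients `y / z` with
`y, z ∈ B`, `ρ z ≠ 0`.  If every element of `E₂` is a quotient of two reductions, there is a
reduction datum with valuation ring `A`, ring of integral functions `G.loc`, and a reduction which
extends `ρ`.  (`H42GaussField`.) -/
theorem reduction_datum (G : H42.GaussData E₁ E₂ A π) [IsLocalHom π] (hπ : Function.Surjective π)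
    (hfrac : ∀ t : E₂, ∃ y z : G.B, G.ρ z ≠ 0 ∧ t * G.ρ z = G.ρ y) :
    ∃ R : ReductionData L E₁ k E₂, R.A = A ∧ R.B = G.loc ∧
      ∀ (y : G.B) (y' : R.B), (y' : E₁) = y → R.ρ y' = G.ρ y :=
  ⟨G.toReductionData hπ hfrac, rfl, rfl, fun y y' h => by
    obtain rfl : y' = ⟨y, G.le_loc y.2⟩ := Subtype.ext h
    exact G.res_coe y⟩

end Gauss

section Modular

variable {L : Type*} [Field L] [Algebra ℚ L] (A : ValuationSubring L) {k : Type*} [Field k]
  (π : A →+* k) (N : ℕ)

/-- **Every function over `k` is a quotient of reductions** of functions with coefficients in `A`.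
(`H42GaussMod`.  `hdeg` is the inequality of degrees over the `j`-line, see
`GuideReduction.degree_hypotheses`.) -/
theorem quotient_of_reductions (hπ : Function.Surjective π) (hdeg : H42.DegLE L k N)
    (t : modularFunctionFieldFullC k N) :
    ∃ y z : LaurentSeries A,
      coeffMap A.subtype y ∈ laurentBaseChange L (modularFunctionFieldFull N) ∧
      coeffMap A.subtype z ∈ laurentBaseChange L (modularFunctionFieldFull N) ∧
      coeffMap π z ≠ 0 ∧ (t : LaurentSeries k) * coeffMap π z = coeffMap π y := by
  obtain ⟨⟨⟨y', hy⟩, y, hy'⟩, ⟨⟨z', hz⟩, z, hz'⟩, h0, h⟩ := H42.modGauss_frac A π N hπ hdeg t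
  obtain rfl : coeffMap A.subtype y = y' := hy'
  obtain rfl : coeffMap A.subtype z = z' := hz'
  have e1 := H42.coe_modGauss_ρ A π N hπ hdeg y hy
  have e2 := H42.coe_modGauss_ρ A π N hπ hdeg z hz
  refine ⟨y, z, hy, hz, fun h1 => h0 (Subtype.ext (e2.trans h1)), ?_⟩
  have h2 := congrArg Subtype.val h
  exact (congrArg₂ (· * ·) rfl e2.symm).trans (h2.trans e1)

/-- **The reduction datum of `X_0(N)`** (`H42.modReductionData`): the reduction of a function with
coefficients in `A` is the reduction of its expansion.  (`H42RedInputs`.) -/
theorem modular_reduction_datum (hπ : Function.Surjective π) [IsLocalHom π]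
    (hdeg : H42.DegLE L k N) (y : LaurentSeries A)
    (hy : coeffMap A.subtype y ∈ laurentBaseChange L (modularFunctionFieldFull N))
    (hyk : coeffMap π y ∈ modularFunctionFieldFullC k N)
    (h : (⟨coeffMap A.subtype y, hy⟩ : laurentBaseChange L (modularFunctionFieldFull N)) ∈
      (H42.modReductionData A π N hπ hdeg).B) :
    (H42.modReductionData A π N hπ hdeg).ρ ⟨⟨coeffMap A.subtype y, hy⟩, h⟩ =
      ⟨coeffMap π y, hyk⟩ :=
  H42.modReductionData_ρ A π N hπ hdeg y hy hyk h

/-- **The hypothesis of S18** (`ReductionInputsAlong`: a map of the places compatible with the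
divisors of functions, and the fact that principal divisors are generated by divisors of functions
with coefficients in `A` and nonzero reduction) holds for `X_0(N)`, by the theorems of section 3:
`hF`, `hE` are Riemann's theorem with the same `g` (equality of the genera, `GuideIgusa`), `hpole` is
`degree_of_poles`.  (`H42RedInputs`.) -/
theorem modular_inputs (hπ : Function.Surjective π) [IsLocalHom π] (hdeg : H42.DegLE L k N)
    [IsAlgClosed L] [IsAlgClosed k] {g c : ℤ}
    (hF : RiemannFor L (laurentBaseChange L (modularFunctionFieldFull N)) g c)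
    (hE : RiemannFor k (modularFunctionFieldFullC k N) g c)
    (hpole : (H42.modReductionData A π N hπ hdeg).PoleIneq) (hgc : g ≤ c) (hc0 : 0 ≤ c) :
    ReductionInputsAlong A π N :=
  H42.reductionInputsAlong A π N hπ hdeg hF hE hpole hgc hc0

end Modular

/-! ## 2. Reduction of spaces of functions -/

section Spaces

variable {K F k E : Type*} [Field K] [Field F] [Algebra K F] [Field k] [Field E] [Algebra k E]

/-- **Coefficients are integral.**  If the reductions of `b_i ∈ B` are independent and `∑ c_i b_i`
is integral, then the `c_i` are in `A`: otherwise divide by the largest one and reduce.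
(`H40Deuring`.) -/
theorem coefficients_integral (R : ReductionData K F k E) {n : ℕ} {b : Fin n → R.B}
    (hb : LinearIndependent k fun i => R.ρ (b i)) {c : Fin n → K}
    (hx : (∑ i, c i • (b i : F)) ∈ R.B) (i : Fin n) : c i ∈ R.A :=
  R.coeff_mem hb hx i

/-- **Reduction of a space.**  `R.red V` is the space of the reductions of the integral elements of
`V`; it has the same dimension as `V`.  (`H40Deuring`: it is spanned by the reductions of a good
basis.) -/
theorem reduction_of_space (R : ReductionData K F k E) (V : Submodule K F)
    [FiniteDimensional K V] :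
    (∀ e : E, e ∈ R.red V ↔ ∃ x : R.B, (x : F) ∈ V ∧ R.ρ x = e) ∧
      FiniteDimensional k (R.red V) ∧ finrank k (R.red V) = finrank K V :=
  ⟨fun _ => Iff.rfl, R.finrank_red V⟩

/-- **Scaling.**  Every function `f ≠ 0` is a constant times an integral function with nonzero
reduction; and an integral function with nonzero reduction is a unit of `B`.  So `B` is a valuation
ring, with residue field `E`.  (`H40Deuring`, `H18Torsion`.) -/
theorem scaling (R : ReductionData K F k E) :
    (∀ f : F, f ≠ 0 → ∃ c : K, c ≠ 0 ∧ ∃ x : R.B, f = algebraMap K F c * x ∧ R.ρ x ≠ 0) ∧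
      (∀ x : R.B, R.ρ x ≠ 0 → IsUnit x) ∧ Function.Surjective R.ρ :=
  ⟨fun _ hf => H18.exists_scale' R hf, fun _ hx => H18.isUnit_of_ρ_ne_zero R hx,
    H18.ρ_surjective R⟩

/-- **Functions with reduction zero** are divisible in `B` by a constant of `A` which is not a unit
(`R.const a` is `a : R.A` as an element of `B`).  (`H18Torsion`.) -/
theorem divisible_by_constant (R : ReductionData K F k E) {x : R.B} (hx : R.ρ x = 0) :
    ∃ a : R.A, ¬ IsUnit a ∧ R.const a ∣ x :=
  H18.exists_dvd_of_ρ_eq_zero R hx

/-- **Riemann's theorem and base points.**  Let `dim L(D) = deg D + 1 - g` for `deg D ≥ c`.  If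
`deg D > c`, for every place `v` there is a function in `L(D)` with a pole of order exactly `D v` at
`v`; hence divisors of degree `> c` are determined by their spaces.  (`H40RRBasic`.) -/
theorem divisor_of_space {g c : ℤ} (hR : RiemannFor K F g c) (hdeg : ∀ v : Place K F, v.deg = 1)
    {D : Divisor K F} (hD : c < Divisor.degree D) :
    (∀ v : Place K F, ∃ f ∈ riemannRochSpace D, f ≠ 0 ∧ v.ord f = - D v) ∧
      ∀ D' : Divisor K F, c < Divisor.degree D' → riemannRochSpace D = riemannRochSpace D' →
        D = D' :=
  ⟨H40.exists_ord_eq hR hdeg hD, fun _ hD' h => H40.eq_of_L_eq hR hdeg hD hD' h⟩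

/-- **Dimension and degree.**  If `deg D < m` and `m > c`, then `dim L(D) < m + 1 - g`.
(`H40RRBasic`.) -/
theorem dimension_and_degree {g c : ℤ} (hR : RiemannFor K F g c)
    (hdeg : ∀ v : Place K F, v.deg = 1) (v : Place K F) {D : Divisor K F} {m : ℤ} (hm : c < m)
    (hD : Divisor.degree D < m) : (finrank K (riemannRochSpace D) : ℤ) < m + 1 - g :=
  H40.finrank_lt_of_degree_lt hR hdeg v hm hD

/-- **A generic element.**  A finite-dimensional space `V` of functions which contains `1`, over an
infinite field, is contained in a space `L(D)` such that `D ≥ 0` is the divisor of poles of a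
nonzero element of `V`: take `D` of minimal degree, and an element outside of the finitely many
proper subspaces `V ∩ L(D - v)`.  (`H40DeuringMain`.) -/
theorem generic_element [Infinite K] [HasPrincipalDivisors K F]
    (hdeg : ∀ v : Place K F, v.deg = 1) (V : Submodule K F) [FiniteDimensional K V]
    (h1 : (1 : F) ∈ V) :
    ∃ D : Divisor K F, 0 ≤ D ∧ V ≤ riemannRochSpace D ∧
      ∃ f ∈ V, f ≠ 0 ∧ ∀ v : Place K F, D v = max 0 (-(v.ord f)) :=
  H40.exists_generic hdeg V h1

end Spaces

/-! ## 3. Reduction of divisors and places

`R.IsRed D D'`: the divisor `D'` of `E` has the same degree as `D`, and the reduction of `L(D)` is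
`L(D')`.  `R.PoleIneq`: if `x ∈ L(D)` is integral, `D ≥ 0`, and the reduction of `x` is not zero,
its divisor of poles has degree at most `deg D`. -/

section Divisors

variable {K F k E : Type*} [Field K] [Field F] [Algebra K F] [Field k] [Field E] [Algebra k E]

/-- **Definitions** (`H40DeuringMain`). -/
theorem isRed_iff (R : ReductionData K F k E) (D : Divisor K F) (D' : Divisor k E) :
    (R.IsRed D D' ↔ Divisor.degree D' = Divisor.degree D ∧
      R.red (riemannRochSpace D) = riemannRochSpace D') ∧
    (R.PoleIneq ↔ ∀ (x : R.B) (D : Divisor K F) (D' : Divisor k E), 0 ≤ D →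
      (x : F) ∈ riemannRochSpace D → R.ρ x ≠ 0 →
      (∀ v : Place k E, D' v = max 0 (-(v.ord (R.ρ x)))) →
      Divisor.degree D' ≤ Divisor.degree D) :=
  ⟨Iff.rfl, Iff.rfl⟩

/-- **Independent elements over `K(x)`.**  Integral functions whose reductions are independent over
`k(ρ x)` are independent over `K(x)`.  (`H40Pole`; scale the coefficients of a relation.) -/
theorem independence_over_subfield (R : ReductionData K F k E) {ι : Type*} [Finite ι] {x : R.B}
    (hx : Transcendental K (x : F)) (hρx : Transcendental k (R.ρ x)) (z : ι → R.B)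
    (hz : LinearIndependent k⟮R.ρ x⟯ fun i => R.ρ (z i)) :
    LinearIndependent K⟮(x : F)⟯ fun i => (z i : F) :=
  R.linearIndependent_adjoin hx hρx z hz

/-- **Inequality of degrees.**  If the reduction of `x ∈ B` is transcendental, so is `x`, and
`[E : k(ρ x)] ≤ [F : K(x)]`.  (`H40Pole`.) -/
theorem degree_inequality (R : ReductionData K F k E) [IsAlgClosed K] [H94.FunField K F] {x : R.B}
    (hρx : Transcendental k (R.ρ x)) :
    Transcendental K (x : F) ∧ finrank k⟮R.ρ x⟯ E ≤ finrank K⟮(x : F)⟯ F :=
  ⟨R.transcendental_of_ρ hρx, R.finrank_adjoin_le hρx⟩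

/-- **Poles do not become worse.**  The two degrees of `degree_inequality` are the degrees of the
divisors of poles of `x` and of `ρ x` (for `ρ x` one needs only one inequality).  (`H40Pole`.) -/
theorem degree_of_poles (R : ReductionData K F k E) [CharZero K] [IsAlgClosed K] [H94.FunField K F]
    [IsAlgClosed k] [H3RR.IsFF k E] : R.PoleIneq :=
  R.poleIneq

/-- **Effective divisors have a reduction.**  Let `D ≥ 0` and `deg D > c`.  The reduction of `L(D)`
contains `1`; by `generic_element` it is contained in `L(D')`, with `D'` the divisor of poles of the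
reduction of an element of `L(D)`, so `deg D' ≤ deg D`.  If `deg D' < deg D`, the space `L(D')` is
too small by `dimension_and_degree`; so `deg D' = deg D`, and by Riemann's theorem with the same
genus the two spaces have the same dimension, so they are equal.  (`H40DeuringMain`.) -/
theorem reduction_of_effective (R : ReductionData K F k E) {g c : ℤ} [HasPrincipalDivisors K F]
    [HasPrincipalDivisors k E] [Infinite k] [Nonempty (Place K F)] [Nonempty (Place k E)]
    (hF : RiemannFor K F g c) (hE : RiemannFor k E g c) (hdE : ∀ v : Place k E, v.deg = 1)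
    (hpole : R.PoleIneq) {D : Divisor K F} (hD0 : 0 ≤ D) (hD : c < Divisor.degree D) :
    ∃ D' : Divisor k E, R.IsRed D D' :=
  R.exists_isRed_of_nonneg hF hE hdE hpole hD0 hD

/-- **Change by a principal divisor.**  If `D'` is the reduction of `D` and `x` is an integral
function with nonzero reduction, then `D' - div(ρ x)` is the reduction of `D - div x`.
(`H40DeuringMain`.) -/
theorem reduction_sub_principal (R : ReductionData K F k E) {g c : ℤ} (hF : RiemannFor K F g c)
    (hE : RiemannFor k E g c) {D : Divisor K F} {D' : Divisor k E} (h : R.IsRed D D')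
    (hD : c < Divisor.degree D) {x : R.B} (hx : R.ρ x ≠ 0)
    {Δ : Divisor K F} (hΔ : ∀ v : Place K F, Δ v = v.ord (x : F)) (hΔ0 : Divisor.degree Δ = 0)
    {Δ' : Divisor k E} (hΔ' : ∀ v : Place k E, Δ' v = v.ord (R.ρ x))
    (hΔ'0 : Divisor.degree Δ' = 0) : R.IsRed (D - Δ) (D' - Δ') :=
  h.sub_div R hF hE hD hx hΔ hΔ0 hΔ' hΔ'0

/-- **Every divisor of degree `> c` has exactly one reduction** (`H40DeuringMain`: make it effective
by a principal divisor; for the uniqueness use `divisor_of_space`). -/
theorem existence_and_uniqueness (R : ReductionData K F k E) {g c : ℤ} [HasPrincipalDivisors K F]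
    [HasPrincipalDivisors k E] [Infinite k] [Nonempty (Place K F)] [Nonempty (Place k E)]
    (hF : RiemannFor K F g c) (hE : RiemannFor k E g c) (hdE : ∀ v : Place k E, v.deg = 1)
    (hpole : R.PoleIneq) (hgc : g ≤ c) {D : Divisor K F} (hD : c < Divisor.degree D) :
    ∃! D' : Divisor k E, R.IsRed D D' :=
  existsUnique_of_exists_of_unique (R.exists_isRed hF hE hdE hpole hgc hD)
    fun _ _ h₁ h₂ => ReductionData.IsRed.unique R hE hdE h₁ h₂ hD

/-- **Additivity.**  (`H40DeuringMain`: at every place choose elements of the two spaces with poles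
of maximal order; their product is a reduction of an element of `L(D₁ + D₂)`, so the reduction of
`D₁ + D₂` is at least the sum; compare the degrees.) -/
theorem additivity (R : ReductionData K F k E) {g c : ℤ} [HasPrincipalDivisors K F]
    [HasPrincipalDivisors k E] [Infinite k] [Nonempty (Place K F)] [Nonempty (Place k E)]
    (hF : RiemannFor K F g c) (hE : RiemannFor k E g c) (hdE : ∀ v : Place k E, v.deg = 1)
    (hpole : R.PoleIneq) (hgc : g ≤ c) (hc0 : 0 ≤ c) {D₁ D₂ : Divisor K F} {E₁ E₂ : Divisor k E}
    (h₁ : R.IsRed D₁ E₁) (h₂ : R.IsRed D₂ E₂) (hD₁ : c < Divisor.degree D₁)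
    (hD₂ : c < Divisor.degree D₂) : R.IsRed (D₁ + D₂) (E₁ + E₂) :=
  ReductionData.IsRed.add R hF hE hdE hpole hgc hc0 h₁ h₂ hD₁ hD₂

/-- **Reduction of a place.**  For every place `P` of `F` there is a place `Q` of `E` such that
`n Q` is the reduction of `n P` for all `n > c`.  By additivity the reduction of `n P` is `n δ` with
a divisor `δ` of degree one, and `δ ≥ 0` because `1` is in the space.  (`H40DeuringPlace`; this
gives `GuideFunctionField.exists_place_reduction`.) -/
theorem reduction_of_place (R : ReductionData K F k E) {g c : ℤ} [HasPrincipalDivisors K F]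
    [HasPrincipalDivisors k E] [Infinite k] [Nonempty (Place K F)] [Nonempty (Place k E)]
    (hF : RiemannFor K F g c) (hE : RiemannFor k E g c) (hdF : ∀ v : Place K F, v.deg = 1)
    (hdE : ∀ v : Place k E, v.deg = 1) (hpole : R.PoleIneq) (hgc : g ≤ c) (hc0 : 0 ≤ c)
    (P : Place K F) :
    ∃ Q : Place k E, ∀ n : ℤ, c < n → R.IsRed (Finsupp.single P n) (Finsupp.single Q n) :=
  R.exists_place hF hE hdF hdE hpole hgc hc0 P

end Divisors

/-! ## 4. Lifting of roots

`r` is a map from the places of `F` to the places of `E` with `H18.PlaceCompat R r`: for every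
integral function `x` with nonzero reduction, `div(ρ x) = r_*(div x)`.  `r_* D` is
`Finsupp.mapDomain r D`. -/

section Roots

variable {K F k E : Type*} [Field K] [Field F] [Algebra K F] [Field k] [Field E] [Algebra k E]
  {R : ReductionData K F k E} {r : Place K F → Place k E}

/-- **Comparison of orders.**  If `x` has order at least `D P` at all places `P` over `Q`, then
`ρ x` has order at least `(r_* D) Q` at `Q`; if equality holds at `Q`, then `x` has order exactly
`D P` at all `P` over `Q`.  (`H18Torsion`.) -/
theorem comparison_of_orders [HasPrincipalDivisors K F] (hr : H18.PlaceCompat R r) {x : R.B}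
    (hx : R.ρ x ≠ 0) (D : Divisor K F) (Q : Place k E)
    (h : ∀ P, r P = Q → D P ≤ P.ord (x : F)) :
    Finsupp.mapDomain r D Q ≤ Q.ord (R.ρ x) ∧
      (Q.ord (R.ρ x) = Finsupp.mapDomain r D Q → ∀ P, r P = Q → P.ord (x : F) = D P) :=
  ⟨H18.le_ord_ρ hr hx D Q h, fun h0 P hP => H18.ord_eq_of_le hr hx D Q h h0 P hP⟩

/-- **Riemann-Roch spaces reduce onto Riemann-Roch spaces**: the reduction of `L(D)` is `L(r_* D)`
for `deg D ≥ c`; it is contained in it by `comparison_of_orders`, and the dimensions agree.
(`H18Torsion`.) -/
theorem reduction_of_riemannRochSpace {g c : ℤ} [HasPrincipalDivisors K F]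
    (hF : RiemannFor K F g c) (hE : RiemannFor k E g c) (hdF : ∀ v : Place K F, v.deg = 1)
    (hdE : ∀ v : Place k E, v.deg = 1) (hr : H18.PlaceCompat R r) {D : Divisor K F}
    (hD : c ≤ Divisor.degree D) :
    R.red (riemannRochSpace D) = riemannRochSpace (Finsupp.mapDomain r D) :=
  H18.red_eq hF hE hdF hdE hr hD

/-- **Local equations with reduction `1`.**  If `r_* D = 0`, then for every place `Q` of `E` there
is an integral function with reduction `1` and order `D P` at all places `P` over `Q`.  Proof: let
`D_Q` be the part of `D` over `Q` and `X` a place which is not over `Q`; the function `1` is in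
`L(r_*(n X - D_Q))`, lift it to `L(n X - D_Q)` and use `comparison_of_orders`.  (`H18Torsion`.) -/
theorem local_equation {g c : ℤ} [HasPrincipalDivisors K F] (hF : RiemannFor K F g c)
    (hE : RiemannFor k E g c) (hdF : ∀ v : Place K F, v.deg = 1)
    (hdE : ∀ v : Place k E, v.deg = 1) (hr : H18.PlaceCompat R r) [HasPrincipalDivisors k E]
    (D : Divisor K F) (hD : Finsupp.mapDomain r D = 0) (Q : Place k E) :
    ∃ v : R.B, R.ρ v = 1 ∧ ∀ P, r P = Q → P.ord (v : F) = D P :=
  H18.exists_local_eq hF hE hdF hdE hr D hD Q

/-- **Newton's method** in a commutative ring in which `m` is a unit: if `u ≡ 1` modulo `μ`, there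
are `t ≡ 1` modulo `μ` with `t ^ m ≡ u` modulo arbitrary powers of `μ`.  (`H18Torsion`.) -/
theorem newton {S : Type*} [CommRing S] (μ u : S) (m : ℕ) (hm : IsUnit (m : S))
    (hu : μ ∣ u - 1) (s : ℕ) : ∃ t : S, μ ∣ t - 1 ∧ μ ^ (s + 1) ∣ t ^ m - u :=
  H18.newton μ u m hm hu s

/-- **Local approximate roots.**  Let `m ≠ 0` in `k`, `f` with reduction `1` and divisor `m D`, and
`r_* D = 0`.  For every place `Q` of `E` and every constant `l ≠ 0` of `A` there is `z` with
reduction `1` and order at least `D P` at the places `P` over `Q`, such that `z ^ m ≡ f` modulo `l`: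
`z = v t`, where `v` is the local equation and `t` an approximate root of `f / v ^ m` by `newton` in
the ring of the integral functions which are regular over `Q`.  `hA` says that `A` has rank one.
(`H18Torsion`.) -/
theorem local_approximation {g c : ℤ} [HasPrincipalDivisors K F] (hF : RiemannFor K F g c)
    (hE : RiemannFor k E g c) (hdF : ∀ v : Place K F, v.deg = 1)
    (hdE : ∀ v : Place k E, v.deg = 1) (hr : H18.PlaceCompat R r) [HasPrincipalDivisors k E]
    (hA : ∀ a b : R.A, a ≠ 0 → ¬ IsUnit b → ∃ n : ℕ, a ∣ b ^ n)
    {m : ℕ} (hm : (m : k) ≠ 0) (f : R.B) (hf : R.ρ f = 1) (D : Divisor K F)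
    (hfD : ∀ P : Place K F, P.ord (f : F) = m * D P) (hD : Finsupp.mapDomain r D = 0)
    (Q : Place k E) (l : R.A) (hl : l ≠ 0) :
    ∃ z : R.B, R.ρ z = 1 ∧ (∀ P, r P = Q → P.adicValuation (z : F) ≤ exp (-D P)) ∧
      R.const l ∣ z ^ m - f :=
  H18.exists_local_approx hF hE hdF hdE hr hA hm f hf D hfD hD Q l hl

/-- **Gluing modulo a constant.**  Let `deg N ≥ c`, and let the integral function `δ` be congruent
modulo the constant `μ`, for every place `Q` of `E`, to an integral function with poles bounded by
`N` at the places over `Q`.  Then it is congruent modulo `μ` to an integral element of `L(N)`.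
Proof: extend a good basis of `L(N)` by an element `δ₂` to a good basis of `L(N) + K δ` and write
`δ = a δ₂ + η` with `η ∈ L(N)` integral, `a ∈ A`.  If `a` were not divisible by `μ`, the local
conditions would show that the reduction of `δ₂` has poles bounded by `r_* N`, hence is in the
reduction of `L(N)`, a contradiction.  (`H18Torsion`.) -/
theorem gluing_modulo_constant {g c : ℤ} [HasPrincipalDivisors K F] (hF : RiemannFor K F g c)
    (hE : RiemannFor k E g c) (hdF : ∀ v : Place K F, v.deg = 1)
    (hdE : ∀ v : Place k E, v.deg = 1) (hr : H18.PlaceCompat R r) {N : Divisor K F}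
    (hN : c ≤ Divisor.degree N) (μ : R.A) (hμ0 : μ ≠ 0) (δ : R.B)
    (hloc : ∀ Q : Place k E, ∃ η : R.B, (∀ P, r P = Q → P.adicValuation (η : F) ≤ exp (N P)) ∧
      R.const μ ∣ δ - η) :
    ∃ η : R.B, (η : F) ∈ riemannRochSpace N ∧ R.const μ ∣ δ - η :=
  H18.exists_dvd_sub_of_local hF hE hdF hdE hr hN μ hμ0 δ hloc

/-- **Global approximate roots.**  Under the hypotheses of `local_approximation`, let `N ≥ 0`,
`N ≥ -D`, `deg N ≥ c` and `f ≡ 1` modulo `μ`, `μ` not a unit.  For every `s` there is an integral
`y` in `L(N)` with `y ≡ 1` modulo `μ` and `y ^ m ≡ f` modulo `μ ^ (s + 1)`.  Induction on `s`: the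
correction `δ = (y ^ m - f) / μ ^ (s + 1)` satisfies the local conditions of
`gluing_modulo_constant`, by comparison of `y` with a local root.  (`H18Torsion`.) -/
theorem global_approximation {g c : ℤ} [HasPrincipalDivisors K F] (hF : RiemannFor K F g c)
    (hE : RiemannFor k E g c) (hdF : ∀ v : Place K F, v.deg = 1)
    (hdE : ∀ v : Place k E, v.deg = 1) (hr : H18.PlaceCompat R r) [HasPrincipalDivisors k E]
    (hA : ∀ a b : R.A, a ≠ 0 → ¬ IsUnit b → ∃ n : ℕ, a ∣ b ^ n)
    {m : ℕ} (hm : (m : k) ≠ 0) (f : R.B) (hf : R.ρ f = 1) (D : Divisor K F)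
    (hfD : ∀ P : Place K F, P.ord (f : F) = m * D P) (hD : Finsupp.mapDomain r D = 0)
    {N : Divisor K F} (hN : c ≤ Divisor.degree N) (hN0 : 0 ≤ N) (hDN : ∀ P, -D P ≤ N P)
    (μ : R.A) (hμ0 : μ ≠ 0) (hμ : ¬ IsUnit μ) (hfμ : R.const μ ∣ f - 1) (s : ℕ) :
    ∃ y : R.B, (y : F) ∈ riemannRochSpace N ∧ R.const μ ∣ y - 1 ∧
      R.const μ ^ (s + 1) ∣ y ^ m - f :=
  H18.exists_approx hF hE hdF hdE hr hA hm f hf D hfD hD hN hN0 hDN μ hμ0 hμ hfμ s

/-- **From approximate roots to a root.**  `V` is a finite-dimensional space of functions over the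
algebraically closed field `K`.  If `y ^ m = f` has integral solutions in `V` modulo every constant
`l ≠ 0` of `A`, it has a solution in `V`.  Proof: in coordinates with respect to good bases,
`y ^ m = f` is a system of equations `g_j = 0` over `K`.  Without solution, `1 = ∑ h_j g_j` by
Hilbert's Nullstellensatz; let `l ≠ 0` be a common denominator of the coefficients of the `h_j`.
For a solution modulo `l μ` this gives `1 ∈ μ A`, a contradiction.  (`H18Torsion`; the existence of
a root in `F` for `m D` principal and `r_* D = 0` is `GuideFunctionField.exists_root`.) -/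
theorem root_of_approximations (R : ReductionData K F k E) [IsAlgClosed K] (V : Submodule K F)
    [FiniteDimensional K V] (f : R.B) (m : ℕ) (μ : R.A) (hμ0 : μ ≠ 0) (hμ : ¬ IsUnit μ)
    (happ : ∀ l : R.A, l ≠ 0 → ∃ y : R.B, (y : F) ∈ V ∧ R.const l ∣ y ^ m - f) :
    ∃ y : F, y ∈ V ∧ y ^ m = f :=
  H18.exists_root_of_approx R V f m μ hμ0 hμ happ

end Roots

end Fermat.Agent.Guide.Deuring
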