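import Fermat.Agent.H49LTA

/-!
# Guide to the proof: dihedral deformations in characteristic two (companion of GuideResidual)

This file is a machine-checked table of contents. Every theorem below is a citation of a theorem of
the library, with its statement written out. Nothing imports this file.

**What it does.** `GuideResidual` cites Theorem B (`m4_dihedral`), the two facts about the theta side
(`m5_bound_and_surjectivity`) and Theorem C (`c_theorem`); `GuideResidualSteps.card_of_dihedral_type` is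
the bound which connects them. Here are the steps of their proofs. At the prime 2 they play the role of
a theorem `R = T`: no deformation ring and no patching is used, only a comparison of two numbers.

**The idea.** Let `E'` be a good curve, `N` its conductor (even and squarefree), `K = ℚ(√-N)`,
`G_K = GK N` the Galois group of `K`, `rb : G_ℚ → GL₂(𝔽₂)` the representation on `E'[2]`. It is surjective
and induced from a character `η` of order three of the class group of `K`. Let `T` be the Hecke ring of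
level `L = N ∏ Q` at the theta series of `η` (a finite free algebra over `O = W(𝔽₄)`), `B = O/2^m`, and
`A₀` the subalgebra of `T × B` generated by the pairs `(T_ℓ, a_ℓ)` and `(U_q, 1)`. One has to show that
`A₀ → T` is bijective; then `T → A₀ → B` is the desired homomorphism `T_ℓ ↦ a_ℓ`.
 * `A₀/2` is small: there is a representation over it, which is dihedral by Theorem B; so `A₀/2` is
   spanned over `𝔽₄` by the products of a value of an everywhere unramified character of `G_K` of 2-power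
   order and some of the `U_q`. Let `C₂` be the 2-part of the class group; the character has at most `#C₂`
   values (`GuideResidual.m5_unramified_characters`). So `#(A₀/2) ≤ 4^(#C₂ 2^#Q)`.
 * `T/2` is large: the theta series modulo 2 with values in the group ring is a homomorphism
   `π : T → 𝔽₄[C₂ × μ₂^Q]`, and `π` is surjective (Galois side and genus theory). So
   `#(T/2) ≥ 4^(#C₂ 2^#Q)`.

**Reading order.** 1. Theorem B: the step for a small extension. 2. The character of a dihedral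
representation and the bound. 3. `GL₂(𝔽₂)` over `𝔽₄`, Selmer groups with coefficients in `𝔽₄`.
4. From `A₀` to `A₀/2`. 5. The ring of the pairs. 6. The surjectivity of `π`, abstract part.
7. Application to `K = ℚ(√-N)`: the hypotheses, the bound for unramified characters, the dihedral
representation over the group ring, the surjectivity of `π`.

**Notation.** `GQ`, `M2`, `GK`, `C2'`, `C2Q`, `primesOver`, `cls`, `TSide'`, `CoefRing`, `Sel0`, `UnrBound`,
`GoodCurve`, `EData`, `AuxPrime` as in `GuideResidual`. `Shape H r`: `r` is diagonal on the subgroup `H` and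
antidiagonal off `H`. `conj P r` is `g ↦ P r(g) P⁻¹`.

**See also.** `GuideTSide` (how the theta side is constructed), `GuideGluing` (the representations over `T`
and over `A₀`), `GuideClassBound` and `GuideResidualSteps` (the bound for unramified characters),
`GuideGenus` (genus theory).

**Where.** NOTES.md, section 3.6 and Appendix A.8. In the proof terms of S01, S03, S04, S06, S38, S45, S46,
S50, S59, S60. Files and authors: `H69DihB` (helper69), `H55LT*` (helper55), `H51Sur*`, `H51Shape`,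
`H51Frob` (helper51), `H63UnrBound2` (helper63), `H61TE` (helper61). Text: helper55.
-/

set_option autoImplicit false

open IsLocalRing Matrix NumberField
open scoped NumberField nonZeroDivisors

namespace Fermat.Agent.Guide.Dihedral

open Fermat.Agent.H53 (GQ M2)
open Fermat.Agent.H69.Dih (Shape conj chr kap)
open Fermat.Agent.LT (C2' C2Q GK primesOver cls TSide' CoefRing)
open Fermat.Agent.H55.LT (Ev Sel0 UnrBound pairAlg pairFst pairSnd)

/-- An algebraic closure of `ℚ`. -/
local notation "Qb" => AlgebraicClosure ℚ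

/-! ## 1. Theorem B: the step for a small extension -/

/-- **Dihedral shape** (`H69DihB`): diagonal on `H`, antidiagonal off `H`. -/
theorem shape_iff {G : Type*} [Group G] (H : Subgroup G) {A : Type*} [CommRing A]
    (r : G → Matrix (Fin 2) (Fin 2) A) : Shape H r ↔
      (∀ g ∈ H, r g 0 1 = 0 ∧ r g 1 0 = 0) ∧ ∀ g, g ∉ H → r g 0 0 = 0 ∧ r g 1 1 = 0 :=
  Iff.rfl

/-- **The socle** (`H69DihB`): a finite local ring which is not a field has an element `x ≠ 0` of the
maximal ideal which is killed by the maximal ideal. So `A → A/x` is a small extension, and Theorem B is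
proved by induction on the number of elements of `A`. -/
theorem socle {A : Type*} [CommRing A] [IsLocalRing A] [Finite A] (h : maximalIdeal A ≠ ⊥) :
    ∃ x : A, x ≠ 0 ∧ x ∈ maximalIdeal A ∧ ∀ y ∈ maximalIdeal A, x * y = 0 :=
  H69.Dih.exists_socle h

/-- **The step of Theorem B** (`H69DihB`). Let `2 = 0` in `A`, `x` an element with `x a = x b` if and only
if `a ≡ b` modulo the maximal ideal, and `r` a representation over `A` of determinant one which is
dihedral modulo `x` (`hr1`, `hr2`): the wrong entry of `r(g)` is `x B(g)` in the first row and `x C(g)` in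
the second row. Put `b(g) = (C(g) r(g)₁₁, B(g) r(g)₀₀)` for `g ∈ H` and `b(g) = (C(g) r(g)₁₀, B(g) r(g)₀₁)`
for `g ∉ H`, with values in `k²`. This is a cocycle for the residual representation: since `y³ = 1` for all
`y ≠ 0` in `k` (`hk`), the space of the matrices with diagonal zero, with the action by conjugation, is
isomorphic to the residual representation itself. It is zero on the kernel of `r`, in particular on the
sets `I w`; and the local condition at `D v` says that its values on `D v` are fixed by `D v`. So it is a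
coboundary `b(g) = r(g) m - m` by `hSel`, and conjugation by `1 + x (0, m₁; m₀, 0)`, which is its own
inverse, makes `r` dihedral. Only `2 × 2` matrices are used. -/
theorem small_extension {G : Type*} [Group G] {H : Subgroup G} {A k : Type*} [CommRing A] [Field k]
    (h2 : (2 : A) = 0) (π : A →+* k) (hπ : Function.Surjective π)
    {x : A} (hxx : x * x = 0) (hx : ∀ a b : A, x * a = x * b ↔ π a = π b) (hπx : π x = 0)
    (hH : ∀ a b : G, a * b ∈ H ↔ (a ∈ H ↔ b ∈ H))
    (r : G →* Matrix (Fin 2) (Fin 2) A) (hdet : ∀ g, r g 0 0 * r g 1 1 - r g 0 1 * r g 1 0 = 1)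
    (hr1 : ∀ g ∈ H, (∃ b, r g 0 1 = x * b) ∧ ∃ c, r g 1 0 = x * c)
    (hr2 : ∀ g, g ∉ H → (∃ b, r g 0 0 = x * b) ∧ ∃ c, r g 1 1 = x * c)
    (hk : ∀ y : k, y ≠ 0 → y ^ 3 = 1)
    {ι : Type*} (D : ι → Subgroup G) (hD : ∀ v, ∃ g ∈ D v, g ∉ H)
    (s : ι → G → A) (hs : ∀ v, ∀ g ∈ D v, s v g ^ 2 = 1)
    (hloc : ∀ v, ∀ g ∈ D v, ∀ g' ∈ D v, (r g - s v g • (1 : Matrix (Fin 2) (Fin 2) A)) *
      (r g' - s v g' • (1 : Matrix (Fin 2) (Fin 2) A)) = 0)
    {κ : Type*} (I : κ → Set G) (hI : ∀ w, ∀ g ∈ I w, r g = 1)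
    (N : Set G) (hN : ∀ n ∈ N, r n = 1)
    (hSel : ∀ b : G → Fin 2 → k,
      (∀ g g', b (g * g') = b g + (π.mapMatrix (r g)) *ᵥ b g') →
      (∀ g, ∀ n ∈ N, b (g * n) = b g) → (∀ w, ∀ g ∈ I w, b g = 0) →
      (∀ v, ∀ g ∈ D v, ∀ g' ∈ D v, (π.mapMatrix (r g')) *ᵥ b g = b g) →
      ∃ m : Fin 2 → k, ∀ g, b g = (π.mapMatrix (r g)) *ᵥ m - m) :
    ∃ m0 m1 : A, Shape H (fun g => (1 + !![0, x * m1; x * m0, 0]) * r g *
      (1 + !![0, x * m1; x * m0, 0])) :=
  H69.Dih.step h2 π hπ hxx hx hπx hH r hdet hr1 hr2 hk D hD s hs hloc I hI N hN hSel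

/-! ## 2. The character of a dihedral representation and the bound -/

/-- **The character** (`H69DihB`): if `r` is dihedral of determinant one, the upper left entry is a
character of `H` with values in the units, and the lower right entry is its inverse. (Off `H` the trace
is zero; so the traces of `r` generate the same algebra as the sums `χ(g) + χ(g)⁻¹`.) -/
theorem character_values {G : Type*} [Group G] {H : Subgroup G} {A : Type*} [CommRing A]
    (r : G →* Matrix (Fin 2) (Fin 2) A) (hsh : Shape H r) (hdet : ∀ g, (r g).det = 1) (g : H) :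
    ((chr r hsh hdet g : Aˣ) : A) = r g 0 0 ∧ (((chr r hsh hdet g)⁻¹ : Aˣ) : A) = r g 1 1 :=
  ⟨H69.Dih.chr_val r hsh hdet g, H69.Dih.chr_inv r hsh hdet g⟩

/-- **Its part with residue one** (`H69DihB`): let `A` be an algebra over its residue field `k`, `π` the
residue map. Then `r(g)₀₀ = c κ(g)` with a constant `c = π(r(g)₀₀)` of `k` and a character `κ = kap` with
residue one. (In the application `c` is the cubic character and `κ` has 2-power order.) -/
theorem part_with_residue_one {G : Type*} [Group G] {H : Subgroup G} {k A : Type*} [Field k]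
    [CommRing A] [Algebra k A] (π : A →+* k) (hπk : ∀ c, π (algebraMap k A c) = c)
    (r : G →* Matrix (Fin 2) (Fin 2) A) (hsh : Shape H r) (hdet : ∀ g, (r g).det = 1) (g : H) :
    r g 0 0 = algebraMap k A (π (r g 0 0)) * (kap (k := k) π r hsh hdet g : A) ∧
      r g 1 1 = algebraMap k A (π (r g 1 1)) * ((kap (k := k) π r hsh hdet g)⁻¹ : Aˣ) ∧
      π (kap (k := k) π r hsh hdet g : Aˣ) = 1 :=
  ⟨H69.Dih.chr_eq π r hsh hdet g, H69.Dih.chr_eq' π r hsh hdet g, H69.Dih.π_kap π hπk r hsh hdet g⟩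

/-- **Values at the bad primes** (`H69DihB`): if `D` is not contained in `H` and
`(r(g) - s(g)) (r(g') - s(g')) = 0` on `D`, then `r(g)₀₀ = s(g)` for `g ∈ D ∩ H`. Proof: the upper right
entry of the relation for `g` and some `g' ∈ D` off `H` is `(r(g)₀₀ - s(g)) r(g')₀₁ = 0`, and `r(g')₀₁`
is a unit. So `κ` is unramified at these primes. -/
theorem local_values {G : Type*} [Group G] {H : Subgroup G} {A : Type*} [CommRing A]
    (h2 : (2 : A) = 0) (r : G →* Matrix (Fin 2) (Fin 2) A) (hsh : Shape H r)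
    (hdet : ∀ g, (r g).det = 1) {D : Subgroup G} (hD : ∃ g ∈ D, g ∉ H) {s : G → A}
    (hloc : ∀ g ∈ D, ∀ g' ∈ D, (r g - s g • (1 : Matrix (Fin 2) (Fin 2) A)) *
      (r g' - s g' • (1 : Matrix (Fin 2) (Fin 2) A)) = 0)
    {g : G} (hg : g ∈ D) (hgH : g ∈ H) : r g 0 0 = s g :=
  H69.Dih.chr_local h2 r hsh hdet hD hloc hg hgH

/-- **The span of a group of units** (`H55LTC3`): if `A` is generated as a `k`-algebra by the traces of
the dihedral representation `r` and by a set `U`, and `Γ` is a finite group of units which contains the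
values of `κ` and the elements of `U`, then `dim A ≤ #Γ`: the span of `Γ` is a subalgebra, and it contains
`χ(g) + χ(g)⁻¹ = c κ(g) + c⁻¹ κ(g)⁻¹`. -/
theorem span_of_units {G : Type*} [Group G] {H : Subgroup G} {k A : Type*} [Field k] [CommRing A]
    [Algebra k A] (π : A →+* k) (r : G →* Matrix (Fin 2) (Fin 2) A)
    (hsh : Shape H r) (hdet : ∀ g, (r g).det = 1) (Γ : Subgroup Aˣ) [Finite Γ]
    (hΓ : (kap (k := k) π r hsh hdet).range ≤ Γ) (U : Set A) (hU : ∀ u ∈ U, ∃ γ ∈ Γ, (γ : A) = u)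
    (hgen : Algebra.adjoin k (Set.range (fun g => (r g).trace) ∪ U) = ⊤) :
    Module.finrank k A ≤ Nat.card Γ :=
  H55.LT.finrank_le_gen π r hsh hdet Γ hΓ U hU hgen

/-- **Adjoining square roots of one** (`H55LTC3`): a finite subgroup and `n` elements of square one of a
commutative group lie in a subgroup which is at most `2^n` times as large. -/
theorem adjoin_square_roots {G : Type*} [CommGroup G] (Γ : Subgroup G) (hΓ : Finite Γ)
    (U : Finset G) (hU : ∀ u ∈ U, u ^ 2 = 1) :
    ∃ Γ' : Subgroup G, Finite Γ' ∧ Γ ≤ Γ' ∧ (∀ u ∈ U, u ∈ Γ') ∧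
      Nat.card Γ' ≤ Nat.card Γ * 2 ^ U.card :=
  H55.LT.exists_subgroup_adjoin Γ hΓ U hU

/-- **The order of `κ`** (`H55LTD`): units with residue one in a finite local ring with `2 = 0` form a
2-group, since `(1 + y)^(2^n) = 1 + y^(2^n)`. -/
theorem two_group {A k : Type*} [CommRing A] [IsLocalRing A] [Finite A] [Field k]
    (h2 : (2 : A) = 0) (π : A →+* k) (Γ : Subgroup Aˣ) (hΓ : ∀ u ∈ Γ, π (u : A) = 1) :
    IsPGroup 2 Γ :=
  H55.LT.isPGroup_of_residue h2 π Γ hΓ

/-- **The bound, for an abstract group** (`H55LTC3`). Hypotheses of Theorem B (as in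
`GuideResidual.m4_dihedral`), `A` a `k`-algebra generated by the traces and by a set `U` of elements of
square one; suppose that every character of `H` with residue one, trivial on `N` and on the `I w` and
equal to `s v` on `D v ∩ H`, has at most `h` values (`hM5`). Then `#A ≤ #k^(h 2^#U)`. -/
theorem abstract_bound {G : Type} [Group G] {H : Subgroup G} {k : Type} [Field k] [Finite k]
    (hH : ∀ a b : G, a * b ∈ H ↔ (a ∈ H ↔ b ∈ H))
    (hk : ∀ y : k, y ≠ 0 → y ^ 3 = 1)
    {ι : Type} (D : ι → Subgroup G) (hD : ∀ v, ∃ g ∈ D v, g ∉ H)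
    {κ : Type} (I : κ → Set G) (N : Set G)
    (A : Type) [CommRing A] [IsLocalRing A] [Finite A] [Algebra k A]
    (h2 : (2 : A) = 0) (π : A →+* k) (hπk : ∀ c, π (algebraMap k A c) = c)
    (r : G →* Matrix (Fin 2) (Fin 2) A) (hdet : ∀ g, (r g).det = 1)
    (hbar : Shape H fun g => π.mapMatrix (r g))
    (s : ι → G → A) (hs : ∀ v, ∀ g ∈ D v, s v g ^ 2 = 1)
    (hloc : ∀ v, ∀ g ∈ D v, ∀ g' ∈ D v, (r g - s v g • (1 : Matrix (Fin 2) (Fin 2) A)) *
      (r g' - s v g' • (1 : Matrix (Fin 2) (Fin 2) A)) = 0)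
    (hI : ∀ w, ∀ g ∈ I w, r g = 1) (hN : ∀ n ∈ N, r n = 1)
    (hSel : ∀ b : G → Fin 2 → k,
      (∀ g g', b (g * g') = b g + (π.mapMatrix (r g)) *ᵥ b g') →
      (∀ g, ∀ n ∈ N, b (g * n) = b g) → (∀ w, ∀ g ∈ I w, b g = 0) →
      (∀ v, ∀ g ∈ D v, ∀ g' ∈ D v, (π.mapMatrix (r g')) *ᵥ b g = b g) →
      ∃ m : Fin 2 → k, ∀ g, b g = (π.mapMatrix (r g)) *ᵥ m - m)
    (U : Finset A) (hU : ∀ u ∈ U, u ^ 2 = 1)
    (hgen : Algebra.adjoin k (Set.range (fun g => (r g).trace) ∪ (U : Set A)) = ⊤) {h : ℕ}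
    (hM5 : ∀ c : H →* Aˣ, (∀ g, π (c g) = 1) → (∀ g : H, (g : G) ∈ N → c g = 1) →
      (∀ v, ∀ g : H, (g : G) ∈ D v → (c g : A) = s v g) → (∀ w, ∀ g : H, (g : G) ∈ I w → c g = 1) →
      Nat.card c.range ≤ h) :
    Nat.card A ≤ Nat.card k ^ (h * 2 ^ U.card) :=
  H55.LT.card_le_of_type_gen hH hk D hD I N A h2 π hπk r hdet hbar s hs hloc hI hN hSel U hU hgen hM5

/-! ## 3. `GL₂(𝔽₂)` over `𝔽₄`, Selmer groups with coefficients in `𝔽₄` -/

/-- **Even elements** of `GL₂(𝔽₂) = S₃` (`H55LTRes`): the identity and the two elements of order three,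
whose trace is `1`. They form a subgroup of index two. -/
theorem even_elements (M M' : Matrix (Fin 2) (Fin 2) (ZMod 2)) :
    (Ev M ↔ M = 1 ∨ M.trace = 1) ∧
      (M.det ≠ 0 → M'.det ≠ 0 → (Ev (M * M') ↔ (Ev M ↔ Ev M'))) :=
  ⟨Iff.rfl, H55.LT.ev_mul M M'⟩

/-- **Diagonalisation over `𝔽₄`** (`H55LTRes`). Let `ω² = ω + 1`. Conjugation by
`U = (ω + 1, 1; ω, 1)` makes the even elements of `GL₂(𝔽₂)` diagonal and the others antidiagonal; such an
`ω` exists in a field with four elements. So `rb` becomes dihedral over `𝔽₄`, for the subgroup of the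
`g` with `rb(g)` even. -/
theorem diagonalisation {k : Type*} [Field k] [Algebra (ZMod 2) k] :
    (Nat.card k = 4 → ∃ ω : k, ω ^ 2 = ω + 1) ∧
    ∀ {ω : k} (h : ω ^ 2 = ω + 1), (H55.LT.diagU ω h).val = !![ω + 1, 1; ω, 1] ∧
      ∀ M : Matrix (Fin 2) (Fin 2) (ZMod 2), M.det ≠ 0 →
        (Ev M →
          ((H55.LT.diagU ω h).val * M.map (algebraMap (ZMod 2) k) * (H55.LT.diagU ω h)⁻¹.val) 0 1 = 0 ∧
          ((H55.LT.diagU ω h).val * M.map (algebraMap (ZMod 2) k) * (H55.LT.diagU ω h)⁻¹.val) 1 0 = 0) ∧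
        (¬ Ev M →
          ((H55.LT.diagU ω h).val * M.map (algebraMap (ZMod 2) k) * (H55.LT.diagU ω h)⁻¹.val) 0 0 = 0 ∧
          ((H55.LT.diagU ω h).val * M.map (algebraMap (ZMod 2) k) * (H55.LT.diagU ω h)⁻¹.val) 1 1 = 0) :=
  ⟨fun hk => H55.LT.exists_omega hk, fun h => ⟨rfl, fun M hM => H55.LT.shape_diagU h M hM⟩⟩

/-- **Extension of the coefficients of the Selmer group** (`H55LTSel`). `Sel0 rb S` (written out in
`GuideResidual.sel0_iff`) says that all cocycles with values in `𝔽₂²` with certain local conditions are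
coboundaries. The same then holds for `k²`, and for a representation `rk` conjugate to `rb ⊗ k`. Proof:
apply the coordinate functions of a basis of `k` over `𝔽₂`. -/
theorem selmer_with_coefficients {k : Type*} [Field k] [Algebra (ZMod 2) k] [Finite k]
    {rb : GQ →* M2 (ZMod 2)} {S : Set ℕ} (h : Sel0 rb S) (Q : (Matrix (Fin 2) (Fin 2) k)ˣ)
    (rk : GQ → Matrix (Fin 2) (Fin 2) k)
    (hrk : ∀ g, rk g = Q.val * (rb g).map (algebraMap (ZMod 2) k) * Q⁻¹.val)
    (b : GQ → Fin 2 → k) (h1 : ∀ g h, b (g * h) = b g + rk g *ᵥ (b h))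
    (h2 : ∃ L : IntermediateField ℚ Qb, FiniteDimensional ℚ L ∧
      ∀ g σ : GQ, (∀ x ∈ L, σ x = x) → b (g * σ) = b g)
    (h3 : ∀ ℓ : ℕ, ℓ.Prime → ℓ ∉ S → ∀ P : ValuationSubring Qb, P.LiesOverPrime ℓ →
      ∀ σ ∈ P.inertiaSubgroupIn ℚ, b σ = 0)
    (h4 : ∀ v : ℕ, v.Prime → v ∈ S → ∀ P : ValuationSubring Qb, P.LiesOverPrime v →
      ∀ g ∈ P.decompositionSubgroup ℚ, ∀ h ∈ P.decompositionSubgroup ℚ, rk h *ᵥ (b g) = b g) :
    ∃ x : Fin 2 → k, ∀ g, b g = rk g *ᵥ x - x :=
  h.conj Q rk hrk b h1 h2 h3 h4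

/-- **Theorem B for the Galois group** (`H51Shape`, from `GuideResidual.m4_dihedral`, `diagonalisation`
and `selmer_with_coefficients`). `A` is a finite local ring with `2 = 0` and residue field `𝔽₄`, `r` a
representation over `A` of finite level, of determinant one, with reduction conjugate to `rb`, unramified
outside `S`, and of the type of block LT at the primes of `S` with a free sign `χ` (`htype`). If the
decomposition groups at the primes of `S` are not contained in `H` and the Selmer group vanishes, then `r`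
is conjugate to a dihedral representation. -/
theorem theorem_B {k : Type} [Field k] [Finite k] (hk4 : Nat.card k = 4) [Algebra (ZMod 2) k]
    (A : Type) [CommRing A] [IsLocalRing A] [Finite A]
    (h2 : (2 : A) = 0) (π : A →+* k) (hπ : Function.Surjective π)
    (rb : GQ →* M2 (ZMod 2)) (hrb : ∀ g, (rb g).det ≠ 0) (H : Subgroup GQ)
    (hH : ∀ g, g ∈ H ↔ Ev (rb g)) (r : GQ →* M2 A)
    (hcont : ∃ L : IntermediateField ℚ Qb, FiniteDimensional ℚ L ∧
      ∀ σ : GQ, (∀ x ∈ L, σ x = x) → r σ = 1)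
    (hdet : ∀ g, (r g).det = 1) (Q : (M2 k)ˣ)
    (hQ : ∀ g, π.mapMatrix (r g) = Q.val * (rb g).map (algebraMap (ZMod 2) k) * Q⁻¹.val)
    (S : Set ℕ)
    (hunr : ∀ ℓ : ℕ, ℓ.Prime → ℓ ∉ S → ∀ P : ValuationSubring Qb,
      P.LiesOverPrime ℓ → ∀ σ ∈ P.inertiaSubgroupIn ℚ, r σ = 1)
    (htype : ∀ v : ℕ, v.Prime → v ∈ S → ∀ P : ValuationSubring Qb,
      P.LiesOverPrime v → ∃ χ : GQ → A,
        (∀ g ∈ P.decompositionSubgroup ℚ, χ g ^ 2 = 1) ∧
        (∀ g ∈ P.inertiaSubgroupIn ℚ, χ g = 1) ∧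
        ∀ g ∈ P.decompositionSubgroup ℚ, ∀ g' ∈ P.decompositionSubgroup ℚ,
          (r g - χ g • (1 : M2 A)) * (r g' - χ g' • (1 : M2 A)) = 0)
    (hnsp : ∀ v : ℕ, v.Prime → v ∈ S → ∀ P : ValuationSubring Qb,
      P.LiesOverPrime v → ∃ g ∈ P.decompositionSubgroup ℚ, g ∉ H)
    (hSel : Sel0 rb S) : ∃ P : (M2 A)ˣ, Shape H (conj P r) :=
  H55.LT.exists_shape_char2 hk4 A h2 π hπ rb hrb H hH r hcont hdet Q hQ S hunr htype hnsp hSel

/-! ## 4. From `A₀` to `A₀/2` -/

/-- **The residue field acts on `A₀/2`** (`H55LTD`), since `2` generates the maximal ideal of `O`; this is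
where the unramified coefficient ring `O = W(𝔽₄)` is needed. -/
theorem residue_field_acts {O : Type} [CommRing O] {k : Type} [Field k] [Algebra O k]
    (hOk : Function.Surjective (algebraMap O k))
    (hker : RingHom.ker (algebraMap O k) = Ideal.span {(2 : O)})
    (A0 : Type) [CommRing A0] [Algebra O A0] :
    ∃ j : k →+* A0 ⧸ Ideal.span {(2 : A0)}, ∀ x : O,
      j (algebraMap O k x) = Ideal.Quotient.mk _ (algebraMap O A0 x) :=
  H55.LT.exists_kAlg hOk hker A0

/-- **The bound for `A₀/2`** (`H55LTE`). `A₀` is a local ring, finite over `O`, with residue field `𝔽₄`, and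
`ρ` a representation over `A₀` which satisfies modulo 2 the conditions of `theorem_B`; `A₀` is generated
over `O` by the traces of `ρ` and by a set `U` of elements of square one; unramified characters of `H` of
2-power order have at most `h` values. Then `#(A₀/2) ≤ 4^(h 2^#U)`: apply
`GuideResidualSteps.card_of_dihedral_type` to `A₀/2`. (The type of `ρ` contains the factor `det ρ(g)`,
which is `1` modulo 2, `GuideGluing.det_one_mod_two`.) -/
theorem bound_mod_two {O : Type} [CommRing O] {k : Type} [Field k] [Finite k] [Algebra O k]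
    [Algebra (ZMod 2) k] (hOk : Function.Surjective (algebraMap O k))
    (hker : RingHom.ker (algebraMap O k) = Ideal.span {(2 : O)}) (hk4 : Nat.card k = 4)
    {A0 : Type} [CommRing A0] [IsLocalRing A0] [Algebra O A0] [Module.Finite O A0]
    (res : A0 →ₐ[O] k) (rb : GQ →* M2 (ZMod 2)) (hrb : ∀ g, (rb g).det ≠ 0) (H : Subgroup GQ)
    (hH : ∀ g, g ∈ H ↔ Ev (rb g)) (ρ : GQ →* M2 A0)
    (hcont : ∃ L : IntermediateField ℚ Qb, FiniteDimensional ℚ L ∧
      ∀ σ : GQ, (∀ x ∈ L, σ x = x) → ∀ i j, ρ σ i j - (1 : M2 A0) i j ∈ Ideal.span {(2 : A0)})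
    (hdet : ∀ g, (ρ g).det - 1 ∈ Ideal.span {(2 : A0)}) (Q : (M2 k)ˣ)
    (hQ : ∀ g, (res : A0 →+* k).mapMatrix (ρ g) =
      Q.val * (rb g).map (algebraMap (ZMod 2) k) * Q⁻¹.val)
    (S : Set ℕ)
    (hunr : ∀ ℓ : ℕ, ℓ.Prime → ℓ ∉ S → ∀ P : ValuationSubring Qb,
      P.LiesOverPrime ℓ → ∀ σ ∈ P.inertiaSubgroupIn ℚ, ρ σ = 1)
    (htype : ∀ v : ℕ, v.Prime → v ∈ S → ∀ P : ValuationSubring Qb,
      P.LiesOverPrime v → ∃ χ : GQ → A0,
        (∀ g ∈ P.decompositionSubgroup ℚ, χ g ^ 2 = 1) ∧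
        (∀ g ∈ P.inertiaSubgroupIn ℚ, χ g = 1) ∧
        ∀ g ∈ P.decompositionSubgroup ℚ, ∀ g' ∈ P.decompositionSubgroup ℚ,
          (ρ g - ((ρ g).det * χ g) • (1 : M2 A0)) * (ρ g' - χ g' • (1 : M2 A0)) = 0)
    (hnsp : ∀ v : ℕ, v.Prime → v ∈ S → ∀ P : ValuationSubring Qb,
      P.LiesOverPrime v → ∃ g ∈ P.decompositionSubgroup ℚ, g ∉ H)
    (hSel : Sel0 rb S) (U : Finset A0) (hU : ∀ u ∈ U, u ^ 2 = 1)
    (hgen : Algebra.adjoin O (Set.range (fun g => (ρ g).trace) ∪ (U : Set A0)) = ⊤) (h : ℕ)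
    (hM5 : UnrBound H h) :
    Finite (A0 ⧸ Ideal.span {(2 : A0)}) ∧
      Nat.card (A0 ⧸ Ideal.span {(2 : A0)}) ≤ Nat.card k ^ (h * 2 ^ U.card) :=
  H55.LT.card_quot_le hOk hker hk4 res rb hrb H hH ρ hcont hdet Q hQ S hunr htype hnsp hSel U hU hgen
    h hM5

/-! ## 5. The ring of the pairs

`pairAlg O t a ⊆ T × B` is generated by the pairs `(t i, a i)`, with the projections `pairFst` to `T` and
`pairSnd` to `B` (`GuideGluing.pairAlg_eq`). `ResData k t a` consists of residue maps `rT : T → k`,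
`rB : B → k` with kernels the maximal ideals and `rT (t i) = rB (a i)`. -/

/-- **The ring of the pairs is local** (`H55LTC`), with the same residue field: `T × B` is integral over
the subring, so an element of the subring which is invertible in `T × B` (that is, whose residue is not
zero) is invertible in the subring. -/
theorem pairs_local {O : Type*} [CommRing O] [IsLocalRing O] [IsNoetherianRing O]
    {T B : Type*} [CommRing T] [IsLocalRing T] [Algebra O T] [Module.Finite O T]
    [CommRing B] [IsLocalRing B] [Algebra O B] [Module.Finite O B] {ι : Type*}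
    {k : Type*} [Field k] [Algebra O k] {t : ι → T} {a : ι → B} (rT : T →ₐ[O] k) (rB : B →ₐ[O] k)
    (hT : RingHom.ker rT = maximalIdeal T) (hB : RingHom.ker rB = maximalIdeal B)
    (hta : ∀ i, rT (t i) = rB (a i)) :
    ∃ _ : IsLocalRing (pairAlg O t a),
      RingHom.ker (rT.comp (pairFst O t a)) = maximalIdeal (pairAlg O t a) ∧
      rT.comp (pairFst O t a) = rB.comp (pairSnd O t a) :=
  let D : H55.LT.ResData (O := O) k t a := ⟨rT, rB, hT, hB, hta⟩
  ⟨D.isLocalRing, D.ker_res, D.res_eq⟩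

/-- **Bijectivity modulo `ϖ` suffices** (`H55LTC`): let `π : A → T` be a surjective homomorphism of
`O`-algebras, `A` finite over the noetherian local ring `O`, `T` without `ϖ`-torsion. If `A/ϖ → T/ϖ` is
injective, then `π` is bijective: the kernel `J` satisfies `J = ϖ J`, so it is zero by Nakayama's lemma. -/
theorem bijective_of_mod {O : Type*} [CommRing O] [IsLocalRing O] [IsNoetherianRing O]
    {A T : Type*} [CommRing A] [CommRing T] [Algebra O A] [Algebra O T] [Module.Finite O A]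
    {ϖ : O} (hϖ : ϖ ∈ maximalIdeal O) (π : A →ₐ[O] T)
    (hsurj : Function.Surjective π) (htf : ∀ x : T, ϖ • x = 0 → x = 0)
    (hmod : ∀ a : A, (∃ t : T, π a = ϖ • t) → ∃ b : A, a = ϖ • b) : Function.Bijective π :=
  H55.LT.bijective_of_mod hϖ π hsurj htf hmod

/-- **From the count to the homomorphism** (`H55LTC`): `T` is generated by the `t i` and has no
`ϖ`-torsion. If the ring `A₀` of the pairs has at most as many elements modulo `ϖ` as `T`, then `A₀ → T`
is bijective, and its inverse followed by `A₀ → B` is a homomorphism `θ : T → B` with `θ (t i) = a i`. -/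
theorem homomorphism_of_count {O : Type*} [CommRing O] [IsLocalRing O] [IsNoetherianRing O]
    {T B : Type*} [CommRing T] [Algebra O T] [Module.Finite O T]
    [CommRing B] [Algebra O B] [Module.Finite O B] {ι : Type*}
    {ϖ : O} (hϖ : ϖ ∈ maximalIdeal O) {t : ι → T} {a : ι → B}
    (ht : Algebra.adjoin O (Set.range t) = ⊤) (htf : ∀ x : T, ϖ • x = 0 → x = 0)
    (hfin : Finite (pairAlg O t a ⧸ Ideal.span {algebraMap O (pairAlg O t a) ϖ}))
    (hcard : Nat.card (pairAlg O t a ⧸ Ideal.span {algebraMap O (pairAlg O t a) ϖ}) ≤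
      Nat.card (T ⧸ Ideal.span {algebraMap O T ϖ})) :
    ∃ θ : T →ₐ[O] B, ∀ i, θ (t i) = a i :=
  H55.LT.exists_theta hϖ ht htf hfin hcard

/-- **The number of elements modulo 2** of a finite free `O`-algebra of rank `n` is `#k^n` (`H55LTE2`).
Therefore the bound for `A₀/2` is also a bound for the rank of `T`: `rank T ≤ h 2^#Q`. -/
theorem card_mod_two {O : Type} [CommRing O] [IsLocalRing O] {k : Type} [Field k] [Finite k]
    [Algebra O k] (hOk : Function.Surjective (algebraMap O k))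
    (hker : RingHom.ker (algebraMap O k) = Ideal.span {(2 : O)})
    (T : Type) [CommRing T] [Algebra O T] [Module.Finite O T] [Module.Free O T] :
    Nat.card (T ⧸ Ideal.span {(2 : T)}) = Nat.card k ^ Module.finrank O T :=
  H55.LT.natCard_quot_two hOk hker T

/-- **The lower bound for `T/2`** (`H55LTF`): if the homomorphism `π = X.π` of the theta side `X` to
`k[C₂ × μ₂^Q]` is surjective, then `#(T/2) ≥ #k^(#C₂ 2^#Q)`. -/
theorem lower_bound {O : Type} [CommRing O] [IsDomain O] [IsDiscreteValuationRing O] [CoefRing O]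
    {K : Type} [Field K] [NumberField K] {η : ClassGroup (𝓞 K) →* (ResidueField O)ˣ}
    {N : ℕ} {Q : Finset ℕ} {L : ℕ} [NeZero L] (X : TSide' O K η N Q L)
    (hsurj : letI := X.commRing; Function.Surjective X.π) :
    letI := X.commRing
    Nat.card (C2Q K Q) = Nat.card (C2' K) * 2 ^ Q.card ∧
    Finite (X.T ⧸ Ideal.span {(2 : X.T)}) ∧
    Nat.card (ResidueField O) ^ (Nat.card (C2' K) * 2 ^ Q.card) ≤
      Nat.card (X.T ⧸ Ideal.span {(2 : X.T)}) :=
  letI := X.commRing
  ⟨H55.LT.natCard_C2Q K Q, H55.LT.card_le_of_surjective X hsurj⟩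

/-! ## 6. The surjectivity of `π`: abstract part

`B` is a local algebra over a field `k` of characteristic two with `y³ = 1` for all `y ≠ 0`, with
augmentation `aug : B → k`; in the application `B = k[C₂ × μ₂^Q]`. `ι : C → B` is the embedding of a finite
2-group (`C = C₂`), `p : Cl → C` the projection of the class group, `η` a cubic character of the class
group. `xu ι p η c` is the unit `η(c) ι(p(c))`, and `E aug u` the part of the unit `u` with residue one. -/

/-- **The group ring of a 2-group** (`H61TE`): let `k` have characteristic two and `g^(2^n) = 1` for all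
elements `g` of the commutative group `G`. Then `x^(2^n) = aug(x)^(2^n)` for all `x ∈ k[G]`, and `k[G]` is a
local ring; `x` is a unit if and only if `aug(x) ≠ 0` (`GuideTSide.units_of_group_algebra`). -/
theorem group_ring {k : Type*} [Field k] [CharP k 2] {G : Type*} [CommGroup G] {n : ℕ}
    (hn : ∀ g : G, g ^ 2 ^ n = 1) :
    (∀ x : MonoidAlgebra k G,
      x ^ 2 ^ n = algebraMap k (MonoidAlgebra k G) (H61.TE.aug k G x ^ 2 ^ n)) ∧
    IsLocalRing (MonoidAlgebra k G) :=
  ⟨H61.TE.pow_two_pow_eq hn, H61.TE.isLocalRing hn⟩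

/-- **Roots of `X² - t X + 1`** (`H51Sur`): if `a + a⁻¹ = x + x⁻¹` for two units and `x`, `x⁻¹` are
different modulo the maximal ideal, then `a = x` or `a = x⁻¹`, because `(a - x) (a - x⁻¹) = 0` and one of
the factors is a unit. -/
theorem unit_of_trace {k : Type*} [Field k] [CharP k 2] {B : Type*} [CommRing B] [IsLocalRing B]
    [Algebra k B] (aug : B →ₐ[k] k) (a x : Bˣ) (h : (a : B) + (a⁻¹ : Bˣ) = x + (x⁻¹ : Bˣ))
    (hx : aug x ≠ aug (x⁻¹ : Bˣ)) : a = x ∨ a = x⁻¹ :=
  H51S.eq_or_eq_inv aug a x h hx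

/-- **A unit in the algebra generated by its trace** (`H51Sur`): if `x^(2^m)` is a constant `u` with
`u + u⁻¹ ≠ 0`, then every subalgebra which contains `t = x + x⁻¹` contains `x`. Proof: `x² = t x + 1`, so
`t x^(2^j)` is `t^(2^j) x` plus an element of the subalgebra; take `j = m`. -/
theorem unit_in_subalgebra {k : Type*} [Field k] [CharP k 2] {B : Type*} [CommRing B]
    [IsLocalRing B] [Algebra k B] (R : Subalgebra k B) (x : Bˣ) (m : ℕ) (u : kˣ)
    (hxm : ((x ^ (2 ^ m) : Bˣ) : B) = algebraMap k B u) (hu : (u : k) + (u⁻¹ : kˣ) ≠ 0)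
    (ht : (x : B) + (x⁻¹ : Bˣ) ∈ R) : (x : B) ∈ R :=
  H51S.mem_of_trace_mem R x m u hxm hu ht

/-- **The hypotheses of the abstract theorem** (`H51Sur`). `r` is a dihedral representation of `G` over
`B` of determinant one, `Fr` a set of elements (Frobenius elements at good primes `ℓ`), `IsCls φ c` says
that `φ` is a Frobenius element at `ℓ` and `c` the class of a prime ideal of norm `ℓ`, `Ω` is a set of
quadratic characters of `G`. Conditions: `ι` has augmentation `1`, is injective, and `ι(c) + ι(c)⁻¹`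
determines `c` up to inversion if `c² ≠ 1`; the trace at `φ` is `η(c) c + (η(c) c)⁻¹` if there is such a
class and `0` otherwise (`F1`, `F2`); the images of these classes generate `C` (`gen`); every element is,
for `r` and one `ω ∈ Ω` together, a power of an element of `Fr` (`dens`, the density theorem of Frobenius);
every nontrivial quadratic character of `C` is given by some `ω ∈ Ω` which is nontrivial on `H` (`genus`,
genus theory); some trace is not in the maximal ideal (`ex3`). -/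
theorem data_iff {G : Type*} [Group G] {k : Type*} [Field k] {B : Type*} [CommRing B] [Algebra k B]
    {C : Type*} [CommGroup C] {Cl : Type*} [CommGroup Cl] (aug : B →ₐ[k] k) (ι : C →* B)
    (p : Cl →* C) (η : Cl →* kˣ) (r : G →* Matrix (Fin 2) (Fin 2) B) (H : Subgroup G)
    (Ω : Set (G →* ℤˣ)) (Fr : Set G) (IsCls : G → Cl → Prop) :
    H51S.Data aug ι p η r H Ω Fr IsCls ↔
      (∀ a b : G, a * b ∈ H ↔ (a ∈ H ↔ b ∈ H)) ∧ (∀ y : k, y ≠ 0 → y ^ 3 = 1) ∧
      (∀ c, aug (ι c) = 1) ∧ Function.Injective ι ∧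
      (∀ c d, ι c + ι c⁻¹ = ι d + ι d⁻¹ → c ^ 2 = 1 ∨ c = d ∨ c = d⁻¹) ∧
      (∃ m, ∀ c : C, c ^ (2 ^ m) = 1) ∧ Shape H r ∧ (∀ g, (r g).det = 1) ∧
      (∃ g, aug (r g).trace ≠ 0) ∧ (∀ φ ∈ Fr, (r φ).trace ≠ 0 → ∃ c, IsCls φ c) ∧
      (∀ φ c, IsCls φ c → φ ∈ H ∧
        (r φ).trace = ((H51S.xu ι p η c : Bˣ) : B) + ((H51S.xu ι p η c)⁻¹ : Bˣ)) ∧
      (∀ D : Subgroup C, (∀ φ c, IsCls φ c → p c ∈ D) → D = ⊤) ∧ (1 : G →* ℤˣ) ∈ Ω ∧
      (∀ g, ∀ ω ∈ Ω, ∃ φ ∈ Fr, ∃ j : ℕ, r g = (r φ) ^ j ∧ ω g = ω φ ^ j) ∧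
      ∀ χ : C →* ℤˣ, χ ≠ 1 → ∃ ω ∈ Ω, (∃ h ∈ H, ω h = -1) ∧ ∀ φ c, IsCls φ c → χ (p c) = ω φ :=
  ⟨fun h => ⟨h.hH, h.hk, h.aug_ι, h.ι_inj, h.ι_sum, h.exp, h.shape, h.det, h.ex3, h.F1, h.F2, h.gen,
    h.one_mem, h.dens, h.genus⟩,
    fun ⟨h1, h2, h3, h4, h5, h6, h7, h8, h9, h10, h11, h12, h13, h14, h15⟩ =>
      ⟨h1, h2, h3, h4, h5, h6, h7, h8, h9, h10, h11, h12, h13, h14, h15⟩⟩

/-- **Elements with nonzero residual trace** (`H51Sur`) are in `H` and behave like powers of good
Frobenius elements `φ`, with a class `c` and `η(c) ≠ 1`; the value of the character at such a `φ` is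
`(η(c) c)^(±1)` (`unit_of_trace`). `D.chi` is the character of section 2. -/
theorem elements_of_order_three {G : Type*} [Group G] {k : Type*} [Field k] [CharP k 2]
    {B : Type*} [CommRing B] [Algebra k B] [IsLocalRing B] {C : Type*} [CommGroup C] {Cl : Type*}
    [CommGroup Cl] {aug : B →ₐ[k] k} {ι : C →* B} {p : Cl →* C} {η : Cl →* kˣ}
    {r : G →* Matrix (Fin 2) (Fin 2) B} {H : Subgroup G} {Ω : Set (G →* ℤˣ)} {Fr : Set G}
    {IsCls : G → Cl → Prop} (D : H51S.Data aug ι p η r H Ω Fr IsCls) :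
    (∀ {g : G} (hg : aug (r g).trace ≠ 0) {ω : G →* ℤˣ}, ω ∈ Ω →
      ∃ φ c, ∃ h : IsCls φ c, η c ≠ 1 ∧ ∃ j : ℕ, ω g = ω φ ^ j ∧
        D.chi ⟨g, D.mem_of_trace_ne hg⟩ = D.chi ⟨φ, (D.F2 φ c h).1⟩ ^ j) ∧
    ∀ {φ : G} {c : Cl} (h : IsCls φ c), η c ≠ 1 →
      D.chi ⟨φ, (D.F2 φ c h).1⟩ = H51S.xu ι p η c ∨
        D.chi ⟨φ, (D.F2 φ c h).1⟩ = (H51S.xu ι p η c)⁻¹ :=
  ⟨fun hg _ hω => D.exists_frob hg hω, fun h hc => D.chi_frob h hc⟩

/-- **A quadratic character** (`H51Sur`): a proper subgroup which contains all squares is contained in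
the kernel of a nontrivial quadratic character. -/
theorem exists_quadratic_character {C : Type*} [CommGroup C] (D₁ : Subgroup C) (hD : D₁ ≠ ⊤)
    (hsq : ∀ c : C, c ^ 2 ∈ D₁) : ∃ χ : C →* ℤˣ, χ ≠ 1 ∧ ∀ c ∈ D₁, χ c = 1 :=
  H51S.exists_char D₁ hD hsq

/-- **The character fills `C`** (`H51Sur`): the part of the character with residue one is a surjection
`κ : H → C`, with values in the group generated by the classes with `η ≠ 1` (`H51S.Dc`). Proof: if
`η(c) ≠ 1`, then `p(c)` is a value by `elements_of_order_three`; if `η(c) = 1`, it is a value or has square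
one, by comparing coefficients in `B` (third condition on `ι` in `data_iff`). So all squares are values.
If `κ` is not surjective, choose a quadratic character `χ ≠ 1` of `C` which is trivial on the values, and
`ω` by genus theory. There is a `g` of nonzero residual trace with `ω(g) = -1` (an element of `H` with this
`ω(g)`, if necessary times the square of an element of nonzero residual trace). It is a power of a good
Frobenius element `φ` with `η(c) ≠ 1`, and `ω(φ) = χ(p(c)) = 1`, a contradiction. -/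
theorem character_surjective {G : Type*} [Group G] {k : Type*} [Field k] [CharP k 2]
    {B : Type*} [CommRing B] [Algebra k B] [IsLocalRing B] {C : Type*} [CommGroup C] {Cl : Type*}
    [CommGroup Cl] {aug : B →ₐ[k] k} {ι : C →* B} {p : Cl →* C} {η : Cl →* kˣ}
    {r : G →* Matrix (Fin 2) (Fin 2) B} {H : Subgroup G} {Ω : Set (G →* ℤˣ)} {Fr : Set G}
    {IsCls : G → Cl → Prop} (D : H51S.Data aug ι p η r H Ω Fr IsCls) :
    ∃ κ : H →* C, Function.Surjective κ ∧ (∀ g : H, κ g ∈ H51S.Dc p η IsCls) ∧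
      ∀ g : H, H51S.E aug (D.chi g) = ι.toHomUnits (κ g) :=
  D.exists_surjective

/-- **All group elements are generated by traces** (`H51Sur`): every subalgebra which contains the traces
at the good Frobenius elements contains `ι(C)`. Proof: by `unit_in_subalgebra` it contains `η(c) p(c)`
if `η(c) ≠ 1`, and these classes generate `C` by `character_surjective`. -/
theorem classes_in_subalgebra {G : Type*} [Group G] {k : Type*} [Field k] [CharP k 2]
    {B : Type*} [CommRing B] [Algebra k B] [IsLocalRing B] {C : Type*} [CommGroup C] {Cl : Type*}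
    [CommGroup Cl] {aug : B →ₐ[k] k} {ι : C →* B} {p : Cl →* C} {η : Cl →* kˣ}
    {r : G →* Matrix (Fin 2) (Fin 2) B} {H : Subgroup G} {Ω : Set (G →* ℤˣ)} {Fr : Set G}
    {IsCls : G → Cl → Prop} (D : H51S.Data aug ι p η r H Ω Fr IsCls) (R : Subalgebra k B)
    (hR : ∀ φ c, IsCls φ c → (r φ).trace ∈ R) (c : C) : ι c ∈ R :=
  D.ι_mem R hR c

/-! ## 7. Application to `K = ℚ(√-N)`

`H63.LT.QuadData K N w`: `K` is a quadratic field, `w² = -N` with `w` an integer of `K`, `N` squarefree and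
even. `IsFrob L φ ℓ`: `φ` is a Frobenius element at a place above the prime `ℓ ∤ L`. `IsClass K L φ c`: this
holds for some `ℓ`, and `c` is the class of an ideal of norm `ℓ`. -/

/-- **Generation of the class group** (`H51SurK`): a subgroup of the class group of `K` which contains the
classes of all prime ideals of prime norm `ℓ ∤ M` is the whole group. Proof: every class is the inverse
of the class of an ideal prime to `M`, and a prime ideal has prime norm or is generated by a rational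
prime. -/
theorem class_group_generation {K : Type*} [Field K] [NumberField K] {N : ℕ} {w : 𝓞 K}
    (h : H63.LT.QuadData K N w) (M : ℕ) (hM : M ≠ 0) (D : Subgroup (ClassGroup (𝓞 K)))
    (hD : ∀ (P : (Ideal (𝓞 K))⁰) (ℓ : ℕ), ℓ.Prime → ¬ ℓ ∣ M → Ideal.absNorm (P : Ideal (𝓞 K)) = ℓ →
      ClassGroup.mk0 P ∈ D) : D = ⊤ :=
  H51S.eq_top_of_primes h M hM D hD

/-- **Frobenius elements on square roots** (`H51Frob`): let `ℓ` be an odd prime which does not divide `d`,
and `x² = d`. A Frobenius element `φ` at a place above `ℓ` maps `x` to `(d / ℓ) x`: `x` is a unit at the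
place, `φ x = ± x`, `φ x ≡ x^ℓ = d^((ℓ - 1)/2) x` modulo the maximal ideal, and `2 x` is not in it. -/
theorem frobenius_on_square_roots {A : ValuationSubring Qb} {ℓ : ℕ} (hℓ : ℓ.Prime)
    (hA : A.LiesOverPrime ℓ) {φ : GQ} (hφ : A.IsFrobeniusAt φ ℓ) {d : ℤ} (h2 : ℓ ≠ 2)
    (hd : ¬ (ℓ : ℤ) ∣ d) {x : Qb} (hx : x ^ 2 = (d : Qb)) :
    φ x = ((jacobiSym d ℓ : ℤ) : Qb) * x :=
  H51S.frob_sqrt hℓ hA hφ h2 hd hx

/-- **Primes of norm `ℓ`** (`H51SurT`): if there is a prime ideal `P` of norm `ℓ ∤ 2 N`, the Frobenius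
elements at `ℓ` are in `G_K`, and `∑ ψ(R)` over the prime ideals `R` of norm `ℓ` is `ψ(P) + ψ(P)⁻¹` for
every homomorphism `ψ` of the class group. -/
theorem primes_of_norm {K : Type} [Field K] [NumberField K] {N : ℕ} {w : 𝓞 K}
    (h : H63.LT.QuadData K N w) {ℓ : ℕ} (hℓ : ℓ.Prime) (hℓN : ¬ ℓ ∣ 2 * N)
    (P : (Ideal (𝓞 K))⁰) (hP : Ideal.absNorm (P : Ideal (𝓞 K)) = ℓ) :
    (∀ {A : ValuationSubring Qb}, A.LiesOverPrime ℓ → ∀ {φ : GQ}, A.IsFrobeniusAt φ ℓ → φ ∈ GK N) ∧
    ∀ {B : Type} [CommRing B] (ψ : ClassGroup (𝓞 K) →* B),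
      ∑ R ∈ primesOver K ℓ, ψ (cls K R) = ψ (ClassGroup.mk0 P) + ψ (ClassGroup.mk0 P)⁻¹ :=
  ⟨fun hA _ hφ => H51S.mem_GK_of_frob h hℓ hℓN hP hA hφ, fun ψ => H51S.th_eq h ψ hℓ hℓN P hP⟩

/-- **Quadratic characters which are nontrivial on `G_K`** (`H51SurQ`): if `d` and `-N d` are not squares
of rational numbers, some element of `G_K` changes the sign of `√d`. -/
theorem sign_change {K : Type} [Field K] [NumberField K] {N : ℕ} {w : 𝓞 K}
    (h : H63.LT.QuadData K N w) {x : Qb} {d : ℤ} (hx : x ^ 2 = algebraMap ℚ Qb d)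
    (hd1 : ¬ IsSquare (d : ℚ)) (hd2 : ¬ IsSquare (-(N : ℚ) * d)) : ∃ σ ∈ GK N, σ x = -x :=
  H51S.exists_mem_GK h hx hd1 hd2

/-- **The hypotheses of section 6 hold** (`H51SurT`) for every dihedral representation `r` over
`k[C₂ × μ₂^Q]` with the traces of the theta form, with `Ω` the quadratic characters of finite level
(`H51S.iotaQ k K Q` is the embedding of `C₂`, `H51S.pQ K` the projection of the class group to `C₂`). The
density theorem of Frobenius gives `dens`, genus theory (`GuideGenus`) gives `genus`: a quadratic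
character of the class group is `P ↦ (d / ℓ)` for a `d` such that `√d ∉ K`. -/
theorem data_of_theta {k : Type} [Field k] [CharP k 2] {K : Type} [Field K] [NumberField K]
    {N : ℕ} {w : 𝓞 K} (h : H63.LT.QuadData K N w) (hk : ∀ y : k, y ≠ 0 → y ^ 3 = 1)
    (Q : Finset ℕ) {L : ℕ} (hL : L ≠ 0) (hNL : N ∣ L) (η : ClassGroup (𝓞 K) →* kˣ) (hη : η ≠ 1)
    (r : GQ →* Matrix (Fin 2) (Fin 2) (MonoidAlgebra k (C2Q K Q)))
    (hfin : GaloisFactorsThroughFiniteLevel r) (hsh : Shape (GK N) r) (hdet : ∀ g, (r g).det = 1)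
    (htr : ∀ (ℓ : ℕ) (φ : GQ), H51S.IsFrob L φ ℓ → (r φ).trace = ∑ P ∈ primesOver K ℓ,
      MonoidAlgebra.single ((QuotientGroup.mk (cls K P) : C2' K),
        (1 : {q // q ∈ Q} → Multiplicative (ZMod 2))) ((η (cls K P) : kˣ) : k)) :
    H51S.Data (H61.TE.aug k (C2Q K Q)) (H51S.iotaQ k K Q) (H51S.pQ K) η r (GK N)
      {ω : GQ →* ℤˣ | GaloisFactorsThroughFiniteLevel ω} {φ | ∃ ℓ, H51S.IsFrob L φ ℓ}
      (H51S.IsClass K L) :=
  H51S.data h hk Q hL hNL η hη r hfin hsh hdet htr

/-- **The bound for unramified characters** (`H63UnrBound2`): such a representation gives the bound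
`#C₂` for the number of values of everywhere unramified characters of `G_K` of 2-power order. Proof: its
residual character and the surjection `κ` of `character_surjective` satisfy the hypotheses of
`GuideResidual.m5_unramified_characters`. -/
theorem unramified_bound {k : Type} [Field k] [Finite k] [CharP k 2]
    {K : Type} [Field K] [NumberField K] {N : ℕ} {w : 𝓞 K} (h : H63.LT.QuadData K N w)
    (hk : ∀ y : k, y ≠ 0 → y ^ 3 = 1) (Q : Finset ℕ)
    {L : ℕ} (hL : L ≠ 0) (hNL : N ∣ L) (η : ClassGroup (𝓞 K) →* kˣ) (hη : η ≠ 1)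
    (r : GQ →* Matrix (Fin 2) (Fin 2) (MonoidAlgebra k (C2Q K Q)))
    (hfin : GaloisFactorsThroughFiniteLevel r) (hsh : Shape (GK N) r) (hdet : ∀ g, (r g).det = 1)
    (htr : ∀ (ℓ : ℕ) (φ : GQ), H51S.IsFrob L φ ℓ → (r φ).trace = ∑ P ∈ primesOver K ℓ,
      MonoidAlgebra.single ((QuotientGroup.mk (cls K P) : C2' K),
        (1 : {q // q ∈ Q} → Multiplicative (ZMod 2))) ((η (cls K P) : kˣ) : k)) :
    UnrBound (GK N) (Nat.card (C2' K)) :=
  H63.LT.unrBound_of_rep h hk Q hL hNL η hη r hfin hsh hdet htr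

/-- **Decomposition groups** (`H55LTH`): the decomposition groups at the primes of the level are not
contained in `G_K`. At a prime of the conductor `N` there is an element of inertia whose image under `rb`
has order two (it is unipotent and not `1`, see `GuideTwoAdicCurve.bad_prime`), and at `q ∈ Q` every Frobenius
element has such an image. -/
theorem decomposition_groups {W : WeierstrassCurve ℤ} {r : GQ →* M2 ℤ_[2]} {s : ℕ → ℤ}
    (hW : LT.GoodCurve W) (hE : LT.EData W r s) {Q : Finset ℕ} {m : ℕ} (hm : m ≠ 0)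
    (hQ : ∀ q ∈ Q, LT.AuxPrime r (LT.cond W) m q) {L : ℕ} (hL : L = LT.cond W * ∏ q ∈ Q, q) :
    ∀ v : ℕ, v.Prime → v ∣ L → ∀ P : ValuationSubring Qb, P.LiesOverPrime v →
      ∃ g ∈ P.decompositionSubgroup ℚ, g ∉ GK (LT.cond W) :=
  H55.LTH.exists_notMem_GK hW hE hm hQ hL

/-- **The dihedral representation over the group ring** (`H51Surj`). `X` is a theta side of level
`L = N ∏ Q`, with `rb` as residual representation (`hmatch`). The representation over `T`
(`GuideGluing.theta_representation`) gives by `π` one over `k[C₂ × μ₂^Q]`, `k = 𝔽₄`, whose traces are the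
coefficients of the theta form, of determinant one and of finite level; by `theorem_B` it is conjugate to a
dihedral representation. The type at the primes of the level comes from (M8), `GuideResidual.m8_ramified`,
`m8_sign`. -/
theorem dihedral_representation {O : Type} [CommRing O] [IsDomain O] [IsDiscreteValuationRing O]
    [CoefRing O] {K : Type} [Field K] [NumberField K] {η : ClassGroup (𝓞 K) →* (ResidueField O)ˣ}
    {N : ℕ} {Q : Finset ℕ} {L : ℕ} [NeZero L] (X : TSide' O K η N Q L) (hN2 : 2 ∣ N)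
    (hL : L = N * ∏ q ∈ Q, q) (hsq : Squarefree N) (hQ : ∀ q ∈ Q, q.Prime ∧ ¬ q ∣ N)
    [Algebra (ZMod 2) (ResidueField O)] (rb : GQ →* M2 (ZMod 2))
    (hcont : ∃ F : IntermediateField ℚ Qb, FiniteDimensional ℚ F ∧
      ∀ σ : GQ, (∀ x ∈ F, σ x = x) → rb σ = 1)
    (hsurj : ∀ M : M2 (ZMod 2), M.det ≠ 0 → ∃ g, rb g = M)
    (hram : ∀ v : ℕ, v.Prime → v ∣ N → ∀ P : ValuationSubring Qb, P.LiesOverPrime v →
      ∃ σ ∈ P.inertiaSubgroupIn ℚ, rb σ ≠ 1)
    (hfrobQ : ∀ q ∈ Q, ∀ P : ValuationSubring Qb, P.LiesOverPrime q → ∀ φ : GQ,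
      P.IsFrobeniusAt φ q → rb φ ≠ 1)
    (hmatch : ∀ ℓ : ℕ, ℓ.Prime → ¬ ℓ ∣ L → ∀ P : ValuationSubring Qb, P.LiesOverPrime ℓ →
      ∀ φ : GQ, P.IsFrobeniusAt φ ℓ → algebraMap (ZMod 2) (ResidueField O) (rb φ).trace =
        ∑ P ∈ primesOver K ℓ, ((η (cls K P) : (ResidueField O)ˣ) : ResidueField O))
    (H : Subgroup GQ) (hH : ∀ g, g ∈ H ↔ Ev (rb g))
    (hnsp : ∀ v : ℕ, v.Prime → v ∣ L → ∀ P : ValuationSubring Qb, P.LiesOverPrime v →
      ∃ g ∈ P.decompositionSubgroup ℚ, g ∉ H)
    (hSel : Sel0 rb {v | v ∣ L}) :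
    ∃ r : GQ →* M2 (MonoidAlgebra (ResidueField O) (C2Q K Q)),
      GaloisFactorsThroughFiniteLevel r ∧ Shape H r ∧ (∀ g, (r g).det = 1) ∧
      ∀ (ℓ : ℕ) (φ : GQ), H51S.IsFrob L φ ℓ → (r φ).trace = ∑ P ∈ primesOver K ℓ,
        MonoidAlgebra.single ((QuotientGroup.mk (cls K P) : C2' K),
          (1 : {q // q ∈ Q} → Multiplicative (ZMod 2)))
          ((η (cls K P) : (ResidueField O)ˣ) : ResidueField O) :=
  H51S.exists_rep_shape X hN2 hL hsq hQ (fun v _ _ => H49.LTF.m8Ram v)
    (fun q _ => H34.M8.m8Sign q) rb hcont hsurj hram hfrobQ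
    (fun ℓ hℓ hℓL P hP φ hφ => (hmatch ℓ hℓ hℓL P hP φ hφ).trans (by
      show _ = MonoidAlgebra.lift (ResidueField O) (ResidueField O) (C2Q K Q) 1 (X.π (X.t ℓ))
      rw [X.π_t ℓ hℓ hℓL, map_sum]; exact Finset.sum_congr rfl fun P _ => by simp))
    H hH hnsp hSel

/-- **Surjectivity of `π`, and the bound** (`H51Surj`). Hypotheses as in `dihedral_representation`, with
`H = G_K` and `η ≠ 1`. The bound is `unramified_bound`. The image of `π` contains the traces at the good
Frobenius elements, hence `C₂` by `classes_in_subalgebra`; it contains the generators of `μ₂^Q` as images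
of the `U_q`. For a good curve this is `GuideResidual.m5_bound_and_surjectivity`. -/
theorem theta_surjective {O : Type} [CommRing O] [IsDomain O] [IsDiscreteValuationRing O]
    [CoefRing O] {K : Type} [Field K] [NumberField K] {η : ClassGroup (𝓞 K) →* (ResidueField O)ˣ}
    {N : ℕ} {w : 𝓞 K} (h : H63.LT.QuadData K N w) (hη : η ≠ 1)
    {Q : Finset ℕ} {L : ℕ} [NeZero L] (X : TSide' O K η N Q L) (hN2 : 2 ∣ N)
    (hL : L = N * ∏ q ∈ Q, q) (hsq : Squarefree N) (hQ : ∀ q ∈ Q, q.Prime ∧ ¬ q ∣ N)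
    [Algebra (ZMod 2) (ResidueField O)] (rb : GQ →* M2 (ZMod 2))
    (hcont : ∃ F : IntermediateField ℚ Qb, FiniteDimensional ℚ F ∧
      ∀ σ : GQ, (∀ x ∈ F, σ x = x) → rb σ = 1)
    (hsurj : ∀ M : M2 (ZMod 2), M.det ≠ 0 → ∃ g, rb g = M)
    (hram : ∀ v : ℕ, v.Prime → v ∣ N → ∀ P : ValuationSubring Qb, P.LiesOverPrime v →
      ∃ σ ∈ P.inertiaSubgroupIn ℚ, rb σ ≠ 1)
    (hfrobQ : ∀ q ∈ Q, ∀ P : ValuationSubring Qb, P.LiesOverPrime q → ∀ φ : GQ,
      P.IsFrobeniusAt φ q → rb φ ≠ 1)
    (hmatch : ∀ ℓ : ℕ, ℓ.Prime → ¬ ℓ ∣ L → ∀ P : ValuationSubring Qb, P.LiesOverPrime ℓ →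
      ∀ φ : GQ, P.IsFrobeniusAt φ ℓ → algebraMap (ZMod 2) (ResidueField O) (rb φ).trace =
        ∑ P ∈ primesOver K ℓ, ((η (cls K P) : (ResidueField O)ˣ) : ResidueField O))
    (hH : ∀ g, g ∈ GK N ↔ Ev (rb g))
    (hnsp : ∀ v : ℕ, v.Prime → v ∣ L → ∀ P : ValuationSubring Qb, P.LiesOverPrime v →
      ∃ g ∈ P.decompositionSubgroup ℚ, g ∉ GK N)
    (hSel : Sel0 rb {v | v ∣ L}) :
    UnrBound (GK N) (Nat.card (C2' K)) ∧
      letI := X.commRing; Function.Surjective X.π :=
  H51S.side_surj h hη X hN2 hL hsq hQ (fun v _ _ => H49.LTF.m8Ram v)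
    (fun q _ => H34.M8.m8Sign q) rb hcont hsurj hram hfrobQ
    (fun ℓ hℓ hℓL P hP φ hφ => (hmatch ℓ hℓ hℓL P hP φ hφ).trans (by
      show _ = MonoidAlgebra.lift (ResidueField O) (ResidueField O) (C2Q K Q) 1 (X.π (X.t ℓ))
      rw [X.π_t ℓ hℓ hℓL, map_sum]; exact Finset.sum_congr rfl fun P _ => by simp))
    hH hnsp hSel

end Fermat.Agent.Guide.Dihedral
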