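import Fermat.Agent.S48

/-!
# Reader's guide: division values of the Weierstrass function and the separating generator (S48)

Nothing is proved in this file. Every theorem is the exact statement of a theorem of the library,
with all hypotheses written out, followed by a citation. No file imports this one.

## What the block does

This is a companion of `Fermat.Agent.GuideGaloisAction`; it continues section 1 of
`Fermat.Agent.GuideEisensteinOne`. It gives the steps behind two theorems which are used there: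

* `separating_generator`: there is a function of weight zero for `±Γ₁(M) ∩ Γ₀(r)`, `r = 2` or `3`,
  all of whose conjugates over `Γ₀(r)` have pairwise distinct reductions modulo every prime not
  dividing `M r` (sections 1, 2, 3). It follows that the Gauss valuation of the field of the
  Hauptmodul of `Γ₀(r)` is unramified in the function field, one of the hypotheses of the
  connectedness theorem (section 6 of `GuideGaloisAction`); no model of a modular curve over `ℤ` is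
  used.
* `kummer_injectivity`: the character of a twisted modular form of order `n` is determined by its
  reduction, given the same statement for functions of weight zero with auxiliary level (sections 4
  and 5).

## The method

The function is `θ = (x(1/M) - x(1/r)) E₄ E₆ / Δ`, where `x(1/D)` is the value of the Weierstrass
function `℘` of the lattice `ℤ τ + ℤ` at `1/D`. Its conjugates are the same expressions for the
points `(c τ + d)/M` and `(c τ + d)/r`, `(c, d)` the second row of a matrix of `Γ₀(r)`. For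
`r = 2, 3` the second point is `± 1/r`, so a difference of two conjugates is a difference of
division values with denominator `M` times `E₄ E₆ / Δ`. All coefficients of the expansions of the
division values are explicit; the first nonzero difference of the coefficients for two points is a
product of roots of unity and of numbers `u - v`, `(u - v)⁻¹` with roots of unity `u ≠ v`, and is
invertible in every ring which contains the roots of unity and `1/(M r)`.

## References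

NOTES.md, section A.9, [278] (division values and separating generator, Kummer injectivity from the
core statements), files `H58Wp`, `H58Wp2`, `H58Wp3`, `H58Sep1`, `H58Sep2`, `H58Sep`, `H58Dict`,
`H58Num`, `H58DVR`, `H58KIIn` (helper58). All theorems are in the closure of S48 (and of S47, which
uses S48).

## Notation

`H58.nm z = exp(2πiz)`. `𝕢 h τ` is `exp(2πiτ/h)`. `f ∣[k] γ` is the slash action of weight `k`.
-/

set_option autoImplicit false

open UpperHalfPlane hiding I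
open ModularForm CongruenceSubgroup ModularFormClass
open scoped MatrixGroups ModularForm Manifold

namespace Fermat.Agent.Guide.DivisionValues

local notation "𝕢" => Function.Periodic.qParam
local notation "Qb" => AlgebraicClosure ℚ

/-! ## 1. Values of the Weierstrass function -/

/-- **Definition and series.** `P(z, τ) = -(2πi)⁻² ∂Z/∂z`, where `Z = H58.Zf` is the zeta function
of `GuideEisensteinOne` (theorem `zeta_definition`). In the strip `|Im z| < Im τ` it is
`w/(w - 1)² + ∑_{n ≥ 1} (qⁿ w/(w - qⁿ)² + qⁿ w/(1 - qⁿ w)²)`. (It is `(2πi)⁻² ℘(z)` up to a function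
of `τ` alone.) Files `H58Wp`, `H58Wp2`. -/
theorem wp_definition (z τ : ℂ) :
    H58.Pf z τ = -(2 * Real.pi * Complex.I)⁻¹ ^ 2 * deriv (fun z => H58.Zf z τ) z ∧
    (0 < τ.im → |z.im| < τ.im → (¬ ∃ n : ℤ, z = n) →
      H58.Pf z τ = H58.nm z / (H58.nm z - 1) ^ 2 + ∑' n : ℕ,
        (H58.nm τ ^ (n + 1) * H58.nm z / (H58.nm z - H58.nm τ ^ (n + 1)) ^ 2 +
          H58.nm τ ^ (n + 1) * H58.nm z / (1 - H58.nm τ ^ (n + 1) * H58.nm z) ^ 2)) :=
  ⟨rfl, fun h h1 h2 => H58.Pf_eq h h1 h2⟩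

/-- **Symmetries.** `P` has the periods `1` and `τ` in `z`, and period `1` in `τ`; and
`P(z/τ, -1/τ) = τ² P(z, τ) - τ/(2πi)` in the open parallelogram `{a τ + b : |a| < 1, |b| < 1}`, by
differentiating the formulas for `Z` (theorems `zeta_symmetries`, `zeta_transformation` of
`GuideEisensteinOne`). File `H58Wp`. -/
theorem wp_symmetries {z τ : ℂ} (hτ : 0 < τ.im) :
    (∀ n : ℤ, H58.Pf (z + n) τ = H58.Pf z τ) ∧ H58.Pf z (τ + 1) = H58.Pf z τ ∧
    ((¬ ∃ n : ℤ, z = n) → (¬ ∃ n : ℤ, z + τ = n) → H58.Pf (z + τ) τ = H58.Pf z τ) ∧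
    (|z.im| < τ.im → |(z / τ).im| < (-1 / τ).im → z ≠ 0 →
      H58.Pf (z / τ) (-1 / τ) = τ ^ 2 * H58.Pf z τ - τ / (2 * Real.pi * Complex.I)) :=
  ⟨H58.Pf_add_int z τ, H58.Pf_tau_add_one z τ, fun h1 h2 => H58.Pf_add_tau hτ h1 h2,
    fun h1 h2 h0 => H58.Pf_S hτ ⟨h1, h2⟩ h0⟩

/-- **Differences of division values are forms of weight two.** Put `P_{x,y}(τ) = P(x τ + y, τ)`
(`H58.Pv`) and `D = P_{x,y} - P_{x',y'}` (`H58.Dv`). The term `τ/(2πi)` in `wp_symmetries` does not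
depend on `x`, `y`; hence `D |₂ γ` is the difference for `(x, y) γ` and `(x', y') γ`. File
`H58Wp`. -/
theorem wp_difference_slash (γ : SL(2, ℤ)) {x y x' y' : ℝ}
    (h : ¬ ((∃ m : ℤ, x = m) ∧ ∃ n : ℤ, y = n)) (h' : ¬ ((∃ m : ℤ, x' = m) ∧ ∃ n : ℤ, y' = n)) :
    (∀ τ : ℍ, H58.Dv x y x' y' τ = H58.Pf (x * τ + y) τ - H58.Pf (x' * τ + y') τ) ∧
    (H58.Dv x y x' y') ∣[(2 : ℤ)] γ = H58.Dv (x * γ 0 0 + y * γ 1 0) (x * γ 0 1 + y * γ 1 1)
      (x' * γ 0 0 + y' * γ 1 0) (x' * γ 0 1 + y' * γ 1 1) :=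
  ⟨fun _ => rfl, H58.Dv_slash γ h h'⟩

/-- **Holomorphy.** `P_{x,y}` is holomorphic on `ℍ`: uniform estimate of the series for `0 ≤ x < 1`
and `Im τ ≥ δ`, the `n`-th term being at most `C exp(-2πδ)ⁿ`. (Meromorphy at the cusps follows from
`wp_difference_slash` and the next theorem.) File `H58Wp2`. -/
theorem wp_holomorphic {x y : ℝ} (h : ¬ ((∃ m : ℤ, x = m) ∧ ∃ n : ℤ, y = n)) :
    MDiff (H58.Pv x y) ∧ ∀ τ : ℍ, H58.Pv x y τ = H58.Pf (x * τ + y) τ :=
  ⟨H58.mdifferentiable_Pv h, fun _ => rfl⟩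

/-- **Expansion at a division point.** Let `u = exp(2πib/M)`. The expansion of `P_{a/M,b/M}` in
`q^{1/M} = exp(2πiτ/M)` has constant term `u/(1 - u)²` if `a ≡ 0` modulo `M` and `0` otherwise, and
for `n > 0` the `n`-th coefficient is `∑ (m uᵐ : m ∣ n, n/m ≡ a) + ∑ (m u⁻ᵐ : m ∣ n, n/m ≡ -a)`,
congruences modulo `M`. File `H58Wp3`. -/
theorem wp_expansion {M : ℕ} [NeZero M] {a b : ℤ}
    (h : ¬ ((∃ m : ℤ, (a : ℝ) / M = m) ∧ ∃ n : ℤ, (b : ℝ) / M = n)) (τ : ℍ) (u : ℂ)
    (hu : u = H58.nm ((b : ℝ) / M : ℝ)) :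
    HasSum (fun n : ℕ => (if n = 0 then (if (a : ZMod M) = 0 then u / (1 - u) ^ 2 else 0) else
        (∑ m ∈ n.divisors, if ((n / m : ℕ) : ZMod M) = a then (m : ℂ) * u ^ m else 0) +
        ∑ m ∈ n.divisors, if ((n / m : ℕ) : ZMod M) = -a then (m : ℂ) * u⁻¹ ^ m else 0) •
      𝕢 M τ ^ n) (H58.Pv ((a : ℝ) / M) ((b : ℝ) / M) τ) := by
  subst hu
  exact H58.hasSum_Pv h τ

/-!
## 2. Integrality of the coefficients, and their differences

`R` is a subring of `ℂ` which contains the `D`-th roots of unity and `1/D`. The number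
`H58.cP D a u n` is the `n`-th coefficient in `wp_expansion`, for `M = D`.
-/

/-- **Differences of roots of unity are units.** For `u ≠ v` with `uᴰ = vᴰ = 1` the number
`1/(u - v)` lies in `R`, because `(u - 1) ∑_{j < D} j uʲ = D` for `u ≠ 1`. Hence all coefficients of
all division values with denominator `D` are in `R`. File `H58Sep1`. -/
theorem coefficients_mem {D : ℕ} [NeZero D] {R : Subring ℂ} (hroot : ∀ z : ℂ, z ^ D = 1 → z ∈ R)
    (hinv : ((D : ℂ))⁻¹ ∈ R) {u v : ℂ} (hu : u ^ D = 1) (hv : v ^ D = 1) :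
    (u ≠ v → (u - v)⁻¹ ∈ R) ∧
    ∀ (a : ZMod D), ¬ (a = 0 ∧ u = 1) → ∀ n : ℕ, H58.cP D a u n ∈ R :=
  ⟨fun h => H58.IsCyc.inv_sub_mem ⟨hroot, hinv⟩ hu hv h,
    fun _ h n => H58.IsCyc.cP_mem ⟨hroot, hinv⟩ hu h n⟩

/-- **Leading coefficients.** Let `0 ≤ 2a ≤ D`. The coefficients of index `n < a` vanish, and the
one of index `a` is `u/(1 - u)²` for `a = 0`, `u` for `0 < 2a < D`, and `u + u⁻¹` for `2a = D`. The
pairs `(a, u)` and `(-a, u⁻¹)` have the same coefficients, so this covers all cases. File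
`H58Sep1`. -/
theorem leading_coefficients {D : ℕ} [NeZero D] (u : ℂ) {a : ℕ} (haD : 2 * a ≤ D) :
    (∀ n < a, H58.cP D (a : ZMod D) u n = 0) ∧
    (H58.cP D ((0 : ℕ) : ZMod D) u 0 = u / (1 - u) ^ 2) ∧
    (0 < a → 2 * a < D → H58.cP D (a : ZMod D) u a = u) ∧
    (0 < a → 2 * a = D → H58.cP D (a : ZMod D) u a = u + u⁻¹) ∧
    (u ≠ 0 → ∀ (b : ZMod D) (n : ℕ), H58.cP D (-b) u⁻¹ n = H58.cP D b u n) :=
  ⟨fun _ hn => H58.cP_eq_zero_of_lt haD u hn, H58.cP_zero_zero u, fun h h' => H58.cP_self h h' u,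
    fun h h' => H58.cP_half h h' u, fun h b n => H58.cP_neg b h n⟩

/-- **Two different division values differ by a series with invertible leading coefficient.** Let
`(a, u)` and `(a', u')` be nonzero, different, and not opposite to each other. There is an `n` such
that the coefficients below `n` agree and the difference of the `n`-th coefficients is a unit of `R`
(it lies in `R` by `coefficients_mem`). Proof: in normal form, `a ≤ a' ≤ D/2` and `n = a`. The
differences which occur are units because of the identities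
`u/(1-u)² - u'/(1-u')² = (u - u')(1 - u u')/((1-u)²(1-u')²)` and, for `2a = D`,
`(u + u⁻¹) - (u' + u'⁻¹) = (u - u')(u - u'⁻¹) u⁻¹`. File `H58Sep1`. -/
theorem division_values_separated {D : ℕ} [NeZero D] {R : Subring ℂ}
    (hroot : ∀ z : ℂ, z ^ D = 1 → z ∈ R) (hinv : ((D : ℂ))⁻¹ ∈ R) {a a' : ZMod D} {u u' : ℂ}
    (hu : u ^ D = 1) (hu' : u' ^ D = 1) (h : ¬ (a = 0 ∧ u = 1)) (h' : ¬ (a' = 0 ∧ u' = 1))
    (hne : ¬ (a = a' ∧ u = u')) (hne' : ¬ (a = -a' ∧ u = u'⁻¹)) :
    ∃ n : ℕ, (∀ m < n, H58.cP D a u m = H58.cP D a' u' m) ∧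
      H58.cP D a u n ≠ H58.cP D a' u' n ∧ (H58.cP D a u n - H58.cP D a' u' n)⁻¹ ∈ R :=
  H58.unitLead ⟨hroot, hinv⟩ hu hu' h h' hne hne'

/-!
## 3. Functions of weight zero

`H58.X2 D a b` is the division value `P_{a/D,b/D}` of section 1, for integers `a`, `b`, and
`H58.XS D a b` is its expansion in `q^{1/D}`, a power series with the coefficients `H58.cP`, as a
Laurent series. `H24.HasExpC`, `H24.ev` and `H78.FF.GoodAlg` are explained in theorem
`expansion_notions` of `GuideGaloisAction`. `qExpand ℂ D F` is the Laurent series `F(tᴰ)`.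
-/

/-- **Notions.** `H58.NZ D a b`: `(a, b)` is not zero modulo `D`. `H66.HasLead x n c`: the Laurent
series `x` begins with `c tⁿ` (all lower coefficients vanish; `c = 0` is allowed). Files `H58Sep2`,
`H66Lead`. -/
theorem division_value_notions (D : ℕ) (a b : ℤ) {A : Type*} [CommRing A] (x : LaurentSeries A)
    (n : ℤ) (c : A) :
    H58.X2 D a b = H58.Pv ((a : ℝ) / D) ((b : ℝ) / D) ∧
    H58.XS D a b = HahnSeries.ofPowerSeries ℤ ℂ
      (PowerSeries.mk (H58.cP D (a : ZMod D) (H58.nm ((((b : ℝ) / D : ℝ)) : ℂ)))) ∧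
    (H58.NZ D a b ↔ ¬ ((a : ZMod D) = 0 ∧ (b : ZMod D) = 0)) ∧
    (H66.HasLead x n c ↔ x.coeff n = c ∧ ∀ m < n, x.coeff m = 0) :=
  ⟨rfl, rfl, Iff.rfl, Iff.rfl⟩

/-- **Expansions of division values.** `XS D a b` is the expansion of `X2 D a b`; it depends only on
`a`, `b` modulo `D`, and not on the sign of `(a, b)`. File `H58Sep2`. -/
theorem division_value_expansion {D : ℕ} [NeZero D] {a b a' b' : ℤ} (h : H58.NZ D a b)
    (ha : (a : ZMod D) = a') (hb : (b : ZMod D) = b') :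
    H24.HasExpC (fun τ : ℍ => 𝕢 (D : ℝ) τ) (H58.X2 D a b) (H58.XS D a b) ∧
    H58.XS D a b = H58.XS D a' b' ∧ H58.XS D (-a) (-b) = H58.XS D a b :=
  ⟨H58.hasExpC_X2 h, H58.XS_congr ha hb, H58.XS_neg a b⟩

/-- **A factor of weight `-2`.** `E₄ E₆ / Δ` has weight `-2` (`denom γ τ = c τ + d`), and its
expansion `uL` is defined over `ℤ` and begins with `q⁻¹`. File `H58Sep2`. -/
theorem weight_minus_two (γ : SL(2, ℤ)) (τ : ℍ) (R : Subring ℂ) (n : ℤ) (K : Type*) [CommRing K] :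
    H58.uf τ = E₄ τ * E₆ τ * (discriminant τ)⁻¹ ∧
    H58.uf (γ • τ) = (denom γ τ ^ 2)⁻¹ * H58.uf τ ∧
    H66.HasLead (H58.uL K) (-1) 1 ∧ (H58.uL ℂ).coeff n ∈ R :=
  ⟨rfl, H58.uf_smul γ τ, H58.hasLead_uL K, H58.uL_coeff_mem R n⟩

/-- **The function** `θ = (x(1/M) - x(1/r)) E₄ E₆ / Δ`, and its translates. By the transformation
law of section 1, `θ ∘ γ` depends only on the second row `(c, d)` of `γ`: it is the same expression
for the points `(c τ + d)/M` and `(c τ + d)/r`. File `H58Sep`. -/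
theorem theta_translates {M r : ℕ} [NeZero (M * r)] (hM : 2 ≤ M) (hr : 2 ≤ r) (γ : SL(2, ℤ))
    (τ : ℍ) :
    H58.th M r τ = (H58.X2 (M * r) 0 r τ - H58.X2 (M * r) 0 M τ) * H58.uf τ ∧
    H58.th M r (γ • τ) = (H58.X2 (M * r) (r * γ 1 0) (r * γ 1 1) τ -
      H58.X2 (M * r) (M * γ 1 0) (M * γ 1 1) τ) * H58.uf τ :=
  ⟨rfl, congrFun (H58.th_smul hM hr γ) τ⟩

/-- **Expansions of the translates.** `θ ∘ γ` has the expansion `thS M r γ` in `q^{1/(Mr)}`; its
coefficients lie in every subring of `ℂ` which contains the `Mr`-th roots of unity and `1/(Mr)`.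
File `H58Sep`. -/
theorem theta_expansions {M r : ℕ} [NeZero (M * r)] {R : Subring ℂ}
    (hroot : ∀ z : ℂ, z ^ (M * r) = 1 → z ∈ R) (hinv : (((M * r : ℕ) : ℂ))⁻¹ ∈ R) (hM : 2 ≤ M)
    (hr : 2 ≤ r) (γ : SL(2, ℤ)) :
    H58.thS M r γ = (H58.XS (M * r) (r * γ 1 0) (r * γ 1 1) -
      H58.XS (M * r) (M * γ 1 0) (M * γ 1 1)) * ModularCurve.qExpand ℂ (M * r) (H58.uL ℂ) ∧
    H24.HasExpC (fun τ : ℍ => 𝕢 ((M * r : ℕ) : ℝ) τ) (fun τ => H58.th M r (γ • τ))
      (H58.thS M r γ) ∧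
    ∀ n : ℤ, (H58.thS M r γ).coeff n ∈ R :=
  ⟨rfl, H58.hasExpC_th hM hr γ, H58.thS_coeff_mem ⟨hroot, hinv⟩ hM hr γ⟩

/-- **The role of `r = 2, 3`.** For `γ ∈ Γ₀(r)` the point `(c τ + d)/r` is `± 1/r` modulo the
lattice, because the units modulo `2` and `3` are `± 1`; so the second division value is the same
for all translates, and differences of translates only involve the points `(c τ + d)/M`. Two rows
`(c, d)`, `(c', d')` which agree modulo `M` up to sign belong to the same coset of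
`±Γ₁(M) = {γ : γ ∈ Γ₁(M) or -γ ∈ Γ₁(M)}`. File `H58Sep`. -/
theorem theta_rows {M r : ℕ} [NeZero (M * r)] (hr : r = 2 ∨ r = 3) {γ γ' : SL(2, ℤ)}
    (hγ : γ ∈ Gamma0 r)
    (h : (((γ 1 0 : ℤ) : ZMod M) = ((γ' 1 0 : ℤ) : ZMod M) ∧
        ((γ 1 1 : ℤ) : ZMod M) = ((γ' 1 1 : ℤ) : ZMod M)) ∨
      (((γ 1 0 : ℤ) : ZMod M) = ((-γ' 1 0 : ℤ) : ZMod M) ∧
        ((γ 1 1 : ℤ) : ZMod M) = ((-γ' 1 1 : ℤ) : ZMod M))) :
    H58.thS M r γ = (H58.XS (M * r) (r * γ 1 0) (r * γ 1 1) - H58.XS (M * r) 0 M) *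
      ModularCurve.qExpand ℂ (M * r) (H58.uL ℂ) ∧
    γ' * γ⁻¹ ∈ H22.Tw.pmG M :=
  ⟨H58.thS_eq hr hγ, H58.mem_pmG_of_rows h⟩

/-- **Separation.** For `γ, γ' ∈ Γ₀(r)` in different cosets of `±Γ₁(M)` the difference of the
expansions of `θ ∘ γ` and `θ ∘ γ'` begins with a unit `c` of `R`. Hence the images of the two
expansions under every homomorphism from `R` to a field are different (this gives theorem
`separating_generator` of `GuideGaloisAction`, where `R` is a place above `p ∤ M r`). Also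
`θ ∘ γ = θ ∘ γ'` if and only if `γ' γ⁻¹ ∈ ±Γ₁(M)`, so `θ` generates the field of modular functions
of `±Γ₁(M) ∩ Γ₀(r)` over that of `Γ₀(r)`. File `H58Sep`. -/
theorem theta_separation {M r : ℕ} [NeZero (M * r)] {R : Subring ℂ}
    (hroot : ∀ z : ℂ, z ^ (M * r) = 1 → z ∈ R) (hinv : (((M * r : ℕ) : ℂ))⁻¹ ∈ R) (hM : 2 ≤ M)
    (hr : r = 2 ∨ r = 3) {γ γ' : SL(2, ℤ)} (hγ : γ ∈ Gamma0 r) (hγ' : γ' ∈ Gamma0 r) :
    (γ' * γ⁻¹ ∉ H22.Tw.pmG M → ∃ (n : ℤ) (c : ℂ), c ≠ 0 ∧ c ∈ R ∧ c⁻¹ ∈ R ∧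
      H66.HasLead (H58.thS M r γ - H58.thS M r γ') n c) ∧
    ((∀ τ : ℍ, H58.th M r (γ • τ) = H58.th M r (γ' • τ)) ↔
      γ' * γ⁻¹ ∈ H22.Tw.pmG M) :=
  ⟨fun h => H58.hasLead_thS_sub ⟨hroot, hinv⟩ hM hr hγ hγ' h,
    funext_iff.symm.trans (H58.th_comp_eq_iff hM hr hγ hγ')⟩

/-- **`θ` as a Laurent series over a number field.** Let `K ⊆ ℂ` contain the `Mr`-th roots of unity.
There is a series `x` over `K` in the ring `GoodAlg` of the modular functions for `±Γ₁(M) ∩ Γ₀(r)`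
with coefficients in `K`, whose function is `θ`. (The expansion in `q^{1/(Mr)}` only has exponents
divisible by `Mr`, because `θ(τ + 1) = θ(τ)`.) File `H58Sep`. -/
theorem theta_over_field {M r : ℕ} [NeZero (M * r)] (hM : 2 ≤ M) (hr : r = 2 ∨ r = 3) (K : Type*)
    [Field K] [Algebra K ℂ] (hK : ∀ z : ℂ, z ^ (M * r) = 1 → z ∈ (algebraMap K ℂ).range) :
    ∃ x : LaurentSeries K,
      x ∈ H78.FF.GoodAlg K (H22.Tw.pmG M ⊓ Gamma0 r) (M * r) ∧
      H24.ev K x = H58.th M r ∧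
      ModularCurve.qExpand ℂ (M * r) (H24.incl K x) = H58.thS M r 1 :=
  H58.exists_good hM hr K hK

/-! ## 4. From forms to functions -/

/-- **Multipliers.** `U = E₄ᵃ E₆ᵇ Δ⁻ˢ` has weight `4a + 6b - 12s` and every even weight is of this
form; its expansion has integral coefficients and begins with `q⁻ˢ`. If `f` has weight `k` and `U`
weight `-k`, then `(f U) ∘ γ = (f ∣[k] γ) U` for all `γ ∈ SL₂(ℤ)`. File `H58Dict`. -/
theorem multiplier (k : ℤ) (hk : Even k) :
    ∃ a b s : ℕ, (∀ τ : ℍ, H58.U a b s τ = E₄ τ ^ a * E₆ τ ^ b * (discriminant τ)⁻¹ ^ s) ∧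
      (4 * a + 6 * b - 12 * s : ℤ) = -k ∧
      (∀ (f : ℍ → ℂ) (γ : SL(2, ℤ)) (τ : ℍ), f (γ • τ) * H58.U a b s (γ • τ) =
        (f ∣[k] γ) τ * H58.U a b s τ) ∧
      H66.HasLead (H58.UL a b s ℂ) (-s) 1 ∧
      ∀ n : ℤ, ∃ m : ℤ, (H58.UL a b s ℂ).coeff n = (m : ℂ) := by
  obtain ⟨a, b, s, h⟩ := H58.exists_weight hk
  exact ⟨a, b, s, fun _ => rfl, h, fun f γ τ => congrFun (H58.compHom_mul_U h f γ) τ,
    H58.hasLead_UL ℂ, H58.UL_coeff_intCast ℂ⟩

/-- **Dictionary.** Let `f` be a modular form of weight `k` on `Γ ∋ T` with coefficients `c n` in a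
subfield `K` of `ℂ`, and let `D` be a multiple of all widths of cusps of `Γ`. Then `f U` is a
modular function for `Γ` with coefficients in `K` (an element of `GoodAlg K Γ D`), and its series is
the product of the two expansions. File `H58Dict`. -/
theorem form_to_function {Γ : Subgroup SL(2, ℤ)} {k : ℤ} {f : ℍ → ℂ} (hf : H22.Tw.IsM Γ k f)
    (hT : ModularGroup.T ∈ Γ) {a b s : ℕ} (hk : (4 * a + 6 * b - 12 * s : ℤ) = -k) {D : ℕ}
    [NeZero D] (hD : ∀ γ : SL(2, ℤ), γ * ModularGroup.T ^ D * γ⁻¹ ∈ Γ) (K : Type*) [Field K]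
    [Algebra K ℂ] (c : ℕ → K) (hc : ∀ i, (qExpansion 1 f).coeff i = algebraMap K ℂ (c i)) :
    (HahnSeries.ofPowerSeries ℤ K (PowerSeries.mk c) * H58.UL a b s K) ∈ H78.FF.GoodAlg K Γ D ∧
      H24.ev K (HahnSeries.ofPowerSeries ℤ K (PowerSeries.mk c) * H58.UL a b s K) =
        f * H58.U a b s :=
  H58.good_form hf hT hk hD K c hc

/-- **Translates.** If `δ T δ⁻¹ ∈ Γ`, the translate `f ∣[k] δ` has period `1`, and the expansion of
`(f U) ∘ δ` in `q^{1/D}` is the product of its `q`-expansion with that of `U`, with `q` replaced by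
the `D`-th power of the variable. File `H58Dict`. -/
theorem translate_expansion {Γ : Subgroup SL(2, ℤ)} {k : ℤ} {f : ℍ → ℂ} (hf : H22.Tw.IsM Γ k f)
    {a b s : ℕ} (hk : (4 * a + 6 * b - 12 * s : ℤ) = -k) (D : ℕ) [NeZero D] {δ : SL(2, ℤ)}
    (hδ : δ * ModularGroup.T * δ⁻¹ ∈ Γ) :
    H24.HasExpC (fun τ : ℍ => 𝕢 (D : ℝ) τ) (fun τ => f (δ • τ) * H58.U a b s (δ • τ))
      (ModularCurve.qExpand ℂ D
        (HahnSeries.ofPowerSeries ℤ ℂ (qExpansion 1 (f ∣[k] δ)) * H58.UL a b s ℂ)) :=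
  H58.hasExpC_translate hf hk D hδ

/-- **Places of a number field are discrete.** Let `A` be a valuation ring of a field `Ω` which
contains the number field `L`, and `p` a natural number with `1/p ∉ A`. Then `A ∩ L` is a discrete
valuation ring: it contains the ring of integers, and is its localisation at the centre, a nonzero
prime ideal. Used to pass from the places of `ℚ̄` to number fields, where the theorems on
connectedness apply. File `H58DVR`. -/
theorem place_discrete {L : Type*} [Field L] [NumberField L] {Ω : Type*} [Field Ω] [Algebra L Ω]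
    (A : ValuationSubring Ω) {p : ℕ} (hpA : ((p : Ω))⁻¹ ∉ A) :
    IsDiscreteValuationRing (A.comap (algebraMap L Ω)) :=
  H58.isDVR_comap A hpA

/-- **Roots of Laurent series.** A nonzero Laurent series over a field in which `m ≠ 0`, whose order
is divisible by `m` and whose leading coefficient is an `m`-th power, is an `m`-th power. Proof:
Hensel's lemma in the ring of power series. File `H58Num`. -/
theorem root_of_laurent_series {K : Type*} [Field K] {m : ℕ} (hm : (m : K) ≠ 0)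
    (f : LaurentSeries K) (hf : f ≠ 0) (hd : (m : ℤ) ∣ f.order) {a : K}
    (ha : a ^ m = f.coeff f.order) : ∃ g : LaurentSeries K, g ^ m = f :=
  H58.exists_root_laurent hm f hf hd ha

/-! ## 5. Kummer injectivity: from level `±Γ₁(M) ∩ Γ₀(r)` to `±Γ₁(M)` -/

/-- **The coefficients of a form on `Γ₁(M)` lie in a number field**, if they are algebraic: they
span a finitely generated group (theorems on forms on `Γ₁(N)`, files `H50*`). File `H58KIIn`. -/
theorem coefficients_in_number_field {M : ℕ} [NeZero M] (ι : Qb →+* ℂ) {k : ℤ} {f : ℍ → ℂ}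
    (hf : H22.Tw.IsM (Gamma1 M) k f) (b : ℕ → Qb)
    (hb : ∀ i, (qExpansion 1 f).coeff i = ι (b i)) :
    ∃ L : IntermediateField ℚ Qb, FiniteDimensional ℚ L ∧ ∀ i, b i ∈ L :=
  H58.exists_numberField_coeff ι hf b hb

/-- **Comparison of two characters.** Let `h₁`, `h₂` be holomorphic functions on `ℍ` which are
multiplied by `χ₁(γ)` and `χ₂(γ)` under `γ`, and let `A`, `B` be holomorphic and invariant under
`γ`. If `h₁ⁿ Bⁿ = Aⁿ h₂ⁿ` and `h₁, B ≠ 0`, then `χ₁(γ) = χ₂(γ)`: `h₁ B` is `A h₂` times a constant.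
(In the application `h₁ = x U`, `h₂ = y U` for two twisted forms `x`, `y` of the same weight, and
`A`, `B` are given by theorem `kummer_injectivity_functions` of `GuideGaloisAction`.) File
`H58KIIn`. -/
theorem characters_agree {Γ : Subgroup SL(2, ℤ)} {χ₁ χ₂ : Γ →* ℂˣ} {n : ℕ} (hn : n ≠ 0)
    {h₁ h₂ A B : ℍ → ℂ} (hh₁ : MDiff h₁) (hh₂ : MDiff h₂) (hA : MDiff A) (hB : MDiff B)
    (h10 : h₁ ≠ 0) (hB0 : B ≠ 0) (hrel : h₁ ^ n * B ^ n = A ^ n * h₂ ^ n) (γ : Γ)
    (h1 : ∀ τ, h₁ ((γ : SL(2, ℤ)) • τ) = (χ₁ γ : ℂ) * h₁ τ)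
    (h2 : ∀ τ, h₂ ((γ : SL(2, ℤ)) • τ) = (χ₂ γ : ℂ) * h₂ τ)
    (hAγ : ∀ τ, A ((γ : SL(2, ℤ)) • τ) = A τ) (hBγ : ∀ τ, B ((γ : SL(2, ℤ)) • τ) = B τ) :
    χ₁ γ = χ₂ γ :=
  H58.char_eq_of_rel hn hh₁ hh₂ hA hB h10 hB0 hrel γ (funext h1) (funext h2) (funext hAγ)
    (funext hBγ)

/-- **Removing the auxiliary level.** For `r = 2, 3` the sixth power of every element of `SL₂(ℤ)`
lies in `Γ₀(r)` (the groups `SL₂(𝔽_r)/±1` have exponent 6), and two elements of order dividing a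
prime `n ≥ 5` of an abelian group are equal if their sixth powers are. So two characters of order
dividing `n` of `±Γ₁(M)` are equal if they agree on the elements of `±Γ₁(M) ∩ Γ₀(r)`. One takes
`r = 3` for `p = 2` and `r = 2` for `p ≠ 2`. File `H58KIIn`. -/
theorem removing_auxiliary_level {r : ℕ} (hr : r = 2 ∨ r = 3) (γ : SL(2, ℤ)) {G : Type*}
    [CommGroup G] {u v : G} {n : ℕ} (hn : n.Prime) (hn5 : 5 ≤ n) (hu : u ^ n = 1) (hv : v ^ n = 1) :
    γ ^ 6 ∈ Gamma0 r ∧ (u ^ 6 = v ^ 6 → u = v) :=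
  ⟨H58.pow_six_mem_Gamma0 hr γ, fun h => H58.eq_of_pow_six hn hn5 hu hv h⟩

/-- **Kummer injectivity**, for one auxiliary level `r ≠ p`. `H78.KI.CoreKI M r n` is the statement
of theorem `kummer_injectivity_functions` of `GuideGaloisAction`. Let `M ≥ 5`, let `n ≥ 5` be a
prime, and let `x`, `y` be twisted forms for `±Γ₁(M)` of the same even weight with characters `χ₁`,
`χ₂` in `parChar` (of order dividing `n`), such that `xⁿ` and `yⁿ` have expansions with coefficients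
in a place `A` above `p ∤ M n` with the same nonzero reduction. Then `χ₁ = χ₂`. File `H58KIIn`. -/
theorem kummer_injectivity_level {M n r : ℕ} [NeZero (M * r)] (hM : 5 ≤ M) (hn : n.Prime)
    (hn5 : 5 ≤ n) (hr : r = 2 ∨ r = 3) (hcore : H78.KI.CoreKI M r n) {p : ℕ} (hp : p.Prime)
    (hpM : ¬ p ∣ M) (hpn : ¬ p ∣ n) (hpr : p ≠ r) (A : ValuationSubring Qb)
    (hA : A.LiesOverPrime p) (ι : Qb →+* ℂ) {k : ℤ} (hk : Even k)
    {χ₁ χ₂ : H22.Tw.pmG M →* ℂˣ} (hχ₁ : χ₁ ∈ H22.Tw.parChar (H22.Tw.pmG M) n)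
    (hχ₂ : χ₂ ∈ H22.Tw.parChar (H22.Tw.pmG M) n) {x y : ℍ → ℂ}
    (hx : H22.Tw.IsTw (H22.Tw.pmG M) χ₁ k x) (hy : H22.Tw.IsTw (H22.Tw.pmG M) χ₂ k y)
    (a b : ℕ → Qb) (haA : ∀ i, a i ∈ A) (hbA : ∀ i, b i ∈ A)
    (ha : ∀ i, (qExpansion 1 (x ^ n)).coeff i = ι (a i))
    (hb : ∀ i, (qExpansion 1 (y ^ n)).coeff i = ι (b i))
    (hab : ∀ i, a i - b i ∈ A.nonunits) (hne : ∃ i, a i ∉ A.nonunits) : χ₁ = χ₂ :=
  H58.char_eq_core hM hn hn5 hr hcore hp hpM hpn hpr A hA ι hk hχ₁ hχ₂ hx hy a b haA hbA ha hb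
    hab hne

end Fermat.Agent.Guide.DivisionValues
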