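import Fermat.Agent.H39Core

/-!
# Guide: logarithmic derivatives of Kummer functions in characteristic `p`

Companion of `GuideLevelsS44` (section 7 there) and `GuideLevelsAtP`.  It explains how a function on
`X₀(N)` in characteristic `p`, the reduction of a Kummer function (a function whose divisor is `p`
times a divisor), gives a modular form of weight two modulo `p` and a congruence between modular
forms.  The map `g ↦ dg / g` is the classical map from classes of order `p` to differentials in
characteristic `p`.  Together with the analysis of the nodes in `GuideLevelsS44` it replaces the use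
of Néron models and finite flat group schemes in the theorems of Mazur and Ribet at the prime `p`.

**The argument.**  Let `x = [D]` be a class with `p x = 0`, `T_ℓ x = a_ℓ x`, and let `u` be a function
with divisor `p D` and with reduction `g ≠ 0`.
1. `θ = q d/dq` acts on Laurent series; `θ f / θ j = df/dj` for `f` in the function field, in
   characteristic zero and after reduction (sections 1, 2).
2. `dlog g = θ g / g` is a weight two form: `(θ g / g) / θ j = (dg/g)/dj` lies in the Riemann-Roch
   space of `div(dj) + cusps`, if the divisor of `g` is divisible by `p` away from the cusps.  The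
   dimension of this space is the same in characteristic zero and `p`, and in characteristic zero
   it consists of the `F / θ j`, `F` in `S₂ ⊕ Eis`.  So `dlog g` is a combination of reductions of
   integral forms (section 3; the conclusion is `exists_span_of_dlog` in `GuideLevelsS44`).
3. `T_ℓ x = a x` gives `T_ℓ dlog g = a dlog g` (section 4; conclusion: `hecke_dlog` there).
4. `dlog g ≠ 0` unless `g` is a `p`-th power (section 5).
5. A form modulo `p` in `S₂ ⊕ Eis` with the eigenvalues `a_ℓ(W)`, not Eisenstein, is a cusp form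
   modulo `p`, and its eigenvalues lift to characteristic zero (section 6).
Steps 1-5 are put together in `GuideLevelsS44.modular_of_reduction` (`H39Core`).

**Serves** S44, and S43, S45, S03, S01 through it.  **Notes**: NOTES.md [235] (this block), [114].

**Modules** in reading order: `H61Formal` (θ, Eisenstein series as power series), `H39DerRed`,
`H39DerMod`, `H39Lat`, `H39Forms`, `H39Poles`, `H39Span`, `H39Hecke`, `H39Conv`, `H39End`, `H39Core`.

**Notation.**  `modularFunctionFieldFullC k N` is the function field of `X₀(N)` over the field `k`, as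
a subfield of `k((q))` (generated by the expansions of `j(q^d)`, `d ∣ N`), `modularFunctionFieldBar N`
the one over the field of algebraic numbers, `jqModC k` the expansion of `j`, `Place` a place of a
function field and `v.ord` its order function.  `qExpand k ℓ f = f(q^ℓ)`, `H60.twist ζ f = f(ζ q)`.

Text by helper39.
-/

set_option autoImplicit false

noncomputable section

open AlgebraicCurve ModularCurve CongruenceSubgroup

namespace Fermat.Agent.Guide.Dlog

/-- The field of algebraic numbers. -/
local notation "Qb" => AlgebraicClosure ℚ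

/-! ## 1. The derivation `θ` -/

/-- The definition of `θ = q d/dq` on Laurent series over any ring.  (File `H61Formal`.) -/
theorem coeff_theta {R : Type*} [CommRing R] (f : LaurentSeries R) (n : ℤ) :
    (H61.theta f).coeff n = (n : R) * f.coeff n :=
  rfl

/-- Product rule.  (File `H61Formal`.) -/
theorem theta_mul {R : Type*} [CommRing R] (f g : LaurentSeries R) :
    H61.theta (f * g) = H61.theta f * g + f * H61.theta g :=
  H61.theta_mul f g

/-- `θ j` is invertible as a series over every ring, because `θ j = - E₄² E₆ / Δ` has leading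
coefficient `-1`.  So `θ f / θ j` has integral coefficients if `f` has.  (File `H39DerMod`.) -/
theorem exists_inv_theta_j (R : Type*) [CommRing R] :
    ∃ y : LaurentSeries R, y * H61.theta (jqModC R) = 1 :=
  H39.exists_inv_theta_j R

/-- **In characteristic zero `θ/θj` preserves the function field of `X₀(N)`**: `θ f / θ j` is the
derivative `df/dj`.  Proof: both are derivations of the function field with values in the Laurent
series, and they agree on `j`.  (File `H39DerMod`.) -/
theorem theta_div_mem {N : ℕ} [NeZero N] (f : LaurentSeries Qb)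
    (hf : f ∈ modularFunctionFieldBar N) :
    H61.theta f / H61.theta (jqModC Qb) ∈ modularFunctionFieldBar N :=
  H39.theta_div_mem (F := modularFunctionFieldBar N) (j := H94.jBar N) rfl (H39.transc_jBar N) f hf

/-- **The same in characteristic `p`**, for `p ∤ N`, over the residue field of a place `A` of the
algebraic numbers above `p`.  Proof: a function on the reduction is the reduction of a quotient of
functions with integral expansions; apply `theta_div_mem` and `exists_inv_theta_j`.
(File `H39DerMod`; the input on degrees is `H18.degLE_of_not_dvd`: the degree over `k(j)` does not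
drop.) -/
theorem theta_div_mem_reduction {N p : ℕ} [NeZero N] [Fact p.Prime] (hpN : ¬ p ∣ N)
    {A : ValuationSubring Qb} (hA : A.LiesOverPrime p)
    (f : LaurentSeries (IsLocalRing.ResidueField A))
    (hf : f ∈ modularFunctionFieldFullC (IsLocalRing.ResidueField A) N) :
    H61.theta f / H61.theta (jqModC (IsLocalRing.ResidueField A)) ∈
      modularFunctionFieldFullC (IsLocalRing.ResidueField A) N :=
  H39.theta_div_mem_red A (IsLocalRing.residue A) N IsLocalRing.residue_surjective
    (H18.degLE_of_not_dvd N hpN A hA) (fun _ hf => theta_div_mem _ hf) f hf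

/-! ## 2. Derivations and reduction of curves

`R : H40.ReductionData K F k E` is a reduction of the function field `F/K` to the function field
`E/k` (Deuring): `R.B` is a valuation ring of `F` and `R.ρ : R.B → E` its residue map.  `r` is a map
of places which is compatible with divisors of functions (`hcompat`) and with Riemann-Roch spaces
(`hred`: for a divisor `D` of large degree, `r(D)` has the same degree as `D`, and its space consists of
the reductions of the integral functions in the space of `D`).  Its existence for `X₀(N)` is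
`H39.exists_red_map`. -/

/-- The reduction of places is surjective.  (File `H39DerRed`.) -/
theorem reduction_surjective {K F k E : Type*} [Field K] [Field F] [Algebra K F] [Field k]
    [Field E] [Algebra k E] (R : H40.ReductionData K F k E) (r : Place K F → Place k E)
    (hcompat : ∀ x : R.B, R.ρ x ≠ 0 → ∀ Δ : Divisor K F, (∀ v, Δ v = v.ord (x : F)) →
      ∀ w, Finsupp.mapDomain r Δ w = w.ord (R.ρ x)) [HasPrincipalDivisors K F] :
    Function.Surjective r :=
  H39.surjective_r R r hcompat

/-- **Pole bounds go over to the reduction.**  Let `δ` be a derivation of `F/K` which reduces to a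
derivation `δ'` of `E/k`, and suppose that `δ x` has at most the poles of `D₀` where `x` has no pole.
Then at every place `w`, for every `g ≠ 0`, `δ' g / g` has at most the poles of `r(D₀) + w`, and only
the poles of `r(D₀)` if the order of `g` at `w` is zero in `E` (that is, divisible by the
characteristic).  No completions and no local parameters of `F` are used: the bound for `δ'` follows
from the bound for `δ` by lifting functions with prescribed poles.  (File `H39DerRed`.) -/
theorem pole_bound_reduction {K F k E : Type*} [Field K] [Field F] [Algebra K F] [Field k]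
    [Field E] [Algebra k E] (R : H40.ReductionData K F k E) (r : Place K F → Place k E) {c : ℤ}
    (hred : ∀ D : Divisor K F, c < Divisor.degree D → R.IsRed D (Finsupp.mapDomain r D))
    (hcompat : ∀ x : R.B, R.ρ x ≠ 0 → ∀ Δ : Divisor K F, (∀ v, Δ v = v.ord (x : F)) →
      ∀ w, Finsupp.mapDomain r Δ w = w.ord (R.ρ x))
    [HasPrincipalDivisors K F] [HasPrincipalDivisors k E] (hdF : ∀ v : Place K F, v.deg = 1)
    (δ : Derivation K F F) (δ' : Derivation k E E)
    (hδ : ∀ x : R.B, ∃ h : δ (x : F) ∈ R.B, R.ρ ⟨δ (x : F), h⟩ = δ' (R.ρ x)) (D₀ : Divisor K F)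
    (hD₀ : ∀ (P : Place K F) (x : F), x ≠ 0 → 0 ≤ P.ord x → δ x = 0 ∨ -D₀ P ≤ P.ord (δ x))
    (hw : ∃ w w' : Place k E, w ≠ w') (w : Place k E) {g : E} (hg : g ≠ 0) :
    (δ' g = 0 ∨ -(Finsupp.mapDomain r D₀ w) - 1 ≤ w.ord (δ' g / g)) ∧
      (((w.ord g : ℤ) : E) = 0 → δ' g = 0 ∨ -(Finsupp.mapDomain r D₀ w) ≤ w.ord (δ' g / g)) :=
  H39.ord_logDer_ge R r hred hcompat hdF δ δ' hδ D₀ hD₀ hw w hg

/-! ## 3. The divisor `div(dj) + cusps` and forms of weight two -/

/-- `H39.divDj N` is the divisor of the differential `dj` on `X₀(N)` over the algebraic numbers (`H94.jBar N`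
is `j` as an element of the function field); its degree is `2 g - 2`.  (File `H39Poles`.) -/
theorem divDj_spec (N : ℕ) [NeZero N] :
    (∀ v : Place Qb (modularFunctionFieldBar N), H39.divDj N v =
      v.ordDifferential (KaehlerDifferential.D Qb (modularFunctionFieldBar N) (H94.jBar N))) ∧
    Divisor.degree (H39.divDj N) = 2 * (genusFF Qb (modularFunctionFieldBar N) : ℤ) - 2 :=
  ⟨H39.divDj_apply N, H39.degree_divDj N⟩

/-- `H39.cuspDiv N` is the sum of the cusps, the poles of `j`.  For squarefree `N` there is one cusp for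
every divisor of `N`, so `div(dj) + cusps` has degree `2 g - 2 + d(N)`.  (File `H39Poles`.) -/
theorem degree_dj_add_cusps (N : ℕ) [NeZero N] (hN : Squarefree N) :
    (∀ v : Place Qb (modularFunctionFieldBar N),
      H39.cuspDiv N v = if v.ord (H94.jBar N) < 0 then 1 else 0) ∧
    Divisor.degree (H39.divDj N + H39.cuspDiv N) =
      2 * (genusFF Qb (modularFunctionFieldBar N) : ℤ) - 2 + N.divisors.card :=
  ⟨fun v => by rw [H39.cuspDiv_apply], H39.degree_DD N hN⟩

/-- The genus of `X₀(N)` is the dimension of `S₂(Γ₀(N))` (both are given by the classical formula, files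
`H94Export` and `H80S20`).  (File `H39Poles`.) -/
theorem genus_eq_finrank (N : ℕ) [NeZero N] :
    (genusFF Qb (modularFunctionFieldBar N) : ℤ) =
      Module.finrank ℂ (CuspForm (Gamma0 N) 2) :=
  H39.genus_eq N

/-- `H39.V2 N` is the space of the sequences of coefficients of the forms `f + Σ x_d (d E₂(dτ) - E₂(τ))`,
`f` a cusp form, `d > 1` a divisor of `N`; `H39.eisZ d n` is the `n`-th coefficient of
`d E₂(dτ) - E₂(τ)`, an integer.  (File `H39Forms`.) -/
theorem mem_V2_iff (N : ℕ) [NeZero N] (v : ℕ → ℂ) :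
    v ∈ H39.V2 N ↔ ∃ (f : CuspForm (Gamma0 N) 2) (x : ↥(N.divisors.erase 1) → ℂ),
      v = (fun n => ModularFormClass.qCoeff f n) +
        ∑ d : ↥(N.divisors.erase 1), x d • fun n => ((H39.eisZ (d : ℕ) n : ℤ) : ℂ) :=
  H39.mem_V2 N

/-- **Dimension.**  For squarefree `N` this space has dimension `dim S₂(Γ₀(N)) + d(N) - 1`, which is
`g + d(N) - 1`, the dimension of the Riemann-Roch space of `div(dj) + cusps`.  (File `H39Forms`.) -/
theorem finrank_V2 (N : ℕ) [NeZero N] (hN : Squarefree N) :
    Module.finrank ℂ (H39.V2 N) =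
      Module.finrank ℂ (CuspForm (Gamma0 N) 2) + (N.divisors.card - 1) :=
  H39.finrank_V2 N hN

/-- The space is spanned by integral sequences.  For cusp forms this is the integral structure of
`S₂(Γ₀(N))` (statement S23).  (File `H39Forms`.) -/
theorem V2_integral (N : ℕ) [NeZero N] (v : ℕ → ℂ) (hv : v ∈ H39.V2 N) :
    v ∈ Submodule.span ℂ {w : ℕ → ℂ | w ∈ H39.V2 N ∧ ∃ c : ℕ → ℤ, ∀ n, w n = c n} := by
  refine Submodule.span_mono ?_ (H39.V2_integral N v hv)
  rintro _ ⟨c, hc, rfl⟩
  exact ⟨hc, c, fun _ => rfl⟩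

/-- **Good bases.**  Let `V` be a space of sequences of finite dimension which is spanned by integral
sequences.  The integral sequences of `V` have a basis over `ℤ` with at least `dim V` elements which
stays linearly independent modulo `p`, over every field of characteristic `p`.  (An integral sequence
divisible by `p` is `p` times an integral sequence of `V`.)  So the reductions of the integral
sequences span a space of dimension `≥ dim V` in characteristic `p`.  (File `H39Lat`.) -/
theorem exists_good_basis (V : Submodule ℂ (ℕ → ℂ)) [FiniteDimensional ℂ V]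
    (hV : ∀ v ∈ V, v ∈ Submodule.span ℂ
      ((fun c : ℕ → ℤ => fun n => (c n : ℂ)) '' {c : ℕ → ℤ | (fun n => (c n : ℂ)) ∈ V}))
    (p : ℕ) [Fact p.Prime] :
    ∃ (r : ℕ) (b : Fin r → (ℕ → ℤ)), Module.finrank ℂ V ≤ r ∧
      (∀ i, (fun n => (b i n : ℂ)) ∈ V) ∧
      (∀ c : ℕ → ℤ, (fun n => (c n : ℂ)) ∈ V → ∃ t : Fin r → ℤ, ∀ n, c n = ∑ i, t i * b i n) ∧
      ∀ (k : Type) [Field k] [CharP k p],
        LinearIndependent k (fun i => (fun n => (b i n : k) : ℕ → k)) :=
  H39.exists_good_basis V hV p

/-- **Forms of weight two as functions.**  If `c` is the sequence of coefficients of a form in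
`S₂ ⊕ Eis` with integral coefficients, there is a function `x` on `X₀(N)` over the algebraic numbers
with `x θ j = Σ c(n) q^n`, and `x` lies in the Riemann-Roch space of `div(dj) + cusps`.
(File `H39Poles`; from `H45FormFun`.) -/
theorem exists_function_of_form (N : ℕ) [NeZero N] {c : ℕ → ℤ}
    (hc : (fun n => (c n : ℂ)) ∈ H39.V2 N) :
    ∃ x : modularFunctionFieldBar N,
      (∀ n : ℕ, ((x : LaurentSeries Qb) * H61.theta (jqModC Qb)).coeff (n : ℤ) = (c n : Qb)) ∧
      x ∈ riemannRochSpace (H39.divDj N + H39.cuspDiv N) := by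
  obtain ⟨x, h1, h2⟩ := H39.exists_function_seq N (c := c) hc
  exact ⟨x, fun n => by rw [h1, H39.coeff_ser], h2⟩

/-! ## 4. The Hecke relation for the logarithmic derivative

`H39.dl f = θ f / f`.  On `q`-expansions the operator `T_ℓ` on functions (the norm of the
correspondence) is `f ↦ f(q^ℓ) ∏_i f(ζ^i q^{1/ℓ})`; to avoid fractional exponents one works with
`normSeries ℓ ζ f = f(q^{ℓ²}) ∏_i f(ζ^i q)`, which is `(T_ℓ f)(q^ℓ)`. -/

/-- The logarithmic derivative turns products into sums.  (File `H39Hecke`.) -/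
theorem dl_mul {k : Type*} [Field k] {f g : LaurentSeries k} (hf : f ≠ 0) (hg : g ≠ 0) :
    H61.theta (f * g) / (f * g) = H61.theta f / f + H61.theta g / g :=
  H39.dl_mul hf hg

/-- Substitutions: `dlog f(q^ℓ) = ℓ (dlog f)(q^ℓ)` and `dlog f(ζ q) = (dlog f)(ζ q)`.
(File `H39Hecke`.) -/
theorem dl_substitution {k : Type*} [Field k] (ℓ : ℕ) [NeZero ℓ] (ζ : kˣ)
    (f : LaurentSeries k) :
    H39.dl (qExpand k ℓ f) = ℓ * qExpand k ℓ (H39.dl f) ∧
      H39.dl (H60.twist ζ f) = H60.twist ζ (H39.dl f) :=
  ⟨H39.dl_qExpand ℓ f, H39.dl_twist ζ f⟩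

/-- **The relation for the reduction, multiplicative form.**  Let `div u = p D`, `T_ℓ [D] = a [D]`, and
let `g ≠ 0` be the reduction of `u` (`H38.Mz.Red`: reduction of the Laurent series).  Then
`T_ℓ g = g^a w^p` for some series `w`.  Proof: `T_ℓ u` and `u^a` differ by the `p`-th power of a
function with divisor `T_ℓ D - a D`; take reductions.  (File `H39Hecke`; `p` may divide `N`.) -/
theorem normSeries_reduction {A : ValuationSubring Qb} {k : Type*} [Field k] {π : A →+* k}
    [IsLocalHom π] {N p : ℕ} [NeZero N] (hp : p ≠ 0) {ℓ : ℕ} [NeZero ℓ] (hℓ : ℓ.Prime)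
    (hℓN : ¬ ℓ ∣ N) {a : ℤ} {D : Divisor.degZero (K := Qb) (F := modularFunctionFieldBar N)}
    {u : modularFunctionFieldBar N} (hu : u ≠ 0)
    (hord : ∀ v : Place Qb (modularFunctionFieldBar N),
      v.ord u = (p : ℤ) * (D : Divisor Qb (modularFunctionFieldBar N)) v)
    (hT : heckeOperatorBar N ⟨ℓ, hℓ⟩ (Pic0.mk D) =
      a • (Pic0.mk D : Pic0 Qb (modularFunctionFieldBar N)))
    {g : LaurentSeries k} (hg : g ≠ 0) (hred : H38.Mz.Red A π (u : LaurentSeries Qb) g) :
    ∃ (ζ : kˣ) (w : LaurentSeries k), ζ ^ ℓ = 1 ∧ w ≠ 0 ∧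
      qExpand k ℓ (qExpand k ℓ g) * ∏ i ∈ Finset.range ℓ, H60.twist (ζ ^ i) g =
        qExpand k ℓ (g ^ a * w ^ p) :=
  H39.exists_normSeries_red hp hℓ hℓN hu hord hT hg hred

/-- **Additive form**: in characteristic `p` the logarithmic derivative kills `w^p`, and the relation
becomes `c(ℓ n) + ℓ c(n/ℓ) = a c(n)` for the coefficients `c` of `dlog g`.  (File `H39Hecke`.) -/
theorem hecke_relation_dl {k : Type*} [Field k] {p : ℕ} [CharP k p] {ℓ : ℕ} [NeZero ℓ]
    (hℓk : (ℓ : k) ≠ 0) {ζ : kˣ} (hζ : ζ ^ ℓ = 1) {g w : LaurentSeries k} (hg : g ≠ 0)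
    (hw : w ≠ 0) {a : ℤ}
    (h : qExpand k ℓ (qExpand k ℓ g) * ∏ i ∈ Finset.range ℓ, H60.twist (ζ ^ i) g =
      qExpand k ℓ (g ^ a * w ^ p)) (n : ℤ) :
    (H39.dl g).coeff (ℓ * n) + (if (ℓ : ℤ) ∣ n then (ℓ : k) * (H39.dl g).coeff (n / ℓ) else 0) =
      a * (H39.dl g).coeff n :=
  H39.coeff_dl_normSeries hℓk hζ hg hw h n

/-! ## 5. The kernel of `θ` -/

/-- **A function killed by `θ` is a `p`-th power**, in a function field `F` in `k((q))` over a perfect
field of characteristic `p`, finite over `k(j)`, with `θ j ≠ 0`.  Proof: `F` has degree `p` over the field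
of `p`-th powers, the kernel of `θ` is an intermediate field and is not `F`.  (File `H39Core`.) -/
theorem exists_pow_of_theta_eq_zero {k : Type*} [Field k]
    (F : IntermediateField k (LaurentSeries k)) [PerfectField k] (p : ℕ) [Fact p.Prime]
    [CharP k p] {j : F} (hj : Transcendental k j)
    [FiniteDimensional (IntermediateField.adjoin k {j}) F]
    (hθ : H61.theta (j : LaurentSeries k) ≠ 0) {g : F} (hg : H61.theta (g : LaurentSeries k) = 0) :
    ∃ h : F, h ^ p = g :=
  H39.exists_pow_of_theta_eq_zero F p hj hθ hg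

/-! ## 6. The Eisenstein part and the end

`H39.e2Z n` are the coefficients of `E₂ = 1 - 24 Σ σ(n) q^n`, `heckeCoeffTwo N ℓ c n` is
`c(n ℓ) + ℓ c(n/ℓ)` for `ℓ ∤ N`. -/

/-- `Δ^(p-1)` is a function on `X₀(M)` in characteristic `p`, for every `M` prime to `p`: it is the
reduction of the modular unit `Δ(pτ)/Δ(τ)` of level `M p`.  Its logarithmic derivative is `- E₂`.
(File `H39Core`.) -/
theorem delta_pow_mem {p : ℕ} [Fact p.Prime] {A : ValuationSubring Qb} (hA : A.LiesOverPrime p)
    (M : ℕ) [NeZero M] (hpM : ¬ p ∣ M) [CharP (IsLocalRing.ResidueField A) p] :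
    H28.deltaL (IsLocalRing.ResidueField A) ^ (p - 1) ∈
        modularFunctionFieldFullC (IsLocalRing.ResidueField A) M ∧
      ∀ n : ℕ, (H39.dl (H28.deltaL (IsLocalRing.ResidueField A) ^ (p - 1))).coeff (n : ℤ) =
        -(H39.e2Z n : IsLocalRing.ResidueField A) :=
  ⟨H39.ubar_mem hA M hpM, fun n => by
    rw [H39.dl_ubar, HahnSeries.coeff_neg, H39.coeff_E2L]⟩

/-- Eisenstein series are eigenvectors with eigenvalue `1 + ℓ`.  (File `H39Forms`.) -/
theorem hecke_eisenstein {N ℓ : ℕ} (hℓ : ℓ.Prime) (hN : ¬ ℓ ∣ N) (n : ℕ) :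
    H49.heckeCoeffTwo N ℓ H39.e2Z n = (1 + ℓ) * H39.e2Z n ∧
      ∀ d : ℕ, d ∣ N → d ≠ 0 → H49.heckeCoeffTwo N ℓ (H39.eisZ d) n = (1 + ℓ) * H39.eisZ d n :=
  ⟨H39.hecke_e2Z hℓ hN n, fun _ hd hd0 => H39.hecke_eisZ hℓ hN hd hd0 n⟩

/-- `T_ℓ - 1 - ℓ` maps the forms in `S₂ ⊕ Eis` to cusp forms, and preserves integrality.
(File `H39Forms`.) -/
theorem hecke_sub_mem_cusp (N : ℕ) [NeZero N] {ℓ : ℕ} (hℓ : ℓ.Prime) (hℓN : ¬ ℓ ∣ N)
    {c : ℕ → ℤ} (hc : (fun n => (c n : ℂ)) ∈ H39.V2 N) :
    ∃ f : CuspForm (Gamma0 N) 2, ∀ n, ModularFormClass.qCoeff f n =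
      ((H49.heckeCoeffTwo N ℓ c n - (1 + ℓ) * c n : ℤ) : ℂ) :=
  (H39.mem_S2 N).1 (H39.hecke_mem_S2 N hℓ hℓN (c := c) hc)

/-- **From a cusp form modulo `p` to residual modularity.**  Let `k` be any field of characteristic `p`
and `a = Σ μ_i s_i ≠ 0` a `k`-combination of sequences of coefficients of cusp forms with integral
coefficients, with `T_ℓ a = a_ℓ(W) a` for the good primes.  Then `W` is residually modular of level `N`.
Proof: apply a linear form `k → ZMod p`; then the lemma of Deligne and Serre.  (File `H39End`.) -/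
theorem modular_of_mod_p_form {W : WeierstrassCurve ℤ} {p N : ℕ} [NeZero N] [Fact p.Prime]
    {k : Type*} [Field k] [CharP k p] {r : ℕ} (s : Fin r → ℕ → ℤ)
    (hs : ∀ i, ∃ f : CuspForm (Gamma0 N) 2, ∀ n, ModularFormClass.qCoeff f n = (s i n : ℂ))
    (μ : Fin r → k) (a : ℕ → k) (ha : ∀ n, a n = ∑ i, μ i * (s i n : k)) (hne : ∃ n, a n ≠ 0)
    (hT : ∀ ℓ : ℕ, ℓ.Prime → W.IsGoodPrimeFor ℓ → ¬ ℓ ∣ N → ℓ ≠ p →
      ∀ n, H49.heckeCoeffTwo N ℓ a n = (W.apOfModel ℓ : k) * a n) :
    W.IsResiduallyModularOfLevel p N :=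
  H39.isResiduallyModularOfLevel_of_field s (fun i => (H39.mem_S2 N).2 (hs i)) μ a ha hne hT

/-- **With an Eisenstein part.**  `f ≠ 0` is a sequence in a field of characteristic `p` with
`T_ℓ f = a_ℓ(W) f` for the good primes, such that `A f + B E₂`, `A ≠ 0`, is a combination of reductions of
integral forms in `S₂ ⊕ Eis`, and `a_ℓ(W) ≠ ℓ + 1` in `k` for some good `ℓ`.  Then `W` is residually modular
of level `N`.  Proof: apply `T_ℓ - 1 - ℓ` for this `ℓ`: it kills `E₂`, maps the right side to cusp forms,
and multiplies `f` by a nonzero number.  For `f = dlog g` and `B = 0` or with the factor `Δ^(p-1)` this is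
the end of the proof of S44.  (File `H39End`.) -/
theorem modular_of_eigen_mod_eisenstein {W : WeierstrassCurve ℤ} {p N : ℕ} [NeZero N]
    [Fact p.Prime] {k : Type*} [Field k] [CharP k p] {r : ℕ} (b : Fin r → ℕ → ℤ)
    (hb : ∀ i, (fun n => (b i n : ℂ)) ∈ H39.V2 N) (lam : Fin r → k) (f : ℕ → k) (A B : k)
    (hA : A ≠ 0) (hf : ∀ n, A * f n + B * (H39.e2Z n : k) = ∑ i, lam i * (b i n : k))
    (hne : ∃ n, f n ≠ 0)
    (hT : ∀ ℓ : ℕ, ℓ.Prime → W.IsGoodPrimeFor ℓ → ¬ ℓ ∣ N → ℓ ≠ p →
      ∀ n, H49.heckeCoeffTwo N ℓ f n = (W.apOfModel ℓ : k) * f n)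
    (hE : ∃ ℓ : ℕ, ℓ.Prime ∧ W.IsGoodPrimeFor ℓ ∧ ¬ ℓ ∣ N ∧ ℓ ≠ p ∧
      (W.apOfModel ℓ : k) ≠ (ℓ : k) + 1) :
    W.IsResiduallyModularOfLevel p N :=
  H39.isResiduallyModularOfLevel_of_V2 b hb lam f A B hA hf hne hT hE

/-- **From an integral form which is an eigenform modulo `p`.**  `c` are the coefficients of a cusp form,
integral and not all divisible by `p`, with `T_ℓ c ≡ a_ℓ(W) c` modulo `p`.  Then `W` is residually modular
of level `N`: the lemma of Deligne and Serre for the Hecke algebra acting on the lattice of integral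
forms.  (File `H39Conv`; this theorem is used in the proofs of S04, S06, S38-S40, S46, S50, S59, S60,
too.) -/
theorem modular_of_integral_form {W : WeierstrassCurve ℤ} {p N : ℕ} [NeZero N] (hp : p.Prime)
    (f₀ : CuspForm (Gamma0 N) 2) (c : ℕ → ℤ)
    (hc : ∀ n, ModularFormClass.qCoeff f₀ n = (c n : ℂ)) (hne : ∃ n, ¬ (p : ℤ) ∣ c n)
    (hT : ∀ ℓ : ℕ, ℓ.Prime → W.IsGoodPrimeFor ℓ → ¬ ℓ ∣ N → ℓ ≠ p →
      ∀ n, (p : ℤ) ∣ H49.heckeCoeffTwo N ℓ c n - W.apOfModel ℓ * c n) :
    W.IsResiduallyModularOfLevel p N :=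
  H39.isResiduallyModularOfLevel_of_form hp f₀ c hc hne hT

end Fermat.Agent.Guide.Dlog
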