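/-
H62New: characteristic polynomials, at bad primes, of any Galois representation attached to a Hecke
eigenvector of a Hecke-Galois lattice (statements (E34), (E35), (E36) for eigenvectors in the new part).
-/
import Mathlib
import Fermat.Agent.H35VFinal

set_option autoImplicit false
set_option linter.style.haveILetI false
set_option linter.unusedSectionVars false

noncomputable section

open IsLocalRing Module TensorProduct Polynomial Fermat.Agent.H35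

namespace Fermat.Agent.H62

section Density

variable {p : ℕ} [Fact p.Prime]

/-- `ρ` has characteristic polynomial `X² - a ℓ X + ℓ` at all Frobenius elements outside `S`. -/
def IsAttached {𝒪' 𝒪'' : Type} [CommRing 𝒪'] [CommRing 𝒪''] [IsLocalRing 𝒪''] [Algebra 𝒪' 𝒪'']
    (S : Finset ℕ) (a : ℕ → 𝒪') (ρ : GaloisRepAdic 𝒪'') : Prop :=
  ∀ ℓ : ℕ, ℓ.Prime → ℓ ∉ S → ∀ A : ValuationSubring (AlgebraicClosure ℚ), A.LiesOverPrime ℓ →
    ∀ φ : H53.GQ, A.IsFrobeniusAt φ ℓ →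
      LinearMap.charpoly (ρ.ρ φ) = X ^ 2 - C (algebraMap 𝒪' 𝒪'' (a ℓ)) * X + C ((ℓ : 𝒪''))

theorem algebraMap_mem_pow {𝒪' 𝒪'' : Type*} [CommRing 𝒪'] [IsLocalRing 𝒪'] [CommRing 𝒪'']
    [IsLocalRing 𝒪''] [Algebra 𝒪' 𝒪''] [IsLocalHom (algebraMap 𝒪' 𝒪'')] {n : ℕ} {x : 𝒪'}
    (hx : x ∈ maximalIdeal 𝒪' ^ n) : algebraMap 𝒪' 𝒪'' x ∈ maximalIdeal 𝒪'' ^ n := by
  have h1 : (maximalIdeal 𝒪').map (algebraMap 𝒪' 𝒪'') ≤ maximalIdeal 𝒪'' := by
    rw [Ideal.map_le_iff_le_comap]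
    intro y hy
    rw [Ideal.mem_comap]
    exact map_nonunit (algebraMap 𝒪' 𝒪'') y hy
  have h2 := Ideal.mem_map_of_mem (algebraMap 𝒪' 𝒪'') hx
  rw [Ideal.map_pow] at h2
  exact Ideal.pow_right_mono h1 n h2

/-- **Uniqueness of the attached representation**: the characteristic polynomials of any
representation attached to the Frobenius traces `a` are given by the quadratic relations on a
lattice `W` satisfying the Eichler–Shimura relations for `a`. -/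
theorem charpoly_of_quadratic {S : Finset ℕ} (hpS : p ∈ S)
    (𝒪' : Type) [CommRing 𝒪'] [IsDomain 𝒪'] [IsDiscreteValuationRing 𝒪']
    [IsAdicComplete (IsLocalRing.maximalIdeal 𝒪') 𝒪']
    (hp𝒪' : (p : 𝒪') ∈ IsLocalRing.maximalIdeal 𝒪')
    {W : Type*} [AddCommGroup W] [Module 𝒪' W] [Module.Free 𝒪' W] [Module.Finite 𝒪' W]
    [Nontrivial W] (ρW : H53.GQ →* Module.End 𝒪' W)
    (hcont : ∀ n : ℕ, ∃ L : IntermediateField ℚ (AlgebraicClosure ℚ), FiniteDimensional ℚ L ∧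
      ∀ σ : H53.GQ, (∀ x ∈ L, σ x = x) →
        ∀ w : W, ρW σ w - w ∈ maximalIdeal 𝒪' ^ n • (⊤ : Submodule 𝒪' W))
    (a : ℕ → 𝒪')
    (hfrob : ∀ ℓ : ℕ, ℓ.Prime → ℓ ∉ S → ∀ A : ValuationSubring (AlgebraicClosure ℚ),
      A.LiesOverPrime ℓ → ∀ φ : H53.GQ, A.IsFrobeniusAt φ ℓ →
        ∀ w : W, ρW φ (ρW φ w) - a ℓ • ρW φ w + (ℓ : 𝒪') • w = 0)
    {𝒪'' : Type} [CommRing 𝒪''] [IsLocalRing 𝒪''] [IsHausdorff (maximalIdeal 𝒪'') 𝒪'']
    [Algebra 𝒪' 𝒪''] [IsLocalHom (algebraMap 𝒪' 𝒪'')]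
    (ρ : GaloisRepAdic 𝒪'') (hρ : IsAttached S a ρ)
    (g : H53.GQ) (t : 𝒪')
    (ht : ∀ w : W, ρW g (ρW g w) - t • ρW g w + cyc 𝒪' hp𝒪' g • w = 0) :
    LinearMap.charpoly (ρ.ρ g) = X ^ 2 - C (algebraMap 𝒪' 𝒪'' t) * X
      + C (algebraMap 𝒪' 𝒪'' (cyc 𝒪' hp𝒪' g)) := by
  classical
  have key : ∀ n : ℕ, LinearMap.trace 𝒪'' ρ.V (ρ.ρ g) - algebraMap 𝒪' 𝒪'' t ∈ maximalIdeal 𝒪'' ^ n ∧
      LinearMap.det (ρ.ρ g) - algebraMap 𝒪' 𝒪'' (cyc 𝒪' hp𝒪' g) ∈ maximalIdeal 𝒪'' ^ n := by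
    intro n
    obtain ⟨L₁, hL₁, hL₁'⟩ := hcont n
    obtain ⟨L₂, hL₂, hL₂'⟩ := cyc_charCont 𝒪' hp𝒪' n
    obtain ⟨L₃, hL₃, hL₃'⟩ := ρ.isAdicContinuous n
    haveI : FiniteDimensional ℚ (L₁ ⊔ L₂ : IntermediateField ℚ (AlgebraicClosure ℚ)) :=
      IntermediateField.finiteDimensional_sup L₁ L₂
    haveI : FiniteDimensional ℚ (L₁ ⊔ L₂ ⊔ L₃ : IntermediateField ℚ (AlgebraicClosure ℚ)) :=
      IntermediateField.finiteDimensional_sup (L₁ ⊔ L₂) L₃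
    obtain ⟨ℓ, hℓ, hℓS, A, hA, φ, hφ, j, -, hgj, -⟩ :=
      H86.frobenius_density H86.frobDensityFinite (L₁ ⊔ L₂ ⊔ L₃) g S
    have hℓp : ℓ ≠ p := by rintro rfl; exact hℓS hpS
    have hrel := hfrob ℓ hℓ hℓS A hA φ hφ
    have hle₁ : L₁ ≤ L₁ ⊔ L₂ ⊔ L₃ := le_sup_left.trans le_sup_left
    have hle₂ : L₂ ≤ L₁ ⊔ L₂ ⊔ L₃ := le_sup_right.trans le_sup_left
    have hle₃ : L₃ ≤ L₁ ⊔ L₂ ⊔ L₃ := le_sup_right
    set τ : H53.GQ := (φ ^ j)⁻¹ * g with hτ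
    have hg : g = φ ^ j * τ := by rw [hτ]; group
    have hτfix : ∀ x ∈ L₁ ⊔ L₂ ⊔ L₃, τ x = x := by
      intro x hx
      rw [hτ, AlgEquiv.mul_apply, hgj x hx]
      exact (φ ^ j).symm_apply_apply x
    have hτfix' : ∀ x ∈ L₁ ⊔ L₂ ⊔ L₃, τ⁻¹ x = x := by
      intro x hx
      conv_lhs => rw [← hτfix x hx]
      exact τ.symm_apply_apply x
    set I := maximalIdeal 𝒪' ^ n with hI
    have hend : ∀ (f : Module.End 𝒪' W) {w : W}, w ∈ I • (⊤ : Submodule 𝒪' W) →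
        f w ∈ I • (⊤ : Submodule 𝒪' W) := by
      intro f w hw
      have h1 : f w ∈ (I • (⊤ : Submodule 𝒪' W)).map f := Submodule.mem_map_of_mem hw
      rw [Submodule.map_smul''] at h1
      exact Submodule.smul_mono le_rfl le_top h1
    -- the cyclotomic character
    have hc : cyc 𝒪' hp𝒪' g - cyc 𝒪' hp𝒪' (φ ^ j) ∈ I := by
      have h1 := hL₂' τ (fun x hx => hτfix x (hle₂ hx))
      rw [hg, map_mul]
      have h2 : cyc 𝒪' hp𝒪' (φ ^ j) * cyc 𝒪' hp𝒪' τ - cyc 𝒪' hp𝒪' (φ ^ j)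
          = cyc 𝒪' hp𝒪' (φ ^ j) * (cyc 𝒪' hp𝒪' τ - 1) := by ring
      rw [h2]
      exact Ideal.mul_mem_left _ _ h1
    have hcφ : cyc 𝒪' hp𝒪' (φ ^ j) = (ℓ : 𝒪') ^ j := by
      rw [map_pow, cyc_frobenius 𝒪' hp𝒪' hℓ hℓp hA hφ]
    -- the relation for `φ ^ j`
    have h4 := H31.quadratic_pow (R := 𝒪') (E := Module.End 𝒪' W) (a ℓ) (ℓ : 𝒪') (ρW φ) (by
      refine LinearMap.ext fun w => ?_
      simp only [LinearMap.add_apply, LinearMap.sub_apply, Module.End.mul_apply,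
        Module.algebraMap_end_apply, LinearMap.zero_apply]
      exact hrel w) j
    have h5 : ∀ w : W, ρW (φ ^ j) (ρW (φ ^ j) w) - H31.luc (a ℓ) (ℓ : 𝒪') j • ρW (φ ^ j) w
        + (ℓ : 𝒪') ^ j • w = 0 := by
      intro w
      have := LinearMap.congr_fun h4 w
      rw [← map_pow ρW] at this
      simp only [LinearMap.add_apply, LinearMap.sub_apply, Module.End.mul_apply,
        Module.algebraMap_end_apply, LinearMap.zero_apply] at this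
      exact this
    have hinv : ∀ (σ : H53.GQ) (w : W), ρW σ (ρW σ⁻¹ w) = w := by
      intro σ w
      rw [← Module.End.mul_apply, ← map_mul, mul_inv_cancel, map_one, Module.End.one_apply]
    -- scalars
    have h6 : ∀ w : W, ρW g w + cyc 𝒪' hp𝒪' g • ρW g⁻¹ w = t • w := by
      intro w
      have := ht (ρW g⁻¹ w)
      rw [hinv] at this
      linear_combination (norm := module) this
    have h7 : ∀ w : W, ρW (φ ^ j) w + cyc 𝒪' hp𝒪' (φ ^ j) • ρW (φ ^ j)⁻¹ w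
        = H31.luc (a ℓ) (ℓ : 𝒪') j • w := by
      intro w
      have := h5 (ρW (φ ^ j)⁻¹ w)
      rw [hinv] at this
      rw [hcφ]
      linear_combination (norm := module) this
    have h8 : ∀ w : W, (t - H31.luc (a ℓ) (ℓ : 𝒪') j) • w ∈ I • (⊤ : Submodule 𝒪' W) := by
      intro w
      have e1 : ρW g w - ρW (φ ^ j) w ∈ I • (⊤ : Submodule 𝒪' W) := by
        have : ρW g w - ρW (φ ^ j) w = ρW (φ ^ j) (ρW τ w - w) := by
          conv_lhs => rw [hg]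
          rw [map_mul, Module.End.mul_apply, map_sub]
        rw [this]
        exact hend _ (hL₁' τ (fun x hx => hτfix x (hle₁ hx)) w)
      have e2 : ρW g⁻¹ w - ρW (φ ^ j)⁻¹ w ∈ I • (⊤ : Submodule 𝒪' W) := by
        have : ρW g⁻¹ w - ρW (φ ^ j)⁻¹ w = ρW τ⁻¹ (ρW (φ ^ j)⁻¹ w) - ρW (φ ^ j)⁻¹ w := by
          conv_lhs => rw [hg]
          rw [_root_.mul_inv_rev, map_mul, Module.End.mul_apply]
        rw [this]
        exact hL₁' τ⁻¹ (fun x hx => hτfix' x (hle₁ hx)) _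
      have e3 : (t - H31.luc (a ℓ) (ℓ : 𝒪') j) • w = (ρW g w - ρW (φ ^ j) w)
          + cyc 𝒪' hp𝒪' g • (ρW g⁻¹ w - ρW (φ ^ j)⁻¹ w)
          + (cyc 𝒪' hp𝒪' g - cyc 𝒪' hp𝒪' (φ ^ j)) • ρW (φ ^ j)⁻¹ w := by
        rw [sub_smul, ← h6, ← h7]
        module
      rw [e3]
      exact add_mem (add_mem e1 (Submodule.smul_mem _ _ e2))
        (Submodule.smul_mem_smul hc Submodule.mem_top)
    have h9 : t - H31.luc (a ℓ) (ℓ : 𝒪') j ∈ I := by
      let b := Module.finBasis 𝒪' W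
      have hr : 0 < finrank 𝒪' W := Module.finrank_pos
      have h1 := H86.repr_mem_of_mem_smul b I (h8 (b ⟨0, hr⟩)) ⟨0, hr⟩
      rw [map_smul, Finsupp.smul_apply, Module.Basis.repr_self, Finsupp.single_eq_same,
        smul_eq_mul, mul_one] at h1
      exact h1
    have hv : ∀ v : ρ.V, ρ.ρ g v - ρ.ρ (φ ^ j) v ∈
        maximalIdeal 𝒪'' ^ n • (⊤ : Submodule 𝒪'' ρ.V) :=
      H86.rep_sub_mem ρ hL₃' (fun x hx => hgj x (hle₃ hx))
    have hchar := hρ ℓ hℓ hℓS A hA φ hφ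
    constructor
    · have e1 := H86.trace_sub_mem _ _ _ hv
      have e2 := algebraMap_mem_pow (𝒪'' := 𝒪'') h9
      rw [map_sub, H31.map_luc, map_natCast] at e2
      have e3 := H31.trace_pow_of_charpoly ρ.finrank_eq (ρ.ρ φ) _ _ hchar j
      rw [← map_pow] at e3
      rw [e3] at e1
      have := Ideal.sub_mem _ e1 e2
      rwa [sub_sub_sub_cancel_right] at this
    · have e1 := H86.det_sub_mem _ _ _ hv
      have e2 := algebraMap_mem_pow (𝒪'' := 𝒪'') hc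
      rw [hcφ, map_sub, map_pow, map_natCast] at e2
      have e3 := H31.det_eq_of_charpoly ρ.finrank_eq (ρ.ρ φ) _ _ hchar
      rw [map_pow, map_pow, e3] at e1
      have := Ideal.sub_mem _ e1 e2
      rwa [sub_sub_sub_cancel_right] at this
  have h1 : LinearMap.trace 𝒪'' ρ.V (ρ.ρ g) = algebraMap 𝒪' 𝒪'' t := by
    rw [← sub_eq_zero]
    exact H86.eq_zero_of_forall_mem_pow fun n => (key n).1
  have h2 : LinearMap.det (ρ.ρ g) = algebraMap 𝒪' 𝒪'' (cyc 𝒪' hp𝒪' g) := by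
    rw [← sub_eq_zero]
    exact H86.eq_zero_of_forall_mem_pow fun n => (key n).2
  rw [H86.charpoly_eq_of_finrank_two ρ.finrank_eq, h1, h2]

/-- Version of `charpoly_of_quadratic` for submodules. -/
theorem charpoly_of_quadratic_sub {S : Finset ℕ} (hpS : p ∈ S)
    (𝒪' : Type) [CommRing 𝒪'] [IsDomain 𝒪'] [IsDiscreteValuationRing 𝒪']
    [IsAdicComplete (IsLocalRing.maximalIdeal 𝒪') 𝒪']
    (hp𝒪' : (p : 𝒪') ∈ IsLocalRing.maximalIdeal 𝒪')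
    {V : Type*} [AddCommGroup V] [Module 𝒪' V] [Module.Free 𝒪' V] [Module.Finite 𝒪' V]
    (W : Submodule 𝒪' V) (hW : W ≠ ⊥) (ρW : H53.GQ →* Module.End 𝒪' W)
    (hcont : ∀ n : ℕ, ∃ L : IntermediateField ℚ (AlgebraicClosure ℚ), FiniteDimensional ℚ L ∧
      ∀ σ : H53.GQ, (∀ x ∈ L, σ x = x) →
        ∀ w : W, ρW σ w - w ∈ maximalIdeal 𝒪' ^ n • (⊤ : Submodule 𝒪' W))
    (a : ℕ → 𝒪')
    (hfrob : ∀ ℓ : ℕ, ℓ.Prime → ℓ ∉ S → ∀ A : ValuationSubring (AlgebraicClosure ℚ),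
      A.LiesOverPrime ℓ → ∀ φ : H53.GQ, A.IsFrobeniusAt φ ℓ →
        ∀ w : W, ρW φ (ρW φ w) - a ℓ • ρW φ w + (ℓ : 𝒪') • w = 0)
    {𝒪'' : Type} [CommRing 𝒪''] [IsLocalRing 𝒪''] [IsHausdorff (maximalIdeal 𝒪'') 𝒪'']
    [Algebra 𝒪' 𝒪''] [IsLocalHom (algebraMap 𝒪' 𝒪'')]
    (ρ : GaloisRepAdic 𝒪'') (hρ : IsAttached S a ρ)
    (g : H53.GQ) (t : 𝒪')
    (ht : ∀ w : W, ρW g (ρW g w) - t • ρW g w + cyc 𝒪' hp𝒪' g • w = 0) :
    LinearMap.charpoly (ρ.ρ g) = X ^ 2 - C (algebraMap 𝒪' 𝒪'' t) * X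
      + C (algebraMap 𝒪' 𝒪'' (cyc 𝒪' hp𝒪' g)) := by
  haveI : Nontrivial W := Submodule.nontrivial_iff_ne_bot.mpr hW
  haveI : Module.Free 𝒪' W := inferInstance
  haveI : Module.Finite 𝒪' W := inferInstance
  exact charpoly_of_quadratic (W := W) hpS 𝒪' hp𝒪' ρW hcont a hfrob ρ hρ g t ht

end Density

/-! ### The eigenlattice -/

section Unique

variable {p : ℕ} [Fact p.Prime] {𝒪' : Type*} [CommRing 𝒪'] [IsDomain 𝒪'] [Algebra ℤ_[p] 𝒪']
    {T : Type*} [AddCommGroup T] [Module ℤ_[p] T] [Module.Free ℤ_[p] T]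
    {G : Type*} [Group G] (ρT : G →* Module.End ℤ_[p] T)

omit [IsDomain 𝒪'] [Module.Free ℤ_[p] T] in
theorem baseChange_rho_inj (g : G) {u : 𝒪' ⊗[ℤ_[p]] T} (hu : (ρT g).baseChange 𝒪' u = 0) :
    u = 0 := by
  have h1 : (ρT g⁻¹ ∘ₗ ρT g).baseChange 𝒪' u = u := by
    have h2 : ρT g⁻¹ ∘ₗ ρT g = LinearMap.id := by
      change ρT g⁻¹ * ρT g = 1
      rw [← map_mul, inv_mul_cancel, map_one]
    rw [h2, LinearMap.baseChange_id, LinearMap.id_apply]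
  rw [LinearMap.baseChange_comp, LinearMap.comp_apply, hu, map_zero] at h1
  exact h1.symm

/-- two quadratic relations on a nonzero vector of `𝒪' ⊗ T` have the same trace -/
theorem trace_unique {g : G} {v : 𝒪' ⊗[ℤ_[p]] T} (hv0 : v ≠ 0) {t t' c : 𝒪'}
    (h : (ρT g).baseChange 𝒪' ((ρT g).baseChange 𝒪' v) - t • (ρT g).baseChange 𝒪' v + c • v = 0)
    (h' : (ρT g).baseChange 𝒪' ((ρT g).baseChange 𝒪' v) - t' • (ρT g).baseChange 𝒪' v
      + c • v = 0) : t = t' := by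
  by_contra hne
  have h1 : (t' - t) • (ρT g).baseChange 𝒪' v = 0 := by
    linear_combination (norm := module) h - h'
  have h2 : (ρT g).baseChange 𝒪' v = 0 :=
    smul_cancel (sub_ne_zero.mpr (Ne.symm hne)) (by rw [h1, smul_zero])
  exact hv0 (baseChange_rho_inj ρT g h2)

/-- relations valid on the kernel of `F` are valid for vectors of `O ⊗ T` killed by `F`. -/
theorem baseChange_eq_zero_of_ker {Z O : Type*} [CommRing Z] [IsDomain Z] [IsPrincipalIdealRing Z]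
    [CommRing O] [IsDomain O] [Algebra Z O] (hinj : Function.Injective (algebraMap Z O))
    {T T₁ T₂ : Type*} [AddCommGroup T] [Module Z T] [AddCommGroup T₁] [Module Z T₁]
    [Module.Free Z T₁] [AddCommGroup T₂] [Module Z T₂] (F : T →ₗ[Z] T₁) (R : T →ₗ[Z] T₂)
    (h : ∀ x, F x = 0 → R x = 0) {v : O ⊗[Z] T} (hv : F.baseChange O v = 0) :
    R.baseChange O v = 0 := by
  obtain ⟨n, e, x, he, hvx⟩ := exists_split hinj v
  exact baseChange_eq_zero_of_split hvx R fun k => h _ (apply_eq_zero_of_split he hvx F hv k)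

theorem baseChange_prod_eq_zero {Z O : Type*} [CommRing Z] [CommRing O] [Algebra Z O]
    {T T₁ T₂ : Type*} [AddCommGroup T] [Module Z T] [AddCommGroup T₁] [Module Z T₁]
    [AddCommGroup T₂] [Module Z T₂] {f : T →ₗ[Z] T₁} {g : T →ₗ[Z] T₂} {v : O ⊗[Z] T}
    (hf : f.baseChange O v = 0) (hg : g.baseChange O v = 0) :
    (f.prod g).baseChange O v = 0 := by
  have h1 : (f.prod g) = LinearMap.inl Z T₁ T₂ ∘ₗ f + LinearMap.inr Z T₁ T₂ ∘ₗ g := by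
    ext x <;> simp
  rw [h1, LinearMap.baseChange_add, LinearMap.add_apply, LinearMap.baseChange_comp,
    LinearMap.baseChange_comp, LinearMap.comp_apply, LinearMap.comp_apply, hf, hg, map_zero,
    map_zero, add_zero]

end Unique

section Lattice

variable {p : ℕ} [Fact p.Prime] {S : Finset ℕ} (hpS : p ∈ S)
    (𝒪' : Type) [CommRing 𝒪'] [IsDomain 𝒪'] [IsDiscreteValuationRing 𝒪']
    [IsAdicComplete (IsLocalRing.maximalIdeal 𝒪') 𝒪'] [Finite (IsLocalRing.ResidueField 𝒪')]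
    [CharZero 𝒪'] [Algebra ℤ_[p] 𝒪'] (hp𝒪' : (p : 𝒪') ∈ IsLocalRing.maximalIdeal 𝒪')
    {Λ : Type*} [CommRing Λ] (χ : Λ →+* 𝒪') (tl : ℕ → Λ)
    {T : Type*} [AddCommGroup T] [Module ℤ_[p] T] [Module.Free ℤ_[p] T] [Module.Finite ℤ_[p] T]
    (ρT : H53.GQ →* Module.End ℤ_[p] T) (act : Λ →+* Module.End ℤ_[p] T)
    (hcont : ∀ n : ℕ, ∃ L : IntermediateField ℚ (AlgebraicClosure ℚ), FiniteDimensional ℚ L ∧
      ∀ σ : H53.GQ, (∀ x ∈ L, σ x = x) → ∀ x : T, ∃ y : T, ρT σ x - x = (p : ℤ_[p]) ^ n • y)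
    (hcomm : ∀ P σ, Commute (act P) (ρT σ))
    (hfrob : ∀ ℓ : ℕ, ℓ.Prime → ℓ ∉ S → ∀ A : ValuationSubring (AlgebraicClosure ℚ),
      A.LiesOverPrime ℓ → ∀ φ : H53.GQ, A.IsFrobeniusAt φ ℓ →
        ∀ x : T, ρT φ (ρT φ x) - act (tl ℓ) (ρT φ x) + ℓ • x = 0)

include hp𝒪' in
theorem galChi_cont (hcont : ∀ n : ℕ, ∃ L : IntermediateField ℚ (AlgebraicClosure ℚ),
      FiniteDimensional ℚ L ∧
      ∀ σ : H53.GQ, (∀ x ∈ L, σ x = x) → ∀ x : T, ∃ y : T, ρT σ x - x = (p : ℤ_[p]) ^ n • y)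
    (hcomm : ∀ P σ, Commute (act P) (ρT σ)) (n : ℕ) :
    ∃ L : IntermediateField ℚ (AlgebraicClosure ℚ), FiniteDimensional ℚ L ∧
      ∀ σ : H53.GQ, (∀ x ∈ L, σ x = x) →
        ∀ w : chiSub act χ, galChi act χ ρT hcomm σ w - w ∈
          maximalIdeal 𝒪' ^ n • (⊤ : Submodule 𝒪' (chiSub act χ)) := by
  obtain ⟨L, hL, hL'⟩ := hcont n
  refine ⟨L, hL, fun σ hσ w => ?_⟩
  refine mem_pow_smul_top_of_chiSub _ _ n _ ?_
  rw [Submodule.coe_sub, coe_galChi]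
  obtain ⟨U, hU⟩ := TensorProduct.exists_finset (w : 𝒪' ⊗[ℤ_[p]] T)
  have key : ∀ i : 𝒪' × T, (ρT σ).baseChange 𝒪' (i.1 ⊗ₜ i.2) - i.1 ⊗ₜ i.2
      ∈ maximalIdeal 𝒪' ^ n • (⊤ : Submodule 𝒪' (𝒪' ⊗[ℤ_[p]] T)) := by
    intro i
    obtain ⟨y, hy⟩ := hL' σ hσ i.2
    rw [LinearMap.baseChange_tmul, ← TensorProduct.tmul_sub, hy]
    have h1 : i.1 ⊗ₜ[ℤ_[p]] ((p : ℤ_[p]) ^ n • y) = (p : 𝒪') ^ n • (i.1 ⊗ₜ[ℤ_[p]] y) := by
      rw [← TensorProduct.smul_tmul, TensorProduct.smul_tmul', Algebra.smul_def, map_pow,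
        map_natCast, smul_eq_mul]
    rw [h1]
    exact Submodule.smul_mem_smul (Ideal.pow_mem_pow hp𝒪' n) Submodule.mem_top
  rw [hU, map_sum, ← Finset.sum_sub_distrib]
  exact Submodule.sum_mem _ fun i _ => key i

/-- a quadratic relation on `T` gives one on the base change -/
theorem baseChange_quadratic (s t : Module.End ℤ_[p] T) (q : ℕ) (r : 𝒪')
    (h : ∀ x : T, s (s x) - t (s x) + q • x = 0) {v : 𝒪' ⊗[ℤ_[p]] T}
    (ht : t.baseChange 𝒪' (s.baseChange 𝒪' v) = r • s.baseChange 𝒪' v) :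
    s.baseChange 𝒪' (s.baseChange 𝒪' v) - r • s.baseChange 𝒪' v + (q : 𝒪') • v = 0 := by
  have h1 : s ∘ₗ s - t ∘ₗ s + q • LinearMap.id = 0 := LinearMap.ext fun x => h x
  have h2 := congrArg (fun F : Module.End ℤ_[p] T => F.baseChange 𝒪' v) h1
  simp only [LinearMap.baseChange_add, LinearMap.baseChange_sub, LinearMap.add_apply,
    LinearMap.sub_apply, LinearMap.baseChange_comp, LinearMap.comp_apply,
    LinearMap.baseChange_zero, LinearMap.zero_apply] at h2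
  have h5 : (q • (LinearMap.id : Module.End ℤ_[p] T)).baseChange 𝒪' v = (q : 𝒪') • v := by
    rw [← Nat.cast_smul_eq_nsmul ℤ_[p], LinearMap.baseChange_smul, LinearMap.baseChange_id,
      LinearMap.smul_apply, LinearMap.id_apply, ← algebraMap_smul 𝒪', map_natCast]
  rw [ht, h5] at h2
  exact h2

include hpS hcont hcomm hfrob

/-- On the eigenlattice every `g` satisfies a quadratic relation, and the coefficients are those of
any attached representation. -/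
theorem exists_trace (hne : chiSub act χ ≠ ⊥) (g : H53.GQ) : ∃ t : 𝒪',
    (∀ v ∈ chiSub act χ, (ρT g).baseChange 𝒪' ((ρT g).baseChange 𝒪' v)
      - t • (ρT g).baseChange 𝒪' v + cyc 𝒪' hp𝒪' g • v = 0) ∧
    ∀ {𝒪'' : Type} [CommRing 𝒪''] [IsLocalRing 𝒪''] [IsHausdorff (maximalIdeal 𝒪'') 𝒪'']
      [Algebra 𝒪' 𝒪''] [IsLocalHom (algebraMap 𝒪' 𝒪'')]
      (ρ : GaloisRepAdic 𝒪'') (_ : IsAttached S (fun ℓ => χ (tl ℓ)) ρ),
      LinearMap.charpoly (ρ.ρ g) = X ^ 2 - C (algebraMap 𝒪' 𝒪'' t) * X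
        + C (algebraMap 𝒪' 𝒪'' (cyc 𝒪' hp𝒪' g)) := by
  have hfr : ∀ ℓ : ℕ, ℓ.Prime → ℓ ∉ S → ∀ A : ValuationSubring (AlgebraicClosure ℚ),
      A.LiesOverPrime ℓ → ∀ φ : H53.GQ, A.IsFrobeniusAt φ ℓ →
        ∀ w : chiSub act χ, galChi act χ ρT hcomm φ (galChi act χ ρT hcomm φ w)
          - χ (tl ℓ) • galChi act χ ρT hcomm φ w + (ℓ : 𝒪') • w = 0 := by
    intro ℓ hℓ hℓS A hA φ hφ w
    have h1 := baseChange_quadratic 𝒪' (ρT φ) (act (tl ℓ)) ℓ (χ (tl ℓ))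
      (hfrob ℓ hℓ hℓS A hA φ hφ) (v := (w : 𝒪' ⊗[ℤ_[p]] T))
      (baseChange_mem_chiSub act χ (fun P => hcomm P φ) w.2 (tl ℓ))
    exact Subtype.ext h1
  have hct := galChi_cont 𝒪' hp𝒪' χ ρT act hcont hcomm
  have h0 := exists_rep_of_sublattice hpS 𝒪' hp𝒪' (chiSub act χ) hne
    (galChi act χ ρT hcomm) hct (fun ℓ => χ (tl ℓ)) hfr
  obtain ⟨t, ht⟩ := h0.1 g
  refine ⟨t, fun v hv => congrArg Subtype.val (ht ⟨v, hv⟩), ?_⟩
  intro 𝒪'' _ _ _ _ _ ρ hρ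
  exact charpoly_of_quadratic_sub hpS 𝒪' hp𝒪' (chiSub act χ) hne (galChi act χ ρT hcomm) hct
    (fun ℓ => χ (tl ℓ)) hfr ρ hρ g t ht

/-! ### (E34), (E35), (E36) -/

include hp𝒪'

/-- (E34) If `(σ - 1)² = 0` on the kernel of `F`, where `F` kills an eigenvector of `χ`, then any attached
representation is unipotent at `σ`. -/
theorem charpoly_of_sq_zero {T₁ : Type*} [AddCommGroup T₁] [Module ℤ_[p] T₁] [Module.Free ℤ_[p] T₁]
    (F : T →ₗ[ℤ_[p]] T₁) {v : 𝒪' ⊗[ℤ_[p]] T} (hv : v ∈ chiSub act χ) (hv0 : v ≠ 0)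
    (hFv : F.baseChange 𝒪' v = 0)
    {q : ℕ} (hq : q.Prime) (hqp : q ≠ p) {A : ValuationSubring (AlgebraicClosure ℚ)}
    (hA : A.LiesOverPrime q) {σ : H53.GQ} (hσ : σ ∈ A.inertiaSubgroupIn ℚ)
    (hsq : ∀ x : T, F x = 0 → ρT σ (ρT σ x) - (2 : ℤ_[p]) • ρT σ x + x = 0)
    {𝒪'' : Type} [CommRing 𝒪''] [IsLocalRing 𝒪''] [IsHausdorff (maximalIdeal 𝒪'') 𝒪'']
    [Algebra 𝒪' 𝒪''] [IsLocalHom (algebraMap 𝒪' 𝒪'')]
    (ρ : GaloisRepAdic 𝒪'') (hρ : IsAttached S (fun ℓ => χ (tl ℓ)) ρ) :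
    LinearMap.charpoly (ρ.ρ σ) = (X - 1) ^ 2 := by
  have hne : chiSub act χ ≠ ⊥ := (Submodule.ne_bot_iff _).mpr ⟨v, hv, hv0⟩
  obtain ⟨t, ht, hρt⟩ := exists_trace hpS 𝒪' hp𝒪' χ tl ρT act hcont hcomm hfrob hne σ
  have hcyc : cyc 𝒪' hp𝒪' σ = 1 := cyc_inertia 𝒪' hp𝒪' hq hqp hA hσ
  let R : T →ₗ[ℤ_[p]] T := ρT σ ∘ₗ ρT σ - (2 : ℤ_[p]) • ρT σ + LinearMap.id
  have h1 : R.baseChange 𝒪' v = 0 :=
    baseChange_eq_zero_of_ker algebraMap_padic_injective F R (fun x hx => hsq x hx) hFv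
  have h2 : (ρT σ).baseChange 𝒪' ((ρT σ).baseChange 𝒪' v) - (2 : 𝒪') • (ρT σ).baseChange 𝒪' v
      + cyc 𝒪' hp𝒪' σ • v = 0 := by
    have h3 : R.baseChange 𝒪' v = (ρT σ).baseChange 𝒪' ((ρT σ).baseChange 𝒪' v)
        - (2 : 𝒪') • (ρT σ).baseChange 𝒪' v + v := by
      simp only [R, LinearMap.baseChange_add, LinearMap.baseChange_sub, LinearMap.add_apply,
        LinearMap.sub_apply, LinearMap.baseChange_comp, LinearMap.comp_apply,
        LinearMap.baseChange_smul, LinearMap.smul_apply, LinearMap.baseChange_id,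
        LinearMap.id_apply]
      rw [← algebraMap_smul 𝒪' (2 : ℤ_[p]), map_ofNat]
    rw [hcyc, one_smul, ← h3, h1]
  have h4 : t = 2 := trace_unique ρT hv0 (ht v hv) h2
  rw [hρt ρ hρ, hcyc, h4, map_ofNat, map_one]
  simp only [map_ofNat, map_one]
  ring

/-- (E35) for an eigenvector of the involution `w`. -/
theorem charpoly_of_steinberg_eigenvector {T₁ : Type*} [AddCommGroup T₁] [Module ℤ_[p] T₁]
    [Module.Free ℤ_[p] T₁] (F : T →ₗ[ℤ_[p]] T₁) (w : Module.End ℤ_[p] T)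
    {v : 𝒪' ⊗[ℤ_[p]] T} (hv : v ∈ chiSub act χ) (hv0 : v ≠ 0)
    (hFv : F.baseChange 𝒪' v = 0) {ε : 𝒪'} (hwv : w.baseChange 𝒪' v = ε • v)
    {q : ℕ} {σ : H53.GQ} (hcyc : cyc 𝒪' hp𝒪' σ = (q : 𝒪')) (hwσ : Commute w (ρT σ))
    (hst : ∀ x : T, F x = 0 → ρT σ (ρT σ x) + ρT σ (w x) + q • w (ρT σ x) + q • x = 0)
    {𝒪'' : Type} [CommRing 𝒪''] [IsLocalRing 𝒪''] [IsHausdorff (maximalIdeal 𝒪'') 𝒪'']
    [Algebra 𝒪' 𝒪''] [IsLocalHom (algebraMap 𝒪' 𝒪'')]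
    (ρ : GaloisRepAdic 𝒪'') (hρ : IsAttached S (fun ℓ => χ (tl ℓ)) ρ) :
    LinearMap.charpoly (ρ.ρ σ) = X ^ 2 + C (algebraMap 𝒪' 𝒪'' ε * ((q : 𝒪'') + 1)) * X
      + C ((q : 𝒪'')) := by
  have hne : chiSub act χ ≠ ⊥ := (Submodule.ne_bot_iff _).mpr ⟨v, hv, hv0⟩
  obtain ⟨t, ht, hρt⟩ := exists_trace hpS 𝒪' hp𝒪' χ tl ρT act hcont hcomm hfrob hne σ
  let R : T →ₗ[ℤ_[p]] T := ρT σ ∘ₗ ρT σ + ρT σ ∘ₗ w + q • (w ∘ₗ ρT σ) + q • LinearMap.id
  have h1 : R.baseChange 𝒪' v = 0 :=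
    baseChange_eq_zero_of_ker algebraMap_padic_injective F R (fun x hx => hst x hx) hFv
  have hwsO : w.baseChange 𝒪' ((ρT σ).baseChange 𝒪' v)
      = (ρT σ).baseChange 𝒪' (w.baseChange 𝒪' v) := by
    have h1 : (w ∘ₗ ρT σ).baseChange 𝒪' v = (ρT σ ∘ₗ w).baseChange 𝒪' v := by
      have h2 : w ∘ₗ ρT σ = ρT σ ∘ₗ w := hwσ.eq
      rw [h2]
    rw [LinearMap.baseChange_comp, LinearMap.baseChange_comp] at h1
    exact h1
  have hsm : ∀ (G : T →ₗ[ℤ_[p]] T), (q • G).baseChange 𝒪' v = (q : 𝒪') • G.baseChange 𝒪' v := by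
    intro G
    rw [← Nat.cast_smul_eq_nsmul ℤ_[p], LinearMap.baseChange_smul, LinearMap.smul_apply,
      ← algebraMap_smul 𝒪', map_natCast]
  have h2 : (ρT σ).baseChange 𝒪' ((ρT σ).baseChange 𝒪' v)
      - (-(ε * (q + 1))) • (ρT σ).baseChange 𝒪' v + cyc 𝒪' hp𝒪' σ • v = 0 := by
    have h3 : R.baseChange 𝒪' v = (ρT σ).baseChange 𝒪' ((ρT σ).baseChange 𝒪' v)
        + (ρT σ).baseChange 𝒪' (w.baseChange 𝒪' v)
        + (q : 𝒪') • w.baseChange 𝒪' ((ρT σ).baseChange 𝒪' v) + (q : 𝒪') • v := by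
      simp only [R, LinearMap.baseChange_add, LinearMap.add_apply, hsm, LinearMap.baseChange_comp,
        LinearMap.comp_apply, LinearMap.baseChange_id, LinearMap.id_apply]
    rw [hwsO, hwv, map_smul] at h3
    rw [h1] at h3
    rw [hcyc]
    linear_combination (norm := module) -h3
  have h4 : t = -(ε * (q + 1)) := trace_unique ρT hv0 (ht v hv) h2
  rw [hρt ρ hρ, hcyc, h4]
  simp only [map_neg, map_mul, map_add, map_natCast, map_one]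
  ring

omit [IsAdicComplete (IsLocalRing.maximalIdeal 𝒪') 𝒪'] [Finite (IsLocalRing.ResidueField 𝒪')]
  [Module.Finite ℤ_[p] T] hpS hp𝒪' hcont hcomm hfrob in
/-- an eigenvector of the involution `w` in the span of `v` and `w v` -/
theorem exists_involution_eigenvector (w : Module.End ℤ_[p] T) (hw : w * w = 1)
    (hwact : ∀ P, Commute (act P) w) {v : 𝒪' ⊗[ℤ_[p]] T} (hv : v ∈ chiSub act χ) (hv0 : v ≠ 0) :
    ∃ (ε : 𝒪') (u : 𝒪' ⊗[ℤ_[p]] T), (ε = 1 ∨ ε = -1) ∧ u ∈ chiSub act χ ∧ u ≠ 0 ∧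
      w.baseChange 𝒪' u = ε • u ∧ ∃ a b : 𝒪', u = a • v + b • w.baseChange 𝒪' v := by
  have hww : ∀ v, w.baseChange 𝒪' (w.baseChange 𝒪' v) = v := by
    intro v
    have h1 : (w ∘ₗ w).baseChange 𝒪' v = v := by
      have h2 : w ∘ₗ w = LinearMap.id := hw
      rw [h2, LinearMap.baseChange_id, LinearMap.id_apply]
    rw [LinearMap.baseChange_comp] at h1
    exact h1
  have hwv : w.baseChange 𝒪' v ∈ chiSub act χ := baseChange_mem_chiSub act χ hwact hv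
  by_cases h1 : v + w.baseChange 𝒪' v = 0
  · exact ⟨-1, v, Or.inr rfl, hv, hv0,
      (eq_neg_of_add_eq_zero_right h1).trans (neg_one_smul 𝒪' v).symm, 1, 0, by simp⟩
  · refine ⟨1, v + w.baseChange 𝒪' v, Or.inl rfl, add_mem hv hwv, h1, ?_, 1, 1, by simp⟩
    rw [map_add, hww, one_smul, add_comm]

/-- (E35) `v` a nonzero eigenvector for `χ`, killed by `D` and `D ∘ w`. Then there is a sign `u` such that for
every Frobenius lift `σ` at `q` any attached representation has characteristic polynomial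
`(X - u) (X - u q)` at `σ`. -/
theorem exists_sign_of_steinberg {T₁ : Type*} [AddCommGroup T₁] [Module ℤ_[p] T₁]
    [Module.Free ℤ_[p] T₁] (D : T →ₗ[ℤ_[p]] T₁) (w : Module.End ℤ_[p] T) (hw : w * w = 1)
    (hwact : ∀ P, Commute (act P) w)
    {v : 𝒪' ⊗[ℤ_[p]] T} (hv : v ∈ chiSub act χ) (hv0 : v ≠ 0)
    (hDv : D.baseChange 𝒪' v = 0) (hDwv : D.baseChange 𝒪' (w.baseChange 𝒪' v) = 0)
    {q : ℕ} (hq : q.Prime) (hqp : q ≠ p) :
    ∃ u : 𝒪', (u = 1 ∨ u = -1) ∧ ∀ A : ValuationSubring (AlgebraicClosure ℚ), A.LiesOverPrime q →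
      ∀ σ : H53.GQ, A.IsFrobeniusAt σ q → Commute w (ρT σ) →
      (∀ x : T, D x = 0 → D (w x) = 0 →
        ρT σ (ρT σ x) + ρT σ (w x) + q • w (ρT σ x) + q • x = 0) →
      ∀ {𝒪'' : Type} [CommRing 𝒪''] [IsLocalRing 𝒪''] [IsHausdorff (maximalIdeal 𝒪'') 𝒪'']
        [Algebra 𝒪' 𝒪''] [IsLocalHom (algebraMap 𝒪' 𝒪'')]
        (ρ : GaloisRepAdic 𝒪'') (_ : IsAttached S (fun ℓ => χ (tl ℓ)) ρ),
        LinearMap.charpoly (ρ.ρ σ) = (X - C (algebraMap 𝒪' 𝒪'' u))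
          * (X - C (algebraMap 𝒪' 𝒪'' u * (q : 𝒪''))) := by
  obtain ⟨ε, v', hε, hv', hv'0, hwv', a, b, hab⟩ :=
    exists_involution_eigenvector 𝒪' χ act w hw hwact hv hv0
  have hεε : ε * ε = 1 := by rcases hε with rfl | rfl <;> ring
  refine ⟨-ε, ?_, ?_⟩
  · rcases hε with rfl | rfl
    · exact Or.inr rfl
    · exact Or.inl (neg_neg 1)
  intro A hA σ hσ hwσ hst 𝒪'' _ _ _ _ _ ρ hρ
  have hcyc : cyc 𝒪' hp𝒪' σ = (q : 𝒪') := cyc_frobenius 𝒪' hp𝒪' hq hqp hA hσ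
  have hww : ∀ v, w.baseChange 𝒪' (w.baseChange 𝒪' v) = v := by
    intro v
    have h1 : (w ∘ₗ w).baseChange 𝒪' v = v := by
      have h2 : w ∘ₗ w = LinearMap.id := hw
      rw [h2, LinearMap.baseChange_id, LinearMap.id_apply]
    rw [LinearMap.baseChange_comp] at h1
    exact h1
  have hF : (D.prod (D ∘ₗ w)).baseChange 𝒪' v' = 0 := by
    refine baseChange_prod_eq_zero ?_ ?_
    · rw [hab, map_add, map_smul, map_smul, hDv, hDwv, smul_zero, smul_zero, add_zero]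
    · rw [LinearMap.baseChange_comp, LinearMap.comp_apply, hab, map_add, map_smul, map_smul, hww,
        map_add, map_smul, map_smul, hDv, hDwv, smul_zero, smul_zero, add_zero]
  have h1 := charpoly_of_steinberg_eigenvector hpS 𝒪' hp𝒪' χ tl ρT act hcont hcomm hfrob
    (D.prod (D ∘ₗ w)) w hv' hv'0 hF hwv' hcyc hwσ (fun x hx => by
      have h2 := Prod.ext_iff.mp hx
      exact hst x h2.1 h2.2) ρ hρ
  rw [h1]
  have h2 : (algebraMap 𝒪' 𝒪'' ε) * (algebraMap 𝒪' 𝒪'' ε) = 1 := by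
    rw [← map_mul, hεε, map_one]
  have h3 : (C (algebraMap 𝒪' 𝒪'' ε) * C (algebraMap 𝒪' 𝒪'' ε) : Polynomial 𝒪'') = 1 := by
    rw [← C_mul, h2, C_1]
  simp only [map_neg, C_mul, C_add, map_natCast, map_one]
  linear_combination (-(q : Polynomial 𝒪'')) * h3

/-- (E36) `v` a nonzero eigenvector for `χ` killed by `F`, the kernel of `F` stable under the inertia group of
`A` and without nonzero inertia invariants. Then no attached representation is unipotent on inertia: there is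
an element of the inertia group where the characteristic polynomial is not `(X - 1)²`. -/
theorem exists_inertia_of_carayol {T₁ : Type*} [AddCommGroup T₁] [Module ℤ_[p] T₁]
    [Module.Free ℤ_[p] T₁] (F : T →ₗ[ℤ_[p]] T₁)
    {v : 𝒪' ⊗[ℤ_[p]] T} (hv : v ∈ chiSub act χ) (hv0 : v ≠ 0) (hFv : F.baseChange 𝒪' v = 0)
    {q : ℕ} (hq : q.Prime) (hqp : q ≠ p) {A : ValuationSubring (AlgebraicClosure ℚ)}
    (hA : A.LiesOverPrime q)
    (hstab : ∀ σ ∈ A.inertiaSubgroupIn ℚ, ∀ x : T, F x = 0 → F (ρT σ x) = 0)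
    (hinv : ∀ x : T, (∀ σ ∈ A.inertiaSubgroupIn ℚ, ρT σ x = x) → F x = 0 → x = 0) :
    ∃ σ ∈ A.inertiaSubgroupIn ℚ, ∃ t : 𝒪', t ≠ 2 ∧
      ∀ {𝒪'' : Type} [CommRing 𝒪''] [IsLocalRing 𝒪''] [IsHausdorff (maximalIdeal 𝒪'') 𝒪'']
        [Algebra 𝒪' 𝒪''] [IsLocalHom (algebraMap 𝒪' 𝒪'')]
        (ρ : GaloisRepAdic 𝒪'') (_ : IsAttached S (fun ℓ => χ (tl ℓ)) ρ),
        LinearMap.charpoly (ρ.ρ σ) = X ^ 2 - C (algebraMap 𝒪' 𝒪'' t) * X + 1 := by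
  have hne : chiSub act χ ≠ ⊥ := (Submodule.ne_bot_iff _).mpr ⟨v, hv, hv0⟩
  by_contra hcon
  push Not at hcon
  set I := A.inertiaSubgroupIn ℚ with hI
  -- unipotence on the eigenlattice
  have hsq : ∀ σ ∈ I, ∀ u ∈ chiSub act χ, (ρT σ).baseChange 𝒪' ((ρT σ).baseChange 𝒪' u)
      - (2 : 𝒪') • (ρT σ).baseChange 𝒪' u + u = 0 := by
    intro σ hσ u hu
    obtain ⟨t, ht, hρt⟩ := exists_trace hpS 𝒪' hp𝒪' χ tl ρT act hcont hcomm hfrob hne σ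
    have hcyc : cyc 𝒪' hp𝒪' σ = 1 := cyc_inertia 𝒪' hp𝒪' hq hqp hA hσ
    have h2 : t = 2 := by
      by_contra ht2
      obtain ⟨𝒪'', i1, i2, i3, i4, i5, ρ, hρ, hne'⟩ := hcon σ hσ t ht2
      apply hne'
      rw [hρt ρ hρ, hcyc, map_one, C_1]
    have h3 := ht u hu
    rw [hcyc, h2, one_smul] at h3
    exact h3
  -- the stable submodule
  let W : Submodule 𝒪' (𝒪' ⊗[ℤ_[p]] T) := chiSub act χ ⊓ LinearMap.ker (F.baseChange 𝒪')
  have hWst : ∀ σ : I, ∀ u ∈ W, (ρT (σ : H53.GQ)).baseChange 𝒪' u ∈ W := by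
    intro σ u hu
    refine ⟨baseChange_mem_chiSub act χ (fun P => hcomm P σ) hu.1, ?_⟩
    have h1 := baseChange_eq_zero_of_ker (O := 𝒪') algebraMap_padic_injective F
      (F ∘ₗ ρT (σ : H53.GQ)) (fun x hx => hstab σ σ.2 x hx) (LinearMap.mem_ker.mp hu.2)
    rw [LinearMap.baseChange_comp] at h1
    exact LinearMap.mem_ker.mpr h1
  let ρI : I →* Module.End 𝒪' (𝒪' ⊗[ℤ_[p]] T) :=
    { toFun := fun σ => (ρT (σ : H53.GQ)).baseChange 𝒪'
      map_one' := by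
        change (ρT (1 : H53.GQ)).baseChange 𝒪' = 1
        rw [map_one]
        exact LinearMap.baseChange_id
      map_mul' := fun σ τ => by
        change (ρT ((σ : H53.GQ) * (τ : H53.GQ))).baseChange 𝒪' = _
        rw [map_mul]
        exact LinearMap.baseChange_comp _ _ }
  let ρW : I →* Module.End 𝒪' W :=
    { toFun := fun σ => (ρI σ).restrict (hWst σ)
      map_one' := by
        refine LinearMap.ext fun u => Subtype.ext ?_
        rw [LinearMap.coe_restrict_apply, map_one]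
        rfl
      map_mul' := fun σ τ => by
        refine LinearMap.ext fun u => Subtype.ext ?_
        rw [LinearMap.coe_restrict_apply, map_mul]
        rfl }
  have hW : W ≠ ⊥ := (Submodule.ne_bot_iff _).mpr ⟨v, ⟨hv, LinearMap.mem_ker.mpr hFv⟩, hv0⟩
  obtain ⟨u, hu0, hu⟩ := exists_fixed_of_sq_zero_sub W hW (⊤ : Subgroup I) ρW
    (fun σ _ u => Subtype.ext (hsq σ σ.2 u u.2.1))
  obtain ⟨n, e, x, he, hux⟩ := exists_split algebraMap_padic_injective (u : 𝒪' ⊗[ℤ_[p]] T)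
  have hfix : ∀ σ ∈ I, ∀ k, ρT σ (x k) = x k := by
    intro σ hσ k
    have h1 : (ρT σ - LinearMap.id).baseChange 𝒪' (u : 𝒪' ⊗[ℤ_[p]] T) = 0 := by
      have h2 : (ρT σ).baseChange 𝒪' (u : 𝒪' ⊗[ℤ_[p]] T) = u :=
        congrArg Subtype.val (hu ⟨σ, hσ⟩ trivial)
      rw [LinearMap.baseChange_sub, LinearMap.sub_apply, LinearMap.baseChange_id,
        LinearMap.id_apply, h2, sub_self]
    have h2 := apply_eq_zero_of_split he hux (ρT σ - LinearMap.id) h1 k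
    exact sub_eq_zero.mp h2
  have hFx : ∀ k, F (x k) = 0 := apply_eq_zero_of_split he hux F (LinearMap.mem_ker.mp u.2.2)
  apply hu0
  apply Subtype.ext
  rw [hux]
  exact Finset.sum_eq_zero fun k _ => by
    rw [hinv (x k) (fun σ hσ => hfix σ hσ k) (hFx k), TensorProduct.tmul_zero]

/-- (E36), in terms of `IsUnipotentOnInertiaAt`. -/
theorem not_isUnipotent_of_carayol {T₁ : Type*} [AddCommGroup T₁] [Module ℤ_[p] T₁]
    [Module.Free ℤ_[p] T₁] (F : T →ₗ[ℤ_[p]] T₁)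
    {v : 𝒪' ⊗[ℤ_[p]] T} (hv : v ∈ chiSub act χ) (hv0 : v ≠ 0) (hFv : F.baseChange 𝒪' v = 0)
    {q : ℕ} (hq : q.Prime) (hqp : q ≠ p) {A : ValuationSubring (AlgebraicClosure ℚ)}
    (hA : A.LiesOverPrime q)
    (hstab : ∀ σ ∈ A.inertiaSubgroupIn ℚ, ∀ x : T, F x = 0 → F (ρT σ x) = 0)
    (hinv : ∀ x : T, (∀ σ ∈ A.inertiaSubgroupIn ℚ, ρT σ x = x) → F x = 0 → x = 0)
    {𝒪'' : Type} [CommRing 𝒪''] [IsLocalRing 𝒪''] [IsHausdorff (maximalIdeal 𝒪'') 𝒪'']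
    [Algebra 𝒪' 𝒪''] [IsLocalHom (algebraMap 𝒪' 𝒪'')]
    (hinj : Function.Injective (algebraMap 𝒪' 𝒪''))
    (ρ : GaloisRepAdic 𝒪'') (hρ : IsAttached S (fun ℓ => χ (tl ℓ)) ρ) :
    ¬ ρ.IsUnipotentOnInertiaAt q := by
  intro huni
  obtain ⟨σ, hσ, t, ht, h⟩ := exists_inertia_of_carayol hpS 𝒪' hp𝒪' χ tl ρT act hcont hcomm hfrob
    F hv hv0 hFv hq hqp hA hstab hinv
  apply ht
  apply hinj
  have h3 := huni A hA σ hσ
  rw [h ρ hρ] at h3
  have h4 := congrArg (fun P : Polynomial 𝒪'' => P.coeff 1) h3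
  have h5 : ((X - 1 : Polynomial 𝒪'') ^ 2) = X ^ 2 - C 2 * X + C 1 := by
    simp only [map_ofNat, map_one]
    ring
  rw [h5, ← C_1] at h4
  simp only [coeff_add, coeff_sub, coeff_X_pow, coeff_C_mul, coeff_X_one, mul_one,
    coeff_C_succ, add_zero] at h4
  rw [map_ofNat]
  simpa using h4

end Lattice

end Fermat.Agent.H62
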