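/-
H62NewJ: (E34), (E35), (E36) for a Hecke eigenvector `v` in `𝒪' ⊗ T_p J` (J-level wrappers of H62New).
-/
import Mathlib
import Fermat.Agent.H62New
import Fermat.Agent.H35S35
import Fermat.Agent.H35S34

set_option autoImplicit false
set_option linter.style.haveILetI false
set_option linter.unusedSectionVars false

noncomputable section

open IsLocalRing Module TensorProduct Polynomial CuspForm ModularCurve AlgebraicCurve
  Fermat.Agent.H31 Fermat.Agent.H30 Fermat.Agent.H35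

namespace Fermat.Agent.H62

section Module

variable {p : ℕ} [Fact p.Prime] {N : ℕ} [NeZero N] {S : Finset ℕ}
    (hpS : p ∈ S) (hNS : ∀ q : ℕ, q.Prime → q ∣ N → q ∈ S)
    (𝒪' : Type) [CommRing 𝒪'] [IsDomain 𝒪'] [IsDiscreteValuationRing 𝒪']
    [IsAdicComplete (IsLocalRing.maximalIdeal 𝒪') 𝒪'] [Finite (IsLocalRing.ResidueField 𝒪')]
    [CharZero 𝒪'] [Algebra ℤ_[p] 𝒪'] (hp𝒪' : (p : 𝒪') ∈ IsLocalRing.maximalIdeal 𝒪')
    (χ : MvPolynomial (GoodPrimes N (↑S : Set ℕ)) ℤ →+* 𝒪')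

/-- the abstract Hecke operator at `ℓ` (`0` if `ℓ` is not a good prime) -/
def tlN (N : ℕ) (S : Finset ℕ) (ℓ : ℕ) : MvPolynomial (GoodPrimes N (↑S : Set ℕ)) ℤ := by
  classical exact
    if h : ℓ.Prime ∧ ¬ ℓ ∣ N ∧ ℓ ∉ (↑S : Set ℕ) then
      MvPolynomial.X (⟨⟨ℓ, h.1⟩, h.2.1, h.2.2⟩ : GoodPrimes N (↑S : Set ℕ)) else 0

theorem tlN_coe (a : GoodPrimes N (↑S : Set ℕ)) : tlN N S (a.1 : ℕ) = MvPolynomial.X a := by
  unfold tlN
  rw [dif_pos ⟨a.1.2, a.2.1, a.2.2⟩]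
  rfl

/-- `ρ` is attached to the eigensystem `χ` of the abstract Hecke algebra. -/
def IsAttachedN {𝒪' 𝒪'' : Type} [CommRing 𝒪'] [CommRing 𝒪''] [IsLocalRing 𝒪''] [Algebra 𝒪' 𝒪'']
    (N : ℕ) (S : Finset ℕ) (χ : MvPolynomial (GoodPrimes N (↑S : Set ℕ)) ℤ →+* 𝒪')
    (ρ : GaloisRepAdic 𝒪'') : Prop :=
  ∀ a : GoodPrimes N (↑S : Set ℕ), ∀ A : ValuationSubring (AlgebraicClosure ℚ),
    A.LiesOverPrime (a.1 : ℕ) → ∀ φ : H53.GQ, A.IsFrobeniusAt φ (a.1 : ℕ) →
      LinearMap.charpoly (ρ.ρ φ) =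
        X ^ 2 - C (algebraMap 𝒪' 𝒪'' (χ (MvPolynomial.X a))) * X + C (((a.1 : ℕ) : 𝒪''))

variable {𝒪'} in
theorem IsAttachedN.isAttached {χ : MvPolynomial (GoodPrimes N (↑S : Set ℕ)) ℤ →+* 𝒪'}
    {𝒪'' : Type} [CommRing 𝒪''] [IsLocalRing 𝒪''] [Algebra 𝒪' 𝒪'']
    {ρ : GaloisRepAdic 𝒪''} (h : IsAttachedN N S χ ρ)
    (hNS : ∀ q : ℕ, q.Prime → q ∣ N → q ∈ S) :
    IsAttached S (fun ℓ => χ (tlN N S ℓ)) ρ := by
  intro ℓ hℓ hℓS A hA φ hφ
  have hℓN : ¬ ℓ ∣ N := fun h' => hℓS (hNS ℓ hℓ h')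
  have hℓS' : ℓ ∉ (↑S : Set ℕ) := by simpa using hℓS
  let a : GoodPrimes N (↑S : Set ℕ) := ⟨⟨ℓ, hℓ⟩, hℓN, hℓS'⟩
  have h1 := h a A hA φ hφ
  have h2 : tlN N S ℓ = MvPolynomial.X a := tlN_coe a
  simp only [h2]
  exact h1

variable {J : Type*} [AddCommGroup J] [Module HeckeAlg J] [DistribMulAction GQ J]
    [SMulCommClass GQ HeckeAlg J]
    (hfin : {x : J | p • x = 0}.Finite)
    (hF : FrobeniusQuadratic (K := ℚ) (L := AlgebraicClosure ℚ) N p J)
    (hlev : FiniteLevel p J)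

include hpS hNS in
theorem frob_actTate (hF : FrobeniusQuadratic (K := ℚ) (L := AlgebraicClosure ℚ) N p J)
    (ℓ : ℕ) (hℓ : ℓ.Prime) (hℓS : ℓ ∉ S) (A : ValuationSubring (AlgebraicClosure ℚ))
    (hA : A.LiesOverPrime ℓ) (φ : H53.GQ) (hφ : A.IsFrobeniusAt φ ℓ) (x : TateMod p J) :
    galTate p J φ (galTate p J φ x)
      - actTate p J N (↑S : Set ℕ) (tlN N S ℓ) (galTate p J φ x) + ℓ • x = 0 := by
  have hℓN : ¬ ℓ ∣ N := fun h' => hℓS (hNS ℓ hℓ h')
  have hℓS' : ℓ ∉ (↑S : Set ℕ) := by simpa using hℓS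
  let a : GoodPrimes N (↑S : Set ℕ) := ⟨⟨ℓ, hℓ⟩, hℓN, hℓS'⟩
  have hℓp : ℓ ≠ p := fun h => hℓS (h ▸ hpS)
  have hgood : ¬ ℓ ∣ N * p := by
    intro h
    rcases hℓ.dvd_mul.mp h with h | h
    · exact hℓN h
    · exact hℓp ((Nat.prime_dvd_prime_iff_eq hℓ Fact.out).mp h)
  have h := galTate_frobenius (p := p) (J := J) hF hℓ hgood hA hφ
  have h1 := LinearMap.congr_fun h x
  simp only [LinearMap.add_apply, LinearMap.sub_apply, Module.End.mul_apply,
    LinearMap.smul_apply, Module.End.one_apply, LinearMap.zero_apply] at h1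
  have h2 : actTate p J N (↑S : Set ℕ) (tlN N S ℓ) = heckeTate p J (heckeGen ⟨ℓ, hℓ⟩) := by
    have h3 : tlN N S ℓ = MvPolynomial.X a := tlN_coe a
    rw [h3]
    show heckeTate p J (inclHecke N (↑S : Set ℕ) (MvPolynomial.X a)) = _
    rw [inclHecke_X]
  rw [h2]
  exact h1

include hpS hNS hp𝒪' hfin hF hlev

/-- The trace on the eigenlattice is the trace of any attached representation. -/
theorem exists_trace_J (hne : chiSub (actTate p J N (↑S : Set ℕ)) χ ≠ ⊥) (g : H53.GQ) :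
    ∃ t : 𝒪',
    (∀ v ∈ chiSub (actTate p J N (↑S : Set ℕ)) χ,
      (galTate p J g).baseChange 𝒪' ((galTate p J g).baseChange 𝒪' v)
      - t • (galTate p J g).baseChange 𝒪' v + cyc 𝒪' hp𝒪' g • v = 0) ∧
    ∀ {𝒪'' : Type} [CommRing 𝒪''] [IsLocalRing 𝒪''] [IsHausdorff (maximalIdeal 𝒪'') 𝒪'']
      [Algebra 𝒪' 𝒪''] [IsLocalHom (algebraMap 𝒪' 𝒪'')]
      (ρ : GaloisRepAdic 𝒪'') (_ : IsAttachedN N S χ ρ),
      LinearMap.charpoly (ρ.ρ g) = X ^ 2 - C (algebraMap 𝒪' 𝒪'' t) * X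
        + C (algebraMap 𝒪' 𝒪'' (cyc 𝒪' hp𝒪' g)) := by
  have := TateMod.finite_of_finite_torsion (p := p) (J := J) hfin
  have := TateMod.free_of_finite_torsion (p := p) (J := J) hfin
  obtain ⟨t, ht, h⟩ := exists_trace hpS 𝒪' hp𝒪' χ (tlN N S) (galTate p J)
    (actTate p J N (↑S : Set ℕ)) (galTate_continuous hlev) (actTate_commute N (↑S : Set ℕ))
    (frob_actTate hpS hNS hF) hne g
  exact ⟨t, ht, fun ρ hρ => h ρ (hρ.isAttached hNS)⟩

/-- **(E34)**: if inertia at `q` acts unipotently on the `p`-power torsion of `J`, any representation attached to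
an eigensystem occurring in `T_p J` is unipotent on inertia at `q`. -/
theorem E34_of_module {q : ℕ} (hq : q.Prime) (hqp : q ≠ p) (hss : UnipotentTorsion p q J)
    {v : 𝒪' ⊗[ℤ_[p]] TateMod p J} (hv : v ∈ chiSub (actTate p J N (↑S : Set ℕ)) χ) (hv0 : v ≠ 0)
    {𝒪'' : Type} [CommRing 𝒪''] [IsLocalRing 𝒪''] [IsHausdorff (maximalIdeal 𝒪'') 𝒪'']
    [Algebra 𝒪' 𝒪''] [IsLocalHom (algebraMap 𝒪' 𝒪'')]
    (ρ : GaloisRepAdic 𝒪'') (hρ : IsAttachedN N S χ ρ) : ρ.IsUnipotentOnInertiaAt q := by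
  have := TateMod.finite_of_finite_torsion (p := p) (J := J) hfin
  have := TateMod.free_of_finite_torsion (p := p) (J := J) hfin
  intro A hA σ hσ
  refine charpoly_of_sq_zero hpS 𝒪' hp𝒪' χ (tlN N S) (galTate p J)
    (actTate p J N (↑S : Set ℕ)) (galTate_continuous hlev) (actTate_commute N (↑S : Set ℕ))
    (frob_actTate hpS hNS hF) (T₁ := TateMod p J) 0 hv hv0 (by simp) hq hqp hA hσ
    (fun x _ => ?_) ρ (hρ.isAttached hNS)
  ext n
  have h := hss A hA σ hσ (TateMod.proj n x) ⟨n, TateMod.pow_smul_proj x n⟩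
  rw [smul_sub] at h
  have h2 : (2 : ℤ_[p]) • galTate p J σ x = galTate p J σ x + galTate p J σ x := two_smul _ _
  rw [h2, map_add, map_sub, map_add, proj_galTate, proj_galTate, map_zero]
  rw [sub_eq_iff_eq_add] at h
  rw [h]
  abel

/-- **(E35)**: an eigenvector `v` with `(g ∘ f) v = (g ∘ f) (w v) = 0` (the `q`-new part) has Steinberg
Frobenius traces: for any attached representation and any Frobenius lift at `q` the characteristic polynomial is
`(X - u) (X - u q)`, with a sign `u` not depending on the Frobenius lift. -/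
theorem E35_of_module {q : ℕ} (hq : q.Prime) (hqp : q ≠ p)
    {J₁ : Type*} [AddCommGroup J₁] [Module HeckeAlg J₁]
    (D : SteinbergJ N (↑S : Set ℕ) p q J J₁)
    {v : 𝒪' ⊗[ℤ_[p]] TateMod p J} (hv : v ∈ chiSub (actTate p J N (↑S : Set ℕ)) χ) (hv0 : v ≠ 0)
    (hDv : (tateMap (p := p) (D.g.comp D.f)).baseChange 𝒪' v = 0)
    (hDwv : (tateMap (p := p) (D.g.comp D.f)).baseChange 𝒪'
      ((tateMap (p := p) D.w).baseChange 𝒪' v) = 0) :
    ∃ u : 𝒪', (u = 1 ∨ u = -1) ∧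
      ∀ {𝒪'' : Type} [CommRing 𝒪''] [IsLocalRing 𝒪''] [IsHausdorff (maximalIdeal 𝒪'') 𝒪'']
        [Algebra 𝒪' 𝒪''] [IsLocalHom (algebraMap 𝒪' 𝒪'')]
        (ρ : GaloisRepAdic 𝒪'') (_ : IsAttachedN N S χ ρ)
        (A : ValuationSubring (AlgebraicClosure ℚ)) (_ : A.LiesOverPrime q)
        (σ : H53.GQ) (_ : A.IsFrobeniusAt σ q),
        LinearMap.charpoly (ρ.ρ σ) = (X - C (algebraMap 𝒪' 𝒪'' u))
          * (X - C (algebraMap 𝒪' 𝒪'' u * (q : 𝒪''))) := by
  have := TateMod.finite_of_finite_torsion (p := p) (J := J) hfin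
  have := TateMod.free_of_finite_torsion (p := p) (J := J) hfin
  obtain ⟨u, hu, h⟩ := exists_sign_of_steinberg hpS 𝒪' hp𝒪' χ (tlN N S) (galTate p J)
    (actTate p J N (↑S : Set ℕ)) (galTate_continuous hlev) (actTate_commute N (↑S : Set ℕ))
    (frob_actTate hpS hNS hF) (tateMap (D.g.comp D.f)) (tateMap D.w)
    (by
      refine LinearMap.ext fun x => ?_
      ext n
      exact D.w_w _)
    (by
      intro P
      refine LinearMap.ext fun x => ?_
      ext n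
      exact (D.w_hecke.smul P _).symm)
    hv hv0 hDv hDwv hq hqp
  refine ⟨u, hu, ?_⟩
  intro 𝒪'' _ _ _ _ _ ρ hρ A hA σ hσ
  refine h A hA σ hσ ?_ ?_ ρ (hρ.isAttached hNS)
  · refine LinearMap.ext fun x => ?_
    ext n
    exact D.w_gal σ _
  · intro x h1 h2
    ext n
    have e1 : D.g (D.f (TateMod.proj n x)) = 0 := by
      have := congrArg (TateMod.proj n) h1
      rwa [map_zero] at this
    have e2 : D.g (D.f (D.w (TateMod.proj n x))) = 0 := by
      have := congrArg (TateMod.proj n) h2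
      rwa [map_zero] at this
    have h := D.star A hA σ hσ (TateMod.proj n x) ⟨n, TateMod.pow_smul_proj x n⟩ e1 e2
    simp only [map_add, map_nsmul, proj_galTate, proj_tateMap, map_zero]
    exact h

/-- **(E35)** with the sign read off from the eigenvalue of the involution `w`. -/
theorem E35_of_module_eigen {q : ℕ} (hq : q.Prime) (hqp : q ≠ p)
    {J₁ : Type*} [AddCommGroup J₁] [Module HeckeAlg J₁]
    (D : SteinbergJ N (↑S : Set ℕ) p q J J₁)
    {v : 𝒪' ⊗[ℤ_[p]] TateMod p J} (hv : v ∈ chiSub (actTate p J N (↑S : Set ℕ)) χ) (hv0 : v ≠ 0)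
    (hDv : (tateMap (p := p) (D.g.comp D.f)).baseChange 𝒪' v = 0) {ε : 𝒪'}
    (hwv : (tateMap (p := p) D.w).baseChange 𝒪' v = ε • v)
    {𝒪'' : Type} [CommRing 𝒪''] [IsLocalRing 𝒪''] [IsHausdorff (maximalIdeal 𝒪'') 𝒪'']
    [Algebra 𝒪' 𝒪''] [IsLocalHom (algebraMap 𝒪' 𝒪'')]
    (ρ : GaloisRepAdic 𝒪'') (hρ : IsAttachedN N S χ ρ)
    {A : ValuationSubring (AlgebraicClosure ℚ)} (hA : A.LiesOverPrime q)
    {σ : H53.GQ} (hσ : A.IsFrobeniusAt σ q) :
    LinearMap.charpoly (ρ.ρ σ) = X ^ 2 + C (algebraMap 𝒪' 𝒪'' ε * ((q : 𝒪'') + 1)) * X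
      + C ((q : 𝒪'')) := by
  have := TateMod.finite_of_finite_torsion (p := p) (J := J) hfin
  have := TateMod.free_of_finite_torsion (p := p) (J := J) hfin
  have hDwv : ((tateMap (p := p) (D.g.comp D.f)) ∘ₗ tateMap (p := p) D.w).baseChange 𝒪' v = 0 := by
    rw [LinearMap.baseChange_comp, LinearMap.comp_apply, hwv, map_smul, hDv, smul_zero]
  refine charpoly_of_steinberg_eigenvector hpS 𝒪' hp𝒪' χ (tlN N S) (galTate p J)
    (actTate p J N (↑S : Set ℕ)) (galTate_continuous hlev) (actTate_commute N (↑S : Set ℕ))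
    (frob_actTate hpS hNS hF)
    ((tateMap (D.g.comp D.f)).prod ((tateMap (D.g.comp D.f)) ∘ₗ tateMap D.w)) (tateMap D.w) hv hv0
    (baseChange_prod_eq_zero hDv hDwv) hwv (cyc_frobenius 𝒪' hp𝒪' hq hqp hA hσ) ?_ ?_ ρ
    (hρ.isAttached hNS)
  · refine LinearMap.ext fun x => ?_
    ext n
    exact D.w_gal σ _
  · intro x hx
    obtain ⟨h1, h2⟩ := Prod.ext_iff.mp hx
    ext n
    have e1 : D.g (D.f (TateMod.proj n x)) = 0 := by
      have := congrArg (TateMod.proj n) h1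
      rwa [Prod.fst_zero, map_zero] at this
    have e2 : D.g (D.f (D.w (TateMod.proj n x))) = 0 := by
      have := congrArg (TateMod.proj n) h2
      rwa [Prod.snd_zero, map_zero] at this
    have h := D.star A hA σ hσ (TateMod.proj n x) ⟨n, TateMod.pow_smul_proj x n⟩ e1 e2
    simp only [map_add, map_nsmul, proj_galTate, proj_tateMap, map_zero]
    exact h

/-- **(E36)**: an eigenvector `v` killed by both degeneracy maps of a Carayol datum. No attached representation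
is unipotent on inertia at `q`: there is an inertia element `σ` where the trace is some `t ≠ 2`. -/
theorem E36_of_module {q : ℕ} (hq : q.Prime) (hqp : q ≠ p)
    {J₁ : Type*} [AddCommGroup J₁] [Module HeckeAlg J₁] [DistribMulAction GQ J₁]
    (D : CarayolJ N (↑S : Set ℕ) p q J J₁)
    (hfin₁ : {x : J₁ | p • x = 0}.Finite)
    (ha : ∀ (σ : GQ) (x : J), D.a (σ • x) = σ • D.a x)
    (hb : ∀ (σ : GQ) (x : J), D.b (σ • x) = σ • D.b x)
    {v : 𝒪' ⊗[ℤ_[p]] TateMod p J} (hv : v ∈ chiSub (actTate p J N (↑S : Set ℕ)) χ) (hv0 : v ≠ 0)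
    (hav : (tateMap (p := p) D.a).baseChange 𝒪' v = 0)
    (hbv : (tateMap (p := p) D.b).baseChange 𝒪' v = 0) :
    ∃ A : ValuationSubring (AlgebraicClosure ℚ), A.LiesOverPrime q ∧
      ∃ σ ∈ A.inertiaSubgroupIn ℚ, ∃ t : 𝒪', t ≠ 2 ∧
      ∀ {𝒪'' : Type} [CommRing 𝒪''] [IsLocalRing 𝒪''] [IsHausdorff (maximalIdeal 𝒪'') 𝒪'']
        [Algebra 𝒪' 𝒪''] [IsLocalHom (algebraMap 𝒪' 𝒪'')]
        (ρ : GaloisRepAdic 𝒪'') (_ : IsAttachedN N S χ ρ),
        LinearMap.charpoly (ρ.ρ σ) = X ^ 2 - C (algebraMap 𝒪' 𝒪'' t) * X + 1 := by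
  have := TateMod.finite_of_finite_torsion (p := p) (J := J) hfin
  have := TateMod.free_of_finite_torsion (p := p) (J := J) hfin
  have := TateMod.free_of_finite_torsion (p := p) (J := J₁) hfin₁
  obtain ⟨A, hA, hfix⟩ := D.fixed
  refine ⟨A, hA, ?_⟩
  obtain ⟨σ, hσ, t, ht, h⟩ := exists_inertia_of_carayol hpS 𝒪' hp𝒪' χ (tlN N S) (galTate p J)
    (actTate p J N (↑S : Set ℕ)) (galTate_continuous hlev) (actTate_commute N (↑S : Set ℕ))
    (frob_actTate hpS hNS hF) ((tateMap D.a).prod (tateMap D.b)) hv hv0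
    (baseChange_prod_eq_zero hav hbv) hq hqp hA
    (by
      intro σ _ x hx
      obtain ⟨h1, h2⟩ := Prod.ext_iff.mp hx
      have e1 : ∀ n, D.a (TateMod.proj n x) = 0 := fun n => by
        have := congrArg (TateMod.proj n) h1
        rwa [Prod.fst_zero, map_zero] at this
      have e2 : ∀ n, D.b (TateMod.proj n x) = 0 := fun n => by
        have := congrArg (TateMod.proj n) h2
        rwa [Prod.snd_zero, map_zero] at this
      refine Prod.ext ?_ ?_
      · ext n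
        show D.a (σ • TateMod.proj n x) = 0
        rw [ha, e1, smul_zero]
      · ext n
        show D.b (σ • TateMod.proj n x) = 0
        rw [hb, e2, smul_zero])
    (by
      intro x hI hx
      obtain ⟨h1, h2⟩ := Prod.ext_iff.mp hx
      have h0 : (p : ℤ_[p]) ^ D.c • x = 0 := by
        ext n
        have e1 : D.a (TateMod.proj n x) = 0 := by
          have := congrArg (TateMod.proj n) h1
          rwa [Prod.fst_zero, map_zero] at this
        have e2 : D.b (TateMod.proj n x) = 0 := by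
          have := congrArg (TateMod.proj n) h2
          rwa [Prod.snd_zero, map_zero] at this
        have h := hfix (TateMod.proj n x) ⟨n, TateMod.pow_smul_proj x n⟩ (fun σ hσ => by
          have := congrArg (TateMod.proj n) (hI σ hσ)
          rwa [proj_galTate] at this) e1 e2
        rw [← Nat.cast_pow, TateMod.natCast_smul, map_nsmul, h, map_zero]
      exact TateMod.pow_smul_injective _ h0)
  refine ⟨σ, hσ, t, ht, ?_⟩
  intro 𝒪'' _ _ _ _ _ ρ hρ
  exact h ρ (hρ.isAttached hNS)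

/-- **(E36)** in terms of `IsUnipotentOnInertiaAt`. -/
theorem E36_of_module' {q : ℕ} (hq : q.Prime) (hqp : q ≠ p)
    {J₁ : Type*} [AddCommGroup J₁] [Module HeckeAlg J₁] [DistribMulAction GQ J₁]
    (D : CarayolJ N (↑S : Set ℕ) p q J J₁)
    (hfin₁ : {x : J₁ | p • x = 0}.Finite)
    (ha : ∀ (σ : GQ) (x : J), D.a (σ • x) = σ • D.a x)
    (hb : ∀ (σ : GQ) (x : J), D.b (σ • x) = σ • D.b x)
    {v : 𝒪' ⊗[ℤ_[p]] TateMod p J} (hv : v ∈ chiSub (actTate p J N (↑S : Set ℕ)) χ) (hv0 : v ≠ 0)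
    (hav : (tateMap (p := p) D.a).baseChange 𝒪' v = 0)
    (hbv : (tateMap (p := p) D.b).baseChange 𝒪' v = 0)
    {𝒪'' : Type} [CommRing 𝒪''] [IsLocalRing 𝒪''] [IsHausdorff (maximalIdeal 𝒪'') 𝒪'']
    [Algebra 𝒪' 𝒪''] [IsLocalHom (algebraMap 𝒪' 𝒪'')]
    (hinj : Function.Injective (algebraMap 𝒪' 𝒪''))
    (ρ : GaloisRepAdic 𝒪'') (hρ : IsAttachedN N S χ ρ) : ¬ ρ.IsUnipotentOnInertiaAt q := by
  obtain ⟨A, hA, σ, hσ, t, ht, h⟩ := E36_of_module hpS hNS 𝒪' hp𝒪' χ hfin hF hlev hq hqp D hfin₁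
    ha hb hv hv0 hav hbv
  intro huni
  apply ht
  apply hinj
  have h3 := huni A hA σ hσ
  rw [h ρ hρ] at h3
  have h4 := congrArg (fun P : Polynomial 𝒪'' => P.coeff 1) h3
  have h5 : ((X - 1 : Polynomial 𝒪'') ^ 2) = X ^ 2 - C 2 * X + C 1 := by
    simp only [map_ofNat, map_one]
    ring
  rw [h5, ← C_1] at h4
  simp only [coeff_add, coeff_sub, coeff_X_pow, coeff_C_mul, coeff_X_one, mul_one,
    coeff_C_succ, add_zero] at h4
  rw [map_ofNat]
  simpa using h4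

end Module

/-- conditions on composites: if `g` is injective on `p`-power torsion up to bounded exponent, `(g ∘ a) v = 0`
implies `a v = 0`. -/
theorem baseChange_tateMap_of_comp {p : ℕ} [Fact p.Prime] {O : Type*} [CommRing O] [IsDomain O]
    [Algebra ℤ_[p] O] (hinj : Function.Injective (algebraMap ℤ_[p] O))
    {J J₁ J₂ : Type*} [AddCommGroup J] [AddCommGroup J₁] [AddCommGroup J₂]
    (hfin₂ : {x : J₂ | p • x = 0}.Finite)
    (a : J →+ J₁) (g : J₁ →+ J₂) (c : ℕ)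
    (hg : ∀ x : J₁, (∃ n : ℕ, p ^ n • x = 0) → g x = 0 → p ^ c • x = 0)
    {v : O ⊗[ℤ_[p]] TateMod p J}
    (hv : (tateMap (p := p) (g.comp a)).baseChange O v = 0) :
    (tateMap (p := p) a).baseChange O v = 0 := by
  have := TateMod.free_of_finite_torsion (p := p) (J := J₂) hfin₂
  refine baseChange_eq_zero_of_ker hinj (tateMap (g.comp a)) (tateMap a) (fun x hx => ?_) hv
  have h0 : (p : ℤ_[p]) ^ c • tateMap (p := p) a x = 0 := by
    ext n
    have e1 : g (a (TateMod.proj n x)) = 0 := by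
      have := congrArg (TateMod.proj n) hx
      rwa [map_zero] at this
    have h := hg (a (TateMod.proj n x)) ⟨n, by
      rw [← map_nsmul, TateMod.pow_smul_proj, map_zero]⟩ e1
    rw [← Nat.cast_pow, TateMod.natCast_smul, map_nsmul, proj_tateMap, h, map_zero]
  exact TateMod.pow_smul_injective _ h0

end Fermat.Agent.H62
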