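import Mathlib
import Fermat.Agent.H62NewJ
import Fermat.Agent.H35Fin
import Fermat.Agent.H31Inputs

/-!
# (E34), (E35), (E36) for eigenvectors in `𝒪' ⊗ T_p J₀(N)` (MODLIFT, ML-EA, helper4)

The eigensystem is given by `lam : ℕ → 𝒪'`, the representation is attached in the sense of
`H62.IsAttached S lam ρ`.
-/

set_option autoImplicit false
set_option linter.style.haveILetI false
set_option linter.unusedSectionVars false

noncomputable section

open IsLocalRing Module TensorProduct Polynomial CuspForm ModularCurve AlgebraicCurve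
  Fermat.Agent.H31 Fermat.Agent.H30 Fermat.Agent.H35 Fermat.Agent.H67 Fermat.Agent.H62

namespace Fermat.Agent.H4

section EAJ

variable {p : ℕ} [Fact p.Prime] {S : Finset ℕ}
    {𝒪' : Type} [CommRing 𝒪'] [IsDomain 𝒪'] [IsDiscreteValuationRing 𝒪']
    [IsAdicComplete (IsLocalRing.maximalIdeal 𝒪') 𝒪'] [Finite (IsLocalRing.ResidueField 𝒪')]
    [CharZero 𝒪'] [Algebra ℤ_[p] 𝒪']

/-- the eigensystem of the abstract Hecke algebra -/
def chiOf (N : ℕ) (S : Finset ℕ) {𝒪' : Type} [CommRing 𝒪'] (lam : ℕ → 𝒪') :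
    MvPolynomial (GoodPrimes N (↑S : Set ℕ)) ℤ →+* 𝒪' :=
  MvPolynomial.eval₂Hom (Int.castRingHom 𝒪') (fun a => lam (a.1 : ℕ))

theorem chiOf_X (N : ℕ) (S : Finset ℕ) (lam : ℕ → 𝒪') (a : GoodPrimes N (↑S : Set ℕ)) :
    chiOf N S lam (MvPolynomial.X a) = lam (a.1 : ℕ) := by
  unfold chiOf
  rw [MvPolynomial.coe_eval₂Hom, MvPolynomial.eval₂_X]

theorem isAttachedN_chiOf {N : ℕ} {lam : ℕ → 𝒪'} {𝒪'' : Type} [CommRing 𝒪''] [IsLocalRing 𝒪'']
    [Algebra 𝒪' 𝒪''] {ρ : GaloisRepAdic 𝒪''} (h : IsAttached S lam ρ) :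
    IsAttachedN N S (chiOf N S lam) ρ := by
  intro a A hA φ hφ
  rw [chiOf_X]
  exact h (a.1 : ℕ) a.1.2 (by simpa using a.2.2) A hA φ hφ

/-- `v ∈ 𝒪' ⊗ T_p J₀(N)` is an eigenvector with eigenvalues `lam ℓ`. -/
def IsEigJ (p : ℕ) [Fact p.Prime] [Algebra ℤ_[p] 𝒪'] (N : ℕ) [NeZero N] (S : Finset ℕ)
    (lam : ℕ → 𝒪')
    (v : 𝒪' ⊗[ℤ_[p]] TateMod p (JZero N)) : Prop :=
  ∀ ℓ : Nat.Primes, ¬ (ℓ : ℕ) ∣ N → (ℓ : ℕ) ∉ S →
    (tateMap (p := p) (heckeOperatorBar N ℓ)).baseChange 𝒪' v = lam (ℓ : ℕ) • v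

theorem IsEigJ.mem_chiSub {N : ℕ} [NeZero N] {lam : ℕ → 𝒪'}
    {v : 𝒪' ⊗[ℤ_[p]] TateMod p (JZero N)} (h : IsEigJ p N S lam v) :
    letI := heckeModuleBar N
    v ∈ chiSub (actTate p (JZero N) N (↑S : Set ℕ)) (chiOf N S lam) := by
  letI := heckeModuleBar N
  refine (Fermat.Agent.H35.mem_chiSub _ _).mpr fun P => ?_
  induction P using MvPolynomial.induction_on with
  | C a =>
    have h1 : actTate p (JZero N) N (↑S : Set ℕ) (MvPolynomial.C a) =
        (a : Module.End ℤ_[p] (TateMod p (JZero N))) := by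
      rw [show (MvPolynomial.C a : MvPolynomial (GoodPrimes N (↑S : Set ℕ)) ℤ) =
        (a : MvPolynomial (GoodPrimes N (↑S : Set ℕ)) ℤ) by simp, map_intCast]
    have h2 : chiOf N S lam (MvPolynomial.C a) = (a : 𝒪') := by
      rw [show (MvPolynomial.C a : MvPolynomial (GoodPrimes N (↑S : Set ℕ)) ℤ) =
        (a : MvPolynomial (GoodPrimes N (↑S : Set ℕ)) ℤ) by simp, map_intCast]
    rw [h1, h2]
    have h3 : (a : Module.End ℤ_[p] (TateMod p (JZero N))) =
        a • (LinearMap.id : Module.End ℤ_[p] (TateMod p (JZero N))) := by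
      rw [zsmul_eq_mul]
      exact (mul_one _).symm
    rw [h3]
    have h4 : (a • (LinearMap.id : Module.End ℤ_[p] (TateMod p (JZero N)))).baseChange 𝒪' =
        a • (LinearMap.id : Module.End 𝒪' (𝒪' ⊗[ℤ_[p]] TateMod p (JZero N))) := by
      have := map_zsmul (LinearMap.baseChangeHom ℤ_[p] 𝒪' (TateMod p (JZero N)) (TateMod p (JZero N))) a LinearMap.id
      exact this.trans (by congr 1; exact LinearMap.baseChange_id)
    rw [h4, LinearMap.smul_apply, LinearMap.id_apply]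
    exact (Int.cast_smul_eq_zsmul 𝒪' a v).symm
  | add P Q hP hQ =>
    rw [map_add, map_add, LinearMap.baseChange_add, LinearMap.add_apply, hP, hQ, add_smul]
  | mul_X P a hP =>
    rw [map_mul, map_mul, Module.End.mul_eq_comp, LinearMap.baseChange_comp, LinearMap.comp_apply, chiOf_X]
    have h1 : actTate p (JZero N) N (↑S : Set ℕ) (MvPolynomial.X a) =
        tateMap (p := p) (heckeOperatorBar N a.1) := by
      refine LinearMap.ext fun x => ?_
      ext n
      rw [proj_actTate, proj_tateMap, inclHecke_X]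
      exact heckeModuleBar_heckeGen_smul (heckeOperatorsCommuteBar N) a.1 _
    rw [h1, h a.1 a.2.1 (by simpa using a.2.2), map_smul, hP, smul_smul, mul_comm]

variable (hpS : p ∈ S)

/-- **(E34)** for `J₀(N)`. -/
theorem E34_JZero {N : ℕ} [NeZero N] (hpS : p ∈ S) (hNS : ∀ q : ℕ, q.Prime → q ∣ N → q ∈ S)
    (hp𝒪' : (p : 𝒪') ∈ IsLocalRing.maximalIdeal 𝒪') {lam : ℕ → 𝒪'}
    {v : 𝒪' ⊗[ℤ_[p]] TateMod p (JZero N)} (hv : IsEigJ p N S lam v) (hv0 : v ≠ 0)
    {q : ℕ} (hq : q.Prime) (hqp : q ≠ p) (hss : UnipotentTorsion p q (JZero N))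
    (ρ : GaloisRepAdic 𝒪') (hρ : IsAttached S lam ρ) : ρ.IsUnipotentOnInertiaAt q := by
  letI := heckeModuleBar N
  haveI := (jzeroInputs N).comm
  haveI := (jzeroInputs N).principal
  have hp : p.Prime := Fact.out
  exact E34_of_module (J := JZero N) hpS hNS 𝒪' hp𝒪' (chiOf N S lam)
    (by simpa using (jzeroInputs N).finite p 1 hp)
    (frobeniusQuadratic_of_specializationExists ((jzeroInputs N).spec p hp))
    (finiteLevel_JZero N p (fun n => (jzeroInputs N).finite p n hp)) hq hqp hss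
    hv.mem_chiSub hv0 ρ (isAttachedN_chiOf hρ)

/-- **(E35)** for `J₀(Mq)`. -/
theorem E35_JZero {M q : ℕ} [NeZero M] [NeZero (M * q)] [NeZero q] (hpS : p ∈ S)
    (hNS : ∀ r : ℕ, r.Prime → r ∣ M * q → r ∈ S)
    (hp𝒪' : (p : 𝒪') ∈ IsLocalRing.maximalIdeal 𝒪') {lam : ℕ → 𝒪'}
    {v : 𝒪' ⊗[ℤ_[p]] TateMod p (JZero (M * q))} (hv : IsEigJ p (M * q) S lam v) (hv0 : v ≠ 0)
    (hq : q.Prime) (hqp : q ≠ p) (hqM : ¬ q ∣ M) (hstar : StarInput p q M)
    (h1 : (tateMap (p := p) (degPush (M := M) (N := M * q) 1 (by simp))).baseChange 𝒪' v = 0)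
    (h2 : (tateMap (p := p) (degPush (M := M) (N := M * q) q (dvd_refl _))).baseChange 𝒪' v = 0) :
    ∃ u : 𝒪', (u = 1 ∨ u = -1) ∧
      ∀ (ρ : GaloisRepAdic 𝒪') (_ : IsAttached S lam ρ)
        (A : ValuationSubring (AlgebraicClosure ℚ)) (_ : A.LiesOverPrime q)
        (σ : H53.GQ) (_ : A.IsFrobeniusAt σ q),
        LinearMap.charpoly (ρ.ρ σ) = (X - C u) * (X - C (u * (q : 𝒪'))) := by
  letI := heckeModuleBar (M * q)
  letI := heckeModuleBar M
  haveI := (jzeroInputs (M * q)).comm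
  haveI := (jzeroInputs (M * q)).principal
  have hp : p.Prime := Fact.out
  have hc : M.Coprime q := (Nat.coprime_comm.mp ((Nat.Prime.coprime_iff_not_dvd hq).mpr hqM))
  let D : SteinbergJ (M * q) (↑S : Set ℕ) p q (JZero (M * q)) (JZero M) :=
    { w := wJ M q rfl hc
      f := degPush 1 (by simp)
      g := degPull q (dvd_refl _)
      w_w := wJ_wJ rfl hc
      w_hecke := heckeEquiv_wJ hc (↑S : Set ℕ)
      w_gal := wJ_galois rfl hc
      f_hecke := heckeEquiv_degPush hq (Or.inl rfl) _ (↑S : Set ℕ)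
      star := hstar hc }
  have hcomp : ∀ {J₀ J₁ J₂ : Type} [AddCommGroup J₀] [AddCommGroup J₁] [AddCommGroup J₂]
      (f : J₀ →+ J₁) (g : J₁ →+ J₂), tateMap (p := p) (g.comp f) =
        (tateMap (p := p) g) ∘ₗ (tateMap (p := p) f) := by
    intro J₀ J₁ J₂ _ _ _ f g
    rfl
  obtain ⟨u, hu, h⟩ := E35_of_module (J := JZero (M * q)) hpS hNS 𝒪' hp𝒪' (chiOf (M * q) S lam)
    (by simpa using (jzeroInputs (M * q)).finite p 1 hp)
    (frobeniusQuadratic_of_specializationExists ((jzeroInputs (M * q)).spec p hp))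
    (finiteLevel_JZero (M * q) p (fun n => (jzeroInputs (M * q)).finite p n hp)) hq hqp D
    hv.mem_chiSub hv0 (by
      show (tateMap (p := p) ((degPull q (dvd_refl _)).comp
        (degPush (M := M) (N := M * q) 1 (by simp)))).baseChange 𝒪' v = 0
      rw [hcomp, LinearMap.baseChange_comp, LinearMap.comp_apply, h1, map_zero])
    (by
      show (tateMap (p := p) ((degPull q (dvd_refl _)).comp
        (degPush (M := M) (N := M * q) 1 (by simp)))).baseChange 𝒪'
          ((tateMap (p := p) (wJ M q rfl hc)).baseChange 𝒪' v) = 0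
      rw [hcomp, LinearMap.baseChange_comp, LinearMap.comp_apply, ← LinearMap.comp_apply
        ((tateMap (p := p) (degPush (M := M) (N := M * q) 1 (by simp))).baseChange 𝒪'),
        ← LinearMap.baseChange_comp, ← hcomp]
      have h3 : (degPush (M := M) (N := M * q) 1 (by simp)).comp (wJ M q rfl hc) =
          degPush (M := M) (N := M * q) q (dvd_refl _) :=
        AddMonoidHom.ext fun x => degPush_one_wJ rfl hc (by simp) (dvd_refl _) x
      rw [h3, h2, map_zero])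
  refine ⟨u, hu, fun ρ hρ A hA σ hσ => ?_⟩
  have := h ρ (isAttachedN_chiOf hρ) A hA σ hσ
  simpa using this

/-- **(E36)** for `J₀(Mq)`, `q ∣ M`. -/
theorem E36_JZero {M q : ℕ} [NeZero M] [NeZero (M * q)] [NeZero q] (hpS : p ∈ S)
    (hNS : ∀ r : ℕ, r.Prime → r ∣ M * q → r ∈ S)
    (hp𝒪' : (p : 𝒪') ∈ IsLocalRing.maximalIdeal 𝒪') {lam : ℕ → 𝒪'}
    {v : 𝒪' ⊗[ℤ_[p]] TateMod p (JZero (M * q))} (hv : IsEigJ p (M * q) S lam v) (hv0 : v ≠ 0)
    (hq : q.Prime) (hqp : q ≠ p) (hfix : FixedInput p q M)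
    (h1 : (tateMap (p := p) (degPush (M := M) (N := M * q) 1 (by simp))).baseChange 𝒪' v = 0)
    (h2 : (tateMap (p := p) (degPush (M := M) (N := M * q) q (dvd_refl _))).baseChange 𝒪' v = 0)
    (ρ : GaloisRepAdic 𝒪') (hρ : IsAttached S lam ρ) : ¬ ρ.IsUnipotentOnInertiaAt q := by
  letI := heckeModuleBar (M * q)
  letI := heckeModuleBar M
  haveI := (jzeroInputs (M * q)).comm
  haveI := (jzeroInputs (M * q)).principal
  have hp : p.Prime := Fact.out
  obtain ⟨c, A, hA, h⟩ := hfix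
  let D : CarayolJ (M * q) (↑S : Set ℕ) p q (JZero (M * q)) (JZero M) :=
    { a := degPush 1 (by simp)
      b := degPush q (dvd_refl _)
      a_hecke := heckeEquiv_degPush hq (Or.inl rfl) _ (↑S : Set ℕ)
      b_hecke := heckeEquiv_degPush hq (Or.inr rfl) _ (↑S : Set ℕ)
      c := c
      fixed := ⟨A, hA, h⟩ }
  exact E36_of_module' (J := JZero (M * q)) hpS hNS 𝒪' hp𝒪' (chiOf (M * q) S lam)
    (by simpa using (jzeroInputs (M * q)).finite p 1 hp)
    (frobeniusQuadratic_of_specializationExists ((jzeroInputs (M * q)).spec p hp))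
    (finiteLevel_JZero (M * q) p (fun n => (jzeroInputs (M * q)).finite p n hp)) hq hqp D
    (by simpa using (jzeroInputs M).finite p 1 hp)
    (fun σ x => degPush_galois 1 _ σ x) (fun σ x => degPush_galois q _ σ x)
    hv.mem_chiSub hv0 h1 h2 Function.injective_id ρ (isAttachedN_chiOf hρ)

end EAJ

end Fermat.Agent.H4

end
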