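import Fermat.Agent.H62NE
import Fermat.Agent.H62New

/-!
# An adic representation with irreducible odd residual representation is not Eisenstein
(MODLIFT, ML-EA, helper4)
-/

set_option autoImplicit false

noncomputable section

open IsLocalRing Polynomial TensorProduct Fermat.Agent.H62

namespace Fermat.Agent.H4

local notation "Qb" => AlgebraicClosure ℚ
local notation "Gq" => (AlgebraicClosure ℚ ≃ₐ[ℚ] AlgebraicClosure ℚ)

variable {p : ℕ} [Fact p.Prime]

theorem trace_residual {O : Type} [CommRing O] [IsLocalRing O] (ρ : GaloisRepAdic O) (g : Gq) :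
    LinearMap.trace (ResidueField O) ρ.residual.V (ρ.residual.ρ g) =
      residue O (LinearMap.trace O ρ.V (ρ.ρ g)) := by
  have h : LinearMap.trace (ResidueField O) (ResidueField O ⊗[O] ρ.V)
      ((ρ.ρ g).baseChange (ResidueField O)) = algebraMap O (ResidueField O)
        (LinearMap.trace O ρ.V (ρ.ρ g)) := LinearMap.trace_baseChange _ _
  exact h

theorem det_residual {O : Type} [CommRing O] [IsLocalRing O] (ρ : GaloisRepAdic O) (g : Gq) :
    LinearMap.det (ρ.residual.ρ g) = residue O (LinearMap.det (ρ.ρ g)) := by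
  have h : LinearMap.det ((ρ.ρ g).baseChange (ResidueField O)) = algebraMap O (ResidueField O)
        (LinearMap.det (ρ.ρ g)) := LinearMap.det_baseChange _
  exact h

theorem two_ne_zero_residue (hp2 : p ≠ 2) {O : Type} [CommRing O] [IsLocalRing O]
    (hpO : (p : O) ∈ maximalIdeal O) : (2 : ResidueField O) ≠ 0 := by
  intro h
  have h1 : ((p : ℕ) : ResidueField O) = 0 := by
    have := (residue_eq_zero_iff (R := O) (p : O)).mpr hpO
    rwa [map_natCast] at this
  have hcop : Nat.Coprime p 2 := (Nat.coprime_primes Fact.out Nat.prime_two).mpr hp2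
  have h2 : ((2 : ℕ) : ResidueField O) = 0 := by exact_mod_cast h
  have h3 := Nat.Coprime.cast (R := ResidueField O) hcop
  rw [h1, h2] at h3
  exact not_isCoprime_zero_zero h3

theorem det_residual_complexConjugation {O : Type} [CommRing O] [IsLocalRing O]
    [IsNoetherianRing O] (hpO : (p : O) ∈ maximalIdeal O) (S : Finset ℕ) (lam : ℕ → O)
    (ρ : GaloisRepAdic O) (hρ : IsAttached S lam ρ) :
    LinearMap.det (ρ.residual.ρ complexConjugation) = -1 := by
  have hp : p.Prime := Fact.out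
  have hcyc := H86.detIsCyclotomic_of_frobenius H86.frobDensityFinite ρ hp hpO S
    (fun ℓ hℓ hℓS P hP φ hφ =>
      H31.det_eq_of_charpoly ρ.finrank_eq (ρ.ρ φ) _ _ (hρ ℓ hℓ hℓS P hP φ hφ))
  have : NeZero p := ⟨hp.ne_zero⟩
  have hinv : ∀ μ : Qb, μ ^ p ^ 1 = 1 → complexConjugation μ = μ ^ (p - 1) := by
    intro μ hμ
    rw [pow_one] at hμ
    have hr : Nat.card (rootsOfUnity p Qb) = p := by
      have : NeZero (p : Qb) := ⟨Nat.cast_ne_zero.mpr hp.ne_zero⟩
      exact HasEnoughRootsOfUnity.natCard_rootsOfUnity Qb p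
    have hu : IsUnit μ := IsUnit.of_pow_eq_one hμ hp.ne_zero
    obtain ⟨t, rfl⟩ := hu
    have ht : t ∈ rootsOfUnity p Qb := by
      rw [mem_rootsOfUnity]
      exact Units.ext (by rw [Units.val_pow_eq_pow_val, hμ, Units.val_one])
    have h3 := modularCyclotomicCharacter.spec Qb hr (complexConjugation : Qb ≃+* Qb) ht
    have h4 := H87.Res.cyclotomic_involution complexConjugation_mul_self
      H87.Res.complexConjugation_ne_one hr
    rw [h4] at h3
    refine h3.trans ?_
    have h5 : (((-1 : (ZMod p)ˣ) : ZMod p)).val = p - 1 := by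
      rw [Units.val_neg, Units.val_one]
      obtain ⟨m, hm⟩ : ∃ m, p = m + 1 := ⟨p - 1, by have := hp.pos; omega⟩
      subst hm
      rw [ZMod.val_neg_one]
      rfl
    rw [h5]
  have h1 := hcyc.2 1 complexConjugation (p - 1) hinv
  rw [det_residual]
  have h2 : LinearMap.det (ρ.ρ complexConjugation) - ((p - 1 : ℕ) : O) ∈ maximalIdeal O := by
    refine (Ideal.span_singleton_le_iff_mem _).mpr ?_ h1
    rw [pow_one]; exact hpO
  have h3 : residue O (LinearMap.det (ρ.ρ complexConjugation)) = residue O ((p - 1 : ℕ) : O) := by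
    rw [← sub_eq_zero, ← map_sub]
    exact (residue_eq_zero_iff _).mpr h2
  rw [h3]
  have h4 : ((p - 1 : ℕ) : O) = (p : O) - 1 := by
    rw [Nat.cast_sub hp.one_le, Nat.cast_one]
  rw [h4, map_sub, (residue_eq_zero_iff (R := O) (p : O)).mpr hpO, map_one, zero_sub]

/-- **Non-Eisenstein primes.** -/
theorem exists_nonEis (hp2 : p ≠ 2) {O : Type} [CommRing O] [IsLocalRing O]
    [IsNoetherianRing O] (hpO : (p : O) ∈ maximalIdeal O) (S : Finset ℕ) (lam : ℕ → O)
    (ρ : GaloisRepAdic O) (hρ : IsAttached S lam ρ) (hirr : ρ.residual.IsIrreducible)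
    {L : ℕ} (hL : 0 < L) :
    ∃ ℓ : ℕ, ℓ.Prime ∧ ℓ ∉ S ∧ (ℓ : ZMod L) = 1 ∧ IsUnit (lam ℓ - (1 + ℓ)) := by
  classical
  have : NeZero L := ⟨hL.ne'⟩
  have hL' : NeZero (L : Qb) := ⟨Nat.cast_ne_zero.mpr hL.ne'⟩
  have hr : Nat.card (rootsOfUnity L Qb) = L := HasEnoughRootsOfUnity.natCard_rootsOfUnity Qb L
  have h2 := ρ.residual.finrank_eq
  obtain ⟨g, hgker, hg⟩ := exists_tr_ne (ρ := ρ.residual.ρ) h2 hirr
    (two_ne_zero_residue hp2 hpO) (c := complexConjugation) (by
      rw [← map_mul, complexConjugation_mul_self, map_one])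
    (det_residual_complexConjugation hpO S lam ρ hρ)
    (cycHom L hr).ker (fun g => by
      rw [MonoidHom.mem_ker, _root_.map_mul, _root_.map_mul, _root_.map_mul, map_inv, map_inv,
        mul_comm (cycHom L hr g), mul_assoc, mul_assoc, mul_inv_cancel_left]
      rw [mul_inv_cancel])
  have hfix : ∀ ζ : Qb, ζ ^ L = 1 → g ζ = ζ := by
    intro ζ hζ
    have hu : IsUnit ζ := IsUnit.of_pow_eq_one hζ hL.ne'
    obtain ⟨t, rfl⟩ := hu
    have ht : t ∈ rootsOfUnity L Qb := by
      rw [mem_rootsOfUnity]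
      exact Units.ext (by rw [Units.val_pow_eq_pow_val, hζ, Units.val_one])
    have h3 := modularCyclotomicCharacter.spec Qb hr (g : Qb ≃+* Qb) ht
    have h4 : modularCyclotomicCharacter Qb hr (g : Qb ≃+* Qb) = 1 := hgker
    rw [h4] at h3
    refine h3.trans ?_
    rw [Units.val_one, ZMod.val_one_eq_one_mod]
    have h5 := pow_eq_pow_mod (M := Qb) 1 hζ
    rw [pow_one] at h5
    rw [← h5]
  obtain ⟨ℓ, hℓ, hℓS, hℓL, A, hA, φ, hφ, j, k, h3, h4⟩ := density_hom_cyc
    ρ.residual.factorsThroughFiniteLevel hL g hfix S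
  refine ⟨ℓ, hℓ, hℓS, hℓL, ?_⟩
  by_contra hcon
  apply hg
  have h5 : lam ℓ - (1 + ℓ) ∈ maximalIdeal O := (mem_maximalIdeal _).mpr hcon
  have hch := hρ ℓ hℓ hℓS A hA φ hφ
  have h6 : LinearMap.trace O ρ.V (ρ.ρ φ) = lam ℓ := by
    have := H31.trace_pow_of_charpoly ρ.finrank_eq (ρ.ρ φ) _ _ hch 1
    simpa [H31.luc] using this
  have h7 : LinearMap.det (ρ.ρ φ) = ℓ := H31.det_eq_of_charpoly ρ.finrank_eq (ρ.ρ φ) _ _ hch
  rw [h3]
  apply tr_pow h2
  rw [trace_residual, det_residual, h6, h7, ← map_one (residue O), ← map_add, ← sub_eq_zero,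
    ← map_sub]
  exact (residue_eq_zero_iff _).mpr h5

end Fermat.Agent.H4

end
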