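import Fermat.Agent.H94BRTheta
import Fermat.Agent.H67J
import Fermat.Agent.H37TrEq
import Fermat.Agent.H90Faithful

/-!
# The comparison `R ⊗ T_p J₀(N) ≃ Hom_PE(Γ₀(N), R)` for `JZero N`

* `thetaJ N hinj : R ⊗[ℤ_[p]] TateMod p (JZero N) ≃ₗ[R] PES N R R`
* `RealJ T h` : the homomorphism `T : JZero N →+ JZero M` is realised by the Hecke family `h`;
  `realJ_hecke`, `realJ_degPush_one`, `realJ_degPush_prime`, `realJ_degPull`, `realJ_wJ`,
  `RealJ.comp`;
* `thetaJ_baseChange` : compatibility with `homOp`;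
* `opH_homH1` : `homOp` is the action on `H¹` with trivial character (helper70);
* `mem_chiSub_of_hom` : Hecke eigenclasses in `Hom_PE` give elements of `chiSub`.
-/

set_option autoImplicit false
set_option linter.unusedSectionVars false
set_option linter.style.haveILetI false

noncomputable section

namespace Fermat.Agent.H94.BR

open Fermat.Agent.H70.Coh CongruenceSubgroup ModularCurve Fermat.Agent.H24 Fermat.Agent.H61
open AlgebraicCurve Fermat.Agent.H90 Fermat.Agent.H4 Fermat.Agent.H67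
open Fermat.Agent.H30 Fermat.Agent.H35 Fermat.Agent.H31
open UpperHalfPlane hiding I
open scoped MatrixGroups Manifold TensorProduct

/-! ### Atkin–Lehner automorphisms in the sense of helper67 -/

section AL67

variable {K : Type*} [Field K] [Algebra K ℂ] [IsAlgClosed K] [CharZero K] [Algebra ℚ K]

theorem isPB_of_isAL67 {N Q : ℕ} [NeZero N] [NeZero Q] [NeZero (N * Q)] (hNQ : N.Coprime Q)
    {W : FX K (N * Q) ≃ₐ[K] FX K (N * Q)} (hW : H67.IsAL N Q W)
    (a b c d : ℤ) (h : (Q : ℤ) * a * d - N * b * c = 1) :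
    IsPB W.toAlgHom (alMat N Q a b c d h) := by
  obtain ⟨W', hW'⟩ := BR.exists_isAL (K := K) hNQ
  have h1 : H67.IsAL N Q W' := by
    intro m hm
    have h1 : (⟨H42.jd K m, H42.jd_mem_bar (mul_ne_zero (NeZero.ne N) (NeZero.ne Q)) hm⟩ :
        FB K (N * Q)) = ⟨H66.J K m, J_mem_FB hm⟩ := Subtype.ext (jd_eq_J K m)
    have h2 := congrArg (Subtype.val) (hW'.jd m hm)
    rw [h1] at h2
    exact h2.trans (jd_eq_J K _)
  rw [hW.unique h1]
  exact hW'.isPB hNQ a b c d h

theorem realizes_pushP_isAL67 {N Q : ℕ} [NeZero N] [NeZero Q] [NeZero (N * Q)]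
    (hNQ : N.Coprime Q) {W : FX K (N * Q) ≃ₐ[K] FX K (N * Q)} (hW : H67.IsAL N Q W)
    (w : H37.Tr.AL N Q) (hQ : 0 < Q) :
    Realizes K (pushP W.toAlgHom) (H37.Tr.wFam (one_dvd N) hQ w) := by
  have h0 : pushP W.toAlgHom = pullP W.toAlgHom :=
    AddMonoidHom.ext fun x => (hW.pullP_eq rfl hNQ x).symm
  rw [h0]
  haveI : Unique (H37.Tr.wFam (one_dvd N) hQ w).J := inferInstanceAs (Unique Unit)
  refine realizes_pull (isPB_of_isAL67 hNQ hW w.x w.y w.z w.t w.eq) _ ?_
  rfl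

end AL67

/-! ### comparison with `H¹` -/

section H1

variable {R : Type*} [CommRing R] {A : Type*} [AddCommGroup A] [Module R A]

/-- `homOp` is the action of the family on `H¹` with trivial character; the auxiliary level `N₀`
of the family is arbitrary. -/
theorem opH_homH1 {N₀ M M' : ℕ} (hM : N₀ ∣ M) (hM' : N₀ ∣ M')
    (h : HFam (gam N₀ M hM) (gam N₀ M' hM')) (h₁ : HFam (gm M) (gm M')) (e : h.J ≃ h₁.J)
    (he : ∀ i, (h.α i).1 = (h₁.α (e i)).1) (φ : Additive (Gamma0 M) →+ A) :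
    h.opH (psiRep (1 : (ZMod N₀)ˣ →* Rˣ) A) (homH1 hM R A φ) =
      homH1 hM' R A (homOp A h₁ φ) := by
  rw [homH1_apply, homH1_apply, HFam.opH_mk]
  congr 1
  apply Subtype.ext
  funext γ
  rw [HFam.op_apply_of_eq h _ γ ((e.trans (h₁.σ γ)).trans e.symm)
    (fun x => h₁.δ γ (e x)) (fun x => by
      apply Subtype.ext
      have h2 := congrArg Subtype.val (h₁.spec γ (e x))
      change (h.α x).1 * (gam N₀ M' hM' γ).1 = (gam N₀ M hM (h₁.δ γ (e x))).1 * (h.α _).1
      rw [he, he]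
      simp only [Equiv.trans_apply, Equiv.apply_symm_apply]
      exact h2)]
  rw [homZ1_apply, homOp_apply]
  refine Fintype.sum_equiv e _ _ fun x => ?_
  rw [slash_psiRep_one]
  rfl

end H1

section J

variable {p : ℕ} [hp : Fact p.Prime] {R : Type*} [CommRing R] [Algebra ℤ_[p] R] [IsDomain R]
variable {N M M' : ℕ} [NeZero N] [NeZero M] [NeZero M']
variable (hinj : Function.Injective (algebraMap ℤ_[p] R))

/-- `T` is realised on functions by the family `h`. -/
def RealJ (T : JZero N →+ JZero M) (h : HFam (gm N) (gm M)) : Prop :=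
  letI := algQbarC
  Realizes (AlgebraicClosure ℚ) T h

theorem RealJ.comp {T : JZero N →+ JZero M} {T' : JZero M →+ JZero M'} {h : HFam (gm N) (gm M)}
    {h' : HFam (gm M) (gm M')} (H : RealJ T h) (H' : RealJ T' h') :
    RealJ (T'.comp T) (h.comp h') := by
  letI := algQbarC
  exact Realizes.comp H H'

/-- `T_ℓ`, `ℓ ∤ N` -/
theorem realJ_hecke {ℓ : ℕ} (hℓ : ℓ.Prime) (hℓN : ¬ ℓ ∣ N) :
    RealJ (heckeOperatorBar N ⟨ℓ, hℓ⟩).toAddMonoidHom (tF hℓ hℓN) := by
  letI := algQbarC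
  haveI : Fact ℓ.Prime := ⟨hℓ⟩
  haveI : NeZero ℓ := ⟨hℓ.ne_zero⟩
  exact realizes_hecke hℓN

/-- the trace -/
theorem realJ_degPush_one {q : ℕ} (hq : q.Prime) [NeZero q] [NeZero (M * q)]
    (h : M * 1 ∣ M * q) : RealJ (degPush (M := M) (N := M * q) 1 h) (trF M q) := by
  letI := algQbarC
  exact realizes_pushP_one hq h

/-- the twisted trace -/
theorem realJ_degPush_prime {q : ℕ} (hq : q.Prime) [NeZero q] [NeZero (M * q)]
    (h : M * q ∣ M * q) : RealJ (degPush (M := M) (N := M * q) q h) (nuF M hq) := by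
  letI := algQbarC
  exact realizes_pushP_prime hq h

/-- pull back along `τ ↦ d τ` -/
theorem realJ_degPull (d : ℕ) [NeZero d] (h : M * d ∣ N) :
    RealJ (degPull (M := M) (N := N) d h) (degF d h) := by
  letI := algQbarC
  exact realizes_pullP_dg d h

/-- Atkin–Lehner involutions -/
theorem realJ_wJ {A Q : ℕ} [NeZero A] [NeZero Q] [NeZero (A * Q)] (hc : A.Coprime Q)
    (w : H37.Tr.AL A Q) (hQ : 0 < Q) :
    RealJ (wJ (R := A * Q) A Q rfl hc) (H37.Tr.wFam (one_dvd A) hQ w) := by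
  letI := algQbarC
  exact realizes_pushP_isAL67 hc (isAL_atkin H67.embQbar A Q rfl hc) w hQ

variable (N) in
/-- **`R ⊗ T_p J₀(N) ≃ Hom_PE(Γ₀(N), R)`.** -/
def thetaJ : R ⊗[ℤ_[p]] TateMod p (JZero N) ≃ₗ[R] ↥(PES N R R) :=
  letI := algQbarC
  ThetaR (AlgebraicClosure ℚ) N p R hinj

/-- **Compatibility with realised correspondences.** -/
theorem thetaJ_baseChange {T : JZero N →+ JZero M} {h : HFam (gm N) (gm M)} (H : RealJ T h)
    (v : R ⊗[ℤ_[p]] TateMod p (JZero N)) :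
    (thetaJ M hinj ((tateMap T).baseChange R v)).1 = homOp R h (thetaJ N hinj v).1 := by
  letI := algQbarC
  exact thetaR_baseChange hinj H v

theorem thetaJ_hecke {ℓ : ℕ} [hℓ : Fact ℓ.Prime] (hℓN : ¬ ℓ ∣ N)
    (v : R ⊗[ℤ_[p]] TateMod p (JZero N)) :
    (thetaJ N hinj ((tateMap (heckeOperatorBar N ⟨ℓ, hℓ.out⟩).toAddMonoidHom).baseChange R v)).1 =
      heckeHom hℓN (thetaJ N hinj v).1 := by
  rw [thetaJ_baseChange hinj (realJ_hecke hℓ.out hℓN), homOp_tF]

/-- An element is killed by `T` if and only if its class is killed by the family. -/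
theorem baseChange_eq_zero_iff {T : JZero N →+ JZero M} {h : HFam (gm N) (gm M)}
    (H : RealJ T h) (v : R ⊗[ℤ_[p]] TateMod p (JZero N)) :
    (tateMap T).baseChange R v = 0 ↔ homOp R h (thetaJ N hinj v).1 = 0 := by
  rw [← thetaJ_baseChange hinj H, ← (thetaJ M hinj).map_eq_zero_iff]
  constructor
  · intro h1
    rw [h1]
    rfl
  · intro h1
    exact Subtype.ext h1

/-- the Hecke operator at a good prime on the Tate module -/
theorem actTate_X {S : Set ℕ} (a : GoodPrimes N S) :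
    letI := heckeModuleBar N
    actTate p (JZero N) N S (MvPolynomial.X a) =
      tateMap (heckeOperatorBar N a.1).toAddMonoidHom := by
  letI := heckeModuleBar N
  refine LinearMap.ext fun x => ?_
  ext n
  rw [proj_actTate, proj_tateMap, inclHecke_X]
  exact heckeModuleBar_heckeGen_smul (heckeOperatorsCommuteBar N) a.1 _

omit [IsDomain R] in
theorem baseChange_intCast {T : Type*} [AddCommGroup T] [Module ℤ_[p] T] (a : ℤ)
    (v : R ⊗[ℤ_[p]] T) :
    ((a : Module.End ℤ_[p] T) : T →ₗ[ℤ_[p]] T).baseChange R v = (a : R) • v := by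
  induction v using TensorProduct.induction_on with
  | zero => rw [map_zero, smul_zero]
  | tmul r x =>
    rw [LinearMap.baseChange_tmul, TensorProduct.smul_tmul', smul_eq_mul]
    have h1 : (a : Module.End ℤ_[p] T) x = a • x := by
      rw [← zsmul_one a, LinearMap.smul_apply, Module.End.one_apply]
    rw [h1, TensorProduct.tmul_smul, ← zsmul_eq_mul, TensorProduct.smul_tmul']
  | add v w hv hw => rw [map_add, hv, hw, smul_add]

omit [IsDomain R] in
/-- Membership in the eigenlattice can be checked on generators. -/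
theorem mem_chiSub_of_X {T : Type*} [AddCommGroup T] [Module ℤ_[p] T] {σ : Type*}
    (act : MvPolynomial σ ℤ →+* Module.End ℤ_[p] T) (χ : MvPolynomial σ ℤ →+* R)
    {v : R ⊗[ℤ_[p]] T}
    (h : ∀ a, (act (MvPolynomial.X a)).baseChange R v = χ (MvPolynomial.X a) • v) :
    v ∈ chiSub act χ := by
  intro P
  induction P using MvPolynomial.induction_on with
  | C a =>
    have h1 : (MvPolynomial.C a : MvPolynomial σ ℤ) = (a : MvPolynomial σ ℤ) := by
      rw [← MvPolynomial.algebraMap_eq, eq_intCast]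
    rw [h1, map_intCast, map_intCast]
    exact baseChange_intCast a v
  | add P Q hP hQ =>
    rw [map_add, map_add, LinearMap.baseChange_add, LinearMap.add_apply, hP, hQ, add_smul]
  | mul_X P a hP =>
    rw [map_mul, map_mul, Module.End.mul_eq_comp, LinearMap.baseChange_comp,
      LinearMap.comp_apply, h, map_smul, hP, smul_smul, mul_comm]

/-- **Hecke eigenclasses in `Hom_PE(Γ₀(N), R)` are eigenvectors in `R ⊗ T_p J₀(N)`.** -/
theorem mem_chiSub_of_hom {S : Set ℕ} (χ : MvPolynomial (GoodPrimes N S) ℤ →+* R)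
    (v : R ⊗[ℤ_[p]] TateMod p (JZero N))
    (hv : ∀ (ℓ : ℕ) [hℓ : Fact ℓ.Prime] (hℓN : ¬ ℓ ∣ N) (hℓS : ℓ ∉ S),
      heckeHom hℓN (thetaJ N hinj v).1 =
        χ (MvPolynomial.X ⟨⟨ℓ, hℓ.out⟩, hℓN, hℓS⟩) • (thetaJ N hinj v).1) :
    letI := heckeModuleBar N
    v ∈ chiSub (actTate p (JZero N) N S) χ := by
  letI := heckeModuleBar N
  refine mem_chiSub_of_X _ χ fun a => ?_
  rw [actTate_X a]
  apply (thetaJ N hinj).injective
  apply Subtype.ext
  haveI : Fact (a.1 : ℕ).Prime := ⟨a.1.2⟩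
  have h1 := thetaJ_hecke hinj (N := N) (ℓ := (a.1 : ℕ)) a.2.1 v
  refine h1.trans ?_
  rw [hv (a.1 : ℕ) a.2.1 a.2.2, map_smul]
  rfl

/-- **The consumer theorem**: a nonzero Hecke eigenclass `φ ∈ Hom_PE(Γ₀(N), R)` gives a nonzero
eigenvector in `R ⊗ T_p J₀(N)`; all other relations can be read off from `thetaJ w = φ`. -/
theorem exists_eigenvector {S : Set ℕ} (χ : MvPolynomial (GoodPrimes N S) ℤ →+* R)
    {φ : Additive (Gamma0 N) →+ R} (hφ0 : φ ≠ 0) (hφ : IsPE φ)
    (hT : ∀ (ℓ : ℕ) [hℓ : Fact ℓ.Prime] (hℓN : ¬ ℓ ∣ N) (hℓS : ℓ ∉ S),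
      heckeHom hℓN φ = χ (MvPolynomial.X ⟨⟨ℓ, hℓ.out⟩, hℓN, hℓS⟩) • φ) :
    letI := heckeModuleBar N
    ∃ w : R ⊗[ℤ_[p]] TateMod p (JZero N), w ≠ 0 ∧
      w ∈ chiSub (actTate p (JZero N) N S) χ ∧ (thetaJ N hinj w).1 = φ := by
  letI := heckeModuleBar N
  have h1 : (thetaJ N hinj ((thetaJ N hinj).symm ⟨φ, hφ⟩)).1 = φ := by
    rw [LinearEquiv.apply_symm_apply]
  refine ⟨(thetaJ N hinj).symm ⟨φ, hφ⟩, ?_, mem_chiSub_of_hom hinj χ _ ?_, h1⟩
  · intro h2
    rw [h2, map_zero] at h1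
    exact hφ0 h1.symm
  · intro ℓ hℓ hℓN hℓS
    rw [h1]
    exact hT ℓ hℓN hℓS

end J

end Fermat.Agent.H94.BR
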