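import Mathlib
import Fermat.Agent.H4EAJ
import Fermat.Agent.H4EAPE
import Fermat.Agent.H4EANE
import Fermat.Agent.H94BRJ

/-!
# Eigen-analysis for Hecke eigenclasses in `Hom(Γ₀(L), 𝒪')` (MODLIFT, ML-EA, helper4)
-/

set_option autoImplicit false
set_option linter.style.haveILetI false
set_option linter.unusedSectionVars false

noncomputable section

open IsLocalRing Module TensorProduct Polynomial CongruenceSubgroup CuspForm ModularCurve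
  AlgebraicCurve Fermat.Agent.H31 Fermat.Agent.H30 Fermat.Agent.H35 Fermat.Agent.H67
  Fermat.Agent.H62 Fermat.Agent.H94.BR Fermat.Agent.H70.Coh

namespace Fermat.Agent.H4

/-- `φ ∈ Hom(Γ₀(L), A)` is a Hecke eigenclass with eigenvalues `lam ℓ` for the primes `ℓ ∉ S`,
`ℓ ∤ L`. -/
def IsEigHom (L : ℕ) (S : Finset ℕ) {R A : Type*} [Semiring R] [AddCommGroup A] [Module R A]
    (lam : ℕ → R) (φ : Additive (Gamma0 L) →+ A) : Prop :=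
  ∀ (ℓ : ℕ) [Fact ℓ.Prime] (hℓL : ¬ ℓ ∣ L), ℓ ∉ S → heckeHom hℓL φ = lam ℓ • φ

section Core

variable {p : ℕ} [Fact p.Prime] {S : Finset ℕ}
    {𝒪' : Type} [CommRing 𝒪'] [IsDomain 𝒪'] [IsDiscreteValuationRing 𝒪']
    [IsAdicComplete (IsLocalRing.maximalIdeal 𝒪') 𝒪'] [Finite (IsLocalRing.ResidueField 𝒪')]
    [CharZero 𝒪']

/-- An eigenclass attached to a residually irreducible representation kills parabolic and
elliptic elements. -/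
theorem IsEigHom.isPE (hp2 : p ≠ 2) (hp𝒪' : (p : 𝒪') ∈ IsLocalRing.maximalIdeal 𝒪')
    {lam : ℕ → 𝒪'} (ρ : GaloisRepAdic 𝒪') (hρ : IsAttached S lam ρ)
    (hirr : ρ.residual.IsIrreducible) {L : ℕ} [NeZero L]
    {φ : Additive (Gamma0 L) →+ 𝒪'} (hT : IsEigHom L S lam φ) : IsPE φ := by
  obtain ⟨ℓ, hℓ, hℓS, hℓ1, hu⟩ := exists_nonEis hp2 hp𝒪' S lam ρ hρ hirr
    (Nat.pos_of_ne_zero (NeZero.ne L))
  haveI : Fact ℓ.Prime := ⟨hℓ⟩
  by_cases hL1 : L = 1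
  · subst hL1
    have hℓL : ¬ ℓ ∣ 1 := fun h => hℓ.one_lt.ne' (Nat.dvd_one.mp h)
    exact isPE_of_heckeHom_eq hℓL (by simp) φ (lam ℓ) (hT ℓ hℓL hℓS)
      (fun a ha => by
        rw [smul_eq_mul] at ha
        exact (mul_eq_zero.mp ha).resolve_left hu.ne_zero)
  · have hdvd : (L : ℤ) ∣ (ℓ : ℤ) - 1 := by
      rw [← ZMod.intCast_zmod_eq_zero_iff_dvd]
      push_cast
      rw [hℓ1, sub_self]
    have hℓL : ¬ ℓ ∣ L := by
      intro h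
      have h1 : (ℓ : ℤ) ∣ (ℓ : ℤ) - 1 := (Int.natCast_dvd_natCast.mpr h).trans hdvd
      have h2 : (ℓ : ℤ) ∣ 1 := by
        have := dvd_sub (dvd_refl (ℓ : ℤ)) h1
        simpa using this
      exact hℓ.one_lt.ne' (Nat.dvd_one.mp (Int.natCast_dvd_natCast.mp (by exact_mod_cast h2)))
    exact isPE_of_heckeHom_eq hℓL hdvd φ (lam ℓ) (hT ℓ hℓL hℓS)
      (fun a ha => by
        rw [smul_eq_mul] at ha
        exact (mul_eq_zero.mp ha).resolve_left hu.ne_zero)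

section Tate

variable [Algebra ℤ_[p] 𝒪'] (hinj : Function.Injective (algebraMap ℤ_[p] 𝒪'))

/-- The eigenvector in the Tate module. -/
theorem IsEigHom.isEigJ {lam : ℕ → 𝒪'} {L : ℕ} [NeZero L] {φ : Additive (Gamma0 L) →+ 𝒪'}
    (hT : IsEigHom L S lam φ) (hPE : IsPE φ) :
    IsEigJ p L S lam ((thetaJ (p := p) L hinj).symm ⟨φ, hPE⟩) := by
  intro ℓ hℓL hℓS
  haveI : Fact (ℓ : ℕ).Prime := ⟨ℓ.2⟩
  apply (thetaJ (p := p) L hinj).injective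
  apply Subtype.ext
  have h1 := thetaJ_hecke (p := p) hinj (N := L) (ℓ := (ℓ : ℕ)) hℓL
    ((thetaJ (p := p) L hinj).symm ⟨φ, hPE⟩)
  refine h1.trans ?_
  rw [map_smul, LinearEquiv.apply_symm_apply]
  exact hT (ℓ : ℕ) hℓL hℓS

theorem thetaJ_symm_ne_zero {L : ℕ} [NeZero L] {φ : Additive (Gamma0 L) →+ 𝒪'}
    (hPE : IsPE φ) (hφ : φ ≠ 0) : (thetaJ (p := p) L hinj).symm ⟨φ, hPE⟩ ≠ 0 := by
  intro h
  rw [LinearEquiv.map_eq_zero_iff] at h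
  exact hφ (congrArg Subtype.val h)

end Tate

/-- **(EA b)**: unipotent inertia. -/
theorem IsEigHom.isUnipotent (hp2 : p ≠ 2) (hpS : p ∈ S)
    (hp𝒪' : (p : 𝒪') ∈ IsLocalRing.maximalIdeal 𝒪')
    {lam : ℕ → 𝒪'} (ρ : GaloisRepAdic 𝒪') (hρ : IsAttached S lam ρ)
    (hirr : ρ.residual.IsIrreducible) {L : ℕ} [NeZero L]
    (hLS : ∀ q : ℕ, q.Prime → q ∣ L → q ∈ S)
    {φ : Additive (Gamma0 L) →+ 𝒪'} (hT : IsEigHom L S lam φ) (hφ : φ ≠ 0)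
    {q : ℕ} (hq : q.Prime) (hqp : q ≠ p) (hss : UnipotentTorsion p q (JZero L)) :
    ρ.IsUnipotentOnInertiaAt q := by
  letI : Algebra ℤ_[p] 𝒪' := (padicToAdic 𝒪' hp𝒪').toAlgebra
  have hinj : Function.Injective (algebraMap ℤ_[p] 𝒪') := padicToAdic_injective 𝒪' hp𝒪'
  have hPE := hT.isPE hp2 hp𝒪' ρ hρ hirr
  exact E34_JZero hpS hLS hp𝒪' (hT.isEigJ hinj hPE) (thetaJ_symm_ne_zero hinj hPE hφ) hq hqp hss
    ρ hρ

/-- **(EA c)**: Steinberg Frobenius. -/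
theorem IsEigHom.exists_sign (hp2 : p ≠ 2) (hpS : p ∈ S)
    (hp𝒪' : (p : 𝒪') ∈ IsLocalRing.maximalIdeal 𝒪')
    {lam : ℕ → 𝒪'} (ρ : GaloisRepAdic 𝒪') (hρ : IsAttached S lam ρ)
    (hirr : ρ.residual.IsIrreducible) {M q : ℕ} [NeZero M] (hq : q.Prime) (hqp : q ≠ p)
    (hqM : ¬ q ∣ M) (hLS : ∀ r : ℕ, r.Prime → r ∣ M * q → r ∈ S)
    {φ : Additive (Gamma0 (M * q)) →+ 𝒪'} (hT : IsEigHom (M * q) S lam φ) (hφ : φ ≠ 0)
    (hstar : haveI : NeZero q := ⟨hq.ne_zero⟩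
      haveI : NeZero (M * q) := ⟨mul_ne_zero (NeZero.ne M) hq.ne_zero⟩
      StarInput p q M)
    (h1 : haveI : NeZero q := ⟨hq.ne_zero⟩
      homOp 𝒪' (trF M q) φ = 0)
    (h2 : haveI : NeZero q := ⟨hq.ne_zero⟩
      homOp 𝒪' (nuF M hq) φ = 0) :
    ∃ u : 𝒪', (u = 1 ∨ u = -1) ∧
      ∀ (A : ValuationSubring (AlgebraicClosure ℚ)) (_ : A.LiesOverPrime q)
        (σ : H53.GQ) (_ : A.IsFrobeniusAt σ q),
        LinearMap.charpoly (ρ.ρ σ) = (X - C u) * (X - C (u * (q : 𝒪'))) := by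
  haveI : NeZero q := ⟨hq.ne_zero⟩
  haveI : NeZero (M * q) := ⟨mul_ne_zero (NeZero.ne M) hq.ne_zero⟩
  letI : Algebra ℤ_[p] 𝒪' := (padicToAdic 𝒪' hp𝒪').toAlgebra
  have hinj : Function.Injective (algebraMap ℤ_[p] 𝒪') := padicToAdic_injective 𝒪' hp𝒪'
  have hPE := hT.isPE hp2 hp𝒪' ρ hρ hirr
  have hθ : (thetaJ (p := p) (M * q) hinj ((thetaJ (p := p) (M * q) hinj).symm ⟨φ, hPE⟩)).1 = φ := by
    rw [LinearEquiv.apply_symm_apply]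
  obtain ⟨u, hu, h⟩ := E35_JZero hpS hLS hp𝒪' (hT.isEigJ hinj hPE)
    (thetaJ_symm_ne_zero hinj hPE hφ) hq hqp hqM hstar
    ((baseChange_eq_zero_iff hinj (realJ_degPush_one hq _) _).mpr (by rw [hθ]; exact h1))
    ((baseChange_eq_zero_iff hinj (realJ_degPush_prime hq _) _).mpr (by rw [hθ]; exact h2))
  exact ⟨u, hu, fun A hA σ hσ => h ρ hρ A hA σ hσ⟩

/-- **(EA a)**: not unipotent. -/
theorem IsEigHom.not_isUnipotent (hp2 : p ≠ 2) (hpS : p ∈ S)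
    (hp𝒪' : (p : 𝒪') ∈ IsLocalRing.maximalIdeal 𝒪')
    {lam : ℕ → 𝒪'} (ρ : GaloisRepAdic 𝒪') (hρ : IsAttached S lam ρ)
    (hirr : ρ.residual.IsIrreducible) {M q : ℕ} [NeZero M] (hq : q.Prime) (hqp : q ≠ p)
    (hLS : ∀ r : ℕ, r.Prime → r ∣ M * q → r ∈ S)
    {φ : Additive (Gamma0 (M * q)) →+ 𝒪'} (hT : IsEigHom (M * q) S lam φ) (hφ : φ ≠ 0)
    (hfix : haveI : NeZero q := ⟨hq.ne_zero⟩
      haveI : NeZero (M * q) := ⟨mul_ne_zero (NeZero.ne M) hq.ne_zero⟩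
      FixedInput p q M)
    (h1 : haveI : NeZero q := ⟨hq.ne_zero⟩
      homOp 𝒪' (trF M q) φ = 0)
    (h2 : haveI : NeZero q := ⟨hq.ne_zero⟩
      homOp 𝒪' (nuF M hq) φ = 0) :
    ¬ ρ.IsUnipotentOnInertiaAt q := by
  haveI : NeZero q := ⟨hq.ne_zero⟩
  haveI : NeZero (M * q) := ⟨mul_ne_zero (NeZero.ne M) hq.ne_zero⟩
  letI : Algebra ℤ_[p] 𝒪' := (padicToAdic 𝒪' hp𝒪').toAlgebra
  have hinj : Function.Injective (algebraMap ℤ_[p] 𝒪') := padicToAdic_injective 𝒪' hp𝒪'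
  have hPE := hT.isPE hp2 hp𝒪' ρ hρ hirr
  have hθ : (thetaJ (p := p) (M * q) hinj ((thetaJ (p := p) (M * q) hinj).symm ⟨φ, hPE⟩)).1 = φ := by
    rw [LinearEquiv.apply_symm_apply]
  exact E36_JZero hpS hLS hp𝒪' (hT.isEigJ hinj hPE)
    (thetaJ_symm_ne_zero hinj hPE hφ) hq hqp hfix
    ((baseChange_eq_zero_iff hinj (realJ_degPush_one hq _) _).mpr (by rw [hθ]; exact h1))
    ((baseChange_eq_zero_iff hinj (realJ_degPush_prime hq _) _).mpr (by rw [hθ]; exact h2))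
    ρ hρ

end Core

end Fermat.Agent.H4

end
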