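import Fermat.Agent.H21JCrt
/-!
# The iterated twist embedding
-/
set_option autoImplicit false

open CongruenceSubgroup Matrix.SpecialLinearGroup
open scoped MatrixGroups
open Fermat.Agent.H70.Coh Fermat.Agent.H37.Tr

noncomputable section

namespace Fermat.Agent.H21J

variable {K : Type*} [Field K] [CharZero K] {W : Type*} [AddCommGroup W] [Module K W]

/-- one step -/
theorem exists_step {N' q M₀ : ℕ} (hq : q.Prime) (hqN : ¬ q ∣ N') (hqM : ¬ q ∣ M₀)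
    (hM₀ : 0 < M₀) (hL : N' * q ∣ M₀ * q) (hL' : N' ∣ M₀ * q * q)
    (χ : (ZMod (N' * q))ˣ →* Kˣ) {m : ℕ} (hm : Odd m) (hχ : χ ^ m = 1) :
    ∃ (χ₁ : (ZMod N')ˣ →* Kˣ) (χ₂ : (ZMod q)ˣ →* Kˣ)
      (E : H1 (gam (N' * q) (M₀ * q) hL) (psiRep (χ ^ 2) W) →ₗ[K]
        H1 (gam N' (M₀ * q * q) hL') (psiRep (χ₁ ^ 2) W)),
      χ₁ ^ m = 1 ∧ χ₁.comp (ZMod.unitsMap (Dvd.intro q rfl)) *
        χ₂.comp (ZMod.unitsMap (Dvd.intro_left N' rfl)) = χ ∧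
      TwEmb hL hL' (psiRep (χ ^ 2) W) (psiRep (χ₁ ^ 2) W)
        (χ₂.comp (ZMod.unitsMap (Dvd.intro_left N' rfl))) E ∧
      (χ₂ ≠ 1 → ∀ x, IsQNew hL' (psiRep (χ₁ ^ 2) W) q hq.pos (E x)) := by
  have i1 : NeZero q := ⟨hq.ne_zero⟩
  have hcop : N'.Coprime q := ((Nat.Prime.coprime_iff_not_dvd hq).mpr hqN).symm
  obtain ⟨χ₁, χ₂, h12, hpow⟩ := exists_crt hcop χ
  obtain ⟨hχ₁, hχ₂⟩ := hpow m hχ
  have hqK : (q : K) ≠ 0 := by exact_mod_cast hq.ne_zero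
  have hsq : χ ^ 2 = (χ₁ ^ 2).comp (ZMod.unitsMap (Dvd.intro q rfl)) *
      (χ₂ ^ 2).comp (ZMod.unitsMap (Dvd.intro_left N' rfl)) := by
    rw [← h12]
    ext1 u
    change (χ₁ (ZMod.unitsMap _ u) * χ₂ (ZMod.unitsMap _ u)) ^ 2 =
      (χ₁ (ZMod.unitsMap _ u)) ^ 2 * (χ₂ (ZMod.unitsMap _ u)) ^ 2
    rw [mul_pow]
  refine ⟨χ₁, χ₂, ?_⟩
  by_cases h : χ₂ = 1
  · have hρ : psiRep (χ ^ 2) W = (psiRep (χ₁ ^ 2) W).comp (inc (Dvd.intro q rfl)) := by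
      rw [hsq, h, one_pow, MonoidHom.one_comp, mul_one, psiRep_comp_inc]
    rw [hρ]
    have hk : χ₂.comp (ZMod.unitsMap (Dvd.intro_left N' rfl : q ∣ N' * q)) = 1 := by
      rw [h, MonoidHom.one_comp]
    refine ⟨rs (psiRep (χ₁ ^ 2) W) (Dvd.intro q rfl) hL hL' (Dvd.intro q rfl), hχ₁, h12, ?_,
      fun h' => absurd h h'⟩
    rw [hk]
    exact twEmb_rs (psiRep (χ₁ ^ 2) W) (Dvd.intro q rfl) hL hL' (Dvd.intro q rfl) rfl
      (Nat.mul_pos hM₀ hq.pos) hq.pos (dvd_mul_left q M₀) (isUnit_iff_ne_zero.mpr hqK)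
  · have hρ : psiRep (χ ^ 2) W = rTw χ₂ (psiRep (χ₁ ^ 2) W) := by
      rw [hsq, psiRep_rTw]
    rw [hρ]
    have hsq2 := sq_ne_one hm hχ₂ h
    have hu : IsUnit (((q - 1 : ℕ) : K) * q) := by
      rw [isUnit_iff_ne_zero]
      refine mul_ne_zero ?_ hqK
      have : q - 1 ≠ 0 := by have := hq.two_le; omega
      exact_mod_cast this
    refine ⟨tw hq hqN χ₂ (psiRep (χ₁ ^ 2) W) hL hL' dvd_rfl, hχ₁, h12, ?_, fun _ x => ?_⟩
    · exact twEmb_tw hq hqN χ₂ (psiRep (χ₁ ^ 2) W) hqM hM₀ (sum_sq_inv hsq2) hu hL rfl hL' dvd_rfl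
        ((χ₁ ^ 2) (aUnit N' (scq hq hqN))) (fun v => slash_psiRep _ _ v)
    · exact isQNew_tw χ₂ (psiRep (χ₁ ^ 2) W) hq hqN hqM (sum_eq h) (sum_inv h) hL hL' dvd_rfl rfl x

/-- **Stripping the primes of `N₁`** from the conductor `N = N₁ * N₂`. -/
theorem exists_strip (N₁ : ℕ) : ∀ (N₂ N M M' : ℕ), N = N₁ * N₂ → Squarefree N → 0 < M →
    (∀ q : ℕ, q.Prime → q ∣ N₁ → ¬ q * q ∣ M) → ∀ (hM : N ∣ M) (hM' : N₂ ∣ M')
    (_ : M' = M * N₁) (χ : (ZMod N)ˣ →* Kˣ) (m : ℕ), Odd m → χ ^ m = 1 →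
    ∃ (χ' : (ZMod N₂)ˣ →* Kˣ) (κ₁ : (ZMod N₁)ˣ →* Kˣ) (h₁ : N₁ ∣ N) (h₂ : N₂ ∣ N)
      (E : H1 (gam N M hM) (psiRep (χ ^ 2) W) →ₗ[K] H1 (gam N₂ M' hM') (psiRep (χ' ^ 2) W)),
      χ' ^ m = 1 ∧ κ₁.comp (ZMod.unitsMap h₁) * χ'.comp (ZMod.unitsMap h₂) = χ ∧
      TwEmb hM hM' (psiRep (χ ^ 2) W) (psiRep (χ' ^ 2) W) (κ₁.comp (ZMod.unitsMap h₁)) E := by
  induction N₁ using induction_on_primes with
  | zero =>
    intro N₂ N M M' hN hsq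
    exfalso
    rw [hN, zero_mul] at hsq
    exact not_squarefree_zero hsq
  | one =>
    intro N₂ N M M' hN hsq hM0 hex hM hM' hMM' χ m hm hχ
    rw [one_mul] at hN
    rw [mul_one] at hMM'
    subst hN
    subst hMM'
    refine ⟨χ, 1, one_dvd _, dvd_rfl, LinearMap.id, hχ, ?_, ?_⟩
    · ext1 u
      change 1 * χ (ZMod.unitsMap dvd_rfl u) = χ u
      rw [one_mul]
      congr 1
      apply Units.ext
      rw [ZMod.unitsMap_val]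
      exact ZMod.cast_id _ _
    · rw [MonoidHom.one_comp]
      exact TwEmb.id hM _
  | prime_mul p a hp ih =>
    intro N₂ N M M' hN hsq hM0 hex hM hM' hMM' χ m hm hχ
    have hN' : N = (a * N₂) * p := by rw [hN]; ring
    obtain ⟨M₀, hM₀⟩ : p ∣ M := ((Dvd.intro_left _ rfl : p ∣ (a * N₂) * p).trans hN'.symm.dvd).trans hM
    rw [mul_comm] at hM₀
    subst hN'
    subst hM₀
    have hpN : ¬ p ∣ a * N₂ := by
      intro h
      have h1 := hsq p (Nat.mul_dvd_mul_right h p)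
      exact hp.one_lt.ne' (Nat.isUnit_iff.mp h1)
    have hpM₀ : ¬ p ∣ M₀ := fun h => hex p hp (Dvd.intro a rfl) (Nat.mul_dvd_mul_right h p)
    have hM₀0 : 0 < M₀ := Nat.pos_of_mul_pos_right hM0
    have hL' : a * N₂ ∣ M₀ * p * p := ((Dvd.intro p rfl).trans hM).trans (Dvd.intro p rfl)
    obtain ⟨χ₁, χ₂, E₁, hχ₁, h12, hE₁, -⟩ := exists_step (W := W) hp hpN hpM₀ hM₀0 hM hL' χ hm hχ
    have hsq' : Squarefree (a * N₂) := hsq.squarefree_of_dvd (Dvd.intro p rfl)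
    obtain ⟨χ', κ₁, h₁, h₂, E₂, hχ', hκ₁, hE₂⟩ := ih N₂ (a * N₂) (M₀ * p * p) M' rfl hsq'
      (Nat.mul_pos hM0 hp.pos) (by
        intro q hq hqa h
        have hne : q ≠ p := by
          rintro rfl
          exact hpN (hqa.trans (Dvd.intro N₂ rfl))
        have hcop : (q * q).Coprime p := by
          have := (Nat.coprime_primes hq hp).mpr hne
          exact Nat.Coprime.mul_left this this
        exact hex q hq (hqa.trans (Dvd.intro_left p rfl)) (hcop.dvd_of_dvd_mul_right h))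
      hL' hM' (by rw [hMM']; ring) χ₁ m hm hχ₁
    have hpa : p ∣ p * a := Dvd.intro a rfl
    have haa : a ∣ p * a := Dvd.intro_left p rfl
    have h₁' : p * a ∣ a * N₂ * p := ⟨N₂, by ring⟩
    have h₂' : N₂ ∣ a * N₂ * p := h₂.trans (Dvd.intro p rfl)
    have e1 : (χ₂.comp (ZMod.unitsMap hpa) * κ₁.comp (ZMod.unitsMap haa)).comp
        (ZMod.unitsMap h₁') = χ₂.comp (ZMod.unitsMap (Dvd.intro_left (a * N₂) rfl)) *
        (κ₁.comp (ZMod.unitsMap h₁)).comp (ZMod.unitsMap hE₁.dvdN) := by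
      rw [MonoidHom.mul_comp, MonoidHom.comp_assoc, MonoidHom.comp_assoc, MonoidHom.comp_assoc,
        ZMod.unitsMap_comp, ZMod.unitsMap_comp, ZMod.unitsMap_comp]
    refine ⟨χ', χ₂.comp (ZMod.unitsMap hpa) * κ₁.comp (ZMod.unitsMap haa), h₁', h₂', E₂ ∘ₗ E₁,
      hχ', ?_, ?_⟩
    · rw [e1]
      ext1 u
      have h3 := congrArg (fun f : (ZMod (a * N₂ * p))ˣ →* Kˣ => f u) h12
      have h4 := congrArg (fun f : (ZMod (a * N₂))ˣ →* Kˣ => f (ZMod.unitsMap hE₁.dvdN u)) hκ₁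
      have h5 := congrArg (fun f : (ZMod (a * N₂ * p))ˣ →* (ZMod N₂)ˣ => f u)
        (ZMod.unitsMap_comp h₂ hE₁.dvdN)
      change χ₁ (ZMod.unitsMap hE₁.dvdN u) * χ₂ (ZMod.unitsMap _ u) = χ u at h3
      change κ₁ (ZMod.unitsMap h₁ (ZMod.unitsMap hE₁.dvdN u)) *
        χ' (ZMod.unitsMap h₂ (ZMod.unitsMap hE₁.dvdN u)) = χ₁ (ZMod.unitsMap hE₁.dvdN u) at h4
      change ZMod.unitsMap h₂ (ZMod.unitsMap hE₁.dvdN u) = ZMod.unitsMap h₂' u at h5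
      change χ₂ (ZMod.unitsMap _ u) * κ₁ (ZMod.unitsMap h₁ (ZMod.unitsMap hE₁.dvdN u)) *
        χ' (ZMod.unitsMap h₂' u) = χ u
      rw [← h3, ← h4, h5, mul_assoc, mul_comm]
    · rw [e1]
      exact hE₁.comp hE₂

omit [CharZero K] in
lemma hom_one_eq (χ : (ZMod 1)ˣ →* Kˣ) : χ = 1 := by
  ext1 u
  rw [Subsingleton.elim u 1, map_one, map_one]

/-- **The twist embedding.**  `N` squarefree, every prime divisor of `N` divides `M` exactly,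
`χ` a character of `(ZMod N)ˣ` of odd order.  Then `H¹(Γ₀(M), χ²)` embeds in
`H¹(Γ₀(M N), 1)`, equivariantly for `T_ℓ`, `U_n`, `w_r` up to the character `χ`. -/
theorem exists_twist_embedding {N M L : ℕ} (hsq : Squarefree N) (hM0 : 0 < M)
    (hex : ∀ q : ℕ, q.Prime → q ∣ N → ¬ q * q ∣ M) (hM : N ∣ M) (hL : L = M * N)
    (χ : (ZMod N)ˣ →* Kˣ) {m : ℕ} (hm : Odd m) (hχ : χ ^ m = 1) :
    ∃ E : H1 (gam N M hM) (psiRep (χ ^ 2) W) →ₗ[K]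
        H1 (gam 1 L (one_dvd L)) (psiRep (1 : (ZMod 1)ˣ →* Kˣ) W),
      TwEmb hM (one_dvd L) (psiRep (χ ^ 2) W) (psiRep 1 W) χ E := by
  obtain ⟨χ', κ₁, h₁, h₂, E, -, h12, hE⟩ := exists_strip (W := W) N 1 N M L (mul_one N).symm hsq
    hM0 hex hM (one_dvd L) hL χ m hm hχ
  have h2 : κ₁.comp (ZMod.unitsMap h₁) = χ := by
    ext1 u
    have h3 := congrArg (fun f : (ZMod N)ˣ →* Kˣ => f u) h12
    change κ₁ (ZMod.unitsMap h₁ u) * χ' (ZMod.unitsMap h₂ u) = χ u at h3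
    rw [Subsingleton.elim (ZMod.unitsMap h₂ u) 1, map_one, mul_one] at h3
    exact h3
  clear h12
  generalize χ' ^ 2 = ψ at E hE
  obtain rfl : ψ = 1 := hom_one_eq _
  rw [h2] at hE
  exact ⟨E, hE⟩

/-- **The twist embedding, `q₀`-new version.**  If moreover the `q₀`-component of `χ` is
non-trivial (`χ u ≠ 1` for some `u ≡ 1` modulo `N / q₀`), the image is `q₀`-new: killed by
`U_{q₀}`, `U_{q₀} w_{q₀²}` and by the two pushforwards to level `L / q₀`. -/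
theorem exists_twist_new {N₁ q N M L : ℕ} (hq : q.Prime) (hN : N = N₁ * q)
    (hsq : Squarefree N) (hM0 : 0 < M)
    (hex : ∀ q : ℕ, q.Prime → q ∣ N → ¬ q * q ∣ M) (hM : N ∣ M) (hL : L = M * N)
    (χ : (ZMod N)ˣ →* Kˣ) {m : ℕ} (hm : Odd m) (hχ : χ ^ m = 1)
    (u : (ZMod N)ˣ) (hu1 : ZMod.unitsMap (hN ▸ Dvd.intro q rfl) u = (1 : (ZMod N₁)ˣ))
    (hu : χ u ≠ 1) :
    ∃ E : H1 (gam N M hM) (psiRep (χ ^ 2) W) →ₗ[K]
        H1 (gam 1 L (one_dvd L)) (psiRep (1 : (ZMod 1)ˣ →* Kˣ) W),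
      TwEmb hM (one_dvd L) (psiRep (χ ^ 2) W) (psiRep 1 W) χ E ∧
      ∀ x, IsQNew (one_dvd L) (psiRep 1 W) q hq.pos (E x) := by
  obtain ⟨m₀, hm₀⟩ : q ∣ M := (hN ▸ Dvd.intro_left N₁ rfl : q ∣ N).trans hM
  rw [mul_comm] at hm₀
  subst hm₀
  have hqN₁ : ¬ q ∣ N₁ := by
    intro h
    rw [hN] at hsq
    have h1 := hsq q (Nat.mul_dvd_mul_right h q)
    exact hq.one_lt.ne' (Nat.isUnit_iff.mp h1)
  have hqm₀ : ¬ q ∣ m₀ := fun h =>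
    hex q hq (hN ▸ Dvd.intro_left N₁ rfl) (Nat.mul_dvd_mul_right h q)
  have hm₀0 : 0 < m₀ := Nat.pos_of_mul_pos_right hM0
  have hN₁0 : 0 < N₁ := by
    rcases Nat.eq_zero_or_pos N₁ with h | h
    · exfalso
      rw [hN, h, zero_mul] at hsq
      exact not_squarefree_zero hsq
    · exact h
  obtain rfl : L = m₀ * N₁ * q * q := by rw [hL, hN]; ring
  have hM₀ : 1 * q ∣ m₀ * N₁ * q := by rw [one_mul]; exact dvd_mul_left q _
  have hqM₀ : ¬ q ∣ m₀ * N₁ := fun h => (hq.dvd_mul.mp h).elim hqm₀ hqN₁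
  obtain ⟨χ', κ₁, h₁, h₂, E₁, hχ', h12, hE₁⟩ := exists_strip (W := W) N₁ (1 * q) N (m₀ * q)
    (m₀ * N₁ * q) (by rw [hN, one_mul]) hsq hM0
    (fun p hp hpN => hex p hp (hpN.trans (hN ▸ Dvd.intro q rfl))) hM hM₀ (by ring) χ m hm hχ
  obtain ⟨χ₁, χ₂, E₂, -, h34, hE₂, hnew⟩ := exists_step (W := W) hq
    (fun h => hq.one_lt.ne' (Nat.dvd_one.mp h)) hqM₀ (Nat.mul_pos hm₀0 hN₁0) hM₀
    (one_dvd (m₀ * N₁ * q * q)) χ' hm hχ'
  have hu' : χ' (ZMod.unitsMap h₂ u) ≠ 1 := by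
    intro h
    apply hu
    have h3 := congrArg (fun f : (ZMod N)ˣ →* Kˣ => f u) h12
    change κ₁ (ZMod.unitsMap h₁ u) * χ' (ZMod.unitsMap h₂ u) = χ u at h3
    rw [← h3, h, mul_one]
    have h4 : ZMod.unitsMap h₁ u = 1 := hu1
    rw [h4, map_one]
  have h2 : χ₂ ≠ 1 := by
    intro h
    apply hu'
    have h3 := congrArg (fun f : (ZMod (1 * q))ˣ →* Kˣ => f (ZMod.unitsMap h₂ u)) h34
    change χ₁ (ZMod.unitsMap (Dvd.intro q rfl) (ZMod.unitsMap h₂ u)) *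
      χ₂ (ZMod.unitsMap (Dvd.intro_left 1 rfl) (ZMod.unitsMap h₂ u)) =
        χ' (ZMod.unitsMap h₂ u) at h3
    rw [← h3, h, MonoidHom.one_apply, mul_one, hom_one_eq χ₁, MonoidHom.one_apply]
  have hκ : κ₁.comp (ZMod.unitsMap h₁) *
      (χ₂.comp (ZMod.unitsMap (Dvd.intro_left 1 rfl : q ∣ 1 * q))).comp
        (ZMod.unitsMap hE₁.dvdN) = χ := by
    ext1 v
    have h3 := congrArg (fun f : (ZMod N)ˣ →* Kˣ => f v) h12
    have h4 := congrArg (fun f : (ZMod (1 * q))ˣ →* Kˣ => f (ZMod.unitsMap h₂ v)) h34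
    change κ₁ (ZMod.unitsMap h₁ v) * χ' (ZMod.unitsMap h₂ v) = χ v at h3
    change χ₁ (ZMod.unitsMap (Dvd.intro q rfl) (ZMod.unitsMap h₂ v)) *
      χ₂ (ZMod.unitsMap (Dvd.intro_left 1 rfl) (ZMod.unitsMap h₂ v)) =
        χ' (ZMod.unitsMap h₂ v) at h4
    rw [hom_one_eq χ₁, MonoidHom.one_apply, one_mul] at h4
    change κ₁ (ZMod.unitsMap h₁ v) * χ₂ (ZMod.unitsMap (Dvd.intro_left 1 rfl)
      (ZMod.unitsMap h₂ v)) = χ v
    rw [h4, h3]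
  have hfin := hE₁.comp hE₂
  rw [hκ] at hfin
  have hn : ∀ x, IsQNew (one_dvd (m₀ * N₁ * q * q)) (psiRep (χ₁ ^ 2) W) q hq.pos
    ((E₂ ∘ₗ E₁) x) := fun x => hnew h2 (E₁ x)
  generalize E₂ ∘ₗ E₁ = E at hfin hn
  clear hnew hE₂ E₂ h34 hκ
  generalize χ₁ ^ 2 = ψ at E hfin hn
  obtain rfl : ψ = 1 := hom_one_eq _
  exact ⟨E, hfin, hn⟩

end Fermat.Agent.H21J
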