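import Mathlib
import Fermat.Agent.H21JIter
import Fermat.Agent.H37TrEq

/-!
# Comparison of the trace families for `q ∣ M`, and transport of the trace conditions along twist
embeddings (MODLIFT, ML-EA, helper4)
-/

set_option autoImplicit false

open CongruenceSubgroup Matrix.SpecialLinearGroup
open scoped MatrixGroups

namespace Fermat.Agent.H4

open Fermat.Agent.H70.Coh Fermat.Agent.H37.Tr Fermat.Agent.H21J

section Cmp

variable {N M q : ℕ} {R : Type*} [CommRing R] {V : Type*} [AddCommGroup V] [Module R V]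
  {ρ : DN N →* (Module.End R V)ᵐᵒᵖ}

lemma trFam70_irr [NeZero M] [NeZero q] (hNM : N ∣ M) :
    Irr (Fermat.Agent.H70.Coh.trFam (q := q) hNM) := by
  intro i i' γ h
  change (1 : DN N) * gam N M hNM (Quotient.out i) =
    gam N (M * q) (hNM.mul_right q) γ * (1 * gam N M hNM (Quotient.out i')) at h
  rw [one_mul, one_mul] at h
  have h1 : (i.out : SL(2, ℤ)) = (γ : SL(2, ℤ)) * (i'.out : SL(2, ℤ)) := by
    have h2 := congrArg Subtype.val h
    change (gam N M hNM i.out).1 =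
      (gam N (M * q) (hNM.mul_right q) γ).1 * (gam N M hNM i'.out).1 at h2
    rw [gam_val, gam_val, gam_val] at h2
    apply Subtype.ext
    rw [h2]
    rfl
  rw [← Quotient.out_eq i, ← Quotient.out_eq i']
  refine ((HFam.mk_eq_mk (subQ M q)).mpr ?_).symm
  change (i.out : SL(2, ℤ)) * (i'.out : SL(2, ℤ))⁻¹ ∈ Gamma0 (M * q)
  rw [h1, mul_inv_cancel_right]
  exact γ.2

lemma mem_trFam70 [NeZero M] [NeZero q] (hNM : N ∣ M) (g : Gamma0 M) :
    Mem (Fermat.Agent.H70.Coh.trFam (q := q) hNM) (gam N M hNM g) := by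
  have h1 := HFam.out_mul_inv_mem (subQ M q) g
  obtain ⟨γ, hγ⟩ := subQ_gam hNM h1
  refine ⟨Quotient.mk _ g, γ, ?_⟩
  change _ = _ * ((1 : DN N) * gam N M hNM (Quotient.out _))
  rw [one_mul, ← hγ, ← map_mul, inv_mul_cancel_right]

/-- For `q ∣ M` the explicit trace of helper21 is the trace of helper70. -/
theorem ctrFam_eq [NeZero M] [NeZero q] (hNM : N ∣ M) (hq : 0 < q) (hqM : q ∣ M) :
    (ctrFam (hNM.mul_right q) hNM rfl (Nat.pos_of_ne_zero (NeZero.ne M)) hq hqM).opH ρ =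
      (Fermat.Agent.H70.Coh.trFam hNM).opH ρ := by
  refine opH_congr_of_supp _ _ (ctrFam_irr _ _ _ _ _ _) (trFam70_irr hNM) ?_ ?_
  · intro k
    rw [ctrFam_α]
    exact mem_trFam70 hNM _
  · intro j
    change Mem _ ((1 : DN N) * gam N M hNM (Quotient.out j))
    rw [one_mul]
    obtain ⟨k, δ, h⟩ := exists_lo (q := q) hqM (Quotient.out j)
    refine ⟨k, δ, ?_⟩
    apply Subtype.ext
    exact h

lemma nuFam_irr [NeZero q] (hNM : N ∣ M) (hq : q.Prime) : Irr (nuFam hNM hq) := by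
  intro i i' γ h
  change u0 N hq * gam N M hNM (Quotient.out i) =
    gam N (M * q) (hNM.mul_right q) γ * (u0 N hq * gam N M hNM (Quotient.out i')) at h
  rw [← Quotient.out_eq i, ← Quotient.out_eq i']
  refine ((HFam.mk_eq_mk (subQ' M q)).mpr ?_).symm
  refine nu_aux' hNM hq _ γ ?_
  have h2 := congrArg (fun s => s * gam N M hNM (i'.out)⁻¹) h
  simp only [mul_assoc, ← map_mul, mul_inv_cancel, map_one, mul_one] at h2
  rw [h2]

lemma uRep_eq (hNM : N ∣ M) (hq : q.Prime) (j : ZMod q) :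
    uRep N hq.pos j = u0 N hq * gam N M hNM (tpow M (j.val : ℤ)) := by
  apply Subtype.ext
  change (!![((1 : ℕ) : ℤ), (j.val : ℤ); 0, (q : ℤ)]) = (!![((1 : ℕ) : ℤ), 0; 0, (q : ℤ)]) *
    (gam N M hNM (tpow M (j.val : ℤ))).1
  rw [gam_val]
  have h1 : ((tpow M (j.val : ℤ) : SL(2, ℤ)) : Matrix (Fin 2) (Fin 2) ℤ) =
      !![1, (j.val : ℤ); 0, 1] := ModularGroup.coe_T_zpow _
  rw [h1]
  ext i k
  fin_cases i <;> fin_cases k <;> simp [Matrix.mul_apply, Fin.sum_univ_two]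

lemma betaFam_irr {L' : ℕ} (hq : 0 < q) (hqM : q ∣ M) (hNM : N ∣ M) (hNL' : N ∣ L')
    (h : L' = M * q) : Irr (betaFam hNL' hNM h hq hqM) := by
  have i1 : NeZero q := ⟨hq.ne'⟩
  intro i i' γ h
  have h2 := congrArg Subtype.val h
  change (!![((1 : ℕ) : ℤ), (ZMod.val i : ℤ); 0, (q : ℤ)]) =
    (gam N L' hNL' γ).1 * (!![((1 : ℕ) : ℤ), (ZMod.val i' : ℤ); 0, (q : ℤ)]) at h2
  rw [gam_val] at h2
  obtain ⟨-, -, h3⟩ := ut_rigid (by norm_num) (by norm_num) h2
  exact (val_eq_of_dvd h3)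

/-- For `q ∣ M` the explicit pushforward of helper21 is `nuFam`. -/
theorem betaFam_eq [NeZero q] (hNM : N ∣ M) (hq : q.Prime) (hqM : q ∣ M) :
    (betaFam (hNM.mul_right q) hNM rfl hq.pos hqM).opH ρ = (nuFam hNM hq).opH ρ := by
  refine opH_congr_of_supp _ _ (betaFam_irr _ _ _ _ _) (nuFam_irr hNM hq) ?_ ?_
  · intro j
    change Mem _ (uRep N hq.pos j)
    rw [uRep_eq hNM hq j]
    exact mem_nuFam hNM hq _
  · intro j
    change Mem _ (u0 N hq * gam N M hNM (Quotient.out j))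
    generalize Quotient.out j = γ
    obtain ⟨c', hc'⟩ := dvd_c γ
    have hdet := det_eq (γ : SL(2, ℤ))
    set a := (γ : SL(2, ℤ)) 0 0 with ha
    set b := (γ : SL(2, ℤ)) 0 1 with hb
    set c := (γ : SL(2, ℤ)) 1 0 with hc
    set d := (γ : SL(2, ℤ)) 1 1 with hd
    set k : ZMod q := (b : ZMod q) * (d : ZMod q) with hk
    have hqc : (c : ZMod q) = 0 := by
      rw [ZMod.intCast_zmod_eq_zero_iff_dvd]
      exact (Int.natCast_dvd_natCast.mpr hqM).trans (dvd_c γ)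
    obtain ⟨m, hm⟩ : (q : ℤ) ∣ b - a * (k.val : ℤ) := by
      rw [← ZMod.intCast_zmod_eq_zero_iff_dvd]
      push_cast
      rw [ZMod.natCast_zmod_val, hk]
      have h2 := congrArg (Int.cast : ℤ → ZMod q) hdet
      push_cast at h2
      rw [hqc, mul_zero, sub_zero] at h2
      linear_combination (-(b : ZMod q)) * h2
    refine ⟨k, ⟨⟨!![a, m; q * c, d - c * (k.val : ℤ)], ?_⟩, ?_⟩, ?_⟩
    · rw [Matrix.det_fin_two_of]
      linear_combination hdet + c * hm
    · apply mem_of_dvd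
      change ((M * q : ℕ) : ℤ) ∣ q * c
      push_cast
      rw [hc']
      exact ⟨c', by ring⟩
    · apply Subtype.ext
      change (!![((1 : ℕ) : ℤ), 0; 0, (q : ℤ)]) * (gam N M hNM γ).1 =
        !![a, m; q * c, d - c * (k.val : ℤ)] * !![((1 : ℕ) : ℤ), (k.val : ℤ); 0, (q : ℤ)]
      rw [gam_val, Matrix.eta_fin_two ((γ : SL(2, ℤ)) : Matrix (Fin 2) (Fin 2) ℤ)]
      change (!![((1 : ℕ) : ℤ), 0; 0, (q : ℤ)]) * !![a, b; c, d] = _
      generalize (k.val : ℤ) = v at hm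
      ext x y
      fin_cases x <;> fin_cases y <;> simp [Matrix.mul_apply, Fin.sum_univ_two]
      · linear_combination hm
      · ring

end Cmp

section Scal

variable {N M q : ℕ} {R : Type*} [CommRing R] {V : Type*} [AddCommGroup V] [Module R V]
  {ρ : DN N →* (Module.End R V)ᵐᵒᵖ}

/-- The scalar matrix `n` acts by the scalar `σ` on the coefficients. -/
def ScalBy (ρ : DN N →* (Module.End R V)ᵐᵒᵖ) {n : ℕ} (hn : 0 < n) (hnN : n.Coprime N) (σ : R) :
    Prop := ∀ v, slash ρ (scal N hn hnN) v = σ • v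

theorem scalFam_opH_by {n : ℕ} (hNM : N ∣ M) (hn : 0 < n) (hnN : n.Coprime N) {σ : R}
    (hs : ScalBy ρ hn hnN σ) (x : H1 (gam N M hNM) ρ) :
    (scalFam hNM hn hnN).opH ρ x = σ • x := by
  obtain ⟨c, rfl⟩ := Submodule.mkQ_surjective _ x
  change H1.mk _ ρ ((scalFam hNM hn hnN).op ρ c) = σ • H1.mk _ ρ c
  rw [← map_smul]
  congr 1
  apply Subtype.ext
  funext γ
  rw [HFam.op_apply_of_eq (scalFam hNM hn hnN) c γ 1 (fun _ => γ) (fun _ => Fermat.Agent.H37.Tr.scal_comm hn hnN _)]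
  change ∑ i : Unit, slash ρ (scal N hn hnN) (c.1 γ) = σ • c.1 γ
  rw [hs]
  simp

/-- `w² = σ` -/
theorem wFam_wFam_by (hNM : N ∣ M) (hq : 0 < q) (hqN : q.Coprime N) (w : AL M q) {σ : R}
    (hs : ScalBy ρ hq hqN σ) (x : H1 (gam N (M * q) (hNM.mul_right q)) ρ) :
    (wFam hNM hq w).opH ρ ((wFam hNM hq w).opH ρ x) = σ • x := by
  rw [← HFam.opH_comp]
  have h1 : ((wFam hNM hq w).comp (wFam hNM hq w)).opH ρ =
      (scalFam (hNM.mul_right q) hq hqN).opH ρ := by
    refine HFam.opH_congr _ _ ⟨fun _ => (), fun _ => ((), ()), fun _ => rfl, fun _ => rfl⟩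
      fun _ => ?_
    refine ⟨⟨⟨!![q * w.x ^ 2 + M * w.y * w.z, w.y * (w.x + w.t);
      M * q * (w.z * (w.x + w.t)), M * w.y * w.z + q * w.t ^ 2], ?_⟩, ?_⟩, ?_⟩
    · rw [Matrix.det_fin_two_of]
      have := w.eq
      linear_combination (q * w.x * w.t - M * w.y * w.z + 1) * this
    · refine Gamma0_mem.mpr ((ZMod.intCast_zmod_eq_zero_iff_dvd _ _).mpr ?_)
      change ((M * q : ℕ) : ℤ) ∣ (M : ℤ) * q * _
      push_cast
      exact dvd_mul_right _ _
    · apply dn_ext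
      change (w.mat hNM hq).1 * (w.mat hNM hq).1 = _ * (scal N hq hqN).1
      rw [scal_val, AL.mat_val]
      change _ = !![q * w.x ^ 2 + M * w.y * w.z, w.y * (w.x + w.t);
        M * q * (w.z * (w.x + w.t)), M * w.y * w.z + q * w.t ^ 2] *
          ((q : ℤ) • (1 : Matrix (Fin 2) (Fin 2) ℤ))
      rw [mul_smul_comm, mul_one]
      ext i j
      fin_cases i <;> fin_cases j <;> simp [Matrix.mul_apply, Fin.sum_univ_two] <;> ring
  rw [h1, scalFam_opH_by _ _ _ hs]

/-- `w` followed by `U_q` is `σ` times the family `g₀ T^j`. -/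
theorem uFam_wFam_by (w : AL M q) (hNM : N ∣ M) (hq : q.Prime) (hqM : ¬ q ∣ M) (hqN : q.Coprime N)
    {σ : R} (hs : ScalBy ρ hq.pos hqN σ) (x : H1 (gam N (M * q) (hNM.mul_right q)) ρ) :
    (uFam (hNM.mul_right q) hq.pos (dvd_mul_left q M)).opH ρ ((wFam hNM hq.pos w).opH ρ x) =
      σ • (gFam w hNM hq hqM).opH ρ x := by
  have i1 : NeZero q := ⟨hq.ne_zero⟩
  have h1 : ((wFam hNM hq.pos w).comp (uFam (hNM.mul_right q) hq.pos (dvd_mul_left q M))).opH ρ =
      ((scalFam (hNM.mul_right q) hq.pos hqN).comp (gFam w hNM hq hqM)).opH ρ := by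
    have key : ∀ j : ZMod q, w.mat hNM hq.pos * uRep N hq.pos j =
        scal N hq.pos hqN * gam N M hNM (trRep w (some j)) := by
      intro j
      apply dn_ext
      change (w.mat hNM hq.pos).1 * (uRep N hq.pos j).1 =
        (scal N hq.pos hqN).1 * (gam N M hNM (trRep w (some j))).1
      rw [gam_val, trRep_some_val, scal_val, smul_mul_assoc, one_mul, AL.mat_val]
      change _ * !![((1 : ℕ) : ℤ), (j.val : ℤ); 0, (q : ℤ)] = _
      generalize (j.val : ℤ) = v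
      ext i k
      fin_cases i <;> fin_cases k <;> simp [Matrix.mul_apply, Fin.sum_univ_two] <;> ring
    refine HFam.opH_congr _ _ (Equiv.refl _) ?_
    rintro ⟨-, j⟩
    refine ⟨1, ?_⟩
    rw [map_one, one_mul]
    exact key j
  rw [← HFam.opH_comp, h1, HFam.opH_comp, scalFam_opH_by _ _ _ hs, map_smul]

/-- **`res ∘ tr = 1 + g`.** -/
theorem resFam_trFam_g (w : AL M q) (hNM : N ∣ M) (hq : q.Prime) (hqM : ¬ q ∣ M)
    (x : H1 (gam N (M * q) (hNM.mul_right q)) ρ) :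
    (resFam hNM (dvd_mul_right M q)).opH ρ ((trFam w hNM hq hqM).opH ρ x) =
      x + (gFam w hNM hq hqM).opH ρ x := by
  have i1 : NeZero q := ⟨hq.ne_zero⟩
  rw [← HFam.opH_comp]
  have h1 : ((trFam w hNM hq hqM).comp (resFam hNM (dvd_mul_right M q))).opH ρ =
      (addFam (idFam _) (gFam w hNM hq hqM)).opH ρ := by
    let e : Option (ZMod q) × Unit ≃ Unit ⊕ ZMod q :=
      { toFun := fun p => match p.1 with
          | none => Sum.inl ()
          | some j => Sum.inr j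
        invFun := fun s => match s with
          | Sum.inl _ => (none, ())
          | Sum.inr j => (some j, ())
        left_inv := by
          rintro ⟨_ | j, ⟨⟩⟩ <;> rfl
        right_inv := by
          rintro (_ | j) <;> rfl }
    refine HFam.opH_congr _ _ e ?_
    rintro ⟨_ | j, ⟨⟩⟩
    · refine ⟨1, ?_⟩
      rw [map_one, one_mul]
      change gam N M hNM 1 * 1 = 1
      rw [map_one, mul_one]
    · refine ⟨1, ?_⟩
      rw [map_one, one_mul]
      change gam N M hNM (trRep w (some j)) * 1 = gam N M hNM (trRep w (some j))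
      rw [mul_one]
  rw [h1, addFam_opH, idFam_opH]

/-- A class killed by both traces: `U_q w x = - σ x` and `U_q x = - w x` (`σ` a unit). -/
theorem u_w_of_traces_by [NeZero M] [NeZero q] (w : AL M q) (hNM : N ∣ M) (hq : q.Prime)
    (hqM : ¬ q ∣ M) (hqN : q.Coprime N) {σ : R} (hσ : IsUnit σ) (hs : ScalBy ρ hq.pos hqN σ)
    (x : H1 (gam N (M * q) (hNM.mul_right q)) ρ)
    (h1 : (Fermat.Agent.H70.Coh.trFam hNM).opH ρ x = 0) (h2 : (nuFam hNM hq).opH ρ x = 0) :
    (uFam (hNM.mul_right q) hq.pos (dvd_mul_left q M)).opH ρ ((wFam hNM hq.pos w).opH ρ x) =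
      - (σ • x) ∧
    (uFam (hNM.mul_right q) hq.pos (dvd_mul_left q M)).opH ρ x = - (wFam hNM hq.pos w).opH ρ x := by
  have key : ∀ y : H1 (gam N (M * q) (hNM.mul_right q)) ρ,
      (Fermat.Agent.H70.Coh.trFam hNM).opH ρ y = 0 →
      (uFam (hNM.mul_right q) hq.pos (dvd_mul_left q M)).opH ρ ((wFam hNM hq.pos w).opH ρ y) =
      - (σ • y) := by
    intro y hy
    have h3 := resFam_trFam_g w hNM hq hqM y
    rw [trFam_eq w hNM hq hqM, hy, map_zero] at h3
    have h4 : (gFam w hNM hq hqM).opH ρ y = - y := by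
      rw [eq_neg_iff_add_eq_zero, add_comm]
      exact h3.symm
    rw [uFam_wFam_by w hNM hq hqM hqN hs, h4, smul_neg]
  refine ⟨key x h1, ?_⟩
  have h3 := key ((wFam hNM hq.pos w).opH ρ x) (by
    rw [← trFam_eq w hNM hq hqM, trFam_wFam, h2])
  rw [wFam_wFam_by hNM hq.pos hqN w hs, map_smul, ← smul_neg] at h3
  exact hσ.smul_left_cancel.mp h3

end Scal

section Emb

variable {K : Type*} [Field K] [CharZero K] {V : Type*} [AddCommGroup V] [Module K V]

/-- **Twist embeddings transport the conditions "killed by both traces" at a prime `q ∥ M`,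
`q ∤ N`.** -/
theorem traces_of_twEmb {N N' M₀ M₀' q : ℕ} [NeZero M₀] [NeZero M₀'] [NeZero q]
    (hN : N ∣ M₀) (hN' : N' ∣ M₀') (hq : q.Prime) (hqM : ¬ q ∣ M₀) (hqM' : ¬ q ∣ M₀')
    {ρ : DN N →* (Module.End K V)ᵐᵒᵖ} {ρ' : DN N' →* (Module.End K V)ᵐᵒᵖ}
    {κ : (ZMod N)ˣ →* Kˣ} (hqN : q.Coprime N) (hqN' : q.Coprime N')
    {E : H1 (gam N (M₀ * q) (hN.mul_right q)) ρ →ₗ[K] H1 (gam N' (M₀' * q) (hN'.mul_right q)) ρ'}
    (h : TwEmb (hN.mul_right q) (hN'.mul_right q) ρ ρ' κ E)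
    (hs : ScalBy ρ hq.pos hqN (((κ (ZMod.unitOfCoprime q hqN)) ^ 2 : Kˣ) : K))
    (hs' : ScalTriv ρ' hq.pos hqN')
    (x : H1 (gam N (M₀ * q) (hN.mul_right q)) ρ)
    (h1 : (Fermat.Agent.H70.Coh.trFam hN).opH ρ x = 0) (h2 : (nuFam hN hq).opH ρ x = 0) :
    (Fermat.Agent.H70.Coh.trFam hN').opH ρ' (E x) = 0 ∧ (nuFam hN' hq).opH ρ' (E x) = 0 := by
  obtain ⟨w⟩ := nonempty_AL' hq hqM
  obtain ⟨w'⟩ := nonempty_AL' hq hqM'
  set k : K := ((κ (ZMod.unitOfCoprime q hqN) : Kˣ) : K) with hk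
  have hk0 : k ≠ 0 := Units.ne_zero _
  have hkk : (((κ (ZMod.unitOfCoprime q hqN)) ^ 2 : Kˣ) : K) = k * k := by
    rw [Units.val_pow_eq_pow_val, pow_two]
  rw [hkk] at hs
  obtain ⟨e1, e2⟩ := u_w_of_traces_by w hN hq hqM hqN (isUnit_iff_ne_zero.mpr
    (mul_ne_zero hk0 hk0)) hs x h1 h2
  have hAL := h.AL hq.pos (dvd_mul_left q M₀) hqN (isAL_wFam hN hq.pos w) (isAL_wFam hN' hq.pos w')
  have hU := h.U hq.pos (dvd_mul_left q M₀) (dvd_mul_left q M₀') hqN
  -- `U' w' (E x) = - E x`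
  have f1 : (uFam (hN'.mul_right q) hq.pos (dvd_mul_left q M₀')).opH ρ'
      ((wFam hN' hq.pos w').opH ρ' (E x)) = - E x := by
    have e3 := congrArg E e1
    rw [hU, hAL, map_smul, map_neg, map_smul, smul_smul, ← smul_neg] at e3
    exact smul_right_injective _ (mul_ne_zero hk0 hk0) e3
  have f2 : (uFam (hN'.mul_right q) hq.pos (dvd_mul_left q M₀')).opH ρ' (E x) =
      - (wFam hN' hq.pos w').opH ρ' (E x) := by
    have e3 := congrArg E e2
    rw [hU, map_neg, hAL, ← smul_neg] at e3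
    exact smul_right_injective _ hk0 e3
  have hinj : ∀ y : H1 (gam N' M₀' hN') ρ',
      (resFam hN' (dvd_mul_right M₀' q)).opH ρ' y = 0 → y = 0 := by
    intro y hy
    have h3 := trFam_resFam w' hN' hq hqM' y
    rw [hy, map_zero] at h3
    have h4 : ((q + 1 : ℕ) : K) • y = 0 := by
      rw [Nat.cast_smul_eq_nsmul]
      exact h3.symm
    exact (smul_eq_zero.mp h4).resolve_left (by exact_mod_cast Nat.succ_ne_zero q)
  constructor
  · rw [← trFam_eq w' hN' hq hqM']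
    apply hinj
    rw [resFam_trFam w' hN' hq hqM' hqN' hs', f1, add_neg_cancel]
  · rw [← trFam_wFam w' hN' hq hqM']
    apply hinj
    rw [resFam_trFam w' hN' hq hqM' hqN' hs', wFam_wFam hN' hq.pos hqN' w' hs', f2,
      add_neg_cancel]

end Emb

end Fermat.Agent.H4
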