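/-
Localisation of modules with commuting operators by idempotents: the summand of a finitely
generated module over a complete local ring on which a family of commuting operators has a given
residual eigensystem.
-/
import Mathlib
import Fermat.Prelude.Thm_Algebra_finite_maximalSpectrum_and_bijective_localization_of_module_finite

set_option autoImplicit false
set_option linter.style.haveILetI false

namespace Fermat.Agent.H59

open IsLocalRing

section Act

variable {O ι E : Type*} [CommRing O] [Ring E] [Algebra O E]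

open scoped IsMulCommutative in
/-- The action of the polynomial ring on an algebra given by commuting elements. -/
noncomputable def act (T : ι → E) (hT : ∀ i j, T i * T j = T j * T i) :
    MvPolynomial ι O →ₐ[O] E :=
  haveI : IsMulCommutative (Algebra.adjoin O (Set.range T)) :=
    Algebra.isMulCommutative_adjoin O (by rintro _ ⟨i, rfl⟩ _ ⟨j, rfl⟩; exact hT i j)
  (Algebra.adjoin O (Set.range T)).val.comp
    (MvPolynomial.aeval fun i =>
      (⟨T i, Algebra.subset_adjoin ⟨i, rfl⟩⟩ : Algebra.adjoin O (Set.range T)))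

@[simp] lemma act_X (T : ι → E) (hT : ∀ i j, T i * T j = T j * T i) (i : ι) :
    act (O := O) T hT (MvPolynomial.X i) = T i := by
  rw [act]
  simp only [AlgHom.comp_apply, MvPolynomial.aeval_X]
  rfl

@[simp] lemma act_C (T : ι → E) (hT : ∀ i j, T i * T j = T j * T i) (a : O) :
    act T hT (MvPolynomial.C a) = algebraMap O E a :=
  (act T hT).commutes a

lemma act_commute (T : ι → E) (hT : ∀ i j, T i * T j = T j * T i) (P Q : MvPolynomial ι O) :
    act T hT P * act T hT Q = act T hT Q * act T hT P := by
  rw [← map_mul, ← map_mul, mul_comm]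

/-- compatibility with algebra homomorphisms -/
lemma map_act {E' : Type*} [Ring E'] [Algebra O E'] (f : E →ₐ[O] E') (T : ι → E)
    (hT : ∀ i j, T i * T j = T j * T i) (T' : ι → E') (hT' : ∀ i j, T' i * T' j = T' j * T' i)
    (h : ∀ i, f (T i) = T' i) (P : MvPolynomial ι O) : f (act T hT P) = act T' hT' P := by
  have : f.comp (act T hT) = act T' hT' := by
    apply MvPolynomial.algHom_ext
    intro i
    rw [AlgHom.comp_apply, act_X, act_X, h]
  exact DFunLike.congr_fun this P

end Act

section Natural

variable {O ι H H' : Type*} [CommRing O] [AddCommGroup H] [AddCommGroup H'] [Module O H]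
  [Module O H'] {R R' : Type*} [Ring R] [Ring R'] [Module R H] [Module R' H']
  [Algebra O (Module.End R H)] [Algebra O (Module.End R' H')]

/-- compatibility with equivariant maps -/
lemma act_natural (h1 : ∀ (a : O) (x : H), algebraMap O (Module.End R H) a x = a • x)
    (h2 : ∀ (a : O) (x : H'), algebraMap O (Module.End R' H') a x = a • x)
    (f : H →+ H') (hf : ∀ (a : O) x, f (a • x) = a • f x)
    (T : ι → Module.End R H) (hT : ∀ i j, T i * T j = T j * T i)
    (T' : ι → Module.End R' H') (hT' : ∀ i j, T' i * T' j = T' j * T' i)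
    (h : ∀ i x, f (T i x) = T' i (f x)) (P : MvPolynomial ι O) (x : H) :
    f (act T hT P x) = act T' hT' P (f x) := by
  induction P using MvPolynomial.induction_on generalizing x with
  | C a => rw [act_C, act_C, h1, h2, hf]
  | add P Q hP hQ => rw [map_add, map_add, LinearMap.add_apply, LinearMap.add_apply, map_add,
      hP, hQ]
  | mul_X P i hP =>
    rw [map_mul, map_mul, act_X, act_X, Module.End.mul_apply, Module.End.mul_apply, hP, h]

end Natural

section Idem

variable {O ι E κ : Type} [CommRing O] [Ring E] [Algebra O E] [Field κ]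

/-- `e` cuts out the summand with residual eigensystem `θ`. -/
structure IsLocIdem (T : ι → E) (hT : ∀ i j, T i * T j = T j * T i)
    (θ : MvPolynomial ι O →+* κ) (e : MvPolynomial ι O) : Prop where
  residue : θ e = 1
  idem : act T hT e * act T hT e = act T hT e
  inv : ∀ s, θ s ≠ 0 → ∃ s', act T hT (s * s' * e) = act T hT e

theorem IsLocIdem.unique {T : ι → E} {hT : ∀ i j, T i * T j = T j * T i}
    {θ : MvPolynomial ι O →+* κ} {e e' : MvPolynomial ι O} (h : IsLocIdem T hT θ e)
    (h' : IsLocIdem T hT θ e') : act T hT e = act T hT e' := by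
  have key : ∀ {e e' : MvPolynomial ι O}, IsLocIdem T hT θ e → IsLocIdem T hT θ e' →
      act T hT e' * act T hT e = act T hT e := by
    intro e e' h h'
    obtain ⟨s', hs'⟩ := h.inv e' (by rw [h'.residue]; exact one_ne_zero)
    rw [← hs', map_mul, map_mul, ← mul_assoc, ← mul_assoc, h'.idem]
  rw [← key h h', act_commute, key h' h]

/-- the summand for a different family (a quotient, or a sub) -/
theorem IsLocIdem.of_map {E' : Type} [Ring E'] [Algebra O E'] {T : ι → E}
    {hT : ∀ i j, T i * T j = T j * T i} {θ : MvPolynomial ι O →+* κ} {e : MvPolynomial ι O}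
    (h : IsLocIdem T hT θ e) (f : E →ₐ[O] E') {T' : ι → E'}
    (hT' : ∀ i j, T' i * T' j = T' j * T' i) (hf : ∀ i, f (T i) = T' i) :
    IsLocIdem T' hT' θ e where
  residue := h.residue
  idem := by rw [← map_act f T hT T' hT' hf, ← map_mul, h.idem]
  inv s hs := by
    obtain ⟨s', hs'⟩ := h.inv s hs
    exact ⟨s', by rw [← map_act f T hT T' hT' hf, ← map_act f T hT T' hT' hf, hs']⟩

variable [IsLocalRing O] [IsNoetherianRing O] [IsAdicComplete (maximalIdeal O) O]

/-- **Existence of the local idempotent.** -/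
theorem exists_isLocIdem [Module.Finite O E] (T : ι → E) (hT : ∀ i j, T i * T j = T j * T i)
    (θ : MvPolynomial ι O →+* κ) (hθs : ∀ x : κ, ∃ a : O, θ (MvPolynomial.C a) = x) :
    ∃ e, IsLocIdem T hT θ e := by
  classical
  set K : Ideal (MvPolynomial ι O) := RingHom.ker (act (O := O) T hT).toRingHom with hK
  have hKmem : ∀ P, P ∈ K ↔ act T hT P = 0 := fun P => RingHom.mem_ker
  by_cases hle : K ≤ RingHom.ker θ
  swap
  · obtain ⟨s, hsK, hs⟩ := SetLike.not_le_iff_exists.mp hle
    have hs' : θ s ≠ 0 := fun h => hs (RingHom.mem_ker.mpr h)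
    obtain ⟨a, ha⟩ := hθs (θ s)⁻¹
    have h0 : act T hT (s * MvPolynomial.C a) = 0 := by
      rw [map_mul, (hKmem s).mp hsK, zero_mul]
    refine ⟨s * MvPolynomial.C a, ?_, ?_, ?_⟩
    · rw [map_mul, ha, mul_inv_cancel₀ hs']
    · rw [h0, mul_zero]
    · intro t _
      exact ⟨0, by rw [h0, mul_zero, zero_mul, map_zero]⟩
  · let A := MvPolynomial ι O ⧸ K
    let j : A →ₐ[O] E := Ideal.Quotient.liftₐ K (act T hT) (fun P hP => (hKmem P).mp hP)
    have hj : ∀ P, j (Ideal.Quotient.mk K P) = act T hT P := fun P => rfl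
    have hjinj : Function.Injective j := by
      rw [injective_iff_map_eq_zero]
      intro x hx
      obtain ⟨P, rfl⟩ := Ideal.Quotient.mk_surjective x
      rw [hj] at hx
      exact Ideal.Quotient.eq_zero_iff_mem.mpr ((hKmem P).mpr hx)
    haveI : IsNoetherian O E := isNoetherian_of_isNoetherianRing_of_finite O E
    haveI : Module.Finite O A := Module.Finite.of_injective j.toLinearMap hjinj
    let θA : A →+* κ := Ideal.Quotient.lift K θ (fun P hP => RingHom.mem_ker.mp (hle hP))
    have hθA : ∀ P, θA (Ideal.Quotient.mk K P) = θ P := fun P => rfl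
    have hsurj : Function.Surjective θA := by
      intro x
      obtain ⟨a, ha⟩ := hθs x
      exact ⟨Ideal.Quotient.mk K (MvPolynomial.C a), ha⟩
    let I : MaximalSpectrum A := ⟨RingHom.ker θA, RingHom.ker_isMaximal_of_surjective θA hsurj⟩
    haveI hIp : I.asIdeal.IsPrime := I.isMaximal.isPrime
    obtain ⟨-, hbij, -, -⟩ :=
      Algebra.finite_maximalSpectrum_and_bijective_localization_of_module_finite (𝒪 := O) A
    set Φ := RingHom.pi fun I : MaximalSpectrum A =>
        algebraMap A (Localization.AtPrime I.asIdeal) with hΦ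
    have hΦ' : ∀ a J, Φ a J = algebraMap A (Localization.AtPrime J.asIdeal) a := fun a J => rfl
    obtain ⟨e₀, he₀⟩ := hbij.2 (Pi.single I 1)
    have hunit : ∀ t : A, θA t ≠ 0 → IsUnit (algebraMap A (Localization.AtPrime I.asIdeal) t) := by
      intro t ht
      rw [IsLocalization.AtPrime.isUnit_to_map_iff (Localization.AtPrime I.asIdeal) I.asIdeal]
      exact fun h => ht (RingHom.mem_ker.mp h)
    have hres : θA e₀ = 1 := by
      have h1 : algebraMap A (Localization.AtPrime I.asIdeal) (1 - e₀) = 0 := by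
        have := congrFun he₀ I
        rw [hΦ', Pi.single_eq_same] at this
        rw [map_sub, map_one, this, sub_self]
      have h2 : θA (1 - e₀) = 0 := by
        by_contra h3
        have h4 := hunit _ h3
        rw [h1] at h4
        haveI : Nontrivial (Localization.AtPrime I.asIdeal) := inferInstance
        exact not_isUnit_zero h4
      rw [map_sub, map_one, sub_eq_zero] at h2
      exact h2.symm
    obtain ⟨e, rfl⟩ := Ideal.Quotient.mk_surjective e₀
    refine ⟨e, hres, ?_, ?_⟩
    · have h1 : Ideal.Quotient.mk K e * Ideal.Quotient.mk K e = Ideal.Quotient.mk K e := by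
        apply hbij.1
        rw [map_mul, he₀, ← Pi.single_mul, mul_one]
      rw [← hj, ← map_mul, h1]
    · intro s hs
      have hs1 : IsUnit (algebraMap A (Localization.AtPrime I.asIdeal) (Ideal.Quotient.mk K s)) :=
        hunit _ hs
      obtain ⟨u, hu⟩ := hs1
      obtain ⟨s₀, hs₀⟩ := hbij.2 (Pi.single I ((u⁻¹ : (Localization.AtPrime I.asIdeal)ˣ) :
        Localization.AtPrime I.asIdeal))
      obtain ⟨s', rfl⟩ := Ideal.Quotient.mk_surjective s₀
      refine ⟨s', ?_⟩
      have h1 : Ideal.Quotient.mk K (s * s' * e) = Ideal.Quotient.mk K e := by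
        apply hbij.1
        rw [map_mul, map_mul, map_mul, map_mul, hs₀, he₀, mul_assoc, ← Pi.single_mul, mul_one]
        funext J
        by_cases hJ : J = I
        · subst hJ
          rw [Pi.mul_apply, Pi.single_eq_same, Pi.single_eq_same, hΦ', ← hu, Units.mul_inv]
        · rw [Pi.mul_apply, Pi.single_eq_of_ne hJ, Pi.single_eq_of_ne hJ, mul_zero]
      rw [← hj, h1, hj]

/-- one polynomial is a local idempotent for finitely many families simultaneously -/
theorem exists_isLocIdem_pi {J : Type} [Finite J] (F : J → Type) [∀ j, Ring (F j)]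
    [∀ j, Algebra O (F j)] [∀ j, Module.Finite O (F j)] (T : ∀ j, ι → F j)
    (hT : ∀ j i i', T j i * T j i' = T j i' * T j i)
    (θ : MvPolynomial ι O →+* κ) (hθs : ∀ x : κ, ∃ a : O, θ (MvPolynomial.C a) = x) :
    ∃ e, ∀ j, IsLocIdem (T j) (hT j) θ e := by
  let T' : ι → (∀ j, F j) := fun i j => T j i
  have hT' : ∀ i i', T' i * T' i' = T' i' * T' i := fun i i' => funext fun j => hT j i i'
  obtain ⟨e, he⟩ := exists_isLocIdem T' hT' θ hθs
  exact ⟨e, fun j => he.of_map (Pi.evalAlgHom O F j) (hT j) fun i => rfl⟩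

end Idem

section Summand

variable {O Λ ι H κ : Type} [CommRing O] [CommRing Λ] [Algebra O Λ] [AddCommGroup H] [Module Λ H]
  [Module O H] [IsScalarTower O Λ H] [Field κ]

/-- the summand cut out by `e` -/
noncomputable def Loc (T : ι → Module.End Λ H) (hT : ∀ i j, T i * T j = T j * T i)
    (e : MvPolynomial ι O) : Submodule Λ H :=
  LinearMap.range (act T hT e)

variable {T : ι → Module.End Λ H} {hT : ∀ i j, T i * T j = T j * T i} {e : MvPolynomial ι O}
  {θ : MvPolynomial ι O →+* κ}

lemma algebraMap_end_apply (a : O) (x : H) : algebraMap O (Module.End Λ H) a x = a • x := rfl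

lemma mem_loc (he : act T hT e * act T hT e = act T hT e) {x : H} :
    x ∈ Loc T hT e ↔ act T hT e x = x := by
  constructor
  · rintro ⟨y, rfl⟩
    exact DFunLike.congr_fun he y
  · intro h
    exact ⟨x, h⟩

lemma act_mem_loc (P : MvPolynomial ι O) {x : H} (hx : x ∈ Loc T hT e) :
    act T hT P x ∈ Loc T hT e := by
  obtain ⟨y, rfl⟩ := hx
  refine ⟨act T hT P y, ?_⟩
  exact DFunLike.congr_fun (act_commute T hT e P) y

/-- the projection to the summand -/
noncomputable def locProj (T : ι → Module.End Λ H) (hT : ∀ i j, T i * T j = T j * T i)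
    (e : MvPolynomial ι O) : H →ₗ[Λ] Loc T hT e :=
  (act T hT e).rangeRestrict

@[simp] lemma locProj_coe (x : H) : (locProj T hT e x : H) = act T hT e x := rfl

lemma locProj_surjective : Function.Surjective (locProj T hT e) :=
  LinearMap.surjective_rangeRestrict _

lemma locProj_comp_subtype (he : act T hT e * act T hT e = act T hT e) :
    locProj T hT e ∘ₗ (Loc T hT e).subtype = LinearMap.id := by
  apply LinearMap.ext
  intro x
  exact Subtype.ext ((mem_loc he).mp x.2)

lemma locProj_of_mem (he : act T hT e * act T hT e = act T hT e) (x : Loc T hT e) :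
    locProj T hT e x = x := Subtype.ext ((mem_loc he).mp x.2)

/-- the operators on the summand -/
noncomputable def locT (T : ι → Module.End Λ H) (hT : ∀ i j, T i * T j = T j * T i)
    (e : MvPolynomial ι O) (i : ι) : Module.End Λ (Loc T hT e) :=
  (T i).restrict (fun x hx => by
    have := act_mem_loc (MvPolynomial.X i) hx
    rwa [act_X] at this)

@[simp] lemma locT_coe (i : ι) (x : Loc T hT e) : (locT T hT e i x : H) = T i x := rfl

lemma locT_comm (i j : ι) : locT T hT e i * locT T hT e j = locT T hT e j * locT T hT e i := by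
  apply LinearMap.ext
  intro x
  exact Subtype.ext (DFunLike.congr_fun (hT i j) x.1)

lemma act_locT_coe (P : MvPolynomial ι O) (x : Loc T hT e) :
    (act (locT T hT e) locT_comm P x : H) = act T hT P x := by
  exact act_natural (R := Λ) (R' := Λ) (fun _ _ => rfl) (fun _ _ => rfl)
    ((Loc T hT e).subtype.toAddMonoidHom) (fun _ _ => rfl) (locT T hT e) locT_comm T hT
    (fun _ _ => rfl) P x

lemma act_locT_e (he : act T hT e * act T hT e = act T hT e) :
    act (locT T hT e) locT_comm e = 1 := by
  apply LinearMap.ext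
  intro x
  apply Subtype.ext
  rw [act_locT_coe, (mem_loc he).mp x.2]
  rfl

/-- every polynomial outside the kernel of `θ` acts invertibly on the summand -/
lemma IsLocIdem.exists_inv (h : IsLocIdem T hT θ e) {s : MvPolynomial ι O} (hs : θ s ≠ 0) :
    ∃ s' : MvPolynomial ι O,
      act (locT T hT e) locT_comm s * act (locT T hT e) locT_comm s' = 1 := by
  obtain ⟨s', hs'⟩ := h.inv s hs
  refine ⟨s', ?_⟩
  rw [← map_mul]
  apply LinearMap.ext
  intro x
  apply Subtype.ext
  rw [act_locT_coe]
  have h1 : act T hT (s * s') x.1 = act T hT (s * s' * e) x.1 := by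
    rw [map_mul _ (s * s') e, Module.End.mul_apply, (mem_loc h.idem).mp x.2]
  rw [h1, hs', (mem_loc h.idem).mp x.2]
  rfl

/-- The action of a quotient of the polynomial ring. -/
theorem exists_loc_ringHom {𝕋 : Type} [CommRing 𝕋] [Algebra O 𝕋]
    (π : MvPolynomial ι O →ₐ[O] 𝕋) (hπ : Function.Surjective π)
    (hk : ∀ P, π P = 0 → ∀ x ∈ Loc T hT e, act T hT P x = 0) :
    ∃ Φ : 𝕋 →ₐ[O] Module.End Λ (Loc T hT e),
      ∀ P, Φ (π P) = act (locT T hT e) locT_comm P := by
  have hk' : ∀ P ∈ RingHom.ker π, act (locT T hT e) locT_comm P = 0 := by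
    intro P hP
    apply LinearMap.ext
    intro x
    apply Subtype.ext
    rw [act_locT_coe]
    exact hk P (RingHom.mem_ker.mp hP) x.1 x.2
  let e₁ : (MvPolynomial ι O ⧸ RingHom.ker π) ≃ₐ[O] 𝕋 :=
    Ideal.quotientKerAlgEquivOfSurjective hπ
  let F : (MvPolynomial ι O ⧸ RingHom.ker π) →ₐ[O] Module.End Λ (Loc T hT e) :=
    Ideal.Quotient.liftₐ (RingHom.ker π) (act (locT T hT e) locT_comm) hk'
  refine ⟨F.comp e₁.symm.toAlgHom, fun P => ?_⟩
  have h1 : e₁.symm (π P) = Ideal.Quotient.mk _ P := by
    rw [AlgEquiv.symm_apply_eq]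
    rfl
  change F (e₁.symm (π P)) = _
  rw [h1]
  rfl

end Summand

section Maps

variable {O Λ Λ' ι H H' κ : Type} [CommRing O] [CommRing Λ] [Algebra O Λ] [AddCommGroup H]
  [Module Λ H] [Module O H] [IsScalarTower O Λ H] [CommRing Λ'] [Algebra O Λ'] [AddCommGroup H']
  [Module Λ' H'] [Module O H'] [IsScalarTower O Λ' H'] [Field κ]
  {T : ι → Module.End Λ H} {hT : ∀ i j, T i * T j = T j * T i}
  {T' : ι → Module.End Λ' H'} {hT' : ∀ i j, T' i * T' j = T' j * T' i} {e : MvPolynomial ι O}

lemma map_act_apply (f : H →+ H') (hf : ∀ (a : O) x, f (a • x) = a • f x)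
    (h : ∀ i x, f (T i x) = T' i (f x)) (P : MvPolynomial ι O) (x : H) :
    f (act T hT P x) = act T' hT' P (f x) :=
  act_natural (fun _ _ => rfl) (fun _ _ => rfl) f hf T hT T' hT' h P x

/-- equivariant maps induce maps of summands -/
lemma map_mem_loc (f : H →+ H') (hf : ∀ (a : O) x, f (a • x) = a • f x)
    (h : ∀ i x, f (T i x) = T' i (f x)) {x : H} (hx : x ∈ Loc T hT e) : f x ∈ Loc T' hT' e := by
  obtain ⟨y, rfl⟩ := hx
  exact ⟨f y, (map_act_apply (hT' := hT') f hf h e y).symm⟩

/-- surjectivity on summands -/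
lemma exists_mem_loc (f : H →+ H') (hf : ∀ (a : O) x, f (a • x) = a • f x)
    (h : ∀ i x, f (T i x) = T' i (f x)) (he' : act T' hT' e * act T' hT' e = act T' hT' e)
    {y : H} (hy : f y ∈ Loc T' hT' e) : ∃ x ∈ Loc T hT e, f x = f y := by
  refine ⟨act T hT e y, ⟨y, rfl⟩, ?_⟩
  rw [map_act_apply (hT' := hT') f hf h e y, (mem_loc he').mp hy]

end Maps

end Fermat.Agent.H59
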