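import Fermat.Agent.H70Comp
import Fermat.Agent.H59Loc

/-!
# The localised modules `e H¹(Γ₀(M), R_ψ)` with twisted Hecke operators

For two characters `ψ` (the coefficients) and `η` (the twist, in applications `ψ = η²`) we consider
the operators `T'_ℓ = η(ℓ)⁻¹ T_ℓ` on `H¹(Γ₀(M), R_ψ)` for the primes `ℓ ∉ S`.

* `tw`, `tw_comm`, `h1S_tw`, `h1S_act` : the family, commutation, base change.
* `isLocIdem_bc` : a local idempotent for `R` is one for every `R → R'`.
* `loc_free` : freeness over a local ring `R` of the summand, if `θ` is not Eisenstein.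
* `locBC` : `R' ⊗_R Loc_R ≃ Loc_R'`, `finrank_loc_eq`.
* `loc_map_surjective`, `loc_map_eq_zero_iff` : quotients.
-/

set_option autoImplicit false
set_option linter.style.haveILetI false

open Matrix CongruenceSubgroup IsLocalRing
open scoped MatrixGroups TensorProduct

namespace Fermat.Agent.H70.Mod

open Fermat.Agent.H70.Coh Fermat.Agent.H59

/-- index set of the Hecke operators away from `S` -/
abbrev Idx (S : Set ℕ) : Type := {ℓ : ℕ // ℓ.Prime ∧ ℓ ∉ S}

/-- `S` contains all primes dividing `M` -/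
def Away (M : ℕ) (S : Set ℕ) : Prop := ∀ q : ℕ, q.Prime → q ∣ M → q ∈ S

lemma Away.not_dvd {M : ℕ} {S : Set ℕ} (h : Away M S) (i : Idx S) : ¬ i.1 ∣ M :=
  fun hd => i.2.2 (h i.1 i.2.1 hd)

section Tw

variable {N M : ℕ} (hM : N ∣ M) {S : Set ℕ} (hS : Away M S) {R : Type} [CommRing R]
  (ψ η : (ZMod N)ˣ →* Rˣ)

/-- the value of `η` at `ℓ` -/
def atIdx (η : (ZMod N)ˣ →* Rˣ) (i : Idx S) : Rˣ :=
  η (ZMod.unitOfCoprime i.1 (coprime_of_not_dvd i.2.1 (hS.not_dvd i) hM))

/-- the operators `T'_ℓ = η(ℓ)⁻¹ T_ℓ` on `H¹(Γ₀(M), R_ψ)` -/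
noncomputable def tw (i : Idx S) : Module.End R (H1 (gam N M hM) (psiRep ψ R)) :=
  (((atIdx hM hS η i)⁻¹ : Rˣ) : R) • tH hM ψ i.2.1 (hS.not_dvd i) R

lemma tw_apply (i : Idx S) (x : H1 (gam N M hM) (psiRep ψ R)) :
    tw hM hS ψ η i x = (((atIdx hM hS η i)⁻¹ : Rˣ) : R) • tH hM ψ i.2.1 (hS.not_dvd i) R x := rfl

lemma tw_comm (i j : Idx S) :
    tw hM hS ψ η i * tw hM hS ψ η j = tw hM hS ψ η j * tw hM hS ψ η i := by
  apply LinearMap.ext
  intro x
  rw [Module.End.mul_apply, Module.End.mul_apply, tw_apply, tw_apply, tw_apply, tw_apply,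
    map_smul, map_smul, smul_comm]
  congr 2
  have h := LinearMap.congr_fun (tFam_comm (hM := hM) (ρ := psiRep ψ R) j.2.1 (hS.not_dvd j)
    i.2.1 (hS.not_dvd i)) x
  rw [HFam.opH_comp, HFam.opH_comp] at h
  exact h

variable {R' : Type} [CommRing R']

lemma atIdx_map (f : R →+* R') (i : Idx S) :
    ((atIdx hM hS (psiMap f η) i : R'ˣ) : R') = f ((atIdx hM hS η i : Rˣ) : R) := rfl

lemma atIdx_map_inv (f : R →+* R') (i : Idx S) :
    (((atIdx hM hS (psiMap f η) i)⁻¹ : R'ˣ) : R') = f (((atIdx hM hS η i)⁻¹ : Rˣ) : R) := by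
  have h : (atIdx hM hS (psiMap f η) i)⁻¹ = Units.map (f : R →* R') ((atIdx hM hS η i)⁻¹) := by
    rw [map_inv]
    rfl
  rw [h]
  rfl

lemma h1S_tw (f : R →+* R') (i : Idx S) (x : H1 (gam N M hM) (psiRep ψ R)) :
    h1S hM ψ f (tw hM hS ψ η i x) =
      tw hM hS (psiMap f ψ) (psiMap f η) i (h1S hM ψ f x) := by
  rw [tw_apply, tw_apply, map_smulₛₗ, atIdx_map_inv]
  congr 1
  exact (opH_h1S hM ψ (tFam hM i.2.1 (hS.not_dvd i)) f x).symm

variable {O : Type} [CommRing O] [Algebra O R] [Algebra O R']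

lemma h1S_smulO (f : R →+* R') (hf : ∀ a : O, f (algebraMap O R a) = algebraMap O R' a) (a : O)
    (x : H1 (gam N M hM) (psiRep ψ R)) :
    h1S hM ψ f (a • x) = a • h1S hM ψ f x := by
  rw [← algebraMap_smul R a x, map_smulₛₗ, ← algebraMap_smul R' a, hf]

lemma h1S_act (f : R →+* R') (hf : ∀ a : O, f (algebraMap O R a) = algebraMap O R' a)
    (P : MvPolynomial (Idx S) O) (x : H1 (gam N M hM) (psiRep ψ R)) :
    h1S hM ψ f (act (tw hM hS ψ η) (tw_comm hM hS ψ η) P x) =
      act (tw hM hS (psiMap f ψ) (psiMap f η)) (tw_comm hM hS _ _) P (h1S hM ψ f x) :=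
  map_act_apply (Λ := R) (Λ' := R') (h1S hM ψ f).toAddMonoidHom
    (h1S_smulO hM ψ f hf) (fun i x => h1S_tw hM hS ψ η f i x) P x

end Tw

section BC

variable {N M : ℕ} (hM : N ∣ M) {S : Set ℕ} (hS : Away M S) {R : Type} [CommRing R]
  (ψ η : (ZMod N)ˣ →* Rˣ) {R' : Type} [CommRing R']
  {O : Type} [CommRing O] [Algebra O R] [Algebra O R'] (hg : Good M R) (hψ : ψ (-1) = 1)

include hg hψ in
/-- the image of `H¹(R_ψ)` generates `H¹(R'_ψ)` -/
lemma span_range_h1S [NeZero M] (f : R →+* R') :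
    Submodule.span R' (Set.range (h1S hM ψ f)) = ⊤ := by
  letI := f.toAlgebra
  rw [eq_top_iff]
  intro y _
  obtain ⟨v, rfl⟩ := (h1BC_bijective (R' := R') hM ψ hg hψ).2 y
  induction v using TensorProduct.induction_on with
  | zero => rw [map_zero]; exact zero_mem _
  | add a b ha hb => rw [map_add]; exact add_mem (ha trivial) (hb trivial)
  | tmul r x =>
    rw [h1BC_tmul]
    exact Submodule.smul_mem _ _ (Submodule.subset_span ⟨x, rfl⟩)

include hg hψ in
/-- relations between Hecke operators pass to base changes -/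
lemma act_eq_of_act_eq [NeZero M] (f : R →+* R')
    (hf : ∀ a : O, f (algebraMap O R a) = algebraMap O R' a) {P Q : MvPolynomial (Idx S) O}
    (h : act (tw hM hS ψ η) (tw_comm hM hS ψ η) P = act (tw hM hS ψ η) (tw_comm hM hS ψ η) Q) :
    act (tw hM hS (psiMap f ψ) (psiMap f η)) (tw_comm hM hS _ _) P =
      act (tw hM hS (psiMap f ψ) (psiMap f η)) (tw_comm hM hS _ _) Q := by
  apply LinearMap.ext_on (span_range_h1S hM ψ hg hψ f)
  rintro _ ⟨x, rfl⟩
  rw [← h1S_act hM hS ψ η f hf, ← h1S_act hM hS ψ η f hf, h]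

variable {κ : Type} [Field κ] {θ : MvPolynomial (Idx S) O →+* κ} {e : MvPolynomial (Idx S) O}

include hg hψ in
/-- a local idempotent stays one after base change -/
theorem isLocIdem_bc [NeZero M] (f : R →+* R')
    (hf : ∀ a : O, f (algebraMap O R a) = algebraMap O R' a)
    (he : IsLocIdem (tw hM hS ψ η) (tw_comm hM hS ψ η) θ e) :
    IsLocIdem (tw hM hS (psiMap f ψ) (psiMap f η)) (tw_comm hM hS _ _) θ e where
  residue := he.residue
  idem := by
    have h1 : act (tw hM hS ψ η) (tw_comm hM hS ψ η) (e * e) =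
        act (tw hM hS ψ η) (tw_comm hM hS ψ η) e := by rw [map_mul, he.idem]
    rw [← map_mul]
    exact act_eq_of_act_eq hM hS ψ η hg hψ f hf h1
  inv s hs := by
    obtain ⟨s', hs'⟩ := he.inv s hs
    exact ⟨s', act_eq_of_act_eq hM hS ψ η hg hψ f hf hs'⟩

end BC

lemma surjective_of_congr {R X : Type*} [CommRing R] [IsLocalRing R] [AddCommGroup X] [Module R X]
    [Module.Finite R X] (g t : X →ₗ[R] X) (u w n : R) (hg : ∀ y, g y = u • t y - (w + n) • y)
    (hu : u - 1 ∈ maximalIdeal R) (hw : w - 1 ∈ maximalIdeal R)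
    (ht : ∀ x, ∃ y, x = t y - (1 + n) • y) : Function.Surjective g := by
  rw [← LinearMap.range_eq_top]
  apply le_antisymm le_top
  refine Submodule.le_of_le_smul_of_le_jacobson_bot (I := maximalIdeal R) Module.Finite.fg_top
    (IsLocalRing.maximalIdeal_le_jacobson _) ?_
  intro x _
  obtain ⟨y, rfl⟩ := ht x
  have h4 : t y - (1 + n) • y = g y + ((w - 1) • y - (u - 1) • t y) := by
    rw [hg]
    module
  rw [h4]
  exact Submodule.add_mem_sup ⟨y, rfl⟩ (Submodule.sub_mem _ (Submodule.smul_mem_smul hw trivial)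
    (Submodule.smul_mem_smul hu trivial))

lemma exists_preimage {O R X ι : Type} [CommRing O] [CommRing R] [Algebra O R] [AddCommGroup X]
    [Module R X] [Module O X] [IsScalarTower O R X] (T : ι → Module.End R X)
    (hT : ∀ i j, T i * T j = T j * T i) (i : ι) (n : ℕ) (s' : MvPolynomial ι O)
    (h : act T hT (MvPolynomial.X i - (1 + (n : MvPolynomial ι O))) * act T hT s' = 1) (x : X) :
    ∃ y, x = T i y - (1 + (n : R)) • y := by
  refine ⟨act T hT s' x, ?_⟩
  have h1 := LinearMap.congr_fun h x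
  rw [Module.End.mul_apply, Module.End.one_apply, map_sub, map_add, map_one, map_natCast,
    act_X, LinearMap.sub_apply, LinearMap.add_apply, Module.End.one_apply] at h1
  rw [add_smul, one_smul, Nat.cast_smul_eq_nsmul]
  conv_lhs => rw [← h1]
  rfl

section Free

variable {N M : ℕ} (hM : N ∣ M) {S : Set ℕ} (hS : Away M S) {R : Type} [CommRing R]
  (ψ η : (ZMod N)ˣ →* Rˣ) {O : Type} [CommRing O] [Algebra O R] (hg : Good M R) (hψ : ψ (-1) = 1)
  {κ : Type} [Field κ] {θ : MvPolynomial (Idx S) O →+* κ} {e : MvPolynomial (Idx S) O}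

include hg hψ in
lemma h1_finite [NeZero M] : Module.Finite R (H1 (gam N M hM) (psiRep ψ R)) := by
  obtain ⟨h1, -⟩ := z1_projective hM ψ hg hψ
  exact Module.Finite.of_surjective (H1.mk (gam N M hM) (psiRep ψ R))
    (Submodule.mkQ_surjective _)

include hg hψ in
/-- **Freeness of the localised module.** -/
theorem loc_free [NeZero M] [IsLocalRing R]
    (he : IsLocIdem (tw hM hS ψ η) (tw_comm hM hS ψ η) θ e)
    (hψ1 : ∀ u, ((ψ u : Rˣ) : R) - 1 ∈ maximalIdeal R)
    (hη1 : ∀ u, ((η u : Rˣ) : R) - 1 ∈ maximalIdeal R)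
    (i₀ : Idx S) (hi₀ : θ (MvPolynomial.X i₀) ≠ 1 + (i₀.1 : κ)) :
    Module.Free R (Loc (tw hM hS ψ η) (tw_comm hM hS ψ η) e) ∧
      Module.Finite R (Loc (tw hM hS ψ η) (tw_comm hM hS ψ η) e) := by
  haveI := h1_finite hM ψ hg hψ
  set X := Loc (tw hM hS ψ η) (tw_comm hM hS ψ η) e with hX
  haveI hfin : Module.Finite R X := Module.Finite.of_surjective
    (locProj (tw hM hS ψ η) (tw_comm hM hS ψ η) e) locProj_surjective
  -- the Eisenstein operator on `X`
  have hmem : ∀ x ∈ X, etaH hM ψ i₀.2.1 (hS.not_dvd i₀) R x ∈ X := by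
    intro x hx
    have h1 : tw hM hS ψ η i₀ x ∈ X := by
      have := act_mem_loc (T := tw hM hS ψ η) (hT := tw_comm hM hS ψ η) (MvPolynomial.X i₀) hx
      rwa [act_X] at this
    have h2 : tH hM ψ i₀.2.1 (hS.not_dvd i₀) R x ∈ X := by
      have h3 : tH hM ψ i₀.2.1 (hS.not_dvd i₀) R x =
          ((atIdx hM hS η i₀ : Rˣ) : R) • tw hM hS ψ η i₀ x := by
        rw [tw_apply, smul_smul, Units.mul_inv, one_smul]
      rw [h3]
      exact X.smul_mem _ h1
    have h4 : etaH hM ψ i₀.2.1 (hS.not_dvd i₀) R x = tH hM ψ i₀.2.1 (hS.not_dvd i₀) R x -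
        eis ψ (coprime_of_not_dvd i₀.2.1 (hS.not_dvd i₀) hM) • x := rfl
    rw [h4]
    exact X.sub_mem h2 (X.smul_mem _ hx)
  let g : X →ₗ[R] X := (etaH hM ψ i₀.2.1 (hS.not_dvd i₀) R).restrict hmem
  have hgc : ∀ x : X, (g x : H1 (gam N M hM) (psiRep ψ R)) =
      etaH hM ψ i₀.2.1 (hS.not_dvd i₀) R x := fun x => rfl
  -- `X_ℓ - (1 + ℓ)` is invertible on `X`
  have hs : θ (MvPolynomial.X i₀ - (1 + (i₀.1 : MvPolynomial (Idx S) O))) ≠ 0 := by
    rw [map_sub, map_add, map_one, map_natCast, sub_ne_zero]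
    exact hi₀
  obtain ⟨s', hs'⟩ := he.exists_inv hs
  have hsurj : Function.Surjective g := by
    refine surjective_of_congr g (locT (tw hM hS ψ η) (tw_comm hM hS ψ η) e i₀)
      ((atIdx hM hS η i₀ : Rˣ) : R)
      ((ψ (ZMod.unitOfCoprime i₀.1 (coprime_of_not_dvd i₀.2.1 (hS.not_dvd i₀) hM)) : Rˣ) : R)
      (i₀.1 : R) ?_ (hη1 _) (hψ1 _) ?_
    · intro y
      apply Subtype.ext
      have h3 : ((((atIdx hM hS η i₀ : Rˣ) : R) •
          locT (tw hM hS ψ η) (tw_comm hM hS ψ η) e i₀ y : X) : H1 (gam N M hM) (psiRep ψ R)) =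
          tH hM ψ i₀.2.1 (hS.not_dvd i₀) R y.1 := by
        change ((atIdx hM hS η i₀ : Rˣ) : R) • tw hM hS ψ η i₀ y.1 = _
        rw [tw_apply, smul_smul, Units.mul_inv, one_smul]
      rw [hgc, Submodule.coe_sub, h3]
      rfl
    · exact exists_preimage _ locT_comm i₀ i₀.1 s' hs'
  have hbij : Function.Bijective g :=
    OrzechProperty.bijective_of_surjective_endomorphism g hsurj
  obtain ⟨h1, h2⟩ := h1_summand_projective hM ψ hg hψ i₀.2.1 (hS.not_dvd i₀)
    X.subtype (locProj (tw hM hS ψ η) (tw_comm hM hS ψ η) e)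
    (locProj_comp_subtype he.idem) (LinearEquiv.ofBijective g hbij) (fun x => rfl)
  exact ⟨Module.free_of_flat_of_isLocalRing, h2⟩

end Free

section Aux

variable {R : Type} (R' : Type) [CommRing R] [CommRing R'] [Algebra R R'] {X H Y : Type}
  [AddCommGroup X] [Module R X] [AddCommGroup H] [Module R H] [AddCommGroup Y] [Module R Y]

lemma baseChange_comp_apply (i : X →ₗ[R] H) (p : H →ₗ[R] Y) (v : R' ⊗[R] X) :
    (p ∘ₗ i).baseChange R' v = p.baseChange R' (i.baseChange R' v) := by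
  rw [LinearMap.baseChange_comp]
  rfl

lemma baseChange_retract (i : X →ₗ[R] H) (p : H →ₗ[R] X) (hpi : p ∘ₗ i = LinearMap.id)
    (v : R' ⊗[R] X) : p.baseChange R' (i.baseChange R' v) = v := by
  rw [← baseChange_comp_apply, hpi, LinearMap.baseChange_id]
  rfl

end Aux

section LocBC

variable {N M : ℕ} (hM : N ∣ M) {S : Set ℕ} (hS : Away M S) {R : Type} [CommRing R]
  (ψ η : (ZMod N)ˣ →* Rˣ) {R' : Type} [CommRing R']
  {O : Type} [CommRing O] [Algebra O R] [Algebra O R'] (hg : Good M R) (hψ : ψ (-1) = 1)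
  {κ : Type} [Field κ] {θ : MvPolynomial (Idx S) O →+* κ} (e : MvPolynomial (Idx S) O)

/-- the localised module -/
noncomputable abbrev MLoc : Submodule R (H1 (gam N M hM) (psiRep ψ R)) :=
  Loc (tw hM hS ψ η) (tw_comm hM hS ψ η) e

/-- the action of the polynomial ring on the localised module -/
noncomputable abbrev mact : MvPolynomial (Idx S) O →ₐ[O] Module.End R (MLoc hM hS ψ η e) :=
  act (locT (tw hM hS ψ η) (tw_comm hM hS ψ η) e) locT_comm

lemma mact_coe (P : MvPolynomial (Idx S) O) (x : MLoc hM hS ψ η e) :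
    (mact hM hS ψ η e P x : H1 (gam N M hM) (psiRep ψ R)) =
      act (tw hM hS ψ η) (tw_comm hM hS ψ η) P x := act_locT_coe P x

/-- change of rings on the localised modules -/
noncomputable def mS (f : R →+* R') (hf : ∀ a : O, f (algebraMap O R a) = algebraMap O R' a) :
    MLoc hM hS ψ η e →ₛₗ[f] MLoc hM hS (psiMap f ψ) (psiMap f η) e :=
  ((h1S hM ψ f).domRestrict (MLoc hM hS ψ η e)).codRestrict _ (by
    rintro ⟨x, y, rfl⟩
    exact ⟨h1S hM ψ f y, (h1S_act hM hS ψ η f hf e y).symm⟩)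

lemma mS_coe (f : R →+* R') (hf : ∀ a : O, f (algebraMap O R a) = algebraMap O R' a)
    (x : MLoc hM hS ψ η e) :
    (mS hM hS ψ η e f hf x : H1 (gam N M hM) (psiRep (psiMap f ψ) R')) = h1S hM ψ f x := rfl

lemma mS_mact (f : R →+* R') (hf : ∀ a : O, f (algebraMap O R a) = algebraMap O R' a)
    (P : MvPolynomial (Idx S) O) (x : MLoc hM hS ψ η e) :
    mS hM hS ψ η e f hf (mact hM hS ψ η e P x) =
      mact hM hS (psiMap f ψ) (psiMap f η) e P (mS hM hS ψ η e f hf x) := by
  apply Subtype.ext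
  rw [mS_coe, mact_coe, mact_coe, mS_coe, h1S_act hM hS ψ η f hf]

variable {e}

include hg hψ in
lemma mS_surjective [NeZero M] (he : IsLocIdem (tw hM hS ψ η) (tw_comm hM hS ψ η) θ e)
    (f : R →+* R') (hf : ∀ a : O, f (algebraMap O R a) = algebraMap O R' a)
    (hfs : Function.Surjective f) : Function.Surjective (mS hM hS ψ η e f hf) := by
  rintro ⟨y, hy⟩
  obtain ⟨x, rfl⟩ := h1S_surjective hM ψ hg hψ f hfs y
  have h1 := (mem_loc (isLocIdem_bc hM hS ψ η hg hψ f hf he).idem).mp hy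
  refine ⟨locProj (tw hM hS ψ η) (tw_comm hM hS ψ η) e x, ?_⟩
  apply Subtype.ext
  rw [mS_coe, locProj_coe, h1S_act hM hS ψ η f hf, h1]

include hg hψ in
lemma mS_eq_zero_iff [NeZero M] (he : IsLocIdem (tw hM hS ψ η) (tw_comm hM hS ψ η) θ e)
    (f : R →+* R') (hf : ∀ a : O, f (algebraMap O R a) = algebraMap O R' a)
    (hfs : Function.Surjective f) (x : MLoc hM hS ψ η e) :
    mS hM hS ψ η e f hf x = 0 ↔
      x ∈ (RingHom.ker f • ⊤ : Submodule R (MLoc hM hS ψ η e)) := by
  constructor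
  · intro hx
    have h1 : h1S hM ψ f x.1 = 0 := congrArg Subtype.val hx
    rw [h1S_eq_zero_iff hM ψ hg hψ f hfs] at h1
    have h2 : locProj (tw hM hS ψ η) (tw_comm hM hS ψ η) e x.1 ∈
        (RingHom.ker f • ⊤ : Submodule R (MLoc hM hS ψ η e)) := by
      have h3 := Submodule.mem_map_of_mem (f := locProj (tw hM hS ψ η) (tw_comm hM hS ψ η) e) h1
      rw [Submodule.map_smul''] at h3
      have h4 : (RingHom.ker f • (⊤ : Submodule R (H1 (gam N M hM) (psiRep ψ R))).map
          (locProj (tw hM hS ψ η) (tw_comm hM hS ψ η) e) : Submodule R (MLoc hM hS ψ η e)) ≤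
          RingHom.ker f • ⊤ := smul_mono_right _ le_top
      exact h4 h3
    rwa [locProj_of_mem he.idem] at h2
  · intro hx
    refine Submodule.smul_induction_on hx (fun r hr y _ => ?_) fun x y hx hy => ?_
    · rw [map_smulₛₗ, RingHom.mem_ker.mp hr, zero_smul]
    · rw [map_add, hx, hy, add_zero]

section Alg

variable (R') [Algebra R R'] [IsScalarTower O R R']

/-- the base change map, linear form -/
noncomputable def mL : MLoc hM hS ψ η e →ₗ[R]
    MLoc hM hS (psiMap (algebraMap R R') ψ) (psiMap (algebraMap R R') η) e where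
  toFun x := mS hM hS ψ η e (algebraMap R R')
    (fun a => (IsScalarTower.algebraMap_apply O R R' a).symm) x
  map_add' := map_add _
  map_smul' r x := by
    rw [map_smulₛₗ, RingHom.id_apply, algebraMap_smul]

lemma mL_coe (x : MLoc hM hS ψ η e) :
    (mL hM hS ψ η R' x : H1 (gam N M hM) (psiRep (psiMap (algebraMap R R') ψ) R')) =
      h1S hM ψ (algebraMap R R') x := rfl

/-- the base change map -/
noncomputable def mBC : R' ⊗[R] MLoc hM hS ψ η e →ₗ[R']
    MLoc hM hS (psiMap (algebraMap R R') ψ) (psiMap (algebraMap R R') η) e :=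
  LinearMap.liftBaseChange R' (mL hM hS ψ η R')

lemma mBC_tmul (r : R') (x : MLoc hM hS ψ η e) :
    mBC hM hS ψ η R' (r ⊗ₜ[R] x) = r • mL hM hS ψ η R' x :=
  LinearMap.liftBaseChange_tmul ..

variable {R'}

lemma mBC_coe (v : R' ⊗[R] MLoc hM hS ψ η e) :
    (mBC hM hS ψ η R' v : H1 (gam N M hM) (psiRep (psiMap (algebraMap R R') ψ) R')) =
      h1BC hM ψ R' ((MLoc hM hS ψ η e).subtype.baseChange R' v) := by
  induction v using TensorProduct.induction_on with
  | zero => simp only [map_zero, Submodule.coe_zero]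
  | add a b ha hb => rw [map_add, map_add, map_add, Submodule.coe_add, ha, hb]
  | tmul r x =>
    rw [mBC_tmul, LinearMap.baseChange_tmul, h1BC_tmul]
    rfl

lemma h1BC_act (P : MvPolynomial (Idx S) O) (v : R' ⊗[R] H1 (gam N M hM) (psiRep ψ R)) :
    h1BC hM ψ R' ((act (tw hM hS ψ η) (tw_comm hM hS ψ η) P).baseChange R' v) =
      act (tw hM hS (psiMap (algebraMap R R') ψ) (psiMap (algebraMap R R') η))
        (tw_comm hM hS _ _) P (h1BC hM ψ R' v) := by
  induction v using TensorProduct.induction_on with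
  | zero => simp only [map_zero]
  | add a b ha hb => rw [map_add, map_add, ha, hb, map_add, map_add]
  | tmul r x =>
    rw [LinearMap.baseChange_tmul, h1BC_tmul, h1BC_tmul, map_smul,
      h1S_act hM hS ψ η (algebraMap R R')
        (fun a => (IsScalarTower.algebraMap_apply O R R' a).symm)]

include hg hψ in
/-- **Base change for the localised modules.** -/
theorem mBC_bijective [NeZero M] (he : IsLocIdem (tw hM hS ψ η) (tw_comm hM hS ψ η) θ e) :
    Function.Bijective (mBC (e := e) hM hS ψ η R') := by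
  constructor
  · rw [injective_iff_map_eq_zero]
    intro v hv
    have h1 : h1BC hM ψ R' ((MLoc hM hS ψ η e).subtype.baseChange R' v) = 0 := by
      rw [← mBC_coe, hv, Submodule.coe_zero]
    have h2 := (h1BC_bijective (R' := R') hM ψ hg hψ).1 (h1.trans (map_zero _).symm)
    have h3 : (locProj (tw hM hS ψ η) (tw_comm hM hS ψ η) e).baseChange R'
        ((MLoc hM hS ψ η e).subtype.baseChange R' v) = v :=
      baseChange_retract R' _ _ (locProj_comp_subtype he.idem) v
    rw [← h3, h2, map_zero]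
  · rintro ⟨y, hy⟩
    obtain ⟨v, rfl⟩ := (h1BC_bijective (R' := R') hM ψ hg hψ).2 y
    have h1 := (mem_loc (isLocIdem_bc hM hS ψ η hg hψ (algebraMap R R')
      (fun a => (IsScalarTower.algebraMap_apply O R R' a).symm) he).idem).mp hy
    refine ⟨(locProj (tw hM hS ψ η) (tw_comm hM hS ψ η) e).baseChange R' v, ?_⟩
    apply Subtype.ext
    have hc : (MLoc hM hS ψ η e).subtype ∘ₗ locProj (tw hM hS ψ η) (tw_comm hM hS ψ η) e =
        act (tw hM hS ψ η) (tw_comm hM hS ψ η) e := LinearMap.ext fun x => rfl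
    have h2 : (MLoc hM hS ψ η e).subtype.baseChange R'
        ((locProj (tw hM hS ψ η) (tw_comm hM hS ψ η) e).baseChange R' v) =
        (act (tw hM hS ψ η) (tw_comm hM hS ψ η) e).baseChange R' v := by
      rw [← hc]
      exact (baseChange_comp_apply R' _ _ v).symm
    rw [mBC_coe, h2, h1BC_act, h1]

end Alg

end LocBC

end Fermat.Agent.H70.Mod
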