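import Mathlib
import Fermat.Agent.H4EACore
import Fermat.Agent.H4EATr
import Fermat.Agent.H70Mod

/-!
# ML-EA : eigen-analysis at Taylor–Wiles primes, at the primes of `T` and at `q₀`
(MODLIFT, helper4)

Setting: `𝒪'` complete discrete valuation ring of characteristic zero, residue characteristic
`p ≠ 2`; `η : (ZMod N')ˣ →* 𝒪'ˣ` of odd order; `x ∈ H¹(Γ₀(M), 𝒪'_{η²})` non-torsion with
`η(ℓ)⁻¹ T_ℓ x = lam ℓ • x` for `ℓ ∉ S`; `ρ` attached to `lam`.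

* `EA_unipotent`, `EA_unipotent'` : `q ∥ M`, `η` trivial at `q` ⟹ `ρ` unipotent at `q`;
* `EA_not_unipotent` : `q ∣ N'`, `η` non-trivial at `q` ⟹ `ρ` not unipotent at `q`;
* `EA_steinberg` : `q ∥ M`, `q ∤ N'`, both traces vanish ⟹ Steinberg Frobenius at `q`.
-/

set_option autoImplicit false
set_option linter.style.haveILetI false
set_option linter.unusedSectionVars false

noncomputable section

open IsLocalRing Module TensorProduct Polynomial CongruenceSubgroup CuspForm ModularCurve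
  AlgebraicCurve Fermat.Agent.H31 Fermat.Agent.H30 Fermat.Agent.H35 Fermat.Agent.H67
  Fermat.Agent.H62 Fermat.Agent.H94.BR Fermat.Agent.H70.Coh Fermat.Agent.H21J
  Fermat.Agent.H70.Mod

namespace Fermat.Agent.H4

/-- The geometric inputs at the prime `p`: (S34)-, (S35)-, (S36)-type statements. -/
structure GeomInputs (p : ℕ) : Prop where
  uni : ∀ (q M : ℕ) [NeZero M] [NeZero (M * q)] [NeZero q], q.Prime → q ≠ p → ¬ q ∣ M →
    UnipotentTorsion p q (JZero (M * q))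
  star : ∀ (q M : ℕ) [NeZero M] [NeZero (M * q)] [NeZero q], q.Prime → q ≠ p → ¬ q ∣ M →
    StarInput p q M
  fixed : ∀ (q M : ℕ) [NeZero M] [NeZero (M * q)] [NeZero (M * q * q)] [NeZero q], q.Prime →
    q ≠ p → ¬ q ∣ M → FixedInput p q (M * q)

/-! ### Denominators -/

section Denom

variable {O : Type} [CommRing O] [IsDomain O] {K : Type} [Field K] [Algebra O K]
  [IsFractionRing O K]

/-- a non-torsion class stays non-zero over the fraction field -/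
theorem h1S_ne_zero {N M : ℕ} (hM : N ∣ M) (ψ : (ZMod N)ˣ →* Oˣ)
    {x : H1 (gam N M hM) (psiRep ψ O)} (hx : ∀ c : O, c ≠ 0 → c • x ≠ 0) :
    h1S hM ψ (algebraMap O K) x ≠ 0 := by
  intro h
  obtain ⟨c, rfl⟩ := Submodule.mkQ_surjective _ x
  have h' : H1.mk (gam N M hM) (psiRep (psiMap (algebraMap O K) ψ) K)
    (z1S hM ψ (algebraMap O K) c) = 0 := h
  rw [Submodule.mkQ_apply, Submodule.Quotient.mk_eq_zero] at h'
  obtain ⟨v, hv⟩ := h'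
  obtain ⟨⟨a, d⟩, hd⟩ := IsLocalization.surj (nonZeroDivisors O) v
  have hd0 : (d : O) ≠ 0 := nonZeroDivisors.ne_zero d.2
  apply hx d hd0
  have h1 : (d : O) • c = cob (gam N M hM) (psiRep ψ O) a := by
    apply Subtype.ext
    funext γ
    apply IsFractionRing.injective O K
    have h2 : (z1S hM ψ (algebraMap O K) ((d : O) • c)).1 γ =
        (z1S hM ψ (algebraMap O K) (cob (gam N M hM) (psiRep ψ O) a)).1 γ := by
      rw [map_smulₛₗ, z1S_cob, ← hv]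
      have h3 : algebraMap O K a = (algebraMap O K d) • v := by
        rw [← hd, smul_eq_mul, mul_comm]
      rw [h3, map_smul]
    exact h2
  show (d : O) • H1.mk (gam N M hM) (psiRep ψ O) c = 0
  rw [← map_smul, h1, Submodule.mkQ_apply, Submodule.Quotient.mk_eq_zero]
  exact ⟨a, rfl⟩

/-- clearing denominators of homomorphisms -/
theorem exists_integral_hom {L : ℕ} [NeZero L] (φ : Additive (Gamma0 L) →+ K) :
    ∃ (c : O) (ψ : Additive (Gamma0 L) →+ O), c ≠ 0 ∧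
      ∀ γ, algebraMap O K (ψ γ) = algebraMap O K c * φ γ := by
  classical
  have h0 : AddGroup.FG (Additive (Gamma0 L)) := GroupFG.iff_add_fg.1 inferInstance
  obtain ⟨S, hS⟩ := (AddGroup.fg_iff_addSubgroup_fg _).mp (AddGroup.fg_range φ)
  obtain ⟨b, hb⟩ := IsLocalization.exist_integer_multiples_of_finset (nonZeroDivisors O) S
  have hb0 : (b : O) ≠ 0 := nonZeroDivisors.ne_zero b.2
  have hmem : ∀ γ, ∃ r : O, algebraMap O K r = algebraMap O K b * φ γ := by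
    intro γ
    have h1 : φ.range ≤ ((algebraMap O K).toAddMonoidHom.range).comap
        (AddMonoidHom.mulLeft (algebraMap O K b)) := by
      rw [← hS, AddSubgroup.closure_le]
      intro a ha
      obtain ⟨r, hr⟩ := hb a ha
      refine ⟨r, ?_⟩
      change algebraMap O K r = algebraMap O K b * a
      rw [hr, Algebra.smul_def]
    obtain ⟨r, hr⟩ := h1 ⟨γ, rfl⟩
    exact ⟨r, hr⟩
  choose r hr using hmem
  refine ⟨b, AddMonoidHom.mk' r fun a c => ?_, hb0, hr⟩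
  apply IsFractionRing.injective O K
  rw [map_add, hr, hr, hr, map_add, mul_add]

/-- A nonzero eigenclass with coefficients in the fraction field gives a nonzero integral
eigenclass; all families killing the first kill the second. -/
theorem exists_isEigHom {L : ℕ} [NeZero L] {S : Finset ℕ} {lam : ℕ → O}
    {y : H1 (gam 1 L (one_dvd L)) (psiRep (1 : (ZMod 1)ˣ →* Kˣ) K)} (hy : y ≠ 0)
    (hT : ∀ (ℓ : ℕ) (hℓ : ℓ.Prime) (hℓL : ¬ ℓ ∣ L), ℓ ∉ S →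
      (tFam (one_dvd L) hℓ hℓL).opH (psiRep (1 : (ZMod 1)ˣ →* Kˣ) K) y =
        algebraMap O K (lam ℓ) • y) :
    ∃ φ : Additive (Gamma0 L) →+ O, φ ≠ 0 ∧ IsEigHom L S lam φ ∧
      ∀ (L' : ℕ) (h : HFam (gm L) (gm L')), h.opH (psiRep (1 : (ZMod 1)ˣ →* Kˣ) K) y = 0 →
        homOp O h φ = 0 := by
  obtain ⟨φK, rfl⟩ := (homH1 (one_dvd L) K K).surjective y
  obtain ⟨c, φ, hc, hφ⟩ := exists_integral_hom (O := O) φK
  have hc' : algebraMap O K c ≠ 0 := by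
    rw [Ne, IsFractionRing.to_map_eq_zero_iff]
    exact hc
  have hφ' : (algebraMap O K).toAddMonoidHom.comp φ = algebraMap O K c • φK :=
    AddMonoidHom.ext hφ
  have hinj : ∀ {L' : ℕ} {f g : Additive (Gamma0 L') →+ O},
      (algebraMap O K).toAddMonoidHom.comp f = (algebraMap O K).toAddMonoidHom.comp g →
      f = g := by
    intro L' f g h
    refine AddMonoidHom.ext fun γ => ?_
    apply IsFractionRing.injective O K
    exact DFunLike.congr_fun h γ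
  refine ⟨φ, ?_, ?_, ?_⟩
  · rintro rfl
    apply hy
    have h1 : algebraMap O K c • φK = 0 := by
      rw [← hφ']
      exact AddMonoidHom.ext fun γ => map_zero (algebraMap O K)
    rw [(smul_eq_zero.mp h1).resolve_left hc', map_zero]
  · intro ℓ _ hℓL hℓS
    apply hinj
    have h1 := hT ℓ Fact.out hℓL hℓS
    rw [homH1_heckeHom, ← map_smul] at h1
    have h2 := (homH1 (one_dvd L) K K).injective h1
    rw [← heckeHom_comp, hφ', heckeHom_smul, h2]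
    refine AddMonoidHom.ext fun γ => ?_
    change algebraMap O K c • (algebraMap O K (lam ℓ) • φK γ) =
      algebraMap O K (lam ℓ * φ γ)
    rw [map_mul, hφ, smul_eq_mul, smul_eq_mul]
    ring
  · intro L' h hh
    apply hinj
    have h1 := opH_homH1 (R := K) (one_dvd L) (one_dvd L') h h (Equiv.refl _) (fun _ => rfl) φK
    rw [hh] at h1
    have h2 : homOp K h φK = 0 := by
      rw [← LinearEquiv.map_eq_zero_iff (homH1 (one_dvd L') K K)]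
      exact h1.symm
    rw [← homOp_map, hφ', homOp_smul, h2, smul_zero]
    exact AddMonoidHom.ext fun γ => (map_zero (algebraMap O K)).symm

end Denom

/-! ### Twist embeddings with an arbitrary coefficient character -/

section Emb

variable {K : Type*} [Field K] [CharZero K]

theorem exists_emb {N M L : ℕ} (hsq : Squarefree N) (hM0 : 0 < M)
    (hex : ∀ q : ℕ, q.Prime → q ∣ N → ¬ q * q ∣ M) (hM : N ∣ M) (hL : L = M * N)
    (ψ χ : (ZMod N)ˣ →* Kˣ) (hψ : ψ = χ ^ 2) {m : ℕ} (hm : Odd m) (hχ : χ ^ m = 1) :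
    ∃ E : H1 (gam N M hM) (psiRep ψ K) →ₗ[K]
        H1 (gam 1 L (one_dvd L)) (psiRep (1 : (ZMod 1)ˣ →* Kˣ) K),
      TwEmb hM (one_dvd L) (psiRep ψ K) (psiRep 1 K) χ E := by
  subst hψ
  exact exists_twist_embedding hsq hM0 hex hM hL χ hm hχ

theorem exists_emb_new {N₁ q N M L : ℕ} (hq : q.Prime) (hN : N = N₁ * q)
    (hsq : Squarefree N) (hM0 : 0 < M)
    (hex : ∀ q : ℕ, q.Prime → q ∣ N → ¬ q * q ∣ M) (hM : N ∣ M) (hL : L = M * N)
    (ψ χ : (ZMod N)ˣ →* Kˣ) (hψ : ψ = χ ^ 2) {m : ℕ} (hm : Odd m) (hχ : χ ^ m = 1)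
    (u : (ZMod N)ˣ) (hu1 : ZMod.unitsMap (hN ▸ Dvd.intro q rfl) u = (1 : (ZMod N₁)ˣ))
    (hu : χ u ≠ 1) :
    ∃ E : H1 (gam N M hM) (psiRep ψ K) →ₗ[K]
        H1 (gam 1 L (one_dvd L)) (psiRep (1 : (ZMod 1)ˣ →* Kˣ) K),
      TwEmb hM (one_dvd L) (psiRep ψ K) (psiRep 1 K) χ E ∧
      ∀ x, IsQNew (one_dvd L) (psiRep 1 K) q hq.pos (E x) := by
  subst hψ
  exact exists_twist_new hq hN hsq hM0 hex hM hL χ hm hχ u hu1 hu

end Emb

/-! ### The main theorems -/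

section Main

variable {p : ℕ} [Fact p.Prime] {S : Finset ℕ}
    {𝒪' : Type} [CommRing 𝒪'] [IsDomain 𝒪'] [IsDiscreteValuationRing 𝒪']
    [IsAdicComplete (IsLocalRing.maximalIdeal 𝒪') 𝒪'] [Finite (IsLocalRing.ResidueField 𝒪')]
    [CharZero 𝒪']

/-- the eigenvalues of `T_ℓ` on the class over the fraction field -/
theorem tFam_h1S_of_tw {N' M : ℕ} (hM : N' ∣ M) (hS : Away M (↑S : Set ℕ))
    (η : (ZMod N')ˣ →* 𝒪'ˣ) {lam : ℕ → 𝒪'} {x : H1 (gam N' M hM) (psiRep (η ^ 2) 𝒪')}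
    (hT : ∀ i : Idx (↑S : Set ℕ), Fermat.Agent.H70.Mod.tw hM hS (η ^ 2) η i x = lam i.1 • x)
    {ℓ : ℕ} (hℓ : ℓ.Prime) (hℓS : ℓ ∉ S) (hℓM : ¬ ℓ ∣ M) (hc : ℓ.Coprime N') :
    (tFam hM hℓ hℓM).opH (psiRep (psiMap (algebraMap 𝒪' (FractionRing 𝒪')) (η ^ 2))
        (FractionRing 𝒪')) (h1S hM (η ^ 2) (algebraMap 𝒪' (FractionRing 𝒪')) x) =
      ((psiMap (algebraMap 𝒪' (FractionRing 𝒪')) η (ZMod.unitOfCoprime ℓ hc) :
        (FractionRing 𝒪')ˣ) : FractionRing 𝒪') •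
      (algebraMap 𝒪' (FractionRing 𝒪') (lam ℓ) •
        h1S hM (η ^ 2) (algebraMap 𝒪' (FractionRing 𝒪')) x) := by
  have h1 := hT ⟨ℓ, hℓ, by simpa using hℓS⟩
  rw [Fermat.Agent.H70.Mod.tw_apply] at h1
  set i : Idx (↑S : Set ℕ) := ⟨ℓ, hℓ, by simpa using hℓS⟩ with hi
  have h2 : (tFam hM hℓ hℓM).opH (psiRep (η ^ 2) 𝒪') x =
      ((η (ZMod.unitOfCoprime ℓ hc) : 𝒪'ˣ) : 𝒪') • (lam ℓ • x) := by
    have h3 := congrArg (fun z => ((atIdx hM hS η i : 𝒪'ˣ) : 𝒪') • z) h1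
    simp only [smul_smul, Units.mul_inv, one_smul] at h3
    rw [smul_smul]
    exact h3
  rw [opH_h1S, h2, map_smulₛₗ, map_smulₛₗ]
  rfl

theorem psiMap_pow {N : ℕ} {R R' : Type} [CommRing R] [CommRing R'] (f : R →+* R')
    (η : (ZMod N)ˣ →* Rˣ) (m : ℕ) : psiMap f (η ^ m) = (psiMap f η) ^ m := by
  ext u
  change f (((η u) ^ m : Rˣ) : R) = (((psiMap f η u) ^ m : R'ˣ) : R')
  rw [Units.val_pow_eq_pow_val, Units.val_pow_eq_pow_val, map_pow]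
  rfl

theorem psiMap_one {N : ℕ} {R R' : Type} [CommRing R] [CommRing R'] (f : R →+* R') :
    psiMap f (1 : (ZMod N)ˣ →* Rˣ) = 1 := by
  ext u
  change f ((1 : Rˣ) : R) = ((1 : R'ˣ) : R')
  rw [Units.val_one, map_one, Units.val_one]

/-- **(EA b)**, `q ∤ N'`: `ρ` is unipotent at `q ∥ M`. -/
theorem EA_unipotent (hp2 : p ≠ 2) (hpS : p ∈ S)
    (hp𝒪' : (p : 𝒪') ∈ IsLocalRing.maximalIdeal 𝒪') (G : GeomInputs p)
    {N' M : ℕ} (hsq : Squarefree N') (hM0 : 0 < M)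
    (hex : ∀ r : ℕ, r.Prime → r ∣ N' → ¬ r * r ∣ M) (hM : N' ∣ M) (hS : Away M (↑S : Set ℕ))
    (η : (ZMod N')ˣ →* 𝒪'ˣ) {m : ℕ} (hm : Odd m) (hη : η ^ m = 1)
    {lam : ℕ → 𝒪'} (ρ : GaloisRepAdic 𝒪') (hρ : IsAttached S lam ρ)
    (hirr : ρ.residual.IsIrreducible)
    {x : H1 (gam N' M hM) (psiRep (η ^ 2) 𝒪')} (hx : ∀ c : 𝒪', c ≠ 0 → c • x ≠ 0)
    (hT : ∀ i : Idx (↑S : Set ℕ), Fermat.Agent.H70.Mod.tw hM hS (η ^ 2) η i x = lam i.1 • x)
    {q : ℕ} (hq : q.Prime) (hqp : q ≠ p) (hqM : q ∣ M) (hqM2 : ¬ q * q ∣ M) (hqN : ¬ q ∣ N') :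
    ρ.IsUnipotentOnInertiaAt q := by
  obtain ⟨M₀, rfl⟩ : ∃ M₀, M = M₀ * q := by
    obtain ⟨M₀, h⟩ := hqM
    exact ⟨M₀, by rw [h, mul_comm]⟩
  have hqM₀ : ¬ q ∣ M₀ := fun h => hqM2 (Nat.mul_dvd_mul_right h q)
  have hM₀ : 0 < M₀ := Nat.pos_of_mul_pos_right hM0
  have hN'0 : 0 < N' := Nat.pos_of_ne_zero (fun h => not_squarefree_zero (h ▸ hsq))
  haveI : NeZero M₀ := ⟨hM₀.ne'⟩
  haveI : NeZero (M₀ * N') := ⟨(Nat.mul_pos hM₀ hN'0).ne'⟩
  haveI : NeZero q := ⟨hq.ne_zero⟩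
  haveI : NeZero (M₀ * N' * q) := ⟨(Nat.mul_pos (Nat.mul_pos hM₀ hN'0) hq.pos).ne'⟩
  let f := algebraMap 𝒪' (FractionRing 𝒪')
  obtain ⟨E, hE⟩ := exists_emb (K := FractionRing 𝒪') hsq hM0 hex hM
    (L := M₀ * N' * q) (by ring) (psiMap f (η ^ 2)) (psiMap f η) (psiMap_pow f η 2) hm
    (by rw [← psiMap_pow, hη, psiMap_one])
  obtain ⟨φ, hφ0, hφT, -⟩ := exists_isEigHom (O := 𝒪') (K := FractionRing 𝒪')
    (L := M₀ * N' * q) (S := S) (lam := lam) (y := E (h1S hM (η ^ 2) f x))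
    (by
      intro h
      exact h1S_ne_zero (K := FractionRing 𝒪') hM (η ^ 2) hx (hE.inj (h.trans (map_zero E).symm)))
    (by
      intro ℓ hℓ hℓL hℓS
      have hℓM : ¬ ℓ ∣ M₀ * q := fun h => hℓL (h.trans ⟨N', by ring⟩)
      have hc : ℓ.Coprime N' := (Nat.Prime.coprime_iff_not_dvd hℓ).mpr
        (fun h => hℓM (h.trans hM))
      have h1 := hE.T hℓ hℓM hℓL hc (h1S hM (η ^ 2) f x)
      rw [tFam_h1S_of_tw hM hS η hT hℓ hℓS hℓM hc, map_smul, map_smul] at h1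
      exact (smul_right_injective _ (Units.ne_zero _) h1).symm)
  exact hφT.isUnipotent hp2 hpS hp𝒪' ρ hρ hirr
    (fun r hr hrL => by
      have h2 : r ∣ M₀ * q := by
        rcases hr.dvd_mul.mp hrL with h | h
        · rcases hr.dvd_mul.mp h with h | h
          · exact h.mul_right q
          · exact h.trans hM
        · exact h.mul_left M₀
      simpa using hS r hr h2)
    hφ0 hq hqp (G.uni q (M₀ * N') hq hqp
      (fun h => (hq.dvd_mul.mp h).elim hqM₀ hqN))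

/-- **(EA b)**, `q ∣ N'`, `η` trivial at `q`: `ρ` is unipotent at `q`. -/
theorem EA_unipotent' (hp2 : p ≠ 2) (hpS : p ∈ S)
    (hp𝒪' : (p : 𝒪') ∈ IsLocalRing.maximalIdeal 𝒪') (G : GeomInputs p)
    {N' N₁ M : ℕ} (hsq : Squarefree N') (hM0 : 0 < M)
    (hex : ∀ r : ℕ, r.Prime → r ∣ N' → ¬ r * r ∣ M) (hM : N' ∣ M) (hS : Away M (↑S : Set ℕ))
    (η : (ZMod N')ˣ →* 𝒪'ˣ) {m : ℕ} (hm : Odd m) (hη : η ^ m = 1)
    {lam : ℕ → 𝒪'} (ρ : GaloisRepAdic 𝒪') (hρ : IsAttached S lam ρ)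
    (hirr : ρ.residual.IsIrreducible)
    {x : H1 (gam N' M hM) (psiRep (η ^ 2) 𝒪')} (hx : ∀ c : 𝒪', c ≠ 0 → c • x ≠ 0)
    (hT : ∀ i : Idx (↑S : Set ℕ), Fermat.Agent.H70.Mod.tw hM hS (η ^ 2) η i x = lam i.1 • x)
    {q : ℕ} (hq : q.Prime) (hqp : q ≠ p) (hN : N' = N₁ * q)
    (hη1 : ∀ u : (ZMod N')ˣ, ZMod.unitsMap (hN ▸ Dvd.intro q rfl) u = (1 : (ZMod N₁)ˣ) →
      η u = 1) :
    ρ.IsUnipotentOnInertiaAt q := by
  have hN₁ : N₁ ∣ N' := hN ▸ Dvd.intro q rfl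
  have hN'0 : N' ≠ 0 := fun h => not_squarefree_zero (h ▸ hsq)
  haveI : NeZero N' := ⟨hN'0⟩
  have hsurj : Function.Surjective (ZMod.unitsMap hN₁) := ZMod.unitsMap_surjective hN₁
  obtain ⟨η₁, hη₁⟩ : ∃ η₁ : (ZMod N₁)ˣ →* 𝒪'ˣ, η₁.comp (ZMod.unitsMap hN₁) = η := by
    have hker : (ZMod.unitsMap hN₁).ker ≤ η.ker := fun u hu => hη1 u hu
    exact ⟨(ZMod.unitsMap hN₁).liftOfRightInverse _ (Function.rightInverse_surjInv hsurj)
      ⟨η, hker⟩, (ZMod.unitsMap hN₁).liftOfRightInverse_comp _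
        (Function.rightInverse_surjInv hsurj) ⟨η, hker⟩⟩
  have hqN₁ : ¬ q ∣ N₁ := by
    intro h
    rw [hN] at hsq
    have h1 := hsq q (Nat.mul_dvd_mul_right h q)
    exact hq.one_lt.ne' (Nat.isUnit_iff.mp h1)
  have hψ : η ^ 2 = (η₁ ^ 2).comp (ZMod.unitsMap hN₁) := by
    rw [← hη₁]
    rfl
  have hM₂ : N₁ ∣ M := hN₁.trans hM
  refine EA_unipotent hp2 hpS hp𝒪' G (N' := N₁) (hsq.squarefree_of_dvd hN₁) hM0
    (fun r hr hrN => hex r hr (hrN.trans hN₁)) hM₂ hS η₁ hm ?_ ρ hρ hirr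
    (x := h1Lev hN₁ hM hM₂ hψ 𝒪' x) ?_ ?_ hq hqp ?_ ?_ hqN₁
  · ext1 u
    obtain ⟨v, rfl⟩ := hsurj u
    have h1 := DFunLike.congr_fun hη v
    rw [← hη₁] at h1
    exact h1
  · intro c hc h
    rw [← map_smul, LinearEquiv.map_eq_zero_iff] at h
    exact hx c hc h
  · intro i
    rw [Fermat.Agent.H70.Mod.tw_apply]
    have h1 := hT i
    rw [Fermat.Agent.H70.Mod.tw_apply] at h1
    have h2 : atIdx hM hS η i = atIdx hM₂ hS η₁ i := by
      change η _ = η₁ _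
      rw [← hη₁]
      change η₁ (ZMod.unitsMap hN₁ _) = η₁ _
      rw [unitsMap_coprime hN₁ _ (coprime_of_not_dvd i.2.1 (hS.not_dvd i) hM₂)]
    change (((atIdx hM₂ hS η₁ i)⁻¹ : 𝒪'ˣ) : 𝒪') •
      (tFam hM₂ i.2.1 (hS.not_dvd i)).opH (psiRep (η₁ ^ 2) 𝒪') (h1Lev hN₁ hM hM₂ hψ 𝒪' x) = _
    rw [tFam_h1Lev, ← h2, ← map_smul]
    exact (congrArg (h1Lev hN₁ hM hM₂ hψ 𝒪') h1).trans (map_smul _ _ _)
  · exact (hN ▸ Dvd.intro_left N₁ rfl : q ∣ N').trans hM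
  · exact hex q hq (hN ▸ Dvd.intro_left N₁ rfl)

/-- **(EA a)**: `η` non-trivial at `q ∣ N'`: `ρ` is not unipotent at `q`. -/
theorem EA_not_unipotent (hp2 : p ≠ 2) (hpS : p ∈ S)
    (hp𝒪' : (p : 𝒪') ∈ IsLocalRing.maximalIdeal 𝒪') (G : GeomInputs p)
    {N' N₁ M : ℕ} (hsq : Squarefree N') (hM0 : 0 < M)
    (hex : ∀ r : ℕ, r.Prime → r ∣ N' → ¬ r * r ∣ M) (hM : N' ∣ M) (hS : Away M (↑S : Set ℕ))
    (η : (ZMod N')ˣ →* 𝒪'ˣ) {m : ℕ} (hm : Odd m) (hη : η ^ m = 1)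
    {lam : ℕ → 𝒪'} (ρ : GaloisRepAdic 𝒪') (hρ : IsAttached S lam ρ)
    (hirr : ρ.residual.IsIrreducible)
    {x : H1 (gam N' M hM) (psiRep (η ^ 2) 𝒪')} (hx : ∀ c : 𝒪', c ≠ 0 → c • x ≠ 0)
    (hT : ∀ i : Idx (↑S : Set ℕ), Fermat.Agent.H70.Mod.tw hM hS (η ^ 2) η i x = lam i.1 • x)
    {q : ℕ} (hq : q.Prime) (hqp : q ≠ p) (hN : N' = N₁ * q)
    (u : (ZMod N')ˣ) (hu1 : ZMod.unitsMap (hN ▸ Dvd.intro q rfl) u = (1 : (ZMod N₁)ˣ))
    (hu : η u ≠ 1) :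
    ¬ ρ.IsUnipotentOnInertiaAt q := by
  have hN₁ : N₁ ∣ N' := hN ▸ Dvd.intro q rfl
  have hqN' : q ∣ N' := hN ▸ Dvd.intro_left N₁ rfl
  have hN'0 : N' ≠ 0 := fun h => not_squarefree_zero (h ▸ hsq)
  have hN₁0 : 0 < N₁ := Nat.pos_of_ne_zero (fun h => hN'0 (by rw [hN, h, zero_mul]))
  have hqN₁ : ¬ q ∣ N₁ := by
    intro h
    rw [hN] at hsq
    have h1 := hsq q (Nat.mul_dvd_mul_right h q)
    exact hq.one_lt.ne' (Nat.isUnit_iff.mp h1)
  obtain ⟨M₀, rfl⟩ : ∃ M₀, M = M₀ * q := by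
    obtain ⟨M₀, h⟩ := hqN'.trans hM
    exact ⟨M₀, by rw [h, mul_comm]⟩
  have hqM₀ : ¬ q ∣ M₀ := fun h => hex q hq hqN' (Nat.mul_dvd_mul_right h q)
  have hM₀ : 0 < M₀ := Nat.pos_of_mul_pos_right hM0
  haveI : NeZero q := ⟨hq.ne_zero⟩
  haveI : NeZero (M₀ * N₁) := ⟨(Nat.mul_pos hM₀ hN₁0).ne'⟩
  haveI : NeZero (M₀ * N₁ * q) := ⟨(Nat.mul_pos (Nat.mul_pos hM₀ hN₁0) hq.pos).ne'⟩
  haveI : NeZero (M₀ * N₁ * q * q) :=
    ⟨(Nat.mul_pos (Nat.mul_pos (Nat.mul_pos hM₀ hN₁0) hq.pos) hq.pos).ne'⟩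
  let f := algebraMap 𝒪' (FractionRing 𝒪')
  obtain ⟨E, hE, hnew⟩ := exists_emb_new (K := FractionRing 𝒪') hq hN hsq hM0 hex hM
    (L := M₀ * N₁ * q * q) (by rw [hN]; ring) (psiMap f (η ^ 2)) (psiMap f η) (psiMap_pow f η 2) hm
    (by rw [← psiMap_pow, hη, psiMap_one]) u hu1 (by
      intro h
      apply hu
      apply Units.ext
      apply IsFractionRing.injective 𝒪' (FractionRing 𝒪')
      have h2 := congrArg Units.val h
      change f ((η u : 𝒪'ˣ) : 𝒪') = 1 at h2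
      exact h2.trans (by rw [Units.val_one, map_one]))
  obtain ⟨φ, hφ0, hφT, hφF⟩ := exists_isEigHom (O := 𝒪') (K := FractionRing 𝒪')
    (L := M₀ * N₁ * q * q) (S := S) (lam := lam) (y := E (h1S hM (η ^ 2) f x))
    (by
      intro h
      exact h1S_ne_zero (K := FractionRing 𝒪') hM (η ^ 2) hx (hE.inj (h.trans (map_zero E).symm)))
    (by
      intro ℓ hℓ hℓL hℓS
      have hℓM : ¬ ℓ ∣ M₀ * q := fun h => hℓL (h.trans ⟨N₁ * q, by ring⟩)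
      have hc : ℓ.Coprime N' := (Nat.Prime.coprime_iff_not_dvd hℓ).mpr
        (fun h => hℓM (h.trans hM))
      have h1 := hE.T hℓ hℓM hℓL hc (h1S hM (η ^ 2) f x)
      rw [tFam_h1S_of_tw hM hS η hT hℓ hℓS hℓM hc, map_smul, map_smul] at h1
      exact (smul_right_injective _ (Units.ne_zero _) h1).symm)
  have hq1 := hnew (h1S hM (η ^ 2) f x)
  have hqL : q ∣ M₀ * N₁ * q := dvd_mul_left q _
  refine hφT.not_isUnipotent hp2 hpS hp𝒪' ρ hρ hirr hq hqp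
    (fun r hr hrL => ?_) hφ0 (G.fixed q (M₀ * N₁) hq hqp
      (fun h => (hq.dvd_mul.mp h).elim hqM₀ hqN₁)) (hφF _ _ ?_) (hφF _ _ ?_)
  · have h2 : r ∣ M₀ * q := by
      rcases hr.dvd_mul.mp hrL with h | h
      · rcases hr.dvd_mul.mp h with h | h
        · rcases hr.dvd_mul.mp h with h | h
          · exact h.mul_right q
          · exact (h.trans hN₁).trans hM
        · exact h.mul_left M₀
      · exact h.mul_left M₀
    simpa using hS r hr h2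
  · have h3 := hq1.tr (L := M₀ * N₁ * q) (one_dvd _) rfl (NeZero.pos _) hqL
    exact (LinearMap.congr_fun (ctrFam_eq (one_dvd (M₀ * N₁ * q)) hq.pos hqL) _).symm.trans h3
  · have h3 := hq1.beta (L := M₀ * N₁ * q) (one_dvd _) rfl hqL
    exact (LinearMap.congr_fun (betaFam_eq (one_dvd (M₀ * N₁ * q)) hq hqL) _).symm.trans h3

/-- **(EA c)**: Steinberg Frobenius at `q ∥ M`, `q ∤ N'`, if both traces of `x` vanish. -/
theorem EA_steinberg (hp2 : p ≠ 2) (hpS : p ∈ S)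
    (hp𝒪' : (p : 𝒪') ∈ IsLocalRing.maximalIdeal 𝒪') (G : GeomInputs p)
    {N' M₀ q : ℕ} [NeZero M₀] [NeZero q] (hsq : Squarefree N')
    (hex : ∀ r : ℕ, r.Prime → r ∣ N' → ¬ r * r ∣ M₀) (hM : N' ∣ M₀)
    (hS : Away (M₀ * q) (↑S : Set ℕ))
    (η : (ZMod N')ˣ →* 𝒪'ˣ) {m : ℕ} (hm : Odd m) (hη : η ^ m = 1)
    {lam : ℕ → 𝒪'} (ρ : GaloisRepAdic 𝒪') (hρ : IsAttached S lam ρ)
    (hirr : ρ.residual.IsIrreducible)
    {x : H1 (gam N' (M₀ * q) (dvd_mul_q hM)) (psiRep (η ^ 2) 𝒪')}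
    (hx : ∀ c : 𝒪', c ≠ 0 → c • x ≠ 0)
    (hT : ∀ i : Idx (↑S : Set ℕ),
      Fermat.Agent.H70.Mod.tw (dvd_mul_q hM) hS (η ^ 2) η i x = lam i.1 • x)
    (hq : q.Prime) (hqp : q ≠ p) (hqM : ¬ q ∣ M₀)
    (h1 : (trFam hM).opH (psiRep (η ^ 2) 𝒪') x = 0)
    (h2 : (nuFam hM hq).opH (psiRep (η ^ 2) 𝒪') x = 0) :
    ∃ u : 𝒪', (u = 1 ∨ u = -1) ∧
      ∀ (A : ValuationSubring (AlgebraicClosure ℚ)) (_ : A.LiesOverPrime q)
        (σ : H53.GQ) (_ : A.IsFrobeniusAt σ q),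
        LinearMap.charpoly (ρ.ρ σ) = (X - C u) * (X - C (u * (q : 𝒪'))) := by
  have hM₀ : 0 < M₀ := NeZero.pos M₀
  have hN'0 : 0 < N' := Nat.pos_of_ne_zero (fun h => not_squarefree_zero (h ▸ hsq))
  have hqN : ¬ q ∣ N' := fun h => hqM (h.trans hM)
  have hqM' : ¬ q ∣ M₀ * N' := fun h => (hq.dvd_mul.mp h).elim hqM hqN
  haveI : NeZero (M₀ * N') := ⟨(Nat.mul_pos hM₀ hN'0).ne'⟩
  haveI : NeZero (M₀ * N' * q) := ⟨(Nat.mul_pos (Nat.mul_pos hM₀ hN'0) hq.pos).ne'⟩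
  let f := algebraMap 𝒪' (FractionRing 𝒪')
  have hexq : ∀ r : ℕ, r.Prime → r ∣ N' → ¬ r * r ∣ M₀ * q := by
    intro r hr hrN h
    have hne : r ≠ q := by
      rintro rfl
      exact hqN hrN
    have hcop : (r * r).Coprime q := by
      have := (Nat.coprime_primes hr hq).mpr hne
      exact Nat.Coprime.mul_left this this
    exact hex r hr hrN (hcop.dvd_of_dvd_mul_right h)
  obtain ⟨E, hE⟩ := exists_emb (K := FractionRing 𝒪') hsq (Nat.mul_pos hM₀ hq.pos) hexq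
    (dvd_mul_q hM) (L := M₀ * N' * q) (by ring) (psiMap f (η ^ 2)) (psiMap f η)
    (psiMap_pow f η 2) hm (by rw [← psiMap_pow, hη, psiMap_one])
  obtain ⟨φ, hφ0, hφT, hφF⟩ := exists_isEigHom (O := 𝒪') (K := FractionRing 𝒪')
    (L := M₀ * N' * q) (S := S) (lam := lam)
    (y := E (h1S (dvd_mul_q hM) (η ^ 2) f x))
    (by
      intro h
      exact h1S_ne_zero (K := FractionRing 𝒪') (dvd_mul_q hM) (η ^ 2) hx
        (hE.inj (h.trans (map_zero E).symm)))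
    (by
      intro ℓ hℓ hℓL hℓS
      have hℓM : ¬ ℓ ∣ M₀ * q := fun h => hℓL (h.trans ⟨N', by ring⟩)
      have hc : ℓ.Coprime N' := (Nat.Prime.coprime_iff_not_dvd hℓ).mpr
        (fun h => hℓM (h.trans (dvd_mul_q hM)))
      have h1 := hE.T hℓ hℓM hℓL hc (h1S (dvd_mul_q hM) (η ^ 2) f x)
      rw [tFam_h1S_of_tw (dvd_mul_q hM) hS η hT hℓ hℓS hℓM hc, map_smul, map_smul] at h1
      exact (smul_right_injective _ (Units.ne_zero _) h1).symm)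
  have hqN1 : q.Coprime N' := (Nat.Prime.coprime_iff_not_dvd hq).mpr hqN
  have hs : ScalBy (psiRep (psiMap f (η ^ 2)) (FractionRing 𝒪')) hq.pos hqN1
      (((psiMap f η (ZMod.unitOfCoprime q hqN1)) ^ 2 : (FractionRing 𝒪')ˣ) : FractionRing 𝒪') := by
    intro v
    have h5 : aUnit N' (Fermat.Agent.H37.Tr.scal N' hq.pos hqN1) =
        ZMod.unitOfCoprime q hqN1 := by
      apply Units.ext
      rw [aUnit_val, ZMod.coe_unitOfCoprime, Fermat.Agent.H37.Tr.scal_val]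
      simp
    rw [slash_psiRep, psiMap_pow, h5]
    rfl
  have hs' : Fermat.Agent.H37.Tr.ScalTriv
      (psiRep (1 : (ZMod 1)ˣ →* (FractionRing 𝒪')ˣ) (FractionRing 𝒪')) hq.pos
      (Nat.coprime_one_right q) := fun v => slash_psiRep_one _ _
  obtain ⟨h3, h4⟩ := traces_of_twEmb hM (one_dvd (M₀ * N')) hq hqM hqM' hqN1
    (Nat.coprime_one_right q) (E := E) hE hs hs' (h1S (dvd_mul_q hM) (η ^ 2) f x)
    (by rw [opH_h1S, h1, map_zero]) (by rw [opH_h1S, h2, map_zero])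
  exact hφT.exists_sign hp2 hpS hp𝒪' ρ hρ hirr hq hqp hqM'
    (fun r hr hrL => by
      have h2 : r ∣ M₀ * q := by
        rcases hr.dvd_mul.mp hrL with h | h
        · rcases hr.dvd_mul.mp h with h | h
          · exact h.mul_right q
          · exact h.trans (dvd_mul_q hM)
        · exact h.mul_left M₀
      simpa using hS r hr h2)
    hφ0 (G.star q (M₀ * N') hq hqp hqM') (hφF _ _ h3) (hφF _ _ h4)

end Main

end Fermat.Agent.H4

end
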