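import Mathlib
import Fermat.Agent.H4EA

/-!
# ML-EA, point form: classes over the fraction field (MODLIFT, helper4)

`K₁` the fraction field of `𝒪'`, `η : (ZMod N')ˣ →* K₁ˣ` of odd order,
`0 ≠ y ∈ H¹(Γ₀(M), K₁(η²))` with `T_ℓ y = η(ℓ) lam(ℓ) y` for `ℓ ∉ S`, `ρ` attached to `lam`.

* `EAa` : `η` non-trivial at `q ∣ N'` ⟹ `ρ` not unipotent at `q`;
* `EAb`, `EAb'` : `q ∥ M`, `η` trivial at `q` ⟹ `ρ` unipotent at `q`;
* `EAc` : `q ∥ M`, `q ∤ N'`, both traces vanish ⟹ Steinberg Frobenius at `q`.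
-/

set_option autoImplicit false
set_option linter.style.haveILetI false
set_option linter.unusedSectionVars false

noncomputable section

open IsLocalRing Module TensorProduct Polynomial CongruenceSubgroup CuspForm ModularCurve
  AlgebraicCurve Fermat.Agent.H31 Fermat.Agent.H30 Fermat.Agent.H35 Fermat.Agent.H67
  Fermat.Agent.H62 Fermat.Agent.H94.BR Fermat.Agent.H70.Coh Fermat.Agent.H21J

namespace Fermat.Agent.H4

/-- `y` is a Hecke eigenclass with `T_ℓ y = η(ℓ) lam(ℓ) y` for the primes `ℓ ∉ S`. -/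
def IsEigTw {𝒪' : Type} [CommRing 𝒪'] {K₁ : Type} [Field K₁] [Algebra 𝒪' K₁] {N' M : ℕ}
    (hM : N' ∣ M) (S : Finset ℕ) (lam : ℕ → 𝒪') (η ψ : (ZMod N')ˣ →* K₁ˣ)
    (y : H1 (gam N' M hM) (psiRep ψ K₁)) : Prop :=
  ∀ (ℓ : ℕ) (hℓ : ℓ.Prime) (hℓM : ¬ ℓ ∣ M) (hc : ℓ.Coprime N'), ℓ ∉ S →
    (tFam hM hℓ hℓM).opH (psiRep ψ K₁) y =
      (((η (ZMod.unitOfCoprime ℓ hc) : K₁ˣ) : K₁) * algebraMap 𝒪' K₁ (lam ℓ)) • y

section Main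

variable {p : ℕ} [Fact p.Prime] {S : Finset ℕ}
    {𝒪' : Type} [CommRing 𝒪'] [IsDomain 𝒪'] [IsDiscreteValuationRing 𝒪']
    [IsAdicComplete (IsLocalRing.maximalIdeal 𝒪') 𝒪'] [Finite (IsLocalRing.ResidueField 𝒪')]
    [CharZero 𝒪'] {K₁ : Type} [Field K₁] [Algebra 𝒪' K₁] [IsFractionRing 𝒪' K₁]

/-- the eigenvalues after a twist embedding -/
theorem IsEigTw.twEmb {N' M L : ℕ} {hM : N' ∣ M} {η ψ : (ZMod N')ˣ →* K₁ˣ} {lam : ℕ → 𝒪'}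
    {y : H1 (gam N' M hM) (psiRep ψ K₁)} (hT : IsEigTw hM S lam η ψ y) (hML : M ∣ L)
    {E : H1 (gam N' M hM) (psiRep ψ K₁) →ₗ[K₁]
        H1 (gam 1 L (one_dvd L)) (psiRep (1 : (ZMod 1)ˣ →* K₁ˣ) K₁)}
    (hE : TwEmb hM (one_dvd L) (psiRep ψ K₁) (psiRep 1 K₁) η E)
    (ℓ : ℕ) (hℓ : ℓ.Prime) (hℓL : ¬ ℓ ∣ L) (hℓS : ℓ ∉ S) :
      (tFam (one_dvd L) hℓ hℓL).opH (psiRep (1 : (ZMod 1)ˣ →* K₁ˣ) K₁) (E y) =
        algebraMap 𝒪' K₁ (lam ℓ) • E y := by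
  have hℓM : ¬ ℓ ∣ M := fun h => hℓL (h.trans hML)
  have hc : ℓ.Coprime N' := (Nat.Prime.coprime_iff_not_dvd hℓ).mpr (fun h => hℓM (h.trans hM))
  have h1 := hE.T hℓ hℓM hℓL hc y
  rw [hT ℓ hℓ hℓM hc hℓS, map_smul, mul_smul] at h1
  exact (smul_right_injective _ (Units.ne_zero _) h1).symm

/-- **(EA b)**, `q ∤ N'`: `ρ` is unipotent at `q ∥ M`. -/
theorem EAb (hp2 : p ≠ 2) (hpS : p ∈ S)
    (hp𝒪' : (p : 𝒪') ∈ IsLocalRing.maximalIdeal 𝒪') (G : GeomInputs p)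
    {N' M : ℕ} (hsq : Squarefree N') (hM0 : 0 < M)
    (hex : ∀ r : ℕ, r.Prime → r ∣ N' → ¬ r * r ∣ M) (hM : N' ∣ M)
    (hMS : ∀ r : ℕ, r.Prime → r ∣ M → r ∈ S)
    (η ψ : (ZMod N')ˣ →* K₁ˣ) (hψ : ψ = η ^ 2) {m : ℕ} (hm : Odd m) (hη : η ^ m = 1)
    {lam : ℕ → 𝒪'} (ρ : GaloisRepAdic 𝒪') (hρ : IsAttached S lam ρ)
    (hirr : ρ.residual.IsIrreducible)
    {y : H1 (gam N' M hM) (psiRep ψ K₁)} (hy : y ≠ 0) (hT : IsEigTw hM S lam η ψ y)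
    {q : ℕ} (hq : q.Prime) (hqp : q ≠ p) (hqM : q ∣ M) (hqM2 : ¬ q * q ∣ M) (hqN : ¬ q ∣ N') :
    ρ.IsUnipotentOnInertiaAt q := by
  haveI : CharZero K₁ := charZero_of_injective_algebraMap (IsFractionRing.injective 𝒪' K₁)
  obtain ⟨M₀, rfl⟩ : ∃ M₀, M = M₀ * q := by
    obtain ⟨M₀, h⟩ := hqM
    exact ⟨M₀, by rw [h, mul_comm]⟩
  have hqM₀ : ¬ q ∣ M₀ := fun h => hqM2 (Nat.mul_dvd_mul_right h q)
  have hM₀ : 0 < M₀ := Nat.pos_of_mul_pos_right hM0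
  have hN'0 : 0 < N' := Nat.pos_of_ne_zero (fun h => not_squarefree_zero (h ▸ hsq))
  haveI : NeZero M₀ := ⟨hM₀.ne'⟩
  haveI : NeZero (M₀ * N') := ⟨(Nat.mul_pos hM₀ hN'0).ne'⟩
  haveI : NeZero q := ⟨hq.ne_zero⟩
  haveI : NeZero (M₀ * N' * q) := ⟨(Nat.mul_pos (Nat.mul_pos hM₀ hN'0) hq.pos).ne'⟩
  obtain ⟨E, hE⟩ := exists_emb (K := K₁) hsq hM0 hex hM
    (L := M₀ * N' * q) (by ring) ψ η hψ hm hη
  obtain ⟨φ, hφ0, hφT, -⟩ := exists_isEigHom (O := 𝒪') (K := K₁)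
    (L := M₀ * N' * q) (S := S) (lam := lam) (y := E y)
    (fun h => hy (hE.inj (h.trans (map_zero E).symm)))
    (hT.twEmb ⟨N', by ring⟩ hE)
  exact hφT.isUnipotent hp2 hpS hp𝒪' ρ hρ hirr
    (fun r hr hrL => by
      refine hMS r hr ?_
      rcases hr.dvd_mul.mp hrL with h | h
      · rcases hr.dvd_mul.mp h with h | h
        · exact h.mul_right q
        · exact h.trans hM
      · exact h.mul_left M₀)
    hφ0 hq hqp (G.uni q (M₀ * N') hq hqp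
      (fun h => (hq.dvd_mul.mp h).elim hqM₀ hqN))

/-- **(EA b)**, `q ∣ N'`, `η` trivial at `q`: `ρ` is unipotent at `q`. -/
theorem EAb' (hp2 : p ≠ 2) (hpS : p ∈ S)
    (hp𝒪' : (p : 𝒪') ∈ IsLocalRing.maximalIdeal 𝒪') (G : GeomInputs p)
    {N' N₁ M : ℕ} (hsq : Squarefree N') (hM0 : 0 < M)
    (hex : ∀ r : ℕ, r.Prime → r ∣ N' → ¬ r * r ∣ M) (hM : N' ∣ M)
    (hMS : ∀ r : ℕ, r.Prime → r ∣ M → r ∈ S)
    (η ψ : (ZMod N')ˣ →* K₁ˣ) (hψ : ψ = η ^ 2) {m : ℕ} (hm : Odd m) (hη : η ^ m = 1)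
    {lam : ℕ → 𝒪'} (ρ : GaloisRepAdic 𝒪') (hρ : IsAttached S lam ρ)
    (hirr : ρ.residual.IsIrreducible)
    {y : H1 (gam N' M hM) (psiRep ψ K₁)} (hy : y ≠ 0) (hT : IsEigTw hM S lam η ψ y)
    {q : ℕ} (hq : q.Prime) (hqp : q ≠ p) (hN : N' = N₁ * q)
    (hη1 : ∀ u : (ZMod N')ˣ, ZMod.unitsMap (hN ▸ Dvd.intro q rfl) u = (1 : (ZMod N₁)ˣ) →
      η u = 1) :
    ρ.IsUnipotentOnInertiaAt q := by
  have hN₁ : N₁ ∣ N' := hN ▸ Dvd.intro q rfl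
  have hN'0 : N' ≠ 0 := fun h => not_squarefree_zero (h ▸ hsq)
  haveI : NeZero N' := ⟨hN'0⟩
  have hsurj : Function.Surjective (ZMod.unitsMap hN₁) := ZMod.unitsMap_surjective hN₁
  obtain ⟨η₁, hη₁⟩ : ∃ η₁ : (ZMod N₁)ˣ →* K₁ˣ, η₁.comp (ZMod.unitsMap hN₁) = η := by
    have hker : (ZMod.unitsMap hN₁).ker ≤ η.ker := fun u hu => hη1 u hu
    exact ⟨(ZMod.unitsMap hN₁).liftOfRightInverse _ (Function.rightInverse_surjInv hsurj)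
      ⟨η, hker⟩, (ZMod.unitsMap hN₁).liftOfRightInverse_comp _
        (Function.rightInverse_surjInv hsurj) ⟨η, hker⟩⟩
  have hqN₁ : ¬ q ∣ N₁ := by
    intro h
    rw [hN] at hsq
    have h1 := hsq q (Nat.mul_dvd_mul_right h q)
    exact hq.one_lt.ne' (Nat.isUnit_iff.mp h1)
  have hψ1 : ψ = (η₁ ^ 2).comp (ZMod.unitsMap hN₁) := by
    rw [hψ, ← hη₁]
    rfl
  have hM₂ : N₁ ∣ M := hN₁.trans hM
  refine EAb hp2 hpS hp𝒪' G (N' := N₁) (hsq.squarefree_of_dvd hN₁) hM0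
    (fun r hr hrN => hex r hr (hrN.trans hN₁)) hM₂ hMS η₁ (η₁ ^ 2) rfl hm ?_ ρ hρ hirr
    (y := h1Lev hN₁ hM hM₂ hψ1 K₁ y) ?_ ?_ hq hqp ?_ ?_ hqN₁
  · ext1 u
    obtain ⟨v, rfl⟩ := hsurj u
    have h1 := DFunLike.congr_fun hη v
    rw [← hη₁] at h1
    exact h1
  · intro h
    rw [LinearEquiv.map_eq_zero_iff] at h
    exact hy h
  · intro ℓ hℓ hℓM hc hℓS
    have hc' : ℓ.Coprime N' := (Nat.Prime.coprime_iff_not_dvd hℓ).mpr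
      (fun h => hℓM (h.trans hM))
    have h1 := hT ℓ hℓ hℓM hc' hℓS
    have h2 : η (ZMod.unitOfCoprime ℓ hc') = η₁ (ZMod.unitOfCoprime ℓ hc) := by
      rw [← hη₁]
      change η₁ (ZMod.unitsMap hN₁ _) = _
      rw [unitsMap_coprime hN₁ _ hc]
    rw [tFam_h1Lev, h1, map_smul, h2]
  · exact (hN ▸ Dvd.intro_left N₁ rfl : q ∣ N').trans hM
  · exact hex q hq (hN ▸ Dvd.intro_left N₁ rfl)

/-- **(EA a)**: `η` non-trivial at `q ∣ N'`: `ρ` is not unipotent at `q`. -/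
theorem EAa (hp2 : p ≠ 2) (hpS : p ∈ S)
    (hp𝒪' : (p : 𝒪') ∈ IsLocalRing.maximalIdeal 𝒪') (G : GeomInputs p)
    {N' N₁ M : ℕ} (hsq : Squarefree N') (hM0 : 0 < M)
    (hex : ∀ r : ℕ, r.Prime → r ∣ N' → ¬ r * r ∣ M) (hM : N' ∣ M)
    (hMS : ∀ r : ℕ, r.Prime → r ∣ M → r ∈ S)
    (η ψ : (ZMod N')ˣ →* K₁ˣ) (hψ : ψ = η ^ 2) {m : ℕ} (hm : Odd m) (hη : η ^ m = 1)
    {lam : ℕ → 𝒪'} (ρ : GaloisRepAdic 𝒪') (hρ : IsAttached S lam ρ)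
    (hirr : ρ.residual.IsIrreducible)
    {y : H1 (gam N' M hM) (psiRep ψ K₁)} (hy : y ≠ 0) (hT : IsEigTw hM S lam η ψ y)
    {q : ℕ} (hq : q.Prime) (hqp : q ≠ p) (hN : N' = N₁ * q)
    (u : (ZMod N')ˣ) (hu1 : ZMod.unitsMap (hN ▸ Dvd.intro q rfl) u = (1 : (ZMod N₁)ˣ))
    (hu : η u ≠ 1) :
    ¬ ρ.IsUnipotentOnInertiaAt q := by
  haveI : CharZero K₁ := charZero_of_injective_algebraMap (IsFractionRing.injective 𝒪' K₁)
  have hN₁ : N₁ ∣ N' := hN ▸ Dvd.intro q rfl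
  have hqN' : q ∣ N' := hN ▸ Dvd.intro_left N₁ rfl
  have hN'0 : N' ≠ 0 := fun h => not_squarefree_zero (h ▸ hsq)
  have hN₁0 : 0 < N₁ := Nat.pos_of_ne_zero (fun h => hN'0 (by rw [hN, h, zero_mul]))
  have hqN₁ : ¬ q ∣ N₁ := by
    intro h
    rw [hN] at hsq
    have h1 := hsq q (Nat.mul_dvd_mul_right h q)
    exact hq.one_lt.ne' (Nat.isUnit_iff.mp h1)
  obtain ⟨M₀, rfl⟩ : ∃ M₀, M = M₀ * q := by
    obtain ⟨M₀, h⟩ := hqN'.trans hM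
    exact ⟨M₀, by rw [h, mul_comm]⟩
  have hqM₀ : ¬ q ∣ M₀ := fun h => hex q hq hqN' (Nat.mul_dvd_mul_right h q)
  have hM₀ : 0 < M₀ := Nat.pos_of_mul_pos_right hM0
  haveI : NeZero q := ⟨hq.ne_zero⟩
  haveI : NeZero (M₀ * N₁) := ⟨(Nat.mul_pos hM₀ hN₁0).ne'⟩
  haveI : NeZero (M₀ * N₁ * q) := ⟨(Nat.mul_pos (Nat.mul_pos hM₀ hN₁0) hq.pos).ne'⟩
  haveI : NeZero (M₀ * N₁ * q * q) :=
    ⟨(Nat.mul_pos (Nat.mul_pos (Nat.mul_pos hM₀ hN₁0) hq.pos) hq.pos).ne'⟩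
  obtain ⟨E, hE, hnew⟩ := exists_emb_new (K := K₁) hq hN hsq hM0 hex hM
    (L := M₀ * N₁ * q * q) (by rw [hN]; ring) ψ η hψ hm hη u hu1 hu
  obtain ⟨φ, hφ0, hφT, hφF⟩ := exists_isEigHom (O := 𝒪') (K := K₁)
    (L := M₀ * N₁ * q * q) (S := S) (lam := lam) (y := E y)
    (fun h => hy (hE.inj (h.trans (map_zero E).symm)))
    (hT.twEmb ⟨N₁ * q, by ring⟩ hE)
  have hq1 := hnew y
  have hqL : q ∣ M₀ * N₁ * q := dvd_mul_left q _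
  refine hφT.not_isUnipotent hp2 hpS hp𝒪' ρ hρ hirr hq hqp
    (fun r hr hrL => ?_) hφ0 (G.fixed q (M₀ * N₁) hq hqp
      (fun h => (hq.dvd_mul.mp h).elim hqM₀ hqN₁)) (hφF _ _ ?_) (hφF _ _ ?_)
  · refine hMS r hr ?_
    rcases hr.dvd_mul.mp hrL with h | h
    · rcases hr.dvd_mul.mp h with h | h
      · rcases hr.dvd_mul.mp h with h | h
        · exact h.mul_right q
        · exact (h.trans hN₁).trans hM
      · exact h.mul_left M₀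
    · exact h.mul_left M₀
  · have h3 := hq1.tr (L := M₀ * N₁ * q) (one_dvd _) rfl (NeZero.pos _) hqL
    exact (LinearMap.congr_fun (ctrFam_eq (one_dvd (M₀ * N₁ * q)) hq.pos hqL) _).symm.trans h3
  · have h3 := hq1.beta (L := M₀ * N₁ * q) (one_dvd _) rfl hqL
    exact (LinearMap.congr_fun (betaFam_eq (one_dvd (M₀ * N₁ * q)) hq hqL) _).symm.trans h3

/-- **(EA c)**: Steinberg Frobenius at `q ∥ M`, `q ∤ N'`, if both traces of `y` vanish. -/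
theorem EAc (hp2 : p ≠ 2) (hpS : p ∈ S)
    (hp𝒪' : (p : 𝒪') ∈ IsLocalRing.maximalIdeal 𝒪') (G : GeomInputs p)
    {N' M₀ q : ℕ} [NeZero M₀] [NeZero q] (hsq : Squarefree N')
    (hex : ∀ r : ℕ, r.Prime → r ∣ N' → ¬ r * r ∣ M₀) (hM : N' ∣ M₀)
    (hMS : ∀ r : ℕ, r.Prime → r ∣ M₀ * q → r ∈ S)
    (η ψ : (ZMod N')ˣ →* K₁ˣ) (hψ : ψ = η ^ 2) {m : ℕ} (hm : Odd m) (hη : η ^ m = 1)
    {lam : ℕ → 𝒪'} (ρ : GaloisRepAdic 𝒪') (hρ : IsAttached S lam ρ)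
    (hirr : ρ.residual.IsIrreducible)
    {y : H1 (gam N' (M₀ * q) (dvd_mul_q hM)) (psiRep ψ K₁)} (hy : y ≠ 0)
    (hT : IsEigTw (dvd_mul_q hM) S lam η ψ y)
    (hq : q.Prime) (hqp : q ≠ p) (hqM : ¬ q ∣ M₀)
    (h1 : (trFam hM).opH (psiRep ψ K₁) y = 0)
    (h2 : (nuFam hM hq).opH (psiRep ψ K₁) y = 0) :
    ∃ u : 𝒪', (u = 1 ∨ u = -1) ∧
      ∀ (A : ValuationSubring (AlgebraicClosure ℚ)) (_ : A.LiesOverPrime q)
        (σ : H53.GQ) (_ : A.IsFrobeniusAt σ q),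
        LinearMap.charpoly (ρ.ρ σ) = (X - C u) * (X - C (u * (q : 𝒪'))) := by
  haveI : CharZero K₁ := charZero_of_injective_algebraMap (IsFractionRing.injective 𝒪' K₁)
  have hM₀ : 0 < M₀ := NeZero.pos M₀
  have hN'0 : 0 < N' := Nat.pos_of_ne_zero (fun h => not_squarefree_zero (h ▸ hsq))
  have hqN : ¬ q ∣ N' := fun h => hqM (h.trans hM)
  have hqM' : ¬ q ∣ M₀ * N' := fun h => (hq.dvd_mul.mp h).elim hqM hqN
  haveI : NeZero (M₀ * N') := ⟨(Nat.mul_pos hM₀ hN'0).ne'⟩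
  haveI : NeZero (M₀ * N' * q) := ⟨(Nat.mul_pos (Nat.mul_pos hM₀ hN'0) hq.pos).ne'⟩
  have hexq : ∀ r : ℕ, r.Prime → r ∣ N' → ¬ r * r ∣ M₀ * q := by
    intro r hr hrN h
    have hne : r ≠ q := by
      rintro rfl
      exact hqN hrN
    have hcop : (r * r).Coprime q := by
      have := (Nat.coprime_primes hr hq).mpr hne
      exact Nat.Coprime.mul_left this this
    exact hex r hr hrN (hcop.dvd_of_dvd_mul_right h)
  obtain ⟨E, hE⟩ := exists_emb (K := K₁) hsq (Nat.mul_pos hM₀ hq.pos) hexq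
    (dvd_mul_q hM) (L := M₀ * N' * q) (by ring) ψ η hψ hm hη
  obtain ⟨φ, hφ0, hφT, hφF⟩ := exists_isEigHom (O := 𝒪') (K := K₁)
    (L := M₀ * N' * q) (S := S) (lam := lam) (y := E y)
    (fun h => hy (hE.inj (h.trans (map_zero E).symm)))
    (hT.twEmb ⟨N', by ring⟩ hE)
  have hqN1 : q.Coprime N' := (Nat.Prime.coprime_iff_not_dvd hq).mpr hqN
  have hs : ScalBy (psiRep ψ K₁) hq.pos hqN1
      (((η (ZMod.unitOfCoprime q hqN1)) ^ 2 : K₁ˣ) : K₁) := by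
    intro v
    have h5 : aUnit N' (Fermat.Agent.H37.Tr.scal N' hq.pos hqN1) =
        ZMod.unitOfCoprime q hqN1 := by
      apply Units.ext
      rw [aUnit_val, ZMod.coe_unitOfCoprime, Fermat.Agent.H37.Tr.scal_val]
      simp
    rw [slash_psiRep, hψ, h5]
    rfl
  have hs' : Fermat.Agent.H37.Tr.ScalTriv
      (psiRep (1 : (ZMod 1)ˣ →* K₁ˣ) K₁) hq.pos
      (Nat.coprime_one_right q) := fun v => slash_psiRep_one _ _
  obtain ⟨h3, h4⟩ := traces_of_twEmb hM (one_dvd (M₀ * N')) hq hqM hqM' hqN1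
    (Nat.coprime_one_right q) (E := E) hE hs hs' y h1 h2
  exact hφT.exists_sign hp2 hpS hp𝒪' ρ hρ hirr hq hqp hqM'
    (fun r hr hrL => by
      refine hMS r hr ?_
      rcases hr.dvd_mul.mp hrL with h | h
      · rcases hr.dvd_mul.mp h with h | h
        · exact h.mul_right q
        · exact h.trans (dvd_mul_q hM)
      · exact h.mul_left M₀)
    hφ0 (G.star q (M₀ * N') hq hqp hqM') (hφF _ _ h3) (hφF _ _ h4)

end Main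

end Fermat.Agent.H4

end
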