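import Mathlib
import Fermat.Agent.H4EAK

/-!
# Eigen-analysis at primes of good reduction (MODLIFT, S59, helper21)

Setting as in `H4EA`/`H4EAK`: `𝒪'` a complete discrete valuation ring of characteristic zero and
residue characteristic `p ≠ 2`, a Hecke eigenclass on `Γ₀(M)` with nebentypus `η²`, twisted
eigenvalues `lam`, `ρ` attached to `lam`; `q ∤ M`, `q ≠ p` a prime (possibly `q ∈ S`).

* `EAd` : `ρ` is unramified at `q`;
* `EAe` : if `T_q y = η(q) μ y` then `ρ(Frob_q)` has characteristic polynomial `X² - μ X + q`.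
-/

set_option autoImplicit false
set_option linter.style.haveILetI false
set_option linter.unusedSectionVars false

noncomputable section

open IsLocalRing Module TensorProduct Polynomial CongruenceSubgroup CuspForm ModularCurve
  AlgebraicCurve Fermat.Agent.H31 Fermat.Agent.H30 Fermat.Agent.H35 Fermat.Agent.H67
  Fermat.Agent.H62 Fermat.Agent.H94.BR Fermat.Agent.H70.Coh Fermat.Agent.H21J
  Fermat.Agent.H70.Mod Fermat.Agent.H4

namespace Fermat.Agent.H21M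

section Res

variable {p : ℕ} [Fact p.Prime]

/-- An odd irreducible residual representation is absolutely irreducible. -/
theorem isAbsolutelyIrreducible_of_isAttached (hp2 : p ≠ 2) {O : Type} [CommRing O]
    [IsLocalRing O] [IsNoetherianRing O] (hpO : (p : O) ∈ maximalIdeal O) (S : Finset ℕ)
    (lam : ℕ → O) (ρ : GaloisRepAdic O) (hρ : IsAttached S lam ρ)
    (hirr : ρ.residual.IsIrreducible) : ρ.residual.IsAbsolutelyIrreducible :=
  H87.AbsIrr.isAbsolutelyIrreducible_of_involution (two_ne_zero_residue hp2 hpO) _ hirr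
    complexConjugation complexConjugation_mul_self
    (det_residual_complexConjugation hpO S lam ρ hρ)

/-- `ρ σ = 1` if multiplication by `σ` does not change traces. -/
theorem eq_one_of_trace {O : Type} [CommRing O] [IsLocalRing O] (ρ : GaloisRepAdic O)
    (habs : ρ.residual.IsAbsolutelyIrreducible) (σ : H53.GQ)
    (h : ∀ g : H53.GQ, LinearMap.charpoly (ρ.ρ (g * σ)) = LinearMap.charpoly (ρ.ρ g)) :
    ρ.ρ σ = 1 := by
  rw [← sub_eq_zero]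
  refine traceFormNondegenerate ρ habs _ fun g => ?_
  rw [mul_sub, mul_one, ← map_mul, map_sub]
  have h1 := h g
  rw [H86.charpoly_eq_of_finrank_two ρ.finrank_eq, H86.charpoly_eq_of_finrank_two ρ.finrank_eq]
    at h1
  have h2 := congrArg (fun P : Polynomial O => P.coeff 1) h1
  simp only [coeff_add, coeff_sub, coeff_X_pow, coeff_C_mul, coeff_X_one, mul_one,
    coeff_C_succ, add_zero] at h2
  have h3 : (if (1 : ℕ) = 2 then (1 : O) else 0) = 0 := if_neg (by decide)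
  rw [h3, zero_sub, zero_sub, neg_inj] at h2
  rw [h2, sub_self]

end Res

section J

variable {p : ℕ} [Fact p.Prime] {S : Finset ℕ}
    {𝒪' : Type} [CommRing 𝒪'] [IsDomain 𝒪'] [IsDiscreteValuationRing 𝒪']
    [IsAdicComplete (IsLocalRing.maximalIdeal 𝒪') 𝒪'] [Finite (IsLocalRing.ResidueField 𝒪')]
    [CharZero 𝒪'] [Algebra ℤ_[p] 𝒪']

/-- the trace of `g` on the eigenlattice in `𝒪' ⊗ T_p J₀(N)` -/
theorem exists_trace_JZero {N : ℕ} [NeZero N] (hpS : p ∈ S)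
    (hNS : ∀ q : ℕ, q.Prime → q ∣ N → q ∈ S)
    (hp𝒪' : (p : 𝒪') ∈ IsLocalRing.maximalIdeal 𝒪') {lam : ℕ → 𝒪'}
    {v : 𝒪' ⊗[ℤ_[p]] TateMod p (JZero N)} (hv : IsEigJ p N S lam v) (hv0 : v ≠ 0)
    (ρ : GaloisRepAdic 𝒪') (hρ : IsAttached S lam ρ) (g : H53.GQ) :
    ∃ t : 𝒪', ((galTate p (JZero N) g).baseChange 𝒪' ((galTate p (JZero N) g).baseChange 𝒪' v)
      - t • (galTate p (JZero N) g).baseChange 𝒪' v + cyc 𝒪' hp𝒪' g • v = 0) ∧
      LinearMap.charpoly (ρ.ρ g) = X ^ 2 - C t * X + C (cyc 𝒪' hp𝒪' g) := by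
  letI := heckeModuleBar N
  haveI := (jzeroInputs N).comm
  haveI := (jzeroInputs N).principal
  have hp : p.Prime := Fact.out
  have hne : chiSub (actTate p (JZero N) N (↑S : Set ℕ)) (chiOf N S lam) ≠ ⊥ :=
    (Submodule.ne_bot_iff _).mpr ⟨v, hv.mem_chiSub, hv0⟩
  obtain ⟨t, ht, h⟩ := exists_trace_J (J := JZero N) hpS hNS 𝒪' hp𝒪' (chiOf N S lam)
    (by simpa using (jzeroInputs N).finite p 1 hp)
    (frobeniusQuadratic_of_specializationExists ((jzeroInputs N).spec p hp))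
    (finiteLevel_JZero N p (fun n => (jzeroInputs N).finite p n hp)) hne g
  exact ⟨t, ht v hv.mem_chiSub, by simpa using h ρ (isAttachedN_chiOf hρ)⟩

/-- **good reduction**: `ρ` is unramified at `q ∤ N p`. -/
theorem isUnramifiedAt_JZero {N : ℕ} [NeZero N] (hpS : p ∈ S)
    (hNS : ∀ q : ℕ, q.Prime → q ∣ N → q ∈ S)
    (hp𝒪' : (p : 𝒪') ∈ IsLocalRing.maximalIdeal 𝒪') {lam : ℕ → 𝒪'}
    {v : 𝒪' ⊗[ℤ_[p]] TateMod p (JZero N)} (hv : IsEigJ p N S lam v) (hv0 : v ≠ 0)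
    {q : ℕ} (hq : q.Prime) (hqp : q ≠ p) (hqN : ¬ q ∣ N)
    (ρ : GaloisRepAdic 𝒪') (hρ : IsAttached S lam ρ)
    (habs : ρ.residual.IsAbsolutelyIrreducible) : ρ.IsUnramifiedAt q := by
  letI := heckeModuleBar N
  haveI := (jzeroInputs N).comm
  haveI := (jzeroInputs N).principal
  have hp : p.Prime := Fact.out
  haveI := TateMod.free_of_finite_torsion (p := p) (J := JZero N)
    (by simpa using (jzeroInputs N).finite p 1 hp)
  intro A hA σ hσ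
  refine eq_one_of_trace ρ habs σ fun g => ?_
  have hqNp : ¬ q ∣ N * p := fun h => (hq.dvd_mul.mp h).elim hqN
    (fun h' => hqp ((Nat.prime_dvd_prime_iff_eq hq hp).mp h'))
  have hσ1 : galTate p (JZero N) σ = 1 := galTate_inertia
    (unramifiedOutside_of_specializationExists ((jzeroInputs N).spec p hp)) hq hqNp hA hσ
  obtain ⟨t, ht, h⟩ := exists_trace_JZero hpS hNS hp𝒪' hv hv0 ρ hρ g
  obtain ⟨t', ht', h'⟩ := exists_trace_JZero hpS hNS hp𝒪' hv hv0 ρ hρ (g * σ)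
  have hcyc : cyc 𝒪' hp𝒪' (g * σ) = cyc 𝒪' hp𝒪' g := by
    rw [map_mul, cyc_inertia 𝒪' hp𝒪' hq hqp hA hσ, mul_one]
  have hgal : galTate p (JZero N) (g * σ) = galTate p (JZero N) g := by
    rw [map_mul, hσ1, mul_one]
  rw [hgal, hcyc] at ht'
  have htt : t' = t := trace_unique (galTate p (JZero N)) hv0 ht' ht
  rw [h, h', hcyc, htt]

/-- **good reduction**: the characteristic polynomial of Frobenius at `q ∤ N p`. -/
theorem charpoly_frob_JZero {N : ℕ} [NeZero N] (hpS : p ∈ S)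
    (hNS : ∀ q : ℕ, q.Prime → q ∣ N → q ∈ S)
    (hp𝒪' : (p : 𝒪') ∈ IsLocalRing.maximalIdeal 𝒪') {lam : ℕ → 𝒪'}
    {v : 𝒪' ⊗[ℤ_[p]] TateMod p (JZero N)} (hv : IsEigJ p N S lam v) (hv0 : v ≠ 0)
    {q : ℕ} (hq : q.Prime) (hqp : q ≠ p) (hqN : ¬ q ∣ N) {μ : 𝒪'}
    (hμ : (tateMap (p := p) (heckeOperatorBar N ⟨q, hq⟩)).baseChange 𝒪' v = μ • v)
    (ρ : GaloisRepAdic 𝒪') (hρ : IsAttached S lam ρ)
    {A : ValuationSubring (AlgebraicClosure ℚ)} (hA : A.LiesOverPrime q)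
    {σ : H53.GQ} (hσ : A.IsFrobeniusAt σ q) :
    LinearMap.charpoly (ρ.ρ σ) = X ^ 2 - C μ * X + C (q : 𝒪') := by
  letI := heckeModuleBar N
  haveI := (jzeroInputs N).comm
  haveI := (jzeroInputs N).principal
  have hp : p.Prime := Fact.out
  haveI := TateMod.free_of_finite_torsion (p := p) (J := JZero N)
    (by simpa using (jzeroInputs N).finite p 1 hp)
  haveI := TateMod.finite_of_finite_torsion (p := p) (J := JZero N)
    (by simpa using (jzeroInputs N).finite p 1 hp)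
  have hqNp : ¬ q ∣ N * p := fun h => (hq.dvd_mul.mp h).elim hqN
    (fun h' => hqp ((Nat.prime_dvd_prime_iff_eq hq hp).mp h'))
  obtain ⟨t, ht, h⟩ := exists_trace_JZero hpS hNS hp𝒪' hv hv0 ρ hρ σ
  have hcyc : cyc 𝒪' hp𝒪' σ = (q : 𝒪') := cyc_frobenius 𝒪' hp𝒪' hq hqp hA hσ
  have hT : heckeTate p (JZero N) (heckeGen ⟨q, hq⟩) =
      tateMap (p := p) (heckeOperatorBar N ⟨q, hq⟩) := by
    refine LinearMap.ext fun x => ?_
    ext n
    rw [proj_heckeTate, proj_tateMap]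
    exact heckeModuleBar_heckeGen_smul (heckeOperatorsCommuteBar N) _ _
  have hcomm : Commute (heckeTate p (JZero N) (heckeGen ⟨q, hq⟩)) (galTate p (JZero N) σ) :=
    heckeTate_commute _ σ
  have hF := galTate_frobenius (p := p) (J := JZero N)
    (frobeniusQuadratic_of_specializationExists ((jzeroInputs N).spec p hp)) hq hqNp hA hσ
  have h1 : (galTate p (JZero N) σ).baseChange 𝒪' ((galTate p (JZero N) σ).baseChange 𝒪' v)
      - μ • (galTate p (JZero N) σ).baseChange 𝒪' v + (q : 𝒪') • v = 0 := by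
    refine baseChange_quadratic 𝒪' (galTate p (JZero N) σ)
      (heckeTate p (JZero N) (heckeGen ⟨q, hq⟩)) q μ (fun x => ?_) ?_
    · have h2 := LinearMap.congr_fun hF x
      simpa only [LinearMap.add_apply, LinearMap.sub_apply, Module.End.mul_apply,
        LinearMap.smul_apply, Module.End.one_apply, LinearMap.zero_apply] using h2
    · have h3 : (heckeTate p (JZero N) (heckeGen ⟨q, hq⟩) ∘ₗ galTate p (JZero N) σ).baseChange 𝒪' v
          = (galTate p (JZero N) σ ∘ₗ heckeTate p (JZero N) (heckeGen ⟨q, hq⟩)).baseChange 𝒪' v := by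
        have h4 : heckeTate p (JZero N) (heckeGen ⟨q, hq⟩) ∘ₗ galTate p (JZero N) σ =
          galTate p (JZero N) σ ∘ₗ heckeTate p (JZero N) (heckeGen ⟨q, hq⟩) := hcomm.eq
        rw [h4]
      rw [LinearMap.baseChange_comp, LinearMap.comp_apply, LinearMap.baseChange_comp,
        LinearMap.comp_apply] at h3
      rw [h3, hT, hμ, map_smul]
  rw [hcyc] at ht
  have htt : t = μ := trace_unique (galTate p (JZero N)) hv0 ht h1
  rw [h, hcyc, htt]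

end J

section Core

variable {p : ℕ} [Fact p.Prime] {S : Finset ℕ}
    {𝒪' : Type} [CommRing 𝒪'] [IsDomain 𝒪'] [IsDiscreteValuationRing 𝒪']
    [IsAdicComplete (IsLocalRing.maximalIdeal 𝒪') 𝒪'] [Finite (IsLocalRing.ResidueField 𝒪')]
    [CharZero 𝒪']

theorem isUnramifiedAt_of_isEigHom (hp2 : p ≠ 2) (hpS : p ∈ S)
    (hp𝒪' : (p : 𝒪') ∈ IsLocalRing.maximalIdeal 𝒪')
    {lam : ℕ → 𝒪'} (ρ : GaloisRepAdic 𝒪') (hρ : IsAttached S lam ρ)
    (hirr : ρ.residual.IsIrreducible) {L : ℕ} [NeZero L]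
    (hLS : ∀ q : ℕ, q.Prime → q ∣ L → q ∈ S)
    {φ : Additive (Gamma0 L) →+ 𝒪'} (hT : IsEigHom L S lam φ) (hφ : φ ≠ 0)
    {q : ℕ} (hq : q.Prime) (hqp : q ≠ p) (hqL : ¬ q ∣ L) :
    ρ.IsUnramifiedAt q := by
  letI : Algebra ℤ_[p] 𝒪' := (padicToAdic 𝒪' hp𝒪').toAlgebra
  have hinj : Function.Injective (algebraMap ℤ_[p] 𝒪') := padicToAdic_injective 𝒪' hp𝒪'
  have hPE := hT.isPE hp2 hp𝒪' ρ hρ hirr
  exact isUnramifiedAt_JZero hpS hLS hp𝒪' (hT.isEigJ hinj hPE) (thetaJ_symm_ne_zero hinj hPE hφ)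
    hq hqp hqL ρ hρ (isAbsolutelyIrreducible_of_isAttached hp2 hp𝒪' S lam ρ hρ hirr)

theorem charpoly_frob_of_isEigHom (hp2 : p ≠ 2) (hpS : p ∈ S)
    (hp𝒪' : (p : 𝒪') ∈ IsLocalRing.maximalIdeal 𝒪')
    {lam : ℕ → 𝒪'} (ρ : GaloisRepAdic 𝒪') (hρ : IsAttached S lam ρ)
    (hirr : ρ.residual.IsIrreducible) {L : ℕ} [NeZero L]
    (hLS : ∀ q : ℕ, q.Prime → q ∣ L → q ∈ S)
    {φ : Additive (Gamma0 L) →+ 𝒪'} (hT : IsEigHom L S lam φ) (hφ : φ ≠ 0)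
    {q : ℕ} (hq : q.Prime) (hqp : q ≠ p) (hqL : ¬ q ∣ L) {μ : 𝒪'}
    (hμ : haveI : Fact q.Prime := ⟨hq⟩; heckeHom hqL φ = μ • φ)
    {A : ValuationSubring (AlgebraicClosure ℚ)} (hA : A.LiesOverPrime q)
    {σ : H53.GQ} (hσ : A.IsFrobeniusAt σ q) :
    LinearMap.charpoly (ρ.ρ σ) = X ^ 2 - C μ * X + C (q : 𝒪') := by
  letI : Algebra ℤ_[p] 𝒪' := (padicToAdic 𝒪' hp𝒪').toAlgebra
  have hinj : Function.Injective (algebraMap ℤ_[p] 𝒪') := padicToAdic_injective 𝒪' hp𝒪'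
  have hPE := hT.isPE hp2 hp𝒪' ρ hρ hirr
  haveI : Fact q.Prime := ⟨hq⟩
  refine charpoly_frob_JZero hpS hLS hp𝒪' (hT.isEigJ hinj hPE)
    (thetaJ_symm_ne_zero hinj hPE hφ) hq hqp hqL ?_ ρ hρ hA hσ
  apply (thetaJ (p := p) L hinj).injective
  apply Subtype.ext
  have h1 := thetaJ_hecke (p := p) hinj (N := L) (ℓ := q) hqL
    ((thetaJ (p := p) L hinj).symm ⟨φ, hPE⟩)
  refine h1.trans ?_
  rw [map_smul, LinearEquiv.apply_symm_apply]
  exact hμ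

end Core

/-! ### The point form -/

section Point

variable {p : ℕ} [Fact p.Prime] {S : Finset ℕ}
    {𝒪' : Type} [CommRing 𝒪'] [IsDomain 𝒪'] [IsDiscreteValuationRing 𝒪']
    [IsAdicComplete (IsLocalRing.maximalIdeal 𝒪') 𝒪'] [Finite (IsLocalRing.ResidueField 𝒪')]
    [CharZero 𝒪'] {K₁ : Type} [Field K₁] [Algebra 𝒪' K₁] [IsFractionRing 𝒪' K₁]

theorem isAttached_mono {S₁ S₂ : Finset ℕ} (h : S₁ ⊆ S₂) {lam : ℕ → 𝒪'} {ρ : GaloisRepAdic 𝒪'}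
    (hρ : IsAttached S₁ lam ρ) : IsAttached S₂ lam ρ :=
  fun ℓ hℓ hℓS => hρ ℓ hℓ fun h' => hℓS (h h')

/-- **(EA d)**: `ρ` is unramified at `q ∤ M`. -/
theorem EAd (hp2 : p ≠ 2) (hpS : p ∈ S)
    (hp𝒪' : (p : 𝒪') ∈ IsLocalRing.maximalIdeal 𝒪')
    {N' M : ℕ} (hsq : Squarefree N') (hM0 : 0 < M)
    (hex : ∀ r : ℕ, r.Prime → r ∣ N' → ¬ r * r ∣ M) (hM : N' ∣ M)
    (hMS : ∀ r : ℕ, r.Prime → r ∣ M → r ∈ S)
    (η ψ : (ZMod N')ˣ →* K₁ˣ) (hψ : ψ = η ^ 2) {m : ℕ} (hm : Odd m) (hη : η ^ m = 1)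
    {lam : ℕ → 𝒪'} (ρ : GaloisRepAdic 𝒪') (hρ : IsAttached S lam ρ)
    (hirr : ρ.residual.IsIrreducible)
    {y : H1 (gam N' M hM) (psiRep ψ K₁)} (hy : y ≠ 0) (hT : IsEigTw hM S lam η ψ y)
    {q : ℕ} (hq : q.Prime) (hqp : q ≠ p) (hqM : ¬ q ∣ M) :
    ρ.IsUnramifiedAt q := by
  haveI : CharZero K₁ := charZero_of_injective_algebraMap (IsFractionRing.injective 𝒪' K₁)
  have hN'0 : 0 < N' := Nat.pos_of_ne_zero (fun h => not_squarefree_zero (h ▸ hsq))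
  haveI : NeZero (M * N') := ⟨(Nat.mul_pos hM0 hN'0).ne'⟩
  obtain ⟨E, hE⟩ := exists_emb (K := K₁) hsq hM0 hex hM
    (L := M * N') rfl ψ η hψ hm hη
  obtain ⟨φ, hφ0, hφT, -⟩ := exists_isEigHom (O := 𝒪') (K := K₁)
    (L := M * N') (S := S) (lam := lam) (y := E y)
    (fun h => hy (hE.inj (h.trans (map_zero E).symm)))
    (hT.twEmb ⟨N', rfl⟩ hE)
  exact isUnramifiedAt_of_isEigHom hp2 hpS hp𝒪' ρ hρ hirr
    (fun r hr hrL => (hr.dvd_mul.mp hrL).elim (hMS r hr) fun h => hMS r hr (h.trans hM))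
    hφT hφ0 hq hqp (fun h => (hq.dvd_mul.mp h).elim hqM fun h' => hqM (h'.trans hM))

/-- **(EA e)**: the Frobenius at `q ∤ M` for an eigenclass of `T_q`. -/
theorem EAe (hp2 : p ≠ 2) (hpS : p ∈ S)
    (hp𝒪' : (p : 𝒪') ∈ IsLocalRing.maximalIdeal 𝒪')
    {N' M : ℕ} (hsq : Squarefree N') (hM0 : 0 < M)
    (hex : ∀ r : ℕ, r.Prime → r ∣ N' → ¬ r * r ∣ M) (hM : N' ∣ M)
    (hMS : ∀ r : ℕ, r.Prime → r ∣ M → r ∈ S)
    (η ψ : (ZMod N')ˣ →* K₁ˣ) (hψ : ψ = η ^ 2) {m : ℕ} (hm : Odd m) (hη : η ^ m = 1)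
    {lam : ℕ → 𝒪'} (ρ : GaloisRepAdic 𝒪') (hρ : IsAttached S lam ρ)
    (hirr : ρ.residual.IsIrreducible)
    {y : H1 (gam N' M hM) (psiRep ψ K₁)} (hy : y ≠ 0) (hT : IsEigTw hM S lam η ψ y)
    {q : ℕ} (hq : q.Prime) (hqp : q ≠ p) (hqM : ¬ q ∣ M) (hc : q.Coprime N') {μ : 𝒪'}
    (hμ : (tFam hM hq hqM).opH (psiRep ψ K₁) y =
      (((η (ZMod.unitOfCoprime q hc) : K₁ˣ) : K₁) * algebraMap 𝒪' K₁ μ) • y)
    {A : ValuationSubring (AlgebraicClosure ℚ)} (hA : A.LiesOverPrime q)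
    {σ : H53.GQ} (hσ : A.IsFrobeniusAt σ q) :
    LinearMap.charpoly (ρ.ρ σ) = X ^ 2 - C μ * X + C (q : 𝒪') := by
  classical
  haveI : CharZero K₁ := charZero_of_injective_algebraMap (IsFractionRing.injective 𝒪' K₁)
  have hN'0 : 0 < N' := Nat.pos_of_ne_zero (fun h => not_squarefree_zero (h ▸ hsq))
  haveI : NeZero (M * N') := ⟨(Nat.mul_pos hM0 hN'0).ne'⟩
  haveI : Fact q.Prime := ⟨hq⟩
  have hqL : ¬ q ∣ M * N' := fun h => (hq.dvd_mul.mp h).elim hqM fun h' => hqM (h'.trans hM)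
  obtain ⟨E, hE⟩ := exists_emb (K := K₁) hsq hM0 hex hM
    (L := M * N') rfl ψ η hψ hm hη
  obtain ⟨φ, hφ0, hφT, -⟩ := exists_isEigHom (O := 𝒪') (K := K₁)
    (L := M * N') (S := S.erase q) (lam := Function.update lam q μ) (y := E y)
    (fun h => hy (hE.inj (h.trans (map_zero E).symm)))
    (by
      intro ℓ hℓ hℓL hℓS
      by_cases hℓq : ℓ = q
      · subst hℓq
        rw [Function.update_self]
        have h1 := hE.T hℓ hqM hℓL hc y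
        rw [hμ, map_smul, mul_smul] at h1
        exact (smul_right_injective _ (Units.ne_zero _) h1).symm
      · rw [Function.update_of_ne hℓq]
        exact hT.twEmb ⟨N', rfl⟩ hE ℓ hℓ hℓL fun h => hℓS (Finset.mem_erase.mpr ⟨hℓq, h⟩))
  have hφ1 : heckeHom hqL φ = μ • φ := by
    have h1 := hφT q hqL (Finset.notMem_erase q S)
    rwa [Function.update_self] at h1
  have hφ2 : IsEigHom (M * N') (insert q S) lam φ := by
    intro ℓ _ hℓL hℓS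
    have hℓq : ℓ ≠ q := fun h => hℓS (h ▸ Finset.mem_insert_self _ _)
    have h1 := hφT ℓ hℓL fun h =>
      hℓS (Finset.mem_insert_of_mem (Finset.mem_of_mem_erase h))
    rwa [Function.update_of_ne hℓq] at h1
  exact charpoly_frob_of_isEigHom hp2 (Finset.mem_insert_of_mem hpS) hp𝒪' ρ
    (isAttached_mono (Finset.subset_insert q S) hρ) hirr
    (fun r hr hrL => Finset.mem_insert_of_mem
      ((hr.dvd_mul.mp hrL).elim (hMS r hr) fun h => hMS r hr (h.trans hM)))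
    hφ2 hφ0 hq hqp hqL hφ1 hA hσ

end Point

/-! ### The integral form -/

section Integral

variable {p : ℕ} [Fact p.Prime] {S : Finset ℕ}
    {𝒪' : Type} [CommRing 𝒪'] [IsDomain 𝒪'] [IsDiscreteValuationRing 𝒪']
    [IsAdicComplete (IsLocalRing.maximalIdeal 𝒪') 𝒪'] [Finite (IsLocalRing.ResidueField 𝒪')]
    [CharZero 𝒪']

/-- an integral twisted eigenclass gives an eigenclass over the fraction field -/
theorem isEigTw_h1S {N' M : ℕ} (hM : N' ∣ M) (hS : Away M (↑S : Set ℕ))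
    (η : (ZMod N')ˣ →* 𝒪'ˣ) {lam : ℕ → 𝒪'} {x : H1 (gam N' M hM) (psiRep (η ^ 2) 𝒪')}
    (hT : ∀ i : Idx (↑S : Set ℕ), Fermat.Agent.H70.Mod.tw hM hS (η ^ 2) η i x = lam i.1 • x) :
    IsEigTw hM S lam (psiMap (algebraMap 𝒪' (FractionRing 𝒪')) η)
      (psiMap (algebraMap 𝒪' (FractionRing 𝒪')) (η ^ 2))
      (h1S hM (η ^ 2) (algebraMap 𝒪' (FractionRing 𝒪')) x) := by
  intro ℓ hℓ hℓM hc hℓS
  rw [tFam_h1S_of_tw hM hS η hT hℓ hℓS hℓM hc, smul_smul]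

/-- **(EA d)**, integral form: `ρ` is unramified at `q ∤ M`. -/
theorem EA_unramified (hp2 : p ≠ 2) (hpS : p ∈ S)
    (hp𝒪' : (p : 𝒪') ∈ IsLocalRing.maximalIdeal 𝒪')
    {N' M : ℕ} (hsq : Squarefree N') (hM0 : 0 < M)
    (hex : ∀ r : ℕ, r.Prime → r ∣ N' → ¬ r * r ∣ M) (hM : N' ∣ M) (hS : Away M (↑S : Set ℕ))
    (η : (ZMod N')ˣ →* 𝒪'ˣ) {m : ℕ} (hm : Odd m) (hη : η ^ m = 1)
    {lam : ℕ → 𝒪'} (ρ : GaloisRepAdic 𝒪') (hρ : IsAttached S lam ρ)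
    (hirr : ρ.residual.IsIrreducible)
    {x : H1 (gam N' M hM) (psiRep (η ^ 2) 𝒪')} (hx : ∀ c : 𝒪', c ≠ 0 → c • x ≠ 0)
    (hT : ∀ i : Idx (↑S : Set ℕ), Fermat.Agent.H70.Mod.tw hM hS (η ^ 2) η i x = lam i.1 • x)
    {q : ℕ} (hq : q.Prime) (hqp : q ≠ p) (hqM : ¬ q ∣ M) :
    ρ.IsUnramifiedAt q :=
  EAd hp2 hpS hp𝒪' hsq hM0 hex hM (fun r hr hrM => by simpa using hS r hr hrM)
    (psiMap (algebraMap 𝒪' (FractionRing 𝒪')) η)
    (psiMap (algebraMap 𝒪' (FractionRing 𝒪')) (η ^ 2)) (psiMap_pow _ η 2) hm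
    (by rw [← psiMap_pow, hη, psiMap_one]) ρ hρ hirr
    (h1S_ne_zero (K := FractionRing 𝒪') hM (η ^ 2) hx) (isEigTw_h1S hM hS η hT) hq hqp hqM

/-- **(EA e)**, integral form: the Frobenius at `q ∤ M` for an eigenclass of `T_q`. -/
theorem EA_frobenius (hp2 : p ≠ 2) (hpS : p ∈ S)
    (hp𝒪' : (p : 𝒪') ∈ IsLocalRing.maximalIdeal 𝒪')
    {N' M : ℕ} (hsq : Squarefree N') (hM0 : 0 < M)
    (hex : ∀ r : ℕ, r.Prime → r ∣ N' → ¬ r * r ∣ M) (hM : N' ∣ M) (hS : Away M (↑S : Set ℕ))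
    (η : (ZMod N')ˣ →* 𝒪'ˣ) {m : ℕ} (hm : Odd m) (hη : η ^ m = 1)
    {lam : ℕ → 𝒪'} (ρ : GaloisRepAdic 𝒪') (hρ : IsAttached S lam ρ)
    (hirr : ρ.residual.IsIrreducible)
    {x : H1 (gam N' M hM) (psiRep (η ^ 2) 𝒪')} (hx : ∀ c : 𝒪', c ≠ 0 → c • x ≠ 0)
    (hT : ∀ i : Idx (↑S : Set ℕ), Fermat.Agent.H70.Mod.tw hM hS (η ^ 2) η i x = lam i.1 • x)
    {q : ℕ} (hq : q.Prime) (hqp : q ≠ p) (hqM : ¬ q ∣ M) (hc : q.Coprime N') {μ : 𝒪'}
    (hμ : (tFam hM hq hqM).opH (psiRep (η ^ 2) 𝒪') x =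
      (((η (ZMod.unitOfCoprime q hc) : 𝒪'ˣ) : 𝒪') * μ) • x)
    {A : ValuationSubring (AlgebraicClosure ℚ)} (hA : A.LiesOverPrime q)
    {σ : H53.GQ} (hσ : A.IsFrobeniusAt σ q) :
    LinearMap.charpoly (ρ.ρ σ) = X ^ 2 - C μ * X + C (q : 𝒪') :=
  EAe hp2 hpS hp𝒪' hsq hM0 hex hM (fun r hr hrM => by simpa using hS r hr hrM)
    (psiMap (algebraMap 𝒪' (FractionRing 𝒪')) η)
    (psiMap (algebraMap 𝒪' (FractionRing 𝒪')) (η ^ 2)) (psiMap_pow _ η 2) hm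
    (by rw [← psiMap_pow, hη, psiMap_one]) ρ hρ hirr
    (h1S_ne_zero (K := FractionRing 𝒪') hM (η ^ 2) hx) (isEigTw_h1S hM hS η hT) hq hqp hqM hc
    (by rw [opH_h1S, hμ, map_smulₛₗ, map_mul]; rfl) hA hσ

end Integral

end Fermat.Agent.H21M

end
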