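import Fermat.Agent.H42GaussField
import Fermat.Prelude.Def_ModularCurve_ReductionModL

/-!
# The Gauss valuation ring of the modular function field
-/

set_option autoImplicit false

open Polynomial Module IntermediateField ModularCurve AlgebraicCurve

namespace Fermat.Agent.H42

section Transcendental

theorem coeff_algebraMap_mul {k : Type*} [Field k] (c : k) (f : LaurentSeries k) (n : ℤ) :
    (algebraMap k (LaurentSeries k) c * f).coeff n = c * f.coeff n := by
  rw [algebraMap_laurentSeries_eq_single, HahnSeries.coeff_single_mul, sub_zero]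

theorem coeff_aeval_jqModC (k : Type*) [Field k] (q : k[X]) :
    (aeval (jqModC k) q).coeff (-(q.natDegree : ℤ)) = q.leadingCoeff := by
  rw [aeval_eq_sum_range, HahnSeries.coeff_sum, Finset.sum_range_succ, Finset.sum_eq_zero, zero_add]
  · rw [Algebra.smul_def, coeff_algebraMap_mul, coeff_jqModC_pow_self, mul_one, leadingCoeff]
  · intro i hi
    rw [Algebra.smul_def, coeff_algebraMap_mul, coeff_jqModC_pow_of_lt, mul_zero]
    simpa using Finset.mem_range.mp hi

theorem transc_jqModC (k : Type*) [Field k] (q : k[X]) (hq : aeval (jqModC k) q = 0) : q = 0 := by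
  rw [← leadingCoeff_eq_zero, ← coeff_aeval_jqModC, hq, HahnSeries.coeff_zero]

end Transcendental

section LaurentRed

variable {L : Type*} [Field L] (A : ValuationSubring L) {k : Type*} [Field k] (π : A →+* k)

theorem coeffMap_injective {R S : Type*} [CommRing R] [CommRing S] {f : R →+* S}
    (hf : Function.Injective f) : Function.Injective (coeffMap f) := by
  intro x y h
  ext n
  have h1 := congrArg (fun z => z.coeff n) h
  simp only [coeffMap_coeff] at h1
  exact hf h1

theorem subtype_injective' : Function.Injective (coeffMap A.subtype) :=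
  coeffMap_injective A.subtype_injective

/-- The ring of Laurent series with coefficients in `A` as a subring of `L((q))`. -/
noncomputable def intEquiv : LaurentSeries A ≃+* (coeffMap A.subtype).range :=
  RingEquiv.ofBijective (coeffMap A.subtype).rangeRestrict
    ⟨fun _ _ h => subtype_injective' A (congrArg Subtype.val h),
      (coeffMap A.subtype).rangeRestrict_surjective⟩

theorem intEquiv_symm_apply (y : LaurentSeries A) (h) :
    (intEquiv A).symm ⟨coeffMap A.subtype y, h⟩ = y := by
  rw [RingEquiv.symm_apply_eq]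
  rfl

theorem coeffMap_single_eq (a : A) :
    coeffMap A.subtype (HahnSeries.single 0 a) = algebraMap L (LaurentSeries L) a := by
  rw [coeffMap_single, algebraMap_laurentSeries_eq_single]
  rfl

theorem algebraMap_mem_range (a : A) :
    algebraMap L (LaurentSeries L) a ∈ (coeffMap A.subtype).range :=
  ⟨HahnSeries.single 0 a, coeffMap_single_eq A a⟩

/-- Reduction of Laurent series with coefficients in `A`. -/
noncomputable def laurentRed : RedRing (LaurentSeries L) (LaurentSeries k) A π where
  B := (coeffMap A.subtype).range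
  ρ := (coeffMap π).comp (intEquiv A).symm.toRingHom
  mem a := algebraMap_mem_range A a
  ρ_mem a := by
    have h1 : (⟨algebraMap L (LaurentSeries L) a, algebraMap_mem_range A a⟩ :
        (coeffMap A.subtype).range) = intEquiv A (HahnSeries.single 0 a) :=
      Subtype.ext (coeffMap_single_eq A a).symm
    rw [h1, algebraMap_laurentSeries_eq_single]
    simp

theorem laurentRed_ρ (y : LaurentSeries A) (h : coeffMap A.subtype y ∈ (laurentRed A π).B) :
    (laurentRed A π).ρ ⟨coeffMap A.subtype y, h⟩ = coeffMap π y := by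
  change coeffMap π ((intEquiv A).symm ⟨coeffMap A.subtype y, h⟩) = _
  rw [intEquiv_symm_apply]

end LaurentRed

section BaseChange

variable (L : Type*) [Field L] [Algebra ℚ L] (N : ℕ)

theorem coeffEmb_qExpand_jq (d : ℕ) [NeZero d] :
    coeffEmb L (qExpand ℚ d jq) = qExpand L d (jqModC L) := by
  rw [coeffEmb, coeffMap_qExpand, ← jqModC_rat, coeffMap_jqModC]

theorem coeffEmb_mem_full {y : LaurentSeries ℚ} (hy : y ∈ modularFunctionFieldFull N) :
    coeffEmb L y ∈ modularFunctionFieldFullC L N := by
  rw [modularFunctionFieldFull] at hy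
  induction hy using IntermediateField.adjoin_induction with
  | mem y hy =>
    obtain ⟨d, hd, hdvd, rfl⟩ := hy
    rw [coeffEmb_qExpand_jq]
    exact jqModCd_mem_full L N hdvd
  | algebraMap c =>
    rw [algebraMap_laurentSeries_eq_single, coeffEmb, coeffMap_single,
      ← algebraMap_laurentSeries_eq_single]
    exact (modularFunctionFieldFullC L N).algebraMap_mem _
  | add y z _ _ hy hz => rw [map_add]; exact add_mem hy hz
  | inv y _ hy => rw [map_inv₀]; exact inv_mem hy
  | mul y z _ _ hy hz => rw [map_mul]; exact mul_mem hy hz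

/-- The base change of the modular function field is the modular function field. -/
theorem laurentBaseChange_full :
    laurentBaseChange L (modularFunctionFieldFull N) = modularFunctionFieldFullC L N := by
  apply le_antisymm
  · rw [laurentBaseChange, adjoin_le_iff]
    rintro _ ⟨y, hy, rfl⟩
    exact coeffEmb_mem_full L N hy
  · rw [modularFunctionFieldFullC, adjoin_le_iff]
    rintro _ ⟨d, hd, hdvd, rfl⟩
    rw [← coeffEmb_qExpand_jq]
    exact coeffEmb_mem_laurentBaseChange L (jqd_mem_full N hdvd)

end BaseChange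

section Modular

variable {L : Type*} [Field L] [Algebra ℚ L] (A : ValuationSubring L) {k : Type*} [Field k]
  (π : A →+* k) (N : ℕ)

/-- `j(q^d)` as an element of the ring of Laurent series with coefficients in `A`. -/
noncomputable def jB (d : ℕ) [NeZero d] : (laurentRed A π).B :=
  ⟨coeffMap A.subtype (qExpand A d (jqModC A)), ⟨_, rfl⟩⟩

omit [Algebra ℚ L] in
theorem coe_jB (d : ℕ) [NeZero d] : (jB A π d : LaurentSeries L) = qExpand L d (jqModC L) := by
  change coeffMap A.subtype (qExpand A d (jqModC A)) = _
  rw [coeffMap_qExpand, coeffMap_jqModC]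

omit [Algebra ℚ L] in
theorem ρ_jB (d : ℕ) [NeZero d] : (laurentRed A π).ρ (jB A π d) = qExpand k d (jqModC k) := by
  rw [jB, laurentRed_ρ, coeffMap_qExpand, coeffMap_jqModC]

/-- The generators. -/
def genS : Set (laurentRed A π).B := {s | ∃ (d : ℕ) (_ : NeZero d), d ∣ N ∧ s = jB A π d}

omit [Algebra ℚ L] in
theorem image_genS : (laurentRed A π).ρ '' genS A π N = divisorExpansionsC k N := by
  ext y
  constructor
  · rintro ⟨_, ⟨d, hd, hdvd, rfl⟩, rfl⟩
    exact ⟨d, hd, hdvd, ρ_jB A π d⟩
  · rintro ⟨d, hd, hdvd, rfl⟩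
    exact ⟨jB A π d, ⟨d, hd, hdvd, rfl⟩, ρ_jB A π d⟩

theorem genS_mem : ∀ s ∈ genS A π N,
    (s : LaurentSeries L) ∈ laurentBaseChange L (modularFunctionFieldFull N) := by
  rintro _ ⟨d, hd, hdvd, rfl⟩
  rw [coe_jB, laurentBaseChange_full]
  exact jqModCd_mem_full L N hdvd

omit [Algebra ℚ L] in
theorem adjoin_image_genS :
    adjoin k ((laurentRed A π).ρ '' genS A π N) = modularFunctionFieldFullC k N := by
  rw [image_genS]
  rfl

omit [Algebra ℚ L] in
theorem coe_jB_one : (jB A π 1 : LaurentSeries L) = jqModC L := by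
  rw [coe_jB, qExpand_one_apply]

omit [Algebra ℚ L] in
theorem ρ_jB_one : (laurentRed A π).ρ (jB A π 1) = jqModC k := by
  rw [ρ_jB, qExpand_one_apply]

/-- The hypothesis on degrees: `0 ≠ [F_N : L(j)] ≤ [Fk_N : k(j)]`. -/
def DegLE (L k : Type*) [Field L] [Field k] (N : ℕ) : Prop :=
  relfinrank L⟮jqModC L⟯ (modularFunctionFieldFullC L N) ≠ 0 ∧
  relfinrank L⟮jqModC L⟯ (modularFunctionFieldFullC L N) ≤
    relfinrank k⟮jqModC k⟯ (modularFunctionFieldFullC k N)

variable (hπ : Function.Surjective π) (hdeg : DegLE L k N)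

/-- The Gauss data of the modular function field. -/
noncomputable def modGauss :
    GaussData (laurentBaseChange L (modularFunctionFieldFull N)) (modularFunctionFieldFullC k N)
      A π :=
  gaussData (laurentRed A π) hπ (laurentBaseChange L (modularFunctionFieldFull N))
    (genS A π N) (genS_mem A π N) (modularFunctionFieldFullC k N) (adjoin_image_genS A π N)
    (jB A π 1)
    (by rw [coe_jB_one, laurentBaseChange_full]; exact jqModC_mem_full L N)
    (by rw [ρ_jB_one]; exact jqModC_mem_full k N)
    (fun q hq => transc_jqModC k q (by rwa [ρ_jB_one] at hq))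
    (by rw [coe_jB_one, laurentBaseChange_full]; exact hdeg.1)
    (by rw [coe_jB_one, ρ_jB_one, laurentBaseChange_full]; exact hdeg.2)

theorem mem_modGauss_B {f : laurentBaseChange L (modularFunctionFieldFull N)} :
    f ∈ (modGauss A π N hπ hdeg).B ↔ ∃ y : LaurentSeries A, coeffMap A.subtype y = f := Iff.rfl

/-- If `y ∈ A((q))` is the expansion of a modular function then its reduction is a modular
function. -/
theorem coeffMap_mem_full (hπ : Function.Surjective π) (hdeg : DegLE L k N) (y : LaurentSeries A)
    (hy : coeffMap A.subtype y ∈ laurentBaseChange L (modularFunctionFieldFull N)) :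
    coeffMap π y ∈ modularFunctionFieldFullC k N := by
  have h := ((modGauss A π N hπ hdeg).ρ ⟨⟨coeffMap A.subtype y, hy⟩, ⟨y, rfl⟩⟩).2
  have h2 : (((modGauss A π N hπ hdeg).ρ ⟨⟨coeffMap A.subtype y, hy⟩, ⟨y, rfl⟩⟩ :
      modularFunctionFieldFullC k N) : LaurentSeries k) = coeffMap π y :=
    laurentRed_ρ A π y ⟨y, rfl⟩
  rwa [h2] at h

theorem coe_modGauss_ρ (y : LaurentSeries A)
    (hy : coeffMap A.subtype y ∈ laurentBaseChange L (modularFunctionFieldFull N)) :
    (((modGauss A π N hπ hdeg).ρ ⟨⟨coeffMap A.subtype y, hy⟩, ⟨y, rfl⟩⟩ :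
      modularFunctionFieldFullC k N) : LaurentSeries k) = coeffMap π y :=
  laurentRed_ρ A π y ⟨y, rfl⟩

theorem modGauss_frac (t : modularFunctionFieldFullC k N) :
    ∃ y z : (modGauss A π N hπ hdeg).B, (modGauss A π N hπ hdeg).ρ z ≠ 0 ∧
      t * (modGauss A π N hπ hdeg).ρ z = (modGauss A π N hπ hdeg).ρ y :=
  gaussData_frac _ _ _ _ _ _ _ _ _ _ _ _ _ t

end Modular

end Fermat.Agent.H42
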