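import Mathlib
import Fermat.Agent.H42GaussMod

/-!
# Bounded Laurent series: Gauss norm on `L ⊗ ℤ((q))` (helper34)

`intSpan L` is the `L`-span of `ℤ((q))` in `L((q))`.  Finite dimensional subspaces of
`intSpan L × intSpan L` have bases in `A((q)) × A((q))` with `k`-independent reductions.
-/

set_option autoImplicit false

noncomputable section

open HahnSeries ModularCurve Fermat.Agent.H42

namespace Fermat.Agent.H34.Two

attribute [-instance] HahnSeries.instModule HahnSeries.instSMul

theorem coeff_smul' {R : Type*} [CommRing R] (c : R) (f : LaurentSeries R) (n : ℤ) :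
    (c • f).coeff n = c * f.coeff n := by
  have h1 : algebraMap R (LaurentSeries R) c = HahnSeries.single 0 c := by
    have h2 : algebraMap R (PowerSeries R) c = PowerSeries.C c := by simp
    rw [HahnSeries.algebraMap_apply', h2, HahnSeries.ofPowerSeries_C]
    rfl
  rw [Algebra.smul_def, h1, HahnSeries.coeff_single_mul, sub_zero]

section Lattice

/-- The columns of the coefficient matrix of `b` generate `ℤ ^ r`. -/
def ColGen {r : ℕ} (b : Fin r → LaurentSeries ℤ) : Prop :=
  ∃ x : Fin r → (ℤ →₀ ℤ), ∀ i j, ((x j).sum fun n c => c * (b i).coeff n) = if i = j then 1 else 0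

theorem ColGen.linearIndependent {r : ℕ} {b : Fin r → LaurentSeries ℤ} (hb : ColGen b)
    (k : Type*) [Field k] :
    LinearIndependent k (fun j => coeffMap (Int.castRingHom k) (b j)) := by
  classical
  obtain ⟨x, hx⟩ := hb
  rw [Fintype.linearIndependent_iff]
  intro g hg j
  have h1 : ∀ n : ℤ, ∑ i, g i * ((b i).coeff n : k) = 0 := by
    intro n
    have h2 := congrArg (fun z => HahnSeries.coeff z n) hg
    simp only [HahnSeries.coeff_sum, HahnSeries.coeff_zero] at h2
    rw [← h2]
    refine Finset.sum_congr rfl fun i _ => ?_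
    rw [coeff_smul', coeffMap_coeff]
    rfl
  have h3 : ((x j).sum fun n c => (c : k) * ∑ i, g i * ((b i).coeff n : k)) = g j := by
    have h4 : ((x j).sum fun n c => (c : k) * ∑ i, g i * ((b i).coeff n : k)) =
        ∑ i, g i * (((x j).sum fun n c => c * (b i).coeff n : ℤ) : k) := by
      simp only [Finsupp.sum, Finset.mul_sum, Int.cast_sum, Int.cast_mul]
      rw [Finset.sum_comm]
      refine Finset.sum_congr rfl fun i _ => Finset.sum_congr rfl fun n _ => ?_
      ring
    rw [h4]
    simp only [hx]
    rw [Finset.sum_eq_single j]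
    · simp
    · intro i _ hij
      rw [if_neg hij]; simp
    · intro h; exact absurd (Finset.mem_univ j) h
  rw [← h3]
  simp only [h1, mul_zero, Finsupp.sum, Finset.sum_const_zero]

theorem exists_lower_bound (f : LaurentSeries ℤ) : ∃ n₀ : ℤ, ∀ n < n₀, f.coeff n = 0 := by
  by_cases hf : f = 0
  · exact ⟨0, fun n _ => by rw [hf]; rfl⟩
  · exact ⟨f.order, fun n hn => HahnSeries.coeff_eq_zero_of_lt_order hn⟩

/-- Every finite family of integral Laurent series lies in the `ℤ`-span of a family whose
reductions are linearly independent over every field. -/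
theorem exists_colGen {s : ℕ} (M : Fin s → LaurentSeries ℤ) :
    ∃ (r : ℕ) (b : Fin r → LaurentSeries ℤ), ColGen b ∧
      ∀ i, ∃ d : Fin r → ℤ, M i = ∑ j, HahnSeries.single (0 : ℤ) (d j) * b j := by
  classical
  let c : ℤ → (Fin s → ℤ) := fun n i => (M i).coeff n
  let C : Submodule ℤ (Fin s → ℤ) := Submodule.span ℤ (Set.range c)
  let bas : Module.Basis (Fin (Module.finrank ℤ C)) ℤ C := Module.finBasis ℤ C
  have hcC : ∀ n, c n ∈ C := fun n => Submodule.subset_span ⟨n, rfl⟩
  -- lower bound
  obtain ⟨n₀, hn₀⟩ : ∃ n₀ : ℤ, ∀ n < n₀, c n = 0 := by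
    choose m hm using fun i => exists_lower_bound (M i)
    by_cases hs : Nonempty (Fin s)
    · refine ⟨Finset.univ.inf' (Finset.univ_nonempty_iff.mpr hs) m, fun n hn => ?_⟩
      funext i
      exact hm i n (lt_of_lt_of_le hn (Finset.inf'_le _ (Finset.mem_univ i)))
    · exact ⟨0, fun n _ => funext fun i => absurd ⟨i⟩ hs⟩
  let co : Fin (Module.finrank ℤ C) → ℤ → ℤ := fun j n => bas.repr ⟨c n, hcC n⟩ j
  have hco : ∀ j, ∀ n < n₀, co j n = 0 := by
    intro j n hn
    have : (⟨c n, hcC n⟩ : C) = 0 := Subtype.ext (hn₀ n hn)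
    simp only [co, this, map_zero, Finsupp.coe_zero, Pi.zero_apply]
  have hbdd : ∀ j, BddBelow (Function.support (co j)) := fun j =>
    ⟨n₀, fun n hn => by
      by_contra h
      exact hn (hco j n (not_le.mp h))⟩
  let b : Fin (Module.finrank ℤ C) → LaurentSeries ℤ := fun j =>
    HahnSeries.ofSuppBddBelow (co j) (hbdd j)
  have hb : ∀ j n, (b j).coeff n = co j n := fun j n => by
    simp only [b, HahnSeries.coeff_ofSuppBddBelow]
  refine ⟨_, b, ?_, fun i => ⟨fun j => (bas j : Fin s → ℤ) i, ?_⟩⟩
  · have hex : ∀ j, ∃ x : ℤ →₀ ℤ, (x.sum fun n a => a • c n) = (bas j : Fin s → ℤ) := fun j =>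
      (Finsupp.mem_span_range_iff_exists_finsupp).mp (bas j).2
    choose x hx using hex
    refine ⟨x, fun i j => ?_⟩
    have h1 : ((x j).sum fun n a => a • (⟨c n, hcC n⟩ : C)) = bas j := by
      apply Subtype.ext
      rw [← hx j, Finsupp.sum, Finsupp.sum, AddSubmonoidClass.coe_finsetSum]
      rfl
    have h2 := congrArg (fun z => bas.repr z i) h1
    simp only [Module.Basis.repr_self, Finsupp.single_apply] at h2
    rw [Finsupp.sum, map_sum, Finsupp.finsetSum_apply] at h2
    simp only [map_smul, Finsupp.smul_apply, smul_eq_mul] at h2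
    rw [Finsupp.sum]
    simp only [hb]
    rw [h2]
    simp only [eq_comm]
  · ext n
    rw [HahnSeries.coeff_sum]
    simp only [HahnSeries.coeff_single_mul, sub_zero, hb]
    have h1 := congrArg (fun z : C => (z : Fin s → ℤ) i) (bas.sum_repr ⟨c n, hcC n⟩)
    simp only at h1
    rw [AddSubmonoidClass.coe_finsetSum, Finset.sum_apply] at h1
    have h2 : (M i).coeff n = c n i := rfl
    rw [h2, ← h1]
    refine Finset.sum_congr rfl fun j _ => ?_
    rw [mul_comm]
    rfl

end Lattice

section Semilinear

variable {L : Type*} [Field L] {A : ValuationSubring L} {k : Type*} [Field k] {π : A →+* k}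

/-- Gaussian elimination over a valuation ring, for abstract lattices. -/
theorem exists_basis_semilinear {E Ek Λ : Type*} [AddCommGroup E] [Module L E]
    [AddCommGroup Ek] [Module k Ek] [AddCommGroup Λ] [Module A Λ]
    (inc : Λ →+ E) (red : Λ →+ Ek) (hinc : ∀ (a : A) (x : Λ), inc (a • x) = (a : L) • inc x)
    (hred : ∀ (a : A) (x : Λ), red (a • x) = π a • red x)
    {ι : Type*} [Fintype ι] (u : ι → Λ) (hu : LinearIndependent k (fun i => red (u i)))
    (W : Submodule L E) (hW : W ≤ Submodule.span L (Set.range fun i => inc (u i))) :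
    ∃ (d : ℕ) (w : Fin d → Λ), Submodule.span L (Set.range fun i => inc (w i)) = W ∧
      LinearIndependent k (fun i => red (w i)) := by
  classical
  let Φ : (ι → L) →ₗ[L] E := Fintype.linearCombination L (fun i => inc (u i))
  have hΦ : LinearMap.range Φ = Submodule.span L (Set.range fun i => inc (u i)) :=
    Fintype.range_linearCombination L _
  obtain ⟨d, w, p, hspan, hp⟩ := exists_lattice_basis A (W.comap Φ)
  refine ⟨d, fun i => ∑ j, w i j • u j, ?_, ?_⟩
  · have h1 : (fun i => inc (∑ j, w i j • u j)) =
        fun i => Φ (fun j => (w i j : L)) := by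
      funext i
      simp only [Φ, Fintype.linearCombination_apply, map_sum, hinc]
    rw [h1]
    have h2 : Set.range (fun i => Φ (fun j => (w i j : L))) =
        Φ '' (Set.range fun (i : Fin d) (j : ι) => (w i j : L)) := by
      rw [← Set.range_comp]
      rfl
    rw [h2, ← Submodule.map_span, hspan, Submodule.map_comap_eq, hΦ, inf_eq_right]
    exact hW
  · rw [Fintype.linearIndependent_iff]
    intro g hg i
    have h3 : ∑ j, (∑ i, g i * π (w i j)) • red (u j) = 0 := by
      rw [← hg]
      simp only [map_sum, hred, Finset.smul_sum, Finset.sum_smul, mul_smul]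
      rw [Finset.sum_comm]
    have h4 := Fintype.linearIndependent_iff.mp hu _ h3 (p i)
    simpa [hp, apply_ite π] using h4

end Semilinear

section Span

variable (L : Type*) [Field L]

/-- The `L`-span of the integral Laurent series. -/
def intSpan : Submodule L (LaurentSeries L) :=
  Submodule.span L (Set.range (coeffMap (Int.castRingHom L)))

variable {L}

theorem intSpan_mul {x y : LaurentSeries L} (hx : x ∈ intSpan L) (hy : y ∈ intSpan L) :
    x * y ∈ intSpan L := by
  induction hx using Submodule.span_induction with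
  | mem x hx =>
    induction hy using Submodule.span_induction with
    | mem y hy =>
      obtain ⟨a, rfl⟩ := hx
      obtain ⟨b, rfl⟩ := hy
      exact Submodule.subset_span ⟨a * b, map_mul _ _ _⟩
    | zero => rw [mul_zero]; exact Submodule.zero_mem _
    | add y z _ _ hy hz => rw [mul_add]; exact Submodule.add_mem _ hy hz
    | smul c y _ hy =>
      rw [mul_smul_comm]
      exact Submodule.smul_mem _ _ hy
  | zero => rw [zero_mul]; exact Submodule.zero_mem _
  | add x z _ _ hx hz => rw [add_mul]; exact Submodule.add_mem _ hx hz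
  | smul c x _ hx =>
    rw [smul_mul_assoc]
    exact Submodule.smul_mem _ _ hx

theorem one_mem_intSpan : (1 : LaurentSeries L) ∈ intSpan L :=
  Submodule.subset_span ⟨1, map_one _⟩

theorem algebraMap_mem_intSpan (c : L) : algebraMap L (LaurentSeries L) c ∈ intSpan L := by
  rw [Algebra.algebraMap_eq_smul_one]
  exact Submodule.smul_mem _ _ one_mem_intSpan

/-- `intSpan` as a subalgebra. -/
def intAlg (L : Type*) [Field L] : Subalgebra L (LaurentSeries L) where
  carrier := intSpan L
  mul_mem' := intSpan_mul
  add_mem' := fun h1 h2 => Submodule.add_mem _ h1 h2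
  algebraMap_mem' c := algebraMap_mem_intSpan c

theorem mem_intAlg {x : LaurentSeries L} : x ∈ intAlg L ↔ x ∈ intSpan L := Iff.rfl

/-- finitely many elements of `intSpan` lie in the span of a nice family. -/
theorem exists_colGen_span {s : ℕ} (f : Fin s → LaurentSeries L) (hf : ∀ i, f i ∈ intSpan L) :
    ∃ (r : ℕ) (b : Fin r → LaurentSeries ℤ), ColGen b ∧
      ∀ i, f i ∈ Submodule.span L (Set.range fun j => coeffMap (Int.castRingHom L) (b j)) := by
  classical
  -- a finite set of integral series
  have h1 : ∃ T : Finset (LaurentSeries ℤ), ∀ i, f i ∈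
      Submodule.span L ((coeffMap (Int.castRingHom L)) '' (T : Set (LaurentSeries ℤ))) := by
    have h2 : ∀ i, ∃ T : Finset (LaurentSeries ℤ), f i ∈
        Submodule.span L ((coeffMap (Int.castRingHom L)) '' (T : Set (LaurentSeries ℤ))) := by
      intro i
      obtain ⟨t, ht, hft⟩ := Submodule.mem_span_finite_of_mem_span (hf i)
      obtain ⟨T, -, hT⟩ := Finset.subset_set_image_iff.mp
        (show (t : Set (LaurentSeries L)) ⊆ (coeffMap (Int.castRingHom L)) '' Set.univ by
          rw [Set.image_univ]; exact ht)
      refine ⟨T, ?_⟩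
      rw [← hT, Finset.coe_image] at hft
      exact hft
    choose T hT using h2
    refine ⟨Finset.univ.biUnion T, fun i => Submodule.span_mono ?_ (hT i)⟩
    apply Set.image_mono
    intro x hx
    simp only [Finset.coe_biUnion, Set.mem_iUnion]
    exact ⟨i, Finset.mem_univ i, hx⟩
  obtain ⟨T, hT⟩ := h1
  obtain ⟨r, b, hb, hM⟩ := exists_colGen (fun i : Fin T.card => (T.equivFin.symm i : LaurentSeries ℤ))
  refine ⟨r, b, hb, fun i => ?_⟩
  refine (Submodule.span_le.mpr ?_) (hT i)
  rintro _ ⟨x, hx, rfl⟩
  obtain ⟨d, hd⟩ := hM (T.equivFin ⟨x, hx⟩)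
  simp only [Equiv.symm_apply_apply] at hd
  rw [hd, map_sum]
  refine Submodule.sum_mem _ fun j _ => ?_
  rw [map_mul, coeffMap_single, ← algebraMap_laurentSeries_eq_single, ← Algebra.smul_def]
  exact Submodule.smul_mem _ _ (Submodule.subset_span ⟨j, rfl⟩)

end Span

section Pairs

variable {L : Type*} [Field L] (A : ValuationSubring L) {k : Type*} [Field k] (π : A →+* k)

theorem coeffMap_int (b : LaurentSeries ℤ) :
    coeffMap A.subtype (coeffMap (Int.castRingHom A) b) = coeffMap (Int.castRingHom L) b := by
  rw [coeffMap_coeffMap]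
  exact coeffMap_congr (RingHom.ext_int _ _) b

theorem coeffMap_int' (b : LaurentSeries ℤ) :
    coeffMap π (coeffMap (Int.castRingHom A) b) = coeffMap (Int.castRingHom k) b := by
  rw [coeffMap_coeffMap]
  exact coeffMap_congr (RingHom.ext_int _ _) b

theorem coeffMap_smul {R S : Type*} [CommRing R] [CommRing S] (f : R →+* S) (a : R)
    (x : LaurentSeries R) : coeffMap f (a • x) = f a • coeffMap f x := by
  ext n
  simp [coeff_smul']

/-- **Orthonormal bases for pairs.** -/
theorem exists_basis_pairs (W : Submodule L (LaurentSeries L × LaurentSeries L))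
    [FiniteDimensional L W] (hW : ∀ x ∈ W, x.1 ∈ intSpan L ∧ x.2 ∈ intSpan L) :
    ∃ (d : ℕ) (w : Fin d → LaurentSeries A × LaurentSeries A),
      Submodule.span L (Set.range fun i =>
        ((coeffMap A.subtype (w i).1, coeffMap A.subtype (w i).2) :
          LaurentSeries L × LaurentSeries L)) = W ∧
      LinearIndependent k (fun i => ((coeffMap π (w i).1, coeffMap π (w i).2) :
          LaurentSeries k × LaurentSeries k)) := by
  classical
  obtain ⟨s, hs⟩ := (Submodule.fg_iff_finiteDimensional W).mpr inferInstance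
  -- components
  let f : Fin (s.card + s.card) → LaurentSeries L :=
    Fin.append (fun i => (s.equivFin.symm i : LaurentSeries L × LaurentSeries L).1)
      (fun i => (s.equivFin.symm i : LaurentSeries L × LaurentSeries L).2)
  have hsW : ∀ x ∈ s, x ∈ W := fun x hx => by rw [← hs]; exact Submodule.subset_span hx
  have hf : ∀ i, f i ∈ intSpan L := by
    intro i
    refine Fin.addCases (fun i => ?_) (fun i => ?_) i
    · simp only [f, Fin.append_left]
      exact (hW _ (hsW _ (s.equivFin.symm i).2)).1
    · simp only [f, Fin.append_right]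
      exact (hW _ (hsW _ (s.equivFin.symm i).2)).2
  obtain ⟨r, b, hb, hfb⟩ := exists_colGen_span f hf
  let inc : (LaurentSeries A × LaurentSeries A) →+ (LaurentSeries L × LaurentSeries L) :=
    AddMonoidHom.prodMap (coeffMap A.subtype).toAddMonoidHom (coeffMap A.subtype).toAddMonoidHom
  let red : (LaurentSeries A × LaurentSeries A) →+ (LaurentSeries k × LaurentSeries k) :=
    AddMonoidHom.prodMap (coeffMap π).toAddMonoidHom (coeffMap π).toAddMonoidHom
  let u : Fin r ⊕ Fin r → LaurentSeries A × LaurentSeries A :=
    Sum.elim (fun j => (coeffMap (Int.castRingHom A) (b j), 0))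
      (fun j => (0, coeffMap (Int.castRingHom A) (b j)))
  have hu : LinearIndependent k (fun i => red (u i)) := by
    have h1 := hb.linearIndependent k
    have h2 : (fun i => red (u i)) = Sum.elim
        (fun j => (LinearMap.inl k (LaurentSeries k) (LaurentSeries k))
          (coeffMap (Int.castRingHom k) (b j)))
        (fun j => (LinearMap.inr k (LaurentSeries k) (LaurentSeries k))
          (coeffMap (Int.castRingHom k) (b j))) := by
      funext i
      rcases i with j | j
      · show (coeffMap π (coeffMap (Int.castRingHom A) (b j)), coeffMap π 0) = _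
        rw [coeffMap_int', map_zero]; rfl
      · show (coeffMap π 0, coeffMap π (coeffMap (Int.castRingHom A) (b j))) = _
        rw [coeffMap_int', map_zero]; rfl
    rw [h2]
    rw [linearIndependent_sum]
    refine ⟨?_, ?_, ?_⟩
    · exact h1.map' _ (LinearMap.ker_eq_bot.mpr LinearMap.inl_injective)
    · exact h1.map' _ (LinearMap.ker_eq_bot.mpr LinearMap.inr_injective)
    · have h3 : ∀ (s : Set (LaurentSeries k × LaurentSeries k)) (p : Submodule k _),
          s ⊆ p → Submodule.span k s ≤ p := fun s p => Submodule.span_le.mpr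
      refine Disjoint.mono (h3 _ (LinearMap.range (LinearMap.inl k (LaurentSeries k)
        (LaurentSeries k))) ?_) (h3 _ (LinearMap.range (LinearMap.inr k (LaurentSeries k)
        (LaurentSeries k))) ?_) (LinearMap.isCompl_range_inl_inr).disjoint
      · rintro _ ⟨j, rfl⟩; exact ⟨_, rfl⟩
      · rintro _ ⟨j, rfl⟩; exact ⟨_, rfl⟩
  refine exists_basis_semilinear (A := A) (π := π) inc red ?_ ?_ u hu W ?_
  · intro a x
    refine Prod.ext ?_ ?_
    · exact coeffMap_smul A.subtype a x.1
    · exact coeffMap_smul A.subtype a x.2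
  · intro a x
    refine Prod.ext ?_ ?_
    · exact coeffMap_smul π a x.1
    · exact coeffMap_smul π a x.2
  · rw [← hs, Submodule.span_le]
    intro x hx
    set P := Submodule.span L (Set.range fun i => inc (u i)) with hP
    have h1 : ∀ y ∈ Submodule.span L (Set.range fun j => coeffMap (Int.castRingHom L) (b j)),
        ((y, 0) : LaurentSeries L × LaurentSeries L) ∈ P := by
      intro y hy
      have h2 : Submodule.span L (Set.range fun j => coeffMap (Int.castRingHom L) (b j)) ≤
          P.comap (LinearMap.inl L _ _) := by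
        rw [Submodule.span_le]
        rintro _ ⟨j, rfl⟩
        refine Submodule.subset_span ⟨Sum.inl j, ?_⟩
        show (coeffMap A.subtype (coeffMap (Int.castRingHom A) (b j)), coeffMap A.subtype 0) = _
        rw [coeffMap_int, map_zero]; rfl
      exact h2 hy
    have h1' : ∀ y ∈ Submodule.span L (Set.range fun j => coeffMap (Int.castRingHom L) (b j)),
        ((0, y) : LaurentSeries L × LaurentSeries L) ∈ P := by
      intro y hy
      have h2 : Submodule.span L (Set.range fun j => coeffMap (Int.castRingHom L) (b j)) ≤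
          P.comap (LinearMap.inr L _ _) := by
        rw [Submodule.span_le]
        rintro _ ⟨j, rfl⟩
        refine Submodule.subset_span ⟨Sum.inr j, ?_⟩
        show (coeffMap A.subtype 0, coeffMap A.subtype (coeffMap (Int.castRingHom A) (b j))) = _
        rw [coeffMap_int, map_zero]; rfl
      exact h2 hy
    have hx1 : x.1 ∈ Submodule.span L (Set.range fun j => coeffMap (Int.castRingHom L) (b j)) := by
      have := hfb (Fin.castAdd _ (s.equivFin ⟨x, hx⟩))
      simpa only [f, Fin.append_left, Equiv.symm_apply_apply] using this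
    have hx2 : x.2 ∈ Submodule.span L (Set.range fun j => coeffMap (Int.castRingHom L) (b j)) := by
      have := hfb (Fin.natAdd _ (s.equivFin ⟨x, hx⟩))
      simpa only [f, Fin.append_right, Equiv.symm_apply_apply] using this
    have h3 := P.add_mem (h1 _ hx1) (h1' _ hx2)
    simpa using h3

/-- **Gauss norm is attained.** Every nonzero element of `intSpan` is a constant times an integral
series with nonzero reduction. -/
theorem exists_eq_smul {f : LaurentSeries L} (hf : f ∈ intSpan L) (hf0 : f ≠ 0) :
    ∃ (c : L) (y : LaurentSeries A), c ≠ 0 ∧ coeffMap π y ≠ 0 ∧ f = c • coeffMap A.subtype y := by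
  classical
  obtain ⟨r, b, hb, hfb⟩ := exists_colGen_span (fun _ : Fin 1 => f) (fun _ => hf)
  obtain ⟨g, hg⟩ := (Submodule.mem_span_range_iff_exists_fun L).mp (hfb 0)
  have hne : ∃ i ∈ (Finset.univ : Finset (Fin r)), g i ≠ 0 := by
    by_contra hcon
    push Not at hcon
    apply hf0
    rw [← hg]
    exact Finset.sum_eq_zero fun i hi => by rw [hcon i hi, zero_smul]
  obtain ⟨c, hc, hmem, i₁, -, h1⟩ := exists_scale A Finset.univ g hne
  refine ⟨c, ∑ i, (⟨c⁻¹ * g i, hmem i (Finset.mem_univ _)⟩ : A) •
    coeffMap (Int.castRingHom A) (b i), hc, ?_, ?_⟩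
  · rw [map_sum]
    simp only [coeffMap_smul, coeffMap_int']
    intro h0
    have h2 := Fintype.linearIndependent_iff.mp (hb.linearIndependent k) _ h0 i₁
    have h7 : (⟨c⁻¹ * g i₁, hmem i₁ (Finset.mem_univ _)⟩ : A) = 1 := Subtype.ext h1
    rw [h7, map_one] at h2
    exact one_ne_zero h2
  · rw [map_sum, ← hg, Algebra.smul_def, Finset.mul_sum]
    refine Finset.sum_congr rfl fun i _ => ?_
    rw [coeffMap_smul, coeffMap_int, Algebra.smul_def, Algebra.smul_def, ← mul_assoc, ← map_mul]
    congr 2
    show g i = c * (c⁻¹ * g i)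
    rw [mul_inv_cancel_left₀ hc]

end Pairs

end Fermat.Agent.H34.Two
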