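import Fermat.Agent.H28Jq
import Fermat.Agent.H61Valence
import Fermat.Agent.H42GaussMod
import Fermat.Prelude.Def_ModularCurve_HeckeOperator

/-!
# Atkin–Lehner involutions on modular function fields
-/

set_option autoImplicit false

open Polynomial Module IntermediateField ModularCurve AlgebraicCurve
open scoped IntermediateField.algebraAdjoinAdjoin

namespace Fermat.Agent.H42

section Hom

variable {L E E' : Type*} [Field L] [Field E] [Field E'] [Algebra L E] [Algebra L E']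

/-- An algebra homomorphism between fields generated by `u` and `v`, from equality of algebraic
relations. -/
theorem exists_algHom_of_relations {ι : Type*} (u : ι → E) (v : ι → E')
    (h : ∀ P : MvPolynomial ι L, MvPolynomial.aeval u P = 0 ↔ MvPolynomial.aeval v P = 0) :
    ∃ φ : adjoin L (Set.range u) →ₐ[L] E',
      ∀ i, φ ⟨u i, subset_adjoin L _ ⟨i, rfl⟩⟩ = v i := by
  classical
  let A₀ := Algebra.adjoin L (Set.range u)
  let f₀ : MvPolynomial ι L →ₐ[L] A₀ := (MvPolynomial.aeval u).codRestrict A₀ fun P => by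
    rw [show A₀ = _ from Algebra.adjoin_range_eq_range_aeval L u]
    exact ⟨P, rfl⟩
  have hf₀ : Function.Surjective f₀ := by
    rintro ⟨y, hy⟩
    rw [show A₀ = _ from Algebra.adjoin_range_eq_range_aeval L u] at hy
    obtain ⟨P, rfl⟩ := hy
    exact ⟨P, rfl⟩
  have hker : ∀ P, f₀ P = 0 ↔ MvPolynomial.aeval v P = 0 := fun P => by
    rw [← h P]
    exact ⟨fun h0 => congrArg Subtype.val h0, fun h0 => Subtype.ext h0⟩
  let e := Ideal.quotientKerAlgEquivOfSurjective hf₀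
  let ψ : A₀ →ₐ[L] E' := (Ideal.Quotient.liftₐ (RingHom.ker f₀) (MvPolynomial.aeval v)
    (fun P hP => (hker P).mp hP)).comp e.symm.toAlgHom
  have hψ : ∀ P, ψ (f₀ P) = MvPolynomial.aeval v P := fun P => by
    have h1 : e.symm (f₀ P) = Ideal.Quotient.mk (RingHom.ker f₀) P := by
      rw [AlgEquiv.symm_apply_eq]
      rfl
    change (Ideal.Quotient.liftₐ (RingHom.ker f₀) (MvPolynomial.aeval v)
      (fun P hP => (hker P).mp hP)) (e.symm (f₀ P)) = _
    rw [h1]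
    rfl
  have hinj : Function.Injective ψ := by
    rw [injective_iff_map_eq_zero]
    intro y hy
    obtain ⟨P, rfl⟩ := hf₀ y
    rw [hψ] at hy
    exact (hker P).mpr hy
  refine ⟨IsFractionRing.liftAlgHom (A := A₀) (K := adjoin L (Set.range u)) hinj, fun i => ?_⟩
  have h2 : (⟨u i, subset_adjoin L _ ⟨i, rfl⟩⟩ : adjoin L (Set.range u)) =
      algebraMap A₀ _ (f₀ (MvPolynomial.X i)) := by
    apply Subtype.ext
    change u i = MvPolynomial.aeval u (MvPolynomial.X i)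
    rw [MvPolynomial.aeval_X]
  rw [h2, IsFractionRing.liftAlgHom_apply, IsFractionRing.lift_algebraMap]
  exact (hψ _).trans (by simp)

end Hom

section Arith

/-- The Atkin–Lehner permutation of the divisors of `N * Q` (`N`, `Q` coprime). -/
def swapDiv (N Q m : ℕ) : ℕ := m.gcd N * (Q / m.gcd Q)

variable {N Q : ℕ} (hNQ : N.Coprime Q)

include hNQ in
theorem gcd_mul_gcd {m : ℕ} (hm : m ∣ N * Q) : m.gcd N * m.gcd Q = m := by
  rw [← hNQ.gcd_mul, Nat.gcd_eq_left hm]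

theorem swapDiv_dvd (m : ℕ) : swapDiv N Q m ∣ N * Q :=
  mul_dvd_mul (Nat.gcd_dvd_right _ _) (Nat.div_dvd_of_dvd (Nat.gcd_dvd_right _ _))

include hNQ in
theorem swapDiv_swapDiv (hQ : Q ≠ 0) {m : ℕ} (hm : m ∣ N * Q) :
    swapDiv N Q (swapDiv N Q m) = m := by
  have hdN : m.gcd N ∣ N := Nat.gcd_dvd_right _ _
  have heQ : m.gcd Q ∣ Q := Nat.gcd_dvd_right _ _
  have h1 : (m.gcd N * (Q / m.gcd Q)).gcd N = m.gcd N := by
    have h2 : (Q / m.gcd Q).Coprime N :=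
      (Nat.Coprime.coprime_dvd_left (Nat.div_dvd_of_dvd heQ) hNQ.symm)
    rw [Nat.Coprime.gcd_mul_right_cancel _ h2, Nat.gcd_eq_left hdN]
  have h3 : (m.gcd N * (Q / m.gcd Q)).gcd Q = Q / m.gcd Q := by
    have h2 : (m.gcd N).Coprime Q := Nat.Coprime.coprime_dvd_left hdN hNQ
    rw [Nat.Coprime.gcd_mul_left_cancel _ h2, Nat.gcd_eq_left (Nat.div_dvd_of_dvd heQ)]
  rw [swapDiv, swapDiv, h1, h3, Nat.div_div_self heQ hQ, gcd_mul_gcd hNQ hm]

include hNQ in
theorem swapDiv_of_dvd {m : ℕ} (hm : m ∣ N) : swapDiv N Q m = m * Q := by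
  have h1 : m.gcd Q = 1 := Nat.Coprime.coprime_dvd_left hm hNQ
  rw [swapDiv, h1, Nat.div_one, Nat.gcd_eq_left hm]

include hNQ in
theorem swapDiv_mul (hQ : Q ≠ 0) {m : ℕ} (hm : m ∣ N) : swapDiv N Q (m * Q) = m := by
  rw [← swapDiv_of_dvd hNQ hm, swapDiv_swapDiv hNQ hQ (hm.mul_right Q)]

end Arith

section Analytic

open UpperHalfPlane hiding I
open Fermat.Agent.H28 Fermat.Agent.H61 MatrixGroups

local notation "𝕢" => Function.Periodic.qParam

/-- `m τ`. -/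
def mulPt (m : ℕ) (hm : m ≠ 0) (τ : ℍ) : ℍ :=
  ⟨(m : ℂ) * (τ : ℂ), by
    have h1 := τ.im_pos
    have h2 : (0 : ℝ) < m := by exact_mod_cast Nat.pos_of_ne_zero hm
    simpa using mul_pos h2 h1⟩

theorem coe_mulPt (m : ℕ) (hm : m ≠ 0) (τ : ℍ) : ((mulPt m hm τ : ℍ) : ℂ) = m * τ := rfl

/-- `j(m τ)`. -/
noncomputable def jp (m : ℕ) (τ : ℍ) : ℂ := if h : m = 0 then 0 else jInv (mulPt m h τ)

/-- `j(q^m)`. -/
noncomputable def jd (K : Type*) [CommRing K] (m : ℕ) : LaurentSeries K :=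
  if h : m = 0 then 0 else @qExpand K _ m ⟨h⟩ (jqModC K)

theorem jd_eq (K : Type*) [CommRing K] (m : ℕ) [NeZero m] :
    jd K m = qExpand K m (jqModC K) := by
  rw [jd, dif_neg (NeZero.ne m)]

theorem coeffMap_jd {R S : Type*} [CommRing R] [CommRing S] (f : R →+* S) (m : ℕ) :
    coeffMap f (jd R m) = jd S m := by
  by_cases h : m = 0
  · rw [jd, jd, dif_pos h, dif_pos h, map_zero]
  · have : NeZero m := ⟨h⟩
    rw [jd_eq, jd_eq, coeffMap_qExpand, coeffMap_jqModC]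

theorem lsum_qExpand {a : LaurentSeries ℂ} {m : ℕ} [NeZero m] {q s : ℂ}
    (h : LSum a (q ^ m) s) : LSum (qExpand ℂ m a) q s := by
  have hinj : Function.Injective (fun k : ℤ => (m : ℤ) * k) :=
    mul_right_injective₀ (by exact_mod_cast NeZero.ne m)
  unfold LSum
  rw [← hinj.hasSum_iff]
  · have h' : HasSum (fun n : ℤ => a.coeff n * (q ^ m) ^ n) s := h
    convert h' using 2 with k
    change (qExpand ℂ m a).coeff ((m : ℤ) * k) * q ^ ((m : ℤ) * k) = _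
    rw [qExpand_coeff_mul, zpow_mul, zpow_natCast]
  · intro k hk
    rw [qExpand_coeff_of_not_dvd, zero_mul]
    rintro ⟨c, rfl⟩
    exact hk ⟨c, rfl⟩

theorem hasExp_jp {m : ℕ} (hm : m ≠ 0) : HasExp 1 (jp m) (jd ℂ m) := by
  intro τ
  have : NeZero m := ⟨hm⟩
  rw [jd_eq, jp, dif_neg hm]
  apply lsum_qExpand
  have h1 : 𝕢 1 (τ : ℂ) ^ m = 𝕢 1 ((mulPt m hm τ : ℍ) : ℂ) := by
    rw [coe_mulPt, Function.Periodic.qParam, Function.Periodic.qParam, ← Complex.exp_nat_mul]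
    congr 1
    push_cast
    ring
  rw [h1]
  exact hasExp_jqModC (mulPt m hm τ)

theorem hasExp_aeval {ι : Type*} (m : ι → ℕ) (hm : ∀ i, m i ≠ 0) (P : MvPolynomial ι ℂ) :
    HasExp 1 (fun τ => MvPolynomial.aeval (fun i => jp (m i) τ) P)
      (MvPolynomial.aeval (fun i => jd ℂ (m i)) P) := by
  induction P using MvPolynomial.induction_on with
  | C a =>
    have h1 := HasExp.const (h := 1) a
    have h2 : (HahnSeries.C a : LaurentSeries ℂ) = algebraMap ℂ (LaurentSeries ℂ) a := by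
      rw [algebraMap_laurentSeries_eq_single]; rfl
    rw [h2] at h1
    simpa using h1
  | add p q hp hq =>
    have h1 : (fun τ => MvPolynomial.aeval (fun i => jp (m i) τ) (p + q)) =
        (fun τ => MvPolynomial.aeval (fun i => jp (m i) τ) p) +
          (fun τ => MvPolynomial.aeval (fun i => jp (m i) τ) q) :=
      funext fun τ => map_add _ _ _
    rw [h1, map_add]
    exact hp.add hq
  | mul_X p i hp =>
    simp only [map_mul, MvPolynomial.aeval_X]
    exact hp.mul (hasExp_jp (hm i))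

theorem aeval_eq_zero_iff {ι : Type*} (m : ι → ℕ) (hm : ∀ i, m i ≠ 0) (P : MvPolynomial ι ℂ) :
    MvPolynomial.aeval (fun i => jd ℂ (m i)) P = 0 ↔
      ∀ τ : ℍ, MvPolynomial.aeval (fun i => jp (m i) τ) P = 0 := by
  have h := hasExp_aeval m hm P
  constructor
  · intro h0 τ
    rw [h0] at h
    exact congrFun (h.fun_eq HasExp.zero) τ
  · intro h0
    have h1 : (fun τ => MvPolynomial.aeval (fun i => jp (m i) τ) P) = (0 : ℍ → ℂ) := funext h0
    rw [h1] at h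
    exact HasExp.eq_zero_of_zero one_pos h

theorem exists_swapPt {N Q : ℕ} (hN : N ≠ 0) (hQ : Q ≠ 0) (hNQ : N.Coprime Q) :
    ∃ W : ℍ → ℍ, ∀ m, m ∣ N * Q → ∀ τ, jp m (W τ) = jp (swapDiv N Q m) τ := by
  obtain ⟨x, z, hxz⟩ : ∃ x z : ℤ, (Q : ℤ) * x - N * z = 1 := by
    have h1 : IsCoprime (Q : ℤ) N := Nat.isCoprime_iff_coprime.mpr hNQ.symm
    obtain ⟨a, b, h⟩ := h1
    exact ⟨a, -b, by linarith⟩
  -- matrix `[[x, 1], [N z, Q]]`
  let γ₁ : SL(2, ℤ) := ⟨!![x, 1; N * z, Q], by rw [Matrix.det_fin_two_of]; linarith⟩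
  refine ⟨fun τ => γ₁ • mulPt Q hQ τ, fun m hm τ => ?_⟩
  obtain ⟨d, hd⟩ : ∃ d, d = m.gcd N := ⟨_, rfl⟩
  obtain ⟨e, he⟩ : ∃ e, e = m.gcd Q := ⟨_, rfl⟩
  have hmde : m = d * e := by rw [hd, he]; exact (gcd_mul_gcd hNQ hm).symm
  obtain ⟨N', hN'⟩ : d ∣ N := hd ▸ Nat.gcd_dvd_right _ _
  obtain ⟨Q', hQ'⟩ : e ∣ Q := he ▸ Nat.gcd_dvd_right _ _
  have he0 : e ≠ 0 := by rintro rfl; exact hQ (by rw [hQ', zero_mul])
  have hd0 : d ≠ 0 := by rintro rfl; exact hN (by rw [hN', zero_mul])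
  have hQ'0 : Q' ≠ 0 := by rintro rfl; exact hQ (by rw [hQ', mul_zero])
  have hs : swapDiv N Q m = d * Q' := by
    rw [swapDiv, ← hd, ← he]
    congr 1
    rw [hQ', Nat.mul_div_cancel_left _ (Nat.pos_of_ne_zero he0)]
  have hm0 : m ≠ 0 := by rw [hmde]; exact mul_ne_zero hd0 he0
  have hs0 : swapDiv N Q m ≠ 0 := by rw [hs]; exact mul_ne_zero hd0 hQ'0
  rw [jp, jp, dif_neg hm0, dif_neg hs0]
  have hNz : (N : ℤ) = d * N' := by exact_mod_cast hN'
  have hQz : (Q : ℤ) = e * Q' := by exact_mod_cast hQ'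
  let γ : SL(2, ℤ) := ⟨!![(e : ℤ) * x, d; N' * z, Q'], by
    rw [Matrix.det_fin_two_of]
    rw [hNz, hQz] at hxz
    linarith⟩
  rw [← jInv_smul γ (mulPt (swapDiv N Q m) hs0 τ)]
  congr 1
  apply UpperHalfPlane.ext
  rw [coe_mulPt, UpperHalfPlane.coe_specialLinearGroup_apply,
    UpperHalfPlane.coe_specialLinearGroup_apply, coe_mulPt, coe_mulPt, hs]
  have e1 : ((γ₁ 0 0 : ℤ)) = x := rfl
  have e2 : ((γ₁ 0 1 : ℤ)) = 1 := rfl
  have e3 : ((γ₁ 1 0 : ℤ)) = N * z := rfl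
  have e4 : ((γ₁ 1 1 : ℤ)) = Q := rfl
  have f1 : ((γ 0 0 : ℤ)) = e * x := rfl
  have f2 : ((γ 0 1 : ℤ)) = d := rfl
  have f3 : ((γ 1 0 : ℤ)) = N' * z := rfl
  have f4 : ((γ 1 1 : ℤ)) = Q' := rfl
  rw [e1, e2, e3, e4, f1, f2, f3, f4]
  have hD : ((N : ℂ) * z * τ + 1) ≠ 0 := by
    have h1 := UpperHalfPlane.linear_ne_zero (cd := ![(N : ℝ) * z, 1]) τ (by
      intro h0
      have := congrFun h0 1
      simp at this)
    simpa using h1
  have hmc : (m : ℂ) = d * e := by exact_mod_cast congrArg (Nat.cast (R := ℂ)) hmde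
  have hNc : (N : ℂ) = d * N' := by exact_mod_cast congrArg (Nat.cast (R := ℂ)) hN'
  have hQc : (Q : ℂ) = e * Q' := by exact_mod_cast congrArg (Nat.cast (R := ℂ)) hQ'
  have he0' : (e : ℂ) ≠ 0 := by exact_mod_cast he0
  have hQ'0' : (Q' : ℂ) ≠ 0 := by exact_mod_cast hQ'0
  have hD1 : ((N : ℂ) * z * (Q * τ) + Q) = e * Q' * ((N : ℂ) * z * τ + 1) := by
    rw [hQc]; ring
  have hD2 : ((N' : ℂ) * z * (d * Q' * τ) + Q') = Q' * ((N : ℂ) * z * τ + 1) := by
    rw [hNc]; ring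
  have key : (m : ℂ) * ((x * (Q * τ) + 1) / ((N : ℂ) * z * (Q * τ) + Q)) =
      (e * x * (d * Q' * τ) + d) / ((N' : ℂ) * z * (d * Q' * τ) + Q') := by
    rw [hD1, hD2, hmc, hQc]
    field_simp
  convert key using 2 <;> push_cast <;> simp

theorem relations_complex {N Q : ℕ} (hN : N ≠ 0) (hQ : Q ≠ 0) (hNQ : N.Coprime Q)
    (P : MvPolynomial {m // m ∣ N * Q} ℂ)
    (h : MvPolynomial.aeval (fun m : {m // m ∣ N * Q} => jd ℂ (m : ℕ)) P = 0) :
    MvPolynomial.aeval (fun m : {m // m ∣ N * Q} => jd ℂ (swapDiv N Q m)) P = 0 := by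
  have hNQ0 : N * Q ≠ 0 := mul_ne_zero hN hQ
  have hm0 : ∀ m : {m // m ∣ N * Q}, (m : ℕ) ≠ 0 := fun m h0 =>
    hNQ0 (zero_dvd_iff.mp (h0 ▸ m.2))
  have hs0 : ∀ m : {m // m ∣ N * Q}, swapDiv N Q m ≠ 0 := fun m h0 =>
    hNQ0 (zero_dvd_iff.mp (h0 ▸ swapDiv_dvd (m : ℕ)))
  obtain ⟨W, hW⟩ := exists_swapPt hN hQ hNQ
  rw [aeval_eq_zero_iff (fun m : {m // m ∣ N * Q} => (m : ℕ)) hm0] at h
  rw [aeval_eq_zero_iff (fun m : {m // m ∣ N * Q} => swapDiv N Q m) hs0]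
  intro τ
  have h1 := h (W τ)
  have h2 : (fun m : {m // m ∣ N * Q} => jp (m : ℕ) (W τ)) =
      fun m : {m // m ∣ N * Q} => jp (swapDiv N Q m) τ := funext fun m => hW m m.2 τ
  rwa [h2] at h1

end Analytic

section Descent

variable {L : Type*} [Field L]

theorem coeffMap_aeval {R S : Type*} [Field R] [Field S] (f : R →+* S) {ι : Type*} (m : ι → ℕ)
    (P : MvPolynomial ι R) :
    coeffMap f (MvPolynomial.aeval (fun i => jd R (m i)) P) =
      MvPolynomial.aeval (fun i => jd S (m i)) (MvPolynomial.map f P) := by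
  induction P using MvPolynomial.induction_on with
  | C a =>
    simp only [MvPolynomial.algHom_C, MvPolynomial.map_C]
    rw [algebraMap_laurentSeries_eq_single, coeffMap_single, algebraMap_laurentSeries_eq_single]
  | add p q hp hq => rw [map_add, map_add, map_add, map_add, hp, hq]
  | mul_X p i hp =>
    rw [map_mul, map_mul, map_mul, map_mul, hp, MvPolynomial.aeval_X, MvPolynomial.map_X,
      MvPolynomial.aeval_X, coeffMap_jd]

/-- The algebraic relations between the `j(q^m)`, `m ∣ N Q`, are preserved by the Atkin–Lehner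
permutation, over every field which embeds in `ℂ`. -/
theorem relations_of_embedding (f : L →+* ℂ) {N Q : ℕ} (hN : N ≠ 0) (hQ : Q ≠ 0)
    (hNQ : N.Coprime Q) (P : MvPolynomial {m // m ∣ N * Q} L)
    (h : MvPolynomial.aeval (fun m : {m // m ∣ N * Q} => jd L (m : ℕ)) P = 0) :
    MvPolynomial.aeval (fun m : {m // m ∣ N * Q} => jd L (swapDiv N Q m)) P = 0 := by
  apply coeffMap_injective f.injective
  rw [coeffMap_aeval f (fun m : {m // m ∣ N * Q} => swapDiv N Q m), map_zero]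
  apply relations_complex hN hQ hNQ
  rw [← coeffMap_aeval f (fun m : {m // m ∣ N * Q} => (m : ℕ)), h, map_zero]

theorem relations_iff (f : L →+* ℂ) {N Q : ℕ} (hN : N ≠ 0) (hQ : Q ≠ 0)
    (hNQ : N.Coprime Q) (P : MvPolynomial {m // m ∣ N * Q} L) :
    MvPolynomial.aeval (fun m : {m // m ∣ N * Q} => jd L (m : ℕ)) P = 0 ↔
    MvPolynomial.aeval (fun m : {m // m ∣ N * Q} => jd L (swapDiv N Q m)) P = 0 := by
  refine ⟨relations_of_embedding f hN hQ hNQ P, fun h => ?_⟩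
  let s : {m // m ∣ N * Q} → {m // m ∣ N * Q} := fun m => ⟨swapDiv N Q m, swapDiv_dvd _⟩
  have h1 := relations_of_embedding f hN hQ hNQ (MvPolynomial.rename s P) (by
    rw [MvPolynomial.aeval_rename]
    exact h)
  rw [MvPolynomial.aeval_rename] at h1
  have h2 : ((fun m : {m // m ∣ N * Q} => jd L (swapDiv N Q m)) ∘ s) =
      fun m : {m // m ∣ N * Q} => jd L (m : ℕ) := by
    funext m
    change jd L (swapDiv N Q (swapDiv N Q m)) = _
    rw [swapDiv_swapDiv hNQ hQ m.2]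
  rwa [h2] at h1

theorem range_jd {M : ℕ} (hM : M ≠ 0) :
    Set.range (fun m : {m // m ∣ M} => jd L (m : ℕ)) = divisorExpansionsC L M := by
  ext y
  constructor
  · rintro ⟨m, rfl⟩
    have h0 : (m : ℕ) ≠ 0 := fun h0 => hM (zero_dvd_iff.mp (h0 ▸ m.2))
    have : NeZero (m : ℕ) := ⟨h0⟩
    exact ⟨m, this, m.2, jd_eq L m⟩
  · rintro ⟨d, hd, hdvd, rfl⟩
    exact ⟨⟨d, hdvd⟩, jd_eq L d⟩

theorem jd_mem_full {M m : ℕ} (hM : M ≠ 0) (hm : m ∣ M) :
    jd L m ∈ modularFunctionFieldFullC L M := by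
  have h0 : m ≠ 0 := fun h0 => hM (zero_dvd_iff.mp (h0 ▸ hm))
  have : NeZero m := ⟨h0⟩
  rw [jd_eq]
  exact jqModCd_mem_full L M hm

/-- The Atkin–Lehner embedding `F_{NQ} → L((q))`. -/
theorem exists_swap (f : L →+* ℂ) {N Q : ℕ} (hN : N ≠ 0) (hQ : Q ≠ 0) (hNQ : N.Coprime Q) :
    ∃ φ : modularFunctionFieldFullC L (N * Q) →ₐ[L] LaurentSeries L,
      ∀ (m : ℕ) (hm : m ∣ N * Q),
        φ ⟨jd L m, jd_mem_full (mul_ne_zero hN hQ) hm⟩ = jd L (swapDiv N Q m) := by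
  obtain ⟨φ, hφ⟩ := exists_algHom_of_relations
    (fun m : {m // m ∣ N * Q} => jd L (m : ℕ)) (fun m : {m // m ∣ N * Q} => jd L (swapDiv N Q m))
    (relations_iff f hN hQ hNQ)
  have h1 : modularFunctionFieldFullC L (N * Q) =
      adjoin L (Set.range (fun m : {m // m ∣ N * Q} => jd L (m : ℕ))) := by
    rw [range_jd (mul_ne_zero hN hQ)]
    rfl
  refine ⟨φ.comp (IntermediateField.equivOfEq h1).toAlgHom, fun m hm => ?_⟩
  exact hφ ⟨m, hm⟩

/-- Two `L`-algebra homomorphisms out of the modular function field which agree on all `j(q^m)`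
are equal. -/
theorem full_algHom_ext {M : ℕ} (hM : M ≠ 0) {K : Type*} [Field K] [Algebra L K]
    {φ₁ φ₂ : modularFunctionFieldFullC L M →ₐ[L] K}
    (h : ∀ (m : ℕ) (hm : m ∣ M), φ₁ ⟨jd L m, jd_mem_full hM hm⟩ =
      φ₂ ⟨jd L m, jd_mem_full hM hm⟩) : φ₁ = φ₂ := by
  refine algHom_ext_of_eq_adjoin L (s := divisorExpansionsC L M) (hS := rfl) fun x hx => ?_
  have hx' := hx
  rw [← range_jd hM] at hx'
  obtain ⟨⟨m, hm⟩, rfl⟩ := hx'
  exact h m hm

/-- The Atkin–Lehner automorphism of `F_{NQ}`. -/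
theorem exists_swapEquiv (f : L →+* ℂ) {N Q : ℕ} (hN : N ≠ 0) (hQ : Q ≠ 0) (hNQ : N.Coprime Q) :
    ∃ W : modularFunctionFieldFullC L (N * Q) ≃ₐ[L] modularFunctionFieldFullC L (N * Q),
      (∀ (m : ℕ) (hm : m ∣ N * Q),
        W ⟨jd L m, jd_mem_full (mul_ne_zero hN hQ) hm⟩ =
          ⟨jd L (swapDiv N Q m), jd_mem_full (mul_ne_zero hN hQ) (swapDiv_dvd m)⟩) ∧
      ∀ x, W (W x) = x := by
  have hM := mul_ne_zero hN hQ
  obtain ⟨φ, hφ⟩ := exists_swap f hN hQ hNQ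
  have hmem : ∀ x, φ x ∈ modularFunctionFieldFullC L (N * Q) := by
    intro x
    have h1 : φ.fieldRange ≤ modularFunctionFieldFullC L (N * Q) := by
      rw [AlgHom.fieldRange_eq_map]
      have h2 : (⊤ : IntermediateField L (modularFunctionFieldFullC L (N * Q))) =
          adjoin L ((fun m : {m // m ∣ N * Q} =>
            (⟨jd L (m : ℕ), jd_mem_full hM m.2⟩ : modularFunctionFieldFullC L (N * Q))) ''
              Set.univ) := by
        apply IntermediateField.map_injective (modularFunctionFieldFullC L (N * Q)).val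
        rw [adjoin_map, ← AlgHom.fieldRange_eq_map, fieldRange_val, Set.image_image,
          Set.image_univ]
        change modularFunctionFieldFullC L (N * Q) =
          adjoin L (Set.range (fun m : {m // m ∣ N * Q} => jd L (m : ℕ)))
        rw [range_jd hM]
        rfl
      rw [h2, adjoin_map, adjoin_le_iff]
      rintro _ ⟨_, ⟨m, -, rfl⟩, rfl⟩
      change φ ⟨jd L (m : ℕ), jd_mem_full hM m.2⟩ ∈ _
      rw [hφ _ m.2]
      exact jd_mem_full hM (swapDiv_dvd _)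
    exact h1 ⟨x, rfl⟩
  let W₀ : modularFunctionFieldFullC L (N * Q) →ₐ[L] modularFunctionFieldFullC L (N * Q) :=
    φ.codRestrict (modularFunctionFieldFullC L (N * Q)).toSubalgebra hmem
  have hW₀ : ∀ (m : ℕ) (hm : m ∣ N * Q), W₀ ⟨jd L m, jd_mem_full hM hm⟩ =
      ⟨jd L (swapDiv N Q m), jd_mem_full hM (swapDiv_dvd m)⟩ := fun m hm =>
    Subtype.ext (hφ m hm)
  have hinv : W₀.comp W₀ = AlgHom.id L _ := by
    apply full_algHom_ext hM
    intro m hm
    rw [AlgHom.comp_apply, hW₀ m hm, hW₀ _ (swapDiv_dvd m)]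
    apply Subtype.ext
    change jd L (swapDiv N Q (swapDiv N Q m)) = jd L m
    rw [swapDiv_swapDiv hNQ hQ hm]
  refine ⟨AlgEquiv.ofAlgHom W₀ W₀ hinv hinv, hW₀, fun x => AlgHom.congr_fun hinv x⟩

end Descent

section Hecke

variable {L : Type*} [Field L] [Algebra ℚ L]

theorem jd_mem_bar {M m : ℕ} (hM : M ≠ 0) (hm : m ∣ M) :
    jd L m ∈ laurentBaseChange L (modularFunctionFieldFull M) := by
  rw [laurentBaseChange_full]
  exact jd_mem_full hM hm

theorem bar_algHom_ext {M : ℕ} (hM : M ≠ 0) {K : Type*} [Field K] [Algebra L K]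
    {φ₁ φ₂ : laurentBaseChange L (modularFunctionFieldFull M) →ₐ[L] K}
    (h : ∀ (m : ℕ) (hm : m ∣ M), φ₁ ⟨jd L m, jd_mem_bar hM hm⟩ =
      φ₂ ⟨jd L m, jd_mem_bar hM hm⟩) : φ₁ = φ₂ := by
  refine algHom_ext_of_eq_adjoin L (s := divisorExpansionsC L M)
    (hS := laurentBaseChange_full L M) fun x hx => ?_
  have hx' := hx
  rw [← range_jd hM] at hx'
  obtain ⟨⟨m, hm⟩, rfl⟩ := hx'
  exact h m hm

omit [Algebra ℚ L] in
theorem qExpand_jd {m ℓ : ℕ} [NeZero ℓ] (hm : m ≠ 0) : qExpand L ℓ (jd L m) = jd L (m * ℓ) := by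
  have : NeZero m := ⟨hm⟩
  rw [jd_eq, qExpand_qExpand, jd, dif_neg (mul_ne_zero hm (NeZero.ne ℓ))]
  have : NeZero (m * ℓ) := ⟨mul_ne_zero hm (NeZero.ne ℓ)⟩
  exact qExpand_congr (mul_comm ℓ m) _

/-- The Atkin–Lehner automorphism of `F_{Nℓ}` exchanging the two degeneracy maps. -/
theorem exists_atkinLehner (f : L →+* ℂ) {N ℓ : ℕ} [NeZero N] [NeZero ℓ] (hNl : N.Coprime ℓ) :
    ∃ W : laurentBaseChange L (modularFunctionFieldFull (N * ℓ)) ≃ₐ[L]
        laurentBaseChange L (modularFunctionFieldFull (N * ℓ)),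
      (∀ x, W (W x) = x) ∧
      (∀ x, W (heckeAlphaBar L N ℓ x) = heckeBetaBar L N ℓ x) ∧
      (∀ x, W (heckeBetaBar L N ℓ x) = heckeAlphaBar L N ℓ x) ∧
      (∀ (m : ℕ) (hm : m ∣ N * ℓ),
        W ⟨jd L m, jd_mem_bar (mul_ne_zero (NeZero.ne N) (NeZero.ne ℓ)) hm⟩ =
          ⟨jd L (swapDiv N ℓ m),
            jd_mem_bar (mul_ne_zero (NeZero.ne N) (NeZero.ne ℓ)) (swapDiv_dvd m)⟩) := by
  have hN := NeZero.ne N
  have hℓ := NeZero.ne ℓ
  have hM := mul_ne_zero hN hℓ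
  obtain ⟨W, hW, hWW⟩ := exists_swapEquiv f hN hℓ hNl
  let e := IntermediateField.equivOfEq (laurentBaseChange_full L (N * ℓ))
  let W' : laurentBaseChange L (modularFunctionFieldFull (N * ℓ)) ≃ₐ[L]
        laurentBaseChange L (modularFunctionFieldFull (N * ℓ)) := (e.trans W).trans e.symm
  have hW' : ∀ (m : ℕ) (hm : m ∣ N * ℓ), W' ⟨jd L m, jd_mem_bar hM hm⟩ =
      ⟨jd L (swapDiv N ℓ m), jd_mem_bar hM (swapDiv_dvd m)⟩ := by
    intro m hm
    change e.symm (W (e ⟨jd L m, jd_mem_bar hM hm⟩)) = _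
    have h1 : e ⟨jd L m, jd_mem_bar hM hm⟩ = ⟨jd L m, jd_mem_full hM hm⟩ := rfl
    rw [h1, hW m hm]
    rfl
  have hWW' : ∀ x, W' (W' x) = x := by
    intro x
    change e.symm (W (e (e.symm (W (e x))))) = x
    rw [AlgEquiv.apply_symm_apply, hWW, AlgEquiv.symm_apply_apply]
  have hα : ∀ x, W' (heckeAlphaBar L N ℓ x) = heckeBetaBar L N ℓ x := by
    have h1 : (W'.toAlgHom.comp (heckeAlphaBar L N ℓ)) = heckeBetaBar L N ℓ := by
      apply bar_algHom_ext hN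
      intro m hm
      have h2 : heckeAlphaBar L N ℓ ⟨jd L m, jd_mem_bar hN hm⟩ =
          ⟨jd L m, jd_mem_bar hM (hm.mul_right ℓ)⟩ := Subtype.ext (coe_heckeAlphaBar N ℓ _)
      change W' (heckeAlphaBar L N ℓ ⟨jd L m, jd_mem_bar hN hm⟩) = _
      rw [h2, hW' m (hm.mul_right ℓ)]
      apply Subtype.ext
      rw [coe_heckeBetaBar]
      change jd L (swapDiv N ℓ m) = qExpand L ℓ (jd L m)
      rw [swapDiv_of_dvd hNl hm, qExpand_jd]
      rintro rfl
      exact hN (zero_dvd_iff.mp hm)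
    exact fun x => AlgHom.congr_fun h1 x
  refine ⟨W', hWW', hα, fun x => ?_, hW'⟩
  rw [← hα, hWW']

end Hecke

end Fermat.Agent.H42
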