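import Mathlib
import Fermat.Agent.H34Two1
import Fermat.Agent.H42Swap

/-!
# The Gauss valuation ring on fields of bounded Laurent series (helper34)
-/

set_option autoImplicit false

noncomputable section

open HahnSeries ModularCurve Fermat.Agent.H42 AlgebraicCurve IntermediateField

namespace Fermat.Agent.H34.Two

attribute [-instance] HahnSeries.instModule HahnSeries.instSMul

theorem smul_smul'' {R : Type*} [CommRing R] (c d : R) (f : LaurentSeries R) :
    c • d • f = (c * d) • f := by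
  ext n
  simp only [coeff_smul', mul_assoc]

theorem one_smul'' {R : Type*} [CommRing R] (f : LaurentSeries R) : (1 : R) • f = f := by
  ext n
  simp only [coeff_smul', one_mul]

section Loc

variable {L : Type*} [Field L] (A : ValuationSubring L) {k : Type*} [Field k] (π : A →+* k)

/-- The local ring of Laurent series `y / z`, `y z ∈ A((q))`, `z̄ ≠ 0`. -/
def locL : Subring (LaurentSeries L) := (laurentRed A π).loc

/-- Reduction on `locL`. -/
def resL : locL A π →+* LaurentSeries k := (laurentRed A π).res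

theorem mem_redB (y : LaurentSeries A) : coeffMap A.subtype y ∈ (laurentRed A π).B := ⟨y, rfl⟩

theorem exists_of_mem_redB (b : (laurentRed A π).B) :
    ∃ y : LaurentSeries A, (b : LaurentSeries L) = coeffMap A.subtype y ∧
      (laurentRed A π).ρ b = coeffMap π y := by
  obtain ⟨y, hy⟩ := (b.2 : (b : LaurentSeries L) ∈ (coeffMap A.subtype).range)
  refine ⟨y, hy.symm, ?_⟩
  have h1 : b = ⟨coeffMap A.subtype y, mem_redB A π y⟩ := Subtype.ext hy.symm
  rw [h1]
  exact laurentRed_ρ A π y (mem_redB A π y)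

theorem mem_locL_iff {f : LaurentSeries L} : f ∈ locL A π ↔
    ∃ y z : LaurentSeries A, coeffMap π z ≠ 0 ∧ f * coeffMap A.subtype z = coeffMap A.subtype y := by
  constructor
  · rintro ⟨b, c, hc, h⟩
    obtain ⟨y, hy, hy'⟩ := exists_of_mem_redB A π b
    obtain ⟨z, hz, hz'⟩ := exists_of_mem_redB A π c
    exact ⟨y, z, by rw [← hz']; exact hc, by rw [← hy, ← hz]; exact h⟩
  · rintro ⟨y, z, hz, h⟩
    have hz' : (laurentRed A π).ρ ⟨coeffMap A.subtype z, mem_redB A π z⟩ ≠ 0 :=
      (laurentRed_ρ A π z (mem_redB A π z)).symm ▸ hz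
    exact ⟨⟨coeffMap A.subtype y, mem_redB A π y⟩, ⟨coeffMap A.subtype z, mem_redB A π z⟩, hz', h⟩

theorem resL_mul_eq {f : LaurentSeries L} (hf : f ∈ locL A π) {y z : LaurentSeries A}
    (hz : coeffMap π z ≠ 0) (h : f * coeffMap A.subtype z = coeffMap A.subtype y) :
    resL A π ⟨f, hf⟩ * coeffMap π z = coeffMap π y := by
  have ey := laurentRed_ρ A π y (mem_redB A π y)
  have ez := laurentRed_ρ A π z (mem_redB A π z)
  have h1 := (laurentRed A π).res_mul_eq ⟨f, hf⟩ (y := ⟨coeffMap A.subtype y, mem_redB A π y⟩)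
    (z := ⟨coeffMap A.subtype z, mem_redB A π z⟩) (by rw [ez]; exact hz) h
  rw [ey, ez] at h1
  exact h1

theorem coeffMap_mem_locL (y : LaurentSeries A) : coeffMap A.subtype y ∈ locL A π :=
  (mem_locL_iff A π).mpr ⟨y, 1, by rw [map_one]; exact one_ne_zero, by rw [map_one, mul_one]⟩

theorem resL_coeffMap (y : LaurentSeries A) :
    resL A π ⟨coeffMap A.subtype y, coeffMap_mem_locL A π y⟩ = coeffMap π y := by
  have := resL_mul_eq A π (coeffMap_mem_locL A π y) (y := y) (z := 1)
    (by rw [map_one]; exact one_ne_zero) (by rw [map_one, mul_one])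
  rwa [map_one, mul_one] at this

theorem π_eq_zero_iff' [IsLocalHom π] (a : A) : π a = 0 ↔ ¬ IsUnit a := by
  rw [← not_iff_not, not_not, ← ne_eq, ← isUnit_iff_ne_zero]
  exact isUnit_map_iff π a

theorem inv_mem_of_not_mem' [IsLocalHom π] {c : L} (hc : c ∉ A) :
    ∃ a : A, (a : L) = c⁻¹ ∧ π a = 0 := by
  have h := (A.mem_or_inv_mem c).resolve_left hc
  refine ⟨⟨c⁻¹, h⟩, rfl, ?_⟩
  rw [π_eq_zero_iff']
  intro hu
  obtain ⟨b, hb⟩ := hu.exists_right_inv
  have hb' : c⁻¹ * (b : L) = 1 := congrArg Subtype.val hb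
  have hc0 : c ≠ 0 := fun h => hc (h ▸ A.zero_mem)
  have : (b : L) = c := by field_simp at hb'; exact hb'
  exact hc (this ▸ b.2)

/-- Bounded and integral implies integral coefficients. -/
theorem exists_of_mem_locL [IsLocalHom π] {f : LaurentSeries L} (hf : f ∈ intSpan L)
    (hl : f ∈ locL A π) : ∃ y : LaurentSeries A, coeffMap A.subtype y = f := by
  by_cases hf0 : f = 0
  · exact ⟨0, by rw [hf0, map_zero]⟩
  obtain ⟨c, y, hc, hy, rfl⟩ := exists_eq_smul A π hf hf0
  obtain ⟨x, z, hz, h⟩ := (mem_locL_iff A π).mp hl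
  by_cases hcA : c ∈ A
  · exact ⟨(⟨c, hcA⟩ : A) • y, by rw [coeffMap_smul]; rfl⟩
  · exfalso
    obtain ⟨a, ha, ha0⟩ := inv_mem_of_not_mem' A π hcA
    have h1 : y * z = a • x := by
      apply subtype_injective' A
      rw [coeffMap_smul, map_mul, ← h, smul_mul_assoc, smul_smul'']
      show _ = ((a : L) * c) • _
      rw [ha, inv_mul_cancel₀ hc, one_smul'']
    have h2 := congrArg (coeffMap π) h1
    rw [map_mul, coeffMap_smul, ha0, zero_smul] at h2
    exact mul_ne_zero hy hz h2

end Loc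

section Field

variable {L : Type*} [Field L] (A : ValuationSubring L) {k : Type*} [Field k] (π : A →+* k)
variable (F : IntermediateField L (LaurentSeries L))

/-- `F` consists of quotients of bounded series. -/
def IsQuot : Prop := ∀ f ∈ F, ∃ P ∈ intSpan L, ∃ Q ∈ intSpan L, Q ≠ 0 ∧ f * Q = P

variable {F} (hF : IsQuot F)
include hF

theorem exists_scale_quot {f : LaurentSeries L} (hf : f ∈ F) (hf0 : f ≠ 0) :
    ∃ (c : L) (y z : LaurentSeries A), c ≠ 0 ∧ coeffMap π y ≠ 0 ∧ coeffMap π z ≠ 0 ∧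
      f * coeffMap A.subtype z = c • coeffMap A.subtype y := by
  obtain ⟨P, hP, Q, hQ, hQ0, h⟩ := hF f hf
  have hP0 : P ≠ 0 := by rw [← h]; exact mul_ne_zero hf0 hQ0
  obtain ⟨c, y, hc, hy, rfl⟩ := exists_eq_smul A π hP hP0
  obtain ⟨c', z, hc', hz, rfl⟩ := exists_eq_smul A π hQ hQ0
  refine ⟨c / c', y, z, div_ne_zero hc hc', hy, hz, ?_⟩
  rw [div_eq_inv_mul, ← smul_smul'', ← h, mul_smul_comm, smul_smul'', inv_mul_cancel₀ hc', one_smul'']

/-- The Gauss valuation ring. -/
def gaussV : ValuationSubring F where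
  carrier := {f | (f : LaurentSeries L) ∈ locL A π}
  mul_mem' ha hb := by
    simp only [Set.mem_ofPred_eq, IntermediateField.coe_mul] at *
    exact mul_mem ha hb
  one_mem' := by simp only [Set.mem_ofPred_eq, IntermediateField.coe_one]; exact one_mem _
  add_mem' ha hb := by
    simp only [Set.mem_ofPred_eq, IntermediateField.coe_add] at *
    exact add_mem ha hb
  zero_mem' := by simp only [Set.mem_ofPred_eq, IntermediateField.coe_zero]; exact zero_mem _
  neg_mem' ha := by
    simp only [Set.mem_ofPred_eq, IntermediateField.coe_neg] at *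
    exact neg_mem ha
  mem_or_inv_mem' := by
    intro f
    by_cases hf0 : f = 0
    · left
      rw [hf0]
      simp only [Set.mem_ofPred_eq, IntermediateField.coe_zero]; exact zero_mem _
    have hf0' : (f : LaurentSeries L) ≠ 0 := fun h => hf0 (Subtype.ext h)
    obtain ⟨c, y, z, hc, hy, hz, h⟩ := exists_scale_quot A π hF f.2 hf0'
    rcases A.mem_or_inv_mem c with hcA | hcA
    · left
      exact (mem_locL_iff A π).mpr ⟨(⟨c, hcA⟩ : A) • y, z, hz, by rw [coeffMap_smul]; exact h⟩
    · right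
      refine (mem_locL_iff A π).mpr ⟨(⟨c⁻¹, hcA⟩ : A) • z, y, hy, ?_⟩
      rw [coeffMap_smul]
      show ((f : LaurentSeries L))⁻¹ * coeffMap A.subtype y = c⁻¹ • coeffMap A.subtype z
      have h1 : coeffMap A.subtype y = c⁻¹ • ((f : LaurentSeries L) * coeffMap A.subtype z) := by
        rw [h, smul_smul'', inv_mul_cancel₀ hc, one_smul'']
      rw [h1, mul_smul_comm, ← mul_assoc, inv_mul_cancel₀ hf0', one_mul]

theorem mem_gaussV {f : F} : f ∈ gaussV A π hF ↔ (f : LaurentSeries L) ∈ locL A π := Iff.rfl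

/-- The inclusion in `locL`. -/
def toLoc : gaussV A π hF →+* locL A π :=
  ((algebraMap F (LaurentSeries L)).comp (gaussV A π hF).subtype).codRestrict (locL A π)
    (fun f => f.2)

/-- The reduction map with values in Laurent series. -/
def gaussRed : gaussV A π hF →+* LaurentSeries k := (resL A π).comp (toLoc A π hF)

theorem gaussRed_apply (f : gaussV A π hF) :
    gaussRed A π hF f = resL A π ⟨((f : F) : LaurentSeries L), f.2⟩ := rfl

theorem gaussRed_mul_eq (f : gaussV A π hF) {y z : LaurentSeries A}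
    (hz : coeffMap π z ≠ 0)
    (h : ((f : F) : LaurentSeries L) * coeffMap A.subtype z = coeffMap A.subtype y) :
    gaussRed A π hF f * coeffMap π z = coeffMap π y :=
  resL_mul_eq A π f.2 hz h

theorem algebraMap_mem_gaussV (a : A) : algebraMap L F a ∈ gaussV A π hF := by
  rw [mem_gaussV]
  have : ((algebraMap L F (a : L) : F) : LaurentSeries L) =
      coeffMap A.subtype (HahnSeries.single 0 a) := by
    rw [coeffMap_single_eq]; rfl
  rw [this]
  exact coeffMap_mem_locL A π _

theorem gaussRed_algebraMap (a : A) :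
    gaussRed A π hF ⟨algebraMap L F a, algebraMap_mem_gaussV A π hF a⟩ =
      algebraMap k (LaurentSeries k) (π a) := by
  have h1 := gaussRed_mul_eq A π hF ⟨algebraMap L F a, algebraMap_mem_gaussV A π hF a⟩
    (y := HahnSeries.single 0 a) (z := 1) (by rw [map_one]; exact one_ne_zero) (by
      rw [map_one, mul_one, coeffMap_single_eq]; rfl)
  rw [map_one, mul_one, coeffMap_single] at h1
  rw [h1, algebraMap_laurentSeries_eq_single]

/-- If the reduction of `f` is nonzero, `f` is a unit. -/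
theorem isUnit_of_gaussRed_ne_zero (f : gaussV A π hF) (hf : gaussRed A π hF f ≠ 0) :
    IsUnit f := by
  have hf0 : ((f : F) : LaurentSeries L) ≠ 0 := by
    intro h
    apply hf
    have : f = 0 := Subtype.ext (Subtype.ext h)
    rw [this, map_zero]
  have h1 := (laurentRed A π).inv_mem_loc (f := ⟨((f : F) : LaurentSeries L), f.2⟩) hf
  refine IsUnit.of_mul_eq_one ⟨(f : F)⁻¹, h1⟩ ?_
  refine Subtype.ext ?_
  show (f : F) * (f : F)⁻¹ = 1
  exact mul_inv_cancel₀ fun h => hf0 (by rw [h]; rfl)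

/-- scaling -/
theorem exists_scale_gaussV (f : F) (hf : f ≠ 0) :
    ∃ (c : L) (_ : c ≠ 0) (h : algebraMap L F c * f ∈ gaussV A π hF),
      gaussRed A π hF ⟨_, h⟩ ≠ 0 := by
  have hf0' : (f : LaurentSeries L) ≠ 0 := fun h => hf (Subtype.ext h)
  obtain ⟨c, y, z, hc, hy, hz, h⟩ := exists_scale_quot A π hF f.2 hf0'
  have h1 : ((algebraMap L F c⁻¹ * f : F) : LaurentSeries L) * coeffMap A.subtype z =
      coeffMap A.subtype y := by
    have h2 : ((algebraMap L F c⁻¹ * f : F) : LaurentSeries L) = c⁻¹ • (f : LaurentSeries L) := by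
      rw [Algebra.smul_def]; rfl
    rw [h2, smul_mul_assoc, h, smul_smul'', inv_mul_cancel₀ hc, one_smul'']
  have hmem : algebraMap L F c⁻¹ * f ∈ gaussV A π hF := (mem_locL_iff A π).mpr ⟨y, z, hz, h1⟩
  refine ⟨c⁻¹, inv_ne_zero hc, hmem, ?_⟩
  intro h0
  have h2 := gaussRed_mul_eq A π hF ⟨_, hmem⟩ hz h1
  rw [h0, zero_mul] at h2
  exact hy h2.symm

end Field

end Fermat.Agent.H34.Two
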