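import Mathlib

/-!
# Gauss valuation rings and reduction of finite dimensional subspaces

Abstract setting: `F/L` and `Fk/k` fields, `A` a valuation ring of `L` with residue map
`π : A → k`, `B ⊆ F` a subring with a reduction map `ρ : B → Fk`.
-/

set_option autoImplicit false

open Polynomial Module

namespace Fermat.Agent.H42

section Scale

variable {L : Type*} [Field L] (A : ValuationSubring L)

theorem exists_scale {κ : Type*} (s : Finset κ) (f : κ → L) (h : ∃ i ∈ s, f i ≠ 0) :
    ∃ c : L, c ≠ 0 ∧ (∀ i ∈ s, c⁻¹ * f i ∈ A) ∧ ∃ i ∈ s, c⁻¹ * f i = 1 := by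
  obtain ⟨i, hi, hmax⟩ := s.exists_max_image (fun i => A.valuation (f i))
    ⟨h.choose, h.choose_spec.1⟩
  have hne : f i ≠ 0 := by
    intro h0
    obtain ⟨j, hj, hj0⟩ := h
    have h1 := hmax j hj
    simp only [h0, map_zero, le_zero_iff, map_eq_zero] at h1
    exact hj0 h1
  refine ⟨f i, hne, fun j hj => ?_, i, hi, inv_mul_cancel₀ hne⟩
  rw [← A.valuation_le_one_iff, map_mul, map_inv₀]
  have h1 := hmax j hj
  have h2 : A.valuation (f i) ≠ 0 := (Valuation.ne_zero_iff _).mpr hne
  calc (A.valuation (f i))⁻¹ * A.valuation (f j) ≤ (A.valuation (f i))⁻¹ * A.valuation (f i) :=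
        mul_le_mul_right h1 _
    _ = 1 := inv_mul_cancel₀ h2

/-- A nonzero finite family of polynomials over `L` is a constant times a primitive family
over `A`. -/
theorem exists_scale_poly {ι : Type*} [Finite ι] (q : ι → L[X]) (hq : q ≠ 0) :
    ∃ (c : L) (q' : ι → A[X]), c ≠ 0 ∧ (∀ i, q i = C c * (q' i).map A.subtype) ∧
      ∃ i a, (q' i).coeff a = 1 := by
  classical
  have := Fintype.ofFinite ι
  obtain ⟨i₀, hi₀⟩ : ∃ i, q i ≠ 0 := by
    by_contra h
    push Not at h
    exact hq (funext h)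
  set M := Finset.univ.sup (fun i => (q i).natDegree) with hM
  have hMle : ∀ i, (q i).natDegree ≤ M := fun i =>
    Finset.le_sup (f := fun i => (q i).natDegree) (Finset.mem_univ i)
  obtain ⟨c, hc, hmem, ⟨i₁, a₁⟩, -, h1⟩ := exists_scale A
    ((Finset.univ : Finset ι) ×ˢ Finset.range (M + 1)) (fun x => (q x.1).coeff x.2)
    ⟨(i₀, (q i₀).natDegree), by simpa using Nat.lt_succ_of_le (hMle i₀), by
      simpa using hi₀⟩
  have hlift : ∀ i, ∃ r : A[X], r.map A.subtype = C c⁻¹ * q i := by
    intro i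
    have h2 : C c⁻¹ * q i ∈ Polynomial.lifts A.subtype := by
      rw [Polynomial.lifts_iff_coeff_lifts]
      intro a
      rw [coeff_C_mul]
      by_cases ha : a ≤ M
      · exact ⟨⟨_, hmem (i, a) (by simpa using Nat.lt_succ_of_le ha)⟩, rfl⟩
      · rw [coeff_eq_zero_of_natDegree_lt (by have := hMle i; omega), mul_zero]
        exact ⟨0, map_zero _⟩
    exact h2
  choose r hr using hlift
  refine ⟨c, r, hc, fun i => ?_, i₁, a₁, ?_⟩
  · rw [hr, ← mul_assoc, ← C_mul, mul_inv_cancel₀ hc, C_1, one_mul]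
  · apply Subtype.ext
    have h3 : ((r i₁).map A.subtype).coeff a₁ = c⁻¹ * (q i₁).coeff a₁ := by
      rw [hr, coeff_C_mul]
    rw [coeff_map] at h3
    exact h3.trans h1

end Scale

section Normalize

open Matrix

/-- Normalisation of a matrix by a maximal minor of maximal valuation
(same statement as helper35's `exists_normalized`). -/
theorem exists_normalized_minor {L : Type*} [Field L] {Γ : Type*}
    [LinearOrderedCommGroupWithZero Γ] (v : Valuation L Γ) {m r : ℕ}
    (P : Matrix (Fin m) (Fin r) L)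
    (hP : ∃ I : Fin r → Fin m, (P.submatrix I id).det ≠ 0) :
    ∃ I : Fin r → Fin m, (P.submatrix I id).det ≠ 0 ∧
      ∀ k a, v ((P * (P.submatrix I id)⁻¹) k a) ≤ 1 := by
  classical
  obtain ⟨I₀, hI₀⟩ := hP
  have : Nonempty (Fin r → Fin m) := ⟨I₀⟩
  obtain ⟨I, hI⟩ := Finite.exists_max (fun I : Fin r → Fin m => v (P.submatrix I id).det)
  have hne : (P.submatrix I id).det ≠ 0 := by
    intro h0
    have h1 := hI I₀
    rw [h0, map_zero, le_zero_iff, map_eq_zero] at h1
    exact hI₀ h1
  refine ⟨I, hne, fun k a => ?_⟩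
  have h1 : (P * (P.submatrix I id)⁻¹) k a
      = (P.submatrix I id).det⁻¹ * (P.submatrix (Function.update I a k) id).det := by
    have h2 : (P * (P.submatrix I id)⁻¹) k a = (P k ᵥ* (P.submatrix I id)⁻¹) a := rfl
    rw [h2, Matrix.inv_def, Matrix.vecMul_smul, Ring.inverse_eq_inv', Pi.smul_apply, smul_eq_mul]
    congr 1
    rw [← Matrix.mulVec_transpose, Matrix.adjugate_transpose,
      ← Matrix.cramer_eq_adjugate_mulVec, Matrix.cramer_transpose_apply]
    congr 1
    ext i j
    by_cases hi : i = a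
    · subst hi
      simp
    · simp [hi]
  rw [h1, map_mul, map_inv₀]
  have h3 : v (P.submatrix I id).det ≠ 0 := (Valuation.ne_zero_iff _).mpr hne
  calc (v (P.submatrix I id).det)⁻¹ * v (P.submatrix (Function.update I a k) id).det
      ≤ (v (P.submatrix I id).det)⁻¹ * v (P.submatrix I id).det :=
        mul_le_mul_right (hI _) _
    _ = 1 := inv_mul_cancel₀ h3

/-- A matrix with linearly independent columns has a nonzero maximal minor. -/
theorem exists_maxMinor_ne_zero {k : Type*} [Field k] {m r : ℕ} (P : Matrix (Fin m) (Fin r) k)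
    (hP : LinearIndependent k Pᵀ.row) : ∃ I : Fin r → Fin m, (P.submatrix I id).det ≠ 0 := by
  classical
  have h1 : finrank k (Submodule.span k (Set.range P.row)) = r := by
    rw [← Matrix.rank_eq_finrank_span_row, ← Matrix.rank_transpose, hP.rank_matrix,
      Fintype.card_fin]
  obtain ⟨f, hf, -, hli⟩ := Submodule.exists_fun_fin_finrank_span_eq k (Set.range P.row)
  choose I hI using hf
  refine ⟨fun i => I (Fin.cast h1.symm i), ?_⟩
  have h2 : LinearIndependent k (P.submatrix (fun i => I (Fin.cast h1.symm i)) id).row := by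
    have h3 : (P.submatrix (fun i => I (Fin.cast h1.symm i)) id).row
        = f ∘ Fin.cast h1.symm := by
      funext i
      exact hI (Fin.cast h1.symm i)
    rw [h3]
    exact hli.comp _ (Fin.cast_injective _)
  rw [Matrix.linearIndependent_rows_iff_isUnit, Matrix.isUnit_iff_isUnit_det] at h2
  exact h2.ne_zero

/-- Every subspace of `L^ι` has a basis with coordinates in the valuation ring `A` containing an
identity submatrix. -/
theorem exists_lattice_basis {L : Type*} [Field L] (A : ValuationSubring L) {ι : Type*} [Finite ι]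
    (W : Submodule L (ι → L)) :
    ∃ (d : ℕ) (w : Fin d → ι → A) (p : Fin d → ι),
      Submodule.span L (Set.range fun (i : Fin d) (j : ι) => (w i j : L)) = W ∧
        ∀ i j, w i (p j) = if i = j then 1 else 0 := by
  classical
  obtain ⟨m, ⟨e⟩⟩ := Finite.exists_equiv_fin ι
  set d := finrank L W with hd
  let c : Basis (Fin d) L W := Module.finBasis L W
  let P : Matrix (Fin m) (Fin d) L := fun i a => (c a : ι → L) (e.symm i)
  have hP : LinearIndependent L Pᵀ.row := by
    have h1 : LinearIndependent L (fun a => (c a : ι → L)) :=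
      c.linearIndependent.map' W.subtype (Submodule.ker_subtype W)
    have h2 : Pᵀ.row = fun a => (LinearEquiv.funCongrLeft L L e.symm) (c a : ι → L) := rfl
    rw [h2]
    exact h1.map' _ (LinearEquiv.ker _)
  obtain ⟨I, hI, hA⟩ := exists_normalized_minor A.valuation P (exists_maxMinor_ne_zero P hP)
  set Q := P * (P.submatrix I id)⁻¹ with hQ
  have hunit : IsUnit (P.submatrix I id).det := isUnit_iff_ne_zero.mpr hI
  have hQI : Q.submatrix I id = 1 := by
    have h3 : Q.submatrix I id = P.submatrix I id * (P.submatrix I id)⁻¹ := by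
      ext i j
      rfl
    rw [h3, Matrix.mul_nonsing_inv _ hunit]
  have hmem : ∀ i a, Q i a ∈ A := fun i a => (A.valuation_le_one_iff _).mp (hA i a)
  refine ⟨d, fun a i => ⟨Q (e i) a, hmem _ _⟩, fun a => e.symm (I a), ?_, fun a b => ?_⟩
  · have hcol : ∀ a, (fun j => Q (e j) a) = ∑ b, (P.submatrix I id)⁻¹ b a • (c b : ι → L) := by
      intro a
      funext j
      simp only [hQ, Matrix.mul_apply, Finset.sum_apply, Pi.smul_apply, smul_eq_mul, P,
        Equiv.symm_apply_apply]
      exact Finset.sum_congr rfl fun b _ => mul_comm _ _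
    have hcol' : ∀ b, (c b : ι → L) = ∑ a, (P.submatrix I id) a b • (fun j => Q (e j) a) := by
      intro b
      funext j
      have h4 : Q * (P.submatrix I id) = P := by
        rw [hQ, Matrix.mul_assoc, Matrix.nonsing_inv_mul _ hunit, Matrix.mul_one]
      have h5 := congrFun (congrFun h4 (e j)) b
      rw [Matrix.mul_apply] at h5
      simp only [Finset.sum_apply, Pi.smul_apply, smul_eq_mul]
      have h6 : P (e j) b = (c b : ι → L) j := by simp [P]
      rw [← h6, ← h5]
      exact Finset.sum_congr rfl fun a _ => mul_comm _ _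
    apply le_antisymm
    · rw [Submodule.span_le]
      rintro _ ⟨a, rfl⟩
      change (fun j => Q (e j) a) ∈ W
      rw [hcol a]
      exact Submodule.sum_mem _ fun b _ => Submodule.smul_mem _ _ (c b).2
    · intro w hw
      have h7 : w = ∑ b, c.repr ⟨w, hw⟩ b • (c b : ι → L) := by
        have h8 := congrArg W.subtype (c.sum_repr ⟨w, hw⟩)
        rw [map_sum] at h8
        exact h8.symm
      rw [h7]
      refine Submodule.sum_mem _ fun b _ => Submodule.smul_mem _ _ ?_
      rw [hcol' b]
      exact Submodule.sum_mem _ fun a _ => Submodule.smul_mem _ _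
        (Submodule.subset_span ⟨a, rfl⟩)
  · apply Subtype.ext
    have h9 := congrFun (congrFun hQI b) a
    simp only [Matrix.submatrix_apply, id_eq, Matrix.one_apply] at h9
    simp only [Equiv.apply_symm_apply, h9, eq_comm (a := b) (b := a)]
    split_ifs <;> rfl

end Normalize

section Data

variable {L F k Fk : Type*} [Field L] [Field F] [Algebra L F] [Field k] [Field Fk] [Algebra k Fk]

/-- Reduction data without transcendental element: a subring `B` of `F` containing `A`, with a
reduction map to `Fk`. -/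
structure RedRing (F Fk : Type*) [Field F] [Algebra L F] [Field Fk] [Algebra k Fk]
    (A : ValuationSubring L) (π : A →+* k) where
  /-- the subring -/
  B : Subring F
  /-- the reduction -/
  ρ : B →+* Fk
  mem : ∀ a : A, algebraMap L F a ∈ B
  ρ_mem : ∀ a : A, ρ ⟨algebraMap L F a, mem a⟩ = algebraMap k Fk (π a)

namespace RedRing

variable {A : ValuationSubring L} {π : A →+* k} (R : RedRing F Fk A π)

/-- The constants. -/
def const : A →+* R.B where
  toFun a := ⟨algebraMap L F a, R.mem a⟩
  map_zero' := Subtype.ext (by simp)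
  map_one' := Subtype.ext (by simp)
  map_add' a b := Subtype.ext (by simp)
  map_mul' a b := Subtype.ext (by simp)

@[simp] theorem coe_const (a : A) : (R.const a : F) = algebraMap L F a := rfl

@[simp] theorem ρ_const (a : A) : R.ρ (R.const a) = algebraMap k Fk (π a) := R.ρ_mem a

theorem exists_basis_of_le {ι : Type*} [Fintype ι] (u : ι → R.B)
    (hu : LinearIndependent k (fun i => R.ρ (u i))) (W : Submodule L F)
    (hW : W ≤ Submodule.span L (Set.range fun i => (u i : F))) :
    ∃ (d : ℕ) (w : Fin d → R.B), Submodule.span L (Set.range fun i => (w i : F)) = W ∧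
      LinearIndependent k (fun i => R.ρ (w i)) := by
  classical
  let Φ : (ι → L) →ₗ[L] F := Fintype.linearCombination L (fun i => (u i : F))
  have hΦ : LinearMap.range Φ = Submodule.span L (Set.range fun i => (u i : F)) :=
    Fintype.range_linearCombination L _
  obtain ⟨d, w, p, hspan, hp⟩ := exists_lattice_basis A (W.comap Φ)
  refine ⟨d, fun i => ∑ j, R.const (w i j) * u j, ?_, ?_⟩
  · have h1 : (fun i => ((∑ j, R.const (w i j) * u j : R.B) : F)) =
        fun i => Φ (fun j => (w i j : L)) := by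
      funext i
      simp only [Φ, Fintype.linearCombination_apply, AddSubmonoidClass.coe_finsetSum,
        Subring.coe_mul, coe_const, Algebra.smul_def]
    rw [h1]
    have h2 : Set.range (fun i => Φ (fun j => (w i j : L))) =
        Φ '' (Set.range fun (i : Fin d) (j : ι) => (w i j : L)) := by
      rw [← Set.range_comp]
      rfl
    rw [h2, ← Submodule.map_span, hspan, Submodule.map_comap_eq, hΦ, inf_eq_right]
    exact hW
  · rw [Fintype.linearIndependent_iff]
    intro g hg i
    have h3 : ∑ j, (∑ i, g i * π (w i j)) • R.ρ (u j) = 0 := by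
      rw [← hg]
      simp only [map_sum, map_mul, ρ_const, Finset.smul_sum, Finset.sum_smul]
      rw [Finset.sum_comm]
      refine Finset.sum_congr rfl fun i _ => Finset.sum_congr rfl fun j _ => ?_
      rw [Algebra.smul_def, Algebra.smul_def, map_mul]
      ring
    have h4 := Fintype.linearIndependent_iff.mp hu _ h3 (p i)
    simpa [hp, apply_ite π] using h4

/-- Elements of `B` with `k`-independent reductions are `L`-independent. -/
theorem linearIndependent [IsLocalHom π] {ι : Type*} [Finite ι] (u : ι → R.B)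
    (hu : LinearIndependent k (fun i => R.ρ (u i))) :
    LinearIndependent L (fun i => (u i : F)) := by
  classical
  have := Fintype.ofFinite ι
  rw [Fintype.linearIndependent_iff]
  intro g hg
  by_contra hne
  push Not at hne
  obtain ⟨i₀, hi₀⟩ := hne
  obtain ⟨c, hc, hmem, i₁, -, h1⟩ := exists_scale A Finset.univ g ⟨i₀, Finset.mem_univ _, hi₀⟩
  let g' : ι → A := fun i => ⟨c⁻¹ * g i, hmem i (Finset.mem_univ _)⟩
  have h2 : ∑ i, R.const (g' i) * u i = 0 := by
    apply Subtype.ext
    simp only [AddSubmonoidClass.coe_finsetSum, Subring.coe_mul, coe_const, g', map_mul]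
    have h3 : ∑ i, algebraMap L F c⁻¹ * algebraMap L F (g i) * (u i : F) =
        algebraMap L F c⁻¹ * ∑ i, g i • (u i : F) := by
      rw [Finset.mul_sum]
      exact Finset.sum_congr rfl fun i _ => by rw [Algebra.smul_def]; ring
    rw [h3, hg, mul_zero]
    rfl
  have h4 : ∑ i, π (g' i) • R.ρ (u i) = 0 := by
    have h5 := congrArg R.ρ h2
    rw [map_sum, map_zero] at h5
    rw [← h5]
    exact Finset.sum_congr rfl fun i _ => by rw [map_mul, ρ_const, Algebra.smul_def]
  have h6 := Fintype.linearIndependent_iff.mp hu _ h4 i₁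
  have h7 : g' i₁ = 1 := Subtype.ext h1
  rw [h7, map_one] at h6
  exact one_ne_zero h6

/-- Evaluation of polynomials with coefficients in `A` at an element of `B`. -/
noncomputable def ev (x : R.B) : A[X] →+* R.B := eval₂RingHom R.const x

theorem coe_ev (x : R.B) (q : A[X]) :
    (R.ev x q : F) = aeval (x : F) (q.map A.subtype) := by
  have h : R.B.subtype.comp (R.ev x) =
      ((aeval (R := L) (x : F)).toRingHom.comp (mapRingHom A.subtype)) := by
    apply Polynomial.ringHom_ext
    · intro a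
      simp [ev]
    · simp [ev]
  exact RingHom.congr_fun h q

theorem ρ_ev (x : R.B) (q : A[X]) : R.ρ (R.ev x q) = aeval (R.ρ x) (q.map π) := by
  have h : R.ρ.comp (R.ev x) =
      ((aeval (R := k) (R.ρ x)).toRingHom.comp (mapRingHom π)) := by
    apply Polynomial.ringHom_ext
    · intro a
      simp [ev]
    · simp [ev]
  exact RingHom.congr_fun h q

end RedRing

/-- Gauss data: reduction data with an element `x ∈ B` with transcendental reduction and finitely
many elements `b i ∈ B` which generate `F` over `L(x)` and have `k(ρ x)`-independent reductions. -/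
structure GaussData (F Fk : Type*) [Field F] [Algebra L F] [Field Fk] [Algebra k Fk]
    (A : ValuationSubring L) (π : A →+* k) extends RedRing F Fk A π where
  x : B
  transc : ∀ q : k[X], aeval (ρ x) q = 0 → q = 0
  ι : Type
  fin : Fintype ι
  b : ι → B
  ind : ∀ q : ι → k[X], ∑ i, aeval (ρ x) (q i) * ρ (b i) = 0 → q = 0
  span : ∀ f : F, ∃ (Q : L[X]) (q : ι → L[X]), Q ≠ 0 ∧
    aeval (x : F) Q * f = ∑ i, aeval (x : F) (q i) * b i

namespace GaussData

variable {A : ValuationSubring L} {π : A →+* k} (G : GaussData F Fk A π)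

attribute [instance] GaussData.fin

theorem exists_primitive {Q : L[X]} (hQ : Q ≠ 0) :
    ∃ (c : L) (Q' : A[X]), c ≠ 0 ∧ Q = C c * Q'.map A.subtype ∧ Q'.map π ≠ 0 := by
  obtain ⟨c, q', hc, h1, ⟨⟩, a, h2⟩ := exists_scale_poly A (fun _ : Unit => Q)
    (fun h => hQ (congrFun h ()))
  refine ⟨c, q' (), hc, h1 (), fun h => ?_⟩
  have h3 := congrArg (fun p => p.coeff a) h
  simp only [coeff_map, coeff_zero] at h3
  rw [h2, map_one] at h3
  exact one_ne_zero h3

theorem ρ_ev_ne_zero {Q : A[X]} (hQ : Q.map π ≠ 0) : G.ρ (G.ev G.x Q) ≠ 0 := by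
  rw [RedRing.ρ_ev]
  exact fun h => hQ (G.transc _ h)

theorem x_transc {Q : L[X]} (hQ : Q ≠ 0) : aeval (G.x : F) Q ≠ 0 := by
  obtain ⟨c, Q', hc, rfl, h⟩ := exists_primitive (π := π) hQ
  rw [map_mul, aeval_C, ← RedRing.coe_ev (R := G.toRedRing)]
  refine mul_ne_zero ((_root_.map_ne_zero _).mpr hc) fun h1 => G.ρ_ev_ne_zero h ?_
  have h2 : G.ev G.x Q' = 0 := Subtype.ext h1
  rw [h2, map_zero]

/-- The monomials `x^a b_i` have `k`-independent reductions. -/
theorem linearIndependent_monomials (M : ℕ) :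
    LinearIndependent k (fun y : Fin M × G.ι => G.ρ (G.x ^ (y.1 : ℕ) * G.b y.2)) := by
  classical
  rw [Fintype.linearIndependent_iff]
  intro g hg y
  have h1 := G.ind (fun i => ∑ a : Fin M, monomial (a : ℕ) (g (a, i))) ?_
  · have h2 := congrArg (fun p => p.coeff (y.1 : ℕ)) (congrFun h1 y.2)
    simp only [finsetSum_coeff, coeff_monomial, Pi.zero_apply, coeff_zero] at h2
    rw [Finset.sum_eq_single y.1] at h2
    · simpa using h2
    · intro a _ ha
      rw [if_neg]
      exact fun h => ha (Fin.ext h)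
    · intro h
      exact absurd (Finset.mem_univ _) h
  · rw [← hg, Fintype.sum_prod_type_right]
    refine Finset.sum_congr rfl fun i _ => ?_
    rw [map_sum, Finset.sum_mul]
    refine Finset.sum_congr rfl fun a _ => ?_
    rw [aeval_monomial, map_mul, map_pow, Algebra.smul_def, mul_assoc]

/-- **(H1)**: every finite dimensional subspace has a common denominator `Q(x)` with nonzero
reduction, and then an `L`-basis with `k`-independent reductions. -/
theorem exists_basis (W : Submodule L F) [FiniteDimensional L W] :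
    ∃ (Q : A[X]) (_ : Q.map π ≠ 0) (d : ℕ) (w : Fin d → F) (w' : Fin d → G.B),
      (∀ i, (w' i : F) = G.ev G.x Q * w i) ∧
      Submodule.span L (Set.range w) = W ∧ LinearIndependent k (fun i => G.ρ (w' i)) := by
  classical
  let c := Module.finBasis L W
  choose Q q hQ hq using G.span
  -- common denominator
  let P : L[X] := ∏ j, Q (c j)
  have hP : P ≠ 0 := Finset.prod_ne_zero_iff.mpr fun j _ => hQ _
  obtain ⟨e, P', he, hPP', hP'⟩ := exists_primitive (π := π) hP
  refine ⟨P', hP', ?_⟩
  have hne : (G.ev G.x P' : F) ≠ 0 := by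
    intro h
    have h1 : G.ev G.x P' = 0 := Subtype.ext h
    exact G.ρ_ev_ne_zero hP' (by rw [h1, map_zero])
  have hcoe := RedRing.coe_ev (R := G.toRedRing) G.x P'
  -- clearing denominators
  have hclear : ∀ j, ∃ r : G.ι → L[X], (G.ev G.x P' : F) * (c j : F) =
      ∑ i, aeval (G.x : F) (r i) * G.b i := by
    intro j
    refine ⟨fun i => C e⁻¹ * (∏ j' ∈ Finset.univ.erase j, Q (c j')) * q (c j) i, ?_⟩
    have h1 : (G.ev G.x P' : F) = algebraMap L F e⁻¹ * aeval (G.x : F) P := by
      rw [hPP', map_mul, aeval_C, ← mul_assoc, ← map_mul, inv_mul_cancel₀ he, map_one, one_mul,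
        hcoe]
    have h2 : P = (∏ j' ∈ Finset.univ.erase j, Q (c j')) * Q (c j) := by
      rw [Finset.prod_erase_mul _ _ (Finset.mem_univ j)]
    rw [h1, h2, map_mul, mul_assoc, mul_assoc, hq, Finset.mul_sum, Finset.mul_sum]
    refine Finset.sum_congr rfl fun i _ => ?_
    rw [map_mul, map_mul, aeval_C]
    ring
  choose r hr using hclear
  set M := Finset.univ.sup (fun y : Fin (finrank L W) × G.ι => (r y.1 y.2).natDegree) + 1 with hM
  have hdeg : ∀ j i, (r j i).natDegree < M := fun j i => Nat.lt_succ_of_le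
    (Finset.le_sup (f := fun y : Fin (finrank L W) × G.ι => (r y.1 y.2).natDegree)
      (Finset.mem_univ (j, i)))
  let u : Fin M × G.ι → G.B := fun y => G.x ^ (y.1 : ℕ) * G.b y.2
  let mulP : F →ₗ[L] F := LinearMap.mulLeft L (G.ev G.x P' : F)
  have hWle : W.map mulP ≤ Submodule.span L (Set.range fun y => (u y : F)) := by
    rintro _ ⟨f, hf, rfl⟩
    have h7 : f = ∑ b, c.repr ⟨f, hf⟩ b • (c b : F) := by
      have h8 := congrArg W.subtype (c.sum_repr ⟨f, hf⟩)
      rw [map_sum] at h8
      exact h8.symm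
    rw [h7, map_sum]
    refine Submodule.sum_mem _ fun j _ => ?_
    rw [map_smul]
    refine Submodule.smul_mem _ _ ?_
    rw [LinearMap.mulLeft_apply, hr j]
    refine Submodule.sum_mem _ fun i _ => ?_
    rw [aeval_eq_sum_range' (hdeg j i), Finset.sum_mul]
    refine Submodule.sum_mem _ fun a ha => ?_
    rw [smul_mul_assoc]
    refine Submodule.smul_mem _ _ (Submodule.subset_span ⟨(⟨a, Finset.mem_range.mp ha⟩, i), ?_⟩)
    simp [u]
  obtain ⟨d, w', hspan, hli⟩ := G.toRedRing.exists_basis_of_le u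
    (G.linearIndependent_monomials M) (W.map mulP) hWle
  refine ⟨d, fun i => (G.ev G.x P' : F)⁻¹ * w' i, w', fun i => ?_, ?_, hli⟩
  · rw [← mul_assoc, mul_inv_cancel₀ hne, one_mul]
  · have hinj : Function.Injective mulP := by
      intro a b hab
      exact mul_left_cancel₀ hne hab
    apply Submodule.map_injective_of_injective hinj
    rw [← hspan, Submodule.map_span, ← Set.range_comp]
    congr 2
    funext i
    simp only [Function.comp_apply, mulP, LinearMap.mulLeft_apply]
    rw [← mul_assoc, mul_inv_cancel₀ hne, one_mul]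

/-- Every nonzero element is a constant times a quotient of elements with nonzero reduction. -/
theorem exists_eq_const_mul {f : F} (hf : f ≠ 0) :
    ∃ (c : L) (y z : G.B), c ≠ 0 ∧ G.ρ y ≠ 0 ∧ G.ρ z ≠ 0 ∧ f * z = algebraMap L F c * y := by
  obtain ⟨Q, hQ, d, w, w', hw, hspan, hli⟩ := G.exists_basis (Submodule.span L {f})
  have hd : d ≠ 0 := by
    rintro rfl
    have h1 : f ∈ Submodule.span L (Set.range w) := by
      rw [hspan]; exact Submodule.mem_span_singleton_self f
    rw [Set.range_eq_empty, Submodule.span_empty, Submodule.mem_bot] at h1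
    exact hf h1
  obtain ⟨d, rfl⟩ := Nat.exists_eq_succ_of_ne_zero hd
  have h2 : w 0 ∈ Submodule.span L {f} := by
    rw [← hspan]; exact Submodule.subset_span ⟨0, rfl⟩
  obtain ⟨c, hc⟩ := Submodule.mem_span_singleton.mp h2
  have h3 : G.ρ (w' 0) ≠ 0 := hli.ne_zero 0
  have hc0 : c ≠ 0 := by
    rintro rfl
    rw [zero_smul] at hc
    apply h3
    have h4 : w' 0 = 0 := Subtype.ext (by rw [hw, ← hc, mul_zero]; rfl)
    rw [h4, map_zero]
  refine ⟨c⁻¹, w' 0, G.ev G.x Q, inv_ne_zero hc0, h3, G.ρ_ev_ne_zero hQ, ?_⟩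
  rw [hw, ← hc, Algebra.smul_def, map_inv₀]
  field_simp [(_root_.map_ne_zero (algebraMap L F)).mpr hc0]

end GaussData

namespace RedRing

variable {A : ValuationSubring L} {π : A →+* k} (R : RedRing F Fk A π)

/-- The local ring of quotients with denominator having nonzero reduction. -/
def loc : Subring F where
  carrier := {f | ∃ y z : R.B, R.ρ z ≠ 0 ∧ f * z = y}
  zero_mem' := ⟨0, 1, by simp, by simp⟩
  one_mem' := ⟨1, 1, by simp, by simp⟩
  add_mem' := by
    rintro f g ⟨y, z, hz, h⟩ ⟨y', z', hz', h'⟩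
    refine ⟨y * z' + y' * z, z * z', by rw [map_mul]; exact mul_ne_zero hz hz', ?_⟩
    simp only [Subring.coe_add, Subring.coe_mul, ← h, ← h']
    ring
  neg_mem' := by
    rintro f ⟨y, z, hz, h⟩
    exact ⟨-y, z, hz, by simp only [Subring.coe_neg, ← h]; ring⟩
  mul_mem' := by
    rintro f g ⟨y, z, hz, h⟩ ⟨y', z', hz', h'⟩
    refine ⟨y * y', z * z', by rw [map_mul]; exact mul_ne_zero hz hz', ?_⟩
    simp only [Subring.coe_mul, ← h, ← h']
    ring

theorem mem_loc_iff {f : F} : f ∈ R.loc ↔ ∃ y z : R.B, R.ρ z ≠ 0 ∧ f * z = y := Iff.rfl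

theorem le_loc : R.B ≤ R.loc := fun y hy => ⟨⟨y, hy⟩, 1, by simp, by simp⟩

theorem coe_ne_zero {z : R.B} (hz : R.ρ z ≠ 0) : (z : F) ≠ 0 := by
  intro h
  have h1 : z = 0 := Subtype.ext h
  exact hz (by rw [h1, map_zero])

theorem frac_unique {f : F} {y z y' z' : R.B} (hz : R.ρ z ≠ 0) (hz' : R.ρ z' ≠ 0)
    (h : f * z = y) (h' : f * z' = y') : R.ρ y / R.ρ z = R.ρ y' / R.ρ z' := by
  rw [div_eq_div_iff hz hz', ← map_mul, ← map_mul]
  congr 1
  apply Subtype.ext
  simp only [Subring.coe_mul, ← h, ← h']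
  ring

/-- The reduction on the local ring. -/
noncomputable def resFun (f : R.loc) : Fk :=
  R.ρ f.2.choose / R.ρ f.2.choose_spec.choose

theorem resFun_eq (f : R.loc) {y z : R.B} (hz : R.ρ z ≠ 0) (h : (f : F) * z = y) :
    R.resFun f = R.ρ y / R.ρ z :=
  R.frac_unique f.2.choose_spec.choose_spec.1 hz f.2.choose_spec.choose_spec.2 h

/-- The reduction on the local ring, as a ring homomorphism. -/
noncomputable def res : R.loc →+* Fk where
  toFun := R.resFun
  map_zero' := by
    rw [R.resFun_eq 0 (y := 0) (z := 1) (by simp) (by simp)]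
    simp
  map_one' := by
    rw [R.resFun_eq 1 (y := 1) (z := 1) (by simp) (by simp)]
    simp
  map_add' := by
    rintro ⟨f, y, z, hz, h⟩ ⟨f', y', z', hz', h'⟩
    rw [R.resFun_eq ⟨f, y, z, hz, h⟩ hz h, R.resFun_eq ⟨f', y', z', hz', h'⟩ hz' h',
      R.resFun_eq (y := y * z' + y' * z) (z := z * z') _
        (by rw [map_mul]; exact mul_ne_zero hz hz')
        (by simp only [Subring.coe_add, Subring.coe_mul, ← h, ← h']; ring),
      map_add, map_mul, map_mul, map_mul]
    field_simp
  map_mul' := by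
    rintro ⟨f, y, z, hz, h⟩ ⟨f', y', z', hz', h'⟩
    rw [R.resFun_eq ⟨f, y, z, hz, h⟩ hz h, R.resFun_eq ⟨f', y', z', hz', h'⟩ hz' h',
      R.resFun_eq (y := y * y') (z := z * z') _
        (by rw [map_mul]; exact mul_ne_zero hz hz')
        (by simp only [Subring.coe_mul, ← h, ← h']; ring),
      map_mul, map_mul]
    field_simp

theorem res_eq_div (f : R.loc) {y z : R.B} (hz : R.ρ z ≠ 0) (h : (f : F) * z = y) :
    R.res f = R.ρ y / R.ρ z := R.resFun_eq f hz h

theorem res_mul_eq (f : R.loc) {y z : R.B} (hz : R.ρ z ≠ 0) (h : (f : F) * z = y) :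
    R.res f * R.ρ z = R.ρ y := by
  rw [R.res_eq_div f hz h, div_mul_cancel₀ _ hz]

theorem res_coe (y : R.B) : R.res ⟨y, R.le_loc y.2⟩ = R.ρ y := by
  rw [R.res_eq_div ⟨y, R.le_loc y.2⟩ (y := y) (z := 1) (by simp) (by simp)]
  simp

theorem inv_mem_loc {f : R.loc} (hf : R.res f ≠ 0) : (f : F)⁻¹ ∈ R.loc := by
  obtain ⟨f, y, z, hz, h⟩ := f
  rw [R.res_eq_div ⟨f, y, z, hz, h⟩ hz h] at hf
  have hy : R.ρ y ≠ 0 := fun h0 => hf (by rw [h0, zero_div])
  refine ⟨z, y, hy, ?_⟩
  have hf0 : f ≠ 0 := by
    rintro rfl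
    rw [zero_mul] at h
    exact R.coe_ne_zero hy h.symm
  change f⁻¹ * (y : F) = z
  rw [← h]
  field_simp

theorem isUnit_iff (f : R.loc) : IsUnit f ↔ R.res f ≠ 0 := by
  constructor
  · intro h
    exact (h.map R.res).ne_zero
  · intro h
    have hf0 : (f : F) ≠ 0 := by
      intro h0
      have h1 : f = 0 := Subtype.ext h0
      exact h (by rw [h1, map_zero])
    exact IsUnit.of_mul_eq_one ⟨(f : F)⁻¹, R.inv_mem_loc h⟩ (Subtype.ext (mul_inv_cancel₀ hf0))

theorem res_surjective (h : ∀ t : Fk, ∃ y z : R.B, R.ρ z ≠ 0 ∧ t * R.ρ z = R.ρ y) :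
    Function.Surjective R.res := by
  intro t
  obtain ⟨y, z, hz, ht⟩ := h t
  have hz' := R.coe_ne_zero hz
  have h1 : (y : F) / z * z = y := div_mul_cancel₀ _ hz'
  refine ⟨⟨(y : F) / z, y, z, hz, h1⟩, ?_⟩
  rw [R.res_eq_div ⟨(y : F) / z, y, z, hz, h1⟩ hz h1, ← ht, mul_div_cancel_right₀ _ hz]

/-- The local ring, as reduction data. -/
noncomputable def locRed : RedRing F Fk A π where
  B := R.loc
  ρ := R.res
  mem a := R.le_loc (R.mem a)
  ρ_mem a := (R.res_coe (R.const a)).trans (R.ρ_const a)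

end RedRing

namespace GaussData

variable {A : ValuationSubring L} {π : A →+* k} (G : GaussData F Fk A π)

/-- The Gauss valuation ring of `F`. -/
def V : ValuationSubring F where
  __ := G.loc
  mem_or_inv_mem' := by
    intro f
    by_cases hf : f = 0
    · left
      rw [hf]
      exact G.loc.zero_mem
    obtain ⟨c, y, z, hc, hy, hz, h⟩ := G.exists_eq_const_mul hf
    have hyF := G.coe_ne_zero hy
    have hzF := G.coe_ne_zero hz
    have hcF : algebraMap L F c ≠ 0 := (_root_.map_ne_zero _).mpr hc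
    rcases A.mem_or_inv_mem c with hcA | hcA
    · exact Or.inl ⟨G.const ⟨c, hcA⟩ * y, z, hz, by simpa using h⟩
    · refine Or.inr ⟨G.const ⟨c⁻¹, hcA⟩ * z, y, hy, ?_⟩
      have h1 : f = algebraMap L F c * y / z := by rw [← h, mul_div_cancel_right₀ _ hzF]
      rw [h1]
      simp only [Subring.coe_mul, RedRing.coe_const, map_inv₀]
      field_simp

theorem mem_V_iff {f : F} : f ∈ G.V ↔ f ∈ G.loc := Iff.rfl

theorem algebraMap_mem_V_iff [IsLocalHom π] {c : L} : algebraMap L F c ∈ G.V ↔ c ∈ A := by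
  constructor
  · intro h
    by_contra hc
    have hc0 : c ≠ 0 := by rintro rfl; exact hc A.zero_mem
    have hinv : c⁻¹ ∈ A := (A.mem_or_inv_mem c).resolve_left hc
    have h1 : (⟨algebraMap L F c, h⟩ : G.loc) * ⟨algebraMap L F c⁻¹, G.le_loc (G.mem ⟨_, hinv⟩)⟩
        = 1 := Subtype.ext (by
      change algebraMap L F c * algebraMap L F c⁻¹ = 1
      rw [← map_mul, mul_inv_cancel₀ hc0, map_one])
    have h2 := congrArg G.res h1
    rw [map_mul, map_one] at h2
    have h3 : G.res ⟨algebraMap L F c⁻¹, G.le_loc (G.mem ⟨_, hinv⟩)⟩ =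
        algebraMap k Fk (π ⟨c⁻¹, hinv⟩) :=
      (G.res_coe (G.const ⟨c⁻¹, hinv⟩)).trans (G.ρ_const _)
    rw [h3] at h2
    have h4 : π ⟨c⁻¹, hinv⟩ ≠ 0 := by
      intro h0
      rw [h0, map_zero, mul_zero] at h2
      exact zero_ne_one h2
    have h5 : IsUnit (⟨c⁻¹, hinv⟩ : A) := (isUnit_map_iff π _).mp (isUnit_iff_ne_zero.mpr h4)
    obtain ⟨u, hu⟩ := h5
    have h6 : (u⁻¹ : Aˣ).val * (⟨c⁻¹, hinv⟩ : A) = 1 := by rw [← hu, Units.inv_mul]
    have h7 : ((u⁻¹ : Aˣ).val : L) * c⁻¹ = 1 := congrArg Subtype.val h6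
    have h8 : ((u⁻¹ : Aˣ).val : L) = c := (mul_inv_eq_one₀ hc0).mp h7
    exact hc (h8 ▸ (u⁻¹ : Aˣ).val.2)
  · intro h
    exact G.le_loc (G.mem ⟨c, h⟩)

/-- **(H1)** for the Gauss valuation ring: every finite dimensional `L`-subspace of `F` has a basis
in the valuation ring with `k`-independent reductions. -/
theorem exists_basis_V (W : Submodule L F) [FiniteDimensional L W] :
    ∃ (d : ℕ) (w : Fin d → G.loc), Submodule.span L (Set.range fun i => (w i : F)) = W ∧
      LinearIndependent k (fun i => G.res (w i)) := by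
  obtain ⟨Q, hQ, d, w, w', hw, hspan, hli⟩ := G.exists_basis W
  have hρ := G.ρ_ev_ne_zero hQ
  have hne := G.coe_ne_zero hρ
  have hmem : ∀ i, w i * (G.ev G.x Q : F) = w' i := fun i => by rw [hw, mul_comm]
  refine ⟨d, fun i => ⟨w i, w' i, _, hρ, hmem i⟩, hspan, ?_⟩
  have h1 : (fun i => G.ρ (w' i)) = fun i =>
      (LinearMap.mulRight k (G.ρ (G.ev G.x Q)))
        (G.res ⟨w i, w' i, _, hρ, hmem i⟩) := by
    funext i
    rw [LinearMap.mulRight_apply, G.res_mul_eq ⟨w i, w' i, _, hρ, hmem i⟩ hρ (hmem i)]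
  rw [h1] at hli
  exact LinearIndependent.of_comp _ hli

end GaussData

end Data

end Fermat.Agent.H42
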