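import Mathlib

/-!
# Components (valuation rings with residue maps) and weak approximation

`Comp A π F κ` is a valuation ring `V` of `F` together with a (local) residue map `V → κ`
compatible with the residue map `π : A → k` of a valuation ring `A` of the constant field `K`.
The residue map is not assumed to be surjective.
For a finite family of pairwise incomparable components the reduction map from the intersection
of the valuation rings to the product of the images of the residue maps is surjective.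
-/

set_option autoImplicit false

namespace Fermat.Agent.H84

variable {K k : Type*} [Field K] [Field k]

/-- A component: a valuation ring of `F` with a residue map onto `κ`, compatible with `A → k`. -/
structure Comp (A : ValuationSubring K) (π : A →+* k) (F κ : Type*) [Field F] [Algebra K F]
    [Field κ] [Algebra k κ] where
  /-- the valuation ring -/
  V : ValuationSubring F
  /-- the residue map -/
  ρ : V →+* κ
  loc : ∀ v : V, ρ v ≠ 0 → IsUnit v
  mem : ∀ a : A, algebraMap K F a ∈ V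
  ρ_mem : ∀ a : A, ρ ⟨algebraMap K F a, mem a⟩ = algebraMap k κ (π a)

namespace Comp

variable {A : ValuationSubring K} {π : A →+* k} {F κ : Type*} [Field F] [Algebra K F]
  [Field κ] [Algebra k κ] (C : Comp A π F κ)

open Classical in
/-- The reduction of an element (zero when the element is not integral). -/
noncomputable def red (f : F) : κ := if h : f ∈ C.V then C.ρ ⟨f, h⟩ else 0

theorem red_of_mem {f : F} (h : f ∈ C.V) : C.red f = C.ρ ⟨f, h⟩ := dif_pos h

theorem red_of_notMem {f : F} (h : f ∉ C.V) : C.red f = 0 := dif_neg h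

@[simp] theorem red_zero : C.red 0 = 0 := by
  rw [C.red_of_mem C.V.zero_mem]
  exact map_zero C.ρ

@[simp] theorem red_one : C.red 1 = 1 := by
  rw [C.red_of_mem C.V.one_mem]
  exact map_one C.ρ

theorem red_add {f g : F} (hf : f ∈ C.V) (hg : g ∈ C.V) : C.red (f + g) = C.red f + C.red g := by
  rw [C.red_of_mem hf, C.red_of_mem hg, C.red_of_mem (C.V.add_mem _ _ hf hg), ← map_add]
  rfl

theorem red_mul {f g : F} (hf : f ∈ C.V) (hg : g ∈ C.V) : C.red (f * g) = C.red f * C.red g := by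
  rw [C.red_of_mem hf, C.red_of_mem hg, C.red_of_mem (C.V.mul_mem _ _ hf hg), ← map_mul]
  rfl

theorem red_neg (f : F) : C.red (-f) = -C.red f := by
  by_cases hf : f ∈ C.V
  · rw [C.red_of_mem hf, C.red_of_mem (C.V.neg_mem _ hf), ← map_neg]
    rfl
  · have : -f ∉ C.V := fun h => hf (by simpa using C.V.neg_mem _ h)
    rw [C.red_of_notMem hf, C.red_of_notMem this, neg_zero]

theorem sub_mem {f g : F} (hf : f ∈ C.V) (hg : g ∈ C.V) : f - g ∈ C.V := by
  rw [sub_eq_add_neg]
  exact C.V.add_mem _ _ hf (C.V.neg_mem _ hg)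

theorem red_sub {f g : F} (hf : f ∈ C.V) (hg : g ∈ C.V) : C.red (f - g) = C.red f - C.red g := by
  rw [sub_eq_add_neg, C.red_add hf (C.V.neg_mem _ hg), C.red_neg, ← sub_eq_add_neg]

theorem pow_mem {f : F} (hf : f ∈ C.V) (n : ℕ) : f ^ n ∈ C.V := by
  induction n with
  | zero => rw [pow_zero]; exact C.V.one_mem
  | succ n ih => rw [pow_succ]; exact C.V.mul_mem _ _ ih hf

theorem red_pow {f : F} (hf : f ∈ C.V) (n : ℕ) : C.red (f ^ n) = C.red f ^ n := by
  induction n with
  | zero => rw [pow_zero, pow_zero, red_one]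
  | succ n ih => rw [pow_succ, pow_succ, C.red_mul (C.pow_mem hf n) hf, ih]

theorem sum_mem {ι : Type*} (s : Finset ι) (f : ι → F) (h : ∀ i ∈ s, f i ∈ C.V) :
    ∑ i ∈ s, f i ∈ C.V := by
  classical
  induction s using Finset.induction_on with
  | empty => rw [Finset.sum_empty]; exact C.V.zero_mem
  | insert a s ha ih =>
    rw [Finset.sum_insert ha]
    exact C.V.add_mem _ _ (h a (Finset.mem_insert_self _ _))
      (ih fun i hi => h i (Finset.mem_insert_of_mem hi))

theorem red_sum {ι : Type*} (s : Finset ι) (f : ι → F) (h : ∀ i ∈ s, f i ∈ C.V) :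
    C.red (∑ i ∈ s, f i) = ∑ i ∈ s, C.red (f i) := by
  classical
  induction s using Finset.induction_on with
  | empty => rw [Finset.sum_empty, Finset.sum_empty, red_zero]
  | insert a s ha ih =>
    have h1 : ∀ i ∈ s, f i ∈ C.V := fun i hi => h i (Finset.mem_insert_of_mem hi)
    rw [Finset.sum_insert ha, Finset.sum_insert ha,
      C.red_add (h a (Finset.mem_insert_self _ _)) (C.sum_mem s f h1), ih h1]

theorem prod_mem {ι : Type*} (s : Finset ι) (f : ι → F) (h : ∀ i ∈ s, f i ∈ C.V) :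
    ∏ i ∈ s, f i ∈ C.V := by
  classical
  induction s using Finset.induction_on with
  | empty => rw [Finset.prod_empty]; exact C.V.one_mem
  | insert a s ha ih =>
    rw [Finset.prod_insert ha]
    exact C.V.mul_mem _ _ (h a (Finset.mem_insert_self _ _))
      (ih fun i hi => h i (Finset.mem_insert_of_mem hi))

theorem red_prod {ι : Type*} (s : Finset ι) (f : ι → F) (h : ∀ i ∈ s, f i ∈ C.V) :
    C.red (∏ i ∈ s, f i) = ∏ i ∈ s, C.red (f i) := by
  classical
  induction s using Finset.induction_on with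
  | empty => rw [Finset.prod_empty, Finset.prod_empty, red_one]
  | insert a s ha ih =>
    have h1 : ∀ i ∈ s, f i ∈ C.V := fun i hi => h i (Finset.mem_insert_of_mem hi)
    rw [Finset.prod_insert ha, Finset.prod_insert ha,
      C.red_mul (h a (Finset.mem_insert_self _ _)) (C.prod_mem s f h1), ih h1]

@[simp] theorem red_algebraMap (a : A) : C.red (algebraMap K F a) = algebraMap k κ (π a) := by
  rw [C.red_of_mem (C.mem a), C.ρ_mem]

theorem red_algebraMap' {c : K} (hc : c ∈ A) :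
    C.red (algebraMap K F c) = algebraMap k κ (π ⟨c, hc⟩) := C.red_algebraMap ⟨c, hc⟩

theorem mem_of_red_ne_zero {f : F} (h : C.red f ≠ 0) : f ∈ C.V := by
  by_contra hf
  exact h (C.red_of_notMem hf)

theorem ne_zero_of_red_ne_zero {f : F} (h : C.red f ≠ 0) : f ≠ 0 := by
  rintro rfl
  exact h C.red_zero

theorem inv_mem_of_red_ne_zero {f : F} (h : C.red f ≠ 0) : f⁻¹ ∈ C.V := by
  have hf := C.mem_of_red_ne_zero h
  have hf0 := C.ne_zero_of_red_ne_zero h
  rw [C.red_of_mem hf] at h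
  obtain ⟨u, hu⟩ := C.loc _ h
  have h1 : f * ((u⁻¹ : (C.V)ˣ) : C.V) = 1 := by
    have h2 : (u : C.V) * ((u⁻¹ : (C.V)ˣ) : C.V) = 1 := Units.mul_inv u
    have h3 := congrArg Subtype.val h2
    rw [hu] at h3
    exact h3
  rw [inv_eq_of_mul_eq_one_right h1]
  exact SetLike.coe_mem _

theorem red_ne_zero_iff {f : F} : C.red f ≠ 0 ↔ f ≠ 0 ∧ f ∈ C.V ∧ f⁻¹ ∈ C.V := by
  refine ⟨fun h => ⟨C.ne_zero_of_red_ne_zero h, C.mem_of_red_ne_zero h,
    C.inv_mem_of_red_ne_zero h⟩, fun ⟨h0, h1, h2⟩ h3 => ?_⟩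
  have h4 : C.red (f * f⁻¹) = 1 := by rw [mul_inv_cancel₀ h0, red_one]
  rw [C.red_mul h1 h2, h3, zero_mul] at h4
  exact zero_ne_one h4

theorem inv_mem_of_notMem {f : F} (h : f ∉ C.V) : f⁻¹ ∈ C.V := (C.V.mem_or_inv_mem f).resolve_left h

theorem red_inv_of_notMem {f : F} (h : f ∉ C.V) : C.red f⁻¹ = 0 := by
  by_contra h1
  apply h
  have := C.inv_mem_of_red_ne_zero h1
  rwa [inv_inv] at this

@[simp] theorem red_inv (f : F) : C.red f⁻¹ = (C.red f)⁻¹ := by
  by_cases hf : C.red f = 0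
  · rw [hf, inv_zero]
    by_contra h1
    have h2 := C.red_ne_zero_iff.mp h1
    rw [inv_inv] at h2
    exact C.red_ne_zero_iff.mpr ⟨fun h0 => h2.1 (by rw [h0, inv_zero]), h2.2.2, h2.2.1⟩ hf
  · have h1 := C.red_ne_zero_iff.mp hf
    have h4 : C.red (f * f⁻¹) = 1 := by rw [mul_inv_cancel₀ h1.1, red_one]
    rw [C.red_mul h1.2.1 h1.2.2] at h4
    exact eq_inv_of_mul_eq_one_right h4

/-- The image of the residue map. -/
def image : Subfield κ where
  carrier := {t | ∃ f ∈ C.V, C.red f = t}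
  mul_mem' := by
    rintro _ _ ⟨f, hf, rfl⟩ ⟨g, hg, rfl⟩
    exact ⟨f * g, C.V.mul_mem _ _ hf hg, C.red_mul hf hg⟩
  one_mem' := ⟨1, C.V.one_mem, C.red_one⟩
  add_mem' := by
    rintro _ _ ⟨f, hf, rfl⟩ ⟨g, hg, rfl⟩
    exact ⟨f + g, C.V.add_mem _ _ hf hg, C.red_add hf hg⟩
  zero_mem' := ⟨0, C.V.zero_mem, C.red_zero⟩
  neg_mem' := by
    rintro _ ⟨f, hf, rfl⟩
    exact ⟨-f, C.V.neg_mem _ hf, C.red_neg f⟩
  inv_mem' := by
    rintro _ ⟨f, hf, rfl⟩
    by_cases h : C.red f = 0
    · exact ⟨0, C.V.zero_mem, by rw [h, inv_zero, C.red_zero]⟩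
    · exact ⟨f⁻¹, C.inv_mem_of_red_ne_zero h, C.red_inv f⟩

theorem mem_image {t : κ} : t ∈ C.image ↔ ∃ f ∈ C.V, C.red f = t := Iff.rfl

theorem red_mem_image (f : F) : C.red f ∈ C.image := by
  by_cases hf : f ∈ C.V
  · exact ⟨f, hf, rfl⟩
  · exact ⟨0, C.V.zero_mem, by rw [C.red_of_notMem hf, C.red_zero]⟩

theorem mem_of_red_inv_ne_zero_or {f : F} (h : f ∈ C.V) (h0 : C.red f = 0) (hne : f ≠ 0) :
    f⁻¹ ∉ C.V := fun h1 => C.red_ne_zero_iff.mpr ⟨hne, h, h1⟩ h0

end Comp

section Residue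

variable {A : ValuationSubring K} {π : A →+* k}

theorem pi_eq_zero_iff (hπ : Function.Surjective π) (a : A) : π a = 0 ↔ ¬ IsUnit a := by
  have h1 : (RingHom.ker π).IsMaximal := RingHom.ker_isMaximal_of_surjective π hπ
  have h2 := IsLocalRing.eq_maximalIdeal h1
  rw [← RingHom.mem_ker, h2, IsLocalRing.mem_maximalIdeal, mem_nonunits_iff]

theorem pi_ne_zero_iff (hπ : Function.Surjective π) (a : A) : π a ≠ 0 ↔ IsUnit a := by
  rw [ne_eq, pi_eq_zero_iff hπ, not_not]

theorem pi_inv_eq_zero (hπ : Function.Surjective π) {c : K} (hc : c ∉ A)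
    (h : c⁻¹ ∈ A) : π ⟨c⁻¹, h⟩ = 0 := by
  rw [pi_eq_zero_iff hπ]
  rintro ⟨u, hu⟩
  apply hc
  have hc0 : c ≠ 0 := by rintro rfl; exact hc A.zero_mem
  have h1 : c⁻¹ * ((u⁻¹ : Aˣ) : A) = 1 := by
    have h2 : (u : A) * ((u⁻¹ : Aˣ) : A) = 1 := Units.mul_inv u
    have h3 := congrArg Subtype.val h2
    rw [hu] at h3
    exact h3
  have h2 : c = ((u⁻¹ : Aˣ) : A) := by
    rw [← one_mul (((u⁻¹ : Aˣ) : A) : K), ← mul_inv_cancel₀ hc0, mul_assoc, h1, mul_one]
  rw [h2]
  exact SetLike.coe_mem _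

variable {F κ : Type*} [Field F] [Algebra K F] [Field κ] [Algebra k κ]

theorem Comp.algebraMap_mem_iff (C : Comp A π F κ) (hπ : Function.Surjective π) {c : K} :
    algebraMap K F c ∈ C.V ↔ c ∈ A := by
  refine ⟨fun h => ?_, fun h => C.mem ⟨c, h⟩⟩
  by_contra hc
  have hc0 : c ≠ 0 := by rintro rfl; exact hc A.zero_mem
  have hinv : c⁻¹ ∈ A := (A.mem_or_inv_mem c).resolve_left hc
  have h1 : C.red (algebraMap K F c⁻¹) = 0 := by
    rw [C.red_algebraMap' hinv, pi_inv_eq_zero hπ hc, map_zero]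
  rw [map_inv₀] at h1
  exact C.mem_of_red_inv_ne_zero_or (C.V.mem_or_inv_mem _ |>.elim (fun _ => by
    rw [← map_inv₀]; exact C.mem ⟨_, hinv⟩) id) h1
    (inv_ne_zero ((map_ne_zero _).mpr hc0)) (by rwa [inv_inv])

end Residue

section Family

variable {A : ValuationSubring K} {π : A →+* k} {F κ : Type*} [Field F] [Algebra K F]
  [Field κ] [Algebra k κ] {ι : Type*} (C : ι → Comp A π F κ)

/-- The intersection of the valuation rings of a family of components. -/
def B : Subring F := ⨅ i, (C i).V.toSubring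

theorem mem_B {f : F} : f ∈ B C ↔ ∀ i, f ∈ (C i).V := by
  rw [B, Subring.mem_iInf]
  rfl

theorem algebraMap_mem_B {c : K} (hc : c ∈ A) : algebraMap K F c ∈ B C :=
  (mem_B C).mpr fun i => (C i).mem ⟨c, hc⟩

theorem exists_denominator [Finite ι] [Infinite k] (hπ : Function.Surjective π) (a : F) :
    ∃ u : F, ∀ i, u ∈ (C i).V ∧ a * u ∈ (C i).V ∧ (a ∈ (C i).V → (C i).red u ≠ 0) ∧
      (a ∈ (C i).V → (C i).red a = 0 → (C i).red u = 1) ∧
      (a ∉ (C i).V → (C i).red u = 0) := by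
  classical
  have hfin : (⋃ i, {t : k | algebraMap k κ t = -((C i).red a)⁻¹} ∪ {0}).Finite := by
    refine Set.finite_iUnion fun i => Set.Finite.union ?_ (Set.finite_singleton _)
    refine Set.Subsingleton.finite fun t ht t' ht' => ?_
    exact (algebraMap k κ).injective (ht.trans ht'.symm)
  by_cases hι : Nonempty ι
  swap
  · exact ⟨1, fun i => (hι ⟨i⟩).elim⟩
  obtain ⟨t, ht⟩ := hfin.exists_notMem
  obtain ⟨c, rfl⟩ := hπ t
  have ht0 : π c ≠ 0 := by
    intro h
    apply ht
    rw [Set.mem_iUnion]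
    exact ⟨hι.some, Or.inr h⟩
  have ht1 : ∀ i, algebraMap k κ (π c) ≠ -((C i).red a)⁻¹ := by
    intro i h
    apply ht
    rw [Set.mem_iUnion]
    exact ⟨i, Or.inl h⟩
  refine ⟨(1 + algebraMap K F c * a)⁻¹, fun i => ?_⟩
  have hc := (C i).mem c
  have hcred : (C i).red (algebraMap K F c) ≠ 0 := by
    rw [(C i).red_algebraMap]
    exact (map_ne_zero _).mpr ht0
  by_cases ha : a ∈ (C i).V
  · have hred : (C i).red (1 + algebraMap K F c * a) ≠ 0 := by
      rw [(C i).red_add (C i).V.one_mem ((C i).V.mul_mem _ _ hc ha), (C i).red_mul hc ha,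
        (C i).red_one, (C i).red_algebraMap]
      intro h
      by_cases h0 : (C i).red a = 0
      · rw [h0, mul_zero, add_zero] at h
        exact one_ne_zero h
      · apply ht1 i
        rw [eq_neg_iff_add_eq_zero]
        have : (algebraMap k κ (π c) + ((C i).red a)⁻¹) * (C i).red a = 0 := by
          rw [add_mul, inv_mul_cancel₀ h0, ← h]
          ring
        exact (mul_eq_zero.mp this).resolve_right h0
    have hu := (C i).inv_mem_of_red_ne_zero hred
    refine ⟨hu, (C i).V.mul_mem _ _ ha hu, fun _ => ?_, fun _ h0 => ?_, fun h => (h ha).elim⟩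
    · rw [(C i).red_inv]
      exact inv_ne_zero hred
    · rw [(C i).red_inv, (C i).red_add (C i).V.one_mem ((C i).V.mul_mem _ _ hc ha),
        (C i).red_mul hc ha, h0, mul_zero, add_zero, (C i).red_one, inv_one]
  · have ha0 : a ≠ 0 := by rintro rfl; exact ha (C i).V.zero_mem
    have hai := (C i).inv_mem_of_notMem ha
    have hai0 := (C i).red_inv_of_notMem ha
    have hred : (C i).red (a⁻¹ + algebraMap K F c) ≠ 0 := by
      rw [(C i).red_add hai hc, hai0, zero_add]
      exact hcred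
    have h1 : (1 + algebraMap K F c * a) = (a⁻¹ + algebraMap K F c) * a := by
      rw [add_mul, inv_mul_cancel₀ ha0]
    have hv := (C i).inv_mem_of_red_ne_zero hred
    have h2 : (1 + algebraMap K F c * a)⁻¹ = a⁻¹ * (a⁻¹ + algebraMap K F c)⁻¹ := by
      rw [h1, mul_inv, mul_comm]
    refine ⟨?_, ?_, fun h => (ha h).elim, fun h => (ha h).elim, fun _ => ?_⟩
    · rw [h2]
      exact (C i).V.mul_mem _ _ hai hv
    · rw [h2, ← mul_assoc, mul_inv_cancel₀ ha0, one_mul]
      exact hv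
    · rw [h2, (C i).red_mul hai hv, hai0, zero_mul]

variable {C}

theorem exists_sep_pair [Finite ι] [Infinite k] (hπ : Function.Surjective π) {i j : ι}
    (h1 : ¬ (C i).V ≤ (C j).V) (h2 : ¬ (C j).V ≤ (C i).V) :
    ∃ e ∈ B C, (C i).red e = 1 ∧ (C j).red e = 0 := by
  obtain ⟨a, hai, haj⟩ := SetLike.not_le_iff_exists.mp h1
  obtain ⟨b, hbj, hbi⟩ := SetLike.not_le_iff_exists.mp h2
  obtain ⟨u, hu⟩ := exists_denominator C hπ (a * b⁻¹)
  have hbi' := (C i).inv_mem_of_notMem hbi
  have haj' := (C j).inv_mem_of_notMem haj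
  have hb0 : b ≠ 0 := by rintro rfl; exact hbi (C i).V.zero_mem
  have ha0 : a ≠ 0 := by rintro rfl; exact haj (C j).V.zero_mem
  have hti : a * b⁻¹ ∈ (C i).V := (C i).V.mul_mem _ _ hai hbi'
  have hti0 : (C i).red (a * b⁻¹) = 0 := by
    rw [(C i).red_mul hai hbi', (C i).red_inv_of_notMem hbi, mul_zero]
  have htj : a * b⁻¹ ∉ (C j).V := by
    intro h
    have h3 : (C j).red ((a * b⁻¹) * (b * a⁻¹)) = 1 := by
      rw [show (a * b⁻¹) * (b * a⁻¹) = 1 by field_simp, (C j).red_one]
    rw [(C j).red_mul h ((C j).V.mul_mem _ _ hbj haj'), (C j).red_mul hbj haj',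
      (C j).red_inv_of_notMem haj, mul_zero, mul_zero] at h3
    exact zero_ne_one h3
  exact ⟨u, (mem_B C).mpr fun l => (hu l).1, (hu i).2.2.2.1 hti hti0, (hu j).2.2.2.2 htj⟩

theorem exists_sep [Finite ι] [Infinite k] (hπ : Function.Surjective π)
    (hC : ∀ i j, i ≠ j → ¬ (C i).V ≤ (C j).V) (i : ι) :
    ∃ e ∈ B C, (C i).red e = 1 ∧ ∀ j, j ≠ i → (C j).red e = 0 := by
  classical
  have := Fintype.ofFinite ι
  choose! e he h1 h0 using fun (j : ι) (hj : i ≠ j) =>
    exists_sep_pair (C := C) hπ (hC i j hj) (hC j i hj.symm)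
  have hmem : ∀ j ∈ (Finset.univ : Finset ι).erase i, ∀ l, e j ∈ (C l).V := fun j hj =>
    (mem_B C).mp (he j (Finset.ne_of_mem_erase hj).symm)
  refine ⟨∏ j ∈ (Finset.univ : Finset ι).erase i, e j, ?_, ?_, ?_⟩
  · rw [mem_B]
    exact fun l => (C l).prod_mem _ _ fun j hj => hmem j hj l
  · rw [(C i).red_prod _ _ fun j hj => hmem j hj i]
    exact Finset.prod_eq_one fun j hj => h1 j (Finset.ne_of_mem_erase hj).symm
  · intro j hj
    rw [(C j).red_prod _ _ fun l hl => hmem l hl j]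
    exact Finset.prod_eq_zero (Finset.mem_erase.mpr ⟨hj, Finset.mem_univ j⟩) (h0 j hj.symm)

/-- **Weak approximation**: the reduction map from `⋂ V i` to the product of the images of the
residue maps is surjective. -/
theorem exists_lift [Finite ι] [Infinite k] (hπ : Function.Surjective π)
    (hC : ∀ i j, i ≠ j → ¬ (C i).V ≤ (C j).V) (t : ι → κ) (ht : ∀ i, t i ∈ (C i).image) :
    ∃ y ∈ B C, ∀ i, (C i).red y = t i := by
  classical
  have := Fintype.ofFinite ι
  have key : ∀ i, ∃ y ∈ B C, (C i).red y = t i ∧ ∀ j, j ≠ i → (C j).red y = 0 := by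
    intro i
    obtain ⟨e, he, he1, he0⟩ := exists_sep hπ hC i
    obtain ⟨y, hy, hyt⟩ := ht i
    obtain ⟨u, hu⟩ := exists_denominator C hπ y
    have heB := (mem_B C).mp he
    have hb1 : ∀ l, u * e + (1 - e) ∈ (C l).V := fun l =>
      (C l).V.add_mem _ _ ((C l).V.mul_mem _ _ (hu l).1 (heB l))
        ((C l).sub_mem (C l).V.one_mem (heB l))
    have hb2 : ∀ l, (C l).red (u * e + (1 - e)) =
        (C l).red u * (C l).red e + (1 - (C l).red e) := fun l => by
      rw [(C l).red_add ((C l).V.mul_mem _ _ (hu l).1 (heB l))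
        ((C l).sub_mem (C l).V.one_mem (heB l)), (C l).red_mul (hu l).1 (heB l),
        (C l).red_sub (C l).V.one_mem (heB l), (C l).red_one]
    have hb3 : (C i).red (u * e + (1 - e)) = (C i).red u := by rw [hb2, he1]; ring
    have hb4 : ∀ l, l ≠ i → (C l).red (u * e + (1 - e)) = 1 := fun l hl => by
      rw [hb2, he0 l hl]; ring
    have hb5 : ∀ l, (C l).red (u * e + (1 - e)) ≠ 0 := by
      intro l
      by_cases hl : l = i
      · subst hl
        rw [hb3]
        exact (hu l).2.2.1 hy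
      · rw [hb4 l hl]
        exact one_ne_zero
    have hb6 : ∀ l, (u * e + (1 - e))⁻¹ ∈ (C l).V := fun l => (C l).inv_mem_of_red_ne_zero (hb5 l)
    have hz : ∀ l, (y * u) * (u * e + (1 - e))⁻¹ ∈ (C l).V := fun l =>
      (C l).V.mul_mem _ _ (hu l).2.1 (hb6 l)
    refine ⟨(y * u) * (u * e + (1 - e))⁻¹ * e, ?_, ?_, ?_⟩
    · rw [mem_B]
      exact fun l => (C l).V.mul_mem _ _ (hz l) (heB l)
    · rw [(C i).red_mul (hz i) (heB i), (C i).red_mul (hu i).2.1 (hb6 i), (C i).red_inv, hb3,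
        (C i).red_mul hy (hu i).1, he1, hyt, mul_one,
        mul_inv_cancel_right₀ ((hu i).2.2.1 hy)]
    · intro j hj
      rw [(C j).red_mul (hz j) (heB j), he0 j hj, mul_zero]
  choose y hy h1 h0 using key
  refine ⟨∑ i, y i, (mem_B C).mpr fun l => (C l).sum_mem _ _ fun i _ => (mem_B C).mp (hy i) l,
    fun j => ?_⟩
  rw [(C j).red_sum _ _ fun i _ => (mem_B C).mp (hy i) j, Finset.sum_eq_single j]
  · exact h1 j
  · intro i _ hi
    exact h0 i j hi.symm
  · intro h
    exact (h (Finset.mem_univ j)).elim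

end Family

end Fermat.Agent.H84
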