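import Mathlib
import Fermat.Agent.H84Approx
import Fermat.Agent.H42Gauss
import Fermat.Agent.H3RR_FF

/-!
# Frames: orthonormal bases for several Gauss-type valuations at once

`x` is an element of `F` which is residually transcendental at every component of a finite family.
A frame is a finite family `b j` in the intersection `B` of the valuation rings whose reductions are
independent over `k(x̄)` (diagonally embedded) and which spans `F` over `K(x)`.
-/

set_option autoImplicit false

open Polynomial IntermediateField Module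

namespace Fermat.Agent.H84

variable {K k : Type*} [Field K] [Field k] {A : ValuationSubring K} {π : A →+* k}
  {F κ : Type*} [Field F] [Algebra K F] [Field κ] [Algebra k κ]

namespace Comp

variable (C : Comp A π F κ)

/-- The constants. -/
def constHom : A →+* C.V where
  toFun a := ⟨algebraMap K F a, C.mem a⟩
  map_zero' := Subtype.ext (by simp)
  map_one' := Subtype.ext (by simp)
  map_add' a b := Subtype.ext (by simp)
  map_mul' a b := Subtype.ext (by simp)

/-- Evaluation of polynomials with coefficients in `A`. -/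
noncomputable def evHom {x : F} (hx : x ∈ C.V) : A[X] →+* C.V := eval₂RingHom C.constHom ⟨x, hx⟩

theorem coe_evHom {x : F} (hx : x ∈ C.V) (P : A[X]) :
    (C.evHom hx P : F) = aeval x (P.map A.subtype) := by
  have h : C.V.subtype.comp (C.evHom hx) =
      ((aeval (R := K) x).toRingHom.comp (mapRingHom A.subtype)) := by
    apply Polynomial.ringHom_ext
    · intro a
      simp [evHom, constHom]
    · simp [evHom]
  exact RingHom.congr_fun h P

theorem rho_evHom {x : F} (hx : x ∈ C.V) (P : A[X]) :
    C.ρ (C.evHom hx P) = aeval (C.red x) (P.map π) := by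
  have h : C.ρ.comp (C.evHom hx) =
      ((aeval (R := k) (C.red x)).toRingHom.comp (mapRingHom π)) := by
    apply Polynomial.ringHom_ext
    · intro a
      simp [evHom, constHom, C.ρ_mem]
    · simp [evHom, C.red_of_mem hx]
  exact RingHom.congr_fun h P

theorem aeval_mem {x : F} (hx : x ∈ C.V) (P : A[X]) : aeval x (P.map A.subtype) ∈ C.V := by
  rw [← C.coe_evHom hx]
  exact SetLike.coe_mem _

theorem red_aeval {x : F} (hx : x ∈ C.V) (P : A[X]) :
    C.red (aeval x (P.map A.subtype)) = aeval (C.red x) (P.map π) := by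
  rw [C.red_of_mem (C.aeval_mem hx P), ← C.rho_evHom hx P]
  congr 1
  exact Subtype.ext (C.coe_evHom hx P).symm

end Comp

section Scale

theorem map_pi_ne_zero_of_coeff_eq_one {P : A[X]} {a : ℕ} (h : P.coeff a = 1) : P.map π ≠ 0 := by
  intro h0
  have h3 := congrArg (fun p => p.coeff a) h0
  simp only [coeff_map, coeff_zero] at h3
  rw [h, map_one] at h3
  exact one_ne_zero h3

/-- A nonzero polynomial over `K` is a constant times a primitive polynomial over `A`. -/
theorem exists_primitive {Q : K[X]} (hQ : Q ≠ 0) :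
    ∃ (c : K) (Q' : A[X]), c ≠ 0 ∧ Q = C c * Q'.map A.subtype ∧ Q'.map π ≠ 0 := by
  obtain ⟨c, q', hc, h1, ⟨⟩, a, h2⟩ := H42.exists_scale_poly A (fun _ : Unit => Q)
    (fun h => hQ (congrFun h ()))
  exact ⟨c, q' (), hc, h1 (), map_pi_ne_zero_of_coeff_eq_one h2⟩

theorem pi_unit_inv {c : K} (hπ : Function.Surjective π) (hc : c ∈ A) (h : π ⟨c, hc⟩ ≠ 0) :
    c⁻¹ ∈ A := by
  obtain ⟨u, hu⟩ := (pi_ne_zero_iff hπ _).mp h
  have h1 : c * ((u⁻¹ : Aˣ) : A) = 1 := by
    have h2 : (u : A) * ((u⁻¹ : Aˣ) : A) = 1 := Units.mul_inv u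
    have h3 := congrArg Subtype.val h2
    rw [hu] at h3
    exact h3
  rw [inv_eq_of_mul_eq_one_right h1]
  exact SetLike.coe_mem _

variable {ι : Type*} (C : ι → Comp A π F κ)

/-- If the `u j` have `k`-independent reductions then a `K`-linear combination lies in `B` only if
all coefficients lie in `A`. -/
theorem coeff_mem_of_sum_mem (hπ : Function.Surjective π) {J : Type*} [Fintype J] (u : J → F)
    (hu : ∀ j, u j ∈ B C) (hind : LinearIndependent k (fun j i => (C i).red (u j)))
    (c : J → K) (h : ∑ j, algebraMap K F (c j) * u j ∈ B C) (j : J) : c j ∈ A := by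
  classical
  by_cases hc0 : ∃ j ∈ Finset.univ, c j ≠ 0
  swap
  · push Not at hc0
    rw [hc0 j (Finset.mem_univ j)]
    exact A.zero_mem
  obtain ⟨d, hd, hmem, j₁, -, h1⟩ := H42.exists_scale A Finset.univ c hc0
  by_cases hdA : d ∈ A
  · have h2 := A.mul_mem _ _ hdA (hmem j (Finset.mem_univ j))
    rwa [mul_inv_cancel_left₀ hd] at h2
  exfalso
  have hdinv : d⁻¹ ∈ A := (A.mem_or_inv_mem d).resolve_left hdA
  have hmem' := fun j => hmem j (Finset.mem_univ j)
  have key : ∀ i, ∑ j, π ⟨d⁻¹ * c j, hmem' j⟩ • (C i).red (u j) = 0 := by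
    intro i
    have hui := fun j => (mem_B C).mp (hu j) i
    have h3 : (C i).red (∑ j, algebraMap K F (d⁻¹ * c j) * u j) = 0 := by
      have h4 : ∑ j, algebraMap K F (d⁻¹ * c j) * u j =
          algebraMap K F d⁻¹ * ∑ j, algebraMap K F (c j) * u j := by
        rw [Finset.mul_sum]
        exact Finset.sum_congr rfl fun j _ => by rw [map_mul]; ring
      rw [h4, (C i).red_mul ((C i).mem ⟨_, hdinv⟩) ((mem_B C).mp h i),
        (C i).red_algebraMap' hdinv, pi_inv_eq_zero hπ hdA, map_zero, zero_mul]
    rw [(C i).red_sum _ _ fun j _ => (C i).V.mul_mem _ _ ((C i).mem ⟨_, hmem' j⟩) (hui j)] at h3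
    rw [← h3]
    refine Finset.sum_congr rfl fun j _ => ?_
    rw [(C i).red_mul ((C i).mem ⟨_, hmem' j⟩) (hui j), (C i).red_algebraMap' (hmem' j),
      Algebra.smul_def]
  have h5 := Fintype.linearIndependent_iff.mp hind (fun j => π ⟨d⁻¹ * c j, hmem' j⟩) (by
    funext i
    rw [Finset.sum_apply]
    exact key i) j₁
  have h6 : (⟨d⁻¹ * c j₁, hmem' j₁⟩ : A) = 1 := Subtype.ext h1
  rw [h6, map_one] at h5
  exact one_ne_zero h5

theorem linearIndependent_of_red (hπ : Function.Surjective π) {J : Type*} [Finite J] (u : J → F)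
    (hu : ∀ j, u j ∈ B C) (hind : LinearIndependent k (fun j i => (C i).red (u j))) :
    LinearIndependent K u := by
  classical
  have := Fintype.ofFinite J
  rw [Fintype.linearIndependent_iff]
  intro g hg j
  by_contra hj
  -- some multiple is not in `A`
  have key : ∀ a : K, a * g j ∈ A := by
    intro a
    refine coeff_mem_of_sum_mem C hπ u hu hind (fun j => a * g j) ?_ j
    have : ∑ j, algebraMap K F (a * g j) * u j = 0 := by
      rw [← mul_zero (algebraMap K F a), ← hg, Finset.mul_sum]
      exact Finset.sum_congr rfl fun j _ => by rw [map_mul, Algebra.smul_def]; ring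
    rw [this]
    exact (B C).zero_mem
  have htop : A = ⊤ := by
    ext a
    refine ⟨fun _ => trivial, fun _ => ?_⟩
    have := key (a * (g j)⁻¹)
    rwa [inv_mul_cancel_right₀ hj] at this
  -- then `A = K` and everything reduces injectively
  have hmem : ∀ c : K, c ∈ A := fun c => by rw [htop]; trivial
  have h5 := Fintype.linearIndependent_iff.mp hind (fun j => π ⟨g j, hmem _⟩) (by
    funext i
    have hui := fun j => (mem_B C).mp (hu j) i
    rw [Finset.sum_apply]
    have h3 : (C i).red (∑ j, algebraMap K F (g j) * u j) = 0 := by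
      have : ∑ j, algebraMap K F (g j) * u j = 0 := by
        rw [← hg]
        exact Finset.sum_congr rfl fun j _ => by rw [Algebra.smul_def]
      rw [this, (C i).red_zero]
    rw [(C i).red_sum _ _ fun j _ => (C i).V.mul_mem _ _ ((C i).mem ⟨_, hmem _⟩) (hui j)] at h3
    rw [Pi.zero_apply, ← h3]
    refine Finset.sum_congr rfl fun j _ => ?_
    rw [(C i).red_mul ((C i).mem ⟨_, hmem _⟩) (hui j), (C i).red_algebraMap' (hmem _)]
    exact Algebra.smul_def _ _) j
  rw [pi_eq_zero_iff hπ] at h5
  apply h5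
  exact IsUnit.of_mul_eq_one ⟨(g j)⁻¹, hmem _⟩ (Subtype.ext (mul_inv_cancel₀ hj))

end Scale

section Basis

variable {ι : Type*} (C : ι → Comp A π F κ)

theorem exists_basis_of_le {J : Type*} [Fintype J] (u : J → F) (hu : ∀ j, u j ∈ B C)
    (hind : LinearIndependent k (fun j i => (C i).red (u j))) (W : Submodule K F)
    (hW : W ≤ Submodule.span K (Set.range u)) :
    ∃ (d : ℕ) (w : Fin d → F), (∀ m, w m ∈ B C) ∧ Submodule.span K (Set.range w) = W ∧
      LinearIndependent k (fun m i => (C i).red (w m)) := by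
  classical
  let Φ : (J → K) →ₗ[K] F := Fintype.linearCombination K u
  have hΦ : LinearMap.range Φ = Submodule.span K (Set.range u) :=
    Fintype.range_linearCombination K _
  obtain ⟨d, w, p, hspan, hp⟩ := H42.exists_lattice_basis A (W.comap Φ)
  have hmem : ∀ m i, ∀ j ∈ (Finset.univ : Finset J), algebraMap K F (w m j) * u j ∈ (C i).V :=
    fun m i j _ => (C i).V.mul_mem _ _ ((C i).mem _) ((mem_B C).mp (hu j) i)
  refine ⟨d, fun m => ∑ j, algebraMap K F (w m j) * u j, fun m => ?_, ?_, ?_⟩
  · rw [mem_B]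
    exact fun i => (C i).sum_mem _ _ (hmem m i)
  · have h1 : (fun m => ∑ j, algebraMap K F (w m j) * u j) =
        fun m => Φ (fun j => (w m j : K)) := by
      funext m
      simp only [Φ, Fintype.linearCombination_apply, Algebra.smul_def]
    rw [h1]
    have h2 : Set.range (fun m => Φ (fun j => (w m j : K))) =
        Φ '' (Set.range fun (m : Fin d) (j : J) => (w m j : K)) := by
      rw [← Set.range_comp]
      rfl
    rw [h2, ← Submodule.map_span, hspan, Submodule.map_comap_eq, hΦ, inf_eq_right]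
    exact hW
  · rw [Fintype.linearIndependent_iff]
    intro g hg m
    have h3 : ∑ j, (∑ m, g m * π (w m j)) • (fun i => (C i).red (u j)) = 0 := by
      rw [← hg]
      funext i
      simp only [Finset.sum_apply, Pi.smul_apply]
      have h4 : ∀ m, (C i).red (∑ j, algebraMap K F (w m j) * u j) =
          ∑ j, algebraMap k κ (π (w m j)) * (C i).red (u j) := by
        intro m
        rw [(C i).red_sum _ _ (hmem m i)]
        refine Finset.sum_congr rfl fun j _ => ?_
        rw [(C i).red_mul ((C i).mem _) ((mem_B C).mp (hu j) i), (C i).red_algebraMap]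
      simp only [h4, Algebra.smul_def, Finset.mul_sum, map_sum, map_mul, Finset.sum_mul]
      rw [Finset.sum_comm]
      exact Finset.sum_congr rfl fun m _ => Finset.sum_congr rfl fun j _ => by ring
    have h4 := Fintype.linearIndependent_iff.mp hind _ h3 (p m)
    simpa [hp, apply_ite π] using h4

end Basis

section Frame

variable {ι : Type*} (C : ι → Comp A π F κ) (x : F)

/-- `x` is residually transcendental at all components. -/
def ResTrans : Prop := ∀ i, x ∈ (C i).V ∧ Transcendental k ((C i).red x)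

/-- A frame: elements of `B` with reductions independent over `k(x̄)`, spanning `F` over `K(x)`. -/
structure IsFrame {J : Type*} [Fintype J] (b : J → F) : Prop where
  mem : ∀ j, b j ∈ B C
  ind : ∀ q : J → k[X], (∀ i, ∑ j, aeval ((C i).red x) (q j) * (C i).red (b j) = 0) → q = 0
  span : ∀ f : F, ∃ (Q : K[X]) (p : J → K[X]), Q ≠ 0 ∧
    aeval x Q * f = ∑ j, aeval x (p j) * b j

variable {C x}

/-- Polynomial independence upstairs. -/
theorem poly_ind {J : Type*} [Fintype J] {b : J → F} (hx : ResTrans C x)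
    (mem : ∀ j, b j ∈ B C)
    (ind : ∀ q : J → k[X], (∀ i, ∑ j, aeval ((C i).red x) (q j) * (C i).red (b j) = 0) → q = 0)
    (p : J → K[X]) (h : ∑ j, aeval x (p j) * b j = 0) : p = 0 := by
  by_contra hne
  obtain ⟨c, q', hc, hq', j₀, a₀, h1⟩ := H42.exists_scale_poly A p hne
  have h2 : ∑ j, aeval x ((q' j).map A.subtype) * b j = 0 := by
    have h3 : algebraMap K F c * ∑ j, aeval x ((q' j).map A.subtype) * b j = 0 := by
      rw [← h, Finset.mul_sum]
      refine Finset.sum_congr rfl fun j _ => ?_
      rw [hq' j, map_mul, aeval_C, mul_assoc]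
    exact (mul_eq_zero.mp h3).resolve_left ((_root_.map_ne_zero _).mpr hc)
  have h4 := ind (fun j => (q' j).map π) (fun i => by
    have h5 : (C i).red (∑ j, aeval x ((q' j).map A.subtype) * b j) = 0 := by
      rw [h2, (C i).red_zero]
    have hb := fun j => (mem_B C).mp (mem j) i
    rw [(C i).red_sum _ _ fun j _ =>
      (C i).V.mul_mem _ _ ((C i).aeval_mem (hx i).1 _) (hb j)] at h5
    rw [← h5]
    refine Finset.sum_congr rfl fun j _ => ?_
    rw [(C i).red_mul ((C i).aeval_mem (hx i).1 _) (hb j), (C i).red_aeval (hx i).1])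
  exact map_pi_ne_zero_of_coeff_eq_one (π := π) h1 (congrFun h4 j₀)

theorem transcendental_of_resTrans [Nonempty ι] (hx : ResTrans C x) : Transcendental K x := by
  obtain ⟨i⟩ := (inferInstance : Nonempty ι)
  rw [transcendental_iff]
  intro p hp
  by_contra hne
  obtain ⟨c, Q, hc, rfl, hQ⟩ := exists_primitive (A := A) (π := π) hne
  rw [map_mul, aeval_C] at hp
  have h1 := (mul_eq_zero.mp hp).resolve_left ((_root_.map_ne_zero _).mpr hc)
  have h2 := (C i).red_aeval (hx i).1 Q
  rw [h1, (C i).red_zero] at h2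
  exact hQ ((transcendental_iff.mp (hx i).2) _ h2.symm)

theorem linearIndependent_frame [Nonempty ι] {J : Type*} [Fintype J] {b : J → F}
    (hx : ResTrans C x) (mem : ∀ j, b j ∈ B C)
    (ind : ∀ q : J → k[X], (∀ i, ∑ j, aeval ((C i).red x) (q j) * (C i).red (b j) = 0) → q = 0) :
    LinearIndependent K⟮x⟯ b := by
  refine H3RR.linearIndependent_of_poly (transcendental_of_resTrans hx) b fun p hp ⟨j, hj⟩ => ?_
  rw [poly_ind hx mem ind p hp] at hj
  exact hj rfl

/-- A polynomially independent family of the right cardinality is a frame. -/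
theorem isFrame_of_card [Nonempty ι] {J : Type*} [Fintype J] {b : J → F}
    (hx : ResTrans C x) [FiniteDimensional K⟮x⟯ F] (mem : ∀ j, b j ∈ B C)
    (ind : ∀ q : J → k[X], (∀ i, ∑ j, aeval ((C i).red x) (q j) * (C i).red (b j) = 0) → q = 0)
    (hcard : finrank K⟮x⟯ F ≤ Fintype.card J) : IsFrame C x b := by
  refine ⟨mem, ind, fun f => ?_⟩
  by_contra hcon
  push Not at hcon
  have hli : LinearIndependent K⟮x⟯ (fun j : Option J => j.elim f b) := by
    refine H3RR.linearIndependent_of_poly (transcendental_of_resTrans hx) _ fun p hp hne => ?_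
    rw [Fintype.sum_option] at hp
    simp only [Option.elim_none, Option.elim_some] at hp
    by_cases h0 : p none = 0
    · rw [h0, map_zero, zero_mul, zero_add] at hp
      have h1 := poly_ind hx mem ind (fun j => p (some j)) hp
      obtain ⟨j, hj⟩ := hne
      cases j with
      | none => rw [h0] at hj; exact hj rfl
      | some j => exact hj (by rw [congrFun h1 j]; rfl)
    · refine hcon (p none) (fun j => - p (some j)) h0 ?_
      rw [eq_comm, ← sub_eq_zero, sub_eq_add_neg, ← neg_eq_zero, neg_add, neg_neg, ← hp,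
        add_comm (aeval x (p none) * f)]
      congr 1
      rw [← Finset.sum_neg_distrib]
      exact Finset.sum_congr rfl fun j _ => by rw [map_neg]; ring
  have h1 := hli.fintype_card_le_finrank
  rw [Fintype.card_option] at h1
  omega

variable (C x)

open Classical in
/-- Independence over `k(x̄)` of a family of elements of the residue fields, `β j` sitting at the
component `τ j`. -/
def FamInd {J : Type*} [Fintype J] (τ : J → ι) (β : J → κ) : Prop :=
  ∀ q : J → k[X],
    (∀ i, ∑ j, (if τ j = i then aeval ((C i).red x) (q j) * β j else 0) = 0) → q = 0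

open Classical in
/-- Lifting independent families of the residue fields. -/
theorem exists_lift_family [Finite ι] [Infinite k] (hπ : Function.Surjective π)
    (hC : ∀ i j, i ≠ j → ¬ (C i).V ≤ (C j).V)
    {J : Type*} [Fintype J] (τ : J → ι) (β : J → κ) (hβ : ∀ j, β j ∈ (C (τ j)).image)
    (hind : FamInd C x τ β) :
    ∃ b : J → F, (∀ j, b j ∈ B C) ∧ (∀ j i, (C i).red (b j) = if τ j = i then β j else 0) ∧
      ∀ q : J → k[X], (∀ i, ∑ j, aeval ((C i).red x) (q j) * (C i).red (b j) = 0) → q = 0 := by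
  choose b hb hbt using fun j : J =>
    exists_lift (C := C) hπ hC (fun i => if τ j = i then β j else 0) (fun i => by
      split_ifs with h
      · rw [← h]; exact hβ j
      · exact (C i).image.zero_mem)
  refine ⟨b, hb, hbt, fun q hq => hind q fun i => ?_⟩
  refine Eq.trans (Finset.sum_congr rfl fun j _ => ?_) (hq i)
  rw [hbt j i]
  split_ifs
  · rfl
  · rw [mul_zero]

/-- The fundamental inequality. -/
theorem card_le_finrank [Finite ι] [Nonempty ι] [Infinite k] (hπ : Function.Surjective π)
    (hC : ∀ i j, i ≠ j → ¬ (C i).V ≤ (C j).V) (hx : ResTrans C x)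
    [FiniteDimensional K⟮x⟯ F] {J : Type*} [Fintype J] (τ : J → ι) (β : J → κ)
    (hβ : ∀ j, β j ∈ (C (τ j)).image) (hind : FamInd C x τ β) :
    Fintype.card J ≤ finrank K⟮x⟯ F := by
  obtain ⟨b, hb, -, h⟩ := exists_lift_family C x hπ hC τ β hβ hind
  exact (linearIndependent_frame hx hb h).fintype_card_le_finrank

/-- Existence of frames. -/
theorem exists_isFrame [Finite ι] [Nonempty ι] [Infinite k] (hπ : Function.Surjective π)
    (hC : ∀ i j, i ≠ j → ¬ (C i).V ≤ (C j).V) (hx : ResTrans C x)
    [FiniteDimensional K⟮x⟯ F] {J : Type*} [Fintype J] (τ : J → ι) (β : J → κ)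
    (hβ : ∀ j, β j ∈ (C (τ j)).image) (hind : FamInd C x τ β)
    (hcard : finrank K⟮x⟯ F ≤ Fintype.card J) :
    ∃ b : J → F, IsFrame C x b := by
  obtain ⟨b, hb, -, h⟩ := exists_lift_family C x hπ hC τ β hβ hind
  exact ⟨b, isFrame_of_card hx hb h hcard⟩

section Residue

variable {κ₀ : Type*} [Field κ₀] [Algebra k κ₀] (j₀ : κ₀ →ₐ[k] κ) (x₀ : ι → κ₀)

/-- The family obtained from bases of a function field `κ₀` over the `k(x₀ i)`. -/
noncomputable def basisFam [∀ i, FiniteDimensional k⟮x₀ i⟯ κ₀] :
    (Σ i, Fin (finrank k⟮x₀ i⟯ κ₀)) → κ :=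
  fun j => j₀ (Module.finBasis k⟮x₀ j.1⟯ κ₀ j.2)

theorem basis_indep {y : κ₀} (hy : Transcendental k y) [FiniteDimensional k⟮y⟯ κ₀]
    (q : Fin (finrank k⟮y⟯ κ₀) → k[X])
    (h : ∑ m, aeval y (q m) * Module.finBasis k⟮y⟯ κ₀ m = 0) : q = 0 := by
  funext m
  have hmem : ∀ p : k[X], aeval y p ∈ k⟮y⟯ := fun p =>
    algebra_adjoin_le_adjoin k _ (Polynomial.aeval_mem_adjoin_singleton k y (p := p))
  have h3 := Fintype.linearIndependent_iff.mp (Module.finBasis k⟮y⟯ κ₀).linearIndependent
    (fun m => ⟨aeval y (q m), hmem _⟩) (by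
      rw [← h]
      exact Finset.sum_congr rfl fun m _ => rfl) m
  exact (transcendental_iff.mp hy) _ (congrArg Subtype.val h3)

theorem famInd_basisFam [Fintype ι] (hx : ResTrans C x) (hx₀ : ∀ i, j₀ (x₀ i) = (C i).red x)
    [∀ i, FiniteDimensional k⟮x₀ i⟯ κ₀] :
    FamInd C x (fun j : (Σ i, Fin (finrank k⟮x₀ i⟯ κ₀)) => j.1) (basisFam j₀ x₀) := by
  classical
  intro q hq
  funext ⟨i, m⟩
  have h1 := hq i
  rw [Fintype.sum_sigma, Finset.sum_eq_single i] at h1
  · have htr : Transcendental k (x₀ i) := by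
      have h2 := (hx i).2
      rw [← hx₀ i] at h2
      exact transcendental_iff.mpr fun p hp => (transcendental_iff.mp h2) p (by
        rw [Polynomial.aeval_algHom_apply, hp, map_zero])
    refine congrFun (basis_indep htr (fun m => q ⟨i, m⟩) ?_) m
    have h3 : j₀ (∑ m, aeval (x₀ i) (q ⟨i, m⟩) * Module.finBasis k⟮x₀ i⟯ κ₀ m) = 0 := by
      rw [map_sum, ← h1]
      refine Finset.sum_congr rfl fun m _ => ?_
      rw [if_pos rfl, map_mul, ← Polynomial.aeval_algHom_apply j₀, hx₀ i, basisFam]
    exact (map_eq_zero_iff j₀ (RingHom.injective j₀.toRingHom)).mp h3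
  · intro i' _ hi'
    exact Finset.sum_eq_zero fun m _ => if_neg hi'
  · intro h
    exact (h (Finset.mem_univ i)).elim

/-- The sum of the residue degrees is at most the degree. -/
theorem sum_finrank_le [Fintype ι] [Nonempty ι] [Infinite k] (hπ : Function.Surjective π)
    (hC : ∀ i j, i ≠ j → ¬ (C i).V ≤ (C j).V) (hx : ResTrans C x)
    (hx₀ : ∀ i, j₀ (x₀ i) = (C i).red x) (hj₀ : ∀ i t, j₀ t ∈ (C i).image)
    [FiniteDimensional K⟮x⟯ F] [∀ i, FiniteDimensional k⟮x₀ i⟯ κ₀] :
    ∑ i, finrank k⟮x₀ i⟯ κ₀ ≤ finrank K⟮x⟯ F := by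
  have := card_le_finrank C x hπ hC hx (fun j : (Σ i, Fin (finrank k⟮x₀ i⟯ κ₀)) => j.1)
    (basisFam j₀ x₀) (fun j => hj₀ j.1 _) (famInd_basisFam C x j₀ x₀ hx hx₀)
  simpa [Fintype.card_sigma] using this

/-- If the residue degrees of the subfield `κ₀` already exhaust the degree, then there is a frame
with reductions in `κ₀`. -/
theorem exists_isFrame_of_sum [Fintype ι] [Nonempty ι] [Infinite k] (hπ : Function.Surjective π)
    (hC : ∀ i j, i ≠ j → ¬ (C i).V ≤ (C j).V) (hx : ResTrans C x)
    (hx₀ : ∀ i, j₀ (x₀ i) = (C i).red x) (hj₀ : ∀ i t, j₀ t ∈ (C i).image)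
    [FiniteDimensional K⟮x⟯ F] [∀ i, FiniteDimensional k⟮x₀ i⟯ κ₀]
    (hsum : finrank K⟮x⟯ F ≤ ∑ i, finrank k⟮x₀ i⟯ κ₀) :
    ∃ b : (Σ i, Fin (finrank k⟮x₀ i⟯ κ₀)) → F, IsFrame C x b :=
  exists_isFrame C x hπ hC hx (fun j : (Σ i, Fin (finrank k⟮x₀ i⟯ κ₀)) => j.1)
    (basisFam j₀ x₀) (fun j => hj₀ j.1 _) (famInd_basisFam C x j₀ x₀ hx hx₀)
    (by simpa [Fintype.card_sigma] using hsum)

/-- **The residue fields are `κ₀`** as soon as the residue degrees of `κ₀` exhaust the degree. -/
theorem image_le_range_of_sum [Fintype ι] [Infinite k] (hπ : Function.Surjective π)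
    (hC : ∀ i j, i ≠ j → ¬ (C i).V ≤ (C j).V) (hx : ResTrans C x)
    (hx₀ : ∀ i, j₀ (x₀ i) = (C i).red x) (hj₀ : ∀ i t, j₀ t ∈ (C i).image)
    [FiniteDimensional K⟮x⟯ F] [∀ i, FiniteDimensional k⟮x₀ i⟯ κ₀]
    (hsum : finrank K⟮x⟯ F ≤ ∑ i, finrank k⟮x₀ i⟯ κ₀) (i : ι) {t : κ}
    (ht : t ∈ (C i).image) : t ∈ Set.range j₀ := by
  classical
  have : Nonempty ι := ⟨i⟩
  by_contra hcon
  let J := (Σ i, Fin (finrank k⟮x₀ i⟯ κ₀))
  have hfam : FamInd C x (fun j : Option J => j.elim i (fun j => j.1))
      (fun j : Option J => j.elim t (basisFam j₀ x₀)) := by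
    intro q hq
    have h0 : q none = 0 := by
      by_contra hne
      apply hcon
      have h1 := hq i
      rw [Fintype.sum_option] at h1
      simp only [Option.elim_none, if_true, Option.elim_some] at h1
      have h2 : aeval ((C i).red x) (q none) ≠ 0 := fun h =>
        hne ((transcendental_iff.mp (hx i).2) _ h)
      have h3 : t = j₀ (-(∑ j : J, (if j.1 = i then aeval (x₀ i) (q (some j)) *
          Module.finBasis k⟮x₀ j.1⟯ κ₀ j.2 else 0)) * (aeval (x₀ i) (q none))⁻¹) := by
        have h4 : ∑ j : J, (if j.1 = i then aeval ((C i).red x) (q (some j)) *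
            basisFam j₀ x₀ j else 0) = j₀ (∑ j : J, (if j.1 = i then aeval (x₀ i) (q (some j)) *
              Module.finBasis k⟮x₀ j.1⟯ κ₀ j.2 else 0)) := by
          rw [map_sum]
          refine Finset.sum_congr rfl fun j _ => ?_
          split_ifs
          · rw [map_mul, ← Polynomial.aeval_algHom_apply j₀, hx₀ i]
            rfl
          · rw [map_zero]
        rw [map_mul, map_inv₀, ← Polynomial.aeval_algHom_apply j₀, hx₀ i,
          eq_mul_inv_iff_mul_eq₀ h2, map_neg, mul_comm, eq_neg_iff_add_eq_zero, ← h4]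
        exact h1
      exact ⟨_, h3.symm⟩
    have h1 := famInd_basisFam C x j₀ x₀ hx hx₀ (fun j => q (some j)) (fun i' => by
      have h2 := hq i'
      rw [Fintype.sum_option] at h2
      simp only [Option.elim_none, Option.elim_some, h0, map_zero, zero_mul, ite_self,
        zero_add] at h2
      exact h2)
    funext j
    cases j with
    | none => exact h0
    | some j => exact congrFun h1 j
  have h1 := card_le_finrank C x hπ hC hx _ _ (fun j => by
    cases j with
    | none => exact ht
    | some j => exact hj₀ j.1 _) hfam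
  rw [Fintype.card_option, Fintype.card_sigma] at h1
  simp only [Fintype.card_fin] at h1
  omega

end Residue

end Frame

end Fermat.Agent.H84
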