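import Mathlib
import Fermat.Agent.H84Frame

/-!
# Frames give orthonormal bases of all finite dimensional subspaces

Main results: `IsFrame.exists_basis` (every finite dimensional `K`-subspace of `F` has a basis in
`B` whose reductions are `k`-independent), `redSub` (the space of reductions) and `finrank_redSub`.
-/

set_option autoImplicit false

open Polynomial IntermediateField Module

namespace Fermat.Agent.H84

variable {K k : Type*} [Field K] [Field k] {A : ValuationSubring K} {π : A →+* k}
  {F κ : Type*} [Field F] [Algebra K F] [Field κ] [Algebra k κ]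
  {ι : Type*} {C : ι → Comp A π F κ} {x : F}

namespace IsFrame

variable {J : Type*} [Fintype J] {b : J → F}

theorem linearIndependent_monomials (hb : IsFrame C x b) (M : ℕ) :
    LinearIndependent k (fun (y : Fin M × J) i => (C i).red x ^ (y.1 : ℕ) * (C i).red (b y.2)) := by
  classical
  rw [Fintype.linearIndependent_iff]
  intro g hg y
  have h1 := hb.ind (fun i => ∑ a : Fin M, monomial (a : ℕ) (g (a, i))) ?_
  · have h2 := congrArg (fun p => p.coeff (y.1 : ℕ)) (congrFun h1 y.2)
    simp only [finsetSum_coeff, coeff_monomial, Pi.zero_apply, coeff_zero] at h2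
    rw [Finset.sum_eq_single y.1] at h2
    · simpa using h2
    · intro a _ ha
      rw [if_neg]
      exact fun h => ha (Fin.ext h)
    · intro h
      exact absurd (Finset.mem_univ _) h
  · intro i
    have h3 := congrFun hg i
    rw [Finset.sum_apply, Pi.zero_apply] at h3
    rw [← h3, Fintype.sum_prod_type_right]
    refine Finset.sum_congr rfl fun j _ => ?_
    rw [map_sum, Finset.sum_mul]
    refine Finset.sum_congr rfl fun a _ => ?_
    rw [aeval_monomial, Pi.smul_apply, Algebra.smul_def, mul_assoc]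

theorem red_monomial (hx : ResTrans C x) (hb : IsFrame C x b) (i : ι) (a : ℕ) (j : J) :
    (C i).red (x ^ a * b j) = (C i).red x ^ a * (C i).red (b j) := by
  rw [(C i).red_mul ((C i).pow_mem (hx i).1 a) ((mem_B C).mp (hb.mem j) i),
    (C i).red_pow (hx i).1]

theorem monomial_mem (hx : ResTrans C x) (hb : IsFrame C x b) (a : ℕ) (j : J) :
    x ^ a * b j ∈ B C :=
  (mem_B C).mpr fun i => (C i).V.mul_mem _ _ ((C i).pow_mem (hx i).1 a)
    ((mem_B C).mp (hb.mem j) i)

theorem red_aeval_ne_zero (hx : ResTrans C x) {P : A[X]} (hP : P.map π ≠ 0) (i : ι) :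
    (C i).red (aeval x (P.map A.subtype)) ≠ 0 := by
  rw [(C i).red_aeval (hx i).1]
  exact fun h => hP ((transcendental_iff.mp (hx i).2) _ h)

/-- Every element has a primitive denominator. -/
theorem exists_denominator (hb : IsFrame C x b) (f : F) :
    ∃ (P : A[X]) (p : J → K[X]), P.map π ≠ 0 ∧
      aeval x (P.map A.subtype) * f = ∑ j, aeval x (p j) * b j := by
  obtain ⟨Q, p, hQ, h⟩ := hb.span f
  obtain ⟨c, P, hc, rfl, hP⟩ := exists_primitive (A := A) (π := π) hQ
  refine ⟨P, fun j => Polynomial.C c⁻¹ * p j, hP, ?_⟩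
  rw [map_mul, aeval_C] at h
  have h1 : ∑ j, aeval x (Polynomial.C c⁻¹ * p j) * b j =
      algebraMap K F c⁻¹ * ∑ j, aeval x (p j) * b j := by
    rw [Finset.mul_sum]
    refine Finset.sum_congr rfl fun j _ => ?_
    rw [map_mul, aeval_C, mul_assoc]
  rw [h1, ← h, ← mul_assoc, ← mul_assoc, ← map_mul, inv_mul_cancel₀ hc, map_one, one_mul]

/-- A common primitive denominator for finitely many elements. -/
theorem exists_common_denominator (hb : IsFrame C x b) {S : Type*} [Fintype S]
    (f : S → F) :
    ∃ (P : A[X]) (p : S → J → K[X]), P.map π ≠ 0 ∧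
      ∀ s, aeval x (P.map A.subtype) * f s = ∑ j, aeval x (p s j) * b j := by
  classical
  choose P p hP hp using fun s => exists_denominator hb (f s)
  refine ⟨∏ s, P s, fun s j => (∏ s' ∈ Finset.univ.erase s, (P s').map A.subtype) * p s j, ?_,
    fun s => ?_⟩
  · rw [Polynomial.map_prod]
    exact Finset.prod_ne_zero_iff.mpr fun s _ => hP s
  · rw [Polynomial.map_prod, ← Finset.prod_erase_mul _ _ (Finset.mem_univ s), map_mul, mul_assoc,
      hp, Finset.mul_sum]
    exact Finset.sum_congr rfl fun j _ => by rw [map_mul, mul_assoc]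

omit [Fintype J] in
theorem aeval_mul_mem_span (p : K[X]) (j : J) {M : ℕ} (h : p.natDegree < M) :
    aeval x p * b j ∈ Submodule.span K (Set.range fun y : Fin M × J => x ^ (y.1 : ℕ) * b y.2) := by
  rw [aeval_eq_sum_range' h, Finset.sum_mul]
  refine Submodule.sum_mem _ fun a ha => ?_
  rw [smul_mul_assoc]
  exact Submodule.smul_mem _ _ (Submodule.subset_span ⟨(⟨a, Finset.mem_range.mp ha⟩, j), rfl⟩)

/-- Every finite dimensional subspace has a basis in `B` with `k`-independent reductions. -/
theorem exists_basis [Nonempty ι] (hx : ResTrans C x) (hb : IsFrame C x b) (W : Submodule K F)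
    [FiniteDimensional K W] :
    ∃ (d : ℕ) (w : Fin d → F), (∀ m, w m ∈ B C) ∧ Submodule.span K (Set.range w) = W ∧
      LinearIndependent k (fun m i => (C i).red (w m)) := by
  classical
  let c := Module.finBasis K W
  obtain ⟨P, p, hP, hp⟩ := exists_common_denominator hb (fun s => (c s : F))
  set z : F := aeval x (P.map A.subtype) with hz
  have hzr : ∀ i, (C i).red z ≠ 0 := red_aeval_ne_zero hx hP
  obtain ⟨i₀⟩ := (inferInstance : Nonempty ι)
  have hz0 : z ≠ 0 := (C i₀).ne_zero_of_red_ne_zero (hzr i₀)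
  set M := Finset.univ.sup (fun y : Fin (finrank K W) × J => (p y.1 y.2).natDegree) + 1 with hM
  have hdeg : ∀ s j, (p s j).natDegree < M := fun s j => Nat.lt_succ_of_le
    (Finset.le_sup (f := fun y : Fin (finrank K W) × J => (p y.1 y.2).natDegree)
      (Finset.mem_univ (s, j)))
  let mulP : F →ₗ[K] F := LinearMap.mulLeft K z
  have hWle : W.map mulP ≤
      Submodule.span K (Set.range fun y : Fin M × J => x ^ (y.1 : ℕ) * b y.2) := by
    rintro _ ⟨f, hf, rfl⟩
    have h7 : f = ∑ s, c.repr ⟨f, hf⟩ s • (c s : F) := by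
      have h8 := congrArg W.subtype (c.sum_repr ⟨f, hf⟩)
      rw [map_sum] at h8
      exact h8.symm
    rw [h7, map_sum]
    refine Submodule.sum_mem _ fun s _ => ?_
    rw [map_smul]
    refine Submodule.smul_mem _ _ ?_
    rw [LinearMap.mulLeft_apply, hp s]
    exact Submodule.sum_mem _ fun j _ => aeval_mul_mem_span _ _ (hdeg s j)
  have hli : LinearIndependent k (fun (y : Fin M × J) i => (C i).red (x ^ (y.1 : ℕ) * b y.2)) := by
    have h1 := linearIndependent_monomials hb M
    simp only [← red_monomial hx hb] at h1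
    exact h1
  have hmon : ∀ y : Fin M × J, x ^ (y.1 : ℕ) * b y.2 ∈ B C := fun y =>
    monomial_mem hx hb (y.1 : ℕ) y.2
  have hexi := exists_basis_of_le C (fun y : Fin M × J => x ^ (y.1 : ℕ) * b y.2) hmon
    hli (W.map mulP) hWle
  obtain ⟨d, w', hw', hspan, hli'⟩ := hexi
  have hzB : ∀ i, z⁻¹ ∈ (C i).V := fun i => (C i).inv_mem_of_red_ne_zero (hzr i)
  refine ⟨d, fun m => z⁻¹ * w' m, fun m => ?_, ?_, ?_⟩
  · rw [mem_B]
    exact fun i => (C i).V.mul_mem _ _ (hzB i) ((mem_B C).mp (hw' m) i)
  · have hinj : Function.Injective mulP := by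
      intro a b hab
      exact mul_left_cancel₀ hz0 hab
    apply Submodule.map_injective_of_injective hinj
    rw [← hspan, Submodule.map_span, ← Set.range_comp]
    congr 2
    funext m
    simp only [Function.comp_apply, mulP, LinearMap.mulLeft_apply]
    rw [← mul_assoc, mul_inv_cancel₀ hz0, one_mul]
  · have h1 : (fun (m : Fin d) i => (C i).red (w' m)) = fun m =>
        (LinearMap.pi (R := k) (φ := fun _ : ι => κ)
          (fun i => (LinearMap.mulLeft k ((C i).red z)).comp (LinearMap.proj i)))
          (fun i => (C i).red (z⁻¹ * w' m)) := by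
      funext m i
      simp only [LinearMap.pi_apply, LinearMap.comp_apply, LinearMap.proj_apply,
        LinearMap.mulLeft_apply]
      rw [(C i).red_mul (hzB i) ((mem_B C).mp (hw' m) i), (C i).red_inv,
        mul_inv_cancel_left₀ (hzr i)]
    rw [h1] at hli'
    exact LinearIndependent.of_comp _ hli'

end IsFrame

section RedSub

variable (C)

/-- The space of reductions of the `B`-integral elements of a subspace. -/
def redSub (hπ : Function.Surjective π) (W : Submodule K F) : Submodule k (ι → κ) where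
  carrier := {t | ∃ f ∈ W, f ∈ B C ∧ ∀ i, (C i).red f = t i}
  zero_mem' := ⟨0, W.zero_mem, (B C).zero_mem, fun i => (C i).red_zero⟩
  add_mem' := by
    rintro s t ⟨f, hf, hfB, hfr⟩ ⟨g, hg, hgB, hgr⟩
    refine ⟨f + g, W.add_mem hf hg, (B C).add_mem hfB hgB, fun i => ?_⟩
    rw [(C i).red_add ((mem_B C).mp hfB i) ((mem_B C).mp hgB i), hfr, hgr, Pi.add_apply]
  smul_mem' := by
    rintro c t ⟨f, hf, hfB, hfr⟩
    obtain ⟨a, rfl⟩ := hπ c
    refine ⟨algebraMap K F a * f, ?_, (B C).mul_mem (algebraMap_mem_B C a.2) hfB, fun i => ?_⟩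
    · rw [← Algebra.smul_def]
      exact W.smul_mem _ hf
    · rw [(C i).red_mul ((C i).mem a) ((mem_B C).mp hfB i), (C i).red_algebraMap, hfr,
        Pi.smul_apply, Algebra.smul_def]

variable {C} (hπ : Function.Surjective π)

theorem mem_redSub {W : Submodule K F} {t : ι → κ} :
    t ∈ redSub C hπ W ↔ ∃ f ∈ W, f ∈ B C ∧ ∀ i, (C i).red f = t i := Iff.rfl

theorem redSub_mono {W W' : Submodule K F} (h : W ≤ W') : redSub C hπ W ≤ redSub C hπ W' := by
  rintro t ⟨f, hf, hf'⟩
  exact ⟨f, h hf, hf'⟩

theorem redSub_eq_span {d : ℕ} (w : Fin d → F) (hw : ∀ m, w m ∈ B C)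
    (hli : LinearIndependent k (fun m i => (C i).red (w m))) :
    redSub C hπ (Submodule.span K (Set.range w)) =
      Submodule.span k (Set.range fun m i => (C i).red (w m)) := by
  apply le_antisymm
  · rintro t ⟨f, hf, hfB, hfr⟩
    obtain ⟨c, rfl⟩ := (Submodule.mem_span_range_iff_exists_fun K).mp hf
    simp only [Algebra.smul_def] at hfB hfr
    have hc := coeff_mem_of_sum_mem C hπ w hw hli c hfB
    have h1 : t = ∑ m, π ⟨c m, hc m⟩ • (fun i => (C i).red (w m)) := by
      funext i
      have hwi := fun m => (mem_B C).mp (hw m) i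
      rw [← hfr i, (C i).red_sum _ _ fun m _ =>
        (C i).V.mul_mem _ _ ((C i).mem ⟨_, hc m⟩) (hwi m), Finset.sum_apply]
      refine Finset.sum_congr rfl fun m _ => ?_
      rw [(C i).red_mul ((C i).mem ⟨_, hc m⟩) (hwi m), (C i).red_algebraMap' (hc m),
        Pi.smul_apply, Algebra.smul_def]
    rw [h1]
    exact Submodule.sum_mem _ fun m _ => Submodule.smul_mem _ _ (Submodule.subset_span ⟨m, rfl⟩)
  · rw [Submodule.span_le]
    rintro _ ⟨m, rfl⟩
    exact ⟨w m, Submodule.subset_span ⟨m, rfl⟩, hw m, fun i => rfl⟩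

theorem IsFrame.finrank_redSub [Nonempty ι] {J : Type*} [Fintype J] {b : J → F}
    (hx : ResTrans C x) (hb : IsFrame C x b) (W : Submodule K F) [FiniteDimensional K W] :
    finrank k (redSub C hπ W) = finrank K W := by
  obtain ⟨d, w, hw, hspan, hli⟩ := hb.exists_basis hx W
  have h1 := linearIndependent_of_red C hπ w hw hli
  rw [← hspan, redSub_eq_span hπ w hw hli, finrank_span_eq_card hli, finrank_span_eq_card h1]

theorem IsFrame.finiteDimensional_redSub [Nonempty ι] {J : Type*} [Fintype J] {b : J → F}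
    (hx : ResTrans C x) (hb : IsFrame C x b) (W : Submodule K F) [FiniteDimensional K W] :
    FiniteDimensional k (redSub C hπ W) := by
  obtain ⟨d, w, hw, hspan, hli⟩ := hb.exists_basis hx W
  rw [← hspan, redSub_eq_span hπ w hw hli]
  exact FiniteDimensional.span_of_finite k (Set.finite_range _)

end RedSub

end Fermat.Agent.H84
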