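import Mathlib
import Fermat.Agent.H84Basis

/-!
# Value groups, incomparability, residually transcendental translates
-/

set_option autoImplicit false

open Polynomial IntermediateField Module

namespace Fermat.Agent.H84

variable {K k : Type*} [Field K] [Field k] {A : ValuationSubring K} {π : A →+* k}
  {F κ : Type*} [Field F] [Algebra K F] [Field κ] [Algebra k κ]

namespace Comp

variable (C : Comp A π F κ)

theorem red_ne_zero_iff_valuation {g : F} : C.red g ≠ 0 ↔ C.V.valuation g = 1 := by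
  rw [C.red_ne_zero_iff]
  constructor
  · rintro ⟨h0, h1, h2⟩
    have h3 := (C.V.valuation_le_one_iff g).mpr h1
    have h4 := (C.V.valuation_le_one_iff g⁻¹).mpr h2
    rw [map_inv₀] at h4
    have h5 : C.V.valuation g ≠ 0 := (Valuation.ne_zero_iff _).mpr h0
    exact le_antisymm h3 ((inv_le_one₀ (zero_lt_iff.mpr h5)).mp h4)
  · intro h
    have h0 : g ≠ 0 := by
      rintro rfl
      rw [map_zero] at h
      exact zero_ne_one h
    refine ⟨h0, (C.V.valuation_le_one_iff g).mp h.le, (C.V.valuation_le_one_iff g⁻¹).mp ?_⟩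
    rw [map_inv₀, h, inv_one]

/-- The value group is that of `K`. -/
def Scalable : Prop := ∀ f : F, f ≠ 0 → ∃ c : K, c ≠ 0 ∧ C.red (algebraMap K F c * f) ≠ 0

theorem exists_poly_relation {x : F} (hx : Transcendental K x) [FiniteDimensional K⟮x⟯ F]
    (y : F) : ∃ (n : ℕ) (p : Fin n → K[X]), ∑ l, aeval x (p l) * y ^ (l : ℕ) = 0 ∧
      ∃ l, p l ≠ 0 := by
  by_contra hcon
  push Not at hcon
  have h1 : LinearIndependent K⟮x⟯ (fun l : Fin (finrank K⟮x⟯ F + 1) => y ^ (l : ℕ)) := by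
    refine H3RR.linearIndependent_of_poly hx _ fun p hp ⟨l, hl⟩ => hl ?_
    rw [hcon _ p hp l, coeff_zero]
  have h2 := h1.fintype_card_le_finrank
  rw [Fintype.card_fin] at h2
  omega

theorem valuation_aeval {x : F} (hx : x ∈ C.V) (hxt : Transcendental k (C.red x)) {p : K[X]}
    (hp : p ≠ 0) : ∃ c : K, c ≠ 0 ∧ C.V.valuation (aeval x p) = C.V.valuation (algebraMap K F c) := by
  obtain ⟨c, P, hc, rfl, hP⟩ := exists_primitive (A := A) (π := π) hp
  refine ⟨c, hc, ?_⟩
  have h1 : C.red (aeval x (P.map A.subtype)) ≠ 0 := by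
    rw [C.red_aeval hx]
    exact fun h => hP ((transcendental_iff.mp hxt) _ h)
  rw [map_mul, aeval_C, map_mul, (C.red_ne_zero_iff_valuation).mp h1, mul_one]

/-- Residually transcendental components over an algebraically closed field have the same value
group as the constant field. -/
theorem scalable [IsAlgClosed K] {x : F} (hxK : Transcendental K x) (hx : x ∈ C.V)
    (hxt : Transcendental k (C.red x)) [FiniteDimensional K⟮x⟯ F] : C.Scalable := by
  classical
  intro f hf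
  obtain ⟨n, p, hp, l₁, hl₁⟩ := exists_poly_relation hxK f
  set v := C.V.valuation with hv
  have hvf : v f ≠ 0 := (Valuation.ne_zero_iff _).mpr hf
  choose! c hc0 hc using fun (l : Fin n) (hl : p l ≠ 0) => C.valuation_aeval hx hxt hl
  let S := (Finset.univ : Finset (Fin n)).filter (fun l => p l ≠ 0)
  have hS : S.Nonempty := ⟨l₁, Finset.mem_filter.mpr ⟨Finset.mem_univ _, hl₁⟩⟩
  have hterm : ∀ l ∈ S, v (aeval x (p l) * f ^ (l : ℕ)) = v (algebraMap K F (c l)) * v f ^ (l : ℕ) :=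
    fun l hl => by rw [map_mul, map_pow, hc l (Finset.mem_filter.mp hl).2]
  obtain ⟨l₀, hl₀, hmax⟩ := S.exists_max_image (fun l => v (aeval x (p l) * f ^ (l : ℕ))) hS
  have hsum : ∑ l ∈ S, aeval x (p l) * f ^ (l : ℕ) = 0 := by
    rw [← hp]
    refine Finset.sum_subset (Finset.subset_univ _) fun l _ hl => ?_
    have : p l = 0 := by
      by_contra hne
      exact hl (Finset.mem_filter.mpr ⟨Finset.mem_univ _, hne⟩)
    rw [this, map_zero, zero_mul]
  have hne0 : v (aeval x (p l₀) * f ^ (l₀ : ℕ)) ≠ 0 := by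
    rw [hterm l₀ hl₀]
    refine mul_ne_zero ((Valuation.ne_zero_iff _).mpr
      ((_root_.map_ne_zero _).mpr (hc0 l₀ (Finset.mem_filter.mp hl₀).2))) (pow_ne_zero _ hvf)
  obtain ⟨l₂, hl₂, hne, heq⟩ : ∃ l₂ ∈ S, l₂ ≠ l₀ ∧ v (aeval x (p l₂) * f ^ (l₂ : ℕ)) =
      v (aeval x (p l₀) * f ^ (l₀ : ℕ)) := by
    by_contra hcon
    push Not at hcon
    have h1 : v (∑ l ∈ S.erase l₀, aeval x (p l) * f ^ (l : ℕ)) <
        v (aeval x (p l₀) * f ^ (l₀ : ℕ)) := by
      refine Valuation.map_sum_lt _ hne0 fun l hl => ?_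
      have h2 := Finset.mem_erase.mp hl
      exact lt_of_le_of_ne (hmax l h2.2) (hcon l h2.2 h2.1)
    have h2 : aeval x (p l₀) * f ^ (l₀ : ℕ) = - ∑ l ∈ S.erase l₀, aeval x (p l) * f ^ (l : ℕ) := by
      rw [eq_neg_iff_add_eq_zero]
      exact (Finset.add_sum_erase S (fun l : Fin n => aeval x (p l) * f ^ (l : ℕ)) hl₀).trans hsum
    rw [h2, Valuation.map_neg] at h1
    exact lt_irrefl _ h1
  -- extraction of the root
  have key : ∀ a b : Fin n, a ∈ S → b ∈ S → (a : ℕ) < b →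
      v (aeval x (p a) * f ^ (a : ℕ)) = v (aeval x (p b) * f ^ (b : ℕ)) →
      ∃ c : K, c ≠ 0 ∧ C.red (algebraMap K F c * f) ≠ 0 := by
    intro a b ha hb hab h
    rw [hterm a ha, hterm b hb] at h
    have hca := hc0 a (Finset.mem_filter.mp ha).2
    have hcb := hc0 b (Finset.mem_filter.mp hb).2
    have hm : 0 < (b : ℕ) - a := by omega
    obtain ⟨d, hd⟩ := IsAlgClosed.exists_pow_nat_eq (c b / c a) hm
    have hd0 : d ≠ 0 := by
      rintro rfl
      rw [zero_pow hm.ne'] at hd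
      exact div_ne_zero hcb hca hd.symm
    refine ⟨d, hd0, ?_⟩
    rw [red_ne_zero_iff_valuation, ← hv, ← pow_eq_one_iff_of_nonneg (n := (b : ℕ) - a) zero_le
      hm.ne', ← map_pow, mul_pow, ← map_pow, hd, map_div₀, map_mul, map_div₀, map_pow]
    have hva : v (algebraMap K F (c a)) ≠ 0 :=
      (Valuation.ne_zero_iff _).mpr ((_root_.map_ne_zero _).mpr hca)
    have h3 : v f ^ (b : ℕ) = v f ^ ((b : ℕ) - a) * v f ^ (a : ℕ) := by
      rw [← pow_add]
      congr 1
      omega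
    rw [h3, ← mul_assoc] at h
    have h4 := mul_right_cancel₀ (pow_ne_zero _ hvf) h
    rw [div_mul_eq_mul_div, ← h4, div_self hva]
  rcases lt_or_gt_of_ne (fun h => hne (Fin.ext h) : (l₂ : ℕ) ≠ l₀) with h | h
  · exact key l₂ l₀ hl₂ hl₀ h heq
  · exact key l₀ l₂ hl₀ hl₂ h heq.symm

variable {C}

/-- Comparable scalable components are equal. -/
theorem Scalable.eq_of_le (hπ : Function.Surjective π) {C₁ C₂ : Comp A π F κ} (h₁ : C₁.Scalable)
    (h : C₁.V ≤ C₂.V) : C₁.V = C₂.V := by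
  refine le_antisymm h fun f hf => ?_
  by_cases hf0 : f = 0
  · rw [hf0]; exact C₁.V.zero_mem
  obtain ⟨c, hc, hred⟩ := h₁ f hf0
  have h1 := C₁.mem_of_red_ne_zero hred
  have h2 := C₁.inv_mem_of_red_ne_zero hred
  have h3 : algebraMap K F c⁻¹ ∈ C₂.V := by
    have h4 := C₂.V.mul_mem _ _ hf (h h2)
    rw [mul_inv, mul_left_comm, mul_inv_cancel₀ hf0, mul_one, ← map_inv₀] at h4
    exact h4
  have h4 := (C₂.algebraMap_mem_iff hπ).mp h3
  have h5 : f = algebraMap K F c⁻¹ * (algebraMap K F c * f) := by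
    rw [← mul_assoc, ← map_mul, inv_mul_cancel₀ hc, map_one, one_mul]
  rw [h5]
  exact C₁.V.mul_mem _ _ (C₁.mem ⟨_, h4⟩) h1

theorem Scalable.not_le (hπ : Function.Surjective π) {C₁ C₂ : Comp A π F κ} (h₁ : C₁.Scalable)
    (h : C₁.V ≠ C₂.V) : ¬ C₁.V ≤ C₂.V := fun hle => h (h₁.eq_of_le hπ hle)

/-- Every transcendental element has a residually nonconstant translate. -/
theorem Scalable.exists_translate [IsAlgClosed K] (hC : C.Scalable) {x : F} (hx : x ∈ C.V)
    (hxt : Transcendental k (C.red x)) {f : F} (hf : Transcendental K f)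
    [FiniteDimensional K⟮f⟯ F] :
    ∃ a c : K, a ≠ 0 ∧ C.red (algebraMap K F a * (f - algebraMap K F c)) ∉
      Set.range (algebraMap k κ) := by
  classical
  by_contra hcon
  push Not at hcon
  have hQ : ∀ Q : K[X], Q ≠ 0 → ∃ (a : K) (t : k), a ≠ 0 ∧ t ≠ 0 ∧
      C.red (algebraMap K F a * aeval f Q) = algebraMap k κ t := by
    have hmul : ∀ Q₁ Q₂ : K[X], (∃ (a : K) (t : k), a ≠ 0 ∧ t ≠ 0 ∧
        C.red (algebraMap K F a * aeval f Q₁) = algebraMap k κ t) →
        (∃ (a : K) (t : k), a ≠ 0 ∧ t ≠ 0 ∧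
        C.red (algebraMap K F a * aeval f Q₂) = algebraMap k κ t) →
        (∃ (a : K) (t : k), a ≠ 0 ∧ t ≠ 0 ∧
        C.red (algebraMap K F a * aeval f (Q₁ * Q₂)) = algebraMap k κ t) := by
      rintro Q₁ Q₂ ⟨a₁, t₁, ha₁, ht₁, h₁⟩ ⟨a₂, t₂, ha₂, ht₂, h₂⟩
      refine ⟨a₁ * a₂, t₁ * t₂, mul_ne_zero ha₁ ha₂, mul_ne_zero ht₁ ht₂, ?_⟩
      have hm₁ := C.mem_of_red_ne_zero (f := algebraMap K F a₁ * aeval f Q₁)
        (by rw [h₁]; exact (_root_.map_ne_zero _).mpr ht₁)
      have hm₂ := C.mem_of_red_ne_zero (f := algebraMap K F a₂ * aeval f Q₂)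
        (by rw [h₂]; exact (_root_.map_ne_zero _).mpr ht₂)
      rw [map_mul, map_mul, mul_mul_mul_comm, C.red_mul hm₁ hm₂, h₁, h₂, map_mul]
    intro Q hQ0
    rw [(IsAlgClosed.splits Q).eq_prod_roots]
    refine hmul _ _ ⟨(Q.leadingCoeff)⁻¹, 1, inv_ne_zero (leadingCoeff_ne_zero.mpr hQ0),
      one_ne_zero, ?_⟩ ?_
    · rw [aeval_C, ← map_mul, inv_mul_cancel₀ (leadingCoeff_ne_zero.mpr hQ0), map_one, C.red_one,
        map_one]
    · induction Q.roots using Multiset.induction_on with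
      | empty =>
        refine ⟨1, 1, one_ne_zero, one_ne_zero, ?_⟩
        simp
      | cons r s ih =>
        rw [Multiset.map_cons, Multiset.prod_cons]
        refine hmul _ _ ?_ ih
        have hne : f - algebraMap K F r ≠ 0 := by
          intro h0
          apply hf
          rw [sub_eq_zero.mp h0]
          exact isAlgebraic_algebraMap r
        obtain ⟨a, ha, hared⟩ := hC _ hne
        obtain ⟨t, ht⟩ := hcon a r ha
        refine ⟨a, t, ha, ?_, ?_⟩
        · rintro rfl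
          rw [map_zero] at ht
          exact hared ht.symm
        · rw [map_sub, aeval_X, aeval_C, ht]
  obtain ⟨n, p, hp, l₁, hl₁⟩ := exists_poly_relation hf x
  choose! a t ha ht hat using hQ
  -- the scaled relation
  obtain ⟨d, hd, hmem, l₀, -, hl₀⟩ := H42.exists_scale A (Finset.univ : Finset (Fin n))
    (fun l => if p l = 0 then 0 else (a (p l))⁻¹) ⟨l₁, Finset.mem_univ _, by
      rw [if_neg hl₁]; exact inv_ne_zero (ha _ hl₁)⟩
  have hmem' := fun l => hmem l (Finset.mem_univ l)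
  have hl₀0 : p l₀ ≠ 0 := by
    intro h0
    rw [if_pos h0, mul_zero] at hl₀
    exact zero_ne_one hl₀
  have hunit : ∀ l, p l ≠ 0 → algebraMap K F (a (p l)) * aeval f (p l) ∈ C.V := fun l hl =>
    C.mem_of_red_ne_zero (by rw [hat _ hl]; exact (_root_.map_ne_zero _).mpr (ht _ hl))
  have hterm : ∀ l : Fin n, algebraMap K F d⁻¹ * (aeval f (p l) * x ^ (l : ℕ)) ∈ C.V ∧
      C.red (algebraMap K F d⁻¹ * (aeval f (p l) * x ^ (l : ℕ))) =
        algebraMap k κ (π ⟨_, hmem' l⟩ * t (p l)) * C.red x ^ (l : ℕ) := by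
    intro l
    by_cases hl : p l = 0
    · have h0 : π ⟨_, hmem' l⟩ = 0 := by
        have : (⟨_, hmem' l⟩ : A) = 0 := Subtype.ext (by simp [hl])
        rw [this, map_zero]
      rw [h0, zero_mul, map_zero, zero_mul, hl, map_zero, zero_mul, mul_zero]
      exact ⟨C.V.zero_mem, C.red_zero⟩
    · have h1 : algebraMap K F d⁻¹ * (aeval f (p l) * x ^ (l : ℕ)) =
          algebraMap K F (d⁻¹ * (if p l = 0 then 0 else (a (p l))⁻¹)) *
            (algebraMap K F (a (p l)) * aeval f (p l)) * x ^ (l : ℕ) := by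
        rw [if_neg hl, map_mul, map_inv₀ (algebraMap K F) (a (p l))]
        have : algebraMap K F (a (p l)) ≠ 0 := (_root_.map_ne_zero _).mpr (ha _ hl)
        field_simp
      have hm1 : algebraMap K F (d⁻¹ * (if p l = 0 then 0 else (a (p l))⁻¹)) ∈ C.V :=
        C.mem ⟨_, hmem' l⟩
      have hm2 := hunit l hl
      have hm3 := C.pow_mem hx (l : ℕ)
      rw [h1]
      refine ⟨C.V.mul_mem _ _ (C.V.mul_mem _ _ hm1 hm2) hm3, ?_⟩
      rw [C.red_mul (C.V.mul_mem _ _ hm1 hm2) hm3, C.red_mul hm1 hm2, C.red_algebraMap' (hmem' l),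
        hat _ hl, C.red_pow hx, map_mul]
  have hred : ∑ l : Fin n, algebraMap k κ (π ⟨_, hmem' l⟩ * t (p l)) * C.red x ^ (l : ℕ) = 0 := by
    have h1 : ∑ l : Fin n, algebraMap K F d⁻¹ * (aeval f (p l) * x ^ (l : ℕ)) = 0 := by
      rw [← Finset.mul_sum, hp, mul_zero]
    have h2 := C.red_sum Finset.univ _ fun l _ => (hterm l).1
    rw [h1, C.red_zero] at h2
    rw [h2]
    exact Finset.sum_congr rfl fun l _ => (hterm l).2.symm
  have hpoly : aeval (C.red x) (∑ l : Fin n, monomial (l : ℕ) (π ⟨_, hmem' l⟩ * t (p l))) = 0 := by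
    rw [map_sum, ← hred]
    exact Finset.sum_congr rfl fun l _ => by rw [aeval_monomial]
  have h0 := (transcendental_iff.mp hxt) _ hpoly
  have h1 := congrArg (fun q => q.coeff (l₀ : ℕ)) h0
  simp only [finsetSum_coeff, coeff_monomial, coeff_zero] at h1
  rw [Finset.sum_eq_single l₀] at h1
  · rw [if_pos rfl] at h1
    have h2 : π ⟨_, hmem' l₀⟩ = 1 := by
      have : (⟨_, hmem' l₀⟩ : A) = 1 := Subtype.ext hl₀
      rw [this, map_one]
    rw [h2, one_mul] at h1
    exact ht _ hl₀0 h1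
  · intro l _ hl
    rw [if_neg]
    exact fun h => hl (Fin.ext h)
  · intro h
    exact absurd (Finset.mem_univ _) h

end Comp

end Fermat.Agent.H84
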