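import Mathlib
import Fermat.Agent.H84Value
import Fermat.Agent.H94Divisors

/-!
# Integrality of reductions

`IsFrame.isIntegral_red`: if `f ∈ B` is integral over `K[x]` then every reduction of `f` is integral
over `k[x̄]`.
-/

set_option autoImplicit false

open Polynomial IntermediateField Module
open scoped IntermediateField.algebraAdjoinAdjoin

namespace Fermat.Agent.H84

variable {K k : Type*} [Field K] [Field k] {A : ValuationSubring K} {π : A →+* k}
  {F κ : Type*} [Field F] [Algebra K F] [Field κ] [Algebra k κ]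
  {ι : Type*} {C : ι → Comp A π F κ} {x : F}

/-- Whether an element of `K(x)` is integral does not depend on the component. -/
theorem mem_of_mem_adjoin (hπ : Function.Surjective π) (hx : ResTrans C x) {g : F}
    (hg : g ∈ K⟮x⟯) {i : ι} (h : g ∈ (C i).V) (i' : ι) : g ∈ (C i').V := by
  by_cases hg0 : g = 0
  · rw [hg0]; exact (C i').V.zero_mem
  obtain ⟨r, s, hrs⟩ := (mem_adjoin_simple_iff K g).mp hg
  have hr : r ≠ 0 := by
    rintro rfl
    rw [map_zero, zero_div] at hrs
    exact hg0 hrs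
  have hs : s ≠ 0 := by
    rintro rfl
    rw [map_zero, div_zero] at hrs
    exact hg0 hrs
  obtain ⟨c, P, hc, rfl, hP⟩ := exists_primitive (A := A) (π := π) hr
  obtain ⟨d, Q, hd, rfl, hQ⟩ := exists_primitive (A := A) (π := π) hs
  set p := aeval x (P.map A.subtype) with hp
  set q := aeval x (Q.map A.subtype) with hq
  have hpr : ∀ i, (C i).red p ≠ 0 := IsFrame.red_aeval_ne_zero hx hP
  have hqr : ∀ i, (C i).red q ≠ 0 := IsFrame.red_aeval_ne_zero hx hQ
  have h1 : g = algebraMap K F (c / d) * (p * q⁻¹) := by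
    rw [hrs, map_mul, map_mul, aeval_C, aeval_C, map_div₀, ← hp, ← hq]
    field_simp
  have h2 : c / d ∈ A := by
    rw [← (C i).algebraMap_mem_iff hπ]
    have h3 : algebraMap K F (c / d) = g * (p⁻¹ * q) := by
      rw [h1]
      have := (C i).ne_zero_of_red_ne_zero (hpr i)
      have := (C i).ne_zero_of_red_ne_zero (hqr i)
      field_simp
    rw [h3]
    exact (C i).V.mul_mem _ _ h ((C i).V.mul_mem _ _ ((C i).inv_mem_of_red_ne_zero (hpr i))
      ((C i).mem_of_red_ne_zero (hqr i)))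
  rw [h1]
  exact (C i').V.mul_mem _ _ ((C i').mem ⟨_, h2⟩) ((C i').V.mul_mem _ _
    ((C i').mem_of_red_ne_zero (hpr i')) ((C i').inv_mem_of_red_ne_zero (hqr i')))

namespace IsFrame

variable {J : Type*} [Fintype J] {b : J → F}

/-- Coefficients of elements of `B` lie in `A`. -/
theorem coeff_mem (hπ : Function.Surjective π) (hx : ResTrans C x) (hb : IsFrame C x b)
    (p : J → K[X]) (h : ∑ j, aeval x (p j) * b j ∈ B C) (j : J) (a : ℕ) : (p j).coeff a ∈ A := by
  classical
  set M := (Finset.univ.sup fun j => (p j).natDegree) + a + 1 with hM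
  have hdeg : ∀ j, (p j).natDegree < M := fun j => by
    have := Finset.le_sup (f := fun j => (p j).natDegree) (Finset.mem_univ j)
    omega
  have haM : a < M := by omega
  have h1 : ∑ y : Fin M × J, algebraMap K F ((p y.2).coeff y.1) * (x ^ (y.1 : ℕ) * b y.2) =
      ∑ j, aeval x (p j) * b j := by
    rw [Fintype.sum_prod_type_right]
    refine Finset.sum_congr rfl fun j _ => ?_
    rw [aeval_eq_sum_range' (hdeg j), Finset.sum_mul, Finset.sum_range]
    refine Finset.sum_congr rfl fun a _ => ?_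
    rw [Algebra.smul_def, mul_assoc]
  have hli : LinearIndependent k (fun (y : Fin M × J) i => (C i).red (x ^ (y.1 : ℕ) * b y.2)) := by
    have h1 := linearIndependent_monomials hb M
    simp only [← red_monomial hx hb] at h1
    exact h1
  have hmon : ∀ y : Fin M × J, x ^ (y.1 : ℕ) * b y.2 ∈ B C := fun y =>
    monomial_mem hx hb (y.1 : ℕ) y.2
  exact coeff_mem_of_sum_mem C hπ (fun y : Fin M × J => x ^ (y.1 : ℕ) * b y.2) hmon hli
    (fun y => (p y.2).coeff y.1) (by rw [h1]; exact h) (⟨a, haM⟩, j)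

/-- The basis of `F` over `K(x)` given by a frame. -/
noncomputable def toBasis [Nonempty ι] (hx : ResTrans C x) (hb : IsFrame C x b) :
    Basis J K⟮x⟯ F :=
  Basis.mk (linearIndependent_frame hx hb.mem hb.ind) (by
    intro f _
    obtain ⟨Q, p, hQ, h⟩ := hb.span f
    have hQ0 : aeval x Q ≠ 0 := fun h0 =>
      hQ ((transcendental_iff.mp (transcendental_of_resTrans hx)) _ h0)
    have hmem : ∀ p : K[X], aeval x p ∈ K⟮x⟯ := fun p =>
      algebra_adjoin_le_adjoin K _ (Polynomial.aeval_mem_adjoin_singleton K x (p := p))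
    have h1 : f = ∑ j, (⟨(aeval x Q)⁻¹ * aeval x (p j), K⟮x⟯.mul_mem
        (K⟮x⟯.inv_mem (hmem Q)) (hmem _)⟩ : K⟮x⟯) • b j := by
      have h2 : ∀ j, (⟨(aeval x Q)⁻¹ * aeval x (p j), K⟮x⟯.mul_mem
          (K⟮x⟯.inv_mem (hmem Q)) (hmem _)⟩ : K⟮x⟯) • b j =
          (aeval x Q)⁻¹ * (aeval x (p j) * b j) := fun j => mul_assoc _ _ _
      simp only [h2]
      rw [← Finset.mul_sum, ← h, inv_mul_cancel_left₀ hQ0]
    rw [h1]
    exact Submodule.sum_mem _ fun j _ => Submodule.smul_mem _ _ (Submodule.subset_span ⟨j, rfl⟩))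

theorem toBasis_apply [Nonempty ι] (hx : ResTrans C x) (hb : IsFrame C x b) (j : J) :
    hb.toBasis hx j = b j := by
  rw [toBasis, Basis.mk_apply]

/-- Coordinates of elements of `B` are integral. -/
theorem repr_mem [Nonempty ι] (hπ : Function.Surjective π) (hx : ResTrans C x)
    (hb : IsFrame C x b) {g : F} (hg : g ∈ B C) (j : J) (i : ι) :
    (((hb.toBasis hx).repr g j : K⟮x⟯) : F) ∈ (C i).V := by
  obtain ⟨P, p, hP, h⟩ := hb.exists_denominator g
  have hPr : ∀ i, (C i).red (aeval x (P.map A.subtype)) ≠ 0 := red_aeval_ne_zero hx hP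
  have hP0 : aeval x (P.map A.subtype) ≠ 0 := (C i).ne_zero_of_red_ne_zero (hPr i)
  have hPg : ∑ j, aeval x (p j) * b j ∈ B C := by
    rw [← h]
    exact (B C).mul_mem ((mem_B C).mpr fun i => (C i).mem_of_red_ne_zero (hPr i)) hg
  have hcoef := hb.coeff_mem hπ hx p hPg
  have hmem : ∀ p : K[X], aeval x p ∈ K⟮x⟯ := fun p =>
    algebra_adjoin_le_adjoin K _ (Polynomial.aeval_mem_adjoin_singleton K x (p := p))
  have h1 : g = ∑ j, (⟨(aeval x (P.map A.subtype))⁻¹ * aeval x (p j), K⟮x⟯.mul_mem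
      (K⟮x⟯.inv_mem (hmem _)) (hmem _)⟩ : K⟮x⟯) • (hb.toBasis hx) j := by
    have h2 : ∀ j, (⟨(aeval x (P.map A.subtype))⁻¹ * aeval x (p j), K⟮x⟯.mul_mem
        (K⟮x⟯.inv_mem (hmem _)) (hmem _)⟩ : K⟮x⟯) • (hb.toBasis hx) j =
        (aeval x (P.map A.subtype))⁻¹ * (aeval x (p j) * b j) := fun j => by
      rw [toBasis_apply]
      exact mul_assoc _ _ _
    simp only [h2]
    rw [← Finset.mul_sum, ← h, inv_mul_cancel_left₀ hP0]
  rw [h1, Basis.repr_sum_self]
  refine (C i).V.mul_mem _ _ ((C i).inv_mem_of_red_ne_zero (hPr i)) ?_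
  have h3 : ∃ R : A[X], R.map A.subtype = p j := by
    have : p j ∈ Polynomial.lifts A.subtype := by
      rw [Polynomial.lifts_iff_coeff_lifts]
      exact fun a => ⟨⟨_, hcoef j a⟩, rfl⟩
    exact this
  obtain ⟨R, hR⟩ := h3
  rw [← hR]
  exact (C i).aeval_mem (hx i).1 R

/-- **Integrality of reductions**. -/
theorem exists_monic [Nonempty ι] (hπ : Function.Surjective π) (hx : ResTrans C x)
    (hb : IsFrame C x b) {f : F} (hf : f ∈ B C) (hint : IsIntegral (Algebra.adjoin K {x}) f) :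
    ∃ (d : ℕ) (P : Fin d → A[X]),
      f ^ d + ∑ m : Fin d, aeval x ((P m).map A.subtype) * f ^ (m : ℕ) = 0 := by
  classical
  obtain ⟨i₀⟩ := (inferInstance : Nonempty ι)
  have hxK := transcendental_of_resTrans hx
  let V₀ : ValuationSubring K⟮x⟯ := (C i₀).V.comap (algebraMap K⟮x⟯ F)
  let bb := hb.toBasis hx
  -- `f` is integral over `V₀`
  have hM : ∀ j l, Algebra.leftMulMatrix bb f j l ∈ V₀ := by
    intro j l
    rw [Algebra.leftMulMatrix_eq_repr_mul]
    change (((bb.repr (f * bb l) j : K⟮x⟯)) : F) ∈ (C i₀).V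
    refine hb.repr_mem hπ hx ((B C).mul_mem hf ?_) j i₀
    have h0 : bb l = b l := hb.toBasis_apply hx l
    rw [h0]
    exact hb.mem l
  let M₀ : Matrix J J V₀ := fun j l => ⟨Algebra.leftMulMatrix bb f j l, hM j l⟩
  have hM₀ : M₀.map (algebraMap V₀ K⟮x⟯) = Algebra.leftMulMatrix bb f := rfl
  have hint₀ : IsIntegral V₀ f := by
    refine ⟨M₀.charpoly, M₀.charpoly_monic, ?_⟩
    have h1 : aeval f (Algebra.leftMulMatrix bb f).charpoly = 0 := by
      apply Algebra.leftMulMatrix_injective bb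
      rw [map_zero, ← Polynomial.aeval_algHom_apply, Matrix.aeval_self_charpoly]
    rw [← hM₀, Matrix.charpoly_map, aeval_map_algebraMap] at h1
    exact h1
  -- the minimal polynomial
  have := H94.isPrincipalIdealRing_adjoin hxK
  have hm₀ := minpoly.isIntegrallyClosed_eq_field_fractions K⟮x⟯ F hint₀
  have hm₁ := minpoly.isIntegrallyClosed_eq_field_fractions K⟮x⟯ F hint
  rw [Algebra.algebraMap_self, RingHom.id_apply] at hm₀ hm₁
  have hmonic : (minpoly K⟮x⟯ f).Monic := minpoly.monic (hint₀.tower_top)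
  have hcoeff : ∀ m, ∃ P : A[X], aeval x (P.map A.subtype) = ((minpoly K⟮x⟯ f).coeff m : F) := by
    intro m
    have h1 : (((minpoly K⟮x⟯ f).coeff m : K⟮x⟯) : F) ∈ Algebra.adjoin K {x} := by
      rw [hm₁, coeff_map]
      exact SetLike.coe_mem _
    have h2 : (((minpoly K⟮x⟯ f).coeff m : K⟮x⟯) : F) ∈ (C i₀).V := by
      rw [hm₀, coeff_map]
      exact SetLike.coe_mem ((minpoly V₀ f).coeff m)
    obtain ⟨p, hp⟩ := (Algebra.adjoin_singleton_eq_range_aeval K x).le h1
    have hp' : aeval x p = (((minpoly K⟮x⟯ f).coeff m : K⟮x⟯) : F) := hp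
    by_cases hp0 : p = 0
    · exact ⟨0, by rw [← hp', hp0]; simp⟩
    obtain ⟨c, P, hc, hcP, hP⟩ := exists_primitive (A := A) (π := π) hp0
    have hPr := red_aeval_ne_zero hx hP i₀
    have hcA : c ∈ A := by
      rw [← (C i₀).algebraMap_mem_iff hπ]
      have h3 : algebraMap K F c = aeval x p * (aeval x (P.map A.subtype))⁻¹ := by
        rw [hcP, map_mul, aeval_C, mul_inv_cancel_right₀ ((C i₀).ne_zero_of_red_ne_zero hPr)]
      rw [h3, hp']
      exact (C i₀).V.mul_mem _ _ h2 ((C i₀).inv_mem_of_red_ne_zero hPr)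
    refine ⟨Polynomial.C ⟨c, hcA⟩ * P, ?_⟩
    rw [← hp', hcP, Polynomial.map_mul, Polynomial.map_C]
    rfl
  choose P hP using hcoeff
  refine ⟨(minpoly K⟮x⟯ f).natDegree, fun m => P m, ?_⟩
  have h3 := minpoly.aeval K⟮x⟯ f
  rw [aeval_eq_sum_range, Finset.sum_range_succ, hmonic.coeff_natDegree, one_smul, add_comm,
    Finset.sum_range] at h3
  rw [← h3]
  congr 1
  refine Finset.sum_congr rfl fun m _ => ?_
  rw [hP, Algebra.smul_def]
  rfl

theorem isIntegral_red [Nonempty ι] (hπ : Function.Surjective π) (hx : ResTrans C x)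
    (hb : IsFrame C x b) {f : F} (hf : f ∈ B C) (hint : IsIntegral (Algebra.adjoin K {x}) f)
    (i : ι) : IsIntegral (Algebra.adjoin k {(C i).red x}) ((C i).red f) := by
  obtain ⟨d, P, hP⟩ := hb.exists_monic hπ hx hf hint
  have hfi := (mem_B C).mp hf i
  have hmem : ∀ m : Fin d, aeval x ((P m).map A.subtype) * f ^ (m : ℕ) ∈ (C i).V := fun m =>
    (C i).V.mul_mem _ _ ((C i).aeval_mem (hx i).1 _) ((C i).pow_mem hfi _)
  have h1 : (C i).red f ^ d + ∑ m : Fin d, aeval ((C i).red x) ((P m).map π) *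
      (C i).red f ^ (m : ℕ) = 0 := by
    rw [← (C i).red_zero, ← hP, (C i).red_add ((C i).pow_mem hfi d)
      ((C i).sum_mem _ _ fun m _ => hmem m), (C i).red_pow hfi, (C i).red_sum _ _ fun m _ => hmem m]
    congr 1
    refine Finset.sum_congr rfl fun m _ => ?_
    rw [(C i).red_mul ((C i).aeval_mem (hx i).1 _) ((C i).pow_mem hfi _),
      (C i).red_aeval (hx i).1, (C i).red_pow hfi]
  let R := Algebra.adjoin k {(C i).red x}
  have hR : ∀ p : k[X], aeval ((C i).red x) p ∈ R := fun p =>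
    Polynomial.aeval_mem_adjoin_singleton k _
  refine ⟨X ^ d + ∑ m : Fin d, Polynomial.C (⟨aeval ((C i).red x) ((P m).map π), hR _⟩ : R) *
    X ^ (m : ℕ), ?_, ?_⟩
  · apply Polynomial.monic_X_pow_add
    refine lt_of_le_of_lt (Polynomial.degree_sum_le _ _) ?_
    rw [Finset.sup_lt_iff (by exact WithBot.bot_lt_coe d)]
    intro m _
    exact lt_of_le_of_lt (Polynomial.degree_C_mul_X_pow_le _ _) (by exact_mod_cast m.2)
  · rw [← h1, eval₂_add, eval₂_X_pow, eval₂_finsetSum]
    congr 1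
    refine Finset.sum_congr rfl fun m _ => ?_
    rw [eval₂_mul, eval₂_C, eval₂_X_pow]
    rfl

end IsFrame

end Fermat.Agent.H84
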