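import Mathlib
import Fermat.Agent.H84Int

/-!
# Two components: everything in the shape of `H89SS.TwoComp`
-/

set_option autoImplicit false

open Polynomial IntermediateField Module

namespace Fermat.Agent.H84

variable {K k : Type*} [Field K] [Field k] {A : ValuationSubring K} {π : A →+* k}
  {F κ κ₀ : Type*} [Field F] [Algebra K F] [Field κ] [Algebra k κ] [Field κ₀] [Algebra k κ₀]

namespace Comp

variable (C : Comp A π F κ)

theorem algHom_inj (j₀ : κ₀ →ₐ[k] κ) {a b : κ₀} (h : j₀ a = j₀ b) : a = b :=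
  RingHom.injective j₀.toRingHom h

/-- Restriction of the codomain of the residue map to a field containing the image. -/
noncomputable def restrict (j₀ : κ₀ →ₐ[k] κ) (r : C.V → κ₀) (hr : ∀ v, j₀ (r v) = C.red v) :
    Comp A π F κ₀ where
  V := C.V
  ρ :=
    { toFun := r
      map_one' := algHom_inj j₀ (by rw [hr, map_one]; exact C.red_one)
      map_mul' := fun v w => algHom_inj j₀ (by
        rw [hr, map_mul, hr, hr]
        exact C.red_mul v.2 w.2)
      map_zero' := algHom_inj j₀ (by rw [hr, map_zero]; exact C.red_zero)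
      map_add' := fun v w => algHom_inj j₀ (by
        rw [hr, map_add, hr, hr]
        exact C.red_add v.2 w.2) }
  loc := fun v hv => by
    apply C.loc
    rw [← C.red_of_mem v.2, ← hr v]
    exact (map_ne_zero_iff j₀ (RingHom.injective j₀.toRingHom)).mpr hv
  mem := C.mem
  ρ_mem := fun a => algHom_inj j₀ (by
    rw [AlgHom.commutes]
    exact (hr _).trans (C.red_algebraMap a))

@[simp] theorem restrict_V (j₀ : κ₀ →ₐ[k] κ) (r : C.V → κ₀) (hr : ∀ v, j₀ (r v) = C.red v) :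
    (C.restrict j₀ r hr).V = C.V := rfl

@[simp] theorem restrict_red (j₀ : κ₀ →ₐ[k] κ) (r : C.V → κ₀) (hr : ∀ v, j₀ (r v) = C.red v)
    (f : F) : j₀ ((C.restrict j₀ r hr).red f) = C.red f := by
  by_cases hf : f ∈ C.V
  · rw [(C.restrict j₀ r hr).red_of_mem (f := f) hf]
    exact hr ⟨f, hf⟩
  · rw [(C.restrict j₀ r hr).red_of_notMem (f := f) hf, map_zero, C.red_of_notMem hf]

theorem restrict_image (j₀ : κ₀ →ₐ[k] κ) (r : C.V → κ₀) (hr : ∀ v, j₀ (r v) = C.red v)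
    (h' : ∀ t, j₀ t ∈ C.image) (t : κ₀) : t ∈ (C.restrict j₀ r hr).image := by
  obtain ⟨f, hf, hft⟩ := h' t
  exact ⟨f, hf, algHom_inj j₀ (by rw [C.restrict_red, hft])⟩

end Comp

section Pair

variable {C₁ C₂ : Comp A π F κ} {x : F}

/-- The family of two components. -/
def pairFam (C₁ C₂ : Comp A π F κ) : Bool → Comp A π F κ := fun b => cond b C₁ C₂

theorem resTrans_pair (hx₁ : x ∈ C₁.V) (hx₂ : x ∈ C₂.V) (ht₁ : Transcendental k (C₁.red x))
    (ht₂ : Transcendental k (C₂.red x)) : ResTrans (pairFam C₁ C₂) x := by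
  intro b
  cases b
  · exact ⟨hx₂, ht₂⟩
  · exact ⟨hx₁, ht₁⟩

theorem mem_B_pair {f : F} : f ∈ B (pairFam C₁ C₂) ↔ f ∈ C₁.V ∧ f ∈ C₂.V := by
  rw [mem_B]
  exact ⟨fun h => ⟨h true, h false⟩, fun h b => by cases b <;> [exact h.2; exact h.1]⟩

theorem incomparable_pair [IsAlgClosed K] (hπ : Function.Surjective π)
    (hx : ResTrans (pairFam C₁ C₂) x) [FiniteDimensional K⟮x⟯ F] (hne : C₁.V ≠ C₂.V) (i j : Bool)
    (hij : i ≠ j) : ¬ (pairFam C₁ C₂ i).V ≤ (pairFam C₁ C₂ j).V := by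
  have hxK := transcendental_of_resTrans hx
  have h₁ := C₁.scalable hxK (hx true).1 (hx true).2
  have h₂ := C₂.scalable hxK (hx false).1 (hx false).2
  cases i <;> cases j
  · exact (hij rfl).elim
  · exact h₂.not_le hπ hne.symm
  · exact h₁.not_le hπ hne
  · exact (hij rfl).elim

variable (j₀ : κ₀ →ₐ[k] κ) {x₁ x₂ : κ₀}

/-- **Two components**: if the residue degrees of `κ₀` exhaust `[F : K(x)]` then both residue
maps take values in `κ₀`. -/
theorem red_mem_range_pair [IsAlgClosed K] [Infinite k] (hπ : Function.Surjective π)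
    (hx₁ : x ∈ C₁.V) (hx₂ : x ∈ C₂.V) (ht₁ : Transcendental k (C₁.red x))
    (ht₂ : Transcendental k (C₂.red x)) [FiniteDimensional K⟮x⟯ F] (hne : C₁.V ≠ C₂.V)
    (h₁ : j₀ x₁ = C₁.red x) (h₂ : j₀ x₂ = C₂.red x) (him₁ : ∀ t, j₀ t ∈ C₁.image)
    (him₂ : ∀ t, j₀ t ∈ C₂.image) [FiniteDimensional k⟮x₁⟯ κ₀] [FiniteDimensional k⟮x₂⟯ κ₀]
    (hsum : finrank K⟮x⟯ F ≤ finrank k⟮x₁⟯ κ₀ + finrank k⟮x₂⟯ κ₀) (f : F) :
    C₁.red f ∈ Set.range j₀ ∧ C₂.red f ∈ Set.range j₀ := by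
  have hx := resTrans_pair hx₁ hx₂ ht₁ ht₂
  let x₀ : Bool → κ₀ := fun b => cond b x₁ x₂
  have : ∀ b, FiniteDimensional k⟮x₀ b⟯ κ₀ := fun b => by
    cases b <;> assumption
  have key := image_le_range_of_sum (pairFam C₁ C₂) x j₀ x₀ hπ
    (incomparable_pair hπ hx hne) hx (fun b => by cases b <;> [exact h₂; exact h₁])
    (fun b t => by cases b <;> [exact him₂ t; exact him₁ t])
    (by rw [Fintype.sum_bool]; exact hsum)
  exact ⟨key true ((pairFam C₁ C₂ true).red_mem_image f),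
    key false ((pairFam C₁ C₂ false).red_mem_image f)⟩

/-- **Two components**: orthonormal bases in the form of `H89SS.TwoComp.exists_basis`. -/
theorem exists_basis_pair [IsAlgClosed K] [Infinite k] (hπ : Function.Surjective π)
    (hx₁ : x ∈ C₁.V) (hx₂ : x ∈ C₂.V) (ht₁ : Transcendental k (C₁.red x))
    (ht₂ : Transcendental k (C₂.red x)) [FiniteDimensional K⟮x⟯ F] (hne : C₁.V ≠ C₂.V)
    (him₁ : ∀ t, t ∈ C₁.image) (him₂ : ∀ t, t ∈ C₂.image)
    [FiniteDimensional k⟮C₁.red x⟯ κ] [FiniteDimensional k⟮C₂.red x⟯ κ]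
    (hsum : finrank K⟮x⟯ F ≤ finrank k⟮C₁.red x⟯ κ + finrank k⟮C₂.red x⟯ κ)
    (W : Submodule K F) [FiniteDimensional K W] :
    ∃ (d : ℕ) (w : Fin d → F) (h₁ : ∀ i, w i ∈ C₁.V) (h₂ : ∀ i, w i ∈ C₂.V),
      Submodule.span K (Set.range w) = W ∧
      LinearIndependent k (fun i => ((C₁.ρ ⟨w i, h₁ i⟩, C₂.ρ ⟨w i, h₂ i⟩) : κ × κ)) := by
  have hx := resTrans_pair hx₁ hx₂ ht₁ ht₂
  let x₀ : Bool → κ := fun b => (pairFam C₁ C₂ b).red x
  have : ∀ b, FiniteDimensional k⟮x₀ b⟯ κ := fun b => by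
    cases b <;> assumption
  obtain ⟨b, hb⟩ := exists_isFrame_of_sum (pairFam C₁ C₂) x (AlgHom.id k κ) x₀ hπ
    (incomparable_pair hπ hx hne) hx (fun b => rfl)
    (fun b t => by cases b <;> [exact him₂ t; exact him₁ t])
    (by rw [Fintype.sum_bool]; exact hsum)
  obtain ⟨d, w, hw, hspan, hli⟩ := hb.exists_basis hx W
  have hw' := fun m => mem_B_pair.mp (hw m)
  refine ⟨d, w, fun i => (hw' i).1, fun i => (hw' i).2, hspan, ?_⟩
  have h1 : (fun (m : Fin d) i => (pairFam C₁ C₂ i).red (w m)) =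
      fun m => (LinearMap.pi (R := k) (φ := fun _ : Bool => κ)
        (fun b => cond b (LinearMap.fst k κ κ) (LinearMap.snd k κ κ)))
        ((C₁.ρ ⟨w m, (hw' m).1⟩, C₂.ρ ⟨w m, (hw' m).2⟩) : κ × κ) := by
    funext m b
    cases b
    · exact C₂.red_of_mem (hw' m).2
    · exact C₁.red_of_mem (hw' m).1
  rw [h1] at hli
  exact LinearIndependent.of_comp _ hli

/-- `e = 1` in the form of `H89SS.TwoComp.scale₁`. -/
theorem Comp.Scalable.scale {C : Comp A π F κ} (hC : C.Scalable) (f : F) (hf : f ≠ 0) :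
    ∃ (c : K) (_ : c ≠ 0) (h : algebraMap K F c * f ∈ C.V), C.ρ ⟨_, h⟩ ≠ 0 := by
  obtain ⟨c, hc, hred⟩ := hC f hf
  have h := C.mem_of_red_ne_zero hred
  exact ⟨c, hc, h, by rwa [← C.red_of_mem h]⟩

end Pair

end Fermat.Agent.H84
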