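import Fermat.Agent.H99Emb2

/-!
# The Atkin-Lehner automorphism `w_{q²}` of the function field of `X_0(m q²)`, base change
-/

set_option autoImplicit false
set_option linter.unusedSectionVars false

noncomputable section

open ModularCurve Polynomial IntermediateField AlgebraicCurve Fermat.Agent.H60 Fermat.Agent.H66

namespace Fermat.Agent.H99

variable {L : Type*} [Field L] [Algebra ℚ L]
variable {m q : ℕ} [NeZero m] [NeZero q]

theorem jd_eq_J (d : ℕ) : H42.jd L d = J L d := by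
  rw [H42.jd, J]

section AL2

/-- `w_q` on `j(d τ)`, `d ∣ m` -/
theorem AL.W_J (w : AL L m q) {d : ℕ} (hd : d ∣ m) (h : J L d ∈ FX L (m * q))
    (h' : J L (q * d) ∈ FX L (m * q)) : w.W ⟨J L d, h⟩ = ⟨J L (q * d), h'⟩ := by
  have h1 := w.alpha ⟨J L d, J_mem_FX (NeZero.ne m) hd⟩
  have e1 : heckeAlphaBar L m q ⟨J L d, J_mem_FX (NeZero.ne m) hd⟩ = ⟨J L d, h⟩ :=
    Subtype.ext (coe_heckeAlphaBar _ _ _)
  have e2 : heckeBetaBar L m q ⟨J L d, J_mem_FX (NeZero.ne m) hd⟩ = ⟨J L (q * d), h'⟩ := by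
    apply Subtype.ext
    rw [coe_heckeBetaBar, qExpand_J]
  rwa [e1, e2] at h1

/-- `w_q` on `j(q d τ)`, `d ∣ m` -/
theorem AL.W_Jq (w : AL L m q) {d : ℕ} (hd : d ∣ m) (h : J L d ∈ FX L (m * q))
    (h' : J L (q * d) ∈ FX L (m * q)) : w.W ⟨J L (q * d), h'⟩ = ⟨J L d, h⟩ := by
  rw [← w.W_J hd h h', w.invol]

variable (L m q) in
/-- the Atkin–Lehner automorphism `w_{q²}` of `F_{mqq}`, relative to `w_q` on `F_{mq}` -/
structure AL2 (w : AL L m q) where
  /-- the automorphism -/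
  W₂ : FX L (m * q * q) ≃ₐ[L] FX L (m * q * q)
  invol : ∀ x, W₂ (W₂ x) = x
  alpha : ∀ x, W₂ (heckeAlphaBar L (m * q) q x) = heckeBetaBar L (m * q) q (w.W x)
  beta : ∀ x, W₂ (heckeBetaBar L (m * q) q x) = heckeAlphaBar L (m * q) q (w.W x)

theorem dvd_cases (hq : q.Prime) {d : ℕ} (hd : d ∣ m * q) : d ∣ m ∨ ∃ e, e ∣ m ∧ d = q * e := by
  by_cases hdN : d ∣ m
  · exact Or.inl hdN
  · have hℓd : q ∣ d := by
      by_contra h
      exact hdN ((Nat.Coprime.dvd_of_dvd_mul_right ((Nat.Prime.coprime_iff_not_dvd hq).2 h).symm hd))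
    obtain ⟨e, rfl⟩ := hℓd
    refine Or.inr ⟨e, ?_, rfl⟩
    exact Nat.dvd_of_mul_dvd_mul_left hq.pos (by rwa [mul_comm m q] at hd : q * e ∣ q * m)

theorem swap_aux1 (hq : q.Prime) (hqm : ¬ q ∣ m) {d : ℕ} (hd : d ∣ m) :
    H42.swapDiv m (q * q) d = q * q * d := by
  have h1 : d.gcd m = d := Nat.gcd_eq_left hd
  have h2 : d.gcd (q * q) = 1 := by
    have : ¬ q ∣ d := fun h => hqm (h.trans hd)
    have h3 : Nat.Coprime q d := (Nat.Prime.coprime_iff_not_dvd hq).2 this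
    exact (Nat.Coprime.mul_left h3 h3).symm
  rw [H42.swapDiv, h1, h2, Nat.div_one, mul_comm]

theorem swap_aux2 (hq : q.Prime) (hqm : ¬ q ∣ m) {d : ℕ} (hd : d ∣ m) :
    H42.swapDiv m (q * q) (q * d) = q * d := by
  have h3 : ¬ q ∣ d := fun h => hqm (h.trans hd)
  have h4 : Nat.Coprime q d := (Nat.Prime.coprime_iff_not_dvd hq).2 h3
  have h5 : Nat.Coprime q m := (Nat.Prime.coprime_iff_not_dvd hq).2 hqm
  have h1 : (q * d).gcd m = d := by
    rw [Nat.Coprime.gcd_mul_left_cancel d h5]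
    exact Nat.gcd_eq_left hd
  have h2 : (q * d).gcd (q * q) = q := by
    rw [Nat.gcd_mul_left, Nat.gcd_comm, h4, mul_one]
  rw [H42.swapDiv, h1, h2, Nat.mul_div_cancel _ hq.pos, mul_comm]

theorem swap_aux3 (hq : q.Prime) (hqm : ¬ q ∣ m) {d : ℕ} (hd : d ∣ m) :
    H42.swapDiv m (q * q) (q * (q * d)) = d := by
  have h3 : ¬ q ∣ d := fun h => hqm (h.trans hd)
  have h4 : Nat.Coprime q d := (Nat.Prime.coprime_iff_not_dvd hq).2 h3
  have h5 : Nat.Coprime q m := (Nat.Prime.coprime_iff_not_dvd hq).2 hqm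
  have h1 : (q * (q * d)).gcd m = d := by
    rw [Nat.Coprime.gcd_mul_left_cancel _ h5, Nat.Coprime.gcd_mul_left_cancel d h5]
    exact Nat.gcd_eq_left hd
  have h2 : (q * (q * d)).gcd (q * q) = q * q := by
    rw [← mul_assoc]
    exact Nat.gcd_eq_right (dvd_mul_right _ _)
  rw [H42.swapDiv, h1, h2, Nat.div_self (Nat.mul_pos hq.pos hq.pos), mul_one]

theorem mk_congr {F : IntermediateField L (LaurentSeries L)} {d e : ℕ} (h : d = e)
    (h1 : J L d ∈ F) (h2 : J L e ∈ F) : (⟨J L d, h1⟩ : F) = ⟨J L e, h2⟩ := by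
  subst h
  rfl

/-- Two algebra homomorphisms on `F_M` which agree on all `j(d τ)` are equal. -/
theorem algHom_ext_J {M : ℕ} (hM : M ≠ 0) {E : Type*} [Field E] [Algebra L E]
    {φ ψ : FX L M →ₐ[L] E} (h : ∀ (d : ℕ) (hd : d ∣ M),
      φ ⟨J L d, J_mem_FX hM hd⟩ = ψ ⟨J L d, J_mem_FX hM hd⟩) : φ = ψ := by
  apply H42.bar_algHom_ext hM
  intro d hd
  have := h d hd
  simp only [jd_eq_J]
  exact this

theorem nonempty_AL2 (f : L →+* ℂ) (hq : q.Prime) (hqm : ¬ q ∣ m) (w : AL L m q) :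
    Nonempty (AL2 L m q w) := by
  have hm : m ≠ 0 := NeZero.ne m
  have hq0 : q ≠ 0 := NeZero.ne q
  have hmq : m * q ≠ 0 := mul_ne_zero hm hq0
  have hmqq : m * q * q ≠ 0 := mul_ne_zero hmq hq0
  have hqq : NeZero (q * q) := ⟨mul_ne_zero hq0 hq0⟩
  have hco : m.Coprime (q * q) := by
    have h5 : Nat.Coprime q m := (Nat.Prime.coprime_iff_not_dvd hq).2 hqm
    exact (Nat.Coprime.mul_left h5 h5).symm
  obtain ⟨W, h1, -, -, h4⟩ := H42.exists_atkinLehner f hco
  have hlev : m * (q * q) = m * q * q := (mul_assoc m q q).symm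
  -- the automorphism on `F_{mqq}` with its values on `j(d τ)`
  have key : ∀ M : ℕ, m * (q * q) = M → ∃ W₂ : FX L M ≃ₐ[L] FX L M,
      (∀ x, W₂ (W₂ x) = x) ∧ ∀ (d : ℕ) (h : J L d ∈ FX L M)
        (h' : J L (H42.swapDiv m (q * q) d) ∈ FX L M), d ∣ M →
        W₂ ⟨J L d, h⟩ = ⟨J L (H42.swapDiv m (q * q) d), h'⟩ := by
    rintro M rfl
    refine ⟨W, h1, fun d h h' hd => ?_⟩
    have := h4 d hd
    simp only [jd_eq_J] at this
    exact this
  obtain ⟨W₂, hinv, hW₂⟩ := key _ hlev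
  -- values on `j(d τ)`, `j(q d τ)`, `j(q² d τ)`
  have v1 : ∀ d, d ∣ m → ∀ (h : J L d ∈ FX L (m * q * q)) (h' : J L (q * q * d) ∈ FX L (m * q * q)),
      W₂ ⟨J L d, h⟩ = ⟨J L (q * q * d), h'⟩ := by
    intro d hd h h'
    have e := swap_aux1 hq hqm hd
    have h'' : J L (H42.swapDiv m (q * q) d) ∈ FX L (m * q * q) := by rwa [e]
    rw [hW₂ d h h'' (hd.trans ⟨q * q, by ring⟩)]
    exact mk_congr e _ _
  have v2 : ∀ d, d ∣ m → ∀ (h : J L (q * d) ∈ FX L (m * q * q)),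
      W₂ ⟨J L (q * d), h⟩ = ⟨J L (q * d), h⟩ := by
    intro d hd h
    have e := swap_aux2 hq hqm hd
    have h'' : J L (H42.swapDiv m (q * q) (q * d)) ∈ FX L (m * q * q) := by rwa [e]
    rw [hW₂ _ h h'' (by
      obtain ⟨c, hc⟩ := hd
      exact ⟨c * q, by rw [hc]; ring⟩)]
    exact mk_congr e _ _
  have v3 : ∀ d, d ∣ m → ∀ (h : J L (q * (q * d)) ∈ FX L (m * q * q))
      (h' : J L d ∈ FX L (m * q * q)), W₂ ⟨J L (q * (q * d)), h⟩ = ⟨J L d, h'⟩ := by
    intro d hd h h'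
    have e := swap_aux3 hq hqm hd
    have h'' : J L (H42.swapDiv m (q * q) (q * (q * d))) ∈ FX L (m * q * q) := by rwa [e]
    rw [hW₂ _ h h'' (by
      obtain ⟨c, hc⟩ := hd
      exact ⟨c, by rw [hc]; ring⟩)]
    exact mk_congr e _ _
  have hd1 : ∀ d, d ∣ m → J L d ∈ FX L (m * q) := fun d hd =>
    J_mem_FX hmq (hd.trans (dvd_mul_right _ _))
  have hd2 : ∀ d, d ∣ m → J L (q * d) ∈ FX L (m * q) := fun d hd =>
    J_mem_FX hmq (by rw [mul_comm m q]; exact mul_dvd_mul_left q hd)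
  have hd3 : ∀ d, d ∣ m → J L (q * (q * d)) ∈ FX L (m * q * q) := fun d hd =>
    J_mem_FX hmqq (by
      obtain ⟨c, hc⟩ := hd
      exact ⟨c, by rw [hc]; ring⟩)
  have hle : FX L (m * q) ≤ FX L (m * q * q) := FX_mono hmq hmqq (dvd_mul_right _ _)
  have cα : ∀ (y : LaurentSeries L) (h : y ∈ FX L (m * q)),
      heckeAlphaBar L (m * q) q ⟨y, h⟩ = ⟨y, hle h⟩ := fun y h =>
    Subtype.ext (coe_heckeAlphaBar (m * q) q _)
  have cβ : ∀ (d : ℕ) (h : J L d ∈ FX L (m * q)) (h' : J L (q * d) ∈ FX L (m * q * q)),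
      heckeBetaBar L (m * q) q ⟨J L d, h⟩ = ⟨J L (q * d), h'⟩ := fun d h h' => by
    apply Subtype.ext
    rw [coe_heckeBetaBar, qExpand_J]
  refine ⟨⟨W₂, hinv, fun x => ?_, fun x => ?_⟩⟩
  · have h := algHom_ext_J (L := L) hmq (φ := W₂.toAlgHom.comp (heckeAlphaBar L (m * q) q))
      (ψ := (heckeBetaBar L (m * q) q).comp w.W.toAlgHom) (fun d hd => by
        show W₂ (heckeAlphaBar L (m * q) q ⟨J L d, _⟩) = heckeBetaBar L (m * q) q (w.W ⟨J L d, _⟩)
        rcases dvd_cases hq hd with hdm | ⟨e, he, rfl⟩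
        · rw [w.W_J hdm (hd1 d hdm) (hd2 d hdm), cα, cβ _ _ (hd3 d hdm)]
          rw [v1 d hdm _ (by have h := hd3 d hdm; rwa [← mul_assoc q q d] at h)]
          exact mk_congr (mul_assoc _ _ _) _ _
        · rw [w.W_Jq he (hd1 e he) (hd2 e he), cα, cβ _ _ (hle (hd2 e he)), v2 e he])
    exact DFunLike.congr_fun h x
  · have h := algHom_ext_J (L := L) hmq (φ := W₂.toAlgHom.comp (heckeBetaBar L (m * q) q))
      (ψ := (heckeAlphaBar L (m * q) q).comp w.W.toAlgHom) (fun d hd => by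
        show W₂ (heckeBetaBar L (m * q) q ⟨J L d, _⟩) = heckeAlphaBar L (m * q) q (w.W ⟨J L d, _⟩)
        rcases dvd_cases hq hd with hdm | ⟨e, he, rfl⟩
        · rw [w.W_J hdm (hd1 d hdm) (hd2 d hdm), cα, cβ _ _ (hle (hd2 d hdm)), v2 d hdm]
        · rw [w.W_Jq he (hd1 e he) (hd2 e he), cα, cβ _ _ (hd3 e he), v3 e he _ (hle (hd1 e he))])
    exact DFunLike.congr_fun h x

end AL2

section MidW

variable [hL : Fact (HasRoots L)] [CharZero L]
variable (hq : q.Prime) (hqm : ¬ q ∣ m) (w : AL L m q) (w₂ : AL2 L m q w)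

theorem twist_twist {R : Type*} [CommRing R] (u v : Rˣ) (x : LaurentSeries R) :
    twist u (twist v x) = twist (u * v) x := by
  ext n
  rw [twist_coeff, twist_coeff, twist_coeff, mul_zpow, Units.val_mul, mul_assoc]

/-- The middle embedding and `w_{q²}`. -/
theorem midEmb_W₂ {v : Lˣ} (hv : IsPrimitiveRoot v q) (x : FX L (m * q * q)) :
    midEmb hq hqm w hv (w₂.W₂ x) = twist v (midEmb hq hqm w hv.inv x) := by
  have h := algHom_ext' (L := L) (m * q) q hq ((midEmb hq hqm w hv).comp w₂.W₂.toAlgHom)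
    ((twistAlg v).comp (midEmb hq hqm w hv.inv)) (fun y => by
      show midEmb hq hqm w hv (w₂.W₂ (heckeAlphaBar L (m * q) q y)) =
        twist v (midEmb hq hqm w hv.inv (heckeAlphaBar L (m * q) q y))
      rw [w₂.alpha, midEmb_beta, midEmb_alpha, w.invol]) (fun y => by
      show midEmb hq hqm w hv (w₂.W₂ (heckeBetaBar L (m * q) q y)) =
        twist v (midEmb hq hqm w hv.inv (heckeBetaBar L (m * q) q y))
      rw [w₂.beta, midEmb_beta, midEmb_alpha, twist_twist, mul_inv_cancel, twist_one])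
  exact DFunLike.congr_fun h x

include hq w w₂ in
/-- **Norm formula**, second form: `(N_α z)` followed by `w_q` and `t ↦ t^q`. -/
theorem qExpand_W_normAlong_alpha {u : Lˣ} (hu : IsPrimitiveRoot u q) (z : FX L (m * q * q)) :
    qExpand L q ((w.W (normAlong (heckeAlphaBar L (m * q) q) z) : FX L (m * q)) : LaurentSeries L) =
      ∏ i : Fin q, twist (u ^ (i : ℕ)) ((w₂.W₂ z : FX L (m * q * q)) : LaurentSeries L) := by
  let _ := algebraAlong (heckeAlphaBar L (m * q) q)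
  have hfin : FiniteDimensional (FX L (m * q)) (FX L (m * q * q)) :=
    H67.finiteAlong_alpha (degreeFact_of_hasRoots (L := L)) (m * q) q
  have : CharZero (FX L (m * q)) :=
    charZero_of_injective_algebraMap (algebraMap L (FX L (m * q))).injective
  have hdeg : Module.finrank (FX L (m * q)) (FX L (m * q * q)) = q := by
    have := H67.finrank_alpha_prime (degreeFact_of_hasRoots (L := L)) (m * q) q hq
    rw [if_pos (dvd_mul_left _ _)] at this
    exact this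
  have hmq : m * q ≠ 0 := mul_ne_zero (NeZero.ne m) (NeZero.ne q)
  have hmqq : m * q * q ≠ 0 := mul_ne_zero hmq (NeZero.ne q)
  have hx : J L (q * q) ∈ FX L (m * q * q) := J_mem_FX hmqq ⟨m, by ring⟩
  have hW₂J : ((w₂.W₂ ⟨J L (q * q), hx⟩ : FX L (m * q * q)) : LaurentSeries L) = J L 1 := by
    have e2 : (⟨J L (q * q), hx⟩ : FX L (m * q * q)) =
        heckeBetaBar L (m * q) q ⟨J L q, J_mem_FX hmq (dvd_mul_left _ _)⟩ := by
      apply Subtype.ext
      rw [coe_heckeBetaBar, qExpand_J]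
    have hJ1 : J L 1 ∈ FX L (m * q) := J_mem_FX hmq (one_dvd _)
    have hJq : J L (q * 1) ∈ FX L (m * q) := by
      rw [mul_one]; exact J_mem_FX hmq (dvd_mul_left _ _)
    have e3 : (⟨J L q, J_mem_FX hmq (dvd_mul_left _ _)⟩ : FX L (m * q)) = ⟨J L (q * 1), hJq⟩ :=
      mk_congr (mul_one q).symm _ _
    rw [e2, w₂.beta, coe_heckeAlphaBar, e3, w.W_Jq (one_dvd m) hJ1 hJq]
  exact map_norm_eq_prod (F := FX L (m * q)) (F' := FX L (m * q * q)) (E := LaurentSeries L)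
    ((qExpand L q).comp ((algebraMap (FX L (m * q)) (LaurentSeries L)).comp
      (w.W : FX L (m * q) →+* FX L (m * q))))
    (fun i : Fin q => (twist (u ^ (i : ℕ))).comp
      ((algebraMap (FX L (m * q * q)) (LaurentSeries L)).comp
        (w₂.W₂ : FX L (m * q * q) →+* FX L (m * q * q))))
    (fun i x => by
      show twist (u ^ (i : ℕ)) ((w₂.W₂ (heckeAlphaBar L (m * q) q x) : FX L (m * q * q)) :
        LaurentSeries L) = qExpand L q ((w.W x : FX L (m * q)) : LaurentSeries L)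
      rw [w₂.alpha, coe_heckeBetaBar, twist_qExpand_of_pow_eq_one]
      rw [← pow_mul, mul_comm, pow_mul, hu.pow_eq_one, one_pow])
    (fun i j hij => by
      have h1 := congrArg (fun φ : FX L (m * q * q) →+* LaurentSeries L =>
        (φ ⟨J L (q * q), hx⟩).coeff (-1)) hij
      have hval : ∀ i : Fin q, (twist (u ^ (i : ℕ)) ((w₂.W₂ ⟨J L (q * q), hx⟩ :
          FX L (m * q * q)) : LaurentSeries L)).coeff (-1) =
          (((u ^ (i : ℕ)) ^ (-1 : ℤ) : Lˣ) : L) := by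
        intro i
        rw [hW₂J, twist_coeff, J_one, coeff_jqModC_neg_one, mul_one]
      have h2 : (((u ^ (i : ℕ)) ^ (-1 : ℤ) : Lˣ) : L) = (((u ^ (j : ℕ)) ^ (-1 : ℤ) : Lˣ) : L) := by
        rw [← hval i, ← hval j]
        exact h1
      have h3 := Units.ext h2
      rw [zpow_neg_one, zpow_neg_one, inv_inj] at h3
      exact Fin.ext (hu.pow_inj i.2 j.2 h3))
    (by rw [hdeg, Fintype.card_fin]) z

/-- transport of the norm by `w_{q²}` -/
theorem normAlong_beta (z : FX L (m * q * q)) :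
    normAlong (heckeBetaBar L (m * q) q) (w₂.W₂ z) =
      w.W (normAlong (heckeAlphaBar L (m * q) q) z) := by
  have h := @Algebra.norm_eq_of_equiv_equiv (FX L (m * q)) (FX L (m * q * q)) (FX L (m * q))
    (FX L (m * q * q)) _ _ _ _ (algebraAlong (heckeAlphaBar L (m * q) q))
    (algebraAlong (heckeBetaBar L (m * q) q)) w.W.toRingEquiv w₂.W₂.toRingEquiv
    (by
      refine RingHom.ext fun x => ?_
      exact (w₂.alpha x).symm) z
  unfold normAlong
  rw [h]
  exact (w.W.apply_symm_apply _).symm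

end MidW

end Fermat.Agent.H99
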