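import Mathlib
import Fermat.Agent.H34Two3
import Fermat.Agent.H84Two
import Fermat.Agent.H99Emb3
import Fermat.Agent.H60Galois
import Fermat.Agent.H18Div

/-!
# The two components of the reduction of `X_0(mq)` (helper34): valuation rings and residue maps
-/

set_option autoImplicit false
set_option linter.unusedSectionVars false

noncomputable section

open HahnSeries ModularCurve AlgebraicCurve IntermediateField Module

namespace Fermat.Agent.H34.Two

attribute [-instance] HahnSeries.instModule HahnSeries.instSMul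

section Quot

variable {L : Type*} [Field L]

theorem mem_intSpan_of_int (y : LaurentSeries ℤ) :
    coeffMap (Int.castRingHom L) y ∈ intSpan L :=
  Submodule.subset_span ⟨y, rfl⟩

theorem J_eq_jd (d : ℕ) : H66.J L d = H42.jd L d := by
  rw [H66.J, H42.jd]

theorem coeffMap_J {R S : Type*} [Field R] [Field S] (f : R →+* S) (d : ℕ) :
    coeffMap f (H66.J R d) = H66.J S d := by
  rw [J_eq_jd, J_eq_jd, H42.coeffMap_jd]

theorem J_mem_intSpan (d : ℕ) : H66.J L d ∈ intSpan L := by
  rw [J_eq_jd, ← H42.coeffMap_jd (Int.castRingHom L)]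
  exact mem_intSpan_of_int _

theorem isQuot_adjoin {S : Set (LaurentSeries L)} (hS : S ⊆ intSpan L) : IsQuot (adjoin L S) := by
  intro f hf
  obtain ⟨r, hr, s, hs, rfl⟩ := IntermediateField.mem_adjoin_iff_div.mp hf
  have hle : Algebra.adjoin L S ≤ intAlg L := Algebra.adjoin_le hS
  by_cases hs0 : s = 0
  · refine ⟨0, Submodule.zero_mem _, 1, one_mem_intSpan, one_ne_zero, ?_⟩
    rw [hs0, div_zero, zero_mul]
  · exact ⟨r, hle hr, s, hle hs, hs0, div_mul_cancel₀ r hs0⟩

theorem isQuot_full (M : ℕ) : IsQuot (modularFunctionFieldFullC L M) := by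
  apply isQuot_adjoin
  rintro _ ⟨d, hd, hdvd, rfl⟩
  rw [← H66.J_eq]
  exact J_mem_intSpan d

theorem isQuot_FX [Algebra ℚ L] (M : ℕ) : IsQuot (H99.FX L M) := by
  rw [H99.FX_eq]
  exact isQuot_full M

end Quot

section CompMap

variable {K k F F' κ : Type*} [Field K] [Field k] [Field F] [Algebra K F] [Field F'] [Algebra K F']
  [Field κ] [Algebra k κ] {A : ValuationSubring K} {π : A →+* k}

/-- Pull back of a component along an embedding of fields. -/
def compComap (C : H84.Comp A π F κ) (φ : F' →ₐ[K] F) : H84.Comp A π F' κ where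
  V := C.V.comap (φ : F' →+* F)
  ρ := C.ρ.comp (((φ : F' →+* F).comp (C.V.comap (φ : F' →+* F)).subtype).codRestrict C.V
    (fun f => f.2))
  loc := by
    intro v hv
    have hv' : φ v.1 ∈ C.V := v.2
    have h1 : C.red (φ v.1) ≠ 0 := by
      rw [C.red_of_mem hv']
      exact hv
    have h2 := C.inv_mem_of_red_ne_zero h1
    have h3 : (v.1)⁻¹ ∈ C.V.comap (φ : F' →+* F) := by
      show φ (v.1)⁻¹ ∈ C.V
      rw [map_inv₀]
      exact h2
    have h0 : v.1 ≠ 0 := by
      intro h0
      rw [h0, map_zero, C.red_zero] at h1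
      exact h1 rfl
    exact IsUnit.of_mul_eq_one ⟨(v.1)⁻¹, h3⟩ (Subtype.ext (mul_inv_cancel₀ h0))
  mem a := by
    show φ (algebraMap K F' a) ∈ C.V
    rw [AlgHom.commutes]
    exact C.mem a
  ρ_mem a := by
    have h1 : φ (algebraMap K F' a) = algebraMap K F a := AlgHom.commutes _ _
    have h2 : φ (algebraMap K F' a) ∈ C.V := h1 ▸ C.mem a
    show C.ρ ⟨φ (algebraMap K F' a), h2⟩ = _
    rw [← C.ρ_mem]
    congr 1
    exact Subtype.ext h1

theorem mem_compComap (C : H84.Comp A π F κ) (φ : F' →ₐ[K] F) {f : F'} :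
    f ∈ (compComap C φ).V ↔ φ f ∈ C.V := Iff.rfl

theorem red_compComap (C : H84.Comp A π F κ) (φ : F' →ₐ[K] F) (f : F') :
    (compComap C φ).red f = C.red (φ f) := by
  by_cases hf : φ f ∈ C.V
  · rw [C.red_of_mem hf, (compComap C φ).red_of_mem (f := f) hf]
    rfl
  · rw [C.red_of_notMem hf, (compComap C φ).red_of_notMem (f := f) hf]

theorem compComap_scalable {C : H84.Comp A π F κ} (hC : C.Scalable) (φ : F' →ₐ[K] F) :
    (compComap C φ).Scalable := by
  intro f hf
  obtain ⟨c, hc, h⟩ := hC (φ f) ((_root_.map_ne_zero _).mpr hf)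
  refine ⟨c, hc, ?_⟩
  rw [red_compComap, map_mul, AlgHom.commutes]
  exact h

end CompMap

section Gauss

variable {L : Type*} [Field L] (A : ValuationSubring L) {k : Type*} [Field k] (π : A →+* k)
variable {F : IntermediateField L (LaurentSeries L)} (hF : IsQuot F)

/-- The Gauss component of a field of quotients of bounded series. -/
def gaussComp : H84.Comp A π F (LaurentSeries k) where
  V := gaussV A π hF
  ρ := gaussRed A π hF
  loc := isUnit_of_gaussRed_ne_zero A π hF
  mem := algebraMap_mem_gaussV A π hF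
  ρ_mem := gaussRed_algebraMap A π hF

theorem mem_gaussComp {f : F} : f ∈ (gaussComp A π hF).V ↔ (f : LaurentSeries L) ∈ locL A π :=
  Iff.rfl

theorem red_gaussComp_mul {f : F} {y z : LaurentSeries A} (hz : coeffMap π z ≠ 0)
    (h : (f : LaurentSeries L) * coeffMap A.subtype z = coeffMap A.subtype y) :
    (gaussComp A π hF).red f * coeffMap π z = coeffMap π y := by
  have hf : f ∈ (gaussComp A π hF).V := (mem_locL_iff A π).mpr ⟨y, z, hz, h⟩
  rw [(gaussComp A π hF).red_of_mem hf]
  exact gaussRed_mul_eq A π hF ⟨f, hf⟩ hz h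

theorem mem_gaussComp_of_eq {f : F} {y : LaurentSeries A}
    (h : (f : LaurentSeries L) = coeffMap A.subtype y) : f ∈ (gaussComp A π hF).V := by
  rw [mem_gaussComp, h]
  exact coeffMap_mem_locL A π y

theorem red_gaussComp_of_eq {f : F} {y : LaurentSeries A}
    (h : (f : LaurentSeries L) = coeffMap A.subtype y) :
    (gaussComp A π hF).red f = coeffMap π y := by
  have := red_gaussComp_mul A π hF (f := f) (y := y) (z := 1)
    (by rw [map_one]; exact one_ne_zero) (by rw [map_one, mul_one]; exact h)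
  rwa [map_one, mul_one] at this

theorem gaussComp_scalable : (gaussComp A π hF).Scalable := by
  intro f hf
  obtain ⟨c, hc, h, h'⟩ := exists_scale_gaussV A π hF f hf
  refine ⟨c, hc, ?_⟩
  have h'' : algebraMap L F c * f ∈ (gaussComp A π hF).V := h
  rw [(gaussComp A π hF).red_of_mem h'']
  exact h'

end Gauss

/-! ### Levels -/

section Levels

variable {L : Type*} [Field L] [Algebra ℚ L] (A : ValuationSubring L) {k : Type*} [Field k]
  (π : A →+* k)

/-- The Gauss component of `F_M`. -/
def gC (M : ℕ) : H84.Comp A π (H99.FX L M) (LaurentSeries k) := gaussComp A π (isQuot_FX M)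

theorem J_eq_coeffMap_sub (d : ℕ) : H66.J L d = coeffMap A.subtype (H42.jd A d) := by
  rw [J_eq_jd, H42.coeffMap_jd]

theorem J_mem_gC {M d : ℕ} (h : H66.J L d ∈ H99.FX L M) :
    (⟨H66.J L d, h⟩ : H99.FX L M) ∈ (gC A π M).V :=
  mem_gaussComp_of_eq A π _ (J_eq_coeffMap_sub A d)

theorem red_J {M d : ℕ} (h : H66.J L d ∈ H99.FX L M) :
    (gC A π M).red ⟨H66.J L d, h⟩ = H66.J k d := by
  rw [J_eq_jd (L := k), ← H42.coeffMap_jd π]
  exact red_gaussComp_of_eq A π _ (J_eq_coeffMap_sub A d)

/-- The image of the residue map contains the modular functions. -/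
theorem mem_image_gC (hπ : Function.Surjective π) {M : ℕ} (hM : M ≠ 0) {t : LaurentSeries k}
    (ht : t ∈ modularFunctionFieldFullC k M) : t ∈ (gC A π M).image := by
  rw [modularFunctionFieldFullC] at ht
  induction ht using IntermediateField.adjoin_induction with
  | mem y hy =>
    obtain ⟨d, hd, hdvd, rfl⟩ := hy
    rw [← H66.J_eq]
    exact ⟨_, J_mem_gC A π (H99.J_mem_FX hM hdvd), red_J A π (H99.J_mem_FX hM hdvd)⟩
  | algebraMap c =>
    obtain ⟨a, rfl⟩ := hπ c
    exact ⟨_, (gC A π M).mem a, (gC A π M).red_algebraMap a⟩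
  | add y z _ _ hy hz => exact add_mem hy hz
  | inv y _ hy => exact inv_mem hy
  | mul y z _ _ hy hz => exact mul_mem hy hz

section Alpha

variable {m q : ℕ} [NeZero m] [NeZero q]

theorem red_alpha_aux {f : H99.FX L m} {y z : LaurentSeries A} (hz : coeffMap π z ≠ 0)
    (h : (f : LaurentSeries L) * coeffMap A.subtype z = coeffMap A.subtype y) :
    (gC A π (m * q)).red (heckeAlphaBar L m q f) * coeffMap π z = coeffMap π y :=
  red_gaussComp_mul A π _ hz (by rw [coe_heckeAlphaBar]; exact h)

theorem mem_alpha_iff {f : H99.FX L m} :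
    heckeAlphaBar L m q f ∈ (gC A π (m * q)).V ↔ f ∈ (gC A π m).V := by
  show ((heckeAlphaBar L m q f : H99.FX L (m * q)) : LaurentSeries L) ∈ locL A π ↔
    (f : LaurentSeries L) ∈ locL A π
  rw [coe_heckeAlphaBar]

/-- `ρ (α f) = ρ f` -/
theorem red_alpha (f : H99.FX L m) :
    (gC A π (m * q)).red (heckeAlphaBar L m q f) = (gC A π m).red f := by
  by_cases hf : f ∈ (gC A π m).V
  · obtain ⟨y, z, hz, h⟩ := (mem_locL_iff A π).mp hf
    have h1 := red_alpha_aux A π (q := q) hz h
    have h2 := red_gaussComp_mul A π (isQuot_FX m) hz h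
    exact mul_right_cancel₀ hz (h1.trans h2.symm)
  · rw [(gC A π m).red_of_notMem hf,
      (gC A π (m * q)).red_of_notMem (fun h => hf ((mem_alpha_iff A π).mp h))]

theorem qExpand_injective' {R : Type*} [CommRing R] (n : ℕ) [NeZero n] :
    Function.Injective (qExpand R n) := by
  intro x y h
  ext i
  have := congrArg (fun w => HahnSeries.coeff w (n * i)) h
  simpa only [qExpand_coeff_mul] using this

theorem red_beta_aux {f : H99.FX L m} {y z : LaurentSeries A} (hz : coeffMap π z ≠ 0)
    (h : (f : LaurentSeries L) * coeffMap A.subtype z = coeffMap A.subtype y) :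
    coeffMap π (qExpand A q z) ≠ 0 ∧
    ((heckeBetaBar L m q f : H99.FX L (m * q)) : LaurentSeries L) *
      coeffMap A.subtype (qExpand A q z) = coeffMap A.subtype (qExpand A q y) := by
  constructor
  · rw [H60.coeffMap_qExpand_H60]
    exact (map_ne_zero_iff _ (qExpand_injective' q)).mpr hz
  · rw [coe_heckeBetaBar, H60.coeffMap_qExpand_H60, H60.coeffMap_qExpand_H60, ← map_mul, h]

theorem beta_mem {f : H99.FX L m} (hf : f ∈ (gC A π m).V) :
    heckeBetaBar L m q f ∈ (gC A π (m * q)).V := by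
  obtain ⟨y, z, hz, h⟩ := (mem_locL_iff A π).mp hf
  obtain ⟨h1, h2⟩ := red_beta_aux A π (q := q) hz h
  exact (mem_locL_iff A π).mpr ⟨_, _, h1, h2⟩

theorem red_beta_of_mem {f : H99.FX L m} (hf : f ∈ (gC A π m).V) :
    (gC A π (m * q)).red (heckeBetaBar L m q f) = qExpand k q ((gC A π m).red f) := by
  obtain ⟨y, z, hz, h⟩ := (mem_locL_iff A π).mp hf
  obtain ⟨h1, h2⟩ := red_beta_aux A π (q := q) hz h
  have h3 := red_gaussComp_mul A π (isQuot_FX (m * q)) h1 h2
  have h4 := red_gaussComp_mul A π (isQuot_FX m) hz h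
  apply mul_right_cancel₀ h1
  refine h3.trans ?_
  rw [H60.coeffMap_qExpand_H60, H60.coeffMap_qExpand_H60, ← map_mul]
  exact congrArg _ h4.symm

theorem beta_mem_iff {f : H99.FX L m} :
    heckeBetaBar L m q f ∈ (gC A π (m * q)).V ↔ f ∈ (gC A π m).V := by
  refine ⟨fun h => ?_, beta_mem A π⟩
  by_contra hf
  have h1 := ((gC A π m).V.mem_or_inv_mem f).resolve_left hf
  have hf0 : f ≠ 0 := fun h0 => hf (h0 ▸ (gC A π m).V.zero_mem)
  have h2 : (gC A π m).red f⁻¹ = 0 := by
    by_contra h0
    have := (gC A π m).inv_mem_of_red_ne_zero h0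
    rw [inv_inv] at this
    exact hf this
  have h3 := red_beta_of_mem A π (q := q) h1
  rw [h2, map_zero, map_inv₀] at h3
  have h4 := (gC A π (m * q)).red_mul h (beta_mem A π (q := q) h1)
  rw [map_inv₀, mul_inv_cancel₀ ((_root_.map_ne_zero _).mpr hf0), h3, mul_zero,
    (gC A π (m * q)).red_one] at h4
  exact one_ne_zero h4

/-- `ρ (β f) = Φ (ρ f)` -/
theorem red_beta (f : H99.FX L m) :
    (gC A π (m * q)).red (heckeBetaBar L m q f) = qExpand k q ((gC A π m).red f) := by
  by_cases hf : f ∈ (gC A π m).V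
  · exact red_beta_of_mem A π hf
  · rw [(gC A π m).red_of_notMem hf,
      (gC A π (m * q)).red_of_notMem (fun h => hf ((beta_mem_iff A π).mp h)), map_zero]

end Alpha

end Levels

end Fermat.Agent.H34.Two

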