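import Mathlib
import Fermat.Agent.H34Two4
import Fermat.Agent.H67Comm
import Fermat.Agent.H42RedInputs

/-!
# The two components of the reduction of `X_0(mq)` (helper34): residue fields and bases
-/

set_option autoImplicit false
set_option linter.unusedSectionVars false

noncomputable section

open HahnSeries ModularCurve AlgebraicCurve IntermediateField Module

namespace Fermat.Agent.H34.Two

/-! ### Pairs of scalable components -/

section Pair

variable {K k : Type*} [Field K] [Field k] {A : ValuationSubring K} {π : A →+* k}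
  {F κ κ₀ : Type*} [Field F] [Algebra K F] [Field κ] [Algebra k κ] [Field κ₀] [Algebra k κ₀]
variable {C₁ C₂ : H84.Comp A π F κ} {x : F}

theorem incomparable_pair' (hπ : Function.Surjective π) (h₁ : C₁.Scalable) (h₂ : C₂.Scalable)
    (hne : C₁.V ≠ C₂.V) (i j : Bool) (hij : i ≠ j) :
    ¬ (H84.pairFam C₁ C₂ i).V ≤ (H84.pairFam C₁ C₂ j).V := by
  cases i <;> cases j
  · exact (hij rfl).elim
  · exact h₂.not_le hπ hne.symm
  · exact h₁.not_le hπ hne
  · exact (hij rfl).elim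

variable (j₀ : κ₀ →ₐ[k] κ) {x₁ x₂ : κ₀}

theorem red_mem_range_pair' [Infinite k] (hπ : Function.Surjective π)
    (hs₁ : C₁.Scalable) (hs₂ : C₂.Scalable)
    (hx₁ : x ∈ C₁.V) (hx₂ : x ∈ C₂.V) (ht₁ : Transcendental k (C₁.red x))
    (ht₂ : Transcendental k (C₂.red x)) [FiniteDimensional K⟮x⟯ F] (hne : C₁.V ≠ C₂.V)
    (h₁ : j₀ x₁ = C₁.red x) (h₂ : j₀ x₂ = C₂.red x) (him₁ : ∀ t, j₀ t ∈ C₁.image)
    (him₂ : ∀ t, j₀ t ∈ C₂.image) [FiniteDimensional k⟮x₁⟯ κ₀] [FiniteDimensional k⟮x₂⟯ κ₀]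
    (hsum : finrank K⟮x⟯ F ≤ finrank k⟮x₁⟯ κ₀ + finrank k⟮x₂⟯ κ₀) (f : F) :
    C₁.red f ∈ Set.range j₀ ∧ C₂.red f ∈ Set.range j₀ := by
  have hx := H84.resTrans_pair hx₁ hx₂ ht₁ ht₂
  let x₀ : Bool → κ₀ := fun b => cond b x₁ x₂
  have : ∀ b, FiniteDimensional k⟮x₀ b⟯ κ₀ := fun b => by
    cases b <;> assumption
  have key := H84.image_le_range_of_sum (H84.pairFam C₁ C₂) x j₀ x₀ hπ
    (incomparable_pair' hπ hs₁ hs₂ hne) hx (fun b => by cases b <;> [exact h₂; exact h₁])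
    (fun b t => by cases b <;> [exact him₂ t; exact him₁ t])
    (by rw [Fintype.sum_bool]; exact hsum)
  exact ⟨key true ((H84.pairFam C₁ C₂ true).red_mem_image f),
    key false ((H84.pairFam C₁ C₂ false).red_mem_image f)⟩

theorem exists_frame_pair' [Infinite k] (hπ : Function.Surjective π)
    (hs₁ : C₁.Scalable) (hs₂ : C₂.Scalable)
    (hx₁ : x ∈ C₁.V) (hx₂ : x ∈ C₂.V) (ht₁ : Transcendental k (C₁.red x))
    (ht₂ : Transcendental k (C₂.red x)) [FiniteDimensional K⟮x⟯ F] (hne : C₁.V ≠ C₂.V)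
    (him₁ : ∀ t, t ∈ C₁.image) (him₂ : ∀ t, t ∈ C₂.image)
    [FiniteDimensional k⟮C₁.red x⟯ κ] [FiniteDimensional k⟮C₂.red x⟯ κ]
    (hsum : finrank K⟮x⟯ F ≤ finrank k⟮C₁.red x⟯ κ + finrank k⟮C₂.red x⟯ κ) :
    ∃ (J : Type) (_ : Fintype J) (b : J → F), H84.IsFrame (H84.pairFam C₁ C₂) x b := by
  have hx := H84.resTrans_pair hx₁ hx₂ ht₁ ht₂
  let x₀ : Bool → κ := fun b => (H84.pairFam C₁ C₂ b).red x
  have : ∀ b, FiniteDimensional k⟮x₀ b⟯ κ := fun b => by
    cases b <;> assumption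
  obtain ⟨b, hb⟩ := H84.exists_isFrame_of_sum (H84.pairFam C₁ C₂) x (AlgHom.id k κ) x₀ hπ
    (incomparable_pair' hπ hs₁ hs₂ hne) hx (fun b => rfl)
    (fun b t => by cases b <;> [exact him₂ t; exact him₁ t])
    (by rw [Fintype.sum_bool]; exact hsum)
  exact ⟨_, _, b, hb⟩

theorem exists_basis_pair' [Infinite k] (hπ : Function.Surjective π)
    (hs₁ : C₁.Scalable) (hs₂ : C₂.Scalable)
    (hx₁ : x ∈ C₁.V) (hx₂ : x ∈ C₂.V) (ht₁ : Transcendental k (C₁.red x))
    (ht₂ : Transcendental k (C₂.red x)) [FiniteDimensional K⟮x⟯ F] (hne : C₁.V ≠ C₂.V)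
    (him₁ : ∀ t, t ∈ C₁.image) (him₂ : ∀ t, t ∈ C₂.image)
    [FiniteDimensional k⟮C₁.red x⟯ κ] [FiniteDimensional k⟮C₂.red x⟯ κ]
    (hsum : finrank K⟮x⟯ F ≤ finrank k⟮C₁.red x⟯ κ + finrank k⟮C₂.red x⟯ κ)
    (W : Submodule K F) [FiniteDimensional K W] :
    ∃ (d : ℕ) (w : Fin d → F) (h₁ : ∀ i, w i ∈ C₁.V) (h₂ : ∀ i, w i ∈ C₂.V),
      Submodule.span K (Set.range w) = W ∧
      LinearIndependent k (fun i => ((C₁.ρ ⟨w i, h₁ i⟩, C₂.ρ ⟨w i, h₂ i⟩) : κ × κ)) := by
  have hx := H84.resTrans_pair hx₁ hx₂ ht₁ ht₂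
  obtain ⟨J, _, b, hb⟩ := exists_frame_pair' hπ hs₁ hs₂ hx₁ hx₂ ht₁ ht₂ hne him₁ him₂ hsum
  obtain ⟨d, w, hw, hspan, hli⟩ := hb.exists_basis hx W
  have hw' := fun m => H84.mem_B_pair.mp (hw m)
  refine ⟨d, w, fun i => (hw' i).1, fun i => (hw' i).2, hspan, ?_⟩
  have h1 : (fun (m : Fin d) i => (H84.pairFam C₁ C₂ i).red (w m)) =
      fun m => (LinearMap.pi (R := k) (φ := fun _ : Bool => κ)
        (fun b => cond b (LinearMap.fst k κ κ) (LinearMap.snd k κ κ)))
        ((C₁.ρ ⟨w m, (hw' m).1⟩, C₂.ρ ⟨w m, (hw' m).2⟩) : κ × κ) := by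
    funext m b
    cases b
    · exact C₂.red_of_mem (hw' m).2
    · exact C₁.red_of_mem (hw' m).1
  rw [h1] at hli
  exact LinearIndependent.of_comp _ hli

end Pair

/-! ### The components of `X_0(mq)` -/

section Comps

variable {L : Type*} [Field L] [Algebra ℚ L] (A : ValuationSubring L) {k : Type*} [Field k]
  (π : A →+* k) {m q : ℕ} [NeZero m] [NeZero q] (w : H99.AL L m q)

/-- The second component of the reduction of `X_0(mq)`, with values in Laurent series. -/
def gC2 : H84.Comp A π (H99.FX L (m * q)) (LaurentSeries k) :=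
  compComap (gC A π (m * q)) w.W.toAlgHom

theorem mem_gC2 {f : H99.FX L (m * q)} : f ∈ (gC2 A π w).V ↔ w.W f ∈ (gC A π (m * q)).V := Iff.rfl

theorem red_gC2 (f : H99.FX L (m * q)) :
    (gC2 A π w).red f = (gC A π (m * q)).red (w.W f) :=
  red_compComap _ _ f

theorem mem_gC2_alpha {f : H99.FX L m} :
    heckeAlphaBar L m q f ∈ (gC2 A π w).V ↔ f ∈ (gC A π m).V := by
  rw [mem_gC2, w.alpha, beta_mem_iff]

theorem red_gC2_alpha (f : H99.FX L m) :
    (gC2 A π w).red (heckeAlphaBar L m q f) = qExpand k q ((gC A π m).red f) := by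
  rw [red_gC2, w.alpha, red_beta]

theorem mem_gC2_beta {f : H99.FX L m} :
    heckeBetaBar L m q f ∈ (gC2 A π w).V ↔ f ∈ (gC A π m).V := by
  rw [mem_gC2, w.beta, mem_alpha_iff]

theorem red_gC2_beta (f : H99.FX L m) :
    (gC2 A π w).red (heckeBetaBar L m q f) = (gC A π m).red f := by
  rw [red_gC2, w.beta, red_alpha]

theorem gC_scalable (M : ℕ) : (gC A π M).Scalable := gaussComp_scalable A π _

theorem gC2_scalable : (gC2 A π w).Scalable := compComap_scalable (gC_scalable A π _) _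

/-- `j` at level `m` -/
def jm (L : Type*) [Field L] [Algebra ℚ L] (m : ℕ) [NeZero m] : H99.FX L m :=
  ⟨H66.J L 1, H99.J_mem_FX (NeZero.ne m) (one_dvd m)⟩

theorem coe_jm : (jm L m : LaurentSeries L) = H66.J L 1 := rfl

theorem red_jm : (gC A π m).red (jm L m) = jqModC k := by
  rw [jm, red_J, H66.J_one]

theorem jm_mem : jm L m ∈ (gC A π m).V := J_mem_gC A π _

section Char

variable [hq : Fact q.Prime] [CharP k q]

theorem qExpand_jqModC_char : qExpand k q (jqModC k) = jqModC k ^ q := by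
  rw [H60.laurent_pow_char q, coeffMap_jqModC]

theorem transc_jqModC_pow : Transcendental k (jqModC k ^ q) :=
  (H42.transcendental_jqModC k).pow hq.out.pos

/-- The two valuation rings are different. -/
theorem V_ne : (gC A π (m * q)).V ≠ (gC2 A π w).V := by
  intro h
  -- `z = β j - α (j) ^ q`
  set z : H99.FX L (m * q) := heckeBetaBar L m q (jm L m) - heckeAlphaBar L m q (jm L m) ^ q
    with hz
  have hα1 : heckeAlphaBar L m q (jm L m) ∈ (gC A π (m * q)).V :=
    (mem_alpha_iff A π).mpr (jm_mem A π)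
  have hβ1 : heckeBetaBar L m q (jm L m) ∈ (gC A π (m * q)).V :=
    (beta_mem_iff A π).mpr (jm_mem A π)
  have hα2 : heckeAlphaBar L m q (jm L m) ∈ (gC2 A π w).V :=
    (mem_gC2_alpha A π w).mpr (jm_mem A π)
  have hβ2 : heckeBetaBar L m q (jm L m) ∈ (gC2 A π w).V :=
    (mem_gC2_beta A π w).mpr (jm_mem A π)
  have h1 : (gC A π (m * q)).red z = 0 := by
    rw [hz, (gC A π (m * q)).red_sub hβ1 ((gC A π (m * q)).pow_mem hα1 q),
      (gC A π (m * q)).red_pow hα1, red_alpha, red_beta, red_jm, qExpand_jqModC_char, sub_self]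
  have h2 : (gC2 A π w).red z = jqModC k - (jqModC k ^ q) ^ q := by
    rw [hz, (gC2 A π w).red_sub hβ2 ((gC2 A π w).pow_mem hα2 q),
      (gC2 A π w).red_pow hα2, red_gC2_alpha, red_gC2_beta, red_jm, qExpand_jqModC_char]
  have h3 : (gC2 A π w).red z ≠ 0 := by
    rw [h2]
    intro h0
    have h4 : jqModC k = jqModC k ^ (q * q) := by
      rw [pow_mul]; exact sub_eq_zero.mp h0
    have h5 := H42.transc_jqModC k (Polynomial.X - Polynomial.X ^ (q * q)) (by
      rw [map_sub, map_pow, Polynomial.aeval_X, ← h4, sub_self])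
    have h6 := congrArg (fun p => Polynomial.coeff p 1) h5
    have h7 : q * q ≠ 1 := by
      have := hq.out.two_le
      nlinarith
    simp [Polynomial.coeff_X_pow, h7.symm] at h6
  have h4 : z ≠ 0 := fun h0 => h3 (by rw [h0, (gC2 A π w).red_zero])
  have h5 := (gC2 A π w).inv_mem_of_red_ne_zero h3
  have h6 := (gC2 A π w).mem_of_red_ne_zero h3
  rw [← h] at h5 h6
  exact (gC A π (m * q)).red_ne_zero_iff.mpr ⟨h4, h6, h5⟩ h1

end Char

end Comps

/-! ### Degrees and residue fields -/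

section Degrees

variable {L : Type*} [Field L] [Algebra ℚ L] {A : ValuationSubring L} {k : Type*} [Field k]
  {π : A →+* k} {m q : ℕ} [NeZero m] [NeZero q] [hq : Fact q.Prime]

/-- `j` at level `m` over `k` -/
def jk (k : Type*) [Field k] (m : ℕ) : modularFunctionFieldFullC k m :=
  ⟨jqModC k, jqModC_mem_full k m⟩

@[simp] theorem coe_jk (m : ℕ) : (jk k m : LaurentSeries k) = jqModC k := rfl

/-- `j` at level `mq` -/
def jmq (L : Type*) [Field L] [Algebra ℚ L] (m q : ℕ) [NeZero m] [NeZero q] :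
    H99.FX L (m * q) := heckeAlphaBar L m q (jm L m)

theorem coe_jmq : (jmq L m q : LaurentSeries L) = jqModC L := by
  rw [jmq, coe_heckeAlphaBar, coe_jm, H66.J_one]

theorem finrank_jmq (hD : H67.DegreeFact L) :
    finrank L⟮jmq L m q⟯ (H99.FX L (m * q)) = dedekindPsi (m * q) := by
  have hx : jqModC L ∈ H99.FX L (m * q) := by rw [← coe_jmq (L := L) (m := m) (q := q)]; exact (jmq L m q).2
  have e : jmq L m q = ⟨jqModC L, hx⟩ := Subtype.ext coe_jmq
  rw [e, ← H42.relfinrank_eq_finrank_adjoin _ hx, H99.FX_eq, hD (m * q)]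

theorem finiteDimensional_jmq (hD : H67.DegreeFact L) :
    FiniteDimensional L⟮jmq L m q⟯ (H99.FX L (m * q)) := by
  apply FiniteDimensional.of_finrank_pos
  rw [finrank_jmq hD]
  exact H67.dedekindPsi_pos _

theorem finrank_jk (hD : H67.DegreeFact L) (hdeg : H42.DegLE L k m) :
    dedekindPsi m ≤ finrank k⟮jk k m⟯ (modularFunctionFieldFullC k m) := by
  have h := H42.relfinrank_eq_finrank_adjoin (modularFunctionFieldFullC k m)
    (jqModC_mem_full k m)
  rw [jk, ← h, ← hD m]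
  exact hdeg.2

theorem transcendental_jk : Transcendental k (jk k m) := H42.transcendental_jFull k m

theorem finiteDimensional_jk (hD : H67.DegreeFact L) (hdeg : H42.DegLE L k m) :
    FiniteDimensional k⟮jk k m⟯ (modularFunctionFieldFullC k m) :=
  FiniteDimensional.of_finrank_pos ((H67.dedekindPsi_pos m).trans_le (finrank_jk hD hdeg))

theorem finrank_jk_pow (n : ℕ) :
    finrank k⟮jk k m ^ n⟯ (modularFunctionFieldFullC k m) =
      n * finrank k⟮jk k m⟯ (modularFunctionFieldFullC k m) :=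
  H18.finrank_adjoin_pow n transcendental_jk

theorem finiteDimensional_jk_pow (hD : H67.DegreeFact L) (hdeg : H42.DegLE L k m) :
    FiniteDimensional k⟮jk k m ^ q⟯ (modularFunctionFieldFullC k m) := by
  apply FiniteDimensional.of_finrank_pos
  rw [finrank_jk_pow]
  exact Nat.mul_pos hq.out.pos ((H67.dedekindPsi_pos m).trans_le (finrank_jk hD hdeg))

theorem degree_sum (hD : H67.DegreeFact L) (hdeg : H42.DegLE L k m) (hqm : ¬ q ∣ m) :
    finrank L⟮jmq L m q⟯ (H99.FX L (m * q)) ≤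
      finrank k⟮jk k m⟯ (modularFunctionFieldFullC k m) +
        finrank k⟮jk k m ^ q⟯ (modularFunctionFieldFullC k m) := by
  rw [finrank_jmq hD, finrank_jk_pow, mul_comm m q,
    H45.dedekindPsi_mul_of_not_dvd hq.out (NeZero.ne m) hqm]
  have := finrank_jk hD hdeg
  nlinarith

variable [CharP k q] [Infinite k] (w : H99.AL L m q)

theorem red_mem_full (hπ : Function.Surjective π) (hD : H67.DegreeFact L)
    (hdeg : H42.DegLE L k m) (hqm : ¬ q ∣ m) (f : H99.FX L (m * q)) :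
    (gC A π (m * q)).red f ∈ modularFunctionFieldFullC k m ∧
    (gC2 A π w).red f ∈ modularFunctionFieldFullC k m := by
  have h1 : jmq L m q ∈ (gC A π (m * q)).V := (mem_alpha_iff A π).mpr (jm_mem A π)
  have h2 : jmq L m q ∈ (gC2 A π w).V := (mem_gC2_alpha A π w).mpr (jm_mem A π)
  have e1 : (gC A π (m * q)).red (jmq L m q) = jqModC k := by
    rw [jmq, red_alpha, red_jm]
  have e2 : (gC2 A π w).red (jmq L m q) = jqModC k ^ q := by
    rw [jmq, red_gC2_alpha, red_jm, qExpand_jqModC_char]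
  have := finiteDimensional_jmq (m := m) (q := q) hD
  have := finiteDimensional_jk hD hdeg
  have := finiteDimensional_jk_pow (q := q) hD hdeg
  have key := red_mem_range_pair' (modularFunctionFieldFullC k m).val (x₁ := jk k m)
    (x₂ := jk k m ^ q) hπ (gC_scalable A π (m * q)) (gC2_scalable A π w) h1 h2
    (by rw [e1]; exact H42.transcendental_jqModC k)
    (by rw [e2]; exact transc_jqModC_pow)
    (V_ne A π w)
    (by rw [e1]; rfl) (by rw [e2]; rfl)
    (fun t => by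
      obtain ⟨f, hf, hft⟩ := mem_image_gC A π hπ (NeZero.ne m) t.2
      exact ⟨heckeAlphaBar L m q f, (mem_alpha_iff A π).mpr hf, by rw [red_alpha, hft]; rfl⟩)
    (fun t => by
      obtain ⟨f, hf, hft⟩ := mem_image_gC A π hπ (NeZero.ne m) t.2
      exact ⟨heckeBetaBar L m q f, (mem_gC2_beta A π w).mpr hf,
        by rw [red_gC2_beta, hft]; rfl⟩)
    (degree_sum hD hdeg hqm) f
  obtain ⟨⟨a, ha⟩, ⟨b, hb⟩⟩ := key
  exact ⟨ha ▸ a.2, hb ▸ b.2⟩

end Degrees

end Fermat.Agent.H34.Two
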