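import Fermat.Agent.H3RR_Duality
import Fermat.Prelude.Def_AlgebraicCurve_BaseChangeGalois

/-!
# Interface: function fields with two-component reduction

`F/K` is the function field of `X_0(q m)` over `K = Q̄`, `κ/k` the function field of `X_0(m)` over
the residue field `k` (char `q`) of a valuation ring `A` of `K`.

* `V₁` = Gauss valuation ring of q-expansions at `∞`, `V₂ = V₁ ∘ w`;
* `ρ₁, ρ₂` the residue maps, with values in `κ`;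
* `P₁ = ∞` (order of the q-expansion), `P₂ = ∞ ∘ w`, `P = ∞` on `κ`;
* `Φ (a(t)) = a(t^q)` on `κ`, `fr` = Frobenius on the coefficients.
-/

set_option autoImplicit false

open AlgebraicCurve

namespace Fermat.Agent.H89SS

/-- Two-component reduction data. -/
structure TwoComp (K F k κ : Type*) [Field K] [Field F] [Algebra K F] [Field k] [Field κ]
    [Algebra k κ] (A : ValuationSubring K) (π : A →+* k) (q : ℕ) where
  /-- Gauss valuation ring of the first component -/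
  V₁ : ValuationSubring F
  /-- Gauss valuation ring of the second component -/
  V₂ : ValuationSubring F
  /-- reduction on the first component -/
  ρ₁ : V₁ →+* κ
  /-- reduction on the second component -/
  ρ₂ : V₂ →+* κ
  local₁ : IsLocalHom ρ₁
  local₂ : IsLocalHom ρ₂
  mem₁ : ∀ a : A, algebraMap K F a ∈ V₁
  mem₂ : ∀ a : A, algebraMap K F a ∈ V₂
  ρ₁_mem : ∀ a : A, ρ₁ ⟨algebraMap K F a, mem₁ a⟩ = algebraMap k κ (π a)
  ρ₂_mem : ∀ a : A, ρ₂ ⟨algebraMap K F a, mem₂ a⟩ = algebraMap k κ (π a)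
  /-- the value group of `V₁` is that of `K` (`e = 1`) -/
  scale₁ : ∀ f : F, f ≠ 0 → ∃ (c : K) (_ : c ≠ 0) (h : algebraMap K F c * f ∈ V₁), ρ₁ ⟨_, h⟩ ≠ 0
  scale₂ : ∀ f : F, f ≠ 0 → ∃ (c : K) (_ : c ≠ 0) (h : algebraMap K F c * f ∈ V₂), ρ₂ ⟨_, h⟩ ≠ 0
  /-- orthonormal bases for `min (v₁, v₂)` -/
  exists_basis : ∀ (W : Submodule K F) [FiniteDimensional K W],
    ∃ (d : ℕ) (w : Fin d → F) (h₁ : ∀ i, w i ∈ V₁) (h₂ : ∀ i, w i ∈ V₂),
      Submodule.span K (Set.range w) = W ∧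
      LinearIndependent k (fun i => ((ρ₁ ⟨w i, h₁ i⟩, ρ₂ ⟨w i, h₂ i⟩) : κ × κ))
  /-- the cusp `∞` on the first component -/
  P₁ : Place K F
  /-- the cusp `w ∞` on the second component -/
  P₂ : Place K F
  P₁_ne_P₂ : P₁ ≠ P₂
  /-- the cusp `∞` of the special fibre -/
  P : Place k κ
  /-- poles specialise -/
  red_mem : ∀ (i j : ℕ) (f : F) (h₁ : f ∈ V₁) (h₂ : f ∈ V₂),
    f ∈ riemannRochSpace (Finsupp.single P₁ (i : ℤ) + Finsupp.single P₂ (j : ℤ) : Divisor K F) →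
    ρ₁ ⟨f, h₁⟩ ∈ riemannRochSpace (Finsupp.single P (i : ℤ) : Divisor k κ) ∧
    ρ₂ ⟨f, h₂⟩ ∈ riemannRochSpace (Finsupp.single P (j : ℤ) : Divisor k κ)
  /-- `Φ (a (t)) = a (t ^ q)` -/
  Φ : κ →ₐ[k] κ
  /-- coefficient Frobenius on `κ` -/
  fr : SemilinearAut k κ
  Φ_fr : ∀ a : κ, Φ (fr • a) = a ^ q
  fr_P : fr • P = P
  /-- lifts from level `m` via `α` and `β` (good reduction at level `m`) -/
  lift : ∃ i₀ : ℕ, ∀ i ≥ i₀, ∀ a ∈ riemannRochSpace (Finsupp.single P (i : ℤ) : Divisor k κ),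
    (∃ (x : F) (h₁ : x ∈ V₁) (h₂ : x ∈ V₂),
      x ∈ riemannRochSpace
        (Finsupp.single P₁ (i : ℤ) + Finsupp.single P₂ ((q * i : ℕ) : ℤ) : Divisor K F) ∧
      ρ₁ ⟨x, h₁⟩ = a ∧ ρ₂ ⟨x, h₂⟩ = Φ a) ∧
    (∃ (y : F) (h₁ : y ∈ V₁) (h₂ : y ∈ V₂),
      y ∈ riemannRochSpace
        (Finsupp.single P₁ ((q * i : ℕ) : ℤ) + Finsupp.single P₂ (i : ℤ) : Divisor K F) ∧
      ρ₁ ⟨y, h₁⟩ = Φ a ∧ ρ₂ ⟨y, h₂⟩ = a)

namespace TwoComp

variable {K F k κ : Type*} [Field K] [Field F] [Algebra K F] [Field k] [Field κ]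
    [Algebra k κ] {A : ValuationSubring K} {π : A →+* k} {q : ℕ} (T : TwoComp K F k κ A π q)

/-- A semilinear automorphism which preserves both valuation rings and acts on both residue
fields through `τ` (`τ = 1`: inertia, `τ = fr`: Frobenius lifts). -/
structure Compat (g : SemilinearAut K F) (τ : SemilinearAut k κ) : Prop where
  base : ∀ c : K, c ≠ 0 → SemilinearAut.baseAut g c / c ∈ A
  mem₁ : ∀ f : F, f ∈ T.V₁ → g • f ∈ T.V₁
  mem₂ : ∀ f : F, f ∈ T.V₂ → g • f ∈ T.V₂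
  ρ₁ : ∀ (f : F) (h : f ∈ T.V₁) (h' : g • f ∈ T.V₁), T.ρ₁ ⟨g • f, h'⟩ = τ • T.ρ₁ ⟨f, h⟩
  ρ₂ : ∀ (f : F) (h : f ∈ T.V₂) (h' : g • f ∈ T.V₂), T.ρ₂ ⟨g • f, h'⟩ = τ • T.ρ₂ ⟨f, h⟩
  P₁ : g • T.P₁ = T.P₁
  P₂ : g • T.P₂ = T.P₂

/-- The Atkin-Lehner involution `w_q`, swapping the two components. -/
structure Swap (w : F ≃ₐ[K] F) : Prop where
  invol : ∀ f, w (w f) = f
  mem : ∀ f : F, f ∈ T.V₁ → w f ∈ T.V₂
  mem' : ∀ f : F, f ∈ T.V₂ → w f ∈ T.V₁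
  ρ : ∀ (f : F) (h : f ∈ T.V₁) (h' : w f ∈ T.V₂), T.ρ₂ ⟨w f, h'⟩ = T.ρ₁ ⟨f, h⟩
  P₁ : SemilinearAut.ofAlgAut w • T.P₁ = T.P₂

end TwoComp

end Fermat.Agent.H89SS
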