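import Fermat.Agent.H97InfG
import Fermat.Agent.H42Inputs

/-!
# `red_mem` and `lift` for the two-component reduction of `X_0(N ℓ)` in characteristic `ℓ`
-/

set_option autoImplicit false
set_option linter.unusedSectionVars false

open ModularCurve IntermediateField Polynomial AlgebraicCurve WithZero

namespace Fermat.Agent.H97

variable {L : Type*} [Field L] [Algebra ℚ L] [CharZero L] [IsAlgClosed L] {A : ValuationSubring L}
  {k : Type*} [Field k] [IsAlgClosed k] {π : A →+* k} {N ℓ : ℕ} [NeZero N] [NeZero ℓ]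

/-- Place reduction at a good level, with the cusp `∞` reducing to the cusp `∞`. -/
theorem exists_red (hπ : Function.Surjective π) [IsLocalHom π] (arch : Arch A)
    (hdeg : H42.DegLE L k N)
    (hgen : genusFF L (FF L N) = genusFF k (modularFunctionFieldFullC k N))
    [HasPrincipalDivisors L (FF L N)] :
    ∃ (r : Place L (FF L N) → Place k (modularFunctionFieldFullC k N)) (c : ℕ),
      (∀ D : Divisor L (FF L N), (c : ℤ) < Divisor.degree D →
        (H42.modReductionData A π N hπ hdeg).IsRed D (Finsupp.mapDomain r D)) ∧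
      H34.GR.DivCompat (H42.modReductionData A π N hπ hdeg) r ∧
      ∀ (P₀ : Place L (FF L N)) (P : Place k (modularFunctionFieldFullC k N)),
        IsInf P₀ → IsInf P → r P₀ = P := by
  have : H94.FunField L (FF L N) := H42.funField_left (k := k) N hdeg
  have : H94.FunField k (modularFunctionFieldFullC k N) := H42.funField_right (L := L) N hdeg
  have : H3RR.IsFF L (FF L N) := isFF_left hdeg
  have : HasPrincipalDivisors k (modularFunctionFieldFullC k N) := H18.hasPrincipalDivisors _ _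
  have : Nonempty (Place L (FF L N)) := H3RR.exists_place _ _
  have : Nonempty (Place k (modularFunctionFieldFullC k N)) := H3RR.exists_place _ _
  have : Infinite k := IsAlgClosed.instInfinite
  have hF : H40.RiemannFor L (FF L N) (genusFF L (FF L N)) ((2 * genusFF L (FF L N) : ℕ) : ℤ) :=
    H42.riemannFor _ _ (by push_cast; omega)
  have hE : H40.RiemannFor k (modularFunctionFieldFullC k N) (genusFF L (FF L N))
      ((2 * genusFF L (FF L N) : ℕ) : ℤ) := by
    have h1 := H42.riemannFor k (modularFunctionFieldFullC k N)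
      (c := ((2 * genusFF L (FF L N) : ℕ) : ℤ)) (by rw [hgen]; push_cast; omega)
    rwa [← hgen] at h1
  have hdF : ∀ v : Place L (FF L N), v.deg = 1 := fun v => H94.deg_eq_one v
  have hdE : ∀ v : Place k (modularFunctionFieldFullC k N), v.deg = 1 := fun v => H94.deg_eq_one v
  have hpole : (H42.modReductionData A π N hπ hdeg).PoleIneq :=
    (H42.modReductionData A π N hπ hdeg).poleIneq
  obtain ⟨r, hr1, hr2⟩ := (H42.modReductionData A π N hπ hdeg).exists_placeReduction hF hE hdF hdE
    hpole (by push_cast; omega) (by omega)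
  exact ⟨r, _, hr1, hr2, fun P₀ P h₀ h => red_inf arch hE hr1 hdF hdE h₀ h⟩

theorem finrank_alpha_le (hℓ : ℓ.Prime) :
    finrankAlong L (heckeAlphaBar L N ℓ) ≤ ℓ + 1 := by
  rw [H67.finrank_alpha_prime (H42.degreeFact L) N ℓ hℓ]
  split_ifs <;> omega

theorem isFF_FF (L : Type*) [Field L] [Algebra ℚ L] [IsAlgClosed L] (M : ℕ) [NeZero M] :
    H3RR.IsFF L (FF L M) :=
  ⟨(H67.funField_of_degreeFact (H42.degreeFact L) M).out⟩

/-- **The facts `red_mem` and `lift`** for the reduction of `X_0(N ℓ)` in characteristic `ℓ`. -/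
theorem red_mem_and_lift (hℓ : ℓ.Prime) (hN : (N : k) ≠ 0) (hℓk : (ℓ : k) = 0)
    (hπ : Function.Surjective π) [IsLocalHom π] (arch : Arch A)
    (hgen : genusFF L (FF L N) = genusFF k (modularFunctionFieldFullC k N))
    {W : FF L (N * ℓ) ≃ₐ[L] FF L (N * ℓ)}
    (hα : ∀ x, W (heckeAlphaBar L N ℓ x) = heckeBetaBar L N ℓ x)
    (hWW : ∀ x, W (W x) = x)
    {P₁ P₂ : Place L (FF L (N * ℓ))} (hP₁ : IsInf P₁) (hP₂ : ∀ f, P₂.ord f = P₁.ord (W f))
    {P : Place k (modularFunctionFieldFullC k N)} (hP : IsInf P) :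
    (∀ (i j : ℤ) (f : FF L (N * ℓ)),
      f ∈ riemannRochSpace (Finsupp.single P₁ i + Finsupp.single P₂ j :
        Divisor L (FF L (N * ℓ))) →
      GaussInt π (f : LaurentSeries L) →
      GaussInt π ((W f : FF L (N * ℓ)) : LaurentSeries L) →
      (∃ y : LaurentSeries A, coeffMap A.subtype y = f ∧
        ∃ hy : coeffMap π y ∈ modularFunctionFieldFullC k N,
          (⟨coeffMap π y, hy⟩ : modularFunctionFieldFullC k N) ∈
            riemannRochSpace (Finsupp.single P i :
              Divisor k (modularFunctionFieldFullC k N))) ∧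
      (∃ y : LaurentSeries A, coeffMap A.subtype y = (W f : FF L (N * ℓ)) ∧
        ∃ hy : coeffMap π y ∈ modularFunctionFieldFullC k N,
          (⟨coeffMap π y, hy⟩ : modularFunctionFieldFullC k N) ∈
            riemannRochSpace (Finsupp.single P j :
              Divisor k (modularFunctionFieldFullC k N)))) ∧
    (∃ i₀ : ℕ, ∀ i ≥ i₀, ∀ a : modularFunctionFieldFullC k N,
      a ∈ riemannRochSpace (Finsupp.single P (i : ℤ) :
        Divisor k (modularFunctionFieldFullC k N)) →
      ∃ (y : LaurentSeries A) (x : FF L (N * ℓ)), coeffMap A.subtype y = x ∧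
        coeffMap A.subtype (qExpand A ℓ y) = (W x : FF L (N * ℓ)) ∧ coeffMap π y = a ∧
        x ∈ riemannRochSpace
          (Finsupp.single P₁ (i : ℤ) + Finsupp.single P₂ ((ℓ * i : ℕ) : ℤ) :
            Divisor L (FF L (N * ℓ))) ∧
        W x ∈ riemannRochSpace
          (Finsupp.single P₁ ((ℓ * i : ℕ) : ℤ) + Finsupp.single P₂ (i : ℤ) :
            Divisor L (FF L (N * ℓ)))) := by
  have hdeg : H42.DegLE L k N := H42.degLE_of L k N hN
  have : H3RR.IsFF L (FF L N) := isFF_FF L N
  have : H94.FunField L (FF L N) := H3RR.funField_of_isFF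
  have : H3RR.IsFF L (FF L (N * ℓ)) := isFF_FF L (N * ℓ)
  have : HasPrincipalDivisors L (FF L N) := H18.hasPrincipalDivisors _ _
  obtain ⟨P₀, hP₀⟩ := exists_isInf (FF L N) (jqModC_mem_bar L N)
  obtain ⟨r, c, hr1, hr2, hr3⟩ := exists_red (L := L) (A := A) (π := π) hπ arch hdeg hgen
  have hrP := hr3 P₀ P hP₀ hP
  have h : SwapData L N ℓ W P₀ P₁ P₂ := ⟨hα, hWW, hP₀, hP₁, hP₂⟩
  have hfin : FiniteAlong L (heckeAlphaBar L N ℓ) := H67.finiteAlong_alpha (H42.degreeFact L) N ℓ
  have hfr := finrank_alpha_le (L := L) (N := N) hℓ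
  refine ⟨fun i j f hf hg₁ hg₂ => ⟨?_, ?_⟩, c + 1, fun i hi a ha => ?_⟩
  · exact h.red_mem hπ hdeg arch hℓ.one_lt hℓk hfin hfr hr2 hP hrP hf hg₁ hg₂
  · exact h.red_mem hπ hdeg arch hℓ.one_lt hℓk hfin hfr hr2 hP hrP (h.W_mem_L hf) hg₂
      (by rw [hWW]; exact hg₁)
  · obtain ⟨y, x, h1, h2, h3, h4⟩ := h.lift hπ hdeg arch hℓ.one_lt hfin hfr hr1 hrP
      (i := (i : ℤ)) (by omega) ha
    refine ⟨y, x, h1, h2, h3, ?_, ?_⟩
    · push_cast; exact h4
    · have := h.W_mem_L h4
      push_cast; exact this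

end Fermat.Agent.H97
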