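import Mathlib
import Fermat.Agent.H34Two5
import Fermat.Agent.H97InfH
import Fermat.Agent.H89SSDef

/-!
# The two-component reduction of `X_0(mq)`: instance of `H89SS.TwoComp` (helper34)
-/

set_option autoImplicit false
set_option linter.unusedSectionVars false

noncomputable section

open HahnSeries ModularCurve AlgebraicCurve IntermediateField Module

namespace Fermat.Agent.H34.Two

section Restrict

variable {K k : Type*} [Field K] [Field k] {A : ValuationSubring K} {π : A →+* k}
  {F κ κ₀ : Type*} [Field F] [Algebra K F] [Field κ] [Algebra k κ] [Field κ₀] [Algebra k κ₀]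

theorem restrict_scalable {C : H84.Comp A π F κ} (hC : C.Scalable) (j₀ : κ₀ →ₐ[k] κ)
    (r : C.V → κ₀) (hr : ∀ v, j₀ (r v) = C.red v) : (C.restrict j₀ r hr).Scalable := by
  intro f hf
  obtain ⟨c, hc, h⟩ := hC f hf
  refine ⟨c, hc, fun h0 => h ?_⟩
  rw [← C.restrict_red j₀ r hr, h0, map_zero]

end Restrict

section Base

variable {L : Type*} [Field L] [Algebra ℚ L] (A : ValuationSubring L) {k : Type*} [Field k]
  (π : A →+* k) {m q : ℕ} [NeZero m] [NeZero q] [hq : Fact q.Prime]
  [CharP k q] [Infinite k] (w : H99.AL L m q)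
  (hπ : Function.Surjective π) (hD : H67.DegreeFact L)
  (hdeg : H42.DegLE L k m) (hqm : ¬ q ∣ m)

/-- The first component, with residue field the function field of `X_0(m)`. -/
def comp1 : H84.Comp A π (H99.FX L (m * q)) (modularFunctionFieldFullC k m) :=
  (gC A π (m * q)).restrict (modularFunctionFieldFullC k m).val
    (fun v => ⟨(gC A π (m * q)).red v, (red_mem_full w hπ hD hdeg hqm v).1⟩) (fun _ => rfl)

/-- The second component, with residue field the function field of `X_0(m)`. -/
def comp2 : H84.Comp A π (H99.FX L (m * q)) (modularFunctionFieldFullC k m) :=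
  (gC2 A π w).restrict (modularFunctionFieldFullC k m).val
    (fun v => ⟨(gC2 A π w).red v, (red_mem_full w hπ hD hdeg hqm v).2⟩) (fun _ => rfl)

theorem comp1_V : (comp1 A π w hπ hD hdeg hqm).V = (gC A π (m * q)).V := rfl

theorem comp2_V : (comp2 A π w hπ hD hdeg hqm).V = (gC2 A π w).V := rfl

theorem coe_red1 (f : H99.FX L (m * q)) :
    ((comp1 A π w hπ hD hdeg hqm).red f : LaurentSeries k) = (gC A π (m * q)).red f :=
  (gC A π (m * q)).restrict_red (modularFunctionFieldFullC k m).val
    (fun v => ⟨(gC A π (m * q)).red v, (red_mem_full w hπ hD hdeg hqm v).1⟩) (fun _ => rfl) f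

theorem coe_red2 (f : H99.FX L (m * q)) :
    ((comp2 A π w hπ hD hdeg hqm).red f : LaurentSeries k) = (gC2 A π w).red f :=
  (gC2 A π w).restrict_red (modularFunctionFieldFullC k m).val
    (fun v => ⟨(gC2 A π w).red v, (red_mem_full w hπ hD hdeg hqm v).2⟩) (fun _ => rfl) f

theorem red2_eq (f : H99.FX L (m * q)) :
    (comp2 A π w hπ hD hdeg hqm).red f = (comp1 A π w hπ hD hdeg hqm).red (w.W f) := by
  apply Subtype.ext
  rw [coe_red1, coe_red2, red_gC2]

theorem comp1_scalable : (comp1 A π w hπ hD hdeg hqm).Scalable :=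
  restrict_scalable (gC_scalable A π (m * q)) _ _ _

theorem comp2_scalable : (comp2 A π w hπ hD hdeg hqm).Scalable :=
  restrict_scalable (gC2_scalable A π w) _ _ _

theorem comp_V_ne : (comp1 A π w hπ hD hdeg hqm).V ≠ (comp2 A π w hπ hD hdeg hqm).V :=
  V_ne A π w

theorem jmq_mem1 : jmq L m q ∈ (comp1 A π w hπ hD hdeg hqm).V :=
  (mem_alpha_iff A π).mpr (jm_mem A π)

theorem jmq_mem2 : jmq L m q ∈ (comp2 A π w hπ hD hdeg hqm).V :=
  (mem_gC2_alpha A π w).mpr (jm_mem A π)

theorem red1_jmq : (comp1 A π w hπ hD hdeg hqm).red (jmq L m q) = jk k m := by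
  apply Subtype.ext
  rw [coe_red1, jmq, red_alpha, red_jm]
  rfl

theorem red2_jmq : (comp2 A π w hπ hD hdeg hqm).red (jmq L m q) = jk k m ^ q := by
  apply Subtype.ext
  rw [coe_red2, jmq, red_gC2_alpha, red_jm, qExpand_jqModC_char]
  rfl

theorem mem_image1 (t : modularFunctionFieldFullC k m) :
    t ∈ (comp1 A π w hπ hD hdeg hqm).image := by
  obtain ⟨f, hf, hft⟩ := mem_image_gC A π hπ (NeZero.ne m) t.2
  refine ⟨heckeAlphaBar L m q f, (mem_alpha_iff A π).mpr hf, Subtype.ext ?_⟩
  rw [coe_red1, red_alpha, hft]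

theorem mem_image2 (t : modularFunctionFieldFullC k m) :
    t ∈ (comp2 A π w hπ hD hdeg hqm).image := by
  obtain ⟨f, hf, hft⟩ := mem_image_gC A π hπ (NeZero.ne m) t.2
  refine ⟨heckeBetaBar L m q f, (mem_gC2_beta A π w).mpr hf, Subtype.ext ?_⟩
  rw [coe_red2, red_gC2_beta, hft]

include hπ hD hdeg hqm in
theorem exists_frame : ∃ (J : Type) (_ : Fintype J) (b : J → H99.FX L (m * q)),
    H84.IsFrame (H84.pairFam (comp1 A π w hπ hD hdeg hqm) (comp2 A π w hπ hD hdeg hqm))
      (jmq L m q) b := by
  have e1 := red1_jmq A π w hπ hD hdeg hqm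
  have e2 := red2_jmq A π w hπ hD hdeg hqm
  have := finiteDimensional_jmq (m := m) (q := q) hD
  have i1 : FiniteDimensional k⟮(comp1 A π w hπ hD hdeg hqm).red (jmq L m q)⟯
      (modularFunctionFieldFullC k m) := by
    rw [e1]; exact finiteDimensional_jk hD hdeg
  have i2 : FiniteDimensional k⟮(comp2 A π w hπ hD hdeg hqm).red (jmq L m q)⟯
      (modularFunctionFieldFullC k m) := by
    rw [e2]; exact finiteDimensional_jk_pow (q := q) hD hdeg
  exact exists_frame_pair' hπ (comp1_scalable A π w hπ hD hdeg hqm)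
    (comp2_scalable A π w hπ hD hdeg hqm) (jmq_mem1 A π w hπ hD hdeg hqm)
    (jmq_mem2 A π w hπ hD hdeg hqm) (by rw [e1]; exact transcendental_jk)
    (by rw [e2]; exact transcendental_jk.pow hq.out.pos) (comp_V_ne A π w hπ hD hdeg hqm)
    (mem_image1 A π w hπ hD hdeg hqm) (mem_image2 A π w hπ hD hdeg hqm)
    (by rw [e1, e2]; exact degree_sum hD hdeg hqm)

theorem exists_basis_comp (W : Submodule L (H99.FX L (m * q))) [FiniteDimensional L W] :
    ∃ (d : ℕ) (v : Fin d → H99.FX L (m * q))
      (h₁ : ∀ i, v i ∈ (comp1 A π w hπ hD hdeg hqm).V)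
      (h₂ : ∀ i, v i ∈ (comp2 A π w hπ hD hdeg hqm).V),
      Submodule.span L (Set.range v) = W ∧
      LinearIndependent k (fun i => (((comp1 A π w hπ hD hdeg hqm).ρ ⟨v i, h₁ i⟩,
        (comp2 A π w hπ hD hdeg hqm).ρ ⟨v i, h₂ i⟩) :
        modularFunctionFieldFullC k m × modularFunctionFieldFullC k m)) := by
  have e1 := red1_jmq A π w hπ hD hdeg hqm
  have e2 := red2_jmq A π w hπ hD hdeg hqm
  have := finiteDimensional_jmq (m := m) (q := q) hD
  have i1 : FiniteDimensional k⟮(comp1 A π w hπ hD hdeg hqm).red (jmq L m q)⟯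
      (modularFunctionFieldFullC k m) := by
    rw [e1]; exact finiteDimensional_jk hD hdeg
  have i2 : FiniteDimensional k⟮(comp2 A π w hπ hD hdeg hqm).red (jmq L m q)⟯
      (modularFunctionFieldFullC k m) := by
    rw [e2]; exact finiteDimensional_jk_pow (q := q) hD hdeg
  exact exists_basis_pair' hπ (comp1_scalable A π w hπ hD hdeg hqm)
    (comp2_scalable A π w hπ hD hdeg hqm) (jmq_mem1 A π w hπ hD hdeg hqm)
    (jmq_mem2 A π w hπ hD hdeg hqm) (by rw [e1]; exact transcendental_jk)
    (by rw [e2]; exact transcendental_jk.pow hq.out.pos) (comp_V_ne A π w hπ hD hdeg hqm)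
    (mem_image1 A π w hπ hD hdeg hqm) (mem_image2 A π w hπ hD hdeg hqm)
    (by rw [e1, e2]; exact degree_sum hD hdeg hqm) W

end Base

/-! ### `Φ` and the Frobenius -/

section PhiFr

variable {k : Type*} [Field k] {m q : ℕ} [NeZero q] [hq : Fact q.Prime] [CharP k q]

theorem qExpand_mem_full {x : LaurentSeries k} (hx : x ∈ modularFunctionFieldFullC k m) :
    qExpand k q x ∈ modularFunctionFieldFullC k m := by
  rw [modularFunctionFieldFullC] at hx
  induction hx using IntermediateField.adjoin_induction with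
  | mem y hy =>
    obtain ⟨d, hd, hdvd, rfl⟩ := hy
    have h1 : qExpand k q (qExpand k d (jqModC k)) = (qExpand k d (jqModC k)) ^ q := by
      rw [H60.laurent_pow_char q, H60.coeffMap_qExpand_H60, coeffMap_jqModC]
    rw [h1]
    exact pow_mem (jqModCd_mem_full k m hdvd) q
  | algebraMap c =>
    rw [algebraMap_laurentSeries_eq_single, qExpand_single, mul_zero,
      ← algebraMap_laurentSeries_eq_single]
    exact (modularFunctionFieldFullC k m).algebraMap_mem _
  | add y z _ _ hy hz => rw [map_add]; exact add_mem hy hz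
  | inv y _ hy => rw [map_inv₀]; exact inv_mem hy
  | mul y z _ _ hy hz => rw [map_mul]; exact mul_mem hy hz

variable (k m q) in
/-- `Φ (a (t)) = a (t ^ q)` -/
def phi : modularFunctionFieldFullC k m →ₐ[k] modularFunctionFieldFullC k m :=
  { ((qExpand k q).comp (algebraMap (modularFunctionFieldFullC k m)
      (LaurentSeries k))).codRestrict (modularFunctionFieldFullC k m).toSubfield
      (fun x => qExpand_mem_full x.2) with
    commutes' := fun c => Subtype.ext (by
      show qExpand k q (algebraMap k (LaurentSeries k) c) = algebraMap k (LaurentSeries k) c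
      rw [algebraMap_laurentSeries_eq_single, qExpand_single, mul_zero]) }

theorem coe_phi (x : modularFunctionFieldFullC k m) :
    (phi k m q x : LaurentSeries k) = qExpand k q (x : LaurentSeries k) := rfl

theorem phi_fr {τ : k ≃+* k} (hτ : ∀ x, τ x = x ^ q) (a : modularFunctionFieldFullC k m) :
    phi k m q (H60.coeffAut m τ • a) = a ^ q := by
  apply Subtype.ext
  rw [coe_phi, H60.coe_coeffAut_smul]
  have : ((τ : k ≃+* k) : k →+* k) = frobenius k q := RingHom.ext fun a => hτ a
  rw [this, ← H60.laurent_pow_char q]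
  rfl

end PhiFr

end Fermat.Agent.H34.Two
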