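import Fermat.Agent.H67Deg

/-!
# Atkin–Lehner involutions on `F_N` and on `J₀(N)` (helper67)
-/

set_option autoImplicit false
set_option linter.unusedSectionVars false
set_option linter.style.haveILetI false

noncomputable section

open AlgebraicCurve IntermediateField HahnSeries ModularCurve

namespace Fermat.Agent.H67

section Arith

theorem swapDiv_mul_mul {A Q : ℕ} (hAQ : A.Coprime Q) {m₁ m₂ : ℕ} (h₁ : m₁ ∣ A) (h₂ : m₂ ∣ Q) :
    H42.swapDiv A Q (m₁ * m₂) = m₁ * (Q / m₂) := by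
  have h3 : (m₁ * m₂).gcd A = m₁ := by
    rw [Nat.Coprime.gcd_mul_right_cancel m₁ (Nat.Coprime.coprime_dvd_left h₂ hAQ.symm),
      Nat.gcd_eq_left h₁]
  have h4 : (m₁ * m₂).gcd Q = m₂ := by
    rw [Nat.Coprime.gcd_mul_left_cancel m₂ (Nat.Coprime.coprime_dvd_left h₁ hAQ),
      Nat.gcd_eq_left h₂]
  rw [H42.swapDiv, h3, h4]

end Arith

section AL

variable {L : Type*} [Field L] [Algebra ℚ L]

/-- Two algebra homomorphisms out of `F_N` agreeing on all `j(m τ)` are equal. -/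
theorem FB_hom_ext {N : ℕ} [NeZero N] {C : Type*} [Field C] [Algebra L C]
    {φ₁ φ₂ : FB L N →ₐ[L] C}
    (h : ∀ (m : ℕ) (hm : m ∣ N), φ₁ ⟨H66.J L m, J_mem_FB hm⟩ = φ₂ ⟨H66.J L m, J_mem_FB hm⟩) :
    φ₁ = φ₂ := by
  refine H42.bar_algHom_ext (NeZero.ne N) fun m hm => ?_
  have h1 : (⟨H42.jd L m, H42.jd_mem_bar (NeZero.ne N) hm⟩ : FB L N)
      = ⟨H66.J L m, J_mem_FB hm⟩ := Subtype.ext (jd_eq_J L m)
  have h2 := h m hm
  rw [← h1] at h2
  exact h2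

/-- `W` is the Atkin–Lehner automorphism of `F_R`, `R = AQ`. -/
def IsAL {R : ℕ} [NeZero R] (A Q : ℕ) (W : FB L R ≃ₐ[L] FB L R) : Prop :=
  ∀ (m : ℕ) (hm : m ∣ R), ((W ⟨H66.J L m, J_mem_FB hm⟩ : FB L R) : LaurentSeries L)
    = H66.J L (H42.swapDiv A Q m)

theorem exists_isAL (f : L →+* ℂ) {R A Q : ℕ} [NeZero R] (hR : R = A * Q) (hc : A.Coprime Q) :
    ∃ W : FB L R ≃ₐ[L] FB L R, IsAL A Q W := by
  subst hR
  haveI : NeZero A := ⟨left_ne_zero_of_mul (NeZero.ne (A * Q))⟩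
  haveI : NeZero Q := ⟨right_ne_zero_of_mul (NeZero.ne (A * Q))⟩
  obtain ⟨W, -, -, -, hW⟩ := H42.exists_atkinLehner (L := L) f hc
  refine ⟨W, fun m hm => ?_⟩
  have h1 : (⟨H42.jd L m, H42.jd_mem_bar (mul_ne_zero (NeZero.ne A) (NeZero.ne Q)) hm⟩ :
      FB L (A * Q)) = ⟨H66.J L m, J_mem_FB hm⟩ := Subtype.ext (jd_eq_J L m)
  have h2 := congrArg (Subtype.val) (hW m hm)
  rw [h1] at h2
  exact h2.trans (jd_eq_J L _)

/-- The Atkin–Lehner automorphism `W_Q` of `F_R`, `R = AQ` with `A`, `Q` coprime. -/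
def atkin (f : L →+* ℂ) {R : ℕ} [NeZero R] (A Q : ℕ) (hR : R = A * Q) (hc : A.Coprime Q) :
    FB L R ≃ₐ[L] FB L R := (exists_isAL f hR hc).choose

theorem isAL_atkin (f : L →+* ℂ) {R : ℕ} [NeZero R] (A Q : ℕ) (hR : R = A * Q)
    (hc : A.Coprime Q) : IsAL A Q (atkin (L := L) f A Q hR hc) := (exists_isAL f hR hc).choose_spec

variable {R A Q : ℕ} [NeZero R] {W : FB L R ≃ₐ[L] FB L R}

theorem IsAL.apply_mul (hW : IsAL A Q W) (hc : A.Coprime Q) {m₁ m₂ : ℕ} (h₁ : m₁ ∣ A)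
    (h₂ : m₂ ∣ Q) (hm : m₁ * m₂ ∣ R) :
    ((W ⟨H66.J L (m₁ * m₂), J_mem_FB hm⟩ : FB L R) : LaurentSeries L)
      = H66.J L (m₁ * (Q / m₂)) := by
  rw [hW _ hm, swapDiv_mul_mul hc h₁ h₂]

/-- Intertwining of Atkin–Lehner automorphisms with degeneracy maps. -/
theorem IsAL.comp_dg (hW : IsAL A Q W) (hR : R = A * Q) (hc : A.Coprime Q)
    {R' A' : ℕ} [NeZero R'] (hR' : R' = A' * Q) (hc' : A'.Coprime Q)
    {W' : FB L R' ≃ₐ[L] FB L R'} (hW' : IsAL A' Q W') {d : ℕ} [NeZero d] (hd : A * d ∣ A')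
    (h : R * d ∣ R') :
    W'.toAlgHom.comp (dg L d h) = (dg L d h).comp W.toAlgHom := by
  refine FB_hom_ext fun m hm => Subtype.ext ?_
  obtain ⟨m₁, m₂, h₁, h₂, rfl⟩ := (Nat.dvd_mul).1 (hR ▸ hm)
  have hQ : Q ≠ 0 := by
    rintro rfl
    exact NeZero.ne R (by rw [hR, mul_zero])
  have hdm₁ : d * m₁ ∣ A' := by
    rw [mul_comm]; exact (mul_dvd_mul_right h₁ d).trans hd
  have hm' : d * m₁ * m₂ ∣ R' := by
    rw [hR']; exact mul_dvd_mul hdm₁ h₂
  have e1 : dg L d h ⟨H66.J L (m₁ * m₂), J_mem_FB hm⟩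
      = ⟨H66.J L (d * m₁ * m₂), J_mem_FB hm'⟩ := by
    apply Subtype.ext
    rw [coe_dg, H66.qExpand_J]
    exact congrArg (H66.J L) (mul_assoc d m₁ m₂).symm
  change ((W' (dg L d h ⟨H66.J L (m₁ * m₂), J_mem_FB hm⟩) : FB L R') : LaurentSeries L)
    = qExpand L d ((W ⟨H66.J L (m₁ * m₂), J_mem_FB hm⟩ : FB L R) : LaurentSeries L)
  rw [e1, hW'.apply_mul hc' hdm₁ h₂ hm', hW.apply_mul hc h₁ h₂ hm, H66.qExpand_J, mul_assoc]

/-- `W_Q` exchanges the degeneracy maps of level `A`. -/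
theorem IsAL.comp_dg_one (hW : IsAL A Q W) (hc : A.Coprime Q) [NeZero A] [NeZero Q]
    (h1 : A * 1 ∣ R) (h2 : A * Q ∣ R) :
    W.toAlgHom.comp (dg L 1 h1) = dg L Q h2 := by
  refine FB_hom_ext fun m hm => Subtype.ext ?_
  have hm' : m * 1 ∣ R := (mul_dvd_mul_right hm 1).trans h1
  have e1 : dg L 1 h1 ⟨H66.J L m, J_mem_FB hm⟩ = ⟨H66.J L (m * 1), J_mem_FB hm'⟩ := by
    apply Subtype.ext
    rw [coe_dg, H66.qExpand_J]
    exact congrArg (H66.J L) (by ring)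
  change ((W (dg L 1 h1 ⟨H66.J L m, J_mem_FB hm⟩) : FB L R) : LaurentSeries L)
    = qExpand L Q (H66.J L m)
  rw [e1, hW.apply_mul hc hm (one_dvd Q) hm', Nat.div_one, H66.qExpand_J, mul_comm]

theorem IsAL.comp_dg_Q (hW : IsAL A Q W) (hc : A.Coprime Q) [NeZero A] [NeZero Q]
    (h1 : A * 1 ∣ R) (h2 : A * Q ∣ R) :
    W.toAlgHom.comp (dg L Q h2) = dg L 1 h1 := by
  refine FB_hom_ext fun m hm => Subtype.ext ?_
  have hm' : m * Q ∣ R := (mul_dvd_mul_right hm Q).trans h2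
  have e1 : dg L Q h2 ⟨H66.J L m, J_mem_FB hm⟩ = ⟨H66.J L (m * Q), J_mem_FB hm'⟩ := by
    apply Subtype.ext
    rw [coe_dg, H66.qExpand_J]
    exact congrArg (H66.J L) (by ring)
  change ((W (dg L Q h2 ⟨H66.J L m, J_mem_FB hm⟩) : FB L R) : LaurentSeries L)
    = qExpand L 1 (H66.J L m)
  rw [e1, hW.apply_mul hc hm dvd_rfl hm', Nat.div_self (Nat.pos_of_ne_zero (NeZero.ne Q)),
    mul_one, H66.qExpand_J, one_mul]

/-- `W_Q` is an involution. -/
theorem IsAL.involutive (hW : IsAL A Q W) (hR : R = A * Q) (hc : A.Coprime Q) (x : FB L R) :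
    W (W x) = x := by
  have hQ : Q ≠ 0 := by
    rintro rfl
    exact NeZero.ne R (by rw [hR, mul_zero])
  have h : W.toAlgHom.comp W.toAlgHom = AlgHom.id L (FB L R) := by
    refine FB_hom_ext fun m hm => Subtype.ext ?_
    obtain ⟨m₁, m₂, h₁, h₂, rfl⟩ := (Nat.dvd_mul).1 (hR ▸ hm)
    have h₃ : Q / m₂ ∣ Q := Nat.div_dvd_of_dvd h₂
    have hm' : m₁ * (Q / m₂) ∣ R := by
      rw [hR]; exact mul_dvd_mul h₁ h₃
    have e1 : W ⟨H66.J L (m₁ * m₂), J_mem_FB hm⟩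
        = ⟨H66.J L (m₁ * (Q / m₂)), J_mem_FB hm'⟩ :=
      Subtype.ext (hW.apply_mul hc h₁ h₂ hm)
    change ((W (W ⟨H66.J L (m₁ * m₂), J_mem_FB hm⟩) : FB L R) : LaurentSeries L)
      = H66.J L (m₁ * m₂)
    rw [e1, hW.apply_mul hc h₁ h₃ hm', Nat.div_div_self h₂ hQ]
  exact AlgHom.congr_fun h x

theorem IsAL.symm_eq (hW : IsAL A Q W) (hR : R = A * Q) (hc : A.Coprime Q) : W.symm = W := by
  refine AlgEquiv.ext fun x => ?_
  rw [AlgEquiv.symm_apply_eq, hW.involutive hR hc]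

/-- uniqueness -/
theorem IsAL.unique (hW : IsAL A Q W) {W' : FB L R ≃ₐ[L] FB L R} (hW' : IsAL A Q W') :
    W = W' := by
  have h : W.toAlgHom = W'.toAlgHom := by
    refine FB_hom_ext fun m hm => Subtype.ext ?_
    exact (hW m hm).trans (hW' m hm).symm
  exact AlgEquiv.ext fun x => AlgHom.congr_fun h x

end AL

section ALGalois

variable {L : Type*} [Field L] [Algebra ℚ L]

theorem coeffMap_J (σ : L →+* L) (m : ℕ) : coeffMap σ (H66.J L m) = H66.J L m := by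
  by_cases hm : m = 0
  · subst hm
    rw [H66.J, dif_pos rfl, map_zero]
  · haveI : NeZero m := ⟨hm⟩
    rw [H66.J_eq, coeffMap_qExpand]
    congr 1
    exact coeffMap_jqModC σ

variable {R A Q : ℕ} [NeZero R] {W : FB L R ≃ₐ[L] FB L R}

/-- The Atkin–Lehner automorphisms commute with the Galois action on coefficients. -/
theorem IsAL.galois (hW : IsAL A Q W) (σ : L ≃ₐ[ℚ] L) (x : FB L R) :
    W (arithmeticGalois (modularFunctionFieldFull R) σ • x)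
      = arithmeticGalois (modularFunctionFieldFull R) σ • W x := by
  -- `σ⁻¹ W σ` is `L`-linear
  let g : FB L R ≃+* FB L R := arithmeticRingAut (modularFunctionFieldFull R) σ
  let g' : FB L R ≃+* FB L R := arithmeticRingAut (modularFunctionFieldFull R) σ.symm
  have hg' : ∀ y, g' (g y) = y := fun y => g.symm_apply_apply y
  have hg : ∀ y, g (g' y) = y := fun y => g.apply_symm_apply y
  have hgJ : ∀ (m : ℕ) (hm : m ∣ R), g ⟨H66.J L m, J_mem_FB hm⟩ = ⟨H66.J L m, J_mem_FB hm⟩ :=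
    fun m hm => Subtype.ext (coeffMap_J (σ : L →+* L) m)
  let φ : FB L R →ₐ[L] FB L R :=
    { (g'.toRingHom.comp (W.toAlgHom.toRingHom.comp g.toRingHom)) with
      commutes' := fun a => by
        change g' (W (g (algebraMap L (FB L R) a))) = algebraMap L (FB L R) a
        rw [show g (algebraMap L (FB L R) a) = algebraMap L (FB L R) (σ a) from
          arithmeticRingAut_algebraMap _ σ a, AlgEquiv.commutes,
          show g' (algebraMap L (FB L R) (σ a)) = algebraMap L (FB L R) (σ.symm (σ a)) from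
          arithmeticRingAut_algebraMap _ σ.symm (σ a), AlgEquiv.symm_apply_apply] }
  have h : φ = W.toAlgHom := by
    refine FB_hom_ext fun m hm => Subtype.ext ?_
    change ((g' (W (g ⟨H66.J L m, J_mem_FB hm⟩)) : FB L R) : LaurentSeries L)
      = ((W ⟨H66.J L m, J_mem_FB hm⟩ : FB L R) : LaurentSeries L)
    rw [hgJ m hm]
    change coeffMap (σ.symm : L →+* L) ((W ⟨H66.J L m, J_mem_FB hm⟩ : FB L R) : LaurentSeries L)
      = _
    rw [hW m hm, coeffMap_J]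
  have h1 : g' (W (g x)) = W x := AlgHom.congr_fun h x
  change W (g x) = g (W x)
  rw [← h1, hg]

end ALGalois

section ALPic

variable {L : Type*} [Field L] [Algebra ℚ L] [IsAlgClosed L] [CharZero L]
variable {R A Q : ℕ} [NeZero R] {W : FB L R ≃ₐ[L] FB L R} (hW : IsAL A Q W) (hR : R = A * Q)
  (hc : A.Coprime Q)

include hW hR hc

theorem IsAL.pullP_eq (x : Pic0 L (FB L R)) : pullP W.toAlgHom x = pushP W.toAlgHom x := by
  rw [pullP_equiv, hW.symm_eq hR hc]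

theorem IsAL.pushP_pushP (x : Pic0 L (FB L R)) :
    pushP W.toAlgHom (pushP W.toAlgHom x) = x := by
  have h := pushP_symm_pushP W x
  rwa [hW.symm_eq hR hc] at h

/-- `W_Q` commutes with `T_r` for `r ∤ Q`. -/
theorem IsAL.pushP_hecke (f : L →+* ℂ) {r : ℕ} [NeZero r] (hr : r.Coprime Q)
    (x : Pic0 L (FB L R)) :
    pushP W.toAlgHom (heckeOperatorAlong L R r x)
      = heckeOperatorAlong L R r (pushP W.toAlgHom x) := by
  haveI : NeZero (R * r) := ⟨mul_ne_zero (NeZero.ne R) (NeZero.ne r)⟩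
  have hR' : R * r = A * r * Q := by rw [hR]; ring
  have hc' : (A * r).Coprime Q := hc.mul_left hr
  obtain ⟨W', hW'⟩ := exists_isAL (L := L) f hR' hc'
  have h1 : R * 1 ∣ R * r := mul_dvd_mul_left _ (one_dvd r)
  have e1 := hW.comp_dg hR hc hR' hc' hW' (d := 1) (mul_dvd_mul_left _ (one_dvd r)) h1
  have e2 := hW.comp_dg hR hc hR' hc' hW' (d := r) dvd_rfl dvd_rfl
  rw [heckeOperatorAlong_eq_dg rfl h1 dvd_rfl, heckeOperatorAlong_eq_dg rfl h1 dvd_rfl,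
    ← pushP_comp, ← e1, pushP_comp, ← hW'.pullP_eq hR' hc', ← pullP_comp, e2, pullP_comp,
    hW.pullP_eq hR hc]

variable [NeZero A] [NeZero Q]

theorem IsAL.pushP_dg_one (h1 : A * 1 ∣ R) (h2 : A * Q ∣ R) (x : Pic0 L (FB L R)) :
    pushP (dg L 1 h1) (pushP W.toAlgHom x) = pushP (dg L Q h2) x := by
  rw [← pushP_comp, hW.comp_dg_one hc h1 h2]

theorem IsAL.pushP_dg_Q (h1 : A * 1 ∣ R) (h2 : A * Q ∣ R) (x : Pic0 L (FB L R)) :
    pushP (dg L Q h2) (pushP W.toAlgHom x) = pushP (dg L 1 h1) x := by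
  rw [← pushP_comp, hW.comp_dg_Q hc h1 h2]

theorem IsAL.pullP_dg_one (h1 : A * 1 ∣ R) (h2 : A * Q ∣ R) (x : Pic0 L (FB L A)) :
    pushP W.toAlgHom (pullP (dg L 1 h1) x) = pullP (dg L Q h2) x := by
  rw [← hW.pullP_eq hR hc, ← pullP_comp, hW.comp_dg_one hc h1 h2]

theorem IsAL.pullP_dg_Q (h1 : A * 1 ∣ R) (h2 : A * Q ∣ R) (x : Pic0 L (FB L A)) :
    pushP W.toAlgHom (pullP (dg L Q h2) x) = pullP (dg L 1 h1) x := by
  rw [← hW.pullP_eq hR hc, ← pullP_comp, hW.comp_dg_Q hc h1 h2]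

end ALPic

end Fermat.Agent.H67
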