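import Mathlib
import Fermat.Agent.H34Two6
import Fermat.Agent.H67AL

/-!
# The two-component reduction of `X_0(mq)`: instance of `H89SS.TwoComp`, Galois action (helper34)
-/

set_option autoImplicit false
set_option linter.unusedSectionVars false

noncomputable section

open HahnSeries ModularCurve AlgebraicCurve IntermediateField Module

namespace Fermat.Agent.H34.Two

/-! ### Places -/

section Places

variable {K : Type*} [Field K] {F : IntermediateField K (LaurentSeries K)}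

theorem isInf_unique {P P' : Place K F} (h : H97.IsInf P) (h' : H97.IsInf P') : P = P' :=
  H97.place_ext fun f => by rw [h, h']

theorem ord_smul' {K F : Type*} [Field K] [Field F] [Algebra K F] (g : SemilinearAut K F)
    (v : Place K F) (f : F) : (g • v).ord f = v.ord (g⁻¹ • f) := by
  have h := SemilinearAut.ord_smul g v (g⁻¹ • f)
  rwa [smul_inv_smul] at h

theorem order_coeffMap {R S : Type*} [CommRing R] [CommRing S] {φ : R →+* S}
    (hφ : Function.Injective φ) (x : LaurentSeries R) : (coeffMap φ x).order = x.order := by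
  by_cases hx : x = 0
  · rw [hx, map_zero, HahnSeries.order_zero, HahnSeries.order_zero]
  have hx' : coeffMap φ x ≠ 0 := fun h => hx (H42.coeffMap_injective hφ (by rw [h, map_zero]))
  have h1 : (coeffMap φ x).coeff x.order ≠ 0 := by
    rw [coeffMap_coeff]
    intro h
    exact HahnSeries.coeff_order_eq_zero.not.mpr hx (hφ (by rw [h, map_zero]))
  apply le_antisymm
  · exact HahnSeries.order_le_of_coeff_ne_zero h1
  · refine H97.le_order_of hx' fun n hn => ?_
    rw [coeffMap_coeff, HahnSeries.coeff_eq_zero_of_lt_order hn, map_zero]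

theorem coeffAut_smul_place {k : Type*} [Field k] {m : ℕ}
    {P : Place k (modularFunctionFieldFullC k m)} (hP : H97.IsInf P) (τ : k ≃+* k) :
    H60.coeffAut m τ • P = P := by
  apply H97.place_ext
  intro f
  have h := SemilinearAut.ord_smul (H60.coeffAut m τ) P ((H60.coeffAut m τ)⁻¹ • f)
  rw [smul_inv_smul] at h
  rw [h, hP, hP]
  have h2 : (((H60.coeffAut m τ • ((H60.coeffAut m τ)⁻¹ • f) :
      modularFunctionFieldFullC k m)) : LaurentSeries k) =
      coeffMap (τ : k →+* k) (((H60.coeffAut m τ)⁻¹ • f : modularFunctionFieldFullC k m) :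
        LaurentSeries k) := H60.coe_coeffAut_smul τ _
  rw [smul_inv_smul] at h2
  rw [h2, order_coeffMap τ.injective]

theorem arithmetic_smul_place {L : Type*} [Field L] [Algebra ℚ L] {M : ℕ}
    {P : Place L (H99.FX L M)} (hP : H97.IsInf P) (σ : L ≃ₐ[ℚ] L) :
    arithmeticGalois (modularFunctionFieldFull M) σ • P = P := by
  apply H97.place_ext
  intro f
  set g := arithmeticGalois (L := L) (modularFunctionFieldFull M) σ with hg
  have h := SemilinearAut.ord_smul g P (g⁻¹ • f)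
  rw [smul_inv_smul] at h
  rw [h, hP, hP]
  have h2 : (((g • (g⁻¹ • f) : H99.FX L M)) : LaurentSeries L) =
      coeffMap (σ : L →+* L) ((g⁻¹ • f : H99.FX L M) : LaurentSeries L) :=
    coe_arithmeticGalois_smul (modularFunctionFieldFull M) σ (g⁻¹ • f)
  rw [smul_inv_smul] at h2
  rw [h2, order_coeffMap σ.injective]

end Places

/-! ### Galois action on components -/

section Galois

variable {L : Type*} [Field L] [Algebra ℚ L] {A : ValuationSubring L} {k : Type*} [Field k]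
  {π : A →+* k}

theorem smul_gC {M : ℕ} {σ : L ≃ₐ[ℚ] L} {s : A →+* A} {τ : k ≃+* k} (h : H60.Compat π σ s τ)
    {f : H99.FX L M} (hf : f ∈ (gC A π M).V) :
    arithmeticGalois (modularFunctionFieldFull M) σ • f ∈ (gC A π M).V ∧
    (gC A π M).red (arithmeticGalois (modularFunctionFieldFull M) σ • f) =
      coeffMap (τ : k →+* k) ((gC A π M).red f) := by
  obtain ⟨y, z, hz, hfz⟩ := (mem_locL_iff A π).mp hf
  have hz' : coeffMap π (coeffMap s z) ≠ 0 := by
    rw [h.coeffMap_red]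
    intro h0
    apply hz
    exact H42.coeffMap_injective (f := (τ : k →+* k)) τ.injective (by rw [h0, map_zero])
  have hfz' : ((arithmeticGalois (modularFunctionFieldFull M) σ • f : H99.FX L M) :
      LaurentSeries L) * coeffMap A.subtype (coeffMap s z) =
      coeffMap A.subtype (coeffMap s y) := by
    rw [h.coeffMap_subtype, h.coeffMap_subtype, ← hfz, map_mul]
    congr 1
  refine ⟨(mem_locL_iff A π).mpr ⟨_, _, hz', hfz'⟩, ?_⟩
  have h1 := red_gaussComp_mul A π (isQuot_FX M) hz' hfz'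
  have h2 := red_gaussComp_mul A π (isQuot_FX M) hz hfz
  apply mul_right_cancel₀ hz'
  refine h1.trans ?_
  rw [h.coeffMap_red, h.coeffMap_red, ← map_mul]
  exact congrArg _ h2.symm

variable {m q : ℕ} [NeZero m] [NeZero q] (w : H99.AL L m q)

theorem isAL (hq : q.Prime) (hqm : ¬ q ∣ m) : H67.IsAL m q w.W := by
  have hco : m.Coprime q := ((Nat.Prime.coprime_iff_not_dvd hq).2 hqm).symm
  intro d hd
  have hmq : m * q ≠ 0 := mul_ne_zero (NeZero.ne m) (NeZero.ne q)
  rcases H99.dvd_cases hq hd with h | ⟨e, he, rfl⟩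
  · rw [w.W_J h _ (H99.J_mem_FX hmq (by rw [mul_comm m q]; exact mul_dvd_mul_left q h))]
    show H66.J L (q * d) = _
    rw [H42.swapDiv_of_dvd hco h, mul_comm]
  · rw [w.W_Jq he (H99.J_mem_FX hmq (he.trans (dvd_mul_right _ _))) _]
    show H66.J L e = _
    rw [mul_comm q e, H42.swapDiv_mul hco (NeZero.ne q) he]

end Galois

/-! ### The instance -/

section Instance

variable {L : Type*} [Field L] [Algebra ℚ L] [CharZero L] [IsAlgClosed L] (A : ValuationSubring L)
  {k : Type*} [Field k] [IsAlgClosed k] (π : A →+* k) {m q : ℕ} [NeZero m] [NeZero q]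
  [hq : Fact q.Prime] [CharP k q] (w : H99.AL L m q)

instance infinite_of_isAlgClosed (k : Type*) [Field k] [IsAlgClosed k] : Infinite k :=
  IsAlgClosed.instInfinite

theorem cast_ne_zero_of_not_dvd (k : Type*) [Field k] [CharP k q] (hqm : ¬ q ∣ m) :
    (m : k) ≠ 0 := fun h => hqm ((CharP.cast_eq_zero_iff k q m).mp h)

theorem ord_ofAlgAut (P₁ : Place L (H99.FX L (m * q))) (f : H99.FX L (m * q)) :
    (SemilinearAut.ofAlgAut w.W • P₁).ord f = P₁.ord (w.W f) := by
  have h := SemilinearAut.ord_smul (SemilinearAut.ofAlgAut w.W) P₁ (w.W f)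
  have h2 : SemilinearAut.ofAlgAut w.W • (w.W f) = f := w.invol f
  rwa [h2] at h

theorem arithmetic_smul_P₂ {P₁ : Place L (H99.FX L (m * q))} (hP₁ : H97.IsInf P₁)
    (σ : L ≃ₐ[ℚ] L) (hW : ∀ f, w.W (arithmeticGalois (modularFunctionFieldFull (m * q)) σ • f) =
      arithmeticGalois (modularFunctionFieldFull (m * q)) σ • w.W f) :
    arithmeticGalois (modularFunctionFieldFull (m * q)) σ •
      (SemilinearAut.ofAlgAut w.W • P₁) = SemilinearAut.ofAlgAut w.W • P₁ := by
  apply H97.place_ext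
  intro f
  set g := arithmeticGalois (L := L) (modularFunctionFieldFull (m * q)) σ with hg
  have h1 := SemilinearAut.ord_smul g (SemilinearAut.ofAlgAut w.W • P₁) (g⁻¹ • f)
  rw [smul_inv_smul] at h1
  rw [h1, ord_ofAlgAut, ord_ofAlgAut]
  have h2 := SemilinearAut.ord_smul g P₁ (w.W (g⁻¹ • f))
  rw [arithmetic_smul_place hP₁ σ, ← hW, smul_inv_smul] at h2
  exact h2.symm

variable (hπ : Function.Surjective π) (hqm : ¬ q ∣ m)

/-- first component -/
abbrev cp1 := comp1 A π w hπ (H42.degreeFact L)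
  (H42.degLE_of L k m (cast_ne_zero_of_not_dvd k hqm)) hqm

/-- second component -/
abbrev cp2 := comp2 A π w hπ (H42.degreeFact L)
  (H42.degLE_of L k m (cast_ne_zero_of_not_dvd k hqm)) hqm

theorem coe_ρ1 {f : H99.FX L (m * q)} (hf : f ∈ (cp1 A π w hπ hqm).V) :
    ((cp1 A π w hπ hqm).ρ ⟨f, hf⟩ : LaurentSeries k) = (gC A π (m * q)).red f := by
  rw [← (cp1 A π w hπ hqm).red_of_mem hf, coe_red1]

theorem coe_ρ2 {f : H99.FX L (m * q)} (hf : f ∈ (cp2 A π w hπ hqm).V) :
    ((cp2 A π w hπ hqm).ρ ⟨f, hf⟩ : LaurentSeries k) = (gC A π (m * q)).red (w.W f) := by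
  rw [← (cp2 A π w hπ hqm).red_of_mem hf, coe_red2, red_gC2]

theorem ρ1_of_eq {f : H99.FX L (m * q)} {y : LaurentSeries A}
    (h : coeffMap A.subtype y = (f : LaurentSeries L)) (hf : f ∈ (cp1 A π w hπ hqm).V) :
    ((cp1 A π w hπ hqm).ρ ⟨f, hf⟩ : LaurentSeries k) = coeffMap π y := by
  rw [← (cp1 A π w hπ hqm).red_of_mem hf, coe_red1]
  exact red_gaussComp_of_eq A π _ h.symm

theorem ρ2_of_eq {f : H99.FX L (m * q)} {y : LaurentSeries A}
    (h : coeffMap A.subtype y = (w.W f : LaurentSeries L)) (hf : f ∈ (cp2 A π w hπ hqm).V) :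
    ((cp2 A π w hπ hqm).ρ ⟨f, hf⟩ : LaurentSeries k) = coeffMap π y := by
  rw [← (cp2 A π w hπ hqm).red_of_mem hf, coe_red2, red_gC2]
  exact red_gaussComp_of_eq A π _ h.symm

variable [IsLocalHom π] (arch : H97.Arch A)
  (hgen : genusFF L (H97.FF L m) = genusFF k (modularFunctionFieldFullC k m))
  {P₁ : Place L (H99.FX L (m * q))} (hP₁ : H97.IsInf P₁)
  {P : Place k (modularFunctionFieldFullC k m)} (hP : H97.IsInf P)
  (τ : k ≃+* k) (hτ : ∀ x, τ x = x ^ q)

/-- **The two-component reduction of `X_0(mq)` in characteristic `q`.** -/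
def twoComp : H89SS.TwoComp L (H99.FX L (m * q)) k (modularFunctionFieldFullC k m) A π q where
  V₁ := (cp1 A π w hπ hqm).V
  V₂ := (cp2 A π w hπ hqm).V
  ρ₁ := (cp1 A π w hπ hqm).ρ
  ρ₂ := (cp2 A π w hπ hqm).ρ
  local₁ := ⟨fun a ha => (cp1 A π w hπ hqm).loc a ha.ne_zero⟩
  local₂ := ⟨fun a ha => (cp2 A π w hπ hqm).loc a ha.ne_zero⟩
  mem₁ := (cp1 A π w hπ hqm).mem
  mem₂ := (cp2 A π w hπ hqm).mem
  ρ₁_mem := (cp1 A π w hπ hqm).ρ_mem
  ρ₂_mem := (cp2 A π w hπ hqm).ρ_mem
  scale₁ f hf := (comp1_scalable A π w hπ _ _ hqm).scale f hf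
  scale₂ f hf := (comp2_scalable A π w hπ _ _ hqm).scale f hf
  exists_basis W _ := exists_basis_comp A π w hπ _ _ hqm W
  P₁ := P₁
  P₂ := SemilinearAut.ofAlgAut w.W • P₁
  P₁_ne_P₂ := by
    intro h
    have h1 := ord_ofAlgAut w P₁ (jmq L m q)
    rw [← h, hP₁, hP₁, jmq, w.alpha, coe_heckeAlphaBar, coe_heckeBetaBar, coe_jm, H66.J_one,
      H97.order_qExpand', H97.order_jqModC] at h1
    have := hq.out.two_le
    omega
  P := P
  red_mem := by
    intro i j f h₁ h₂ hf
    have key := (H97.red_mem_and_lift (A := A) (π := π) hq.out (cast_ne_zero_of_not_dvd k hqm)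
      (CharP.cast_eq_zero k q) hπ arch hgen w.alpha w.invol hP₁ (ord_ofAlgAut w P₁) hP).1
      i j f hf ((mem_locL_iff A π).mp h₁) ((mem_locL_iff A π).mp h₂)
    obtain ⟨⟨y, hy, hymem, hyL⟩, ⟨z, hz, hzmem, hzL⟩⟩ := key
    constructor
    · have e : (cp1 A π w hπ hqm).ρ ⟨f, h₁⟩ = ⟨coeffMap π y, hymem⟩ :=
        Subtype.ext (ρ1_of_eq A π w hπ hqm hy h₁)
      rw [e]; exact hyL
    · have e : (cp2 A π w hπ hqm).ρ ⟨f, h₂⟩ = ⟨coeffMap π z, hzmem⟩ :=
        Subtype.ext (ρ2_of_eq A π w hπ hqm hz h₂)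
      rw [e]; exact hzL
  Φ := phi k m q
  fr := H60.coeffAut m τ
  Φ_fr := phi_fr hτ
  fr_P := coeffAut_smul_place hP τ
  lift := by
    obtain ⟨i₀, hi₀⟩ := (H97.red_mem_and_lift (A := A) (π := π) hq.out
      (cast_ne_zero_of_not_dvd k hqm)
      (CharP.cast_eq_zero k q) hπ arch hgen w.alpha w.invol hP₁ (ord_ofAlgAut w P₁) hP).2
    refine ⟨i₀, fun i hi a ha => ?_⟩
    obtain ⟨y, x, hyx, hyW, hya, hxL, hWL⟩ := hi₀ i hi a ha
    have hWW : coeffMap A.subtype y = (w.W (w.W x) : LaurentSeries L) := by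
      rw [w.invol]; exact hyx
    have hΦ : coeffMap π (qExpand A q y) = (phi k m q a : LaurentSeries k) := by
      rw [H60.coeffMap_qExpand_H60, hya, coe_phi]
    have m1 : x ∈ (cp1 A π w hπ hqm).V := mem_gaussComp_of_eq A π (isQuot_FX (m * q)) hyx.symm
    have m2 : x ∈ (cp2 A π w hπ hqm).V := mem_gaussComp_of_eq A π (f := w.W x) (isQuot_FX (m * q)) hyW.symm
    have m3 : w.W x ∈ (cp1 A π w hπ hqm).V := mem_gaussComp_of_eq A π (isQuot_FX (m * q)) hyW.symm
    have m4 : w.W x ∈ (cp2 A π w hπ hqm).V :=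
      mem_gaussComp_of_eq A π (f := w.W (w.W x)) (isQuot_FX (m * q)) hWW.symm
    exact ⟨⟨x, m1, m2, hxL, Subtype.ext ((ρ1_of_eq A π w hπ hqm hyx m1).trans hya),
      Subtype.ext ((ρ2_of_eq A π w hπ hqm hyW m2).trans hΦ)⟩,
      ⟨w.W x, m3, m4, hWL, Subtype.ext ((ρ1_of_eq A π w hπ hqm hyW m3).trans hΦ),
      Subtype.ext ((ρ2_of_eq A π w hπ hqm hWW m4).trans hya)⟩⟩

theorem twoComp_P₁ : (twoComp A π w hπ hqm arch hgen hP₁ hP τ hτ).P₁ = P₁ := rfl

theorem twoComp_P₂ : (twoComp A π w hπ hqm arch hgen hP₁ hP τ hτ).P₂ =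
    SemilinearAut.ofAlgAut w.W • P₁ := rfl

/-- The Atkin–Lehner automorphism swaps the two components. -/
theorem twoComp_swap : (twoComp A π w hπ hqm arch hgen hP₁ hP τ hτ).Swap w.W where
  invol := w.invol
  mem f hf := by
    show w.W (w.W f) ∈ (gC A π (m * q)).V
    rw [w.invol]; exact hf
  mem' f hf := hf
  ρ f h h' := by
    show (cp2 A π w hπ hqm).ρ ⟨w.W f, h'⟩ = (cp1 A π w hπ hqm).ρ ⟨f, h⟩
    rw [← (cp2 A π w hπ hqm).red_of_mem h', ← (cp1 A π w hπ hqm).red_of_mem h, red2_eq, w.invol]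
  P₁ := rfl

/-- Galois automorphisms act on the two-component reduction. -/
theorem twoComp_compat {σ : L ≃ₐ[ℚ] L} {s : A →+* A} {t : k ≃+* k} (h : H60.Compat π σ s t)
    (hbase : ∀ c : L, c ≠ 0 → σ c / c ∈ A) :
    (twoComp A π w hπ hqm arch hgen hP₁ hP τ hτ).Compat
      (arithmeticGalois (modularFunctionFieldFull (m * q)) σ) (H60.coeffAut m t) := by
  have hW : ∀ f, w.W (arithmeticGalois (modularFunctionFieldFull (m * q)) σ • f) =
      arithmeticGalois (modularFunctionFieldFull (m * q)) σ • w.W f :=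
    (isAL w hq.out hqm).galois σ
  have k1 : ∀ f : H99.FX L (m * q), f ∈ (gC A π (m * q)).V →
      arithmeticGalois (modularFunctionFieldFull (m * q)) σ • f ∈ (gC A π (m * q)).V :=
    fun f hf => (smul_gC h hf).1
  have k2 : ∀ f : H99.FX L (m * q), f ∈ (gC A π (m * q)).V →
      (gC A π (m * q)).red (arithmeticGalois (modularFunctionFieldFull (m * q)) σ • f) =
      coeffMap (t : k →+* k) ((gC A π (m * q)).red f) :=
    fun f hf => (smul_gC h hf).2
  have k3 := arithmetic_smul_place hP₁ σ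
  have k4 := arithmetic_smul_P₂ w hP₁ σ hW
  refine ⟨hbase, k1, fun f hf => ?_, fun f hf hf' => ?_, fun f hf hf' => ?_, ?_, ?_⟩
  rotate_left 3
  · rw [twoComp_P₁]
    exact k3
  · rw [twoComp_P₂]
    exact k4
  · show w.W _ ∈ (gC A π (m * q)).V
    rw [hW]
    exact k1 (w.W f) hf
  · apply Subtype.ext
    refine (coe_ρ1 A π w hπ hqm hf').trans ?_
    refine Eq.trans ?_ (H60.coe_coeffAut_smul t ((cp1 A π w hπ hqm).ρ ⟨f, hf⟩)).symm
    refine Eq.trans ?_ (congrArg (coeffMap (t : k →+* k)) (coe_ρ1 A π w hπ hqm hf)).symm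
    exact k2 f hf
  · apply Subtype.ext
    refine (coe_ρ2 A π w hπ hqm hf').trans ?_
    refine Eq.trans ?_ (H60.coe_coeffAut_smul t ((cp2 A π w hπ hqm).ρ ⟨f, hf⟩)).symm
    refine Eq.trans ?_ (congrArg (coeffMap (t : k →+* k)) (coe_ρ2 A π w hπ hqm hf)).symm
    rw [hW]
    exact k2 (w.W f) hf

end Instance

end Fermat.Agent.H34.Two
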