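import Fermat.Agent.H89J
import Fermat.Agent.H34Two7
import Fermat.Agent.H88GenusEq

/-!
# The instance `ModTwo` and the inputs of S34, S35
-/

set_option autoImplicit false
set_option linter.style.haveILetI false

noncomputable section

open AlgebraicCurve ModularCurve IntermediateField HahnSeries Fermat.Agent.H34.Two

namespace Fermat.Agent.H89J

local notation "Qb" => AlgebraicClosure ℚ
local notation "GQ" => AlgebraicClosure ℚ ≃ₐ[ℚ] AlgebraicClosure ℚ

section Base

open scoped Pointwise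

variable {A : ValuationSubring (AlgebraicClosure ℚ)}

/-- orbits are finite -/
theorem exists_pow_smul_eq (σ : GQ) (c : Qb) : ∃ n : ℕ, 0 < n ∧ (σ ^ n) c = c := by
  classical
  have hQ : Algebra.IsAlgebraic ℚ Qb := AlgebraicClosure.isAlgebraic ℚ
  have hc : IsIntegral ℚ c := (hQ.isAlgebraic c).isIntegral
  let f : ℕ → (minpoly ℚ c).rootSet Qb := fun n => ⟨(σ ^ n) c, by
    rw [Polynomial.mem_rootSet]
    refine ⟨minpoly.ne_zero hc, ?_⟩
    have h1 : Polynomial.aeval ((σ ^ n) c) (minpoly ℚ c) =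
        (σ ^ n) (Polynomial.aeval c (minpoly ℚ c)) :=
      Polynomial.aeval_algHom_apply ((σ ^ n : GQ) : Qb →ₐ[ℚ] Qb) c (minpoly ℚ c)
    rw [h1, minpoly.aeval, map_zero]⟩
  obtain ⟨i, j, hij, hf⟩ := Finite.exists_ne_map_eq_of_infinite f
  have h1 : (σ ^ i) c = (σ ^ j) c := congrArg Subtype.val hf
  wlog hlt : i < j generalizing i j
  · exact this j i hij.symm hf.symm h1.symm (lt_of_le_of_ne (not_lt.mp hlt) hij.symm)
  obtain ⟨e, rfl⟩ := Nat.exists_eq_add_of_lt hlt
  refine ⟨e + 1, Nat.succ_pos _, ?_⟩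
  have h2 : (σ ^ (i + e + 1)) c = (σ ^ i) ((σ ^ (e + 1)) c) := by
    rw [add_assoc, _root_.pow_add]; rfl
  rw [h2] at h1
  exact ((σ ^ i).injective h1).symm

/-- `σ c / c` is a unit for `σ` in the decomposition group. -/
theorem div_mem_of_mem_decomposition {σ : GQ} (hσ : σ ∈ A.decompositionSubgroup ℚ) (c : Qb)
    (hc : c ≠ 0) : σ c / c ∈ A := by
  by_contra hcon
  -- `c / σ c` is a nonunit, and so are all its conjugates
  have hσA : ∀ x : Qb, x ∈ A → σ x ∈ A := by
    intro x hx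
    have h1 : σ • A = A := hσ
    have h2 : σ • x ∈ σ • A := ValuationSubring.smul_mem_pointwise_smul σ x A hx
    rw [h1] at h2
    exact h2
  have hσA' : ∀ x : Qb, σ x ∈ A → x ∈ A := by
    intro x hx
    have h1 : σ • A = A := hσ
    have h2 : σ • x ∈ σ • A := by rw [h1]; exact hx
    exact (ValuationSubring.smul_mem_pointwise_smul_iff (g := σ) (S := A) (x := x)).mp h2
  have key : ∀ n : ℕ, c / (σ ^ n) c ∈ A ∧ (n ≠ 0 → (σ ^ n) c / c ∉ A) := by
    intro n
    induction n with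
    | zero => exact ⟨by simp [hc], fun h => absurd rfl h⟩
    | succ n ih =>
      have h0 : σ c / c ∉ A := hcon
      have h1 : c / σ c ∈ A := by
        have := A.mem_or_inv_mem (σ c / c)
        rw [inv_div] at this
        exact this.resolve_left h0
      have hσc : σ c ≠ 0 := (map_ne_zero σ).mpr hc
      have h2 : (σ ^ (n + 1)) c = σ ((σ ^ n) c) := by rw [pow_succ']; rfl
      have hn0 : (σ ^ n) c ≠ 0 := (map_ne_zero _).mpr hc
      have h3 : c / (σ ^ (n + 1)) c ∈ A := by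
        have h4 := hσA _ ih.1
        rw [map_div₀, ← h2] at h4
        have h5 := A.mul_mem _ _ h1 h4
        rwa [div_mul_div_cancel₀ hσc] at h5
      refine ⟨h3, fun _ h4 => h0 ?_⟩
      -- `σ c / c = (σ^{n+1} c / c) * (σ c / σ^{n+1} c)`
      have h5 := hσA _ ih.1
      rw [map_div₀, ← h2] at h5
      have h6 := A.mul_mem _ _ h5 h4
      have hn1 : (σ ^ (n + 1)) c ≠ 0 := (map_ne_zero _).mpr hc
      rwa [div_mul_div_cancel₀ hn1] at h6
  obtain ⟨n, hn, hnc⟩ := exists_pow_smul_eq σ c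
  refine (key n).2 hn.ne' ?_
  rw [hnc, div_self hc]
  exact A.one_mem

end Base

section Generic

variable {A : ValuationSubring (AlgebraicClosure ℚ)} {k : Type*} [Field k] {π : A →+* k}
  {m q : ℕ} [NeZero m] [NeZero q] [NeZero (m * q)]

theorem nonempty_modTwo_aux [Fact q.Prime] [CharP k q] [IsAlgClosed k] [IsLocalHom π]
    (hπ : Function.Surjective π) (hqm : ¬ q ∣ m)
    (arch : H97.Arch A)
    (hgen : genusFF Qb (H97.FF Qb m) = genusFF k (modularFunctionFieldFullC k m))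
    (τ : k ≃+* k) (hτ : ∀ x, τ x = x ^ q)
    (hin : ∀ σ : GQ, σ ∈ A.inertiaSubgroupIn ℚ → ∃ s, H60.Compat π σ s (RingEquiv.refl k))
    (hfr : ∀ σ : GQ, A.IsFrobeniusAt σ q → ∃ s, H60.Compat π σ s τ)
    (hdi : ∀ σ : GQ, σ ∈ A.inertiaSubgroupIn ℚ → ∀ c : Qb, c ≠ 0 → σ c / c ∈ A)
    (hdf : ∀ σ : GQ, A.IsFrobeniusAt σ q → ∀ c : Qb, c ≠ 0 → σ c / c ∈ A) :
    Nonempty (ModTwo m q A k π) := by
  have hq : q.Prime := Fact.out
  have hc : m.Coprime q := ((Nat.Prime.coprime_iff_not_dvd hq).2 hqm).symm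
  obtain ⟨w⟩ := H99.nonempty_AL (L := Qb) H67.embQbar hc
  obtain ⟨P₁, hP₁⟩ := H97.exists_isInf (H99.FX Qb (m * q)) (H97.jqModC_mem_bar Qb (m * q))
  obtain ⟨P, hP⟩ := H97.exists_isInf (modularFunctionFieldFullC k m) (jk k m).2
  have hal : H67.IsAL m q w.W := isAL w hq hqm
  exact ⟨{
    T := twoComp A π w hπ hqm arch hgen hP₁ hP τ hτ
    V₁_mem := fun f => Iff.rfl
    ρ₁_eq := fun f h => by
      refine (coe_ρ1 A π w hπ hqm h).trans ?_
      rw [(gC A π (m * q)).red_of_mem h]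
      rfl
    fr_eq := fun a n => by
      have h1 : (((twoComp A π w hπ hqm arch hgen hP₁ hP τ hτ).fr • a :
          modularFunctionFieldFullC k m) : LaurentSeries k) =
          coeffMap (τ : k →+* k) (a : LaurentSeries k) := H60.coe_coeffAut_smul τ a
      rw [h1, coeffMap_coeff]
      exact hτ _
    swap := fun W hW => by
      rw [← hal.unique hW]
      exact twoComp_swap A π w hπ hqm arch hgen hP₁ hP τ hτ
    inertia := fun σ hσ => by
      obtain ⟨s, hs⟩ := hin σ hσ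
      have h1 := twoComp_compat A π w hπ hqm arch hgen hP₁ hP τ hτ hs (hdi σ hσ)
      rwa [H60.coeffAut_refl] at h1
    frobenius := fun σ hσ => by
      obtain ⟨s, hs⟩ := hfr σ hσ
      exact twoComp_compat A π w hπ hqm arch hgen hP₁ hP τ hτ hs (hdf σ hσ) }⟩

end Generic

variable {m q p : ℕ} [NeZero m] [NeZero q] [NeZero (m * q)]

theorem nonempty_modTwo (hq : q.Prime) (hqm : ¬ q ∣ m)
    (A : ValuationSubring (AlgebraicClosure ℚ)) (hA : A.LiesOverPrime q) :
    Nonempty (ModTwo m q A (IsLocalRing.ResidueField A) (IsLocalRing.residue A)) := by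
  haveI : Fact q.Prime := ⟨hq⟩
  haveI : CharP (IsLocalRing.ResidueField A) q := H05.charP_residueField hq hA
  haveI : IsAlgClosed (IsLocalRing.ResidueField A) := H18.isAlgClosed_residueField A
  obtain ⟨τ, hτ⟩ := H60.exists_frobAut hq hA
  refine nonempty_modTwo_aux IsLocalRing.residue_surjective hqm (H89Arch.arch hq hA)
    (H88.genusFFEq m hqm A hA) τ hτ ?_ ?_ ?_ ?_
  · rintro σ ⟨σ', hσ', rfl⟩
    have hid : ∀ x : IsLocalRing.ResidueField A, σ' • x = RingEquiv.refl _ x := by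
      intro x
      have h := MonoidHom.mem_ker.mp hσ'
      exact DFunLike.congr_fun h x
    exact ⟨_, H60.compat_of_mem (A := A) σ'.2 (RingEquiv.refl _) hid⟩
  · rintro σ ⟨hσ, hσx⟩
    exact ⟨_, H60.compat_of_mem (A := A) hσ τ (fun x => (hσx x).trans (hτ x).symm)⟩
  · rintro σ ⟨σ', hσ', rfl⟩ c hc
    exact div_mem_of_mem_decomposition σ'.2 c hc
  · rintro σ ⟨hσ, hσx⟩ c hc
    exact div_mem_of_mem_decomposition hσ c hc

/-- **S34 input**, unconditional. -/
theorem unipotentTorsion' (hq : q.Prime) (hqm : ¬ q ∣ m) (hp : p.Prime) (hpq : p ≠ q) :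
    H35.UnipotentTorsion p q (JZero (m * q)) :=
  unipotentTorsion hq hqm hp hpq fun A hA => nonempty_modTwo hq hqm A hA

/-- **S35 input**, unconditional. -/
theorem starInput' (hq : q.Prime) (hqm : ¬ q ∣ m) (hp : p.Prime) (hpq : p ≠ q) :
    H35.StarInput p q m :=
  starInput hq hqm hp hpq fun A hA => nonempty_modTwo hq hqm A hA

end Fermat.Agent.H89J
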