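import Mathlib
import Fermat.Agent.H4EAK
import Fermat.Agent.H89Inst
import Fermat.Agent.H92CarD

/-!
# ML-EA: the geometric inputs (MODLIFT, helper4)

`GeomInputs p` : the fields `uni`, `star` are unconditional (`H89Inst`), the field `fixed` follows
from the core statement of CARAYOL (`H92.CoreK` over the inertia fields).
-/

set_option autoImplicit false

noncomputable section

namespace Fermat.Agent.H4

/-- `GeomInputs p` from the Carayol input alone. -/
theorem geomInputs_of_fixed {p : ℕ} (hp : p.Prime)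
    (hfix : ∀ (q M : ℕ) [NeZero M] [NeZero (M * q)] [NeZero (M * q * q)] [NeZero q], q.Prime →
      q ≠ p → ¬ q ∣ M → Fermat.Agent.H35.FixedInput p q (M * q)) : GeomInputs p where
  uni _ _ _ _ _ hq hqp hqM := Fermat.Agent.H89J.unipotentTorsion' hq hqM hp hqp.symm
  star _ _ _ _ _ hq hqp hqM := Fermat.Agent.H89J.starInput' hq hqM hp hqp.symm
  fixed q M _ _ _ _ hq hqp hqM := hfix q M hq hqp hqM

/-- The core statement of CARAYOL. -/
def CarCore : Prop :=
  ∀ (p q m c : ℕ) [NeZero m] [NeZero q] [NeZero (m * q)] [NeZero (m * q * q)],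
    p.Prime → q.Prime → q ≠ p → ¬ q ∣ m → (c = 4 ∨ c = 9) → c ∣ m →
    ∀ A : ValuationSubring (AlgebraicClosure ℚ), A.LiesOverPrime q →
    ∀ n : ℕ, Fermat.Agent.H92.CoreK (Fermat.Agent.H36.KI A) m q (p ^ n)
      ((q + 1) * (q - 1) * (q * q - 1))

/-- `GeomInputs p` from the core statement of CARAYOL. -/
theorem geomInputs_of_core {p : ℕ} (hp : p.Prime) (hcore : CarCore) : GeomInputs p :=
  geomInputs_of_fixed hp fun q M _ _ _ _ hq hqp hqM =>
    Fermat.Agent.H92.fixedInput_all hcore p q M hp hq hqp hqM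

end Fermat.Agent.H4

end
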