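import Mathlib
import Fermat.Agent.H4EAIn
import Fermat.Agent.H83C9b

/-!
# `GeomInputs p`, unconditional (MODLIFT, helper4)
-/

set_option autoImplicit false

namespace Fermat.Agent.H4

theorem carCore : CarCore := Fermat.Agent.H83.carCore

/-- The geometric inputs of ML-EA hold for every prime `p`. -/
theorem geomInputs {p : ℕ} (hp : p.Prime) : GeomInputs p := geomInputs_of_core hp carCore

end Fermat.Agent.H4
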