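import Mathlib
import Fermat.Agent.H4EAK
import Fermat.Agent.H87AbsIrr

/-!
# ML-EA at the primes `q ∤ M` (MODLIFT / S59, helper4)

Point form as in `H4EAK`: `y ∈ H¹(Γ₀(M), K₁(η²))`, `q ≠ p` a prime not dividing `M`
(`q ∈ S` is allowed).

* `EAd` : `ρ` is unramified at `q`;
* `EAe` : if `T_q y = η(q) μ y`, the characteristic polynomial of the Frobenius elements at `q`
  is `X² - μ X + q`.
-/

set_option autoImplicit false
set_option linter.style.haveILetI false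
set_option linter.unusedSectionVars false

noncomputable section

open IsLocalRing Module TensorProduct Polynomial CongruenceSubgroup CuspForm ModularCurve
  AlgebraicCurve Fermat.Agent.H31 Fermat.Agent.H30 Fermat.Agent.H35 Fermat.Agent.H67
  Fermat.Agent.H62 Fermat.Agent.H94.BR Fermat.Agent.H70.Coh Fermat.Agent.H21J

namespace Fermat.Agent.H4

theorem sub_smul_aux {R M : Type*} [CommRing R] [AddCommGroup M] [Module R M] {A B C : M}
    {t μ : R} (h1 : A - μ • B + C = 0) (h2 : A - t • B + C = 0) : (t - μ) • B = 0 := by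
  rw [sub_smul]
  have := sub_eq_zero.mpr (h1.trans h2.symm)
  rw [← this]
  abel

/-! ### `J`-level -/

section J

variable {p : ℕ} [Fact p.Prime] {S : Finset ℕ}
    {𝒪' : Type} [CommRing 𝒪'] [IsDomain 𝒪'] [IsDiscreteValuationRing 𝒪']
    [IsAdicComplete (IsLocalRing.maximalIdeal 𝒪') 𝒪'] [Finite (IsLocalRing.ResidueField 𝒪')]
    [CharZero 𝒪'] [Algebra ℤ_[p] 𝒪']

/-- the trace of an attached representation on an eigenvector -/
theorem trace_JZero {N : ℕ} [NeZero N] (hpS : p ∈ S) (hNS : ∀ q : ℕ, q.Prime → q ∣ N → q ∈ S)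
    (hp𝒪' : (p : 𝒪') ∈ IsLocalRing.maximalIdeal 𝒪') {lam : ℕ → 𝒪'}
    {v : 𝒪' ⊗[ℤ_[p]] TateMod p (JZero N)} (hv : IsEigJ p N S lam v) (hv0 : v ≠ 0)
    (ρ : GaloisRepAdic 𝒪') (hρ : IsAttached S lam ρ) (g : H53.GQ) :
    ∃ t : 𝒪',
      ((galTate p (JZero N) g).baseChange 𝒪' ((galTate p (JZero N) g).baseChange 𝒪' v)
        - t • (galTate p (JZero N) g).baseChange 𝒪' v + cyc 𝒪' hp𝒪' g • v = 0) ∧
      LinearMap.charpoly (ρ.ρ g) = X ^ 2 - C t * X + C (cyc 𝒪' hp𝒪' g) := by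
  letI := heckeModuleBar N
  haveI := (jzeroInputs N).comm
  haveI := (jzeroInputs N).principal
  have hp : p.Prime := Fact.out
  obtain ⟨t, ht, h⟩ := exists_trace_J (J := JZero N) hpS hNS 𝒪' hp𝒪' (chiOf N S lam)
    (by simpa using (jzeroInputs N).finite p 1 hp)
    (frobeniusQuadratic_of_specializationExists ((jzeroInputs N).spec p hp))
    (finiteLevel_JZero N p (fun n => (jzeroInputs N).finite p n hp))
    (fun hbot => hv0 (by
      have h1 := hv.mem_chiSub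
      rw [hbot] at h1
      exact (Submodule.mem_bot _).mp h1)) g
  refine ⟨t, ht v hv.mem_chiSub, ?_⟩
  have h2 := h ρ (isAttachedN_chiOf hρ)
  simpa using h2

instance noZeroSMul_tate (N : ℕ) [NeZero N] : Module.Free ℤ_[p] (TateMod p (JZero N)) :=
  TateMod.free_of_finite_torsion (p := p) (J := JZero N)
    (by simpa using (jzeroInputs N).finite p 1 Fact.out)

theorem smul_eq_zero_tate {N : ℕ} [NeZero N] {c : 𝒪'}
    {v : 𝒪' ⊗[ℤ_[p]] TateMod p (JZero N)} (h : c • v = 0) : c = 0 ∨ v = 0 := by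
  let b := Module.Free.chooseBasis ℤ_[p] (TateMod p (JZero N))
  let b' := b.baseChange 𝒪'
  by_contra hcon
  push Not at hcon
  obtain ⟨h1, h2⟩ := hcon
  apply h2
  apply b'.repr.injective
  rw [map_zero]
  ext i
  have h3 := congrArg (fun w => b'.repr w i) h
  simp only [map_smul, Finsupp.smul_apply, smul_eq_mul, map_zero, Finsupp.coe_zero,
    Pi.zero_apply] at h3
  exact (mul_eq_zero.mp h3).resolve_left h1

/-- inertia at `q ∤ N p` acts trivially on the Tate module -/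
theorem galTate_inertia_JZero {N : ℕ} [NeZero N] {q : ℕ} (hq : q.Prime) (hqp : q ≠ p)
    (hqN : ¬ q ∣ N) {A : ValuationSubring (AlgebraicClosure ℚ)} (hA : A.LiesOverPrime q)
    {σ : H53.GQ} (hσ : σ ∈ A.inertiaSubgroupIn ℚ) : galTate p (JZero N) σ = 1 := by
  letI := heckeModuleBar N
  haveI := (jzeroInputs N).comm
  haveI := (jzeroInputs N).principal
  have hp : p.Prime := Fact.out
  refine galTate_inertia (unramifiedOutside_of_specializationExists ((jzeroInputs N).spec p hp))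
    hq ?_ hA hσ
  intro h
  rcases hq.dvd_mul.mp h with h | h
  · exact hqN h
  · exact hqp ((Nat.prime_dvd_prime_iff_eq hq hp).mp h)

/-- Eichler–Shimura at `q ∤ N p` on the Tate module -/
theorem galTate_frobenius_JZero {N : ℕ} [NeZero N] {q : ℕ} (hq : q.Prime) (hqp : q ≠ p)
    (hqN : ¬ q ∣ N) {A : ValuationSubring (AlgebraicClosure ℚ)} (hA : A.LiesOverPrime q)
    {σ : H53.GQ} (hσ : A.IsFrobeniusAt σ q) :
    galTate p (JZero N) σ * galTate p (JZero N) σ -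
      galTate p (JZero N) σ * tateMap (p := p) (heckeOperatorBar N ⟨q, hq⟩) +
      q • (1 : Module.End ℤ_[p] (TateMod p (JZero N))) = 0 := by
  letI := heckeModuleBar N
  haveI := (jzeroInputs N).comm
  haveI := (jzeroInputs N).principal
  have hp : p.Prime := Fact.out
  have h1 := galTate_frobenius (p := p)
    (frobeniusQuadratic_of_specializationExists ((jzeroInputs N).spec p hp)) hq (by
      intro h
      rcases hq.dvd_mul.mp h with h | h
      · exact hqN h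
      · exact hqp ((Nat.prime_dvd_prime_iff_eq hq hp).mp h)) hA hσ
  have h2 : heckeTate p (JZero N) (heckeGen ⟨q, hq⟩) =
      tateMap (p := p) (heckeOperatorBar N ⟨q, hq⟩) := by
    refine LinearMap.ext fun x => ?_
    ext n
    rw [proj_heckeTate, proj_tateMap]
    exact heckeModuleBar_heckeGen_smul (heckeOperatorsCommuteBar N) ⟨q, hq⟩ _
  rw [(heckeTate_commute (p := p) (J := JZero N) (heckeGen ⟨q, hq⟩) σ).eq, h2] at h1
  exact h1

/-- **(E-good)**: the characteristic polynomial of Frobenius at `q ∤ N p`, `q ∈ S` allowed. -/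
theorem charpoly_good_JZero {N : ℕ} [NeZero N] (hpS : p ∈ S)
    (hNS : ∀ q : ℕ, q.Prime → q ∣ N → q ∈ S)
    (hp𝒪' : (p : 𝒪') ∈ IsLocalRing.maximalIdeal 𝒪') {lam : ℕ → 𝒪'}
    {v : 𝒪' ⊗[ℤ_[p]] TateMod p (JZero N)} (hv : IsEigJ p N S lam v) (hv0 : v ≠ 0)
    {q : ℕ} (hq : q.Prime) (hqp : q ≠ p) (hqN : ¬ q ∣ N) {μ : 𝒪'}
    (hμ : (tateMap (p := p) (heckeOperatorBar N ⟨q, hq⟩)).baseChange 𝒪' v = μ • v)
    (ρ : GaloisRepAdic 𝒪') (hρ : IsAttached S lam ρ)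
    {A : ValuationSubring (AlgebraicClosure ℚ)} (hA : A.LiesOverPrime q)
    {σ : H53.GQ} (hσ : A.IsFrobeniusAt σ q) :
    LinearMap.charpoly (ρ.ρ σ) = X ^ 2 - C μ * X + C ((q : 𝒪')) := by
  obtain ⟨t, ht, hc⟩ := trace_JZero hpS hNS hp𝒪' hv hv0 ρ hρ σ
  rw [cyc_frobenius 𝒪' hp𝒪' hq hqp hA hσ] at ht hc
  have h1 := congrArg (fun F : Module.End ℤ_[p] (TateMod p (JZero N)) => F.baseChange 𝒪' v)
    (galTate_frobenius_JZero (p := p) (N := N) hq hqp hqN hA hσ)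
  simp only [LinearMap.baseChange_add, LinearMap.baseChange_sub, LinearMap.baseChange_zero,
    LinearMap.add_apply, LinearMap.sub_apply, LinearMap.zero_apply, Module.End.mul_eq_comp,
    LinearMap.baseChange_comp, LinearMap.comp_apply] at h1
  rw [hμ, map_smul] at h1
  have h2 : (q • (1 : Module.End ℤ_[p] (TateMod p (JZero N)))).baseChange 𝒪' v = (q : 𝒪') • v := by
    have h3 : (q • (1 : Module.End ℤ_[p] (TateMod p (JZero N)))).baseChange 𝒪' =
        q • (LinearMap.id : Module.End 𝒪' (𝒪' ⊗[ℤ_[p]] TateMod p (JZero N))) := by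
      have := map_nsmul (LinearMap.baseChangeHom ℤ_[p] 𝒪' (TateMod p (JZero N))
        (TateMod p (JZero N))) q LinearMap.id
      exact this.trans (by congr 1; exact LinearMap.baseChange_id)
    rw [h3, LinearMap.smul_apply, LinearMap.id_apply]
    exact (Nat.cast_smul_eq_nsmul 𝒪' q v).symm
  rw [h2] at h1
  have h3 : (t - μ) • (galTate p (JZero N) σ).baseChange 𝒪' v = 0 := sub_smul_aux h1 ht
  have hinj : (galTate p (JZero N) σ).baseChange 𝒪' v ≠ 0 := by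
    intro h
    apply hv0
    have h4 : (galTate p (JZero N) σ⁻¹).baseChange 𝒪'
        ((galTate p (JZero N) σ).baseChange 𝒪' v) = v := by
      rw [← LinearMap.comp_apply, ← LinearMap.baseChange_comp, ← Module.End.mul_eq_comp,
        ← map_mul, inv_mul_cancel, map_one]
      change (LinearMap.id : TateMod p (JZero N) →ₗ[ℤ_[p]] _).baseChange 𝒪' v = v
      rw [LinearMap.baseChange_id, LinearMap.id_apply]
    rw [← h4, h, map_zero]
  have h4 : t = μ := sub_eq_zero.mp ((smul_eq_zero_tate h3).resolve_right hinj)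
  rw [hc, h4]

/-- Attached residually absolutely irreducible representations are unramified at `q ∤ N p`. -/
theorem unramified_JZero {N : ℕ} [NeZero N] (hpS : p ∈ S)
    (hNS : ∀ q : ℕ, q.Prime → q ∣ N → q ∈ S)
    (hp𝒪' : (p : 𝒪') ∈ IsLocalRing.maximalIdeal 𝒪') {lam : ℕ → 𝒪'}
    {v : 𝒪' ⊗[ℤ_[p]] TateMod p (JZero N)} (hv : IsEigJ p N S lam v) (hv0 : v ≠ 0)
    {q : ℕ} (hq : q.Prime) (hqp : q ≠ p) (hqN : ¬ q ∣ N)
    (ρ : GaloisRepAdic 𝒪') (hρ : IsAttached S lam ρ) (habs : ρ.residual.IsAbsolutelyIrreducible) :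
    ρ.IsUnramifiedAt q := by
  intro A hA σ hσ
  rw [← sub_eq_zero]
  refine traceFormNondegenerate ρ habs _ fun g => ?_
  rw [mul_sub, mul_one, ← map_mul, map_sub]
  obtain ⟨t, ht, hc⟩ := trace_JZero hpS hNS hp𝒪' hv hv0 ρ hρ g
  obtain ⟨t', ht', hc'⟩ := trace_JZero hpS hNS hp𝒪' hv hv0 ρ hρ (g * σ)
  have h1 : galTate p (JZero N) (g * σ) = galTate p (JZero N) g := by
    rw [map_mul, galTate_inertia_JZero hq hqp hqN hA hσ, mul_one]
  have h2 : cyc 𝒪' hp𝒪' (g * σ) = cyc 𝒪' hp𝒪' g := by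
    rw [map_mul, cyc_inertia 𝒪' hp𝒪' hq hqp hA hσ, mul_one]
  rw [h1, h2] at ht'
  have h3 : (t - t') • (galTate p (JZero N) g).baseChange 𝒪' v = 0 := sub_smul_aux ht' ht
  have hinj : (galTate p (JZero N) g).baseChange 𝒪' v ≠ 0 := by
    intro h
    apply hv0
    have h4 : (galTate p (JZero N) g⁻¹).baseChange 𝒪'
        ((galTate p (JZero N) g).baseChange 𝒪' v) = v := by
      rw [← LinearMap.comp_apply, ← LinearMap.baseChange_comp, ← Module.End.mul_eq_comp,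
        ← map_mul, inv_mul_cancel, map_one]
      change (LinearMap.id : TateMod p (JZero N) →ₗ[ℤ_[p]] _).baseChange 𝒪' v = v
      rw [LinearMap.baseChange_id, LinearMap.id_apply]
    rw [← h4, h, map_zero]
  have h4 : t = t' := sub_eq_zero.mp ((smul_eq_zero_tate h3).resolve_right hinj)
  rw [Fermat.Agent.H31.trace_eq_of_charpoly ρ.finrank_eq (ρ.ρ g) _ _ hc,
    Fermat.Agent.H31.trace_eq_of_charpoly ρ.finrank_eq (ρ.ρ (g * σ)) _ _ hc', h4, sub_self]

end J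

/-- odd + irreducible ⟹ absolutely irreducible -/
theorem absIrr_of_attached {p : ℕ} [Fact p.Prime] (hp2 : p ≠ 2) {O : Type} [CommRing O]
    [IsLocalRing O] [IsNoetherianRing O] (hpO : (p : O) ∈ maximalIdeal O) (S : Finset ℕ)
    (lam : ℕ → O) (ρ : GaloisRepAdic O) (hρ : IsAttached S lam ρ)
    (hirr : ρ.residual.IsIrreducible) : ρ.residual.IsAbsolutelyIrreducible :=
  Fermat.Agent.H87.AbsIrr.isAbsolutelyIrreducible_of_involution (two_ne_zero_residue hp2 hpO) _ hirr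
    complexConjugation complexConjugation_mul_self
    (det_residual_complexConjugation hpO S lam ρ hρ)

/-! ### Point form -/

section Main

variable {p : ℕ} [Fact p.Prime] {S : Finset ℕ}
    {𝒪' : Type} [CommRing 𝒪'] [IsDomain 𝒪'] [IsDiscreteValuationRing 𝒪']
    [IsAdicComplete (IsLocalRing.maximalIdeal 𝒪') 𝒪'] [Finite (IsLocalRing.ResidueField 𝒪')]
    [CharZero 𝒪']

/-- unramified at `q ∤ L`, from a class in `Hom(Γ₀(L), 𝒪')` -/
theorem IsEigHom.isUnramified (hp2 : p ≠ 2) (hpS : p ∈ S)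
    (hp𝒪' : (p : 𝒪') ∈ IsLocalRing.maximalIdeal 𝒪')
    {lam : ℕ → 𝒪'} (ρ : GaloisRepAdic 𝒪') (hρ : IsAttached S lam ρ)
    (hirr : ρ.residual.IsIrreducible) {L : ℕ} [NeZero L]
    (hLS : ∀ q : ℕ, q.Prime → q ∣ L → q ∈ S)
    {φ : Additive (Gamma0 L) →+ 𝒪'} (hT : IsEigHom L S lam φ) (hφ : φ ≠ 0)
    {q : ℕ} (hq : q.Prime) (hqp : q ≠ p) (hqL : ¬ q ∣ L) :
    ρ.IsUnramifiedAt q := by
  letI : Algebra ℤ_[p] 𝒪' := (padicToAdic 𝒪' hp𝒪').toAlgebra
  have hinj : Function.Injective (algebraMap ℤ_[p] 𝒪') := padicToAdic_injective 𝒪' hp𝒪'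
  have hPE := hT.isPE hp2 hp𝒪' ρ hρ hirr
  exact unramified_JZero hpS hLS hp𝒪' (hT.isEigJ hinj hPE) (thetaJ_symm_ne_zero hinj hPE hφ)
    hq hqp hqL ρ hρ (absIrr_of_attached hp2 hp𝒪' S lam ρ hρ hirr)

/-- the characteristic polynomial of Frobenius at `q ∤ L`, `q ∈ S` allowed -/
theorem IsEigHom.charpoly_frobenius (hp2 : p ≠ 2) (hpS : p ∈ S)
    (hp𝒪' : (p : 𝒪') ∈ IsLocalRing.maximalIdeal 𝒪')
    {lam : ℕ → 𝒪'} (ρ : GaloisRepAdic 𝒪') (hρ : IsAttached S lam ρ)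
    (hirr : ρ.residual.IsIrreducible) {L : ℕ} [NeZero L]
    (hLS : ∀ q : ℕ, q.Prime → q ∣ L → q ∈ S)
    {φ : Additive (Gamma0 L) →+ 𝒪'} (hT : IsEigHom L S lam φ) (hφ : φ ≠ 0)
    {q : ℕ} [hq : Fact q.Prime] (hqp : q ≠ p) (hqL : ¬ q ∣ L) {μ : 𝒪'}
    (hμ : heckeHom hqL φ = μ • φ)
    {A : ValuationSubring (AlgebraicClosure ℚ)} (hA : A.LiesOverPrime q)
    {σ : H53.GQ} (hσ : A.IsFrobeniusAt σ q) :
    LinearMap.charpoly (ρ.ρ σ) = X ^ 2 - C μ * X + C ((q : 𝒪')) := by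
  letI : Algebra ℤ_[p] 𝒪' := (padicToAdic 𝒪' hp𝒪').toAlgebra
  have hinj : Function.Injective (algebraMap ℤ_[p] 𝒪') := padicToAdic_injective 𝒪' hp𝒪'
  have hPE := hT.isPE hp2 hp𝒪' ρ hρ hirr
  refine charpoly_good_JZero hpS hLS hp𝒪' (hT.isEigJ hinj hPE)
    (thetaJ_symm_ne_zero hinj hPE hφ) hq.out hqp hqL ?_ ρ hρ hA hσ
  apply (thetaJ (p := p) L hinj).injective
  apply Subtype.ext
  have h1 := thetaJ_hecke (p := p) hinj (N := L) (ℓ := q) hqL
    ((thetaJ (p := p) L hinj).symm ⟨φ, hPE⟩)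
  refine h1.trans ?_
  rw [map_smul, LinearEquiv.apply_symm_apply]
  exact hμ

variable {K₁ : Type} [Field K₁] [Algebra 𝒪' K₁] [IsFractionRing 𝒪' K₁]

/-- **(EA d)**: `ρ` is unramified at `q ∤ M`. -/
theorem EAd (hp2 : p ≠ 2) (hpS : p ∈ S)
    (hp𝒪' : (p : 𝒪') ∈ IsLocalRing.maximalIdeal 𝒪')
    {N' M : ℕ} (hsq : Squarefree N') (hM0 : 0 < M)
    (hex : ∀ r : ℕ, r.Prime → r ∣ N' → ¬ r * r ∣ M) (hM : N' ∣ M)
    (hMS : ∀ r : ℕ, r.Prime → r ∣ M → r ∈ S)
    (η ψ : (ZMod N')ˣ →* K₁ˣ) (hψ : ψ = η ^ 2) {m : ℕ} (hm : Odd m) (hη : η ^ m = 1)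
    {lam : ℕ → 𝒪'} (ρ : GaloisRepAdic 𝒪') (hρ : IsAttached S lam ρ)
    (hirr : ρ.residual.IsIrreducible)
    {y : H1 (gam N' M hM) (psiRep ψ K₁)} (hy : y ≠ 0) (hT : IsEigTw hM S lam η ψ y)
    {q : ℕ} (hq : q.Prime) (hqp : q ≠ p) (hqM : ¬ q ∣ M) :
    ρ.IsUnramifiedAt q := by
  haveI : CharZero K₁ := charZero_of_injective_algebraMap (IsFractionRing.injective 𝒪' K₁)
  have hN'0 : 0 < N' := Nat.pos_of_ne_zero (fun h => not_squarefree_zero (h ▸ hsq))
  haveI : NeZero (M * N') := ⟨(Nat.mul_pos hM0 hN'0).ne'⟩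
  obtain ⟨E, hE⟩ := exists_emb (K := K₁) hsq hM0 hex hM (L := M * N') rfl ψ η hψ hm hη
  obtain ⟨φ, hφ0, hφT, -⟩ := exists_isEigHom (O := 𝒪') (K := K₁)
    (L := M * N') (S := S) (lam := lam) (y := E y)
    (fun h => hy (hE.inj (h.trans (map_zero E).symm)))
    (hT.twEmb (Dvd.intro N' rfl) hE)
  exact hφT.isUnramified hp2 hpS hp𝒪' ρ hρ hirr
    (fun r hr hrL => hMS r hr ((hr.dvd_mul.mp hrL).elim id (fun h => h.trans hM)))
    hφ0 hq hqp (fun h => hqM ((hq.dvd_mul.mp h).elim id (fun h => h.trans hM)))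

/-- **(EA e)**: the characteristic polynomial of Frobenius at `q ∤ M`, `q ∈ S` allowed. -/
theorem EAe (hp2 : p ≠ 2) (hpS : p ∈ S)
    (hp𝒪' : (p : 𝒪') ∈ IsLocalRing.maximalIdeal 𝒪')
    {N' M : ℕ} (hsq : Squarefree N') (hM0 : 0 < M)
    (hex : ∀ r : ℕ, r.Prime → r ∣ N' → ¬ r * r ∣ M) (hM : N' ∣ M)
    (hMS : ∀ r : ℕ, r.Prime → r ∣ M → r ∈ S)
    (η ψ : (ZMod N')ˣ →* K₁ˣ) (hψ : ψ = η ^ 2) {m : ℕ} (hm : Odd m) (hη : η ^ m = 1)
    {lam : ℕ → 𝒪'} (ρ : GaloisRepAdic 𝒪') (hρ : IsAttached S lam ρ)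
    (hirr : ρ.residual.IsIrreducible)
    {y : H1 (gam N' M hM) (psiRep ψ K₁)} (hy : y ≠ 0) (hT : IsEigTw hM S lam η ψ y)
    {q : ℕ} (hq : q.Prime) (hqp : q ≠ p) (hqM : ¬ q ∣ M) (hc : q.Coprime N') {μ : 𝒪'}
    (hμ : (tFam hM hq hqM).opH (psiRep ψ K₁) y =
      (((η (ZMod.unitOfCoprime q hc) : K₁ˣ) : K₁) * algebraMap 𝒪' K₁ μ) • y)
    {A : ValuationSubring (AlgebraicClosure ℚ)} (hA : A.LiesOverPrime q)
    {σ : H53.GQ} (hσ : A.IsFrobeniusAt σ q) :
    LinearMap.charpoly (ρ.ρ σ) = X ^ 2 - C μ * X + C ((q : 𝒪')) := by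
  classical
  haveI : CharZero K₁ := charZero_of_injective_algebraMap (IsFractionRing.injective 𝒪' K₁)
  have hN'0 : 0 < N' := Nat.pos_of_ne_zero (fun h => not_squarefree_zero (h ▸ hsq))
  haveI : NeZero (M * N') := ⟨(Nat.mul_pos hM0 hN'0).ne'⟩
  haveI : Fact q.Prime := ⟨hq⟩
  -- the eigensystem extended to `q`
  set lam' : ℕ → 𝒪' := Function.update lam q μ with hlam'
  have hT' : IsEigTw hM (S.erase q) lam' η ψ y := by
    intro ℓ hℓ hℓM hc' hℓS
    by_cases hℓq : ℓ = q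
    · subst hℓq
      rw [hlam', Function.update_self]
      exact hμ
    · rw [hlam', Function.update_of_ne hℓq]
      exact hT ℓ hℓ hℓM hc' (fun h => hℓS (Finset.mem_erase.mpr ⟨hℓq, h⟩))
  obtain ⟨E, hE⟩ := exists_emb (K := K₁) hsq hM0 hex hM (L := M * N') rfl ψ η hψ hm hη
  obtain ⟨φ, hφ0, hφT, -⟩ := exists_isEigHom (O := 𝒪') (K := K₁)
    (L := M * N') (S := S.erase q) (lam := lam') (y := E y)
    (fun h => hy (hE.inj (h.trans (map_zero E).symm)))
    (hT'.twEmb (Dvd.intro N' rfl) hE)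
  have hqL : ¬ q ∣ M * N' := fun h => hqM ((hq.dvd_mul.mp h).elim id (fun h => h.trans hM))
  by_cases hqS : q ∈ S
  · have hφT1 : IsEigHom (M * N') S lam φ := by
      intro ℓ _ hℓL hℓS
      have h1 := hφT ℓ hℓL (fun h => hℓS (Finset.mem_of_mem_erase h))
      have hℓq : ℓ ≠ q := fun h => hℓS (h ▸ hqS)
      rwa [hlam', Function.update_of_ne hℓq] at h1
    have hφq : heckeHom hqL φ = μ • φ := by
      have h1 := hφT q hqL (Finset.notMem_erase q S)
      rwa [hlam', Function.update_self] at h1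
    exact hφT1.charpoly_frobenius hp2 hpS hp𝒪' ρ hρ hirr
      (fun r hr hrL => hMS r hr ((hr.dvd_mul.mp hrL).elim id (fun h => h.trans hM)))
      hφ0 hqp hqL hφq hA hσ
  · -- `q ∉ S`: `μ = lam q`
    have h1 := hT q hq hqM hc hqS
    rw [hμ] at h1
    have h2 : algebraMap 𝒪' K₁ μ = algebraMap 𝒪' K₁ (lam q) := by
      have h3 := sub_eq_zero.mpr h1
      rw [← sub_smul, smul_eq_zero] at h3
      have h4 := h3.resolve_right hy
      rw [← mul_sub] at h4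
      exact sub_eq_zero.mp ((mul_eq_zero.mp h4).resolve_left (Units.ne_zero _))
    have h5 : μ = lam q := IsFractionRing.injective 𝒪' K₁ h2
    rw [h5]
    exact hρ q hq hqS A hA σ hσ

end Main

end Fermat.Agent.H4

end
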