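import Mathlib
import Fermat.Agent.H4EAD
import Fermat.Agent.H32BLR

/-!
# Realisations of attached representations in `𝒪' ⊗ T_p J₀(L)` (MODLIFT / S59, helper4)

* `exists_realisation` : an eigenvector in a Galois stable subspace gives an injective equivariant
  map `ρ.V → 𝒪' ⊗ T_p J₀(N)` with image in that subspace;
* `ordP_good` (F1) : point form at a level `M` prime to `p`, with `T_p = μ`;
* `ordP_new` (F2) : point form at a level `M₀ p`, both traces zero, with `w_p = -s`, `s = ±1`.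
-/

set_option autoImplicit false
set_option linter.style.haveILetI false
set_option linter.unusedSectionVars false

noncomputable section

open IsLocalRing Module TensorProduct Polynomial CongruenceSubgroup CuspForm ModularCurve
  AlgebraicCurve Fermat.Agent.H31 Fermat.Agent.H30 Fermat.Agent.H35 Fermat.Agent.H67
  Fermat.Agent.H62 Fermat.Agent.H94.BR Fermat.Agent.H70.Coh Fermat.Agent.H21J

namespace Fermat.Agent.H4

/-- Equivariant embeddings from the quadratic relation. -/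
theorem exists_equivariant_embedding {A : Type*} [CommRing A] [IsDomain A] {G : Type*} [Group G]
    {V X : Type*} [AddCommGroup V] [Module A V] [AddCommGroup X] [Module A X]
    (hX : ∀ (a : A) (x : X), a • x = 0 → a = 0 ∨ x = 0) (b : Module.Basis (Fin 2) A V)
    (ρ : G →* Module.End A V) (hspan : Submodule.span A (Set.range ρ) = ⊤)
    (σX : G →* Module.End A X) (E : Submodule A X) (hstab : ∀ g, ∀ x ∈ E, σX g x ∈ E)
    {w : X} (hw : w ∈ E) (hw0 : w ≠ 0)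
    (hquad : ∀ g, ∀ x ∈ E, σX g (σX g x) - LinearMap.trace A V (ρ g) • σX g x +
      LinearMap.det (ρ g) • x = 0) :
    ∃ Φ : V →ₗ[A] X, Function.Injective Φ ∧ (∀ g x, Φ (ρ g x) = σX g (Φ x)) ∧
      ∀ x, Φ x ∈ E := by
  let μ : G →* Module.End A E :=
    { toFun := fun g => (σX g).restrict (fun x hx => hstab g x hx)
      map_one' := LinearMap.ext fun x => Subtype.ext (by
        rw [LinearMap.coe_restrict_apply, map_one]; rfl)
      map_mul' := fun g h => LinearMap.ext fun x => Subtype.ext (by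
        rw [LinearMap.coe_restrict_apply, map_mul]; rfl) }
  have hμ : ∀ g (x : E), ((μ g x : E) : X) = σX g x := fun g x => rfl
  have hQ : H32.Quadratic ρ μ := by
    intro g
    refine LinearMap.ext fun x => Subtype.ext ?_
    exact hquad g x x.2
  obtain ⟨M₀, e, he, -⟩ := H32.exists_equiv_tensor_of_quadratic ρ μ b hspan hQ
  obtain ⟨m, hm0⟩ : ∃ m : M₀, m ≠ 0 := by
    by_contra hcon
    push Not at hcon
    have h1 : ∀ x : V ⊗[A] M₀, x = 0 := by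
      intro x
      induction x using TensorProduct.induction_on with
      | zero => rfl
      | tmul v m => rw [hcon m, TensorProduct.tmul_zero]
      | add x y hx hy => rw [hx, hy, add_zero]
    have h2 : (⟨w, hw⟩ : E) = 0 := by
      rw [← e.apply_symm_apply ⟨w, hw⟩, h1 (e.symm ⟨w, hw⟩), map_zero]
    exact hw0 (congrArg Subtype.val h2)
  have hinj : ∀ a : A, a • m = 0 → a = 0 := by
    intro a ha
    have h1 : a • (((m : E) : X)) = 0 := congrArg (fun z : M₀ => ((z : E) : X)) ha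
    exact (hX _ _ h1).resolve_right (fun h => hm0 (Subtype.ext (Subtype.ext h)))
  let Φ : V →ₗ[A] X :=
    E.subtype ∘ₗ e.toLinearMap ∘ₗ ((TensorProduct.mk A V M₀).flip m)
  have hΦ : ∀ v, Φ v = ((e (v ⊗ₜ[A] m) : E) : X) := fun v => rfl
  let c : ∀ i : Fin 2, V ⊗[A] M₀ →ₗ[A] M₀ := fun i =>
    (TensorProduct.lid A M₀).toLinearMap ∘ₗ (LinearMap.rTensor M₀ (b.coord i))
  have hc : ∀ i (v : V), c i (v ⊗ₜ m) = b.coord i v • m := fun i v => by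
    simp only [c, LinearMap.comp_apply, LinearMap.rTensor_tmul, LinearEquiv.coe_coe,
      TensorProduct.lid_tmul]
  refine ⟨Φ, ?_, ?_, ?_⟩
  · rw [injective_iff_map_eq_zero]
    intro v hv
    have h1 : v ⊗ₜ[A] m = 0 := by
      apply e.injective
      rw [map_zero]
      exact Subtype.ext hv
    apply b.repr.injective
    rw [map_zero]
    ext i
    have h2 := congrArg (c i) h1
    rw [hc, map_zero] at h2
    exact hinj _ h2
  · intro g v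
    rw [hΦ, hΦ]
    have h1 := he g (v ⊗ₜ[A] m)
    rw [LinearMap.rTensor_tmul] at h1
    rw [h1, hμ]
  · intro v
    exact (e (v ⊗ₜ[A] m)).2

/-! ### Abstract realisations -/

section Abs

variable {p : ℕ} [Fact p.Prime] {𝒪' : Type} [CommRing 𝒪'] [IsDomain 𝒪'] [Algebra ℤ_[p] 𝒪']
  {T : Type*} [AddCommGroup T] [Module ℤ_[p] T] {T₁ : Type*} [AddCommGroup T₁] [Module ℤ_[p] T₁]
  {G : Type*} [Group G]

/-- The action on `𝒪' ⊗ T`. -/
def actB (𝒪' : Type) [CommRing 𝒪'] [Algebra ℤ_[p] 𝒪'] (μ : G →* Module.End ℤ_[p] T) :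
    G →* Module.End 𝒪' (𝒪' ⊗[ℤ_[p]] T) where
  toFun g := (μ g).baseChange 𝒪'
  map_one' := by rw [map_one, LinearMap.baseChange_one]
  map_mul' g h := by rw [map_mul, LinearMap.baseChange_mul]

theorem baseChange_commute {f g : Module.End ℤ_[p] T} (h : Commute f g) (x : 𝒪' ⊗[ℤ_[p]] T) :
    f.baseChange 𝒪' (g.baseChange 𝒪' x) = g.baseChange 𝒪' (f.baseChange 𝒪' x) := by
  rw [← LinearMap.comp_apply, ← LinearMap.comp_apply, ← LinearMap.baseChange_comp,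
    ← LinearMap.baseChange_comp]
  exact congrArg (fun F : Module.End ℤ_[p] T => F.baseChange 𝒪' x) h.eq

theorem smul_neg_one_aux {R M : Type*} [CommRing R] [AddCommGroup M] [Module R M] {x y : M}
    (h : x + y = 0) : y = ((-1 : ℤ) : R) • x := by
  rw [Int.cast_neg, Int.cast_one, neg_smul, one_smul]
  exact eq_neg_of_add_eq_zero_right h

theorem quad_aux {R M : Type*} [CommRing R] [AddCommGroup M] [Module R M] {t d t' d' : R}
    {a b c : M} (h : a - t • b + d • c = 0) (ht : t' = t) (hd : d' = d) :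
    a - t' • b + d' • c = 0 := by
  rw [ht, hd, h]

theorem baseChange_intertwine {f : T →ₗ[ℤ_[p]] T₁} {g : Module.End ℤ_[p] T}
    {g' : Module.End ℤ_[p] T₁} (h : ∀ x, f (g x) = g' (f x)) (x : 𝒪' ⊗[ℤ_[p]] T) :
    f.baseChange 𝒪' (g.baseChange 𝒪' x) = g'.baseChange 𝒪' (f.baseChange 𝒪' x) := by
  rw [← LinearMap.comp_apply, ← LinearMap.comp_apply, ← LinearMap.baseChange_comp,
    ← LinearMap.baseChange_comp]
  congr 2
  exact LinearMap.ext h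

/-- The common eigenspace of a family of operators. -/
def famEig {ι : Type*} (F : ι → Module.End ℤ_[p] T) (c : ι → 𝒪') :
    Submodule 𝒪' (𝒪' ⊗[ℤ_[p]] T) where
  carrier := {v | ∀ i, (F i).baseChange 𝒪' v = c i • v}
  add_mem' := fun {x y} hx hy i => by rw [map_add, hx i, hy i, smul_add]
  zero_mem' := fun i => by rw [map_zero, smul_zero]
  smul_mem' := fun a x hx i => by rw [map_smul, hx i, smul_comm]

theorem mem_famEig {ι : Type*} {F : ι → Module.End ℤ_[p] T} {c : ι → 𝒪'}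
    {v : 𝒪' ⊗[ℤ_[p]] T} : v ∈ famEig F c ↔ ∀ i, (F i).baseChange 𝒪' v = c i • v := Iff.rfl

theorem commute_mem_famEig {ι : Type*} {F : ι → Module.End ℤ_[p] T} {c : ι → 𝒪'}
    {g : Module.End ℤ_[p] T} (hg : ∀ i, Commute (F i) g)
    {v : 𝒪' ⊗[ℤ_[p]] T} (hv : v ∈ famEig F c) : g.baseChange 𝒪' v ∈ famEig F c := by
  intro i
  rw [baseChange_commute (hg i), hv i, map_smul]

/-- an eigenvector satisfying the quadratic relations, in a stable subspace -/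
theorem exists_embedding_abs (hX : ∀ (a : 𝒪') (x : 𝒪' ⊗[ℤ_[p]] T), a • x = 0 → a = 0 ∨ x = 0)
    {V : Type*} [AddCommGroup V] [Module 𝒪' V] (b : Module.Basis (Fin 2) 𝒪' V)
    (ρ : G →* Module.End 𝒪' V) (hspan : Submodule.span 𝒪' (Set.range ρ) = ⊤)
    (μ : G →* Module.End ℤ_[p] T) (C : Submodule 𝒪' (𝒪' ⊗[ℤ_[p]] T))
    (hC : ∀ g, ∀ x ∈ C, (μ g).baseChange 𝒪' x ∈ C)
    (hquad : ∀ g, ∀ x ∈ C, x ≠ 0 → (μ g).baseChange 𝒪' ((μ g).baseChange 𝒪' x) -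
      LinearMap.trace 𝒪' V (ρ g) • (μ g).baseChange 𝒪' x + LinearMap.det (ρ g) • x = 0)
    (E : Submodule 𝒪' (𝒪' ⊗[ℤ_[p]] T)) (hE : ∀ g, ∀ x ∈ E, (μ g).baseChange 𝒪' x ∈ E)
    {v : 𝒪' ⊗[ℤ_[p]] T} (hvC : v ∈ C) (hvE : v ∈ E) (hv0 : v ≠ 0) :
    ∃ Φ : V →ₗ[𝒪'] 𝒪' ⊗[ℤ_[p]] T, Function.Injective Φ ∧
      (∀ g x, Φ (ρ g x) = (μ g).baseChange 𝒪' (Φ x)) ∧ ∀ x, Φ x ∈ E := by
  obtain ⟨Φ, h1, h2, h3⟩ := exists_equivariant_embedding hX b ρ hspan (actB 𝒪' μ) (E ⊓ C)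
    (fun g x hx => ⟨hE g x hx.1, hC g x hx.2⟩) ⟨hvE, hvC⟩ hv0
    (fun g x hx => by
      by_cases hx0 : x = 0
      · subst hx0
        simp only [map_zero, smul_zero, sub_zero, add_zero]
      · exact hquad g x hx.2 hx0)
  exact ⟨Φ, h1, h2, fun x => (h3 x).1⟩

/-- the version with an eigenvalue of a commuting operator -/
theorem exists_embedding_eigen
    (hX : ∀ (a : 𝒪') (x : 𝒪' ⊗[ℤ_[p]] T), a • x = 0 → a = 0 ∨ x = 0)
    {V : Type*} [AddCommGroup V] [Module 𝒪' V] (b : Module.Basis (Fin 2) 𝒪' V)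
    (ρ : G →* Module.End 𝒪' V) (hspan : Submodule.span 𝒪' (Set.range ρ) = ⊤)
    (μ : G →* Module.End ℤ_[p] T) (C : Submodule 𝒪' (𝒪' ⊗[ℤ_[p]] T))
    (hC : ∀ g, ∀ x ∈ C, (μ g).baseChange 𝒪' x ∈ C)
    (hquad : ∀ g, ∀ x ∈ C, x ≠ 0 → (μ g).baseChange 𝒪' ((μ g).baseChange 𝒪' x) -
      LinearMap.trace 𝒪' V (ρ g) • (μ g).baseChange 𝒪' x + LinearMap.det (ρ g) • x = 0)
    (U : Module.End ℤ_[p] T) (hU : ∀ g, Commute U (μ g)) {c : 𝒪'}
    {v : 𝒪' ⊗[ℤ_[p]] T} (hvC : v ∈ C) (hv0 : v ≠ 0) (hvU : U.baseChange 𝒪' v = c • v) :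
    ∃ Φ : V →ₗ[𝒪'] 𝒪' ⊗[ℤ_[p]] T, Function.Injective Φ ∧
      (∀ g x, Φ (ρ g x) = (μ g).baseChange 𝒪' (Φ x)) ∧
      ∀ x, U.baseChange 𝒪' (Φ x) = c • Φ x := by
  let E : Submodule 𝒪' (𝒪' ⊗[ℤ_[p]] T) :=
    LinearMap.eqLocus (U.baseChange 𝒪') (c • LinearMap.id)
  have hE : ∀ x, x ∈ E ↔ U.baseChange 𝒪' x = c • x := fun x => Iff.rfl
  obtain ⟨Φ, h1, h2, h3⟩ := exists_embedding_abs hX b ρ hspan μ C hC hquad E
    (by
      intro g x hx
      rw [hE] at hx ⊢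
      rw [baseChange_commute (hU g), hx, map_smul]) hvC ((hE v).mpr hvU) hv0
  exact ⟨Φ, h1, h2, fun x => (hE _).mp (h3 x)⟩

/-- the version with two push-forwards and an involution -/
theorem exists_embedding_new [CharZero 𝒪']
    (hX : ∀ (a : 𝒪') (x : 𝒪' ⊗[ℤ_[p]] T), a • x = 0 → a = 0 ∨ x = 0)
    {V : Type*} [AddCommGroup V] [Module 𝒪' V] (b : Module.Basis (Fin 2) 𝒪' V)
    (ρ : G →* Module.End 𝒪' V) (hspan : Submodule.span 𝒪' (Set.range ρ) = ⊤)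
    (μ : G →* Module.End ℤ_[p] T) (C : Submodule 𝒪' (𝒪' ⊗[ℤ_[p]] T))
    (hC : ∀ g, ∀ x ∈ C, (μ g).baseChange 𝒪' x ∈ C)
    (hquad : ∀ g, ∀ x ∈ C, x ≠ 0 → (μ g).baseChange 𝒪' ((μ g).baseChange 𝒪' x) -
      LinearMap.trace 𝒪' V (ρ g) • (μ g).baseChange 𝒪' x + LinearMap.det (ρ g) • x = 0)
    (μ₁ : G → Module.End ℤ_[p] T₁) (P1 Pq : T →ₗ[ℤ_[p]] T₁) (W : Module.End ℤ_[p] T)
    (hP1 : ∀ g x, P1 (μ g x) = μ₁ g (P1 x)) (hPq : ∀ g x, Pq (μ g x) = μ₁ g (Pq x))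
    (hWg : ∀ g, Commute W (μ g)) (hWW : W * W = 1)
    (hP1W : P1 ∘ₗ W = Pq) (hPqW : Pq ∘ₗ W = P1)
    (hWC : ∀ x ∈ C, W.baseChange 𝒪' x ∈ C)
    {v : 𝒪' ⊗[ℤ_[p]] T} (hvC : v ∈ C) (hv0 : v ≠ 0)
    (h1 : P1.baseChange 𝒪' v = 0) (h2 : Pq.baseChange 𝒪' v = 0) :
    ∃ s : ℤ, (s = 1 ∨ s = -1) ∧
      ∃ Φ : V →ₗ[𝒪'] 𝒪' ⊗[ℤ_[p]] T, Function.Injective Φ ∧
      (∀ g x, Φ (ρ g x) = (μ g).baseChange 𝒪' (Φ x)) ∧
      (∀ x, P1.baseChange 𝒪' (Φ x) = 0) ∧ (∀ x, Pq.baseChange 𝒪' (Φ x) = 0) ∧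
      ∀ x, W.baseChange 𝒪' (Φ x) = ((-s : ℤ) : 𝒪') • Φ x := by
  have hWWv : ∀ x, W.baseChange 𝒪' (W.baseChange 𝒪' x) = x := by
    intro x
    rw [← LinearMap.comp_apply, ← LinearMap.baseChange_comp, ← Module.End.mul_eq_comp, hWW,
      LinearMap.baseChange_one]
    rfl
  have hbc1 : ∀ x, P1.baseChange 𝒪' (W.baseChange 𝒪' x) = Pq.baseChange 𝒪' x := by
    intro x
    rw [← LinearMap.comp_apply, ← LinearMap.baseChange_comp, hP1W]
  have hbcq : ∀ x, Pq.baseChange 𝒪' (W.baseChange 𝒪' x) = P1.baseChange 𝒪' x := by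
    intro x
    rw [← LinearMap.comp_apply, ← LinearMap.baseChange_comp, hPqW]
  obtain ⟨s, hs, u, hu0, huC, hu1, huq, huW⟩ : ∃ s : ℤ, (s = 1 ∨ s = -1) ∧
      ∃ u : 𝒪' ⊗[ℤ_[p]] T, u ≠ 0 ∧ u ∈ C ∧
        P1.baseChange 𝒪' u = 0 ∧ Pq.baseChange 𝒪' u = 0 ∧
        W.baseChange 𝒪' u = ((-s : ℤ) : 𝒪') • u := by
    by_cases h : v + W.baseChange 𝒪' v = 0
    · exact ⟨1, Or.inl rfl, v, hv0, hvC, h1, h2, smul_neg_one_aux h⟩
    · refine ⟨-1, Or.inr rfl, v + W.baseChange 𝒪' v, h, C.add_mem hvC (hWC v hvC), ?_, ?_, ?_⟩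
      · rw [map_add, hbc1, h1, h2, add_zero]
      · rw [map_add, hbcq, h1, h2, add_zero]
      · rw [map_add, hWWv, neg_neg, Int.cast_one, one_smul, add_comm]
  let E : Submodule 𝒪' (𝒪' ⊗[ℤ_[p]] T) :=
    LinearMap.ker (P1.baseChange 𝒪') ⊓ (LinearMap.ker (Pq.baseChange 𝒪') ⊓
      LinearMap.eqLocus (W.baseChange 𝒪') ((((-s : ℤ) : 𝒪')) • LinearMap.id))
  have hE : ∀ x, x ∈ E ↔ P1.baseChange 𝒪' x = 0 ∧ Pq.baseChange 𝒪' x = 0 ∧
      W.baseChange 𝒪' x = ((-s : ℤ) : 𝒪') • x := fun x => Iff.rfl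
  obtain ⟨Φ, e1, e2, e3⟩ := exists_embedding_abs hX b ρ hspan μ C hC hquad E
    (by
      intro g x hx
      rw [hE] at hx ⊢
      obtain ⟨f1, f2, f3⟩ := hx
      refine ⟨?_, ?_, ?_⟩
      · rw [baseChange_intertwine (hP1 g), f1, map_zero]
      · rw [baseChange_intertwine (hPq g), f2, map_zero]
      · rw [baseChange_commute (hWg g), f3, map_smul]) huC ((hE u).mpr ⟨hu1, huq, huW⟩) hu0
  exact ⟨s, hs, Φ, e1, e2, fun x => ((hE _).mp (e3 x)).1, fun x => ((hE _).mp (e3 x)).2.1,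
    fun x => ((hE _).mp (e3 x)).2.2⟩

end Abs

/-! ### `J₀(N)` -/

section J

variable {p : ℕ} [Fact p.Prime] {S : Finset ℕ}
    {𝒪' : Type} [CommRing 𝒪'] [IsDomain 𝒪'] [IsDiscreteValuationRing 𝒪']
    [IsAdicComplete (IsLocalRing.maximalIdeal 𝒪') 𝒪'] [Finite (IsLocalRing.ResidueField 𝒪')]
    [CharZero 𝒪'] [Algebra ℤ_[p] 𝒪']

/-- the Hecke operator on the Tate module commutes with the Galois action -/
theorem commute_hecke_galTate {N : ℕ} [NeZero N] {q : ℕ} (hq : q.Prime) (σ : H53.GQ) :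
    Commute (tateMap (p := p) (heckeOperatorBar N ⟨q, hq⟩) : Module.End ℤ_[p] (TateMod p (JZero N)))
      (galTate p (JZero N) σ) := by
  letI := heckeModuleBar N
  haveI := (jzeroInputs N).comm
  have h := heckeTate_commute (p := p) (J := JZero N) (heckeGen ⟨q, hq⟩) σ
  have h2 : heckeTate p (JZero N) (heckeGen ⟨q, hq⟩) =
      tateMap (p := p) (heckeOperatorBar N ⟨q, hq⟩) := by
    refine LinearMap.ext fun x => ?_
    ext n
    rw [proj_heckeTate, proj_tateMap]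
    exact heckeModuleBar_heckeGen_smul (heckeOperatorsCommuteBar N) ⟨q, hq⟩ _
  rwa [h2] at h

/-- The Hecke operators outside `S` as a family. -/
def heckeF (p : ℕ) [Fact p.Prime] (N : ℕ) [NeZero N] (S : Finset ℕ) :
    {ℓ : Nat.Primes // ¬ (ℓ : ℕ) ∣ N ∧ (ℓ : ℕ) ∉ S} → Module.End ℤ_[p] (TateMod p (JZero N)) :=
  fun ℓ => tateMap (p := p) (heckeOperatorBar N ℓ.1)

/-- The common eigenspace of the Hecke operators outside `S` (as a submodule). -/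
abbrev eigSub (𝒪' : Type) [CommRing 𝒪'] (p : ℕ) [Fact p.Prime] [Algebra ℤ_[p] 𝒪'] (N : ℕ)
    [NeZero N] (S : Finset ℕ) (lam : ℕ → 𝒪') : Submodule 𝒪' (𝒪' ⊗[ℤ_[p]] TateMod p (JZero N)) :=
  famEig (heckeF p N S) (fun ℓ => lam (ℓ.1 : ℕ))

theorem mem_eigSub {N : ℕ} [NeZero N] {lam : ℕ → 𝒪'} {v : 𝒪' ⊗[ℤ_[p]] TateMod p (JZero N)} :
    v ∈ eigSub 𝒪' p N S lam ↔ IsEigJ p N S lam v :=
  ⟨fun h ℓ h1 h2 => h ⟨ℓ, h1, h2⟩, fun h ℓ => h ℓ.1 ℓ.2.1 ℓ.2.2⟩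

theorem gal_mem_eigSub {N : ℕ} [NeZero N] {lam : ℕ → 𝒪'} (g : H53.GQ)
    {v : 𝒪' ⊗[ℤ_[p]] TateMod p (JZero N)} (hv : v ∈ eigSub 𝒪' p N S lam) :
    (galTate p (JZero N) g).baseChange 𝒪' v ∈ eigSub 𝒪' p N S lam :=
  commute_mem_famEig (fun ℓ => commute_hecke_galTate ℓ.1.2 g) hv

/-- the quadratic relation on the eigenspace -/
theorem quad_eigSub {N : ℕ} [NeZero N] (hpS : p ∈ S) (hNS : ∀ q : ℕ, q.Prime → q ∣ N → q ∈ S)
    (hp𝒪' : (p : 𝒪') ∈ IsLocalRing.maximalIdeal 𝒪') {lam : ℕ → 𝒪'}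
    (ρ : GaloisRepAdic 𝒪') (hρ : IsAttached S lam ρ) (g : H53.GQ)
    {v : 𝒪' ⊗[ℤ_[p]] TateMod p (JZero N)} (hv : v ∈ eigSub 𝒪' p N S lam) (hv0 : v ≠ 0) :
    (galTate p (JZero N) g).baseChange 𝒪' ((galTate p (JZero N) g).baseChange 𝒪' v)
      - LinearMap.trace 𝒪' ρ.V (ρ.ρ g) • (galTate p (JZero N) g).baseChange 𝒪' v
      + LinearMap.det (ρ.ρ g) • v = 0 := by
  obtain ⟨t, ht, h⟩ := trace_JZero hpS hNS hp𝒪' (mem_eigSub.mp hv) hv0 ρ hρ g
  exact quad_aux ht (Fermat.Agent.H31.trace_eq_of_charpoly ρ.finrank_eq (ρ.ρ g) _ _ h)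
    (Fermat.Agent.H31.det_eq_of_charpoly ρ.finrank_eq (ρ.ρ g) _ _ h)

/-- **(F1)**, `J`-level: `T_q = μ` on the eigenvector. -/
theorem exists_realisation_good {N : ℕ} [NeZero N] (hpS : p ∈ S)
    (hNS : ∀ q : ℕ, q.Prime → q ∣ N → q ∈ S)
    (hp𝒪' : (p : 𝒪') ∈ IsLocalRing.maximalIdeal 𝒪') {lam : ℕ → 𝒪'}
    {v : 𝒪' ⊗[ℤ_[p]] TateMod p (JZero N)} (hv : IsEigJ p N S lam v) (hv0 : v ≠ 0)
    (ρ : GaloisRepAdic 𝒪') (hρ : IsAttached S lam ρ) (habs : ρ.residual.IsAbsolutelyIrreducible)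
    {q : ℕ} (hq : q.Prime) {μ : 𝒪'}
    (hμ : (tateMap (p := p) (heckeOperatorBar N ⟨q, hq⟩)).baseChange 𝒪' v = μ • v) :
    ∃ Φ : ρ.V →ₗ[𝒪'] 𝒪' ⊗[ℤ_[p]] TateMod p (JZero N), Function.Injective Φ ∧
      (∀ g x, Φ (ρ.ρ g x) = (galTate p (JZero N) g).baseChange 𝒪' (Φ x)) ∧
      ∀ x, (tateMap (p := p) (heckeOperatorBar N ⟨q, hq⟩)).baseChange 𝒪' (Φ x) = μ • Φ x :=
  exists_embedding_eigen (fun _ _ h => smul_eq_zero_tate h)
    (Module.finBasisOfFinrankEq 𝒪' ρ.V ρ.finrank_eq) ρ.ρ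
    (Fermat.Agent.H32.span_range_eq_top ρ habs) (galTate p (JZero N)) (eigSub 𝒪' p N S lam)
    (fun g _ hx => gal_mem_eigSub g hx) (fun g _ hx hx0 => quad_eigSub hpS hNS hp𝒪' ρ hρ g hx hx0)
    (tateMap (p := p) (heckeOperatorBar N ⟨q, hq⟩)) (fun g => commute_hecke_galTate hq g)
    (mem_eigSub.mpr hv) hv0 hμ

/-- **(F2)**, `J`-level: both push-forwards vanish; the involution acts by a sign. -/
theorem exists_realisation_new {M q : ℕ} [NeZero M] [NeZero (M * q)] [NeZero q] (hpS : p ∈ S)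
    (hNS : ∀ r : ℕ, r.Prime → r ∣ M * q → r ∈ S)
    (hp𝒪' : (p : 𝒪') ∈ IsLocalRing.maximalIdeal 𝒪') {lam : ℕ → 𝒪'}
    {v : 𝒪' ⊗[ℤ_[p]] TateMod p (JZero (M * q))} (hv : IsEigJ p (M * q) S lam v) (hv0 : v ≠ 0)
    (ρ : GaloisRepAdic 𝒪') (hρ : IsAttached S lam ρ) (habs : ρ.residual.IsAbsolutelyIrreducible)
    (hc : M.Coprime q)
    (h1 : (tateMap (p := p) (degPush (M := M) (N := M * q) 1 (by simp))).baseChange 𝒪' v = 0)
    (h2 : (tateMap (p := p) (degPush (M := M) (N := M * q) q (dvd_refl _))).baseChange 𝒪' v = 0) :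
    ∃ s : ℤ, (s = 1 ∨ s = -1) ∧
      ∃ Φ : ρ.V →ₗ[𝒪'] 𝒪' ⊗[ℤ_[p]] TateMod p (JZero (M * q)), Function.Injective Φ ∧
      (∀ g x, Φ (ρ.ρ g x) = (galTate p (JZero (M * q)) g).baseChange 𝒪' (Φ x)) ∧
      (∀ h x, (tateMap (p := p) (degPush (M := M) (N := M * q) 1 h)).baseChange 𝒪' (Φ x) = 0) ∧
      (∀ h x, (tateMap (p := p) (degPush (M := M) (N := M * q) q h)).baseChange 𝒪' (Φ x) = 0) ∧
      ∀ x, (tateMap (p := p) (wJ M q rfl hc)).baseChange 𝒪' (Φ x) = ((-s : ℤ) : 𝒪') • Φ x := by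
  have hWT : ∀ ℓ : Nat.Primes, ¬ (ℓ : ℕ) ∣ M * q →
      Commute (tateMap (p := p) (heckeOperatorBar (M * q) ℓ) :
          Module.End ℤ_[p] (TateMod p (JZero (M * q))))
        (tateMap (p := p) (wJ M q rfl hc)) := by
    intro ℓ hℓ
    refine LinearMap.ext fun x => ?_
    ext n
    refine (wJ_hecke rfl hc ℓ ?_ _).symm
    exact (Nat.Prime.coprime_iff_not_dvd ℓ.2).mpr (fun h => hℓ (h.mul_left M))
  have k1 : ∀ g x, tateMap (p := p) (degPush (M := M) (N := M * q) 1 (by simp))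
      (galTate p (JZero (M * q)) g x) = galTate p (JZero M) g
        (tateMap (p := p) (degPush (M := M) (N := M * q) 1 (by simp)) x) := by
    intro g x
    ext n
    exact degPush_galois 1 _ g _
  have k2 : ∀ g x, tateMap (p := p) (degPush (M := M) (N := M * q) q (dvd_refl _))
      (galTate p (JZero (M * q)) g x) = galTate p (JZero M) g
        (tateMap (p := p) (degPush (M := M) (N := M * q) q (dvd_refl _)) x) := by
    intro g x
    ext n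
    exact degPush_galois q _ g _
  have k3 : ∀ g, Commute (tateMap (p := p) (wJ M q rfl hc) :
      Module.End ℤ_[p] (TateMod p (JZero (M * q)))) (galTate p (JZero (M * q)) g) := by
    intro g
    refine LinearMap.ext fun x => ?_
    ext n
    exact wJ_galois rfl hc g _
  have k4 : (tateMap (p := p) (wJ M q rfl hc) :
      Module.End ℤ_[p] (TateMod p (JZero (M * q)))) * tateMap (p := p) (wJ M q rfl hc) = 1 := by
    refine LinearMap.ext fun x => ?_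
    ext n
    exact wJ_wJ rfl hc _
  have k5 : tateMap (p := p) (degPush (M := M) (N := M * q) 1 (by simp)) ∘ₗ
      tateMap (p := p) (wJ M q rfl hc) =
      tateMap (p := p) (degPush (M := M) (N := M * q) q (dvd_refl _)) := by
    refine LinearMap.ext fun x => ?_
    ext n
    exact degPush_one_wJ rfl hc (by simp) (dvd_refl _) _
  have k6 : tateMap (p := p) (degPush (M := M) (N := M * q) q (dvd_refl _)) ∘ₗ
      tateMap (p := p) (wJ M q rfl hc) =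
      tateMap (p := p) (degPush (M := M) (N := M * q) 1 (by simp)) := by
    refine LinearMap.ext fun x => ?_
    ext n
    exact degPush_Q_wJ rfl hc (by simp) (dvd_refl _) _
  have hX : ∀ (a : 𝒪') (x : 𝒪' ⊗[ℤ_[p]] TateMod p (JZero (M * q))), a • x = 0 → a = 0 ∨ x = 0 :=
    fun _ _ h => smul_eq_zero_tate h
  have a0 : ∀ i, Commute (heckeF p (M * q) S i) (tateMap (p := p) (wJ M q rfl hc) :
      Module.End ℤ_[p] (TateMod p (JZero (M * q)))) := fun ℓ => hWT ℓ.1 ℓ.2.1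
  have key := exists_embedding_new (G := H53.GQ) (T₁ := TateMod p (JZero M)) hX
    (Module.finBasisOfFinrankEq 𝒪' ρ.V ρ.finrank_eq) ρ.ρ
    (Fermat.Agent.H32.span_range_eq_top ρ habs) (galTate p (JZero (M * q)))
    (eigSub 𝒪' p (M * q) S lam)
    (fun g _ hx => gal_mem_eigSub g hx) (fun g _ hx hx0 => quad_eigSub hpS hNS hp𝒪' ρ hρ g hx hx0)
    (galTate p (JZero M)) _ _ _ k1 k2 k3 k4 k5 k6
    (fun _ hx => commute_mem_famEig a0 hx)
    (mem_eigSub.mpr hv) hv0 h1 h2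
  obtain ⟨s, hs, Φ, e1, e2, e3, e4, e5⟩ := key
  exact ⟨s, hs, Φ, e1, e2, fun _ x => e3 x, fun _ x => e4 x, e5⟩

end J

/-! ### Point form -/

section Main

variable {p : ℕ} [Fact p.Prime] {S : Finset ℕ}
    {𝒪' : Type} [CommRing 𝒪'] [IsDomain 𝒪'] [IsDiscreteValuationRing 𝒪']
    [IsAdicComplete (IsLocalRing.maximalIdeal 𝒪') 𝒪'] [Finite (IsLocalRing.ResidueField 𝒪')]
    [CharZero 𝒪'] [Algebra ℤ_[p] 𝒪'] {K₁ : Type} [Field K₁] [Algebra 𝒪' K₁]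
    [IsFractionRing 𝒪' K₁]

set_option maxHeartbeats 1000000 in
/-- **(F1)**: point form, `p ∤ M`. -/
theorem ordP_good (hp2 : p ≠ 2) (hpS : p ∈ S)
    (hp𝒪' : (p : 𝒪') ∈ IsLocalRing.maximalIdeal 𝒪')
    (hinj : Function.Injective (algebraMap ℤ_[p] 𝒪'))
    {N' M : ℕ} (hsq : Squarefree N') (hM0 : 0 < M)
    (hex : ∀ r : ℕ, r.Prime → r ∣ N' → ¬ r * r ∣ M) (hM : N' ∣ M)
    (hMS : ∀ r : ℕ, r.Prime → r ∣ M → r ∈ S)
    (η ψ : (ZMod N')ˣ →* K₁ˣ) (hψ : ψ = η ^ 2) {m : ℕ} (hm : Odd m) (hη : η ^ m = 1)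
    {lam : ℕ → 𝒪'} (ρ : GaloisRepAdic 𝒪') (hρ : IsAttached S lam ρ)
    (hirr : ρ.residual.IsIrreducible)
    {y : H1 (gam N' M hM) (psiRep ψ K₁)} (hy : y ≠ 0) (hT : IsEigTw hM S lam η ψ y)
    (hp : p.Prime) (hpM : ¬ p ∣ M) (hc : p.Coprime N') {μ : 𝒪'}
    (hμ : (tFam hM hp hpM).opH (psiRep ψ K₁) y =
      (((η (ZMod.unitOfCoprime p hc) : K₁ˣ) : K₁) * algebraMap 𝒪' K₁ μ) • y) :
    ∃ (L : ℕ) (_ : NeZero L), ¬ p ∣ L ∧ (∀ r : ℕ, r.Prime → r ∣ L → r ∈ S) ∧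
      ∃ Φ : ρ.V →ₗ[𝒪'] 𝒪' ⊗[ℤ_[p]] TateMod p (JZero L), Function.Injective Φ ∧
      (∀ g x, Φ (ρ.ρ g x) = (galTate p (JZero L) g).baseChange 𝒪' (Φ x)) ∧
      ∀ x, (tateMap (p := p) (heckeOperatorBar L ⟨p, hp⟩)).baseChange 𝒪' (Φ x) = μ • Φ x := by
  classical
  haveI : CharZero K₁ := charZero_of_injective_algebraMap (IsFractionRing.injective 𝒪' K₁)
  have hN'0 : 0 < N' := Nat.pos_of_ne_zero (fun h => not_squarefree_zero (h ▸ hsq))
  haveI : NeZero (M * N') := ⟨(Nat.mul_pos hM0 hN'0).ne'⟩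
  have hdiv : ∀ r : ℕ, r.Prime → r ∣ M * N' → r ∣ M := fun r hr h =>
    (hr.dvd_mul.mp h).elim id (fun h => h.trans hM)
  have hpL : ¬ p ∣ M * N' := fun h => hpM (hdiv p hp h)
  -- the eigensystem extended to `p`
  set lam' : ℕ → 𝒪' := Function.update lam p μ with hlam'
  have hT' : IsEigTw hM (S.erase p) lam' η ψ y := by
    intro ℓ hℓ hℓM hc' hℓS
    by_cases hℓq : ℓ = p
    · subst hℓq
      rw [hlam', Function.update_self]
      exact hμ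
    · rw [hlam', Function.update_of_ne hℓq]
      exact hT ℓ hℓ hℓM hc' (fun h => hℓS (Finset.mem_erase.mpr ⟨hℓq, h⟩))
  obtain ⟨E, hE⟩ := exists_emb (K := K₁) hsq hM0 hex hM (L := M * N') rfl ψ η hψ hm hη
  obtain ⟨φ, hφ0, hφT, -⟩ := exists_isEigHom (O := 𝒪') (K := K₁)
    (L := M * N') (S := S.erase p) (lam := lam') (y := E y)
    (fun h => hy (hE.inj (h.trans (map_zero E).symm)))
    (hT'.twEmb (Dvd.intro N' rfl) hE)
  have hφT1 : IsEigHom (M * N') S lam φ := by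
    intro ℓ _ hℓL hℓS
    have h1 := hφT ℓ hℓL (fun h => hℓS (Finset.mem_of_mem_erase h))
    have hℓq : ℓ ≠ p := fun h => hℓS (h ▸ hpS)
    rwa [hlam', Function.update_of_ne hℓq] at h1
  have hφq : heckeHom hpL φ = μ • φ := by
    have h1 := hφT p hpL (Finset.notMem_erase p S)
    rwa [hlam', Function.update_self] at h1
  have hPE := hφT1.isPE hp2 hp𝒪' ρ hρ hirr
  have hμ' : (tateMap (p := p) (heckeOperatorBar (M * N') ⟨p, hp⟩)).baseChange 𝒪'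
      ((thetaJ (p := p) (M * N') hinj).symm ⟨φ, hPE⟩) =
      μ • (thetaJ (p := p) (M * N') hinj).symm ⟨φ, hPE⟩ := by
    apply (thetaJ (p := p) (M * N') hinj).injective
    apply Subtype.ext
    have h1 := thetaJ_hecke (p := p) hinj (N := M * N') (ℓ := p) hpL
      ((thetaJ (p := p) (M * N') hinj).symm ⟨φ, hPE⟩)
    refine h1.trans ?_
    rw [map_smul, LinearEquiv.apply_symm_apply]
    exact hφq
  exact ⟨M * N', inferInstance, hpL, fun r hr hrL => hMS r hr (hdiv r hr hrL),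
    exists_realisation_good hpS (fun r hr hrL => hMS r hr (hdiv r hr hrL)) hp𝒪'
      (hφT1.isEigJ hinj hPE) (thetaJ_symm_ne_zero hinj hPE hφ0) ρ hρ
      (absIrr_of_attached hp2 hp𝒪' S lam ρ hρ hirr) hp hμ'⟩

set_option maxHeartbeats 1000000 in
/-- **(F2)**: point form, level `M₀ q`, `q ∤ M₀` (`q = p` allowed), both traces vanish. -/
theorem ordP_new (hp2 : p ≠ 2) (hpS : p ∈ S)
    (hp𝒪' : (p : 𝒪') ∈ IsLocalRing.maximalIdeal 𝒪')
    (hinj : Function.Injective (algebraMap ℤ_[p] 𝒪'))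
    {N' M₀ q : ℕ} [NeZero M₀] [NeZero q] (hsq : Squarefree N')
    (hex : ∀ r : ℕ, r.Prime → r ∣ N' → ¬ r * r ∣ M₀) (hM : N' ∣ M₀)
    (hMS : ∀ r : ℕ, r.Prime → r ∣ M₀ * q → r ∈ S)
    (η ψ : (ZMod N')ˣ →* K₁ˣ) (hψ : ψ = η ^ 2) {m : ℕ} (hm : Odd m) (hη : η ^ m = 1)
    {lam : ℕ → 𝒪'} (ρ : GaloisRepAdic 𝒪') (hρ : IsAttached S lam ρ)
    (hirr : ρ.residual.IsIrreducible)
    {y : H1 (gam N' (M₀ * q) (dvd_mul_q hM)) (psiRep ψ K₁)} (hy : y ≠ 0)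
    (hT : IsEigTw (dvd_mul_q hM) S lam η ψ y)
    (hq : q.Prime) (hqM : ¬ q ∣ M₀)
    (h1 : (trFam hM).opH (psiRep ψ K₁) y = 0)
    (h2 : (nuFam hM hq).opH (psiRep ψ K₁) y = 0) :
    ∃ (L : ℕ) (_ : NeZero L) (_ : NeZero (L * q)) (hc : L.Coprime q),
      ¬ q ∣ L ∧ (∀ r : ℕ, r.Prime → r ∣ L * q → r ∈ S) ∧
      ∃ s : ℤ, (s = 1 ∨ s = -1) ∧
      ∃ Φ : ρ.V →ₗ[𝒪'] 𝒪' ⊗[ℤ_[p]] TateMod p (JZero (L * q)), Function.Injective Φ ∧
      (∀ g x, Φ (ρ.ρ g x) = (galTate p (JZero (L * q)) g).baseChange 𝒪' (Φ x)) ∧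
      (∀ h x, (tateMap (p := p) (degPush (M := L) (N := L * q) 1 h)).baseChange 𝒪' (Φ x) = 0) ∧
      (∀ h x, (tateMap (p := p) (degPush (M := L) (N := L * q) q h)).baseChange 𝒪' (Φ x) = 0) ∧
      ∀ x, (tateMap (p := p) (wJ L q rfl hc)).baseChange 𝒪' (Φ x) = ((-s : ℤ) : 𝒪') • Φ x := by
  haveI : CharZero K₁ := charZero_of_injective_algebraMap (IsFractionRing.injective 𝒪' K₁)
  have hM₀ : 0 < M₀ := NeZero.pos M₀
  have hN'0 : 0 < N' := Nat.pos_of_ne_zero (fun h => not_squarefree_zero (h ▸ hsq))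
  have hqN : ¬ q ∣ N' := fun h => hqM (h.trans hM)
  have hqM' : ¬ q ∣ M₀ * N' := fun h => (hq.dvd_mul.mp h).elim hqM hqN
  haveI : NeZero (M₀ * N') := ⟨(Nat.mul_pos hM₀ hN'0).ne'⟩
  haveI : NeZero (M₀ * N' * q) := ⟨(Nat.mul_pos (Nat.mul_pos hM₀ hN'0) hq.pos).ne'⟩
  have hexq : ∀ r : ℕ, r.Prime → r ∣ N' → ¬ r * r ∣ M₀ * q := by
    intro r hr hrN h
    have hne : r ≠ q := by
      rintro rfl
      exact hqN hrN
    have hcop : (r * r).Coprime q := by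
      have := (Nat.coprime_primes hr hq).mpr hne
      exact Nat.Coprime.mul_left this this
    exact hex r hr hrN (hcop.dvd_of_dvd_mul_right h)
  obtain ⟨E, hE⟩ := exists_emb (K := K₁) hsq (Nat.mul_pos hM₀ hq.pos) hexq
    (dvd_mul_q hM) (L := M₀ * N' * q) (by ring) ψ η hψ hm hη
  obtain ⟨φ, hφ0, hφT, hφF⟩ := exists_isEigHom (O := 𝒪') (K := K₁)
    (L := M₀ * N' * q) (S := S) (lam := lam) (y := E y)
    (fun h => hy (hE.inj (h.trans (map_zero E).symm)))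
    (hT.twEmb ⟨N', by ring⟩ hE)
  have hqN1 : q.Coprime N' := (Nat.Prime.coprime_iff_not_dvd hq).mpr hqN
  have hs : ScalBy (psiRep ψ K₁) hq.pos hqN1
      (((η (ZMod.unitOfCoprime q hqN1)) ^ 2 : K₁ˣ) : K₁) := by
    intro v
    have h5 : aUnit N' (Fermat.Agent.H37.Tr.scal N' hq.pos hqN1) =
        ZMod.unitOfCoprime q hqN1 := by
      apply Units.ext
      rw [aUnit_val, ZMod.coe_unitOfCoprime, Fermat.Agent.H37.Tr.scal_val]
      simp
    rw [slash_psiRep, hψ, h5]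
    rfl
  have hs' : Fermat.Agent.H37.Tr.ScalTriv
      (psiRep (1 : (ZMod 1)ˣ →* K₁ˣ) K₁) hq.pos
      (Nat.coprime_one_right q) := fun v => slash_psiRep_one _ _
  obtain ⟨h3, h4⟩ := traces_of_twEmb hM (one_dvd (M₀ * N')) hq hqM hqM' hqN1
    (Nat.coprime_one_right q) (E := E) hE hs hs' y h1 h2
  have hLS : ∀ r : ℕ, r.Prime → r ∣ M₀ * N' * q → r ∈ S := fun r hr hrL => by
    refine hMS r hr ?_
    rcases hr.dvd_mul.mp hrL with h | h
    · rcases hr.dvd_mul.mp h with h | h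
      · exact h.mul_right q
      · exact h.trans (dvd_mul_q hM)
    · exact h.mul_left M₀
  have hc : (M₀ * N').Coprime q :=
    (Nat.coprime_comm.mp ((Nat.Prime.coprime_iff_not_dvd hq).mpr hqM'))
  have hPE := hφT.isPE hp2 hp𝒪' ρ hρ hirr
  have hθ : (thetaJ (p := p) (M₀ * N' * q) hinj
      ((thetaJ (p := p) (M₀ * N' * q) hinj).symm ⟨φ, hPE⟩)).1 = φ := by
    rw [LinearEquiv.apply_symm_apply]
  exact ⟨M₀ * N', inferInstance, inferInstance, hc, hqM', hLS,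
    exists_realisation_new hpS hLS hp𝒪' (hφT.isEigJ hinj hPE)
      (thetaJ_symm_ne_zero hinj hPE hφ0) ρ hρ (absIrr_of_attached hp2 hp𝒪' S lam ρ hρ hirr) hc
      ((baseChange_eq_zero_iff hinj (realJ_degPush_one hq _) _).mpr (by
        rw [hθ]; exact hφF _ _ h3))
      ((baseChange_eq_zero_iff hinj (realJ_degPush_prime hq _) _).mpr (by
        rw [hθ]; exact hφF _ _ h4))⟩

end Main

end Fermat.Agent.H4

end
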