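import Fermat.Statements.S19
import Fermat.Agent.H19Zl

set_option autoImplicit false

open ModularCurve

namespace Fermat.Agent.H19

/-- the Galois action on the `ℓ^k`-torsion of `J₀(N)`. -/
noncomputable def torsionAct (N : ℕ) (n : ℤ) (σ : AlgebraicClosure ℚ ≃ₐ[ℚ] AlgebraicClosure ℚ)
    (x : ↥(Submodule.torsionBy ℤ (JZero N) n)) : ↥(Submodule.torsionBy ℤ (JZero N) n) :=
  ⟨σ • (x : JZero N), by
    rw [Submodule.mem_torsionBy_iff]
    have h := (Submodule.mem_torsionBy_iff _ _).mp x.2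
    have h2 : n • (σ • (x : JZero N)) = σ • (n • (x : JZero N)) :=
      (map_zsmul (DistribSMul.toAddMonoidHom (JZero N) σ) n (x : JZero N)).symm
    rw [h2, h, smul_zero]⟩

@[simp] theorem coe_torsionAct (N : ℕ) (n : ℤ) (σ : AlgebraicClosure ℚ ≃ₐ[ℚ] AlgebraicClosure ℚ)
    (x : ↥(Submodule.torsionBy ℤ (JZero N) n)) : (torsionAct N n σ x : JZero N) = σ • (x : JZero N) :=
  rfl

theorem S19_of_hasFlatModel (p ℓ : ℕ) [NeZero p] [Fact ℓ.Prime] (k : ℕ)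
    (h : HasFlatModel (Zl ℓ) ℚ (AlgebraicClosure ℚ) ↥(Submodule.torsionBy ℤ (JZero p) ((ℓ : ℤ) ^ k))
      (torsionAct p ((ℓ : ℤ) ^ k))) :
    ∃ (H : Type) (_ : CommRing H) (_ : HopfAlgebra (GaloisRep.ratLocalizedAt ℓ) H),
      Module.Finite (GaloisRep.ratLocalizedAt ℓ) H ∧ Module.Flat (GaloisRep.ratLocalizedAt ℓ) H ∧
      Coalgebra.IsCocomm (GaloisRep.ratLocalizedAt ℓ) H ∧
      ∃ e : WithConv (H →ₐ[GaloisRep.ratLocalizedAt ℓ] AlgebraicClosure ℚ) ≃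
          ↥(Submodule.torsionBy ℤ (JZero p) ((ℓ : ℤ) ^ k)),
        (∀ f g, e (f * g) = e f + e g) ∧
        ∀ (σ : AlgebraicClosure ℚ ≃ₐ[ℚ] AlgebraicClosure ℚ)
          (f g : WithConv (H →ₐ[GaloisRep.ratLocalizedAt ℓ] AlgebraicClosure ℚ)),
          (∀ h : H, g h = σ (f h)) → ((e g : JZero p)) = σ • (e f : JZero p) := by
  obtain ⟨H, _, _, hfin, hflat, hcomm, e, he, hσ⟩ := h
  refine ⟨H, inferInstance, inferInstance, hfin, hflat, hcomm, e, he, ?_⟩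
  intro σ f g hfg
  rw [← coe_torsionAct, ← hσ σ f g hfg]

end Fermat.Agent.H19
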