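import Fermat.Agent.H32S32
import Fermat.Agent.H19Reduce
import Fermat.Agent.H31JZero

/-!
# `S32` from the properties of `JZero N`
-/

set_option autoImplicit false

noncomputable section

open AlgebraicCurve ModularCurve CuspForm

namespace Fermat.Agent.H32

/-- `S32` from: the flat models of `S19`, the Eichler-Shimura relation (Frobenius quadratic
relation) and faithfulness of the Hecke action. -/
theorem S32_of_JZero
    {p N : ℕ} [NeZero N] {S : Finset ℕ}
    {𝒪 : Type} [CommRing 𝒪] [IsDomain 𝒪] [IsDiscreteValuationRing 𝒪]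
    [IsAdicComplete (IsLocalRing.maximalIdeal 𝒪) 𝒪]
    {θ : CuspForm.heckeAlgebra N 2 (↑S : Set ℕ) →+* IsLocalRing.ResidueField 𝒪}
    {T : Type} [CommRing T] [IsLocalRing T] [IsNoetherianRing T]
    [IsAdicComplete (IsLocalRing.maximalIdeal T) T] [Algebra 𝒪 T] [IsLocalHom (algebraMap 𝒪 T)]
    [Module.Finite 𝒪 T] [Module.Free 𝒪 T] [Finite (IsLocalRing.ResidueField 𝒪)]
    (hp : p.Prime)
    (hp𝒪 : (p : 𝒪) ∈ IsLocalRing.maximalIdeal 𝒪) (hpS : p ∈ S)
    (hNS : ∀ q : ℕ, q.Prime → q ∣ N → q ∈ S)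
    (H : CuspForm.HeckeGaloisRepDatum N (↑S : Set ℕ) 𝒪 θ T)
    (hcommG : letI := heckeModuleBar N; SMulCommClass GQ HeckeAlg (JZero N))
    (hF : letI := heckeModuleBar N; haveI := hcommG;
      FrobeniusQuadratic (K := ℚ) (L := AlgebraicClosure ℚ) N p (JZero N))
    (hfaith : letI := heckeModuleBar N; H31.HeckeFaithful N (↑S : Set ℕ) p (JZero N))
    (hflat : ∀ n : ℕ, H19.HasFlatModel (GaloisRep.ratLocalizedAt p) ℚ (AlgebraicClosure ℚ)
      ↥(Submodule.torsionBy ℤ (JZero N) ((p : ℤ) ^ n)) (H19.torsionAct N ((p : ℤ) ^ n))) :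
    H.ρ.IsFlatAt p := by
  letI := heckeModuleBar N
  haveI := hcommG
  have : Fact p.Prime := ⟨hp⟩
  refine isFlatAt_of_module (J := JZero N) hp hp𝒪 hpS hNS H hF hfaith ?_
  intro n
  have h1 := hasFlatOrder_of_hasFlatModel (hflat n)
  let i : ↥(Submodule.torsionBy HeckeAlg (JZero N) ((p : HeckeAlg) ^ n)) →+
      ↥(Submodule.torsionBy ℤ (JZero N) ((p : ℤ) ^ n)) :=
    { toFun := fun x => ⟨(x : JZero N), by
        rw [Submodule.mem_torsionBy_iff]
        have h2 := H31.nsmul_eq_zero_of_mem x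
        rw [← natCast_zsmul] at h2
        push_cast at h2
        exact h2⟩
      map_zero' := rfl
      map_add' := fun _ _ => rfl }
  refine h1.sub i ?_ ?_
  · intro x y hxy
    have h3 : ((i x : ↥(Submodule.torsionBy ℤ (JZero N) ((p : ℤ) ^ n))) : JZero N) = i y := by
      rw [hxy]
    exact Subtype.ext h3
  · intro σ m
    rfl

end Fermat.Agent.H32
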