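import Mathlib
import Fermat.Agent.H32BLR

/-!
# Cyclic Galois modules with a prescribed quadratic relation

Let `V` be a free `ℤ/p^m`-module of rank two with an action `ρ` of a group `G` whose image spans
`End V`, and let `y` be an element of exact order `p^m` of a `G`-module `J` such that
`g² - tr ρ(g) g + det ρ(g) = 0` on the subgroup generated by the orbit of `y`.  Then `V` embeds
equivariantly in this subgroup.
-/

set_option autoImplicit false
set_option linter.unusedSectionVars false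
set_option linter.style.haveILetI false

noncomputable section

open Fermat.Agent.H32

namespace Fermat.Agent.H35

/-- The subgroup generated by the orbit of `y`. -/
def orb (G : Type*) {J : Type*} [Group G] [AddCommGroup J] [DistribMulAction G J] (y : J) :
    AddSubgroup J :=
  AddSubgroup.closure (Set.range fun g : G => g • y)

section Orb

variable {G J : Type*} [Group G] [AddCommGroup J] [DistribMulAction G J] {y : J}

theorem self_mem_orb : y ∈ orb G y := AddSubgroup.subset_closure ⟨1, one_smul G y⟩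

theorem smul_mem_orb (g : G) {x : J} (hx : x ∈ orb G y) : g • x ∈ orb G y := by
  induction hx using AddSubgroup.closure_induction with
  | mem x hx =>
    obtain ⟨h, rfl⟩ := hx
    exact AddSubgroup.subset_closure ⟨g * h, mul_smul g h y⟩
  | zero => rw [smul_zero]; exact AddSubgroup.zero_mem _
  | add a b _ _ ha hb => rw [smul_add]; exact AddSubgroup.add_mem _ ha hb
  | neg a _ ha => rw [smul_neg]; exact AddSubgroup.neg_mem _ ha

theorem nsmul_eq_zero_of_mem_orb {n : ℕ} (hy : n • y = 0) {x : J} (hx : x ∈ orb G y) :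
    n • x = 0 := by
  induction hx using AddSubgroup.closure_induction with
  | mem x hx =>
    obtain ⟨h, rfl⟩ := hx
    change n • (h • y) = 0
    rw [← smul_comm h n y, hy, smul_zero]
  | zero => rw [smul_zero]
  | add a b _ _ ha hb => rw [smul_add, ha, hb, add_zero]
  | neg a _ ha => rw [smul_neg, ha, neg_zero]

/-- An additive endomorphism commuting with `G` which is multiplication by `a` on `y` is
multiplication by `a` on the orbit. -/
theorem apply_of_mem_orb {f : J →+ J} (hf : ∀ (g : G) (x : J), f (g • x) = g • f x) {a : ℤ}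
    (hy : f y = a • y) {x : J} (hx : x ∈ orb G y) : f x = a • x := by
  induction hx using AddSubgroup.closure_induction with
  | mem x hx =>
    obtain ⟨h, rfl⟩ := hx
    change f (h • y) = a • (h • y)
    rw [hf, hy, smul_comm]
  | zero => rw [map_zero, smul_zero]
  | add a b _ _ ha hb => rw [smul_add, map_add, ha, hb]
  | neg a _ ha => rw [smul_neg, map_neg, ha]

end Orb

/-- In `ℤ/p^m`, every nonzero element divides `p^(m-1)`. -/
theorem exists_mul_eq_pow {p m : ℕ} (hp : p.Prime) {c : ZMod (p ^ m)} (hc : c ≠ 0) :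
    ∃ e : ZMod (p ^ m), e * c = ((p ^ (m - 1) : ℕ) : ZMod (p ^ m)) := by
  haveI : NeZero (p ^ m) := ⟨pow_ne_zero m hp.ne_zero⟩
  have hv : c.val ≠ 0 := by rwa [Ne, ZMod.val_eq_zero]
  obtain ⟨v, u, hu, hcu⟩ := Nat.exists_eq_pow_mul_and_not_dvd hv p hp.ne_one
  have hvm : v < m := by
    by_contra hcon
    rw [not_lt] at hcon
    have h1 : p ^ m ∣ c.val := by
      rw [hcu]
      exact (pow_dvd_pow p hcon).mul_right u
    exact absurd (Nat.le_of_dvd (Nat.pos_of_ne_zero hv) h1) (not_le.mpr (ZMod.val_lt c))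
  have hcop : Nat.Coprime u (p ^ m) :=
    (Nat.Coprime.pow_left m ((Nat.Prime.coprime_iff_not_dvd hp).mpr hu)).symm
  let w : (ZMod (p ^ m))ˣ := ZMod.unitOfCoprime u hcop
  refine ⟨((p ^ (m - 1 - v) : ℕ) : ZMod (p ^ m)) * ((w⁻¹ : (ZMod (p ^ m))ˣ) : ZMod (p ^ m)), ?_⟩
  have h2 : c = ((p ^ v : ℕ) : ZMod (p ^ m)) * (w : ZMod (p ^ m)) := by
    rw [ZMod.coe_unitOfCoprime, ← Nat.cast_mul, ← hcu, ZMod.natCast_zmod_val]
  rw [h2]
  have h3 : ((p ^ (m - 1 - v) : ℕ) : ZMod (p ^ m)) * ((w⁻¹ : (ZMod (p ^ m))ˣ) : ZMod (p ^ m)) *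
      (((p ^ v : ℕ) : ZMod (p ^ m)) * (w : ZMod (p ^ m))) =
      ((p ^ (m - 1 - v) : ℕ) : ZMod (p ^ m)) * ((p ^ v : ℕ) : ZMod (p ^ m)) *
        (((w⁻¹ : (ZMod (p ^ m))ˣ) : ZMod (p ^ m)) * (w : ZMod (p ^ m))) := by ring
  rw [h3, Units.inv_mul, mul_one, ← Nat.cast_mul, ← pow_add]
  congr 2
  omega

section Embed

variable {p m : ℕ} {G V J M : Type*} [Group G] [AddCommGroup V] [Module (ZMod (p ^ m)) V]
  [AddCommGroup J] [DistribMulAction G J] [AddCommGroup M] [DistribMulAction G M]

/-- The embedding theorem, for a module killed by `p^m`. -/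
theorem exists_embedding_aux (hp : p.Prime) (b : Module.Basis (Fin 2) (ZMod (p ^ m)) V)
    (ρ : G →* Module.End (ZMod (p ^ m)) V)
    (hspan : Submodule.span (ZMod (p ^ m)) (Set.range ρ) = ⊤)
    (hkill : ∀ x : M, p ^ m • x = 0)
    (h : ∀ g : G, ∃ t d : ℤ, LinearMap.trace (ZMod (p ^ m)) V (ρ g) = t ∧
      LinearMap.det (ρ g) = d ∧ ∀ x : M, g • (g • x) - t • (g • x) + d • x = 0)
    {y : M} (hy' : p ^ (m - 1) • y ≠ 0) :
    ∃ ι : V →+ M, Function.Injective ι ∧ (∀ (g : G) (v : V), ι (ρ g v) = g • ι v) := by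
  obtain ⟨inst⟩ : Nonempty (Module (ZMod (p ^ m)) M) := ⟨AddCommGroup.zmodModule hkill⟩
  let μ : G →* Module.End (ZMod (p ^ m)) M :=
    { toFun := fun g => (DistribSMul.toAddMonoidHom M g).toZModLinearMap (p ^ m)
      map_one' := LinearMap.ext fun x => one_smul G x
      map_mul' := fun g g' => LinearMap.ext fun x => mul_smul g g' x }
  have hμ : ∀ (g : G) (x : M), μ g x = g • x := fun _ _ => rfl
  have hquad : Quadratic ρ μ := by
    intro g
    obtain ⟨t, d, ht, hd, hx⟩ := h g
    refine LinearMap.ext fun x => ?_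
    rw [ht, hd]
    simp only [LinearMap.add_apply, LinearMap.sub_apply, Module.End.mul_apply,
      LinearMap.smul_apply, Module.End.one_apply, LinearMap.zero_apply, hμ,
      Int.cast_smul_eq_zsmul]
    exact hx x
  obtain ⟨Ψ, hΨ⟩ := exists_algHom_of_quadratic b hspan hquad
  -- one of the two components of `y` has exact order `p^m`
  have hsum : ∑ i, Ψ (rankOne b i (b i)) y = y := by
    rw [← LinearMap.sum_apply, ← map_sum, sum_rankOne_mul_self, map_one]
    rfl
  obtain ⟨i, hi⟩ : ∃ i, p ^ (m - 1) • Ψ (rankOne b i (b i)) y ≠ 0 := by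
    by_contra hcon
    push Not at hcon
    apply hy'
    rw [← hsum, Finset.smul_sum]
    exact Finset.sum_eq_zero fun i _ => hcon i
  let ι₀ : V →ₗ[ZMod (p ^ m)] M :=
    { toFun := fun v => Ψ (rankOne b i v) y
      map_add' := fun v w => by rw [map_add, map_add]; rfl
      map_smul' := fun a v => by rw [map_smul, map_smul]; rfl }
  have hι₀ : ∀ (f : Module.End (ZMod (p ^ m)) V) (v : V), ι₀ (f v) = Ψ f (ι₀ v) := by
    intro f v
    show Ψ (rankOne b i (f v)) y = Ψ f (Ψ (rankOne b i v) y)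
    rw [← mul_rankOne, map_mul]
    rfl
  have hinj : Function.Injective ι₀ := by
    rw [injective_iff_map_eq_zero]
    intro v hv
    by_contra hv0
    obtain ⟨j, hj⟩ : ∃ j, b.repr v j ≠ 0 := by
      by_contra hcon
      push Not at hcon
      apply hv0
      apply b.repr.injective
      ext j
      rw [hcon j, map_zero]
      rfl
    obtain ⟨e, he⟩ := exists_mul_eq_pow hp hj
    apply hi
    have h1 : ι₀ ((e • rankOne b j (b i)) v) = 0 := by rw [hι₀, hv, map_zero]
    rw [LinearMap.smul_apply, rankOne_apply, smul_smul, he, map_smul] at h1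
    rw [← h1]
    show _ = ((p ^ (m - 1) : ℕ) : ZMod (p ^ m)) • Ψ (rankOne b i (b i)) y
    rw [Nat.cast_smul_eq_nsmul]
  refine ⟨ι₀.toAddMonoidHom, hinj, fun g v => ?_⟩
  show ι₀ (ρ g v) = g • ι₀ v
  rw [hι₀, hΨ, hμ]

/-- The action of `G` on the orbit subgroup. -/
instance orbAction (y : J) : DistribMulAction G (orb G y) where
  smul g x := ⟨g • (x : J), smul_mem_orb g x.2⟩
  one_smul x := Subtype.ext (one_smul G (x : J))
  mul_smul g g' x := Subtype.ext (mul_smul g g' (x : J))
  smul_zero g := Subtype.ext (smul_zero g)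
  smul_add g x x' := Subtype.ext (smul_add g (x : J) x')

theorem coe_orb_smul {y : J} (g : G) (x : orb G y) : ((g • x : orb G y) : J) = g • (x : J) := rfl

/-- **The embedding theorem.** -/
theorem exists_embedding (hp : p.Prime) (b : Module.Basis (Fin 2) (ZMod (p ^ m)) V)
    (ρ : G →* Module.End (ZMod (p ^ m)) V)
    (hspan : Submodule.span (ZMod (p ^ m)) (Set.range ρ) = ⊤)
    {y : J} (hy : p ^ m • y = 0) (hy' : p ^ (m - 1) • y ≠ 0)
    (h : ∀ g : G, ∃ t d : ℤ, LinearMap.trace (ZMod (p ^ m)) V (ρ g) = t ∧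
      LinearMap.det (ρ g) = d ∧ ∀ x ∈ orb G y, g • (g • x) - t • (g • x) + d • x = 0) :
    ∃ ι : V →+ J, Function.Injective ι ∧ (∀ (g : G) (v : V), ι (ρ g v) = g • ι v) ∧
      ∀ v, ι v ∈ orb G y := by
  obtain ⟨ι, h1, h2⟩ := exists_embedding_aux (M := orb G y) hp b ρ hspan
    (fun x => Subtype.ext (nsmul_eq_zero_of_mem_orb hy x.2))
    (fun g => by
      obtain ⟨t, d, ht, hd, hx⟩ := h g
      exact ⟨t, d, ht, hd, fun x => Subtype.ext (hx x x.2)⟩)
    (y := ⟨y, self_mem_orb⟩) (fun h0 => hy' (congrArg Subtype.val h0))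
  refine ⟨(orb G y).subtype.comp ι, Subtype.val_injective.comp h1, fun g v => ?_,
    fun v => (ι v).2⟩
  show ((ι (ρ g v) : orb G y) : J) = g • ((ι v : orb G y) : J)
  rw [h2]
  rfl

end Embed

end Fermat.Agent.H35
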