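import Mathlib
import Fermat.Agent.H35LTCyc
import Fermat.Agent.H53Matrix
import Fermat.Agent.H31JZero
import Fermat.Agent.H32Carayol

/-!
# The quadratic relation on cyclic Galois modules in `J_0(N)`

Given a `p`-adic matrix representation `r` with integral Frobenius traces `a_ℓ`, and a `p^m`-torsion
point `y` with `T_ℓ y = a_ℓ y`, the relation `g² - tr r(g) g + det r(g) = 0` holds on the Galois
module generated by `y`.
-/

set_option autoImplicit false
set_option linter.unusedSectionVars false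
set_option linter.style.haveILetI false

noncomputable section

open CuspForm ModularCurve Fermat.Agent.H31 Fermat.Agent.H53

namespace Fermat.Agent.H35

section RedRep

variable {p : ℕ} [Fact p.Prime]

/-- reduction modulo `p^m` of a matrix representation, acting on column vectors -/
def redRep (r : H53.GQ →* M2 ℤ_[p]) (m : ℕ) :
    H53.GQ →* Module.End (ZMod (p ^ m)) (Fin 2 → ZMod (p ^ m)) :=
  ((Matrix.toLinAlgEquiv' : M2 (ZMod (p ^ m)) ≃ₐ[ZMod (p ^ m)] _) :
    M2 (ZMod (p ^ m)) →* Module.End (ZMod (p ^ m)) (Fin 2 → ZMod (p ^ m))).comp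
    (mapMat (PadicInt.toZModPow m) r)

theorem redRep_eq (r : H53.GQ →* M2 ℤ_[p]) (m : ℕ) (g : H53.GQ) :
    redRep r m g = Matrix.toLin' (mapMat (PadicInt.toZModPow m) r g) := rfl

theorem redRep_apply (r : H53.GQ →* M2 ℤ_[p]) (m : ℕ) (g : H53.GQ)
    (v : Fin 2 → ZMod (p ^ m)) :
    redRep r m g v = (mapMat (PadicInt.toZModPow m) r g).mulVec v := rfl

theorem trace_redRep (r : H53.GQ →* M2 ℤ_[p]) (m : ℕ) (g : H53.GQ) :
    LinearMap.trace (ZMod (p ^ m)) _ (redRep r m g) = PadicInt.toZModPow m (r g).trace := by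
  rw [redRep_eq, Matrix.trace_toLin'_eq, mapMat_apply', Matrix.trace_fin_two, Matrix.trace_fin_two,
    map_add]
  rfl

theorem det_redRep (r : H53.GQ →* M2 ℤ_[p]) (m : ℕ) (g : H53.GQ) :
    LinearMap.det (redRep r m g) = PadicInt.toZModPow m (r g).det := by
  rw [redRep_eq, LinearMap.det_toLin', mapMat_apply', Matrix.det_fin_two, Matrix.det_fin_two,
    map_sub, map_mul, map_mul]
  rfl

/-- The reduction modulo `p^m` is trivial on an open subgroup. -/
theorem exists_level_redRep {r : H53.GQ →* M2 ℤ_[p]} (hr : MCont ℤ_[p] r) (m : ℕ) :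
    ∃ L : IntermediateField ℚ (AlgebraicClosure ℚ), FiniteDimensional ℚ L ∧
      ∀ σ : H53.GQ, (∀ x ∈ L, σ x = x) → redRep r m σ = 1 := by
  obtain ⟨L, hL, h⟩ := hr m
  refine ⟨L, hL, fun σ hσ => ?_⟩
  rw [redRep_eq, show mapMat (PadicInt.toZModPow m) r σ = 1 from ?_]
  · exact Matrix.toLin'_one
  ext i j
  rw [mapMat_apply]
  have h1 := h σ hσ i j
  rw [PadicInt.maximalIdeal_eq_span_p, Ideal.span_singleton_pow, ← PadicInt.ker_toZModPow,
    RingHom.mem_ker, map_sub, sub_eq_zero] at h1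
  rw [h1, Matrix.one_apply, Matrix.one_apply]
  split_ifs
  · exact map_one _
  · exact map_zero _

end RedRep

section Rel

variable {p : ℕ} [hp : Fact p.Prime] {J : Type*} [AddCommGroup J] [Module HeckeAlg J]
  [DistribMulAction H53.GQ J] [SMulCommClass H53.GQ HeckeAlg J]

/-- The Hecke operators act through `a` on the whole orbit. -/
theorem hecke_of_mem_orb {ℓ : Nat.Primes} {a : ℤ} {y : J} (h : heckeGen ℓ • y = a • y) {x : J}
    (hx : x ∈ orb H53.GQ y) : heckeGen ℓ • x = a • x :=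
  apply_of_mem_orb (G := H53.GQ) (f := DistribSMul.toAddMonoidHom J (heckeGen ℓ))
    (fun g z => (smul_comm g (heckeGen ℓ) z).symm) h hx

/-- **The quadratic relation.** -/
theorem quadratic_orb {N : ℕ} {S : Finset ℕ} (hpS : p ∈ S)
    (hNS : ∀ q : ℕ, q.Prime → q ∣ N → q ∈ S)
    (hF : FrobeniusQuadratic (K := ℚ) (L := AlgebraicClosure ℚ) N p J)
    (hlev : FiniteLevel p J) {r : H53.GQ →* M2 ℤ_[p]} (hr : MCont ℤ_[p] r) (a : ℕ → ℤ)
    (hfrob : ∀ ℓ : ℕ, ℓ.Prime → ℓ ∉ S → ∀ A : ValuationSubring (AlgebraicClosure ℚ),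
      A.LiesOverPrime ℓ → ∀ φ : H53.GQ, A.IsFrobeniusAt φ ℓ →
        (r φ).trace = ((a ℓ : ℤ) : ℤ_[p]) ∧ (r φ).det = (ℓ : ℤ_[p]))
    {m : ℕ} {y : J} (hy : p ^ m • y = 0)
    (hT : ∀ ℓ : Nat.Primes, (ℓ : ℕ) ∉ S → heckeGen ℓ • y = a ℓ • y) (g : H53.GQ) :
    ∃ t d : ℤ, LinearMap.trace (ZMod (p ^ m)) _ (redRep r m g) = t ∧
      LinearMap.det (redRep r m g) = d ∧
        ∀ x ∈ orb H53.GQ y, g • (g • x) - t • (g • x) + d • x = 0 := by
  obtain ⟨L₁, hL₁, h₁⟩ := exists_level_redRep hr m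
  obtain ⟨L₂, hL₂, h₂⟩ := hlev m
  obtain ⟨ℓ, hℓ, hℓS, A, hA, φ, hφ, j, hj⟩ := weakFrobeniusDensity (L₁ ⊔ L₂)
    (IntermediateField.finiteDimensional_sup L₁ L₂) S g
  have hℓNp : ¬ ℓ ∣ N * p := by
    intro h
    rcases hℓ.dvd_mul.mp h with h | h
    · exact hℓS (hNS ℓ hℓ h)
    · rw [(Nat.prime_dvd_prime_iff_eq hℓ hp.out).mp h] at hℓS
      exact hℓS hpS
  obtain ⟨htr, hdet⟩ := hfrob ℓ hℓ hℓS A hA φ hφ
  have hg : g = φ ^ j * ((φ ^ j)⁻¹ * g) := by group
  have hfix : ∀ x ∈ L₁ ⊔ L₂, ((φ ^ j)⁻¹ * g) x = x := by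
    intro x hx
    rw [AlgEquiv.mul_apply, hj x hx]
    exact (φ ^ j).symm_apply_apply x
  have hρg : redRep r m g = redRep r m φ ^ j := by
    conv_lhs => rw [hg, map_mul, map_pow]
    rw [h₁ _ (fun x hx => hfix x ((le_sup_left : L₁ ≤ L₁ ⊔ L₂) hx)), mul_one]
  have hxg : ∀ x ∈ orb H53.GQ y, g • x = φ ^ j • x := by
    intro x hx
    conv_lhs => rw [hg, mul_smul]
    rw [h₂ _ (fun z hz => hfix z ((le_sup_right : L₂ ≤ L₁ ⊔ L₂) hz)) x
      (nsmul_eq_zero_of_mem_orb hy hx)]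
  -- characteristic polynomial of Frobenius
  have htr' : LinearMap.trace (ZMod (p ^ m)) _ (redRep r m φ) = ((a ℓ : ℤ) : ZMod (p ^ m)) := by
    rw [trace_redRep, htr, map_intCast]
  have hdet' : LinearMap.det (redRep r m φ) = ((ℓ : ℤ) : ZMod (p ^ m)) := by
    rw [det_redRep, hdet, map_natCast, Int.cast_natCast]
  -- the relation for Frobenius
  let f : Module.End ℤ (orb H53.GQ y) := (DistribSMul.toAddMonoidHom (orb H53.GQ y) φ).toIntLinearMap
  have hf : ∀ x : orb H53.GQ y, ((f x : orb H53.GQ y) : J) = φ • (x : J) := fun _ => rfl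
  have hfj : ∀ (i : ℕ) (x : orb H53.GQ y), (((f ^ i) x : orb H53.GQ y) : J) = φ ^ i • (x : J) := by
    intro i
    induction i with
    | zero => intro x; rw [pow_zero, pow_zero, one_smul, Module.End.one_apply]
    | succ i ih =>
      intro x
      rw [pow_succ, Module.End.mul_apply, ih, hf, pow_succ, mul_smul]
  have hrel : f * f - algebraMap ℤ (Module.End ℤ (orb H53.GQ y)) (a ℓ) * f + algebraMap ℤ (Module.End ℤ (orb H53.GQ y)) (ℓ : ℤ) = 0 := by
    refine LinearMap.ext fun x => Subtype.ext ?_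
    have h3 := hF ℓ hℓ hℓNp A hA φ hφ (x : J) ⟨m, nsmul_eq_zero_of_mem_orb hy x.2⟩
    rw [hecke_of_mem_orb (hT ⟨ℓ, hℓ⟩ hℓS) (smul_mem_orb φ x.2)] at h3
    rw [LinearMap.add_apply, LinearMap.sub_apply, Module.End.mul_apply, Module.End.mul_apply,
      Module.algebraMap_end_apply, Module.algebraMap_end_apply]
    rw [← Nat.cast_smul_eq_nsmul ℤ] at h3
    exact h3
  have hrel' := H31.quadratic_pow (R := ℤ) _ _ _ hrel j
  refine ⟨H31.luc (a ℓ) (ℓ : ℤ) j, (ℓ : ℤ) ^ j, ?_, ?_, ?_⟩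
  · rcases subsingleton_or_nontrivial (ZMod (p ^ m)) with hs | hn
    · exact Subsingleton.elim _ _
    · rw [hρg]
      have hr2 : Module.finrank (ZMod (p ^ m)) (Fin 2 → ZMod (p ^ m)) = 2 := by simp
      have hcp : (redRep r m φ).charpoly = Polynomial.X ^ 2 -
          Polynomial.C ((a ℓ : ℤ) : ZMod (p ^ m)) * Polynomial.X +
            Polynomial.C ((ℓ : ℤ) : ZMod (p ^ m)) := by
        rw [← htr', ← hdet']
        exact H32.charpoly_eq_of_basis (Pi.basisFun _ _) _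
      rw [H31.trace_pow_of_charpoly hr2 _ _ _ hcp j]
      exact (H31.map_luc (Int.castRingHom (ZMod (p ^ m))) _ _ j).symm
  · rw [hρg, map_pow, hdet', Int.cast_pow]
  · intro x hx
    have h3 := congrArg (fun F : Module.End ℤ (orb H53.GQ y) => ((F ⟨x, hx⟩ : orb H53.GQ y) : J)) hrel'
    simp only [LinearMap.add_apply, LinearMap.sub_apply, Module.End.mul_apply,
      Module.algebraMap_end_apply, AddSubgroup.coe_add, AddSubgroup.coe_sub,
      LinearMap.zero_apply, AddSubgroup.coe_zero, AddSubgroupClass.coe_zsmul, hfj] at h3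
    rw [hxg _ (smul_mem_orb g hx), hxg _ hx]
    exact h3

end Rel

end Fermat.Agent.H35
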