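import Mathlib
import Fermat.Agent.H35LTRel

/-!
# The image of `r mod p^m` spans the matrix algebra
-/

set_option autoImplicit false
set_option linter.unusedSectionVars false
set_option linter.style.haveILetI false

noncomputable section

open Fermat.Agent.H53

namespace Fermat.Agent.H35

variable {p : ℕ} [hp : Fact p.Prime]

theorem dvd_pow_of_pos {m : ℕ} (hm : m ≠ 0) : p ∣ p ^ m := dvd_pow_self p hm

theorem castHom_toZModPow {m : ℕ} (hm : m ≠ 0) (x : ℤ_[p]) :
    ZMod.castHom (dvd_pow_of_pos hm) (ZMod p) (PadicInt.toZModPow m x) = PadicInt.toZMod x := by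
  have h1 : x - (x.zmodRepr : ℤ_[p]) ∈ IsLocalRing.maximalIdeal ℤ_[p] := x.sub_zmodRepr_mem
  rw [PadicInt.maximalIdeal_eq_span_p, Ideal.mem_span_singleton] at h1
  obtain ⟨y, hy⟩ := h1
  have hx : x = (x.zmodRepr : ℤ_[p]) + (p : ℤ_[p]) * y := by rw [← hy]; ring
  have hp0 : (p : ZMod p) = 0 := CharP.cast_eq_zero (ZMod p) p
  rw [hx, map_add, map_mul, map_natCast, map_natCast, map_add, map_mul, map_natCast, map_natCast,
    map_add, map_mul, map_natCast, map_natCast, hp0, zero_mul, zero_mul]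

theorem exists_eq_mul_of_castHom_eq_zero {m : ℕ} (hm : m ≠ 0) {c : ZMod (p ^ m)}
    (hc : ZMod.castHom (dvd_pow_of_pos (p := p) hm) (ZMod p) c = 0) :
    ∃ c' : ZMod (p ^ m), c = (p : ZMod (p ^ m)) * c' := by
  haveI : NeZero (p ^ m) := ⟨pow_ne_zero m hp.out.ne_zero⟩
  have h1 : ((c.val : ℕ) : ZMod p) = 0 := by
    have h2 : c = ((c.val : ℕ) : ZMod (p ^ m)) := (ZMod.natCast_zmod_val c).symm
    rw [h2, map_natCast] at hc
    exact hc
  rw [CharP.cast_eq_zero_iff (ZMod p) p] at h1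
  obtain ⟨k, hk⟩ := h1
  refine ⟨(k : ZMod (p ^ m)), ?_⟩
  rw [← Nat.cast_mul, ← hk, ZMod.natCast_zmod_val]

theorem span_mapMat {r : H53.GQ →* M2 ℤ_[p]}
    (h : Submodule.span (ZMod p) (Set.range (mapMat PadicInt.toZMod r)) = ⊤) (m : ℕ) :
    Submodule.span (ZMod (p ^ m)) (Set.range (mapMat (PadicInt.toZModPow m) r)) = ⊤ := by
  rcases Nat.eq_zero_or_pos m with rfl | hm
  · haveI : Subsingleton (ZMod (p ^ 0)) := by rw [pow_zero]; infer_instance
    haveI : Subsingleton (Matrix (Fin 2) (Fin 2) (ZMod (p ^ 0))) :=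
      ⟨fun a b => Matrix.ext fun i j => Subsingleton.elim _ _⟩
    exact Subsingleton.elim _ _
  have hm0 : m ≠ 0 := hm.ne'
  set N := Submodule.span (ZMod (p ^ m)) (Set.range (mapMat (PadicInt.toZModPow m) r)) with hN
  set red : M2 (ZMod (p ^ m)) →+* M2 (ZMod p) :=
    (ZMod.castHom (dvd_pow_of_pos (p := p) hm0) (ZMod p)).mapMatrix with hred
  -- lifting
  have hlift : ∀ W : M2 (ZMod p), ∃ Y ∈ N, red Y = W := by
    intro W
    have hW : W ∈ Submodule.span (ZMod p) (Set.range (mapMat PadicInt.toZMod r)) := by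
      rw [h]; trivial
    induction hW using Submodule.span_induction with
    | mem W hW =>
      obtain ⟨g, rfl⟩ := hW
      refine ⟨mapMat (PadicInt.toZModPow m) r g, Submodule.subset_span ⟨g, rfl⟩, ?_⟩
      ext i j
      exact castHom_toZModPow hm0 _
    | zero => exact ⟨0, Submodule.zero_mem _, map_zero _⟩
    | add W W' _ _ h1 h2 =>
      obtain ⟨Y, hY, rfl⟩ := h1
      obtain ⟨Y', hY', rfl⟩ := h2
      exact ⟨Y + Y', Submodule.add_mem _ hY hY', map_add _ _ _⟩
    | smul c W _ h1 =>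
      obtain ⟨Y, hY, rfl⟩ := h1
      obtain ⟨c', rfl⟩ := ZMod.castHom_surjective (dvd_pow_of_pos (p := p) hm0) c
      refine ⟨c' • Y, Submodule.smul_mem _ _ hY, ?_⟩
      ext i j
      exact map_mul (ZMod.castHom (dvd_pow_of_pos (p := p) hm0) (ZMod p)) _ _
  have hbase : ∀ X : M2 (ZMod (p ^ m)), ∃ Y ∈ N, ∃ Z : M2 (ZMod (p ^ m)),
      X = Y + (p : ZMod (p ^ m)) • Z := by
    intro X
    obtain ⟨Y, hY, hYX⟩ := hlift (red X)
    have h1 : ∀ i j, ∃ z : ZMod (p ^ m), (X - Y) i j = (p : ZMod (p ^ m)) * z := by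
      intro i j
      apply exists_eq_mul_of_castHom_eq_zero hm0
      have h2 : red (X - Y) i j = 0 := by rw [map_sub, hYX, sub_self, Matrix.zero_apply]
      exact h2
    choose Z hZ using h1
    refine ⟨Y, hY, Matrix.of Z, ?_⟩
    ext i j
    have h2 := hZ i j
    rw [Matrix.sub_apply, sub_eq_iff_eq_add] at h2
    rw [h2, Matrix.add_apply, Matrix.smul_apply, Matrix.of_apply, smul_eq_mul, add_comm]
  have hk : ∀ (k : ℕ) (X : M2 (ZMod (p ^ m))), ∃ Y ∈ N, ∃ Z : M2 (ZMod (p ^ m)),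
      X = Y + ((p ^ k : ℕ) : ZMod (p ^ m)) • Z := by
    intro k
    induction k with
    | zero =>
      intro X
      exact ⟨0, Submodule.zero_mem _, X, by rw [pow_zero, Nat.cast_one, one_smul, zero_add]⟩
    | succ k ih =>
      intro X
      obtain ⟨Y, hY, Z, rfl⟩ := ih X
      obtain ⟨Y', hY', Z', rfl⟩ := hbase Z
      refine ⟨Y + ((p ^ k : ℕ) : ZMod (p ^ m)) • Y', Submodule.add_mem _ hY
        (Submodule.smul_mem _ _ hY'), Z', ?_⟩
      rw [smul_add, smul_smul, ← Nat.cast_mul, ← pow_succ, add_assoc]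
  rw [Submodule.eq_top_iff']
  intro X
  obtain ⟨Y, hY, Z, hX⟩ := hk m X
  rw [hX, CharP.cast_eq_zero, zero_smul, add_zero]
  exact hY

theorem span_redRep {r : H53.GQ →* M2 ℤ_[p]}
    (h : Submodule.span (ZMod p) (Set.range (mapMat PadicInt.toZMod r)) = ⊤) (m : ℕ) :
    Submodule.span (ZMod (p ^ m)) (Set.range (redRep r m)) = ⊤ := by
  have h1 := span_mapMat h m
  have h2 : Set.range (redRep r m) =
      (Matrix.toLin' : M2 (ZMod (p ^ m)) ≃ₗ[ZMod (p ^ m)] _) ''
        Set.range (mapMat (PadicInt.toZModPow m) r) := by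
    rw [← Set.range_comp]
    rfl
  rw [h2, ← LinearEquiv.coe_coe, ← Submodule.map_span, h1, Submodule.map_top,
    LinearEquiv.range]

/-- The matrix algebra over `𝔽₂` is spanned by the invertible matrices. -/
theorem span_two_of_surj {r : H53.GQ →* M2 (ZMod 2)}
    (h : ∀ M : M2 (ZMod 2), M.det ≠ 0 → ∃ g, r g = M) :
    Submodule.span (ZMod 2) (Set.range r) = ⊤ := by
  have hmem : ∀ M : M2 (ZMod 2), M.det ≠ 0 → M ∈ Submodule.span (ZMod 2) (Set.range r) := by
    intro M hM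
    obtain ⟨g, rfl⟩ := h M hM
    exact Submodule.subset_span ⟨g, rfl⟩
  have h00 : !![(1 : ZMod 2), 0; 0, 0] ∈ Submodule.span (ZMod 2) (Set.range r) := by
    have e : !![(1 : ZMod 2), 0; 0, 0] = !![(0 : ZMod 2), 1; 1, 0] + !![(1 : ZMod 2), 1; 1, 0] := by
      decide
    rw [e]
    exact Submodule.add_mem _ (hmem _ (by decide)) (hmem _ (by decide))
  have h01 : !![(0 : ZMod 2), 1; 0, 0] ∈ Submodule.span (ZMod 2) (Set.range r) := by
    have e : !![(0 : ZMod 2), 1; 0, 0] = !![(1 : ZMod 2), 0; 0, 1] + !![(1 : ZMod 2), 1; 0, 1] := by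
      decide
    rw [e]
    exact Submodule.add_mem _ (hmem _ (by decide)) (hmem _ (by decide))
  have h10 : !![(0 : ZMod 2), 0; 1, 0] ∈ Submodule.span (ZMod 2) (Set.range r) := by
    have e : !![(0 : ZMod 2), 0; 1, 0] = !![(1 : ZMod 2), 0; 0, 1] + !![(1 : ZMod 2), 0; 1, 1] := by
      decide
    rw [e]
    exact Submodule.add_mem _ (hmem _ (by decide)) (hmem _ (by decide))
  have h11 : !![(0 : ZMod 2), 0; 0, 1] ∈ Submodule.span (ZMod 2) (Set.range r) := by
    have e : !![(0 : ZMod 2), 0; 0, 1] = !![(0 : ZMod 2), 1; 1, 0] + !![(0 : ZMod 2), 1; 1, 1] := by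
      decide
    rw [e]
    exact Submodule.add_mem _ (hmem _ (by decide)) (hmem _ (by decide))
  rw [Submodule.eq_top_iff']
  intro M
  have hM : M = M 0 0 • !![(1 : ZMod 2), 0; 0, 0] + M 0 1 • !![(0 : ZMod 2), 1; 0, 0] +
      M 1 0 • !![(0 : ZMod 2), 0; 1, 0] + M 1 1 • !![(0 : ZMod 2), 0; 0, 1] := by
    ext i j
    fin_cases i <;> fin_cases j <;> simp
  rw [hM]
  exact Submodule.add_mem _ (Submodule.add_mem _ (Submodule.add_mem _
    (Submodule.smul_mem _ _ h00) (Submodule.smul_mem _ _ h01)) (Submodule.smul_mem _ _ h10))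
    (Submodule.smul_mem _ _ h11)

end Fermat.Agent.H35
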