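import Mathlib
import Fermat.Agent.H35LTSpan
import Fermat.Agent.H67J

/-!
# Removing an auxiliary prime: the geometric input and the removal step

`MazurInput d c q M` is the geometric input of Mazur's principle for `d`-torsion points of `J_0(Mq)`
(`q ∤ M`, `q` prime to `d`), with a loss `c ∣ d`.
-/

set_option autoImplicit false
set_option linter.unusedSectionVars false
set_option linter.style.haveILetI false

noncomputable section

open CuspForm ModularCurve Fermat.Agent.H31 Fermat.Agent.H53 Fermat.Agent.H67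

namespace Fermat.Agent.H35

/-- The `d`-torsion points fixed by the inertia group at `A`. -/
def fixTors (A : ValuationSubring (AlgebraicClosure ℚ)) (d : ℕ) (J : Type*) [AddCommGroup J]
    [DistribMulAction H53.GQ J] : AddSubgroup J where
  carrier := {x | d • x = 0 ∧ ∀ σ ∈ A.inertiaSubgroupIn ℚ, σ • x = x}
  zero_mem' := ⟨smul_zero _, fun σ _ => smul_zero σ⟩
  add_mem' := fun {x y} hx hy => ⟨by rw [smul_add, hx.1, hy.1, add_zero], fun σ hσ => by
    rw [smul_add, hx.2 σ hσ, hy.2 σ hσ]⟩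
  neg_mem' := fun {x} hx => ⟨by rw [smul_neg, hx.1, neg_zero], fun σ hσ => by
    rw [smul_neg, hx.2 σ hσ]⟩

theorem mem_fixTors {A : ValuationSubring (AlgebraicClosure ℚ)} {d : ℕ} {J : Type*}
    [AddCommGroup J] [DistribMulAction H53.GQ J] {x : J} :
    x ∈ fixTors A d J ↔ d • x = 0 ∧ ∀ σ ∈ A.inertiaSubgroupIn ℚ, σ • x = x := Iff.rfl

/-- The geometric data of Mazur's principle: `n` is the component group coordinate, `δ false`, `δ true`
are the two reductions `J_0(Mq)[d]^I_0 → J_0(M)_κ[d] = J_0(M)[d]`. -/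
structure MazurData (d c q R : ℕ) (A : ValuationSubring (AlgebraicClosure ℚ)) (φ : H53.GQ)
    (J J₁ : Type*) [AddCommGroup J] [Module HeckeAlg J] [DistribMulAction H53.GQ J]
    [AddCommGroup J₁] [Module HeckeAlg J₁] (w : J →+ J) where
  n : fixTors A d J →+ ZMod d
  δ : Bool → n.ker →+ J₁
  n_hecke : ∀ ℓ : Nat.Primes, ¬ (ℓ : ℕ) ∣ R → ∀ x x' : fixTors A d J,
    (x' : J) = heckeGen ℓ • (x : J) → n x' = ((ℓ : ℕ) + 1 : ZMod d) * n x
  δ_hecke : ∀ (i : Bool) (ℓ : Nat.Primes), ¬ (ℓ : ℕ) ∣ R → ∀ x x' : n.ker,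
    ((x' : fixTors A d J) : J) = heckeGen ℓ • ((x : fixTors A d J) : J) →
      δ i x' = heckeGen ℓ • δ i x
  ker : ∀ x : n.ker, (∀ i, δ i x = 0) →
    φ • (c • ((x : fixTors A d J) : J)) + q • w (c • ((x : fixTors A d J) : J)) = 0

/-- **The geometric input** of Mazur's principle at `q` for `d`-torsion of `J_0(Mq)`. -/
def MazurInput (d c q M : ℕ) [NeZero M] [NeZero (M * q)] [NeZero q] : Prop :=
  letI := heckeModuleBar (M * q)
  letI := heckeModuleBar M
  ∀ hc : M.Coprime q, ∀ A : ValuationSubring (AlgebraicClosure ℚ), A.LiesOverPrime q →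
    ∀ φ : H53.GQ, A.IsFrobeniusAt φ q →
      Nonempty (MazurData d c q (M * q) A φ (JZero (M * q)) (JZero M) (wJ M q rfl hc))

end Fermat.Agent.H35
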