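import Mathlib
import Fermat.Agent.H35LTInput

/-!
# Removing an auxiliary prime: the removal step (abstract form)
-/

set_option autoImplicit false
set_option linter.unusedSectionVars false
set_option linter.style.haveILetI false

noncomputable section

open CuspForm ModularCurve Fermat.Agent.H31 Fermat.Agent.H53 Fermat.Agent.H67

namespace Fermat.Agent.H35

section Order

variable {J : Type*} [AddCommGroup J]

theorem pow_smul_mul {p : ℕ} (i j : ℕ) (x : J) : p ^ i • (p ^ j • x) = p ^ (i + j) • x := by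
  rw [smul_smul, ← pow_add]

/-- Adjusting the order of a torsion element. -/
theorem exists_exact_order {p : ℕ} {z : J} {K k : ℕ} (hK : p ^ K • z = 0) (hk : p ^ k • z ≠ 0) :
    ∃ j : ℕ, p ^ (k + 1) • (p ^ j • z) = 0 ∧ p ^ k • (p ^ j • z) ≠ 0 := by
  classical
  have hex : ∃ i, p ^ i • z = 0 := ⟨K, hK⟩
  set i := Nat.find hex with hi
  have h0 : p ^ i • z = 0 := Nat.find_spec hex
  have hki : k < i := by
    by_contra hcon
    rw [not_lt] at hcon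
    apply hk
    obtain ⟨e, rfl⟩ := Nat.exists_eq_add_of_le hcon
    rw [add_comm, ← pow_smul_mul, h0, smul_zero]
  refine ⟨i - 1 - k, ?_, ?_⟩
  · rw [pow_smul_mul, show k + 1 + (i - 1 - k) = i by omega, h0]
  · rw [pow_smul_mul, show k + (i - 1 - k) = i - 1 by omega]
    exact Nat.find_min hex (by omega)

end Order

section Step

variable {p : ℕ} [hp : Fact p.Prime] {J J₁ : Type*} [AddCommGroup J] [Module HeckeAlg J]
  [DistribMulAction H53.GQ J] [SMulCommClass H53.GQ HeckeAlg J] [AddCommGroup J₁]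
  [Module HeckeAlg J₁]

/-- An integer prime to `p` acts injectively on `p`-power torsion; here: on `ZMod (p^m)`. -/
theorem eq_zero_of_mul_unit {m : ℕ} {b : ℤ} (hb : ¬ (p : ℤ) ∣ b) {z : ZMod (p ^ m)}
    (h : (b : ZMod (p ^ m)) * z = 0) : z = 0 := by
  have hcop : IsCoprime (b : ℤ) ((p ^ m : ℕ) : ℤ) := by
    rw [Nat.cast_pow]
    exact IsCoprime.pow_right ((Prime.coprime_iff_not_dvd (Nat.prime_iff_prime_int.mp hp.out)).mpr
      hb).symm
  obtain ⟨u, v, huv⟩ := hcop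
  have h1 : (u : ZMod (p ^ m)) * (b : ZMod (p ^ m)) = 1 := by
    have := congrArg (Int.cast : ℤ → ZMod (p ^ m)) huv
    push_cast at this
    have h2 : ((p : ZMod (p ^ m)) ^ m) = 0 := by
      rw [← Nat.cast_pow]; exact CharP.cast_eq_zero (ZMod (p ^ m)) (p ^ m)
    rw [h2, mul_zero, add_zero] at this
    exact this
  calc z = (u : ZMod (p ^ m)) * (b : ZMod (p ^ m)) * z := by rw [h1, one_mul]
    _ = (u : ZMod (p ^ m)) * ((b : ZMod (p ^ m)) * z) := by ring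
    _ = 0 := by rw [h, mul_zero]

theorem castHom_eq_zero_of_pow_mul {m : ℕ} (hm : m ≠ 0) {x : ZMod (p ^ m)}
    (h : ((p ^ (m - 1) : ℕ) : ZMod (p ^ m)) * x = 0) :
    ZMod.castHom (dvd_pow_of_pos (p := p) hm) (ZMod p) x = 0 := by
  haveI : NeZero (p ^ m) := ⟨pow_ne_zero m hp.out.ne_zero⟩
  have hx : x = ((x.val : ℕ) : ZMod (p ^ m)) := (ZMod.natCast_zmod_val x).symm
  rw [hx, ← Nat.cast_mul, CharP.cast_eq_zero_iff (ZMod (p ^ m)) (p ^ m)] at h
  have h1 : p ^ (m - 1) * p ∣ p ^ (m - 1) * x.val := by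
    refine dvd_trans (dvd_of_eq ?_) h
    rw [← pow_succ]; congr 1; omega
  have h2 : p ∣ x.val := Nat.dvd_of_mul_dvd_mul_left (pow_pos hp.out.pos _) h1
  rw [hx, map_natCast, CharP.cast_eq_zero_iff (ZMod p) p]
  exact h2

/-- **The removal step**, for an element of exact order `p^m` which is an eigenvector of `w`. -/
theorem exists_removal {m r q R₀ R : ℕ} (hrm : r < m) (hR : R₀ ∣ R) {A : ValuationSubring (AlgebraicClosure ℚ)}
    {φ : H53.GQ} {w : J →+ J} (hw : ∀ (σ : H53.GQ) (x : J), w (σ • x) = σ • w x)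
    (D : MazurData (p ^ m) (p ^ r) q R₀ A φ J J₁ w)
    {S : Finset ℕ} (hpS : p ∈ S) (hRS : ∀ q : ℕ, q.Prime → q ∣ R → q ∈ S)
    (hF : FrobeniusQuadratic (K := ℚ) (L := AlgebraicClosure ℚ) R₀ p J)
    (hlev : FiniteLevel p J) {ρ : H53.GQ →* M2 ℤ_[p]} (hρ : MCont ℤ_[p] ρ)
    (hspan : Submodule.span (ZMod p) (Set.range (mapMat PadicInt.toZMod ρ)) = ⊤) (a : ℕ → ℤ)
    (hfrob : ∀ ℓ : ℕ, ℓ.Prime → ℓ ∉ S → ∀ A : ValuationSubring (AlgebraicClosure ℚ),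
      A.LiesOverPrime ℓ → ∀ φ : H53.GQ, A.IsFrobeniusAt φ ℓ →
        (ρ φ).trace = ((a ℓ : ℤ) : ℤ_[p]) ∧ (ρ φ).det = (ℓ : ℤ_[p]))
    (hunr : ∀ σ ∈ A.inertiaSubgroupIn ℚ, ρ σ = 1)
    (hns : ∀ c : ZMod p, mapMat PadicInt.toZMod ρ φ ≠ c • 1)
    (hEis : ∃ ℓ : ℕ, ℓ.Prime ∧ ℓ ∉ S ∧ ¬ (p : ℤ) ∣ a ℓ - (ℓ + 1))
    {y : J} (hy : p ^ m • y = 0) (hy' : p ^ (m - 1) • y ≠ 0) {ε : ℤ} (hwy : w y = ε • y)
    (hT : ∀ ℓ : Nat.Primes, ¬ (ℓ : ℕ) ∣ R → heckeGen ℓ • y = a ℓ • y) :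
    ∃ y' : J₁, p ^ m • y' = 0 ∧ p ^ (m - 1 - r) • y' ≠ 0 ∧
      ∀ ℓ : Nat.Primes, ¬ (ℓ : ℕ) ∣ R → heckeGen ℓ • y' = a ℓ • y' := by
  have hm0 : m ≠ 0 := by omega
  have hTS : ∀ ℓ : Nat.Primes, (ℓ : ℕ) ∉ S → heckeGen ℓ • y = a ℓ • y :=
    fun ℓ hℓ => hT ℓ fun h => hℓ (hRS ℓ ℓ.2 h)
  obtain ⟨ι, hinj, hequiv, horb⟩ := exists_embedding (J := J) hp.out (Pi.basisFun (ZMod (p ^ m)) (Fin 2))
    (redRep ρ m) (span_redRep hspan m) hy hy'
    (quadratic_orb hpS (fun v hv h => hRS v hv (h.trans hR)) hF hlev hρ a hfrob hy hTS)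
  have hfix : ∀ v, ι v ∈ fixTors A (p ^ m) J := fun v =>
    ⟨nsmul_eq_zero_of_mem_orb hy (horb v), fun σ hσ => by
      rw [← hequiv, redRep_apply, show mapMat (PadicInt.toZModPow m) ρ σ = 1 from ?_,
        Matrix.one_mulVec]
      rw [mapMat_apply', hunr σ hσ]
      exact map_one (PadicInt.toZModPow m : ℤ_[p] →+* _).mapMatrix⟩
  have hTι : ∀ (ℓ : Nat.Primes), ¬ (ℓ : ℕ) ∣ R → ∀ v, heckeGen ℓ • ι v = a ℓ • ι v :=
    fun ℓ hℓ v => hecke_of_mem_orb (hT ℓ hℓ) (horb v)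
  have hwι : ∀ v, w (ι v) = ε • ι v := fun v =>
    apply_of_mem_orb (G := H53.GQ) (f := w) hw hwy (horb v)
  -- the component coordinate vanishes
  have hn : ∀ v, D.n ⟨ι v, hfix v⟩ = 0 := by
    intro v
    obtain ⟨ℓ, hℓ, hℓS, hℓa⟩ := hEis
    have hℓR : ¬ ℓ ∣ R := fun h => hℓS (hRS ℓ hℓ h)
    have h1 := D.n_hecke ⟨ℓ, hℓ⟩ (fun h => hℓR (h.trans hR)) ⟨ι v, hfix v⟩ (a ℓ • ⟨ι v, hfix v⟩) (hTι ⟨ℓ, hℓ⟩ hℓR v).symm
    rw [map_zsmul, zsmul_eq_mul] at h1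
    refine eq_zero_of_mul_unit (p := p) (m := m) hℓa ?_
    push_cast
    rw [sub_mul, h1, sub_self]
  let κ : (Fin 2 → ZMod (p ^ m)) → D.n.ker := fun v => ⟨⟨ι v, hfix v⟩, hn v⟩
  -- some `δ i (κ v)` has large order
  obtain ⟨i, v, hiv⟩ : ∃ (i : Bool) (v : Fin 2 → ZMod (p ^ m)), p ^ (m - 1 - r) • D.δ i (κ v) ≠ 0 := by
    by_contra hcon
    push Not at hcon
    -- then Frobenius is scalar modulo `p`
    have key : ∀ v : Fin 2 → ZMod (p ^ m),
        p ^ (m - 1) • (redRep ρ m φ v + ((q : ℤ) * ε) • v) = 0 := by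
      intro v
      apply hinj
      have h1 := D.ker (p ^ (m - 1 - r) • κ v) (fun i => by
        rw [map_nsmul]; exact hcon i v)
      have h2 : (((p ^ (m - 1 - r) • κ v : D.n.ker) : fixTors A (p ^ m) J) : J) =
          p ^ (m - 1 - r) • ι v := rfl
      rw [h2, pow_smul_mul, show r + (m - 1 - r) = m - 1 by omega, map_nsmul, hwι,
        smul_comm φ (p ^ (m - 1)) (ι v), ← hequiv, ← Nat.cast_smul_eq_nsmul ℤ q] at h1
      rw [map_zero, map_nsmul, map_add, map_zsmul, smul_add, mul_smul,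
        smul_comm (p ^ (m - 1)) (q : ℤ)]
      exact h1
    apply hns (-(((q : ℤ) * ε : ℤ) : ZMod p))
    ext i j
    have h1 := congrFun (key (Pi.single j 1)) i
    have h2 : ((p ^ (m - 1) : ℕ) : ZMod (p ^ m)) * (mapMat (PadicInt.toZModPow m) ρ φ i j +
        (((q : ℤ) * ε : ℤ) : ZMod (p ^ m)) * (1 : M2 (ZMod (p ^ m))) i j) = 0 := by
      rw [Pi.smul_apply, Pi.add_apply, Pi.smul_apply, redRep_apply, Matrix.mulVec_single_one,
        Pi.zero_apply, nsmul_eq_mul, zsmul_eq_mul] at h1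
      rw [← h1, Matrix.one_apply, Pi.single_apply]
      rfl
    have h3 := castHom_eq_zero_of_pow_mul hm0 h2
    rw [map_add, map_mul, map_intCast, mapMat_apply, castHom_toZModPow hm0] at h3
    rw [mapMat_apply, Matrix.smul_apply, smul_eq_mul, neg_mul, eq_neg_iff_add_eq_zero, ← h3]
    congr 2
    rw [Matrix.one_apply, Matrix.one_apply]
    split_ifs
    · exact (map_one _).symm
    · exact (map_zero _).symm
  refine ⟨D.δ i (κ v), ?_, hiv, fun ℓ hℓ => ?_⟩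
  · rw [← map_nsmul]
    have : p ^ m • κ v = 0 := Subtype.ext (Subtype.ext (hfix v).1)
    rw [this, map_zero]
  · have h1 := D.δ_hecke i ℓ (fun h => hℓ (h.trans hR)) (κ v) (a ℓ • κ v) (hTι ℓ hℓ v).symm
    rw [← h1, map_zsmul]

end Step

end Fermat.Agent.H35
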