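import Mathlib
import Fermat.Agent.H35LTStep
import Fermat.Agent.H31Inputs

/-!
# Removing all auxiliary primes

`LevelPoint p S a N k` : there is a `p`-power torsion point `y` of `J_0(N)` with `p^k y ≠ 0` and
`T_ℓ y = a_ℓ y` for all primes `ℓ ∤ S`.
-/

set_option autoImplicit false
set_option linter.unusedSectionVars false
set_option linter.style.haveILetI false

noncomputable section

open CuspForm ModularCurve Fermat.Agent.H31 Fermat.Agent.H53 Fermat.Agent.H67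

namespace Fermat.Agent.H35

/-- A torsion point of `J_0(N)` of order `> p^k` on which the operators `T_ℓ`, `ℓ ∤ R`, act through
`a`. -/
def LevelPoint (p R : ℕ) (a : ℕ → ℤ) (N : ℕ) [NeZero N] (k : ℕ) : Prop :=
  letI := heckeModuleBar N
  ∃ y : JZero N, (∃ K, p ^ K • y = 0) ∧ p ^ k • y ≠ 0 ∧
    ∀ ℓ : Nat.Primes, ¬ (ℓ : ℕ) ∣ R → heckeGen ℓ • y = a ℓ • y

/-- The Galois-side data of the form used to remove primes. -/
structure GalData (p : ℕ) [Fact p.Prime] (S : Finset ℕ) (a : ℕ → ℤ) (ρ : H53.GQ →* M2 ℤ_[p]) :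
    Prop where
  pS : p ∈ S
  cont : MCont ℤ_[p] ρ
  span : Submodule.span (ZMod p) (Set.range (mapMat PadicInt.toZMod ρ)) = ⊤
  frob : ∀ ℓ : ℕ, ℓ.Prime → ℓ ∉ S → ∀ A : ValuationSubring (AlgebraicClosure ℚ),
      A.LiesOverPrime ℓ → ∀ φ : H53.GQ, A.IsFrobeniusAt φ ℓ →
        (ρ φ).trace = ((a ℓ : ℤ) : ℤ_[p]) ∧ (ρ φ).det = (ℓ : ℤ_[p])
  notEis : ∀ S' : Finset ℕ, ∃ ℓ : ℕ, ℓ.Prime ∧ ℓ ∉ S' ∧ ¬ (p : ℤ) ∣ a ℓ - (ℓ + 1)

/-- The conditions at an auxiliary prime. -/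
structure AuxData (p : ℕ) [Fact p.Prime] (ρ : H53.GQ →* M2 ℤ_[p]) (q : ℕ) : Prop where
  prime : q.Prime
  unr : ∀ A : ValuationSubring (AlgebraicClosure ℚ), A.LiesOverPrime q →
    ∀ σ ∈ A.inertiaSubgroupIn ℚ, ρ σ = 1
  ns : ∃ A : ValuationSubring (AlgebraicClosure ℚ), A.LiesOverPrime q ∧
    ∃ φ : H53.GQ, A.IsFrobeniusAt φ q ∧ ∀ c : ZMod p, mapMat PadicInt.toZMod ρ φ ≠ c • 1

section

variable {p : ℕ} [hp : Fact p.Prime] {S : Finset ℕ} {a : ℕ → ℤ} {ρ : H53.GQ →* M2 ℤ_[p]}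

/-- Choosing an eigenvector of an involution. -/
theorem exists_w_eigen {p : ℕ} (hp : p.Prime) {J : Type*} [AddCommGroup J] (w : J →+ J)
    (hww : ∀ x, w (w x) = x) {y : J} {K k : ℕ} (hK : p ^ K • y = 0) (hk : p ^ (k + 1) • y ≠ 0)
    {ι : Type*} (T : ι → J →+ J) (a : ι → ℤ) (hwT : ∀ i x, w (T i x) = T i (w x))
    (hT : ∀ i, T i y = a i • y) :
    ∃ (z : J) (ε : ℤ), w z = ε • z ∧ p ^ K • z = 0 ∧ p ^ k • z ≠ 0 ∧ ∀ i, T i z = a i • z := by
  have hTadd : ∀ (ε : ℤ) (i : ι), T i (y + ε • w y) = a i • (y + ε • w y) := by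
    intro ε i
    rw [map_add, hT, map_zsmul, ← hwT, hT, map_zsmul, smul_add, smul_comm ε (a i)]
  have hKadd : ∀ ε : ℤ, p ^ K • (y + ε • w y) = 0 := by
    intro ε
    rw [smul_add, hK, smul_comm (p ^ K) ε, ← map_nsmul, hK, map_zero, smul_zero, add_zero]
  by_cases h1 : p ^ k • (y + (1 : ℤ) • w y) = 0
  · refine ⟨y + (-1 : ℤ) • w y, -1, ?_, hKadd _, fun h2 => ?_, hTadd _⟩
    · rw [map_add, map_zsmul, hww, neg_one_zsmul, neg_one_zsmul, neg_one_zsmul, neg_add, neg_neg,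
        add_comm]
    · -- both vanish: `2 p^k y = 0`
      have h3 : (2 : ℕ) • (p ^ k • y) = 0 := by
        have h4 : p ^ k • (y + (1 : ℤ) • w y) + p ^ k • (y + (-1 : ℤ) • w y) = 0 := by
          rw [h1, h2, add_zero]
        rw [← smul_add, one_zsmul, neg_one_zsmul] at h4
        rw [smul_comm, two_smul, ← h4]
        congr 1
        abel
      rcases hp.eq_two_or_odd' with h5 | h5
      · subst h5
        apply hk
        rw [pow_succ', mul_smul]
        exact h3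
      · have h6 : p ^ K • (p ^ k • y) = 0 := by rw [smul_comm, hK, smul_zero]
        have hcop : Nat.Coprime 2 (p ^ K) :=
          Nat.Coprime.pow_right K (Nat.coprime_two_left.mpr h5)
        obtain ⟨s, t, hst⟩ := Nat.isCoprime_iff_coprime.mpr hcop
        apply hk
        have h7 : (1 : ℤ) • (p ^ k • y) = 0 := by
          rw [← hst, add_zsmul, mul_zsmul, mul_zsmul, natCast_zsmul, natCast_zsmul, h3, h6,
            zsmul_zero, zsmul_zero, add_zero]
        rw [one_zsmul] at h7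
        rw [pow_succ', mul_smul, h7, smul_zero]
  · refine ⟨y + (1 : ℤ) • w y, 1, ?_, hKadd _, h1, hTadd _⟩
    rw [one_zsmul, one_zsmul, map_add, hww, add_comm]

theorem levelPoint_step (hG : GalData p S a ρ) {M q : ℕ} [NeZero M] [NeZero (M * q)] [NeZero q]
    (hq : AuxData p ρ q) (hc : M.Coprime q)
    {r : ℕ} (hD : ∀ m : ℕ, MazurInput (p ^ m) (p ^ r) q M) {R : ℕ} (hR0 : R ≠ 0)
    (hR : M * q ∣ R) {k : ℕ}
    (h : LevelPoint p R a (M * q) (k + r + 1)) : LevelPoint p R a M k := by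
  classical
  letI := heckeModuleBar (M * q)
  letI := heckeModuleBar M
  haveI := smulCommClass (M * q)
  haveI := (jzeroInputs (M * q)).principal
  obtain ⟨y, ⟨K, hK⟩, hk, hT⟩ := h
  set w := wJ (R := M * q) M q rfl hc with hw
  have hww : ∀ x, w (w x) = x := wJ_wJ rfl hc
  have hwg : ∀ (σ : H53.GQ) (x : JZero (M * q)), w (σ • x) = σ • w x := wJ_galois rfl hc
  have hwT : ∀ (ℓ : Nat.Primes), ¬ (ℓ : ℕ) ∣ M * q → ∀ x, w (heckeGen ℓ • x) = heckeGen ℓ • w x := by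
    intro ℓ hℓ x
    have h1 : ∀ y : JZero (M * q), heckeGen ℓ • y = heckeOperatorBar (M * q) ℓ y :=
      fun y => heckeModuleBar_heckeGen_smul (heckeOperatorsCommuteBar (M * q)) ℓ y
    rw [h1, h1]
    refine wJ_hecke rfl hc ℓ ?_ x
    rw [Nat.Prime.coprime_iff_not_dvd ℓ.2]
    intro h2
    exact hℓ (h2.trans (dvd_mul_left q M))
  -- choose an eigenvector of `w`
  obtain ⟨z, ε, hzε, hzK, hzk, hzT⟩ := exists_w_eigen hp.out w hww hK hk
    (ι := {ℓ : Nat.Primes // ¬ (ℓ : ℕ) ∣ R})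
    (fun ℓ => DistribSMul.toAddMonoidHom (JZero (M * q)) (heckeGen ℓ.1)) (fun ℓ => a ℓ.1)
    (fun ℓ x => hwT ℓ.1 (fun h => ℓ.2 (h.trans hR)) x) (fun ℓ => hT ℓ.1 ℓ.2)
  -- exact order
  obtain ⟨j, hj0, hj1⟩ := exists_exact_order hzK hzk
  obtain ⟨A, hA, φ, hφ, hns⟩ := hq.ns
  obtain ⟨D⟩ := hD (k + r + 1) hc A hA φ hφ
  have hS' : ∀ v : ℕ, v.Prime → v ∣ R → v ∈ S ∪ R.primeFactors := fun v hv hvR =>
    Finset.mem_union_right _ (Nat.mem_primeFactors.mpr ⟨hv, hvR, hR0⟩)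
  obtain ⟨y', hy1, hy2, hy3⟩ := exists_removal (p := p) (m := k + r + 1) (r := r) (by omega) hR hwg D
    (S := S ∪ R.primeFactors) (Finset.mem_union_left _ hG.pS) hS'
    (frobeniusQuadratic_of_specializationExists (specializationExists (M * q) p))
    (finiteLevel_JZero (M * q) p (fun n => (jzeroInputs (M * q)).finite p n hp.out))
    hG.cont hG.span a
    (fun ℓ hℓ hℓS => hG.frob ℓ hℓ fun h => hℓS (Finset.mem_union_left _ h))
    (hq.unr A hA) hns (hG.notEis _) hj0 (by simpa using hj1) (ε := ε)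
    (by rw [map_nsmul, hzε, smul_comm]) (fun ℓ hℓ => by
      have h1 : heckeGen ℓ • z = a ℓ • z := hzT ⟨ℓ, hℓ⟩
      rw [smul_comm (heckeGen ℓ) (p ^ j) z, h1, smul_comm])
  refine ⟨y', ⟨_, hy1⟩, ?_, hy3⟩
  rwa [show k + r + 1 - 1 - r = k by omega] at hy2

/-- Removing a list of primes. -/
theorem levelPoint_list (hG : GalData p S a ρ) {N : ℕ} [NeZero N] {r : ℕ} {R : ℕ} (hR0 : R ≠ 0) :
    ∀ (L : List ℕ) (N' : ℕ) [NeZero N'] (k : ℕ), N' = N * L.prod → N' ∣ R →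
      (∀ q ∈ L, AuxData p ρ q) → L.Nodup → (∀ q ∈ L, ¬ q ∣ N) →
      (∀ q ∈ L, ∀ (M m : ℕ) [NeZero M] [NeZero (M * q)] [NeZero q], N ∣ M → ¬ q ∣ M →
        MazurInput (p ^ m) (p ^ r) q M) →
      LevelPoint p R a N' (k + (r + 1) * L.length) → LevelPoint p R a N k := by
  intro L
  induction L with
  | nil =>
    intro N' _ k hN' _ _ _ _ _ h
    simp only [List.prod_nil, mul_one, List.length_nil, mul_zero, add_zero] at hN' h
    subst hN'
    exact h
  | cons q L ih =>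
    intro N' _ k hN' hR hL hnd hNL hin h
    have hN0 : N ≠ 0 := NeZero.ne N
    have hN'0 : N' ≠ 0 := NeZero.ne N'
    rw [List.prod_cons, mul_comm q L.prod, ← mul_assoc] at hN'
    have hq0 : q ≠ 0 := by rintro rfl; exact hN'0 (by rw [hN', mul_zero])
    have hM0 : N * L.prod ≠ 0 := by intro h0; exact hN'0 (by rw [hN', h0, zero_mul])
    haveI : NeZero q := ⟨hq0⟩
    haveI : NeZero (N * L.prod) := ⟨hM0⟩
    subst hN'
    have hqA := hL q (List.mem_cons_self)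
    have hqp := hqA.prime
    have hqM : ¬ q ∣ N * L.prod := by
      intro h1
      rcases hqp.dvd_mul.mp h1 with h2 | h2
      · exact hNL q List.mem_cons_self h2
      · obtain ⟨v, hv, hqv⟩ := (Nat.Prime.prime hqp).dvd_prod_iff.mp h2
        have hvp := (hL v (List.mem_cons_of_mem q hv)).prime
        rw [(Nat.prime_dvd_prime_iff_eq hqp hvp).mp hqv] at hnd
        exact (List.nodup_cons.mp hnd).1 hv
    refine ih (N * L.prod) k rfl ((dvd_mul_right _ q).trans hR)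
      (fun v hv => hL v (List.mem_cons_of_mem q hv)) (List.nodup_cons.mp hnd).2
      (fun v hv => hNL v (List.mem_cons_of_mem q hv))
      (fun v hv => hin v (List.mem_cons_of_mem q hv)) ?_
    refine levelPoint_step hG hqA
      (Nat.coprime_comm.mp ((Nat.Prime.coprime_iff_not_dvd hqp).mpr hqM))
      (fun m => hin q List.mem_cons_self (N * L.prod) m (dvd_mul_right _ _) hqM) hR0 hR ?_
    rw [List.length_cons] at h
    convert h using 1
    ring

end

end Fermat.Agent.H35
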