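import Mathlib
import Fermat.Agent.H35Fin
import Fermat.Agent.H35LTDown

/-!
# From congruences of Hecke eigensystems to torsion points

If `χ : 𝕋(N) → O` is a system of Hecke eigenvalues with values in a complete DVR `O` with
`χ(T_ℓ) ≡ a_ℓ mod p^(n+1)`, `a_ℓ ∈ ℤ`, there is a torsion point `y` of `J_0(N)` of exact order
`p^(n+1)` with `T_ℓ y = a_ℓ y`.
-/

set_option autoImplicit false
set_option linter.unusedSectionVars false
set_option linter.style.haveILetI false

noncomputable section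

open CuspForm ModularCurve Fermat.Agent.H31 Fermat.Agent.H53 Fermat.Agent.H67 Fermat.Agent.H30
open IsLocalRing TensorProduct

namespace Fermat.Agent.H35

section Finite

variable {p : ℕ} [hp : Fact p.Prime] (O : Type) [CommRing O] [IsDomain O]
  [IsDiscreteValuationRing O] [IsAdicComplete (maximalIdeal O) O] [Finite (ResidueField O)]
  [CharZero O] [Algebra ℤ_[p] O]

/-- `O / p` is finite. -/
theorem finite_quotient_p : Finite (O ⧸ Ideal.span {(p : O)}) := by
  have hp0 : (p : O) ≠ 0 := Nat.cast_ne_zero.mpr hp.out.ne_zero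
  obtain ⟨ϖ, hϖ⟩ := IsDiscreteValuationRing.exists_irreducible O
  obtain ⟨e, he⟩ := IsDiscreteValuationRing.associated_pow_irreducible hp0 hϖ
  have h1 : Ideal.span {(p : O)} = maximalIdeal O ^ e := by
    rw [hϖ.maximalIdeal_eq, Ideal.span_singleton_pow]
    exact Ideal.span_singleton_eq_span_singleton.mpr he
  rw [h1]
  haveI : Finite (O ⧸ maximalIdeal O) := inferInstanceAs (Finite (ResidueField O))
  exact Ideal.finite_quotient_pow (IsNoetherian.noetherian _) e

theorem mem_pow_smul_iff_padic (n : ℕ) (x : O) :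
    x ∈ (maximalIdeal ℤ_[p] ^ n • (⊤ : Submodule ℤ_[p] O)) ↔ ∃ y : O, x = (p : O) ^ n * y := by
  rw [PadicInt.maximalIdeal_eq_span_p, Ideal.span_singleton_pow,
    Submodule.ideal_span_singleton_smul, Submodule.mem_smul_pointwise_iff_exists]
  constructor
  · rintro ⟨y, -, rfl⟩
    exact ⟨y, by rw [Algebra.smul_def, map_pow, map_natCast]⟩
  · rintro ⟨y, rfl⟩
    exact ⟨y, trivial, by rw [Algebra.smul_def, map_pow, map_natCast]⟩

theorem finite_padic (hpO : (p : O) ∈ maximalIdeal O) : Module.Finite ℤ_[p] O := by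
  classical
  haveI := finite_quotient_p (p := p) O
  haveI : Fintype (O ⧸ Ideal.span {(p : O)}) := Fintype.ofFinite _
  -- representatives
  let s : (O ⧸ Ideal.span {(p : O)}) → O := fun x => Quotient.out x
  let f : ((O ⧸ Ideal.span {(p : O)}) → ℤ_[p]) →ₗ[ℤ_[p]] O := Fintype.linearCombination ℤ_[p] s
  have hc : IsAdicComplete (maximalIdeal ℤ_[p]) ((O ⧸ Ideal.span {(p : O)}) → ℤ_[p]) :=
    IsAdicComplete.of_module_finite _ _
  have hH : IsHausdorff (maximalIdeal ℤ_[p]) O := by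
    refine ⟨fun x hx => ?_⟩
    refine IsHausdorff.haus (I := maximalIdeal O) inferInstance _ fun n => ?_
    have h1 := hx n
    rw [SModEq.zero, mem_pow_smul_iff_padic] at h1
    obtain ⟨y, rfl⟩ := h1
    rw [SModEq.zero, smul_eq_mul, Ideal.mul_top]
    exact Ideal.mul_mem_right _ _ (Ideal.pow_mem_pow hpO n)
  have hsurj : Function.Surjective f := by
    refine surjective_of_mkQ_comp_surjective (I := maximalIdeal ℤ_[p]) (f := f) ?_
    intro y
    obtain ⟨y, rfl⟩ := Submodule.mkQ_surjective _ y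
    refine ⟨Pi.single (Ideal.Quotient.mk _ y) 1, ?_⟩
    rw [LinearMap.comp_apply, ← sub_eq_zero, ← map_sub, Submodule.mkQ_apply,
      Submodule.Quotient.mk_eq_zero]
    have h1 : f (Pi.single (Ideal.Quotient.mk _ y) 1) = s (Ideal.Quotient.mk _ y) := by
      rw [Fintype.linearCombination_apply_single, one_smul]
    have h2 : Ideal.Quotient.mk (Ideal.span {(p : O)}) (s (Ideal.Quotient.mk _ y) - y) = 0 := by
      rw [map_sub, sub_eq_zero]
      exact Quotient.out_eq _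
    rw [Ideal.Quotient.eq_zero_iff_mem, Ideal.mem_span_singleton] at h2
    obtain ⟨z, hz⟩ := h2
    rw [h1]
    have h3 := (mem_pow_smul_iff_padic (p := p) O 1 (s (Ideal.Quotient.mk _ y) - y)).mpr
      ⟨z, by rw [pow_one]; exact hz⟩
    rwa [pow_one] at h3
  exact Module.Finite.of_surjective f hsurj

end Finite

section Coord

variable {p : ℕ} [hp : Fact p.Prime] {O : Type} [CommRing O] [Algebra ℤ_[p] O]
  {T : Type*} [AddCommGroup T] [Module ℤ_[p] T] {ι : Type*} [Fintype ι]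
  (β : Module.Basis ι ℤ_[p] O)

/-- the `j`-th coordinate `O ⊗ T → T` -/
def coordT (j : ι) : O ⊗[ℤ_[p]] T →ₗ[ℤ_[p]] T :=
  (TensorProduct.lid ℤ_[p] T).toLinearMap ∘ₗ (β.coord j).rTensor T

theorem coordT_tmul (j : ι) (c : O) (t : T) : coordT β j (c ⊗ₜ t) = β.repr c j • t := by
  rw [coordT, LinearMap.comp_apply, LinearMap.rTensor_tmul]
  exact TensorProduct.lid_tmul _ _

theorem sum_tmul_coordT (v : O ⊗[ℤ_[p]] T) : ∑ j, β j ⊗ₜ[ℤ_[p]] coordT β j v = v := by
  induction v using TensorProduct.induction_on with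
  | zero => simp
  | tmul c t =>
    simp only [coordT_tmul]
    simp only [← TensorProduct.smul_tmul]
    rw [← TensorProduct.sum_tmul, β.sum_repr]
  | add x y hx hy =>
    conv_rhs => rw [← hx, ← hy]
    rw [← Finset.sum_add_distrib]
    refine Finset.sum_congr rfl fun j _ => ?_
    rw [map_add, TensorProduct.tmul_add]

theorem coordT_baseChange (j : ι) (F : Module.End ℤ_[p] T) (v : O ⊗[ℤ_[p]] T) :
    coordT β j (F.baseChange O v) = F (coordT β j v) := by
  induction v using TensorProduct.induction_on with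
  | zero => simp
  | tmul c t => rw [LinearMap.baseChange_tmul, coordT_tmul, coordT_tmul, map_smul]
  | add x y hx hy => rw [map_add, map_add, hx, hy, map_add, map_add]

theorem coordT_lin (j : ι) (z : ℤ) (n : ℕ) (w u : O ⊗[ℤ_[p]] T) :
    coordT β j (((z : ℤ) : O) • w + (p : O) ^ n • u) =
      z • coordT β j w + (p : ℤ_[p]) ^ n • coordT β j u := by
  have h1 : ((z : ℤ) : O) • w = ((z : ℤ) : ℤ_[p]) • w := by
    rw [← algebraMap_smul O ((z : ℤ) : ℤ_[p]) w, map_intCast]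
  have h2 : (p : O) ^ n • u = (p : ℤ_[p]) ^ n • u := by
    rw [← algebraMap_smul O ((p : ℤ_[p]) ^ n) u, map_pow, map_natCast]
  rw [h1, h2, map_add, map_smul, map_smul, Int.cast_smul_eq_zsmul]

/-- If all coordinates are divisible by `p` then so is `v`. -/
theorem exists_p_smul_of_coordT {v : O ⊗[ℤ_[p]] T}
    (h : ∀ j, ∃ t : T, coordT β j v = (p : ℤ_[p]) • t) :
    ∃ w : O ⊗[ℤ_[p]] T, v = (p : O) • w := by
  choose t ht using h
  refine ⟨∑ j, β j ⊗ₜ[ℤ_[p]] t j, ?_⟩
  rw [Finset.smul_sum]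
  conv_lhs => rw [← sum_tmul_coordT β v]
  refine Finset.sum_congr rfl fun j _ => ?_
  rw [ht, ← TensorProduct.smul_tmul, TensorProduct.smul_tmul', Algebra.smul_def, map_natCast,
    smul_eq_mul]

end Coord

section Top

variable {p : ℕ} [hp : Fact p.Prime] {O : Type} [CommRing O] [IsDomain O]
  [IsDiscreteValuationRing O] [IsAdicComplete (maximalIdeal O) O] [Finite (ResidueField O)]
  [CharZero O] [Algebra ℤ_[p] O]

/-- A nonzero element of `O ⊗ T` is `p^k` times an element which is not divisible by `p`. -/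
theorem exists_primitive (hpO : (p : O) ∈ maximalIdeal O) {T : Type*} [AddCommGroup T]
    [Module ℤ_[p] T] [Module.Finite ℤ_[p] T] {v : O ⊗[ℤ_[p]] T} (hv : v ≠ 0) :
    ∃ (k : ℕ) (w : O ⊗[ℤ_[p]] T), v = (p : O) ^ k • w ∧ ∀ u, w ≠ (p : O) • u := by
  classical
  haveI := finite_padic (p := p) O hpO
  have hc : IsAdicComplete (maximalIdeal ℤ_[p]) (O ⊗[ℤ_[p]] T) :=
    IsAdicComplete.of_module_finite _ _
  have hex : ∃ k, ¬ ∃ w, v = (p : O) ^ k • w := by
    by_contra hcon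
    push Not at hcon
    apply hv
    refine IsHausdorff.haus (I := maximalIdeal ℤ_[p]) inferInstance _ fun n => ?_
    obtain ⟨w, hw⟩ := hcon n
    rw [SModEq.zero, PadicInt.maximalIdeal_eq_span_p, Ideal.span_singleton_pow,
      Submodule.ideal_span_singleton_smul, Submodule.mem_smul_pointwise_iff_exists]
    refine ⟨w, trivial, ?_⟩
    rw [hw, ← algebraMap_smul O ((p : ℤ_[p]) ^ n) w, map_pow, map_natCast]
  have h0 : Nat.find hex ≠ 0 := by
    intro h
    have := Nat.find_spec hex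
    rw [h] at this
    exact this ⟨v, by rw [pow_zero, one_smul]⟩
  obtain ⟨k, hk⟩ := Nat.exists_eq_succ_of_ne_zero h0
  have h1 : ∃ w, v = (p : O) ^ k • w := by
    have := Nat.find_min hex (m := k) (by omega)
    rwa [not_not] at this
  obtain ⟨w, hw⟩ := h1
  refine ⟨k, w, hw, fun u hu => ?_⟩
  have h2 := Nat.find_spec hex
  rw [hk] at h2
  exact h2 ⟨u, by rw [hw, hu, smul_smul, ← pow_succ]⟩

end Top

section Main

variable {p : ℕ} [hp : Fact p.Prime] {O : Type} [CommRing O] [IsDomain O]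
  [IsDiscreteValuationRing O] [IsAdicComplete (maximalIdeal O) O] [Finite (ResidueField O)]
  [CharZero O]

/-- **From congruences to torsion points** in a faithful Hecke module. -/
theorem exists_torsion_of_congr (hpO : (p : O) ∈ maximalIdeal O) {N : ℕ} [NeZero N] {S : Finset ℕ}
    {J : Type*} [AddCommGroup J] [Module HeckeAlg J] (hfin : {x : J | p • x = 0}.Finite)
    (hfaith : HeckeFaithful N (↑S : Set ℕ) p J)
    (χ : CuspForm.heckeAlgebra N 2 (↑S : Set ℕ) →+* O) (a : ℕ → ℤ) (n : ℕ)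
    (hχ : ∀ (ℓ : ℕ) (hℓ : ℓ.Prime) (hℓN : ¬ ℓ ∣ N) (hℓS : ℓ ∉ (↑S : Set ℕ)),
      χ (CuspForm.heckeAlgebra.T hℓ hℓN hℓS) - ((a ℓ : ℤ) : O) ∈ Ideal.span {((p : O) ^ (n + 1))}) :
    ∃ y : J, p ^ (n + 1) • y = 0 ∧ p ^ n • y ≠ 0 ∧
      ∀ r : GoodPrimes N (↑S : Set ℕ), heckeGen r.1 • y = a (r.1 : ℕ) • y := by
  classical
  letI : Algebra ℤ_[p] O := (padicToAdic O hpO).toAlgebra
  have hT1 := TateMod.finite_of_finite_torsion (p := p) (J := J) hfin
  have hT2 := TateMod.free_of_finite_torsion (p := p) (J := J) hfin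
  have hrel := rel_of_faithful hpO (algebraMap ℤ_[p] O) χ (actTate p J N (↑S : Set ℕ)) (by
    obtain ⟨c, u, hu, h⟩ := actTate_faithful (p := p) (J := J) (N := N)
      (S := (↑S : Set ℕ)) hfin hfaith
    exact ⟨c, u, fun h0 => hu (by rw [h0]; exact dvd_zero p), h⟩)
  have hne := chiSub_ne_bot (actTate p J N (↑S : Set ℕ)) (χ.comp (H31.evHecke N (↑S : Set ℕ)))
    (algebraMap_padic_injective (p := p) (O := O)) hrel
  obtain ⟨v, hv, hv0⟩ := Submodule.exists_mem_ne_zero_of_ne_bot hne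
  obtain ⟨k, w, hw, hwp⟩ := exists_primitive hpO hv0
  have hwχ : w ∈ chiSub (actTate p J N (↑S : Set ℕ)) (χ.comp (H31.evHecke N (↑S : Set ℕ))) :=
    chiSub_saturated _ _ (c := (p : O) ^ k)
      (pow_ne_zero _ (Nat.cast_ne_zero.mpr hp.out.ne_zero)) (by rw [← hw]; exact hv)
  -- coordinates
  haveI := finite_padic (p := p) O hpO
  haveI : FaithfulSMul ℤ_[p] O :=
    (faithfulSMul_iff_algebraMap_injective ℤ_[p] O).mpr algebraMap_padic_injective
  haveI : Module.Free ℤ_[p] O := inferInstance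
  let β := Module.finBasis ℤ_[p] O
  obtain ⟨j, hj⟩ : ∃ j, ¬ ∃ t, coordT β j w = (p : ℤ_[p]) • t := by
    by_contra hcon
    push Not at hcon
    obtain ⟨u, hu⟩ := exists_p_smul_of_coordT β hcon
    exact hwp u hu
  have hcong : ∀ r : GoodPrimes N (↑S : Set ℕ), ∃ z,
      actTate p J N (↑S : Set ℕ) (MvPolynomial.X r) (coordT β j w) =
      a (r.1 : ℕ) • coordT β j w + (p : ℤ_[p]) ^ (n + 1) • z := by
    intro r
    have h1 := hχ (r.1 : ℕ) r.1.2 r.2.1 r.2.2
    rw [Ideal.mem_span_singleton] at h1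
    obtain ⟨c, hc⟩ := h1
    refine ⟨coordT β j (c • w), ?_⟩
    have h2 := hwχ (MvPolynomial.X r)
    rw [RingHom.comp_apply, H31.evHecke_X] at h2
    have h3 : χ (CuspForm.heckeAlgebra.T r.1.2 r.2.1 r.2.2) =
        ((a (r.1 : ℕ) : ℤ) : O) + (p : O) ^ (n + 1) * c := by rw [← hc]; ring
    rw [h3, add_smul, mul_smul] at h2
    rw [← coordT_baseChange, h2]
    exact coordT_lin β j (a (r.1 : ℕ)) (n + 1) w (c • w)
  refine ⟨TateMod.proj (n + 1) (coordT β j w), TateMod.pow_smul_proj _ (n + 1), ?_, ?_⟩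
  · intro h
    apply hj
    rw [add_comm n 1, TateMod.pow_smul_proj_add] at h
    obtain ⟨t, ht⟩ := (TateMod.mem_pow_smul_iff 1 _).mpr h
    exact ⟨t, by rw [pow_one] at ht; exact ht⟩
  · intro r
    obtain ⟨z, hz⟩ := hcong r
    have h1 := congrArg (TateMod.proj (n + 1)) hz
    rw [proj_actTate, inclHecke_X, map_add, map_zsmul,
      (TateMod.mem_pow_smul_iff (n + 1) ((p : ℤ_[p]) ^ (n + 1) • z)).mp ⟨z, rfl⟩, add_zero] at h1
    exact h1

/-- **From congruences to torsion points.** -/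
theorem levelPoint_of_congr (hpO : (p : O) ∈ maximalIdeal O) {N : ℕ} [NeZero N] {S : Finset ℕ}
    (hpS : p ∈ S) (hNS : ∀ q : ℕ, q.Prime → q ∣ N → q ∈ S)
    (χ : CuspForm.heckeAlgebra N 2 (↑S : Set ℕ) →+* O) (a : ℕ → ℤ) (n : ℕ)
    (hχ : ∀ (ℓ : ℕ) (hℓ : ℓ.Prime) (hℓN : ¬ ℓ ∣ N) (hℓS : ℓ ∉ (↑S : Set ℕ)),
      χ (CuspForm.heckeAlgebra.T hℓ hℓN hℓS) - ((a ℓ : ℤ) : O) ∈ Ideal.span {((p : O) ^ (n + 1))})
    {R : ℕ} (hR : ∀ ℓ : ℕ, ℓ.Prime → ¬ ℓ ∣ R → ℓ ∉ S) : LevelPoint p R a N n := by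
  letI := heckeModuleBar N
  have hfin : {x : JZero N | p • x = 0}.Finite := by
    simpa using (jzeroInputs N).finite p 1 hp.out
  obtain ⟨y, h1, h2, h3⟩ := exists_torsion_of_congr hpO hfin
    ((jzeroInputs N).faithful p S hp.out hpS hNS) χ a n hχ
  exact ⟨y, ⟨_, h1⟩, h2, fun ℓ hℓ => h3 ⟨ℓ, fun h => hR ℓ ℓ.2 hℓ (hNS ℓ ℓ.2 h), by
    simpa using hR ℓ ℓ.2 hℓ⟩⟩

end Main

end Fermat.Agent.H35
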