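import Fermat.Agent.H19Final
import Fermat.Agent.H1InvFinal
import Fermat.Agent.H54Frobenius

/-!
# S19 from equality of genera (helper19)
-/

set_option autoImplicit false
set_option linter.unusedSectionVars false
set_option linter.unusedVariables false

noncomputable section

open AlgebraicCurve ModularCurve WithZero
open scoped Pointwise

namespace Fermat.Agent.H19

open Fermat.Agent.H40 Fermat.Agent.H94 Fermat.Agent.H23

local notation "Qb" => AlgebraicClosure ℚ
local notation "Gq" => AlgebraicClosure ℚ ≃ₐ[ℚ] AlgebraicClosure ℚ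

theorem modInertiaAction_Pinf {A : ValuationSubring Qb} {N ℓ : ℕ} [NeZero N] [Fact ℓ.Prime]
    (hA : A.LiesOverPrime ℓ) (hdeg : H42.DegLE Qb (IsLocalRing.ResidueField A) N)
    (S : GoodRed Qb (modularFunctionFieldBar N) (IsLocalRing.ResidueField A)
      (modularFunctionFieldFullC (IsLocalRing.ResidueField A) N))
    (hS : S.toReductionData = H42.modRed hdeg) :
    ∃ I : InertiaAction S (inertiaSL A N), ∀ σ : Gq,
      arithmeticGalois (modularFunctionFieldFull N) σ • I.Pinf = I.Pinf := by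
  obtain ⟨R, g, c, r, pdF, pdE, riemF, riemE, isRed, div_red⟩ := S
  simp only at hS
  subst hS
  refine ⟨H1.InertiaRD.toInertiaAction
    (H1.modInertiaRD A (IsLocalRing.residue A) N IsLocalRing.residue_surjective hdeg hA),
    fun σ => ?_⟩
  exact H1.arithmeticGalois_smul_qPlace (modularFunctionFieldFull N)
    (H1.exists_order_one (L := Qb) N) σ

/-- **The flat model of the `ℓ`-power torsion of `J₀(N)`**, from equality of genera. -/
theorem hasFlatModel_torsion {N ℓ : ℕ} [NeZero N] [hℓ : Fact ℓ.Prime] (hℓN : ¬ ℓ ∣ N) (n : ℕ)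
    {A : ValuationSubring Qb} (hA : A.LiesOverPrime ℓ) (hg : H42.GenusEq N A) :
    HasFlatModel (Zl ℓ) ℚ Qb ↥(Submodule.torsionBy ℤ (JZero N) ((ℓ : ℤ) ^ n))
      (torsionAct N ((ℓ : ℤ) ^ n)) := by
  have hdeg := H42.degLE_place hℓ.out hA hℓN
  obtain ⟨S, hS⟩ := exists_goodRed hdeg hg
  obtain ⟨I, hI⟩ := modInertiaAction_Pinf hA hdeg S hS
  exact hasFlatModel_of_inertiaAction hA n hdeg hS I fun σ _ => hI σ

/-- **S19 from equality of genera** -/
theorem S19_of_genusEq (hgen : ∀ N : ℕ, N ≠ 0 → H42.GenusEqAt N)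
    (p : ℕ) [NeZero p] (ℓ : ℕ) [hℓ : Fact ℓ.Prime] (hℓp : ¬ ℓ ∣ p) (k : ℕ) :
    ∃ (H : Type) (_ : CommRing H) (_ : HopfAlgebra (GaloisRep.ratLocalizedAt ℓ) H),
      Module.Finite (GaloisRep.ratLocalizedAt ℓ) H ∧ Module.Flat (GaloisRep.ratLocalizedAt ℓ) H ∧
      Coalgebra.IsCocomm (GaloisRep.ratLocalizedAt ℓ) H ∧
      ∃ e : WithConv (H →ₐ[GaloisRep.ratLocalizedAt ℓ] AlgebraicClosure ℚ) ≃
          ↥(Submodule.torsionBy ℤ (JZero p) ((ℓ : ℤ) ^ k)),
        (∀ f g, e (f * g) = e f + e g) ∧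
        ∀ (σ : AlgebraicClosure ℚ ≃ₐ[ℚ] AlgebraicClosure ℚ)
          (f g : WithConv (H →ₐ[GaloisRep.ratLocalizedAt ℓ] AlgebraicClosure ℚ)),
          (∀ h : H, g h = σ (f h)) → ((e g : JZero p)) = σ • (e f : JZero p) := by
  obtain ⟨A, hA⟩ := H54.exists_liesOverPrime hℓ.out
  exact S19_of_hasFlatModel p ℓ k
    (hasFlatModel_torsion hℓp k hA (hgen p (NeZero.ne p) hℓ.out hℓp A hA))

end Fermat.Agent.H19
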