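import Fermat.Agent.H4OrdP
import Fermat.Agent.S19
import Fermat.Agent.H32JZero
import Fermat.Agent.H35LTTop

set_option autoImplicit false
set_option linter.style.haveILetI false
set_option linter.unusedSectionVars false

/-!
# Flatness at `p` of the representations attached to classes of level prime to `p`

* `isFlatAt_of_embedding` : a representation over `𝒪'` which embeds in `𝒪' ⊗ T_p J` is flat as soon
  as the finite levels of `J` are;
* `isFlatAt_JZero` : the version for an eigenvector in `𝒪' ⊗ T_p J₀(N)`, `p ∤ N`;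
* `EA_flat` : the point form: an eigenclass in `H¹(Γ₀(M), K₁(η²))`, `p ∤ M`.
-/

noncomputable section

open IsLocalRing Module TensorProduct Polynomial CongruenceSubgroup CuspForm ModularCurve
  AlgebraicCurve Fermat.Agent.H31 Fermat.Agent.H30 Fermat.Agent.H35 Fermat.Agent.H67
  Fermat.Agent.H62 Fermat.Agent.H94.BR Fermat.Agent.H70.Coh Fermat.Agent.H21J
  Fermat.Agent.H4 Fermat.Agent.H70.Mod

namespace Fermat.Agent.H80.FlatPt

/-! ### Abstract form -/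

section Abs

variable {p : ℕ} [hp : Fact p.Prime] {O' : Type} [CommRing O'] [IsDomain O']
  [IsDiscreteValuationRing O'] [IsAdicComplete (maximalIdeal O') O'] [Finite (ResidueField O')]
  [CharZero O'] [Algebra ℤ_[p] O'] {J : Type*} [AddCommGroup J] [DistribMulAction H53.GQ J]

/-- a module embedded in `O' ⊗ T_p J` -/
theorem isFlatAt_of_embedding (hpO : (p : O') ∈ maximalIdeal O')
    (hinj : Function.Injective (algebraMap ℤ_[p] O'))
    (hfin : {x : J | p • x = 0}.Finite)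
    (act : ∀ n : ℕ, H53.GQ → Submodule.torsionBy ℤ J ((p : ℤ) ^ n) →
      Submodule.torsionBy ℤ J ((p : ℤ) ^ n))
    (hact : ∀ n σ m, ((act n σ m : Submodule.torsionBy ℤ J ((p : ℤ) ^ n)) : J) = σ • (m : J))
    (hflat : ∀ n : ℕ, H32.HasFlatOrder p (Submodule.torsionBy ℤ J ((p : ℤ) ^ n)) (act n))
    (ρ : GaloisRepAdic O') (Φ : ρ.V →ₗ[O'] O' ⊗[ℤ_[p]] TateMod p J)
    (hΦ : Function.Injective Φ)
    (hg : ∀ g x, Φ (ρ.ρ g x) = (galTate p J g).baseChange O' (Φ x)) :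
    ρ.IsFlatAt p := by
  classical
  haveI : Module.Finite ℤ_[p] O' := finite_padic O' hpO
  haveI : Module.IsTorsionFree ℤ_[p] O' := Module.IsTorsionFree.of_smul_eq_zero fun a x h => by
    rw [Algebra.smul_def] at h
    rcases mul_eq_zero.mp h with h | h
    · exact Or.inl (hinj (by rw [h, map_zero]))
    · exact Or.inr h
  haveI : Module.Free ℤ_[p] O' := Module.free_of_finite_type_torsion_free'
  haveI : Module.Finite ℤ_[p] (TateMod p J) := TateMod.finite_of_finite_torsion hfin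
  let b := Module.Free.chooseBasis ℤ_[p] O'
  let E : O' ⊗[ℤ_[p]] TateMod p J ≃ₗ[ℤ_[p]]
      (Module.Free.ChooseBasisIndex ℤ_[p] O' →₀ TateMod p J) :=
    TensorProduct.equivFinsuppOfBasisLeft b
  -- the coordinates commute with the Galois action
  have hEg : ∀ g x i, E ((galTate p J g).baseChange O' x) i = galTate p J g (E x i) := by
    intro g x i
    induction x using TensorProduct.induction_on with
    | zero => simp
    | tmul a t =>
      rw [LinearMap.baseChange_tmul]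
      simp only [E, TensorProduct.equivFinsuppOfBasisLeft_apply_tmul_apply, map_smul]
    | add x y hx hy =>
      simp only [map_add, Finsupp.add_apply, hx, hy]
  refine ⟨inferInstance, fun I hI => ?_⟩
  obtain ⟨k, hk⟩ := IsLocalRing.exists_maximalIdeal_pow_le_of_isArtinianRing_quotient I
  have hpk : (p : O') ^ k ∈ I := hk (Ideal.pow_mem_pow hpO k)
  -- Artin-Rees
  obtain ⟨c, hc⟩ := Ideal.exists_pow_inf_eq_pow_smul (Ideal.span {(p : O')}) (LinearMap.range Φ)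
  set n := c + k with hn
  have hker : ∀ v : ρ.V, (∀ i, TateMod.proj n (E (Φ v) i) = 0) →
      v ∈ I • (⊤ : Submodule O' ρ.V) := by
    intro v hv
    have h1 : ∀ i, ∃ y : TateMod p J, E (Φ v) i = (p : ℤ_[p]) ^ n • y := fun i =>
      (TateMod.mem_pow_smul_iff n _).mpr (hv i)
    choose y hy using h1
    -- `Φ v = p ^ n • w`
    have h2 : ∃ w, Φ v = (p : O') ^ n • w := by
      let f : Module.Free.ChooseBasisIndex ℤ_[p] O' →₀ TateMod p J :=
        Finsupp.equivFunOnFinite.symm y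
      refine ⟨E.symm f, ?_⟩
      have h3 : (p : O') ^ n • E.symm f = (p : ℤ_[p]) ^ n • E.symm f := by
        rw [← Nat.cast_pow, ← Nat.cast_pow, Nat.cast_smul_eq_nsmul, Nat.cast_smul_eq_nsmul]
      rw [h3, ← map_smul]
      apply E.injective
      rw [LinearEquiv.apply_symm_apply]
      ext i : 1
      rw [hy]
      rfl
    obtain ⟨w, hw⟩ := h2
    have h3 : Φ v ∈ (Ideal.span {(p : O')}) ^ n • (⊤ : Submodule O' (O' ⊗[ℤ_[p]] TateMod p J)) ⊓
        LinearMap.range Φ := by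
      refine ⟨?_, ⟨v, rfl⟩⟩
      rw [hw]
      exact Submodule.smul_mem_smul (Ideal.pow_mem_pow (Ideal.mem_span_singleton_self _) n) trivial
    rw [hc n (by omega), show n - c = k by omega] at h3
    have h4 : Φ v ∈ (Ideal.span {(p : O')}) ^ k • LinearMap.range Φ :=
      Submodule.smul_mono le_rfl inf_le_right h3
    rw [Ideal.span_singleton_pow, Submodule.ideal_span_singleton_smul] at h4
    obtain ⟨_, ⟨u, rfl⟩, hu⟩ := (Submodule.mem_smul_pointwise_iff_exists _ _ _).mp h4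
    have h5 : v = (p : O') ^ k • u := hΦ (by rw [← hu, map_smul])
    rw [h5]
    exact Submodule.smul_mem_smul hpk trivial
  -- the subquotient
  let M := Submodule.torsionBy ℤ J ((p : ℤ) ^ n)
  have hM : ∀ t : TateMod p J, TateMod.proj n t ∈ M := by
    intro t
    rw [Submodule.mem_torsionBy_iff]
    have h1 := TateMod.pow_smul_proj t n
    rw [← natCast_zsmul] at h1
    push_cast at h1
    exact h1
  let Φ₀ : ρ.V →+ (Module.Free.ChooseBasisIndex ℤ_[p] O' → M) :=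
    { toFun := fun v i => ⟨TateMod.proj n (E (Φ v) i), hM _⟩
      map_zero' := by
        funext i
        apply Subtype.ext
        simp
      map_add' := fun x y => by
        funext i
        apply Subtype.ext
        simp }
  have hΦ₀ : ∀ v i, ((Φ₀ v i : M) : J) = TateMod.proj n (E (Φ v) i) := fun v i => rfl
  let Ψ : ρ.V →+ ρ.V ⧸ (I • (⊤ : Submodule O' ρ.V)) :=
    (Submodule.mkQ (I • (⊤ : Submodule O' ρ.V))).toAddMonoidHom
  have hW : H32.HasFlatOrder p (ρ.V ⧸ (I • (⊤ : Submodule O' ρ.V)))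
      (fun σ w => ρ.levelAction I σ w) := by
    refine ((hflat n).pi (Module.Free.ChooseBasisIndex ℤ_[p] O')).subquotient
      (fun σ => (ρ.ρ σ).toAddMonoidHom) Φ₀ Ψ ?_ ?_ ?_ ?_
    · exact Submodule.mkQ_surjective _
    · intro v hv
      have h1 : ∀ i, TateMod.proj n (E (Φ v) i) = 0 := fun i => by
        rw [← hΦ₀, hv]
        rfl
      exact (Submodule.Quotient.mk_eq_zero _).mpr (hker v h1)
    · intro σ v
      funext i
      apply Subtype.ext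
      rw [hact, hΦ₀, hΦ₀]
      show TateMod.proj n (E (Φ (ρ.ρ σ v)) i) = _
      rw [hg, hEg, proj_galTate]
    · intro σ v
      rfl
  exact hW.hasFlatModel

end Abs

/-! ### `J₀(N)` -/

section J

variable {p : ℕ} [hp : Fact p.Prime] {S : Finset ℕ}
    {𝒪' : Type} [CommRing 𝒪'] [IsDomain 𝒪'] [IsDiscreteValuationRing 𝒪']
    [IsAdicComplete (IsLocalRing.maximalIdeal 𝒪') 𝒪'] [Finite (IsLocalRing.ResidueField 𝒪')]
    [CharZero 𝒪'] [Algebra ℤ_[p] 𝒪']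

/-- a representation which embeds in `𝒪' ⊗ T_p J₀(N)`, `p ∤ N`, is flat at `p` -/
theorem isFlatAt_of_embedding_JZero {N : ℕ} [NeZero N] (hpN : ¬ p ∣ N)
    (hp𝒪' : (p : 𝒪') ∈ maximalIdeal 𝒪') (hinj : Function.Injective (algebraMap ℤ_[p] 𝒪'))
    (ρ : GaloisRepAdic 𝒪') (Φ : ρ.V →ₗ[𝒪'] 𝒪' ⊗[ℤ_[p]] TateMod p (JZero N))
    (hΦ : Function.Injective Φ)
    (hg : ∀ g x, Φ (ρ.ρ g x) = (galTate p (JZero N) g).baseChange 𝒪' (Φ x)) :
    ρ.IsFlatAt p := by
  obtain ⟨A, hA⟩ := H54.exists_liesOverPrime hp.out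
  refine isFlatAt_of_embedding hp𝒪' hinj (by simpa using (jzeroInputs N).finite p 1 hp.out)
    (fun n => H19.torsionAct N ((p : ℤ) ^ n)) (fun n σ m => rfl) (fun n => ?_) ρ Φ hΦ hg
  exact H32.hasFlatOrder_of_hasFlatModel
    (H19.hasFlatModel_torsion hpN n hA (S19.genusEqAt N (NeZero.ne N) hp.out hpN A hA))

/-- **Flatness at `p`**, `J`-level. -/
theorem isFlatAt_JZero {N : ℕ} [NeZero N] (hpN : ¬ p ∣ N) (hpS : p ∈ S)
    (hNS : ∀ q : ℕ, q.Prime → q ∣ N → q ∈ S)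
    (hp𝒪' : (p : 𝒪') ∈ IsLocalRing.maximalIdeal 𝒪')
    (hinj : Function.Injective (algebraMap ℤ_[p] 𝒪')) {lam : ℕ → 𝒪'}
    {v : 𝒪' ⊗[ℤ_[p]] TateMod p (JZero N)} (hv : IsEigJ p N S lam v) (hv0 : v ≠ 0)
    (ρ : GaloisRepAdic 𝒪') (hρ : IsAttached S lam ρ)
    (habs : ρ.residual.IsAbsolutelyIrreducible) :
    ρ.IsFlatAt p := by
  obtain ⟨Φ, h1, h2, -⟩ := exists_embedding_abs (fun _ _ h => smul_eq_zero_tate h)
    (Module.finBasisOfFinrankEq 𝒪' ρ.V ρ.finrank_eq) ρ.ρ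
    (Fermat.Agent.H32.span_range_eq_top ρ habs) (galTate p (JZero N)) (eigSub 𝒪' p N S lam)
    (fun g _ hx => gal_mem_eigSub g hx) (fun g _ hx hx0 => quad_eigSub hpS hNS hp𝒪' ρ hρ g hx hx0)
    ⊤ (fun _ _ _ => trivial) (mem_eigSub.mpr hv) trivial hv0
  exact isFlatAt_of_embedding_JZero hpN hp𝒪' hinj ρ Φ h1 h2

end J

/-! ### Point form -/

section Main

variable {p : ℕ} [hp : Fact p.Prime] {S : Finset ℕ}
    {𝒪' : Type} [CommRing 𝒪'] [IsDomain 𝒪'] [IsDiscreteValuationRing 𝒪']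
    [IsAdicComplete (IsLocalRing.maximalIdeal 𝒪') 𝒪'] [Finite (IsLocalRing.ResidueField 𝒪')]
    [CharZero 𝒪']

/-- flat at `p ∤ L`, from a class in `Hom(Γ₀(L), 𝒪')` -/
theorem isFlatAt_of_isEigHom (hp2 : p ≠ 2) (hpS : p ∈ S)
    (hp𝒪' : (p : 𝒪') ∈ IsLocalRing.maximalIdeal 𝒪')
    {lam : ℕ → 𝒪'} (ρ : GaloisRepAdic 𝒪') (hρ : IsAttached S lam ρ)
    (hirr : ρ.residual.IsIrreducible) {L : ℕ} [NeZero L]
    (hLS : ∀ q : ℕ, q.Prime → q ∣ L → q ∈ S)
    {φ : Additive (Gamma0 L) →+ 𝒪'} (hT : IsEigHom L S lam φ) (hφ : φ ≠ 0) (hpL : ¬ p ∣ L) :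
    ρ.IsFlatAt p := by
  letI : Algebra ℤ_[p] 𝒪' := (padicToAdic 𝒪' hp𝒪').toAlgebra
  have hinj : Function.Injective (algebraMap ℤ_[p] 𝒪') := padicToAdic_injective 𝒪' hp𝒪'
  have hPE := hT.isPE hp2 hp𝒪' ρ hρ hirr
  exact isFlatAt_JZero hpL hpS hLS hp𝒪' hinj (hT.isEigJ hinj hPE)
    (thetaJ_symm_ne_zero hinj hPE hφ) ρ hρ (absIrr_of_attached hp2 hp𝒪' S lam ρ hρ hirr)

variable {K₁ : Type} [Field K₁] [Algebra 𝒪' K₁] [IsFractionRing 𝒪' K₁]

/-- **(EA flat)**: `ρ` is flat at `p ∤ M` (same shape as `EAd`). -/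
theorem EAflat (hp2 : p ≠ 2) (hpS : p ∈ S)
    (hp𝒪' : (p : 𝒪') ∈ IsLocalRing.maximalIdeal 𝒪')
    {N' M : ℕ} (hsq : Squarefree N') (hM0 : 0 < M)
    (hex : ∀ r : ℕ, r.Prime → r ∣ N' → ¬ r * r ∣ M) (hM : N' ∣ M)
    (hMS : ∀ r : ℕ, r.Prime → r ∣ M → r ∈ S)
    (η ψ : (ZMod N')ˣ →* K₁ˣ) (hψ : ψ = η ^ 2) {m : ℕ} (hm : Odd m) (hη : η ^ m = 1)
    {lam : ℕ → 𝒪'} (ρ : GaloisRepAdic 𝒪') (hρ : IsAttached S lam ρ)
    (hirr : ρ.residual.IsIrreducible)
    {y : H1 (gam N' M hM) (psiRep ψ K₁)} (hy : y ≠ 0) (hT : IsEigTw hM S lam η ψ y)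
    (hpM : ¬ p ∣ M) :
    ρ.IsFlatAt p := by
  haveI : CharZero K₁ := charZero_of_injective_algebraMap (IsFractionRing.injective 𝒪' K₁)
  have hN'0 : 0 < N' := Nat.pos_of_ne_zero (fun h => not_squarefree_zero (h ▸ hsq))
  haveI : NeZero (M * N') := ⟨(Nat.mul_pos hM0 hN'0).ne'⟩
  obtain ⟨E, hE⟩ := exists_emb (K := K₁) hsq hM0 hex hM (L := M * N') rfl ψ η hψ hm hη
  obtain ⟨φ, hφ0, hφT, -⟩ := exists_isEigHom (O := 𝒪') (K := K₁)
    (L := M * N') (S := S) (lam := lam) (y := E y)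
    (fun h => hy (hE.inj (h.trans (map_zero E).symm)))
    (hT.twEmb (Dvd.intro N' rfl) hE)
  exact isFlatAt_of_isEigHom hp2 hpS hp𝒪' ρ hρ hirr
    (fun r hr hrL => hMS r hr ((hr.dvd_mul.mp hrL).elim id (fun h => h.trans hM)))
    hφT hφ0 (fun h => hpM ((hp.out.dvd_mul.mp h).elim id (fun h => h.trans hM)))

/-- **(EA flat)**, integral form (same shape as `EA_unipotent`): `ρ` is flat at `p ∤ M`. -/
theorem EA_flat (hp2 : p ≠ 2) (hpS : p ∈ S)
    (hp𝒪' : (p : 𝒪') ∈ IsLocalRing.maximalIdeal 𝒪')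
    {N' M : ℕ} (hsq : Squarefree N') (hM0 : 0 < M)
    (hex : ∀ r : ℕ, r.Prime → r ∣ N' → ¬ r * r ∣ M) (hM : N' ∣ M) (hS : Away M (↑S : Set ℕ))
    (η : (ZMod N')ˣ →* 𝒪'ˣ) {m : ℕ} (hm : Odd m) (hη : η ^ m = 1)
    {lam : ℕ → 𝒪'} (ρ : GaloisRepAdic 𝒪') (hρ : IsAttached S lam ρ)
    (hirr : ρ.residual.IsIrreducible)
    {x : H1 (gam N' M hM) (psiRep (η ^ 2) 𝒪')} (hx : ∀ c : 𝒪', c ≠ 0 → c • x ≠ 0)
    (hT : ∀ i : Fermat.Agent.H70.Mod.Idx (↑S : Set ℕ),
      Fermat.Agent.H70.Mod.tw hM hS (η ^ 2) η i x = lam i.1 • x)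
    (hpM : ¬ p ∣ M) :
    ρ.IsFlatAt p := by
  let f := algebraMap 𝒪' (FractionRing 𝒪')
  refine EAflat (K₁ := FractionRing 𝒪') hp2 hpS hp𝒪' hsq hM0 hex hM
    (fun r hr hrM => by simpa using hS r hr hrM)
    (psiMap f η) (psiMap f (η ^ 2)) (psiMap_pow f η 2) hm
    (by rw [← psiMap_pow, hη, psiMap_one]) ρ hρ hirr
    (y := h1S hM (η ^ 2) f x) (h1S_ne_zero (K := FractionRing 𝒪') hM (η ^ 2) hx) ?_ hpM
  intro ℓ hℓ hℓM hc hℓS
  rw [tFam_h1S_of_tw hM hS η hT hℓ hℓS hℓM hc, smul_smul]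

end Main

end Fermat.Agent.H80.FlatPt

end
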