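import Fermat.Agent.H94BRJ
import Fermat.Agent.H4OrdP
import Fermat.Agent.H4GeomIn
import Fermat.Agent.H21MGood
import Fermat.Agent.H80FlatPt

/-!
# Guide: from classes in `H¹(Γ₀(M), ·)` to local properties of Galois representations

Continuation of `GuideBridge`. Given are a two-dimensional representation `ρ` of `Gal(Q̄/Q)` over a
discrete valuation ring `𝒪'` and a Hecke eigenclass `x` in `H¹(Γ₀(M), 𝒪'(ψ))` with the corresponding
eigenvalues, where `ψ` is a character of a quotient of `(ℤ/M)ˣ` (in the Taylor-Wiles-Kisin arguments such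
classes come out of the patched modules). This file contains the theorems that read off the behaviour of
`ρ` at a prime `q` from `x`: unramified, unipotent, not unipotent, Steinberg, flat, and the realisation of
`ρ` in the Tate module of a Jacobian `J₀(L)` which is used at `p`. They replace local-global compatibility
(Deligne-Rapoport, Langlands, Carayol) in the lifting theorems.

**Order.**
1. Tate modules: `T_p J₀(N)` is the group of homomorphisms `Γ₀(N) → ℤ_p` that kill the parabolic and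
   elliptic elements, compatibly with all correspondences between different levels.
2. Eigenclasses that are not Eisenstein kill the parabolic and elliptic elements.
3. The three geometric statements about inertia on the torsion of `J₀` that are used (proved elsewhere).
4. Eigen-analysis for classes with character. The steps of the proofs are in `GuideEigenSteps` (from
   properties of `J₀` to attached representations) and `GuideTwistEmbedding` (removing the character).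

**Statements served.** Part 1: S01, S03, S04, S06, S38, S43 (all but `realised_atkinLehner`), S45, S46,
S50, S59, S60; the theorems from `mem_PES_iff` to `family_hecke` also S09, S12, S15. Parts 2-4: S01, S03,
S04, S06, S38, S43 (in part), S45, S46, S50, S59, S60. Every library theorem cited here occurs in the
proof term of S01. NOTES: [127] NOTES-MODLIFT-BR, [158] NOTES-EIGEN-ANALYSIS. Authors
of the library files cited here: `H94BR*` helper94, `H4*` helper4, `H70*` helper70, `H21*` helper21, `H80*`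
helper80, `H32BLR` helper32, `H35*` helper35, `H62*` helper62, `H89*` helper89, `H83*` helper83, `H92*`
helper92, `H67*` helper67, `H30*` helper30.

**Conventions.** `JZero N` is `Pic⁰` of the function field of `X₀(N)` over `Q̄`, with the action of
`Gal(Q̄/Q)` and of the Hecke operators `heckeOperatorBar N ℓ`. `degPush d`, `degPull d` are push-forward
and pull-back along the degeneracy map `τ ↦ dτ`, `wJ` is the Atkin-Lehner involution. `GaloisRepAdic O` is
the structure of the continuous representations of `Gal(Q̄/Q)` on a free module `ρ.V` of rank 2 over a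
local ring `O`, `ρ.residual` the reduction modulo the maximal ideal. The conditions `IsUnramifiedAt`,
`IsUnipotentOnInertiaAt`, `IsFlatAt` are those of `Fermat.Prelude`.
-/

set_option autoImplicit false

noncomputable section

open UpperHalfPlane hiding I
open Complex MatrixGroups ModularGroup ModularCurve AlgebraicCurve CongruenceSubgroup
open scoped Manifold Real TensorProduct

namespace Fermat.Agent.Guide.Eigen

/-! ## 1. Tate modules: `T_p J₀(N) = Hom(Γ₀(N)/(parabolic and elliptic elements), ℤ_p)`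

`TateMod p J` is the group of sequences `(x_n)` in `J` with `x_0 = 0`, `p x_{n+1} = x_n`; `tateMap T` is
the map of Tate modules induced by `T`. A *family* `h : HFam (gm N) (gm M)` is a finite set of integral
matrices `α_i` of positive determinant which is stable under right multiplication by `Γ₀(M)` up to left
multiplication by `Γ₀(N)`: `α_i γ = δ_i α_{σ(i)}` with `γ ∈ Γ₀(M)`, `δ_i ∈ Γ₀(N)`;
`homOp A h φ (γ) = Σ_i φ(δ_i)`. -/

section Tate

open TensorProduct H94.BR H4 H30 H31 H35 H67 H70.Coh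

/-- **`PES N R A`** is the module of the homomorphisms `φ : Γ₀(N) → A` which vanish on all `γ` with
`(tr γ)² ≤ 4`, that is, on `± 1`, on the parabolic and on the elliptic elements. It is the group of the
homomorphisms of the fundamental group of the compact curve `X₀(N)(ℂ)` to `A`. File: H94BRTate (`IsPE`:
H4TransferPE). -/
theorem mem_PES_iff (N : ℕ) {R A : Type*} [Semiring R] [AddCommGroup A] [Module R A]
    (φ : Additive (Gamma0 N) →+ A) :
    φ ∈ PES N R A ↔ ∀ γ : Gamma0 N,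
      ((γ : SL(2, ℤ)) : Matrix (Fin 2) (Fin 2) ℤ).trace ^ 2 ≤ 4 → φ (Additive.ofMul γ) = 0 :=
  Iff.rfl

/-- **Realised homomorphisms** (`RealJ T h`, written out). A homomorphism `T : J₀(N) → J₀(M)` is realised
by the family `h` if the following holds for all `n`, `D` and `a`. Let `D` be a divisor of degree 0 on
`X₀(N)` with `n D = div a`, `a` a good function. Then `T` maps the class of `D` to the class of a divisor
`D'` with `n D' = div a'`, where `a'(τ) = ∏_i a(α_i τ)` is good. Because this is required for all `n`, `D`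
and `a`, realised homomorphisms can be composed. (`algQbarC` is a fixed embedding of the algebraic closure
`Q̄` of `ℚ` in `ℂ`; `H90.FX K N = K(j(q^d) : d ∣ N)`; good functions: `GuideBridge.good_iff`.)
Files: H94BRReal, H94BRJ. -/
theorem realJ_iff {N M : ℕ} [NeZero N] [NeZero M] (T : JZero N →+ JZero M)
    (h : HFam (gm N) (gm M)) :
    letI := H90.algQbarC
    RealJ T h ↔
      ∀ (D : Divisor.degZero (K := AlgebraicClosure ℚ) (F := H90.FX (AlgebraicClosure ℚ) N))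
        (a : H90.FX (AlgebraicClosure ℚ) N) (n : ℕ),
        a ≠ 0 → H24.Good (AlgebraicClosure ℚ) N (a : LaurentSeries (AlgebraicClosure ℚ)) →
        (∀ v : Place (AlgebraicClosure ℚ) (H90.FX (AlgebraicClosure ℚ) N),
          v.ord a = n * (D : Divisor (AlgebraicClosure ℚ) (H90.FX (AlgebraicClosure ℚ) N)) v) →
        ∃ (D' : Divisor.degZero (K := AlgebraicClosure ℚ) (F := H90.FX (AlgebraicClosure ℚ) M))
          (a' : H90.FX (AlgebraicClosure ℚ) M),
          Pic0.mk D' = T (Pic0.mk D) ∧ a' ≠ 0 ∧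
          H24.Good (AlgebraicClosure ℚ) M (a' : LaurentSeries (AlgebraicClosure ℚ)) ∧
          (∀ v : Place (AlgebraicClosure ℚ) (H90.FX (AlgebraicClosure ℚ) M),
            v.ord a' = n * (D' : Divisor (AlgebraicClosure ℚ) (H90.FX (AlgebraicClosure ℚ) M)) v) ∧
          ∀ τ, H24.ev (AlgebraicClosure ℚ) (a' : LaurentSeries (AlgebraicClosure ℚ)) τ =
            ∏ i, H24.ev (AlgebraicClosure ℚ) (a : LaurentSeries (AlgebraicClosure ℚ)) (h.α i • τ) :=
  Iff.rfl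

/-- **The comparison isomorphism.** For every domain `R ⊇ ℤ_p` there are isomorphisms
`Θ_N : R ⊗ T_p J₀(N) ≃ Hom_PE(Γ₀(N), R)`, all `N`, compatible with every homomorphism `T : J₀(N) → J₀(M)`
which is realised on functions by a finite family `h` of integral matrices: `Θ_M (T v) = h (Θ_N v)`. Here
`T_p J₀(N)` is the Tate module of the group `Pic⁰` of the function field of `X₀(N)` over `ℚ̄`. Proof: for
a torsion class of `D`, `n D = div a`, the `n`-th root of `a(τ)` on the upper half plane is multiplied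
under `γ ∈ Γ₀(N)` by a root of unity (Kummer relation); bijectivity is helper90's theorem at finite level
(`GuideBridge`). Files: H94BRReal, H94BRTate, H94BRTheta, H94BRJ. Used in Mazur's theorem (S12, S15), in
level lowering (S38, S43) and in the lifting theorems (S59, S60, S01). -/
theorem tate_eq_hom {p : ℕ} [Fact p.Prime] {R : Type*} [CommRing R] [Algebra ℤ_[p] R] [IsDomain R]
    (hinj : Function.Injective (algebraMap ℤ_[p] R)) :
    ∃ Θ : ∀ (N : ℕ) [NeZero N], R ⊗[ℤ_[p]] TateMod p (JZero N) ≃ₗ[R] PES N R R,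
      ∀ {N M : ℕ} [NeZero N] [NeZero M] {T : JZero N →+ JZero M} {h : HFam (gm N) (gm M)},
        RealJ T h → ∀ v, (Θ M ((tateMap T).baseChange R v)).1 = homOp R h (Θ N v).1 :=
  ⟨fun N _ => thetaJ N hinj, fun H v => thetaJ_baseChange hinj H v⟩

/-- **Hecke operators are realised.** `T_ℓ`, `ℓ ∤ N`, on `J₀(N)` is realised by the `ℓ + 1` matrices of
determinant `ℓ` indexed by the projective line over `ℤ/ℓ`. File: H94BRJ (H94BRTheta). -/
theorem realised_hecke {N : ℕ} [NeZero N] {ℓ : ℕ} (hℓ : ℓ.Prime) (hℓN : ¬ ℓ ∣ N) :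
    RealJ (heckeOperatorBar N ⟨ℓ, hℓ⟩).toAddMonoidHom (tF hℓ hℓN) :=
  realJ_hecke hℓ hℓN

/-- The operator of the family `tF` on homomorphisms is `heckeHom`: `(T_ℓ φ)(γ) = ∑_{x ∈ ℙ¹(𝔽_ℓ)} φ(δ_x)`
with `β_x γ = δ_x β_{x γ}`. File: H94BRTheta, H4Transfer. -/
theorem family_hecke {N : ℕ} [NeZero N] {ℓ : ℕ} [hℓ : Fact ℓ.Prime] (hℓN : ¬ ℓ ∣ N)
    {A : Type*} [AddCommGroup A] (φ : Additive (Gamma0 N) →+ A) (γ : Gamma0 N) :
    homOp A (tF hℓ.out hℓN) φ (Additive.ofMul γ) =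
      ∑ x : OnePoint (ZMod ℓ), φ (Additive.ofMul (coc hℓN γ x)) := by
  rw [homOp_tF, heckeHom_apply, toMul_ofMul]

/-- **Degeneracy maps are realised**: for `q` prime the two push-forwards `J₀(M q) → J₀(M)` along `τ ↦ τ`
and `τ ↦ q τ`, by the families `trF M q` and `nuF M hq`. Steps: section 5 of `GuideEigenSteps`. File:
H94BRJ (H94BRDeg). -/
theorem realised_degeneracy {M q : ℕ} [NeZero M] [NeZero q] [NeZero (M * q)] (hq : q.Prime) :
    (∀ h : M * 1 ∣ M * q, RealJ (degPush (M := M) (N := M * q) 1 h) (trF M q)) ∧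
      ∀ h : M * q ∣ M * q, RealJ (degPush (M := M) (N := M * q) q h) (nuF M hq) :=
  ⟨fun h => realJ_degPush_one hq h, fun h => realJ_degPush_prime hq h⟩

/-- **Atkin-Lehner involutions are realised** by one matrix `(Q x, y; A Q z, Q t)` of determinant `Q`
(`A`, `Q` coprime; `H37.Tr.AL A Q` is the set of `(x, y, z, t)` with `Q x t - A y z = 1`). File: H94BRJ
(H94BRAL). -/
theorem realised_atkinLehner {A Q : ℕ} [NeZero A] [NeZero Q] [NeZero (A * Q)] (hc : A.Coprime Q)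
    (w : H37.Tr.AL A Q) (hQ : 0 < Q) :
    RealJ (wJ (R := A * Q) A Q rfl hc) (H37.Tr.wFam (one_dvd A) hQ w) :=
  realJ_wJ hc w hQ

/-- **Eigenclasses give eigenvectors in the Tate module.** Let `χ` be a character of the polynomial ring
in the `T_ℓ`, `ℓ ∤ N`, `ℓ ∉ S`, with values in `R`. A non-zero `φ ∈ Hom_PE(Γ₀(N), R)` with
`T_ℓ φ = χ(T_ℓ) φ` is the image of a non-zero vector `w` of `R ⊗ T_p J₀(N)` with `P w = χ(P) w` for all
`P` (under the isomorphism `Θ_N = thetaJ N hinj` of `tate_eq_hom`). This is how a Hecke eigenclass in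
group cohomology obtains a Galois representation (the Galois group acts on the eigenspace of `χ`). File:
H94BRJ. -/
theorem eigenvector_of_eigenclass {p : ℕ} [Fact p.Prime] {R : Type*} [CommRing R]
    [Algebra ℤ_[p] R] [IsDomain R] {N : ℕ} [NeZero N]
    (hinj : Function.Injective (algebraMap ℤ_[p] R)) {S : Set ℕ}
    (χ : MvPolynomial (GoodPrimes N S) ℤ →+* R) {φ : Additive (Gamma0 N) →+ R} (hφ0 : φ ≠ 0)
    (hφ : ∀ γ : Gamma0 N, ((γ : SL(2, ℤ)) : Matrix (Fin 2) (Fin 2) ℤ).trace ^ 2 ≤ 4 →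
      φ (Additive.ofMul γ) = 0)
    (hT : ∀ (ℓ : ℕ) [hℓ : Fact ℓ.Prime] (hℓN : ¬ ℓ ∣ N) (hℓS : ℓ ∉ S),
      heckeHom hℓN φ = χ (MvPolynomial.X ⟨⟨ℓ, hℓ.out⟩, hℓN, hℓS⟩) • φ) :
    letI := heckeModuleBar N
    ∃ w : R ⊗[ℤ_[p]] TateMod p (JZero N), w ≠ 0 ∧
      (∀ P, (actTate p (JZero N) N S P).baseChange R w = χ P • w) ∧ (thetaJ N hinj w).1 = φ :=
  exists_eigenvector hinj χ hφ0 hφ hT

end Tate

/-! ## 2. Classes that are not Eisenstein kill the parabolic and elliptic elements -/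

/-- **`T_ℓ` at parabolic elements.** If the prime `ℓ` is `≡ 1 mod N` and `(tr γ)² = 4`, then
`(T_ℓ φ)(γ) = (1 + ℓ) φ(γ)` for every homomorphism `φ` from `Γ₀(N)` to a torsion free group. For `γ` with
the rows `(1, 1)`, `(0, 1)` the term `x = ∞` of the sum is `ℓ φ(γ)` and the other `ℓ` terms add up to
`φ(γ)`; the general case is a conjugate of powers of this one, and there `ℓ ≡ 1 mod N` is used. Proved in
`H4EAPE`. -/
theorem hecke_at_parabolic {N ℓ : ℕ} [Fact ℓ.Prime] {A : Type*} [AddCommGroup A]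
    [IsAddTorsionFree A] (hℓN : ¬ ℓ ∣ N) (h1 : (N : ℤ) ∣ (ℓ : ℤ) - 1)
    (φ : Additive (Gamma0 N) →+ A) (γ : Gamma0 N)
    (h : ((γ : SL(2, ℤ)) : Matrix (Fin 2) (Fin 2) ℤ).trace ^ 2 = 4) :
    H4.heckeHom hℓN φ (Additive.ofMul γ) = ((1 : ℤ) + ℓ) • φ (Additive.ofMul γ) :=
  H4.heckeHom_apply_trace_sq_eq_four hℓN h1 φ γ h

/-- **Non-Eisenstein eigenclasses are parabolic.** If `T_ℓ φ = λ φ` for one prime `ℓ ≡ 1 mod N` and
`λ - (1 + ℓ)` acts injectively, then `φ` kills the parabolic and elliptic elements. Proved in `H4EAPE`. -/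
theorem isPE_of_nonEisenstein {N ℓ : ℕ} [Fact ℓ.Prime] {A : Type*} [AddCommGroup A]
    [IsAddTorsionFree A] {R : Type*} [Ring R] [Module R A] (hℓN : ¬ ℓ ∣ N)
    (h1 : (N : ℤ) ∣ (ℓ : ℤ) - 1) (φ : Additive (Gamma0 N) →+ A) (lam : R)
    (hT : H4.heckeHom hℓN φ = lam • φ)
    (hlam : ∀ a : A, (lam - (1 + (ℓ : R))) • a = 0 → a = 0) : H4.IsPE φ :=
  H4.isPE_of_heckeHom_eq hℓN h1 φ lam hT hlam

/-- **Attached representations** (`IsAttached S a ρ`, written out): `ρ` is a two-dimensional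
representation of `Gal(Q̄/Q)` over a local ring `O` with `charpoly ρ(Frob_ℓ) = X² - a(ℓ) X + ℓ` for every
Frobenius element at every place above a prime `ℓ ∉ S`. (`H62New`.) -/
theorem isAttached_iff {O : Type} [CommRing O] [IsLocalRing O] (S : Finset ℕ) (a : ℕ → O)
    (ρ : GaloisRepAdic O) :
    H62.IsAttached S a ρ ↔ ∀ ℓ : ℕ, ℓ.Prime → ℓ ∉ S →
      ∀ A : ValuationSubring (AlgebraicClosure ℚ), A.LiesOverPrime ℓ →
        ∀ φ : AlgebraicClosure ℚ ≃ₐ[ℚ] AlgebraicClosure ℚ, A.IsFrobeniusAt φ ℓ →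
          LinearMap.charpoly (ρ.ρ φ) =
            Polynomial.X ^ 2 - Polynomial.C (a ℓ) * Polynomial.X + Polynomial.C (ℓ : O) :=
  Iff.rfl

/-- **Irreducible representations are not Eisenstein.** Let `p` be odd and `ρ` attached to the numbers
`lam ℓ` with irreducible residual representation. For every `L` there is a prime `ℓ ≡ 1 mod L`, `ℓ ∉ S`,
for which `lam ℓ - (1 + ℓ)` is a unit. Uses Frobenius' density theorem and complex conjugation. Proved in
`H4EANE`. -/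
theorem exists_nonEisenstein_prime {p : ℕ} [Fact p.Prime] (hp2 : p ≠ 2) {O : Type} [CommRing O]
    [IsLocalRing O] [IsNoetherianRing O] (hpO : (p : O) ∈ IsLocalRing.maximalIdeal O)
    (S : Finset ℕ) (lam : ℕ → O) (ρ : GaloisRepAdic O) (hρ : H62.IsAttached S lam ρ)
    (hirr : ρ.residual.IsIrreducible) {L : ℕ} (hL : 0 < L) :
    ∃ ℓ : ℕ, ℓ.Prime ∧ ℓ ∉ S ∧ (ℓ : ZMod L) = 1 ∧ IsUnit (lam ℓ - (1 + ℓ)) :=
  H4.exists_nonEis hp2 hpO S lam ρ hρ hirr hL

/-! ## 3. The geometric statements about inertia at a prime `q` on the torsion of `J₀` -/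

/-- **The three geometric inputs**, unconditional, for a prime `p` and all primes `q ≠ p`, `q ∤ M`.
(a) Inertia at `q` acts unipotently on the `p`-power torsion of `J₀(Mq)`: `(σ - 1)² x = 0`.
(b) Let `φ` be a Frobenius element at a place above `q`, `w = w_q` the Atkin-Lehner involution, and let
    `x` be a class of `p`-power order in `J₀(Mq)` such that the push-forward to level `M` of `x` and of
    `w x` vanish after pull-back. Then `(φ + q w)(φ + w) x = 0`. So on the `q`-new part Frobenius acts as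
    `-w` or `-q w`.
(c) On `J₀(Mq²)`, the classes of `p`-power order which are fixed by inertia and killed by both
    push-forwards to `J₀(Mq)` are killed by a fixed power of `p`.

Sources: (a) and (b) block BADRED (`H89Inst`, two-component reduction of `X₀(Mq)` in terms of function
fields; see `GuideBadRed`, `unipotent_inertia` and `steinberg_relation`), (c) block CARAYOL (`H83C9b`,
`H92CarD`; see `GuideCarayol`, `fixedInput`). Assembled in `H4GeomIn`. -/
theorem geometric_inputs {p : ℕ} (hp : p.Prime) (q M : ℕ) [NeZero M] [NeZero (M * q)]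
    [NeZero (M * q * q)] [NeZero q] (hq : q.Prime) (hqp : q ≠ p) (hqM : ¬ q ∣ M) :
    (∀ A : ValuationSubring (AlgebraicClosure ℚ), A.LiesOverPrime q →
      ∀ σ ∈ A.inertiaSubgroupIn ℚ, ∀ x : JZero (M * q), (∃ n : ℕ, p ^ n • x = 0) →
        σ • (σ • x - x) = σ • x - x) ∧
    (∀ hc : M.Coprime q, ∀ A : ValuationSubring (AlgebraicClosure ℚ), A.LiesOverPrime q →
      ∀ σ : AlgebraicClosure ℚ ≃ₐ[ℚ] AlgebraicClosure ℚ, A.IsFrobeniusAt σ q →
        ∀ x : JZero (M * q), (∃ n : ℕ, p ^ n • x = 0) →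
          H67.degPull (M := M) (N := M * q) q (dvd_refl _) (H67.degPush 1 (by simp) x) = 0 →
          H67.degPull (M := M) (N := M * q) q (dvd_refl _)
            (H67.degPush 1 (by simp) (H67.wJ M q rfl hc x)) = 0 →
          σ • (σ • x) + σ • (H67.wJ M q rfl hc x) + q • H67.wJ M q rfl hc (σ • x) + q • x = 0) ∧
    ∃ c : ℕ, ∃ A : ValuationSubring (AlgebraicClosure ℚ), A.LiesOverPrime q ∧
      ∀ x : JZero (M * q * q), (∃ n : ℕ, p ^ n • x = 0) →
        (∀ σ ∈ A.inertiaSubgroupIn ℚ, σ • x = x) →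
        H67.degPush (M := M * q) 1 (by simp) x = 0 →
        H67.degPush (M := M * q) q (dvd_refl _) x = 0 → p ^ c • x = 0 :=
  ⟨(H4.geomInputs hp).uni q M hq hqp hqM, (H4.geomInputs hp).star q M hq hqp hqM,
    (H4.geomInputs hp).fixed q M hq hqp hqM⟩

/-! ## 4. Eigen-analysis

**Setting** (the `variable` lines below): `p` is a prime, `𝒪'` a complete discrete valuation ring of
characteristic 0 with finite residue field (of characteristic `p` by the hypothesis `hp𝒪'`), `K₁` its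
fraction field, `S` a finite set of natural numbers which contains `p` and the primes of the level
(`hS : Away M S`: every prime divisor of `M` is in `S`).

**Classes with character.** `N' ∣ M`, `ψ` is a character of `(ℤ/N')ˣ` with values in `Rˣ`. A class
`x ∈ H1 (gam N' M hM) (psiRep ψ R)` is a class of cocycles `c : Γ₀(M) → R`,
`c(γδ) = ψ(a(δ)) c(γ) + c(δ)`, where `a(δ)` is the upper left entry (`cocycle_iff`), modulo coboundaries.
`tFam`, `trFam`, `nuFam` are the families of matrices of `T_ℓ` and of the two traces from level `M₀ q` to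
level `M₀` (as in section 1), `h.opH` the operator of the family `h` on `H1`; `tw hM hS ψ η i` is the
operator `η(ℓ)⁻¹ T_ℓ` for the prime `i = ℓ ∉ S` (the type of these primes is `Idx S`).

**What is proved.** `ρ` is attached to the numbers `lam ℓ` (no character), `η` has odd order,
`x ∈ H¹(Γ₀(M), 𝒪'(η²))` is not torsion and satisfies `T_ℓ x = η(ℓ) lam(ℓ) x` for `ℓ ∉ S`: the class with
character `η²` belongs to `ρ ⊗ η`. Twisting by `η` moves `x` to `Γ₀` of a higher level without character;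
sections 2 and 1 move it to the Tate module of `J₀`; there section 3 applies. No Galois representations
with nebentypus and no curves between `X₁(N)` and `X₀(N)` are needed. -/

section EigenAnalysis

open H70.Coh H62 H21J H94.BR

variable {p : ℕ} [Fact p.Prime] {S : Finset ℕ}
    {𝒪' : Type} [CommRing 𝒪'] [IsDomain 𝒪'] [IsDiscreteValuationRing 𝒪']
    [IsAdicComplete (IsLocalRing.maximalIdeal 𝒪') 𝒪'] [Finite (IsLocalRing.ResidueField 𝒪')]
    [CharZero 𝒪']

variable {K₁ : Type} [Field K₁] [Algebra 𝒪' K₁] [IsFractionRing 𝒪' K₁]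

/-- **Cocycles with character.** `c : Γ₀(M) → R` is a cocycle for the character `ψ` of `(ℤ/N')ˣ` if and
only if `c(γδ) = ψ(a(δ)) c(γ) + c(δ)`; `aUnit N' (gam N' M hM δ)` is the upper left entry of `δ` mod `N'`.
(`H70HeckeAbs`, `H70Psi`.) -/
theorem cocycle_iff {R : Type} [CommRing R] {N' M : ℕ} (hM : N' ∣ M) (ψ : (ZMod N')ˣ →* Rˣ)
    (c : Gamma0 M → R) :
    c ∈ Z1 (gam N' M hM) (psiRep ψ R) ↔
      ∀ γ δ : Gamma0 M, c (γ * δ) = ((ψ (aUnit N' (gam N' M hM δ)) : Rˣ) : R) • c γ + c δ :=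
  Iff.rfl

/-- **Eigenclasses with character**, written out: the condition in terms of the operators
`η(ℓ)⁻¹ T_ℓ` says that `T_ℓ x = η(ℓ) lam(ℓ) x` for all primes `ℓ ∉ S`. (`H70Mod`.) -/
theorem eigenclass_iff {R : Type} [CommRing R] {N' M : ℕ} (hM : N' ∣ M)
    (hS : H70.Mod.Away M (↑S : Set ℕ)) (lam : ℕ → R) (η : (ZMod N')ˣ →* Rˣ)
    (x : H1 (gam N' M hM) (psiRep (η ^ 2) R)) :
    (∀ i : H70.Mod.Idx (↑S : Set ℕ), H70.Mod.tw hM hS (η ^ 2) η i x = lam i.1 • x) ↔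
      ∀ (ℓ : ℕ) (hℓ : ℓ.Prime) (hℓM : ¬ ℓ ∣ M) (hc : ℓ.Coprime N'), ℓ ∉ S →
        (tFam hM hℓ hℓM).opH (psiRep (η ^ 2) R) x =
          (((η (ZMod.unitOfCoprime ℓ hc) : Rˣ) : R) * lam ℓ) • x :=
  ⟨fun h ℓ hℓ _ hc hℓS => (mul_smul _ (lam ℓ) x).symm ▸ (inv_smul_eq_iff
      (g := η (ZMod.unitOfCoprime ℓ hc))).mp (h ⟨ℓ, hℓ, mt Finset.mem_coe.mp hℓS⟩),
    fun h i => (inv_smul_eq_iff (g := H70.Mod.atIdx hM hS η i)).mpr
      ((h i.1 i.2.1 (hS.not_dvd i) _ (mt Finset.mem_coe.mpr i.2.2)).trans (mul_smul _ _ _))⟩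

/-- **Twisting away the character.** Let `N` be squarefree with `N ∣ M` and no prime of `N` dividing `M`
twice, `χ` a character of `(ℤ/N)ˣ` of odd order with values in a field of characteristic 0. There is an
injective map `E : H¹(Γ₀(M), K(χ²)) → H¹(Γ₀(MN), K)` with `E(T_ℓ x) = χ(ℓ) T_ℓ(E x)` for the primes
`ℓ ∤ MN`: so a class `x` with `T_ℓ x = χ(ℓ) lam(ℓ) x` for all these `ℓ` gives a class `E x` of level `MN`
without character, with the eigenvalues `lam ℓ`. (The twist by `χ` at each prime of `N`; for a ramified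
`χ` the image consists of classes that are new at the prime.) Proved in `H21JIter` (helper21). -/
theorem twist_embedding {K : Type*} [Field K] [CharZero K] {N M L : ℕ} (hsq : Squarefree N)
    (hM0 : 0 < M) (hex : ∀ q : ℕ, q.Prime → q ∣ N → ¬ q * q ∣ M) (hM : N ∣ M) (hL : L = M * N)
    (χ : (ZMod N)ˣ →* Kˣ) {m : ℕ} (hm : Odd m) (hχ : χ ^ m = 1) :
    ∃ E : H1 (gam N M hM) (psiRep (χ ^ 2) K) →ₗ[K]
        H1 (gam 1 L (one_dvd L)) (psiRep (1 : (ZMod 1)ˣ →* Kˣ) K),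
      Function.Injective E ∧
      ∀ {ℓ : ℕ} (hℓ : ℓ.Prime) (hℓM : ¬ ℓ ∣ M) (hℓL : ¬ ℓ ∣ L) (hc : ℓ.Coprime N)
        (x : H1 (gam N M hM) (psiRep (χ ^ 2) K)),
        E ((tFam hM hℓ hℓM).opH (psiRep (χ ^ 2) K) x) =
          ((χ (ZMod.unitOfCoprime ℓ hc) : Kˣ) : K) •
            (tFam (one_dvd L) hℓ hℓL).opH (psiRep (1 : (ZMod 1)ˣ →* Kˣ) K) (E x) :=
  (exists_twist_embedding hsq hM0 hex hM hL χ hm hχ).imp fun _ hE => ⟨hE.inj, hE.T⟩

/-- **From the quadratic relation to an embedding.** Let `V` be free of rank 2 over a domain `A`, `ρ` a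
representation of a group `G` on `V` whose image spans `End_A(V)`, `X` a torsion free `A[G]`-module and
`E` a stable submodule on which `g² - tr ρ(g) g + det ρ(g) = 0` for all `g`. If `E ≠ 0` there is an
injective equivariant map `V → X` with image in `E` (Boston-Lenstra-Ribet). Proved in `H4OrdP`, `H32BLR`.
Applied to the eigenspace of a Hecke eigensystem in the Tate module of `J₀`, where the relation holds for
Frobenius elements (Eichler-Shimura), hence for all `g`. -/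
theorem embedding_of_quadratic {A : Type*} [CommRing A] [IsDomain A] {G : Type*} [Group G]
    {V X : Type*} [AddCommGroup V] [Module A V] [AddCommGroup X] [Module A X]
    (hX : ∀ (a : A) (x : X), a • x = 0 → a = 0 ∨ x = 0) (b : Module.Basis (Fin 2) A V)
    (ρ : G →* Module.End A V) (hspan : Submodule.span A (Set.range ρ) = ⊤)
    (σX : G →* Module.End A X) (E : Submodule A X) (hstab : ∀ g, ∀ x ∈ E, σX g x ∈ E)
    {w : X} (hw : w ∈ E) (hw0 : w ≠ 0)
    (hquad : ∀ g, ∀ x ∈ E, σX g (σX g x) - LinearMap.trace A V (ρ g) • σX g x +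
      LinearMap.det (ρ g) • x = 0) :
    ∃ Φ : V →ₗ[A] X, Function.Injective Φ ∧ (∀ g x, Φ (ρ g x) = σX g (Φ x)) ∧
      ∀ x, Φ x ∈ E :=
  H4.exists_equivariant_embedding hX b ρ hspan σX E hstab hw hw0 hquad

/-- **Unramified outside the level** (EAd). If `q ≠ p` is a prime with `q ∤ M` (`q ∈ S` allowed), then `ρ`
is unramified at `q`. Proved in `H21MGood`. -/
theorem unramified_of_not_dvd (hp2 : p ≠ 2) (hpS : p ∈ S)
    (hp𝒪' : (p : 𝒪') ∈ IsLocalRing.maximalIdeal 𝒪')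
    {N' M : ℕ} (hsq : Squarefree N') (hM0 : 0 < M)
    (hex : ∀ r : ℕ, r.Prime → r ∣ N' → ¬ r * r ∣ M) (hM : N' ∣ M)
    (hS : H70.Mod.Away M (↑S : Set ℕ)) (η : (ZMod N')ˣ →* 𝒪'ˣ) {m : ℕ} (hm : Odd m)
    (hη : η ^ m = 1) {lam : ℕ → 𝒪'} (ρ : GaloisRepAdic 𝒪') (hρ : IsAttached S lam ρ)
    (hirr : ρ.residual.IsIrreducible) {x : H1 (gam N' M hM) (psiRep (η ^ 2) 𝒪')}
    (hx : ∀ c : 𝒪', c ≠ 0 → c • x ≠ 0)
    (hT : ∀ i : H70.Mod.Idx (↑S : Set ℕ), H70.Mod.tw hM hS (η ^ 2) η i x = lam i.1 • x)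
    {q : ℕ} (hq : q.Prime) (hqp : q ≠ p) (hqM : ¬ q ∣ M) :
    ρ.IsUnramifiedAt q :=
  H21M.EA_unramified hp2 hpS hp𝒪' hsq hM0 hex hM hS η hm hη ρ hρ hirr hx hT hq hqp hqM

/-- **Frobenius at a good prime in `S`** (EAe). If moreover `T_q x = η(q) μ x`, then every Frobenius
element at `q` has characteristic polynomial `X² - μ X + q`. Proved in `H21MGood`. -/
theorem frobenius_of_not_dvd (hp2 : p ≠ 2) (hpS : p ∈ S)
    (hp𝒪' : (p : 𝒪') ∈ IsLocalRing.maximalIdeal 𝒪')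
    {N' M : ℕ} (hsq : Squarefree N') (hM0 : 0 < M)
    (hex : ∀ r : ℕ, r.Prime → r ∣ N' → ¬ r * r ∣ M) (hM : N' ∣ M)
    (hS : H70.Mod.Away M (↑S : Set ℕ)) (η : (ZMod N')ˣ →* 𝒪'ˣ) {m : ℕ} (hm : Odd m)
    (hη : η ^ m = 1) {lam : ℕ → 𝒪'} (ρ : GaloisRepAdic 𝒪') (hρ : IsAttached S lam ρ)
    (hirr : ρ.residual.IsIrreducible) {x : H1 (gam N' M hM) (psiRep (η ^ 2) 𝒪')}
    (hx : ∀ c : 𝒪', c ≠ 0 → c • x ≠ 0)
    (hT : ∀ i : H70.Mod.Idx (↑S : Set ℕ), H70.Mod.tw hM hS (η ^ 2) η i x = lam i.1 • x)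
    {q : ℕ} (hq : q.Prime) (hqp : q ≠ p) (hqM : ¬ q ∣ M) (hc : q.Coprime N') {μ : 𝒪'}
    (hμ : (tFam hM hq hqM).opH (psiRep (η ^ 2) 𝒪') x =
      (((η (ZMod.unitOfCoprime q hc) : 𝒪'ˣ) : 𝒪') * μ) • x)
    {A : ValuationSubring (AlgebraicClosure ℚ)} (hA : A.LiesOverPrime q)
    {σ : AlgebraicClosure ℚ ≃ₐ[ℚ] AlgebraicClosure ℚ} (hσ : A.IsFrobeniusAt σ q) :
    LinearMap.charpoly (ρ.ρ σ) =
      Polynomial.X ^ 2 - Polynomial.C μ * Polynomial.X + Polynomial.C (q : 𝒪') :=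
  H21M.EA_frobenius hp2 hpS hp𝒪' hsq hM0 hex hM hS η hm hη ρ hρ hirr hx hT hq hqp hqM hc hμ hA hσ

/-- **Unipotent inertia at a prime that divides the level once** (EAb). If `q ≠ p` is a prime with
`q ∣ M`, `q² ∤ M` and `q ∤ N'`, then inertia at `q` acts unipotently on `ρ`. Proved in `H4EA`; input (a)
of section 3. -/
theorem unipotent_of_dvd_once (hp2 : p ≠ 2) (hpS : p ∈ S)
    (hp𝒪' : (p : 𝒪') ∈ IsLocalRing.maximalIdeal 𝒪')
    {N' M : ℕ} (hsq : Squarefree N') (hM0 : 0 < M)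
    (hex : ∀ r : ℕ, r.Prime → r ∣ N' → ¬ r * r ∣ M) (hM : N' ∣ M)
    (hS : H70.Mod.Away M (↑S : Set ℕ)) (η : (ZMod N')ˣ →* 𝒪'ˣ) {m : ℕ} (hm : Odd m)
    (hη : η ^ m = 1) {lam : ℕ → 𝒪'} (ρ : GaloisRepAdic 𝒪') (hρ : IsAttached S lam ρ)
    (hirr : ρ.residual.IsIrreducible) {x : H1 (gam N' M hM) (psiRep (η ^ 2) 𝒪')}
    (hx : ∀ c : 𝒪', c ≠ 0 → c • x ≠ 0)
    (hT : ∀ i : H70.Mod.Idx (↑S : Set ℕ), H70.Mod.tw hM hS (η ^ 2) η i x = lam i.1 • x)
    {q : ℕ} (hq : q.Prime) (hqp : q ≠ p) (hqM : q ∣ M) (hqM2 : ¬ q * q ∣ M) (hqN : ¬ q ∣ N') :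
    ρ.IsUnipotentOnInertiaAt q :=
  H4.EA_unipotent hp2 hpS hp𝒪' (H4.geomInputs Fact.out) hsq hM0 hex hM hS η hm hη ρ hρ hirr hx hT
    hq hqp hqM hqM2 hqN

/-- **Ramified character: inertia is not unipotent** (EAa). Let `N' = N₁ q` and suppose that `η` is
ramified at `q`: `η(u) ≠ 1` for some `u ≡ 1 mod N₁`. Then inertia at `q` does not act unipotently on `ρ`.
Used at the Taylor-Wiles primes, where it says (with `unipotent_of_trivial`) that the diamond operators act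
nontrivially exactly when the deformation variable of `q` does (this makes the map from the deformation
ring to the Hecke ring compatible with the group ring), and at the primes with nontrivial characters of
Ihara avoidance. Proved in `H4EA`; input (c) of section 3. -/
theorem not_unipotent_of_ramified (hp2 : p ≠ 2) (hpS : p ∈ S)
    (hp𝒪' : (p : 𝒪') ∈ IsLocalRing.maximalIdeal 𝒪')
    {N' N₁ M : ℕ} (hsq : Squarefree N') (hM0 : 0 < M)
    (hex : ∀ r : ℕ, r.Prime → r ∣ N' → ¬ r * r ∣ M) (hM : N' ∣ M)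
    (hS : H70.Mod.Away M (↑S : Set ℕ)) (η : (ZMod N')ˣ →* 𝒪'ˣ) {m : ℕ} (hm : Odd m)
    (hη : η ^ m = 1) {lam : ℕ → 𝒪'} (ρ : GaloisRepAdic 𝒪') (hρ : IsAttached S lam ρ)
    (hirr : ρ.residual.IsIrreducible) {x : H1 (gam N' M hM) (psiRep (η ^ 2) 𝒪')}
    (hx : ∀ c : 𝒪', c ≠ 0 → c • x ≠ 0)
    (hT : ∀ i : H70.Mod.Idx (↑S : Set ℕ), H70.Mod.tw hM hS (η ^ 2) η i x = lam i.1 • x)
    {q : ℕ} (hq : q.Prime) (hqp : q ≠ p) (hN : N' = N₁ * q)
    (u : (ZMod N')ˣ) (hu1 : ZMod.unitsMap (hN ▸ Dvd.intro q rfl) u = (1 : (ZMod N₁)ˣ))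
    (hu : η u ≠ 1) :
    ¬ ρ.IsUnipotentOnInertiaAt q :=
  H4.EA_not_unipotent hp2 hpS hp𝒪' (H4.geomInputs Fact.out) hsq hM0 hex hM hS η hm hη ρ hρ hirr
    hx hT hq hqp hN u hu1 hu

/-- **Unramified character at `q ∣ N'`** (EAb'). If `N' = N₁ q` and `η` is trivial on the `u ≡ 1 mod N₁`,
then inertia at `q` acts unipotently on `ρ`. Proved in `H4EA`. -/
theorem unipotent_of_trivial (hp2 : p ≠ 2) (hpS : p ∈ S)
    (hp𝒪' : (p : 𝒪') ∈ IsLocalRing.maximalIdeal 𝒪')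
    {N' N₁ M : ℕ} (hsq : Squarefree N') (hM0 : 0 < M)
    (hex : ∀ r : ℕ, r.Prime → r ∣ N' → ¬ r * r ∣ M) (hM : N' ∣ M)
    (hS : H70.Mod.Away M (↑S : Set ℕ)) (η : (ZMod N')ˣ →* 𝒪'ˣ) {m : ℕ} (hm : Odd m)
    (hη : η ^ m = 1) {lam : ℕ → 𝒪'} (ρ : GaloisRepAdic 𝒪') (hρ : IsAttached S lam ρ)
    (hirr : ρ.residual.IsIrreducible) {x : H1 (gam N' M hM) (psiRep (η ^ 2) 𝒪')}
    (hx : ∀ c : 𝒪', c ≠ 0 → c • x ≠ 0)
    (hT : ∀ i : H70.Mod.Idx (↑S : Set ℕ), H70.Mod.tw hM hS (η ^ 2) η i x = lam i.1 • x)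
    {q : ℕ} (hq : q.Prime) (hqp : q ≠ p) (hN : N' = N₁ * q)
    (hη1 : ∀ u : (ZMod N')ˣ, ZMod.unitsMap (hN ▸ Dvd.intro q rfl) u = (1 : (ZMod N₁)ˣ) →
      η u = 1) :
    ρ.IsUnipotentOnInertiaAt q :=
  H4.EA_unipotent' hp2 hpS hp𝒪' (H4.geomInputs Fact.out) hsq hM0 hex hM hS η hm hη ρ hρ hirr hx hT
    hq hqp hN hη1

/-- **Steinberg primes** (EAc). Level `M = M₀ q` with a prime `q ≠ p`, `q ∤ M₀`. If both traces of `x` to
level `M₀` vanish, there is `u = ± 1` such that every Frobenius element at `q` has characteristic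
polynomial `(X - u)(X - uq)`. Proved in `H4EA`; input (b) of section 3. -/
theorem steinberg_of_traces_zero (hp2 : p ≠ 2) (hpS : p ∈ S)
    (hp𝒪' : (p : 𝒪') ∈ IsLocalRing.maximalIdeal 𝒪')
    {N' M₀ q : ℕ} [NeZero M₀] [NeZero q] (hsq : Squarefree N')
    (hex : ∀ r : ℕ, r.Prime → r ∣ N' → ¬ r * r ∣ M₀) (hM : N' ∣ M₀)
    (hS : H70.Mod.Away (M₀ * q) (↑S : Set ℕ)) (η : (ZMod N')ˣ →* 𝒪'ˣ) {m : ℕ} (hm : Odd m)
    (hη : η ^ m = 1) {lam : ℕ → 𝒪'} (ρ : GaloisRepAdic 𝒪') (hρ : IsAttached S lam ρ)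
    (hirr : ρ.residual.IsIrreducible)
    {x : H1 (gam N' (M₀ * q) (dvd_mul_q hM)) (psiRep (η ^ 2) 𝒪')}
    (hx : ∀ c : 𝒪', c ≠ 0 → c • x ≠ 0)
    (hT : ∀ i : H70.Mod.Idx (↑S : Set ℕ),
      H70.Mod.tw (dvd_mul_q hM) hS (η ^ 2) η i x = lam i.1 • x)
    (hq : q.Prime) (hqp : q ≠ p) (hqM : ¬ q ∣ M₀)
    (h1 : (trFam hM).opH (psiRep (η ^ 2) 𝒪') x = 0)
    (h2 : (nuFam hM hq).opH (psiRep (η ^ 2) 𝒪') x = 0) :
    ∃ u : 𝒪', (u = 1 ∨ u = -1) ∧
      ∀ (A : ValuationSubring (AlgebraicClosure ℚ)) (_ : A.LiesOverPrime q)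
        (σ : AlgebraicClosure ℚ ≃ₐ[ℚ] AlgebraicClosure ℚ) (_ : A.IsFrobeniusAt σ q),
        LinearMap.charpoly (ρ.ρ σ) = (Polynomial.X - Polynomial.C u) *
          (Polynomial.X - Polynomial.C (u * (q : 𝒪'))) :=
  H4.EA_steinberg hp2 hpS hp𝒪' (H4.geomInputs Fact.out) hsq hex hM hS η hm hη ρ hρ hirr hx hT
    hq hqp hqM h1 h2

/-- **Flat at `p`.** If `p ∤ M`, then `ρ` is flat at `p`: it embeds in `𝒪' ⊗ T_p J₀(L)` for some `L` prime
to `p`, so its finite quotients are subquotients of powers of the groups `J₀(L)[pⁿ]`, and these are the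
groups of points of finite flat group schemes over `ℤ_(p)` (S19, see `GuideFlat`). Proved in `H80FlatPt`
(helper80). -/
theorem flat_of_not_dvd (hp2 : p ≠ 2) (hpS : p ∈ S)
    (hp𝒪' : (p : 𝒪') ∈ IsLocalRing.maximalIdeal 𝒪')
    {N' M : ℕ} (hsq : Squarefree N') (hM0 : 0 < M)
    (hex : ∀ r : ℕ, r.Prime → r ∣ N' → ¬ r * r ∣ M) (hM : N' ∣ M)
    (hS : H70.Mod.Away M (↑S : Set ℕ)) (η : (ZMod N')ˣ →* 𝒪'ˣ) {m : ℕ} (hm : Odd m)
    (hη : η ^ m = 1) {lam : ℕ → 𝒪'} (ρ : GaloisRepAdic 𝒪') (hρ : IsAttached S lam ρ)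
    (hirr : ρ.residual.IsIrreducible) {x : H1 (gam N' M hM) (psiRep (η ^ 2) 𝒪')}
    (hx : ∀ c : 𝒪', c ≠ 0 → c • x ≠ 0)
    (hT : ∀ i : H70.Mod.Idx (↑S : Set ℕ), H70.Mod.tw hM hS (η ^ 2) η i x = lam i.1 • x)
    (hpM : ¬ p ∣ M) :
    ρ.IsFlatAt p :=
  H80.FlatPt.EA_flat hp2 hpS hp𝒪' hsq hM0 hex hM hS η hm hη ρ hρ hirr hx hT hpM

/-- **Classes over the fraction field.** `realisation_good` and `realisation_new` are formulated for
classes `y ∈ H¹(Γ₀(M), K₁(ψ))`, `ψ = η²`, with `T_ℓ y = η(ℓ) lam(ℓ) y`. The image `y` of an integral class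
`x` as above is one: it is not 0 and has the same eigenvalues. (`H4EA`, `H21MGood`; `h1S` is the change of
the coefficients, `psiMap` the composition of a character with a ring homomorphism.) -/
theorem class_over_fraction_field {N' M : ℕ} (hM : N' ∣ M) (hS : H70.Mod.Away M (↑S : Set ℕ))
    (η : (ZMod N')ˣ →* 𝒪'ˣ) {lam : ℕ → 𝒪'} {x : H1 (gam N' M hM) (psiRep (η ^ 2) 𝒪')}
    (hx : ∀ c : 𝒪', c ≠ 0 → c • x ≠ 0)
    (hT : ∀ i : H70.Mod.Idx (↑S : Set ℕ), H70.Mod.tw hM hS (η ^ 2) η i x = lam i.1 • x) :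
    h1S hM (η ^ 2) (algebraMap 𝒪' (FractionRing 𝒪')) x ≠ 0 ∧
      H4.IsEigTw hM S lam (psiMap (algebraMap 𝒪' (FractionRing 𝒪')) η)
        (psiMap (algebraMap 𝒪' (FractionRing 𝒪')) (η ^ 2))
        (h1S hM (η ^ 2) (algebraMap 𝒪' (FractionRing 𝒪')) x) :=
  ⟨H4.h1S_ne_zero hM (η ^ 2) hx, H21M.isEigTw_h1S hM hS η hT⟩

omit [IsDomain 𝒪'] [IsDiscreteValuationRing 𝒪'] [IsAdicComplete (IsLocalRing.maximalIdeal 𝒪') 𝒪']
  [Finite (IsLocalRing.ResidueField 𝒪')] [CharZero 𝒪'] [IsFractionRing 𝒪' K₁] in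
/-- **Eigenclasses with character** (`IsEigTw`, written out): `T_ℓ y = η(ℓ) lam(ℓ) y` for all primes
`ℓ ∉ S`, `ℓ ∤ M`. (`H4EAK`.) -/
theorem isEigTw_iff {N' M : ℕ} (hM : N' ∣ M) (lam : ℕ → 𝒪') (η ψ : (ZMod N')ˣ →* K₁ˣ)
    (y : H1 (gam N' M hM) (psiRep ψ K₁)) :
    H4.IsEigTw hM S lam η ψ y ↔
      ∀ (ℓ : ℕ) (hℓ : ℓ.Prime) (hℓM : ¬ ℓ ∣ M) (hc : ℓ.Coprime N'), ℓ ∉ S →
        (tFam hM hℓ hℓM).opH (psiRep ψ K₁) y =
          (((η (ZMod.unitOfCoprime ℓ hc) : K₁ˣ) : K₁) * algebraMap 𝒪' K₁ (lam ℓ)) • y :=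
  Iff.rfl

/-- **Realisation in the Tate module, level prime to `p`** (`ordP_good`). Let `p ∤ M` and
`T_p y = η(p) μ y`. There is a level `L` prime to `p`, with prime divisors in `S`, and an injective Galois
equivariant map from `ρ` to `𝒪' ⊗ T_p J₀(L)` on whose image `T_p = μ`. It is used to read off the
behaviour of `ρ` at `p` from the finite flat group schemes `J₀(L)[pⁿ]` (flatness; `z² - μ z + p = 0` for
the unramified quotient). Proved in `H4OrdP`. -/
theorem realisation_good (hp2 : p ≠ 2) (hpS : p ∈ S) [Algebra ℤ_[p] 𝒪']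
    (hp𝒪' : (p : 𝒪') ∈ IsLocalRing.maximalIdeal 𝒪')
    (hinj : Function.Injective (algebraMap ℤ_[p] 𝒪'))
    {N' M : ℕ} (hsq : Squarefree N') (hM0 : 0 < M)
    (hex : ∀ r : ℕ, r.Prime → r ∣ N' → ¬ r * r ∣ M) (hM : N' ∣ M)
    (hMS : ∀ r : ℕ, r.Prime → r ∣ M → r ∈ S)
    (η ψ : (ZMod N')ˣ →* K₁ˣ) (hψ : ψ = η ^ 2) {m : ℕ} (hm : Odd m) (hη : η ^ m = 1)
    {lam : ℕ → 𝒪'} (ρ : GaloisRepAdic 𝒪') (hρ : IsAttached S lam ρ)
    (hirr : ρ.residual.IsIrreducible)
    {y : H1 (gam N' M hM) (psiRep ψ K₁)} (hy : y ≠ 0) (hT : H4.IsEigTw hM S lam η ψ y)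
    (hp : p.Prime) (hpM : ¬ p ∣ M) (hc : p.Coprime N') {μ : 𝒪'}
    (hμ : (tFam hM hp hpM).opH (psiRep ψ K₁) y =
      (((η (ZMod.unitOfCoprime p hc) : K₁ˣ) : K₁) * algebraMap 𝒪' K₁ μ) • y) :
    ∃ (L : ℕ) (_ : NeZero L), ¬ p ∣ L ∧ (∀ r : ℕ, r.Prime → r ∣ L → r ∈ S) ∧
      ∃ Φ : ρ.V →ₗ[𝒪'] 𝒪' ⊗[ℤ_[p]] H30.TateMod p (JZero L), Function.Injective Φ ∧
      (∀ g x, Φ (ρ.ρ g x) = (H30.galTate p (JZero L) g).baseChange 𝒪' (Φ x)) ∧
      ∀ x, (H35.tateMap (p := p) (heckeOperatorBar L ⟨p, hp⟩)).baseChange 𝒪' (Φ x) = μ • Φ x :=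
  H4.ordP_good hp2 hpS hp𝒪' hinj hsq hM0 hex hM hMS η ψ hψ hm hη ρ hρ hirr hy hT hp hpM hc hμ

/-- **Realisation in the Tate module, new at `q`** (`ordP_new`; `q = p` allowed). Level `M₀ q`, `q ∤ M₀`,
both traces of `y` vanish. There are a level `L` prime to `q`, a sign `s` and an injective Galois
equivariant map from `ρ` to `𝒪' ⊗ T_p J₀(Lq)` on whose image both push-forwards to level `L` are 0 and
`w_q = -s`. For `q = p` it gives the unramified quotient of `ρ` at `p` with Frobenius `± 1`. Proved in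
`H4OrdP`. -/
theorem realisation_new (hp2 : p ≠ 2) (hpS : p ∈ S) [Algebra ℤ_[p] 𝒪']
    (hp𝒪' : (p : 𝒪') ∈ IsLocalRing.maximalIdeal 𝒪')
    (hinj : Function.Injective (algebraMap ℤ_[p] 𝒪'))
    {N' M₀ q : ℕ} [NeZero M₀] [NeZero q] (hsq : Squarefree N')
    (hex : ∀ r : ℕ, r.Prime → r ∣ N' → ¬ r * r ∣ M₀) (hM : N' ∣ M₀)
    (hMS : ∀ r : ℕ, r.Prime → r ∣ M₀ * q → r ∈ S)
    (η ψ : (ZMod N')ˣ →* K₁ˣ) (hψ : ψ = η ^ 2) {m : ℕ} (hm : Odd m) (hη : η ^ m = 1)
    {lam : ℕ → 𝒪'} (ρ : GaloisRepAdic 𝒪') (hρ : IsAttached S lam ρ)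
    (hirr : ρ.residual.IsIrreducible)
    {y : H1 (gam N' (M₀ * q) (dvd_mul_q hM)) (psiRep ψ K₁)} (hy : y ≠ 0)
    (hT : H4.IsEigTw (dvd_mul_q hM) S lam η ψ y)
    (hq : q.Prime) (hqM : ¬ q ∣ M₀)
    (h1 : (trFam hM).opH (psiRep ψ K₁) y = 0)
    (h2 : (nuFam hM hq).opH (psiRep ψ K₁) y = 0) :
    ∃ (L : ℕ) (_ : NeZero L) (_ : NeZero (L * q)) (hc : L.Coprime q),
      ¬ q ∣ L ∧ (∀ r : ℕ, r.Prime → r ∣ L * q → r ∈ S) ∧
      ∃ s : ℤ, (s = 1 ∨ s = -1) ∧
      ∃ Φ : ρ.V →ₗ[𝒪'] 𝒪' ⊗[ℤ_[p]] H30.TateMod p (JZero (L * q)), Function.Injective Φ ∧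
      (∀ g x, Φ (ρ.ρ g x) = (H30.galTate p (JZero (L * q)) g).baseChange 𝒪' (Φ x)) ∧
      (∀ h x, (H35.tateMap (p := p) (H67.degPush (M := L) (N := L * q) 1 h)).baseChange 𝒪'
        (Φ x) = 0) ∧
      (∀ h x, (H35.tateMap (p := p) (H67.degPush (M := L) (N := L * q) q h)).baseChange 𝒪'
        (Φ x) = 0) ∧
      ∀ x, (H35.tateMap (p := p) (H67.wJ L q rfl hc)).baseChange 𝒪' (Φ x) =
        ((-s : ℤ) : 𝒪') • Φ x :=
  H4.ordP_new hp2 hpS hp𝒪' hinj hsq hex hM hMS η ψ hψ hm hη ρ hρ hirr hy hT hq hqM h1 h2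

end EigenAnalysis

end Fermat.Agent.Guide.Eigen

end
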