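import Fermat.Agent.H49Lifting

/-!
# Reader's guide: eigenvectors of the Hecke operators of weight two, and the lemma of Deligne and Serre

Companion of `GuideDeligneSerre` (last theorem, `exists_eigenform_congruent`), `GuideNewforms` and
`GuideLevels`.  Every theorem of this file is proved by citing theorems of the library
(`H49HeckeBasic`, `H49DeligneSerre`, `H49Lifting`, helper49); nothing here is used by any other file.
Notes: [167] NOTES-DELIGNE-SERRE.

**What is proved.**  (1) A cusp form of weight two for `Γ₀(N)` which is an eigenvector of all Hecke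
operators is, up to a constant, a normalised eigenform in the sense of the frozen statements (defined by
relations between the coefficients), and conversely.  (2) The lemma of Deligne and Serre: if a form `f₀`
is an eigenvector of some Hecke operators modulo a prime ideal `𝔪` of the ring of all algebraic integers,
then there is a normalised eigenform with congruent eigenvalues.

**Idea of the proof of (2).**  Let `V` be the space of cusp forms, `Λ'` the set of forms with all
coefficients in `𝔪`, and `S` the commutative algebra generated over `ℤ̄` by the Hecke operators.  Let `I` be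
the ideal of all `t ∈ S` with `t f₀ ∈ Λ'`.  Every common eigenvector gives a homomorphism `χ : S → ℤ̄`, and
there are only finitely many `χ`.  If `t ∈ I`, the characteristic polynomial `∏ (X - α)` of `t` on `V`
gives `0 = ∏ (t - α) f₀ ≡ ± (∏ α) f₀` modulo `Λ'`, so `∏ α ∈ 𝔪`, so some eigenvalue `α = χ(t)` lies in
`𝔪`.  Hence `I` is contained in the union of the prime ideals `χ⁻¹(𝔪)`, and by prime avoidance in one of
them.  If `f₀` is an eigenvector of `t` modulo `𝔪` with eigenvalue `m`, then `t - m ∈ I`, so
`χ(t) ≡ m` modulo `𝔪`.  The field of coefficients is never enlarged, and no going-down theorem is used.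

All theorems belong to the closures of S01, S03, S04, S06, S38 - S40, S43 - S46, S50, S59, S60; those of
sections 1 and 2 (except `hecke_coefficients`), `common_eigenvector` and `eigenvector_of_generators` also
to those of S35, S36, S41, S58.  In addition `determined_by_coefficients` belongs to S09, S12, S15,
`isHeckeEigenvector_iff` to S29, S42 and `common_eigenvector` to S47.

Notation: `qCoeff f n` is the `n`-th coefficient of the `q`-expansion; `Zbar` the ring of algebraic
integers in `ℂ`; `heckeTLin`, `heckeULin` the Hecke operators `T_ℓ` (`ℓ ∤ N`) and `U_q` (`q ∣ N`).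
-/

set_option autoImplicit false

noncomputable section

open Polynomial ModularFormClass UpperHalfPlane
open scoped MatrixGroups ModularForm

namespace Fermat.Agent.Guide.EigenLifting

open Fermat.Agent.H49 (IsHeckeEigenvector heckeCoeffTwo idealForms sturmB)

local notation "Γ₀(" N ")" => CongruenceSubgroup.Gamma0 N

/-- The ring of all algebraic integers. -/
local notation "Zbar" => integralClosure ℤ ℂ

/-! ## 1. Coefficients -/

/-- **The coefficients determine the form**: a cusp form for `Γ₀(N)` of weight `k` is zero if its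
coefficients up to the bound of Sturm, `k [SL₂(ℤ) : Γ₀(N)] / 12`, are zero; two forms with equal
coefficients are equal; so the space is finite dimensional.  (The bound of Sturm is a theorem of the
Prelude.)  File `H49HeckeBasic`. -/
theorem determined_by_coefficients (N : ℕ) [NeZero N] (k : ℤ) :
    sturmB N k = (k * (Γ₀(N)).index).toNat / 12 ∧
    (∀ f : CuspForm Γ₀(N) k, (∀ n : ℕ, n ≤ sturmB N k → qCoeff ⇑f n = 0) → f = 0) ∧
    (∀ f g : CuspForm Γ₀(N) k, (∀ n : ℕ, qCoeff ⇑f n = qCoeff ⇑g n) → f = g) ∧
    FiniteDimensional ℂ (CuspForm Γ₀(N) k) :=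
  ⟨rfl, H49.eq_zero_of_qCoeff_sturm, fun _ _ h => H49.ext_of_forall_qCoeff h,
    H49.finiteDimensional_cuspForm N k⟩

/-- **Hecke operators on coefficients**, weight two: `heckeCoeffTwo N p a n` is `a_{np} + p a_{n/p}` (the
second term only if `p ∣ n` and `p ∤ N`).  It gives the coefficients of `T_p f` and of `U_p f`.  File
`H49Lifting`. -/
theorem hecke_coefficients {N : ℕ} [NeZero N] {p : ℕ} (hp : p.Prime) (f : CuspForm Γ₀(N) 2) (n : ℕ) :
    (∀ {R : Type} [CommRing R] (a : ℕ → R), heckeCoeffTwo N p a n =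
      a (n * p) + if p ∣ N then 0 else if p ∣ n then (p : R) * a (n / p) else 0) ∧
    (∀ hpN : ¬ p ∣ N, qCoeff ⇑(CuspForm.heckeTLin 2 hp hpN f) n =
      heckeCoeffTwo N p (fun n => qCoeff ⇑f n) n) ∧
    ∀ hpN : p ∣ N, qCoeff ⇑(CuspForm.heckeULin 2 hpN f) n =
      heckeCoeffTwo N p (fun n => qCoeff ⇑f n) n :=
  ⟨fun _ => rfl, fun hpN => H49.qCoeff_T_two hp hpN f n, fun hpN => H49.qCoeff_U_two hp hpN f n⟩

/-! ## 2. Eigenvectors and normalised eigenforms -/

/-- **Eigenvector**: `IsHeckeEigenvector f c` says that `f` is an eigenvector of all `T_ℓ` and `U_q` with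
eigenvalues `c ℓ`, `c q`.  File `H49HeckeBasic`. -/
theorem isHeckeEigenvector_iff {N : ℕ} [NeZero N] (f : CuspForm Γ₀(N) 2) (c : ℕ → ℂ) :
    IsHeckeEigenvector f c ↔
      (∀ (ℓ : ℕ) (hℓ : ℓ.Prime) (hℓN : ¬ ℓ ∣ N), CuspForm.heckeTLin 2 hℓ hℓN f = c ℓ • f) ∧
      ∀ (q : ℕ) (_ : q.Prime) (hqN : q ∣ N), CuspForm.heckeULin 2 hqN f = c q • f :=
  ⟨fun h => ⟨h.T, h.U⟩, fun h => ⟨h.1, h.2⟩⟩

/-- **Recursion**: for an eigenvector `a_p = c_p a_1`, `a_{np} = c_p a_n` if `p ∤ n`, and
`a_{n p^(r+2)} = c_p a_{n p^(r+1)} - p a_{n p^r}` (without the last term if `p ∣ N`).  File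
`H49HeckeBasic`. -/
theorem recursion {N : ℕ} [NeZero N] {f : CuspForm Γ₀(N) 2} {c : ℕ → ℂ}
    (h : IsHeckeEigenvector f c) {p : ℕ} (hp : p.Prime) :
    qCoeff ⇑f p = c p * qCoeff ⇑f 1 ∧
    (∀ n : ℕ, ¬ p ∣ n → qCoeff ⇑f (n * p) = c p * qCoeff ⇑f n) ∧
    ∀ n r : ℕ, qCoeff ⇑f (n * p ^ (r + 2)) = c p * qCoeff ⇑f (n * p ^ (r + 1)) -
      (if p ∣ N then 0 else (p : ℂ)) * qCoeff ⇑f (n * p ^ r) :=
  ⟨h.qCoeff_prime hp, fun _ hn => h.qCoeff_mul_prime_of_not_dvd hp hn,
    fun n r => h.qCoeff_prime_pow_step hp n r⟩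

/-- **The first coefficient** of an eigenvector `f ≠ 0` is not zero, because it determines all others.
File `H49HeckeBasic`. -/
theorem first_coefficient {N : ℕ} [NeZero N] {f : CuspForm Γ₀(N) 2} {c : ℕ → ℂ}
    (h : IsHeckeEigenvector f c) (hf : f ≠ 0) : qCoeff ⇑f 1 ≠ 0 :=
  h.qCoeff_one_ne_zero hf

/-- **Dictionary.**  An eigenvector with first coefficient `1` is a normalised eigenform (the coefficients
are multiplicative, with the recursion for powers of primes); a normalised eigenform is an eigenvector
with its coefficients as eigenvalues; and every eigenvector `f ≠ 0` is a multiple of a normalised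
eigenform.  File `H49HeckeBasic`. -/
theorem dictionary {N : ℕ} [NeZero N] (f : CuspForm Γ₀(N) 2) :
    (∀ c : ℕ → ℂ, IsHeckeEigenvector f c → qCoeff ⇑f 1 = 1 → f.IsNormalizedEigenform) ∧
    (f.IsNormalizedEigenform → IsHeckeEigenvector f fun p => qCoeff ⇑f p) ∧
    ∀ c : ℕ → ℂ, IsHeckeEigenvector f c → f ≠ 0 →
      ∃ g : CuspForm Γ₀(N) 2, IsHeckeEigenvector g c ∧ g.IsNormalizedEigenform ∧
        (∀ p : ℕ, p.Prime → qCoeff ⇑g p = c p) ∧ g = (qCoeff ⇑f 1)⁻¹ • f :=
  ⟨fun _ h h1 => h.isNormalizedEigenform h1, fun h => h.isHeckeEigenvector_H49,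
    fun _ h hf => h.exists_normalized hf⟩

/-! ## 3. Integrality -/

/-- **Operators with a stable lattice are integral**: an endomorphism of a vector space which stabilises a
finitely generated subgroup which spans the space is integral over `ℤ`.  File `H49DeligneSerre`. -/
theorem integral_of_stable_lattice {K V : Type*} [Field K] [AddCommGroup V] [Module K V]
    (L : Submodule ℤ V) (hL : L.FG) (hspan : Submodule.span K (L : Set V) = ⊤)
    (t : Module.End K V) (ht : ∀ v ∈ L, t v ∈ L) : IsIntegral ℤ t :=
  H49.isIntegral_of_stable_lattice L hL hspan t ht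

/-- **Hecke operators are integral over `ℤ`**, if the forms with integral coefficients span the space
(`HasIntegralStructure`; for weight two this is S23).  File `H49HeckeBasic`. -/
theorem hecke_integral {N : ℕ} [NeZero N] {k : ℤ} (hk : 1 ≤ k)
    (h : CuspForm.HasIntegralStructure N k) {S : Set ℕ} {t : Module.End ℂ (CuspForm Γ₀(N) k)}
    (ht : t ∈ CuspForm.heckeAlgebra N k S) : IsIntegral ℤ t :=
  H49.isIntegral_of_mem_heckeAlgebra hk h ht

/-- **Forms with coefficients in an ideal** `𝔪` of `ℤ̄`: a submodule stable under all Hecke operators.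
File `H49Lifting`. -/
theorem ideal_forms {N : ℕ} [NeZero N] (𝔪 : Ideal Zbar) (f : CuspForm Γ₀(N) 2) :
    (f ∈ idealForms N 𝔪 ↔ ∀ n : ℕ, ∃ b ∈ 𝔪, (b : ℂ) = qCoeff ⇑f n) ∧
    ∀ t ∈ CuspForm.heckeGenerators N 2 ∅, f ∈ idealForms N 𝔪 → t f ∈ idealForms N 𝔪 :=
  ⟨Iff.rfl, fun _ ht hf => H49.generators_stable ht hf⟩

/-! ## 4. The lemma of Deligne and Serre -/

/-- **A common eigenvector**: a commuting family of endomorphisms of a finite dimensional vector space over
an algebraically closed field, which stabilises a subspace `E ≠ 0`, has a common eigenvector in `E`.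
(On a minimal stable subspace of `E` every member is a scalar.)  File `H49DeligneSerre`. -/
theorem common_eigenvector {K V : Type*} [Field K] [IsAlgClosed K] [AddCommGroup V] [Module K V]
    [FiniteDimensional K V] (A : Set (Module.End K V)) (hcomm : ∀ s ∈ A, ∀ t ∈ A, Commute s t)
    (E : Submodule K V) (hE : E ≠ ⊥) (hstab : ∀ t ∈ A, ∀ v ∈ E, t v ∈ E) :
    ∃ v ∈ E, v ≠ 0 ∧ ∃ χ : Module.End K V → K, ∀ t ∈ A, t v = χ t • v :=
  H49.exists_common_eigenvector A hcomm E hE hstab

/-- **Eigenvalues are integral.**  Let `R → K` be such that every element of `K` integral over `R` comes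
from `R` (for example `ℤ̄ → ℂ`).  On a common eigenvector of a set of integral operators the algebra which
they generate over `R` acts by elements of `R`.  File `H49DeligneSerre`. -/
theorem eigenvalues_integral {K R V : Type*} [Field K] [CommRing R] [Algebra R K] [AddCommGroup V]
    [Module K V] [Module R V] [IsScalarTower R K V]
    (hR : ∀ x : K, IsIntegral R x → x ∈ (algebraMap R K).range)
    (A : Set (Module.End K V)) (hint : ∀ t ∈ A, IsIntegral R t) {v : V} (hv : v ≠ 0)
    (h : ∀ t ∈ A, ∃ c : K, t v = c • v) : ∀ t ∈ Algebra.adjoin R A, ∃ r : R, t v = r • v :=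
  H49.forall_adjoin_exists_smul hR A hint hv h

/-- **The product step.**  Let `τ` stabilise `Λ'` and `τ f₀ ∈ Λ'`.  Then the product of the `τ - α`, `α` in
a list of elements of `R`, maps `f₀` to `c f₀` modulo `Λ'` for some `c ∈ R` (up to sign the product of the
`α`), and if `c` lies in the prime ideal `𝔪`, then so does one of the `α`.  File `H49DeligneSerre`. -/
theorem product_step {K R V : Type*} [Field K] [CommRing R] [Algebra R K] [AddCommGroup V]
    [Module K V] [Module R V] [IsScalarTower R K V] (τ : Module.End K V) (Λ' : Submodule R V)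
    (hΛ' : ∀ v ∈ Λ', τ v ∈ Λ') (𝔪 : Ideal R) [𝔪.IsPrime] (f₀ : V) (hτ : τ f₀ ∈ Λ')
    (s : Multiset K) (hs : ∀ α ∈ s, α ∈ (algebraMap R K).range) :
    ∃ c : R, (aeval τ ((s.map fun α => X - C α).prod : K[X])) f₀ - c • f₀ ∈ Λ' ∧
      (c ∈ 𝔪 → ∃ α ∈ s, ∃ r ∈ 𝔪, algebraMap R K r = α) :=
  H49.exists_scalar_of_multiset τ Λ' hΛ' 𝔪 f₀ hτ s hs

/-- **The lemma of Deligne and Serre, abstract form.**  Let `K` be algebraically closed, `R → K` injective
and as in `eigenvalues_integral`, `A` a commuting set of operators, integral over `R`, on a finite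
dimensional space `V` over `K`, `Λ'` an `R`-submodule of `V` stable under `A`, `𝔪` a prime ideal of `R`,
and `f₀` a vector such that `c f₀ ∈ Λ'` only for `c ∈ 𝔪`.  There is a common eigenvector `v ≠ 0` such that
for each `t ∈ A` for which `f₀` is an eigenvector modulo `Λ'` with eigenvalue `m` the eigenvalue of `t` on
`v` is congruent to `m` modulo `𝔪`.  Proof: header.  `Λ'` need not be finitely generated, and `R` need not
be noetherian.  File `H49DeligneSerre`. -/
theorem deligne_serre_abstract {K R V : Type*} [Field K] [CommRing R] [Algebra R K] [AddCommGroup V]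
    [Module K V] [Module R V] [IsScalarTower R K V] [IsAlgClosed K] [FiniteDimensional K V]
    (hR : ∀ x : K, IsIntegral R x → x ∈ (algebraMap R K).range)
    (hinj : Function.Injective (algebraMap R K))
    (A : Set (Module.End K V)) (hcomm : ∀ s ∈ A, ∀ t ∈ A, Commute s t)
    (hint : ∀ t ∈ A, IsIntegral R t)
    (Λ' : Submodule R V) (hΛ' : ∀ t ∈ A, ∀ v ∈ Λ', t v ∈ Λ')
    (𝔪 : Ideal R) [𝔪.IsPrime] (f₀ : V) (hf₀ : ∀ c : R, c • f₀ ∈ Λ' → c ∈ 𝔪) :
    ∃ v : V, v ≠ 0 ∧ ∀ t ∈ A, ∃ r : R, t v = r • v ∧
      ∀ m : R, t f₀ - m • f₀ ∈ Λ' → r - m ∈ 𝔪 :=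
  H49.deligne_serre hR hinj A hcomm hint Λ' hΛ' 𝔪 f₀ hf₀

/-- **Application to modular forms**: `R = ℤ̄` satisfies the hypotheses of `deligne_serre_abstract`, `A` is
the set of the Hecke operators of level `N` (all primes), and `Λ' = idealForms N 𝔪`.  A form one
coefficient of which is an algebraic integer outside `𝔪` satisfies the condition on `f₀`, since `𝔪` is
prime.  The eigenvector is turned into a normalised eigenform by `dictionary`; the result is
`GuideDeligneSerre.exists_eigenform_congruent`.  File `H49Lifting`. -/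
theorem application (x : ℂ) (hx : IsIntegral Zbar x) :
    x ∈ (algebraMap Zbar ℂ).range ∧ Function.Injective (algebraMap Zbar ℂ) :=
  ⟨H49.Zbar_range x hx, H49.Zbar_injective⟩

/-- A common eigenvector of the generators of the Hecke algebra is an eigenvector in the sense of
`isHeckeEigenvector_iff`.  File `H49HeckeBasic`. -/
theorem eigenvector_of_generators {N : ℕ} [NeZero N] {f : CuspForm Γ₀(N) 2}
    (h : ∀ t ∈ CuspForm.heckeGenerators N 2 ∅, ∃ c : ℂ, t f = c • f) :
    ∃ c : ℕ → ℂ, IsHeckeEigenvector f c :=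
  H49.IsHeckeEigenvector.of_generators h

end Fermat.Agent.Guide.EigenLifting
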