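/-
H62Model: a Hecke eigenvector in `K̄ ⊗ T` (`T` a finite free `ℤ_p`-module) is defined, up to a scalar, over a
complete discrete valuation ring finite over a given one.
-/
import Mathlib
import Fermat.Agent.H62New
import Fermat.Agent.H35DVR

set_option autoImplicit false
set_option linter.style.haveILetI false
set_option linter.unusedSectionVars false

noncomputable section

open IsLocalRing Module TensorProduct Polynomial Fermat.Agent.H35

namespace Fermat.Agent.H62

section BC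

variable {Z A B : Type*} [CommRing Z] [CommRing A] [CommRing B] [Algebra Z A] [Algebra Z B]
    [Algebra A B] [IsScalarTower Z A B] {T : Type*} [AddCommGroup T] [Module Z T]

variable (Z A B T) in
/-- the map `A ⊗ T → B ⊗ T` -/
def bcMap : A ⊗[Z] T →ₗ[Z] B ⊗[Z] T := (IsScalarTower.toAlgHom Z A B).toLinearMap.rTensor T

@[simp] theorem bcMap_tmul (a : A) (t : T) : bcMap Z A B T (a ⊗ₜ t) = algebraMap A B a ⊗ₜ t := rfl

theorem bcMap_smul (a : A) (u : A ⊗[Z] T) :
    bcMap Z A B T (a • u) = algebraMap A B a • bcMap Z A B T u := by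
  induction u using TensorProduct.induction_on with
  | zero => simp
  | tmul x t => simp [TensorProduct.smul_tmul', smul_eq_mul, Algebra.smul_def]
  | add x y hx hy => rw [smul_add, map_add, map_add, smul_add, hx, hy]

theorem bcMap_baseChange {T₁ : Type*} [AddCommGroup T₁] [Module Z T₁] (F : T →ₗ[Z] T₁)
    (u : A ⊗[Z] T) : bcMap Z A B T₁ (F.baseChange A u) = F.baseChange B (bcMap Z A B T u) := by
  induction u using TensorProduct.induction_on with
  | zero => simp
  | tmul x t => simp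
  | add x y hx hy => simp only [map_add, hx, hy]

theorem bcMap_injective [Module.Flat Z T] (h : Function.Injective (algebraMap A B)) :
    Function.Injective (bcMap Z A B T) :=
  Module.Flat.rTensor_preserves_injective_linearMap _ h

end BC

section Ring

variable (O : Type) [CommRing O] [IsDomain O] [IsDiscreteValuationRing O]
    [IsAdicComplete (maximalIdeal O) O] [Finite (ResidueField O)] [CharZero O]
    (Kb : Type) [Field Kb] [Algebra O Kb] [FaithfulSMul O Kb] [Algebra.IsAlgebraic O Kb]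

/-- Finitely many elements of an algebraic extension `Kb` of `Frac O` lie in the fraction field `L` of a
complete discrete valuation ring `𝒪'` finite over `O`, with `𝒪'` the set of integral elements of `L`. -/
theorem exists_dvr_of_finite {ι₀ : Type*} [Finite ι₀] (y : ι₀ → Kb) :
    ∃ (𝒪' : Type) (_ : CommRing 𝒪') (_ : IsDomain 𝒪') (_ : IsDiscreteValuationRing 𝒪')
      (_ : IsAdicComplete (maximalIdeal 𝒪') 𝒪') (_ : Finite (ResidueField 𝒪')) (_ : CharZero 𝒪')
      (_ : Algebra O 𝒪') (_ : Module.Finite O 𝒪') (_ : IsLocalHom (algebraMap O 𝒪')),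
      Function.Injective (algebraMap O 𝒪') ∧
      ∃ (ι : 𝒪' →+* Kb) (L : Subfield Kb), Function.Injective ι ∧
        (∀ x, ι (algebraMap O 𝒪' x) = algebraMap O Kb x) ∧ (∀ i, y i ∈ L) ∧
        (∀ x : O, algebraMap O Kb x ∈ L) ∧
        (∀ x ∈ L, IsIntegral O x → ∃ z, ι z = x) ∧
        ∀ (ι₁ : Type) [Finite ι₁] (z : ι₁ → Kb), (∀ i, z i ∈ L) →
          ∃ c : O, c ≠ 0 ∧ ∀ i, ∃ w, ι w = algebraMap O Kb c * z i := by
  classical
  let K₀ := FractionRing O
  letI : Algebra K₀ Kb := FractionRing.liftAlgebra O Kb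
  haveI : IsScalarTower O K₀ Kb := FractionRing.isScalarTower_liftAlgebra O Kb
  haveI : CharZero K₀ := charZero_of_injective_algebraMap (IsFractionRing.injective O K₀)
  haveI : Algebra.IsAlgebraic K₀ Kb :=
    ⟨fun x => (Algebra.IsAlgebraic.isAlgebraic (R := O) x).extendScalars
      (IsFractionRing.injective O K₀)⟩
  let L : IntermediateField K₀ Kb := IntermediateField.adjoin K₀ (Set.range y)
  haveI : FiniteDimensional K₀ L :=
    IntermediateField.finiteDimensional_adjoin (S := Set.range y)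
      (fun x _ => (Algebra.IsAlgebraic.isAlgebraic (R := K₀) x).isIntegral)
  have hyL : ∀ i, y i ∈ L := fun i => IntermediateField.subset_adjoin K₀ _ ⟨i, rfl⟩
  have hOL : ∀ x : O, algebraMap O Kb x ∈ L := fun x => by
    rw [IsScalarTower.algebraMap_apply O K₀ Kb]
    exact L.algebraMap_mem _
  haveI : IsScalarTower O L Kb := IsScalarTower.of_algebraMap_eq fun x => rfl
  let 𝒪' := integralClosure O L
  haveI i1 : Module.Finite O 𝒪' := finite_integralClosure O K₀ L
  haveI i2 : IsLocalRing 𝒪' := isLocalRing_integralClosure O K₀ L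
  haveI i3 : IsDiscreteValuationRing 𝒪' := isDiscreteValuationRing_integralClosure O K₀ L
  haveI i4 : IsAdicComplete (maximalIdeal 𝒪') 𝒪' := isAdicComplete_integralClosure O K₀ L
  haveI i5 : Finite (ResidueField 𝒪') := finite_residueField_integralClosure O K₀ L
  haveI i6 : IsLocalHom (algebraMap O 𝒪') := isLocalHom_integralClosure O K₀ L
  have hinjO : Function.Injective (algebraMap O 𝒪') := injective_algebraMap_integralClosure O K₀ L
  haveI i7 : CharZero 𝒪' := charZero_of_injective_algebraMap hinjO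
  let ι : 𝒪' →+* Kb := (algebraMap L Kb).comp (algebraMap 𝒪' L)
  have hint : ∀ x : Kb, ∀ hx : x ∈ L, IsIntegral O x → ∃ z, ι z = x := by
    intro x hx hxi
    have h1 : IsIntegral O (algebraMap L Kb ⟨x, hx⟩) := hxi
    exact ⟨⟨⟨x, hx⟩, (isIntegral_algebraMap_iff (algebraMap L Kb).injective).mp h1⟩, rfl⟩
  refine ⟨𝒪', inferInstance, inferInstance, i3, i4, i5, i7, inferInstance, i1, i6, hinjO, ι,
    L.toSubfield, fun x z hxz => Subtype.ext (Subtype.ext hxz),
    fun x => (IsScalarTower.algebraMap_apply O L Kb x).symm, hyL, hOL, hint, ?_⟩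
  intro ι₁ _ z hz
  have := Fintype.ofFinite ι₁
  obtain ⟨c, hc0, hc⟩ := exists_integral_multiples O K₀ (Finset.univ.image
    (fun i => (⟨z i, hz i⟩ : L)))
  refine ⟨c, hc0, fun i => ?_⟩
  have hci : IsIntegral O (c • (⟨z i, hz i⟩ : L)) :=
    hc _ (Finset.mem_image_of_mem _ (Finset.mem_univ i))
  refine ⟨⟨c • (⟨z i, hz i⟩ : L), hci⟩, ?_⟩
  rw [← Algebra.smul_def]
  rfl

end Ring

section Model

variable {p : ℕ} [Fact p.Prime]
    (O : Type) [CommRing O] [IsDomain O] [IsDiscreteValuationRing O]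
    [IsAdicComplete (maximalIdeal O) O] [Finite (ResidueField O)] [CharZero O] [Algebra ℤ_[p] O]
    (Kb : Type) [Field Kb] [Algebra O Kb] [FaithfulSMul O Kb] [Algebra.IsAlgebraic O Kb]
    [Algebra ℤ_[p] Kb] [IsScalarTower ℤ_[p] O Kb]
    {Λ : Type*} [CommRing Λ]
    {T : Type*} [AddCommGroup T] [Module ℤ_[p] T] [Module.Free ℤ_[p] T] [Module.Finite ℤ_[p] T]
    (act : Λ →+* Module.End ℤ_[p] T)

/-- A Hecke eigenvector over `Kb` is defined over a discrete valuation ring `𝒪'` finite over `O`. -/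
theorem exists_integral_model (lam : Λ →+* Kb) (v : Kb ⊗[ℤ_[p]] T) (hv0 : v ≠ 0)
    (hv : ∀ P, (act P).baseChange Kb v = lam P • v) :
    ∃ (𝒪' : Type) (_ : CommRing 𝒪') (_ : IsDomain 𝒪') (_ : IsDiscreteValuationRing 𝒪')
      (_ : IsAdicComplete (maximalIdeal 𝒪') 𝒪') (_ : Finite (ResidueField 𝒪')) (_ : CharZero 𝒪')
      (_ : Algebra O 𝒪') (_ : Module.Finite O 𝒪') (_ : IsLocalHom (algebraMap O 𝒪'))
      (_ : Algebra ℤ_[p] 𝒪') (_ : IsScalarTower ℤ_[p] O 𝒪') (_ : Algebra 𝒪' Kb)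
      (_ : IsScalarTower O 𝒪' Kb) (_ : IsScalarTower ℤ_[p] 𝒪' Kb),
      Function.Injective (algebraMap O 𝒪') ∧ Function.Injective (algebraMap 𝒪' Kb) ∧
      ∃ χ : Λ →+* 𝒪', (∀ P, algebraMap 𝒪' Kb (χ P) = lam P) ∧
      ∃ (u : 𝒪' ⊗[ℤ_[p]] T) (c : O), c ≠ 0 ∧ u ≠ 0 ∧ u ∈ chiSub act χ ∧
        bcMap ℤ_[p] 𝒪' Kb T u = c • v := by
  classical
  have hOKb : Function.Injective (algebraMap O Kb) := FaithfulSMul.algebraMap_injective O Kb
  -- coordinates
  let b := Module.finBasis ℤ_[p] T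
  let bK := Algebra.TensorProduct.basis Kb b
  let y : Fin (finrank ℤ_[p] T) → Kb := fun i => bK.repr v i
  have hvy : v = ∑ i, y i ⊗ₜ[ℤ_[p]] b i := by
    refine (bK.sum_repr v).symm.trans (Finset.sum_congr rfl fun i _ => ?_)
    rw [Algebra.TensorProduct.basis_apply, TensorProduct.smul_tmul', smul_eq_mul, mul_one]
  obtain ⟨i₀, hi₀⟩ : ∃ i, y i ≠ 0 := by
    by_contra hcon
    push Not at hcon
    exact hv0 (by rw [hvy]; exact Finset.sum_eq_zero fun i _ => by rw [hcon i, TensorProduct.zero_tmul])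
  obtain ⟨𝒪', j1, j2, j3, j4, j5, j6, j7, j8, j9, hinjO, ι, L, hι, hιO, hyL, hOL, hint, hden⟩ :=
    exists_dvr_of_finite O Kb y
  -- eigenvalues
  have hlamL : ∀ P, lam P ∈ L := by
    intro P
    have h1 : lam P * y i₀ = bK.repr ((act P).baseChange Kb v) i₀ := by
      rw [hv P, map_smul, Finsupp.smul_apply, smul_eq_mul]
    have h2 : bK.repr ((act P).baseChange Kb v) i₀
        = ∑ j, y j * algebraMap ℤ_[p] Kb (b.repr (act P (b j)) i₀) := by
      conv_lhs => rw [hvy]
      rw [map_sum, map_sum, Finsupp.finsetSum_apply]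
      refine Finset.sum_congr rfl fun j _ => ?_
      rw [LinearMap.baseChange_tmul, Algebra.TensorProduct.basis_repr_tmul, Finsupp.smul_apply,
        Finsupp.mapRange_apply, smul_eq_mul]
    have h3 : lam P * y i₀ ∈ L := by
      rw [h1, h2]
      refine sum_mem fun j _ => mul_mem (hyL j) ?_
      rw [IsScalarTower.algebraMap_apply ℤ_[p] O Kb]
      exact hOL _
    have h4 : lam P = lam P * y i₀ * (y i₀)⁻¹ := by
      rw [mul_assoc, mul_inv_cancel₀ hi₀, mul_one]
    rw [h4]
    exact mul_mem h3 (inv_mem (hyL i₀))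
  have hlamI : ∀ P, IsIntegral O (lam P) := by
    intro P
    have h1 : Module.End.HasEigenvalue ((act P).baseChange Kb) (lam P) :=
      Module.End.hasEigenvalue_of_hasEigenvector (x := v)
        ⟨Module.End.mem_eigenspace_iff.mpr (hv P), hv0⟩
    rw [Module.End.hasEigenvalue_iff_isRoot_charpoly, LinearMap.charpoly_baseChange] at h1
    have h2 : IsIntegral ℤ_[p] (lam P) :=
      ⟨(act P).charpoly, LinearMap.charpoly_monic _, by
        rw [← Polynomial.eval_map]
        exact h1⟩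
    exact h2.tower_top
  letI a1 : Algebra ℤ_[p] 𝒪' := ((algebraMap O 𝒪').comp (algebraMap ℤ_[p] O)).toAlgebra
  haveI t1 : IsScalarTower ℤ_[p] O 𝒪' := IsScalarTower.of_algebraMap_eq fun x => rfl
  letI a2 : Algebra 𝒪' Kb := ι.toAlgebra
  haveI t2 : IsScalarTower O 𝒪' Kb := IsScalarTower.of_algebraMap_eq fun x => (hιO x).symm
  haveI t3 : IsScalarTower ℤ_[p] 𝒪' Kb := IsScalarTower.of_algebraMap_eq fun x => by
    rw [IsScalarTower.algebraMap_apply ℤ_[p] O Kb]
    exact (hιO _).symm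
  have hinjK : Function.Injective (algebraMap 𝒪' Kb) := hι
  choose f hf using fun P => hint (lam P) (hlamL P) (hlamI P)
  let χ : Λ →+* 𝒪' :=
    { toFun := f
      map_one' := hι (by rw [hf, map_one, map_one])
      map_zero' := hι (by rw [hf, map_zero, map_zero])
      map_mul' := fun P Q => hι (by rw [hf, map_mul, map_mul, hf, hf])
      map_add' := fun P Q => hι (by rw [hf, map_add, map_add, hf, hf]) }
  have hχ : ∀ P, algebraMap 𝒪' Kb (χ P) = lam P := fun P => hf P
  obtain ⟨c, hc0, hc⟩ := hden _ y hyL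
  choose w hw using hc
  let u : 𝒪' ⊗[ℤ_[p]] T := ∑ i, w i ⊗ₜ[ℤ_[p]] b i
  have hu : bcMap ℤ_[p] 𝒪' Kb T u = c • v := by
    simp only [u, map_sum, bcMap_tmul]
    rw [hvy, Finset.smul_sum]
    refine Finset.sum_congr rfl fun i _ => ?_
    rw [TensorProduct.smul_tmul', Algebra.smul_def]
    congr 1
    exact hw i
  have hcv : (c • v : Kb ⊗[ℤ_[p]] T) ≠ 0 := by
    intro h
    have h1 : algebraMap O Kb c • v = 0 := by rw [algebraMap_smul]; exact h
    rcases smul_eq_zero.mp h1 with h2 | h2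
    · exact hc0 (hOKb (by rw [h2, map_zero]))
    · exact hv0 h2
  have hbcinj : Function.Injective (bcMap ℤ_[p] 𝒪' Kb T) := bcMap_injective hinjK
  refine ⟨𝒪', j1, j2, j3, j4, j5, j6, j7, j8, j9, a1, t1, a2, t2, t3, hinjO, hinjK, χ, hχ, u, c,
    hc0, ?_, ?_, hu⟩
  · intro h
    apply hcv
    rw [← hu, h, map_zero]
  · intro P
    apply hbcinj
    rw [bcMap_baseChange, hu, bcMap_smul, hχ, hu]
    rw [← algebraMap_smul Kb c v, map_smul, hv P, smul_comm]

omit [IsDiscreteValuationRing O] [IsAdicComplete (maximalIdeal O) O] [Finite (ResidueField O)]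
  [CharZero O] [FaithfulSMul O Kb] [Algebra.IsAlgebraic O Kb] [Module.Free ℤ_[p] T]
  [Module.Finite ℤ_[p] T] [IsDomain O] in
/-- Linear conditions on `v` are inherited by the model `u`. -/
theorem baseChange_eq_zero_of_model {𝒪' : Type} [CommRing 𝒪'] [Algebra ℤ_[p] 𝒪'] [Algebra 𝒪' Kb]
    [IsScalarTower ℤ_[p] 𝒪' Kb] (hinj : Function.Injective (algebraMap 𝒪' Kb))
    {T₁ : Type*} [AddCommGroup T₁] [Module ℤ_[p] T₁] [Module.Free ℤ_[p] T₁] (F : T →ₗ[ℤ_[p]] T₁)
    {v : Kb ⊗[ℤ_[p]] T} {u : 𝒪' ⊗[ℤ_[p]] T} {c : O} (hu : bcMap ℤ_[p] 𝒪' Kb T u = c • v)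
    (hv : F.baseChange Kb v = 0) : F.baseChange 𝒪' u = 0 := by
  apply bcMap_injective (Z := ℤ_[p]) (B := Kb) (T := T₁) hinj
  rw [bcMap_baseChange, hu, map_zero, ← algebraMap_smul Kb c v, map_smul, hv, smul_zero]

end Model

end Fermat.Agent.H62
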