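import Mathlib
import Fermat.Agent.H62Model

/-!
# From points modulo a high power to points of characteristic zero

`exists_point`: let `O` be a complete discrete valuation ring of characteristic zero with finite
residue field, `T` a commutative `O`-algebra, free of rank `≤ h`, and `θ : T → O/ϖ^(n h)` an
`O`-algebra map.  There is a complete discrete valuation ring `𝒪'`, finite over `O`, and an
`O`-algebra map `f : T → 𝒪'` with `f ≡ θ` modulo `ϖ^n`.
-/

set_option autoImplicit false
set_option linter.unusedSectionVars false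

open IsLocalRing TensorProduct

namespace Fermat.Agent.H62

section Field

/-- The character of a maximal ideal. -/
theorem exists_character {L A : Type*} [Field L] [IsAlgClosed L] [CommRing A] [Algebra L A]
    [FiniteDimensional L A] (m : Ideal A) (hm : m.IsMaximal) :
    ∃ χ : A →ₐ[L] L, ∀ a, χ a = 0 → a ∈ m := by
  let _ := Ideal.Quotient.field m
  have hb : Function.Bijective (algebraMap L (A ⧸ m)) :=
    IsAlgClosed.algebraMap_bijective_of_isIntegral
  let e : L ≃ₐ[L] (A ⧸ m) := AlgEquiv.ofBijective (Algebra.ofId L (A ⧸ m)) hb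
  refine ⟨(e.symm : (A ⧸ m) →ₐ[L] L).comp (Ideal.Quotient.mkₐ L m), fun a ha => ?_⟩
  have h1 : e.symm (Ideal.Quotient.mk m a) = 0 := ha
  rw [map_eq_zero_iff _ e.symm.injective] at h1
  exact Ideal.Quotient.eq_zero_iff_mem.mp h1

/-- In a finite dimensional commutative algebra over an algebraically closed field, an ideal of
dimension `≤ d` is killed by the product of the kernels of `d` characters. -/
theorem exists_characters {L A : Type*} [Field L] [IsAlgClosed L] [CommRing A] [Nontrivial A]
    [Algebra L A] [FiniteDimensional L A] (d : ℕ) :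
    ∀ I : Ideal A, Module.finrank L I ≤ d → ∃ χ : Fin d → (A →ₐ[L] L),
      ∀ z : Fin d → A, (∀ i, χ i (z i) = 0) → ∀ x ∈ I, (∏ i, z i) * x = 0 := by
  have hN : IsNoetherianRing A := by
    have : IsArtinianRing A := IsArtinianRing.of_finite L A
    infer_instance
  induction d with
  | zero =>
    intro I hI
    refine ⟨Fin.elim0, fun z _ x hx => ?_⟩
    have h0 : Module.finrank L I = 0 := by omega
    have h1 : Subsingleton I := Module.finrank_zero_iff.mp h0
    have h2 : (⟨x, hx⟩ : I) = 0 := Subsingleton.elim _ _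
    have h3 : x = 0 := congrArg Subtype.val h2
    rw [h3, mul_zero]
  | succ d ih =>
    intro I hI
    by_cases hI0 : I = ⊥
    · obtain ⟨m, hm⟩ := Ideal.exists_maximal A
      obtain ⟨χ, -⟩ := exists_character (L := L) m hm
      refine ⟨fun _ => χ, fun z _ x hx => ?_⟩
      rw [hI0, Ideal.mem_bot] at hx
      rw [hx, mul_zero]
    · obtain ⟨N, hNI⟩ := exists_covBy_of_wellFoundedGT (a := I) (by
        intro h
        exact hI0 h.eq_bot)
      obtain ⟨x₀, hx₀I, hx₀N⟩ := SetLike.exists_of_lt hNI.lt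
      -- the annihilator of `x₀` modulo `N`
      let g : A →ₗ[A] A := LinearMap.toSpanSingleton A A x₀
      have hg : ∀ a, g a = a * x₀ := fun a => rfl
      let n : Ideal A := Submodule.comap g N
      have hn : ∀ a, a ∈ n ↔ a * x₀ ∈ N := fun a => Iff.rfl
      have hspan : ∀ J : Ideal A, ∀ c ∈ J, c * x₀ ∉ N → N ⊔ Submodule.map g J = I := by
        intro J c hc hcN
        have h1 : N ≤ N ⊔ Submodule.map g J := le_sup_left
        have h2 : N ⊔ Submodule.map g J ≤ I := by
          refine sup_le hNI.le ?_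
          rintro _ ⟨a, -, rfl⟩
          rw [hg]
          exact I.mul_mem_left a hx₀I
        rcases hNI.eq_or_eq h1 h2 with h3 | h3
        · exfalso
          apply hcN
          have h4 : g c ∈ N ⊔ Submodule.map g J := Submodule.mem_sup_right ⟨c, hc, rfl⟩
          rw [h3, hg] at h4
          exact h4
        · exact h3
      have hnmax : n.IsMaximal := by
        rw [Ideal.isMaximal_iff]
        refine ⟨fun h => hx₀N (by simpa using (hn 1).mp h), fun J c hJ hcn hcJ => ?_⟩
        have h1 := hspan J c hcJ (fun h => hcn ((hn c).mpr h))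
        have h2 : x₀ ∈ N ⊔ Submodule.map g J := by rw [h1]; exact hx₀I
        obtain ⟨y, hy, w, ⟨a, haJ, rfl⟩, hyw⟩ := Submodule.mem_sup.mp h2
        have h3 : 1 - a ∈ n := by
          rw [hn, sub_mul, one_mul, ← hg a]
          have : x₀ - g a = y := by rw [← hyw]; ring
          rw [this]
          exact hy
        have h4 := J.add_mem (hJ h3) haJ
        rwa [sub_add_cancel] at h4
      obtain ⟨χ, hχ⟩ := exists_character (L := L) n hnmax
      have hfin : Module.finrank L N ≤ d := by
        have h1 : N.restrictScalars L < I.restrictScalars L := hNI.lt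
        have h2 := Submodule.finrank_lt_finrank_of_lt h1
        have h3 : Module.finrank L (N.restrictScalars L) = Module.finrank L N := rfl
        have h4 : Module.finrank L (I.restrictScalars L) = Module.finrank L I := rfl
        omega
      obtain ⟨χ', hχ'⟩ := ih N hfin
      refine ⟨Fin.cons χ χ', fun z hz x hx => ?_⟩
      rw [Fin.prod_univ_succ, mul_comm (z 0), mul_assoc]
      refine hχ' (fun i => z i.succ) (fun i => ?_) _ ?_
      · simpa using hz i.succ
      · have h1 : z 0 ∈ n := hχ _ (by simpa using hz 0)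
        have h2 := hspan ⊤ 1 trivial (by simpa using hx₀N)
        rw [← h2] at hx
        obtain ⟨y, hy, w, ⟨a, -, rfl⟩, hyw⟩ := Submodule.mem_sup.mp hx
        rw [← hyw, mul_add, hg]
        refine N.add_mem (N.mul_mem_left _ hy) ?_
        have h3 : z 0 * (a * x₀) = a * (z 0 * x₀) := by ring
        rw [h3]
        exact N.mul_mem_left _ ((hn _).mp h1)

end Field

section Point

/-- Lift a ring homomorphism through an injective one. -/
theorem exists_ringHom_lift {A B C : Type*} [CommRing A] [CommRing B] [CommRing C] (g : A →+* C)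
    (ι : B →+* C) (hι : Function.Injective ι) (h : ∀ t, ∃ w, ι w = g t) :
    ∃ f : A →+* B, ∀ t, ι (f t) = g t := by
  choose f hf using h
  exact ⟨{ toFun := f
           map_one' := hι (by rw [hf, map_one, map_one])
           map_mul' := fun x y => hι (by rw [hf, map_mul, map_mul, hf, hf])
           map_zero' := hι (by rw [hf, map_zero, map_zero])
           map_add' := fun x y => hι (by rw [hf, map_add, map_add, hf, hf]) }, hf⟩

/-- In a valuation ring, if `a ^ h` divides the product of `h > 0` elements then `a` divides one of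
them. -/
theorem exists_dvd_of_pow_dvd_prod {R : Type*} [CommRing R] [IsDomain R] [ValuationRing R] {h : ℕ}
    (hh : 0 < h) {a : R} (ha : a ≠ 0) (b : Fin h → R) (hb : a ^ h ∣ ∏ i, b i) : ∃ i, a ∣ b i := by
  by_contra hcon
  push Not at hcon
  have h1 : ∀ i, ∃ m : R, a = b i * m ∧ ¬ IsUnit m := by
    intro i
    obtain ⟨m, hm⟩ := (ValuationRing.dvd_total a (b i)).resolve_left (hcon i)
    refine ⟨m, hm, fun hu => hcon i ?_⟩
    obtain ⟨u, rfl⟩ := hu
    exact ⟨(u⁻¹ : Rˣ), by rw [hm, mul_assoc, Units.mul_inv, mul_one]⟩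
  choose m hm hmu using h1
  obtain ⟨c, hc⟩ := hb
  have h2 : a ^ h = (∏ i, b i) * ∏ i, m i := by
    rw [← Finset.prod_mul_distrib, ← Finset.prod_congr rfl (fun i _ => hm i), Finset.prod_const,
      Finset.card_univ, Fintype.card_fin]
  rw [hc, mul_assoc] at h2
  have h3 : (1 : R) = c * ∏ i, m i := by
    apply mul_left_cancel₀ (pow_ne_zero h ha)
    rw [mul_one]
    exact h2
  have h4 : IsUnit (∏ i, m i) := by
    refine isUnit_iff_exists_inv'.mpr ⟨c, h3.symm⟩
  exact hmu ⟨0, hh⟩ (isUnit_of_dvd_unit (Finset.dvd_prod_of_mem m (Finset.mem_univ _)) h4)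

variable {O : Type} [CommRing O] [IsDomain O] [IsDiscreteValuationRing O]
    [IsAdicComplete (maximalIdeal O) O] [Finite (ResidueField O)] [CharZero O]

/-- **From points modulo `ϖ ^ (n h)` to points of characteristic zero modulo `ϖ ^ n`.** -/
theorem exists_point {T : Type*} [CommRing T] [Nontrivial T] [Algebra O T] [Module.Finite O T]
    [Module.Free O T] {ϖ : O} (hϖ : ϖ ≠ 0) (n h : ℕ) (hh : Module.finrank O T ≤ h)
    (θ : T →ₐ[O] O ⧸ Ideal.span {ϖ ^ (n * h)}) :
    ∃ (𝒪' : Type) (_ : CommRing 𝒪') (_ : IsDomain 𝒪') (_ : IsDiscreteValuationRing 𝒪')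
      (_ : IsAdicComplete (maximalIdeal 𝒪') 𝒪') (_ : Finite (ResidueField 𝒪')) (_ : CharZero 𝒪')
      (_ : Algebra O 𝒪') (_ : Module.Finite O 𝒪') (_ : IsLocalHom (algebraMap O 𝒪')),
      Function.Injective (algebraMap O 𝒪') ∧
      ∃ f : T →ₐ[O] 𝒪', ∀ t a, θ t = Ideal.Quotient.mk _ a →
        algebraMap O 𝒪' ϖ ^ n ∣ f t - algebraMap O 𝒪' a := by
  classical
  let Kb := AlgebraicClosure (FractionRing O)
  have : FaithfulSMul O Kb := by
    rw [faithfulSMul_iff_algebraMap_injective, IsScalarTower.algebraMap_eq O (FractionRing O) Kb]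
    exact (algebraMap (FractionRing O) Kb).injective.comp (IsFractionRing.injective O _)
  have : Algebra.IsAlgebraic O Kb :=
    (IsFractionRing.comap_isAlgebraic_iff (A := O) (K := FractionRing O) (C := Kb)).mpr inferInstance
  let A := Kb ⊗[O] T
  have hrank : Module.finrank Kb A = Module.finrank O T := Module.finrank_baseChange
  have hpos : 0 < Module.finrank O T := Module.finrank_pos
  have hA : Nontrivial A := Module.nontrivial_of_finrank_pos (R := Kb) (by rw [hrank]; exact hpos)
  obtain ⟨χ, hχ⟩ := exists_characters (L := Kb) (A := A) h ⊤ (by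
    rw [((Submodule.topEquiv : (⊤ : Ideal A) ≃ₗ[A] A).restrictScalars Kb).finrank_eq, hrank]
    exact hh)
  -- the values of the characters
  let g : Fin h → T →+* Kb := fun i => (χ i : A →+* Kb).comp
    (Algebra.TensorProduct.includeRight : T →ₐ[O] A).toRingHom
  have hg : ∀ i t, g i t = χ i (1 ⊗ₜ t) := fun i t => rfl
  have hgO : ∀ i (c : O), g i (algebraMap O T c) = algebraMap O Kb c := by
    intro i c
    rw [hg, Algebra.TensorProduct.tmul_one_eq_one_tmul _ |>.symm]
    have : (algebraMap O Kb c ⊗ₜ[O] (1 : T) : A) = algebraMap Kb A (algebraMap O Kb c) := rfl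
    rw [this, AlgHom.commutes]
    rfl
  let b := Module.Free.chooseBasis O T
  obtain ⟨𝒪', i1, i2, i3, i4, i5, i6, i7, i8, i9, hinj, ι, L, hι, hιO, hyL, -, hint, -⟩ :=
    exists_dvr_of_finite O Kb (fun x : Fin h × Module.Free.ChooseBasisIndex O T => g x.1 (b x.2))
  refine ⟨𝒪', i1, i2, i3, i4, i5, i6, i7, i8, i9, hinj, ?_⟩
  have hbi : ∀ i j, ∃ w, ι w = g i (b j) := by
    intro i j
    refine hint _ (hyL (i, j)) ?_
    have h1 : IsIntegral O (b j) := Algebra.IsIntegral.isIntegral _
    obtain ⟨P, hP, hP0⟩ := h1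
    refine ⟨P, hP, ?_⟩
    have h2 : algebraMap O Kb = (g i).comp (algebraMap O T) := RingHom.ext fun c => (hgO i c).symm
    rw [h2, ← Polynomial.hom_eval₂, hP0, map_zero]
  have hlift : ∀ i t, ∃ w, ι w = g i t := by
    intro i t
    choose w hw using hbi i
    refine ⟨∑ j, algebraMap O 𝒪' (b.repr t j) * w j, ?_⟩
    conv_rhs => rw [← b.sum_repr t]
    rw [map_sum, map_sum]
    refine Finset.sum_congr rfl fun j _ => ?_
    rw [map_mul, hιO, hw, Algebra.smul_def, map_mul, hgO]
  choose f₀ hf₀ using fun i => exists_ringHom_lift (g i) ι hι (hlift i)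
  let f : Fin h → T →ₐ[O] 𝒪' := fun i =>
    { toRingHom := f₀ i
      commutes' := fun c => hι (by
        rw [hιO]
        exact (hf₀ i _).trans (hgO i c)) }
  have hf : ∀ i t, ι (f i t) = g i t := fun i t => hf₀ i t
  have hhpos : 0 < h := lt_of_lt_of_le hpos hh
  by_contra hcon
  push Not at hcon
  choose t a hta hnd using fun i => hcon (f i)
  have hprod : algebraMap O 𝒪' ϖ ^ (n * h) ∣ ∏ i, (f i (t i) - algebraMap O 𝒪' (a i)) := by
    let _ : Algebra 𝒪' Kb := ι.toAlgebra
    have : IsScalarTower O 𝒪' Kb := IsScalarTower.of_algebraMap_eq fun c => (hιO c).symm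
    let B := 𝒪' ⊗[O] T
    let j : B →ₐ[O] A := Algebra.TensorProduct.map (IsScalarTower.toAlgHom O 𝒪' Kb) (AlgHom.id O T)
    have hj : Function.Injective j := by
      have h1 := bcMap_injective (Z := O) (A := 𝒪') (B := Kb) (T := T) hι
      exact h1
    have hw : (∏ i, ((1 : 𝒪') ⊗ₜ[O] t i - f i (t i) ⊗ₜ[O] (1 : T) : B)) = 0 := by
      apply hj
      rw [map_prod, map_zero]
      have h1 := hχ (fun i => j ((1 : 𝒪') ⊗ₜ[O] t i - f i (t i) ⊗ₜ[O] (1 : T) : B)) (fun i => by
        have h2 : j ((1 : 𝒪') ⊗ₜ[O] t i - f i (t i) ⊗ₜ[O] (1 : T) : B) =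
            (1 : Kb) ⊗ₜ[O] t i - algebraMap Kb A (g i (t i)) := by
          rw [map_sub]
          have h3 : j ((1 : 𝒪') ⊗ₜ[O] t i) = (1 : Kb) ⊗ₜ[O] t i := by
            show (algebraMap 𝒪' Kb 1) ⊗ₜ[O] t i = _
            rw [map_one]
          have h4 : j (f i (t i) ⊗ₜ[O] (1 : T)) = (g i (t i)) ⊗ₜ[O] (1 : T) := by
            show (ι (f i (t i))) ⊗ₜ[O] (1 : T) = _
            rw [hf]
          rw [h3, h4]
          rfl
        rw [h2, map_sub, AlgHom.commutes, ← hg]
        exact sub_self _) 1 trivial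
      rwa [mul_one] at h1
    let J : Ideal 𝒪' := Ideal.span {algebraMap O 𝒪' ϖ ^ (n * h)}
    have hIJ : Ideal.span {ϖ ^ (n * h)} ≤ Ideal.comap (Algebra.ofId O 𝒪') J := by
      rw [Ideal.span_singleton_le_iff_mem, Ideal.mem_comap]
      show algebraMap O 𝒪' (ϖ ^ (n * h)) ∈ J
      rw [map_pow]
      exact Ideal.mem_span_singleton_self _
    let θ' : T →ₐ[O] 𝒪' ⧸ J := (Ideal.quotientMapₐ J (Algebra.ofId O 𝒪') hIJ).comp θ
    let Θ : B →ₐ[O] 𝒪' ⧸ J := Algebra.TensorProduct.lift (Ideal.Quotient.mkₐ O J) θ'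
      (fun _ _ => Commute.all _ _)
    have hΘ : ∀ i, Θ ((1 : 𝒪') ⊗ₜ[O] t i - f i (t i) ⊗ₜ[O] (1 : T) : B) =
        Ideal.Quotient.mk J (algebraMap O 𝒪' (a i) - f i (t i)) := by
      intro i
      rw [map_sub, Algebra.TensorProduct.lift_tmul, Algebra.TensorProduct.lift_tmul, map_one,
        map_one, one_mul, mul_one, map_sub]
      congr 1
      show Ideal.quotientMapₐ J (Algebra.ofId O 𝒪') hIJ (θ (t i)) = _
      rw [hta]
      rfl
    have h1 := congrArg Θ hw
    rw [map_prod, map_zero, Finset.prod_congr rfl (fun i _ => hΘ i), ← map_prod,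
      Ideal.Quotient.eq_zero_iff_mem, Ideal.mem_span_singleton] at h1
    refine h1.trans (Finset.prod_dvd_prod_of_dvd _ _ fun i _ => ?_)
    exact ⟨-1, by ring⟩
  obtain ⟨i, hi⟩ := exists_dvd_of_pow_dvd_prod hhpos
    (a := algebraMap O 𝒪' ϖ ^ n)
    (pow_ne_zero _ ((map_ne_zero_iff _ hinj).mpr hϖ)) _ (by rw [← pow_mul]; exact hprod)
  exact hnd i hi

end Point

end Fermat.Agent.H62
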