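import Fermat.Agent.H62NewJ
import Fermat.Agent.H62Th

/-!
# Guide: the eigenlattice and local properties of the representations attached to it (the steps)

(helper62; library files `H62New`, `H62NewJ`, `H62Th`, `H62Model` by helper62, `H35V*` by helper35, `H31*`
by helper31, `H86*` by helper86)

Companion of `GuideEigenSteps`, section 1 (sections 1 to 4), and of `c_point` in `GuideResidual` (section
5). Nothing is new, every theorem is proved by citing the library. NOTES.md: [156], sections 3 and 4.

**The situation.** `T` is a free `ℤ_p`-module of finite rank, for instance the Tate module of a group `J`,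
with commuting actions of the Galois group and of a commutative ring `Λ` of Hecke operators, such that
`φ² - T_ℓ φ + ℓ = 0` for Frobenius elements `φ` at all primes `ℓ` outside a finite set `S`. A
representation `ρ` of rank two is *attached* to an eigensystem `χ : Λ → 𝒪'` if Frobenius elements at
`ℓ ∉ S` have the characteristic polynomial `X² - χ(T_ℓ) X + ℓ`. Suppose that `χ` occurs in `T`: there is a
`v ≠ 0` in `𝒪' ⊗ T` with `P v = χ(P) v` for all `P ∈ Λ`.

**The question.** Properties of the action on `T` of the inertia and Frobenius elements at a prime `q`,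
`q ≠ p`, that divides the level have to be transferred to `ρ`. In the weight two cases which are
needed: unipotent inertia, the Steinberg relation, and no invariants of inertia (level `q²`).

**The method.** One does not construct a homomorphism between `ρ` and `T` (`ρ` may be reducible, and `χ`
may occur several times), but compares quadratic equations: on the eigenlattice every `g` satisfies
`g² - t g + cyc(g) = 0` with `t ∈ 𝒪'`, and then `X² - t X + cyc(g)` is the characteristic polynomial of
`ρ(g)` (section 2). Since `v ≠ 0`, any equation `g² v - t' g v + cyc(g) v = 0` gives `t = t'` (section 1), so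
it is enough to know one vector. As a rule the equation is only known on a part of `T`, the kernel of
some `F : T → T₁` (in the application, the kernel of the two degeneracy maps); it extends to the vectors
of `𝒪' ⊗ T` killed by `F` (section 1). Section 3 carries this out, section 4 contains the case
`T = T_p J`.

**Term closures.** Sections 1 to 4: S01, S03, S04, S06, S38, S43, S45, S46, S50, S59, S60 (and
`action_on_eigenlattice`: in addition S35, S36, S58). Section 5: the same without S43.
-/

set_option autoImplicit false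

noncomputable section

open IsLocalRing Module TensorProduct Polynomial CuspForm ModularCurve

namespace Fermat.Agent.Guide.EigenModules

/-- The algebraic closure `Q̄` and its Galois group over `ℚ`. -/
local notation "Qb" => AlgebraicClosure ℚ
local notation "GQ" => (AlgebraicClosure ℚ ≃ₐ[ℚ] AlgebraicClosure ℚ)

/-! ## 1. Linear algebra in `O ⊗ T` -/

/-- **Vectors killed by `F`.** Let `Z ⊂ O` be rings without zero divisors, `Z` a principal ideal domain,
`F : T → T₁` and `R : T → T₂` `Z`-linear, `T₁` free. If `F x = 0` implies `R x = 0` for `x ∈ T`, then the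
same is true for the vectors of `O ⊗ T`. Proof: write `v = ∑ e_k ⊗ x_k`, where the `e_k ∈ O` are
linearly independent over `Z`; then `F v = 0` means that all `F x_k = 0`. File `H62New`. -/
theorem kernel_transfer {Z O : Type*} [CommRing Z] [IsDomain Z] [IsPrincipalIdealRing Z] [CommRing O]
    [IsDomain O] [Algebra Z O] (hinj : Function.Injective (algebraMap Z O)) {T T₁ T₂ : Type*}
    [AddCommGroup T] [Module Z T] [AddCommGroup T₁] [Module Z T₁] [Module.Free Z T₁]
    [AddCommGroup T₂] [Module Z T₂] (F : T →ₗ[Z] T₁) (R : T →ₗ[Z] T₂)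
    (h : ∀ x, F x = 0 → R x = 0) {v : O ⊗[Z] T} (hv : F.baseChange O v = 0) :
    R.baseChange O v = 0 :=
  H62.baseChange_eq_zero_of_ker hinj F R h hv

/-- **Two maps** `f`, `g` can be combined to one map `F = (f, g)` to the product. File `H62New`. -/
theorem kernel_pair {Z O : Type*} [CommRing Z] [CommRing O] [Algebra Z O] {T T₁ T₂ : Type*}
    [AddCommGroup T] [Module Z T] [AddCommGroup T₁] [Module Z T₁] [AddCommGroup T₂] [Module Z T₂]
    {f : T →ₗ[Z] T₁} {g : T →ₗ[Z] T₂} {v : O ⊗[Z] T} (hf : f.baseChange O v = 0)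
    (hg : g.baseChange O v = 0) : (f.prod g).baseChange O v = 0 :=
  H62.baseChange_prod_eq_zero hf hg

section Padic

variable {p : ℕ} [Fact p.Prime]

/-- **The Frobenius relation for vectors.** If `s² - t s + q = 0` on `T` and `t` multiplies the vector
`s v` of `𝒪' ⊗ T` by the scalar `r`, then `s² v - r s v + q v = 0`. File `H62New`. -/
theorem relation_on_vectors (O' : Type) [CommRing O'] [IsDomain O'] [IsDiscreteValuationRing O']
    [IsAdicComplete (maximalIdeal O') O'] [Finite (ResidueField O')] [CharZero O'] [Algebra ℤ_[p] O']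
    {T : Type*} [AddCommGroup T] [Module ℤ_[p] T] [Module.Free ℤ_[p] T] [Module.Finite ℤ_[p] T]
    (s t : Module.End ℤ_[p] T) (q : ℕ) (r : O')
    (h : ∀ x : T, s (s x) - t (s x) + q • x = 0) {v : O' ⊗[ℤ_[p]] T}
    (ht : t.baseChange O' (s.baseChange O' v) = r • s.baseChange O' v) :
    s.baseChange O' (s.baseChange O' v) - r • s.baseChange O' v + (q : O') • v = 0 :=
  H62.baseChange_quadratic O' s t q r h ht

/-- **Group elements act injectively** on `𝒪' ⊗ T` (`g⁻¹ g = 1`). File `H62New`. -/
theorem rho_injective {O' : Type*} [CommRing O'] [Algebra ℤ_[p] O'] {T : Type*} [AddCommGroup T]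
    [Module ℤ_[p] T] {G : Type*} [Group G] (ρT : G →* Module.End ℤ_[p] T) (g : G)
    {u : O' ⊗[ℤ_[p]] T} (hu : (ρT g).baseChange O' u = 0) : u = 0 :=
  H62.baseChange_rho_inj ρT g hu

/-- **The trace is determined by one vector**: two equations `g² v - t g v + c v = 0` and
`g² v - t' g v + c v = 0` with `v ≠ 0` imply `(t - t') g v = 0`, hence `t = t'`. File `H62New`. -/
theorem trace_unique {O' : Type*} [CommRing O'] [IsDomain O'] [Algebra ℤ_[p] O'] {T : Type*}
    [AddCommGroup T] [Module ℤ_[p] T] [Module.Free ℤ_[p] T] {G : Type*} [Group G]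
    (ρT : G →* Module.End ℤ_[p] T) {g : G} {v : O' ⊗[ℤ_[p]] T} (hv0 : v ≠ 0) {t t' c : O'}
    (h : (ρT g).baseChange O' ((ρT g).baseChange O' v) - t • (ρT g).baseChange O' v + c • v = 0)
    (h' : (ρT g).baseChange O' ((ρT g).baseChange O' v) - t' • (ρT g).baseChange O' v + c • v = 0) :
    t = t' :=
  H62.trace_unique ρT hv0 h h'

/-- **Eigenvectors of an involution** `w` which commutes with `Λ`: if `v ≠ 0` is in the eigenlattice of
`χ`, one of the vectors `v` (if `w v = -v`) and `v + w v` (otherwise) is an eigenvector of `w` with the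
eigenvalue `± 1`, again in the eigenlattice of `χ` and different from zero. File `H62New`. -/
theorem involution_eigenvector (O' : Type) [CommRing O'] [IsDomain O'] [IsDiscreteValuationRing O']
    [CharZero O'] [Algebra ℤ_[p] O'] {Λ : Type*} [CommRing Λ] (χ : Λ →+* O') {T : Type*}
    [AddCommGroup T] [Module ℤ_[p] T] [Module.Free ℤ_[p] T] (act : Λ →+* Module.End ℤ_[p] T)
    (w : Module.End ℤ_[p] T) (hw : w * w = 1) (hwact : ∀ P, Commute (act P) w)
    {v : O' ⊗[ℤ_[p]] T} (hv : v ∈ H35.chiSub act χ) (hv0 : v ≠ 0) :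
    ∃ (ε : O') (u : O' ⊗[ℤ_[p]] T), (ε = 1 ∨ ε = -1) ∧ u ∈ H35.chiSub act χ ∧ u ≠ 0 ∧
      w.baseChange O' u = ε • u ∧ ∃ a b : O', u = a • v + b • w.baseChange O' v :=
  H62.exists_involution_eigenvector O' χ act w hw hwact hv hv0

end Padic

/-! ## 2. Quadratic equations and characteristic polynomials

`ρ.V` is the free module of rank two on which the representation `ρ : GaloisRepAdic 𝒪''` acts, and
`cyc 𝒪' hp g` the value in `𝒪'` of the `p`-adic cyclotomic character at `g`. -/

section Density

variable {p : ℕ} [Fact p.Prime]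

/-- **Local homomorphisms** `𝒪' → 𝒪''` map the `n`-th power of the maximal ideal to the `n`-th power of the
maximal ideal; so congruences between elements of `𝒪'` can be used in `𝒪''`. File `H62New`. -/
theorem local_powers {O' O'' : Type*} [CommRing O'] [IsLocalRing O'] [CommRing O''] [IsLocalRing O'']
    [Algebra O' O''] [IsLocalHom (algebraMap O' O'')] {n : ℕ} {x : O'}
    (hx : x ∈ maximalIdeal O' ^ n) : algebraMap O' O'' x ∈ maximalIdeal O'' ^ n :=
  H62.algebraMap_mem_pow hx

/-- **From a lattice to every attached representation.** `W ≠ 0` is a free `𝒪'`-module of finite rank (in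
the application: the eigenlattice) with a continuous action of the Galois group (`hcont`: modulo the
`n`-th power of the maximal ideal it factors through a number field) such that `φ² - a_ℓ φ + ℓ = 0` for
Frobenius elements at `ℓ ∉ S`, and `ρ` is attached to `a` (`hρ`). If `g² - t g + cyc(g) = 0` on `W`, the
characteristic polynomial of `ρ(g)` is `X² - t X + cyc(g)`. Proof, modulo the `n`-th power of the maximal
ideals: by Frobenius' density theorem there are a Frobenius element `φ` at some `ℓ ∉ S` and a `j` such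
that `g` and `φ^j` act in the same way on `W`, on `ρ.V` and on the `p`-power roots of unity, modulo the
`n`-th power. On `W`, `φ^j` satisfies the equation with the trace `luc a_ℓ ℓ j` and the constant term
`ℓ^j`, and the characteristic polynomial of `ρ(φ^j)` has the same coefficients (`GuideUnramified`). Since
`g + cyc(g) g⁻¹ = t` on `W`, and similarly for `φ^j`, one gets `t ≡ luc a_ℓ ℓ j`. File `H62New`. -/
theorem charpoly_of_lattice {S : Finset ℕ} (hpS : p ∈ S)
    (O' : Type) [CommRing O'] [IsDomain O'] [IsDiscreteValuationRing O']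
    [IsAdicComplete (maximalIdeal O') O'] (hpO' : (p : O') ∈ maximalIdeal O')
    {W : Type*} [AddCommGroup W] [Module O' W] [Module.Free O' W] [Module.Finite O' W]
    [Nontrivial W] (ρW : GQ →* Module.End O' W)
    (hcont : ∀ n : ℕ, ∃ L : IntermediateField ℚ Qb, FiniteDimensional ℚ L ∧
      ∀ σ : GQ, (∀ x ∈ L, σ x = x) →
        ∀ w : W, ρW σ w - w ∈ maximalIdeal O' ^ n • (⊤ : Submodule O' W))
    (a : ℕ → O')
    (hfrob : ∀ ℓ : ℕ, ℓ.Prime → ℓ ∉ S → ∀ A : ValuationSubring Qb, A.LiesOverPrime ℓ →
      ∀ φ : GQ, A.IsFrobeniusAt φ ℓ → ∀ w : W, ρW φ (ρW φ w) - a ℓ • ρW φ w + (ℓ : O') • w = 0)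
    {O'' : Type} [CommRing O''] [IsLocalRing O''] [IsHausdorff (maximalIdeal O'') O'']
    [Algebra O' O''] [IsLocalHom (algebraMap O' O'')] (ρ : GaloisRepAdic O'')
    (hρ : ∀ ℓ : ℕ, ℓ.Prime → ℓ ∉ S → ∀ A : ValuationSubring Qb, A.LiesOverPrime ℓ →
      ∀ φ : GQ, A.IsFrobeniusAt φ ℓ →
        LinearMap.charpoly (ρ.ρ φ) = X ^ 2 - C (algebraMap O' O'' (a ℓ)) * X + C ((ℓ : O'')))
    (g : GQ) (t : O')
    (ht : ∀ w : W, ρW g (ρW g w) - t • ρW g w + H35.cyc O' hpO' g • w = 0) :
    LinearMap.charpoly (ρ.ρ g) = X ^ 2 - C (algebraMap O' O'' t) * X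
      + C (algebraMap O' O'' (H35.cyc O' hpO' g)) :=
  H62.charpoly_of_quadratic hpS O' hpO' ρW hcont a hfrob ρ hρ g t ht

/-- **The same for a submodule** `W ≠ 0` of a free module of finite rank. File `H62New`. -/
theorem charpoly_of_sublattice {S : Finset ℕ} (hpS : p ∈ S)
    (O' : Type) [CommRing O'] [IsDomain O'] [IsDiscreteValuationRing O']
    [IsAdicComplete (maximalIdeal O') O'] (hpO' : (p : O') ∈ maximalIdeal O')
    {V : Type*} [AddCommGroup V] [Module O' V] [Module.Free O' V] [Module.Finite O' V]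
    (W : Submodule O' V) (hW : W ≠ ⊥) (ρW : GQ →* Module.End O' W)
    (hcont : ∀ n : ℕ, ∃ L : IntermediateField ℚ Qb, FiniteDimensional ℚ L ∧
      ∀ σ : GQ, (∀ x ∈ L, σ x = x) →
        ∀ w : W, ρW σ w - w ∈ maximalIdeal O' ^ n • (⊤ : Submodule O' W))
    (a : ℕ → O')
    (hfrob : ∀ ℓ : ℕ, ℓ.Prime → ℓ ∉ S → ∀ A : ValuationSubring Qb, A.LiesOverPrime ℓ →
      ∀ φ : GQ, A.IsFrobeniusAt φ ℓ → ∀ w : W, ρW φ (ρW φ w) - a ℓ • ρW φ w + (ℓ : O') • w = 0)
    {O'' : Type} [CommRing O''] [IsLocalRing O''] [IsHausdorff (maximalIdeal O'') O'']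
    [Algebra O' O''] [IsLocalHom (algebraMap O' O'')] (ρ : GaloisRepAdic O'')
    (hρ : H62.IsAttached S a ρ) (g : GQ) (t : O')
    (ht : ∀ w : W, ρW g (ρW g w) - t • ρW g w + H35.cyc O' hpO' g • w = 0) :
    LinearMap.charpoly (ρ.ρ g) = X ^ 2 - C (algebraMap O' O'' t) * X
      + C (algebraMap O' O'' (H35.cyc O' hpO' g)) :=
  H62.charpoly_of_quadratic_sub hpS O' hpO' W hW ρW hcont a hfrob ρ hρ g t ht

end Density

/-- **The action on the eigenlattice** (definitions): `chiSub act χ` is the set of the `v ∈ O ⊗ T` with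
`P v = χ(P) v` for all `P ∈ Λ`, and `galChi` is the action of `G` on it. -/
theorem action_on_eigenlattice {Z O Λ T G : Type*} [CommRing Z] [CommRing O] [Algebra Z O]
    [CommRing Λ] [AddCommGroup T] [Module Z T] [Group G] (act : Λ →+* Module.End Z T) (χ : Λ →+* O)
    (ρT : G →* Module.End Z T) (hcomm : ∀ P σ, Commute (act P) (ρT σ)) (σ : G) (x : O ⊗[Z] T)
    (v : H35.chiSub act χ) :
    (x ∈ H35.chiSub act χ ↔ ∀ P, (act P).baseChange O x = χ P • x) ∧
      ((H35.galChi act χ ρT hcomm σ v : H35.chiSub act χ) : O ⊗[Z] T) = (ρT σ).baseChange O v :=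
  ⟨Iff.rfl, H35.coe_galChi act χ ρT hcomm σ v⟩

section Lattice

variable {p : ℕ} [Fact p.Prime] {S : Finset ℕ} (hpS : p ∈ S)
    (O' : Type) [CommRing O'] [IsDomain O'] [IsDiscreteValuationRing O']
    [IsAdicComplete (maximalIdeal O') O'] [Finite (ResidueField O')]
    [CharZero O'] [Algebra ℤ_[p] O'] (hpO' : (p : O') ∈ maximalIdeal O')
    {Λ : Type*} [CommRing Λ] (χ : Λ →+* O') (tl : ℕ → Λ)
    {T : Type*} [AddCommGroup T] [Module ℤ_[p] T] [Module.Free ℤ_[p] T] [Module.Finite ℤ_[p] T]
    (ρT : GQ →* Module.End ℤ_[p] T) (act : Λ →+* Module.End ℤ_[p] T)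
    (hcont : ∀ n : ℕ, ∃ L : IntermediateField ℚ Qb, FiniteDimensional ℚ L ∧
      ∀ σ : GQ, (∀ x ∈ L, σ x = x) → ∀ x : T, ∃ y : T, ρT σ x - x = (p : ℤ_[p]) ^ n • y)
    (hcomm : ∀ P σ, Commute (act P) (ρT σ))
    (hfrob : ∀ ℓ : ℕ, ℓ.Prime → ℓ ∉ S → ∀ A : ValuationSubring Qb, A.LiesOverPrime ℓ →
      ∀ φ : GQ, A.IsFrobeniusAt φ ℓ → ∀ x : T, ρT φ (ρT φ x) - act (tl ℓ) (ρT φ x) + ℓ • x = 0)

include hpO' hcont in
/-- **It is continuous**: `σ - 1` maps `T` to `pⁿ T` for the `σ` which fix a suitable number field; so it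
maps a vector of the eigenlattice to an element of `pⁿ (𝒪' ⊗ T)` in the eigenlattice, and the
eigenlattice is saturated (`H35VChi`). File `H62New`. -/
theorem eigenlattice_continuous (n : ℕ) :
    ∃ L : IntermediateField ℚ Qb, FiniteDimensional ℚ L ∧ ∀ σ : GQ, (∀ x ∈ L, σ x = x) →
      ∀ w : H35.chiSub act χ, H35.galChi act χ ρT hcomm σ w - w ∈
        maximalIdeal O' ^ n • (⊤ : Submodule O' (H35.chiSub act χ)) :=
  H62.galChi_cont O' hpO' χ ρT act hcont hcomm n

include hpS hcont hcomm hfrob

/-- **The trace on the eigenlattice**, for general `T`. The existence of `t` is again proved with density: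
for `g = φ^j` the equation is known, and a limit of such equations is such an equation
(`H35VLattice`, see `GuideLatticeReps.rep_of_lattice`); the rest is `charpoly_of_sublattice`. Applied to
`T = T_p J` it is `exists_trace` in `GuideEigenSteps`. File `H62New`. -/
theorem exists_trace (hne : H35.chiSub act χ ≠ ⊥) (g : GQ) : ∃ t : O',
    (∀ v ∈ H35.chiSub act χ, (ρT g).baseChange O' ((ρT g).baseChange O' v)
      - t • (ρT g).baseChange O' v + H35.cyc O' hpO' g • v = 0) ∧
    ∀ {O'' : Type} [CommRing O''] [IsLocalRing O''] [IsHausdorff (maximalIdeal O'') O'']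
      [Algebra O' O''] [IsLocalHom (algebraMap O' O'')]
      (ρ : GaloisRepAdic O'') (_ : H62.IsAttached S (fun ℓ => χ (tl ℓ)) ρ),
      LinearMap.charpoly (ρ.ρ g) = X ^ 2 - C (algebraMap O' O'' t) * X
        + C (algebraMap O' O'' (H35.cyc O' hpO' g)) :=
  H62.exists_trace hpS O' hpO' χ tl ρT act hcont hcomm hfrob hne g

/-! ## 3. Three local properties

The situation of `exists_trace`; `q ≠ p` is a prime, `v ≠ 0` a vector of the eigenlattice of `χ`, `ρ` an
attached representation. In `GuideEigenSteps`, section 1, the results are stated for `T = T_p J`. -/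

include hpO'

/-- **Unipotent elements.** Let `σ` be in the inertia group of a place above `q` and `(σ - 1)² = 0` on the
kernel of a linear map `F` which kills `v`. Then `ρ(σ)` has the characteristic polynomial `(X - 1)²`:
`cyc(σ) = 1`, and `t = 2` by `trace_unique`. File `H62New`. -/
theorem unipotent {T₁ : Type*} [AddCommGroup T₁] [Module ℤ_[p] T₁] [Module.Free ℤ_[p] T₁]
    (F : T →ₗ[ℤ_[p]] T₁) {v : O' ⊗[ℤ_[p]] T} (hv : v ∈ H35.chiSub act χ) (hv0 : v ≠ 0)
    (hFv : F.baseChange O' v = 0) {q : ℕ} (hq : q.Prime) (hqp : q ≠ p) {A : ValuationSubring Qb}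
    (hA : A.LiesOverPrime q) {σ : GQ} (hσ : σ ∈ A.inertiaSubgroupIn ℚ)
    (hsq : ∀ x : T, F x = 0 → ρT σ (ρT σ x) - (2 : ℤ_[p]) • ρT σ x + x = 0)
    {O'' : Type} [CommRing O''] [IsLocalRing O''] [IsHausdorff (maximalIdeal O'') O'']
    [Algebra O' O''] [IsLocalHom (algebraMap O' O'')] (ρ : GaloisRepAdic O'')
    (hρ : H62.IsAttached S (fun ℓ => χ (tl ℓ)) ρ) :
    LinearMap.charpoly (ρ.ρ σ) = (X - 1) ^ 2 :=
  H62.charpoly_of_sq_zero hpS O' hpO' χ tl ρT act hcont hcomm hfrob F hv hv0 hFv hq hqp hA hσ hsq ρ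
    hρ

/-- **The Steinberg relation, for an eigenvector of `w`.** Let `w` commute with `σ`, `cyc(σ) = q`, and
`σ² + σ w + q w σ + q = 0` on the kernel of `F`. If `F v = 0` and `w v = ε v`, then
`σ² v + ε (q + 1) σ v + q v = 0`, so `ρ(σ)` has the characteristic polynomial `X² + ε (q + 1) X + q`. File
`H62New`. -/
theorem steinberg_eigenvector {T₁ : Type*} [AddCommGroup T₁] [Module ℤ_[p] T₁]
    [Module.Free ℤ_[p] T₁] (F : T →ₗ[ℤ_[p]] T₁) (w : Module.End ℤ_[p] T)
    {v : O' ⊗[ℤ_[p]] T} (hv : v ∈ H35.chiSub act χ) (hv0 : v ≠ 0)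
    (hFv : F.baseChange O' v = 0) {ε : O'} (hwv : w.baseChange O' v = ε • v)
    {q : ℕ} {σ : GQ} (hcyc : H35.cyc O' hpO' σ = (q : O')) (hwσ : Commute w (ρT σ))
    (hst : ∀ x : T, F x = 0 → ρT σ (ρT σ x) + ρT σ (w x) + q • w (ρT σ x) + q • x = 0)
    {O'' : Type} [CommRing O''] [IsLocalRing O''] [IsHausdorff (maximalIdeal O'') O'']
    [Algebra O' O''] [IsLocalHom (algebraMap O' O'')] (ρ : GaloisRepAdic O'')
    (hρ : H62.IsAttached S (fun ℓ => χ (tl ℓ)) ρ) :
    LinearMap.charpoly (ρ.ρ σ) = X ^ 2 + C (algebraMap O' O'' ε * ((q : O'') + 1)) * X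
      + C ((q : O'')) :=
  H62.charpoly_of_steinberg_eigenvector hpS O' hpO' χ tl ρT act hcont hcomm hfrob F w hv hv0 hFv hwv
    hcyc hwσ hst ρ hρ

/-- **The sign does not depend on the Frobenius element.** `w` is an involution which commutes with `Λ`,
and `D v = D w v = 0`. There is a sign `u` such that for every Frobenius element `σ` at `q` which commutes
with `w` and satisfies the relation above on the `x` with `D x = D w x = 0`, the characteristic polynomial
of `ρ(σ)` is `(X - u) (X - u q)`. Proof: `steinberg_eigenvector` for `F = (D, D w)` and the vector given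
by `involution_eigenvector`, `u = -ε`. File `H62New`. -/
theorem steinberg_sign {T₁ : Type*} [AddCommGroup T₁] [Module ℤ_[p] T₁] [Module.Free ℤ_[p] T₁]
    (D : T →ₗ[ℤ_[p]] T₁) (w : Module.End ℤ_[p] T) (hw : w * w = 1)
    (hwact : ∀ P, Commute (act P) w) {v : O' ⊗[ℤ_[p]] T} (hv : v ∈ H35.chiSub act χ) (hv0 : v ≠ 0)
    (hDv : D.baseChange O' v = 0) (hDwv : D.baseChange O' (w.baseChange O' v) = 0)
    {q : ℕ} (hq : q.Prime) (hqp : q ≠ p) :
    ∃ u : O', (u = 1 ∨ u = -1) ∧ ∀ A : ValuationSubring Qb, A.LiesOverPrime q →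
      ∀ σ : GQ, A.IsFrobeniusAt σ q → Commute w (ρT σ) →
      (∀ x : T, D x = 0 → D (w x) = 0 →
        ρT σ (ρT σ x) + ρT σ (w x) + q • w (ρT σ x) + q • x = 0) →
      ∀ {O'' : Type} [CommRing O''] [IsLocalRing O''] [IsHausdorff (maximalIdeal O'') O'']
        [Algebra O' O''] [IsLocalHom (algebraMap O' O'')]
        (ρ : GaloisRepAdic O'') (_ : H62.IsAttached S (fun ℓ => χ (tl ℓ)) ρ),
        LinearMap.charpoly (ρ.ρ σ) = (X - C (algebraMap O' O'' u))
          * (X - C (algebraMap O' O'' u * (q : O''))) :=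
  H62.exists_sign_of_steinberg hpS O' hpO' χ tl ρT act hcont hcomm hfrob D w hw hwact hv hv0 hDv hDwv
    hq hqp

/-- **Inertia without invariants is not unipotent.** Let `A` be a place above `q`, `F v = 0`, the kernel of
`F` stable under the inertia group of `A`, and suppose that no vector `≠ 0` of the kernel is fixed by it.
Then there are a `σ` in the inertia group and a `t ≠ 2` such that the characteristic polynomial of `ρ(σ)`
is `X² - t X + 1` for every attached `ρ`. Proof: otherwise `(σ - 1)² = 0` on the eigenlattice for all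
these `σ`, and the inertia group fixes a vector `≠ 0` in the intersection of the eigenlattice with the
kernel of `F` (operators `σ - 1` of square zero have a common kernel, `H35VKolchin`); writing this
vector as `∑ e_k ⊗ x_k` with `e_k` independent over `ℤ_p`, all `x_k` are fixed, and in the kernel of
`F`. File `H62New`. -/
theorem no_invariants {T₁ : Type*} [AddCommGroup T₁] [Module ℤ_[p] T₁] [Module.Free ℤ_[p] T₁]
    (F : T →ₗ[ℤ_[p]] T₁) {v : O' ⊗[ℤ_[p]] T} (hv : v ∈ H35.chiSub act χ) (hv0 : v ≠ 0)
    (hFv : F.baseChange O' v = 0) {q : ℕ} (hq : q.Prime) (hqp : q ≠ p) {A : ValuationSubring Qb}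
    (hA : A.LiesOverPrime q)
    (hstab : ∀ σ ∈ A.inertiaSubgroupIn ℚ, ∀ x : T, F x = 0 → F (ρT σ x) = 0)
    (hinv : ∀ x : T, (∀ σ ∈ A.inertiaSubgroupIn ℚ, ρT σ x = x) → F x = 0 → x = 0) :
    ∃ σ ∈ A.inertiaSubgroupIn ℚ, ∃ t : O', t ≠ 2 ∧
      ∀ {O'' : Type} [CommRing O''] [IsLocalRing O''] [IsHausdorff (maximalIdeal O'') O'']
        [Algebra O' O''] [IsLocalHom (algebraMap O' O'')]
        (ρ : GaloisRepAdic O'') (_ : H62.IsAttached S (fun ℓ => χ (tl ℓ)) ρ),
        LinearMap.charpoly (ρ.ρ σ) = X ^ 2 - C (algebraMap O' O'' t) * X + 1 :=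
  H62.exists_inertia_of_carayol hpS O' hpO' χ tl ρT act hcont hcomm hfrob F hv hv0 hFv hq hqp hA hstab
    hinv

end Lattice

/-! ## 4. The case `T = T_p J`

`J` is a group with commuting actions of the Galois group and of the Hecke algebra, `TateMod p J` its Tate
module, `galTate`, `actTate` the actions on it (`GuideTateJacobian`, sections 1 and 2), `N` the level.
`GoodPrimes N S` is the set of the primes `ℓ ∉ S` which do not divide `N`, and `Λ` the ring of polynomials in
the variables `X_ℓ` for these primes. -/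

/-- **The Hecke operator at `ℓ`** in `Λ` (definition): `tlN N S ℓ = X_ℓ` for good primes (and `0` for the
others). File `H62NewJ`. -/
theorem hecke_variable {N : ℕ} [NeZero N] {S : Finset ℕ} (a : H31.GoodPrimes N (↑S : Set ℕ)) :
    H62.tlN N S (a.1 : ℕ) = MvPolynomial.X a :=
  H62.tlN_coe a

/-- **Attached representations.** If all prime divisors of `N` are in `S`, a representation attached to
`χ : Λ → 𝒪'` (Frobenius elements at good primes have characteristic polynomial `X² - χ(X_ℓ) X + ℓ`) is
attached to the function `ℓ ↦ χ(tlN N S ℓ)` in the sense of section 2. File `H62NewJ`. -/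
theorem attached_to_function {O' : Type} [CommRing O'] [IsDomain O'] [IsDiscreteValuationRing O']
    [IsAdicComplete (maximalIdeal O') O'] [Finite (ResidueField O')] [CharZero O'] {N : ℕ} [NeZero N]
    {S : Finset ℕ}
    {χ : MvPolynomial (H31.GoodPrimes N (↑S : Set ℕ)) ℤ →+* O'} {O'' : Type} [CommRing O'']
    [IsLocalRing O''] [Algebra O' O''] {ρ : GaloisRepAdic O''} (h : H62.IsAttachedN N S χ ρ)
    (hNS : ∀ q : ℕ, q.Prime → q ∣ N → q ∈ S) :
    H62.IsAttached S (fun ℓ => χ (H62.tlN N S ℓ)) ρ :=
  h.isAttached hNS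

section Module

variable {p : ℕ} [Fact p.Prime] {N : ℕ} [NeZero N] {S : Finset ℕ} (hpS : p ∈ S)
    (hNS : ∀ q : ℕ, q.Prime → q ∣ N → q ∈ S) {J : Type*} [AddCommGroup J] [Module HeckeAlg J]
    [DistribMulAction GQ J] [SMulCommClass GQ HeckeAlg J]
    (hF : FrobeniusQuadratic (K := ℚ) (L := Qb) N p J)

include hpS hNS hF

/-- **The Frobenius relation** on `T_p J`, from the relation on the `p`-power torsion of `J`. File
`H62NewJ`. -/
theorem frobenius_relation (ℓ : ℕ) (hℓ : ℓ.Prime) (hℓS : ℓ ∉ S) (A : ValuationSubring Qb)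
    (hA : A.LiesOverPrime ℓ) (φ : GQ) (hφ : A.IsFrobeniusAt φ ℓ) (x : H30.TateMod p J) :
    H30.galTate p J φ (H30.galTate p J φ x)
      - H30.actTate p J N (↑S : Set ℕ) (H62.tlN N S ℓ) (H30.galTate p J φ x) + ℓ • x = 0 :=
  H62.frob_actTate hpS hNS hF ℓ hℓ hℓS A hA φ hφ x

/-- **Level `q²`: the exceptional element of inertia** (sharper form of `not_unipotent_of_module` in
`GuideEigenSteps`; assumptions as there). `a`, `b` are the two degeneracy maps to level `N/q`, and `v ≠ 0`
is an eigenvector killed by both. There are a place `A` above `q`, a `σ` in its inertia group and a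
`t ≠ 2` such that `ρ(σ)` has the characteristic polynomial `X² - t X + 1` for all attached `ρ`. Proof:
`no_invariants` for the kernel of `(a, b)` on `T_p J`; a vector `(x_n)` of it fixed by inertia has
`p^c x_n = 0` for all `n`, hence is zero. File `H62NewJ`. -/
theorem exceptional_inertia {O' : Type} [CommRing O'] [IsDomain O']
    [IsDiscreteValuationRing O'] [IsAdicComplete (maximalIdeal O') O'] [Finite (ResidueField O')]
    [CharZero O'] [Algebra ℤ_[p] O'] (hpO' : (p : O') ∈ maximalIdeal O')
    (χ : MvPolynomial (H31.GoodPrimes N (↑S : Set ℕ)) ℤ →+* O')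
    (hfin : {x : J | p • x = 0}.Finite) (hlev : H31.FiniteLevel p J)
    {q : ℕ} (hq : q.Prime) (hqp : q ≠ p) {J₁ : Type*} [AddCommGroup J₁] [Module HeckeAlg J₁]
    [DistribMulAction GQ J₁] (a b : J →+ J₁)
    (haT : ∀ (ℓ : H31.GoodPrimes N (↑S : Set ℕ)) (x : J), a (heckeGen ℓ.1 • x) = heckeGen ℓ.1 • a x)
    (hbT : ∀ (ℓ : H31.GoodPrimes N (↑S : Set ℕ)) (x : J), b (heckeGen ℓ.1 • x) = heckeGen ℓ.1 • b x)
    (haG : ∀ (σ : GQ) (x : J), a (σ • x) = σ • a x)
    (hbG : ∀ (σ : GQ) (x : J), b (σ • x) = σ • b x)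
    (c : ℕ) (hfix : ∃ A : ValuationSubring Qb, A.LiesOverPrime q ∧
      ∀ x : J, (∃ n : ℕ, p ^ n • x = 0) → (∀ σ ∈ A.inertiaSubgroupIn ℚ, σ • x = x) →
        a x = 0 → b x = 0 → p ^ c • x = 0)
    (hfin₁ : {x : J₁ | p • x = 0}.Finite) {v : O' ⊗[ℤ_[p]] H30.TateMod p J}
    (hv : v ∈ H35.chiSub (H30.actTate p J N (↑S : Set ℕ)) χ) (hv0 : v ≠ 0)
    (hav : (H35.tateMap (p := p) a).baseChange O' v = 0)
    (hbv : (H35.tateMap (p := p) b).baseChange O' v = 0) :
    ∃ A : ValuationSubring Qb, A.LiesOverPrime q ∧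
      ∃ σ ∈ A.inertiaSubgroupIn ℚ, ∃ t : O', t ≠ 2 ∧
      ∀ {O'' : Type} [CommRing O''] [IsLocalRing O''] [IsHausdorff (maximalIdeal O'') O'']
        [Algebra O' O''] [IsLocalHom (algebraMap O' O'')]
        (ρ : GaloisRepAdic O'') (_ : H62.IsAttachedN N S χ ρ),
        LinearMap.charpoly (ρ.ρ σ) = X ^ 2 - C (algebraMap O' O'' t) * X + 1 :=
  H62.E36_of_module hpS hNS O' hpO' χ hfin hF hlev hq hqp ⟨a, b, haT, hbT, c, hfix⟩ hfin₁ haG hbG hv
    hv0 hav hbv

end Module

/-! ## 5. Characters of finite algebras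

The steps of `c_point` in `GuideResidual`: a homomorphism `θ : T → O/ϖ^(n h)`, `T` finite free of rank at
most `h` over `O`, is congruent modulo `ϖⁿ` to a homomorphism to a finite extension `𝒪'` of `O`. Proof:
let `K` be an algebraic closure of the fraction field. The algebra `K ⊗ T` has `h` characters (with
repetitions) such that the product of elements `z_i` of their kernels is always `0` (`characters`). The
characters have values in the elements of `K` integral over `O`; let `𝒪'` be large enough to contain them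
(`GuideEigenSteps.finite_extension`), so they are homomorphisms `f_i : T → 𝒪'` (`lift_homomorphism`). If
`f_i(t_i)` is not congruent to `θ(t_i)` modulo `ϖⁿ`, for every `i` and some `t_i`, apply `θ` to the
product of the `1 ⊗ t_i - f_i(t_i) ⊗ 1`, which is zero in `𝒪' ⊗ T` (`injective_scalars`): the product of
the `θ(t_i) - f_i(t_i)` is divisible by `ϖ^(n h)`, so one factor is divisible by `ϖⁿ` (`divisible_factor`),
a contradiction. File: `H62Th`. -/

/-- **The character of a maximal ideal** `m` of a finite dimensional algebra over an algebraically closed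
field `L` (its residue field is `L`). -/
theorem character_of_ideal {L A : Type*} [Field L] [IsAlgClosed L] [CommRing A] [Algebra L A]
    [FiniteDimensional L A] (m : Ideal A) (hm : m.IsMaximal) :
    ∃ χ : A →ₐ[L] L, ∀ a, χ a = 0 → a ∈ m :=
  H62.exists_character m hm

/-- **Characters and a composition series.** In such an algebra, for every ideal `I` of dimension at most
`d` there are `d` characters such that `z_1 ⋯ z_d I = 0` whenever `z_i` is in the kernel of the `i`-th
character. Proof by induction: if `N ⊂ I` is a maximal smaller ideal, `I/N` is a simple module, killed by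
a maximal ideal, hence by the kernel of a character. -/
theorem characters {L A : Type*} [Field L] [IsAlgClosed L] [CommRing A] [Nontrivial A] [Algebra L A]
    [FiniteDimensional L A] (d : ℕ) :
    ∀ I : Ideal A, Module.finrank L I ≤ d → ∃ χ : Fin d → (A →ₐ[L] L),
      ∀ z : Fin d → A, (∀ i, χ i (z i) = 0) → ∀ x ∈ I, (∏ i, z i) * x = 0 :=
  H62.exists_characters d

/-- **Lifting a homomorphism** `A → C` to a subring `B` of `C` which contains its values. -/
theorem lift_homomorphism {A B C : Type*} [CommRing A] [CommRing B] [CommRing C] (g : A →+* C)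
    (ι : B →+* C) (hι : Function.Injective ι) (h : ∀ t, ∃ w, ι w = g t) :
    ∃ f : A →+* B, ∀ t, ι (f t) = g t :=
  H62.exists_ringHom_lift g ι hι h

/-- **Extension of scalars is injective** for a flat module: `A ⊗ T → B ⊗ T` if `A → B` is injective
(`bcMap` is this map). File `H62Model`. -/
theorem injective_scalars {Z A B T : Type*} [CommRing Z] [CommRing A] [CommRing B] [Algebra Z A]
    [Algebra Z B] [Algebra A B] [IsScalarTower Z A B] [AddCommGroup T] [Module Z T] [Module.Flat Z T]
    (h : Function.Injective (algebraMap A B)) : Function.Injective (H62.bcMap Z A B T) :=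
  H62.bcMap_injective h

/-- **A divisible factor**: if `a^h` divides a product of `h > 0` elements of a valuation ring, then `a`
divides one of them. -/
theorem divisible_factor {R : Type*} [CommRing R] [IsDomain R] [ValuationRing R] {h : ℕ}
    (hh : 0 < h) {a : R} (ha : a ≠ 0) (b : Fin h → R) (hb : a ^ h ∣ ∏ i, b i) : ∃ i, a ∣ b i :=
  H62.exists_dvd_of_pow_dvd_prod hh ha b hb

end Fermat.Agent.Guide.EigenModules
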