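import Fermat.Agent.H4OrdP
import Fermat.Agent.H4GeomIn
import Fermat.Agent.H21MGood
import Fermat.Agent.H62Model

/-!
# Guide: the steps of the eigen-analysis

Companion of `GuideEigen`. Section 4 of `GuideEigen` deduces local properties of a Galois representation
`ρ` from a Hecke eigenclass in the cohomology of `Γ₀(M)`. This file contains the intermediate statements:

* section 1: from properties of the points of an abstract "Hecke-Galois module" `J` to the representations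
  attached to an eigensystem that occurs in `T_p J` (texts of helper62);
* section 2: the case `J = J₀(N)`, eigenvectors in `𝒪' ⊗ T_p J₀(N)`;
* section 3: eigenclasses in `Hom(Γ₀(L), 𝒪')`;
* section 4: from an attached representation to a submodule of the Tate module;
* section 5: how pull-backs and push-forwards of divisor classes are realised by families of matrices.

The remaining step, from classes with character to classes in `Hom(Γ₀(L), 𝒪')` (twist embeddings), is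
described in `GuideTwistEmbedding`.

**Statements served.** S01, S03, S04, S06, S38, S43, S45, S46, S50, S59, S60 (S43 only the theorems from
`H4EACore`, `H4EAJ`, `H4EA`, `H4GeomIn`, those of section 5 except `pull_back_realised`, and the three
theorems `unipotent_of_module`, `steinberg_of_module`, `not_unipotent_of_module`). Every library theorem
cited here occurs in the proof term of S01. NOTES: [158] NOTES-EIGEN-ANALYSIS. Authors of the library files
cited here: `H62*` helper62, `H4*` helper4, `H21*` helper21, `H35*` helper35, `H89*` helper89, `H92*`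
helper92, `H83*` helper83, `H94*` helper94, `H70*` helper70, `H67*` helper67.

**Conventions.** `J` is a group with commuting actions of `Gal(Q̄/Q)` and of the Hecke algebra, `p` a prime,
`S` a finite set of primes that contains `p` and the prime divisors of `N`. `TateMod p J` is the group of
the sequences `x_0 = 0`, `p x_{n+1} = x_n`, `galTate p J σ` and `tateMap T` are the maps of `TateMod p J`
induced by `σ` and by `T`. `𝒪'` is a complete discrete valuation ring of characteristic 0 with finite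
residue field of characteristic `p`, and `cyc 𝒪' hp𝒪' g` is the value of the `p`-adic cyclotomic
character at `g` in `𝒪'`. A *Frobenius element* at `ℓ` is a `φ` which induces `x ↦ x^ℓ` on the residue
field of a place `A` of `Q̄` above `ℓ`.
-/

set_option autoImplicit false

noncomputable section

open IsLocalRing Module TensorProduct Polynomial CongruenceSubgroup CuspForm ModularCurve

namespace Fermat.Agent.Guide.EigenSteps

/-! ## 1. From `J` to the representations attached to an eigensystem -/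

/-- Vocabulary of this section. (1) The `χ`-eigenlattice `chiSub` in `𝒪' ⊗ T` consists of the `v` with
`P v = χ(P) v` for all polynomials `P` in the Hecke operators. (2) `IsAttachedN N S χ ρ`: every
Frobenius element at every prime `ℓ ∤ N`, `ℓ ∉ S` has characteristic polynomial `X² - χ(T_ℓ) X + ℓ`. -/
theorem eigen_vocabulary {p : ℕ} [Fact p.Prime] {N : ℕ} {S : Finset ℕ} {O' O'' : Type}
    [CommRing O'] [Algebra ℤ_[p] O'] [CommRing O''] [IsLocalRing O''] [Algebra O' O'']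
    (χ : MvPolynomial (H31.GoodPrimes N (↑S : Set ℕ)) ℤ →+* O') {T : Type*} [AddCommGroup T]
    [Module ℤ_[p] T]
    (act : MvPolynomial (H31.GoodPrimes N (↑S : Set ℕ)) ℤ →+* Module.End ℤ_[p] T)
    (v : O' ⊗[ℤ_[p]] T) (ρ : GaloisRepAdic O'') :
    (v ∈ H35.chiSub act χ ↔ ∀ P, (act P).baseChange O' v = χ P • v) ∧
    (H62.IsAttachedN N S χ ρ ↔ ∀ a : H31.GoodPrimes N (↑S : Set ℕ),
      ∀ A : ValuationSubring (AlgebraicClosure ℚ), A.LiesOverPrime (a.1 : ℕ) →
        ∀ φ : AlgebraicClosure ℚ ≃ₐ[ℚ] AlgebraicClosure ℚ, A.IsFrobeniusAt φ (a.1 : ℕ) →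
          LinearMap.charpoly (ρ.ρ φ) =
            X ^ 2 - C (algebraMap O' O'' (χ (MvPolynomial.X a))) * X + C (((a.1 : ℕ) : O''))) :=
  ⟨Iff.rfl, Iff.rfl⟩

section Module

variable {p : ℕ} [Fact p.Prime] {N : ℕ} [NeZero N] {S : Finset ℕ} (hpS : p ∈ S)
    (hNS : ∀ q : ℕ, q.Prime → q ∣ N → q ∈ S) {O' : Type} [CommRing O'] [IsDomain O']
    [IsDiscreteValuationRing O'] [IsAdicComplete (maximalIdeal O') O'] [Finite (ResidueField O')]
    [CharZero O'] [Algebra ℤ_[p] O'] (hpO' : (p : O') ∈ maximalIdeal O')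
    (χ : MvPolynomial (H31.GoodPrimes N (↑S : Set ℕ)) ℤ →+* O')
    {J : Type*} [AddCommGroup J] [Module HeckeAlg J]
    [DistribMulAction (AlgebraicClosure ℚ ≃ₐ[ℚ] AlgebraicClosure ℚ) J]
    [SMulCommClass (AlgebraicClosure ℚ ≃ₐ[ℚ] AlgebraicClosure ℚ) HeckeAlg J]
    (hfin : {x : J | p • x = 0}.Finite)
    (hF : FrobeniusQuadratic (K := ℚ) (L := AlgebraicClosure ℚ) N p J)
    (hlev : H31.FiniteLevel p J)
include hpS hNS hpO' hfin hF hlev

/-- **The trace on the eigenlattice.** Assumptions of this section: `J[p]` is finite, the Galois action on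
`J[pⁿ]` factors through a number field for every `n` (`FiniteLevel`), and `φ² - T_ℓ φ + ℓ = 0` on the
`p`-power torsion for Frobenius elements `φ` at the primes `ℓ ∤ N p` (`FrobeniusQuadratic`). If the
eigenlattice of `χ` is not zero, then for every `g` there is a `t` with `g² - t g + cyc(g) = 0` on the
eigenlattice, and the characteristic polynomial at `g` of every representation attached to `χ` is
`X² - t X + cyc(g)`. Proof: for Frobenius elements `φ` at the primes outside `S` (and so for their powers)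
both statements are known, and modulo `πⁿ` every `g` acts as a power of such a `φ` (by Frobenius'
density theorem). Files `H62New`, `H62NewJ`. -/
theorem exists_trace (hne : H35.chiSub (H30.actTate p J N (↑S : Set ℕ)) χ ≠ ⊥)
    (g : AlgebraicClosure ℚ ≃ₐ[ℚ] AlgebraicClosure ℚ) :
    ∃ t : O', (∀ v ∈ H35.chiSub (H30.actTate p J N (↑S : Set ℕ)) χ,
      (H30.galTate p J g).baseChange O' ((H30.galTate p J g).baseChange O' v)
        - t • (H30.galTate p J g).baseChange O' v + H35.cyc O' hpO' g • v = 0) ∧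
    ∀ {O'' : Type} [CommRing O''] [IsLocalRing O''] [IsHausdorff (maximalIdeal O'') O'']
      [Algebra O' O''] [IsLocalHom (algebraMap O' O'')]
      (ρ : GaloisRepAdic O'') (_ : H62.IsAttachedN N S χ ρ),
      LinearMap.charpoly (ρ.ρ g) = X ^ 2 - C (algebraMap O' O'' t) * X
        + C (algebraMap O' O'' (H35.cyc O' hpO' g)) :=
  H62.exists_trace_J hpS hNS O' hpO' χ hfin hF hlev hne g

/-- **Unipotent inertia.** If `(σ - 1)² = 0` on the `p`-power torsion of `J` for `σ` in the inertia groups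
at `q ≠ p`, then every representation attached to an eigensystem that occurs in `T_p J` is unipotent on
inertia at `q`. Files `H62New`, `H62NewJ` (by `exists_trace`, the characteristic polynomial of `ρ(σ)`
kills `σ` on the eigenlattice; it equals `(X - 1)²` because `σ` acts unipotently there). -/
theorem unipotent_of_module {q : ℕ} (hq : q.Prime) (hqp : q ≠ p)
    (hss : ∀ A : ValuationSubring (AlgebraicClosure ℚ), A.LiesOverPrime q →
      ∀ σ ∈ A.inertiaSubgroupIn ℚ, ∀ x : J, (∃ n : ℕ, p ^ n • x = 0) →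
        σ • (σ • x - x) = σ • x - x)
    {v : O' ⊗[ℤ_[p]] H30.TateMod p J}
    (hv : v ∈ H35.chiSub (H30.actTate p J N (↑S : Set ℕ)) χ) (hv0 : v ≠ 0)
    {O'' : Type} [CommRing O''] [IsLocalRing O''] [IsHausdorff (maximalIdeal O'') O'']
    [Algebra O' O''] [IsLocalHom (algebraMap O' O'')] (ρ : GaloisRepAdic O'')
    (hρ : H62.IsAttachedN N S χ ρ) : ρ.IsUnipotentOnInertiaAt q :=
  H62.E34_of_module hpS hNS O' hpO' χ hfin hF hlev hq hqp hss hv hv0 ρ hρ

/-- **The Steinberg relation.** Let `w` be an involution of `J`, `f : J → J₁`, `g : J₁ → J`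
homomorphisms (in the application `w = w_q`, and `g ∘ f` is a degeneracy map to level `N/q` and back),
`w` and `f` compatible with the good Hecke operators and `w` with Galois, such that Frobenius elements
`σ` at `q` satisfy `σ² x + σ w x + q w σ x + q x = 0` for all `p`-power torsion `x` with
`g f x = g f w x = 0` (the `q`-new part). If the eigenvector `v ≠ 0` is killed by `g f` and `g f w`,
there is a sign `u` such that every representation attached to `χ` has the characteristic polynomial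
`(X - u) (X - u q)` at all Frobenius elements at `q`. Files `H62New`, `H62NewJ` (`v` or `v + w v` is an
eigenvector of `w`, and for it the relation says `(σ - u)(σ - u q) = 0` with `u = - w`). -/
theorem steinberg_of_module {q : ℕ} (hq : q.Prime) (hqp : q ≠ p)
    {J₁ : Type*} [AddCommGroup J₁] [Module HeckeAlg J₁] (w : J →+ J) (f : J →+ J₁) (g : J₁ →+ J)
    (hw : ∀ x, w (w x) = x)
    (hwT : ∀ (a : H31.GoodPrimes N (↑S : Set ℕ)) (x : J), w (heckeGen a.1 • x) = heckeGen a.1 • w x)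
    (hwG : ∀ (σ : AlgebraicClosure ℚ ≃ₐ[ℚ] AlgebraicClosure ℚ) (x : J), w (σ • x) = σ • w x)
    (hfT : ∀ (a : H31.GoodPrimes N (↑S : Set ℕ)) (x : J), f (heckeGen a.1 • x) = heckeGen a.1 • f x)
    (hst : ∀ A : ValuationSubring (AlgebraicClosure ℚ), A.LiesOverPrime q →
      ∀ σ : AlgebraicClosure ℚ ≃ₐ[ℚ] AlgebraicClosure ℚ, A.IsFrobeniusAt σ q →
        ∀ x : J, (∃ n : ℕ, p ^ n • x = 0) → g (f x) = 0 → g (f (w x)) = 0 →
          σ • (σ • x) + σ • (w x) + q • w (σ • x) + q • x = 0)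
    {v : O' ⊗[ℤ_[p]] H30.TateMod p J}
    (hv : v ∈ H35.chiSub (H30.actTate p J N (↑S : Set ℕ)) χ) (hv0 : v ≠ 0)
    (h1 : (H35.tateMap (p := p) (g.comp f)).baseChange O' v = 0)
    (h2 : (H35.tateMap (p := p) (g.comp f)).baseChange O'
      ((H35.tateMap (p := p) w).baseChange O' v) = 0) :
    ∃ u : O', (u = 1 ∨ u = -1) ∧
      ∀ {O'' : Type} [CommRing O''] [IsLocalRing O''] [IsHausdorff (maximalIdeal O'') O'']
        [Algebra O' O''] [IsLocalHom (algebraMap O' O'')] (ρ : GaloisRepAdic O'')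
        (_ : H62.IsAttachedN N S χ ρ) (A : ValuationSubring (AlgebraicClosure ℚ))
        (_ : A.LiesOverPrime q) (σ : AlgebraicClosure ℚ ≃ₐ[ℚ] AlgebraicClosure ℚ)
        (_ : A.IsFrobeniusAt σ q),
        LinearMap.charpoly (ρ.ρ σ) = (X - C (algebraMap O' O'' u))
          * (X - C (algebraMap O' O'' u * (q : O''))) :=
  H62.E35_of_module hpS hNS O' hpO' χ hfin hF hlev hq hqp ⟨w, f, g, hw, hwT, hwG, hfT, hst⟩ hv hv0
    h1 h2

/-- **Inertia is not unipotent in the new part of level `N`, `q² ∥ N`** (Carayol). Let `a, b` be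
homomorphisms from `J` to `J₁` (the two degeneracy maps to level `N/q`; `J₁[p]` is finite) compatible with
Galois and the good Hecke operators, and suppose that for some place `A` above `q ≠ p` the `p`-power
torsion points fixed by the inertia group of `A` and killed by `a` and `b` have bounded order. If the
eigenvector `v ≠ 0` is killed by `a` and `b`, no representation attached to `χ` over a ring `O''` that
contains `O'` is unipotent on inertia at `q`. Files `H62New`, `H62NewJ`. -/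
theorem not_unipotent_of_module {q : ℕ} (hq : q.Prime) (hqp : q ≠ p)
    {J₁ : Type*} [AddCommGroup J₁] [Module HeckeAlg J₁]
    [DistribMulAction (AlgebraicClosure ℚ ≃ₐ[ℚ] AlgebraicClosure ℚ) J₁] (a b : J →+ J₁)
    (haT : ∀ (ℓ : H31.GoodPrimes N (↑S : Set ℕ)) (x : J), a (heckeGen ℓ.1 • x) = heckeGen ℓ.1 • a x)
    (hbT : ∀ (ℓ : H31.GoodPrimes N (↑S : Set ℕ)) (x : J), b (heckeGen ℓ.1 • x) = heckeGen ℓ.1 • b x)
    (haG : ∀ (σ : AlgebraicClosure ℚ ≃ₐ[ℚ] AlgebraicClosure ℚ) (x : J), a (σ • x) = σ • a x)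
    (hbG : ∀ (σ : AlgebraicClosure ℚ ≃ₐ[ℚ] AlgebraicClosure ℚ) (x : J), b (σ • x) = σ • b x)
    (c : ℕ) (hfix : ∃ A : ValuationSubring (AlgebraicClosure ℚ), A.LiesOverPrime q ∧
      ∀ x : J, (∃ n : ℕ, p ^ n • x = 0) → (∀ σ ∈ A.inertiaSubgroupIn ℚ, σ • x = x) →
        a x = 0 → b x = 0 → p ^ c • x = 0)
    (hfin₁ : {x : J₁ | p • x = 0}.Finite) {v : O' ⊗[ℤ_[p]] H30.TateMod p J}
    (hv : v ∈ H35.chiSub (H30.actTate p J N (↑S : Set ℕ)) χ) (hv0 : v ≠ 0)
    (hav : (H35.tateMap (p := p) a).baseChange O' v = 0)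
    (hbv : (H35.tateMap (p := p) b).baseChange O' v = 0) {O'' : Type} [CommRing O'']
    [IsLocalRing O''] [IsHausdorff (maximalIdeal O'') O''] [Algebra O' O'']
    [IsLocalHom (algebraMap O' O'')] (hinj : Function.Injective (algebraMap O' O''))
    (ρ : GaloisRepAdic O'') (hρ : H62.IsAttachedN N S χ ρ) : ¬ ρ.IsUnipotentOnInertiaAt q :=
  H62.E36_of_module' hpS hNS O' hpO' χ hfin hF hlev hq hqp ⟨a, b, haT, hbT, c, hfix⟩ hfin₁ haG hbG
    hv hv0 hav hbv hinj ρ hρ

end Module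

/-- **Finite extensions suffice.** Eigenvalues and eigenvectors exist over an algebraic closure; to apply
the theorems above one needs them over a ring `𝒪'`. Let `K` be an algebraic extension of the fraction
field of `O` and `y_i` finitely many elements of `K`. There are a ring `𝒪' ⊂ K` of the same kind as `O`
and finite over `O`, and a field `L ⊂ K` with `y_i ∈ L` and `O ⊂ L`, such that `𝒪'` contains the elements
of `L` that are integral over `O` (so it contains a multiple `c z`, `0 ≠ c ∈ O`, of every finite family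
`z` in `L`). File `H62Model`. -/
theorem finite_extension (O : Type) [CommRing O] [IsDomain O] [IsDiscreteValuationRing O]
    [IsAdicComplete (maximalIdeal O) O] [Finite (ResidueField O)] [CharZero O] (K : Type) [Field K]
    [Algebra O K] [FaithfulSMul O K] [Algebra.IsAlgebraic O K] {ι : Type*} [Finite ι] (y : ι → K) :
    ∃ (𝒪' : Type) (_ : CommRing 𝒪') (_ : IsDomain 𝒪') (_ : IsDiscreteValuationRing 𝒪')
      (_ : IsAdicComplete (maximalIdeal 𝒪') 𝒪') (_ : Finite (ResidueField 𝒪')) (_ : CharZero 𝒪')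
      (_ : Algebra O 𝒪') (_ : Module.Finite O 𝒪') (_ : IsLocalHom (algebraMap O 𝒪')),
      Function.Injective (algebraMap O 𝒪') ∧
      ∃ (j : 𝒪' →+* K) (L : Subfield K), Function.Injective j ∧
        (∀ x, j (algebraMap O 𝒪' x) = algebraMap O K x) ∧ (∀ i, y i ∈ L) ∧
        (∀ x : O, algebraMap O K x ∈ L) ∧ (∀ x ∈ L, IsIntegral O x → ∃ z, j z = x) ∧
        ∀ (ι₁ : Type) [Finite ι₁] (z : ι₁ → K), (∀ i, z i ∈ L) →
          ∃ c : O, c ≠ 0 ∧ ∀ i, ∃ w, j w = algebraMap O K c * z i :=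
  H62.exists_dvr_of_finite O K y

/-! ## 2. Eigenvectors in `𝒪' ⊗ T_p J₀(N)`

The group `J₀(N)` satisfies the assumptions of section 1. The three geometric statements about inertia at
`q` are the propositions `UnipotentTorsion`, `StarInput`, `FixedInput`, written out in
`GuideEigen.geometric_inputs` as (a), (b), (c). -/

section JZero

variable {p : ℕ} [Fact p.Prime] {S : Finset ℕ} {𝒪' : Type} [CommRing 𝒪'] [IsDomain 𝒪']
    [IsDiscreteValuationRing 𝒪'] [IsAdicComplete (maximalIdeal 𝒪') 𝒪'] [Finite (ResidueField 𝒪')]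
    [CharZero 𝒪'] [Algebra ℤ_[p] 𝒪']

omit [Fact p.Prime] in
/-- The three geometric statements under their names. Files `H4EAIn`, `H4GeomIn`, from `H89Inst` (a, b) and
`H92CarD`, `H83C9b` (c). -/
theorem inputs_hold (q M : ℕ) [NeZero M] [NeZero (M * q)] [NeZero (M * q * q)] [NeZero q]
    (hp : p.Prime) (hq : q.Prime) (hqp : q ≠ p) (hqM : ¬ q ∣ M) :
    H35.UnipotentTorsion p q (JZero (M * q)) ∧ H35.StarInput p q M ∧ H35.FixedInput p q (M * q) :=
  ⟨(H4.geomInputs hp).uni q M hq hqp hqM, (H4.geomInputs hp).star q M hq hqp hqM,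
    (H4.geomInputs hp).fixed q M hq hqp hqM⟩

omit [IsDomain 𝒪'] [IsDiscreteValuationRing 𝒪'] [IsAdicComplete (maximalIdeal 𝒪') 𝒪']
  [Finite (ResidueField 𝒪')] [CharZero 𝒪'] in
/-- **Eigenvectors** (`IsEigJ`, written out): `T_ℓ v = lam(ℓ) v` for all primes `ℓ ∤ N`, `ℓ ∉ S`. File
`H4EAJ`. -/
theorem isEigJ_iff {N : ℕ} [NeZero N] (lam : ℕ → 𝒪') (v : 𝒪' ⊗[ℤ_[p]] H30.TateMod p (JZero N)) :
    H4.IsEigJ p N S lam v ↔ ∀ ℓ : Nat.Primes, ¬ (ℓ : ℕ) ∣ N → (ℓ : ℕ) ∉ S →
      (H35.tateMap (p := p) (heckeOperatorBar N ℓ)).baseChange 𝒪' v = lam (ℓ : ℕ) • v :=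
  Iff.rfl

/-- **Connection with section 1.** An eigenvector lies in the eigenlattice of the eigensystem
`chiOf N S lam`, the ring homomorphism with `T_ℓ ↦ lam(ℓ)`. File `H4EAJ`. -/
theorem mem_eigenlattice {N : ℕ} [NeZero N] {lam : ℕ → 𝒪'}
    {v : 𝒪' ⊗[ℤ_[p]] H30.TateMod p (JZero N)} (hv : H4.IsEigJ p N S lam v) :
    (letI := heckeModuleBar N
     v ∈ H35.chiSub (H30.actTate p (JZero N) N (↑S : Set ℕ)) (H4.chiOf N S lam)) ∧
    ∀ a : H31.GoodPrimes N (↑S : Set ℕ), H4.chiOf N S lam (MvPolynomial.X a) = lam (a.1 : ℕ) :=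
  ⟨hv.mem_chiSub, H4.chiOf_X N S lam⟩

/-- `𝒪' ⊗ T_p J₀(N)` has no `𝒪'`-torsion, because `T_p J₀(N)` is a free `ℤ_p`-module. File `H4EAD`. -/
theorem no_torsion {N : ℕ} [NeZero N] {c : 𝒪'} {v : 𝒪' ⊗[ℤ_[p]] H30.TateMod p (JZero N)}
    (h : c • v = 0) : c = 0 ∨ v = 0 :=
  H4.smul_eq_zero_tate h

/-- **The trace.** Let `v ≠ 0` be an eigenvector with eigenvalues `lam(ℓ)` and `ρ` attached to `lam`. For
every `g` there is a `t` with `g² v - t g v + cyc(g) v = 0`, and `ρ(g)` has characteristic polynomial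
`X² - t X + cyc(g)`. Files `H4EAD`, `H21MGood`. -/
theorem trace_jzero {N : ℕ} [NeZero N] (hpS : p ∈ S) (hNS : ∀ q : ℕ, q.Prime → q ∣ N → q ∈ S)
    (hp𝒪' : (p : 𝒪') ∈ maximalIdeal 𝒪') {lam : ℕ → 𝒪'}
    {v : 𝒪' ⊗[ℤ_[p]] H30.TateMod p (JZero N)} (hv : H4.IsEigJ p N S lam v) (hv0 : v ≠ 0)
    (ρ : GaloisRepAdic 𝒪') (hρ : H62.IsAttached S lam ρ)
    (g : AlgebraicClosure ℚ ≃ₐ[ℚ] AlgebraicClosure ℚ) :
    ∃ t : 𝒪', ((H30.galTate p (JZero N) g).baseChange 𝒪'
        ((H30.galTate p (JZero N) g).baseChange 𝒪' v)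
      - t • (H30.galTate p (JZero N) g).baseChange 𝒪' v + H35.cyc 𝒪' hp𝒪' g • v = 0) ∧
      LinearMap.charpoly (ρ.ρ g) = X ^ 2 - C t * X + C (H35.cyc 𝒪' hp𝒪' g) :=
  H21M.exists_trace_JZero hpS hNS hp𝒪' hv hv0 ρ hρ g

/-- **Traces detect the identity.** If `ρ` is residually absolutely irreducible and multiplication by `σ`
does not change characteristic polynomials, then `ρ(σ) = 1` (the trace form of `End ρ.V` is
nondegenerate and the image of `ρ` spans). File `H21MGood`. -/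
theorem eq_one_of_trace {O : Type} [CommRing O] [IsLocalRing O] (ρ : GaloisRepAdic O)
    (habs : ρ.residual.IsAbsolutelyIrreducible) (σ : AlgebraicClosure ℚ ≃ₐ[ℚ] AlgebraicClosure ℚ)
    (h : ∀ g : AlgebraicClosure ℚ ≃ₐ[ℚ] AlgebraicClosure ℚ,
      LinearMap.charpoly (ρ.ρ (g * σ)) = LinearMap.charpoly (ρ.ρ g)) : ρ.ρ σ = 1 :=
  H21M.eq_one_of_trace ρ habs σ h

/-- **Good reduction.** An attached, residually absolutely irreducible representation is unramified at
`q ∤ N p`: inertia acts trivially on `T_p J₀(N)`, so `g σ` and `g` have the same trace. File `H21MGood`. -/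
theorem unramified_jzero {N : ℕ} [NeZero N] (hpS : p ∈ S)
    (hNS : ∀ q : ℕ, q.Prime → q ∣ N → q ∈ S) (hp𝒪' : (p : 𝒪') ∈ maximalIdeal 𝒪') {lam : ℕ → 𝒪'}
    {v : 𝒪' ⊗[ℤ_[p]] H30.TateMod p (JZero N)} (hv : H4.IsEigJ p N S lam v) (hv0 : v ≠ 0)
    {q : ℕ} (hq : q.Prime) (hqp : q ≠ p) (hqN : ¬ q ∣ N) (ρ : GaloisRepAdic 𝒪')
    (hρ : H62.IsAttached S lam ρ) (habs : ρ.residual.IsAbsolutelyIrreducible) :
    ρ.IsUnramifiedAt q :=
  H21M.isUnramifiedAt_JZero hpS hNS hp𝒪' hv hv0 hq hqp hqN ρ hρ habs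

/-- **Frobenius at a good prime**, `q ∈ S` allowed: if `T_q v = μ v`, then `ρ(Frob_q)` has characteristic
polynomial `X² - μ X + q` (Eichler-Shimura relation on `T_p J₀(N)` and `trace_jzero`). File `H21MGood`. -/
theorem frobenius_jzero {N : ℕ} [NeZero N] (hpS : p ∈ S)
    (hNS : ∀ q : ℕ, q.Prime → q ∣ N → q ∈ S) (hp𝒪' : (p : 𝒪') ∈ maximalIdeal 𝒪') {lam : ℕ → 𝒪'}
    {v : 𝒪' ⊗[ℤ_[p]] H30.TateMod p (JZero N)} (hv : H4.IsEigJ p N S lam v) (hv0 : v ≠ 0)
    {q : ℕ} (hq : q.Prime) (hqp : q ≠ p) (hqN : ¬ q ∣ N) {μ : 𝒪'}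
    (hμ : (H35.tateMap (p := p) (heckeOperatorBar N ⟨q, hq⟩)).baseChange 𝒪' v = μ • v)
    (ρ : GaloisRepAdic 𝒪') (hρ : H62.IsAttached S lam ρ)
    {A : ValuationSubring (AlgebraicClosure ℚ)} (hA : A.LiesOverPrime q)
    {σ : AlgebraicClosure ℚ ≃ₐ[ℚ] AlgebraicClosure ℚ} (hσ : A.IsFrobeniusAt σ q) :
    LinearMap.charpoly (ρ.ρ σ) = X ^ 2 - C μ * X + C (q : 𝒪') :=
  H21M.charpoly_frob_JZero hpS hNS hp𝒪' hv hv0 hq hqp hqN hμ ρ hρ hA hσ

/-- **Unipotent inertia**, from input (a). File `H4EAJ`. -/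
theorem unipotent_jzero {N : ℕ} [NeZero N] (hpS : p ∈ S) (hNS : ∀ q : ℕ, q.Prime → q ∣ N → q ∈ S)
    (hp𝒪' : (p : 𝒪') ∈ maximalIdeal 𝒪') {lam : ℕ → 𝒪'}
    {v : 𝒪' ⊗[ℤ_[p]] H30.TateMod p (JZero N)} (hv : H4.IsEigJ p N S lam v) (hv0 : v ≠ 0)
    {q : ℕ} (hq : q.Prime) (hqp : q ≠ p) (hss : H35.UnipotentTorsion p q (JZero N))
    (ρ : GaloisRepAdic 𝒪') (hρ : H62.IsAttached S lam ρ) : ρ.IsUnipotentOnInertiaAt q :=
  H4.E34_JZero hpS hNS hp𝒪' hv hv0 hq hqp hss ρ hρ

/-- **Steinberg primes**, from input (b): level `M q` with `q ∤ M`, `v` killed by both push-forwards to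
`J₀(M)`. (`steinberg_of_module` with `w = w_q`, `f` = push-forward by the identity, `g` = pull-back by
`τ ↦ q τ`.) File `H4EAJ`. -/
theorem steinberg_jzero {M q : ℕ} [NeZero M] [NeZero (M * q)] [NeZero q] (hpS : p ∈ S)
    (hNS : ∀ r : ℕ, r.Prime → r ∣ M * q → r ∈ S) (hp𝒪' : (p : 𝒪') ∈ maximalIdeal 𝒪')
    {lam : ℕ → 𝒪'} {v : 𝒪' ⊗[ℤ_[p]] H30.TateMod p (JZero (M * q))}
    (hv : H4.IsEigJ p (M * q) S lam v) (hv0 : v ≠ 0) (hq : q.Prime) (hqp : q ≠ p) (hqM : ¬ q ∣ M)
    (hstar : H35.StarInput p q M)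
    (h1 : (H35.tateMap (p := p) (H67.degPush (M := M) (N := M * q) 1 (by simp))).baseChange 𝒪' v = 0)
    (h2 : (H35.tateMap (p := p)
      (H67.degPush (M := M) (N := M * q) q (dvd_refl _))).baseChange 𝒪' v = 0) :
    ∃ u : 𝒪', (u = 1 ∨ u = -1) ∧
      ∀ (ρ : GaloisRepAdic 𝒪') (_ : H62.IsAttached S lam ρ)
        (A : ValuationSubring (AlgebraicClosure ℚ)) (_ : A.LiesOverPrime q)
        (σ : AlgebraicClosure ℚ ≃ₐ[ℚ] AlgebraicClosure ℚ) (_ : A.IsFrobeniusAt σ q),
        LinearMap.charpoly (ρ.ρ σ) = (X - C u) * (X - C (u * (q : 𝒪'))) :=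
  H4.E35_JZero hpS hNS hp𝒪' hv hv0 hq hqp hqM hstar h1 h2

/-- **Inertia is not unipotent**, from input (c), which holds for `q ∥ M` (`inputs_hold`): level `M q`, `v`
killed by both push-forwards to `J₀(M)`. File `H4EAJ`. -/
theorem not_unipotent_jzero {M q : ℕ} [NeZero M] [NeZero (M * q)] [NeZero q] (hpS : p ∈ S)
    (hNS : ∀ r : ℕ, r.Prime → r ∣ M * q → r ∈ S) (hp𝒪' : (p : 𝒪') ∈ maximalIdeal 𝒪')
    {lam : ℕ → 𝒪'} {v : 𝒪' ⊗[ℤ_[p]] H30.TateMod p (JZero (M * q))}
    (hv : H4.IsEigJ p (M * q) S lam v) (hv0 : v ≠ 0) (hq : q.Prime) (hqp : q ≠ p)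
    (hfix : H35.FixedInput p q M)
    (h1 : (H35.tateMap (p := p) (H67.degPush (M := M) (N := M * q) 1 (by simp))).baseChange 𝒪' v = 0)
    (h2 : (H35.tateMap (p := p)
      (H67.degPush (M := M) (N := M * q) q (dvd_refl _))).baseChange 𝒪' v = 0)
    (ρ : GaloisRepAdic 𝒪') (hρ : H62.IsAttached S lam ρ) : ¬ ρ.IsUnipotentOnInertiaAt q :=
  H4.E36_JZero hpS hNS hp𝒪' hv hv0 hq hqp hfix h1 h2 ρ hρ

end JZero

/-! ## 3. Eigenclasses in `Hom(Γ₀(L), 𝒪')` -/

section Classes

/-- **Eigenclasses** (`IsEigHom`, written out): `T_ℓ φ = lam(ℓ) φ` for all primes `ℓ ∤ L`, `ℓ ∉ S`;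
`heckeHom` is the Hecke operator on `Hom(Γ₀(L), A)` (see `GuideBridge`). File `H4EACore`. -/
theorem isEigHom_iff (L : ℕ) (S : Finset ℕ) {R A : Type*} [Semiring R] [AddCommGroup A] [Module R A]
    (lam : ℕ → R) (φ : Additive (Gamma0 L) →+ A) :
    H4.IsEigHom L S lam φ ↔
      ∀ (ℓ : ℕ) [Fact ℓ.Prime] (hℓL : ¬ ℓ ∣ L), ℓ ∉ S → H4.heckeHom hℓL φ = lam ℓ • φ :=
  Iff.rfl

/-- **Odd and irreducible implies absolutely irreducible**: the determinant of the residual representation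
is the cyclotomic character and `p` is odd, so complex conjugation has the two different eigenvalues `1`
and `-1`. File `H21MGood`. -/
theorem absolutelyIrreducible {p : ℕ} [Fact p.Prime] (hp2 : p ≠ 2) {O : Type} [CommRing O]
    [IsLocalRing O] [IsNoetherianRing O] (hpO : (p : O) ∈ maximalIdeal O) (S : Finset ℕ)
    (lam : ℕ → O) (ρ : GaloisRepAdic O) (hρ : H62.IsAttached S lam ρ)
    (hirr : ρ.residual.IsIrreducible) : ρ.residual.IsAbsolutelyIrreducible :=
  H21M.isAbsolutelyIrreducible_of_isAttached hp2 hpO S lam ρ hρ hirr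

variable {p : ℕ} [Fact p.Prime] {S : Finset ℕ} {𝒪' : Type} [CommRing 𝒪'] [IsDomain 𝒪']
    [IsDiscreteValuationRing 𝒪'] [IsAdicComplete (maximalIdeal 𝒪') 𝒪'] [Finite (ResidueField 𝒪')]
    [CharZero 𝒪']

/-- **An eigenclass attached to a residually irreducible representation kills the parabolic and elliptic
elements**: there is a prime `ℓ ≡ 1 mod L` for which `lam(ℓ) - (1 + ℓ)` is a unit
(`GuideEigen.exists_nonEisenstein_prime`, `GuideEigen.isPE_of_nonEisenstein`). File `H4EACore`. -/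
theorem isPE_of_attached (hp2 : p ≠ 2) (hp𝒪' : (p : 𝒪') ∈ maximalIdeal 𝒪') {lam : ℕ → 𝒪'}
    (ρ : GaloisRepAdic 𝒪') (hρ : H62.IsAttached S lam ρ) (hirr : ρ.residual.IsIrreducible) {L : ℕ}
    [NeZero L] {φ : Additive (Gamma0 L) →+ 𝒪'} (hT : H4.IsEigHom L S lam φ) : H4.IsPE φ :=
  hT.isPE hp2 hp𝒪' ρ hρ hirr

/-- **The eigenvector of an eigenclass**: the inverse `v` of the comparison isomorphism
`thetaJ : 𝒪' ⊗ T_p J₀(L) ≃ Hom_PE(Γ₀(L), 𝒪')` (`GuideEigen.tate_eq_hom`) at `φ ≠ 0` is not zero and is an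
eigenvector with the same eigenvalues. File `H4EACore`. -/
theorem eigenvector [Algebra ℤ_[p] 𝒪'] (hinj : Function.Injective (algebraMap ℤ_[p] 𝒪'))
    {lam : ℕ → 𝒪'} {L : ℕ} [NeZero L] {φ : Additive (Gamma0 L) →+ 𝒪'}
    (hT : H4.IsEigHom L S lam φ) (hPE : H4.IsPE φ) (hφ : φ ≠ 0) :
    H4.IsEigJ p L S lam ((H94.BR.thetaJ (p := p) L hinj).symm ⟨φ, hPE⟩) ∧
      (H94.BR.thetaJ (p := p) L hinj).symm ⟨φ, hPE⟩ ≠ 0 :=
  ⟨hT.isEigJ hinj hPE, H4.thetaJ_symm_ne_zero hinj hPE hφ⟩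

/-- Unipotent inertia for an eigenclass `φ ≠ 0` of level `L`, from input (a). In this and the following
theorems `p` is odd and `ρ` is attached to `lam` and residually irreducible. File `H4EACore`. -/
theorem class_unipotent (hp2 : p ≠ 2) (hpS : p ∈ S) (hp𝒪' : (p : 𝒪') ∈ maximalIdeal 𝒪')
    {lam : ℕ → 𝒪'} (ρ : GaloisRepAdic 𝒪') (hρ : H62.IsAttached S lam ρ)
    (hirr : ρ.residual.IsIrreducible) {L : ℕ} [NeZero L] (hLS : ∀ q : ℕ, q.Prime → q ∣ L → q ∈ S)
    {φ : Additive (Gamma0 L) →+ 𝒪'} (hT : H4.IsEigHom L S lam φ) (hφ : φ ≠ 0)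
    {q : ℕ} (hq : q.Prime) (hqp : q ≠ p) (hss : H35.UnipotentTorsion p q (JZero L)) :
    ρ.IsUnipotentOnInertiaAt q :=
  hT.isUnipotent hp2 hpS hp𝒪' ρ hρ hirr hLS hφ hq hqp hss

/-- Unramified at the primes `q ∤ L`, `q ≠ p`. File `H21MGood`. -/
theorem class_unramified (hp2 : p ≠ 2) (hpS : p ∈ S) (hp𝒪' : (p : 𝒪') ∈ maximalIdeal 𝒪')
    {lam : ℕ → 𝒪'} (ρ : GaloisRepAdic 𝒪') (hρ : H62.IsAttached S lam ρ)
    (hirr : ρ.residual.IsIrreducible) {L : ℕ} [NeZero L] (hLS : ∀ q : ℕ, q.Prime → q ∣ L → q ∈ S)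
    {φ : Additive (Gamma0 L) →+ 𝒪'} (hT : H4.IsEigHom L S lam φ) (hφ : φ ≠ 0)
    {q : ℕ} (hq : q.Prime) (hqp : q ≠ p) (hqL : ¬ q ∣ L) : ρ.IsUnramifiedAt q :=
  H21M.isUnramifiedAt_of_isEigHom hp2 hpS hp𝒪' ρ hρ hirr hLS hT hφ hq hqp hqL

/-- The characteristic polynomial of Frobenius at a prime `q ∤ L`, `q ≠ p`, `q ∈ S` allowed, if
`T_q φ = μ φ`. File `H21MGood`. -/
theorem class_frobenius (hp2 : p ≠ 2) (hpS : p ∈ S) (hp𝒪' : (p : 𝒪') ∈ maximalIdeal 𝒪')
    {lam : ℕ → 𝒪'} (ρ : GaloisRepAdic 𝒪') (hρ : H62.IsAttached S lam ρ)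
    (hirr : ρ.residual.IsIrreducible) {L : ℕ} [NeZero L] (hLS : ∀ q : ℕ, q.Prime → q ∣ L → q ∈ S)
    {φ : Additive (Gamma0 L) →+ 𝒪'} (hT : H4.IsEigHom L S lam φ) (hφ : φ ≠ 0)
    {q : ℕ} (hq : q.Prime) (hqp : q ≠ p) (hqL : ¬ q ∣ L) {μ : 𝒪'}
    (hμ : haveI : Fact q.Prime := ⟨hq⟩; H4.heckeHom hqL φ = μ • φ)
    {A : ValuationSubring (AlgebraicClosure ℚ)} (hA : A.LiesOverPrime q)
    {σ : AlgebraicClosure ℚ ≃ₐ[ℚ] AlgebraicClosure ℚ} (hσ : A.IsFrobeniusAt σ q) :
    LinearMap.charpoly (ρ.ρ σ) = X ^ 2 - C μ * X + C (q : 𝒪') :=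
  H21M.charpoly_frob_of_isEigHom hp2 hpS hp𝒪' ρ hρ hirr hLS hT hφ hq hqp hqL hμ hA hσ

/-- Steinberg primes: `φ ≠ 0` of level `M q`, `q ∤ M`, with both traces to level `M` equal to 0. The
conditions on the traces (`homOp` of the families `trF`, `nuF`) become the vanishing of the push-forwards
of the eigenvector, because the degeneracy maps are realised by these families
(`GuideEigen.realised_degeneracy`). File `H4EACore`. -/
theorem class_steinberg (hp2 : p ≠ 2) (hpS : p ∈ S) (hp𝒪' : (p : 𝒪') ∈ maximalIdeal 𝒪')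
    {lam : ℕ → 𝒪'} (ρ : GaloisRepAdic 𝒪') (hρ : H62.IsAttached S lam ρ)
    (hirr : ρ.residual.IsIrreducible) {M q : ℕ} [NeZero M] [NeZero q] [NeZero (M * q)]
    (hq : q.Prime) (hqp : q ≠ p) (hqM : ¬ q ∣ M) (hLS : ∀ r : ℕ, r.Prime → r ∣ M * q → r ∈ S)
    {φ : Additive (Gamma0 (M * q)) →+ 𝒪'} (hT : H4.IsEigHom (M * q) S lam φ) (hφ : φ ≠ 0)
    (hstar : H35.StarInput p q M) (h1 : H94.BR.homOp 𝒪' (H94.BR.trF M q) φ = 0)
    (h2 : H94.BR.homOp 𝒪' (H94.BR.nuF M hq) φ = 0) :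
    ∃ u : 𝒪', (u = 1 ∨ u = -1) ∧
      ∀ (A : ValuationSubring (AlgebraicClosure ℚ)) (_ : A.LiesOverPrime q)
        (σ : AlgebraicClosure ℚ ≃ₐ[ℚ] AlgebraicClosure ℚ) (_ : A.IsFrobeniusAt σ q),
        LinearMap.charpoly (ρ.ρ σ) = (X - C u) * (X - C (u * (q : 𝒪'))) :=
  hT.exists_sign hp2 hpS hp𝒪' ρ hρ hirr hq hqp hqM hLS hφ hstar h1 h2

/-- Inertia at `q` is not unipotent: `φ ≠ 0` of level `M q` with both traces to level `M` equal to 0; input
(c) holds for `q ∥ M`. File `H4EACore`. -/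
theorem class_not_unipotent (hp2 : p ≠ 2) (hpS : p ∈ S) (hp𝒪' : (p : 𝒪') ∈ maximalIdeal 𝒪')
    {lam : ℕ → 𝒪'} (ρ : GaloisRepAdic 𝒪') (hρ : H62.IsAttached S lam ρ)
    (hirr : ρ.residual.IsIrreducible) {M q : ℕ} [NeZero M] [NeZero q] [NeZero (M * q)]
    (hq : q.Prime) (hqp : q ≠ p) (hLS : ∀ r : ℕ, r.Prime → r ∣ M * q → r ∈ S)
    {φ : Additive (Gamma0 (M * q)) →+ 𝒪'} (hT : H4.IsEigHom (M * q) S lam φ) (hφ : φ ≠ 0)
    (hfix : H35.FixedInput p q M) (h1 : H94.BR.homOp 𝒪' (H94.BR.trF M q) φ = 0)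
    (h2 : H94.BR.homOp 𝒪' (H94.BR.nuF M hq) φ = 0) :
    ¬ ρ.IsUnipotentOnInertiaAt q :=
  hT.not_isUnipotent hp2 hpS hp𝒪' ρ hρ hirr hq hqp hLS hφ hfix h1 h2

/-- **Clearing denominators.** `O` is a domain with fraction field `K`. An eigenclass `y ≠ 0` in
`H¹(Γ₀(L), K)` with eigenvalues in `O` gives an eigenclass `φ ≠ 0` in `Hom(Γ₀(L), O)` with the same
eigenvalues (a multiple of `y`; `Γ₀(L)` is finitely generated), and every family of matrices `h : HFam _ _`
(`GuideEigen`, section 1) that kills `y` kills `φ`. File `H4EA`. -/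
theorem integral_eigenclass {O : Type} [CommRing O] [IsDomain O] {K : Type} [Field K] [Algebra O K]
    [IsFractionRing O K] {L : ℕ} [NeZero L] {lam : ℕ → O}
    {y : H70.Coh.H1 (H70.Coh.gam 1 L (one_dvd L)) (H70.Coh.psiRep (1 : (ZMod 1)ˣ →* Kˣ) K)}
    (hy : y ≠ 0)
    (hT : ∀ (ℓ : ℕ) (hℓ : ℓ.Prime) (hℓL : ¬ ℓ ∣ L), ℓ ∉ S →
      (H70.Coh.tFam (one_dvd L) hℓ hℓL).opH (H70.Coh.psiRep (1 : (ZMod 1)ˣ →* Kˣ) K) y =
        algebraMap O K (lam ℓ) • y) :
    ∃ φ : Additive (Gamma0 L) →+ O, φ ≠ 0 ∧ H4.IsEigHom L S lam φ ∧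
      ∀ (L' : ℕ) (h : H70.Coh.HFam (H94.BR.gm L) (H94.BR.gm L')),
        h.opH (H70.Coh.psiRep (1 : (ZMod 1)ˣ →* Kˣ) K) y = 0 → H94.BR.homOp O h φ = 0 :=
  H4.exists_isEigHom hy hT

end Classes

/-! ## 4. Submodules of the Tate module isomorphic to an attached representation -/

section Realisation

variable {p : ℕ} [Fact p.Prime] {S : Finset ℕ} {𝒪' : Type} [CommRing 𝒪'] [IsDomain 𝒪']
    [IsDiscreteValuationRing 𝒪'] [IsAdicComplete (maximalIdeal 𝒪') 𝒪'] [Finite (ResidueField 𝒪')]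
    [CharZero 𝒪'] [Algebra ℤ_[p] 𝒪']

/-- The Hecke operators on `T_p J₀(N)` commute with the Galois action. File `H4OrdP`. -/
theorem hecke_commutes_with_galois {N : ℕ} [NeZero N] {q : ℕ} (hq : q.Prime)
    (σ : AlgebraicClosure ℚ ≃ₐ[ℚ] AlgebraicClosure ℚ) :
    Commute (H35.tateMap (p := p) (heckeOperatorBar N ⟨q, hq⟩) :
      Module.End ℤ_[p] (H30.TateMod p (JZero N))) (H30.galTate p (JZero N) σ) :=
  H4.commute_hecke_galTate hq σ

/-- **The quadratic relation on the eigenspace**: `g² v - tr ρ(g) g v + det ρ(g) v = 0` for every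
eigenvector `v ≠ 0` with the eigenvalues of `ρ`. File `H4OrdP`. -/
theorem quadratic_relation {N : ℕ} [NeZero N] (hpS : p ∈ S)
    (hNS : ∀ q : ℕ, q.Prime → q ∣ N → q ∈ S) (hp𝒪' : (p : 𝒪') ∈ maximalIdeal 𝒪') {lam : ℕ → 𝒪'}
    (ρ : GaloisRepAdic 𝒪') (hρ : H62.IsAttached S lam ρ)
    (g : AlgebraicClosure ℚ ≃ₐ[ℚ] AlgebraicClosure ℚ)
    {v : 𝒪' ⊗[ℤ_[p]] H30.TateMod p (JZero N)} (hv : H4.IsEigJ p N S lam v) (hv0 : v ≠ 0) :
    (H30.galTate p (JZero N) g).baseChange 𝒪' ((H30.galTate p (JZero N) g).baseChange 𝒪' v)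
      - LinearMap.trace 𝒪' ρ.V (ρ.ρ g) • (H30.galTate p (JZero N) g).baseChange 𝒪' v
      + LinearMap.det (ρ.ρ g) • v = 0 :=
  H4.quad_eigSub hpS hNS hp𝒪' ρ hρ g (H4.mem_eigSub.mpr hv) hv0

/-- **`ρ` in the Tate module.** Let `ρ` be attached to `lam` and residually absolutely irreducible, and let
`v ≠ 0` be an eigenvector with the eigenvalues `lam` and `T_q v = μ v` (`q = p` allowed). There is an
injective Galois equivariant map from `ρ` to `𝒪' ⊗ T_p J₀(N)` on whose image `T_q = μ`.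
(`GuideEigen.embedding_of_quadratic` for the space of all such eigenvectors.) File `H4OrdP`. -/
theorem realisation_of_eigenvector {N : ℕ} [NeZero N] (hpS : p ∈ S)
    (hNS : ∀ q : ℕ, q.Prime → q ∣ N → q ∈ S) (hp𝒪' : (p : 𝒪') ∈ maximalIdeal 𝒪') {lam : ℕ → 𝒪'}
    {v : 𝒪' ⊗[ℤ_[p]] H30.TateMod p (JZero N)} (hv : H4.IsEigJ p N S lam v) (hv0 : v ≠ 0)
    (ρ : GaloisRepAdic 𝒪') (hρ : H62.IsAttached S lam ρ)
    (habs : ρ.residual.IsAbsolutelyIrreducible) {q : ℕ} (hq : q.Prime) {μ : 𝒪'}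
    (hμ : (H35.tateMap (p := p) (heckeOperatorBar N ⟨q, hq⟩)).baseChange 𝒪' v = μ • v) :
    ∃ Φ : ρ.V →ₗ[𝒪'] 𝒪' ⊗[ℤ_[p]] H30.TateMod p (JZero N), Function.Injective Φ ∧
      (∀ g x, Φ (ρ.ρ g x) = (H30.galTate p (JZero N) g).baseChange 𝒪' (Φ x)) ∧
      ∀ x, (H35.tateMap (p := p) (heckeOperatorBar N ⟨q, hq⟩)).baseChange 𝒪' (Φ x) = μ • Φ x :=
  H4.exists_realisation_good hpS hNS hp𝒪' hv hv0 ρ hρ habs hq hμ

end Realisation

/-! ## 5. How correspondences are realised by families of matrices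

The steps of `GuideEigen.realised_degeneracy`. `K` is an algebraically closed field of characteristic 0
with a map to `ℂ`, `FX K M = K(j(q^d) : d ∣ M)` the function field of `X₀(M)` as a field of Laurent
series, `A K M` the `K`-algebra generated by the `j(q^d)`, `toF` its inclusion in `FX K M`, `ev K x τ` the
value at `q = e^{2πiτ}`; `Good`: `GuideBridge.good_iff`. `Realizes K T h` is the property of
`GuideEigen.realJ_iff` for a homomorphism `T : Pic⁰ X₀(M) → Pic⁰ X₀(M')` over `K`. `DN 1` consists of the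
integral matrices of positive determinant, `gm M` is the inclusion of `Γ₀(M)`. -/

section Realised

open H70.Coh H24 H61 AlgebraicCurve H90 H4 H67 H94.BR
open UpperHalfPlane hiding I
open scoped MatrixGroups

variable {K : Type*} [Field K] [Algebra K ℂ] [IsAlgClosed K] [CharZero K] [Algebra ℚ K]
  {M M' : ℕ} [NeZero M] [NeZero M']

omit [IsAlgClosed K] [CharZero K] [NeZero M] [NeZero M'] in
/-- `φ : FX K M → FX K M'` is given by `τ ↦ g τ` (`IsPB φ g`, written out): it maps each `a` in `A K M` to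
an `a'` in `A K M'` with `a'(τ) = a(g τ)`. File `H94BRReal`. -/
theorem isPB_iff (φ : FX K M →ₐ[K] FX K M') (g : DN 1) :
    IsPB φ g ↔ ∀ a : H24.A K M, ∃ a' : H24.A K M', φ (toF K M a) = toF K M' a' ∧
      ∀ τ, ev K a'.1 τ = ev K a.1 (g • τ) :=
  Iff.rfl

/-- **Degeneracy maps are given by matrices**: `dg K e h`, `M e ∣ M'`, the substitution `q ↦ q^e`, is given
by `dd e = (e, 0; 0, 1)`. File `H94BRDeg`. -/
theorem degeneracy_is_substitution (e : ℕ) [NeZero e] (h : M * e ∣ M') : IsPB (dg K e h) (dd e) :=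
  isPB_dg e h

/-- **Pull-backs are realised** by one matrix: the pull-back of divisor classes along a `φ` given by `g` is
realised by the family `{g}` (the pull-back of `div a` is `div φ(a)`). File `H94BRReal`. -/
theorem pull_back_realised {φ : FX K M →ₐ[K] FX K M'} {g : DN 1} (H : IsPB φ g)
    (h : HFam (gm M) (gm M')) [Unique h.J] (hα : h.α default = g) : Realizes K (pullP φ) h :=
  realizes_pull H h hα

/-- **Rigidity of `j`**: if two integral matrices of the same positive determinant satisfy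
`j(α τ) = j(β τ)` for all `τ`, then `α = γ β` with `γ ∈ SL₂(ℤ)`. Proof: make both upper triangular and
compare the expansions. File `H94BRAct`. -/
theorem rigidity_of_j {α β : DN 1} (hdet : α.1.det = β.1.det)
    (h : ∀ τ, jInv (α • τ) = jInv (β • τ)) : ∃ γ : SL(2, ℤ), α = slD γ * β :=
  exists_sl_of_jInv_eq hdet h

/-- **Different cosets give different embeddings.** For `σ` in `DN 1` let `eF K M σ` be the embedding
`a ↦ a(σ τ)` of `FX K M` in the field of fractions of the ring of holomorphic functions on `ℍ`. If `α`, `β`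
have the same determinant and give the same embedding, then `α = γ β` with `γ ∈ Γ₀(M)` (`rigidity_of_j` for
`j`, then `j(q^M)`). File `H94BRReal`. -/
theorem different_embeddings {α β : DN 1} (hdet : α.1.det = β.1.det)
    (h : ∀ y : H24.A K M, eF K M α (toF K M y) = eF K M β (toF K M y)) :
    ∃ γ : Gamma0 M, α = gm M γ * β :=
  exists_of_eF_eq hdet h

/-- **The norm is a product over cosets.** Let `φ : FX K M → FX K M'` be given by `g`, `α` an integral
matrix for which `g α` is scalar (`hgα`), and `h` a family of matrices `α δ`, `δ ∈ Γ₀(M)`, which are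
different modulo `Γ₀(M')` on the left, at least as many as the degree of `φ`. If `y` in `FX K M'` is good, so
is its norm `N y` along `φ`, and `(N y)(τ) = ∏_i y(α_i τ)`. Proof: the `y ↦ y(α_i τ)` are different
embeddings over `FX K M` (`different_embeddings`), so they are all of them. File `H94BRReal`. -/
theorem norm_is_product {φ : FX K M →ₐ[K] FX K M'} {g : DN 1} (H : IsPB φ g) (α : DN 1)
    (hgα : ∀ τ : ℍ, (g * α) • τ = τ) (h : HFam (gm M') (gm M))
    (hα : ∀ i, ∃ δ : Gamma0 M, h.α i = α * gm M δ)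
    (hinj : ∀ (i j : h.J) (γ : Gamma0 M'), h.α i = gm M' γ * h.α j → i = j)
    (hcard : finrankAlong K φ ≤ Fintype.card h.J) {y : FX K M'}
    (hy : Good K M' (y : LaurentSeries K)) :
    Good K M ((H60.normAlong φ y : FX K M) : LaurentSeries K) ∧
      ev K ((H60.normAlong φ y : FX K M) : LaurentSeries K) =
        fun τ => ∏ i, ev K (y : LaurentSeries K) (h.α i • τ) :=
  good_norm H α hgα h hα hinj hcard hy

/-- **Push-forwards are realised**: in the situation of `norm_is_product` the push-forward of divisor classes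
along `φ` is realised by `h` (the push-forward of `div a` is `div N(a)`). File `H94BRReal`. -/
theorem push_forward_realised {φ : FX K M →ₐ[K] FX K M'} {g : DN 1} (H : IsPB φ g) (α : DN 1)
    (hgα : ∀ τ : ℍ, (g * α) • τ = τ) (h : HFam (gm M') (gm M))
    (hα : ∀ i, ∃ δ : Gamma0 M, h.α i = α * gm M δ)
    (hinj : ∀ (i j : h.J) (γ : Gamma0 M'), h.α i = gm M' γ * h.α j → i = j)
    (hcard : finrankAlong K φ ≤ Fintype.card h.J) : Realizes K (pushP φ) h :=
  realizes_push H α hgα h hα hinj hcard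

/-- **The number of cosets**: the index of `Γ₀(M q)` in `Γ₀(M)` (`subQ M q`), `q` prime, is
`cdeg M q` (`q` if `q ∣ M`, otherwise `q + 1`), and this is the degree of the two maps
`X₀(M q) → X₀(M)` (`e = 1` and `e = q`). Files `H94BRDeg`, `H67Deg`. -/
theorem degree_of_degeneracy {q : ℕ} [NeZero q] [NeZero (M * q)] (hq : q.Prime) (e : ℕ) [NeZero e]
    (h : M * e ∣ M * q) : (subQ M q).index = cdeg M q ∧ finrankAlong K (dg K e h) = cdeg M q ∧
      cdeg M q = if q ∣ M then q else q + 1 :=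
  ⟨index_subQ hq, finrank_dg_prime (algebraMap K ℂ) hq e h rfl, rfl⟩

end Realised

end Fermat.Agent.Guide.EigenSteps

end
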