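import Fermat.Agent.H7ZPsi
import Fermat.Agent.H59XF

/-!
# Whittaker functions on restricted coset spaces (helper7, S47, package C19)

`G` a group with a "Borel subgroup" given by `n : K → G`, `d : Kˣ → G`; `κ : XF L → ℂ` with
`κ (n b • y) = e(-Tr b) κ y`.  Then `κ` is `psi w`-equivariant at every place (`Whit.loc`), vanishes
or is determined by Hecke recursions and types on the Borel points, and is zero on all Borel points
if it is zero on those supported at one place `w₀`.
-/

set_option autoImplicit false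
set_option linter.unusedSectionVars false

open IsDedekindDomain HeightOneSpectrum WithZero NumberField

noncomputable section

namespace Fermat.Agent.H7.Z

open Fermat.Agent.H59XF

/-- A homomorphism from the group of matrices `(a b; 0 1)`. -/
structure Bor (K G : Type*) [Field K] [Group G] where
  n : K → G
  d : Kˣ → G
  n_zero : n 0 = 1
  n_add : ∀ a b, n (a + b) = n a * n b
  d_one : d 1 = 1
  d_mul : ∀ a b, d (a * b) = d a * d b
  conj : ∀ a b, d a * n b = n ((a : K) * b) * d a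

namespace Bor

variable {K G : Type*} [Field K] [Group G] (B : Bor K G)

theorem n_neg (a : K) : B.n (-a) = (B.n a)⁻¹ := by
  rw [eq_inv_iff_mul_eq_one, ← B.n_add, neg_add_cancel, B.n_zero]

theorem n_sub (a b : K) : B.n (a - b) = B.n a * (B.n b)⁻¹ := by
  rw [sub_eq_add_neg, B.n_add, B.n_neg]

theorem n_sub' (a b : K) : B.n (a - b) = (B.n b)⁻¹ * B.n a := by
  rw [sub_eq_neg_add, B.n_add, B.n_neg]

theorem d_inv (a : Kˣ) : B.d a⁻¹ = (B.d a)⁻¹ := by
  rw [eq_inv_iff_mul_eq_one, ← B.d_mul, inv_mul_cancel, B.d_one]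

end Bor

variable {K : Type*} [Field K] [NumberField K] {G : Type*} [Group G]
  [DecidableEq (HeightOneSpectrum (𝓞 K))]

/-- Compatibility of the level with the Borel subgroup. -/
structure BLevel (B : Bor K G) (L : LevelFam G (HeightOneSpectrum (𝓞 K))) : Prop where
  small : ∀ (w : HeightOneSpectrum (𝓞 K)) (g : G), ∃ m : ℕ, ∀ b : K,
    w.valuation K b ≤ exp (-(m : ℤ)) → g⁻¹ * B.n b * g ∈ L.U w
  good : {w : HeightOneSpectrum (𝓞 K) | ¬ ∀ b : K, w.valuation K b ≤ 1 → B.n b ∈ L.U w}.Finite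

/-- A Whittaker function. -/
structure Whit (B : Bor K G) (L : LevelFam G (HeightOneSpectrum (𝓞 K))) (κ : XF L → ℂ) : Prop where
  eqv : ∀ (b : K) (y : XF L), κ (B.n b • y) = ee (-Algebra.trace ℚ K b) * κ y

variable {B : Bor K G} {L : LevelFam G (HeightOneSpectrum (𝓞 K))} {κ : XF L → ℂ}

/-- A Whittaker function is `psi w`-equivariant at every place `w`. -/
theorem Whit.loc (hL : BLevel B L) (hκ : Whit B L κ) (y : XF L)
    (w : HeightOneSpectrum (𝓞 K)) (x : K) :
    κ (XF.upd y w (B.n x • y w)) = psi w x * κ y := by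
  choose g hg using fun v => QuotientGroup.mk_surjective (y v)
  choose m hm using fun v => hL.small v (g v)
  have hfin : ({v | y v ≠ ((1 : G) : G ⧸ L.U v)} ∪
      {v : HeightOneSpectrum (𝓞 K) | ¬ ∀ b : K, v.valuation K b ≤ 1 → B.n b ∈ L.U v} ∪ {w}).Finite :=
    (y.fin.union hL.good).union (Set.finite_singleton w)
  let T : Finset (HeightOneSpectrum (𝓞 K)) := hfin.toFinset
  obtain ⟨β, hβ1, hβ2⟩ := exists_approx T (fun v => if v = w then x else 0) m
  have hwT : w ∈ T := by simp [T]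
  have hsm : ∀ v ∈ T, v ≠ w → v.valuation K β ≤ exp (-(m v : ℤ)) := by
    intro v hv hvw
    have := hβ1 v hv
    simpa [hvw] using this
  have hle : ∀ n : ℕ, (exp (-(n : ℤ)) : WithZero (Multiplicative ℤ)) ≤ 1 := by
    intro n
    rw [← exp_zero, exp_le_exp]; simp
  have hw : w.valuation K (β - x) ≤ exp (-(m w : ℤ)) := by
    have := hβ1 w hwT
    simpa using this
  have h1 : B.n β • y = XF.upd y w (B.n x • y w) := by
    apply XF.ext; intro v
    by_cases hv : v = w
    · subst hv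
      rw [XF.upd_same, XF.smul_apply, ← hg v]
      change ((B.n β * g v : G) : G ⧸ L.U v) = ((B.n x * g v : G) : G ⧸ L.U v)
      rw [eq_comm, QuotientGroup.eq]
      have h2 : (B.n x * g v)⁻¹ * (B.n β * g v) = (g v)⁻¹ * B.n (β - x) * g v := by
        rw [B.n_sub']; group
      rw [h2]
      exact hm v _ hw
    · rw [XF.upd_ne _ hv, XF.smul_apply]
      by_cases hvT : v ∈ T
      · conv_rhs => rw [← hg v]
        rw [← hg v]
        change ((B.n β * g v : G) : G ⧸ L.U v) = ((g v : G) : G ⧸ L.U v)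
        rw [eq_comm, QuotientGroup.eq, ← mul_assoc]
        exact hm v _ (hsm v hvT hv)
      · have h3 : y v = ((1 : G) : G ⧸ L.U v) := by
          by_contra hcon
          exact hvT (hfin.mem_toFinset.mpr (Or.inl (Or.inl hcon)))
        have h4 : ∀ b : K, v.valuation K b ≤ 1 → B.n b ∈ L.U v := by
          by_contra hcon
          exact hvT (hfin.mem_toFinset.mpr (Or.inl (Or.inr hcon)))
        rw [h3]
        change ((B.n β * 1 : G) : G ⧸ L.U v) = ((1 : G) : G ⧸ L.U v)
        rw [eq_comm, QuotientGroup.eq]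
        simpa using h4 β (hβ2 v hvT)
  rw [← h1, hκ.eqv]
  congr 1
  rw [← prod_psi T β hβ2, ← Finset.mul_prod_erase T _ hwT]
  have h5 : psi w β = psi w x := psi_congr w (hw.trans (hle _))
  rw [h5, Finset.prod_eq_one, mul_one]
  intro v hv
  exact psi_of_integral v ((hsm v (Finset.mem_of_mem_erase hv) (Finset.ne_of_mem_erase hv)).trans
    (hle _))

theorem Whit.sub {κ' : XF L → ℂ} (h : Whit B L κ) (h' : Whit B L κ') :
    Whit B L (fun y => κ y - κ' y) :=
  ⟨fun b y => by rw [h.eqv, h'.eqv, mul_sub]⟩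

omit [DecidableEq (HeightOneSpectrum (𝓞 K))] in
/-- The dual of the integers at `w` with respect to `psi w` is the ring of integers. -/
def Unram (w : HeightOneSpectrum (𝓞 K)) : Prop :=
  ∀ x : K, (∀ r : K, w.valuation K r ≤ 1 → psi w (x * r) = 1) → w.valuation K x ≤ 1

/-- The Hecke operator at `w`, in terms of representatives. -/
def HeckeEq (B : Bor K G) (L : LevelFam G (HeightOneSpectrum (𝓞 K))) (κ : XF L → ℂ)
    (w : HeightOneSpectrum (𝓞 K)) (ϖ : Kˣ) (R : Finset K) (lam : ℂ) : Prop :=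
  ∀ (y : XF L) (g : G), y w = (g : G ⧸ L.U w) →
    lam * κ y = ∑ b ∈ R, κ (XF.upd y w ((g * B.n b * B.d ϖ : G) : G ⧸ L.U w)) +
      κ (XF.upd y w ((g * (B.d ϖ)⁻¹ : G) : G ⧸ L.U w))

/-- Good places. -/
structure GoodAt (B : Bor K G) (L : LevelFam G (HeightOneSpectrum (𝓞 K)))
    (w : HeightOneSpectrum (𝓞 K)) : Prop where
  n_mem : ∀ b : K, w.valuation K b ≤ 1 → B.n b ∈ L.U w
  d_mem : ∀ a : Kˣ, w.valuation K (a : K) = 1 → B.d a ∈ L.U w
  unram : Unram w

/-- vanishing at a good (or Iwahori) place -/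
theorem Whit.vanish (hL : BLevel B L) (hκ : Whit B L κ) {w : HeightOneSpectrum (𝓞 K)}
    (hw : GoodAt B L w) (y : XF L) (a : Kˣ)
    (ha : ¬ w.valuation K (a : K) ≤ 1) : κ (XF.upd y w ((B.d a : G) : G ⧸ L.U w)) = 0 := by
  by_contra h0
  apply ha
  apply hw.unram
  intro r hr
  have h1 := Whit.loc hL hκ (XF.upd y w ((B.d a : G) : G ⧸ L.U w)) w ((a : K) * r)
  rw [XF.upd_same, XF.upd_upd] at h1
  have h2 : B.n ((a : K) * r) • ((B.d a : G) : G ⧸ L.U w) = ((B.d a : G) : G ⧸ L.U w) := by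
    change ((B.n ((a : K) * r) * B.d a : G) : G ⧸ L.U w) = _
    rw [← B.conj, eq_comm, QuotientGroup.eq, ← mul_assoc, inv_mul_cancel, one_mul]
    exact hw.n_mem r hr
  rw [h2] at h1
  have h3 : (psi w ((a : K) * r) - 1) * κ (XF.upd y w ((B.d a : G) : G ⧸ L.U w)) = 0 := by
    rw [sub_mul, one_mul, ← h1, sub_self]
  rcases mul_eq_zero.mp h3 with h | h
  · exact sub_eq_zero.mp h
  · exact absurd h h0

/-- The recursion at a good place. -/
theorem Whit.rec_good (hL : BLevel B L) (hκ : Whit B L κ) {w : HeightOneSpectrum (𝓞 K)}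
    {ϖ : Kˣ} {R : Finset K} {lam : ℂ} (hR : ∀ b ∈ R, w.valuation K b ≤ 1)
    (hH : HeckeEq B L κ w ϖ R lam) (y : XF L) (a : Kˣ) (ha : w.valuation K (a : K) ≤ 1) :
    lam * κ (XF.upd y w ((B.d a : G) : G ⧸ L.U w)) =
      (R.card : ℂ) * κ (XF.upd y w ((B.d (a * ϖ) : G) : G ⧸ L.U w)) +
        κ (XF.upd y w ((B.d (a * ϖ⁻¹) : G) : G ⧸ L.U w)) := by
  rw [hH (XF.upd y w ((B.d a : G) : G ⧸ L.U w)) (B.d a) (by rw [XF.upd_same])]
  congr 1
  · rw [← nsmul_eq_mul, ← Finset.sum_const]
    refine Finset.sum_congr rfl fun b hb => ?_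
    rw [XF.upd_upd]
    have h1 := Whit.loc hL hκ (XF.upd y w ((B.d (a * ϖ) : G) : G ⧸ L.U w)) w ((a : K) * b)
    rw [XF.upd_same, XF.upd_upd, psi_of_integral w, one_mul] at h1
    · rw [← h1]
      congr 2
      change _ = ((B.n ((a : K) * b) * B.d (a * ϖ) : G) : G ⧸ L.U w)
      rw [B.d_mul, ← mul_assoc, ← B.conj]
    · rw [map_mul]
      exact mul_le_one' ha (hR b hb)
  · rw [XF.upd_upd, B.d_mul, B.d_inv]

/-- The property "vanishing at the base coordinate implies vanishing at all diagonal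
coordinates". -/
def ZeroAt (B : Bor K G) (L : LevelFam G (HeightOneSpectrum (𝓞 K))) (κ : XF L → ℂ)
    (w : HeightOneSpectrum (𝓞 K)) : Prop :=
  ∀ y : XF L, κ (XF.upd y w ((1 : G) : G ⧸ L.U w)) = 0 →
    ∀ a : Kˣ, κ (XF.upd y w ((B.d a : G) : G ⧸ L.U w)) = 0

theorem Whit.zeroAt_good (hL : BLevel B L) (hκ : Whit B L κ) {w : HeightOneSpectrum (𝓞 K)}
    (hw : GoodAt B L w) {ϖ : Kˣ} (hϖ : w.valuation K (ϖ : K) = exp (-(1 : ℤ)))
    {R : Finset K} (hR0 : R.Nonempty) {lam : ℂ} (hR : ∀ b ∈ R, w.valuation K b ≤ 1)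
    (hH : HeckeEq B L κ w ϖ R lam) : ZeroAt B L κ w := by
  classical
  intro y h0 a
  -- powers of the uniformizer
  have hpow : ∀ k : ℕ, w.valuation K ((ϖ ^ k : Kˣ) : K) = exp (-(k : ℤ)) := by
    intro k
    rw [Units.val_pow_eq_pow_val, map_pow, hϖ, ← exp_nsmul]
    congr 1
    simp
  have key : ∀ k : ℕ, κ (XF.upd y w ((B.d (ϖ ^ k) : G) : G ⧸ L.U w)) = 0 := by
    intro k
    induction k using Nat.strong_induction_on with
    | _ k ih =>
      match k with
      | 0 => rw [pow_zero, B.d_one]; exact h0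
      | k + 1 =>
        have h1 := hκ.rec_good hL hR hH y (ϖ ^ k) (by
          rw [hpow, ← exp_zero, exp_le_exp]; simp)
        rw [ih k (Nat.lt_succ_self k), mul_zero] at h1
        have h2 : κ (XF.upd y w ((B.d (ϖ ^ k * ϖ⁻¹) : G) : G ⧸ L.U w)) = 0 := by
          match k with
          | 0 =>
            apply hκ.vanish hL hw
            rw [pow_zero, one_mul, Units.val_inv_eq_inv_val, map_inv₀, hϖ, ← exp_neg, neg_neg,
              ← exp_zero, exp_le_exp]
            norm_num
          | k + 1 =>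
            have h3 : ϖ ^ (k + 1) * ϖ⁻¹ = ϖ ^ k := by rw [pow_succ, mul_inv_cancel_right]
            rw [h3]
            exact ih k (by omega)
        rw [h2, add_zero] at h1
        have h4 : (R.card : ℂ) ≠ 0 := by
          exact_mod_cast (Finset.card_pos.mpr hR0).ne'
        rw [pow_succ]
        exact (mul_eq_zero.mp h1.symm).resolve_left h4
  by_cases ha : w.valuation K (a : K) ≤ 1
  · have ha0 : w.valuation K (a : K) ≠ 0 := (Valuation.ne_zero_iff _).mpr a.ne_zero
    obtain ⟨k, hk⟩ : ∃ k : ℕ, w.valuation K (a : K) = exp (-(k : ℤ)) := by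
      refine ⟨(-(log (w.valuation K (a : K)))).toNat, ?_⟩
      have h1 : log (w.valuation K (a : K)) ≤ 0 := by
        rw [← exp_log ha0, ← exp_zero, exp_le_exp] at ha
        exact ha
      rw [Int.toNat_of_nonneg (by omega), neg_neg, exp_log ha0]
    have h1 : ((B.d a : G) : G ⧸ L.U w) = ((B.d (ϖ ^ k) : G) : G ⧸ L.U w) := by
      rw [eq_comm, QuotientGroup.eq, ← B.d_inv, ← B.d_mul]
      apply hw.d_mem
      rw [Units.val_mul, Units.val_inv_eq_inv_val, map_mul, map_inv₀, hpow, hk]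
      exact inv_mul_cancel₀ (by simp)
    rw [h1]
    exact key k
  · exact hκ.vanish hL hw y a ha

/-- Equivariance on the right under a type at a bad place; only the unipotent part matters. -/
def TypeAt (B : Bor K G) (L : LevelFam G (HeightOneSpectrum (𝓞 K))) (κ : XF L → ℂ)
    (w : HeightOneSpectrum (𝓞 K)) (Bw : Set K) : Prop :=
  ∀ (y : XF L) (g : G) (b : K), b ∈ Bw →
    κ (XF.upd y w ((g * B.n b : G) : G ⧸ L.U w)) = psi w b * κ (XF.upd y w ((g : G) : G ⧸ L.U w))

omit [DecidableEq (HeightOneSpectrum (𝓞 K))] in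
/-- `Bw` is large: its dual is contained in the torus part of the level. -/
def DualAt (B : Bor K G) (L : LevelFam G (HeightOneSpectrum (𝓞 K)))
    (w : HeightOneSpectrum (𝓞 K)) (Bw : Set K) : Prop :=
  ∀ a : Kˣ, (∀ b ∈ Bw, psi w (((a : K) - 1) * b) = 1) → B.d a ∈ L.U w

theorem Whit.zeroAt_bad (hL : BLevel B L) (hκ : Whit B L κ) {w : HeightOneSpectrum (𝓞 K)}
    {Bw : Set K} (hw : TypeAt B L κ w Bw) (hd : DualAt B L w Bw) : ZeroAt B L κ w := by
  classical
  intro y h0 a
  by_contra h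
  apply h
  have h1 : B.d a ∈ L.U w := by
    apply hd
    intro b hb
    have h2 := Whit.loc hL hκ (XF.upd y w ((B.d a : G) : G ⧸ L.U w)) w ((a : K) * b)
    rw [XF.upd_same, XF.upd_upd] at h2
    have h3 : B.n ((a : K) * b) • ((B.d a : G) : G ⧸ L.U w) = ((B.d a * B.n b : G) : G ⧸ L.U w) := by
      change ((B.n ((a : K) * b) * B.d a : G) : G ⧸ L.U w) = _
      rw [← B.conj]
    rw [h3, hw y (B.d a) b hb] at h2
    have h4 := mul_right_cancel₀ h h2
    have h5 : ((a : K) - 1) * b = (a : K) * b + (-b) := by ring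
    rw [h5, AddChar.map_add_eq_mul, ← h4, ← AddChar.map_add_eq_mul, add_neg_cancel,
      AddChar.map_zero_eq_one]
  have h2 : ((B.d a : G) : G ⧸ L.U w) = ((1 : G) : G ⧸ L.U w) := by
    rw [eq_comm, QuotientGroup.eq]
    simpa using h1
  rw [h2]
  exact h0

/-- Borel points: all coordinates are diagonal. -/
def IsBor (B : Bor K G) (L : LevelFam G (HeightOneSpectrum (𝓞 K))) (y : XF L) : Prop :=
  ∀ w, ∃ a : Kˣ, y w = ((B.d a : G) : G ⧸ L.U w)

/-- If `ZeroAt` holds outside `W` and `κ` vanishes on the Borel points supported in `W`, then `κ`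
vanishes on all Borel points. -/
theorem zero_of_zeroAt (W : Set (HeightOneSpectrum (𝓞 K))) (hZ : ∀ w ∉ W, ZeroAt B L κ w)
    (h0 : ∀ y : XF L, IsBor B L y → (∀ w ∉ W, y w = ((1 : G) : G ⧸ L.U w)) → κ y = 0)
    (y : XF L) (hy : IsBor B L y) : κ y = 0 := by
  classical
  have hfin : ({w | y w ≠ ((1 : G) : G ⧸ L.U w)} \ W).Finite := y.fin.subset Set.sdiff_subset
  -- induction on the number of nontrivial places outside `W`
  have key : ∀ (T : Finset (HeightOneSpectrum (𝓞 K))) (y : XF L), IsBor B L y →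
      (∀ w ∉ W, w ∉ T → y w = ((1 : G) : G ⧸ L.U w)) → κ y = 0 := by
    intro T
    induction T using Finset.induction_on with
    | empty => intro y hy h; exact h0 y hy (fun w hw => h w hw (by simp))
    | insert v T hv ih =>
      intro y hy h
      by_cases hvW : v ∈ W
      · refine ih y hy fun w hw hwT => h w hw ?_
        rw [Finset.mem_insert, not_or]
        exact ⟨fun hh => hw (hh ▸ hvW), hwT⟩
      · obtain ⟨a, ha⟩ := hy v
        have h1 : κ (XF.upd y v ((1 : G) : G ⧸ L.U v)) = 0 := by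
          apply ih
          · intro w
            by_cases hw : w = v
            · subst hw; exact ⟨1, by rw [XF.upd_same, B.d_one]⟩
            · rw [XF.upd_ne _ hw]; exact hy w
          · intro w hw hwT
            by_cases hwv : w = v
            · subst hwv; rw [XF.upd_same]
            · rw [XF.upd_ne _ hwv]
              exact h w hw (by rw [Finset.mem_insert, not_or]; exact ⟨hwv, hwT⟩)
        have h2 := hZ v hvW y h1 a
        rwa [← ha, XF.upd_self] at h2
  refine key hfin.toFinset y hy fun w hw hwT => ?_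
  by_contra hcon
  exact hwT (hfin.mem_toFinset.mpr ⟨hcon, hw⟩)

end Fermat.Agent.H7.Z
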