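import Fermat.Agent.H19W6
import Fermat.Agent.H7ZWhit

/-!
# The Whittaker function of an invariant function on `X(K)` (helper19)

* `borP K`: the Borel subgroup of `PGL₂(K)` (in the sense of H7ZWhit), `bLevel`;
* `exists_stab`: the stabiliser of a point of `X_f` in the unipotent group contains a basis of `K`;
* `exists_kappa`: existence of the Whittaker function, given an expansion theorem over lattices.
-/

set_option autoImplicit false
set_option linter.unusedSectionVars false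

noncomputable section

open Fermat.Agent (H3)
open NumberField Matrix Module IsDedekindDomain HeightOneSpectrum WithZero
open scoped MatrixGroups

namespace Fermat.Agent.H19W

open Fermat.Agent.H59D Fermat.Agent.H59XF Fermat.Agent.H7.Z

variable {K : Type*} [Field K] [NumberField K]

/-- The Borel subgroup. -/
def borP (K : Type*) [Field K] : Bor K PGL(2, K) where
  n := nP
  d := dP
  n_zero := nP_zero
  n_add := nP_add
  d_one := dP_one
  d_mul := dP_mul
  conj := dP_mul_nP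

@[simp] theorem borP_n (b : K) : (borP K).n b = nP b := rfl

@[simp] theorem borP_d (a : Kˣ) : (borP K).d a = dP a := rfl

theorem exists_val_le (w : HeightOneSpectrum (𝓞 K)) (x : K) :
    ∃ k : ℕ, w.valuation K x ≤ exp (k : ℤ) := by
  by_cases hx : x = 0
  · exact ⟨0, by rw [hx, map_zero]; exact zero_le⟩
  · have h0 : w.valuation K x ≠ 0 := (Valuation.ne_zero_iff _).mpr hx
    refine ⟨(log (w.valuation K x)).toNat, ?_⟩
    conv_lhs => rw [← exp_log h0]
    rw [exp_le_exp]
    exact Int.self_le_toNat _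

theorem le_exp_neg_one {x : WithZero (Multiplicative ℤ)} (hx : x < 1) : x ≤ exp (-(1 : ℤ)) := by
  by_cases h0 : x = 0
  · rw [h0]; exact zero_le
  · rw [← exp_log h0, ← exp_zero, exp_lt_exp] at hx
    rw [← exp_log h0, exp_le_exp]
    omega

theorem exp_neg_le_one (n : ℕ) : (exp (-(n : ℤ)) : WithZero (Multiplicative ℤ)) ≤ 1 := by
  rw [← exp_zero, exp_le_exp]; simp

theorem nP_mem_U0 {w : HeightOneSpectrum (𝓞 K)} {b : K} (hb : w.valuation K b ≤ 1) :
    nP b ∈ U0 w := by
  refine ⟨bG 1 b, ⟨fun i j => ?_, ?_⟩, rfl⟩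
  · change w.valuation K ((!![((1 : Kˣ) : K), b; 0, 1] : Matrix (Fin 2) (Fin 2) K) i j) ≤ 1
    fin_cases i <;> fin_cases j <;> simp [hb]
  · change w.valuation K (!![((1 : Kˣ) : K), b; 0, 1] : Matrix (Fin 2) (Fin 2) K).det = 1
    simp [Matrix.det_fin_two]

theorem dP_mem_U0 {w : HeightOneSpectrum (𝓞 K)} {a : Kˣ} (ha : w.valuation K (a : K) = 1) :
    dP a ∈ U0 w := by
  refine ⟨bG a 0, ⟨fun i j => ?_, ?_⟩, rfl⟩
  · change w.valuation K ((!![(a : K), 0; 0, 1] : Matrix (Fin 2) (Fin 2) K) i j) ≤ 1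
    fin_cases i <;> fin_cases j <;> simp [ha]
  · change w.valuation K (!![(a : K), 0; 0, 1] : Matrix (Fin 2) (Fin 2) K).det = 1
    simp [Matrix.det_fin_two, ha]

/-- conjugates of small unipotent elements are small -/
theorem conj_nP_mem_Gam (w : HeightOneSpectrum (𝓞 K)) (n : ℕ) (g : PGL(2, K)) :
    ∃ k : ℕ, ∀ b : K, w.valuation K b ≤ exp (-(k : ℤ)) → g⁻¹ * nP b * g ∈ Gam w n := by
  induction g using ProjGenLinGroup.induction_on with
  | mk g =>
    let E : Matrix (Fin 2) (Fin 2) K := !![0, 1; 0, 0]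
    let M : Matrix (Fin 2) (Fin 2) K := ((g⁻¹ : GL (Fin 2) K) : Matrix (Fin 2) (Fin 2) K) * E *
      (g : Matrix (Fin 2) (Fin 2) K)
    choose k hk using fun (p : Fin 2 × Fin 2) => exists_val_le w (M p.1 p.2)
    let k0 : ℕ := ∑ p, k p
    have hk0 : ∀ i j, w.valuation K (M i j) ≤ exp (k0 : ℤ) := by
      intro i j
      refine (hk (i, j)).trans ?_
      rw [exp_le_exp]
      have : k (i, j) ≤ k0 := Finset.single_le_sum (fun p _ => Nat.zero_le (k p)) (Finset.mem_univ _)
      exact_mod_cast this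
    refine ⟨n + k0, fun b hb => ?_⟩
    have hmat : ((g⁻¹ * bG 1 b * g : GL (Fin 2) K) : Matrix (Fin 2) (Fin 2) K) = 1 + b • M := by
      have h1 : ((bG 1 b : GL (Fin 2) K) : Matrix (Fin 2) (Fin 2) K) = 1 + b • E := by
        change (!![((1 : Kˣ) : K), b; 0, 1] : Matrix (Fin 2) (Fin 2) K) = _
        ext i j
        fin_cases i <;> fin_cases j <;> simp [E]
      rw [Units.val_mul, Units.val_mul, h1, mul_add, add_mul, mul_one, ← Units.val_mul,
        inv_mul_cancel, Units.val_one, Matrix.mul_smul, Matrix.smul_mul]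
    have hent : ∀ i j, w.valuation K (b * M i j) ≤ exp (-(n : ℤ)) := by
      intro i j
      rw [map_mul]
      refine (mul_le_mul' hb (hk0 i j)).trans ?_
      rw [← exp_add, exp_le_exp]
      push_cast
      linarith
    refine ⟨g⁻¹ * bG 1 b * g, ⟨⟨fun i j => ?_, ?_⟩, fun i j => ?_⟩, ?_⟩
    · rw [hmat, Matrix.add_apply, Matrix.smul_apply, smul_eq_mul]
      refine Valuation.map_add_le _ ?_ ((hent i j).trans (exp_neg_le_one n))
      rw [Matrix.one_apply]
      split_ifs <;> simp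
    · rw [Units.val_mul, Units.val_mul, Matrix.det_mul, Matrix.det_mul, mul_right_comm,
        ← Matrix.det_mul, ← Units.val_mul, inv_mul_cancel, Units.val_one, Matrix.det_one, one_mul]
      change w.valuation K (!![((1 : Kˣ) : K), b; 0, 1] : Matrix (Fin 2) (Fin 2) K).det = 1
      simp [Matrix.det_fin_two]
    · rw [hmat, Matrix.add_apply, add_sub_cancel_left, Matrix.smul_apply, smul_eq_mul]
      exact hent i j
    · rw [map_mul, map_mul, map_inv]
      rfl

theorem bLevel (L : Level (𝓞 K) K) : BLevel (borP K) L.fam where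
  small w g := by
    obtain ⟨n, hn⟩ := L.isOpen w
    obtain ⟨k, hk⟩ := conj_nP_mem_Gam w n g
    exact ⟨k, fun b hb => hn (hk b hb)⟩
  good := L.fin.subset fun w hw => by
    intro h
    apply hw
    intro b hb
    rw [Level.fam_U, h]
    exact nP_mem_U0 hb

/-- The stabiliser of a point. -/
theorem exists_stab_nat {G : Type*} [Group G] {B : Bor K G}
    {L : LevelFam G (HeightOneSpectrum (𝓞 K))} (hL : BLevel B L) (y : XF L) :
    ∃ N : ℕ, N ≠ 0 ∧ ∀ b : K,
      (∀ w : HeightOneSpectrum (𝓞 K), w.valuation K b ≤ w.valuation K (N : K)) → B.n b • y = y := by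
  classical
  choose g hg using fun v => QuotientGroup.mk_surjective (y v)
  choose k hk using fun v => hL.small v (g v)
  have hfin : ({v | y v ≠ ((1 : G) : G ⧸ L.U v)} ∪
      {v : HeightOneSpectrum (𝓞 K) | ¬ ∀ b : K, v.valuation K b ≤ 1 → B.n b ∈ L.U v}).Finite :=
    y.fin.union hL.good
  let T : Finset (HeightOneSpectrum (𝓞 K)) := hfin.toFinset
  let nm : HeightOneSpectrum (𝓞 K) → ℕ := fun v => Ideal.absNorm v.asIdeal
  have hnm0 : ∀ v, nm v ≠ 0 := fun v => by
    rw [Ne, Ideal.absNorm_eq_zero_iff]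
    exact v.ne_bot
  have hcast : ∀ (w : HeightOneSpectrum (𝓞 K)) (n : ℕ), w.valuation K (n : K) ≤ 1 := by
    intro w n
    have := w.valuation_le_one (K := K) (n : 𝓞 K)
    simpa using this
  have hnm : ∀ v : HeightOneSpectrum (𝓞 K), v.valuation K (nm v : K) ≤ exp (-(1 : ℤ)) := by
    intro v
    have h1 : v.valuation K (algebraMap (𝓞 K) K (nm v : 𝓞 K)) < 1 := by
      rw [valuation_lt_one_iff_mem]
      exact Ideal.absNorm_mem _
    rw [map_natCast] at h1
    exact le_exp_neg_one h1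
  refine ⟨∏ v ∈ T, nm v ^ k v, Finset.prod_ne_zero_iff.mpr fun v _ => pow_ne_zero _ (hnm0 v),
    fun b hb => ?_⟩
  have hN1 : ∀ w : HeightOneSpectrum (𝓞 K), w.valuation K b ≤ 1 := fun w => (hb w).trans (hcast w _)
  apply XF.ext
  intro v
  rw [XF.smul_apply]
  by_cases hv : v ∈ T
  · have h1 : v.valuation K b ≤ exp (-(k v : ℤ)) := by
      refine (hb v).trans ?_
      rw [Nat.cast_prod, map_prod, ← Finset.mul_prod_erase T _ hv]
      have h2 : ∏ x ∈ T.erase v, v.valuation K ((nm x ^ k x : ℕ) : K) ≤ 1 :=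
        Finset.prod_le_one' fun x _ => hcast v _
      have h3 : v.valuation K ((nm v ^ k v : ℕ) : K) ≤ exp (-(k v : ℤ)) := by
        rw [Nat.cast_pow, map_pow]
        refine (pow_le_pow_left' (hnm v) _).trans ?_
        rw [← WithZero.exp_nsmul]
        simp
      exact (mul_le_mul' h3 h2).trans (by rw [mul_one])
    rw [← hg v]
    change ((B.n b * g v : G) : G ⧸ L.U v) = ((g v : G) : G ⧸ L.U v)
    rw [eq_comm, QuotientGroup.eq, ← mul_assoc]
    exact hk v b h1
  · have h1 : y v = ((1 : G) : G ⧸ L.U v) := by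
      by_contra hcon
      exact hv (hfin.mem_toFinset.mpr (Or.inl hcon))
    have h2 : ∀ b : K, v.valuation K b ≤ 1 → B.n b ∈ L.U v := by
      by_contra hcon
      exact hv (hfin.mem_toFinset.mpr (Or.inr hcon))
    rw [h1]
    change ((B.n b * 1 : G) : G ⧸ L.U v) = ((1 : G) : G ⧸ L.U v)
    rw [eq_comm, QuotientGroup.eq]
    simpa using h2 b (hN1 v)

/-- The stabiliser contains a basis of `K`. -/
theorem exists_stab {G : Type*} [Group G] {B : Bor K G}
    {L : LevelFam G (HeightOneSpectrum (𝓞 K))} (hL : BLevel B L) (y : XF L) :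
    ∃ bs : Basis (Fin (Fintype.card (Module.Free.ChooseBasisIndex ℤ (𝓞 K)))) ℚ K,
      ∀ i, B.n (bs i) • y = y := by
  obtain ⟨N, hN, h⟩ := exists_stab_nat hL y
  refine ⟨((integralBasis K).isUnitSMul (w := fun _ => (N : ℚ)) fun _ => by
    rw [isUnit_iff_ne_zero]; exact_mod_cast hN).reindex (Fintype.equivFin _), fun i => h _ fun w => ?_⟩
  rw [Basis.reindex_apply, Basis.isUnitSMul_apply, Algebra.smul_def, map_natCast, map_mul, integralBasis_apply]
  exact (mul_le_mul_right (w.valuation_le_one (K := K) _) _).trans (by rw [mul_one])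

/-! ### The Whittaker function -/

variable {J : Type*} [Fintype J]

/-- An expansion theorem over lattices: for functions `F` on `J → ℍ³` satisfying `P F` and
invariant under the translations by the basis `b` of `J → ℂ`. -/
def FEThm (J : Type*) [Fintype J] (k0 : ℝ → ℝ) (P : ((J → H3) → ℂ) → Prop) : Prop :=
  ∀ (κ : Type) [Fintype κ] (b : Basis κ ℝ (J → ℂ)) (F : (J → H3) → ℂ), P F →
    (∀ i x, F (fun j => ⟨(x j).z + b i j, (x j).y, (x j).pos⟩) = F x) →
    ∃ c : (J → ℂ) → ℂ, c 0 = 0 ∧ (∀ ν, c ν ≠ 0 → ∀ i, ∃ n : ℤ, rp ν (b i) = n) ∧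
      ∀ x : J → H3, HasSum (fun ν => c ν *
        ((∏ j, ((x j).y * k0 (‖ν j‖ * (x j).y)) : ℝ) : ℂ) *
        Complex.exp (2 * Real.pi * Complex.I * (rp ν (fun j => (x j).z) : ℂ))) (F x)

variable (m : Model K J) [Nonempty J]

/-- The property "`κ` is the Whittaker function of `Φ`" on the model. -/
abbrev IsWM (k0 : ℝ → ℝ) (Φ : m.X → ℂ) (κ : XF m.L.fam → ℂ) : Prop :=
  IsW m.e (fun (a : Kˣ) (y : XF m.L.fam) => dP a • y) (fun u => u * k0 u)
    (fun x y => Φ (x, y)) κ

theorem psi_eq_ee (b : K) : psi m.e b = ee (Algebra.trace ℚ K b) := by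
  rw [psi, ee, trr_eq_trace']
  simp

omit [Nonempty J] in
theorem inv_nP {Φ : m.X → ℂ} (hG : ∀ (g : PGL(2, K)) (x : m.X), Φ (g • x) = Φ x) (b : K)
    (x : J → H3) (y : XF m.L.fam) : Φ (trans m.e b x, nP b • y) = Φ (x, y) := by
  rw [← actInf_nP]
  exact hG (nP b) (x, y)

omit [Nonempty J] in
theorem inv_dP {Φ : m.X → ℂ} (hG : ∀ (g : PGL(2, K)) (x : m.X), Φ (g • x) = Φ x) (a : Kˣ)
    (x : J → H3) (y : XF m.L.fam) : Φ (dil m.e a x, dP a • y) = Φ (x, y) := by
  rw [← actInf_dP]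
  exact hG (dP a) (x, y)

/-- **Existence.** -/
theorem exists_kappa {k0 : ℝ → ℝ} (hk0 : ∀ u, 0 < u → k0 u ≠ 0) {P : ((J → H3) → ℂ) → Prop}
    (hFE : FEThm J k0 P) (Φ : m.X → ℂ) (hG : ∀ (g : PGL(2, K)) (x : m.X), Φ (g • x) = Φ x)
    (hP : ∀ y : XF m.L.fam, P fun x => Φ (x, y)) : ∃ κ : XF m.L.fam → ℂ, IsWM m k0 Φ κ := by
  have key : ∀ y : XF m.L.fam, ∃ c : K → ℂ, Expands m.e (fun u => u * k0 u) (fun x => Φ (x, y)) c := by
    intro y
    obtain ⟨bs, hbs⟩ := exists_stab (bLevel m.L) y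
    obtain ⟨c, h0, h1, h2⟩ := hFE _ (embBasis m bs) (fun x => Φ (x, y)) (hP y) (fun i x => by
      have h3 := inv_nP m hG (bs i) x y
      have h5 : nP (bs i) • y = y := hbs i
      rw [h5] at h3
      rw [embBasis_apply]
      exact h3)
    simp only [embBasis_apply] at h1
    exact ⟨_, expands_of_fe m bs k0 c h0 h1 h2⟩
  choose c hc using key
  exact ⟨fun y => c y 1, exists_isW (fun u hu => mul_ne_zero hu.ne' (hk0 u hu))
    (inv_dP m hG) c hc⟩

variable {m} {k0 : ℝ → ℝ} {Φ Φ' : m.X → ℂ} {κ κ' : XF m.L.fam → ℂ}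

theorem omega_ne (hk0 : ∀ u, 0 < u → k0 u ≠ 0) (u : ℝ) (hu : 0 < u) : u * k0 u ≠ 0 :=
  mul_ne_zero hu.ne' (hk0 u hu)

theorem dP_one_smul (y : XF m.L.fam) : (dP (1 : Kˣ) : PGL(2, K)) • y = y := by
  rw [dP_one, one_smul]

theorem IsWM.unique (hk0 : ∀ u, 0 < u → k0 u ≠ 0) (h : IsWM m k0 Φ κ) (h' : IsWM m k0 Φ κ') :
    κ = κ' :=
  IsW.unique (omega_ne hk0) dP_one_smul h h'

/-- `κ` is a Whittaker function in the sense of H7ZWhit. -/
theorem IsWM.whit (hk0 : ∀ u, 0 < u → k0 u ≠ 0) (h : IsWM m k0 Φ κ)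
    (hG : ∀ (g : PGL(2, K)) (x : m.X), Φ (g • x) = Φ x) : Whit (borP K) m.L.fam κ where
  eqv b y := by
    have h1 := IsW.trans (omega_ne hk0) dP_one_smul h (tY := fun b y => nP b • y)
      (inv_nP m hG) b y
    rw [psi_eq_ee] at h1
    rw [ee_neg, borP_n, ← h1, mul_comm (κ _), inv_mul_cancel_left₀ (ee_ne_zero _)]

/-- Automorphisms. -/
theorem IsWM.act (h : IsWM m k0 Φ κ) (a : AutData m) :
    IsWM m k0 (fun x => Φ (a.act x)) (fun y => κ (a.twist.act y)) := by
  refine IsW.perm h a.s.symm a.c.symm (fun j α => ?_) a.twist.act (fun b y => ?_)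
  · have := a.e_s (a.c.symm j) (a.s.symm α)
    rw [a.s.apply_symm_apply, a.c.apply_symm_apply] at this
    exact this
  · rw [a.twist.act_smul]
    congr 1
    change ProjGenLinGroup.map (a.s : K →+* K) (dP b) = _
    rw [dP, ProjGenLinGroup.map_mk]
    rw [dP]
    congr 1
    apply Units.ext
    ext i j
    change (a.s : K →+* K) ((!![(b : K), 0; 0, 1] : Matrix (Fin 2) (Fin 2) K) i j) =
      (!![a.s (b : K), 0; 0, 1] : Matrix (Fin 2) (Fin 2) K) i j
    fin_cases i <;> fin_cases j <;> simp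

end Fermat.Agent.H19W
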