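import Fermat.Agent.H22ZFEe
import Fermat.Agent.H19W7

/-!
# The expansion theorem in the form `FEThm` of H19W7
-/

set_option autoImplicit false
set_option linter.unusedSectionVars false

open MeasureTheory Set Filter Topology Module Function

noncomputable section

namespace Fermat.Agent.H22Z

open H5Z Fermat.Agent.H3 Fermat.Agent.H74.C3 Fermat.Agent.H19W

variable {J : Type*} [Fintype J] [DecidableEq J] {κ : Type*} [Fintype κ]

/-- **Fourier expansion**, sum over all `ν : J → ℂ`. -/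
theorem IsEigH.exists_hasSum [Nonempty J] (b : Basis κ ℝ (J → ℂ)) {F : (J → H3) → ℂ} {M : ℝ}
    (hF : IsEigH F M) (hper : ∀ i x, F (trl (b i) x) = F x) :
    ∃ c : (J → ℂ) → ℂ, c 0 = 0 ∧ (∀ ν, c ν ≠ 0 → ∀ i, ∃ n : ℤ, prg ν (b i) = n) ∧
      (∀ ν, c ν ≠ 0 → ∀ j, ν j ≠ 0) ∧ (∀ ν, ‖c ν‖ ≤ M * ∏ j, (‖ν j‖ / K0 (4 * Real.pi))) ∧
      ∀ x : J → H3, HasSum (fun ν => c ν *
        ((∏ j, ((x j).y * K0 (4 * Real.pi * (‖ν j‖ * (x j).y))) : ℝ) : ℂ) *
        Complex.exp (2 * Real.pi * Complex.I * (prg ν (fun j => (x j).z) : ℂ))) (F x) := by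
  classical
  have hE := hF.isEig hper
  set f := fun p : J → ℂ × ℝ => F (ptv p) with hf
  have hM := bound_nonneg hE.bound
  have hK : 0 < K0 (4 * Real.pi) := K0_pos (by positivity)
  set c : (J → ℂ) → ℂ := fun ν => if IsDual b ν then wcoef b f ν else 0 with hc
  have hc1 : ∀ ν, IsDual b ν → c ν = wcoef b f ν := fun ν h => if_pos h
  have hc0 : ∀ ν, ¬ IsDual b ν → c ν = 0 := fun ν h => if_neg h
  refine ⟨c, ?_, ?_, ?_, ?_, ?_⟩
  · have h0 : IsDual b (0 : J → ℂ) := isDual_iff.mpr fun i => ⟨0, by simp⟩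
    rw [hc1 _ h0]
    exact wcoef_eq_zero hE h0 ⟨Classical.arbitrary J, rfl⟩
  · intro ν hν
    by_contra hcon
    exact hν (hc0 ν fun h => hcon (isDual_iff.mp h))
  · intro ν hν j hj
    by_cases h : IsDual b ν
    · exact hν (by rw [hc1 ν h]; exact wcoef_eq_zero hE h ⟨j, hj⟩)
    · exact hν (hc0 ν h)
  · intro ν
    by_cases h : IsDual b ν
    · rw [hc1 ν h]
      exact norm_wcoef_le hE h
    · rw [hc0 ν h, norm_zero]
      exact mul_nonneg hM (Finset.prod_nonneg fun j _ => by positivity)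
  · intro x
    have h := hF.hasSum hper x
    rw [← Subtype.val_injective.hasSum_iff (f := fun ν => c ν *
        ((∏ j, ((x j).y * K0 (4 * Real.pi * (‖ν j‖ * (x j).y))) : ℝ) : ℂ) *
        Complex.exp (2 * Real.pi * Complex.I * (prg ν (fun j => (x j).z) : ℂ)))
      (g := (Subtype.val : {ν : J → ℂ // IsDual b ν} → J → ℂ))]
    · have e : ((fun ν => c ν *
        ((∏ j, ((x j).y * K0 (4 * Real.pi * (‖ν j‖ * (x j).y))) : ℝ) : ℂ) *
        Complex.exp (2 * Real.pi * Complex.I * (prg ν (fun j => (x j).z) : ℂ))) ∘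
        (Subtype.val : {ν : J → ℂ // IsDual b ν} → J → ℂ)) =
          fun ν : {ν : J → ℂ // IsDual b ν} => wcoef b f ν *
            ((bes (ν : J → ℂ) fun j => (x j).y) : ℝ) * ev (ν : J → ℂ) (fun j => (x j).z) := by
        funext ν
        show c ν.1 * _ * _ = _
        rw [hc1 ν.1 ν.2]
        simp only [bes, ev, mul_assoc]
      rw [e]
      exact h
    · intro ν hν
      have h3 : c ν = 0 := hc0 ν fun h => hν ⟨⟨ν, h⟩, rfl⟩
      rw [h3, zero_mul, zero_mul]

/-- **The expansion theorem consumed by H19W7.** -/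
theorem feThm (J : Type*) [Fintype J] [DecidableEq J] [Nonempty J] :
    FEThm J (fun u => K0 (4 * Real.pi * u)) (fun F => ∃ M, IsEigH F M) := by
  intro κ _ b F ⟨M, hF⟩ hper
  obtain ⟨c, h0, h1, -, -, h2⟩ := hF.exists_hasSum b (fun i x => hper i x)
  exact ⟨c, h0, h1, h2⟩

theorem k0_ne {u : ℝ} (hu : 0 < u) : K0 (4 * Real.pi * u) ≠ 0 :=
  (K0_pos (by positivity)).ne'

end Fermat.Agent.H22Z
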