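import Fermat.Agent.H34T1

/-!
# Symmetry of invariant kernels with respect to cut-off integrals (helper34, S47 T2d)
-/

set_option autoImplicit false
set_option linter.unusedSectionVars false
set_option linter.unusedVariables false

open MeasureTheory
open scoped ENNReal

noncomputable section

namespace Fermat.Agent.H34T

variable {G X : Type*} [Group G] [Countable G] [MeasurableSpace X] [MulAction G X]
  [MeasurableConstSMul G X] {μ : Measure X} [SFinite μ] [SMulInvariantMeasure G X μ]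
  {E : Type*} [NormedAddCommGroup E] [NormedSpace ℝ E]

theorem measurePreserving_diag (g : G) :
    MeasurePreserving (fun p : X × X => (g • p.1, g • p.2)) (μ.prod μ) (μ.prod μ) :=
  (measurePreserving_smul g μ).prod (measurePreserving_smul g μ)

instance instMeasurableConstSMulProd : MeasurableConstSMul G (X × X) :=
  ⟨fun g => ((measurable_const_smul g).comp measurable_fst).prodMk
    ((measurable_const_smul g).comp measurable_snd)⟩

instance instSMulInvariantProd : SMulInvariantMeasure G (X × X) (μ.prod μ) :=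
  ⟨fun g _ hs => (measurePreserving_diag g).measure_preimage hs.nullMeasurableSet⟩

theorem IsCut.fst {χ : X → ℝ} (h : IsCut G χ) : IsCut G (fun p : X × X => χ p.1) :=
  ⟨h.meas.comp measurable_fst, fun p => h.nonneg _, fun p => h.hasSum p.1⟩

theorem IsCut.snd {χ : X → ℝ} (h : IsCut G χ) : IsCut G (fun p : X × X => χ p.2) :=
  ⟨h.meas.comp measurable_snd, fun p => h.nonneg _, fun p => h.hasSum p.2⟩

theorem integrable_swap {χ : X → ℝ} (h : IsCut G χ) {Φ : X × X → E}
    (hm : AEStronglyMeasurable Φ (μ.prod μ)) (hinv : ∀ (g : G) p, Φ (g • p) = Φ p)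
    (hi : Integrable (fun p => χ p.1 • Φ p) (μ.prod μ)) :
    Integrable (fun p => χ p.2 • Φ p) (μ.prod μ) :=
  (integrable_cut_iff (G := G) h.fst h.snd hm hinv).mp hi

/-- **Symmetry**: for an invariant function of two variables the cut-off may be moved from one
variable to the other. -/
theorem integral_swap {χ : X → ℝ} (h : IsCut G χ) {Φ : X × X → E}
    (hm : AEStronglyMeasurable Φ (μ.prod μ)) (hinv : ∀ (g : G) p, Φ (g • p) = Φ p)
    (hi : Integrable (fun p => χ p.1 • Φ p) (μ.prod μ)) :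
    ∫ x, χ x • ∫ y, Φ (x, y) ∂μ ∂μ = ∫ y, χ y • ∫ x, Φ (x, y) ∂μ ∂μ := by
  have h1 := integral_cut_eq (G := G) h.fst h.snd hm hinv hi
  have hi2 := integrable_swap h hm hinv hi
  calc ∫ x, χ x • ∫ y, Φ (x, y) ∂μ ∂μ = ∫ x, ∫ y, χ x • Φ (x, y) ∂μ ∂μ := by
        refine integral_congr_ae (Filter.Eventually.of_forall fun x => ?_)
        exact (integral_smul _ _).symm
    _ = ∫ p, χ p.1 • Φ p ∂(μ.prod μ) := (integral_prod _ hi).symm
    _ = ∫ p, χ p.2 • Φ p ∂(μ.prod μ) := h1
    _ = ∫ y, ∫ x, χ y • Φ (x, y) ∂μ ∂μ := integral_prod_symm _ hi2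
    _ = ∫ y, χ y • ∫ x, Φ (x, y) ∂μ ∂μ := by
        refine integral_congr_ae (Filter.Eventually.of_forall fun x => ?_)
        exact integral_smul _ _

/-- **Self-adjointness of invariant kernels** for cut-off integrals. -/
theorem kernel_adjoint {χ : X → ℝ} (h : IsCut G χ) {k : X × X → ℂ} {F Θ : X → ℂ}
    (hk : AEStronglyMeasurable k (μ.prod μ)) (hF : AEStronglyMeasurable F μ)
    (hΘ : AEStronglyMeasurable Θ μ) (hkinv : ∀ (g : G) p, k (g • p) = k p)
    (hFinv : ∀ (g : G) x, F (g • x) = F x) (hΘinv : ∀ (g : G) x, Θ (g • x) = Θ x)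
    (hi : Integrable (fun p : X × X => χ p.1 • (F p.1 * k p * Θ p.2)) (μ.prod μ)) :
    ∫ x, χ x • (F x * ∫ y, k (x, y) * Θ y ∂μ) ∂μ =
      ∫ y, χ y • ((∫ x, k (x, y) * F x ∂μ) * Θ y) ∂μ := by
  have h1 := integral_swap (G := G) h (Φ := fun p : X × X => F p.1 * k p * Θ p.2)
    ((hF.comp_fst.mul hk).mul hΘ.comp_snd) (fun g p => by
      show F (g • p.1) * k (g • p) * Θ (g • p.2) = _
      rw [hkinv, hFinv, hΘinv]) hi
  calc ∫ x, χ x • (F x * ∫ y, k (x, y) * Θ y ∂μ) ∂μ
      = ∫ x, χ x • ∫ y, F x * k (x, y) * Θ y ∂μ ∂μ := by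
        refine integral_congr_ae (Filter.Eventually.of_forall fun x => ?_)
        simp only
        rw [← integral_const_mul]
        simp only [mul_assoc]
    _ = ∫ y, χ y • ∫ x, F x * k (x, y) * Θ y ∂μ ∂μ := h1
    _ = ∫ y, χ y • ((∫ x, k (x, y) * F x ∂μ) * Θ y) ∂μ := by
        refine integral_congr_ae (Filter.Eventually.of_forall fun y => ?_)
        simp only
        rw [← integral_mul_const]
        simp only [mul_comm (F _)]

/-- If `F` is bounded, and an eigenfunction of an invariant kernel with eigenvalue `c₀` different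
from the mass `c₁` of the kernel, then the integral of `F` over the quotient is zero. -/
theorem integral_eq_zero {χ : X → ℝ} (h : IsCut G χ) (hχ : Integrable χ μ) {k : X × X → ℝ}
    (hk : AEStronglyMeasurable k (μ.prod μ)) (hk0 : ∀ p, 0 ≤ k p)
    (hkinv : ∀ (g : G) p, k (g • p) = k p) {c₀ c₁ : ℝ} (hc : c₀ ≠ c₁)
    (hki : ∀ x, Integrable (fun y => k (x, y)) μ)
    (h1 : ∀ x, ∫ y, k (x, y) ∂μ = c₁) (h1' : ∀ y, ∫ x, k (x, y) ∂μ = c₁) {F : X → ℂ}
    (hF : AEStronglyMeasurable F μ) {B : ℝ} (hB : ∀ x, ‖F x‖ ≤ B)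
    (hFinv : ∀ (g : G) x, F (g • x) = F x)
    (h0 : ∀ x, ∫ y, (k (x, y) : ℂ) * F y ∂μ = c₀ * F x) :
    ∫ x, χ x • F x ∂μ = 0 := by
  have hkC : AEStronglyMeasurable (fun p => (k p : ℂ)) (μ.prod μ) :=
    Complex.continuous_ofReal.comp_aestronglyMeasurable hk
  have hkχ : Integrable (fun p : X × X => χ p.1 * k p) (μ.prod μ) := by
    have hm2 : AEStronglyMeasurable (fun p : X × X => χ p.1 * k p) (μ.prod μ) :=
      h.meas.aestronglyMeasurable.comp_fst.mul hk
    rw [integrable_prod_iff hm2]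
    refine ⟨Filter.Eventually.of_forall fun x => (hki x).const_mul (χ x), ?_⟩
    have : (fun x => ∫ y, ‖χ (x, y).1 * k (x, y)‖ ∂μ) = fun x => χ x * c₁ := by
      funext x
      rw [← h1 x, ← integral_const_mul]
      refine integral_congr_ae (Filter.Eventually.of_forall fun y => ?_)
      simp only [norm_mul, Real.norm_of_nonneg (h.nonneg x), Real.norm_of_nonneg (hk0 _)]
    rw [this]
    exact hχ.mul_const _
  have hi : Integrable (fun p : X × X => χ p.1 • ((k p : ℂ) * F p.2)) (μ.prod μ) := by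
    refine Integrable.mono' (hkχ.mul_const B)
      (h.meas.aestronglyMeasurable.comp_fst.smul (hkC.mul hF.comp_snd))
      (Filter.Eventually.of_forall fun p => ?_)
    rw [norm_smul, norm_mul, Complex.norm_real, Real.norm_of_nonneg (h.nonneg _),
      Real.norm_of_nonneg (hk0 _), ← mul_assoc]
    exact mul_le_mul_of_nonneg_left (hB _) (mul_nonneg (h.nonneg _) (hk0 _))
  have h2 := integral_swap (G := G) h (Φ := fun p : X × X => (k p : ℂ) * F p.2)
    (hkC.mul hF.comp_snd) (fun g p => by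
      show (k (g • p) : ℂ) * F (g • p.2) = _
      rw [hkinv, hFinv]) hi
  have h3 : ∫ x, χ x • ∫ y, (k (x, y) : ℂ) * F y ∂μ ∂μ = c₀ * ∫ x, χ x • F x ∂μ := by
    rw [← integral_const_mul]
    refine integral_congr_ae (Filter.Eventually.of_forall fun x => ?_)
    simp only
    rw [h0, Complex.real_smul, Complex.real_smul]
    ring
  have h4 : ∫ y, χ y • ∫ x, (k (x, y) : ℂ) * F y ∂μ ∂μ = c₁ * ∫ x, χ x • F x ∂μ := by
    rw [← integral_const_mul]
    refine integral_congr_ae (Filter.Eventually.of_forall fun y => ?_)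
    simp only
    have h5 : ∫ x, (k (x, y) : ℂ) ∂μ = (c₁ : ℂ) := by
      rw [← h1' y]
      exact integral_ofReal
    rw [integral_mul_const, h5, Complex.real_smul, Complex.real_smul]
    ring
  rw [h3, h4] at h2
  have h5 : ((c₀ : ℂ) - c₁) * ∫ x, χ x • F x ∂μ = 0 := by rw [sub_mul, h2, sub_self]
  rcases mul_eq_zero.mp h5 with h6 | h6
  · exact absurd (by exact_mod_cast sub_eq_zero.mp h6) hc
  · exact h6

end Fermat.Agent.H34T
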