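import Fermat.Agent.H31Hyp3
import Fermat.Agent.H34T2

set_option autoImplicit false
set_option linter.unusedSectionVars false

open MeasureTheory Set
open scoped ENNReal Real

noncomputable section

namespace Fermat.Agent.H34T

open Fermat.Agent Fermat.Agent.H3

/-- polar coordinates -/
theorem lintegral_normSq (f : ℝ → ℝ≥0∞) (hf : Measurable f) :
    ∫⁻ z : ℂ, f (Complex.normSq z) =
      ENNReal.ofReal (2 * π) * ∫⁻ r in Ioi (0 : ℝ), ENNReal.ofReal r * f (r ^ 2) := by
  rw [← Complex.lintegral_comp_polarCoord_symm]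
  have h1 : ∀ p : ℝ × ℝ, ENNReal.ofReal p.1 • f (Complex.normSq (Complex.polarCoord.symm p)) =
      (fun r : ℝ => ENNReal.ofReal r * f (r ^ 2)) p.1 := by
    intro p
    rw [Complex.normSq_eq_norm_sq, Complex.norm_polarCoord_symm, sq_abs, smul_eq_mul]
  rw [lintegral_congr h1]
  have h2 : (polarCoord.target : Set (ℝ × ℝ)) = Ioi 0 ×ˢ Ioo (-π) π := rfl
  rw [h2, Measure.volume_eq_prod, ← Measure.prod_restrict]
  have hm : Measurable (fun r : ℝ => ENNReal.ofReal r * f (r ^ 2)) :=
    ENNReal.measurable_ofReal.mul (hf.comp (measurable_id.pow_const 2))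
  rw [lintegral_prod (fun p : ℝ × ℝ => (fun r : ℝ => ENNReal.ofReal r * f (r ^ 2)) p.1)
    (hm.comp measurable_fst).aemeasurable]
  simp only [lintegral_const, Measure.restrict_apply_univ, Real.volume_Ioo]
  rw [lintegral_mul_const _ hm, mul_comm]
  congr 2
  ring

theorem lintegral_horo (f : ℝ → ℝ≥0∞) (hf : Measurable f) {y : ℝ} (hy : 0 < y) :
    ∫⁻ z : ℂ, f ((Complex.normSq z + 1 + y ^ 2) / (2 * y)) =
      ENNReal.ofReal (2 * π * y) * ∫⁻ t in Ioi ((1 + y ^ 2) / (2 * y)), f t := by
  have h0 := lintegral_normSq (fun s => f ((s + 1 + y ^ 2) / (2 * y)))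
    (hf.comp (by fun_prop))
  rw [h0]
  have himg : (fun r : ℝ => (r ^ 2 + 1 + y ^ 2) / (2 * y)) '' Ioi 0 =
      Ioi ((1 + y ^ 2) / (2 * y)) := by
    ext t
    simp only [mem_image, mem_Ioi]
    constructor
    · rintro ⟨r, hr, rfl⟩
      rw [div_lt_div_iff_of_pos_right (by positivity)]
      nlinarith [pow_pos hr 2]
    · intro ht
      rw [div_lt_iff₀ (by positivity)] at ht
      refine ⟨√(t * (2 * y) - (1 + y ^ 2)), Real.sqrt_pos.mpr (by linarith), ?_⟩
      rw [Real.sq_sqrt (by linarith)]
      field_simp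
      ring
  rw [← himg]
  have hinj : InjOn (fun r : ℝ => (r ^ 2 + 1 + y ^ 2) / (2 * y)) (Ioi 0) := by
    intro r hr r' hr' h
    have h1 : r ^ 2 = r' ^ 2 := by
      have := (div_left_inj' (by positivity : (2 * y) ≠ 0)).mp h
      linarith
    exact (pow_left_inj₀ (le_of_lt hr) (le_of_lt hr') two_ne_zero).mp h1
  have hder : ∀ r ∈ Ioi (0 : ℝ), HasDerivWithinAt (fun r : ℝ => (r ^ 2 + 1 + y ^ 2) / (2 * y))
      (r / y) (Ioi 0) r := by
    intro r _
    have h := ((((hasDerivAt_id r).pow 2).add_const (1 : ℝ)).add_const (y ^ 2)).div_const (2 * y)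
    refine (h.congr_deriv ?_).hasDerivWithinAt
    simp
    field_simp
  rw [lintegral_image_eq_lintegral_abs_deriv_mul measurableSet_Ioi hder hinj,
    ENNReal.ofReal_mul (p := 2 * π) (by positivity), mul_assoc]
  congr 1
  rw [← lintegral_const_mul _ (by fun_prop)]
  refine setLIntegral_congr_fun measurableSet_Ioi fun r hr => ?_
  have hr' : (0 : ℝ) < r := hr
  rw [← mul_assoc, ← ENNReal.ofReal_mul hy.le, abs_of_pos (by positivity)]
  congr 2
  field_simp

/-- the integral over `y` -/
theorem lintegral_inner {t : ℝ} (ht : 1 < t) :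
    ∫⁻ y in Ioi (0 : ℝ), (if (1 + y ^ 2) / (2 * y) < t then ENNReal.ofReal (2 * π / y ^ 2) else 0) =
      ENNReal.ofReal (4 * π * √(t ^ 2 - 1)) := by
  set s := √(t ^ 2 - 1) with hs
  have hs0 : 0 < s := Real.sqrt_pos.mpr (by nlinarith)
  have hs2 : s ^ 2 = t ^ 2 - 1 := Real.sq_sqrt (by nlinarith)
  have hst : s < t := by nlinarith
  have hset : ∀ y ∈ Ioi (0 : ℝ), ((1 + y ^ 2) / (2 * y) < t ↔ y ∈ Ioo (t - s) (t + s)) := by
    intro y hy
    have hy' : (0 : ℝ) < y := hy
    rw [div_lt_iff₀ (by positivity), mem_Ioo]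
    constructor
    · intro h
      constructor <;> nlinarith
    · rintro ⟨h1, h2⟩
      nlinarith
  have h1 : ∫⁻ y in Ioi (0 : ℝ), (if (1 + y ^ 2) / (2 * y) < t then
      ENNReal.ofReal (2 * π / y ^ 2) else 0) =
      ∫⁻ y in Ioi (0 : ℝ), (Ioo (t - s) (t + s)).indicator
        (fun y => ENNReal.ofReal (2 * π / y ^ 2)) y := by
    refine setLIntegral_congr_fun measurableSet_Ioi fun y hy => ?_
    simp only [indicator, hset y hy]
  rw [h1, lintegral_indicator measurableSet_Ioo, Measure.restrict_restrict measurableSet_Ioo,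
    inter_eq_left.mpr (show Ioo (t - s) (t + s) ⊆ Ioi 0 from
      fun y hy => lt_trans (by linarith) hy.1)]
  have hpos : ∀ y ∈ Icc (t - s) (t + s), 0 < y := fun y hy => lt_of_lt_of_le (by linarith) hy.1
  have hcont : ContinuousOn (fun y : ℝ => 2 * π / y ^ 2) (Icc (t - s) (t + s)) :=
    continuousOn_const.div (continuousOn_pow 2) fun y hy => pow_ne_zero _ (hpos y hy).ne'
  have hint : IntegrableOn (fun y : ℝ => 2 * π / y ^ 2) (Ioo (t - s) (t + s)) :=
    (hcont.integrableOn_Icc).mono_set Ioo_subset_Icc_self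
  rw [← ofReal_integral_eq_lintegral_ofReal hint]
  · congr 1
    rw [← integral_Ioc_eq_integral_Ioo, ← intervalIntegral.integral_of_le (by linarith)]
    have hd : ∀ y ∈ uIcc (t - s) (t + s), HasDerivAt (fun y : ℝ => -(2 * π) / y)
        (2 * π / y ^ 2) y := by
      intro y hy
      rw [uIcc_of_le (by linarith)] at hy
      have hy' := (hpos y hy).ne'
      have h := (hasDerivAt_inv hy').const_mul (-(2 * π))
      refine (h.congr_deriv ?_)
      field_simp
    rw [intervalIntegral.integral_eq_sub_of_hasDerivAt hd]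
    · have ha : t - s ≠ 0 := by linarith
      have hb : t + s ≠ 0 := by linarith
      have hab : (t - s) * (t + s) = 1 := by nlinarith
      rw [div_sub_div _ _ hb ha, mul_comm (t + s) (t - s), hab]
      ring
    · refine ContinuousOn.intervalIntegrable ?_
      rwa [uIcc_of_le (by linarith)]
  · refine (ae_restrict_iff' measurableSet_Ioo).mpr (Filter.Eventually.of_forall fun y hy => ?_)
    have := hpos y (Ioo_subset_Icc_self hy)
    simp only [Pi.zero_apply]
    positivity

theorem one_le_div {y : ℝ} (hy : 0 < y) : 1 ≤ (1 + y ^ 2) / (2 * y) := by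
  rw [le_div_iff₀ (by positivity)]
  nlinarith [sq_nonneg (y - 1)]

theorem lintegral_ch_base (f : ℝ → ℝ≥0∞) (hf : Measurable f) :
    ∫⁻ v : H3, f (ch base v) =
      ∫⁻ t in Ioi (1 : ℝ), ENNReal.ofReal (4 * π * √(t ^ 2 - 1)) * f t := by
  have h1 : ∀ v : H3, f (ch base v) =
      (fun (z : ℂ) (y : ℝ) => f ((Complex.normSq z + 1 + y ^ 2) / (2 * y))) v.z v.y := by
    intro v
    simp only [ch, base, zero_sub, Complex.normSq_neg, one_pow, mul_one]
  have hm : Measurable (Function.uncurry
      fun (z : ℂ) (y : ℝ) => f ((Complex.normSq z + 1 + y ^ 2) / (2 * y))) := by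
    unfold Function.uncurry
    exact hf.comp (((Complex.continuous_normSq.measurable.comp measurable_fst).add_const 1 |>.add
      (measurable_snd.pow_const 2)).div (measurable_snd.const_mul 2))
  refine (lintegral_congr h1).trans ((H3.lintegral_eq
    (fun (z : ℂ) (y : ℝ) => f ((Complex.normSq z + 1 + y ^ 2) / (2 * y))) hm).trans ?_)
  have h2 : ∀ y ∈ Ioi (0 : ℝ), (∫⁻ z : ℂ, f ((Complex.normSq z + 1 + y ^ 2) / (2 * y))) *
      ENNReal.ofReal ((y ^ 3)⁻¹) =
      ∫⁻ t in Ioi (1 : ℝ), f t *
        (if (1 + y ^ 2) / (2 * y) < t then ENNReal.ofReal (2 * π / y ^ 2) else 0) := by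
    intro y hy
    have hy' : (0 : ℝ) < y := hy
    rw [lintegral_horo f hf hy', mul_comm, ← mul_assoc, ← ENNReal.ofReal_mul (by positivity),
      show (y ^ 3)⁻¹ * (2 * π * y) = 2 * π / y ^ 2 by field_simp, ← lintegral_const_mul _ hf]
    have h3 : ∀ t : ℝ, f t * (if (1 + y ^ 2) / (2 * y) < t then ENNReal.ofReal (2 * π / y ^ 2)
        else 0) = (Ioi ((1 + y ^ 2) / (2 * y))).indicator
          (fun t => ENNReal.ofReal (2 * π / y ^ 2) * f t) t := by
      intro t
      simp only [indicator, mem_Ioi]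
      split_ifs
      · rw [mul_comm]
      · rw [mul_zero]
    simp only [h3]
    rw [lintegral_indicator measurableSet_Ioi, Measure.restrict_restrict measurableSet_Ioi,
      inter_eq_left.mpr (Ioi_subset_Ioi (one_le_div hy'))]
  rw [setLIntegral_congr_fun measurableSet_Ioi h2, lintegral_lintegral_swap]
  · refine setLIntegral_congr_fun measurableSet_Ioi fun t ht => ?_
    have ht' : (1 : ℝ) < t := ht
    rw [lintegral_const_mul, lintegral_inner ht', mul_comm]
    refine Measurable.ite ?_ (by fun_prop) measurable_const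
    exact measurableSet_lt (by fun_prop) measurable_const
  · refine Measurable.aemeasurable ?_
    unfold Function.uncurry
    refine (hf.comp measurable_snd).mul (Measurable.ite ?_ (by fun_prop) measurable_const)
    exact measurableSet_lt (by fun_prop) measurable_snd

theorem measurable_ch (w : H3) : Measurable (fun v : H3 => ch w v) :=
  (continuous_ch.comp (continuous_const.prodMk continuous_id)).measurable

theorem lintegral_ch (w : H3) (f : ℝ → ℝ≥0∞) (hf : Measurable f) :
    ∫⁻ v : H3, f (ch w v) =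
      ∫⁻ t in Ioi (1 : ℝ), ENNReal.ofReal (4 * π * √(t ^ 2 - 1)) * f t := by
  obtain ⟨g, hg⟩ := exists_smul_eq base w
  rw [← lintegral_ch_base f hf, ← hg,
    ← (measurePreserving_smul g).lintegral_comp (f := fun v => f (ch (g • base) v))
      (hf.comp (measurable_ch _))]
  simp only [ch_smul]

/-- the weight `4 π √(t² - 1)` on `(1, ∞)` -/
def chMeasure : Measure ℝ :=
  (volume.restrict (Ioi 1)).withDensity (fun t => ENNReal.ofReal (4 * π * √(t ^ 2 - 1)))

theorem measurable_wt : Measurable (fun t : ℝ => ENNReal.ofReal (4 * π * √(t ^ 2 - 1))) := by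
  fun_prop

theorem map_ch (w : H3) : Measure.map (fun v => ch w v) (volume : Measure H3) = chMeasure := by
  refine Measure.ext_of_lintegral _ fun f hf => ?_
  rw [lintegral_map hf (measurable_ch w), lintegral_ch w f hf, chMeasure,
    lintegral_withDensity_eq_lintegral_mul _ measurable_wt hf]
  rfl

theorem measurePreserving_ch (w : H3) :
    MeasurePreserving (fun v => ch w v) (volume : Measure H3) chMeasure :=
  ⟨measurable_ch w, map_ch w⟩

variable {E : Type*} [NormedAddCommGroup E] [NormedSpace ℝ E]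

theorem integral_chMeasure (κ : ℝ → E) :
    ∫ t, κ t ∂chMeasure = ∫ t in Ioi (1 : ℝ), (4 * π * √(t ^ 2 - 1)) • κ t := by
  rw [chMeasure, integral_withDensity_eq_integral_toReal_smul measurable_wt
    (Filter.Eventually.of_forall fun y => ENNReal.ofReal_lt_top)]
  refine setIntegral_congr_fun measurableSet_Ioi fun y _ => ?_
  rw [ENNReal.toReal_ofReal (by positivity)]

/-- **Integration of radial functions.** -/
theorem integral_ch_sqrt (w : H3) {κ : ℝ → E} (hκ : StronglyMeasurable κ) :
    ∫ v : H3, κ (ch w v) = ∫ t in Ioi (1 : ℝ), (4 * π * √(t ^ 2 - 1)) • κ t := by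
  rw [← integral_chMeasure, ← map_ch w, integral_map (measurable_ch w).aemeasurable
    hκ.aestronglyMeasurable]

theorem integrable_ch_iff (w : H3) {κ : ℝ → E} (hκ : StronglyMeasurable κ) :
    Integrable (fun v : H3 => κ (ch w v)) ↔
      IntegrableOn (fun t => (4 * π * √(t ^ 2 - 1)) • κ t) (Ioi 1) := by
  have h1 : Integrable (fun v : H3 => κ (ch w v)) ↔ Integrable κ chMeasure := by
    rw [← map_ch w, integrable_map_measure hκ.aestronglyMeasurable (measurable_ch w).aemeasurable]
    rfl
  rw [h1, chMeasure, integrable_withDensity_iff_integrable_smul' measurable_wt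
    (Filter.Eventually.of_forall fun y => ENNReal.ofReal_lt_top), IntegrableOn]
  refine integrable_congr ?_
  filter_upwards with t
  rw [ENNReal.toReal_ofReal (by positivity)]

end Fermat.Agent.H34T
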