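import Fermat.Agent.H96TDef
import Fermat.Agent.H34T3

/-!
# Functions in the kernel of the trivial representation (helper34, S47 T2d)

For `F` as in the interface (I-CT) the integral of `F` over the quotient vanishes: the eigenvalue
`kap0 κ = 4 π ∫_1^∞ κ(t) arcosh t dt` differs from the mass `4 π ∫_1^∞ κ(t) √(t² - 1) dt`.
-/

set_option autoImplicit false
set_option linter.unusedSectionVars false

open MeasureTheory Set
open scoped ENNReal Real

noncomputable section

namespace Fermat.Agent.H34T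

open Fermat.Agent Fermat.Agent.H3

/-! ### Integrals over `{(u, t) | 0 < u, cosh u < t}` -/

theorem Ioi_inter_cosh {t : ℝ} (ht : 1 < t) :
    {u : ℝ | Real.cosh u < t} ∩ Ioi 0 = Ioo 0 (Real.arcosh t) := by
  ext u
  simp only [mem_inter_iff, Set.mem_ofPred_eq, mem_Ioi, mem_Ioo]
  constructor
  · rintro ⟨h1, h2⟩
    refine ⟨h2, ?_⟩
    rw [← Real.arcosh_cosh h2.le]
    exact (Real.arcosh_lt_arcosh (Real.cosh_pos u) (by linarith)).mpr h1
  · rintro ⟨h1, h2⟩
    refine ⟨?_, h1⟩
    rw [← Real.arcosh_cosh h1.le] at h2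
    exact (Real.arcosh_lt_arcosh (Real.cosh_pos u) (by linarith)).mp h2

theorem lintegral_cosh_swap {f g : ℝ → ℝ≥0∞} (hf : Measurable f) (hg : Measurable g) :
    ∫⁻ u in Ioi (0 : ℝ), g u * ∫⁻ t in Ioi (Real.cosh u), f t =
      ∫⁻ t in Ioi (1 : ℝ), f t * ∫⁻ u in Ioo 0 (Real.arcosh t), g u := by
  have h2 : ∀ u ∈ Ioi (0 : ℝ), g u * ∫⁻ t in Ioi (Real.cosh u), f t =
      ∫⁻ t in Ioi (1 : ℝ), f t * (if Real.cosh u < t then g u else 0) := by
    intro u hu
    rw [← lintegral_const_mul _ hf]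
    have h3 : ∀ t : ℝ, f t * (if Real.cosh u < t then g u else 0) =
        (Ioi (Real.cosh u)).indicator (fun t => g u * f t) t := by
      intro t
      simp only [indicator, mem_Ioi]
      split_ifs
      · rw [mul_comm]
      · rw [mul_zero]
    simp only [h3]
    rw [lintegral_indicator measurableSet_Ioi, Measure.restrict_restrict measurableSet_Ioi,
      inter_eq_left.mpr (Ioi_subset_Ioi (Real.one_le_cosh u))]
  rw [setLIntegral_congr_fun measurableSet_Ioi h2, lintegral_lintegral_swap]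
  · refine setLIntegral_congr_fun measurableSet_Ioi fun t ht => ?_
    have ht' : (1 : ℝ) < t := ht
    have hms : MeasurableSet {u : ℝ | Real.cosh u < t} :=
      measurableSet_lt (by fun_prop) measurable_const
    rw [lintegral_const_mul _ (Measurable.ite hms hg measurable_const)]
    congr 1
    have h3 : ∀ u : ℝ, (if Real.cosh u < t then g u else 0) =
        {u : ℝ | Real.cosh u < t}.indicator g u := fun u => rfl
    simp only [h3]
    rw [lintegral_indicator hms, Measure.restrict_restrict hms, Ioi_inter_cosh ht']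
  · refine Measurable.aemeasurable ?_
    unfold Function.uncurry
    refine (hf.comp measurable_snd).mul (Measurable.ite ?_ (hg.comp measurable_fst)
      measurable_const)
    exact measurableSet_lt (by fun_prop) measurable_snd

theorem lintegral_arcosh {f : ℝ → ℝ≥0∞} (hf : Measurable f) :
    ∫⁻ u in Ioi (0 : ℝ), ∫⁻ t in Ioi (Real.cosh u), f t =
      ∫⁻ t in Ioi (1 : ℝ), f t * ENNReal.ofReal (Real.arcosh t) := by
  have h := lintegral_cosh_swap hf (g := fun _ => 1) measurable_const
  simp only [one_mul, lintegral_const, MeasurableSet.univ, Measure.restrict_apply, univ_inter,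
    Real.volume_Ioo, sub_zero] at h
  exact h

theorem aestronglyMeasurable_uncurry {κ : ℝ → ℝ} (hκ : StronglyMeasurable κ) :
    AEStronglyMeasurable (Function.uncurry fun u t => if Real.cosh u < t then κ t else 0)
      ((volume.restrict (Ioi (0 : ℝ))).prod (volume.restrict (Ioi (1 : ℝ)))) := by
  refine Measurable.aestronglyMeasurable ?_
  unfold Function.uncurry
  refine Measurable.ite ?_ (hκ.measurable.comp measurable_snd) measurable_const
  exact measurableSet_lt (by fun_prop) measurable_snd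

/-- `kap0` in terms of `arcosh`. -/
theorem kap0_eq {κ : ℝ → ℝ} (hκ : StronglyMeasurable κ)
    (hi : IntegrableOn (fun t => Real.arcosh t * κ t) (Ioi 1)) :
    S47T.kap0 κ = ∫ t in Ioi (1 : ℝ), (4 * π * Real.arcosh t) * κ t := by
  have hprod : Integrable (Function.uncurry fun u t => if Real.cosh u < t then κ t else 0)
      ((volume.restrict (Ioi (0 : ℝ))).prod (volume.restrict (Ioi (1 : ℝ)))) := by
    refine ⟨aestronglyMeasurable_uncurry hκ, ?_⟩
    rw [hasFiniteIntegral_iff_enorm, lintegral_prod _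
      (aestronglyMeasurable_uncurry hκ).enorm]
    have h1 : ∀ u ∈ Ioi (0 : ℝ), ∫⁻ t in Ioi (1 : ℝ),
        ‖Function.uncurry (fun u t => if Real.cosh u < t then κ t else 0) (u, t)‖ₑ =
          ∫⁻ t in Ioi (Real.cosh u), ‖κ t‖ₑ := by
      intro u hu
      have h3 : ∀ t : ℝ,
          ‖Function.uncurry (fun u t => if Real.cosh u < t then κ t else 0) (u, t)‖ₑ =
          (Ioi (Real.cosh u)).indicator (fun t => ‖κ t‖ₑ) t := by
        intro t
        simp only [indicator, mem_Ioi, Function.uncurry]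
        split_ifs
        · rfl
        · exact enorm_zero
      simp only [h3]
      rw [lintegral_indicator measurableSet_Ioi, Measure.restrict_restrict measurableSet_Ioi,
        inter_eq_left.mpr (Ioi_subset_Ioi (Real.one_le_cosh u))]
    rw [setLIntegral_congr_fun measurableSet_Ioi h1, lintegral_arcosh hκ.measurable.enorm]
    have h2 := hi.2
    rw [hasFiniteIntegral_iff_enorm] at h2
    refine lt_of_le_of_lt (le_of_eq ?_) h2
    refine setLIntegral_congr_fun measurableSet_Ioi fun t ht => ?_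
    have ht' : (1 : ℝ) < t := ht
    rw [enorm_mul, Real.enorm_of_nonneg (Real.arcosh_nonneg ht'.le), mul_comm]
  have h1 := integral_integral_swap hprod
  have h2 : ∫ u in Ioi (0 : ℝ), ∫ t in Ioi (1 : ℝ), (if Real.cosh u < t then κ t else 0) =
      ∫ u in Ioi (0 : ℝ), ∫ t in Ioi (Real.cosh u), κ t := by
    refine setIntegral_congr_fun measurableSet_Ioi fun u hu => ?_
    have h3 : ∀ t : ℝ, (if Real.cosh u < t then κ t else 0) =
        (Ioi (Real.cosh u)).indicator κ t := fun t => rfl
    simp only [h3]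
    rw [integral_indicator measurableSet_Ioi, Measure.restrict_restrict measurableSet_Ioi,
      inter_eq_left.mpr (Ioi_subset_Ioi (Real.one_le_cosh u))]
  have h4 : ∫ t in Ioi (1 : ℝ), ∫ u in Ioi (0 : ℝ), (if Real.cosh u < t then κ t else 0) =
      ∫ t in Ioi (1 : ℝ), Real.arcosh t * κ t := by
    refine setIntegral_congr_fun measurableSet_Ioi fun t ht => ?_
    have ht' : (1 : ℝ) < t := ht
    have hms : MeasurableSet {u : ℝ | Real.cosh u < t} :=
      measurableSet_lt (by fun_prop) measurable_const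
    have h3 : ∀ u : ℝ, (if Real.cosh u < t then κ t else 0) =
        {u : ℝ | Real.cosh u < t}.indicator (fun _ => κ t) u := fun u => rfl
    simp only [h3]
    rw [integral_indicator hms, Measure.restrict_restrict hms, Ioi_inter_cosh ht',
      integral_const, smul_eq_mul]
    congr 1
    rw [measureReal_def, Measure.restrict_apply_univ, Real.volume_Ioo, sub_zero,
      ENNReal.toReal_ofReal (Real.arcosh_nonneg ht'.le)]
  rw [S47T.kap0]
  simp only [mul_assoc]
  rw [integral_const_mul, integral_const_mul, integral_const_mul, integral_const_mul, ← h2, h1, h4]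
  ring

/-! ### The comparison -/

theorem arcosh_lt_sqrt {t : ℝ} (ht : 1 < t) : Real.arcosh t < √(t ^ 2 - 1) := by
  rw [← Real.sinh_arcosh ht.le]
  exact Real.self_lt_sinh_iff.mpr (Real.arcosh_pos ht)

theorem integrableOn_of_compact {κ : ℝ → ℝ} (hκ : Continuous κ) (hs : HasCompactSupport κ)
    {φ : ℝ → ℝ} (hφ : Measurable φ) (hb : ∀ R : ℝ, ∃ C, ∀ t, 1 < t → t ≤ R → |φ t| ≤ C) :
    IntegrableOn (fun t => φ t * κ t) (Ioi 1) := by
  obtain ⟨R, hR⟩ := hs.isCompact.bddAbove
  obtain ⟨C, hC⟩ := hb R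
  have h1 : IntegrableOn (fun t => C * |κ t|) (Ioi 1) :=
    ((hκ.integrable_of_hasCompactSupport hs).abs.const_mul C).integrableOn
  refine Integrable.mono' h1 (hφ.aestronglyMeasurable.mul hκ.aestronglyMeasurable) ?_
  refine (ae_restrict_iff' measurableSet_Ioi).mpr (Filter.Eventually.of_forall fun t ht => ?_)
  rw [norm_mul, Real.norm_eq_abs, Real.norm_eq_abs]
  by_cases h0 : κ t = 0
  · rw [h0, abs_zero, mul_zero, mul_zero]
  · exact mul_le_mul_of_nonneg_right (hC t ht (hR (subset_tsupport _ h0))) (abs_nonneg _)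

theorem measurable_arcosh : Measurable Real.arcosh := by
  unfold Real.arcosh
  fun_prop

theorem integrableOn_arcosh {κ : ℝ → ℝ} (hκ : Continuous κ) (hs : HasCompactSupport κ) :
    IntegrableOn (fun t => Real.arcosh t * κ t) (Ioi 1) := by
  refine integrableOn_of_compact hκ hs measurable_arcosh fun R => ⟨√(R ^ 2 - 1), fun t ht hR => ?_⟩
  rw [abs_of_nonneg (Real.arcosh_nonneg ht.le)]
  refine (arcosh_lt_sqrt ht).le.trans (Real.sqrt_le_sqrt ?_)
  nlinarith

theorem integrableOn_sqrt {κ : ℝ → ℝ} (hκ : Continuous κ) (hs : HasCompactSupport κ) :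
    IntegrableOn (fun t => √(t ^ 2 - 1) * κ t) (Ioi 1) := by
  refine integrableOn_of_compact hκ hs (by fun_prop) fun R => ⟨√(R ^ 2 - 1), fun t ht hR => ?_⟩
  rw [abs_of_nonneg (Real.sqrt_nonneg _)]
  refine Real.sqrt_le_sqrt ?_
  nlinarith

/-- the mass of the kernel `κ` -/
def mass (κ : ℝ → ℝ) : ℝ := ∫ t in Ioi (1 : ℝ), (4 * π * √(t ^ 2 - 1)) * κ t

theorem kap0_lt_mass {κ : ℝ → ℝ} (hκ : Continuous κ) (hs : HasCompactSupport κ)
    (h0 : ∀ t, 0 ≤ κ t) {t₀ : ℝ} (ht₀ : 1 < t₀) (hpos : 0 < κ t₀) : S47T.kap0 κ < mass κ := by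
  rw [kap0_eq hκ.stronglyMeasurable (integrableOn_arcosh hκ hs), mass, ← sub_pos]
  have hi1 : IntegrableOn (fun t => (4 * π * Real.arcosh t) * κ t) (Ioi 1) := by
    have := Integrable.const_mul (integrableOn_arcosh hκ hs) (4 * π)
    simp only [← mul_assoc] at this
    exact this
  have hi2 : IntegrableOn (fun t => (4 * π * √(t ^ 2 - 1)) * κ t) (Ioi 1) := by
    have := Integrable.const_mul (integrableOn_sqrt hκ hs) (4 * π)
    simp only [← mul_assoc] at this
    exact this
  rw [← integral_sub hi2 hi1]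
  have hnn : 0 ≤ᵐ[volume.restrict (Ioi 1)]
      fun t => (4 * π * √(t ^ 2 - 1)) * κ t - (4 * π * Real.arcosh t) * κ t := by
    refine (ae_restrict_iff' measurableSet_Ioi).mpr (Filter.Eventually.of_forall fun t ht => ?_)
    have := (arcosh_lt_sqrt ht).le
    show 0 ≤ (4 * π * √(t ^ 2 - 1)) * κ t - (4 * π * Real.arcosh t) * κ t
    rw [← sub_mul, ← mul_sub]
    exact mul_nonneg (mul_nonneg (by positivity) (by linarith)) (h0 t)
  rw [integral_pos_iff_support_of_nonneg_ae hnn (hi2.sub hi1)]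
  have hopen : IsOpen ({t : ℝ | 0 < κ t} ∩ Ioi 1) :=
    (isOpen_lt continuous_const hκ).inter isOpen_Ioi
  have hne : ({t : ℝ | 0 < κ t} ∩ Ioi 1).Nonempty := ⟨t₀, hpos, ht₀⟩
  refine lt_of_lt_of_le (hopen.measure_pos volume hne) ?_
  rw [Measure.restrict_apply' measurableSet_Ioi]
  refine measure_mono fun t ht => ⟨?_, ht.2⟩
  have h1 : 0 < κ t := ht.1
  have h2 := arcosh_lt_sqrt ht.2
  rw [Function.mem_support, ← sub_mul, ← mul_sub]
  exact (mul_pos (mul_pos (by positivity) (by linarith)) h1).ne'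

/-- a smooth kernel -/
def bump : ContDiffBump (3 : ℝ) := ⟨1 / 4, 1 / 2, by norm_num, by norm_num⟩

theorem kap0_bump_lt : S47T.kap0 (bump : ℝ → ℝ) < mass bump := by
  refine kap0_lt_mass bump.continuous bump.hasCompactSupport (fun t => bump.nonneg)
    (t₀ := 3) (by norm_num) ?_
  rw [bump.one_of_mem_closedBall (by simp [bump])]
  exact one_pos

/-! ### The integral of an eigenfunction -/

section Abstract

variable {G X : Type*} [Group G] [Countable G] [MeasurableSpace X] [MulAction G X]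
  [MeasurableConstSMul G X] {μ : Measure X} [SFinite μ] [SMulInvariantMeasure G X μ]

/-- A version of `integral_eq_zero` without finiteness conditions. -/
theorem integral_eq_zero' {χ : X → ℝ} (h : IsCut G χ) {k : X × X → ℝ}
    (hk : AEStronglyMeasurable k (μ.prod μ)) (hk0 : ∀ p, 0 ≤ k p)
    (hkinv : ∀ (g : G) p, k (g • p) = k p) {c₀ c₁ : ℝ} (hc : c₀ ≠ c₁)
    (hki : ∀ y, Integrable (fun x => k (x, y)) μ)
    (h1 : ∀ y, ∫ x, k (x, y) ∂μ = c₁) {F : X → ℂ}
    (hF : AEStronglyMeasurable F μ) (hFinv : ∀ (g : G) x, F (g • x) = F x)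
    (h0 : ∀ x, ∫ y, (k (x, y) : ℂ) * F y ∂μ = c₀ * F x) :
    ∫ x, χ x • F x ∂μ = 0 := by
  by_cases hint : Integrable (fun x => χ x • F x) μ
  swap
  · exact integral_undef hint
  have hkC : AEStronglyMeasurable (fun p => (k p : ℂ)) (μ.prod μ) :=
    Complex.continuous_ofReal.comp_aestronglyMeasurable hk
  have hm : AEStronglyMeasurable (fun p : X × X => (k p : ℂ) * F p.2) (μ.prod μ) :=
    hkC.mul hF.comp_snd
  have hinv : ∀ (g : G) (p : X × X), (k (g • p) : ℂ) * F (g • p).2 = (k p : ℂ) * F p.2 := by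
    intro g p
    show (k (g • p) : ℂ) * F (g • p.2) = _
    rw [hkinv, hFinv]
  have hi2 : Integrable (fun p : X × X => χ p.2 • ((k p : ℂ) * F p.2)) (μ.prod μ) := by
    have hm2 : AEStronglyMeasurable (fun p : X × X => χ p.2 • ((k p : ℂ) * F p.2))
      (μ.prod μ) := h.meas.aestronglyMeasurable.comp_snd.smul hm
    rw [integrable_prod_iff' hm2]
    refine ⟨Filter.Eventually.of_forall fun y => ?_, ?_⟩
    · exact (((hki y).ofReal (𝕜 := ℂ)).mul_const (F y)).smul (χ y)
    · have : (fun y => ∫ x, ‖χ (x, y).2 • ((k (x, y) : ℂ) * F (x, y).2)‖ ∂μ) =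
          fun y => ‖χ y • F y‖ * c₁ := by
        funext y
        rw [← h1 y, ← integral_const_mul]
        refine integral_congr_ae (Filter.Eventually.of_forall fun x => ?_)
        simp only [norm_smul, norm_mul, Complex.norm_real, Real.norm_of_nonneg (hk0 _)]
        ring
      rw [this]
      exact hint.norm.mul_const _
  have hi : Integrable (fun p : X × X => χ p.1 • ((k p : ℂ) * F p.2)) (μ.prod μ) :=
    (integrable_cut_iff (G := G) h.snd h.fst hm hinv).mp hi2
  have h2 := integral_swap (G := G) h (Φ := fun p : X × X => (k p : ℂ) * F p.2) hm hinv hi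
  have h3 : ∫ x, χ x • ∫ y, (k (x, y) : ℂ) * F y ∂μ ∂μ = c₀ * ∫ x, χ x • F x ∂μ := by
    rw [← integral_const_mul]
    refine integral_congr_ae (Filter.Eventually.of_forall fun x => ?_)
    simp only
    rw [h0, Complex.real_smul, Complex.real_smul]
    ring
  have h4 : ∫ y, χ y • ∫ x, (k (x, y) : ℂ) * F y ∂μ ∂μ = c₁ * ∫ x, χ x • F x ∂μ := by
    rw [← integral_const_mul]
    refine integral_congr_ae (Filter.Eventually.of_forall fun y => ?_)
    simp only
    have h5 : ∫ x, (k (x, y) : ℂ) ∂μ = (c₁ : ℂ) := by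
      rw [← h1 y]
      exact integral_ofReal
    rw [integral_mul_const, h5, Complex.real_smul, Complex.real_smul]
    ring
  simp only at h2
  rw [h3, h4] at h2
  have h5 : ((c₀ : ℂ) - c₁) * ∫ x, χ x • F x ∂μ = 0 := by rw [sub_mul, h2, sub_self]
  rcases mul_eq_zero.mp h5 with h6 | h6
  · exact absurd (by exact_mod_cast sub_eq_zero.mp h6) hc
  · exact h6

end Abstract

/-! ### In terms of the interface -/

section Iface

variable {Γ : Subgroup (GL (Fin 2) ℂ)}

theorem isCut_of {χ : H3 → ℝ} (h : S47T.IsCut Γ χ) : IsCut Γ χ :=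
  ⟨h.meas, h.nonneg, h.sum⟩

theorem isCut_iff {χ : H3 → ℝ} : S47T.IsCut Γ χ ↔ IsCut Γ χ :=
  ⟨isCut_of, fun h => ⟨h.meas, h.nonneg, h.hasSum⟩⟩

theorem qint_eq_smul (χ : H3 → ℝ) (f : H3 → ℂ) : S47T.qint χ f = ∫ w, χ w • f w := by
  simp only [S47T.qint, Complex.real_smul]

theorem qint_integrable_iff [Countable Γ] {χ χ' : H3 → ℝ} (h : S47T.IsCut Γ χ)
    (h' : S47T.IsCut Γ χ') {f : H3 → ℂ} (hf : AEStronglyMeasurable f)
    (hinv : ∀ g ∈ Γ, ∀ w, f (g • w) = f w) :
    Integrable (fun w => (χ w : ℂ) * f w) ↔ Integrable (fun w => (χ' w : ℂ) * f w) := by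
  have := integrable_cut_iff (isCut_of h) (isCut_of h') hf fun g w => hinv g g.2 w
  simpa only [Complex.real_smul] using this

/-- **Independence of the cut-off** (if `χ f` is not integrable both sides are zero). -/
theorem qint_indep [Countable Γ] {χ χ' : H3 → ℝ} (h : S47T.IsCut Γ χ)
    (h' : S47T.IsCut Γ χ') {f : H3 → ℂ} (hf : AEStronglyMeasurable f)
    (hinv : ∀ g ∈ Γ, ∀ w, f (g • w) = f w) : S47T.qint χ f = S47T.qint χ' f := by
  by_cases hi : Integrable (fun w => χ w • f w)
  · rw [qint_eq_smul, qint_eq_smul]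
    exact integral_cut_eq (isCut_of h) (isCut_of h') hf (fun g w => hinv g g.2 w) hi
  · have hi' : ¬ Integrable (fun w => χ' w • f w) := fun hi' =>
      hi ((integrable_cut_iff (isCut_of h') (isCut_of h) hf fun g w => hinv g g.2 w).mp hi')
    rw [qint_eq_smul, qint_eq_smul, integral_undef hi, integral_undef hi']

theorem integral_kernel {κ : ℝ → ℝ} (hκ : Continuous κ) (w : H3) :
    ∫ v : H3, κ (ch w v) = mass κ := by
  rw [integral_ch_sqrt w hκ.stronglyMeasurable, mass]
  rfl

theorem integrable_kernel {κ : ℝ → ℝ} (hκ : Continuous κ) (hs : HasCompactSupport κ) (w : H3) :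
    Integrable (fun v : H3 => κ (ch w v)) := by
  rw [integrable_ch_iff w hκ.stronglyMeasurable]
  have := Integrable.const_mul (integrableOn_sqrt hκ hs) (4 * π)
  simp only [← mul_assoc] at this
  exact this

/-- If `F` has the eigenvalue `kap0 κ` for the kernel `bump`, then its integral over the quotient
is zero. -/
theorem qint_eq_zero_of_eig [Countable Γ] {χ : H3 → ℝ} (h : S47T.IsCut Γ χ) {F : H3 → ℂ}
    (hF : AEStronglyMeasurable F) (hinv : ∀ g ∈ Γ, ∀ w, F (g • w) = F w)
    (heig : ∀ κ : ℝ → ℝ, ContDiff ℝ ((⊤ : ℕ∞) : WithTop ℕ∞) κ → HasCompactSupport κ →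
      ∀ w, ∫ w', (κ (ch w w') : ℂ) * F w' = S47T.kap0 κ * F w) :
    S47T.qint χ F = 0 := by
  rw [qint_eq_smul]
  refine integral_eq_zero' (isCut_of h) (k := fun p => bump (ch p.1 p.2))
    (bump.continuous.comp continuous_ch).aestronglyMeasurable (fun p => bump.nonneg) ?_
    kap0_bump_lt.ne (fun y => ?_) (fun y => ?_) hF (fun g x => hinv g g.2 x)
    (fun x => heig _ bump.contDiff bump.hasCompactSupport x)
  · intro g p
    show bump (ch ((g : GL (Fin 2) ℂ) • p.1) ((g : GL (Fin 2) ℂ) • p.2)) = _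
    rw [ch_smul]
  · simpa only [ch_comm] using integrable_kernel bump.continuous bump.hasCompactSupport y
  · simpa only [ch_comm] using integral_kernel bump.continuous y

/-- **The zero Fourier coefficient of the theta lift**: `∫_{Γ \ H3} F = 0`. -/
theorem ict_qint_eq_zero {N : ℕ} {c : S47T.Eis → ℝ} {F : H3 → ℂ} (hF : S47T.ICT N c F)
    {χ : H3 → ℝ} (h : S47T.IsCut (S47T.Gam N) χ) : S47T.qint χ F = 0 :=
  qint_eq_zero_of_eig h hF.cont.aestronglyMeasurable hF.inv hF.eig

end Iface

end Fermat.Agent.H34T
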