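import Fermat.Agent.H56ZAbel2

/-!
# Characters of the algebra of radial kernels (helper56)

`khat κ s = ∫ abel κ u e^{∑ s_j u_j} du`, `R(κ) ∏ y_j^{1 + s_j} = khat κ s ∏ y_j^{1 + s_j}`,
multiplicativity, positivity at `s = 0`.
-/

set_option autoImplicit false

noncomputable section

open MeasureTheory Set
open scoped Real ENNReal Topology ContDiff

namespace Fermat.Agent.H56Z

open H5Z

variable {J : Type*} [Fintype J]

/-- The spherical transform at `s` (`s = iσ` for the tempered parameters). -/
def khat (κ : (J → ℝ) → ℂ) (s : J → ℂ) : ℂ :=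
  ∫ u : J → ℝ, abel κ u * Complex.exp (∑ j, s j * u j)

/-- `∏ y_j^{1 + s_j}` as a function of the log-heights. -/
def yexp (s : J → ℂ) (v : J → ℝ) : ℂ := Complex.exp (∑ j, (1 + s j) * v j)

theorem continuous_yexp (s : J → ℂ) : Continuous (yexp s) := by
  unfold yexp
  fun_prop

theorem yexp_zero (s : J → ℂ) : yexp s 0 = 1 := by simp [yexp]

theorem yexp_add (s : J → ℂ) (u v : J → ℝ) : yexp s (u + v) = yexp s u * yexp s v := by
  simp only [yexp, ← Complex.exp_add, ← Finset.sum_add_distrib, Pi.add_apply]
  congr 1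
  refine Finset.sum_congr rfl fun j _ => ?_
  push_cast
  ring

theorem yexp_mul (s : J → ℂ) (u : J → ℝ) :
    yexp s u * (Real.exp (-∑ j, u j) : ℂ) = Complex.exp (∑ j, s j * u j) := by
  simp only [yexp, Complex.ofReal_exp, ← Complex.exp_add]
  congr 1
  push_cast
  rw [← Finset.sum_neg_distrib, ← Finset.sum_add_distrib]
  refine Finset.sum_congr rfl fun j _ => ?_
  ring

theorem RA_yexp (κ : (J → ℝ) → ℂ) (s : J → ℂ) (v : J → ℝ) :
    RA κ (yexp s) v = khat κ s * yexp s v := by
  unfold RA khat
  rw [← integral_mul_const]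
  refine integral_congr_ae (Filter.Eventually.of_forall fun u => ?_)
  simp only
  rw [yexp_add, ← yexp_mul]
  ring

/-- **The horospherical waves are eigenfunctions.** -/
theorem Rk_yexp {κ : (J → ℝ) → ℂ} (hκ : IsRC κ) (s : J → ℂ) (w : J → H3) :
    Rk κ (fun w' => yexp s (lh w')) w = khat κ s * yexp s (lh w) := by
  rw [Rk_lh hκ (continuous_yexp s)]
  exact RA_yexp κ s (lh w)

theorem khat_conv {κ κ' : (J → ℝ) → ℂ} (hκ : IsRC κ) (hκ' : IsRC κ') (s : J → ℂ) :
    khat (conv κ κ') s = khat κ s * khat κ' s := by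
  have h1 := congrFun (RA_conv hκ hκ' (continuous_yexp s)) 0
  have h2 : RA κ' (yexp s) = fun v => khat κ' s * yexp s v := funext fun v => RA_yexp κ' s v
  rw [RA_yexp, yexp_zero, mul_one, h2] at h1
  rw [h1]
  have h3 : RA κ (fun v => khat κ' s * yexp s v) 0 = khat κ' s * RA κ (yexp s) 0 := by
    unfold RA
    rw [← integral_const_mul]
    refine integral_congr_ae (Filter.Eventually.of_forall fun u => ?_)
    simp only
    ring
  rw [h3, RA_yexp, yexp_zero, mul_one, mul_comm]

theorem integrable_khat {κ : (J → ℝ) → ℂ} (hκ : IsRC κ) (s : J → ℂ) :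
    Integrable fun u : J → ℝ => abel κ u * Complex.exp (∑ j, s j * u j) := by
  have hc : Continuous fun u : J → ℝ => abel κ u * Complex.exp (∑ j, s j * u j) :=
    (continuous_abel hκ).mul (by fun_prop)
  exact hc.integrable_of_hasCompactSupport (hasCompactSupport_abel hκ).mul_right

theorem khat_add {κ κ' : (J → ℝ) → ℂ} (hκ : IsRC κ) (hκ' : IsRC κ') (s : J → ℂ) :
    khat (κ + κ') s = khat κ s + khat κ' s := by
  unfold khat
  rw [← integral_add (integrable_khat hκ s) (integrable_khat hκ' s), abel_add hκ hκ']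
  refine integral_congr_ae (Filter.Eventually.of_forall fun u => ?_)
  simp only [Pi.add_apply]
  ring

theorem khat_const_mul (κ : (J → ℝ) → ℂ) (c : ℂ) (s : J → ℂ) :
    khat (fun u => c * κ u) s = c * khat κ s := by
  unfold khat
  rw [← integral_const_mul, abel_const_mul]
  refine integral_congr_ae (Filter.Eventually.of_forall fun u => ?_)
  simp only
  ring

/-- Evenness of the transform in every variable. -/
theorem khat_congr_neg (κ : (J → ℝ) → ℂ) (s : J → ℂ) (ε : J → ℝ) (hε : ∀ j, ε j = 1 ∨ ε j = -1) :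
    khat κ (fun j => ε j * s j) = khat κ s := by
  have hε2 : ∀ j, ε j * ε j = 1 := fun j => by rcases hε j with h | h <;> rw [h] <;> norm_num
  have hmp : MeasurePreserving (fun (u : J → ℝ) (j : J) => ε j * u j) volume volume := by
    refine volume_preserving_pi (f := fun j x => ε j * x) fun j => ?_
    rcases hε j with h | h
    · rw [h]
      simp only [one_mul]
      exact MeasurePreserving.id volume
    · rw [h]
      simp only [neg_mul, one_mul]
      exact Measure.measurePreserving_neg volume
  have hme : MeasurableEmbedding fun (u : J → ℝ) (j : J) => ε j * u j := by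
    have h2 : Function.LeftInverse (fun (u : J → ℝ) (j : J) => ε j * u j)
        (fun (u : J → ℝ) (j : J) => ε j * u j) := by
      intro u
      funext j
      simp only
      rw [← mul_assoc, hε2, one_mul]
    exact (MeasurableEquiv.mk ⟨_, _, h2, h2⟩ hmp.measurable hmp.measurable).measurableEmbedding
  unfold khat
  rw [← hmp.integral_comp hme]
  refine integral_congr_ae (Filter.Eventually.of_forall fun u => ?_)
  simp only
  have h1 : abel κ (fun j => ε j * u j) = abel κ u := abel_even κ fun j => by
    rcases hε j with h | h <;> rw [h] <;> simp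
  rw [h1]
  congr 2
  refine Finset.sum_congr rfl fun j _ => ?_
  push_cast
  have h3 : (ε j : ℂ) * ε j = 1 := by exact_mod_cast hε2 j
  linear_combination (s j * u j) * h3

/-! ### The value at the bottom -/

/-- `∏ y_j`. -/
def prodY (w : J → H3) : ℝ := ∏ j, (w j).y

theorem prodY_pos (w : J → H3) : 0 < prodY w := Finset.prod_pos fun j _ => (w j).pos

theorem continuous_prodY : Continuous (prodY : (J → H3) → ℝ) :=
  continuous_finsetProd _ fun j _ => H3.continuous_y.comp (continuous_apply j)

theorem yexp_zero_lh (w : J → H3) : yexp 0 (lh w) = (prodY w : ℂ) := by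
  simp only [yexp, Pi.zero_apply, add_zero, one_mul, prodY, lh]
  rw [Complex.exp_sum]
  push_cast
  refine Finset.prod_congr rfl fun j _ => ?_
  rw [← Complex.ofReal_exp, Real.exp_log (w j).pos]

/-- The eigenvalue at `σ = 0`. -/
def khat0 (κ : (J → ℝ) → ℂ) : ℂ := khat κ 0

theorem khat0_eq_integral_abel (κ : (J → ℝ) → ℂ) : khat0 κ = ∫ u, abel κ u := by
  simp [khat0, khat]

theorem khat0_eq {κ : (J → ℝ) → ℂ} (hκ : IsRC κ) :
    khat0 κ = ∫ w, κ (chv (baseJ J) w) * (prodY w : ℂ) := by
  have h1 := Rk_yexp hκ 0 (baseJ J)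
  rw [lh_baseJ, yexp_zero, mul_one] at h1
  rw [khat0, ← h1]
  unfold Rk
  refine integral_congr_ae (Filter.Eventually.of_forall fun w => ?_)
  simp only
  rw [yexp_zero_lh]

/-- Real kernels have a real eigenvalue, nonnegative ones a nonnegative one; it is positive if the
kernel is positive somewhere on the diagonal. -/
theorem khat0_ofReal {k : (J → ℝ) → ℝ} (hκ : IsRC fun t => (k t : ℂ)) :
    khat0 (fun t => (k t : ℂ)) = ((∫ w, k (chv (baseJ J) w) * prodY w : ℝ) : ℂ) := by
  rw [khat0_eq hκ, ← integral_complex_ofReal]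
  refine integral_congr_ae (Filter.Eventually.of_forall fun w => ?_)
  simp only
  push_cast
  ring

theorem khat0_pos {k : (J → ℝ) → ℝ} (hκ : IsRC fun t => (k t : ℂ)) (hk : ∀ t, 0 ≤ k t)
    (hk1 : 0 < k fun _ => 1) :
    0 < ∫ w, k (chv (baseJ J) w) * prodY w := by
  have hkc : Continuous k := Complex.continuous_re.comp hκ.cont
  have hc : Continuous fun w : J → H3 => k (chv (baseJ J) w) * prodY w :=
    (hkc.comp (continuous_chv_right _)).mul continuous_prodY
  have hcs : HasCompactSupport fun w : J → H3 => k (chv (baseJ J) w) * prodY w := by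
    obtain ⟨R, M, -, -, -, hR⟩ := hκ.exists_bounds
    refine HasCompactSupport.intro (isCompact_Bl R (baseJ J)) fun w hw => ?_
    have h1 := IsRC.eq_zero_of_notMem hR hw
    have h2 : k (chv (baseJ J) w) = 0 := by exact_mod_cast h1
    rw [h2, zero_mul]
  have hopen : (volume : Measure (J → H3)).IsOpenPosMeasure := by
    have hone : (volume : Measure H3).IsOpenPosMeasure := by
      refine ⟨fun U hU hne => ?_⟩
      have h1 : IsOpen ((H3.coord.symm : ℂ × ℝ → H3) ⁻¹' U) := hU.preimage H3.coord.symm.continuous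
      have h2 : ((H3.coord.symm : ℂ × ℝ → H3) ⁻¹' U).Nonempty := by
        obtain ⟨x, hx⟩ := hne
        refine ⟨H3.coord x, ?_⟩
        rw [mem_preimage, Homeomorph.symm_apply_apply]
        exact hx
      rw [← H3.measurePreserving_coord_symm.measure_preimage hU.measurableSet.nullMeasurableSet]
      exact (h1.measure_pos volume h2).ne'
    infer_instance
  refine hc.integral_pos_of_hasCompactSupport_nonneg_nonzero hcs (fun w => ?_) (x := baseJ J) ?_
  · exact mul_nonneg (hk _) (prodY_pos w).le
  · have h1 : chv (baseJ J) (baseJ J) = fun _ => 1 := funext fun j => H3.ch_self _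
    rw [h1]
    exact mul_ne_zero hk1.ne' (prodY_pos _).ne'

end Fermat.Agent.H56Z
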