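import Mathlib

/-!
# Hyperbolic 3-space (helper31)

Upper half space model `H3 = ℂ × (0, ∞)`, action of `GL (Fin 2) ℂ`, invariant measure
`dz dy / y³`, invariant function `ch w w' = cosh d(w, w')`.

* `H3.coord : H3 ≃ₜ ℂ × ℝ`, `(z, y) ↦ (z / y, log y)`: the invariant measure is Lebesgue measure in
  these coordinates;
* `H3.herm w` : the positive definite Hermitian matrix of determinant `1` attached to `w`;
  `herm (g • w) = |det g|⁻¹ g (herm w) gᴴ`.
-/

set_option autoImplicit false
set_option linter.unusedSectionVars false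

noncomputable section

open MeasureTheory Matrix
open scoped ComplexConjugate Real

namespace Fermat.Agent

/-- Hyperbolic 3-space, upper half space model. -/
@[ext] structure H3 where
  /-- the complex coordinate -/
  z : ℂ
  /-- the height -/
  y : ℝ
  pos : 0 < y

namespace H3

/-! ### Coordinates, topology, measure -/

/-- The coordinates `(z / y, log y)`. -/
def coordEquiv : H3 ≃ ℂ × ℝ where
  toFun w := (w.z / w.y, Real.log w.y)
  invFun p := ⟨Real.exp p.2 * p.1, Real.exp p.2, Real.exp_pos _⟩
  left_inv w := by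
    have h : (w.y : ℂ) ≠ 0 := by exact_mod_cast w.pos.ne'
    ext
    · simp only [Real.exp_log w.pos]
      field_simp
    · simp only [Real.exp_log w.pos]
  right_inv p := by
    have h : ((Real.exp p.2 : ℝ) : ℂ) ≠ 0 := by exact_mod_cast (Real.exp_pos p.2).ne'
    refine Prod.ext ?_ ?_
    · simp only
      field_simp
    · simp only [Real.log_exp]

instance : TopologicalSpace H3 := TopologicalSpace.induced coordEquiv inferInstance

/-- The coordinates `(z / y, log y)` as a homeomorphism. -/
def coord : H3 ≃ₜ ℂ × ℝ where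
  toEquiv := coordEquiv
  continuous_toFun := continuous_induced_dom
  continuous_invFun := by
    rw [continuous_induced_rng]
    have : (coordEquiv : H3 → ℂ × ℝ) ∘ coordEquiv.invFun = id := by
      funext p
      exact coordEquiv.apply_symm_apply p
    rw [this]
    exact continuous_id

@[simp] theorem coord_apply (w : H3) : coord w = (w.z / w.y, Real.log w.y) := rfl

@[simp] theorem coord_symm_z (p : ℂ × ℝ) : (coord.symm p).z = Real.exp p.2 * p.1 := rfl

@[simp] theorem coord_symm_y (p : ℂ × ℝ) : (coord.symm p).y = Real.exp p.2 := rfl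

theorem continuous_y : Continuous (fun w : H3 => w.y) := by
  have h : (fun w : H3 => w.y) = fun w => Real.exp (coord w).2 := by
    funext w
    simp [Real.exp_log w.pos]
  rw [h]
  exact Real.continuous_exp.comp (continuous_snd.comp coord.continuous)

theorem continuous_z : Continuous (fun w : H3 => w.z) := by
  have h : (fun w : H3 => w.z) = fun w => (Real.exp (coord w).2 : ℂ) * (coord w).1 := by
    funext w
    have h0 : (w.y : ℂ) ≠ 0 := by exact_mod_cast w.pos.ne'
    simp only [coord_apply, Real.exp_log w.pos]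
    field_simp
  rw [h]
  exact (Complex.continuous_ofReal.comp
    (Real.continuous_exp.comp (continuous_snd.comp coord.continuous))).mul
    (continuous_fst.comp coord.continuous)

/-- A map into `H3` is continuous if its two coordinates are. -/
theorem continuous_mk {X : Type*} [TopologicalSpace X] {f : X → H3}
    (hz : Continuous fun x => (f x).z) (hy : Continuous fun x => (f x).y) : Continuous f := by
  rw [← coord.comp_continuous_iff]
  refine Continuous.prodMk ?_ ?_
  · exact hz.div (Complex.continuous_ofReal.comp hy) fun x => by exact_mod_cast (f x).pos.ne'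
  · exact hy.log fun x => (f x).pos.ne'

instance : MeasurableSpace H3 := borel H3
instance : BorelSpace H3 := ⟨rfl⟩
instance : SecondCountableTopology H3 := coord.secondCountableTopology
instance : T2Space H3 := coord.symm.t2Space
instance : LocallyCompactSpace H3 := coord.isClosedEmbedding.locallyCompactSpace

theorem measurable_y : Measurable (fun w : H3 => w.y) := continuous_y.measurable
theorem measurable_z : Measurable (fun w : H3 => w.z) := continuous_z.measurable

/-- The invariant measure `dz dy / y³`. -/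
instance : MeasureSpace H3 := ⟨Measure.map coord.symm (volume : Measure (ℂ × ℝ))⟩

theorem volume_def : (volume : Measure H3) = Measure.map coord.symm volume := rfl

/-- The coordinates are measure preserving. -/
theorem measurePreserving_coord_symm :
    MeasurePreserving (coord.symm : ℂ × ℝ → H3) volume volume :=
  ⟨coord.symm.continuous.measurable, rfl⟩

theorem measurePreserving_coord : MeasurePreserving (coord : H3 → ℂ × ℝ) volume volume :=
  MeasurePreserving.symm coord.symm.toMeasurableEquiv measurePreserving_coord_symm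

instance : SigmaFinite (volume : Measure H3) :=
  coord.symm.toMeasurableEquiv.sigmaFinite_map

/-! ### Hermitian matrices -/

/-- The positive definite Hermitian matrix of determinant one attached to a point. -/
def herm (w : H3) : Matrix (Fin 2) (Fin 2) ℂ :=
  !![((Complex.normSq w.z + w.y ^ 2 : ℝ) : ℂ) / w.y, w.z / w.y; conj w.z / w.y, 1 / w.y]

theorem y_ne (w : H3) : (w.y : ℂ) ≠ 0 := by exact_mod_cast w.pos.ne'

theorem herm_injective : Function.Injective herm := by
  intro w w' h
  have h11 := congrFun (congrFun h 1) 1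
  have h01 := congrFun (congrFun h 0) 1
  simp only [herm, Matrix.of_apply, Matrix.cons_val', Matrix.cons_val_one, Matrix.cons_val_zero,
    Matrix.cons_val_fin_one] at h11 h01
  have hy : (w.y : ℂ) = w'.y := by
    have := congrArg (fun x : ℂ => x⁻¹) h11
    simpa using this
  have hy' : w.y = w'.y := by exact_mod_cast hy
  ext
  · rw [hy] at h01
    exact (div_left_inj' w'.y_ne).mp h01
  · exact hy'

theorem det_herm (w : H3) : (herm w).det = 1 := by
  rw [Matrix.det_fin_two, herm]
  simp only [Matrix.of_apply, Matrix.cons_val', Matrix.cons_val_one, Matrix.cons_val_zero,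
    Matrix.cons_val_fin_one]
  have h := w.y_ne
  have h2 : w.z * conj w.z = ((Complex.normSq w.z : ℝ) : ℂ) := Complex.mul_conj w.z
  field_simp
  rw [h2]
  push_cast
  ring

theorem conjTranspose_herm (w : H3) : (herm w)ᴴ = herm w := by
  ext i j
  fin_cases i <;> fin_cases j <;>
    simp [herm, Matrix.conjTranspose_apply]

/-- The denominator of the action. -/
def den (g : Matrix (Fin 2) (Fin 2) ℂ) (w : H3) : ℝ :=
  Complex.normSq (g 1 0 * w.z + g 1 1) + Complex.normSq (g 1 0) * w.y ^ 2

theorem den_pos {g : Matrix (Fin 2) (Fin 2) ℂ} (hg : g.det ≠ 0) (w : H3) : 0 < den g w := by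
  rw [den]
  by_cases hc : g 1 0 = 0
  · have hd : g 1 1 ≠ 0 := by
      intro hd
      apply hg
      rw [Matrix.det_fin_two, hc, hd]
      ring
    rw [hc, zero_mul, zero_add, map_zero, zero_mul, add_zero]
    exact Complex.normSq_pos.mpr hd
  · have h1 := Complex.normSq_pos.mpr hc
    have h2 := w.pos
    have h3 := Complex.normSq_nonneg (g 1 0 * w.z + g 1 1)
    positivity

/-- The action of an invertible matrix. -/
def act (g : Matrix (Fin 2) (Fin 2) ℂ) (hg : g.det ≠ 0) (w : H3) : H3 where
  z := ((g 0 0 * w.z + g 0 1) * conj (g 1 0 * w.z + g 1 1) +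
    g 0 0 * conj (g 1 0) * (w.y : ℂ) ^ 2) / den g w
  y := ‖g.det‖ * w.y / den g w
  pos := div_pos (mul_pos (norm_pos_iff.mpr hg) w.pos) (den_pos hg w)

theorem den_eq (g : Matrix (Fin 2) (Fin 2) ℂ) (w : H3) : ((den g w : ℝ) : ℂ) =
    (g 1 0 * w.z + g 1 1) * conj (g 1 0 * w.z + g 1 1) +
      g 1 0 * conj (g 1 0) * (w.y : ℂ) ^ 2 := by
  rw [den, Complex.mul_conj, Complex.mul_conj]
  push_cast
  ring

theorem herm_act (g : Matrix (Fin 2) (Fin 2) ℂ) (hg : g.det ≠ 0) (w : H3) :
    herm (act g hg w) = ((‖g.det‖ : ℝ) : ℂ)⁻¹ • (g * herm w * gᴴ) := by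
  have hD : ((den g w : ℝ) : ℂ) ≠ 0 := by exact_mod_cast (den_pos hg w).ne'
  have hn : ((‖g.det‖ : ℝ) : ℂ) ≠ 0 := by exact_mod_cast (norm_pos_iff.mpr hg).ne'
  have hy := w.y_ne
  have hz : w.z * conj w.z = ((Complex.normSq w.z : ℝ) : ℂ) := Complex.mul_conj w.z
  have e11 : (herm (act g hg w)) 1 1 = (((‖g.det‖ : ℝ) : ℂ)⁻¹ • (g * herm w * gᴴ)) 1 1 := by
    simp only [herm, act, Matrix.of_apply, Matrix.cons_val', Matrix.cons_val_one,
      Matrix.cons_val_zero, Matrix.cons_val_fin_one, Matrix.smul_apply, Matrix.mul_apply,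
      Fin.sum_univ_two, Matrix.conjTranspose_apply, smul_eq_mul, Complex.star_def]
    push_cast
    rw [← hz, den_eq]
    field_simp
    simp only [map_add, map_mul]
    ring
  have e01 : (herm (act g hg w)) 0 1 = (((‖g.det‖ : ℝ) : ℂ)⁻¹ • (g * herm w * gᴴ)) 0 1 := by
    simp only [herm, act, Matrix.of_apply, Matrix.cons_val', Matrix.cons_val_one,
      Matrix.cons_val_zero, Matrix.cons_val_fin_one, Matrix.smul_apply, Matrix.mul_apply,
      Fin.sum_univ_two, Matrix.conjTranspose_apply, smul_eq_mul, Complex.star_def]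
    push_cast
    rw [← hz]
    field_simp
    simp only [map_add, map_mul]
    ring
  have e10 : (herm (act g hg w)) 1 0 = (((‖g.det‖ : ℝ) : ℂ)⁻¹ • (g * herm w * gᴴ)) 1 0 := by
    have h1 := congrArg star e01
    have h2 : star (herm (act g hg w) 0 1) = herm (act g hg w) 1 0 :=
      congrFun (congrFun (conjTranspose_herm (act g hg w)) 1) 0
    have h3 : (g * herm w * gᴴ)ᴴ = g * herm w * gᴴ := by
      rw [Matrix.conjTranspose_mul, Matrix.conjTranspose_mul, conjTranspose_conjTranspose,
        conjTranspose_herm, Matrix.mul_assoc]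
    have h4 : star ((g * herm w * gᴴ) 0 1) = (g * herm w * gᴴ) 1 0 :=
      congrFun (congrFun h3 1) 0
    rw [← h2, h1, Matrix.smul_apply, Matrix.smul_apply, smul_eq_mul, smul_eq_mul, star_mul, h4,
      star_inv₀, Complex.star_def, Complex.conj_ofReal, mul_comm]
  have hdet : (((‖g.det‖ : ℝ) : ℂ)⁻¹ • (g * herm w * gᴴ)).det = 1 := by
    rw [Matrix.det_smul, Fintype.card_fin, Matrix.det_mul, Matrix.det_mul, det_herm,
      Matrix.det_conjTranspose, mul_one, Complex.star_def, Complex.mul_conj, Complex.normSq_eq_norm_sq]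
    push_cast
    field_simp
  have h11 : herm (act g hg w) 1 1 ≠ 0 := by
    simp only [herm, Matrix.of_apply, Matrix.cons_val', Matrix.cons_val_one, Matrix.cons_val_zero,
    Matrix.cons_val_fin_one]
    exact one_div_ne_zero (act g hg w).y_ne
  have e00 : (herm (act g hg w)) 0 0 = (((‖g.det‖ : ℝ) : ℂ)⁻¹ • (g * herm w * gᴴ)) 0 0 := by
    have h1 := det_herm (act g hg w)
    rw [← hdet, Matrix.det_fin_two, Matrix.det_fin_two, ← e11, ← e01, ← e10] at h1
    exact mul_right_cancel₀ h11 (sub_left_inj.mp h1)
  ext i j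
  fin_cases i <;> fin_cases j
  · exact e00
  · exact e01
  · exact e10
  · exact e11

instance : SMul (GL (Fin 2) ℂ) H3 := ⟨fun g w => act g g.det.ne_zero w⟩

theorem smul_def (g : GL (Fin 2) ℂ) (w : H3) : g • w = act g g.det.ne_zero w := rfl

theorem herm_smul (g : GL (Fin 2) ℂ) (w : H3) :
    herm (g • w) = ((‖(g : Matrix (Fin 2) (Fin 2) ℂ).det‖ : ℝ) : ℂ)⁻¹ •
      ((g : Matrix (Fin 2) (Fin 2) ℂ) * herm w * (g : Matrix (Fin 2) (Fin 2) ℂ)ᴴ) :=
  herm_act g g.det.ne_zero w

instance : MulAction (GL (Fin 2) ℂ) H3 where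
  one_smul w := by
    apply herm_injective
    rw [herm_smul]
    simp
  mul_smul g h w := by
    apply herm_injective
    rw [herm_smul, herm_smul, herm_smul, Units.val_mul, Matrix.det_mul, norm_mul]
    rw [Matrix.mul_smul, Matrix.smul_mul, smul_smul, Matrix.conjTranspose_mul]
    push_cast
    rw [mul_inv]
    simp only [Matrix.mul_assoc]

theorem smul_z (g : GL (Fin 2) ℂ) (w : H3) : (g • w).z =
    ((g 0 0 * w.z + g 0 1) * conj (g 1 0 * w.z + g 1 1) +
      g 0 0 * conj (g 1 0) * (w.y : ℂ) ^ 2) / den g w := rfl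

theorem smul_y (g : GL (Fin 2) ℂ) (w : H3) : (g • w).y =
    ‖(g : Matrix (Fin 2) (Fin 2) ℂ).det‖ * w.y / den g w := rfl

/-! ### The invariant function `cosh d` -/

/-- `cosh` of the hyperbolic distance. -/
def ch (w w' : H3) : ℝ :=
  (Complex.normSq (w.z - w'.z) + w.y ^ 2 + w'.y ^ 2) / (2 * w.y * w'.y)

theorem ch_eq_trace (w w' : H3) : (herm w * (herm w').adjugate).trace = ((2 * ch w w' : ℝ) : ℂ) := by
  have h1 : ((Complex.normSq (w.z - w'.z) : ℝ) : ℂ) = (w.z - w'.z) * conj (w.z - w'.z) :=
    (Complex.mul_conj _).symm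
  have h2 : w.z * conj w.z = ((Complex.normSq w.z : ℝ) : ℂ) := Complex.mul_conj w.z
  have h3 : w'.z * conj w'.z = ((Complex.normSq w'.z : ℝ) : ℂ) := Complex.mul_conj w'.z
  have h4 := w.y_ne
  have h5 := w'.y_ne
  rw [Matrix.adjugate_fin_two, Matrix.trace_fin_two, ch]
  push_cast
  rw [h1]
  simp only [herm, Matrix.mul_apply, Fin.sum_univ_two, Matrix.of_apply, Matrix.cons_val',
    Matrix.cons_val_one, Matrix.cons_val_zero, Matrix.cons_val_fin_one]
  push_cast
  rw [← h2, ← h3]
  field_simp
  simp only [map_sub]
  ring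

@[simp] theorem ch_smul (g : GL (Fin 2) ℂ) (w w' : H3) : ch (g • w) (g • w') = ch w w' := by
  have h : ((2 * ch (g • w) (g • w') : ℝ) : ℂ) = ((2 * ch w w' : ℝ) : ℂ) := by
    rw [← ch_eq_trace, ← ch_eq_trace, herm_smul, herm_smul]
    set G := (g : Matrix (Fin 2) (Fin 2) ℂ) with hG
    have hn : ((‖G.det‖ : ℝ) : ℂ) ≠ 0 := by exact_mod_cast (norm_pos_iff.mpr g.det.ne_zero).ne'
    rw [Matrix.adjugate_smul, Fintype.card_fin, Matrix.smul_mul, Matrix.mul_smul, smul_smul,
      Matrix.adjugate_mul_distrib, Matrix.adjugate_mul_distrib, Matrix.trace_smul]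
    have e1 : G * herm w * Gᴴ * ((Gᴴ).adjugate * ((herm w').adjugate * G.adjugate)) =
        (Gᴴ).det • (G * (herm w * (herm w').adjugate) * G.adjugate) := by
      calc G * herm w * Gᴴ * ((Gᴴ).adjugate * ((herm w').adjugate * G.adjugate))
          = G * herm w * (Gᴴ * (Gᴴ).adjugate) * ((herm w').adjugate * G.adjugate) := by
            simp only [Matrix.mul_assoc]
        _ = _ := by
            rw [Matrix.mul_adjugate, Matrix.mul_smul, Matrix.smul_mul, Matrix.mul_one]
            simp only [Matrix.mul_assoc]
    have e2 : (G * (herm w * (herm w').adjugate) * G.adjugate).trace =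
        G.det * (herm w * (herm w').adjugate).trace := by
      rw [Matrix.trace_mul_comm, ← Matrix.mul_assoc, Matrix.adjugate_mul, Matrix.smul_mul,
        Matrix.one_mul, Matrix.trace_smul, smul_eq_mul]
    rw [e1, Matrix.trace_smul, e2, Matrix.det_conjTranspose, smul_eq_mul, smul_eq_mul,
      Complex.star_def, ← mul_assoc (conj G.det), mul_comm (conj G.det), Complex.mul_conj,
      Complex.normSq_eq_norm_sq]
    push_cast
    field_simp
  have h' : 2 * ch (g • w) (g • w') = 2 * ch w w' := by exact_mod_cast h
  linarith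

theorem ch_comm (w w' : H3) : ch w w' = ch w' w := by
  rw [ch, ch, ← Complex.normSq_neg (w.z - w'.z), neg_sub]
  ring

theorem one_le_ch (w w' : H3) : 1 ≤ ch w w' := by
  rw [ch, le_div_iff₀ (by have := w.pos; have := w'.pos; positivity)]
  nlinarith [sq_nonneg (w.y - w'.y), Complex.normSq_nonneg (w.z - w'.z)]

theorem ch_self (w : H3) : ch w w = 1 := by
  have := w.pos
  rw [ch, sub_self, map_zero]
  field_simp
  ring

theorem ch_eq_one_iff {w w' : H3} : ch w w' = 1 ↔ w = w' := by
  constructor
  · intro h
    have h1 := w.pos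
    have h2 := w'.pos
    rw [ch, div_eq_one_iff_eq (by positivity)] at h
    have h3 := Complex.normSq_nonneg (w.z - w'.z)
    have h4 : Complex.normSq (w.z - w'.z) + (w.y - w'.y) ^ 2 = 0 := by linarith [h]
    have h5 : (w.y - w'.y) ^ 2 = 0 := by nlinarith [sq_nonneg (w.y - w'.y)]
    have h6 : Complex.normSq (w.z - w'.z) = 0 := by linarith
    ext
    · exact sub_eq_zero.mp (Complex.normSq_eq_zero.mp h6)
    · exact sub_eq_zero.mp (pow_eq_zero_iff (two_ne_zero) |>.mp h5)
  · rintro rfl
    exact ch_self w

theorem continuous_ch : Continuous (fun p : H3 × H3 => ch p.1 p.2) := by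
  have hz1 : Continuous (fun p : H3 × H3 => p.1.z) := continuous_z.comp continuous_fst
  have hz2 : Continuous (fun p : H3 × H3 => p.2.z) := continuous_z.comp continuous_snd
  have hy1 : Continuous (fun p : H3 × H3 => p.1.y) := continuous_y.comp continuous_fst
  have hy2 : Continuous (fun p : H3 × H3 => p.2.y) := continuous_y.comp continuous_snd
  unfold ch
  refine Continuous.div ?_ ?_ fun p => ?_
  · exact ((Complex.continuous_normSq.comp (hz1.sub hz2)).add (hy1.pow 2)).add (hy2.pow 2)
  · exact (continuous_const.mul hy1).mul hy2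
  · have := p.1.pos
    have := p.2.pos
    positivity

theorem continuous_smul_const (g : GL (Fin 2) ℂ) : Continuous (fun w : H3 => g • w) := by
  have hden : Continuous (fun w : H3 => den g w) := by
    unfold den
    exact (Complex.continuous_normSq.comp ((continuous_const.mul continuous_z).add
      continuous_const)).add (continuous_const.mul (continuous_y.pow 2))
  refine continuous_mk ?_ ?_
  · simp only [smul_z]
    refine Continuous.div ?_ (Complex.continuous_ofReal.comp hden)
      fun w => by exact_mod_cast (den_pos g.det.ne_zero w).ne'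
    exact (((continuous_const.mul continuous_z).add continuous_const).mul
      (Complex.continuous_conj.comp ((continuous_const.mul continuous_z).add
      continuous_const))).add (continuous_const.mul
        ((Complex.continuous_ofReal.comp continuous_y).pow 2))
  · simp only [smul_y]
    exact (continuous_const.mul continuous_y).div hden fun w => (den_pos g.det.ne_zero w).ne'

instance : ContinuousConstSMul (GL (Fin 2) ℂ) H3 := ⟨continuous_smul_const⟩

end H3

end Fermat.Agent
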