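import Fermat.Agent.H22ZK0b
import Fermat.Agent.H31Hyp1

/-!
# Archimedean terms of the dihedral form (helper53, S47 block D, part A1)

* `kt1 ν w = y K₀(4 π |ν| y) e(2 Re (ν z))`, `kterm ν w = ∏_j kt1 (ν j) (w j)`;
* `gt1 w s p q`, `gterm w s p q` : the Gaussian term of the theta kernel, `t = e^s`;
* `integral_gterm : ∫ s, gterm w s p q = kterm (p q) w`.
-/

set_option autoImplicit false

open MeasureTheory Set Filter Topology
open scoped ComplexConjugate Real

noncomputable section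

namespace Fermat.Agent.H53Z

open Fermat.Agent Fermat.Agent.H22Z

/-! ### The Bessel function in logarithmic coordinates -/

theorem integral_comp_two_mul' {E : Type*} [NormedAddCommGroup E] [NormedSpace ℝ E] (f : ℝ → E) :
    ∫ s : ℝ, f (2 * s) = (2 : ℝ)⁻¹ • ∫ s : ℝ, f s := by
  rw [Measure.integral_comp_mul_left]
  norm_num

theorem exp_two_mul_form (a b s : ℝ) : Real.exp (-(a * Real.exp (2 * s) + b * Real.exp (-2 * s))) =
    (fun t => Real.exp (-a * Real.exp t - b / Real.exp t)) (2 * s) := by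
  have : Real.exp (-2 * s) = (Real.exp (2 * s))⁻¹ := by
    rw [← Real.exp_neg]; congr 1; ring
  simp only
  rw [this]
  congr 1
  rw [div_eq_mul_inv]
  ring

/-- `∫ exp (-(a e^{2s} + b e^{-2s})) ds = K₀ (2 √(a b))` -/
theorem integral_exp_two {a b : ℝ} (ha : 0 < a) (hb : 0 < b) :
    ∫ s : ℝ, Real.exp (-(a * Real.exp (2 * s) + b * Real.exp (-2 * s))) = K0 (2 * √(a * b)) := by
  simp only [exp_two_mul_form]
  rw [integral_comp_two_mul' (fun t => Real.exp (-a * Real.exp t - b / Real.exp t))]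
  have h1 := integral_Ioi_inv_smul fun u => Real.exp (-a * u - b / u)
  simp only [smul_eq_mul] at h1
  rw [← h1, integral_exp_add_inv ha hb]
  simp

theorem integrable_exp_two {a b : ℝ} (ha : 0 < a) (hb : 0 < b) :
    Integrable fun s : ℝ => Real.exp (-(a * Real.exp (2 * s) + b * Real.exp (-2 * s))) := by
  by_contra hcon
  have h := integral_exp_two ha hb
  rw [integral_undef hcon] at h
  have : 0 < K0 (2 * √(a * b)) := K0_pos (by positivity)
  linarith

/-- `K₀ x ≤ (2 / x) e^{-x/2}` -/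
theorem K0_le_exp {x : ℝ} (hx : 0 < x) : K0 x ≤ 2 / x * Real.exp (-(x / 2)) := by
  have hi : IntegrableOn (fun t : ℝ => Real.exp (-(x / 2)) * Real.exp (-(x / 2) * t)) (Ioi 0) :=
    (exp_neg_integrableOn_Ioi 0 (half_pos hx)).const_mul _
  have h := setIntegral_mono_on (integrableOn_exp_cosh hx 0) hi measurableSet_Ioi
    (fun t _ => by
      rw [← Real.exp_add]
      apply Real.exp_le_exp.2
      have h1 : 1 / 2 + t / 2 ≤ Real.cosh t := by
        rw [Real.cosh_eq]
        have h2 := Real.add_one_le_exp t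
        have h3 := Real.exp_pos (-t)
        linarith
      nlinarith)
  rw [K0]
  refine h.trans (le_of_eq ?_)
  rw [integral_const_mul, integral_exp_mul_Ioi (by linarith) 0]
  simp only [mul_zero, Real.exp_zero]
  field_simp

/-! ### One place -/

/-- the Whittaker term at one complex place -/
def kt1 (ν : ℂ) (w : H3) : ℂ :=
  ((w.y * K0 (4 * π * ‖ν‖ * w.y) : ℝ) : ℂ) *
    Complex.exp (2 * π * Complex.I * ((2 * (ν * w.z).re : ℝ) : ℂ))

/-- the Gaussian term at one complex place -/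
def gt1 (w : H3) (s : ℝ) (p q : ℂ) : ℂ :=
  ((w.y * Real.exp (-(2 * π * w.y * (‖p‖ ^ 2 * Real.exp (2 * s) + ‖q‖ ^ 2 * Real.exp (-2 * s)))) : ℝ)
    : ℂ) * Complex.exp (2 * π * Complex.I * ((2 * (p * q * w.z).re : ℝ) : ℂ))

theorem norm_exp_real (r : ℝ) : ‖Complex.exp (2 * π * Complex.I * (r : ℂ))‖ = 1 := by
  have : 2 * π * Complex.I * (r : ℂ) = ((2 * π * r : ℝ) : ℂ) * Complex.I := by
    push_cast; ring
  rw [this, Complex.norm_exp_ofReal_mul_I]

theorem norm_gt1 (w : H3) (s : ℝ) (p q : ℂ) : ‖gt1 w s p q‖ =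
    w.y * Real.exp (-(2 * π * w.y * (‖p‖ ^ 2 * Real.exp (2 * s) + ‖q‖ ^ 2 * Real.exp (-2 * s)))) := by
  rw [gt1, norm_mul, norm_exp_real, mul_one, Complex.norm_real, Real.norm_eq_abs, abs_of_pos]
  have := w.pos
  positivity

theorem norm_kt1 {ν : ℂ} (hν : ν ≠ 0) (w : H3) : ‖kt1 ν w‖ = w.y * K0 (4 * π * ‖ν‖ * w.y) := by
  have hp := w.pos
  have : 0 < K0 (4 * π * ‖ν‖ * w.y) := K0_pos (by have := norm_pos_iff.mpr hν; positivity)
  rw [kt1, norm_mul, norm_exp_real, mul_one, Complex.norm_real, Real.norm_eq_abs, abs_of_pos]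
  positivity

/-- `|y K₀(4π|ν|y)| ≤ (2π|ν|)⁻¹ exp(-2π|ν|y)` -/
theorem norm_kt1_le {ν : ℂ} (hν : ν ≠ 0) (w : H3) :
    ‖kt1 ν w‖ ≤ (2 * π * ‖ν‖)⁻¹ * Real.exp (-(2 * π * ‖ν‖ * w.y)) := by
  have hp := w.pos
  have hn := norm_pos_iff.mpr hν
  have hpi := Real.pi_pos
  rw [norm_kt1 hν]
  have h := K0_le_exp (x := 4 * π * ‖ν‖ * w.y) (by positivity)
  refine (mul_le_mul_of_nonneg_left h hp.le).trans (le_of_eq ?_)
  have e : 4 * π * ‖ν‖ * w.y / 2 = 2 * π * ‖ν‖ * w.y := by ring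
  rw [e]
  field_simp
  ring

theorem gt1_eq (w : H3) (s : ℝ) (p q : ℂ) : gt1 w s p q =
    (w.y : ℂ) * Complex.exp (2 * π * Complex.I * ((2 * (p * q * w.z).re : ℝ) : ℂ)) *
    ((Real.exp (-(2 * π * w.y * ‖p‖ ^ 2 * Real.exp (2 * s) +
      2 * π * w.y * ‖q‖ ^ 2 * Real.exp (-2 * s))) : ℝ) : ℂ) := by
  rw [gt1]
  have : 2 * π * w.y * (‖p‖ ^ 2 * Real.exp (2 * s) + ‖q‖ ^ 2 * Real.exp (-2 * s)) =
    2 * π * w.y * ‖p‖ ^ 2 * Real.exp (2 * s) + 2 * π * w.y * ‖q‖ ^ 2 * Real.exp (-2 * s) := by ring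
  rw [this, Complex.ofReal_mul]
  ring

theorem integrable_gt1 (w : H3) {p q : ℂ} (hp : p ≠ 0) (hq : q ≠ 0) :
    Integrable fun s : ℝ => gt1 w s p q := by
  have h1 := norm_pos_iff.mpr hp
  have h2 := norm_pos_iff.mpr hq
  have h3 := w.pos
  simp only [gt1_eq]
  exact ((integrable_exp_two (a := 2 * π * w.y * ‖p‖ ^ 2) (b := 2 * π * w.y * ‖q‖ ^ 2)
    (by positivity) (by positivity)).ofReal).const_mul _

theorem integral_gt1 (w : H3) {p q : ℂ} (hp : p ≠ 0) (hq : q ≠ 0) :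
    ∫ s : ℝ, gt1 w s p q = kt1 (p * q) w := by
  have h1 := norm_pos_iff.mpr hp
  have h2 := norm_pos_iff.mpr hq
  have h3 := w.pos
  simp only [gt1_eq]
  rw [integral_const_mul, integral_complex_ofReal, integral_exp_two (by positivity) (by positivity), kt1]
  have e : 2 * √(2 * π * w.y * ‖p‖ ^ 2 * (2 * π * w.y * ‖q‖ ^ 2)) = 4 * π * ‖p * q‖ * w.y := by
    rw [norm_mul, show 2 * π * w.y * ‖p‖ ^ 2 * (2 * π * w.y * ‖q‖ ^ 2) =
      (2 * π * w.y * ‖p‖ * ‖q‖) ^ 2 by ring, Real.sqrt_sq (by positivity)]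
    ring
  rw [e]
  push_cast
  ring

theorem continuous_gt1 (p q : ℂ) : Continuous fun a : H3 × ℝ => gt1 a.1 a.2 p q := by
  unfold gt1
  have hz : Continuous fun a : H3 × ℝ => a.1.z := H3.continuous_z.comp continuous_fst
  have hy : Continuous fun a : H3 × ℝ => a.1.y := H3.continuous_y.comp continuous_fst
  have hs : Continuous fun a : H3 × ℝ => a.2 := continuous_snd
  refine Continuous.mul ?_ ?_
  · refine Complex.continuous_ofReal.comp ?_
    fun_prop
  · refine Complex.continuous_exp.comp ?_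
    refine continuous_const.mul (Complex.continuous_ofReal.comp ?_)
    refine continuous_const.mul (Complex.continuous_re.comp ?_)
    exact continuous_const.mul hz

theorem continuous_kt1 {ν : ℂ} (hν : ν ≠ 0) : Continuous fun w : H3 => kt1 ν w := by
  unfold kt1
  have hn := norm_pos_iff.mpr hν
  refine Continuous.mul (Complex.continuous_ofReal.comp ?_) ?_
  · refine H3.continuous_y.mul ?_
    refine continuousOn_K0.comp_continuous (continuous_const.mul H3.continuous_y) fun w => ?_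
    have := w.pos
    have := Real.pi_pos
    exact mem_Ioi.mpr (by positivity)
  · refine Complex.continuous_exp.comp ?_
    refine continuous_const.mul (Complex.continuous_ofReal.comp ?_)
    refine continuous_const.mul (Complex.continuous_re.comp ?_)
    exact continuous_const.mul H3.continuous_z

/-! ### Products -/

variable {J : Type*} [Fintype J]

/-- the Whittaker term `∏_j y_j K₀(4π|ν_j|y_j) e(2 Re(ν_j z_j))` -/
def kterm (ν : J → ℂ) (w : J → H3) : ℂ := ∏ j, kt1 (ν j) (w j)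

/-- the Gaussian term of the theta kernel, in logarithmic coordinates `t_j = e^{s_j}` -/
def gterm (w : J → H3) (s : J → ℝ) (p q : J → ℂ) : ℂ := ∏ j, gt1 (w j) (s j) (p j) (q j)

theorem kterm_eq (ν : J → ℂ) (w : J → H3) : kterm ν w =
    (∏ j, (((w j).y * K0 (4 * π * ‖ν j‖ * (w j).y) : ℝ) : ℂ)) *
      Complex.exp (2 * π * Complex.I * ((∑ j, 2 * (ν j * (w j).z).re : ℝ) : ℂ)) := by
  rw [kterm]
  simp only [kt1]
  rw [Finset.prod_mul_distrib, ← Complex.exp_sum]
  congr 2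
  rw [← Finset.mul_sum]
  push_cast
  rfl

theorem integrable_gterm (w : J → H3) {p q : J → ℂ} (hp : ∀ j, p j ≠ 0) (hq : ∀ j, q j ≠ 0) :
    Integrable fun s : J → ℝ => gterm w s p q :=
  Integrable.fintype_prod (μ := fun _ => volume)
    (f := fun j s => gt1 (w j) s (p j) (q j)) fun j => integrable_gt1 (w j) (hp j) (hq j)

theorem integral_gterm (w : J → H3) {p q : J → ℂ} (hp : ∀ j, p j ≠ 0) (hq : ∀ j, q j ≠ 0) :
    ∫ s : J → ℝ, gterm w s p q = kterm (fun j => p j * q j) w := by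
  have h := integral_fintype_prod_volume_eq_prod (𝕜 := ℂ)
    (f := fun (j : J) (s : ℝ) => gt1 (w j) s (p j) (q j))
  simp only [gterm, kterm]
  rw [h]
  exact Finset.prod_congr rfl fun j _ => integral_gt1 (w j) (hp j) (hq j)

theorem norm_gterm (w : J → H3) (s : J → ℝ) (p q : J → ℂ) : ‖gterm w s p q‖ =
    (∏ j, (w j).y) * Real.exp (-(∑ j, 2 * π * (w j).y *
      (‖p j‖ ^ 2 * Real.exp (2 * s j) + ‖q j‖ ^ 2 * Real.exp (-2 * s j)))) := by
  rw [gterm, norm_prod]
  simp only [norm_gt1]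
  rw [Finset.prod_mul_distrib, ← Real.exp_sum, Finset.sum_neg_distrib]

/-- the Gaussian majorant -/
theorem norm_gterm_le {w : J → H3} {s : J → ℝ} {c S : ℝ} (hw : ∀ j, c ≤ (w j).y)
    (hs : ∀ j, |s j| ≤ S) (p q : J → ℂ) : ‖gterm w s p q‖ ≤ (∏ j, (w j).y) *
      Real.exp (-((2 * π * c * Real.exp (-2 * S)) * ∑ j, (‖p j‖ ^ 2 + ‖q j‖ ^ 2))) := by
  rw [norm_gterm]
  refine mul_le_mul_of_nonneg_left ?_ (Finset.prod_nonneg fun j _ => (w j).pos.le)
  apply Real.exp_le_exp.2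
  rw [neg_le_neg_iff, Finset.mul_sum]
  refine Finset.sum_le_sum fun j _ => ?_
  have h1 : Real.exp (-2 * S) ≤ Real.exp (2 * s j) := by
    apply Real.exp_le_exp.2
    have := (abs_le.mp (hs j)).1
    linarith
  have h2 : Real.exp (-2 * S) ≤ Real.exp (-2 * s j) := by
    apply Real.exp_le_exp.2
    have := (abs_le.mp (hs j)).2
    linarith
  have h3 := hw j
  have h4 := Real.pi_pos
  have h5 := Real.exp_pos (-2 * S)
  have h6 : 0 ≤ 2 * π * (w j).y := by have := (w j).pos; positivity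
  calc 2 * π * c * Real.exp (-2 * S) * (‖p j‖ ^ 2 + ‖q j‖ ^ 2)
      = 2 * π * c * (‖p j‖ ^ 2 * Real.exp (-2 * S) + ‖q j‖ ^ 2 * Real.exp (-2 * S)) := by ring
    _ ≤ 2 * π * (w j).y * (‖p j‖ ^ 2 * Real.exp (2 * s j) + ‖q j‖ ^ 2 * Real.exp (-2 * s j)) := by
        gcongr

/-- the exponential bound of the Whittaker term -/
theorem norm_kterm_le {ν : J → ℂ} (hν : ∀ j, ν j ≠ 0) (w : J → H3) :
    ‖kterm ν w‖ ≤ (∏ j, (2 * π * ‖ν j‖)⁻¹) * Real.exp (-(2 * π * ∑ j, ‖ν j‖ * (w j).y)) := by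
  rw [kterm, norm_prod]
  refine (Finset.prod_le_prod (fun j _ => norm_nonneg _)
    (fun j _ => norm_kt1_le (hν j) (w j))).trans (le_of_eq ?_)
  rw [Finset.prod_mul_distrib, ← Real.exp_sum]
  congr 2
  rw [Finset.mul_sum, Finset.sum_neg_distrib]
  congr 1
  exact Finset.sum_congr rfl fun j _ => by ring

theorem continuous_gterm (p q : J → ℂ) :
    Continuous fun a : (J → H3) × (J → ℝ) => gterm a.1 a.2 p q := by
  unfold gterm
  refine continuous_finsetProd _ fun j _ => ?_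
  have h : Continuous fun a : (J → H3) × (J → ℝ) => ((a.1 j, a.2 j) : H3 × ℝ) :=
    ((continuous_apply j).comp continuous_fst).prodMk ((continuous_apply j).comp continuous_snd)
  exact (continuous_gt1 (p j) (q j)).comp h

theorem continuous_kterm {ν : J → ℂ} (hν : ∀ j, ν j ≠ 0) : Continuous fun w => kterm ν w := by
  unfold kterm
  exact continuous_finsetProd _ fun j _ => (continuous_kt1 (hν j)).comp (continuous_apply j)

end Fermat.Agent.H53Z
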