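import Fermat.Agent.H75Y3

/-!
# The forward mean value theorem on `H3`, final form (helper75, package C3)

* `hatK κ = ∫ w', κ (ch base w') * w'.y`
* `forward` : `κ : ℝ → ℂ` continuous, zero on `[R, ∞)`, `F` of class `C²`, `Lap F = -F`:
  `∫ w', κ (ch w w') * F w' = hatK κ * F w`
* `hatK_eq` : `hatK κ = ∫ u, 2π ∫_{t > cosh u} κ t`
* `hatK_eq_arcosh` : `hatK κ = 4π ∫_{t > 1} κ t * arcosh t`.
-/

set_option autoImplicit false

noncomputable section

open MeasureTheory Filter Topology Set
open scoped ContDiff Real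

namespace Fermat.Agent.H75Y

open Fermat.Agent Fermat.Agent.H3 Fermat.Agent.H74.C3

/-- The value of the spherical transform at the trivial parameter. -/
def hatK (κ : ℝ → ℂ) : ℂ := ∫ w' : H3, κ (ch base w') * (w'.y : ℂ)

theorem toPt_smul_y (w w' : H3) : (toPt w • w').y = w.y * w'.y := by
  rw [toPt, mul_smul, nMat_smul, dMat_smul]
  show ‖(w.y : ℂ)‖ * w'.y = w.y * w'.y
  rw [Complex.norm_real, Real.norm_of_nonneg w.pos.le]

theorem measurableEmbedding_smul (g : GL (Fin 2) ℂ) :
    MeasurableEmbedding (fun w : H3 => g • w) :=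
  (Homeomorph.smul g).measurableEmbedding

theorem integral_ker_y (κ : ℝ → ℂ) (w : H3) :
    ∫ w', κ (ch w w') * (w'.y : ℂ) = w.y * hatK κ := by
  have h := (measurePreserving_smul (toPt w)).integral_comp
    (measurableEmbedding_smul (toPt w)) (fun w' => κ (ch w w') * (w'.y : ℂ))
  rw [← h, hatK, ← integral_const_mul]
  refine integral_congr_ae (Filter.Eventually.of_forall fun w' => ?_)
  have h1 : ch w (toPt w • w') = ch base w' := by
    have := ch_smul (toPt w) base w'
    rwa [toPt_smul] at this
  simp only [toPt_smul_y, h1]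
  push_cast
  ring

/-! ### Approximation of continuous kernels -/

theorem exists_approx {κ : ℝ → ℝ} {R : ℝ} (hκ : Continuous κ)
    (hR : ∀ t, R ≤ t → κ t = 0) {ε : ℝ} (hε : 0 < ε) : ∃ κ' : ℝ → ℝ, ContDiff ℝ ∞ κ' ∧
      (∀ t, R + 1 ≤ t → κ' t = 0) ∧ ∀ t, 1 ≤ t → |κ' t - κ t| ≤ ε := by
  obtain ⟨p, hp⟩ := exists_polynomial_near_of_continuousOn 1 (R + 1) κ hκ.continuousOn ε hε
  refine ⟨fun t => p.eval t * Real.smoothTransition (R + 1 - t), ?_, ?_, ?_⟩
  · exact (Polynomial.contDiff_aeval (𝕜 := ℝ) p ∞).mul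
      (Real.smoothTransition.contDiff.comp (contDiff_const.sub contDiff_id))
  · intro t ht
    simp only [Real.smoothTransition.zero_of_nonpos (show R + 1 - t ≤ 0 by linarith), mul_zero]
  · intro t ht
    simp only []
    rcases le_or_gt t R with h1 | h1
    · rw [Real.smoothTransition.one_of_one_le (by linarith), mul_one]
      exact (hp t ⟨ht, by linarith⟩).le
    · rcases le_or_gt t (R + 1) with h2 | h2
      · have h3 := hp t ⟨ht, h2⟩
        rw [hR t h1.le, sub_zero] at h3
        rw [hR t h1.le, sub_zero, abs_mul,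
          abs_of_nonneg (Real.smoothTransition.nonneg (R + 1 - t))]
        calc |p.eval t| * Real.smoothTransition (R + 1 - t) ≤ |p.eval t| * 1 := by
              gcongr
              exact Real.smoothTransition.le_one _
          _ ≤ ε := by rw [mul_one]; exact h3.le
      · rw [Real.smoothTransition.zero_of_nonpos (by linarith), mul_zero, hR t (by linarith),
          sub_zero, abs_zero]
        exact hε.le

section forward

variable {F : H3 → ℂ}

theorem forward_real {κ : ℝ → ℝ} {R : ℝ} (hκ : Continuous κ) (hR : ∀ t, R ≤ t → κ t = 0)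
    (hF : CC 2 F) (hL : ∀ w, Lap F w = -F w) (w : H3) :
    ∫ w', (κ (ch w w') : ℂ) * (F w' * w.y - Y w' * F w) = 0 := by
  set Ψ : H3 → ℂ := fun w' => F w' * w.y - Y w' * F w with hΨ
  have hFc := continuous_of_CC hF
  have hYc : Continuous Y := continuous_of_CC (n := 0) CC_Y
  have hΨc : Continuous Ψ := (hFc.mul continuous_const).sub (hYc.mul continuous_const)
  set R' := max R 2 with hR'
  have hR'2 : 2 ≤ R' := le_max_right _ _
  have hRR : ∀ t, R' ≤ t → κ t = 0 := fun t ht => hR t ((le_max_left _ _).trans ht)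
  set M := ∫ w', Real.smoothTransition (R' + 2 - ch w w') * ‖Ψ w'‖ with hM
  have hMi : Integrable fun w' => Real.smoothTransition (R' + 2 - ch w w') * ‖Ψ w'‖ := by
    refine integrable_of_ch (R := R' + 2) ?_ w fun w' h => ?_
    · exact (Real.smoothTransition.continuous.comp
        (continuous_const.sub (continuous_ch_right w))).mul hΨc.norm
    · rw [Real.smoothTransition.zero_of_nonpos (by linarith), zero_mul]
  have hint : ∀ {κ : ℝ → ℝ} (_ : Continuous κ) {R : ℝ} (_ : ∀ t, R ≤ t → κ t = 0) {G : H3 → ℂ}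
      (_ : Continuous G), Integrable fun w' => (κ (ch w w') : ℂ) * G w' := by
    intro κ hκ R hR G hG
    exact integrable_ker (κ := fun t => (κ t : ℂ)) (R := R)
      (Complex.continuous_ofReal.comp hκ)
      (fun t ht => by rw [hR t ht, Complex.ofReal_zero]) hG w
  have main : ∀ ε : ℝ, 0 < ε → ‖∫ w', (κ (ch w w') : ℂ) * Ψ w'‖ ≤ ε * M := by
    intro ε hε
    obtain ⟨κ', h1, h2, h3⟩ := exists_approx hκ hRR hε
    have h1' : ContDiff ℝ 1 κ' := h1.of_le (by norm_cast)
    have hz : ∫ w', (κ' (ch w w') : ℂ) * Ψ w' = 0 := by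
      have h4 := forward_C1 h1' (R := R' + 1) (by linarith) h2 hF hL w
      rw [← sub_eq_zero, ← integral_mul_const, ← integral_mul_const, ← integral_sub] at h4
      · rw [← h4]
        refine integral_congr_ae (Filter.Eventually.of_forall fun w' => ?_)
        simp only [hΨ]
        ring
      · exact (hint h1.continuous h2 hFc).mul_const _
      · exact (hint h1.continuous h2 hYc).mul_const _
    rw [← sub_zero (∫ w', (κ (ch w w') : ℂ) * Ψ w'), ← hz,
      ← integral_sub (hint hκ hR hΨc) (hint h1.continuous h2 hΨc), hM, ← integral_const_mul]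
    refine norm_integral_le_of_norm_le (hMi.const_mul ε)
      (Filter.Eventually.of_forall fun w' => ?_)
    rw [← sub_mul, norm_mul, ← Complex.ofReal_sub, Complex.norm_real, Real.norm_eq_abs]
    by_cases h : ch w w' ≤ R' + 1
    · rw [Real.smoothTransition.one_of_one_le (by linarith), one_mul, abs_sub_comm]
      gcongr
      exact h3 _ (one_le_ch w w')
    · have h' := (not_le.mp h).le
      rw [hRR _ (by linarith), h2 _ h', sub_zero, abs_zero, zero_mul]
      exact mul_nonneg hε.le (mul_nonneg (Real.smoothTransition.nonneg _) (norm_nonneg _))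
  have hlim : Tendsto (fun ε : ℝ => ε * M) (𝓝[>] 0) (𝓝 0) := by
    have : Tendsto (fun ε : ℝ => ε * M) (𝓝 0) (𝓝 (0 * M)) :=
      (continuous_id.mul continuous_const).tendsto 0
    rw [zero_mul] at this
    exact this.mono_left nhdsWithin_le_nhds
  exact norm_le_zero_iff.mp
    (ge_of_tendsto hlim (eventually_mem_nhdsWithin.mono fun ε hε => main ε hε))

/-- **The forward mean value theorem.** -/
theorem forward {κ : ℝ → ℂ} {R : ℝ} (hκ : Continuous κ) (hR : ∀ t, R ≤ t → κ t = 0)
    (hF : CC 2 F) (hL : ∀ w, Lap F w = -F w) (w : H3) :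
    ∫ w', κ (ch w w') * F w' = hatK κ * F w := by
  set Ψ : H3 → ℂ := fun w' => F w' * w.y - Y w' * F w with hΨ
  have hFc := continuous_of_CC hF
  have hYc : Continuous Y := continuous_of_CC (n := 0) CC_Y
  have hΨc : Continuous Ψ := (hFc.mul continuous_const).sub (hYc.mul continuous_const)
  have hre : Continuous fun t => (κ t).re := Complex.continuous_re.comp hκ
  have him : Continuous fun t => (κ t).im := Complex.continuous_im.comp hκ
  have hre0 : ∀ t, R ≤ t → (κ t).re = 0 := fun t ht => by rw [hR t ht, Complex.zero_re]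
  have him0 : ∀ t, R ≤ t → (κ t).im = 0 := fun t ht => by rw [hR t ht, Complex.zero_im]
  have h1 := forward_real hre hre0 hF hL w
  have h2 := forward_real him him0 hF hL w
  have i1 : Integrable fun w' => ((κ (ch w w')).re : ℂ) * Ψ w' :=
    integrable_ker (κ := fun t => ((κ t).re : ℂ)) (R := R) (Complex.continuous_ofReal.comp hre)
      (fun t ht => by rw [hre0 t ht, Complex.ofReal_zero]) hΨc w
  have i2 : Integrable fun w' => ((κ (ch w w')).im : ℂ) * Ψ w' :=
    integrable_ker (κ := fun t => ((κ t).im : ℂ)) (R := R) (Complex.continuous_ofReal.comp him)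
      (fun t ht => by rw [him0 t ht, Complex.ofReal_zero]) hΨc w
  have h3 : ∫ w', κ (ch w w') * Ψ w' = 0 := by
    have e : (fun w' => κ (ch w w') * Ψ w') = fun w' => ((κ (ch w w')).re : ℂ) * Ψ w' +
        Complex.I * (((κ (ch w w')).im : ℂ) * Ψ w') := by
      funext w'
      conv_lhs => rw [← Complex.re_add_im (κ (ch w w'))]
      ring
    rw [e, integral_add i1 (i2.const_mul _), integral_const_mul]
    rw [h1, h2]
    ring
  have j1 := integrable_ker hκ hR hFc w
  have j2 := integrable_ker hκ hR hYc w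
  have h4 : ∫ w', κ (ch w w') * Ψ w' = (∫ w', κ (ch w w') * F w') * w.y -
      (∫ w', κ (ch w w') * Y w') * F w := by
    rw [← integral_mul_const, ← integral_mul_const, ← integral_sub (j1.mul_const _)
      (j2.mul_const _)]
    refine integral_congr_ae (Filter.Eventually.of_forall fun w' => ?_)
    simp only [hΨ]
    ring
  have h5 : ∫ w', κ (ch w w') * Y w' = w.y * hatK κ := integral_ker_y κ w
  rw [h3, h5] at h4
  have hy := w.y_ne
  have h6 : w.y * (∫ w', κ (ch w w') * F w') = w.y * (hatK κ * F w) := by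
    linear_combination -h4
  exact mul_left_cancel₀ hy h6

/-- The forward theorem for kernels which are continuous on `[1, ∞)`. -/
theorem forward' {κ : ℝ → ℂ} {R : ℝ} (hκ : ContinuousOn κ (Ici 1))
    (hR : ∀ t, R ≤ t → κ t = 0) (hF : CC 2 F) (hL : ∀ w, Lap F w = -F w) (w : H3) :
    ∫ w', κ (ch w w') * F w' = hatK κ * F w := by
  have hc : Continuous fun t => κ (max 1 t) :=
    hκ.comp_continuous (continuous_const.max continuous_id) fun t => le_max_left 1 t
  have h := forward (R := R) hc (fun t ht => hR _ (ht.trans (le_max_right _ _))) hF hL w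
  simp only [hatK, max_eq_right (one_le_ch _ _)] at h
  exact h

end forward

end Fermat.Agent.H75Y
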