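import Mathlib

set_option autoImplicit false
set_option linter.style.haveILetI false
set_option linter.unusedSectionVars false

/-! # Lattice sums of smooth functions are close to integrals (no Poisson summation)

A `C^N` function `h` on a finite-dimensional real space `E` which is periodic for a lattice with
fundamental parallelepiped of diameter `≤ δ` satisfies `‖h x - mean h‖ ≤ δ^N sup ‖D^N h‖`. -/

open MeasureTheory Set Module
open scoped Pointwise

namespace Fermat.Agent.H5Z

universe u

variable {E : Type u} {ι : Type*} [NormedAddCommGroup E] [NormedSpace ℝ E]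

/-- periodicity with respect to the lattice spanned by a basis -/
def Per {F : Type*} (b : Basis ι ℝ E) (h : E → F) : Prop :=
  ∀ x, ∀ v ∈ Submodule.span ℤ (Set.range b), h (x + v) = h x

lemma Per.per_fderiv {F : Type*} [NormedAddCommGroup F] [NormedSpace ℝ F] {b : Basis ι ℝ E}
    {h : E → F} (hper : Per b h) : Per b (fderiv ℝ h) := by
  intro x v hv
  have h1 : (fun y => h (y + v)) = h := funext fun y => hper y v hv
  have h2 := fderiv_comp_add_right (𝕜 := ℝ) (f := h) (x := x) v
  rw [h1] at h2
  exact h2.symm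

lemma Per.sub_const {F : Type*} [AddGroup F] {b : Basis ι ℝ E}
    {h : E → F} (hper : Per b h) (c : F) : Per b (fun x => h x - c) := by
  intro x v hv
  show h (x + v) - c = h x - c
  rw [hper x v hv]

lemma Per.comp_add_right {F : Type*} {b : Basis ι ℝ E}
    {h : E → F} (hper : Per b h) (w : E) : Per b (fun x => h (x + w)) := by
  intro x v hv
  show h (x + v + w) = h (x + w)
  rw [add_right_comm, hper _ v hv]

variable [Fintype ι]

lemma Per.eq_fract {F : Type*} {b : Basis ι ℝ E} {h : E → F} (hper : Per b h) (x : E) :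
    h x = h (ZSpan.fract b x) := by
  rw [ZSpan.fract_apply, sub_eq_add_neg]
  exact (hper x _ (neg_mem (ZSpan.floor b x).2)).symm

variable [FiniteDimensional ℝ E]

lemma Per.exists_bound {F : Type*} [NormedAddCommGroup F] {b : Basis ι ℝ E}
    {h : E → F} (hper : Per b h) (hc : Continuous h) : ∃ C, ∀ x, ‖h x‖ ≤ C := by
  have hK : IsCompact (closure (ZSpan.fundamentalDomain b)) :=
    (ZSpan.fundamentalDomain_isBounded b).isCompact_closure
  obtain ⟨C, hC⟩ := hK.exists_bound_of_continuousOn hc.continuousOn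
  refine ⟨C, fun x => ?_⟩
  rw [hper.eq_fract x]
  exact hC _ (subset_closure (ZSpan.fract_mem_fundamentalDomain b x))

variable [MeasurableSpace E] [BorelSpace E] (μ : Measure E) [μ.IsAddHaarMeasure]

lemma Per.setIntegral_comp_add {F : Type*} [NormedAddCommGroup F] [NormedSpace ℝ F]
    {b : Basis ι ℝ E} {h : E → F} (hper : Per b h) (w : E) :
    ∫ x in ZSpan.fundamentalDomain b, h (x + w) ∂μ = ∫ x in ZSpan.fundamentalDomain b, h x ∂μ := by
  have h1 : ∫ x in ZSpan.fundamentalDomain b, h (x + w) ∂μ =
      ∫ x in w +ᵥ ZSpan.fundamentalDomain b, h x ∂μ := by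
    have := (measurePreserving_vadd w μ).setIntegral_image_emb (measurableEmbedding_const_vadd w) h
      (ZSpan.fundamentalDomain b)
    rw [← Set.image_vadd, this]
    simp only [vadd_eq_add, add_comm]
  rw [h1]
  have hfd := ZSpan.isAddFundamentalDomain b μ
  have hfd' : IsAddFundamentalDomain (Submodule.span ℤ (Set.range b))
      (w +ᵥ ZSpan.fundamentalDomain b) μ := by
    have := IsAddFundamentalDomain.vadd_of_comm (G' := E) hfd w
    exact this
  haveI : VAddInvariantMeasure (Submodule.span ℤ (Set.range b)) E μ :=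
    inferInstanceAs <| VAddInvariantMeasure (Submodule.span ℤ (Set.range b)).toAddSubgroup E μ
  refine IsAddFundamentalDomain.setIntegral_eq hfd' hfd (fun g x => ?_)
  have : (g : Submodule.span ℤ (Set.range b)) +ᵥ x = x + (g : E) := by
    rw [add_comm]; rfl
  rw [this]
  exact hper x _ g.2

lemma isFiniteMeasure_restrict (b : Basis ι ℝ E) :
    IsFiniteMeasure (μ.restrict (ZSpan.fundamentalDomain b)) := by
  constructor
  rw [Measure.restrict_apply_univ]
  exact (ZSpan.fundamentalDomain_isBounded b).measure_lt_top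

lemma Per.integral_fderiv_eq_zero {F : Type*} [NormedAddCommGroup F] [NormedSpace ℝ F]
    [CompleteSpace F] {b : Basis ι ℝ E} {h : E → F} (hper : Per b h) (hC : ContDiff ℝ 1 h) :
    ∫ x in ZSpan.fundamentalDomain b, fderiv ℝ h x ∂μ = 0 := by
  haveI := isFiniteMeasure_restrict μ b
  have hcont : Continuous (fderiv ℝ h) := hC.continuous_fderiv one_ne_zero
  obtain ⟨C, hC'⟩ := hper.per_fderiv.exists_bound hcont
  have hint : Integrable (fderiv ℝ h) (μ.restrict (ZSpan.fundamentalDomain b)) :=
    Integrable.of_bound hcont.aestronglyMeasurable C (Filter.Eventually.of_forall hC')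
  ext e
  rw [ContinuousLinearMap.integral_apply hint, _root_.zero_apply]
  -- derivative of a constant
  have hd := (hasDerivAt_integral_of_dominated_loc_of_deriv_le (𝕜 := ℝ)
    (μ := μ.restrict (ZSpan.fundamentalDomain b)) (F := fun t x => h (x + t • e))
    (F' := fun t x => fderiv ℝ h (x + t • e) e) (x₀ := (0 : ℝ)) (s := Set.univ)
    (bound := fun _ => C * ‖e‖) Filter.univ_mem ?_ ?_ ?_ ?_ (integrable_const _) ?_).2
  · have hconst : (fun t : ℝ => ∫ x in ZSpan.fundamentalDomain b, h (x + t • e) ∂μ) =
        fun _ => ∫ x in ZSpan.fundamentalDomain b, h x ∂μ :=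
      funext fun t => hper.setIntegral_comp_add μ (t • e)
    rw [hconst] at hd
    have := hd.unique (hasDerivAt_const _ _)
    simpa using this
  · exact Filter.Eventually.of_forall fun t =>
      (hC.continuous.comp (continuous_id.add continuous_const)).aestronglyMeasurable
  · obtain ⟨C0, hC0⟩ := hper.exists_bound hC.continuous
    refine Integrable.of_bound
      (hC.continuous.comp (continuous_id.add continuous_const)).aestronglyMeasurable C0
      (Filter.Eventually.of_forall fun x => hC0 _)
  · exact ((hcont.comp (continuous_id.add continuous_const)).clm_apply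
      continuous_const).aestronglyMeasurable
  · refine Filter.Eventually.of_forall fun x t _ => ?_
    exact (ContinuousLinearMap.le_opNorm _ _).trans
      (mul_le_mul_of_nonneg_right (hC' _) (norm_nonneg _))
  · refine Filter.Eventually.of_forall fun x t _ => ?_
    have h1 : HasFDerivAt h (fderiv ℝ h (x + t • e)) (x + t • e) :=
      (hC.differentiable one_ne_zero _).hasFDerivAt
    have h2 : HasDerivAt (fun t : ℝ => x + t • e) e t := by
      simpa using ((hasDerivAt_id t).smul_const e).const_add x
    exact h1.comp_hasDerivAt t h2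

/-- **Main estimate**, mean zero form. -/
theorem Per.norm_le_of_mean_zero {b : Basis ι ℝ E} {δ : ℝ}
    (hδ : ∀ x ∈ ZSpan.fundamentalDomain b, ∀ y ∈ ZSpan.fundamentalDomain b, ‖x - y‖ ≤ δ)
    (N : ℕ) : ∀ {F : Type u} [NormedAddCommGroup F] [NormedSpace ℝ F] [CompleteSpace F]
      {h : E → F}, Per b h → ContDiff ℝ N h →
      ∫ x in ZSpan.fundamentalDomain b, h x ∂μ = 0 → ∀ {B : ℝ},
      (∀ x, ‖iteratedFDeriv ℝ N h x‖ ≤ B) → ∀ x, ‖h x‖ ≤ δ ^ N * B := by
  induction N with
  | zero =>
    intro F _ _ _ h hper hC hm B hB x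
    simpa using hB x
  | succ N ih =>
    intro F _ _ _ h hper hC hm B hB x
    haveI := isFiniteMeasure_restrict μ b
    have h1 : ContDiff ℝ 1 h := hC.of_le (by exact_mod_cast Nat.succ_le_succ (Nat.zero_le N))
    have hC' : ContDiff ℝ N (fderiv ℝ h) := hC.fderiv_right (by norm_cast)
    have hB' : ∀ y, ‖fderiv ℝ h y‖ ≤ δ ^ N * B :=
      fun y => ih (F := E →L[ℝ] F) hper.per_fderiv hC' (hper.integral_fderiv_eq_zero μ h1)
        (fun z => by rw [norm_iteratedFDeriv_fderiv]; exact hB z) y
    -- mean value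
    have hne : (μ.real (ZSpan.fundamentalDomain b)) ≠ 0 := by
      rw [Measure.real, ENNReal.toReal_ne_zero]
      exact ⟨ZSpan.measure_fundamentalDomain_ne_zero b,
        (ZSpan.fundamentalDomain_isBounded b).measure_lt_top.ne⟩
    have hpos : 0 < μ.real (ZSpan.fundamentalDomain b) := lt_of_le_of_ne measureReal_nonneg hne.symm
    obtain ⟨C0, hC0⟩ := hper.exists_bound hC.continuous
    have hint : Integrable h (μ.restrict (ZSpan.fundamentalDomain b)) :=
      Integrable.of_bound hC.continuous.aestronglyMeasurable C0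
        (Filter.Eventually.of_forall fun x => hC0 _)
    rw [hper.eq_fract x]
    set x' := ZSpan.fract b x with hx'
    have hx'D : x' ∈ ZSpan.fundamentalDomain b := ZSpan.fract_mem_fundamentalDomain b x
    have key : μ.real (ZSpan.fundamentalDomain b) • h x' =
        ∫ y in ZSpan.fundamentalDomain b, (h x' - h y) ∂μ := by
      rw [integral_sub (integrable_const _) hint, hm, sub_zero, setIntegral_const]
    have hbd : ‖∫ y in ZSpan.fundamentalDomain b, (h x' - h y) ∂μ‖ ≤
        (δ ^ (N + 1) * B) * μ.real (ZSpan.fundamentalDomain b) := by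
      refine norm_setIntegral_le_of_norm_le_const
        (ZSpan.fundamentalDomain_isBounded b).measure_lt_top (fun y hy => ?_)
      have hmv : ‖h x' - h y‖ ≤ (δ ^ N * B) * ‖x' - y‖ :=
        convex_univ.norm_image_sub_le_of_norm_fderiv_le (𝕜 := ℝ)
          (fun z _ => h1.differentiable one_ne_zero z) (fun z _ => hB' z) (mem_univ y) (mem_univ x')
      have hnn : 0 ≤ δ ^ N * B := (norm_nonneg _).trans (hB' x')
      calc ‖h x' - h y‖ ≤ (δ ^ N * B) * ‖x' - y‖ := hmv
        _ ≤ (δ ^ N * B) * δ := mul_le_mul_of_nonneg_left (hδ _ hx'D _ hy) hnn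
        _ = δ ^ (N + 1) * B := by ring
    rw [← key, norm_smul, Real.norm_eq_abs, abs_of_pos hpos, mul_comm] at hbd
    exact le_of_mul_le_mul_right hbd hpos

/-- **Main estimate.** -/
theorem Per.norm_sub_mean_le {b : Basis ι ℝ E} {δ : ℝ}
    (hδ : ∀ x ∈ ZSpan.fundamentalDomain b, ∀ y ∈ ZSpan.fundamentalDomain b, ‖x - y‖ ≤ δ)
    {N : ℕ} (hN : N ≠ 0) {F : Type u} [NormedAddCommGroup F] [NormedSpace ℝ F] [CompleteSpace F]
    {h : E → F} (hper : Per b h) (hC : ContDiff ℝ N h) {B : ℝ}
    (hB : ∀ x, ‖iteratedFDeriv ℝ N h x‖ ≤ B) (x : E) :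
    ‖h x - (μ.real (ZSpan.fundamentalDomain b))⁻¹ •
      ∫ y in ZSpan.fundamentalDomain b, h y ∂μ‖ ≤ δ ^ N * B := by
  haveI := isFiniteMeasure_restrict μ b
  set c := (μ.real (ZSpan.fundamentalDomain b))⁻¹ •
      ∫ y in ZSpan.fundamentalDomain b, h y ∂μ with hc
  have hne : (μ.real (ZSpan.fundamentalDomain b)) ≠ 0 := by
    rw [Measure.real, ENNReal.toReal_ne_zero]
    exact ⟨ZSpan.measure_fundamentalDomain_ne_zero b,
      (ZSpan.fundamentalDomain_isBounded b).measure_lt_top.ne⟩
  obtain ⟨C0, hC0⟩ := hper.exists_bound hC.continuous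
  have hint : Integrable h (μ.restrict (ZSpan.fundamentalDomain b)) :=
    Integrable.of_bound hC.continuous.aestronglyMeasurable C0
      (Filter.Eventually.of_forall fun x => hC0 _)
  refine Per.norm_le_of_mean_zero μ hδ N (h := fun x => h x - c) (hper.sub_const c)
    (hC.sub contDiff_const) ?_ (fun y => ?_) x
  · rw [integral_sub hint (integrable_const _), setIntegral_const, hc, smul_smul,
      mul_inv_cancel₀ hne, one_smul, sub_self]
  · obtain ⟨M, rfl⟩ := Nat.exists_eq_succ_of_ne_zero hN
    rw [← norm_iteratedFDeriv_fderiv]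
    have : fderiv ℝ (fun x => h x - c) = fderiv ℝ h := by
      ext1 z
      rw [fderiv_sub_const]
    rw [this, norm_iteratedFDeriv_fderiv]
    exact hB y

end Fermat.Agent.H5Z
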