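import Mathlib
import Fermat.Agent.H5ZLat

set_option autoImplicit false
set_option linter.style.haveILetI false
set_option linter.unusedSectionVars false

/-! # First order mean value inequality along horospheres (S47, BK12) -/

open MeasureTheory Set Module
open scoped Pointwise

namespace Fermat.Agent.H5Z

universe u

/-! ### local Lipschitz at a fixed scale implies global Lipschitz -/

lemma lipschitz_of_scale {E F : Type*} [NormedAddCommGroup E] [NormedSpace ℝ E]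
    [NormedAddCommGroup F] {h : E → F} {η L : ℝ} (hη : 0 < η)
    (hloc : ∀ x y, ‖x - y‖ ≤ η → ‖h x - h y‖ ≤ L * ‖x - y‖) (x y : E) :
    ‖h x - h y‖ ≤ L * ‖x - y‖ := by
  obtain ⟨n, hn⟩ := exists_nat_gt (‖x - y‖ / η)
  have hn0 : 0 < (n : ℝ) := lt_of_le_of_lt (div_nonneg (norm_nonneg _) hη.le) hn
  have hn' : n ≠ 0 := by rintro rfl; simp at hn0
  -- the chain
  let p : ℕ → E := fun i => y + ((i : ℝ) / n) • (x - y)
  have hp : ∀ i, ‖p (i + 1) - p i‖ = ‖x - y‖ / n := by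
    intro i
    have : p (i + 1) - p i = (1 / (n : ℝ)) • (x - y) := by
      simp only [p]
      rw [add_sub_add_left_eq_sub, ← sub_smul]
      congr 1
      push_cast
      field_simp
      ring
    rw [this, norm_smul, Real.norm_eq_abs, abs_of_pos (by positivity)]
    ring
  have hstep : ∀ i, ‖h (p (i + 1)) - h (p i)‖ ≤ L * (‖x - y‖ / n) := by
    intro i
    rw [← hp i]
    refine hloc _ _ ?_
    rw [hp i, div_le_iff₀ hn0]
    rw [div_lt_iff₀ hη] at hn
    linarith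
  have hsum : h (p n) - h (p 0) = ∑ i ∈ Finset.range n, (h (p (i + 1)) - h (p i)) :=
    (Finset.sum_range_sub (fun i => h (p i)) n).symm
  have h0 : p 0 = y := by simp [p]
  have h1 : p n = x := by
    simp only [p]
    rw [div_self hn0.ne', one_smul]; abel
  rw [h0, h1] at hsum
  rw [hsum]
  calc ‖∑ i ∈ Finset.range n, (h (p (i + 1)) - h (p i))‖
      ≤ ∑ i ∈ Finset.range n, ‖h (p (i + 1)) - h (p i)‖ := norm_sum_le _ _
    _ ≤ ∑ _i ∈ Finset.range n, L * (‖x - y‖ / n) := Finset.sum_le_sum fun i _ => hstep i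
    _ = L * ‖x - y‖ := by
        rw [Finset.sum_const, Finset.card_range, nsmul_eq_mul]
        field_simp

section

variable {E : Type*} {ι : Type*} [NormedAddCommGroup E] [NormedSpace ℝ E] [Fintype ι]
  [FiniteDimensional ℝ E] [MeasurableSpace E] [BorelSpace E] (μ : Measure E) [μ.IsAddHaarMeasure]

/-- Poincare inequality, Lipschitz form. -/
theorem Per.norm_le_of_lipschitz {b : Basis ι ℝ E} {δ : ℝ}
    (hδ : ∀ x ∈ ZSpan.fundamentalDomain b, ∀ y ∈ ZSpan.fundamentalDomain b, ‖x - y‖ ≤ δ)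
    {F : Type*} [NormedAddCommGroup F] [NormedSpace ℝ F] [CompleteSpace F]
    {h : E → F} (hper : Per b h) (hm : ∫ x in ZSpan.fundamentalDomain b, h x ∂μ = 0)
    {L : ℝ} (hL0 : 0 ≤ L) (hL : ∀ x y, ‖h x - h y‖ ≤ L * ‖x - y‖) (x : E) :
    ‖h x‖ ≤ L * δ := by
  haveI := isFiniteMeasure_restrict μ b
  have hcont : Continuous h := by
    have : LipschitzWith ⟨L, hL0⟩ h := LipschitzWith.of_dist_le_mul fun x y => by
      rw [dist_eq_norm, dist_eq_norm]; exact hL x y
    exact this.continuous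
  have hne : (μ.real (ZSpan.fundamentalDomain b)) ≠ 0 := by
    rw [Measure.real, ENNReal.toReal_ne_zero]
    exact ⟨ZSpan.measure_fundamentalDomain_ne_zero b,
      (ZSpan.fundamentalDomain_isBounded b).measure_lt_top.ne⟩
  have hpos : 0 < μ.real (ZSpan.fundamentalDomain b) := lt_of_le_of_ne measureReal_nonneg hne.symm
  obtain ⟨C0, hC0⟩ := hper.exists_bound hcont
  have hint : Integrable h (μ.restrict (ZSpan.fundamentalDomain b)) :=
    Integrable.of_bound hcont.aestronglyMeasurable C0 (Filter.Eventually.of_forall fun x => hC0 _)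
  rw [hper.eq_fract x]
  set x' := ZSpan.fract b x with hx'
  have hx'D : x' ∈ ZSpan.fundamentalDomain b := ZSpan.fract_mem_fundamentalDomain b x
  have key : μ.real (ZSpan.fundamentalDomain b) • h x' =
      ∫ y in ZSpan.fundamentalDomain b, (h x' - h y) ∂μ := by
    rw [integral_sub (integrable_const _) hint, hm, sub_zero, setIntegral_const]
  have hbd : ‖∫ y in ZSpan.fundamentalDomain b, (h x' - h y) ∂μ‖ ≤
      (L * δ) * μ.real (ZSpan.fundamentalDomain b) := by
    refine norm_setIntegral_le_of_norm_le_const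
      (ZSpan.fundamentalDomain_isBounded b).measure_lt_top (fun y hy => ?_)
    exact (hL x' y).trans (mul_le_mul_of_nonneg_left (hδ _ hx'D _ hy) hL0)
  rw [← key, norm_smul, Real.norm_eq_abs, abs_of_pos hpos, mul_comm] at hbd
  exact le_of_mul_le_mul_right hbd hpos

/-- **The mean value step** for an integral operator whose kernel is Lipschitz along a group of
translations. -/
theorem step {b : Basis ι ℝ E} {δ : ℝ}
    (hδ : ∀ x ∈ ZSpan.fundamentalDomain b, ∀ y ∈ ZSpan.fundamentalDomain b, ‖x - y‖ ≤ δ)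
    {W : Type*} [MeasurableSpace W] (ν : Measure W) {K : E → W → ℂ} {g : W → ℂ}
    {B : E → Set W} {Vol Λ η G : ℝ} (hη : 0 < η) (hΛ : 0 ≤ Λ) (hG : 0 ≤ G)
    (hBm : ∀ n, MeasurableSet (B n)) (hBν : ∀ n, ν (B n) ≤ ENNReal.ofReal Vol) (hVol : 0 ≤ Vol)
    (hKint : ∀ n, Integrable (fun w => K n w * g w) ν)
    (hsupp : ∀ n n', ‖n - n'‖ ≤ η → ∀ w, w ∉ B n → K n w = 0 ∧ K n' w = 0)
    (hKL : ∀ n n', ‖n - n'‖ ≤ η → ∀ w ∈ B n, ‖K n w - K n' w‖ ≤ Λ * ‖n - n'‖)
    (hg : ∀ n, ∀ w ∈ B n, ‖g w‖ ≤ G)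
    (hper : Per b (fun n => ∫ w, K n w * g w ∂ν))
    (hm : ∫ n in ZSpan.fundamentalDomain b, (∫ w, K n w * g w ∂ν) ∂μ = 0) (n : E) :
    ‖∫ w, K n w * g w ∂ν‖ ≤ Λ * Vol * G * δ := by
  refine Per.norm_le_of_lipschitz μ hδ hper hm (by positivity) ?_ n
  refine lipschitz_of_scale hη (fun n n' hnn' => ?_)
  rw [← integral_sub (hKint n) (hKint n')]
  have h1 : (fun w => K n w * g w - K n' w * g w) =
      (B n).indicator (fun w => K n w * g w - K n' w * g w) := by
    ext w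
    by_cases hw : w ∈ B n
    · rw [indicator_of_mem hw]
    · rw [indicator_of_notMem hw]
      obtain ⟨h2, h3⟩ := hsupp n n' hnn' w hw
      rw [h2, h3]; ring
  rw [h1, integral_indicator (hBm n)]
  have hfin : ν (B n) < ⊤ := (hBν n).trans_lt ENNReal.ofReal_lt_top
  calc ‖∫ w in B n, (K n w * g w - K n' w * g w) ∂ν‖
      ≤ (Λ * ‖n - n'‖ * G) * ν.real (B n) := by
        refine norm_setIntegral_le_of_norm_le_const hfin (fun w hw => ?_)
        rw [← sub_mul, norm_mul]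
        exact mul_le_mul (hKL n n' hnn' w hw) (hg n w hw) (norm_nonneg _) (by positivity)
    _ ≤ (Λ * ‖n - n'‖ * G) * Vol := by
        refine mul_le_mul_of_nonneg_left ?_ (by positivity)
        rw [Measure.real]
        calc (ν (B n)).toReal ≤ (ENNReal.ofReal Vol).toReal :=
              ENNReal.toReal_mono ENNReal.ofReal_ne_top (hBν n)
          _ = Vol := ENNReal.toReal_ofReal hVol
    _ = Λ * Vol * G * ‖n - n'‖ := by ring

end

/-! ### the hyperbolic cosine of the distance in coordinates -/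

/-- `cosh d((z,y),(z',y'))` -/
noncomputable def chc (z : ℂ) (y : ℝ) (z' : ℂ) (y' : ℝ) : ℝ :=
  (‖z - z'‖ ^ 2 + y ^ 2 + y' ^ 2) / (2 * y * y')

lemma le_of_chc_le {z z' : ℂ} {y y' R : ℝ} (hy : 0 < y) (hy' : 0 < y')
    (h : chc z y z' y' ≤ R) : y ≤ 2 * R * y' ∧ y' ≤ 2 * R * y ∧ ‖z - z'‖ ≤ 2 * R * y ∧ 1 ≤ R := by
  rw [chc, div_le_iff₀ (by positivity)] at h
  have h0 : 0 ≤ ‖z - z'‖ ^ 2 := sq_nonneg _
  have hR : 1 ≤ R := by
    by_contra hR
    push Not at hR
    nlinarith [sq_nonneg (y - y'), mul_pos hy hy']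
  have h1 : y ≤ 2 * R * y' := by
    have : y * y ≤ (2 * R * y') * y := by nlinarith [sq_nonneg y']
    exact le_of_mul_le_mul_right this hy
  have h2 : y' ≤ 2 * R * y := by
    have : y' * y' ≤ (2 * R * y) * y' := by nlinarith [sq_nonneg y]
    exact le_of_mul_le_mul_right this hy'
  refine ⟨h1, h2, ?_, hR⟩
  refine abs_le_of_sq_le_sq' ?_ (by positivity) |>.2
  have : ‖z - z'‖ ^ 2 ≤ R * (2 * y * y') := by nlinarith [sq_nonneg y, sq_nonneg y']
  have h3 : R * (2 * y * y') ≤ R * (2 * y * (2 * R * y)) := by gcongr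
  calc ‖z - z'‖ ^ 2 ≤ R * (2 * y * (2 * R * y)) := this.trans h3
    _ = (2 * R * y) ^ 2 := by ring

lemma abs_chc_sub_le {z z' n : ℂ} {y y' R : ℝ} (hy : 0 < y) (hy' : 0 < y')
    (h : chc z y z' y' ≤ R) (hn : ‖n‖ ≤ y) :
    |chc (z + n) y z' y' - chc z y z' y'| ≤ R * (4 * R + 1) * (‖n‖ / y) := by
  obtain ⟨h1, h2, h3, hR⟩ := le_of_chc_le hy hy' h
  have e : chc (z + n) y z' y' - chc z y z' y' =
      (‖z + n - z'‖ ^ 2 - ‖z - z'‖ ^ 2) / (2 * y * y') := by
    rw [chc, chc]; field_simp; ring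
  rw [e, abs_div, abs_of_pos (show (0 : ℝ) < 2 * y * y' by positivity)]
  have h4 : |‖z + n - z'‖ ^ 2 - ‖z - z'‖ ^ 2| ≤ ‖n‖ * ((4 * R + 1) * y) := by
    have e2 : ‖z + n - z'‖ ^ 2 - ‖z - z'‖ ^ 2 =
        (‖z + n - z'‖ - ‖z - z'‖) * (‖z + n - z'‖ + ‖z - z'‖) := by ring
    rw [e2, abs_mul]
    have h5 : |‖z + n - z'‖ - ‖z - z'‖| ≤ ‖n‖ := by
      have := abs_norm_sub_norm_le (z + n - z') (z - z')
      rwa [show z + n - z' - (z - z') = n by ring] at this
    have h6 : |‖z + n - z'‖ + ‖z - z'‖| ≤ (4 * R + 1) * y := by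
      rw [abs_of_nonneg (by positivity)]
      have : ‖z + n - z'‖ ≤ ‖z - z'‖ + ‖n‖ := by
        rw [show z + n - z' = (z - z') + n by ring]; exact norm_add_le _ _
      nlinarith
    exact mul_le_mul h5 h6 (abs_nonneg _) (norm_nonneg _)
  rw [div_le_iff₀ (by positivity)]
  refine h4.trans ?_
  have h7 : y ≤ 2 * R * y' := h1
  have : R * (4 * R + 1) * (‖n‖ / y) * (2 * y * y') = ‖n‖ * ((4 * R + 1) * (2 * R * y')) := by
    field_simp
  rw [this]
  gcongr

lemma chc_add_le {z z' n : ℂ} {y y' R : ℝ} (hy : 0 < y) (hy' : 0 < y')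
    (h : chc z y z' y' ≤ R) (hn : ‖n‖ ≤ y) :
    chc (z + n) y z' y' ≤ R + R * (4 * R + 1) := by
  have h1 := abs_chc_sub_le hy hy' h hn
  obtain ⟨-, -, -, hR⟩ := le_of_chc_le hy hy' h
  have h2 : R * (4 * R + 1) * (‖n‖ / y) ≤ R * (4 * R + 1) * 1 := by
    refine mul_le_mul_of_nonneg_left ?_ (by positivity)
    rwa [div_le_one hy]
  have h3 := (abs_le.mp (h1.trans h2)).2
  linarith

end Fermat.Agent.H5Z
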