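import Mathlib
import Fermat.Agent.H5ZStep
import Fermat.Agent.H31Hyp1

set_option autoImplicit false
set_option linter.style.haveILetI false
set_option linter.unusedSectionVars false

/-! # The mean value step on products of hyperbolic 3-spaces (S47, BK12)

For a radial kernel `κ(ch_1, …, ch_r)` which is Lipschitz with bounded support and a bounded
function `g`, the function `f(x) = ∫ κ(ch(x, w)) g(w) dw` satisfies on a horosphere of height `≥ t`,
if it is periodic with mean zero there, `|f| ≤ C (δ / t) sup |g|`. -/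

open MeasureTheory Set Module

namespace Fermat.Agent.H5Z

open Fermat.Agent

variable {J : Type*} [Fintype J]

/-- translation by `n ∈ ℂ^J` -/
def tr (n : J → ℂ) (x : J → H3) : J → H3 := fun j => ⟨(x j).z + n j, (x j).y, (x j).pos⟩

/-- the vector of the `cosh` of the distances -/
noncomputable def chv (x w : J → H3) : J → ℝ := fun j => H3.ch (x j) (w j)

/-- product of closed balls -/
def Bl (R : ℝ) (x : J → H3) : Set (J → H3) := {w | ∀ j, H3.ch (x j) (w j) ≤ R}

@[simp] lemma tr_z (n : J → ℂ) (x : J → H3) (j : J) : (tr n x j).z = (x j).z + n j := rfl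

@[simp] lemma tr_y (n : J → ℂ) (x : J → H3) (j : J) : (tr n x j).y = (x j).y := rfl

lemma tr_tr (m n : J → ℂ) (x : J → H3) : tr m (tr n x) = tr (n + m) x := by
  funext j
  ext
  · simp [add_assoc]
  · rfl

lemma ch_eq_chc (w w' : H3) : H3.ch w w' = chc w.z w.y w'.z w'.y := by
  rw [H3.ch, chc, Complex.normSq_eq_norm_sq]

lemma continuous_chv : Continuous (fun p : (J → H3) × (J → H3) => chv p.1 p.2) := by
  refine continuous_pi fun j => ?_
  have h1 : Continuous (fun p : (J → H3) × (J → H3) => (p.1 j, p.2 j)) :=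
    ((continuous_apply j).comp continuous_fst).prodMk ((continuous_apply j).comp continuous_snd)
  exact H3.continuous_ch.comp h1

lemma continuous_chv_right (x : J → H3) : Continuous (fun w => chv x w) :=
  continuous_chv.comp (continuous_const.prodMk continuous_id)

lemma isClosed_ball (R : ℝ) (x : H3) : IsClosed {w | H3.ch x w ≤ R} :=
  isClosed_le (H3.continuous_ch.comp (continuous_const.prodMk continuous_id)) continuous_const

lemma Bl_eq_pi (R : ℝ) (x : J → H3) : Bl R x = Set.pi univ fun j => {w | H3.ch (x j) w ≤ R} := by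
  ext w; simp [Bl]

lemma measurableSet_Bl (R : ℝ) (x : J → H3) : MeasurableSet (Bl R x) := by
  rw [Bl_eq_pi]
  exact MeasurableSet.univ_pi fun j => (isClosed_ball R (x j)).measurableSet

/-- the volume of balls in `H3` is uniformly bounded -/
lemma exists_volume_ball_le (R : ℝ) : ∃ V : ℝ, 0 ≤ V ∧ ∀ x : H3,
    volume {w | H3.ch x w ≤ R} ≤ ENNReal.ofReal V := by
  refine ⟨Real.pi * (4 * R ^ 2) ^ 2 * (2 * |Real.log (2 * R)|), by positivity, fun x => ?_⟩
  by_cases hR : R < 1
  · have : {w | H3.ch x w ≤ R} = ∅ := by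
      ext w
      simp only [mem_ofPred_eq, mem_empty_iff_false, iff_false, not_le]
      exact hR.trans_le (H3.one_le_ch x w)
    rw [this, measure_empty]
    exact zero_le
  push Not at hR
  have hmeas : MeasurableSet {w | H3.ch x w ≤ R} := (isClosed_ball R x).measurableSet
  rw [← H3.measurePreserving_coord_symm.measure_preimage hmeas.nullMeasurableSet]
  set S : Set (ℂ × ℝ) := {p | p.2 ∈ Icc (Real.log x.y - Real.log (2 * R))
    (Real.log x.y + Real.log (2 * R)) ∧ p.1 ∈ Metric.closedBall (x.z / Real.exp p.2) (4 * R ^ 2)}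
    with hS
  have hSm : MeasurableSet S := by
    have hS2 : S = (Prod.snd ⁻¹' Icc (Real.log x.y - Real.log (2 * R))
        (Real.log x.y + Real.log (2 * R))) ∩
        {p : ℂ × ℝ | dist p.1 (x.z / Real.exp p.2) ≤ 4 * R ^ 2} := rfl
    rw [hS2]
    refine (measurable_snd measurableSet_Icc).inter ?_
    refine (isClosed_le ?_ continuous_const).measurableSet
    refine continuous_fst.dist (continuous_const.div ?_ fun p => ?_)
    · exact Complex.continuous_ofReal.comp (Real.continuous_exp.comp continuous_snd)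
    · exact_mod_cast (Real.exp_pos p.2).ne'
  have hsub : (H3.coord.symm : ℂ × ℝ → H3) ⁻¹' {w | H3.ch x w ≤ R} ⊆ S := by
    intro p hp
    rw [mem_preimage, mem_ofPred_eq, ch_eq_chc, H3.coord_symm_z, H3.coord_symm_y] at hp
    obtain ⟨h1, h2, h3, -⟩ := le_of_chc_le x.pos (Real.exp_pos p.2) hp
    have hx := x.pos
    have he := Real.exp_pos p.2
    refine ⟨⟨?_, ?_⟩, ?_⟩
    · rw [← Real.log_div hx.ne' (by positivity), Real.log_le_iff_le_exp (by positivity),
        div_le_iff₀ (by positivity)]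
      linarith
    · rw [← Real.log_mul hx.ne' (by positivity), Real.le_log_iff_exp_le (by positivity)]
      linarith
    · rw [Metric.mem_closedBall, dist_eq_norm]
      have e : p.1 - x.z / Real.exp p.2 = -(x.z - Real.exp p.2 * p.1) / Real.exp p.2 := by
        have : (Real.exp p.2 : ℂ) ≠ 0 := by exact_mod_cast he.ne'
        field_simp
        ring
      rw [e, norm_div, norm_neg, Complex.norm_real, Real.norm_eq_abs, abs_of_pos he,
        div_le_iff₀ he]
      calc ‖x.z - Real.exp p.2 * p.1‖ ≤ 2 * R * x.y := h3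
        _ ≤ 2 * R * (2 * R * Real.exp p.2) := by gcongr
        _ = 4 * R ^ 2 * Real.exp p.2 := by ring
  refine (measure_mono hsub).trans ?_
  have hvol : (volume : Measure (ℂ × ℝ)) S =
      ∫⁻ y, volume ((fun z : ℂ => (z, y)) ⁻¹' S) ∂(volume : Measure ℝ) :=
    Measure.prod_apply_symm hSm
  rw [hvol]
  have hslice : ∀ y : ℝ, volume ((fun z : ℂ => (z, y)) ⁻¹' S) ≤
      (Icc (Real.log x.y - Real.log (2 * R)) (Real.log x.y + Real.log (2 * R))).indicator
        (fun _ => ENNReal.ofReal (Real.pi * (4 * R ^ 2) ^ 2)) y := by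
    intro y
    by_cases hy : y ∈ Icc (Real.log x.y - Real.log (2 * R)) (Real.log x.y + Real.log (2 * R))
    · rw [indicator_of_mem hy]
      have : (fun z : ℂ => (z, y)) ⁻¹' S ⊆ Metric.closedBall (x.z / Real.exp y) (4 * R ^ 2) :=
        fun z hz => hz.2
      refine (measure_mono this).trans ?_
      rw [Complex.volume_closedBall]
      rw [← NNReal.coe_real_pi, ENNReal.ofReal_mul NNReal.pi.coe_nonneg,
        ENNReal.ofReal_pow (by positivity), ENNReal.ofReal_coe_nnreal, mul_comm]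
    · rw [indicator_of_notMem hy]
      have : (fun z : ℂ => (z, y)) ⁻¹' S = ∅ := by
        ext z
        simp only [mem_preimage, mem_empty_iff_false, iff_false]
        exact fun hz => hy hz.1
      rw [this, measure_empty]
  refine (lintegral_mono hslice).trans ?_
  rw [lintegral_indicator measurableSet_Icc, lintegral_const, Measure.restrict_apply_univ,
    Real.volume_Icc, ← ENNReal.ofReal_mul (by positivity)]
  refine ENNReal.ofReal_le_ofReal ?_
  refine mul_le_mul_of_nonneg_left ?_ (by positivity)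
  have := le_abs_self (Real.log (2 * R))
  linarith

/-- the volume of products of balls is uniformly bounded -/
lemma exists_volume_Bl_le (J : Type*) [Fintype J] (R : ℝ) : ∃ V : ℝ, 0 ≤ V ∧ ∀ x : J → H3,
    volume (Bl R x) ≤ ENNReal.ofReal V := by
  obtain ⟨V, hV0, hV⟩ := exists_volume_ball_le R
  refine ⟨V ^ Fintype.card J, by positivity, fun x => ?_⟩
  rw [Bl_eq_pi, volume_pi_pi]
  calc ∏ j, volume {w | H3.ch (x j) w ≤ R} ≤ ∏ _j : J, ENNReal.ofReal V :=
        Finset.prod_le_prod' fun j _ => hV (x j)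
    _ = ENNReal.ofReal (V ^ Fintype.card J) := by
        rw [Finset.prod_const, ENNReal.ofReal_pow hV0, Finset.card_univ]

/-- `ch` along translations -/
lemma ch_tr_le {R : ℝ} {x w : H3} {n : ℂ} (h : H3.ch x w ≤ R) (hn : ‖n‖ ≤ x.y) :
    H3.ch ⟨x.z + n, x.y, x.pos⟩ w ≤ R + R * (4 * R + 1) := by
  rw [ch_eq_chc] at h ⊢
  exact chc_add_le x.pos w.pos h hn

lemma abs_ch_tr_sub_le {R : ℝ} {x w : H3} {n : ℂ} (h : H3.ch x w ≤ R) (hn : ‖n‖ ≤ x.y) :
    |H3.ch ⟨x.z + n, x.y, x.pos⟩ w - H3.ch x w| ≤ R * (4 * R + 1) * (‖n‖ / x.y) := by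
  rw [ch_eq_chc] at h
  rw [ch_eq_chc, ch_eq_chc]
  exact abs_chc_sub_le x.pos w.pos h hn

lemma norm_chv_tr_sub_le {R t : ℝ} (ht : 0 < t) {x w : J → H3} {n : J → ℂ}
    (hR : 0 ≤ R) (h : ∀ j, H3.ch (x j) (w j) ≤ R) (hy : ∀ j, t ≤ (x j).y) (hn : ‖n‖ ≤ t) :
    ‖chv (tr n x) w - chv x w‖ ≤ R * (4 * R + 1) / t * ‖n‖ := by
  rw [pi_norm_le_iff_of_nonneg (by positivity)]
  intro j
  have hnj : ‖n j‖ ≤ ‖n‖ := norm_le_pi_norm n j
  have h1 := abs_ch_tr_sub_le (h j) ((hnj.trans hn).trans (hy j))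
  have h2 : ‖(chv (tr n x) w - chv x w) j‖ =
      |H3.ch ⟨(x j).z + n j, (x j).y, (x j).pos⟩ (w j) - H3.ch (x j) (w j)| := rfl
  rw [h2]
  refine h1.trans ?_
  have h3 : ‖n j‖ / (x j).y ≤ ‖n‖ / t := by
    have := hy j
    gcongr
  calc R * (4 * R + 1) * (‖n j‖ / (x j).y) ≤ R * (4 * R + 1) * (‖n‖ / t) :=
        mul_le_mul_of_nonneg_left h3 (by positivity)
    _ = R * (4 * R + 1) / t * ‖n‖ := by ring

/-- integral operator with a radial kernel -/
noncomputable def Rk (κ : (J → ℝ) → ℂ) (g : (J → H3) → ℂ) (x : J → H3) : ℂ :=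
  ∫ w, κ (chv x w) * g w

/-- the enlarged radius -/
def R1 (R : ℝ) : ℝ := R + R * (4 * R + 1)

lemma integrable_Rk {κ : (J → ℝ) → ℂ} (hκ : Continuous κ) {M R : ℝ} (hM : ∀ u, ‖κ u‖ ≤ M)
    (hR : ∀ u, (∃ j, R < u j) → κ u = 0) {g : (J → H3) → ℂ} (hgm : AEStronglyMeasurable g volume)
    {x : J → H3} {G : ℝ} (hg : ∀ w ∈ Bl R x, ‖g w‖ ≤ G) :
    Integrable (fun w => κ (chv x w) * g w) volume := by
  obtain ⟨V, -, hV⟩ := exists_volume_Bl_le J R
  have hfin : volume (Bl R x) < ⊤ := (hV x).trans_lt ENNReal.ofReal_lt_top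
  have h1 : (fun w => κ (chv x w) * g w) =
      (Bl R x).indicator (fun w => κ (chv x w) * g w) := by
    ext w
    by_cases hw : w ∈ Bl R x
    · rw [indicator_of_mem hw]
    · rw [indicator_of_notMem hw]
      simp only [Bl, mem_ofPred_eq, not_forall, not_le] at hw
      have h0 : κ (chv x w) = 0 := hR _ hw
      rw [h0, zero_mul]
  rw [h1]
  rw [integrable_indicator_iff (measurableSet_Bl R x)]
  have hm : AEStronglyMeasurable (fun w => κ (chv x w) * g w) volume :=
    (hκ.comp (continuous_chv_right x)).aestronglyMeasurable.mul hgm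
  refine ⟨hm.restrict, ?_⟩
  refine HasFiniteIntegral.restrict_of_bounded (C := M * G) hfin ?_
  rw [ae_restrict_iff' (measurableSet_Bl R x)]
  refine Filter.Eventually.of_forall fun w hw => ?_
  rw [norm_mul]
  exact mul_le_mul (hM _) (hg w hw) (norm_nonneg _) ((norm_nonneg _).trans (hM 0))

/-- **The mean value step**: gain of a factor `δ / t` at height `t`. -/
theorem horo_step {κ : (J → ℝ) → ℂ} {Lκ M R : ℝ} (hR1 : 1 ≤ R) (hLκ0 : 0 ≤ Lκ)
    (hLκ : ∀ u v, ‖κ u - κ v‖ ≤ Lκ * ‖u - v‖) (hM : ∀ u, ‖κ u‖ ≤ M)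
    (hR : ∀ u, (∃ j, R < u j) → κ u = 0) :
    ∃ C : ℝ, 0 ≤ C ∧ ∀ {ι : Type} [Fintype ι] (b : Basis ι ℝ (J → ℂ)) (δ : ℝ),
      (∀ x ∈ ZSpan.fundamentalDomain b, ∀ y ∈ ZSpan.fundamentalDomain b, ‖x - y‖ ≤ δ) →
      ∀ (x : J → H3) (t : ℝ), 0 < t → (∀ j, t ≤ (x j).y) →
      ∀ (g : (J → H3) → ℂ) (G : ℝ), 0 ≤ G → AEStronglyMeasurable g volume →
      (∀ n, ∀ w ∈ Bl (R1 R) (tr n x), ‖g w‖ ≤ G) →
      Per b (fun n => Rk κ g (tr n x)) →
      ∫ n in ZSpan.fundamentalDomain b, Rk κ g (tr n x) = 0 →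
      ∀ n, ‖Rk κ g (tr n x)‖ ≤ C * (δ / t) * G := by
  obtain ⟨V, hV0, hV⟩ := exists_volume_Bl_le J (R1 R)
  have hR0 : 0 ≤ R := by linarith
  refine ⟨Lκ * (R * (4 * R + 1)) * V, by positivity, ?_⟩
  intro ι _ b δ hδ x t ht hy g G hG hgm hg hper hm n
  have hRR : R ≤ R1 R := by
    have : 0 ≤ R * (4 * R + 1) := by positivity
    rw [R1]; linarith
  have hcont : Continuous κ := by
    have : LipschitzWith ⟨Lκ, hLκ0⟩ κ := LipschitzWith.of_dist_le_mul fun u v => by
      rw [dist_eq_norm, dist_eq_norm]; exact hLκ u v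
    exact this.continuous
  have htr : ∀ n n' : J → ℂ, tr n x = tr (n - n') (tr n' x) := by
    intro n n'
    rw [tr_tr]; congr 1; abel
  have h := step (E := J → ℂ) volume hδ (W := J → H3) volume
    (K := fun n w => κ (chv (tr n x) w)) (g := g) (B := fun n => Bl (R1 R) (tr n x))
    (Vol := V) (Λ := Lκ * (R * (4 * R + 1) / t)) (η := t) (G := G) ht (by positivity) hG
    (fun n => measurableSet_Bl _ _) (fun n => hV _) hV0
    (fun n => integrable_Rk hcont hM hR hgm
      (fun w hw => hg n w (fun j => (hw j).trans hRR))) ?_ ?_ (fun n w hw => hg n w hw) hper hm n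
  · refine h.trans (le_of_eq ?_)
    ring
  · -- supports
    intro n n' hnn' w hw
    constructor
    · apply hR
      simp only [Bl, mem_ofPred_eq, not_forall, not_le] at hw
      obtain ⟨j, hj⟩ := hw
      exact ⟨j, hRR.trans_lt hj⟩
    · by_contra hne
      apply hw
      intro j
      have h1 : ∀ j, H3.ch (tr n' x j) (w j) ≤ R := by
        intro j
        by_contra hlt
        push Not at hlt
        exact hne (hR _ ⟨j, hlt⟩)
      have h2 := ch_tr_le (n := (n - n') j) (h1 j)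
        (((norm_le_pi_norm (n - n') j).trans hnn').trans (hy j))
      rw [htr n n']
      exact h2
  · intro n n' hnn' w hw
    have hnn'' : ‖n' - n‖ ≤ t := by rwa [norm_sub_rev]
    by_cases h1 : ∀ j, H3.ch (tr n x j) (w j) ≤ R
    · have h2 := norm_chv_tr_sub_le ht (x := tr n x) (w := w) (n := n' - n) hR0 h1 hy hnn''
      rw [← htr n' n] at h2
      calc ‖κ (chv (tr n x) w) - κ (chv (tr n' x) w)‖
          ≤ Lκ * ‖chv (tr n x) w - chv (tr n' x) w‖ := hLκ _ _
        _ = Lκ * ‖chv (tr n' x) w - chv (tr n x) w‖ := by rw [norm_sub_rev]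
        _ ≤ Lκ * (R * (4 * R + 1) / t * ‖n' - n‖) := mul_le_mul_of_nonneg_left h2 hLκ0
        _ = Lκ * (R * (4 * R + 1) / t) * ‖n - n'‖ := by rw [norm_sub_rev]; ring
    · by_cases h1' : ∀ j, H3.ch (tr n' x j) (w j) ≤ R
      · have h2 := norm_chv_tr_sub_le ht (x := tr n' x) (w := w) (n := n - n') hR0 h1' hy hnn'
        rw [← htr n n'] at h2
        calc ‖κ (chv (tr n x) w) - κ (chv (tr n' x) w)‖
            ≤ Lκ * ‖chv (tr n x) w - chv (tr n' x) w‖ := hLκ _ _
          _ ≤ Lκ * (R * (4 * R + 1) / t * ‖n - n'‖) := mul_le_mul_of_nonneg_left h2 hLκ0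
          _ = Lκ * (R * (4 * R + 1) / t) * ‖n - n'‖ := by ring
      · push Not at h1 h1'
        have e1 : κ (chv (tr n x) w) = 0 := hR _ h1
        have e2 : κ (chv (tr n' x) w) = 0 := hR _ h1'
        rw [e1, e2, sub_zero, norm_zero]
        positivity

end Fermat.Agent.H5Z
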