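import Mathlib
import Fermat.Agent.H31Hyp2
import Fermat.Agent.H5ZH3

/-!
# Radial kernels on `(H3)^ι` (helper9)

* `ball w T = {u | ch w u ≤ T}` is compact;
* `Ker κ`: `κ : (ι → ℝ) → ℂ` continuous on `{t | ∀ j, 1 ≤ t j}`, zero when some `t j > T`;
* `Rk κ Φ w = ∫ w', κ (chv w w') * Φ w'`;
* `hat κ = Rk κ (∏ y_j) (base)`;
* `integral_glue`: Fubini, one variable at a time;
* `R_eq_hat_mul`: if in each variable separately all one variable kernels act by `hat1`, then every
  kernel on `(H3)^ι` acts by `hat`.
-/

set_option autoImplicit false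
set_option linter.unusedSectionVars false

noncomputable section

open MeasureTheory Set Filter Topology
open scoped Real

namespace Fermat.Agent.H9Z


open Fermat.Agent.H5Z (chv Rk continuous_chv)

/-! ### One copy of `H3` -/

/-- The closed ball `ch w u ≤ T`. -/
def ball (w : H3) (T : ℝ) : Set H3 := {u | H3.ch w u ≤ T}

lemma mem_ball {w u : H3} {T : ℝ} : u ∈ ball w T ↔ H3.ch w u ≤ T := Iff.rfl

lemma bounds_of_ch_le {w u : H3} {T : ℝ} (h : H3.ch w u ≤ T) :
    u.y ≤ 2 * T * w.y ∧ w.y ≤ 2 * T * u.y ∧ Complex.normSq (w.z - u.z) ≤ 2 * T * w.y * u.y := by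
  have hw := w.pos
  have hu := u.pos
  rw [H3.ch, div_le_iff₀ (by positivity)] at h
  have h0 := Complex.normSq_nonneg (w.z - u.z)
  refine ⟨?_, ?_, ?_⟩
  · refine le_of_mul_le_mul_right ?_ hu
    nlinarith [sq_nonneg w.y]
  · refine le_of_mul_le_mul_right ?_ hw
    nlinarith [sq_nonneg u.y]
  · nlinarith [sq_nonneg w.y, sq_nonneg u.y]

lemma isClosed_ball (w : H3) (T : ℝ) : IsClosed (ball w T) :=
  isClosed_le (H3.continuous_ch.comp (continuous_const.prodMk continuous_id)) continuous_const

lemma ball_eq_empty {w : H3} {T : ℝ} (hT : T < 1) : ball w T = ∅ := by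
  ext u
  simp only [mem_ball, mem_empty_iff_false, iff_false, not_le]
  exact lt_of_lt_of_le hT (H3.one_le_ch w u)

/-- A compact box in the coordinates containing the ball. -/
lemma coord_mem_of_ch_le {w u : H3} {T A B : ℝ} (hT : 1 ≤ T) (hA : ‖w.z‖ ≤ A) (hB : |Real.log w.y| ≤ B)
    (h : H3.ch w u ≤ T) :
    ‖(H3.coord u).1‖ ≤ (A + 2 * T * Real.exp B) * (2 * T * Real.exp B) ∧
      |(H3.coord u).2| ≤ B + Real.log (2 * T) := by
  obtain ⟨h1, h2, h3⟩ := bounds_of_ch_le h
  have hw := w.pos
  have hu := u.pos
  have hT0 : 0 < T := by linarith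
  have hwB : w.y ≤ Real.exp B := by
    rw [← Real.log_le_iff_le_exp hw]
    exact (le_abs_self _).trans hB
  have hwB' : Real.exp (-B) ≤ w.y := by
    rw [← Real.le_log_iff_exp_le hw]
    have := neg_abs_le (Real.log w.y)
    linarith
  have hlog : |Real.log u.y| ≤ B + Real.log (2 * T) := by
    rw [abs_le]
    constructor
    · have : Real.log w.y ≤ Real.log (2 * T * u.y) := Real.log_le_log hw h2
      rw [Real.log_mul (by positivity) hu.ne'] at this
      have h5 := neg_abs_le (Real.log w.y)
      linarith
    · have : Real.log u.y ≤ Real.log (2 * T * w.y) := Real.log_le_log hu h1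
      rw [Real.log_mul (by positivity) hw.ne'] at this
      have h5 := le_abs_self (Real.log w.y)
      linarith
  refine ⟨?_, by simpa using hlog⟩
  have hz : ‖u.z‖ ≤ A + 2 * T * Real.exp B := by
    have h4 : ‖w.z - u.z‖ ^ 2 ≤ (2 * T * w.y) ^ 2 := by
      rw [← Complex.normSq_eq_norm_sq]
      refine h3.trans ?_
      nlinarith [mul_le_mul_of_nonneg_left h1 (by positivity : (0:ℝ) ≤ 2 * T * w.y)]
    have h5 : ‖w.z - u.z‖ ≤ 2 * T * w.y := by
      exact (sq_le_sq₀ (norm_nonneg _) (by positivity)).mp h4
    have h6 : ‖u.z‖ ≤ ‖w.z‖ + ‖w.z - u.z‖ := by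
      have : u.z = w.z - (w.z - u.z) := by ring
      calc ‖u.z‖ = ‖w.z - (w.z - u.z)‖ := by rw [← this]
        _ ≤ _ := norm_sub_le _ _
    have h7 : 2 * T * w.y ≤ 2 * T * Real.exp B := by gcongr
    linarith
  have hy : (u.y)⁻¹ ≤ 2 * T * Real.exp B := by
    have h8 : w.y / (2 * T) ≤ u.y := by
      rw [div_le_iff₀ (by positivity)]; linarith
    have h9 : Real.exp (-B) / (2 * T) ≤ u.y := le_trans (by gcongr) h8
    have h10 : (u.y)⁻¹ ≤ (Real.exp (-B) / (2 * T))⁻¹ := by
      exact inv_anti₀ (by positivity) h9
    refine h10.trans (le_of_eq ?_)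
    rw [Real.exp_neg]
    field_simp
  have hA0 : 0 ≤ A := le_trans (norm_nonneg _) hA
  simp only [H3.coord_apply, norm_div, Complex.norm_real, Real.norm_eq_abs, abs_of_pos hu]
  rw [div_eq_mul_inv]
  exact mul_le_mul hz hy (by positivity) (by positivity)

lemma isCompact_ball (w : H3) (T : ℝ) : IsCompact (ball w T) := by
  by_cases hT : T < 1
  · rw [ball_eq_empty hT]; exact isCompact_empty
  push Not at hT
  set A := (‖w.z‖ + 2 * T * Real.exp |Real.log w.y|) * (2 * T * Real.exp |Real.log w.y|)
  set B := |Real.log w.y| + Real.log (2 * T)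
  have hK : IsCompact ((Metric.closedBall (0 : ℂ) A) ×ˢ (Icc (-B) B)) :=
    (isCompact_closedBall _ _).prod isCompact_Icc
  have hK' : IsCompact (H3.coord.symm '' ((Metric.closedBall (0 : ℂ) A) ×ˢ (Icc (-B) B))) :=
    hK.image H3.coord.symm.continuous
  refine hK'.of_isClosed_subset (isClosed_ball w T) fun u hu => ?_
  obtain ⟨h1, h2⟩ := coord_mem_of_ch_le hT le_rfl le_rfl (mem_ball.mp hu)
  refine ⟨H3.coord u, ⟨?_, ?_⟩, H3.coord.symm_apply_apply u⟩
  · rwa [mem_closedBall_zero_iff]
  · rw [mem_Icc]; exact abs_le.mp h2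

instance : IsLocallyFiniteMeasure (volume : Measure H3) := by
  constructor
  intro w
  obtain ⟨K, hK, hwK⟩ := exists_compact_mem_nhds (H3.coord w)
  refine ⟨H3.coord ⁻¹' K, H3.coord.continuous.continuousAt.preimage_mem_nhds hwK, ?_⟩
  rw [H3.measurePreserving_coord.measure_preimage hK.measurableSet.nullMeasurableSet]
  exact hK.measure_lt_top

/-- One variable kernels: continuous on `[1, ∞)`, zero beyond some `T`. -/
structure Ker1 (k : ℝ → ℂ) : Prop where
  cont : ContinuousOn k (Ici 1)
  supp : ∃ T : ℝ, ∀ t, 1 ≤ t → T < t → k t = 0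

/-- The operator of a one variable kernel. -/
def R1 (k : ℝ → ℂ) (f : H3 → ℂ) (x : H3) : ℂ := ∫ u, k (H3.ch x u) * f u

/-- The value `k^(0)`. -/
def hat1 (k : ℝ → ℂ) : ℂ := R1 k (fun u => (u.y : ℂ)) H3.base

lemma Ker1.continuous {k : ℝ → ℂ} (hk : Ker1 k) :
    Continuous (fun p : H3 × H3 => k (H3.ch p.1 p.2)) := by
  refine hk.cont.comp_continuous H3.continuous_ch fun p => ?_
  exact H3.one_le_ch _ _

lemma Ker1.continuous_right {k : ℝ → ℂ} (hk : Ker1 k) (x : H3) :
    Continuous (fun u => k (H3.ch x u)) :=
  hk.continuous.comp (continuous_const.prodMk continuous_id)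

lemma Ker1.hasCompactSupport {k : ℝ → ℂ} (hk : Ker1 k) (x : H3) :
    HasCompactSupport (fun u => k (H3.ch x u)) := by
  obtain ⟨T, hT⟩ := hk.supp
  refine HasCompactSupport.intro (isCompact_ball x T) fun u hu => ?_
  exact hT _ (H3.one_le_ch _ _) (not_le.mp hu)

lemma Ker1.integrable {k : ℝ → ℂ} (hk : Ker1 k) (x : H3) {f : H3 → ℂ}
    (hf : LocallyIntegrable f) : Integrable (fun u => k (H3.ch x u) * f u) := by
  have := hf.integrable_smul_left_of_hasCompactSupport (hk.continuous_right x)
    (hk.hasCompactSupport x)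
  simpa [smul_eq_mul] using this

/-- The one variable property: every kernel acts by `hat1`. -/
def Eig1 (f : H3 → ℂ) : Prop := ∀ k, Ker1 k → ∀ x, R1 k f x = hat1 k * f x

/-! ### Several variables -/

variable {ι : Type*} [Fintype ι]

@[simp] lemma chv_apply (w w' : ι → H3) (j : ι) : chv w w' j = H3.ch (w j) (w' j) := rfl

lemma one_le_chv (w w' : ι → H3) (j : ι) : 1 ≤ chv w w' j := H3.one_le_ch _ _

lemma chv_comm (w w' : ι → H3) : chv w w' = chv w' w := by
  funext j; exact H3.ch_comm _ _

/-- The polyball. -/
def pball (w : ι → H3) (T : ℝ) : Set (ι → H3) := {w' | ∀ j, chv w w' j ≤ T}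

lemma pball_eq_pi (w : ι → H3) (T : ℝ) : pball w T = Set.pi univ fun j => ball (w j) T := by
  ext w'; simp [pball, ball, Set.mem_pi]

lemma isCompact_pball (w : ι → H3) (T : ℝ) : IsCompact (pball w T) := by
  rw [pball_eq_pi]
  exact isCompact_univ_pi fun j => isCompact_ball _ _

/-- Kernels on `(H3)^ι`: continuous on `{t | ∀ j, 1 ≤ t j}`, zero when some coordinate is large. -/
structure Ker (κ : (ι → ℝ) → ℂ) : Prop where
  cont : ContinuousOn κ {t | ∀ j, 1 ≤ t j}
  supp : ∃ T : ℝ, ∀ t : ι → ℝ, (∀ j, 1 ≤ t j) → (∃ j, T < t j) → κ t = 0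

/-- The value `κ^(0, …, 0)`. -/
def hat (κ : (ι → ℝ) → ℂ) : ℂ := Rk κ (fun w => ∏ j, ((w j).y : ℂ)) (fun _ => H3.base)

lemma Ker.continuous {κ : (ι → ℝ) → ℂ} (hκ : Ker κ) :
    Continuous (fun p : (ι → H3) × (ι → H3) => κ (chv p.1 p.2)) :=
  hκ.cont.comp_continuous continuous_chv fun _ _ => one_le_chv _ _ _

lemma Ker.continuous_right {κ : (ι → ℝ) → ℂ} (hκ : Ker κ) (w : ι → H3) :
    Continuous (fun w' => κ (chv w w')) :=
  hκ.continuous.comp (continuous_const.prodMk continuous_id)

lemma Ker.hasCompactSupport {κ : (ι → ℝ) → ℂ} (hκ : Ker κ) (w : ι → H3) :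
    HasCompactSupport (fun w' => κ (chv w w')) := by
  obtain ⟨T, hT⟩ := hκ.supp
  refine HasCompactSupport.intro (isCompact_pball w T) fun u hu => ?_
  refine hT _ (one_le_chv _ _) ?_
  simpa [pball] using hu

lemma Ker.integrable {κ : (ι → ℝ) → ℂ} (hκ : Ker κ) (w : ι → H3) {Φ : (ι → H3) → ℂ}
    (hΦ : LocallyIntegrable Φ) : Integrable (fun w' => κ (chv w w') * Φ w') := by
  have := hΦ.integrable_smul_left_of_hasCompactSupport (hκ.continuous_right w)
    (hκ.hasCompactSupport w)
  simpa [smul_eq_mul] using this

/-! ### Fubini -/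

section glue

variable [DecidableEq ι]

/-- Insert `u` at the place `j`. -/
def glue (j : ι) (v : {i // ¬ i = j} → H3) (u : H3) : ι → H3 :=
  fun i => if h : i = j then u else v ⟨i, h⟩

@[simp] lemma glue_same (j : ι) (v : {i // ¬ i = j} → H3) (u : H3) : glue j v u j = u := by
  simp [glue]

lemma glue_of_ne {i j : ι} (h : ¬ i = j) (v : {i // ¬ i = j} → H3) (u : H3) :
    glue j v u i = v ⟨i, h⟩ := by
  simp [glue, h]

lemma update_glue (j : ι) (v : {i // ¬ i = j} → H3) (u u' : H3) :
    Function.update (glue j v u) j u' = glue j v u' := by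
  funext i
  by_cases h : i = j
  · subst h; simp
  · rw [Function.update_of_ne h, glue_of_ne h, glue_of_ne h]

lemma continuous_glue (j : ι) :
    Continuous (fun p : ({i // ¬ i = j} → H3) × H3 => glue j p.1 p.2) := by
  refine continuous_pi fun i => ?_
  by_cases h : i = j
  · subst h; simpa using continuous_snd
  · simp only [glue_of_ne h]
    exact (continuous_apply _).comp continuous_fst

/-- The measure preserving equivalence behind `glue`. -/
lemma measurePreserving_glue (j : ι) :
    MeasurePreserving (fun p : ({i // ¬ i = j} → H3) × H3 => glue j p.1 p.2)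
      (volume : Measure (({i // ¬ i = j} → H3) × H3)) (volume : Measure (ι → H3)) := by
  let _ : Fintype {i // i = j} := Subtype.fintype (fun i => i = j)
  have h1 := (volume_preserving_piEquivPiSubtypeProd (fun _ : ι => H3) (fun i => i = j)).symm
  have h2 : MeasurePreserving (MeasurableEquiv.funUnique {i // i = j} H3).symm volume volume := by
    convert (volume_preserving_funUnique {i // i = j} H3).symm
  have h3 : MeasurePreserving (Prod.swap : (({i // ¬ i = j} → H3) × H3) → _)
      (volume : Measure (({i // ¬ i = j} → H3) × H3))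
      (volume : Measure (H3 × ({i // ¬ i = j} → H3))) := Measure.measurePreserving_swap
  have h4 : MeasurePreserving (Prod.map (MeasurableEquiv.funUnique {i // i = j} H3).symm
      (id : ({i // ¬ i = j} → H3) → _)) (volume : Measure (H3 × ({i // ¬ i = j} → H3)))
      (volume : Measure (({i // i = j} → H3) × ({i // ¬ i = j} → H3))) :=
    h2.prod (MeasurePreserving.id _)
  have h5 := (h1.comp h4).comp h3
  have h6 : (fun p : ({i // ¬ i = j} → H3) × H3 => glue j p.1 p.2) =
      (((MeasurableEquiv.piEquivPiSubtypeProd (fun _ : ι => H3) fun i => i = j).symm ∘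
        Prod.map (MeasurableEquiv.funUnique { i // i = j } H3).symm id) ∘ Prod.swap) := by
    funext p
    funext i
    by_cases h : i = j
    · subst h
      simp [glue, Function.comp, MeasurableEquiv.piEquivPiSubtypeProd,
        Equiv.piEquivPiSubtypeProd]
    · simp [glue, Function.comp, MeasurableEquiv.piEquivPiSubtypeProd,
        Equiv.piEquivPiSubtypeProd, h]
  rw [h6]
  exact h5

lemma measurableEmbedding_glue (j : ι) :
    MeasurableEmbedding (fun p : ({i // ¬ i = j} → H3) × H3 => glue j p.1 p.2) := by
  refine (continuous_glue j).measurableEmbedding ?_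
  rintro ⟨v, u⟩ ⟨v', u'⟩ h
  simp only at h
  refine Prod.ext ?_ ?_
  · funext i
    have := congrFun h i.1
    rwa [glue_of_ne i.2, glue_of_ne i.2] at this
  · have := congrFun h j
    simpa using this

/-- **Fubini**, one variable split off. -/
theorem integral_glue (j : ι) {F : (ι → H3) → ℂ} (hF : Integrable F) :
    ∫ w, F w = ∫ v : {i // ¬ i = j} → H3, ∫ u : H3, F (glue j v u) := by
  rw [← (measurePreserving_glue j).integral_comp (measurableEmbedding_glue j) F]
  exact integral_prod _ ((measurePreserving_glue j).integrable_comp_of_integrable hF)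

lemma chv_glue (a : ι → H3) (j : ι) (v : {i // ¬ i = j} → H3) (u u' : H3) :
    chv a (glue j v u) = Function.update (chv a (glue j v u')) j (H3.ch (a j) u) := by
  funext i
  by_cases h : i = j
  · subst h; simp
  · rw [Function.update_of_ne h, chv_apply, chv_apply, glue_of_ne h, glue_of_ne h]

/-- Freezing all variables but one in a kernel. -/
lemma Ker.ker1 {κ : (ι → ℝ) → ℂ} (hκ : Ker κ) (j : ι) {c : ι → ℝ} (hc : ∀ i, 1 ≤ c i) :
    Ker1 (fun t => κ (Function.update c j t)) := by
  have hdom : ∀ t : ℝ, 1 ≤ t → ∀ i, 1 ≤ Function.update c j t i := by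
    intro t ht i
    by_cases h : i = j
    · subst h; simpa using ht
    · rw [Function.update_of_ne h]; exact hc i
  constructor
  · have hu : Continuous (fun t : ℝ => Function.update c j t) :=
      continuous_const.update j continuous_id
    exact hκ.cont.comp hu.continuousOn fun t ht => hdom t ht
  · obtain ⟨T, hT⟩ := hκ.supp
    exact ⟨T, fun t ht1 ht => hT _ (hdom t ht1) ⟨j, by simpa using ht⟩⟩

/-- **Forward theorem on `(H3)^ι`**: if `Φ` is continuous and in each variable separately all one
variable kernels act by `hat1`, then every kernel acts by `hat`. -/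
theorem R_eq_hat_mul {Φ : (ι → H3) → ℂ} (hΦ : Continuous Φ)
    (h1 : ∀ (j : ι) (w : ι → H3), Eig1 (fun u => Φ (Function.update w j u)))
    {κ : (ι → ℝ) → ℂ} (hκ : Ker κ) (w : ι → H3) : Rk κ Φ w = hat κ * Φ w := by
  classical
  set F : Finset ι → (ι → H3) → ℂ := fun s w' =>
    κ (chv (s.piecewise (fun _ => H3.base) w) w') * ((∏ i ∈ s, ((w' i).y : ℂ)) * Φ (s.piecewise w w'))
    with hF
  have hcont : ∀ s : Finset ι, Continuous fun w' : ι → H3 =>
      (∏ i ∈ s, ((w' i).y : ℂ)) * Φ (s.piecewise w w') := by
    intro s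
    refine Continuous.mul ?_ (hΦ.comp ?_)
    · refine continuous_finsetProd _ fun i _ => ?_
      exact Complex.continuous_ofReal.comp (H3.continuous_y.comp (continuous_apply i))
    · refine continuous_pi fun i => ?_
      by_cases h : i ∈ s
      · simp only [Finset.piecewise_eq_of_mem _ _ _ h]; exact continuous_const
      · simp only [Finset.piecewise_eq_of_notMem _ _ _ h]; exact continuous_apply i
  have hint : ∀ s, Integrable (F s) := fun s =>
    hκ.integrable _ (hcont s).locallyIntegrable
  have key : ∀ s, ∫ w', F s w' = Rk κ Φ w := by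
    intro s
    induction s using Finset.induction_on with
    | empty => simp [hF, Rk]
    | insert j s hj ih =>
      rw [← ih, integral_glue j (hint _), integral_glue j (hint _)]
      congr 1
      funext v
      set c := chv (s.piecewise (fun _ => H3.base) w) (glue j v H3.base) with hc
      set b : ι → H3 := s.piecewise w (glue j v H3.base) with hb
      set P : ℂ := ∏ i ∈ s, ((glue j v H3.base i).y : ℂ) with hP
      have hPu : ∀ u, ∏ i ∈ s, ((glue j v u i).y : ℂ) = P := by
        intro u
        refine Finset.prod_congr rfl fun i hi => ?_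
        have hij : ¬ i = j := by rintro rfl; exact hj hi
        rw [glue_of_ne hij, glue_of_ne hij]
      have e1 : ∀ u, F s (glue j v u) =
          P * (κ (Function.update c j (H3.ch (w j) u)) * Φ (Function.update b j u)) := by
        intro u
        have h2 : s.piecewise w (glue j v u) = Function.update b j u := by
          funext i
          by_cases h : i = j
          · subst h; simp [hj]
          · rw [Function.update_of_ne h]
            by_cases h' : i ∈ s
            · simp [hb, h']
            · simp [hb, h', glue_of_ne h]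
        have h3 : (s.piecewise (fun _ => H3.base) w) j = w j := by simp [hj]
        simp only [hF]
        rw [chv_glue _ j v u H3.base, h2, hPu, h3]
        ring
      have e2 : ∀ u, F (insert j s) (glue j v u) =
          (P * Φ (Function.update b j (w j))) *
            (κ (Function.update c j (H3.ch H3.base u)) * (u.y : ℂ)) := by
        intro u
        have h2 : (insert j s).piecewise w (glue j v u) = Function.update b j (w j) := by
          funext i
          by_cases h : i = j
          · subst h; simp
          · rw [Function.update_of_ne h]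
            by_cases h' : i ∈ s
            · simp [hb, h']
            · simp [hb, h', h, glue_of_ne h]
        have h3 : chv ((insert j s).piecewise (fun _ => H3.base) w) (glue j v u) =
            Function.update c j (H3.ch H3.base u) := by
          funext i
          by_cases h : i = j
          · subst h; simp
          · rw [Function.update_of_ne h]
            by_cases h' : i ∈ s
            · simp [hc, h', glue_of_ne h]
            · simp [hc, h', h, glue_of_ne h]
        simp only [hF]
        rw [h3, h2, Finset.prod_insert hj, hPu, glue_same]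
        ring
      simp_rw [e1, e2]
      rw [integral_const_mul, integral_const_mul]
      have hk := hκ.ker1 j (c := c) (fun i => one_le_chv _ _ i)
      have := h1 j b _ hk (w j)
      simp only [R1, hat1] at this
      rw [this]
      ring
  have h2 := key Finset.univ
  rw [← h2]
  simp only [hF, Finset.piecewise_univ, hat, Rk]
  rw [← integral_mul_const]
  congr 1
  funext w'
  ring

end glue

end Fermat.Agent.H9Z
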