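import Fermat.Agent.H74C3c
import Fermat.Agent.H75Y4
import Fermat.Agent.H9ZRad
import Fermat.Agent.H53Z1

/-!
# The forward theorem on `(H3)^J` and the `K₀` waves (helper74, package C3c)

* `forward_J` : `Φ` of class `C²` on `(H3)^J` with `Lap_j Φ = -Φ` for all `j` satisfies
  `R(κ) Φ = hat κ * Φ` for every kernel `κ`;
* `Lap_kt1`, `CC_kt1` : the wave `y K₀(4π|ν|y) e(2 Re νz)` is a smooth eigenfunction;
* `Rk_kterm`, `Rk_hasSum` : products of waves and absolutely convergent sums.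
-/

set_option autoImplicit false
set_option linter.unusedSectionVars false
set_option linter.style.haveILetI false

noncomputable section

open Filter Topology Set MeasureTheory Function
open scoped ContDiff Real

namespace Fermat.Agent.H74.C3

open Fermat.Agent Fermat.Agent.H3
open Fermat.Agent.H5Z (chv Rk)
open Fermat.Agent.H22Z (K0 K1 KJ)
open Fermat.Agent.H53Z (kt1 kterm)

variable {J : Type*} [Fintype J]

/-! ### The forward theorem on `(H3)^J` -/

theorem hat_eq_hatv (κ : (J → ℝ) → ℂ) : H9Z.hat κ = hatv κ := rfl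

theorem eig1_of_Lap {f : H3 → ℂ} (hf : H75Y.CC 2 f) (hL : ∀ w, Lap f w = -f w) :
    H9Z.Eig1 f := by
  intro k hk x
  obtain ⟨T, hT⟩ := hk.supp
  have hk' : ContinuousOn (fun t => if t ≤ T + 1 then k t else 0) (Ici 1) := by
    have h0 : EqOn (fun t => if t ≤ T + 1 then k t else 0) k (Ici 1) := by
      intro t ht
      by_cases h : t ≤ T + 1
      · simp [h]
      · simp only [h, if_false]
        exact (hT t ht (by linarith)).symm
    exact hk.cont.congr h0
  have h := H75Y.forward' (R := T + 2) hk' (fun t ht => if_neg (by linarith)) hf hL x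
  have e : ∀ w w' : H3, (if ch w w' ≤ T + 1 then k (ch w w') else 0) = k (ch w w') := by
    intro w w'
    by_cases h : ch w w' ≤ T + 1
    · simp [h]
    · simp only [h, if_false]
      exact (hT _ (one_le_ch _ _) (by linarith)).symm
  simp only [H75Y.hatK, e] at h
  exact h

theorem continuous_of_contDiffOn_J {n : WithTop ℕ∞} {Φ : (J → H3) → ℂ}
    (h : ContDiffOn ℝ n (fun p => Φ (ptv p)) (UpJ J)) : Continuous Φ := by
  have h1 : ContinuousOn (fun p => Φ (ptv p)) (UpJ J) := h.continuousOn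
  have h2 : Continuous fun w : J → H3 => fun j => ((w j).z, (w j).y) :=
    continuous_pi fun j => (continuous_z.comp (continuous_apply j)).prodMk
      (continuous_y.comp (continuous_apply j))
  have h3 := h1.comp_continuous h2 mem_UpJ
  have h4 : (fun p => Φ (ptv p)) ∘ (fun (w : J → H3) j => ((w j).z, (w j).y)) = Φ := by
    funext w
    simp only [comp_apply, ptv_self]
  rwa [h4] at h3

variable [DecidableEq J]

theorem CC_update {n : ℕ∞} {Φ : (J → H3) → ℂ} (h : ContDiffOn ℝ n (fun p => Φ (ptv p)) (UpJ J))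
    (j : J) (w : J → H3) : H75Y.CC n (fun v => Φ (update w j v)) := by
  set P : J → ℂ × ℝ := fun j => ((w j).z, (w j).y) with hP
  have e1 : ∀ p : ℂ × ℝ, ptv (update P j p) = update w j (pt p.1 p.2) := by
    intro p
    funext i
    by_cases h : i = j
    · subst h
      simp [ptv]
    · simp only [ptv, update_of_ne h]
      exact congrFun (ptv_self w) i
  have hsm : ContDiff ℝ ∞ (fun p : ℂ × ℝ => update P j p) := by
    rw [contDiff_pi]
    intro i
    by_cases h : i = j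
    · subst h
      simp only [update_self]
      exact contDiff_id
    · simpa [update_of_ne h] using contDiff_const
  have hmaps : MapsTo (fun p : ℂ × ℝ => update P j p) {p : ℂ × ℝ | 0 < p.2} (UpJ J) := by
    intro p hp i
    by_cases h : i = j
    · subst h
      simp only [update_self]
      exact hp
    · simp only [update_of_ne h]
      exact (w i).pos
  have h1 := h.comp (f := fun p : ℂ × ℝ => update P j p)
    ((hsm.of_le (by exact_mod_cast le_top)).contDiffOn) hmaps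
  have h2 : (fun p : ℂ × ℝ => Φ (update w j (pt p.1 p.2))) =
      (fun p => Φ (ptv p)) ∘ fun p : ℂ × ℝ => update P j p := by
    funext p
    simp only [comp_apply, e1]
  show ContDiffOn ℝ n (fun p : ℂ × ℝ => Φ (update w j (pt p.1 p.2))) {p | 0 < p.2}
  rw [h2]
  exact h1

/-- **Forward theorem on `(H3)^J`**, functions which are `C²` in each variable. -/
theorem forward_J' {Φ : (J → H3) → ℂ} (hΦ : Continuous Φ)
    (h2 : ∀ (j : J) (w : J → H3), H75Y.CC 2 fun v => Φ (update w j v))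
    (hL : ∀ (j : J) (w : J → H3), Lap (fun v => Φ (update w j v)) (w j) = -Φ w)
    {κ : (J → ℝ) → ℂ} (hκ : H9Z.Ker κ) (w : J → H3) : Rk κ Φ w = hatv κ * Φ w := by
  refine H9Z.R_eq_hat_mul hΦ (fun j w => eig1_of_Lap (h2 j w) fun v => ?_) hκ w
  have h := hL j (update w j v)
  simpa using h

/-- **Forward theorem on `(H3)^J`.** -/
theorem forward_J {Φ : (J → H3) → ℂ} (h2 : ContDiffOn ℝ 2 (fun p => Φ (ptv p)) (UpJ J))
    (hL : ∀ (j : J) (w : J → H3), Lap (fun v => Φ (update w j v)) (w j) = -Φ w)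
    {κ : (J → ℝ) → ℂ} (hκ : H9Z.Ker κ) (w : J → H3) : Rk κ Φ w = hatv κ * Φ w :=
  forward_J' (continuous_of_contDiffOn_J h2) (fun j w => CC_update (n := 2) h2 j w) hL hκ w

/-! ### The waves -/

theorem deriv2_of_exp {f : ℝ → ℂ} {c : ℂ} (h : ∀ t, HasDerivAt f (c * f t) t) (t : ℝ) :
    deriv (deriv f) t = c ^ 2 * f t := by
  have h1 : deriv f = fun t => c * f t := funext fun t => (h t).deriv
  rw [h1, ((h t).const_mul c).deriv]
  ring

theorem kt1_pt (ν z : ℂ) {y : ℝ} (hy : 0 < y) : kt1 ν (pt z y) =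
    ((y * K0 (4 * π * ‖ν‖ * y) : ℝ) : ℂ) *
      Complex.exp (2 * π * Complex.I * ((2 * (ν * z).re : ℝ) : ℂ)) := by
  rw [kt1, pt_y hy, pt_z]

theorem dz1_kt1 (ν : ℂ) (w : H3) :
    dz1 (kt1 ν) w = (4 * π * Complex.I * ν.re) ^ 2 * kt1 ν w := by
  have h : ∀ t : ℝ, HasDerivAt (fun t : ℝ => kt1 ν (pt (w.z + t) w.y))
      ((4 * π * Complex.I * ν.re) * kt1 ν (pt (w.z + t) w.y)) t := by
    intro t
    have e : (fun t : ℝ => kt1 ν (pt (w.z + t) w.y)) = fun t : ℝ =>
        ((w.y * K0 (4 * π * ‖ν‖ * w.y) : ℝ) : ℂ) *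
          Complex.exp (2 * π * Complex.I * ((2 * (ν * w.z).re : ℝ) : ℂ) +
            (4 * π * Complex.I * ν.re) * (t : ℂ)) := by
      funext t
      rw [kt1_pt _ _ w.pos]
      congr 2
      rw [mul_add, Complex.add_re, Complex.re_mul_ofReal]
      push_cast
      ring
    have e' := congrFun e t
    rw [e', e]
    have h1 : HasDerivAt (fun t : ℝ => (t : ℂ)) 1 t := (hasDerivAt_id t).ofReal_comp
    have h2 := ((((h1.const_mul (4 * π * Complex.I * ν.re)).const_add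
      (2 * π * Complex.I * ((2 * (ν * w.z).re : ℝ) : ℂ))).cexp).const_mul
      ((w.y * K0 (4 * π * ‖ν‖ * w.y) : ℝ) : ℂ))
    refine h2.congr_deriv ?_
    ring
  have h3 := deriv2_of_exp h 0
  simp only [Complex.ofReal_zero, add_zero, pt_self] at h3
  exact h3

theorem dz2_kt1 (ν : ℂ) (w : H3) :
    dz2 (kt1 ν) w = (-(4 * π * Complex.I * ν.im)) ^ 2 * kt1 ν w := by
  have h : ∀ t : ℝ, HasDerivAt (fun t : ℝ => kt1 ν (pt (w.z + t * Complex.I) w.y))
      ((-(4 * π * Complex.I * ν.im)) * kt1 ν (pt (w.z + t * Complex.I) w.y)) t := by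
    intro t
    have e : (fun t : ℝ => kt1 ν (pt (w.z + t * Complex.I) w.y)) = fun t : ℝ =>
        ((w.y * K0 (4 * π * ‖ν‖ * w.y) : ℝ) : ℂ) *
          Complex.exp (2 * π * Complex.I * ((2 * (ν * w.z).re : ℝ) : ℂ) +
            (-(4 * π * Complex.I * ν.im)) * (t : ℂ)) := by
      funext t
      rw [kt1_pt _ _ w.pos]
      congr 2
      have : (ν * (w.z + t * Complex.I)).re = (ν * w.z).re - t * ν.im := by
        simp only [Complex.mul_re, Complex.add_re, Complex.add_im, Complex.ofReal_re,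
          Complex.ofReal_im, Complex.I_re, Complex.I_im, Complex.mul_im]
        ring
      rw [this]
      push_cast
      ring
    have e' := congrFun e t
    rw [e', e]
    have h1 : HasDerivAt (fun t : ℝ => (t : ℂ)) 1 t := (hasDerivAt_id t).ofReal_comp
    have h2 := ((((h1.const_mul (-(4 * π * Complex.I * ν.im))).const_add
      (2 * π * Complex.I * ((2 * (ν * w.z).re : ℝ) : ℂ))).cexp).const_mul
      ((w.y * K0 (4 * π * ‖ν‖ * w.y) : ℝ) : ℂ))
    refine h2.congr_deriv ?_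
    ring
  have h3 := deriv2_of_exp h 0
  simp only [Complex.ofReal_zero, zero_mul, add_zero, pt_self] at h3
  exact h3

/-- The exponential factor. -/
def ex (ν z : ℂ) : ℂ := Complex.exp (2 * π * Complex.I * ((2 * (ν * z).re : ℝ) : ℂ))

theorem hasDerivAt_kt1_y {ν : ℂ} (hν : ν ≠ 0) (z : ℂ) {t : ℝ} (ht : 0 < t) :
    HasDerivAt (fun t : ℝ => kt1 ν (pt z t))
      (((K0 (4 * π * ‖ν‖ * t) - 4 * π * ‖ν‖ * t * K1 (4 * π * ‖ν‖ * t) : ℝ) : ℂ) * ex ν z) t := by
  have hc : 0 < 4 * π * ‖ν‖ := by have := norm_pos_iff.mpr hν; positivity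
  set c := 4 * π * ‖ν‖ with hcd
  have e : (fun t : ℝ => kt1 ν (pt z t)) =ᶠ[𝓝 t]
      fun t : ℝ => ((t * K0 (c * t) : ℝ) : ℂ) * ex ν z := by
    filter_upwards [lt_mem_nhds ht] with s hs
    rw [kt1_pt _ _ hs, ex]
  refine HasDerivAt.congr_of_eventuallyEq ?_ e
  refine HasDerivAt.mul_const ?_ _
  refine HasDerivAt.ofReal_comp ?_
  have h1 : HasDerivAt (fun t : ℝ => c * t) c t := by
    simpa using (hasDerivAt_id t).const_mul c
  have h2 := (H22Z.hasDerivAt_K0 (x := c * t) (by positivity)).comp t h1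
  have h3 := (hasDerivAt_id t).mul h2
  refine HasDerivAt.congr_deriv h3 ?_
  simp only [id, comp_apply]
  ring

theorem hasDerivAt_kt1_yy {ν : ℂ} (hν : ν ≠ 0) (z : ℂ) {t : ℝ} (ht : 0 < t) :
    HasDerivAt (fun t : ℝ => (((K0 (4 * π * ‖ν‖ * t) -
        4 * π * ‖ν‖ * t * K1 (4 * π * ‖ν‖ * t) : ℝ) : ℂ) * ex ν z))
      ((((4 * π * ‖ν‖) ^ 2 * t * K0 (4 * π * ‖ν‖ * t) -
        4 * π * ‖ν‖ * K1 (4 * π * ‖ν‖ * t) : ℝ) : ℂ) * ex ν z) t := by
  have hc : 0 < 4 * π * ‖ν‖ := by have := norm_pos_iff.mpr hν; positivity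
  set c := 4 * π * ‖ν‖ with hcd
  refine HasDerivAt.mul_const ?_ _
  refine HasDerivAt.ofReal_comp ?_
  have h1 : HasDerivAt (fun t : ℝ => c * t) c t := by
    simpa using (hasDerivAt_id t).const_mul c
  have hx : 0 < c * t := by positivity
  have h2 := (H22Z.hasDerivAt_K0 (x := c * t) hx).comp t h1
  have h3 := (H22Z.hasDerivAt_K1 (x := c * t) hx).comp t h1
  have h4 := h2.sub (h1.mul h3)
  refine HasDerivAt.congr_deriv h4 ?_
  have h5 := H22Z.K0_ode hx
  simp only [comp_apply]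
  linear_combination c * h5

theorem dyy_kt1 {ν : ℂ} (hν : ν ≠ 0) (w : H3) : dyy (kt1 ν) w =
    (((4 * π * ‖ν‖) ^ 2 * w.y * K0 (4 * π * ‖ν‖ * w.y) -
        4 * π * ‖ν‖ * K1 (4 * π * ‖ν‖ * w.y) : ℝ) : ℂ) * ex ν w.z := by
  have e : (deriv fun t : ℝ => kt1 ν (pt w.z t)) =ᶠ[𝓝 w.y] fun t : ℝ =>
      (((K0 (4 * π * ‖ν‖ * t) - 4 * π * ‖ν‖ * t * K1 (4 * π * ‖ν‖ * t) : ℝ) : ℂ) * ex ν w.z) := by
    filter_upwards [lt_mem_nhds w.pos] with t ht
    exact (hasDerivAt_kt1_y hν w.z ht).deriv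
  rw [dyy, e.deriv_eq]
  exact (hasDerivAt_kt1_yy hν w.z w.pos).deriv

/-- **The wave is an eigenfunction of the Laplace operator.** -/
theorem Lap_kt1 {ν : ℂ} (hν : ν ≠ 0) (w : H3) : Lap (kt1 ν) w = -kt1 ν w := by
  have h1 : dy (kt1 ν) w = _ := (hasDerivAt_kt1_y hν w.z w.pos).deriv
  rw [Lap, dz1_kt1, dz2_kt1, dyy_kt1 hν, h1]
  have h2 : kt1 ν w = ((w.y * K0 (4 * π * ‖ν‖ * w.y) : ℝ) : ℂ) * ex ν w.z := rfl
  have h3 : ((‖ν‖ : ℝ) : ℂ) ^ 2 = (ν.re : ℂ) ^ 2 + (ν.im : ℂ) ^ 2 := by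
    have := Complex.sq_norm ν
    rw [Complex.normSq_apply] at this
    have h4 : ((‖ν‖ ^ 2 : ℝ) : ℂ) = ((ν.re * ν.re + ν.im * ν.im : ℝ) : ℂ) := by rw [this]
    push_cast at h4
    rw [h4]
    ring
  rw [h2]
  push_cast
  generalize ((K0 (4 * π * ‖ν‖ * w.y) : ℝ) : ℂ) = k0
  generalize ((K1 (4 * π * ‖ν‖ * w.y) : ℝ) : ℂ) = k1
  linear_combination (16 * (π : ℂ) ^ 2 * (w.y : ℂ) ^ 3 * k0 * ex ν w.z) * h3 +
    (16 * (π : ℂ) ^ 2 * (w.y : ℂ) ^ 3 * k0 * ex ν w.z * ((ν.re : ℂ) ^ 2 + (ν.im : ℂ) ^ 2)) *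
      Complex.I_sq

/-- The wave is smooth. -/
theorem CC_kt1 {ν : ℂ} (hν : ν ≠ 0) : H75Y.CC ⊤ (kt1 ν) := by
  have hc : 0 < 4 * π * ‖ν‖ := by have := norm_pos_iff.mpr hν; positivity
  show ContDiffOn ℝ ∞ (fun p : ℂ × ℝ => kt1 ν (pt p.1 p.2)) {p | 0 < p.2}
  have e : EqOn (fun p : ℂ × ℝ => kt1 ν (pt p.1 p.2)) (fun p : ℂ × ℝ =>
      ((p.2 * K0 (4 * π * ‖ν‖ * p.2) : ℝ) : ℂ) * ex ν p.1) {p | 0 < p.2} := by
    intro p hp
    exact kt1_pt ν p.1 hp
  refine ContDiffOn.congr ?_ e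
  have h1 : ContDiffOn ℝ ∞ (fun p : ℂ × ℝ => K0 (4 * π * ‖ν‖ * p.2)) {p | 0 < p.2} :=
    H22Z.contDiffOn_K0.comp (contDiff_const.mul contDiff_snd).contDiffOn
      fun p hp => mul_pos hc hp
  have h2 : ContDiffOn ℝ ∞ (fun p : ℂ × ℝ => ((p.2 * K0 (4 * π * ‖ν‖ * p.2) : ℝ) : ℂ))
      {p | 0 < p.2} :=
    Complex.ofRealCLM.contDiff.comp_contDiffOn (contDiff_snd.contDiffOn.mul h1)
  have h3 : ContDiff ℝ ∞ (fun p : ℂ × ℝ => ex ν p.1) := by
    unfold ex
    refine Complex.contDiff_exp.comp ?_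
    refine contDiff_const.mul (Complex.ofRealCLM.contDiff.comp ?_)
    refine contDiff_const.mul ?_
    have h4 : ContDiff ℝ ∞ (fun p : ℂ × ℝ => ν * p.1) := contDiff_const.mul contDiff_fst
    exact Complex.reCLM.contDiff.comp h4
  exact h2.mul h3.contDiffOn

theorem kterm_update (ν : J → ℂ) (w : J → H3) (j : J) (v : H3) :
    kterm ν (update w j v) = (∏ i ∈ Finset.univ.erase j, kt1 (ν i) (w i)) * kt1 (ν j) v := by
  rw [kterm, ← Finset.prod_erase_mul _ _ (Finset.mem_univ j), update_self]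
  congr 1
  refine Finset.prod_congr rfl fun i hi => ?_
  rw [update_of_ne (Finset.ne_of_mem_erase hi)]

theorem Lap_kterm {ν : J → ℂ} (hν : ∀ j, ν j ≠ 0) (j : J) (w : J → H3) :
    Lap (fun v => kterm ν (update w j v)) (w j) = -kterm ν w := by
  have e : (fun v => kterm ν (update w j v)) =
      fun v => (∏ i ∈ Finset.univ.erase j, kt1 (ν i) (w i)) * kt1 (ν j) v := by
    funext v
    exact kterm_update ν w j v
  have e2 := kterm_update ν w j (w j)
  rw [update_eq_self] at e2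
  rw [e, Lap_const_mul, Lap_kt1 (hν j), e2]
  ring

theorem contDiffOn_kterm {ν : J → ℂ} (hν : ∀ j, ν j ≠ 0) :
    ContDiffOn ℝ ∞ (fun p => kterm ν (ptv p)) (UpJ J) := by
  unfold kterm
  refine contDiffOn_prod fun j _ => ?_
  exact (CC_kt1 (hν j)).comp ((contDiff_apply ℝ (ℂ × ℝ) j).contDiffOn) fun p hp => hp j

/-- **The product of waves is an eigenfunction of every radial kernel.** -/
theorem Rk_kterm {ν : J → ℂ} (hν : ∀ j, ν j ≠ 0) {κ : (J → ℝ) → ℂ} (hκ : H9Z.Ker κ)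
    (w : J → H3) : Rk κ (kterm ν) w = hatv κ * kterm ν w :=
  forward_J ((contDiffOn_kterm hν).of_le two_le_infty) (Lap_kterm hν) hκ w

/-- **Absolutely convergent sums of eigenfunctions.** -/
theorem Rk_hasSum {ι : Type*} [Countable ι] {f : ι → (J → H3) → ℂ} {Φ : (J → H3) → ℂ}
    (hf : ∀ i, Continuous (f i)) (hs : ∀ w, HasSum (fun i => f i w) (Φ w))
    {κ : (J → ℝ) → ℂ} (hκ : H9Z.Ker κ) (hE : ∀ i w, Rk κ (f i) w = hatv κ * f i w)
    (w : J → H3) {b : ι → ℝ} (hb : Summable b) {T : ℝ}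
    (hT : ∀ t : J → ℝ, (∀ j, 1 ≤ t j) → (∃ j, T < t j) → κ t = 0)
    (hbd : ∀ i w', (∀ j, ch (w j) (w' j) ≤ T) → ‖f i w'‖ ≤ b i) :
    Rk κ Φ w = hatv κ * Φ w := by
  have hint : ∀ i, Integrable fun w' => κ (chv w w') * f i w' := fun i =>
    hκ.integrable w (hf i).locallyIntegrable
  have hκi : Integrable fun w' => κ (chv w w') * (1 : ℂ) :=
    hκ.integrable w continuous_const.locallyIntegrable
  have hle : ∀ i w', ‖κ (chv w w') * f i w'‖ ≤ b i * ‖κ (chv w w') * (1 : ℂ)‖ := by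
    intro i w'
    by_cases h : ∀ j, ch (w j) (w' j) ≤ T
    · rw [norm_mul, mul_one, mul_comm (b i)]
      exact mul_le_mul_of_nonneg_left (hbd i w' h) (norm_nonneg _)
    · push Not at h
      have h0 : κ (chv w w') = 0 := hT _ (fun j => one_le_ch _ _) h
      rw [h0]
      simp
  have hsum : Summable fun i => ∫ w', ‖κ (chv w w') * f i w'‖ := by
    refine Summable.of_nonneg_of_le (fun i => integral_nonneg fun _ => norm_nonneg _)
      (fun i => ?_) (hb.mul_right (∫ w', ‖κ (chv w w') * (1 : ℂ)‖))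
    rw [← integral_const_mul]
    exact integral_mono (hint i).norm (hκi.norm.const_mul _) fun w' => hle i w'
  have h1 := hasSum_integral_of_summable_integral_norm hint hsum
  have h2 : ∀ w', ∑' i, κ (chv w w') * f i w' = κ (chv w w') * Φ w' := fun w' =>
    ((hs w').mul_left _).tsum_eq
  simp only [h2] at h1
  have h3 : HasSum (fun i => ∫ w', κ (chv w w') * f i w') (hatv κ * Φ w) := by
    have h4 := (hs w).mul_left (hatv κ)
    refine h4.congr_fun fun i => ?_
    exact hE i w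
  exact h1.unique h3

end Fermat.Agent.H74.C3
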