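import Fermat.Agent.H31Hyp1

/-!
# Definitions for block (T) of S47 (helper96)

The theta lift from automorphic functions on hyperbolic 3-space for `ℤ[ω]` to weight one.

* `sq3 = i √3`, `om = (-1 + sq3) / 2`, `Eis = ℤ[ω]` as a subring of `ℂ`;
* `Gam N` : the group `Γ₀(N)` over `ℤ[ω]`, as a subgroup of `GL (Fin 2) ℂ` (so it acts on `H3`);
* Hermitian vectors `(a, b, d)` (`a d : ℝ`, `b : ℂ`), `hQ`, `pair`;
* `Theta n φ τ w`, the Siegel theta kernel with test function `φ : ℤ × Eis × ℤ → ℂ`, index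
  `(a, β, d) ↔ n⁻¹ (a, β / sq3, d)`; `phiN N` the test function of block (T);
* `IsCut Γ χ` : cut-off functions; `lift χ F n φ τ` : the theta lift;
* `ICT N c F` : the output of block (C).
-/

set_option autoImplicit false

noncomputable section

open MeasureTheory
open scoped ComplexConjugate Real

namespace Fermat.Agent.S47T

/-! ### The ring `ℤ[ω]` -/

/-- `√-3 = i √3`. -/
def sq3 : ℂ := Complex.I * (Real.sqrt 3 : ℝ)

/-- `ω = (-1 + √-3) / 2`. -/
def om : ℂ := (-1 + sq3) / 2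

theorem sq3_mul_sq3 : sq3 * sq3 = -3 := by
  rw [sq3]
  have h : ((Real.sqrt 3 : ℝ) : ℂ) * ((Real.sqrt 3 : ℝ) : ℂ) = 3 := by
    rw [← Complex.ofReal_mul, Real.mul_self_sqrt (by norm_num)]
    norm_num
  linear_combination (Complex.I * Complex.I) * h + 3 * Complex.I_mul_I

theorem sq3_sq : sq3 ^ 2 = -3 := by rw [sq, sq3_mul_sq3]

theorem sq3_ne_zero : sq3 ≠ 0 := by
  intro h
  have := sq3_mul_sq3
  rw [h] at this
  norm_num at this

theorem conj_sq3 : conj sq3 = -sq3 := by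
  rw [sq3, map_mul, Complex.conj_I, Complex.conj_ofReal]
  ring

theorem sq3_eq : sq3 = 1 + 2 * om := by rw [om]; ring

theorem om_rel : om ^ 2 + om + 1 = 0 := by
  rw [om]
  linear_combination (1 / 4 : ℂ) * sq3_mul_sq3

theorem conj_om : conj om = -1 - om := by
  rw [om, map_div₀, map_add, map_neg, map_one, conj_sq3, map_ofNat]
  ring

/-- `ℤ[ω]` as a subring of `ℂ`. -/
def Eis : Subring ℂ where
  carrier := {x | ∃ a b : ℤ, x = a + b * om}
  mul_mem' := by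
    rintro _ _ ⟨a, b, rfl⟩ ⟨c, d, rfl⟩
    refine ⟨a * c - b * d, a * d + b * c - b * d, ?_⟩
    push_cast
    linear_combination ((b : ℂ) * d) * om_rel
  one_mem' := ⟨1, 0, by simp⟩
  add_mem' := by
    rintro _ _ ⟨a, b, rfl⟩ ⟨c, d, rfl⟩
    exact ⟨a + c, b + d, by push_cast; ring⟩
  zero_mem' := ⟨0, 0, by simp⟩
  neg_mem' := by
    rintro _ ⟨a, b, rfl⟩
    exact ⟨-a, -b, by push_cast; ring⟩

theorem mem_Eis {x : ℂ} : x ∈ Eis ↔ ∃ a b : ℤ, x = a + b * om := Iff.rfl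

theorem om_mem : om ∈ Eis := ⟨0, 1, by simp⟩

theorem sq3_mem : sq3 ∈ Eis := ⟨1, 2, by rw [sq3_eq]; push_cast; ring⟩

theorem conj_mem {x : ℂ} (hx : x ∈ Eis) : conj x ∈ Eis := by
  obtain ⟨a, b, rfl⟩ := hx
  refine ⟨a - b, -b, ?_⟩
  rw [map_add, map_mul, conj_om, map_intCast, map_intCast]
  push_cast
  ring

/-- `ω` as an element of `ℤ[ω]`. -/
def omE : Eis := ⟨om, om_mem⟩

/-- `√-3` as an element of `ℤ[ω]`. -/
def sq3E : Eis := ⟨sq3, sq3_mem⟩

/-- Complex conjugation on `ℤ[ω]`. -/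
def conjE : Eis →+* Eis where
  toFun x := ⟨conj (x : ℂ), conj_mem x.2⟩
  map_one' := Subtype.ext (by simp)
  map_mul' x y := Subtype.ext (by simp)
  map_zero' := Subtype.ext (by simp)
  map_add' x y := Subtype.ext (by simp)

@[simp] theorem coe_conjE (x : Eis) : ((conjE x : Eis) : ℂ) = conj (x : ℂ) := rfl

@[simp] theorem coe_omE : ((omE : Eis) : ℂ) = om := rfl

@[simp] theorem coe_sq3E : ((sq3E : Eis) : ℂ) = sq3 := rfl

theorem om_im_ne : om.im ≠ 0 := by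
  have h : om.im = Real.sqrt 3 / 2 := by
    rw [om, sq3]
    simp
  rw [h]
  have : (0 : ℝ) < Real.sqrt 3 := Real.sqrt_pos.mpr (by norm_num)
  positivity

theorem om_indep {a b : ℤ} (h : (a : ℂ) + b * om = 0) : a = 0 ∧ b = 0 := by
  have h1 := congrArg Complex.im h
  simp only [Complex.add_im, Complex.mul_im, Complex.intCast_im, Complex.intCast_re, zero_add,
    Complex.zero_im, zero_mul, add_zero] at h1
  have hb : (b : ℝ) = 0 := (mul_eq_zero.mp h1).resolve_right om_im_ne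
  have hb' : b = 0 := by exact_mod_cast hb
  refine ⟨?_, hb'⟩
  rw [hb', Int.cast_zero, zero_mul, add_zero] at h
  exact_mod_cast h

/-- The coordinates on `ℤ[ω]`. -/
def eisEquiv : ℤ × ℤ ≃ Eis := Equiv.ofBijective
  (fun p => (⟨(p.1 : ℂ) + p.2 * om, p.1, p.2, rfl⟩ : Eis)) (by
    constructor
    · rintro ⟨a, b⟩ ⟨c, d⟩ h
      have h1 : (a : ℂ) + b * om = c + d * om := congrArg Subtype.val h
      have h2 := om_indep (a := a - c) (b := b - d) (by push_cast; linear_combination h1)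
      exact Prod.ext (sub_eq_zero.mp h2.1) (sub_eq_zero.mp h2.2)
    · rintro ⟨_, a, b, rfl⟩
      exact ⟨(a, b), rfl⟩)

@[simp] theorem coe_eisEquiv (p : ℤ × ℤ) : ((eisEquiv p : Eis) : ℂ) = (p.1 : ℂ) + p.2 * om := rfl

instance : Countable Eis := eisEquiv.symm.injective.countable

/-- `|a + b ω|² = a² - a b + b²`. -/
theorem normSq_eis (a b : ℤ) :
    Complex.normSq ((a : ℂ) + b * om) = ((a ^ 2 - a * b + b ^ 2 : ℤ) : ℝ) := by
  have h : ((Complex.normSq ((a : ℂ) + b * om) : ℝ) : ℂ) = ((a ^ 2 - a * b + b ^ 2 : ℤ) : ℂ) := by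
    rw [← Complex.mul_conj, map_add, map_mul, conj_om, map_intCast, map_intCast]
    push_cast
    linear_combination (-(b : ℂ) ^ 2) * om_rel
  exact_mod_cast h

/-! ### The groups `Γ₀(N)` over `ℤ[ω]` -/

/-- The group `Γ₀(N)` over `ℤ[ω]`, as a subgroup of `GL₂(ℂ)`. -/
def Gam (N : ℕ) : Subgroup (GL (Fin 2) ℂ) where
  carrier := {g | (g : Matrix (Fin 2) (Fin 2) ℂ).det = 1 ∧
    (∀ i j, (g : Matrix (Fin 2) (Fin 2) ℂ) i j ∈ Eis) ∧
    ∃ x ∈ Eis, (g : Matrix (Fin 2) (Fin 2) ℂ) 1 0 = N * x}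
  mul_mem' := by
    rintro g h ⟨hg1, hg2, x, hx, hgx⟩ ⟨hh1, hh2, y, hy, hhy⟩
    refine ⟨?_, ?_, ?_⟩
    · rw [Units.val_mul, Matrix.det_mul, hg1, hh1, one_mul]
    · intro i j
      rw [Units.val_mul, Matrix.mul_apply, Fin.sum_univ_two]
      exact Eis.add_mem (Eis.mul_mem (hg2 _ _) (hh2 _ _)) (Eis.mul_mem (hg2 _ _) (hh2 _ _))
    · refine ⟨x * (h : Matrix (Fin 2) (Fin 2) ℂ) 0 0 + (g : Matrix (Fin 2) (Fin 2) ℂ) 1 1 * y,
        Eis.add_mem (Eis.mul_mem hx (hh2 _ _)) (Eis.mul_mem (hg2 _ _) hy), ?_⟩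
      rw [Units.val_mul, Matrix.mul_apply, Fin.sum_univ_two, hgx, hhy]
      ring
  one_mem' := by
    refine ⟨by simp, ?_, 0, Eis.zero_mem, by simp⟩
    intro i j
    rw [Units.val_one, Matrix.one_apply]
    split_ifs
    · exact Eis.one_mem
    · exact Eis.zero_mem
  inv_mem' := by
    rintro g ⟨hg1, hg2, x, hx, hgx⟩
    have hinv : ((g⁻¹ : GL (Fin 2) ℂ) : Matrix (Fin 2) (Fin 2) ℂ) =
        (g : Matrix (Fin 2) (Fin 2) ℂ).adjugate := by
      rw [Matrix.coe_units_inv, Matrix.inv_def, hg1, Ring.inverse_one, one_smul]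
    refine ⟨?_, ?_, -x, Eis.neg_mem hx, ?_⟩
    · rw [hinv, Matrix.det_adjugate, hg1, one_pow]
    · intro i j
      rw [hinv, Matrix.adjugate_fin_two]
      fin_cases i <;> fin_cases j
      · exact hg2 1 1
      · exact Eis.neg_mem (hg2 0 1)
      · exact Eis.neg_mem (hg2 1 0)
      · exact hg2 0 0
    · rw [hinv, Matrix.adjugate_fin_two]
      show -((g : Matrix (Fin 2) (Fin 2) ℂ) 1 0) = _
      rw [hgx]
      ring

theorem mem_Gam {N : ℕ} {g : GL (Fin 2) ℂ} : g ∈ Gam N ↔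
    (g : Matrix (Fin 2) (Fin 2) ℂ).det = 1 ∧
    (∀ i j, (g : Matrix (Fin 2) (Fin 2) ℂ) i j ∈ Eis) ∧
    ∃ x ∈ Eis, (g : Matrix (Fin 2) (Fin 2) ℂ) 1 0 = N * x := Iff.rfl

instance (N : ℕ) : Countable (Gam N) := by
  let f : Gam N → (Fin 2 → Fin 2 → Eis) := fun g i j =>
    ⟨((g : GL (Fin 2) ℂ) : Matrix (Fin 2) (Fin 2) ℂ) i j, g.2.2.1 i j⟩
  have hf : Function.Injective f := by
    intro g h e
    apply Subtype.ext
    apply Units.ext
    ext i j
    exact congrArg Subtype.val (congrFun (congrFun e i) j)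
  exact hf.countable

/-! ### Hermitian vectors -/

/-- The quadratic form `-det` of the Hermitian matrix `(a b; b̄ d)`. -/
def hQ (a : ℝ) (b : ℂ) (d : ℝ) : ℝ := Complex.normSq b - a * d

/-- The pairing of the Hermitian matrix `X = (a b; b̄ d)` with a point of `H3`:
`½ tr (X adj (herm w))`. -/
def pair (a : ℝ) (b : ℂ) (d : ℝ) (w : H3) : ℝ :=
  (a - 2 * (b * conj w.z).re + d * (Complex.normSq w.z + w.y ^ 2)) / (2 * w.y)

/-- The Hermitian matrix `(a b; b̄ d)`. -/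
def hmat (a : ℝ) (b : ℂ) (d : ℝ) : Matrix (Fin 2) (Fin 2) ℂ := !![(a : ℂ), b; conj b, (d : ℂ)]

theorem trace_hmat (a : ℝ) (b : ℂ) (d : ℝ) (w : H3) :
    (hmat a b d * (H3.herm w).adjugate).trace = ((2 * pair a b d w : ℝ) : ℂ) := by
  have h1 : (((b * conj w.z).re : ℝ) : ℂ) = (b * conj w.z + conj b * w.z) / 2 := by
    rw [Complex.re_eq_add_conj]
    simp
  have hy := w.y_ne
  rw [Matrix.adjugate_fin_two, Matrix.trace_fin_two, pair, hmat, H3.herm]
  push_cast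
  rw [h1]
  simp only [Matrix.mul_apply, Fin.sum_univ_two, Matrix.of_apply, Matrix.cons_val',
    Matrix.cons_val_one, Matrix.cons_val_zero, Matrix.cons_val_fin_one]
  field_simp
  ring

theorem det_hmat (a : ℝ) (b : ℂ) (d : ℝ) : (hmat a b d).det = ((-hQ a b d : ℝ) : ℂ) := by
  rw [Matrix.det_fin_two, hmat, hQ]
  simp only [Matrix.of_apply, Matrix.cons_val', Matrix.cons_val_one, Matrix.cons_val_zero,
    Matrix.cons_val_fin_one]
  rw [Complex.mul_conj]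
  push_cast
  ring

/-! ### The theta kernel -/

/-- The additive character `e(x) = exp(2 π i x)` (for complex `x`). -/
def ee (x : ℂ) : ℂ := Complex.exp (2 * π * Complex.I * x)

/-- The index set of the theta kernel. -/
abbrev Lat : Type := ℤ × Eis × ℤ

/-- The quadratic form on the index set: `|β|²/3 - a d`. -/
def qL (x : Lat) : ℝ := hQ x.1 ((x.2.1 : ℂ) / sq3) x.2.2

/-- The pairing with a point of `H3` on the index set. -/
def pL (x : Lat) (w : H3) : ℝ := pair x.1 ((x.2.1 : ℂ) / sq3) x.2.2 w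

/-- The Siegel theta kernel
`√v ∑ φ(x) e(τ q(x)/n²) exp(-4 π v p(x,w)²/n²)`, `v = im τ`, for the Hermitian vectors
`n⁻¹ (a, β/√-3, d)`. -/
def Theta (n : ℕ) (φ : Lat → ℂ) (τ : ℂ) (w : H3) : ℂ :=
  (Real.sqrt τ.im : ℝ) * ∑' x : Lat, φ x * ee (τ * (qL x / n ^ 2 : ℝ)) *
    (Real.exp (-4 * π * τ.im * (pL x w / n) ^ 2) : ℝ)

/-- The test function of block (T): `N ∣ d` and `β` prime to `N`. -/
def phiN (N : ℕ) (x : Lat) : ℂ :=
  haveI := Classical.propDecidable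
  if (N : ℤ) ∣ x.2.2 ∧ IsCoprime x.2.1 (N : Eis) then 1 else 0

/-! ### Cut-off functions and the lift -/

/-- A cut-off function for a group acting on `H3`. -/
structure IsCut (Γ : Subgroup (GL (Fin 2) ℂ)) (χ : H3 → ℝ) : Prop where
  meas : Measurable χ
  nonneg : ∀ w, 0 ≤ χ w
  sum : ∀ w, HasSum (fun g : Γ => χ ((g : GL (Fin 2) ℂ) • w)) 1

/-- The integral of a `Γ`-invariant function over `Γ \ H3`, given a cut-off function. -/
def qint (χ : H3 → ℝ) (f : H3 → ℂ) : ℂ := ∫ w, (χ w : ℂ) * f w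

/-- The theta lift. -/
def lift (χ : H3 → ℝ) (F : H3 → ℂ) (n : ℕ) (φ : Lat → ℂ) (τ : ℂ) : ℂ :=
  qint χ fun w => F w * Theta n φ τ w

/-! ### The interface (I-CT) -/

/-- The `K`-Bessel function of order zero, for positive real arguments. -/
def K0 (x : ℝ) : ℝ := ∫ t in Set.Ioi (0 : ℝ), Real.exp (-(x * Real.cosh t))

/-- The value at spectral parameter zero of the spherical transform of the radial kernel
`κ (cosh d)`: `4 π ∫_1^∞ κ(t) arcosh t dt = 2 ∫_0^∞ A(u) du`, `A(u) = 2 π ∫_{cosh u}^∞ κ`. -/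
def kap0 (κ : ℝ → ℝ) : ℝ :=
  2 * ∫ u in Set.Ioi (0 : ℝ), 2 * π * ∫ t in Set.Ioi (Real.cosh u), κ t

/-- The term of the Fourier expansion with index `α`. -/
def fterm (c : Eis → ℝ) (w : H3) (α : Eis) : ℂ :=
  (c α * w.y * K0 (4 * π * ‖(α : ℂ)‖ * w.y / Real.sqrt 3) : ℝ) *
    ee ((2 * ((α : ℂ) * w.z / sq3).re : ℝ))

/-- (I-CT): the output of the cubic descent. `c α` only depends on the ideal `(α)`. -/
structure ICT (N : ℕ) (c : Eis → ℝ) (F : H3 → ℂ) : Prop where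
  pos : 0 < N
  cont : Continuous F
  bdd : ∃ C, ∀ w, ‖F w‖ ≤ C
  inv : ∀ g ∈ Gam N, ∀ w, F (g • w) = F w
  eig : ∀ κ : ℝ → ℝ, ContDiff ℝ ((⊤ : ℕ∞) : WithTop ℕ∞) κ → HasCompactSupport κ →
    ∀ w, ∫ w', (κ (H3.ch w w') : ℂ) * F w' = kap0 κ * F w
  expn : ∀ w, HasSum (fun α : Eis => fterm c w α) (F w)
  c_zero : c 0 = 0
  c_one : c 1 = 1
  c_unit : ∀ u α : Eis, IsUnit u → c (u * α) = c α
  c_mul : ∀ α β : Eis, IsCoprime α β → c (α * β) = c α * c β
  c_rec : ∀ (ϖ : Eis) (k : ℕ), Prime ϖ → IsCoprime ϖ (N : Eis) →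
    c (ϖ ^ (k + 2)) = c ϖ * c (ϖ ^ (k + 1)) - c (ϖ ^ k)
  c_supp : ∀ α : Eis, ¬ IsCoprime α (N : Eis) → c α = 0

end Fermat.Agent.S47T
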