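import Fermat.Agent.H47RInt
import Fermat.Agent.H96TDef

/-!
# Congruence subgroups of `SL₂(O)` have finite index; the case `O = ℤ[ω]` (helper47)

* `PrG O N` : the principal congruence subgroup of `SLO O`;
* `EucOrder.finIdx_of_le` : every `Γ` with `PrG O N ≤ Γ ≤ SLO O` has finite index;
* `eucOrder_Eis : EucOrder Eis`, `finIdx_Gam`, and the statements of `H47RInt` for helper96's
  `IsCut`.
-/

set_option autoImplicit false
set_option linter.unusedSectionVars false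

noncomputable section

open MeasureTheory Matrix Complex
open scoped ComplexConjugate Real ENNReal

namespace Fermat.Agent.H47.Red

variable {O : Subring ℂ}

/-- The principal congruence subgroup. -/
def PrG (O : Subring ℂ) (N : O) : Subgroup (GL (Fin 2) ℂ) where
  carrier := {g | g ∈ SLO O ∧ ∀ i j, ∃ x ∈ O,
    (g : Matrix (Fin 2) (Fin 2) ℂ) i j = (1 : Matrix (Fin 2) (Fin 2) ℂ) i j + N * x}
  mul_mem' := by
    rintro g h ⟨hg, hg'⟩ ⟨hh, hh'⟩
    refine ⟨(SLO O).mul_mem hg hh, fun i j => ?_⟩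
    choose x hx hgx using hg'
    choose y hy hhy using hh'
    refine ⟨x i j + y i j + N * (x i 0 * y 0 j + x i 1 * y 1 j), ?_, ?_⟩
    · exact O.add_mem (O.add_mem (hx _ _) (hy _ _)) (O.mul_mem N.2
        (O.add_mem (O.mul_mem (hx _ _) (hy _ _)) (O.mul_mem (hx _ _) (hy _ _))))
    · rw [Units.val_mul, Matrix.mul_apply, Fin.sum_univ_two, hgx i 0, hgx i 1, hhy 0 j, hhy 1 j]
      obtain rfl | rfl : i = 0 ∨ i = 1 := by fin_cases i <;> simp
      · obtain rfl | rfl : j = 0 ∨ j = 1 := by fin_cases j <;> simp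
        · simp only [Matrix.one_apply, if_true, if_false, zero_ne_one, one_ne_zero]
          ring
        · simp only [Matrix.one_apply, if_true, if_false, zero_ne_one, one_ne_zero]
          ring
      · obtain rfl | rfl : j = 0 ∨ j = 1 := by fin_cases j <;> simp
        · simp only [Matrix.one_apply, if_true, if_false, zero_ne_one, one_ne_zero]
          ring
        · simp only [Matrix.one_apply, if_true, if_false, zero_ne_one, one_ne_zero]
          ring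
  one_mem' := by
    refine ⟨(SLO O).one_mem, fun i j => ⟨0, O.zero_mem, ?_⟩⟩
    rw [mul_zero, add_zero, Units.val_one]
  inv_mem' := by
    rintro g ⟨hg, hg'⟩
    refine ⟨(SLO O).inv_mem hg, fun i j => ?_⟩
    choose x hx hgx using hg'
    have h1 : ((g⁻¹ : GL (Fin 2) ℂ) : Matrix (Fin 2) (Fin 2) ℂ) =
        (g : Matrix (Fin 2) (Fin 2) ℂ).adjugate := by
      rw [Matrix.coe_units_inv, Matrix.inv_def, hg.2, Ring.inverse_one, one_smul]
    rw [h1, Matrix.adjugate_fin_two]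
    fin_cases i <;> fin_cases j
    · exact ⟨x 1 1, hx _ _, by simpa using hgx 1 1⟩
    · exact ⟨-x 0 1, O.neg_mem (hx _ _), by simpa using hgx 0 1⟩
    · exact ⟨-x 1 0, O.neg_mem (hx _ _), by simpa using hgx 1 0⟩
    · exact ⟨x 0 0, hx _ _, by simpa using hgx 0 0⟩

theorem mem_PrG {N : O} {g : GL (Fin 2) ℂ} : g ∈ PrG O N ↔ g ∈ SLO O ∧ ∀ i j, ∃ x ∈ O,
    (g : Matrix (Fin 2) (Fin 2) ℂ) i j = (1 : Matrix (Fin 2) (Fin 2) ℂ) i j + N * x := Iff.rfl

theorem PrG_le (N : O) : PrG O N ≤ SLO O := fun _ h => h.1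

/-- `g ≡ h mod N` implies `g⁻¹ h ∈ PrG O N`. -/
theorem inv_mul_mem_PrG {N : O} {g h : GL (Fin 2) ℂ} (hg : g ∈ SLO O) (hh : h ∈ SLO O)
    (hgh : ∀ i j, ∃ x ∈ O, (h : Matrix (Fin 2) (Fin 2) ℂ) i j =
      (g : Matrix (Fin 2) (Fin 2) ℂ) i j + N * x) : g⁻¹ * h ∈ PrG O N := by
  refine ⟨(SLO O).mul_mem ((SLO O).inv_mem hg) hh, fun i j => ?_⟩
  choose x hx hgx using hgh
  have h0 : (g⁻¹ : GL (Fin 2) ℂ) ∈ SLO O := (SLO O).inv_mem hg
  refine ⟨(g⁻¹ : GL (Fin 2) ℂ) i 0 * x 0 j + (g⁻¹ : GL (Fin 2) ℂ) i 1 * x 1 j,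
    O.add_mem (O.mul_mem (h0.1 _ _) (hx _ _)) (O.mul_mem (h0.1 _ _) (hx _ _)), ?_⟩
  have h1 : ((g⁻¹ : GL (Fin 2) ℂ) : Matrix (Fin 2) (Fin 2) ℂ) *
      (g : Matrix (Fin 2) (Fin 2) ℂ) = 1 := by
    rw [← Units.val_mul, inv_mul_cancel, Units.val_one]
  have h2 := congrFun (congrFun h1 i) j
  rw [Matrix.mul_apply, Fin.sum_univ_two] at h2
  rw [Units.val_mul, Matrix.mul_apply, Fin.sum_univ_two, hgx 0 j, hgx 1 j, ← h2]
  ring

/-- residues modulo `N` have representatives in a finite set -/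
theorem EucOrder.exists_res (hO : EucOrder O) {N : O} (hN : (N : ℂ) ≠ 0) :
    ∃ (R : Set ℂ) (r : ℂ → ℂ), R.Finite ∧ ∀ a ∈ O, r a ∈ R ∧ ∃ x ∈ O, a = r a + N * x := by
  choose q hq hq' using hO.cover
  refine ⟨{a | a ∈ O ∧ normSq a ≤ normSq (N : ℂ) * (1 / 3)}, fun a => a - N * q (a / N),
    hO.finite_normSq _, fun a ha => ⟨⟨O.sub_mem ha (O.mul_mem N.2 (hq _)), ?_⟩,
      q (a / N), hq _, by ring⟩⟩
  have h1 : a - N * q (a / N) = N * (a / N - q (a / N)) := by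
    field_simp
  show normSq (a - N * q (a / N)) ≤ _
  rw [h1, normSq_mul]
  exact mul_le_mul_of_nonneg_left (hq' _) (normSq_nonneg _)

/-- **Congruence subgroups have finite index.** -/
theorem EucOrder.finIdx_of_le (hO : EucOrder O) {N : O} (hN : (N : ℂ) ≠ 0)
    {Γ : Subgroup (GL (Fin 2) ℂ)} (h1 : PrG O N ≤ Γ) (h2 : Γ ≤ SLO O) : FinIdx O Γ := by
  refine ⟨h2, ?_⟩
  obtain ⟨R, r, hR, hr⟩ := hO.exists_res hN
  let red : SLO O → (Fin 2 → Fin 2 → R) := fun g i j =>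
    ⟨r ((g : GL (Fin 2) ℂ) i j), (hr _ (g.2.1 i j)).1⟩
  have : Finite R := hR
  have hfin : (Set.range red).Finite := Set.toFinite _
  choose s hs using fun x : Set.range red => x.2
  have : Fintype (Set.range red) := Fintype.ofFinite _
  classical
  refine ⟨(Finset.univ : Finset (Set.range red)).image fun x => ((s x : SLO O) : GL (Fin 2) ℂ),
    ?_, ?_⟩
  · intro δ hδ
    obtain ⟨x, -, rfl⟩ := Finset.mem_image.mp hδ
    exact (s x).2
  · intro g hg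
    obtain ⟨x, hx⟩ : ∃ x : Set.range red, (x : Fin 2 → Fin 2 → R) = red ⟨g, hg⟩ :=
      ⟨⟨_, ⟨g, hg⟩, rfl⟩, rfl⟩
    refine ⟨((s x : SLO O) : GL (Fin 2) ℂ), Finset.mem_image.mpr ⟨x, Finset.mem_univ _, rfl⟩,
      ((s x : SLO O) : GL (Fin 2) ℂ)⁻¹ * g, h1 (inv_mul_mem_PrG (s x).2 hg fun i j => ?_),
      by rw [mul_inv_cancel_left]⟩
    have h3 : red (s x) = red ⟨g, hg⟩ := by rw [hs x, hx]
    have h4 : r (((s x : SLO O) : GL (Fin 2) ℂ) i j) = r (g i j) :=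
      congrArg Subtype.val (congrFun (congrFun h3 i) j)
    obtain ⟨-, y, hy, e1⟩ := hr _ ((s x).2.1 i j)
    obtain ⟨-, z, hz, e2⟩ := hr _ (hg.1 i j)
    refine ⟨z - y, O.sub_mem hz hy, ?_⟩
    rw [e2, e1, h4]
    ring

/-! ### `ℤ[ω]` -/

open Fermat.Agent.S47T

theorem om_re : om.re = -1 / 2 := by
  rw [om, sq3]
  simp

theorem om_im_sq : om.im ^ 2 = 3 / 4 := by
  have h : om.im = Real.sqrt 3 / 2 := by
    rw [om, sq3]
    simp
  rw [h, div_pow, Real.sq_sqrt (by norm_num)]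
  norm_num

theorem normSq_om (u v : ℝ) : normSq ((u : ℂ) + v * om) = u ^ 2 - u * v + v ^ 2 := by
  rw [normSq_apply]
  simp only [add_re, mul_re, add_im, mul_im, ofReal_re, ofReal_im, zero_mul, sub_zero, add_zero,
    zero_add]
  rw [om_re]
  have := om_im_sq
  linear_combination v ^ 2 * this

theorem eucOrder_Eis : EucOrder Eis where
  one_le := by
    rintro _ ⟨a, b, rfl⟩ h0
    rw [normSq_eis]
    have h1 : 0 < normSq ((a : ℂ) + b * om) := normSq_pos.mpr h0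
    rw [normSq_eis] at h1
    have h2 : 0 < a ^ 2 - a * b + b ^ 2 := by exact_mod_cast h1
    exact_mod_cast h2
  cover := by
    intro z
    -- real coordinates
    obtain ⟨u, v, hz⟩ : ∃ u v : ℝ, z = (u : ℂ) + v * om := by
      refine ⟨z.re + z.im / om.im / 2, z.im / om.im, ?_⟩
      apply Complex.ext
      · simp only [add_re, mul_re, ofReal_re, ofReal_im, zero_mul, sub_zero]
        rw [om_re]
        ring
      · simp only [add_im, mul_im, ofReal_re, ofReal_im, zero_mul, add_zero, zero_add]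
        rw [div_mul_cancel₀ _ om_im_ne]
    -- fractional parts
    obtain ⟨p, q, x, y, hx0, hx1, hy0, hy1, hu, hv⟩ : ∃ (p q : ℤ) (x y : ℝ), 0 ≤ x ∧ x ≤ 1 ∧
        0 ≤ y ∧ y ≤ 1 ∧ u = p + x ∧ v = q + y :=
      ⟨⌊u⌋, ⌊v⌋, Int.fract u, Int.fract v, Int.fract_nonneg u, (Int.fract_lt_one u).le,
        Int.fract_nonneg v, (Int.fract_lt_one v).le, (Int.floor_add_fract u).symm,
        (Int.floor_add_fract v).symm⟩
    have key : ∀ e f : ℤ, normSq (z - (((p + e : ℤ) : ℂ) + ((q + f : ℤ) : ℂ) * om)) =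
        (x - e) ^ 2 - (x - e) * (y - f) + (y - f) ^ 2 := by
      intro e f
      rw [← normSq_om, hz, hu, hv]
      congr 1
      push_cast
      ring
    by_contra hcon
    push Not at hcon
    have h00 := hcon _ (mem_Eis.mpr ⟨p + 0, q + 0, rfl⟩)
    have h11 := hcon _ (mem_Eis.mpr ⟨p + 1, q + 1, rfl⟩)
    have h10 := hcon _ (mem_Eis.mpr ⟨p + 1, q + 0, rfl⟩)
    have h01 := hcon _ (mem_Eis.mpr ⟨p + 0, q + 1, rfl⟩)
    rw [key] at h00 h11 h10 h01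
    push_cast at h00 h11 h10 h01
    rcases le_total y x with h | h
    · nlinarith [mul_le_mul_of_nonneg_left h00.le (by linarith : 0 ≤ 1 - x),
        mul_le_mul_of_nonneg_left h10.le (by linarith : 0 ≤ x - y),
        mul_le_mul_of_nonneg_left h11.le hy0, sq_nonneg (1 - x - (x - y)),
        sq_nonneg (1 - x - y), sq_nonneg (x - y - y)]
    · nlinarith [mul_le_mul_of_nonneg_left h00.le (by linarith : 0 ≤ 1 - y),
        mul_le_mul_of_nonneg_left h01.le (by linarith : 0 ≤ y - x),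
        mul_le_mul_of_nonneg_left h11.le hx0, sq_nonneg (1 - y - (y - x)),
        sq_nonneg (1 - y - x), sq_nonneg (y - x - x)]

theorem Gam_le_SLO (N : ℕ) : Gam N ≤ SLO Eis := fun _ h => ⟨h.2.1, h.1⟩

theorem Gam_one : Gam 1 = SLO Eis := by
  refine le_antisymm (Gam_le_SLO 1) fun g h => ⟨h.2, h.1, _, h.1 1 0, ?_⟩
  rw [Nat.cast_one, one_mul]

theorem PrG_le_Gam (N : ℕ) : PrG Eis (N : Eis) ≤ Gam N := by
  rintro g ⟨h1, h2⟩
  refine ⟨h1.2, h1.1, ?_⟩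
  obtain ⟨x, hx, h⟩ := h2 1 0
  exact ⟨x, hx, by simpa using h⟩

theorem finIdx_PrG_Eis {N : ℕ} (hN : N ≠ 0) : FinIdx Eis (PrG Eis (N : Eis)) :=
  eucOrder_Eis.finIdx_of_le (N := (N : Eis)) (by simpa using hN) le_rfl (PrG_le _)

theorem finIdx_Gam {N : ℕ} (hN : N ≠ 0) : FinIdx Eis (Gam N) :=
  eucOrder_Eis.finIdx_of_le (N := (N : Eis)) (by simpa using hN) (PrG_le_Gam N) (Gam_le_SLO N)

theorem isCut_iff {Γ : Subgroup (GL (Fin 2) ℂ)} {χ : H3 → ℝ} : IsCut Γ χ ↔ IsCutoff Γ χ :=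
  ⟨fun h => ⟨h.meas, h.nonneg, h.sum⟩, fun h => ⟨h.meas, h.nonneg, h.hasSum⟩⟩

/-- Existence of cut-offs, for helper96's `IsCut`. -/
theorem exists_isCut {Γ : Subgroup (GL (Fin 2) ℂ)} (hΓ : FinIdx Eis Γ) :
    ∃ χ : H3 → ℝ, IsCut Γ χ ∧ (∀ w, χ w ≤ 1) ∧
      ∃ T : Finset (GL (Fin 2) ℂ), (∀ δ ∈ T, δ ∈ SLO Eis) ∧
        ∀ w, χ w ≠ 0 → ∃ δ ∈ T, δ • w ∈ S0 := by
  obtain ⟨χ, h1, h2⟩ := eucOrder_Eis.exists_cutoff hΓ
  exact ⟨χ, isCut_iff.mpr h1, h2⟩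

end Fermat.Agent.H47.Red

namespace Fermat.Agent.S47T

open Fermat.Agent.H47.Red

variable {Γ : Subgroup (GL (Fin 2) ℂ)} {χ : H3 → ℝ}

/-- `χ f` is integrable if `‖f‖ ≤ C ht^a`, `a < 2`. -/
theorem IsCut.integrable (hχ : IsCut Γ χ) (hΓ : FinIdx Eis Γ) {f : H3 → ℂ}
    (hf : AEStronglyMeasurable f volume) {a C : ℝ} (ha : a < 2)
    (hC : ∀ w, ‖f w‖ ≤ C * ht Eis w ^ a) : Integrable (fun w => (χ w : ℂ) * f w) :=
  eucOrder_Eis.integrable_cut hΓ (isCut_iff.mp hχ) hf ha hC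

theorem IsCut.integrable_of_bounded (hχ : IsCut Γ χ) (hΓ : FinIdx Eis Γ) {f : H3 → ℂ}
    (hf : AEStronglyMeasurable f volume) {C : ℝ} (hC : ∀ w, ‖f w‖ ≤ C) :
    Integrable (fun w => (χ w : ℂ) * f w) :=
  eucOrder_Eis.integrable_cut_of_bounded hΓ (isCut_iff.mp hχ) hf hC

theorem IsCut.integrable_exp (hχ : IsCut Γ χ) (hΓ : FinIdx Eis Γ) {f : H3 → ℂ}
    (hf : AEStronglyMeasurable f volume) {B C c : ℝ} (hc : 0 < c) (hC0 : 0 ≤ C)
    (hC : ∀ w, ‖f w‖ ≤ C * (ht Eis w ^ B * Real.exp (-(c * ht Eis w)))) :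
    Integrable (fun w => (χ w : ℂ) * f w) :=
  eucOrder_Eis.integrable_cut_exp hΓ (isCut_iff.mp hχ) hf hc hC0 hC

theorem IsCut.integrable_self (hχ : IsCut Γ χ) (hΓ : FinIdx Eis Γ) : Integrable χ :=
  eucOrder_Eis.integrable_cut_one hΓ (isCut_iff.mp hχ)

theorem IsCut.lintegral_lt_top (hχ : IsCut Γ χ) (hΓ : FinIdx Eis Γ) {a : ℝ} (ha : a < 2) :
    ∫⁻ w, ENNReal.ofReal (χ w) * ENNReal.ofReal (ht Eis w ^ a) < ∞ :=
  eucOrder_Eis.lintegral_cut_lt_top hΓ (isCut_iff.mp hχ) ha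

end Fermat.Agent.S47T
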