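import Fermat.Agent.H31Hyp1

/-!
# Radial kernels on hyperbolic 3-space, part 1 (helper56)

The push-forward of the invariant measure of `H3` under `w' ↦ (ch w w', log y' - log y)`.
-/

set_option autoImplicit false

noncomputable section

open MeasureTheory Set
open scoped Real ENNReal

namespace Fermat.Agent.H56Z

/-- `w' ↦ (cosh d(w,w'), log y' - log y)`. -/
def chl (w w' : H3) : ℝ × ℝ := (H3.ch w w', Real.log w'.y - Real.log w.y)

theorem continuous_chl (w : H3) : Continuous (chl w) := by
  have h1 : Continuous fun w' : H3 => H3.ch w w' :=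
    H3.continuous_ch.comp (continuous_const.prodMk continuous_id)
  have h2 : Continuous fun w' : H3 => Real.log w'.y :=
    H3.continuous_y.log fun x => x.pos.ne'
  exact h1.prodMk (h2.sub continuous_const)

theorem measurable_chl (w : H3) : Measurable (chl w) := (continuous_chl w).measurable

/-- The push-forward measure `2π e^{-u} 1_{t > cosh u} dt du`. -/
def rho : Measure (ℝ × ℝ) :=
  ((volume : Measure (ℝ × ℝ)).restrict {p | Real.cosh p.2 < p.1}).withDensity
    fun p => ENNReal.ofReal (2 * π * Real.exp (-p.2))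

theorem measurableSet_cosh_lt : MeasurableSet {p : ℝ × ℝ | Real.cosh p.2 < p.1} :=
  measurableSet_lt (by fun_prop) (by fun_prop)

theorem lintegral_normSq (G : ℝ → ℝ≥0∞) (hG : Measurable G) :
    ∫⁻ z : ℂ, G (Complex.normSq z) = ENNReal.ofReal (2 * π) *
      ∫⁻ r in Ioi (0 : ℝ), ENNReal.ofReal r * G (r ^ 2) := by
  rw [← Complex.lintegral_comp_polarCoord_symm, polarCoord_target]
  have h : ∀ p : ℝ × ℝ, Complex.normSq (Complex.polarCoord.symm p) = p.1 ^ 2 := by
    intro p
    rw [Complex.normSq_eq_norm_sq, Complex.norm_polarCoord_symm, sq_abs]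
  simp only [h, smul_eq_mul]
  rw [Measure.volume_eq_prod, ← Measure.prod_restrict, lintegral_prod _ (by fun_prop)]
  simp only [lintegral_const, Measure.restrict_apply MeasurableSet.univ, univ_inter,
    Real.volume_Ioo]
  rw [lintegral_mul_const _ (by fun_prop), mul_comm]
  congr 2
  ring_nf

theorem lintegral_quad (G : ℝ → ℝ≥0∞) {c d : ℝ} (hd : 0 < d) :
    ∫⁻ r in Ioi (0 : ℝ), ENNReal.ofReal r * G ((r ^ 2 + c) / d) =
      ENNReal.ofReal (d / 2) * ∫⁻ t in Ioi (c / d), G t := by
  have himg : (fun r : ℝ => (r ^ 2 + c) / d) '' Ioi 0 = Ioi (c / d) := by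
    ext t
    simp only [mem_image, mem_Ioi]
    constructor
    · rintro ⟨r, hr, rfl⟩
      rw [div_lt_div_iff_of_pos_right hd]
      have : 0 < r ^ 2 := by positivity
      linarith
    · intro ht
      rw [div_lt_iff₀ hd] at ht
      refine ⟨Real.sqrt (t * d - c), Real.sqrt_pos.mpr (by linarith), ?_⟩
      rw [Real.sq_sqrt (by linarith)]
      field_simp
      ring
  rw [← himg, lintegral_image_eq_lintegral_abs_deriv_mul measurableSet_Ioi
    (f' := fun r => 2 * r / d), ← lintegral_const_mul']
  · refine setLIntegral_congr_fun measurableSet_Ioi ?_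
    intro r hr
    have hr' : (0 : ℝ) < r := hr
    simp only
    rw [← mul_assoc, ← ENNReal.ofReal_mul (by positivity)]
    congr 2
    rw [abs_of_pos (by positivity)]
    field_simp
  · exact ENNReal.ofReal_ne_top
  · intro r _
    have h1 : HasDerivAt (fun r : ℝ => (r ^ 2 + c) / d) (2 * r / d) r := by
      have := ((hasDerivAt_pow 2 r).add_const c).div_const d
      simpa using this
    exact h1.hasDerivWithinAt
  · intro a ha b hb hab
    have ha' : (0 : ℝ) < a := ha
    have hb' : (0 : ℝ) < b := hb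
    simp only at hab
    rw [div_left_inj' hd.ne'] at hab
    have h2 : a ^ 2 = b ^ 2 := by linarith
    exact (sq_eq_sq₀ ha'.le hb'.le).mp h2

theorem lintegral_horo (G : ℝ → ℝ≥0∞) (hG : Measurable G) (z : ℂ) {y e : ℝ} (hy : 0 < y)
    (he : 0 < e) :
    ∫⁻ ζ : ℂ, G ((Complex.normSq (z - e * ζ) + y ^ 2 + e ^ 2) / (2 * y * e)) =
      ENNReal.ofReal (2 * π * (y / e)) * ∫⁻ t in Ioi ((y ^ 2 + e ^ 2) / (2 * y * e)), G t := by
  have hH : Measurable fun x : ℂ => G ((Complex.normSq x + y ^ 2 + e ^ 2) / (2 * y * e)) := by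
    refine hG.comp ?_
    exact (((Complex.continuous_normSq.measurable).add_const _).add_const _).div_const _
  have h1 : ∫⁻ ζ : ℂ, G ((Complex.normSq (z - e * ζ) + y ^ 2 + e ^ 2) / (2 * y * e)) =
      ∫⁻ x : ℂ, G ((Complex.normSq (z - x) + y ^ 2 + e ^ 2) / (2 * y * e))
        ∂(Measure.map (fun ζ : ℂ => e • ζ) volume) := by
    have hH' : Measurable fun x : ℂ =>
        G ((Complex.normSq (z - x) + y ^ 2 + e ^ 2) / (2 * y * e)) :=
      hH.comp (by fun_prop : Measurable fun x : ℂ => z - x)
    rw [lintegral_map hH' (by fun_prop)]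
    simp only [Complex.real_smul]
  rw [h1, Measure.map_addHaar_smul _ he.ne', lintegral_smul_measure, Complex.finrank_real_complex,
    lintegral_sub_left_eq_self (fun x : ℂ => G ((Complex.normSq x + y ^ 2 + e ^ 2) / (2 * y * e)))
      z,
    lintegral_normSq (fun r => G ((r + y ^ 2 + e ^ 2) / (2 * y * e))) (by fun_prop)]
  have h2 : ∀ r : ℝ, (r ^ 2 + y ^ 2 + e ^ 2) / (2 * y * e) =
      (r ^ 2 + (y ^ 2 + e ^ 2)) / (2 * y * e) := fun r => by rw [add_assoc]
  simp only [h2]
  rw [lintegral_quad G (by positivity : 0 < 2 * y * e), smul_eq_mul, ← mul_assoc, ← mul_assoc,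
    ← ENNReal.ofReal_mul (by positivity), ← ENNReal.ofReal_mul (by positivity)]
  congr 2
  rw [abs_of_pos (by positivity)]
  field_simp

theorem lintegral_chl (w : H3) (F : ℝ × ℝ → ℝ≥0∞) (hF : Measurable F) :
    ∫⁻ w' : H3, F (chl w w') = ∫⁻ u : ℝ, ENNReal.ofReal (2 * π * Real.exp (-u)) *
      ∫⁻ t in Ioi (Real.cosh u), F (t, u) := by
  have hm : Measurable fun q : ℂ × ℝ => F (chl w (H3.coord.symm q)) :=
    hF.comp ((measurable_chl w).comp H3.coord.symm.continuous.measurable)
  have h0 : ∫⁻ w' : H3, F (chl w w') = ∫⁻ q : ℂ × ℝ, F (chl w (H3.coord.symm q)) :=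
    (H3.measurePreserving_coord_symm.lintegral_comp (hF.comp (measurable_chl w))).symm
  rw [h0, Measure.volume_eq_prod, lintegral_prod_symm' _ hm,
    ← lintegral_add_right_eq_self _ (Real.log w.y)]
  refine lintegral_congr fun u => ?_
  have hy := w.pos
  have he : 0 < Real.exp (u + Real.log w.y) := Real.exp_pos _
  have h1 := lintegral_horo (fun t => F (t, u)) (by fun_prop) w.z hy he
  have h2 : ∀ ζ : ℂ, chl w (H3.coord.symm (ζ, u + Real.log w.y)) =
      ((Complex.normSq (w.z - Real.exp (u + Real.log w.y) * ζ) + w.y ^ 2 +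
        Real.exp (u + Real.log w.y) ^ 2) / (2 * w.y * Real.exp (u + Real.log w.y)), u) := by
    intro ζ
    simp only [chl, H3.ch, H3.coord_symm_z, H3.coord_symm_y, Real.log_exp, add_sub_cancel_right]
  simp only [h2]
  rw [h1]
  have h3 : Real.exp (u + Real.log w.y) = Real.exp u * w.y := by
    rw [Real.exp_add, Real.exp_log hy]
  congr 2
  · rw [h3, Real.exp_neg]
    congr 1
    field_simp
  · rw [h3, Real.cosh_eq, Real.exp_neg]
    congr 1
    have := Real.exp_pos u
    field_simp
    ring_nf

theorem lintegral_rho (F : ℝ × ℝ → ℝ≥0∞) (hF : Measurable F) :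
    ∫⁻ p, F p ∂rho = ∫⁻ u : ℝ, ENNReal.ofReal (2 * π * Real.exp (-u)) *
      ∫⁻ t in Ioi (Real.cosh u), F (t, u) := by
  have hd : Measurable fun p : ℝ × ℝ => ENNReal.ofReal (2 * π * Real.exp (-p.2)) := by fun_prop
  rw [rho, lintegral_withDensity_eq_lintegral_mul _ hd hF,
    ← lintegral_indicator measurableSet_cosh_lt, Measure.volume_eq_prod, lintegral_prod_symm']
  · refine lintegral_congr fun u => ?_
    rw [← lintegral_indicator measurableSet_Ioi, ← lintegral_const_mul']
    · refine lintegral_congr fun t => ?_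
      by_cases h : Real.cosh u < t
      · rw [indicator_of_mem (show (t, u) ∈ {p : ℝ × ℝ | Real.cosh p.2 < p.1} from h),
          indicator_of_mem (show t ∈ Ioi (Real.cosh u) from h)]
        rfl
      · rw [indicator_of_notMem (show (t, u) ∉ {p : ℝ × ℝ | Real.cosh p.2 < p.1} from h),
          indicator_of_notMem (show t ∉ Ioi (Real.cosh u) from h), mul_zero]
    · exact ENNReal.ofReal_ne_top
  · exact (hd.mul hF).indicator measurableSet_cosh_lt

/-- **Horospherical coordinates**: the push-forward of the invariant measure under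
`w' ↦ (cosh d(w,w'), log y' - log y)` is `2π e^{-u} 1_{t > cosh u} dt du`. -/
theorem measurePreserving_chl (w : H3) : MeasurePreserving (chl w) volume rho := by
  refine ⟨measurable_chl w, Measure.ext_of_lintegral _ fun F hF => ?_⟩
  rw [lintegral_map hF (measurable_chl w), lintegral_chl w F hF, lintegral_rho F hF]

instance : SFinite rho := by unfold rho; infer_instance

instance : SigmaFinite rho := by
  unfold rho
  exact SigmaFinite.withDensity_ofReal _

end Fermat.Agent.H56Z
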