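import Fermat.Agent.H74C3b

/-!
# Radial eigenfunctions on `(H3)^J` are smooth Laplace eigenfunctions, end (helper74, package C3)

* `hatv κ` : eigenvalue of `R(κ)` on `∏ y_j` (`Rk_prod_y`), `hatv_LopJ : hatv (LopJ j κ) = -hatv κ`;
* `backward_general`, `backward_tens`, `backward_real`.
-/

set_option autoImplicit false
set_option linter.unusedSectionVars false
set_option linter.style.haveILetI false

noncomputable section

open Filter Topology Set MeasureTheory Function
open scoped ContDiff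

namespace Fermat.Agent.H74.C3

open Fermat.Agent Fermat.Agent.H3
open Fermat.Agent.H5Z (chv Rk)

variable {J : Type*} [Fintype J]

/-! ### The function `∏ y_j` -/

/-- The function `∏ y_j`. -/
def prodY (w : J → H3) : ℂ := ∏ j, ((w j).y : ℂ)

theorem continuous_prodY : Continuous (prodY : (J → H3) → ℂ) := by
  unfold prodY
  exact continuous_finsetProd _ fun j _ =>
    Complex.continuous_ofReal.comp (continuous_y.comp (continuous_apply j))

/-- The eigenvalue of `R(κ)` on `∏ y_j`. -/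
def hatv (κ : (J → ℝ) → ℂ) : ℂ := Rk κ prodY fun _ => base

theorem hatv_def (κ : (J → ℝ) → ℂ) :
    hatv κ = ∫ x : J → H3, κ (fun j => ch base (x j)) * ∏ j, ((x j).y : ℂ) := rfl

theorem toPt_smul_y (w v : H3) : (toPt w • v).y = w.y * v.y := by
  rw [toPt, mul_smul, nMat_smul, dMat_smul]
  simp [abs_of_pos w.pos]

theorem Rk_prod_y (κ : (J → ℝ) → ℂ) (w : J → H3) : Rk κ prodY w = hatv κ * prodY w := by
  have hmp := H3.measurePreserving_smul_pi (fun j => toPt (w j))
  have hme : MeasurableEmbedding (fun x : J → H3 => fun j => toPt (w j) • x j) :=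
    (Homeomorph.piCongrRight fun j => Homeomorph.smul (toPt (w j))).measurableEmbedding
  have h := hmp.integral_comp hme (fun x => κ (chv w x) * prodY x)
  rw [Rk, ← h, hatv, Rk, ← integral_mul_const]
  refine integral_congr_ae (ae_of_all _ fun x => ?_)
  have h1 : chv w (fun j => toPt (w j) • x j) = chv (fun _ => base) x := by
    funext j
    have := ch_smul (toPt (w j)) base (x j)
    rw [toPt_smul] at this
    exact this
  have h2 : prodY (fun j => toPt (w j) • x j) = prodY w * prodY x := by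
    simp only [prodY, toPt_smul_y, Complex.ofReal_mul, Finset.prod_mul_distrib]
  simp only [h1, h2]
  ring

theorem Lap_y (w : H3) : Lap (fun v => (v.y : ℂ)) w = -w.y := by
  have h1 : dz1 (fun v => (v.y : ℂ)) w = 0 := by
    have : (fun t : ℝ => ((pt (w.z + t) w.y).y : ℂ)) = fun _ => (w.y : ℂ) := by
      funext t
      rw [pt_y w.pos]
    rw [dz1, this]
    simp
  have h2 : dz2 (fun v => (v.y : ℂ)) w = 0 := by
    have : (fun t : ℝ => ((pt (w.z + t * Complex.I) w.y).y : ℂ)) = fun _ => (w.y : ℂ) := by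
      funext t
      rw [pt_y w.pos]
    rw [dz2, this]
    simp
  have h3 : ∀ s : ℝ, 0 < s → (fun t : ℝ => ((pt w.z t).y : ℂ)) =ᶠ[𝓝 s] fun t => (t : ℂ) := by
    intro s hs
    filter_upwards [lt_mem_nhds hs] with t ht
    rw [pt_y ht]
  have h4 : ∀ s : ℝ, 0 < s → deriv (fun t : ℝ => ((pt w.z t).y : ℂ)) s = 1 := by
    intro s hs
    rw [(h3 s hs).deriv_eq]
    exact (hasDerivAt_id s).ofReal_comp.deriv
  have h5 : dyy (fun v => (v.y : ℂ)) w = 0 := by
    have : (deriv fun t : ℝ => ((pt w.z t).y : ℂ)) =ᶠ[𝓝 w.y] fun _ => (1 : ℂ) := by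
      filter_upwards [lt_mem_nhds w.pos] with t ht
      exact h4 t ht
    rw [dyy, this.deriv_eq]
    simp
  have h6 : dy (fun v => (v.y : ℂ)) w = 1 := h4 w.y w.pos
  rw [Lap, h1, h2, h5, h6]
  ring

variable [DecidableEq J]

theorem prodY_update (w : J → H3) (j : J) (v : H3) :
    prodY (update w j v) = (∏ i ∈ Finset.univ.erase j, ((w i).y : ℂ)) * v.y := by
  rw [prodY, ← Finset.prod_erase_mul _ _ (Finset.mem_univ j), update_self]
  congr 1
  refine Finset.prod_congr rfl fun i hi => ?_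
  rw [update_of_ne (Finset.ne_of_mem_erase hi)]

theorem prodY_ne_zero (w : J → H3) : prodY w ≠ 0 :=
  Finset.prod_ne_zero_iff.mpr fun j _ => (w j).y_ne

/-- **The eigenvalue of `LopJ j κ`.** -/
theorem hatv_LopJ {κ : (J → ℝ) → ℂ} (hκ : ContDiff ℝ 2 κ) {R : ℝ}
    (hR : ∀ u, (∃ j, R < u j) → κ u = 0) (j : J) : hatv (LopJ j κ) = -hatv κ := by
  have h := Lap_Rk hκ hR (locInt_of_continuous continuous_prodY) j (fun _ => base)
  rw [Rk_prod_y] at h
  have h1 : (fun v => Rk κ prodY (update (fun _ => base) j v)) =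
      fun v : H3 => (hatv κ * ∏ i ∈ Finset.univ.erase j, ((base.y : ℝ) : ℂ)) * (v.y : ℂ) := by
    funext v
    rw [Rk_prod_y, prodY_update]
    ring
  rw [h1, Lap_const_mul, Lap_y] at h
  have h2 : prodY (fun _ : J => base) = 1 := by simp [prodY]
  rw [h2, mul_one] at h
  rw [← h]
  simp

/-! ### Test functions -/

/-- Smooth functions on `J → ℝ` vanishing as soon as one variable is large. -/
def TestJ (κ : (J → ℝ) → ℂ) : Prop := ContDiff ℝ ∞ κ ∧ ∃ R : ℝ, ∀ u, (∃ j, R < u j) → κ u = 0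

/-- Smooth functions on `ℝ` vanishing for large `u`. -/
def Test1 (κ : ℝ → ℂ) : Prop := ContDiff ℝ ∞ κ ∧ ∃ R : ℝ, ∀ u, R < u → κ u = 0

/-- Pure tensors. -/
def tens (κs : J → ℝ → ℂ) (u : J → ℝ) : ℂ := ∏ j, κs j (u j)

theorem Test1.lop {κ : ℝ → ℂ} (h : Test1 κ) : Test1 (Lop κ) := by
  obtain ⟨h1, R, hR⟩ := h
  have h2 : ContDiff ℝ ∞ (deriv κ) := (contDiff_infty_iff_deriv.mp h1).2
  have h3 : ContDiff ℝ ∞ (deriv (deriv κ)) := (contDiff_infty_iff_deriv.mp h2).2
  have h4 : ContDiff ℝ ∞ (fun u : ℝ => (u : ℂ)) := Complex.ofRealCLM.contDiff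
  refine ⟨?_, R, fun u hu => ?_⟩
  · exact (((h4.pow 2).sub contDiff_const).mul h3).add ((contDiff_const.mul h4).mul h2)
  · have e1 : κ =ᶠ[𝓝 u] fun _ => 0 := by
      filter_upwards [lt_mem_nhds hu] with t ht
      exact hR t ht
    have e2 : deriv κ =ᶠ[𝓝 u] fun _ => 0 := by
      have := e1.deriv
      simpa using this
    rw [Lop, e2.deriv_eq, e2.eq_of_nhds]
    simp

theorem TestJ_tens {κs : J → ℝ → ℂ} (h : ∀ j, Test1 (κs j)) [Nonempty J] : TestJ (tens κs) := by
  choose hs R hR using h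
  refine ⟨?_, ∑ j, |R j|, fun u hu => ?_⟩
  · unfold tens
    exact contDiff_prod fun j _ => (hs j).comp (contDiff_apply ℝ ℝ j)
  · obtain ⟨j, hj⟩ := hu
    refine Finset.prod_eq_zero (Finset.mem_univ j) (hR j _ (lt_of_le_of_lt ?_ hj))
    exact (le_abs_self _).trans
      (Finset.single_le_sum (f := fun j => |R j|) (fun i _ => abs_nonneg _) (Finset.mem_univ j))

theorem tens_support {κs : J → ℝ → ℂ} (h : ∀ j, Test1 (κs j)) :
    ∃ R : ℝ, ∀ u, (∃ j, R < u j) → tens κs u = 0 := by
  choose hs R hR using h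
  refine ⟨∑ j, |R j|, fun u hu => ?_⟩
  obtain ⟨j, hj⟩ := hu
  refine Finset.prod_eq_zero (Finset.mem_univ j) (hR j _ (lt_of_le_of_lt ?_ hj))
  exact (le_abs_self _).trans
    (Finset.single_le_sum (f := fun j => |R j|) (fun i _ => abs_nonneg _) (Finset.mem_univ j))

theorem contDiff_tens {n : WithTop ℕ∞} {κs : J → ℝ → ℂ} (h : ∀ j, ContDiff ℝ n (κs j)) :
    ContDiff ℝ n (tens κs) := by
  unfold tens
  exact contDiff_prod fun j _ => (h j).comp (contDiff_apply ℝ ℝ j)

theorem LopJ_tens (j : J) (κs : J → ℝ → ℂ) :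
    LopJ j (tens κs) = tens (update κs j (Lop (κs j))) := by
  funext u
  have h1 : (fun t => tens κs (update u j t)) =
      fun t => (∏ i ∈ Finset.univ.erase j, κs i (u i)) * κs j t := by
    funext t
    rw [tens, ← Finset.prod_erase_mul _ _ (Finset.mem_univ j), update_self]
    congr 1
    refine Finset.prod_congr rfl fun i hi => ?_
    rw [update_of_ne (Finset.ne_of_mem_erase hi)]
  have h2 : ∀ c : ℂ, ∀ f : ℝ → ℂ, (deriv fun t => c * f t) = fun t => c * deriv f t := by
    intro c f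
    funext t
    exact deriv_const_mul_field c
  rw [LopJ, h1, tens, ← Finset.prod_erase_mul _ _ (Finset.mem_univ j), update_self, Lop, Lop, h2,
    h2]
  have h3 : ∏ i ∈ Finset.univ.erase j, update κs j (Lop (κs j)) i (u i) =
      ∏ i ∈ Finset.univ.erase j, κs i (u i) := by
    refine Finset.prod_congr rfl fun i hi => ?_
    rw [update_of_ne (Finset.ne_of_mem_erase hi)]
  rw [h3]
  ring

/-! ### The backward theorem -/

theorem contDiffOn_of_Rk {n : ℕ∞} {κ : (J → ℝ) → ℂ} (hκ : ContDiff ℝ n κ) {R : ℝ}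
    (hR : ∀ u, (∃ j, R < u j) → κ u = 0) {F : (J → H3) → ℂ} (hF : LocInt F) {c : ℂ} (hc : c ≠ 0)
    (hE : ∀ w, Rk κ F w = c * F w) : ContDiffOn ℝ n (fun p => F (ptv p)) (UpJ J) := by
  have h := contDiffOn_Rk hκ hR hF
  have e : (fun p : J → ℂ × ℝ => F (ptv p)) = fun p => c⁻¹ * Rk κ F (ptv p) := by
    funext p
    rw [hE, inv_mul_cancel_left₀ hc]
  rw [e]
  exact contDiffOn_const.mul h

theorem Lap_of_Rk {κ : (J → ℝ) → ℂ} (hκ : ContDiff ℝ 2 κ) {R : ℝ}
    (hR : ∀ u, (∃ j, R < u j) → κ u = 0) {F : (J → H3) → ℂ} (hF : LocInt F)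
    (hne : hatv κ ≠ 0) (hE : ∀ w, Rk κ F w = hatv κ * F w) {j : J} {w : J → H3}
    (hE' : Rk (LopJ j κ) F w = hatv (LopJ j κ) * F w) :
    Lap (fun v => F (update w j v)) (w j) = -F w := by
  have h := Lap_Rk hκ hR hF j w
  have e : (fun v => Rk κ F (update w j v)) = fun v => hatv κ * F (update w j v) := by
    funext v
    rw [hE]
  rw [e, Lap_const_mul, hE', hatv_LopJ hκ hR] at h
  exact mul_left_cancel₀ hne (by rw [h]; ring)

/-! ### A test function with nonvanishing eigenvalue -/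

/-- The bump function `κ₀ u = 1` for `u ≤ 1`, `κ₀ u = 0` for `u ≥ 2`. -/
def bump (u : ℝ) : ℝ := Real.smoothTransition (2 - u)

theorem contDiff_bump : ContDiff ℝ ∞ bump :=
  Real.smoothTransition.contDiff.comp (contDiff_const.sub contDiff_id)

theorem bump_nonneg (u : ℝ) : 0 ≤ bump u := Real.smoothTransition.nonneg _

theorem bump_one : bump 1 = 1 := Real.smoothTransition.one_of_one_le (by norm_num)

theorem bump_zero {u : ℝ} (hu : 2 < u) : bump u = 0 :=
  Real.smoothTransition.zero_of_nonpos (by linarith)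

theorem hatv_real_ne_zero {κ : (J → ℝ) → ℝ} (hκ : Continuous κ) {R : ℝ}
    (hR : ∀ u, (∃ j, R < u j) → κ u = 0) (h0 : ∀ u, 0 ≤ κ u) (h1 : κ (fun _ => 1) ≠ 0) :
    hatv (fun u => (κ u : ℂ)) ≠ 0 := by
  set g : (J → ℂ × ℝ) → ℝ := fun q => κ (chv (fun _ => base) (cs q)) * ∏ j, (cs q j).y with hg
  have hgc : Continuous g := by
    refine (hκ.comp ((H5Z.continuous_chv_right _).comp continuous_cs)).mul ?_
    exact continuous_finsetProd _ fun j _ =>
      continuous_y.comp ((continuous_apply j).comp continuous_cs)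
  have e : hatv (fun u => (κ u : ℂ)) = ((∫ q, g q : ℝ) : ℂ) := by
    rw [hatv, Rk, integral_cs, ← integral_complex_ofReal]
    refine integral_congr_ae (ae_of_all _ fun q => ?_)
    simp only [hg, prodY]
    push_cast
    ring
  have hpos : 0 < ∫ q, g q := by
    set q₀ : J → ℂ × ℝ := fun _ => coord base with hq₀
    have hcs : cs q₀ = fun _ => base := by
      funext j
      exact coord.symm_apply_apply base
    refine Continuous.integral_pos_of_hasCompactSupport_nonneg_nonzero (x := q₀) hgc ?_ ?_ ?_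
    · obtain ⟨s, hs, k, hk, hsk⟩ := locSupp_KJ (κ := fun u => (κ u : ℂ)) (R := R)
        (fun u hu => by rw [hR u hu, Complex.ofReal_zero]) _ (mem_UpJ (fun _ : J => base))
      refine HasCompactSupport.intro hk fun q hq => ?_
      have h2 := hsk _ (mem_of_mem_nhds hs) q hq
      rw [KJ, ptv_self] at h2
      have h3 : κ (chv (fun _ => base) (cs q)) = 0 := by exact_mod_cast h2
      simp only [hg, h3, zero_mul]
    · intro q
      exact mul_nonneg (h0 _) (Finset.prod_nonneg fun j _ => (cs q j).pos.le)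
    · simp only [hg, hcs]
      have h4 : chv (fun _ : J => base) (fun _ => base) = fun _ => 1 := by
        funext j
        exact ch_self base
      rw [h4]
      simpa using h1
  rw [e]
  exact_mod_cast hpos.ne'

theorem hatv_bump_ne_zero : hatv (fun u : J → ℝ => ((∏ j, bump (u j) : ℝ) : ℂ)) ≠ 0 := by
  refine hatv_real_ne_zero (R := 2) ?_ ?_ ?_ ?_
  · exact continuous_finsetProd _ fun j _ => contDiff_bump.continuous.comp (continuous_apply j)
  · rintro u ⟨j, hj⟩
    exact Finset.prod_eq_zero (Finset.mem_univ j) (bump_zero hj)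
  · intro u
    exact Finset.prod_nonneg fun j _ => bump_nonneg _
  · simp [bump_one]

/-- **Backward theorem, real pure tensors.** If `F` is locally integrable and
`R(κ) F = hatv κ * F` for all real smooth compactly supported pure tensors `κ`, then `F` is
smooth in the coordinates `(z, y)` and `Lap_j F = - F` for all `j`. -/
theorem backward_real {F : (J → H3) → ℂ} (hF : LocInt F)
    (hE : ∀ κs : J → ℝ → ℝ, (∀ j, ContDiff ℝ ∞ (κs j)) → (∀ j, ∃ R : ℝ, ∀ u, R < u → κs j u = 0) →
      ∀ w, Rk (fun u => ((∏ j, κs j (u j) : ℝ) : ℂ)) F w =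
        hatv (fun u => ((∏ j, κs j (u j) : ℝ) : ℂ)) * F w) :
    ContDiffOn ℝ ∞ (fun p => F (ptv p)) (UpJ J) ∧
      ∀ (j : J) (w : J → H3), Lap (fun v => F (update w j v)) (w j) = -F w := by
  set κ₀ : ℝ → ℂ := fun u => (bump u : ℂ) with hκ₀
  have ht0 : Test1 κ₀ := ⟨Complex.ofRealCLM.contDiff.comp contDiff_bump, 2, fun u hu => by
    simp [hκ₀, bump_zero hu]⟩
  have e0 : tens (fun _ : J => κ₀) = fun u => ((∏ j, bump (u j) : ℝ) : ℂ) := by
    funext u
    simp [tens, hκ₀]
  have hE0 : ∀ w, Rk (tens fun _ : J => κ₀) F w = hatv (tens fun _ : J => κ₀) * F w := by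
    rw [e0]
    exact hE (fun _ => bump) (fun _ => contDiff_bump) fun _ => ⟨2, fun u hu => bump_zero hu⟩
  have hne : hatv (tens fun _ : J => κ₀) ≠ 0 := by
    rw [e0]
    exact hatv_bump_ne_zero
  obtain ⟨R, hR⟩ := tens_support (κs := fun _ : J => κ₀) fun _ => ht0
  have hsm : ContDiff ℝ ∞ (tens fun _ : J => κ₀) := contDiff_tens fun _ => ht0.1
  refine ⟨contDiffOn_of_Rk (n := ⊤) hsm hR hF hne hE0, fun j w => ?_⟩
  refine Lap_of_Rk (hsm.of_le two_le_infty) hR hF hne hE0 ?_
  -- the real form of `Lop`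
  set κ₁ : ℝ → ℝ := fun u => (u ^ 2 - 1) * deriv (deriv bump) u + 3 * u * deriv bump u with hκ₁
  have hb1 : ContDiff ℝ ∞ (deriv bump) := (contDiff_infty_iff_deriv.mp contDiff_bump).2
  have hb2 : ContDiff ℝ ∞ (deriv (deriv bump)) := (contDiff_infty_iff_deriv.mp hb1).2
  have hd1 : deriv κ₀ = fun u => ((deriv bump u : ℝ) : ℂ) := by
    funext u
    exact ((contDiff_bump.differentiable (by norm_num)) u).hasDerivAt.ofReal_comp.deriv
  have hd2 : deriv (deriv κ₀) = fun u => ((deriv (deriv bump) u : ℝ) : ℂ) := by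
    rw [hd1]
    funext u
    exact ((hb1.differentiable (by norm_num)) u).hasDerivAt.ofReal_comp.deriv
  have hL : Lop κ₀ = fun u => ((κ₁ u : ℝ) : ℂ) := by
    funext u
    rw [Lop, hd2, hd1, hκ₁]
    push_cast
    ring
  have e1 : LopJ j (tens fun _ : J => κ₀) =
      fun u => ((∏ i, (update (fun _ : J => bump) j κ₁) i (u i) : ℝ) : ℂ) := by
    rw [LopJ_tens, hL]
    funext u
    rw [tens, Complex.ofReal_prod]
    refine Finset.prod_congr rfl fun i _ => ?_
    by_cases h : i = j
    · subst h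
      simp
    · simp [update_of_ne h, hκ₀]
  rw [e1]
  refine hE _ (fun i => ?_) (fun i => ?_) w
  · by_cases h : i = j
    · subst h
      rw [update_self]
      exact (((contDiff_id.pow 2).sub contDiff_const).mul hb2).add
        ((contDiff_const.mul contDiff_id).mul hb1)
    · rw [update_of_ne h]
      exact contDiff_bump
  · by_cases h : i = j
    · subst h
      rw [update_self]
      obtain ⟨R', hR'⟩ := ht0.lop.2
      refine ⟨R', fun u hu => ?_⟩
      have := hR' u hu
      rw [hL] at this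
      exact Complex.ofReal_eq_zero.mp this
    · rw [update_of_ne h]
      exact ⟨2, fun u hu => bump_zero hu⟩

/-- **Backward theorem, complex pure tensors.** -/
theorem backward_tens {F : (J → H3) → ℂ} (hF : LocInt F)
    (hE : ∀ κs : J → ℝ → ℂ, (∀ j, Test1 (κs j)) →
      ∀ w, Rk (tens κs) F w = hatv (tens κs) * F w) :
    ContDiffOn ℝ ∞ (fun p => F (ptv p)) (UpJ J) ∧
      ∀ (j : J) (w : J → H3), Lap (fun v => F (update w j v)) (w j) = -F w := by
  refine backward_real hF fun κs h1 h2 w => ?_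
  have e : (fun u : J → ℝ => ((∏ j, κs j (u j) : ℝ) : ℂ)) =
      tens fun j u => ((κs j u : ℝ) : ℂ) := by
    funext u
    simp [tens]
  rw [e]
  refine hE _ (fun j => ⟨Complex.ofRealCLM.contDiff.comp (h1 j), ?_⟩) w
  obtain ⟨R, hR⟩ := h2 j
  exact ⟨R, fun u hu => by simp [hR u hu]⟩

end Fermat.Agent.H74.C3
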