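import Fermat.Agent.H8T4
import Fermat.Agent.H56ZRad1
import Fermat.Agent.H74C3c
import Fermat.Agent.H47RCong

/-!
# S47, (T2a), part 2: the eigenvalue of (I-CT), smoothness
-/

set_option autoImplicit false
set_option linter.unusedSectionVars false

noncomputable section

open MeasureTheory Set
open scoped ComplexConjugate Real ContDiff

namespace Fermat.Agent.H8T

open S47T H47.Red

/-! ### `kap0 κ = ∫ κ(ch(o, w)) y(w) dw` -/

theorem abs_le_cosh (u : ℝ) : |u| ≤ Real.cosh u := by
  have h1 : 1 + |u| ≤ Real.exp |u| := by linarith [Real.add_one_le_exp |u|]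
  have h2 : Real.cosh u = (Real.exp |u| + Real.exp (-|u|)) / 2 := by
    rw [← Real.cosh_abs, Real.cosh_eq]
  have h3 : Real.sinh |u| ≤ Real.cosh u := by
    rw [← Real.cosh_abs]; exact (Real.sinh_lt_cosh _).le
  exact (Real.self_le_sinh_iff.mpr (abs_nonneg u)).trans h3

theorem integrable_region {κ : ℝ → ℝ} (hκ : Continuous κ) (hs : HasCompactSupport κ) :
    Integrable (indicator {p : ℝ × ℝ | Real.cosh p.2 < p.1} fun p : ℝ × ℝ => 2 * π * κ p.1) := by
  obtain ⟨B, hB⟩ := hs.exists_bound_of_continuous hκ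
  obtain ⟨T, hT⟩ := hs.isCompact.isBounded.subset_closedBall 0
  have hsupp : ∀ t, T < |t| → κ t = 0 := by
    intro t ht
    by_contra h
    have h1 := hT (subset_tsupport κ h)
    rw [mem_closedBall_zero_iff, Real.norm_eq_abs] at h1
    linarith
  have hS : MeasurableSet {p : ℝ × ℝ | Real.cosh p.2 < p.1} := H56Z.measurableSet_cosh_lt
  have hm : AEStronglyMeasurable (indicator {p : ℝ × ℝ | Real.cosh p.2 < p.1}
      fun p : ℝ × ℝ => 2 * π * κ p.1) volume := by
    refine AEStronglyMeasurable.indicator ?_ hS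
    exact (continuous_const.mul (hκ.comp continuous_fst)).aestronglyMeasurable
  have hK : volume (Icc (-T) T ×ˢ Icc (-T) T : Set (ℝ × ℝ)) ≠ ⊤ := by
    rw [Measure.volume_eq_prod, Measure.prod_prod]
    exact (ENNReal.mul_lt_top measure_Icc_lt_top measure_Icc_lt_top).ne
  have h1 : IntegrableOn (indicator {p : ℝ × ℝ | Real.cosh p.2 < p.1}
      fun p : ℝ × ℝ => 2 * π * κ p.1) (Icc (-T) T ×ˢ Icc (-T) T) := by
    refine Measure.integrableOn_of_bounded (M := 2 * π * B) hK hm ?_
    refine Filter.Eventually.of_forall fun p => ?_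
    have hB' := hB p.1
    have hB0 : 0 ≤ B := (norm_nonneg _).trans hB'
    by_cases hp : p ∈ {p : ℝ × ℝ | Real.cosh p.2 < p.1}
    · rw [indicator_of_mem hp, norm_mul, Real.norm_of_nonneg (by positivity)]
      exact mul_le_mul_of_nonneg_left hB' (by positivity)
    · rw [indicator_of_notMem hp, norm_zero]
      positivity
  refine h1.integrable_of_forall_notMem_eq_zero fun p hp => ?_
  by_cases hp' : p ∈ {p : ℝ × ℝ | Real.cosh p.2 < p.1}
  · rw [indicator_of_mem hp']
    have h2 : Real.cosh p.2 < p.1 := hp'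
    have h3 := Real.one_le_cosh p.2
    have h4 := abs_le_cosh p.2
    have h5 : T < |p.1| := by
      by_contra h6
      push Not at h6
      apply hp
      refine ⟨abs_le.mp h6, ?_⟩
      rw [abs_of_pos (by linarith)] at h6
      exact abs_le.mp (by linarith : |p.2| ≤ T)
    rw [hsupp _ h5, mul_zero]
  · rw [indicator_of_notMem hp']

theorem integral_mul_y {κ : ℝ → ℝ} (hκ : Continuous κ) (hs : HasCompactSupport κ) :
    ∫ w : H3, κ (H3.ch H3.base w) * w.y = kap0 κ := by
  set g : ℝ × ℝ → ℝ := fun p => κ p.1 * Real.exp p.2 with hg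
  have hgc : Continuous g := by fun_prop
  have h1 : ∀ w : H3, κ (H3.ch H3.base w) * w.y = g (H56Z.chl H3.base w) := by
    intro w
    simp only [hg, H56Z.chl, H3.base_y, Real.log_one, sub_zero, Real.exp_log w.pos]
  simp only [h1]
  have hmp := H56Z.measurePreserving_chl H3.base
  rw [← integral_map (φ := H56Z.chl H3.base) hmp.measurable.aemeasurable
    hgc.aestronglyMeasurable, hmp.map_eq, H56Z.rho,
    integral_withDensity_eq_integral_toReal_smul (by fun_prop)
    (Filter.Eventually.of_forall fun y => ENNReal.ofReal_lt_top)]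
  have h2 : ∀ p : ℝ × ℝ, (ENNReal.ofReal (2 * π * Real.exp (-p.2))).toReal • g p =
      2 * π * κ p.1 := by
    intro p
    rw [ENNReal.toReal_ofReal (by positivity), smul_eq_mul, hg]
    have h3 : Real.exp (-p.2) * Real.exp p.2 = 1 := by rw [← Real.exp_add]; simp
    linear_combination (2 * π * κ p.1) * h3
  simp only [h2]
  rw [← integral_indicator H56Z.measurableSet_cosh_lt]
  rw [Measure.volume_eq_prod, integral_prod_symm _ (integrable_region hκ hs)]
  have h3 : ∀ u : ℝ, ∫ t : ℝ, indicator {p : ℝ × ℝ | Real.cosh p.2 < p.1}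
      (fun p : ℝ × ℝ => 2 * π * κ p.1) (t, u) = 2 * π * ∫ t in Ioi (Real.cosh |u|), κ t := by
    intro u
    rw [← integral_const_mul, ← integral_indicator measurableSet_Ioi]
    refine integral_congr_ae (Filter.Eventually.of_forall fun t => ?_)
    simp only [indicator, mem_ofPred_eq, mem_Ioi, Real.cosh_abs]
  simp only [h3]
  rw [integral_comp_abs (f := fun u => 2 * π * ∫ t in Ioi (Real.cosh u), κ t), kap0]

/-! ### Smoothness -/

open H74.C3

/-- `F` as a function on `Unit → H3` -/
def FU (F : H3 → ℂ) : (Unit → H3) → ℂ := fun v => F (v ())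

theorem integral_unit {E : Type*} [NormedAddCommGroup E] [NormedSpace ℝ E] (f : H3 → E) :
    ∫ x : Unit → H3, f (x ()) = ∫ v : H3, f v :=
  (volume_preserving_funUnique Unit H3).integral_comp
    (MeasurableEquiv.funUnique Unit H3).measurableEmbedding f

theorem Rk_unit (F : H3 → ℂ) (κs : Unit → ℝ → ℝ) (w : Unit → H3) :
    H5Z.Rk (fun u => ((∏ j, κs j (u j) : ℝ) : ℂ)) (FU F) w =
      ∫ v : H3, (κs () (H3.ch (w ()) v) : ℂ) * F v := by
  rw [H5Z.Rk, ← integral_unit]
  simp [H5Z.chv, FU]

theorem hatv_unit (κs : Unit → ℝ → ℝ) :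
    hatv (fun u => ((∏ j, κs j (u j) : ℝ) : ℂ)) =
      ∫ v : H3, (κs () (H3.ch H3.base v) : ℂ) * v.y := by
  rw [hatv_def, ← integral_unit (fun v : H3 => (κs () (H3.ch H3.base v) : ℂ) * v.y)]
  simp

/-- A continuous function satisfying the eigenfunction property of (I-CT) is smooth and satisfies
`Δ F = - F`. -/
theorem Eig.backward {F : H3 → ℂ} (hc : Continuous F) (h : Eig F) :
    ContDiffOn ℝ ∞ (fun p => FU F (ptv p)) (UpJ Unit) ∧
      ∀ (j : Unit) (w : Unit → H3), Lap (fun v => FU F (Function.update w j v)) (w j) =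
        -FU F w := by
  refine backward_real (locInt_of_continuous (hc.comp (continuous_apply ()))) fun κs h1 h2 w => ?_
  rw [Rk_unit, hatv_unit]
  obtain ⟨R, hR⟩ := h2 ()
  set κ' : ℝ → ℝ := fun t => Real.smoothTransition t * κs () t with hκ'
  have hsm : ContDiff ℝ ((⊤ : ℕ∞) : WithTop ℕ∞) κ' := Real.smoothTransition.contDiff.mul (h1 ())
  have hcs : HasCompactSupport κ' := by
    refine HasCompactSupport.of_support_subset_isCompact (K := Icc 0 R) isCompact_Icc ?_
    intro t ht
    rw [Function.mem_support] at ht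
    constructor
    · by_contra h3
      push Not at h3
      exact ht (by rw [hκ']; simp [Real.smoothTransition.zero_of_nonpos h3.le])
    · by_contra h3
      push Not at h3
      exact ht (by rw [hκ']; simp [hR t h3])
  have heq : ∀ a b : H3, κ' (H3.ch a b) = κs () (H3.ch a b) := by
    intro a b
    rw [hκ']
    simp [Real.smoothTransition.one_of_one_le (H3.one_le_ch a b)]
  have e1 := h κ' hsm hcs (w ())
  simp only [heq] at e1
  rw [e1, ← integral_mul_y hsm.continuous hcs, ← integral_complex_ofReal]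
  simp only [heq, Complex.ofReal_mul]
  rfl

theorem Eig.contDiffOn {F : H3 → ℂ} (hc : Continuous F) (h : Eig F) :
    ContDiffOn ℝ ∞ (fun p : ℂ × ℝ => F (pt p.1 p.2)) {p | 0 < p.2} := by
  have h1 := (h.backward hc).1
  have h2 : ContDiff ℝ ∞ (fun (p : ℂ × ℝ) (_ : Unit) => p) := contDiff_pi.mpr fun _ => contDiff_id
  exact h1.comp h2.contDiffOn fun p hp _ => hp

theorem Eig.lap {F : H3 → ℂ} (hc : Continuous F) (h : Eig F) (w : H3) : Lap F w = -F w := by
  have h1 := (h.backward hc).2 () fun _ => w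
  simpa [FU] using h1

end Fermat.Agent.H8T
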