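import Fermat.Agent.H9ZEig
import Fermat.Agent.H74C3w
import Fermat.Agent.H22ZFEf
import Fermat.Agent.H34T4
import Fermat.Agent.H8T5
import Fermat.Agent.H56ZChar

/-!
# Reader's guide: functions with spectral parameter zero

(editor helper26; texts by helper74, helper75, helper9, helper22, helper8, helper34, helper26; library files
by helper74, helper75, helper9, helper22, helper8, helper34)

Every theorem of this file is a citation of theorems of the library, with the statement written out, or the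
unfolding of a definition. The file is imported by no other file. Everything cited is used in the proof of
S47 (the octahedral case of the theorem of Langlands and Tunnell), not in the proof of S01. The theorems
behind it use only Mathlib and modules of the library, no definition of the Prelude (of the imported modules
only `H8T5`, through `H96TIface`, imports some of it, for other theorems). It continues `GuideHyperbolic`. The
steps of the proofs of sections 5 and 6 are in `GuideBessel`.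

**What the block does.** The automorphic forms of S47 live on `(H3)^J × X_f` (`H3` = hyperbolic 3-space, `J` =
the set of infinite places of a totally complex field, `X_f` discrete). All of them have the same behaviour at
infinity: every radial kernel acts on them by the same constant as on the product `∏ y_j` of the heights
("spectral parameter zero"). The block proves that three descriptions of such functions agree:
(a) all radial kernels act by `hat`; (b) countably many explicit kernels act by `hat` (this is what the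
approximation arguments of the trace comparison give); (c) the function is smooth and satisfies the Laplace
equation `Lap F = -F` in every variable. The implication from (c) to (a) uses Green's identity and an explicit
solution of the radial equation, not averages over compact groups. For bounded functions which are periodic
for a lattice of translations, (c) gives the Fourier expansion with the Bessel function `K₀`, and shows that
the constant terms vanish and that the function decays exponentially at the cusps. So cuspidality is never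
an extra condition.

**Contents.**
1. The Laplace operator on functions of one variable (`H74C3a`).
2. Radial kernels and the Laplace operator (`H74C3b`, `H74C3p`, `H74C3c`, `H75Y1` - `H75Y4`, `H74C3w`).
3. Eigenfunctions with parameter zero: the equivalences (`H9ZRad`, `H9ZApp`, `H9ZDen`, `H9ZEig`).
4. The value of `hat` (`H8T5`, `H34T4`).
5. The Bessel function `K₀` (`H22ZK0`, `H22ZK0b`, `H22ZK0c`).
6. Fourier expansion and decay (`H22ZFour`, `H22ZFEa` - `H22ZFEf`).

**Used for** S47, blocks (C), (D) and (T). References in NOTES.md: [394], [397], [398], [414], [436].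
-/

set_option autoImplicit false

open MeasureTheory Function Set Filter Topology Module
open scoped ContDiff Real
open Fermat.Agent.H74.C3 (Lap pt)

namespace Fermat.Agent.Guide.Eigenfunctions

/-! ## 1. The Laplace operator

`H3` is hyperbolic 3-space with the coordinates `(z, y)`, `z` complex, `y > 0`, and the invariant measure
`dz dy / y³`; `H3.ch w w'` is the hyperbolic cosine of the distance, `H3.base = (0, 1)`. -/

/-- **The Laplace operator of hyperbolic 3-space**, written out: `y² (F_{x₁x₁} + F_{x₂x₂} + F_{yy}) - y F_y`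
with iterated one variable derivatives, `z = x₁ + i x₂`. Here `pt z y` is the point `(z, y)` for `y > 0`
(and `(z, 1)` otherwise). (`H74C3a`) -/
theorem laplace_def (F : H3 → ℂ) (w : H3) : Lap F w =
    (w.y : ℂ) ^ 2 * (deriv (deriv fun t : ℝ => F (pt (w.z + t) w.y)) 0 +
      deriv (deriv fun t : ℝ => F (pt (w.z + t * Complex.I) w.y)) 0 +
      deriv (deriv fun t : ℝ => F (pt w.z t)) w.y) -
    w.y * deriv (fun t : ℝ => F (pt w.z t)) w.y := rfl

/-- **The Laplace operator on radial functions.** For `κ` of class `C²` the Laplacian in `w` of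
`κ(ch(w, w'))` is `(u² - 1) κ''(u) + 3 u κ'(u)` at `u = ch(w, w')`. (`H74C3a`) -/
theorem laplace_of_radial {κ : ℝ → ℂ} (hκ : ContDiff ℝ 2 κ) (w w' : H3) :
    Lap (fun v => κ (H3.ch v w')) w =
      ((H3.ch w w' : ℂ) ^ 2 - 1) * deriv (deriv κ) (H3.ch w w') +
        3 * (H3.ch w w' : ℂ) * deriv κ (H3.ch w w') :=
  H74.C3.Lap_ch hκ w w'

/-- The function `y` is an eigenfunction with eigenvalue `-1` (in general `y ^ (1 + s)` has the eigenvalue
`s² - 1`; the spectral parameter of `y` is `s = 0`). (`H74C3c`) -/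
theorem laplace_y (w : H3) : Lap (fun v => (v.y : ℂ)) w = -w.y := H74.C3.Lap_y w

/-! ## 2. Radial kernels and the Laplace operator

`J` is a finite set. A radial kernel on `J → H3` is a function `κ` of the vector `(ch(w_j, w'_j))_j`; it acts
on functions by `F ↦ ∫ κ((ch(w_j, w'_j))_j) F(w') dw'`. -/

/-- **The eigenvalue `hat κ`.** Every radial kernel `κ` acts on `∏ y_j` by a constant, namely the value of the
integral at the base point (`0` if the integral does not converge). Proof: the maps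
`(z, y) ↦ (b + a z, a y)` preserve distances and the measure, are transitive and multiply `∏ y_j` by a
constant. `H9Z.hat κ` and `H74.C3.hatv κ` are this constant. (`H74C3c`) -/
theorem radial_kernel_on_prod_y {J : Type*} [Fintype J] (κ : (J → ℝ) → ℂ) (w : J → H3) :
    ∫ w' : J → H3, κ (fun j => H3.ch (w j) (w' j)) * ∏ j, ((w' j).y : ℂ) =
      (∫ x : J → H3, κ (fun j => H3.ch H3.base (x j)) * ∏ j, ((x j).y : ℂ)) *
        ∏ j, ((w j).y : ℂ) :=
  H74.C3.Rk_prod_y κ w

/-- **Integrals with a parameter are smooth.** `K` is of class `C^n` in both variables on `Ω × G`, and locally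
in the parameter it vanishes outside a compact subset of `G`; `f` is locally integrable. Then
`p ↦ ∫ K p x * f x` is of class `C^n`. (From Mathlib's theorem on convolutions with parameters. It is used
for `radial_kernel_smooth` in the coordinates `H3.coord`, with `distance_in_coordinates`.) (`H74C3p`) -/
theorem integral_with_parameter {P G : Type*} [NormedAddCommGroup P] [NormedSpace ℝ P]
    [NormedAddCommGroup G] [NormedSpace ℝ G] [MeasurableSpace G] [BorelSpace G] {μ : Measure G}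
    {n : ℕ∞} {Ω : Set P} (hΩ : IsOpen Ω) {K : P → G → ℂ}
    (hK : ContDiffOn ℝ n (uncurry K) (Ω ×ˢ univ))
    (hsupp : ∀ p₀ ∈ Ω, ∃ s ∈ 𝓝 p₀, ∃ k : Set G, IsCompact k ∧ ∀ p ∈ s, ∀ x, x ∉ k → K p x = 0)
    {f : G → ℂ} (hf : LocallyIntegrable f μ) :
    ContDiffOn ℝ n (fun p => ∫ x, K p x * f x ∂μ) Ω :=
  H74.C3.contDiffOn_integral_loc hΩ hK hsupp hf

/-- **Differentiation under the integral sign**, one real parameter; `f` is only locally integrable, the
kernel vanishes outside a fixed compact set for `t` near `t₀`. (Dominated convergence: the derivative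
`K'` is bounded on a compact set.) (`H74C3p`) -/
theorem derivative_under_integral {G : Type*} [TopologicalSpace G] [T2Space G]
    [SecondCountableTopology G] [MeasurableSpace G] [BorelSpace G] {μ : Measure G}
    {K K' : ℝ → G → ℂ} {t₀ : ℝ} {s : Set ℝ} (hs : s ∈ 𝓝 t₀) (hKc : ∀ t ∈ s, Continuous (K t))
    (hd : ∀ t ∈ s, ∀ x, HasDerivAt (fun t => K t x) (K' t x) t)
    (hK'c : ContinuousOn (uncurry K') (s ×ˢ univ)) {k : Set G} (hk : IsCompact k)
    (hsupp : ∀ t ∈ s, ∀ x, x ∉ k → K t x = 0) {f : G → ℂ} (hf : LocallyIntegrable f μ) :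
    HasDerivAt (fun t => ∫ x, K t x * f x ∂μ) (∫ x, K' t₀ x * f x ∂μ) t₀ :=
  H74.C3.hasDerivAt_integral_param hs hKc hd hK'c hk hsupp hf

/-- **The Laplace operator under the integral sign.** `k w x` is a kernel on `H3 × G` which is of class `C²`
in the coordinates of `w` and in `x` and vanishes, locally in `w`, outside a compact set; `f` is locally
integrable. From `derivative_under_integral` along the lines `p + t v`, twice. (`H74C3p`) -/
theorem laplace_under_integral {G : Type*} [NormedAddCommGroup G] [NormedSpace ℝ G]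
    [SecondCountableTopology G] [MeasurableSpace G] [BorelSpace G] {μ : Measure G} {k : H3 → G → ℂ}
    (hk : ContDiffOn ℝ 2 (uncurry fun (p : ℂ × ℝ) x => k (pt p.1 p.2) x)
      ({p : ℂ × ℝ | 0 < p.2} ×ˢ univ))
    (hsupp : ∀ p₀ ∈ {p : ℂ × ℝ | 0 < p.2}, ∃ s ∈ 𝓝 p₀, ∃ c : Set G, IsCompact c ∧
      ∀ p ∈ s, ∀ x, x ∉ c → k (pt p.1 p.2) x = 0)
    {f : G → ℂ} (hf : LocallyIntegrable f μ) (w : H3) :
    Lap (fun w => ∫ x, k w x * f x ∂μ) w = ∫ x, Lap (fun w => k w x) w * f x ∂μ :=
  H74.C3.Lap_integral hk hsupp hf w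

/-- **The distance in coordinates.** With `(z, y)` for the first point and `(u, t) = (z' / y', log y')` for
the second (`H3.coord`), the hyperbolic cosine of the distance is
`(|z - e^t u|² + y² + e^(2t)) / (2 y e^t)`; it is smooth in `(z, y, u, t)`, `y > 0`, and for `(z, y)` near a
given point it is larger than `R` for all `(u, t)` outside a compact set. (`H74C3b`) -/
theorem distance_in_coordinates :
    (∀ p : ℂ × ℝ, 0 < p.2 → ∀ q : ℂ × ℝ, H3.ch (pt p.1 p.2) (H3.coord.symm q) =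
      (((p.1.re - Real.exp q.2 * q.1.re) ^ 2 + (p.1.im - Real.exp q.2 * q.1.im) ^ 2) + p.2 ^ 2 +
        Real.exp q.2 ^ 2) / (2 * p.2 * Real.exp q.2)) ∧
    ContDiffOn ℝ ∞ (fun x : (ℂ × ℝ) × (ℂ × ℝ) => H3.ch (pt x.1.1 x.1.2) (H3.coord.symm x.2))
      ({p : ℂ × ℝ | 0 < p.2} ×ˢ univ) ∧
    ∀ (R : ℝ) (p₀ : ℂ × ℝ), 0 < p₀.2 → ∃ s ∈ 𝓝 p₀, ∃ k : Set (ℂ × ℝ), IsCompact k ∧
      ∀ p ∈ s, ∀ q, q ∉ k → R < H3.ch (pt p.1 p.2) (H3.coord.symm q) :=
  ⟨fun _ hp q => H74.C3.ch_pt_coord hp q, H74.C3.contDiffOn_ch,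
    fun R _ hp => H74.C3.compact_nbhd R hp⟩

/-- **Radial kernels smooth.** `F` locally integrable, `κ` of class `C^n` and zero as soon as one variable is
larger than `R`. Then `w ↦ ∫ κ(ch(w, w')) F(w') dw'` is of class `C^n` in the coordinates `(z_j, y_j)`.
(In the coordinates `(z / y, log y)`, which are `H3.coord`, the measure is Lebesgue measure on `ℂ × ℝ`;
local integrability refers to these coordinates.) (`H74C3p`, `H74C3b`) -/
theorem radial_kernel_smooth {J : Type*} [Fintype J] {n : ℕ∞} {κ : (J → ℝ) → ℂ}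
    (hκ : ContDiff ℝ n κ) {R : ℝ} (hR : ∀ u, (∃ j, R < u j) → κ u = 0) {F : (J → H3) → ℂ}
    (hF : LocallyIntegrable fun q : J → ℂ × ℝ => F fun j => H3.coord.symm (q j)) :
    ContDiffOn ℝ n (fun p : J → ℂ × ℝ =>
      ∫ w' : J → H3, κ (fun j => H3.ch (pt (p j).1 (p j).2) (w' j)) * F w')
      {p | ∀ j, 0 < (p j).2} :=
  H74.C3.contDiffOn_Rk hκ hR hF

/-- **The Laplacian goes to the kernel.** The Laplacian in the variable `j` of `∫ κ(ch(w, w')) F(w') dw'` is
the same integral with the kernel `((u_j² - 1) ∂_j² + 3 u_j ∂_j) κ`, which is called `LopJ j κ`; the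
derivatives with respect to `u_j` are written with `Function.update`. Proof: for `w` near a given point the
kernel is of class `C²` in the coordinates of `w` and zero for `w'` outside a compact set
(`distance_in_coordinates`), so the derivatives may be taken under the integral sign
(`laplace_under_integral`); then `laplace_of_radial`. (`H74C3p`, `H74C3b`) -/
theorem laplace_of_radial_kernel {J : Type*} [Fintype J] [DecidableEq J] {κ : (J → ℝ) → ℂ}
    (hκ : ContDiff ℝ 2 κ) {R : ℝ} (hR : ∀ u, (∃ j, R < u j) → κ u = 0) {F : (J → H3) → ℂ}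
    (hF : LocallyIntegrable fun q : J → ℂ × ℝ => F fun j => H3.coord.symm (q j)) (j : J)
    (w : J → H3) :
    Lap (fun v => ∫ w' : J → H3, κ (fun i => H3.ch (update w j v i) (w' i)) * F w') (w j) =
      ∫ w' : J → H3, (((H3.ch (w j) (w' j) : ℂ) ^ 2 - 1) *
          deriv (deriv fun t => κ (update (fun i => H3.ch (w i) (w' i)) j t)) (H3.ch (w j) (w' j)) +
        3 * (H3.ch (w j) (w' j) : ℂ) *
          deriv (fun t => κ (update (fun i => H3.ch (w i) (w' i)) j t)) (H3.ch (w j) (w' j))) *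
        F w' :=
  H74.C3.Lap_Rk hκ hR hF j w

/-- **From kernels to the Laplace equation.** `F` locally integrable on `(H3)^J` such that all real
smooth compactly supported product kernels act on `F` as on `∏ y_j`. Then `F` is smooth and
`Lap F = -F` in every variable. Proof: one fixed kernel `κ₀` with `hat κ₀ > 0` gives smoothness;
then the Laplacian goes to the kernel, and `hat (LopJ j κ₀) = -hat κ₀` by `laplace_y`. No formula for
`hat` is needed. (`H74C3c`) -/
theorem laplace_equation_of_kernels {J : Type*} [Fintype J] [DecidableEq J] {F : (J → H3) → ℂ}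
    (hF : LocallyIntegrable fun q : J → ℂ × ℝ => F fun j => H3.coord.symm (q j))
    (hE : ∀ κs : J → ℝ → ℝ, (∀ j, ContDiff ℝ ∞ (κs j)) →
      (∀ j, ∃ R : ℝ, ∀ u, R < u → κs j u = 0) → ∀ w : J → H3,
        ∫ w' : J → H3, ((∏ j, κs j (H3.ch (w j) (w' j)) : ℝ) : ℂ) * F w' =
          (∫ x : J → H3, ((∏ j, κs j (H3.ch H3.base (x j)) : ℝ) : ℂ) * ∏ j, ((x j).y : ℂ)) * F w) :
    ContDiffOn ℝ ∞ (fun p : J → ℂ × ℝ => F fun j => pt (p j).1 (p j).2) {p | ∀ j, 0 < (p j).2} ∧
      ∀ (j : J) (w : J → H3), Lap (fun v => F (update w j v)) (w j) = -F w :=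
  H74.C3.backward_real hF hE

/-- **The radial equation.** Let `κ` be real of class `C¹` with `κ = 0` on `[R, ∞)`, `R > 1`, and let
`∫_0^√(R-1) K₁(1 + v²) / √(2 + v²) dv` be zero, `K₁(t) = ∫_t^R κ` (with `t = 1 + v²` one sees that `8π` times
this integral is `∫_1^R 4π arcosh(t) κ(t) dt`, the value of `hat`, see `kap0_eq_arcosh`). Then
`(t² - 1) η'' + 3 t η' + η = κ` has a solution on `t > -1`, zero for `t ≥ R`, namely
`η = -2 J(t) / √(t + 1)`, `J(t) = ∫_0^1 K₁(τ) / √(1 + τ) ds` at `τ = 1 + (t - 1) s²`; it is of class `C²` also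
at the singular point `t = 1`. (`H75Y1.exists_eta`) -/
theorem radial_equation {κ : ℝ → ℝ} {R : ℝ} (hκ : ContDiff ℝ 1 κ) (hR1 : 1 < R)
    (hR : ∀ t, R ≤ t → κ t = 0)
    (h0 : ∫ v in (0 : ℝ)..√(R - 1), (∫ s in (1 + v ^ 2)..R, κ s) / √(2 + v ^ 2) = 0) :
    ∃ η η1 η2 : ℝ → ℝ, (∀ t, -1 < t → HasDerivAt η (η1 t) t) ∧
      (∀ t, -1 < t → HasDerivAt η1 (η2 t) t) ∧ ContinuousOn η2 (Ioi (-1)) ∧
      (∀ t, -1 < t → (t ^ 2 - 1) * η2 t + 3 * t * η1 t + η t = κ t) ∧ ∀ t, R ≤ t → η t = 0 :=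
  H75Y.exists_eta hκ hR1 hR h0

/-- **Green's identity**: if `F`, `G` are of class `C²` in the coordinates and `G` vanishes outside
`‖z‖ ≤ b`, `a ≤ y ≤ b` (`a > 0`), then `∫ G · Lap F = ∫ Lap G · F`, and both integrals converge. Proof in
coordinates: the difference of the integrands is `y³ ∑_v ∂_v ((G ∂_v F - F ∂_v G) / y)`, the sum over the
three coordinate directions `v`, and the functions which are differentiated have compact support.
(`H75Y2.green`) -/
theorem green_identity {F G : H3 → ℂ}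
    (hF : ContDiffOn ℝ 2 (fun p : ℂ × ℝ => F (pt p.1 p.2)) {p | 0 < p.2})
    (hG : ContDiffOn ℝ 2 (fun p : ℂ × ℝ => G (pt p.1 p.2)) {p | 0 < p.2}) {a b : ℝ} (ha : 0 < a)
    (hS : ∀ w : H3, G w ≠ 0 → ‖w.z‖ ≤ b ∧ a ≤ w.y ∧ w.y ≤ b) :
    Integrable (fun w => G w * Lap F w) ∧ Integrable (fun w => Lap G w * F w) ∧
      ∫ w, G w * Lap F w = ∫ w, Lap G w * F w :=
  H75Y.green hF hG ha hS

/-- **Such kernels annihilate the functions with `Lap F = -F`**: the kernel is the Laplacian plus one of the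
kernel `η` of `radial_equation`; apply `green_identity`. So for `F` and for the height function the
functionals `κ ↦ ∫ κ(ch(w, w')) F(w') dw'` are proportional. (`H75Y3.annihilate`) -/
theorem annihilate {κ : ℝ → ℝ} {R : ℝ} (hκ : ContDiff ℝ 1 κ) (hR1 : 1 < R)
    (hR : ∀ t, R ≤ t → κ t = 0)
    (h0 : ∫ v in (0 : ℝ)..√(R - 1), (∫ s in (1 + v ^ 2)..R, κ s) / √(2 + v ^ 2) = 0) {F : H3 → ℂ}
    (hF : ContDiffOn ℝ 2 (fun p : ℂ × ℝ => F (pt p.1 p.2)) {p | 0 < p.2})
    (hL : ∀ w, Lap F w = -F w) (w : H3) : ∫ w', (κ (H3.ch w w') : ℂ) * F w' = 0 :=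
  H75Y.annihilate hκ hR1 hR h0 hF hL w

/-- **From the Laplace equation to all kernels.** `F` of class `C²` on `(H3)^J` with `Lap F = -F` in every
variable. Then every kernel `κ`, continuous on `{u | ∀ j, 1 ≤ u j}` and zero there when some variable is
larger than `T`, acts on `F` by the same constant as on `∏ y_j`. Proof in one variable by `annihilate` (the
factor is found with kernels concentrated near `w`; no averaging over the stabiliser of a point and no polar
coordinates); several variables: one after the other. (`H75Y1` - `H75Y4`, `H9ZRad`, `H74C3w`) -/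
theorem kernels_of_laplace_equation {J : Type*} [Fintype J] [DecidableEq J] {F : (J → H3) → ℂ}
    (h2 : ContDiffOn ℝ 2 (fun p : J → ℂ × ℝ => F fun j => pt (p j).1 (p j).2)
      {p | ∀ j, 0 < (p j).2})
    (hL : ∀ (j : J) (w : J → H3), Lap (fun v => F (update w j v)) (w j) = -F w)
    {κ : (J → ℝ) → ℂ} (hκ : ContinuousOn κ {u | ∀ j, 1 ≤ u j}) {T : ℝ}
    (hT : ∀ u : J → ℝ, (∀ j, 1 ≤ u j) → (∃ j, T < u j) → κ u = 0) (w : J → H3) :
    ∫ w' : J → H3, κ (fun j => H3.ch (w j) (w' j)) * F w' =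
      (∫ x : J → H3, κ (fun j => H3.ch H3.base (x j)) * ∏ j, ((x j).y : ℂ)) * F w :=
  H74.C3.forward_J h2 hL ⟨hκ, T, hT⟩ w

/-! ## 3. Eigenfunctions with parameter zero: the equivalences -/

/-- The predicate `IsEig`: `Φ` is locally integrable, and every kernel `κ` (continuous on
`{t | ∀ j, 1 ≤ t j}`, zero there for large `t`) acts on `Φ` by the same constant as on `∏ y_j`.
(`H9ZEig`) -/
theorem isEig_iff {J : Type*} [Fintype J] (Φ : (J → H3) → ℂ) :
    H9Z.IsEig Φ ↔ LocallyIntegrable Φ ∧ ∀ κ : (J → ℝ) → ℂ,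
      ContinuousOn κ {t | ∀ j, 1 ≤ t j} →
      (∃ T : ℝ, ∀ t : J → ℝ, (∀ j, 1 ≤ t j) → (∃ j, T < t j) → κ t = 0) →
      ∀ w : J → H3, ∫ w' : J → H3, κ (fun j => H3.ch (w j) (w' j)) * Φ w' =
        (∫ w' : J → H3, κ (fun j => H3.ch H3.base (w' j)) * ∏ j, ((w' j).y : ℂ)) * Φ w :=
  ⟨fun h => ⟨h.1, fun κ h1 h2 => h.2 κ ⟨h1, h2⟩⟩, fun h => ⟨h.1, fun κ hκ => h.2 κ hκ.cont hκ.supp⟩⟩

/-- **Equivalence with the Laplace equation**: `IsEig Φ` holds if and only if `Φ` is of class `C²` in the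
coordinates `(z_j, y_j)` and `Lap Φ = -Φ` in every variable. (`H9ZEig`: `isEig_of_lap`, `IsEig.lap`,
`IsEig.contDiffOn`; from section 2) -/
theorem isEig_iff_laplace {J : Type*} [Fintype J] [DecidableEq J] (Φ : (J → H3) → ℂ) :
    H9Z.IsEig Φ ↔
      ContDiffOn ℝ 2 (fun p : J → ℂ × ℝ => Φ fun j => pt (p j).1 (p j).2) {p | ∀ j, 0 < (p j).2} ∧
      ∀ (j : J) (w : J → H3), Lap (fun v => Φ (update w j v)) (w j) = -Φ w :=
  ⟨fun h => ⟨h.contDiffOn.of_le H74.C3.two_le_infty, h.lap⟩,
    fun h => H9Z.isEig_of_lap h.1 fun j w => by convert h.2 j w⟩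

/-- **One variable at a time.** Let `Φ` be continuous on `(H3)^J`, and assume that in each variable separately
(the others being fixed) every one variable kernel `k` acts by the scalar `∫ k(ch(base, u)) y(u) du`. Then
every kernel `κ` on `(H3)^J` acts by `hat κ`. The variables of `Φ` are replaced one after the other by the
heights, by Fubini. Used for the dihedral form over the sextic field (block (D)). (`H9ZRad.R_eq_hat_mul`) -/
theorem one_variable_at_a_time {J : Type*} [Fintype J] [DecidableEq J] {Φ : (J → H3) → ℂ}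
    (hΦ : Continuous Φ)
    (h1 : ∀ (j : J) (w : J → H3) (k : ℝ → ℂ), ContinuousOn k (Ici 1) →
      (∃ T : ℝ, ∀ t, 1 ≤ t → T < t → k t = 0) → ∀ x : H3,
      ∫ u : H3, k (H3.ch x u) * Φ (update w j u) =
        (∫ u : H3, k (H3.ch H3.base u) * (u.y : ℂ)) * Φ (update w j x))
    {κ : (J → ℝ) → ℂ} (hκ : ContinuousOn κ {t | ∀ j, 1 ≤ t j})
    (hs : ∃ T : ℝ, ∀ t : J → ℝ, (∀ j, 1 ≤ t j) → (∃ j, T < t j) → κ t = 0) (w : J → H3) :
    ∫ w' : J → H3, κ (fun j => H3.ch (w j) (w' j)) * Φ w' =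
      (∫ x : J → H3, κ (fun j => H3.ch H3.base (x j)) * ∏ j, ((x j).y : ℂ)) * Φ w :=
  H9Z.R_eq_hat_mul hΦ (fun j w k hk x => h1 j w k hk.cont hk.supp x) ⟨hκ, hs⟩ w

/-- **Approximate identity.** There is a sequence of one variable kernels `k n` (real, continuous,
nonnegative, zero for `t ≥ 1 + 1/(n+1)`, with eigenvalue `1` on the height) such that the product kernels
`k n (t_1) ⋯ k n (t_r)` on `(H3)^J` approximate the identity on continuous functions. (`H9ZApp`) -/
theorem approximate_identity (J : Type*) [Fintype J] :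
    ∃ k : ℕ → ℝ → ℝ, (∀ n, ContinuousOn (fun t => (k n t : ℂ)) (Ici 1)) ∧ (∀ n t, 0 ≤ k n t) ∧
      (∀ (n : ℕ) (t : ℝ), 1 + 1 / ((n : ℝ) + 1) ≤ t → k n t = 0) ∧
      (∀ n, ∫ u : H3, (k n (H3.ch H3.base u) : ℂ) * (u.y : ℂ) = 1) ∧
      ∀ Φ : (J → H3) → ℂ, Continuous Φ → ∀ w : J → H3,
        Tendsto (fun n => ∫ w' : J → H3, (∏ j, (k n (H3.ch (w j) (w' j)) : ℂ)) * Φ w') atTop
          (𝓝 (Φ w)) :=
  ⟨H9Z.ap, fun n => (H9Z.ker1_apC n).cont, H9Z.ap_nonneg, fun _ _ h => H9Z.ap_zero h, H9Z.hat1_apC,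
    fun _ hΦ w => H9Z.tendsto_ap hΦ w⟩

/-- **Density.** If the identity `R(κ) Φ (w) = c · R(κ) Ψ (w₀)` holds for the countably many kernels
`κ(t) = ∏_j χ_n(t_j) t_j^{m_j}` (`χ_n(t) = smoothTransition (n + 1 - t)` is a smooth cut-off, `1` for
`t ≤ n` and `0` for `t ≥ n + 1`), then it holds for every kernel. Weierstrass approximation on the cube and
a uniform bound for the supports. (`H9ZDen.Rk_ext`) -/
theorem density {J : Type*} [Fintype J] {Φ Ψ : (J → H3) → ℂ} (hΦ : LocallyIntegrable Φ)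
    (hΨ : LocallyIntegrable Ψ) {w w₀ : J → H3} {c : ℂ}
    (h : ∀ (n : ℕ) (m : J → ℕ),
      ∫ w' : J → H3, (∏ j, ((Real.smoothTransition (n + 1 - H3.ch (w j) (w' j)) *
        H3.ch (w j) (w' j) ^ m j : ℝ) : ℂ)) * Φ w' =
      c * ∫ w' : J → H3, (∏ j, ((Real.smoothTransition (n + 1 - H3.ch (w₀ j) (w' j)) *
        H3.ch (w₀ j) (w' j) ^ m j : ℝ) : ℂ)) * Ψ w')
    {κ : (J → ℝ) → ℂ} (hκ : ContinuousOn κ {t | ∀ j, 1 ≤ t j})
    (hs : ∃ T : ℝ, ∀ t : J → ℝ, (∀ j, 1 ≤ t j) → (∃ j, T < t j) → κ t = 0) :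
    ∫ w' : J → H3, κ (fun j => H3.ch (w j) (w' j)) * Φ w' =
      c * ∫ w' : J → H3, κ (fun j => H3.ch (w₀ j) (w' j)) * Ψ w' :=
  H9Z.Rk_ext hΦ hΨ h ⟨hκ, hs⟩

/-- **Countably many kernels suffice.** If `Φ` is locally integrable and the countably many kernels of
`density` act on `Φ` as on `∏ y_j`, at every point, then `IsEig Φ`; in particular `Φ` is continuous. This
form is what one gets in block (C), where identities are first known almost everywhere, so that the
exceptional null sets have to be countable in number. (`H9ZEig.isEig_of_countable`, `IsEig.continuous`) -/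
theorem isEig_of_countably_many {J : Type*} [Fintype J] {Φ : (J → H3) → ℂ}
    (hΦ : LocallyIntegrable Φ)
    (h : ∀ (n : ℕ) (m : J → ℕ) (w : J → H3),
      ∫ w' : J → H3, (∏ j, ((Real.smoothTransition (n + 1 - H3.ch (w j) (w' j)) *
        H3.ch (w j) (w' j) ^ m j : ℝ) : ℂ)) * Φ w' =
      (∫ x : J → H3, (∏ j, ((Real.smoothTransition (n + 1 - H3.ch H3.base (x j)) *
        H3.ch H3.base (x j) ^ m j : ℝ) : ℂ)) * ∏ j, ((x j).y : ℂ)) * Φ w) :
    H9Z.IsEig Φ ∧ Continuous Φ := by
  classical exact ⟨H9Z.isEig_of_countable hΦ h, (H9Z.isEig_of_countable hΦ h).continuous⟩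

/-! ## 4. The value of `hat` -/

/-- The eigenvalue `kap0 κ` used in block (T) is defined as `2 ∫_0^∞ A(u) du` with the Abel transform
`A(u) = 2π ∫_{cosh u}^∞ κ(t) dt`. It is the value of `hat` for one variable: the integral of the kernel
against the height. (`H8T5.integral_mul_y`) -/
theorem kap0_eq_integral_height {κ : ℝ → ℝ} (hκ : Continuous κ) (hs : HasCompactSupport κ) :
    ∫ w : H3, κ (H3.ch H3.base w) * w.y =
      2 * ∫ u in Ioi (0 : ℝ), 2 * π * ∫ t in Ioi (Real.cosh u), κ t :=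
  H8T.integral_mul_y hκ hs

/-- The same number is `∫_1^∞ 4π arcosh(t) κ(t) dt`: exchange the two integrations. (`H34T4.kap0_eq`) -/
theorem kap0_eq_arcosh {κ : ℝ → ℝ} (hκ : StronglyMeasurable κ)
    (hi : IntegrableOn (fun t => Real.arcosh t * κ t) (Ioi 1)) :
    2 * ∫ u in Ioi (0 : ℝ), 2 * π * ∫ t in Ioi (Real.cosh u), κ t =
      ∫ t in Ioi (1 : ℝ), (4 * π * Real.arcosh t) * κ t :=
  H34T.kap0_eq hκ hi

/-- **Constants have another eigenvalue.** For a continuous `κ ≥ 0` with compact support, positive at some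
`t₀ > 1`, the eigenvalue at the parameter zero is smaller than the mass `∫_1^∞ 4π √(t² - 1) κ(t) dt` (the
eigenvalue of the constant function), because `arcosh t < √(t² - 1)` for `t > 1`. So the integral over a
quotient of a function with parameter zero vanishes (`integral_eigenfunction_eq_zero` in `GuideTrace`).
(`H34T4.kap0_lt_mass`) -/
theorem hat_lt_mass {κ : ℝ → ℝ} (hκ : Continuous κ) (hs : HasCompactSupport κ)
    (h0 : ∀ t, 0 ≤ κ t) {t₀ : ℝ} (ht₀ : 1 < t₀) (hpos : 0 < κ t₀) :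
    2 * ∫ u in Ioi (0 : ℝ), 2 * π * ∫ t in Ioi (Real.cosh u), κ t <
      ∫ t in Ioi (1 : ℝ), (4 * π * √(t ^ 2 - 1)) * κ t :=
  H34T.kap0_lt_mass hκ hs h0 ht₀ hpos

/-! ## 5. The Bessel function `K₀` -/

/-- Definition of `K₀` and of the integrals `KJ j x` of `(cosh t)^j exp (-x cosh t)` over `t > 0`; `K₁` is
`KJ 1`. (`H22ZK0`) -/
theorem bessel_def (j : ℕ) (x : ℝ) :
    H22Z.K0 x = ∫ t in Ioi (0 : ℝ), Real.exp (-x * Real.cosh t) ∧
      H22Z.KJ j x = ∫ t in Ioi (0 : ℝ), Real.cosh t ^ j * Real.exp (-x * Real.cosh t) ∧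
      H22Z.KJ 0 x = H22Z.K0 x ∧ H22Z.KJ 1 x = H22Z.K1 x :=
  ⟨rfl, rfl, congrFun H22Z.KJ_zero x, rfl⟩

/-- **The differential equation** `x K₀'' + K₀' = x K₀`: `K₀' = -K₁`, `K₁' = -KJ 2`, `x KJ 2 - K₁ = x K₀`, and
`K₀ > 0`. Differentiation under the integral sign and one integration by parts. (`H22ZK0`) -/
theorem bessel_ode (x : ℝ) (hx : 0 < x) :
    0 < H22Z.K0 x ∧ HasDerivAt H22Z.K0 (-(H22Z.K1 x)) x ∧ HasDerivAt H22Z.K1 (-(H22Z.KJ 2 x)) x ∧
      x * H22Z.KJ 2 x - H22Z.K1 x = x * H22Z.K0 x :=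
  ⟨H22Z.K0_pos hx, H22Z.hasDerivAt_K0 hx, H22Z.hasDerivAt_K1 hx, H22Z.K0_ode hx⟩

/-- Exponential decay of `K₀` at infinity and logarithmic growth at `0`. (`H22ZK0`, `H22ZK0b`) -/
theorem bessel_bounds :
    (∀ a : ℝ, 0 < a → ∃ C : ℝ, 0 < C ∧ ∀ x : ℝ, a ≤ x → H22Z.K0 x ≤ C * Real.exp (-x)) ∧
      ∀ x : ℝ, 0 < x → H22Z.K0 x ≤ |Real.log x| + 2 :=
  ⟨fun _ ha => by simpa only [H22Z.KJ_zero] using H22Z.KJ_le 0 ha, fun _ hx => H22Z.K0_le_log hx⟩

/-- The integral of `exp (-a u - b / u) du / u` over `u > 0` is `2 K₀(2 √(ab))`. With it the Gaussian terms of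
the theta kernel of the dihedral form (block (D), `H53Z1`) integrate to the waves below. (`H22ZK0b`) -/
theorem integral_exp_add_inv (a b : ℝ) (ha : 0 < a) (hb : 0 < b) :
    ∫ u in Ioi (0 : ℝ), u⁻¹ * Real.exp (-a * u - b / u) = 2 * H22Z.K0 (2 * √(a * b)) :=
  H22Z.integral_exp_add_inv ha hb

/-- **The waves.** For `ν ≠ 0` the function `y K₀(4π|ν|y) exp(2πi · 2 Re(ν z))` satisfies `Lap F = -F`.
(`H74C3w`) -/
theorem laplace_of_wave {ν : ℂ} (hν : ν ≠ 0) (w : H3) :
    Lap (fun v => ((v.y * H22Z.K0 (4 * π * ‖ν‖ * v.y) : ℝ) : ℂ) *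
        Complex.exp (2 * π * Complex.I * ((2 * (ν * v.z).re : ℝ) : ℂ))) w =
      -(((w.y * H22Z.K0 (4 * π * ‖ν‖ * w.y) : ℝ) : ℂ) *
        Complex.exp (2 * π * Complex.I * ((2 * (ν * w.z).re : ℝ) : ℂ))) :=
  H74.C3.Lap_kt1 hν w

/-- **Uniqueness, nonzero frequencies.** A solution `A` of `y² (A'' - c² A) - y A' = -A`, `c > 0`, of
polynomial growth at infinity is a multiple of `y K₀(c y)`. The second solution `I₀` is not needed: if `A` is
not a multiple, the Wronskian makes `A / (y K₀(c y))` grow too fast. (`H22ZK0c`) -/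
theorem ode_unique (c : ℝ) (hc : 0 < c) (A A₁ A₂ : ℝ → ℂ)
    (h₁ : ∀ y > 0, HasDerivAt A (A₁ y) y) (h₂ : ∀ y > 0, HasDerivAt A₁ (A₂ y) y)
    (hode : ∀ y : ℝ, 0 < y → (y : ℂ) ^ 2 * (A₂ y - c ^ 2 * A y) - y * A₁ y = -A y)
    (N : ℕ) (hgr : A =O[atTop] fun y => y ^ N) :
    ∃ D : ℂ, ∀ y > 0, A y = D * (y * H22Z.K0 (c * y)) :=
  H22Z.eq_mul_K0_of_ode hc h₁ h₂ hode hgr

/-- **Uniqueness, frequency zero** (constant terms). The solutions of `y² A'' - y A' = -A` are
`y (a + b log y)`, so that a bounded solution is `0`. Hence bounded functions with parameter zero have no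
constant term, without any assumption of cuspidality. (`H22ZK0c`) -/
theorem ode_zero_unique (A A₁ A₂ : ℝ → ℂ)
    (h₁ : ∀ y > 0, HasDerivAt A (A₁ y) y) (h₂ : ∀ y > 0, HasDerivAt A₁ (A₂ y) y)
    (hode : ∀ y : ℝ, 0 < y → (y : ℂ) ^ 2 * A₂ y - y * A₁ y = -A y)
    (M : ℝ) (hM : ∀ y > 0, ‖A y‖ ≤ M) : ∀ y > 0, A y = 0 :=
  H22Z.eq_zero_of_ode_of_bounded h₁ h₂ hode hM

/-! ## 6. Fourier expansion and decay -/

/-- **Fourier expansion.** Let `F` be a bounded function on `(H3)^J` of class `C²` with `Lap F = -F` in every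
variable, invariant under the translations by the vectors `b i` of a real basis of `ℂ^J` (so under a lattice).
Then, with the pairing `⟨ν, z⟩ = ∑ 2 Re (ν_j z_j)`,
`F(z, y) = ∑_ν c(ν) ∏_j y_j K₀(4π |ν_j| y_j) exp (2πi ⟨ν, z⟩)`,
where `c(ν) ≠ 0` only if `ν` lies in the dual lattice and all `ν_j` are different from `0`, and
`|c(ν)| ≤ M ∏_j |ν_j| / K₀(4π)`. (`H22ZFEf`) -/
theorem fourier_expansion {J κ : Type*} [Fintype J] [DecidableEq J] [Nonempty J] [Fintype κ]
    (b : Basis κ ℝ (J → ℂ)) {F : (J → H3) → ℂ} {M : ℝ}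
    (hsmooth : ContDiffOn ℝ 2 (fun p : J → ℂ × ℝ => F fun j => pt (p j).1 (p j).2)
      {p | ∀ j, 0 < (p j).2})
    (hlap : ∀ (j : J) (w : J → H3), Lap (fun v => F (update w j v)) (w j) = -F w)
    (hbound : ∀ w, ‖F w‖ ≤ M)
    (hper : ∀ (i : κ) (x : J → H3), F (fun j => ⟨(x j).z + b i j, (x j).y, (x j).pos⟩) = F x) :
    ∃ c : (J → ℂ) → ℂ, c 0 = 0 ∧
      (∀ ν, c ν ≠ 0 → ∀ i, ∃ n : ℤ, ∑ j, 2 * (ν j * b i j).re = n) ∧
      (∀ ν, c ν ≠ 0 → ∀ j, ν j ≠ 0) ∧
      (∀ ν, ‖c ν‖ ≤ M * ∏ j, (‖ν j‖ / H22Z.K0 (4 * π))) ∧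
      ∀ x : J → H3, HasSum (fun ν : J → ℂ => c ν *
        ((∏ j, ((x j).y * H22Z.K0 (4 * π * (‖ν j‖ * (x j).y))) : ℝ) : ℂ) *
        Complex.exp (2 * π * Complex.I * ((∑ j, 2 * (ν j * (x j).z).re : ℝ) : ℂ))) (F x) :=
  H22Z.IsEigH.exists_hasSum b ⟨hsmooth, hlap, hbound⟩ hper

/-- **Decay.** There are `C` and `c > 0`, depending only on the lattice and on `y₀`, such that every function
`F` as in `fourier_expansion` satisfies `|F| ≤ C M exp(-c T)` where all heights are `≥ T ≥ y₀`. Consequence: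
bounded automorphic functions with parameter zero are cusp forms. (`H22ZFEd.norm_le_exp`, `H22ZFEe`) -/
theorem decay {J κ : Type*} [Fintype J] [DecidableEq J] [Nonempty J] [Fintype κ]
    (b : Basis κ ℝ (J → ℂ)) {y₀ : ℝ} (hy₀ : 0 < y₀) :
    ∃ C c : ℝ, 0 < C ∧ 0 < c ∧ ∀ {F : (J → H3) → ℂ} {M : ℝ},
      ContDiffOn ℝ 2 (fun p : J → ℂ × ℝ => F fun j => pt (p j).1 (p j).2) {p | ∀ j, 0 < (p j).2} →
      (∀ (j : J) (w : J → H3), Lap (fun v => F (update w j v)) (w j) = -F w) →
      (∀ w, ‖F w‖ ≤ M) →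
      (∀ (i : κ) (x : J → H3), F (fun j => ⟨(x j).z + b i j, (x j).y, (x j).pos⟩) = F x) →
      ∀ T ≥ y₀, ∀ x : J → H3, (∀ j, T ≤ (x j).y) → ‖F x‖ ≤ C * M * Real.exp (-c * T) := by
  obtain ⟨C, c, hC, hc, h⟩ := H22Z.norm_le_exp b hy₀
  refine ⟨C, c, hC, hc, fun h1 h2 h3 hper T hT x hx => ?_⟩
  simpa [H74.C3.ptv_self] using h (H22Z.IsEigH.isEig ⟨h1, h2, h3⟩ hper) T hT (fun j => ((x j).z, (x j).y)) hx

end Fermat.Agent.Guide.Eigenfunctions
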