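/-
H30Closure: topological lemmas. A complete local ring `T` finite free over a DVR `O`, embedded in a
finite product of finite local `O`-algebras, is closed with the induced topology.
-/
import Mathlib

set_option autoImplicit false
set_option linter.style.haveILetI false

noncomputable section

namespace Fermat.Agent.H30

open IsLocalRing

section Closure

variable {T : Type*} [CommRing T] [IsLocalRing T] [IsAdicComplete (maximalIdeal T) T]
  {ι : Type*} (B : ι → Type*) [∀ i, CommRing (B i)] [∀ i, IsLocalRing (B i)]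
  [∀ i, IsHausdorff (maximalIdeal (B i)) (B i)]
  (φ : ∀ i, T →+* B i) (hφ : ∀ i, IsLocalHom (φ i))
  (hT0 : ∀ n : ℕ, ∃ N : ℕ, ∀ x : T, (∀ i, φ i x ∈ maximalIdeal (B i) ^ N) →
    x ∈ maximalIdeal T ^ n)

theorem map_mem_pow {A C : Type*} [CommRing A] [IsLocalRing A] [CommRing C] [IsLocalRing C]
    (f : A →+* C) (hf : IsLocalHom f) (n : ℕ) {a : A} (ha : a ∈ maximalIdeal A ^ n) :
    f a ∈ maximalIdeal C ^ n := by
  have hmap : (maximalIdeal A ^ n).map f ≤ maximalIdeal C ^ n := by
    rw [Ideal.map_pow]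
    exact Ideal.pow_right_mono (Ideal.map_le_iff_le_comap.mpr fun a ha =>
      Ideal.mem_comap.mpr (haveI := hf; map_nonunit f a ha)) n
  exact hmap (Ideal.mem_map_of_mem f ha)

include hφ hT0 in
/-- `T` is closed in the product of the `B i`. -/
theorem exists_of_approx (y : ∀ i, B i)
    (hy : ∀ N : ℕ, ∃ x : T, ∀ i, φ i x - y i ∈ maximalIdeal (B i) ^ N) :
    ∃ x : T, ∀ i, φ i x = y i := by
  choose N hN using hT0
  choose x hx using hy
  set M : ℕ → ℕ := fun n => n + ∑ k ∈ Finset.range (n + 1), N k with hM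
  have hMN : ∀ n, N n ≤ M n := fun n => by
    have : N n ≤ ∑ k ∈ Finset.range (n + 1), N k :=
      Finset.single_le_sum (f := N) (fun _ _ => Nat.zero_le _) (Finset.self_mem_range_succ n)
    simp only [hM]
    omega
  have hMn : ∀ n, n ≤ M n := fun n => Nat.le_add_right _ _
  have hMmono : ∀ {m n}, m ≤ n → M m ≤ M n := fun {m n} h => by
    have : ∑ k ∈ Finset.range (m + 1), N k ≤ ∑ k ∈ Finset.range (n + 1), N k :=
      Finset.sum_le_sum_of_subset (Finset.range_mono (by omega))
    simp only [hM]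
    omega
  have hcauchy : ∀ {m n}, m ≤ n → x (M m) - x (M n) ∈ maximalIdeal T ^ m := fun {m n} h => by
    refine hN m _ fun i => ?_
    have h1 := Ideal.pow_le_pow_right (hMN m) (hx (M m) i)
    have h2 := Ideal.pow_le_pow_right ((hMN m).trans (hMmono h)) (hx (M n) i)
    have h3 := Ideal.sub_mem _ h1 h2
    rw [sub_sub_sub_cancel_right, ← map_sub] at h3
    exact h3
  obtain ⟨L, hL⟩ := IsPrecomplete.prec (I := maximalIdeal T) inferInstance
    (f := fun n => x (M n)) (fun {m n} h => by
      rw [SModEq.sub_mem, smul_eq_mul, Ideal.mul_top]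
      exact hcauchy h)
  refine ⟨L, fun i => ?_⟩
  rw [← sub_eq_zero]
  refine IsHausdorff.haus (I := maximalIdeal (B i)) inferInstance _ fun n => ?_
  rw [SModEq.zero, smul_eq_mul, Ideal.mul_top]
  have h1 := hL n
  rw [SModEq.sub_mem, smul_eq_mul, Ideal.mul_top] at h1
  have h2 := map_mem_pow (φ i) (hφ i) n h1
  have h3 := Ideal.pow_le_pow_right (hMn n) (hx (M n) i)
  have h4 := Ideal.sub_mem _ h3 h2
  rw [map_sub] at h4
  convert h4 using 1
  ring

end Closure

section Finite

variable {O : Type*} [CommRing O] [IsDomain O] [IsDiscreteValuationRing O]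
  {T : Type*} [CommRing T] [IsLocalRing T] [Algebra O T] [IsLocalHom (algebraMap O T)]
  {ι : Type*} [Finite ι] (B : ι → Type*) [∀ i, CommRing (B i)] [∀ i, IsLocalRing (B i)]
  [∀ i, Algebra O (B i)] [∀ i, Module.Finite O (B i)]
  (φ : ∀ i, T →ₐ[O] B i) (hinj : ∀ x : T, (∀ i, φ i x = 0) → x = 0)

/-- In a finite local algebra over a DVR, some power of the maximal ideal is contained in the ideal
generated by the uniformizer. -/
theorem exists_pow_le_map (C : Type*) [CommRing C] [IsLocalRing C] [Algebra O C] [Module.Finite O C] :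
    ∃ e : ℕ, maximalIdeal C ^ e ≤ (maximalIdeal O).map (algebraMap O C) := by
  set I := (maximalIdeal O).map (algebraMap O C) with hI
  haveI : Module.Finite (O ⧸ maximalIdeal O) (C ⧸ I) := inferInstance
  letI : Field (O ⧸ maximalIdeal O) := Ideal.Quotient.field _
  haveI : IsArtinianRing (C ⧸ I) := IsArtinianRing.of_finite (O ⧸ maximalIdeal O) (C ⧸ I)
  exact exists_maximalIdeal_pow_le_of_isArtinianRing_quotient I

include hinj in
theorem exists_forall_mem_pow (n : ℕ) : ∃ N : ℕ, ∀ x : T,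
    (∀ i, φ i x ∈ maximalIdeal (B i) ^ N) → x ∈ maximalIdeal T ^ n := by
  classical
  haveI := Fintype.ofFinite ι
  obtain ⟨ϖ, hϖ⟩ := IsDiscreteValuationRing.exists_irreducible O
  have hmax : maximalIdeal O = Ideal.span {ϖ} := hϖ.maximalIdeal_eq
  have hpow : ∀ k : ℕ, maximalIdeal O ^ k = Ideal.span {ϖ ^ k} := fun k => by
    rw [hmax, Ideal.span_singleton_pow]
  have he : ∀ i, ∃ e : ℕ, maximalIdeal (B i) ^ e ≤ (maximalIdeal O).map (algebraMap O (B i)) :=
    fun i => exists_pow_le_map (B i)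
  choose e he using he
  set E : ℕ := ∑ i, e i with hE
  have heE : ∀ i, e i ≤ E := fun i =>
    Finset.single_le_sum (f := e) (fun _ _ => Nat.zero_le _) (Finset.mem_univ i)
  have hdvd : ∀ (i : ι) (k : ℕ) (b : B i), b ∈ maximalIdeal (B i) ^ (E * k) →
      ∃ c : B i, b = ϖ ^ k • c := by
    intro i k b hb
    have h1 : maximalIdeal (B i) ^ (E * k) ≤ Ideal.span {algebraMap O (B i) (ϖ ^ k)} := by
      rw [pow_mul]
      have h2 : maximalIdeal (B i) ^ E ≤ (maximalIdeal O).map (algebraMap O (B i)) :=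
        (Ideal.pow_le_pow_right (heE i)).trans (he i)
      have h3 := Ideal.pow_right_mono h2 k
      refine h3.trans (le_of_eq ?_)
      rw [hmax, Ideal.map_span, Set.image_singleton, Ideal.span_singleton_pow, map_pow]
    obtain ⟨c, hc⟩ := Ideal.mem_span_singleton.mp (h1 hb)
    exact ⟨c, by rw [Algebra.smul_def]; exact hc⟩
  set Φ : T →ₗ[O] (∀ i, B i) := LinearMap.pi fun i => (φ i).toLinearMap with hΦ
  obtain ⟨k, hk⟩ := Ideal.exists_pow_inf_eq_pow_smul (maximalIdeal O) (LinearMap.range Φ)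
  refine ⟨E * (n + k), fun x hx => ?_⟩
  have h1 : ∀ i, ∃ c : B i, φ i x = ϖ ^ (n + k) • c := fun i => hdvd i (n + k) _ (hx i)
  choose c hc using h1
  have h2 : Φ x ∈ (maximalIdeal O ^ (n + k) • ⊤ ⊓ LinearMap.range Φ : Submodule O (∀ i, B i)) := by
    refine ⟨?_, x, rfl⟩
    have h3 : Φ x = ϖ ^ (n + k) • c := by
      funext i
      exact hc i
    rw [h3]
    exact Submodule.smul_mem_smul (by rw [hpow]; exact Ideal.mem_span_singleton_self _) trivial
  rw [hk (n + k) (by omega), Nat.add_sub_cancel] at h2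
  have h4 : Φ x ∈ (maximalIdeal O ^ n • LinearMap.range Φ : Submodule O (∀ i, B i)) :=
    Submodule.smul_mono le_rfl inf_le_right h2
  rw [hpow, Submodule.ideal_span_singleton_smul] at h4
  obtain ⟨_, ⟨z, rfl⟩, hz⟩ := h4
  have h5 : x = ϖ ^ n • z := by
    rw [← sub_eq_zero]
    apply hinj
    intro i
    have h6 := congrFun hz i
    rw [map_sub, map_smul, sub_eq_zero]
    exact h6.symm
  rw [h5, Algebra.smul_def]
  refine Ideal.mul_mem_right _ _ ?_
  rw [map_pow]
  exact Ideal.pow_mem_pow (((mem_maximalIdeal ϖ).mpr hϖ.not_isUnit |> map_nonunit (algebraMap O T) ϖ)) n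

end Finite

end Fermat.Agent.H30
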