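/-
H30Glue: gluing of two-dimensional matrix representations with traces in a subring, using an
element `c` with `c ^ 2 = 1`, `det c = -1` (complex conjugation).
-/
import Mathlib.LinearAlgebra.Matrix.Trace
import Mathlib.LinearAlgebra.Matrix.NonsingularInverse
import Mathlib.LinearAlgebra.Matrix.Notation
import Mathlib.RingTheory.LocalRing.Basic
import Mathlib.RingTheory.Ideal.Basic
import Mathlib.Tactic.LinearCombination
import Mathlib.Tactic.FinCases

set_option autoImplicit false

noncomputable section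

namespace Fermat.Agent.H30

open Matrix

section Diag

variable {B : Type*} [CommRing B]

theorem trace_eq_zero_of_sq {C : Matrix (Fin 2) (Fin 2) B} (hC : C * C = 1) (hdet : C.det = -1) :
    C 1 1 = - C 0 0 := by
  have h00 := congrFun (congrFun hC 0) 0
  have h01 := congrFun (congrFun hC 0) 1
  simp only [mul_apply, Fin.sum_univ_two, one_apply_eq] at h00
  simp only [mul_apply, Fin.sum_univ_two] at h01
  rw [one_apply_ne (by decide)] at h01
  rw [det_fin_two] at hdet
  linear_combination (C 0 0 + C 1 1) * h00 * (-1) + C 0 0 * h00 + C 0 0 * hdet + C 1 0 * h01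

/-- Diagonalisation of an involution of determinant `-1` over a local ring. -/
theorem exists_diag [IsLocalRing B] {i2 : B} (h2 : 2 * i2 = 1) (C : Matrix (Fin 2) (Fin 2) B)
    (hC : C * C = 1) (hdet : C.det = -1) :
    ∃ P : (Matrix (Fin 2) (Fin 2) B)ˣ,
      (P : Matrix (Fin 2) (Fin 2) B) * C * ((P⁻¹ : (Matrix (Fin 2) (Fin 2) B)ˣ) :
        Matrix (Fin 2) (Fin 2) B) = !![1, 0; 0, -1] := by
  have hd := trace_eq_zero_of_sq hC hdet
  have h00 := congrFun (congrFun hC 0) 0
  simp only [mul_apply, Fin.sum_univ_two, one_apply_eq] at h00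
  set a := C 0 0 with ha
  set b := C 0 1 with hb
  set c := C 1 0 with hc
  have hCeq : C = !![a, b; c, -a] := by
    ext i j
    fin_cases i <;> fin_cases j <;> simp [ha, hb, hc, hd]
  have key : ∀ Q : Matrix (Fin 2) (Fin 2) B, IsUnit Q.det → C * Q = Q * !![1, 0; 0, -1] →
      ∃ P : (Matrix (Fin 2) (Fin 2) B)ˣ,
      (P : Matrix (Fin 2) (Fin 2) B) * C * ((P⁻¹ : (Matrix (Fin 2) (Fin 2) B)ˣ) :
        Matrix (Fin 2) (Fin 2) B) = !![1, 0; 0, -1] := by
    intro Q hQ hCQ
    obtain ⟨q, hq⟩ := (Matrix.isUnit_iff_isUnit_det Q).mpr hQ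
    refine ⟨q⁻¹, ?_⟩
    rw [inv_inv, mul_assoc, hq, hCQ, ← hq, ← mul_assoc, Units.inv_mul, one_mul]
  rcases IsLocalRing.isUnit_or_isUnit_of_add_one (a := (1 + a) * i2) (b := (1 - a) * i2)
    (by linear_combination h2) with hu | hu
  · refine key !![(1 + a) * i2, -(b * i2); c * i2, (1 + a) * i2] ?_ ?_
    · have : (!![(1 + a) * i2, -(b * i2); c * i2, (1 + a) * i2] : Matrix (Fin 2) (Fin 2) B).det =
          (1 + a) * i2 := by
        rw [det_fin_two_of]
        linear_combination (i2 * i2) * h00 + (1 + a) * i2 * h2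
      rw [this]
      exact hu
    · rw [hCeq, mul_fin_two, mul_fin_two]
      ext i j
      fin_cases i <;> fin_cases j <;> simp <;> ring_nf
      · linear_combination i2 * h00
      · linear_combination (-i2) * h00
  · refine key !![b * i2, (1 - a) * i2; (1 - a) * i2, -(c * i2)] ?_ ?_
    · have : (!![b * i2, (1 - a) * i2; (1 - a) * i2, -(c * i2)] : Matrix (Fin 2) (Fin 2) B).det =
          -((1 - a) * i2) := by
        rw [det_fin_two_of]
        linear_combination (-i2 * i2) * h00 - (1 - a) * i2 * h2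
      rw [this]
      exact hu.neg
    · rw [hCeq, mul_fin_two, mul_fin_two]
      ext i j
      fin_cases i <;> fin_cases j <;> simp <;> ring_nf
      · linear_combination (-i2) * h00
      · linear_combination i2 * h00

end Diag

section Glue

variable {G : Type*} [Group G] {R : Type*} [CommRing R]

/-- The `(1,1)` entry from traces -/
def entA (i2 : R) (t : G → R) (c g : G) : R := i2 * (t g + t (c * g))

/-- The `(2,2)` entry from traces -/
def entD (i2 : R) (t : G → R) (c g : G) : R := i2 * (t g - t (c * g))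

/-- The product of the `(1,2)` entry of `g` and the `(2,1)` entry of `h`, from traces. -/
def entX (i2 : R) (t : G → R) (c g h : G) : R :=
  entA i2 t c (g * h) - entA i2 t c g * entA i2 t c h

/-- the glued matrix -/
def glueMat (i2 : R) (t : G → R) (c g₀ h₀ : G) (u : R) (g : G) : Matrix (Fin 2) (Fin 2) R :=
  !![entA i2 t c g, entX i2 t c g h₀ * u; entX i2 t c g₀ g, entD i2 t c g]

theorem entA_eq {B : Type*} [CommRing B] {φ : R →+* B} {i2 : R} (h2 : 2 * i2 = 1)
    {r : G →* Matrix (Fin 2) (Fin 2) B} {t : G → R} (ht : ∀ g, φ (t g) = (r g).trace)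
    {c : G} (hc : r c = !![1, 0; 0, -1]) (g : G) : φ (entA i2 t c g) = r g 0 0 := by
  have h2' : (2 : B) * φ i2 = 1 := by
    rw [← map_ofNat φ 2, ← map_mul, h2, map_one]
  rw [entA, map_mul, map_add, ht, ht, map_mul, hc, trace_fin_two, trace_fin_two, mul_apply,
    mul_apply]
  simp only [Fin.sum_univ_two, of_apply, cons_val', cons_val_zero, cons_val_one,
    empty_val', cons_val_fin_one]
  linear_combination (r g 0 0) * h2'

theorem entD_eq {B : Type*} [CommRing B] {φ : R →+* B} {i2 : R} (h2 : 2 * i2 = 1)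
    {r : G →* Matrix (Fin 2) (Fin 2) B} {t : G → R} (ht : ∀ g, φ (t g) = (r g).trace)
    {c : G} (hc : r c = !![1, 0; 0, -1]) (g : G) : φ (entD i2 t c g) = r g 1 1 := by
  have h2' : (2 : B) * φ i2 = 1 := by
    rw [← map_ofNat φ 2, ← map_mul, h2, map_one]
  rw [entD, map_mul, map_sub, ht, ht, map_mul, hc, trace_fin_two, trace_fin_two, mul_apply,
    mul_apply]
  simp only [Fin.sum_univ_two, of_apply, cons_val', cons_val_zero, cons_val_one,
    empty_val', cons_val_fin_one]
  linear_combination (r g 1 1) * h2'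

theorem entX_eq {B : Type*} [CommRing B] {φ : R →+* B} {i2 : R} (h2 : 2 * i2 = 1)
    {r : G →* Matrix (Fin 2) (Fin 2) B} {t : G → R} (ht : ∀ g, φ (t g) = (r g).trace)
    {c : G} (hc : r c = !![1, 0; 0, -1]) (g h : G) :
    φ (entX i2 t c g h) = r g 0 1 * r h 1 0 := by
  rw [entX, map_sub, map_mul, entA_eq h2 ht hc, entA_eq h2 ht hc, entA_eq h2 ht hc, map_mul,
    mul_apply]
  simp only [Fin.sum_univ_two]
  ring

/-- the glued matrix is conjugate to `r g` -/
theorem map_glueMat {B : Type*} [CommRing B] {φ : R →+* B} {i2 : R} (h2 : 2 * i2 = 1)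
    {r : G →* Matrix (Fin 2) (Fin 2) B} {t : G → R} (ht : ∀ g, φ (t g) = (r g).trace)
    {c : G} (hc : r c = !![1, 0; 0, -1]) {g₀ h₀ : G} {u : R} (hu : entX i2 t c g₀ h₀ * u = 1)
    (g : G) :
    !![1, 0; 0, r g₀ 0 1] * r g = (glueMat i2 t c g₀ h₀ u g).map φ * !![1, 0; 0, r g₀ 0 1] := by
  have hu' : r g₀ 0 1 * r h₀ 1 0 * φ u = 1 := by
    rw [← entX_eq h2 ht hc, ← map_mul, hu, map_one]
  ext i j
  fin_cases i <;> fin_cases j <;>
    simp only [glueMat, mul_apply, Fin.sum_univ_two, of_apply, cons_val', cons_val_zero,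
      cons_val_one, empty_val', cons_val_fin_one, map_apply, entA_eq h2 ht hc, entD_eq h2 ht hc,
      entX_eq h2 ht hc, map_mul, Fin.zero_eta, Fin.mk_one, Fin.isValue] <;> ring_nf
  linear_combination (- r g 0 1) * hu'

variable {ι : Type*} (B : ι → Type*) [∀ i, CommRing (B i)] (φ : ∀ i, R →+* B i)
  (hinj : ∀ x : R, (∀ i, φ i x = 0) → x = 0) {i2 : R} (h2 : 2 * i2 = 1)
  (r : ∀ i, G →* Matrix (Fin 2) (Fin 2) (B i)) {t : G → R}
  (ht : ∀ i g, φ i (t g) = (r i g).trace)
  {c : G} (hc : ∀ i, r i c = !![1, 0; 0, -1]) {g₀ h₀ : G} {u : R}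
  (hu : entX i2 t c g₀ h₀ * u = 1)

include h2 ht hc hu in
theorem isUnit_entry (i : ι) : IsUnit (r i g₀ 0 1) := by
  have hu' : r i g₀ 0 1 * r i h₀ 1 0 * φ i u = 1 := by
    rw [← entX_eq h2 (ht i) (hc i), ← map_mul, hu, map_one]
  exact IsUnit.of_mul_eq_one (r i h₀ 1 0 * φ i u) (by rw [← mul_assoc]; exact hu')

include h2 ht hc hu in
theorem exists_conj_glueMat (i : ι) : ∃ P : (Matrix (Fin 2) (Fin 2) (B i))ˣ,
    ∀ g, (P : Matrix (Fin 2) (Fin 2) (B i)) * r i g *
      ((P⁻¹ : (Matrix (Fin 2) (Fin 2) (B i))ˣ) : Matrix (Fin 2) (Fin 2) (B i)) =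
        (glueMat i2 t c g₀ h₀ u g).map (φ i) := by
  obtain ⟨P, hP⟩ := (Matrix.isUnit_iff_isUnit_det
    (!![1, 0; 0, r i g₀ 0 1] : Matrix (Fin 2) (Fin 2) (B i))).mpr (by
      rw [det_fin_two_of, one_mul, zero_mul, sub_zero]
      exact isUnit_entry B φ h2 r ht hc hu i)
  refine ⟨P, fun g => ?_⟩
  rw [hP, map_glueMat h2 (ht i) (hc i) hu, ← hP, mul_assoc, Units.mul_inv, mul_one]

include hinj h2 ht hc hu in
/-- The glued representation. -/
def glueHom : G →* Matrix (Fin 2) (Fin 2) R where
  toFun := glueMat i2 t c g₀ h₀ u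
  map_one' := by
    ext a b
    rw [← sub_eq_zero]
    apply hinj
    intro i
    obtain ⟨P, hP⟩ := exists_conj_glueMat B φ h2 r ht hc hu i
    have h := hP 1
    rw [map_one, mul_one, Units.mul_inv] at h
    have h' := congrFun (congrFun h a) b
    rw [map_apply] at h'
    rw [map_sub, ← h', sub_eq_zero]
    by_cases hab : a = b
    · subst hab; simp
    · simp [one_apply_ne hab]
  map_mul' g h := by
    ext a b
    rw [← sub_eq_zero]
    apply hinj
    intro i
    obtain ⟨P, hP⟩ := exists_conj_glueMat B φ h2 r ht hc hu i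
    have h1 : (glueMat i2 t c g₀ h₀ u (g * h)).map (φ i) =
        (glueMat i2 t c g₀ h₀ u g * glueMat i2 t c g₀ h₀ u h).map (φ i) := by
      rw [Matrix.map_mul, ← hP, ← hP, ← hP, map_mul]
      simp only [mul_assoc, Units.inv_mul_cancel_left]
    have h' := congrFun (congrFun h1 a) b
    rw [map_apply, map_apply] at h'
    rw [map_sub, h', sub_self]

theorem glueHom_apply (g : G) :
    glueHom B φ hinj h2 r ht hc hu g = glueMat i2 t c g₀ h₀ u g := rfl

include hinj ht in
theorem trace_one_eq : t 1 = 2 := by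
  rw [← sub_eq_zero]
  apply hinj
  intro i
  rw [map_sub, ht, map_one, trace_one, map_ofNat]
  simp

include hinj ht hc in
theorem trace_c_eq : t c = 0 := by
  apply hinj
  intro i
  rw [ht, hc, trace_fin_two]
  simp

include hinj ht in
theorem trace_comm_eq (g h : G) : t (g * h) = t (h * g) := by
  rw [← sub_eq_zero]
  apply hinj
  intro i
  rw [map_sub, ht, ht, map_mul, map_mul, trace_mul_comm, sub_self]

include hinj h2 ht hc in
/-- If the traces of `g * σ` and `g` agree modulo `J` then `glueMat σ ≡ 1`. -/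
theorem glueMat_sub_one_mem (J : Ideal R) (σ : G) (hσ : ∀ g, t (g * σ) - t g ∈ J) (a b : Fin 2) :
    glueMat i2 t c g₀ h₀ u σ a b - (1 : Matrix (Fin 2) (Fin 2) R) a b ∈ J := by
  have t1 := trace_one_eq B φ hinj r ht
  have tc := trace_c_eq B φ hinj r ht hc
  have hσ1 : t σ - 2 ∈ J := by have := hσ 1; rwa [one_mul, t1] at this
  have hσc : t (c * σ) ∈ J := by have := hσ c; rwa [tc, sub_zero] at this
  have ha : entA i2 t c σ - 1 ∈ J := by
    have : entA i2 t c σ - 1 = i2 * ((t σ - 2) + t (c * σ)) := by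
      rw [entA]; linear_combination (-1 : R) * h2 * (-1) - 2 * h2 + 2 * h2
    rw [this]
    exact J.mul_mem_left _ (J.add_mem hσ1 hσc)
  have hd : entD i2 t c σ - 1 ∈ J := by
    have : entD i2 t c σ - 1 = i2 * ((t σ - 2) - t (c * σ)) := by
      rw [entD]; linear_combination (-1 : R) * h2 * (-1) - 2 * h2 + 2 * h2
    rw [this]
    exact J.mul_mem_left _ (J.sub_mem hσ1 hσc)
  have hgσ : ∀ g, entA i2 t c (g * σ) - entA i2 t c g ∈ J := by
    intro g
    have : entA i2 t c (g * σ) - entA i2 t c g =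
        i2 * ((t (g * σ) - t g) + (t (c * g * σ) - t (c * g))) := by
      rw [entA, entA, ← mul_assoc c g σ]; ring
    rw [this]
    exact J.mul_mem_left _ (J.add_mem (hσ _) (hσ _))
  have hσg : ∀ g, entA i2 t c (σ * g) - entA i2 t c g ∈ J := by
    intro g
    have : entA i2 t c (σ * g) - entA i2 t c g =
        i2 * ((t (g * σ) - t g) + (t (g * c * σ) - t (g * c))) := by
      rw [entA, entA, trace_comm_eq B φ hinj r ht σ g, trace_comm_eq B φ hinj r ht c (σ * g),
        trace_comm_eq B φ hinj r ht c g, mul_assoc σ g c, trace_comm_eq B φ hinj r ht σ (g * c)]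
      ring
    rw [this]
    exact J.mul_mem_left _ (J.add_mem (hσ _) (hσ _))
  fin_cases a <;> fin_cases b
  · simpa [glueMat] using ha
  · have : entX i2 t c σ h₀ * u ∈ J := by
      refine J.mul_mem_right _ ?_
      have e : entX i2 t c σ h₀ = (entA i2 t c (σ * h₀) - entA i2 t c h₀) -
          (entA i2 t c σ - 1) * entA i2 t c h₀ := by
        rw [entX]; ring
      rw [e]
      exact J.sub_mem (hσg _) (J.mul_mem_right _ ha)
    simpa [glueMat] using this
  · have : entX i2 t c g₀ σ ∈ J := by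
      have e : entX i2 t c g₀ σ = (entA i2 t c (g₀ * σ) - entA i2 t c g₀) -
          entA i2 t c g₀ * (entA i2 t c σ - 1) := by
        rw [entX]; ring
      rw [e]
      exact J.sub_mem (hgσ _) (J.mul_mem_left _ ha)
    simpa [glueMat] using this
  · simpa [glueMat] using hd

end Glue

end Fermat.Agent.H30
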