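/-
H30Assemble: gluing two-dimensional Galois representations over points of a complete local ring `T`
into one representation over `T`.
-/
import Fermat.Agent.H30Glue
import Fermat.Agent.H30Closure
import Fermat.Agent.H53Matrix
import Fermat.Agent.H31Wire
import Fermat.Agent.H31Cyclo
import Fermat.Agent.H87Res

set_option autoImplicit false
set_option linter.style.haveILetI false
set_option linter.unusedSectionVars false

noncomputable section

namespace Fermat.Agent.H30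

open IsLocalRing Matrix
open Fermat.Agent.H53 (GQ M2 MCont)

section General

theorem trace_pow_fin_two {R : Type*} [CommRing R] (A : Matrix (Fin 2) (Fin 2) R) (j : ℕ) :
    (A ^ j).trace = H31.luc A.trace A.det j := by
  have hCH : A ^ 2 = A.trace • A - A.det • (1 : Matrix (Fin 2) (Fin 2) R) := by
    ext a b
    fin_cases a <;> fin_cases b <;>
      simp [sq, mul_apply, Fin.sum_univ_two, trace_fin_two, det_fin_two] <;> ring
  induction j using Nat.twoStepInduction with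
  | zero => rw [pow_zero, trace_one, H31.luc_zero]; simp
  | one => rw [pow_one, H31.luc_one]
  | more n h0 h1 =>
    have e : A ^ (n + 2) = A.trace • A ^ (n + 1) - A.det • A ^ n := by
      rw [pow_add A n 2, hCH, mul_sub, mul_smul_comm, mul_smul_comm, mul_one, pow_succ]
    rw [e, trace_sub, trace_smul, trace_smul, h0, h1, H31.luc_add_two, smul_eq_mul, smul_eq_mul]

variable {A : Type} [CommRing A] [IsLocalRing A]

theorem sub_entry_mem {r : GQ →* M2 A} {J : Ideal A} {L : IntermediateField ℚ (AlgebraicClosure ℚ)}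
    (hL : ∀ σ : GQ, (∀ x ∈ L, σ x = x) → ∀ i j, r σ i j - (1 : M2 A) i j ∈ J)
    (σ τ : GQ) (h : ∀ x ∈ L, σ x = τ x) (i j : Fin 2) : r σ i j - r τ i j ∈ J := by
  have h1 : ∀ x ∈ L, (τ⁻¹ * σ) x = x := by
    intro x hx
    rw [AlgEquiv.mul_apply, h x hx]
    exact τ.symm_apply_apply x
  have h2 := hL _ h1
  have h3 : r σ i j - r τ i j = ∑ k, r τ i k * (r (τ⁻¹ * σ) k j - (1 : M2 A) k j) := by
    have h4 : r σ = r τ * r (τ⁻¹ * σ) := by rw [← map_mul, mul_inv_cancel_left]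
    rw [h4]
    simp only [mul_sub, Finset.sum_sub_distrib]
    congr 1
    rw [← mul_apply (M := r τ) (N := (1 : M2 A)), mul_one]
  rw [h3]
  exact Ideal.sum_mem _ fun k _ => J.mul_mem_left _ (h2 k j)

theorem trace_sub_mem {J : Ideal A} {M M' : M2 A} (h : ∀ i j, M i j - M' i j ∈ J) :
    M.trace - M'.trace ∈ J := by
  rw [trace_fin_two, trace_fin_two]
  have := J.add_mem (h 0 0) (h 1 1)
  convert this using 1
  ring

theorem det_sub_mem {J : Ideal A} {M M' : M2 A} (h : ∀ i j, M i j - M' i j ∈ J) :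
    M.det - M'.det ∈ J := by
  rw [det_fin_two, det_fin_two]
  have e : M 0 0 * M 1 1 - M 0 1 * M 1 0 - (M' 0 0 * M' 1 1 - M' 0 1 * M' 1 0) =
      ((M 0 0 - M' 0 0) * M 1 1 + M' 0 0 * (M 1 1 - M' 1 1)) -
      ((M 0 1 - M' 0 1) * M 1 0 + M' 0 1 * (M 1 0 - M' 1 0)) := by ring
  rw [e]
  exact J.sub_mem (J.add_mem (J.mul_mem_right _ (h 0 0)) (J.mul_mem_left _ (h 1 1)))
    (J.add_mem (J.mul_mem_right _ (h 0 1)) (J.mul_mem_left _ (h 1 0)))

/-- The condition on Frobenius elements outside `S`. -/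
def FrobData (S : Finset ℕ) (a : ∀ ℓ : ℕ, ℓ.Prime → ℓ ∉ S → A) (r : GQ →* M2 A) : Prop :=
  ∀ (ℓ : ℕ) (hℓ : ℓ.Prime) (hℓS : ℓ ∉ S) (P : ValuationSubring (AlgebraicClosure ℚ)),
    P.LiesOverPrime ℓ → ∀ σ : GQ, P.IsFrobeniusAt σ ℓ →
      (r σ).trace = a ℓ hℓ hℓS ∧ (r σ).det = (ℓ : A)

/-- The determinant of an involution. -/
theorem det_involution [IsHausdorff (maximalIdeal A) A] {S : Finset ℕ} {p : ℕ} (hp : p.Prime)
    (hpS : p ∈ S) (hpA : (p : A) ∈ maximalIdeal A)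
    {a : ∀ ℓ : ℕ, ℓ.Prime → ℓ ∉ S → A} {r : GQ →* M2 A} (hr : MCont A r) (hfr : FrobData S a r)
    {c : GQ} (hc : c * c = 1) (hc1 : c ≠ 1) : (r c).det = -1 := by
  rw [← sub_eq_zero]
  refine IsHausdorff.haus (I := maximalIdeal A) inferInstance _ fun n => ?_
  rw [SModEq.zero, smul_eq_mul, Ideal.mul_top]
  obtain ⟨L, hL, hLr⟩ := hr n
  have hpn : NeZero (p ^ n) := ⟨pow_ne_zero _ hp.ne_zero⟩
  obtain ⟨ζ, hζ⟩ := HasEnoughRootsOfUnity.exists_primitiveRoot (AlgebraicClosure ℚ) (p ^ n)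
  have hint : IsIntegral ℚ ζ := (hζ.isIntegral (Nat.pos_of_ne_zero hpn.ne)).tower_top
  haveI : FiniteDimensional ℚ (IntermediateField.adjoin ℚ {ζ}) :=
    IntermediateField.adjoin.finiteDimensional hint
  obtain ⟨ℓ, hℓ, hℓS, P, hP, φ, hφ, j, hj⟩ :=
    H31.weakFrobeniusDensity (L ⊔ IntermediateField.adjoin ℚ {ζ}) inferInstance S c
  have h1 : (r c).det - (r (φ ^ j)).det ∈ maximalIdeal A ^ n :=
    det_sub_mem (sub_entry_mem hLr c (φ ^ j) fun x hx =>
      hj x ((le_sup_left : L ≤ L ⊔ IntermediateField.adjoin ℚ {ζ}) hx))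
  have hζL : ζ ∈ L ⊔ IntermediateField.adjoin ℚ {ζ} :=
    (le_sup_right : _ ≤ L ⊔ IntermediateField.adjoin ℚ {ζ})
      (IntermediateField.mem_adjoin_simple_self ℚ ζ)
  have hℓp : ℓ ≠ p := fun h => hℓS (h ▸ hpS)
  have hφζ : ∀ k : ℕ, (φ ^ k) ζ = ζ ^ (ℓ ^ k) := by
    intro k
    induction k with
    | zero => simp
    | succ k ih =>
      rw [pow_succ', AlgEquiv.mul_apply, ih, map_pow]
      have := H31.frobenius_apply_rootOfUnity P hP
        (Nat.Coprime.pow_right n ((Nat.coprime_primes hℓ hp).mpr hℓp))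
        (pow_pos hp.pos n) hφ hζ.1
      rw [this, ← pow_mul, pow_succ']
  have h2 : ζ ^ (ℓ ^ j + 1) = 1 := by
    have h3 := H87.Res.involution_rootOfUnity hc hc1 hpn.ne hζ.1
    rw [hj ζ hζL, hφζ] at h3
    rw [pow_succ, h3, inv_mul_cancel₀ (hζ.ne_zero hpn.ne)]
  obtain ⟨m, hm⟩ := hζ.dvd_of_pow_eq_one _ h2
  have h3 : (r (φ ^ j)).det = (ℓ : A) ^ j := by
    rw [map_pow, det_pow, (hfr ℓ hℓ hℓS P hP φ hφ).2]
  have h4 : (ℓ : A) ^ j + 1 ∈ maximalIdeal A ^ n := by
    have h5 : (ℓ : A) ^ j + 1 = (p : A) ^ n * (m : A) := by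
      have := congrArg (Nat.cast : ℕ → A) hm
      push_cast at this
      exact this
    rw [h5]
    exact Ideal.mul_mem_right _ _ (Ideal.pow_mem_pow hpA n)
  have h5 := Ideal.add_mem _ h1 h4
  rw [h3] at h5
  convert h5 using 1
  ring

end General

section Main

variable {T : Type} [CommRing T] [IsLocalRing T] [IsAdicComplete (maximalIdeal T) T]
  {ι : Type} [Finite ι] (B : ι → Type) [∀ i, CommRing (B i)] [∀ i, IsLocalRing (B i)]
  [∀ i, IsHausdorff (maximalIdeal (B i)) (B i)]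
  (φ : ∀ i, T →+* B i) (hφ : ∀ i, IsLocalHom (φ i))
  (hT0 : ∀ n : ℕ, ∃ N : ℕ, ∀ x : T, (∀ i, φ i x ∈ maximalIdeal (B i) ^ N) →
    x ∈ maximalIdeal T ^ n)
  {S : Finset ℕ} {a : ∀ ℓ : ℕ, ℓ.Prime → ℓ ∉ S → T}
  {r : ∀ i, GQ →* M2 (B i)} (hr : ∀ i, MCont (B i) (r i))
  (hfr : ∀ i, FrobData S (fun ℓ h h' => φ i (a ℓ h h')) (r i))

include hr in
/-- common level of continuity -/
theorem exists_common_level (N : ℕ) : ∃ L : IntermediateField ℚ (AlgebraicClosure ℚ),
    FiniteDimensional ℚ L ∧ ∀ i, ∀ σ : GQ, (∀ x ∈ L, σ x = x) →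
      ∀ k j, r i σ k j - (1 : M2 (B i)) k j ∈ maximalIdeal (B i) ^ N := by
  choose L hL h using fun i => hr i N
  haveI := hL
  refine ⟨⨆ i, L i, inferInstance, fun i σ hσ => h i σ fun x hx => hσ x ?_⟩
  exact (le_iSup L i) hx

include hφ hT0 hr hfr in
/-- the trace takes values in `T` -/
theorem exists_trace (σ : GQ) : ∃ x : T, ∀ i, φ i x = (r i σ).trace := by
  refine exists_of_approx B φ hφ hT0 (fun i => (r i σ).trace) fun N => ?_
  obtain ⟨L, hL, hLr⟩ := exists_common_level B hr N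
  obtain ⟨ℓ, hℓ, hℓS, P, hP, f, hf, j, hj⟩ := H31.weakFrobeniusDensity L hL S σ
  refine ⟨H31.luc (a ℓ hℓ hℓS) (ℓ : T) j, fun i => ?_⟩
  have h1 := trace_sub_mem (sub_entry_mem (hLr i) (f ^ j) σ fun x hx => (hj x hx).symm)
  obtain ⟨h2, h3⟩ := hfr i ℓ hℓ hℓS P hP f hf
  rw [map_pow, trace_pow_fin_two, h2, h3] at h1
  rw [H31.map_luc, map_natCast]
  exact h1

include hT0 hr hfr in
/-- The trace modulo the maximal ideal is the trace of the residual representation. -/
theorem residue_trace {rbar : GQ →* M2 (ResidueField T)} (hrbar : MCont _ rbar)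
    (hfrbar : FrobData S (fun ℓ h h' => residue T (a ℓ h h')) rbar)
    (σ : GQ) (x : T) (hx : ∀ i, φ i x = (r i σ).trace) :
    residue T x = (rbar σ).trace := by
  obtain ⟨N, hN⟩ := hT0 1
  obtain ⟨L, hL, hLr⟩ := exists_common_level B hr N
  obtain ⟨L', hL', hLr'⟩ := hrbar 1
  obtain ⟨ℓ, hℓ, hℓS, P, hP, f, hf, j, hj⟩ := H31.weakFrobeniusDensity (L ⊔ L') inferInstance S σ
  have h0 : x - H31.luc (a ℓ hℓ hℓS) (ℓ : T) j ∈ maximalIdeal T ^ 1 := by
    refine hN _ fun i => ?_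
    have h1 := trace_sub_mem (sub_entry_mem (hLr i) σ (f ^ j)
      fun x hx => hj x ((le_sup_left : L ≤ L ⊔ L') hx))
    obtain ⟨h2, h3⟩ := hfr i ℓ hℓ hℓS P hP f hf
    rw [map_pow, trace_pow_fin_two, h2, h3] at h1
    rw [map_sub, H31.map_luc, map_natCast, hx]
    exact h1
  rw [pow_one] at h0
  have h4 : residue T x = H31.luc (residue T (a ℓ hℓ hℓS)) (ℓ : ResidueField T) j := by
    rw [← sub_eq_zero, ← map_natCast (residue T), ← H31.map_luc, ← map_sub,
      residue_eq_zero_iff]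
    exact h0
  have h1 := trace_sub_mem (sub_entry_mem hLr' σ (f ^ j)
      fun x hx => hj x ((le_sup_right : L' ≤ L ⊔ L') hx))
  obtain ⟨h2, h3⟩ := hfrbar ℓ hℓ hℓS P hP f hf
  have hbot : maximalIdeal (ResidueField T) = ⊥ :=
    (Ideal.eq_bot_or_top _).resolve_right (Ideal.IsMaximal.ne_top inferInstance)
  rw [map_pow, trace_pow_fin_two, h2, h3, hbot, pow_one, Ideal.mem_bot, sub_eq_zero] at h1
  rw [h4, h1]

/-- irreducibility of a matrix representation over a field, in the form used for gluing -/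
def MIrr {κ : Type} [Field κ] (r : GQ →* M2 κ) : Prop :=
  ∀ P : (M2 κ)ˣ, (∃ g, ((P : M2 κ) * r g * ((P⁻¹ : (M2 κ)ˣ) : M2 κ)) 0 1 ≠ 0) ∧
    (∃ g, ((P : M2 κ) * r g * ((P⁻¹ : (M2 κ)ˣ) : M2 κ)) 1 0 ≠ 0)

/-- conjugate of a matrix representation -/
def conjRep {κ : Type} [CommRing κ] (P : (M2 κ)ˣ) (r : GQ →* M2 κ) : GQ →* M2 κ where
  toFun g := (P : M2 κ) * r g * ((P⁻¹ : (M2 κ)ˣ) : M2 κ)
  map_one' := by rw [map_one, mul_one, Units.mul_inv]
  map_mul' g h := by
    rw [map_mul]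
    simp only [mul_assoc, Units.inv_mul_cancel_left]

theorem conjRep_apply {κ : Type} [CommRing κ] (P : (M2 κ)ˣ) (r : GQ →* M2 κ) (g : GQ) :
    conjRep P r g = (P : M2 κ) * r g * ((P⁻¹ : (M2 κ)ˣ) : M2 κ) := rfl

theorem trace_conjRep {κ : Type} [CommRing κ] (P : (M2 κ)ˣ) (r : GQ →* M2 κ) (g : GQ) :
    (conjRep P r g).trace = (r g).trace := by
  rw [conjRep_apply, trace_mul_comm, ← mul_assoc, Units.inv_mul, one_mul]

theorem det_conjRep {κ : Type} [CommRing κ] (P : (M2 κ)ˣ) (r : GQ →* M2 κ) (g : GQ) :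
    (conjRep P r g).det = (r g).det := by
  rw [conjRep_apply, det_mul_comm, ← mul_assoc, Units.inv_mul, one_mul]

include hφ hT0 hr hfr in
/-- **Gluing**: Galois representations over the points `B i` of `T`, with Frobenius traces coming
from `T`, come from a representation over `T`. -/
theorem exists_glued (hinj : ∀ x : T, (∀ i, φ i x = 0) → x = 0)
    {p : ℕ} (hp : p.Prime) (hpS : p ∈ S) (hpT : (p : T) ∈ maximalIdeal T)
    {i2 : T} (h2 : 2 * i2 = 1)
    {rbar : GQ →* M2 (ResidueField T)} (hrbar : MCont _ rbar)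
    (hfrbar : FrobData S (fun ℓ h h' => residue T (a ℓ h h')) rbar) (hirr : MIrr rbar) :
    ∃ ρ : GQ →* M2 T, MCont T ρ ∧ FrobData S a ρ ∧
      (∀ i, ∃ P : (M2 (B i))ˣ, ∀ g, (P : M2 (B i)) * r i g *
        ((P⁻¹ : (M2 (B i))ˣ) : M2 (B i)) = (ρ g).map (φ i)) ∧
      ∀ g, residue T (ρ g).trace = (rbar g).trace := by
  classical
  choose t ht using exists_trace B φ hφ hT0 hr hfr
  have htbar : ∀ g, residue T (t g) = (rbar g).trace := fun g =>
    residue_trace B φ hT0 hr hfr hrbar hfrbar g (t g) (ht g)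
  set c : GQ := complexConjugation with hcdef
  have hc : c * c = 1 := complexConjugation_mul_self
  have hc1 : c ≠ 1 := H87.Res.complexConjugation_ne_one
  -- diagonalise complex conjugation
  have hdet : ∀ i, (r i c).det = -1 := fun i =>
    det_involution hp hpS (by
      have h := hφ i
      have := map_nonunit (φ i) _ hpT
      rwa [map_natCast] at this) (hr i) (hfr i) hc hc1
  have hdetbar : (rbar c).det = -1 := by
    have hbot : maximalIdeal (ResidueField T) = ⊥ :=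
      (Ideal.eq_bot_or_top _).resolve_right (Ideal.IsMaximal.ne_top inferInstance)
    haveI : IsHausdorff (maximalIdeal (ResidueField T)) (ResidueField T) := by
      rw [hbot]; infer_instance
    refine det_involution hp hpS ?_ hrbar hfrbar hc hc1
    rw [hbot, Ideal.mem_bot, ← map_natCast (residue T)]
    exact (residue_eq_zero_iff _).mpr hpT
  have hP : ∀ i, ∃ P : (M2 (B i))ˣ, conjRep P (r i) c = !![1, 0; 0, -1] := fun i =>
    exists_diag (i2 := φ i i2) (by rw [← map_ofNat (φ i) 2, ← map_mul, h2, map_one])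
      (r i c) (by rw [← map_mul, hc, map_one]) (hdet i)
  choose P hP using hP
  obtain ⟨Q, hQ⟩ : ∃ Q : (M2 (ResidueField T))ˣ, conjRep Q rbar c = !![1, 0; 0, -1] :=
    exists_diag (i2 := residue T i2) (by rw [← map_ofNat (residue T) 2, ← map_mul, h2, map_one])
      (rbar c) (by rw [← map_mul, hc, map_one]) hdetbar
  obtain ⟨⟨g₀, hg₀⟩, ⟨h₀, hh₀⟩⟩ := hirr Q
  have htc : ∀ i g, φ i (t g) = (conjRep (P i) (r i) g).trace := fun i g => by
    rw [trace_conjRep]; exact ht g i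
  have hX : residue T (entX i2 t c g₀ h₀) ≠ 0 := by
    have h3 := entX_eq (φ := residue T) (i2 := i2) h2 (r := conjRep Q rbar) (t := t)
      (fun g => by rw [trace_conjRep]; exact htbar g) hQ g₀ h₀
    rw [h3]
    exact mul_ne_zero hg₀ hh₀
  have hXu : IsUnit (entX i2 t c g₀ h₀) := by
    by_contra h
    exact hX ((residue_eq_zero_iff _).mpr ((mem_maximalIdeal _).mpr h))
  obtain ⟨u, hu⟩ := hXu.exists_right_inv
  let ρ : GQ →* M2 T := glueHom B φ hinj h2 (fun i => conjRep (P i) (r i)) htc hP hu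
  have hρtr : ∀ g, (ρ g).trace = t g := by
    intro g
    show (glueMat i2 t c g₀ h₀ u g).trace = t g
    rw [glueMat, trace_fin_two_of, entA, entD]
    linear_combination (t g) * h2
  have hconj : ∀ i, ∃ P' : (M2 (B i))ˣ, ∀ g, (P' : M2 (B i)) * r i g *
        ((P'⁻¹ : (M2 (B i))ˣ) : M2 (B i)) = (ρ g).map (φ i) := by
    intro i
    obtain ⟨P', hP'⟩ := exists_conj_glueMat B φ h2 (fun i => conjRep (P i) (r i)) htc hP hu i
    refine ⟨P' * P i, fun g => ?_⟩
    have h3 := hP' g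
    rw [conjRep_apply] at h3
    rw [_root_.mul_inv_rev, Units.val_mul, Units.val_mul]
    simp only [mul_assoc] at h3 ⊢
    exact h3
  refine ⟨ρ, ?_, ?_, hconj, fun g => by rw [hρtr]; exact htbar g⟩
  · -- continuity
    intro n
    obtain ⟨N, hN⟩ := hT0 n
    obtain ⟨L, hL, hLr⟩ := exists_common_level B hr N
    refine ⟨L, hL, fun σ hσ k j => ?_⟩
    refine glueMat_sub_one_mem B φ hinj h2 (fun i => conjRep (P i) (r i)) htc hP
      (maximalIdeal T ^ n) σ (fun g => ?_) k j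
    refine hN _ fun i => ?_
    rw [map_sub, ht (g * σ) i, ht g i]
    refine trace_sub_mem (sub_entry_mem (hLr i) (g * σ) g fun x hx => ?_)
    rw [AlgEquiv.mul_apply, hσ x hx]
  · -- Frobenius
    intro ℓ hℓ hℓS V hV σ hσ
    constructor
    · rw [hρtr, ← sub_eq_zero]
      apply hinj
      intro i
      rw [map_sub, ht σ i, (hfr i ℓ hℓ hℓS V hV σ hσ).1, sub_self]
    · rw [← sub_eq_zero]
      apply hinj
      intro i
      obtain ⟨P', hP'⟩ := hconj i
      have h3 : (φ i) (ρ σ).det = (r i σ).det := by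
        rw [RingHom.map_det, RingHom.mapMatrix_apply, ← hP' σ, det_mul_comm, ← mul_assoc,
          Units.inv_mul, one_mul]
      rw [map_sub, h3, (hfr i ℓ hℓ hℓS V hV σ hσ).2, map_natCast, sub_self]

end Main

end Fermat.Agent.H30
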