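/-
H30Points: the representations over the points of a Hecke ring, from the statement of S30.
-/
import Fermat.Agent.H30Assemble
import Fermat.Agent.H35DVR
import Fermat.Agent.H96S29

set_option autoImplicit false
set_option linter.style.haveILetI false
set_option linter.unusedSectionVars false

noncomputable section

namespace Fermat.Agent.H30

open IsLocalRing Matrix
open Fermat.Agent.H53 (GQ M2 MCont)

section Normalization

/-- The normalisation of a domain finite over a complete DVR. -/
theorem exists_normalization (O : Type) [CommRing O] [IsDomain O] [IsDiscreteValuationRing O]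
    [IsAdicComplete (maximalIdeal O) O] [Finite (ResidueField O)] [CharZero O]
    (D : Type) [CommRing D] [IsDomain D] [Algebra O D] [Module.Finite O D] [FaithfulSMul O D] :
    ∃ (O' : Type) (_ : CommRing O') (_ : IsDomain O') (_ : IsDiscreteValuationRing O')
      (_ : IsAdicComplete (maximalIdeal O') O') (_ : Finite (ResidueField O')) (_ : CharZero O')
      (_ : Algebra O O') (_ : Module.Finite O O') (_ : IsLocalHom (algebraMap O O'))
      (ψ : D →ₐ[O] O'), Function.Injective ψ := by
  letI : Algebra (FractionRing O) (FractionRing D) := FractionRing.liftAlgebra O (FractionRing D)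
  haveI : IsScalarTower O (FractionRing O) (FractionRing D) :=
    FractionRing.isScalarTower_liftAlgebra O (FractionRing D)
  haveI : FiniteDimensional (FractionRing O) (FractionRing D) :=
    .of_isLocalization O D (nonZeroDivisors O)
  haveI : CharZero (FractionRing O) := by
    have h : Function.Injective (algebraMap O (FractionRing O)) := IsFractionRing.injective O _
    exact charZero_of_injective_algebraMap h
  haveI : Algebra.IsSeparable (FractionRing O) (FractionRing D) := inferInstance
  have h1 := H35.isDiscreteValuationRing_integralClosure O (FractionRing O) (FractionRing D)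
  have h2 := H35.isAdicComplete_integralClosure O (FractionRing O) (FractionRing D)
  have h3 := H35.finite_residueField_integralClosure O (FractionRing O) (FractionRing D)
  have h4 := H35.finite_integralClosure O (FractionRing O) (FractionRing D)
  have h5 := H35.isLocalHom_integralClosure O (FractionRing O) (FractionRing D)
  have h6 := H35.injective_algebraMap_integralClosure O (FractionRing O) (FractionRing D)
  haveI : CharZero (integralClosure O (FractionRing D)) := charZero_of_injective_algebraMap h6
  let ψ : D →ₐ[O] integralClosure O (FractionRing D) :=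
    AlgHom.codRestrict (IsScalarTower.toAlgHom O D (FractionRing D))
      (integralClosure O (FractionRing D)) (fun x => by
        have : IsIntegral O x := Algebra.IsIntegral.isIntegral x
        exact this.map (IsScalarTower.toAlgHom O D (FractionRing D)))
  refine ⟨integralClosure O (FractionRing D), inferInstance, inferInstance, h1, h2, h3,
    inferInstance, inferInstance, h4, h5, ψ, fun x y hxy => ?_⟩
  have h7 := congrArg (fun z : integralClosure O (FractionRing D) => (z : FractionRing D)) hxy
  exact IsFractionRing.injective D (FractionRing D) h7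

end Normalization

/-- A Galois representation over a point of `T`. -/
structure PointRep (O : Type) [CommRing O] [IsDomain O] [IsDiscreteValuationRing O]
    (T : Type) [CommRing T] [IsLocalRing T] [Algebra O T] (N p : ℕ) (S : Finset ℕ)
    (a : ∀ ℓ : ℕ, ℓ.Prime → ℓ ∉ S → T) (I : Ideal T) where
  B : Type
  [instRing : CommRing B]
  [instDomain : IsDomain B]
  [instDVR : IsDiscreteValuationRing B]
  [instComplete : IsAdicComplete (maximalIdeal B) B]
  [instResidue : Finite (ResidueField B)]
  [instCharZero : CharZero B]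
  [instAlgebra : Algebra O B]
  [instFinite : Module.Finite O B]
  φ : T →ₐ[O] B
  ker_le : RingHom.ker φ ≤ I
  isLocalHom : IsLocalHom (φ : T →+* B)
  r : GQ →* M2 B
  cont : MCont B r
  frob : FrobData S (fun ℓ h h' => φ (a ℓ h h')) r
  unram : ∀ q : ℕ, q.Prime → ¬ q ∣ N → q ≠ p → ∀ A : ValuationSubring (AlgebraicClosure ℚ),
    A.LiesOverPrime q → ∀ σ ∈ A.inertiaSubgroupIn ℚ, r σ = 1

attribute [instance] PointRep.instRing PointRep.instDomain PointRep.instDVR PointRep.instComplete
  PointRep.instResidue PointRep.instCharZero PointRep.instAlgebra PointRep.instFinite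

/-- `FrobData` of the matrix of an adic representation from its Frobenius polynomials. -/
theorem frobData_toMat {B : Type} [CommRing B] [IsLocalRing B] {S : Finset ℕ}
    {a : ∀ ℓ : ℕ, ℓ.Prime → ℓ ∉ S → B} (ρ : GaloisRepAdic B) (b : Module.Basis (Fin 2) B ρ.V)
    (h : ∀ (ℓ : ℕ) (hℓ : ℓ.Prime) (hℓS : ℓ ∉ S) (A : ValuationSubring (AlgebraicClosure ℚ)),
      A.LiesOverPrime ℓ → ∀ σ : AlgebraicClosure ℚ ≃ₐ[ℚ] AlgebraicClosure ℚ,
      A.IsFrobeniusAt σ ℓ → LinearMap.charpoly (ρ.ρ σ) =
        Polynomial.X ^ 2 - Polynomial.C (a ℓ hℓ hℓS) * Polynomial.X + Polynomial.C ((ℓ : B))) :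
    FrobData S a (H53.toMat ρ.ρ b) := by
  intro ℓ hℓ hℓS A hA σ hσ
  have h1 := h ℓ hℓ hℓS A hA σ hσ
  constructor
  · have h2 := H31.trace_eq_of_charpoly ρ.finrank_eq _ _ _ h1
    rw [LinearMap.trace_eq_matrix_trace B b] at h2
    exact h2
  · have h2 := H31.det_eq_of_charpoly ρ.finrank_eq _ _ _ h1
    rw [← LinearMap.det_toMatrix b] at h2
    exact h2

/-- The elements `T_ℓ` in a Hecke ring. -/
def frobElt {N : ℕ} [NeZero N] {S : Finset ℕ}
    (hNS : ∀ q : ℕ, q.Prime → q ∣ N → q ∈ S) {T : Type} [CommRing T]
    (π : CuspForm.heckeAlgebra N 2 (↑S : Set ℕ) →+* T) (ℓ : ℕ) (hℓ : ℓ.Prime) (hℓS : ℓ ∉ S) : T :=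
  π (CuspForm.heckeAlgebra.T hℓ (fun h => hℓS (hNS ℓ hℓ h)) (by simpa using hℓS))

/-- Existence of the representation over a minimal prime of a Hecke ring, from S30. -/
theorem exists_pointRep (h30 : H96.StatementS30) {p : ℕ} [Fact p.Prime] {N : ℕ} [NeZero N]
    {S : Finset ℕ} (hpS : p ∈ S) (hNS : ∀ q : ℕ, q.Prime → q ∣ N → q ∈ S)
    (O : Type) [CommRing O] [IsDomain O] [IsDiscreteValuationRing O]
    [IsAdicComplete (maximalIdeal O) O] [Finite (ResidueField O)] [CharZero O]
    (hpO : (p : O) ∈ maximalIdeal O)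
    {T : Type} [CommRing T] [IsLocalRing T] [Algebra O T] [Module.Finite O T] [Module.Free O T]
    (π : CuspForm.heckeAlgebra N 2 (↑S : Set ℕ) →+* T) {I : Ideal T} (hI : I ∈ minimalPrimes T) :
    Nonempty (PointRep O T N p S (frobElt hNS π) I) := by
  haveI : I.IsPrime := hI.1.1
  haveI : FaithfulSMul O (T ⧸ I) := by
    rw [faithfulSMul_iff_algebraMap_injective, injective_iff_map_eq_zero]
    intro x hx
    by_contra hx0
    have h1 : algebraMap O T x ∈ I := by
      rw [← Ideal.Quotient.eq_zero_iff_mem]
      exact hx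
    have h2 : algebraMap O T x ∈ nonZeroDivisors T := by
      haveI : Module.IsTorsionFree O T := inferInstance
      rw [mem_nonZeroDivisors_iff_right]
      intro y hy
      rw [mul_comm, ← Algebra.smul_def] at hy
      exact (smul_eq_zero.mp hy).resolve_left hx0
    exact Set.disjoint_left.mp (Ideal.disjoint_nonZeroDivisors_of_mem_minimalPrimes hI) h1 h2
  obtain ⟨O', i1, i2, i3, i4, i5, i6, i7, i8, i9, ψ, hψ⟩ := exists_normalization O (T ⧸ I)
  set χ : CuspForm.heckeAlgebra N 2 (↑S : Set ℕ) →+* O' :=
    ((ψ : T ⧸ I →+* O').comp (Ideal.Quotient.mk I)).comp π with hχ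
  have hpO' : (p : O') ∈ maximalIdeal O' := by
    have := map_nonunit (algebraMap O O') _ hpO
    rwa [map_natCast] at this
  obtain ⟨O'', j1, j2, j3, j4, j5, j6, j7, j8, j9, hinj, ρ, hfrob, hunr⟩ :=
    h30 p N S hpS hNS O' hpO' χ
  letI : Algebra O O'' := ((algebraMap O' O'').comp (algebraMap O O')).toAlgebra
  haveI : IsScalarTower O O' O'' := IsScalarTower.of_algebraMap_eq fun x => rfl
  haveI : Module.Finite O O'' := Module.Finite.trans O' O''
  let φ : T →ₐ[O] O'' :=
    ((IsScalarTower.toAlgHom O O' O'').comp ψ).comp (Ideal.Quotient.mkₐ O I)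
  have hφ : ∀ x, φ x = algebraMap O' O'' (ψ (Ideal.Quotient.mk I x)) := fun x => rfl
  let b := Module.finBasisOfFinrankEq O'' ρ.V ρ.finrank_eq
  refine ⟨{ B := O'', φ := φ, ker_le := ?_, isLocalHom := ?_, r := H53.toMat ρ.ρ b,
            cont := H53.mcont_toMat ρ b, frob := ?_, unram := ?_ }⟩
  · intro x hx
    rw [RingHom.mem_ker] at hx
    have h1 : algebraMap O' O'' (ψ (Ideal.Quotient.mk I x)) = 0 := hx
    have h2 : ψ (Ideal.Quotient.mk I x) = 0 := hinj (by rw [h1, map_zero])
    have h3 : Ideal.Quotient.mk I x = 0 := hψ (by rw [h2, map_zero])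
    exact Ideal.Quotient.eq_zero_iff_mem.mp h3
  · haveI : Module.Finite O O' := i8
    have hψint : (ψ : T ⧸ I →+* O').IsIntegral := by
      intro x
      have h1 : IsIntegral O x := Algebra.IsIntegral.isIntegral x
      obtain ⟨f, hf, hfx⟩ := h1
      refine ⟨f.map (algebraMap O (T ⧸ I)), hf.map _, ?_⟩
      rw [Polynomial.eval₂_map]
      have h2 : (ψ : T ⧸ I →+* O').comp (algebraMap O (T ⧸ I)) = algebraMap O O' :=
        ψ.comp_algebraMap
      rw [h2]
      exact hfx
    haveI : IsLocalHom (ψ : T ⧸ I →+* O') := hψint.isLocalHom hψ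
    haveI : IsLocalHom (Ideal.Quotient.mk I) :=
      IsLocalHom.of_surjective _ Ideal.Quotient.mk_surjective
    constructor
    intro x hx
    have h1 : IsUnit (algebraMap O' O'' (ψ (Ideal.Quotient.mk I x))) := hx
    have h2 : IsUnit (ψ (Ideal.Quotient.mk I x)) := isUnit_of_map_unit (algebraMap O' O'') _ h1
    have h3 : IsUnit (Ideal.Quotient.mk I x) := isUnit_of_map_unit (ψ : T ⧸ I →+* O') _ h2
    exact isUnit_of_map_unit (Ideal.Quotient.mk I) _ h3
  · refine frobData_toMat ρ b fun ℓ hℓ hℓS A hA σ hσ => ?_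
    exact hfrob ℓ hℓ (fun h => hℓS (hNS ℓ hℓ h)) (by simpa using hℓS) A hA σ hσ
  · intro q hq hqN hqp A hA σ hσ
    have h1 := hunr q hq hqN hqp A hA σ hσ
    rw [H53.toMat_apply, h1, LinearMap.toMatrix_one]

end Fermat.Agent.H30
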