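import Fermat.Agent.H70PetSpace
import Fermat.Agent.S22

/-!
# Reducedness of coefficient rings generated by Hecke algebras

`Fermat.Agent.H70.isReduced_of_adjoin_field` : a finite dimensional commutative algebra `B` over a
field `K` of characteristic zero generated by the image of a reduced ring `R` integral over `ℤ`
is reduced.

`Fermat.Agent.H70.isReduced_of_adjoin` : same with `T` finite free over a domain `𝒪` of
characteristic zero.

`Fermat.Agent.H70.isReduced_of_adjoin_heckeAlgebra` : the application to
`heckeAlgebra N 2 S` where `S` contains all prime divisors of `N` (so the ring `T` of a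
`HeckeGaloisRepDatum` is reduced).
-/

set_option autoImplicit false

open Polynomial TensorProduct

namespace Fermat.Agent.H70

/-- In a reduced ring integral over `ℤ`, each element is a root of a monic integral polynomial which
is squarefree over `ℚ`. -/
theorem exists_monic_squarefree_aeval_eq_zero {R : Type*} [CommRing R] [IsReduced R] {t : R}
    (ht : IsIntegral ℤ t) :
    ∃ G : ℤ[X], G.Monic ∧ (G.map (algebraMap ℤ ℚ)).Separable ∧ aeval t G = 0 := by
  obtain ⟨F, hF, hFt⟩ := ht
  have hF0 : F.map (algebraMap ℤ ℚ) ≠ 0 := (hF.map _).ne_zero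
  set P : ℚ[X] := UniqueFactorizationMonoid.radical (F.map (algebraMap ℤ ℚ)) with hP
  have hPdvd : P ∣ F.map (algebraMap ℤ ℚ) := UniqueFactorizationMonoid.radical_dvd_self
  have hPsq : Squarefree P := UniqueFactorizationMonoid.squarefree_radical
  have hP0 : P ≠ 0 := ne_zero_of_dvd_ne_zero hF0 hPdvd
  obtain ⟨n, hn⟩ : ∃ n : ℕ, F.map (algebraMap ℤ ℚ) ∣ P ^ n :=
    UniqueFactorizationMonoid.exists_dvd_radical_self_pow hF0
  obtain ⟨G, hG⟩ := IsIntegrallyClosed.eq_map_mul_C_of_dvd ℚ hF hPdvd
  have hlc : P.leadingCoeff ≠ 0 := leadingCoeff_ne_zero.mpr hP0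
  have hmon : (G.map (algebraMap ℤ ℚ)).Monic := by
    have h1 := congrArg leadingCoeff hG
    rw [leadingCoeff_mul, leadingCoeff_C] at h1
    exact mul_right_cancel₀ hlc (by rw [h1, one_mul])
  have hGm : G.Monic := by
    apply Polynomial.monic_of_injective (RingHom.injective_int (algebraMap ℤ ℚ)) hmon
  have hsq : Squarefree (G.map (algebraMap ℤ ℚ)) :=
    hPsq.squarefree_of_dvd ⟨C P.leadingCoeff, hG.symm⟩
  refine ⟨G, hGm, PerfectField.separable_iff_squarefree.mpr hsq, ?_⟩
  have hdvd : F.map (algebraMap ℤ ℚ) ∣ (G ^ n).map (algebraMap ℤ ℚ) := by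
    rw [Polynomial.map_pow]
    have h2 : P ^ n = (G.map (algebraMap ℤ ℚ)) ^ n * C (P.leadingCoeff ^ n) := by
      rw [C_pow, ← mul_pow, hG]
    have h3 : (G.map (algebraMap ℤ ℚ)) ^ n = P ^ n * C ((P.leadingCoeff ^ n)⁻¹) := by
      rw [h2, mul_assoc, ← C_mul, mul_inv_cancel₀ (pow_ne_zero _ hlc), C_1, mul_one]
    rw [h3]
    exact hn.mul_right _
  have hdvd' : F ∣ G ^ n :=
    (Polynomial.map_dvd_map _ (RingHom.injective_int (algebraMap ℤ ℚ)) hF).mp hdvd
  obtain ⟨Q, hQ⟩ := hdvd'
  have h4 : (aeval t G) ^ n = 0 := by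
    rw [← map_pow, hQ, map_mul]
    rw [← aeval_def] at hFt
    rw [hFt, zero_mul]
  exact eq_zero_of_pow_eq_zero h4

/-- A finite dimensional commutative algebra over a field of characteristic zero
generated by the image of a reduced ring integral over `ℤ` is reduced. -/
theorem isReduced_of_adjoin_field {R : Type*} [CommRing R] [IsReduced R]
    [Algebra.IsIntegral ℤ R] {K : Type*} [Field K] [CharZero K] {B : Type*} [CommRing B]
    [Algebra K B] [FiniteDimensional K B] (π : R →+* B)
    (hπ : Algebra.adjoin K (Set.range π) = ⊤) : IsReduced B := by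
  have key : ∀ b : B, Module.End.IsSemisimple (LinearMap.mulLeft K b) := by
    intro b
    have hb : b ∈ Algebra.adjoin K (Set.range π) := by rw [hπ]; trivial
    induction hb using Algebra.adjoin_induction with
    | mem x hx =>
      obtain ⟨t, rfl⟩ := hx
      obtain ⟨G, -, hsep, hG⟩ :=
        exists_monic_squarefree_aeval_eq_zero (Algebra.IsIntegral.isIntegral (R := ℤ) t)
      have hsepK : (G.map (algebraMap ℤ K)).Separable := by
        have h1 := hsep.map (f := algebraMap ℚ K)
        rwa [Polynomial.map_map, ← IsScalarTower.algebraMap_eq] at h1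
      refine Module.End.isSemisimple_of_squarefree_aeval_eq_zero
        (p := G.map (algebraMap ℤ K)) hsepK.squarefree ?_
      have h2 : aeval (π t) (G.map (algebraMap ℤ K)) = 0 := by
        rw [aeval_map_algebraMap]
        have h3 := congrArg π hG
        rw [map_zero] at h3
        rw [← h3]
        exact (Polynomial.aeval_algHom_apply (π.toIntAlgHom) t G)
      have h4 : aeval (LinearMap.mulLeft K (π t)) (G.map (algebraMap ℤ K)) =
          LinearMap.mulLeft K (aeval (π t) (G.map (algebraMap ℤ K))) := by
        have := Polynomial.aeval_algHom_apply (Algebra.lmul K B) (π t) (G.map (algebraMap ℤ K))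
        exact this
      rw [h4, h2]
      ext; simp
    | algebraMap r =>
      have : LinearMap.mulLeft K (algebraMap K B r) = algebraMap K (Module.End K B) r := by
        ext x; simp [Algebra.algebraMap_eq_smul_one]
      rw [this]
      exact Module.End.isSemisimple_of_squarefree_aeval_eq_zero (p := X - C r)
        (Polynomial.separable_X_sub_C.squarefree) (by simp)
    | add x y _ _ hx hy =>
      have : LinearMap.mulLeft K (x + y) = LinearMap.mulLeft K x + LinearMap.mulLeft K y := by
        ext z; simp [add_mul]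
      rw [this]
      refine Module.End.IsSemisimple.add_of_commute ?_ hx hy
      ext z; simp [mul_left_comm]
    | mul x y _ _ hx hy =>
      have : LinearMap.mulLeft K (x * y) = LinearMap.mulLeft K x * LinearMap.mulLeft K y := by
        ext z; simp
      rw [this]
      refine Module.End.IsSemisimple.mul_of_commute ?_ hx hy
      ext z; simp [mul_left_comm]
  refine ⟨fun b hb => ?_⟩
  have h1 : IsNilpotent (LinearMap.mulLeft K b) := by
    obtain ⟨n, hn⟩ := hb
    refine ⟨n, ?_⟩
    rw [LinearMap.pow_mulLeft, hn]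
    ext; simp
  have h2 := Module.End.eq_zero_of_isNilpotent_isSemisimple h1 (key b)
  have h3 := LinearMap.congr_fun h2 1
  simpa using h3

/-- A finite free algebra over a domain of characteristic zero
generated by the image of a reduced ring integral over `ℤ` is reduced. -/
theorem isReduced_of_adjoin {R : Type*} [CommRing R] [IsReduced R]
    [Algebra.IsIntegral ℤ R] {𝒪 : Type*} [CommRing 𝒪] [IsDomain 𝒪] [CharZero 𝒪]
    {T : Type*} [CommRing T] [Algebra 𝒪 T] [Module.Finite 𝒪 T] [Module.Free 𝒪 T]
    (π : R →+* T) (hπ : Algebra.adjoin 𝒪 (Set.range π) = ⊤) : IsReduced T := by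
  have : CharZero (FractionRing 𝒪) := inferInstance
  let ι : T →+* FractionRing 𝒪 ⊗[𝒪] T :=
    (Algebra.TensorProduct.includeRight : T →ₐ[𝒪] FractionRing 𝒪 ⊗[𝒪] T).toRingHom
  have hι : Function.Injective ι :=
    Algebra.TensorProduct.includeRight_injective (IsFractionRing.injective 𝒪 (FractionRing 𝒪))
  have hred : IsReduced (FractionRing 𝒪 ⊗[𝒪] T) := by
    refine isReduced_of_adjoin_field (K := FractionRing 𝒪) (ι.comp π) ?_
    rw [eq_top_iff]
    rintro x -
    induction x using TensorProduct.induction_on with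
    | zero => exact Subalgebra.zero_mem _
    | add x y hx hy => exact Subalgebra.add_mem _ hx hy
    | tmul a t =>
      have h1 : a ⊗ₜ[𝒪] t = a • ι t := by
        change a ⊗ₜ[𝒪] t = a • ((1 : FractionRing 𝒪) ⊗ₜ[𝒪] t)
        rw [TensorProduct.smul_tmul', smul_eq_mul, mul_one]
      rw [h1]
      refine Subalgebra.smul_mem _ ?_ _
      clear h1
      have ht : t ∈ Algebra.adjoin 𝒪 (Set.range π) := by rw [hπ]; trivial
      induction ht using Algebra.adjoin_induction with
      | mem x hx =>
        obtain ⟨r, rfl⟩ := hx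
        exact Algebra.subset_adjoin ⟨r, rfl⟩
      | algebraMap r =>
        have h2 : ι (algebraMap 𝒪 T r) = algebraMap (FractionRing 𝒪) _ (algebraMap 𝒪 _ r) := by
          change (1 : FractionRing 𝒪) ⊗ₜ[𝒪] (algebraMap 𝒪 T r) = _
          rw [Algebra.algebraMap_eq_smul_one, TensorProduct.tmul_smul,
            Algebra.TensorProduct.algebraMap_apply]
          rw [TensorProduct.smul_tmul', Algebra.smul_def, mul_one]
          rfl
        rw [h2]
        exact Subalgebra.algebraMap_mem _ _
      | add x y _ _ hx hy => rw [map_add]; exact Subalgebra.add_mem _ hx hy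
      | mul x y _ _ hx hy => rw [map_mul]; exact Subalgebra.mul_mem _ hx hy
  exact isReduced_of_injective ι hι

/-- The coefficient ring of a Hecke–Galois datum is reduced (when the set of omitted primes
contains the primes dividing the level). -/
theorem isReduced_of_adjoin_heckeAlgebra {N : ℕ} [NeZero N] {k : ℤ} {S : Set ℕ}
    (hNS : ∀ q : ℕ, q.Prime → q ∣ N → q ∈ S)
    {𝒪 : Type*} [CommRing 𝒪] [IsDomain 𝒪] [CharZero 𝒪]
    {T : Type*} [CommRing T] [Algebra 𝒪 T] [Module.Finite 𝒪 T] [Module.Free 𝒪 T]
    (π : CuspForm.heckeAlgebra N k S →+* T) (hπ : Algebra.adjoin 𝒪 (Set.range π) = ⊤) :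
    IsReduced T := by
  have h1 : IsReduced (CuspForm.heckeAlgebra N k S) := isReduced_heckeAlgebra hNS
  have h2 : Module.Finite ℤ (CuspForm.heckeAlgebra N k S) := Fermat.Agent.S22.result N k S
  exact isReduced_of_adjoin π hπ

end Fermat.Agent.H70
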