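/-
H30Datum: the Galois representation over a (local component of a) Hecke ring, from the statement
of S30 and an irreducible residual representation.
-/
import Fermat.Agent.H30Points
import Fermat.Agent.H70Reduced
import Fermat.Agent.H32Carayol
import Fermat.Agent.H87AbsIrr
import Mathlib.RingTheory.Ideal.MinimalPrime.Noetherian

set_option autoImplicit false
set_option linter.style.haveILetI false
set_option linter.unusedSectionVars false

noncomputable section

namespace Fermat.Agent.H30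

open IsLocalRing Matrix
open Fermat.Agent.H53 (GQ M2 MCont)

section Irr

variable {κ : Type} [Field κ]

/-- An irreducible two-dimensional representation has no common eigenvector. -/
theorem no_eigenvector (ρ : ResidualGaloisRep κ) (hirr : ρ.IsIrreducible) {v : ρ.V} (hv : v ≠ 0) :
    ∃ g : GQ, ∀ x : κ, ρ.ρ g v ≠ x • v := by
  by_contra hcon
  push Not at hcon
  have h1 := hirr (Submodule.span κ {v}) (fun σ x hx => by
    obtain ⟨c, rfl⟩ := Submodule.mem_span_singleton.mp hx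
    obtain ⟨y, hy⟩ := hcon σ
    rw [map_smul, hy]
    exact Submodule.smul_mem _ _ (Submodule.smul_mem _ _ (Submodule.mem_span_singleton_self v)))
  rcases h1 with h1 | h1
  · exact hv (Submodule.span_singleton_eq_bot.mp h1)
  · have h2 := finrank_span_singleton (K := κ) hv
    rw [h1, finrank_top, ρ.finrank_eq] at h2
    omega

theorem mirr_of_isIrreducible (ρ : ResidualGaloisRep κ) (hirr : ρ.IsIrreducible)
    (b : Module.Basis (Fin 2) κ ρ.V) : MIrr (H53.toMat ρ.ρ b) := by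
  have key : ∀ (P : (M2 κ)ˣ) (j : Fin 2), ∃ g, ∃ i, i ≠ j ∧
      ((P : M2 κ) * H53.toMat ρ.ρ b g * ((P⁻¹ : (M2 κ)ˣ) : M2 κ)) i j ≠ 0 := by
    intro P j
    by_contra hcon
    push Not at hcon
    set e : Fin 2 → κ := Pi.single j 1 with he
    set w : Fin 2 → κ := ((P⁻¹ : (M2 κ)ˣ) : M2 κ) *ᵥ e with hw
    have hw0 : w ≠ 0 := by
      intro h0
      have h1 : (P : M2 κ) *ᵥ w = e := by
        rw [hw, mulVec_mulVec, Units.mul_inv, one_mulVec]
      rw [h0, mulVec_zero] at h1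
      have := congrFun h1 j
      simp [he] at this
    have hg : ∀ g, ∃ x : κ, H53.toMat ρ.ρ b g *ᵥ w = x • w := by
      intro g
      set M := (P : M2 κ) * H53.toMat ρ.ρ b g * ((P⁻¹ : (M2 κ)ˣ) : M2 κ) with hM
      have h1 : M *ᵥ e = M j j • e := by
        funext i
        rw [he, mulVec_single_one]
        by_cases hij : i = j
        · subst hij; simp
        · have h0 : M i j = 0 := hcon g i hij
          simp [h0, Pi.single_eq_of_ne hij]
      refine ⟨M j j, ?_⟩
      have h2 : H53.toMat ρ.ρ b g *ᵥ w = ((P⁻¹ : (M2 κ)ˣ) : M2 κ) *ᵥ (M *ᵥ e) := by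
        rw [hM, hw, mulVec_mulVec, mulVec_mulVec, ← mul_assoc, ← mul_assoc, Units.inv_mul, one_mul]
      rw [h2, h1, mulVec_smul, ← hw]
    set v : ρ.V := b.equivFun.symm w with hv
    have hv0 : v ≠ 0 := by
      rw [hv]
      exact (LinearEquiv.map_ne_zero_iff _).mpr hw0
    obtain ⟨g, hgv⟩ := no_eigenvector ρ hirr hv0
    obtain ⟨x, hx⟩ := hg g
    apply hgv x
    apply b.equivFun.injective
    have h3 := LinearMap.toMatrix_mulVec_repr b b (ρ.ρ g) v
    have h4 : (b.repr v : Fin 2 → κ) = w := by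
      rw [hv, ← Module.Basis.equivFun_apply, LinearEquiv.apply_symm_apply]
    rw [h4] at h3
    rw [map_smul, Module.Basis.equivFun_apply, ← h3, hv, LinearEquiv.apply_symm_apply]
    exact hx
  intro P
  obtain ⟨g, i, hi, h1⟩ := key P 1
  obtain ⟨g', i', hi', h1'⟩ := key P 0
  have e1 : i = 0 := by omega
  have e2 : i' = 1 := by omega
  subst e1 e2
  exact ⟨⟨g, h1⟩, ⟨g', h1'⟩⟩

theorem mcont_residual (ρ : ResidualGaloisRep κ) (b : Module.Basis (Fin 2) κ ρ.V) :
    MCont κ (H53.toMat ρ.ρ b) := by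
  intro n
  obtain ⟨L, hL, h⟩ := ρ.factorsThroughFiniteLevel
  refine ⟨L, hL, fun σ hσ i j => ?_⟩
  rw [H53.toMat_apply, h σ hσ, LinearMap.toMatrix_one, sub_self]
  exact zero_mem _

theorem frobData_toMat_residual {S : Finset ℕ}
    {a : ∀ ℓ : ℕ, ℓ.Prime → ℓ ∉ S → κ} (ρ : ResidualGaloisRep κ) (b : Module.Basis (Fin 2) κ ρ.V)
    (h : ∀ (ℓ : ℕ) (hℓ : ℓ.Prime) (hℓS : ℓ ∉ S) (A : ValuationSubring (AlgebraicClosure ℚ)),
      A.LiesOverPrime ℓ → ∀ σ : AlgebraicClosure ℚ ≃ₐ[ℚ] AlgebraicClosure ℚ,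
      A.IsFrobeniusAt σ ℓ → LinearMap.charpoly (ρ.ρ σ) =
        Polynomial.X ^ 2 - Polynomial.C (a ℓ hℓ hℓS) * Polynomial.X + Polynomial.C ((ℓ : κ))) :
    FrobData S a (H53.toMat ρ.ρ b) := by
  intro ℓ hℓ hℓS A hA σ hσ
  have h1 := h ℓ hℓ hℓS A hA σ hσ
  constructor
  · have h2 := H31.trace_eq_of_charpoly ρ.finrank_eq _ _ _ h1
    rw [LinearMap.trace_eq_matrix_trace κ b] at h2
    exact h2
  · have h2 := H31.det_eq_of_charpoly ρ.finrank_eq _ _ _ h1
    rw [← LinearMap.det_toMatrix b] at h2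
    exact h2

/-- Two continuous representations with the same Frobenius data have the same traces and
determinants. -/
theorem frobData_unique {A : Type} [CommRing A] [IsLocalRing A] [IsHausdorff (maximalIdeal A) A]
    {S : Finset ℕ} {a : ∀ ℓ : ℕ, ℓ.Prime → ℓ ∉ S → A} {r r' : GQ →* M2 A} (hr : MCont A r)
    (hr' : MCont A r') (hfr : FrobData S a r) (hfr' : FrobData S a r') (σ : GQ) :
    (r σ).trace = (r' σ).trace ∧ (r σ).det = (r' σ).det := by
  have key : ∀ n, (r σ).trace - (r' σ).trace ∈ maximalIdeal A ^ n ∧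
      (r σ).det - (r' σ).det ∈ maximalIdeal A ^ n := by
    intro n
    obtain ⟨L, hL, hLr⟩ := hr n
    obtain ⟨L', hL', hLr'⟩ := hr' n
    obtain ⟨ℓ, hℓ, hℓS, P, hP, f, hf, j, hj⟩ := H31.weakFrobeniusDensity (L ⊔ L') inferInstance S σ
    have h1 := sub_entry_mem hLr σ (f ^ j) fun x hx => hj x ((le_sup_left : L ≤ L ⊔ L') hx)
    have h2 := sub_entry_mem hLr' σ (f ^ j) fun x hx => hj x ((le_sup_right : L' ≤ L ⊔ L') hx)
    have t1 := trace_sub_mem h1
    have t2 := trace_sub_mem h2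
    have d1 := det_sub_mem h1
    have d2 := det_sub_mem h2
    obtain ⟨a1, a2⟩ := hfr ℓ hℓ hℓS P hP f hf
    obtain ⟨b1, b2⟩ := hfr' ℓ hℓ hℓS P hP f hf
    rw [map_pow, trace_pow_fin_two, a1, a2] at t1
    rw [map_pow, trace_pow_fin_two, b1, b2] at t2
    rw [map_pow, det_pow, a2] at d1
    rw [map_pow, det_pow, b2] at d2
    constructor
    · have := Ideal.sub_mem _ t1 t2
      convert this using 1
      ring
    · have := Ideal.sub_mem _ d1 d2
      convert this using 1
      ring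
  constructor
  · rw [← sub_eq_zero]
    refine IsHausdorff.haus (I := maximalIdeal A) inferInstance _ fun n => ?_
    rw [SModEq.zero, smul_eq_mul, Ideal.mul_top]
    exact (key n).1
  · rw [← sub_eq_zero]
    refine IsHausdorff.haus (I := maximalIdeal A) inferInstance _ fun n => ?_
    rw [SModEq.zero, smul_eq_mul, Ideal.mul_top]
    exact (key n).2

theorem isHausdorff_field : IsHausdorff (maximalIdeal κ) κ := by
  have hbot : maximalIdeal κ = ⊥ :=
    (Ideal.eq_bot_or_top _).resolve_right (Ideal.IsMaximal.ne_top inferInstance)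
  rw [hbot]
  infer_instance

/-- Residual representations with the same Frobenius data, one of them irreducible. -/
theorem residual_equiv_of_frobData {S : Finset ℕ} {p : ℕ} (hp : p.Prime) (hpS : p ∈ S)
    (hpκ : (p : κ) = 0) (h2 : (2 : κ) ≠ 0)
    {a : ∀ ℓ : ℕ, ℓ.Prime → ℓ ∉ S → κ} (ρ₁ ρ₂ : ResidualGaloisRep κ) (h₁ : ρ₁.IsIrreducible)
    (b₁ : Module.Basis (Fin 2) κ ρ₁.V) (b₂ : Module.Basis (Fin 2) κ ρ₂.V)
    (hf₁ : FrobData S a (H53.toMat ρ₁.ρ b₁)) (hf₂ : FrobData S a (H53.toMat ρ₂.ρ b₂)) :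
    ρ₁.IsEquiv ρ₂ ∧ ρ₂.IsAbsolutelyIrreducible := by
  haveI : IsHausdorff (maximalIdeal κ) κ := isHausdorff_field
  have hbot : maximalIdeal κ = ⊥ :=
    (Ideal.eq_bot_or_top _).resolve_right (Ideal.IsMaximal.ne_top inferInstance)
  have hpm : (p : κ) ∈ maximalIdeal κ := by rw [hpκ]; exact zero_mem _
  have hc : complexConjugation * complexConjugation = 1 := complexConjugation_mul_self
  have hd₁ := det_involution hp hpS hpm (mcont_residual ρ₁ b₁) hf₁ hc
    H87.Res.complexConjugation_ne_one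
  have hd₂ := det_involution hp hpS hpm (mcont_residual ρ₂ b₂) hf₂ hc
    H87.Res.complexConjugation_ne_one
  rw [H53.toMat_apply, LinearMap.det_toMatrix] at hd₁ hd₂
  have ha₁ : ρ₁.IsAbsolutelyIrreducible :=
    H87.AbsIrr.isAbsolutelyIrreducible_of_involution h2 ρ₁ h₁ _ hc hd₁
  have hu := frobData_unique (mcont_residual ρ₁ b₁) (mcont_residual ρ₂ b₂) hf₁ hf₂
  obtain ⟨e, he⟩ := H32.exists_equiv_of_trace_det ρ₁.ρ ρ₂.ρ b₁ b₂
    (H32.residual_span_range_eq_top ρ₁ ha₁)
    (fun g => by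
      have := (hu g).1
      rw [H53.toMat_apply, H53.toMat_apply] at this
      rwa [LinearMap.trace_eq_matrix_trace κ b₁, LinearMap.trace_eq_matrix_trace κ b₂])
    (fun g => by
      have := (hu g).2
      rwa [H53.toMat_apply, H53.toMat_apply, LinearMap.det_toMatrix, LinearMap.det_toMatrix]
        at this)
  have heq : ρ₁.IsEquiv ρ₂ := ⟨{ toLinearEquiv := e, map_apply := he }⟩
  refine ⟨heq, H87.AbsIrr.isAbsolutelyIrreducible_of_involution h2 ρ₂ ?_ _ hc hd₂⟩
  intro W hW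
  have h3 := h₁ (W.comap (e : ρ₁.V →ₗ[κ] ρ₂.V)) (fun σ x hx => by
    rw [Submodule.mem_comap] at hx ⊢
    rw [LinearEquiv.coe_coe, he]
    exact hW σ _ hx)
  rcases h3 with h3 | h3
  · left
    have h4 := congrArg (Submodule.map (e : ρ₁.V →ₗ[κ] ρ₂.V)) h3
    rw [Submodule.map_comap_eq_of_surjective e.surjective, Submodule.map_bot] at h4
    exact h4
  · right
    have h4 := congrArg (Submodule.map (e : ρ₁.V →ₗ[κ] ρ₂.V)) h3
    rw [Submodule.map_comap_eq_of_surjective e.surjective, Submodule.map_top,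
      LinearMap.range_eq_top.mpr e.surjective] at h4
    exact h4

end Irr

/-- **The Galois representation over a Hecke ring.** -/
theorem exists_heckeGaloisRep (h30 : H96.StatementS30) {p : ℕ} [Fact p.Prime] (hp2 : p ≠ 2)
    {N : ℕ} [NeZero N] {S : Finset ℕ} (hpS : p ∈ S) (hNS : ∀ q : ℕ, q.Prime → q ∣ N → q ∈ S)
    (O : Type) [CommRing O] [IsDomain O] [IsDiscreteValuationRing O]
    [IsAdicComplete (maximalIdeal O) O] [Finite (ResidueField O)] [CharZero O]
    (hpO : (p : O) ∈ maximalIdeal O)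
    {T : Type} [CommRing T] [IsLocalRing T] [IsNoetherianRing T]
    [IsAdicComplete (maximalIdeal T) T] [Algebra O T] [IsLocalHom (algebraMap O T)]
    [Module.Finite O T] [Module.Free O T]
    (π : CuspForm.heckeAlgebra N 2 (↑S : Set ℕ) →+* T)
    (hadj : Algebra.adjoin O (Set.range π) = ⊤)
    (rbar : ResidualGaloisRep (ResidueField T)) (hirr : rbar.IsIrreducible)
    (hfrobbar : ∀ (ℓ : ℕ) (hℓ : ℓ.Prime) (hℓN : ¬ ℓ ∣ N) (hℓS : ℓ ∉ (↑S : Set ℕ)),
      ∀ A : ValuationSubring (AlgebraicClosure ℚ), A.LiesOverPrime ℓ →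
        ∀ σ : AlgebraicClosure ℚ ≃ₐ[ℚ] AlgebraicClosure ℚ, A.IsFrobeniusAt σ ℓ →
          LinearMap.charpoly (rbar.ρ σ) = Polynomial.X ^ 2 -
            Polynomial.C (residue T (π (CuspForm.heckeAlgebra.T hℓ hℓN hℓS))) * Polynomial.X +
              Polynomial.C ((ℓ : ResidueField T))) :
    ∃ ρ : GaloisRepAdic T,
      (∀ (ℓ : ℕ) (hℓ : ℓ.Prime) (hℓN : ¬ ℓ ∣ N) (hℓS : ℓ ∉ (↑S : Set ℕ)),
        ∀ A : ValuationSubring (AlgebraicClosure ℚ), A.LiesOverPrime ℓ →
          ∀ σ : AlgebraicClosure ℚ ≃ₐ[ℚ] AlgebraicClosure ℚ, A.IsFrobeniusAt σ ℓ →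
            LinearMap.charpoly (ρ.ρ σ) = Polynomial.X ^ 2 -
              Polynomial.C (π (CuspForm.heckeAlgebra.T hℓ hℓN hℓS)) * Polynomial.X +
                Polynomial.C ((ℓ : T))) ∧
      ρ.residual.IsAbsolutelyIrreducible ∧ ρ.residual.IsEquiv rbar ∧
      (∀ q : ℕ, q.Prime → ¬ q ∣ N → q ≠ p → ρ.IsUnramifiedAt q) := by
  classical
  haveI : Finite (minimalPrimes T) := (minimalPrimes.finite_of_isNoetherianRing T).to_subtype
  have hpts : ∀ I : minimalPrimes T, Nonempty (PointRep O T N p S (frobElt hNS π) I.1) :=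
    fun I => exists_pointRep h30 hpS hNS O hpO π I.2
  let D : ∀ I : minimalPrimes T, PointRep O T N p S (frobElt hNS π) I.1 := fun I => (hpts I).some
  have hred : IsReduced T := H70.isReduced_of_adjoin_heckeAlgebra
    (S := (↑S : Set ℕ)) (fun q hq hqN => by simpa using hNS q hq hqN) π hadj
  have hinj : ∀ x : T, (∀ I, (D I).φ x = 0) → x = 0 := by
    intro x hx
    have h1 : x ∈ sInf (minimalPrimes T) := by
      rw [Submodule.mem_sInf]
      intro I hI
      exact (D ⟨I, hI⟩).ker_le ((RingHom.mem_ker).mpr (hx ⟨I, hI⟩))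
    have h2 : sInf (minimalPrimes T) = (⊥ : Ideal T) := by
      rw [minimalPrimes, Ideal.sInf_minimalPrimes, Ideal.radical_bot_of_isReduced]
    rw [h2] at h1
    exact h1
  have hT0 := exists_forall_mem_pow (O := O) (T := T) (fun I => (D I).B) (fun I => (D I).φ) hinj
  have hpT : (p : T) ∈ maximalIdeal T := by
    have := map_nonunit (algebraMap O T) _ hpO
    rwa [map_natCast] at this
  have h2T : ((2 : ℕ) : T) ∉ maximalIdeal T := by
    intro h2
    have hcop : Nat.Coprime 2 p := (Nat.coprime_primes Nat.prime_two Fact.out).mpr (Ne.symm hp2)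
    have h3 : IsUnit (1 : T) := isUnit_one
    have h4 : (1 : T) ∈ maximalIdeal T := by
      obtain ⟨u, v, huv⟩ : ∃ u v : ℤ, (2 : ℤ) * u + (p : ℤ) * v = 1 := by
        have := Int.isCoprime_iff_gcd_eq_one.mpr (show Int.gcd (2 : ℤ) (p : ℤ) = 1 from hcop)
        obtain ⟨u, v, huv⟩ := this
        exact ⟨u, v, by rw [← huv]; ring⟩
      have h5 : (1 : T) = ((2 : ℕ) : T) * (u : T) + (p : T) * (v : T) := by
        have := congrArg (Int.cast : ℤ → T) huv
        push_cast at this ⊢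
        exact this.symm
      rw [h5]
      exact Ideal.add_mem _ (Ideal.mul_mem_right _ _ h2) (Ideal.mul_mem_right _ _ hpT)
    exact (mem_maximalIdeal _).mp h4 h3
  have hu2 : IsUnit (2 : T) := by
    by_contra h
    exact h2T (by rw [Nat.cast_ofNat]; exact (mem_maximalIdeal _).mpr h)
  obtain ⟨i2, hi2⟩ := hu2.exists_right_inv
  let bbar := Module.finBasisOfFinrankEq (ResidueField T) rbar.V rbar.finrank_eq
  obtain ⟨ρ, hρc, hρf, hρP, hρbar⟩ := exists_glued (fun I => (D I).B)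
    (fun I => ((D I).φ : T →+* (D I).B)) (fun I => (D I).isLocalHom) hT0
    (S := S) (a := frobElt hNS π) (r := fun I => (D I).r) (fun I => (D I).cont)
    (fun I => (D I).frob) hinj (Fact.out : p.Prime) hpS hpT hi2
    (rbar := H53.toMat rbar.ρ bbar) (mcont_residual rbar bbar)
    (frobData_toMat_residual rbar bbar fun ℓ hℓ hℓS A hA σ hσ =>
      hfrobbar ℓ hℓ _ _ A hA σ hσ)
    (mirr_of_isIrreducible rbar hirr bbar)
  let R : GaloisRepAdic T := H53.ofMatrix ρ hρc
  let bR := H53.stdBasis ρ hρc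
  have hRmat : H53.toMat R.ρ bR = ρ := H53.toMat_stdBasis ρ hρc
  have hcp : ∀ σ, LinearMap.charpoly (R.ρ σ) = (ρ σ).charpoly := by
    intro σ
    rw [← LinearMap.charpoly_toMatrix (R.ρ σ) bR]
    congr 1
    exact congrFun (congrArg DFunLike.coe hRmat) σ
  have hfrob : ∀ (ℓ : ℕ) (hℓ : ℓ.Prime) (hℓN : ¬ ℓ ∣ N) (hℓS : ℓ ∉ (↑S : Set ℕ)),
        ∀ A : ValuationSubring (AlgebraicClosure ℚ), A.LiesOverPrime ℓ →
          ∀ σ : AlgebraicClosure ℚ ≃ₐ[ℚ] AlgebraicClosure ℚ, A.IsFrobeniusAt σ ℓ →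
            LinearMap.charpoly (R.ρ σ) = Polynomial.X ^ 2 -
              Polynomial.C (π (CuspForm.heckeAlgebra.T hℓ hℓN hℓS)) * Polynomial.X +
                Polynomial.C ((ℓ : T)) := by
    intro ℓ hℓ hℓN hℓS A hA σ hσ
    obtain ⟨h1, h2⟩ := hρf ℓ hℓ (by simpa using hℓS) A hA σ hσ
    rw [hcp, Matrix.charpoly_fin_two, h1, h2]
    rfl
  -- the residual representation
  have hresmat : H53.toMat R.residual.ρ (H53.resBasis R bR) = H53.mapMat (residue T) ρ := by
    rw [H53.toMat_resBasis, hRmat]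
  have hresf : FrobData S (fun ℓ h h' => residue T (frobElt hNS π ℓ h h'))
      (H53.toMat R.residual.ρ (H53.resBasis R bR)) := by
    rw [hresmat]
    intro ℓ hℓ hℓS A hA σ hσ
    obtain ⟨h1, h2⟩ := hρf ℓ hℓ hℓS A hA σ hσ
    constructor
    · show (H53.mapMat (residue T) ρ σ).trace = residue T (frobElt hNS π ℓ hℓ hℓS)
      rw [← h1, trace_fin_two, trace_fin_two, map_add]
      rfl
    · rw [← map_natCast (residue T), ← h2, RingHom.map_det]
      rfl
  have hpκ : (p : ResidueField T) = 0 := by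
    rw [← map_natCast (residue T)]
    exact (residue_eq_zero_iff _).mpr hpT
  have h2κ : (2 : ResidueField T) ≠ 0 := by
    have h3 : IsUnit (residue T 2) := (IsUnit.of_mul_eq_one _ hi2).map (residue T)
    rw [map_ofNat] at h3
    exact h3.ne_zero
  obtain ⟨heq, habs⟩ := residual_equiv_of_frobData (Fact.out : p.Prime) hpS hpκ h2κ rbar R.residual
    hirr bbar (H53.resBasis R bR) (frobData_toMat_residual rbar bbar fun ℓ hℓ hℓS A hA σ hσ =>
      hfrobbar ℓ hℓ _ _ A hA σ hσ) hresf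
  refine ⟨R, hfrob, habs, heq.map ResidualGaloisRep.Equiv.symm, ?_⟩
  intro q hq hqN hqp A hA σ hσ
  have h1 : ρ σ = 1 := by
    ext i j
    rw [← sub_eq_zero]
    apply hinj
    intro I
    obtain ⟨P, hP⟩ := hρP I
    have h2 := hP σ
    rw [(D I).unram q hq hqN hqp A hA σ hσ, mul_one, Units.mul_inv] at h2
    have h3 := congrFun (congrFun h2 i) j
    rw [map_sub, sub_eq_zero]
    have h4 : (ρ σ).map ((D I).φ : T →+* (D I).B) i j = (D I).φ (ρ σ i j) := rfl
    rw [← h4, ← h3]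
    by_cases hij : i = j
    · subst hij; simp
    · simp [one_apply_ne hij]
  show Matrix.toLinAlgEquiv' (ρ σ) = 1
  rw [h1, map_one]

end Fermat.Agent.H30
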