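/-
H30Local: the Hecke-Galois datum for the local component `CuspForm.heckeLocal` of the Hecke
algebra, from the statement of S30 and an irreducible residual representation.
-/
import Fermat.Agent.H30Datum
import Fermat.Prelude.Def_CuspForm_HeckeLocal

set_option autoImplicit false
set_option linter.style.haveILetI false
set_option linter.unusedSectionVars false

noncomputable section

namespace Fermat.Agent.H30

open IsLocalRing CuspForm
open scoped TensorProduct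

section Structure

set_option synthInstance.maxHeartbeats 400000
set_option maxHeartbeats 1000000

variable (N : ℕ) [NeZero N] (S : Set ℕ)
variable (𝒪 : Type) [CommRing 𝒪] [IsDomain 𝒪] [IsDiscreteValuationRing 𝒪]
  [IsAdicComplete (maximalIdeal 𝒪) 𝒪]
variable (θ : heckeAlgebra N 2 S →+* ResidueField 𝒪)
variable [Fact (HasIntegralStructure N 2)]

/-- The projection `𝒪 ⊗ 𝕋 → 𝕋_𝔪` -/
def locMap : (𝒪 ⊗[ℤ] ↥(heckeAlgebra N 2 S)) →+* heckeLocal N S 𝒪 θ :=
  (algebraMap (heckeBaseAlgebra N S 𝒪) (heckeLocal N S 𝒪 θ)).comp (latticeBaseChange N S 𝒪)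

theorem locMap_tmul_one (a : 𝒪) :
    locMap N S 𝒪 θ (algebraMap 𝒪 (𝒪 ⊗[ℤ] ↥(heckeAlgebra N 2 S)) a) =
      algebraMap 𝒪 (heckeLocal N S 𝒪 θ) a := by
  rw [locMap, RingHom.comp_apply, latticeBaseChange_algebraMap,
    ← IsScalarTower.algebraMap_apply]

theorem locMap_one_tmul (t : heckeAlgebra N 2 S) :
    locMap N S 𝒪 θ ((1 : 𝒪) ⊗ₜ[ℤ] t) = heckeLocal.π N S 𝒪 θ t := rfl

/-- localization of a finite algebra over a complete local ring at a maximal ideal: the map is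
surjective -/
theorem surjective_of_isLocalization {R : Type} [CommRing R] [IsLocalRing R]
    [IsNoetherianRing R] [IsAdicComplete (maximalIdeal R) R]
    (C : Type) [CommRing C] [Algebra R C] [Module.Finite R C] (P : Ideal C) [hP : P.IsMaximal]
    (D : Type) [CommRing D] [Algebra C D] [IsLocalization.AtPrime D P] :
    Function.Surjective (algebraMap C D) := by
  classical
  obtain ⟨-, hbij, -, -⟩ :=
    Algebra.finite_maximalSpectrum_and_bijective_localization_of_module_finite (𝒪 := R) C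
  let P' : MaximalSpectrum C := ⟨P, hP⟩
  have hsurj : Function.Surjective (algebraMap C (Localization.AtPrime P'.asIdeal)) := by
    intro z
    obtain ⟨b, hb⟩ := hbij.2 (Function.update 0 P' z)
    refine ⟨b, ?_⟩
    have h := congrFun hb P'
    simp only [Function.update_self] at h
    exact h
  let e : Localization.AtPrime P ≃ₐ[C] D := IsLocalization.algEquiv P.primeCompl _ _
  intro y
  obtain ⟨b, hb⟩ := hsurj (e.symm y)
  refine ⟨b, ?_⟩
  rw [← e.commutes b]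
  have hb' : algebraMap C (Localization.AtPrime P) b = e.symm y := hb
  rw [hb', AlgEquiv.apply_symm_apply]

theorem moduleFinite_base : Module.Finite 𝒪 (heckeBaseAlgebra N S 𝒪) :=
  inferInstanceAs (Module.Finite 𝒪 (𝒪 ⊗[ℤ] ↥(heckeLatticeAlgebra N S)))

theorem locMap_surjective : Function.Surjective (locMap N S 𝒪 θ) := by
  haveI := moduleFinite_base N S 𝒪
  have h1 : Function.Surjective (algebraMap (heckeBaseAlgebra N S 𝒪) (heckeLocal N S 𝒪 θ)) :=
    surjective_of_isLocalization (R := 𝒪) (heckeBaseAlgebra N S 𝒪) (heckeLocalIdeal N S 𝒪 θ)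
      (heckeLocal N S 𝒪 θ)
  intro y
  obtain ⟨b, hb⟩ := h1 y
  obtain ⟨a, ha⟩ := latticeBaseChange_surjective N S 𝒪 b
  exact ⟨a, by rw [locMap, RingHom.comp_apply, ha, hb]⟩

theorem locMap_mem (x : 𝒪 ⊗[ℤ] ↥(heckeAlgebra N 2 S)) (hx : x ∈ heckeCharKernel N S 𝒪 θ) :
    locMap N S 𝒪 θ x ∈ maximalIdeal (heckeLocal N S 𝒪 θ) := by
  rw [mem_maximalIdeal, mem_nonunits_iff, locMap, RingHom.comp_apply,
    IsLocalization.AtPrime.isUnit_to_map_iff (heckeLocal N S 𝒪 θ) (heckeLocalIdeal N S 𝒪 θ),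
    Ideal.mem_primeCompl_iff, not_not]
  exact Ideal.mem_map_of_mem _ hx

/-- the residue of the image of `x` -/
theorem residue_locMap (x : 𝒪 ⊗[ℤ] ↥(heckeAlgebra N 2 S)) :
    residue (heckeLocal N S 𝒪 θ) (locMap N S 𝒪 θ x) =
      ResidueField.map (algebraMap 𝒪 (heckeLocal N S 𝒪 θ)) (residualCharacter N S 𝒪 θ x) := by
  obtain ⟨a, ha⟩ := residue_surjective (residualCharacter N S 𝒪 θ x)
  have h1 : x - algebraMap 𝒪 (𝒪 ⊗[ℤ] ↥(heckeAlgebra N 2 S)) a ∈ heckeCharKernel N S 𝒪 θ := by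
    rw [mem_heckeCharKernel_iff, map_sub, residualCharacter_algebraMap, ha, sub_self]
  have h2 := locMap_mem N S 𝒪 θ _ h1
  rw [map_sub, locMap_tmul_one, ← residue_eq_zero_iff, map_sub, sub_eq_zero] at h2
  rw [h2, ← ha, ResidueField.map_residue]

theorem residue_π (t : heckeAlgebra N 2 S) :
    residue (heckeLocal N S 𝒪 θ) (heckeLocal.π N S 𝒪 θ t) =
      ResidueField.map (algebraMap 𝒪 (heckeLocal N S 𝒪 θ)) (θ t) := by
  rw [← locMap_one_tmul, residue_locMap, residualCharacter_tmul, map_one, one_mul]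

theorem residue_comp_surjective :
    Function.Surjective (residue (heckeLocal N S 𝒪 θ) ∘ algebraMap 𝒪 (heckeLocal N S 𝒪 θ)) := by
  intro y
  obtain ⟨z, rfl⟩ := residue_surjective y
  obtain ⟨x, rfl⟩ := locMap_surjective N S 𝒪 θ z
  obtain ⟨a, ha⟩ := residue_surjective (residualCharacter N S 𝒪 θ x)
  refine ⟨a, ?_⟩
  rw [Function.comp_apply, residue_locMap, ← ha, ResidueField.map_residue]

theorem adjoin_range_π :
    Algebra.adjoin 𝒪 (Set.range (heckeLocal.π N S 𝒪 θ)) = ⊤ := by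
  rw [eq_top_iff]
  rintro y -
  obtain ⟨x, rfl⟩ := locMap_surjective N S 𝒪 θ y
  induction x using TensorProduct.induction_on with
  | zero => rw [map_zero]; exact zero_mem _
  | tmul a t =>
    have h1 : (a ⊗ₜ[ℤ] t : 𝒪 ⊗[ℤ] ↥(heckeAlgebra N 2 S)) =
        algebraMap 𝒪 (𝒪 ⊗[ℤ] ↥(heckeAlgebra N 2 S)) a * ((1 : 𝒪) ⊗ₜ[ℤ] t) := by
      rw [Algebra.TensorProduct.algebraMap_apply, Algebra.algebraMap_self, RingHom.id_apply,
        Algebra.TensorProduct.tmul_mul_tmul, mul_one, one_mul]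
    rw [h1, map_mul, locMap_tmul_one, locMap_one_tmul]
    exact mul_mem (Subalgebra.algebraMap_mem _ _) (Algebra.subset_adjoin ⟨t, rfl⟩)
  | add x y hx hy => rw [map_add]; exact add_mem hx hy

/-- points of the Hecke algebra lifting `θ` factor through `𝕋_𝔪` -/
theorem exists_point (χ : heckeAlgebra N 2 S →+* 𝒪)
    (hχ : ∀ t : heckeAlgebra N 2 S, residue 𝒪 (χ t) = θ t) :
    ∃ ψ : heckeLocal N S 𝒪 θ →ₐ[𝒪] 𝒪, ∀ t : heckeAlgebra N 2 S,
      ψ (heckeLocal.π N S 𝒪 θ t) = χ t := by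
  let X : (𝒪 ⊗[ℤ] ↥(heckeAlgebra N 2 S)) →ₐ[ℤ] 𝒪 :=
    Algebra.TensorProduct.productMap (AlgHom.id ℤ 𝒪) χ.toIntAlgHom
  have hX : ∀ a t, X (a ⊗ₜ t) = a * χ t := fun a t => rfl
  have hXres : ∀ x, residue 𝒪 (X x) = residualCharacter N S 𝒪 θ x := by
    intro x
    induction x using TensorProduct.induction_on with
    | zero => rw [map_zero, map_zero, map_zero]
    | tmul a t => rw [hX, residualCharacter_tmul, map_mul, hχ]
    | add x y hx hy => rw [map_add, map_add, map_add, hx, hy]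
  have hinj := latticeBaseChange_injective N S 𝒪 (Fact.out : HasIntegralStructure N 2)
  let e : (𝒪 ⊗[ℤ] ↥(heckeAlgebra N 2 S)) ≃+* heckeBaseAlgebra N S 𝒪 :=
    RingEquiv.ofBijective (latticeBaseChange N S 𝒪)
      ⟨hinj, latticeBaseChange_surjective N S 𝒪⟩
  let g : heckeBaseAlgebra N S 𝒪 →+* 𝒪 := (X : _ →+* 𝒪).comp e.symm.toRingHom
  have hg : ∀ x, g (latticeBaseChange N S 𝒪 x) = X x := by
    intro x
    show X (e.symm (e x)) = X x
    rw [RingEquiv.symm_apply_apply]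
  have hunit : ∀ y : heckeLocalSubmonoid N S 𝒪 θ, IsUnit (g y) := by
    rintro ⟨_, x, hx, rfl⟩
    rw [hg]
    have h1 : residue 𝒪 (X x) ≠ 0 := by
      rw [hXres]
      intro h0
      exact Ideal.mem_primeCompl_iff.mp hx ((mem_heckeCharKernel_iff N S 𝒪 θ x).mpr h0)
    by_contra hcon
    exact h1 ((residue_eq_zero_iff _).mpr ((mem_maximalIdeal _).mpr hcon))
  let ψ₀ : heckeLocal N S 𝒪 θ →+* 𝒪 :=
    IsLocalization.lift (M := heckeLocalSubmonoid N S 𝒪 θ) hunit
  have hψ₀ : ∀ x, ψ₀ (locMap N S 𝒪 θ x) = X x := by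
    intro x
    rw [locMap, RingHom.comp_apply]
    exact (IsLocalization.lift_eq hunit _).trans (hg x)
  refine ⟨{ ψ₀ with commutes' := fun a => ?_ }, fun t => ?_⟩
  · show ψ₀ (algebraMap 𝒪 (heckeLocal N S 𝒪 θ) a) = a
    rw [← locMap_tmul_one, hψ₀, Algebra.TensorProduct.algebraMap_apply, Algebra.algebraMap_self,
      RingHom.id_apply, hX, map_one, mul_one]
  · show ψ₀ (heckeLocal.π N S 𝒪 θ t) = χ t
    rw [← locMap_one_tmul, hψ₀, hX, one_mul]

end Structure

/-- **The Hecke-Galois datum over `heckeLocal`**, from the statement of S30. -/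
theorem exists_datum (h30 : H96.StatementS30) {p : ℕ} [Fact p.Prime] (hp2 : p ≠ 2)
    (N : ℕ) [NeZero N] [Fact (HasIntegralStructure N 2)] (S : Finset ℕ) (hpS : p ∈ S)
    (hNS : ∀ q : ℕ, q.Prime → q ∣ N → q ∈ S)
    (𝒪 : Type) [CommRing 𝒪] [IsDomain 𝒪] [IsDiscreteValuationRing 𝒪]
    [IsAdicComplete (maximalIdeal 𝒪) 𝒪] [Finite (ResidueField 𝒪)] [CharZero 𝒪]
    (hp𝒪 : (p : 𝒪) ∈ maximalIdeal 𝒪)
    (θ : heckeAlgebra N 2 (↑S : Set ℕ) →+* ResidueField 𝒪)
    (ρbar : ResidualGaloisRep (ResidueField 𝒪)) (hirr : ρbar.IsIrreducible)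
    (hfrob : ∀ (ℓ : ℕ) (hℓ : ℓ.Prime) (hℓN : ¬ ℓ ∣ N) (hℓS : ℓ ∉ (↑S : Set ℕ)),
      ∀ A : ValuationSubring (AlgebraicClosure ℚ), A.LiesOverPrime ℓ →
        ∀ σ : AlgebraicClosure ℚ ≃ₐ[ℚ] AlgebraicClosure ℚ, A.IsFrobeniusAt σ ℓ →
          LinearMap.charpoly (ρbar.ρ σ) = Polynomial.X ^ 2 -
            Polynomial.C (θ (heckeAlgebra.T hℓ hℓN hℓS)) * Polynomial.X +
              Polynomial.C ((ℓ : ResidueField 𝒪))) :
    ∃ H : HeckeGaloisRepDatum N (↑S : Set ℕ) 𝒪 θ (heckeLocal N (↑S : Set ℕ) 𝒪 θ),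
      H.π = heckeLocal.π N (↑S : Set ℕ) 𝒪 θ ∧
      H.ρ.residual.IsEquiv (ρbar.baseChangeAlong
        (ResidueField.map (algebraMap 𝒪 (heckeLocal N (↑S : Set ℕ) 𝒪 θ)))) ∧
      (∀ q : ℕ, q.Prime → ¬ q ∣ N → q ≠ p → H.ρ.IsUnramifiedAt q) := by
  set T := heckeLocal N (↑S : Set ℕ) 𝒪 θ with hT
  set ι : ResidueField 𝒪 →+* ResidueField T := ResidueField.map (algebraMap 𝒪 T) with hι
  -- characteristic
  have hpk : (p : ResidueField 𝒪) = 0 := by
    rw [← map_natCast (residue 𝒪)]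
    exact (residue_eq_zero_iff _).mpr hp𝒪
  have h2k : (2 : ResidueField 𝒪) ≠ 0 := by
    intro h2
    have hcop : Nat.Coprime 2 p := (Nat.coprime_primes Nat.prime_two Fact.out).mpr (Ne.symm hp2)
    obtain ⟨u, v, huv⟩ : ∃ u v : ℤ, u * (2 : ℤ) + v * (p : ℤ) = 1 :=
      Int.isCoprime_iff_gcd_eq_one.mpr (show Int.gcd (2 : ℤ) (p : ℤ) = 1 from hcop)
    have h5 := congrArg (Int.cast : ℤ → ResidueField 𝒪) huv
    push_cast at h5
    rw [h2, hpk, mul_zero, mul_zero, add_zero] at h5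
    exact zero_ne_one h5
  -- the determinant of complex conjugation
  let b := Module.finBasisOfFinrankEq (ResidueField 𝒪) ρbar.V ρbar.finrank_eq
  have hf := frobData_toMat_residual (S := S)
    (a := fun ℓ hℓ hℓS => θ (heckeAlgebra.T hℓ (fun h => hℓS (hNS ℓ hℓ h)) (by simpa using hℓS)))
    ρbar b (fun ℓ hℓ hℓS A hA σ hσ => hfrob ℓ hℓ _ _ A hA σ hσ)
  haveI : IsHausdorff (maximalIdeal (ResidueField 𝒪)) (ResidueField 𝒪) := isHausdorff_field
  have hdet : LinearMap.det (ρbar.ρ complexConjugation) = -1 := by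
    have h := det_involution (Fact.out : p.Prime) hpS (by rw [hpk]; exact zero_mem _)
      (mcont_residual ρbar b) hf complexConjugation_mul_self H87.Res.complexConjugation_ne_one
    rwa [H53.toMat_apply, LinearMap.det_toMatrix] at h
  have hirr' : (ρbar.baseChangeAlong ι).IsIrreducible := by
    letI : Algebra (ResidueField 𝒪) (ResidueField T) := ι.toAlgebra
    exact H87.AbsIrr.isIrreducible_baseChange_of_involution (k' := ResidueField T) h2k ρbar hirr
      complexConjugation complexConjugation_mul_self hdet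
  have hfrob' : ∀ (ℓ : ℕ) (hℓ : ℓ.Prime) (hℓN : ¬ ℓ ∣ N) (hℓS : ℓ ∉ (↑S : Set ℕ)),
      ∀ A : ValuationSubring (AlgebraicClosure ℚ), A.LiesOverPrime ℓ →
        ∀ σ : AlgebraicClosure ℚ ≃ₐ[ℚ] AlgebraicClosure ℚ, A.IsFrobeniusAt σ ℓ →
          LinearMap.charpoly ((ρbar.baseChangeAlong ι).ρ σ) = Polynomial.X ^ 2 -
            Polynomial.C (residue T (heckeLocal.π N (↑S : Set ℕ) 𝒪 θ
              (heckeAlgebra.T hℓ hℓN hℓS))) * Polynomial.X +
              Polynomial.C ((ℓ : ResidueField T)) := by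
    intro ℓ hℓ hℓN hℓS A hA σ hσ
    have h1 := hfrob ℓ hℓ hℓN hℓS A hA σ hσ
    letI : Algebra (ResidueField 𝒪) (ResidueField T) := ι.toAlgebra
    have h2 : LinearMap.charpoly ((ρbar.baseChangeAlong ι).ρ σ) =
        (LinearMap.charpoly (ρbar.ρ σ)).map ι :=
      LinearMap.charpoly_baseChange (A := ResidueField T) (ρbar.ρ σ)
    rw [h2, h1, residue_π]
    simp only [Polynomial.map_add, Polynomial.map_sub, Polynomial.map_mul, Polynomial.map_pow,
      Polynomial.map_X, Polynomial.map_C, map_natCast, Polynomial.map_natCast]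
    rfl
  obtain ⟨ρ, hρ, habs, heq, hunr⟩ := exists_heckeGaloisRep h30 hp2 hpS hNS 𝒪 hp𝒪
    (T := T) (heckeLocal.π N (↑S : Set ℕ) 𝒪 θ) (adjoin_range_π N (↑S : Set ℕ) 𝒪 θ)
    (ρbar.baseChangeAlong ι) hirr' hfrob'
  exact ⟨{ π := heckeLocal.π N (↑S : Set ℕ) 𝒪 θ
           residue_π := residue_π N (↑S : Set ℕ) 𝒪 θ
           adjoin_range_π := adjoin_range_π N (↑S : Set ℕ) 𝒪 θ
           exists_point := exists_point N (↑S : Set ℕ) 𝒪 θ
           residue_surjective := residue_comp_surjective N (↑S : Set ℕ) 𝒪 θ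
           ρ := ρ
           charpoly_frob := hρ
           residual_absIrr := habs }, rfl, heq, hunr⟩

end Fermat.Agent.H30
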