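import Fermat.Agent.H32FlatOrder

/-!
# Stability of flat orders under subobjects, quotients and products
-/

set_option autoImplicit false

noncomputable section

namespace Fermat.Agent.H32

open GaloisRep

section Defs

variable {M : Type*} [AddCommGroup M] {R : Type*} [CommRing R] [Algebra R Qbar]

/-- The span of the functions `(x, y) ↦ a x * b y`, `a, b ∈ H`. -/
def tensorSpan (H : Subalgebra R (M → Qbar)) : Submodule R (M × M → Qbar) :=
  Submodule.span R {F | ∃ a ∈ H, ∃ b ∈ H, F = fun x => a x.1 * b x.2}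

/-- `(x, y) ↦ h (x + y)` -/
def comulFun (h : M → Qbar) : M × M → Qbar := fun x => h (x.1 + x.2)

omit [AddCommGroup M] in
theorem mul_mem_tensorSpan (H : Subalgebra R (M → Qbar)) {F G : M × M → Qbar}
    (hF : F ∈ tensorSpan H) (hG : G ∈ tensorSpan H) : F * G ∈ tensorSpan H := by
  unfold tensorSpan at hF hG ⊢
  induction hF using Submodule.span_induction with
  | mem F hF =>
    induction hG using Submodule.span_induction with
    | mem G hG =>
      obtain ⟨a, ha, b, hb, rfl⟩ := hF
      obtain ⟨c, hc, d, hd, rfl⟩ := hG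
      refine Submodule.subset_span ⟨a * c, H.mul_mem ha hc, b * d, H.mul_mem hb hd, ?_⟩
      ext x
      simp only [Pi.mul_apply]
      ring
    | zero => rw [mul_zero]; exact Submodule.zero_mem _
    | add y z _ _ hy hz => rw [mul_add]; exact Submodule.add_mem _ hy hz
    | smul a y _ hy => rw [mul_smul_comm]; exact Submodule.smul_mem _ _ hy
  | zero => rw [zero_mul]; exact Submodule.zero_mem _
  | add x z _ _ hx hz => rw [add_mul]; exact Submodule.add_mem _ hx hz
  | smul a x _ hx => rw [smul_mul_assoc]; exact Submodule.smul_mem _ _ hx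

/-- The functions whose comultiplication lies in `tensorSpan H`, as a subalgebra. -/
def comulSubalgebra (H : Subalgebra R (M → Qbar)) : Subalgebra R (M → Qbar) where
  carrier := {h | comulFun h ∈ tensorSpan H}
  mul_mem' {a b} ha hb := mul_mem_tensorSpan H ha hb
  add_mem' {a b} ha hb := (tensorSpan H).add_mem ha hb
  algebraMap_mem' r := by
    show comulFun (algebraMap R (M → Qbar) r) ∈ tensorSpan H
    refine Submodule.subset_span ⟨algebraMap R (M → Qbar) r, H.algebraMap_mem r, 1, H.one_mem, ?_⟩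
    ext x
    simp [comulFun]

theorem mem_comulSubalgebra (H : Subalgebra R (M → Qbar)) (h : M → Qbar) :
    h ∈ comulSubalgebra H ↔ comulFun h ∈ tensorSpan H := by
  constructor
  · intro h1; exact h1
  · intro h1; exact h1

omit [AddCommGroup M] in
theorem tensorSpan_mono {H H' : Subalgebra R (M → Qbar)} (hle : H ≤ H') :
    tensorSpan H ≤ tensorSpan H' := by
  apply Submodule.span_mono
  rintro _ ⟨a, ha, b, hb, rfl⟩
  exact ⟨a, hle ha, b, hle hb, rfl⟩

/-- pullback of functions -/
def pull (R : Type*) [CommRing R] [Algebra R Qbar] {M N : Type*} (i : N → M) :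
    (M → Qbar) →ₐ[R] (N → Qbar) where
  toFun f := f ∘ i
  map_one' := rfl
  map_mul' _ _ := rfl
  map_zero' := rfl
  map_add' _ _ := rfl
  commutes' _ := rfl

@[simp] theorem pull_apply {M N : Type*} (i : N → M) (f : M → Qbar) (n : N) :
    pull R i f n = f (i n) := rfl

theorem pull_mem_tensorSpan {N : Type*} [AddCommGroup N] (H : Subalgebra R (M → Qbar))
    (H' : Subalgebra R (N → Qbar)) (i : N →+ M) (hle : ∀ h ∈ H, pull R i h ∈ H')
    {h : M → Qbar} (hh : comulFun h ∈ tensorSpan H) :
    comulFun (pull R i h) ∈ tensorSpan H' := by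
  have key : ∀ F ∈ tensorSpan H, (fun x : N × N => F (i x.1, i x.2)) ∈ tensorSpan H' := by
    intro F hF
    unfold tensorSpan at hF ⊢
    induction hF using Submodule.span_induction with
    | mem F hF =>
      obtain ⟨a, ha, b, hb, rfl⟩ := hF
      exact Submodule.subset_span ⟨pull R i a, hle a ha, pull R i b, hle b hb, rfl⟩
    | zero => exact Submodule.zero_mem _
    | add x y _ _ hx hy => exact Submodule.add_mem _ hx hy
    | smul a x _ hx => exact Submodule.smul_mem _ a hx
  have h1 := key _ hh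
  convert h1 using 1
  ext x
  simp only [comulFun, pull_apply, map_add]

end Defs

/-- A flat order for the Galois module `M` at `ℓ`. -/
structure IsFlatOrder (ℓ : ℕ) {M : Type*} [AddCommGroup M] (act : GQ → M → M)
    (H : Subalgebra (ratLocalizedAt ℓ) (M → Qbar)) : Prop where
  finite : Module.Finite (ratLocalizedAt ℓ) H
  equivariant : ∀ h ∈ H, ∀ σ m, h (act σ m) = σ (h m)
  separates : ∀ m m', (∀ h ∈ H, h m = h m') → m = m'
  comul : ∀ h ∈ H, comulFun h ∈ tensorSpan H

/-- Existence of a flat order. -/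
def HasFlatOrder (ℓ : ℕ) (M : Type*) [AddCommGroup M] (act : GQ → M → M) : Prop :=
  Finite M ∧ ∃ H : Subalgebra (ratLocalizedAt ℓ) (M → Qbar), IsFlatOrder ℓ act H

section Basic

variable {ℓ : ℕ} {M : Type*} [AddCommGroup M] {act : GQ → M → M}
  {H : Subalgebra (ratLocalizedAt ℓ) (M → Qbar)}

theorem IsFlatOrder.act_act (h : IsFlatOrder ℓ act H) (σ τ : GQ) (m : M) :
    act σ (act τ m) = act (σ * τ) m := by
  apply h.separates
  intro f hf
  rw [h.equivariant f hf, h.equivariant f hf, h.equivariant f hf]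
  rfl

theorem IsFlatOrder.act_one (h : IsFlatOrder ℓ act H) (m : M) : act 1 m = m := by
  apply h.separates
  intro f hf
  rw [h.equivariant f hf]
  rfl

theorem IsFlatOrder.surj (h : IsFlatOrder ℓ act H) (σ : GQ) (m : M) : ∃ m', act σ m' = m :=
  ⟨act σ⁻¹ m, by rw [h.act_act, mul_inv_cancel, h.act_one]⟩

theorem linearIndependent_rat_of_ratLocalizedAt {ι V : Type*} [AddCommGroup V] [Module ℚ V]
    (f : ι → V)
    (hli : ∀ (s : Finset ι) (g : ι → ratLocalizedAt ℓ), ∑ i ∈ s, (g i : ℚ) • f i = 0 →
      ∀ i ∈ s, g i = 0) : LinearIndependent ℚ f := by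
  classical
  rw [linearIndependent_iff']
  intro s g hg i hi
  choose n hn0 hn using fun i => exists_nat_mul_mem_ratLocalizedAt (g i) ℓ
  -- common denominator
  set D : ℕ := ∏ i ∈ s, n i with hD
  have hD0 : D ≠ 0 := Finset.prod_ne_zero_iff.mpr fun i _ => hn0 i
  have hmem : ∀ i ∈ s, (D : ℚ) * g i ∈ ratLocalizedAt ℓ := by
    intro i hi
    rw [hD, ← Finset.mul_prod_erase s n hi]
    push_cast
    rw [mul_comm (n i : ℚ), mul_assoc]
    refine (ratLocalizedAt ℓ).mul_mem ?_ (hn i)
    rw [← Nat.cast_prod]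
    exact natCast_mem (ratLocalizedAt ℓ) _
  let g' : ι → ratLocalizedAt ℓ := fun i => if hi : i ∈ s then ⟨(D : ℚ) * g i, hmem i hi⟩ else 0
  have h0 : ∑ i ∈ s, (g' i : ℚ) • f i = 0 := by
    have : ∑ i ∈ s, (g' i : ℚ) • f i = (D : ℚ) • ∑ i ∈ s, g i • f i := by
      rw [Finset.smul_sum]
      refine Finset.sum_congr rfl fun i hi => ?_
      simp only [g', dif_pos hi]
      rw [mul_smul]
    rw [this, hg, smul_zero]
  have h1 := hli s g' h0 i hi
  simp only [g', dif_pos hi] at h1
  have h2 := congrArg Subtype.val h1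
  simp only [ZeroMemClass.coe_zero, mul_eq_zero, Nat.cast_eq_zero] at h2
  exact h2.resolve_left hD0

theorem smul_eq_smul_rat {M : Type*} (r : ratLocalizedAt ℓ) (f : M → Qbar) :
    r • f = (r : ℚ) • f := by
  ext m
  rfl

theorem isTorsionFree_subalgebra {M : Type*} (H : Subalgebra (ratLocalizedAt ℓ) (M → Qbar)) :
    Module.IsTorsionFree (ratLocalizedAt ℓ) H where
  isSMulRegular r hr x y hxy := by
    have hr0 : (r : ℚ) ≠ 0 := by
      intro h0
      have : r = 0 := Subtype.ext h0
      exact hr.ne_zero this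
    apply Subtype.ext
    have h1 : (r : ℚ) • (x : M → Qbar) = (r : ℚ) • (y : M → Qbar) := by
      rw [← smul_eq_smul_rat, ← smul_eq_smul_rat]
      exact congrArg Subtype.val hxy
    exact smul_right_injective _ hr0 h1

end Basic

section Sub

variable {ℓ : ℕ} {M N : Type*} [AddCommGroup M] [AddCommGroup N] {actM : GQ → M → M}
  {actN : GQ → N → N} {H : Subalgebra (ratLocalizedAt ℓ) (M → Qbar)}

/-- Flat orders restrict to subobjects. -/
theorem IsFlatOrder.sub (h : IsFlatOrder ℓ actM H) (i : N →+ M) (hi : Function.Injective i)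
    (hact : ∀ σ n, i (actN σ n) = actM σ (i n)) :
    IsFlatOrder ℓ actN (H.map (pull (ratLocalizedAt ℓ) i)) where
  finite := by
    have := h.finite
    exact Module.Finite.of_surjective
      ((pull (ratLocalizedAt ℓ) i).toLinearMap.restrict (p := Subalgebra.toSubmodule H)
        (q := Subalgebra.toSubmodule (H.map (pull (ratLocalizedAt ℓ) i)))
        (fun x hx => ⟨x, hx, rfl⟩))
      (by
        rintro ⟨_, ⟨x, hx, rfl⟩⟩
        exact ⟨⟨x, hx⟩, rfl⟩)
  equivariant := by
    rintro _ ⟨f, hf, rfl⟩ σ n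
    show f (i (actN σ n)) = σ (f (i n))
    rw [hact]
    exact h.equivariant f hf σ (i n)
  separates := by
    intro n n' hn
    apply hi
    apply h.separates
    intro f hf
    exact hn (pull (ratLocalizedAt ℓ) i f) ⟨f, hf, rfl⟩
  comul := by
    rintro _ ⟨f, hf, rfl⟩
    exact pull_mem_tensorSpan H (H.map (pull (ratLocalizedAt ℓ) i)) i
      (fun g hg => ⟨g, hg, rfl⟩) (h.comul f hf)

theorem HasFlatOrder.sub (h : HasFlatOrder ℓ M actM) (i : N →+ M) (hi : Function.Injective i)
    (hact : ∀ σ n, i (actN σ n) = actM σ (i n)) : HasFlatOrder ℓ N actN := by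
  obtain ⟨hfin, H, hH⟩ := h
  exact ⟨Finite.of_injective i hi, _, hH.sub i hi hact⟩

end Sub

section Quotient

variable {ℓ : ℕ}

theorem exists_basis {M : Type*} {act : GQ → M → M} (H : Subalgebra (ratLocalizedAt ℓ) (M → Qbar))
    (hfin : Module.Finite (ratLocalizedAt ℓ) H)
    (hsurj : ∀ σ m, ∃ m', act σ m' = m)
    (heq : ∀ h ∈ H, ∀ σ m, h (act σ m) = σ (h m)) :
    ∃ (n : ℕ) (e : Fin n → (M → Qbar)), (∀ i, e i ∈ H) ∧ LinearIndependent Qbar e ∧
      (∀ h ∈ H, ∃ r : Fin n → ratLocalizedAt ℓ, h = ∑ i, r i • e i) := by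
  have := isTorsionFree_subalgebra H
  let b := Module.finBasis (ratLocalizedAt ℓ) H
  refine ⟨_, fun i => (b i : M → Qbar), fun i => (b i).2, ?_, ?_⟩
  · apply linearIndependent_of_equivariant act _ hsurj (fun i σ m => heq _ (b i).2 σ m)
    apply linearIndependent_rat_of_ratLocalizedAt (ℓ := ℓ)
    intro s g hg i hi
    have h1 : ∑ i ∈ s, g i • b i = 0 := by
      apply Subtype.ext
      rw [← Subalgebra.coe_val, map_sum, map_zero, ← hg]
      exact Finset.sum_congr rfl fun i _ => smul_eq_smul_rat (g i) _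
    exact (linearIndependent_iff'.mp b.linearIndependent) s g h1 i hi
  · intro h hh
    refine ⟨fun i => b.repr ⟨h, hh⟩ i, ?_⟩
    have := congrArg (H.val) (b.sum_repr ⟨h, hh⟩)
    rw [map_sum] at this
    exact this.symm

theorem exists_coeff_of_mem_tensorSpan {M : Type*} {R : Type*} [CommRing R] [Algebra R Qbar]
    (H : Subalgebra R (M → Qbar)) {n : ℕ} (e : Fin n → (M → Qbar))
    (he : ∀ h ∈ H, ∃ r : Fin n → R, h = ∑ i, r i • e i) {F : M × M → Qbar}
    (hF : F ∈ tensorSpan H) :
    ∃ a : Fin n → (M → Qbar), (∀ i, a i ∈ H) ∧ ∀ x y, F (x, y) = ∑ i, a i x * e i y := by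
  unfold tensorSpan at hF
  induction hF using Submodule.span_induction with
  | mem F hF =>
    obtain ⟨a, ha, b, hb, rfl⟩ := hF
    obtain ⟨r, rfl⟩ := he b hb
    refine ⟨fun i => r i • a, fun i => H.smul_mem ha _, fun x y => ?_⟩
    simp only [Finset.sum_apply, Pi.smul_apply, Finset.mul_sum]
    refine Finset.sum_congr rfl fun i _ => ?_
    rw [mul_smul_comm, smul_mul_assoc]
  | zero => exact ⟨0, fun i => H.zero_mem, fun x y => by simp⟩
  | add F G _ _ hF hG =>
    obtain ⟨a, ha, ha'⟩ := hF
    obtain ⟨b, hb, hb'⟩ := hG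
    refine ⟨a + b, fun i => H.add_mem (ha i) (hb i), fun x y => ?_⟩
    rw [Pi.add_apply, ha', hb', ← Finset.sum_add_distrib]
    refine Finset.sum_congr rfl fun i _ => ?_
    rw [Pi.add_apply, Pi.add_apply, add_mul]
  | smul r F _ hF =>
    obtain ⟨a, ha, ha'⟩ := hF
    refine ⟨r • a, fun i => H.smul_mem (ha i) _, fun x y => ?_⟩
    rw [Pi.smul_apply, ha', Finset.smul_sum]
    refine Finset.sum_congr rfl fun i _ => ?_
    rw [Pi.smul_apply, Pi.smul_apply, smul_mul_assoc]

/-- Uniqueness of coefficients. -/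
theorem coeff_eq_of_linearIndependent {M : Type*} {n : ℕ} {e : Fin n → (M → Qbar)}
    (he : LinearIndependent Qbar e) {c d : Fin n → Qbar}
    (h : ∀ y, ∑ i, c i * e i y = ∑ i, d i * e i y) : c = d := by
  have h1 : ∑ i, (c i - d i) • e i = 0 := by
    ext y
    simp only [Finset.sum_apply, Pi.smul_apply, smul_eq_mul, sub_mul, Finset.sum_sub_distrib,
      Pi.zero_apply]
    rw [h y, sub_self]
  funext i
  exact sub_eq_zero.mp ((Fintype.linearIndependent_iff.mp he) _ h1 i)

variable {M N : Type*} [AddCommGroup M] [AddCommGroup N] {actM : GQ → M → M}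
  {actN : GQ → N → N} {H : Subalgebra (ratLocalizedAt ℓ) (M → Qbar)}

/-- equivariant functions on `M` are, up to a non-zero integer, in `H`. -/
theorem IsFlatOrder.exists_nsmul_mem [Finite M] (h : IsFlatOrder ℓ actM H) (F : M → Qbar)
    (hF : ∀ σ m, F (actM σ m) = σ (F m)) : ∃ D : ℕ, D ≠ 0 ∧ D • F ∈ H := by
  obtain ⟨n, e, heH, heli, hegen⟩ := exists_basis H h.finite h.surj h.equivariant
  have hspan := span_eq_top_of_separates H h.separates
  have hFspan : F ∈ Submodule.span Qbar (Set.range e) := by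
    have h1 : F ∈ Submodule.span Qbar (H : Set (M → Qbar)) := by rw [hspan]; trivial
    refine (Submodule.span_le.mpr ?_) h1
    intro f hf
    obtain ⟨r, rfl⟩ := hegen f hf
    refine Submodule.sum_mem _ fun i _ => ?_
    have : r i • e i = (algebraMap (ratLocalizedAt ℓ) Qbar (r i)) • e i := by
      rw [algebraMap_smul]
    rw [this]
    exact Submodule.smul_mem _ _ (Submodule.subset_span ⟨i, rfl⟩)
  obtain ⟨c, hc⟩ := (Submodule.mem_span_range_iff_exists_fun Qbar).mp hFspan
  have hcrat := coeff_fixed_of_equivariant actM e h.surj (fun i σ m => h.equivariant _ (heH i) σ m)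
    heli c (by rw [hc]; exact hF)
  choose q hq using hcrat
  choose k hk0 hk using fun i => exists_nat_mul_mem_ratLocalizedAt (q i) ℓ
  refine ⟨∏ i, k i, Finset.prod_ne_zero_iff.mpr fun i _ => hk0 i, ?_⟩
  rw [← hc, Finset.smul_sum]
  refine Subalgebra.sum_mem _ fun i _ => ?_
  have hmem : (((∏ i, k i : ℕ) : ℚ) * q i) ∈ ratLocalizedAt ℓ := by
    rw [← Finset.mul_prod_erase Finset.univ k (Finset.mem_univ i)]
    push_cast
    rw [mul_comm (k i : ℚ), mul_assoc]
    refine (ratLocalizedAt ℓ).mul_mem ?_ (hk i)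
    rw [← Nat.cast_prod]
    exact natCast_mem (ratLocalizedAt ℓ) _
  have : (∏ i, k i) • c i • e i = (⟨_, hmem⟩ : ratLocalizedAt ℓ) • e i := by
    rw [smul_eq_smul_rat, ← hq i]
    rw [← Nat.cast_smul_eq_nsmul ℚ, algebraMap_smul, smul_smul]
  rw [this]
  exact H.smul_mem (heH i) _

/-- Flat orders descend to quotients. -/
theorem IsFlatOrder.quotient [Finite M] (h : IsFlatOrder ℓ actM H) (π : M →+ N)
    (hπ : Function.Surjective π) (hact : ∀ σ m, π (actM σ m) = actN σ (π m)) :
    IsFlatOrder ℓ actN (H.comap (pull (ratLocalizedAt ℓ) π)) := by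
  classical
  have hNfin : Finite N := Finite.of_surjective π hπ
  have hpinj : Function.Injective (pull (ratLocalizedAt ℓ) π) := by
    intro f g hfg
    ext n
    obtain ⟨m, rfl⟩ := hπ n
    exact congrFun hfg m
  have hfinite : Module.Finite (ratLocalizedAt ℓ) (H.comap (pull (ratLocalizedAt ℓ) π)) := by
    have := h.finite
    exact Module.Finite.of_injective
      ((pull (ratLocalizedAt ℓ) π).toLinearMap.restrict
        (p := Subalgebra.toSubmodule (H.comap (pull (ratLocalizedAt ℓ) π)))
        (q := Subalgebra.toSubmodule H) (fun x hx => hx))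
      (by
        intro x y hxy
        apply Subtype.ext
        apply hpinj
        exact congrArg Subtype.val hxy)
  have hequiv : ∀ f ∈ H.comap (pull (ratLocalizedAt ℓ) π), ∀ σ n, f (actN σ n) = σ (f n) := by
    intro f hf σ n
    obtain ⟨m, rfl⟩ := hπ n
    rw [← hact]
    exact h.equivariant _ hf σ m
  have hsurjN : ∀ σ n, ∃ n', actN σ n' = n := by
    intro σ n
    obtain ⟨m, rfl⟩ := hπ n
    obtain ⟨m', rfl⟩ := h.surj σ m
    exact ⟨π m', (hact σ m').symm⟩
  refine ⟨hfinite, hequiv, ?_, ?_⟩
  · -- separation, by averaging over the fibres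
    intro n₁ n₂ hn
    obtain ⟨m₁, rfl⟩ := hπ n₁
    obtain ⟨m₂, rfl⟩ := hπ n₂
    have := Fintype.ofFinite M
    have := Fintype.ofFinite N
    -- the fibre sum
    let Tr : (M → Qbar) →ₗ[Qbar] (N → Qbar) :=
      { toFun := fun f n => ∑ m with π m = n, f m
        map_add' := fun f g => by ext n; simp [Finset.sum_add_distrib]
        map_smul' := fun c f => by ext n; simp [Finset.mul_sum] }
    have hTr : ∀ f ∈ H, Tr f (π m₁) = Tr f (π m₂) := by
      intro f hf
      have heqv : ∀ σ m, (fun m => Tr f (π m)) (actM σ m) = σ ((fun m => Tr f (π m)) m) := by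
        intro σ m
        show (∑ x with π x = π (actM σ m), f x) = σ (∑ x with π x = π m, f x)
        rw [map_sum]
        symm
        refine Finset.sum_bij' (fun x _ => actM σ x) (fun x _ => actM σ⁻¹ x) ?_ ?_ ?_ ?_ ?_
        · intro x hx
          rw [Finset.mem_filter] at hx ⊢
          exact ⟨Finset.mem_univ _, by rw [hact, hact, hx.2]⟩
        · intro x hx
          rw [Finset.mem_filter] at hx ⊢
          refine ⟨Finset.mem_univ _, ?_⟩
          rw [hact, hx.2, ← hact, h.act_act, inv_mul_cancel, h.act_one]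
        · intro x _
          show actM σ⁻¹ (actM σ x) = x
          rw [h.act_act, inv_mul_cancel, h.act_one]
        · intro x _
          show actM σ (actM σ⁻¹ x) = x
          rw [h.act_act, mul_inv_cancel, h.act_one]
        · intro x _
          exact (h.equivariant f hf σ x).symm
      obtain ⟨D, hD, hDmem⟩ := h.exists_nsmul_mem (fun m => Tr f (π m)) heqv
      have h1 : (D • Tr f) ∈ H.comap (pull (ratLocalizedAt ℓ) π) := hDmem
      have h2 := hn _ h1
      simp only [Pi.smul_apply, nsmul_eq_mul] at h2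
      exact mul_left_cancel₀ (Nat.cast_ne_zero.mpr hD) h2
    have hTr' : ∀ f : M → Qbar, Tr f (π m₁) = Tr f (π m₂) := by
      intro f
      have hf : f ∈ Submodule.span Qbar (H : Set (M → Qbar)) := by
        rw [span_eq_top_of_separates H h.separates]; trivial
      induction hf using Submodule.span_induction with
      | mem f hf => exact hTr f hf
      | zero => rw [map_zero]; rfl
      | add f g _ _ hf hg => rw [map_add, Pi.add_apply, Pi.add_apply, hf, hg]
      | smul c f _ hf => rw [map_smul, Pi.smul_apply, Pi.smul_apply, hf]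
    by_contra hne
    have h1 := hTr' (Pi.single m₁ 1)
    have e1 : Tr (Pi.single m₁ 1) (π m₁) = 1 := by
      show (∑ x with π x = π m₁, (Pi.single m₁ (1 : Qbar) : M → Qbar) x) = 1
      rw [Finset.sum_eq_single m₁]
      · simp
      · intro x _ hx; exact Pi.single_eq_of_ne hx 1
      · intro hx; simp at hx
    have e2 : Tr (Pi.single m₁ 1) (π m₂) = 0 := by
      show (∑ x with π x = π m₂, (Pi.single m₁ (1 : Qbar) : M → Qbar) x) = 0
      apply Finset.sum_eq_zero
      intro x hx
      rw [Finset.mem_filter] at hx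
      refine Pi.single_eq_of_ne ?_ 1
      rintro rfl
      exact hne hx.2
    rw [e1, e2] at h1
    exact one_ne_zero h1
  · -- comultiplication
    intro f hf
    obtain ⟨n, e, heH, heli, hegen⟩ := exists_basis H h.finite h.surj h.equivariant
    obtain ⟨n', e', heH', heli', hegen'⟩ := exists_basis _ hfinite hsurjN hequiv
    obtain ⟨a, haH, ha⟩ := exists_coeff_of_mem_tensorSpan H e hegen (h.comul _ hf)
    have hF : ∀ x y, f (π (x + y)) = ∑ i, a i x * e i y := ha
    -- the coefficients `a i` are invariant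
    have hainv : ∀ x x', π x = π x' → ∀ i, a i x = a i x' := by
      intro x x' hxx' i
      refine congrFun (coeff_eq_of_linearIndependent heli
        (c := fun i => a i x) (d := fun i => a i x') fun y => ?_) i
      rw [← hF, ← hF, map_add, map_add, hxx']
    -- hence come from `N`
    let s : N → M := Function.surjInv hπ
    have hs : ∀ n, π (s n) = n := Function.surjInv_eq hπ
    let a' : Fin n → (N → Qbar) := fun i y => a i (s y)
    have ha' : ∀ i, pull (ratLocalizedAt ℓ) π (a' i) = a i := by
      intro i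
      ext m
      exact hainv _ _ (hs (π m)) i
    have ha'H : ∀ i, a' i ∈ H.comap (pull (ratLocalizedAt ℓ) π) := by
      intro i
      show pull (ratLocalizedAt ℓ) π (a' i) ∈ H
      rw [ha']; exact haH i
    choose r hr using fun i => hegen' (a' i) (ha'H i)
    let g : Fin n' → (M → Qbar) := fun j => ∑ i, r i j • e i
    have hgH : ∀ j, g j ∈ H := fun j => Subalgebra.sum_mem _ fun i _ => H.smul_mem (heH i) _
    have hF' : ∀ x y, f (π (x + y)) = ∑ j, g j y * e' j (π x) := by
      intro x y
      rw [hF]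
      have : ∀ i, a i x = ∑ j, r i j • e' j (π x) := by
        intro i
        rw [← ha' i, pull_apply, hr i]
        simp only [Finset.sum_apply, Pi.smul_apply]
      simp only [this, g, Finset.sum_apply, Pi.smul_apply, Finset.sum_mul]
      rw [Finset.sum_comm]
      refine Finset.sum_congr rfl fun j _ => Finset.sum_congr rfl fun i _ => ?_
      rw [smul_mul_assoc, smul_mul_assoc, mul_comm]
    have hginv : ∀ y y', π y = π y' → ∀ j, g j y = g j y' := by
      intro y y' hyy' j
      refine congrFun (coeff_eq_of_linearIndependent heli'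
        (c := fun j => g j y) (d := fun j => g j y') fun z => ?_) j
      obtain ⟨x, rfl⟩ := hπ z
      rw [← hF', ← hF', map_add, map_add, hyy']
    let g' : Fin n' → (N → Qbar) := fun j y => g j (s y)
    have hg' : ∀ j, pull (ratLocalizedAt ℓ) π (g' j) = g j := by
      intro j
      ext m
      exact hginv _ _ (hs (π m)) j
    have hg'H : ∀ j, g' j ∈ H.comap (pull (ratLocalizedAt ℓ) π) := by
      intro j
      show pull (ratLocalizedAt ℓ) π (g' j) ∈ H
      rw [hg']; exact hgH j
    have hfin : comulFun f = ∑ j, (fun x : N × N => e' j x.1 * g' j x.2) := by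
      ext ⟨x, y⟩
      obtain ⟨x, rfl⟩ := hπ x
      obtain ⟨y, rfl⟩ := hπ y
      have h1 := hF' x y
      rw [map_add] at h1
      simp only [comulFun, Finset.sum_apply]
      rw [h1]
      refine Finset.sum_congr rfl fun j _ => ?_
      have : g' j (π y) = g j y := congrFun (hg' j) y
      rw [this, mul_comm]
    rw [hfin]
    exact Submodule.sum_mem _ fun j _ => Submodule.subset_span
      ⟨e' j, heH' j, g' j, hg'H j, rfl⟩

theorem HasFlatOrder.quotient (h : HasFlatOrder ℓ M actM) (π : M →+ N)
    (hπ : Function.Surjective π) (hact : ∀ σ m, π (actM σ m) = actN σ (π m)) :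
    HasFlatOrder ℓ N actN := by
  obtain ⟨hfin, H, hH⟩ := h
  exact ⟨Finite.of_surjective π hπ, _, hH.quotient π hπ hact⟩

end Quotient

section Prod

variable {ℓ : ℕ}

theorem hasFlatOrder_of_subsingleton {M : Type*} [AddCommGroup M] [Subsingleton M]
    (act : GQ → M → M) : HasFlatOrder ℓ M act := by
  refine ⟨inferInstance, ⊥, ?_, ?_, ?_, ?_⟩
  · exact Module.Finite.of_surjective
      ((Algebra.ofId (ratLocalizedAt ℓ) (⊥ : Subalgebra (ratLocalizedAt ℓ) (M → Qbar))).toLinearMap)
      (by
        rintro ⟨_, ⟨x, rfl⟩⟩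
        exact ⟨x, rfl⟩)
  · rintro _ ⟨r, rfl⟩ σ m
    show algebraMap (ratLocalizedAt ℓ) Qbar r = σ (algebraMap (ratLocalizedAt ℓ) Qbar r)
    have : algebraMap (ratLocalizedAt ℓ) Qbar r = algebraMap ℚ Qbar (r : ℚ) := rfl
    rw [this, AlgEquiv.commutes]
  · intro m m' _
    exact Subsingleton.elim _ _
  · intro h hh
    have : (⊥ : Subalgebra (ratLocalizedAt ℓ) (M → Qbar)) ≤ comulSubalgebra ⊥ := bot_le
    exact this hh

variable {M N : Type*} [AddCommGroup M] [AddCommGroup N] {actM : GQ → M → M}
  {actN : GQ → N → N} {H : Subalgebra (ratLocalizedAt ℓ) (M → Qbar)}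
  {K : Subalgebra (ratLocalizedAt ℓ) (N → Qbar)}

/-- Products of flat orders. -/
theorem IsFlatOrder.prod (h : IsFlatOrder ℓ actM H) (k : IsFlatOrder ℓ actN K) :
    IsFlatOrder ℓ (M := M × N) (fun σ x => (actM σ x.1, actN σ x.2))
      (H.map (pull (ratLocalizedAt ℓ) Prod.fst) ⊔ K.map (pull (ratLocalizedAt ℓ) Prod.snd)) where
  finite := by
    have := h.finite
    have := k.finite
    have h1 : Module.Finite (ratLocalizedAt ℓ) (H.map (pull (ratLocalizedAt ℓ) (Prod.fst : M × N → M))) :=
      Module.Finite.of_surjective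
        ((pull (ratLocalizedAt ℓ) (Prod.fst : M × N → M)).toLinearMap.restrict
          (p := Subalgebra.toSubmodule H)
          (q := Subalgebra.toSubmodule (H.map (pull (ratLocalizedAt ℓ) (Prod.fst : M × N → M))))
          (fun x hx => ⟨x, hx, rfl⟩))
        (by
          rintro ⟨_, ⟨x, hx, rfl⟩⟩
          exact ⟨⟨x, hx⟩, rfl⟩)
    have h2 : Module.Finite (ratLocalizedAt ℓ) (K.map (pull (ratLocalizedAt ℓ) (Prod.snd : M × N → N))) :=
      Module.Finite.of_surjective
        ((pull (ratLocalizedAt ℓ) (Prod.snd : M × N → N)).toLinearMap.restrict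
          (p := Subalgebra.toSubmodule K)
          (q := Subalgebra.toSubmodule (K.map (pull (ratLocalizedAt ℓ) (Prod.snd : M × N → N))))
          (fun x hx => ⟨x, hx, rfl⟩))
        (by
          rintro ⟨_, ⟨x, hx, rfl⟩⟩
          exact ⟨⟨x, hx⟩, rfl⟩)
    exact Subalgebra.finite_sup _ _
  equivariant := by
    intro f hf
    -- the subalgebra of equivariant functions
    let E : Subalgebra (ratLocalizedAt ℓ) (M × N → Qbar) :=
      { carrier := {f | ∀ (σ : GQ) (x : M × N), f (actM σ x.1, actN σ x.2) = σ (f x)}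
        mul_mem' := fun {a b} ha hb σ x => by
          rw [Pi.mul_apply, Pi.mul_apply, map_mul, ha, hb]
        add_mem' := fun {a b} ha hb σ x => by
          rw [Pi.add_apply, Pi.add_apply, map_add, ha, hb]
        algebraMap_mem' := fun r σ x => by
          show algebraMap (ratLocalizedAt ℓ) Qbar r = σ (algebraMap (ratLocalizedAt ℓ) Qbar r)
          have : algebraMap (ratLocalizedAt ℓ) Qbar r = algebraMap ℚ Qbar (r : ℚ) := rfl
          rw [this, AlgEquiv.commutes] }
    have hle : H.map (pull (ratLocalizedAt ℓ) Prod.fst) ⊔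
        K.map (pull (ratLocalizedAt ℓ) Prod.snd) ≤ E := by
      apply sup_le
      · rintro _ ⟨g, hg, rfl⟩ σ x
        exact h.equivariant g hg σ x.1
      · rintro _ ⟨g, hg, rfl⟩ σ x
        exact k.equivariant g hg σ x.2
    exact hle hf
  separates := by
    intro x y hxy
    apply Prod.ext
    · apply h.separates
      intro f hf
      exact hxy (pull (ratLocalizedAt ℓ) Prod.fst f) ((le_sup_left (a := H.map _)) ⟨f, hf, rfl⟩)
    · apply k.separates
      intro f hf
      exact hxy (pull (ratLocalizedAt ℓ) Prod.snd f) ((le_sup_right (b := K.map _)) ⟨f, hf, rfl⟩)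
  comul := by
    intro f hf
    have hle : H.map (pull (ratLocalizedAt ℓ) (Prod.fst : M × N → M)) ⊔
        K.map (pull (ratLocalizedAt ℓ) (Prod.snd : M × N → N)) ≤
        comulSubalgebra (H.map (pull (ratLocalizedAt ℓ) (Prod.fst : M × N → M)) ⊔
        K.map (pull (ratLocalizedAt ℓ) (Prod.snd : M × N → N))) := by
      apply sup_le
      · rintro _ ⟨g, hg, rfl⟩
        exact pull_mem_tensorSpan H _ (AddMonoidHom.fst M N)
          (fun g hg => (le_sup_left (a := H.map _)) ⟨g, hg, rfl⟩) (h.comul g hg)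
      · rintro _ ⟨g, hg, rfl⟩
        exact pull_mem_tensorSpan K _ (AddMonoidHom.snd M N)
          (fun g hg => (le_sup_right (b := K.map _)) ⟨g, hg, rfl⟩) (k.comul g hg)
    exact hle hf

theorem HasFlatOrder.prod (h : HasFlatOrder ℓ M actM) (k : HasFlatOrder ℓ N actN) :
    HasFlatOrder ℓ (M × N) (fun σ x => (actM σ x.1, actN σ x.2)) := by
  obtain ⟨hfin, H, hH⟩ := h
  obtain ⟨kfin, K, hK⟩ := k
  exact ⟨inferInstance, _, hH.prod hK⟩

theorem HasFlatOrder.fin_pi (h : HasFlatOrder ℓ M actM) (n : ℕ) :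
    HasFlatOrder ℓ (Fin n → M) (fun σ x i => actM σ (x i)) := by
  induction n with
  | zero => exact hasFlatOrder_of_subsingleton _
  | succ n ih =>
    let i : (Fin (n + 1) → M) →+ M × (Fin n → M) :=
      { toFun := fun f => (f 0, fun j => f j.succ)
        map_zero' := rfl
        map_add' := fun _ _ => rfl }
    refine (h.prod ih).sub i ?_ (fun σ f => rfl)
    intro f g hfg
    ext j
    refine Fin.cases ?_ (fun j => ?_) j
    · exact congrArg Prod.fst hfg
    · exact congrFun (congrArg Prod.snd hfg) j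

/-- Finite powers. -/
theorem HasFlatOrder.pi (h : HasFlatOrder ℓ M actM) (ι : Type*) [Finite ι] :
    HasFlatOrder ℓ (ι → M) (fun σ x i => actM σ (x i)) := by
  obtain ⟨n, ⟨e⟩⟩ := Finite.exists_equiv_fin ι
  let i : (ι → M) →+ (Fin n → M) :=
    { toFun := fun f j => f (e.symm j)
      map_zero' := rfl
      map_add' := fun _ _ => rfl }
  refine (h.fin_pi n).sub i ?_ (fun σ f => rfl)
  intro f g hfg
  ext j
  have := congrFun hfg (e j)
  simpa [i] using this

/-- The action on a module with a flat order factors through a finite level. -/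
theorem HasFlatOrder.exists_finite_level (h : HasFlatOrder ℓ M actM) :
    ∃ L : IntermediateField ℚ (AlgebraicClosure ℚ), FiniteDimensional ℚ L ∧
      ∀ σ : GQ, (∀ x ∈ L, σ x = x) → ∀ m, actM σ m = m := by
  obtain ⟨hfin, H, hH⟩ := h
  obtain ⟨n, e, heH, heli, hegen⟩ := exists_basis H hH.finite hH.surj hH.equivariant
  have halg : Algebra.IsAlgebraic ℚ (AlgebraicClosure ℚ) := AlgebraicClosure.isAlgebraic ℚ
  let S : Set Qbar := Set.range fun x : Fin n × M => e x.1 x.2
  have hS : S.Finite := Set.finite_range _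
  refine ⟨IntermediateField.adjoin ℚ S, ?_, ?_⟩
  · have := hS.to_subtype
    exact IntermediateField.finiteDimensional_adjoin fun x _ =>
      (Algebra.IsAlgebraic.isAlgebraic (R := ℚ) x).isIntegral
  · intro σ hσ m
    apply hH.separates
    intro f hf
    rw [hH.equivariant f hf]
    obtain ⟨r, rfl⟩ := hegen f hf
    simp only [Finset.sum_apply, Pi.smul_apply, map_sum]
    refine Finset.sum_congr rfl fun i _ => ?_
    have h1 : σ (e i m) = e i m := hσ _ (IntermediateField.subset_adjoin ℚ S ⟨(i, m), rfl⟩)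
    have h2 : r i • e i m = (r i : ℚ) • e i m := rfl
    rw [h2, Algebra.smul_def, map_mul, AlgEquiv.commutes, h1]

end Prod

end Fermat.Agent.H32
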