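import Fermat.Agent.H53Cond7
import Fermat.Agent.H32FlatClosure
import Fermat.Agent.H19Zl

set_option autoImplicit false
set_option linter.style.haveILetI false
set_option linter.unusedSectionVars false

noncomputable section

open scoped TensorProduct
open IsLocalRing GaloisRep

namespace Fermat.Agent.H53

local notation "Qb" => AlgebraicClosure ℚ

lemma exists_sum_of_mem_tensorSpan {R : Type} [CommRing R] [Algebra R Qb] {M : Type}
    (H : Subalgebra R (M → Qb)) {F : M × M → Qb} (hF : F ∈ H32.tensorSpan H) :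
    ∃ (n : ℕ) (a b : Fin n → M → Qb), (∀ i, a i ∈ H) ∧ (∀ i, b i ∈ H) ∧
      ∀ m m', F (m, m') = ∑ i, a i m * b i m' := by
  unfold H32.tensorSpan at hF
  induction hF using Submodule.span_induction with
  | mem F hF =>
    obtain ⟨a, ha, b, hb, rfl⟩ := hF
    exact ⟨1, fun _ => a, fun _ => b, fun _ => ha, fun _ => hb, fun m m' => by simp⟩
  | zero => exact ⟨0, Fin.elim0, Fin.elim0, fun i => i.elim0, fun i => i.elim0, fun m m' => by simp⟩
  | add x y _ _ hx hy =>
    obtain ⟨n, a, b, ha, hb, h⟩ := hx
    obtain ⟨n', a', b', ha', hb', h'⟩ := hy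
    refine ⟨n + n', Fin.append a a', Fin.append b b', ?_, ?_, ?_⟩
    · intro i
      induction i using Fin.addCases with
      | left i => rw [Fin.append_left]; exact ha i
      | right i => rw [Fin.append_right]; exact ha' i
    · intro i
      induction i using Fin.addCases with
      | left i => rw [Fin.append_left]; exact hb i
      | right i => rw [Fin.append_right]; exact hb' i
    · intro m m'
      rw [Fin.sum_univ_add]
      simp only [Fin.append_left, Fin.append_right, Pi.add_apply]
      rw [h, h']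
  | smul c x _ hx =>
    obtain ⟨n, a, b, ha, hb, h⟩ := hx
    refine ⟨n, fun i => c • a i, b, fun i => H.smul_mem (ha i) c, hb, fun m m' => ?_⟩
    rw [Pi.smul_apply, h, Finset.smul_sum]
    simp only [Pi.smul_apply, smul_mul_assoc]

theorem hasFlatOrder_iff (ℓ : ℕ) [Fact ℓ.Prime] (M : Type) [AddCommGroup M] (act : GQ → M → M) :
    H32.HasFlatOrder ℓ M act ↔ H19.HasFlatModel (ratLocalizedAt ℓ) ℚ Qb M act := by
  rw [H19.hasFlatModel_iff]
  refine and_congr_right fun _ => exists_congr fun H => ?_
  constructor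
  · intro hH
    refine ⟨Module.Finite.iff_fg.mp hH.finite, hH.equivariant, hH.separates, fun f hf => ?_⟩
    exact exists_sum_of_mem_tensorSpan H (hH.comul f hf)
  · intro hH
    refine ⟨Module.Finite.iff_fg.mpr hH.fg, hH.equivariant, hH.separates, fun f hf => ?_⟩
    obtain ⟨n, a, b, ha, hb, h⟩ := hH.comul f hf
    have h1 : H32.comulFun f = ∑ i, (fun x : M × M => a i x.1 * b i x.2) := by
      ext x
      rw [H32.comulFun, h]
      simp
    rw [h1]
    exact Submodule.sum_mem _ fun i _ => Submodule.subset_span ⟨a i, ha i, b i, hb i, rfl⟩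

/-- flatness in terms of flat orders -/
theorem isFlatAt_iff (p : ℕ) [Fact p.Prime] {A : Type} [CommRing A] [IsLocalRing A]
    (ρ : GaloisRepAdic A) :
    ρ.IsFlatAt p ↔ Finite (ResidueField A) ∧ ∀ I : Ideal A, Finite (A ⧸ I) →
      H32.HasFlatOrder p (ρ.V ⧸ (I • (⊤ : Submodule A ρ.V)))
        (fun σ x => ρ.levelAction I σ x) := by
  rw [GaloisRepAdic.IsFlatAt]
  refine and_congr_right fun _ => forall_congr' fun I => imp_congr_right fun _ => ?_
  rw [hasFlatOrder_iff, H19.HasFlatModel]

/-- a matrix representation over a (finite) ring which is flat at `p` -/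
def FlatM (p : ℕ) {B : Type} [CommRing B] (r : GQ →* M2 B) : Prop :=
  H32.HasFlatOrder p (Fin 2 → B) (fun σ v => (r σ).mulVec v)

section FlatM

variable {p : ℕ} {B : Type} [CommRing B]

lemma FlatM.finite {r : GQ →* M2 B} (h : FlatM p r) : Finite B := by
  haveI : Finite (Fin 2 → B) := h.1
  exact Finite.of_injective (fun (x : B) => (fun _ : Fin 2 => x))
    fun x y hxy => congrFun hxy 0

lemma FlatM.of_injective {B' : Type} [CommRing B'] (φ : B →+* B')
    (hφ : Function.Injective φ) {r : GQ →* M2 B} (h : FlatM p (mapMat φ r)) : FlatM p r := by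
  refine H32.HasFlatOrder.sub h
    { toFun := fun v i => φ (v i)
      map_zero' := by ext i; simp
      map_add' := fun v w => by ext i; simp } ?_ ?_
  · intro v w hvw
    ext i
    exact hφ (congrFun hvw i)
  · intro σ v
    ext i
    show φ ((r σ).mulVec v i) = (mapMat φ r σ).mulVec (fun i => φ (v i)) i
    simp only [Matrix.mulVec, dotProduct, map_sum, map_mul, mapMat_apply]

lemma FlatM.map {B' : Type} [CommRing B'] [Finite B'] (φ : B →+* B')
    {r : GQ →* M2 B} (h : FlatM p r) : FlatM p (mapMat φ r) := by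
  classical
  haveI := Fintype.ofFinite B'
  refine H32.HasFlatOrder.quotient (h.pi B')
    { toFun := fun w i => ∑ c : B', c * φ (w c i)
      map_zero' := by ext i; simp
      map_add' := fun v w => by
        ext i
        simp only [Pi.add_apply, map_add, mul_add, Finset.sum_add_distrib] } ?_ ?_
  · intro v
    refine ⟨fun c i => if c = v i then 1 else 0, ?_⟩
    ext i
    show ∑ c : B', c * φ (if c = v i then 1 else 0) = v i
    rw [Finset.sum_eq_single (v i)]
    · simp
    · intro c _ hc
      simp [hc]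
    · simp
  · intro σ w
    ext i
    show ∑ c : B', c * φ ((r σ).mulVec (w c) i) =
      (mapMat φ r σ).mulVec (fun i => ∑ c : B', c * φ (w c i)) i
    simp only [Matrix.mulVec, dotProduct, map_sum, map_mul, mapMat_apply, Finset.mul_sum]
    rw [Finset.sum_comm]
    refine Finset.sum_congr rfl fun j _ => Finset.sum_congr rfl fun c _ => ?_
    ring

lemma FlatM.of_prod {A A' : Type} [CommRing A] [CommRing A'] (φ : B →+* A) (ψ : B →+* A')
    (hinj : Function.Injective (fun x => (φ x, ψ x))) {r : GQ →* M2 B}
    (h : FlatM p (mapMat φ r)) (h' : FlatM p (mapMat ψ r)) : FlatM p r := by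
  refine H32.HasFlatOrder.sub (H32.HasFlatOrder.prod h h')
    { toFun := fun v => (fun i => φ (v i), fun i => ψ (v i))
      map_zero' := by ext i <;> simp
      map_add' := fun v w => by ext i <;> simp } ?_ ?_
  · intro v w hvw
    ext i
    apply hinj
    exact Prod.ext (congrFun (congrArg Prod.fst hvw) i) (congrFun (congrArg Prod.snd hvw) i)
  · intro σ v
    ext i
    · show φ ((r σ).mulVec v i) = (mapMat φ r σ).mulVec (fun i => φ (v i)) i
      simp only [Matrix.mulVec, dotProduct, map_sum, map_mul, mapMat_apply]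
    · show ψ ((r σ).mulVec v i) = (mapMat ψ r σ).mulVec (fun i => ψ (v i)) i
      simp only [Matrix.mulVec, dotProduct, map_sum, map_mul, mapMat_apply]

lemma FlatM.conj {r r' : GQ →* M2 B} {u : M2 B} (hu : IsUnit u) (h : ∀ σ, u * r σ = r' σ * u)
    (hr : FlatM p r) : FlatM p r' := by
  refine H32.HasFlatOrder.quotient hr
    { toFun := fun v => u.mulVec v
      map_zero' := Matrix.mulVec_zero u
      map_add' := Matrix.mulVec_add u } ?_ ?_
  · intro v
    obtain ⟨w, rfl⟩ := hu
    exact ⟨(↑w⁻¹ : M2 B).mulVec v, by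
      show (w : M2 B).mulVec ((↑w⁻¹ : M2 B).mulVec v) = v
      rw [Matrix.mulVec_mulVec, Units.mul_inv, Matrix.one_mulVec]⟩
  · intro σ v
    show u.mulVec ((r σ).mulVec v) = (r' σ).mulVec (u.mulVec v)
    rw [Matrix.mulVec_mulVec, Matrix.mulVec_mulVec, h]

lemma flatM_of_subsingleton [Subsingleton B] (r : GQ →* M2 B) : FlatM p r :=
  H32.hasFlatOrder_of_subsingleton _

end FlatM

/-- the reduction map on coordinates -/
def coordMap {A : Type} [CommRing A] {V : Type} [AddCommGroup V] [Module A V]
    (b : Module.Basis (Fin 2) A V) (I : Ideal A) : V ⧸ (I • (⊤ : Submodule A V)) →+ (Fin 2 → A ⧸ I) :=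
  QuotientAddGroup.lift _
    { toFun := fun v i => Ideal.Quotient.mk I (b.repr v i)
      map_zero' := by ext i; simp
      map_add' := fun v w => by ext i; simp }
    (by
      intro v hv
      change v ∈ I • (⊤ : Submodule A V) at hv
      ext i
      show Ideal.Quotient.mk I (b.repr v i) = 0
      rw [Ideal.Quotient.eq_zero_iff_mem]
      refine Submodule.smul_induction_on (p := fun w => b.repr w i ∈ I) hv ?_ ?_
      · intro a ha w _
        rw [map_smul]
        exact Ideal.mul_mem_right _ _ ha
      · intro x y hx hy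
        rw [map_add]
        exact Ideal.add_mem _ hx hy)

lemma coordMap_mk {A : Type} [CommRing A] {V : Type} [AddCommGroup V] [Module A V]
    (b : Module.Basis (Fin 2) A V) (I : Ideal A) (v : V) (i : Fin 2) :
    coordMap b I (Submodule.Quotient.mk v) i = Ideal.Quotient.mk I (b.repr v i) := rfl

lemma coordMap_injective {A : Type} [CommRing A] {V : Type} [AddCommGroup V] [Module A V]
    (b : Module.Basis (Fin 2) A V) (I : Ideal A) : Function.Injective (coordMap b I) := by
  rw [injective_iff_map_eq_zero]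
  intro x hx
  obtain ⟨v, rfl⟩ := Submodule.Quotient.mk_surjective _ x
  rw [Submodule.Quotient.mk_eq_zero]
  have h1 : ∀ i, b.repr v i ∈ I := fun i => by
    have := congrFun hx i
    rwa [coordMap_mk, Pi.zero_apply, Ideal.Quotient.eq_zero_iff_mem] at this
  rw [← b.sum_repr v]
  exact Submodule.sum_mem _ fun i _ => Submodule.smul_mem_smul (h1 i) Submodule.mem_top

lemma coordMap_surjective {A : Type} [CommRing A] {V : Type} [AddCommGroup V] [Module A V]
    (b : Module.Basis (Fin 2) A V) (I : Ideal A) : Function.Surjective (coordMap b I) := by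
  intro w
  choose a ha using fun i => Ideal.Quotient.mk_surjective (w i)
  refine ⟨Submodule.Quotient.mk (∑ i, a i • b i), ?_⟩
  ext i
  rw [coordMap_mk, b.repr_sum_self, ha]

lemma hasFlatOrder_level_iff (p : ℕ) {A : Type} [CommRing A] [IsLocalRing A]
    (ρ : GaloisRepAdic A) (b : Module.Basis (Fin 2) A ρ.V) (I : Ideal A) :
    H32.HasFlatOrder p (ρ.V ⧸ (I • (⊤ : Submodule A ρ.V))) (fun σ x => ρ.levelAction I σ x) ↔
      FlatM p (mapMat (Ideal.Quotient.mk I) (toMat ρ.ρ b)) := by
  have hact : ∀ (σ : GQ) (x : ρ.V ⧸ (I • (⊤ : Submodule A ρ.V))),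
      coordMap b I (ρ.levelAction I σ x) =
        (mapMat (Ideal.Quotient.mk I) (toMat ρ.ρ b) σ).mulVec (coordMap b I x) := by
    intro σ x
    obtain ⟨v, rfl⟩ := Submodule.Quotient.mk_surjective _ x
    have h1 : ρ.levelAction I σ (Submodule.Quotient.mk v) = Submodule.Quotient.mk (ρ.ρ σ v) := rfl
    rw [h1]
    ext i
    rw [coordMap_mk, repr_apply_eq, map_add, map_mul, map_mul, Matrix.mulVec, dotProduct,
      Fin.sum_univ_two, coordMap_mk, coordMap_mk, mapMat_apply, mapMat_apply]
  constructor
  · intro h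
    exact h.quotient (coordMap b I) (coordMap_surjective b I) hact
  · intro h
    exact H32.HasFlatOrder.sub h (coordMap b I) (coordMap_injective b I) hact

theorem isFlatAt_iff_flatM (p : ℕ) [Fact p.Prime] {A : Type} [CommRing A] [IsLocalRing A]
    (ρ : GaloisRepAdic A) (b : Module.Basis (Fin 2) A ρ.V) :
    ρ.IsFlatAt p ↔ Finite (ResidueField A) ∧ ∀ I : Ideal A, Finite (A ⧸ I) →
      FlatM p (mapMat (Ideal.Quotient.mk I) (toMat ρ.ρ b)) := by
  rw [isFlatAt_iff]
  refine and_congr_right fun _ => forall_congr' fun I => imp_congr_right fun _ => ?_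
  exact hasFlatOrder_level_iff p ρ b I

/-- for finite coefficient rings it is enough to look at the whole representation -/
theorem isFlatAt_iff_flatM_of_finite (p : ℕ) [Fact p.Prime] {A : Type} [CommRing A]
    [IsLocalRing A] [Finite A] (ρ : GaloisRepAdic A) (b : Module.Basis (Fin 2) A ρ.V) :
    ρ.IsFlatAt p ↔ FlatM p (toMat ρ.ρ b) := by
  rw [isFlatAt_iff_flatM p ρ b]
  constructor
  · rintro ⟨-, h⟩
    have h1 := h ⊥ (Finite.of_surjective _ Ideal.Quotient.mk_surjective)
    refine FlatM.of_injective (Ideal.Quotient.mk (⊥ : Ideal A)) ?_ h1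
    rw [RingHom.injective_iff_ker_eq_bot, Ideal.mk_ker]
  · intro h
    exact ⟨Finite.of_surjective _ (residue_surjective (R := A)), fun I hI => h.map _⟩

end Fermat.Agent.H53
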