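import Fermat.Agent.H59Occ
import Fermat.Agent.H30Local
import Fermat.Agent.H53Flat1

/-!
# MODLIFT [L2]: residual flatness and ramification of `W[p] ⊗ k`
-/

set_option autoImplicit false
set_option linter.style.haveILetI false

noncomputable section

open scoped TensorProduct
open IsLocalRing GaloisRep

namespace Fermat.Agent.H47

local notation "GQ" => (AlgebraicClosure ℚ ≃ₐ[ℚ] AlgebraicClosure ℚ)

section flat

variable (p : ℕ) [hp : Fact p.Prime]

/-- flatness of a residual representation -/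
theorem isFlatAt_ofResidual_iff {k : Type} [Field k] [Finite k] (ρ : ResidualGaloisRep k) :
    (GaloisRepAdic.ofResidualGaloisRep ρ).IsFlatAt p ↔
      H32.HasFlatOrder p ρ.V (fun σ v => ρ.ρ σ v) := by
  rw [H53.isFlatAt_iff]
  constructor
  · rintro ⟨-, h⟩
    have h1 := h ⊥ (Finite.of_surjective _ Ideal.Quotient.mk_surjective)
    refine h1.sub (Submodule.mkQ _).toAddMonoidHom ?_ fun σ v => rfl
    intro v w hvw
    have h2 : v - w ∈ (⊥ : Ideal k) • (⊤ : Submodule k ρ.V) :=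
      (Submodule.Quotient.eq _).1 hvw
    rw [Submodule.bot_smul, Submodule.mem_bot, sub_eq_zero] at h2
    exact h2
  · intro h
    exact ⟨Finite.of_surjective _ (residue_surjective (R := k)), fun I _ =>
      h.quotient (Submodule.mkQ _).toAddMonoidHom (Submodule.mkQ_surjective _) fun σ v => rfl⟩

/-- the residual representation of a flat representation -/
theorem hasFlatOrder_residual {A : Type} [CommRing A] [IsLocalRing A] {ρ : GaloisRepAdic A}
    (h : ρ.IsFlatAt p) : H32.HasFlatOrder p ρ.residual.V (fun σ v => ρ.residual.ρ σ v) := by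
  rw [H53.isFlatAt_iff] at h
  have hfin : Finite (A ⧸ maximalIdeal A) := h.1
  have h1 := h.2 (maximalIdeal A) hfin
  let f : ρ.V →ₗ[A] ResidueField A ⊗[A] ρ.V := TensorProduct.mk A (ResidueField A) ρ.V 1
  have hf : (maximalIdeal A • (⊤ : Submodule A ρ.V)) ≤ LinearMap.ker f := by
    rw [Submodule.smul_le]
    intro a ha v _
    rw [LinearMap.mem_ker, map_smul]
    show a • ((1 : ResidueField A) ⊗ₜ[A] v) = 0
    rw [TensorProduct.smul_tmul', Algebra.smul_def, mul_one, ResidueField.algebraMap_eq,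
      (residue_eq_zero_iff a).2 ha, TensorProduct.zero_tmul]
  refine h1.quotient (N := ρ.residual.V) (actN := fun σ v => ρ.residual.ρ σ v)
    (Submodule.liftQ _ f hf).toAddMonoidHom ?_ ?_
  · intro x
    change ResidueField A ⊗[A] ρ.V at x
    show ∃ a, (Submodule.liftQ _ f hf) a = x
    induction x using TensorProduct.induction_on with
    | zero => exact ⟨0, map_zero _⟩
    | tmul c v =>
      obtain ⟨a, rfl⟩ := residue_surjective c
      refine ⟨Submodule.Quotient.mk (a • v), ?_⟩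
      show f (a • v) = residue A a ⊗ₜ[A] v
      rw [map_smul]
      show a • ((1 : ResidueField A) ⊗ₜ[A] v) = _
      rw [TensorProduct.smul_tmul', Algebra.smul_def, mul_one, ResidueField.algebraMap_eq]
    | add x y hx hy =>
      obtain ⟨x', hx'⟩ := hx
      obtain ⟨y', hy'⟩ := hy
      exact ⟨x' + y', by rw [map_add, hx', hy']⟩
  · intro σ x
    obtain ⟨v, rfl⟩ := Submodule.Quotient.mk_surjective _ x
    show (1 : ResidueField A) ⊗ₜ[A] (ρ.ρ σ v) = (ρ.ρ σ).baseChange (ResidueField A) (1 ⊗ₜ[A] v)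
    rw [LinearMap.baseChange_tmul]

end flat

section transfer

variable {k k' : Type} [Field k] [Field k']

/-- the inclusion `V → k' ⊗ V` -/
def inclAlong (φ : k →+* k') (ρ : ResidualGaloisRep k) : ρ.V →+ (ρ.baseChangeAlong φ).V :=
  letI : Algebra k k' := φ.toAlgebra
  (TensorProduct.mk k k' ρ.V 1).toAddMonoidHom

theorem inclAlong_injective (φ : k →+* k') (ρ : ResidualGaloisRep k) :
    Function.Injective (inclAlong φ ρ) := by
  letI : Algebra k k' := φ.toAlgebra
  exact Module.FaithfullyFlat.tensorProduct_mk_injective (A := k) (B := k') ρ.V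

theorem inclAlong_apply (φ : k →+* k') (ρ : ResidualGaloisRep k) (σ : GQ) (v : ρ.V) :
    inclAlong φ ρ (ρ.ρ σ v) = (ρ.baseChangeAlong φ).ρ σ (inclAlong φ ρ v) := by
  letI : Algebra k k' := φ.toAlgebra
  show (1 : k') ⊗ₜ[k] (ρ.ρ σ v) = (ρ.ρ σ).baseChange k' (1 ⊗ₜ[k] v)
  rw [LinearMap.baseChange_tmul]

theorem hasFlatOrder_of_baseChangeAlong {p : ℕ} (φ : k →+* k') (ρ : ResidualGaloisRep k)
    (h : H32.HasFlatOrder p (ρ.baseChangeAlong φ).V (fun σ v => (ρ.baseChangeAlong φ).ρ σ v)) :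
    H32.HasFlatOrder p ρ.V (fun σ v => ρ.ρ σ v) :=
  h.sub (inclAlong φ ρ) (inclAlong_injective φ ρ) (inclAlong_apply φ ρ)

theorem hasFlatOrder_of_equiv {p : ℕ} {ρ ρ' : ResidualGaloisRep k}
    (e : ResidualGaloisRep.Equiv ρ ρ')
    (h : H32.HasFlatOrder p ρ.V (fun σ v => ρ.ρ σ v)) :
    H32.HasFlatOrder p ρ'.V (fun σ v => ρ'.ρ σ v) :=
  h.quotient e.toLinearEquiv.toLinearMap.toAddMonoidHom e.toLinearEquiv.surjective e.map_apply

theorem eq_one_of_baseChangeAlong (φ : k →+* k') (ρ : ResidualGaloisRep k) {σ : GQ}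
    (h : (ρ.baseChangeAlong φ).ρ σ = 1) : ρ.ρ σ = 1 := by
  ext v
  apply inclAlong_injective φ ρ
  rw [inclAlong_apply, h]
  rfl

theorem eq_one_of_equiv {ρ ρ' : ResidualGaloisRep k} (e : ResidualGaloisRep.Equiv ρ ρ') {σ : GQ}
    (h : ρ.ρ σ = 1) : ρ'.ρ σ = 1 := by
  ext v
  obtain ⟨w, rfl⟩ := e.toLinearEquiv.surjective v
  rw [← e.map_apply, h]
  rfl

theorem residual_eq_one {A : Type} [CommRing A] [IsLocalRing A] {ρ : GaloisRepAdic A} {σ : GQ}
    (h : ρ.ρ σ = 1) : ρ.residual.ρ σ = 1 := by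
  show (ρ.ρ σ).baseChange (ResidueField A) = 1
  rw [h, LinearMap.baseChange_one]

end transfer

section main

open CuspForm Fermat.Agent.H87.Glue

/-- The statement of S32 (verbatim). -/
def StatementS32' : Prop :=
  ∀ {p : ℕ} {N : ℕ} [NeZero N] {S : Finset ℕ}
  {𝒪 : Type} [CommRing 𝒪] [IsDomain 𝒪] [IsDiscreteValuationRing 𝒪]
  [IsAdicComplete (IsLocalRing.maximalIdeal 𝒪) 𝒪]
  {θ : CuspForm.heckeAlgebra N 2 (↑S : Set ℕ) →+* IsLocalRing.ResidueField 𝒪}
  {T : Type} [CommRing T] [IsLocalRing T] [IsNoetherianRing T]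
  [IsAdicComplete (IsLocalRing.maximalIdeal T) T] [Algebra 𝒪 T] [IsLocalHom (algebraMap 𝒪 T)]
  [Module.Finite 𝒪 T] [Module.Free 𝒪 T]
    [Finite (IsLocalRing.ResidueField 𝒪)] [CharZero 𝒪]
    (_hp : p.Prime) (_hp2 : p ≠ 2) (_hp𝒪 : (p : 𝒪) ∈ IsLocalRing.maximalIdeal 𝒪) (_hpN : ¬ p ∣ N)
    (_hpS : p ∈ S) (_hNS : ∀ q : ℕ, q.Prime → q ∣ N → q ∈ S)
    (H : CuspForm.HeckeGaloisRepDatum N (↑S : Set ℕ) 𝒪 θ T), H.ρ.IsFlatAt p

/-- **[L2]** (core) -/
theorem isFlatAt_of_isResiduallyModular' (W : WeierstrassCurve ℤ) (hΔ : W.Δ ≠ 0) {p : ℕ}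
    [hp : Fact p.Prime] (hp2 : p ≠ 2) (h30 : H96.StatementS30) (h32 : StatementS32')
    {𝒪 : Type} [CommRing 𝒪] [IsDomain 𝒪] [IsDiscreteValuationRing 𝒪]
    [IsAdicComplete (maximalIdeal 𝒪) 𝒪] [Finite (ResidueField 𝒪)] [CharZero 𝒪]
    [Algebra (ZMod p) (ResidueField 𝒪)] (hp𝒪 : (p : 𝒪) ∈ maximalIdeal 𝒪)
    (hirr : ((resZ W hΔ p).baseChange (ResidueField 𝒪)).IsIrreducible)
    {M : ℕ} [NeZero M] (hmod : W.IsResiduallyModularOfLevel p M) :
    (¬ p ∣ M → (GaloisRepAdic.ofResidualGaloisRep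
        ((resZ W hΔ p).baseChange (ResidueField 𝒪))).IsFlatAt p) ∧
      ∀ q : ℕ, q.Prime → ¬ q ∣ M → q ≠ p →
        ((resZ W hΔ p).baseChange (ResidueField 𝒪)).IsUnramifiedAt q := by
  classical
  haveI : Fact (HasIntegralStructure M 2) := ⟨H23.hasIntegralStructure M 2⟩
  let S : Finset ℕ := M.primeFactors ∪ {p} ∪ W.Δ.natAbs.primeFactors
  have hpS : p ∈ S := by simp [S]
  have hNS : ∀ q : ℕ, q.Prime → q ∣ M → q ∈ S := by
    intro q hq hqM
    simp only [S, Finset.mem_union]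
    exact Or.inl (Or.inl (Nat.mem_primeFactors.2 ⟨hq, hqM, NeZero.ne M⟩))
  have hS : H37.Rank.Adm (↑S : Set ℕ) M := fun q hq hqM => by exact_mod_cast hNS q hq hqM
  have hgood : ∀ ℓ : ℕ, ℓ.Prime → ℓ ∉ (↑S : Set ℕ) → W.IsGoodPrimeFor ℓ ∧ ℓ ≠ p := by
    intro ℓ hℓ hℓS
    have hℓS' : ℓ ∉ S := by exact_mod_cast hℓS
    simp only [S, Finset.mem_union, Finset.mem_singleton, not_or] at hℓS'
    exact ⟨fun hd => hℓS'.2 (Nat.mem_primeFactors.mpr
        ⟨hℓ, Int.natCast_dvd.mp hd, Int.natAbs_ne_zero.mpr hΔ⟩), hℓS'.1.2⟩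
  obtain ⟨θ', hθ'⟩ := H59.exists_char_of_modular hmod dvd_rfl hS hgood
  let θ : heckeAlgebra M 2 (↑S : Set ℕ) →+* ResidueField 𝒪 :=
    (algebraMap (ZMod p) (ResidueField 𝒪)).comp θ'
  obtain ⟨H, -, ⟨e⟩, hunr⟩ := H30.exists_datum h30 hp2 M S hpS hNS 𝒪 hp𝒪 θ
    ((resZ W hΔ p).baseChange (ResidueField 𝒪)) hirr (by
      intro ℓ hℓ hℓN hℓS A hA σ hσ
      obtain ⟨hg, hℓp⟩ := hgood ℓ hℓ hℓS
      obtain ⟨htr, hdet⟩ := H59.trace_det_baseChange W hΔ p (k := ResidueField 𝒪) hℓ hℓp hg hA hσ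
      have h1 : θ (heckeAlgebra.T hℓ hℓN hℓS) = (W.apOfModel ℓ : ResidueField 𝒪) := by
        have h2 := hθ' ⟨ℓ, hℓ, hℓS⟩
        rw [H59.evHA_X] at h2
        show algebraMap (ZMod p) (ResidueField 𝒪) (θ' _) = _
        rw [h2, map_intCast]
      rw [h1, H86.charpoly_eq_of_finrank_two
        ((resZ W hΔ p).baseChange (ResidueField 𝒪)).finrank_eq, htr, hdet])
  refine ⟨fun hpM => ?_, fun q hq hqM hqp A hA σ hσ => ?_⟩
  · have : Finite (ResidueField 𝒪) := inferInstance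
    rw [isFlatAt_ofResidual_iff]
    exact hasFlatOrder_of_baseChangeAlong _ _ (hasFlatOrder_of_equiv e
      (hasFlatOrder_residual p (h32 hp.out hp2 hp𝒪 hpM hpS hNS H)))
  · exact eq_one_of_baseChangeAlong _ _ (eq_one_of_equiv e
      (residual_eq_one (hunr q hq hqM hqp A hA σ hσ)))

/-- the base change of an irreducible representation along a surjective map is irreducible -/
theorem isIrreducible_baseChangeAlong {k k' : Type} [Field k] [Field k'] (φ : k →+* k')
    (hφ : Function.Surjective φ) {ρ : ResidualGaloisRep k} (h : ρ.IsIrreducible) :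
    (ρ.baseChangeAlong φ).IsIrreducible := by
  letI : Algebra k k' := φ.toAlgebra
  have hsurj : Function.Surjective (inclAlong φ ρ) := by
    intro x
    change k' ⊗[k] ρ.V at x
    induction x using TensorProduct.induction_on with
    | zero => exact ⟨0, map_zero _⟩
    | tmul c v =>
      obtain ⟨a, rfl⟩ := hφ c
      refine ⟨a • v, ?_⟩
      show (1 : k') ⊗ₜ[k] (a • v) = φ a ⊗ₜ[k] v
      rw [← TensorProduct.smul_tmul, Algebra.smul_def, mul_one]
      rfl
    | add x y hx hy =>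
      obtain ⟨x', hx'⟩ := hx
      obtain ⟨y', hy'⟩ := hy
      exact ⟨x' + y', by rw [map_add, hx', hy']; rfl⟩
  intro W' hW'
  let W₀ : Submodule k ρ.V :=
    { carrier := {v | inclAlong φ ρ v ∈ W'}
      zero_mem' := by
        show inclAlong φ ρ 0 ∈ W'
        rw [map_zero]
        exact W'.zero_mem
      add_mem' := fun {v w} hv hw => by
        show inclAlong φ ρ (v + w) ∈ W'
        rw [map_add]
        exact W'.add_mem hv hw
      smul_mem' := fun c v hv => by
        have h1 : inclAlong φ ρ (c • v) = φ c • inclAlong φ ρ v := by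
          show (1 : k') ⊗ₜ[k] (c • v) = φ c • ((1 : k') ⊗ₜ[k] v)
          rw [← TensorProduct.smul_tmul, TensorProduct.smul_tmul', Algebra.smul_def, mul_one,
            smul_eq_mul, mul_one]
          rfl
        show inclAlong φ ρ (c • v) ∈ W'
        rw [h1]
        exact W'.smul_mem _ hv }
  rcases h W₀ (fun σ x hx => by
    show inclAlong φ ρ (ρ.ρ σ x) ∈ W'
    rw [inclAlong_apply]
    exact hW' σ _ hx) with h1 | h1
  · left
    rw [eq_bot_iff]
    intro x hx
    obtain ⟨v, rfl⟩ := hsurj x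
    have h2 : v ∈ W₀ := hx
    rw [h1, Submodule.mem_bot] at h2
    rw [h2, map_zero]
    exact Submodule.zero_mem _
  · right
    rw [eq_top_iff]
    intro x _
    obtain ⟨v, rfl⟩ := hsurj x
    have h2 : v ∈ W₀ := by rw [h1]; exact Submodule.mem_top
    exact h2

/-- flatness goes up along finite extensions of fields -/
theorem hasFlatOrder_baseChange {p : ℕ} {k : Type} [Field k] (k' : Type) [Field k'] [Finite k']
    [Algebra k k'] (ρ : ResidualGaloisRep k)
    (h : H32.HasFlatOrder p ρ.V (fun σ v => ρ.ρ σ v)) :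
    H32.HasFlatOrder p (ρ.baseChange k').V (fun σ v => (ρ.baseChange k').ρ σ v) := by
  classical
  haveI := Fintype.ofFinite k'
  refine (h.pi k').quotient (N := (ρ.baseChange k').V)
    (actN := fun σ v => (ρ.baseChange k').ρ σ v)
    { toFun := fun f => ∑ c : k', c ⊗ₜ[k] f c
      map_zero' := by simp
      map_add' := fun f g => by
        simp only [Pi.add_apply, TensorProduct.tmul_add, Finset.sum_add_distrib] } ?_ ?_
  · intro x
    change k' ⊗[k] ρ.V at x
    show ∃ f : k' → ρ.V, (∑ c : k', c ⊗ₜ[k] f c) = x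
    induction x using TensorProduct.induction_on with
    | zero => exact ⟨0, by simp⟩
    | tmul c v =>
      refine ⟨Pi.single c v, ?_⟩
      rw [Finset.sum_eq_single c]
      · rw [Pi.single_eq_same]
      · intro d _ hd
        rw [Pi.single_eq_of_ne hd, TensorProduct.tmul_zero]
      · exact fun h => absurd (Finset.mem_univ c) h
    | add x y hx hy =>
      obtain ⟨f, hf⟩ := hx
      obtain ⟨g, hg⟩ := hy
      refine ⟨f + g, ?_⟩
      simp only [Pi.add_apply, TensorProduct.tmul_add, Finset.sum_add_distrib, hf, hg]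
  · intro σ f
    show (∑ c : k', c ⊗ₜ[k] (ρ.ρ σ (f c))) = (ρ.ρ σ).baseChange k' (∑ c : k', c ⊗ₜ[k] f c)
    rw [map_sum]
    exact Finset.sum_congr rfl fun c _ => (LinearMap.baseChange_tmul _ _ _).symm

/-- **[L2]** over `𝔽_p` and all finite extensions -/
theorem isFlatAt_resZ' (W : WeierstrassCurve ℤ) (hΔ : W.Δ ≠ 0) {p : ℕ} [hp : Fact p.Prime]
    (hp2 : p ≠ 2) (h30 : H96.StatementS30) (h32 : StatementS32')
    (hirr : (resZ W hΔ p).IsIrreducible) {M : ℕ} [NeZero M]
    (hmod : W.IsResiduallyModularOfLevel p M) :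
    (¬ p ∣ M → ∀ (k : Type) [Field k] [Finite k] [Algebra (ZMod p) k],
      (GaloisRepAdic.ofResidualGaloisRep ((resZ W hΔ p).baseChange k)).IsFlatAt p) ∧
      ∀ q : ℕ, q.Prime → ¬ q ∣ M → q ≠ p → (resZ W hΔ p).IsUnramifiedAt q := by
  let ψ : ZMod p →+* ResidueField ℤ_[p] := (PadicInt.residueField (p := p)).symm.toRingHom
  have hψ : Function.Surjective ψ := (PadicInt.residueField (p := p)).symm.surjective
  letI : Algebra (ZMod p) (ResidueField ℤ_[p]) := ψ.toAlgebra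
  haveI : Finite (ResidueField ℤ_[p]) :=
    Finite.of_injective _ (PadicInt.residueField (p := p)).injective
  have hirr' : ((resZ W hΔ p).baseChange (ResidueField ℤ_[p])).IsIrreducible :=
    isIrreducible_baseChangeAlong ψ hψ hirr
  obtain ⟨h1, h2⟩ := isFlatAt_of_isResiduallyModular' W hΔ hp2 h30 h32 (𝒪 := ℤ_[p]) (by
    rw [PadicInt.maximalIdeal_eq_span_p]
    exact Ideal.mem_span_singleton_self _) hirr' hmod
  refine ⟨fun hpM k _ _ _ => ?_, fun q hq hqM hqp A hA σ hσ => ?_⟩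
  · rw [isFlatAt_ofResidual_iff]
    refine hasFlatOrder_baseChange k _ (hasFlatOrder_of_baseChangeAlong ψ _ ?_)
    exact (isFlatAt_ofResidual_iff p _).1 (h1 hpM)
  · exact eq_one_of_baseChangeAlong ψ _ (h2 q hq hqM hqp A hA σ hσ)

end main

end Fermat.Agent.H47
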