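import Fermat.Agent.H59S43
import Fermat.Agent.H87Glue2
import Fermat.Agent.H47LL2

/-!
# The local hypotheses for semistable curves
-/

set_option autoImplicit false
set_option linter.style.haveILetI false
set_option linter.unusedSectionVars false

noncomputable section

open Polynomial IsLocalRing GaloisRep
open Fermat.Agent.H87.Glue

namespace Fermat.Agent.H59

/-- a unipotent endomorphism of a plane has characteristic polynomial `(X - 1) ^ 2` -/
theorem charpoly_of_unipotent {K V : Type} [Field K] [AddCommGroup V] [Module K V]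
    [Module.Finite K V] [Module.Free K V]
    (h2 : Module.finrank K V = 2) (f : V →ₗ[K] V) (hf : ∀ x, f (f x - x) = f x - x) :
    LinearMap.charpoly f = (X - 1) ^ 2 := by
  let b : Module.Basis (Fin 2) K V := Module.finBasisOfFinrankEq K V h2
  set m : Matrix (Fin 2) (Fin 2) K := LinearMap.toMatrix b b f with hm
  have h1 : (m - 1) * (m - 1) = 0 := by
    have e1 : (f - 1) * (f - 1) = 0 := by
      refine LinearMap.ext fun x => ?_
      change f (f x - x) - (f x - x) = 0
      rw [hf, sub_self]
    have e2 := congrArg (LinearMap.toMatrix b b) e1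
    rw [LinearMap.toMatrix_mul, map_sub, LinearMap.toMatrix_one, map_zero] at e2
    exact e2
  rw [← LinearMap.charpoly_toMatrix f b, ← hm, H53.charpoly_eq_sub_one_sq_iff]
  have c := fun i j => congrFun (congrFun h1 i) j
  have c00 := c 0 0
  have c01 := c 0 1
  have c10 := c 1 0
  have c11 := c 1 1
  simp only [Matrix.mul_apply, Fin.sum_univ_two, Matrix.sub_apply, Matrix.one_apply_eq,
    Matrix.zero_apply, ne_eq, Fin.isValue, zero_ne_one, not_false_eq_true, Matrix.one_apply_ne,
    one_ne_zero, sub_zero] at c00 c01 c10 c11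
  have hdet : (m 0 0 - 1) * (m 1 1 - 1) - m 0 1 * m 1 0 = 0 := by
    have h3 : ((m 0 0 - 1) * (m 1 1 - 1) - m 0 1 * m 1 0) ^ 2 = 0 := by
      linear_combination ((m 1 1 - 1) ^ 2 + m 0 1 * m 1 0) * c00 -
        (m 1 0 * (m 0 0 - 1) + m 1 0 * (m 1 1 - 1)) * c01
    exact pow_eq_zero_iff (two_ne_zero) |>.mp h3
  have htr : m 0 0 - 1 + (m 1 1 - 1) = 0 := by
    have h3 : (m 0 0 - 1 + (m 1 1 - 1)) ^ 2 = 0 := by
      linear_combination c00 + c11 + 2 * hdet
    exact pow_eq_zero_iff (two_ne_zero) |>.mp h3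
  constructor
  · rw [Matrix.trace_fin_two]
    linear_combination htr
  · rw [Matrix.det_fin_two]
    linear_combination hdet + htr

variable {W : WeierstrassCurve ℤ} (hΔ : W.Δ ≠ 0) {p : ℕ} [hp : Fact p.Prime]

theorem localAt (hss : W.IsSemistableModel) (hp2 : p ≠ 2) (h30 : H96.StatementS30)
    (h32 : H47.StatementS32') (hirr : (resZ W hΔ p).IsIrreducible) : LocalAt W hΔ p where
  unip q hq hqp P hP σ hσ := charpoly_of_unipotent (resZ W hΔ p).finrank_eq _
    (resZ_unipotent W hΔ p hss hq hqp hP hσ)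
  flat M hM hpM hmod := by
    haveI : NeZero M := ⟨hM.ne'⟩
    exact (H47.isFlatAt_resZ' W hΔ hp2 h30 h32 hirr hmod).1 hpM
  unr M hM hmod q hq hqp hqM := by
    haveI : NeZero M := ⟨hM.ne'⟩
    exact (H47.isFlatAt_resZ' W hΔ hp2 h30 h32 hirr hmod).2 q hq hqM hqp

end Fermat.Agent.H59
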