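/-
H39ConvA: eigenvectors modulo `p` in a lattice, for a character of a commutative ring acting on
the lattice which kills the annihilator of the lattice (Deligne-Serre / Nakayama).
-/
import Mathlib
import Fermat.Agent.H30Eigen

set_option autoImplicit false

noncomputable section

namespace Fermat.Agent.H39

open Pointwise

/-- The sublattice `p L`. -/
def pSub (p : ℕ) (A : Type*) [CommRing A] (L : Type*) [AddCommGroup L] [Module A L] :
    Submodule A L := LinearMap.range (LinearMap.lsmul A L (p : A))

theorem mem_pSub {p : ℕ} {A : Type*} [CommRing A] {L : Type*} [AddCommGroup L] [Module A L]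
    {v : L} : v ∈ pSub p A L ↔ ∃ w : L, v = p • w := by
  constructor
  · rintro ⟨w, rfl⟩
    exact ⟨w, Nat.cast_smul_eq_nsmul A p w⟩
  · rintro ⟨w, rfl⟩
    exact ⟨w, Nat.cast_smul_eq_nsmul A p w⟩

instance pQuotModule (p : ℕ) (A : Type*) [CommRing A] (L : Type*) [AddCommGroup L] [Module A L] :
    Module (ZMod p) (L ⧸ pSub p A L) :=
  AddCommGroup.zmodModule fun x => by
    obtain ⟨v, rfl⟩ := Submodule.Quotient.mk_surjective _ x
    rw [← Submodule.Quotient.mk_smul, Submodule.Quotient.mk_eq_zero]
    exact mem_pSub.mpr ⟨v, rfl⟩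

/-- the action on `L / p L` -/
def pQuotAct (p : ℕ) (A : Type*) [CommRing A] (L : Type*) [AddCommGroup L] [Module A L] :
    A →+* Module.End (ZMod p) (L ⧸ pSub p A L) where
  toFun a := AddMonoidHom.toZModLinearMap p (DistribSMul.toAddMonoidHom (L ⧸ pSub p A L) a)
  map_one' := LinearMap.ext fun _ => one_smul _ _
  map_mul' s t := LinearMap.ext fun x => mul_smul s t x
  map_zero' := LinearMap.ext fun _ => zero_smul _ _
  map_add' s t := LinearMap.ext fun x => add_smul s t x

theorem pQuotAct_apply {p : ℕ} {A : Type*} [CommRing A] {L : Type*} [AddCommGroup L] [Module A L]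
    (a : A) (x : L ⧸ pSub p A L) : pQuotAct p A L a x = a • x := rfl

/-- **Eigenvectors mod `p`.** -/
theorem exists_eigen_mod {p : ℕ} [hp : Fact p.Prime] {A : Type*} [CommRing A] {L : Type*}
    [AddCommGroup L] [Module A L] [Module.Finite ℤ L] (χ : A →+* ZMod p)
    (h : ∀ s : A, (∀ v : L, s • v = 0) → χ s = 0) :
    ∃ v : L, (¬ ∃ w : L, v = p • w) ∧
      ∀ (a : A) (m : ℤ), (m : ZMod p) = χ a → ∃ w : L, a • v - m • v = p • w := by
  classical
  let V := L ⧸ pSub p A L
  have hfinZ : Module.Finite ℤ V :=
    Module.Finite.of_surjective ((pSub p A L).mkQ.restrictScalars ℤ)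
      (Submodule.mkQ_surjective _)
  have hfin : Module.Finite (ZMod p) V := Module.Finite.of_restrictScalars_finite ℤ (ZMod p) V
  have hLA : Module.Finite A L := Module.Finite.of_restrictScalars_finite ℤ A L
  -- an element of `A` killing `L / p L` is killed by `χ`
  have key : ∀ P : A, (∀ v : L, ∃ w : L, P • v = p • w) → χ P = 0 := by
    intro P hP
    by_contra hne
    obtain ⟨b, hb⟩ := ZMod.intCast_surjective (χ P)⁻¹
    have hpker : (p : A) ∈ RingHom.ker χ := by
      rw [RingHom.mem_ker, map_natCast]
      exact ZMod.natCast_self p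
    have htker : 1 - (b : A) * P ∈ RingHom.ker χ := by
      rw [RingHom.mem_ker, map_sub, map_one, map_mul, map_intCast, hb, inv_mul_cancel₀ hne,
        sub_self]
    have hle : (⊤ : Submodule A L) ≤ RingHom.ker χ • (⊤ : Submodule A L) := by
      intro v _
      obtain ⟨w, hw⟩ := hP v
      have e1 : v = (1 - (b : A) * P) • v + (p : A) • ((b : A) • w) := by
        rw [sub_smul, one_smul, mul_smul, hw, smul_comm (p : A), Nat.cast_smul_eq_nsmul]
        abel
      rw [e1]
      exact Submodule.add_mem _ (Submodule.smul_mem_smul htker trivial)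
        (Submodule.smul_mem_smul hpker trivial)
    obtain ⟨r, hr, hr0⟩ := Submodule.exists_sub_one_mem_and_smul_eq_zero_of_fg_of_le_smul
      (RingHom.ker χ) (⊤ : Submodule A L) Module.Finite.fg_top hle
    have h1 := h r (fun v => hr0 v trivial)
    rw [RingHom.mem_ker, map_sub, map_one, h1, zero_sub, neg_eq_zero] at hr
    exact one_ne_zero hr
  obtain ⟨x, hx0, hx⟩ := Fermat.Agent.H30.exists_eigenvector_of_relations (K := ZMod p) (V := V)
    (pQuotAct p A L) χ (by
      intro s c hs
      have h2 := key (∑ t ∈ s, (((c t).val : ℕ) : A) * t) (fun v => by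
        rw [← mem_pSub (A := A), ← Submodule.Quotient.mk_eq_zero, Submodule.Quotient.mk_smul]
        have h3 := congrArg (fun f : Module.End (ZMod p) V => f (Submodule.Quotient.mk v)) hs
        simp only [LinearMap.zero_apply, LinearMap.sum_apply, LinearMap.smul_apply] at h3
        rw [← h3, Finset.sum_smul]
        refine Finset.sum_congr rfl fun t _ => ?_
        rw [mul_smul, Nat.cast_smul_eq_nsmul]
        conv_rhs => rw [← ZMod.natCast_zmod_val (c t)]
        rw [Nat.cast_smul_eq_nsmul]
        rfl)
      rw [map_sum] at h2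
      rw [← h2]
      refine Finset.sum_congr rfl fun t _ => ?_
      rw [map_mul, map_natCast, ZMod.natCast_zmod_val])
  obtain ⟨v, rfl⟩ := Submodule.Quotient.mk_surjective _ x
  refine ⟨v, fun hv => hx0 ((Submodule.Quotient.mk_eq_zero _).mpr (mem_pSub.mpr hv)),
    fun a m hm => ?_⟩
  rw [← mem_pSub (A := A), ← Submodule.Quotient.mk_eq_zero, Submodule.Quotient.mk_sub,
    Submodule.Quotient.mk_smul, Submodule.Quotient.mk_smul, ← pQuotAct_apply, hx a, ← hm,
    Int.cast_smul_eq_zsmul, sub_self]

end Fermat.Agent.H39
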