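/-
H39Conv: from eigenvectors in `J_0(N)[p]`, or cusp forms which are eigenforms mod `p`, to
residual modularity of level `N`.
-/
import Fermat.Agent.H39ConvA
import Fermat.Agent.H35Kill
import Fermat.Agent.H90Kappa
import Fermat.Agent.H49Lifting
import Fermat.Agent.H23Main
import Fermat.Prelude.Def_FLTPrelim_ModularRep
import Fermat.Prelude.Def_CuspForm_HeckeLocal

set_option autoImplicit false

noncomputable section

namespace Fermat.Agent.H39

open CuspForm ModularFormClass ModularCurve AlgebraicCurve Fermat.Agent.H31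
open Fermat.Agent.H49 (heckeCoeffTwo)

/-- **End step**: a cusp form with integral coefficients, not zero mod `p`, and a good Hecke
eigenform mod `p`, gives residual modularity. -/
theorem isResiduallyModularOfLevel_of_form {W : WeierstrassCurve ℤ} {p N : ℕ} [NeZero N]
    (hp : p.Prime) (f₀ : CuspForm (CongruenceSubgroup.Gamma0 N) 2) (c : ℕ → ℤ)
    (hc : ∀ n, qCoeff f₀ n = (c n : ℂ)) (hne : ∃ n, ¬ (p : ℤ) ∣ c n)
    (hT : ∀ ℓ : ℕ, ℓ.Prime → W.IsGoodPrimeFor ℓ → ¬ ℓ ∣ N → ℓ ≠ p →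
      ∀ n, (p : ℤ) ∣ heckeCoeffTwo N ℓ c n - W.apOfModel ℓ * c n) :
    W.IsResiduallyModularOfLevel p N := by
  obtain ⟨𝔪, h𝔪, hp𝔪⟩ := FLTPrelim.exists_maximalIdeal_natCast_prime_mem hp
  have hcomap : ∀ m : ℤ, ((m : integralClosure ℤ ℂ) ∈ 𝔪 ↔ (p : ℤ) ∣ m) := by
    intro m
    constructor
    · intro hm
      by_contra hnd
      have hcop : IsCoprime (p : ℤ) m :=
        (Nat.prime_iff_prime_int.mp hp).coprime_iff_not_dvd.mpr hnd
      obtain ⟨a, b, hab⟩ := hcop
      apply h𝔪.ne_top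
      rw [Ideal.eq_top_iff_one]
      have h1 : ((a * p + b * m : ℤ) : integralClosure ℤ ℂ) ∈ 𝔪 := by
        push_cast
        exact 𝔪.add_mem (𝔪.mul_mem_left _ hp𝔪) (𝔪.mul_mem_left _ hm)
      rwa [hab, Int.cast_one] at h1
    · rintro ⟨d, rfl⟩
      push_cast
      exact 𝔪.mul_mem_right _ hp𝔪
  haveI := h𝔪.isPrime
  obtain ⟨g, hg, hgc⟩ := H49.exists_normalizedEigenform_congruent
    (H23.hasIntegralStructure N 2) 𝔪 f₀ (by
      obtain ⟨n, hn⟩ := hne
      exact ⟨n, (c n : integralClosure ℤ ℂ), fun h => hn ((hcomap _).mp h), by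
        rw [hc n]; norm_cast⟩)
  refine ⟨g, 𝔪, hg, h𝔪, hp𝔪, fun ℓ hℓ hgood hℓN hℓp => ?_⟩
  obtain ⟨a, ha, ham⟩ := hgc ℓ hℓ
  refine ⟨a, ha, ham _ fun n => ?_⟩
  refine ⟨((heckeCoeffTwo N ℓ c n - W.apOfModel ℓ * c n : ℤ) : integralClosure ℤ ℂ),
    (hcomap _).mpr (hT ℓ hℓ hgood hℓN hℓp n), ?_⟩
  have h1 : (fun n => qCoeff (⇑f₀) n) = fun n => ((c n : ℤ) : ℂ) := funext hc
  rw [h1]
  simp only [heckeCoeffTwo, if_neg hℓN, hc]
  split_ifs with h2
  · push_cast
    norm_cast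
  · push_cast
    norm_cast

/-- the polynomial ring in the good Hecke operators acting on integral forms -/
def latHecke (N : ℕ) [NeZero N] (S : Set ℕ) :
    MvPolynomial (GoodPrimes N S) ℤ →+* Module.End ℤ ↥(intLattice N 2) :=
  (latticeActionHom N S).comp (evHecke N S)

theorem coe_latHecke {N : ℕ} [NeZero N] {S : Set ℕ} (P : MvPolynomial (GoodPrimes N S) ℤ)
    (f : ↥(intLattice N 2)) :
    ((latHecke N S P f : ↥(intLattice N 2)) : CuspForm (CongruenceSubgroup.Gamma0 N) 2) =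
      ((evHecke N S P : heckeAlgebra N 2 S) :
        Module.End ℂ (CuspForm (CongruenceSubgroup.Gamma0 N) 2))
          (f : CuspForm (CongruenceSubgroup.Gamma0 N) 2) := rfl

theorem exists_int_coeff {N : ℕ} (f : ↥(intLattice N 2)) :
    ∀ n : ℕ, ∃ m : ℤ, qCoeff (f : CuspForm (CongruenceSubgroup.Gamma0 N) 2) n = (m : ℂ) := by
  obtain ⟨f, hf⟩ := f
  refine Submodule.span_induction (p := fun f _ => ∀ n : ℕ, ∃ m : ℤ, qCoeff (f : CuspForm (CongruenceSubgroup.Gamma0 N) 2) n = (m : ℂ))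
    (fun x hx => hx) ?_ ?_ ?_ hf
  · intro n
    exact ⟨0, by rw [H49.qCoeff_zero, Int.cast_zero]⟩
  · intro x y _ _ hx hy n
    obtain ⟨a, ha⟩ := hx n
    obtain ⟨b, hb⟩ := hy n
    exact ⟨a + b, by rw [H49.qCoeff_add, ha, hb, Int.cast_add]⟩
  · intro a x _ hx n
    obtain ⟨b, hb⟩ := hx n
    refine ⟨a * b, ?_⟩
    have : a • x = (a : ℂ) • x := by rw [Int.cast_smul_eq_zsmul]
    rw [this, H49.qCoeff_smul, hb, Int.cast_mul]

/-- **[CONV]** A nonzero eigenvector in `J_0(N)[p]` gives residual modularity of level `N`. -/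
theorem isResiduallyModularOfLevel_of_eigenvector {W : WeierstrassCurve ℤ} {p N : ℕ} [NeZero N]
    (hp : p.Prime) (y : JZero N) (hy0 : y ≠ 0) (hpy : p • y = 0)
    (hT : ∀ ℓ : Nat.Primes, W.IsGoodPrimeFor ℓ → ¬ (ℓ : ℕ) ∣ N → (ℓ : ℕ) ≠ p →
      heckeOperatorBar N ℓ y = W.apOfModel (ℓ : ℕ) • y) :
    W.IsResiduallyModularOfLevel p N := by
  haveI : Fact p.Prime := ⟨hp⟩
  let S : Set ℕ := {ℓ | ¬ W.IsGoodPrimeFor ℓ ∨ ℓ = p}
  let _ := heckeModuleBar N
  let A := MvPolynomial (GoodPrimes N S) ℤ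
  let _ : Module A ↥(intLattice N 2) := Module.compHom _ (latHecke N S)
  haveI := intLattice.moduleFinite N
  let ev : A →+* ℤ := MvPolynomial.eval (fun ℓ : GoodPrimes N S => W.apOfModel (ℓ.1 : ℕ))
  let χ : A →+* ZMod p := (Int.castRingHom (ZMod p)).comp ev
  have hact : ∀ P : A, (inclHecke N S P : HeckeAlg) • y = ev P • y := by
    intro P
    induction P using MvPolynomial.induction_on with
    | C a =>
      have h1 : (MvPolynomial.C a : MvPolynomial (GoodPrimes N S) ℤ) =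
          (a : MvPolynomial (GoodPrimes N S) ℤ) := by simp
      rw [h1, map_intCast, map_intCast, Int.cast_smul_eq_zsmul, Int.cast_id]
    | add Q R hQ hR => rw [map_add, map_add, add_smul, add_zsmul, hQ, hR]
    | mul_X Q a hQ =>
      rw [map_mul, map_mul, mul_smul, inclHecke_X]
      have hgen : heckeGen a.1 • y = heckeOperatorBar N a.1 y :=
        heckeModuleBar_heckeGen_smul (H67.heckeOperatorsCommuteBar N) a.1 y
      have h3 : ev (MvPolynomial.X a) = W.apOfModel (a.1 : ℕ) := MvPolynomial.eval_X _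
      rw [hgen, hT a.1 (by
        by_contra h
        exact a.2.2 (Or.inl h)) a.2.1 (fun h => a.2.2 (Or.inr h)), smul_comm, hQ, smul_smul, h3,
        mul_comm]
  obtain ⟨v, hv, hvT⟩ := exists_eigen_mod (L := ↥(intLattice N 2)) χ (by
    intro s hs
    have h1 : evHecke N S s = 0 := by
      apply latticeActionHom_injective N S (H23.hasIntegralStructure N 2)
      rw [map_zero]
      exact LinearMap.ext hs
    have h2 : H35.evEnd N dvd_rfl S s = 0 := by
      have h5 : H35.evEnd N dvd_rfl S =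
          ((heckeAlgebra N 2 S).val.toRingHom.comp (evHecke N S)) := by
        refine MvPolynomial.ringHom_ext (fun z => by simp) fun a => ?_
        rw [H35.evEnd_X, RingHom.comp_apply, evHecke_X]
        rfl
      rw [h5, RingHom.comp_apply, h1, map_zero]
    letI := H90.algQbarC
    have h3 := H35.smul_eq_zero_of_evEnd (N := N) (N' := N) dvd_rfl S
      (fun n c χ hn hr => hr.isPE hn) s h2 p hp.ne_zero y hpy
    rw [hact] at h3
    have h4 : (p : ℤ) ∣ ev s := by
      by_contra hnd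
      have hcop : IsCoprime (p : ℤ) (ev s) :=
        (Nat.prime_iff_prime_int.mp hp).coprime_iff_not_dvd.mpr hnd
      obtain ⟨a, b, hab⟩ := hcop
      apply hy0
      rw [← one_zsmul y, ← hab, add_zsmul, mul_zsmul, mul_zsmul, h3, natCast_zsmul, hpy, zsmul_zero,
        zsmul_zero, add_zero]
    show ((ev s : ℤ) : ZMod p) = 0
    exact (ZMod.intCast_zmod_eq_zero_iff_dvd _ _).mpr h4)
  have hvc := exists_int_coeff v
  choose c hc using hvc
  refine isResiduallyModularOfLevel_of_form hp (v : CuspForm (CongruenceSubgroup.Gamma0 N) 2) c hc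
    ?_ ?_
  · by_contra hcon
    push Not at hcon
    apply hv
    have hmem : ((p : ℂ)⁻¹ • (v : CuspForm (CongruenceSubgroup.Gamma0 N) 2)) ∈ intLattice N 2 := by
      apply Submodule.subset_span
      intro n
      obtain ⟨d, hd⟩ := hcon n
      refine ⟨d, ?_⟩
      rw [H49.qCoeff_smul, hc n, hd]
      have : (p : ℂ) ≠ 0 := by exact_mod_cast hp.ne_zero
      push_cast
      field_simp
    refine ⟨⟨_, hmem⟩, Subtype.ext ?_⟩
    have : (p : ℂ) ≠ 0 := by exact_mod_cast hp.ne_zero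
    show (v : CuspForm (CongruenceSubgroup.Gamma0 N) 2) = p • ((p : ℂ)⁻¹ • (v : CuspForm (CongruenceSubgroup.Gamma0 N) 2))
    rw [← Nat.cast_smul_eq_nsmul ℂ, smul_smul, mul_inv_cancel₀ this, one_smul]
  · intro ℓ hℓ hgood hℓN hℓp n
    let ℓ' : GoodPrimes N S := ⟨⟨ℓ, hℓ⟩, hℓN, by
      rintro (h | h)
      · exact h hgood
      · exact hℓp h⟩
    obtain ⟨w, hw⟩ := hvT (MvPolynomial.X ℓ') (W.apOfModel ℓ) (by
      show _ = ((ev (MvPolynomial.X ℓ') : ℤ) : ZMod p)
      rw [show ev (MvPolynomial.X ℓ') = W.apOfModel ℓ from MvPolynomial.eval_X _])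
    obtain ⟨d, hd⟩ := exists_int_coeff w n
    refine ⟨d, ?_⟩
    have h1 := congrArg (fun x : ↥(intLattice N 2) =>
      qCoeff (x : CuspForm (CongruenceSubgroup.Gamma0 N) 2) n) hw
    have h2 : (((MvPolynomial.X ℓ' : A) • v : ↥(intLattice N 2)) :
        CuspForm (CongruenceSubgroup.Gamma0 N) 2) = CuspForm.heckeTLin 2 hℓ hℓN v := by
      show (((evHecke N S (MvPolynomial.X ℓ') : heckeAlgebra N 2 S) :
        Module.End ℂ (CuspForm (CongruenceSubgroup.Gamma0 N) 2))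
          (v : CuspForm (CongruenceSubgroup.Gamma0 N) 2)) = _
      rw [evHecke_X]
      rfl
    have h3 : ((((MvPolynomial.X ℓ' : A) • v - W.apOfModel ℓ • v : ↥(intLattice N 2)) :
        CuspForm (CongruenceSubgroup.Gamma0 N) 2)) =
        CuspForm.heckeTLin 2 hℓ hℓN v - (W.apOfModel ℓ : ℂ) • (v : CuspForm _ 2) := by
      rw [← h2, Int.cast_smul_eq_zsmul]
      rfl
    have h4 : ((p • w : ↥(intLattice N 2)) : CuspForm (CongruenceSubgroup.Gamma0 N) 2) =
        (p : ℂ) • (w : CuspForm (CongruenceSubgroup.Gamma0 N) 2) := by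
      rw [Nat.cast_smul_eq_nsmul]
      rfl
    simp only [h3, h4] at h1
    rw [H49.qCoeff_sub, H49.qCoeff_T_two, H49.qCoeff_smul, H49.qCoeff_smul, hc n, hd] at h1
    have h5 : heckeCoeffTwo N ℓ (fun n => qCoeff (v : CuspForm (CongruenceSubgroup.Gamma0 N) 2) n) n
        = ((heckeCoeffTwo N ℓ c n : ℤ) : ℂ) := by
      simp only [heckeCoeffTwo, if_neg hℓN, hc]
      split_ifs with h2
      · push_cast
        rfl
      · push_cast
        rfl
    rw [h5] at h1
    exact_mod_cast h1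

theorem modularRepOfLevel_of_eigenvector (P : FreyPackage) {N : ℕ} [NeZero N]
    {W : WeierstrassCurve ℤ} (hW : W.IsIntegralModelOf P.freyCurve)
    (y : JZero N) (hy0 : y ≠ 0) (hpy : P.p • y = 0)
    (hT : ∀ ℓ : Nat.Primes, W.IsGoodPrimeFor ℓ → ¬ (ℓ : ℕ) ∣ N → (ℓ : ℕ) ≠ P.p →
      heckeOperatorBar N ℓ y = W.apOfModel (ℓ : ℕ) • y) :
    P.ModularRepOfLevel N := by
  obtain ⟨f, 𝔪, h1, h2, h3, h4⟩ := isResiduallyModularOfLevel_of_eigenvector P.pp y hy0 hpy hT
  exact ⟨f, W, 𝔪, h1, hW, h2, h3, h4⟩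

end Fermat.Agent.H39
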