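import Fermat.Agent.H35LTInput
import Fermat.Agent.H39Conv
import Fermat.Agent.H39Real2
import Fermat.Agent.H31Inputs
import Fermat.Agent.H62NE
import Fermat.Agent.H39WeilDet
import Fermat.Agent.H54Frobenius

/-!
# Mazur's principle: from the geometric input to residual modularity

`mazurW`: for a Weierstrass curve `W` over `ℤ` with `W[p]` irreducible (`p` odd), unramified at a prime
`q ≠ p`, `q ∤ M`: if `W[p]` is modular of level `M * q` then it is modular of level `M`, unless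
`q ≡ 1 mod p` and all Frobenius elements at `q` act on `W[p]` by one and the same sign. The geometric
input is `MazurInput p 1 q M`.
-/

set_option autoImplicit false
set_option linter.style.haveILetI false

noncomputable section

open WeierstrassCurve CuspForm ModularCurve Fermat.Agent.H31 Fermat.Agent.H39 Fermat.Agent.H67
open Fermat.Agent.H35

namespace Fermat.Agent.H2Mz

local notation "Qb" => AlgebraicClosure ℚ

/-- `W[p]` is fixed by all inertia groups at `q`. -/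
def UnrTor (W : WeierstrassCurve ℤ) (p q : ℕ) : Prop :=
  ∀ A : ValuationSubring Qb, A.LiesOverPrime q → ∀ σ ∈ A.inertiaSubgroupIn ℚ, ∀ x : Tor W p,
    σ • x = x

/-- all Frobenius elements at all places above `q` act on `W[p]` by the same sign, and
`q ≡ 1 mod p`. -/
def ScalarAt (W : WeierstrassCurve ℤ) (p q : ℕ) : Prop :=
  (q : ZMod p) = 1 ∧ ∃ u : ℤ, (u = 1 ∨ u = -1) ∧ ∀ A : ValuationSubring Qb, A.LiesOverPrime q →
    ∀ φ : H53.GQ, A.IsFrobeniusAt φ q → ∀ x : Tor W p, φ • x = u • x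

/-- **The geometric input for odd primes.** For `p = 3` the level must contain a prime
`s ≡ 2 mod 3` (no elliptic points of order three). -/
def MazurOdd : Prop :=
  ∀ (p q M : ℕ) [NeZero M] [NeZero (M * q)] [NeZero q], p.Prime → p ≠ 2 → q.Prime → q ≠ p →
    ¬ q ∣ M → (p = 3 → ∃ s : ℕ, s.Prime ∧ s % 3 = 2 ∧ s ∣ M) → MazurInput p 1 q M

section eigen

variable {N : ℕ} [NeZero N] {S : Finset ℕ} {p : ℕ} [hp : Fact p.Prime]

theorem trace_det_smul {W : WeierstrassCurve ℤ} {ℓ : ℕ} (hℓ : ℓ.Prime) (hg : W.IsGoodPrimeFor ℓ)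
    (hℓp : ℓ ≠ p) {A : ValuationSubring Qb} (hA : A.LiesOverPrime ℓ) {φ : Qb ≃ₐ[ℚ] Qb}
    (hφ : A.IsFrobeniusAt φ ℓ) :
    LinearMap.trace (ZMod p) _ (WeierstrassCurve.Affine.Point.galoisRepModuleEnd
      (K := AlgebraicClosure ℚ) ℚ (W.map (Int.castRingHom ℚ)) p φ) = (W.apOfModel ℓ : ZMod p) ∧
    LinearMap.det (WeierstrassCurve.Affine.Point.galoisRepModuleEnd
      (K := AlgebraicClosure ℚ) ℚ (W.map (Int.castRingHom ℚ)) p φ) = (ℓ : ZMod p) := by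
  have hn : ¬ ℓ ∣ p := fun h => hℓp ((Nat.prime_dvd_prime_iff_eq hℓ hp.out).mp h)
  exact ⟨H62.trace_frob_rat W hℓ hg hn hA hφ, H62.det_frob_rat W hℓ hg hn hA hφ⟩

/-- On the eigenspace of `J_0(N)[p]` attached to `W[p]`, all good Hecke operators act by `a_ℓ`. -/
theorem hecke_of_eigen (hpS : p ∈ S)
    (hNS : ∀ q : ℕ, q.Prime → q ∣ N → q ∈ S) {W : WeierstrassCurve ℤ} (hΔ : W.Δ ≠ 0)
    (hΔS : ∀ q : ℕ, q.Prime → (q : ℤ) ∣ W.Δ → q ∈ S)
    {y : JZero N} (hpy : p • y = 0)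
    (hT : ∀ ℓ : Nat.Primes, (ℓ : ℕ) ∉ S → heckeOperatorBar N ℓ y = W.apOfModel (ℓ : ℕ) • y)
    (ℓ : Nat.Primes) (hg : W.IsGoodPrimeFor ℓ) (hℓN : ¬ (ℓ : ℕ) ∣ N) (hℓp : (ℓ : ℕ) ≠ p) :
    heckeOperatorBar N ℓ y = W.apOfModel (ℓ : ℕ) • y := by
  have hp1 : p.Prime := hp.out
  have hJ := H31.jzeroInputs N
  let _ := heckeModuleBar N
  have hcomm := H67.heckeOperatorsCommuteBar N
  have _ := hJ.comm
  have _ := hJ.principal
  have hF : FrobeniusQuadratic (K := ℚ) (L := AlgebraicClosure ℚ) N p (JZero N) :=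
    frobeniusQuadratic_of_specializationExists (hJ.spec p hp1)
  have hquad := quadratic_eig (J := JZero N) hpS hNS hΔ hΔS hF
    (finiteLevel_JZero N p (fun n => hJ.finite p n hp1))
  obtain ⟨A, hA⟩ := H54.exists_liesOverPrime ℓ.2
  obtain ⟨φ, hφ⟩ := H54.exists_isFrobeniusAt ℓ.2 hA
  obtain ⟨htr, hdet⟩ := trace_det_smul (p := p) (W := W) ℓ.2 hg hℓp hA hφ
  have hφ' := hquad φ
  rw [htr, hdet] at hφ'
  set μ := galEig N (↑S : Set ℕ) p (JZero N) (fun ℓ => W.apOfModel (ℓ.1 : ℕ)) with hμ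
  have hy : y ∈ eigSub N (↑S : Set ℕ) p (JZero N) (fun ℓ => W.apOfModel (ℓ.1 : ℕ)) := by
    refine ⟨hpy, fun r => ?_⟩
    have h1 := hT r.1 (by simpa using r.2.2)
    rw [← h1]
    exact heckeModuleBar_heckeGen_smul hcomm r.1 y
  -- apply the relation to `z = φ⁻¹ y`
  set z := μ φ⁻¹ ⟨y, hy⟩ with hz
  have hz1 : μ φ z = ⟨y, hy⟩ := by
    rw [hz, ← Module.End.mul_apply, ← map_mul, mul_inv_cancel, map_one, Module.End.one_apply]
  have h2 := LinearMap.congr_fun hφ' z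
  rw [LinearMap.add_apply, LinearMap.sub_apply, Module.End.mul_apply, hz1, LinearMap.smul_apply,
    LinearMap.smul_apply, hz1, Module.End.one_apply, LinearMap.zero_apply,
    Int.cast_smul_eq_zsmul, Nat.cast_smul_eq_nsmul] at h2
  have h3 := congrArg (Subtype.val) h2
  have h4 : φ • y - W.apOfModel (ℓ : ℕ) • y + (ℓ : ℕ) • (z : JZero N) = 0 := h3
  have hℓNp : ¬ (ℓ : ℕ) ∣ N * p := by
    intro h
    rcases ℓ.2.dvd_mul.mp h with h | h
    · exact hℓN h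
    · exact hℓp ((Nat.prime_dvd_prime_iff_eq ℓ.2 hp1).mp h)
  have hz2 : φ • (z : JZero N) = y := congrArg Subtype.val hz1
  have h5 := hF ℓ ℓ.2 hℓNp A hA φ hφ (z : JZero N) ⟨1, by rw [pow_one]; exact z.2.1⟩
  rw [hz2] at h5
  have h6 : heckeGen ℓ • y = heckeOperatorBar N ℓ y := heckeModuleBar_heckeGen_smul hcomm ℓ y
  have h7 : heckeGen ⟨(ℓ : ℕ), ℓ.2⟩ • y = heckeOperatorBar N ℓ y := h6
  rw [h7] at h5
  have h8 : (φ • y - heckeOperatorBar N ℓ y + (ℓ : ℕ) • (z : JZero N)) -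
      (φ • y - W.apOfModel (ℓ : ℕ) • y + (ℓ : ℕ) • (z : JZero N)) = 0 := by
    rw [h4, h5, sub_zero]
  have h9 : W.apOfModel (ℓ : ℕ) • y - heckeOperatorBar N ℓ y = 0 := by
    rw [← h8]; abel
  exact (sub_eq_zero.mp h9).symm

/-- **[CONV]** with a finite set of exceptional primes. -/
theorem isResiduallyModular_of_eigen (hpS : p ∈ S)
    (hNS : ∀ q : ℕ, q.Prime → q ∣ N → q ∈ S) {W : WeierstrassCurve ℤ} (hΔ : W.Δ ≠ 0)
    (hΔS : ∀ q : ℕ, q.Prime → (q : ℤ) ∣ W.Δ → q ∈ S)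
    {y : JZero N} (hy0 : y ≠ 0) (hpy : p • y = 0)
    (hT : ∀ ℓ : Nat.Primes, (ℓ : ℕ) ∉ S → heckeOperatorBar N ℓ y = W.apOfModel (ℓ : ℕ) • y) :
    W.IsResiduallyModularOfLevel p N :=
  isResiduallyModularOfLevel_of_eigenvector hp.out y hy0 hpy fun ℓ hg hℓN hℓp =>
    hecke_of_eigen hpS hNS hΔ hΔS hpy hT ℓ hg hℓN hℓp

end eigen

section main

variable {p : ℕ} [hp : Fact p.Prime]

omit hp in
/-- an irreducible representation: an equivariant nonzero homomorphism is injective -/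
theorem injective_of_ne_zero {W : WeierstrassCurve ℤ} (hirr : W.ModRepIsIrreducible p)
    {J : Type*} [AddCommGroup J] [DistribMulAction (Qb ≃ₐ[ℚ] Qb) J] (ι : Tor W p →+ J)
    (hι : ∀ (σ : Qb ≃ₐ[ℚ] Qb) (x : Tor W p), ι (σ • x) = σ • ι x) (h0 : ∃ x, ι x ≠ 0) :
    Function.Injective ι := by
  obtain ⟨x₀, hx₀⟩ := h0
  let K : Submodule (ZMod p) (Tor W p) :=
    { carrier := {x | ι x = 0}
      zero_mem' := map_zero ι
      add_mem' := fun {a b} ha hb => by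
        change ι (a + b) = 0
        rw [map_add, show ι a = 0 from ha, show ι b = 0 from hb, add_zero]
      smul_mem' := fun c x hx => by
        change ι (c • x) = 0
        have : c • x = ((c.cast : ℤ)) • x := by
          rw [← Int.cast_smul_eq_zsmul (ZMod p), ZMod.intCast_cast, ZMod.cast_id', id]
        rw [this, map_zsmul, show ι x = 0 from hx, smul_zero] }
  have hK : K = ⊥ ∨ K = ⊤ := by
    refine hirr.2 K ?_
    intro σ x hx
    change ι (σ • x) = 0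
    rw [hι, show ι x = 0 from hx, smul_zero]
  rcases hK with h | h
  · rw [injective_iff_map_eq_zero]
    intro x hx
    have : x ∈ K := hx
    rw [h] at this
    exact (Submodule.mem_bot _).mp this
  · exfalso
    apply hx₀
    have : x₀ ∈ K := by rw [h]; trivial
    exact this

/-- the embedding of `W[p]` into `J_0(N)[p]` may be chosen inside an eigenspace of `w`. -/
theorem exists_w_embedding {W : WeierstrassCurve ℤ} (hp2 : p ≠ 2) (hirr : W.ModRepIsIrreducible p)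
    {J : Type*} [AddCommGroup J] [DistribMulAction (Qb ≃ₐ[ℚ] Qb) J] (ι : Tor W p →+ J)
    (hinj : Function.Injective ι)
    (hι : ∀ (σ : Qb ≃ₐ[ℚ] Qb) (x : Tor W p), ι (σ • x) = σ • ι x) (w : J →+ J)
    (hww : ∀ x, w (w x) = x) (hwσ : ∀ (σ : Qb ≃ₐ[ℚ] Qb) x, w (σ • x) = σ • w x)
    {I : Type*} (T : I → J →+ J) (hwT : ∀ i x, w (T i x) = T i (w x)) (a : I → ℤ)
    (hT : ∀ i x, T i (ι x) = a i • ι x) :
    ∃ (ι' : Tor W p →+ J) (ε : ℤ), (ε = 1 ∨ ε = -1) ∧ Function.Injective ι' ∧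
      (∀ (σ : Qb ≃ₐ[ℚ] Qb) (x : Tor W p), ι' (σ • x) = σ • ι' x) ∧
      (∀ x, w (ι' x) = ε • ι' x) ∧ ∀ i x, T i (ι' x) = a i • ι' x := by
  have hp1 : p.Prime := hp.out
  -- the two candidates
  let c : ℤ → Tor W p →+ J := fun ε =>
    { toFun := fun x => ι x + ε • w (ι x)
      map_zero' := by rw [map_zero, map_zero, smul_zero, add_zero]
      map_add' := fun x y => by rw [map_add, map_add, smul_add]; abel }
  have hc : ∀ ε x, c ε x = ι x + ε • w (ι x) := fun _ _ => rfl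
  have hcσ : ∀ (ε : ℤ) (σ : Qb ≃ₐ[ℚ] Qb) (x : Tor W p), c ε (σ • x) = σ • c ε x := by
    intro ε σ x
    rw [hc, hc, hι, hwσ, smul_add, ← DistribSMul.toAddMonoidHom_apply J σ (ε • w (ι x)), map_zsmul,
      DistribSMul.toAddMonoidHom_apply]
  have hcT : ∀ (ε : ℤ) (i : I) (x : Tor W p), T i (c ε x) = a i • c ε x := by
    intro ε i x
    rw [hc, map_add, map_zsmul, ← hwT, hT, map_zsmul, smul_add, smul_comm ε (a i)]
  have hcw : ∀ (ε : ℤ), (ε = 1 ∨ ε = -1) → ∀ x, w (c ε x) = ε • c ε x := by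
    rintro ε (rfl | rfl) x
    · rw [hc, one_zsmul, one_zsmul, map_add, hww, add_comm]
    · rw [hc, neg_one_zsmul, neg_one_zsmul, map_add, map_neg, hww, neg_add, neg_neg, add_comm]
  -- one of them is nonzero
  have hne : (∃ x, c 1 x ≠ 0) ∨ ∃ x, c (-1) x ≠ 0 := by
    by_contra hcon
    push Not at hcon
    obtain ⟨h1, h2⟩ := hcon
    obtain ⟨hnt⟩ : Nonempty (Nontrivial (Tor W p)) := ⟨hirr.1⟩
    obtain ⟨x, hx⟩ := exists_ne (0 : Tor W p)
    have h3 : (2 : ℕ) • ι x = 0 := by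
      have h4 := h1 x
      have h5 := h2 x
      rw [hc, one_zsmul] at h4
      rw [hc, neg_one_zsmul] at h5
      rw [two_smul]
      calc ι x + ι x = (ι x + w (ι x)) + (ι x + -w (ι x)) := by abel
        _ = 0 := by rw [h4, h5, add_zero]
    have h4 : ι ((2 : ℕ) • x) = 0 := by rw [map_nsmul, h3]
    have h5 : (2 : ℕ) • x = 0 := hinj (by rw [h4, map_zero])
    have h6 : (p : ℕ) • x = 0 := by
      have := x.2
      rw [Submodule.mem_torsionBy_iff] at this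
      rw [← natCast_zsmul]
      exact Subtype.ext this
    have hcop : Nat.Coprime 2 p := by
      rw [Nat.coprime_comm]
      exact (Nat.coprime_primes hp1 Nat.prime_two).mpr hp2
    obtain ⟨s, t, hst⟩ := Nat.isCoprime_iff_coprime.mpr hcop
    apply hx
    rw [← one_zsmul x, ← hst, add_zsmul, mul_zsmul, mul_zsmul, natCast_zsmul, natCast_zsmul, h5, h6,
      zsmul_zero, zsmul_zero, add_zero]
  rcases hne with h | h
  · exact ⟨c 1, 1, Or.inl rfl, injective_of_ne_zero hirr _ (hcσ 1) h, hcσ 1, hcw 1 (Or.inl rfl),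
      hcT 1⟩
  · exact ⟨c (-1), -1, Or.inr rfl, injective_of_ne_zero hirr _ (hcσ (-1)) h, hcσ (-1),
      hcw (-1) (Or.inr rfl), hcT (-1)⟩

/-- A Frobenius acting on `W[p]` by `-q ε`, `ε = ±1`, forces `q ≡ 1 mod p`. -/
theorem one_of_scalar {W : WeierstrassCurve ℤ} (hΔ : W.Δ ≠ 0) {q : ℕ} (hq : q.Prime) (hqp : q ≠ p)
    {A : ValuationSubring Qb} (hA : A.LiesOverPrime q) {φ : Qb ≃ₐ[ℚ] Qb}
    (hφ : A.IsFrobeniusAt φ q) {ε : ℤ} (hε : ε = 1 ∨ ε = -1)
    (h : ∀ x : Tor W p, φ • x = (-(q : ℤ) * ε) • x) : (q : ZMod p) = 1 := by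
  have hp1 : p.Prime := hp.out
  have hW0 : (W.map (Int.castRingHom ℚ)).Δ ≠ 0 := by
    rw [WeierstrassCurve.map_Δ, eq_intCast]
    exact_mod_cast hΔ
  obtain ⟨b⟩ := H87.EC.exists_basis_torsionBy (K := AlgebraicClosure ℚ)
    (W.map (Int.castRingHom ℚ)) (H87.EC.algebraMap_Δ_ne_zero hW0)
    (n := p) (Nat.cast_ne_zero.mpr hp1.ne_zero)
  have hn : ¬ q ∣ p := fun h => hqp ((Nat.prime_dvd_prime_iff_eq hq hp1).mp h)
  have hr : Nat.card (rootsOfUnity p Qb) = p := HasEnoughRootsOfUnity.natCard_rootsOfUnity Qb p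
  have hdet := H39.det_galoisRepModuleEnd_rat (W.map (Int.castRingHom ℚ)) hW0 hr φ
  rw [H62.modularCyclotomicCharacter_frob (S := ℚ) hq hn hA hφ hr] at hdet
  have hsc : WeierstrassCurve.Affine.Point.galoisRepModuleEnd (K := AlgebraicClosure ℚ) ℚ
      (W.map (Int.castRingHom ℚ)) p φ = ((-(q : ℤ) * ε : ℤ) : ZMod p) •
        (LinearMap.id : Tor W p →ₗ[ZMod p] Tor W p) := by
    refine LinearMap.ext fun x => ?_
    rw [LinearMap.smul_apply, LinearMap.id_apply, Int.cast_smul_eq_zsmul]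
    exact h x
  have hr2 : Module.finrank (ZMod p) (Tor W p) = 2 := by
    rw [Module.finrank_eq_card_basis b]; simp
  have : Module.Finite (ZMod p) (Tor W p) := Module.Finite.of_basis b
  rw [hsc, LinearMap.det_smul, LinearMap.det_id, mul_one, hr2] at hdet
  have hε2 : (ε : ZMod p) ^ 2 = 1 := by
    rcases hε with rfl | rfl <;> norm_num
  have h1 : (q : ZMod p) ^ 2 = q := by
    have e := hdet
    push_cast at e
    calc (q : ZMod p) ^ 2 = (q : ZMod p) ^ 2 * (ε : ZMod p) ^ 2 := by rw [hε2, mul_one]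
      _ = (-(q : ZMod p) * (ε : ZMod p)) ^ 2 := by ring
      _ = _ := e
  have hq0 : (q : ZMod p) ≠ 0 := by
    intro h0
    rw [ZMod.natCast_eq_zero_iff] at h0
    exact hqp ((Nat.prime_dvd_prime_iff_eq hp1 hq).mp h0).symm
  have h2 : (q : ZMod p) * (q : ZMod p) = (q : ZMod p) * 1 := by rw [mul_one, ← pow_two, h1]
  exact mul_left_cancel₀ hq0 h2

/-- One Frobenius element: descent of the level, or it acts as the scalar `-q ε`. -/
theorem mazur_step {q M : ℕ} [NeZero M] [NeZero (M * q)] [NeZero q] (hp2 : p ≠ 2)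
    {W : WeierstrassCurve ℤ} (hΔ : W.Δ ≠ 0) (hirr : W.ModRepIsIrreducible p)
    (hc : M.Coprime q) {A : ValuationSubring Qb} {φ : Qb ≃ₐ[ℚ] Qb}
    (hunr : ∀ σ ∈ A.inertiaSubgroupIn ℚ, ∀ x : Tor W p, σ • x = x)
    (ι : Tor W p →+ JZero (M * q)) (hinj : Function.Injective ι)
    (hισ : ∀ (σ : Qb ≃ₐ[ℚ] Qb) (x : Tor W p), ι (σ • x) = σ • ι x) {ε : ℤ}
    (hw : ∀ x, wJ M q rfl hc (ι x) = ε • ι x)
    (hT : ∀ ℓ : Nat.Primes, (ℓ : ℕ) ∉ (p * (M * q) * W.Δ.natAbs).primeFactors → ∀ x : Tor W p,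
      heckeOperatorBar (M * q) ℓ (ι x) = W.apOfModel (ℓ : ℕ) • ι x)
    (D : letI := heckeModuleBar (M * q)
      letI := heckeModuleBar M
      MazurData p 1 q (M * q) A φ (JZero (M * q)) (JZero M) (wJ M q rfl hc)) :
    W.IsResiduallyModularOfLevel p M ∨ ∀ x : Tor W p, φ • x = (-(q : ℤ) * ε) • x := by
  have hp1 : p.Prime := hp.out
  letI := heckeModuleBar (M * q)
  letI := heckeModuleBar M
  have hcomm := H67.heckeOperatorsCommuteBar (M * q)
  have hcomm1 := H67.heckeOperatorsCommuteBar M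
  set S := (p * (M * q) * W.Δ.natAbs).primeFactors with hS
  have hne : p * (M * q) * W.Δ.natAbs ≠ 0 :=
    mul_ne_zero (mul_ne_zero hp1.ne_zero (NeZero.ne (M * q))) (Int.natAbs_ne_zero.mpr hΔ)
  have hpS : p ∈ S := Nat.mem_primeFactors.mpr ⟨hp1, (dvd_mul_right p _).mul_right _, hne⟩
  have hNS : ∀ r : ℕ, r.Prime → r ∣ M * q → r ∈ S := fun r hr h =>
    Nat.mem_primeFactors.mpr ⟨hr, (h.mul_left p).mul_right _, hne⟩
  have hΔS : ∀ r : ℕ, r.Prime → (r : ℤ) ∣ W.Δ → r ∈ S := fun r hr h =>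
    Nat.mem_primeFactors.mpr ⟨hr, (Int.natCast_dvd.mp h).mul_left _, hne⟩
  have hgood : ∀ ℓ : ℕ, ℓ.Prime → W.IsGoodPrimeFor ℓ → ¬ ℓ ∣ M * q → ℓ ≠ p → ℓ ∉ S := by
    intro ℓ hℓ h1 h2 h3 h4
    have h5 := Nat.dvd_of_mem_primeFactors h4
    rcases hℓ.dvd_mul.mp h5 with h5 | h5
    · rcases hℓ.dvd_mul.mp h5 with h5 | h5
      · exact h3 ((Nat.prime_dvd_prime_iff_eq hℓ hp1).mp h5)
      · exact h2 h5
    · exact h1 (Int.natCast_dvd.mpr h5)
  have htor : ∀ x : Tor W p, (p : ℕ) • x = 0 := by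
    intro x
    have := x.2
    rw [Submodule.mem_torsionBy_iff] at this
    rw [← natCast_zsmul]
    exact Subtype.ext this
  -- the map into the fixed torsion
  have hmem : ∀ x : Tor W p, ι x ∈ fixTors A p (JZero (M * q)) := by
    intro x
    rw [mem_fixTors]
    refine ⟨by rw [← map_nsmul, htor, map_zero], fun σ hσ => ?_⟩
    rw [← hισ, hunr σ hσ]
  let X : Tor W p →+ fixTors A p (JZero (M * q)) := ι.codRestrict _ hmem
  have hX : ∀ x, ((X x : fixTors A p (JZero (M * q))) : JZero (M * q)) = ι x := fun _ => rfl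
  have hgen : ∀ (ℓ : Nat.Primes), (ℓ : ℕ) ∉ S → ∀ x : Tor W p,
      ι (W.apOfModel (ℓ : ℕ) • x) = heckeGen ℓ • ι x := by
    intro ℓ hℓ x
    rw [map_zsmul, ← hT ℓ hℓ x]
    exact (heckeModuleBar_heckeGen_smul hcomm ℓ (ι x)).symm
  -- the component group coordinate vanishes
  have hn0 : ∀ x, D.n (X x) = 0 := by
    intro x
    obtain ⟨ℓ, hℓ, hg, hB, hℓp, hap⟩ := H62.ne1 hΔ hp2 hirr (B := M * q)
      (Nat.pos_of_ne_zero (NeZero.ne (M * q)))
    have h1 := D.n_hecke ⟨ℓ, hℓ⟩ hB (X x) (X (W.apOfModel ℓ • x)) (by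
      rw [hX, hX]
      exact hgen ⟨ℓ, hℓ⟩ (hgood ℓ hℓ hg hB hℓp) x)
    rw [map_zsmul, map_zsmul, zsmul_eq_mul] at h1
    have h2 : ((W.apOfModel ℓ : ZMod p) - ((ℓ : ZMod p) + 1)) * D.n (X x) = 0 := by
      rw [sub_mul, sub_eq_zero]
      exact h1
    rcases mul_eq_zero.mp h2 with h3 | h3
    · exfalso
      apply hap
      rw [sub_eq_zero.mp h3]
    · exact h3
  let Y : Tor W p →+ D.n.ker := X.codRestrict _ (fun x => hn0 x)
  have hY : ∀ x, ((Y x : D.n.ker) : fixTors A p (JZero (M * q))) = X x := fun _ => rfl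
  by_cases hδ : ∀ x i, D.δ i (Y x) = 0
  · right
    intro x
    have h1 := D.ker (Y x) (hδ x)
    rw [hY, hX, one_smul, hw] at h1
    apply hinj
    rw [hισ, map_zsmul, mul_zsmul, neg_zsmul, natCast_zsmul]
    exact eq_neg_of_add_eq_zero_left h1
  · left
    push Not at hδ
    obtain ⟨x, i, hxi⟩ := hδ
    refine isResiduallyModular_of_eigen hpS (fun r hr h => hNS r hr (h.mul_right q)) hΔ hΔS hxi
      (by rw [← map_nsmul, ← map_nsmul, htor, map_zero, map_zero]) (fun ℓ hℓ => ?_)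
    rw [← heckeModuleBar_heckeGen_smul hcomm1 ℓ]
    have hℓ1 : ¬ (ℓ : ℕ) ∣ M * q := fun h => hℓ (hNS ℓ ℓ.2 h)
    rw [← D.δ_hecke i ℓ hℓ1 (Y x) (Y (W.apOfModel (ℓ : ℕ) • x)) (by
      rw [hY, hX, hY, hX]
      exact hgen ℓ hℓ x), map_zsmul, map_zsmul]

/-- **Mazur's principle**: modularity of level `M * q` of an irreducible `W[p]` unramified at `q`
descends to level `M`, unless `q ≡ 1 mod p` and Frobenius at `q` acts by a sign. -/
theorem mazurW {q M : ℕ} [NeZero M] [NeZero (M * q)] [NeZero q] (hp2 : p ≠ 2)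
    {W : WeierstrassCurve ℤ} (hΔ : W.Δ ≠ 0) (hirr : W.ModRepIsIrreducible p)
    (hq : q.Prime) (hqp : q ≠ p) (hqM : ¬ q ∣ M) (hin : MazurInput p 1 q M)
    (hunr : UnrTor W p q) (hmod : W.IsResiduallyModularOfLevel p (M * q)) :
    W.IsResiduallyModularOfLevel p M ∨ ScalarAt W p q := by
  have hp1 : p.Prime := hp.out
  have hc : M.Coprime q := ((Nat.Prime.coprime_iff_not_dvd hq).mpr hqM).symm
  have hne : p * (M * q) * W.Δ.natAbs ≠ 0 :=
    mul_ne_zero (mul_ne_zero hp1.ne_zero (NeZero.ne (M * q))) (Int.natAbs_ne_zero.mpr hΔ)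
  have hNS : ∀ r : ℕ, r.Prime → r ∣ M * q → r ∈ (p * (M * q) * W.Δ.natAbs).primeFactors :=
    fun r hr h => Nat.mem_primeFactors.mpr ⟨hr, (h.mul_left p).mul_right _, hne⟩
  obtain ⟨f, 𝔪, hf, h𝔪, hp𝔪, hcong⟩ := hmod
  have hcomm := H67.heckeOperatorsCommuteBar (M * q)
  obtain ⟨ι, h1, h2, h3⟩ := exists_embedding_JZero (H31.jzeroInputs (M * q)) hcomm
    (S := (p * (M * q) * W.Δ.natAbs).primeFactors) hp2
    (Nat.mem_primeFactors.mpr ⟨hp1, (dvd_mul_right p _).mul_right _, hne⟩) hNS hΔ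
    (fun r hr h => Nat.mem_primeFactors.mpr ⟨hr, (Int.natCast_dvd.mp h).mul_left _, hne⟩)
    hirr hf h𝔪 hp𝔪 (fun ℓ hℓ hℓS => hcong ℓ hℓ
      (fun h => hℓS (Nat.mem_primeFactors.mpr ⟨hℓ, (Int.natCast_dvd.mp h).mul_left _, hne⟩))
      (fun h => hℓS (hNS ℓ hℓ h))
      (fun h => hℓS (Nat.mem_primeFactors.mpr
        ⟨hℓ, by rw [h]; exact (dvd_mul_right p _).mul_right _, hne⟩)))
  obtain ⟨ι', ε, hε, h1', h2', hw, h3'⟩ := exists_w_embedding hp2 hirr ι h1 h2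
    (wJ M q rfl hc) (wJ_wJ rfl hc) (wJ_galois rfl hc)
    (I := {ℓ : Nat.Primes // (ℓ : ℕ) ∉ (p * (M * q) * W.Δ.natAbs).primeFactors})
    (fun ℓ => heckeOperatorBar (M * q) ℓ.1)
    (fun ℓ x => wJ_hecke rfl hc ℓ.1 ((Nat.Prime.coprime_iff_not_dvd ℓ.1.2).mpr
      (fun h => ℓ.2 (hNS _ ℓ.1.2 (h.mul_left M)))) x)
    (fun ℓ => W.apOfModel (ℓ.1 : ℕ)) (fun ℓ x => h3 ℓ.1 ℓ.2 x)
  by_cases hlow : W.IsResiduallyModularOfLevel p M
  · exact Or.inl hlow
  right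
  have key : ∀ A : ValuationSubring Qb, A.LiesOverPrime q → ∀ φ : H53.GQ, A.IsFrobeniusAt φ q →
      ∀ x : Tor W p, φ • x = (-(q : ℤ) * ε) • x := by
    intro A hA φ hφ
    obtain ⟨D⟩ := hin hc A hA φ hφ
    exact (mazur_step hp2 hΔ hirr hc (hunr A hA) ι' h1' h2' hw
      (fun ℓ hℓ x => h3' ⟨ℓ, hℓ⟩ x) D).resolve_left hlow
  obtain ⟨A₀, hA₀⟩ := H54.exists_liesOverPrime hq
  obtain ⟨φ₀, hφ₀⟩ := H54.exists_isFrobeniusAt hq hA₀
  have hq1 : (q : ZMod p) = 1 := one_of_scalar hΔ hq hqp hA₀ hφ₀ hε (key A₀ hA₀ φ₀ hφ₀)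
  refine ⟨hq1, -ε, ?_, fun A hA φ hφ x => ?_⟩
  · rcases hε with rfl | rfl
    · exact Or.inr rfl
    · exact Or.inl (neg_neg 1)
  · rw [key A hA φ hφ x, ← Int.cast_smul_eq_zsmul (ZMod p), ← Int.cast_smul_eq_zsmul (ZMod p)]
    congr 1
    push_cast
    rw [hq1]
    ring

/-- `mazurW` from the uniform input `MazurOdd`. -/
theorem mazurW_of_odd (H : MazurOdd) {q M : ℕ} [NeZero M] (hp2 : p ≠ 2)
    {W : WeierstrassCurve ℤ} (hΔ : W.Δ ≠ 0) (hirr : W.ModRepIsIrreducible p)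
    (hq : q.Prime) (hqp : q ≠ p) (hqM : ¬ q ∣ M)
    (h3 : p = 3 → ∃ s : ℕ, s.Prime ∧ s % 3 = 2 ∧ s ∣ M)
    (hunr : UnrTor W p q) (hmod : W.IsResiduallyModularOfLevel p (M * q)) :
    W.IsResiduallyModularOfLevel p M ∨ ScalarAt W p q := by
  haveI : NeZero q := ⟨hq.ne_zero⟩
  haveI : NeZero (M * q) := ⟨mul_ne_zero (NeZero.ne M) hq.ne_zero⟩
  exact mazurW hp2 hΔ hirr hq hqp hqM (H p q M hp.out hp2 hq hqp hqM h3) hunr hmod

end main

/-- Modularity of the Frey representation in terms of an integral model. -/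
theorem modularRepOfLevel_iff (P : FreyPackage) (N : ℕ) : P.ModularRepOfLevel N ↔
    ∃ W : WeierstrassCurve ℤ, W.IsIntegralModelOf P.freyCurve ∧
      W.IsResiduallyModularOfLevel P.p N := by
  constructor
  · rintro ⟨f, W, 𝔪, h1, h2, h3, h4, h5⟩
    exact ⟨W, h2, f, 𝔪, h1, h3, h4, h5⟩
  · rintro ⟨W, h2, f, 𝔪, h1, h3, h4, h5⟩
    exact ⟨f, W, 𝔪, h1, h2, h3, h4, h5⟩

end Fermat.Agent.H2Mz
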