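import Fermat.Agent.H59S43
import Fermat.Agent.H2Mz
import Fermat.Agent.H87Glue2

/-!
# Bridge: Mazur's principle in the form needed for level lowering
-/

set_option autoImplicit false
set_option linter.style.haveILetI false
set_option linter.unusedSectionVars false

noncomputable section

open Polynomial IsLocalRing GaloisRep
open Fermat.Agent.H87.Glue

namespace Fermat.Agent.H59

variable {W : WeierstrassCurve ℤ} (hΔ : W.Δ ≠ 0) {p : ℕ} [hp : Fact p.Prime]

theorem mazurAt_of_odd (H : H2Mz.MazurOdd) (hp2 : p ≠ 2) (hp3 : p ≠ 3)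
    (hirr : W.ModRepIsIrreducible p) : MazurAt W hΔ p := by
  intro q M hq hqp hM hqM hunr hmod
  haveI : NeZero M := ⟨hM.ne'⟩
  rcases H2Mz.mazurW_of_odd H hp2 hΔ hirr hq hqp hqM (fun h => absurd h hp3)
    (fun A hA σ hσ x => LinearMap.congr_fun (hunr A hA σ hσ) x) hmod with h | ⟨h1, u, hu, h2⟩
  · exact Or.inl h
  · refine Or.inr ⟨?_, u, ?_, fun P hP φ hφ => ?_⟩
    · have h3 : ((q : ℕ) : ZMod p) = ((1 : ℕ) : ZMod p) := by rw [h1, Nat.cast_one]
      rw [ZMod.natCast_eq_natCast_iff] at h3
      exact (Nat.modEq_iff_dvd' hq.one_le).mp h3.symm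
    · rcases hu with rfl | rfl <;> norm_num
    · refine LinearMap.ext fun x => ?_
      refine (h2 P hP φ hφ x).trans ?_
      rw [LinearMap.smul_apply, Module.End.one_apply]
      exact (Int.cast_smul_eq_zsmul (ZMod p) u x).symm

end Fermat.Agent.H59
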