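import Fermat.Agent.H29FK1g

/-!
# S56-[B4], K1 : the case division
-/

set_option autoImplicit false

noncomputable section

namespace Fermat.Agent.H29

open Fermat.Agent.H64 Fermat.Agent.H53 Fermat.Agent.H56 Fermat.Agent.H55 GaloisRep ExtCitation
  TrivSqZeroExt

variable {p : ℕ} [Fact p.Prime] {k : Type} [Field k] [Algebra (ZMod p) k]

instance finite_dual [Finite k] : Finite (DualNumber k) := inferInstanceAs (Finite (k × k))

theorem natCast_p_eq_zero_dual : (p : DualNumber k) = 0 := by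
  have h1 : (p : DualNumber k) = inl (p : k) := by
    rw [← map_natCast (TrivSqZeroExt.inlHom k k)]
    rfl
  rw [h1, natCast_p_eq_zero (p := p), inl_zero]

omit [Algebra (ZMod p) k] in
/-- flatness of a matrix representation over the dual numbers -/
theorem flatM_of_isFlatAt [Finite k] {R : FGQ →* M2 (DualNumber k)}
    (h : MCont (DualNumber k) R) (hR : (ofMatrix R h).IsFlatAt p) : FlatM p R := by
  rw [isFlatAt_iff_flatM_of_finite p _ (stdBasis R h), toMat_stdBasis] at hR
  exact hR

/-- the inclusion `v ↦ ε v` -/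
def iota (k : Type) [Field k] : (Fin 2 → k) →+ (Fin 2 → DualNumber k) where
  toFun v i := inr (v i)
  map_zero' := by funext i; exact inr_zero k
  map_add' v w := by funext i; exact inr_add k (v i) (w i)

/-- the reduction -/
def redV (x : Fin 2 → DualNumber k) : Fin 2 → k := fun i => fst (x i)

theorem iota_injective : Function.Injective (iota k) := by
  intro v w h
  funext i
  have h1 := congrFun h i
  exact inr_injective h1

variable {r : FGQ →* M2 k} {R : FGQ →* M2 (DualNumber k)}

theorem fst_apply (hred : ∀ σ, redM k (R σ) = r σ) (σ : FGQ) (i j : Fin 2) :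
    fst (R σ i j) = r σ i j := by
  rw [← hred σ]
  rfl

theorem iota_act (hred : ∀ σ, redM k (R σ) = r σ) (σ : FGQ) (v : Fin 2 → k) :
    iota k ((r σ).mulVec v) = (R σ).mulVec (iota k v) := by
  funext i
  show (inr ((r σ).mulVec v i) : DualNumber k) = ∑ j, R σ i j * inr (v j)
  ext
  · simp
  · rw [snd_inr, snd_sum]
    simp only [snd_mul, snd_inr, fst_inr]
    simp only [fst_apply hred, Matrix.mulVec, dotProduct, smul_eq_mul]
    simp

theorem redV_act (hred : ∀ σ, redM k (R σ) = r σ) (σ : FGQ) (x : Fin 2 → DualNumber k) :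
    redV ((R σ).mulVec x) = (r σ).mulVec (redV x) := by
  funext i
  show fst (∑ j, R σ i j * x j) = ∑ j, r σ i j * fst (x j)
  rw [fst_sum]
  simp only [fst_mul, fst_apply hred]

theorem redV_sub (x y : Fin 2 → DualNumber k) : redV (x - y) = redV x - redV y := by
  funext i
  simp [redV]

theorem redV_smul (c : DualNumber k) (x : Fin 2 → DualNumber k) :
    redV (c • x) = fst c • redV x := by
  funext i
  simp [redV]

theorem eps_smul (x : Fin 2 → DualNumber k) (b : k) :
    (inr b : DualNumber k) • x = iota k (b • redV x) := by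
  funext i
  show inr b * x i = inr (b * fst (x i))
  ext <;> simp [mul_comm]

theorem exists_eq_iota {x : Fin 2 → DualNumber k} (hx : redV x = 0) : ∃ v, x = iota k v := by
  refine ⟨fun i => snd (x i), ?_⟩
  funext i
  have h1 : fst (x i) = 0 := congrFun hx i
  ext
  · rw [h1]; simp [iota]
  · simp [iota]

/-- the reduction of a flat representation is flat -/
theorem flatM_red (hred : ∀ σ, redM k (R σ) = r σ) (hR : FlatM p R) : FlatM p r :=
  H32.HasFlatOrder.sub hR (iota k) iota_injective (iota_act hred)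

section

variable {n m : ℕ} {e : Fin n → (Fin 2 → k) → FQb} {a : Fin n → Fin n → Fin n → ℚ}
  {eR : Fin m → (Fin 2 → DualNumber k) → FQb} {aR : Fin m → Fin m → Fin m → ℚ}

theorem inW0_iota_iff [Finite k] (hp2 : p ≠ 2) (hred : ∀ σ, redM k (R σ) = r σ) (hR : FlatM p R)
    (h : FData p (fun σ x => (r σ).mulVec x) n e a)
    (h' : FData p (fun σ x => (R σ).mulVec x) m eR aR) {v : Fin 2 → k} :
    InW0 p e v ↔ InW0 p eR (iota k v) :=
  inW0_sub_iff hR (iota k) iota_injective (iota_act hred) hp2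
    (nsmul_eq_zero_of_cast natCast_p_eq_zero_dual) h' h

theorem not_trivial_inertia (hp2 : p ≠ 2) (hdet : DetCyc p r) :
    ¬ ∀ σ ∈ Ip p, ∀ v : Fin 2 → k, (r σ).mulVec v = v := by
  intro hcon
  obtain ⟨σ, hσ, hne⟩ := exists_cycloChar_ne_one (p := p) hp2
  have h1 : r σ = 1 := by
    apply Matrix.ext_of_mulVec_single
    intro i
    rw [Matrix.one_mulVec]
    exact hcon σ hσ _
  have h2 := hdet σ
  rw [h1, Matrix.det_one] at h2
  apply hne
  ext
  apply (algebraMap (ZMod p) k).injective
  rw [← h2, Units.val_one, map_one]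

/-- a basis vector of the connected part of a flat lift, when the connected part of the
reduction is a line -/
theorem exists_line_lift [Finite k] (hp2 : p ≠ 2) (hdet : DetCyc p r)
    (hred : ∀ σ, redM k (R σ) = r σ) (hR : FlatM p R)
    (h : FData p (fun σ x => (r σ).mulVec x) n e a)
    (h' : FData p (fun σ x => (R σ).mulVec x) m eR aR) {l : Fin 2 → k}
    (hl : ∀ v, InW0 p e v ↔ ∃ b : k, v = b • l) :
    ∃ c : Fin 2 → DualNumber k, redV c = l ∧
      ∀ y, InW0 p eR y ↔ ∃ b : DualNumber k, y = b • c := by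
  have hpd : (p : DualNumber k) = 0 := natCast_p_eq_zero_dual
  have hiota := fun v => inW0_iota_iff hp2 hred hR h h' (v := v)
  -- the reduction of an element of the connected part is connected
  have hredW : ∀ y, InW0 p eR y → InW0 p e (redV y) := by
    intro y hy
    have h1 := inW0_smul h' hp2 hpd (inr 1) hy
    rw [eps_smul, one_smul] at h1
    exact (hiota _).mpr h1
  obtain ⟨c₀, hc₀, hc₀ne⟩ : ∃ c₀, InW0 p eR c₀ ∧ redV c₀ ≠ 0 := by
    by_contra hcon
    push Not at hcon
    apply not_trivial_inertia hp2 hdet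
    intro σ hσ v
    have h1 : InW0 p eR ((R σ).mulVec (fun i => inl (v i)) - fun i => inl (v i)) :=
      act_sub_mem_W0 h' hσ _
    have h2 := hcon _ h1
    rw [redV_sub, redV_act hred] at h2
    have h3 : redV (fun i => (inl (v i) : DualNumber k)) = v := by
      funext i; simp [redV]
    rw [h3] at h2
    exact sub_eq_zero.mp h2
  obtain ⟨α, hα⟩ := (hl _).mp (hredW c₀ hc₀)
  have hα0 : α ≠ 0 := by
    rintro rfl
    rw [zero_smul] at hα
    exact hc₀ne hα
  set c : Fin 2 → DualNumber k := (inl α⁻¹ : DualNumber k) • c₀ with hc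
  have hcW : InW0 p eR c := inW0_smul h' hp2 hpd _ hc₀
  have hcred : redV c = l := by
    rw [hc, redV_smul, fst_inl, hα, smul_smul, inv_mul_cancel₀ hα0, one_smul]
  refine ⟨c, hcred, fun y => ⟨fun hy => ?_, ?_⟩⟩
  · obtain ⟨β, hβ⟩ := (hl _).mp (hredW y hy)
    have h1 : InW0 p eR (y - (inl β : DualNumber k) • c) := by
      rw [sub_eq_add_neg]
      exact hy.add h' ((inW0_smul h' hp2 hpd _ hcW).neg h')
    have h2 : redV (y - (inl β : DualNumber k) • c) = 0 := by
      rw [redV_sub, redV_smul, hcred, fst_inl, hβ, sub_self]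
    obtain ⟨w, hw⟩ := exists_eq_iota h2
    rw [hw] at h1
    obtain ⟨γ, hγ⟩ := (hl _).mp ((hiota w).mpr h1)
    refine ⟨inl β + inr γ, ?_⟩
    rw [add_smul, eps_smul, hcred, ← hγ, ← hw]
    abel
  · rintro ⟨b, rfl⟩
    exact inW0_smul h' hp2 hpd _ hcW

end

/-- CASE I -/
def CaseI (p : ℕ) [Fact p.Prime] (r : FGQ →* M2 k) : Prop :=
  ∃ u : (M2 k)ˣ,
    (∀ σ : Dq (pPrime p), ∃ A T Z : k, r σ * (u : M2 k) = (u : M2 k) * !![A, T; 0, Z] ∧
      ((σ : FGQ) ∈ Iq (pPrime p) → Z = 1)) ∧
    ∀ R : FGQ →* M2 (DualNumber k), GoodLift r R →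
      (∃ h : MCont (DualNumber k) R, (ofMatrix R h).IsFlatAt p) →
      ∃ g : M2 (DualNumber k), IsUnit g ∧ redM k g = u ∧
        ∀ σ : Dq (pPrime p), ∃ A T Z : DualNumber k,
          R (σ : FGQ) * g = g * !![A, T; 0, Z] ∧ ((σ : FGQ) ∈ Iq (pPrime p) → Z = 1)

/-- CASE II -/
def CaseII (p : ℕ) [Fact p.Prime] (r : FGQ →* M2 k) : Prop :=
  (∀ (n : ℕ) (e : Fin n → (Fin 2 → k) → FQb) (a : Fin n → Fin n → Fin n → ℚ),
      FData p (fun σ x => (r σ).mulVec x) n e a → ∀ x, InW0 p e x) ∧
    ¬ ∃ x : Fin 2 → k, x ≠ 0 ∧ ∀ σ ∈ Dp p, ∃ c : k, (r σ).mulVec x = c • x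

/-- **the case division** -/
theorem case_division [Finite k] (hp2 : p ≠ 2) (hr : FinLev r) (hdet : DetCyc p r)
    (hflat : FlatM p r) : CaseI p r ∨ CaseII p r := by
  classical
  obtain ⟨n, e, a, h⟩ := exists_FData_of_flatM hflat
  have hpk : (p : k) = 0 := natCast_p_eq_zero
  have hpW := nsmul_eq_zero_of_cast (B := k) hpk
  by_cases hall : ∀ x, InW0 p e x
  · right
    refine ⟨fun n' e' a' h' x => (inW0_iff h h' hp2 hpW).mp (hall x), ?_⟩
    exact no_stable_line hp2 hr hdet h hall
  left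
  push Not at hall
  obtain ⟨m, hm⟩ := hall
  -- the connected part is a line
  obtain ⟨l, hl0, hlW⟩ : ∃ l : Fin 2 → k, l ≠ 0 ∧ InW0 p e l := by
    by_contra hcon
    push Not at hcon
    apply not_trivial_inertia hp2 hdet
    intro σ hσ v
    have h1 : InW0 p e ((r σ).mulVec v - v) := act_sub_mem_W0 h hσ _
    by_contra hne
    exact hcon _ (sub_ne_zero.mpr hne) h1
  set u : M2 k := Matrix.of ![![l 0, m 0], ![l 1, m 1]] with hu
  have hu1 : u.mulVec ![1, 0] = l := by
    ext i
    fin_cases i <;> simp [hu, Matrix.mulVec, dotProduct, Fin.sum_univ_two]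
  have hu2 : u.mulVec ![0, 1] = m := by
    ext i
    fin_cases i <;> simp [hu, Matrix.mulVec, dotProduct, Fin.sum_univ_two]
  have hudet : u.det ≠ 0 := by
    intro h0
    rw [hu, Matrix.det_fin_two] at h0
    simp only [Matrix.of_apply, Matrix.cons_val_zero, Matrix.cons_val_one] at h0
    apply hm
    by_cases hl00 : l 0 = 0
    · have hl1 : l 1 ≠ 0 := by
        intro h1
        apply hl0
        ext i
        fin_cases i
        · exact hl00
        · exact h1
      have h2 : m = (m 1 * (l 1)⁻¹) • l := by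
        ext i
        fin_cases i
        · show m 0 = m 1 * (l 1)⁻¹ * l 0
          rw [hl00] at h0 ⊢
          rw [zero_mul, zero_sub, neg_eq_zero] at h0
          rw [mul_zero]
          exact (mul_eq_zero.mp h0).resolve_right hl1
        · show m 1 = m 1 * (l 1)⁻¹ * l 1
          rw [mul_assoc, inv_mul_cancel₀ hl1, mul_one]
      rw [h2]
      exact inW0_smul h hp2 hpk _ hlW
    · have h2 : m = (m 0 * (l 0)⁻¹) • l := by
        ext i
        fin_cases i
        · show m 0 = m 0 * (l 0)⁻¹ * l 0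
          rw [mul_assoc, inv_mul_cancel₀ hl00, mul_one]
        · show m 1 = m 0 * (l 0)⁻¹ * l 1
          field_simp
          linear_combination h0
      rw [h2]
      exact inW0_smul h hp2 hpk _ hlW
  have huunit : IsUnit u := by
    rw [Matrix.isUnit_iff_isUnit_det, isUnit_iff_ne_zero]
    exact hudet
  have hdecomp : ∀ v : Fin 2 → k, ∃ b d : k, v = b • l + d • m := by
    intro v
    obtain ⟨w, hw⟩ : ∃ w, u.mulVec w = v := by
      refine ⟨u⁻¹.mulVec v, ?_⟩
      rw [Matrix.mulVec_mulVec, Matrix.mul_nonsing_inv _ (isUnit_iff_ne_zero.mpr hudet),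
        Matrix.one_mulVec]
    refine ⟨w 0, w 1, ?_⟩
    have h1 : w = w 0 • ![1, 0] + w 1 • ![0, 1] := by
      ext i
      fin_cases i <;> simp
    rw [← hw, ← hu1, ← hu2]
    conv_lhs => rw [h1]
    rw [Matrix.mulVec_add, Matrix.mulVec_smul, Matrix.mulVec_smul]
  have hline : ∀ v, InW0 p e v ↔ ∃ b : k, v = b • l := by
    intro v
    constructor
    · intro hv
      obtain ⟨b, d, hbd⟩ := hdecomp v
      by_cases hd : d = 0
      · exact ⟨b, by rw [hbd, hd, zero_smul, add_zero]⟩
      exfalso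
      apply hm
      have h1 : m = d⁻¹ • (v + -(b • l)) := by
        rw [hbd]
        have : b • l + d • m + -(b • l) = d • m := by abel
        rw [this, smul_smul, inv_mul_cancel₀ hd, one_smul]
      rw [h1]
      exact inW0_smul h hp2 hpk _ (hv.add h ((inW0_smul h hp2 hpk _ hlW).neg h))
    · rintro ⟨b, rfl⟩
      exact inW0_smul h hp2 hpk _ hlW
  refine ⟨huunit.unit, ?_, ?_⟩
  · intro σ
    have hσD : (σ : FGQ) ∈ Dp p := σ.2
    obtain ⟨α, hα⟩ := (hline _).mp ((act_mem_W0_iff (h := h) hσD).mpr hlW)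
    obtain ⟨A, T, Z, h1, h2⟩ := exists_triangular u huunit (r σ) ⟨α, by rw [hu1]; exact hα⟩
    refine ⟨A, T, Z, by rw [IsUnit.unit_spec]; exact h1, fun hσI => h2 ?_⟩
    obtain ⟨β, hβ⟩ := (hline _).mp (act_sub_mem_W0 h (σ := (σ : FGQ)) hσI m)
    exact ⟨β, by rw [hu1, hu2]; exact hβ⟩
  · rintro R hgood ⟨hcont, hRflat⟩
    have hred := hgood.red
    have hRM : FlatM p R := flatM_of_isFlatAt hcont hRflat
    obtain ⟨n', eR, aR, h'⟩ := exists_FData_of_flatM hRM
    obtain ⟨c, hcl, hcW⟩ := exists_line_lift hp2 hdet hred hRM h h' hline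
    set g : M2 (DualNumber k) := Matrix.of ![![c 0, inl (m 0)], ![c 1, inl (m 1)]] with hg
    have hg1 : g.mulVec ![1, 0] = c := by
      funext i
      fin_cases i <;> simp [hg, Matrix.mulVec, dotProduct, Fin.sum_univ_two]
    have hg2 : g.mulVec ![0, 1] = fun i => inl (m i) := by
      funext i
      fin_cases i <;> simp [hg, Matrix.mulVec, dotProduct, Fin.sum_univ_two]
    have hc0 : fst (c 0) = l 0 := congrFun hcl 0
    have hc1 : fst (c 1) = l 1 := congrFun hcl 1
    have hgred : redM k g = u := by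
      ext i j
      show fst (g i j) = u i j
      fin_cases i <;> fin_cases j <;> simp [hg, hu, hc0, hc1]
    have hgunit : IsUnit g := by
      rw [Matrix.isUnit_iff_isUnit_det, isUnit_iff_isUnit_fst, isUnit_iff_ne_zero]
      have h1 : fst g.det = u.det := by
        rw [Matrix.det_fin_two, Matrix.det_fin_two, ← hgred]
        simp [redM]
      rw [h1]
      exact hudet
    refine ⟨g, hgunit, by rw [hgred, IsUnit.unit_spec], fun σ => ?_⟩
    have hσD : (σ : FGQ) ∈ Dp p := σ.2
    have hcin : InW0 p eR c := (hcW c).mpr ⟨1, by rw [one_smul]⟩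
    obtain ⟨α, hα⟩ := (hcW _).mp ((act_mem_W0_iff (h := h') hσD).mpr hcin)
    obtain ⟨A, T, Z, h1, h2⟩ := exists_triangular g hgunit (R σ) ⟨α, by rw [hg1]; exact hα⟩
    refine ⟨A, T, Z, h1, fun hσI => h2 ?_⟩
    obtain ⟨β, hβ⟩ := (hcW _).mp (act_sub_mem_W0 h' (σ := (σ : FGQ)) hσI (fun i => inl (m i)))
    exact ⟨β, by rw [hg1, hg2]; exact hβ⟩

end Fermat.Agent.H29
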