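import Mathlib

/-!
# Level cohomology (S55)

`Levels G` : a family of finite index subgroups playing the role of the open subgroups.
`H1 𝓛 ρ`, `H2 𝓛 ρ` : cohomology of level constant inhomogeneous cochains.
-/

set_option autoImplicit false

namespace Fermat.Agent.H55

/-- A family of "open" subgroups of a group `G`. -/
structure Levels (G : Type*) [Group G] where
  /-- the open subgroups -/
  op : Subgroup G → Prop
  op_top : op ⊤
  op_inf : ∀ {U V : Subgroup G}, op U → op V → op (U ⊓ V)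
  op_mono : ∀ {U V : Subgroup G}, U ≤ V → op U → op V
  exists_normal : ∀ {U : Subgroup G}, op U → ∃ N : Subgroup G, op N ∧ N.Normal ∧ N ≤ U
  finiteIndex : ∀ {U : Subgroup G}, op U → U.FiniteIndex

namespace Levels

variable {G H : Type*} [Group G] [Group H]

/-- pull back of a level structure along a homomorphism -/
def comap (𝓛 : Levels G) (f : H →* G) : Levels H where
  op V := ∃ U, 𝓛.op U ∧ U.comap f ≤ V
  op_top := ⟨⊤, 𝓛.op_top, le_top⟩
  op_inf := by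
    rintro V V' ⟨U, hU, h⟩ ⟨U', hU', h'⟩
    exact ⟨U ⊓ U', 𝓛.op_inf hU hU', le_inf ((Subgroup.comap_mono inf_le_left).trans h)
      ((Subgroup.comap_mono inf_le_right).trans h')⟩
  op_mono := by
    rintro V V' hle ⟨U, hU, h⟩
    exact ⟨U, hU, h.trans hle⟩
  exists_normal := by
    rintro V ⟨U, hU, h⟩
    obtain ⟨N, hN, hn, hle⟩ := 𝓛.exists_normal hU
    exact ⟨N.comap f, ⟨N, hN, le_rfl⟩, hn.comap f, (Subgroup.comap_mono hle).trans h⟩
  finiteIndex := by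
    rintro V ⟨U, hU, h⟩
    have := 𝓛.finiteIndex hU
    have : (U.comap f).FiniteIndex := ⟨by
      rw [Subgroup.index_comap]
      exact fun h0 => this.index_ne_zero (Subgroup.index_eq_zero_of_relIndex_eq_zero h0)⟩
    exact Subgroup.finiteIndex_of_le h

/-- the level structure induced on a subgroup -/
def onSub (𝓛 : Levels G) (U : Subgroup G) : Levels U := 𝓛.comap U.subtype

/-- a homomorphism is continuous for level structures -/
def Cont (𝓜 : Levels H) (𝓛 : Levels G) (f : H →* G) : Prop :=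
  ∀ U, 𝓛.op U → 𝓜.op (U.comap f)

lemma cont_comap (𝓛 : Levels G) (f : H →* G) : Cont (𝓛.comap f) 𝓛 f :=
  fun U hU => ⟨U, hU, le_rfl⟩

lemma cont_onSub (𝓛 : Levels G) (U : Subgroup G) : Cont (𝓛.onSub U) 𝓛 U.subtype :=
  cont_comap _ _

lemma cont_id (𝓛 : Levels G) : Cont 𝓛 𝓛 (MonoidHom.id G) := fun U hU => by
  simpa using hU

lemma Cont.comp {K : Type*} [Group K] {𝓚 : Levels K} {𝓜 : Levels H} {𝓛 : Levels G}
    {f : H →* G} {g : K →* H} (hf : Cont 𝓜 𝓛 f) (hg : Cont 𝓚 𝓜 g) : Cont 𝓚 𝓛 (f.comp g) :=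
  fun U hU => by
    rw [← Subgroup.comap_comap]
    exact hg _ (hf _ hU)

lemma op_onSub_iff (𝓛 : Levels G) (U : Subgroup G) (V : Subgroup U) :
    (𝓛.onSub U).op V ↔ ∃ W, 𝓛.op W ∧ W.subgroupOf U ≤ V := Iff.rfl

/-- for `U` open, `V ≤ U` is open in `U` iff its image in `G` is open -/
lemma op_onSub_iff_map (𝓛 : Levels G) {U : Subgroup G} (hU : 𝓛.op U) (V : Subgroup U) :
    (𝓛.onSub U).op V ↔ 𝓛.op (V.map U.subtype) := by
  constructor
  · rintro ⟨W, hW, hle⟩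
    refine 𝓛.op_mono ?_ (𝓛.op_inf hU hW)
    rintro x ⟨hxU, hxW⟩
    exact ⟨⟨x, hxU⟩, hle (show x ∈ W from hxW), rfl⟩
  · intro h
    refine ⟨_, h, ?_⟩
    rw [Subgroup.comap_map_eq_self_of_injective U.subtype_injective]

end Levels

section LC

variable {G H X Y : Type*} [Group G] [Group H]

/-- level constant functions of one variable -/
def LC1 (𝓛 : Levels G) (f : G → X) : Prop :=
  ∃ U, 𝓛.op U ∧ ∀ g, ∀ s ∈ U, f (g * s) = f g

/-- level constant functions of two variables -/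
def LC2 (𝓛 : Levels G) (f : G × G → X) : Prop :=
  ∃ U, 𝓛.op U ∧ ∀ g g', ∀ s ∈ U, ∀ s' ∈ U, f (g * s, g' * s') = f (g, g')

variable {𝓛 : Levels G} {𝓜 : Levels H}

lemma LC1.comp {f : G → X} (hf : LC1 𝓛 f) (φ : X → Y) : LC1 𝓛 (φ ∘ f) := by
  obtain ⟨U, hU, h⟩ := hf
  exact ⟨U, hU, fun g s hs => congrArg φ (h g s hs)⟩

lemma LC2.comp {f : G × G → X} (hf : LC2 𝓛 f) (φ : X → Y) : LC2 𝓛 (φ ∘ f) := by
  obtain ⟨U, hU, h⟩ := hf
  exact ⟨U, hU, fun g g' s hs s' hs' => congrArg φ (h g g' s hs s' hs')⟩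

lemma LC1.comp' {f : G → X} (hf : LC1 𝓛 f) (φ : X → Y) : LC1 𝓛 (fun g => φ (f g)) := hf.comp φ

lemma LC2.comp' {f : G × G → X} (hf : LC2 𝓛 f) (φ : X → Y) : LC2 𝓛 (fun g => φ (f g)) := hf.comp φ

lemma LC1.pair {f : G → X} {f' : G → Y} (hf : LC1 𝓛 f) (hf' : LC1 𝓛 f') :
    LC1 𝓛 (fun g => (f g, f' g)) := by
  obtain ⟨U, hU, h⟩ := hf
  obtain ⟨U', hU', h'⟩ := hf'
  exact ⟨U ⊓ U', 𝓛.op_inf hU hU', fun g s hs => by simp only [h g s hs.1, h' g s hs.2]⟩

lemma LC2.pair {f : G × G → X} {f' : G × G → Y} (hf : LC2 𝓛 f) (hf' : LC2 𝓛 f') :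
    LC2 𝓛 (fun g => (f g, f' g)) := by
  obtain ⟨U, hU, h⟩ := hf
  obtain ⟨U', hU', h'⟩ := hf'
  exact ⟨U ⊓ U', 𝓛.op_inf hU hU', fun g g' s hs s' hs' => by
    simp only [h g g' s hs.1 s' hs'.1, h' g g' s hs.2 s' hs'.2]⟩

lemma LC1.pi {ι : Type*} [Finite ι] {Z : ι → Type*} {f : ∀ i, G → Z i} (hf : ∀ i, LC1 𝓛 (f i)) :
    LC1 𝓛 (fun g i => f i g) := by
  classical
  choose U hU h using hf
  have hop : ∀ s : Finset ι, 𝓛.op (⨅ i ∈ s, U i) := by
    intro s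
    induction s using Finset.induction_on with
    | empty => simpa using 𝓛.op_top
    | insert i s hi ih =>
      rw [Finset.iInf_insert]
      exact 𝓛.op_inf (hU i) ih
  have := Fintype.ofFinite ι
  refine ⟨⨅ i ∈ (Finset.univ : Finset ι), U i, hop _, fun g s hs => funext fun i => h i g s ?_⟩
  simp only [Finset.mem_univ, iInf_pos, Subgroup.mem_iInf] at hs
  exact hs i

lemma LC2.pi {ι : Type*} [Finite ι] {Z : ι → Type*} {f : ∀ i, G × G → Z i}
    (hf : ∀ i, LC2 𝓛 (f i)) : LC2 𝓛 (fun g i => f i g) := by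
  classical
  choose U hU h using hf
  have hop : ∀ s : Finset ι, 𝓛.op (⨅ i ∈ s, U i) := by
    intro s
    induction s using Finset.induction_on with
    | empty => simpa using 𝓛.op_top
    | insert i s hi ih =>
      rw [Finset.iInf_insert]
      exact 𝓛.op_inf (hU i) ih
  have := Fintype.ofFinite ι
  refine ⟨⨅ i ∈ (Finset.univ : Finset ι), U i, hop _,
    fun g g' s hs s' hs' => funext fun i => h i g g' s ?_ s' ?_⟩
  · simp only [Finset.mem_univ, iInf_pos, Subgroup.mem_iInf] at hs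
    exact hs i
  · simp only [Finset.mem_univ, iInf_pos, Subgroup.mem_iInf] at hs'
    exact hs' i

lemma LC1.const (x : X) : LC1 𝓛 (fun _ : G => x) := ⟨⊤, 𝓛.op_top, fun _ _ _ => rfl⟩

lemma LC2.const (x : X) : LC2 𝓛 (fun _ : G × G => x) := ⟨⊤, 𝓛.op_top, fun _ _ _ _ _ _ => rfl⟩

lemma LC1.precomp {f : G → X} (hf : LC1 𝓛 f) {r : H →* G} (hr : Levels.Cont 𝓜 𝓛 r) :
    LC1 𝓜 (fun h => f (r h)) := by
  obtain ⟨U, hU, h⟩ := hf
  exact ⟨_, hr U hU, fun g s hs => by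
    show f (r (g * s)) = f (r g)
    rw [map_mul]; exact h _ _ hs⟩

lemma LC2.precomp {f : G × G → X} (hf : LC2 𝓛 f) {r : H →* G} (hr : Levels.Cont 𝓜 𝓛 r) :
    LC2 𝓜 (fun h => f (r h.1, r h.2)) := by
  obtain ⟨U, hU, h⟩ := hf
  exact ⟨_, hr U hU, fun g g' s hs s' hs' => by
    simp only [map_mul]
    exact h _ _ _ hs _ hs'⟩

lemma LC1.fst {f : G → X} (hf : LC1 𝓛 f) : LC2 𝓛 (fun p : G × G => f p.1) := by
  obtain ⟨U, hU, h⟩ := hf
  exact ⟨U, hU, fun g g' s hs s' hs' => h _ _ hs⟩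

lemma LC1.snd {f : G → X} (hf : LC1 𝓛 f) : LC2 𝓛 (fun p : G × G => f p.2) := by
  obtain ⟨U, hU, h⟩ := hf
  exact ⟨U, hU, fun g g' s hs s' hs' => h _ _ hs'⟩

lemma LC1.mul {f : G → X} (hf : LC1 𝓛 f) : LC2 𝓛 (fun p : G × G => f (p.1 * p.2)) := by
  obtain ⟨U, hU, h⟩ := hf
  obtain ⟨N, hN, hn, hle⟩ := 𝓛.exists_normal hU
  refine ⟨N, hN, fun g g' s hs s' hs' => ?_⟩
  show f (g * s * (g' * s')) = f (g * g')
  have : g * s * (g' * s') = (g * g') * ((g'⁻¹ * s * g'⁻¹⁻¹) * s') := by group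
  rw [this]
  exact h _ _ (hle (N.mul_mem (hn.conj_mem _ hs _) hs'))

lemma LC1.finite_range {f : G → X} (hf : LC1 𝓛 f) : (Set.range f).Finite := by
  obtain ⟨U, hU, h⟩ := hf
  have := 𝓛.finiteIndex hU
  have : Finite (G ⧸ U) := U.finite_quotient_of_finiteIndex
  have : Set.range f ⊆ Set.range (fun x : G ⧸ U => f x.out) := by
    rintro _ ⟨g, rfl⟩
    refine ⟨(g : G ⧸ U), ?_⟩
    obtain ⟨u, hu⟩ := QuotientGroup.mk_out_eq_mul U g
    simp only [hu]
    exact h g u u.2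
  exact (Set.finite_range _).subset this

end LC

section Cochains

variable {k G A B C : Type*} [CommRing k] [Group G] [AddCommGroup A] [Module k A]
  [AddCommGroup B] [Module k B] [AddCommGroup C] [Module k C]

/-- every vector is fixed by an open subgroup -/
def Smooth (𝓛 : Levels G) (ρ : Representation k G A) : Prop :=
  ∀ a : A, ∃ U, 𝓛.op U ∧ ∀ s ∈ U, ρ s a = a

/-- `d0 a g = g a - a` -/
def d0 (ρ : Representation k G A) : A →ₗ[k] (G → A) where
  toFun a g := ρ g a - a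
  map_add' a b := by funext g; simp only [map_add, Pi.add_apply]; abel
  map_smul' c a := by funext g; simp only [map_smul, Pi.smul_apply, RingHom.id_apply, smul_sub]

@[simp] lemma d0_apply (ρ : Representation k G A) (a : A) (g : G) : d0 ρ a g = ρ g a - a := rfl

/-- `d1 f (g,h) = g f(h) - f(gh) + f(g)` -/
def d1 (ρ : Representation k G A) : (G → A) →ₗ[k] (G × G → A) where
  toFun f p := ρ p.1 (f p.2) - f (p.1 * p.2) + f p.1
  map_add' f f' := by funext g; simp only [map_add, Pi.add_apply]; abel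
  map_smul' c f := by
    funext g; simp only [map_smul, Pi.smul_apply, RingHom.id_apply, smul_sub, smul_add]

@[simp] lemma d1_apply (ρ : Representation k G A) (f : G → A) (p : G × G) :
    d1 ρ f p = ρ p.1 (f p.2) - f (p.1 * p.2) + f p.1 := rfl

/-- level constant 1-cochains -/
def C1 (𝓛 : Levels G) (k A : Type*) [CommRing k] [AddCommGroup A] [Module k A] :
    Submodule k (G → A) where
  carrier := {f | LC1 𝓛 f}
  add_mem' hf hf' := (hf.pair hf').comp' (fun p => p.1 + p.2)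
  zero_mem' := LC1.const 0
  smul_mem' c _ hf := hf.comp (c • ·)

/-- level constant 2-cochains -/
def C2 (𝓛 : Levels G) (k A : Type*) [CommRing k] [AddCommGroup A] [Module k A] :
    Submodule k (G × G → A) where
  carrier := {f | LC2 𝓛 f}
  add_mem' hf hf' := (hf.pair hf').comp' (fun p => p.1 + p.2)
  zero_mem' := LC2.const 0
  smul_mem' c _ hf := hf.comp (c • ·)

@[simp] lemma mem_C1 {𝓛 : Levels G} {f : G → A} : f ∈ C1 𝓛 k A ↔ LC1 𝓛 f := Iff.rfl
@[simp] lemma mem_C2 {𝓛 : Levels G} {f : G × G → A} : f ∈ C2 𝓛 k A ↔ LC2 𝓛 f := Iff.rfl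

/-- level constant 1-cocycles -/
def Z1 (𝓛 : Levels G) (ρ : Representation k G A) : Submodule k (G → A) where
  carrier := {f | LC1 𝓛 f ∧ ∀ g h, f (g * h) = ρ g (f h) + f g}
  add_mem' {f f'} hf hf' := ⟨(C1 𝓛 k A).add_mem hf.1 hf'.1, fun g h => by
    simp only [Pi.add_apply, hf.2, hf'.2, map_add]; abel⟩
  zero_mem' := ⟨(C1 𝓛 k A).zero_mem, fun g h => by simp⟩
  smul_mem' c f hf := ⟨(C1 𝓛 k A).smul_mem c hf.1, fun g h => by
    simp only [Pi.smul_apply, hf.2, map_smul, smul_add]⟩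

lemma mem_Z1 {𝓛 : Levels G} {ρ : Representation k G A} {f : G → A} :
    f ∈ Z1 𝓛 ρ ↔ LC1 𝓛 f ∧ ∀ g h, f (g * h) = ρ g (f h) + f g := Iff.rfl

/-- level constant 2-cocycles -/
def Z2 (𝓛 : Levels G) (ρ : Representation k G A) : Submodule k (G × G → A) where
  carrier := {f | LC2 𝓛 f ∧ ∀ g h j, f (g * h, j) + f (g, h) = ρ g (f (h, j)) + f (g, h * j)}
  add_mem' {f f'} hf hf' := ⟨(C2 𝓛 k A).add_mem hf.1 hf'.1, fun g h j => by
    have h1 := hf.2 g h j
    have h2 := hf'.2 g h j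
    simp only [Pi.add_apply, map_add]
    rw [show f (g * h, j) + f' (g * h, j) + (f (g, h) + f' (g, h)) =
      (f (g * h, j) + f (g, h)) + (f' (g * h, j) + f' (g, h)) by abel, h1, h2]
    abel⟩
  zero_mem' := ⟨(C2 𝓛 k A).zero_mem, fun g h j => by simp⟩
  smul_mem' c f hf := ⟨(C2 𝓛 k A).smul_mem c hf.1, fun g h j => by
    simp only [Pi.smul_apply, map_smul, ← smul_add, hf.2]⟩

lemma mem_Z2 {𝓛 : Levels G} {ρ : Representation k G A} {f : G × G → A} :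
    f ∈ Z2 𝓛 ρ ↔ LC2 𝓛 f ∧
      ∀ g h j, f (g * h, j) + f (g, h) = ρ g (f (h, j)) + f (g, h * j) := Iff.rfl

/-- 1-coboundaries -/
def B1 (ρ : Representation k G A) : Submodule k (G → A) := LinearMap.range (d0 ρ)

/-- 2-coboundaries of level constant cochains -/
def B2 (𝓛 : Levels G) (ρ : Representation k G A) : Submodule k (G × G → A) :=
  (C1 𝓛 k A).map (d1 ρ)

lemma mem_B1 {ρ : Representation k G A} {f : G → A} : f ∈ B1 ρ ↔ ∃ a, d0 ρ a = f := Iff.rfl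

lemma mem_B2 {𝓛 : Levels G} {ρ : Representation k G A} {f : G × G → A} :
    f ∈ B2 𝓛 ρ ↔ ∃ x, LC1 𝓛 x ∧ d1 ρ x = f := by
  simp only [B2, Submodule.mem_map, mem_C1]

/-- first level cohomology -/
abbrev H1 (𝓛 : Levels G) (ρ : Representation k G A) :=
  ↥(Z1 𝓛 ρ) ⧸ (B1 ρ).comap (Z1 𝓛 ρ).subtype

/-- second level cohomology -/
abbrev H2 (𝓛 : Levels G) (ρ : Representation k G A) :=
  ↥(Z2 𝓛 ρ) ⧸ (B2 𝓛 ρ).comap (Z2 𝓛 ρ).subtype

/-- class of a 1-cocycle -/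
abbrev H1π (𝓛 : Levels G) (ρ : Representation k G A) : ↥(Z1 𝓛 ρ) →ₗ[k] H1 𝓛 ρ := Submodule.mkQ _

/-- class of a 2-cocycle -/
abbrev H2π (𝓛 : Levels G) (ρ : Representation k G A) : ↥(Z2 𝓛 ρ) →ₗ[k] H2 𝓛 ρ := Submodule.mkQ _

lemma H1π_surjective (𝓛 : Levels G) (ρ : Representation k G A) :
    Function.Surjective (H1π 𝓛 ρ) := Submodule.mkQ_surjective _

lemma H2π_surjective (𝓛 : Levels G) (ρ : Representation k G A) :
    Function.Surjective (H2π 𝓛 ρ) := Submodule.mkQ_surjective _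

lemma H1π_eq_zero_iff {𝓛 : Levels G} {ρ : Representation k G A} (f : ↥(Z1 𝓛 ρ)) :
    H1π 𝓛 ρ f = 0 ↔ ∃ a, d0 ρ a = (f : G → A) := by
  rw [H1π, Submodule.mkQ_apply, Submodule.Quotient.mk_eq_zero]
  exact Iff.rfl

lemma H2π_eq_zero_iff {𝓛 : Levels G} {ρ : Representation k G A} (f : ↥(Z2 𝓛 ρ)) :
    H2π 𝓛 ρ f = 0 ↔ ∃ x, LC1 𝓛 x ∧ d1 ρ x = (f : G × G → A) := by
  rw [H2π, Submodule.mkQ_apply, Submodule.Quotient.mk_eq_zero, Submodule.mem_comap, mem_B2]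
  rfl

variable {𝓛 : Levels G} {ρ : Representation k G A}

lemma Smooth.uniform (hs : Smooth 𝓛 ρ) {s : Set A} (hfin : s.Finite) :
    ∃ U, 𝓛.op U ∧ ∀ g ∈ U, ∀ a ∈ s, ρ g a = a := by
  induction s, hfin using Set.Finite.induction_on with
  | empty => exact ⟨⊤, 𝓛.op_top, by simp⟩
  | @insert a s _ _ ih =>
    obtain ⟨U, hU, h⟩ := ih
    obtain ⟨V, hV, h'⟩ := hs a
    refine ⟨U ⊓ V, 𝓛.op_inf hU hV, fun g hg b hb => ?_⟩
    rcases Set.mem_insert_iff.1 hb with rfl | hb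
    · exact h' g hg.2
    · exact h g hg.1 b hb

lemma Smooth.lc1_d0 (hs : Smooth 𝓛 ρ) (a : A) : LC1 𝓛 (d0 ρ a) := by
  obtain ⟨U, hU, h⟩ := hs a
  exact ⟨U, hU, fun g s hs => by simp only [d0_apply, map_mul, Module.End.mul_apply, h s hs]⟩

/-- `(g,h) ↦ g f(h)` is level constant if `f` is and `ρ` is smooth -/
lemma Smooth.lc2_act (hs : Smooth 𝓛 ρ) {f : G → A} (hf : LC1 𝓛 f) :
    LC2 𝓛 (fun p : G × G => ρ p.1 (f p.2)) := by
  obtain ⟨V, hV, hfix⟩ := hs.uniform hf.finite_range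
  obtain ⟨U, hU, h⟩ := hf
  refine ⟨U ⊓ V, 𝓛.op_inf hU hV, fun g g' s hs s' hs' => ?_⟩
  show ρ (g * s) (f (g' * s')) = ρ g (f g')
  rw [h g' s' hs'.1, map_mul, Module.End.mul_apply, hfix s hs.2 _ ⟨g', rfl⟩]

lemma Smooth.lc2_d1 (hs : Smooth 𝓛 ρ) {f : G → A} (hf : LC1 𝓛 f) : LC2 𝓛 (d1 ρ f) :=
  (((hs.lc2_act hf).pair (hf.mul.pair hf.fst)).comp' (fun p => p.1 - p.2.1 + p.2.2) :)

lemma d0_cocycle (ρ : Representation k G A) (a : A) (g h : G) :
    d0 ρ a (g * h) = ρ g (d0 ρ a h) + d0 ρ a g := by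
  simp only [d0_apply, map_mul, Module.End.mul_apply, map_sub]; abel

lemma d1_cocycle (ρ : Representation k G A) (f : G → A) (g h j : G) :
    d1 ρ f (g * h, j) + d1 ρ f (g, h) = ρ g (d1 ρ f (h, j)) + d1 ρ f (g, h * j) := by
  simp only [d1_apply, map_mul, Module.End.mul_apply, map_sub, map_add, mul_assoc]; abel

lemma Smooth.d0_mem_Z1 (hs : Smooth 𝓛 ρ) (a : A) : d0 ρ a ∈ Z1 𝓛 ρ :=
  ⟨hs.lc1_d0 a, d0_cocycle ρ a⟩

lemma Smooth.d1_mem_Z2 (hs : Smooth 𝓛 ρ) {f : G → A} (hf : LC1 𝓛 f) : d1 ρ f ∈ Z2 𝓛 ρ :=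
  ⟨hs.lc2_d1 hf, d1_cocycle ρ f⟩

lemma d1_eq_zero_iff {ρ : Representation k G A} {f : G → A} :
    d1 ρ f = 0 ↔ ∀ g h, f (g * h) = ρ g (f h) + f g := by
  constructor
  · intro h g g'
    have := congrFun h (g, g')
    simp only [d1_apply, Pi.zero_apply] at this
    rw [eq_comm, ← sub_eq_zero, ← this]; abel
  · intro h
    funext p
    simp only [d1_apply, h p.1 p.2, Pi.zero_apply]; abel

end Cochains

section Functoriality

variable {k G H A B C : Type*} [CommRing k] [Group G] [Group H] [AddCommGroup A] [Module k A]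
  [AddCommGroup B] [Module k B] [AddCommGroup C] [Module k C]

/-- pull back along `f : H → G` and push forward along `φ : A → B`, degree 1 -/
def pp1 (f : H →* G) (φ : A →ₗ[k] B) : (G → A) →ₗ[k] (H → B) where
  toFun x := fun h => φ (x (f h))
  map_add' x y := by funext h; simp
  map_smul' c x := by funext h; simp

/-- pull back along `f : H → G` and push forward along `φ : A → B`, degree 2 -/
def pp2 (f : H →* G) (φ : A →ₗ[k] B) : (G × G → A) →ₗ[k] (H × H → B) where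
  toFun x := fun h => φ (x (f h.1, f h.2))
  map_add' x y := by funext h; simp
  map_smul' c x := by funext h; simp

@[simp] lemma pp1_apply (f : H →* G) (φ : A →ₗ[k] B) (x : G → A) (h : H) :
    pp1 f φ x h = φ (x (f h)) := rfl
@[simp] lemma pp2_apply (f : H →* G) (φ : A →ₗ[k] B) (x : G × G → A) (h : H × H) :
    pp2 f φ x h = φ (x (f h.1, f h.2)) := rfl

variable {𝓛 : Levels G} {𝓜 : Levels H} {f : H →* G} (hf : Levels.Cont 𝓜 𝓛 f)
  {ρA : Representation k G A} {ρB : Representation k H B} {φ : A →ₗ[k] B}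
  (hφ : ∀ h a, φ (ρA (f h) a) = ρB h (φ a))

include hf hφ in
lemma pp1_mem_Z1 {x : G → A} (hx : x ∈ Z1 𝓛 ρA) : pp1 f φ x ∈ Z1 𝓜 ρB :=
  ⟨(hx.1.precomp hf).comp' φ, fun g h => by simp only [pp1_apply, map_mul, hx.2, map_add, hφ]⟩

include hf hφ in
lemma pp2_mem_Z2 {x : G × G → A} (hx : x ∈ Z2 𝓛 ρA) : pp2 f φ x ∈ Z2 𝓜 ρB :=
  ⟨(hx.1.precomp hf).comp' φ, fun g h j => by
    simp only [pp2_apply, map_mul, ← map_add, hx.2, ← hφ]⟩

include hφ in
lemma pp1_d0 (a : A) : pp1 f φ (d0 ρA a) = d0 ρB (φ a) := by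
  funext h; simp [hφ]

include hφ in
lemma pp2_d1 (x : G → A) : pp2 f φ (d1 ρA x) = d1 ρB (pp1 f φ x) := by
  funext h; simp [hφ]

/-- functoriality of `H1` -/
def H1map : H1 𝓛 ρA →ₗ[k] H1 𝓜 ρB :=
  Submodule.mapQ _ _ ((pp1 f φ).restrict fun _ hx => pp1_mem_Z1 hf hφ hx) (by
    rintro ⟨x, hx⟩ ⟨a, ha⟩
    exact ⟨φ a, by
      rw [← pp1_d0 hφ]
      exact congrArg _ ha⟩)

/-- functoriality of `H2` -/
def H2map : H2 𝓛 ρA →ₗ[k] H2 𝓜 ρB :=
  Submodule.mapQ _ _ ((pp2 f φ).restrict fun _ hx => pp2_mem_Z2 hf hφ hx) (by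
    rintro ⟨x, hx⟩ hx'
    obtain ⟨y, hy, hxy⟩ := mem_B2.1 (show (x : G × G → A) ∈ B2 𝓛 ρA from hx')
    refine mem_B2.2 ⟨pp1 f φ y, (hy.precomp hf).comp' φ, ?_⟩
    rw [← pp2_d1 hφ, hxy]
    rfl)

lemma H1map_mk (x : ↥(Z1 𝓛 ρA)) :
    H1map hf hφ (H1π 𝓛 ρA x) = H1π 𝓜 ρB ⟨pp1 f φ x, pp1_mem_Z1 hf hφ x.2⟩ := rfl

lemma H2map_mk (x : ↥(Z2 𝓛 ρA)) :
    H2map hf hφ (H2π 𝓛 ρA x) = H2π 𝓜 ρB ⟨pp2 f φ x, pp2_mem_Z2 hf hφ x.2⟩ := rfl

end Functoriality

section Coeff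

variable {k G A B C : Type*} [CommRing k] [Group G] [AddCommGroup A] [Module k A]
  [AddCommGroup B] [Module k B] [AddCommGroup C] [Module k C]

/-- equivariance of a linear map -/
def Equivar (ρA : Representation k G A) (ρB : Representation k G B) (φ : A →ₗ[k] B) : Prop :=
  ∀ g a, φ (ρA g a) = ρB g (φ a)

/-- change of coefficients, degree 1 -/
def H1c (𝓛 : Levels G) {ρA : Representation k G A} {ρB : Representation k G B} {φ : A →ₗ[k] B}
    (hφ : Equivar ρA ρB φ) : H1 𝓛 ρA →ₗ[k] H1 𝓛 ρB :=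
  H1map (f := MonoidHom.id G) 𝓛.cont_id hφ

/-- change of coefficients, degree 2 -/
def H2c (𝓛 : Levels G) {ρA : Representation k G A} {ρB : Representation k G B} {φ : A →ₗ[k] B}
    (hφ : Equivar ρA ρB φ) : H2 𝓛 ρA →ₗ[k] H2 𝓛 ρB :=
  H2map (f := MonoidHom.id G) 𝓛.cont_id hφ

end Coeff

section Res

variable {k G H A : Type*} [CommRing k] [Group G] [Group H] [AddCommGroup A] [Module k A]

/-- restriction along a continuous homomorphism, degree 1 -/
def H1res {𝓛 : Levels G} {𝓜 : Levels H} {f : H →* G} (hf : Levels.Cont 𝓜 𝓛 f)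
    (ρ : Representation k G A) : H1 𝓛 ρ →ₗ[k] H1 𝓜 (ρ.comp f) :=
  H1map (ρB := ρ.comp f) (φ := LinearMap.id) hf (fun _ _ => rfl)

/-- restriction along a continuous homomorphism, degree 2 -/
def H2res {𝓛 : Levels G} {𝓜 : Levels H} {f : H →* G} (hf : Levels.Cont 𝓜 𝓛 f)
    (ρ : Representation k G A) : H2 𝓛 ρ →ₗ[k] H2 𝓜 (ρ.comp f) :=
  H2map (ρB := ρ.comp f) (φ := LinearMap.id) hf (fun _ _ => rfl)

end Res

section Fun

variable {k G A Ω : Type*} [CommRing k] [Group G] [AddCommGroup A] [Module k A] [MulAction G Ω]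

/-- functions on a `G`-set with values in `A`, `(g f)(x) = g (f (g⁻¹ x))` -/
def funRep (Ω : Type*) [MulAction G Ω] (ρ : Representation k G A) :
    Representation k G (Ω → A) where
  toFun g :=
    { toFun := fun f x => ρ g (f (g⁻¹ • x))
      map_add' := fun f f' => by funext x; simp
      map_smul' := fun c f => by funext x; simp }
  map_one' := by
    refine LinearMap.ext fun f => funext fun x => ?_
    simp
  map_mul' g h := by
    refine LinearMap.ext fun f => funext fun x => ?_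
    simp [mul_smul]

@[simp] lemma funRep_apply (ρ : Representation k G A) (g : G) (f : Ω → A) (x : Ω) :
    funRep Ω ρ g f x = ρ g (f (g⁻¹ • x)) := rfl

end Fun

end Fermat.Agent.H55
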