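import Mathlib
import Fermat.Prelude.Def_GroupCohomology_Selmer
import Fermat.Agent.H55Level

set_option autoImplicit false
set_option maxSynthPendingDepth 3

/-!
# S55 : definitions for the formal part
-/

namespace Fermat.Agent.H55

open Module

/-! ## short exact sequences of smooth representations -/

section SES
variable {k G A B C : Type*} [CommRing k] [Group G] [AddCommGroup A] [Module k A]
  [AddCommGroup B] [Module k B] [AddCommGroup C] [Module k C]

/-- A short exact sequence `0 → A → B → C → 0` of representations, `B` smooth. -/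
structure SES (𝓛 : Levels G) (ρA : Representation k G A) (ρB : Representation k G B)
    (ρC : Representation k G C) where
  i : A →ₗ[k] B
  q : B →ₗ[k] C
  hi : Equivar ρA ρB i
  hq : Equivar ρB ρC q
  inj : Function.Injective i
  surj : Function.Surjective q
  exact : ∀ b, q b = 0 ↔ ∃ a, i a = b
  smooth : Smooth 𝓛 ρB

namespace SES
variable {𝓛 : Levels G} {ρA : Representation k G A} {ρB : Representation k G B}
    {ρC : Representation k G C} (E : SES 𝓛 ρA ρB ρC)

include E in
lemma smooth_left : Smooth 𝓛 ρA := fun a => by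
  obtain ⟨U, hU, h⟩ := E.smooth (E.i a)
  exact ⟨U, hU, fun s hs => E.inj (by rw [E.hi, h s hs])⟩

include E in
lemma smooth_right : Smooth 𝓛 ρC := fun c => by
  obtain ⟨b, rfl⟩ := E.surj c
  obtain ⟨U, hU, h⟩ := E.smooth b
  exact ⟨U, hU, fun s hs => by rw [← E.hq, h s hs]⟩

end SES

lemma Smooth.comp {H : Type*} [Group H] {𝓛 : Levels G} {𝓜 : Levels H} {ρ : Representation k G A}
    (h : Smooth 𝓛 ρ) {f : H →* G} (hf : Levels.Cont 𝓜 𝓛 f) : Smooth 𝓜 (ρ.comp f) := fun a => by
  obtain ⟨U, hU, h⟩ := h a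
  exact ⟨_, hf U hU, fun s hs => h _ hs⟩

/-- restriction of a short exact sequence along a continuous homomorphism -/
def SES.res {H : Type*} [Group H] {𝓛 : Levels G} {𝓜 : Levels H} {ρA : Representation k G A}
    {ρB : Representation k G B} {ρC : Representation k G C} (E : SES 𝓛 ρA ρB ρC) {f : H →* G}
    (hf : Levels.Cont 𝓜 𝓛 f) : SES 𝓜 (ρA.comp f) (ρB.comp f) (ρC.comp f) where
  i := E.i
  q := E.q
  hi h := E.hi (f h)
  hq h := E.hq (f h)
  inj := E.inj
  surj := E.surj
  exact := E.exact
  smooth := E.smooth.comp hf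

end SES

/-! ## twisted duals -/

section Twist
variable {k G A : Type*} [CommRing k] [Group G] [AddCommGroup A] [Module k A]

/-- the one dimensional representation given by a character -/
abbrev mu (χ : G →* kˣ) : Representation k G k := (Representation.trivial k G k).twist χ

@[simp] lemma mu_apply (χ : G →* kˣ) (g : G) (a : k) : mu χ g a = (χ g : k) * a := by
  simp [mu, Representation.twist_apply_apply]

/-- the twisted dual -/
abbrev dtw (χ : G →* kˣ) (ρ : Representation k G A) : Representation k G (Module.Dual k A) :=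
  ρ.dual.twist χ

lemma dtw_apply (χ : G →* kˣ) (ρ : Representation k G A) (g : G) (f : Module.Dual k A) (a : A) :
    dtw χ ρ g f a = (χ g : k) * f (ρ g⁻¹ a) := by
  simp [dtw, Representation.twist_apply_apply, Representation.dual_apply]
  rfl

end Twist

/-! ## decomposition subgroups and double cosets -/

section Dec
variable {G H : Type*} [Group G] [Group H]

/-- `{x : H | g⁻¹ f(x) g ∈ U}`, the stabiliser in `H` of the point `g U` of `G / U`. -/
def dec (f : H →* G) (U : Subgroup G) (g : G) : Subgroup H where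
  carrier := {x | g⁻¹ * f x * g ∈ U}
  mul_mem' {x y} hx hy := by
    have := U.mul_mem hx hy
    simp only [Set.mem_setOf_eq, map_mul] at this ⊢
    convert this using 1
    group
  one_mem' := by simp
  inv_mem' {x} hx := by
    have := U.inv_mem hx
    simp only [Set.mem_setOf_eq, map_inv] at this ⊢
    convert this using 1
    group

@[simp] lemma mem_dec {f : H →* G} {U : Subgroup G} {g : G} {x : H} :
    x ∈ dec f U g ↔ g⁻¹ * f x * g ∈ U := Iff.rfl

/-- `x ↦ g⁻¹ f(x) g` -/
def decHom (f : H →* G) (U : Subgroup G) (g : G) : dec f U g →* U where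
  toFun x := ⟨g⁻¹ * f x * g, x.2⟩
  map_one' := by ext; simp
  map_mul' x y := by
    ext
    simp only [Subgroup.coe_mul, map_mul]
    group

@[simp] lemma coe_decHom (f : H →* G) (U : Subgroup G) (g : G) (x : dec f U g) :
    (decHom f U g x : G) = g⁻¹ * f x * g := rfl

lemma op_dec {𝓛 : Levels G} {𝓜 : Levels H} {f : H →* G} (hf : Levels.Cont 𝓜 𝓛 f)
    {U : Subgroup G} (hU : 𝓛.op U) (g : G) : 𝓜.op (dec f U g) := by
  obtain ⟨N, hN, hn, hle⟩ := 𝓛.exists_normal hU
  refine 𝓜.op_mono ?_ (hf N hN)
  intro x hx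
  have := hn.conj_mem _ hx g⁻¹
  rw [inv_inv] at this
  exact hle this

lemma cont_decHom {𝓛 : Levels G} {𝓜 : Levels H} {f : H →* G} (hf : Levels.Cont 𝓜 𝓛 f)
    (U : Subgroup G) (g : G) :
    Levels.Cont (𝓜.onSub (dec f U g)) (𝓛.onSub U) (decHom f U g) := by
  rintro V ⟨W, hW, hle⟩
  refine ⟨dec f W g, op_dec hf hW g, ?_⟩
  rintro x hx
  exact hle hx

/-- the equivalence relation on `G / U` given by the orbits of `H` -/
def placeSetoid (f : H →* G) (U : Subgroup G) : Setoid (G ⧸ U) where
  r a b := ∃ x : H, f x • a = b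
  iseqv :=
    { refl := fun a => ⟨1, by simp⟩
      symm := by
        rintro a b ⟨x, rfl⟩
        exact ⟨x⁻¹, by simp⟩
      trans := by
        rintro a b c ⟨x, rfl⟩ ⟨y, rfl⟩
        exact ⟨y * x, by simp [mul_smul]⟩ }

/-- the set of double cosets `f(H) \ G / U` -/
def Places (f : H →* G) (U : Subgroup G) : Type _ := Quotient (placeSetoid f U)

/-- the double coset of `g` -/
def place (f : H →* G) (U : Subgroup G) (g : G) : Places f U :=
  Quotient.mk (placeSetoid f U) (g : G ⧸ U)

lemma place_eq_iff {f : H →* G} {U : Subgroup G} {g g' : G} :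
    place f U g = place f U g' ↔ ∃ x : H, ∃ u ∈ U, f x * g * u = g' := by
  constructor
  · intro h
    obtain ⟨x, hx⟩ := Quotient.exact h
    have hx' : ((f x * g : G) : G ⧸ U) = (g' : G ⧸ U) := hx
    rw [QuotientGroup.eq] at hx'
    exact ⟨x, _, hx', by group⟩
  · rintro ⟨x, u, hu, rfl⟩
    refine Quotient.sound ⟨x, ?_⟩
    show ((f x * g : G) : G ⧸ U) = ((f x * g * u : G) : G ⧸ U)
    rw [QuotientGroup.eq]
    have : (f x * g)⁻¹ * (f x * g * u) = u := by group
    rwa [this]

lemma place_surjective (f : H →* G) (U : Subgroup G) : Function.Surjective (place f U) := by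
  intro w
  induction w using Quotient.inductionOn with
  | h a =>
    induction a using Quotient.inductionOn with
    | h g => exact ⟨g, rfl⟩

instance (f : H →* G) (U : Subgroup G) [Finite (G ⧸ U)] : Finite (Places f U) :=
  inferInstanceAs (Finite (Quotient (placeSetoid f U)))

/-- number of double cosets -/
noncomputable def nPl (f : H →* G) (U : Subgroup G) : ℕ := Nat.card (Places f U)

end Dec

/-! ## local data -/

/-- A family of local groups with continuous homomorphisms to `G`. -/
structure LD {G : Type} [Group G] (𝓛 : Levels G) where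
  ι : Type
  [fin : Fintype ι]
  Gv : ι → Type
  [grp : ∀ v, Group (Gv v)]
  lev : ∀ v, Levels (Gv v)
  loc : ∀ v, Gv v →* G
  cont : ∀ v, Levels.Cont (lev v) 𝓛 (loc v)

attribute [instance] LD.fin LD.grp

namespace LD

variable {k G A : Type} [CommRing k] [Group G] [AddCommGroup A] [Module k A] {𝓛 : Levels G}
  (D : LD 𝓛)

/-- restriction of a representation to the local group -/
abbrev rv (ρ : Representation k G A) (v : D.ι) : Representation k (D.Gv v) A := ρ.comp (D.loc v)

/-- total localisation, degree 1 -/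
def loc1 (ρ : Representation k G A) : H1 𝓛 ρ →ₗ[k] ∀ v, H1 (D.lev v) (D.rv ρ v) :=
  LinearMap.pi fun v => H1res (D.cont v) ρ

/-- total localisation, degree 2 -/
def loc2 (ρ : Representation k G A) : H2 𝓛 ρ →ₗ[k] ∀ v, H2 (D.lev v) (D.rv ρ v) :=
  LinearMap.pi fun v => H2res (D.cont v) ρ

@[simp] lemma loc1_apply (ρ : Representation k G A) (x : H1 𝓛 ρ) (v : D.ι) :
    D.loc1 ρ x v = H1res (D.cont v) ρ x := rfl

@[simp] lemma loc2_apply (ρ : Representation k G A) (x : H2 𝓛 ρ) (v : D.ι) :
    D.loc2 ρ x v = H2res (D.cont v) ρ x := rfl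

/-- locally trivial classes of degree 1 -/
def Sha1 (ρ : Representation k G A) : Submodule k (H1 𝓛 ρ) := LinearMap.ker (D.loc1 ρ)

/-- locally trivial classes of degree 2 -/
def Sha2 (ρ : Representation k G A) : Submodule k (H2 𝓛 ρ) := LinearMap.ker (D.loc2 ρ)

/-- product of the local cohomology groups of degree 2 -/
abbrev P2 (ρ : Representation k G A) : Type := ∀ v, H2 (D.lev v) (D.rv ρ v)

/-- cokernel of the localisation in degree 2 -/
abbrev Cok (ρ : Representation k G A) : Type :=
  D.P2 ρ ⧸ (LinearMap.range (D.loc2 ρ) : Submodule k (D.P2 ρ))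

variable (k) in
/-- the trivial module over an open subgroup -/
abbrev trv (U : Subgroup G) : Representation k U k := Representation.trivial k U k

variable (k) in
/-- localisation of a class of `U` with trivial coefficients at the double coset of `g`, degree 1 -/
def locU1 (U : Subgroup G) (v : D.ι) (g : G) :
    H1 (𝓛.onSub U) (Representation.trivial k U k) →ₗ[k]
      H1 ((D.lev v).onSub (dec (D.loc v) U g))
        (Representation.trivial k (dec (D.loc v) U g) k) :=
  H1map (f := decHom (D.loc v) U g) (φ := LinearMap.id) (cont_decHom (D.cont v) U g)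
    (fun _ _ => rfl)

variable (k) in
/-- localisation of a class of `U` with trivial coefficients at the double coset of `g`, degree 2 -/
def locU2 (U : Subgroup G) (v : D.ι) (g : G) :
    H2 (𝓛.onSub U) (Representation.trivial k U k) →ₗ[k]
      H2 ((D.lev v).onSub (dec (D.loc v) U g))
        (Representation.trivial k (dec (D.loc v) U g) k) :=
  H2map (f := decHom (D.loc v) U g) (φ := LinearMap.id) (cont_decHom (D.cont v) U g)
    (fun _ _ => rfl)

variable (k) in
/-- everywhere locally trivial classes of `H²(U, k)` -/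
def ShaU2 (U : Subgroup G) : Submodule k (H2 (𝓛.onSub U) (Representation.trivial k U k)) :=
  ⨅ v, ⨅ g, LinearMap.ker (D.locU2 k U v g)

variable (k) in
lemma mem_ShaU2 {U : Subgroup G} {z : H2 (𝓛.onSub U) (Representation.trivial k U k)} :
    z ∈ D.ShaU2 k U ↔ ∀ v g, D.locU2 k U v g z = 0 := by
  simp [ShaU2, Submodule.mem_iInf]

/-- total number of places of the fixed field of `U` -/
noncomputable def nPlaces (U : Subgroup G) : ℕ := ∑ v, nPl (D.loc v) U

end LD

/-- **The arithmetic input of the Poitou-Tate theorem (numerical form).** -/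
structure ArithInput {k G : Type} [Field k] [Group G] {𝓛 : Levels G} (D : LD 𝓛)
    (χ : G →* kˣ) : Prop where
  /-- `Q(μ_p)` is unramified outside `S` -/
  open_ker : 𝓛.op χ.ker
  /-- local finiteness -/
  loc_fin1 : ∀ v V, (D.lev v).op V → V ≤ (χ.comp (D.loc v)).ker →
    Module.Finite k (H1 ((D.lev v).onSub V) (Representation.trivial k V k))
  loc_fin2 : ∀ v V, (D.lev v).op V → V ≤ (χ.comp (D.loc v)).ker →
    Module.Finite k (H2 ((D.lev v).onSub V) (Representation.trivial k V k))
  /-- `dim H¹(F, μ_p) = 2 + [F : Q_p]` or `2` -/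
  loc_h1 : ∃ c : D.ι → ℕ, ∑ v, c v = 1 ∧ ∀ v V, (D.lev v).op V → V ≤ (χ.comp (D.loc v)).ker →
    finrank k (H1 ((D.lev v).onSub V) (Representation.trivial k V k)) = 2 + c v * V.index
  /-- `dim H²(F, μ_p) = 1` -/
  loc_h2 : ∀ v V, (D.lev v).op V → V ≤ (χ.comp (D.loc v)).ker →
    finrank k (H2 ((D.lev v).onSub V) (Representation.trivial k V k)) = 1
  /-- there is a place totally ramified in `ℚ(μ_p)` (namely `p`), and `H²(ℚ_p, μ_p) ≠ 0` -/
  tot_ram : ∃ v, (∀ g : G, ∃ x : D.Gv v, χ (D.loc v x) = χ g) ∧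
    Nontrivial (H2 (D.lev v) (mu (χ.comp (D.loc v))))
  /-- finiteness of `H¹_S(K, μ_p)`, `H²_S(K, μ_p)` -/
  glob_fin1 : ∀ U, 𝓛.op U → U ≤ χ.ker →
    Module.Finite k (H1 (𝓛.onSub U) (Representation.trivial k U k))
  glob_fin2 : ∀ U, 𝓛.op U → U ≤ χ.ker →
    Module.Finite k (H2 (𝓛.onSub U) (Representation.trivial k U k))
  /-- Kummer theory: `dim H¹_S(K, μ_p) = #S(K) + [K:ℚ]/2 + c`, `dim Ш²_S(K, μ_p) = c` where
  `c = dim Cl_S(K)/p`. -/
  glob_h : ∀ U, 𝓛.op U → U ≤ χ.ker →
    2 * finrank k (H1 (𝓛.onSub U) (Representation.trivial k U k)) =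
      2 * D.nPlaces U + U.index + 2 * finrank k (D.ShaU2 k U)
  /-- codimension at most one, for a cofinal family of `K` -/
  codim : ∀ U, 𝓛.op U → ∃ U', 𝓛.op U' ∧ U' ≤ U ∧ U' ≤ χ.ker ∧
    D.nPlaces U' + finrank k (D.ShaU2 k U') ≤
      finrank k (H2 (𝓛.onSub U') (Representation.trivial k U' k)) + 1
  /-- no class of `H²_S(ℚ(μ_p), μ_p)` has exactly one nonzero local component -/
  iso : ∀ (z : H2 (𝓛.onSub χ.ker) (Representation.trivial k χ.ker k)) (v₀ : D.ι) (g₀ : G),
    (∀ v g, (v = v₀ → place (D.loc v) χ.ker g ≠ place (D.loc v) χ.ker g₀) →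
      D.locU2 k χ.ker v g z = 0) → D.locU2 k χ.ker v₀ g₀ z = 0

end Fermat.Agent.H55
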