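import Mathlib
import Fermat.Prelude.Def_GroupCohomology_ContinuousUnramified
import Fermat.Agent.H91Inertia

set_option autoImplicit false

/-!
# Level families

An abstract version of "locally constant cochains" used in the Prelude:
a family of subgroups which is a neighbourhood basis of the identity for a group topology
with open subgroups of finite index.
-/

namespace Fermat.Agent.H91

universe u v w

/-- A family of finite index subgroups forming a basis of neighbourhoods of `1`. -/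
structure LevelFam (G : Type u) [Group G] where
  carrier : Set (Subgroup G)
  nonempty' : carrier.Nonempty
  inf_mem' : ∀ V ∈ carrier, ∀ W ∈ carrier, ∃ X ∈ carrier, X ≤ V ⊓ W
  core' : ∀ V ∈ carrier, ∃ X ∈ carrier, X ≤ V ∧ X.Normal ∧ X.FiniteIndex

lemma finiteIndex_comap' {G : Type u} [Group G] {H : Type v} [Group H] (r : H →* G)
    (X : Subgroup G) [hX : X.FiniteIndex] : (X.comap r).FiniteIndex := by
  constructor
  rw [Subgroup.index_comap]
  intro h0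
  exact hX.index_ne_zero (Subgroup.index_eq_zero_of_relIndex_eq_zero h0)

namespace LevelFam

variable {G : Type u} [Group G] {H : Type v} [Group H] (𝓥 : LevelFam G)

/-- cochains of degree one constant on cosets of a level subgroup -/
def IsConst₁ {X : Type*} (f : G → X) : Prop :=
  ∃ V ∈ 𝓥.carrier, ∀ g, ∀ s ∈ V, f (g * s) = f g

/-- cochains of degree two constant on cosets of a level subgroup -/
def IsConst₂ {X : Type*} (f : G × G → X) : Prop :=
  ∃ V ∈ 𝓥.carrier, ∀ g g', ∀ s ∈ V, ∀ s' ∈ V, f (g * s, g' * s') = f (g, g')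

/-- a subgroup is open if it contains a level subgroup -/
def IsOpenSubgroup (U : Subgroup G) : Prop := ∃ V ∈ 𝓥.carrier, V ≤ U

variable {𝓥}

lemma IsConst₁.exists_normal {X : Type*} {f : G → X} (hf : 𝓥.IsConst₁ f) :
    ∃ V ∈ 𝓥.carrier, V.Normal ∧ V.FiniteIndex ∧ ∀ g, ∀ s ∈ V, f (g * s) = f g := by
  obtain ⟨V, hV, h⟩ := hf
  obtain ⟨X, hX, hXV, hn, hi⟩ := 𝓥.core' V hV
  exact ⟨X, hX, hn, hi, fun g s hs => h g s (hXV hs)⟩

lemma IsConst₂.exists_normal {X : Type*} {f : G × G → X} (hf : 𝓥.IsConst₂ f) :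
    ∃ V ∈ 𝓥.carrier, V.Normal ∧ V.FiniteIndex ∧
      ∀ g g', ∀ s ∈ V, ∀ s' ∈ V, f (g * s, g' * s') = f (g, g') := by
  obtain ⟨V, hV, h⟩ := hf
  obtain ⟨X, hX, hXV, hn, hi⟩ := 𝓥.core' V hV
  exact ⟨X, hX, hn, hi, fun g g' s hs s' hs' => h g g' s (hXV hs) s' (hXV hs')⟩

lemma isConst₁_const {X : Type*} (x : X) : 𝓥.IsConst₁ (fun _ : G => x) := by
  obtain ⟨V, hV⟩ := 𝓥.nonempty'
  exact ⟨V, hV, fun _ _ _ => rfl⟩

lemma isConst₂_const {X : Type*} (x : X) : 𝓥.IsConst₂ (fun _ : G × G => x) := by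
  obtain ⟨V, hV⟩ := 𝓥.nonempty'
  exact ⟨V, hV, fun _ _ _ _ _ _ => rfl⟩

lemma IsConst₁.comp {X Y : Type*} {f : G → X} (hf : 𝓥.IsConst₁ f) (φ : X → Y) :
    𝓥.IsConst₁ (fun g => φ (f g)) := by
  obtain ⟨V, hV, h⟩ := hf
  exact ⟨V, hV, fun g s hs => by simp only [h g s hs]⟩

lemma IsConst₂.comp {X Y : Type*} {f : G × G → X} (hf : 𝓥.IsConst₂ f) (φ : X → Y) :
    𝓥.IsConst₂ (fun g => φ (f g)) := by
  obtain ⟨V, hV, h⟩ := hf
  exact ⟨V, hV, fun g g' s hs s' hs' => by simp only [h g g' s hs s' hs']⟩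

lemma IsConst₁.prodMk {X Y : Type*} {f : G → X} {f' : G → Y} (hf : 𝓥.IsConst₁ f)
    (hf' : 𝓥.IsConst₁ f') : 𝓥.IsConst₁ (fun g => (f g, f' g)) := by
  obtain ⟨V, hV, h⟩ := hf
  obtain ⟨V', hV', h'⟩ := hf'
  obtain ⟨X, hX, hle⟩ := 𝓥.inf_mem' V hV V' hV'
  exact ⟨X, hX, fun g s hs => by
    simp only [h g s (hle hs).1, h' g s (hle hs).2]⟩

lemma IsConst₂.prodMk {X Y : Type*} {f : G × G → X} {f' : G × G → Y} (hf : 𝓥.IsConst₂ f)
    (hf' : 𝓥.IsConst₂ f') : 𝓥.IsConst₂ (fun g => (f g, f' g)) := by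
  obtain ⟨V, hV, h⟩ := hf
  obtain ⟨V', hV', h'⟩ := hf'
  obtain ⟨X, hX, hle⟩ := 𝓥.inf_mem' V hV V' hV'
  exact ⟨X, hX, fun g g' s hs s' hs' => by
    simp only [h g g' s (hle hs).1 s' (hle hs').1, h' g g' s (hle hs).2 s' (hle hs').2]⟩

lemma IsConst₁.map₂ {X Y Z : Type*} {f : G → X} {f' : G → Y} (hf : 𝓥.IsConst₁ f)
    (hf' : 𝓥.IsConst₁ f') (φ : X → Y → Z) : 𝓥.IsConst₁ (fun g => φ (f g) (f' g)) :=
  (hf.prodMk hf').comp (fun p => φ p.1 p.2)

lemma IsConst₂.map₂ {X Y Z : Type*} {f : G × G → X} {f' : G × G → Y} (hf : 𝓥.IsConst₂ f)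
    (hf' : 𝓥.IsConst₂ f') (φ : X → Y → Z) : 𝓥.IsConst₂ (fun g => φ (f g) (f' g)) :=
  (hf.prodMk hf').comp (fun p => φ p.1 p.2)

/-- pull-back of a level family -/
def comap (𝓥 : LevelFam G) (r : H →* G) : LevelFam H where
  carrier := {V | ∃ W ∈ 𝓥.carrier, V = W.comap r}
  nonempty' := by
    obtain ⟨V, hV⟩ := 𝓥.nonempty'
    exact ⟨_, V, hV, rfl⟩
  inf_mem' := by
    rintro _ ⟨V, hV, rfl⟩ _ ⟨W, hW, rfl⟩
    obtain ⟨X, hX, hle⟩ := 𝓥.inf_mem' V hV W hW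
    exact ⟨_, ⟨X, hX, rfl⟩, fun x hx => ⟨(hle hx).1, (hle hx).2⟩⟩
  core' := by
    rintro _ ⟨V, hV, rfl⟩
    obtain ⟨X, hX, hle, hn, hi⟩ := 𝓥.core' V hV
    refine ⟨_, ⟨X, hX, rfl⟩, Subgroup.comap_mono hle, ?_, ?_⟩
    · exact hn.comap r
    · exact finiteIndex_comap' r X

/-- restriction of a level family to a subgroup -/
abbrev restrict (𝓥 : LevelFam G) (U : Subgroup G) : LevelFam U := 𝓥.comap U.subtype

lemma isConst₁_comap_iff (𝓥 : LevelFam G) (r : H →* G) {X : Type*} (f : H → X) :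
    (𝓥.comap r).IsConst₁ f ↔ ∃ V ∈ 𝓥.carrier, ∀ g s, r s ∈ V → f (g * s) = f g := by
  constructor
  · rintro ⟨_, ⟨V, hV, rfl⟩, h⟩
    exact ⟨V, hV, fun g s hs => h g s hs⟩
  · rintro ⟨V, hV, h⟩
    exact ⟨_, ⟨V, hV, rfl⟩, fun g s hs => h g s hs⟩

lemma isConst₂_comap_iff (𝓥 : LevelFam G) (r : H →* G) {X : Type*} (f : H × H → X) :
    (𝓥.comap r).IsConst₂ f ↔
      ∃ V ∈ 𝓥.carrier, ∀ g g' s s', r s ∈ V → r s' ∈ V → f (g * s, g' * s') = f (g, g') := by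
  constructor
  · rintro ⟨_, ⟨V, hV, rfl⟩, h⟩
    exact ⟨V, hV, fun g g' s s' hs hs' => h g g' s hs s' hs'⟩
  · rintro ⟨V, hV, h⟩
    exact ⟨_, ⟨V, hV, rfl⟩, fun g g' s hs s' hs' => h g g' s s' hs hs'⟩

lemma IsConst₁.comap (r : H →* G) {X : Type*} {f : G → X} (hf : 𝓥.IsConst₁ f) :
    (𝓥.comap r).IsConst₁ (fun h => f (r h)) := by
  obtain ⟨V, hV, h⟩ := hf
  exact ⟨_, ⟨V, hV, rfl⟩, fun g s hs => by
    simp only [map_mul]; exact h _ _ hs⟩

lemma IsConst₂.comap (r : H →* G) {X : Type*} {f : G × G → X} (hf : 𝓥.IsConst₂ f) :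
    (𝓥.comap r).IsConst₂ (fun h => f (r h.1, r h.2)) := by
  obtain ⟨V, hV, h⟩ := hf
  exact ⟨_, ⟨V, hV, rfl⟩, fun g g' s hs s' hs' => by
    simp only [map_mul]; exact h _ _ _ hs _ hs'⟩

lemma IsOpenSubgroup.finiteIndex {U : Subgroup G} (hU : 𝓥.IsOpenSubgroup U) : U.FiniteIndex := by
  obtain ⟨V, hV, hle⟩ := hU
  obtain ⟨X, -, hXV, -, hi⟩ := 𝓥.core' V hV
  exact Subgroup.finiteIndex_of_le (hXV.trans hle)

lemma IsOpenSubgroup.inf {U W : Subgroup G} (hU : 𝓥.IsOpenSubgroup U) (hW : 𝓥.IsOpenSubgroup W) :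
    𝓥.IsOpenSubgroup (U ⊓ W) := by
  obtain ⟨V, hV, hle⟩ := hU
  obtain ⟨V', hV', hle'⟩ := hW
  obtain ⟨X, hX, hXle⟩ := 𝓥.inf_mem' V hV V' hV'
  exact ⟨X, hX, le_inf ((hXle.trans inf_le_left).trans hle) ((hXle.trans inf_le_right).trans hle')⟩

lemma isOpenSubgroup_of_mem {V : Subgroup G} (hV : V ∈ 𝓥.carrier) : 𝓥.IsOpenSubgroup V :=
  ⟨V, hV, le_rfl⟩

lemma IsOpenSubgroup.mono {U W : Subgroup G} (hU : 𝓥.IsOpenSubgroup U) (h : U ≤ W) :
    𝓥.IsOpenSubgroup W := by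
  obtain ⟨V, hV, hle⟩ := hU
  exact ⟨V, hV, hle.trans h⟩

lemma IsOpenSubgroup.comap (r : H →* G) {U : Subgroup G} (hU : 𝓥.IsOpenSubgroup U) :
    (𝓥.comap r).IsOpenSubgroup (U.comap r) := by
  obtain ⟨V, hV, hle⟩ := hU
  exact ⟨_, ⟨V, hV, rfl⟩, Subgroup.comap_mono hle⟩

end LevelFam

/-! ### The level families of the Prelude -/

open groupCohomology

/-- the field of algebraic numbers -/
abbrev Qb : Type := AlgebraicClosure ℚ

/-- the Galois group of `ℚ` -/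
abbrev GQ : Type := AlgebraicClosure ℚ ≃ₐ[ℚ] AlgebraicClosure ℚ

instance instIsAlgebraicQb : Algebra.IsAlgebraic ℚ (AlgebraicClosure ℚ) :=
  AlgebraicClosure.isAlgebraic ℚ

instance instIsAlgClosureQb : IsAlgClosure ℚ (AlgebraicClosure ℚ) := ⟨inferInstance, inferInstance⟩

instance instNormalQb : Normal ℚ (AlgebraicClosure ℚ) := IsAlgClosure.normal ℚ _

instance instIsGaloisQb : IsGalois ℚ (AlgebraicClosure ℚ) := ⟨⟩

section generic

variable {K L : Type*} [Field K] [Field L] [Algebra K L]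

lemma normal_fixingSubgroup [Normal K L] (F : IntermediateField K L)
    [Normal K F] : F.fixingSubgroup.Normal := by
  rw [← IntermediateField.restrictNormalHom_ker]
  infer_instance

lemma finiteIndex_fixingSubgroup [IsGalois K L] (F : IntermediateField K L)
    [FiniteDimensional K F] : F.fixingSubgroup.FiniteIndex := by
  constructor
  rw [← IntermediateField.finrank_eq_fixingSubgroup_index]
  exact Module.finrank_pos.ne'

lemma exists_normal_level_conj [IsGalois K L] (F : IntermediateField K L)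
    [FiniteDimensional K F] :
    ∃ E : IntermediateField K L, FiniteDimensional K E ∧ F ≤ E ∧ E.fixingSubgroup.Normal ∧
      E.fixingSubgroup.FiniteIndex ∧ ∀ I : Subgroup (L ≃ₐ[K] L),
        (∀ τ : L ≃ₐ[K] L, ∀ σ ∈ I, τ⁻¹ * σ * τ ∈ F.fixingSubgroup) → I ≤ E.fixingSubgroup := by
  refine ⟨IntermediateField.normalClosure K F L, inferInstance,
    IntermediateField.le_normalClosure F,
      normal_fixingSubgroup _, finiteIndex_fixingSubgroup _, fun I hI => ?_⟩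
  rw [← IntermediateField.le_iff_le, IntermediateField.normalClosure_def'']
  refine iSup_le fun τ => ?_
  rintro _ ⟨x, hx, rfl⟩
  rw [IntermediateField.mem_fixedField_iff]
  intro σ hσ
  have h2 := hI τ σ hσ
  rw [IntermediateField.mem_fixingSubgroup_iff] at h2
  have h3 : (τ⁻¹ * σ * τ) x = x := h2 x hx
  have h4 : τ ((τ⁻¹ * σ * τ) x) = σ (τ x) := by
    simp [AlgEquiv.mul_apply, AlgEquiv.aut_inv]
  rw [h3] at h4
  exact h4.symm

lemma exists_normal_level [IsGalois K L] (F : IntermediateField K L) [FiniteDimensional K F] :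
    ∃ E : IntermediateField K L, FiniteDimensional K E ∧ F ≤ E ∧ E.fixingSubgroup.Normal ∧
      E.fixingSubgroup.FiniteIndex := by
  obtain ⟨E, h1, h2, h3, h4, -⟩ := exists_normal_level_conj F
  exact ⟨E, h1, h2, h3, h4⟩

end generic

/-- The Krull level family on the absolute Galois group of `ℚ`. -/
def krullFam : LevelFam GQ where
  carrier := {V | ∃ F : IntermediateField ℚ (AlgebraicClosure ℚ), FiniteDimensional ℚ F ∧
    V = F.fixingSubgroup}
  nonempty' := ⟨_, ⊥, inferInstance, rfl⟩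
  inf_mem' := by
    rintro _ ⟨F, hF, rfl⟩ _ ⟨F', hF', rfl⟩
    have := hF; have := hF'
    refine ⟨_, ⟨F ⊔ F', inferInstance, rfl⟩, ?_⟩
    rw [IntermediateField.fixingSubgroup_sup]
  core' := by
    rintro _ ⟨F, hF, rfl⟩
    have := hF
    obtain ⟨E, hE, hle, hn, hi⟩ := exists_normal_level F
    exact ⟨_, ⟨E, hE, rfl⟩, IntermediateField.fixingSubgroup_antitone hle, hn, hi⟩

lemma mem_krullFam_iff (V : Subgroup GQ) : V ∈ krullFam.carrier ↔
    ∃ F : IntermediateField ℚ (AlgebraicClosure ℚ), FiniteDimensional ℚ F ∧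
      V = F.fixingSubgroup := Iff.rfl

open scoped Pointwise in
lemma exists_normal_levelS {S : Finset Nat.Primes}
    {F : IntermediateField ℚ (AlgebraicClosure ℚ)} (hF : F.IsUnramifiedOutside S) :
    ∃ E : IntermediateField ℚ (AlgebraicClosure ℚ), E.IsUnramifiedOutside S ∧ F ≤ E ∧
      E.fixingSubgroup.Normal ∧ E.fixingSubgroup.FiniteIndex := by
  have := hF.1
  obtain ⟨E, h1, h2, h3, h4, h5⟩ := exists_normal_level_conj F
  refine ⟨E, ⟨h1, fun q hq A hA => h5 _ fun τ σ hσ => ?_⟩, h2, h3, h4⟩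
  have h6 := hF.2 q hq _ (liesOverPrime_smul' hA τ⁻¹) (conj_mem_inertia hσ τ⁻¹)
  rwa [inv_inv] at h6

/-- The level family on the absolute Galois group of `ℚ` given by number fields unramified
outside `S`. -/
def ramFam (S : Finset Nat.Primes) : LevelFam GQ where
  carrier := {V | ∃ F : IntermediateField ℚ (AlgebraicClosure ℚ), F.IsUnramifiedOutside S ∧
    V = F.fixingSubgroup}
  nonempty' := ⟨_, ⊥, IntermediateField.isUnramifiedOutside_bot S, rfl⟩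
  inf_mem' := by
    rintro _ ⟨F, hF, rfl⟩ _ ⟨F', hF', rfl⟩
    refine ⟨_, ⟨F ⊔ F', hF.sup hF', rfl⟩, ?_⟩
    rw [IntermediateField.fixingSubgroup_sup]
  core' := by
    rintro _ ⟨F, hF, rfl⟩
    obtain ⟨E, hE, hle, hn, hi⟩ := exists_normal_levelS hF
    exact ⟨_, ⟨E, hE, rfl⟩, IntermediateField.fixingSubgroup_antitone hle, hn, hi⟩

lemma mem_ramFam_iff (S : Finset Nat.Primes) (V : Subgroup GQ) : V ∈ (ramFam S).carrier ↔
    ∃ F : IntermediateField ℚ (AlgebraicClosure ℚ), F.IsUnramifiedOutside S ∧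
      V = F.fixingSubgroup := Iff.rfl

lemma isLevelConstant₁_iff {G : Type u} [Group G] (r : G →* GQ) {X : Type*} (f : G → X) :
    IsLevelConstant₁ r f ↔ (krullFam.comap r).IsConst₁ f := by
  rw [LevelFam.isConst₁_comap_iff]
  constructor
  · rintro ⟨F, hF, h⟩
    exact ⟨_, ⟨F, hF, rfl⟩, h⟩
  · rintro ⟨_, ⟨F, hF, rfl⟩, h⟩
    exact ⟨F, hF, h⟩

lemma isLevelConstant₂_iff {G : Type u} [Group G] (r : G →* GQ) {X : Type*} (f : G × G → X) :
    IsLevelConstant₂ r f ↔ (krullFam.comap r).IsConst₂ f := by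
  rw [LevelFam.isConst₂_comap_iff]
  constructor
  · rintro ⟨F, hF, h⟩
    exact ⟨_, ⟨F, hF, rfl⟩, h⟩
  · rintro ⟨_, ⟨F, hF, rfl⟩, h⟩
    exact ⟨F, hF, h⟩

lemma isLevelConstantS₁_iff (S : Finset Nat.Primes) {X : Type*} (f : GQ → X) :
    IsLevelConstantS₁ S f ↔ (ramFam S).IsConst₁ f := by
  constructor
  · rintro ⟨F, hF, h⟩
    exact ⟨_, ⟨F, hF, rfl⟩, h⟩
  · rintro ⟨_, ⟨F, hF, rfl⟩, h⟩
    exact ⟨F, hF, h⟩

lemma isLevelConstantS₂_iff (S : Finset Nat.Primes) {X : Type*} (f : GQ × GQ → X) :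
    IsLevelConstantS₂ S f ↔ (ramFam S).IsConst₂ f := by
  constructor
  · rintro ⟨F, hF, h⟩
    exact ⟨_, ⟨F, hF, rfl⟩, fun g g' s hs s' hs' => h g g' s s' hs hs'⟩
  · rintro ⟨_, ⟨F, hF, rfl⟩, h⟩
    exact ⟨F, hF, fun g g' s s' hs hs' => h g g' s hs s' hs'⟩

end Fermat.Agent.H91
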