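import Mathlib
import Fermat.Agent.H55Level
import Fermat.Agent.H91Level

set_option autoImplicit false

/-!
# Bridge between `H91.LevelFam` (a basis) and `H55.Levels` (all open subgroups)
-/

namespace Fermat.Agent.H55

open Fermat.Agent.H91

variable {G H : Type*} [Group G] [Group H]

/-- all open subgroups of a level family -/
def ofFam (𝓥 : LevelFam G) : Levels G where
  op := 𝓥.IsOpenSubgroup
  op_top := by
    obtain ⟨V, hV⟩ := 𝓥.nonempty'
    exact ⟨V, hV, le_top⟩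
  op_inf h h' := h.inf h'
  op_mono h h' := LevelFam.IsOpenSubgroup.mono h' h
  exists_normal := by
    rintro U ⟨V, hV, hle⟩
    obtain ⟨X, hX, hXV, hn, -⟩ := 𝓥.core' V hV
    exact ⟨X, ⟨X, hX, le_rfl⟩, hn, hXV.trans hle⟩
  finiteIndex h := h.finiteIndex

lemma ofFam_op_iff (𝓥 : LevelFam G) (U : Subgroup G) :
    (ofFam 𝓥).op U ↔ ∃ V ∈ 𝓥.carrier, V ≤ U := Iff.rfl

lemma lc1_ofFam_iff (𝓥 : LevelFam G) {X : Type*} (f : G → X) :
    LC1 (ofFam 𝓥) f ↔ 𝓥.IsConst₁ f := by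
  constructor
  · rintro ⟨U, ⟨V, hV, hle⟩, h⟩
    exact ⟨V, hV, fun g s hs => h g s (hle hs)⟩
  · rintro ⟨V, hV, h⟩
    exact ⟨V, ⟨V, hV, le_rfl⟩, h⟩

lemma lc2_ofFam_iff (𝓥 : LevelFam G) {X : Type*} (f : G × G → X) :
    LC2 (ofFam 𝓥) f ↔ 𝓥.IsConst₂ f := by
  constructor
  · rintro ⟨U, ⟨V, hV, hle⟩, h⟩
    exact ⟨V, hV, fun g g' s hs s' hs' => h g g' s (hle hs) s' (hle hs')⟩
  · rintro ⟨V, hV, h⟩
    exact ⟨V, ⟨V, hV, le_rfl⟩, h⟩

lemma ofFam_comap_op_iff (𝓥 : LevelFam G) (f : H →* G) (U : Subgroup H) :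
    (ofFam (𝓥.comap f)).op U ↔ ((ofFam 𝓥).comap f).op U := by
  constructor
  · rintro ⟨_, ⟨V, hV, rfl⟩, hle⟩
    exact ⟨V, ⟨V, hV, le_rfl⟩, hle⟩
  · rintro ⟨W, ⟨V, hV, hVW⟩, hle⟩
    exact ⟨_, ⟨V, hV, rfl⟩, (Subgroup.comap_mono hVW).trans hle⟩

lemma ofFam_comap (𝓥 : LevelFam G) (f : H →* G) :
    ofFam (𝓥.comap f) = (ofFam 𝓥).comap f := by
  have : (ofFam (𝓥.comap f)).op = ((ofFam 𝓥).comap f).op :=
    funext fun U => propext (ofFam_comap_op_iff 𝓥 f U)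
  cases h1 : ofFam (𝓥.comap f)
  cases h2 : (ofFam 𝓥).comap f
  simp only [h1, h2] at this
  subst this
  rfl

/-- All open subgroups of the absolute Galois group of `ℚ` (Krull topology). -/
noncomputable def krullLevels : Levels GQ := ofFam krullFam

/-- Open subgroups of the Galois group of the maximal extension unramified outside `S`. -/
noncomputable def ramLevels (S : Finset Nat.Primes) : Levels GQ := ofFam (ramFam S)

lemma krullLevels_op_iff (U : Subgroup GQ) : krullLevels.op U ↔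
    ∃ F : IntermediateField ℚ (AlgebraicClosure ℚ), FiniteDimensional ℚ F ∧
      F.fixingSubgroup ≤ U := by
  constructor
  · rintro ⟨_, ⟨F, hF, rfl⟩, hle⟩
    exact ⟨F, hF, hle⟩
  · rintro ⟨F, hF, hle⟩
    exact ⟨_, ⟨F, hF, rfl⟩, hle⟩

lemma ramLevels_op_iff (S : Finset Nat.Primes) (U : Subgroup GQ) : (ramLevels S).op U ↔
    ∃ F : IntermediateField ℚ (AlgebraicClosure ℚ), F.IsUnramifiedOutside S ∧
      F.fixingSubgroup ≤ U := by
  constructor
  · rintro ⟨_, ⟨F, hF, rfl⟩, hle⟩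
    exact ⟨F, hF, hle⟩
  · rintro ⟨F, hF, hle⟩
    exact ⟨_, ⟨F, hF, rfl⟩, hle⟩

open groupCohomology

lemma isLevelConstant₁_iff' {G : Type} [Group G] (r : G →* GQ) {X : Type*} (f : G → X) :
    IsLevelConstant₁ r f ↔ LC1 (krullLevels.comap r) f := by
  rw [H91.isLevelConstant₁_iff, ← lc1_ofFam_iff, ofFam_comap]; rfl

lemma isLevelConstant₂_iff' {G : Type} [Group G] (r : G →* GQ) {X : Type*} (f : G × G → X) :
    IsLevelConstant₂ r f ↔ LC2 (krullLevels.comap r) f := by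
  rw [H91.isLevelConstant₂_iff, ← lc2_ofFam_iff, ofFam_comap]; rfl

lemma isLevelConstantS₁_iff' (S : Finset Nat.Primes) {X : Type*} (f : GQ → X) :
    IsLevelConstantS₁ S f ↔ LC1 (ramLevels S) f := by
  rw [H91.isLevelConstantS₁_iff, ← lc1_ofFam_iff]; rfl

lemma isLevelConstantS₂_iff' (S : Finset Nat.Primes) {X : Type*} (f : GQ × GQ → X) :
    IsLevelConstantS₂ S f ↔ LC2 (ramLevels S) f := by
  rw [H91.isLevelConstantS₂_iff, ← lc2_ofFam_iff]; rfl

lemma ramLevels_le_krullLevels (S : Finset Nat.Primes) {U : Subgroup GQ}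
    (hU : (ramLevels S).op U) : krullLevels.op U := by
  rw [ramLevels_op_iff] at hU
  rw [krullLevels_op_iff]
  obtain ⟨F, hF, hle⟩ := hU
  exact ⟨F, hF.1, hle⟩

end Fermat.Agent.H55
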