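import Mathlib
import Fermat.Prelude.Def_GroupCohomology_ContinuousUnramified
import Fermat.Prelude.Def_GaloisRep_StrictOrdinary
import Fermat.Prelude.Def_GaloisRep_Flat
import Fermat.Agent.H55Defs
import Fermat.Agent.H55Fam
import Fermat.Agent.H53Matrix

set_option autoImplicit false
set_option maxSynthPendingDepth 3

/-!
# S56 : definitions
-/

noncomputable section

open IsLocalRing Module ExtCitation
open Fermat.Agent.H55 Fermat.Agent.H53

namespace Fermat.Agent.H56

/-! ## lifts to dual numbers and cocycles -/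

section Coc

variable {k : Type} [Field k] {G : Type} [Group G]

/-- reduction of a matrix with dual number entries -/
def redM (k : Type) [Field k] : M2 (DualNumber k) →+* M2 k :=
  (TrivSqZeroExt.fstHom k k k).toRingHom.mapMatrix

/-- the `ε`-component of a matrix with dual number entries -/
def sndM {k : Type} [Field k] (X : M2 (DualNumber k)) : M2 k := X.map TrivSqZeroExt.snd

/-- the cocycle attached to a lift `R` to the dual numbers of its reduction:
`R(σ) = (1 + ε c(σ)) r(σ)` -/
def coc (R : G →* M2 (DualNumber k)) (σ : G) : M2 k := sndM (R σ) * redM k (R σ⁻¹)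

/-- cocycle condition for the adjoint action of `r` -/
def IsCoc (r : G →* M2 k) (c : G → M2 k) : Prop :=
  ∀ σ τ, c (σ * τ) = r σ * c τ * r σ⁻¹ + c σ

/-- coboundary of `X` for the adjoint action of `r` -/
def cob (r : G →* M2 k) (X : M2 k) (σ : G) : M2 k := r σ * X * r σ⁻¹ - X

end Coc

/-! ## the adjoint representation -/

section Ad

variable (p : ℕ) [Fact p.Prime] (k : Type) [Field k] [Algebra (ZMod p) k]

/-- trace zero matrices -/
def SL : Submodule (ZMod p) (M2 k) :=
  LinearMap.ker ((Matrix.traceLinearMap (Fin 2) k k).restrictScalars (ZMod p))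

variable {p k}

@[simp] lemma mem_SL {X : M2 k} : X ∈ SL p k ↔ X.trace = 0 := Iff.rfl

variable {G : Type} [Group G]

lemma rinv_mul (r : G →* M2 k) (σ : G) : r σ⁻¹ * r σ = 1 := by
  rw [← map_mul, inv_mul_cancel, map_one]

lemma rmul_inv (r : G →* M2 k) (σ : G) : r σ * r σ⁻¹ = 1 := by
  rw [← map_mul, mul_inv_cancel, map_one]

variable (p) in
/-- the adjoint representation on trace zero matrices, over `ZMod p` -/
def ad (r : G →* M2 k) : Representation (ZMod p) G (SL p k) where
  toFun σ :=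
    { toFun := fun X => ⟨r σ * X.1 * r σ⁻¹, by
        have hX : (X : M2 k).trace = 0 := X.2
        show (r σ * X.1 * r σ⁻¹).trace = 0
        rw [Matrix.trace_mul_comm, ← mul_assoc, rinv_mul, one_mul, hX]⟩
      map_add' := fun X Y => by
        ext1; simp [mul_add, add_mul]
      map_smul' := fun a X => by
        ext1; simp }
  map_one' := by
    ext1 X; ext1; simp
  map_mul' σ τ := by
    ext1 X; ext1
    simp [mul_assoc]

@[simp] lemma coe_ad (r : G →* M2 k) (σ : G) (X : SL p k) :
    (ad p r σ X : M2 k) = r σ * X * r σ⁻¹ := rfl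

end Ad

/-! ## Selmer conditions in cocycle form -/

/-- decomposition group of the distinguished place above `q` -/
abbrev Dq (q : Nat.Primes) : Subgroup H91.GQ := (primeLocalPlace q).decompositionSubgroup ℚ

/-- its open subgroups -/
abbrev Dlev (q : Nat.Primes) : Levels (Dq q) := krullLevels.onSub (Dq q)

/-- restriction of functions to the decomposition group at `q` -/
def resD (p : ℕ) [Fact p.Prime] (M : Type) [AddCommGroup M] [Module (ZMod p) M] (q : Nat.Primes) :
    (H91.GQ → M) →ₗ[ZMod p] (Dq q → M) :=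
  LinearMap.funLeft (ZMod p) M (fun σ : Dq q => (σ : H91.GQ))

@[simp] lemma resD_apply (p : ℕ) [Fact p.Prime] (M : Type) [AddCommGroup M] [Module (ZMod p) M]
    (q : Nat.Primes) (c : H91.GQ → M) (σ : Dq q) : resD p M q c σ = c σ := rfl

/-- restriction of a representation to the decomposition group at `q` -/
abbrev rhoD {p : ℕ} [Fact p.Prime] {M : Type} [AddCommGroup M] [Module (ZMod p) M]
    (ρ : Representation (ZMod p) H91.GQ M) (q : Nat.Primes) :
    Representation (ZMod p) (Dq q) M := ρ.comp (Dq q).subtype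

/-- the group of cocycles unramified outside `S` with local restrictions in `L q`, `q ∈ S` -/
def SelZ {p : ℕ} [Fact p.Prime] {M : Type} [AddCommGroup M] [Module (ZMod p) M]
    (S : Finset Nat.Primes) (ρ : Representation (ZMod p) H91.GQ M)
    (L : ∀ q : Nat.Primes, Submodule (ZMod p) (Dq q → M)) : Submodule (ZMod p) (H91.GQ → M) :=
  Z1 (ramLevels S) ρ ⊓ ⨅ q ∈ S, (L q).comap (resD p M q)

lemma mem_SelZ {p : ℕ} [Fact p.Prime] {M : Type} [AddCommGroup M] [Module (ZMod p) M]
    {S : Finset Nat.Primes} {ρ : Representation (ZMod p) H91.GQ M}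
    {L : ∀ q : Nat.Primes, Submodule (ZMod p) (Dq q → M)} {c : H91.GQ → M} :
    c ∈ SelZ S ρ L ↔ c ∈ Z1 (ramLevels S) ρ ∧ ∀ q ∈ S, resD p M q c ∈ L q := by
  simp [SelZ, Submodule.mem_iInf]

/-- fixed vectors of complex conjugation -/
def realInv {p : ℕ} [Fact p.Prime] {M : Type} [AddCommGroup M] [Module (ZMod p) M]
    (ρ : Representation (ZMod p) H91.GQ M) : Submodule (ZMod p) M where
  carrier := {x | ∀ σ ∈ archimedeanDecomposition, ρ σ x = x}
  add_mem' {x y} hx hy := fun σ hσ => by rw [map_add, hx σ hσ, hy σ hσ]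
  zero_mem' := fun σ hσ => by rw [map_zero]
  smul_mem' a x hx := fun σ hσ => by rw [map_smul, hx σ hσ]

/-- **The Greenberg-Wiles inequality in cocycle form** (for all sufficiently large `S`).
`dim Z¹_L(M) + d + |S| d ≤ dim Z¹_{L⊥}(M*(1)) + ∑_{q ∈ S} dim L_q + h⁰(ℝ, M*(1))`, `d = dim M`. -/
def GWIneq (p : ℕ) [Fact p.Prime] : Prop :=
  ∀ (M : Type) [AddCommGroup M] [Module (ZMod p) M] [Finite M]
    (ρ : Representation (ZMod p) H91.GQ M), Smooth krullLevels ρ →
    ∃ (S₁ : Finset Nat.Primes)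
      (perp : ∀ q : Nat.Primes, Submodule (ZMod p) (Dq q → M) →
        Submodule (ZMod p) (Dq q → Module.Dual (ZMod p) M)),
      (∀ q, perp q (Z1 (Dlev q) (rhoD ρ q)) ≤ B1 (rhoD (dtw (cycloChar p) ρ) q)) ∧
      ∀ S : Finset Nat.Primes, S₁ ⊆ S →
        Module.Finite (ZMod p) (Z1 (ramLevels S) ρ) ∧
        Module.Finite (ZMod p) (Z1 (ramLevels S) (dtw (cycloChar p) ρ)) ∧
        ∀ L : ∀ q : Nat.Primes, Submodule (ZMod p) (Dq q → M),
          (∀ q ∈ S, B1 (rhoD ρ q) ≤ L q ∧ L q ≤ Z1 (Dlev q) (rhoD ρ q) ∧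
            Module.Finite (ZMod p) (L q)) →
          finrank (ZMod p) (SelZ S ρ L) + (S.card + 1) * finrank (ZMod p) M ≤
            finrank (ZMod p) (SelZ S (dtw (cycloChar p) ρ) (fun q => perp q (L q))) +
              ∑ q ∈ S, finrank (ZMod p) (L q) +
              finrank (ZMod p) (realInv (dtw (cycloChar p) ρ))

/-! ## local bounds -/

section Local

variable (p : ℕ) [Fact p.Prime] {k : Type} [Field k] [Algebra (ZMod p) k]

/-- the determinant of `r` is the mod `p` cyclotomic character -/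
def DetCyc (r : H91.GQ →* M2 k) : Prop :=
  ∀ σ, (r σ).det = algebraMap (ZMod p) k (cycloChar p σ : ZMod p)

/-- `r` factors through a finite quotient -/
def FinLev (r : H91.GQ →* M2 k) : Prop := ∃ U, krullLevels.op U ∧ ∀ σ ∈ U, r σ = 1

/-- `R` is a lift of `r` to the dual numbers with constant determinant -/
structure GoodLift (r : H91.GQ →* M2 k) (R : H91.GQ →* M2 (DualNumber k)) : Prop where
  cont : MCont (DualNumber k) R
  red : ∀ σ, redM k (R σ) = r σ
  det : ∀ σ, (R σ).det = TrivSqZeroExt.inl (r σ).det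

/-- **Local bound**: the cocycles (restricted to the decomposition group of the distinguished place
above `q`) of the lifts of `r` satisfying `Cond` are contained in a group of cocycles `L` containing
the coboundaries, of order at most `|k| ^ N`. -/
def LocalBound (r : H91.GQ →* M2 k) (q : Nat.Primes) (N : ℕ)
    (Cond : (H91.GQ →* M2 (DualNumber k)) → Prop) : Prop :=
  ∃ L : Submodule (ZMod p) (Dq q → SL p k),
    B1 (rhoD (ad p r) q) ≤ L ∧ L ≤ Z1 (Dlev q) (rhoD (ad p r) q) ∧
    Finite L ∧ Nat.card L ≤ Nat.card k ^ N ∧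
    ∀ R : H91.GQ →* M2 (DualNumber k), GoodLift r R → Cond R →
      ∀ c : Dq q → SL p k, (∀ σ, (c σ : M2 k) = coc R (σ : H91.GQ)) → c ∈ L

/-- inertia group of the distinguished place above `q` -/
abbrev Iq (q : Nat.Primes) : Subgroup H91.GQ := (primeLocalPlace q).inertiaSubgroupIn ℚ

/-- (U) target: unramified primes -/
def StatementU : Prop := ∀ (r : H91.GQ →* M2 k), FinLev r → ∀ q : Nat.Primes,
  (∀ σ ∈ Iq q, r σ = 1) → LocalBound p r q 3 (fun R => ∀ σ ∈ Iq q, R σ = 1)

/-- (S) target: unipotently ramified primes -/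
def StatementS : Prop := ∀ (r : H91.GQ →* M2 k), FinLev r → ∀ q : Nat.Primes, (q : ℕ) ≠ p →
  (∃ σ ∈ Iq q, r σ ≠ 1) → (∀ σ ∈ Iq q, (r σ).charpoly = (Polynomial.X - 1) ^ 2) →
    LocalBound p r q 3 (fun R => ∀ σ ∈ Iq q, (R σ).charpoly = (Polynomial.X - 1) ^ 2)

/-- (T) target: Taylor-Wiles primes -/
def StatementT : Prop := ∀ (r : H91.GQ →* M2 k), FinLev r → ∀ q : Nat.Primes, (q : ℕ) ≠ p →
  p ∣ (q : ℕ) - 1 → (∀ σ ∈ Iq q, r σ = 1) →
  (∃ φ : H91.GQ, (primeLocalPlace q).IsFrobeniusAt φ q ∧ ∃ α β : k, α ≠ β ∧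
    (r φ).charpoly = (Polynomial.X - Polynomial.C α) * (Polynomial.X - Polynomial.C β)) →
    Finite (Z1 (Dlev q) (rhoD (ad p r) q)) ∧
      Nat.card (Z1 (Dlev q) (rhoD (ad p r) q)) ≤ Nat.card k ^ 4

/-- (O) target: strictly ordinary at `p` -/
def StatementO : Prop := ∀ (r : H91.GQ →* M2 k), FinLev r → DetCyc p r →
    LocalBound p r (pPrime p) 4
      (fun R => ∃ h : MCont (DualNumber k) R, (ofMatrix R h).IsStrictOrdinaryAt p)

/-- (F) target: flat at `p` -/
def StatementF : Prop := ∀ (r : H91.GQ →* M2 k), FinLev r → DetCyc p r →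
  (∀ σ, ∃ α β : k, (r σ).charpoly =
    (Polynomial.X - Polynomial.C α) * (Polynomial.X - Polynomial.C β)) →
    LocalBound p r (pPrime p) 4
      (fun R => ∃ h : MCont (DualNumber k) R, (ofMatrix R h).IsFlatAt p)

end Local

end Fermat.Agent.H56
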