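import Mathlib

set_option autoImplicit false

/-!
# S56 : counting homomorphisms to the dual numbers
-/

namespace Fermat.Agent.H56

open IsLocalRing

section

variable {𝒪 P : Type*} [CommRing 𝒪] [IsLocalRing 𝒪] [CommRing P] [Algebra 𝒪 P]

/-- augmented homomorphisms to the dual numbers -/
def DualHoms (π : P →+* ResidueField 𝒪) : Set (P →+* DualNumber (ResidueField 𝒪)) :=
  {f | (∀ c, f (algebraMap 𝒪 P c) = TrivSqZeroExt.inl (residue 𝒪 c)) ∧
      (∀ p, TrivSqZeroExt.fst (f p) = π p)}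

theorem exists_generators (π : P →+* ResidueField 𝒪)
    (hπ : ∀ c, π (algebraMap 𝒪 P c) = residue 𝒪 c) [Finite (ResidueField 𝒪)]
    (N : ℕ) (hfin : (DualHoms π).Finite)
    (hcard : (DualHoms π).ncard ≤ Nat.card (ResidueField 𝒪) ^ N) :
    ∃ x : Fin N → P, (∀ i, π (x i) = 0) ∧
      RingHom.ker π ≤ Ideal.span (Set.range x) ⊔ (maximalIdeal 𝒪).map (algebraMap 𝒪 P) ⊔
        (RingHom.ker π) ^ 2 := by
  classical
  set I : Ideal P := (maximalIdeal 𝒪).map (algebraMap 𝒪 P) ⊔ (RingHom.ker π) ^ 2 with hI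
  have hI1 : (RingHom.ker π) ^ 2 ≤ I := le_sup_right
  have hI2 : (maximalIdeal 𝒪).map (algebraMap 𝒪 P) ≤ I := le_sup_left
  have hI3 : I ≤ RingHom.ker π := by
    refine sup_le (Ideal.map_le_iff_le_comap.2 fun c hc => ?_) (Ideal.pow_le_self two_ne_zero)
    rw [Ideal.mem_comap, RingHom.mem_ker, hπ]
    exact (residue_eq_zero_iff c).2 hc
  -- `P / I` is a vector space over the residue field
  let φ : ResidueField 𝒪 →+* P ⧸ I :=
    Ideal.Quotient.lift (maximalIdeal 𝒪) ((Ideal.Quotient.mk I).comp (algebraMap 𝒪 P)) (by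
      intro a ha
      rw [RingHom.comp_apply, Ideal.Quotient.eq_zero_iff_mem]
      exact hI2 (Ideal.mem_map_of_mem _ ha))
  have hφ : ∀ c : 𝒪, φ (residue 𝒪 c) = Ideal.Quotient.mk I (algebraMap 𝒪 P c) := fun c => rfl
  let _ : Algebra (ResidueField 𝒪) (P ⧸ I) := φ.toAlgebra
  have hsmul : ∀ (c : ResidueField 𝒪) (y : P ⧸ I), c • y = φ c * y := fun c y => rfl
  let π' : P ⧸ I →+* ResidueField 𝒪 := Ideal.Quotient.lift I π (fun a ha => hI3 ha)
  have hπ' : ∀ p : P, π' (Ideal.Quotient.mk I p) = π p := fun p => rfl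
  -- derivation property
  have hder : ∀ (ℓ : Module.Dual (ResidueField 𝒪) (P ⧸ I)), ℓ 1 = 0 → ∀ a b : P,
      ℓ (Ideal.Quotient.mk I (a * b)) =
      π a * ℓ (Ideal.Quotient.mk I b) + π b * ℓ (Ideal.Quotient.mk I a) := by
    intro ℓ hℓ1' a b
    have hprod : (Ideal.Quotient.mk I a - φ (π a)) * (Ideal.Quotient.mk I b - φ (π b)) = 0 := by
      obtain ⟨ca, hca⟩ := IsLocalRing.residue_surjective (π a)
      obtain ⟨cb, hcb⟩ := IsLocalRing.residue_surjective (π b)
      rw [← hca, ← hcb, hφ, hφ, ← map_sub, ← map_sub, ← map_mul, Ideal.Quotient.eq_zero_iff_mem]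
      apply hI1
      rw [pow_two]
      apply Ideal.mul_mem_mul
      · rw [RingHom.mem_ker, map_sub, hπ, hca, sub_self]
      · rw [RingHom.mem_ker, map_sub, hπ, hcb, sub_self]
    have hexp : Ideal.Quotient.mk I (a * b) = (π a) • Ideal.Quotient.mk I b +
        (π b) • Ideal.Quotient.mk I a - (π a * π b) • (1 : P ⧸ I) := by
      rw [hsmul, hsmul, hsmul, map_mul, map_mul]
      linear_combination hprod
    rw [hexp, map_sub, map_add, map_smul, map_smul, map_smul, hℓ1', smul_zero, sub_zero,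
      smul_eq_mul, smul_eq_mul]
  -- homomorphisms attached to functionals
  let E : Submodule (ResidueField 𝒪) (P ⧸ I) := Submodule.span _ {(1 : P ⧸ I)}
  have hE : ∀ ℓ : Module.Dual (ResidueField 𝒪) ((P ⧸ I) ⧸ E), (ℓ.comp E.mkQ) 1 = 0 := by
    intro ℓ
    rw [LinearMap.comp_apply, (Submodule.mkQ_apply E 1), (Submodule.Quotient.mk_eq_zero E).2
      (Submodule.mem_span_singleton_self _), map_zero]
  have hmk : ∀ (ℓ : Module.Dual (ResidueField 𝒪) (P ⧸ I)), ℓ 1 = 0 →
      ∃ f : P →+* DualNumber (ResidueField 𝒪), ∀ p, f p = TrivSqZeroExt.inl (π p) +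
        TrivSqZeroExt.inr (ℓ (Ideal.Quotient.mk I p)) := by
    intro ℓ hℓ
    have hd := hder ℓ hℓ
    refine ⟨{ toFun := fun p => TrivSqZeroExt.inl (π p) +
                TrivSqZeroExt.inr (ℓ (Ideal.Quotient.mk I p))
              map_one' := ?_
              map_mul' := ?_
              map_zero' := by simp
              map_add' := ?_ }, fun p => rfl⟩
    · rw [map_one, map_one, hℓ]
      simp
    · intro a b
      rw [hd a b]
      ext
      · simp
      · simp [mul_comm]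
    · intro a b
      ext
      · simp
      · simp
  choose F hF using fun ℓ : Module.Dual (ResidueField 𝒪) ((P ⧸ I) ⧸ E) =>
    hmk (ℓ.comp E.mkQ) (hE ℓ)
  have hFmem : ∀ ℓ, F ℓ ∈ DualHoms π := by
    intro ℓ
    constructor
    · intro c
      have h1 : Ideal.Quotient.mk I (algebraMap 𝒪 P c) = (residue 𝒪 c) • (1 : P ⧸ I) := by
        rw [hsmul, hφ, mul_one]
      rw [hF, h1, map_smul, hE, smul_zero, hπ]
      simp
    · intro p
      rw [hF]; simp
  have hFinj : Function.Injective F := by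
    intro ℓ ℓ' h
    apply LinearMap.ext
    intro y
    obtain ⟨y, rfl⟩ := Submodule.mkQ_surjective E y
    obtain ⟨p, rfl⟩ := Ideal.Quotient.mk_surjective y
    have h1 := congrArg TrivSqZeroExt.snd (RingHom.congr_fun h p)
    rw [hF, hF] at h1
    simpa using h1
  haveI : Finite (DualHoms π) := hfin
  haveI hfinD : Finite (Module.Dual (ResidueField 𝒪) ((P ⧸ I) ⧸ E)) :=
    Finite.of_injective (fun ℓ => (⟨F ℓ, hFmem ℓ⟩ : DualHoms π))
      (fun a b h => hFinj (congrArg Subtype.val h))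
  have hcardD : Nat.card (Module.Dual (ResidueField 𝒪) ((P ⧸ I) ⧸ E)) ≤
      Nat.card (ResidueField 𝒪) ^ N := by
    refine le_trans ?_ hcard
    rw [← Nat.card_coe_set_eq]
    exact Nat.card_le_card_of_injective (fun ℓ => (⟨F ℓ, hFmem ℓ⟩ : DualHoms π))
      (fun a b h => hFinj (congrArg Subtype.val h))
  haveI : Module.Finite (ResidueField 𝒪) (Module.Dual (ResidueField 𝒪) ((P ⧸ I) ⧸ E)) :=
    Module.Finite.of_finite
  haveI : Module.Finite (ResidueField 𝒪) ((P ⧸ I) ⧸ E) := by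
    have hinj := Module.eval_apply_injective (K := ResidueField 𝒪) (V := (P ⧸ I) ⧸ E)
    exact Module.Finite.of_injective (Module.Dual.eval (ResidueField 𝒪) ((P ⧸ I) ⧸ E)) hinj
  have hfr : Module.finrank (ResidueField 𝒪) ((P ⧸ I) ⧸ E) ≤ N := by
    rw [Module.natCard_eq_pow_finrank (K := ResidueField 𝒪), Subspace.dual_finrank_eq] at hcardD
    exact (Nat.pow_le_pow_iff_right (Finite.one_lt_card)).1 hcardD
  -- spanning family
  obtain ⟨y, hy⟩ : ∃ y : Fin N → (P ⧸ I) ⧸ E, Submodule.span (ResidueField 𝒪) (Set.range y) = ⊤ := by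
    let bs := Module.finBasis (ResidueField 𝒪) ((P ⧸ I) ⧸ E)
    refine ⟨fun i => if h : (i : ℕ) < Module.finrank (ResidueField 𝒪) ((P ⧸ I) ⧸ E) then
      bs ⟨i, h⟩ else 0, ?_⟩
    rw [eq_top_iff, ← bs.span_eq, Submodule.span_le]
    rintro _ ⟨j, rfl⟩
    apply Submodule.subset_span
    refine ⟨⟨j, j.2.trans_le hfr⟩, ?_⟩
    simp
  have hex : ∀ i, ∃ x : P, π x = 0 ∧ E.mkQ (Ideal.Quotient.mk I x) = y i := by
    intro i
    obtain ⟨z, hz⟩ := Submodule.mkQ_surjective E (y i)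
    obtain ⟨p, rfl⟩ := Ideal.Quotient.mk_surjective z
    obtain ⟨c, hc⟩ := IsLocalRing.residue_surjective (π p)
    refine ⟨p - algebraMap 𝒪 P c, by rw [map_sub, hπ, hc, sub_self], ?_⟩
    rw [map_sub, map_sub, hz, sub_eq_self]
    have h1 : Ideal.Quotient.mk I (algebraMap 𝒪 P c) = (residue 𝒪 c) • (1 : P ⧸ I) := by
      rw [hsmul, hφ, mul_one]
    rw [h1, map_smul, Submodule.mkQ_apply, (Submodule.Quotient.mk_eq_zero E).2
      (Submodule.mem_span_singleton_self _), smul_zero]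
  choose x hx0 hxy using hex
  refine ⟨x, hx0, ?_⟩
  intro m hm
  -- write the class of `m` in terms of the `y i`
  have h1 : E.mkQ (Ideal.Quotient.mk I m) ∈ Submodule.span (ResidueField 𝒪) (Set.range y) := by
    rw [hy]; trivial
  obtain ⟨a, ha⟩ := (Submodule.mem_span_range_iff_exists_fun _).1 h1
  choose a' ha' using fun i => IsLocalRing.residue_surjective (a i)
  have h2 : E.mkQ (Ideal.Quotient.mk I (m - ∑ i, algebraMap 𝒪 P (a' i) * x i)) = 0 := by
    rw [map_sub, map_sub, ← ha, map_sum, map_sum, sub_eq_zero]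
    refine Finset.sum_congr rfl fun i _ => ?_
    rw [map_mul, ← hφ, ← hsmul, map_smul, hxy, ha']
  rw [Submodule.mkQ_apply, Submodule.Quotient.mk_eq_zero, Submodule.mem_span_singleton] at h2
  obtain ⟨d, hd⟩ := h2
  obtain ⟨d, rfl⟩ := IsLocalRing.residue_surjective d
  rw [hsmul, mul_one, hφ, Ideal.Quotient.eq] at hd
  -- the constant is in the maximal ideal
  have h3 : π (algebraMap 𝒪 P d) = 0 := by
    have h4 : π (algebraMap 𝒪 P d - (m - ∑ i, algebraMap 𝒪 P (a' i) * x i)) = 0 := hI3 hd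
    have h5 : π m = 0 := hm
    rw [map_sub, map_sub, h5, map_sum, Finset.sum_eq_zero (fun i _ => by
      rw [map_mul, hx0, mul_zero]), sub_zero, sub_zero] at h4
    exact h4
  rw [hπ, residue_eq_zero_iff] at h3
  have h6 : m = ∑ i, algebraMap 𝒪 P (a' i) * x i + (algebraMap 𝒪 P d -
    (algebraMap 𝒪 P d - (m - ∑ i, algebraMap 𝒪 P (a' i) * x i))) := by ring
  rw [h6, sup_assoc]
  refine Ideal.add_mem _ (Ideal.mem_sup_left ?_) (Ideal.mem_sup_right ?_)
  · exact Ideal.sum_mem _ fun i _ => Ideal.mul_mem_left _ _ (Ideal.subset_span ⟨i, rfl⟩)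
  · exact Ideal.sub_mem _ (hI2 (Ideal.mem_map_of_mem _ h3)) hd

end

end Fermat.Agent.H56
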