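import Mathlib
import Fermat.Agent.H56TangentAlg
import Fermat.Agent.H56PowerSeries
import Fermat.Agent.H56Defs
import Fermat.Agent.H53Rings

set_option autoImplicit false
set_option maxSynthPendingDepth 3
set_option linter.style.haveILetI false
set_option linter.unusedSectionVars false

/-!
# S56 : the tangent space of a deformation ring and cocycles
-/

noncomputable section

open scoped TensorProduct
open IsLocalRing GaloisRep
open Fermat.Agent.H53

namespace Fermat.Agent.H56

section Basis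

/-- a basis in which the residual matrices are the given ones -/
theorem exists_basis_residual {A : Type} [CommRing A] [IsLocalRing A] {k : Type} [Field k]
    (φ : k →+* ResidueField A) (ρ : GaloisRepAdic A) (ρbar : ResidualGaloisRep k)
    (b : Module.Basis (Fin 2) k ρbar.V)
    (h : ρ.residual.IsEquiv (ρbar.baseChangeAlong φ)) :
    ∃ b' : Module.Basis (Fin 2) A ρ.V,
      mapMat (residue A) (toMat ρ.ρ b') = mapMat φ (toMat ρbar.ρ b) := by
  obtain ⟨b0⟩ := exists_basis ρ
  rw [residual_isEquiv_iff_conj _ _ (resBasis ρ b0) (rbcBasis φ ρbar b)] at h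
  obtain ⟨u, hu, huc⟩ := h
  simp only [toMat_resBasis, toMat_rbcBasis] at huc
  obtain ⟨ui, hui1, hui2⟩ : ∃ ui : M2 (ResidueField A), u * ui = 1 ∧ ui * u = 1 := by
    obtain ⟨v, rfl⟩ := hu
    exact ⟨↑v⁻¹, v.mul_inv, v.inv_mul⟩
  obtain ⟨w, hw⟩ : ∃ w : M2 A, w.map (residue A) = ui := by
    choose f hf using fun i j => residue_surjective (R := A) (ui i j)
    exact ⟨Matrix.of f, by ext i j; exact hf i j⟩
  have hwu : IsUnit w := isUnit_of_res (by
    rw [hw]; exact ⟨⟨ui, u, hui2, hui1⟩, rfl⟩)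
  obtain ⟨b', hb'⟩ := exists_basis_conj ρ b0 w hwu
  refine ⟨b', ?_⟩
  have hmapmul : ∀ a b : M2 A, (a * b).map (residue A) = a.map (residue A) * b.map (residue A) :=
    fun a b => Matrix.map_mul
  ext1 σ
  have h1 := congrArg (fun m : M2 A => m.map (residue A)) (hb' σ)
  simp only [hmapmul, hw] at h1
  have h2 : (toMat ρ.ρ b' σ).map (residue A) = u * (toMat ρ.ρ b0 σ).map (residue A) * ui := by
    calc (toMat ρ.ρ b' σ).map (residue A) = (u * ui) * (toMat ρ.ρ b' σ).map (residue A) := by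
          rw [hui1, one_mul]
      _ = u * (ui * (toMat ρ.ρ b' σ).map (residue A)) := by rw [mul_assoc]
      _ = u * ((toMat ρ.ρ b0 σ).map (residue A) * ui) := by rw [h1]
      _ = u * (toMat ρ.ρ b0 σ).map (residue A) * ui := by rw [mul_assoc]
  rw [mapMat_apply', h2]
  have h3 := huc σ
  rw [mapMat_apply' (residue A)] at h3
  rw [h3, mul_assoc, hui1, mul_one]

end Basis

section DualBasics

variable {k : Type} [Field k]

instance instIsAdicCompleteDual : IsAdicComplete (maximalIdeal (DualNumber k)) (DualNumber k) := by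
  have h2 : maximalIdeal (DualNumber k) ^ 2 = ⊥ := by
    rw [eq_bot_iff, pow_two, Ideal.mul_le]
    intro x hx y hy
    rw [mem_maximalIdeal, mem_nonunits_iff, TrivSqZeroExt.isUnit_iff_isUnit_fst,
      isUnit_iff_ne_zero, not_not] at hx hy
    rw [Ideal.mem_bot]
    ext
    · simp [hx]
    · simp [hx, hy]
  have hn : ∀ n, 2 ≤ n → maximalIdeal (DualNumber k) ^ n = ⊥ := fun n hn =>
    le_bot_iff.1 ((Ideal.pow_le_pow_right hn).trans_eq h2)
  refine { haus' := fun x hx => ?_, prec' := fun f hf => ?_ }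
  · have := hx 2
    rw [h2, Submodule.bot_smul, SModEq.bot] at this
    exact this
  · refine ⟨f 2, fun n => ?_⟩
    rcases le_total n 2 with h | h
    · exact hf h
    · have := hf h
      rw [h2, Submodule.bot_smul, SModEq.bot] at this
      rw [this]
      exact SModEq.rfl

lemma redM_apply (X : M2 (DualNumber k)) (i j : Fin 2) :
    redM k X i j = TrivSqZeroExt.fst (X i j) := rfl

lemma sndM_apply (X : M2 (DualNumber k)) (i j : Fin 2) :
    sndM X i j = TrivSqZeroExt.snd (X i j) := rfl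

lemma dual_ext {X Y : M2 (DualNumber k)} (h1 : redM k X = redM k Y) (h2 : sndM X = sndM Y) :
    X = Y := by
  ext i j
  · exact congrFun (congrFun h1 i) j
  · exact congrFun (congrFun h2 i) j

lemma sndM_mul (X Y : M2 (DualNumber k)) :
    sndM (X * Y) = redM k X * sndM Y + sndM X * redM k Y := by
  ext i j
  rw [sndM_apply, Matrix.add_apply, Matrix.mul_apply, Matrix.mul_apply, Matrix.mul_apply,
    Fin.sum_univ_two, Fin.sum_univ_two, Fin.sum_univ_two, TrivSqZeroExt.snd_add,
    TrivSqZeroExt.snd_mul, TrivSqZeroExt.snd_mul]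
  simp only [redM_apply, sndM_apply, smul_eq_mul, MulOpposite.smul_eq_mul_unop,
    MulOpposite.unop_op]
  ring

/-- the matrix `1 + ε X` -/
def onePlus (X : M2 k) : M2 (DualNumber k) :=
  Matrix.of fun i j => TrivSqZeroExt.inl ((1 : M2 k) i j) + TrivSqZeroExt.inr (X i j)

@[simp] lemma redM_onePlus (X : M2 k) : redM k (onePlus X) = 1 := by
  ext i j
  simp [redM_apply, onePlus]

@[simp] lemma sndM_onePlus (X : M2 k) : sndM (onePlus X) = X := by
  ext i j
  simp [sndM_apply, onePlus]

lemma sndM_one : sndM (1 : M2 (DualNumber k)) = 0 := by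
  ext i j
  rw [sndM_apply, Matrix.one_apply]
  split_ifs <;> simp

lemma onePlus_mul (X Y : M2 k) : onePlus X * onePlus Y = onePlus (X + Y) := by
  apply dual_ext
  · rw [map_mul]; simp
  · rw [sndM_mul]; simp [add_comm]

lemma onePlus_zero : onePlus (0 : M2 k) = 1 := by
  apply dual_ext
  · simp
  · rw [sndM_one, sndM_onePlus]

lemma isUnit_onePlus (X : M2 k) : IsUnit (onePlus X) :=
  ⟨⟨onePlus X, onePlus (-X), by rw [onePlus_mul, add_neg_cancel, onePlus_zero],
    by rw [onePlus_mul, neg_add_cancel, onePlus_zero]⟩, rfl⟩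

variable {G : Type} [Group G]

lemma redM_inv_mul (R : G →* M2 (DualNumber k)) (σ : G) :
    redM k (R σ⁻¹) * redM k (R σ) = 1 := by
  rw [← map_mul, ← map_mul, inv_mul_cancel, map_one, map_one]

lemma sndM_eq_coc_mul (R : G →* M2 (DualNumber k)) (σ : G) :
    sndM (R σ) = coc R σ * redM k (R σ) := by
  rw [coc, mul_assoc, redM_inv_mul, mul_one]

/-- two lifts whose cocycles differ by a coboundary are conjugate -/
lemma conj_of_coc {r : G →* M2 k} {R R' : G →* M2 (DualNumber k)}
    (hR : ∀ σ, redM k (R σ) = r σ) (hR' : ∀ σ, redM k (R' σ) = r σ) {X : M2 k}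
    (h : coc R = coc R' + cob r X) (σ : G) :
    onePlus (-X) * R' σ = R σ * onePlus (-X) := by
  apply dual_ext
  · rw [map_mul, map_mul, redM_onePlus, hR, hR', one_mul, mul_one]
  · rw [sndM_mul, sndM_mul, redM_onePlus, sndM_onePlus, one_mul, mul_one,
      sndM_eq_coc_mul R, sndM_eq_coc_mul R', hR, hR', h]
    simp only [Pi.add_apply, cob]
    have h1 := rinv_mul r σ
    calc coc R' σ * r σ + -X * r σ = coc R' σ * r σ + r σ * -X + (r σ * X - X * r σ) := by
          rw [mul_neg, neg_mul]; abel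
      _ = coc R' σ * r σ + r σ * -X + (r σ * X * (r σ⁻¹ * r σ) - X * r σ) := by
          rw [h1, mul_one]
      _ = _ := by noncomm_ring

lemma coc_mul (R : G →* M2 (DualNumber k)) (σ τ : G) :
    coc R (σ * τ) = redM k (R σ) * coc R τ * redM k (R σ⁻¹) + coc R σ := by
  rw [coc, coc, coc, map_mul R, sndM_mul, mul_inv_rev, map_mul R, map_mul (redM k)]
  have h1 : redM k (R τ) * redM k (R τ⁻¹) = 1 := by
    rw [← map_mul, ← map_mul, mul_inv_cancel, map_one, map_one]
  rw [add_mul]
  congr 1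
  · noncomm_ring
  · calc sndM (R σ) * redM k (R τ) * (redM k (R τ⁻¹) * redM k (R σ⁻¹)) =
        sndM (R σ) * (redM k (R τ) * redM k (R τ⁻¹)) * redM k (R σ⁻¹) := by noncomm_ring
      _ = _ := by rw [h1, mul_one]

end DualBasics

section Main

variable {𝒪 : Type} [CommRing 𝒪] [IsDomain 𝒪] [IsDiscreteValuationRing 𝒪]
    [IsAdicComplete (maximalIdeal 𝒪) 𝒪] [Finite (ResidueField 𝒪)]

lemma bijective_map_residue (A : Type) [CommRing A] [IsLocalRing A] [Algebra 𝒪 A]
    [IsLocalHom (algebraMap 𝒪 A)]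
    (hres : Function.Surjective (residue A ∘ algebraMap 𝒪 A)) :
    Function.Bijective (ResidueField.map (algebraMap 𝒪 A)) :=
  ⟨RingHom.injective _, fun y => by
      obtain ⟨c, hc⟩ := hres y
      exact ⟨residue 𝒪 c, hc⟩⟩

/-- the residue field of the deformation ring is that of `𝒪` -/
def piR (A : Type) [CommRing A] [IsLocalRing A] [Algebra 𝒪 A] [IsLocalHom (algebraMap 𝒪 A)]
    (hres : Function.Surjective (residue A ∘ algebraMap 𝒪 A)) : A →+* ResidueField 𝒪 :=
  ((RingEquiv.ofBijective (ResidueField.map (algebraMap 𝒪 A))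
    (bijective_map_residue A hres)).symm :
      ResidueField A ≃+* ResidueField 𝒪).toRingHom.comp (residue A)

section piR

variable (A : Type) [CommRing A] [IsLocalRing A] [Algebra 𝒪 A] [IsLocalHom (algebraMap 𝒪 A)]
    (hres : Function.Surjective (residue A ∘ algebraMap 𝒪 A))

lemma map_piR (a : A) : ResidueField.map (algebraMap 𝒪 A) (piR A hres a) = residue A a :=
  (RingEquiv.ofBijective (ResidueField.map (algebraMap 𝒪 A))
    (bijective_map_residue A hres)).apply_symm_apply (residue A a)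

lemma piR_algebraMap (c : 𝒪) : piR A hres (algebraMap 𝒪 A c) = residue 𝒪 c := by
  apply (ResidueField.map (algebraMap 𝒪 A)).injective
  rw [map_piR]; rfl

lemma ker_piR : RingHom.ker (piR A hres) = maximalIdeal A := by
  ext a
  rw [RingHom.mem_ker, ← residue_eq_zero_iff, ← map_piR A hres,
    map_eq_zero_iff _ (ResidueField.map (algebraMap 𝒪 A)).injective]

end piR

lemma natCard_traceZero (k : Type) [Field k] [Finite k] :
    Nat.card {X : M2 k // X.trace = 0} = Nat.card k ^ 3 := by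
  have e : {X : M2 k // X.trace = 0} ≃ (k × k × k) :=
    { toFun := fun X => (X.1 0 0, X.1 0 1, X.1 1 0)
      invFun := fun t => ⟨!![t.1, t.2.1; t.2.2, -t.1], by simp [Matrix.trace_fin_two]⟩
      left_inv := fun X => by
        obtain ⟨X, hX⟩ := X
        rw [Matrix.trace_fin_two] at hX
        ext i j
        fin_cases i <;> fin_cases j <;> simp
        exact (eq_neg_of_add_eq_zero_right hX).symm
      right_inv := fun t => by simp }
  rw [Nat.card_congr e, Nat.card_prod, Nat.card_prod]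
  ring

variable (ρbar : ResidualGaloisRep (ResidueField 𝒪))
    (𝒟 : ∀ ⦃A : Type⦄ [CommRing A] [IsLocalRing A] [Algebra 𝒪 A], GaloisRepAdic A → Prop)

/-- **Bounding the number of generators of a deformation ring by counting cocycles.** -/
theorem exists_surjective_of_card
    (h𝒟 : IsDeformationCondition 𝒪 𝒟)
    (b : Module.Basis (Fin 2) (ResidueField 𝒪) ρbar.V)
    (hcent : ∀ X : M2 (ResidueField 𝒪), X.trace = 0 →
      (∀ σ, toMat ρbar.ρ b σ * X = X * toMat ρbar.ρ b σ) → X = 0)
    (DQ : DeformationRingData 𝒪 ρbar 𝒟)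
    (N : ℕ) (Z : Set (GQ → M2 (ResidueField 𝒪))) (hZfin : Z.Finite)
    (hcard : Z.ncard ≤ Nat.card (ResidueField 𝒪) ^ (N + 3))
    (hcob : ∀ c ∈ Z, ∀ X : M2 (ResidueField 𝒪), X.trace = 0 →
      c + cob (toMat ρbar.ρ b) X ∈ Z)
    (hZ : ∀ (R : GQ →* M2 (DualNumber (ResidueField 𝒪))) (h : MCont _ R),
      (∀ σ, redM _ (R σ) = toMat ρbar.ρ b σ) →
      (letI := H69.algDual 𝒪; 𝒟 (ofMatrix R h)) → coc R ∈ Z) :
    ∃ γ : MvPowerSeries (Fin N) 𝒪 →ₐ[𝒪] DQ.R, Function.Surjective γ := by
  classical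
  letI := H69.algDual 𝒪
  haveI : Finite (DualNumber (ResidueField 𝒪)) :=
    inferInstanceAs (Finite (ResidueField 𝒪 × ResidueField 𝒪))
  haveI : IsArtinianRing (DualNumber (ResidueField 𝒪)) := inferInstance
  have htest : IsArtinianTestAlgebra 𝒪 (DualNumber (ResidueField 𝒪)) := by
    refine isArtinianTestAlgebra_of_algHom inferInstance
      { (TrivSqZeroExt.fstHom (ResidueField 𝒪) (ResidueField 𝒪) (ResidueField 𝒪)).toRingHom with
        commutes' := fun c => ?_ }
    rfl
  haveI := htest.isLocalHom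
  obtain ⟨b₁, hb₁⟩ := exists_basis_residual (ResidueField.map (algebraMap 𝒪 DQ.R)) DQ.ρ ρbar b
    DQ.residual_isEquiv
  set r := toMat ρbar.ρ b with hr
  set r₁ := toMat DQ.ρ.ρ b₁ with hr₁
  set π := piR DQ.R DQ.residue_surjective with hπdef
  have hπ : ∀ c, π (algebraMap 𝒪 DQ.R c) = residue 𝒪 c := piR_algebraMap _ _
  have hker : RingHom.ker π = maximalIdeal DQ.R := ker_piR _ _
  have hπr : mapMat π r₁ = r := by
    ext σ i j
    apply (ResidueField.map (algebraMap 𝒪 DQ.R)).injective
    rw [mapMat_apply, map_piR]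
    have := congrArg (fun f : GQ →* M2 (ResidueField DQ.R) => f σ i j) hb₁
    simpa using this
  -- homs to the dual numbers
  have hloc : ∀ f ∈ DualHoms π, IsLocalHom f := by
    intro f hf
    refine ⟨fun a ha => ?_⟩
    by_contra hna
    have h1 : a ∈ RingHom.ker π := by rw [hker]; exact (mem_maximalIdeal a).2 hna
    have h2 := TrivSqZeroExt.isUnit_iff_isUnit_fst.1 ha
    rw [hf.2, RingHom.mem_ker.1 h1] at h2
    exact not_isUnit_zero h2
  let toAlg : ∀ f ∈ DualHoms π, (DQ.R →ₐ[𝒪] DualNumber (ResidueField 𝒪)) := fun f hf =>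
    { f with commutes' := fun c => hf.1 c }
  have htoAlg : ∀ f hf, ((toAlg f hf : DQ.R →ₐ[𝒪] _) : DQ.R →+* _) = f := fun f hf => rfl
  have hred : ∀ f ∈ DualHoms π, ∀ σ, redM _ (mapMat f r₁ σ) = r σ := by
    intro f hf σ
    ext i j
    rw [redM_apply, mapMat_apply, hf.2, ← mapMat_apply, hπr]
  have hgood : ∀ f ∈ DualHoms π, Good 𝒟 (DualNumber (ResidueField 𝒪)) (mapMat f r₁) := by
    intro f hf
    -- pass to the quotient by the kernel
    let g : DQ.R →ₐ[𝒪] DualNumber (ResidueField 𝒪) := toAlg f hf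
    let J : Ideal DQ.R := RingHom.ker g
    haveI hnt : Nontrivial (DQ.R ⧸ J) := Ideal.Quotient.nontrivial_iff.2 (RingHom.ker_ne_top _)
    haveI hlr : IsLocalRing (DQ.R ⧸ J) :=
      IsLocalRing.of_surjective' (Ideal.Quotient.mk J) Ideal.Quotient.mk_surjective
    let gl : (DQ.R ⧸ J) →ₐ[𝒪] DualNumber (ResidueField 𝒪) :=
      Ideal.Quotient.liftₐ J g (fun a ha => ha)
    have hgl : Function.Injective gl := by
      rw [injective_iff_map_eq_zero]
      intro a ha
      obtain ⟨a, rfl⟩ := Ideal.Quotient.mk_surjective a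
      exact Ideal.Quotient.eq_zero_iff_mem.2 ha
    haveI : Finite (DQ.R ⧸ J) := Finite.of_injective gl hgl
    haveI : IsArtinianRing (DQ.R ⧸ J) := inferInstance
    have htJ : IsArtinianTestAlgebra 𝒪 (DQ.R ⧸ J) := by
      refine isArtinianTestAlgebra_of_algHom inferInstance
        (AlgHom.comp { (TrivSqZeroExt.fstHom (ResidueField 𝒪) (ResidueField 𝒪)
          (ResidueField 𝒪)).toRingHom with commutes' := fun c => ?_ } gl)
      rfl
    have hmk : IsLocalHom ((Ideal.Quotient.mkₐ 𝒪 J : DQ.R →ₐ[𝒪] DQ.R ⧸ J) : DQ.R →+* DQ.R ⧸ J) :=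
      IsLocalHom.of_surjective _ Ideal.Quotient.mk_surjective
    have h1 := (h𝒟.iff_forall_surjective (A := DQ.R) inferInstance DQ.residue_surjective DQ.ρ).1
      DQ.isOfType htJ (Ideal.Quotient.mkₐ 𝒪 J) hmk Ideal.Quotient.mk_surjective
    have h2 : Good 𝒟 (DQ.R ⧸ J) (mapMat (Ideal.Quotient.mk J) r₁) := by
      refine Good.of_isEquiv h𝒟 htJ _ (bcBasis _ hmk DQ.ρ b₁) h1 1 isUnit_one fun σ => ?_
      rw [toMat_bcBasis, one_mul, mul_one]
      rfl
    have h3 := h2.map h𝒟 htJ htest gl (isLocalHom_of_artinian _)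
    have h4 : mapMat (gl : (DQ.R ⧸ J) →+* _) (mapMat (Ideal.Quotient.mk J) r₁) = mapMat f r₁ := by
      ext σ i j <;> rfl
    rwa [h4] at h3
  have hcoc : ∀ f ∈ DualHoms π, coc (mapMat f r₁) ∈ Z := by
    intro f hf
    obtain ⟨_, hc, hD⟩ := hgood f hf
    exact hZ (mapMat f r₁) hc (hred f hf) hD
  -- injectivity
  have hinj : ∀ f (hf : f ∈ DualHoms π) f' (hf' : f' ∈ DualHoms π) (X : M2 (ResidueField 𝒪)),
      coc (mapMat f r₁) = coc (mapMat f' r₁) + cob r X → f = f' := by
    intro f hf f' hf' X h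
    obtain ⟨_, hc', hD'⟩ := hgood f' hf'
    have hconj := conj_of_coc (hred f hf) (hred f' hf') h
    have hresid : (ofMatrix (mapMat f' r₁) hc').residual.IsEquiv
        (ρbar.baseChangeAlong (ResidueField.map (algebraMap 𝒪
          (DualNumber (ResidueField 𝒪))))) := by
      rw [residual_isEquiv_iff_conj _ _ (resBasis _ (stdBasis _ _)) (rbcBasis _ _ b)]
      refine ⟨1, isUnit_one, fun σ => ?_⟩
      rw [toMat_resBasis, toMat_stdBasis, toMat_rbcBasis, one_mul, mul_one, ← hr]
      ext i j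
      rw [mapMat_apply, mapMat_apply, mapMat_apply, H69.residue_dual, hf'.2, ← mapMat_apply, hπr]
      obtain ⟨c, hc⟩ := residue_surjective (r σ i j)
      rw [← hc]
      rfl
    obtain ⟨φ₀, -, huniq⟩ := DQ.universal (DualNumber (ResidueField 𝒪)) htest.residue_surjective
      (ofMatrix (mapMat f' r₁) hc') hD' hresid
    have hlf : IsLocalHom ((toAlg f hf : DQ.R →ₐ[𝒪] DualNumber (ResidueField 𝒪)) :
        DQ.R →+* DualNumber (ResidueField 𝒪)) := hloc f hf
    have hlf' : IsLocalHom ((toAlg f' hf' : DQ.R →ₐ[𝒪] DualNumber (ResidueField 𝒪)) :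
        DQ.R →+* DualNumber (ResidueField 𝒪)) := hloc f' hf'
    have e1 : toAlg f hf = φ₀ := by
      refine huniq _ ⟨hlf, ?_⟩
      rw [isEquiv_iff_conj _ _ (bcBasis _ hlf DQ.ρ b₁) (stdBasis _ _)]
      refine ⟨onePlus X, isUnit_onePlus X, fun σ => ?_⟩
      rw [toMat_bcBasis, toMat_stdBasis]
      have h1 : onePlus (-X) * mapMat f' r₁ σ = mapMat f r₁ σ * onePlus (-X) := hconj σ
      have h2 : onePlus X * onePlus (-X) = 1 := by
        rw [onePlus_mul, add_neg_cancel, onePlus_zero]
      have h3 : onePlus (-X) * onePlus X = 1 := by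
        rw [onePlus_mul, neg_add_cancel, onePlus_zero]
      calc onePlus X * mapMat f r₁ σ
          = onePlus X * (mapMat f r₁ σ * onePlus (-X)) * onePlus X := by
            rw [mul_assoc, mul_assoc, h3, mul_one]
        _ = onePlus X * (onePlus (-X) * mapMat f' r₁ σ) * onePlus X := by rw [h1]
        _ = (onePlus X * onePlus (-X)) * mapMat f' r₁ σ * onePlus X := by noncomm_ring
        _ = _ := by rw [h2, one_mul]
    have e2 : toAlg f' hf' = φ₀ := by
      refine huniq _ ⟨hlf', ?_⟩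
      rw [isEquiv_iff_conj _ _ (bcBasis _ hlf' DQ.ρ b₁) (stdBasis _ _)]
      refine ⟨1, isUnit_one, fun σ => ?_⟩
      rw [toMat_bcBasis, toMat_stdBasis, one_mul, mul_one]
      rfl
    have e3 : toAlg f hf = toAlg f' hf' := e1.trans e2.symm
    ext a : 1
    exact AlgHom.congr_fun e3 a
  -- counting
  let Φ : (DualHoms π) × {X : M2 (ResidueField 𝒪) // X.trace = 0} → Z := fun t =>
    ⟨coc (mapMat t.1.1 r₁) + cob r t.2.1, hcob _ (hcoc _ t.1.2) _ t.2.2⟩
  have hΦ : Function.Injective Φ := by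
    rintro ⟨⟨f, hf⟩, ⟨X, hX⟩⟩ ⟨⟨f', hf'⟩, ⟨X', hX'⟩⟩ h
    have h1 : coc (mapMat f r₁) + cob r X = coc (mapMat f' r₁) + cob r X' :=
      congrArg Subtype.val h
    have hsub : cob r (X' - X) = cob r X' - cob r X := by
      funext σ
      simp only [cob, Pi.sub_apply]
      noncomm_ring
    have h2 : f = f' := hinj f hf f' hf' (X' - X) (by
      rw [hsub, eq_sub_of_add_eq h1]; abel)
    subst h2
    have h3 : cob r (X' - X) = 0 := by
      rw [hsub, add_left_cancel h1, sub_self]
    have h4 : X' - X = 0 := by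
      apply hcent
      · rw [Matrix.trace_sub, hX, hX', sub_self]
      · intro σ
        have h5 := congrFun h3 σ
        simp only [cob, Pi.zero_apply] at h5
        rw [sub_eq_zero] at h5
        calc r σ * (X' - X) = r σ * (X' - X) * (r σ⁻¹ * r σ) := by rw [rinv_mul, mul_one]
          _ = (r σ * (X' - X) * r σ⁻¹) * r σ := by noncomm_ring
          _ = _ := by rw [h5]
    have h6 : X = X' := (sub_eq_zero.1 h4).symm
    subst h6
    rfl
  haveI : Finite Z := hZfin
  haveI hfinP : Finite ((DualHoms π) × {X : M2 (ResidueField 𝒪) // X.trace = 0}) :=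
    Finite.of_injective Φ hΦ
  have hfinD : Finite (DualHoms π) := by
    refine Finite.of_injective (fun f : DualHoms π =>
      ((f, ⟨0, by simp⟩) : (DualHoms π) × {X : M2 (ResidueField 𝒪) // X.trace = 0})) ?_
    intro f f' h
    exact congrArg Prod.fst h
  have hcardD : (DualHoms π).ncard ≤ Nat.card (ResidueField 𝒪) ^ N := by
    have h1 := Nat.card_le_card_of_injective Φ hΦ
    rw [Nat.card_prod, natCard_traceZero, Nat.card_coe_set_eq, Nat.card_coe_set_eq] at h1
    have h2 := h1.trans hcard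
    rw [pow_add] at h2
    exact Nat.le_of_mul_le_mul_right h2 (pow_pos Nat.card_pos 3)
  obtain ⟨x, hx0, hx⟩ := exists_generators π hπ N hfinD hcardD
  rw [hker] at hx
  obtain ⟨γ, -, hγ⟩ := exists_mvPowerSeries_surjective (O := 𝒪) (R := DQ.R)
    DQ.residue_surjective x (fun i => by rw [← hker]; exact hx0 i) hx
  exact ⟨γ, hγ⟩

end Main

end Fermat.Agent.H56
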