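import Fermat.Agent.H28LocCoc
import Fermat.Agent.H56Tangent

/-!
# S56: local bounds at unramified and Taylor-Wiles primes
-/

set_option autoImplicit false
set_option maxSynthPendingDepth 3

noncomputable section

open Pointwise IsLocalRing

namespace Fermat.Agent.H28

open Fermat.Agent.H55 Fermat.Agent.H56 Fermat.Agent.H53 ExtCitation

variable (p : ℕ) [Fact p.Prime] {k : Type} [Field k] [Algebra (ZMod p) k]

section General

variable {p}

theorem card_SL [Finite k] : Nat.card (SL p k) = Nat.card k ^ 3 := natCard_traceZero k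

instance finite_M2 [Finite k] : Finite (M2 k) := inferInstanceAs (Finite (Fin 2 → Fin 2 → k))

instance finite_SL [Finite k] : Finite (SL p k) := inferInstance

theorem smooth_ad {r : H91.GQ →* M2 k} (hr : FinLev r) : Smooth krullLevels (ad p r) := by
  obtain ⟨U, hU, h⟩ := hr
  intro a
  refine ⟨U, hU, fun s hs => ?_⟩
  ext1
  rw [coe_ad, h s hs, h s⁻¹ (inv_mem hs), one_mul, mul_one]

theorem smooth_adD {r : H91.GQ →* M2 k} (hr : FinLev r) (q : Nat.Primes) :
    Smooth (Dlev q) (rhoD (ad p r) q) :=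
  (smooth_ad hr).comp (Levels.cont_onSub _ _)

theorem B1_le_Z1 {r : H91.GQ →* M2 k} (hr : FinLev r) (q : Nat.Primes) :
    B1 (rhoD (ad p r) q) ≤ Z1 (Dlev q) (rhoD (ad p r) q) := by
  rintro _ ⟨a, rfl⟩
  exact (smooth_adD hr q).d0_mem_Z1 a

theorem maximalIdeal_sq : maximalIdeal (DualNumber k) ^ 2 = ⊥ := by
  rw [eq_bot_iff, pow_two, Ideal.mul_le]
  intro x hx y hy
  rw [mem_maximalIdeal, mem_nonunits_iff, TrivSqZeroExt.isUnit_iff_isUnit_fst,
    isUnit_iff_ne_zero, not_not] at hx hy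
  rw [Ideal.mem_bot]
  ext
  · simp [hx]
  · simp [hx, hy]

theorem exists_level_lift {R : H91.GQ →* M2 (DualNumber k)} (hR : MCont (DualNumber k) R) :
    ∃ U, krullLevels.op U ∧ ∀ σ ∈ U, R σ = 1 := by
  obtain ⟨L, hL, h⟩ := hR 2
  refine ⟨L.fixingSubgroup, (krullLevels_op_iff _).2 ⟨L, hL, le_rfl⟩, fun σ hσ => ?_⟩
  rw [IntermediateField.mem_fixingSubgroup_iff] at hσ
  ext1 i j
  have h1 := h σ hσ i j
  rw [maximalIdeal_sq, Ideal.mem_bot, sub_eq_zero] at h1
  exact h1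

/-- cocycles of lifts are cocycles -/
theorem coc_mem_Z1 {r : H91.GQ →* M2 k} {R : H91.GQ →* M2 (DualNumber k)} (hR : GoodLift r R)
    {q : Nat.Primes} {c : Dq q → SL p k} (hc : ∀ σ, (c σ : M2 k) = coc R (σ : H91.GQ)) :
    c ∈ Z1 (Dlev q) (rhoD (ad p r) q) := by
  constructor
  · obtain ⟨U, hU, h⟩ := exists_level_lift hR.cont
    refine ⟨U.subgroupOf (Dq q), ⟨U, hU, le_rfl⟩, fun g s hs => ?_⟩
    ext1
    rw [hc, hc]
    have h1 : R (s : H91.GQ) = 1 := h _ hs
    have h2 : R ((s : H91.GQ))⁻¹ = 1 := h _ (inv_mem (show (s : H91.GQ) ∈ U from hs))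
    show coc R ((g : H91.GQ) * s) = coc R g
    rw [coc, coc, map_mul, h1, mul_one, mul_inv_rev, map_mul R, h2, one_mul]
  · intro g h
    ext1
    show (c (g * h) : M2 k) = r g * (c h : M2 k) * r (g : H91.GQ)⁻¹ + (c g : M2 k)
    rw [hc, hc, hc]
    show coc R ((g : H91.GQ) * h) = _
    rw [coc_mul, hR.red, hR.red]

end General

variable [Finite k]

/-- (U): unramified primes -/
theorem statementU : StatementU p (k := k) := by
  intro r hr q hI
  have hI' : ∀ σ ∈ Iq q, ∀ m, ad p r σ m = m := by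
    intro σ hσ m
    ext1
    rw [coe_ad, hI σ hσ, hI σ⁻¹ (inv_mem hσ), one_mul, mul_one]
  let V : Submodule (ZMod p) (Dq q → SL p k) :=
    ⨅ σ : {σ : Dq q // (σ : H91.GQ) ∈ Iq q}, LinearMap.ker (LinearMap.proj σ.1)
  have hV : ∀ c, c ∈ V ↔ ∀ σ : Dq q, (σ : H91.GQ) ∈ Iq q → c σ = 0 := by
    intro c
    simp only [V, Submodule.mem_iInf, LinearMap.mem_ker, LinearMap.proj_apply, Subtype.forall]
  obtain ⟨φ, hφ⟩ := H54.exists_isFrobeniusAt q.2 (primeLocalPlace_liesOver q)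
  have hφD : φ ∈ Dq q := hφ.mem_decompositionSubgroup
  let L := Z1 (Dlev q) (rhoD (ad p r) q) ⊓ V
  have hinj : Function.Injective (fun c : L => (c : Dq q → SL p k) ⟨φ, hφD⟩) := by
    intro c c' h
    have hsub : ((c : Dq q → SL p k) - c') ∈ L := sub_mem c.2 c'.2
    have h0 : ((c : Dq q → SL p k) - c') = 0 := by
      refine eq_zero_of_frobenius hsub.1 hφ ?_ ?_
      · intro σ hσ
        rw [extD_of_mem _ (Iq_le_Dq hσ)]
        exact (hV _).1 hsub.2 ⟨σ, Iq_le_Dq hσ⟩ hσ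
      · rw [extD_of_mem _ hφD, Pi.sub_apply, sub_eq_zero]
        exact h
    exact Subtype.ext (sub_eq_zero.1 h0)
  refine ⟨L, le_inf (B1_le_Z1 hr q) ?_, inf_le_left, Finite.of_injective _ hinj, ?_, ?_⟩
  · rintro _ ⟨a, rfl⟩
    rw [hV]
    intro σ hσ
    rw [d0_apply, sub_eq_zero]
    exact hI' σ hσ a
  · rw [← card_SL (p := p) (k := k)]
    exact Nat.card_le_card_of_injective _ hinj
  · intro R hR hcond c hc
    refine ⟨coc_mem_Z1 hR hc, (hV _).2 fun σ hσ => ?_⟩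
    ext1
    rw [hc, coc, hcond _ hσ, sndM_one, zero_mul]
    rfl

section TW

/-- trace zero matrices commuting with a matrix with distinct eigenvalues -/
theorem card_commute_le {N : M2 k} {α β : k} (hαβ : α ≠ β)
    (hN : N.charpoly = (Polynomial.X - Polynomial.C α) * (Polynomial.X - Polynomial.C β)) :
    Nat.card {X : SL p k // N * (X : M2 k) = X * N} ≤ Nat.card k := by
  have e1 : α ^ 2 - (N 0 0 + N 1 1) * α + (N 0 0 * N 1 1 - N 0 1 * N 1 0) = 0 := by
    have h1 := congrArg (Polynomial.eval α) hN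
    rw [Matrix.charpoly_fin_two] at h1
    simpa [Matrix.trace_fin_two, Matrix.det_fin_two] using h1
  have e2 : β ^ 2 - (N 0 0 + N 1 1) * β + (N 0 0 * N 1 1 - N 0 1 * N 1 0) = 0 := by
    have h1 := congrArg (Polynomial.eval β) hN
    rw [Matrix.charpoly_fin_two] at h1
    simpa [Matrix.trace_fin_two, Matrix.det_fin_two] using h1
  have hne : α - β ≠ 0 := sub_ne_zero.2 hαβ
  have htr : N 0 0 + N 1 1 = α + β := by
    have : (α - β) * (N 0 0 + N 1 1) = (α - β) * (α + β) := by linear_combination e2 - e1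
    exact mul_left_cancel₀ hne this
  have hdet : N 0 0 * N 1 1 - N 0 1 * N 1 0 = α * β := by
    rw [htr] at e1
    linear_combination e1
  -- the discriminant is nonzero
  have hdisc : (N 0 0 - N 1 1) ^ 2 + 4 * (N 0 1 * N 1 0) ≠ 0 := by
    have : (N 0 0 - N 1 1) ^ 2 + 4 * (N 0 1 * N 1 0) = (α - β) ^ 2 := by
      linear_combination (N 0 0 + N 1 1 + α + β) * htr - 4 * hdet
    rw [this]
    exact pow_ne_zero _ hne
  -- equations for a commuting trace zero matrix
  have heq : ∀ X : SL p k, N * (X : M2 k) = X * N →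
      (X : M2 k) 1 1 = - (X : M2 k) 0 0 ∧
      N 0 1 * (X : M2 k) 1 0 = (X : M2 k) 0 1 * N 1 0 ∧
      2 * (X : M2 k) 0 0 * N 0 1 = (N 0 0 - N 1 1) * (X : M2 k) 0 1 ∧
      2 * (X : M2 k) 0 0 * N 1 0 = (N 0 0 - N 1 1) * (X : M2 k) 1 0 := by
    intro X hX
    have htX : (X : M2 k).trace = 0 := X.2
    rw [Matrix.trace_fin_two] at htX
    have h11 : (X : M2 k) 1 1 = - (X : M2 k) 0 0 := by linear_combination htX
    have h00 := congrFun (congrFun hX 0) 0
    have h01 := congrFun (congrFun hX 0) 1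
    have h10 := congrFun (congrFun hX 1) 0
    rw [Matrix.mul_apply, Matrix.mul_apply, Fin.sum_univ_two, Fin.sum_univ_two] at h00 h01 h10
    rw [h11] at h01 h10
    refine ⟨h11, by linear_combination h00, by linear_combination -h01, by linear_combination h10⟩
  have hfin : Finite k := inferInstance
  by_cases hs : N 0 0 - N 1 1 = 0
  · rw [hs] at heq hdisc
    have h2 : (2 : k) ≠ 0 := by
      intro h
      apply hdisc
      have : (4 : k) = 2 * 2 := by norm_num
      rw [this, h]; ring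
    have hbc : N 0 1 * N 1 0 ≠ 0 := by
      intro h
      apply hdisc
      rw [h]; ring
    have hb : N 0 1 ≠ 0 := left_ne_zero_of_mul hbc
    refine Nat.card_le_card_of_injective
      (fun X : {X : SL p k // N * (X : M2 k) = X * N} => (X.1 : M2 k) 0 1) ?_
    intro X Y hXY
    have hXY' : (X.1 : M2 k) 0 1 = (Y.1 : M2 k) 0 1 := hXY
    obtain ⟨a1, a2, a3, -⟩ := heq X.1 X.2
    obtain ⟨b1, b2, b3, -⟩ := heq Y.1 Y.2
    have c1 : (X.1 : M2 k) 0 0 = 0 := by
      have : 2 * (X.1 : M2 k) 0 0 * N 0 1 = 0 := by rw [a3]; ring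
      rcases mul_eq_zero.1 this with h | h
      · exact (mul_eq_zero.1 h).resolve_left h2
      · exact absurd h hb
    have c2 : (Y.1 : M2 k) 0 0 = 0 := by
      have : 2 * (Y.1 : M2 k) 0 0 * N 0 1 = 0 := by rw [b3]; ring
      rcases mul_eq_zero.1 this with h | h
      · exact (mul_eq_zero.1 h).resolve_left h2
      · exact absurd h hb
    apply Subtype.ext
    ext i j
    fin_cases i <;> fin_cases j
    · show (X.1 : M2 k) 0 0 = (Y.1 : M2 k) 0 0
      rw [c1, c2]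
    · exact hXY'
    · show (X.1 : M2 k) 1 0 = (Y.1 : M2 k) 1 0
      apply mul_left_cancel₀ hb
      rw [a2, b2, hXY']
    · show (X.1 : M2 k) 1 1 = (Y.1 : M2 k) 1 1
      rw [a1, b1, c1, c2]
  · refine Nat.card_le_card_of_injective
      (fun X : {X : SL p k // N * (X : M2 k) = X * N} => (X.1 : M2 k) 0 0) ?_
    intro X Y hXY
    have hXY' : (X.1 : M2 k) 0 0 = (Y.1 : M2 k) 0 0 := hXY
    obtain ⟨a1, a2, a3, a4⟩ := heq X.1 X.2
    obtain ⟨b1, b2, b3, b4⟩ := heq Y.1 Y.2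
    apply Subtype.ext
    ext i j
    fin_cases i <;> fin_cases j
    · exact hXY'
    · show (X.1 : M2 k) 0 1 = (Y.1 : M2 k) 0 1
      apply mul_left_cancel₀ hs
      rw [← a3, ← b3, hXY']
    · show (X.1 : M2 k) 1 0 = (Y.1 : M2 k) 1 0
      apply mul_left_cancel₀ hs
      rw [← a4, ← b4, hXY']
    · show (X.1 : M2 k) 1 1 = (Y.1 : M2 k) 1 1
      rw [a1, b1, hXY']

/-- (T): Taylor-Wiles primes -/
theorem statementT : StatementT p (k := k) := by
  intro r hr q hqp hdvd hI ⟨φ, hφ, α, β, hαβ, hchar⟩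
  have hI' : ∀ σ ∈ Iq q, ∀ m, ad p r σ m = m := by
    intro σ hσ m
    ext1
    rw [coe_ad, hI σ hσ, hI σ⁻¹ (inv_mem hσ), one_mul, mul_one]
  have hφD : φ ∈ Dq q := hφ.mem_decompositionSubgroup
  obtain ⟨σ₀, hσ₀, hne⟩ := exists_tame_generator q.2 (primeLocalPlace_liesOver q) (Ne.symm hqp)
  have hσ₀D : σ₀ ∈ Dq q := Iq_le_Dq hσ₀
  have hq1 : ((q : ℕ) : ZMod p) = 1 := by
    have h1 : (((q : ℕ) - 1 : ℕ) : ZMod p) = 0 := (ZMod.natCast_eq_zero_iff _ _).2 hdvd
    rw [Nat.cast_sub q.2.one_le, Nat.cast_one, sub_eq_zero] at h1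
    exact h1
  have hcomm : ∀ c : Z1 (Dlev q) (rhoD (ad p r) q),
      r φ * ((c : Dq q → SL p k) ⟨σ₀, hσ₀D⟩ : M2 k) =
        ((c : Dq q → SL p k) ⟨σ₀, hσ₀D⟩ : M2 k) * r φ := by
    intro c
    have h1 := frob_rel_coc c.2 hqp hI' hφ hσ₀
    rw [extD_of_mem _ hσ₀D, ← Nat.cast_smul_eq_nsmul (ZMod p), hq1, one_smul] at h1
    have h2 := congrArg (fun X : SL p k => (X : M2 k) * r φ) h1
    simp only [coe_ad] at h2
    rw [mul_assoc, rinv_mul, mul_one] at h2
    exact h2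
  let f : Z1 (Dlev q) (rhoD (ad p r) q) → SL p k × {X : SL p k // r φ * (X : M2 k) = X * r φ} :=
    fun c => ((c : Dq q → SL p k) ⟨φ, hφD⟩, ⟨(c : Dq q → SL p k) ⟨σ₀, hσ₀D⟩, hcomm c⟩)
  have hinj : Function.Injective f := by
    intro c c' h
    have h1 : (c : Dq q → SL p k) ⟨φ, hφD⟩ = (c' : Dq q → SL p k) ⟨φ, hφD⟩ := congrArg Prod.fst h
    have h2 : (c : Dq q → SL p k) ⟨σ₀, hσ₀D⟩ = (c' : Dq q → SL p k) ⟨σ₀, hσ₀D⟩ :=
      congrArg Subtype.val (congrArg Prod.snd h)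
    have hsub : ((c : Dq q → SL p k) - c') ∈ Z1 (Dlev q) (rhoD (ad p r) q) := sub_mem c.2 c'.2
    have h0 : ((c : Dq q → SL p k) - c') = 0 := by
      refine eq_zero_of_frobenius hsub hφ ?_ ?_
      · refine eq_zero_of_tame hsub hqp hI' hσ₀ hne ?_
        rw [extD_of_mem _ hσ₀D, Pi.sub_apply, sub_eq_zero]
        exact h2
      · rw [extD_of_mem _ hφD, Pi.sub_apply, sub_eq_zero]
        exact h1
    exact Subtype.ext (sub_eq_zero.1 h0)
  refine ⟨Finite.of_injective f hinj, ?_⟩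
  calc Nat.card (Z1 (Dlev q) (rhoD (ad p r) q))
      ≤ Nat.card (SL p k × {X : SL p k // r φ * (X : M2 k) = X * r φ}) :=
        Nat.card_le_card_of_injective f hinj
    _ = Nat.card (SL p k) * Nat.card {X : SL p k // r φ * (X : M2 k) = X * r φ} :=
        Nat.card_prod _ _
    _ ≤ Nat.card k ^ 3 * Nat.card k := by
        rw [card_SL]
        exact Nat.mul_le_mul_left _ (card_commute_le p hαβ hchar)
    _ = Nat.card k ^ 4 := by ring

end TW

end Fermat.Agent.H28
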