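import Fermat.Agent.H64FTors

/-!
# S56-[B4] : the unit lemma (K2)
-/

set_option autoImplicit false

noncomputable section

namespace Fermat.Agent.H64

variable {p : ℕ} [Fact p.Prime]

/-- descent of linear relations between equivariant functions -/
theorem exists_fixed_relation (G' : Subgroup FGQ) {X : Type*} {r : ℕ} (a : Fin r → X → FQb)
    (heq : ∀ σ ∈ G', ∀ x, ∃ x', ∀ i, a i x = σ (a i x')) (g : Fin r → FQb) (hg : g ≠ 0)
    (hrel : ∀ x, ∑ i, g i * a i x = 0) :
    ∃ c : Fin r → FQb, c ≠ 0 ∧ (∀ i, ∀ σ ∈ G', σ (c i) = c i) ∧ ∀ x, ∑ i, c i * a i x = 0 := by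
  classical
  induction hn : (Finset.univ.filter fun i => g i ≠ 0).card using Nat.strong_induction_on
    generalizing g with
  | _ n ih =>
    obtain ⟨i₀, hi₀⟩ := Function.ne_iff.mp hg
    have hi₀' : g i₀ ≠ 0 := hi₀
    set g' : Fin r → FQb := fun i => (g i₀)⁻¹ * g i with hg'
    have hg'1 : g' i₀ = 1 := inv_mul_cancel₀ hi₀'
    have hrel' : ∀ x, ∑ i, g' i * a i x = 0 := by
      intro x
      have := hrel x
      simp only [hg', mul_assoc, ← Finset.mul_sum]
      rw [this, mul_zero]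
    by_cases hfix : ∀ i, ∀ σ ∈ G', σ (g' i) = g' i
    · refine ⟨g', ?_, hfix, hrel'⟩
      intro h
      rw [h] at hg'1
      exact zero_ne_one hg'1
    · push Not at hfix
      obtain ⟨i₁, σ, hσ, hne⟩ := hfix
      refine ih _ ?_ (fun i => σ (g' i) - g' i) ?_ ?_ rfl
      · rw [← hn]
        apply Finset.card_lt_card
        rw [Finset.ssubset_iff_of_subset]
        · refine ⟨i₀, by simp [hi₀'], ?_⟩
          simp [hg'1]
        · intro i hi
          rw [Finset.mem_filter] at hi ⊢
          refine ⟨Finset.mem_univ _, fun h0 => hi.2 ?_⟩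
          simp [hg', h0]
      · intro h
        have := congrFun h i₁
        exact hne (sub_eq_zero.mp this)
      · intro x
        obtain ⟨x', hx'⟩ := heq σ hσ x
        have h1 : ∑ i, σ (g' i) * a i x = 0 := by
          have h2 := congrArg σ (hrel' x')
          rw [map_sum, map_zero] at h2
          rw [← h2]
          refine Finset.sum_congr rfl fun i _ => ?_
          rw [hx' i]
          exact (map_mul σ _ _).symm
        have h2 := hrel' x
        simp only [sub_mul, Finset.sum_sub_distrib]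
        rw [h1, h2, sub_zero]

variable (p) in
/-- elements of norm at most one fixed by a subgroup -/
def OG (G' : Subgroup FGQ) : Subring FQb where
  carrier := {x | (∀ σ ∈ G', σ x = x) ∧ nm p x ≤ 1}
  mul_mem' {a b} ha hb := ⟨fun σ hσ => by rw [map_mul, ha.1 σ hσ, hb.1 σ hσ],
    nm_mul_le_one ha.2 hb.2⟩
  one_mem' := ⟨fun σ _ => map_one σ, by simp⟩
  add_mem' {a b} ha hb := ⟨fun σ hσ => by rw [map_add, ha.1 σ hσ, hb.1 σ hσ],
    nm_add_le_of ha.2 hb.2⟩
  zero_mem' := ⟨fun σ _ => map_zero σ, by simp⟩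
  neg_mem' {a} ha := ⟨fun σ hσ => by rw [map_neg, ha.1 σ hσ], by rw [nm_neg]; exact ha.2⟩

theorem mem_OG {G' : Subgroup FGQ} {x : FQb} :
    x ∈ OG p G' ↔ (∀ σ ∈ G', σ x = x) ∧ nm p x ≤ 1 := Iff.rfl

/-- lattices spanned by equivariant functions have a basis which is linearly independent
over `ℚ̄` -/
theorem exists_lattice_basis (G' : Subgroup FGQ) {X : Type*} {n : ℕ} (f : Fin n → X → FQb)
    (heq : ∀ σ ∈ G', ∀ x, ∃ x', ∀ i, f i x = σ (f i x')) :
    ∃ (r : ℕ) (a : Fin r → X → FQb),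
      Submodule.span (OG p G') (Set.range a) = Submodule.span (OG p G') (Set.range f) ∧
      ∀ g : Fin r → FQb, (∀ x, ∑ i, g i * a i x = 0) → g = 0 := by
  classical
  have hex : ∃ r : ℕ, ∃ a : Fin r → X → FQb,
      Submodule.span (OG p G') (Set.range a) = Submodule.span (OG p G') (Set.range f) :=
    ⟨n, f, rfl⟩
  obtain ⟨a, ha⟩ := Nat.find_spec hex
  refine ⟨Nat.find hex, a, ha, fun g hg => ?_⟩
  by_contra hne
  -- members of the lattice are equivariant
  have heqA : ∀ σ ∈ G', ∀ x, ∃ x', ∀ i, a i x = σ (a i x') := by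
    intro σ hσ x
    obtain ⟨x', hx'⟩ := heq σ hσ x
    refine ⟨x', fun i => ?_⟩
    have hmem : a i ∈ Submodule.span (OG p G') (Set.range f) := by
      rw [← ha]; exact Submodule.subset_span ⟨i, rfl⟩
    have key : ∀ F ∈ Submodule.span (OG p G') (Set.range f), F x = σ (F x') := by
      intro F hF
      induction hF using Submodule.span_induction with
      | mem F hF => obtain ⟨j, rfl⟩ := hF; exact hx' j
      | zero => simp
      | add F G _ _ hF hG => rw [Pi.add_apply, Pi.add_apply, map_add, hF, hG]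
      | smul c F _ hF =>
        show (c : FQb) * F x = σ ((c : FQb) * F x')
        rw [map_mul, c.2.1 σ hσ, hF]
    exact key _ hmem
  obtain ⟨c, hc0, hcfix, hcrel⟩ := exists_fixed_relation G' a heqA g hne hg
  -- the maximal coefficient
  obtain ⟨i₁, hi₁⟩ := Function.ne_iff.mp hc0
  obtain ⟨j₀, -, hj₀⟩ := Finset.exists_max_image Finset.univ (fun i => nm p (c i))
    ⟨i₁, Finset.mem_univ i₁⟩
  have hcj : c j₀ ≠ 0 := by
    intro h
    have h1 := hj₀ i₁ (Finset.mem_univ i₁)
    rw [h, nm_zero] at h1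
    exact hi₁ (nm_eq_zero.mp (le_antisymm h1 (nm_nonneg _)))
  have hpos : 0 < Nat.find hex := Fin.pos j₀
  obtain ⟨m, hm⟩ : ∃ m, Nat.find hex = m + 1 := ⟨Nat.find hex - 1, by omega⟩
  apply Nat.find_min hex (m := m) (by omega)
  -- remove the `j₀`-th generator
  let j₁ : Fin (m + 1) := Fin.cast hm j₀
  let b : Fin (m + 1) → X → FQb := fun i => a (Fin.cast hm.symm i)
  have hba : Set.range b = Set.range a := by
    ext F
    constructor
    · rintro ⟨i, rfl⟩; exact ⟨_, rfl⟩
    · rintro ⟨i, rfl⟩; exact ⟨Fin.cast hm i, rfl⟩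
  refine ⟨fun i => b (j₁.succAbove i), ?_⟩
  rw [← ha, ← hba]
  apply le_antisymm
  · apply Submodule.span_mono
    rintro _ ⟨i, rfl⟩
    exact ⟨_, rfl⟩
  · rw [Submodule.span_le]
    rintro _ ⟨i, rfl⟩
    rcases Fin.eq_self_or_eq_succAbove j₁ i with rfl | ⟨k, rfl⟩
    · -- `b j₁` is a combination of the others
      let C : Fin (m + 1) → FQb := fun i => c (Fin.cast hm.symm i)
      have hC : ∀ k : Fin m, -(C (j₁.succAbove k) / C j₁) ∈ OG p G' := by
        intro k
        refine ⟨fun σ hσ => ?_, ?_⟩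
        · rw [map_neg, map_div₀, hcfix _ σ hσ, hcfix _ σ hσ]
        · rw [nm_neg, nm_div]
          exact div_le_one_of_le₀ (hj₀ _ (Finset.mem_univ _)) (nm_nonneg _)
      have hb : b j₁ = ∑ k : Fin m, (⟨_, hC k⟩ : OG p G') • b (j₁.succAbove k) := by
        ext x
        rw [Finset.sum_apply]
        have h1 : ∑ i : Fin (m + 1), C i * b i x = 0 := by
          rw [← hcrel x]
          exact Fintype.sum_equiv (finCongr hm.symm) _ _ (fun i => rfl)
        rw [Fin.sum_univ_succAbove _ j₁] at h1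
        have hCj : C j₁ ≠ 0 := hcj
        have h2 : b j₁ x = -(∑ k : Fin m, C (j₁.succAbove k) * b (j₁.succAbove k) x) / C j₁ := by
          rw [eq_div_iff hCj, mul_comm]
          exact eq_neg_of_add_eq_zero_left h1
        rw [h2, neg_div, Finset.sum_div, ← Finset.sum_neg_distrib]
        refine Finset.sum_congr rfl fun k _ => ?_
        show _ = -(C (j₁.succAbove k) / C j₁) * b (j₁.succAbove k) x
        ring
      rw [hb]
      exact Submodule.sum_mem _ fun k _ => Submodule.smul_mem _ _ (Submodule.subset_span ⟨k, rfl⟩)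
    · exact Submodule.subset_span ⟨k, rfl⟩

variable {W : Type*} [AddCommGroup W] {act : FGQ → W → W} {n : ℕ}
  {e : Fin n → W → FQb} {a : Fin n → Fin n → Fin n → ℚ}

theorem nm_addChar {W : Type*} [AddCommGroup W] (hpW : ∀ x : W, p • x = 0) (ψ : AddChar W FQb)
    (x : W) : nm p (ψ x) = 1 := by
  have h1 : ψ x ^ p = 1 := by
    rw [← AddChar.map_nsmul_eq_pow, hpW, AddChar.map_zero_eq_one]
  have h2 := congrArg (nm p) h1
  rw [nm_pow, nm_one] at h2
  exact (pow_eq_one_iff_of_nonneg (nm_nonneg _) (Fact.out : p.Prime).ne_zero).mp h2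

/-- (K2a) the coordinates of a character are integral -/
theorem FData.exists_coeff_addChar (h : FData p act n e a) (ψ : AddChar W FQb) :
    ∃ c : Fin n → FQb, (∀ x, ψ x = ∑ i, c i * e i x) ∧ ∀ i, nm p (c i) ≤ 1 := by
  obtain ⟨c, hc⟩ := h.span ψ
  have hc' : ∀ x, ψ x = ∑ i, c i * e i x := by
    intro x
    have := congrFun hc x
    rw [this, Finset.sum_apply]
    rfl
  refine ⟨c, hc', ?_⟩
  -- the multiplicativity
  have hmul : ∀ j k, c j * c k = ∑ i, c i * (a i j k : FQb) := by
    intro j k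
    have h1 : ∀ z, ∀ j, c j * (∑ k, c k * e k z) = ∑ k, (∑ i, c i * (a i j k : FQb)) * e k z := by
      intro z
      have h2 : (fun j => c j * (∑ k, c k * e k z)) =
          fun j => ∑ k, (∑ i, c i * (a i j k : FQb)) * e k z := by
        apply h.coeff_eq
        intro y
        have h3 : ψ (y + z) = ψ y * ψ z := ψ.map_add_eq_mul y z
        rw [hc' y, hc' z, hc' (y + z)] at h3
        simp only [h.comul] at h3
        have e1 : ∑ j, c j * (∑ k, c k * e k z) * e j y =
            (∑ j, c j * e j y) * (∑ k, c k * e k z) := by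
          rw [Finset.sum_mul]
          refine Finset.sum_congr rfl fun j _ => ?_
          ring
        have e2 : ∑ j, (∑ k, (∑ i, c i * (a i j k : FQb)) * e k z) * e j y =
            ∑ i, c i * ∑ j, ∑ k, (a i j k : FQb) * (e j y * e k z) := by
          simp only [Finset.sum_mul, Finset.mul_sum]
          symm
          rw [Finset.sum_comm]
          refine Finset.sum_congr rfl fun j _ => ?_
          rw [Finset.sum_comm]
          refine Finset.sum_congr rfl fun k _ => Finset.sum_congr rfl fun i _ => ?_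
          ring
        rw [e1, e2, ← h3]
      exact fun j => congrFun h2 j
    have h2 := h.coeff_eq (c := fun k => c j * c k) (d := fun k => ∑ i, c i * (a i j k : FQb))
      (fun z => by
        rw [← h1 z j, Finset.mul_sum]
        refine Finset.sum_congr rfl fun k _ => ?_
        ring)
    exact congrFun h2 k
  intro i
  have : Nonempty (Fin n) := ⟨i⟩
  obtain ⟨j, -, hj⟩ := Finset.exists_max_image Finset.univ (fun i => nm p (c i))
    Finset.univ_nonempty
  have h1 : nm p (c j) * nm p (c j) ≤ nm p (c j) := by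
    rw [← nm_mul, hmul j j]
    refine nm_sum_le _ _ (nm_nonneg _) fun i hi => ?_
    rw [nm_mul]
    exact (mul_le_of_le_one_right (nm_nonneg _) (h.nm_a i j j)).trans (hj i hi)
  refine (hj i (Finset.mem_univ i)).trans ?_
  by_contra hcon
  rw [not_le] at hcon
  have h2 : nm p (c j) * 1 < nm p (c j) * nm p (c j) :=
    mul_lt_mul_of_pos_left hcon (zero_lt_one.trans hcon)
  rw [mul_one] at h2
  exact absurd h1 (not_le.mpr h2)

/-- **(K2) the unit lemma** -/
theorem FData.exists_unit (h : FData p act n e a) (hpW : ∀ x : W, p • x = 0)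
    (G' : Subgroup FGQ) (W1 : AddSubgroup W) (x : W)
    (hx : ∀ σ ∈ G', act σ x - x ∈ W1) (hW1 : ∀ σ ∈ G', ∀ w ∈ W1, act σ w ∈ W1)
    (ψ : AddChar W FQb) (hψ : ∀ σ ∈ G', ∀ w ∈ W1, ψ (act σ w) = σ (ψ w)) :
    ∃ b : Fin n → FQb, (∀ i, ∀ σ ∈ G', σ (b i) = b i) ∧ (∀ i, nm p (b i) ≤ 1) ∧
      nm p (∑ i, b i * e i x) = 1 ∧
      ∀ σ ∈ G', σ (∑ i, b i * e i x) = ψ (act σ x - x) * ∑ i, b i * e i x := by
  classical
  obtain ⟨c, hc, hc1⟩ := h.exists_coeff_addChar ψ
  let X : Type _ := {y : W // y - x ∈ W1}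
  let x₀ : X := ⟨x, by rw [sub_self]; exact W1.zero_mem⟩
  let f : Fin n → X → FQb := fun i y => e i y.1
  have hactsub : ∀ σ y, act σ (y - x) = act σ y - act σ x := by
    intro σ y
    rw [eq_sub_iff_add_eq, ← h.act_add, sub_add_cancel]
  have hXstab : ∀ σ ∈ G', ∀ y : X, act σ y.1 - x ∈ W1 := by
    intro σ hσ y
    have h1 : act σ y.1 - x = act σ (y.1 - x) + (act σ x - x) := by rw [hactsub]; abel
    rw [h1]
    exact W1.add_mem (hW1 σ hσ _ y.2) (hx σ hσ)
  have hactact : ∀ σ τ y, act σ (act τ y) = act (σ * τ) y := by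
    intro σ τ y
    apply h.ext
    intro i
    rw [h.equiv, h.equiv, h.equiv]
    rfl
  have hactone : ∀ y, act 1 y = y := by
    intro y
    apply h.ext
    intro i
    rw [h.equiv]
    rfl
  have hsurj : ∀ σ ∈ G', ∀ y : X, ∃ y' : X, act σ y'.1 = y.1 := by
    intro σ hσ y
    refine ⟨⟨act σ⁻¹ y.1, hXstab σ⁻¹ (G'.inv_mem hσ) y⟩, ?_⟩
    show act σ (act σ⁻¹ y.1) = y.1
    rw [hactact, mul_inv_cancel, hactone]
  have heq : ∀ σ ∈ G', ∀ y : X, ∃ y' : X, ∀ i, f i y = σ (f i y') := by
    intro σ hσ y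
    obtain ⟨y', hy'⟩ := hsurj σ hσ y
    refine ⟨y', fun i => ?_⟩
    show e i y.1 = σ (e i y'.1)
    rw [← hy', h.equiv]
  obtain ⟨r, b, hspan, hindep⟩ := exists_lattice_basis (p := p) G' f heq
  -- coordinates of the functions
  have hfb : ∀ i, ∃ m : Fin r → OG p G', f i = ∑ j, m j • b j := by
    intro i
    have h1 : f i ∈ Submodule.span (OG p G') (Set.range b) := by
      rw [hspan]; exact Submodule.subset_span ⟨i, rfl⟩
    obtain ⟨m, hm⟩ := (Submodule.mem_span_range_iff_exists_fun (OG p G')).mp h1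
    exact ⟨m, hm.symm⟩
  have hbf : ∀ j, ∃ m : Fin n → OG p G', b j = ∑ i, m i • f i := by
    intro j
    have h1 : b j ∈ Submodule.span (OG p G') (Set.range f) := by
      rw [← hspan]; exact Submodule.subset_span ⟨j, rfl⟩
    obtain ⟨m, hm⟩ := (Submodule.mem_span_range_iff_exists_fun (OG p G')).mp h1
    exact ⟨m, hm.symm⟩
  choose mf hmf using hfb
  choose mb hmb using hbf
  have hmf' : ∀ i (y : X), e i y.1 = ∑ j, (mf i j : FQb) * b j y := by
    intro i y
    have := congrFun (hmf i) y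
    rw [Finset.sum_apply] at this
    exact this
  have hmb' : ∀ j (y : X), b j y = ∑ i, (mb j i : FQb) * e i y.1 := by
    intro i y
    have := congrFun (hmb i) y
    rw [Finset.sum_apply] at this
    exact this
  -- equivariance of the basis
  have hbeq : ∀ σ ∈ G', ∀ (y y' : X), act σ y'.1 = y.1 → ∀ j, b j y = σ (b j y') := by
    intro σ hσ y y' hy j
    rw [hmb', hmb', map_sum]
    refine Finset.sum_congr rfl fun i _ => ?_
    rw [map_mul, (mb j i).2.1 σ hσ, ← hy, h.equiv]
  -- coordinates of `ψ`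
  let l : Fin r → FQb := fun j => ∑ i, c i * (mf i j : FQb)
  have hl : ∀ y : X, ψ y.1 = ∑ j, l j * b j y := by
    intro y
    rw [hc]
    simp only [hmf', l, Finset.mul_sum, Finset.sum_mul]
    rw [Finset.sum_comm]
    refine Finset.sum_congr rfl fun i _ => Finset.sum_congr rfl fun j _ => ?_
    ring
  have hl1 : ∀ j, nm p (l j) ≤ 1 := fun j =>
    nm_sum_le _ _ zero_le_one fun i _ => nm_mul_le_one (hc1 i) (mf i j).2.2
  have hψ0 : ∀ y, ψ y ≠ 0 := by
    intro y h0
    have := nm_addChar (p := p) hpW ψ y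
    rw [h0, nm_zero] at this
    exact zero_ne_one this
  -- transformation of the coordinates
  have hlσ : ∀ σ ∈ G', ∀ j, σ (l j) = σ (ψ x) / ψ (act σ x) * l j := by
    intro σ hσ
    have h1 : (fun j => l j - ψ (act σ x) / σ (ψ x) * σ (l j)) = 0 := by
      apply hindep
      intro y
      obtain ⟨y', hy'⟩ := hsurj σ hσ y
      have h2 : ψ y.1 = ψ (act σ x) / σ (ψ x) * σ (ψ y'.1) := by
        have e1 : y'.1 = x + (y'.1 - x) := by abel
        have e2 : y.1 = act σ x + act σ (y'.1 - x) := by rw [hactsub, hy']; abel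
        rw [e2, ψ.map_add_eq_mul, hψ σ hσ _ y'.2]
        conv_rhs => rw [e1, ψ.map_add_eq_mul, map_mul]
        field_simp [(map_ne_zero σ).mpr (hψ0 x)]
      rw [hl y, hl y', map_sum, Finset.mul_sum] at h2
      simp only [sub_mul, Finset.sum_sub_distrib]
      rw [h2, sub_eq_zero]
      refine Finset.sum_congr rfl fun j _ => ?_
      rw [map_mul, ← hbeq σ hσ y y' hy' j]
      ring
    intro j
    have h2 := congrFun h1 j
    simp only [Pi.zero_apply, sub_eq_zero] at h2
    have hne := hψ0 (act σ x)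
    have hne' : σ (ψ x) ≠ 0 := (map_ne_zero σ).mpr (hψ0 x)
    conv_rhs => rw [h2]
    field_simp
  -- the maximal coordinate
  have hne : ∃ j, l j ≠ 0 := by
    by_contra hcon
    push Not at hcon
    have h1 := hl x₀
    simp only [hcon, zero_mul, Finset.sum_const_zero] at h1
    exact hψ0 x h1
  obtain ⟨j₁, hj₁⟩ := hne
  obtain ⟨j₀, -, hj₀⟩ := Finset.exists_max_image Finset.univ (fun j => nm p (l j))
    ⟨j₁, Finset.mem_univ j₁⟩
  have hlj : l j₀ ≠ 0 := by
    intro h0
    have h1 := hj₀ j₁ (Finset.mem_univ j₁)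
    rw [h0, nm_zero] at h1
    exact hj₁ (nm_eq_zero.mp (le_antisymm h1 (nm_nonneg _)))
  have hljpos : 0 < nm p (l j₀) := nm_pos.mpr hlj
  -- the normalised coordinates
  have hfix : ∀ j, ∀ σ ∈ G', σ (l j / l j₀) = l j / l j₀ := by
    intro j σ hσ
    have hne := hψ0 (act σ x)
    have hne' : σ (ψ x) ≠ 0 := (map_ne_zero σ).mpr (hψ0 x)
    rw [map_div₀, hlσ σ hσ, hlσ σ hσ, mul_div_mul_left]
    exact div_ne_zero hne' hne
  have hle : ∀ j, nm p (l j / l j₀) ≤ 1 := by
    intro j
    rw [nm_div]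
    exact div_le_one_of_le₀ (hj₀ j (Finset.mem_univ j)) (nm_nonneg _)
  have hsum : ∑ i, (∑ j, l j / l j₀ * (mb j i : FQb)) * e i x = ψ x / l j₀ := by
    have h1 := hl x₀
    rw [show (x₀ : X).1 = x from rfl] at h1
    rw [h1, Finset.sum_div]
    simp only [hmb', Finset.mul_sum, Finset.sum_mul, Finset.sum_div]
    rw [Finset.sum_comm]
    refine Finset.sum_congr rfl fun j _ => Finset.sum_congr rfl fun i _ => ?_
    show _ = l j * ((mb j i : FQb) * e i x) / l j₀
    ring
  refine ⟨fun i => ∑ j, l j / l j₀ * (mb j i : FQb), ?_, ?_, ?_, ?_⟩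
  · intro i σ hσ
    rw [map_sum]
    refine Finset.sum_congr rfl fun j _ => ?_
    rw [map_mul, hfix j σ hσ, (mb j i).2.1 σ hσ]
  · intro i
    exact nm_sum_le _ _ zero_le_one fun j _ => nm_mul_le_one (hle j) (mb j i).2.2
  · apply le_antisymm
    · refine nm_sum_le _ _ zero_le_one fun i _ => nm_mul_le_one ?_ (h.nm_le i x)
      exact nm_sum_le _ _ zero_le_one fun j _ => nm_mul_le_one (hle j) (mb j i).2.2
    · rw [hsum, nm_div, nm_addChar hpW ψ x]
      exact (one_le_div hljpos).mpr (hl1 j₀)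
  · intro σ hσ
    rw [hsum, map_div₀, hlσ σ hσ]
    have hne := hψ0 (act σ x)
    have hne' : σ (ψ x) ≠ 0 := (map_ne_zero σ).mpr (hψ0 x)
    have e1 : ψ (act σ x) = ψ (act σ x - x) * ψ x := by
      rw [← ψ.map_add_eq_mul, sub_add_cancel]
    have hne2 := hψ0 (act σ x - x)
    have hne3 := hψ0 x
    rw [e1]
    field_simp

end Fermat.Agent.H64
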