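import Mathlib
import Fermat.Prelude.Def_GaloisRep_CompletionBridge

set_option autoImplicit false

open scoped NNReal IntermediateField Topology Pointwise

namespace Fermat.Agent.H54

local instance isAlgebraicQbar_pg : Algebra.IsAlgebraic ℚ (AlgebraicClosure ℚ) :=
  AlgebraicClosure.isAlgebraic ℚ
local instance isAlgClosureQbar_pg : IsAlgClosure ℚ (AlgebraicClosure ℚ) :=
  ⟨inferInstance, inferInstance⟩
local instance normalQbar_pg : Normal ℚ (AlgebraicClosure ℚ) :=
  IsAlgClosure.normal ℚ (AlgebraicClosure ℚ)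
local instance galQbar_pg : IsGalois ℚ (AlgebraicClosure ℚ) := ⟨⟩

section Emb

variable (q : ℕ) [Fact q.Prime]

theorem norm_prime_padicAlgCl : ‖(q : PadicAlgCl q)‖ = (q : ℝ)⁻¹ := by
  rw [← map_natCast (algebraMap ℚ_[q] (PadicAlgCl q)), PadicAlgCl.norm_extends, Padic.norm_p]

theorem one_lt_prime_real : (1 : ℝ) < q := by exact_mod_cast (Fact.out : q.Prime).one_lt

theorem norm_prime_lt_one : ‖(q : PadicAlgCl q)‖ < 1 := by
  rw [norm_prime_padicAlgCl]
  exact inv_lt_one_of_one_lt₀ (one_lt_prime_real q)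

theorem norm_prime_pos : 0 < ‖(q : PadicAlgCl q)‖ := by
  rw [norm_prime_padicAlgCl]
  have := one_lt_prime_real q
  positivity

variable {q} {K : Type*} [Field K]

/-- two embeddings in `PadicAlgCl q` inducing the same maximal ideal induce the same norm -/
theorem norm_eq_of_norm_lt_one_imp (j j' : K →+* PadicAlgCl q)
    (h : ∀ x, ‖j x‖ < 1 → ‖j' x‖ < 1) (x : K) : ‖j x‖ = ‖j' x‖ := by
  let v : AbsoluteValue K ℝ := (NormedField.toAbsoluteValue (PadicAlgCl q)).comp j.injective
  let w : AbsoluteValue K ℝ := (NormedField.toAbsoluteValue (PadicAlgCl q)).comp j'.injective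
  have hv : ∀ x, v x = ‖j x‖ := fun _ => rfl
  have hw : ∀ x, w x = ‖j' x‖ := fun _ => rfl
  have hvq : v q = (q : ℝ)⁻¹ := by rw [hv, map_natCast, norm_prime_padicAlgCl]
  have hwq : w q = (q : ℝ)⁻¹ := by rw [hw, map_natCast, norm_prime_padicAlgCl]
  have h1 := one_lt_prime_real q
  have hq0 : (0 : ℝ) < (q : ℝ)⁻¹ := by positivity
  have hq1 : (q : ℝ)⁻¹ < 1 := inv_lt_one_of_one_lt₀ h1
  have hnt : v.IsNontrivial := by
    refine ⟨(q : K), ?_, ?_⟩
    · intro h0
      rw [h0, map_zero] at hvq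
      exact hq0.ne hvq
    · rw [hvq]
      exact hq1.ne
  have hequiv : v.IsEquiv w := AbsoluteValue.isEquiv_of_lt_one_imp hnt h
  obtain ⟨c, hc, hcw⟩ := AbsoluteValue.isEquiv_iff_exists_rpow_eq.mp hequiv
  have h2 : v (q : K) ^ c = w (q : K) := congrFun hcw (q : K)
  rw [hvq, hwq] at h2
  have hc1 : c = 1 := by
    have := (Real.rpow_right_inj hq0 hq1.ne (y := c) (z := 1)).mp (by rw [h2, Real.rpow_one])
    exact this
  have h3 : v x ^ c = w x := congrFun hcw x
  rw [hc1, Real.rpow_one] at h3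
  exact h3

/-- the norm of a `ℚ_q`-combination only depends on the norm on `K` -/
theorem norm_sum_eq {j j' : K →+* PadicAlgCl q} (h : ∀ x, ‖j x‖ = ‖j' x‖) {ι : Type*} [Fintype ι]
    (x : ι → K) (c : ι → ℚ_[q]) :
    ‖∑ i, algebraMap ℚ_[q] (PadicAlgCl q) (c i) * j (x i)‖ =
      ‖∑ i, algebraMap ℚ_[q] (PadicAlgCl q) (c i) * j' (x i)‖ := by
  have hd : DenseRange (Pi.map (fun (_ : ι) (r : ℚ) => (r : ℚ_[q]))) :=
    DenseRange.piMap (fun _ => Padic.denseRange_ratCast q)
  have hc : ∀ j : K →+* PadicAlgCl q, Continuous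
      (fun c : ι → ℚ_[q] => ‖∑ i, algebraMap ℚ_[q] (PadicAlgCl q) (c i) * j (x i)‖) := by
    intro j
    refine continuous_norm.comp (continuous_finsetSum _ fun i _ => ?_)
    exact ((algebraMap_isometry ℚ_[q] (PadicAlgCl q)).continuous.comp
      (continuous_apply i)).mul continuous_const
  refine congrFun (hd.equalizer (hc j) (hc j') ?_) c
  funext r
  simp only [Function.comp_apply, Pi.map_apply]
  have e : ∀ j : K →+* PadicAlgCl q,
      ∑ i, algebraMap ℚ_[q] (PadicAlgCl q) ((r i : ℚ_[q])) * j (x i) = j (∑ i, (r i : K) * x i) := by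
    intro j
    rw [map_sum]
    refine Finset.sum_congr rfl fun i _ => ?_
    rw [map_mul, map_ratCast, map_ratCast]
  rw [e, e, h]

/-- two embeddings `K → PadicAlgCl q` with the same norm are conjugate under the Galois group of
`ℚ_q`. -/
theorem exists_algEquiv_of_norm_eq {j j' : K →+* PadicAlgCl q} (h : ∀ x, ‖j x‖ = ‖j' x‖) :
    ∃ τ : PadicAlgCl q ≃ₐ[ℚ_[q]] PadicAlgCl q, ∀ x, j' x = τ (j x) := by
  let Φ : MvPolynomial K ℚ_[q] →ₐ[ℚ_[q]] PadicAlgCl q := MvPolynomial.aeval (fun x => j x)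
  let Φ' : MvPolynomial K ℚ_[q] →ₐ[ℚ_[q]] PadicAlgCl q := MvPolynomial.aeval (fun x => j' x)
  have hnorm : ∀ P, ‖Φ P‖ = ‖Φ' P‖ := by
    intro P
    have e : ∀ j : K →+* PadicAlgCl q, MvPolynomial.aeval (fun x => j x) P =
        ∑ i : P.support, algebraMap ℚ_[q] (PadicAlgCl q) (P.coeff i) *
          j (∏ x ∈ (i : K →₀ ℕ).support, x ^ (i : K →₀ ℕ) x) := by
      intro j
      rw [MvPolynomial.aeval_def, MvPolynomial.eval₂_eq, Finset.sum_coe_sort P.support
        (fun i => algebraMap ℚ_[q] (PadicAlgCl q) (P.coeff i) *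
          j (∏ x ∈ (i : K →₀ ℕ).support, x ^ (i : K →₀ ℕ) x))]
      refine Finset.sum_congr rfl fun i _ => ?_
      rw [map_prod]
      simp only [map_pow]
    show ‖MvPolynomial.aeval (fun x => j x) P‖ = ‖MvPolynomial.aeval (fun x => j' x) P‖
    rw [e, e]
    exact norm_sum_eq h _ _
  have hker : ∀ P, Φ P = 0 → Φ' P = 0 := by
    intro P hP
    rw [← norm_eq_zero, ← hnorm, hP, norm_zero]
  let A : Subalgebra ℚ_[q] (PadicAlgCl q) := Φ.range
  let E : IntermediateField ℚ_[q] (PadicAlgCl q) :=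
    A.toIntermediateField' (Subalgebra.isField_of_algebraic A)
  let f : MvPolynomial K ℚ_[q] →ₐ[ℚ_[q]] E := Φ.rangeRestrict
  have hf : Function.Surjective f := Φ.rangeRestrict_surjective
  let g : E →ₐ[ℚ_[q]] PadicAlgCl q := AlgHom.liftOfSurjective f hf Φ' (fun P hP => hker P (by
    have h1 : f P = 0 := hP
    exact congrArg Subtype.val h1))
  have hg : ∀ P, g (f P) = Φ' P := AlgHom.liftOfSurjective_apply f hf Φ' _
  let τ : PadicAlgCl q →ₐ[ℚ_[q]] PadicAlgCl q := g.liftNormal (PadicAlgCl q)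
  have hτ : ∀ x : E, τ x = g x := fun x => g.liftNormal_commutes (PadicAlgCl q) x
  refine ⟨(Algebra.IsAlgebraic.algEquivEquivAlgHom ℚ_[q] (PadicAlgCl q)).symm τ, fun x => ?_⟩
  show j' x = τ (j x)
  have h1 : ((f (MvPolynomial.X x) : E) : PadicAlgCl q) = j x := by
    show Φ (MvPolynomial.X x) = j x
    exact MvPolynomial.aeval_X _ _
  rw [← h1, hτ, hg]
  exact (MvPolynomial.aeval_X _ _).symm

/-- The embeddings `K → PadicAlgCl q` inducing the same place are conjugate under the Galois
group. -/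
theorem exists_algEquiv_of_norm_lt_one_imp {j j' : K →+* PadicAlgCl q}
    (h : ∀ x, ‖j x‖ < 1 → ‖j' x‖ < 1) :
    ∃ τ : PadicAlgCl q ≃ₐ[ℚ_[q]] PadicAlgCl q, ∀ x, j' x = τ (j x) :=
  exists_algEquiv_of_norm_eq (norm_eq_of_norm_lt_one_imp j j' h)

theorem norm_padicAlgCl_algEquiv (τ : PadicAlgCl q ≃ₐ[ℚ_[q]] PadicAlgCl q)
    (y : PadicAlgCl q) : ‖τ y‖ = ‖y‖ :=
  congrArg NNReal.toReal (nnnorm_padicAlgCl_algEquiv q τ y)

end Emb

section Krasner

open Polynomial

variable (q : ℕ) [Fact q.Prime]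

/-- every element of `PadicAlgCl q` can be approximated by `b = ι(α)` with `ℚ_q(b) = ℚ_q(y)` -/
theorem exists_padicEmbedding_near (y : PadicAlgCl q) {η : ℝ} (hη : 0 < η) :
    ∃ α : AlgebraicClosure ℚ, ‖y - padicEmbedding q α‖ < η ∧
      ℚ_[q]⟮y⟯ = ℚ_[q]⟮padicEmbedding q α⟯ := by
  have hint : IsIntegral ℚ_[q] y := Algebra.IsIntegral.isIntegral y
  set f := minpoly ℚ_[q] y with hf
  have fmon : f.Monic := minpoly.monic hint
  have fdeg : 0 < f.natDegree := minpoly.natDegree_pos hint
  have fa0 : f.aeval y = 0 := minpoly.aeval _ _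
  -- the distance to the other conjugates
  obtain ⟨δ, δpos, hδη, hδ⟩ : ∃ δ > 0, δ ≤ η ∧
      ∀ a', IsConjRoot ℚ_[q] y a' → y ≠ a' → δ ≤ ‖y - a'‖ := by
    classical
    let S : Finset (PadicAlgCl q) := {x ∈ (f.rootSet (PadicAlgCl q)).toFinset | x ≠ y}
    have hmem : ∀ a', IsConjRoot ℚ_[q] y a' → y ≠ a' → a' ∈ S := by
      intro a' h1 h2
      simp only [S, Finset.mem_filter, Set.mem_toFinset]
      exact ⟨(isConjRoot_iff_mem_minpoly_rootSet hint).mp h1, h2.symm⟩
    by_cases hS : S.Nonempty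
    · refine ⟨min η (Finset.min' (S.image fun x => ‖y - x‖) (Finset.image_nonempty.mpr hS)), ?_,
        min_le_left _ _, ?_⟩
      · refine lt_min hη ?_
        simp only [Finset.lt_min'_iff, Finset.mem_image, forall_exists_index, and_imp,
          forall_apply_eq_imp_iff₂]
        intro a' ha'
        simp only [S, Finset.mem_filter] at ha'
        rw [norm_pos_iff, sub_ne_zero]
        exact ha'.2.symm
      · intro a' h1 h2
        exact (min_le_right _ _).trans
          (Finset.min'_le _ _ (Finset.mem_image_of_mem _ (hmem a' h1 h2)))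
    · refine ⟨η, hη, le_rfl, fun a' h1 h2 => ?_⟩
      exact absurd ⟨a', hmem a' h1 h2⟩ hS
  have hε : (δ / (max ‖y‖ 1)) ^ f.natDegree / (f.natDegree + 1) > 0 := by positivity
  obtain ⟨g, gmon, gdeg, gcoeff⟩ :=
    exists_monic_and_natDegree_eq_and_norm_map_algebraMap_coeff_sub_lt
      (K := ℚ) (L := ℚ_[q]) (by
        have := Padic.denseRange_ratCast q
        convert this
        exact funext fun r => eq_ratCast _ r) fmon hε
  obtain ⟨b, hb, hab⟩ := exists_aroots_norm_sub_lt_of_norm_coeff_sub_lt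
    hε fa0 fmon (gmon.map (algebraMap ℚ ℚ_[q])) (by rw [Polynomial.natDegree_map]; exact gdeg.symm)
      gcoeff (IsAlgClosed.splits _)
  have hab : ‖y - b‖ < δ := by
    rw [← Real.rpow_natCast, ← mul_comm_div, div_self, one_mul,
        ← Real.rpow_mul (div_pos δpos (by positivity)).le, mul_inv_cancel₀] at hab
    · simpa [mul_assoc, div_mul_cancel₀ _ (by positivity : (max ‖y‖ 1) > 0).ne'] using hab
    · have : (f.natDegree : ℝ) ≠ 0 := by exact_mod_cast fdeg.ne'
      simpa using this
    · positivity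
  have hb' : (g.map (algebraMap ℚ ℚ_[q])).aeval b = 0 := (mem_aroots.mp hb).2
  -- `b` is algebraic over `ℚ`
  obtain ⟨α, hα⟩ : ∃ α : AlgebraicClosure ℚ, padicEmbedding q α = b := by
    have h1 : g.map (algebraMap ℚ (PadicAlgCl q)) =
        (g.map (algebraMap ℚ (AlgebraicClosure ℚ))).map (padicEmbedding q).toRingHom := by
      rw [Polynomial.map_map]
      congr 1
      exact Subsingleton.elim _ _
    have h2 : (g.map (algebraMap ℚ (AlgebraicClosure ℚ))).Splits := IsAlgClosed.splits _
    have h3 : b ∈ (g.map (algebraMap ℚ (PadicAlgCl q))).roots := by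
      rw [mem_roots (gmon.map _).ne_zero, IsRoot.def]
      rw [aeval_map_algebraMap, aeval_def] at hb'
      rwa [eval_map]
    rw [h1, h2.roots_map, Multiset.mem_map] at h3
    obtain ⟨α, -, hα⟩ := h3
    exact ⟨α, hα⟩
  refine ⟨α, ?_, ?_⟩
  · rw [hα]; exact hab.trans_le hδη
  · rw [hα]
    have hbint : IsIntegral ℚ_[q] b := Algebra.IsIntegral.isIntegral b
    have hyb : y ∈ ℚ_[q]⟮b⟯ :=
      IsKrasner.krasner (minpoly.irreducible hint).separable
        (IsAlgClosed.splits _) hbint fun a' h1 h2 ↦ lt_of_lt_of_le hab (hδ a' h1 h2)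
    have := IntermediateField.adjoin.finiteDimensional hbint
    have := IntermediateField.adjoin.finiteDimensional hint
    apply IntermediateField.eq_of_le_of_finrank_le
    · rw [IntermediateField.adjoin_simple_le_iff]
      exact hyb
    · rw [IntermediateField.adjoin.finrank hbint, IntermediateField.adjoin.finrank hint, ← hf,
        gdeg, ← Polynomial.natDegree_map (algebraMap ℚ ℚ_[q])]
      exact Polynomial.natDegree_le_of_dvd (minpoly.dvd _ _ hb') (gmon.map _).ne_zero

/-- **Krasner**: every finite extension of `ℚ_q` is generated by an algebraic number. -/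
theorem exists_adjoin_padicEmbedding_eq (E : IntermediateField ℚ_[q] (PadicAlgCl q))
    [FiniteDimensional ℚ_[q] E] :
    ∃ α : AlgebraicClosure ℚ, E = ℚ_[q]⟮padicEmbedding q α⟯ := by
  obtain ⟨y, hy⟩ := Field.exists_primitive_element ℚ_[q] E
  obtain ⟨α, -, hα⟩ := exists_padicEmbedding_near q (y : PadicAlgCl q) one_pos
  refine ⟨α, ?_⟩
  rw [← hα, ← IntermediateField.lift_adjoin_simple, hy, IntermediateField.lift_top]

end Krasner

section Galois

variable (q : ℕ) [Fact q.Prime]

theorem padicEmbedding_injective : Function.Injective (padicEmbedding q) :=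
  (padicEmbedding q : AlgebraicClosure ℚ →+* PadicAlgCl q).injective

/-- The embedding `ι ∘ σ` of `ℚ̄` in `PadicAlgCl q`. -/
noncomputable def embComp (σ : AlgebraicClosure ℚ ≃ₐ[ℚ] AlgebraicClosure ℚ) :
    AlgebraicClosure ℚ →+* PadicAlgCl q :=
  (padicEmbedding q : AlgebraicClosure ℚ →+* PadicAlgCl q).comp
    (σ : AlgebraicClosure ℚ →+* AlgebraicClosure ℚ)

@[simp] theorem embComp_apply (σ : AlgebraicClosure ℚ ≃ₐ[ℚ] AlgebraicClosure ℚ)
    (x : AlgebraicClosure ℚ) : embComp q σ x = padicEmbedding q (σ x) := rfl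

/-- Automorphisms of `PadicAlgCl q` are determined by their restriction to `ℚ̄`. -/
theorem localGaloisToGlobal_injective : Function.Injective (localGaloisToGlobal q) := by
  intro τ τ' h
  have h1 : ∀ α : AlgebraicClosure ℚ, τ (padicEmbedding q α) = τ' (padicEmbedding q α) := by
    intro α
    rw [← padicEmbedding_localGaloisToGlobal, h, padicEmbedding_localGaloisToGlobal]
  apply AlgEquiv.ext
  intro y
  obtain ⟨α, -, hα⟩ := exists_padicEmbedding_near q y one_pos
  have hy : y ∈ ℚ_[q]⟮padicEmbedding q α⟯ := by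
    rw [← hα]
    exact IntermediateField.mem_adjoin_simple_self _ _
  have h2 : ℚ_[q]⟮padicEmbedding q α⟯ ≤ IntermediateField.fixedField
      (Subgroup.zpowers (τ'⁻¹ * τ)) := by
    rw [IntermediateField.adjoin_simple_le_iff, IntermediateField.mem_fixedField_iff]
    intro σ hσ
    obtain ⟨n, rfl⟩ := Subgroup.mem_zpowers_iff.mp hσ
    have h3 : (τ'⁻¹ * τ) (padicEmbedding q α) = padicEmbedding q α := by
      rw [AlgEquiv.mul_apply, h1, AlgEquiv.aut_inv, AlgEquiv.symm_apply_apply]
    have h4 : (τ'⁻¹ * τ) ∈ MulAction.stabilizer (PadicAlgCl q ≃ₐ[ℚ_[q]] PadicAlgCl q)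
      (padicEmbedding q α) := h3
    exact Subgroup.zpow_mem _ h4 n
  have h5 := (IntermediateField.mem_fixedField_iff _ _).mp (h2 hy) _
    (Subgroup.mem_zpowers (τ'⁻¹ * τ))
  rw [AlgEquiv.mul_apply, AlgEquiv.aut_inv, AlgEquiv.symm_apply_eq] at h5
  exact h5

theorem mem_range_localGaloisToGlobal_iff (σ : AlgebraicClosure ℚ ≃ₐ[ℚ] AlgebraicClosure ℚ) :
    σ ∈ (localGaloisToGlobal q).range ↔
      ∀ x, ‖padicEmbedding q x‖ < 1 → ‖padicEmbedding q (σ x)‖ < 1 := by
  constructor
  · rintro ⟨τ, rfl⟩ x hx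
    rwa [padicEmbedding_localGaloisToGlobal, norm_padicAlgCl_algEquiv]
  · intro h
    obtain ⟨τ, hτ⟩ := exists_algEquiv_of_norm_lt_one_imp
      (j := embComp q 1) (j' := embComp q σ) (by
        intro x hx
        rw [embComp_apply] at hx ⊢
        exact h x hx)
    refine ⟨τ, AlgEquiv.ext fun x => padicEmbedding_injective q ?_⟩
    have h2 := hτ x
    rw [embComp_apply, embComp_apply] at h2
    rw [padicEmbedding_localGaloisToGlobal, h2]
    rfl

/-- The image of the local Galois group is the decomposition group. -/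
theorem range_localGaloisToGlobal :
    (localGaloisToGlobal q).range = (padicPlace q).decompositionSubgroup ℚ := by
  apply le_antisymm
  · rintro _ ⟨τ, rfl⟩
    exact localGaloisToGlobal_mem_decompositionSubgroup q τ
  · intro σ hσ
    have hmem : ∀ x, σ x ∈ padicPlace q ↔ x ∈ padicPlace q := by
      intro x
      have h1 : σ • (padicPlace q) = padicPlace q := hσ
      conv_lhs => rw [← h1]
      rw [ValuationSubring.mem_pointwise_smul_iff_inv_smul_mem, AlgEquiv.smul_def,
        AlgEquiv.aut_inv, AlgEquiv.symm_apply_apply]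
    have hle : ∀ x, ‖padicEmbedding q (σ x)‖ ≤ 1 ↔ ‖padicEmbedding q x‖ ≤ 1 := by
      intro x
      exact hmem x
    rw [mem_range_localGaloisToGlobal_iff]
    intro x hx
    by_contra hcon
    have hx0 : x ≠ 0 := by
      rintro rfl
      apply hcon
      simp
    have h2 : ‖padicEmbedding q (σ x)‖ ≥ 1 := not_lt.mp hcon
    have h3 : ‖padicEmbedding q (σ x⁻¹)‖ ≤ 1 := by
      rw [map_inv₀, map_inv₀, norm_inv]
      exact inv_le_one_of_one_le₀ h2
    rw [hle, map_inv₀, norm_inv] at h3
    have h4 : 0 < ‖padicEmbedding q x‖ := by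
      rw [norm_pos_iff]
      exact (map_ne_zero _).mpr hx0
    have h6 := (one_lt_inv_iff₀).mpr ⟨h4, hx⟩
    linarith

/-- The compositum `ℚ_q(ι F)` inside `PadicAlgCl q`. -/
noncomputable def locField (F : IntermediateField ℚ (AlgebraicClosure ℚ)) :
    IntermediateField ℚ_[q] (PadicAlgCl q) :=
  IntermediateField.adjoin ℚ_[q] (padicEmbedding q '' F)

theorem padicEmbedding_mem_locField {F : IntermediateField ℚ (AlgebraicClosure ℚ)}
    {x : AlgebraicClosure ℚ} (hx : x ∈ F) : padicEmbedding q x ∈ locField q F :=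
  IntermediateField.subset_adjoin _ _ ⟨x, hx, rfl⟩

theorem mem_fixingSubgroup_locField_iff (F : IntermediateField ℚ (AlgebraicClosure ℚ))
    (τ : PadicAlgCl q ≃ₐ[ℚ_[q]] PadicAlgCl q) :
    τ ∈ (locField q F).fixingSubgroup ↔ localGaloisToGlobal q τ ∈ F.fixingSubgroup := by
  rw [IntermediateField.mem_fixingSubgroup_iff, IntermediateField.mem_fixingSubgroup_iff]
  constructor
  · intro h x hx
    apply padicEmbedding_injective q
    rw [padicEmbedding_localGaloisToGlobal]
    exact h _ (padicEmbedding_mem_locField q hx)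
  · intro h
    have h1 : locField q F ≤ IntermediateField.fixedField (Subgroup.zpowers τ) := by
      refine IntermediateField.adjoin_le_iff.mpr ?_
      rintro _ ⟨x, hx, rfl⟩
      rw [SetLike.mem_coe, IntermediateField.mem_fixedField_iff]
      intro σ hσ
      obtain ⟨n, rfl⟩ := Subgroup.mem_zpowers_iff.mp hσ
      have h4 : τ ∈ MulAction.stabilizer (PadicAlgCl q ≃ₐ[ℚ_[q]] PadicAlgCl q)
          (padicEmbedding q x) := by
        show τ (padicEmbedding q x) = padicEmbedding q x
        rw [← padicEmbedding_localGaloisToGlobal, h x hx]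
      exact Subgroup.zpow_mem _ h4 n
    intro y hy
    exact (IntermediateField.mem_fixedField_iff _ _).mp (h1 hy) _ (Subgroup.mem_zpowers τ)

/-- the preimage of `Gal(ℚ̄/F)` in the local Galois group is `Gal(PadicAlgCl q / ℚ_q(ι F))` -/
theorem comap_fixingSubgroup (F : IntermediateField ℚ (AlgebraicClosure ℚ)) :
    F.fixingSubgroup.comap (localGaloisToGlobal q) = (locField q F).fixingSubgroup := by
  ext τ
  rw [mem_fixingSubgroup_locField_iff, Subgroup.mem_comap]

theorem locField_adjoin (s : Set (AlgebraicClosure ℚ)) :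
    locField q (IntermediateField.adjoin ℚ s) =
      IntermediateField.adjoin ℚ_[q] (padicEmbedding q '' s) := by
  apply le_antisymm
  · refine IntermediateField.adjoin_le_iff.mpr ?_
    rintro _ ⟨x, hx, rfl⟩
    rw [SetLike.mem_coe]
    let E : IntermediateField ℚ (AlgebraicClosure ℚ) :=
      ((IntermediateField.adjoin ℚ_[q] (padicEmbedding q '' s)).restrictScalars ℚ).comap
        (padicEmbedding q)
    have h1 : IntermediateField.adjoin ℚ s ≤ E := by
      refine IntermediateField.adjoin_le_iff.mpr fun y hy => ?_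
      show padicEmbedding q y ∈ IntermediateField.adjoin ℚ_[q] (padicEmbedding q '' s)
      exact IntermediateField.subset_adjoin _ _ ⟨y, hy, rfl⟩
    exact h1 hx
  · apply IntermediateField.adjoin.mono
    exact Set.image_mono (IntermediateField.subset_adjoin ℚ s)

theorem exists_finite_adjoin_eq {k L : Type*} [Field k] [Field L] [Algebra k L]
    (F : IntermediateField k L) [FiniteDimensional k F] :
    ∃ t : Set L, t.Finite ∧ IntermediateField.adjoin k t = F := by
  rw [← IntermediateField.fg_def]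
  apply IntermediateField.fg_of_fg_toSubalgebra
  apply Subalgebra.fg_of_fg_toSubmodule
  exact Module.Finite.iff_fg.mp (inferInstanceAs (Module.Finite k F))

instance finiteDimensional_locField (F : IntermediateField ℚ (AlgebraicClosure ℚ))
    [FiniteDimensional ℚ F] : FiniteDimensional ℚ_[q] (locField q F) := by
  obtain ⟨t, ht, h1⟩ := exists_finite_adjoin_eq F
  rw [← h1, locField_adjoin]
  have : Finite ↑(padicEmbedding q '' t) := (ht.image _).to_subtype
  exact IntermediateField.finiteDimensional_adjoin (fun x _ => Algebra.IsIntegral.isIntegral _)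

/-- every finite extension of `ℚ_q` is the completion of a number field -/
theorem exists_locField_eq (E : IntermediateField ℚ_[q] (PadicAlgCl q))
    [FiniteDimensional ℚ_[q] E] :
    ∃ F : IntermediateField ℚ (AlgebraicClosure ℚ), FiniteDimensional ℚ F ∧
      locField q F = E := by
  obtain ⟨α, hα⟩ := exists_adjoin_padicEmbedding_eq q E
  refine ⟨ℚ⟮α⟯, IntermediateField.adjoin.finiteDimensional (Algebra.IsIntegral.isIntegral _), ?_⟩
  rw [locField_adjoin, Set.image_singleton, hα]

end Galois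

end Fermat.Agent.H54
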