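import Mathlib
import Fermat.Agent.H54PadicGal
import Fermat.Agent.H54Frobenius
import Fermat.Agent.H82CftDefs

set_option autoImplicit false

open scoped NNReal IntermediateField Topology Pointwise
open IsDedekindDomain NumberField WithZero

namespace Fermat.Agent.H54

local instance isAlgebraicQbar_pl : Algebra.IsAlgebraic ℚ (AlgebraicClosure ℚ) :=
  AlgebraicClosure.isAlgebraic ℚ
local instance isAlgClosureQbar_pl : IsAlgClosure ℚ (AlgebraicClosure ℚ) :=
  ⟨inferInstance, inferInstance⟩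
local instance normalQbar_pl : Normal ℚ (AlgebraicClosure ℚ) :=
  IsAlgClosure.normal ℚ (AlgebraicClosure ℚ)
local instance galQbar_pl : IsGalois ℚ (AlgebraicClosure ℚ) := ⟨⟩

section Place

variable {q : ℕ} [Fact q.Prime] {K : Type*} [Field K]

theorem norm_le_one_of_isIntegral {y : PadicAlgCl q} (hy : IsIntegral ℤ y) : ‖y‖ ≤ 1 := by
  have hy' : IsIntegral (padicIntegers q) y := hy.tower_top
  obtain ⟨z, hz⟩ := IsIntegrallyClosed.isIntegral_iff.mp hy'
  rw [← hz]
  exact (mem_padicIntegers_iff q).mp z.2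

theorem norm_integer_le_one (j : K →+* PadicAlgCl q) (x : 𝓞 K) :
    ‖j (algebraMap (𝓞 K) K x)‖ ≤ 1 := by
  apply norm_le_one_of_isIntegral
  have h1 : IsIntegral ℤ (algebraMap (𝓞 K) K x) := x.2
  exact h1.map (j : K →+* PadicAlgCl q).toIntAlgHom

theorem norm_add_lt {x y : PadicAlgCl q} {ε : ℝ} (hx : ‖x‖ < ε) (hy : ‖y‖ < ε) : ‖x + y‖ < ε :=
  (IsUltrametricDist.norm_add_le_max x y).trans_lt (max_lt hx hy)

theorem norm_add_le' {x y : PadicAlgCl q} {ε : ℝ} (hx : ‖x‖ ≤ ε) (hy : ‖y‖ ≤ ε) : ‖x + y‖ ≤ ε :=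
  (IsUltrametricDist.norm_add_le_max x y).trans (max_le hx hy)

/-- the prime ideal of `𝓞 K` defined by an embedding in `PadicAlgCl q`. -/
def placeIdeal (j : K →+* PadicAlgCl q) : Ideal (𝓞 K) where
  carrier := {x | ‖j (algebraMap (𝓞 K) K x)‖ < 1}
  add_mem' {x y} hx hy := by
    rw [Set.mem_ofPred_eq] at hx hy ⊢
    rw [map_add, map_add]
    exact norm_add_lt hx hy
  zero_mem' := by simp
  smul_mem' c x hx := by
    rw [Set.mem_ofPred_eq] at hx ⊢
    rw [smul_eq_mul, map_mul, map_mul, norm_mul]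
    exact (mul_le_of_le_one_left (norm_nonneg _) (norm_integer_le_one j c)).trans_lt hx

theorem mem_placeIdeal {j : K →+* PadicAlgCl q} {x : 𝓞 K} :
    x ∈ placeIdeal j ↔ ‖j (algebraMap (𝓞 K) K x)‖ < 1 := Iff.rfl

theorem placeIdeal_isPrime (j : K →+* PadicAlgCl q) : (placeIdeal j).IsPrime := by
  refine Ideal.isPrime_iff.mpr ⟨?_, ?_⟩
  · rw [Ideal.ne_top_iff_one, mem_placeIdeal]
    simp
  · intro x y hxy
    rw [mem_placeIdeal] at hxy ⊢
    rw [mem_placeIdeal]
    by_contra hcon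
    rw [not_or, not_lt, not_lt] at hcon
    obtain ⟨h1, h2⟩ := hcon
    rw [map_mul, map_mul, norm_mul] at hxy
    exact absurd hxy (not_lt.mpr (one_le_mul_of_one_le_of_one_le h1 h2))

theorem prime_mem_placeIdeal (j : K →+* PadicAlgCl q) : (q : 𝓞 K) ∈ placeIdeal j := by
  rw [mem_placeIdeal, map_natCast, map_natCast]
  exact norm_prime_lt_one q

variable [NumberField K]

/-- the place of `K` defined by an embedding in `PadicAlgCl q`. -/
def placeOf (j : K →+* PadicAlgCl q) : HeightOneSpectrum (𝓞 K) where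
  asIdeal := placeIdeal j
  isPrime := placeIdeal_isPrime j
  ne_bot := by
    intro h
    have h1 := prime_mem_placeIdeal j
    rw [h, Ideal.mem_bot] at h1
    have h2 : (q : 𝓞 K) ≠ 0 := by
      exact_mod_cast (Fact.out : q.Prime).ne_zero
    exact h2 h1

theorem mem_placeOf {j : K →+* PadicAlgCl q} {x : 𝓞 K} :
    x ∈ (placeOf j).asIdeal ↔ ‖j (algebraMap (𝓞 K) K x)‖ < 1 := Iff.rfl

theorem prime_mem_placeOf (j : K →+* PadicAlgCl q) : (q : 𝓞 K) ∈ (placeOf j).asIdeal :=
  prime_mem_placeIdeal j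

theorem norm_eq_one_of_notMem {j : K →+* PadicAlgCl q} {x : 𝓞 K} (h : x ∉ (placeOf j).asIdeal) :
    ‖j (algebraMap (𝓞 K) K x)‖ = 1 :=
  le_antisymm (norm_integer_le_one j x) (not_lt.mp h)

theorem norm_le_one_of_valuation_le_one (j : K →+* PadicAlgCl q) {x : K}
    (h : (placeOf j).valuation K x ≤ 1) : ‖j x‖ ≤ 1 := by
  obtain ⟨n, ⟨d, hd⟩, hnd⟩ :=
    HeightOneSpectrum.exists_primeCompl_mul_eq_of_integer (placeOf j) x h
  have h1 := congrArg (fun z => ‖j z‖) hnd
  simp only [map_mul, norm_mul] at h1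
  have h2 : ‖j (algebraMap (𝓞 K) K d)‖ = 1 := norm_eq_one_of_notMem hd
  have h3 : ‖j (algebraMap (𝓞 K) K n)‖ ≤ 1 := norm_integer_le_one j n
  have h4 : ‖j x‖ * ‖j (algebraMap (𝓞 K) K d)‖ = ‖j (algebraMap (𝓞 K) K n)‖ := h1
  rw [h2, mul_one] at h4
  rw [h4]
  exact h3

theorem norm_lt_one_of_valuation_lt_one (j : K →+* PadicAlgCl q) {x : K}
    (h : (placeOf j).valuation K x < 1) : ‖j x‖ < 1 := by
  obtain ⟨n, ⟨d, hd⟩, hnd⟩ :=
    HeightOneSpectrum.exists_primeCompl_mul_eq_of_integer (placeOf j) x h.le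
  have h1 := congrArg (fun z => ‖j z‖) hnd
  simp only [map_mul, norm_mul] at h1
  have h2 : ‖j (algebraMap (𝓞 K) K d)‖ = 1 := norm_eq_one_of_notMem hd
  have h4 : ‖j x‖ * ‖j (algebraMap (𝓞 K) K d)‖ = ‖j (algebraMap (𝓞 K) K n)‖ := h1
  rw [h2, mul_one] at h4
  rw [h4, ← mem_placeOf, ← HeightOneSpectrum.valuation_lt_one_iff_mem (K := K)]
  have h5 : algebraMap (𝓞 K) K n = x * algebraMap (𝓞 K) K d := hnd.symm
  show (placeOf j).valuation K (algebraMap (𝓞 K) K n) < 1
  rw [h5, map_mul]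
  exact mul_lt_one_of_lt_of_le h (HeightOneSpectrum.valuation_le_one _ _)

theorem valuation_le_one_iff_norm (j : K →+* PadicAlgCl q) (x : K) :
    (placeOf j).valuation K x ≤ 1 ↔ ‖j x‖ ≤ 1 := by
  refine ⟨norm_le_one_of_valuation_le_one j, fun h => ?_⟩
  by_contra hcon
  rw [not_le] at hcon
  have hx0 : x ≠ 0 := by
    rintro rfl
    simp at hcon
  have h1 : (placeOf j).valuation K x⁻¹ < 1 := by
    rw [map_inv₀]
    exact inv_lt_one_of_one_lt₀ hcon
  have h2 := norm_lt_one_of_valuation_lt_one j h1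
  rw [map_inv₀, norm_inv] at h2
  have h4 : 0 < ‖j x‖ := by
    rw [norm_pos_iff]
    exact (map_ne_zero _).mpr hx0
  have h5 : 1 ≤ ‖j x‖⁻¹ := (one_le_inv₀ h4).mpr h
  linarith

theorem valuation_le_iff_norm (j : K →+* PadicAlgCl q) (x y : K) :
    (placeOf j).valuation K x ≤ (placeOf j).valuation K y ↔ ‖j x‖ ≤ ‖j y‖ := by
  by_cases hy : y = 0
  · subst hy
    simp
  have hy1 : 0 < ‖j y‖ := by
    rw [norm_pos_iff]
    exact (map_ne_zero _).mpr hy
  have hy2 : (placeOf j).valuation K y ≠ 0 := (Valuation.ne_zero_iff _).mpr hy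
  have h1 := valuation_le_one_iff_norm j (x / y)
  rw [map_div₀, map_div₀, norm_div, div_le_one₀ hy1, div_le_one₀ (zero_lt_iff.mpr hy2)] at h1
  exact h1

theorem valuation_lt_iff_norm (j : K →+* PadicAlgCl q) (x y : K) :
    (placeOf j).valuation K x < (placeOf j).valuation K y ↔ ‖j x‖ < ‖j y‖ := by
  rw [lt_iff_lt_of_le_iff_le (valuation_le_iff_norm j y x)]

theorem valuation_lt_one_iff_norm (j : K →+* PadicAlgCl q) (x : K) :
    (placeOf j).valuation K x < 1 ↔ ‖j x‖ < 1 := by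
  have := valuation_lt_iff_norm j x 1
  simpa using this

theorem valuation_eq_iff_norm (j : K →+* PadicAlgCl q) (x y : K) :
    (placeOf j).valuation K x = (placeOf j).valuation K y ↔ ‖j x‖ = ‖j y‖ := by
  rw [le_antisymm_iff, le_antisymm_iff, valuation_le_iff_norm, valuation_le_iff_norm]

theorem valuation_eq_one_iff_norm (j : K →+* PadicAlgCl q) (x : K) :
    (placeOf j).valuation K x = 1 ↔ ‖j x‖ = 1 := by
  have := valuation_eq_iff_norm j x 1
  simpa using this

/-- The norm in terms of the valuation. -/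
theorem exists_norm_eq_zpow (j : K →+* PadicAlgCl q) :
    ∃ c : ℝ, 0 < c ∧ c < 1 ∧
      ∀ x : K, x ≠ 0 → ‖j x‖ = c ^ (-(log ((placeOf j).valuation K x))) := by
  obtain ⟨π, hπ⟩ := (placeOf j).valuation_exists_uniformizer K
  have hπ0 : π ≠ 0 := by
    rintro rfl
    rw [map_zero] at hπ
    exact exp_ne_zero hπ.symm
  refine ⟨‖j π‖, ?_, ?_, ?_⟩
  · rw [norm_pos_iff]
    exact (map_ne_zero _).mpr hπ0
  · rw [← valuation_lt_one_iff_norm, hπ, ← exp_zero, exp_lt_exp]
    norm_num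
  · intro x hx
    have hv0 : (placeOf j).valuation K x ≠ 0 := (Valuation.ne_zero_iff _).mpr hx
    rw [← norm_zpow, ← map_zpow₀, ← valuation_eq_iff_norm, map_zpow₀, hπ, ← exp_zsmul]
    conv_lhs => rw [← exp_log hv0]
    congr 1
    simp

theorem mem_nonunits_padicPlace_iff (x : AlgebraicClosure ℚ) :
    x ∈ (padicPlace q).nonunits ↔ ‖padicEmbedding q x‖ < 1 := by
  rw [ValuationSubring.mem_nonunits_iff_or]
  by_cases hx : x = 0
  · subst hx
    simp
  · have h1 : x⁻¹ ∈ padicPlace q ↔ ‖padicEmbedding q x⁻¹‖ ≤ 1 := Iff.rfl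
    have h4 : 0 < ‖padicEmbedding q x‖ := by
      rw [norm_pos_iff]
      exact (map_ne_zero _).mpr hx
    rw [h1, map_inv₀, norm_inv, inv_le_one₀ h4, not_le]
    simp [hx]

variable (q) in
theorem liesOverPrime_padicPlace : (padicPlace q).LiesOverPrime q := by
  show (q : AlgebraicClosure ℚ) ∈ (padicPlace q).nonunits
  rw [mem_nonunits_padicPlace_iff, map_natCast]
  exact norm_prime_lt_one q

/-- every place of `K` above `q` comes from an embedding in `PadicAlgCl q`. -/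
theorem exists_placeOf_eq (v : HeightOneSpectrum (𝓞 K)) (hv : (q : 𝓞 K) ∈ v.asIdeal) :
    ∃ j : K →+* PadicAlgCl q, placeOf j = v := by
  have hq : q.Prime := Fact.out
  let k0 : K →+* AlgebraicClosure ℚ := (IsAlgClosed.lift : K →ₐ[ℚ] AlgebraicClosure ℚ).toRingHom
  let f : 𝓞 K →+* AlgebraicClosure ℚ := k0.comp (algebraMap (𝓞 K) K)
  have hf : Function.Injective f :=
    k0.injective.comp (FaithfulSMul.algebraMap_injective (𝓞 K) K)
  let e : 𝓞 K ≃+* f.range := RingEquiv.ofBijective f.rangeRestrict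
    ⟨fun x y h => hf (congrArg Subtype.val h), f.rangeRestrict_surjective⟩
  let I : Ideal f.range := v.asIdeal.comap (e.symm : f.range →+* 𝓞 K)
  have hI : I ≠ ⊤ := Ideal.comap_ne_top _ v.isPrime.ne_top
  obtain ⟨A, hA1, hA2⟩ := Ideal.image_subset_nonunits_valuationSubring I hI
  have hmem : ∀ x ∈ v.asIdeal, f x ∈ A.nonunits := by
    intro x hx
    apply hA2
    refine ⟨e x, ?_, rfl⟩
    show e.symm (e x) ∈ v.asIdeal
    rwa [e.symm_apply_apply]
  have hAq : A.LiesOverPrime q := by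
    have := hmem _ hv
    rwa [map_natCast] at this
  obtain ⟨σ, hσ⟩ := exists_smul_eq hq hAq (liesOverPrime_padicPlace q)
  let j : K →+* PadicAlgCl q := (embComp q σ).comp k0
  refine ⟨j, ?_⟩
  apply HeightOneSpectrum.ext
  symm
  refine v.isMaximal.eq_of_le (placeOf j).isPrime.ne_top fun x hx => ?_
  rw [mem_placeOf]
  show ‖padicEmbedding q (σ (f x))‖ < 1
  rw [← mem_nonunits_padicPlace_iff, ← hσ, mem_nonunits_smul_iff]
  have : σ⁻¹ (σ (f x)) = f x := by
    rw [AlgEquiv.aut_inv, AlgEquiv.symm_apply_apply]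
  rw [this]
  exact hmem x hx

/-- two embeddings define the same place iff they are Galois conjugate -/
theorem placeOf_eq_iff (j j' : K →+* PadicAlgCl q) :
    placeOf j = placeOf j' ↔ ∃ τ : PadicAlgCl q ≃ₐ[ℚ_[q]] PadicAlgCl q, ∀ x, j' x = τ (j x) := by
  constructor
  · intro h
    apply exists_algEquiv_of_norm_lt_one_imp
    intro x hx
    rw [← valuation_lt_one_iff_norm] at hx ⊢
    rwa [← h]
  · rintro ⟨τ, hτ⟩
    apply HeightOneSpectrum.ext
    ext x
    rw [mem_placeOf, mem_placeOf, hτ, norm_padicAlgCl_algEquiv]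

theorem placeOf_eq_iff_norm (j j' : K →+* PadicAlgCl q) :
    placeOf j = placeOf j' ↔ ∀ x, ‖j x‖ = ‖j' x‖ := by
  constructor
  · intro h
    apply norm_eq_of_norm_lt_one_imp
    intro x hx
    rw [← valuation_lt_one_iff_norm] at hx ⊢
    rwa [← h]
  · intro h
    apply HeightOneSpectrum.ext
    ext x
    rw [mem_placeOf, mem_placeOf, h]

section Tower

variable {L : Type*} [Field L] [NumberField L] [Algebra K L]

theorem under_placeOf (j : L →+* PadicAlgCl q) :
    (placeOf j).asIdeal.under (𝓞 K) = (placeOf (j.comp (algebraMap K L))).asIdeal := by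
  ext x
  rw [Ideal.under_def, Ideal.mem_comap, mem_placeOf, mem_placeOf, RingHom.comp_apply]
  rfl

theorem placeOf_mem_above (j : L →+* PadicAlgCl q) :
    placeOf j ∈ H82.above L (placeOf (j.comp (algebraMap K L))) :=
  under_placeOf j

/-- every place above `placeOf j` comes from an extension of `j` -/
theorem exists_extension_of_mem_above {j : K →+* PadicAlgCl q} {w : HeightOneSpectrum (𝓞 L)}
    (hw : w ∈ H82.above L (placeOf j)) :
    ∃ j' : L →+* PadicAlgCl q, j'.comp (algebraMap K L) = j ∧ placeOf j' = w := by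
  have hw' : w.asIdeal.under (𝓞 K) = (placeOf j).asIdeal := hw
  have hq : (q : 𝓞 L) ∈ w.asIdeal := by
    have h1 := prime_mem_placeOf j
    rw [← hw', Ideal.under_def, Ideal.mem_comap, map_natCast] at h1
    exact h1
  obtain ⟨j₁, hj₁⟩ := exists_placeOf_eq w hq
  have h2 : placeOf (j₁.comp (algebraMap K L)) = placeOf j := by
    apply HeightOneSpectrum.ext
    rw [← under_placeOf, hj₁, hw']
  obtain ⟨τ, hτ⟩ := (placeOf_eq_iff _ _).mp h2
  refine ⟨(τ : PadicAlgCl q →+* PadicAlgCl q).comp j₁, ?_, ?_⟩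
  · ext x
    rw [RingHom.comp_apply, RingHom.comp_apply, hτ]
    rfl
  · rw [← hj₁, eq_comm, placeOf_eq_iff]
    exact ⟨τ, fun x => rfl⟩

end Tower

end Place

end Fermat.Agent.H54
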