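import Mathlib
import Fermat.Agent.H54PadicGal
import Fermat.Prelude.Def_ExtEndgame_ProductionDatum

set_option autoImplicit false

open scoped NNReal IntermediateField Topology Pointwise
open Polynomial ExtCitation

namespace Fermat.Agent.H54

section Eis

variable (p : ℕ) [hp : Fact p.Prime]

/-- `Φ_{p^(n+1)}(X + 1)` is irreducible over `ℚ_p` (Eisenstein). -/
theorem irreducible_cyclotomic_comp_padic (n : ℕ) :
    Irreducible ((cyclotomic (p ^ (n + 1)) ℚ_[p]).comp (X + 1)) := by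
  have hE := cyclotomic_prime_pow_comp_X_add_one_isEisensteinAt p n
  set f₀ : ℤ[X] := (cyclotomic (p ^ (n + 1)) ℤ).comp (X + 1) with hf₀
  have hX : (X + 1 : ℤ[X]) = X + C 1 := by simp
  have hdegX : (X + 1 : ℤ[X]).natDegree = 1 := by rw [hX, natDegree_X_add_C]
  have hmon : f₀.Monic := by
    rw [hf₀, hX]
    refine (cyclotomic.monic _ ℤ).comp (monic_X_add_C 1) fun h => ?_
    rw [natDegree_X_add_C] at h
    exact zero_ne_one h.symm
  have hdeg : 0 < f₀.natDegree := by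
    rw [hf₀, natDegree_comp, hdegX, mul_one, natDegree_cyclotomic]
    exact Nat.totient_pos.mpr (pow_pos hp.out.pos _)
  let f₁ : ℤ_[p][X] := f₀.map (Int.castRingHom ℤ_[p])
  have hmon₁ : f₁.Monic := hmon.map _
  have hdeg₁ : f₁.natDegree = f₀.natDegree := hmon.natDegree_map _
  have hprime : Prime (p : ℤ_[p]) := PadicInt.prime_p
  have hI : (Ideal.span {(p : ℤ_[p])}).IsPrime :=
    (Ideal.span_singleton_prime hprime.ne_zero).mpr hprime
  have hdvd : ∀ m : ℤ, ((p : ℤ_[p]) ∣ (m : ℤ_[p])) ↔ (p : ℤ) ∣ m := by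
    intro m
    rw [← PadicInt.norm_int_lt_one_iff_dvd, PadicInt.norm_lt_one_iff_dvd]
  have hE₁ : f₁.IsEisensteinAt (Ideal.span {(p : ℤ_[p])}) := by
    refine Monic.isEisensteinAt_of_mem_of_notMem hmon₁ hI.ne_top ?_ ?_
    · intro i hi
      rw [hdeg₁] at hi
      have h1 := hE.mem hi
      rw [Ideal.submodule_span_eq, Ideal.mem_span_singleton] at h1
      rw [Ideal.mem_span_singleton, coeff_map, eq_intCast]
      exact (hdvd _).mpr h1
    · intro h
      rw [Ideal.span_singleton_pow, Ideal.mem_span_singleton, coeff_map, eq_intCast] at h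
      apply hE.notMem
      rw [Ideal.submodule_span_eq, Ideal.span_singleton_pow, Ideal.mem_span_singleton]
      obtain ⟨k, hk⟩ : (p : ℤ) ∣ f₀.coeff 0 := by
        rw [← hdvd]
        exact (dvd_pow_self _ two_ne_zero).trans h
      rw [hk] at h ⊢
      push_cast at h
      rw [pow_two] at h ⊢
      refine mul_dvd_mul_left _ ?_
      rw [← hdvd]
      exact (mul_dvd_mul_iff_left hprime.ne_zero).mp h
  have hirr : Irreducible f₁ :=
    hE₁.irreducible hI hmon₁.isPrimitive (by rw [hdeg₁]; exact hdeg)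
  have h2 := (hmon₁.irreducible_iff_irreducible_map_fraction_map (K := ℚ_[p])).mp hirr
  have h3 : f₁.map (algebraMap ℤ_[p] ℚ_[p]) = (cyclotomic (p ^ (n + 1)) ℚ_[p]).comp (X + 1) := by
    simp only [f₁, hf₀]
    rw [Polynomial.map_map, Polynomial.map_comp, map_cyclotomic]
    simp
  rwa [h3] at h2

/-- all primitive `p^(n+1)`-th roots of unity are conjugate over `ℚ_p` -/
theorem exists_algEquiv_primitiveRoot {n : ℕ} {ζ ζ' : PadicAlgCl p}
    (hζ : IsPrimitiveRoot ζ (p ^ (n + 1))) (hζ' : IsPrimitiveRoot ζ' (p ^ (n + 1))) :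
    ∃ τ : PadicAlgCl p ≃ₐ[ℚ_[p]] PadicAlgCl p, τ ζ = ζ' := by
  have hpos : 0 < p ^ (n + 1) := pow_pos hp.out.pos _
  set f := (cyclotomic (p ^ (n + 1)) ℚ_[p]).comp (X + 1) with hf
  have hX : (X + 1 : ℚ_[p][X]) = X + C 1 := by simp
  have hmon : f.Monic := by
    rw [hf, hX]
    refine (cyclotomic.monic _ _).comp (monic_X_add_C 1) fun h => ?_
    rw [natDegree_X_add_C] at h
    exact zero_ne_one h.symm
  have hroot : ∀ {ξ : PadicAlgCl p}, IsPrimitiveRoot ξ (p ^ (n + 1)) →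
      aeval (ξ - 1) f = 0 := by
    intro ξ hξ
    rw [hf, aeval_comp]
    simp only [map_add, aeval_X, map_one, sub_add_cancel]
    rw [aeval_def, eval₂_eq_eval_map, map_cyclotomic]
    exact hξ.isRoot_cyclotomic hpos
  have h1 : minpoly ℚ_[p] (ζ - 1) = f :=
    (minpoly.eq_of_irreducible_of_monic (irreducible_cyclotomic_comp_padic p n)
      (hroot hζ) hmon).symm
  have h2 : minpoly ℚ_[p] (ζ' - 1) = f :=
    (minpoly.eq_of_irreducible_of_monic (irreducible_cyclotomic_comp_padic p n)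
      (hroot hζ') hmon).symm
  have h3 : IsConjRoot ℚ_[p] (ζ' - 1) (ζ - 1) := by
    rw [IsConjRoot, h1, h2]
  obtain ⟨τ, hτ⟩ := isConjRoot_iff_exists_algEquiv.mp h3
  refine ⟨τ, ?_⟩
  rw [map_sub, map_one, sub_left_inj] at hτ
  exact hτ

/-- `ℚ(μ_{p^(n+1)})` is totally ramified at `p`: the decomposition group acts transitively on
primitive roots of unity. -/
theorem exists_localGaloisToGlobal_apply_eq {n : ℕ} {ζ : AlgebraicClosure ℚ}
    (hζ : IsPrimitiveRoot ζ (p ^ (n + 1))) (g : AlgebraicClosure ℚ ≃ₐ[ℚ] AlgebraicClosure ℚ) :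
    ∃ τ, localGaloisToGlobal p τ ζ = g ζ := by
  have h1 : IsPrimitiveRoot (padicEmbedding p ζ) (p ^ (n + 1)) :=
    hζ.map_of_injective (padicEmbedding_injective p)
  have h2 : IsPrimitiveRoot (padicEmbedding p (g ζ)) (p ^ (n + 1)) :=
    (hζ.map_of_injective g.injective).map_of_injective (padicEmbedding_injective p)
  obtain ⟨τ, hτ⟩ := exists_algEquiv_primitiveRoot p h1 h2
  refine ⟨τ, padicEmbedding_injective p ?_⟩
  rw [padicEmbedding_localGaloisToGlobal, hτ]

theorem cycloChar_spec (σ : AlgebraicClosure ℚ ≃ₐ[ℚ] AlgebraicClosure ℚ)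
    {ζ : AlgebraicClosure ℚ} (hζ : ζ ^ p = 1) : σ ζ = ζ ^ (cycloChar p σ : ZMod p).val := by
  have : NeZero p := ⟨hp.out.ne_zero⟩
  have hz0 : ζ ≠ 0 := by
    rintro rfl
    rw [zero_pow hp.out.ne_zero] at hζ
    exact zero_ne_one hζ
  have ht : Units.mk0 ζ hz0 ∈ rootsOfUnity p (AlgebraicClosure ℚ) := by
    rw [mem_rootsOfUnity]
    ext
    simpa using hζ
  have := modularCyclotomicCharacter.spec (AlgebraicClosure ℚ) (card_rootsOfUnity_eq_self p)
    (σ : AlgebraicClosure ℚ ≃+* AlgebraicClosure ℚ) ht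
  exact this

theorem cycloChar_eq_iff (σ σ' : AlgebraicClosure ℚ ≃ₐ[ℚ] AlgebraicClosure ℚ)
    {ζ : AlgebraicClosure ℚ} (hζ : IsPrimitiveRoot ζ p) :
    cycloChar p σ = cycloChar p σ' ↔ σ ζ = σ' ζ := by
  have : NeZero p := ⟨hp.out.ne_zero⟩
  constructor
  · intro h
    rw [cycloChar_spec p σ hζ.pow_eq_one, cycloChar_spec p σ' hζ.pow_eq_one, h]
  · intro h
    rw [cycloChar_spec p σ hζ.pow_eq_one, cycloChar_spec p σ' hζ.pow_eq_one] at h
    have h1 := hζ.pow_inj (ZMod.val_lt _) (ZMod.val_lt _) h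
    exact Units.ext (ZMod.val_injective p h1)

/-- first half of `tot_ram` -/
theorem exists_cycloChar_localGaloisToGlobal_eq
    (g : AlgebraicClosure ℚ ≃ₐ[ℚ] AlgebraicClosure ℚ) :
    ∃ τ, cycloChar p (localGaloisToGlobal p τ) = cycloChar p g := by
  have : NeZero p := ⟨hp.out.ne_zero⟩
  obtain ⟨ζ, hζ⟩ := HasEnoughRootsOfUnity.exists_primitiveRoot (AlgebraicClosure ℚ) p
  have hζ' : IsPrimitiveRoot ζ (p ^ (0 + 1)) := by simpa using hζ
  obtain ⟨τ, hτ⟩ := exists_localGaloisToGlobal_apply_eq p hζ' g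
  exact ⟨τ, (cycloChar_eq_iff p _ _ hζ).mpr hτ⟩

theorem exists_cycloChar_primeLocalToGlobal_eq
    (g : AlgebraicClosure ℚ ≃ₐ[ℚ] AlgebraicClosure ℚ) :
    ∃ x : primeLocalGaloisGroup (pPrime p),
      cycloChar p (primeLocalToGlobal (pPrime p) x) = cycloChar p g :=
  exists_cycloChar_localGaloisToGlobal_eq p g

end Eis

end Fermat.Agent.H54
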