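import Mathlib.GroupTheory.Index
import Mathlib.Tactic.Ring

/-!
# Herbrand's finite index lemma (H7)

For a commutative group `A` with two endomorphisms `f, g` such that `f ∘ g = 1 = g ∘ f`, and a
subgroup `B` of finite index stable under `f` and `g`, the "Herbrand quotient"
`[ker f : im g] / [ker g : im f]` is the same for `A` and for `B`.
-/

set_option autoImplicit false

namespace Fermat.Agent.H7

open Subgroup

variable {A : Type*} [CommGroup A]

@[to_additive]
theorem relIndex_map_range_mul (f : A →* A) (B : Subgroup A) :
    (B.map f).relIndex f.range * B.relIndex f.ker = B.index := by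
  have h1 : (B.map f).relIndex f.range = (B ⊔ f.ker).index := by
    rw [MonoidHom.range_eq_map, relIndex_map_map, top_sup_eq, relIndex_top_right]
  have h2 : B.relIndex (B ⊔ f.ker) = B.relIndex f.ker := by
    rw [sup_comm, relIndex_sup_right]
  rw [h1, ← h2, mul_comm, relIndex_mul_index le_sup_left]

/-- One half of Herbrand's lemma. -/
@[to_additive herbrand_half_add]
theorem herbrand_half (f g : A →* A) (hfg : ∀ x, f (g x) = 1) (B : Subgroup A)
    (hgB : B.map g ≤ B) :
    (B.map g).relIndex g.range * g.range.relIndex f.ker
      = (B.map g).relIndex (f.ker ⊓ B) * B.relIndex f.ker := by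
  have hg : g.range ≤ f.ker := by
    rintro _ ⟨x, rfl⟩; exact hfg x
  have h1 : (B.map g).relIndex g.range * g.range.relIndex f.ker = (B.map g).relIndex f.ker :=
    relIndex_mul_relIndex _ _ _ (map_le_range g B) hg
  have hle : B.map g ≤ f.ker ⊓ B := le_inf ((map_le_range g B).trans hg) hgB
  have h2 : (B.map g).relIndex (f.ker ⊓ B) * (f.ker ⊓ B).relIndex f.ker
      = (B.map g).relIndex f.ker := relIndex_mul_relIndex _ _ _ hle inf_le_left
  rw [inf_relIndex_left] at h2
  rw [h1, h2]

/-- **Herbrand's lemma**: the Herbrand quotient does not change when passing to a stable subgroup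
of finite index. -/
@[to_additive herbrand_index_add]
theorem herbrand_index (f g : A →* A) (hfg : ∀ x, f (g x) = 1) (hgf : ∀ x, g (f x) = 1)
    (B : Subgroup A) (hB : B.index ≠ 0) (hfB : B.map f ≤ B) (hgB : B.map g ≤ B) :
    g.range.relIndex f.ker * (B.map f).relIndex (g.ker ⊓ B)
      = (B.map g).relIndex (f.ker ⊓ B) * f.range.relIndex g.ker := by
  have e1 := herbrand_half f g hfg B hgB
  have e2 := herbrand_half g f hgf B hfB
  have i1 := relIndex_map_range_mul f B
  have i2 := relIndex_map_range_mul g B
  set cf := (B.map f).relIndex f.range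
  set cg := (B.map g).relIndex g.range
  set af := B.relIndex f.ker
  set ag := B.relIndex g.ker
  set hfA := g.range.relIndex f.ker
  set hgA := f.range.relIndex g.ker
  set hfB' := (B.map g).relIndex (f.ker ⊓ B)
  set hgB' := (B.map f).relIndex (g.ker ⊓ B)
  have h : B.index * (hfA * hgB') = B.index * (hfB' * hgA) := by
    calc B.index * (hfA * hgB') = (cg * hfA) * (hgB' * ag) := by rw [← i2]; ring
      _ = (hfB' * af) * (cf * hgA) := by rw [e1, e2]
      _ = B.index * (hfB' * hgA) := by rw [← i1]; ring
  exact Nat.eq_of_mul_eq_mul_left (Nat.pos_of_ne_zero hB) h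

end Fermat.Agent.H7
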