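import Mathlib
import Fermat.Agent.H7LocHerbrand

/-!
# A cohomologically trivial open subgroup of the units of a local field (H7)

`E` is a nonarchimedean local field (a proper ultrametric normed field), `F/E` a finite Galois
extension with a compatible norm.  `nb` is the Galois invariant norm on `F` attached to a normal
basis.  For small `ρ`, the ball `V ρ = {u | nb (u - 1) ≤ ρ}` is a Galois stable compact open
subgroup of `Fˣ` which has trivial Tate cohomology when `Gal(F/E)` is cyclic.
-/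

set_option autoImplicit false
set_option linter.unusedSectionVars false

namespace Fermat.Agent.H7

open Subgroup Topology

section NormalLattice

variable (E : Type) {F : Type} [NontriviallyNormedField E] [IsUltrametricDist E] [ProperSpace E]
  [NormedField F] [NormedAlgebra E F] [FiniteDimensional E F] [IsGalois E F]

/-- Galois invariant lattice norm on `F` attached to a normal basis. -/
noncomputable def nb (x : F) : ℝ := ‖(IsGalois.normalBasis E F).equivFun x‖

theorem nb_nonneg (x : F) : 0 ≤ nb E x := norm_nonneg _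

@[simp] theorem nb_zero : nb E (0 : F) = 0 := by simp [nb]

@[simp] theorem nb_neg (x : F) : nb E (-x) = nb E x := by simp [nb]

theorem nb_eq_zero {x : F} (h : nb E x = 0) : x = 0 := by
  rw [nb, norm_eq_zero] at h
  simpa using h

theorem nb_add_le (x y : F) : nb E (x + y) ≤ max (nb E x) (nb E y) := by
  rw [nb, map_add]
  exact IsUltrametricDist.norm_add_le_max _ _

theorem nb_sub_le (x y : F) : nb E (x - y) ≤ max (nb E x) (nb E y) := by
  rw [sub_eq_add_neg, ← nb_neg E y]
  exact nb_add_le E x (-y)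

theorem nb_add_le_of_le {x y : F} {r : ℝ} (hx : nb E x ≤ r) (hy : nb E y ≤ r) :
    nb E (x + y) ≤ r := (nb_add_le E x y).trans (max_le hx hy)

theorem nb_sub_le_of_le {x y : F} {r : ℝ} (hx : nb E x ≤ r) (hy : nb E y ≤ r) :
    nb E (x - y) ≤ r := (nb_sub_le E x y).trans (max_le hx hy)

theorem nb_smul (c : E) (x : F) : nb E (c • x) = ‖c‖ * nb E x := by
  rw [nb, map_smul, norm_smul, nb]

theorem nb_sum_le {ι : Type*} (s : Finset ι) (f : ι → F) {r : ℝ} (hr : 0 ≤ r)
    (h : ∀ i ∈ s, nb E (f i) ≤ r) : nb E (∑ i ∈ s, f i) ≤ r := by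
  classical
  induction s using Finset.induction_on with
  | empty => simpa using hr
  | insert a s ha ih =>
    rw [Finset.sum_insert ha]
    exact nb_add_le_of_le E (h a (Finset.mem_insert_self a s))
      (ih fun i hi => h i (Finset.mem_insert_of_mem hi))

theorem norm_coord_le (x : F) (τ : Gal(F/E)) :
    ‖(IsGalois.normalBasis E F).equivFun x τ‖ ≤ nb E x :=
  norm_le_pi_norm _ τ

theorem equivFun_galois (σ : Gal(F/E)) (x : F) (τ : Gal(F/E)) :
    (IsGalois.normalBasis E F).equivFun (σ x) τ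
      = (IsGalois.normalBasis E F).equivFun x (σ⁻¹ * τ) := by
  set b := IsGalois.normalBasis E F with hb
  have h1 : σ x = ∑ ρ, b.equivFun x (σ⁻¹ * ρ) • b ρ := by
    conv_lhs => rw [← b.sum_equivFun x]
    rw [map_sum]
    simp only [map_smul]
    rw [← Equiv.sum_comp (Equiv.mulLeft σ) (fun ρ => b.equivFun x (σ⁻¹ * ρ) • b ρ)]
    refine Finset.sum_congr rfl fun ρ _ => ?_
    simp only [Equiv.coe_mulLeft, inv_mul_cancel_left]
    rw [hb, IsGalois.normalBasis_apply ρ, IsGalois.normalBasis_apply (σ * ρ)]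
    rfl
  rw [h1, ← b.equivFun_symm_apply, LinearEquiv.apply_symm_apply]

@[simp] theorem nb_galois (σ : Gal(F/E)) (x : F) : nb E (σ x) = nb E x := by
  apply le_antisymm
  · rw [nb, pi_norm_le_iff_of_nonneg (nb_nonneg E x)]
    intro τ
    rw [equivFun_galois]
    exact norm_coord_le E x _
  · rw [nb, pi_norm_le_iff_of_nonneg (nb_nonneg E _)]
    intro τ
    have := equivFun_galois E σ x (σ * τ)
    rw [inv_mul_cancel_left] at this
    rw [← this]
    exact norm_coord_le E _ _

theorem exists_nb_mul_le : ∃ C : ℝ, 1 ≤ C ∧ ∀ x y : F, nb E (x * y) ≤ C * nb E x * nb E y := by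
  set b := IsGalois.normalBasis E F with hb
  refine ⟨1 + ∑ i, ∑ j, nb E (b i * b j), ?_, fun x y => ?_⟩
  · have : 0 ≤ ∑ i, ∑ j, nb E (b i * b j) :=
      Finset.sum_nonneg fun i _ => Finset.sum_nonneg fun j _ => nb_nonneg E _
    linarith
  have hC0 : 0 ≤ ∑ i, ∑ j, nb E (b i * b j) :=
      Finset.sum_nonneg fun i _ => Finset.sum_nonneg fun j _ => nb_nonneg E _
  have hxy : x * y = ∑ i, ∑ j, (b.equivFun x i * b.equivFun y j) • (b i * b j) := by
    conv_lhs => rw [← b.sum_equivFun x, ← b.sum_equivFun y]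
    rw [Finset.sum_mul_sum]
    refine Finset.sum_congr rfl fun i _ => Finset.sum_congr rfl fun j _ => ?_
    rw [smul_mul_smul_comm]
  have hr : 0 ≤ (1 + ∑ i, ∑ j, nb E (b i * b j)) * nb E x * nb E y :=
    mul_nonneg (mul_nonneg (by linarith) (nb_nonneg E x)) (nb_nonneg E y)
  rw [hxy]
  refine nb_sum_le E _ _ hr fun i _ => nb_sum_le E _ _ hr fun j _ => ?_
  rw [nb_smul, norm_mul]
  have h1 : nb E (b i * b j) ≤ 1 + ∑ i, ∑ j, nb E (b i * b j) := by
    have h2 : nb E (b i * b j) ≤ ∑ j, nb E (b i * b j) :=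
      Finset.single_le_sum (f := fun j => nb E (b i * b j)) (fun j _ => nb_nonneg E _)
        (Finset.mem_univ j)
    have h3 : ∑ j, nb E (b i * b j) ≤ ∑ i, ∑ j, nb E (b i * b j) :=
      Finset.single_le_sum (f := fun i => ∑ j, nb E (b i * b j))
        (fun i _ => Finset.sum_nonneg fun j _ => nb_nonneg E _) (Finset.mem_univ i)
    linarith
  calc ‖b.equivFun x i‖ * ‖b.equivFun y j‖ * nb E (b i * b j)
      ≤ nb E x * nb E y * (1 + ∑ i, ∑ j, nb E (b i * b j)) := by
        gcongr
        · exact nb_nonneg E _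
        · exact mul_nonneg (nb_nonneg E x) (nb_nonneg E y)
        · exact nb_nonneg E x
        · exact norm_coord_le E x i
        · exact norm_coord_le E y j
    _ = _ := by ring

variable (F) in
/-- A multiplicativity constant for `nb`. -/
noncomputable def nbC : ℝ := (exists_nb_mul_le E (F := F)).choose

variable (F) in
theorem one_le_nbC : 1 ≤ nbC E F := (exists_nb_mul_le E (F := F)).choose_spec.1

theorem nb_mul_le (x y : F) : nb E (x * y) ≤ nbC E F * nb E x * nb E y :=
  (exists_nb_mul_le E (F := F)).choose_spec.2 x y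

/-- if `nb y ≤ ρ` with `C ρ ≤ 1` then multiplying by `y` does not increase `nb` -/
theorem nb_mul_le_left {x y : F} {ρ : ℝ} (hρ : nbC E F * ρ ≤ 1) (hy : nb E y ≤ ρ) :
    nb E (x * y) ≤ nb E x := by
  have hC : 0 ≤ nbC E F := zero_le_one.trans (one_le_nbC E F)
  calc nb E (x * y) ≤ nbC E F * nb E x * nb E y := nb_mul_le E x y
    _ ≤ nbC E F * nb E x * ρ := by gcongr; exact mul_nonneg hC (nb_nonneg E x)
    _ = (nbC E F * ρ) * nb E x := by ring
    _ ≤ 1 * nb E x := by gcongr; exact nb_nonneg E x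
    _ = nb E x := one_mul _

theorem nb_mul_one_add_le {x y : F} {ρ : ℝ} (hρ : nbC E F * ρ ≤ 1) (hy : nb E y ≤ ρ) :
    nb E (x * (1 + y)) ≤ nb E x := by
  rw [mul_add, mul_one]
  exact nb_add_le_of_le E le_rfl (nb_mul_le_left E hρ hy)

theorem one_le_nb_one_mul : 1 ≤ nbC E F * nb E (1 : F) := by
  have h := nb_mul_le E (1 : F) 1
  rw [one_mul] at h
  have h1 : 0 < nb E (1 : F) := by
    rcases (nb_nonneg E (1 : F)).lt_or_eq with h | h
    · exact h
    · exact absurd (nb_eq_zero E h.symm) one_ne_zero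
  by_contra hc
  push Not at hc
  have : nbC E F * nb E (1 : F) * nb E (1 : F) < 1 * nb E (1 : F) := by gcongr
  linarith

/-- the radius condition -/
def Small (F : Type) [NormedField F] [NormedAlgebra E F] [FiniteDimensional E F] [IsGalois E F]
    (ρ : ℝ) : Prop := 0 ≤ ρ ∧ nbC E F * ρ < 1

theorem nb_inv_sub_one_le {x : F} {ρ : ℝ} (hρ : Small E F ρ) (hx : nb E x ≤ ρ) (y : F)
    (hy : (1 + x) * (1 + y) = 1) : nb E y ≤ nb E x := by
  have hC : 0 < nbC E F := zero_lt_one.trans_le (one_le_nbC E F)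
  by_contra hlt
  push Not at hlt
  have hypos : 0 < nb E y := (nb_nonneg E x).trans_lt hlt
  have h1 : y = -x + -(x * y) := by linear_combination hy
  have h2 : nb E (x * y) < nb E y := by
    calc nb E (x * y) ≤ nbC E F * nb E x * nb E y := nb_mul_le E x y
      _ ≤ nbC E F * ρ * nb E y := by gcongr
      _ < 1 * nb E y := by gcongr; exact hρ.2
      _ = nb E y := one_mul _
  have h3 : nb E y ≤ max (nb E x) (nb E (x * y)) := by
    conv_lhs => rw [h1]
    have := nb_add_le E (-x) (-(x * y))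
    rwa [nb_neg, nb_neg] at this
  rcases le_max_iff.mp h3 with h | h <;> linarith

/-- The compact open subgroup `{u | nb (u - 1) ≤ ρ}`. -/
noncomputable def V {ρ : ℝ} (hρ : Small E F ρ) : Subgroup Fˣ where
  carrier := {u | nb E ((u : F) - 1) ≤ ρ}
  one_mem' := by simpa using hρ.1
  mul_mem' := by
    intro u v hu hv
    simp only [Set.mem_ofPred_eq, Units.val_mul] at hu hv ⊢
    have : (u : F) * v - 1 = ((u : F) - 1) + ((v : F) - 1) + ((u : F) - 1) * ((v : F) - 1) := by
      ring
    rw [this]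
    exact nb_add_le_of_le E (nb_add_le_of_le E hu hv)
      ((nb_mul_le_left E hρ.2.le hv).trans hu)
  inv_mem' := by
    intro u hu
    simp only [Set.mem_ofPred_eq] at hu ⊢
    refine (nb_inv_sub_one_le E hρ hu (((u⁻¹ : Fˣ) : F) - 1) ?_).trans hu
    ring_nf
    simp

theorem mem_V {ρ : ℝ} (hρ : Small E F ρ) {u : Fˣ} : u ∈ V E hρ ↔ nb E ((u : F) - 1) ≤ ρ :=
  Iff.rfl

theorem one_add_ne_zero {ρ : ℝ} (hρ : Small E F ρ) {x : F} (hx : nb E x ≤ ρ) : 1 + x ≠ 0 := by
  intro h
  have : x = -1 := by linear_combination h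
  rw [this, nb_neg] at hx
  have h1 := one_le_nb_one_mul E (F := F)
  have h2 : nbC E F * nb E (1 : F) ≤ nbC E F * ρ :=
    mul_le_mul_of_nonneg_left hx (zero_le_one.trans (one_le_nbC E F))
  linarith [hρ.2]

theorem exists_mem_V {ρ : ℝ} (hρ : Small E F ρ) {x : F} (hx : nb E x ≤ ρ) :
    ∃ u ∈ V E hρ, (u : F) = 1 + x :=
  ⟨Units.mk0 (1 + x) (one_add_ne_zero E hρ hx), by simpa [mem_V] using hx, rfl⟩

end NormalLattice

end Fermat.Agent.H7
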