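import Mathlib
import Fermat.Agent.H7LocLattice

set_option autoImplicit false
set_option linter.unusedSectionVars false

namespace Fermat.Agent.H7

open Subgroup Topology

section NormalLattice

variable (E : Type) {F : Type} [NontriviallyNormedField E] [IsUltrametricDist E] [ProperSpace E]
  [NormedField F] [NormedAlgebra E F] [FiniteDimensional E F] [IsGalois E F]

/-! ### topology -/

theorem exists_norm_le_nb : ∃ c : ℝ, 0 < c ∧ ∀ x : F, ‖x‖ ≤ c * nb E x := by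
  set b := IsGalois.normalBasis E F with hb
  refine ⟨1 + ∑ i, ‖b i‖, ?_, fun x => ?_⟩
  · have : 0 ≤ ∑ i, ‖b i‖ := Finset.sum_nonneg fun i _ => norm_nonneg _
    linarith
  calc ‖x‖ = ‖∑ i, b.equivFun x i • b i‖ := by rw [b.sum_equivFun x]
    _ ≤ ∑ i, ‖b.equivFun x i • b i‖ := norm_sum_le _ _
    _ = ∑ i, ‖b.equivFun x i‖ * ‖b i‖ := by simp_rw [norm_smul]
    _ ≤ ∑ i, nb E x * ‖b i‖ := by
        gcongr with i
        exact norm_coord_le E x i
    _ = nb E x * ∑ i, ‖b i‖ := by rw [Finset.mul_sum]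
    _ ≤ nb E x * (1 + ∑ i, ‖b i‖) := by
        gcongr
        · exact nb_nonneg E x
        · linarith
    _ = _ := mul_comm _ _

theorem continuous_equivFun : Continuous (IsGalois.normalBasis E F).equivFun :=
  (IsGalois.normalBasis E F).equivFun.toLinearMap.continuous_of_finiteDimensional

theorem continuous_nb : Continuous (nb E : F → ℝ) := (continuous_equivFun E).norm

theorem continuous_galois (σ : Gal(F/E)) : Continuous (fun x : F => σ x) :=
  σ.toLinearMap.continuous_of_finiteDimensional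

theorem isCompact_ball (ρ : ℝ) : IsCompact {x : F | nb E (x - 1) ≤ ρ} := by
  have h : {x : F | nb E (x - 1) ≤ ρ}
      = (fun v => (IsGalois.normalBasis E F).equivFun.symm v + 1) '' Metric.closedBall 0 ρ := by
    ext x
    simp only [Set.mem_ofPred_eq, Set.mem_image, mem_closedBall_zero_iff]
    constructor
    · intro hx
      refine ⟨(IsGalois.normalBasis E F).equivFun (x - 1), hx, ?_⟩
      rw [LinearEquiv.symm_apply_apply, sub_add_cancel]
    · rintro ⟨v, hv, rfl⟩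
      rw [add_sub_cancel_right, nb, LinearEquiv.apply_symm_apply]
      exact hv
  rw [h]
  refine (isCompact_closedBall _ _).image ?_
  exact ((IsGalois.normalBasis E F).equivFun.symm.toLinearMap.continuous_of_finiteDimensional).add
    continuous_const

theorem mem_image_of_approx {K : Set F} (hK : IsCompact K) {φ : F → F} (hφ : ContinuousOn φ K)
    {u : F} (h : ∀ ε : ℝ, 0 < ε → ∃ x ∈ K, nb E (φ x - u) ≤ ε) : u ∈ φ '' K := by
  have hcl : IsClosed (φ '' K) := (hK.image_of_continuousOn hφ).isClosed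
  rw [← hcl.closure_eq, Metric.mem_closure_iff]
  intro ε hε
  obtain ⟨c, hc, hle⟩ := exists_norm_le_nb E (F := F)
  obtain ⟨x, hx, hx2⟩ := h (ε / (2 * c)) (by positivity)
  refine ⟨φ x, ⟨x, hx, rfl⟩, ?_⟩
  rw [dist_comm, dist_eq_norm]
  calc ‖φ x - u‖ ≤ c * nb E (φ x - u) := hle _
    _ ≤ c * (ε / (2 * c)) := by gcongr
    _ = ε / 2 := by field_simp
    _ < ε := by linarith

/-! ### the norm and `σ - 1` -/

variable (F) in
/-- the norm as an endomorphism of `Fˣ` -/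
noncomputable def Nm : Fˣ →* Fˣ :=
  ∏ τ : Gal(F/E), Units.map ((τ : F ≃ₐ[E] F) : F →* F)

theorem coe_Nm (u : Fˣ) : ((Nm E F u : Fˣ) : F) = ∏ τ : Gal(F/E), τ (u : F) := by
  simp [Nm, MonoidHom.finsetProd_apply]

/-- `u ↦ σ u / u` -/
noncomputable def Df (σ : Gal(F/E)) : Fˣ →* Fˣ :=
  Units.map ((σ : F ≃ₐ[E] F) : F →* F) / MonoidHom.id _

theorem coe_Df (σ : Gal(F/E)) (u : Fˣ) : ((Df E σ u : Fˣ) : F) = σ (u : F) / u := by
  simp [Df]

theorem galois_Nm (σ : Gal(F/E)) (u : Fˣ) : σ (Nm E F u : F) = Nm E F u := by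
  rw [coe_Nm, map_prod]
  exact Fintype.prod_equiv (Equiv.mulLeft σ) _ _ fun τ => rfl

theorem Nm_Df (σ : Gal(F/E)) (u : Fˣ) : Nm E F (Df E σ u) = 1 := by
  rw [Units.ext_iff, coe_Nm]
  simp only [coe_Df, map_div₀, Finset.prod_div_distrib, Units.val_one]
  rw [div_eq_one_iff_eq]
  · exact Fintype.prod_equiv (Equiv.mulRight σ) _ _ fun τ => rfl
  · rw [← coe_Nm]; exact (Nm E F u).ne_zero

theorem Df_Nm (σ : Gal(F/E)) (u : Fˣ) : Df E σ (Nm E F u) = 1 := by
  rw [Units.ext_iff, coe_Df, galois_Nm, Units.val_one, div_self (Nm E F u).ne_zero]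

/-! ### product expansion -/

theorem nb_prod_sub {ι : Type*} (s : Finset ι) (y : ι → F) {ρ r : ℝ} (hρ : Small E F ρ)
    (hr0 : 0 ≤ r) (hr : r ≤ ρ) (hy : ∀ i ∈ s, nb E (y i) ≤ r) :
    nb E (∏ i ∈ s, (1 + y i) - 1) ≤ r ∧
    nb E (∏ i ∈ s, (1 + y i) - 1 - ∑ i ∈ s, y i) ≤ nbC E F * r * r := by
  classical
  have hC : 0 ≤ nbC E F := zero_le_one.trans (one_le_nbC E F)
  have hCr : nbC E F * r ≤ 1 := (mul_le_mul_of_nonneg_left hr hC).trans hρ.2.le
  have hCrr : nbC E F * r * r ≤ r := by nlinarith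
  induction s using Finset.induction_on with
  | empty => simp; exact ⟨hr0, by positivity⟩
  | insert a s ha ih =>
    obtain ⟨h1, h2⟩ := ih fun i hi => hy i (Finset.mem_insert_of_mem hi)
    have ha' := hy a (Finset.mem_insert_self a s)
    rw [Finset.prod_insert ha, Finset.sum_insert ha]
    have h3 : nb E ((∏ i ∈ s, (1 + y i) - 1) * y a) ≤ nbC E F * r * r := by
      refine (nb_mul_le E _ _).trans ?_
      have : nbC E F * nb E (∏ i ∈ s, (1 + y i) - 1) * nb E (y a) ≤ nbC E F * r * r := by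
        gcongr
        exact nb_nonneg E _
      exact this
    constructor
    · have : (1 + y a) * ∏ i ∈ s, (1 + y i) - 1
          = (∏ i ∈ s, (1 + y i) - 1) + y a + (∏ i ∈ s, (1 + y i) - 1) * y a := by ring
      rw [this]
      exact nb_add_le_of_le E (nb_add_le_of_le E h1 ha') (h3.trans hCrr)
    · have : (1 + y a) * ∏ i ∈ s, (1 + y i) - 1 - (y a + ∑ i ∈ s, y i)
          = (∏ i ∈ s, (1 + y i) - 1 - ∑ i ∈ s, y i) + (∏ i ∈ s, (1 + y i) - 1) * y a := by ring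
      rw [this]
      exact nb_add_le_of_le E h2 h3

theorem nb_Nm_sub {ρ r : ℝ} (hρ : Small E F ρ) (hr0 : 0 ≤ r) (hr : r ≤ ρ) (u : Fˣ)
    (hu : nb E ((u : F) - 1) ≤ r) :
    nb E ((Nm E F u : F) - 1) ≤ r ∧
    nb E ((Nm E F u : F) - 1 - ∑ τ : Gal(F/E), τ ((u : F) - 1)) ≤ nbC E F * r * r := by
  have h := nb_prod_sub E (Finset.univ : Finset Gal(F/E)) (fun τ => τ ((u : F) - 1)) hρ hr0 hr
    (fun τ _ => by rwa [nb_galois])
  have h2 : ∏ τ : Gal(F/E), (1 + τ ((u : F) - 1)) = (Nm E F u : F) := by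
    rw [coe_Nm]
    refine Finset.prod_congr rfl fun τ _ => ?_
    rw [map_sub, map_one]; ring
  rw [h2] at h
  exact h

theorem Nm_mem_V {ρ : ℝ} (hρ : Small E F ρ) {u : Fˣ} (hu : u ∈ V E hρ) : Nm E F u ∈ V E hρ :=
  (nb_Nm_sub E hρ hρ.1 le_rfl u hu).1

theorem galois_mem_V {ρ : ℝ} (hρ : Small E F ρ) {u : Fˣ} (hu : u ∈ V E hρ) (σ : Gal(F/E)) :
    Units.map ((σ : F ≃ₐ[E] F) : F →* F) u ∈ V E hρ := by
  rw [mem_V] at hu ⊢
  have : ((Units.map ((σ : F ≃ₐ[E] F) : F →* F) u : Fˣ) : F) - 1 = σ ((u : F) - 1) := by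
    rw [map_sub, map_one]; rfl
  rw [this, nb_galois]
  exact hu

theorem Df_mem_V {ρ : ℝ} (hρ : Small E F ρ) {u : Fˣ} (hu : u ∈ V E hρ) (σ : Gal(F/E)) :
    Df E σ u ∈ V E hρ := by
  rw [Df, MonoidHom.div_apply]
  exact div_mem (galois_mem_V E hρ hu σ) hu

/-! ### triviality of the Tate cohomology of `V` -/

theorem coord_const {x : F} (hx : ∀ σ : Gal(F/E), σ x = x) (τ : Gal(F/E)) :
    (IsGalois.normalBasis E F).equivFun x τ = (IsGalois.normalBasis E F).equivFun x 1 := by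
  have := equivFun_galois E τ x τ
  rw [hx, inv_mul_cancel] at this
  exact this

variable (F) in
theorem nb_basis_one_le : nb E (IsGalois.normalBasis E F 1) ≤ 1 := by
  classical
  rw [nb, pi_norm_le_iff_of_nonneg zero_le_one]
  intro τ
  rw [Module.Basis.equivFun_self]
  split_ifs <;> simp

theorem exists_trace_eq {x : F} (hx : ∀ σ : Gal(F/E), σ x = x) :
    ∃ y, nb E y ≤ nb E x ∧ ∑ τ : Gal(F/E), τ y = x := by
  refine ⟨(IsGalois.normalBasis E F).equivFun x 1 • IsGalois.normalBasis E F 1, ?_, ?_⟩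
  · rw [nb_smul]
    calc _ ≤ nb E x * 1 := by
          gcongr
          · exact nb_nonneg E _
          · exact nb_nonneg E _
          · exact norm_coord_le E x 1
          · exact nb_basis_one_le E F
      _ = nb E x := mul_one _
  · conv_rhs => rw [← (IsGalois.normalBasis E F).sum_equivFun x]
    refine Finset.sum_congr rfl fun τ _ => ?_
    rw [map_smul, coord_const E hx τ, ← IsGalois.normalBasis_apply τ]

theorem val_inv_eq_one_add {ρ : ℝ} (hρ : Small E F ρ) {u : Fˣ} (hu : u ∈ V E hρ) :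
    ((u⁻¹ : Fˣ) : F) = 1 + (((u⁻¹ : Fˣ) : F) - 1) ∧ nb E (((u⁻¹ : Fˣ) : F) - 1) ≤ ρ :=
  ⟨by ring, inv_mem hu⟩

theorem step_zero {ρ r : ℝ} (hρ : Small E F ρ) (hr0 : 0 ≤ r) (hr : r ≤ ρ) (w : Fˣ)
    (hw : nb E ((w : F) - 1) ≤ r) (hfix : ∀ σ : Gal(F/E), σ (w : F) = w) :
    ∃ v ∈ V E hρ, ∃ w' : Fˣ, w = Nm E F v * w' ∧ nb E ((w' : F) - 1) ≤ nbC E F * r * r ∧
      ∀ σ : Gal(F/E), σ (w' : F) = w' := by
  have hfx : ∀ σ : Gal(F/E), σ ((w : F) - 1) = (w : F) - 1 := fun σ => by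
    rw [map_sub, map_one, hfix]
  obtain ⟨y, hy, hty⟩ := exists_trace_eq E hfx
  have hyr : nb E y ≤ r := hy.trans hw
  obtain ⟨v, hv, hvy⟩ := exists_mem_V E hρ (hyr.trans hr)
  have hv1 : nb E ((v : F) - 1) ≤ r := by rw [hvy]; simpa using hyr
  have hN := (nb_Nm_sub E hρ hr0 hr v hv1).2
  have hvy' : (v : F) - 1 = y := by rw [hvy]; ring
  rw [hvy', hty] at hN
  refine ⟨v, hv, (Nm E F v)⁻¹ * w, by rw [mul_inv_cancel_left], ?_, fun σ => ?_⟩
  · have hi := val_inv_eq_one_add E hρ (Nm_mem_V E hρ hv)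
    have : (((Nm E F v)⁻¹ * w : Fˣ) : F) - 1
        = -(((Nm E F v : F) - 1 - ((w : F) - 1))) * (((Nm E F v)⁻¹ : Fˣ) : F) := by
      rw [Units.val_mul]
      have h1 : (Nm E F v : F) * (((Nm E F v)⁻¹ : Fˣ) : F) = 1 := by
        rw [← Units.val_mul, mul_inv_cancel, Units.val_one]
      linear_combination h1
    rw [this, hi.1]
    refine (nb_mul_one_add_le E hρ.2.le hi.2).trans ?_
    rw [nb_neg]
    exact hN
  · rw [Units.val_mul, map_mul, hfix]
    congr 1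
    rw [Units.val_inv_eq_inv_val, map_inv₀, galois_Nm]

theorem approx_zero {ρ : ℝ} (hρ : Small E F ρ) (u : Fˣ) (hu : u ∈ V E hρ)
    (hfix : ∀ σ : Gal(F/E), σ (u : F) = u) (k : ℕ) :
    ∃ v ∈ V E hρ, ∃ w' : Fˣ, u = Nm E F v * w' ∧
      nb E ((w' : F) - 1) ≤ (nbC E F * ρ) ^ k * ρ ∧ ∀ σ : Gal(F/E), σ (w' : F) = w' := by
  have hC : 0 ≤ nbC E F := zero_le_one.trans (one_le_nbC E F)
  have hθ0 : 0 ≤ nbC E F * ρ := mul_nonneg hC hρ.1
  induction k with
  | zero => exact ⟨1, one_mem _, u, by simp, by simpa using (mem_V E hρ).1 hu, hfix⟩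
  | succ k ih =>
    obtain ⟨v, hv, w, huw, hw, hwfix⟩ := ih
    have hr0 : 0 ≤ (nbC E F * ρ) ^ k * ρ := mul_nonneg (pow_nonneg hθ0 k) hρ.1
    have hr : (nbC E F * ρ) ^ k * ρ ≤ ρ :=
      mul_le_of_le_one_left hρ.1 (pow_le_one₀ hθ0 hρ.2.le)
    obtain ⟨v', hv', w', hww, hw', hfix'⟩ := step_zero E hρ hr0 hr w hw hwfix
    refine ⟨v * v', mul_mem hv hv', w', ?_, hw'.trans ?_, hfix'⟩
    · rw [huw, hww, map_mul, mul_assoc]
    · calc nbC E F * ((nbC E F * ρ) ^ k * ρ) * ((nbC E F * ρ) ^ k * ρ)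
          ≤ nbC E F * ρ * ((nbC E F * ρ) ^ k * ρ) := by gcongr
        _ = (nbC E F * ρ) ^ (k + 1) * ρ := by ring

theorem exists_pow_mul_le {θ ρ ε : ℝ} (hθ0 : 0 ≤ θ) (hθ : θ < 1) (hρ : 0 ≤ ρ) (hε : 0 < ε) :
    ∃ k : ℕ, θ ^ k * ρ ≤ ε := by
  obtain ⟨k, hk⟩ := exists_pow_lt_of_lt_one (show 0 < ε / (ρ + 1) by positivity) hθ
  refine ⟨k, ?_⟩
  have h1 : θ ^ k * ρ ≤ ε / (ρ + 1) * ρ := by gcongr
  refine h1.trans ?_
  rw [div_mul_eq_mul_div, div_le_iff₀ (by positivity)]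
  nlinarith

/-- `Ĥ⁰(G, V) = 0` -/
theorem exists_Nm_eq {ρ : ℝ} (hρ : Small E F ρ) (u : Fˣ) (hu : u ∈ V E hρ)
    (hfix : ∀ σ : Gal(F/E), σ (u : F) = u) : ∃ v ∈ V E hρ, Nm E F v = u := by
  have hC : 0 ≤ nbC E F := zero_le_one.trans (one_le_nbC E F)
  have hcont : ContinuousOn (fun x : F => ∏ τ : Gal(F/E), τ x) {x : F | nb E (x - 1) ≤ ρ} :=
    (continuous_finsetProd _ fun τ _ => continuous_galois E τ).continuousOn
  obtain ⟨x, hx, hxu⟩ := mem_image_of_approx E (isCompact_ball E ρ) hcont (u := (u : F))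
    fun ε hε => by
      obtain ⟨k, hk⟩ := exists_pow_mul_le (mul_nonneg hC hρ.1) hρ.2 hρ.1 hε
      obtain ⟨v, hv, w, huw, hw, -⟩ := approx_zero E hρ u hu hfix k
      refine ⟨v, hv, ?_⟩
      have h1 : (∏ τ : Gal(F/E), τ (v : F)) - (u : F)
          = -((w : F) - 1) * (1 + ((Nm E F v : F) - 1)) := by
        rw [← coe_Nm, huw, Units.val_mul]; ring
      simp only [h1]
      refine (nb_mul_one_add_le E hρ.2.le (Nm_mem_V E hρ hv)).trans ?_
      rw [nb_neg]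
      exact hw.trans hk
  obtain ⟨v, hv, hvx⟩ := exists_mem_V E hρ (x := x - 1) hx
  refine ⟨v, hv, ?_⟩
  rw [Units.ext_iff, coe_Nm, hvx, ← hxu]
  simp

/-- in a cyclic group generated by `σ`, solve `x - (σ y - y) = (sum of coordinates) • b 1`. -/
theorem exists_sub_eq (σ : Gal(F/E)) (hσ : ∀ τ : Gal(F/E), τ ∈ Subgroup.zpowers σ) (x : F) :
    ∃ y, nb E y ≤ nb E x ∧ x - (σ y - y)
      = (∑ τ, (IsGalois.normalBasis E F).equivFun x τ) • IsGalois.normalBasis E F 1 := by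
  classical
  set b := IsGalois.normalBasis E F with hb
  have hex : ∀ τ : Gal(F/E), ∃ i : ℕ, σ ^ i = τ := fun τ => by
    have := hσ τ
    rw [mem_zpowers_iff_mem_range_orderOf] at this
    simp only [Finset.mem_image, Finset.mem_range] at this
    obtain ⟨i, -, hi⟩ := this
    exact ⟨i, hi⟩
  let D : ℕ → E := fun i => -∑ j ∈ Finset.range i, b.equivFun x (σ ^ (j + 1))
  let d : Gal(F/E) → E := fun τ => D (Nat.find (hex τ))
  have hd : ∀ τ, τ ≠ 1 → d (σ⁻¹ * τ) - d τ = b.equivFun x τ := by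
    intro τ hτ
    have h0 : Nat.find (hex τ) ≠ 0 := by
      intro h
      have := Nat.find_spec (hex τ)
      rw [h, pow_zero] at this
      exact hτ this.symm
    obtain ⟨m, hm⟩ := Nat.exists_eq_succ_of_ne_zero h0
    have hspec : σ ^ (m + 1) = τ := by
      have := Nat.find_spec (hex τ)
      rwa [hm] at this
    have hfind : Nat.find (hex (σ⁻¹ * τ)) = m := by
      rw [Nat.find_eq_iff]
      refine ⟨by rw [← hspec, pow_succ', inv_mul_cancel_left], fun j hj h => ?_⟩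
      have h1 : σ ^ (j + 1) = τ := by rw [pow_succ', h, mul_inv_cancel_left]
      have h2 : Nat.find (hex τ) ≤ j + 1 := Nat.find_min' _ h1
      omega
    simp only [d, hfind, hm, D, Nat.succ_eq_add_one]
    rw [Finset.sum_range_succ, hspec]
    ring
  refine ⟨b.equivFun.symm d, ?_, ?_⟩
  · rw [nb, LinearEquiv.apply_symm_apply, pi_norm_le_iff_of_nonneg (nb_nonneg E x)]
    intro τ
    simp only [d, D, norm_neg]
    refine IsUltrametricDist.norm_sum_le_of_forall_le_of_nonneg (nb_nonneg E x) fun j _ => ?_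
    exact norm_coord_le E x _
  · set y := b.equivFun.symm d with hy
    have hyc : ∀ τ, b.equivFun y τ = d τ := fun τ => by rw [hy, LinearEquiv.apply_symm_apply]
    set z := x - (σ y - y) with hz
    have hzc : ∀ τ, b.equivFun z τ = b.equivFun x τ - (d (σ⁻¹ * τ) - d τ) := fun τ => by
      rw [hz, map_sub, map_sub, Pi.sub_apply, Pi.sub_apply, equivFun_galois, ← hb, hyc, hyc]
    have hz0 : ∀ τ, τ ≠ 1 → b.equivFun z τ = 0 := fun τ hτ => by
      rw [hzc, hd τ hτ, sub_self]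
    have hsum : ∑ τ, b.equivFun z τ = ∑ τ, b.equivFun x τ := by
      simp only [hzc, Finset.sum_sub_distrib]
      have : ∑ τ, d (σ⁻¹ * τ) = ∑ τ, d τ :=
        Fintype.sum_equiv (Equiv.mulLeft σ⁻¹) _ _ fun τ => rfl
      rw [this]; ring
    have hz1 : b.equivFun z 1 = ∑ τ, b.equivFun x τ := by
      rw [← hsum, Finset.sum_eq_single 1 (fun τ _ h => hz0 τ h) (fun h => absurd (Finset.mem_univ _) h)]
    conv_lhs => rw [← b.sum_equivFun z]
    rw [Finset.sum_eq_single 1 (fun τ _ h => by rw [hz0 τ h, zero_smul])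
      (fun h => absurd (Finset.mem_univ _) h), hz1]

theorem norm_sum_coord_le (x : F) :
    ‖∑ τ, (IsGalois.normalBasis E F).equivFun x τ‖ ≤ nb E (∑ τ : Gal(F/E), τ x) := by
  have h : (IsGalois.normalBasis E F).equivFun (∑ τ : Gal(F/E), τ x) 1
      = ∑ τ, (IsGalois.normalBasis E F).equivFun x τ := by
    rw [map_sum, Finset.sum_apply]
    simp only [equivFun_galois, mul_one]
    exact Fintype.sum_equiv (Equiv.inv _) _ _ fun τ => rfl
  rw [← h]
  exact norm_coord_le E _ _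

theorem step_one {ρ r : ℝ} (hρ : Small E F ρ) (hr0 : 0 ≤ r) (hr : r ≤ ρ) (σ : Gal(F/E))
    (hσ : ∀ τ : Gal(F/E), τ ∈ Subgroup.zpowers σ) (w : Fˣ)
    (hw : nb E ((w : F) - 1) ≤ r) (hN : Nm E F w = 1) :
    ∃ v ∈ V E hρ, ∃ w' : Fˣ, w = Df E σ v * w' ∧ nb E ((w' : F) - 1) ≤ nbC E F * r * r ∧
      Nm E F w' = 1 := by
  have hC : 0 ≤ nbC E F := zero_le_one.trans (one_le_nbC E F)
  obtain ⟨y, hy, hxy⟩ := exists_sub_eq E σ hσ ((w : F) - 1)
  have hyr : nb E y ≤ r := hy.trans hw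
  obtain ⟨v, hv, hvy⟩ := exists_mem_V E hρ (hyr.trans hr)
  have htr : nb E (∑ τ : Gal(F/E), τ ((w : F) - 1)) ≤ nbC E F * r * r := by
    have := (nb_Nm_sub E hρ hr0 hr w hw).2
    rw [hN, Units.val_one, sub_self, zero_sub, nb_neg] at this
    exact this
  have hz : nb E ((w : F) - 1 - (σ y - y)) ≤ nbC E F * r * r := by
    rw [hxy, nb_smul]
    calc _ ≤ nb E (∑ τ : Gal(F/E), τ ((w : F) - 1)) * 1 := by
          gcongr
          · exact nb_nonneg E _
          · exact nb_nonneg E _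
          · exact norm_sum_coord_le E _
          · exact nb_basis_one_le E F
      _ ≤ _ := by rw [mul_one]; exact htr
  -- the inverse of `1 + y`
  set t : F := ((v⁻¹ : Fˣ) : F) - 1 with ht
  have hvt : (v : F) * (1 + t) = 1 := by
    rw [ht, add_sub_cancel, ← Units.val_mul, mul_inv_cancel, Units.val_one]
  have htr' : nb E t ≤ r := by
    refine (nb_inv_sub_one_le E hρ (hyr.trans hr) t ?_).trans hyr
    rw [← hvy, hvt]
  have hDf : (Df E σ v : F) = (1 + σ y) * (1 + t) := by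
    rw [coe_Df, hvy, map_add, map_one, div_eq_iff (one_add_ne_zero E hρ (hyr.trans hr)),
      mul_assoc, mul_comm (1 + t), ← hvy, hvt, mul_one]
  have hyt : (1 + y) * (1 + t) = 1 := by rw [← hvy]; exact hvt
  have hdiff : (w : F) - (Df E σ v : F)
      = ((w : F) - 1 - (σ y - y)) - (σ y - y) * t := by
    rw [hDf]; linear_combination (-1 : F) * hyt
  have hσy : nb E (σ y - y) ≤ r := nb_sub_le_of_le E (by rwa [nb_galois]) hyr
  have hprod : nb E ((σ y - y) * t) ≤ nbC E F * r * r := by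
    refine (nb_mul_le E _ _).trans ?_
    gcongr
    exact nb_nonneg E _
  have hdn : nb E ((w : F) - (Df E σ v : F)) ≤ nbC E F * r * r := by
    rw [hdiff]; exact nb_sub_le_of_le E hz hprod
  refine ⟨v, hv, (Df E σ v)⁻¹ * w, by rw [mul_inv_cancel_left], ?_, ?_⟩
  · have hi := val_inv_eq_one_add E hρ (Df_mem_V E hρ hv σ)
    have : (((Df E σ v)⁻¹ * w : Fˣ) : F) - 1
        = ((w : F) - (Df E σ v : F)) * (((Df E σ v)⁻¹ : Fˣ) : F) := by
      rw [Units.val_mul]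
      have h1 : (Df E σ v : F) * (((Df E σ v)⁻¹ : Fˣ) : F) = 1 := by
        rw [← Units.val_mul, mul_inv_cancel, Units.val_one]
      linear_combination h1
    rw [this, hi.1]
    exact (nb_mul_one_add_le E hρ.2.le hi.2).trans hdn
  · rw [map_mul, map_inv, Nm_Df, hN, inv_one, one_mul]

theorem approx_one {ρ : ℝ} (hρ : Small E F ρ) (σ : Gal(F/E))
    (hσ : ∀ τ : Gal(F/E), τ ∈ Subgroup.zpowers σ) (u : Fˣ) (hu : u ∈ V E hρ)
    (hN : Nm E F u = 1) (k : ℕ) :
    ∃ v ∈ V E hρ, ∃ w' : Fˣ, u = Df E σ v * w' ∧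
      nb E ((w' : F) - 1) ≤ (nbC E F * ρ) ^ k * ρ ∧ Nm E F w' = 1 := by
  have hC : 0 ≤ nbC E F := zero_le_one.trans (one_le_nbC E F)
  have hθ0 : 0 ≤ nbC E F * ρ := mul_nonneg hC hρ.1
  induction k with
  | zero => exact ⟨1, one_mem _, u, by simp, by simpa using (mem_V E hρ).1 hu, hN⟩
  | succ k ih =>
    obtain ⟨v, hv, w, huw, hw, hwN⟩ := ih
    have hr0 : 0 ≤ (nbC E F * ρ) ^ k * ρ := mul_nonneg (pow_nonneg hθ0 k) hρ.1
    have hr : (nbC E F * ρ) ^ k * ρ ≤ ρ :=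
      mul_le_of_le_one_left hρ.1 (pow_le_one₀ hθ0 hρ.2.le)
    obtain ⟨v', hv', w', hww, hw', hN'⟩ := step_one E hρ hr0 hr σ hσ w hw hwN
    refine ⟨v * v', mul_mem hv hv', w', ?_, hw'.trans ?_, hN'⟩
    · rw [huw, hww, map_mul, mul_assoc]
    · calc nbC E F * ((nbC E F * ρ) ^ k * ρ) * ((nbC E F * ρ) ^ k * ρ)
          ≤ nbC E F * ρ * ((nbC E F * ρ) ^ k * ρ) := by gcongr
        _ = (nbC E F * ρ) ^ (k + 1) * ρ := by ring

/-- `Ĥ⁻¹(G, V) = 0` -/
theorem exists_Df_eq {ρ : ℝ} (hρ : Small E F ρ) (σ : Gal(F/E))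
    (hσ : ∀ τ : Gal(F/E), τ ∈ Subgroup.zpowers σ) (u : Fˣ) (hu : u ∈ V E hρ)
    (hN : Nm E F u = 1) : ∃ v ∈ V E hρ, Df E σ v = u := by
  have hC : 0 ≤ nbC E F := zero_le_one.trans (one_le_nbC E F)
  have hcont : ContinuousOn (fun x : F => σ x / x) {x : F | nb E (x - 1) ≤ ρ} := by
    refine ContinuousOn.div (continuous_galois E σ).continuousOn continuousOn_id fun x hx => ?_
    have := one_add_ne_zero E hρ (x := x - 1) hx
    simpa using this
  obtain ⟨x, hx, hxu⟩ := mem_image_of_approx E (isCompact_ball E ρ) hcont (u := (u : F))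
    fun ε hε => by
      obtain ⟨k, hk⟩ := exists_pow_mul_le (mul_nonneg hC hρ.1) hρ.2 hρ.1 hε
      obtain ⟨v, hv, w, huw, hw, -⟩ := approx_one E hρ σ hσ u hu hN k
      refine ⟨v, hv, ?_⟩
      have h1 : σ (v : F) / (v : F) - (u : F)
          = -((w : F) - 1) * (1 + ((Df E σ v : F) - 1)) := by
        rw [← coe_Df, huw, Units.val_mul]; ring
      simp only [h1]
      refine (nb_mul_one_add_le E hρ.2.le (Df_mem_V E hρ hv σ)).trans ?_
      rw [nb_neg]
      exact hw.trans hk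
  obtain ⟨v, hv, hvx⟩ := exists_mem_V E hρ (x := x - 1) hx
  refine ⟨v, hv, ?_⟩
  rw [Units.ext_iff, coe_Df, hvx, ← hxu]
  simp

end NormalLattice

end Fermat.Agent.H7
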