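import Mathlib
import Fermat.Agent.H7LocHerbrand
import Fermat.Agent.H7LocCoh

/-!
# The norm index of a cyclic extension of local fields (H7)

For a finite Galois extension `F / E` of locally compact nonarchimedean fields with cyclic
Galois group, `[Eˣ : N Fˣ] = [F : E]`.
-/

set_option autoImplicit false
set_option linter.unusedSectionVars false

namespace Fermat.Agent.H7

open Subgroup Topology

/-- A subgroup of the units of a proper field, containing a neighbourhood of `1` and a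
nonunit element, has finite index. -/
theorem finiteIndex_of_nhds {F : Type*} [NormedField F] [ProperSpace F] (B : Subgroup Fˣ)
    {ε : ℝ} (hε : 0 < ε) (hB : ∀ x : Fˣ, ‖(x : F) - 1‖ < ε → x ∈ B) (π : Fˣ) (hπ : π ∈ B)
    (hπ1 : ‖(π : F)‖ < 1) : B.FiniteIndex := by
  have hπ0 : 0 < ‖(π : F)‖ := norm_pos_iff.2 π.ne_zero
  set A : Set F := {x | ‖(π : F)‖ ≤ ‖x‖ ∧ ‖x‖ ≤ 1} with hA
  have hAc : IsCompact A := by
    have h1 : A = Metric.closedBall 0 1 ∩ {x | ‖(π : F)‖ ≤ ‖x‖} := by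
      ext x; simp [hA, and_comm]
    rw [h1]
    exact (isCompact_closedBall _ _).inter_right (isClosed_le continuous_const continuous_norm)
  have hpos : ∀ x ∈ A, 0 < ‖x‖ := fun x hx => hπ0.trans_le hx.1
  obtain ⟨t, htA, ht⟩ := hAc.elim_nhds_subcover (fun x => Metric.ball x (ε * ‖x‖))
    (fun x hx => Metric.ball_mem_nhds _ (mul_pos hε (hpos x hx)))
  have key : ∀ y : Fˣ, ∃ x ∈ t, ∃ hx : x ≠ 0, (Units.mk0 x hx)⁻¹ * y ∈ B := by
    intro y
    obtain ⟨n, hn1, hn2⟩ := exists_mem_Ico_zpow (x := ‖(y : F)‖) (y := ‖(π : F)‖⁻¹)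
      (norm_pos_iff.2 y.ne_zero) ((one_lt_inv₀ hπ0).2 hπ1)
    -- `‖π‖ ^ (-n) ≤ ‖y‖ < ‖π‖ ^ (-(n+1))`, so `π ^ (n+1) * y ∈ A`
    have hz : ((π ^ (n + 1) * y : Fˣ) : F) ∈ A := by
      have hnorm : ‖((π ^ (n + 1) * y : Fˣ) : F)‖ = ‖(π : F)‖ ^ (n + 1) * ‖(y : F)‖ := by
        rw [Units.val_mul, norm_mul, Units.val_zpow_eq_zpow_val, norm_zpow]
      rw [hA, Set.mem_ofPred_eq, hnorm]
      have hp : 0 < ‖(π : F)‖ ^ (n + 1) := zpow_pos hπ0 _
      constructor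
      · calc ‖(π : F)‖ = ‖(π : F)‖ ^ (n + 1) * (‖(π : F)‖⁻¹) ^ n := by
              rw [inv_zpow, zpow_add₀ hπ0.ne', zpow_one]
              field_simp
          _ ≤ _ := by gcongr
      · calc ‖(π : F)‖ ^ (n + 1) * ‖(y : F)‖ ≤ ‖(π : F)‖ ^ (n + 1) * (‖(π : F)‖⁻¹) ^ (n + 1) := by
              gcongr
          _ = 1 := by rw [inv_zpow, mul_inv_cancel₀ hp.ne']
    obtain ⟨x, hxt, hx⟩ := Set.mem_iUnion₂.1 (ht hz)
    have hx0 : x ≠ 0 := norm_pos_iff.1 (hpos x (htA x hxt))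
    refine ⟨x, hxt, hx0, ?_⟩
    have h2 : (Units.mk0 x hx0)⁻¹ * (π ^ (n + 1) * y) ∈ B := by
      apply hB
      rw [Units.val_mul, Units.val_inv_eq_inv_val, Units.val_mk0]
      have : x⁻¹ * ((π ^ (n + 1) * y : Fˣ) : F) - 1
          = x⁻¹ * (((π ^ (n + 1) * y : Fˣ) : F) - x) := by field_simp
      rw [this, norm_mul, norm_inv]
      rw [Metric.mem_ball, dist_eq_norm] at hx
      rw [inv_mul_lt_iff₀ (norm_pos_iff.2 hx0), mul_comm ‖x‖]
      exact hx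
    have h3 : (Units.mk0 x hx0)⁻¹ * y
        = (π ^ (n + 1))⁻¹ * ((Units.mk0 x hx0)⁻¹ * (π ^ (n + 1) * y)) := by
      rw [mul_left_comm (Units.mk0 x hx0)⁻¹, inv_mul_cancel_left]
    rw [h3]
    exact mul_mem (inv_mem (zpow_mem hπ _)) h2
  have hfin : Finite (Fˣ ⧸ B) := by
    classical
    choose f hf using key
    let g : t → Fˣ ⧸ B := fun x =>
      if hx : (x : F) = 0 then 1 else QuotientGroup.mk (Units.mk0 (x : F) hx)
    refine Finite.of_surjective g fun q => ?_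
    induction q using QuotientGroup.induction_on with
    | H y =>
      obtain ⟨hft, hf0, hfy⟩ := hf y
      refine ⟨⟨f y, hft⟩, ?_⟩
      simp only [g, dif_neg hf0]
      exact QuotientGroup.eq.2 hfy
  exact finiteIndex_of_finite_quotient

section

variable (E : Type) {F : Type} [NontriviallyNormedField E] [IsUltrametricDist E] [ProperSpace E]
  [NormedField F] [NormedAlgebra E F] [FiniteDimensional E F] [IsGalois E F]

theorem norm_le_of_mem_V {ρ : ℝ} (hρ : Small E F ρ) :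
    ∃ M : ℝ, ∀ v ∈ V E hρ, ‖((v : Fˣ) : F)‖ ≤ M := by
  obtain ⟨c, hc, hle⟩ := exists_norm_le_nb E (F := F)
  refine ⟨‖(1 : F)‖ + c * ρ, fun v hv => ?_⟩
  calc ‖(v : F)‖ = ‖1 + ((v : F) - 1)‖ := by rw [add_sub_cancel]
    _ ≤ ‖(1 : F)‖ + ‖(v : F) - 1‖ := norm_add_le _ _
    _ ≤ ‖(1 : F)‖ + c * ρ := by
        gcongr
        exact (hle _).trans (by gcongr; exact (mem_V E hρ).1 hv)

theorem norm_eq_one_of_mem_V {ρ : ℝ} (hρ : Small E F ρ) {v : Fˣ} (hv : v ∈ V E hρ) :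
    ‖(v : F)‖ = 1 := by
  obtain ⟨M, hM⟩ := norm_le_of_mem_V E hρ (F := F)
  have key : ∀ w ∈ V E hρ, ‖((w : Fˣ) : F)‖ ≤ 1 := by
    intro w hw
    by_contra h
    push Not at h
    obtain ⟨n, hn⟩ := pow_unbounded_of_one_lt M h
    have := hM (w ^ n) (pow_mem hw n)
    rw [Units.val_pow_eq_pow_val, norm_pow] at this
    exact absurd this (not_le.2 hn)
  refine le_antisymm (key v hv) ?_
  have h2 := key _ (inv_mem hv)
  rw [Units.val_inv_eq_inv_val, norm_inv] at h2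
  exact (inv_le_one₀ (norm_pos_iff.2 v.ne_zero)).1 h2

theorem mem_ker_Df {σ : Gal(F/E)} {u : Fˣ} : u ∈ (Df E σ).ker ↔ σ (u : F) = u := by
  rw [MonoidHom.mem_ker, Units.ext_iff, coe_Df, Units.val_one, div_eq_one_iff_eq u.ne_zero]

theorem galois_eq_of_generator {σ : Gal(F/E)} (hσ : ∀ τ : Gal(F/E), τ ∈ zpowers σ) {x : F}
    (hx : σ x = x) (τ : Gal(F/E)) : τ x = x := by
  obtain ⟨n, rfl⟩ := hσ τ
  have : σ ∈ MulAction.stabilizer Gal(F/E) x := hx
  exact zpow_mem this n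

theorem ker_Nm_eq {σ : Gal(F/E)} (hσ : ∀ τ : Gal(F/E), τ ∈ zpowers σ) :
    (Nm E F).ker = (Df E σ).range := by
  have : IsCyclic Gal(F/E) := ⟨σ, hσ⟩
  refine le_antisymm (fun u hu => ?_) ?_
  · have h1 : Algebra.norm E ((u⁻¹ : Fˣ) : F) = 1 := by
      apply (algebraMap E F).injective
      rw [Algebra.norm_eq_prod_automorphisms, map_one, ← coe_Nm, map_inv, MonoidHom.mem_ker.1 hu,
        inv_one, Units.val_one]
    obtain ⟨y, hy⟩ := groupCohomology.exists_div_of_norm_eq_one hσ h1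
    refine ⟨y, ?_⟩
    rw [Units.ext_iff, coe_Df]
    rw [Units.val_inv_eq_inv_val] at hy
    rw [← inv_inv (u : F), ← hy, inv_div]
  · rintro _ ⟨y, rfl⟩
    exact Nm_Df E σ y

/-- image of a nonzero element of the base field -/
noncomputable def up (F : Type) [NormedField F] [NormedAlgebra E F] : Eˣ →* Fˣ :=
  Units.map (algebraMap E F : E →* F)

theorem coe_up (a : Eˣ) : ((up E F a : Fˣ) : F) = algebraMap E F a := rfl

theorem norm_up (a : Eˣ) : ‖((up E F a : Fˣ) : F)‖ = ‖(a : E)‖ := by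
  rw [coe_up, norm_algebraMap']

theorem Nm_up (a : Eˣ) : Nm E F (up E F a) = up E F a ^ Nat.card Gal(F/E) := by
  rw [Units.ext_iff, coe_Nm]
  simp [coe_up, Nat.card_eq_fintype_card]

theorem Df_up (σ : Gal(F/E)) (a : Eˣ) : Df E σ (up E F a) = 1 := by
  rw [Units.ext_iff, coe_Df, coe_up, AlgEquiv.commutes, div_self, Units.val_one]
  exact (up E F a).ne_zero

theorem up_injective : Function.Injective (up E F) :=
  Units.map_injective (algebraMap E F).injective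

/-- the subgroup `⟨π⟩ × V` -/
noncomputable def BV {ρ : ℝ} (hρ : Small E F ρ) (π : Eˣ) : Subgroup Fˣ :=
  zpowers (up E F π) ⊔ V E hρ

theorem mem_BV {ρ : ℝ} (hρ : Small E F ρ) (π : Eˣ) {u : Fˣ} :
    u ∈ BV E hρ π ↔ ∃ k : ℤ, ∃ v ∈ V E hρ, up E F π ^ k * v = u := by
  rw [BV, mem_sup]
  constructor
  · rintro ⟨_, ⟨k, rfl⟩, v, hv, h⟩
    exact ⟨k, v, hv, h⟩
  · rintro ⟨k, v, hv, h⟩
    exact ⟨_, ⟨k, rfl⟩, v, hv, h⟩

theorem zpow_eq_one_of_norm {a : ℝ} (h0 : 0 < a) (h1 : a < 1) {k : ℤ} (h : a ^ k = 1) : k = 0 :=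
  zpow_right_injective₀ h0 h1.ne (by simpa using h)

theorem norm_BV {ρ : ℝ} (hρ : Small E F ρ) (π : Eˣ) (k : ℤ) {v : Fˣ} (hv : v ∈ V E hρ) :
    ‖((up E F π ^ k * v : Fˣ) : F)‖ = ‖(π : E)‖ ^ k := by
  rw [Units.val_mul, norm_mul, norm_eq_one_of_mem_V E hρ hv, mul_one, Units.val_zpow_eq_zpow_val,
    norm_zpow, norm_up]

theorem finiteIndex_BV {ρ : ℝ} (hρ : Small E F ρ) (hρ0 : 0 < ρ) (π : Eˣ) (hπ : ‖(π : E)‖ < 1) :
    (BV E hρ π : Subgroup Fˣ).FiniteIndex := by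
  have : ProperSpace F := FiniteDimensional.proper E F
  have h0 : (nb E (0 : F)) < ρ := by rw [nb_zero]; exact hρ0
  have h1 : ∀ᶠ x in 𝓝 (0 : F), nb E x < ρ := (continuous_nb E).continuousAt.eventually_lt_const h0
  obtain ⟨ε, hε, h2⟩ := Metric.eventually_nhds_iff.1 h1
  refine finiteIndex_of_nhds (BV E hρ π) hε (fun x hx => ?_) (up E F π) ?_ ?_
  · refine (le_sup_right : V E hρ ≤ BV E hρ π) ((mem_V E hρ).2 (h2 ?_).le)
    rwa [dist_zero_right]
  · exact (le_sup_left : zpowers (up E F π) ≤ BV E hρ π) (mem_zpowers _)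
  · rwa [norm_up]

theorem map_Nm_BV_le {ρ : ℝ} (hρ : Small E F ρ) (π : Eˣ) :
    (BV E hρ π).map (Nm E F) ≤ BV E hρ π := by
  rintro _ ⟨u, hu, rfl⟩
  obtain ⟨k, v, hv, rfl⟩ := (mem_BV E hρ π).1 hu
  rw [map_mul, map_zpow, Nm_up]
  refine (mem_BV E hρ π).2 ⟨Nat.card Gal(F/E) * k, _, Nm_mem_V E hρ hv, ?_⟩
  rw [zpow_mul, zpow_natCast]

theorem map_Df_BV_le {ρ : ℝ} (hρ : Small E F ρ) (π : Eˣ) (σ : Gal(F/E)) :
    (BV E hρ π).map (Df E σ) ≤ BV E hρ π := by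
  rintro _ ⟨u, hu, rfl⟩
  obtain ⟨k, v, hv, rfl⟩ := (mem_BV E hρ π).1 hu
  rw [map_mul, map_zpow, Df_up, one_zpow, one_mul]
  exact (le_sup_right : V E hρ ≤ BV E hρ π) (Df_mem_V E hρ hv σ)

theorem relIndex_one {ρ : ℝ} (hρ : Small E F ρ) (π : Eˣ) (hπ : ‖(π : E)‖ < 1)
    {σ : Gal(F/E)} (hσ : ∀ τ : Gal(F/E), τ ∈ zpowers σ) :
    ((BV E hρ π).map (Df E σ)).relIndex ((Nm E F).ker ⊓ BV E hρ π) = 1 := by
  rw [relIndex_eq_one]
  rintro u ⟨hu1, hu2⟩
  obtain ⟨k, v, hv, rfl⟩ := (mem_BV E hρ π).1 hu2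
  have hπ0 : 0 < ‖(π : E)‖ := norm_pos_iff.2 π.ne_zero
  have h1 : Nm E F (up E F π ^ k * v) = up E F π ^ (Nat.card Gal(F/E) * k : ℤ) * Nm E F v := by
    rw [map_mul, map_zpow, Nm_up, zpow_mul, zpow_natCast]
  have h2 := norm_BV E hρ π (Nat.card Gal(F/E) * k : ℤ) (Nm_mem_V E hρ hv)
  rw [← h1, MonoidHom.mem_ker.1 hu1, Units.val_one, norm_one] at h2
  have h3 := zpow_eq_one_of_norm hπ0 hπ h2.symm
  have hk : k = 0 := by
    rcases mul_eq_zero.1 h3 with h | h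
    · exact absurd (Int.natCast_eq_zero.1 h) Nat.card_pos.ne'
    · exact h
  subst hk
  rw [zpow_zero, one_mul] at hu1 ⊢
  obtain ⟨w, hw, hwv⟩ := exists_Df_eq E hρ σ hσ v hv hu1
  exact ⟨w, (le_sup_right : V E hρ ≤ BV E hρ π) hw, hwv⟩

theorem relIndex_zero {ρ : ℝ} (hρ : Small E F ρ) (π : Eˣ) (hπ : ‖(π : E)‖ < 1)
    {σ : Gal(F/E)} (hσ : ∀ τ : Gal(F/E), τ ∈ zpowers σ) :
    ((BV E hρ π).map (Nm E F)).relIndex ((Df E σ).ker ⊓ BV E hρ π) = Nat.card Gal(F/E) := by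
  have hπ0 : 0 < ‖(π : E)‖ := norm_pos_iff.2 π.ne_zero
  set n := Nat.card Gal(F/E) with hn
  set H := (BV E hρ π).map (Nm E F) with hH
  -- `K = ⟨π⟩ · H`
  have hK : (Df E σ).ker ⊓ BV E hρ π = zpowers (up E F π) ⊔ H := by
    apply le_antisymm
    · rintro u ⟨hu1, hu2⟩
      obtain ⟨k, v, hv, rfl⟩ := (mem_BV E hρ π).1 hu2
      have hv1 : v ∈ (Df E σ).ker := by
        have := MonoidHom.mem_ker.1 hu1
        rw [map_mul, map_zpow, Df_up, one_zpow, one_mul] at this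
        exact this
      obtain ⟨w, hw, hwv⟩ := exists_Nm_eq E hρ v hv
        (fun τ => galois_eq_of_generator E hσ ((mem_ker_Df E).1 hv1) τ)
      refine mul_mem ((le_sup_left : zpowers (up E F π) ≤ _) ⟨k, rfl⟩)
        ((le_sup_right : H ≤ _) ⟨w, (le_sup_right : V E hρ ≤ BV E hρ π) hw, hwv⟩)
    · refine sup_le ?_ (le_inf ?_ (map_Nm_BV_le E hρ π))
      · rw [zpowers_le]
        exact ⟨MonoidHom.mem_ker.2 (Df_up E σ π), (mem_BV E hρ π).2 ⟨1, 1, one_mem _, by simp⟩⟩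
      · rintro _ ⟨w, -, rfl⟩
        exact MonoidHom.mem_ker.2 (Df_Nm E σ w)
  rw [hK, relIndex_sup_right]
  let φ : Multiplicative ℤ →* Fˣ := zpowersHom _ (up E F π)
  have hφ : φ.range = zpowers (up E F π) := rfl
  rw [← hφ, ← index_comap]
  have h1 : H.comap φ = (AddSubgroup.zmultiples (n : ℤ)).toSubgroup := by
    ext k
    rw [mem_comap]
    have h2 : φ k = up E F π ^ (Multiplicative.toAdd k) := rfl
    have h3 : k ∈ (AddSubgroup.zmultiples (n : ℤ)).toSubgroup ↔ (n : ℤ) ∣ Multiplicative.toAdd k :=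
      Int.mem_zmultiples_iff
    rw [h2, h3]
    constructor
    · rintro ⟨w, hw, hw2⟩
      obtain ⟨j, v, hv, rfl⟩ := (mem_BV E hρ π).1 hw
      have e1 := norm_BV E hρ π (n * j : ℤ) (Nm_mem_V E hρ hv)
      have e2 := norm_BV E hρ π (Multiplicative.toAdd k) (one_mem (V E hρ))
      rw [mul_one, ← hw2, map_mul, map_zpow, Nm_up, ← hn, ← zpow_natCast, ← zpow_mul, e1] at e2
      exact ⟨j, (zpow_right_injective₀ hπ0 hπ.ne e2).symm⟩
    · rintro ⟨j, hj⟩
      refine ⟨up E F π ^ j, (mem_BV E hρ π).2 ⟨j, 1, one_mem _, mul_one _⟩, ?_⟩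
      rw [map_zpow, Nm_up, hj, ← hn, zpow_mul, zpow_natCast]
  rw [h1]
  have h4 : ((AddSubgroup.zmultiples (n : ℤ)).toSubgroup).index
      = (AddSubgroup.zmultiples (n : ℤ)).index := rfl
  rw [h4, Int.index_zmultiples, Int.natAbs_natCast]

theorem exists_small_pos : ∃ ρ : ℝ, 0 < ρ ∧ Small E F ρ := by
  have h := one_le_nbC E F
  have h0 : 0 < nbC E F := zero_lt_one.trans_le h
  refine ⟨1 / (2 * nbC E F), by positivity, by positivity, ?_⟩
  rw [mul_one_div, div_lt_one (by positivity)]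
  linarith

theorem relIndex_norm {σ : Gal(F/E)} (hσ : ∀ τ : Gal(F/E), τ ∈ zpowers σ) :
    (Nm E F).range.relIndex (Df E σ).ker = Nat.card Gal(F/E) := by
  obtain ⟨ρ, hρ0, hρ⟩ := exists_small_pos E (F := F)
  obtain ⟨p, hp0, hp1⟩ := NormedField.exists_norm_lt_one E
  have hp : p ≠ 0 := norm_pos_iff.1 hp0
  set π : Eˣ := Units.mk0 p hp with hπdef
  have hπ : ‖(π : E)‖ < 1 := hp1
  have hfin := finiteIndex_BV E hρ hρ0 π hπ (F := F)
  have h := herbrand_index (Nm E F) (Df E σ) (Nm_Df E σ) (Df_Nm E σ) (BV E hρ π)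
    hfin.index_ne_zero (map_Nm_BV_le E hρ π) (map_Df_BV_le E hρ π σ)
  rw [relIndex_one E hρ π hπ hσ, relIndex_zero E hρ π hπ hσ, ker_Nm_eq E hσ, relIndex_self,
    one_mul, one_mul] at h
  exact h.symm

/-- **The norm index of a cyclic extension of local fields** -/
theorem index_norm [IsCyclic Gal(F/E)] :
    (Units.map (Algebra.norm E : F →* E)).range.index = Module.finrank E F := by
  obtain ⟨σ, hσ⟩ := IsCyclic.exists_generator (α := Gal(F/E))
  have h := relIndex_norm E hσ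
  have h1 : (Nm E F).range = ((Units.map (Algebra.norm E : F →* E)).range).map (up E F) := by
    rw [MonoidHom.range_eq_map, MonoidHom.range_eq_map, Subgroup.map_map]
    congr 1
    ext u
    rw [coe_Nm, MonoidHom.comp_apply, coe_up, Units.coe_map]
    exact (Algebra.norm_eq_prod_automorphisms E (u : F)).symm
  have h2 : (Df E σ).ker = (⊤ : Subgroup Eˣ).map (up E F) := by
    ext u
    rw [mem_ker_Df]
    constructor
    · intro hu
      obtain ⟨a, ha⟩ := (IsGalois.mem_range_algebraMap_iff_fixed (F := E) (E := F) (u : F)).2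
        (fun τ => galois_eq_of_generator E hσ hu τ)
      have ha0 : a ≠ 0 := by
        rintro rfl
        rw [map_zero] at ha
        exact u.ne_zero ha.symm
      exact ⟨Units.mk0 a ha0, mem_top _, Units.ext ha⟩
    · rintro ⟨a, -, rfl⟩
      rw [coe_up, AlgEquiv.commutes]
  rw [h1, h2, relIndex_map_map_of_injective _ _ (up_injective E), relIndex_top_right,
    IsGalois.card_aut_eq_finrank] at h
  exact h

end

end Fermat.Agent.H7
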