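import Mathlib
import Fermat.Agent.H7LocIndex

set_option autoImplicit false

namespace Fermat.Agent.H7

open Subgroup Topology

section abstract_local

variable (q : ℕ) [Fact q.Prime]

example : ProperSpace ℚ_[q] := inferInstance

/-- **Norm index**, for a cyclic extension of a locally compact non archimedean field, with no norm
on the big field. -/
theorem index_norm_of_local (E F : Type) [NontriviallyNormedField E] [IsUltrametricDist E]
    [ProperSpace E] [Field F] [Algebra E F] [FiniteDimensional E F] [IsGalois E F]
    [IsCyclic Gal(F/E)] :
    (Units.map (Algebra.norm E : F →* E)).range.index = Module.finrank E F := by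
  let : NormedField F := spectralNorm.normedField E F
  let : NormedAlgebra E F := spectralNorm.normedAlgebra E F
  exact index_norm E (F := F)

/-- **Norm index** for finite extensions of `ℚ_[q]`. -/
theorem index_norm_padic (E F : Type) [Field E] [Algebra ℚ_[q] E] [FiniteDimensional ℚ_[q] E]
    [Field F] [Algebra E F] [FiniteDimensional E F] [IsGalois E F]
    [IsCyclic Gal(F/E)] :
    (Units.map (Algebra.norm E : F →* E)).range.index = Module.finrank E F := by
  let : NontriviallyNormedField E := spectralNorm.nontriviallyNormedField ℚ_[q] E
  let : NormedAlgebra ℚ_[q] E := spectralNorm.normedAlgebra ℚ_[q] E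
  have : IsUltrametricDist E := IsUltrametricDist.of_normedAlgebra ℚ_[q]
  have : ProperSpace E := FiniteDimensional.proper ℚ_[q] E
  exact index_norm_of_local E F

end abstract_local

end Fermat.Agent.H7
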