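import Mathlib
import Fermat.Agent.H7LocHerbrand
import Fermat.Agent.H7LocIndex

/-!
# The index of `n`-th powers in a local field (H7)

`[Eˣ : Eˣⁿ] = n · #μ_n(E) · [𝓞 : n𝓞]` for a locally compact nonarchimedean field `E` in which
`n ≠ 0`.
-/

set_option autoImplicit false

namespace Fermat.Agent.H7

open Subgroup Topology

section Ultra

variable {E : Type*} [NormedField E] [IsUltrametricDist E]

theorem norm_add_le_of_le {x y : E} {r : ℝ} (hx : ‖x‖ ≤ r) (hy : ‖y‖ ≤ r) : ‖x + y‖ ≤ r :=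
  (IsUltrametricDist.norm_add_le_max x y).trans (max_le hx hy)

theorem norm_sub_le_of_le {x y : E} {r : ℝ} (hx : ‖x‖ ≤ r) (hy : ‖y‖ ≤ r) : ‖x - y‖ ≤ r := by
  rw [sub_eq_add_neg]
  exact norm_add_le_of_le hx (by rwa [norm_neg])

theorem norm_eq_one_of_sub {x : E} {r : ℝ} (hr : r < 1) (hx : ‖x - 1‖ ≤ r) : ‖x‖ = 1 := by
  have h : ‖x - 1‖ < ‖(1 : E)‖ := by rw [norm_one]; exact hx.trans_lt hr
  have := IsUltrametricDist.norm_add_eq_max_of_norm_ne_norm h.ne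
  rw [sub_add_cancel, max_eq_right h.le, norm_one] at this
  exact this

theorem norm_pow_expand (n : ℕ) {y : E} (hy : ‖y‖ ≤ 1) :
    ‖(1 + y) ^ n - 1 - n * y‖ ≤ ‖y‖ * ‖y‖ := by
  have h1 : ‖1 + y‖ ≤ 1 := norm_add_le_of_le norm_one.le hy
  induction n with
  | zero => simp; positivity
  | succ n ih =>
    have : (1 + y) ^ (n + 1) - 1 - ((n + 1 : ℕ) : E) * y
        = ((1 + y) ^ n - 1 - n * y) * (1 + y) + n * (y * y) := by
      push_cast; ring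
    rw [this]
    refine norm_add_le_of_le ?_ ?_
    · rw [norm_mul]
      exact (mul_le_of_le_one_right (norm_nonneg _) h1).trans ih
    · rw [norm_mul, norm_mul]
      exact mul_le_of_le_one_left (by positivity) (IsUltrametricDist.norm_natCast_le_one E n)

/-- `1 + B_r` -/
def U1 (r : ℝ) (hr0 : 0 ≤ r) (hr : r < 1) : Subgroup Eˣ where
  carrier := {x | ‖(x : E) - 1‖ ≤ r}
  one_mem' := by simpa using hr0
  mul_mem' {x y} hx hy := by
    simp only [Set.mem_ofPred_eq, Units.val_mul] at *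
    have : (x : E) * y - 1 = ((x : E) - 1) * y + (y - 1) := by ring
    rw [this]
    refine norm_add_le_of_le ?_ hy
    rw [norm_mul, norm_eq_one_of_sub hr hy, mul_one]
    exact hx
  inv_mem' {x} hx := by
    simp only [Set.mem_ofPred_eq] at *
    have : ((x⁻¹ : Eˣ) : E) - 1 = -(((x : E) - 1) * ((x⁻¹ : Eˣ) : E)) := by
      rw [sub_mul, ← Units.val_mul, mul_inv_cancel]; simp
    rw [this, norm_neg, norm_mul, Units.val_inv_eq_inv_val, norm_inv,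
      norm_eq_one_of_sub hr hx, inv_one, mul_one]
    exact hx

theorem mem_U1 {r : ℝ} {hr0 : 0 ≤ r} {hr : r < 1} {x : Eˣ} :
    x ∈ U1 r hr0 hr ↔ ‖(x : E) - 1‖ ≤ r := Iff.rfl

theorem norm_of_mem_U1 {r : ℝ} {hr0 : 0 ≤ r} {hr : r < 1} {x : Eˣ} (hx : x ∈ U1 r hr0 hr) :
    ‖(x : E)‖ = 1 := norm_eq_one_of_sub hr hx

variable (E) in
/-- closed ball as additive subgroup -/
def Bl (r : ℝ) (hr0 : 0 ≤ r) : AddSubgroup E where
  carrier := {x | ‖x‖ ≤ r}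
  zero_mem' := by simpa using hr0
  add_mem' hx hy := norm_add_le_of_le hx hy
  neg_mem' {x} hx := by simpa using hx

theorem mem_Bl {r : ℝ} {hr0 : 0 ≤ r} {x : E} : x ∈ Bl E r hr0 ↔ ‖x‖ ≤ r := Iff.rfl

theorem relIndex_U1 {r r' : ℝ} (hr0 : 0 ≤ r) (hr : r < 1) (hr0' : 0 ≤ r') (hr' : r' < 1)
    (hsq : r * r ≤ r') :
    (U1 (E := E) r' hr0' hr').relIndex (U1 r hr0 hr) = (Bl E r' hr0').relIndex (Bl E r hr0) := by
  let Q := (Bl E r hr0) ⧸ (Bl E r' hr0').addSubgroupOf (Bl E r hr0)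
  let φ : (U1 (E := E) r hr0 hr) →* Multiplicative Q :=
    { toFun := fun x => Multiplicative.ofAdd
        (QuotientAddGroup.mk (⟨((x : Eˣ) : E) - 1, x.2⟩ : Bl E r hr0))
      map_one' := by
        rw [← ofAdd_zero]
        congr 1
        rw [QuotientAddGroup.eq_zero_iff, AddSubgroup.mem_addSubgroupOf, mem_Bl]
        simpa using hr0'
      map_mul' := fun x y => by
        rw [← ofAdd_add]
        congr 1
        rw [← QuotientAddGroup.mk_add, QuotientAddGroup.eq, AddSubgroup.mem_addSubgroupOf, mem_Bl]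
        have : (((-(⟨((x * y : Eˣ) : E) - 1, (x * y).2⟩ : Bl E r hr0)
            + (⟨((x : Eˣ) : E) - 1, x.2⟩ + ⟨((y : Eˣ) : E) - 1, y.2⟩ : Bl E r hr0)) :
              Bl E r hr0) : E)
            = -((((x : Eˣ) : E) - 1) * (((y : Eˣ) : E) - 1)) := by
          push_cast
          ring
        refine (le_of_eq (congrArg norm this)).trans ?_
        rw [norm_neg, norm_mul]
        exact (mul_le_mul x.2 y.2 (norm_nonneg _) hr0).trans hsq }
  have hker : (U1 (E := E) r' hr0' hr').subgroupOf (U1 r hr0 hr) = φ.ker := by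
    ext x
    rw [mem_subgroupOf, mem_U1, MonoidHom.mem_ker]
    change _ ↔ Multiplicative.ofAdd _ = Multiplicative.ofAdd (0 : Q)
    rw [Multiplicative.ofAdd.apply_eq_iff_eq, QuotientAddGroup.eq_zero_iff,
      AddSubgroup.mem_addSubgroupOf, mem_Bl]
  have hsurj : Function.Surjective φ := by
    intro z
    obtain ⟨z, rfl⟩ := Multiplicative.ofAdd.surjective z
    obtain ⟨z, rfl⟩ := QuotientAddGroup.mk_surjective z
    have hz0 : (1 + (z : E)) ≠ 0 := by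
      intro h
      have h1 : (z : E) = -1 := by linear_combination h
      have h2 : ‖(z : E)‖ ≤ r := z.2
      rw [h1, norm_neg, norm_one] at h2
      linarith
    refine ⟨⟨Units.mk0 (1 + (z : E)) hz0, ?_⟩, ?_⟩
    · rw [mem_U1, Units.val_mk0, add_sub_cancel_left]; exact z.2
    · change Multiplicative.ofAdd _ = Multiplicative.ofAdd _
      congr 2
      ext
      simp
  rw [relIndex, hker, index_ker, MonoidHom.range_eq_top.2 hsurj, AddSubgroup.relIndex,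
    AddSubgroup.index_eq_card]
  rw [Subgroup.card_top]
  rfl

theorem pow_mem_U1 (n : ℕ) {ρ : ℝ} (hρ : ρ < 1) (hρn : ρ ≤ ‖(n : E)‖) {x : Eˣ}
    {r : ℝ} (hr : r ≤ ρ) (hx : ‖(x : E) - 1‖ ≤ r) :
    ‖((x ^ n : Eˣ) : E) - 1‖ ≤ ‖(n : E)‖ * r := by
  have h := norm_pow_expand n (hx.trans (hr.trans hρ.le))
  rw [add_sub_cancel] at h
  have : ((x ^ n : Eˣ) : E) - 1 = ((x : E) ^ n - 1 - n * ((x : E) - 1)) + n * ((x : E) - 1) := by
    rw [Units.val_pow_eq_pow_val]; ring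
  rw [this]
  refine norm_add_le_of_le (h.trans ?_) ?_
  · exact mul_le_mul (hx.trans (hr.trans hρn)) hx (norm_nonneg _) (norm_nonneg _)
  · rw [norm_mul]
    gcongr

theorem eq_one_of_pow (n : ℕ) {ρ : ℝ} (hρ : ρ < 1) (hρn : ρ < ‖(n : E)‖) {x : Eˣ}
    (hx : ‖(x : E) - 1‖ ≤ ρ) (hxn : x ^ n = 1) : x = 1 := by
  by_contra hne
  have hy : (x : E) - 1 ≠ 0 := fun h => hne (Units.ext (by simpa [sub_eq_zero] using h))
  have h := norm_pow_expand n (hx.trans hρ.le)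
  rw [add_sub_cancel, ← Units.val_pow_eq_pow_val, hxn, Units.val_one, sub_self, zero_sub, norm_neg,
    norm_mul] at h
  have h2 := le_of_mul_le_mul_right h (norm_pos_iff.2 hy)
  linarith

theorem root_step (n : ℕ) {ρ : ℝ} (hρ0 : 0 ≤ ρ) (hρ : ρ < 1) (hρn : ρ < ‖(n : E)‖) {r : ℝ}
    (hr : r ≤ ρ) (w : Eˣ) (hw : ‖(w : E) - 1‖ ≤ ‖(n : E)‖ * r) :
    ∃ v : Eˣ, ‖(v : E) - 1‖ ≤ r ∧ ∃ w' : Eˣ, w = v ^ n * w' ∧
      ‖(w' : E) - 1‖ ≤ ‖(n : E)‖ * (ρ / ‖(n : E)‖ * r) := by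
  have hn0 : 0 < ‖(n : E)‖ := hρ0.trans_lt hρn
  have hn : (n : E) ≠ 0 := norm_pos_iff.1 hn0
  set y : E := ((w : E) - 1) / n with hy
  have hyr : ‖y‖ ≤ r := by
    rw [hy, norm_div, div_le_iff₀ hn0, mul_comm]; exact hw
  have hr1 : r < 1 := hr.trans_lt hρ
  have h0 : 1 + y ≠ 0 := by
    intro h
    have h1 : y = -1 := by linear_combination h
    rw [h1, norm_neg, norm_one] at hyr
    linarith
  have hv1 : ‖((Units.mk0 (1 + y) h0 : Eˣ) : E) - 1‖ ≤ r := by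
    rw [Units.val_mk0, add_sub_cancel_left]; exact hyr
  refine ⟨Units.mk0 (1 + y) h0, hv1, (Units.mk0 (1 + y) h0 ^ n)⁻¹ * w,
    by rw [mul_inv_cancel_left], ?_⟩
  set v := Units.mk0 (1 + y) h0 with hv
  have hvn : ‖((v ^ n : Eˣ) : E)‖ = 1 := by
    rw [Units.val_pow_eq_pow_val, norm_pow, norm_eq_one_of_sub hr1 hv1, one_pow]
  have e1 : (((v ^ n)⁻¹ * w : Eˣ) : E) - 1
      = -(((v ^ n : Eˣ) : E) - w) * (((v ^ n)⁻¹ : Eˣ) : E) := by
    have h1 : ((v ^ n : Eˣ) : E) * (((v ^ n)⁻¹ : Eˣ) : E) = 1 := by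
      rw [← Units.val_mul, mul_inv_cancel, Units.val_one]
    rw [Units.val_mul]
    linear_combination h1
  have e2 : ((v ^ n : Eˣ) : E) - w = (1 + y) ^ n - 1 - n * y := by
    rw [Units.val_pow_eq_pow_val, hv, Units.val_mk0, hy]
    field_simp
    ring
  rw [e1, norm_mul, norm_neg, Units.val_inv_eq_inv_val, norm_inv, hvn, inv_one, mul_one, e2]
  refine (norm_pow_expand n (hyr.trans hr1.le)).trans ?_
  calc ‖y‖ * ‖y‖ ≤ ρ * r := mul_le_mul (hyr.trans hr) hyr (norm_nonneg _) hρ0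
    _ = ‖(n : E)‖ * (ρ / ‖(n : E)‖ * r) := by field_simp

theorem root_approx (n : ℕ) {ρ : ℝ} (hρ0 : 0 ≤ ρ) (hρ : ρ < 1) (hρn : ρ < ‖(n : E)‖)
    (w : Eˣ) (hw : ‖(w : E) - 1‖ ≤ ‖(n : E)‖ * ρ) (k : ℕ) :
    ∃ v : Eˣ, ‖(v : E) - 1‖ ≤ ρ ∧ ∃ w' : Eˣ, w = v ^ n * w' ∧
      ‖(w' : E) - 1‖ ≤ ‖(n : E)‖ * ((ρ / ‖(n : E)‖) ^ k * ρ) := by
  have hn0 : 0 < ‖(n : E)‖ := hρ0.trans_lt hρn
  have hθ0 : 0 ≤ ρ / ‖(n : E)‖ := div_nonneg hρ0 hn0.le
  have hθ : ρ / ‖(n : E)‖ ≤ 1 := (div_le_one hn0).2 hρn.le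
  induction k with
  | zero => exact ⟨1, by simpa using hρ0, w, by simp, by simpa using hw⟩
  | succ k ih =>
    obtain ⟨v, hv, w₁, rfl, hw₁⟩ := ih
    have hr : (ρ / ‖(n : E)‖) ^ k * ρ ≤ ρ := mul_le_of_le_one_left hρ0 (pow_le_one₀ hθ0 hθ)
    obtain ⟨v', hv', w', rfl, hw'⟩ := root_step n hρ0 hρ hρn hr w₁ hw₁
    refine ⟨v * v', (U1 ρ hρ0 hρ).mul_mem hv (hv'.trans hr), w', ?_, ?_⟩
    · rw [mul_pow, mul_assoc]
    · refine hw'.trans (le_of_eq ?_)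
      ring

theorem root_exists [ProperSpace E] (n : ℕ) {ρ : ℝ} (hρ0 : 0 ≤ ρ) (hρ : ρ < 1)
    (hρn : ρ < ‖(n : E)‖) (w : Eˣ) (hw : ‖(w : E) - 1‖ ≤ ‖(n : E)‖ * ρ) :
    ∃ v : Eˣ, ‖(v : E) - 1‖ ≤ ρ ∧ v ^ n = w := by
  have hn0 : 0 < ‖(n : E)‖ := hρ0.trans_lt hρn
  have hn1 : ‖(n : E)‖ ≤ 1 := IsUltrametricDist.norm_natCast_le_one E n
  have hθ0 : 0 ≤ ρ / ‖(n : E)‖ := div_nonneg hρ0 hn0.le
  have hθ : ρ / ‖(n : E)‖ < 1 := (div_lt_one hn0).2 hρn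
  set K : Set E := Metric.closedBall 1 ρ with hK
  have hKc : IsCompact K := isCompact_closedBall _ _
  have hcl : IsClosed ((fun x : E => x ^ n) '' K) :=
    (hKc.image (continuous_pow n)).isClosed
  have hmem : (w : E) ∈ (fun x : E => x ^ n) '' K := by
    rw [← hcl.closure_eq, Metric.mem_closure_iff]
    intro ε hε
    obtain ⟨k, hk⟩ := exists_pow_mul_le hθ0 hθ hρ0 (half_pos hε)
    obtain ⟨v, hv, w', hw1, hw'⟩ := root_approx n hρ0 hρ hρn w hw k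
    refine ⟨_, ⟨(v : E), by rwa [hK, mem_closedBall_iff_norm], rfl⟩, ?_⟩
    have hvn : ‖((v ^ n : Eˣ) : E)‖ = 1 := by
      rw [Units.val_pow_eq_pow_val, norm_pow, norm_eq_one_of_sub hρ hv, one_pow]
    rw [dist_eq_norm]
    have : (w : E) - (v : E) ^ n = ((v ^ n : Eˣ) : E) * ((w' : E) - 1) := by
      rw [hw1, Units.val_mul, Units.val_pow_eq_pow_val]; ring
    rw [this, norm_mul, hvn, one_mul]
    refine (hw'.trans ?_).trans_lt (half_lt_self hε)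
    exact (mul_le_of_le_one_left (mul_nonneg (pow_nonneg hθ0 k) hρ0) hn1).trans hk
  obtain ⟨x, hx, hxw⟩ := hmem
  have hx1 : ‖x - 1‖ ≤ ρ := by rwa [hK, mem_closedBall_iff_norm] at hx
  have hx0 : x ≠ 0 := by
    rw [← norm_pos_iff, norm_eq_one_of_sub hρ hx1]; exact one_pos
  exact ⟨Units.mk0 x hx0, by rwa [Units.val_mk0], Units.ext (by simpa using hxw)⟩

/-- `[𝓞 : n 𝓞]` scaled -/
theorem relIndex_Bl_scale {a b c : ℝ} (ha : 0 ≤ a) (hb : 0 ≤ b) (t : E) (ht : t ≠ 0)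
    (hc : ‖t‖ = c) :
    (Bl E (c * b) (mul_nonneg (hc ▸ norm_nonneg t) hb)).relIndex
      (Bl E (c * a) (mul_nonneg (hc ▸ norm_nonneg t) ha)) = (Bl E b hb).relIndex (Bl E a ha) := by
  subst hc
  have ht0 : 0 < ‖t‖ := norm_pos_iff.2 ht
  have h : ∀ (b : ℝ) (hb : 0 ≤ b), Bl E (‖t‖ * b) (mul_nonneg (norm_nonneg t) hb)
      = (Bl E b hb).map (AddMonoidHom.mulLeft t) := by
    intro b hb
    ext x
    rw [mem_Bl, AddSubgroup.mem_map]
    constructor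
    · intro hx
      refine ⟨t⁻¹ * x, ?_, ?_⟩
      · rw [mem_Bl, norm_mul, norm_inv, inv_mul_le_iff₀ ht0]; exact hx
      · simp [mul_inv_cancel_left₀ ht]
    · rintro ⟨y, hy, rfl⟩
      rw [AddMonoidHom.coe_mulLeft, norm_mul]
      exact mul_le_mul_of_nonneg_left hy (norm_nonneg t)
  rw [h b hb, h a ha, AddSubgroup.relIndex_map_map_of_injective]
  exact fun x y hxy => mul_left_cancel₀ ht hxy

end Ultra

section main

variable {E : Type*} [NormedField E] [IsUltrametricDist E]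

/-- `⟨π⟩ · U_r` -/
def BU (π : Eˣ) (r : ℝ) (hr0 : 0 ≤ r) (hr : r < 1) : Subgroup Eˣ := zpowers π ⊔ U1 r hr0 hr

theorem mem_BU {π : Eˣ} {r : ℝ} {hr0 : 0 ≤ r} {hr : r < 1} {x : Eˣ} :
    x ∈ BU π r hr0 hr ↔ ∃ k : ℤ, ∃ v ∈ U1 r hr0 hr, π ^ k * v = x := by
  rw [BU, mem_sup]
  constructor
  · rintro ⟨_, ⟨k, rfl⟩, v, hv, h⟩
    exact ⟨k, v, hv, h⟩
  · rintro ⟨k, v, hv, h⟩
    exact ⟨_, ⟨k, rfl⟩, v, hv, h⟩

theorem norm_BU {π : Eˣ} {r : ℝ} {hr0 : 0 ≤ r} {hr : r < 1} (k : ℤ) {v : Eˣ}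
    (hv : v ∈ U1 r hr0 hr) : ‖((π ^ k * v : Eˣ) : E)‖ = ‖(π : E)‖ ^ k := by
  rw [Units.val_mul, norm_mul, norm_of_mem_U1 hv, mul_one, Units.val_zpow_eq_zpow_val, norm_zpow]

variable (π : Eˣ) (hπ : ‖(π : E)‖ < 1) (n : ℕ)

include hπ in
theorem relIndex_zpowers {r : ℝ} {hr0 : 0 ≤ r} {hr : r < 1} :
    (BU (π ^ n) r hr0 hr).relIndex (BU π r hr0 hr) = n := by
  have hπ0 : 0 < ‖(π : E)‖ := norm_pos_iff.2 π.ne_zero
  have hK : BU π r hr0 hr = zpowers π ⊔ BU (π ^ n) r hr0 hr := by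
    rw [BU, BU, ← sup_assoc]
    congr 1
    rw [sup_eq_left.2]
    rw [zpowers_le]
    exact ⟨n, by simp⟩
  rw [hK, relIndex_sup_right]
  let φ : Multiplicative ℤ →* Eˣ := zpowersHom _ π
  have hφ : φ.range = zpowers π := rfl
  rw [← hφ, ← index_comap]
  have h1 : (BU (π ^ n) r hr0 hr).comap φ = (AddSubgroup.zmultiples (n : ℤ)).toSubgroup := by
    ext k
    rw [mem_comap]
    have h2 : φ k = π ^ (Multiplicative.toAdd k) := rfl
    have h3 : k ∈ (AddSubgroup.zmultiples (n : ℤ)).toSubgroup ↔ (n : ℤ) ∣ Multiplicative.toAdd k :=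
      Int.mem_zmultiples_iff
    rw [h2, h3, mem_BU]
    constructor
    · rintro ⟨j, v, hv, hjv⟩
      have e1 := norm_BU (π := π) (n * j : ℤ) hv
      have e2 := norm_BU (π := π) (Multiplicative.toAdd k) (one_mem (U1 r hr0 hr))
      rw [mul_one, ← hjv, ← zpow_natCast, ← zpow_mul, e1] at e2
      exact ⟨j, (zpow_right_injective₀ hπ0 hπ.ne e2).symm⟩
    · rintro ⟨j, hj⟩
      exact ⟨j, 1, one_mem _, by rw [hj, mul_one, zpow_mul, zpow_natCast]⟩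
  rw [h1]
  have h4 : ((AddSubgroup.zmultiples (n : ℤ)).toSubgroup).index
      = (AddSubgroup.zmultiples (n : ℤ)).index := rfl
  rw [h4, Int.index_zmultiples, Int.natAbs_natCast]

theorem relIndex_units {π' : Eˣ} (hπ' : ‖(π' : E)‖ < 1) {r r' : ℝ} {hr0 : 0 ≤ r} {hr : r < 1}
    {hr0' : 0 ≤ r'} {hr' : r' < 1} (hle : r' ≤ r) :
    (BU π' r' hr0' hr').relIndex (BU π' r hr0 hr)
      = (U1 (E := E) r' hr0' hr').relIndex (U1 r hr0 hr) := by
  have hπ0 : 0 < ‖(π' : E)‖ := norm_pos_iff.2 π'.ne_zero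
  have hK : BU π' r hr0 hr = U1 r hr0 hr ⊔ BU π' r' hr0' hr' := by
    rw [BU, BU, ← sup_assoc, sup_comm (U1 r hr0 hr), sup_assoc]
    congr 1
    rw [sup_eq_left.2]
    exact fun x hx => le_trans hx hle
  rw [hK, relIndex_sup_right]
  have : BU π' r' hr0' hr' ⊓ U1 r hr0 hr = U1 r' hr0' hr' := by
    apply le_antisymm
    · rintro x ⟨hx1, hx2⟩
      obtain ⟨k, v, hv, rfl⟩ := mem_BU.1 hx1
      have h1 := norm_BU (π := π') k hv
      rw [norm_of_mem_U1 hx2] at h1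
      have hk := zpow_eq_one_of_norm hπ0 hπ' h1.symm
      subst hk
      rwa [zpow_zero, one_mul]
    · refine le_inf le_sup_right fun x hx => le_trans hx hle
  rw [← this, inf_relIndex_right]

theorem map_pow_BU {ρ r' : ℝ} (hρ0 : 0 ≤ ρ) (hρ : ρ < 1) (hρn : ρ < ‖(n : E)‖)
    {hr0' : 0 ≤ r'} {hr' : r' < 1} (hr : r' = ‖(n : E)‖ * ρ) [ProperSpace E] :
    (BU π ρ hρ0 hρ).map (powMonoidHom n) = BU (π ^ n) r' hr0' hr' := by
  subst hr
  apply le_antisymm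
  · rintro _ ⟨x, hx, rfl⟩
    obtain ⟨k, v, hv, rfl⟩ := mem_BU.1 hx
    refine mem_BU.2 ⟨k, v ^ n, pow_mem_U1 n hρ hρn.le le_rfl hv, ?_⟩
    rw [powMonoidHom_apply, mul_pow, ← zpow_natCast, ← zpow_mul, ← zpow_natCast (π ^ k),
      ← zpow_mul, mul_comm (n : ℤ)]
  · intro x hx
    obtain ⟨k, v, hv, rfl⟩ := mem_BU.1 hx
    obtain ⟨u, hu, rfl⟩ := root_exists n hρ0 hρ hρn v hv
    refine ⟨π ^ k * u, mem_BU.2 ⟨k, u, hu, rfl⟩, ?_⟩
    rw [powMonoidHom_apply, mul_pow, ← zpow_natCast, ← zpow_mul, ← zpow_natCast π n,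
      ← zpow_mul, mul_comm (n : ℤ)]

end main

/-- **Index of `n`-th powers** in a locally compact nonarchimedean field. -/
theorem index_pow (E : Type*) [NontriviallyNormedField E] [IsUltrametricDist E] [ProperSpace E]
    (n : ℕ) (hn : (n : E) ≠ 0) :
    (powMonoidHom n : Eˣ →* Eˣ).range.index = Nat.card (powMonoidHom n : Eˣ →* Eˣ).ker *
      (n * (Bl E ‖(n : E)‖ (norm_nonneg _)).relIndex (Bl E 1 zero_le_one)) := by
  have hn0 : 0 < ‖(n : E)‖ := norm_pos_iff.2 hn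
  have hn' : n ≠ 0 := by rintro rfl; simp at hn
  have hn1 : ‖(n : E)‖ ≤ 1 := IsUltrametricDist.norm_natCast_le_one E n
  obtain ⟨c, hc0, hc⟩ := NormedField.exists_norm_lt E hn0
  have hc1 : ‖c‖ < 1 := hc.trans_le hn1
  have hcne : c ≠ 0 := norm_pos_iff.1 hc0
  set π : Eˣ := Units.mk0 c hcne with hπdef
  have hπ : ‖(π : E)‖ < 1 := hc1
  have hπ0 : 0 < ‖(π : E)‖ := hc0
  have hr0' : 0 ≤ ‖(n : E)‖ * ‖c‖ := by positivity
  have hle : ‖(n : E)‖ * ‖c‖ ≤ ‖c‖ := mul_le_of_le_one_left hc0.le hn1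
  have hr' : ‖(n : E)‖ * ‖c‖ < 1 := hle.trans_lt hc1
  set B := BU π ‖c‖ hc0.le hc1 with hB
  have hfin : B.FiniteIndex := by
    refine finiteIndex_of_nhds B hc0 (fun x hx => ?_) π ?_ hπ
    · exact (le_sup_right : U1 ‖c‖ hc0.le hc1 ≤ B) hx.le
    · exact (le_sup_left : zpowers π ≤ B) (mem_zpowers π)
  have hmap := map_pow_BU π n hc0.le hc1 hc (hr0' := hr0') (hr' := hr') rfl
  have hinj : (powMonoidHom n : Eˣ →* Eˣ).ker ⊓ B = ⊥ := by
    rw [eq_bot_iff]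
    rintro x ⟨hx1, hx2⟩
    obtain ⟨k, v, hv, rfl⟩ := mem_BU.1 hx2
    have h1 : (π ^ k * v) ^ n = 1 := hx1
    have h2 : ‖(((π ^ k * v) ^ n : Eˣ) : E)‖ = 1 := by rw [h1]; simp
    rw [Units.val_pow_eq_pow_val, norm_pow, norm_BU k hv, ← zpow_natCast, ← zpow_mul] at h2
    have hk := zpow_eq_one_of_norm hπ0 hπ h2
    have hk0 : k = 0 := by
      rcases mul_eq_zero.1 hk with h | h
      · exact h
      · exact absurd (Int.natCast_eq_zero.1 h) hn'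
    subst hk0
    rw [zpow_zero, one_mul] at h1 ⊢
    exact mem_bot.2 (eq_one_of_pow n hc1 hc hv h1)
  have hstab : B.map (powMonoidHom n) ≤ B := by
    rintro _ ⟨x, hx, rfl⟩
    exact pow_mem hx n
  have hidx : (B.map (powMonoidHom n)).relIndex B
      = n * (Bl E ‖(n : E)‖ (norm_nonneg _)).relIndex (Bl E 1 zero_le_one) := by
    rw [hmap]
    have h1 : BU (π ^ n) (‖(n : E)‖ * ‖c‖) hr0' hr' ≤ BU π (‖(n : E)‖ * ‖c‖) hr0' hr' := by
      refine sup_le_sup_right ?_ _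
      rw [zpowers_le]
      exact ⟨n, by simp⟩
    have h2 : BU π (‖(n : E)‖ * ‖c‖) hr0' hr' ≤ B :=
      sup_le_sup_left (fun x hx => le_trans hx hle) _
    rw [← relIndex_mul_relIndex _ _ _ h1 h2, relIndex_zpowers π hπ n, relIndex_units hπ hle,
      relIndex_U1 hc0.le hc1 hr0' hr' (mul_le_mul_of_nonneg_right hc.le hc0.le)]
    congr 1
    have h3 := relIndex_Bl_scale (E := E) (a := 1) (b := ‖(n : E)‖) zero_le_one (norm_nonneg _) c
      hcne rfl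
    rw [← h3]
    congr 1 <;> ext x <;> simp only [mem_Bl, mul_one, mul_comm]
  have key := herbrand_index (powMonoidHom n : Eˣ →* Eˣ) 1 (fun x => by simp) (fun x => by simp) B
    hfin.index_ne_zero hstab (by rw [Subgroup.map_one_eq_bot]; exact bot_le)
  rw [hinj, relIndex_bot_right, one_mul, MonoidHom.ker_one, top_inf_eq, hidx,
    relIndex_top_right, MonoidHom.range_one, relIndex_bot_left] at key
  exact key.symm

end Fermat.Agent.H7
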