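import Mathlib
import Fermat.Agent.H7LocPow
import Fermat.Agent.H7LocPadic

/-!
# The index of `p`-th powers in finite extensions of `ℚ_[q]` (H7)
-/

set_option autoImplicit false

namespace Fermat.Agent.H7

open Subgroup Topology

section lattice

variable {p : ℕ} [Fact p.Prime] {E : Type*} [NormedField E] [NormedAlgebra ℚ_[p] E]
  {ι : Type*} [Fintype ι] (b : Module.Basis ι ℚ_[p] E)

/-- a `ℤ_p`-lattice in `E` -/
noncomputable def Lat : AddSubgroup E where
  carrier := {x | ∀ i, ‖b.repr x i‖ ≤ 1}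
  zero_mem' := by simp
  add_mem' {x y} hx hy i := by
    rw [map_add, Finsupp.add_apply]
    exact norm_add_le_of_le (hx i) (hy i)
  neg_mem' {x} hx i := by
    rw [map_neg, Finsupp.neg_apply, norm_neg]; exact hx i

omit [Fintype ι] in
theorem mem_Lat {x : E} : x ∈ Lat b ↔ ∀ i, ‖b.repr x i‖ ≤ 1 := Iff.rfl

variable {b} in
/-- integral coordinate -/
noncomputable def zc (x : E) (hx : x ∈ Lat b) (i : ι) : ℤ_[p] := ⟨b.repr x i, hx i⟩

omit [Fintype ι] in
variable {b} in
theorem coe_zc (x : E) (hx : x ∈ Lat b) (i : ι) : ((zc x hx i : ℤ_[p]) : ℚ_[p]) = b.repr x i := rfl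

theorem relIndex_Lat :
    ((Lat b).map (AddMonoidHom.mulLeft (p : E))).relIndex (Lat b) = p ^ Fintype.card ι := by
  classical
  let φ : Lat b →+ (ι → ZMod p) :=
    { toFun := fun x i => PadicInt.toZMod (zc (x : E) x.2 i)
      map_zero' := by
        funext i
        have : zc ((0 : Lat b) : E) (0 : Lat b).2 i = 0 := by
          apply Subtype.ext; rw [coe_zc]; simp
        rw [this, map_zero]; rfl
      map_add' := fun x y => by
        funext i
        have : zc ((x + y : Lat b) : E) (x + y : Lat b).2 i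
            = zc (x : E) x.2 i + zc (y : E) y.2 i := by
          apply Subtype.ext; rw [PadicInt.coe_add, coe_zc, coe_zc, coe_zc]; simp
        rw [this, map_add]; rfl }
  have hsurj : Function.Surjective φ := by
    intro z
    have hx : ∀ i, b.repr (∑ i, ((z i).val : ℚ_[p]) • b i) i = ((z i).val : ℚ_[p]) := by
      intro i
      rw [b.repr_sum_self]
    have hx' : ∀ i, ‖b.repr (∑ i, ((z i).val : ℚ_[p]) • b i) i‖ ≤ 1 := fun i => by
      rw [hx]
      exact IsUltrametricDist.norm_natCast_le_one _ _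
    refine ⟨⟨∑ i, ((z i).val : ℚ_[p]) • b i, hx'⟩, ?_⟩
    funext i
    change PadicInt.toZMod (zc (∑ i, ((z i).val : ℚ_[p]) • b i) hx' i) = z i
    have : zc (∑ i, ((z i).val : ℚ_[p]) • b i) hx' i = ((z i).val : ℤ_[p]) := by
      apply Subtype.ext; rw [PadicInt.coe_natCast]; exact hx i
    rw [this, map_natCast, ZMod.natCast_val, ZMod.cast_id', id]
  have hpE : (p : E) ≠ 0 := by
    have : (algebraMap ℚ_[p] E) (p : ℚ_[p]) ≠ 0 := by
      rw [map_ne_zero]; exact_mod_cast (Fact.out : p.Prime).ne_zero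
    simpa using this
  have hmul : ∀ (x : E) i, b.repr ((p : E) * x) i = p * b.repr x i := by
    intro x i
    have : (p : E) * x = (p : ℚ_[p]) • x := by
      rw [Algebra.smul_def, map_natCast]
    rw [this, map_smul, Finsupp.smul_apply, smul_eq_mul]
  have hker : ((Lat b).map (AddMonoidHom.mulLeft (p : E))).addSubgroupOf (Lat b) = φ.ker := by
    ext x
    rw [AddSubgroup.mem_addSubgroupOf, AddMonoidHom.mem_ker]
    constructor
    · rintro ⟨y, hy, hyx⟩
      funext i
      change PadicInt.toZMod (zc (x : E) x.2 i) = 0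
      have : zc (x : E) x.2 i = p * zc y hy i := by
        apply Subtype.ext
        rw [PadicInt.coe_mul, PadicInt.coe_natCast, coe_zc, coe_zc, ← hyx]
        exact hmul y i
      rw [this, map_mul, map_natCast, ZMod.natCast_self, zero_mul]
    · intro hx
      refine ⟨(p : E)⁻¹ * x, fun i => ?_, ?_⟩
      · have h1 : PadicInt.toZMod (zc (x : E) x.2 i) = 0 := congrFun hx i
        have h2 : zc (x : E) x.2 i ∈ RingHom.ker (PadicInt.toZMod (p := p)) := h1
        rw [PadicInt.ker_toZMod, PadicInt.maximalIdeal_eq_span_p, Ideal.mem_span_singleton'] at h2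
        obtain ⟨z, hz⟩ := h2
        have h3 : (z : ℚ_[p]) * p = b.repr x i := by
          have := congrArg (fun u : ℤ_[p] => (u : ℚ_[p])) hz
          rwa [PadicInt.coe_mul, PadicInt.coe_natCast, coe_zc] at this
        have h4 := hmul ((p : E)⁻¹ * x) i
        rw [mul_inv_cancel_left₀ hpE, ← h3, mul_comm] at h4
        have hp0 : (p : ℚ_[p]) ≠ 0 := by exact_mod_cast (Fact.out : p.Prime).ne_zero
        have h5 := mul_left_cancel₀ hp0 h4
        rw [← h5]
        exact z.norm_le_one
      · simp [mul_inv_cancel_left₀ hpE]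
  rw [AddSubgroup.relIndex, hker, AddSubgroup.index_ker, AddMonoidHom.range_eq_top.2 hsurj]
  simp

end lattice

section

variable (p : ℕ) [Fact p.Prime] (E : Type*) [NormedField E] [NormedAlgebra ℚ_[p] E]
  [FiniteDimensional ℚ_[p] E] [IsUltrametricDist E]

theorem relIndex_Bl_padic :
    (Bl E ‖(p : E)‖ (norm_nonneg _)).relIndex (Bl E 1 zero_le_one)
      = p ^ Module.finrank ℚ_[p] E := by
  have : ProperSpace E := FiniteDimensional.proper ℚ_[p] E
  set b := Module.finBasis ℚ_[p] E with hb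
  have hpE : (p : E) ≠ 0 := by
    have : (algebraMap ℚ_[p] E) (p : ℚ_[p]) ≠ 0 := by
      rw [map_ne_zero]; exact_mod_cast (Fact.out : p.Prime).ne_zero
    simpa using this
  -- scale the lattice into the unit ball
  obtain ⟨k, hk⟩ : ∃ k : ℕ, ∀ x ∈ Lat b, ‖(p : E) ^ k * x‖ ≤ 1 := by
    have hp1 : ‖(p : ℚ_[p])‖ < 1 := Padic.norm_p_lt_one
    have hpn : ‖(p : E)‖ = ‖(p : ℚ_[p])‖ := by
      rw [← norm_algebraMap' E (p : ℚ_[p]), map_natCast]
    set M := ∑ i, ‖b i‖ with hM
    have hM0 : 0 ≤ M := Finset.sum_nonneg fun i _ => norm_nonneg _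
    obtain ⟨k, hk⟩ := exists_pow_mul_le (norm_nonneg (p : ℚ_[p])) hp1 hM0 one_pos
    refine ⟨k, fun x hx => ?_⟩
    rw [norm_mul, norm_pow, hpn]
    refine le_trans ?_ hk
    gcongr
    conv_lhs => rw [← b.sum_repr x]
    refine (norm_sum_le _ _).trans (Finset.sum_le_sum fun i _ => ?_)
    rw [norm_smul]
    exact mul_le_of_le_one_left (norm_nonneg _) (hx i)
  set t : E := (p : E) ^ k with ht
  have ht0 : t ≠ 0 := pow_ne_zero _ hpE
  have hinj : ∀ s : E, s ≠ 0 → Function.Injective (AddMonoidHom.mulLeft s) :=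
    fun s hs x y hxy => mul_left_cancel₀ hs hxy
  set L := (Lat b).map (AddMonoidHom.mulLeft t) with hL
  set P := AddMonoidHom.mulLeft (p : E) with hP
  set O := Bl E 1 zero_le_one with hO
  have hLO : L ≤ O := by
    rintro _ ⟨x, hx, rfl⟩
    exact hk x hx
  have hPO : O.map P = Bl E ‖(p : E)‖ (norm_nonneg _) := by
    ext x
    rw [mem_Bl]
    constructor
    · rintro ⟨y, hy, rfl⟩
      have hy1 : ‖y‖ ≤ 1 := hy
      rw [hP, AddMonoidHom.coe_mulLeft, norm_mul]
      exact mul_le_of_le_one_right (norm_nonneg _) hy1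
    · intro hx
      refine ⟨(p : E)⁻¹ * x, ?_, by simp [hP, mul_inv_cancel_left₀ hpE]⟩
      change ‖(p : E)⁻¹ * x‖ ≤ 1
      rw [norm_mul, norm_inv, inv_mul_le_iff₀ (norm_pos_iff.2 hpE), mul_one]
      exact hx
  have hpp : ‖(p : E)‖ ≤ 1 := IsUltrametricDist.norm_natCast_le_one E p
  have hPle : ∀ K : AddSubgroup E, K.map P ≤ K := by
    rintro K _ ⟨x, hx, rfl⟩
    rw [hP, AddMonoidHom.coe_mulLeft, ← nsmul_eq_mul]
    exact nsmul_mem hx p
  have hLfin : L.relIndex O ≠ 0 := by
    -- `L` contains an open ball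
    have hcont : ∀ i, Continuous (fun x : E => b.repr x i) := fun i =>
      ((b.coord i).continuous_of_finiteDimensional :)
    have hopen : IsOpen (Lat b : Set E) := by
      have : (Lat b : Set E) = ⋂ i, (fun x : E => b.repr x i) ⁻¹' (Metric.closedBall 0 1) := by
        ext x
        simp [mem_Lat]
      rw [this]
      refine isOpen_iInter_of_finite fun i => ?_
      exact (IsUltrametricDist.isOpen_closedBall 0 one_ne_zero).preimage (hcont i)
    have hLopen : IsOpen (L : Set E) := by
      have : (L : Set E) = (fun x : E => t⁻¹ * x) ⁻¹' (Lat b : Set E) := by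
        ext x
        simp only [Set.mem_preimage, SetLike.mem_coe]
        constructor
        · rintro ⟨y, hy, rfl⟩
          simpa [inv_mul_cancel_left₀ ht0] using hy
        · intro hx
          exact ⟨_, hx, by simp [mul_inv_cancel_left₀ ht0]⟩
      rw [this]
      exact hopen.preimage (continuous_const.mul continuous_id)
    have hcomp : CompactSpace O := by
      have h1 : (O : Set E) = Metric.closedBall 0 1 := by
        ext x; simp [hO, mem_Bl]
      have h2 : IsCompact (O : Set E) := by rw [h1]; exact isCompact_closedBall _ _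
      exact isCompact_iff_compactSpace.1 h2
    have hfin : Finite (O ⧸ L.addSubgroupOf O) :=
      AddSubgroup.quotient_finite_of_isOpen _ (hLopen.preimage continuous_subtype_val)
    exact AddSubgroup.FiniteIndex.index_ne_zero (H := L.addSubgroupOf O)
      (self := AddSubgroup.finiteIndex_of_finite_quotient)
  have e1 : (L.map P).relIndex (O.map P) * (O.map P).relIndex O = (L.map P).relIndex O :=
    AddSubgroup.relIndex_mul_relIndex _ _ _ (AddSubgroup.map_mono hLO) (hPle O)
  have e2 : (L.map P).relIndex L * L.relIndex O = (L.map P).relIndex O :=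
    AddSubgroup.relIndex_mul_relIndex _ _ _ (hPle L) hLO
  have e3 : (L.map P).relIndex (O.map P) = L.relIndex O :=
    AddSubgroup.relIndex_map_map_of_injective _ _ (hinj _ hpE)
  have e4 : (L.map P).relIndex L = p ^ Module.finrank ℚ_[p] E := by
    have hc : L.map P = ((Lat b).map P).map (AddMonoidHom.mulLeft t) := by
      rw [hL, AddSubgroup.map_map, AddSubgroup.map_map]
      congr 1
      ext x
      simp only [hP, AddMonoidHom.comp_apply, AddMonoidHom.coe_mulLeft]
      ring
    rw [hc, hL, AddSubgroup.relIndex_map_map_of_injective _ _ (hinj _ ht0), relIndex_Lat,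
      Fintype.card_fin]
  rw [← hPO, ← e4]
  rw [e3] at e1
  rw [← e2, mul_comm] at e1
  exact Nat.eq_of_mul_eq_mul_right (Nat.pos_of_ne_zero hLfin) e1

end

section final

variable (q : ℕ) [Fact q.Prime] (E : Type*) [Field E] [Algebra ℚ_[q] E] [FiniteDimensional ℚ_[q] E]

/-- `[Eˣ : Eˣᵖ]` for `E / ℚ_[q]` finite, `p ≠ q` -/
theorem index_pow_padic_ne {p : ℕ} (hp : p.Prime) (hpq : p ≠ q) :
    (powMonoidHom p : Eˣ →* Eˣ).range.index = Nat.card (powMonoidHom p : Eˣ →* Eˣ).ker * p := by
  let _ : NontriviallyNormedField E := spectralNorm.nontriviallyNormedField ℚ_[q] E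
  let _ : NormedAlgebra ℚ_[q] E := spectralNorm.normedAlgebra ℚ_[q] E
  have : IsUltrametricDist E := IsUltrametricDist.of_normedAlgebra ℚ_[q]
  have : ProperSpace E := FiniteDimensional.proper ℚ_[q] E
  have h1 : ‖(p : E)‖ = 1 := by
    rw [← map_natCast (algebraMap ℚ_[q] E), norm_algebraMap', Padic.norm_natCast_eq_one_iff]
    exact (Nat.coprime_primes Fact.out hp).2 hpq.symm
  have h0 : (p : E) ≠ 0 := by rw [← norm_pos_iff, h1]; exact one_pos
  rw [index_pow E p h0]
  congr 1
  have : Bl E ‖(p : E)‖ (norm_nonneg _) = Bl E 1 zero_le_one := by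
    ext x; rw [mem_Bl, mem_Bl, h1]
  rw [this, AddSubgroup.relIndex_self, mul_one]

/-- `[Eˣ : Eˣ^q]` for `E / ℚ_[q]` finite -/
theorem index_pow_padic_self :
    (powMonoidHom q : Eˣ →* Eˣ).range.index =
      Nat.card (powMonoidHom q : Eˣ →* Eˣ).ker * (q * q ^ Module.finrank ℚ_[q] E) := by
  let _ : NontriviallyNormedField E := spectralNorm.nontriviallyNormedField ℚ_[q] E
  let _ : NormedAlgebra ℚ_[q] E := spectralNorm.normedAlgebra ℚ_[q] E
  have : IsUltrametricDist E := IsUltrametricDist.of_normedAlgebra ℚ_[q]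
  have : ProperSpace E := FiniteDimensional.proper ℚ_[q] E
  have h0 : (q : E) ≠ 0 := by
    rw [← map_natCast (algebraMap ℚ_[q] E), map_ne_zero]
    exact_mod_cast (Fact.out : q.Prime).ne_zero
  rw [index_pow E q h0, relIndex_Bl_padic q E]

theorem card_ker_pow {E : Type*} [Field E] {p : ℕ} (hp : p ≠ 0) {ζ : E}
    (hζ : IsPrimitiveRoot ζ p) : Nat.card (powMonoidHom p : Eˣ →* Eˣ).ker = p := by
  have : NeZero p := ⟨hp⟩
  have h : (powMonoidHom p : Eˣ →* Eˣ).ker = rootsOfUnity p E := by
    ext x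
    rw [MonoidHom.mem_ker, mem_rootsOfUnity]
    rfl
  rw [h, hζ.card_rootsOfUnity]

/-- `[Eˣ : Eˣᵖ] = p²` for `E / ℚ_[q]` finite containing a primitive `p`-th root of unity,
`p ≠ q` -/
theorem index_pow_padic_ne' {p : ℕ} (hp : p.Prime) (hpq : p ≠ q) {ζ : E}
    (hζ : IsPrimitiveRoot ζ p) : (powMonoidHom p : Eˣ →* Eˣ).range.index = p ^ 2 := by
  rw [index_pow_padic_ne q E hp hpq, card_ker_pow hp.ne_zero hζ, sq]

/-- `[Eˣ : Eˣ^q] = q^(2 + [E : ℚ_q])` for `E / ℚ_[q]` finite containing a primitive `q`-th root of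
unity -/
theorem index_pow_padic_self' {ζ : E} (hζ : IsPrimitiveRoot ζ q) :
    (powMonoidHom q : Eˣ →* Eˣ).range.index = q ^ (2 + Module.finrank ℚ_[q] E) := by
  rw [index_pow_padic_self q E, card_ker_pow (Fact.out : q.Prime).ne_zero hζ]
  ring

end final

end Fermat.Agent.H7
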