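import Mathlib
import Fermat.Agent.H91Level

set_option autoImplicit false

/-!
# Degree two inflation-restriction for level cochains, cyclic quotients, transfer trick
-/

namespace Fermat.Agent.H91

open groupCohomology

universe u v

namespace LevelFam

variable {G : Type u} [Group G] (𝓥 : LevelFam G) {A : Type v} [AddCommGroup A]
  [DistribMulAction G A]

/-- coboundary of a 1-cochain -/
def dd (x : G → A) : G × G → A := fun p => p.1 • x p.2 - x (p.1 * p.2) + x p.1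

omit 𝓥 in
@[simp] lemma dd_apply (x : G → A) (g h : G) : dd x (g, h) = g • x h - x (g * h) + x g := rfl

/-- level coboundary in degree two -/
def Triv₂ (f : G × G → A) : Prop :=
  ∃ x : G → A, 𝓥.IsConst₁ x ∧ ∀ g h, dd x (g, h) = f (g, h)

/-- Hilbert 90: all level 1-cocycles are coboundaries. -/
def H90 (A : Type v) [AddCommGroup A] [DistribMulAction G A] : Prop :=
  ∀ f : G → A, IsCocycle₁ f → 𝓥.IsConst₁ f → ∃ a : A, ∀ g : G, f g = g • a - a

/-- Smoothness of the action -/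
def Smooth (A : Type v) [AddCommGroup A] [DistribMulAction G A] : Prop :=
  ∀ a : A, ∃ V ∈ 𝓥.carrier, ∀ s ∈ V, s • a = a

variable {𝓥}

omit 𝓥 in
lemma isCocycle₂_dd (x : G → A) : IsCocycle₂ (dd x) := by
  intro g h j
  simp only [dd_apply, smul_add, smul_sub, mul_smul, mul_assoc]
  abel

omit 𝓥 in
lemma IsCocycle₂.sub' {f f' : G × G → A} (hf : IsCocycle₂ f) (hf' : IsCocycle₂ f') :
    IsCocycle₂ (f - f') := by
  intro g h j
  simp only [Pi.sub_apply, smul_sub]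
  rw [sub_add_sub_comm, hf g h j, hf' g h j, sub_add_sub_comm]

omit 𝓥 in
lemma IsCocycle₂.add' {f f' : G × G → A} (hf : IsCocycle₂ f) (hf' : IsCocycle₂ f') :
    IsCocycle₂ (f + f') := by
  intro g h j
  simp only [Pi.add_apply, smul_add]
  rw [add_add_add_comm, hf g h j, hf' g h j, add_add_add_comm]

omit 𝓥 in
lemma isCocycle₂_zero : IsCocycle₂ (0 : G × G → A) := by
  intro g h j
  simp

lemma exists_mem_le_of_finite {ι : Type*} [Finite ι] (V : ι → Subgroup G)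
    (hV : ∀ i, V i ∈ 𝓥.carrier) : ∃ X ∈ 𝓥.carrier, ∀ i, X ≤ V i := by
  classical
  obtain ⟨n, ⟨e⟩⟩ := Finite.exists_equiv_fin ι
  have key : ∀ k : ℕ, ∃ X ∈ 𝓥.carrier, ∀ i, (e i : ℕ) < k → X ≤ V i := by
    intro k
    induction k with
    | zero =>
      obtain ⟨X, hX⟩ := 𝓥.nonempty'
      exact ⟨X, hX, fun i hi => absurd hi (Nat.not_lt_zero _)⟩
    | succ k ih =>
      obtain ⟨X, hX, h⟩ := ih
      by_cases hk : k < n
      · obtain ⟨Y, hY, hle⟩ := 𝓥.inf_mem' X hX (V (e.symm ⟨k, hk⟩)) (hV _)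
        refine ⟨Y, hY, fun i hi => ?_⟩
        rcases Nat.lt_succ_iff_lt_or_eq.mp hi with h' | h'
        · exact (hle.trans inf_le_left).trans (h i h')
        · have : i = e.symm ⟨k, hk⟩ := by
            rw [Equiv.eq_symm_apply]; exact Fin.ext h'
          rw [this]
          exact hle.trans inf_le_right
      · refine ⟨X, hX, fun i hi => h i ?_⟩
        have := (e i).2
        omega
  obtain ⟨X, hX, h⟩ := key n
  exact ⟨X, hX, fun i => h i (e i).2⟩

/-- A level cochain takes values fixed by some level subgroup. -/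
lemma IsConst₁.exists_fix (hA : 𝓥.Smooth A) {x : G → A} (hx : 𝓥.IsConst₁ x) :
    ∃ V ∈ 𝓥.carrier, V.Normal ∧ V.FiniteIndex ∧ (∀ g, ∀ s ∈ V, x (g * s) = x g) ∧
      ∀ g, ∀ s ∈ V, s • x g = x g := by
  obtain ⟨V, hV, hn, hi, h⟩ := hx.exists_normal
  have : Finite (G ⧸ V) := Subgroup.finite_quotient_of_finiteIndex
  choose W hW hW' using fun q : G ⧸ V => hA (x q.out)
  obtain ⟨X, hX, hXW⟩ := exists_mem_le_of_finite (𝓥 := 𝓥) W hW
  obtain ⟨Y, hY, hY'⟩ := 𝓥.inf_mem' X hX V hV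
  obtain ⟨Z, hZ, hZY, hZn, hZi⟩ := 𝓥.core' Y hY
  have hZV : Z ≤ V := (hZY.trans hY').trans inf_le_right
  have hZX : Z ≤ X := (hZY.trans hY').trans inf_le_left
  refine ⟨Z, hZ, hZn, hZi, fun g s hs => h g s (hZV hs), fun g s hs => ?_⟩
  have h1 : x g = x (QuotientGroup.mk (s := V) g).out := by
    obtain ⟨v, hv⟩ := QuotientGroup.mk_out_eq_mul V g
    rw [hv, h g v v.2]
  rw [h1]
  exact hW' _ s (hXW _ (hZX hs))

lemma IsConst₁.dd (hA : 𝓥.Smooth A) {x : G → A} (hx : 𝓥.IsConst₁ x) :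
    𝓥.IsConst₂ (dd x) := by
  obtain ⟨V, hV, hn, hi, h, h'⟩ := hx.exists_fix hA
  refine ⟨V, hV, fun g g' s hs s' hs' => ?_⟩
  have h1 : g * s * (g' * s') = g * g' * (g'⁻¹ * s * g' * s') := by group
  have h2 : g'⁻¹ * s * g' * s' ∈ V := V.mul_mem (by
    have := hn.conj_mem s hs g'⁻¹
    simpa using this) hs'
  simp only [dd_apply]
  rw [h1, h _ _ h2, h _ _ hs', h _ _ hs, mul_smul, h' _ _ hs]

lemma IsConst₂.sub {f f' : G × G → A} (hf : 𝓥.IsConst₂ f) (hf' : 𝓥.IsConst₂ f') :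
    𝓥.IsConst₂ (f - f') := hf.map₂ hf' (fun a b => a - b)

lemma IsConst₂.add {f f' : G × G → A} (hf : 𝓥.IsConst₂ f) (hf' : 𝓥.IsConst₂ f') :
    𝓥.IsConst₂ (f + f') := hf.map₂ hf' (fun a b => a + b)

lemma IsConst₁.sub {f f' : G → A} (hf : 𝓥.IsConst₁ f) (hf' : 𝓥.IsConst₁ f') :
    𝓥.IsConst₁ (f - f') := hf.map₂ hf' (fun a b => a - b)

lemma IsConst₁.add {f f' : G → A} (hf : 𝓥.IsConst₁ f) (hf' : 𝓥.IsConst₁ f') :
    𝓥.IsConst₁ (f + f') := hf.map₂ hf' (fun a b => a + b)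

/-- a principal crossed homomorphism is level constant. -/
lemma isConst₁_coboundary (hA : 𝓥.Smooth A) (a : A) : 𝓥.IsConst₁ (fun g : G => g • a - a) := by
  obtain ⟨V, hV, h⟩ := hA a
  exact ⟨V, hV, fun g s hs => by simp only [mul_smul, h s hs]⟩

omit 𝓥 in
lemma dd_coboundary (a : A) (g h : G) : dd (fun g : G => g • a - a) (g, h) = 0 := by
  simp only [dd_apply, smul_sub, mul_smul]
  abel

omit 𝓥 in
lemma dd_sub (x y : G → A) (g h : G) : dd (x - y) (g, h) = dd x (g, h) - dd y (g, h) := by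
  simp only [dd_apply, Pi.sub_apply, smul_sub]
  abel

omit 𝓥 in
lemma dd_add (x y : G → A) (g h : G) : dd (x + y) (g, h) = dd x (g, h) + dd y (g, h) := by
  simp only [dd_apply, Pi.add_apply, smul_add]
  abel

lemma Triv₂.add {f f' : G × G → A} (hf : 𝓥.Triv₂ f) (hf' : 𝓥.Triv₂ f') :
    𝓥.Triv₂ (f + f') := by
  obtain ⟨x, hx, h⟩ := hf
  obtain ⟨x', hx', h'⟩ := hf'
  exact ⟨x + x', hx.add hx', fun g j => by rw [dd_add, h, h']; rfl⟩

lemma Triv₂.sub {f f' : G × G → A} (hf : 𝓥.Triv₂ f) (hf' : 𝓥.Triv₂ f') :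
    𝓥.Triv₂ (f - f') := by
  obtain ⟨x, hx, h⟩ := hf
  obtain ⟨x', hx', h'⟩ := hf'
  exact ⟨x - x', hx.sub hx', fun g j => by rw [dd_sub, h, h']; rfl⟩

lemma triv₂_dd {x : G → A} (hx : 𝓥.IsConst₁ x) : 𝓥.Triv₂ (dd x) := ⟨x, hx, fun _ _ => rfl⟩

lemma Triv₂.isCocycle₂ {f : G × G → A} (hf : 𝓥.Triv₂ f) : IsCocycle₂ f := by
  obtain ⟨x, hx, h⟩ := hf
  have : dd x = f := funext fun p => h p.1 p.2
  rw [← this]
  exact isCocycle₂_dd x

lemma triv₂_zero : 𝓥.Triv₂ (0 : G × G → A) :=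
  ⟨0, isConst₁_const (0 : A), fun g h => by simp⟩

/-! ### Inflation restriction -/

section infRes

omit 𝓥 in
/-- restriction of a 2-cochain to a subgroup -/
def res₂ (H : Subgroup G) (f : G × G → A) : H × H → A := fun p => f (p.1, p.2)

omit 𝓥 in
/-- restriction of a 1-cochain to a subgroup -/
def res₁ (H : Subgroup G) (f : G → A) : H → A := fun p => f p

/-- inflated cocycles, normalised -/
structure Inflated (H : Subgroup G) (f : G × G → A) : Prop where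
  coc : IsCocycle₂ f
  left : ∀ h ∈ H, ∀ g, f (h, g) = 0
  right : ∀ g, ∀ h ∈ H, f (g, h) = 0

lemma Inflated.mul_right {H : Subgroup G} {f : G × G → A} (hf : Inflated H f)
    (g j : G) {h : G} (hh : h ∈ H) : f (g, j * h) = f (g, j) := by
  have := hf.coc g j h
  rw [hf.right _ h hh, hf.right _ h hh, smul_zero, zero_add, zero_add] at this
  exact this.symm

lemma Inflated.mul_left {H : Subgroup G} [hn : H.Normal] {f : G × G → A} (hf : Inflated H f)
    (g j : G) {h : G} (hh : h ∈ H) : f (g * h, j) = f (g, j) := by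
  have := hf.coc g h j
  rw [hf.right _ h hh, hf.left _ hh, smul_zero, zero_add, add_zero] at this
  rw [this]
  have h1 : h * j = j * (j⁻¹ * h * j) := by group
  rw [h1, hf.mul_right g j]
  have := hn.conj_mem h hh j⁻¹
  simpa using this

lemma Inflated.smul_eq {H : Subgroup G} [hn : H.Normal] {f : G × G → A} (hf : Inflated H f)
    (g j : G) {h : G} (hh : h ∈ H) : h • f (g, j) = f (g, j) := by
  have h0 := hf.coc h g j
  rw [hf.left _ hh, hf.left _ hh, add_zero, add_zero] at h0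
  rw [← h0]
  have h1 : h * g = g * (g⁻¹ * h * g) := by group
  rw [h1, hf.mul_left]
  have := hn.conj_mem h hh g⁻¹
  simpa using this

lemma Inflated.isConst₂ {H : Subgroup G} [hn : H.Normal] {f : G × G → A} (hf : Inflated H f)
    (hH : 𝓥.IsOpenSubgroup H) : 𝓥.IsConst₂ f := by
  obtain ⟨V, hV, hle⟩ := hH
  exact ⟨V, hV, fun g g' s hs s' hs' => by rw [hf.mul_left _ _ (hle hs), hf.mul_right _ _ (hle hs')]⟩

lemma exists_extend {H : Subgroup G} (hH : 𝓥.IsOpenSubgroup H) {x : H → A}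
    (hx : (𝓥.restrict H).IsConst₁ x) :
    ∃ y : G → A, 𝓥.IsConst₁ y ∧ ∀ h : H, y h = x h := by
  classical
  obtain ⟨V, hV, h⟩ := (isConst₁_comap_iff _ _ _).1 hx
  obtain ⟨W, hW, hWH⟩ := hH
  obtain ⟨X, hX, hle⟩ := 𝓥.inf_mem' V hV W hW
  refine ⟨fun g => if hg : g ∈ H then x ⟨g, hg⟩ else 0, ⟨X, hX, fun g s hs => ?_⟩, fun h => by simp⟩
  have hsH : s ∈ H := hWH (hle hs).2
  by_cases hg : g ∈ H
  · have hgs : g * s ∈ H := H.mul_mem hg hsH
    beta_reduce
    rw [dif_pos hg, dif_pos hgs]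
    exact h ⟨g, hg⟩ ⟨s, hsH⟩ (hle hs).1
  · have hgs : ¬ g * s ∈ H := fun h' => hg (by
      have := H.mul_mem h' (H.inv_mem hsH)
      simpa using this)
    beta_reduce
    rw [dif_neg hg, dif_neg hgs]

/-- Degree two inflation-restriction. -/
theorem exists_inflated (hA : 𝓥.Smooth A) {H : Subgroup G} [hn : H.Normal]
    (hH : 𝓥.IsOpenSubgroup H) (h90 : (𝓥.restrict H).H90 A) {f : G × G → A}
    (hf : IsCocycle₂ f) (hc : 𝓥.IsConst₂ f)
    (ht : (𝓥.restrict H).Triv₂ (res₂ H f)) :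
    ∃ x : G → A, 𝓥.IsConst₁ x ∧ Inflated H (f - dd x) := by
  classical
  -- Step 1
  obtain ⟨α, hα, hαf⟩ := ht
  obtain ⟨x₁, hx₁, hx₁α⟩ := exists_extend hH hα
  obtain ⟨f₁, hf₁⟩ : ∃ f₁, f₁ = f - dd x₁ := ⟨_, rfl⟩
  have hf₁coc : IsCocycle₂ f₁ := hf₁ ▸ IsCocycle₂.sub' hf (isCocycle₂_dd x₁)
  have hf₁c : 𝓥.IsConst₂ f₁ := hf₁ ▸ hc.sub (hx₁.dd hA)
  have hf₁H : ∀ h ∈ H, ∀ h' ∈ H, f₁ (h, h') = 0 := by
    intro h hh h' hh'
    have h1 := hαf ⟨h, hh⟩ ⟨h', hh'⟩
    rw [hf₁, Pi.sub_apply, dd_apply, sub_eq_zero]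
    have e1 := hx₁α ⟨h, hh⟩
    have e2 := hx₁α ⟨h', hh'⟩
    have e3 := hx₁α ⟨h * h', H.mul_mem hh hh'⟩
    simp only at e1 e2 e3
    rw [e1, e2, e3]
    exact h1.symm
  -- Step 2
  obtain ⟨β, hβ⟩ : ∃ β : G → A, ∀ g, β g =
      - f₁ ((QuotientGroup.mk (s := H) g).out, ((QuotientGroup.mk (s := H) g).out)⁻¹ * g) :=
    ⟨_, fun g => rfl⟩
  have hout : ∀ g : G, ((QuotientGroup.mk (s := H) g).out)⁻¹ * g ∈ H := by
    intro g
    rw [← QuotientGroup.eq]
    exact QuotientGroup.out_eq' _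
  obtain ⟨V, hV, hVn, hVi, hVf⟩ := hf₁c.exists_normal
  obtain ⟨W, hW, hWH⟩ := hH
  obtain ⟨X, hX, hXle⟩ := 𝓥.inf_mem' V hV W hW
  have hβc : 𝓥.IsConst₁ β := by
    refine ⟨X, hX, fun g s hs => ?_⟩
    have hsH : s ∈ H := hWH (hXle hs).2
    have e : (QuotientGroup.mk (s := H) (g * s)) = QuotientGroup.mk (s := H) g := by
      rw [QuotientGroup.eq]
      have : (g * s)⁻¹ * g = s⁻¹ := by group
      rw [this]
      exact H.inv_mem hsH
    rw [hβ, hβ, e, ← mul_assoc]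
    have := hVf ((QuotientGroup.mk (s := H) g).out) (((QuotientGroup.mk (s := H) g).out)⁻¹ * g)
      1 V.one_mem s (hXle hs).1
    rw [mul_one] at this
    rw [this]
  have hβH : ∀ h ∈ H, β h = 0 := by
    intro h hh
    rw [hβ, neg_eq_zero]
    refine hf₁H _ ?_ _ (hout h)
    have := H.mul_mem hh (H.inv_mem (hout h))
    simpa using this
  obtain ⟨f₂, hf₂⟩ : ∃ f₂, f₂ = f₁ - dd β := ⟨_, rfl⟩
  have hf₂coc : IsCocycle₂ f₂ := hf₂ ▸ IsCocycle₂.sub' hf₁coc (isCocycle₂_dd β)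
  have hf₂c : 𝓥.IsConst₂ f₂ := hf₂ ▸ hf₁c.sub (hβc.dd hA)
  have hf₂r : ∀ g, ∀ h ∈ H, f₂ (g, h) = 0 := by
    intro g h hh
    have e : (QuotientGroup.mk (s := H) (g * h)) = QuotientGroup.mk (s := H) g := by
      rw [QuotientGroup.eq]
      have : (g * h)⁻¹ * g = h⁻¹ := by group
      rw [this]
      exact H.inv_mem hh
    rw [hf₂, Pi.sub_apply, dd_apply, hβH h hh, smul_zero, zero_sub, hβ (g * h), hβ g, e, neg_neg]
    set s := (QuotientGroup.mk (s := H) g).out with hs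
    set k := s⁻¹ * g with hk
    have hkH : k ∈ H := hout g
    have hg : g = s * k := by rw [hk]; group
    have h1 := hf₁coc s k h
    rw [← hg, hf₁H k hkH h hh, smul_zero, zero_add] at h1
    have h2 : s⁻¹ * (g * h) = k * h := by rw [hk]; group
    rw [h2, ← h1]
    abel
  -- Step 3
  have hf₂mr : ∀ g j h, h ∈ H → f₂ (g, j * h) = f₂ (g, j) := by
    intro g j h hh
    have := hf₂coc g j h
    rw [hf₂r _ h hh, hf₂r _ h hh, smul_zero, zero_add, zero_add] at this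
    exact this.symm
  have hcoc : ∀ j : G, IsCocycle₁ (fun h : H => f₂ ((h : G), j)) := by
    intro j h h'
    have h1 := hf₂coc h h' j
    rw [hf₂r _ _ h'.2, add_zero] at h1
    have h2 : (h' : G) * j = j * (j⁻¹ * h' * j) := by group
    have h3 : j⁻¹ * h' * j ∈ H := by
      have := hn.conj_mem h' h'.2 j⁻¹
      simpa using this
    rw [h2, hf₂mr _ _ _ h3] at h1
    exact h1
  have hcocc : ∀ j : G, (𝓥.restrict H).IsConst₁ (fun h : H => f₂ ((h : G), j)) := by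
    intro j
    rw [isConst₁_comap_iff]
    obtain ⟨V₂, hV₂, hVf₂⟩ := hf₂c
    refine ⟨V₂, hV₂, fun g s hs => ?_⟩
    have := hVf₂ g j s hs 1 V₂.one_mem
    rw [mul_one] at this
    exact this
  choose a₀ ha₀ using fun j : G => h90 _ (hcoc j) (hcocc j)
  obtain ⟨b, hb⟩ : ∃ b : G → A, ∀ g, b g = if g ∈ H then 0 else a₀ (QuotientGroup.mk (s := H) g).out :=
    ⟨_, fun g => rfl⟩
  have hbH : ∀ g ∈ H, b g = 0 := fun g hg => by rw [hb, if_pos hg]
  have hbr : ∀ g h, h ∈ H → b (g * h) = b g := by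
    intro g h hh
    have e : (QuotientGroup.mk (s := H) (g * h)) = QuotientGroup.mk (s := H) g := by
      rw [QuotientGroup.eq]
      have : (g * h)⁻¹ * g = h⁻¹ := by group
      rw [this]
      exact H.inv_mem hh
    have e2 : g * h ∈ H ↔ g ∈ H := H.mul_mem_cancel_right hh
    rw [hb, hb, e]
    simp only [e2]
  have hbc : 𝓥.IsConst₁ b := ⟨W, hW, fun g s hs => hbr g s (hWH hs)⟩
  have hbf : ∀ h ∈ H, ∀ j, f₂ (h, j) = h • b j - b j := by
    intro h hh j
    by_cases hj : j ∈ H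
    · rw [hf₂r _ _ hj, hbH j hj, smul_zero, sub_zero]
    · rw [hb, if_neg hj]
      set s := (QuotientGroup.mk (s := H) j).out with hs
      have h1 := ha₀ s ⟨h, hh⟩
      simp only at h1
      have h2 : f₂ (h, s) = h • a₀ s - a₀ s := h1
      rw [← h2]
      have h3 : j = s * (s⁻¹ * j) := by group
      have h4 := hf₂mr h s _ (hout j)
      rw [← hs, ← h3] at h4
      exact h4
  refine ⟨x₁ + β + b, (hx₁.add hβc).add hbc, ?_⟩
  have e : f - dd (x₁ + β + b) = f₂ - dd b := by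
    funext p
    obtain ⟨g, h⟩ := p
    rw [Pi.sub_apply, dd_add, dd_add, hf₂, Pi.sub_apply, Pi.sub_apply, hf₁, Pi.sub_apply]
    abel
  rw [e]
  refine ⟨IsCocycle₂.sub' hf₂coc (isCocycle₂_dd b), fun h hh g => ?_, fun g h hh => ?_⟩
  · rw [Pi.sub_apply, dd_apply, hbf h hh g, hbH h hh]
    have h2 : h * g = g * (g⁻¹ * h * g) := by group
    have h3 : g⁻¹ * h * g ∈ H := by
      have := hn.conj_mem h hh g⁻¹
      simpa using this
    rw [h2, hbr _ _ h3]
    abel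
  · rw [Pi.sub_apply, dd_apply, hf₂r g h hh, hbH h hh, hbr g h hh, smul_zero]
    abel

end infRes

/-! ### Cyclic quotients -/

section cyclic

omit 𝓥 in
/-- the norm `Σ_{k<n} σ^k a` -/
def nrm (σ : G) (n : ℕ) (a : A) : A := ∑ k ∈ Finset.range n, σ ^ k • a

omit 𝓥 in
/-- the invariant `Σ_{k<n} f(σ^k, σ)` of a cocycle -/
def tinv (f : G × G → A) (σ : G) (n : ℕ) : A := ∑ k ∈ Finset.range n, f (σ ^ k, σ)

variable {H : Subgroup G}

theorem exists_nrm_eq_tinv [hn : H.Normal] (h90 : (𝓥.restrict H).H90 A) {f : G × G → A}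
    (hf : Inflated H f) {σ : G} {n : ℕ} (hσ : σ ^ n ∈ H) (ht : 𝓥.Triv₂ f) :
    ∃ a : A, (∀ h ∈ H, h • a = a) ∧ tinv f σ n = nrm σ n a := by
  obtain ⟨y, hy, hyf⟩ := ht
  have hcoc : IsCocycle₁ (fun h : H => y h) := by
    intro h h'
    have h1 := hyf h h'
    rw [hf.left _ h.2, dd_apply] at h1
    have h2 : y ((h : G) * h') = (h : G) • y h' + y h := by
      linear_combination (norm := abel) -h1
    exact h2
  have hyc : (𝓥.restrict H).IsConst₁ (fun h : H => y h) := hy.comap H.subtype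
  obtain ⟨c, hc⟩ := h90 _ hcoc hyc
  obtain ⟨z, hz⟩ : ∃ z : G → A, z = y - fun g : G => g • c - c := ⟨_, rfl⟩
  have hzf : ∀ g h, g • z h - z (g * h) + z g = f (g, h) := by
    intro g h
    rw [← dd_apply, hz, dd_sub, dd_coboundary, sub_zero, hyf]
  have hzH : ∀ h ∈ H, z h = 0 := by
    intro h hh
    have h1 : y h = h • c - c := hc ⟨h, hh⟩
    rw [hz, Pi.sub_apply, h1, sub_self]
  have hzr : ∀ g, ∀ h ∈ H, z (g * h) = z g := by
    intro g h hh
    have h1 := hzf g h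
    rw [hf.right _ h hh, hzH h hh, smul_zero] at h1
    linear_combination (norm := abel) -h1
  have hzl : ∀ g, ∀ h ∈ H, z (h * g) = h • z g := by
    intro g h hh
    have h1 := hzf h g
    rw [hf.left _ hh, hzH h hh] at h1
    linear_combination (norm := abel) -h1
  refine ⟨z σ, fun h hh => ?_, ?_⟩
  · rw [← hzl σ h hh]
    have h2 : h * σ = σ * (σ⁻¹ * h * σ) := by group
    rw [h2, hzr]
    have := hn.conj_mem h hh σ⁻¹
    simpa using this
  · rw [tinv, nrm]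
    have h1 : ∀ k ∈ Finset.range n, f (σ ^ k, σ) = σ ^ k • z σ + (z (σ ^ k) - z (σ ^ (k + 1))) := by
      intro k _
      rw [← hzf, pow_succ]
      abel
    rw [Finset.sum_congr rfl h1, Finset.sum_add_distrib, Finset.sum_range_sub', pow_zero,
      hzH _ hσ, hzH _ H.one_mem, sub_zero, add_zero]

theorem triv₂_of_tinv_eq_nrm [hn : H.Normal] (hH : 𝓥.IsOpenSubgroup H) {f : G × G → A}
    (hf : Inflated H f) {σ : G} {n : ℕ} (hσ : ∀ k : ℕ, σ ^ k ∈ H ↔ n ∣ k)
    (hgen : ∀ g : G, ∃ k : ℕ, ∃ h ∈ H, g = σ ^ k * h)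
    {a : A} (ha : ∀ h ∈ H, h • a = a) (hT : tinv f σ n = nrm σ n a) : 𝓥.Triv₂ f := by
  obtain ⟨φ, hφ⟩ : ∃ φ : ℕ → A, ∀ i, φ i = ∑ k ∈ Finset.range i, (σ ^ k • a - f (σ ^ k, σ)) :=
    ⟨_, fun _ => rfl⟩
  have hφ0 : φ 0 = 0 := by rw [hφ]; simp
  have hφs : ∀ i, φ (i + 1) = φ i + (σ ^ i • a - f (σ ^ i, σ)) := by
    intro i; rw [hφ, hφ, Finset.sum_range_succ]
  have hφn : φ n = 0 := by
    rw [hφ, Finset.sum_sub_distrib]
    rw [tinv, nrm] at hT
    rw [hT, sub_self]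
  have hσn : σ ^ n ∈ H := (hσ n).2 dvd_rfl
  have hφp : ∀ i, φ (n + i) = φ i := by
    intro i
    induction i with
    | zero => rw [add_zero, hφn, hφ0]
    | succ i ih =>
      rw [← add_assoc, hφs, hφs, ih]
      have e1 : σ ^ (n + i) = σ ^ i * σ ^ n := by rw [← pow_add, add_comm]
      rw [e1, mul_smul, ha _ hσn, hf.mul_left _ _ hσn]
  have hφp' : ∀ m i, φ (n * m + i) = φ i := by
    intro m i
    induction m with
    | zero => simp
    | succ m ih => rw [mul_add, mul_one, add_assoc, add_left_comm, hφp, ih]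
  have hφc : ∀ i j, σ ^ i ∈ (fun g : G => σ ^ j * g) '' (H : Set G) → φ i = φ j := by
    rintro i j ⟨h, hh, hij⟩
    simp only at hij
    rcases le_total i j with hle | hle
    · obtain ⟨d, rfl⟩ := Nat.exists_eq_add_of_le hle
      have h1 : σ ^ d = h⁻¹ := by
        rw [pow_add, mul_assoc] at hij
        have : σ ^ d * h = 1 := by
          have := congrArg (fun g => (σ ^ i)⁻¹ * g) hij
          simpa [← mul_assoc] using this
        exact eq_inv_of_mul_eq_one_left this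
      have h2 : n ∣ d := (hσ d).1 (h1 ▸ H.inv_mem hh)
      obtain ⟨m, rfl⟩ := h2
      rw [add_comm, hφp']
    · obtain ⟨d, rfl⟩ := Nat.exists_eq_add_of_le hle
      have h1 : σ ^ d = h := by
        rw [pow_add] at hij
        exact (mul_left_cancel hij).symm
      have h2 : n ∣ d := (hσ d).1 (h1 ▸ hh)
      obtain ⟨m, rfl⟩ := h2
      rw [add_comm, hφp']
  choose e hh he heq using hgen
  obtain ⟨y, hy⟩ : ∃ y : G → A, ∀ g, y g = φ (e g) := ⟨_, fun _ => rfl⟩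
  have hyk : ∀ k : ℕ, ∀ h ∈ H, y (σ ^ k * h) = φ k := by
    intro k h hh'
    rw [hy]
    refine hφc _ _ ⟨h * (hh (σ ^ k * h))⁻¹, H.mul_mem hh' (H.inv_mem (he _)), ?_⟩
    have := heq (σ ^ k * h)
    simp only
    rw [← mul_assoc]
    exact mul_inv_eq_of_eq_mul this
  have hyr : ∀ g, ∀ h ∈ H, y (g * h) = y g := by
    intro g h hh'
    rw [heq g, mul_assoc, hyk _ _ (H.mul_mem (he g) hh'), hyk _ _ (he g)]
  have hyc : 𝓥.IsConst₁ y := by
    obtain ⟨V, hV, hle⟩ := hH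
    exact ⟨V, hV, fun g s hs => hyr g s (hle hs)⟩
  have hyH : ∀ h ∈ H, y h = 0 := by
    intro h hh'
    have := hyk 0 h hh'
    rwa [pow_zero, one_mul, hφ0] at this
  refine ⟨y, hyc, ?_⟩
  obtain ⟨c, hc⟩ : ∃ c, c = f - dd y := ⟨_, rfl⟩
  have hcc : IsCocycle₂ c := hc ▸ IsCocycle₂.sub' hf.coc (isCocycle₂_dd y)
  have hcH : ∀ g, ∀ h ∈ H, c (g, h) = 0 := by
    intro g h hh'
    rw [hc, Pi.sub_apply, dd_apply, hf.right _ _ hh', hyH h hh', hyr g h hh', smul_zero]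
    abel
  have hcσ : ∀ g, c (g, σ) = 0 := by
    intro g
    obtain ⟨k, h, hh', rfl⟩ : ∃ k : ℕ, ∃ h ∈ H, g = σ ^ k * h := ⟨e g, hh g, he g, heq g⟩
    have e1 : y σ = a := by
      have := hyk 1 1 H.one_mem
      rw [pow_one, mul_one] at this
      rw [this, ← zero_add 1, hφs, hφ0, pow_zero, one_smul, hf.left 1 H.one_mem]
      abel
    have e2 : y (σ ^ k * h * σ) = φ (k + 1) := by
      have : σ ^ k * h * σ = σ ^ (k + 1) * (σ⁻¹ * h * σ) := by rw [pow_succ]; group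
      rw [this]
      refine hyk _ _ ?_
      have := hn.conj_mem h hh' σ⁻¹
      simpa using this
    rw [hc, Pi.sub_apply, dd_apply, e1, e2, hyk k h hh', hφs, hf.mul_left _ _ hh', mul_smul,
      ha h hh']
    abel
  have hck : ∀ k : ℕ, ∀ g, c (g, σ ^ k) = 0 := by
    intro k
    induction k with
    | zero => intro g; rw [pow_zero]; exact hcH g 1 H.one_mem
    | succ k ih =>
      intro g
      have := hcc g (σ ^ k) σ
      rw [hcσ, hcσ, ih, smul_zero, zero_add, zero_add, ← pow_succ] at this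
      exact this.symm
  intro g j
  have h1 : c (g, j) = 0 := by
    obtain ⟨k, h, hh', rfl⟩ : ∃ k : ℕ, ∃ h ∈ H, j = σ ^ k * h := ⟨e j, hh j, he j, heq j⟩
    have := hcc g (σ ^ k) h
    rw [hcH _ _ hh', hcH _ _ hh', hck, smul_zero, zero_add, zero_add] at this
    exact this.symm
  rw [hc, Pi.sub_apply, sub_eq_zero] at h1
  exact h1.symm

end cyclic

/-! ### The transfer trick -/

section transfer

/-- If the restriction of a cocycle `f` to a subgroup `H` of finite index is trivial, then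
`[G:H] • f` is trivial. -/
theorem triv₂_index_smul {H : Subgroup G} (hH : 𝓥.IsOpenSubgroup H)
    {f : G × G → A} (hf : IsCocycle₂ f) (hc : 𝓥.IsConst₂ f)
    (ht : (𝓥.restrict H).Triv₂ (res₂ H f)) : 𝓥.Triv₂ (H.index • f) := by
  classical
  have hfi := hH.finiteIndex
  have : Fintype (G ⧸ H) := Subgroup.fintypeQuotientOfFiniteIndex
  obtain ⟨y, hy, hyf⟩ := ht
  -- representatives
  have hmem : ∀ (g : G) (c : G ⧸ H), c.out⁻¹ * g * (g⁻¹ • c).out ∈ H := by
    intro g c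
    rw [mul_assoc, ← QuotientGroup.eq, QuotientGroup.out_eq']
    have h1 : (QuotientGroup.mk (g * (g⁻¹ • c).out) : G ⧸ H) = g • (g⁻¹ • c) := by
      conv_rhs => rw [← QuotientGroup.out_eq' (g⁻¹ • c)]
      rfl
    rw [h1, smul_inv_smul]
  obtain ⟨η, hη⟩ : ∃ η : G → G ⧸ H → H, ∀ g c, ((η g c : H) : G) = c.out⁻¹ * g * (g⁻¹ • c).out :=
    ⟨fun g c => ⟨_, hmem g c⟩, fun _ _ => rfl⟩
  obtain ⟨z, hz⟩ : ∃ z : G → G ⧸ H → A, ∀ g c, z g c =
      f (g, (g⁻¹ • c).out) - f (c.out, η g c) + c.out • y (η g c) := ⟨_, fun _ _ => rfl⟩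
  have key : ∀ g g' c, g • z g' (g⁻¹ • c) - z (g * g') c + z g c = f (g, g') := by
    intro g g' c
    have hmulinv : (g * g')⁻¹ • c = g'⁻¹ • g⁻¹ • c := by rw [mul_inv_rev, mul_smul]
    have hηmul : η (g * g') c = η g c * η g' (g⁻¹ • c) := by
      apply Subtype.ext
      rw [Subgroup.coe_mul, hη, hη, hη, hmulinv]
      group
    rw [hz, hz, hz, hmulinv, hηmul]
    set t0 := c.out with ht0
    set t1 := (g⁻¹ • c).out with ht1
    set t2 := (g'⁻¹ • g⁻¹ • c).out with ht2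
    have hg1 : g * t1 = t0 * (η g c : G) := by rw [hη, ← ht0, ← ht1]; group
    have hg2 : g' * t2 = t1 * (η g' (g⁻¹ • c) : G) := by rw [hη, ← ht1, ← ht2]; group
    set h1 := η g c with hh1
    set h2 := η g' (g⁻¹ • c) with hh2
    have e0 := hyf h1 h2
    rw [dd_apply] at e0
    have e0' : (h1 : G) • y h2 - y (h1 * h2) + y h1 = f ((h1 : G), (h2 : G)) := e0
    have e0'' := congrArg (fun w => t0 • w) e0'
    simp only [smul_add, smul_sub] at e0''
    rw [← mul_smul, ← hg1, mul_smul] at e0''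
    have e1 := hf g g' t2
    have e2 := hf t0 h1 h2
    have e3 := hf g t1 h2
    rw [hg2] at e1
    rw [← hg1] at e2
    simp only [smul_add, smul_sub, Subgroup.coe_mul]
    linear_combination (norm := abel) e0'' + e3 - e1 - e2
  obtain ⟨V₁, hV₁, hV₁f⟩ := hc
  obtain ⟨V₂, hV₂, hV₂y⟩ := (isConst₁_comap_iff _ _ _).1 hy
  obtain ⟨V₃, hV₃, hV₃H⟩ := hH
  obtain ⟨V₄, hV₄, hV₄'⟩ := 𝓥.inf_mem' _ hV₁ _ hV₂
  obtain ⟨V₅, hV₅, hV₅'⟩ := 𝓥.inf_mem' _ hV₄ _ hV₃
  obtain ⟨V, hV, hV', hVn, -⟩ := 𝓥.core' _ hV₅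
  have hle1 : V ≤ V₁ := ((hV'.trans hV₅').trans inf_le_left).trans (hV₄'.trans inf_le_left)
  have hle2 : V ≤ V₂ := ((hV'.trans hV₅').trans inf_le_left).trans (hV₄'.trans inf_le_right)
  have hle3 : V ≤ H := ((hV'.trans hV₅').trans inf_le_right).trans hV₃H
  have hVact : ∀ s ∈ V, ∀ c : G ⧸ H, s • c = c := by
    intro s hs c
    conv_lhs => rw [← QuotientGroup.out_eq' c]
    conv_rhs => rw [← QuotientGroup.out_eq' c]
    change (QuotientGroup.mk (s * c.out) : G ⧸ H) = QuotientGroup.mk c.out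
    rw [QuotientGroup.eq]
    have h1 : (s * c.out)⁻¹ * c.out = c.out⁻¹ * s⁻¹ * c.out⁻¹⁻¹ := by group
    rw [h1]
    exact hle3 (hVn.conj_mem _ (V.inv_mem hs) _)
  have hzc : ∀ g, ∀ s ∈ V, ∀ c, z (g * s) c = z g c := by
    intro g s hs c
    have e1 : (g * s)⁻¹ • c = g⁻¹ • c := by
      rw [mul_inv_rev, mul_smul, hVact _ (V.inv_mem hs)]
    set t1 := (g⁻¹ • c).out with ht1
    have hsV : t1⁻¹ * s * t1 ∈ V := by
      have := hVn.conj_mem s hs t1⁻¹
      simpa using this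
    have e2 : η (g * s) c = η g c * ⟨t1⁻¹ * s * t1, hle3 hsV⟩ := by
      apply Subtype.ext
      rw [Subgroup.coe_mul, hη, hη, e1, ← ht1]
      group
    have e3 : f (g * s, t1) = f (g, t1) := by
      have := hV₁f g t1 s (hle1 hs) 1 V₁.one_mem
      rwa [mul_one] at this
    have e4 : f (c.out, (η g c : G) * (t1⁻¹ * s * t1)) = f (c.out, η g c) := by
      have := hV₁f c.out (η g c) 1 V₁.one_mem _ (hle1 hsV)
      rwa [mul_one] at this
    have e5 : y (η g c * ⟨t1⁻¹ * s * t1, hle3 hsV⟩) = y (η g c) :=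
      hV₂y _ ⟨t1⁻¹ * s * t1, hle3 hsV⟩ (hle2 hsV)
    rw [hz, hz, e1, e2, ← ht1, e3, e5, Subgroup.coe_mul, e4]
  refine ⟨fun g => ∑ c, z g c, ⟨V, hV, fun g s hs => Finset.sum_congr rfl fun c _ => hzc g s hs c⟩,
    fun g g' => ?_⟩
  rw [dd_apply, Finset.smul_sum]
  have h1 : ∑ c, g • z g' c = ∑ c, g • z g' (g⁻¹ • c) :=
    (Equiv.sum_comp (MulAction.toPerm g⁻¹) (fun c : G ⧸ H => g • z g' c)).symm
  rw [h1, ← Finset.sum_sub_distrib, ← Finset.sum_add_distrib,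
    Finset.sum_congr rfl fun c _ => key g g' c, Finset.sum_const, Finset.card_univ,
    ← Nat.card_eq_fintype_card]
  rfl

lemma Triv₂.nsmul {f : G × G → A} (hf : 𝓥.Triv₂ f) (n : ℕ) : 𝓥.Triv₂ (n • f) := by
  induction n with
  | zero => rw [zero_smul]; exact triv₂_zero
  | succ n ih => rw [succ_nsmul]; exact ih.add hf

lemma Triv₂.zsmul {f : G × G → A} (hf : 𝓥.Triv₂ f) (n : ℤ) : 𝓥.Triv₂ (n • f) := by
  obtain ⟨x, hx, h⟩ := hf
  refine ⟨fun g => n • x g, hx.comp _, fun g j => ?_⟩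
  rw [dd_apply, Pi.smul_apply, ← h, dd_apply, smul_add, smul_sub, smul_comm g n]

/-- restriction to a subgroup of index prime to `p` is injective on classes killed by `p` -/
theorem triv₂_of_coprime_index {H : Subgroup G} (hH : 𝓥.IsOpenSubgroup H)
    {f : G × G → A} (hf : IsCocycle₂ f) (hc : 𝓥.IsConst₂ f)
    (ht : (𝓥.restrict H).Triv₂ (res₂ H f)) {p : ℕ} (hp : 𝓥.Triv₂ (p • f))
    (hcop : Nat.Coprime p H.index) : 𝓥.Triv₂ f := by
  have h1 := triv₂_index_smul hH hf hc ht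
  have h2 := Nat.gcd_eq_gcd_ab p H.index
  rw [hcop] at h2
  have h3 : f = (p.gcdA H.index) • (p • f) + (p.gcdB H.index) • (H.index • f) := by
    rw [← natCast_zsmul f p, ← natCast_zsmul f H.index, smul_smul, smul_smul, ← add_smul,
      mul_comm, mul_comm (p.gcdB H.index), ← h2]
    simp
  rw [h3]
  exact (hp.zsmul _).add (h1.zsmul _)

end transfer

end LevelFam

end Fermat.Agent.H91
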