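import Mathlib
import Fermat.Agent.H91InfRes

set_option autoImplicit false

/-!
# Units of fields as modules, Hilbert 90 for level cocycles
-/

namespace Fermat.Agent.H91

open groupCohomology

universe u v

section units

variable {G : Type u} {Ω : Type v} [Group G] [Field Ω] [MulSemiringAction G Ω]

/-- The (additive) module of units of a field with a group action. -/
instance (priority := low) instUnitsDMA : DistribMulAction G (Additive Ωˣ) where
  smul g a := Additive.ofMul (Units.map (MulSemiringAction.toRingHom G Ω g : Ω →* Ω) a.toMul)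
  one_smul a := by
    refine Additive.toMul.injective (Units.ext ?_)
    exact one_smul G ((a.toMul : Ωˣ) : Ω)
  mul_smul g h a := by
    refine Additive.toMul.injective (Units.ext ?_)
    exact mul_smul g h ((a.toMul : Ωˣ) : Ω)
  smul_zero g := by
    refine Additive.toMul.injective (Units.ext ?_)
    exact smul_one g
  smul_add g a b := by
    refine Additive.toMul.injective (Units.ext ?_)
    exact smul_mul' g ((a.toMul : Ωˣ) : Ω) ((b.toMul : Ωˣ) : Ω)

/-- the value in the field of an element of the module of units -/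
def uval (a : Additive Ωˣ) : Ω := ((a.toMul : Ωˣ) : Ω)

@[simp] lemma uval_smul (g : G) (a : Additive Ωˣ) : uval (g • a) = g • uval a := rfl
@[simp] lemma uval_add (a b : Additive Ωˣ) : uval (a + b) = uval a * uval b := rfl
@[simp] lemma uval_zero : uval (0 : Additive Ωˣ) = 1 := rfl
@[simp] lemma uval_neg (a : Additive Ωˣ) : uval (-a) = (uval a)⁻¹ := by
  show ((a.toMul⁻¹ : Ωˣ) : Ω) = _
  exact Units.val_inv_eq_inv_val _
@[simp] lemma uval_sub (a b : Additive Ωˣ) : uval (a - b) = uval a / uval b := by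
  rw [sub_eq_add_neg, uval_add, uval_neg, div_eq_mul_inv]
@[simp] lemma uval_nsmul (n : ℕ) (a : Additive Ωˣ) : uval (n • a) = uval a ^ n := by
  show ((a.toMul ^ n : Ωˣ) : Ω) = _
  exact Units.val_pow_eq_pow_val _ _
lemma uval_ne_zero (a : Additive Ωˣ) : uval a ≠ 0 := (a.toMul : Ωˣ).ne_zero
lemma uval_injective : Function.Injective (uval : Additive Ωˣ → Ω) :=
  fun _ _ h => Additive.toMul.injective (Units.ext h)
@[simp] lemma uval_inj {a b : Additive Ωˣ} : uval a = uval b ↔ a = b := uval_injective.eq_iff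

lemma uval_sum {ι : Type*} (s : Finset ι) (f : ι → Additive Ωˣ) :
    uval (∑ i ∈ s, f i) = ∏ i ∈ s, uval (f i) := by
  classical
  induction s using Finset.induction_on with
  | empty => simp
  | insert i s hi ih => rw [Finset.sum_insert hi, Finset.prod_insert hi, uval_add, ih]

/-- constructor -/
def umk (x : Ω) (hx : x ≠ 0) : Additive Ωˣ := Additive.ofMul (Units.mk0 x hx)

@[simp] lemma uval_umk (x : Ω) (hx : x ≠ 0) : uval (umk x hx) = x := rfl

/-- The level family is given by fixers of subfields. -/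
def FaithfulOn (𝓥 : LevelFam G) (Ω : Type v) [Field Ω] [MulSemiringAction G Ω] : Prop :=
  ∀ V ∈ 𝓥.carrier, ∃ X ∈ 𝓥.carrier, X ≤ V ∧ ∃ F : Subfield Ω, ∀ g : G, g ∈ X ↔ ∀ x ∈ F, g • x = x

lemma FaithfulOn.comap {𝓥 : LevelFam G} (h : FaithfulOn 𝓥 Ω) {H : Type*} [Group H] {Ω' : Type*}
    [Field Ω'] [MulSemiringAction H Ω'] (r : H →* G) (ι : Ω →+* Ω')
    (hι : ∀ h x, ι (r h • x) = h • ι x) : FaithfulOn (𝓥.comap r) Ω' := by
  rintro _ ⟨V, hV, rfl⟩
  obtain ⟨X, hX, hXV, F, hF⟩ := h V hV
  refine ⟨_, ⟨X, hX, rfl⟩, Subgroup.comap_mono hXV, F.map ι, fun g => ?_⟩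
  rw [Subgroup.mem_comap, hF]
  constructor
  · rintro h' _ ⟨x, hx, rfl⟩
    have := congrArg ι (h' x hx)
    rw [hι] at this
    exact this
  · intro h' x hx
    apply ι.injective
    rw [hι]
    exact h' _ ⟨x, hx, rfl⟩

lemma FaithfulOn.restrict {𝓥 : LevelFam G} (h : FaithfulOn 𝓥 Ω) (U : Subgroup G) :
    FaithfulOn (𝓥.restrict U) Ω :=
  h.comap U.subtype (RingHom.id Ω) (fun _ _ => rfl)

/-- Hilbert's theorem 90 for level cocycles. -/
theorem FaithfulOn.h90 {𝓥 : LevelFam G} (h : FaithfulOn 𝓥 Ω) : 𝓥.H90 (Additive Ωˣ) := by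
  classical
  intro f hf hfc
  obtain ⟨V, hV, hVf⟩ := hfc
  obtain ⟨X, hX, hXV, F, hF⟩ := h V hV
  have hfi : X.FiniteIndex := by
    obtain ⟨Y, hY, hYX, -, hYi⟩ := 𝓥.core' X hX
    exact Subgroup.finiteIndex_of_le hYX
  have : Fintype (G ⧸ X) := Subgroup.fintypeQuotientOfFiniteIndex
  -- the characters
  let φ : G ⧸ X → (F →* Ω) := fun q =>
    { toFun := fun c => q.out • (c : Ω)
      map_one' := by simp
      map_mul' := fun a b => by simp [smul_mul'] }
  have hφ : ∀ (g : G) (c : F), φ (QuotientGroup.mk g) c = g • (c : Ω) := by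
    intro g c
    show (QuotientGroup.mk (s := X) g).out • (c : Ω) = g • (c : Ω)
    obtain ⟨v, hv⟩ := QuotientGroup.mk_out_eq_mul X g
    rw [hv, mul_smul, (hF v).1 v.2 c c.2]
  have hφinj : Function.Injective φ := by
    intro q q' hq
    obtain ⟨g, rfl⟩ := QuotientGroup.mk_surjective q
    obtain ⟨g', rfl⟩ := QuotientGroup.mk_surjective q'
    rw [QuotientGroup.eq, hF]
    intro x hx
    have := congrArg (fun ψ : F →* Ω => ψ ⟨x, hx⟩) hq
    simp only [hφ] at this
    rw [mul_smul, ← this, inv_smul_smul]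
  have hli : LinearIndependent Ω (fun q : G ⧸ X => (φ q : F → Ω)) :=
    (linearIndependent_monoidHom F Ω).comp φ hφinj
  have hne : ∃ c : F, ∑ q : G ⧸ X, uval (f q.out) * φ q c ≠ 0 := by
    by_contra hcon
    push Not at hcon
    have h1 : ∑ q : G ⧸ X, uval (f q.out) • (φ q : F → Ω) = 0 := by
      funext c
      rw [Finset.sum_apply]
      simpa using hcon c
    have h2 := Fintype.linearIndependent_iff.1 hli _ h1 (QuotientGroup.mk 1)
    exact uval_ne_zero _ h2
  obtain ⟨c, hc⟩ := hne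
  have hfX : ∀ g, ∀ s ∈ X, f (g * s) = f g := fun g s hs => hVf g s (hXV hs)
  have hfout : ∀ g : G, f (QuotientGroup.mk (s := X) g).out = f g := by
    intro g
    obtain ⟨v, hv⟩ := QuotientGroup.mk_out_eq_mul X g
    rw [hv, hfX _ _ v.2]
  set b := ∑ q : G ⧸ X, uval (f q.out) * φ q c with hb
  have hgb : ∀ g : G, g • b = (uval (f g))⁻¹ * b := by
    intro g
    rw [hb, Finset.smul_sum, Finset.mul_sum]
    rw [← Equiv.sum_comp (MulAction.toPerm g)
      (fun q : G ⧸ X => (uval (f g))⁻¹ * (uval (f q.out) * φ q c))]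
    refine Finset.sum_congr rfl fun q _ => ?_
    have hq : (MulAction.toPerm g : Equiv.Perm (G ⧸ X)) q = QuotientGroup.mk (g * q.out) := by
      conv_lhs => rw [← QuotientGroup.out_eq' q]
      rfl
    rw [hq, hfout, hφ, hf g q.out, uval_add, uval_smul, smul_mul']
    have h3 : φ q c = q.out • (c : Ω) := rfl
    rw [h3, mul_smul]
    field_simp [uval_ne_zero (f g)]
  have hb0 : b ≠ 0 := hc
  refine ⟨-(umk b hb0), fun g => ?_⟩
  apply uval_injective
  rw [uval_sub, uval_smul, uval_neg, uval_umk, smul_inv'', hgb]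
  field_simp [uval_ne_zero (f g), hb0]

end units

/-! ### Torsion cocycles -/

namespace LevelFam

variable {G : Type u} [Group G] {𝓥 : LevelFam G} {A : Type v} [AddCommGroup A]
  [DistribMulAction G A]

/-- If a `p`-torsion cocycle is a coboundary in a `p`-divisible module with Hilbert 90, it is
the coboundary of a `p`-torsion valued cochain. -/
theorem exists_torsion_of_triv₂ (hA : 𝓥.Smooth A) (h90 : 𝓥.H90 A) {p : ℕ}
    (hdiv : ∀ a : A, ∃ b : A, p • b = a) {f : G × G → A} (hpf : ∀ g h, p • f (g, h) = 0)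
    (ht : 𝓥.Triv₂ f) : ∃ y : G → A, 𝓥.IsConst₁ y ∧ (∀ g h, dd y (g, h) = f (g, h)) ∧
      ∀ g, p • y g = 0 := by
  obtain ⟨x, hx, hxf⟩ := ht
  have hcoc : IsCocycle₁ (fun g => p • x g) := by
    intro g h
    have h1 := congrArg (fun a => p • a) (hxf g h)
    simp only [hpf, dd_apply, smul_add, smul_sub] at h1
    have h2 : p • g • x h = g • p • x h := (smul_comm g p (x h)).symm
    rw [h2] at h1
    show p • x (g * h) = g • p • x h + p • x g
    linear_combination (norm := abel) -h1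
  obtain ⟨m, hm⟩ := h90 _ hcoc (hx.comp _)
  obtain ⟨n, rfl⟩ := hdiv m
  refine ⟨x - fun g => g • n - n, hx.sub (isConst₁_coboundary hA n), fun g h => ?_, fun g => ?_⟩
  · rw [dd_sub, dd_coboundary, sub_zero, hxf]
  · rw [Pi.sub_apply, smul_sub, smul_sub, ← smul_comm g p n]
    have := hm g
    rw [this]
    abel

end LevelFam

/-! ### The algebraic closure of `ℚ` -/

lemma faithfulOn_krullFam : FaithfulOn krullFam Qb := by
  rintro _ ⟨F, hF, rfl⟩
  refine ⟨_, ⟨F, hF, rfl⟩, le_rfl, F.toSubfield, fun g => ?_⟩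
  rw [IntermediateField.mem_fixingSubgroup_iff]
  rfl

lemma faithfulOn_ramFam (S : Finset Nat.Primes) : FaithfulOn (ramFam S) Qb := by
  rintro _ ⟨F, hF, rfl⟩
  refine ⟨_, ⟨F, hF, rfl⟩, le_rfl, F.toSubfield, fun g => ?_⟩
  rw [IntermediateField.mem_fixingSubgroup_iff]
  rfl

lemma exists_krull_fix (x : Qb) : ∃ V ∈ krullFam.carrier, ∀ s ∈ V, s • x = x := by
  have : FiniteDimensional ℚ (IntermediateField.adjoin ℚ {x}) :=
    IntermediateField.adjoin.finiteDimensional (Algebra.IsAlgebraic.isAlgebraic x).isIntegral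
  refine ⟨_, ⟨IntermediateField.adjoin ℚ {x}, this, rfl⟩, fun s hs => ?_⟩
  rw [IntermediateField.mem_fixingSubgroup_iff] at hs
  exact hs x (IntermediateField.mem_adjoin_simple_self ℚ x)

lemma smooth_krullFam : krullFam.Smooth (Additive Qbˣ) := by
  intro a
  obtain ⟨V, hV, h⟩ := exists_krull_fix (uval a)
  exact ⟨V, hV, fun s hs => uval_injective (by rw [uval_smul]; exact h s hs)⟩

namespace LevelFam

variable {G : Type u} [Group G] {𝓥 : LevelFam G} {A : Type v} [AddCommGroup A]
  [DistribMulAction G A]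

lemma Smooth.restrict (h : 𝓥.Smooth A) (U : Subgroup G) : (𝓥.restrict U).Smooth A := by
  intro a
  obtain ⟨V, hV, hV'⟩ := h a
  exact ⟨_, ⟨V, hV, rfl⟩, fun s hs => hV' s hs⟩

end LevelFam

/-- divisibility of the units of an algebraically closed field -/
lemma exists_nsmul_eq_units {Ω : Type*} [Field Ω] [IsAlgClosed Ω] {p : ℕ} (hp : 0 < p)
    (a : Additive Ωˣ) : ∃ b : Additive Ωˣ, p • b = a := by
  obtain ⟨z, hz⟩ := IsAlgClosed.exists_pow_nat_eq (uval a) hp
  have hz0 : z ≠ 0 := by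
    rintro rfl
    rw [zero_pow hp.ne'] at hz
    exact uval_ne_zero a hz.symm
  exact ⟨umk z hz0, uval_injective (by rw [uval_nsmul, uval_umk, hz])⟩

end Fermat.Agent.H91
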