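import Mathlib
import Fermat.Agent.H56Defs
import Fermat.Agent.H54TotRam
import Fermat.Agent.H54Place
import Fermat.Agent.H7LocPowPadic
import Fermat.Agent.H91Units

set_option autoImplicit false
set_option maxSynthPendingDepth 3

/-!
# S56-O, part 1: counting the cocycles of the decomposition group at `p` with values in `μ_p`
-/

namespace Fermat.Agent.H81

open Fermat.Agent.H55 Fermat.Agent.H56 Fermat.Agent.H91 ExtCitation
open groupCohomology

noncomputable section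

local notation "Qb" => AlgebraicClosure ℚ

variable (p : ℕ) [hp : Fact p.Prime]

section Expo

variable {p} {F : Type*} [Field F] {ζ : F}

/-- `ζ ^ a`, `a ∈ ZMod p` -/
def ze (ζ : F) (a : ZMod p) : F := ζ ^ a.val

theorem ze_natCast (hζ : ζ ^ p = 1) (n : ℕ) : ze ζ (n : ZMod p) = ζ ^ n := by
  rw [ze, ZMod.val_natCast, ← pow_eq_pow_mod n hζ]

theorem ze_zero : ze ζ (0 : ZMod p) = 1 := by
  rw [ze, ZMod.val_zero, pow_zero]

theorem ze_add (hζ : ζ ^ p = 1) (a b : ZMod p) : ze ζ (a + b) = ze ζ a * ze ζ b := by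
  rw [ze, ZMod.val_add, ← pow_eq_pow_mod _ hζ, pow_add]; rfl

theorem ze_mul (hζ : ζ ^ p = 1) (a b : ZMod p) : ze ζ (a * b) = (ze ζ b) ^ a.val := by
  rw [ze, ZMod.val_mul, ← pow_eq_pow_mod _ hζ, mul_comm, pow_mul]; rfl

theorem ze_ne_zero (hζ : ζ ^ p = 1) (a : ZMod p) : ze ζ a ≠ 0 := by
  have : ζ ≠ 0 := by
    rintro rfl
    rw [zero_pow hp.out.ne_zero] at hζ
    exact zero_ne_one hζ
  exact pow_ne_zero _ this

omit hp in
theorem ze_pow (hζ : ζ ^ p = 1) (a : ZMod p) : ze ζ a ^ p = 1 := by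
  rw [ze, ← pow_mul, mul_comm, pow_mul, hζ, one_pow]

theorem ze_injective (hζ : IsPrimitiveRoot ζ p) {a b : ZMod p} (h : ze ζ a = ze ζ b) : a = b := by
  have : NeZero p := ⟨hp.out.ne_zero⟩
  exact ZMod.val_injective p (hζ.pow_inj (ZMod.val_lt a) (ZMod.val_lt b) h)

theorem exists_ze (hζ : IsPrimitiveRoot ζ p) {x : F} (hx : x ^ p = 1) :
    ∃ a : ZMod p, x = ze ζ a := by
  have : NeZero p := ⟨hp.out.ne_zero⟩
  obtain ⟨i, -, hi⟩ := hζ.eq_pow_of_pow_eq_one hx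
  exact ⟨(i : ZMod p), by rw [ze_natCast hζ.pow_eq_one, hi]⟩

end Expo

theorem map_ze (σ : GQ) {ζ : Qb} (hζ : ζ ^ p = 1) (a : ZMod p) :
    σ (ze ζ a) = ze ζ ((cycloChar p σ : ZMod p) * a) := by
  rw [ze_mul hζ]
  show σ (ζ ^ a.val) = (ζ ^ a.val) ^ _
  rw [map_pow, H54.cycloChar_spec p σ hζ, ← pow_mul, ← pow_mul, mul_comm]

/-- the cyclotomic representation of the decomposition group at `p` -/
abbrev chiD : Representation (ZMod p) (Dq (pPrime p)) (ZMod p) :=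
  rhoD (mu (cycloChar p)) (pPrime p)

theorem chiD_apply (σ : Dq (pPrime p)) (a : ZMod p) :
    chiD p σ a = (cycloChar p (σ : GQ) : ZMod p) * a := by
  show mu (cycloChar p) (σ : GQ) a = _
  rw [mu_apply]

theorem exists_kummer {ζ : Qb} (hζ : IsPrimitiveRoot ζ p) {c : Dq (pPrime p) → ZMod p}
    (hc : c ∈ Z1 (Dlev (pPrime p)) (chiD p)) :
    ∃ α : Qb, α ≠ 0 ∧ ∀ σ : Dq (pPrime p), (σ : GQ) α = ze ζ (c σ) * α := by
  have hζ1 := hζ.pow_eq_one
  have h90 : (krullFam.restrict (Dq (pPrime p))).H90 (Additive Qbˣ) :=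
    (faithfulOn_krullFam.restrict (Dq (pPrime p))).h90
  let f : Dq (pPrime p) → Additive Qbˣ := fun σ => umk (ze ζ (c σ)) (ze_ne_zero hζ1 _)
  have hf : IsCocycle₁ f := by
    intro σ τ
    refine uval_injective ?_
    show ze ζ (c (σ * τ)) = (σ : GQ) (ze ζ (c τ)) * ze ζ (c σ)
    rw [hc.2 σ τ, ze_add hζ1, chiD_apply, map_ze p (σ : GQ) hζ1]
  have hfc : (krullFam.restrict (Dq (pPrime p))).IsConst₁ f := by
    have h1 : LC1 (ofFam (krullFam.comap (Dq (pPrime p)).subtype)) c := by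
      rw [ofFam_comap]
      exact hc.1
    rw [lc1_ofFam_iff] at h1
    exact h1.comp (fun a => umk (ze ζ a) (ze_ne_zero hζ1 _))
  obtain ⟨a, ha⟩ := h90 f hf hfc
  refine ⟨uval a, uval_ne_zero a, fun σ => ?_⟩
  have h1 := congrArg uval (ha σ)
  rw [uval_sub] at h1
  have h2 : ze ζ (c σ) = (σ : GQ) (uval a) / uval a := h1
  rw [h2, div_mul_cancel₀ _ (uval_ne_zero a)]

/-- an element of `PadicAlgCl p` fixed by the Galois group is in `ℚ_p` -/
theorem exists_algebraMap_eq_of_fixed (y : PadicAlgCl p)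
    (hy : ∀ τ : PadicAlgCl p ≃ₐ[ℚ_[p]] PadicAlgCl p, τ y = y) :
    ∃ x : ℚ_[p], algebraMap ℚ_[p] (PadicAlgCl p) x = y := by
  have : IsGalois ℚ_[p] (PadicAlgCl p) := inferInstance
  exact IntermediateField.mem_bot.mp ((InfiniteGalois.mem_bot_iff_fixed y).mpr hy)

/-- no `p`-th roots of unity in `ℚ_p`, `p` odd -/
theorem ker_pow_padic (hp2 : p ≠ 2) : (powMonoidHom p : ℚ_[p]ˣ →* ℚ_[p]ˣ).ker = ⊥ := by
  rw [eq_bot_iff]
  intro u hu
  rw [MonoidHom.mem_ker, powMonoidHom_apply] at hu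
  rw [Subgroup.mem_bot]
  by_contra hne
  have h1 : ((u : ℚ_[p])) ^ p = 1 := by rw [← Units.val_pow_eq_pow_val, hu, Units.val_one]
  have hne1 : (u : ℚ_[p]) ≠ 1 := fun h => hne (Units.ext h)
  have hprim : IsPrimitiveRoot (u : ℚ_[p]) p := by
    have := orderOf_eq_prime h1 hne1
    have h2 := IsPrimitiveRoot.orderOf (u : ℚ_[p])
    rwa [this] at h2
  have hprim' : IsPrimitiveRoot (algebraMap ℚ_[p] (PadicAlgCl p) u) (p ^ (0 + 1)) := by
    rw [zero_add, pow_one]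
    exact hprim.map_of_injective (algebraMap ℚ_[p] (PadicAlgCl p)).injective
  have hcop : Nat.Coprime 2 (p ^ (0 + 1)) := by
    rw [zero_add, pow_one]
    exact (Nat.coprime_primes Nat.prime_two hp.out).mpr (Ne.symm hp2)
  have hprim2 : IsPrimitiveRoot ((algebraMap ℚ_[p] (PadicAlgCl p) u) ^ 2) (p ^ (0 + 1)) :=
    hprim'.pow_of_coprime 2 hcop
  obtain ⟨τ, hτ⟩ := H54.exists_algEquiv_primitiveRoot p hprim' hprim2
  rw [AlgEquiv.commutes] at hτ
  have h3 : algebraMap ℚ_[p] (PadicAlgCl p) u = 1 := by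
    have h0 : algebraMap ℚ_[p] (PadicAlgCl p) u ≠ 0 := (map_ne_zero _).mpr u.ne_zero
    rw [sq] at hτ
    exact (mul_right_cancel₀ h0 (by rw [one_mul]; exact hτ)).symm
  rw [← map_one (algebraMap ℚ_[p] (PadicAlgCl p))] at h3
  exact hne1 ((algebraMap ℚ_[p] (PadicAlgCl p)).injective h3)

theorem index_pow_padic (hp2 : p ≠ 2) :
    (powMonoidHom p : ℚ_[p]ˣ →* ℚ_[p]ˣ).range.index = p ^ 2 := by
  rw [H7.index_pow_padic_self p ℚ_[p], ker_pow_padic p hp2, Module.finrank_self]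
  simp
  ring

/-- the restriction map from the local Galois group to the decomposition group -/
def locD (τ : PadicAlgCl p ≃ₐ[ℚ_[p]] PadicAlgCl p) : Dq (pPrime p) :=
  ⟨localGaloisToGlobal p τ, by
    have h1 : localGaloisToGlobal p τ ∈ (padicPlace p).decompositionSubgroup ℚ := by
      rw [← H54.range_localGaloisToGlobal]
      exact ⟨τ, rfl⟩
    exact h1⟩

theorem locD_surjective : Function.Surjective (locD p) := by
  rintro ⟨σ, hσ⟩
  have h1 : σ ∈ (padicPlace p).decompositionSubgroup ℚ := hσ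
  rw [← H54.range_localGaloisToGlobal] at h1
  obtain ⟨τ, rfl⟩ := h1
  exact ⟨τ, rfl⟩

theorem padicEmbedding_locD (τ : PadicAlgCl p ≃ₐ[ℚ_[p]] PadicAlgCl p) (x : Qb) :
    padicEmbedding p (((locD p τ : Dq (pPrime p)) : GQ) x) = τ (padicEmbedding p x) :=
  padicEmbedding_localGaloisToGlobal p τ x

/-- the Kummer class of a cocycle -/
theorem exists_kummer_padic {ζ : Qb} (hζ : IsPrimitiveRoot ζ p) {c : Dq (pPrime p) → ZMod p}
    (hc : c ∈ Z1 (Dlev (pPrime p)) (chiD p)) :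
    ∃ (u : ℚ_[p]ˣ) (α : Qb), α ≠ 0 ∧ (∀ σ : Dq (pPrime p), (σ : GQ) α = ze ζ (c σ) * α) ∧
      algebraMap ℚ_[p] (PadicAlgCl p) u = padicEmbedding p α ^ p := by
  obtain ⟨α, hα0, hα⟩ := exists_kummer p hζ hc
  have h1 : ∀ τ : PadicAlgCl p ≃ₐ[ℚ_[p]] PadicAlgCl p,
      τ (padicEmbedding p α ^ p) = padicEmbedding p α ^ p := by
    intro τ
    rw [map_pow, ← padicEmbedding_locD, hα, map_mul, mul_pow, ← map_pow,
      ze_pow hζ.pow_eq_one, map_one, one_mul]
  obtain ⟨x, hx⟩ := exists_algebraMap_eq_of_fixed p _ h1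
  have hx0 : x ≠ 0 := by
    rintro rfl
    rw [map_zero, eq_comm] at hx
    have := pow_eq_zero_iff hp.out.ne_zero |>.mp hx
    rw [map_eq_zero] at this
    exact hα0 this
  exact ⟨Units.mk0 x hx0, α, hα0, hα, hx⟩

/-- cocycles with the same Kummer class are cohomologous -/
theorem sub_mem_B1_of_kummer {ζ : Qb} (hζ : IsPrimitiveRoot ζ p) {c c' : Dq (pPrime p) → ZMod p}
    {u u' : ℚ_[p]ˣ} {α α' : Qb} (hα0 : α ≠ 0)
    (hα : ∀ σ : Dq (pPrime p), (σ : GQ) α = ze ζ (c σ) * α)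
    (hα' : ∀ σ : Dq (pPrime p), (σ : GQ) α' = ze ζ (c' σ) * α')
    (hu : algebraMap ℚ_[p] (PadicAlgCl p) u = padicEmbedding p α ^ p)
    (hu' : algebraMap ℚ_[p] (PadicAlgCl p) u' = padicEmbedding p α' ^ p)
    (h : u' * u⁻¹ ∈ (powMonoidHom p : ℚ_[p]ˣ →* ℚ_[p]ˣ).range) : c' - c ∈ B1 (chiD p) := by
  obtain ⟨v, hv⟩ := h
  rw [powMonoidHom_apply] at hv
  have hv' : u' = v ^ p * u := by rw [hv, inv_mul_cancel_right]
  have h1 : padicEmbedding p α' ^ p =
      (algebraMap ℚ_[p] (PadicAlgCl p) v * padicEmbedding p α) ^ p := by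
    rw [← hu', hv', mul_pow, ← hu, Units.val_mul, Units.val_pow_eq_pow_val, map_mul, map_pow]
  have hβ0 : algebraMap ℚ_[p] (PadicAlgCl p) v * padicEmbedding p α ≠ 0 :=
    mul_ne_zero ((map_ne_zero _).mpr v.ne_zero) ((map_ne_zero _).mpr hα0)
  set ξ := padicEmbedding p α' / (algebraMap ℚ_[p] (PadicAlgCl p) v * padicEmbedding p α) with hξ
  have hξp : ξ ^ p = 1 := by
    rw [hξ, div_pow, h1, div_self (pow_ne_zero _ hβ0)]
  have hζ' : IsPrimitiveRoot (padicEmbedding p ζ) p :=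
    hζ.map_of_injective (H54.padicEmbedding_injective p)
  obtain ⟨i, hi⟩ := exists_ze hζ' hξp
  have hie : ξ = padicEmbedding p (ze ζ i) := by
    rw [hi, ze, ze, map_pow]
  have hα'e : padicEmbedding p α' =
      ξ * (algebraMap ℚ_[p] (PadicAlgCl p) v * padicEmbedding p α) := by
    rw [hξ, div_mul_cancel₀ _ hβ0]
  refine ⟨i, ?_⟩
  ext σ
  obtain ⟨τ, rfl⟩ := locD_surjective p σ
  rw [d0_apply, chiD_apply, Pi.sub_apply]
  apply ze_injective hζ
  apply H54.padicEmbedding_injective p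
  have e1 := congrArg τ hα'e
  rw [map_mul, map_mul, AlgEquiv.commutes, ← padicEmbedding_locD, hα', ← padicEmbedding_locD,
    hα, hie, ← padicEmbedding_locD, map_ze p _ hζ.pow_eq_one, map_mul, map_mul, hα'e, hie] at e1
  have hz : ∀ a, padicEmbedding p (ze ζ a) ≠ 0 := fun a =>
    (map_ne_zero _).mpr (ze_ne_zero hζ.pow_eq_one a)
  -- cancel
  have e2 : padicEmbedding p (ze ζ (c' (locD p τ))) * padicEmbedding p (ze ζ i) =
      padicEmbedding p (ze ζ ((cycloChar p ((locD p τ : Dq (pPrime p)) : GQ) : ZMod p) * i)) *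
        padicEmbedding p (ze ζ (c (locD p τ))) := by
    apply mul_right_cancel₀ hβ0
    rw [mul_assoc, e1]
    ring
  have e3 : ze ζ ((cycloChar p ((locD p τ : Dq (pPrime p)) : GQ) : ZMod p) * i - i) * ze ζ i =
      ze ζ ((cycloChar p ((locD p τ : Dq (pPrime p)) : GQ) : ZMod p) * i) := by
    rw [← ze_add hζ.pow_eq_one, sub_add_cancel]
  have e4 : ze ζ (c' (locD p τ) - c (locD p τ)) * ze ζ (c (locD p τ)) =
      ze ζ (c' (locD p τ)) := by
    rw [← ze_add hζ.pow_eq_one, sub_add_cancel]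
  apply mul_right_cancel₀ (mul_ne_zero (hz i) (hz (c (locD p τ))))
  have e5 := congrArg (padicEmbedding p) e3
  have e6 := congrArg (padicEmbedding p) e4
  rw [map_mul] at e5 e6
  calc _ = (padicEmbedding p (ze ζ ((cycloChar p ((locD p τ : Dq (pPrime p)) : GQ) : ZMod p) * i - i))
          * padicEmbedding p (ze ζ i)) * padicEmbedding p (ze ζ (c (locD p τ))) := by ring
    _ = padicEmbedding p (ze ζ (c' (locD p τ))) * padicEmbedding p (ze ζ i) := by rw [e5, e2]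
    _ = _ := by rw [← e6]; ring

theorem card_B1_chiD : Finite (B1 (chiD p)) ∧ Nat.card (B1 (chiD p)) ≤ p := by
  have hs : Function.Surjective (fun a : ZMod p => (⟨d0 (chiD p) a, a, rfl⟩ : B1 (chiD p))) := by
    rintro ⟨_, a, rfl⟩
    exact ⟨a, rfl⟩
  have : NeZero p := ⟨hp.out.ne_zero⟩
  refine ⟨Finite.of_surjective _ hs, ?_⟩
  calc Nat.card (B1 (chiD p)) ≤ Nat.card (ZMod p) := Nat.card_le_card_of_surjective _ hs
    _ = p := Nat.card_zmod p

/-- **Count of the `μ_p`-valued cocycles of the decomposition group at `p`.** -/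
theorem card_Z1_chiD (hp2 : p ≠ 2) :
    Finite (Z1 (Dlev (pPrime p)) (chiD p)) ∧ Nat.card (Z1 (Dlev (pPrime p)) (chiD p)) ≤ p ^ 3 := by
  have : NeZero p := ⟨hp.out.ne_zero⟩
  obtain ⟨ζ, hζ⟩ := HasEnoughRootsOfUnity.exists_primitiveRoot Qb p
  set R := (powMonoidHom p : ℚ_[p]ˣ →* ℚ_[p]ˣ).range with hR
  have hidx : R.index = p ^ 2 := index_pow_padic p hp2
  have hRfin : Finite (ℚ_[p]ˣ ⧸ R) := by
    apply Nat.finite_of_card_ne_zero
    rw [← Subgroup.index_eq_card, hidx]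
    exact pow_ne_zero _ hp.out.ne_zero
  -- choose Kummer data
  choose u α hα0 hα hu using fun c : Z1 (Dlev (pPrime p)) (chiD p) => exists_kummer_padic p hζ c.2
  obtain ⟨hBfin, hBcard⟩ := card_B1_chiD p
  -- for each class choose a representative
  classical
  let cls : Z1 (Dlev (pPrime p)) (chiD p) → ℚ_[p]ˣ ⧸ R := fun c => (u c : ℚ_[p]ˣ ⧸ R)
  let rep : ℚ_[p]ˣ ⧸ R → Z1 (Dlev (pPrime p)) (chiD p) := fun x =>
    if h : ∃ c, cls c = x then h.choose else 0
  have hrep : ∀ c, cls (rep (cls c)) = cls c := by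
    intro c
    have h : ∃ c', cls c' = cls c := ⟨c, rfl⟩
    show cls (if h : ∃ c', cls c' = cls c then h.choose else 0) = _
    rw [dif_pos h]
    exact h.choose_spec
  have key : ∀ c : Z1 (Dlev (pPrime p)) (chiD p), ((c : Dq (pPrime p) → ZMod p) - (rep (cls c) : Dq (pPrime p) → ZMod p)) ∈
      B1 (chiD p) := by
    intro c
    refine sub_mem_B1_of_kummer p hζ (hα0 _) (hα _) (hα _) (hu _) (hu _) ?_
    have h1 := hrep c
    have h2 : ((u (rep (cls c)) : ℚ_[p]ˣ) : ℚ_[p]ˣ ⧸ R) = (u c : ℚ_[p]ˣ ⧸ R) := h1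
    rw [QuotientGroup.eq] at h2
    rw [mul_comm]
    exact h2
  let Φ : Z1 (Dlev (pPrime p)) (chiD p) → (ℚ_[p]ˣ ⧸ R) × B1 (chiD p) := fun c =>
    (cls c, ⟨_, key c⟩)
  have hinj : Function.Injective Φ := by
    intro c c' h
    have h1 : cls c = cls c' := congrArg Prod.fst h
    have h2 : (c : Dq (pPrime p) → ZMod p) - (rep (cls c) : Dq (pPrime p) → ZMod p) =
        (c' : Dq (pPrime p) → ZMod p) - (rep (cls c') : Dq (pPrime p) → ZMod p) :=
      congrArg (fun x => ((x.2 : B1 (chiD p)) : Dq (pPrime p) → ZMod p)) h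
    rw [h1] at h2
    exact Subtype.ext (sub_left_injective h2)
  refine ⟨Finite.of_injective _ hinj, ?_⟩
  calc Nat.card (Z1 (Dlev (pPrime p)) (chiD p))
      ≤ Nat.card ((ℚ_[p]ˣ ⧸ R) × B1 (chiD p)) := Nat.card_le_card_of_injective _ hinj
    _ = Nat.card (ℚ_[p]ˣ ⧸ R) * Nat.card (B1 (chiD p)) := Nat.card_prod _ _
    _ ≤ p ^ 2 * p := by
        rw [← Subgroup.index_eq_card, hidx]
        exact Nat.mul_le_mul_left _ hBcard
    _ = p ^ 3 := by ring

end

end Fermat.Agent.H81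

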