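import Mathlib
import Fermat.Agent.H81Ord1
import Fermat.Agent.H56Tangent
import Fermat.Agent.H33Cyclo

set_option autoImplicit false
set_option maxSynthPendingDepth 3

/-!
# S56-O, part 2: the local bound at `p`, strictly ordinary case
-/

namespace Fermat.Agent.H81

open Fermat.Agent.H55 Fermat.Agent.H56 Fermat.Agent.H91 ExtCitation
open IsLocalRing
open Fermat.Agent.H53 (M2 MCont ofMatrix)

noncomputable section

local notation "Qb" => AlgebraicClosure ℚ

section Triang

variable (p : ℕ) [hp : Fact p.Prime] {k : Type} [Field k] [Algebra (ZMod p) k]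

variable (k) in
/-- the mod `p` cyclotomic character with values in `k` -/
def chik (σ : H91.GQ) : k := algebraMap (ZMod p) k (cycloChar p σ : ZMod p)

theorem chik_ne_zero (σ : H91.GQ) : chik p k σ ≠ 0 := by
  rw [chik, map_ne_zero]
  exact (cycloChar p σ).ne_zero

/-- triangular form of `R` on the decomposition group -/
def Tri (R : H91.GQ →* M2 (DualNumber k)) (g : M2 (DualNumber k)) : Prop :=
  IsUnit g ∧ ∀ σ : Dq (pPrime p), ∃ (z : k) (t : DualNumber k), z ^ 2 = 1 ∧
    R (σ : H91.GQ) * g = g * !![TrivSqZeroExt.inl (chik p k σ * z), t; 0, TrivSqZeroExt.inl z] ∧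
    ((σ : H91.GQ) ∈ Iq (pPrime p) → z = 1)

include hp in
theorem two_ne_zero_k (hp2 : p ≠ 2) : (2 : k) ≠ 0 := by
  intro h
  have h1 : algebraMap (ZMod p) k (2 : ZMod p) = 0 := by rw [map_ofNat]; exact h
  rw [map_eq_zero] at h1
  have h2 : ((2 : ℕ) : ZMod p) = 0 := by exact_mod_cast h1
  rw [ZMod.natCast_eq_zero_iff] at h2
  exact hp2 ((Nat.prime_dvd_prime_iff_eq hp.out Nat.prime_two).mp h2)

theorem sq_eq_one_dual (hp2 : p ≠ 2) {z : DualNumber k} (hz : z ^ 2 = 1) :
    z = TrivSqZeroExt.inl z.fst ∧ z.fst ^ 2 = 1 := by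
  have h1 : z.fst ^ 2 = 1 := by
    have := congrArg TrivSqZeroExt.fst hz
    rwa [TrivSqZeroExt.fst_pow, TrivSqZeroExt.fst_one] at this
  have h2 : z.snd = 0 := by
    have := congrArg TrivSqZeroExt.snd hz
    rw [pow_two, TrivSqZeroExt.snd_mul, TrivSqZeroExt.snd_one, smul_eq_mul,
      MulOpposite.smul_eq_mul_unop, MulOpposite.unop_op] at this
    have h3 : 2 * (z.fst * z.snd) = 0 := by linear_combination this
    have hz0 : z.fst ≠ 0 := by
      rintro h0
      rw [h0] at h1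
      norm_num at h1
    rcases mul_eq_zero.mp h3 with h | h
    · exact absurd h (two_ne_zero_k p hp2)
    · rcases mul_eq_zero.mp h with h | h
      · exact absurd h hz0
      · exact h
  refine ⟨?_, h1⟩
  ext
  · simp
  · simpa using h2

theorem natCast_p_dual : ((p : ℕ) : DualNumber k) = 0 := by
  have h : (p : k) = 0 := by
    have : algebraMap (ZMod p) k ((p : ℕ) : ZMod p) = 0 := by
      rw [ZMod.natCast_self, map_zero]
    rwa [map_natCast] at this
  ext
  · simpa using h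
  · simp

/-- **Triangular form.** -/
theorem exists_tri (hp2 : p ≠ 2) {r : H91.GQ →* M2 k} (hdet : DetCyc p r)
    {R : H91.GQ →* M2 (DualNumber k)} (hR : GoodLift r R)
    (h : MCont (DualNumber k) R) (hord : (ofMatrix R h).IsStrictOrdinaryAt p) :
    ∃ g, Tri p R g := by
  classical
  obtain ⟨-, hP⟩ := hord
  obtain ⟨L, ⟨b, hL⟩, hD, hI, hxz⟩ := hP (primeLocalPlace (pPrime p))
    (H54.liesOverPrime_padicPlace p)
  let b' : Module.Basis (Fin 2) (DualNumber k) (Fin 2 → DualNumber k) := b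
  let g : M2 (DualNumber k) := (Pi.basisFun (DualNumber k) (Fin 2)).toMatrix b'
  have hg : ∀ i j, g i j = b' j i := fun i j => rfl
  have hgu : IsUnit g := by
    have := (Pi.basisFun (DualNumber k) (Fin 2)).invertibleToMatrix b'
    exact isUnit_of_invertible g
  refine ⟨g, hgu, fun σ => ?_⟩
  obtain ⟨x, z, hx, hz, hxz⟩ := hxz σ σ.2
  have hb0 : b 0 ∈ L := by rw [hL]; exact Submodule.mem_span_singleton_self _
  have hx0 : (R σ).mulVec (b' 0) = x • b' 0 := hx _ hb0
  have hz1 := hz (b 1)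
  rw [hL, Submodule.mem_span_singleton] at hz1
  obtain ⟨t, ht⟩ := hz1
  have ht' : (R σ).mulVec (b' 1) = z • b' 1 + t • b' 0 := by
    have : (R σ).mulVec (b' 1) - z • b' 1 = t • b' 0 := ht.symm
    rw [← this]; abel
  have hmat : R (σ : H91.GQ) * g = g * !![x, t; 0, z] := by
    ext1 i j
    have hl : ∀ j, (R (σ : H91.GQ) * g) i j = (R σ).mulVec (b' j) i := fun j => rfl
    rw [hl]
    fin_cases j
    · show (R σ).mulVec (b' 0) i = _
      rw [hx0]
      simp [Matrix.mul_apply, Fin.sum_univ_two, hg, mul_comm]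
    · show (R σ).mulVec (b' 1) i = _
      rw [ht']
      simp [Matrix.mul_apply, Fin.sum_univ_two, hg, mul_comm, add_comm]
  have hdet1 : x * z = TrivSqZeroExt.inl (chik p k σ) := by
    have h1 := congrArg Matrix.det hmat
    rw [Matrix.det_mul, Matrix.det_mul, hR.det, hdet, Matrix.det_fin_two_of, mul_comm] at h1
    have h2 : IsUnit g.det := (Matrix.isUnit_iff_isUnit_det g).mp hgu
    have h3 := h2.mul_left_cancel h1
    rw [mul_zero, sub_zero] at h3
    exact h3.symm
  have hxa : x = TrivSqZeroExt.inl (chik p k σ) * z := by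
    have h1 := hxz 1 (cycloChar p σ : ZMod p).val (fun μ hμ => by
      rw [pow_one] at hμ
      exact H54.cycloChar_spec p σ hμ)
    rw [pow_one, natCast_p_dual, Ideal.span_singleton_eq_bot.mpr rfl, Ideal.mem_bot,
      sub_eq_zero] at h1
    rw [h1]
    congr 1
    have h2 : ((cycloChar p (σ : H91.GQ) : ZMod p).val : k) = chik p k σ := by
      rw [chik, ← map_natCast (algebraMap (ZMod p) k), ZMod.natCast_zmod_val]
    rw [← h2]
    exact (map_natCast (TrivSqZeroExt.inlHom k k) _).symm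
  have hχu : IsUnit (TrivSqZeroExt.inl (chik p k (σ : H91.GQ)) : DualNumber k) := by
    rw [TrivSqZeroExt.isUnit_iff_isUnit_fst, TrivSqZeroExt.fst_inl]
    exact isUnit_iff_ne_zero.mpr (chik_ne_zero p _)
  have hzz : z ^ 2 = 1 := by
    apply hχu.mul_left_cancel
    rw [mul_one, pow_two, ← mul_assoc, ← hxa, hdet1]
  obtain ⟨hz0, hz0'⟩ := sq_eq_one_dual p hp2 hzz
  refine ⟨z.fst, t, hz0', ?_, fun hσ => ?_⟩
  · rw [hmat, hxa, TrivSqZeroExt.inl_mul, ← hz0]
  · have h1 := hI σ hσ (b 1)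
    rw [hL, Submodule.mem_span_singleton] at h1
    obtain ⟨t', ht1⟩ := h1
    have ht1' : (R σ).mulVec (b' 1) - b' 1 = t' • b' 0 := ht1.symm
    rw [ht'] at ht1'
    have h2 : z = 1 := by
      have h3 := congrArg (fun v => b'.repr v 1) ht1'
      simp only [map_sub, map_add, map_smul, Module.Basis.repr_self, Finsupp.coe_sub,
        Finsupp.coe_add, Finsupp.coe_smul, Pi.sub_apply, Pi.add_apply, Pi.smul_apply,
        Finsupp.single_eq_same, smul_eq_mul, mul_one] at h3
      rw [Finsupp.single_eq_of_ne (by decide), mul_zero, mul_zero, add_zero, sub_eq_zero] at h3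
      exact h3
    rw [h2, TrivSqZeroExt.fst_one]

/-- residual triangular form on the decomposition group -/
def Tri0 (r : H91.GQ →* M2 k) (g : M2 k) : Prop :=
  IsUnit g ∧ ∀ σ : Dq (pPrime p), ∃ (z t : k), z ^ 2 = 1 ∧
    r (σ : H91.GQ) * g = g * !![chik p k σ * z, t; 0, z] ∧
    ((σ : H91.GQ) ∈ Iq (pPrime p) → z = 1)

theorem redM_of (a b c d : DualNumber k) :
    redM k !![a, b; c, d] = !![a.fst, b.fst; c.fst, d.fst] := by
  ext i j
  fin_cases i <;> fin_cases j <;> rfl

theorem sndM_of (a b c d : DualNumber k) :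
    sndM !![a, b; c, d] = !![a.snd, b.snd; c.snd, d.snd] := by
  ext i j
  fin_cases i <;> fin_cases j <;> rfl

theorem Tri.red {r : H91.GQ →* M2 k} {R : H91.GQ →* M2 (DualNumber k)}
    (hR : ∀ σ, redM k (R σ) = r σ) {g : M2 (DualNumber k)} (h : Tri p R g) :
    Tri0 p r (redM k g) := by
  refine ⟨h.1.map (redM k), fun σ => ?_⟩
  obtain ⟨z, t, hz, hm, hI⟩ := h.2 σ
  refine ⟨z, t.fst, hz, ?_, hI⟩
  have h1 := congrArg (redM k) hm
  rw [map_mul, map_mul, hR, redM_of] at h1
  exact h1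

/-- uniqueness of the residual line -/
theorem Tri0.unique (hp2 : p ≠ 2) {r : H91.GQ →* M2 k} {g g' : M2 k} (h : Tri0 p r g)
    (h' : Tri0 p r g') : ∃ a b d : k, a ≠ 0 ∧ d ≠ 0 ∧ g' = g * !![a, b; 0, d] := by
  obtain ⟨⟨u, rfl⟩, h⟩ := h
  obtain ⟨hu', h'⟩ := h'
  obtain ⟨σ, hσI, hσ⟩ := H33.exists_inertia_cyclo (p := p) (H54.liesOverPrime_padicPlace p) 2
    (fun h => hp2 ((Nat.prime_dvd_prime_iff_eq hp.out Nat.prime_two).mp h))
  have hσI' : σ ∈ Iq (pPrime p) := hσI
  have hσD : σ ∈ Dq (pPrime p) := by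
    have : (primeLocalPlace (pPrime p)).inertiaSubgroupIn ℚ ≤
        (primeLocalPlace (pPrime p)).decompositionSubgroup ℚ := Subgroup.map_subtype_le _
    exact this hσI'
  have hχ : chik p k σ = 2 := by
    obtain ⟨ζ, hζ⟩ := HasEnoughRootsOfUnity.exists_primitiveRoot Qb p
    have h1 := H54.cycloChar_spec p σ hζ.pow_eq_one
    rw [hσ ζ hζ.pow_eq_one] at h1
    have h2 : ((cycloChar p σ : ZMod p)) = (2 : ℕ) := by
      apply ze_injective hζ
      rw [ze_natCast hζ.pow_eq_one, h1]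
      rfl
    rw [chik, h2, map_natCast]
    norm_num
  have h2 : (2 : k) ≠ 0 := two_ne_zero_k p hp2
  obtain ⟨z, t, -, h1, hz⟩ := h ⟨σ, hσD⟩
  obtain ⟨z', t', -, h1', hz'⟩ := h' ⟨σ, hσD⟩
  have hz := hz hσI'
  have hz' := hz' hσI'
  subst hz hz'
  simp only [mul_one] at h1 h1'
  rw [hχ] at h1 h1'
  -- `T = u⁻¹ g'`
  obtain ⟨T, hgT⟩ : ∃ T : M2 k, g' = (u : M2 k) * T :=
    ⟨(↑u⁻¹ : M2 k) * g', by rw [← mul_assoc, Units.mul_inv, one_mul]⟩
  have hcomm : !![2, t; 0, 1] * T = T * !![2, t'; 0, (1 : k)] := by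
    have e1 : (u : M2 k) * (!![2, t; 0, 1] * T) = (u : M2 k) * (T * !![2, t'; 0, (1 : k)]) := by
      rw [← mul_assoc, ← mul_assoc, ← h1, mul_assoc (r σ), ← hgT, h1']
    exact u.isUnit.mul_left_cancel e1
  have h10 : T 1 0 = 0 := by
    have e2 := congrFun (congrFun hcomm 1) 0
    simp only [Matrix.mul_apply, Fin.sum_univ_two, Matrix.of_apply, Matrix.cons_val', Matrix.cons_val_zero,
      Matrix.cons_val_one, zero_mul, one_mul, zero_add, mul_zero, add_zero,
      Matrix.cons_val_fin_one] at e2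
    linear_combination - e2
  have hTu : IsUnit T := by
    have e3 : IsUnit ((u : M2 k) * T) := by rw [← hgT]; exact hu'
    exact (IsUnit.mul_iff.mp e3).2
  have hTdet : T 0 0 * T 1 1 ≠ 0 := by
    have e4 := (Matrix.isUnit_iff_isUnit_det T).mp hTu
    rw [Matrix.det_fin_two, h10, mul_zero, sub_zero] at e4
    exact e4.ne_zero
  refine ⟨T 0 0, T 0 1, T 1 1, left_ne_zero_of_mul hTdet, right_ne_zero_of_mul hTdet, ?_⟩
  rw [hgT]
  congr 1
  ext i j
  fin_cases i <;> fin_cases j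
  · rfl
  · rfl
  · exact h10
  · rfl

theorem Tri.adjust {R : H91.GQ →* M2 (DualNumber k)} {g' : M2 (DualNumber k)} (h : Tri p R g')
    {g0 : M2 k} {a b d : k} (ha : a ≠ 0) (hd : d ≠ 0) (hg : redM k g' = g0 * !![a, b; 0, d]) :
    ∃ g, Tri p R g ∧ redM k g = g0 := by
  let i : k →+* DualNumber k := TrivSqZeroExt.inlHom k k
  have hi : ∀ x, TrivSqZeroExt.inl x = i x := fun _ => rfl
  have hia : i a * i a⁻¹ = 1 := by rw [← map_mul, mul_inv_cancel₀ ha, map_one]
  have hid : i d * i d⁻¹ = 1 := by rw [← map_mul, mul_inv_cancel₀ hd, map_one]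
  let T : M2 (DualNumber k) := !![i a, i b; 0, i d]
  let S : M2 (DualNumber k) := !![i a⁻¹, - (i b * i a⁻¹ * i d⁻¹); 0, i d⁻¹]
  have hST : S * T = 1 := by
    ext1 x y
    fin_cases x <;> fin_cases y
    · simp [S, T, Matrix.mul_apply, Fin.sum_univ_two]
      linear_combination hia
    · simp [S, T, Matrix.mul_apply, Fin.sum_univ_two]
      linear_combination - i b * i a⁻¹ * hid
    · simp [S, T, Matrix.mul_apply, Fin.sum_univ_two]
    · simp [S, T, Matrix.mul_apply, Fin.sum_univ_two]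
      linear_combination hid
  have hTS : T * S = 1 := by
    ext1 x y
    fin_cases x <;> fin_cases y
    · simp [S, T, Matrix.mul_apply, Fin.sum_univ_two]
      linear_combination hia
    · simp [S, T, Matrix.mul_apply, Fin.sum_univ_two]
      linear_combination - i b * i d⁻¹ * hia
    · simp [S, T, Matrix.mul_apply, Fin.sum_univ_two]
    · simp [S, T, Matrix.mul_apply, Fin.sum_univ_two]
      linear_combination hid
  refine ⟨g' * S, ⟨?_, fun σ => ?_⟩, ?_⟩
  · exact h.1.mul ⟨⟨S, T, hST, hTS⟩, rfl⟩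
  · obtain ⟨z, t, hz, hm, hI⟩ := h.2 σ
    set α : DualNumber k := TrivSqZeroExt.inl (chik p k σ * z) with hα
    set δ : DualNumber k := TrivSqZeroExt.inl z with hδ
    refine ⟨z, i a * t * i d⁻¹ + i b * δ * i d⁻¹ - α * i b * i d⁻¹, hz, ?_, hI⟩
    rw [← mul_assoc, hm]
    have e1 : !![α, t; 0, δ] * S = S * !![α, i a * t * i d⁻¹ + i b * δ * i d⁻¹ - α * i b * i d⁻¹;
        0, δ] := by
      ext1 x y
      fin_cases x <;> fin_cases y
      · simp [S, Matrix.mul_apply, Fin.sum_univ_two, mul_comm]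
      · simp [S, Matrix.mul_apply, Fin.sum_univ_two]
        linear_combination (- i d⁻¹ * t - i d⁻¹ * i b * δ * i d⁻¹ * 0) * hia
      · simp [S, Matrix.mul_apply, Fin.sum_univ_two]
      · simp [S, Matrix.mul_apply, Fin.sum_univ_two, mul_comm]
    rw [mul_assoc g', e1, mul_assoc g' S]
  · rw [map_mul, hg, mul_assoc]
    have e2 : redM k T = !![a, b; 0, d] := by
      rw [redM_of]; rfl
    rw [← e2, ← map_mul, hTS, map_one, mul_one]

end Triang

end

end Fermat.Agent.H81
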