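import Mathlib
import Fermat.Agent.H81Ord2

set_option autoImplicit false
set_option maxSynthPendingDepth 3

/-!
# S56-O, part 3: the local bound at `p`, strictly ordinary case
-/

namespace Fermat.Agent.H81

open Fermat.Agent.H55 Fermat.Agent.H56 Fermat.Agent.H91 ExtCitation
open IsLocalRing
open Fermat.Agent.H53 (M2 MCont ofMatrix)

noncomputable section

local notation "Qb" => AlgebraicClosure ℚ

section Z1mem

variable (p : ℕ) [hp : Fact p.Prime] {k : Type} [Field k] [Algebra (ZMod p) k]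

theorem smooth_adD {r : H91.GQ →* M2 k} (hr : FinLev r) (q : Nat.Primes) :
    Smooth (Dlev q) (rhoD (ad p r) q) := by
  obtain ⟨U, hU, h⟩ := hr
  intro X
  refine ⟨U.comap (Dq q).subtype, ⟨U, hU, le_rfl⟩, fun s hs => ?_⟩
  have hs' : (s : H91.GQ) ∈ U := hs
  apply Subtype.ext
  show r (s : H91.GQ) * (X : M2 k) * r (s : H91.GQ)⁻¹ = X
  rw [h _ hs', h _ (U.inv_mem hs'), one_mul, mul_one]

theorem exists_level_of_mcont {R : H91.GQ →* M2 (DualNumber k)}
    (h : MCont (DualNumber k) R) : ∃ U, krullLevels.op U ∧ ∀ σ ∈ U, R σ = 1 := by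
  have h2 : maximalIdeal (DualNumber k) ^ 2 = ⊥ := by
    rw [eq_bot_iff, pow_two, Ideal.mul_le]
    intro x hx y hy
    rw [mem_maximalIdeal, mem_nonunits_iff, TrivSqZeroExt.isUnit_iff_isUnit_fst,
      isUnit_iff_ne_zero, not_not] at hx hy
    rw [Ideal.mem_bot]
    ext
    · simp [hx]
    · simp [hx, hy]
  obtain ⟨L, hL, hLR⟩ := h 2
  refine ⟨L.fixingSubgroup, (krullLevels_op_iff _).mpr ⟨L, hL, le_rfl⟩, fun σ hσ => ?_⟩
  ext1 i j
  have h3 := hLR σ (fun x hx => (IntermediateField.mem_fixingSubgroup_iff L σ).mp hσ x hx) i j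
  rw [h2, Ideal.mem_bot, sub_eq_zero] at h3
  exact h3

/-- the restriction to the decomposition group of the cocycle of a lift -/
theorem coc_mem_Z1 {r : H91.GQ →* M2 k} {R : H91.GQ →* M2 (DualNumber k)} (hR : GoodLift r R)
    (q : Nat.Primes) {c : Dq q → SL p k} (hc : ∀ σ, (c σ : M2 k) = coc R (σ : H91.GQ)) :
    c ∈ Z1 (Dlev q) (rhoD (ad p r) q) := by
  refine ⟨?_, fun σ τ => ?_⟩
  · obtain ⟨U, hU, h⟩ := exists_level_of_mcont hR.cont
    refine ⟨U.comap (Dq q).subtype, ⟨U, hU, le_rfl⟩, fun g s hs => ?_⟩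
    have hs' : (s : H91.GQ) ∈ U := hs
    apply Subtype.ext
    rw [hc, hc]
    show coc R ((g : H91.GQ) * (s : H91.GQ)) = _
    rw [coc, coc, map_mul, h _ hs', mul_one, mul_inv_rev, map_mul, h _ (U.inv_mem hs'), one_mul]
  · apply Subtype.ext
    rw [hc]
    show coc R ((σ : H91.GQ) * (τ : H91.GQ)) =
      r (σ : H91.GQ) * (c τ : M2 k) * r (σ : H91.GQ)⁻¹ + (c σ : M2 k)
    rw [coc_mul, hc, hc, hR.red, hR.red]

end Z1mem

section Final

variable (p : ℕ) [hp : Fact p.Prime] {k : Type} [Field k] [Algebra (ZMod p) k]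

/-- the strictly upper triangular matrices in the basis `u` -/
def phi (u : (M2 k)ˣ) : k →ₗ[ZMod p] SL p k where
  toFun s := ⟨(u : M2 k) * !![0, s; 0, 0] * (↑u⁻¹ : M2 k), by
    rw [mem_SL, Matrix.trace_mul_comm, ← mul_assoc, Units.inv_mul, one_mul]
    simp [Matrix.trace_fin_two]⟩
  map_add' s t := by
    apply Subtype.ext
    show (u : M2 k) * !![0, s + t; 0, 0] * (↑u⁻¹ : M2 k) = (u : M2 k) * !![0, s; 0, 0] * (↑u⁻¹ : M2 k) +
      (u : M2 k) * !![0, t; 0, 0] * (↑u⁻¹ : M2 k)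
    rw [← add_mul, ← mul_add]
    congr 2
    ext i j
    fin_cases i <;> fin_cases j <;> simp
  map_smul' a s := by
    apply Subtype.ext
    show (u : M2 k) * !![0, a • s; 0, 0] * (↑u⁻¹ : M2 k) =
      a • ((u : M2 k) * !![0, s; 0, 0] * (↑u⁻¹ : M2 k))
    rw [← smul_mul_assoc, ← mul_smul_comm]
    congr 2
    ext i j
    fin_cases i <;> fin_cases j <;> simp

theorem coe_phi (u : (M2 k)ˣ) (s : k) :
    (phi p u s : M2 k) = (u : M2 k) * !![0, s; 0, 0] * (↑u⁻¹ : M2 k) := rfl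

theorem phi_injective (u : (M2 k)ˣ) : Function.Injective (phi p u) := by
  intro s t h
  have h1 := congrArg (fun X : SL p k => (↑u⁻¹ : M2 k) * (X : M2 k) * (u : M2 k)) h
  simp only [coe_phi] at h1
  rw [mul_assoc (u : M2 k), mul_assoc (u : M2 k), Units.inv_mul_cancel_left,
    Units.inv_mul_cancel_left, Units.inv_mul_cancel_right, Units.inv_mul_cancel_right] at h1
  exact congrFun (congrFun h1 0) 1

/-- the strictly lower triangular matrices in the basis `u` -/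
def phim (u : (M2 k)ˣ) (s : k) : SL p k :=
  ⟨(u : M2 k) * !![0, 0; s, 0] * (↑u⁻¹ : M2 k), by
    rw [mem_SL, Matrix.trace_mul_comm, ← mul_assoc, Units.inv_mul, one_mul]
    simp [Matrix.trace_fin_two]⟩

omit [Algebra (ZMod p) k] hp in
theorem conj_tool {r : H91.GQ →* M2 k} {u : (M2 k)ˣ} {σ : H91.GQ} {U X Y : M2 k}
    (hU : r σ * u = u * U) (h : U * X = Y * U) :
    r σ * ((u : M2 k) * X * (↑u⁻¹ : M2 k)) * r σ⁻¹ = (u : M2 k) * Y * (↑u⁻¹ : M2 k) := by
  have h1 : (↑u⁻¹ : M2 k) * r σ * (u : M2 k) = U := by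
    rw [mul_assoc, hU, Units.inv_mul_cancel_left]
  calc r σ * ((u : M2 k) * X * (↑u⁻¹ : M2 k)) * r σ⁻¹
      = (r σ * u) * X * (↑u⁻¹ : M2 k) * r σ⁻¹ := by noncomm_ring
    _ = u * (U * X) * (↑u⁻¹ : M2 k) * r σ⁻¹ := by rw [hU]; noncomm_ring
    _ = u * Y * ((↑u⁻¹ : M2 k) * r σ * (u : M2 k)) * (↑u⁻¹ : M2 k) * r σ⁻¹ := by
        rw [h, h1]; noncomm_ring
    _ = u * Y * (↑u⁻¹ : M2 k) * r σ * ((u : M2 k) * (↑u⁻¹ : M2 k)) * r σ⁻¹ := by noncomm_ring
    _ = u * Y * (↑u⁻¹ : M2 k) * (r σ * r σ⁻¹) := by rw [Units.mul_inv]; noncomm_ring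
    _ = _ := by rw [rmul_inv, mul_one]

/-- equivariance of `phi` -/
theorem ad_phi {r : H91.GQ →* M2 k} {u : (M2 k)ˣ} (h : Tri0 p r (u : M2 k)) (σ : Dq (pPrime p))
    (s : k) : rhoD (ad p r) (pPrime p) σ (phi p u s) = phi p u (chik p k σ * s) := by
  obtain ⟨z, t, hz, hU, -⟩ := h.2 σ
  apply Subtype.ext
  show r (σ : H91.GQ) * ((u : M2 k) * !![0, s; 0, 0] * (↑u⁻¹ : M2 k)) * r (σ : H91.GQ)⁻¹ = _
  rw [conj_tool hU (Y := !![0, chik p k σ * s; 0, 0])]
  · rfl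
  · ext i j
    fin_cases i <;> fin_cases j <;> simp [Matrix.mul_apply, Fin.sum_univ_two]
    ring

/-- cocycles with values in the strictly upper triangular matrices -/
def MM (r : H91.GQ →* M2 k) (u : (M2 k)ˣ) : Submodule (ZMod p) (Dq (pPrime p) → SL p k) :=
  Z1 (Dlev (pPrime p)) (rhoD (ad p r) (pPrime p)) ⊓
    Submodule.pi Set.univ (fun _ => LinearMap.range (phi p u))

theorem mem_MM {r : H91.GQ →* M2 k} {u : (M2 k)ˣ} {f : Dq (pPrime p) → SL p k} :
    f ∈ MM p r u ↔ f ∈ Z1 (Dlev (pPrime p)) (rhoD (ad p r) (pPrime p)) ∧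
      ∀ σ, ∃ s, phi p u s = f σ := by
  simp [MM, Submodule.mem_pi]

/-- the components of a cocycle with values in the strictly upper triangular matrices -/
theorem comp_mem_Z1 {r : H91.GQ →* M2 k} {u : (M2 k)ˣ} (h : Tri0 p r (u : M2 k))
    {f : Dq (pPrime p) → SL p k} (hf : f ∈ Z1 (Dlev (pPrime p)) (rhoD (ad p r) (pPrime p)))
    {s : Dq (pPrime p) → k} (hs : ∀ σ, phi p u (s σ) = f σ) (l : k →ₗ[ZMod p] ZMod p) :
    (fun σ => l (s σ)) ∈ Z1 (Dlev (pPrime p)) (chiD p) := by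
  refine ⟨?_, fun σ τ => ?_⟩
  · obtain ⟨U, hU, h1⟩ := hf.1
    refine ⟨U, hU, fun g x hx => ?_⟩
    have h2 := h1 g x hx
    rw [← hs, ← hs] at h2
    show l (s (g * x)) = l (s g)
    rw [phi_injective p u h2]
  · have h2 := hf.2 σ τ
    rw [← hs, ← hs, ← hs, ad_phi p h, ← map_add] at h2
    have h3 := phi_injective p u h2
    show l (s (σ * τ)) = chiD p σ (l (s τ)) + l (s σ)
    rw [h3, map_add, chiD_apply, chik, ← Algebra.smul_def, map_smul, smul_eq_mul]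

theorem card_MM [Finite k] (hp2 : p ≠ 2) {r : H91.GQ →* M2 k} {u : (M2 k)ˣ}
    (h : Tri0 p r (u : M2 k)) :
    Finite (MM p r u) ∧ Nat.card (MM p r u) ≤ Nat.card k ^ 3 := by
  obtain ⟨hfin, hcard⟩ := card_Z1_chiD p hp2
  have hMf : Module.Finite (ZMod p) k := Module.Finite.of_finite
  let b := Module.finBasis (ZMod p) k
  choose s hs using fun (f : MM p r u) => ((mem_MM p).mp f.2).2
  let E : MM p r u → (Fin (Module.finrank (ZMod p) k) → Z1 (Dlev (pPrime p)) (chiD p)) :=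
    fun f i => ⟨fun σ => b.coord i (s f σ), comp_mem_Z1 p h ((mem_MM p).mp f.2).1 (hs f) _⟩
  have hE : Function.Injective E := by
    intro f f' hff
    apply Subtype.ext
    funext σ
    rw [← hs f σ, ← hs f' σ]
    congr 1
    apply b.ext_elem
    intro i
    have h1 := congrArg (fun x : Z1 (Dlev (pPrime p)) (chiD p) => (x : Dq (pPrime p) → ZMod p) σ)
      (congrFun hff i)
    exact h1
  refine ⟨Finite.of_injective _ hE, ?_⟩
  have hk : Nat.card k = p ^ Module.finrank (ZMod p) k := by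
    rw [Module.natCard_eq_pow_finrank (K := ZMod p), Nat.card_zmod]
  calc Nat.card (MM p r u) ≤ _ := Nat.card_le_card_of_injective _ hE
    _ = Nat.card (Z1 (Dlev (pPrime p)) (chiD p)) ^ (Module.finrank (ZMod p) k) := by
        rw [Nat.card_fun, Nat.card_fin]
    _ ≤ (p ^ 3) ^ (Module.finrank (ZMod p) k) := Nat.pow_le_pow_left hcard _
    _ = _ := by rw [hk, ← pow_mul, ← pow_mul, mul_comm]

/-- coboundaries of upper triangular matrices -/
theorem d0_borel {r : H91.GQ →* M2 k} (hr : FinLev r) {u : (M2 k)ˣ} (h : Tri0 p r (u : M2 k))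
    {X : SL p k} {a b c : k} (hX : (X : M2 k) = (u : M2 k) * !![a, b; 0, c] * (↑u⁻¹ : M2 k)) :
    d0 (rhoD (ad p r) (pPrime p)) X ∈ MM p r u := by
  rw [mem_MM]
  refine ⟨(smooth_adD p hr _).d0_mem_Z1 _, fun σ => ?_⟩
  obtain ⟨z, t, hz, hU, -⟩ := h.2 σ
  refine ⟨z * (chik p k σ * z * b + t * c - t * a - b * z), ?_⟩
  apply Subtype.ext
  rw [d0_apply]
  show _ = r (σ : H91.GQ) * (X : M2 k) * r (σ : H91.GQ)⁻¹ - (X : M2 k)
  rw [hX, conj_tool hU (Y := !![a, b; 0, c] +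
    !![0, z * (chik p k σ * z * b + t * c - t * a - b * z); 0, 0]), mul_add, add_mul,
    add_sub_cancel_left, coe_phi]
  ext i j
  fin_cases i <;> fin_cases j <;> simp [Matrix.mul_apply, Fin.sum_univ_two]
  · ring
  · linear_combination - (chik p k σ * z * b + t * c - t * a - b * z) * hz
  · ring

/-- the local condition -/
def LL (r : H91.GQ →* M2 k) (u : (M2 k)ˣ) : Submodule (ZMod p) (Dq (pPrime p) → SL p k) :=
  MM p r u ⊔ B1 (rhoD (ad p r) (pPrime p))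

theorem exists_of_mem_LL {r : H91.GQ →* M2 k} (hr : FinLev r) {u : (M2 k)ˣ}
    (h : Tri0 p r (u : M2 k)) {f : Dq (pPrime p) → SL p k} (hf : f ∈ LL p r u) :
    ∃ m ∈ MM p r u, ∃ s : k, m + d0 (rhoD (ad p r) (pPrime p)) (phim p u s) = f := by
  obtain ⟨m, hm, _, ⟨X, rfl⟩, rfl⟩ := Submodule.mem_sup.mp hf
  set X' : M2 k := (↑u⁻¹ : M2 k) * (X : M2 k) * (u : M2 k) with hX'
  have hXX : (X : M2 k) = (u : M2 k) * X' * (↑u⁻¹ : M2 k) := by
    rw [hX']
    calc (X : M2 k) = ((u : M2 k) * (↑u⁻¹ : M2 k)) * X * ((u : M2 k) * (↑u⁻¹ : M2 k)) := by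
          rw [Units.mul_inv, one_mul, mul_one]
      _ = _ := by noncomm_ring
  have hdiff : ((X - phim p u (X' 1 0) : SL p k) : M2 k) =
      (u : M2 k) * !![X' 0 0, X' 0 1; 0, X' 1 1] * (↑u⁻¹ : M2 k) := by
    show (X : M2 k) - (u : M2 k) * !![0, 0; X' 1 0, 0] * (↑u⁻¹ : M2 k) = _
    rw [hXX, ← sub_mul, ← mul_sub]
    congr 2
    ext i j
    fin_cases i <;> fin_cases j <;> simp
  refine ⟨m + d0 (rhoD (ad p r) (pPrime p)) (X - phim p u (X' 1 0)),
    (MM p r u).add_mem hm (d0_borel p hr h hdiff), X' 1 0, ?_⟩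
  rw [map_sub]
  abel

theorem card_LL [Finite k] (hp2 : p ≠ 2) {r : H91.GQ →* M2 k} (hr : FinLev r) {u : (M2 k)ˣ}
    (h : Tri0 p r (u : M2 k)) :
    Finite (LL p r u) ∧ Nat.card (LL p r u) ≤ Nat.card k ^ 4 := by
  obtain ⟨hfin, hcard⟩ := card_MM p hp2 h
  have hphim : ∀ s, d0 (rhoD (ad p r) (pPrime p)) (phim p u s) ∈ LL p r u := fun s =>
    Submodule.mem_sup_right ⟨_, rfl⟩
  let E : MM p r u × k → LL p r u := fun x =>
    ⟨x.1 + d0 (rhoD (ad p r) (pPrime p)) (phim p u x.2),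
      (LL p r u).add_mem (Submodule.mem_sup_left x.1.2) (hphim x.2)⟩
  have hE : Function.Surjective E := by
    rintro ⟨f, hf⟩
    obtain ⟨m, hm, s, rfl⟩ := exists_of_mem_LL p hr h hf
    exact ⟨(⟨m, hm⟩, s), rfl⟩
  refine ⟨Finite.of_surjective _ hE, ?_⟩
  calc Nat.card (LL p r u) ≤ Nat.card (MM p r u × k) := Nat.card_le_card_of_surjective _ hE
    _ = Nat.card (MM p r u) * Nat.card k := Nat.card_prod _ _
    _ ≤ Nat.card k ^ 3 * Nat.card k := Nat.mul_le_mul_right _ hcard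
    _ = _ := by ring

/-- the cocycle of a strictly ordinary lift -/
theorem coc_mem_LL (hp2 : p ≠ 2) {r : H91.GQ →* M2 k} (hr : FinLev r)
    {R : H91.GQ →* M2 (DualNumber k)} (hR : GoodLift r R) {u : (M2 k)ˣ} {g : M2 (DualNumber k)}
    (hg : Tri p R g) (hgu : redM k g = u) {c : Dq (pPrime p) → SL p k}
    (hc : ∀ σ, (c σ : M2 k) = coc R (σ : H91.GQ)) : c ∈ LL p r u := by
  have h20 : (2 : k) ≠ 0 := two_ne_zero_k p hp2
  set Y : M2 k := sndM g * (↑u⁻¹ : M2 k) with hY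
  have hGY : sndM g = Y * (u : M2 k) := by rw [hY, mul_assoc, Units.inv_mul, mul_one]
  let X : SL p k := ⟨Y - (Y.trace / 2) • (1 : M2 k), by
    rw [mem_SL, Matrix.trace_sub, Matrix.trace_smul, Matrix.trace_one, Fintype.card_fin,
      smul_eq_mul]
    push_cast
    field_simp
    ring⟩
  have hd0 : ∀ σ : Dq (pPrime p), ((d0 (rhoD (ad p r) (pPrime p)) X σ : SL p k) : M2 k) =
      r (σ : H91.GQ) * Y * r (σ : H91.GQ)⁻¹ - Y := by
    intro σ
    rw [d0_apply]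
    show r (σ : H91.GQ) * (Y - (Y.trace / 2) • (1 : M2 k)) * r (σ : H91.GQ)⁻¹ -
      (Y - (Y.trace / 2) • (1 : M2 k)) = _
    rw [mul_sub, sub_mul, mul_smul_comm, smul_mul_assoc, mul_one, rmul_inv]
    abel
  have hm : c + d0 (rhoD (ad p r) (pPrime p)) X ∈ MM p r u := by
    rw [mem_MM]
    refine ⟨Submodule.add_mem _ (coc_mem_Z1 p hR _ hc) ((smooth_adD p hr _).d0_mem_Z1 _),
      fun σ => ?_⟩
    obtain ⟨z, t, hz, hU, -⟩ := hg.2 σ
    refine ⟨z * t.snd, ?_⟩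
    apply Subtype.ext
    show _ = (c σ : M2 k) + ((d0 (rhoD (ad p r) (pPrime p)) X σ : SL p k) : M2 k)
    rw [hc, hd0]
    have hs := congrArg sndM hU
    have hrd := congrArg (redM k) hU
    rw [map_mul, map_mul, hR.red, hgu, redM_of] at hrd
    simp only [TrivSqZeroExt.fst_inl, TrivSqZeroExt.fst_zero] at hrd
    rw [sndM_mul, sndM_mul, hR.red, hgu, redM_of, sndM_of, sndM_eq_coc_mul, hR.red, hGY] at hs
    simp only [TrivSqZeroExt.fst_inl, TrivSqZeroExt.fst_zero, TrivSqZeroExt.snd_inl,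
      TrivSqZeroExt.snd_zero] at hs
    set U : M2 k := !![chik p k σ * z, t.fst; 0, z] with hUdef
    have hE : !![0, t.snd; 0, 0] = !![0, z * t.snd; 0, 0] * U := by
      rw [hUdef]
      ext i j
      fin_cases i <;> fin_cases j <;> simp [Matrix.mul_apply, Fin.sum_univ_two]
      linear_combination - t.snd * hz
    rw [hE] at hs
    -- `rσ * (Y * u) + coc σ * rσ * u = u * (E * U) + Y * u * U`
    have hU' : (u : M2 k) * U = r (σ : H91.GQ) * u := hrd.symm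
    have hs2 : coc R (σ : H91.GQ) * (r (σ : H91.GQ) * (u : M2 k)) =
        (u : M2 k) * !![0, z * t.snd; 0, 0] * (↑u⁻¹ : M2 k) * (r (σ : H91.GQ) * (u : M2 k)) +
        Y * (r (σ : H91.GQ) * (u : M2 k)) - r (σ : H91.GQ) * Y * (u : M2 k) := by
      rw [← hU']
      have e1 : (u : M2 k) * !![0, z * t.snd; 0, 0] * (↑u⁻¹ : M2 k) * ((u : M2 k) * U) =
          (u : M2 k) * (!![0, z * t.snd; 0, 0] * U) := by
        calc _ = (u : M2 k) * !![0, z * t.snd; 0, 0] * ((↑u⁻¹ : M2 k) * (u : M2 k)) * U := by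
              noncomm_ring
          _ = _ := by rw [Units.inv_mul]; noncomm_ring
      rw [e1, eq_sub_iff_add_eq, hU']
      calc _ = r (σ : H91.GQ) * (Y * (u : M2 k)) + coc R (σ : H91.GQ) * r (σ : H91.GQ) * u := by
            noncomm_ring
        _ = _ := by rw [hs, ← hU']; noncomm_ring
    have hs3 := congrArg (fun Z => Z * ((↑u⁻¹ : M2 k) * r (σ : H91.GQ)⁻¹)) hs2
    simp only [sub_mul, add_mul] at hs3
    have e2 : ∀ Z : M2 k, Z * (r (σ : H91.GQ) * (u : M2 k)) *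
        ((↑u⁻¹ : M2 k) * r (σ : H91.GQ)⁻¹) = Z := by
      intro Z
      calc _ = Z * (r (σ : H91.GQ) * ((u : M2 k) * (↑u⁻¹ : M2 k)) * r (σ : H91.GQ)⁻¹) := by
            noncomm_ring
        _ = _ := by rw [Units.mul_inv, mul_one, rmul_inv, mul_one]
    have e3 : r (σ : H91.GQ) * Y * (u : M2 k) * ((↑u⁻¹ : M2 k) * r (σ : H91.GQ)⁻¹) =
        r (σ : H91.GQ) * Y * r (σ : H91.GQ)⁻¹ := by
      calc _ = r (σ : H91.GQ) * Y * ((u : M2 k) * (↑u⁻¹ : M2 k)) * r (σ : H91.GQ)⁻¹ := by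
            noncomm_ring
        _ = _ := by rw [Units.mul_inv, mul_one]
    rw [e2, e2, e2, e3] at hs3
    rw [hs3, coe_phi]
    abel
  have hc2 : c = (c + d0 (rhoD (ad p r) (pPrime p)) X) - d0 (rhoD (ad p r) (pPrime p)) X := by
    abel
  rw [hc2]
  exact Submodule.sub_mem _ (Submodule.mem_sup_left hm) (Submodule.mem_sup_right ⟨X, rfl⟩)

/-- **(O): the local bound at `p`, strictly ordinary case.** -/
theorem statementO [Finite k] (hp2 : p ≠ 2) : StatementO p (k := k) := by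
  intro r hr hdet
  by_cases hex : ∃ R : H91.GQ →* M2 (DualNumber k), GoodLift r R ∧
      ∃ h : MCont (DualNumber k) R, (ofMatrix R h).IsStrictOrdinaryAt p
  · obtain ⟨R₀, hR₀, h₀, hord₀⟩ := hex
    obtain ⟨g₀, hg₀⟩ := exists_tri p hp2 hdet hR₀ h₀ hord₀
    have ht₀ := hg₀.red p hR₀.red
    obtain ⟨u, hu⟩ := ht₀.1
    have htu : Tri0 p r (u : M2 k) := by rw [hu]; exact ht₀
    obtain ⟨hfin, hcard⟩ := card_LL p hp2 hr htu
    refine ⟨LL p r u, le_sup_right, sup_le inf_le_left ?_, hfin, hcard, ?_⟩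
    · rintro _ ⟨X, rfl⟩
      exact (smooth_adD p hr _).d0_mem_Z1 _
    · rintro R hR ⟨h, hord⟩ c hc
      obtain ⟨g, hg⟩ := exists_tri p hp2 hdet hR h hord
      obtain ⟨a, b, d, ha, hd, hgg⟩ := htu.unique p hp2 (hg.red p hR.red)
      obtain ⟨g', hg', hgu'⟩ := hg.adjust p ha hd hgg
      exact coc_mem_LL p hp2 hr hR hg' hgu' hc
  · refine ⟨B1 (rhoD (ad p r) (pPrime p)), le_rfl, ?_, ?_, ?_, ?_⟩
    · rintro _ ⟨X, rfl⟩
      exact (smooth_adD p hr _).d0_mem_Z1 _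
    · have hs : Function.Surjective (fun X : SL p k =>
          (⟨d0 (rhoD (ad p r) (pPrime p)) X, X, rfl⟩ : B1 (rhoD (ad p r) (pPrime p)))) := by
        rintro ⟨_, X, rfl⟩
        exact ⟨X, rfl⟩
      exact Finite.of_surjective _ hs
    · have hs : Function.Surjective (fun X : SL p k =>
          (⟨d0 (rhoD (ad p r) (pPrime p)) X, X, rfl⟩ : B1 (rhoD (ad p r) (pPrime p)))) := by
        rintro ⟨_, X, rfl⟩
        exact ⟨X, rfl⟩
      have h3 : Nat.card (SL p k) = Nat.card k ^ 3 := natCard_traceZero k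
      calc Nat.card (B1 (rhoD (ad p r) (pPrime p))) ≤ Nat.card (SL p k) :=
            Nat.card_le_card_of_surjective _ hs
        _ = Nat.card k ^ 3 := h3
        _ ≤ Nat.card k ^ 4 := Nat.pow_le_pow_right Nat.card_pos (by norm_num)
    · rintro R hR ⟨h, hord⟩
      exact absurd ⟨R, hR, h, hord⟩ hex

end Final

end

end Fermat.Agent.H81
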