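import Mathlib

/-!
# S56-[B4], K3: counting semilinear maps

`card_semilinear_le`: for a finite field `k` of characteristic `p`, `m ∈ k`, and a field `κ` of
characteristic `p`, there are at most `|k|` additive maps `U : k → κ` with `U (m c) = U(c) ^ p`.
-/

set_option autoImplicit false
set_option linter.unusedSectionVars false

noncomputable section

namespace Fermat.Agent.H95.K3

open Polynomial

variable (p : ℕ) [Fact p.Prime] {k κ : Type*} [Field k] [Field κ] [CharP k p] [CharP κ p]

/-- additive maps with `U (m c) = U c ^ p` -/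
def SL (m : k) : Set (k →+ κ) := {U | ∀ c, U (m * c) = U c ^ p}

variable {p}

theorem SL.pow {m : k} {U : k →+ κ} (hU : U ∈ SL p m) (j : ℕ) (c : k) :
    U (m ^ j * c) = U c ^ p ^ j := by
  induction j with
  | zero => simp
  | succ j ih =>
    rw [pow_succ', mul_assoc, hU, ih, ← pow_mul, ← pow_succ]

/-- the additive polynomial of a polynomial over the prime field -/
def addPoly (P : (ZMod p)[X]) : κ[X] :=
  P.sum fun j a => C (ZMod.castHom (dvd_refl p) κ a) * X ^ (p ^ j)

theorem eval_addPoly (P : (ZMod p)[X]) (x : κ) :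
    (addPoly P : κ[X]).eval x = P.sum fun j a => (ZMod.castHom (dvd_refl p) κ a) * x ^ (p ^ j) := by
  rw [addPoly, Polynomial.sum, Polynomial.sum, eval_finsetSum]
  refine Finset.sum_congr rfl fun j _ => ?_
  rw [eval_mul, eval_C, eval_pow, eval_X]

theorem natDegree_addPoly_le (P : (ZMod p)[X]) : (addPoly P : κ[X]).natDegree ≤ p ^ P.natDegree := by
  rw [addPoly, Polynomial.sum]
  refine natDegree_sum_le_of_forall_le _ _ fun j hj => ?_
  refine (natDegree_C_mul_X_pow_le _ _).trans ?_
  exact Nat.pow_le_pow_right (Fact.out : p.Prime).pos (le_natDegree_of_mem_supp j hj)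

theorem addPoly_ne_zero {P : (ZMod p)[X]} (hP : P.Monic) : (addPoly P : κ[X]) ≠ 0 := by
  intro h
  have h1 : (addPoly P : κ[X]).coeff (p ^ P.natDegree) = 1 := by
    rw [addPoly, Polynomial.sum, finsetSum_coeff, Finset.sum_eq_single P.natDegree]
    · rw [coeff_C_mul, coeff_X_pow_self, mul_one, coeff_natDegree, hP.leadingCoeff, map_one]
    · intro j _ hj
      rw [coeff_C_mul, coeff_X_pow, if_neg, mul_zero]
      intro h
      exact hj (Nat.pow_right_injective (Fact.out : p.Prime).two_le h).symm
    · intro h
      rw [notMem_support_iff, coeff_natDegree, hP.leadingCoeff] at h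
      exact absurd h one_ne_zero
  rw [h, coeff_zero] at h1
  exact zero_ne_one h1

theorem map_castHom_mul (U : k →+ κ) (a : ZMod p) (c : k) :
    U (ZMod.castHom (dvd_refl p) k a * c) = ZMod.castHom (dvd_refl p) κ a * U c := by
  obtain ⟨n, rfl⟩ := ZMod.natCast_zmod_surjective a
  rw [map_natCast, map_natCast, ← nsmul_eq_mul, ← nsmul_eq_mul, map_nsmul]

theorem SL.eval_addPoly_eq {m : k} {U : k →+ κ} (hU : U ∈ SL p m) (P : (ZMod p)[X]) (c : k) :
    (addPoly P : κ[X]).eval (U c) =
      U (P.eval₂ (ZMod.castHom (dvd_refl p) k) m * c) := by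
  rw [eval_addPoly, eval₂_eq_sum, Polynomial.sum, Polynomial.sum, Finset.sum_mul, map_sum]
  refine Finset.sum_congr rfl fun j _ => ?_
  rw [mul_assoc, map_castHom_mul, SL.pow hU]

variable [Finite k]

theorem finite_and_card_SL_le (m : k) :
    (SL p m : Set (k →+ κ)).Finite ∧ Nat.card (SL p m : Set (k →+ κ)) ≤ Nat.card k := by
  classical
  let _ : Algebra (ZMod p) k := ZMod.algebra k p
  let _ := Fintype.ofFinite k
  have halg : (algebraMap (ZMod p) k) = ZMod.castHom (dvd_refl p) k := rfl
  set E := IntermediateField.adjoin (ZMod p) {m} with hE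
  have hint : IsIntegral (ZMod p) m := Algebra.IsIntegral.isIntegral m
  set P := minpoly (ZMod p) m with hP
  have hPm : P.Monic := minpoly.monic hint
  have hfin : Module.finrank (ZMod p) E = P.natDegree := IntermediateField.adjoin.finrank hint
  have : Module.Finite E k := Module.Finite.of_restrictScalars_finite (ZMod p) E k
  let B := Module.finBasis E k
  set d := Module.finrank E k with hd
  -- evaluation at the basis
  let R : Finset κ := (addPoly P : κ[X]).roots.toFinset
  have hR : R.card ≤ p ^ P.natDegree :=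
    (Multiset.toFinset_card_le _).trans ((card_roots' _).trans (natDegree_addPoly_le P))
  have hmem : ∀ U ∈ (SL p m : Set (k →+ κ)), ∀ c, U c ∈ R := by
    intro U hU c
    rw [Multiset.mem_toFinset, mem_roots (addPoly_ne_zero hPm), IsRoot.def,
      SL.eval_addPoly_eq hU]
    have : P.eval₂ (ZMod.castHom (dvd_refl p) k) m = 0 := by
      rw [← halg, ← aeval_def]
      exact minpoly.aeval _ _
    rw [this, zero_mul, map_zero]
  let f : ↥(SL p m : Set (k →+ κ)) → (Fin d → R) := fun U i => ⟨(U : k →+ κ) (B i), hmem U U.2 _⟩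
  have hf : Function.Injective f := by
    intro U U' h
    apply Subtype.ext
    -- the set where they agree is an `E`-submodule
    let A : Subalgebra (ZMod p) k :=
      { carrier := {e | ∀ c, (U : k →+ κ) c = (U' : k →+ κ) c → (U : k →+ κ) (e * c) = (U' : k →+ κ) (e * c)}
        mul_mem' := fun {a b} ha hb c hc => by
          rw [mul_assoc]
          exact ha _ (hb _ hc)
        add_mem' := fun {a b} ha hb c hc => by
          rw [add_mul, map_add, map_add, ha c hc, hb c hc]
        algebraMap_mem' := fun a c hc => by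
          rw [halg, map_castHom_mul, map_castHom_mul, hc] }
    have hmA : m ∈ A := fun c hc => by rw [U.2 c, U'.2 c, hc]
    have hEA : ∀ e : E, (e : k) ∈ A := by
      intro e
      have h1 : (e : k) ∈ Algebra.adjoin (ZMod p) {m} := by
        rw [← IntermediateField.adjoin_simple_toSubalgebra_of_isAlgebraic hint.isAlgebraic]
        exact e.2
      exact (Algebra.adjoin_le (Set.singleton_subset_iff.mpr hmA)) h1
    apply AddMonoidHom.ext
    intro c
    rw [← B.sum_repr c, map_sum, map_sum]
    refine Finset.sum_congr rfl fun i _ => ?_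
    have h2 : (U : k →+ κ) (B i) = (U' : k →+ κ) (B i) := congrArg Subtype.val (congrFun h i)
    exact hEA (B.repr c i) (B i) h2
  have : Finite (SL p m : Set (k →+ κ)) := Finite.of_injective f hf
  refine ⟨this, ?_⟩
  calc Nat.card (SL p m : Set (k →+ κ)) ≤ Nat.card (Fin d → R) := Nat.card_le_card_of_injective f hf
    _ = R.card ^ d := by rw [Nat.card_fun, Nat.card_fin]; simp
    _ ≤ (p ^ P.natDegree) ^ d := Nat.pow_le_pow_left hR d
    _ = p ^ (Module.finrank (ZMod p) E * d) := by rw [hfin, pow_mul]
    _ = p ^ Module.finrank (ZMod p) k := by rw [hd, Module.finrank_mul_finrank]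
    _ = Nat.card k := by
        rw [Nat.card_eq_fintype_card, Module.card_eq_pow_finrank (K := ZMod p), ZMod.card]

end Fermat.Agent.H95.K3
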