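import Fermat.Agent.H64FTame

/-!
# S56-[B4] : the derivation `d/dϖ` on a finite layer
-/

set_option autoImplicit false

open Polynomial

noncomputable section

namespace Fermat.Agent.H64

variable {p : ℕ} [Fact p.Prime]

variable (p) in
/-- elements of norm at most one in `L` -/
def BL (L : IntermediateField ℚ FQb) : Subring FQb where
  carrier := {x | x ∈ L ∧ nm p x ≤ 1}
  mul_mem' {a b} ha hb := ⟨mul_mem ha.1 hb.1, nm_mul_le_one ha.2 hb.2⟩
  one_mem' := ⟨one_mem _, by simp⟩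
  add_mem' {a b} ha hb := ⟨add_mem ha.1 hb.1, nm_add_le_of ha.2 hb.2⟩
  zero_mem' := ⟨zero_mem _, by simp⟩
  neg_mem' {a} ha := ⟨neg_mem ha.1, by rw [nm_neg]; exact ha.2⟩

theorem mem_BL {L : IntermediateField ℚ FQb} {x : FQb} : x ∈ BL p L ↔ x ∈ L ∧ nm p x ≤ 1 := Iff.rfl

variable (p) in
/-- elements of norm at most one in `L` fixed by inertia -/
def OL (L : IntermediateField ℚ FQb) : Subring FQb where
  carrier := {x | x ∈ BL p L ∧ FixI p x}
  mul_mem' {a b} ha hb := ⟨mul_mem ha.1 hb.1, fun σ hσ => by rw [map_mul, ha.2 σ hσ, hb.2 σ hσ]⟩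
  one_mem' := ⟨one_mem _, fun σ _ => map_one σ⟩
  add_mem' {a b} ha hb := ⟨add_mem ha.1 hb.1, fun σ hσ => by rw [map_add, ha.2 σ hσ, hb.2 σ hσ]⟩
  zero_mem' := ⟨zero_mem _, fun σ _ => map_zero σ⟩
  neg_mem' {a} ha := ⟨neg_mem ha.1, fun σ hσ => by rw [map_neg, ha.2 σ hσ]⟩

theorem mem_OL {L : IntermediateField ℚ FQb} {x : FQb} :
    x ∈ OL p L ↔ x ∈ BL p L ∧ FixI p x := Iff.rfl

theorem OL_le_BL (L : IntermediateField ℚ FQb) : OL p L ≤ BL p L := fun _ h => h.1

variable (p) in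
/-- the submodule of elements of norm at most `δ` -/
def Ud (L : IntermediateField ℚ FQb) (δ : ℝ) (hδ : 0 < δ) : Submodule (BL p L) FQb where
  carrier := {x | nm p x ≤ δ}
  add_mem' ha hb := nm_add_le_of ha hb
  zero_mem' := by
    show nm p 0 ≤ δ
    rw [nm_zero]
    exact hδ.le
  smul_mem' c x hx := by
    show nm p ((c : FQb) * x) ≤ δ
    rw [nm_mul]
    exact (mul_le_of_le_one_left (nm_nonneg _) c.2.2).trans hx

theorem mem_Ud {L : IntermediateField ℚ FQb} {δ : ℝ} {hδ : 0 < δ} {x : FQb} :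
    x ∈ Ud p L δ hδ ↔ nm p x ≤ δ := Iff.rfl

/-- norms of elements fixed by inertia -/
theorem FixI.nm_le_one_of_lt {x : FQb} (hx : FixI p x) (h : nm p x < (nm p (p : FQb))⁻¹) :
    nm p x ≤ 1 := by
  by_cases hx0 : x = 0
  · subst hx0; simp
  obtain ⟨k, hk⟩ := hx.exists_zpow hx0
  rw [hk] at h ⊢
  have h1 : -1 < k := by
    by_contra hcon
    rw [not_lt] at hcon
    have h2 : (nm p (p : FQb)) ^ (-1 : ℤ) ≤ nm p (p : FQb) ^ k :=
      zpow_le_zpow_right_of_le_one₀ (nm_p_pos p) (nm_p_lt_one p).le hcon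
    rw [zpow_neg_one] at h2
    exact absurd h (not_lt.mpr h2)
  have h2 : (0 : ℤ) ≤ k := by omega
  exact zpow_le_one₀ (nm_p_pos p) (nm_p_lt_one p).le h2

theorem FixI.nm_le_p_of_lt {x : FQb} (hx : FixI p x) (h : nm p x < 1) :
    nm p x ≤ nm p (p : FQb) := by
  by_cases hx0 : x = 0
  · subst hx0; rw [nm_zero]; exact nm_nonneg _
  obtain ⟨k, hk⟩ := hx.exists_zpow hx0
  rw [hk] at h ⊢
  have h1 : 0 < k := by
    by_contra hcon
    rw [not_lt] at hcon
    have h2 : (nm p (p : FQb)) ^ (0 : ℤ) ≤ nm p (p : FQb) ^ k :=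
      zpow_le_zpow_right_of_le_one₀ (nm_p_pos p) (nm_p_lt_one p).le hcon
    rw [zpow_zero] at h2
    exact absurd h (not_lt.mpr h2)
  have h2 : (1 : ℤ) ≤ k := by omega
  calc nm p (p : FQb) ^ k ≤ nm p (p : FQb) ^ (1 : ℤ) :=
        zpow_le_zpow_right_of_le_one₀ (nm_p_pos p) (nm_p_lt_one p).le h2
    _ = _ := zpow_one _

theorem nm_unif_pos {N : ℕ} (hN : 0 < N) {ϖ : FQb} (hϖ : nm p ϖ ^ N = nm p (p : FQb)) :
    0 < nm p ϖ := by
  rcases eq_or_lt_of_le (nm_nonneg (p := p) ϖ) with h | h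
  · rw [← h, zero_pow hN.ne'] at hϖ
    exact absurd hϖ.symm (nm_p_pos p).ne'
  · exact h

theorem nm_unif_lt_one {N : ℕ} {ϖ : FQb} (hϖ : nm p ϖ ^ N = nm p (p : FQb)) :
    nm p ϖ < 1 := by
  by_contra h
  rw [not_lt] at h
  have h1 : 1 ≤ nm p ϖ ^ N := one_le_pow₀ h
  rw [hϖ] at h1
  exact absurd h1 (not_le.mpr (nm_p_lt_one p))

/-- the coefficients of an Eisenstein expansion of an element of norm `≤ 1` -/
theorem coeff_le_one {N : ℕ} (hN : 0 < N) {ϖ : FQb} (hϖ : nm p ϖ ^ N = nm p (p : FQb))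
    (f : Fin N → FQb) (hf : ∀ i, FixI p (f i)) (h : nm p (∑ i, f i * ϖ ^ (i : ℕ)) ≤ 1) (i : Fin N) :
    nm p (f i) ≤ 1 := by
  have hϖ0 := nm_unif_pos hN hϖ
  have hϖ1 := nm_unif_lt_one hϖ
  apply (hf i).nm_le_one_of_lt
  by_contra hcon
  rw [not_lt] at hcon
  have h1 := (nm_term_le_sum hN hϖ f hf i).trans h
  rw [nm_mul, nm_pow] at h1
  have h2 : (nm p (p : FQb))⁻¹ * nm p ϖ ^ (i : ℕ) ≤ 1 :=
    (mul_le_mul_of_nonneg_right hcon (by positivity)).trans h1
  rw [inv_mul_le_iff₀ (nm_p_pos p), mul_one, ← hϖ] at h2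
  exact absurd h2 (not_le.mpr (pow_lt_pow_right_of_lt_one₀ hϖ0 hϖ1 i.2))

section Der

variable {L : IntermediateField ℚ FQb} {N : ℕ} (hN : 0 < N) {ϖ : FQb} (hϖL : ϖ ∈ L)
  (hϖ : nm p ϖ ^ N = nm p (p : FQb))
  (hexp : ∀ x ∈ L, ∃ f : Fin N → FQb, (∀ i, f i ∈ L ∧ FixI p (f i)) ∧ x = ∑ i, f i * ϖ ^ (i : ℕ))

/-- evaluation at `ϖ` of polynomials with coefficients in `OL` -/
abbrev ev (L : IntermediateField ℚ FQb) (ϖ : FQb) (P : (OL p L)[X]) : FQb :=
  eval₂ (OL p L).subtype ϖ P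

theorem ev_eq_sum {P : (OL p L)[X]} (hP : P.natDegree < N) :
    ev L ϖ P = ∑ i : Fin N, (P.coeff i : FQb) * ϖ ^ (i : ℕ) := by
  rw [ev, eval₂_eq_sum_range' _ hP, Finset.sum_range]
  rfl

include hϖ hN in
theorem eq_zero_of_ev {P : (OL p L)[X]} (hP : P.natDegree < N) (h : ev L ϖ P = 0) : P = 0 := by
  ext i
  by_cases hi : i < N
  · rw [ev_eq_sum hP] at h
    have h1 := nm_term_le_sum hN hϖ (fun i : Fin N => (P.coeff i : FQb))
      (fun i => (P.coeff i).2.2) ⟨i, hi⟩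
    rw [h, nm_zero, nm_mul, nm_pow] at h1
    have h2 : nm p ((P.coeff i : OL p L) : FQb) = 0 := by
      have h3 := nm_unif_pos hN hϖ
      rcases (mul_nonneg (nm_nonneg (p := p) ((P.coeff i : OL p L) : FQb))
        (pow_nonneg h3.le i)).antisymm' h1 |> mul_eq_zero.mp with h4 | h4
      · exact h4
      · exact absurd h4 (pow_ne_zero _ h3.ne')
    rw [nm_eq_zero.mp h2]
    simp
  · rw [coeff_eq_zero_of_natDegree_lt (by omega)]
    simp

include hN hϖ hexp in
theorem exists_poly {b : FQb} (hb : b ∈ BL p L) :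
    ∃ P : (OL p L)[X], P.natDegree < N ∧ ev L ϖ P = b := by
  obtain ⟨f, hf, hsum⟩ := hexp b hb.1
  have hle := coeff_le_one hN hϖ f (fun i => (hf i).2) (by rw [← hsum]; exact hb.2)
  let c : Fin N → OL p L := fun i => ⟨f i, ⟨(hf i).1, hle i⟩, (hf i).2⟩
  refine ⟨∑ i : Fin N, C (c i) * X ^ (i : ℕ), ?_, ?_⟩
  · have h1 : (∑ i : Fin N, C (c i) * X ^ (i : ℕ)).degree < ((N : ℕ) : WithBot ℕ) := by
      refine (degree_sum_le _ _).trans_lt ?_
      refine (Finset.sup_lt_iff (WithBot.bot_lt_coe N)).mpr ?_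
      intro i _
      exact (degree_C_mul_X_pow_le _ _).trans_lt (Nat.cast_lt.mpr i.2)
    by_cases h0 : (∑ i : Fin N, C (c i) * X ^ (i : ℕ)) = 0
    · rw [h0, natDegree_zero]; exact hN
    · exact (natDegree_lt_iff_degree_lt h0).mpr h1
  · rw [ev, eval₂_finsetSum, hsum]
    refine Finset.sum_congr rfl fun i _ => ?_
    rw [eval₂_mul, eval₂_C, eval₂_X_pow]
    rfl

include hN hϖ hexp hϖL in
/-- the Eisenstein polynomial -/
theorem exists_eisenstein : ∃ g : (OL p L)[X], g.Monic ∧ g.natDegree = N ∧ ev L ϖ g = 0 ∧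
    ∀ i < N, nm p (g.coeff i : FQb) < 1 := by
  have hϖ0 := nm_unif_pos hN hϖ
  have hϖ1 := nm_unif_lt_one hϖ
  have hϖB : ϖ ^ N ∈ BL p L := pow_mem (show ϖ ∈ BL p L from ⟨hϖL, hϖ1.le⟩) N
  obtain ⟨P, hP, hPev⟩ := exists_poly hN hϖ hexp hϖB
  have hdeg : P.degree < (X ^ N : (OL p L)[X]).degree := by
    rw [degree_X_pow]
    by_cases h0 : P = 0
    · rw [h0, degree_zero]; exact WithBot.bot_lt_coe N
    · rwa [← natDegree_lt_iff_degree_lt h0]
  have hmon : (X ^ N - P).Monic := by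
    apply Monic.sub_of_left (monic_X_pow N) hdeg
  refine ⟨X ^ N - P, hmon, ?_, ?_, ?_⟩
  · rw [natDegree_sub_eq_left_of_natDegree_lt (by rwa [natDegree_X_pow]), natDegree_X_pow]
  · rw [ev, eval₂_sub, eval₂_X_pow]
    rw [ev] at hPev
    rw [hPev, sub_self]
  · intro i hi
    rw [coeff_sub, coeff_X_pow, if_neg hi.ne, zero_sub]
    have h1 := nm_term_le_sum hN hϖ (fun i : Fin N => (P.coeff i : FQb))
      (fun i => (P.coeff i).2.2) ⟨i, hi⟩
    rw [← ev_eq_sum hP, hPev, nm_mul, nm_pow, nm_pow] at h1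
    show nm p (-(P.coeff i : FQb)) < 1
    rw [nm_neg]
    by_contra hcon
    rw [not_lt] at hcon
    have h2 : nm p ϖ ^ i ≤ nm p ϖ ^ N := by
      refine le_trans ?_ h1
      exact le_mul_of_one_le_left (by positivity) hcon
    exact absurd h2 (not_le.mpr (pow_lt_pow_right_of_lt_one₀ hϖ0 hϖ1 hi))

theorem ev_mem {P : (OL p L)[X]} (hϖB : ϖ ∈ BL p L) : ev L ϖ P ∈ BL p L := by
  rw [ev, eval₂_eq_sum_range]
  exact sum_mem fun i _ => mul_mem (OL_le_BL L (P.coeff i).2) (pow_mem hϖB i)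

include hN hϖ in
theorem ev_derivative_pos {g : (OL p L)[X]} (hg : g.Monic) (hgN : g.natDegree = N) :
    0 < nm p (ev L ϖ (derivative g)) := by
  rw [nm_pos]
  intro h
  have h1 : (derivative g).natDegree < N := by
    have := natDegree_derivative_lt (p := g) (by omega)
    omega
  have h2 := eq_zero_of_ev hN hϖ h1 h
  have h3 := congrArg (fun Q => ((Q.coeff (N - 1) : OL p L) : FQb)) h2
  simp only [coeff_derivative, coeff_zero] at h3
  rw [Nat.sub_add_cancel hN, ← hgN, coeff_natDegree, hg.leadingCoeff, one_mul] at h3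
  have h4 : (((g.natDegree - 1 : ℕ) : OL p L) + 1 : OL p L) = ((g.natDegree : ℕ) : OL p L) := by
    rw [← Nat.cast_succ, Nat.succ_eq_add_one, Nat.sub_add_cancel (by omega)]
  rw [h4] at h3
  have h5 : ((g.natDegree : ℕ) : FQb) = 0 := by simpa using h3
  rw [Nat.cast_eq_zero] at h5
  omega

include hN hϖ in
/-- polynomials vanishing at `ϖ` are divisible by the Eisenstein polynomial -/
theorem exists_eq_mul_of_ev {g : (OL p L)[X]} (hg : g.Monic) (hgN : g.natDegree = N)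
    (hgev : ev L ϖ g = 0) {P : (OL p L)[X]} (hP : ev L ϖ P = 0) : ∃ q, P = g * q := by
  refine ⟨P /ₘ g, ?_⟩
  have h1 := modByMonic_add_div P g
  have h2 : ev L ϖ (P %ₘ g) = 0 := by
    have h3 : ev L ϖ P = ev L ϖ (P %ₘ g) + ev L ϖ g * ev L ϖ (P /ₘ g) := by
      conv_lhs => rw [← h1]
      rw [ev, eval₂_add, eval₂_mul]
    rw [hP, hgev, zero_mul, add_zero] at h3
    exact h3.symm
  have h3 : P %ₘ g = 0 := by
    apply eq_zero_of_ev hN hϖ _ h2
    rw [← hgN]
    exact natDegree_modByMonic_lt P hg (by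
      intro h
      rw [h, natDegree_one] at hgN
      omega)
  rw [h3, zero_add] at h1
  exact h1.symm

include hN hϖ in
theorem nm_derivative_sub_le (hϖB : ϖ ∈ BL p L) {g : (OL p L)[X]} (hg : g.Monic)
    (hgN : g.natDegree = N) (hgev : ev L ϖ g = 0) {P Q : (OL p L)[X]} (hPQ : ev L ϖ P = ev L ϖ Q) :
    nm p (ev L ϖ (derivative P) - ev L ϖ (derivative Q)) ≤ nm p (ev L ϖ (derivative g)) := by
  have h1 : ev L ϖ (P - Q) = 0 := by rw [ev, eval₂_sub, sub_eq_zero]; exact hPQ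
  obtain ⟨q, hq⟩ := exists_eq_mul_of_ev hN hϖ hg hgN hgev h1
  have h2 : ev L ϖ (derivative P) - ev L ϖ (derivative Q) =
      ev L ϖ (derivative g) * ev L ϖ q := by
    have h3 := congrArg (fun R => ev L ϖ (derivative R)) hq
    simp only [ev, derivative_sub, derivative_mul, eval₂_sub, eval₂_add, eval₂_mul] at h3
    rw [ev] at hgev
    rw [hgev, zero_mul, add_zero] at h3
    exact h3
  rw [h2, nm_mul]
  exact mul_le_of_le_one_right (nm_nonneg _) (ev_mem hϖB).2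

/-- the derivation `d/dϖ`, as a function -/
def derFun (g : (OL p L)[X]) (hg : g.Monic) (hgN : g.natDegree = N) (b : BL p L) :
    FQb ⧸ Ud p L (nm p (ev L ϖ (derivative g))) (ev_derivative_pos hN hϖ hg hgN) :=
  Submodule.Quotient.mk (ev L ϖ (derivative (exists_poly hN hϖ hexp b.2).choose))

theorem derFun_spec (hϖB : ϖ ∈ BL p L) {g : (OL p L)[X]} (hg : g.Monic)
    (hgN : g.natDegree = N) (hgev : ev L ϖ g = 0) {b : BL p L} {P : (OL p L)[X]}
    (hP : ev L ϖ P = b) :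
    derFun hN hϖ hexp g hg hgN b = Submodule.Quotient.mk (ev L ϖ (derivative P)) := by
  rw [derFun, Submodule.Quotient.eq, mem_Ud]
  refine nm_derivative_sub_le hN hϖ hϖB hg hgN hgev ?_
  rw [hP]
  exact (exists_poly hN hϖ hexp b.2).choose_spec.2

/-- the derivation `d/dϖ` -/
def derivϖ (hϖB : ϖ ∈ BL p L) {g : (OL p L)[X]} (hg : g.Monic)
    (hgN : g.natDegree = N) (hgev : ev L ϖ g = 0) :
    Derivation ℤ (BL p L) (FQb ⧸ Ud p L (nm p (ev L ϖ (derivative g)))
      (ev_derivative_pos hN hϖ hg hgN)) :=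
  Derivation.mk'
    (AddMonoidHom.toIntLinearMap (AddMonoidHom.mk' (derFun hN hϖ hexp g hg hgN) (by
      intro a b
      obtain ⟨P, -, hP⟩ := exists_poly hN hϖ hexp a.2
      obtain ⟨Q, -, hQ⟩ := exists_poly hN hϖ hexp b.2
      have hPQ : ev L ϖ (P + Q) = (a + b : BL p L) := by
        rw [ev, eval₂_add]
        rw [ev] at hP hQ
        rw [hP, hQ]
        rfl
      rw [derFun_spec hN hϖ hexp hϖB hg hgN hgev hP, derFun_spec hN hϖ hexp hϖB hg hgN hgev hQ,
        derFun_spec hN hϖ hexp hϖB hg hgN hgev hPQ, ← Submodule.Quotient.mk_add, derivative_add]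
      congr 1
      simp only [ev, eval₂_add])))
    (by
      intro a b
      obtain ⟨P, -, hP⟩ := exists_poly hN hϖ hexp a.2
      obtain ⟨Q, -, hQ⟩ := exists_poly hN hϖ hexp b.2
      have hPQ : ev L ϖ (P * Q) = (a * b : BL p L) := by
        rw [ev, eval₂_mul]
        rw [ev] at hP hQ
        rw [hP, hQ]
        rfl
      show derFun hN hϖ hexp g hg hgN (a * b) = a • derFun hN hϖ hexp g hg hgN b +
        b • derFun hN hϖ hexp g hg hgN a
      rw [derFun_spec hN hϖ hexp hϖB hg hgN hgev hP, derFun_spec hN hϖ hexp hϖB hg hgN hgev hQ,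
        derFun_spec hN hϖ hexp hϖB hg hgN hgev hPQ, ← Submodule.Quotient.mk_smul,
        ← Submodule.Quotient.mk_smul, ← Submodule.Quotient.mk_add, derivative_mul]
      congr 1
      rw [ev] at hP hQ
      rw [ev, eval₂_add, eval₂_mul, eval₂_mul, hP, hQ, add_comm]
      show _ = (a : FQb) * _ + (b : FQb) * _
      ring)

theorem derivϖ_spec (hϖB : ϖ ∈ BL p L) {g : (OL p L)[X]} (hg : g.Monic)
    (hgN : g.natDegree = N) (hgev : ev L ϖ g = 0) {b : BL p L} {P : (OL p L)[X]}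
    (hP : ev L ϖ P = b) :
    derivϖ hN hϖ hexp hϖB hg hgN hgev b = Submodule.Quotient.mk (ev L ϖ (derivative P)) :=
  derFun_spec hN hϖ hexp hϖB hg hgN hgev hP

variable (p) in
/-- the residue map on `OL` -/
def rsO (L : IntermediateField ℚ FQb) : OL p L →+* Kap p :=
  (IsLocalRing.residue (padicPlace p)).comp
    (Subring.inclusion (show OL p L ≤ (padicPlace p).toSubring from fun _ hx => hx.1.2))

theorem rsO_eq_zero_iff {a : OL p L} : rsO p L a = 0 ↔ nm p (a : FQb) < 1 := by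
  rw [rsO, RingHom.comp_apply, IsLocalRing.residue_eq_zero_iff,
    ← ValuationSubring.coe_mem_nonunits_iff, mem_nonunits_iff_nm]
  rfl

include hN hϖ in
theorem nm_derivative_pi (hϖB : ϖ ∈ BL p L) {g : (OL p L)[X]} (hg : g.Monic)
    (hgN : g.natDegree = N) (hgev : ev L ϖ g = 0) (hglt : ∀ i < N, nm p (g.coeff i : FQb) < 1)
    {e : ℕ} (he : 1 < e) (hep : e.Coprime p) {π : FQb} (hπ : π ^ e = -(p : FQb))
    {P : (OL p L)[X]} (hPN : P.natDegree < N) (hP : ev L ϖ P = π) :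
    nm p (ev L ϖ (derivative P)) * nm p π ^ (e - 1) = nm p (ev L ϖ (derivative g)) := by
  have he0 : 0 < e := by omega
  have hϖ0 := nm_unif_pos hN hϖ
  have hϖ1 := nm_unif_lt_one hϖ
  have hπpos := nm_pi_pos he0 hπ
  have hterm := nm_term_le_sum hN hϖ (fun i : Fin N => (P.coeff i : FQb))
    (fun i => (P.coeff i).2.2)
  rw [← ev_eq_sum hPN, hP] at hterm
  have : Nonempty (Fin N) := ⟨⟨0, hN⟩⟩
  -- the dominant term
  obtain ⟨i₀, -, hi₀⟩ := Finset.exists_max_image (Finset.univ : Finset (Fin N))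
    (fun i => nm p ((P.coeff i : FQb) * ϖ ^ (i : ℕ))) Finset.univ_nonempty
  have hdom : nm p π = nm p ((P.coeff i₀ : FQb) * ϖ ^ (i₀ : ℕ)) := by
    apply le_antisymm
    · rw [← hP, ev_eq_sum hPN]
      exact nm_sum_le _ _ (nm_nonneg _) fun i hi => hi₀ i hi
    · exact hterm i₀
  have hcne : (P.coeff i₀ : FQb) ≠ 0 := by
    intro h
    rw [h, zero_mul, nm_zero] at hdom
    exact hπpos.ne' hdom
  obtain ⟨k, hk⟩ := ((P.coeff i₀).2.2).exists_zpow hcne
  have hk0 : 0 ≤ k := by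
    by_contra hcon
    rw [not_le] at hcon
    have h1 : nm p (P.coeff i₀ : FQb) ≤ 1 := (P.coeff i₀).2.1.2
    rw [hk] at h1
    have h2 : 1 < nm p (p : FQb) ^ k := by
      have h3 : k = -(-k) := by ring
      rw [h3, zpow_neg]
      apply (one_lt_inv₀ (zpow_pos (nm_p_pos p) _)).mpr
      have h4 : nm p (p : FQb) ^ (-k) < nm p (p : FQb) ^ (0 : ℤ) :=
        zpow_lt_zpow_right_of_lt_one₀ (nm_p_pos p) (nm_p_lt_one p) (by omega)
      rwa [zpow_zero] at h4
    exact absurd h1 (not_le.mpr h2)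
  have hdeg : (e : ℤ) * (k * N + i₀) = N := by
    have h1 : (nm p π ^ e) ^ N = nm p (p : FQb) ^ ((e : ℤ) * (k * N + i₀)) := by
      rw [hdom, nm_mul, hk, nm_pow, mul_comm (e : ℤ), zpow_mul, zpow_natCast, ← pow_mul,
        mul_comm e N, pow_mul]
      congr 1
      rw [mul_pow, ← pow_mul, mul_comm (i₀ : ℕ) N, pow_mul, hϖ, zpow_add₀ (nm_p_pos p).ne',
        zpow_mul, zpow_natCast, zpow_natCast]
    rw [nm_pi_pow hπ, ← zpow_natCast] at h1
    exact (nm_p_zpow_inj h1).symm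
  have hk0' : k = 0 := by
    by_contra hne
    have hk1 : 1 ≤ k := by omega
    have hN' : (1 : ℤ) ≤ N := by exact_mod_cast hN
    have he' : (2 : ℤ) ≤ e := by exact_mod_cast he
    have h1 : (N : ℤ) ≤ k * N := le_mul_of_one_le_left (by omega) hk1
    have h2 : (0 : ℤ) ≤ i₀ := by positivity
    nlinarith
  obtain ⟨d, hd⟩ : ∃ d : ℕ, d = (i₀ : ℕ) := ⟨_, rfl⟩
  have hdN : d < N := hd ▸ i₀.2
  rw [← hd] at hdeg hdom hk hcne
  have hed : N = d * e := by
    rw [hk0', zero_mul, zero_add] at hdeg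
    have : (N : ℤ) = (d * e : ℕ) := by push_cast; rw [← hdeg]; ring
    exact_mod_cast this
  have hcd : nm p (P.coeff d : FQb) = 1 := by rw [hk, hk0', zpow_zero]
  have hπd : nm p π = nm p ϖ ^ d := by rw [hdom, nm_mul, hcd, one_mul, nm_pow]
  have hclt : ∀ i < d, nm p (P.coeff i : FQb) < 1 := by
    intro i hi
    by_contra hcon
    rw [not_lt] at hcon
    have h1 := hterm ⟨i, hi.trans hdN⟩
    rw [nm_mul, nm_pow, hπd] at h1
    have h2 : nm p ϖ ^ i ≤ nm p ϖ ^ d :=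
      (le_mul_of_one_le_left (by positivity) hcon).trans h1
    exact absurd h2 (not_le.mpr (pow_lt_pow_right_of_lt_one₀ hϖ0 hϖ1 hi))
  -- the polynomial `P ^ e + p`
  set G : (OL p L)[X] := P ^ e + C (p : OL p L) with hG
  have hGev : ev L ϖ G = 0 := by
    rw [hG, ev, eval₂_add, eval₂_pow, eval₂_C]
    rw [ev] at hP
    rw [hP, hπ]
    simp
  obtain ⟨q, hq⟩ := exists_eq_mul_of_ev hN hϖ hg hgN hgev hGev
  -- reduction
  have hgbar : g.map (rsO p L) = X ^ N := by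
    ext i
    rw [coeff_map, coeff_X_pow]
    split_ifs with h
    · rw [h, ← hgN, coeff_natDegree, hg.leadingCoeff, map_one]
    · rcases lt_or_gt_of_ne h with h1 | h1
      · exact rsO_eq_zero_iff.mpr (hglt i h1)
      · rw [coeff_eq_zero_of_natDegree_lt (by omega), map_zero]
  obtain ⟨R, hR⟩ : (X ^ d : (Kap p)[X]) ∣ P.map (rsO p L) := by
    rw [X_pow_dvd_iff]
    intro i hi
    rw [coeff_map]
    exact rsO_eq_zero_iff.mpr (hclt i hi)
  have hR0 : R.coeff 0 ≠ 0 := by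
    have h1 : (P.map (rsO p L)).coeff d = R.coeff 0 := by
      rw [hR]
      have := coeff_X_pow_mul R d 0
      rwa [zero_add] at this
    rw [← h1, coeff_map, Ne, rsO_eq_zero_iff, hcd]
    exact lt_irrefl _
  have hqbar : q.map (rsO p L) = R ^ e := by
    have h1 := congrArg (Polynomial.map (rsO p L)) hq
    rw [hG, Polynomial.map_add, Polynomial.map_pow, Polynomial.map_mul, hgbar, Polynomial.map_C,
      hR, mul_pow, ← pow_mul, ← hed] at h1
    have h2 : rsO p L (p : OL p L) = 0 := by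
      rw [map_natCast, CharP.cast_eq_zero]
    rw [h2, C_0, add_zero] at h1
    exact (mul_left_cancel₀ (pow_ne_zero _ X_ne_zero) h1).symm
  have hq0 : nm p (q.coeff 0 : FQb) = 1 := by
    refine le_antisymm (q.coeff 0).2.1.2 (not_lt.mp fun h => ?_)
    rw [← rsO_eq_zero_iff, ← coeff_map, hqbar, coeff_zero_eq_eval_zero, eval_pow,
      ← coeff_zero_eq_eval_zero] at h
    exact pow_ne_zero _ hR0 h
  have hqev : nm p (ev L ϖ q) = 1 := by
    rw [← hq0]
    apply nm_eq_of_sub_lt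
    rw [hq0]
    have h1 : ev L ϖ q - (q.coeff 0 : FQb) = ϖ * ev L ϖ q.divX := by
      conv_lhs => rw [← divX_mul_X_add q]
      rw [ev, eval₂_add, eval₂_mul, eval₂_X, eval₂_C, ev]
      have : (q.divX * X + C (q.coeff 0)).coeff 0 = q.coeff 0 := by simp
      rw [this]
      show _ + (q.coeff 0 : FQb) - (q.coeff 0 : FQb) = _
      ring
    rw [h1, nm_mul]
    exact mul_lt_one_of_nonneg_of_lt_one_left (nm_nonneg _) hϖ1 (ev_mem hϖB).2
  -- differentiate
  have hder := congrArg (fun Q => ev L ϖ (derivative Q)) hq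
  simp only [hG, ev, derivative_add, derivative_mul, derivative_C, add_zero, derivative_pow,
    eval₂_add, eval₂_mul, eval₂_pow, eval₂_C] at hder
  rw [ev] at hgev hP
  rw [hgev, zero_mul, add_zero, hP] at hder
  have h1 := congrArg (nm p) hder
  rw [nm_mul, nm_mul, nm_mul, nm_pow] at h1
  have h2 : nm p (eval₂ (OL p L).subtype ϖ q) = 1 := hqev
  rw [h2, mul_one] at h1
  have h3 : nm p ((OL p L).subtype (e : OL p L)) = 1 := by
    rw [map_natCast]
    exact nm_natCast_eq_one hep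
  rw [h3, one_mul] at h1
  rw [← h1, mul_comm]

end Der

end Fermat.Agent.H64
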