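import Mathlib
import Fermat.Agent.H64FDeriv

/-!
# S56-[B4], K3: units of unramified fields modulo `p`-th powers

`IsDL κ u`: `κ = τ (1 + p w)` with `τ` a nonzero Teichmüller element and `u` the residue class
of `w`.
-/

set_option autoImplicit false

noncomputable section

namespace Fermat.Agent.H95.K3

open Fermat.Agent.H64

variable {p : ℕ} [Fact p.Prime]

/-- the class of a unit modulo Teichmüller elements and `1 + p²` -/
def IsDL (κ : FQb) (u : Kap p) : Prop :=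
  ∃ τ w : FQb, IsTeich p τ ∧ τ ≠ 0 ∧ nm p w ≤ 1 ∧ κ = τ * (1 + p * w) ∧ rs w = u

theorem natCast_p_ne_zero : (p : FQb) ≠ 0 := Nat.cast_ne_zero.mpr (Fact.out : p.Prime).ne_zero

theorem nm_pw_lt {w : FQb} (hw : nm p w ≤ 1) : nm p ((p : FQb) * w) < 1 := by
  rw [nm_mul]
  exact (mul_le_of_le_one_right (nm_nonneg _) hw).trans_lt (nm_p_lt_one p)

theorem nm_one_add_pw {w : FQb} (hw : nm p w ≤ 1) : nm p (1 + (p : FQb) * w) = 1 := by
  have := nm_eq_of_sub_lt' (p := p) (x := 1) (y := 1 + (p : FQb) * w) (by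
    rw [nm_one, show (1 : FQb) - (1 + p * w) = -(p * w) by ring, nm_neg]
    exact nm_pw_lt hw)
  rw [← this, nm_one]

theorem IsTeich.ne_zero_nm {τ : FQb} (h : IsTeich p τ) (h0 : τ ≠ 0) : nm p τ = 1 := by
  obtain ⟨m, hm, h1⟩ := h
  have hp1 : 1 < p ^ m := Nat.one_lt_pow hm.ne' (Fact.out : p.Prime).one_lt
  have h2 : τ ^ (p ^ m - 1) = 1 := by
    have h3 : τ ^ (p ^ m - 1) * τ = τ := by rw [← pow_succ, Nat.sub_add_cancel hp1.le, h1]
    exact mul_right_cancel₀ h0 (by rw [h3, one_mul])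
  have h4 : nm p τ ^ (p ^ m - 1) = 1 := by rw [← nm_pow, h2, nm_one]
  exact (pow_eq_one_iff_of_nonneg (nm_nonneg _) (by omega)).mp h4

theorem IsDL.nm_eq {κ : FQb} {u : Kap p} (h : IsDL κ u) : nm p κ = 1 := by
  obtain ⟨τ, w, hτ, hτ0, hw, rfl, -⟩ := h
  rw [nm_mul, IsTeich.ne_zero_nm hτ hτ0, nm_one_add_pw hw, one_mul]

theorem IsDL.unique {κ : FQb} {u u' : Kap p} (h : IsDL κ u) (h' : IsDL κ u') : u = u' := by
  obtain ⟨τ, w, hτ, hτ0, hw, hκ, hu⟩ := h
  obtain ⟨τ', w', hτ', hτ0', hw', hκ', hu'⟩ := h'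
  have h1 : τ = τ' := by
    apply hτ.eq_of_nm_sub_lt hτ'
    have e1 : τ - τ' = τ' * (p * w') - τ * (p * w) := by
      have := hκ.symm.trans hκ'
      linear_combination this
    rw [e1]
    refine nm_sub_lt_of ?_ ?_
    · rw [nm_mul, IsTeich.ne_zero_nm hτ' hτ0', one_mul]
      exact nm_pw_lt hw'
    · rw [nm_mul, IsTeich.ne_zero_nm hτ hτ0, one_mul]
      exact nm_pw_lt hw
  have h2 : w = w' := by
    rw [← h1] at hκ'
    have h3 : (1 : FQb) + p * w = 1 + p * w' := mul_left_cancel₀ hτ0 (hκ.symm.trans hκ')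
    exact mul_left_cancel₀ natCast_p_ne_zero (add_left_cancel h3)
  rw [← hu, ← hu', h2]

theorem IsDL.mul {κ κ' : FQb} {u u' : Kap p} (h : IsDL κ u) (h' : IsDL κ' u') :
    IsDL (κ * κ') (u + u') := by
  obtain ⟨τ, w, hτ, hτ0, hw, rfl, rfl⟩ := h
  obtain ⟨τ', w', hτ', hτ0', hw', rfl, rfl⟩ := h'
  refine ⟨τ * τ', w + w' + p * w * w', hτ.mul hτ', mul_ne_zero hτ0 hτ0', ?_, by ring, ?_⟩
  · refine nm_add_le_of (nm_add_le_of hw hw') ?_
    rw [nm_mul]
    exact mul_le_one₀ (nm_pw_lt hw).le (nm_nonneg _) hw'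
  · have h1 : nm p ((p : FQb) * w * w') < 1 := by
      rw [nm_mul]
      exact (mul_le_of_le_one_right (nm_nonneg _) hw').trans_lt (nm_pw_lt hw)
    rw [rs_add (nm_add_le_of hw hw') h1.le, rs_add hw hw',
      (rs_eq_zero_iff (x := (p : FQb) * w * w') h1.le).mpr h1, add_zero]

theorem IsDL.map_frob {κ : FQb} {u : Kap p} (h : IsDL κ u) : IsDL (H64.frob p κ) (u ^ p) := by
  obtain ⟨τ, w, hτ, hτ0, hw, rfl, rfl⟩ := h
  refine ⟨H64.frob p τ, H64.frob p w, hτ.map _, (map_ne_zero _).mpr hτ0, ?_, ?_, rs_frob hw⟩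
  · rw [nm_dec frob_mem]; exact hw
  · rw [map_mul, map_add, map_mul, map_one, map_natCast]

/-- existence -/
theorem FixI.exists_isDL {κ : FQb} (hκ : FixI p κ) (h1 : nm p κ = 1) : ∃ u : Kap p, IsDL κ u := by
  obtain ⟨τ, hτ, hlt⟩ := exists_teich h1.le
  have hτ1 : nm p τ = 1 := by
    rw [← nm_eq_of_sub_lt' (x := κ) (y := τ) (by rw [h1]; exact hlt), h1]
  have hτ0 : τ ≠ 0 := by
    rintro rfl
    rw [nm_zero] at hτ1
    exact zero_ne_one hτ1
  have hfix : FixI p (κ - τ) := by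
    intro σ hσ
    rw [map_sub, hκ σ hσ, hτ.inertia hσ]
  have hle := hfix.nm_le_p_of_lt hlt
  refine ⟨rs ((κ / τ - 1) / p), τ, (κ / τ - 1) / p, hτ, hτ0, ?_, ?_, rfl⟩
  · rw [nm_div, div_le_one (nm_p_pos p)]
    have : κ / τ - 1 = (κ - τ) / τ := by field_simp
    rw [this, nm_div, hτ1, div_one]
    exact hle
  · rw [mul_div_cancel₀ _ natCast_p_ne_zero]
    field_simp
    ring

/-- the class of a `p`-th power is zero -/
theorem IsDL.pow_p {γ : FQb} {u : Kap p} (h : IsDL γ u) : IsDL (γ ^ p) (0 : Kap p) := by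
  obtain ⟨τ, w, hτ, hτ0, hw, rfl, -⟩ := h
  have hp : p.Prime := Fact.out
  have h1 : nm p ((1 + (p : FQb) * w) ^ p - 1) ≤ nm p (p : FQb) ^ 2 := by
    have h2 := nm_pow_p_sub_le (p := p) (a := 1 + (p : FQb) * w) (b := 1)
      (nm_one_add_pw hw).le nm_one.le
    rw [one_pow, add_sub_cancel_left, nm_mul] at h2
    refine h2.trans (max_le ?_ ?_)
    · calc (nm p (p : FQb) * nm p w) ^ p ≤ (nm p (p : FQb)) ^ p :=
          pow_le_pow_left₀ (mul_nonneg (nm_nonneg _) (nm_nonneg _))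
            (mul_le_of_le_one_right (nm_nonneg _) hw) _
        _ ≤ nm p (p : FQb) ^ 2 :=
          pow_le_pow_of_le_one (nm_nonneg _) (nm_p_lt_one p).le hp.two_le
    · rw [sq]
      exact mul_le_mul_of_nonneg_left (mul_le_of_le_one_right (nm_nonneg _) hw) (nm_nonneg _)
  have h3 : nm p (((1 + (p : FQb) * w) ^ p - 1) / p) ≤ nm p (p : FQb) := by
    rw [nm_div, div_le_iff₀ (nm_p_pos p), ← sq]
    exact h1
  refine ⟨τ ^ p, ((1 + (p : FQb) * w) ^ p - 1) / p, hτ.pow p, pow_ne_zero _ hτ0,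
    h3.trans (nm_p_lt_one p).le, ?_, ?_⟩
  · rw [mul_div_cancel₀ _ natCast_p_ne_zero, mul_pow]
    ring
  · rw [rs_eq_zero_iff (h3.trans (nm_p_lt_one p).le)]
    exact h3.trans_lt (nm_p_lt_one p)

/-! ### `p`-th roots near `1` -/

theorem nm_p_le_of_root {ω : FQb} (hω : ω ^ p = 1) (hω1 : ω ≠ 1) :
    nm p (p : FQb) ≤ nm p (1 - ω) ^ (p - 1) := by
  have hp : p.Prime := Fact.out
  have hprim : IsPrimitiveRoot ω (p - 1 + 1) := by
    rw [Nat.sub_add_cancel hp.one_le]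
    exact IsPrimitiveRoot.iff_orderOf.mpr (orderOf_eq_prime hω hω1)
  have h1 := hprim.prod_one_sub_pow_eq_order
  have h2 : ((p - 1 : ℕ) : FQb) + 1 = (p : FQb) := by
    have : ((p - 1 + 1 : ℕ) : FQb) = (p : FQb) := by rw [Nat.sub_add_cancel hp.one_le]
    push_cast at this
    exact this
  rw [h2] at h1
  rw [← h1]
  have hωle : nm p ω ≤ 1 := by
    have : nm p ω ^ p = 1 := by rw [← nm_pow, hω, nm_one]
    exact ((pow_eq_one_iff_of_nonneg (nm_nonneg _) hp.ne_zero).mp this).le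
  have h3 : ∀ k ∈ Finset.range (p - 1), nm p (1 - ω ^ (k + 1)) ≤ nm p (1 - ω) := by
    intro k _
    have h4 : 1 - ω ^ (k + 1) = (1 - ω) * ∑ i ∈ Finset.range (k + 1), ω ^ i := by
      rw [mul_comm, ← neg_sub ω 1, mul_neg, geom_sum_mul]
      ring
    rw [h4, nm_mul]
    refine mul_le_of_le_one_right (nm_nonneg _) ?_
    refine nm_sum_le _ _ zero_le_one fun i _ => ?_
    rw [nm_pow]
    exact pow_le_one₀ (nm_nonneg _) hωle
  have h5 : nm p (∏ k ∈ Finset.range (p - 1), (1 - ω ^ (k + 1))) =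
      ∏ k ∈ Finset.range (p - 1), nm p (1 - ω ^ (k + 1)) := by
    simp only [nm]
    rw [map_prod, norm_prod]
  rw [h5]
  calc _ ≤ ∏ _k ∈ Finset.range (p - 1), nm p (1 - ω) :=
        Finset.prod_le_prod (fun _ _ => nm_nonneg _) h3
    _ = _ := by rw [Finset.prod_const, Finset.card_range]

/-- a Galois element fixing `μ_p` and `ε` fixes the `p`-th roots of `1 + ε` if `ε` is small -/
theorem apply_root_eq (hp2 : p ≠ 2) {σ : FGQ} (hσ : σ ∈ Dp p)
    (hμ : ∀ ω : FQb, ω ^ p = 1 → σ ω = ω) {ε δ : FQb} (hε : σ ε = ε)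
    (hle : nm p ε ≤ nm p (p : FQb) ^ 2) (hδ : δ ^ p = 1 + ε) : σ δ = δ := by
  have hp : p.Prime := Fact.out
  have hp3 : 3 ≤ p := by
    have := hp.two_le
    omega
  have hδ0 : δ ≠ 0 := by
    rintro rfl
    rw [zero_pow hp.ne_zero] at hδ
    have h1 : ε = -1 := by linear_combination -hδ
    rw [h1, nm_neg, nm_one] at hle
    have := pow_lt_one₀ (nm_nonneg _) (nm_p_lt_one p) two_ne_zero
    linarith
  by_contra hne
  set ω := σ δ / δ with hωdef
  have hω : ω ^ p = 1 := by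
    rw [hωdef, div_pow, ← map_pow, hδ, map_add, map_one, hε, div_self]
    rw [← hδ]
    exact pow_ne_zero _ hδ0
  have hω1 : ω ≠ 1 := by
    intro h
    rw [hωdef, div_eq_one_iff_eq hδ0] at h
    exact hne h
  have hprim : IsPrimitiveRoot ω p := IsPrimitiveRoot.iff_orderOf.mpr (orderOf_eq_prime hω hω1)
  set ρ := nm p (1 - ω) with hρ
  have hρle := nm_p_le_of_root hω hω1
  have hρ1 : ρ ≤ 1 := by
    have hωle : nm p ω ≤ 1 := by
      have : nm p ω ^ p = 1 := by rw [← nm_pow, hω, nm_one]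
      exact ((pow_eq_one_iff_of_nonneg (nm_nonneg _) hp.ne_zero).mp this).le
    exact nm_sub_le_of nm_one.le hωle
  have hρpos : 0 < ρ := nm_pos.mpr (sub_ne_zero.mpr hω1.symm)
  -- every root is far from `1`
  have hfar : ∀ ζ ∈ Polynomial.nthRootsFinset p (1 : FQb), ρ ≤ nm p (1 - ζ * δ) := by
    intro ζ hζ
    rw [Polynomial.mem_nthRootsFinset hp.pos] at hζ
    by_contra hcon
    rw [not_le] at hcon
    have hη : σ (ζ * δ) = ω * (ζ * δ) := by
      rw [map_mul, hμ ζ hζ, hωdef]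
      field_simp
    have h1 : nm p (1 - σ (ζ * δ)) < ρ := by
      have : (1 : FQb) - σ (ζ * δ) = σ (1 - ζ * δ) := by rw [map_sub, map_one]
      rw [this, nm_dec hσ]
      exact hcon
    have h2 : nm p (ζ * δ - σ (ζ * δ)) < ρ := by
      have : ζ * δ - σ (ζ * δ) = (1 - σ (ζ * δ)) - (1 - ζ * δ) := by ring
      rw [this]
      exact nm_sub_lt_of h1 hcon
    rw [hη, show ζ * δ - ω * (ζ * δ) = (1 - ω) * (ζ * δ) by ring, nm_mul] at h2
    have h3 : nm p (ζ * δ) = 1 := by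
      have h4 : (ζ * δ) ^ p = 1 + ε := by rw [mul_pow, hζ, one_mul, hδ]
      have h5 : nm p (1 + ε) = 1 := by
        have := nm_eq_of_sub_lt' (p := p) (x := 1) (y := 1 + ε) (by
          rw [nm_one, show (1 : FQb) - (1 + ε) = -ε by ring, nm_neg]
          exact hle.trans_lt (pow_lt_one₀ (nm_nonneg _) (nm_p_lt_one p) two_ne_zero))
        rw [← this, nm_one]
      have h6 : nm p (ζ * δ) ^ p = 1 := by rw [← nm_pow, h4, h5]
      exact (pow_eq_one_iff_of_nonneg (nm_nonneg _) hp.ne_zero).mp h6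
    rw [h3, mul_one] at h2
    exact lt_irrefl _ h2
  have hprod : nm p ε = ∏ ζ ∈ Polynomial.nthRootsFinset p (1 : FQb), nm p (1 - ζ * δ) := by
    have h1 := hprim.pow_sub_pow_eq_prod_sub_mul (1 : FQb) δ hp.pos
    rw [one_pow, hδ, show (1 : FQb) - (1 + ε) = -ε by ring] at h1
    rw [← nm_neg, h1]
    simp only [nm]
    rw [map_prod, norm_prod]
  have h1 : ρ ^ p ≤ nm p ε := by
    rw [hprod]
    calc ρ ^ p = ∏ _ζ ∈ Polynomial.nthRootsFinset p (1 : FQb), ρ := by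
          rw [Finset.prod_const, hprim.card_nthRootsFinset]
      _ ≤ _ := Finset.prod_le_prod (fun _ _ => hρpos.le) hfar
  have h2 : ρ * nm p (p : FQb) ≤ nm p (p : FQb) ^ 2 := by
    calc ρ * nm p (p : FQb) ≤ ρ * ρ ^ (p - 1) := mul_le_mul_of_nonneg_left hρle hρpos.le
      _ = ρ ^ p := by rw [← pow_succ', Nat.sub_add_cancel hp.one_le]
      _ ≤ _ := h1.trans hle
  have h3 : ρ ≤ nm p (p : FQb) := by
    rw [sq] at h2
    exact le_of_mul_le_mul_right h2 (nm_p_pos p)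
  have hρlt : ρ < 1 := h3.trans_lt (nm_p_lt_one p)
  have h4 : ρ ^ (p - 1) ≤ ρ ^ 2 := pow_le_pow_of_le_one hρpos.le hρ1 (by omega)
  have h5 : ρ ^ 2 < ρ := by
    rw [sq]
    exact mul_lt_of_lt_one_left hρpos hρlt
  linarith

end Fermat.Agent.H95.K3
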