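import Mathlib
import Fermat.Agent.H95K3Unit
import Fermat.Agent.H95K3Count
import Fermat.Agent.H33Cyclo
import Fermat.Agent.H54TotRam

/-!
# S56-[B4], K3: cocycles whose Kummer classes are units on inertia

`card_unitCoc_le`: `D` the decomposition group at `p`, `θ : D → k^×` a character with
`θ = χ` (cyclotomic) on inertia. A group `Z` of cocycles `b : D → k(θ)` such that for every additive
character `ψ` of `k` there is a unit `α` with `σ α = ψ (b σ) α` for `σ` in inertia, has at most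
`|k|^2` elements.
-/

set_option autoImplicit false

noncomputable section

namespace Fermat.Agent.H95.K3

open Fermat.Agent.H64 ExtCitation

variable {p : ℕ} [Fact p.Prime]

/-- `α` is a unit with Kummer cocycle `f` on inertia -/
def Kum (p : ℕ) [Fact p.Prime] (f : Dp p → FQb) (α : FQb) : Prop :=
  nm p α = 1 ∧ ∀ σ : Dp p, (σ : FGQ) ∈ Ip p → (σ : FGQ) α = f σ * α

theorem Kum.ne_zero {f : Dp p → FQb} {α : FQb} (h : Kum p f α) : α ≠ 0 := by
  rintro rfl
  have := h.1
  rw [nm_zero] at this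
  exact zero_ne_one this

theorem Kum.mul {f f' : Dp p → FQb} {α α' : FQb} (h : Kum p f α) (h' : Kum p f' α') :
    Kum p (fun σ => f σ * f' σ) (α * α') := by
  refine ⟨by rw [nm_mul, h.1, h'.1, one_mul], fun σ hσ => ?_⟩
  rw [map_mul, h.2 σ hσ, h'.2 σ hσ]
  ring

theorem mem_Dp_of_Ip {σ : FGQ} (h : σ ∈ Ip p) : σ ∈ Dp p := Ip_le_Dp h

/-- the `p`-th power of a generator is fixed by inertia -/
theorem Kum.fixI {f : Dp p → FQb} (hf : ∀ σ, f σ ^ p = 1) {α : FQb} (h : Kum p f α) :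
    FixI p (α ^ p) := by
  intro σ hσ
  rw [map_pow, h.2 ⟨σ, mem_Dp_of_Ip hσ⟩ hσ, mul_pow, hf, one_mul]

theorem Kum.exists_isDL {f : Dp p → FQb} (hf : ∀ σ, f σ ^ p = 1) {α : FQb} (h : Kum p f α) :
    ∃ u : Kap p, IsDL (α ^ p) u :=
  FixI.exists_isDL (h.fixI hf) (by rw [nm_pow, h.1, one_pow])

/-- the class does not depend on the generator -/
theorem Kum.unique {f : Dp p → FQb} (hf : ∀ σ, f σ ^ p = 1) {α α' : FQb} (h : Kum p f α)
    (h' : Kum p f α') {u u' : Kap p} (hu : IsDL (α ^ p) u) (hu' : IsDL (α' ^ p) u') : u = u' := by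
  have hfix : FixI p (α / α') := by
    intro σ hσ
    have hf0 : f ⟨σ, mem_Dp_of_Ip hσ⟩ ≠ 0 := by
      intro h0
      have := hf ⟨σ, mem_Dp_of_Ip hσ⟩
      rw [h0, zero_pow (Fact.out : p.Prime).ne_zero] at this
      exact zero_ne_one this
    rw [map_div₀, h.2 ⟨σ, mem_Dp_of_Ip hσ⟩ hσ, h'.2 ⟨σ, mem_Dp_of_Ip hσ⟩ hσ,
      mul_div_mul_left _ _ hf0]
  obtain ⟨v, hv⟩ := FixI.exists_isDL hfix (by rw [nm_div, h.1, h'.1, div_one])
  have h1 := hv.pow_p.mul hu'
  have e1 : (α / α') ^ p * α' ^ p = α ^ p := by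
    rw [← mul_pow, div_mul_cancel₀ _ h'.ne_zero]
  rw [e1, zero_add] at h1
  exact hu.unique h1

/-- if the class is trivial, the Kummer cocycle is trivial on the elements of inertia which fix the
`p`-th roots of unity -/
theorem Kum.eq_one (hp2 : p ≠ 2) {f : Dp p → FQb} (hf : ∀ σ, f σ ^ p = 1) {α : FQb}
    (h : Kum p f α) (h0 : IsDL (α ^ p) (0 : Kap p)) {σ : Dp p} (hσ : (σ : FGQ) ∈ Ip p)
    (hμ : ∀ ω : FQb, ω ^ p = 1 → (σ : FGQ) ω = ω) : f σ = 1 := by
  obtain ⟨τ, w, hτ, hτ0, hw, hκ, hu⟩ := h0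
  have hfixκ := h.fixI hf
  obtain ⟨ξ, hξ, hξτ⟩ := hτ.exists_root
  have hξ0 : ξ ≠ 0 := by
    rintro rfl
    rw [zero_pow (Fact.out : p.Prime).ne_zero] at hξτ
    exact hτ0 hξτ.symm
  have hwfix : FixI p w := by
    intro s hs
    have h1 := hfixκ s hs
    rw [hκ, map_mul, hτ.inertia hs, map_add, map_mul, map_one, map_natCast] at h1
    have h2 := mul_left_cancel₀ hτ0 h1
    exact mul_left_cancel₀ natCast_p_ne_zero (add_left_cancel h2)
  have hwlt : nm p w < 1 := (rs_eq_zero_iff hw).mp hu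
  have hwle := hwfix.nm_le_p_of_lt hwlt
  have hδ : (α / ξ) ^ p = 1 + p * w := by
    rw [div_pow, hκ, hξτ, mul_div_cancel_left₀ _ hτ0]
  have h1 := apply_root_eq hp2 (mem_Dp_of_Ip hσ) hμ (ε := (p : FQb) * w)
    (by rw [map_mul, map_natCast, hwfix _ hσ])
    (by rw [nm_mul, sq]; exact mul_le_mul_of_nonneg_left hwle (nm_nonneg _)) hδ
  rw [map_div₀, hξ.inertia hσ, h.2 σ hσ, div_left_inj' hξ0] at h1
  exact mul_right_cancel₀ h.ne_zero (by rw [h1, one_mul])

section Cocycle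

variable {k : Type} [Field k] [Finite k] [Algebra (ZMod p) k]

include p in
omit [Finite k] in
variable (p k) in
/-- a nontrivial additive character of `k` with values in `ℚ̄` -/
theorem exists_char : ∃ ψ : AddChar k FQb, ∃ x, ψ x ≠ 1 := by
  have : NeZero p := ⟨(Fact.out : p.Prime).ne_zero⟩
  obtain ⟨ζ, hζ⟩ := HasEnoughRootsOfUnity.exists_primitiveRoot FQb p
  obtain ⟨l, hl⟩ : ∃ l : k →ₗ[ZMod p] ZMod p, l 1 ≠ 0 := by
    by_contra hcon
    push Not at hcon
    exact one_ne_zero ((Module.forall_dual_apply_eq_zero_iff (ZMod p) (1 : k)).mp hcon)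
  refine ⟨(AddChar.zmodChar p hζ.pow_eq_one).compAddMonoidHom l.toAddMonoidHom, 1, ?_⟩
  rw [AddChar.compAddMonoidHom_apply]
  intro h
  have h1 := AddChar.zmodChar_primitive_of_primitive_root p hζ
  have h2 : (AddChar.zmodChar p hζ.pow_eq_one) (l 1) = ζ ^ (l 1).val := AddChar.zmodChar_apply _ _
  have h3 : ζ ^ (l 1).val = 1 := by rw [← h2]; exact h
  have h4 := hζ.dvd_of_pow_eq_one ((l 1).val) h3
  have h5 := Nat.eq_zero_of_dvd_of_lt h4 (ZMod.val_lt _)
  exact hl ((ZMod.val_eq_zero _).mp h5)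

omit [Finite k] in
theorem char_pow (ψ : AddChar k FQb) (x : k) : ψ x ^ p = 1 := by
  rw [← AddChar.map_nsmul_eq_pow]
  have h : (p • x : k) = 0 := by
    rw [nsmul_eq_mul]
    have : (p : k) = 0 := by
      have := map_natCast (algebraMap (ZMod p) k) p
      rw [ZMod.natCast_self, map_zero] at this
      exact this.symm
    rw [this, zero_mul]
  rw [h, AddChar.map_zero_eq_one]

variable (k) in
/-- the mod `p` cyclotomic character with values in `k` -/
def chk (σ : FGQ) : k := algebraMap (ZMod p) k (cycloChar p σ : ZMod p)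

omit [Finite k] in
theorem chk_ne_zero (σ : FGQ) : chk (p := p) k σ ≠ 0 := by
  rw [chk, map_ne_zero]
  exact (cycloChar p σ).ne_zero

omit [Finite k] in
/-- Galois action on values of characters -/
theorem apply_char (ψ : AddChar k FQb) (σ : FGQ) (x : k) :
    σ (ψ x) = ψ (chk (p := p) k σ * x) := by
  rw [H54.cycloChar_spec p σ (char_pow (p := p) ψ x), ← AddChar.map_nsmul_eq_pow, chk]
  congr 1
  rw [nsmul_eq_mul]
  congr 1
  rw [← map_natCast (algebraMap (ZMod p) k), ZMod.natCast_zmod_val]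

/-- the group data of K3 -/
structure UC (p : ℕ) [Fact p.Prime] (k : Type) [Field k] [Algebra (ZMod p) k]
    (θ : Dp p → k) (Z : AddSubgroup (Dp p → k)) : Prop where
  ne_zero : ∀ σ, θ σ ≠ 0
  mul : ∀ σ τ, θ (σ * τ) = θ σ * θ τ
  inertia : ∀ σ : Dp p, (σ : FGQ) ∈ Ip p → θ σ = chk (p := p) k (σ : FGQ)
  coc : ∀ b ∈ Z, ∀ σ τ, b (σ * τ) = θ σ * b τ + b σ
  unit : ∀ b ∈ Z, ∀ ψ : AddChar k FQb, ∃ α, Kum p (fun σ => ψ (b σ)) α

variable {θ : Dp p → k} {Z : AddSubgroup (Dp p → k)}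

omit [Finite k] in
theorem UC.one (h : UC p k θ Z) : θ 1 = 1 := by
  have := h.mul 1 1
  rw [mul_one] at this
  exact (mul_eq_left₀ (h.ne_zero 1)).mp this.symm

omit [Finite k] in
theorem UC.inv (h : UC p k θ Z) (σ : Dp p) : θ σ⁻¹ = (θ σ)⁻¹ := by
  have := h.mul σ σ⁻¹
  rw [mul_inv_cancel, h.one] at this
  exact eq_inv_of_mul_eq_one_right this.symm

omit [Finite k] in
theorem UC.coc_one (h : UC p k θ Z) {b : Dp p → k} (hb : b ∈ Z) : b 1 = 0 := by
  have := h.coc b hb 1 1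
  rw [mul_one, h.one, one_mul] at this
  exact left_eq_add.mp this

omit [Finite k] in
theorem UC.coc_inv (h : UC p k θ Z) {b : Dp p → k} (hb : b ∈ Z) (σ : Dp p) :
    b σ⁻¹ = -(θ σ)⁻¹ * b σ := by
  have := h.coc b hb σ⁻¹ σ
  rw [inv_mul_cancel, h.coc_one hb, h.inv] at this
  linear_combination -this

/-- conjugation of inertia by Frobenius -/
theorem conj_mem_Ip {τ σ : FGQ} (hτ : τ ∈ Dp p) (hσ : σ ∈ Ip p) : τ⁻¹ * σ * τ ∈ Ip p := by
  rw [mem_Ip_iff]
  refine ⟨mul_mem (mul_mem (inv_mem hτ) (mem_Dp_of_Ip hσ)) hτ, fun x hx => ?_⟩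
  have h1 : (τ⁻¹ * σ * τ) x - x = τ⁻¹ (σ (τ x) - τ x) := by
    rw [map_sub]
    simp [AlgEquiv.mul_apply, AlgEquiv.aut_inv]
  rw [h1, nm_dec (inv_mem hτ)]
  exact nm_inertia hσ (by rw [nm_dec hτ]; exact hx)

/-- the Frobenius element of `D` -/
def fr (p : ℕ) [Fact p.Prime] : Dp p := ⟨frob p, frob_mem⟩

omit [Finite k] in
theorem chk_mul (σ τ : FGQ) : chk (p := p) k (σ * τ) = chk (p := p) k σ * chk (p := p) k τ := by
  rw [chk, map_mul, Units.val_mul, map_mul]
  rfl

omit [Finite k] in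
theorem chk_conj (τ σ : FGQ) : chk (p := p) k (τ⁻¹ * σ * τ) = chk (p := p) k σ := by
  have h1 : chk (p := p) k (τ * (τ⁻¹ * σ * τ)) = chk (p := p) k (σ * τ) := by
    congr 1
    group
  rw [chk_mul, chk_mul (k := k) σ τ, mul_comm] at h1
  exact mul_right_cancel₀ (chk_ne_zero τ) h1

omit [Finite k] in
/-- transport of a Kummer generator by Frobenius -/
theorem UC.kum_frob (h : UC p k θ Z) {b : Dp p → k} (hb : b ∈ Z) (ψ : AddChar k FQb) {α : FQb}
    (hα : Kum p (fun σ => ψ (b σ)) α) :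
    Kum p (fun σ => ψ ((chk (p := p) k (frob p) / θ (fr p)) * b σ))
      (ψ (-(chk (p := p) k (frob p) / θ (fr p)) * b (fr p)) * frob p α) := by
  set m := chk (p := p) k (frob p) / θ (fr p) with hm
  have hθ0 := h.ne_zero (fr p)
  constructor
  · rw [nm_mul, nm_dec frob_mem, hα.1, mul_one]
    have h1 : nm p (ψ (-m * b (fr p))) ^ p = 1 := by rw [← nm_pow, char_pow, nm_one]
    exact (pow_eq_one_iff_of_nonneg (nm_nonneg _) (Fact.out : p.Prime).ne_zero).mp h1
  · intro σ hσ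
    have hσ' : (frob p)⁻¹ * (σ : FGQ) * frob p ∈ Ip p := conj_mem_Ip frob_mem hσ
    have h1 : (((fr p)⁻¹ * σ * fr p : Dp p) : FGQ) α = ψ (b ((fr p)⁻¹ * σ * fr p)) * α :=
      hα.2 ((fr p)⁻¹ * σ * fr p) hσ'
    have hb1 : b ((fr p)⁻¹ * σ * fr p) = (θ (fr p))⁻¹ * (b σ + (θ σ - 1) * b (fr p)) := by
      rw [mul_assoc, h.coc b hb, h.coc b hb, h.coc_inv hb, h.inv]
      ring
    rw [hb1] at h1
    have h2 : (σ : FGQ) (frob p α) = frob p (((frob p)⁻¹ * (σ : FGQ) * frob p) α) := by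
      simp [AlgEquiv.mul_apply, AlgEquiv.aut_inv]
    have h3 : (((fr p)⁻¹ * σ * fr p : Dp p) : FGQ) = (frob p)⁻¹ * (σ : FGQ) * frob p := rfl
    rw [h3] at h1
    show (σ : FGQ) (ψ (-m * b (fr p)) * frob p α) = ψ (m * b σ) * (ψ (-m * b (fr p)) * frob p α)
    have e1 : ψ (chk (p := p) k (σ : FGQ) * (-m * b (fr p))) *
        ψ (chk (p := p) k (frob p) * ((θ (fr p))⁻¹ * (b σ + (θ σ - 1) * b (fr p)))) =
        ψ (m * b σ) * ψ (-m * b (fr p)) := by
      rw [← AddChar.map_add_eq_mul, ← AddChar.map_add_eq_mul]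
      congr 1
      rw [h.inertia σ hσ, hm]
      field_simp
      ring
    rw [map_mul (σ : FGQ), h2, h1, map_mul (frob p), apply_char (p := p), apply_char (p := p),
      ← mul_assoc, e1, mul_assoc]

omit [Finite k] in
theorem chk_eq_one_iff {σ : FGQ} (h : chk (p := p) k σ = 1) (ω : FQb) (hω : ω ^ p = 1) :
    σ ω = ω := by
  have h1 : (cycloChar p σ : ZMod p) = 1 := by
    apply (algebraMap (ZMod p) k).injective
    rw [map_one]
    exact h
  rw [H54.cycloChar_spec p σ hω, h1, ZMod.val_one, pow_one]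

variable (p k) in
omit [Finite k] in
theorem exists_inertia_ne (hp2 : p ≠ 2) : ∃ σ : Dp p, (σ : FGQ) ∈ Ip p ∧ chk (p := p) k (σ : FGQ) ≠ 1 := by
  have hp : p.Prime := Fact.out
  have : NeZero p := ⟨hp.ne_zero⟩
  obtain ⟨σ, hσ, h⟩ := H33.exists_inertia_cyclo (H54.liesOverPrime_padicPlace p) 2 (by
    intro h
    exact hp2 ((Nat.prime_dvd_prime_iff_eq hp Nat.prime_two).mp h))
  refine ⟨⟨σ, mem_Dp_of_Ip hσ⟩, hσ, ?_⟩
  intro h1
  obtain ⟨ζ, hζ⟩ := HasEnoughRootsOfUnity.exists_primitiveRoot FQb p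
  have h2 := chk_eq_one_iff h1 ζ hζ.pow_eq_one
  have h3 : ζ ^ 2 = ζ := (h ζ hζ.pow_eq_one).symm.trans h2
  have h4 : ζ = 1 := by
    have h5 : ζ * ζ = ζ * 1 := by rw [← sq, h3, mul_one]
    exact mul_left_cancel₀ (hζ.ne_zero hp.ne_zero) h5
  exact hζ.ne_one hp.one_lt h4

omit [Finite k] in
/-- a cocycle which vanishes on the kernel of `χ` on inertia is a coboundary -/
theorem UC.exists_coboundary (hp2 : p ≠ 2) (h : UC p k θ Z) {b : Dp p → k} (hb : b ∈ Z)
    (h0 : ∀ σ : Dp p, (σ : FGQ) ∈ Ip p → chk (p := p) k (σ : FGQ) = 1 → b σ = 0) :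
    ∃ x, ∀ σ, b σ = (θ σ - 1) * x := by
  obtain ⟨s, hs, hs1⟩ := exists_inertia_ne p k hp2
  have hθs : θ s - 1 ≠ 0 := by
    rw [h.inertia s hs, sub_ne_zero]
    exact hs1
  refine ⟨b s / (θ s - 1), fun σ => ?_⟩
  -- compare `b (σ * s)` with `b ((σ * s * σ⁻¹) * σ)`
  set s' : Dp p := σ * s * σ⁻¹ with hs'
  have hs'I : (s' : FGQ) ∈ Ip p := by
    have := conj_mem_Ip (inv_mem σ.2) hs
    rw [inv_inv] at this
    exact this
  have hθs' : θ s' = θ s := by
    rw [hs', h.mul, h.mul, h.inv]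
    field_simp [h.ne_zero σ]
  -- `b s' = b s` since `s' = s * (element of the kernel)`
  have hbs' : b s' = b s := by
    have h1 : s' = s * (s⁻¹ * s') := by group
    have h2 : b (s⁻¹ * s') = 0 := by
      apply h0
      · exact mul_mem (inv_mem hs) hs'I
      · have h3 := h.inertia (s⁻¹ * s') (mul_mem (inv_mem hs) hs'I)
        rw [← h3, h.mul, h.inv, hθs', inv_mul_cancel₀ (h.ne_zero s)]
    rw [h1, h.coc b hb, h2, mul_zero, zero_add]
  have h1 : σ * s = s' * σ := by rw [hs']; group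
  have h2 : b (σ * s) = θ σ * b s + b σ := h.coc b hb σ s
  have h3 : b (σ * s) = θ s * b σ + b s := by rw [h1, h.coc b hb, hθs', hbs']
  rw [h2] at h3
  field_simp
  linear_combination -h3

/-- **K3**: the group of cocycles with unit classes has at most `|k|^2` elements -/
theorem UC.card_le (hp2 : p ≠ 2) (h : UC p k θ Z) :
    Finite Z ∧ Nat.card Z ≤ Nat.card k ^ 2 := by
  classical
  have hcharK : CharP (Kap p) p := by
    have h1 : ((p : ℕ) : Kap p) = 0 := by
      rw [← rs_natCast]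
      exact (rs_eq_zero_iff (nm_natCast_le_one p)).mpr (nm_p_lt_one p)
    have h2 := CharP.ringChar_of_prime_eq_zero (Fact.out : p.Prime) h1
    have h3 := ringChar.charP (Kap p)
    rwa [h2] at h3
  have hchark : CharP k p := charP_of_injective_algebraMap (algebraMap (ZMod p) k).injective p
  obtain ⟨ψ, x₀, hψ⟩ := exists_char p k
  let ψc : k → AddChar k FQb := fun c => ψ.mulShift c
  have hψc : ∀ c x, ψc c x = ψ (c * x) := fun c x => rfl
  choose α hα using fun (b : Z) (c : k) => h.unit b b.2 (ψc c)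
  choose U hU using fun (b : Z) (c : k) =>
    Kum.exists_isDL (fun σ => char_pow (ψc c) _) (hα b c)
  -- additivity
  have hUadd : ∀ (b : Z) (c c' : k), U b (c + c') = U b c + U b c' := by
    intro b c c'
    refine Kum.unique (fun σ => char_pow (ψc (c + c')) _) (hα b (c + c')) ?_ (hU b (c + c'))
      (by rw [mul_pow]; exact (hU b c).mul (hU b c'))
    convert (hα b c).mul (hα b c') using 2 with σ
    rw [hψc, hψc, hψc, add_mul, AddChar.map_add_eq_mul]
  let Uh : Z → (k →+ Kap p) := fun b =>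
    { toFun := U b
      map_zero' := by
        have := hUadd b 0 0
        rw [add_zero] at this
        exact left_eq_add.mp this
      map_add' := hUadd b }
  have hUb : ∀ (b b' : Z) (c : k), U (b - b') c = U b c - U b' c := by
    intro b b' c
    have key : U b c = U (b - b') c + U b' c := by
      refine Kum.unique (fun σ => char_pow (ψc c) _) (hα b c) ?_ (hU b c)
        (by rw [mul_pow]; exact (hU (b - b') c).mul (hU b' c))
      convert (hα (b - b') c).mul (hα b' c) using 2 with σ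
      rw [← AddChar.map_add_eq_mul]
      congr 1
      show (b : Dp p → k) σ = ((b : Dp p → k) σ - (b' : Dp p → k) σ) + (b' : Dp p → k) σ
      ring
    rw [key]; ring
  set m := chk (p := p) k (frob p) / θ (fr p) with hm
  have hUm : ∀ (b : Z) (c : k), U b (m * c) = U b c ^ p := by
    intro b c
    have h1 := h.kum_frob b.2 (ψc c) (hα b c)
    refine Kum.unique (fun σ => char_pow (ψc (m * c)) _) (hα b (m * c)) ?_ (hU b (m * c)) ?_
      (α' := ψc c (-m * (b : Dp p → k) (fr p)) * frob p (α b c))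
    · convert h1 using 2 with σ
      rw [hψc, hψc]
      congr 1
      ring
    · rw [mul_pow, char_pow, one_mul, ← map_pow]
      exact (hU b c).map_frob
  have hSL : ∀ b : Z, Uh b ∈ (SL p m : Set (k →+ Kap p)) := fun b c => hUm b c
  -- kernel
  have hker : ∀ b : Z, (∀ c, U b c = 0) → ∃ x, ∀ σ, (b : Dp p → k) σ = (θ σ - 1) * x := by
    intro b hb
    refine h.exists_coboundary hp2 b.2 fun σ hσ hχ => ?_
    by_contra hne
    have h1 : ∀ c, ψ (c * (b : Dp p → k) σ) = 1 := by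
      intro c
      have h2 := hU b c
      rw [hb c] at h2
      exact Kum.eq_one hp2 (fun σ => char_pow (ψc c) _) (hα b c) h2 hσ (chk_eq_one_iff hχ)
    have h2 := h1 (x₀ / (b : Dp p → k) σ)
    rw [div_mul_cancel₀ _ hne] at h2
    exact hψ h2
  -- the injection
  obtain ⟨hfin, hcard⟩ := finite_and_card_SL_le (p := p) (k := k) (κ := Kap p) m
  have hfin' : Finite ↥(SL p m : Set (k →+ Kap p)) := hfin
  let Φ : Z → ↥(SL p m : Set (k →+ Kap p)) := fun b => ⟨Uh b, hSL b⟩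
  let sec : Set.range Φ → Z := fun u => u.2.choose
  have hsec : ∀ u : Set.range Φ, Φ (sec u) = u := fun u => u.2.choose_spec
  have hdiff : ∀ b : Z, ∃ x, ∀ σ, (b : Dp p → k) σ =
      ((sec ⟨Φ b, b, rfl⟩ : Z) : Dp p → k) σ + (θ σ - 1) * x := by
    intro b
    obtain ⟨x, hx⟩ := hker (b - sec ⟨Φ b, b, rfl⟩) (by
      intro c
      have h1 := hsec ⟨Φ b, b, rfl⟩
      have h2 : U (sec ⟨Φ b, b, rfl⟩) c = U b c := by
        have h3 := congrArg (fun F : ↥(SL p m : Set (k →+ Kap p)) => (F : k →+ Kap p) c) h1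
        exact h3
      rw [hUb, h2, sub_self])
    refine ⟨x, fun σ => ?_⟩
    rw [← hx σ]
    show (b : Dp p → k) σ = _ + ((b : Dp p → k) σ - _)
    ring
  choose X hX using hdiff
  let E : Z → ↥(SL p m : Set (k →+ Kap p)) × k := fun b => (Φ b, X b)
  have hE : Function.Injective E := by
    intro b b' hbb
    have h1 : Φ b = Φ b' := congrArg Prod.fst hbb
    have h2 : X b = X b' := congrArg Prod.snd hbb
    apply Subtype.ext
    funext σ
    rw [hX b σ, hX b' σ, h2]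
    congr 1
    have h3 : (⟨Φ b, b, rfl⟩ : Set.range Φ) = ⟨Φ b', b', rfl⟩ := Subtype.ext h1
    rw [h3]
  refine ⟨Finite.of_injective E hE, ?_⟩
  calc Nat.card Z ≤ Nat.card (↥(SL p m : Set (k →+ Kap p)) × k) :=
        Nat.card_le_card_of_injective E hE
    _ = Nat.card ↥(SL p m : Set (k →+ Kap p)) * Nat.card k := Nat.card_prod _ _
    _ ≤ Nat.card k * Nat.card k := Nat.mul_le_mul_right _ hcard
    _ = Nat.card k ^ 2 := (sq _).symm

end Cocycle

end Fermat.Agent.H95.K3
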