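import Mathlib
import Fermat.Agent.H95K3Coc
import Fermat.Agent.H64FK2
import Fermat.Agent.H81Ord3
import Fermat.Agent.H28LocUT

set_option autoImplicit false
set_option maxSynthPendingDepth 3

/-!
# S56-[B4], K3: the local bound for flat lifts in the ordinary case
-/

noncomputable section

namespace Fermat.Agent.H95.K3

open Fermat.Agent.H55 Fermat.Agent.H56 Fermat.Agent.H64 ExtCitation
open IsLocalRing
open Fermat.Agent.H53 (M2 MCont ofMatrix)

section Conj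

variable {k : Type} [Field k] {u : (M2 k)ˣ}

/-- conjugation by `u⁻¹` -/
def cj (u : (M2 k)ˣ) (X : M2 k) : M2 k := (↑u⁻¹ : M2 k) * X * (u : M2 k)

theorem cj_mul (X Y : M2 k) : cj u (X * Y) = cj u X * cj u Y := by
  unfold cj
  calc (↑u⁻¹ : M2 k) * (X * Y) * (u : M2 k) = (↑u⁻¹ : M2 k) * X * 1 * Y * (u : M2 k) := by
        noncomm_ring
    _ = (↑u⁻¹ : M2 k) * X * ((u : M2 k) * (↑u⁻¹ : M2 k)) * Y * (u : M2 k) := by
        rw [Units.mul_inv]
    _ = _ := by noncomm_ring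

theorem cj_add (X Y : M2 k) : cj u (X + Y) = cj u X + cj u Y := by
  unfold cj; noncomm_ring

theorem cj_sub (X Y : M2 k) : cj u (X - Y) = cj u X - cj u Y := by
  unfold cj; noncomm_ring

@[simp] theorem cj_zero : cj u (0 : M2 k) = 0 := by
  unfold cj; noncomm_ring

@[simp] theorem cj_one : cj u (1 : M2 k) = 1 := by
  unfold cj; rw [mul_one, Units.inv_mul]

theorem cj_of_eq {X Y : M2 k} (h : X * u = u * Y) : cj u X = Y := by
  unfold cj
  rw [mul_assoc, h, Units.inv_mul_cancel_left]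

theorem cj_conj (Y : M2 k) : cj u ((u : M2 k) * Y * (↑u⁻¹ : M2 k)) = Y :=
  cj_of_eq (by rw [Units.inv_mul_cancel_right])

theorem cj_spec (X : M2 k) : X = (u : M2 k) * cj u X * (↑u⁻¹ : M2 k) := by
  unfold cj
  rw [← mul_assoc, ← mul_assoc, Units.mul_inv, one_mul, Units.mul_inv_cancel_right]

theorem cj_injective : Function.Injective (cj u) := by
  intro X Y h
  rw [cj_spec (u := u) X, h, ← cj_spec]

theorem trace_cj (X : M2 k) : (cj u X).trace = X.trace := by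
  unfold cj
  rw [Matrix.trace_mul_comm, ← mul_assoc, Units.mul_inv, one_mul]

theorem det_cj (X : M2 k) : (cj u X).det = X.det := by
  unfold cj
  rw [Matrix.det_mul, Matrix.det_mul, mul_right_comm, ← Matrix.det_mul, Units.inv_mul,
    Matrix.det_one, one_mul]

end Conj

variable (p : ℕ) [hp : Fact p.Prime] {k : Type} [Field k] [Algebra (ZMod p) k]

/-- triangular form of `R` on the decomposition group, `1` in the lower right corner on
inertia -/
def TriR (R : H91.GQ →* M2 (DualNumber k)) (g : M2 (DualNumber k)) : Prop :=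
  ∀ σ : Dq (pPrime p), ∃ A T Z : DualNumber k,
    R (σ : H91.GQ) * g = g * !![A, T; 0, Z] ∧ ((σ : H91.GQ) ∈ Iq (pPrime p) → Z = 1)

/-- residual triangular form -/
def TriK (r : H91.GQ →* M2 k) (u : M2 k) : Prop :=
  ∀ σ : Dq (pPrime p), ∃ a t z : k,
    r (σ : H91.GQ) * u = u * !![a, t; 0, z] ∧ ((σ : H91.GQ) ∈ Iq (pPrime p) → z = 1)

section Residual

variable {p} {r : H91.GQ →* M2 k} {u : (M2 k)ˣ}

theorem TriK.cj10 (h : TriK p r u) (σ : Dq (pPrime p)) : cj u (r (σ : H91.GQ)) 1 0 = 0 := by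
  obtain ⟨a, t, z, h1, -⟩ := h σ
  rw [cj_of_eq h1]
  rfl

theorem TriK.cj11 (h : TriK p r u) (σ : Dq (pPrime p)) (hσ : (σ : H91.GQ) ∈ Iq (pPrime p)) :
    cj u (r (σ : H91.GQ)) 1 1 = 1 := by
  obtain ⟨a, t, z, h1, h2⟩ := h σ
  rw [cj_of_eq h1, ← h2 hσ]
  rfl

theorem TriK.det (h : TriK p r u) (hdet : DetCyc p r) (σ : Dq (pPrime p)) :
    cj u (r (σ : H91.GQ)) 0 0 * cj u (r (σ : H91.GQ)) 1 1 = chk (p := p) k (σ : H91.GQ) := by
  have h1 := det_cj (u := u) (r (σ : H91.GQ))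
  rw [Matrix.det_fin_two, h.cj10 σ, mul_zero, sub_zero, hdet] at h1
  exact h1

theorem TriK.z_ne (h : TriK p r u) (hdet : DetCyc p r) (σ : Dq (pPrime p)) :
    cj u (r (σ : H91.GQ)) 1 1 ≠ 0 := by
  intro h0
  have := h.det hdet σ
  rw [h0, mul_zero] at this
  exact chk_ne_zero _ this.symm

theorem TriK.a_ne (h : TriK p r u) (hdet : DetCyc p r) (σ : Dq (pPrime p)) :
    cj u (r (σ : H91.GQ)) 0 0 ≠ 0 := by
  intro h0
  have := h.det hdet σ
  rw [h0, zero_mul] at this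
  exact chk_ne_zero _ this.symm

/-- the character `a / z` -/
def th (r : H91.GQ →* M2 k) (u : (M2 k)ˣ) (σ : Dp p) : k :=
  cj u (r (σ : H91.GQ)) 0 0 / cj u (r (σ : H91.GQ)) 1 1

theorem TriK.a_mul (h : TriK p r u) (σ τ : Dq (pPrime p)) :
    cj u (r ((σ * τ : Dq (pPrime p)) : H91.GQ)) 0 0 =
      cj u (r (σ : H91.GQ)) 0 0 * cj u (r (τ : H91.GQ)) 0 0 := by
  rw [Subgroup.coe_mul, map_mul, cj_mul, Matrix.mul_apply, Fin.sum_univ_two, h.cj10 τ, mul_zero,
    add_zero]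

theorem TriK.z_mul (h : TriK p r u) (σ τ : Dq (pPrime p)) :
    cj u (r ((σ * τ : Dq (pPrime p)) : H91.GQ)) 1 1 =
      cj u (r (σ : H91.GQ)) 1 1 * cj u (r (τ : H91.GQ)) 1 1 := by
  rw [Subgroup.coe_mul, map_mul, cj_mul, Matrix.mul_apply, Fin.sum_univ_two, h.cj10 σ, zero_mul,
    zero_add]

theorem rel_coc {f : Dq (pPrime p) → H56.SL p k}
    (hf : f ∈ Z1 (Dlev (pPrime p)) (rhoD (ad p r) (pPrime p))) (σ τ : Dq (pPrime p)) :
    (cj u (f (σ * τ) : M2 k) - cj u (f σ : M2 k)) * cj u (r (σ : H91.GQ)) =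
      cj u (r (σ : H91.GQ)) * cj u (f τ : M2 k) := by
  have h1 : (f (σ * τ) : M2 k) =
      r (σ : H91.GQ) * (f τ : M2 k) * r (σ : H91.GQ)⁻¹ + (f σ : M2 k) :=
    congrArg Subtype.val (hf.2 σ τ)
  rw [← cj_sub, ← cj_mul, ← cj_mul, h1, add_sub_cancel_right, mul_assoc, rinv_mul, mul_one]

theorem cj_trace (X : H56.SL p k) : cj u (X : M2 k) 0 0 = - cj u (X : M2 k) 1 1 := by
  have h1 := trace_cj (u := u) (X : M2 k)
  have h2 : (X : M2 k).trace = 0 := X.2
  rw [h2, Matrix.trace_fin_two] at h1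
  exact eq_neg_of_add_eq_zero_left h1

end Residual

variable {p} in
/-- cocycles which are upper triangular in the basis `u`, trivial on the diagonal on inertia, with
unit classes -/
def MM (r : H91.GQ →* M2 k) (u : (M2 k)ˣ) : Submodule (ZMod p) (Dq (pPrime p) → H56.SL p k) where
  carrier := {f | f ∈ Z1 (Dlev (pPrime p)) (rhoD (ad p r) (pPrime p)) ∧
    (∀ σ, cj u (f σ : M2 k) 1 0 = 0) ∧
    (∀ σ : Dq (pPrime p), (σ : H91.GQ) ∈ Iq (pPrime p) → cj u (f σ : M2 k) 1 1 = 0) ∧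
    ∀ ψ : AddChar k FQb, ∃ α : FQb, Kum p (fun σ => ψ (cj u (f σ : M2 k) 0 1)) α}
  zero_mem' := by
    refine ⟨Submodule.zero_mem _, fun σ => ?_, fun σ _ => ?_, fun ψ => ⟨1, nm_one, fun σ _ => ?_⟩⟩
    · show cj u (0 : M2 k) 1 0 = 0
      rw [cj_zero]; rfl
    · show cj u (0 : M2 k) 1 1 = 0
      rw [cj_zero]; rfl
    · show (σ : FGQ) (1 : FQb) = ψ (cj u (0 : M2 k) 0 1) * 1
      rw [cj_zero, map_one, Matrix.zero_apply, AddChar.map_zero_eq_one, one_mul]
  add_mem' := by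
    rintro f f' ⟨h1, h2, h3, h4⟩ ⟨h1', h2', h3', h4'⟩
    refine ⟨Submodule.add_mem _ h1 h1', fun σ => ?_, fun σ hσ => ?_, fun ψ => ?_⟩
    · show cj u ((f σ : M2 k) + (f' σ : M2 k)) 1 0 = 0
      rw [cj_add, Matrix.add_apply, h2, h2', add_zero]
    · show cj u ((f σ : M2 k) + (f' σ : M2 k)) 1 1 = 0
      rw [cj_add, Matrix.add_apply, h3 σ hσ, h3' σ hσ, add_zero]
    · obtain ⟨α, hα⟩ := h4 ψ
      obtain ⟨α', hα'⟩ := h4' ψ
      refine ⟨α * α', ?_⟩
      convert hα.mul hα' using 2 with σ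
      show ψ (cj u ((f σ : M2 k) + (f' σ : M2 k)) 0 1) = _
      rw [cj_add, Matrix.add_apply, AddChar.map_add_eq_mul]
  smul_mem' := by
    rintro a f ⟨h1, h2, h3, h4⟩
    have hs : ∀ X : M2 k, cj u (a • X) = a • cj u X := by
      intro X
      unfold cj
      rw [mul_smul_comm, smul_mul_assoc]
    refine ⟨Submodule.smul_mem _ a h1, fun σ => ?_, fun σ hσ => ?_, fun ψ => ?_⟩
    · show cj u (a • (f σ : M2 k)) 1 0 = 0
      rw [hs, Matrix.smul_apply, h2, smul_zero]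
    · show cj u (a • (f σ : M2 k)) 1 1 = 0
      rw [hs, Matrix.smul_apply, h3 σ hσ, smul_zero]
    · obtain ⟨α, hα⟩ := h4 (ψ.mulShift (algebraMap (ZMod p) k a))
      refine ⟨α, ?_⟩
      convert hα using 2 with σ
      show ψ (cj u (a • (f σ : M2 k)) 0 1) = _
      rw [hs, Matrix.smul_apply, Algebra.smul_def]
      rfl

variable {p} in
/-- the group of unit cocycles -/
def ZZ (θ : Dp p → k) : AddSubgroup (Dp p → k) where
  carrier := {b | (∀ σ τ, b (σ * τ) = θ σ * b τ + b σ) ∧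
    ∀ ψ : AddChar k FQb, ∃ α, Kum p (fun σ => ψ (b σ)) α}
  zero_mem' := ⟨fun σ τ => by simp, fun ψ => ⟨1, by simp, fun σ _ => by simp⟩⟩
  add_mem' := by
    rintro b b' ⟨h1, h2⟩ ⟨h1', h2'⟩
    refine ⟨fun σ τ => ?_, fun ψ => ?_⟩
    · rw [Pi.add_apply, Pi.add_apply, Pi.add_apply, h1, h1']
      ring
    · obtain ⟨α, hα⟩ := h2 ψ
      obtain ⟨α', hα'⟩ := h2' ψ
      refine ⟨α * α', ?_⟩
      convert hα.mul hα' using 2 with σ
      rw [Pi.add_apply, AddChar.map_add_eq_mul]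
  neg_mem' := by
    rintro b ⟨h1, h2⟩
    refine ⟨fun σ τ => ?_, fun ψ => ?_⟩
    · rw [Pi.neg_apply, Pi.neg_apply, Pi.neg_apply, h1]
      ring
    · obtain ⟨α, hα⟩ := h2 (ψ.mulShift (-1))
      refine ⟨α, ?_⟩
      convert hα using 2 with σ
      rw [AddChar.mulShift_apply, Pi.neg_apply, neg_one_mul]

section Count

variable {p} {r : H91.GQ →* M2 k} {u : (M2 k)ˣ}

theorem uc_th (h : TriK p r u) (hdet : DetCyc p r) :
    UC p k (th (p := p) r u) (ZZ (th (p := p) r u)) where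
  ne_zero σ := div_ne_zero (h.a_ne hdet σ) (h.z_ne hdet σ)
  mul σ τ := by
    have h1 := h.a_mul σ τ
    have h2 := h.z_mul σ τ
    exact (congrArg₂ (· / ·) h1 h2).trans (mul_div_mul_comm _ _ _ _)
  inertia σ hσ := by
    have h1 := h.det hdet σ
    have h2 := h.cj11 σ hσ
    rw [h2, mul_one] at h1
    exact (congrArg₂ (· / ·) h1 h2).trans (div_one _)
  coc b hb := hb.1
  unit b hb := hb.2

/-- the diagonal part of an upper triangular cocycle is a homomorphism -/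
theorem w_mul (h : TriK p r u) (hdet : DetCyc p r) {f : Dq (pPrime p) → H56.SL p k}
    (hf : f ∈ MM r u) (σ τ : Dq (pPrime p)) :
    cj u (f (σ * τ) : M2 k) 1 1 = cj u (f τ : M2 k) 1 1 + cj u (f σ : M2 k) 1 1 := by
  have h1 := congrFun (congrFun (rel_coc (u := u) hf.1 σ τ) 1) 1
  rw [Matrix.mul_apply, Matrix.mul_apply, Fin.sum_univ_two, Fin.sum_univ_two, Matrix.sub_apply,
    Matrix.sub_apply, h.cj10 σ, hf.2.1, hf.2.1] at h1
  apply mul_right_cancel₀ (h.z_ne hdet σ)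
  linear_combination h1

/-- the upper right entry -/
theorem s_mul (h : TriK p r u) {f : Dq (pPrime p) → H56.SL p k}
    (hf : f ∈ Z1 (Dlev (pPrime p)) (rhoD (ad p r) (pPrime p)))
    (hw : ∀ σ, cj u (f σ : M2 k) 1 1 = 0) (hdet : DetCyc p r) (σ τ : Dq (pPrime p)) :
    cj u (f (σ * τ) : M2 k) 0 1 = th (p := p) r u σ * cj u (f τ : M2 k) 0 1 +
      cj u (f σ : M2 k) 0 1 := by
  have h1 := congrFun (congrFun (rel_coc (u := u) hf σ τ) 0) 1
  rw [Matrix.mul_apply, Matrix.mul_apply, Fin.sum_univ_two, Fin.sum_univ_two, Matrix.sub_apply,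
    Matrix.sub_apply, cj_trace, cj_trace, hw, hw, hw] at h1
  have hz := h.z_ne hdet σ
  have hth : th (p := p) r u σ * cj u (r (σ : H91.GQ)) 1 1 = cj u (r (σ : H91.GQ)) 0 0 := by
    show cj u (r (σ : H91.GQ)) 0 0 / cj u (r (σ : H91.GQ)) 1 1 * _ = _
    rw [div_mul_cancel₀ _ hz]
  apply mul_right_cancel₀ hz
  linear_combination h1 - cj u (f τ : M2 k) 0 1 * hth

theorem w_eq_zero (h : TriK p r u) (hdet : DetCyc p r) {φ : H91.GQ}
    (hφ : (primeLocalPlace (pPrime p)).IsFrobeniusAt φ (pPrime p)) (hφD : φ ∈ Dq (pPrime p))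
    {f : Dq (pPrime p) → H56.SL p k} (hf : f ∈ MM r u) (h0 : cj u (f ⟨φ, hφD⟩ : M2 k) 1 1 = 0)
    (σ : Dq (pPrime p)) : cj u (f σ : M2 k) 1 1 = 0 := by
  have hc : (fun σ => cj u (f σ : M2 k) 1 1) ∈
      Z1 (Dlev (pPrime p)) (rhoD (1 : Representation (ZMod p) H91.GQ k) (pPrime p)) := by
    refine ⟨?_, fun σ τ => ?_⟩
    · obtain ⟨U, hU, h1⟩ := hf.1.1
      refine ⟨U, hU, fun g s hs => ?_⟩
      have h2 := h1 g s hs
      show cj u (f (g * s) : M2 k) 1 1 = cj u (f g : M2 k) 1 1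
      rw [h2]
    · exact w_mul h hdet hf σ τ
  have h1 := H28.eq_zero_of_frobenius hc hφ (fun σ hσ => by
    rw [H28.extD_of_mem _ (H28.Iq_le_Dq hσ)]
    exact hf.2.2.1 ⟨σ, H28.Iq_le_Dq hσ⟩ hσ) (by
    rw [H28.extD_of_mem _ hφD]
    exact h0)
  exact congrFun h1 σ

theorem sub_mem_ZZ (h : TriK p r u) (hdet : DetCyc p r)
    {f : Dq (pPrime p) → H56.SL p k} (hf : f ∈ MM r u)
    (hw : ∀ σ, cj u (f σ : M2 k) 1 1 = 0) :
    (fun σ => cj u (f σ : M2 k) 0 1 : Dp p → k) ∈ ZZ (th (p := p) r u) :=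
  ⟨fun σ τ => s_mul h hf.1 hw hdet σ τ, hf.2.2.2⟩

theorem card_MM [Finite k] (hp2 : p ≠ 2) (h : TriK p r u) (hdet : DetCyc p r) :
    Finite (MM (p := p) r u) ∧ Nat.card (MM (p := p) r u) ≤ Nat.card k ^ 3 := by
  classical
  obtain ⟨hfin, hcard⟩ := (uc_th h hdet).card_le hp2
  obtain ⟨φ, hφ⟩ := H54.exists_isFrobeniusAt (pPrime p).2 (H28.primeLocalPlace_liesOver (pPrime p))
  have hφD : φ ∈ Dq (pPrime p) := hφ.mem_decompositionSubgroup
  let W : MM (p := p) r u → k := fun f => cj u ((f : Dq (pPrime p) → H56.SL p k) ⟨φ, hφD⟩ : M2 k) 1 1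
  let sec : Set.range W → MM (p := p) r u := fun c => c.2.choose
  have hsec : ∀ c : Set.range W, W (sec c) = c := fun c => c.2.choose_spec
  have hsub : ∀ (X Y : H56.SL p k) (i j : Fin 2), cj u ((X - Y : H56.SL p k) : M2 k) i j =
      cj u (X : M2 k) i j - cj u (Y : M2 k) i j := by
    intro X Y i j
    show cj u ((X : M2 k) - (Y : M2 k)) i j = _
    rw [cj_sub, Matrix.sub_apply]
  have hdiff : ∀ f : MM (p := p) r u, ∀ σ : Dq (pPrime p),
      cj u (((f - sec ⟨W f, f, rfl⟩ : MM (p := p) r u) : Dq (pPrime p) → H56.SL p k) σ : M2 k) 1 1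
        = 0 := by
    intro f
    apply w_eq_zero h hdet hφ hφD (f - sec ⟨W f, f, rfl⟩ : MM (p := p) r u).2
    show cj u (((f : Dq (pPrime p) → H56.SL p k) ⟨φ, hφD⟩ -
      ((sec ⟨W f, f, rfl⟩ : MM (p := p) r u) : Dq (pPrime p) → H56.SL p k) ⟨φ, hφD⟩ : H56.SL p k) : M2 k) 1 1 = 0
    rw [hsub]
    exact sub_eq_zero.mpr (hsec ⟨W f, f, rfl⟩).symm
  let E : MM (p := p) r u → ↥(ZZ (th (p := p) r u)) × k := fun f =>
    (⟨_, sub_mem_ZZ h hdet (f - sec ⟨W f, f, rfl⟩ : MM (p := p) r u).2 (hdiff f)⟩, W f)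
  have hE : Function.Injective E := by
    intro f f' hff
    have h1 : W f = W f' := congrArg Prod.snd hff
    have h2 := congrArg (fun x : ↥(ZZ (th (p := p) r u)) × k => (x.1 : Dp p → k)) hff
    have h3 : (⟨W f, f, rfl⟩ : Set.range W) = ⟨W f', f', rfl⟩ := Subtype.ext h1
    have h4 : f - sec ⟨W f, f, rfl⟩ = f' - sec ⟨W f', f', rfl⟩ := by
      apply Subtype.ext
      funext σ
      apply Subtype.ext
      apply cj_injective (u := u)
      have e11 := hdiff f σ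
      have e11' := hdiff f' σ
      have e10 := (f - sec ⟨W f, f, rfl⟩ : MM (p := p) r u).2.2.1 σ
      have e10' := (f' - sec ⟨W f', f', rfl⟩ : MM (p := p) r u).2.2.1 σ
      have e01 := congrFun h2 σ
      ext i j
      fin_cases i <;> fin_cases j
      · show cj u _ 0 0 = cj u _ 0 0
        rw [cj_trace, cj_trace, e11, e11']
      · exact e01
      · exact e10.trans e10'.symm
      · exact e11.trans e11'.symm
    rw [h3] at h4
    exact sub_left_injective h4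
  refine ⟨Finite.of_injective E hE, ?_⟩
  calc Nat.card (MM (p := p) r u) ≤ Nat.card (↥(ZZ (th (p := p) r u)) × k) :=
        Nat.card_le_card_of_injective E hE
    _ = Nat.card ↥(ZZ (th (p := p) r u)) * Nat.card k := Nat.card_prod _ _
    _ ≤ Nat.card k ^ 2 * Nat.card k := Nat.mul_le_mul_right _ hcard
    _ = _ := by ring

end Count

section Units

variable {p}

/-- the off-diagonal entry of the triangular form has a unit class on inertia -/
theorem exists_kum {R : H91.GQ →* M2 (DualNumber k)} {n : ℕ}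
    {e : Fin n → (Fin 2 → DualNumber k) → FQb} {a : Fin n → Fin n → Fin n → ℚ}
    (hF : FData p (fun σ (x : Fin 2 → DualNumber k) => (R σ).mulVec x) n e a)
    (g : (M2 (DualNumber k))ˣ) (A T : FGQ → DualNumber k)
    (hT : ∀ σ ∈ Ip p, R σ * (g : M2 (DualNumber k)) = g * !![A σ, T σ; 0, 1])
    (hA : ∀ σ ∈ Ip p, A σ = TrivSqZeroExt.inl (chk (p := p) k σ))
    (l : DualNumber k →+ k) (hl : ∀ x c, l (TrivSqZeroExt.inl x * c) = x * l c)
    (ψ : AddChar k FQb) :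
    ∃ α : FQb, nm p α = 1 ∧ ∀ σ ∈ Ip p, σ α = ψ (l (T σ)) * α := by
  -- the line
  let e₁ : Fin 2 → DualNumber k := ![1, 0]
  let e₂ : Fin 2 → DualNumber k := ![0, 1]
  let gm : M2 (DualNumber k) := g
  let gi : M2 (DualNumber k) := ((g⁻¹ : (M2 (DualNumber k))ˣ) : M2 (DualNumber k))
  have hgi : gi * gm = 1 := g.inv_mul
  let W1 : AddSubgroup (Fin 2 → DualNumber k) :=
    { carrier := {y | ∃ c : DualNumber k, y = gm.mulVec (c • e₁)}
      zero_mem' := ⟨0, by rw [zero_smul, Matrix.mulVec_zero]⟩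
      add_mem' := by
        rintro _ _ ⟨c, rfl⟩ ⟨c', rfl⟩
        exact ⟨c + c', by rw [add_smul, Matrix.mulVec_add]⟩
      neg_mem' := by
        rintro _ ⟨c, rfl⟩
        exact ⟨-c, by rw [neg_smul, Matrix.mulVec_neg]⟩ }
  have hact1 : ∀ σ ∈ Ip p, ∀ c : DualNumber k,
      (R σ).mulVec (gm.mulVec (c • e₁)) = gm.mulVec ((A σ * c) • e₁) := by
    intro σ hσ c
    rw [Matrix.mulVec_mulVec, hT σ hσ, ← Matrix.mulVec_mulVec]
    congr 1
    ext1 i
    fin_cases i <;> simp [e₁, Matrix.mulVec, dotProduct, Fin.sum_univ_two]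
  have hact2 : ∀ σ ∈ Ip p, (R σ).mulVec (gm.mulVec e₂) - gm.mulVec e₂ = gm.mulVec (T σ • e₁) := by
    intro σ hσ
    rw [Matrix.mulVec_mulVec, hT σ hσ, ← Matrix.mulVec_mulVec, ← Matrix.mulVec_sub]
    congr 1
    ext1 i
    fin_cases i <;> simp [e₁, e₂, Matrix.mulVec, dotProduct, Fin.sum_univ_two]
  -- the character
  let lam : (Fin 2 → DualNumber k) →+ k :=
    { toFun := fun y => l ((gi.mulVec y) 0)
      map_zero' := by rw [Matrix.mulVec_zero, Pi.zero_apply, map_zero]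
      map_add' := fun x y => by rw [Matrix.mulVec_add, Pi.add_apply, map_add] }
  have hlam : ∀ c : DualNumber k, lam (gm.mulVec (c • e₁)) = l c := by
    intro c
    show l ((gi.mulVec (gm.mulVec (c • e₁))) 0) = l c
    rw [Matrix.mulVec_mulVec, hgi, Matrix.one_mulVec]
    congr 1
    simp [e₁]
  have hpW : ∀ x : Fin 2 → DualNumber k, p • x = 0 := by
    intro x
    ext1 i
    rw [Pi.smul_apply, nsmul_eq_mul, H81.natCast_p_dual, zero_mul]
    rfl
  obtain ⟨b, -, -, hb1, hb2⟩ := hF.exists_unit hpW (Ip p) W1 (gm.mulVec e₂)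
    (fun σ hσ => ⟨T σ, hact2 σ hσ⟩)
    (by
      rintro σ hσ _ ⟨c, rfl⟩
      exact ⟨A σ * c, hact1 σ hσ c⟩)
    (ψ.compAddMonoidHom lam) (by
      rintro σ hσ _ ⟨c, rfl⟩
      rw [AddChar.compAddMonoidHom_apply, AddChar.compAddMonoidHom_apply, hact1 σ hσ, hlam, hlam,
        apply_char (p := p), hA σ hσ, hl])
  refine ⟨_, hb1, fun σ hσ => ?_⟩
  have h1 := hb2 σ hσ
  rw [AddChar.compAddMonoidHom_apply, hact2 σ hσ, hlam] at h1
  exact h1

end Units

section LLsec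

variable {p} {r : H91.GQ →* M2 k} {u : (M2 k)ˣ}

/-- the off-diagonal entry of `r` has unit classes -/
def ResUnit (r : H91.GQ →* M2 k) (u : (M2 k)ˣ) : Prop :=
  ∀ ψ : AddChar k FQb, ∃ α : FQb, Kum p (fun σ => ψ (cj u (r (σ : H91.GQ)) 0 1)) α

theorem rel_d0 (X : H56.SL p k) (σ : Dq (pPrime p)) :
    (cj u (d0 (rhoD (ad p r) (pPrime p)) X σ : M2 k) + cj u (X : M2 k)) * cj u (r (σ : H91.GQ)) =
      cj u (r (σ : H91.GQ)) * cj u (X : M2 k) := by
  have h1 : (d0 (rhoD (ad p r) (pPrime p)) X σ : M2 k) =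
      r (σ : H91.GQ) * (X : M2 k) * r (σ : H91.GQ)⁻¹ - (X : M2 k) := by
    rw [d0_apply]
    rfl
  rw [← cj_add, ← cj_mul, ← cj_mul, h1, sub_add_cancel, mul_assoc, rinv_mul, mul_one]

/-- coboundaries of upper triangular matrices -/
theorem d0_borel (hr : FinLev r) (h : TriK p r u) (hdet : DetCyc p r)
    (hu : ResUnit (p := p) r u) {X : H56.SL p k} (hX : cj u (X : M2 k) 1 0 = 0) :
    d0 (rhoD (ad p r) (pPrime p)) X ∈ MM r u := by
  have h10 : ∀ σ, cj u (d0 (rhoD (ad p r) (pPrime p)) X σ : M2 k) 1 0 = 0 := by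
    intro σ
    have h1 := congrFun (congrFun (rel_d0 (r := r) (u := u) X σ) 1) 0
    rw [Matrix.mul_apply, Matrix.mul_apply, Fin.sum_univ_two, Fin.sum_univ_two, Matrix.add_apply,
      Matrix.add_apply, h.cj10 σ, hX] at h1
    apply (mul_eq_zero.mp (?_ : _ * cj u (r (σ : H91.GQ)) 0 0 = 0)).resolve_right (h.a_ne hdet σ)
    linear_combination h1
  have h11 : ∀ σ, cj u (d0 (rhoD (ad p r) (pPrime p)) X σ : M2 k) 1 1 = 0 := by
    intro σ
    have h1 := congrFun (congrFun (rel_d0 (r := r) (u := u) X σ) 1) 1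
    rw [Matrix.mul_apply, Matrix.mul_apply, Fin.sum_univ_two, Fin.sum_univ_two, Matrix.add_apply,
      Matrix.add_apply, h.cj10 σ, hX, h10 σ] at h1
    apply (mul_eq_zero.mp (?_ : _ * cj u (r (σ : H91.GQ)) 1 1 = 0)).resolve_right (h.z_ne hdet σ)
    linear_combination h1
  refine ⟨(H28.smooth_adD hr _).d0_mem_Z1 _, h10, fun σ _ => h11 σ, fun ψ => ?_⟩
  set s0 := cj u (X : M2 k) 0 1 with hs0
  set w0 := cj u (X : M2 k) 1 1 with hw0
  obtain ⟨α, hα⟩ := hu (ψ.mulShift (2 * w0))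
  refine ⟨ψ s0 * α, ?_, fun σ hσ => ?_⟩
  · have h1 : nm p (ψ s0) ^ p = 1 := by rw [← nm_pow, char_pow, nm_one]
    have h2 : nm p (ψ s0 * α) = 1 := by
      rw [nm_mul, hα.1,
        (pow_eq_one_iff_of_nonneg (nm_nonneg _) (Fact.out : p.Prime).ne_zero).mp h1, one_mul]
    exact h2
  · have e1 := congrFun (congrFun (rel_d0 (r := r) (u := u) X (σ : Dq (pPrime p))) 0) 1
    have e2 := cj_trace (u := u) X
    have e3 := cj_trace (u := u) (d0 (rhoD (ad p r) (pPrime p)) X σ)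
    rw [h11 σ, neg_zero] at e3
    have e4 := h.cj11 σ hσ
    have e5 := h.det hdet σ
    rw [e4, mul_one] at e5
    rw [Matrix.mul_apply, Matrix.mul_apply, Fin.sum_univ_two, Fin.sum_univ_two, Matrix.add_apply,
      Matrix.add_apply, e2, e3, e4, e5, ← hs0, ← hw0] at e1
    have e6 : cj u (d0 (rhoD (ad p r) (pPrime p)) X σ : M2 k) 0 1 =
        (chk (p := p) k (σ : H91.GQ) * s0 - s0) + 2 * w0 * cj u (r (σ : H91.GQ)) 0 1 := by
      linear_combination e1
    have e7 := hα.2 σ hσ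
    simp only [AddChar.mulShift_apply] at e7
    show (σ : FGQ) (ψ s0 * α) = ψ (cj u (d0 (rhoD (ad p r) (pPrime p)) X σ : M2 k) 0 1) * (ψ s0 * α)
    rw [e6, AddChar.map_add_eq_mul, map_mul, e7, apply_char (p := p)]
    have e8 : ψ (chk (p := p) k (σ : H91.GQ) * s0) =
        ψ (chk (p := p) k (σ : H91.GQ) * s0 - s0) * ψ s0 := by
      rw [← AddChar.map_add_eq_mul, sub_add_cancel]
    rw [e8]
    ring

variable (p) in
/-- the local condition -/
def LL (r : H91.GQ →* M2 k) (u : (M2 k)ˣ) : Submodule (ZMod p) (Dq (pPrime p) → H56.SL p k) :=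
  MM r u ⊔ B1 (rhoD (ad p r) (pPrime p))

theorem exists_of_mem_LL (hr : FinLev r) (h : TriK p r u) (hdet : DetCyc p r)
    (hu : ResUnit (p := p) r u) {f : Dq (pPrime p) → H56.SL p k} (hf : f ∈ LL p r u) :
    ∃ m ∈ MM r u, ∃ s : k, m + d0 (rhoD (ad p r) (pPrime p)) (H81.phim p u s) = f := by
  obtain ⟨m, hm, _, ⟨X, rfl⟩, rfl⟩ := Submodule.mem_sup.mp hf
  refine ⟨m + d0 (rhoD (ad p r) (pPrime p)) (X - H81.phim p u (cj u (X : M2 k) 1 0)),
    (MM r u).add_mem hm (d0_borel hr h hdet hu ?_), cj u (X : M2 k) 1 0, ?_⟩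
  · show cj u ((X : M2 k) - (u : M2 k) * !![0, 0; cj u (X : M2 k) 1 0, 0] * (↑u⁻¹ : M2 k)) 1 0 = 0
    rw [cj_sub, cj_conj, Matrix.sub_apply]
    simp
  · rw [map_sub]
    abel

theorem card_LL [Finite k] (hp2 : p ≠ 2) (hr : FinLev r) (h : TriK p r u) (hdet : DetCyc p r)
    (hu : ResUnit (p := p) r u) :
    Finite (LL p r u) ∧ Nat.card (LL p r u) ≤ Nat.card k ^ 4 := by
  obtain ⟨hfin, hcard⟩ := card_MM hp2 h hdet
  have hphim : ∀ s, d0 (rhoD (ad p r) (pPrime p)) (H81.phim p u s) ∈ LL p r u := fun s =>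
    Submodule.mem_sup_right ⟨_, rfl⟩
  let E : MM (p := p) r u × k → LL p r u := fun x =>
    ⟨x.1 + d0 (rhoD (ad p r) (pPrime p)) (H81.phim p u x.2),
      (LL p r u).add_mem (Submodule.mem_sup_left x.1.2) (hphim x.2)⟩
  have hE : Function.Surjective E := by
    rintro ⟨f, hf⟩
    obtain ⟨m, hm, s, rfl⟩ := exists_of_mem_LL hr h hdet hu hf
    exact ⟨(⟨m, hm⟩, s), rfl⟩
  refine ⟨Finite.of_surjective _ hE, ?_⟩
  calc Nat.card (LL p r u) ≤ Nat.card (MM (p := p) r u × k) := Nat.card_le_card_of_surjective _ hE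
    _ = Nat.card (MM (p := p) r u) * Nat.card k := Nat.card_prod _ _
    _ ≤ Nat.card k ^ 3 * Nat.card k := Nat.mul_le_mul_right _ hcard
    _ = _ := by ring

/-- data of a flat lift in the ordinary case -/
structure OrdFlat (p : ℕ) [Fact p.Prime] (R : H91.GQ →* M2 (DualNumber k)) (u : (M2 k)ˣ) :
    Prop where
  tri : ∃ g : M2 (DualNumber k), IsUnit g ∧ redM k g = u ∧ TriR p R g
  fdata : ∃ (n : ℕ) (e : Fin n → (Fin 2 → DualNumber k) → FQb) (a : Fin n → Fin n → Fin n → ℚ),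
    FData p (fun σ (x : Fin 2 → DualNumber k) => (R σ).mulVec x) n e a

variable {R : H91.GQ →* M2 (DualNumber k)}

/-- the triangular form on inertia, with functions -/
theorem OrdFlat.exists_fun (hdet : DetCyc p r) (hR : GoodLift r R) (h : OrdFlat p R u) :
    ∃ (g : (M2 (DualNumber k))ˣ) (A T : FGQ → DualNumber k), redM k (g : M2 (DualNumber k)) = u ∧
      TriR p R (g : M2 (DualNumber k)) ∧
      (∀ σ ∈ Ip p, R σ * (g : M2 (DualNumber k)) = g * !![A σ, T σ; 0, 1]) ∧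
      ∀ σ ∈ Ip p, A σ = TrivSqZeroExt.inl (chk (p := p) k σ) := by
  classical
  obtain ⟨g, ⟨g, rfl⟩, hgu, htri⟩ := h.tri
  have key : ∀ σ : FGQ, ∃ A T : DualNumber k, σ ∈ Ip p →
      R σ * (g : M2 (DualNumber k)) = g * !![A, T; 0, 1] := by
    intro σ
    by_cases hσ : σ ∈ Ip p
    · have hσD : σ ∈ Dq (pPrime p) := mem_Dp_of_Ip (p := p) hσ
      obtain ⟨A, T, Z, h1, h2⟩ := htri ⟨σ, hσD⟩
      refine ⟨A, T, fun _ => ?_⟩
      rw [← h2 hσ]
      exact h1
    · exact ⟨0, 0, fun h => absurd h hσ⟩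
  choose A T hAT using key
  refine ⟨g, A, T, hgu, htri, hAT, fun σ hσ => ?_⟩
  have h1 := congrArg Matrix.det (hAT σ hσ)
  rw [Matrix.det_mul, Matrix.det_mul, hR.det, hdet, Matrix.det_fin_two_of, mul_comm] at h1
  have h2 : IsUnit (g : M2 (DualNumber k)).det := (Matrix.isUnit_iff_isUnit_det _).mp g.isUnit
  have h3 := h2.mul_left_cancel h1
  rw [mul_zero, sub_zero, mul_one] at h3
  exact h3.symm

theorem OrdFlat.resUnit (hdet : DetCyc p r) (hR : GoodLift r R) (h : OrdFlat p R u) :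
    ResUnit (p := p) r u := by
  intro ψ
  obtain ⟨g, A, T, hgu, -, hT, hA⟩ := h.exists_fun hdet hR
  obtain ⟨n, e, a, hF⟩ := h.fdata
  obtain ⟨α, h1, h2⟩ := exists_kum hF g A T hT hA
    (TrivSqZeroExt.fstHom k k k).toRingHom.toAddMonoidHom (fun x c => by
      show (TrivSqZeroExt.inl x * c : DualNumber k).fst = x * c.fst
      rw [TrivSqZeroExt.fst_mul, TrivSqZeroExt.fst_inl]) ψ
  refine ⟨α, h1, fun σ hσ => ?_⟩
  have h3 := congrArg (redM k) (hT σ hσ)
  rw [map_mul, map_mul, hR.red, hgu, H81.redM_of] at h3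
  have h4 : cj u (r (σ : H91.GQ)) 0 1 = (T σ).fst := by
    rw [cj_of_eq h3]; rfl
  show (σ : FGQ) α = ψ (cj u (r (σ : H91.GQ)) 0 1) * α
  rw [h4]
  exact h2 σ hσ

theorem coc_mem_LL (hp2 : p ≠ 2) (hr : FinLev r) (hdet : DetCyc p r) (htri : TriK p r u)
    (hR : GoodLift r R) (h : OrdFlat p R u) {c : Dq (pPrime p) → H56.SL p k}
    (hc : ∀ σ, (c σ : M2 k) = coc R (σ : H91.GQ)) : c ∈ LL p r u := by
  obtain ⟨g, A, T, hgu, hg, hT, hA⟩ := h.exists_fun hdet hR
  obtain ⟨n, e, a, hF⟩ := h.fdata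
  have h20 : (2 : k) ≠ 0 := H81.two_ne_zero_k p hp2
  set Y : M2 k := sndM (g : M2 (DualNumber k)) * (↑u⁻¹ : M2 k) with hY
  have hGY : sndM (g : M2 (DualNumber k)) = Y * (u : M2 k) := by
    rw [hY, mul_assoc, Units.inv_mul, mul_one]
  let X : H56.SL p k := ⟨Y - (Y.trace / 2) • (1 : M2 k), by
    rw [mem_SL, Matrix.trace_sub, Matrix.trace_smul, Matrix.trace_one, Fintype.card_fin,
      smul_eq_mul]
    push_cast
    field_simp
    ring⟩
  have hd0 : ∀ σ : Dq (pPrime p), ((d0 (rhoD (ad p r) (pPrime p)) X σ : H56.SL p k) : M2 k) =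
      r (σ : H91.GQ) * Y * r (σ : H91.GQ)⁻¹ - Y := by
    intro σ
    rw [d0_apply]
    show r (σ : H91.GQ) * (Y - (Y.trace / 2) • (1 : M2 k)) * r (σ : H91.GQ)⁻¹ -
      (Y - (Y.trace / 2) • (1 : M2 k)) = _
    rw [mul_sub, sub_mul, mul_smul_comm, smul_mul_assoc, mul_one, rmul_inv]
    abel
  set f := c + d0 (rhoD (ad p r) (pPrime p)) X with hf
  -- the key relation
  have key : ∀ (σ : Dq (pPrime p)) (M : M2 (DualNumber k)),
      R (σ : H91.GQ) * (g : M2 (DualNumber k)) = g * M →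
      cj u (f σ : M2 k) * redM k M = sndM M := by
    intro σ M hM
    have hs := congrArg sndM hM
    have hrd := congrArg (redM k) hM
    rw [map_mul, map_mul, hR.red, hgu] at hrd
    rw [sndM_mul, sndM_mul, hR.red, hgu, sndM_eq_coc_mul, hR.red, hGY] at hs
    have h1 : (f σ : M2 k) = coc R (σ : H91.GQ) + (r (σ : H91.GQ) * Y * r (σ : H91.GQ)⁻¹ - Y) := by
      show (c σ : M2 k) + ((d0 (rhoD (ad p r) (pPrime p)) X σ : H56.SL p k) : M2 k) = _
      rw [hc, hd0]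
    have h2 : (f σ : M2 k) * r (σ : H91.GQ) * (u : M2 k) = (u : M2 k) * sndM M := by
      rw [h1]
      have e1 : r (σ : H91.GQ) * Y * r (σ : H91.GQ)⁻¹ * r (σ : H91.GQ) = r (σ : H91.GQ) * Y := by
        rw [mul_assoc, rinv_mul, mul_one]
      have e2 : (coc R (σ : H91.GQ) + (r (σ : H91.GQ) * Y * r (σ : H91.GQ)⁻¹ - Y)) *
          r (σ : H91.GQ) * (u : M2 k) = coc R (σ : H91.GQ) * r (σ : H91.GQ) * u +
          r (σ : H91.GQ) * Y * r (σ : H91.GQ)⁻¹ * r (σ : H91.GQ) * u -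
          Y * (r (σ : H91.GQ) * u) := by noncomm_ring
      rw [e2, e1, hrd, sub_eq_iff_eq_add]
      calc _ = r (σ : H91.GQ) * (Y * (u : M2 k)) + coc R (σ : H91.GQ) * r (σ : H91.GQ) * u := by
            noncomm_ring
        _ = _ := by rw [hs]; noncomm_ring
    have h3 : redM k M = cj u (r (σ : H91.GQ)) := (cj_of_eq hrd).symm
    rw [h3, ← cj_mul]
    exact cj_of_eq h2
  have h10 : ∀ σ : Dq (pPrime p), cj u (f σ : M2 k) 1 0 = 0 := by
    intro σ
    obtain ⟨A', T', Z', hM, -⟩ := hg σ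
    have h1 := congrFun (congrFun (key σ _ hM) 1) 0
    have h2 : redM k !![A', T'; 0, Z'] = cj u (r (σ : H91.GQ)) := by
      have hrd := congrArg (redM k) hM
      rw [map_mul, map_mul, hR.red, hgu] at hrd
      exact (cj_of_eq hrd).symm
    rw [h2, H81.sndM_of, Matrix.mul_apply, Fin.sum_univ_two, htri.cj10 σ, mul_zero,
      add_zero] at h1
    have h3 : cj u (f σ : M2 k) 1 0 * cj u (r (σ : H91.GQ)) 0 0 = 0 := by
      rw [h1]; simp
    exact (mul_eq_zero.mp h3).resolve_right (htri.a_ne hdet σ)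
  have hI : ∀ σ : Dq (pPrime p), (σ : H91.GQ) ∈ Iq (pPrime p) →
      cj u (f σ : M2 k) 1 1 = 0 ∧ cj u (f σ : M2 k) 0 1 = (T (σ : H91.GQ)).snd := by
    intro σ hσ
    have h1 := congrFun (congrFun (key σ _ (hT σ hσ)) 1) 1
    have h0 := congrFun (congrFun (key σ _ (hT σ hσ)) 0) 1
    rw [H81.sndM_of, H81.redM_of, Matrix.mul_apply, Fin.sum_univ_two] at h0 h1
    simp only [Matrix.of_apply, Matrix.cons_val', Matrix.cons_val_zero, Matrix.cons_val_one,
      Matrix.cons_val_fin_one, TrivSqZeroExt.fst_one, TrivSqZeroExt.snd_one, h10 σ, zero_mul,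
      zero_add, mul_one] at h0 h1
    have h2 := cj_trace (u := u) (f σ)
    rw [h1, neg_zero] at h2
    rw [h2, zero_mul, zero_add] at h0
    exact ⟨h1, h0⟩
  have hm : f ∈ MM r u := by
    refine ⟨Submodule.add_mem _ (H28.coc_mem_Z1 hR hc) ((H28.smooth_adD hr _).d0_mem_Z1 _),
      h10, fun σ hσ => ?_, fun ψ => ?_⟩
    · exact (hI σ hσ).1
    · obtain ⟨α, h1, h2⟩ := exists_kum hF g A T hT hA
        { toFun := TrivSqZeroExt.snd, map_zero' := rfl, map_add' := fun _ _ => rfl }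
        (fun x c => by
          show (TrivSqZeroExt.inl x * c : DualNumber k).snd = x * c.snd
          rw [TrivSqZeroExt.snd_mul, TrivSqZeroExt.fst_inl, TrivSqZeroExt.snd_inl]
          simp) ψ
      refine ⟨α, h1, fun σ hσ => ?_⟩
      show (σ : FGQ) α = ψ (cj u (f σ : M2 k) 0 1) * α
      rw [(hI σ hσ).2]
      exact h2 σ hσ
  have hc2 : c = f - d0 (rhoD (ad p r) (pPrime p)) X := by
    rw [hf]; abel
  rw [hc2]
  exact Submodule.sub_mem _ (Submodule.mem_sup_left hm) (Submodule.mem_sup_right ⟨X, rfl⟩)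

/-- **K3, final form: the local bound in the ordinary flat case** -/
theorem caseI_localBound [Finite k] (hp2 : p ≠ 2) (hr : FinLev r) (hdet : DetCyc p r)
    (htri : TriK p r u)
    (hR : ∀ R : H91.GQ →* M2 (DualNumber k), GoodLift r R →
      (∃ h : MCont (DualNumber k) R, (ofMatrix R h).IsFlatAt p) → OrdFlat p R u) :
    LocalBound p r (pPrime p) 4
      (fun R => ∃ h : MCont (DualNumber k) R, (ofMatrix R h).IsFlatAt p) := by
  by_cases hex : ∃ R : H91.GQ →* M2 (DualNumber k), GoodLift r R ∧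
      ∃ h : MCont (DualNumber k) R, (ofMatrix R h).IsFlatAt p
  · obtain ⟨R₀, hR₀, h₀⟩ := hex
    have hu := (hR R₀ hR₀ h₀).resUnit hdet hR₀
    obtain ⟨hfin, hcard⟩ := card_LL hp2 hr htri hdet hu
    refine ⟨LL p r u, le_sup_right, sup_le (fun f hf => hf.1) ?_, hfin, hcard, ?_⟩
    · rintro _ ⟨X, rfl⟩
      exact (H28.smooth_adD hr _).d0_mem_Z1 _
    · intro R hRR hflat c hc
      exact coc_mem_LL hp2 hr hdet htri hRR (hR R hRR hflat) hc
  · refine ⟨B1 (rhoD (ad p r) (pPrime p)), le_rfl, ?_, ?_, ?_, ?_⟩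
    · rintro _ ⟨X, rfl⟩
      exact (H28.smooth_adD hr _).d0_mem_Z1 _
    · have hs : Function.Surjective (fun X : H56.SL p k =>
          (⟨d0 (rhoD (ad p r) (pPrime p)) X, X, rfl⟩ : B1 (rhoD (ad p r) (pPrime p)))) := by
        rintro ⟨_, X, rfl⟩
        exact ⟨X, rfl⟩
      exact Finite.of_surjective _ hs
    · have hs : Function.Surjective (fun X : H56.SL p k =>
          (⟨d0 (rhoD (ad p r) (pPrime p)) X, X, rfl⟩ : B1 (rhoD (ad p r) (pPrime p)))) := by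
        rintro ⟨_, X, rfl⟩
        exact ⟨X, rfl⟩
      have h3 : Nat.card (H56.SL p k) = Nat.card k ^ 3 := natCard_traceZero k
      calc Nat.card (B1 (rhoD (ad p r) (pPrime p))) ≤ Nat.card (H56.SL p k) :=
            Nat.card_le_card_of_surjective _ hs
        _ = Nat.card k ^ 3 := h3
        _ ≤ Nat.card k ^ 4 := Nat.pow_le_pow_right Nat.card_pos (by norm_num)
    · rintro R hR ⟨h, hord⟩
      exact absurd ⟨R, hR, h, hord⟩ hex

end LLsec

end Fermat.Agent.H95.K3
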