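import Fermat.Agent.H56FC5c
import Fermat.Agent.H95K3Final
import Fermat.Agent.H29FK1h

/-!
# S56-[F] : the flat local bound, given the Kummer theoretic count
-/

set_option autoImplicit false
set_option maxSynthPendingDepth 3

noncomputable section

open Fermat.Agent.H53 Fermat.Agent.H55 Fermat.Agent.H28 ExtCitation

namespace Fermat.Agent.H56

open Fermat.Agent.H64

variable {p : ℕ} [Fact p.Prime] {k : Type} [Field k] [Algebra (ZMod p) k] [Finite k]

/-- the local bound if there are no lifts -/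
theorem localBound_of_not_exists {r : FGQ →* M2 k} (hr : FinLev r) (q : Nat.Primes)
    {Cond : (FGQ →* M2 (DualNumber k)) → Prop}
    (h : ∀ R, GoodLift r R → ¬ Cond R) : LocalBound p r q 4 Cond := by
  have hsurj : Function.Surjective (fun Y : SL p k =>
      (⟨d0 (rhoD (ad p r) q) Y, ⟨Y, rfl⟩⟩ : B1 (rhoD (ad p r) q))) := by
    rintro ⟨_, ⟨Y, rfl⟩⟩
    exact ⟨Y, rfl⟩
  have hfin : Finite (B1 (rhoD (ad p r) q)) := Finite.of_surjective _ hsurj
  refine ⟨B1 (rhoD (ad p r) q), le_rfl, B1_le_Z1 hr q, hfin, ?_, fun R hR hC => absurd hC (h R hR)⟩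
  have h1 : Nat.card (B1 (rhoD (ad p r) q)) ≤ Nat.card k ^ 3 := by
    rw [← card_SL (p := p)]
    exact Nat.card_le_card_of_surjective _ hsurj
  exact h1.trans (Nat.pow_le_pow_right Nat.card_pos (by norm_num))

variable (p k) in
/-- the Kummer theoretic count -/
def CountII : Prop :=
  ∀ (π : FQb) (t : FGQ) (ζ : FQb) (g : k), π ^ (p ^ 2 - 1) = -(p : FQb) → t ∈ Ip p →
    IsPrimitiveRoot ζ (p ^ 2 - 1) → t π = ζ * π → g ≠ g ^ p → (g ^ p) ^ p = g → g ≠ 0 →
    g ^ (p + 1) = algebraMap (ZMod p) k (cycloChar p t : ZMod p) →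
    (∀ x : FGQ → k, KumX p π x → (∀ σ ∈ Tm p π, x (t * σ * t⁻¹) = x σ) →
      ∀ σ ∈ Tm p π, x σ = 0) ∧
    ∃ X : Set (Tm p π → k), X.Finite ∧ X.ncard ≤ Nat.card k ∧
      ∀ x : FGQ → k, KumX p π x →
        (∀ σ ∈ Tm p π, g ^ p * x (t * σ * t⁻¹) = g * x σ) →
        (∀ σ ∈ Tm p π, x (frob p * (frob p * σ * (frob p)⁻¹) * (frob p)⁻¹) = x σ) →
        (fun σ : Tm p π => x σ) ∈ X

/-- **The flat local bound**, given the Kummer theoretic count. -/
theorem statementF_of_count (hp2 : p ≠ 2) (hcount : CountII p k) : StatementF p (k := k) := by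
  intro r hr hdet hsplit
  by_cases hex : ∃ R : FGQ →* M2 (DualNumber k), GoodLift r R ∧
      ∃ h : MCont (DualNumber k) R, (ofMatrix R h).IsFlatAt p
  swap
  · push Not at hex
    exact localBound_of_not_exists hr _ fun R hR ⟨h, hf⟩ => hex R hR h hf
  obtain ⟨R₀, hR₀, h₀, hf₀⟩ := hex
  have hflat : FlatM p r := H29.flatM_red hR₀.red (H29.flatM_of_isFlatAt h₀ hf₀)
  have hFD : ∀ R : FGQ →* M2 (DualNumber k), GoodLift r R →
      (∃ h : MCont (DualNumber k) R, (ofMatrix R h).IsFlatAt p) →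
      ∃ (n : ℕ) (e : Fin n → (Fin 2 → DualNumber k) → FQb) (a : Fin n → Fin n → Fin n → ℚ),
        FData p (fun σ (x : Fin 2 → DualNumber k) => (R σ).mulVec x) n e a := by
    rintro R - ⟨h, hf⟩
    exact H29.exists_FData_of_flatM (H29.flatM_of_isFlatAt h hf)
  rcases H29.case_division hp2 hr hdet hflat with hI | hII
  · obtain ⟨u, htri, hR⟩ := hI
    exact H95.K3.caseI_localBound hp2 hr hdet (u := u) htri
      (fun R hRR hRf => ⟨hR R hRR hRf, hFD R hRR hRf⟩)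
  · obtain ⟨hW0, hirr⟩ := hII
    obtain ⟨n, e, a, h⟩ := H29.exists_FData_of_flatM hflat
    have he := sq_sub_one_pos p
    have hep := coprime_sq_sub_one p
    obtain ⟨π, hπ⟩ := IsAlgClosed.exists_pow_nat_eq (-(p : FQb)) he
    obtain ⟨t, ht, ζ, hζ, htπ⟩ := exists_tame_gen he hep hπ
    have hirr' : ∀ v : Fin 2 → k, v ≠ 0 → ¬ ∀ σ ∈ Dp p, ∃ c : k, (r σ).mulVec v = c • v :=
      fun v hv hall => hirr ⟨v, hv, hall⟩
    obtain ⟨hTm, -, P, g, b, ⟨u, rfl⟩, htu, hφu, hg, hgp, hg0, hb, hdetg⟩ :=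
      caseII_structure hr hdet hsplit h (hW0 n e a h) hirr' hπ ht hζ htπ
    obtain ⟨hL1, X, hXfin, hXcard, hX⟩ := hcount π t ζ g hπ ht hζ htπ hg hgp hg0 hdetg
    exact caseII_localBound hp2 hr hπ ht hζ htπ hTm htu hφu hg hgp hg0 hb hL1 X hXfin hXcard hX hFD

end Fermat.Agent.H56
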