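import Fermat.Agent.H64FCount
import Fermat.Agent.H56Flat0

/-!
# S56-[B4] : the flat local bound
-/

set_option autoImplicit false
set_option maxSynthPendingDepth 3

open ExtCitation

noncomputable section

namespace Fermat.Agent.H64

variable {p : ℕ} [Fact p.Prime] {k : Type} [Field k] [Finite k] [Algebra (ZMod p) k]

theorem countII (hp2 : p ≠ 2) : H56.CountII p k := by
  have hp := (Fact.out : p.Prime)
  have : CharP k p := charP_of_injective_algebraMap (algebraMap (ZMod p) k).injective p
  have hp3 : 2 < p := lt_of_le_of_ne hp.two_le (Ne.symm hp2)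
  intro π t ζ g hπ ht hζ htπ hg hg2 hg0 hgt
  have hgt' : g ^ (p + 1) = ((cycloChar p t : ZMod p).val : k) := by
    rw [hgt, ← map_natCast (algebraMap (ZMod p) k), ZMod.natCast_zmod_val]
  obtain ⟨h1, h2⟩ := kumT_card hπ ht hζ htπ hp3 (Ne.symm hg) hg2 hgt'
  refine ⟨fun x hx hxt => KumT.eq_zero hπ ht hζ htπ hp3 hx hxt, _, h1, h2, ?_⟩
  intro x hx hxt hxf
  refine ⟨x, fun _ => rfl, hx, hxt, fun σ hσ => ?_⟩
  have e1 : frob p * frob p * σ * (frob p * frob p)⁻¹ =
      frob p * (frob p * σ * (frob p)⁻¹) * (frob p)⁻¹ := by group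
  rw [e1]
  exact hxf σ hσ

/-- **The flat local bound** -/
theorem statementF (hp2 : p ≠ 2) : H56.StatementF p (k := k) :=
  H56.statementF_of_count hp2 (countII hp2)

end Fermat.Agent.H64
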