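import Fermat.Agent.H82Second

/-!
# The Hasse norm theorem for Kummer extensions of degree `p`
-/

set_option autoImplicit false

noncomputable section

open IsDedekindDomain NumberField WithZero

namespace Fermat.Agent.H82

variable {K : Type} [Field K] [NumberField K] {p : ℕ} [hp : Fact p.Prime] {ζ : K}
  (hζ : IsPrimitiveRoot ζ p)

include hζ

/-- Data at a place: `m` deep, and local norms proper if `v` is nonsplit. -/
theorem exists_good_level {L : Type} [Field L] [NumberField L] [Algebra K L] [IsGalois K L]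
    (hdeg : Module.finrank K L = p) (v : HeightOneSpectrum (𝓞 K)) :
    ∃ m : ℕ, Deep ζ p v m ∧ (NonSplit L v → locNorm L v m ≠ ⊤) := by
  obtain ⟨m₁, hm₁⟩ := exists_deep hp.out.one_lt hζ v
  by_cases hns : NonSplit L v
  · obtain ⟨m₀, hm₀⟩ := H65.exists_locNorm_ne_top' hp.out hdeg hζ hns
    exact ⟨max m₁ m₀, hm₁.mono (le_max_left _ _), fun _ => hm₀ _ (le_max_right _ _)⟩
  · exact ⟨m₁, hm₁, fun h => absurd h hns⟩

/-- Counting form of the Hasse norm theorem: for a set `T` as in the second inequality and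
auxiliary primes `A`, elements of `E_{T ∪ A}` which are local norms at the nonsplit places of `T`
are norms of `T ∪ A`-units. -/
theorem unit_inf_le_norm (hp2 : p ≠ 2) {L : Type} [Field L] [NumberField L] [Algebra K L]
    [IsGalois K L] (hdeg : Module.finrank K L = p) {a : Kˣ} {α : L} (hα : IsKummer p K L a α)
    {T A : Finset (HeightOneSpectrum (𝓞 K))}
    (hcl : ClTrivial (T : Set (HeightOneSpectrum (𝓞 K))))
    (hTp : ∀ v, v ∉ T → v.valuation K (p : K) = 1)
    (hTa : a ∈ (T : Set (HeightOneSpectrum (𝓞 K))).unit K)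
    (m : HeightOneSpectrum (𝓞 K) → ℕ) (hm : ∀ v ∈ T, Deep ζ p v (m v))
    (hmN : ∀ v ∈ T, NonSplit L v → locNorm L v (m v) ≠ ⊤)
    (hA : ∀ v ∈ A, v ∉ T ∧ a ∈ locPow p v 1) (hAcard : A.card = Units.rank K + T.card)
    (hidx : (⨅ v ∈ A, locPow p v 1).relIndex
      ((T : Set (HeightOneSpectrum (𝓞 K))).unit K) = p ^ A.card)
    (x : Kˣ) (hx : x ∈ ((T : Set (HeightOneSpectrum (𝓞 K))) ∪ A).unit K)
    (hxN : ∀ v ∈ T, NonSplit L v → x ∈ locNorm L v (m v)) :
    x ∈ ((aboveSet L ((T : Set (HeightOneSpectrum (𝓞 K))) ∪ A)).unit L).map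
      (Units.map (Algebra.norm K : L →* K)) := by
  classical
  set T' : Set (HeightOneSpectrum (𝓞 K)) := (T : Set (HeightOneSpectrum (𝓞 K))) ∪ A with hT'
  set E' := T'.unit K with hE'
  set U := (⨅ v ∈ T, locPow p v (m v)) with hU
  have hT'fin : T'.Finite := T.finite_toSet.union A.finite_toSet
  have hAp : ∀ v ∈ A, v.valuation K (p : K) = 1 := fun v hv => hTp v (hA v hv).1
  have hindex := index_unit_sup hζ hp2 hcl hTp m hm (fun v hv => (hA v hv).1) hAcard hidx
  rw [← hT', ← hE', ← hU] at hindex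
  have hunr : ∀ v ∉ T', ∀ w ∈ above L v, v.asIdeal.ramificationIdx' w.asIdeal = 1 := by
    intro v hv w hw
    rw [hT', Set.mem_union, not_or] at hv
    refine hα.ramificationIdx'_eq_one hζ (hTp v hv.1) ?_ hw
    rw [mem_locPow]
    refine ⟨1, ?_⟩
    rw [one_pow, div_one, mem_congr_zero]
    exact hTa v hv.1
  have hFI := H65.relIndex_norm_mul_of_primitiveRoot hp.out hp2 hζ hdeg hT'fin
    (hcl.mono Set.subset_union_left) hunr
  set NS := T.filter (fun v => NonSplit L v) with hNS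
  have hns : {v | v ∈ T' ∧ NonSplit L v} = (NS : Set (HeightOneSpectrum (𝓞 K))) := by
    ext v
    simp only [Set.mem_ofPred_eq, hNS, Finset.coe_filter, hT', Set.mem_union, Finset.mem_coe]
    constructor
    · rintro ⟨hv | hv, hn⟩
      · exact ⟨hv, hn⟩
      · exfalso
        exact hα.not_nonSplit hζ hdeg (deep_of_not_dvd hζ (hAp v hv) one_pos) (hA v hv).2 hn
    · rintro ⟨hv, hn⟩
      exact ⟨Or.inl hv, hn⟩
  rw [hns, Set.ncard_coe_finset] at hFI
  set NE := ((aboveSet L T').unit L).map (Units.map (Algebra.norm K : L →* K)) with hNE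
  set Q := (⨅ v ∈ NS, locNorm L v (m v)) with hQ
  have hUQ : U ≤ Q := by
    refine le_iInf₂ fun v hv => ?_
    have hvT : v ∈ T := (Finset.mem_filter.1 hv).1
    exact (iInf₂_le v hvT).trans (locPow_le_locNorm L hdeg v (m v))
  have hQidx : p ^ NS.card ≤ Q.index := by
    rw [hQ, index_iInf NS m (fun v => locNorm L v (m v)) (fun v _ => le_sup_right),
      ← Finset.prod_const]
    refine Finset.prod_le_prod' fun v hv => ?_
    obtain ⟨hvT, hvn⟩ := Finset.mem_filter.1 hv
    exact le_index_of_ne_top hζ (hm v hvT) (locPow_le_locNorm L hdeg v (m v)) (hmN v hvT hvn)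
  have h1 : (E' ⊔ Q).index ≤ p := by
    have h2 : (E' ⊔ Q).index ∣ (E' ⊔ U).index := Subgroup.index_dvd_of_le (sup_le_sup_left hUQ _)
    rw [hindex] at h2
    exact Nat.le_of_dvd hp.out.pos h2
  have h2 := Subgroup.relIndex_mul_index (le_sup_right : Q ≤ E' ⊔ Q)
  rw [Subgroup.relIndex_sup_right] at h2
  have h3 : p ^ NS.card ≤ Q.relIndex E' * p := by
    calc p ^ NS.card ≤ Q.index := hQidx
      _ = Q.relIndex E' * (E' ⊔ Q).index := h2.symm
      _ ≤ _ := Nat.mul_le_mul_left _ h1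
  have hNEQ : NE ≤ Q := by
    refine le_iInf₂ fun v _ => ?_
    rintro _ ⟨z, -, rfl⟩
    exact Subgroup.mem_sup_left ⟨z, rfl⟩
  have hNE0 : NE.relIndex E' ≠ 0 := by
    intro h0
    rw [h0, zero_mul] at hFI
    exact (pow_pos hp.out.pos NS.card).ne hFI
  -- `NE ≤ E'`
  have hNEE : NE ≤ E' := by
    by_contra hcon
    have h5 : 1 ≤ NE.relIndex E' := Nat.pos_of_ne_zero hNE0
    -- direct proof
    apply hcon
    rintro _ ⟨z, hz, rfl⟩
    have hfd : FiniteDimensional K L := Module.Finite.of_restrictScalars_finite ℚ K L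
    have h6 : Units.map (algebraMap K L : K →* L) (Units.map (Algebra.norm K : L →* K) z)
        = ∏ σ : L ≃ₐ[K] L, Units.map (σ : L →* L) z := by
      ext
      rw [Units.coe_prod]
      exact Algebra.norm_eq_prod_automorphisms K (z : L)
    rw [hE', ← H47.algebraMap_mem_unit_iff (L := L), h6]
    exact prod_mem fun σ _ => H47.map_mem_unit σ hz
  have hNEinf : NE ≤ Q ⊓ E' := le_inf hNEQ hNEE
  have h4 := Subgroup.relIndex_mul_relIndex NE (Q ⊓ E') E' hNEinf inf_le_right
  rw [Subgroup.inf_relIndex_right] at h4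
  have h5 : NE.relIndex (Q ⊓ E') = 1 := by
    have h6 : NE.relIndex (Q ⊓ E') * p ^ NS.card ≤ p ^ NS.card := by
      calc NE.relIndex (Q ⊓ E') * p ^ NS.card ≤ NE.relIndex (Q ⊓ E') * (Q.relIndex E' * p) :=
            Nat.mul_le_mul_left _ h3
        _ = NE.relIndex E' * p := by rw [← mul_assoc, h4]
        _ = p ^ NS.card := hFI
    have h7 : 0 < p ^ NS.card := pow_pos hp.out.pos _
    have h8 : NE.relIndex (Q ⊓ E') ≤ 1 := by
      by_contra hcon
      push Not at hcon
      nlinarith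
    have h9 : NE.relIndex (Q ⊓ E') ≠ 0 := by
      intro h0
      rw [h0, zero_mul] at h4
      exact hNE0 h4.symm
    omega
  rw [Subgroup.relIndex_eq_one] at h5
  have hxQ : x ∈ Q := by
    rw [hQ, Subgroup.mem_iInf]
    intro v
    rw [Subgroup.mem_iInf]
    intro hv
    obtain ⟨hvT, hvn⟩ := Finset.mem_filter.1 hv
    exact hxN v hvT hvn
  exact h5 ⟨hxQ, hx⟩

/-- **Hasse norm theorem** for Galois extensions `L/K` of odd prime degree `p`, `μ_p ⊂ K`. -/
theorem hasse_norm (hp2 : p ≠ 2) {L : Type} [Field L] [NumberField L] [Algebra K L]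
    [IsGalois K L] (hdeg : Module.finrank K L = p) (x : Kˣ)
    (hx : ∀ v, NonSplit L v → ∀ m, x ∈ locNorm L v m) : x ∈ normGroup K L := by
  classical
  obtain ⟨a, α, hα, ha⟩ := exists_isKummer hζ L hdeg
  have hp0 : (p : K) ≠ 0 := by exact_mod_cast hp.out.ne_zero
  have hfin : ({v | v.valuation K ((Units.mk0 (p : K) hp0 : Kˣ) : K) ≠ 1} ∪
      {v | v.valuation K (a : K) ≠ 1} ∪ {v : HeightOneSpectrum (𝓞 K) | v.valuation K (x : K) ≠ 1}
      ).Finite :=
    ((finite_valuation_ne_one _).union (finite_valuation_ne_one _)).union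
      (finite_valuation_ne_one _)
  obtain ⟨T₀, hT₁, hT₀, hcl⟩ := H47.exists_clTrivial K hfin
  obtain ⟨T, rfl⟩ : ∃ T : Finset (HeightOneSpectrum (𝓞 K)), (T : Set _) = T₀ :=
    ⟨hT₀.toFinset, hT₀.coe_toFinset⟩
  have hTp : ∀ v, v ∉ T → v.valuation K (p : K) = 1 := by
    intro v hv
    by_contra h
    exact hv (hT₁ (Or.inl (Or.inl h)))
  have hTa : a ∈ (T : Set (HeightOneSpectrum (𝓞 K))).unit K := by
    intro v hv
    by_contra h
    exact hv (hT₁ (Or.inl (Or.inr h)))
  have hTx : x ∈ (T : Set (HeightOneSpectrum (𝓞 K))).unit K := by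
    intro v hv
    by_contra h
    exact hv (hT₁ (Or.inr h))
  choose m hm hmN using fun v => exists_good_level hζ (L := L) hdeg v
  obtain ⟨A, hAcard, hA, hidx, -⟩ := exists_aux_set hζ (T : Set (HeightOneSpectrum (𝓞 K)))
    T.finite_toSet hTa ha ∅ Set.finite_empty
  rw [Set.ncard_coe_finset] at hAcard
  have h1 := unit_inf_le_norm hζ hp2 hdeg hα hcl hTp hTa m (fun v _ => hm v) (fun v _ => hmN v)
    (fun v hv => ⟨(hA v hv).1, (hA v hv).2.2.2⟩) hAcard hidx x
    (fun v hv => hTx v (fun h => hv (Or.inl h))) (fun v _ hn => hx v hn (m v))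
  obtain ⟨z, -, hz⟩ := h1
  exact ⟨z, hz⟩

end Fermat.Agent.H82
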