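import Fermat.Agent.H47LocTriv
import Fermat.Agent.H82Hasse

/-!
# `Ш²(G_{K,S}, μ_p) = ker (H²(G_{K,S}, μ_p) → H²(G_K, μ_p))`
-/

set_option autoImplicit false
set_option maxSynthPendingDepth 3

namespace Fermat.Agent.H47

open Fermat.Agent.H55 Fermat.Agent.H91 Fermat.Agent.H54 Fermat.Agent.H64 ExtCitation NumberField

local notation "Ω" => AlgebraicClosure ℚ
local notation "Γ" => (AlgebraicClosure ℚ ≃ₐ[ℚ] AlgebraicClosure ℚ)

local instance factNatPrimes₃ (q : Nat.Primes) : Fact (q : ℕ).Prime := ⟨q.2⟩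

theorem hasseNormStatement {p : ℕ} [Fact p.Prime] (hp2 : p ≠ 2) : HasseNormStatement p := by
  intro K L _ _ _ _ _ _ hdeg ⟨ζ, hζ⟩ x hx
  exact H82.hasse_norm hζ hp2 hdeg x hx

variable {p : ℕ} {S : Finset Nat.Primes} {K : IntermediateField ℚ Ω} {ζ : Ω}

/-- levels do not see conjugation -/
theorem isConst₁_rloc {q : Nat.Primes} (g : Γ) {D : Subgroup (primeLocalGaloisGroup q)} {X : Type*}
    {y : D → X} (hy : LC1 ((krullLevels.comap (primeLocalToGlobal q)).onSub D) y) :
    ((krullFam.comap (rloc q g)).restrict D).IsConst₁ y := by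
  obtain ⟨V, ⟨W, ⟨N, ⟨W₀, hW₀, hle₀⟩, hle₁⟩, hle₂⟩, hc⟩ := hy
  obtain ⟨X, hX, hXle, hXn, -⟩ := krullFam.core' W₀ hW₀
  refine ⟨_, ⟨_, ⟨X, hX, rfl⟩, rfl⟩, fun a s hs => hc a s (hle₂ (hle₁ (hle₀ (hXle ?_))))⟩
  have h1 : rloc q g s ∈ X := hs
  rw [rloc_apply] at h1
  have h2 := hXn.conj_mem _ h1 g
  have h3 : g * (g⁻¹ * primeLocalToGlobal q s * g) * g⁻¹ = primeLocalToGlobal q s := by group
  rw [h3] at h2
  exact h2

/-- local triviality everywhere implies triviality in `H²(G_K, μ_p)` -/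
theorem triv_of_loc_triv [Fact p.Prime] (hp2 : p ≠ 2) (hζ : IsPrimitiveRoot ζ p) (hζK : ζ ∈ K)
    [FiniteDimensional ℚ K]
    {f : K.fixingSubgroup × K.fixingSubgroup → ZMod p}
    (hf : f ∈ Z2 (krullLevels.onSub K.fixingSubgroup)
      (Representation.trivial (ZMod p) K.fixingSubgroup (ZMod p)))
    (hloc : ∀ (q : Nat.Primes) (g : Γ),
      ∃ y : dec (primeLocalToGlobal q) K.fixingSubgroup g → ZMod p,
      LC1 ((krullLevels.comap (primeLocalToGlobal q)).onSub
        (dec (primeLocalToGlobal q) K.fixingSubgroup g)) y ∧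
      ∀ s t, y t - y (s * t) + y s =
        f (decHom (primeLocalToGlobal q) K.fixingSubgroup g s,
          decHom (primeLocalToGlobal q) K.fixingSubgroup g t)) :
    ∃ x, LC1 (krullLevels.onSub K.fixingSubgroup) x ∧
      d1 (Representation.trivial (ZMod p) K.fixingSubgroup (ZMod p)) x = f := by
  classical
  have hp : p.Prime := Fact.out
  have : NeZero p := ⟨hp.ne_zero⟩
  obtain ⟨hfc, hfcoc⟩ := hf
  have hcoc : ∀ a b c : K.fixingSubgroup, f (a * b, c) + f (a, b) = f (b, c) + f (a, b * c) := by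
    intro a b c
    have := hfcoc a b c
    rwa [Representation.trivial_apply] at this
  let ε := muEmb hζ hp.ne_zero
  have hfix : ∀ (g : Γ), g ∈ K.fixingSubgroup → ∀ a : ZMod p, g • ε a = ε a := by
    intro g hg a
    apply uval_injective
    have h1 : g ζ = ζ := H64.fixes ⟨g, hg⟩ ⟨ζ, hζK⟩
    show g (uval (muEmb hζ hp.ne_zero a)) = _
    rw [muEmb_apply, map_pow, h1]
  have hinj : Function.Injective ε := by
    intro a b hab
    have h := congrArg uval hab
    rw [muEmb_apply, muEmb_apply] at h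
    exact H64.pow_val_injective hζ h
  have hrange : ∀ e : Additive Ωˣ, p • e = 0 → ∃ a, ε a = e := by
    intro e he
    have h1 : uval e ^ p = 1 := by
      rw [← uval_nsmul, he, uval_zero]
    obtain ⟨a, ha⟩ := H64.exists_pow_val hζ h1
    exact ⟨a, uval_injective (by rw [muEmb_apply, ha])⟩
  have hpε : ∀ a : ZMod p, p • ε a = 0 := by
    intro a
    rw [← map_nsmul]; simp
  let U := K.fixingSubgroup
  -- extension by zero
  let f' : Γ × Γ → Additive Ωˣ := fun x =>
    if h : x.1 ∈ U ∧ x.2 ∈ U then ε (f (⟨x.1, h.1⟩, ⟨x.2, h.2⟩)) else 0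
  have hf' : ∀ a b : U, f' (a, b) = ε (f (a, b)) := by
    intro a b
    have h : (a : Γ) ∈ U ∧ (b : Γ) ∈ U := ⟨a.2, b.2⟩
    exact dif_pos h
  have hres : LevelFam.res₂ U f' = fun x => ε (f x) := by
    funext x
    exact hf' x.1 x.2
  have h1 : groupCohomology.IsCocycle₂ (LevelFam.res₂ U f') := by
    rw [hres]
    intro a b c
    have h2 : a • ε (f (b, c)) = ε (f (b, c)) := hfix a a.2 _
    simp only
    rw [h2, ← map_add, ← map_add, hcoc]
  have hlev : ofFam (krullFam.restrict U) = krullLevels.onSub U := by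
    show ofFam (krullFam.comap U.subtype) = _
    rw [ofFam_comap]
    rfl
  have h2 : (krullFam.restrict U).IsConst₂ (LevelFam.res₂ U f') := by
    rw [hres, ← lc2_ofFam_iff, hlev]
    exact hfc.comp' ε
  have h3 : (krullFam.restrict U).Triv₂ (p • LevelFam.res₂ U f') := by
    have : p • LevelFam.res₂ U f' = 0 := by
      funext x
      rw [hres]
      exact hpε _
    rw [this]
    exact LevelFam.triv₂_zero
  have h4 : ∀ (q : Nat.Primes) (g : Γ),
      ((krullFam.comap (rloc q g)).restrict (U.comap (rloc q g))).Triv₂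
        (A := Additive (PadicAlgCl (q : ℕ))ˣ)
        (fun x => jloc q g (f' (rloc q g x.1, rloc q g x.2))) := by
    intro q g
    obtain ⟨y, hy, hyf⟩ := hloc q g
    have hyc : ((krullFam.comap (rloc q g)).restrict (U.comap (rloc q g))).IsConst₁ y :=
      isConst₁_rloc g hy
    refine ⟨fun s => jloc q g (ε (y s)), hyc.comp (fun a => jloc q g (ε a)), fun s t => ?_⟩
    have hs : rloc q g s ∈ U := s.2
    have ht : rloc q g t ∈ U := t.2
    have e1 : s • jloc q g (ε (y t)) = jloc q g (ε (y t)) := by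
      have h6 : jloc q g (rloc q g s • ε (y t)) = s • jloc q g (ε (y t)) :=
        arithLoc.hj (q, g) (s : primeLocalGaloisGroup q) (ε (y t))
      have e2 : rloc q g s • ε (y t) = ε (y t) := hfix _ hs _
      rw [e2] at h6
      exact h6.symm
    have e3 : y t - y (s * t) + y s = f (⟨rloc q g s, hs⟩, ⟨rloc q g t, ht⟩) := hyf s t
    have h7 := hf' ⟨rloc q g s, hs⟩ ⟨rloc q g t, ht⟩
    rw [LevelFam.dd_apply, e1, ← map_sub, ← map_add, ← map_sub, ← map_add, e3, ← h7]
  have hUopen : krullFam.IsOpenSubgroup U := ⟨U, ⟨K, inferInstance, rfl⟩, le_rfl⟩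
  have h5 := arithLoc.triv₂_of_forall_trivAt smooth_krullFam
    (fun H _ => (faithfulOn_krullFam.restrict H).h90)
    (hasseNorm_arith hp (hasseNormStatement hp2) hζ (U₀ := U)
      (fun u hu => H64.fixes ⟨u, hu⟩ ⟨ζ, hζK⟩))
    le_rfl hUopen h1 h2 h3 (fun i => h4 i.1 i.2)
  obtain ⟨y, hy, hyf, hpy⟩ := LevelFam.exists_torsion_of_triv₂ (smooth_krullFam.restrict U)
    (faithfulOn_krullFam.restrict U).h90 (fun a => exists_nsmul_eq_units hp.pos a)
    (fun a b => by rw [hres]; exact hpε _) h5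
  choose x hx using fun a => hrange (y a) (hpy a)
  refine ⟨x, ?_, ?_⟩
  · have h6 : LC1 (krullLevels.onSub U) y := by
      rw [← hlev, lc1_ofFam_iff]
      exact hy
    obtain ⟨V, hV, h⟩ := h6
    exact ⟨V, hV, fun a s hs => hinj (by rw [hx, hx, h a s hs])⟩
  · funext ⟨a, b⟩
    apply hinj
    have h7 := hyf a b
    rw [hres] at h7
    rw [d1_apply, Representation.trivial_apply, map_add, map_sub, hx, hx, hx]
    have h8 : a • y b = y b := by rw [← hx]; exact hfix a a.2 _
    rw [LevelFam.dd_apply, h8] at h7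
    exact h7

/-- **Ш² = kernel of inflation.** -/
theorem ShaU2_eq_ker [Fact p.Prime] (hp2 : p ≠ 2) (hζ : IsPrimitiveRoot ζ p) (hζK : ζ ∈ K)
    (hpS : ∀ q : Nat.Primes, (q : ℕ) = p → q ∈ S) (hK : K.IsUnramifiedOutside S) :
    (DS S).ShaU2 (ZMod p) K.fixingSubgroup = LinearMap.ker (inflH2 p S K.fixingSubgroup) := by
  have : FiniteDimensional ℚ K := hK.1
  ext z
  obtain ⟨⟨f, hf⟩, rfl⟩ := H2π_surjective _ _ z
  rw [LD.mem_ShaU2, LinearMap.mem_ker]
  have key : inflH2 p S K.fixingSubgroup (H2π ((ramLevels S).onSub K.fixingSubgroup)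
        (Representation.trivial (ZMod p) K.fixingSubgroup (ZMod p)) ⟨f, hf⟩) = 0 ↔
      ∃ x, LC1 (krullLevels.onSub K.fixingSubgroup) x ∧
        d1 (Representation.trivial (ZMod p) K.fixingSubgroup (ZMod p)) x = f := by
    rw [inflH2, H2map_mk, H2π_eq_zero_iff]
    rfl
  have keyloc : ∀ (v : (DS S).ι) (g : Γ), (DS S).locU2 (ZMod p) K.fixingSubgroup v g
      (H2π ((ramLevels S).onSub K.fixingSubgroup)
        (Representation.trivial (ZMod p) K.fixingSubgroup (ZMod p)) ⟨f, hf⟩) = 0 ↔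
      ∃ y : dec (primeLocalToGlobal v.1) K.fixingSubgroup g → ZMod p,
      LC1 ((krullLevels.comap (primeLocalToGlobal v.1)).onSub
        (dec (primeLocalToGlobal v.1) K.fixingSubgroup g)) y ∧
      ∀ s t, y t - y (s * t) + y s =
        f (decHom (primeLocalToGlobal v.1) K.fixingSubgroup g s,
          decHom (primeLocalToGlobal v.1) K.fixingSubgroup g t) := by
    intro v g
    have e0 : (DS S).locU2 (ZMod p) K.fixingSubgroup v g
        (H2π ((ramLevels S).onSub K.fixingSubgroup)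
        (Representation.trivial (ZMod p) K.fixingSubgroup (ZMod p)) ⟨f, hf⟩) =
        H2π (((DS S).lev v).onSub (dec ((DS S).loc v) K.fixingSubgroup g))
          (Representation.trivial (ZMod p) (dec ((DS S).loc v) K.fixingSubgroup g) (ZMod p))
          ⟨pp2 (decHom ((DS S).loc v) K.fixingSubgroup g) LinearMap.id f,
            pp2_mem_Z2 (cont_decHom ((DS S).cont v) K.fixingSubgroup g) (fun _ _ => rfl) hf⟩ := rfl
    rw [e0, H2π_eq_zero_iff]
    constructor
    · rintro ⟨y, hy, hyf⟩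
      refine ⟨y, hy, fun s t => ?_⟩
      have := congrFun hyf (s, t)
      rw [d1_apply, Representation.trivial_apply] at this
      exact this
    · rintro ⟨y, hy, hyf⟩
      refine ⟨y, hy, ?_⟩
      funext ⟨s, t⟩
      exact hyf s t
  rw [key]
  constructor
  · intro h
    apply triv_of_loc_triv hp2 hζ hζK
    · obtain ⟨⟨V, hV, hc⟩, hcoc⟩ := hf
      obtain ⟨W, hW, hle⟩ := hV
      exact ⟨⟨V, ⟨W, ramLevels_le_krullLevels S hW, hle⟩, hc⟩, hcoc⟩
    · intro q g
      by_cases hq : q ∈ S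
      · exact (keyloc ⟨q, hq⟩ g).1 (h ⟨q, hq⟩ g)
      · exact locTriv hζ hζK hpS hK hq g hf
  · rintro ⟨x, hx, hxf⟩ v g
    rw [keyloc]
    refine ⟨fun s => x (decHom (primeLocalToGlobal v.1) K.fixingSubgroup g s), ?_, fun s t => ?_⟩
    · exact hx.precomp (cont_decHom (Levels.cont_comap krullLevels (primeLocalToGlobal v.1)) _ g)
    · have := congrFun hxf (decHom (primeLocalToGlobal v.1) K.fixingSubgroup g s,
        decHom (primeLocalToGlobal v.1) K.fixingSubgroup g t)
      rw [d1_apply, Representation.trivial_apply, ← map_mul] at this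
      exact this

variable [NumberField K]

theorem card_ShaU2 [Fact p.Prime] (hp2 : p ≠ 2) (hζ : IsPrimitiveRoot ζ p) (hζK : ζ ∈ K)
    (hpS : ∀ q : Nat.Primes, (q : ℕ) = p → q ∈ S) (hK : K.IsUnramifiedOutside S) :
    Nat.card ((DS S).ShaU2 (ZMod p) K.fixingSubgroup) =
      Nat.card (nsmulAddMonoidHom (α := ClT K (placesS S K)) p).ker := by
  rw [ShaU2_eq_ker hp2 hζ hζK hpS hK, card_ker_inflH2 hζ hζK hpS hK]

theorem finite_ShaU2 [Fact p.Prime] (hp2 : p ≠ 2) (hζ : IsPrimitiveRoot ζ p) (hζK : ζ ∈ K)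
    (hpS : ∀ q : Nat.Primes, (q : ℕ) = p → q ∈ S) (hK : K.IsUnramifiedOutside S) :
    Finite ((DS S).ShaU2 (ZMod p) K.fixingSubgroup) := by
  rw [ShaU2_eq_ker hp2 hζ hζK hpS hK]
  exact finite_ker_inflH2 hζ hζK hpS hK

theorem card_eq_pow_finrank_ShaU2 [Fact p.Prime] (hp2 : p ≠ 2) (hζ : IsPrimitiveRoot ζ p)
    (hζK : ζ ∈ K) (hpS : ∀ q : Nat.Primes, (q : ℕ) = p → q ∈ S)
    (hK : K.IsUnramifiedOutside S) :
    Nat.card (nsmulAddMonoidHom (α := ClT K (placesS S K)) p).ker =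
      p ^ Module.finrank (ZMod p) ((DS S).ShaU2 (ZMod p) K.fixingSubgroup) := by
  rw [ShaU2_eq_ker hp2 hζ hζK hpS hK]
  exact exists_finrank_ker_inflH2 hζ hζK hpS hK

end Fermat.Agent.H47
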