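import Fermat.Agent.H47C1Div

/-!
# (C1): `ker (H²(G_{K,S}, μ_p) → H²(G_K, μ_p)) ≅ Cl_S(K)/p`
-/

set_option autoImplicit false
set_option maxSynthPendingDepth 3

namespace Fermat.Agent.H47

open NumberField IsDedekindDomain Fermat.Agent.H63 Fermat.Agent.H64 Fermat.Agent.H55
  Fermat.Agent.H91

local notation "Ω" => AlgebraicClosure ℚ
local notation "Γ" => (AlgebraicClosure ℚ ≃ₐ[ℚ] AlgebraicClosure ℚ)

section divisors

variable {K : Type*} [Field K] [NumberField K] {p : ℕ}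

/-- after a multiple `m ≡ 1 mod p`, a `p`-power multiple of any divisor is principal -/
theorem exists_pow_principal_div (hp : p.Prime) (D : HeightOneSpectrum (𝓞 K) →₀ ℤ) :
    ∃ (n m : ℕ) (β : Kˣ), m ≡ 1 [MOD p] ∧
      ∀ v, ordHom v (Additive.ofMul β) = (p ^ n : ℕ) * (m • D) v := by
  have hcard : Nat.card (ClassGroup (𝓞 K)) ≠ 0 := Nat.card_pos.ne'
  obtain ⟨n, h', hnd, hh⟩ := Nat.exists_eq_pow_mul_and_not_dvd hcard p hp.ne_one
  have hcop : Nat.Coprime h' p := ((Nat.Prime.coprime_iff_not_dvd hp).2 hnd).symm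
  have htot : Nat.totient p ≠ 0 := (Nat.totient_pos.2 hp.pos).ne'
  have hdvd : Nat.card (ClassGroup (𝓞 K)) ∣ p ^ n * h' ^ Nat.totient p := by
    rw [hh]
    exact mul_dvd_mul_left _ (dvd_pow_self _ htot)
  have h0 : classOf (R := 𝓞 K) K ((p ^ n * h' ^ Nat.totient p) • D) = 0 := by
    rw [map_nsmul]
    obtain ⟨c, hc⟩ := hdvd
    rw [hc, mul_comm, mul_smul]
    have h1 : Nat.card (ClassGroup (𝓞 K)) • classOf (R := 𝓞 K) K D = 0 := by
      have := pow_card_eq_one' (G := ClassGroup (𝓞 K)) (x := (classOf (R := 𝓞 K) K D).toMul)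
      exact congrArg Additive.ofMul this
    rw [h1, smul_zero]
  have h2 : ((p ^ n * h' ^ Nat.totient p) • D) ∈ (divHom (𝓞 K) K).range := by
    rw [← ker_classOf]
    exact h0
  obtain ⟨β, hβ⟩ := h2
  refine ⟨n, h' ^ Nat.totient p, β.toMul, Nat.ModEq.pow_totient hcop, fun v => ?_⟩
  have h3 := congrArg (fun E : HeightOneSpectrum (𝓞 K) →₀ ℤ => E v) hβ
  simp only [divHom_apply] at h3
  rw [mul_smul] at h3
  show ordHom v β = _
  rw [h3, Finsupp.smul_apply, nsmul_eq_mul]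

/-- the class of a divisor in `Cl_T / p` -/
noncomputable def clModp (K : Type*) [Field K] [NumberField K] (T : Set (HeightOneSpectrum (𝓞 K))) (p : ℕ) :
    (HeightOneSpectrum (𝓞 K) →₀ ℤ) →+ (ClT K T ⧸ (nsmulAddMonoidHom (α := ClT K T) p).range) :=
  (QuotientAddGroup.mk' _).comp (QuotientAddGroup.mk' _)

theorem clModp_surjective (T : Set (HeightOneSpectrum (𝓞 K))) :
    Function.Surjective (clModp K T p) :=
  (QuotientAddGroup.mk'_surjective _).comp (QuotientAddGroup.mk'_surjective _)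

theorem clModp_nsmul (T : Set (HeightOneSpectrum (𝓞 K))) (D : HeightOneSpectrum (𝓞 K) →₀ ℤ) :
    p • clModp K T p D = 0 := by
  rw [clModp, AddMonoidHom.comp_apply, ← map_nsmul, QuotientAddGroup.mk'_apply,
    QuotientAddGroup.eq_zero_iff]
  exact ⟨_, rfl⟩

theorem clModp_eq_zero_iff {T : Set (HeightOneSpectrum (𝓞 K))}
    {D : HeightOneSpectrum (𝓞 K) →₀ ℤ} :
    clModp K T p D = 0 ↔ ∃ k : Kˣ, ∀ v ∉ T, (p : ℤ) ∣ D v - ordHom v (Additive.ofMul k) := by
  rw [clModp, AddMonoidHom.comp_apply, QuotientAddGroup.mk'_apply, QuotientAddGroup.eq_zero_iff]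
  constructor
  · rintro ⟨c, hc⟩
    obtain ⟨D', rfl⟩ := QuotientAddGroup.mk_surjective c
    rw [nsmulAddMonoidHom_apply, QuotientAddGroup.mk'_apply, ← QuotientAddGroup.mk_nsmul,
      QuotientAddGroup.eq] at hc
    obtain ⟨k, hk⟩ := hc
    refine ⟨k, fun v hv => ⟨D' v, ?_⟩⟩
    rw [hk v hv, Finsupp.add_apply, Finsupp.neg_apply, Finsupp.smul_apply, nsmul_eq_mul]
    ring
  · rintro ⟨k, hk⟩
    refine ⟨QuotientAddGroup.mk (Finsupp.mapRange (fun n : ℤ => n / (p : ℤ)) (Int.zero_ediv _)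
      (D - divHom (𝓞 K) K (Additive.ofMul k))), ?_⟩
    rw [nsmulAddMonoidHom_apply, QuotientAddGroup.mk'_apply, ← QuotientAddGroup.mk_nsmul,
      QuotientAddGroup.eq]
    refine ⟨k, fun v hv => ?_⟩
    rw [Finsupp.add_apply, Finsupp.neg_apply, Finsupp.smul_apply, nsmul_eq_mul,
      Finsupp.mapRange_apply, Finsupp.sub_apply, divHom_apply, Int.mul_ediv_cancel' (hk v hv)]
    ring

end divisors

section main

variable {S : Finset Nat.Primes} {K : IntermediateField ℚ Ω} [NumberField K] {p : ℕ}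

theorem clModp_eq_of_divMod [Fact p.Prime] (hK : K.IsUnramifiedOutside S) {z : Additive Ωˣ}
    {D D' : HeightOneSpectrum (𝓞 K) →₀ ℤ} (h : DivMod p S K z D) (h' : DivMod p S K z D') :
    clModp K (placesS S K) p D = clModp K (placesS S K) p D' := by
  rw [← sub_eq_zero, ← map_sub, clModp_eq_zero_iff]
  have h1 := h.add h'.neg
  rw [add_neg_cancel, ← sub_eq_add_neg] at h1
  refine ⟨1, fun v hv => ?_⟩
  refine DivMod.dvd hK (w := 0) (unrW S).zero_mem (k := 1) ?_ hv
  have h2 : kEmb K 1 + p • (0 : Additive Ωˣ) = 0 := by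
    rw [smul_zero, add_zero]
    exact uval_injective (by simp)
  rw [h2]
  exact h1

variable (p) in
/-- the divisor class map -/
noncomputable def theta [Fact p.Prime] (hK : K.IsUnramifiedOutside S) :
    ZW K.fixingSubgroup p (unrW S) →+
      (ClT K (placesS S K) ⧸ (nsmulAddMonoidHom (α := ClT K (placesS S K)) p).range) where
  toFun z := clModp K (placesS S K) p (exists_divMod hK z.2).choose
  map_zero' := by
    rw [clModp_eq_of_divMod hK
      (exists_divMod hK (0 : ZW K.fixingSubgroup p (unrW S)).2).choose_spec DivMod.zero, map_zero]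
  map_add' z z' := by
    rw [← map_add]
    exact clModp_eq_of_divMod hK (exists_divMod hK (z + z').2).choose_spec
      ((exists_divMod hK z.2).choose_spec.add (exists_divMod hK z'.2).choose_spec)

theorem theta_eq [Fact p.Prime] (hK : K.IsUnramifiedOutside S)
    (z : ZW K.fixingSubgroup p (unrW S)) {D : HeightOneSpectrum (𝓞 K) →₀ ℤ}
    (h : DivMod p S K (z : Additive Ωˣ) D) :
    theta p hK z = clModp K (placesS S K) p D :=
  clModp_eq_of_divMod hK (exists_divMod hK z.2).choose_spec h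

theorem theta_ker [Fact p.Prime] (hpS : ∀ q : Nat.Primes, (q : ℕ) = p → q ∈ S)
    (hK : K.IsUnramifiedOutside S) :
    (theta p hK).ker = (BW K.fixingSubgroup p (unrW S)).addSubgroupOf
      (ZW K.fixingSubgroup p (unrW S)) := by
  ext z
  rw [AddMonoidHom.mem_ker, AddSubgroup.mem_addSubgroupOf]
  obtain ⟨D, hD⟩ := exists_divMod hK z.2
  rw [theta_eq hK z hD, clModp_eq_zero_iff]
  constructor
  · rintro ⟨k, hk⟩
    exact mem_BW_of_divMod hpS hK z.2.1 hD hk
  · rintro ⟨e, w, he, hw, hz⟩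
    obtain ⟨k, rfl⟩ := exists_kEmb he
    rw [hz] at hD
    exact ⟨k, fun v hv => hD.dvd hK hw hv⟩

theorem theta_surjective [Fact p.Prime] (hpS : ∀ q : Nat.Primes, (q : ℕ) = p → q ∈ S)
    (hK : K.IsUnramifiedOutside S) : Function.Surjective (theta p hK) := by
  have hp : p.Prime := Fact.out
  intro c
  obtain ⟨D, rfl⟩ := clModp_surjective (p := p) (placesS S K) c
  obtain ⟨n, m, β, hm, hβ⟩ := exists_pow_principal_div hp D
  obtain ⟨d, hd⟩ := exists_nsmul_eq_units (pow_pos hp.pos n) (kEmb K β)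
  obtain ⟨h1, h2⟩ := capitulate hpS hK n (fun v _ => hβ v) hd
  refine ⟨⟨d, h1⟩, ?_⟩
  rw [theta_eq hK ⟨d, h1⟩ h2]
  -- `m ≡ 1 mod p`
  have h3 : ((m : ℤ) - 1) • clModp K (placesS S K) p D = 0 := by
    obtain ⟨j, hj⟩ : (p : ℤ) ∣ (m : ℤ) - 1 := by
      have := (Nat.modEq_iff_dvd.1 hm.symm)
      simpa using this
    rw [hj, mul_comm, mul_smul, natCast_zsmul, clModp_nsmul, smul_zero]
  rw [map_nsmul, ← sub_eq_zero]
  rw [sub_smul, one_smul, natCast_zsmul] at h3
  exact h3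

/-- `(W/p)^{G_K}/Kˣ ≅ Cl_S(K)/p` -/
noncomputable def thetaEquiv [Fact p.Prime] (hpS : ∀ q : Nat.Primes, (q : ℕ) = p → q ∈ S)
    (hK : K.IsUnramifiedOutside S) :
    (ZW K.fixingSubgroup p (unrW S) ⧸ (BW K.fixingSubgroup p (unrW S)).addSubgroupOf
      (ZW K.fixingSubgroup p (unrW S))) ≃+
      (ClT K (placesS S K) ⧸ (nsmulAddMonoidHom (α := ClT K (placesS S K)) p).range) :=
  (QuotientAddGroup.quotientAddEquivOfEq (theta_ker hpS hK).symm).trans
    (QuotientAddGroup.quotientKerEquivOfSurjective _ (theta_surjective hpS hK))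

theorem le_krull (S : Finset Nat.Primes) (U : Subgroup Γ) :
    Levels.Cont (krullLevels.onSub U) ((ramLevels S).onSub U) (MonoidHom.id U) := by
  intro V hV
  have : V.comap (MonoidHom.id U) = V := by ext; rfl
  rw [this]
  obtain ⟨W, hW, hle⟩ := hV
  exact ⟨W, ramLevels_le_krullLevels S hW, hle⟩

/-- inflation `H²(G_{K,S}, ℤ/p) → H²(G_K, ℤ/p)` -/
noncomputable def inflH2 (p : ℕ) (S : Finset Nat.Primes) (U : Subgroup Γ) :
    H2 ((ramLevels S).onSub U) (Representation.trivial (ZMod p) U (ZMod p)) →ₗ[ZMod p]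
      H2 (krullLevels.onSub U) (Representation.trivial (ZMod p) U (ZMod p)) :=
  H2map (f := MonoidHom.id U) (φ := LinearMap.id) (le_krull S U) (fun _ _ => rfl)

variable {ζ : Ω}

/-- **(C1)** -/
noncomputable def kerInflEquiv [Fact p.Prime] (hζ : IsPrimitiveRoot ζ p) (hζK : ζ ∈ K)
    (hpS : ∀ q : Nat.Primes, (q : ℕ) = p → q ∈ S) (hK : K.IsUnramifiedOutside S) :
    (ClT K (placesS S K) ⧸ (nsmulAddMonoidHom (α := ClT K (placesS S K)) p).range) ≃+
      ↥(LinearMap.ker (inflH2 p S K.fixingSubgroup)) :=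
  (thetaEquiv hpS hK).symm.trans
    (inflData (Fact.out : p.Prime).ne_zero hζ hζK hK).kerEquiv

theorem card_ker_inflH2 [Fact p.Prime] (hζ : IsPrimitiveRoot ζ p) (hζK : ζ ∈ K)
    (hpS : ∀ q : Nat.Primes, (q : ℕ) = p → q ∈ S) (hK : K.IsUnramifiedOutside S) :
    Nat.card ↥(LinearMap.ker (inflH2 p S K.fixingSubgroup)) =
      Nat.card (nsmulAddMonoidHom (α := ClT K (placesS S K)) p).ker := by
  rw [← Nat.card_congr (kerInflEquiv hζ hζK hpS hK).toEquiv, card_ker_nsmul_ClT]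
  rfl

theorem finite_ker_inflH2 [Fact p.Prime] (hζ : IsPrimitiveRoot ζ p) (hζK : ζ ∈ K)
    (hpS : ∀ q : Nat.Primes, (q : ℕ) = p → q ∈ S) (hK : K.IsUnramifiedOutside S) :
    Finite ↥(LinearMap.ker (inflH2 p S K.fixingSubgroup)) :=
  Finite.of_equiv _ (kerInflEquiv hζ hζK hpS hK).toEquiv

/-- **(C1)**, dimension form: `dim ker = c` where `p^c = |Cl_S(K)[p]|`. -/
theorem exists_finrank_ker_inflH2 [Fact p.Prime] (hζ : IsPrimitiveRoot ζ p) (hζK : ζ ∈ K)
    (hpS : ∀ q : Nat.Primes, (q : ℕ) = p → q ∈ S) (hK : K.IsUnramifiedOutside S) :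
    Nat.card (nsmulAddMonoidHom (α := ClT K (placesS S K)) p).ker =
      p ^ Module.finrank (ZMod p) ↥(LinearMap.ker (inflH2 p S K.fixingSubgroup)) := by
  have := finite_ker_inflH2 hζ hζK hpS hK
  have h1 := Module.natCard_eq_pow_finrank (K := ZMod p)
    (V := ↥(LinearMap.ker (inflH2 p S K.fixingSubgroup)))
  rw [Nat.card_zmod] at h1
  rw [← h1, card_ker_inflH2 hζ hζK hpS hK]

end main

end Fermat.Agent.H47
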