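import Mathlib
import Fermat.Agent.H91InfRes

/-!
# Abstract Brauer group computations: carry cocycles (H7)

`G` a group with a level family, `A` a `G`-module (think of `A = Cˣ`, additively).
-/

set_option autoImplicit false
set_option linter.unusedSectionVars false

namespace Fermat.Agent.H7

open groupCohomology Fermat.Agent.H91 Fermat.Agent.H91.LevelFam

universe u v

variable {G : Type u} [Group G] {A : Type v} [AddCommGroup A] [DistribMulAction G A]

section basic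

variable (A) in
/-- fixed points of a subgroup -/
def fix (U : Subgroup G) : AddSubgroup A where
  carrier := {a | ∀ g ∈ U, g • a = a}
  zero_mem' := fun g _ => smul_zero g
  add_mem' := fun {a b} ha hb g hg => by rw [smul_add, ha g hg, hb g hg]
  neg_mem' := fun {a} ha g hg => by rw [smul_neg, ha g hg]

theorem mem_fix {U : Subgroup G} {a : A} : a ∈ fix A U ↔ ∀ g ∈ U, g • a = a := Iff.rfl

theorem fix_mono {U V : Subgroup G} (h : U ≤ V) : fix A V ≤ fix A U :=
  fun _ ha g hg => ha g (h hg)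

variable (A) in
/-- the norm as a homomorphism -/
def nrmHom (σ : G) (n : ℕ) : A →+ A where
  toFun := nrm σ n
  map_zero' := by simp [nrm]
  map_add' a b := by simp [nrm, smul_add, Finset.sum_add_distrib]

@[simp] theorem nrmHom_apply (σ : G) (n : ℕ) (a : A) : nrmHom A σ n a = nrm σ n a := rfl

/-- value of a character -/
def tv {n : ℕ} (χ : G →* Multiplicative (ZMod n)) (g : G) : ℕ := (Multiplicative.toAdd (χ g)).val

variable {n : ℕ} (χ : G →* Multiplicative (ZMod n))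

/-- the carry -/
def cy (g h : G) : ℕ := (tv χ g + tv χ h) / n

theorem tv_add [NeZero n] (g h : G) : tv χ g + tv χ h = tv χ (g * h) + n * cy χ g h := by
  rw [tv, tv, tv, cy, map_mul, toAdd_mul, ZMod.val_add]
  exact (Nat.mod_add_div _ n).symm

theorem tv_of_mem_ker {g : G} (hg : g ∈ χ.ker) : tv χ g = 0 := by
  rw [tv, MonoidHom.mem_ker.1 hg, toAdd_one, ZMod.val_zero]

theorem tv_lt [NeZero n] (g : G) : tv χ g < n := ZMod.val_lt _

theorem tv_mul_right {g h : G} (hh : h ∈ χ.ker) : tv χ (g * h) = tv χ g := by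
  rw [tv, tv, map_mul, MonoidHom.mem_ker.1 hh, mul_one]

/-- the carry cocycle of a character `χ` and an invariant element `a` -/
def cc (a : A) : G × G → A := fun q => cy χ q.1 q.2 • a

theorem cc_apply (a : A) (g h : G) : cc χ a (g, h) = cy χ g h • a := rfl

theorem cc_add (a b : A) : cc χ (a + b) = cc χ a + cc χ b := by
  funext q; simp [cc, smul_add]

theorem cc_sub (a b : A) : cc χ (a - b) = cc χ a - cc χ b := by
  funext q; simp [cc, smul_sub]

theorem cc_zsmul (k : ℤ) (a : A) : cc χ (k • a) = k • cc χ a := by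
  funext q; simp only [cc, Pi.smul_apply]; rw [smul_comm]

theorem cc_nsmul (k : ℕ) (a : A) : cc χ (k • a) = k • cc χ a := by
  funext q; simp only [cc, Pi.smul_apply]; rw [smul_comm]

theorem cy_assoc [NeZero n] (g h j : G) :
    cy χ (g * h) j + cy χ g h = cy χ h j + cy χ g (h * j) := by
  have h1 := tv_add χ g h
  have h2 := tv_add χ (g * h) j
  have h3 := tv_add χ h j
  have h4 := tv_add χ g (h * j)
  rw [mul_assoc] at h2
  have : n * (cy χ (g * h) j + cy χ g h) = n * (cy χ h j + cy χ g (h * j)) := by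
    rw [mul_add, mul_add]; omega
  exact Nat.eq_of_mul_eq_mul_left (Nat.pos_of_ne_zero (NeZero.ne n)) this

theorem isCocycle₂_cc [NeZero n] {a : A} (ha : a ∈ fix A (⊤ : Subgroup G)) :
    IsCocycle₂ (cc χ a) := by
  intro g h j
  rw [cc_apply, cc_apply, cc_apply, cc_apply, smul_comm g, ha g trivial, ← add_smul, ← add_smul,
    cy_assoc]

theorem inflated_cc [NeZero n] {a : A} (ha : a ∈ fix A (⊤ : Subgroup G)) :
    Inflated χ.ker (cc χ a) where
  coc := isCocycle₂_cc χ ha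
  left h hh g := by
    rw [cc_apply, cy, tv_of_mem_ker χ hh, zero_add, Nat.div_eq_of_lt (tv_lt χ g), zero_smul]
  right g h hh := by
    rw [cc_apply, cy, tv_of_mem_ker χ hh, add_zero, Nat.div_eq_of_lt (tv_lt χ g), zero_smul]

theorem tv_pow [NeZero n] {σ : G} (hσ : χ σ = Multiplicative.ofAdd 1) {k : ℕ} (hk : k < n) :
    tv χ (σ ^ k) = k := by
  rw [tv, map_pow, hσ, ← ofAdd_nsmul, toAdd_ofAdd, nsmul_one, ZMod.val_natCast_of_lt hk]

theorem tinv_cc [NeZero n] (hn : 1 < n) {σ : G} (hσ : χ σ = Multiplicative.ofAdd 1) (a : A) :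
    tinv (cc χ a) σ n = a := by
  rw [tinv]
  have h1 : ∀ k ∈ Finset.range n, cc χ a (σ ^ k, σ) = if k = n - 1 then a else 0 := by
    intro k hk
    rw [Finset.mem_range] at hk
    have h2 := tv_pow χ hσ hn
    rw [pow_one] at h2
    rw [cc_apply, cy, tv_pow χ hσ hk, h2]
    split_ifs with h
    · rw [h, Nat.sub_add_cancel hn.le, Nat.div_self (by omega), one_smul]
    · rw [Nat.div_eq_of_lt (by omega), zero_smul]
  rw [Finset.sum_congr rfl h1, Finset.sum_ite_eq' (Finset.range n) (n - 1) (fun _ => a), if_pos]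
  rw [Finset.mem_range]; omega

theorem pow_mem_ker [NeZero n] {σ : G} (hσ : χ σ = Multiplicative.ofAdd 1) (k : ℕ) :
    σ ^ k ∈ χ.ker ↔ n ∣ k := by
  rw [MonoidHom.mem_ker, map_pow, hσ, ← ofAdd_nsmul, nsmul_one, ← ofAdd_zero,
    Multiplicative.ofAdd.apply_eq_iff_eq, ZMod.natCast_eq_zero_iff]

theorem exists_pow_mul [NeZero n] {σ : G} (hσ : χ σ = Multiplicative.ofAdd 1) (g : G) :
    ∃ k : ℕ, ∃ h ∈ χ.ker, g = σ ^ k * h := by
  refine ⟨tv χ g, (σ ^ tv χ g)⁻¹ * g, ?_, by group⟩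
  rw [MonoidHom.mem_ker, map_mul, map_inv, map_pow, hσ, ← ofAdd_nsmul, nsmul_one, tv,
    ZMod.natCast_val, ZMod.cast_id', id, ofAdd_toAdd, inv_mul_cancel]

theorem tinv_fixed {H : Subgroup G} [H.Normal] {f : G × G → A} (hf : Inflated H f) {σ : G} {n : ℕ}
    (hσ : σ ^ n ∈ H) (hgen : ∀ g : G, ∃ k : ℕ, ∃ h ∈ H, g = σ ^ k * h) :
    tinv f σ n ∈ fix A (⊤ : Subgroup G) := by
  have h1 : ∀ h ∈ H, h • tinv f σ n = tinv f σ n := by
    intro h hh
    rw [tinv, Finset.smul_sum]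
    exact Finset.sum_congr rfl fun k _ => hf.smul_eq _ _ hh
  have h2 : σ • tinv f σ n = tinv f σ n := by
    rw [tinv, Finset.smul_sum]
    have h3 : ∀ k ∈ Finset.range n, σ • f (σ ^ k, σ) =
        f (σ ^ (k + 1), σ) + (f (σ, σ ^ k) - f (σ, σ ^ (k + 1))) := by
      intro k _
      have := hf.coc σ (σ ^ k) σ
      rw [← pow_succ, ← pow_succ'] at this
      linear_combination (norm := abel) -this
    rw [Finset.sum_congr rfl h3, Finset.sum_add_distrib, Finset.sum_range_sub', pow_zero,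
      hf.right _ _ hσ, hf.right _ _ H.one_mem, sub_zero, add_zero]
    have h4 := Finset.sum_range_succ' (fun k => f (σ ^ k, σ)) n
    have h5 := Finset.sum_range_succ (fun k => f (σ ^ k, σ)) n
    rw [pow_zero, hf.left _ H.one_mem, add_zero] at h4
    rw [hf.left _ hσ, add_zero] at h5
    rw [← h4, h5]
  have h3 : ∀ k : ℕ, σ ^ k • tinv f σ n = tinv f σ n := by
    intro k
    induction k with
    | zero => rw [pow_zero, one_smul]
    | succ k ih => rw [pow_succ, mul_smul, h2, ih]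
  intro g _
  obtain ⟨k, h, hh, rfl⟩ := hgen g
  rw [mul_smul, h1 h hh, h3]

end basic

section reduce

variable {m q n : ℕ} (hn : n = q * m)

/-- reduction of a character -/
def redc (χ : G →* Multiplicative (ZMod n)) : G →* Multiplicative (ZMod m) :=
  (AddMonoidHom.toMultiplicative (ZMod.castHom (Dvd.intro_left q hn.symm) (ZMod m)).toAddMonoidHom).comp
    χ

theorem toAdd_redc (χ : G →* Multiplicative (ZMod n)) (g : G) :
    Multiplicative.toAdd (redc hn χ g) =
      ZMod.castHom (Dvd.intro_left q hn.symm) (ZMod m) (Multiplicative.toAdd (χ g)) := rfl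

theorem redc_gen {χ : G →* Multiplicative (ZMod n)} {σ : G}
    (hσ : χ σ = Multiplicative.ofAdd 1) : redc hn χ σ = Multiplicative.ofAdd 1 := by
  apply Multiplicative.toAdd.injective
  rw [toAdd_redc, hσ, toAdd_ofAdd, map_one, toAdd_ofAdd]

theorem ker_le_redc (χ : G →* Multiplicative (ZMod n)) : χ.ker ≤ (redc hn χ).ker := by
  intro g hg
  rw [MonoidHom.mem_ker]
  apply Multiplicative.toAdd.injective
  rw [toAdd_redc, MonoidHom.mem_ker.1 hg, toAdd_one, map_zero, toAdd_one]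

theorem tv_redc [NeZero n] (χ : G →* Multiplicative (ZMod n)) (g : G) :
    tv (redc hn χ) g = tv χ g % m := by
  have : Multiplicative.toAdd (redc hn χ g) = ((tv χ g : ℕ) : ZMod m) := by
    rw [toAdd_redc, ZMod.castHom_apply, tv, ZMod.natCast_val]
  rw [tv, this, ZMod.val_natCast]

theorem redc_cy [NeZero n] [NeZero m] (χ : G →* Multiplicative (ZMod n)) (g h : G) :
    (q * cy χ g h : ℤ) - cy (redc hn χ) g h
      = (tv χ h / m : ℕ) - (tv χ (g * h) / m : ℕ) + (tv χ g / m : ℕ) := by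
  have h1 := tv_add χ g h
  have h2 := tv_add (redc hn χ) g h
  rw [tv_redc, tv_redc, tv_redc] at h2
  have e1 := Nat.mod_add_div (tv χ g) m
  have e2 := Nat.mod_add_div (tv χ h) m
  have e3 := Nat.mod_add_div (tv χ (g * h)) m
  have hm : (m : ℤ) ≠ 0 := by exact_mod_cast NeZero.ne m
  apply mul_left_cancel₀ hm
  have hn' : (n : ℤ) = q * m := by exact_mod_cast hn
  zify at h1 h2 e1 e2 e3
  rw [hn'] at h1
  push_cast
  linear_combination h2 - h1 - e1 - e2 + e3

end reduce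


section coh

variable (𝓥 : LevelFam G)

/-- cohomologous level cocycles -/
def Coh (f f' : G × G → A) : Prop := 𝓥.Triv₂ (f - f')

variable {𝓥}

theorem Coh.refl (f : G × G → A) : Coh 𝓥 f f := by
  rw [Coh, sub_self]; exact triv₂_zero

theorem Coh.trans {f f' f'' : G × G → A} (h : Coh 𝓥 f f') (h' : Coh 𝓥 f' f'') : Coh 𝓥 f f'' := by
  have := Triv₂.add h h'
  rwa [sub_add_sub_cancel] at this

theorem Triv₂.neg' {f : G × G → A} (hf : 𝓥.Triv₂ f) : 𝓥.Triv₂ (-f) := by
  have := Triv₂.sub triv₂_zero hf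
  rwa [zero_sub] at this

theorem Coh.symm {f f' : G × G → A} (h : Coh 𝓥 f f') : Coh 𝓥 f' f := by
  have := Triv₂.neg' h
  rwa [neg_sub] at this

theorem Coh.triv {f f' : G × G → A} (h : Coh 𝓥 f f') (h' : 𝓥.Triv₂ f') : 𝓥.Triv₂ f := by
  have := Triv₂.add h h'
  rwa [sub_add_cancel] at this

theorem Coh.triv_iff {f f' : G × G → A} (h : Coh 𝓥 f f') : 𝓥.Triv₂ f ↔ 𝓥.Triv₂ f' :=
  ⟨fun h' => h.symm.triv h', fun h' => h.triv h'⟩

theorem Coh.zsmul {f f' : G × G → A} (h : Coh 𝓥 f f') (k : ℤ) : Coh 𝓥 (k • f) (k • f') := by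
  have := Triv₂.zsmul h k
  rwa [smul_sub] at this

theorem Coh.add {f f' g g' : G × G → A} (h : Coh 𝓥 f f') (h' : Coh 𝓥 g g') :
    Coh 𝓥 (f + g) (f' + g') := by
  have := Triv₂.add h h'
  rwa [sub_add_sub_comm] at this

theorem isConst₁_of_ker {n : ℕ} {χ : G →* Multiplicative (ZMod n)}
    (hχ : 𝓥.IsOpenSubgroup χ.ker) {X : Type*} (F : Multiplicative (ZMod n) → X) :
    𝓥.IsConst₁ (fun g => F (χ g)) := by
  obtain ⟨V, hV, hle⟩ := hχ
  exact ⟨V, hV, fun g s hs => by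
    show F (χ (g * s)) = F (χ g)
    rw [map_mul, MonoidHom.mem_ker.1 (hle hs), mul_one]⟩

theorem isConst₂_cc {n : ℕ} {χ : G →* Multiplicative (ZMod n)}
    (hχ : 𝓥.IsOpenSubgroup χ.ker) (a : A) : 𝓥.IsConst₂ (cc χ a) := by
  obtain ⟨V, hV, hle⟩ := hχ
  exact ⟨V, hV, fun g g' s hs s' hs' => by
    rw [cc_apply, cc_apply, cy, cy, tv_mul_right χ (hle hs), tv_mul_right χ (hle hs')]⟩

/-- `q · f_{χ,a} ~ f_{χ mod m, a}` -/
theorem coh_redc {m q n : ℕ} (hn : n = q * m) [NeZero n] [NeZero m]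
    {χ : G →* Multiplicative (ZMod n)}
    (hχ : 𝓥.IsOpenSubgroup χ.ker) {a : A} (ha : a ∈ fix A (⊤ : Subgroup G)) :
    Coh 𝓥 ((q : ℤ) • cc χ a) (cc (redc hn χ) a) := by
  refine ⟨fun g => (tv χ g / m : ℕ) • a, ?_, fun g h => ?_⟩
  · exact isConst₁_of_ker hχ (fun z => ((Multiplicative.toAdd z).val / m : ℕ) • a)
  · rw [dd_apply, smul_comm g, ha g trivial, Pi.sub_apply, Pi.smul_apply, cc_apply, cc_apply]
    have := redc_cy hn χ g h
    rw [← natCast_zsmul a (tv χ h / m), ← natCast_zsmul a (tv χ (g * h) / m),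
      ← natCast_zsmul a (tv χ g / m), ← natCast_zsmul a (cy χ g h),
      ← natCast_zsmul a (cy (redc hn χ) g h), smul_smul, ← sub_smul, ← sub_smul, ← add_smul, this]

/-- trivial iff norm -/
theorem triv₂_cc_iff {n : ℕ} [NeZero n] (hn : 1 < n) {χ : G →* Multiplicative (ZMod n)}
    (hχ : 𝓥.IsOpenSubgroup χ.ker) (h90 : (𝓥.restrict χ.ker).H90 A) {σ : G}
    (hσ : χ σ = Multiplicative.ofAdd 1) {a : A} (ha : a ∈ fix A (⊤ : Subgroup G)) :
    𝓥.Triv₂ (cc χ a) ↔ a ∈ (fix A χ.ker).map (nrmHom A σ n) := by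
  constructor
  · intro h
    obtain ⟨b, hb, h2⟩ := exists_nrm_eq_tinv h90 (inflated_cc χ ha)
      ((pow_mem_ker χ hσ n).2 dvd_rfl) h
    rw [tinv_cc χ hn hσ] at h2
    exact ⟨b, hb, h2.symm⟩
  · rintro ⟨b, hb, h2⟩
    refine triv₂_of_tinv_eq_nrm hχ (inflated_cc χ ha) (pow_mem_ker χ hσ) (exists_pow_mul χ hσ)
      hb ?_
    rw [tinv_cc χ hn hσ]; exact h2.symm

/-- every class killed by `χ.ker` is a carry class -/
theorem exists_coh_cc {n : ℕ} [NeZero n] (hn : 1 < n) {χ : G →* Multiplicative (ZMod n)}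
    (hA : 𝓥.Smooth A) (hχ : 𝓥.IsOpenSubgroup χ.ker) (h90 : (𝓥.restrict χ.ker).H90 A) {σ : G}
    (hσ : χ σ = Multiplicative.ofAdd 1) {f : G × G → A} (hf : IsCocycle₂ f) (hc : 𝓥.IsConst₂ f)
    (ht : (𝓥.restrict χ.ker).Triv₂ (res₂ χ.ker f)) :
    ∃ a ∈ fix A (⊤ : Subgroup G), Coh 𝓥 f (cc χ a) := by
  obtain ⟨x, hx, hi⟩ := exists_inflated hA hχ h90 hf hc ht
  have hσn := (pow_mem_ker χ hσ n).2 dvd_rfl
  have ha := tinv_fixed hi hσn (exists_pow_mul χ hσ)
  refine ⟨tinv (f - dd x) σ n, ha, ?_⟩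
  have hd : Inflated χ.ker ((f - dd x) - cc χ (tinv (f - dd x) σ n)) := by
    have hcc := inflated_cc χ ha
    refine ⟨IsCocycle₂.sub' hi.coc hcc.coc, fun h hh g => ?_, fun g h hh => ?_⟩
    · rw [Pi.sub_apply, hi.left h hh, hcc.left h hh, sub_zero]
    · rw [Pi.sub_apply, hi.right g h hh, hcc.right g h hh, sub_zero]
  have ht0 : 𝓥.Triv₂ ((f - dd x) - cc χ (tinv (f - dd x) σ n)) := by
    refine triv₂_of_tinv_eq_nrm hχ hd (pow_mem_ker χ hσ) (exists_pow_mul χ hσ) (a := 0)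
      (fun h _ => smul_zero h) ?_
    have h1 : tinv ((f - dd x) - cc χ (tinv (f - dd x) σ n)) σ n
        = tinv (f - dd x) σ n - tinv (cc χ (tinv (f - dd x) σ n)) σ n := by
      simp only [tinv, Pi.sub_apply, Finset.sum_sub_distrib]
    rw [h1, tinv_cc χ hn hσ, sub_self]
    simp [nrm]
  have h2 := Triv₂.add ht0 (triv₂_dd hx)
  have h3 : f - dd x - cc χ (tinv (f - dd x) σ n) + dd x = f - cc χ (tinv (f - dd x) σ n) := by
    abel
  rwa [h3] at h2

end coh

end Fermat.Agent.H7
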