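import Mathlib
import Fermat.Agent.H47C1
import Fermat.Agent.H7BrCarry

/-!
# (C3), part 1: elements with prescribed divisor, norms of divisors
-/

set_option autoImplicit false
set_option linter.unusedSectionVars false

namespace Fermat.Agent.H54

open NumberField IsDedekindDomain Fermat.Agent.H63 Fermat.Agent.H64 Fermat.Agent.H55
  Fermat.Agent.H91 Fermat.Agent.H47
open scoped Pointwise

local notation "Ω" => AlgebraicClosure ℚ
local notation "Γ" => (AlgebraicClosure ℚ ≃ₐ[ℚ] AlgebraicClosure ℚ)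

/-- the valuation of `z` is that of `π ^ n` -/
def EV (A : ValuationSubring Ω) (π : Ω) (z : Additive Ωˣ) (n : ℤ) : Prop :=
  A.valuation (uval z) = A.valuation π ^ n

section EV

variable {A : ValuationSubring Ω} {π : Ω} (hπ : π ≠ 0)

theorem EV.zero : EV A π 0 0 := by
  rw [EV, uval_zero, map_one, zpow_zero]

include hπ

theorem EV.add {z z' : Additive Ωˣ} {n n' : ℤ} (h : EV A π z n) (h' : EV A π z' n') :
    EV A π (z + z') (n + n') := by
  rw [EV] at h h' ⊢
  rw [uval_add, map_mul, h, h', zpow_add₀ ((Valuation.ne_zero_iff _).2 hπ)]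

omit hπ in
theorem EV.neg {z : Additive Ωˣ} {n : ℤ} (h : EV A π z n) : EV A π (-z) (-n) := by
  rw [EV] at h ⊢
  rw [uval_neg, map_inv₀, h, zpow_neg]

theorem EV.sub {z z' : Additive Ωˣ} {n n' : ℤ} (h : EV A π z n) (h' : EV A π z' n') :
    EV A π (z - z') (n - n') := by
  rw [sub_eq_add_neg, sub_eq_add_neg]
  exact h.add hπ h'.neg

omit hπ in
theorem EV.nsmul {z : Additive Ωˣ} {n : ℤ} (h : EV A π z n) (m : ℕ) :
    EV A π (m • z) (m * n) := by
  rw [EV] at h ⊢
  rw [uval_nsmul, map_pow, h, ← zpow_natCast, ← zpow_mul, mul_comm]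

theorem EV.sum {ι : Type*} (s : Finset ι) {z : ι → Additive Ωˣ} {n : ι → ℤ}
    (h : ∀ i ∈ s, EV A π (z i) (n i)) : EV A π (∑ i ∈ s, z i) (∑ i ∈ s, n i) := by
  classical
  induction s using Finset.induction_on with
  | empty => simpa using EV.zero
  | insert i s hi ih =>
    rw [Finset.sum_insert hi, Finset.sum_insert hi]
    exact (h i (Finset.mem_insert_self _ _)).add hπ
      (ih fun j hj => h j (Finset.mem_insert_of_mem hj))

end EV

theorem eq_one_of_pow_eq_one' {Γ₀ : Type*} [LinearOrderedCommGroupWithZero Γ₀] {x : Γ₀} {n : ℕ}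
    (hn : n ≠ 0) (h : x ^ n = 1) : x = 1 := by
  rcases lt_trichotomy x 1 with h3 | h3 | h3
  · exact absurd h (pow_lt_one₀ zero_le h3 hn).ne
  · exact h3
  · exact absurd h (one_lt_pow₀ h3 hn).ne'

section root

variable {S : Finset Nat.Primes} {p : ℕ}

/-- an element unramified outside `S` whose valuations outside `S` are `p`-divisible is the
`p`-th power of an element unramified outside `S` -/
theorem exists_root [Fact p.Prime] (hpS : ∀ q : Nat.Primes, (q : ℕ) = p → q ∈ S)
    {z : Additive Ωˣ} (hz : z ∈ unrW S)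
    (h : ∀ q : Nat.Primes, q ∉ S → ∀ A : ValuationSubring Ω, A.LiesOverPrime (q : ℕ) →
      ∃ w : Additive Ωˣ, w ∈ unrW S ∧ A.valuation (uval z) = A.valuation (uval w) ^ p) :
    ∃ u ∈ unrW S, p • u = z := by
  have hp : p.Prime := Fact.out
  obtain ⟨u, hu⟩ := exists_nsmul_eq_units hp.pos z
  refine ⟨u, ?_, hu⟩
  intro q hq A hA σ hσ
  have hqp : (q : ℕ) ≠ p := fun h => hq (hpS q h)
  obtain ⟨w, hw, hval⟩ := h q hq A hA
  have hw0 : uval w ≠ 0 := uval_ne_zero w
  have hup : uval u ^ p = uval z := by rw [← uval_nsmul, hu]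
  have h1 : A.valuation (uval u / uval w) = 1 := by
    apply eq_one_of_pow_eq_one' hp.ne_zero
    rw [← map_pow, div_pow, hup, map_div₀, hval, map_pow, div_self]
    exact pow_ne_zero _ ((Valuation.ne_zero_iff _).2 hw0)
  have h2 : σ (uval u / uval w) = uval u / uval w := by
    refine eq_of_mem_inertia (natCast_notMem_center q.2 hqp hA) hσ h1 ?_
    rw [div_pow, hup, map_div₀, map_pow, hw q hq A hA σ hσ, hz q hq A hA σ hσ]
  have h4 : uval u = (uval u / uval w) * uval w := by rw [div_mul_cancel₀ _ hw0]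
  rw [h4, map_mul, h2, hw q hq A hA σ hσ]

theorem smul_mem_unrW (g : Γ) {z : Additive Ωˣ} (hz : z ∈ unrW S) : g • z ∈ unrW S := by
  intro q hq A hA σ hσ
  have h1 := hz q hq (g⁻¹ • A) (liesOverPrime_smul' hA g⁻¹) (g⁻¹ * σ * g) (by
    have := conj_mem_inertia hσ g⁻¹
    rwa [inv_inv] at this)
  have h2 : g ((g⁻¹ * σ * g) (uval z)) = σ (g (uval z)) := by
    simp [AlgEquiv.mul_apply, AlgEquiv.aut_inv]
  rw [h1] at h2
  exact h2.symm

end root

section field

variable {S : Finset Nat.Primes} {K : IntermediateField ℚ Ω} [NumberField K]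
  (E : Type) [Field E] [NumberField E] [Algebra E Ω]

/-- units of `E` as elements of the module of units of `ℚ̄` -/
noncomputable def eEmb (k : Eˣ) : Additive Ωˣ :=
  Additive.ofMul (Units.map (algebraMap E Ω : E →* Ω) k)

variable {E}

@[simp] theorem uval_eEmb (k : Eˣ) : uval (eEmb E k) = algebraMap E Ω (k : E) := rfl

theorem eEmb_mul (k k' : Eˣ) : eEmb E (k * k') = eEmb E k + eEmb E k' :=
  uval_injective (by rw [uval_add, uval_eEmb, uval_eEmb, uval_eEmb, Units.val_mul, map_mul])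

/-- elements of `E` in terms of a uniformiser -/
theorem EV_eEmb {q : ℕ} (hq : q.Prime) {A : ValuationSubring Ω} (hA : A.LiesOverPrime q)
    {π : Eˣ} (hπ : ordHom (placeBelow E hq hA) (Additive.ofMul π) = 1) (x : Eˣ) :
    EV A (algebraMap E Ω π) (eEmb E x) (ordHom (placeBelow E hq hA) (Additive.ofMul x)) := by
  set n := ordHom (placeBelow E hq hA) (Additive.ofMul x) with hn
  have h := valuation_eq_of_ordHom_eq E hq hA (x := x) (y := π ^ n) (by
    rw [ofMul_zpow, map_zsmul, hπ, smul_eq_mul, mul_one])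
  rw [EV, uval_eEmb, h, Units.val_zpow_eq_zpow_val, map_zpow₀, map_zpow₀]

/-- roots of elements of `E` with divisible divisor -/
theorem EV_of_nsmul {n : ℕ} (hn : n ≠ 0) {β : Eˣ} {d : Additive Ωˣ} (hd : n • d = eEmb E β)
    {q : ℕ} (hq : q.Prime) {A : ValuationSubring Ω} (hA : A.LiesOverPrime q) {m : ℤ}
    (hβ : ordHom (placeBelow E hq hA) (Additive.ofMul β) = n * m)
    {π : Eˣ} (hπ : ordHom (placeBelow E hq hA) (Additive.ofMul π) = 1) :
    EV A (algebraMap E Ω π) d m := by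
  have h1 := EV_eEmb hq hA hπ β
  rw [hβ, EV, ← hd, uval_nsmul, map_pow, mul_comm, zpow_mul, zpow_natCast] at h1
  have hπ0 : A.valuation (algebraMap E Ω (π : E)) ≠ 0 :=
    (Valuation.ne_zero_iff _).2 ((map_ne_zero _).2 π.ne_zero)
  have h0 : A.valuation (algebraMap E Ω (π : E)) ^ m ≠ 0 := zpow_ne_zero _ hπ0
  have h2 : (A.valuation (uval d) / A.valuation (algebraMap E Ω (π : E)) ^ m) ^ n = 1 := by
    rw [div_pow, h1, div_self (pow_ne_zero _ h0)]
  exact (div_eq_one_iff_eq h0).1 (eq_one_of_pow_eq_one' hn h2)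

theorem mem_unrW_of_nsmul {p : ℕ} [Fact p.Prime] (hpS : ∀ q : Nat.Primes, (q : ℕ) = p → q ∈ S)
    (hE : ∀ q : Nat.Primes, q ∉ S → ∀ A : ValuationSubring Ω, A.LiesOverPrime (q : ℕ) →
      ∀ σ ∈ A.inertiaSubgroupIn ℚ, ∀ x : E, σ (algebraMap E Ω x) = algebraMap E Ω x)
    {n : ℕ} {β : Eˣ} {d : Additive Ωˣ} (hd : (p ^ n) • d = eEmb E β)
    {D : HeightOneSpectrum (𝓞 E) → ℤ}
    (hβ : ∀ v, ordHom v (Additive.ofMul β) = (p ^ n : ℕ) * D v) : d ∈ unrW S := by
  have hp : p.Prime := Fact.out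
  intro q hq A hA σ hσ
  have hqp : (q : ℕ) ≠ p := fun h => hq (hpS q h)
  obtain ⟨π, hπ⟩ := exists_ordHom_eq_int (placeBelow E q.2 hA) 1
  have h1 := EV_of_nsmul (pow_ne_zero n hp.ne_zero) hd q.2 hA (hβ _) hπ
  set m := D (placeBelow E q.2 hA)
  set x : Ω := algebraMap E Ω (π : E) ^ m with hx
  have hπ0 : algebraMap E Ω (π : E) ≠ 0 := (map_ne_zero _).2 π.ne_zero
  have hx0 : x ≠ 0 := zpow_ne_zero _ hπ0
  have hσx : σ x = x := by rw [hx, map_zpow₀, hE q hq A hA σ hσ]
  have h2 : A.valuation (uval d / x) = 1 := by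
    rw [map_div₀, hx, map_zpow₀, h1, div_self]
    exact zpow_ne_zero _ ((Valuation.ne_zero_iff _).2 hπ0)
  have h3 : σ (uval d / x) = uval d / x := by
    refine eq_of_mem_inertia (n := p ^ n) ?_ hσ h2 ?_
    · rw [Nat.cast_pow]
      exact fun h => natCast_notMem_center q.2 hqp hA
        ((inferInstance : (center A).IsPrime).mem_of_pow_mem _ h)
    · rw [div_pow, ← uval_nsmul, hd, uval_eEmb, map_div₀, hE q hq A hA σ hσ, map_pow, hσx]
  have h4 : uval d = (uval d / x) * x := by rw [div_mul_cancel₀ _ hx0]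
  rw [h4, map_mul, h3, hσx]

variable [Algebra K E] [IsScalarTower K E Ω] [IsGalois K E]

variable (E) in
/-- restriction of an element of `Gal(ℚ̄/K)` to `E` -/
noncomputable def resE (g : K.fixingSubgroup) : E ≃ₐ[K] E :=
  (IntermediateField.fixingSubgroupEquiv K g).restrictNormal E

theorem algebraMap_resE (g : K.fixingSubgroup) (x : E) :
    algebraMap E Ω (resE E g x) = (g : Γ) (algebraMap E Ω x) :=
  AlgEquiv.restrictNormal_commutes (IntermediateField.fixingSubgroupEquiv K g) E x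

theorem placeBelow_smul_eq {q : ℕ} (hq : q.Prime) {A : ValuationSubring Ω}
    (hA : A.LiesOverPrime q) (g : K.fixingSubgroup) :
    placeBelow E hq (liesOverPrime_smul (g : Γ) hA) = smulPlace (resE E g) (placeBelow E hq hA) := by
  apply HeightOneSpectrum.ext
  ext x
  rw [placeBelow_asIdeal, smulPlace_asIdeal, placeBelow_asIdeal, Ideal.mem_comap, center_smul,
    Ideal.mem_pointwise_smul_iff_inv_smul_mem, Ideal.mem_pointwise_smul_iff_inv_smul_mem,
    Ideal.mem_comap]
  have h1 : (g : Γ)⁻¹ • (algebraMap (𝓞 E) (𝓞 Ω) x) = algebraMap (𝓞 E) (𝓞 Ω) ((resE E g)⁻¹ • x) := by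
    rw [inv_smul_eq_iff]
    apply RingOfIntegers.ext
    have h2 : (((g : Γ) • algebraMap (𝓞 E) (𝓞 Ω) ((resE E g)⁻¹ • x) : 𝓞 Ω) : Ω) =
        (g : Γ) (algebraMap E Ω (((resE E g)⁻¹ • x : 𝓞 E) : E)) := rfl
    rw [h2, ← algebraMap_resE]
    have h3 : resE E g (((resE E g)⁻¹ • x : 𝓞 E) : E) = (x : E) := by
      have : (((resE E g)⁻¹ • x : 𝓞 E) : E) = (resE E g)⁻¹ (x : E) := rfl
      rw [this, AlgEquiv.aut_inv, AlgEquiv.apply_symm_apply]
    rw [h3]
    rfl
  rw [h1]

/-- valuations of translates -/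
theorem EV_smul {D : HeightOneSpectrum (𝓞 E) → ℤ} {z : Additive Ωˣ}
    (hz : ∀ (q : ℕ) (hq : q.Prime) (A : ValuationSubring Ω) (hA : A.LiesOverPrime q) (π : Eˣ),
      ordHom (placeBelow E hq hA) (Additive.ofMul π) = 1 →
        EV A (algebraMap E Ω π) z (D (placeBelow E hq hA)))
    {q : ℕ} (hq : q.Prime) {A : ValuationSubring Ω} (hA : A.LiesOverPrime q) {π : Eˣ}
    (hπ : ordHom (placeBelow E hq hA) (Additive.ofMul π) = 1) (g : K.fixingSubgroup) :
    EV A (algebraMap E Ω π) (g • z)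
      (D (placeBelow E hq (liesOverPrime_smul ((g⁻¹ : K.fixingSubgroup) : Γ) hA))) := by
  set A' : ValuationSubring Ω := ((g⁻¹ : K.fixingSubgroup) : Γ) • A with hA'
  have hA'' : A'.LiesOverPrime q := liesOverPrime_smul ((g⁻¹ : K.fixingSubgroup) : Γ) hA
  set π' : Eˣ := Units.map (resE E g⁻¹ : E →* E) π with hπ'
  have h1 : ordHom (placeBelow E hq hA'') (Additive.ofMul π') = 1 := by
    have := placeBelow_smul_eq (E := E) hq hA g⁻¹
    rw [this, hπ', ordHom_smulPlace, hπ]
  have h2 := hz q hq A' hA'' π' h1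
  set m := D (placeBelow E hq hA'') with hm
  have hπ0 : algebraMap E Ω (π : E) ≠ 0 := (map_ne_zero _).2 π.ne_zero
  have hg : (g : Γ) • A' = A := by
    rw [hA', ← mul_smul, ← Subgroup.coe_mul, mul_inv_cancel, Subgroup.coe_one, one_smul]
  have h3 : (g : Γ) (algebraMap E Ω (π' : E)) = algebraMap E Ω (π : E) := by
    have h4 : (π' : E) = resE E g⁻¹ (π : E) := rfl
    rw [h4, algebraMap_resE, Subgroup.coe_inv, AlgEquiv.aut_inv, AlgEquiv.apply_symm_apply]
  have h4 : A'.valuation (uval z) = A'.valuation (algebraMap E Ω (π' : E) ^ m) := by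
    rw [map_zpow₀]; exact h2
  have hπ'0 : algebraMap E Ω (π' : E) ^ m ≠ 0 := zpow_ne_zero _ ((map_ne_zero _).2 π'.ne_zero)
  rw [← valuation_smul_eq_iff (g : Γ) A' (uval_ne_zero z) hπ'0, hg] at h4
  have h5 : (g : Γ) • (algebraMap E Ω (π' : E) ^ m) = algebraMap E Ω (π : E) ^ m := by
    show (g : Γ) (algebraMap E Ω (π' : E) ^ m) = _
    rw [map_zpow₀, h3]
  rw [h5, map_zpow₀] at h4
  exact h4

end field


section divisor

variable {S : Finset Nat.Primes} {K : IntermediateField ℚ Ω} [NumberField K]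
  {E : Type} [Field E] [NumberField E] [Algebra E Ω] [Algebra K E] [IsScalarTower K E Ω]
  [IsGalois K E]

/-- every `K`-automorphism of `E` is the restriction of an automorphism of `ℚ̄` -/
theorem exists_resE_eq (τ : E ≃ₐ[K] E) : ∃ g : K.fixingSubgroup, resE E g = τ := by
  have hnormal : Normal K Ω := Normal.tower_top_of_normal ℚ K Ω
  let g : Γ := (τ.liftNormal Ω).restrictScalars ℚ
  have hgE : ∀ y : E, g (algebraMap E Ω y) = algebraMap E Ω (τ y) := fun y =>
    AlgEquiv.liftNormal_commutes τ Ω y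
  have hgK : g ∈ K.fixingSubgroup := by
    rw [IntermediateField.mem_fixingSubgroup_iff]
    intro x hx
    exact (τ.liftNormal Ω).commutes (⟨x, hx⟩ : K)
  refine ⟨⟨g, hgK⟩, ?_⟩
  ext x
  apply (algebraMap E Ω).injective
  rw [algebraMap_resE]
  exact hgE x

theorem resE_mul (g h : K.fixingSubgroup) : resE E (g * h) = resE E g * resE E h := by
  ext x
  apply (algebraMap E Ω).injective
  rw [algebraMap_resE, AlgEquiv.mul_apply, algebraMap_resE, algebraMap_resE]
  rfl

theorem smulPlace_mul (σ τ : E ≃ₐ[K] E) (w : HeightOneSpectrum (𝓞 E)) :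
    smulPlace (σ * τ) w = smulPlace σ (smulPlace τ w) := by
  apply HeightOneSpectrum.ext
  rw [smulPlace_asIdeal, smulPlace_asIdeal, smulPlace_asIdeal, mul_smul]

theorem smulPlace_one (w : HeightOneSpectrum (𝓞 E)) : smulPlace (1 : E ≃ₐ[K] E) w = w := by
  apply HeightOneSpectrum.ext
  rw [smulPlace_asIdeal, one_smul]

theorem ordHom_smulPlace_algebraMap (σ : E ≃ₐ[K] E) (w : HeightOneSpectrum (𝓞 E)) (a : Kˣ) :
    ordHom (smulPlace σ w) (Additive.ofMul (Units.map (algebraMap K E : K →* E) a)) =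
      ordHom w (Additive.ofMul (Units.map (algebraMap K E : K →* E) a)) := by
  rw [← ordHom_smulPlace σ w]
  congr 2
  ext
  exact (σ.commutes (a : K)).symm

variable {p : ℕ} [hp : Fact p.Prime]
  (χ : K.fixingSubgroup →* Multiplicative (ZMod p))

/-- `χ` cuts out the extension `E / K` -/
def Cuts (E : Type) [Field E] [Algebra E Ω] (χ : K.fixingSubgroup →* Multiplicative (ZMod p)) :
    Prop :=
  ∀ g : K.fixingSubgroup, χ g = 1 ↔ ∀ x : E, (g : Γ) (algebraMap E Ω x) = algebraMap E Ω x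

variable {χ}

theorem Cuts.resE_eq (h : Cuts E χ) {g g' : K.fixingSubgroup} (hgg : χ g = χ g') :
    resE E g = resE E g' := by
  have h1 : χ (g'⁻¹ * g) = 1 := by rw [map_mul, map_inv, hgg, inv_mul_cancel]
  rw [h] at h1
  ext x
  apply (algebraMap E Ω).injective
  rw [algebraMap_resE, algebraMap_resE]
  have h2 := h1 x
  have h3 : (g : Γ) (algebraMap E Ω x) = (g' : Γ) (((g'⁻¹ * g : K.fixingSubgroup) : Γ)
      (algebraMap E Ω x)) := by
    rw [Subgroup.coe_mul, Subgroup.coe_inv, AlgEquiv.mul_apply, AlgEquiv.aut_inv,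
      AlgEquiv.apply_symm_apply]
  rw [h3, h2]

/-- the sum of a function over the translates of a place -/
theorem sum_translates (h : Cuts E χ) (s : ZMod p → K.fixingSubgroup)
    (hs : ∀ c, χ (s c) = Multiplicative.ofAdd c) {v : HeightOneSpectrum (𝓞 K)}
    {w w₀ : HeightOneSpectrum (𝓞 E)} (hw : w ∈ H82.above E v) (hw₀ : w₀ ∈ H82.above E v)
    (hns : ¬ H82.NonSplit E v) :
    ∃! c : ZMod p, smulPlace (resE E (s c)⁻¹) w = w₀ := by
  obtain ⟨τ, hτ⟩ := exists_smulPlace_eq hw hw₀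
  obtain ⟨g, rfl⟩ := exists_resE_eq τ
  have hex : ∀ g : K.fixingSubgroup, ∃ c : ZMod p, resE E (s c)⁻¹ = resE E g := by
    intro g
    refine ⟨-(Multiplicative.toAdd (χ g)), h.resE_eq ?_⟩
    rw [map_inv, hs, ofAdd_neg, inv_inv, ofAdd_toAdd]
  obtain ⟨c, hc⟩ := hex g
  refine ⟨c, by show smulPlace _ w = w₀; rw [hc, hτ], fun c' hc' => ?_⟩
  by_contra hne
  apply hns
  -- the element `ρ` with `ρ w₀ = w₀`
  set ρ : K.fixingSubgroup := (s c')⁻¹ * (s c) with hρ
  have hρw : smulPlace (resE E ρ) w₀ = w₀ := by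
    rw [← hτ, ← hc, ← smulPlace_mul, ← resE_mul, hρ, mul_assoc, mul_inv_cancel, mul_one, hc', hc, hτ]
  have hρk : ∀ k : ℕ, smulPlace (resE E (ρ ^ k)) w₀ = w₀ := by
    intro k
    induction k with
    | zero =>
      have : resE E (ρ ^ 0 : K.fixingSubgroup) = 1 := by
        ext x
        apply (algebraMap E Ω).injective
        rw [algebraMap_resE, pow_zero]
        rfl
      rw [this, smulPlace_one]
    | succ k ih => rw [pow_succ, resE_mul, smulPlace_mul, hρw, ih]
  have hχρ : Multiplicative.toAdd (χ ρ) ≠ 0 := by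
    rw [hρ, map_mul, map_inv, hs, hs, toAdd_mul, toAdd_inv, toAdd_ofAdd, toAdd_ofAdd]
    intro h0
    apply hne
    linear_combination -h0
  have hall : ∀ g : K.fixingSubgroup, smulPlace (resE E g) w₀ = w₀ := by
    intro g
    have : resE E g = resE E (ρ ^ (Multiplicative.toAdd (χ g) *
        (Multiplicative.toAdd (χ ρ))⁻¹).val) := by
      apply h.resE_eq
      apply Multiplicative.toAdd.injective
      rw [map_pow, toAdd_pow, nsmul_eq_mul, ZMod.natCast_val, ZMod.cast_id', id,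
        inv_mul_cancel_right₀ hχρ]
    rw [this, hρk]
  rw [H82.NonSplit, Set.ncard_eq_one]
  refine ⟨w₀, Set.eq_singleton_iff_unique_mem.2 ⟨hw₀, fun w' hw' => ?_⟩⟩
  obtain ⟨τ', hτ'⟩ := exists_smulPlace_eq hw₀ hw'
  obtain ⟨g', rfl⟩ := exists_resE_eq τ'
  rw [← hτ', hall]

/-- If `a ∈ Kˣ` has order divisible by `p` at the nonsplit places, its divisor is a norm. -/
theorem exists_divisor (h : Cuts E χ) (a : Kˣ) {T : Set (HeightOneSpectrum (𝓞 K))}
    (ha : ∀ v, v ∉ T → H82.NonSplit E v → (p : ℤ) ∣ ordHom v (Additive.ofMul a)) :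
    ∃ D : HeightOneSpectrum (𝓞 E) →₀ ℤ, ∀ (w : HeightOneSpectrum (𝓞 E)), below K w ∉ T →
      ∀ s : ZMod p → K.fixingSubgroup, (∀ c, χ (s c) = Multiplicative.ofAdd c) →
        ∑ c, D (smulPlace (resE E (s c)⁻¹) w) =
          ordHom w (Additive.ofMul (Units.map (algebraMap K E : K →* E) a)) := by
  classical
  choose w₀ hw₀ using fun v : HeightOneSpectrum (𝓞 K) => above_nonempty (L := E) v
  set aE : Eˣ := Units.map (algebraMap K E : K →* E) a with haE
  let f : HeightOneSpectrum (𝓞 E) → ℤ := fun w =>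
    if H82.NonSplit E (below K w) then ordHom w (Additive.ofMul aE) / p
    else if w = w₀ (below K w) then ordHom w (Additive.ofMul aE) else 0
  have hf : {w | f w ≠ 0}.Finite := by
    refine (finite_ordHom_ne_zero (Additive.ofMul aE)).subset fun w hw => ?_
    intro h0
    apply hw
    simp only [f, h0]
    split_ifs <;> simp
  refine ⟨Finsupp.ofSupportFinite f hf, fun w hw s hs => ?_⟩
  have hbelow : ∀ τ : E ≃ₐ[K] E, below K (smulPlace τ w) = below K w := fun τ =>
    (eq_below_of_mem_above (smulPlace_mem_above τ (mem_above_below w))).symm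
  by_cases hns : H82.NonSplit E (below K w)
  · have hdvd : (p : ℤ) ∣ ordHom w (Additive.ofMul aE) := by
      rw [haE, ordHom_algebraMap (mem_above_below w)]
      exact (ha _ hw hns).mul_left _
    have h1 : ∀ c : ZMod p, Finsupp.ofSupportFinite f hf (smulPlace (resE E (s c)⁻¹) w) =
        ordHom w (Additive.ofMul aE) / p := by
      intro c
      show f _ = _
      simp only [f, hbelow, hns, if_true, haE, ordHom_smulPlace_algebraMap]
    rw [Finset.sum_congr rfl fun c _ => h1 c, Finset.sum_const, Finset.card_univ, ZMod.card,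
      nsmul_eq_mul, Int.mul_ediv_cancel' hdvd]
  · obtain ⟨c, hc, huniq⟩ := sum_translates h s hs (mem_above_below w) (hw₀ (below K w)) hns
    have h1 : ∀ c' : ZMod p, Finsupp.ofSupportFinite f hf (smulPlace (resE E (s c')⁻¹) w) =
        if c' = c then ordHom w (Additive.ofMul aE) else 0 := by
      intro c'
      show f _ = _
      simp only [f, hbelow, hns, if_false, haE, ordHom_smulPlace_algebraMap]
      by_cases hcc : c' = c
      · rw [if_pos hcc, if_pos (hcc ▸ hc)]
      · rw [if_neg hcc, if_neg (fun h => hcc (huniq _ h))]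
    rw [Finset.sum_congr rfl fun c' _ => h1 c', Finset.sum_ite_eq' Finset.univ c,
      if_pos (Finset.mem_univ c)]

end divisor


section comb

theorem nsmul_aux {G M : Type*} [Group G] [AddCommGroup M] [DistribMulAction G M] (n : ℕ) (g : G)
    (c a b d : M) : n • (c - (g • a - b + d)) = n • c - (g • (n • a) - n • b + n • d) := by
  rw [smul_sub, smul_add, smul_sub, smul_comm n g]

theorem dvd_comb {p : ℕ} [hp : Fact p.Prime] (ψ : ZMod p → ℤ) (κ : ZMod p) (n m : ℤ)
    (hm : (m : ZMod p) = 1) (hn : ∑ c, ψ c = m * n) :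
    (p : ℤ) ∣ (κ.val : ℤ) * n + (-∑ c : ZMod p, (c.val : ℤ) * ψ c) -
      (-∑ c : ZMod p, (c.val : ℤ) * ψ (κ + c)) := by
  rw [← ZMod.intCast_zmod_eq_zero_iff_dvd]
  push_cast
  simp only [ZMod.natCast_val, ZMod.cast_id', id]
  have h1 : ∑ c : ZMod p, c * (ψ (κ + c) : ZMod p) = ∑ c : ZMod p, (c - κ) * (ψ c : ZMod p) := by
    refine Fintype.sum_equiv (Equiv.addLeft κ) _ _ fun c => ?_
    simp
  have h2 : (∑ c : ZMod p, (ψ c : ZMod p)) = n := by
    have := congrArg (fun z : ℤ => (z : ZMod p)) hn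
    push_cast at this
    rw [this, hm, one_mul]
  rw [h1]
  simp only [sub_mul, Finset.sum_sub_distrib]
  rw [← Finset.mul_sum, h2]
  ring

end comb

section coc

variable {S : Finset Nat.Primes} {K : IntermediateField ℚ Ω} [NumberField K]
  {E : Type} [Field E] [NumberField E] [Algebra E Ω] [Algebra K E] [IsScalarTower K E Ω]
  [IsGalois K E] {p : ℕ} [hp : Fact p.Prime] {χ : K.fixingSubgroup →* Multiplicative (ZMod p)}
  {ζ : Ω}

/-- `f` is a `μ_p`-valued `S`-level cocycle whose class in `H²(K, ℚ̄ˣ)` is that of `(χ, a)` -/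
def CRel (S : Finset Nat.Primes) (χ : K.fixingSubgroup →* Multiplicative (ZMod p))
    (hζ : IsPrimitiveRoot ζ p) (a : Kˣ) (f : K.fixingSubgroup × K.fixingSubgroup → ZMod p) :
    Prop :=
  ∃ y : K.fixingSubgroup → Additive Ωˣ, LC1 ((ramLevels S).onSub K.fixingSubgroup) y ∧
    (∀ g, y g ∈ unrW S) ∧ ∀ g h, H7.cc χ (kEmb K a) (g, h) =
      muEmb hζ hp.out.ne_zero (f (g, h)) + (g • y h - y (g * h) + y g)

theorem CRel.mem_Z2 {hζ : IsPrimitiveRoot ζ p} (hζK : ζ ∈ K) (hK : K.IsUnramifiedOutside S)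
    (hχ : ((ramLevels S).onSub K.fixingSubgroup).op χ.ker) {a : Kˣ}
    {f : K.fixingSubgroup × K.fixingSubgroup → ZMod p} (h : CRel S χ hζ a f) :
    f ∈ Z2 ((ramLevels S).onSub K.fixingSubgroup)
      (Representation.trivial (ZMod p) K.fixingSubgroup (ZMod p)) := by
  obtain ⟨y, hy, hyW, hf⟩ := h
  have D := inflData hp.out.ne_zero hζ hζK hK
  have hfix : kEmb K a ∈ H7.fix (Additive Ωˣ) (⊤ : Subgroup K.fixingSubgroup) :=
    fun g _ => smul_kEmb K g a
  have hinf := H7.inflated_cc χ hfix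
  have hcoc := H7.isCocycle₂_cc χ hfix
  have hf' : ∀ g h, muEmb hζ hp.out.ne_zero (f (g, h)) =
      H7.cc χ (kEmb K a) (g, h) - (g • y h - y (g * h) + y g) := fun g h => by
    rw [hf]; abel
  refine ⟨?_, fun g h j => ?_⟩
  · obtain ⟨N, hN, hn, hc, hfx⟩ := D.exists_fix hy hyW
    have hN' : ((ramLevels S).onSub K.fixingSubgroup).op (N ⊓ χ.ker) :=
      ((ramLevels S).onSub K.fixingSubgroup).op_inf hN hχ
    refine ⟨N ⊓ χ.ker, hN', fun g g' s hs s' hs' => D.inj ?_⟩
    have h1 : g * s * (g' * s') = g * g' * (g'⁻¹ * s * g'⁻¹⁻¹ * s') := by group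
    rw [hf', hf', h1, hc _ _ (N.mul_mem (hn.conj_mem s hs.1 _) hs'.1), hc _ _ hs.1, hc _ _ hs'.1,
      mul_smul, hfx _ _ hs.1, H7.cc_apply, H7.cc_apply]
    have h2 : H7.cy χ (g * s) (g' * s') = H7.cy χ g g' := by
      rw [H7.cy, H7.cy, H7.tv_mul_right χ hs.2, H7.tv_mul_right χ hs'.2]
    rw [h2]
  · apply D.inj
    rw [Representation.trivial_apply, map_add, map_add, ← D.fix g (f (h, j)), hf', hf', hf', hf']
    have h2 := hcoc g h j
    simp only [smul_add, smul_sub, mul_smul, mul_assoc]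
    linear_combination (norm := abel) h2

/-- **existence of the cocycle** -/
theorem exists_cRel (hpS : ∀ q : Nat.Primes, (q : ℕ) = p → q ∈ S)
    (hζ : IsPrimitiveRoot ζ p) (hζK : ζ ∈ K) (hK : K.IsUnramifiedOutside S)
    (hE : ∀ q : Nat.Primes, q ∉ S → ∀ A : ValuationSubring Ω, A.LiesOverPrime (q : ℕ) →
      ∀ σ ∈ A.inertiaSubgroupIn ℚ, ∀ x : E, σ (algebraMap E Ω x) = algebraMap E Ω x)
    (hχ : ((ramLevels S).onSub K.fixingSubgroup).op χ.ker) (hcut : Cuts E χ)
    (hsurj : Function.Surjective χ) (a : Kˣ)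
    (ha : ∀ v, v ∉ placesS S K → H82.NonSplit E v → (p : ℤ) ∣ ordHom v (Additive.ofMul a)) :
    ∃ f, CRel S χ hζ a f := by
  classical
  have D := inflData hp.out.ne_zero hζ hζK hK
  choose s hs using fun c : ZMod p => hsurj (Multiplicative.ofAdd c)
  obtain ⟨D₀, hD₀⟩ := exists_divisor hcut a ha
  obtain ⟨n, m, β, hm, hβ⟩ := exists_pow_principal_div hp.out D₀
  obtain ⟨z, hz⟩ := exists_nsmul_eq_units (pow_pos hp.out.pos n) (eEmb E β)
  have hzW : z ∈ unrW S := mem_unrW_of_nsmul hpS hE hz hβ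
  have hzEV : ∀ (q : ℕ) (hq : q.Prime) (A : ValuationSubring Ω) (hA : A.LiesOverPrime q) (π : Eˣ),
      ordHom (placeBelow E hq hA) (Additive.ofMul π) = 1 →
        EV A (algebraMap E Ω π) z ((m • D₀) (placeBelow E hq hA)) := by
    intro q hq A hA π hπ
    refine EV_of_nsmul (pow_ne_zero n hp.out.ne_zero) hz hq hA ?_ hπ
    rw [hβ]
  -- the correction
  set w : Additive Ωˣ := -∑ c : ZMod p, c.val • (s c • z) with hw
  have hwW : w ∈ unrW S := by
    refine (unrW S).neg_mem ((unrW S).sum_mem fun c _ => (unrW S).nsmul_mem ?_ _)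
    exact smul_mem_unrW (s c : Γ) hzW
  let e : K.fixingSubgroup → Additive Ωˣ := fun g => H7.tv χ g • kEmb K a + w - g • w
  have heW : ∀ g, e g ∈ unrW S := fun g =>
    (unrW S).sub_mem ((unrW S).add_mem ((unrW S).nsmul_mem (kEmb_mem_unrW hK a) _) hwW)
      (smul_mem_unrW (g : Γ) hwW)
  have hroot : ∀ g, ∃ u ∈ unrW S, p • u = e g := by
    intro g
    refine exists_root hpS (heW g) fun q hq A hA => ?_
    obtain ⟨π, hπ⟩ := exists_ordHom_eq_int (placeBelow E q.2 hA) 1
    set W := placeBelow E q.2 hA with hWdef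
    have hπ0 : algebraMap E Ω (π : E) ≠ 0 := (map_ne_zero _).2 π.ne_zero
    set ψ : ZMod p → ℤ := fun c => (m • D₀) (smulPlace (resE E (s c)⁻¹) W) with hψ
    have h1 : ∀ g : K.fixingSubgroup, EV A (algebraMap E Ω π) (g • z)
        (ψ (Multiplicative.toAdd (χ g))) := by
      intro g
      have h2 := EV_smul hzEV q.2 hA hπ g
      rw [placeBelow_smul_eq] at h2
      have h3 : resE E g⁻¹ = resE E (s (Multiplicative.toAdd (χ g)))⁻¹ := by
        apply hcut.resE_eq
        rw [map_inv, map_inv, hs, ofAdd_toAdd]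
      rw [h3] at h2
      exact h2
    have hEVw : EV A (algebraMap E Ω π) w (-∑ c : ZMod p, (c.val : ℤ) * ψ c) := by
      refine EV.neg (EV.sum hπ0 _ fun c _ => ?_)
      have h2 := (h1 (s c)).nsmul c.val
      rw [hs, toAdd_ofAdd] at h2
      exact h2
    have hEVgw : EV A (algebraMap E Ω π) (g • w)
        (-∑ c : ZMod p, (c.val : ℤ) * ψ (Multiplicative.toAdd (χ g) + c)) := by
      have h2 : g • w = -∑ c : ZMod p, c.val • ((g * s c) • z) := by
        rw [hw, smul_neg, Finset.smul_sum]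
        congr 1
        refine Finset.sum_congr rfl fun c _ => ?_
        rw [smul_comm g, mul_smul]
      rw [h2]
      refine EV.neg (EV.sum hπ0 _ fun c _ => ?_)
      have h3 := (h1 (g * s c)).nsmul c.val
      rw [map_mul, hs, toAdd_mul, toAdd_ofAdd] at h3
      exact h3
    have hEVa : EV A (algebraMap E Ω π) (kEmb K a)
        (ordHom W (Additive.ofMul (Units.map (algebraMap K E : K →* E) a))) := by
      have h2 := EV_eEmb q.2 hA hπ (Units.map (algebraMap K E : K →* E) a)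
      have h3 : eEmb E (Units.map (algebraMap K E : K →* E) a) = kEmb K a := by
        apply uval_injective
        rw [uval_eEmb, uval_kEmb]
        exact (IsScalarTower.algebraMap_apply K E Ω (a : K)).symm
      rw [h3] at h2
      exact h2
    set na := ordHom W (Additive.ofMul (Units.map (algebraMap K E : K →* E) a)) with hna
    have htot := ((hEVa.nsmul (H7.tv χ g)).add hπ0 hEVw).sub hπ0 hEVgw
    have hWS : below K W ∉ placesS S K := by
      rintro ⟨q', hq', hmem⟩
      have h2 : below K W = placeBelow K q.2 hA := by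
        have htower : (algebraMap (𝓞 E) (𝓞 Ω)).comp (algebraMap (𝓞 K) (𝓞 E)) =
            algebraMap (𝓞 K) (𝓞 Ω) := by
          ext a
          exact (IsScalarTower.algebraMap_apply K E Ω (a : K)).symm
        apply HeightOneSpectrum.ext
        show (W.asIdeal).under (𝓞 K) = _
        rw [Ideal.under_def, hWdef, placeBelow_asIdeal, placeBelow_asIdeal, Ideal.comap_comap,
          htower]
      rw [h2] at hmem
      exact notMem_placeBelow q.2 q'.2 (fun h => hq (by rwa [Subtype.ext h])) hA hmem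
    have hsum : ∑ c, ψ c = (m : ℤ) * na := by
      rw [hna, ← hD₀ W hWS s hs, Finset.mul_sum]
      refine Finset.sum_congr rfl fun c _ => ?_
      rw [hψ]
      simp only [Finsupp.smul_apply, nsmul_eq_mul]
    have hm' : ((m : ℤ) : ZMod p) = 1 := by
      have := (ZMod.natCast_eq_natCast_iff m 1 p).2 hm
      push_cast at this ⊢
      exact this
    obtain ⟨k, hk⟩ := dvd_comb ψ (Multiplicative.toAdd (χ g)) na m hm' hsum
    have hk' : (H7.tv χ g : ℤ) * na + (-∑ c : ZMod p, (c.val : ℤ) * ψ c) -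
      (-∑ c : ZMod p, (c.val : ℤ) * ψ (Multiplicative.toAdd (χ g) + c)) = p * k := hk
    rw [hk', EV] at htot
    refine ⟨eEmb E (π ^ k), ?_, ?_⟩
    · intro q hq A hA σ hσ
      exact hE q hq A hA σ hσ _
    · rw [uval_eEmb, Units.val_zpow_eq_zpow_val, map_zpow₀, map_zpow₀, ← zpow_natCast, ← zpow_mul,
        mul_comm]
      exact htot
  -- choice of roots
  let r : Additive Ωˣ → Additive Ωˣ := fun x => if h : ∃ u ∈ unrW S, p • u = x then h.choose else 0
  have hr : ∀ x, (∃ u ∈ unrW S, p • u = x) → r x ∈ unrW S ∧ p • r x = x := by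
    intro x hx
    have : r x = hx.choose := dif_pos hx
    rw [this]
    exact hx.choose_spec
  let y : K.fixingSubgroup → Additive Ωˣ := fun g => r (e g)
  have hyW : ∀ g, y g ∈ unrW S := fun g => (hr _ (hroot g)).1
  have hye : ∀ g, p • y g = e g := fun g => (hr _ (hroot g)).2
  have hyl : LC1 ((ramLevels S).onSub K.fixingSubgroup) y := by
    obtain ⟨V, hV, hVw⟩ := (D.memW w).1 hwW
    refine ⟨V ⊓ χ.ker, ((ramLevels S).onSub K.fixingSubgroup).op_inf hV hχ, fun g t ht => ?_⟩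
    show r (e (g * t)) = r (e g)
    have h1 : e (g * t) = e g := by
      show H7.tv χ (g * t) • kEmb K a + w - (g * t) • w = H7.tv χ g • kEmb K a + w - g • w
      rw [H7.tv_mul_right χ ht.2, mul_smul, hVw t ht.1]
    rw [h1]
  have htors : ∀ q : K.fixingSubgroup × K.fixingSubgroup, ∃ b : ZMod p,
      muEmb hζ hp.out.ne_zero b =
        H7.cc χ (kEmb K a) q - (q.1 • y q.2 - y (q.1 * q.2) + y q.1) := by
    intro q
    apply D.range
    rw [nsmul_aux, hye, hye, hye]
    have h1 := H7.tv_add χ q.1 q.2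
    have h2 : p • H7.cc χ (kEmb K a) q = (H7.tv χ q.1 • kEmb K a + H7.tv χ q.2 • kEmb K a) -
        H7.tv χ (q.1 * q.2) • kEmb K a := by
      rw [← add_smul, h1, add_smul, add_sub_cancel_left, mul_smul]
      rfl
    have h3 : q.1 • kEmb K a = kEmb K a := smul_kEmb K q.1 a
    show p • H7.cc χ (kEmb K a) q - (q.1 • (H7.tv χ q.2 • kEmb K a + w - q.2 • w) -
      (H7.tv χ (q.1 * q.2) • kEmb K a + w - (q.1 * q.2) • w) +
      (H7.tv χ q.1 • kEmb K a + w - q.1 • w)) = 0
    rw [h2, smul_sub, smul_add, smul_comm q.1 (H7.tv χ q.2), h3, mul_smul]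
    abel
  choose f hf using htors
  refine ⟨f, y, hyl, hyW, fun g h => ?_⟩
  rw [hf]
  abel

theorem CRel.sub {hζ : IsPrimitiveRoot ζ p} {a b : Kˣ}
    {f f' : K.fixingSubgroup × K.fixingSubgroup → ZMod p} (h : CRel S χ hζ a f)
    (h' : CRel S χ hζ b f') : CRel S χ hζ (a / b) (f - f') := by
  obtain ⟨y, hy, hyW, hf⟩ := h
  obtain ⟨y', hy', hyW', hf'⟩ := h'
  refine ⟨y - y', (hy.pair hy').comp' (fun q => q.1 - q.2), fun g =>
    (unrW S).sub_mem (hyW g) (hyW' g), fun g h => ?_⟩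
  have h1 : kEmb K (a / b) = kEmb K a - kEmb K b := by
    apply uval_injective
    rw [uval_sub, uval_kEmb, uval_kEmb, uval_kEmb, Units.val_div_eq_div_val, map_div₀]
  rw [h1, H7.cc_sub, Pi.sub_apply, hf, hf', Pi.sub_apply, map_sub, Pi.sub_apply, Pi.sub_apply,
    Pi.sub_apply, smul_sub]
  abel

end coc

end Fermat.Agent.H54
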