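import Mathlib
import Fermat.Agent.H82CftDefs

/-!
# Bridge between completion-free local conditions and a complete model `E` of `K_v`
-/

set_option autoImplicit false

open NumberField IsDedekindDomain Module WithZero WithZeroMulInt Filter Topology
open scoped NNReal

namespace Fermat.Agent.H65

/-- `E` is a model of the completion of `K` at the valuation `v`
(with dense image and norm determined by `v`). -/
structure LocModel {K : Type*} [Field K] (v : Valuation K ℤᵐ⁰)
    (E : Type*) [NormedField E] [Algebra K E] : Prop where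
  dense : DenseRange (algebraMap K E)
  norm_eq : ∃ (e : ℝ≥0) (he : 1 < e), ∀ x : K, ‖algebraMap K E x‖ = (toNNReal he.ne_zero (v x) : ℝ)

namespace LocModel

variable {K : Type*} [Field K] {v : Valuation K ℤᵐ⁰}
  {E : Type*} [NormedField E] [Algebra K E]

theorem exists_norm_le_iff (h : LocModel v E) :
    ∃ e : ℝ, 1 < e ∧ ∀ (x : K) (m : ℤ), ‖algebraMap K E x‖ ≤ e ^ m ↔ v x ≤ exp m := by
  obtain ⟨e, he, h'⟩ := h.norm_eq
  refine ⟨e, he, fun x m => ?_⟩
  rw [h', ← (toNNReal_strictMono he).le_iff_le]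
  have : (e : ℝ) ^ m = ((toNNReal he.ne_zero (exp m) : ℝ≥0) : ℝ) := by
    rw [toNNReal_neg_apply he.ne_zero (by simp : (exp m : ℤᵐ⁰) ≠ 0)]
    push_cast
    rfl
  rw [this]
  exact NNReal.coe_le_coe

theorem norm_eq_one_iff (h : LocModel v E) (x : K) : ‖algebraMap K E x‖ = 1 ↔ v x = 1 := by
  obtain ⟨e, he, h'⟩ := h.norm_eq
  rw [h', NNReal.coe_eq_one, toNNReal_eq_one_iff _ _ he.ne']

theorem norm_lt_one_iff (h : LocModel v E) (x : K) : ‖algebraMap K E x‖ < 1 ↔ v x < 1 := by
  obtain ⟨e, he, h'⟩ := h.norm_eq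
  rw [h', ← toNNReal_lt_one_iff he]
  exact_mod_cast Iff.rfl

theorem norm_le_one_iff (h : LocModel v E) (x : K) : ‖algebraMap K E x‖ ≤ 1 ↔ v x ≤ 1 := by
  obtain ⟨e, he, h'⟩ := h.norm_eq
  rw [h', ← toNNReal_le_one_iff he]
  exact_mod_cast Iff.rfl

/-- every element of `E` can be approximated by elements of `K`. -/
theorem exists_close (h : LocModel v E) (y : E) {ε : ℝ} (hε : 0 < ε) :
    ∃ x : K, ‖algebraMap K E x - y‖ < ε := by
  obtain ⟨x, hx⟩ := h.dense.exists_dist_lt y hε
  exact ⟨x, by rwa [dist_comm, dist_eq_norm] at hx⟩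

end LocModel

/-- congruence subgroup `1 + v^m` of `Kˣ`. -/
def congrSet {K : Type*} [Field K] (v : Valuation K ℤᵐ⁰) (m : ℕ) : Set Kˣ :=
  {x | v (x : K) = 1 ∧ v ((x : K) - 1) ≤ exp (-(m : ℤ))}

section pow

variable {E : Type*} [NontriviallyNormedField E] [CompleteSpace E]

theorem pow_nhds_one {p : ℕ} (hp : (p : E) ≠ 0) :
    Set.range (fun y : E => y ^ p) ∈ 𝓝 (1 : E) := by
  have h := hasStrictDerivAt_pow (𝕜 := E) p 1
  have h' : HasStrictDerivAt (fun x : E => x ^ p) ((p : E) * 1 ^ (p - 1)) 1 := h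
  have := h'.map_nhds_eq (by simpa using hp)
  simp only [one_pow] at this
  rw [← this]
  exact Filter.range_mem_map

theorem exists_pow_radius {p : ℕ} (hp : (p : E) ≠ 0) :
    ∃ ε : ℝ, 0 < ε ∧ ∀ u : E, ‖u - 1‖ < ε → ∃ y : E, y ^ p = u := by
  obtain ⟨ε, hε, h⟩ := Metric.mem_nhds_iff.1 (pow_nhds_one hp)
  refine ⟨ε, hε, fun u hu => ?_⟩
  have : u ∈ Metric.ball (1 : E) ε := by rwa [Metric.mem_ball, dist_eq_norm]
  exact h this

end pow

section

variable {K : Type*} [Field K] {v : Valuation K ℤᵐ⁰}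
  {E : Type*} [NontriviallyNormedField E] [CompleteSpace E] [Algebra K E]

omit [CompleteSpace E] in
theorem exists_level_lt (h : LocModel v E) {ε : ℝ} (hε : 0 < ε) :
    ∃ m : ℕ, ∀ x : K, v x ≤ exp (-(m : ℤ)) → ‖algebraMap K E x‖ < ε := by
  obtain ⟨e, he, h'⟩ := h.exists_norm_le_iff
  obtain ⟨m, hm⟩ := exists_pow_lt_of_lt_one hε (inv_lt_one_of_one_lt₀ he)
  refine ⟨m, fun x hx => ?_⟩
  refine lt_of_le_of_lt ((h' x _).2 hx) ?_
  rwa [zpow_neg, zpow_natCast, ← inv_pow]

omit [CompleteSpace E] in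
theorem exists_radius_level (h : LocModel v E) (m : ℕ) :
    ∃ ε : ℝ, 0 < ε ∧ ∀ x : K, ‖algebraMap K E x‖ < ε → v x ≤ exp (-(m : ℤ)) := by
  obtain ⟨e, he, h'⟩ := h.exists_norm_le_iff
  exact ⟨e ^ (-(m : ℤ)), by positivity, fun x hx => (h' x _).1 hx.le⟩

omit [CompleteSpace E] in
theorem mem_congr_of_close [IsUltrametricDist E] (h : LocModel v E) (m : ℕ) :
    ∃ ε : ℝ, 0 < ε ∧ ∀ x : Kˣ, ‖algebraMap K E x - 1‖ < ε → x ∈ congrSet v m := by
  obtain ⟨ε, hε, h'⟩ := exists_radius_level h m
  refine ⟨min ε 1, by positivity, fun x hx => ⟨?_, ?_⟩⟩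
  · rw [← h.norm_eq_one_iff]
    have h1 : ‖algebraMap K E x - 1‖ < 1 := lt_of_lt_of_le hx (min_le_right _ _)
    have h2 : ‖algebraMap K E x‖ = ‖(algebraMap K E x - 1) + 1‖ := by simp
    rw [h2, IsUltrametricDist.norm_add_eq_max_of_norm_ne_norm (by rw [norm_one]; exact h1.ne),
      norm_one, max_eq_right h1.le]
  · apply h'
    rw [map_sub, map_one]
    exact lt_of_lt_of_le hx (min_le_left _ _)

/-- (BR2) -/
theorem forall_locPow_iff [IsUltrametricDist E] (h : LocModel v E) {p : ℕ} (hp : (p : E) ≠ 0)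
    (x : Kˣ) :
    (∀ m : ℕ, ∃ y : Kˣ, ∃ c ∈ congrSet v m, x = y ^ p * c) ↔
      ∃ y : E, y ^ p = algebraMap K E x := by
  constructor
  · intro H
    obtain ⟨ε, hε, hpow⟩ := exists_pow_radius (E := E) hp
    obtain ⟨m, hm⟩ := exists_level_lt h hε
    obtain ⟨y, c, hc, rfl⟩ := H m
    obtain ⟨z, hz⟩ := hpow (algebraMap K E c) (by
      have := hm ((c : K) - 1) hc.2
      rwa [map_sub, map_one] at this)
    refine ⟨algebraMap K E y * z, ?_⟩
    rw [mul_pow, hz, Units.val_mul, Units.val_pow_eq_pow_val, map_mul, map_pow]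
  · rintro ⟨y, hy⟩ m
    have hx0 : algebraMap K E (x : K) ≠ 0 := by
      rw [ne_eq, map_eq_zero]; exact x.ne_zero
    have hp0 : p ≠ 0 := by rintro rfl; simp at hp
    have hy0 : y ≠ 0 := by
      rintro rfl
      rw [zero_pow hp0] at hy
      exact hx0 hy.symm
    obtain ⟨ε, hε, hc⟩ := mem_congr_of_close h (E := E) m
    have hcont : Tendsto (fun z : E => algebraMap K E x / z ^ p) (𝓝 y) (𝓝 1) := by
      have : (1 : E) = algebraMap K E x / y ^ p := by rw [hy, div_self hx0]
      rw [this]
      exact (continuousAt_const.div (continuousAt_id.pow p) (pow_ne_zero _ hy0))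
    have h1 : ∀ᶠ z in 𝓝 y, ‖algebraMap K E x / z ^ p - 1‖ < ε := by
      have := (Metric.tendsto_nhds.1 hcont) ε hε
      simpa only [dist_eq_norm] using this
    have h2 : ∀ᶠ z in 𝓝 y, z ≠ 0 := continuousAt_id.eventually_ne hy0
    obtain ⟨k, hk1, hk2⟩ := h.dense.mem_nhds (h1.and h2)
    have hk0 : k ≠ 0 := by rintro rfl; simp at hk2
    refine ⟨Units.mk0 k hk0, x / (Units.mk0 k hk0) ^ p, ?_, by rw [mul_div_cancel]⟩
    apply hc
    simpa [Units.val_div_eq_div_val] using hk1

end

section norm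

variable {K : Type*} [Field K] {v : Valuation K ℤᵐ⁰}
  {E : Type*} [NontriviallyNormedField E] [CompleteSpace E] [Algebra K E]
  {L : Type*} [Field L] [Algebra K L] {F : Type*} [CommRing F] [Algebra E F]
  {ι : Type*} [Fintype ι] (b : Basis ι K L) (b' : Basis ι E F) (j : L →+* F)

theorem norm_map_eq {K : Type*} [Field K] {E : Type*} [Field E] [Algebra K E]
    {L : Type*} [Field L] [Algebra K L] {F : Type*} [CommRing F] [Algebra E F]
    {ι : Type*} [Fintype ι] (b : Basis ι K L) (b' : Basis ι E F) (j : L →+* F)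
    (hj : ∀ x : K, j (algebraMap K L x) = algebraMap E F (algebraMap K E x))
    (hb : ∀ i, b' i = j (b i)) (y : L) :
    Algebra.norm E (j y) = algebraMap K E (Algebra.norm K y) := by
  classical
  rw [Algebra.norm_eq_matrix_det b, Algebra.norm_eq_matrix_det b', RingHom.map_det]
  congr 1
  ext i k
  rw [RingHom.mapMatrix_apply, Matrix.map_apply, Algebra.leftMulMatrix_eq_repr_mul,
    Algebra.leftMulMatrix_eq_repr_mul]
  have h1 : j y * b' k = ∑ i, algebraMap K E (b.repr (y * b k) i) • b' i := by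
    rw [hb, ← map_mul]
    conv_lhs => rw [← b.sum_repr (y * b k)]
    rw [map_sum]
    refine Finset.sum_congr rfl fun i _ => ?_
    rw [Algebra.smul_def, map_mul, hj, hb, Algebra.smul_def]
  rw [h1, Basis.repr_sum_self]

include b b' in
/-- (BR1), general form -/
theorem forall_norm_iff [IsUltrametricDist E] (h : LocModel v E)
    (hj : ∀ x : K, j (algebraMap K L x) = algebraMap E F (algebraMap K E x))
    (hb : ∀ i, b' i = j (b i)) (hn : (Fintype.card ι : E) ≠ 0) (x : Kˣ) :
    (∀ m : ℕ, ∃ y : Lˣ, ∃ c ∈ congrSet v m, (x : K) = Algebra.norm K (y : L) * c) ↔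
      ∃ z : F, Algebra.norm E z = algebraMap K E x := by
  classical
  constructor
  · intro H
    obtain ⟨ε, hε, hpow⟩ := exists_pow_radius (E := E) hn
    obtain ⟨m, hm⟩ := exists_level_lt h hε
    obtain ⟨y, c, hc, hx⟩ := H m
    obtain ⟨z, hz⟩ := hpow (algebraMap K E c) (by
      have := hm ((c : K) - 1) hc.2
      rwa [map_sub, map_one] at this)
    refine ⟨j y * algebraMap E F z, ?_⟩
    rw [map_mul, norm_map_eq b b' j hj hb, Algebra.norm_algebraMap_of_basis b', hz, hx, map_mul]
  · rintro ⟨z, hz⟩ m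
    have hx0 : algebraMap K E (x : K) ≠ 0 := by
      rw [ne_eq, map_eq_zero]; exact x.ne_zero
    obtain ⟨ε, hε, hc⟩ := mem_congr_of_close h (E := E) m
    -- the norm is continuous in the coordinates
    let N : (ι → E) → E := fun c => Algebra.norm E (∑ i, c i • b' i)
    have hN : Continuous N := by
      have : N = fun c => Matrix.det (∑ i, c i • Algebra.leftMulMatrix b' (b' i)) := by
        funext c
        simp only [N]
        rw [Algebra.norm_eq_matrix_det b', map_sum]
        congr 1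
        refine Finset.sum_congr rfl fun i _ => ?_
        rw [map_smul]
      rw [this]
      refine Continuous.matrix_det ?_
      exact continuous_finsetSum _ fun i _ => (continuous_apply i).smul continuous_const
    have hNz : N (fun i => b'.repr z i) = algebraMap K E x := by
      simp only [N]
      rw [b'.sum_repr, hz]
    have hcont : Tendsto (fun c : ι → E => algebraMap K E x / N c) (𝓝 (fun i => b'.repr z i))
        (𝓝 1) := by
      have : (1 : E) = algebraMap K E x / N (fun i => b'.repr z i) := by rw [hNz, div_self hx0]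
      rw [this]
      exact continuousAt_const.div hN.continuousAt (by rw [hNz]; exact hx0)
    have h1 : ∀ᶠ c in 𝓝 (fun i => b'.repr z i), ‖algebraMap K E x / N c - 1‖ < ε := by
      have := (Metric.tendsto_nhds.1 hcont) ε hε
      simpa only [dist_eq_norm] using this
    have h2 : ∀ᶠ c in 𝓝 (fun i => b'.repr z i), N c ≠ 0 :=
      hN.continuousAt.eventually_ne (by rw [hNz]; exact hx0)
    have hd : DenseRange (fun (c : ι → K) (i : ι) => algebraMap K E (c i)) :=
      DenseRange.piMap (fun _ => h.dense)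
    obtain ⟨k, hk1, hk2⟩ := hd.mem_nhds (h1.and h2)
    have hNk : N (fun i => algebraMap K E (k i)) =
        algebraMap K E (Algebra.norm K (∑ i, k i • b i)) := by
      simp only [N]
      rw [← norm_map_eq b b' j hj hb]
      congr 1
      rw [map_sum j]
      refine Finset.sum_congr rfl fun i _ => ?_
      rw [Algebra.smul_def, Algebra.smul_def, map_mul, hj, hb]
    have hy0 : (∑ i, k i • b i) ≠ 0 := by
      intro h0
      apply hk2
      rw [hNk, h0]
      have : Nonempty ι := b.index_nonempty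
      have : Nontrivial F := by
        by_contra hF
        rw [not_nontrivial_iff_subsingleton] at hF
        exact b'.ne_zero (Classical.arbitrary ι) (Subsingleton.elim _ _)
      have : Module.Finite K L := Module.Finite.of_basis b
      rw [Algebra.norm_zero, map_zero]
    have hNy0 : Algebra.norm K (∑ i, k i • b i) ≠ 0 := by
      have : Module.Finite K L := Module.Finite.of_basis b
      rwa [ne_eq, Algebra.norm_eq_zero_iff]
    refine ⟨Units.mk0 _ hy0, x / Units.mk0 _ hNy0, ?_, ?_⟩
    · apply hc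
      rw [hNk] at hk1
      simpa [Units.val_div_eq_div_val] using hk1
    · rw [Units.val_div_eq_div_val, Units.val_mk0, Units.val_mk0, mul_div_cancel₀ _ hNy0]

end norm

section numberField

variable {K : Type*} [Field K] [NumberField K] {v : HeightOneSpectrum (𝓞 K)}
  {E : Type*} [NontriviallyNormedField E] [CompleteSpace E] [IsUltrametricDist E] [Algebra K E]

theorem mem_congrSet_iff {m : ℕ} {x : Kˣ} :
    x ∈ congrSet (v.valuation K) m ↔ x ∈ H82.congr v m := Iff.rfl

/-- (BR2): local `p`-th powers in `K` are the elements of `K` which are `p`-th powers in any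
complete model of `K_v`. -/
theorem forall_mem_locPow_iff (h : LocModel (v.valuation K) E) {p : ℕ} (hp : (p : E) ≠ 0)
    (x : Kˣ) :
    (∀ m : ℕ, x ∈ H82.locPow p v m) ↔ ∃ y : E, y ^ p = algebraMap K E x := by
  rw [← forall_locPow_iff h hp]
  refine forall_congr' fun m => ?_
  rw [H82.mem_locPow]
  constructor
  · rintro ⟨z, hz⟩
    exact ⟨z, _, hz, by rw [mul_div_cancel]⟩
  · rintro ⟨y, c, hc, rfl⟩
    exact ⟨y, by rwa [mul_div_cancel_left]⟩

variable {L : Type*} [Field L] [Algebra K L] {F : Type*} [CommRing F] [Algebra E F]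
  {ι : Type*} [Fintype ι] (b : Basis ι K L) (b' : Basis ι E F) (j : L →+* F)

include b b' in
/-- (BR1): local norms in `K` are the elements of `K` which are norms from `F = E ⊗ L`. -/
theorem forall_mem_locNorm_iff (h : LocModel (v.valuation K) E)
    (hj : ∀ x : K, j (algebraMap K L x) = algebraMap E F (algebraMap K E x))
    (hb : ∀ i, b' i = j (b i)) (hn : (Fintype.card ι : E) ≠ 0) (x : Kˣ) :
    (∀ m : ℕ, x ∈ H82.locNorm L v m) ↔ ∃ z : F, Algebra.norm E z = algebraMap K E x := by
  rw [← forall_norm_iff b b' j h hj hb hn]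
  refine forall_congr' fun m => ?_
  rw [H82.mem_locNorm]
  constructor
  · rintro ⟨z, hz⟩
    refine ⟨z, _, hz, ?_⟩
    have : x = Units.map (Algebra.norm K : L →* K) z *
      (x / Units.map (Algebra.norm K : L →* K) z) := by rw [mul_div_cancel]
    exact congrArg Units.val this
  · rintro ⟨y, c, hc, hx⟩
    refine ⟨y, ?_⟩
    have : x = Units.map (Algebra.norm K : L →* K) y * c := Units.ext hx
    rwa [this, mul_div_cancel_left]

end numberField

end Fermat.Agent.H65
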