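import Mathlib
import Fermat.Agent.H54Place
import Fermat.Agent.H65Bridge

set_option autoImplicit false

open scoped NNReal IntermediateField Topology Pointwise
open IsDedekindDomain NumberField WithZero

namespace Fermat.Agent.H54

section EmbField

variable {q : ℕ} [Fact q.Prime] {K : Type*} [Field K]

/-- the completion of `K` at the place defined by `j`, as a subfield of `PadicAlgCl q` -/
noncomputable def embField (j : K →+* PadicAlgCl q) :
    IntermediateField ℚ_[q] (PadicAlgCl q) :=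
  IntermediateField.adjoin ℚ_[q] (Set.range j)

theorem apply_mem_embField (j : K →+* PadicAlgCl q) (x : K) : j x ∈ embField j :=
  IntermediateField.subset_adjoin _ _ ⟨x, rfl⟩

theorem adjoin_le_iff_fixed (S : Set (PadicAlgCl q))
    (τ : PadicAlgCl q ≃ₐ[ℚ_[q]] PadicAlgCl q) :
    τ ∈ (IntermediateField.adjoin ℚ_[q] S).fixingSubgroup ↔ ∀ x ∈ S, τ x = x := by
  rw [IntermediateField.mem_fixingSubgroup_iff]
  constructor
  · intro h x hx
    exact h x (IntermediateField.subset_adjoin _ _ hx)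
  · intro h
    have h1 : IntermediateField.adjoin ℚ_[q] S ≤
        IntermediateField.fixedField (Subgroup.zpowers τ) := by
      refine IntermediateField.adjoin_le_iff.mpr fun x hx => ?_
      rw [SetLike.mem_coe, IntermediateField.mem_fixedField_iff]
      intro σ hσ
      obtain ⟨n, rfl⟩ := Subgroup.mem_zpowers_iff.mp hσ
      have h4 : τ ∈ MulAction.stabilizer (PadicAlgCl q ≃ₐ[ℚ_[q]] PadicAlgCl q) x := h x hx
      exact Subgroup.zpow_mem _ h4 n
    intro y hy
    exact (IntermediateField.mem_fixedField_iff _ _).mp (h1 hy) _ (Subgroup.mem_zpowers τ)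

theorem mem_fixingSubgroup_embField_iff (j : K →+* PadicAlgCl q)
    (τ : PadicAlgCl q ≃ₐ[ℚ_[q]] PadicAlgCl q) :
    τ ∈ (embField j).fixingSubgroup ↔ ∀ x, τ (j x) = j x := by
  rw [embField, adjoin_le_iff_fixed, Set.forall_mem_range]

/-- elements fixed by `Gal(C/E)` are in `E` -/
theorem mem_of_forall_fixingSubgroup (E : IntermediateField ℚ_[q] (PadicAlgCl q))
    {y : PadicAlgCl q} (h : ∀ τ ∈ E.fixingSubgroup, τ y = y) : y ∈ E := by
  have : IsGalois ℚ_[q] (PadicAlgCl q) := ⟨⟩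
  rw [← InfiniteGalois.fixedField_fixingSubgroup E, IntermediateField.mem_fixedField_iff]
  exact h

theorem mem_iff_forall_fixingSubgroup (E : IntermediateField ℚ_[q] (PadicAlgCl q))
    {y : PadicAlgCl q} : y ∈ E ↔ ∀ τ ∈ E.fixingSubgroup, τ y = y :=
  ⟨fun hy _ hτ => (IntermediateField.mem_fixingSubgroup_iff _ _).mp hτ y hy,
    mem_of_forall_fixingSubgroup E⟩

/-- `j(K)` is dense in `embField j`. -/
theorem exists_near (j : K →+* PadicAlgCl q) {y : PadicAlgCl q} (hy : y ∈ embField j) {ε : ℝ}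
    (hε : 0 < ε) : ∃ x : K, ‖y - j x‖ < ε := by
  have h1 : (embField j).toSubfield ≤ j.fieldRange.topologicalClosure := by
    apply IntermediateField.adjoin_le_subfield
    · rintro _ ⟨c, rfl⟩
      show algebraMap ℚ_[q] (PadicAlgCl q) c ∈ closure (j.fieldRange : Set (PadicAlgCl q))
      rw [Metric.mem_closure_iff]
      intro ε hε
      obtain ⟨r, hr⟩ := (Padic.denseRange_ratCast q).exists_dist_lt c hε
      refine ⟨j (r : K), ⟨(r : K), rfl⟩, ?_⟩
      rw [map_ratCast, ← map_ratCast (algebraMap ℚ_[q] (PadicAlgCl q)) r,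
        (algebraMap_isometry ℚ_[q] (PadicAlgCl q)).dist_eq]
      exact hr
    · rintro _ ⟨x, rfl⟩
      exact subset_closure ⟨x, rfl⟩
  have h2 : y ∈ closure (j.fieldRange : Set (PadicAlgCl q)) := h1 hy
  rw [Metric.mem_closure_iff] at h2
  obtain ⟨_, ⟨x, rfl⟩, hx⟩ := h2 ε hε
  exact ⟨x, by rwa [dist_eq_norm] at hx⟩

variable [NumberField K]

instance finiteDimensional_embField (j : K →+* PadicAlgCl q) :
    FiniteDimensional ℚ_[q] (embField j) := by
  let b := Module.finBasis ℚ K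
  have h1 : embField j = IntermediateField.adjoin ℚ_[q] (Set.range (fun i => j (b i))) := by
    apply le_antisymm
    · refine IntermediateField.adjoin_le_iff.mpr ?_
      rintro _ ⟨x, rfl⟩
      rw [SetLike.mem_coe, ← b.sum_repr x, map_sum]
      refine sum_mem fun i _ => ?_
      rw [Algebra.smul_def, map_mul]
      refine mul_mem ?_ (IntermediateField.subset_adjoin _ _ ⟨i, rfl⟩)
      rw [eq_ratCast, map_ratCast, ← map_ratCast (algebraMap ℚ_[q] (PadicAlgCl q))]
      exact IntermediateField.algebraMap_mem _ _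
    · refine IntermediateField.adjoin_le_iff.mpr ?_
      rintro _ ⟨i, rfl⟩
      exact apply_mem_embField j _
  rw [h1]
  have : Finite ↑(Set.range (fun i => j (b i))) := (Set.finite_range _).to_subtype
  exact IntermediateField.finiteDimensional_adjoin (fun x _ => Algebra.IsIntegral.isIntegral _)

/-- Comparison of the valuation filtration with the norm. -/
theorem exists_valuation_le_exp_iff (j : K →+* PadicAlgCl q) :
    ∃ c : ℝ, 0 < c ∧ c < 1 ∧ ∀ (y : K) (m : ℤ),
      (placeOf j).valuation K y ≤ exp (-m) ↔ ‖j y‖ ≤ c ^ m := by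
  obtain ⟨c, hc0, hc1, hc⟩ := exists_norm_eq_zpow j
  refine ⟨c, hc0, hc1, fun y m => ?_⟩
  by_cases hy : y = 0
  · subst hy
    simp only [map_zero, norm_zero, zero_le, true_iff]
    exact (zpow_pos hc0 m).le
  · have hv0 : (placeOf j).valuation K y ≠ 0 := (Valuation.ne_zero_iff _).mpr hy
    rw [hc y hy, zpow_le_zpow_iff_right_of_lt_one₀ hc0 hc1, ← log_le_iff_le_exp hv0]
    omega

theorem exists_congr_norm_lt (j : K →+* PadicAlgCl q) {ε : ℝ} (hε : 0 < ε) :
    ∃ m : ℕ, ∀ m' ≥ m, ∀ x ∈ H82.congr (placeOf j) m', ‖j (x : K) - 1‖ < ε := by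
  obtain ⟨c, hc0, hc1, hc⟩ := exists_valuation_le_exp_iff j
  obtain ⟨m, hm⟩ := exists_pow_lt_of_lt_one hε hc1
  refine ⟨m, fun m' hm' x hx => ?_⟩
  have h1 := (hc ((x : K) - 1) m').mp hx.2
  rw [map_sub, map_one, zpow_natCast] at h1
  exact (h1.trans (pow_le_pow_of_le_one hc0.le hc1.le hm')).trans_lt hm

theorem exists_norm_lt_congr (j : K →+* PadicAlgCl q) (m : ℕ) :
    ∃ ε : ℝ, 0 < ε ∧ ∀ x : Kˣ, ‖j (x : K) - 1‖ < ε → x ∈ H82.congr (placeOf j) m := by
  obtain ⟨c, hc0, hc1, hc⟩ := exists_valuation_le_exp_iff j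
  refine ⟨c ^ (m + 1), by positivity, fun x hx => ?_⟩
  have h1 : (placeOf j).valuation K ((x : K) - 1) ≤ exp (-((m : ℤ) + 1)) := by
    rw [hc, map_sub, map_one]
    have : c ^ ((m : ℤ) + 1) = c ^ (m + 1) := by
      rw [← zpow_natCast]
      push_cast
      rfl
    rw [this]
    exact hx.le
  constructor
  · apply H82.valuation_eq_one_of_sub_one_lt
    refine h1.trans_lt ?_
    rw [← exp_zero, exp_lt_exp]
    omega
  · refine h1.trans ?_
    rw [exp_le_exp]
    omega

end EmbField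

section Powers

open Polynomial

variable {q : ℕ} [Fact q.Prime]

/-- `n`-th roots of `y` close to `1`. -/
theorem exists_root_near_one {n : ℕ} (hn : n ≠ 0) {δ : ℝ} (hδ : 0 < δ) :
    ∃ ε > 0, ∀ y : PadicAlgCl q, ‖y - 1‖ < ε → ∃ z, z ^ n = y ∧ ‖z - 1‖ < δ := by
  have hn' : (0 : ℝ) < n := by exact_mod_cast Nat.pos_of_ne_zero hn
  refine ⟨δ ^ n / (n + 1), by positivity, fun y hy => ?_⟩
  obtain ⟨b, hb1, hb2⟩ := exists_roots_norm_sub_lt_of_norm_coeff_sub_lt (K := PadicAlgCl q)
    (f := X ^ n - C 1) (g := X ^ n - C y) (ε := δ ^ n / (n + 1)) (by positivity) (a := 1)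
    (by simp) (monic_X_pow_sub_C _ hn) (monic_X_pow_sub_C _ hn)
    (by rw [natDegree_X_pow_sub_C, natDegree_X_pow_sub_C])
    (by
      intro i
      rw [coeff_sub, coeff_sub, coeff_C, coeff_C]
      split_ifs with hi
      · have : (X ^ n : (PadicAlgCl q)[X]).coeff i - y - ((X ^ n : (PadicAlgCl q)[X]).coeff i - 1)
          = -(y - 1) := by ring
        rw [this, norm_neg]
        exact hy
      · simp only [sub_zero, sub_self, norm_zero]
        positivity)
    (IsAlgClosed.splits _)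
  refine ⟨b, ?_, ?_⟩
  · rw [mem_roots (monic_X_pow_sub_C _ hn).ne_zero, IsRoot.def] at hb1
    simpa [sub_eq_zero] using hb1
  · rw [natDegree_X_pow_sub_C] at hb2
    have h1 : ((n : ℝ) + 1) * (δ ^ n / (n + 1)) = δ ^ n := by
      field_simp
    rw [h1, norm_one, max_self, mul_one, ← Real.rpow_natCast, ← Real.rpow_mul hδ.le,
      mul_inv_cancel₀ hn'.ne', Real.rpow_one] at hb2
    rwa [norm_sub_rev]

/-- elements of `E` close to `1` are `n`-th powers in `E` (of elements close to `1`). -/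
theorem exists_pow_eq_of_norm_sub_one_lt {n : ℕ} (hn : n ≠ 0) {δ : ℝ} (hδ : 0 < δ) :
    ∃ ε > 0, ∀ (E : IntermediateField ℚ_[q] (PadicAlgCl q)), ∀ y ∈ E, ‖y - 1‖ < ε →
      ∃ z ∈ E, z ^ n = y ∧ ‖z - 1‖ < δ := by
  -- `δ'` : minimal distance of `n`-th roots of unity from `1`
  obtain ⟨η, hη, hη'⟩ : ∃ η > 0, ∀ ζ : PadicAlgCl q, ζ ^ n = 1 → ‖ζ - 1‖ < η → ζ = 1 := by
    classical
    have hfin : ({ζ : PadicAlgCl q | ζ ^ n = 1 ∧ ζ ≠ 1}).Finite := by
      refine ((nthRoots n (1 : PadicAlgCl q)).toFinset.finite_toSet).subset fun ζ hζ => ?_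
      rw [Finset.mem_coe, Multiset.mem_toFinset, mem_nthRoots (Nat.pos_of_ne_zero hn)]
      exact hζ.1
    have h1 : (1 : PadicAlgCl q) ∉ {ζ : PadicAlgCl q | ζ ^ n = 1 ∧ ζ ≠ 1} := fun h => h.2 rfl
    have h2 := hfin.isClosed.isOpen_compl.mem_nhds h1
    rw [Metric.mem_nhds_iff] at h2
    obtain ⟨η, hη, hsub⟩ := h2
    refine ⟨η, hη, fun ζ h3 h4 => ?_⟩
    by_contra h5
    exact hsub (by rw [Metric.mem_ball, dist_eq_norm]; exact h4) ⟨h3, h5⟩
  obtain ⟨ε, hε, h⟩ := exists_root_near_one (q := q) hn (δ := min (min δ η) 1)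
    (lt_min (lt_min hδ hη) one_pos)
  refine ⟨ε, hε, fun E y hyE hy => ?_⟩
  obtain ⟨z, hz1, hz2⟩ := h y hy
  have hz3 : ‖z - 1‖ < 1 := hz2.trans_le (min_le_right _ _)
  have hz4 : ‖z - 1‖ < η := hz2.trans_le ((min_le_left _ _).trans (min_le_right _ _))
  have hz5 : ‖z - 1‖ < δ := hz2.trans_le ((min_le_left _ _).trans (min_le_left _ _))
  have hznorm : ‖z‖ = 1 := by
    have : z = (z - 1) + 1 := by ring
    rw [this, IsUltrametricDist.norm_add_eq_max_of_norm_ne_norm (by rw [norm_one]; exact hz3.ne),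
      norm_one]
    exact max_eq_right hz3.le
  have hz0 : z ≠ 0 := by
    rintro rfl
    rw [norm_zero] at hznorm
    exact zero_ne_one hznorm
  refine ⟨z, ?_, hz1, hz5⟩
  apply mem_of_forall_fixingSubgroup
  intro τ hτ
  have h1 : τ z ^ n = z ^ n := by
    rw [← map_pow, hz1]
    exact (IntermediateField.mem_fixingSubgroup_iff _ _).mp hτ y hyE
  have h2 : (τ z / z) ^ n = 1 := by
    rw [div_pow, h1, div_self (pow_ne_zero _ hz0)]
  have h3 : ‖τ z / z - 1‖ < η := by
    have e1 : τ z / z - 1 = (τ z - z) / z := by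
      field_simp
    have e2 : τ z - z = (τ (z - 1)) - (z - 1) := by
      rw [map_sub, map_one]
      ring
    rw [e1, norm_div, hznorm, div_one, e2, sub_eq_add_neg]
    refine (IsUltrametricDist.norm_add_le_max _ _).trans_lt ?_
    rw [norm_neg, norm_padicAlgCl_algEquiv, max_self]
    exact hz4
  have h4 := hη' _ h2 h3
  rw [div_eq_one_iff_eq hz0] at h4
  exact h4

variable {K : Type*} [Field K]

/-- `Kˣ → E_jˣ / n` is surjective -/
theorem exists_eq_mul_pow (j : K →+* PadicAlgCl q) {n : ℕ} (hn : n ≠ 0) {y : PadicAlgCl q}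
    (hy : y ∈ embField j) (hy0 : y ≠ 0) :
    ∃ x : Kˣ, ∃ z ∈ embField j, z ≠ 0 ∧ y = j (x : K) * z ^ n := by
  obtain ⟨ε, hε, h⟩ := exists_pow_eq_of_norm_sub_one_lt (q := q) hn one_pos
  have hy1 : 0 < ‖y‖ := norm_pos_iff.mpr hy0
  obtain ⟨x, hx⟩ := exists_near j hy (ε := ‖y‖ * min ε 1) (by positivity)
  have hx1 : ‖j x - y‖ < ‖y‖ := by
    rw [norm_sub_rev]
    exact hx.trans_le (mul_le_of_le_one_right hy1.le (min_le_right _ _))
  have hx0 : x ≠ 0 := by
    rintro rfl
    rw [map_zero, zero_sub, norm_neg] at hx1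
    exact lt_irrefl _ hx1
  have hjx0 : j x ≠ 0 := (map_ne_zero j).mpr hx0
  -- `j x / y` is close to `1`
  obtain ⟨z, hzE, hz1, hz2⟩ := h (embField j) (j x / y) (div_mem (apply_mem_embField j x) hy) (by
    have : j x / y - 1 = (j x - y) / y := by field_simp
    rw [this, norm_div, div_lt_iff₀ hy1, norm_sub_rev, mul_comm]
    exact hx.trans_le (mul_le_mul_of_nonneg_left (min_le_left _ _) hy1.le))
  have hz0 : z ≠ 0 := by
    rintro rfl
    rw [zero_pow hn] at hz1
    exact div_ne_zero hjx0 hy0 hz1.symm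
  refine ⟨Units.mk0 x hx0, z⁻¹, inv_mem hzE, inv_ne_zero hz0, ?_⟩
  rw [inv_pow, hz1, Units.val_mk0]
  field_simp

variable [NumberField K]

/-- `Kˣ ∩ E_jˣⁿ = locPow n v m` for `m` large -/
theorem exists_forall_mem_locPow_iff (j : K →+* PadicAlgCl q) {n : ℕ} (hn : n ≠ 0) :
    ∃ m₀ : ℕ, ∀ m ≥ m₀, ∀ x : Kˣ,
      x ∈ H82.locPow n (placeOf j) m ↔ ∃ z ∈ embField j, z ^ n = j (x : K) := by
  obtain ⟨ε, hε, h⟩ := exists_pow_eq_of_norm_sub_one_lt (q := q) hn one_pos
  obtain ⟨m₀, hm₀⟩ := exists_congr_norm_lt j hε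
  refine ⟨m₀, fun m hm x => ?_⟩
  rw [H82.mem_locPow]
  constructor
  · rintro ⟨z, hz⟩
    have h1 := hm₀ m hm _ hz
    obtain ⟨w, hwE, hw1, -⟩ := h (embField j) (j ((x / z ^ n : Kˣ) : K))
      (apply_mem_embField j _) h1
    refine ⟨w * j (z : K), mul_mem hwE (apply_mem_embField j _), ?_⟩
    rw [mul_pow, hw1, ← map_pow, ← map_mul]
    congr 1
    push_cast
    field_simp
  · rintro ⟨z, hzE, hz⟩
    have hz0 : z ≠ 0 := by
      rintro rfl
      rw [zero_pow hn] at hz
      exact (map_ne_zero j).mpr x.ne_zero hz.symm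
    -- approximate `z` by `j y`
    obtain ⟨ε', hε', h'⟩ := exists_norm_lt_congr j m
    have hcont : ContinuousAt (fun w : PadicAlgCl q => j (x : K) / w ^ n) z := by
      refine ContinuousAt.div continuousAt_const (continuousAt_id.pow n) ?_
      exact pow_ne_zero n hz0
    have hval : j (x : K) / z ^ n = 1 := by
      rw [hz]
      exact div_self ((map_ne_zero j).mpr x.ne_zero)
    rw [Metric.continuousAt_iff] at hcont
    obtain ⟨δ, hδ, hcont⟩ := hcont ε' hε'
    have hz1 : 0 < ‖z‖ := norm_pos_iff.mpr hz0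
    obtain ⟨y, hy⟩ := exists_near j hzE (ε := min δ ‖z‖) (lt_min hδ hz1)
    have hy0 : y ≠ 0 := by
      rintro rfl
      rw [map_zero, sub_zero] at hy
      exact absurd (hy.trans_le (min_le_right _ _)) (lt_irrefl _)
    refine ⟨Units.mk0 y hy0, h' _ ?_⟩
    have h1 := @hcont (j y) (by
      rw [dist_eq_norm, norm_sub_rev]
      exact hy.trans_le (min_le_left _ _))
    simp only [hval, dist_eq_norm] at h1
    have h2 : j ((x / Units.mk0 y hy0 ^ n : Kˣ) : K) = j (x : K) / j y ^ n := by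
      push_cast
      rw [Units.val_mk0, map_div₀, map_pow]
    rw [h2]
    exact h1

theorem forall_mem_locPow_iff (j : K →+* PadicAlgCl q) {n : ℕ} (hn : n ≠ 0) (x : Kˣ) :
    (∀ m, x ∈ H82.locPow n (placeOf j) m) ↔ ∃ z ∈ embField j, z ^ n = j (x : K) := by
  obtain ⟨m₀, hm₀⟩ := exists_forall_mem_locPow_iff j hn
  constructor
  · intro h
    exact (hm₀ m₀ le_rfl x).mp (h m₀)
  · intro h m
    exact H82.locPow_anti n _ (le_max_left m m₀) ((hm₀ (max m m₀) (le_max_right _ _) x).mpr h)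

end Powers

section LocModel

variable {q : ℕ} [Fact q.Prime] {K : Type*} [Field K]

theorem completeSpace_intermediateField (E : IntermediateField ℚ_[q] (PadicAlgCl q))
    [FiniteDimensional ℚ_[q] E] : CompleteSpace E := FiniteDimensional.complete ℚ_[q] E

theorem properSpace_intermediateField (E : IntermediateField ℚ_[q] (PadicAlgCl q))
    [FiniteDimensional ℚ_[q] E] : ProperSpace E := FiniteDimensional.proper ℚ_[q] E

/-- `K → E_j` -/
noncomputable def toEmbField (j : K →+* PadicAlgCl q) : K →+* embField j :=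
  j.codRestrict (embField j) (apply_mem_embField j)

@[simp] theorem coe_toEmbField (j : K →+* PadicAlgCl q) (x : K) :
    (toEmbField j x : PadicAlgCl q) = j x := rfl

theorem denseRange_toEmbField (j : K →+* PadicAlgCl q) : DenseRange (toEmbField j) := by
  rw [Metric.denseRange_iff]
  intro y ε hε
  obtain ⟨x, hx⟩ := exists_near j y.2 hε
  refine ⟨x, ?_⟩
  rw [dist_eq_norm]
  exact hx

/-- `E_j` is a model of the completion of `K` at the place defined by `j`. -/
theorem locModel_embField [NumberField K] (j : K →+* PadicAlgCl q) :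
    letI : Algebra K (embField j) := (toEmbField j).toAlgebra
    H65.LocModel ((placeOf j).valuation K) (embField j) := by
  let _ : Algebra K (embField j) := (toEmbField j).toAlgebra
  refine ⟨denseRange_toEmbField j, ?_⟩
  obtain ⟨c, hc0, hc1, hc⟩ := exists_norm_eq_zpow j
  refine ⟨(⟨c, hc0.le⟩ : ℝ≥0)⁻¹, ?_, ?_⟩
  · rw [one_lt_inv₀ (by exact_mod_cast hc0)]
    exact_mod_cast hc1
  · intro x
    have h1 : ‖algebraMap K (embField j) x‖ = ‖j x‖ := rfl
    rw [h1]
    by_cases hx : x = 0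
    · subst hx
      simp
    · have hv0 : (placeOf j).valuation K x ≠ 0 := (Valuation.ne_zero_iff _).mpr hx
      rw [hc x hx, WithZeroMulInt.toNNReal_neg_apply _ hv0, toAdd_unzero_eq_log hv0]
      push_cast
      rw [inv_zpow']
      rfl

end LocModel

end Fermat.Agent.H54
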