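import Mathlib
import Fermat.Prelude.Def_GroupCohomology_ContinuousUnramified
import Fermat.Agent.H55Defs
import Fermat.Agent.H55Fam

set_option autoImplicit false
set_option maxSynthPendingDepth 3

/-!
# S55 : the arithmetic instance of the local data
-/

namespace Fermat.Agent.H55

open Fermat.Agent.H91 ExtCitation

/-- The local data of `ℚ` at the primes of `S` (levels = number fields unramified outside `S`). -/
noncomputable def DS (S : Finset Nat.Primes) : LD (ramLevels S) where
  ι := ↥S
  Gv q := primeLocalGaloisGroup q.1
  lev q := krullLevels.comap (primeLocalToGlobal q.1)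
  loc q := primeLocalToGlobal q.1
  cont q U hU := ⟨U, ramLevels_le_krullLevels S hU, le_rfl⟩

end Fermat.Agent.H55
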