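import Mathlib
import Fermat.Agent.H54EmbField
import Fermat.Agent.H55Arith

set_option autoImplicit false
set_option maxSynthPendingDepth 3

open scoped NNReal IntermediateField Topology Pointwise
open IsDedekindDomain NumberField WithZero ExtCitation
open Fermat.Agent.H55

namespace Fermat.Agent.H54

section Open

/-- In an infinite Galois extension, a subgroup containing `Gal(L/F)`, `F/k` finite, is of the
form `Gal(L/F')` with `F' ⊆ F`. -/
theorem exists_eq_fixingSubgroup {k L : Type*} [Field k] [Field L] [Algebra k L] [IsGalois k L]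
    (F : IntermediateField k L) [FiniteDimensional k F] (U : Subgroup (L ≃ₐ[k] L))
    (h : F.fixingSubgroup ≤ U) :
    ∃ F' : IntermediateField k L, F' ≤ F ∧ FiniteDimensional k F' ∧ F'.fixingSubgroup = U := by
  have hopen : IsOpen (U : Set (L ≃ₐ[k] L)) :=
    Subgroup.isOpen_mono h F.fixingSubgroup_isOpen
  have hclosed : IsClosed (U : Set (L ≃ₐ[k] L)) := Subgroup.isClosed_of_isOpen U hopen
  have hle : IntermediateField.fixedField U ≤ F := by
    rw [← InfiniteGalois.fixedField_fixingSubgroup F]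
    exact IntermediateField.fixedField_antitone h
  refine ⟨IntermediateField.fixedField U, hle, ?_, ?_⟩
  · exact FiniteDimensional.of_injective (IntermediateField.inclusion hle).toLinearMap
      (IntermediateField.inclusion_injective hle)
  · exact InfiniteGalois.fixingSubgroup_fixedField ⟨U, hclosed⟩

variable (q : ℕ) [Fact q.Prime]

/-- the open subgroups of the local Galois group for the level structure pulled back from
`Gal(ℚ̄/ℚ)` are exactly the Galois groups of the finite extensions of `ℚ_q`. -/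
theorem op_comap_localGaloisToGlobal_iff (V : Subgroup (PadicAlgCl q ≃ₐ[ℚ_[q]] PadicAlgCl q)) :
    (krullLevels.comap (localGaloisToGlobal q)).op V ↔
      ∃ E : IntermediateField ℚ_[q] (PadicAlgCl q), FiniteDimensional ℚ_[q] E ∧
        E.fixingSubgroup = V := by
  constructor
  · rintro ⟨U, hU, hle⟩
    obtain ⟨F, hF, hFU⟩ := (krullLevels_op_iff U).mp hU
    have h1 : (locField q F).fixingSubgroup ≤ V := by
      rw [← comap_fixingSubgroup]
      exact (Subgroup.comap_mono hFU).trans hle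
    have : IsGalois ℚ_[q] (PadicAlgCl q) := ⟨⟩
    obtain ⟨E, -, hE, hEV⟩ := exists_eq_fixingSubgroup _ _ h1
    exact ⟨E, hE, hEV⟩
  · rintro ⟨E, hE, rfl⟩
    obtain ⟨F, hF, rfl⟩ := exists_locField_eq q E
    refine ⟨F.fixingSubgroup, (krullLevels_op_iff _).mpr ⟨F, hF, le_rfl⟩, ?_⟩
    rw [comap_fixingSubgroup]

theorem op_krullLevels_iff (U : Subgroup (AlgebraicClosure ℚ ≃ₐ[ℚ] AlgebraicClosure ℚ)) :
    krullLevels.op U ↔
      ∃ F : IntermediateField ℚ (AlgebraicClosure ℚ), FiniteDimensional ℚ F ∧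
        F.fixingSubgroup = U := by
  rw [krullLevels_op_iff]
  constructor
  · rintro ⟨F, hF, hle⟩
    obtain ⟨F', -, hF', h⟩ := exists_eq_fixingSubgroup _ _ hle
    exact ⟨F', hF', h⟩
  · rintro ⟨F, hF, rfl⟩
    exact ⟨F, hF, le_rfl⟩

theorem op_ramLevels_iff (S : Finset Nat.Primes)
    (U : Subgroup (AlgebraicClosure ℚ ≃ₐ[ℚ] AlgebraicClosure ℚ)) :
    (ramLevels S).op U ↔
      ∃ F : IntermediateField ℚ (AlgebraicClosure ℚ), F.IsUnramifiedOutside S ∧
        F.fixingSubgroup = U := by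
  rw [ramLevels_op_iff]
  constructor
  · rintro ⟨F, hF, hle⟩
    have := hF.1
    obtain ⟨F', hle', -, h⟩ := exists_eq_fixingSubgroup _ _ hle
    exact ⟨F', hF.of_le hle', h⟩
  · rintro ⟨F, hF, rfl⟩
    exact ⟨F, hF, le_rfl⟩

end Open

section Places

variable (q : ℕ) [Fact q.Prime] (K : IntermediateField ℚ (AlgebraicClosure ℚ))

/-- the embedding `ι ∘ g` of `K` in `PadicAlgCl q`. -/
noncomputable def embAt (g : AlgebraicClosure ℚ ≃ₐ[ℚ] AlgebraicClosure ℚ) :
    K →+* PadicAlgCl q :=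
  (embComp q g).comp (algebraMap K (AlgebraicClosure ℚ))

@[simp] theorem embAt_apply (g : AlgebraicClosure ℚ ≃ₐ[ℚ] AlgebraicClosure ℚ) (x : K) :
    embAt q K g x = padicEmbedding q (g x) := rfl

/-- every embedding is of the form `ι ∘ g` -/
theorem exists_embAt_eq (j : K →+* PadicAlgCl q) : ∃ g, embAt q K g = j := by
  let _ : Algebra K (PadicAlgCl q) := j.toAlgebra
  have : IsScalarTower ℚ K (PadicAlgCl q) := IsScalarTower.of_algebraMap_eq' (Subsingleton.elim _ _)
  let J : AlgebraicClosure ℚ →ₐ[K] PadicAlgCl q := IsAlgClosed.lift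
  let _ : Algebra (AlgebraicClosure ℚ) (PadicAlgCl q) := (padicEmbedding q).toRingHom.toAlgebra
  have : IsScalarTower ℚ (AlgebraicClosure ℚ) (PadicAlgCl q) :=
    IsScalarTower.of_algebraMap_eq' (Subsingleton.elim _ _)
  let g := (Normal.algHomEquivAut ℚ (PadicAlgCl q) (AlgebraicClosure ℚ)) (J.restrictScalars ℚ)
  refine ⟨g, ?_⟩
  have h1 : J.restrictScalars ℚ =
    (Normal.algHomEquivAut ℚ (PadicAlgCl q) (AlgebraicClosure ℚ)).symm g :=
    ((Normal.algHomEquivAut ℚ (PadicAlgCl q) (AlgebraicClosure ℚ)).symm_apply_apply _).symm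
  ext x
  have h2 : J (algebraMap K _ x) = padicEmbedding q (g x) := congrArg (fun f => f (x : AlgebraicClosure ℚ)) h1
  rw [embAt_apply, ← h2, J.commutes]
  rfl

theorem dec_fixingSubgroup (g : AlgebraicClosure ℚ ≃ₐ[ℚ] AlgebraicClosure ℚ) :
    dec (localGaloisToGlobal q) K.fixingSubgroup g = (embField (embAt q K g)).fixingSubgroup := by
  ext τ
  rw [mem_dec, mem_fixingSubgroup_embField_iff, IntermediateField.mem_fixingSubgroup_iff]
  constructor
  · intro h x
    have h1 := h x x.2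
    rw [AlgEquiv.mul_apply, AlgEquiv.mul_apply, AlgEquiv.aut_inv, AlgEquiv.symm_apply_eq] at h1
    rw [embAt_apply, ← padicEmbedding_localGaloisToGlobal, h1]
  · intro h x hx
    have h1 := h ⟨x, hx⟩
    rw [embAt_apply, ← padicEmbedding_localGaloisToGlobal] at h1
    have h2 := padicEmbedding_injective q h1
    rw [AlgEquiv.mul_apply, AlgEquiv.mul_apply, AlgEquiv.aut_inv, AlgEquiv.symm_apply_eq]
    exact h2

variable [NumberField K]

theorem place_eq_iff_placeOf (g g' : AlgebraicClosure ℚ ≃ₐ[ℚ] AlgebraicClosure ℚ) :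
    place (localGaloisToGlobal q) K.fixingSubgroup g =
        place (localGaloisToGlobal q) K.fixingSubgroup g' ↔
      placeOf (embAt q K g) = placeOf (embAt q K g') := by
  rw [place_eq_iff, placeOf_eq_iff]
  constructor
  · rintro ⟨τ, u, hu, rfl⟩
    refine ⟨τ, fun x => ?_⟩
    have h1 : u x = x := (IntermediateField.mem_fixingSubgroup_iff _ _).mp hu x x.2
    rw [embAt_apply, AlgEquiv.mul_apply, AlgEquiv.mul_apply, h1,
      padicEmbedding_localGaloisToGlobal, embAt_apply]
  · rintro ⟨τ, hτ⟩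
    refine ⟨τ, (localGaloisToGlobal q τ * g)⁻¹ * g', ?_, by group⟩
    rw [IntermediateField.mem_fixingSubgroup_iff]
    intro x hx
    have h1 := hτ ⟨x, hx⟩
    rw [embAt_apply, embAt_apply, ← padicEmbedding_localGaloisToGlobal] at h1
    have h2 := padicEmbedding_injective q h1
    rw [AlgEquiv.mul_apply, AlgEquiv.aut_inv, AlgEquiv.symm_apply_eq]
    exact h2

/-- the places of `K` above `q` -/
theorem exists_placeOf_embAt_eq (v : HeightOneSpectrum (𝓞 K)) (hv : (q : 𝓞 K) ∈ v.asIdeal) :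
    ∃ g, placeOf (embAt q K g) = v := by
  obtain ⟨j, hj⟩ := exists_placeOf_eq v hv
  obtain ⟨g, hg⟩ := exists_embAt_eq q K j
  exact ⟨g, by rw [hg, hj]⟩

/-- double cosets and places of `K` above `q` -/
noncomputable def placesEquiv : Places (localGaloisToGlobal q) K.fixingSubgroup ≃
    {v : HeightOneSpectrum (𝓞 K) // (q : 𝓞 K) ∈ v.asIdeal} :=
  Equiv.ofBijective
    (fun w => ⟨placeOf (embAt q K (place_surjective _ _ w).choose), prime_mem_placeOf _⟩) (by
      constructor
      · intro w w' h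
        have h1 : placeOf (embAt q K (place_surjective _ _ w).choose) =
          placeOf (embAt q K (place_surjective _ _ w').choose) := congrArg Subtype.val h
        rw [← place_eq_iff_placeOf, (place_surjective _ _ w).choose_spec,
          (place_surjective _ _ w').choose_spec] at h1
        exact h1
      · rintro ⟨v, hv⟩
        obtain ⟨g, hg⟩ := exists_placeOf_embAt_eq q K v hv
        refine ⟨place _ _ g, Subtype.ext ?_⟩
        show placeOf (embAt q K (place_surjective _ _ _).choose) = v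
        rw [← hg, ← place_eq_iff_placeOf, (place_surjective _ _ _).choose_spec])

theorem placesEquiv_place (g : AlgebraicClosure ℚ ≃ₐ[ℚ] AlgebraicClosure ℚ) :
    (placesEquiv q K (place _ _ g) : HeightOneSpectrum (𝓞 K)) = placeOf (embAt q K g) := by
  show placeOf (embAt q K (place_surjective _ _ _).choose) = _
  rw [← place_eq_iff_placeOf, (place_surjective _ _ _).choose_spec]

theorem nPl_eq : nPl (localGaloisToGlobal q) K.fixingSubgroup =
    {v : HeightOneSpectrum (𝓞 K) | (q : 𝓞 K) ∈ v.asIdeal}.ncard := by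
  rw [nPl, Nat.card_congr (placesEquiv q K)]
  rfl

end Places

section DS

theorem op_comap_primeLocalToGlobal_iff (q : Nat.Primes) (V : Subgroup (primeLocalGaloisGroup q)) :
    (krullLevels.comap (primeLocalToGlobal q)).op V ↔
      haveI : Fact (q : ℕ).Prime := ⟨q.2⟩
      ∃ E : IntermediateField ℚ_[(q : ℕ)] (PadicAlgCl (q : ℕ)),
        FiniteDimensional ℚ_[(q : ℕ)] E ∧ E.fixingSubgroup = V :=
  haveI : Fact (q : ℕ).Prime := ⟨q.2⟩
  op_comap_localGaloisToGlobal_iff (q : ℕ) V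

variable (S : Finset Nat.Primes) (K : IntermediateField ℚ (AlgebraicClosure ℚ)) [NumberField K]

theorem nPl_primeLocalToGlobal (q : Nat.Primes) :
    nPl (primeLocalToGlobal q) K.fixingSubgroup =
      {v : HeightOneSpectrum (𝓞 K) | ((q : ℕ) : 𝓞 K) ∈ v.asIdeal}.ncard :=
  haveI : Fact (q : ℕ).Prime := ⟨q.2⟩
  nPl_eq (q : ℕ) K

omit [NumberField K] in
theorem prime_unique {v : HeightOneSpectrum (𝓞 K)} {q q' : Nat.Primes}
    (h : ((q : ℕ) : 𝓞 K) ∈ v.asIdeal) (h' : ((q' : ℕ) : 𝓞 K) ∈ v.asIdeal) : q = q' := by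
  by_contra hne
  have hcop : Nat.Coprime (q : ℕ) (q' : ℕ) :=
    (Nat.coprime_primes q.2 q'.2).mpr (fun h => hne (Subtype.ext h))
  have h1 : IsCoprime ((q : ℕ) : ℤ) ((q' : ℕ) : ℤ) := Nat.isCoprime_iff_coprime.mpr hcop
  obtain ⟨a, b, hab⟩ := h1
  apply v.isPrime.ne_top
  rw [Ideal.eq_top_iff_one]
  have h2 : ((a * ((q : ℕ) : ℤ) + b * ((q' : ℕ) : ℤ) : ℤ) : 𝓞 K) = 1 := by
    rw [hab, Int.cast_one]
  rw [← h2]
  push_cast
  exact add_mem (Ideal.mul_mem_left _ _ h) (Ideal.mul_mem_left _ _ h')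

/-- `#S(K)` in terms of double cosets. -/
theorem nPlaces_eq : (DS S).nPlaces K.fixingSubgroup =
    {v : HeightOneSpectrum (𝓞 K) | ∃ q ∈ S, ((q : ℕ) : 𝓞 K) ∈ v.asIdeal}.ncard := by
  have h0 : (DS S).nPlaces K.fixingSubgroup =
      ∑ q : ↥S, nPl (primeLocalToGlobal q.1) K.fixingSubgroup := rfl
  rw [h0]
  have h1 : ∀ q : ↥S, nPl (primeLocalToGlobal q.1) K.fixingSubgroup =
      {v : HeightOneSpectrum (𝓞 K) | (((q : Nat.Primes) : ℕ) : 𝓞 K) ∈ v.asIdeal}.ncard :=
    fun q => nPl_primeLocalToGlobal K q.1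
  rw [Finset.sum_congr rfl (fun q _ => h1 q)]
  have hfin : ∀ q : Nat.Primes,
      {v : HeightOneSpectrum (𝓞 K) | ((q : ℕ) : 𝓞 K) ∈ v.asIdeal}.Finite := by
    intro q
    have : {v : HeightOneSpectrum (𝓞 K) | ((q : ℕ) : 𝓞 K) ∈ v.asIdeal} =
        {v : HeightOneSpectrum (𝓞 K) | v.asIdeal ∣ Ideal.span {((q : ℕ) : 𝓞 K)}} := by
      ext v
      rw [Set.mem_ofPred_eq, Set.mem_ofPred_eq, Ideal.dvd_iff_le,
        Ideal.span_singleton_le_iff_mem]
    rw [this]
    refine Ideal.finite_factors ?_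
    rw [Ne, Ideal.zero_eq_bot, Ideal.span_singleton_eq_bot]
    exact_mod_cast q.2.ne_zero
  have h2 : {v : HeightOneSpectrum (𝓞 K) | ∃ q ∈ S, ((q : ℕ) : 𝓞 K) ∈ v.asIdeal} =
      ⋃ q : ↥S, {v : HeightOneSpectrum (𝓞 K) | (((q : Nat.Primes) : ℕ) : 𝓞 K) ∈ v.asIdeal} := by
    ext v
    simp only [Set.mem_ofPred_eq, Set.mem_iUnion]
    constructor
    · rintro ⟨q, hq, h⟩
      exact ⟨⟨q, hq⟩, h⟩
    · rintro ⟨q, h⟩
      exact ⟨q.1, q.2, h⟩
  have h3 := Set.ncard_iUnion_of_finite
    (s := fun q : ↥S => {v : HeightOneSpectrum (𝓞 K) | (((q : Nat.Primes) : ℕ) : 𝓞 K) ∈ v.asIdeal})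
    (fun q => hfin q.1) (by
      intro q q' hne
      rw [Function.onFun, Set.disjoint_left]
      intro v hv hv'
      exact hne (Subtype.ext (prime_unique K hv hv')))
  rw [h2, h3, finsum_eq_sum_of_fintype]

end DS

end Fermat.Agent.H54
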