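import Mathlib
import Fermat.Agent.H54EmbField

/-!
# Finite extensions of `ℚ_q` contain finitely many `p`-power roots of unity
-/

set_option autoImplicit false

open scoped NNReal IntermediateField Topology
open Polynomial

namespace Fermat.Agent.H54

variable {q : ℕ} [Fact q.Prime]

theorem norm_eq_one_of_pow_eq_one' {n : ℕ} (hn : n ≠ 0) {ζ : PadicAlgCl q} (h : ζ ^ n = 1) :
    ‖ζ‖ = 1 := by
  have h1 : ‖ζ‖ ^ n = 1 := by rw [← norm_pow, h, norm_one]
  exact (pow_eq_one_iff_of_nonneg (norm_nonneg _) hn).mp h1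

theorem norm_one_sub_pow_le {ζ : PadicAlgCl q} (h : ‖ζ‖ = 1) (m : ℕ) :
    ‖1 - ζ ^ m‖ ≤ ‖1 - ζ‖ := by
  have h1 : 1 - ζ ^ m = (∑ i ∈ Finset.range m, ζ ^ i) * (1 - ζ) := by
    have := geom_sum_mul_neg ζ m
    rw [this]
  rw [h1, norm_mul]
  have h2 : ‖∑ i ∈ Finset.range m, ζ ^ i‖ ≤ 1 := by
    refine IsUltrametricDist.norm_sum_le_of_forall_le_of_nonneg zero_le_one fun i _ => ?_
    rw [norm_pow, h, one_pow]
  exact mul_le_of_le_one_left (norm_nonneg _) h2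

/-- A nontrivial `p`-power root of unity `ζ` in `\bar ℚ_q` satisfies `‖p‖ ≤ ‖1 - ζ‖`. -/
theorem norm_prime_le_norm_one_sub {p n : ℕ} (hp : p.Prime) {ζ : PadicAlgCl q}
    (h : ζ ^ p ^ n = 1) (h1 : ζ ≠ 1) : ‖(p : PadicAlgCl q)‖ ≤ ‖1 - ζ‖ := by
  classical
  have : Fact p.Prime := ⟨hp⟩
  have hpow : (p ^ n) ≠ 0 := pow_ne_zero _ hp.ne_zero
  have hζ : ‖ζ‖ = 1 := norm_eq_one_of_pow_eq_one' hpow h
  obtain ⟨k, hk, hord⟩ := (Nat.dvd_prime_pow hp).mp (orderOf_dvd_of_pow_eq_one h)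
  have hk0 : k ≠ 0 := by
    rintro rfl
    rw [pow_zero, orderOf_eq_one_iff] at hord
    exact h1 hord
  obtain ⟨l, rfl⟩ := Nat.exists_eq_succ_of_ne_zero hk0
  have hprim : IsPrimitiveRoot ζ (p ^ (l + 1)) := by
    rw [← hord]; exact IsPrimitiveRoot.orderOf ζ
  have hη : IsPrimitiveRoot (ζ ^ p ^ l) p := by
    refine hprim.pow (pow_pos hp.pos _) ?_
    rw [pow_succ]
  refine le_trans ?_ (norm_one_sub_pow_le hζ (p ^ l))
  set η := ζ ^ p ^ l with hηdef
  have h2 : (p : PadicAlgCl q) = ∏ μ ∈ primitiveRoots p (PadicAlgCl q), (1 - μ) := by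
    have h3 : eval 1 (cyclotomic p (PadicAlgCl q)) = (p : PadicAlgCl q) :=
      eval_one_cyclotomic_prime
    rw [← h3, cyclotomic_eq_prod_X_sub_primitiveRoots hη, eval_prod]
    simp
  rw [h2, norm_prod]
  have hmem : η ∈ primitiveRoots p (PadicAlgCl q) := (mem_primitiveRoots hp.pos).mpr hη
  rw [← Finset.mul_prod_erase _ _ hmem]
  refine mul_le_of_le_one_right (norm_nonneg _) ?_
  refine Finset.prod_le_one (fun _ _ => norm_nonneg _) fun μ hμ => ?_
  have hμ' := (mem_primitiveRoots hp.pos).mp (Finset.mem_of_mem_erase hμ)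
  have h4 : ‖μ‖ = 1 := norm_eq_one_of_pow_eq_one' hp.ne_zero hμ'.pow_eq_one
  have h5 := IsUltrametricDist.norm_add_le_max (1 : PadicAlgCl q) (-μ)
  rw [norm_neg, norm_one, h4, max_self, ← sub_eq_add_neg] at h5
  exact h5

/-- A finite extension of `ℚ_q` contains only finitely many `p`-power roots of unity. -/
theorem exists_primitiveRoot_notMem (E : IntermediateField ℚ_[q] (PadicAlgCl q))
    [FiniteDimensional ℚ_[q] E] {p : ℕ} (hp : p.Prime) :
    ∃ M : ℕ, ∀ m, M ≤ m → ∀ ζ : PadicAlgCl q, IsPrimitiveRoot ζ (p ^ m) → ζ ∉ E := by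
  by_contra hcon
  push Not at hcon
  have hex : ∀ M : ℕ, ∃ x : E, IsPrimitiveRoot (x : PadicAlgCl q) (p ^ M) := by
    intro M
    obtain ⟨m, hm, ζ, hζ, hE⟩ := hcon M
    refine ⟨⟨ζ ^ p ^ (m - M), pow_mem hE _⟩, hζ.pow (pow_pos hp.pos _) ?_⟩
    rw [← pow_add]
    congr 1
    omega
  choose x hx using hex
  have := properSpace_intermediateField E
  have hball : ∀ M, x M ∈ Metric.closedBall (0 : E) 1 := by
    intro M
    rw [mem_closedBall_zero_iff]
    exact (norm_eq_one_of_pow_eq_one' (pow_ne_zero _ hp.ne_zero) (hx M).pow_eq_one).le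
  obtain ⟨a, -, φ, hφ, hlim⟩ := (isCompact_closedBall (0 : E) 1).tendsto_subseq hball
  have hp0 : 0 < ‖(p : PadicAlgCl q)‖ := by
    rw [norm_pos_iff]
    exact_mod_cast hp.ne_zero
  have hcau := hlim.cauchySeq
  rw [Metric.cauchySeq_iff] at hcau
  obtain ⟨N, hN⟩ := hcau _ hp0
  have hlt := hN N le_rfl (N + 1) (Nat.le_succ _)
  have hφlt : φ N < φ (N + 1) := hφ (Nat.lt_succ_self N)
  set u : PadicAlgCl q := (x (φ N) : PadicAlgCl q) with hu
  set w : PadicAlgCl q := (x (φ (N + 1)) : PadicAlgCl q) with hw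
  have hu' : IsPrimitiveRoot u (p ^ φ N) := hx _
  have hw' : IsPrimitiveRoot w (p ^ φ (N + 1)) := hx _
  have hw1 : ‖w‖ = 1 := norm_eq_one_of_pow_eq_one' (pow_ne_zero _ hp.ne_zero) hw'.pow_eq_one
  have hw0 : w ≠ 0 := by
    intro h; rw [h, norm_zero] at hw1; exact zero_ne_one hw1
  have hne : u ≠ w := by
    intro h
    rw [h] at hu'
    have := hw'.dvd_of_pow_eq_one _ hu'.pow_eq_one
    rw [Nat.pow_dvd_pow_iff_le_right hp.one_lt] at this
    omega
  have hdist : dist (x (φ N)) (x (φ (N + 1))) = ‖1 - u / w‖ := by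
    rw [dist_comm, dist_eq_norm]
    have h1 : ‖x (φ (N + 1)) - x (φ N)‖ = ‖w - u‖ := rfl
    rw [h1]
    have h2 : w - u = w * (1 - u / w) := by field_simp
    rw [h2, norm_mul, hw1, one_mul]
  simp only [Function.comp_apply] at hlt
  rw [hdist] at hlt
  refine absurd hlt (not_lt.mpr ?_)
  refine norm_prime_le_norm_one_sub (n := φ (N + 1)) hp ?_ ?_
  · rw [div_pow, hw'.pow_eq_one, div_one]
    have h3 : p ^ φ (N + 1) = p ^ φ N * p ^ (φ (N + 1) - φ N) := by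
      rw [← pow_add]; congr 1; omega
    rw [h3, pow_mul, hu'.pow_eq_one, one_pow]
  · intro h
    exact hne ((div_eq_one_iff_eq hw0).mp h)

/-- `(F)`: for `E/ℚ_q` finite and every prime `p` there is `M` such that for `m ≥ M` some
element of `Gal(\bar ℚ_q / E)` moves the primitive `p^m`-th root of unity `ζ`. -/
theorem exists_fixing_move (E : IntermediateField ℚ_[q] (PadicAlgCl q))
    [FiniteDimensional ℚ_[q] E] {p : ℕ} (hp : p.Prime) :
    ∃ M : ℕ, ∀ m, M ≤ m → ∀ ζ : PadicAlgCl q, IsPrimitiveRoot ζ (p ^ m) →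
      ∃ s ∈ E.fixingSubgroup, s ζ ≠ ζ := by
  obtain ⟨M, hM⟩ := exists_primitiveRoot_notMem E hp
  refine ⟨M, fun m hm ζ hζ => ?_⟩
  by_contra hcon
  push Not at hcon
  exact hM m hm ζ hζ (mem_of_forall_fixingSubgroup E hcon)

end Fermat.Agent.H54
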