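import Mathlib
import Fermat.Agent.H7BrCarry

/-!
# Symbols and Kummer characters, abstractly (H7)
-/

set_option autoImplicit false
set_option linter.unusedSectionVars false

namespace Fermat.Agent.H7

open groupCohomology Fermat.Agent.H91 Fermat.Agent.H91.LevelFam

universe u v

variable {G : Type u} [Group G] {A : Type v} [AddCommGroup A] [DistribMulAction G A]

/-- `ζ` generates the `p`-torsion of `A` and is nonzero. -/
structure Zeta (p : ℕ) (ζ : A) : Prop where
  ne : ζ ≠ 0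
  tors : p • ζ = 0
  gen : ∀ a : A, p • a = 0 → ∃ k : ℕ, a = k • ζ

section zi

variable {p : ℕ} [hp : Fact p.Prime] {ζ : A} (hζ : Zeta p ζ)

/-- the embedding `ZMod p → A`, `1 ↦ ζ` -/
def zi : ZMod p →+ A := ZMod.lift p ⟨zmultiplesHom A ζ, by
  rw [zmultiplesHom_apply, natCast_zsmul]; exact hζ.tors⟩

theorem zi_natCast (k : ℕ) : zi hζ (k : ZMod p) = k • ζ := by
  have := ZMod.lift_coe p (⟨zmultiplesHom A ζ, by
    rw [zmultiplesHom_apply, natCast_zsmul]; exact hζ.tors⟩ :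
      {f : ℤ →+ A // f p = 0}) (k : ℤ)
  rw [Int.cast_natCast] at this
  rw [zi, this, zmultiplesHom_apply, natCast_zsmul]

theorem zi_apply (z : ZMod p) : zi hζ z = z.val • ζ := by
  rw [← zi_natCast hζ, ZMod.natCast_val, ZMod.cast_id', id]

theorem zi_one : zi hζ 1 = ζ := by
  have := zi_natCast hζ 1
  rwa [Nat.cast_one, one_smul] at this

theorem zi_injective : Function.Injective (zi hζ) := by
  rw [injective_iff_map_eq_zero]
  intro z hz
  by_contra hne
  apply hζ.ne
  have h1 : zi hζ (z⁻¹.val • z) = 0 := by rw [map_nsmul, hz, smul_zero]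
  rw [nsmul_eq_mul, ZMod.natCast_val, ZMod.cast_id', id, inv_mul_cancel₀ hne, zi_one] at h1
  exact h1

theorem exists_zi {a : A} (ha : p • a = 0) : ∃ z, zi hζ z = a := by
  obtain ⟨k, rfl⟩ := hζ.gen a ha
  exact ⟨k, zi_natCast hζ k⟩

theorem smul_zi {g : G} (hg : g • ζ = ζ) (z : ZMod p) : g • zi hζ z = zi hζ z := by
  rw [zi_apply, smul_comm, hg]

theorem p_smul_zi (z : ZMod p) : p • zi hζ z = 0 := by
  rw [zi_apply, smul_comm, hζ.tors, smul_zero]

theorem val_smul_zi (z w : ZMod p) : w.val • zi hζ z = zi hζ (z * w) := by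
  rw [← map_nsmul, nsmul_eq_mul, ZMod.natCast_val, ZMod.cast_id', id, mul_comm]

end zi

section kummer

variable {p : ℕ} [hp : Fact p.Prime] {ζ : A} (hζ : Zeta p ζ) (hfix : ∀ g : G, g • ζ = ζ)
  {𝓥 : LevelFam G}

/-- `χ` is the Kummer character of `α` -/
def IsKum (χ : G →* Multiplicative (ZMod p)) (α : A) : Prop :=
  ∀ g : G, g • α - α = zi hζ (Multiplicative.toAdd (χ g))

include hfix in
/-- an element with invariant `p`-multiple has a Kummer character -/
theorem exists_kum {α : A} (hα : p • α ∈ fix A (⊤ : Subgroup G)) :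
    ∃ χ : G →* Multiplicative (ZMod p), IsKum hζ χ α := by
  have h1 : ∀ g : G, ∃ z : ZMod p, zi hζ z = g • α - α := by
    intro g
    apply exists_zi
    rw [smul_sub, smul_comm, hα g trivial, sub_self]
  choose ψ hψ using h1
  refine ⟨MonoidHom.mk' (fun g => Multiplicative.ofAdd (ψ g)) ?_, fun g => (hψ g).symm⟩
  intro g h
  rw [← ofAdd_add]
  congr 1
  apply zi_injective hζ
  rw [map_add, hψ, hψ, hψ]
  have h2 := smul_zi hζ (hfix g) (ψ h)
  rw [hψ, smul_sub] at h2
  rw [mul_smul]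
  linear_combination (norm := abel) h2

theorem IsKum.ker_open (hA : 𝓥.Smooth A) {χ : G →* Multiplicative (ZMod p)} {α : A}
    (h : IsKum hζ χ α) : 𝓥.IsOpenSubgroup χ.ker := by
  obtain ⟨V, hV, hVα⟩ := hA α
  refine ⟨V, hV, fun s hs => ?_⟩
  have := h s
  rw [hVα s hs, sub_self] at this
  rw [MonoidHom.mem_ker]
  apply Multiplicative.toAdd.injective
  rw [toAdd_one]
  exact zi_injective hζ (by rw [← this, map_zero])

include hfix in
/-- every open character of order `p` is a Kummer character -/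
theorem kum_surj {χ : G →* Multiplicative (ZMod p)} (hχ : 𝓥.IsOpenSubgroup χ.ker)
    (h90 : 𝓥.H90 A) : ∃ β : A, IsKum hζ χ β := by
  obtain ⟨β, hβ⟩ := h90 (fun g => zi hζ (Multiplicative.toAdd (χ g))) (fun g h => by
      beta_reduce
      rw [map_mul, toAdd_mul, map_add, smul_zi hζ (hfix g), add_comm])
    (isConst₁_of_ker hχ (fun z => zi hζ (Multiplicative.toAdd z)))
  exact ⟨β, fun g => (hβ g).symm⟩

include hfix in
theorem IsKum.fix {χ : G →* Multiplicative (ZMod p)} {α : A} (h : IsKum hζ χ α) :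
    p • α ∈ fix A (⊤ : Subgroup G) := by
  intro g _
  have := h g
  have h2 : p • (g • α - α) = 0 := by rw [this, p_smul_zi]
  rw [smul_sub, sub_eq_zero] at h2
  rw [smul_comm, h2]

/-- the cup product of two characters with values in `⟨ζ⟩` -/
def cup (χ ψ : G →* Multiplicative (ZMod p)) : G × G → A := fun q =>
  zi hζ (Multiplicative.toAdd (χ q.1) * Multiplicative.toAdd (ψ q.2))

include hfix in
theorem cup_skew {χ ψ : G →* Multiplicative (ZMod p)} (hχ : 𝓥.IsOpenSubgroup χ.ker)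
    (hψ : 𝓥.IsOpenSubgroup ψ.ker) : 𝓥.Triv₂ (cup hζ χ ψ + cup hζ ψ χ) := by
  refine ⟨fun g => -zi hζ (Multiplicative.toAdd (χ g) * Multiplicative.toAdd (ψ g)), ?_,
    fun g h => ?_⟩
  · exact (isConst₁_of_ker hχ Multiplicative.toAdd).map₂ (isConst₁_of_ker hψ Multiplicative.toAdd)
      (fun a b => -zi hζ (a * b))
  · rw [dd_apply, smul_neg, smul_zi hζ (hfix g), Pi.add_apply, cup, cup, ← map_neg, ← map_neg,
      ← map_neg, ← map_sub, ← map_add, ← map_add, map_mul χ g h, map_mul ψ g h, toAdd_mul,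
      toAdd_mul]
    congr 1
    ring

/-- `f_{χ, pα} ~ - κ_α ∪ χ` for any open character `χ` of order `p` -/
theorem cc_kum {χ : G →* Multiplicative (ZMod p)} (hχ : 𝓥.IsOpenSubgroup χ.ker) (α : A) :
    𝓥.Triv₂ (cc χ (p • α) + fun q : G × G => tv χ q.2 • (q.1 • α - α)) := by
  refine ⟨fun g => tv χ g • α, isConst₁_of_ker hχ (fun z => (Multiplicative.toAdd z).val • α),
    fun g h => ?_⟩
  rw [dd_apply, Pi.add_apply, cc_apply]
  have h1 := tv_add χ g h
  have h2 : (tv χ g + tv χ h) • α = (tv χ (g * h) + p * cy χ g h) • α := by rw [h1]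
  rw [add_smul, add_smul, mul_comm p, mul_smul] at h2
  rw [smul_sub, smul_comm g]
  linear_combination (norm := abel) h2

theorem cc_kum' {χ ψ : G →* Multiplicative (ZMod p)} (hχ : 𝓥.IsOpenSubgroup χ.ker) {α : A}
    (hα : IsKum hζ ψ α) : 𝓥.Triv₂ (cc χ (p • α) + cup hζ ψ χ) := by
  have h := cc_kum hχ α
  have h2 : (fun q : G × G => tv χ q.2 • (q.1 • α - α)) = cup hζ ψ χ := by
    funext q
    rw [hα, tv, val_smul_zi, cup]
  rwa [h2] at h

include hfix in
/-- **Skew symmetry**: `f_{χ_β, pα} + f_{ψ_α, pβ} ~ 0`. -/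
theorem symb_skew (hA : 𝓥.Smooth A) {χ ψ : G →* Multiplicative (ZMod p)} {α β : A}
    (hα : IsKum hζ ψ α) (hβ : IsKum hζ χ β) :
    𝓥.Triv₂ (cc χ (p • α) + cc ψ (p • β)) := by
  have hχ := hβ.ker_open hζ hA (𝓥 := 𝓥)
  have hψ := hα.ker_open hζ hA (𝓥 := 𝓥)
  have h1 := cc_kum' hζ hχ hα
  have h2 := cc_kum' hζ hψ hβ
  have h3 := cup_skew hζ hfix hψ hχ
  have := Triv₂.sub (Triv₂.add h1 h2) h3
  have e : cc χ (p • α) + cup hζ ψ χ + (cc ψ (p • β) + cup hζ χ ψ)
      - (cup hζ ψ χ + cup hζ χ ψ) = cc χ (p • α) + cc ψ (p • β) := by abel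
  rwa [e] at this

end kummer

end Fermat.Agent.H7
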