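import Mathlib
import Fermat.Agent.H7BrKummer

/-!
# Abstract class field axioms; symbols form a line (H7)
-/

set_option autoImplicit false
set_option linter.unusedSectionVars false

namespace Fermat.Agent.H7

open groupCohomology Fermat.Agent.H91 Fermat.Agent.H91.LevelFam

universe u v

/-! ### group theory lemmas -/

theorem exists_not_mem_both {M : Type*} [AddCommGroup M] {N N' X : AddSubgroup M}
    (h : ¬ X ≤ N) (h' : ¬ X ≤ N') : ∃ a ∈ X, a ∉ N ∧ a ∉ N' := by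
  obtain ⟨x, hxX, hx⟩ := SetLike.not_le_iff_exists.1 h
  obtain ⟨y, hyX, hy⟩ := SetLike.not_le_iff_exists.1 h'
  by_cases hx' : x ∈ N'
  · by_cases hy' : y ∈ N
    · refine ⟨x + y, X.add_mem hxX hyX, fun hc => hx ?_, fun hc => hy ?_⟩
      · have := N.sub_mem hc hy'
        rwa [add_sub_cancel_right] at this
      · have := N'.sub_mem hc hx'
        rwa [add_sub_cancel_left] at this
    · exact ⟨y, hyX, hy', hy⟩
  · exact ⟨x, hxX, hx, hx'⟩

theorem exists_zsmul_sub_mem {M : Type*} [AddCommGroup M] {N X : AddSubgroup M} {p : ℕ}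
    (hp : p.Prime) (h : N.relIndex X = p) {a : M} (ha : a ∈ X) (haN : a ∉ N) {c : M}
    (hc : c ∈ X) : ∃ k : ℤ, c - k • a ∈ N := by
  have hcard : Nat.card (X ⧸ N.addSubgroupOf X) = p := h
  have : Fact p.Prime := ⟨hp⟩
  have : Finite (X ⧸ N.addSubgroupOf X) := Nat.finite_of_card_ne_zero (by rw [hcard]; exact hp.ne_zero)
  set Q := X ⧸ N.addSubgroupOf X
  set x : Q := QuotientAddGroup.mk ⟨a, ha⟩ with hx
  have hx0 : x ≠ 0 := by
    intro h0
    rw [hx, QuotientAddGroup.eq_zero_iff, AddSubgroup.mem_addSubgroupOf] at h0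
    exact haN h0
  have : Fact (Nat.card Q).Prime := ⟨by rw [hcard]; exact hp⟩
  have htop : AddSubgroup.zmultiples x = ⊤ := by
    rcases (AddSubgroup.zmultiples x).eq_bot_or_eq_top_of_prime_card with h1 | h1
    · exact absurd (AddSubgroup.zmultiples_eq_bot.1 h1) hx0
    · exact h1
  have hmem : (QuotientAddGroup.mk ⟨c, hc⟩ : Q) ∈ AddSubgroup.zmultiples x := by
    rw [htop]; trivial
  obtain ⟨k, hk⟩ := hmem
  refine ⟨k, ?_⟩
  have h1 : (QuotientAddGroup.mk (⟨c, hc⟩ - k • ⟨a, ha⟩ : X) : Q) = 0 := by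
    rw [QuotientAddGroup.mk_sub, sub_eq_zero, QuotientAddGroup.mk_zsmul]
    exact hk.symm
  rw [QuotientAddGroup.eq_zero_iff, AddSubgroup.mem_addSubgroupOf] at h1
  exact h1

variable {G : Type u} [Group G] {A : Type v} [AddCommGroup A] [DistribMulAction G A]

/-- abstract class field axioms -/
structure CF (p : ℕ) (𝓥 : LevelFam G) (A : Type v) [AddCommGroup A] [DistribMulAction G A] :
    Prop where
  smooth : 𝓥.Smooth A
  div : ∀ a : A, ∃ b : A, p • b = a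
  h90 : ∀ H : Subgroup G, 𝓥.IsOpenSubgroup H → (𝓥.restrict H).H90 A
  idx : ∀ U H : Subgroup G, 𝓥.IsOpenSubgroup H → H ≤ U → (∀ g ∈ U, ∀ h ∈ H, g * h * g⁻¹ ∈ H) →
    ∀ σ ∈ U, ∀ n : ℕ, n ≠ 0 → (∀ k : ℕ, σ ^ k ∈ H ↔ n ∣ k) →
    (∀ g ∈ U, ∃ k : ℕ, ∃ h ∈ H, g = σ ^ k * h) →
    ((fix A H).map (nrmHom A σ n)).relIndex (fix A U) = n

variable {p : ℕ} [hp : Fact p.Prime] {𝓥 : LevelFam G}

theorem Triv₂.res {f : G × G → A} (h : 𝓥.Triv₂ f) (H : Subgroup G) :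
    (𝓥.restrict H).Triv₂ (res₂ H f) := by
  obtain ⟨x, hx, h⟩ := h
  exact ⟨fun g => x g, hx.comap H.subtype, fun g g' => h g g'⟩

theorem Coh.res {f f' : G × G → A} (h : Coh 𝓥 f f') (H : Subgroup G) :
    Coh (𝓥.restrict H) (res₂ H f) (res₂ H f') := Triv₂.res h H

theorem isOpenSubgroup_top : 𝓥.IsOpenSubgroup ⊤ := by
  obtain ⟨V, hV⟩ := 𝓥.nonempty'
  exact ⟨V, hV, le_top⟩

theorem CF.h90_top (h : CF p 𝓥 A) : 𝓥.H90 A := by
  intro f hf hc
  obtain ⟨a, ha⟩ := h.h90 ⊤ isOpenSubgroup_top (fun g : (⊤ : Subgroup G) => f g)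
    (fun g g' => hf g g') (hc.comap (⊤ : Subgroup G).subtype)
  exact ⟨a, fun g => ha ⟨g, trivial⟩⟩

theorem CF.idx_ker (h : CF p 𝓥 A) {n : ℕ} [NeZero n] {χ : G →* Multiplicative (ZMod n)}
    (hχ : 𝓥.IsOpenSubgroup χ.ker) {σ : G} (hσ : χ σ = Multiplicative.ofAdd 1) :
    ((fix A χ.ker).map (nrmHom A σ n)).relIndex (fix A (⊤ : Subgroup G)) = n :=
  h.idx ⊤ χ.ker hχ le_top (fun g _ x hx => χ.normal_ker.conj_mem x hx g) σ trivial n
    (NeZero.ne n) (pow_mem_ker χ hσ) (fun g _ => exists_pow_mul χ hσ g)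

theorem res_cc_ker {n : ℕ} [NeZero n] (χ : G →* Multiplicative (ZMod n)) (a : A) :
    res₂ χ.ker (cc χ a) = 0 := by
  funext q
  show cy χ q.1 q.2 • a = 0
  rw [cy, tv_of_mem_ker χ q.1.2, tv_of_mem_ker χ q.2.2]
  simp

theorem surjective_of_ne {χ : G →* Multiplicative (ZMod p)} (h : ∃ g, χ g ≠ 1) :
    Function.Surjective χ := by
  obtain ⟨g, hg⟩ := h
  intro z
  have h1 : Multiplicative.toAdd (χ g) ≠ 0 := fun h0 => hg (Multiplicative.toAdd.injective h0)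
  refine ⟨g ^ (Multiplicative.toAdd z * (Multiplicative.toAdd (χ g))⁻¹).val, ?_⟩
  apply Multiplicative.toAdd.injective
  rw [map_pow, toAdd_pow, nsmul_eq_mul, ZMod.natCast_val, ZMod.cast_id', id,
    inv_mul_cancel_right₀ h1]

theorem cc_eq_zero_of_trivial {n : ℕ} [NeZero n] {χ : G →* Multiplicative (ZMod n)}
    (h : ∀ g, χ g = 1) (a : A) : cc χ a = 0 := by
  funext q
  show cy χ q.1 q.2 • a = 0
  rw [cy, tv_of_mem_ker χ (h _), tv_of_mem_ker χ (h _)]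
  simp

variable {ζ : A} (hζ : Zeta p ζ) (hfix : ∀ g : G, g • ζ = ζ)

include hζ hfix in
/-- **Symbols form a line**: a class killed by one open normal subgroup of index `p` is killed by
all of them. -/
theorem symb_indep (hCF : CF p 𝓥 A) {χ χ' : G →* Multiplicative (ZMod p)}
    (hs : Function.Surjective χ) (hs' : Function.Surjective χ')
    (hχ : 𝓥.IsOpenSubgroup χ.ker) (hχ' : 𝓥.IsOpenSubgroup χ'.ker) {f : G × G → A}
    (hf : IsCocycle₂ f) (hc : 𝓥.IsConst₂ f) (ht : (𝓥.restrict χ.ker).Triv₂ (res₂ χ.ker f)) :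
    (𝓥.restrict χ'.ker).Triv₂ (res₂ χ'.ker f) := by
  have hp1 : 1 < p := hp.out.one_lt
  obtain ⟨σ, hσ⟩ := hs (Multiplicative.ofAdd 1)
  obtain ⟨σ', hσ'⟩ := hs' (Multiplicative.ofAdd 1)
  obtain ⟨a, ha, hfa⟩ := exists_coh_cc hp1 hCF.smooth hχ (hCF.h90 _ hχ) hσ hf hc ht
  set N := (fix A χ.ker).map (nrmHom A σ p) with hN
  set N' := (fix A χ'.ker).map (nrmHom A σ' p) with hN'
  have hi : N.relIndex (fix A (⊤ : Subgroup G)) = p := hCF.idx_ker hχ hσ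
  have hi' : N'.relIndex (fix A (⊤ : Subgroup G)) = p := hCF.idx_ker hχ' hσ'
  have hnle : ¬ fix A (⊤ : Subgroup G) ≤ N := fun hle => by
    rw [AddSubgroup.relIndex_eq_one.2 hle] at hi; omega
  have hnle' : ¬ fix A (⊤ : Subgroup G) ≤ N' := fun hle => by
    rw [AddSubgroup.relIndex_eq_one.2 hle] at hi'; omega
  obtain ⟨a', ha', haN, haN'⟩ := exists_not_mem_both hnle hnle'
  obtain ⟨k, hk⟩ := exists_zsmul_sub_mem hp.out hi ha' haN ha
  obtain ⟨α, rfl⟩ := hCF.div a'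
  obtain ⟨ψ, hψ⟩ := exists_kum hζ hfix ha'
  obtain ⟨β, hβ⟩ := kum_surj hζ hfix hχ hCF.h90_top
  obtain ⟨β', hβ'⟩ := kum_surj hζ hfix hχ' hCF.h90_top
  have hψo := hψ.ker_open hζ hCF.smooth (𝓥 := 𝓥)
  have s1 := symb_skew hζ hfix hCF.smooth (𝓥 := 𝓥) hψ hβ
  have s2 := symb_skew hζ hfix hCF.smooth (𝓥 := 𝓥) hψ hβ'
  -- nontriviality
  have n1 : ¬ 𝓥.Triv₂ (cc χ' (p • α)) := fun h =>
    haN' ((triv₂_cc_iff hp1 hχ' (hCF.h90 _ hχ') hσ' ha').1 h)
  have n2 : ¬ 𝓥.Triv₂ (cc ψ (p • β')) := fun h => n1 (by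
    have := Triv₂.sub s2 h
    rwa [add_sub_cancel_right] at this)
  have hψs : Function.Surjective ψ := by
    apply surjective_of_ne
    by_contra hcon
    push Not at hcon
    exact n2 (by rw [cc_eq_zero_of_trivial hcon]; exact triv₂_zero)
  obtain ⟨τ, hτ⟩ := hψs (Multiplicative.ofAdd 1)
  have hfβ := hβ.fix hζ hfix
  have hfβ' := hβ'.fix hζ hfix
  have haψ : p • β' ∉ (fix A ψ.ker).map (nrmHom A τ p) := fun h =>
    n2 ((triv₂_cc_iff hp1 hψo (hCF.h90 _ hψo) hτ hfβ').2 h)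
  obtain ⟨l, hl⟩ := exists_zsmul_sub_mem hp.out (hCF.idx_ker hψo hτ) hfβ' haψ hfβ
  have t1 : 𝓥.Triv₂ (cc χ (a - k • (p • α))) :=
    (triv₂_cc_iff hp1 hχ (hCF.h90 _ hχ) hσ
      ((fix A (⊤ : Subgroup G)).sub_mem ha ((fix A (⊤ : Subgroup G)).zsmul_mem ha' k))).2 hk
  have t2 : 𝓥.Triv₂ (cc ψ (p • β - l • (p • β'))) :=
    (triv₂_cc_iff hp1 hψo (hCF.h90 _ hψo) hτ
      ((fix A (⊤ : Subgroup G)).sub_mem hfβ ((fix A (⊤ : Subgroup G)).zsmul_mem hfβ' l))).2 hl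
  rw [cc_sub, cc_zsmul] at t1 t2
  -- `f ~ (k l) cc χ' (p α)`
  have key : Coh 𝓥 f ((k * l) • cc χ' (p • α)) := by
    have e1 := Triv₂.add (Triv₂.add hfa t1) (Triv₂.zsmul s1 k)
    have e2 := Triv₂.zsmul t2 k
    have e3 := Triv₂.zsmul s2 (k * l)
    have := Triv₂.sub (Triv₂.sub e1 e2) e3
    rw [Coh]
    convert this using 1
    simp only [smul_add, smul_sub, mul_smul]
    abel
  have hr := key.res χ'.ker
  have hz : res₂ χ'.ker ((k * l) • cc χ' (p • α)) = 0 := by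
    rw [← cc_zsmul, res_cc_ker]
  rw [hz] at hr
  exact hr.triv triv₂_zero

end Fermat.Agent.H7
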