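import Mathlib
import Fermat.Agent.H54RootsUnity
import Fermat.Agent.H54Levels
import Fermat.Agent.H54CodDiv
import Fermat.Agent.H7BrSymb

/-!
# (C3), part 2: the cofinal family `K₀(μ_{p^m}) ⊂ K₀(μ_{p^{m+1}})`
-/

set_option autoImplicit false
set_option linter.unusedSectionVars false

namespace Fermat.Agent.H54

open NumberField IsDedekindDomain Fermat.Agent.H63 Fermat.Agent.H64 Fermat.Agent.H55
  Fermat.Agent.H91 Fermat.Agent.H47 ExtCitation
open scoped Pointwise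

local notation "Ω" => AlgebraicClosure ℚ
local notation "Γ" => (AlgebraicClosure ℚ ≃ₐ[ℚ] AlgebraicClosure ℚ)

/-! ### arithmetic -/

theorem exists_pow_val {p : ℕ} [hp : Fact p.Prime] (hp2 : p ≠ 2) {c m : ℕ} (hc : 1 < c)
    (h1 : p ∣ c - 1) (hm : ¬ p ^ m ∣ c - 1) :
    ∃ j, p ^ m ∣ c ^ p ^ j - 1 ∧ ¬ p ^ (m + 1) ∣ c ^ p ^ j - 1 := by
  have hodd : Odd p := hp.out.odd_of_ne_two hp2
  have hpc : ¬ p ∣ c := by
    intro h
    have h2 : p ∣ c - (c - 1) := Nat.dvd_sub h h1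
    have h3 : c - (c - 1) = 1 := by omega
    rw [h3, Nat.dvd_one] at h2
    exact hp.out.one_lt.ne' h2
  have hc0 : c - 1 ≠ 0 := by omega
  set v := padicValNat p (c - 1) with hv
  have hvm : v < m := by
    by_contra hcon
    exact hm ((padicValNat_dvd_iff_le hc0).2 (not_lt.1 hcon))
  have key : padicValNat p (c ^ p ^ (m - v) - 1) = m := by
    have h2 := padicValNat.pow_sub_pow (x := c) (y := 1) hodd hc (by simpa using h1) hpc
      (n := p ^ (m - v)) (pow_ne_zero _ hp.out.ne_zero)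
    rw [one_pow, padicValNat.prime_pow] at h2
    rw [h2, ← hv]
    omega
  have hne : c ^ p ^ (m - v) - 1 ≠ 0 := by
    have : 1 < c ^ p ^ (m - v) := Nat.one_lt_pow (pow_ne_zero _ hp.out.ne_zero) hc
    omega
  refine ⟨m - v, (padicValNat_dvd_iff_le hne).2 key.ge, fun h => ?_⟩
  have h3 := (padicValNat_dvd_iff_le hne).1 h
  omega

/-- `g ω = ω ^ c` iterated -/
theorem iterate_root {g : Γ} {ω : Ω} {c : ℕ} (h : g ω = ω ^ c) (k : ℕ) :
    (g ^ k) ω = ω ^ c ^ k := by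
  induction k with
  | zero => simp
  | succ k ih =>
    rw [pow_succ, AlgEquiv.mul_apply, h, map_pow, ih, ← pow_mul, ← pow_succ]

/-- moving roots of unity -/
theorem exists_pow_move {p : ℕ} [hp : Fact p.Prime] (hp2 : p ≠ 2) {m : ℕ} {ω : Ω}
    (hω : IsPrimitiveRoot ω (p ^ (m + 1))) {g : Γ} (hg1 : g (ω ^ p ^ m) = ω ^ p ^ m)
    (hgm : g (ω ^ p) ≠ ω ^ p) :
    ∃ k : ℕ, (g ^ k) (ω ^ p) = ω ^ p ∧ (g ^ k) ω ≠ ω := by
  have hp0 : p ^ (m + 1) ≠ 0 := pow_ne_zero _ hp.out.ne_zero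
  have : NeZero (p ^ (m + 1)) := ⟨hp0⟩
  have h1 : (g ω) ^ p ^ (m + 1) = 1 := by rw [← map_pow, hω.pow_eq_one, map_one]
  obtain ⟨c, -, hc⟩ := hω.eq_pow_of_pow_eq_one h1
  have hfix : ∀ d : ℕ, 1 ≤ d → ∀ n : ℕ, (ω ^ n) ^ d = ω ^ n ↔ p ^ (m + 1) ∣ n * (d - 1) := by
    intro d hd n
    rw [← hω.pow_eq_one_iff_dvd]
    have h0 : ω ^ n ≠ 0 := pow_ne_zero _ (hω.ne_zero hp0)
    obtain ⟨e, rfl⟩ : ∃ e, d = e + 1 := ⟨d - 1, by omega⟩
    rw [pow_succ, Nat.add_sub_cancel, pow_mul]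
    constructor
    · intro h
      exact (mul_eq_right₀ h0).1 h
    · intro h
      rw [h, one_mul]
  have hc0 : c ≠ 0 := by
    rintro rfl
    rw [pow_zero] at hc
    have h2 : ω = 1 := by
      apply g.injective
      rw [← hc, map_one]
    rw [h2] at hω
    have := hω.eq_orderOf
    rw [orderOf_one] at this
    exact (Nat.one_lt_pow (Nat.succ_ne_zero m) hp.out.one_lt).ne' this
  have hc1 : 1 ≤ c := Nat.one_le_iff_ne_zero.2 hc0
  have h2 : p ∣ c - 1 := by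
    rw [map_pow, ← hc, ← pow_mul, mul_comm, pow_mul, hfix c hc1, pow_succ] at hg1
    exact Nat.dvd_of_mul_dvd_mul_left (pow_pos hp.out.pos m) hg1
  have h3 : ¬ p ^ m ∣ c - 1 := by
    intro h
    apply hgm
    rw [map_pow, ← hc, ← pow_mul, mul_comm, pow_mul, hfix c hc1, pow_succ, mul_comm]
    exact Nat.mul_dvd_mul_left p h
  have hc2 : 1 < c := by
    rcases Nat.lt_or_ge 1 c with h | h
    · exact h
    · have : c = 1 := by omega
      rw [this] at h3
      simp at h3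
  obtain ⟨j, hj1, hj2⟩ := exists_pow_val hp2 hc2 h2 h3
  have hd1 : 1 ≤ c ^ p ^ j := Nat.one_le_pow _ _ hc1
  have hgk := iterate_root hc.symm (p ^ j)
  refine ⟨p ^ j, ?_, ?_⟩
  · rw [map_pow, hgk, ← pow_mul, mul_comm, pow_mul, hfix _ hd1, pow_succ, mul_comm]
    exact Nat.mul_dvd_mul_left p hj1
  · intro h
    apply hj2
    rw [hgk] at h
    have := (hfix _ hd1 1).1 (by rwa [pow_one])
    rwa [one_mul] at this

/-! ### fields generated by roots of unity -/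

theorem fixing_sup_adjoin (K : IntermediateField ℚ Ω) (ω : Ω) (g : Γ) :
    g ∈ (K ⊔ IntermediateField.adjoin ℚ {ω}).fixingSubgroup ↔ g ∈ K.fixingSubgroup ∧ g ω = ω := by
  rw [IntermediateField.fixingSubgroup_sup, Subgroup.mem_inf]
  refine and_congr_right fun _ => ?_
  constructor
  · intro h
    exact (IntermediateField.mem_fixingSubgroup_iff _ _).1 h ω
      (IntermediateField.mem_adjoin_simple_self ℚ ω)
  · intro h
    rw [← Subgroup.zpowers_le, ← IntermediateField.le_iff_le,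
      IntermediateField.adjoin_simple_le_iff, IntermediateField.mem_fixedField_iff]
    intro τ hτ
    have h2 : Subgroup.zpowers g ≤ MulAction.stabilizer Γ ω := by
      rw [Subgroup.zpowers_le]
      exact h
    exact h2 hτ

theorem normal_fixing_sup_adjoin {K : IntermediateField ℚ Ω} (hK : K.fixingSubgroup.Normal)
    {ω : Ω} {n : ℕ} (hn : n ≠ 0) (hω : IsPrimitiveRoot ω n) :
    (K ⊔ IntermediateField.adjoin ℚ {ω}).fixingSubgroup.Normal := by
  refine ⟨fun g hg τ => ?_⟩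
  rw [fixing_sup_adjoin] at hg ⊢
  refine ⟨hK.conj_mem g hg.1 τ, ?_⟩
  have : NeZero n := ⟨hn⟩
  have h1 : (τ⁻¹ ω) ^ n = 1 := by rw [← map_pow, hω.pow_eq_one, map_one]
  obtain ⟨i, -, hi⟩ := hω.eq_pow_of_pow_eq_one h1
  rw [AlgEquiv.mul_apply, AlgEquiv.mul_apply, ← hi, map_pow, hg.2, hi, AlgEquiv.aut_inv,
    AlgEquiv.apply_symm_apply]

theorem isUnramifiedOutside_sup_adjoin {S : Finset Nat.Primes} {K : IntermediateField ℚ Ω}
    (hK : K.IsUnramifiedOutside S) {p : ℕ} [hp : Fact p.Prime]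
    (hpS : ∀ q : Nat.Primes, (q : ℕ) = p → q ∈ S) {n : ℕ} {ω : Ω} (hω : ω ^ p ^ n = 1) :
    (K ⊔ IntermediateField.adjoin ℚ {ω}).IsUnramifiedOutside S := by
  have : FiniteDimensional ℚ K := hK.1
  have : NumberField K := H64.numberField_of_finiteDimensional K
  have h0 : ω ≠ 0 := by
    rintro rfl
    rw [zero_pow (pow_ne_zero _ hp.out.ne_zero)] at hω
    exact zero_ne_one hω
  have h1 := mem_unrW_of_pow_eq (p := p) hpS (e := umk ω h0) n (by
    apply uval_injective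
    rw [uval_nsmul, uval_umk, hω, uval_zero])
  exact adjoin_unramified hK h1

/-! ### the Kummer character -/

/-- `ζ` generates the `p`-torsion of `ℚ̄ˣ` -/
theorem zeta_umk {p : ℕ} [hp : Fact p.Prime] {ζ : Ω} (hζ : IsPrimitiveRoot ζ p) :
    H7.Zeta p (umk ζ (hζ.ne_zero hp.out.ne_zero)) where
  ne := by
    intro h
    have h1 := congrArg uval h
    rw [uval_umk, uval_zero] at h1
    exact hζ.ne_one hp.out.one_lt h1
  tors := by
    apply uval_injective
    rw [uval_nsmul, uval_umk, hζ.pow_eq_one, uval_zero]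
  gen := by
    intro a ha
    have : NeZero p := ⟨hp.out.ne_zero⟩
    have h1 : uval a ^ p = 1 := by rw [← uval_nsmul, ha, uval_zero]
    obtain ⟨i, -, hi⟩ := hζ.eq_pow_of_pow_eq_one h1
    exact ⟨i, uval_injective (by rw [uval_nsmul, uval_umk, hi])⟩

/-- The Kummer character of a root of unity. -/
theorem exists_character {p : ℕ} [hp : Fact p.Prime] {ζ : Ω} (hζ : IsPrimitiveRoot ζ p)
    {K : IntermediateField ℚ Ω} (hζK : ζ ∈ K) {ω : Ω} (hω : ω ≠ 0) (hωK : ω ^ p ∈ K)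
    (hmove : ∃ g ∈ K.fixingSubgroup, g ω ≠ ω) :
    ∃ χ : K.fixingSubgroup →* Multiplicative (ZMod p), Function.Surjective χ ∧
      ∀ g, χ g = 1 ↔ (g : Γ) ω = ω := by
  have hfix : ∀ g : K.fixingSubgroup, g • umk ζ (hζ.ne_zero hp.out.ne_zero) =
      umk ζ (hζ.ne_zero hp.out.ne_zero) := by
    intro g
    apply uval_injective
    exact (IntermediateField.mem_fixingSubgroup_iff K _).1 g.2 ζ hζK
  have hα : p • umk ω hω ∈ H7.fix (Additive Ωˣ) (⊤ : Subgroup K.fixingSubgroup) := by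
    intro g _
    apply uval_injective
    have h1 : uval (p • umk ω hω) = ω ^ p := by rw [uval_nsmul, uval_umk]
    show (g : Γ) (uval (p • umk ω hω)) = uval (p • umk ω hω)
    rw [h1]
    exact (IntermediateField.mem_fixingSubgroup_iff K _).1 g.2 _ hωK
  obtain ⟨χ, hχ⟩ := H7.exists_kum (zeta_umk hζ) hfix hα
  have key : ∀ g, χ g = 1 ↔ (g : Γ) ω = ω := by
    intro g
    have h1 := hχ g
    constructor
    · intro h
      rw [h, toAdd_one, map_zero, sub_eq_zero] at h1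
      exact congrArg uval h1
    · intro h
      have h2 : g • umk ω hω = umk ω hω := uval_injective h
      rw [h2, sub_self] at h1
      apply Multiplicative.toAdd.injective
      rw [toAdd_one]
      exact H7.zi_injective (zeta_umk hζ) (by rw [← h1, map_zero])
  refine ⟨χ, H7.surjective_of_ne ?_, key⟩
  obtain ⟨g, hg, hgω⟩ := hmove
  exact ⟨⟨g, hg⟩, fun h => hgω ((key _).1 h)⟩

/-! ### the family -/

/-- local elements moving high roots of unity -/
theorem exists_local_move (q : Nat.Primes) {U : Subgroup Γ} (hU : krullLevels.op U) {p : ℕ}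
    (hp : p.Prime) : ∃ M : ℕ, ∀ m, M ≤ m → ∀ ω : Ω, IsPrimitiveRoot ω (p ^ m) →
      ∃ s : primeLocalGaloisGroup q, primeLocalToGlobal q s ∈ U ∧ primeLocalToGlobal q s ω ≠ ω := by
  have : Fact (q : ℕ).Prime := ⟨q.2⟩
  obtain ⟨E, hE, hEU⟩ := (op_comap_primeLocalToGlobal_iff q _).1
    (Levels.cont_comap krullLevels (primeLocalToGlobal q) U hU)
  obtain ⟨M, hM⟩ := exists_fixing_move E hp
  refine ⟨M, fun m hm ω hω => ?_⟩
  obtain ⟨s, hs, hsω⟩ := hM m hm (padicEmbedding (q : ℕ) ω)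
    (hω.map_of_injective (padicEmbedding (q : ℕ)).injective)
  have hs' : s ∈ U.comap (primeLocalToGlobal q) := by
    have h1 : s ∈ E.fixingSubgroup := hs
    rw [hEU] at h1
    exact h1
  refine ⟨s, hs', fun h => hsω ?_⟩
  have h2 := padicEmbedding_localGaloisToGlobal (q : ℕ) s ω
  rw [← h2]
  congr 1

theorem exists_family {p : ℕ} [hp : Fact p.Prime] (hp2 : p ≠ 2) {S : Finset Nat.Primes}
    (hpS : ∀ q : Nat.Primes, (q : ℕ) = p → q ∈ S) {ζ : Ω} (hζ : IsPrimitiveRoot ζ p)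
    {U : Subgroup Γ} (hU : (ramLevels S).op U) :
    ∃ K L : IntermediateField ℚ Ω, K.fixingSubgroup ≤ U ∧ K ≤ L ∧ K.IsUnramifiedOutside S ∧
      L.IsUnramifiedOutside S ∧ K.fixingSubgroup.Normal ∧ L.fixingSubgroup.Normal ∧ ζ ∈ K ∧
      (∃ χ : K.fixingSubgroup →* Multiplicative (ZMod p), Function.Surjective χ ∧
        ∀ g, χ g = 1 ↔ (g : Γ) ∈ L.fixingSubgroup) ∧
      ∀ q ∈ S, ∃ s : primeLocalGaloisGroup q, primeLocalToGlobal q s ∈ K.fixingSubgroup ∧
        primeLocalToGlobal q s ∉ L.fixingSubgroup := by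
  classical
  have hp0 : p ≠ 0 := hp.out.ne_zero
  obtain ⟨F, hF, hFU⟩ := (ramLevels_op_iff S U).1 hU
  have hFζ := isUnramifiedOutside_sup_adjoin hF (p := p) hpS (n := 1) (ω := ζ)
    (by rw [pow_one]; exact hζ.pow_eq_one)
  obtain ⟨K₀, hK₀, hle, hn, -⟩ := exists_normal_levelS hFζ
  have hK₀U : K₀.fixingSubgroup ≤ U :=
    (IntermediateField.fixingSubgroup_antitone (le_sup_left.trans hle)).trans hFU
  have hζK₀ : ζ ∈ K₀ := hle (le_sup_right (a := F) (IntermediateField.mem_adjoin_simple_self ℚ ζ))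
  have hK₀op : krullLevels.op K₀.fixingSubgroup :=
    (krullLevels_op_iff _).2 ⟨K₀, hK₀.1, le_rfl⟩
  choose M hM using fun q : Nat.Primes => exists_local_move q hK₀op hp.out
  set m := max 1 (S.sup M) with hm
  have hm1 : 1 ≤ m := le_max_left _ _
  have hmM : ∀ q ∈ S, M q ≤ m := fun q hq => (Finset.le_sup hq).trans (le_max_right _ _)
  obtain ⟨ω, hω⟩ : ∃ ω : Ω, IsPrimitiveRoot ω (p ^ (m + 1)) := by
    have : NeZero ((p ^ (m + 1) : ℕ) : Ω) := ⟨by exact_mod_cast pow_ne_zero _ hp0⟩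
    obtain ⟨ω, hω⟩ := IsAlgClosed.exists_aeval_eq_zero Ω (Polynomial.cyclotomic (p ^ (m + 1)) Ω)
      (by rw [Polynomial.degree_cyclotomic]; exact_mod_cast (Nat.totient_pos.2 (pow_pos hp.out.pos _)).ne')
    refine ⟨ω, ?_⟩
    rw [Polynomial.aeval_def, Polynomial.eval₂_eq_eval_map, Algebra.algebraMap_self,
      Polynomial.map_id] at hω
    exact (Polynomial.isRoot_cyclotomic_iff).1 hω
  have hω' : IsPrimitiveRoot (ω ^ p) (p ^ m) :=
    hω.pow (pow_pos hp.out.pos _) (by rw [pow_succ, mul_comm])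
  have hωζ : ω ^ p ^ m ∈ K₀ := by
    have h1 : (ω ^ p ^ m) ^ p = 1 := by rw [← pow_mul, ← pow_succ, hω.pow_eq_one]
    have : NeZero p := ⟨hp0⟩
    obtain ⟨i, -, hi⟩ := hζ.eq_pow_of_pow_eq_one h1
    rw [← hi]
    exact pow_mem hζK₀ i
  have hω0 : ω ≠ 0 := hω.ne_zero (pow_ne_zero _ hp0)
  -- the local elements
  have hloc : ∀ q ∈ S, ∃ s : primeLocalGaloisGroup q,
      primeLocalToGlobal q s ∈ K₀.fixingSubgroup ∧ primeLocalToGlobal q s (ω ^ p) = ω ^ p ∧
        primeLocalToGlobal q s ω ≠ ω := by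
    intro q hq
    obtain ⟨s, hs, hsω⟩ := hM q m (hmM q hq) (ω ^ p) hω'
    have h1 : primeLocalToGlobal q s (ω ^ p ^ m) = ω ^ p ^ m :=
      (IntermediateField.mem_fixingSubgroup_iff K₀ _).1 hs _ hωζ
    obtain ⟨k, hk1, hk2⟩ := exists_pow_move hp2 hω h1 hsω
    have e : primeLocalToGlobal q (s ^ k) = (primeLocalToGlobal q s) ^ k := map_pow _ _ _
    refine ⟨s ^ k, ?_, ?_, ?_⟩
    · rw [e]; exact Subgroup.pow_mem _ hs k
    · rw [e]; exact hk1
    · rw [e]; exact hk2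
  set K := K₀ ⊔ IntermediateField.adjoin ℚ {ω ^ p} with hK
  set L := K₀ ⊔ IntermediateField.adjoin ℚ {ω} with hL
  have hωL : ω ∈ L := le_sup_right (a := K₀) (IntermediateField.mem_adjoin_simple_self ℚ ω)
  have hωpK : ω ^ p ∈ K :=
    le_sup_right (a := K₀) (IntermediateField.mem_adjoin_simple_self ℚ (ω ^ p))
  have hKL : K ≤ L := by
    refine sup_le le_sup_left ?_
    rw [IntermediateField.adjoin_simple_le_iff]
    exact pow_mem hωL p
  have hmemL : ∀ g : Γ, g ∈ K.fixingSubgroup → (g ∈ L.fixingSubgroup ↔ g ω = ω) := by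
    intro g hg
    rw [hL, fixing_sup_adjoin]
    rw [hK, fixing_sup_adjoin] at hg
    exact ⟨fun h => h.2, fun h => ⟨hg.1, h⟩⟩
  have hlocK : ∀ q ∈ S, ∃ s : primeLocalGaloisGroup q, primeLocalToGlobal q s ∈ K.fixingSubgroup ∧
      primeLocalToGlobal q s ω ≠ ω := by
    intro q hq
    obtain ⟨s, hs1, hs2, hs3⟩ := hloc q hq
    exact ⟨s, by rw [hK, fixing_sup_adjoin]; exact ⟨hs1, hs2⟩, hs3⟩
  have hζK : ζ ∈ K := le_sup_left (a := K₀) hζK₀
  have hpS' : (⟨p, hp.out⟩ : Nat.Primes) ∈ S := hpS _ rfl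
  obtain ⟨χ, hχs, hχ⟩ := exists_character hζ hζK hω0 hωpK (by
    obtain ⟨s, hs1, hs2⟩ := hlocK _ hpS'
    exact ⟨_, hs1, hs2⟩)
  refine ⟨K, L, ?_, hKL, ?_, ?_, ?_, ?_, hζK, ⟨χ, hχs, fun g => ?_⟩, fun q hq => ?_⟩
  · exact (IntermediateField.fixingSubgroup_antitone le_sup_left).trans hK₀U
  · exact isUnramifiedOutside_sup_adjoin hK₀ hpS (n := m) hω'.pow_eq_one
  · exact isUnramifiedOutside_sup_adjoin hK₀ hpS (n := m + 1) hω.pow_eq_one
  · exact normal_fixing_sup_adjoin hn (pow_ne_zero _ hp0) hω'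
  · exact normal_fixing_sup_adjoin hn (pow_ne_zero _ hp0) hω
  · rw [hχ, hmemL _ g.2]
  · obtain ⟨s, hs1, hs2⟩ := hlocK q hq
    exact ⟨s, hs1, fun h => hs2 ((hmemL _ hs1).1 h)⟩

end Fermat.Agent.H54
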