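import Fermat.Agent.H82G4b

/-!
# Norms outside a finite set of places (codimension `≤ 1`), and statements for `H91`
-/

set_option autoImplicit false

noncomputable section

open IsDedekindDomain NumberField WithZero
open scoped Pointwise

namespace Fermat.Agent.H82

section split

variable {K : Type*} [Field K] [NumberField K] {L : Type*} [Field L] [NumberField L] [Algebra K L]
  {p : ℕ} [hp : Fact p.Prime] [IsGalois K L]

/-- At split places, a Galois element fixing a place above is trivial. -/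
theorem eq_one_of_split (hdeg : Module.finrank K L = p) {v : HeightOneSpectrum (𝓞 K)}
    (hv : ¬ NonSplit L v) {w : HeightOneSpectrum (𝓞 L)} (hw : w ∈ above L v) (σ : L ≃ₐ[K] L)
    (hσ : H47.smulPlace σ w = w) : σ = 1 := by
  by_contra hne
  apply hv
  have hcard : Nat.card (L ≃ₐ[K] L) = p := by rw [IsGalois.card_aut_eq_finrank, hdeg]
  have hzp : Subgroup.zpowers σ = ⊤ := by
    have : Fact (Nat.card (L ≃ₐ[K] L)).Prime := by rw [hcard]; exact hp
    rcases Subgroup.eq_bot_or_eq_top_of_prime_card (Subgroup.zpowers σ) with h | h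
    · exact absurd (Subgroup.zpowers_eq_bot.1 h) hne
    · exact h
  have hfix : ∀ τ : L ≃ₐ[K] L, H47.smulPlace τ w = w := by
    intro τ
    have hτ : τ ∈ Subgroup.zpowers σ := by rw [hzp]; trivial
    have h1 : σ ∈ MulAction.stabilizer (L ≃ₐ[K] L) w.asIdeal := by
      have := congrArg HeightOneSpectrum.asIdeal hσ
      exact this
    have h2 : τ ∈ MulAction.stabilizer (L ≃ₐ[K] L) w.asIdeal :=
      (Subgroup.zpowers_le.2 h1) hτ
    exact HeightOneSpectrum.ext h2
  rw [NonSplit, Set.ncard_eq_one]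
  refine ⟨w, Set.eq_singleton_iff_unique_mem.2 ⟨hw, fun w' hw' => ?_⟩⟩
  obtain ⟨τ, rfl⟩ := H47.exists_smulPlace_eq (K := K) hw hw'
  exact hfix τ

/-- Everything is a local norm at split places. -/
theorem locNorm_eq_top_of_split (hdeg : Module.finrank K L = p) {v : HeightOneSpectrum (𝓞 K)}
    (hv : ¬ NonSplit L v) (m : ℕ) : locNorm L v m = ⊤ := by
  classical
  have hfd : FiniteDimensional K L := Module.Finite.of_restrictScalars_finite ℚ K L
  obtain ⟨w, hw⟩ := H47.above_nonempty (L := L) v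
  have he := ramificationIdx'_ne_zero hw
  set e := v.asIdeal.ramificationIdx' w.asIdeal with he'
  have hstab : ∀ σ : L ≃ₐ[K] L, H47.smulPlace σ w = w → σ = 1 := fun σ hσ =>
    eq_one_of_split hdeg hv hw σ hσ
  rw [Subgroup.eq_top_iff']
  intro x
  set x' : Lˣ := Units.map (algebraMap K L : K →* L) x with hx'
  obtain ⟨z, hz⟩ := exists_approx (K := L)
    (Finset.univ.image fun σ : L ≃ₐ[K] L => H47.smulPlace σ w) (fun _ => e * (m + 1))
    (fun u => if u = w then x' else 1)
  have hz1 : z / x' ∈ congr w (e * (m + 1)) := by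
    have := hz w (Finset.mem_image.2 ⟨1, Finset.mem_univ _, by
      apply HeightOneSpectrum.ext
      rw [H47.smulPlace_asIdeal, one_smul]⟩)
    rwa [if_pos rfl] at this
  have hz2 : ∀ σ : L ≃ₐ[K] L, σ ≠ 1 → z ∈ congr (H47.smulPlace σ w) (e * (m + 1)) := by
    intro σ hσ
    have := hz (H47.smulPlace σ w) (Finset.mem_image.2 ⟨σ, Finset.mem_univ _, rfl⟩)
    rwa [if_neg (fun h => hσ (hstab σ h)), div_one] at this
  -- the norm
  set N : Kˣ := Units.map (Algebra.norm K : L →* K) z with hN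
  have hNL : Units.map (algebraMap K L : K →* L) N
      = ∏ σ : L ≃ₐ[K] L, Units.map (σ : L →* L) z := by
    ext
    rw [Units.coe_prod]
    exact Algebra.norm_eq_prod_automorphisms K (z : L)
  have hmem : Units.map (algebraMap K L : K →* L) (N / x) ∈ congr w (e * (m + 1)) := by
    rw [map_div, hNL, ← Finset.mul_prod_erase _ _ (Finset.mem_univ (1 : L ≃ₐ[K] L))]
    have h1 : Units.map ((1 : L ≃ₐ[K] L) : L →* L) z = z := by ext; rfl
    rw [h1, ← hx', mul_div_right_comm]
    refine mul_mem hz1 (prod_mem fun σ hσ => ?_)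
    have hσ1 : σ ≠ 1 := (Finset.mem_erase.1 hσ).1
    have h2 := hz2 σ⁻¹ (inv_ne_one.2 hσ1)
    have hinv : H47.smulPlace σ (H47.smulPlace σ⁻¹ w) = w := by
      apply HeightOneSpectrum.ext
      rw [H47.smulPlace_asIdeal, H47.smulPlace_asIdeal, smul_inv_smul]
    refine ⟨?_, ?_⟩
    · have h3 := H47.valuation_smulPlace σ (H47.smulPlace σ⁻¹ w) (z : L)
      rw [hinv, h2.1] at h3
      exact h3
    · have h3 := H47.valuation_smulPlace σ (H47.smulPlace σ⁻¹ w) ((z : L) - 1)
      rw [hinv, map_sub σ, map_one σ] at h3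
      exact h3.le.trans h2.2
  have h3 : v.valuation K ((N / x : Kˣ) : K) = 1 := by
    have h4 := hmem.1
    have h5 : ((Units.map (algebraMap K L : K →* L) (N / x) : Lˣ) : L)
      = algebraMap K L ((N / x : Kˣ) : K) := rfl
    rw [h5, valuation_above hw] at h4
    exact (pow_eq_one_iff_of_nonneg zero_le he).1 h4
  have h4 : v.valuation K (((N / x : Kˣ) : K) - 1) ≤ exp (-((m + 1 : ℕ) : ℤ)) := by
    have h5 := hmem.2
    have h6 : ((Units.map (algebraMap K L : K →* L) (N / x) : Lˣ) : L) - 1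
      = algebraMap K L (((N / x : Kˣ) : K) - 1) := by
      rw [map_sub (algebraMap K L), map_one (algebraMap K L)]; rfl
    rw [h6, valuation_above hw] at h5
    have h7 : (exp (-((e * (m + 1) : ℕ) : ℤ)) : ℤᵐ⁰) = exp (-((m + 1 : ℕ) : ℤ)) ^ e := by
      rw [← exp_nsmul]
      congr 1
    rw [h7] at h5
    exact (pow_le_pow_iff_left₀ zero_le zero_le he).1 h5
  rw [mem_locNorm]
  refine ⟨z, ?_⟩
  have h5 : N / x ∈ congr v m := congr_anti v (Nat.le_succ m) ⟨h3, h4⟩
  have h6 := inv_mem h5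
  rwa [inv_div] at h6

end split

section outside

variable {K : Type} [Field K] [NumberField K] {p : ℕ} [hp : Fact p.Prime] {ζ : K}
  (hζ : IsPrimitiveRoot ζ p) (L : Type) [Field L] [NumberField L] [Algebra K L]

/-- Elements which are local norms at all (nonsplit) places outside `S`. -/
def normOutside (S : Set (HeightOneSpectrum (𝓞 K))) : Subgroup Kˣ :=
  ⨅ (v : HeightOneSpectrum (𝓞 K)) (_ : v ∉ S) (_ : NonSplit L v) (m : ℕ), locNorm L v m

theorem mem_normOutside {S : Set (HeightOneSpectrum (𝓞 K))} {x : Kˣ} :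
    x ∈ normOutside L S ↔ ∀ v, v ∉ S → NonSplit L v → ∀ m, x ∈ locNorm L v m := by
  simp only [normOutside, Subgroup.mem_iInf]

theorem relIndex_sup_dvd {G : Type*} [CommGroup G] (H M Q : Subgroup G) (hHM : H ≤ M) :
    (H ⊔ Q).relIndex (M ⊔ Q) ∣ H.relIndex M := by
  have h1 : M ⊔ Q = M ⊔ (H ⊔ Q) := by
    rw [← sup_assoc, sup_eq_left.2 hHM]
  rw [h1, Subgroup.relIndex_sup_right]
  exact Subgroup.relIndex_dvd_of_le_left M le_sup_left

include hζ in
/-- **(J8)** codimension at most one, for an arbitrary finite set of places. -/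
theorem index_normOutside_sup [IsGalois K L] (hp2 : p ≠ 2) (hdeg : Module.finrank K L = p)
    {S : Set (HeightOneSpectrum (𝓞 K))} (hS : S.Finite) :
    (normOutside L S ⊔ ⨅ v ∈ S, ⨅ m, locNorm L v m).index ∣ p := by
  classical
  obtain ⟨a, α, hα, ha⟩ := exists_isKummer hζ L hdeg
  have hp0 : (p : K) ≠ 0 := by exact_mod_cast hp.out.ne_zero
  have hfin : ({v | v.valuation K ((Units.mk0 (p : K) hp0 : Kˣ) : K) ≠ 1} ∪
      {v | v.valuation K (a : K) ≠ 1} ∪ S).Finite :=
    ((finite_valuation_ne_one _).union (finite_valuation_ne_one _)).union hS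
  obtain ⟨T₀, hT₁, hT₀, hcl⟩ := H47.exists_clTrivial K hfin
  obtain ⟨T, rfl⟩ : ∃ T : Finset (HeightOneSpectrum (𝓞 K)), (T : Set _) = T₀ :=
    ⟨hT₀.toFinset, hT₀.coe_toFinset⟩
  have hTp : ∀ v, v ∉ T → v.valuation K (p : K) = 1 := by
    intro v hv
    by_contra h
    exact hv (hT₁ (Or.inl (Or.inl h)))
  have hTa : a ∈ (T : Set (HeightOneSpectrum (𝓞 K))).unit K := by
    intro v hv
    by_contra h
    exact hv (hT₁ (Or.inl (Or.inr h)))
  have hST : ∀ v ∈ S, v ∈ T := fun v hv => Finset.mem_coe.1 (hT₁ (Or.inr hv))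
  choose m hm using fun v : HeightOneSpectrum (𝓞 K) => exists_deep hp.out.one_lt hζ v
  obtain ⟨A, hAcard, hA, hidx, -⟩ := exists_aux_set hζ (T : Set (HeightOneSpectrum (𝓞 K)))
    T.finite_toSet hTa ha ∅ Set.finite_empty
  rw [Set.ncard_coe_finset] at hAcard
  have hindex := index_unit_sup hζ hp2 hcl hTp m (fun v _ => hm v) (fun v hv => (hA v hv).1)
    hAcard hidx
  set U := (⨅ v ∈ T, locPow p v (m v)) with hU
  set E' := ((T : Set (HeightOneSpectrum (𝓞 K))) ∪ A).unit K with hE'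
  set T₁ := T.filter (fun v => v ∉ S) with hT₁
  set S₁ := T.filter (fun v => v ∈ S) with hS₁
  set M := (⨅ v ∈ T₁, locNorm L v (m v)) with hM
  set Q := (⨅ v ∈ S₁, locNorm L v (m v)) with hQ
  have hUM : U ≤ M := le_iInf₂ fun v hv =>
    (iInf₂_le v (Finset.mem_filter.1 hv).1).trans (locPow_le_locNorm L hdeg v (m v))
  have hUQ : U ≤ Q := le_iInf₂ fun v hv =>
    (iInf₂_le v (Finset.mem_filter.1 hv).1).trans (locPow_le_locNorm L hdeg v (m v))
  -- weak approximation
  have hMQ : M ⊔ Q = ⊤ := by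
    rw [Subgroup.eq_top_iff']
    intro x
    obtain ⟨y, hy⟩ := exists_approx T m (fun v => if v ∈ S then 1 else x)
    have h1 : y ∈ Q := by
      rw [hQ, Subgroup.mem_iInf]
      intro v
      rw [Subgroup.mem_iInf]
      intro hv
      obtain ⟨hvT, hvS⟩ := Finset.mem_filter.1 hv
      have := hy v hvT
      rw [if_pos hvS, div_one] at this
      exact Subgroup.mem_sup_right this
    have h2 : y / x ∈ M := by
      rw [hM, Subgroup.mem_iInf]
      intro v
      rw [Subgroup.mem_iInf]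
      intro hv
      obtain ⟨hvT, hvS⟩ := Finset.mem_filter.1 hv
      have := hy v hvT
      rw [if_neg hvS] at this
      exact Subgroup.mem_sup_right this
    have h3 : x = (y / x)⁻¹ * y := by rw [inv_div, div_mul_cancel]
    rw [h3]
    exact mul_mem (Subgroup.mem_sup_left (inv_mem h2)) (Subgroup.mem_sup_right h1)
  -- `M ⊓ (E' ⊔ U) ≤ W ⊔ Q`
  have hQ' : Q ≤ ⨅ v ∈ S, ⨅ n, locNorm L v n := by
    refine le_iInf₂ fun v hv => ?_
    rw [iInf_locNorm_eq hζ hdeg (hm v)]
    exact iInf₂_le v (Finset.mem_filter.2 ⟨hST v hv, hv⟩)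
  have hW : M ⊓ E' ≤ normOutside L S := by
    rintro x ⟨hxM, hxE⟩
    rw [mem_normOutside]
    intro v hvS hvn
    rw [forall_mem_locNorm_iff hζ hdeg (hm v)]
    by_cases hvT : v ∈ T
    · have h1 : M ≤ locNorm L v (m v) := iInf₂_le v (Finset.mem_filter.2 ⟨hvT, hvS⟩)
      exact h1 hxM
    · have hvp := hTp v hvT
      have hvA : v ∉ A := fun h =>
        hα.not_nonSplit hζ hdeg (deep_of_not_dvd hζ hvp one_pos) (hA v h).2.2.2 hvn
      have hmpos : 0 < m v := (hm v).pos hp.out.one_lt hζ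
      refine units_le_locNorm hζ hdeg hvp hvn (unramified_outside hζ hTp hα hTa hvT) hmpos ?_
      rw [mem_congr_zero]
      refine hxE v ?_
      rw [Set.mem_union, not_or]
      exact ⟨fun h => hvT (Finset.mem_coe.1 h), fun h => hvA (Finset.mem_coe.1 h)⟩
  have hX : M ⊓ (E' ⊔ U) ≤ (M ⊓ E') ⊔ U := by
    rw [inf_comm, sup_comm, sup_inf_assoc_of_le E' hUM, inf_comm, sup_comm]
  have hle : (M ⊓ (E' ⊔ U)) ⊔ Q ≤ normOutside L S ⊔ ⨅ v ∈ S, ⨅ n, locNorm L v n := by
    refine sup_le (hX.trans (sup_le (hW.trans le_sup_left) ?_)) (hQ'.trans le_sup_right)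
    exact (hUQ.trans hQ').trans le_sup_right
  refine (Subgroup.index_dvd_of_le hle).trans ?_
  have h1 := relIndex_sup_dvd (M ⊓ (E' ⊔ U)) M Q inf_le_left
  rw [hMQ, Subgroup.relIndex_top_right] at h1
  refine h1.trans ?_
  rw [inf_comm, Subgroup.inf_relIndex_right, ← hindex]
  exact Subgroup.relIndex_dvd_index_of_normal _ _

include hζ in
/-- Local norm groups at several nonsplit places are independent. -/
theorem index_iInf_locNorm [IsGalois K L] (hdeg : Module.finrank K L = p)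
    (S : Finset (HeightOneSpectrum (𝓞 K))) (hS : ∀ v ∈ S, NonSplit L v) :
    (⨅ v ∈ S, ⨅ m, locNorm L v m).index = p ^ S.card := by
  choose m hm using fun v : HeightOneSpectrum (𝓞 K) => exists_deep hp.out.one_lt hζ v
  rw [index_iInf S m (fun v => ⨅ n, locNorm L v n) (fun v _ => by
    rw [iInf_locNorm_eq hζ hdeg (hm v)]; exact le_sup_right), ← Finset.prod_const]
  refine Finset.prod_congr rfl fun v hv => ?_
  rw [iInf_locNorm_eq hζ hdeg (hm v)]
  exact index_locNorm hζ hdeg (hm v) (hS v hv)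

end outside

/-- (J7), field form. -/
theorem exists_good_field {p : ℕ} (hp : p.Prime) (hp2 : p ≠ 2) (K : Type) [Field K] [NumberField K]
    (hζ : ∃ ζ : K, IsPrimitiveRoot ζ p) (w : HeightOneSpectrum (𝓞 K)) :
    ∃ (L : Type) (_ : Field L) (_ : NumberField L) (_ : Algebra K L) (_ : IsGalois K L),
      Module.finrank K L = p ∧ NonSplit L w ∧ ∀ x : Kˣ,
        (∀ v, v ≠ w → NonSplit L v → ∀ m, x ∈ locNorm L v m) → ∀ m, x ∈ locNorm L w m := by
  have : Fact p.Prime := ⟨hp⟩
  obtain ⟨ζ, hζ⟩ := hζ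
  obtain ⟨b, hb, h⟩ := exists_good_b hζ hp2 w
  obtain ⟨L, _, _, _, β, hβ, hgal, hdeg⟩ := exists_kummer hζ b hb
  obtain ⟨h1, h2⟩ := h L β hdeg hβ
  exact ⟨L, inferInstance, inferInstance, inferInstance, hgal, hdeg, h1, h2⟩

/-- Hasse norm theorem, in the form wanted by `H91Arith`. -/
theorem hasse_norm' {p : ℕ} (hp : p.Prime) (hp2 : p ≠ 2) (K L : Type) [Field K] [NumberField K]
    [Field L] [NumberField L] [Algebra K L] [IsGalois K L] (hdeg : Module.finrank K L = p)
    (hζ : ∃ ζ : K, IsPrimitiveRoot ζ p) (x : Kˣ)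
    (hx : ∀ v : HeightOneSpectrum (𝓞 K), NonSplit L v → ∀ m, x ∈ locNorm L v m) :
    x ∈ normGroup K L := by
  have : Fact p.Prime := ⟨hp⟩
  obtain ⟨ζ, hζ⟩ := hζ
  exact hasse_norm hζ hp2 hdeg x hx

end Fermat.Agent.H82
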