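import Mathlib
import Fermat.Agent.H82CftDefs
import Fermat.Agent.H65FirstB
import Fermat.Agent.H65Bridge

/-!
# Splitting of places in terms of a complete model of `K_v`
-/

set_option autoImplicit false

open NumberField IsDedekindDomain Module WithZero Filter Topology
open scoped NNReal

namespace Fermat.Agent.H65

open Fermat.Agent.H82 (above aboveSet NonSplit)

section emb

variable {K L : Type*} [Field K] [NumberField K] [Field L] [NumberField L] [Algebra K L]
  {v : HeightOneSpectrum (𝓞 K)}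
  {E : Type*} [NormedField E] [IsUltrametricDist E] [Algebra K E]

omit [NumberField L] in
theorem norm_le_one_of_integer (τ : L →+* E) (x : 𝓞 L) : ‖τ (x : L)‖ ≤ 1 := by
  have h : IsIntegral ℤ (τ (x : L)) := by
    have := (RingOfIntegers.isIntegral_coe x).map (τ.toIntAlgHom)
    exact this
  have hv := Valuation.integer.integers (NormedField.valuation (K := E))
  have := hv.mem_of_integral (h.tower_top)
  rw [Valuation.mem_integer_iff, NormedField.valuation_apply] at this
  exact_mod_cast this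

/-- the prime of `L` cut out by an embedding in `E` -/
noncomputable def primeOf (τ : L →+* E) : Ideal (𝓞 L) where
  carrier := {x | ‖τ (x : L)‖ < 1}
  add_mem' := by
    intro x y hx hy
    simp only [Set.mem_ofPred_eq, map_add] at hx hy ⊢
    exact lt_of_le_of_lt (IsUltrametricDist.norm_add_le_max _ _) (max_lt hx hy)
  zero_mem' := by simp
  smul_mem' := by
    intro a x hx
    simp only [Set.mem_ofPred_eq, smul_eq_mul, map_mul, norm_mul] at hx ⊢
    calc ‖τ (a : L)‖ * ‖τ (x : L)‖ ≤ 1 * ‖τ (x : L)‖ :=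
          mul_le_mul_of_nonneg_right (norm_le_one_of_integer τ a) (norm_nonneg _)
      _ < 1 := by rwa [one_mul]

omit [NumberField L] in
theorem mem_primeOf {τ : L →+* E} {x : 𝓞 L} : x ∈ primeOf τ ↔ ‖τ (x : L)‖ < 1 := Iff.rfl

omit [NumberField L] in
theorem primeOf_isPrime (τ : L →+* E) : (primeOf τ).IsPrime := by
  refine ⟨?_, ?_⟩
  · rw [Ideal.ne_top_iff_one, mem_primeOf]
    simp
  · intro x y hxy
    rw [mem_primeOf] at hxy
    rw [mem_primeOf, mem_primeOf]
    by_contra hcon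
    rw [not_or, not_lt, not_lt] at hcon
    have hx := le_antisymm (norm_le_one_of_integer τ x) hcon.1
    have hy := le_antisymm (norm_le_one_of_integer τ y) hcon.2
    have h1 : ((x * y : 𝓞 L) : L) = (x : L) * (y : L) := rfl
    rw [h1, map_mul, norm_mul, hx, hy, one_mul] at hxy
    exact lt_irrefl _ hxy

omit [NumberField L] in
theorem under_primeOf (h : LocModel (v.valuation K) E) (τ : L →+* E)
    (hτ : ∀ x : K, τ (algebraMap K L x) = algebraMap K E x) :
    (primeOf τ).under (𝓞 K) = v.asIdeal := by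
  ext x
  rw [Ideal.mem_comap, mem_primeOf]
  have : τ ((algebraMap (𝓞 K) (𝓞 L) x : 𝓞 L) : L) = algebraMap K E (x : K) := by
    rw [← hτ]; rfl
  rw [this, h.norm_lt_one_iff]
  exact HeightOneSpectrum.valuation_lt_one_iff_mem v x

omit [NumberField L] in
/-- residue degree one: every integer of `L` is congruent to an integer of `K` modulo
`primeOf τ`. -/
theorem exists_sub_mem_primeOf (h : LocModel (v.valuation K) E) (τ : L →+* E)
    (hτ : ∀ x : K, τ (algebraMap K L x) = algebraMap K E x) (x : 𝓞 L) :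
    ∃ a : 𝓞 K, x - algebraMap (𝓞 K) (𝓞 L) a ∈ primeOf τ := by
  obtain ⟨k, hk⟩ := h.exists_close (τ (x : L)) one_pos
  have hk1 : ‖algebraMap K E k‖ ≤ 1 := by
    have : algebraMap K E k = (algebraMap K E k - τ (x : L)) + τ (x : L) := by ring
    rw [this]
    exact (IsUltrametricDist.norm_add_le_max _ _).trans
      (max_le hk.le (norm_le_one_of_integer τ x))
  rw [h.norm_le_one_iff] at hk1
  obtain ⟨a, ha⟩ := HeightOneSpectrum.exists_valuation_sub_lt_of_integer v hk1 1
  rw [Units.val_one, ← h.norm_lt_one_iff] at ha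
  refine ⟨a, ?_⟩
  rw [mem_primeOf]
  have h1 : τ ((x - algebraMap (𝓞 K) (𝓞 L) a : 𝓞 L) : L) =
      (τ (x : L) - algebraMap K E k) + algebraMap K E (k - algebraMap (𝓞 K) K a) := by
    have : ((x - algebraMap (𝓞 K) (𝓞 L) a : 𝓞 L) : L) =
      (x : L) - algebraMap K L (algebraMap (𝓞 K) K a) := rfl
    rw [this, map_sub, hτ, map_sub]
    ring
  rw [h1]
  refine lt_of_le_of_lt (IsUltrametricDist.norm_add_le_max _ _) (max_lt ?_ ?_)
  · rwa [norm_sub_rev]
  · rw [← neg_sub, map_neg, norm_neg]; exact ha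

/-- the norm of a nonzero element of `E` is the norm of an element of `K`. -/
theorem LocModel.exists_norm_eq (h : LocModel (v.valuation K) E) {y : E} (hy : y ≠ 0) :
    ∃ k : K, ‖algebraMap K E k‖ = ‖y‖ := by
  obtain ⟨k, hk⟩ := h.exists_close y (norm_pos_iff.2 hy)
  refine ⟨k, ?_⟩
  have : algebraMap K E k = (algebraMap K E k - y) + y := by ring
  rw [this, IsUltrametricDist.norm_add_eq_max_of_norm_ne_norm hk.ne, max_eq_right hk.le]

theorem le_exp_neg_one_of_lt_one {x : ℤᵐ⁰} (hx : x < 1) : x ≤ exp (-1 : ℤ) := by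
  rcases eq_or_ne x 0 with rfl | h0
  · exact zero_le
  · rw [← exp_zero, ← log_lt_iff_lt_exp h0] at hx
    rw [← log_le_iff_le_exp h0]
    omega

theorem le_exp_sub_one_of_lt {x : ℤᵐ⁰} {m : ℤ} (hx : x < exp m) : x ≤ exp (m - 1) := by
  rcases eq_or_ne x 0 with rfl | h0
  · exact zero_le
  · rw [← log_lt_iff_lt_exp h0] at hx
    rw [← log_le_iff_le_exp h0]
    omega

omit [NumberField L] in
/-- ramification index one -/
theorem not_map_le_primeOf_sq (h : LocModel (v.valuation K) E) (τ : L →+* E)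
    (hτ : ∀ x : K, τ (algebraMap K L x) = algebraMap K E x) :
    ¬ v.asIdeal.map (algebraMap (𝓞 K) (𝓞 L)) ≤ primeOf τ ^ 2 := by
  intro hle
  obtain ⟨e, he, hE⟩ := h.exists_norm_le_iff
  -- elements of `primeOf τ` have norm at most `e⁻¹`
  have h1' : ∀ x ∈ primeOf τ, ‖τ ((x : 𝓞 L) : L)‖ ≤ e ^ (-1 : ℤ) := by
    intro x hx
    rcases eq_or_ne (τ (x : L)) 0 with h0 | h0
    · rw [h0, norm_zero]; positivity
    obtain ⟨k, hk⟩ := h.exists_norm_eq h0
    rw [mem_primeOf, ← hk, h.norm_lt_one_iff] at hx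
    rw [← hk, hE]
    exact le_exp_neg_one_of_lt_one hx
  have h2 : ∀ x ∈ primeOf τ ^ 2, ‖τ ((x : 𝓞 L) : L)‖ ≤ e ^ (-2 : ℤ) := by
    intro x hx
    rw [pow_two] at hx
    refine Submodule.mul_induction_on hx ?_ ?_
    · intro a ha b hb
      have h1 : ((a * b : 𝓞 L) : L) = (a : L) * (b : L) := rfl
      rw [h1, map_mul, norm_mul]
      calc ‖τ (a : L)‖ * ‖τ (b : L)‖ ≤ e ^ (-1 : ℤ) * e ^ (-1 : ℤ) :=
            mul_le_mul (h1' a ha) (h1' b hb) (norm_nonneg _) (by positivity)
        _ = e ^ (-2 : ℤ) := by rw [← zpow_add₀ (by positivity)]; norm_num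
    · intro a b ha hb
      have h1 : ((a + b : 𝓞 L) : L) = (a : L) + (b : L) := rfl
      rw [h1, map_add]
      exact (IsUltrametricDist.norm_add_le_max _ _).trans (max_le ha hb)
  obtain ⟨π, hπ⟩ := v.intValuation_exists_uniformizer
  have hπ1 : π ∈ v.asIdeal := by
    rw [← HeightOneSpectrum.intValuation_lt_one_iff_mem, hπ, ← exp_zero, exp_lt_exp]
    omega
  have h3 := h2 _ (hle (Ideal.mem_map_of_mem _ hπ1))
  have h4 : τ ((algebraMap (𝓞 K) (𝓞 L) π : 𝓞 L) : L) = algebraMap K E (π : K) := by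
    rw [← hτ]; rfl
  rw [h4, hE] at h3
  have h5 : v.valuation K (π : K) = exp (-1) := by
    rw [← hπ]; exact HeightOneSpectrum.valuation_of_algebraMap v π
  rw [h5, exp_le_exp] at h3
  omega

theorem ncard_above_of_embedding [IsGalois K L] {p : ℕ} (hL : finrank K L = p)
    (h : LocModel (v.valuation K) E) (τ : L →+* E)
    (hτ : ∀ x : K, τ (algebraMap K L x) = algebraMap K E x) :
    (above L v).ncard = p := by
  have hunder := under_primeOf h τ hτ
  have hprime := primeOf_isPrime τ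
  have hlies : (primeOf τ).LiesOver v.asIdeal := ⟨hunder.symm⟩
  have hne : primeOf τ ≠ ⊥ := Ideal.ne_bot_of_liesOver_of_ne_bot v.ne_bot _
  have hmax : (primeOf τ).IsMaximal := hprime.isMaximal hne
  have hmax' : v.asIdeal.IsMaximal := v.isMaximal
  have he : (primeOf τ).ramificationIdx (𝓞 K) = 1 := by
    rw [← Ideal.ramificationIdx'_eq_ramificationIdx v.asIdeal (primeOf τ) v.ne_bot]
    refine Ideal.ramificationIdx'_spec ?_ (not_map_le_primeOf_sq h τ hτ)
    rw [pow_one, Ideal.map_le_iff_le_comap]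
    exact hunder.symm.le
  have hf : (primeOf τ).inertiaDeg (𝓞 K) = 1 := by
    rw [← Ideal.inertiaDeg'_eq_inertiaDeg v.asIdeal (primeOf τ), Ideal.inertiaDeg'_algebraMap]
    have hsurj : Function.Surjective
        (algebraMap (𝓞 K ⧸ v.asIdeal) (𝓞 L ⧸ primeOf τ)) := by
      intro y
      obtain ⟨x, rfl⟩ := Ideal.Quotient.mk_surjective y
      obtain ⟨a, ha⟩ := exists_sub_mem_primeOf h τ hτ x
      refine ⟨Ideal.Quotient.mk _ a, ?_⟩
      rw [Ideal.Quotient.algebraMap_mk_of_liesOver, eq_comm, Ideal.Quotient.eq]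
      exact ha
    have hinj : Function.Injective
        (algebraMap (𝓞 K ⧸ v.asIdeal) (𝓞 L ⧸ primeOf τ)) := by
      rw [injective_iff_map_eq_zero]
      intro y hy
      obtain ⟨a, rfl⟩ := Ideal.Quotient.mk_surjective y
      rw [Ideal.Quotient.algebraMap_mk_of_liesOver, Ideal.Quotient.eq_zero_iff_mem] at hy
      rw [Ideal.Quotient.eq_zero_iff_mem, ← hunder]
      exact hy
    have : Nontrivial (𝓞 K ⧸ v.asIdeal) := Ideal.Quotient.nontrivial_iff.2 hmax'.ne_top
    have e := LinearEquiv.ofBijective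
      (Algebra.linearMap (𝓞 K ⧸ v.asIdeal) (𝓞 L ⧸ primeOf τ)) ⟨hinj, hsurj⟩
    rw [← e.finrank_eq, finrank_self]
  have hcount := Ideal.ncard_primesOver_mul_ramificationIdxIn_mul_inertiaDegIn v.asIdeal (𝓞 L)
    Gal(L/K)
  rw [Ideal.ramificationIdxIn_eq_ramificationIdx v.asIdeal (primeOf τ) Gal(L/K),
    Ideal.inertiaDegIn_eq_inertiaDeg v.asIdeal (primeOf τ) Gal(L/K), he, hf, mul_one, mul_one,
    IsGalois.card_aut_eq_finrank, hL] at hcount
  rw [ncard_above, hcount]

end emb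

section approx

variable {K L : Type*} [Field K] [NumberField K] [Field L] [NumberField L] [Algebra K L]
  {v : HeightOneSpectrum (𝓞 K)}

/-- if `w | v` has `e = f = 1`, integers of `L` are approximated by integers of `K`. -/
theorem exists_sub_mem_pow (w : HeightOneSpectrum (𝓞 L)) [w.asIdeal.LiesOver v.asIdeal]
    (he : w.asIdeal.ramificationIdx (𝓞 K) = 1) (hf : w.asIdeal.inertiaDeg (𝓞 K) = 1)
    (n : ℕ) (x : 𝓞 L) : ∃ a : 𝓞 K,
      w.intValuation (x - algebraMap (𝓞 K) (𝓞 L) a) ≤ exp (-(n : ℤ)) := by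
  have hmax : w.asIdeal.IsMaximal := w.isMaximal
  have hmax' : v.asIdeal.IsMaximal := v.isMaximal
  rw [← Ideal.ramificationIdx'_eq_ramificationIdx v.asIdeal w.asIdeal v.ne_bot] at he
  have hsurj : ∀ y : 𝓞 L, ∃ c : 𝓞 K, y - algebraMap (𝓞 K) (𝓞 L) c ∈ w.asIdeal := by
    rw [← Ideal.inertiaDeg'_eq_inertiaDeg v.asIdeal w.asIdeal, Ideal.inertiaDeg'_algebraMap] at hf
    intro y
    let : Field (𝓞 K ⧸ v.asIdeal) := Ideal.Quotient.field _
    have : Nontrivial (𝓞 L ⧸ w.asIdeal) := Ideal.Quotient.nontrivial_iff.2 hmax.ne_top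
    obtain ⟨c, hc⟩ := (finrank_eq_one_iff_of_nonzero' (K := 𝓞 K ⧸ v.asIdeal)
      (1 : 𝓞 L ⧸ w.asIdeal) one_ne_zero).1 hf (Ideal.Quotient.mk _ y)
    obtain ⟨c, rfl⟩ := Ideal.Quotient.mk_surjective c
    refine ⟨c, ?_⟩
    rw [← Ideal.Quotient.eq, ← hc, Algebra.smul_def, mul_one,
      Ideal.Quotient.algebraMap_mk_of_liesOver]
  obtain ⟨π, hπ1, hπ2⟩ : ∃ π ∈ v.asIdeal, w.intValuation (algebraMap (𝓞 K) (𝓞 L) π) = exp (-1 : ℤ) := by
    obtain ⟨π, hπ⟩ := v.intValuation_exists_uniformizer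
    refine ⟨π, ?_, ?_⟩
    · rw [← HeightOneSpectrum.intValuation_lt_one_iff_mem, hπ, ← exp_zero, exp_lt_exp]
      omega
    · rw [← HeightOneSpectrum.intValuation_liesOver v w, he, pow_one, hπ]
  induction n with
  | zero => exact ⟨0, by simpa using w.intValuation_le_one x⟩
  | succ n ih =>
    obtain ⟨a, ha⟩ := ih
    have hπn : w.intValuation (algebraMap (𝓞 K) (𝓞 L) π ^ n) = exp (-(n : ℤ)) := by
      rw [map_pow, hπ2, ← exp_nsmul]; simp
    rw [← hπn] at ha
    obtain ⟨y, hy⟩ := w.exists_intValuation_mul_sub_lt ha (Multiplicative.ofAdd (-(n : ℤ)))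
    obtain ⟨c, hc⟩ := hsurj y
    refine ⟨a + c * π ^ n, ?_⟩
    have h1 : x - algebraMap (𝓞 K) (𝓞 L) (a + c * π ^ n) =
      ((x - algebraMap (𝓞 K) (𝓞 L) a) - y * algebraMap (𝓞 K) (𝓞 L) π ^ n) +
      (y - algebraMap (𝓞 K) (𝓞 L) c) * algebraMap (𝓞 K) (𝓞 L) π ^ n := by
      rw [map_add, map_mul, map_pow]; ring
    rw [h1]
    refine (Valuation.map_add _ _ _).trans (max_le ?_ ?_)
    · have h2 := le_exp_sub_one_of_lt hy
      refine h2.trans ?_
      rw [exp_le_exp]
      push_cast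
      omega
    · rw [map_mul, hπn]
      have h2 : w.intValuation (y - algebraMap (𝓞 K) (𝓞 L) c) ≤ exp (-1 : ℤ) :=
        le_exp_neg_one_of_lt_one ((HeightOneSpectrum.intValuation_lt_one_iff_mem _ _).2 hc)
      calc _ ≤ exp (-1 : ℤ) * exp (-(n : ℤ)) := mul_le_mul_left h2 _
        _ = exp (-((n + 1 : ℕ) : ℤ)) := by
          rw [← exp_add]
          congr 1
          push_cast
          ring

theorem exists_approx_root [IsGalois K L] {p : ℕ} (hp : p.Prime) (hL : finrank K L = p)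
    (hns : ¬ NonSplit L v) {β : 𝓞 L} {b : 𝓞 K} (hβ : β ^ p = algebraMap (𝓞 K) (𝓞 L) b) (n : ℕ) :
    ∃ a : 𝓞 K, v.intValuation (b - a ^ p) ≤ exp (-(n : ℤ)) := by
  have hcard : (above L v).ncard = p := by
    rcases ncard_above_eq_one_or (L := L) hp hL v with h | h
    · exact absurd h hns
    · exact h
  obtain ⟨w, hw⟩ : (above L v).Nonempty := by
    rw [← Set.ncard_pos (finite_above v), hcard]
    exact hp.pos
  have hlies : w.asIdeal.LiesOver v.asIdeal := ⟨hw.symm⟩
  have hcount := Ideal.ncard_primesOver_mul_ramificationIdxIn_mul_inertiaDegIn v.asIdeal (𝓞 L)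
    Gal(L/K)
  rw [Ideal.ramificationIdxIn_eq_ramificationIdx v.asIdeal w.asIdeal Gal(L/K),
    Ideal.inertiaDegIn_eq_inertiaDeg v.asIdeal w.asIdeal Gal(L/K), ← ncard_above, hcard,
    IsGalois.card_aut_eq_finrank, hL] at hcount
  have hef : w.asIdeal.ramificationIdx (𝓞 K) * w.asIdeal.inertiaDeg (𝓞 K) = 1 :=
    Nat.eq_of_mul_eq_mul_left hp.pos (by rw [hcount, mul_one])
  have he := Nat.eq_one_of_mul_eq_one_right hef
  have hf := Nat.eq_one_of_mul_eq_one_left hef
  obtain ⟨a, ha⟩ := exists_sub_mem_pow (v := v) w he hf n β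
  refine ⟨a, ?_⟩
  have h1 := HeightOneSpectrum.intValuation_liesOver (B := 𝓞 L) v w (b - a ^ p)
  rw [Ideal.ramificationIdx'_eq_ramificationIdx v.asIdeal w.asIdeal v.ne_bot, he, pow_one] at h1
  rw [h1, map_sub, map_pow, ← hβ]
  obtain ⟨c, hc⟩ := sub_dvd_pow_sub_pow β (algebraMap (𝓞 K) (𝓞 L) a) p
  rw [hc, map_mul]
  calc _ ≤ exp (-(n : ℤ)) * 1 := mul_le_mul' ha (w.intValuation_le_one c)
    _ = _ := mul_one _

variable {E : Type*} [NontriviallyNormedField E] [CompleteSpace E] [IsUltrametricDist E]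
  [Algebra K E]

omit [IsUltrametricDist E] in
/-- If `v` splits in `L = K(β)`, `β ^ p = b`, then `b` is a `p`-th power in `K_v`. -/
theorem exists_pow_of_not_nonSplit [IsGalois K L] {p : ℕ} (hp : p.Prime) (hL : finrank K L = p)
    (hns : ¬ NonSplit L v) {β : L} {b : K} (hβ : β ^ p = algebraMap K L b)
    (h : LocModel (v.valuation K) E) (hpE : (p : E) ≠ 0) :
    ∃ y : E, y ^ p = algebraMap K E b := by
  rcases eq_or_ne b 0 with rfl | hb
  · exact ⟨0, by rw [zero_pow hp.ne_zero, map_zero]⟩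
  -- make `b` and `β` integral
  obtain ⟨r, s, hs, hrs⟩ := IsFractionRing.div_surjective (A := 𝓞 K) b
  have hs0 : s ≠ 0 := nonZeroDivisors.ne_zero hs
  have hs0' : (algebraMap (𝓞 K) K s) ≠ 0 := by
    rw [ne_eq, FaithfulSMul.algebraMap_eq_zero_iff]; exact hs0
  set b' : 𝓞 K := r * s ^ (p - 1) with hb'
  have hb'K : algebraMap (𝓞 K) K b' = b * (algebraMap (𝓞 K) K s) ^ p := by
    rw [hb', map_mul, map_pow, ← hrs]
    obtain ⟨q, rfl⟩ : ∃ q, p = q + 1 := ⟨p - 1, by have := hp.pos; omega⟩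
    rw [Nat.add_sub_cancel, pow_succ]
    field_simp
  have hb'0 : algebraMap (𝓞 K) K b' ≠ 0 := by
    rw [hb'K]; exact mul_ne_zero hb (pow_ne_zero _ hs0')
  have hβ'pow : (β * algebraMap K L (algebraMap (𝓞 K) K s)) ^ p =
      algebraMap K L (algebraMap (𝓞 K) K b') := by
    rw [mul_pow, hβ, hb'K, map_mul, map_pow]
  have hint : IsIntegral ℤ (β * algebraMap K L (algebraMap (𝓞 K) K s)) := by
    refine IsIntegral.of_pow hp.pos ?_
    rw [hβ'pow]
    exact (RingOfIntegers.isIntegral_coe b').map (algebraMap K L).toIntAlgHom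
  let β' : 𝓞 L := ⟨_, hint⟩
  have hβ' : β' ^ p = algebraMap (𝓞 K) (𝓞 L) b' := by
    apply RingOfIntegers.coe_injective
    exact hβ'pow
  -- approximation
  have hb'E : algebraMap K E (algebraMap (𝓞 K) K b') ≠ 0 := by
    rw [ne_eq, map_eq_zero]; exact hb'0
  obtain ⟨ε, hε, hpow⟩ := exists_pow_radius (E := E) hpE
  obtain ⟨n, hn⟩ := exists_level_lt h
    (ε := min ε 1 * ‖algebraMap K E (algebraMap (𝓞 K) K b')‖) (by positivity)
  obtain ⟨a, ha⟩ := exists_approx_root hp hL hns hβ' n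
  rw [← HeightOneSpectrum.valuation_of_algebraMap (K := K)] at ha
  have h1 := hn _ ha
  set B := algebraMap K E (algebraMap (𝓞 K) K b') with hB
  set A := algebraMap K E (algebraMap (𝓞 K) K a) with hA
  have h2 : ‖A ^ p / B - 1‖ < min ε 1 := by
    have h3 : A ^ p / B - 1 = -(algebraMap K E (algebraMap (𝓞 K) K (b' - a ^ p))) / B := by
      rw [map_sub, map_sub, map_pow, map_pow, ← hA, ← hB]
      field_simp
      ring
    rw [h3, norm_div, norm_neg, div_lt_iff₀ (norm_pos_iff.2 hb'E)]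
    exact h1
  obtain ⟨z, hz⟩ := hpow _ (h2.trans_le (min_le_left _ _))
  have hz0 : z ≠ 0 := by
    rintro rfl
    rw [zero_pow hp.ne_zero] at hz
    rw [← hz, zero_sub, norm_neg, norm_one] at h2
    exact absurd (h2.trans_le (min_le_right _ _)) (lt_irrefl _)
  have hzB : z ^ p * B = A ^ p := by rw [hz]; field_simp
  have hS0 : algebraMap K E (algebraMap (𝓞 K) K s) ≠ 0 := by
    rw [ne_eq, map_eq_zero]; exact hs0'
  refine ⟨A / (z * algebraMap K E (algebraMap (𝓞 K) K s)), ?_⟩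
  have hBb : B = algebraMap K E b * algebraMap K E (algebraMap (𝓞 K) K s) ^ p := by
    rw [hB, hb'K, map_mul, map_pow]
  rw [div_pow, mul_pow, ← hzB, hBb]
  field_simp

end approx

section final

open Polynomial IntermediateField

/-- an embedding of `K(β)` in a field containing a `p`-th root of `b = β ^ p`. -/
theorem exists_algHom_of_pow {K L E : Type*} [Field K] [Field L] [Algebra K L] [Field E]
    [Algebra K E] {p : ℕ} (hp : p.Prime) (hL : finrank K L = p) {β : L} {b : K}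
    (hβ : β ^ p = algebraMap K L b) (hgen : K⟮β⟯ = ⊤) {y : E} (hy : y ^ p = algebraMap K E b) :
    ∃ τ : L →ₐ[K] E, τ β = y := by
  have hfin : FiniteDimensional K L := FiniteDimensional.of_finrank_pos (by rw [hL]; exact hp.pos)
  have hint : IsIntegral K β := Algebra.IsIntegral.isIntegral β
  have hmin : minpoly K β = X ^ p - C b := by
    have hdvd : minpoly K β ∣ X ^ p - C b := minpoly.dvd K β (by simp [hβ])
    have hdeg : (minpoly K β).natDegree = p := by
      rw [← IntermediateField.adjoin.finrank hint, hgen, IntermediateField.finrank_top', hL]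
    refine (Polynomial.eq_of_monic_of_dvd_of_natDegree_le (minpoly.monic hint)
      (monic_X_pow_sub_C b hp.ne_zero) hdvd ?_).symm
    rw [hdeg, natDegree_X_pow_sub_C]
  have hy' : y ∈ (minpoly K β).aroots E := by
    rw [mem_aroots, hmin]
    exact ⟨X_pow_sub_C_ne_zero hp.pos b, by simp [hy]⟩
  let f := (algHomAdjoinIntegralEquiv K hint).symm ⟨y, hy'⟩
  have hf : f (AdjoinSimple.gen K β) = y := algHomAdjoinIntegralEquiv_symm_apply_gen K hint ⟨y, hy'⟩
  let e : L ≃ₐ[K] K⟮β⟯ := (IntermediateField.topEquiv.symm).trans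
    (IntermediateField.equivOfEq hgen.symm)
  refine ⟨f.comp e.toAlgHom, ?_⟩
  rw [← hf]
  show f (e β) = _
  congr 1

variable {K L : Type*} [Field K] [NumberField K] [Field L] [NumberField L] [Algebra K L]
  {v : HeightOneSpectrum (𝓞 K)}
  {E : Type*} [NontriviallyNormedField E] [CompleteSpace E] [IsUltrametricDist E]
  [Algebra K E]

/-- (BR3) -/
theorem nonSplit_iff [IsGalois K L] {p : ℕ} (hp : p.Prime) (hL : finrank K L = p)
    {β : L} {b : K} (hβ : β ^ p = algebraMap K L b) (hgen : K⟮β⟯ = ⊤)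
    (h : LocModel (v.valuation K) E) (hpE : (p : E) ≠ 0) :
    NonSplit L v ↔ ¬ ∃ y : E, y ^ p = algebraMap K E b := by
  constructor
  · rintro hns ⟨y, hy⟩
    obtain ⟨τ, -⟩ := exists_algHom_of_pow hp hL hβ hgen hy
    have := ncard_above_of_embedding (v := v) hL h (τ : L →+* E) (fun x => τ.commutes x)
    rw [NonSplit, this] at hns
    exact hp.one_lt.ne' hns
  · intro hy
    by_contra hns
    exact hy (exists_pow_of_not_nonSplit hp hL hns hβ h hpE)

end final

end Fermat.Agent.H65
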