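import Mathlib
import Fermat.Agent.H82CftDefs
import Fermat.Agent.H65Bridge
import Fermat.Agent.H65Split
import Fermat.Agent.H7LocIndex

/-!
# The local norm index, completion-free form
-/

set_option autoImplicit false

open NumberField IsDedekindDomain Module WithZero Filter Topology
open Polynomial IntermediateField
open scoped NNReal

namespace Fermat.Agent.H65

open Fermat.Agent.H82 (above aboveSet NonSplit locNorm locPow)

theorem exists_pow_basis {K L : Type*} [Field K] [Field L] [Algebra K L] {p : ℕ} (hp : 0 < p)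
    (hL : finrank K L = p) {β : L} (hgen : K⟮β⟯ = ⊤) :
    ∃ b : Basis (Fin p) K L, ∀ i, b i = β ^ (i : ℕ) := by
  have hfin : FiniteDimensional K L := FiniteDimensional.of_finrank_pos (by rw [hL]; exact hp)
  have hint : IsIntegral K β := Algebra.IsIntegral.isIntegral β
  have htop : Algebra.adjoin K {β} = ⊤ := by
    rw [← IntermediateField.adjoin_simple_toSubalgebra_of_isAlgebraic (IsAlgebraic.of_finite K β),
      hgen, IntermediateField.top_toSubalgebra]
  let pb := PowerBasis.ofAdjoinEqTop hint htop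
  have hdim : pb.dim = p := by rw [← pb.finrank, hL]
  refine ⟨pb.basis.reindex (finCongr hdim), fun i => ?_⟩
  rw [Basis.reindex_apply, pb.coe_basis]
  rfl

/-- Norm index for a cyclic extension of fields of a locally compact nonarchimedean field. -/
theorem index_norm_field (E F : Type) [NontriviallyNormedField E] [IsUltrametricDist E]
    [ProperSpace E] [Field F] [Algebra E F] [FiniteDimensional E F] [IsGalois E F]
    [IsCyclic Gal(F/E)] :
    (Units.map (Algebra.norm E : F →* E)).range.index = Module.finrank E F := by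
  have : CompleteSpace E := inferInstance
  let := spectralNorm.normedField E F
  let := spectralNorm.normedAlgebra E F
  exact H7.index_norm (E := E) (F := F)

section kummer

variable {K L : Type} [Field K] [NumberField K] [Field L] [NumberField L] [Algebra K L]
  {v : HeightOneSpectrum (𝓞 K)}
  {E : Type} [NontriviallyNormedField E] [CompleteSpace E] [IsUltrametricDist E]
  [Algebra K E]

omit [NumberField L] in
/-- (BR1'), the bridge for `F = E(γ)`, `γ ^ p = b`, of degree `p`. -/
theorem forall_mem_locNorm_iff_field {F : Type*} [Field F] [Algebra E F] {p : ℕ} (hp : p.Prime)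
    (hL : finrank K L = p) {β : L} {b : K} (hβ : β ^ p = algebraMap K L b) (hgen : K⟮β⟯ = ⊤)
    (hF : finrank E F = p) {γ : F} (hγ : γ ^ p = algebraMap E F (algebraMap K E b))
    (hgenF : E⟮γ⟯ = ⊤) (h : LocModel (v.valuation K) E) (hpE : (p : E) ≠ 0) (x : Kˣ) :
    (∀ m : ℕ, x ∈ locNorm L v m) ↔ ∃ z : F, Algebra.norm E z = algebraMap K E x := by
  obtain ⟨bL, hbL⟩ := exists_pow_basis hp.pos hL hgen
  obtain ⟨bF, hbF⟩ := exists_pow_basis hp.pos hF hgenF
  let : Algebra K F := ((algebraMap E F).comp (algebraMap K E)).toAlgebra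
  obtain ⟨τ, hτ⟩ := exists_algHom_of_pow (E := F) hp hL hβ hgen hγ
  refine forall_mem_locNorm_iff bL bF (τ : L →+* F) h (fun x => τ.commutes x) (fun i => ?_)
    (by rwa [Fintype.card_fin]) x
  rw [hbF, hbL, ← hτ]
  exact (map_pow τ β _).symm

/-- `Kˣ` is dense: every element of `Eˣ` is an element of `Kˣ` times a `p`-th power. -/
theorem exists_mul_pow (h : LocModel (v.valuation K) E) {p : ℕ} (hpE : (p : E) ≠ 0) (y : Eˣ) :
    ∃ (x : Kˣ) (z : Eˣ), y = Units.map (algebraMap K E : K →* E) x * z ^ p := by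
  obtain ⟨ε, hε, hpow⟩ := exists_pow_radius (E := E) hpE
  obtain ⟨x, hx⟩ := h.exists_close (y : E) (ε := min ε 1 * ‖(y : E)‖)
    (mul_pos (lt_min hε one_pos) (norm_pos_iff.2 y.ne_zero))
  have hx1 : ‖algebraMap K E x - y‖ < ‖(y : E)‖ := hx.trans_le (by
    have := min_le_right ε (1 : ℝ)
    nlinarith [norm_nonneg (y : E)])
  have hxn : ‖algebraMap K E x‖ = ‖(y : E)‖ := by
    have : algebraMap K E x = (algebraMap K E x - y) + y := by ring
    rw [this, IsUltrametricDist.norm_add_eq_max_of_norm_ne_norm hx1.ne, max_eq_right hx1.le]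
  have hx0 : x ≠ 0 := by
    rintro rfl
    rw [map_zero, norm_zero] at hxn
    exact y.ne_zero (norm_eq_zero.1 hxn.symm)
  have hxE : algebraMap K E x ≠ 0 := by rw [ne_eq, map_eq_zero]; exact hx0
  have h1 : ‖(y : E) / algebraMap K E x - 1‖ < ε := by
    have h2 : (y : E) / algebraMap K E x - 1 = -(algebraMap K E x - y) / algebraMap K E x := by
      field_simp
      ring
    rw [h2, norm_div, norm_neg, hxn, div_lt_iff₀ (norm_pos_iff.2 y.ne_zero)]
    exact hx.trans_le (mul_le_mul_of_nonneg_right (min_le_left _ _) (norm_nonneg _))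
  obtain ⟨z, hz⟩ := hpow _ h1
  have hp0 : p ≠ 0 := by rintro rfl; simp at hpE
  have hz0 : z ≠ 0 := by
    rintro rfl
    rw [zero_pow hp0] at hz
    exact div_ne_zero y.ne_zero hxE hz.symm
  refine ⟨Units.mk0 x hx0, Units.mk0 z hz0, ?_⟩
  ext
  rw [Units.val_mul, Units.val_pow_eq_pow_val, Units.val_mk0, hz]
  show (y : E) = algebraMap K E x * (y / algebraMap K E x)
  field_simp

/-- index comparison: a subgroup of `Eˣ` containing the `p`-th powers. -/
theorem index_comap_of_pow_le (h : LocModel (v.valuation K) E) {p : ℕ} (hpE : (p : E) ≠ 0)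
    {N : Subgroup Eˣ} (hN : ∀ z : Eˣ, z ^ p ∈ N) :
    (N.comap (Units.map (algebraMap K E : K →* E))).index = N.index := by
  rw [Subgroup.index_comap, ← Subgroup.relIndex_sup_right]
  have : (Units.map (algebraMap K E : K →* E)).range ⊔ N = ⊤ := by
    rw [eq_top_iff]
    intro y _
    obtain ⟨x, z, rfl⟩ := exists_mul_pow h hpE y
    exact Subgroup.mul_mem_sup ⟨x, rfl⟩ (hN z)
  rw [this, Subgroup.relIndex_top_right]

/-- (BR4a): the index of the group of local `p`-th powers in `Kˣ` is `[Eˣ : Eˣᵖ]`. -/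
theorem index_iInf_locPow (h : LocModel (v.valuation K) E) {p : ℕ} (hpE : (p : E) ≠ 0) :
    (⨅ m, locPow p v m : Subgroup Kˣ).index = (powMonoidHom p : Eˣ →* Eˣ).range.index := by
  rw [← index_comap_of_pow_le h hpE (N := (powMonoidHom p : Eˣ →* Eˣ).range)
    (fun z => ⟨z, rfl⟩)]
  congr 1
  ext x
  rw [Subgroup.mem_iInf, forall_mem_locPow_iff h hpE, Subgroup.mem_comap, MonoidHom.mem_range]
  constructor
  · rintro ⟨y, hy⟩
    have hp0 : p ≠ 0 := by rintro rfl; simp at hpE
    have hy0 : y ≠ 0 := by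
      rintro rfl
      rw [zero_pow hp0] at hy
      exact x.ne_zero ((map_eq_zero _).1 hy.symm)
    exact ⟨Units.mk0 y hy0, Units.ext hy⟩
  · rintro ⟨y, hy⟩
    exact ⟨y, congrArg Units.val hy⟩

omit [CompleteSpace E] in
/-- the local norm index over `E` for a Kummer extension -/
theorem index_norm_adjoinRoot [ProperSpace E] {p : ℕ} (hp : p.Prime) {ζ : E}
    (hζ : IsPrimitiveRoot ζ p) {b : E} (hirr : Irreducible (X ^ p - C b : E[X])) :
    haveI := Fact.mk hirr
    (Units.map (Algebra.norm E : AdjoinRoot (X ^ p - C b : E[X]) →* E)).range.index = p := by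
  have hfact := Fact.mk hirr
  have hne : NeZero p := ⟨hp.ne_zero⟩
  have hprim : (primitiveRoots p E).Nonempty := ⟨ζ, (mem_primitiveRoots hp.pos).2 hζ⟩
  have hsplit := isSplittingField_AdjoinRoot_X_pow_sub_C hprim hirr
  have hfin : FiniteDimensional E (AdjoinRoot (X ^ p - C b : E[X])) :=
    Polynomial.IsSplittingField.finiteDimensional _ (X ^ p - C b)
  have hgal := isGalois_of_isSplittingField_X_pow_sub_C hprim hirr (AdjoinRoot (X ^ p - C b : E[X]))
  have hcyc := isCyclic_of_isSplittingField_X_pow_sub_C hprim hirr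
    (AdjoinRoot (X ^ p - C b : E[X]))
  have := index_norm_field E (AdjoinRoot (X ^ p - C b : E[X]))
  rw [this]
  exact finrank_of_isSplittingField_X_pow_sub_C hprim hirr (AdjoinRoot (X ^ p - C b : E[X]))

/-- Kummer generator -/
theorem exists_kummer_generator {K L : Type*} [Field K] [Field L] [Algebra K L] [IsGalois K L]
    {p : ℕ} (hp : p.Prime) (hL : finrank K L = p) {ζ : K} (hζ : IsPrimitiveRoot ζ p) :
    ∃ (β : L) (b : K), β ^ p = algebraMap K L b ∧ K⟮β⟯ = ⊤ := by
  have hfin : FiniteDimensional K L := FiniteDimensional.of_finrank_pos (by rw [hL]; exact hp.pos)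
  have hfact : Fact p.Prime := ⟨hp⟩
  have hcyc : IsCyclic Gal(L/K) := isCyclic_of_prime_card (p := p)
    (by rw [IsGalois.card_aut_eq_finrank, hL])
  obtain ⟨β, ⟨b, hb⟩, hgen⟩ := exists_root_adjoin_eq_top_of_isCyclic K L
    ⟨ζ, (mem_primitiveRoots (by rw [hL]; exact hp.pos)).2 (by rwa [hL])⟩
  exact ⟨β, b, by rw [hb, hL], hgen⟩

/-- (BR4b): for `L/K` Galois of prime degree `p` (with `ζ_p ∈ K`) and `v` nonsplit in `L`, the
group of local norms at `v` has index `p` in `Kˣ`. -/
theorem index_iInf_locNorm [IsGalois K L] [ProperSpace E] {p : ℕ} (hp : p.Prime)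
    (hL : finrank K L = p) {ζ : K} (hζ : IsPrimitiveRoot ζ p)
    (h : LocModel (v.valuation K) E) (hpE : (p : E) ≠ 0) (hns : NonSplit L v) :
    (⨅ m, locNorm L v m : Subgroup Kˣ).index = p := by
  obtain ⟨β, b, hβ, hgen⟩ := exists_kummer_generator hp hL hζ
  have hnp : ¬ ∃ y : E, y ^ p = algebraMap K E b := (nonSplit_iff hp hL hβ hgen h hpE).1 hns
  push Not at hnp
  have hirr : Irreducible (X ^ p - C (algebraMap K E b) : E[X]) :=
    X_pow_sub_C_irreducible_of_prime hp hnp
  have hfact := Fact.mk hirr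
  have hne : NeZero p := ⟨hp.ne_zero⟩
  have hζE : IsPrimitiveRoot (algebraMap K E ζ) p := hζ.map_of_injective (algebraMap K E).injective
  have hprim : (primitiveRoots p E).Nonempty := ⟨_, (mem_primitiveRoots hp.pos).2 hζE⟩
  have hsplit := isSplittingField_AdjoinRoot_X_pow_sub_C hprim hirr
  have hfin := finrank_of_isSplittingField_X_pow_sub_C hprim hirr
    (AdjoinRoot (X ^ p - C (algebraMap K E b) : E[X]))
  have hfd : FiniteDimensional E (AdjoinRoot (X ^ p - C (algebraMap K E b) : E[X])) :=
    Polynomial.IsSplittingField.finiteDimensional _ (X ^ p - C (algebraMap K E b))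
  have hgenF : E⟮AdjoinRoot.root (X ^ p - C (algebraMap K E b) : E[X])⟯ = ⊤ := by
    rw [← IntermediateField.toSubalgebra_injective.eq_iff,
      IntermediateField.adjoin_simple_toSubalgebra_of_isAlgebraic (IsAlgebraic.of_finite E _),
      AdjoinRoot.adjoinRoot_eq_top, IntermediateField.top_toSubalgebra]
  have hidx := index_norm_adjoinRoot hp hζE hirr
  rw [← hidx, ← index_comap_of_pow_le h hpE
    (N := (Units.map (Algebra.norm E :
      AdjoinRoot (X ^ p - C (algebraMap K E b) : E[X]) →* E)).range) ?_]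
  · congr 1
    ext x
    rw [Subgroup.mem_iInf, forall_mem_locNorm_iff_field hp hL hβ hgen hfin
      (root_X_pow_sub_C_pow p _) hgenF h hpE, Subgroup.mem_comap, MonoidHom.mem_range]
    constructor
    · rintro ⟨z, hz⟩
      have hz0 : z ≠ 0 := by
        rintro rfl
        rw [Algebra.norm_zero] at hz
        exact x.ne_zero ((map_eq_zero _).1 hz.symm)
      exact ⟨Units.mk0 z hz0, Units.ext hz⟩
    · rintro ⟨z, hz⟩
      exact ⟨z, congrArg Units.val hz⟩
  · intro z
    refine ⟨Units.map (algebraMap E (AdjoinRoot (X ^ p - C (algebraMap K E b) : E[X])) :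
      E →* AdjoinRoot (X ^ p - C (algebraMap K E b) : E[X])) z, ?_⟩
    ext
    show Algebra.norm E (algebraMap E _ (z : E)) = _
    rw [Algebra.norm_algebraMap, hfin, Units.val_pow_eq_pow_val]

/-- (LN): for `v` nonsplit, `locNorm L v m ≠ ⊤` for `m` large. -/
theorem exists_locNorm_ne_top [IsGalois K L] [ProperSpace E] {p : ℕ} (hp : p.Prime)
    (hL : finrank K L = p) {ζ : K} (hζ : IsPrimitiveRoot ζ p)
    (h : LocModel (v.valuation K) E) (hpE : (p : E) ≠ 0) (hns : NonSplit L v) :
    ∃ m₀, ∀ m, m₀ ≤ m → locNorm L v m ≠ ⊤ := by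
  have hidx := index_iInf_locNorm hp hL hζ h hpE hns
  by_contra hcon
  push Not at hcon
  have : (⨅ m, locNorm L v m : Subgroup Kˣ) = ⊤ := by
    rw [iInf_eq_top]
    intro m
    obtain ⟨m', hm', htop⟩ := hcon m
    rw [eq_top_iff, ← htop]
    exact H82.locNorm_anti L v hm'
  rw [this, Subgroup.index_top] at hidx
  exact hp.one_lt.ne hidx

end kummer

end Fermat.Agent.H65
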