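import Mathlib

set_option autoImplicit false

/-!
# Pairs of intermediate fields of prime degree
-/

namespace Fermat.Agent.H91

open IntermediateField Module

section

variable {k Ω : Type*} [Field k] [Field Ω] [Algebra k Ω] [IsGalois k Ω]
  {E F : IntermediateField k Ω} (hEF : E ≤ F)

omit [IsGalois k Ω] in
lemma comap_fixing_ext : (extendScalars hEF).fixingSubgroup.comap
    (fixingSubgroupEquiv E).toMonoidHom = F.fixingSubgroup.subgroupOf E.fixingSubgroup := by
  ext s
  rw [Subgroup.mem_comap, Subgroup.mem_subgroupOf, IntermediateField.mem_fixingSubgroup_iff,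
    IntermediateField.mem_fixingSubgroup_iff]
  constructor
  · intro h x hx
    exact h x hx
  · intro h x hx
    exact h x hx

theorem isGalois_ext (hn : (F.fixingSubgroup.subgroupOf E.fixingSubgroup).Normal) :
    IsGalois E (extendScalars hEF) := by
  rw [← InfiniteGalois.normal_iff_isGalois]
  rw [← comap_fixing_ext hEF] at hn
  have h := hn.map (fixingSubgroupEquiv E).toMonoidHom (fixingSubgroupEquiv E).surjective
  rw [Subgroup.map_comap_eq_self_of_surjective (fixingSubgroupEquiv E).surjective] at h
  exact h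

theorem finrank_ext : finrank E (extendScalars hEF) =
    F.fixingSubgroup.relIndex E.fixingSubgroup := by
  rw [finrank_eq_fixingSubgroup_index, Subgroup.relIndex, ← comap_fixing_ext hEF,
    Subgroup.index_comap_of_surjective _ (fixingSubgroupEquiv E).surjective]

/-- the norm as a product over powers of a generator. -/
theorem norm_eq_prod_pow {K L : Type*} [Field K] [Field L] [Algebra K L] [IsGalois K L] {p : ℕ}
    (hp : p.Prime) (hL : finrank K L = p) {τ : L ≃ₐ[K] L} (hτ : τ ≠ 1) (b : L) :
    algebraMap K L (Algebra.norm K b) = ∏ i ∈ Finset.range p, (τ ^ i) b := by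
  classical
  have hfin : FiniteDimensional K L := FiniteDimensional.of_finrank_pos (by rw [hL]; exact hp.pos)
  have hcard : Nat.card (L ≃ₐ[K] L) = p := by rw [IsGalois.card_aut_eq_finrank, hL]
  have : Fact p.Prime := ⟨hp⟩
  have hord : orderOf τ = p := by
    have h1 : orderOf τ ∣ p := by rw [← hcard]; exact orderOf_dvd_natCard _
    rcases (Nat.dvd_prime hp).1 h1 with h2 | h2
    · exact absurd (orderOf_eq_one_iff.1 h2) hτ
    · exact h2
  rw [Algebra.norm_eq_prod_automorphisms]
  symm
  refine Finset.prod_bij (fun i _ => τ ^ i) (fun i _ => Finset.mem_univ _) ?_ ?_ ?_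
  · intro i hi j hj hij
    rw [Finset.mem_range] at hi hj
    exact pow_injOn_Iio_orderOf (by rw [hord]; exact hi) (by rw [hord]; exact hj) hij
  · intro σ _
    have h1 : σ ∈ Submonoid.powers τ := mem_powers_of_prime_card hcard hτ
    obtain ⟨n, hn⟩ := h1
    refine ⟨n % p, Finset.mem_range.2 (Nat.mod_lt _ hp.pos), ?_⟩
    rw [← hn, ← hord, pow_mod_orderOf]
  · intro i _
    rfl

/-- norm in a Galois extension of prime degree inside `Ω` -/
theorem norm_ext_eq_prod {p : ℕ} (hp : p.Prime)
    (hn : (F.fixingSubgroup.subgroupOf E.fixingSubgroup).Normal)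
    (hi : F.fixingSubgroup.relIndex E.fixingSubgroup = p) {s : Ω ≃ₐ[k] Ω}
    (hs : s ∈ E.fixingSubgroup) (hsF : s ∉ F.fixingSubgroup) (b : extendScalars hEF) :
    ((Algebra.norm E b : E) : Ω) = ∏ i ∈ Finset.range p, (s ^ i) (b : Ω) := by
  have hG := isGalois_ext hEF hn
  have hL : finrank E (extendScalars hEF) = p := by rw [finrank_ext, hi]
  have : Normal E (extendScalars hEF) := hG.to_normal
  let s' : Ω ≃ₐ[E] Ω := fixingSubgroupEquiv E ⟨s, hs⟩
  let τ : (extendScalars hEF) ≃ₐ[E] (extendScalars hEF) := s'.restrictNormal (extendScalars hEF)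
  have hτ : ∀ y : extendScalars hEF, ((τ y : extendScalars hEF) : Ω) = s (y : Ω) := fun y =>
    AlgEquiv.restrictNormal_commutes s' (extendScalars hEF) y
  have hτpow : ∀ (i : ℕ) (y : extendScalars hEF),
      (((τ ^ i) y : extendScalars hEF) : Ω) = (s ^ i) (y : Ω) := by
    intro i
    induction i with
    | zero => intro y; rfl
    | succ i ih =>
      intro y
      rw [pow_succ, pow_succ, AlgEquiv.mul_apply, AlgEquiv.mul_apply, ih, hτ]
  have hτ1 : τ ≠ 1 := by
    intro h
    apply hsF
    rw [IntermediateField.mem_fixingSubgroup_iff]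
    intro x hx
    have := hτ ⟨x, hx⟩
    rw [h] at this
    exact this.symm
  have h1 := congrArg (fun y : extendScalars hEF => (y : Ω)) (norm_eq_prod_pow hp hL hτ1 b)
  have h2 : (((algebraMap E (extendScalars hEF)) (Algebra.norm E b) : extendScalars hEF) : Ω) =
      ((Algebra.norm E b : E) : Ω) := rfl
  rw [← h2, h1]
  have h3 := map_prod (algebraMap (extendScalars hEF) Ω) (fun i => (τ ^ i) b) (Finset.range p)
  refine h3.trans (Finset.prod_congr rfl fun i _ => hτpow i b)

end

end Fermat.Agent.H91
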