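import Mathlib
import Fermat.Agent.H91Units

set_option autoImplicit false

/-!
# The Hasse principle for degree two classes: abstract version
-/

namespace Fermat.Agent.H91

open groupCohomology

universe u v w

namespace LevelFam

variable {G : Type u} [Group G] {𝓥 : LevelFam G} {A : Type v} [AddCommGroup A]
  [DistribMulAction G A]

lemma ext_carrier {𝓥 𝓦 : LevelFam G} (h : 𝓥.carrier = 𝓦.carrier) : 𝓥 = 𝓦 := by
  cases 𝓥; cases 𝓦; simp only at h; subst h; rfl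

lemma comap_comap {H K : Type*} [Group H] [Group K] (𝓥 : LevelFam G) (r : H →* G) (s : K →* H) :
    (𝓥.comap r).comap s = 𝓥.comap (r.comp s) := by
  apply ext_carrier
  ext V
  constructor
  · rintro ⟨_, ⟨W, hW, rfl⟩, rfl⟩
    exact ⟨W, hW, rfl⟩
  · rintro ⟨W, hW, rfl⟩
    exact ⟨_, ⟨W, hW, rfl⟩, rfl⟩

/-- pulling back coboundaries -/
lemma Triv₂.pull {H : Type*} [Group H] {B : Type*} [AddCommGroup B] [DistribMulAction H B]
    (r : H →* G) (j : A →+ B) (hj : ∀ h a, j (r h • a) = h • j a) {f : G × G → A}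
    (hf : 𝓥.Triv₂ f) : (𝓥.comap r).Triv₂ (fun p => j (f (r p.1, r p.2))) := by
  obtain ⟨x, hx, h⟩ := hf
  refine ⟨fun h => j (x (r h)), (hx.comap r).comp j, fun g g' => ?_⟩
  simp only [← h, dd_apply, map_add, map_sub, hj, map_mul]

lemma triv₂_restrict_of_le {H U : Subgroup G} (hle : H ≤ U) {f : G × G → A}
    (h : (𝓥.restrict U).Triv₂ (res₂ U f)) : (𝓥.restrict H).Triv₂ (res₂ H f) := by
  have := h.pull (Subgroup.inclusion hle) (AddMonoidHom.id A) (fun _ _ => rfl)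
  rw [comap_comap] at this
  exact this

lemma nested_eq {H U : Subgroup G} (hle : H ≤ U) :
    (𝓥.restrict H).comap (Subgroup.subgroupOfEquivOfLe hle).toMonoidHom =
      (𝓥.restrict U).restrict (H.subgroupOf U) := by
  rw [comap_comap, restrict, restrict, comap_comap]
  rfl

lemma nested_eq' {H U : Subgroup G} (hle : H ≤ U) :
    ((𝓥.restrict U).restrict (H.subgroupOf U)).comap
      (Subgroup.subgroupOfEquivOfLe hle).symm.toMonoidHom = 𝓥.restrict H := by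
  rw [← nested_eq hle, comap_comap]
  have : (Subgroup.subgroupOfEquivOfLe hle).toMonoidHom.comp
    (Subgroup.subgroupOfEquivOfLe hle).symm.toMonoidHom = MonoidHom.id H := by
    ext x; simp
  rw [this]
  apply ext_carrier
  ext V
  constructor
  · rintro ⟨W, hW, rfl⟩; exact hW
  · intro hV; exact ⟨V, hV, rfl⟩

lemma nested_triv₂_iff {H U : Subgroup G} (hle : H ≤ U) {f : G × G → A} :
    ((𝓥.restrict U).restrict (H.subgroupOf U)).Triv₂ (res₂ (H.subgroupOf U) (res₂ U f)) ↔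
      (𝓥.restrict H).Triv₂ (res₂ H f) := by
  constructor
  · intro h
    have := h.pull (Subgroup.subgroupOfEquivOfLe hle).symm.toMonoidHom (AddMonoidHom.id A)
      (fun _ _ => rfl)
    rw [nested_eq'] at this
    exact this
  · intro h
    have := h.pull (Subgroup.subgroupOfEquivOfLe hle).toMonoidHom (AddMonoidHom.id A)
      (fun _ _ => rfl)
    rw [nested_eq] at this
    exact this

lemma nested_h90 {H U : Subgroup G} (hle : H ≤ U) (h90 : (𝓥.restrict H).H90 A) :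
    ((𝓥.restrict U).restrict (H.subgroupOf U)).H90 A := by
  intro f hf hc
  obtain ⟨a, ha⟩ := h90 (fun h => f ((Subgroup.subgroupOfEquivOfLe hle).symm h))
    (fun g h => by
      show f ((Subgroup.subgroupOfEquivOfLe hle).symm (g * h)) = _
      rw [map_mul, hf]; rfl)
    (by
      have := hc.comap (Subgroup.subgroupOfEquivOfLe hle).symm.toMonoidHom
      rw [nested_eq'] at this
      exact this)
  refine ⟨a, fun g => ?_⟩
  have := ha (Subgroup.subgroupOfEquivOfLe hle g)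
  rw [MulEquiv.symm_apply_apply] at this
  exact this

/-- the invariant of an inflated cocycle is fixed by everything -/
lemma Inflated.tinv_fixed {H : Subgroup G} [hn : H.Normal] {f : G × G → A} (hf : Inflated H f)
    {σ : G} {n : ℕ} (hσ : σ ^ n ∈ H) (hgen : ∀ g : G, ∃ k : ℕ, ∃ h ∈ H, g = σ ^ k * h) (g : G) :
    g • tinv f σ n = tinv f σ n := by
  have h1 : σ • tinv f σ n = tinv f σ n := by
    have hk : ∀ k ∈ Finset.range n, σ • f (σ ^ k, σ) =
        (f (σ ^ (k + 1), σ) - f (σ ^ k, σ)) + f (σ ^ k, σ) +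
          (f (σ, σ ^ k) - f (σ, σ ^ (k + 1))) := by
      intro k _
      have := hf.coc σ (σ ^ k) σ
      rw [← pow_succ, ← pow_succ'] at this
      linear_combination (norm := abel) -this
    rw [tinv, Finset.smul_sum, Finset.sum_congr rfl hk, Finset.sum_add_distrib,
      Finset.sum_add_distrib, Finset.sum_range_sub (fun k => f (σ ^ k, σ)),
      Finset.sum_range_sub' (fun k => f (σ, σ ^ k)), hf.left _ hσ, pow_zero, hf.left _ H.one_mem,
      hf.right _ _ H.one_mem, hf.right _ _ hσ]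
    abel
  have h2 : ∀ h ∈ H, h • tinv f σ n = tinv f σ n := by
    intro h hh
    rw [tinv, Finset.smul_sum]
    exact Finset.sum_congr rfl fun k _ => hf.smul_eq _ _ hh
  have h3 : ∀ k : ℕ, σ ^ k • tinv f σ n = tinv f σ n := by
    intro k
    induction k with
    | zero => simp
    | succ k ih => rw [pow_succ, mul_smul, h1, ih]
  obtain ⟨k, h, hh, rfl⟩ := hgen g
  rw [mul_smul, h2 h hh, h3]

section indexp

variable {p : ℕ} [hp : Fact p.Prime] {H : Subgroup G}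

lemma pow_mem_iff_of_index [hn : H.Normal] (hi : H.index = p) {σ : G} (hσ : σ ∉ H) (k : ℕ) :
    σ ^ k ∈ H ↔ p ∣ k := by
  have hcard : Nat.card (G ⧸ H) = p := hi
  have h1 : (QuotientGroup.mk σ : G ⧸ H) ≠ 1 := by
    rwa [Ne, QuotientGroup.eq_one_iff]
  have h2 : orderOf (QuotientGroup.mk σ : G ⧸ H) = p := by
    have h3 : orderOf (QuotientGroup.mk σ : G ⧸ H) ∣ p := by
      rw [← hcard]; exact orderOf_dvd_natCard _
    rcases (Nat.dvd_prime hp.out).1 h3 with h4 | h4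
    · exact absurd (orderOf_eq_one_iff.1 h4) h1
    · exact h4
  rw [← QuotientGroup.eq_one_iff, QuotientGroup.mk_pow, ← orderOf_dvd_iff_pow_eq_one, h2]

lemma gen_of_index [hn : H.Normal] (hi : H.index = p) {σ : G} (hσ : σ ∉ H) (g : G) :
    ∃ k : ℕ, ∃ h ∈ H, g = σ ^ k * h := by
  have hcard : Nat.card (G ⧸ H) = p := hi
  have h1 : (QuotientGroup.mk σ : G ⧸ H) ≠ 1 := by
    rwa [Ne, QuotientGroup.eq_one_iff]
  have hfin : Finite (G ⧸ H) := Nat.finite_of_card_ne_zero (by rw [hcard]; exact hp.out.ne_zero)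
  have h2 : (QuotientGroup.mk g : G ⧸ H) ∈ Submonoid.powers (QuotientGroup.mk σ : G ⧸ H) :=
    mem_powers_of_prime_card hcard h1
  obtain ⟨k, hk⟩ := h2
  refine ⟨k, (σ ^ k)⁻¹ * g, ?_, by group⟩
  rw [← QuotientGroup.eq, QuotientGroup.mk_pow]
  exact hk

end indexp

end LevelFam

/-- Local data: a family of groups over `G` with coefficient modules. -/
structure LocData {G : Type u} [Group G] (𝓥 : LevelFam G) (A : Type v) [AddCommGroup A]
    [DistribMulAction G A] where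
  ι : Type w
  D : ι → Type
  [grp : ∀ i, Group (D i)]
  r : ∀ i, D i →* G
  B : ι → Type
  [ab : ∀ i, AddCommGroup (B i)]
  [act : ∀ i, DistribMulAction (D i) (B i)]
  j : ∀ i, A →+ B i
  hj : ∀ i d a, j i (r i d • a) = d • j i a
  h90 : ∀ i (W : Subgroup (D i)), ((𝓥.comap (r i)).restrict W).H90 (B i)

attribute [instance] LocData.grp LocData.ab LocData.act

namespace LocData

variable {G : Type u} [Group G] {𝓥 : LevelFam G} {A : Type v} [AddCommGroup A]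
  [DistribMulAction G A] (𝓓 : LocData.{u, v, w} 𝓥 A)

/-- the restriction of the cocycle `f` on `U` to the local group `i` is trivial. -/
def TrivAt (i : 𝓓.ι) (U : Subgroup G) (f : G × G → A) : Prop :=
  ((𝓥.comap (𝓓.r i)).restrict (U.comap (𝓓.r i))).Triv₂
    (fun p => 𝓓.j i (f (𝓓.r i p.1, 𝓓.r i p.2)))

lemma TrivAt.mono {i : 𝓓.ι} {U H : Subgroup G} (hle : H ≤ U) {f : G × G → A}
    (h : 𝓓.TrivAt i U f) : 𝓓.TrivAt i H f := by
  have := h.pull (Subgroup.inclusion (Subgroup.comap_mono (f := 𝓓.r i) hle))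
    (AddMonoidHom.id _) (fun _ _ => rfl)
  rw [LevelFam.comap_comap] at this
  exact this

/-- The Hasse norm theorem for index `p` subgroups. -/
def HasseNorm (p : ℕ) (U₀ : Subgroup G) : Prop :=
  ∀ U H : Subgroup G, U ≤ U₀ → 𝓥.IsOpenSubgroup U → 𝓥.IsOpenSubgroup H → H ≤ U →
    (H.subgroupOf U).Normal → H.relIndex U = p → ∀ x : A, (∀ u ∈ U, u • x = x) →
    (∀ i, (∃ s : 𝓓.D i, 𝓓.r i s ∈ U ∧ 𝓓.r i s ∉ H) →
      ∃ s : 𝓓.D i, 𝓓.r i s ∈ U ∧ 𝓓.r i s ∉ H ∧ ∃ b : 𝓓.B i,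
        (∀ h : 𝓓.D i, 𝓓.r i h ∈ H → h • b = b) ∧ 𝓓.j i x = LevelFam.nrm s p b) →
    ∀ σ ∈ U, σ ∉ H → ∃ a : A, (∀ h ∈ H, h • a = a) ∧ x = LevelFam.nrm σ p a

open LevelFam

/-- Structure of a class on `U` which dies on the normal index `p` subgroup `H`. -/
theorem exists_inflated_sub (hA : 𝓥.Smooth A)
    {U H : Subgroup G}
    (hH : 𝓥.IsOpenSubgroup H) (hle : H ≤ U) (hn : (H.subgroupOf U).Normal)
    (h90 : (𝓥.restrict H).H90 A)
    {f : G × G → A} (hf : IsCocycle₂ (res₂ U f)) (hc : (𝓥.restrict U).IsConst₂ (res₂ U f))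
    (ht : (𝓥.restrict H).Triv₂ (res₂ H f)) :
    ∃ x : U → A, (𝓥.restrict U).IsConst₁ x ∧ Inflated (H.subgroupOf U) (res₂ U f - dd x) :=
  exists_inflated (H := H.subgroupOf U) (hA.restrict U) (hH.comap U.subtype)
    (nested_h90 hle h90) hf hc ((nested_triv₂_iff hle).2 ht)

/-- local consequence: the invariant of the inflated cocycle is a local norm -/
theorem local_norm {p : ℕ} [hp : Fact p.Prime]
    {U H : Subgroup G}
    (hle : H ≤ U) (hn : (H.subgroupOf U).Normal) (hi : H.relIndex U = p)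
    {f : G × G → A} {x : U → A} (hx : (𝓥.restrict U).IsConst₁ x)
    (hF : Inflated (H.subgroupOf U) (res₂ U f - dd x))
    {σ : U} (hσ : (σ : G) ∉ H) (i : 𝓓.ι) (hit : 𝓓.TrivAt i U f)
    {s₀ : 𝓓.D i} (hs₀U : 𝓓.r i s₀ ∈ U) (hs₀H : 𝓓.r i s₀ ∉ H) :
    ∃ s : 𝓓.D i, 𝓓.r i s ∈ U ∧ 𝓓.r i s ∉ H ∧ ∃ b : 𝓓.B i,
        (∀ h : 𝓓.D i, 𝓓.r i h ∈ H → h • b = b) ∧
        𝓓.j i (tinv (res₂ U f - dd x) σ p) = nrm s p b := by
  classical
  set F := res₂ U f - dd x with hFdef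
  set H' := H.subgroupOf U with hH'
  have hi' : H'.index = p := hi
  have hσ' : σ ∉ H' := fun h => hσ h
  have hs₀' : (⟨𝓓.r i s₀, hs₀U⟩ : U) ∉ H' := fun h => hs₀H h
  -- find a power of `s₀` mapping to the coset of `σ`
  obtain ⟨k, h₀, hh₀, hk⟩ := gen_of_index hi' hs₀' σ
  obtain ⟨s, hs⟩ : ∃ s, s = s₀ ^ k := ⟨_, rfl⟩
  have hsU : 𝓓.r i s ∈ U := by rw [hs, map_pow]; exact U.pow_mem hs₀U k
  have hsσ : (⟨𝓓.r i s, hsU⟩ : U) = σ * h₀⁻¹ := by
    rw [hk, mul_assoc, mul_inv_cancel, mul_one]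
    apply Subtype.ext
    simp [hs]
  have hsH : 𝓓.r i s ∉ H := by
    intro hmem
    have h1 : (⟨𝓓.r i s, hsU⟩ : U) ∈ H' := hmem
    rw [hsσ] at h1
    apply hσ'
    have := H'.mul_mem h1 hh₀
    simpa using this
  refine ⟨s, hsU, hsH, ?_⟩
  -- the local group
  let Ui : Subgroup (𝓓.D i) := U.comap (𝓓.r i)
  let Hi : Subgroup (𝓓.D i) := H.comap (𝓓.r i)
  let ρ : Ui →* U := (𝓓.r i).subgroupComap U
  have hHi : Hi.subgroupOf Ui = H'.comap ρ := by
    ext y; rfl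
  have hnHi : (Hi.subgroupOf Ui).Normal := by
    rw [hHi]; exact hn.comap ρ
  let Fi : Ui × Ui → 𝓓.B i := fun q => 𝓓.j i (F (ρ q.1, ρ q.2))
  have hFi : Inflated (Hi.subgroupOf Ui) Fi := by
    refine ⟨fun a b c => ?_, fun h hh g => ?_, fun g h hh => ?_⟩
    · have h1 := congrArg (𝓓.j i) (hF.coc (ρ a) (ρ b) (ρ c))
      rw [map_add, map_add] at h1
      have h2 : 𝓓.j i ((ρ a) • F (ρ b, ρ c)) = a • 𝓓.j i (F (ρ b, ρ c)) := 𝓓.hj i a _
      rw [h2] at h1
      simpa [Fi, map_mul] using h1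
    · show 𝓓.j i (F (ρ h, ρ g)) = 0
      rw [hF.left (ρ h) (by rw [hHi] at hh; exact hh), map_zero]
    · show 𝓓.j i (F (ρ g, ρ h)) = 0
      rw [hF.right _ (ρ h) (by rw [hHi] at hh; exact hh), map_zero]
  have hlev : ((𝓥.comap (𝓓.r i)).restrict Ui) = (𝓥.restrict U).comap ρ := by
    rw [restrict, restrict, comap_comap, comap_comap]
    rfl
  have hFit : ((𝓥.comap (𝓓.r i)).restrict Ui).Triv₂ Fi := by
    have h1 : ((𝓥.comap (𝓓.r i)).restrict Ui).Triv₂
        (fun q : Ui × Ui => 𝓓.j i (f (𝓓.r i q.1, 𝓓.r i q.2))) := hit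
    obtain ⟨y, hy, hyf⟩ := h1
    have hxc : ((𝓥.comap (𝓓.r i)).restrict Ui).IsConst₁ (fun q : Ui => 𝓓.j i (x (ρ q))) := by
      rw [hlev]
      exact (hx.comap ρ).comp _
    refine ⟨y - fun q => 𝓓.j i (x (ρ q)), hy.sub hxc, fun g h => ?_⟩
    rw [dd_sub, hyf]
    show 𝓓.j i (f (𝓓.r i g, 𝓓.r i h)) - dd (fun q => 𝓓.j i (x (ρ q))) (g, h) =
      𝓓.j i ((res₂ U f - dd x) (ρ g, ρ h))
    have h2 : 𝓓.j i ((ρ g) • x (ρ h)) = g • 𝓓.j i (x (ρ h)) := 𝓓.hj i g _
    rw [Pi.sub_apply, map_sub, dd_apply, dd_apply, map_add, map_sub, h2, map_mul]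
    rfl
  have hspH : (⟨s, hsU⟩ : Ui) ^ p ∈ Hi.subgroupOf Ui := by
    rw [hHi, Subgroup.mem_comap, map_pow]
    have h1 : ρ ⟨s, hsU⟩ = (⟨𝓓.r i s, hsU⟩ : U) := rfl
    rw [h1, pow_mem_iff_of_index hi' (fun h => hsH h)]
  have h90i : (((𝓥.comap (𝓓.r i)).restrict Ui).restrict (Hi.subgroupOf Ui)).H90 (𝓓.B i) :=
    nested_h90 (𝓥 := 𝓥.comap (𝓓.r i)) (Subgroup.comap_mono hle) (𝓓.h90 i Hi)
  obtain ⟨b, hb, hbt⟩ := exists_nrm_eq_tinv h90i hFi hspH hFit
  refine ⟨b, fun h hh => ?_, ?_⟩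
  · have hhU : 𝓓.r i h ∈ U := hle hh
    exact hb ⟨h, hhU⟩ hh
  · have e1 : tinv Fi ⟨s, hsU⟩ p = 𝓓.j i (tinv F σ p) := by
      rw [tinv, tinv, map_sum]
      refine Finset.sum_congr rfl fun k' _ => ?_
      show 𝓓.j i (F (ρ ((⟨s, hsU⟩ : Ui) ^ k'), ρ ⟨s, hsU⟩)) = _
      rw [map_pow]
      have h1 : ρ ⟨s, hsU⟩ = σ * h₀⁻¹ := hsσ
      rw [h1, hF.mul_right _ _ (H'.inv_mem hh₀)]
      have h2 : ∀ m : ℕ, ∃ h ∈ H', (σ * h₀⁻¹) ^ m = σ ^ m * h := by
        intro m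
        induction m with
        | zero => exact ⟨1, H'.one_mem, by simp⟩
        | succ m ih =>
          obtain ⟨h, hh, he⟩ := ih
          refine ⟨(σ⁻¹ * h * σ) * h₀⁻¹, H'.mul_mem ?_ (H'.inv_mem hh₀), ?_⟩
          · have := hn.conj_mem h hh σ⁻¹
            simpa using this
          · rw [pow_succ, he, pow_succ]; group
      obtain ⟨h, hh, he⟩ := h2 k'
      rw [he, hF.mul_left _ _ hh]
    have e2 : nrm (⟨s, hsU⟩ : Ui) p b = nrm s p b := by
      rw [nrm, nrm]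
      rfl
    rw [← e1, hbt, e2]

/-- One step of the descent. -/
theorem triv₂_of_index {p : ℕ} [hp : Fact p.Prime] (hA : 𝓥.Smooth A)
    {U₀ : Subgroup G} (hHN : 𝓓.HasseNorm p U₀) {U H : Subgroup G} (hU₀ : U ≤ U₀)
    (hU : 𝓥.IsOpenSubgroup U)
    (hH : 𝓥.IsOpenSubgroup H) (hle : H ≤ U) (hn : (H.subgroupOf U).Normal)
    (hi : H.relIndex U = p)
    (h90 : (𝓥.restrict H).H90 A)
    {f : G × G → A} (hf : IsCocycle₂ (res₂ U f)) (hc : (𝓥.restrict U).IsConst₂ (res₂ U f))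
    (ht : (𝓥.restrict H).Triv₂ (res₂ H f)) (hloc : ∀ i, 𝓓.TrivAt i U f) :
    (𝓥.restrict U).Triv₂ (res₂ U f) := by
  classical
  obtain ⟨x, hx, hF⟩ := exists_inflated_sub hA hH hle hn h90 hf hc ht
  have hi' : (H.subgroupOf U).index = p := hi
  have hne : H.subgroupOf U ≠ ⊤ := by
    intro h
    rw [h, Subgroup.index_top] at hi'
    exact hp.out.one_lt.ne hi'
  obtain ⟨σ, hσ⟩ : ∃ σ : U, σ ∉ H.subgroupOf U := by
    by_contra hcon
    push Not at hcon
    exact hne (eq_top_iff.2 fun y _ => hcon y)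
  have hσ' : (σ : G) ∉ H := fun h => hσ h
  have hσp : σ ^ p ∈ H.subgroupOf U := (pow_mem_iff_of_index hi' hσ p).2 dvd_rfl
  set F := res₂ U f - dd x with hFdef
  have hTfix : ∀ u ∈ U, u • tinv F σ p = tinv F σ p := fun u hu =>
    hF.tinv_fixed hσp (gen_of_index hi' hσ) ⟨u, hu⟩
  obtain ⟨a, ha, hTa⟩ := hHN U H hU₀ hU hH hle hn hi (tinv F σ p) hTfix
    (fun i ⟨s₀, hs₀U, hs₀H⟩ => 𝓓.local_norm hle hn hi hx hF hσ' i (hloc i) hs₀U hs₀H)
    σ σ.2 hσ'
  have hFt : (𝓥.restrict U).Triv₂ F :=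
    triv₂_of_tinv_eq_nrm (H := H.subgroupOf U) (hH.comap U.subtype) hF
      (pow_mem_iff_of_index hi' hσ)
      (gen_of_index hi' hσ) (a := a) (fun h hh => ha h hh) hTa
  have : res₂ U f = F + dd x := by rw [hFdef]; abel
  rw [this]
  exact hFt.add (triv₂_dd hx)

omit 𝓓 in
lemma _root_.Fermat.Agent.H91.LevelFam.isCocycle₂_res_of_le {H U : Subgroup G} (hle : H ≤ U)
    {f : G × G → A} (hf : IsCocycle₂ (res₂ U f)) : IsCocycle₂ (res₂ H f) := by
  intro g h j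
  exact hf ⟨g, hle g.2⟩ ⟨h, hle h.2⟩ ⟨j, hle j.2⟩

omit 𝓓 [DistribMulAction G A] in
lemma _root_.Fermat.Agent.H91.LevelFam.isConst₂_res_of_le {H U : Subgroup G} (hle : H ≤ U)
    {f : G × G → A} (hc : (𝓥.restrict U).IsConst₂ (res₂ U f)) :
    (𝓥.restrict H).IsConst₂ (res₂ H f) := by
  rw [isConst₂_comap_iff] at hc ⊢
  obtain ⟨V, hV, h⟩ := hc
  exact ⟨V, hV, fun g g' s s' hs hs' => h ⟨g, hle g.2⟩ ⟨g', hle g'.2⟩ ⟨s, hle s.2⟩ ⟨s', hle s'.2⟩
    hs hs'⟩

omit 𝓓 in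
lemma _root_.Fermat.Agent.H91.LevelFam.triv₂_of_const {V : Subgroup G}
    {f : G × G → A} (hf : IsCocycle₂ (res₂ V f)) (hc : ∀ s ∈ V, ∀ s' ∈ V, f (s, s') = f (1, 1)) :
    (𝓥.restrict V).Triv₂ (res₂ V f) := by
  refine ⟨fun _ => f (1, 1), isConst₁_const _, fun g h => ?_⟩
  have h1 := hf g 1 1
  have h2 : ∀ a b : V, res₂ V f (a, b) = f (1, 1) := fun a b => hc a a.2 b b.2
  simp only [h2] at h1
  rw [dd_apply, h2]
  linear_combination (norm := abel) -h1

/-- A subgroup of index `p` in a subgroup `H` with `[H : V] = p ^ (k+1)`, `V` normal. -/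
lemma exists_index_p {p : ℕ} [hp : Fact p.Prime] {V H : Subgroup G} (hVn : V.Normal)
    (hVH : V ≤ H) {k : ℕ} (hk : V.relIndex H = p ^ (k + 1)) :
    ∃ H₁ : Subgroup G, V ≤ H₁ ∧ H₁ ≤ H ∧ (H₁.subgroupOf H).Normal ∧ H₁.relIndex H = p ∧
      V.relIndex H₁ = p ^ k := by
  classical
  have hn : (V.subgroupOf H).Normal := hVn.comap H.subtype
  have hcard : Nat.card (H ⧸ V.subgroupOf H) = p ^ (k + 1) := hk
  have hfin : Finite (H ⧸ V.subgroupOf H) :=
    Nat.finite_of_card_ne_zero (by rw [hcard]; exact pow_ne_zero _ hp.out.ne_zero)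
  obtain ⟨K, hK⟩ := Sylow.exists_subgroup_card_pow_prime (G := H ⧸ V.subgroupOf H) p
    (n := k) (by rw [hcard]; exact pow_dvd_pow _ (Nat.le_succ k))
  have hKi : K.index = p := by
    have h1 := K.card_mul_index
    rw [hK, hcard, pow_succ] at h1
    exact Nat.eq_of_mul_eq_mul_left (pow_pos hp.out.pos k) h1
  have hKn : K.Normal := by
    apply Subgroup.normal_of_index_eq_minFac_card
    rw [hKi, hcard, hp.out.pow_minFac (Nat.succ_ne_zero k)]
  let L : Subgroup H := K.comap (QuotientGroup.mk' (V.subgroupOf H))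
  have hL : (L.map H.subtype).subgroupOf H = L :=
    Subgroup.comap_map_eq_self_of_injective H.subtype_injective L
  have hLi : L.index = p := by
    rw [← hKi]
    exact Subgroup.index_comap_of_surjective _ (QuotientGroup.mk'_surjective _)
  have hVL : V ≤ L.map H.subtype := by
    intro v hv
    refine ⟨⟨v, hVH hv⟩, ?_, rfl⟩
    show QuotientGroup.mk' (V.subgroupOf H) ⟨v, hVH hv⟩ ∈ K
    have : QuotientGroup.mk' (V.subgroupOf H) ⟨v, hVH hv⟩ = 1 := by
      rw [QuotientGroup.mk'_apply, QuotientGroup.eq_one_iff]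
      exact hv
    rw [this]
    exact K.one_mem
  have hLH : L.map H.subtype ≤ H := by
    rintro _ ⟨y, -, rfl⟩
    exact y.2
  have hrel : (L.map H.subtype).relIndex H = p := by
    rw [Subgroup.relIndex, hL, hLi]
  refine ⟨L.map H.subtype, hVL, hLH, by rw [hL]; exact hKn.comap _, hrel, ?_⟩
  have h1 := Subgroup.relIndex_mul_relIndex V (L.map H.subtype) H hVL hLH
  rw [hrel, hk, pow_succ] at h1
  exact Nat.eq_of_mul_eq_mul_right hp.out.pos h1

/-- **The Hasse principle for degree two classes killed by `p`**, abstract version. -/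
theorem triv₂_of_forall_trivAt {p : ℕ} [hp : Fact p.Prime] (hA : 𝓥.Smooth A)
    (h90 : ∀ H : Subgroup G, 𝓥.IsOpenSubgroup H → (𝓥.restrict H).H90 A)
    {U₀ : Subgroup G} (hHN : 𝓓.HasseNorm p U₀) {U : Subgroup G} (hU₀ : U ≤ U₀)
    (hU : 𝓥.IsOpenSubgroup U)
    {f : G × G → A} (hf : IsCocycle₂ (res₂ U f)) (hc : (𝓥.restrict U).IsConst₂ (res₂ U f))
    (hpf : (𝓥.restrict U).Triv₂ (p • res₂ U f)) (hloc : ∀ i, 𝓓.TrivAt i U f) :
    (𝓥.restrict U).Triv₂ (res₂ U f) := by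
  classical
  obtain ⟨V₁, hV₁, hV₁f⟩ := (isConst₂_comap_iff _ _ _).1 hc
  obtain ⟨V₂, hV₂, hV₂U⟩ := hU
  obtain ⟨V₃, hV₃, hV₃'⟩ := 𝓥.inf_mem' _ hV₁ _ hV₂
  obtain ⟨V, hV, hVV₃, hVn, hVi⟩ := 𝓥.core' _ hV₃
  have hVU : V ≤ U := ((hVV₃.trans hV₃').trans inf_le_right).trans hV₂U
  have hVV₁ : V ≤ V₁ := (hVV₃.trans hV₃').trans inf_le_left
  have hopen : ∀ H : Subgroup G, V ≤ H → 𝓥.IsOpenSubgroup H := fun H h => ⟨V, hV, h⟩
  have hVtriv : (𝓥.restrict V).Triv₂ (res₂ V f) := by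
    refine triv₂_of_const (isCocycle₂_res_of_le hVU hf) fun s hs s' hs' => ?_
    have := hV₁f 1 1 ⟨s, hVU hs⟩ ⟨s', hVU hs'⟩ (hVV₁ hs) (hVV₁ hs')
    simpa [res₂] using this
  have claim : ∀ k : ℕ, ∀ H : Subgroup G, V ≤ H → H ≤ U → V.relIndex H = p ^ k →
      (𝓥.restrict H).Triv₂ (res₂ H f) := by
    intro k
    induction k with
    | zero =>
      intro H hVH hHU hk
      rw [pow_zero, Subgroup.relIndex_eq_one] at hk
      have : H = V := le_antisymm hk hVH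
      rw [this]
      exact hVtriv
    | succ k ih =>
      intro H hVH hHU hk
      obtain ⟨H₁, hVH₁, hH₁H, hn₁, hi₁, hk₁⟩ := exists_index_p hVn hVH hk
      exact 𝓓.triv₂_of_index hA hHN (hHU.trans hU₀) (hopen H hVH) (hopen H₁ hVH₁) hH₁H hn₁ hi₁
        (h90 H₁ (hopen H₁ hVH₁)) (isCocycle₂_res_of_le hHU hf) (isConst₂_res_of_le hHU hc)
        (ih H₁ hVH₁ (hH₁H.trans hHU) hk₁) (fun i => (hloc i).mono 𝓓 hHU)
  -- the Sylow subgroup
  have hn : (V.subgroupOf U).Normal := hVn.comap U.subtype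
  have hfin : Finite (U ⧸ V.subgroupOf U) := Subgroup.finite_quotient_of_finiteIndex
  obtain ⟨P⟩ : Nonempty (Sylow p (U ⧸ V.subgroupOf U)) := inferInstance
  let L : Subgroup U := (P : Subgroup (U ⧸ V.subgroupOf U)).comap
    (QuotientGroup.mk' (V.subgroupOf U))
  have hL : (L.map U.subtype).subgroupOf U = L :=
    Subgroup.comap_map_eq_self_of_injective U.subtype_injective L
  have hLi : L.index = (P : Subgroup (U ⧸ V.subgroupOf U)).index :=
    Subgroup.index_comap_of_surjective _ (QuotientGroup.mk'_surjective _)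
  have hVL : V ≤ L.map U.subtype := by
    intro v hv
    refine ⟨⟨v, hVU hv⟩, ?_, rfl⟩
    show QuotientGroup.mk' (V.subgroupOf U) ⟨v, hVU hv⟩ ∈ (P : Subgroup (U ⧸ V.subgroupOf U))
    have : QuotientGroup.mk' (V.subgroupOf U) ⟨v, hVU hv⟩ = 1 := by
      rw [QuotientGroup.mk'_apply, QuotientGroup.eq_one_iff]
      exact hv
    rw [this]
    exact (P : Subgroup (U ⧸ V.subgroupOf U)).one_mem
  have hLU : L.map U.subtype ≤ U := by
    rintro _ ⟨y, -, rfl⟩
    exact y.2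
  have hrel : (L.map U.subtype).relIndex U = (P : Subgroup (U ⧸ V.subgroupOf U)).index := by
    rw [Subgroup.relIndex, hL, hLi]
  obtain ⟨n, hn'⟩ := IsPGroup.iff_card.1 P.isPGroup'
  have hcardP : V.relIndex (L.map U.subtype) = p ^ n := by
    have h1 := Subgroup.relIndex_mul_relIndex V (L.map U.subtype) U hVL hLU
    have h2 := (P : Subgroup (U ⧸ V.subgroupOf U)).card_mul_index
    have h3 : Nat.card (U ⧸ V.subgroupOf U) = V.relIndex U := rfl
    rw [hrel] at h1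
    rw [h3, ← h1] at h2
    have h4 : (P : Subgroup (U ⧸ V.subgroupOf U)).index ≠ 0 := Subgroup.FiniteIndex.index_ne_zero
    rw [← hn']
    exact (Nat.eq_of_mul_eq_mul_right (Nat.pos_of_ne_zero h4) h2).symm
  have hLt := claim n _ hVL hLU hcardP
  have hcop : Nat.Coprime p ((L.map U.subtype).subgroupOf U).index := by
    rw [hL, hLi]
    exact (Nat.Prime.coprime_iff_not_dvd hp.out).2 P.not_dvd_index
  exact triv₂_of_coprime_index (H := (L.map U.subtype).subgroupOf U)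
    ((hopen _ hVL).comap U.subtype) hf hc
    ((nested_triv₂_iff hLU).2 hLt) hpf hcop

end LocData

end Fermat.Agent.H91
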