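import Mathlib
import Fermat.Agent.H91Hasse
import Fermat.Agent.H91GalPair
import Fermat.Agent.H54Levels
import Fermat.Agent.H65LocIndex

set_option autoImplicit false
set_option maxSynthPendingDepth 3

/-!
# The arithmetic local data, and the Hasse norm theorem in group form
-/

namespace Fermat.Agent.H91

open groupCohomology ExtCitation Fermat.Agent.H54 Fermat.Agent.H55
open IsDedekindDomain NumberField Module IntermediateField

local instance factNatPrimes (q : Nat.Primes) : Fact (q : ℕ).Prime := ⟨q.2⟩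

noncomputable instance instMSALoc (q : Nat.Primes) :
    MulSemiringAction (primeLocalGaloisGroup q) (PadicAlgCl (q : ℕ)) :=
  inferInstanceAs (MulSemiringAction (PadicAlgCl (q : ℕ) ≃ₐ[ℚ_[(q : ℕ)]] PadicAlgCl (q : ℕ))
    (PadicAlgCl (q : ℕ)))

/-- `x ↦ g⁻¹ loc(x) g` -/
noncomputable def rloc (q : Nat.Primes) (g : GQ) : primeLocalGaloisGroup q →* GQ where
  toFun x := g⁻¹ * primeLocalToGlobal q x * g
  map_one' := by simp
  map_mul' x y := by rw [map_mul]; group

lemma rloc_apply (q : Nat.Primes) (g : GQ) (x : primeLocalGaloisGroup q) :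
    rloc q g x = g⁻¹ * primeLocalToGlobal q x * g := rfl

lemma comap_rloc (q : Nat.Primes) (g : GQ) (U : Subgroup GQ) :
    U.comap (rloc q g) = dec (primeLocalToGlobal q) U g := rfl

/-- `ι ∘ g` on the level of units -/
noncomputable def jloc (q : Nat.Primes) (g : GQ) :
    Additive Qbˣ →+ Additive (PadicAlgCl (q : ℕ))ˣ :=
  MonoidHom.toAdditive (Units.map (embComp (q : ℕ) g : Qb →* PadicAlgCl (q : ℕ)))

@[simp] lemma uval_jloc (q : Nat.Primes) (g : GQ) (a : Additive Qbˣ) :
    uval (jloc q g a) = padicEmbedding (q : ℕ) (g (uval a)) := rfl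

lemma embComp_rloc (q : Nat.Primes) (g : GQ) (x : primeLocalGaloisGroup q) (y : Qb) :
    embComp (q : ℕ) g (rloc q g x y) = x • embComp (q : ℕ) g y := by
  rw [embComp_apply, embComp_apply, rloc_apply]
  have h1 : g ((g⁻¹ * primeLocalToGlobal q x * g) y) = primeLocalToGlobal q x (g y) := by
    rw [AlgEquiv.mul_apply, AlgEquiv.mul_apply, AlgEquiv.aut_inv, AlgEquiv.apply_symm_apply]
  rw [h1]
  exact padicEmbedding_localGaloisToGlobal (q : ℕ) x (g y)

lemma faithfulOn_loc (q : Nat.Primes) (g : GQ) :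
    FaithfulOn (krullFam.comap (rloc q g)) (PadicAlgCl (q : ℕ)) :=
  faithfulOn_krullFam.comap (rloc q g) (embComp (q : ℕ) g) (fun h x => embComp_rloc q g h x)

/-- The local data of all embeddings of `ℚ̄` in all `PadicAlgCl q`. -/
noncomputable def arithLoc : LocData.{0, 0, 0} krullFam (Additive Qbˣ) where
  ι := Nat.Primes × GQ
  D i := primeLocalGaloisGroup i.1
  r i := rloc i.1 i.2
  B i := Additive (PadicAlgCl (i.1 : ℕ))ˣ
  j i := jloc i.1 i.2
  hj i d a := uval_injective (embComp_rloc i.1 i.2 d (uval a))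
  h90 i W := ((faithfulOn_loc i.1 i.2).restrict W).h90

/-- The statement of the Hasse norm theorem (helper82). -/
def HasseNormStatement (p : ℕ) : Prop :=
  ∀ (K L : Type) [Field K] [NumberField K] [Field L] [NumberField L] [Algebra K L] [IsGalois K L],
    finrank K L = p → (∃ ζ : K, IsPrimitiveRoot ζ p) → ∀ x : Kˣ,
      (∀ v : HeightOneSpectrum (𝓞 K), H82.NonSplit L v → ∀ m, x ∈ H82.locNorm L v m) →
        x ∈ H82.normGroup K L


lemma numberField_of_finite (K : IntermediateField ℚ Qb) [hK : FiniteDimensional ℚ K] :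
    NumberField K where
  to_charZero := charZero_of_injective_algebraMap (algebraMap ℚ K).injective
  to_finiteDimensional := by
    convert hK

lemma le_of_fixingSubgroup_le {k Ω : Type*} [Field k] [Field Ω] [Algebra k Ω] [IsGalois k Ω]
    {K L : IntermediateField k Ω} (h : L.fixingSubgroup ≤ K.fixingSubgroup) : K ≤ L := by
  rw [← InfiniteGalois.fixedField_fixingSubgroup K, ← InfiniteGalois.fixedField_fixingSubgroup L]
  exact IntermediateField.fixedField_antitone h

lemma mem_of_fixed {k Ω : Type*} [Field k] [Field Ω] [Algebra k Ω] [IsGalois k Ω]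
    {K : IntermediateField k Ω} {y : Ω} (h : ∀ s ∈ K.fixingSubgroup, s y = y) : y ∈ K := by
  rw [← InfiniteGalois.fixedField_fixingSubgroup K, IntermediateField.mem_fixedField_iff]
  exact h

lemma nrm_uval {G Ω : Type*} [Group G] [Field Ω] [MulSemiringAction G Ω] (σ : G) (n : ℕ)
    (a : Additive Ωˣ) : uval (LevelFam.nrm σ n a) = ∏ k ∈ Finset.range n, σ ^ k • uval a := by
  rw [LevelFam.nrm, uval_sum]
  rfl

/-- every place lies over a rational prime -/
lemma exists_prime_mem {K : Type*} [Field K] [NumberField K] (v : HeightOneSpectrum (𝓞 K)) :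
    ∃ q : Nat.Primes, ((q : ℕ) : 𝓞 K) ∈ v.asIdeal := by
  have h1 : v.asIdeal.under ℤ ≠ ⊥ := Ideal.under_ne_bot _ v.ne_bot
  obtain ⟨n, hn⟩ := (inferInstance : (v.asIdeal.under ℤ).IsPrincipal)
  have hprime : (v.asIdeal.under ℤ).IsPrime := inferInstance
  have hn' : v.asIdeal.under ℤ = Ideal.span {n} := hn
  have hn0 : n ≠ 0 := by
    rintro rfl
    apply h1
    rw [hn', Ideal.span_singleton_eq_bot]
  have hnp : Prime n := by
    rw [hn'] at hprime
    exact (Ideal.span_singleton_prime hn0).1 hprime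
  refine ⟨⟨n.natAbs, Int.prime_iff_natAbs_prime.1 hnp⟩, ?_⟩
  have h2 : (n.natAbs : ℤ) ∈ v.asIdeal.under ℤ := by
    rw [hn', Ideal.mem_span_singleton]
    exact Int.dvd_natAbs_self
  have h3 : algebraMap ℤ (𝓞 K) (n.natAbs : ℤ) ∈ v.asIdeal := h2
  simpa using h3


lemma relIndex_comap_eq {G D : Type*} [Group G] [Group D] (r : D →* G) {p : ℕ} (hp : p.Prime)
    {U H : Subgroup G} (hn : (H.subgroupOf U).Normal) (hi : H.relIndex U = p)
    {s : D} (hsU : r s ∈ U) (hsH : r s ∉ H) :
    (H.comap r).relIndex (U.comap r) = p := by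
  have h1 : (H.comap r).relIndex (U.comap r) = (H.subgroupOf U).relIndex (r.subgroupComap U).range := by
    have h2 : (H.comap r).subgroupOf (U.comap r) = (H.subgroupOf U).comap (r.subgroupComap U) := by
      ext y; rfl
    rw [Subgroup.relIndex, h2, Subgroup.index_comap]
  have h3 : (H.comap r).relIndex (U.comap r) ∣ p := by
    rw [h1, ← hi]
    exact Subgroup.relIndex_dvd_index_of_normal _ _
  rcases (Nat.dvd_prime hp).1 h3 with h4 | h4
  · rw [Subgroup.relIndex_eq_one] at h4
    exact absurd (h4 (show s ∈ U.comap r from hsU)) hsH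
  · exact h4

lemma normal_comap_subgroupOf {G D : Type*} [Group G] [Group D] (r : D →* G)
    {U H : Subgroup G} (hn : (H.subgroupOf U).Normal) :
    ((H.comap r).subgroupOf (U.comap r)).Normal := by
  have h2 : (H.comap r).subgroupOf (U.comap r) = (H.subgroupOf U).comap (r.subgroupComap U) := by
    ext y; rfl
  rw [h2]
  exact hn.comap _

lemma adjoin_eq_top_of_prime {E F : Type*} [Field E] [Field F] [Algebra E F] {p : ℕ}
    (hp : p.Prime) (hF : finrank E F = p) {γ : F} (hγ : ∀ e : E, algebraMap E F e ≠ γ) :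
    E⟮γ⟯ = ⊤ := by
  have h1 := isSimpleOrder_of_finrank_prime E F (by rw [hF]; exact hp)
  rcases h1.eq_bot_or_eq_top E⟮γ⟯ with h2 | h2
  · have h3 : γ ∈ (⊥ : IntermediateField E F) := h2 ▸ mem_adjoin_simple_self E γ
    obtain ⟨e, he⟩ := mem_bot.1 h3
    exact absurd he (hγ e)
  · exact h2

section pair

variable (q : Nat.Primes) (g : GQ) {K L : IntermediateField ℚ Qb}

lemma fixing_embField : (embField (embAt (q : ℕ) K g)).fixingSubgroup =
    K.fixingSubgroup.comap (rloc q g) := by
  rw [← dec_fixingSubgroup]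
  rfl

omit g in
lemma mem_fixing_loc_iff (E : IntermediateField ℚ_[(q : ℕ)] (PadicAlgCl (q : ℕ)))
    (s : primeLocalGaloisGroup q) : s ∈ E.fixingSubgroup ↔ ∀ x ∈ E, s • x = x :=
  IntermediateField.mem_fixingSubgroup_iff E s

lemma embField_mono (hKL : K ≤ L) :
    embField (embAt (q : ℕ) K g) ≤ embField (embAt (q : ℕ) L g) := by
  apply IntermediateField.adjoin.mono
  rintro _ ⟨x, rfl⟩
  exact ⟨⟨x, hKL x.2⟩, rfl⟩

/-- non-split places: the decomposition group is not contained in `H` -/
lemma exists_of_nonSplit {p : ℕ} (hp : p.Prime) [NumberField K] (hKL : K ≤ L)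
    [NumberField (extendScalars hKL)] [IsGalois K (extendScalars hKL)]
    (hfr : finrank K (extendScalars hKL) = p)
    (hv : H82.NonSplit (extendScalars hKL) (placeOf (embAt (q : ℕ) K g))) :
    ∃ s : primeLocalGaloisGroup q, rloc q g s ∈ K.fixingSubgroup ∧
      rloc q g s ∉ L.fixingSubgroup := by
  by_contra hcon
  push Not at hcon
  have h1 : (embField (embAt (q : ℕ) K g)).fixingSubgroup ≤
      (embField (embAt (q : ℕ) L g)).fixingSubgroup := by
    rw [fixing_embField, fixing_embField]
    exact fun s hs => hcon s hs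
  have : IsGalois ℚ_[(q : ℕ)] (PadicAlgCl (q : ℕ)) := ⟨⟩
  have h2 : embField (embAt (q : ℕ) L g) ≤ embField (embAt (q : ℕ) K g) :=
    le_of_fixingSubgroup_le h1
  let _ : Algebra K (embField (embAt (q : ℕ) K g)) := (toEmbField (embAt (q : ℕ) K g)).toAlgebra
  have hLM := locModel_embField (embAt (q : ℕ) K g)
  have : CompleteSpace (embField (embAt (q : ℕ) K g)) :=
    completeSpace_intermediateField _
  let τ : (extendScalars hKL) →+* embField (embAt (q : ℕ) K g) :=
    (embAt (q : ℕ) L g : L →+* PadicAlgCl (q : ℕ)).codRestrict (embField (embAt (q : ℕ) K g))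
      (fun x => h2 (apply_mem_embField _ x))
  have h3 := H65.ncard_above_of_embedding (v := placeOf (embAt (q : ℕ) K g)) hfr hLM τ
    (fun x => rfl)
  rw [H82.NonSplit, h3] at hv
  exact hp.one_lt.ne' hv

/-- (BR1) in group form. -/
lemma mem_locNorm_iff_group {p : ℕ} (hp : p.Prime) [NumberField K] (hKL : K ≤ L)
    [NumberField (extendScalars hKL)] {ζ : Qb} (hζ : IsPrimitiveRoot ζ p) (hζK : ζ ∈ K)
    (hn : (L.fixingSubgroup.subgroupOf K.fixingSubgroup).Normal)
    (hi : L.fixingSubgroup.relIndex K.fixingSubgroup = p)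
    {s : primeLocalGaloisGroup q} (hsK : rloc q g s ∈ K.fixingSubgroup)
    (hsL : rloc q g s ∉ L.fixingSubgroup) (x : Kˣ) :
    (∀ m, x ∈ H82.locNorm (extendScalars hKL) (placeOf (embAt (q : ℕ) K g)) m) ↔
      ∃ b : Additive (PadicAlgCl (q : ℕ))ˣ,
        (∀ h : primeLocalGaloisGroup q, rloc q g h ∈ L.fixingSubgroup → h • b = b) ∧
        padicEmbedding (q : ℕ) (g (x : K)) = uval (LevelFam.nrm s p b) := by
  have : IsGalois ℚ_[(q : ℕ)] (PadicAlgCl (q : ℕ)) := ⟨⟩
  have hGal : IsGalois K (extendScalars hKL) := isGalois_ext hKL hn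
  have hfr : finrank K (extendScalars hKL) = p := by rw [finrank_ext, hi]
  let E := embField (embAt (q : ℕ) K g)
  let F := embField (embAt (q : ℕ) L g)
  have hEF : E ≤ F := embField_mono q g hKL
  have hsE : s ∈ E.fixingSubgroup := by
    show s ∈ (embField (embAt (q : ℕ) K g)).fixingSubgroup
    rw [fixing_embField]; exact hsK
  have hsF : s ∉ F.fixingSubgroup := by
    show s ∉ (embField (embAt (q : ℕ) L g)).fixingSubgroup
    rw [fixing_embField]; exact hsL
  have hleU : L.fixingSubgroup ≤ K.fixingSubgroup := fixingSubgroup_antitone hKL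
  have hnF : (F.fixingSubgroup.subgroupOf E.fixingSubgroup).Normal := by
    have := normal_comap_subgroupOf (rloc q g) hn
    rw [← fixing_embField, ← fixing_embField] at this
    exact this
  have hiF : F.fixingSubgroup.relIndex E.fixingSubgroup = p := by
    have := relIndex_comap_eq (rloc q g) hp hn hi hsK hsL
    rw [← fixing_embField, ← fixing_embField] at this
    exact this
  have hfrF : finrank E (extendScalars hEF) = p := by rw [finrank_ext, hiF]
  have hζ' : IsPrimitiveRoot (⟨ζ, hζK⟩ : K) p :=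
    IsPrimitiveRoot.of_map_of_injective (f := algebraMap K Qb) hζ (algebraMap K Qb).injective
  obtain ⟨β, b₀, hβ, hgen⟩ := H65.exists_kummer_generator hp hfr hζ'
  let _ : Algebra K E := (toEmbField (embAt (q : ℕ) K g)).toAlgebra
  have hLM : H65.LocModel ((placeOf (embAt (q : ℕ) K g)).valuation K) E :=
    locModel_embField (embAt (q : ℕ) K g)
  have : CompleteSpace E := completeSpace_intermediateField _
  let β' : L := β
  let γ : extendScalars hEF := ⟨embAt (q : ℕ) L g β', apply_mem_embField _ _⟩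
  have hγ : γ ^ p = algebraMap E (extendScalars hEF) (algebraMap K E b₀) := by
    apply Subtype.ext
    show (embAt (q : ℕ) L g β') ^ p = embAt (q : ℕ) K g b₀
    rw [← map_pow]
    have h1 : (β' ^ p : L) = ⟨(b₀ : Qb), hKL b₀.2⟩ := Subtype.ext (congrArg Subtype.val hβ)
    rw [h1]
    rfl
  have hγE : ∀ e : E, algebraMap E (extendScalars hEF) e ≠ γ := by
    intro e he
    apply hsL
    have h1 : (e : PadicAlgCl (q : ℕ)) = embAt (q : ℕ) L g β' := congrArg Subtype.val he
    have h2 : s • (e : PadicAlgCl (q : ℕ)) = e := by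
      rw [mem_fixing_loc_iff] at hsE
      exact hsE e e.2
    have h3 : rloc q g s (β' : Qb) = β' := by
      apply (embComp (q : ℕ) g).injective
      rw [embComp_rloc]
      have h4 : embComp (q : ℕ) g (β' : Qb) = (e : PadicAlgCl (q : ℕ)) := h1.symm
      rw [h4]
      exact h2
    -- `rloc s` fixes `K` and `β`, hence `L`
    let σ : Qb ≃ₐ[K] Qb := fixingSubgroupEquiv K ⟨rloc q g s, hsK⟩
    have h5 : (K⟮(β' : Qb)⟯ : IntermediateField K Qb) = extendScalars hKL := by
      have h6 := congrArg (IntermediateField.lift) hgen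
      rw [IntermediateField.lift_adjoin_simple, IntermediateField.lift_top] at h6
      exact h6
    rw [IntermediateField.mem_fixingSubgroup_iff]
    intro y hy
    have hy' : y ∈ (K⟮(β' : Qb)⟯ : IntermediateField K Qb) := by rw [h5]; exact hy
    have h7 : (K⟮(β' : Qb)⟯ : IntermediateField K Qb) ≤
        fixedField (Subgroup.zpowers σ) := by
      rw [adjoin_simple_le_iff, mem_fixedField_iff]
      intro f hf
      obtain ⟨n, rfl⟩ := Subgroup.mem_zpowers_iff.1 hf
      have h8 : σ ∈ MulAction.stabilizer (Qb ≃ₐ[K] Qb) (β' : Qb) := h3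
      exact (MulAction.stabilizer (Qb ≃ₐ[K] Qb) (β' : Qb)).zpow_mem h8 n
    have h9 := (mem_fixedField_iff _ _).1 (h7 hy') σ (Subgroup.mem_zpowers σ)
    exact h9
  have hgenF : E⟮γ⟯ = ⊤ := adjoin_eq_top_of_prime hp hfrF hγE
  have hpE : (p : E) ≠ 0 := by
    have : CharZero E := inferInstance
    exact_mod_cast hp.ne_zero
  rw [H65.forall_mem_locNorm_iff_field hp hfr hβ hgen hfrF hγ hgenF hLM hpE x]
  have hnorm : ∀ z : extendScalars hEF, ((Algebra.norm E z : E) : PadicAlgCl (q : ℕ)) =
      ∏ i ∈ Finset.range p, (s ^ i) • (z : PadicAlgCl (q : ℕ)) := fun z =>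
    norm_ext_eq_prod hEF hp hnF hiF hsE hsF z
  have hx0 : padicEmbedding (q : ℕ) (g (x : K)) ≠ 0 := by
    rw [map_ne_zero, map_ne_zero]
    exact fun h => x.ne_zero (Subtype.ext h)
  constructor
  · rintro ⟨z, hz⟩
    have hz' := congrArg (fun e : E => (e : PadicAlgCl (q : ℕ))) hz
    have hz'' : ((Algebra.norm E z : E) : PadicAlgCl (q : ℕ)) =
        padicEmbedding (q : ℕ) (g (x : K)) := hz'
    have hz0 : (z : PadicAlgCl (q : ℕ)) ≠ 0 := by
      intro h0
      rw [hnorm] at hz''
      apply hx0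
      rw [← hz'', h0]
      refine Finset.prod_eq_zero (Finset.mem_range.2 hp.pos) ?_
      exact smul_zero _
    refine ⟨umk _ hz0, fun h hh => ?_, ?_⟩
    · apply uval_injective
      rw [uval_smul, uval_umk]
      have h1 : h ∈ F.fixingSubgroup := by
        show h ∈ (embField (embAt (q : ℕ) L g)).fixingSubgroup
        rw [fixing_embField]; exact hh
      rw [mem_fixing_loc_iff] at h1
      exact h1 _ z.2
    · rw [nrm_uval, uval_umk, ← hnorm, hz'']
  · rintro ⟨b, hb, hbx⟩
    have hbF : uval b ∈ F := by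
      apply mem_of_fixed
      intro h hh
      have h1 : rloc q g h ∈ L.fixingSubgroup := by
        have : h ∈ (embField (embAt (q : ℕ) L g)).fixingSubgroup := hh
        rw [fixing_embField] at this; exact this
      exact congrArg uval (hb h h1)
    refine ⟨⟨uval b, hbF⟩, ?_⟩
    apply Subtype.ext
    rw [hnorm]
    show ∏ i ∈ Finset.range p, (s ^ i) • (uval b) = padicEmbedding (q : ℕ) (g (x : K))
    rw [hbx, nrm_uval]

end pair

/-- **The Hasse norm theorem in group form.** -/
theorem hasseNorm_arith {p : ℕ} (hp : p.Prime) (hHN : HasseNormStatement p) {U₀ : Subgroup GQ}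
    {ζ : Qb} (hζ : IsPrimitiveRoot ζ p) (hU₀ : ∀ u ∈ U₀, u ζ = ζ) : arithLoc.HasseNorm p U₀ := by
  intro U H hU hUo hHo hle hn hi x hx hloc σ hσU hσH
  obtain ⟨K, hKfin, rfl⟩ := (op_krullLevels_iff U).1 hUo
  obtain ⟨L, hLfin, rfl⟩ := (op_krullLevels_iff H).1 hHo
  have hKL : K ≤ L := le_of_fixingSubgroup_le hle
  have hζK : ζ ∈ K := mem_of_fixed fun s hs => hU₀ s (hU hs)
  have hxK : uval x ∈ K := mem_of_fixed fun s hs => by
    have := congrArg uval (hx s hs)
    rwa [uval_smul] at this
  have hNK : NumberField K := numberField_of_finite K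
  have hNL : NumberField (extendScalars hKL) := numberField_of_finite L
  have hGal : IsGalois K (extendScalars hKL) := isGalois_ext hKL hn
  have hfr : finrank K (extendScalars hKL) = p := by rw [finrank_ext, hi]
  have hζ' : IsPrimitiveRoot (⟨ζ, hζK⟩ : K) p :=
    IsPrimitiveRoot.of_map_of_injective (f := algebraMap K Qb) hζ (algebraMap K Qb).injective
  let x' : Kˣ := Units.mk0 ⟨uval x, hxK⟩ (fun h => uval_ne_zero x (congrArg Subtype.val h))
  have key : ∀ v : HeightOneSpectrum (𝓞 K), H82.NonSplit (extendScalars hKL) v →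
      ∀ m, x' ∈ H82.locNorm (extendScalars hKL) v m := by
    intro v hv
    obtain ⟨q, hq⟩ := exists_prime_mem v
    obtain ⟨g, hg⟩ := exists_placeOf_embAt_eq (q : ℕ) K v hq
    subst hg
    have hns := exists_of_nonSplit q g hp hKL hfr hv
    obtain ⟨s, hsK, hsL, b, hb, hbx⟩ := hloc (q, g) hns
    rw [mem_locNorm_iff_group q g hp hKL hζ hζK hn hi hsK hsL]
    exact ⟨b, hb, congrArg uval hbx⟩
  obtain ⟨y, hy⟩ := hHN K (extendScalars hKL) hfr ⟨_, hζ'⟩ x' key
  have hy0 : ((y : extendScalars hKL) : Qb) ≠ 0 := fun h => y.ne_zero (Subtype.ext h)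
  refine ⟨umk _ hy0, fun h hh => ?_, ?_⟩
  · apply uval_injective
    rw [uval_smul, uval_umk]
    rw [IntermediateField.mem_fixingSubgroup_iff] at hh
    exact hh _ (y : extendScalars hKL).2
  · apply uval_injective
    rw [nrm_uval, uval_umk]
    have h1 := norm_ext_eq_prod hKL hp hn hi hσU hσH (y : extendScalars hKL)
    have h2 : Algebra.norm K (y : extendScalars hKL) = ⟨uval x, hxK⟩ := congrArg Units.val hy
    rw [h2] at h1
    exact h1

end Fermat.Agent.H91
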