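import Mathlib
import Fermat.Agent.H54CodFam
import Fermat.Agent.H54CodDiv
import Fermat.Agent.H54Levels
import Fermat.Agent.H91Arith
import Fermat.Agent.H82J8

/-!
# (C3), part 3: the count
-/

set_option autoImplicit false
set_option linter.unusedSectionVars false
set_option maxSynthPendingDepth 3

namespace Fermat.Agent.H54

open NumberField IsDedekindDomain Fermat.Agent.H63 Fermat.Agent.H64 Fermat.Agent.H55
  Fermat.Agent.H91 Fermat.Agent.H47 ExtCitation IntermediateField
open scoped Pointwise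

local notation "Ω" => AlgebraicClosure ℚ
local notation "Γ" => (AlgebraicClosure ℚ ≃ₐ[ℚ] AlgebraicClosure ℚ)

/-! ### unramified places -/

section unram

variable {S : Finset Nat.Primes} {K : IntermediateField ℚ Ω} [NumberField K]
  {E : Type} [Field E] [NumberField E] [Algebra E Ω] [Algebra K E] [IsScalarTower K E Ω]
  [IsGalois K E] [IsGalois ℚ E]

/-- if inertia outside `S` acts trivially on `E`, the extension `E / K` is unramified outside
`S`. -/
theorem ramificationIdx'_eq_one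
    (hE : ∀ q : Nat.Primes, q ∉ S → ∀ A : ValuationSubring Ω, A.LiesOverPrime (q : ℕ) →
      ∀ σ ∈ A.inertiaSubgroupIn ℚ, ∀ x : E, σ (algebraMap E Ω x) = algebraMap E Ω x)
    {v : HeightOneSpectrum (𝓞 K)} (hv : v ∉ placesS S K) {w : HeightOneSpectrum (𝓞 E)}
    (hw : w ∈ H82.above E v) : v.asIdeal.ramificationIdx' w.asIdeal = 1 := by
  obtain ⟨ℓ, hℓ, A, hA, rfl, hmem⟩ := exists_placeBelow_eq v
  have hℓS : (⟨ℓ, hℓ⟩ : Nat.Primes) ∉ S := fun h => hv ⟨_, h, hmem⟩
  obtain ⟨x, hx⟩ := exists_ordHom_eq_int (placeBelow K hℓ hA) 1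
  have hw' : placeBelow E hℓ hA ∈ H82.above E (placeBelow K hℓ hA) := by
    have htower : (algebraMap (𝓞 E) (𝓞 Ω)).comp (algebraMap (𝓞 K) (𝓞 E)) =
        algebraMap (𝓞 K) (𝓞 Ω) := by
      ext a
      exact (IsScalarTower.algebraMap_apply K E Ω (a : K)).symm
    show (placeBelow E hℓ hA).asIdeal.under (𝓞 K) = _
    rw [Ideal.under_def, placeBelow_asIdeal, placeBelow_asIdeal, Ideal.comap_comap, htower]
  obtain ⟨σ, rfl⟩ := exists_smulPlace_eq hw' hw
  have h1 := ordHom_algebraMap hw x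
  rw [ordHom_smulPlace_algebraMap, hx, mul_one,
    ordHom_placeBelow_tower K E hℓ hA (hE ⟨ℓ, hℓ⟩ hℓS A hA) x, hx] at h1
  exact_mod_cast h1.symm

theorem valuation_natCast_eq_one {p : ℕ} (hp : p.Prime)
    (hpS : ∀ q : Nat.Primes, (q : ℕ) = p → q ∈ S) {v : HeightOneSpectrum (𝓞 K)}
    (hv : v ∉ placesS S K) : v.valuation K (p : K) = 1 := by
  have h1 : ¬ v.valuation K (algebraMap (𝓞 K) K (p : 𝓞 K)) < 1 := by
    rw [v.valuation_lt_one_iff_mem]
    exact fun h => hv ⟨⟨p, hp⟩, hpS _ rfl, h⟩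
  have h2 := le_antisymm (v.valuation_le_one (K := K) (p : 𝓞 K)) (not_lt.1 h1)
  have h3 : algebraMap (𝓞 K) K (p : 𝓞 K) = (p : K) := map_natCast (algebraMap (𝓞 K) K) p
  rw [← h3]
  exact h2

/-- local norms outside `S` have order divisible by `p` at the nonsplit places -/
theorem dvd_ordHom_of_mem_locNorm {p : ℕ} [hp : Fact p.Prime]
    (hpS : ∀ q : Nat.Primes, (q : ℕ) = p → q ∈ S) {ζ : K} (hζ : IsPrimitiveRoot ζ p)
    (hdeg : Module.finrank K E = p)
    (hE : ∀ q : Nat.Primes, q ∉ S → ∀ A : ValuationSubring Ω, A.LiesOverPrime (q : ℕ) →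
      ∀ σ ∈ A.inertiaSubgroupIn ℚ, ∀ x : E, σ (algebraMap E Ω x) = algebraMap E Ω x)
    {v : HeightOneSpectrum (𝓞 K)} (hv : v ∉ placesS S K) (hns : H82.NonSplit E v) {a : Kˣ}
    (ha : a ∈ H82.locNorm E v 1) : (p : ℤ) ∣ ordHom v (Additive.ofMul a) := by
  rw [H82.locNorm_eq_of_unramified hζ hdeg (valuation_natCast_eq_one hp.out hpS hv) hns
    (fun w hw => ramificationIdx'_eq_one hE hv hw), Subgroup.mem_sup] at ha
  obtain ⟨_, ⟨b, rfl⟩, c, hc, rfl⟩ := ha
  rw [H82.mem_congr_zero] at hc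
  rw [ofMul_mul, map_add, (ordHom_eq_zero_iff v c).2 hc, add_zero, powMonoidHom_apply, ofMul_pow,
    map_nsmul, nsmul_eq_mul]
  exact dvd_mul_right _ _

end unram

/-! ### the count -/

section count

variable {S : Finset Nat.Primes} {K : IntermediateField ℚ Ω} [NumberField K]
  {E : Type} [Field E] [NumberField E] [Algebra E Ω] [Algebra K E] [IsScalarTower K E Ω]
  [IsGalois K E] [IsGalois ℚ E]

theorem codim_of {p : ℕ} [hp : Fact p.Prime] (hp2 : p ≠ 2)
    (hpS : ∀ q : Nat.Primes, (q : ℕ) = p → q ∈ S) {ζ : Ω} (hζ : IsPrimitiveRoot ζ p)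
    (hζK : ζ ∈ K) (hK : K.IsUnramifiedOutside S) (hdeg : Module.finrank K E = p)
    (hE : ∀ q : Nat.Primes, q ∉ S → ∀ A : ValuationSubring Ω, A.LiesOverPrime (q : ℕ) →
      ∀ σ ∈ A.inertiaSubgroupIn ℚ, ∀ x : E, σ (algebraMap E Ω x) = algebraMap E Ω x)
    {χ : K.fixingSubgroup →* Multiplicative (ZMod p)} (hsurj : Function.Surjective χ)
    (hcut : Cuts E χ) (hχ : ((ramLevels S).onSub K.fixingSubgroup).op χ.ker)
    (hns : ∀ v ∈ placesS S K, H82.NonSplit E v)
    (hloc : ∀ (a : Kˣ) (f : K.fixingSubgroup × K.fixingSubgroup → ZMod p)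
      (h : CRel S χ hζ a f),
      H2π ((ramLevels S).onSub K.fixingSubgroup)
        (Representation.trivial (ZMod p) K.fixingSubgroup (ZMod p))
        ⟨f, h.mem_Z2 hζK hK hχ⟩ ∈ (DS S).ShaU2 (ZMod p) K.fixingSubgroup →
      ∀ v ∈ placesS S K, ∀ m, a ∈ H82.locNorm E v m)
    (hfin : Module.Finite (ZMod p) (H2 ((ramLevels S).onSub K.fixingSubgroup)
      (Representation.trivial (ZMod p) K.fixingSubgroup (ZMod p)))) :
    (DS S).nPlaces K.fixingSubgroup +
      Module.finrank (ZMod p) ((DS S).ShaU2 (ZMod p) K.fixingSubgroup) ≤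
      Module.finrank (ZMod p) (H2 ((ramLevels S).onSub K.fixingSubgroup)
        (Representation.trivial (ZMod p) K.fixingSubgroup (ZMod p))) + 1 := by
  classical
  have hζ' : IsPrimitiveRoot (⟨ζ, hζK⟩ : K) p :=
    IsPrimitiveRoot.of_map_of_injective (f := algebraMap K Ω) hζ (algebraMap K Ω).injective
  have hTfin : (placesS S K).Finite := finite_placesS
  set T : Finset (HeightOneSpectrum (𝓞 K)) := hTfin.toFinset with hT
  have hmemT : ∀ v, v ∈ T ↔ v ∈ placesS S K := fun v => hTfin.mem_toFinset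
  set N : Subgroup Kˣ := H82.normOutside E (placesS S K) with hN
  set M : Subgroup Kˣ := ⨅ v ∈ placesS S K, ⨅ m, H82.locNorm E v m with hM
  have hMT : M = ⨅ v ∈ T, ⨅ m, H82.locNorm E v m := by
    rw [hM]
    simp only [hmemT]
  have hidxM : M.index = p ^ T.card := by
    rw [hMT]
    exact H82.index_iInf_locNorm hζ' E hdeg T (fun v hv => hns v ((hmemT v).1 hv))
  have hidx : (N ⊔ M).index ∣ p := H82.index_normOutside_sup hζ' E hp2 hdeg hTfin
  have hrel : p ^ (T.card - 1) ≤ M.relIndex N := by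
    have h1 : M.relIndex (N ⊔ M) * (N ⊔ M).index = M.index :=
      Subgroup.relIndex_mul_index le_sup_right
    have h2 : M.relIndex (N ⊔ M) = M.relIndex N := Subgroup.relIndex_sup_right _ _
    rw [h2, hidxM] at h1
    have h3 : (N ⊔ M).index ≤ p := Nat.le_of_dvd hp.out.pos hidx
    have h4 : p ^ T.card ≤ M.relIndex N * p := by
      rw [← h1]
      exact Nat.mul_le_mul_left _ h3
    rcases Nat.eq_zero_or_pos T.card with h5 | h5
    · rw [h5]
      have h6 : M.relIndex N ≠ 0 := by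
        intro h0
        rw [h0, zero_mul] at h1
        exact pow_ne_zero _ hp.out.ne_zero h1.symm
      exact Nat.one_le_iff_ne_zero.2 h6
    · have h6 : p ^ T.card = p ^ (T.card - 1) * p := by
        rw [← pow_succ, Nat.sub_add_cancel h5]
      rw [h6] at h4
      exact Nat.le_of_mul_le_mul_right h4 hp.out.pos
  -- the map
  have hex : ∀ a : N, ∃ f, CRel S χ hζ (a : Kˣ) f := by
    intro a
    refine exists_cRel hpS hζ hζK hK hE hχ hcut hsurj a fun v hv hnsv => ?_
    exact dvd_ordHom_of_mem_locNorm hpS hζ' hdeg hE hv hnsv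
      ((H82.mem_normOutside E).1 a.2 v hv hnsv 1)
  choose f hf using hex
  let H := H2 ((ramLevels S).onSub K.fixingSubgroup)
    (Representation.trivial (ZMod p) K.fixingSubgroup (ZMod p))
  let Sh : Submodule (ZMod p) H := (DS S).ShaU2 (ZMod p) K.fixingSubgroup
  let F : N → H ⧸ Sh := fun a => Submodule.Quotient.mk
    (H2π ((ramLevels S).onSub K.fixingSubgroup)
      (Representation.trivial (ZMod p) K.fixingSubgroup (ZMod p))
      ⟨f a, (hf a).mem_Z2 hζK hK hχ⟩)
  have hF : ∀ a b : N, F a = F b → (a : Kˣ) / b ∈ M := by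
    intro a b hab
    rw [Submodule.Quotient.eq, ← map_sub] at hab
    have h1 := hloc _ _ ((hf a).sub (hf b)) hab
    rw [hM]
    simp only [Subgroup.mem_iInf]
    exact h1
  have hfinH : Finite H := Module.finite_of_finite (ZMod p)
  have hfinQ : Finite (H ⧸ Sh) := Finite.of_surjective _ (Submodule.mkQ_surjective Sh)
  have hcard : M.relIndex N ≤ Nat.card (H ⧸ Sh) := by
    rw [Subgroup.relIndex, Subgroup.index]
    refine Nat.card_le_card_of_injective (fun c : N ⧸ M.subgroupOf N => F c.out) ?_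
    intro c c' hcc
    have h1 := hF _ _ hcc
    rw [← QuotientGroup.out_eq' c, ← QuotientGroup.out_eq' c', eq_comm, QuotientGroup.eq]
    rw [Subgroup.mem_subgroupOf, Subgroup.coe_mul, Subgroup.coe_inv, mul_comm, ← div_eq_mul_inv]
    exact h1
  have hcardQ : Nat.card (H ⧸ Sh) = p ^ Module.finrank (ZMod p) (H ⧸ Sh) := by
    have := Module.natCard_eq_pow_finrank (K := ZMod p) (V := H ⧸ Sh)
    rwa [Nat.card_zmod] at this
  rw [hcardQ] at hcard
  have h1 : T.card - 1 ≤ Module.finrank (ZMod p) (H ⧸ Sh) :=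
    (Nat.pow_le_pow_iff_right hp.out.one_lt).1 (hrel.trans hcard)
  have h2 : Module.finrank (ZMod p) (H ⧸ Sh) + Module.finrank (ZMod p) Sh =
      Module.finrank (ZMod p) H := Submodule.finrank_quotient_add_finrank Sh
  have h3 : (DS S).nPlaces K.fixingSubgroup = T.card := by
    rw [nPlaces_eq, hT]
    exact Set.ncard_eq_toFinset_card _ hTfin
  rw [h3]
  show T.card + Module.finrank (ZMod p) Sh ≤ Module.finrank (ZMod p) H + 1
  omega

end count

end Fermat.Agent.H54
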