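import Mathlib
import Fermat.Agent.H54Levels
import Fermat.Agent.H91Hasse
import Fermat.Agent.H65Split
import Fermat.Agent.H82Hasse
import Fermat.Agent.H63Cyclo

set_option autoImplicit false
set_option maxSynthPendingDepth 3

open scoped NNReal IntermediateField Topology Pointwise
open IsDedekindDomain NumberField ExtCitation
open Fermat.Agent.H55 Module

namespace Fermat.Agent.H54

local notation "Qb" => AlgebraicClosure ℚ
local notation "GQ" => (AlgebraicClosure ℚ ≃ₐ[ℚ] AlgebraicClosure ℚ)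

theorem numberField_of_finiteDimensional (K : IntermediateField ℚ Qb)
    (h : FiniteDimensional ℚ K) : NumberField K := by
  refine @NumberField.mk K _ inferInstance ?_
  convert h

theorem finrank_eq_index (K : IntermediateField ℚ Qb) :
    K.fixingSubgroup.index = finrank ℚ K := by
  have hg : IsGalois ℚ Qb := ⟨⟩
  have h := IntermediateField.finrank_eq_fixingSubgroup_index (F := ℚ) Qb K
  rw [← h]

section Norm

variable {p : ℕ} [hp : Fact p.Prime] {K : IntermediateField ℚ Qb}
  (L : IntermediateField K Qb)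

/-- The Galois group of `Qb` over `L` as subgroup of `GQ`. -/
noncomputable def subK (L : IntermediateField K Qb) : Subgroup GQ :=
  (L.restrictScalars ℚ).fixingSubgroup

theorem mem_subK {L : IntermediateField K Qb} {σ : GQ} : σ ∈ subK L ↔ ∀ y ∈ L, σ y = y :=
  IntermediateField.mem_fixingSubgroup_iff _ _

theorem subK_le : subK L ≤ K.fixingSubgroup := by
  intro σ hσ
  rw [IntermediateField.mem_fixingSubgroup_iff]
  intro x hx
  exact mem_subK.mp hσ x (L.algebraMap_mem ⟨x, hx⟩)

/-- an element of `Gal(Qb/K)` as a `K`-algebra automorphism -/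
noncomputable def toAutK (σ : GQ) (hσ : σ ∈ K.fixingSubgroup) : Qb ≃ₐ[K] Qb :=
  { σ with
    commutes' := fun x => (IntermediateField.mem_fixingSubgroup_iff _ _).mp hσ x x.2 }

@[simp] theorem toAutK_apply (σ : GQ) (hσ : σ ∈ K.fixingSubgroup) (x : Qb) :
    toAutK σ hσ x = σ x := rfl

theorem norm_eq_prod_pow [FiniteDimensional K L]
    (hn : ((subK L).subgroupOf K.fixingSubgroup).Normal)
    (hi : (subK L).relIndex K.fixingSubgroup = p) {σ : GQ} (hσU : σ ∈ K.fixingSubgroup)
    (hσH : σ ∉ subK L) (y : L) :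
    algebraMap K Qb (Algebra.norm K y) = ∏ k ∈ Finset.range p, (σ ^ k) (y : Qb) := by
  classical
  have hi' : ((subK L).subgroupOf K.fixingSubgroup).index = p := hi
  have hσ' : (⟨σ, hσU⟩ : K.fixingSubgroup) ∉ (subK L).subgroupOf K.fixingSubgroup := hσH
  rw [Algebra.norm_eq_prod_embeddings K Qb y]
  let f : Fin p → (L →ₐ[K] Qb) := fun k =>
    ((toAutK (σ ^ (k : ℕ)) (K.fixingSubgroup.pow_mem hσU k) : Qb ≃ₐ[K] Qb) : Qb →ₐ[K] Qb).comp L.val
  have hf : ∀ k y, f k y = (σ ^ (k : ℕ)) (y : Qb) := fun k y => rfl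
  have hinj : Function.Injective f := by
    have key : ∀ k k' : ℕ, k ≤ k' → k' < p → (∀ y : L, (σ ^ k) (y : Qb) = (σ ^ k') (y : Qb)) →
        k = k' := by
      intro k k' hle hlt h
      have h1 : σ ^ (k' - k) ∈ subK L := by
        rw [mem_subK]
        intro y hy
        have h2 := h ⟨y, hy⟩
        have h3 : (σ ^ k') y = (σ ^ k) ((σ ^ (k' - k)) y) := by
          rw [← AlgEquiv.mul_apply, ← pow_add, Nat.add_sub_cancel' hle]
        rw [h3] at h2
        exact ((σ ^ k).injective h2).symm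
      have h2 : (⟨σ, hσU⟩ : K.fixingSubgroup) ^ (k' - k) ∈
          (subK L).subgroupOf K.fixingSubgroup := by
        rw [Subgroup.mem_subgroupOf]
        exact h1
      rw [H91.LevelFam.pow_mem_iff_of_index hi' hσ'] at h2
      have h3 := Nat.eq_zero_of_dvd_of_lt h2 (lt_of_le_of_lt (Nat.sub_le _ _) hlt)
      omega
    intro k k' h
    have h1 : ∀ y : L, (σ ^ (k : ℕ)) (y : Qb) = (σ ^ (k' : ℕ)) (y : Qb) := fun y => by
      rw [← hf, ← hf, h]
    rcases le_total (k : ℕ) k' with hle | hle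
    · exact Fin.ext (key _ _ hle k'.2 h1)
    · exact Fin.ext (key _ _ hle k.2 (fun y => (h1 y).symm)).symm
  have hsurj : Function.Surjective f := by
    intro φ
    have hnorm : Normal K Qb := Normal.tower_top_of_normal ℚ K Qb
    let τ₀ : Qb →ₐ[K] Qb := φ.liftNormal Qb
    let τ : Qb ≃ₐ[K] Qb := (Algebra.IsAlgebraic.algEquivEquivAlgHom K Qb).symm τ₀
    have hτ : ∀ y : L, τ (y : Qb) = φ y := fun y => φ.liftNormal_commutes Qb y
    have hτU : τ.restrictScalars ℚ ∈ K.fixingSubgroup := by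
      rw [IntermediateField.mem_fixingSubgroup_iff]
      intro x hx
      exact τ.commutes ⟨x, hx⟩
    obtain ⟨k, h, hh, hk⟩ := H91.LevelFam.gen_of_index hi' hσ' ⟨_, hτU⟩
    have hk' : τ.restrictScalars ℚ = σ ^ k * (h : GQ) := congrArg Subtype.val hk
    have hh' : (h : GQ) ∈ subK L := hh
    have hσp : σ ^ p ∈ subK L := by
      have := (H91.LevelFam.pow_mem_iff_of_index hi' hσ' p).mpr dvd_rfl
      exact this
    refine ⟨⟨k % p, Nat.mod_lt _ hp.out.pos⟩, ?_⟩
    apply AlgHom.ext
    intro y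
    rw [hf, ← hτ]
    have h1 : τ (y : Qb) = (τ.restrictScalars ℚ) (y : Qb) := rfl
    rw [h1, hk', AlgEquiv.mul_apply, mem_subK.mp hh' y y.2]
    have h2 : σ ^ k = σ ^ (k % p) * (σ ^ p) ^ (k / p) := by
      rw [← pow_mul, ← pow_add, Nat.mod_add_div]
    rw [h2, AlgEquiv.mul_apply, mem_subK.mp ((subK L).pow_mem hσp _) y y.2]
  rw [Finset.prod_range, ← Function.Bijective.prod_comp ⟨hinj, hsurj⟩ (fun φ : L →ₐ[K] Qb => φ y)]
  rfl

end Norm

section LocalNorm

variable {q : ℕ} [Fact q.Prime] {p : ℕ} [hp : Fact p.Prime] {K : IntermediateField ℚ Qb}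
  [NumberField K] (L : IntermediateField K Qb) [FiniteDimensional K L]

/-- The embedding `ι ∘ g` of `L`. -/
noncomputable def embAtL (q : ℕ) [Fact q.Prime] (L : IntermediateField K Qb) (g : GQ) :
    L →+* PadicAlgCl q :=
  (embComp q g).comp (algebraMap L Qb)

omit [NumberField K] [FiniteDimensional K L] in
@[simp] theorem embAtL_apply (g : GQ) (x : L) :
    embAtL q L g x = padicEmbedding q (g x) := rfl

/-- If `x ∈ K` is a norm from the local extension at `(q, g)` then it is a norm modulo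
`v^m` for all `m`. -/
theorem mem_locNorm_of_local_norm
    (hn : ((subK L).subgroupOf K.fixingSubgroup).Normal)
    (hi : (subK L).relIndex K.fixingSubgroup = p) (g : GQ)
    (s : PadicAlgCl q ≃ₐ[ℚ_[q]] PadicAlgCl q)
    (hsU : g⁻¹ * localGaloisToGlobal q s * g ∈ K.fixingSubgroup)
    (hsH : g⁻¹ * localGaloisToGlobal q s * g ∉ subK L) (b : PadicAlgCl q)
    (hb : ∀ h, g⁻¹ * localGaloisToGlobal q h * g ∈ subK L → h b = b)
    (x : Kˣ) (hx : padicEmbedding q (g (x : K)) = ∏ k ∈ Finset.range p, (s ^ k) b) (m : ℕ) :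
    x ∈ H82.locNorm L (placeOf (embAt q K g)) m := by
  classical
  set σ : GQ := g⁻¹ * localGaloisToGlobal q s * g with hσ
  -- `b` lies in the completion of `L`
  have hbE : b ∈ embField (embAtL q L g) := by
    apply mem_of_forall_fixingSubgroup
    intro h hh
    apply hb
    rw [mem_subK]
    intro y hy
    have h1 := (mem_fixingSubgroup_embField_iff _ _).mp hh ⟨y, hy⟩
    rw [embAtL_apply, ← padicEmbedding_localGaloisToGlobal] at h1
    have h2 := padicEmbedding_injective q h1
    rw [AlgEquiv.mul_apply, AlgEquiv.mul_apply, AlgEquiv.aut_inv, AlgEquiv.symm_apply_eq]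
    exact h2
  have hs : ∀ (k : ℕ) (y : L), (s ^ k) (embAtL q L g y) = padicEmbedding q (g ((σ ^ k) (y : Qb))) := by
    intro k y
    rw [embAtL_apply, ← padicEmbedding_localGaloisToGlobal, map_pow]
    have h1 : σ ^ k = g⁻¹ * (localGaloisToGlobal q s) ^ k * g := by
      rw [hσ]
      have := conj_pow (a := g⁻¹) (b := localGaloisToGlobal q s) (i := k)
      rwa [inv_inv] at this
    rw [h1, AlgEquiv.mul_apply, AlgEquiv.mul_apply, AlgEquiv.aut_inv, AlgEquiv.apply_symm_apply]
  have hnorm : ∀ y : L, ∏ k ∈ Finset.range p, (s ^ k) (embAtL q L g y) =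
      embAt q K g (Algebra.norm K y) := by
    intro y
    rw [Finset.prod_congr rfl (fun k _ => hs k y), ← map_prod, ← map_prod,
      ← norm_eq_prod_pow L hn hi hsU hsH y]
    rfl
  -- continuity
  have hx0 : embAt q K g (x : K) ≠ 0 := (map_ne_zero _).mpr x.ne_zero
  have hcont : Continuous (fun z : PadicAlgCl q => ∏ k ∈ Finset.range p, (s ^ k) z) := by
    refine continuous_finsetProd _ fun k _ => ?_
    have : Isometry (s ^ k) := by
      apply AddMonoidHomClass.isometry_of_norm
      intro z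
      exact norm_padicAlgCl_algEquiv (s ^ k) z
    exact this.continuous
  have hval : ∏ k ∈ Finset.range p, (s ^ k) b = embAt q K g (x : K) := hx.symm
  have hcont' : ContinuousAt
      (fun z : PadicAlgCl q => embAt q K g (x : K) / ∏ k ∈ Finset.range p, (s ^ k) z) b := by
    refine ContinuousAt.div continuousAt_const hcont.continuousAt ?_
    rw [hval]
    exact hx0
  obtain ⟨ε', hε', h'⟩ := exists_norm_lt_congr (embAt q K g) m
  rw [Metric.continuousAt_iff] at hcont'
  obtain ⟨δ, hδ, hcont'⟩ := hcont' ε' hε'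
  have hb0 : b ≠ 0 := by
    rintro rfl
    rw [Finset.prod_eq_zero (Finset.mem_range.mpr hp.out.pos) (map_zero (s ^ 0))] at hval
    exact hx0 hval.symm
  have hb1 : 0 < ‖b‖ := norm_pos_iff.mpr hb0
  obtain ⟨y, hy⟩ := exists_near (embAtL q L g) hbE (ε := min δ ‖b‖) (lt_min hδ hb1)
  have hy0 : y ≠ 0 := by
    rintro rfl
    rw [map_zero, sub_zero] at hy
    exact absurd (hy.trans_le (min_le_right _ _)) (lt_irrefl _)
  rw [H82.mem_locNorm]
  refine ⟨Units.mk0 y hy0, h' _ ?_⟩
  have h1 := @hcont' (embAtL q L g y) (by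
    rw [dist_eq_norm, norm_sub_rev]
    exact hy.trans_le (min_le_left _ _))
  simp only [hval, hnorm, div_self hx0, dist_eq_norm] at h1
  have h2 : embAt q K g ((x / Units.map (Algebra.norm K : L →* K) (Units.mk0 y hy0) : Kˣ) : K) =
      embAt q K g (x : K) / embAt q K g (Algebra.norm K y) := by
    rw [Units.val_div_eq_div_val, map_div₀]
    rfl
  rw [h2]
  exact h1

end LocalNorm

section Hasse

variable {p : ℕ} [hp : Fact p.Prime]

theorem isGalois_of_normal {K : IntermediateField ℚ Qb} (L : IntermediateField K Qb)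
    (hn : ((subK L).subgroupOf K.fixingSubgroup).Normal) : IsGalois K L := by
  have hgal : IsGalois K Qb := IsGalois.tower_top_of_isGalois ℚ K Qb
  rw [← InfiniteGalois.normal_iff_isGalois]
  constructor
  intro n hn' τ
  rw [IntermediateField.mem_fixingSubgroup_iff] at hn' ⊢
  have h1 : ∀ τ : Qb ≃ₐ[K] Qb, τ.restrictScalars ℚ ∈ K.fixingSubgroup := by
    intro τ
    rw [IntermediateField.mem_fixingSubgroup_iff]
    intro x hx
    exact τ.commutes ⟨x, hx⟩
  have h2 : (⟨n.restrictScalars ℚ, h1 n⟩ : K.fixingSubgroup) ∈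
      (subK L).subgroupOf K.fixingSubgroup := by
    rw [Subgroup.mem_subgroupOf, mem_subK]
    exact hn'
  have h3 := hn.conj_mem _ h2 ⟨τ.restrictScalars ℚ, h1 τ⟩
  rw [Subgroup.mem_subgroupOf, mem_subK] at h3
  intro y hy
  exact h3 y hy

theorem finrank_eq_relIndex {K : IntermediateField ℚ Qb} [NumberField K]
    (L : IntermediateField K Qb) [FiniteDimensional K L] :
    finrank K L = (subK L).relIndex K.fixingSubgroup := by
  have h1 := finrank_eq_index (L.restrictScalars ℚ)
  have h2 := finrank_eq_index K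
  have h3 := Subgroup.relIndex_mul_index (subK_le L)
  have h4 : finrank ℚ (L.restrictScalars ℚ) = finrank ℚ L := rfl
  have h5 : finrank ℚ K * finrank K L = finrank ℚ L := by
    have : IsScalarTower ℚ K L := IsScalarTower.of_algebraMap_eq' (Subsingleton.elim _ _)
    exact finrank_mul_finrank ℚ K L
  have h6 : 0 < finrank ℚ K := finrank_pos
  have h7 : (subK L).index = finrank ℚ L := by rw [← h4, ← h1]; rfl
  rw [h2, h7, ← h5, mul_comm] at h3
  exact (Nat.eq_of_mul_eq_mul_left h6 h3).symm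

theorem exists_prime_mem {K : Type*} [Field K] [NumberField K] (v : HeightOneSpectrum (𝓞 K)) :
    ∃ q : ℕ, q.Prime ∧ (q : 𝓞 K) ∈ v.asIdeal := by
  have h1 : v.asIdeal.IsPrime := v.isPrime
  have h2 : NeZero v.asIdeal := ⟨v.ne_bot⟩
  exact ⟨_, Nat.absNorm_under_prime v.asIdeal, Int.absNorm_under_mem v.asIdeal⟩

/-- If no element of the local group at `(q, g)` acts nontrivially on `L` then the place splits
in `L`. -/
theorem exists_of_nonSplit {q : ℕ} [Fact q.Prime] {K : IntermediateField ℚ Qb} [NumberField K]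
    (L : IntermediateField K Qb) [FiniteDimensional K L] [NumberField L] [IsGalois K L]
    (hdeg : finrank K L = p) (g : GQ) (h : H82.NonSplit L (placeOf (embAt q K g))) :
    ∃ s : PadicAlgCl q ≃ₐ[ℚ_[q]] PadicAlgCl q,
      g⁻¹ * localGaloisToGlobal q s * g ∈ K.fixingSubgroup ∧
      g⁻¹ * localGaloisToGlobal q s * g ∉ subK L := by
  by_contra hcon
  push Not at hcon
  set jK := embAt q K g with hjK
  have hle : ∀ y : L, embAtL q L g y ∈ embField jK := by
    intro y
    apply mem_of_forall_fixingSubgroup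
    intro τ hτ
    rw [hjK, ← dec_fixingSubgroup, mem_dec] at hτ
    have h1 := mem_subK.mp (hcon τ hτ) y y.2
    rw [AlgEquiv.mul_apply, AlgEquiv.mul_apply, AlgEquiv.aut_inv, AlgEquiv.symm_apply_eq] at h1
    rw [embAtL_apply, ← padicEmbedding_localGaloisToGlobal, h1]
  let _ : Algebra K (embField jK) := (toEmbField jK).toAlgebra
  have hloc := locModel_embField jK
  have hc := completeSpace_intermediateField (embField jK)
  let τ : L →+* embField jK := (embAtL q L g).codRestrict (embField jK) hle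
  have hτ : ∀ x : K, τ (algebraMap K L x) = algebraMap K (embField jK) x := fun x => rfl
  have h3 := H65.ncard_above_of_embedding hdeg hloc τ hτ
  rw [H82.NonSplit] at h
  rw [h] at h3
  exact hp.out.one_lt.ne h3

/-- **Hasse norm theorem** in Galois-theoretic form (fields). -/
theorem hasse_norm_fields (hp2 : p ≠ 2) {ζ : Qb} (hζ : IsPrimitiveRoot ζ p)
    {K : IntermediateField ℚ Qb} [NumberField K] (hζK : ζ ∈ K)
    (L : IntermediateField K Qb) [FiniteDimensional K L]
    (hn : ((subK L).subgroupOf K.fixingSubgroup).Normal)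
    (hi : (subK L).relIndex K.fixingSubgroup = p) (x : Kˣ)
    (hloc : ∀ (q : ℕ) [Fact q.Prime] (g : GQ),
      (∃ s, g⁻¹ * localGaloisToGlobal q s * g ∈ K.fixingSubgroup ∧
        g⁻¹ * localGaloisToGlobal q s * g ∉ subK L) →
      ∃ s, g⁻¹ * localGaloisToGlobal q s * g ∈ K.fixingSubgroup ∧
        g⁻¹ * localGaloisToGlobal q s * g ∉ subK L ∧
        ∃ b : PadicAlgCl q, (∀ h, g⁻¹ * localGaloisToGlobal q h * g ∈ subK L → h b = b) ∧
          padicEmbedding q (g (x : K)) = ∏ k ∈ Finset.range p, (s ^ k) b) :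
    ∃ y : Lˣ, Algebra.norm K (y : L) = x := by
  have hp' : p.Prime := hp.out
  have hζ' : IsPrimitiveRoot (⟨ζ, hζK⟩ : K) p :=
    IsPrimitiveRoot.of_map_of_injective (f := algebraMap K Qb) hζ (algebraMap K Qb).injective
  have hgal := isGalois_of_normal L hn
  have hdeg : finrank K L = p := by rw [finrank_eq_relIndex, hi]
  have hnf : NumberField L := by
    have : FiniteDimensional ℚ L := by
      have : IsScalarTower ℚ K L := IsScalarTower.of_algebraMap_eq' (Subsingleton.elim _ _)
      exact Module.Finite.trans K L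
    exact ⟨⟩
  obtain ⟨y, hy⟩ := H82.hasse_norm hζ' hp2 hdeg x (by
    intro v hv m
    obtain ⟨q, hq, hqv⟩ := exists_prime_mem v
    have : Fact q.Prime := ⟨hq⟩
    obtain ⟨g, rfl⟩ := exists_placeOf_embAt_eq q K v hqv
    obtain ⟨s, hsU, hsH, b, hb, hxb⟩ := hloc q g (exists_of_nonSplit L hdeg g hv)
    exact mem_locNorm_of_local_norm L hn hi g s hsU hsH b hb x hxb m)
  refine ⟨y, ?_⟩
  rw [← hy]
  rfl

/-- **Hasse norm theorem** in terms of subgroups of the absolute Galois group. -/
theorem hasse_norm_subgroups (hp2 : p ≠ 2) {U H : Subgroup GQ} (hU : krullLevels.op U)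
    (hUχ : U ≤ (cycloChar p).ker) (hH : krullLevels.op H) (hle : H ≤ U)
    (hn : (H.subgroupOf U).Normal) (hi : H.relIndex U = p) (x : Qb) (hx0 : x ≠ 0)
    (hx : ∀ u ∈ U, u x = x)
    (hloc : ∀ (q : ℕ) [Fact q.Prime] (g : GQ),
      (∃ s, g⁻¹ * localGaloisToGlobal q s * g ∈ U ∧
        g⁻¹ * localGaloisToGlobal q s * g ∉ H) →
      ∃ s, g⁻¹ * localGaloisToGlobal q s * g ∈ U ∧
        g⁻¹ * localGaloisToGlobal q s * g ∉ H ∧
        ∃ b : PadicAlgCl q, (∀ h, g⁻¹ * localGaloisToGlobal q h * g ∈ H → h b = b) ∧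
          padicEmbedding q (g x) = ∏ k ∈ Finset.range p, (s ^ k) b)
    (σ : GQ) (hσU : σ ∈ U) (hσH : σ ∉ H) :
    ∃ a : Qb, a ≠ 0 ∧ (∀ h ∈ H, h a = a) ∧ x = ∏ k ∈ Finset.range p, (σ ^ k) a := by
  have hgal : IsGalois ℚ Qb := ⟨⟩
  obtain ⟨K, hK, rfl⟩ := (op_krullLevels_iff U).mp hU
  obtain ⟨L₀, hL₀, rfl⟩ := (op_krullLevels_iff H).mp hH
  obtain ⟨ζ, -, hζ⟩ := H63.exists_primitiveRoot p
  have hζK : ζ.1 ∈ K := by
    rw [← InfiniteGalois.fixedField_fixingSubgroup K, IntermediateField.mem_fixedField_iff]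
    exact fun σ hσ => (H63.cycloChar_eq_one_iff hζ).mp (hUχ hσ)
  have hKL : K ≤ L₀ := by
    rw [← InfiniteGalois.fixedField_fixingSubgroup K,
      ← InfiniteGalois.fixedField_fixingSubgroup L₀]
    exact IntermediateField.fixedField_antitone hle
  have hnK : NumberField K := numberField_of_finiteDimensional K hK
  let L : IntermediateField K Qb := IntermediateField.extendScalars hKL
  have hL : subK L = L₀.fixingSubgroup := by
    have h1 : L.restrictScalars ℚ = L₀ := IntermediateField.extendScalars_restrictScalars hKL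
    rw [subK, h1]
  have hfL : FiniteDimensional K L := by
    have h1 : FiniteDimensional ℚ L := hL₀
    have : IsScalarTower ℚ K L := IsScalarTower.of_algebraMap_eq' (Subsingleton.elim _ _)
    exact FiniteDimensional.right ℚ K L
  have hxK : x ∈ K := by
    rw [← InfiniteGalois.fixedField_fixingSubgroup K, IntermediateField.mem_fixedField_iff]
    exact hx
  let x' : Kˣ := Units.mk0 ⟨x, hxK⟩ (fun h => hx0 (congrArg Subtype.val h))
  rw [← hL] at hn hi hσH hloc ⊢
  obtain ⟨y, hy⟩ := hasse_norm_fields hp2 hζ hζK L hn hi x' hloc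
  refine ⟨((y : L) : Qb), ?_, ?_, ?_⟩
  · intro h
    exact y.ne_zero (Subtype.ext h)
  · intro h hh
    exact mem_subK.mp hh _ (y : L).2
  · rw [← norm_eq_prod_pow L hn hi hσU hσH, hy]
    rfl

end Hasse

end Fermat.Agent.H54
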