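import Mathlib
import Fermat.Agent.H55Defs

set_option autoImplicit false
set_option maxSynthPendingDepth 3

/-!
# S55 : functoriality of level cohomology
-/

namespace Fermat.Agent.H55

open Module

section Functoriality

variable {k G H K A B C : Type*} [CommRing k] [Group G] [Group H] [Group K]
  [AddCommGroup A] [Module k A] [AddCommGroup B] [Module k B] [AddCommGroup C] [Module k C]

variable {𝓛 : Levels G} {𝓜 : Levels H} {𝓚 : Levels K}
  {ρA : Representation k G A} {ρB : Representation k H B} {ρC : Representation k K C}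

/-- two maps induced by the same data agree -/
lemma H1map_congr {f f' : H →* G} {hf : Levels.Cont 𝓜 𝓛 f} {hf' : Levels.Cont 𝓜 𝓛 f'}
    {φ φ' : A →ₗ[k] B} {hφ : ∀ h a, φ (ρA (f h) a) = ρB h (φ a)}
    {hφ' : ∀ h a, φ' (ρA (f' h) a) = ρB h (φ' a)} (h1 : f = f') (h2 : φ = φ') :
    H1map hf hφ = H1map hf' hφ' := by
  subst h1; subst h2; rfl

lemma H2map_congr {f f' : H →* G} {hf : Levels.Cont 𝓜 𝓛 f} {hf' : Levels.Cont 𝓜 𝓛 f'}
    {φ φ' : A →ₗ[k] B} {hφ : ∀ h a, φ (ρA (f h) a) = ρB h (φ a)}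
    {hφ' : ∀ h a, φ' (ρA (f' h) a) = ρB h (φ' a)} (h1 : f = f') (h2 : φ = φ') :
    H2map hf hφ = H2map hf' hφ' := by
  subst h1; subst h2; rfl

lemma H1_ind {P : H1 𝓛 ρA → Prop} (h : ∀ z : ↥(Z1 𝓛 ρA), P (H1π 𝓛 ρA z)) (x : H1 𝓛 ρA) : P x := by
  obtain ⟨z, rfl⟩ := H1π_surjective 𝓛 ρA x
  exact h z

lemma H2_ind {P : H2 𝓛 ρA → Prop} (h : ∀ z : ↥(Z2 𝓛 ρA), P (H2π 𝓛 ρA z)) (x : H2 𝓛 ρA) : P x := by
  obtain ⟨z, rfl⟩ := H2π_surjective 𝓛 ρA x
  exact h z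

/-- the composition of two induced maps -/
lemma H1map_comp {f : H →* G} {hf : Levels.Cont 𝓜 𝓛 f} {φ : A →ₗ[k] B}
    {hφ : ∀ h a, φ (ρA (f h) a) = ρB h (φ a)} {g : K →* H} {hg : Levels.Cont 𝓚 𝓜 g}
    {ψ : B →ₗ[k] C} {hψ : ∀ h b, ψ (ρB (g h) b) = ρC h (ψ b)} (x : H1 𝓛 ρA) :
    H1map hg hψ (H1map hf hφ x) =
      H1map (f := f.comp g) (φ := ψ ∘ₗ φ) (ρB := ρC) (hf.comp hg)
        (fun h a => by simp [← hψ, ← hφ]) x := by
  induction x using H1_ind with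
  | h z => rfl

lemma H2map_comp {f : H →* G} {hf : Levels.Cont 𝓜 𝓛 f} {φ : A →ₗ[k] B}
    {hφ : ∀ h a, φ (ρA (f h) a) = ρB h (φ a)} {g : K →* H} {hg : Levels.Cont 𝓚 𝓜 g}
    {ψ : B →ₗ[k] C} {hψ : ∀ h b, ψ (ρB (g h) b) = ρC h (ψ b)} (x : H2 𝓛 ρA) :
    H2map hg hψ (H2map hf hφ x) =
      H2map (f := f.comp g) (φ := ψ ∘ₗ φ) (ρB := ρC) (hf.comp hg)
        (fun h a => by simp [← hψ, ← hφ]) x := by
  induction x using H2_ind with
  | h z => rfl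

lemma H1map_id' {f : G →* G} {hf : Levels.Cont 𝓛 𝓛 f} {φ : A →ₗ[k] A}
    {hφ : ∀ h a, φ (ρA (f h) a) = ρA h (φ a)} (h1 : f = MonoidHom.id G) (h2 : φ = LinearMap.id)
    (x : H1 𝓛 ρA) : H1map hf hφ x = x := by
  subst h1; subst h2
  induction x using H1_ind with
  | h z => rfl

lemma H2map_id' {f : G →* G} {hf : Levels.Cont 𝓛 𝓛 f} {φ : A →ₗ[k] A}
    {hφ : ∀ h a, φ (ρA (f h) a) = ρA h (φ a)} (h1 : f = MonoidHom.id G) (h2 : φ = LinearMap.id)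
    (x : H2 𝓛 ρA) : H2map hf hφ x = x := by
  subst h1; subst h2
  induction x using H2_ind with
  | h z => rfl

/-- an isomorphism of groups matching the level structures, with an isomorphism of the
coefficients, induces an isomorphism on `H1` -/
noncomputable def H1equiv (e : H ≃* G) (h1 : Levels.Cont 𝓜 𝓛 (e : H →* G))
    (h2 : Levels.Cont 𝓛 𝓜 (e.symm : G →* H)) (φ : A ≃ₗ[k] B)
    (hφ : ∀ h a, φ (ρA (e h) a) = ρB h (φ a)) : H1 𝓛 ρA ≃ₗ[k] H1 𝓜 ρB :=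
  LinearEquiv.ofLinear
    (H1map (f := (e : H →* G)) (φ := (φ : A →ₗ[k] B)) h1 hφ)
    (H1map (f := (e.symm : G →* H)) (φ := (φ.symm : B →ₗ[k] A)) h2 (fun g b => by
      apply φ.injective
      have := hφ (e.symm g) (φ.symm b)
      simpa using this.symm))
    (LinearMap.ext fun x => by
      rw [LinearMap.comp_apply, H1map_comp]
      exact H1map_id' (by ext; simp) (by ext; simp) x)
    (LinearMap.ext fun x => by
      rw [LinearMap.comp_apply, H1map_comp]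
      exact H1map_id' (by ext; simp) (by ext; simp) x)

/-- an isomorphism of groups matching the level structures, with an isomorphism of the
coefficients, induces an isomorphism on `H2` -/
noncomputable def H2equiv (e : H ≃* G) (h1 : Levels.Cont 𝓜 𝓛 (e : H →* G))
    (h2 : Levels.Cont 𝓛 𝓜 (e.symm : G →* H)) (φ : A ≃ₗ[k] B)
    (hφ : ∀ h a, φ (ρA (e h) a) = ρB h (φ a)) : H2 𝓛 ρA ≃ₗ[k] H2 𝓜 ρB :=
  LinearEquiv.ofLinear
    (H2map (f := (e : H →* G)) (φ := (φ : A →ₗ[k] B)) h1 hφ)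
    (H2map (f := (e.symm : G →* H)) (φ := (φ.symm : B →ₗ[k] A)) h2 (fun g b => by
      apply φ.injective
      have := hφ (e.symm g) (φ.symm b)
      simpa using this.symm))
    (LinearMap.ext fun x => by
      rw [LinearMap.comp_apply, H2map_comp]
      exact H2map_id' (by ext; simp) (by ext; simp) x)
    (LinearMap.ext fun x => by
      rw [LinearMap.comp_apply, H2map_comp]
      exact H2map_id' (by ext; simp) (by ext; simp) x)

end Functoriality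

section Coeff

variable {k G A B C : Type*} [CommRing k] [Group G] [AddCommGroup A] [Module k A]
  [AddCommGroup B] [Module k B] [AddCommGroup C] [Module k C]
  {𝓛 : Levels G} {ρA : Representation k G A} {ρB : Representation k G B}
  {ρC : Representation k G C}

lemma Equivar.id (ρA : Representation k G A) : Equivar ρA ρA LinearMap.id := fun _ _ => rfl

lemma Equivar.comp {φ : A →ₗ[k] B} {ψ : B →ₗ[k] C} (hψ : Equivar ρB ρC ψ)
    (hφ : Equivar ρA ρB φ) : Equivar ρA ρC (ψ ∘ₗ φ) := fun g a => by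
  simp [hφ g, hψ g]

lemma Equivar.zero : Equivar ρA ρB (0 : A →ₗ[k] B) := fun g a => by simp

lemma Equivar.add {φ ψ : A →ₗ[k] B} (hφ : Equivar ρA ρB φ) (hψ : Equivar ρA ρB ψ) :
    Equivar ρA ρB (φ + ψ) := fun g a => by simp [hφ g, hψ g]

lemma Equivar.smul (c : k) {φ : A →ₗ[k] B} (hφ : Equivar ρA ρB φ) :
    Equivar ρA ρB (c • φ) := fun g a => by simp [hφ g]

lemma Equivar.sum {ι : Type*} (s : Finset ι) {φ : ι → A →ₗ[k] B}
    (hφ : ∀ i ∈ s, Equivar ρA ρB (φ i)) : Equivar ρA ρB (∑ i ∈ s, φ i) := fun g a => by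
  simp only [LinearMap.sum_apply, map_sum]
  exact Finset.sum_congr rfl fun i hi => hφ i hi g a

lemma Equivar.symm {φ : A ≃ₗ[k] B} (hφ : Equivar ρA ρB (φ : A →ₗ[k] B)) :
    Equivar ρB ρA (φ.symm : B →ₗ[k] A) := fun g b => by
  apply φ.injective
  have := hφ g (φ.symm b)
  simpa using this.symm

/-- restriction to a group of an equivariant map -/
lemma Equivar.res {H : Type*} [Group H] {φ : A →ₗ[k] B} (hφ : Equivar ρA ρB φ) (f : H →* G) :
    Equivar (ρA.comp f) (ρB.comp f) φ := fun h a => hφ (f h) a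

lemma H1c_mk {φ : A →ₗ[k] B} (hφ : Equivar ρA ρB φ) (z : ↥(Z1 𝓛 ρA)) :
    H1c 𝓛 hφ (H1π 𝓛 ρA z) = H1π 𝓛 ρB ⟨fun g => φ ((z : G → A) g),
      pp1_mem_Z1 (f := MonoidHom.id G) 𝓛.cont_id hφ z.2⟩ := rfl

lemma H2c_mk {φ : A →ₗ[k] B} (hφ : Equivar ρA ρB φ) (z : ↥(Z2 𝓛 ρA)) :
    H2c 𝓛 hφ (H2π 𝓛 ρA z) = H2π 𝓛 ρB ⟨fun g => φ ((z : G × G → A) g),
      pp2_mem_Z2 (f := MonoidHom.id G) 𝓛.cont_id hφ z.2⟩ := rfl

@[simp] lemma H1c_id (x : H1 𝓛 ρA) : H1c 𝓛 (Equivar.id ρA) x = x := H1map_id' rfl rfl x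

@[simp] lemma H2c_id (x : H2 𝓛 ρA) : H2c 𝓛 (Equivar.id ρA) x = x := H2map_id' rfl rfl x

lemma H1c_comp {φ : A →ₗ[k] B} {ψ : B →ₗ[k] C} (hψ : Equivar ρB ρC ψ) (hφ : Equivar ρA ρB φ)
    (x : H1 𝓛 ρA) : H1c 𝓛 (hψ.comp hφ) x = H1c 𝓛 hψ (H1c 𝓛 hφ x) := by
  induction x using H1_ind with
  | h z => rfl

lemma H2c_comp {φ : A →ₗ[k] B} {ψ : B →ₗ[k] C} (hψ : Equivar ρB ρC ψ) (hφ : Equivar ρA ρB φ)
    (x : H2 𝓛 ρA) : H2c 𝓛 (hψ.comp hφ) x = H2c 𝓛 hψ (H2c 𝓛 hφ x) := by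
  induction x using H2_ind with
  | h z => rfl

lemma H1c_congr {φ ψ : A →ₗ[k] B} {hφ : Equivar ρA ρB φ} {hψ : Equivar ρA ρB ψ} (h : φ = ψ) :
    H1c 𝓛 hφ = H1c 𝓛 hψ := by subst h; rfl

lemma H2c_congr {φ ψ : A →ₗ[k] B} {hφ : Equivar ρA ρB φ} {hψ : Equivar ρA ρB ψ} (h : φ = ψ) :
    H2c 𝓛 hφ = H2c 𝓛 hψ := by subst h; rfl

@[simp] lemma H1c_zero (x : H1 𝓛 ρA) : H1c 𝓛 (Equivar.zero (ρA := ρA) (ρB := ρB)) x = 0 := by
  induction x using H1_ind with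
  | h z => exact (H1π_eq_zero_iff _).2 ⟨0, by simp; rfl⟩

@[simp] lemma H2c_zero (x : H2 𝓛 ρA) : H2c 𝓛 (Equivar.zero (ρA := ρA) (ρB := ρB)) x = 0 := by
  induction x using H2_ind with
  | h z => exact (H2π_eq_zero_iff _).2 ⟨0, LC1.const 0, by simp; rfl⟩

lemma H1c_add {φ ψ : A →ₗ[k] B} (hφ : Equivar ρA ρB φ) (hψ : Equivar ρA ρB ψ) (x : H1 𝓛 ρA) :
    H1c 𝓛 (hφ.add hψ) x = H1c 𝓛 hφ x + H1c 𝓛 hψ x := by
  induction x using H1_ind with
  | h z =>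
    rw [H1c_mk, H1c_mk, H1c_mk, ← map_add]
    rfl

lemma H2c_add {φ ψ : A →ₗ[k] B} (hφ : Equivar ρA ρB φ) (hψ : Equivar ρA ρB ψ) (x : H2 𝓛 ρA) :
    H2c 𝓛 (hφ.add hψ) x = H2c 𝓛 hφ x + H2c 𝓛 hψ x := by
  induction x using H2_ind with
  | h z =>
    rw [H2c_mk, H2c_mk, H2c_mk, ← map_add]
    rfl

lemma H1c_smul (c : k) {φ : A →ₗ[k] B} (hφ : Equivar ρA ρB φ) (x : H1 𝓛 ρA) :
    H1c 𝓛 (hφ.smul c) x = c • H1c 𝓛 hφ x := by
  induction x using H1_ind with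
  | h z =>
    rw [H1c_mk, H1c_mk, ← map_smul]
    rfl

lemma H2c_smul (c : k) {φ : A →ₗ[k] B} (hφ : Equivar ρA ρB φ) (x : H2 𝓛 ρA) :
    H2c 𝓛 (hφ.smul c) x = c • H2c 𝓛 hφ x := by
  induction x using H2_ind with
  | h z =>
    rw [H2c_mk, H2c_mk, ← map_smul]
    rfl

lemma H1c_sum {ι : Type*} (s : Finset ι) {φ : ι → A →ₗ[k] B}
    (hφ : ∀ i, Equivar ρA ρB (φ i)) (x : H1 𝓛 ρA) :
    H1c 𝓛 (Equivar.sum s fun i _ => hφ i) x = ∑ i ∈ s, H1c 𝓛 (hφ i) x := by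
  classical
  induction s using Finset.induction_on with
  | empty => exact H1c_zero x
  | insert i s hi ih =>
    have h1 : ∑ j ∈ insert i s, H1c 𝓛 (hφ j) x = H1c 𝓛 (hφ i) x + ∑ j ∈ s, H1c 𝓛 (hφ j) x :=
      Finset.sum_insert hi
    rw [h1, ← ih, ← H1c_add]
    exact LinearMap.congr_fun (H1c_congr (Finset.sum_insert hi)) x

lemma H2c_sum {ι : Type*} (s : Finset ι) {φ : ι → A →ₗ[k] B}
    (hφ : ∀ i, Equivar ρA ρB (φ i)) (x : H2 𝓛 ρA) :
    H2c 𝓛 (Equivar.sum s fun i _ => hφ i) x = ∑ i ∈ s, H2c 𝓛 (hφ i) x := by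
  classical
  induction s using Finset.induction_on with
  | empty => exact H2c_zero x
  | insert i s hi ih =>
    have h1 : ∑ j ∈ insert i s, H2c 𝓛 (hφ j) x = H2c 𝓛 (hφ i) x + ∑ j ∈ s, H2c 𝓛 (hφ j) x :=
      Finset.sum_insert hi
    rw [h1, ← ih, ← H2c_add]
    exact LinearMap.congr_fun (H2c_congr (Finset.sum_insert hi)) x

/-- isomorphic coefficients, degree 1 -/
noncomputable def H1cEquiv (𝓛 : Levels G) {φ : A ≃ₗ[k] B} (hφ : Equivar ρA ρB (φ : A →ₗ[k] B)) :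
    H1 𝓛 ρA ≃ₗ[k] H1 𝓛 ρB :=
  LinearEquiv.ofLinear (H1c 𝓛 hφ) (H1c 𝓛 hφ.symm)
    (LinearMap.ext fun x => by
      rw [LinearMap.comp_apply, ← H1c_comp, LinearMap.id_apply]
      exact (LinearMap.congr_fun (H1c_congr (LinearMap.ext fun a => φ.apply_symm_apply a)) x).trans
        (H1c_id x))
    (LinearMap.ext fun x => by
      rw [LinearMap.comp_apply, ← H1c_comp, LinearMap.id_apply]
      exact (LinearMap.congr_fun (H1c_congr (LinearMap.ext fun a => φ.symm_apply_apply a)) x).trans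
        (H1c_id x))

/-- isomorphic coefficients, degree 2 -/
noncomputable def H2cEquiv (𝓛 : Levels G) {φ : A ≃ₗ[k] B} (hφ : Equivar ρA ρB (φ : A →ₗ[k] B)) :
    H2 𝓛 ρA ≃ₗ[k] H2 𝓛 ρB :=
  LinearEquiv.ofLinear (H2c 𝓛 hφ) (H2c 𝓛 hφ.symm)
    (LinearMap.ext fun x => by
      rw [LinearMap.comp_apply, ← H2c_comp, LinearMap.id_apply]
      exact (LinearMap.congr_fun (H2c_congr (LinearMap.ext fun a => φ.apply_symm_apply a)) x).trans
        (H2c_id x))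
    (LinearMap.ext fun x => by
      rw [LinearMap.comp_apply, ← H2c_comp, LinearMap.id_apply]
      exact (LinearMap.congr_fun (H2c_congr (LinearMap.ext fun a => φ.symm_apply_apply a)) x).trans
        (H2c_id x))

/-- restriction commutes with change of coefficients, degree 1 -/
lemma H1res_H1c {H : Type*} [Group H] {𝓜 : Levels H} {f : H →* G} (hf : Levels.Cont 𝓜 𝓛 f)
    {φ : A →ₗ[k] B} (hφ : Equivar ρA ρB φ) (x : H1 𝓛 ρA) :
    H1res hf ρB (H1c 𝓛 hφ x) = H1c 𝓜 (hφ.res f) (H1res hf ρA x) := by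
  induction x using H1_ind with
  | h z => rfl

/-- restriction commutes with change of coefficients, degree 2 -/
lemma H2res_H2c {H : Type*} [Group H] {𝓜 : Levels H} {f : H →* G} (hf : Levels.Cont 𝓜 𝓛 f)
    {φ : A →ₗ[k] B} (hφ : Equivar ρA ρB φ) (x : H2 𝓛 ρA) :
    H2res hf ρB (H2c 𝓛 hφ x) = H2c 𝓜 (hφ.res f) (H2res hf ρA x) := by
  induction x using H2_ind with
  | h z => rfl

end Coeff

section OnSub

variable {G : Type*} [Group G] (𝓛 : Levels G)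

/-- `N ≤ P`: the level structures of `N` as a subgroup of `G` and of `P` agree -/
lemma cont_subgroupOf {N P : Subgroup G} (h : N ≤ P) :
    Levels.Cont ((𝓛.onSub P).onSub (N.subgroupOf P)) (𝓛.onSub N)
      ((Subgroup.subgroupOfEquivOfLe h : N.subgroupOf P ≃* N) : N.subgroupOf P →* N) := by
  rintro V ⟨W, hW, hle⟩
  refine ⟨W.subgroupOf P, ⟨W, hW, le_rfl⟩, ?_⟩
  rintro x hx
  exact hle hx

lemma cont_subgroupOf_symm {N P : Subgroup G} (h : N ≤ P) :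
    Levels.Cont (𝓛.onSub N) ((𝓛.onSub P).onSub (N.subgroupOf P))
      ((Subgroup.subgroupOfEquivOfLe h : N.subgroupOf P ≃* N).symm : N →* N.subgroupOf P) := by
  rintro V ⟨W, ⟨W', hW', hle'⟩, hle⟩
  refine ⟨W', hW', ?_⟩
  rintro x hx
  exact hle (hle' hx)

variable (k : Type*) [CommRing k]

/-- `H¹` of `N` computed in `P` or in `G` -/
noncomputable def H1sub {N P : Subgroup G} (h : N ≤ P) :
    H1 (𝓛.onSub N) (Representation.trivial k N k) ≃ₗ[k]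
      H1 ((𝓛.onSub P).onSub (N.subgroupOf P)) (Representation.trivial k (N.subgroupOf P) k) :=
  H1equiv (Subgroup.subgroupOfEquivOfLe h) (cont_subgroupOf 𝓛 h) (cont_subgroupOf_symm 𝓛 h)
    (LinearEquiv.refl k k) (fun _ _ => rfl)

/-- `H²` of `N` computed in `P` or in `G` -/
noncomputable def H2sub {N P : Subgroup G} (h : N ≤ P) :
    H2 (𝓛.onSub N) (Representation.trivial k N k) ≃ₗ[k]
      H2 ((𝓛.onSub P).onSub (N.subgroupOf P)) (Representation.trivial k (N.subgroupOf P) k) :=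
  H2equiv (Subgroup.subgroupOfEquivOfLe h) (cont_subgroupOf 𝓛 h) (cont_subgroupOf_symm 𝓛 h)
    (LinearEquiv.refl k k) (fun _ _ => rfl)

end OnSub

end Fermat.Agent.H55
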