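import Mathlib
import Fermat.Agent.H91Level

set_option autoImplicit false

/-!
# Level cohomology in degrees 0, 1, 2

For a group `G` with a level family `𝓥` (see `H91Level`) and a representation `ρ` of `G` on a
`k`-module `A` we define `LH1 𝓥 ρ`, `LH2 𝓥 ρ` (cohomology of locally constant cochains), the
functoriality for compatible pairs, and basic lemmas.
-/

namespace Fermat.Agent.H92

open Fermat.Agent.H91 Function

universe u

/-! ### Differentials -/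

section Complex

variable {k : Type*} [CommRing k] {G : Type*} [Group G] {A : Type*} [AddCommGroup A] [Module k A]
variable (ρ : Representation k G A)

/-- the differential `d⁰ : A → (G → A)` -/
def d0 : A →ₗ[k] (G → A) where
  toFun a := fun g => ρ g a - a
  map_add' a b := by
    funext g
    simp only [map_add, Pi.add_apply]
    abel
  map_smul' c a := by
    funext g
    simp only [map_smul, Pi.smul_apply, smul_sub, RingHom.id_apply]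

/-- the differential `d¹ : (G → A) → (G × G → A)` -/
def d1 : (G → A) →ₗ[k] (G × G → A) where
  toFun f := fun g => ρ g.1 (f g.2) - f (g.1 * g.2) + f g.1
  map_add' a b := by
    funext g
    simp only [map_add, Pi.add_apply]
    abel
  map_smul' c a := by
    funext g
    simp only [map_smul, Pi.smul_apply, smul_sub, smul_add, RingHom.id_apply]

/-- the differential `d² : (G × G → A) → (G × G × G → A)` -/
def d2 : (G × G → A) →ₗ[k] (G × G × G → A) where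
  toFun f := fun g => ρ g.1 (f (g.2.1, g.2.2)) - f (g.1 * g.2.1, g.2.2)
    + f (g.1, g.2.1 * g.2.2) - f (g.1, g.2.1)
  map_add' a b := by
    funext g
    simp only [map_add, Pi.add_apply]
    abel
  map_smul' c a := by
    funext g
    simp only [map_smul, Pi.smul_apply, smul_sub, smul_add, RingHom.id_apply]

@[simp] lemma d0_apply (a : A) (g : G) : d0 ρ a g = ρ g a - a := rfl

@[simp] lemma d1_apply (f : G → A) (g h : G) :
    d1 ρ f (g, h) = ρ g (f h) - f (g * h) + f g := rfl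

@[simp] lemma d2_apply (f : G × G → A) (g h j : G) :
    d2 ρ f (g, h, j) = ρ g (f (h, j)) - f (g * h, j) + f (g, h * j) - f (g, h) := rfl

lemma rho_mul (g h : G) (a : A) : ρ (g * h) a = ρ g (ρ h a) := by
  rw [map_mul]; rfl

lemma rho_one (a : A) : ρ 1 a = a := by
  rw [map_one]; rfl

@[simp] lemma rho_inv_self (g : G) (a : A) : ρ g⁻¹ (ρ g a) = a := by
  rw [← rho_mul, inv_mul_cancel, rho_one]

@[simp] lemma rho_self_inv (g : G) (a : A) : ρ g (ρ g⁻¹ a) = a := by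
  rw [← rho_mul, mul_inv_cancel, rho_one]

lemma d1_d0 (a : A) : d1 ρ (d0 ρ a) = 0 := by
  funext ⟨g, h⟩
  simp only [d1_apply, d0_apply, map_sub, rho_mul, Pi.zero_apply]
  abel

lemma d2_d1 (f : G → A) : d2 ρ (d1 ρ f) = 0 := by
  funext ⟨g, h, j⟩
  simp only [d2_apply, d1_apply, map_sub, map_add, rho_mul, Pi.zero_apply, mul_assoc]
  abel

end Complex

/-! ### Locally constant cochains -/

section Levels

variable {G : Type*} [Group G] {𝓥 : LevelFam G}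

lemma isConst₁_finite_range {X : Type*} {f : G → X} (hf : 𝓥.IsConst₁ f) :
    (Set.range f).Finite := by
  obtain ⟨V, -, -, hfi, h⟩ := hf.exists_normal
  have : Finite (G ⧸ V) := Subgroup.finite_quotient_of_finiteIndex
  let F : G ⧸ V → X := Quotient.lift f (by
    intro a b hab
    have hab' : a⁻¹ * b ∈ V := by
      rwa [← QuotientGroup.leftRel_apply]
    have := h a (a⁻¹ * b) hab'
    rw [mul_inv_cancel_left] at this
    exact this.symm)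
  refine (Set.finite_range F).subset ?_
  rintro _ ⟨g, rfl⟩
  exact ⟨(g : G ⧸ V), rfl⟩

lemma isConst₂_curry_left {X : Type*} {f : G × G → X} (hf : 𝓥.IsConst₂ f) (g : G) :
    𝓥.IsConst₁ (fun h => f (g, h)) := by
  obtain ⟨V, hV, h⟩ := hf
  refine ⟨V, hV, fun x s hs => ?_⟩
  have := h g x 1 V.one_mem s hs
  rwa [mul_one] at this

lemma isConst₂_curry_right {X : Type*} {f : G × G → X} (hf : 𝓥.IsConst₂ f) (g : G) :
    𝓥.IsConst₁ (fun h => f (h, g)) := by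
  obtain ⟨V, hV, h⟩ := hf
  refine ⟨V, hV, fun x s hs => ?_⟩
  have := h x g s hs 1 V.one_mem
  rwa [mul_one] at this

lemma isConst₂_iff_curry {X : Type*} {f : G × G → X} :
    𝓥.IsConst₂ f ↔ 𝓥.IsConst₁ (fun g => fun h => f (g, h)) ∧
      𝓥.IsConst₁ (fun h => fun g => f (g, h)) := by
  constructor
  · rintro ⟨V, hV, h⟩
    refine ⟨⟨V, hV, fun x s hs => ?_⟩, ⟨V, hV, fun x s hs => ?_⟩⟩
    · funext y
      have := h x y s hs 1 V.one_mem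
      rwa [mul_one] at this
    · funext y
      have := h y x 1 V.one_mem s hs
      rwa [mul_one] at this
  · rintro ⟨⟨V, hV, h⟩, ⟨W, hW, h'⟩⟩
    obtain ⟨X, hX, hle⟩ := 𝓥.inf_mem' V hV W hW
    refine ⟨X, hX, fun g g' s hs s' hs' => ?_⟩
    have h1 := congrFun (h g s (hle hs).1) (g' * s')
    have h2 := congrFun (h' g' s' (hle hs').2) g
    simp only at h1 h2
    rw [h1, h2]

lemma isConst₂_finite_range {X : Type*} {f : G × G → X} (hf : 𝓥.IsConst₂ f) :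
    (Set.range f).Finite := by
  obtain ⟨h1, h2⟩ := isConst₂_iff_curry.1 hf
  have h3 := isConst₁_finite_range h1
  have : Set.range f ⊆ ⋃ F ∈ Set.range (fun g => fun h => f (g, h)), Set.range F := by
    rintro _ ⟨⟨g, h⟩, rfl⟩
    simp only [Set.mem_iUnion]
    exact ⟨_, ⟨g, rfl⟩, ⟨h, rfl⟩⟩
  refine (h3.biUnion ?_).subset this
  rintro _ ⟨g, rfl⟩
  exact isConst₁_finite_range (isConst₂_curry_left hf g)

/-- `f (t g)` is level-constant if `f` is. -/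
lemma isConst₁_mul_left {X : Type*} {f : G → X} (hf : 𝓥.IsConst₁ f) (t : G) :
    𝓥.IsConst₁ (fun g => f (t * g)) := by
  obtain ⟨V, hV, h⟩ := hf
  exact ⟨V, hV, fun g s hs => by beta_reduce; rw [← mul_assoc, h _ s hs]⟩

lemma isConst₁_mul_right {X : Type*} {f : G → X} (hf : 𝓥.IsConst₁ f) (t : G) :
    𝓥.IsConst₁ (fun g => f (g * t)) := by
  obtain ⟨V, hV, hn, -, h⟩ := hf.exists_normal
  refine ⟨V, hV, fun g s hs => ?_⟩
  have := h (g * t) (t⁻¹ * s * t) (by simpa using hn.conj_mem s hs t⁻¹)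
  beta_reduce
  rw [← this]
  congr 1
  group

lemma isConst₂_mul {X : Type*} {f : G → X} (hf : 𝓥.IsConst₁ f) :
    𝓥.IsConst₂ (fun g : G × G => f (g.1 * g.2)) := by
  obtain ⟨V, hV, hn, -, h⟩ := hf.exists_normal
  refine ⟨V, hV, fun g g' s hs s' hs' => ?_⟩
  have hmem : g'⁻¹ * s * g' * s' ∈ V :=
    V.mul_mem (by simpa using hn.conj_mem s hs g'⁻¹) hs'
  have := h (g * g') (g'⁻¹ * s * g' * s') hmem
  beta_reduce
  rw [← this]
  congr 1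
  group

lemma isConst₂_fst {X : Type*} {f : G → X} (hf : 𝓥.IsConst₁ f) :
    𝓥.IsConst₂ (fun g : G × G => f g.1) := by
  obtain ⟨V, hV, h⟩ := hf
  exact ⟨V, hV, fun g g' s hs s' hs' => h g s hs⟩

lemma isConst₂_snd {X : Type*} {f : G → X} (hf : 𝓥.IsConst₁ f) :
    𝓥.IsConst₂ (fun g : G × G => f g.2) := by
  obtain ⟨V, hV, h⟩ := hf
  exact ⟨V, hV, fun g g' s hs s' hs' => h g' s' hs'⟩

end Levels

/-! ### Smooth representations -/

section Smooth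

variable {k : Type*} [CommRing k] {G : Type*} [Group G] {A : Type*} [AddCommGroup A] [Module k A]
variable (𝓥 : LevelFam G) (ρ : Representation k G A)

/-- every vector is fixed by a level subgroup -/
def Smooth : Prop := ∀ a : A, ∃ V ∈ 𝓥.carrier, ∀ s ∈ V, ρ s a = a

variable {𝓥 ρ}

lemma Smooth.exists_fix (hs : Smooth 𝓥 ρ) {S : Set A} (hS : S.Finite) :
    ∃ V ∈ 𝓥.carrier, ∀ s ∈ V, ∀ a ∈ S, ρ s a = a := by
  induction S, hS using Set.Finite.induction_on with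
  | empty =>
    obtain ⟨V, hV⟩ := 𝓥.nonempty'
    exact ⟨V, hV, fun _ _ a ha => absurd ha (Set.notMem_empty a)⟩
  | @insert a S _ _ ih =>
    obtain ⟨V, hV, h⟩ := ih
    obtain ⟨W, hW, h'⟩ := hs a
    obtain ⟨X, hX, hle⟩ := 𝓥.inf_mem' V hV W hW
    refine ⟨X, hX, fun s hs b hb => ?_⟩
    rcases Set.mem_insert_iff.1 hb with rfl | hb
    · exact h' s (hle hs).2
    · exact h s (hle hs).1 b hb

lemma Smooth.exists_fix_all [Finite A] (hs : Smooth 𝓥 ρ) :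
    ∃ V ∈ 𝓥.carrier, ∀ s ∈ V, ∀ a, ρ s a = a := by
  obtain ⟨V, hV, h⟩ := hs.exists_fix (Set.finite_univ (α := A))
  exact ⟨V, hV, fun s hs a => h s hs a (Set.mem_univ a)⟩

/-- the orbit map of a function with finite range is level constant -/
lemma Smooth.isConst₁_rho (hs : Smooth 𝓥 ρ) (a : A) : 𝓥.IsConst₁ (fun g => ρ g a) := by
  obtain ⟨V, hV, h⟩ := hs a
  exact ⟨V, hV, fun g s hs => by beta_reduce; rw [rho_mul, h s hs]⟩

lemma Smooth.isConst₂_rho (hs : Smooth 𝓥 ρ) {f : G → A} (hf : 𝓥.IsConst₁ f) :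
    𝓥.IsConst₂ (fun g : G × G => ρ g.1 (f g.2)) := by
  obtain ⟨V, hV, h⟩ := hs.exists_fix (isConst₁_finite_range hf)
  obtain ⟨W, hW, h'⟩ := hf
  obtain ⟨X, hX, hle⟩ := 𝓥.inf_mem' V hV W hW
  refine ⟨X, hX, fun g g' s hs s' hs' => ?_⟩
  simp only
  rw [h' g' s' (hle hs').2, rho_mul, h s (hle hs).1 _ ⟨g', rfl⟩]

end Smooth

section Cochains

variable (k : Type*) [CommRing k] {G : Type*} [Group G] (A : Type*) [AddCommGroup A] [Module k A]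
variable (𝓥 : LevelFam G)

/-- level-constant 1-cochains -/
def LC1 : Submodule k (G → A) where
  carrier := {f | 𝓥.IsConst₁ f}
  add_mem' hf hf' := hf.map₂ hf' (· + ·)
  zero_mem' := LevelFam.isConst₁_const 0
  smul_mem' c _ hf := hf.comp (c • ·)

/-- level-constant 2-cochains -/
def LC2 : Submodule k (G × G → A) where
  carrier := {f | 𝓥.IsConst₂ f}
  add_mem' hf hf' := hf.map₂ hf' (· + ·)
  zero_mem' := LevelFam.isConst₂_const 0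
  smul_mem' c _ hf := hf.comp (c • ·)

variable {k A 𝓥}

lemma mem_LC1_iff {f : G → A} : f ∈ LC1 k A 𝓥 ↔ 𝓥.IsConst₁ f := Iff.rfl

lemma mem_LC2_iff {f : G × G → A} : f ∈ LC2 k A 𝓥 ↔ 𝓥.IsConst₂ f := Iff.rfl

variable {ρ : Representation k G A}

lemma d0_mem_LC1 (hs : Smooth 𝓥 ρ) (a : A) : d0 ρ a ∈ LC1 k A 𝓥 :=
  (hs.isConst₁_rho a).comp (fun x => x - a)

lemma d1_mem_LC2 (hs : Smooth 𝓥 ρ) {f : G → A} (hf : f ∈ LC1 k A 𝓥) : d1 ρ f ∈ LC2 k A 𝓥 :=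
  ((hs.isConst₂_rho hf).map₂ (isConst₂_mul hf) (fun x y => x - y)).map₂ (isConst₂_fst hf)
    (fun x y => x + y)

end Cochains

/-! ### Cohomology groups -/

section Cohomology

variable {k : Type*} [CommRing k] {G : Type*} [Group G] {A : Type*} [AddCommGroup A] [Module k A]
variable (𝓥 : LevelFam G) (ρ : Representation k G A)

/-- level-constant 1-cocycles -/
def Z1 : Submodule k (G → A) := LinearMap.ker (d1 ρ) ⊓ LC1 k A 𝓥

/-- level-constant 2-cocycles -/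
def Z2 : Submodule k (G × G → A) := LinearMap.ker (d2 ρ) ⊓ LC2 k A 𝓥

/-- 1-coboundaries -/
def B1 : Submodule k (G → A) := LinearMap.range (d0 ρ)

/-- 2-coboundaries of level-constant cochains -/
def B2 : Submodule k (G × G → A) := (LC1 k A 𝓥).map (d1 ρ)

variable {𝓥 ρ}

lemma mem_Z1_iff {f : G → A} : f ∈ Z1 𝓥 ρ ↔ d1 ρ f = 0 ∧ 𝓥.IsConst₁ f := Iff.rfl

lemma mem_Z2_iff {f : G × G → A} : f ∈ Z2 𝓥 ρ ↔ d2 ρ f = 0 ∧ 𝓥.IsConst₂ f := Iff.rfl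

lemma mem_Z1_iff' {f : G → A} :
    f ∈ Z1 𝓥 ρ ↔ (∀ g h, f (g * h) = ρ g (f h) + f g) ∧ 𝓥.IsConst₁ f := by
  rw [mem_Z1_iff]
  refine and_congr_left fun _ => ⟨fun H g h => ?_, fun H => ?_⟩
  · have := congrFun H (g, h)
    simp only [d1_apply, Pi.zero_apply] at this
    rw [sub_add_eq_add_sub] at this
    exact (sub_eq_zero.1 this).symm
  · funext ⟨g, h⟩
    simp only [d1_apply, Pi.zero_apply, H g h]
    abel

lemma mem_Z2_iff' {f : G × G → A} :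
    f ∈ Z2 𝓥 ρ ↔ (∀ g h j, ρ g (f (h, j)) + f (g, h * j) = f (g * h, j) + f (g, h)) ∧
      𝓥.IsConst₂ f := by
  rw [mem_Z2_iff]
  refine and_congr_left fun _ => ⟨fun H g h j => ?_, fun H => ?_⟩
  · have := congrFun H (g, h, j)
    simp only [d2_apply, Pi.zero_apply] at this
    rw [← sub_eq_zero]
    rw [← this]
    abel
  · funext ⟨g, h, j⟩
    simp only [d2_apply, Pi.zero_apply]
    have := H g h j
    rw [← sub_eq_zero] at this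
    rw [← this]
    abel

lemma mem_B1_iff {f : G → A} : f ∈ B1 ρ ↔ ∃ a, ∀ g, f g = ρ g a - a := by
  constructor
  · rintro ⟨a, rfl⟩
    exact ⟨a, fun g => rfl⟩
  · rintro ⟨a, h⟩
    exact ⟨a, funext fun g => (h g).symm⟩

lemma mem_B2_iff {f : G × G → A} :
    f ∈ B2 𝓥 ρ ↔ ∃ b : G → A, 𝓥.IsConst₁ b ∧ d1 ρ b = f := by
  simp only [B2, Submodule.mem_map, mem_LC1_iff]

lemma mem_B2_iff' {f : G × G → A} :
    f ∈ B2 𝓥 ρ ↔ ∃ b : G → A, 𝓥.IsConst₁ b ∧ ∀ g h, f (g, h) = ρ g (b h) - b (g * h) + b g := by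
  rw [mem_B2_iff]
  constructor
  · rintro ⟨b, hb, rfl⟩
    exact ⟨b, hb, fun g h => rfl⟩
  · rintro ⟨b, hb, h⟩
    exact ⟨b, hb, funext fun ⟨x, y⟩ => (h x y).symm⟩

lemma B1_le_Z1 (hs : Smooth 𝓥 ρ) : B1 ρ ≤ Z1 𝓥 ρ := by
  rintro _ ⟨a, rfl⟩
  exact ⟨d1_d0 ρ a, d0_mem_LC1 hs a⟩

lemma B2_le_Z2 (hs : Smooth 𝓥 ρ) : B2 𝓥 ρ ≤ Z2 𝓥 ρ := by
  rintro _ ⟨f, hf, rfl⟩
  exact ⟨d2_d1 ρ f, d1_mem_LC2 hs hf⟩

lemma Z1_one {f : G → A} (hf : d1 ρ f = 0) : f 1 = 0 := by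
  have := congrFun hf (1, 1)
  simpa [rho_one] using this

lemma Z1_inv {f : G → A} (hf : d1 ρ f = 0) (g : G) : ρ g (f g⁻¹) = - f g := by
  have := congrFun hf (g, g⁻¹)
  simp only [d1_apply, Pi.zero_apply, mul_inv_cancel, Z1_one hf, sub_zero] at this
  exact eq_neg_of_add_eq_zero_left this

variable (𝓥 ρ)

/-- first level cohomology -/
def LH1 : Type _ := ↥(Z1 𝓥 ρ) ⧸ (B1 ρ).comap (Z1 𝓥 ρ).subtype

/-- second level cohomology -/
def LH2 : Type _ := ↥(Z2 𝓥 ρ) ⧸ (B2 𝓥 ρ).comap (Z2 𝓥 ρ).subtype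

noncomputable instance : AddCommGroup (LH1 𝓥 ρ) :=
  inferInstanceAs (AddCommGroup (↥(Z1 𝓥 ρ) ⧸ (B1 ρ).comap (Z1 𝓥 ρ).subtype))

noncomputable instance : Module k (LH1 𝓥 ρ) :=
  inferInstanceAs (Module k (↥(Z1 𝓥 ρ) ⧸ (B1 ρ).comap (Z1 𝓥 ρ).subtype))

noncomputable instance : AddCommGroup (LH2 𝓥 ρ) :=
  inferInstanceAs (AddCommGroup (↥(Z2 𝓥 ρ) ⧸ (B2 𝓥 ρ).comap (Z2 𝓥 ρ).subtype))

noncomputable instance : Module k (LH2 𝓥 ρ) :=
  inferInstanceAs (Module k (↥(Z2 𝓥 ρ) ⧸ (B2 𝓥 ρ).comap (Z2 𝓥 ρ).subtype))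

/-- the class of a cocycle -/
noncomputable def mk1 : ↥(Z1 𝓥 ρ) →ₗ[k] LH1 𝓥 ρ := Submodule.mkQ _

/-- the class of a cocycle -/
noncomputable def mk2 : ↥(Z2 𝓥 ρ) →ₗ[k] LH2 𝓥 ρ := Submodule.mkQ _

lemma mk1_surjective : Surjective (mk1 𝓥 ρ) := Submodule.mkQ_surjective _

lemma mk2_surjective : Surjective (mk2 𝓥 ρ) := Submodule.mkQ_surjective _

variable {𝓥 ρ}

lemma mk1_eq_zero_iff {f : ↥(Z1 𝓥 ρ)} : mk1 𝓥 ρ f = 0 ↔ (f : G → A) ∈ B1 ρ :=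
  Submodule.Quotient.mk_eq_zero ((B1 ρ).comap (Z1 𝓥 ρ).subtype) (x := f)

lemma mk2_eq_zero_iff {f : ↥(Z2 𝓥 ρ)} : mk2 𝓥 ρ f = 0 ↔ (f : G × G → A) ∈ B2 𝓥 ρ :=
  Submodule.Quotient.mk_eq_zero ((B2 𝓥 ρ).comap (Z2 𝓥 ρ).subtype) (x := f)

lemma mk1_eq_zero_iff' {f : ↥(Z1 𝓥 ρ)} :
    mk1 𝓥 ρ f = 0 ↔ ∃ a, ∀ g, (f : G → A) g = ρ g a - a :=
  mk1_eq_zero_iff.trans mem_B1_iff

lemma mk2_eq_zero_iff' {f : ↥(Z2 𝓥 ρ)} :
    mk2 𝓥 ρ f = 0 ↔ ∃ b : G → A, 𝓥.IsConst₁ b ∧ d1 ρ b = f :=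
  mk2_eq_zero_iff.trans mem_B2_iff

lemma mk1_eq_mk1_iff {f f' : ↥(Z1 𝓥 ρ)} :
    mk1 𝓥 ρ f = mk1 𝓥 ρ f' ↔ (f : G → A) - f' ∈ B1 ρ := by
  rw [← sub_eq_zero, ← map_sub, mk1_eq_zero_iff]
  rfl

lemma mk2_eq_mk2_iff {f f' : ↥(Z2 𝓥 ρ)} :
    mk2 𝓥 ρ f = mk2 𝓥 ρ f' ↔ (f : G × G → A) - f' ∈ B2 𝓥 ρ := by
  rw [← sub_eq_zero, ← map_sub, mk2_eq_zero_iff]
  rfl

end Cohomology

/-! ### Factorisation through a surjection -/

section Factor

variable {k : Type*} [CommRing k] {P X Y : Type*} [AddCommGroup P] [Module k P]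
  [AddCommGroup X] [Module k X] [AddCommGroup Y] [Module k Y]

/-- factor `β` through the surjection `α` -/
noncomputable def factor (α : P →ₗ[k] X) (hα : Surjective α) (β : P →ₗ[k] Y)
    (h : ∀ x, α x = 0 → β x = 0) : X →ₗ[k] Y :=
  ((LinearMap.ker α).liftQ β (fun x hx => h x hx)) ∘ₗ
    (α.quotKerEquivOfSurjective hα).symm.toLinearMap

@[simp] lemma factor_apply (α : P →ₗ[k] X) (hα : Surjective α) (β : P →ₗ[k] Y)
    (h : ∀ x, α x = 0 → β x = 0) (x : P) : factor α hα β h (α x) = β x := by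
  have : (α.quotKerEquivOfSurjective hα).symm (α x) = (LinearMap.ker α).mkQ x := by
    rw [LinearEquiv.symm_apply_eq]
    rfl
  unfold factor
  rw [LinearMap.comp_apply, LinearEquiv.coe_coe, this]
  exact Submodule.liftQ_apply _ _ _

end Factor

/-! ### Functoriality -/

section Functoriality

/-- Morphisms of (group with level family, representation): a group homomorphism backwards and a
compatible linear map forwards. -/
structure PairHom {k : Type*} [CommRing k] {G : Type*} [Group G] {A : Type*} [AddCommGroup A]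
    [Module k A] {H : Type*} [Group H] {B : Type*} [AddCommGroup B] [Module k B]
    (𝓥 : LevelFam G) (ρ : Representation k G A) (𝓦 : LevelFam H) (σ : Representation k H B) where
  /-- the group homomorphism -/
  r : H →* G
  /-- the linear map -/
  φ : A →ₗ[k] B
  compat : ∀ h a, φ (ρ (r h) a) = σ h (φ a)
  level : ∀ V ∈ 𝓥.carrier, ∃ W ∈ 𝓦.carrier, ∀ s ∈ W, r s ∈ V

variable {k : Type*} [CommRing k] {G : Type*} [Group G] {A : Type*} [AddCommGroup A] [Module k A]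
variable {H : Type*} [Group H] {B : Type*} [AddCommGroup B] [Module k B]
variable {J : Type*} [Group J] {C : Type*} [AddCommGroup C] [Module k C]
variable {𝓥 : LevelFam G} {ρ : Representation k G A}
variable {𝓦 : LevelFam H} {σ : Representation k H B}
variable {𝓤 : LevelFam J} {τ : Representation k J C}

namespace PairHom

/-- the identity -/
@[simps] def id (𝓥 : LevelFam G) (ρ : Representation k G A) : PairHom 𝓥 ρ 𝓥 ρ where
  r := MonoidHom.id G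
  φ := LinearMap.id
  compat _ _ := rfl
  level V hV := ⟨V, hV, fun _ hs => hs⟩

/-- composition -/
@[simps] def comp (Q : PairHom 𝓦 σ 𝓤 τ) (P : PairHom 𝓥 ρ 𝓦 σ) : PairHom 𝓥 ρ 𝓤 τ where
  r := P.r.comp Q.r
  φ := Q.φ ∘ₗ P.φ
  compat h a := by
    simp only [MonoidHom.coe_comp, comp_apply, LinearMap.comp_apply]
    rw [P.compat, Q.compat]
  level V hV := by
    obtain ⟨W, hW, h⟩ := P.level V hV
    obtain ⟨W', hW', h'⟩ := Q.level W hW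
    exact ⟨W', hW', fun s hs => h _ (h' s hs)⟩

/-- change of coefficients -/
@[simps] def coef (𝓥 : LevelFam G) {ρ : Representation k G A} {ρ' : Representation k G B}
    (φ : A →ₗ[k] B) (h : ∀ g a, φ (ρ g a) = ρ' g (φ a)) : PairHom 𝓥 ρ 𝓥 ρ' where
  r := MonoidHom.id G
  φ := φ
  compat := h
  level V hV := ⟨V, hV, fun _ hs => hs⟩

/-- restriction along a group homomorphism -/
@[simps] def res (𝓥 : LevelFam G) (ρ : Representation k G A) (𝓦 : LevelFam H) (r : H →* G)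
    (h : ∀ V ∈ 𝓥.carrier, ∃ W ∈ 𝓦.carrier, ∀ s ∈ W, r s ∈ V) :
    PairHom 𝓥 ρ 𝓦 (ρ.comp r) where
  r := r
  φ := LinearMap.id
  compat _ _ := rfl
  level := h

/-- restriction along a group homomorphism, for the pulled back level family -/
@[simps!] def resComap (𝓥 : LevelFam G) (ρ : Representation k G A) (r : H →* G) :
    PairHom 𝓥 ρ (𝓥.comap r) (ρ.comp r) :=
  res 𝓥 ρ (𝓥.comap r) r (fun V hV => ⟨_, ⟨V, hV, rfl⟩, fun _ hs => hs⟩)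

variable (P : PairHom 𝓥 ρ 𝓦 σ)

lemma isConst₁ {X : Type*} {f : G → X} (hf : 𝓥.IsConst₁ f) : 𝓦.IsConst₁ (fun h => f (P.r h)) := by
  obtain ⟨V, hV, h⟩ := hf
  obtain ⟨W, hW, h'⟩ := P.level V hV
  exact ⟨W, hW, fun g s hs => by beta_reduce; rw [map_mul, h _ _ (h' s hs)]⟩

lemma isConst₂ {X : Type*} {f : G × G → X} (hf : 𝓥.IsConst₂ f) :
    𝓦.IsConst₂ (fun h => f (P.r h.1, P.r h.2)) := by
  obtain ⟨V, hV, h⟩ := hf
  obtain ⟨W, hW, h'⟩ := P.level V hV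
  exact ⟨W, hW, fun g g' s hs s' hs' => by
    simp only [map_mul]
    rw [h _ _ _ (h' s hs) _ (h' s' hs')]⟩

/-- pull-back of 1-cochains -/
def c1 : (G → A) →ₗ[k] (H → B) where
  toFun f := fun h => P.φ (f (P.r h))
  map_add' _ _ := by funext; simp
  map_smul' _ _ := by funext; simp

/-- pull-back of 2-cochains -/
def c2 : (G × G → A) →ₗ[k] (H × H → B) where
  toFun f := fun h => P.φ (f (P.r h.1, P.r h.2))
  map_add' _ _ := by funext; simp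
  map_smul' _ _ := by funext; simp

@[simp] lemma c1_apply (f : G → A) (h : H) : P.c1 f h = P.φ (f (P.r h)) := rfl

@[simp] lemma c2_apply (f : G × G → A) (h h' : H) : P.c2 f (h, h') = P.φ (f (P.r h, P.r h')) := rfl

lemma c1_d0 (a : A) : P.c1 (d0 ρ a) = d0 σ (P.φ a) := by
  funext h
  simp [P.compat]

lemma c2_d1 (f : G → A) : P.c2 (d1 ρ f) = d1 σ (P.c1 f) := by
  funext ⟨h, h'⟩
  simp [P.compat]

lemma d2_c2 (f : G × G → A) (h h' h'' : H) :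
    d2 σ (P.c2 f) (h, h', h'') = P.φ (d2 ρ f (P.r h, P.r h', P.r h'')) := by
  simp [P.compat]

lemma c1_mem_LC1 {f : G → A} (hf : f ∈ LC1 k A 𝓥) : P.c1 f ∈ LC1 k B 𝓦 :=
  (P.isConst₁ hf).comp P.φ

lemma c2_mem_LC2 {f : G × G → A} (hf : f ∈ LC2 k A 𝓥) : P.c2 f ∈ LC2 k B 𝓦 :=
  (P.isConst₂ hf).comp P.φ

lemma c1_mem_Z1 {f : G → A} (hf : f ∈ Z1 𝓥 ρ) : P.c1 f ∈ Z1 𝓦 σ := by
  refine mem_Z1_iff.2 ⟨?_, P.c1_mem_LC1 hf.2⟩
  rw [← c2_d1, show d1 ρ f = 0 from hf.1, map_zero]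

lemma c2_mem_Z2 {f : G × G → A} (hf : f ∈ Z2 𝓥 ρ) : P.c2 f ∈ Z2 𝓦 σ := by
  refine mem_Z2_iff.2 ⟨?_, P.c2_mem_LC2 hf.2⟩
  funext ⟨h, h', h''⟩
  rw [d2_c2, show d2 ρ f = 0 from hf.1]
  simp

lemma c1_mem_B1 {f : G → A} (hf : f ∈ B1 ρ) : P.c1 f ∈ B1 σ := by
  obtain ⟨a, rfl⟩ := hf
  exact ⟨P.φ a, (P.c1_d0 a).symm⟩

lemma c2_mem_B2 {f : G × G → A} (hf : f ∈ B2 𝓥 ρ) : P.c2 f ∈ B2 𝓦 σ := by
  obtain ⟨b, hb, rfl⟩ := hf
  exact ⟨P.c1 b, P.c1_mem_LC1 hb, (P.c2_d1 b).symm⟩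

/-- pull-back of level-constant 1-cocycles -/
def z1 : ↥(Z1 𝓥 ρ) →ₗ[k] ↥(Z1 𝓦 σ) := P.c1.restrict (fun _ hf => P.c1_mem_Z1 hf)

/-- pull-back of level-constant 2-cocycles -/
def z2 : ↥(Z2 𝓥 ρ) →ₗ[k] ↥(Z2 𝓦 σ) := P.c2.restrict (fun _ hf => P.c2_mem_Z2 hf)

@[simp] lemma z1_coe (f : ↥(Z1 𝓥 ρ)) : (P.z1 f : H → B) = P.c1 f := rfl

@[simp] lemma z2_coe (f : ↥(Z2 𝓥 ρ)) : (P.z2 f : H × H → B) = P.c2 f := rfl

/-- functoriality of `H⁰` -/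
noncomputable def H0 : ρ.invariants →ₗ[k] σ.invariants :=
  P.φ.restrict (fun a ha h => by rw [← P.compat, ha (P.r h)])

@[simp] lemma H0_coe (a : ρ.invariants) : (P.H0 a : B) = P.φ a := rfl

/-- functoriality of `H¹` -/
noncomputable def H1 : LH1 𝓥 ρ →ₗ[k] LH1 𝓦 σ :=
  factor (mk1 𝓥 ρ) (mk1_surjective 𝓥 ρ) (mk1 𝓦 σ ∘ₗ P.z1) (fun f hf => by
    rw [mk1_eq_zero_iff] at hf
    rw [LinearMap.comp_apply, mk1_eq_zero_iff]
    exact P.c1_mem_B1 hf)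

/-- functoriality of `H²` -/
noncomputable def H2 : LH2 𝓥 ρ →ₗ[k] LH2 𝓦 σ :=
  factor (mk2 𝓥 ρ) (mk2_surjective 𝓥 ρ) (mk2 𝓦 σ ∘ₗ P.z2) (fun f hf => by
    rw [mk2_eq_zero_iff] at hf
    rw [LinearMap.comp_apply, mk2_eq_zero_iff]
    exact P.c2_mem_B2 hf)

@[simp] lemma H1_mk (f : ↥(Z1 𝓥 ρ)) : P.H1 (mk1 𝓥 ρ f) = mk1 𝓦 σ (P.z1 f) :=
  factor_apply _ _ _ _ _

@[simp] lemma H2_mk (f : ↥(Z2 𝓥 ρ)) : P.H2 (mk2 𝓥 ρ f) = mk2 𝓦 σ (P.z2 f) :=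
  factor_apply _ _ _ _ _

lemma H0_id : (PairHom.id 𝓥 ρ).H0 = LinearMap.id := rfl

lemma H1_id : (PairHom.id 𝓥 ρ).H1 = LinearMap.id := by
  ext x
  obtain ⟨f, rfl⟩ := mk1_surjective 𝓥 ρ x
  rw [H1_mk]
  rfl

lemma H2_id : (PairHom.id 𝓥 ρ).H2 = LinearMap.id := by
  ext x
  obtain ⟨f, rfl⟩ := mk2_surjective 𝓥 ρ x
  rw [H2_mk]
  rfl

lemma H0_comp (Q : PairHom 𝓦 σ 𝓤 τ) (P : PairHom 𝓥 ρ 𝓦 σ) : (Q.comp P).H0 = Q.H0 ∘ₗ P.H0 := rfl

lemma H1_comp (Q : PairHom 𝓦 σ 𝓤 τ) (P : PairHom 𝓥 ρ 𝓦 σ) : (Q.comp P).H1 = Q.H1 ∘ₗ P.H1 := by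
  ext x
  obtain ⟨f, rfl⟩ := mk1_surjective 𝓥 ρ x
  rw [H1_mk, LinearMap.comp_apply, H1_mk, H1_mk]
  rfl

lemma H2_comp (Q : PairHom 𝓦 σ 𝓤 τ) (P : PairHom 𝓥 ρ 𝓦 σ) : (Q.comp P).H2 = Q.H2 ∘ₗ P.H2 := by
  ext x
  obtain ⟨f, rfl⟩ := mk2_surjective 𝓥 ρ x
  rw [H2_mk, LinearMap.comp_apply, H2_mk, H2_mk]
  rfl

lemma H0_comp_apply (Q : PairHom 𝓦 σ 𝓤 τ) (P : PairHom 𝓥 ρ 𝓦 σ) (x : ρ.invariants) :
    (Q.comp P).H0 x = Q.H0 (P.H0 x) := rfl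

lemma H1_comp_apply (Q : PairHom 𝓦 σ 𝓤 τ) (P : PairHom 𝓥 ρ 𝓦 σ) (x : LH1 𝓥 ρ) :
    (Q.comp P).H1 x = Q.H1 (P.H1 x) := by rw [H1_comp]; rfl

lemma H2_comp_apply (Q : PairHom 𝓦 σ 𝓤 τ) (P : PairHom 𝓥 ρ 𝓦 σ) (x : LH2 𝓥 ρ) :
    (Q.comp P).H2 x = Q.H2 (P.H2 x) := by rw [H2_comp]; rfl

/-- two pairs with the same underlying maps induce the same map -/
lemma H1_congr {P Q : PairHom 𝓥 ρ 𝓦 σ} (hr : P.r = Q.r) (hφ : P.φ = Q.φ) : P.H1 = Q.H1 := by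
  cases P; cases Q; cases hr; cases hφ; rfl

lemma H2_congr {P Q : PairHom 𝓥 ρ 𝓦 σ} (hr : P.r = Q.r) (hφ : P.φ = Q.φ) : P.H2 = Q.H2 := by
  cases P; cases Q; cases hr; cases hφ; rfl

lemma ext' {P Q : PairHom 𝓥 ρ 𝓦 σ} (hr : ∀ h, P.r h = Q.r h) (hφ : ∀ a, P.φ a = Q.φ a) :
    P = Q := by
  obtain ⟨r, φ, _, _⟩ := P
  obtain ⟨r', φ', _, _⟩ := Q
  have h1 : r = r' := MonoidHom.ext hr
  have h2 : φ = φ' := LinearMap.ext hφ
  subst h1; subst h2; rfl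

section Linear

variable {ρ' : Representation k G B}

lemma coef_add_H1 {φ φ' : A →ₗ[k] B} (h : ∀ g a, φ (ρ g a) = ρ' g (φ a))
    (h' : ∀ g a, φ' (ρ g a) = ρ' g (φ' a)) :
    (coef 𝓥 (φ + φ') (fun g a => by simp [h, h'])).H1 = (coef 𝓥 φ h).H1 + (coef 𝓥 φ' h').H1 := by
  ext x
  obtain ⟨f, rfl⟩ := mk1_surjective 𝓥 ρ x
  rw [H1_mk, LinearMap.add_apply, H1_mk, H1_mk, ← map_add]
  rfl

lemma coef_add_H2 {φ φ' : A →ₗ[k] B} (h : ∀ g a, φ (ρ g a) = ρ' g (φ a))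
    (h' : ∀ g a, φ' (ρ g a) = ρ' g (φ' a)) :
    (coef 𝓥 (φ + φ') (fun g a => by simp [h, h'])).H2 = (coef 𝓥 φ h).H2 + (coef 𝓥 φ' h').H2 := by
  ext x
  obtain ⟨f, rfl⟩ := mk2_surjective 𝓥 ρ x
  rw [H2_mk, LinearMap.add_apply, H2_mk, H2_mk, ← map_add]
  rfl

lemma coef_smul_H1 (c : k) {φ : A →ₗ[k] B} (h : ∀ g a, φ (ρ g a) = ρ' g (φ a)) :
    (coef 𝓥 (c • φ) (fun g a => by simp [h])).H1 = c • (coef 𝓥 φ h).H1 := by
  ext x
  obtain ⟨f, rfl⟩ := mk1_surjective 𝓥 ρ x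
  rw [H1_mk, LinearMap.smul_apply, H1_mk, ← map_smul]
  rfl

lemma coef_smul_H2 (c : k) {φ : A →ₗ[k] B} (h : ∀ g a, φ (ρ g a) = ρ' g (φ a)) :
    (coef 𝓥 (c • φ) (fun g a => by simp [h])).H2 = c • (coef 𝓥 φ h).H2 := by
  ext x
  obtain ⟨f, rfl⟩ := mk2_surjective 𝓥 ρ x
  rw [H2_mk, LinearMap.smul_apply, H2_mk, ← map_smul]
  rfl

lemma coef_zero_H1 (h : ∀ g a, (0 : A →ₗ[k] B) (ρ g a) = ρ' g ((0 : A →ₗ[k] B) a)) :
    (coef 𝓥 (0 : A →ₗ[k] B) h).H1 = 0 := by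
  ext x
  obtain ⟨f, rfl⟩ := mk1_surjective 𝓥 ρ x
  rw [H1_mk]
  have : (coef 𝓥 (0 : A →ₗ[k] B) h).z1 f = 0 := rfl
  rw [this, map_zero]; rfl

lemma coef_zero_H2 (h : ∀ g a, (0 : A →ₗ[k] B) (ρ g a) = ρ' g ((0 : A →ₗ[k] B) a)) :
    (coef 𝓥 (0 : A →ₗ[k] B) h).H2 = 0 := by
  ext x
  obtain ⟨f, rfl⟩ := mk2_surjective 𝓥 ρ x
  rw [H2_mk]
  have : (coef 𝓥 (0 : A →ₗ[k] B) h).z2 f = 0 := rfl
  rw [this, map_zero]; rfl

end Linear

end PairHom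

end Functoriality

end Fermat.Agent.H92
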