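import Mathlib
import Fermat.Agent.H92LevBasic

set_option autoImplicit false

/-!
# Long exact sequence of level cohomology in degrees 0, 1, 2
-/

namespace Fermat.Agent.H92

open Fermat.Agent.H91 Function

/-- A short exact sequence of representations with smooth middle term. -/
structure SES {k : Type*} [CommRing k] {G : Type*} [Group G]
    {A : Type*} [AddCommGroup A] [Module k A]
    {B : Type*} [AddCommGroup B] [Module k B]
    {C : Type*} [AddCommGroup C] [Module k C]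
    (𝓥 : LevelFam G) (ρA : Representation k G A) (ρB : Representation k G B)
    (ρC : Representation k G C) where
  /-- the injection -/
  f : A →ₗ[k] B
  /-- the surjection -/
  g : B →ₗ[k] C
  hf : ∀ x a, f (ρA x a) = ρB x (f a)
  hg : ∀ x b, g (ρB x b) = ρC x (g b)
  inj : Injective f
  surj : Surjective g
  exact : ∀ b, g b = 0 ↔ ∃ a, f a = b
  smooth : Smooth 𝓥 ρB

section Pull

variable {k : Type*} [CommRing k] {A : Type*} [AddCommGroup A] [Module k A]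
    {B : Type*} [AddCommGroup B] [Module k B] {P : Type*} [AddCommGroup P] [Module k P]
    {X : Type*}

/-- lifting of a linear map with values in functions to the range of `f` through the injective
map `f`. -/
noncomputable def pull (f : A →ₗ[k] B) (hf : Injective f) (D : P →ₗ[k] (X → B))
    (hD : ∀ p x, ∃ a, f a = D p x) : P →ₗ[k] (X → A) where
  toFun p x := (hD p x).choose
  map_add' p q := by
    funext x
    apply hf
    have h1 := (hD (p + q) x).choose_spec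
    have h2 := (hD p x).choose_spec
    have h3 := (hD q x).choose_spec
    refine h1.trans ?_
    rw [map_add, Pi.add_apply, Pi.add_apply, map_add]
    exact (congrArg₂ (· + ·) h2 h3).symm
  map_smul' c p := by
    funext x
    apply hf
    have h1 := (hD (c • p) x).choose_spec
    have h2 := (hD p x).choose_spec
    refine h1.trans ?_
    rw [map_smul, Pi.smul_apply, RingHom.id_apply, Pi.smul_apply, map_smul]
    exact (congrArg (c • ·) h2).symm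

@[simp] lemma pull_apply (f : A →ₗ[k] B) (hf : Injective f) (D : P →ₗ[k] (X → B))
    (hD : ∀ p x, ∃ a, f a = D p x) (p : P) (x : X) : f (pull f hf D hD p x) = D p x :=
  (hD p x).choose_spec

end Pull

namespace SES

variable {k : Type*} [CommRing k] {G : Type*} [Group G]
    {A : Type*} [AddCommGroup A] [Module k A]
    {B : Type*} [AddCommGroup B] [Module k B]
    {C : Type*} [AddCommGroup C] [Module k C]
    {𝓥 : LevelFam G} {ρA : Representation k G A} {ρB : Representation k G B}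
    {ρC : Representation k G C} (E : SES 𝓥 ρA ρB ρC)

include E in
lemma smoothA : Smooth 𝓥 ρA := by
  intro a
  obtain ⟨V, hV, h⟩ := E.smooth (E.f a)
  exact ⟨V, hV, fun s hs => E.inj (by rw [E.hf, h s hs])⟩

include E in
lemma smoothC : Smooth 𝓥 ρC := by
  intro c
  obtain ⟨b, rfl⟩ := E.surj c
  obtain ⟨V, hV, h⟩ := E.smooth b
  exact ⟨V, hV, fun s hs => by rw [← E.hg, h s hs]⟩

lemma gf (a : A) : E.g (E.f a) = 0 := (E.exact _).2 ⟨a, rfl⟩

/-- the pair `A → B` -/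
def fP : PairHom 𝓥 ρA 𝓥 ρB := PairHom.coef 𝓥 E.f E.hf

/-- the pair `B → C` -/
def gP : PairHom 𝓥 ρB 𝓥 ρC := PairHom.coef 𝓥 E.g E.hg

@[simp] lemma fP_c1 (F : G → A) (x : G) : E.fP.c1 F x = E.f (F x) := rfl

@[simp] lemma fP_c2 (F : G × G → A) (x : G × G) : E.fP.c2 F x = E.f (F x) := rfl

@[simp] lemma gP_c1 (F : G → B) (x : G) : E.gP.c1 F x = E.g (F x) := rfl

@[simp] lemma gP_c2 (F : G × G → B) (x : G × G) : E.gP.c2 F x = E.g (F x) := rfl

lemma d1_f (F : G → A) (x : G × G) : E.f (d1 ρA F x) = d1 ρB (fun y => E.f (F y)) x := by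
  obtain ⟨x, y⟩ := x
  simp [E.hf]

lemma d2_f (F : G × G → A) (x : G × G × G) :
    E.f (d2 ρA F x) = d2 ρB (fun y => E.f (F y)) x := by
  obtain ⟨x, y, z⟩ := x
  simp [E.hf]

lemma d1_g (F : G → B) (x : G × G) : E.g (d1 ρB F x) = d1 ρC (fun y => E.g (F y)) x := by
  obtain ⟨x, y⟩ := x
  simp [E.hg]

lemma d2_g (F : G × G → B) (x : G × G × G) :
    E.g (d2 ρB F x) = d2 ρC (fun y => E.g (F y)) x := by
  obtain ⟨x, y, z⟩ := x
  simp [E.hg]

lemma isConst₁_of_f {F : G → A} {F' : G → B} (h : ∀ x, E.f (F x) = F' x)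
    (hF' : 𝓥.IsConst₁ F') : 𝓥.IsConst₁ F := by
  obtain ⟨V, hV, h'⟩ := hF'
  exact ⟨V, hV, fun g s hs => E.inj (by rw [h, h, h' g s hs])⟩

lemma isConst₂_of_f {F : G × G → A} {F' : G × G → B} (h : ∀ x, E.f (F x) = F' x)
    (hF' : 𝓥.IsConst₂ F') : 𝓥.IsConst₂ F := by
  obtain ⟨V, hV, h'⟩ := hF'
  exact ⟨V, hV, fun g g' s hs s' hs' => E.inj (by rw [h, h, h' g g' s hs s' hs'])⟩

/-- a set-theoretic section of `g` -/
noncomputable def sec (c : C) : B := (E.surj c).choose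

@[simp] lemma g_sec (c : C) : E.g (E.sec c) = c := (E.surj c).choose_spec

lemma exists_lift1 {F : G → C} (hF : 𝓥.IsConst₁ F) :
    ∃ F' : G → B, 𝓥.IsConst₁ F' ∧ ∀ x, E.g (F' x) = F x :=
  ⟨fun x => E.sec (F x), hF.comp E.sec, fun _ => E.g_sec _⟩

lemma exists_lift2 {F : G × G → C} (hF : 𝓥.IsConst₂ F) :
    ∃ F' : G × G → B, 𝓥.IsConst₂ F' ∧ ∀ x, E.g (F' x) = F x :=
  ⟨fun x => E.sec (F x), hF.comp E.sec, fun _ => E.g_sec _⟩

/-! ### The connecting map in degree 0 -/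

/-- lifts of invariants -/
noncomputable def P0 : Submodule k B := ρC.invariants.comap E.g

lemma mem_P0_iff {b : B} : b ∈ E.P0 ↔ ∀ x, ρC x (E.g b) = E.g b := Iff.rfl

/-- the projection `P0 → C^G` -/
noncomputable def α0 : E.P0 →ₗ[k] ρC.invariants :=
  E.g.restrict (fun _ hb => hb)

@[simp] lemma α0_coe (b : E.P0) : (E.α0 b : C) = E.g b := rfl

lemma α0_surjective : Surjective E.α0 := by
  rintro ⟨c, hc⟩
  obtain ⟨b, rfl⟩ := E.surj c
  exact ⟨⟨b, hc⟩, rfl⟩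

lemma β0_aux (b : E.P0) (x : G) : ∃ a, E.f a = (d0 ρB ∘ₗ E.P0.subtype) b x := by
  rw [← E.exact]
  simp only [LinearMap.comp_apply, Submodule.subtype_apply, d0_apply, map_sub, E.hg]
  rw [(E.mem_P0_iff.1 b.2 x), sub_self]

/-- the cochain `x ↦ f⁻¹(x b - b)` -/
noncomputable def β0c : E.P0 →ₗ[k] (G → A) := pull E.f E.inj (d0 ρB ∘ₗ E.P0.subtype) E.β0_aux

@[simp] lemma f_β0c (b : E.P0) (x : G) : E.f (E.β0c b x) = ρB x b - b :=
  pull_apply E.f E.inj (d0 ρB ∘ₗ E.P0.subtype) E.β0_aux b x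

lemma β0c_mem (b : E.P0) : E.β0c b ∈ Z1 𝓥 ρA := by
  rw [mem_Z1_iff]
  constructor
  · funext x
    apply E.inj
    rw [E.d1_f, Pi.zero_apply, map_zero]
    have : (fun y => E.f (E.β0c b y)) = d0 ρB (b : B) := by
      funext y
      simp
    rw [this, d1_d0]
    rfl
  · exact E.isConst₁_of_f (fun x => E.f_β0c b x) (d0_mem_LC1 E.smooth (b : B))

/-- `P0 → H¹(A)` -/
noncomputable def β0 : E.P0 →ₗ[k] LH1 𝓥 ρA :=
  mk1 𝓥 ρA ∘ₗ E.β0c.codRestrict (Z1 𝓥 ρA) E.β0c_mem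

/-- The connecting map `H⁰(C) → H¹(A)` -/
noncomputable def δ0 : ρC.invariants →ₗ[k] LH1 𝓥 ρA :=
  factor E.α0 E.α0_surjective E.β0 (fun b hb => by
    have hb' : E.g (b : B) = 0 := congrArg Subtype.val hb
    obtain ⟨a, ha⟩ := (E.exact _).1 hb'
    refine mk1_eq_zero_iff.2 ⟨a, ?_⟩
    funext x
    apply E.inj
    rw [d0_apply, map_sub, E.hf, ha]
    exact (E.f_β0c b x).symm)

/-- characterisation of `δ0` -/
lemma δ0_eq {c : C} (hc : c ∈ ρC.invariants) {b : B} (hb : E.g b = c) {a : ↥(Z1 𝓥 ρA)}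
    (ha : ∀ x, E.f ((a : G → A) x) = ρB x b - b) : E.δ0 ⟨c, hc⟩ = mk1 𝓥 ρA a := by
  subst hb
  have h1 : (⟨E.g b, hc⟩ : ρC.invariants) = E.α0 ⟨b, hc⟩ := rfl
  rw [h1, δ0, factor_apply, β0, LinearMap.comp_apply]
  congr 1
  ext x
  apply E.inj
  rw [ha]
  exact E.f_β0c _ _

lemma exists_δ0 (c : ρC.invariants) : ∃ (b : B) (a : ↥(Z1 𝓥 ρA)), E.g b = c ∧
    (∀ x, E.f ((a : G → A) x) = ρB x b - b) ∧ E.δ0 c = mk1 𝓥 ρA a := by
  obtain ⟨b, rfl⟩ := E.α0_surjective c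
  refine ⟨b, ⟨E.β0c b, E.β0c_mem b⟩, rfl, fun x => E.f_β0c b x, ?_⟩
  rw [δ0, factor_apply]
  rfl

/-! ### The connecting map in degree 1 -/

/-- level-constant lifts of cocycles -/
noncomputable def P1 : Submodule k (G → B) := LC1 k B 𝓥 ⊓ (Z1 𝓥 ρC).comap E.gP.c1

lemma mem_P1_iff {b : G → B} : b ∈ E.P1 ↔ 𝓥.IsConst₁ b ∧ E.gP.c1 b ∈ Z1 𝓥 ρC := Iff.rfl

/-- the projection `P1 → Z¹(C)` -/
noncomputable def α1c : E.P1 →ₗ[k] ↥(Z1 𝓥 ρC) :=
  E.gP.c1.restrict (fun _ hb => hb.2)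

lemma α1c_surjective : Surjective E.α1c := by
  rintro ⟨c, hc⟩
  obtain ⟨b, hb, h⟩ := E.exists_lift1 hc.2
  have h' : E.gP.c1 b = c := funext h
  exact ⟨⟨b, hb, show E.gP.c1 b ∈ Z1 𝓥 ρC by rw [h']; exact hc⟩, Subtype.ext h'⟩

/-- the projection `P1 → H¹(C)` -/
noncomputable def α1 : E.P1 →ₗ[k] LH1 𝓥 ρC := mk1 𝓥 ρC ∘ₗ E.α1c

lemma α1_surjective : Surjective E.α1 := (mk1_surjective 𝓥 ρC).comp E.α1c_surjective

lemma β1_aux (b : E.P1) (x : G × G) : ∃ a, E.f a = (d1 ρB ∘ₗ E.P1.subtype) b x := by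
  rw [← E.exact]
  simp only [LinearMap.comp_apply, Submodule.subtype_apply, E.d1_g]
  exact congrFun (mem_Z1_iff.1 b.2.2).1 x

/-- the cochain `f⁻¹(d b)` -/
noncomputable def β1c : E.P1 →ₗ[k] (G × G → A) := pull E.f E.inj (d1 ρB ∘ₗ E.P1.subtype) E.β1_aux

@[simp] lemma f_β1c (b : E.P1) (x : G × G) : E.f (E.β1c b x) = d1 ρB (b : G → B) x :=
  pull_apply E.f E.inj (d1 ρB ∘ₗ E.P1.subtype) E.β1_aux b x

lemma β1c_mem (b : E.P1) : E.β1c b ∈ Z2 𝓥 ρA := by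
  rw [mem_Z2_iff]
  constructor
  · funext x
    apply E.inj
    rw [E.d2_f, Pi.zero_apply, map_zero]
    have : (fun y => E.f (E.β1c b y)) = d1 ρB (b : G → B) := by
      funext y
      simp
    rw [this, d2_d1]
    rfl
  · exact E.isConst₂_of_f (fun x => E.f_β1c b x) (d1_mem_LC2 E.smooth b.2.1)

/-- `P1 → H²(A)` -/
noncomputable def β1 : E.P1 →ₗ[k] LH2 𝓥 ρA :=
  mk2 𝓥 ρA ∘ₗ E.β1c.codRestrict (Z2 𝓥 ρA) E.β1c_mem

lemma ker_α1_le (b : E.P1) (hb : E.α1 b = 0) : E.β1 b = 0 := by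
  obtain ⟨c, hc⟩ := mk1_eq_zero_iff'.1 hb
  obtain ⟨b', rfl⟩ := E.surj c
  have h1 : ∀ x, E.g ((b : G → B) x - (ρB x b' - b')) = 0 := by
    intro x
    rw [map_sub, map_sub, E.hg]
    have : E.g ((b : G → B) x) = ρC x (E.g b') - E.g b' := hc x
    rw [this, sub_self]
  choose a ha using fun x => (E.exact _).1 (h1 x)
  have hconst : 𝓥.IsConst₁ a :=
    E.isConst₁_of_f ha (b.2.1.map₂ (d0_mem_LC1 E.smooth b') (fun x y => x - y))
  refine mk2_eq_zero_iff.2 ⟨a, hconst, ?_⟩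
  funext x
  apply E.inj
  rw [E.d1_f]
  have h2 : (fun y => E.f (a y)) = (b : G → B) - d0 ρB b' := by
    funext y
    rw [ha]; rfl
  rw [h2, map_sub, d1_d0, sub_zero]
  exact (E.f_β1c b x).symm

/-- The connecting map `H¹(C) → H²(A)` -/
noncomputable def δ1 : LH1 𝓥 ρC →ₗ[k] LH2 𝓥 ρA :=
  factor E.α1 E.α1_surjective E.β1 E.ker_α1_le

/-- characterisation of `δ1` -/
lemma δ1_eq {c : ↥(Z1 𝓥 ρC)} {b : G → B} (hbc : 𝓥.IsConst₁ b) (hb : ∀ x, E.g (b x) = (c : G → C) x)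
    {a : ↥(Z2 𝓥 ρA)} (ha : ∀ x, E.f ((a : G × G → A) x) = d1 ρB b x) :
    E.δ1 (mk1 𝓥 ρC c) = mk2 𝓥 ρA a := by
  have hb' : E.gP.c1 b = c := funext hb
  let b' : E.P1 := ⟨b, hbc, show E.gP.c1 b ∈ Z1 𝓥 ρC by rw [hb']; exact c.2⟩
  have h1 : mk1 𝓥 ρC c = E.α1 b' := by
    rw [α1, LinearMap.comp_apply]
    congr 1
    exact Subtype.ext hb'.symm
  rw [h1, δ1, factor_apply, β1, LinearMap.comp_apply]
  congr 1
  ext x
  apply E.inj
  rw [ha]
  exact E.f_β1c b' x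

lemma exists_δ1 (c : ↥(Z1 𝓥 ρC)) : ∃ (b : G → B) (a : ↥(Z2 𝓥 ρA)), 𝓥.IsConst₁ b ∧
    (∀ x, E.g (b x) = (c : G → C) x) ∧ (∀ x, E.f ((a : G × G → A) x) = d1 ρB b x) ∧
    E.δ1 (mk1 𝓥 ρC c) = mk2 𝓥 ρA a := by
  obtain ⟨b, rfl⟩ := E.α1c_surjective c
  have h1 : ∀ x, E.g ((b : G → B) x) = ((E.α1c b : ↥(Z1 𝓥 ρC)) : G → C) x := fun x => rfl
  refine ⟨b, ⟨E.β1c b, E.β1c_mem b⟩, b.2.1, h1, fun x => E.f_β1c b x, ?_⟩
  exact E.δ1_eq b.2.1 h1 (fun x => E.f_β1c b x)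

/-! ### Exactness -/

lemma H0_f_injective : Injective E.fP.H0 := by
  intro a a' h
  apply Subtype.ext
  apply E.inj
  exact congrArg Subtype.val h

lemma exact_H0_f_g : Exact E.fP.H0 E.gP.H0 := by
  intro b
  constructor
  · intro hb
    obtain ⟨a, ha⟩ := (E.exact _).1 (congrArg Subtype.val hb)
    refine ⟨⟨a, fun x => ?_⟩, Subtype.ext ha⟩
    apply E.inj
    rw [E.hf, ha]
    exact b.2 x
  · rintro ⟨a, rfl⟩
    exact Subtype.ext (E.gf a)

lemma exact_H0_g_δ0 : Exact E.gP.H0 E.δ0 := by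
  intro c
  constructor
  · intro hc
    obtain ⟨b, a, hb, ha, h⟩ := E.exists_δ0 c
    rw [h] at hc
    obtain ⟨a', ha'⟩ := mk1_eq_zero_iff'.1 hc
    refine ⟨⟨b - E.f a', fun x => ?_⟩, ?_⟩
    · rw [map_sub, ← E.hf]
      have := ha x
      rw [ha' x, map_sub] at this
      rw [sub_eq_sub_iff_add_eq_add] at this ⊢
      rw [← this]
      abel
    · apply Subtype.ext
      change E.g (b - E.f a') = c
      rw [map_sub, E.gf, sub_zero, hb]
  · rintro ⟨b, rfl⟩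
    have : E.δ0 (E.gP.H0 b) = mk1 𝓥 ρA 0 := by
      refine E.δ0_eq (b := (b : B)) (a := 0) _ rfl (fun x => ?_)
      rw [b.2 x, sub_self]
      exact map_zero _
    rw [this, map_zero]

lemma exact_δ0_H1_f : Exact E.δ0 E.fP.H1 := by
  intro a
  obtain ⟨a, rfl⟩ := mk1_surjective 𝓥 ρA a
  constructor
  · intro h
    rw [PairHom.H1_mk, mk1_eq_zero_iff'] at h
    obtain ⟨b, hb⟩ := h
    have hinv : E.g b ∈ ρC.invariants := by
      intro x
      rw [← E.hg, ← sub_eq_zero, ← map_sub, ← hb x]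
      exact E.gf _
    exact ⟨⟨E.g b, hinv⟩, E.δ0_eq hinv rfl hb⟩
  · rintro ⟨c, hc⟩
    obtain ⟨b, a', hb, ha', h⟩ := E.exists_δ0 c
    rw [← hc, h, PairHom.H1_mk, mk1_eq_zero_iff']
    exact ⟨b, ha'⟩

lemma exact_H1_f_g : Exact E.fP.H1 E.gP.H1 := by
  intro b
  obtain ⟨b, rfl⟩ := mk1_surjective 𝓥 ρB b
  constructor
  · intro h
    rw [PairHom.H1_mk, mk1_eq_zero_iff'] at h
    obtain ⟨c, hc⟩ := h
    obtain ⟨b', rfl⟩ := E.surj c
    have h1 : ∀ x, E.g ((b : G → B) x - (ρB x b' - b')) = 0 := by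
      intro x
      rw [map_sub, map_sub, E.hg]
      have : E.g ((b : G → B) x) = ρC x (E.g b') - E.g b' := hc x
      rw [this, sub_self]
    choose a ha using fun x => (E.exact _).1 (h1 x)
    have h2 : (fun y => E.f (a y)) = (b : G → B) - d0 ρB b' := by
      funext y
      rw [ha]; rfl
    have hmem : a ∈ Z1 𝓥 ρA := by
      rw [mem_Z1_iff]
      constructor
      · funext x
        apply E.inj
        rw [E.d1_f, h2, map_sub, d1_d0, (mem_Z1_iff.1 b.2).1, sub_zero]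
        simp
      · exact E.isConst₁_of_f ha (b.2.2.map₂ (d0_mem_LC1 E.smooth b') (fun x y => x - y))
    refine ⟨mk1 𝓥 ρA ⟨a, hmem⟩, ?_⟩
    rw [PairHom.H1_mk, mk1_eq_mk1_iff, ← neg_sub]
    refine neg_mem ⟨b', ?_⟩
    funext y
    have := congrFun h2 y
    simp only [Pi.sub_apply] at this
    rw [Pi.sub_apply]
    change _ = (b : G → B) y - E.f (a y)
    rw [this, sub_sub_cancel]
  · rintro ⟨a, ha⟩
    rw [← ha]
    obtain ⟨a, rfl⟩ := mk1_surjective 𝓥 ρA a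
    rw [PairHom.H1_mk, PairHom.H1_mk, mk1_eq_zero_iff']
    refine ⟨0, fun x => ?_⟩
    rw [map_zero, sub_zero]
    exact E.gf _

lemma exact_H1_g_δ1 : Exact E.gP.H1 E.δ1 := by
  intro c
  obtain ⟨c, rfl⟩ := mk1_surjective 𝓥 ρC c
  constructor
  · intro hc
    obtain ⟨b, a, hbc, hb, ha, h⟩ := E.exists_δ1 c
    rw [h, mk2_eq_zero_iff'] at hc
    obtain ⟨a', ha'c, ha'⟩ := hc
    have h2 : d1 ρB (b - fun y => E.f (a' y)) = 0 := by
      rw [map_sub]
      funext x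
      rw [Pi.sub_apply, ← E.d1_f, ha', ha, sub_self]
      rfl
    refine ⟨mk1 𝓥 ρB ⟨b - fun y => E.f (a' y), mem_Z1_iff.2 ⟨h2, ?_⟩⟩, ?_⟩
    · exact hbc.map₂ (ha'c.comp E.f) (fun x y => x - y)
    · rw [PairHom.H1_mk]
      congr 1
      apply Subtype.ext
      funext x
      change E.g (b x - E.f (a' x)) = _
      rw [map_sub, E.gf, sub_zero, hb]
  · rintro ⟨b, hb⟩
    obtain ⟨b, rfl⟩ := mk1_surjective 𝓥 ρB b
    rw [← hb, PairHom.H1_mk]
    have : E.δ1 (mk1 𝓥 ρC (E.gP.z1 b)) = mk2 𝓥 ρA 0 := by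
      refine E.δ1_eq (b := b) (a := 0) b.2.2 (fun x => rfl) (fun x => ?_)
      rw [(mem_Z1_iff.1 b.2).1]
      exact map_zero _
    rw [this, map_zero]

lemma exact_δ1_H2_f : Exact E.δ1 E.fP.H2 := by
  intro a
  obtain ⟨a, rfl⟩ := mk2_surjective 𝓥 ρA a
  constructor
  · intro h
    rw [PairHom.H2_mk, mk2_eq_zero_iff'] at h
    obtain ⟨b, hbc, hb⟩ := h
    have hb' : ∀ x, E.f ((a : G × G → A) x) = d1 ρB b x := fun x => (congrFun hb x).symm
    have hz : E.gP.c1 b ∈ Z1 𝓥 ρC := by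
      rw [mem_Z1_iff]
      refine ⟨?_, hbc.comp E.g⟩
      funext x
      change d1 ρC (fun y => E.g (b y)) x = 0
      rw [← E.d1_g, ← hb', E.gf]
    exact ⟨mk1 𝓥 ρC ⟨_, hz⟩, E.δ1_eq hbc (fun x => rfl) hb'⟩
  · rintro ⟨c, hc⟩
    obtain ⟨c, rfl⟩ := mk1_surjective 𝓥 ρC c
    obtain ⟨b, a', hbc, hb, ha', h⟩ := E.exists_δ1 c
    rw [← hc, h, PairHom.H2_mk, mk2_eq_zero_iff']
    exact ⟨b, hbc, funext fun x => (ha' x).symm⟩

lemma exact_H2_f_g : Exact E.fP.H2 E.gP.H2 := by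
  intro b
  obtain ⟨b, rfl⟩ := mk2_surjective 𝓥 ρB b
  constructor
  · intro h
    rw [PairHom.H2_mk, mk2_eq_zero_iff'] at h
    obtain ⟨c, hcc, hc⟩ := h
    obtain ⟨b', hb'c, hb'⟩ := E.exists_lift1 hcc
    have h1 : ∀ x, E.g (((b : G × G → B) - d1 ρB b') x) = 0 := by
      intro x
      rw [Pi.sub_apply, map_sub, E.d1_g, show (fun y => E.g (b' y)) = c from funext hb', hc]
      exact sub_self _
    choose a ha using fun x => (E.exact _).1 (h1 x)
    have h2 : (fun y => E.f (a y)) = (b : G × G → B) - d1 ρB b' := funext ha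
    have hmem : a ∈ Z2 𝓥 ρA := by
      rw [mem_Z2_iff]
      constructor
      · funext x
        apply E.inj
        rw [E.d2_f, h2, map_sub, d2_d1, (mem_Z2_iff.1 b.2).1, sub_zero]
        simp
      · exact E.isConst₂_of_f ha (b.2.2.map₂ (d1_mem_LC2 E.smooth hb'c) (fun x y => x - y))
    refine ⟨mk2 𝓥 ρA ⟨a, hmem⟩, ?_⟩
    rw [PairHom.H2_mk, mk2_eq_mk2_iff, ← neg_sub]
    refine neg_mem ⟨b', hb'c, ?_⟩
    funext y
    have := congrFun h2 y
    simp only [Pi.sub_apply] at this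
    rw [Pi.sub_apply]
    change _ = (b : G × G → B) y - E.f (a y)
    rw [this, sub_sub_cancel]
  · rintro ⟨a, ha⟩
    rw [← ha]
    obtain ⟨a, rfl⟩ := mk2_surjective 𝓥 ρA a
    rw [PairHom.H2_mk, PairHom.H2_mk, mk2_eq_zero_iff']
    refine ⟨0, LevelFam.isConst₁_const 0, ?_⟩
    funext x
    rw [map_zero]
    change 0 = E.g (E.f _)
    rw [E.gf]

end SES

end Fermat.Agent.H92
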