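import Mathlib
import Fermat.Agent.H92LevLES

set_option autoImplicit false

/-!
# Naturality of connecting maps and Euler characteristics
-/

namespace Fermat.Agent.H92

open Fermat.Agent.H91 Function

/-! ### Morphisms of short exact sequences -/

/-- Morphism of short exact sequences, along a homomorphism of groups with level families. -/
structure SESHom {k : Type*} [CommRing k] {G : Type*} [Group G]
    {A : Type*} [AddCommGroup A] [Module k A]
    {B : Type*} [AddCommGroup B] [Module k B]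
    {C : Type*} [AddCommGroup C] [Module k C]
    {𝓥 : LevelFam G} {ρA : Representation k G A} {ρB : Representation k G B}
    {ρC : Representation k G C} (E : SES 𝓥 ρA ρB ρC)
    {H : Type*} [Group H]
    {A' : Type*} [AddCommGroup A'] [Module k A']
    {B' : Type*} [AddCommGroup B'] [Module k B']
    {C' : Type*} [AddCommGroup C'] [Module k C']
    {𝓦 : LevelFam H} {σA : Representation k H A'} {σB : Representation k H B'}
    {σC : Representation k H C'} (E' : SES 𝓦 σA σB σC) where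
  /-- the pair on the first terms -/
  PA : PairHom 𝓥 ρA 𝓦 σA
  /-- the pair on the second terms -/
  PB : PairHom 𝓥 ρB 𝓦 σB
  /-- the pair on the third terms -/
  PC : PairHom 𝓥 ρC 𝓦 σC
  hrA : ∀ h, PA.r h = PB.r h
  hrC : ∀ h, PC.r h = PB.r h
  hf : ∀ a, E'.f (PA.φ a) = PB.φ (E.f a)
  hg : ∀ b, E'.g (PB.φ b) = PC.φ (E.g b)

namespace SESHom

variable {k : Type*} [CommRing k] {G : Type*} [Group G]
    {A : Type*} [AddCommGroup A] [Module k A]
    {B : Type*} [AddCommGroup B] [Module k B]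
    {C : Type*} [AddCommGroup C] [Module k C]
    {𝓥 : LevelFam G} {ρA : Representation k G A} {ρB : Representation k G B}
    {ρC : Representation k G C} {E : SES 𝓥 ρA ρB ρC}
    {H : Type*} [Group H]
    {A' : Type*} [AddCommGroup A'] [Module k A']
    {B' : Type*} [AddCommGroup B'] [Module k B']
    {C' : Type*} [AddCommGroup C'] [Module k C']
    {𝓦 : LevelFam H} {σA : Representation k H A'} {σB : Representation k H B'}
    {σC : Representation k H C'} {E' : SES 𝓦 σA σB σC} (S : SESHom E E')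

lemma nat_δ0 (c : ρC.invariants) : S.PA.H1 (E.δ0 c) = E'.δ0 (S.PC.H0 c) := by
  obtain ⟨b, a, hb, ha, h⟩ := E.exists_δ0 c
  rw [h, PairHom.H1_mk]
  symm
  have h1 : E'.g (S.PB.φ b) = (S.PC.H0 c : C') := by
    rw [S.hg, hb]; rfl
  refine E'.δ0_eq (S.PC.H0 c).2 h1 (fun x => ?_)
  rw [PairHom.z1_coe, PairHom.c1_apply, S.hf, S.hrA, ha, map_sub, S.PB.compat]

lemma nat_δ1 (c : LH1 𝓥 ρC) : S.PA.H2 (E.δ1 c) = E'.δ1 (S.PC.H1 c) := by
  obtain ⟨c, rfl⟩ := mk1_surjective 𝓥 ρC c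
  obtain ⟨b, a, hbc, hb, ha, h⟩ := E.exists_δ1 c
  rw [h, PairHom.H2_mk, PairHom.H1_mk]
  symm
  refine E'.δ1_eq (b := S.PB.c1 b) (S.PB.c1_mem_LC1 hbc) (fun x => ?_) (fun x => ?_)
  · rw [PairHom.c1_apply, S.hg, hb, PairHom.z1_coe, PairHom.c1_apply, S.hrC]
  · obtain ⟨x, y⟩ := x
    rw [PairHom.z2_coe, PairHom.c2_apply, S.hf, S.hrA, S.hrA, ha, ← PairHom.c2_d1]
    rfl

lemma nat_H0_f (a : ρA.invariants) : S.PB.H0 (E.fP.H0 a) = E'.fP.H0 (S.PA.H0 a) :=
  Subtype.ext (S.hf a).symm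

lemma nat_H0_g (b : ρB.invariants) : S.PC.H0 (E.gP.H0 b) = E'.gP.H0 (S.PB.H0 b) :=
  Subtype.ext (S.hg b).symm

lemma nat_H1_f (a : LH1 𝓥 ρA) : S.PB.H1 (E.fP.H1 a) = E'.fP.H1 (S.PA.H1 a) := by
  rw [← PairHom.H1_comp_apply, ← PairHom.H1_comp_apply]
  congr 2
  exact PairHom.ext' (fun h => (S.hrA h).symm) (fun a => (S.hf a).symm)

lemma nat_H1_g (a : LH1 𝓥 ρB) : S.PC.H1 (E.gP.H1 a) = E'.gP.H1 (S.PB.H1 a) := by
  rw [← PairHom.H1_comp_apply, ← PairHom.H1_comp_apply]
  congr 2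
  exact PairHom.ext' (fun h => S.hrC h) (fun a => (S.hg a).symm)

lemma nat_H2_f (a : LH2 𝓥 ρA) : S.PB.H2 (E.fP.H2 a) = E'.fP.H2 (S.PA.H2 a) := by
  rw [← PairHom.H2_comp_apply, ← PairHom.H2_comp_apply]
  congr 2
  exact PairHom.ext' (fun h => (S.hrA h).symm) (fun a => (S.hf a).symm)

lemma nat_H2_g (a : LH2 𝓥 ρB) : S.PC.H2 (E.gP.H2 a) = E'.gP.H2 (S.PB.H2 a) := by
  rw [← PairHom.H2_comp_apply, ← PairHom.H2_comp_apply]
  congr 2
  exact PairHom.ext' (fun h => S.hrC h) (fun a => (S.hg a).symm)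

end SESHom

namespace SES

variable {k : Type*} [CommRing k] {G : Type*} [Group G]
    {A : Type*} [AddCommGroup A] [Module k A]
    {B : Type*} [AddCommGroup B] [Module k B]
    {C : Type*} [AddCommGroup C] [Module k C]
    {𝓥 : LevelFam G} {ρA : Representation k G A} {ρB : Representation k G B}
    {ρC : Representation k G C} (E : SES 𝓥 ρA ρB ρC)
    {H : Type*} [Group H] {𝓦 : LevelFam H}

/-- pull-back of a short exact sequence along a group homomorphism -/
@[simps] def res (r : H →* G) (h : ∀ V ∈ 𝓥.carrier, ∃ W ∈ 𝓦.carrier, ∀ s ∈ W, r s ∈ V) :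
    SES 𝓦 (ρA.comp r) (ρB.comp r) (ρC.comp r) where
  f := E.f
  g := E.g
  hf x a := E.hf (r x) a
  hg x a := E.hg (r x) a
  inj := E.inj
  surj := E.surj
  exact := E.exact
  smooth b := by
    obtain ⟨V, hV, h'⟩ := E.smooth b
    obtain ⟨W, hW, h''⟩ := h V hV
    exact ⟨W, hW, fun s hs => h' _ (h'' s hs)⟩

/-- the morphism from a short exact sequence to its pull-back -/
@[simps] def resHom (r : H →* G) (h : ∀ V ∈ 𝓥.carrier, ∃ W ∈ 𝓦.carrier, ∀ s ∈ W, r s ∈ V) :
    SESHom E (E.res r h) where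
  PA := PairHom.res 𝓥 ρA 𝓦 r h
  PB := PairHom.res 𝓥 ρB 𝓦 r h
  PC := PairHom.res 𝓥 ρC 𝓦 r h
  hrA _ := rfl
  hrC _ := rfl
  hf _ := rfl
  hg _ := rfl

end SES

/-! ### Smoothness of constructions -/

section SmoothConstructions

variable {k : Type*} [CommRing k] {G : Type*} [Group G] {H : Type*} [Group H]
    {A : Type*} [AddCommGroup A] [Module k A]
    {B : Type*} [AddCommGroup B] [Module k B]
    {𝓥 : LevelFam G} {𝓦 : LevelFam H} {ρ : Representation k G A} {ρ' : Representation k G B}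

lemma Smooth.of_injective (hs : Smooth 𝓥 ρ') (f : A →ₗ[k] B) (hf : ∀ x a, f (ρ x a) = ρ' x (f a))
    (inj : Injective f) : Smooth 𝓥 ρ := by
  intro a
  obtain ⟨V, hV, h⟩ := hs (f a)
  exact ⟨V, hV, fun s hs => inj (by rw [hf, h s hs])⟩

lemma Smooth.of_surjective (hs : Smooth 𝓥 ρ) (f : A →ₗ[k] B) (hf : ∀ x a, f (ρ x a) = ρ' x (f a))
    (surj : Surjective f) : Smooth 𝓥 ρ' := by
  intro c
  obtain ⟨b, rfl⟩ := surj c
  obtain ⟨V, hV, h⟩ := hs b
  exact ⟨V, hV, fun s hs => by rw [← hf, h s hs]⟩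

lemma Smooth.comp (hs : Smooth 𝓥 ρ) (r : H →* G)
    (h : ∀ V ∈ 𝓥.carrier, ∃ W ∈ 𝓦.carrier, ∀ s ∈ W, r s ∈ V) : Smooth 𝓦 (ρ.comp r) := by
  intro b
  obtain ⟨V, hV, h'⟩ := hs b
  obtain ⟨W, hW, h''⟩ := h V hV
  exact ⟨W, hW, fun s hs => h' _ (h'' s hs)⟩

lemma Smooth.comap (hs : Smooth 𝓥 ρ) (r : H →* G) : Smooth (𝓥.comap r) (ρ.comp r) :=
  hs.comp r (fun V hV => ⟨_, ⟨V, hV, rfl⟩, fun _ hs => hs⟩)

end SmoothConstructions

/-! ### Dimension counts -/

section Dim

variable {k : Type*} [Field k]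

lemma finite_of_exact {X Y Z : Type*} [AddCommGroup X] [Module k X] [AddCommGroup Y] [Module k Y]
    [AddCommGroup Z] [Module k Z] {f : X →ₗ[k] Y} {g : Y →ₗ[k] Z} (h : Exact f g)
    [Module.Finite k X] [Module.Finite k Z] : Module.Finite k Y := by
  have h1 : Module.Finite k (LinearMap.range g) := inferInstance
  have h2 : Module.Finite k (LinearMap.ker g) := by
    rw [LinearMap.exact_iff.1 h]
    infer_instance
  have h3 : Module.Finite k (Y ⧸ LinearMap.ker g) :=
    Module.Finite.equiv g.quotKerEquivRange.symm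
  exact Module.Finite.of_submodule_quotient (LinearMap.ker g)

lemma finrank_of_exact {X Y Z : Type*} [AddCommGroup X] [Module k X] [AddCommGroup Y] [Module k Y]
    [AddCommGroup Z] [Module k Z] {f : X →ₗ[k] Y} {g : Y →ₗ[k] Z} (h : Exact f g)
    [Module.Finite k Y] : Module.finrank k Y =
      Module.finrank k (LinearMap.range f) + Module.finrank k (LinearMap.range g) := by
  rw [← LinearMap.finrank_range_add_finrank_ker g, LinearMap.exact_iff.1 h, add_comm]

lemma finrank_range_of_injective {X Y : Type*} [AddCommGroup X] [Module k X] [AddCommGroup Y]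
    [Module k Y] {f : X →ₗ[k] Y} (h : Injective f) :
    Module.finrank k (LinearMap.range f) = Module.finrank k X :=
  (LinearEquiv.ofInjective f h).finrank_eq.symm

lemma finrank_coker {X Y : Type*} [AddCommGroup X] [Module k X] [AddCommGroup Y]
    [Module k Y] [Module.Finite k Y] (f : X →ₗ[k] Y) :
    Module.finrank k (Y ⧸ LinearMap.range f) + Module.finrank k (LinearMap.range f)
      = Module.finrank k Y :=
  Submodule.finrank_quotient_add_finrank _

variable {G : Type*} [Group G]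
    {A : Type*} [AddCommGroup A] [Module k A]
    {B : Type*} [AddCommGroup B] [Module k B]
    {C : Type*} [AddCommGroup C] [Module k C]
    {𝓥 : LevelFam G} {ρA : Representation k G A} {ρB : Representation k G B}
    {ρC : Representation k G C}

/-- finiteness of level cohomology in degrees ≤ 2 -/
class FinCoh (𝓥 : LevelFam G) (ρ : Representation k G A) : Prop where
  fin0 : Module.Finite k ρ.invariants
  fin1 : Module.Finite k (LH1 𝓥 ρ)
  fin2 : Module.Finite k (LH2 𝓥 ρ)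

attribute [instance] FinCoh.fin1 FinCoh.fin2

/-- the partial Euler characteristic -/
noncomputable def chi2 (𝓥 : LevelFam G) (ρ : Representation k G A) : ℤ :=
  Module.finrank k ρ.invariants - Module.finrank k (LH1 𝓥 ρ) + Module.finrank k (LH2 𝓥 ρ)

lemma SES.finCoh (E : SES 𝓥 ρA ρB ρC) (hA : FinCoh 𝓥 ρA) (hC : FinCoh 𝓥 ρC) : FinCoh 𝓥 ρB := by
  have := hA.fin0
  have := hC.fin0
  exact ⟨finite_of_exact E.exact_H0_f_g, finite_of_exact E.exact_H1_f_g,
    finite_of_exact E.exact_H2_f_g⟩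

/-- the partial Euler characteristic is additive up to the cokernel on `H²`. -/
theorem SES.chi2_add (E : SES 𝓥 ρA ρB ρC) (hA : FinCoh 𝓥 ρA) (hC : FinCoh 𝓥 ρC) :
    chi2 𝓥 ρB + Module.finrank k (LH2 𝓥 ρC ⧸ LinearMap.range E.gP.H2) =
      chi2 𝓥 ρA + chi2 𝓥 ρC := by
  have hB := E.finCoh hA hC
  have := hA.fin0
  have := hB.fin0
  have := hC.fin0
  have h1 := finrank_range_of_injective E.H0_f_injective
  have h2 := finrank_of_exact E.exact_H0_f_g
  have h3 := finrank_of_exact E.exact_H0_g_δ0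
  have h4 := finrank_of_exact E.exact_δ0_H1_f
  have h5 := finrank_of_exact E.exact_H1_f_g
  have h6 := finrank_of_exact E.exact_H1_g_δ1
  have h7 := finrank_of_exact E.exact_δ1_H2_f
  have h8 := finrank_of_exact E.exact_H2_f_g
  have h9 := finrank_coker E.gP.H2
  unfold chi2
  omega

theorem SES.chi2_le (E : SES 𝓥 ρA ρB ρC) (hA : FinCoh 𝓥 ρA) (hC : FinCoh 𝓥 ρC) :
    chi2 𝓥 ρB ≤ chi2 𝓥 ρA + chi2 𝓥 ρC := by
  have := E.chi2_add hA hC
  omega

theorem SES.chi2_eq_iff (E : SES 𝓥 ρA ρB ρC) (hA : FinCoh 𝓥 ρA) (hC : FinCoh 𝓥 ρC) :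
    chi2 𝓥 ρB = chi2 𝓥 ρA + chi2 𝓥 ρC ↔ Surjective E.gP.H2 := by
  have h := E.chi2_add hA hC
  rw [← LinearMap.range_eq_top]
  constructor
  · intro h'
    have h0 : Module.finrank k (LH2 𝓥 ρC ⧸ LinearMap.range E.gP.H2) = 0 := by omega
    rwa [Module.finrank_zero_iff, Submodule.Quotient.subsingleton_iff] at h0
  · intro h'
    have h0 : Module.finrank k (LH2 𝓥 ρC ⧸ LinearMap.range E.gP.H2) = 0 := by
      rwa [Module.finrank_zero_iff, Submodule.Quotient.subsingleton_iff]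
    omega

end Dim

end Fermat.Agent.H92
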