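import Mathlib
import Fermat.Agent.H55Funct
import Fermat.Agent.H92LevNat

set_option autoImplicit false
set_option maxSynthPendingDepth 3

/-!
# S55 : comparison of `H55.H1/H2` (all open subgroups) with `H92.LH1/LH2` (level families),
long exact sequence and Euler characteristics for `H55.H1/H2`
-/

namespace Fermat.Agent.H55

open Module Fermat.Agent.H91

section ToFam

variable {G : Type*} [Group G]

/-- the level family of all open subgroups -/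
def toFam (𝓛 : Levels G) : LevelFam G where
  carrier := {U | 𝓛.op U}
  nonempty' := ⟨⊤, 𝓛.op_top⟩
  inf_mem' V hV W hW := ⟨V ⊓ W, 𝓛.op_inf hV hW, le_rfl⟩
  core' V hV := by
    obtain ⟨N, hN, hn, hle⟩ := 𝓛.exists_normal hV
    exact ⟨N, hN, hle, hn, 𝓛.finiteIndex hN⟩

lemma isConst₁_toFam_iff {𝓛 : Levels G} {X : Type*} {f : G → X} :
    (toFam 𝓛).IsConst₁ f ↔ LC1 𝓛 f := Iff.rfl

lemma isConst₂_toFam_iff {𝓛 : Levels G} {X : Type*} {f : G × G → X} :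
    (toFam 𝓛).IsConst₂ f ↔ LC2 𝓛 f := Iff.rfl

end ToFam

section Comp

variable {k G A : Type*} [CommRing k] [Group G] [AddCommGroup A] [Module k A]
  (𝓛 : Levels G) (ρ : Representation k G A)

lemma smooth_toFam_iff {𝓛 : Levels G} {ρ : Representation k G A} :
    H92.Smooth (toFam 𝓛) ρ ↔ Smooth 𝓛 ρ := Iff.rfl

lemma Z1_toFam : H92.Z1 (toFam 𝓛) ρ = Z1 𝓛 ρ := by
  ext f
  rw [H92.mem_Z1_iff', mem_Z1]
  exact and_comm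

lemma Z2_toFam : H92.Z2 (toFam 𝓛) ρ = Z2 𝓛 ρ := by
  ext f
  rw [H92.mem_Z2_iff', mem_Z2, and_comm]
  refine and_congr Iff.rfl ⟨fun h g g' j => (h g g' j).symm, fun h g g' j => (h g g' j).symm⟩

lemma B1_toFam : H92.B1 ρ = B1 ρ := rfl

lemma B2_toFam : H92.B2 (toFam 𝓛) ρ = B2 𝓛 ρ := by
  ext f
  rw [H92.mem_B2_iff, mem_B2]
  rfl

/-- comparison in degree 1 -/
noncomputable def e1 : H92.LH1 (toFam 𝓛) ρ ≃ₗ[k] H1 𝓛 ρ :=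
  Submodule.Quotient.equiv ((H92.B1 ρ).comap (H92.Z1 (toFam 𝓛) ρ).subtype)
    ((B1 ρ).comap (Z1 𝓛 ρ).subtype) (LinearEquiv.ofEq _ _ (Z1_toFam 𝓛 ρ)) (by
      ext ⟨x, hx⟩
      constructor
      · rintro ⟨⟨y, hy⟩, h1, h2⟩
        have : y = x := congrArg Subtype.val h2
        subst this
        exact h1
      · intro h
        exact ⟨⟨x, by rw [Z1_toFam]; exact hx⟩, h, rfl⟩)

/-- comparison in degree 2 -/
noncomputable def e2 : H92.LH2 (toFam 𝓛) ρ ≃ₗ[k] H2 𝓛 ρ :=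
  Submodule.Quotient.equiv ((H92.B2 (toFam 𝓛) ρ).comap (H92.Z2 (toFam 𝓛) ρ).subtype)
    ((B2 𝓛 ρ).comap (Z2 𝓛 ρ).subtype) (LinearEquiv.ofEq _ _ (Z2_toFam 𝓛 ρ)) (by
      ext ⟨x, hx⟩
      constructor
      · rintro ⟨⟨y, hy⟩, h1, h2⟩
        have : y = x := congrArg Subtype.val h2
        subst this
        exact h1
      · intro h
        exact ⟨⟨x, by rw [Z2_toFam]; exact hx⟩, h, rfl⟩)

lemma e1_mk (z : ↥(H92.Z1 (toFam 𝓛) ρ)) :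
    e1 𝓛 ρ (H92.mk1 (toFam 𝓛) ρ z) = H1π 𝓛 ρ ⟨z, by rw [← Z1_toFam]; exact z.2⟩ := rfl

lemma e2_mk (z : ↥(H92.Z2 (toFam 𝓛) ρ)) :
    e2 𝓛 ρ (H92.mk2 (toFam 𝓛) ρ z) = H2π 𝓛 ρ ⟨z, by rw [← Z2_toFam]; exact z.2⟩ := rfl

end Comp

section Nat

variable {k G H A B : Type*} [CommRing k] [Group G] [Group H] [AddCommGroup A] [Module k A]
  [AddCommGroup B] [Module k B]
  {𝓛 : Levels G} {𝓜 : Levels H} {ρA : Representation k G A} {ρB : Representation k H B}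

/-- the `PairHom` attached to a continuous homomorphism and a compatible linear map -/
def pairHom {f : H →* G} (hf : Levels.Cont 𝓜 𝓛 f) {φ : A →ₗ[k] B}
    (hφ : ∀ h a, φ (ρA (f h) a) = ρB h (φ a)) :
    H92.PairHom (toFam 𝓛) ρA (toFam 𝓜) ρB where
  r := f
  φ := φ
  compat := hφ
  level V hV := ⟨V.comap f, hf V hV, fun _ hs => hs⟩

lemma e1_pairHom (P : H92.PairHom (toFam 𝓛) ρA (toFam 𝓜) ρB) (hf : Levels.Cont 𝓜 𝓛 P.r)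
    (x : H92.LH1 (toFam 𝓛) ρA) :
    e1 𝓜 ρB (P.H1 x) = H1map (f := P.r) (φ := P.φ) hf P.compat (e1 𝓛 ρA x) := by
  obtain ⟨z, rfl⟩ := H92.mk1_surjective _ _ x
  rw [H92.PairHom.H1_mk]
  rfl

lemma e2_pairHom (P : H92.PairHom (toFam 𝓛) ρA (toFam 𝓜) ρB) (hf : Levels.Cont 𝓜 𝓛 P.r)
    (x : H92.LH2 (toFam 𝓛) ρA) :
    e2 𝓜 ρB (P.H2 x) = H2map (f := P.r) (φ := P.φ) hf P.compat (e2 𝓛 ρA x) := by
  obtain ⟨z, rfl⟩ := H92.mk2_surjective _ _ x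
  rw [H92.PairHom.H2_mk]
  rfl

lemma PairHom_cont (P : H92.PairHom (toFam 𝓛) ρA (toFam 𝓜) ρB) : Levels.Cont 𝓜 𝓛 P.r := by
  intro U hU
  obtain ⟨W, hW, h⟩ := P.level U hU
  exact 𝓜.op_mono (fun s hs => h s hs) hW

end Nat

section LESsec

variable {k G A B C : Type*} [CommRing k] [Group G] [AddCommGroup A] [Module k A]
  [AddCommGroup B] [Module k B] [AddCommGroup C] [Module k C]
  {𝓛 : Levels G} {ρA : Representation k G A} {ρB : Representation k G B}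
  {ρC : Representation k G C}

/-- conversion to `H92.SES` -/
def SES.to92 (E : SES 𝓛 ρA ρB ρC) : H92.SES (toFam 𝓛) ρA ρB ρC where
  f := E.i
  g := E.q
  hf := E.hi
  hg := E.hq
  inj := E.inj
  surj := E.surj
  exact := E.exact
  smooth := E.smooth

variable (E : SES 𝓛 ρA ρB ρC)

/-- connecting map `H⁰(C) → H¹(A)` -/
noncomputable def SES.δ0 : ρC.invariants →ₗ[k] H1 𝓛 ρA := (e1 𝓛 ρA).toLinearMap ∘ₗ E.to92.δ0

/-- connecting map `H¹(C) → H²(A)` -/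
noncomputable def SES.δ1 : H1 𝓛 ρC →ₗ[k] H2 𝓛 ρA :=
  (e2 𝓛 ρA).toLinearMap ∘ₗ E.to92.δ1 ∘ₗ (e1 𝓛 ρC).symm.toLinearMap

lemma SES.e1_fP (x : H92.LH1 (toFam 𝓛) ρA) :
    e1 𝓛 ρB (E.to92.fP.H1 x) = H1c 𝓛 E.hi (e1 𝓛 ρA x) := e1_pairHom E.to92.fP 𝓛.cont_id x

lemma SES.e1_gP (x : H92.LH1 (toFam 𝓛) ρB) :
    e1 𝓛 ρC (E.to92.gP.H1 x) = H1c 𝓛 E.hq (e1 𝓛 ρB x) := e1_pairHom E.to92.gP 𝓛.cont_id x

lemma SES.e2_fP (x : H92.LH2 (toFam 𝓛) ρA) :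
    e2 𝓛 ρB (E.to92.fP.H2 x) = H2c 𝓛 E.hi (e2 𝓛 ρA x) := e2_pairHom E.to92.fP 𝓛.cont_id x

lemma SES.e2_gP (x : H92.LH2 (toFam 𝓛) ρB) :
    e2 𝓛 ρC (E.to92.gP.H2 x) = H2c 𝓛 E.hq (e2 𝓛 ρB x) := e2_pairHom E.to92.gP 𝓛.cont_id x

/-- exactness at `H⁰(C)` -/
lemma SES.δ0_eq_zero_iff (c : ρC.invariants) :
    E.δ0 c = 0 ↔ ∃ b ∈ ρB.invariants, E.q b = c := by
  rw [SES.δ0, LinearMap.comp_apply, LinearEquiv.coe_coe, LinearEquiv.map_eq_zero_iff,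
    E.to92.exact_H0_g_δ0 c]
  constructor
  · rintro ⟨b, hb⟩
    exact ⟨b, b.2, congrArg Subtype.val hb⟩
  · rintro ⟨b, hb, h⟩
    exact ⟨⟨b, hb⟩, Subtype.ext h⟩

/-- exactness at `H¹(A)` -/
lemma SES.H1i_eq_zero_iff (x : H1 𝓛 ρA) : H1c 𝓛 E.hi x = 0 ↔ ∃ c, E.δ0 c = x := by
  obtain ⟨x, rfl⟩ := (e1 𝓛 ρA).surjective x
  rw [← E.e1_fP, LinearEquiv.map_eq_zero_iff, E.to92.exact_δ0_H1_f x]
  constructor
  · rintro ⟨c, rfl⟩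
    exact ⟨c, rfl⟩
  · rintro ⟨c, hc⟩
    exact ⟨c, (e1 𝓛 ρA).injective hc⟩

/-- exactness at `H¹(B)` -/
lemma SES.H1q_eq_zero_iff (y : H1 𝓛 ρB) : H1c 𝓛 E.hq y = 0 ↔ ∃ x, H1c 𝓛 E.hi x = y := by
  obtain ⟨y, rfl⟩ := (e1 𝓛 ρB).surjective y
  rw [← E.e1_gP, LinearEquiv.map_eq_zero_iff, E.to92.exact_H1_f_g y]
  constructor
  · rintro ⟨x, rfl⟩
    exact ⟨e1 𝓛 ρA x, (E.e1_fP x).symm⟩
  · rintro ⟨x, hx⟩
    obtain ⟨x, rfl⟩ := (e1 𝓛 ρA).surjective x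
    exact ⟨x, (e1 𝓛 ρB).injective (by rw [E.e1_fP, hx])⟩

/-- exactness at `H¹(C)` -/
lemma SES.δ1_eq_zero_iff (z : H1 𝓛 ρC) : E.δ1 z = 0 ↔ ∃ y, H1c 𝓛 E.hq y = z := by
  obtain ⟨z, rfl⟩ := (e1 𝓛 ρC).surjective z
  rw [SES.δ1, LinearMap.comp_apply, LinearMap.comp_apply, LinearEquiv.coe_coe,
    LinearEquiv.coe_coe, LinearEquiv.symm_apply_apply, LinearEquiv.map_eq_zero_iff,
    E.to92.exact_H1_g_δ1 z]
  constructor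
  · rintro ⟨x, rfl⟩
    exact ⟨e1 𝓛 ρB x, (E.e1_gP x).symm⟩
  · rintro ⟨x, hx⟩
    obtain ⟨x, rfl⟩ := (e1 𝓛 ρB).surjective x
    exact ⟨x, (e1 𝓛 ρC).injective (by rw [E.e1_gP, hx])⟩

/-- exactness at `H²(A)` -/
lemma SES.H2i_eq_zero_iff (x : H2 𝓛 ρA) : H2c 𝓛 E.hi x = 0 ↔ ∃ z, E.δ1 z = x := by
  obtain ⟨x, rfl⟩ := (e2 𝓛 ρA).surjective x
  rw [← E.e2_fP, LinearEquiv.map_eq_zero_iff, E.to92.exact_δ1_H2_f x]
  constructor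
  · rintro ⟨c, rfl⟩
    exact ⟨e1 𝓛 ρC c, by
      rw [SES.δ1, LinearMap.comp_apply, LinearMap.comp_apply, LinearEquiv.coe_coe,
        LinearEquiv.coe_coe, LinearEquiv.symm_apply_apply]⟩
  · rintro ⟨c, hc⟩
    exact ⟨(e1 𝓛 ρC).symm c, (e2 𝓛 ρA).injective hc⟩

/-- exactness at `H²(B)` -/
lemma SES.H2q_eq_zero_iff (y : H2 𝓛 ρB) : H2c 𝓛 E.hq y = 0 ↔ ∃ x, H2c 𝓛 E.hi x = y := by
  obtain ⟨y, rfl⟩ := (e2 𝓛 ρB).surjective y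
  rw [← E.e2_gP, LinearEquiv.map_eq_zero_iff, E.to92.exact_H2_f_g y]
  constructor
  · rintro ⟨x, rfl⟩
    exact ⟨e2 𝓛 ρA x, (E.e2_fP x).symm⟩
  · rintro ⟨x, hx⟩
    obtain ⟨x, rfl⟩ := (e2 𝓛 ρA).surjective x
    exact ⟨x, (e2 𝓛 ρB).injective (by rw [E.e2_fP, hx])⟩

/-- characterisation of `δ1` on cocycles -/
lemma SES.δ1_mk {c : ↥(Z1 𝓛 ρC)} {b : G → B} (hbc : LC1 𝓛 b)
    (hb : ∀ x, E.q (b x) = (c : G → C) x) {a : ↥(Z2 𝓛 ρA)}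
    (ha : ∀ x, E.i ((a : G × G → A) x) = d1 ρB b x) :
    E.δ1 (H1π 𝓛 ρC c) = H2π 𝓛 ρA a := by
  have h := E.to92.δ1_eq (c := ⟨c, by rw [Z1_toFam]; exact c.2⟩) (b := b) hbc hb
    (a := ⟨a, by rw [Z2_toFam]; exact a.2⟩) ha
  have h1 : (e1 𝓛 ρC).symm (H1π 𝓛 ρC c) =
      H92.mk1 (toFam 𝓛) ρC ⟨c, by rw [Z1_toFam]; exact c.2⟩ := by
    rw [LinearEquiv.symm_apply_eq]; rfl
  rw [SES.δ1, LinearMap.comp_apply, LinearMap.comp_apply, LinearEquiv.coe_coe,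
    LinearEquiv.coe_coe, h1, h]
  rfl

/-- `δ1` commutes with restriction -/
lemma SES.H2res_δ1 {H : Type*} [Group H] {𝓜 : Levels H} {f : H →* G}
    (hf : Levels.Cont 𝓜 𝓛 f) (z : H1 𝓛 ρC) :
    H2res hf ρA (E.δ1 z) = (E.res hf).δ1 (H1res hf ρC z) := by
  induction z using H1_ind with
  | h z =>
    obtain ⟨b, a, hbc, hb, ha, -⟩ := E.to92.exists_δ1 ⟨z, by rw [Z1_toFam]; exact z.2⟩
    let a' : ↥(Z2 𝓛 ρA) := ⟨a, by rw [← Z2_toFam]; exact a.2⟩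
    rw [E.δ1_mk (a := a') hbc hb ha]
    symm
    exact (E.res hf).δ1_mk (c := ⟨pp1 f LinearMap.id z, pp1_mem_Z1 hf (fun _ _ => rfl) z.2⟩)
      (b := fun h => b (f h)) (LC1.precomp (isConst₁_toFam_iff.1 hbc) hf) (fun x => hb (f x))
      (a := ⟨pp2 f LinearMap.id a, pp2_mem_Z2 hf (fun _ _ => rfl) a'.2⟩)
      (fun x => by
        have := ha (f x.1, f x.2)
        refine (show E.i ((a : G × G → A) (f x.1, f x.2)) = _ from this).trans ?_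
        simp [d1])

end LESsec

section Dim

variable {k : Type*} [Field k] {G : Type*} [Group G]
  {A : Type*} [AddCommGroup A] [Module k A]
  {B : Type*} [AddCommGroup B] [Module k B]
  {C : Type*} [AddCommGroup C] [Module k C]
  {𝓛 : Levels G} {ρA : Representation k G A} {ρB : Representation k G B}
  {ρC : Representation k G C}

/-- finiteness of cohomology in degrees ≤ 2 -/
structure Fin2 (𝓛 : Levels G) (ρ : Representation k G A) : Prop where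
  f0 : Module.Finite k ρ.invariants
  f1 : Module.Finite k (H1 𝓛 ρ)
  f2 : Module.Finite k (H2 𝓛 ρ)

lemma fin2_iff : Fin2 𝓛 ρA ↔ H92.FinCoh (toFam 𝓛) ρA := by
  constructor
  · rintro ⟨h0, h1, h2⟩
    exact ⟨h0, Module.Finite.equiv (e1 𝓛 ρA).symm, Module.Finite.equiv (e2 𝓛 ρA).symm⟩
  · rintro ⟨h0, h1, h2⟩
    exact ⟨h0, Module.Finite.equiv (e1 𝓛 ρA), Module.Finite.equiv (e2 𝓛 ρA)⟩

/-- partial Euler characteristic -/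
noncomputable def chi2 (𝓛 : Levels G) (ρ : Representation k G A) : ℤ :=
  finrank k ρ.invariants - finrank k (H1 𝓛 ρ) + finrank k (H2 𝓛 ρ)

lemma chi2_eq : chi2 𝓛 ρA = H92.chi2 (toFam 𝓛) ρA := by
  rw [chi2, H92.chi2, (e1 𝓛 ρA).finrank_eq, (e2 𝓛 ρA).finrank_eq]

lemma SES.fin2 (E : SES 𝓛 ρA ρB ρC) (hA : Fin2 𝓛 ρA) (hC : Fin2 𝓛 ρC) : Fin2 𝓛 ρB :=
  fin2_iff.2 (E.to92.finCoh (fin2_iff.1 hA) (fin2_iff.1 hC))

theorem SES.chi2_le (E : SES 𝓛 ρA ρB ρC) (hA : Fin2 𝓛 ρA) (hC : Fin2 𝓛 ρC) :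
    chi2 𝓛 ρB ≤ chi2 𝓛 ρA + chi2 𝓛 ρC := by
  rw [chi2_eq, chi2_eq, chi2_eq]
  exact E.to92.chi2_le (fin2_iff.1 hA) (fin2_iff.1 hC)

theorem SES.chi2_eq_iff (E : SES 𝓛 ρA ρB ρC) (hA : Fin2 𝓛 ρA) (hC : Fin2 𝓛 ρC) :
    chi2 𝓛 ρB = chi2 𝓛 ρA + chi2 𝓛 ρC ↔ Function.Surjective (H2c 𝓛 E.hq) := by
  rw [chi2_eq, chi2_eq, chi2_eq, E.to92.chi2_eq_iff (fin2_iff.1 hA) (fin2_iff.1 hC)]
  constructor
  · intro h y
    obtain ⟨y, rfl⟩ := (e2 𝓛 ρC).surjective y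
    obtain ⟨x, rfl⟩ := h y
    exact ⟨e2 𝓛 ρB x, (E.e2_gP x).symm⟩
  · intro h y
    obtain ⟨x, hx⟩ := h (e2 𝓛 ρC y)
    obtain ⟨x, rfl⟩ := (e2 𝓛 ρB).surjective x
    exact ⟨x, (e2 𝓛 ρC).injective (by rw [E.e2_gP, hx])⟩

end Dim

end Fermat.Agent.H55
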