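import Mathlib
import Fermat.Agent.H55LES

set_option autoImplicit false
set_option maxSynthPendingDepth 3

/-!
# S55 : finite powers, trivial modules, quotient/sub representations, small utilities
-/

namespace Fermat.Agent.H55

open Module

section Pow

variable {k G A : Type*} [CommRing k] [Group G] [AddCommGroup A] [Module k A]
  (ι : Type*) (𝓛 : Levels G) (ρ : Representation k G A)

/-- the power `ρ^ι` -/
def powRep : Representation k G (ι → A) where
  toFun g := LinearMap.compLeft (ρ g) ι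
  map_one' := by ext; simp
  map_mul' g h := by ext; simp

@[simp] lemma powRep_apply (g : G) (f : ι → A) (i : ι) : powRep ι ρ g f i = ρ g (f i) := rfl

lemma equivar_proj (i : ι) : Equivar (powRep ι ρ) ρ (LinearMap.proj i) := fun _ _ => rfl

lemma equivar_single [DecidableEq ι] (i : ι) :
    Equivar ρ (powRep ι ρ) (LinearMap.single k (fun _ : ι => A) i) := fun g a => by
  ext j
  by_cases h : j = i
  · subst h; simp
  · simp [h]

variable {ρ 𝓛 ι}

lemma smooth_powRep [Finite ι] (hs : Smooth 𝓛 ρ) : Smooth 𝓛 (powRep ι ρ) := fun f => by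
  obtain ⟨U, hU, h⟩ := hs.uniform (Set.finite_range f)
  exact ⟨U, hU, fun s hs => funext fun i => h s hs _ ⟨i, rfl⟩⟩

lemma H1pow_bijective [Finite ι] :
    Function.Bijective (LinearMap.pi fun i => H1c 𝓛 (equivar_proj ι ρ i)) := by
  constructor
  · rw [← LinearMap.ker_eq_bot, LinearMap.ker_eq_bot']
    intro x hx
    induction x using H1_ind with
    | h z =>
      have hx' : ∀ i, ∃ a, d0 ρ a = fun g => (z : G → ι → A) g i := fun i => by
        have := congrFun hx i
        rw [LinearMap.pi_apply, H1c_mk, Pi.zero_apply, H1π_eq_zero_iff] at this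
        exact this
      choose a ha using hx'
      rw [H1π_eq_zero_iff]
      exact ⟨a, funext fun g => funext fun i => congrFun (ha i) g⟩
  · intro y
    choose z hz using fun i => H1π_surjective 𝓛 ρ (y i)
    refine ⟨H1π 𝓛 (powRep ι ρ) ⟨fun g i => (z i : G → A) g, LC1.pi fun i => (z i).2.1, fun g h =>
      funext fun i => (z i).2.2 g h⟩, ?_⟩
    funext i
    rw [LinearMap.pi_apply, H1c_mk, ← hz i]
    rfl

lemma H2pow_bijective [Finite ι] :
    Function.Bijective (LinearMap.pi fun i => H2c 𝓛 (equivar_proj ι ρ i)) := by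
  constructor
  · rw [← LinearMap.ker_eq_bot, LinearMap.ker_eq_bot']
    intro x hx
    induction x using H2_ind with
    | h z =>
      have hx' : ∀ i, ∃ c, LC1 𝓛 c ∧ d1 ρ c = fun g => (z : G × G → ι → A) g i := fun i => by
        have := congrFun hx i
        rw [LinearMap.pi_apply, H2c_mk, Pi.zero_apply, H2π_eq_zero_iff] at this
        exact this
      choose c hc hc' using hx'
      rw [H2π_eq_zero_iff]
      exact ⟨fun g i => c i g, LC1.pi hc, funext fun g => funext fun i => congrFun (hc' i) g⟩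
  · intro y
    choose z hz using fun i => H2π_surjective 𝓛 ρ (y i)
    refine ⟨H2π 𝓛 (powRep ι ρ) ⟨fun g i => (z i : G × G → A) g, LC2.pi fun i => (z i).2.1, fun g h j =>
      funext fun i => (z i).2.2 g h j⟩, ?_⟩
    funext i
    rw [LinearMap.pi_apply, H2c_mk, ← hz i]
    rfl

/-- `H¹(G, A^ι) = H¹(G, A)^ι` -/
noncomputable def H1powEquiv [Finite ι] (𝓛 : Levels G) (ρ : Representation k G A) :
    H1 𝓛 (powRep ι ρ) ≃ₗ[k] (ι → H1 𝓛 ρ) :=
  LinearEquiv.ofBijective _ H1pow_bijective

/-- `H²(G, A^ι) = H²(G, A)^ι` -/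
noncomputable def H2powEquiv [Finite ι] (𝓛 : Levels G) (ρ : Representation k G A) :
    H2 𝓛 (powRep ι ρ) ≃ₗ[k] (ι → H2 𝓛 ρ) :=
  LinearEquiv.ofBijective _ H2pow_bijective

@[simp] lemma H1powEquiv_apply [Finite ι] (x : H1 𝓛 (powRep ι ρ)) (i : ι) :
    H1powEquiv 𝓛 ρ x i = H1c 𝓛 (equivar_proj ι ρ i) x := rfl

@[simp] lemma H2powEquiv_apply [Finite ι] (x : H2 𝓛 (powRep ι ρ)) (i : ι) :
    H2powEquiv 𝓛 ρ x i = H2c 𝓛 (equivar_proj ι ρ i) x := rfl

end Pow

section Triv

variable {k : Type*} [Field k] {G A : Type*} [Group G] [AddCommGroup A] [Module k A]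

lemma smooth_trivial (𝓛 : Levels G) : Smooth 𝓛 (Representation.trivial k G A) := fun _ =>
  ⟨⊤, 𝓛.op_top, fun _ _ => rfl⟩

/-- a trivial finite dimensional representation is a power of `k` -/
lemma equivar_equivFun {n : ℕ} (b : Basis (Fin n) k A) :
    Equivar (Representation.trivial k G A) (powRep (Fin n) (Representation.trivial k G k))
      (b.equivFun : A →ₗ[k] (Fin n → k)) := fun _ _ => rfl

theorem fin_H1_trivial [Module.Finite k A] (𝓛 : Levels G)
    (h : Module.Finite k (H1 𝓛 (Representation.trivial k G k))) :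
    Module.Finite k (H1 𝓛 (Representation.trivial k G A)) :=
  Module.Finite.equiv ((H1cEquiv 𝓛 (equivar_equivFun (G := G) (finBasis k A))).trans
    (H1powEquiv 𝓛 _)).symm

theorem fin_H2_trivial [Module.Finite k A] (𝓛 : Levels G)
    (h : Module.Finite k (H2 𝓛 (Representation.trivial k G k))) :
    Module.Finite k (H2 𝓛 (Representation.trivial k G A)) :=
  Module.Finite.equiv ((H2cEquiv 𝓛 (equivar_equivFun (G := G) (finBasis k A))).trans
    (H2powEquiv 𝓛 _)).symm

theorem finrank_H1_triv_mul [Module.Finite k A] (𝓛 : Levels G)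
    (h : Module.Finite k (H1 𝓛 (Representation.trivial k G k))) :
    finrank k (H1 𝓛 (Representation.trivial k G A)) =
      finrank k A * finrank k (H1 𝓛 (Representation.trivial k G k)) := by
  rw [((H1cEquiv 𝓛 (equivar_equivFun (G := G) (finBasis k A))).trans
    (H1powEquiv 𝓛 _)).finrank_eq, finrank_pi_fintype, Finset.sum_const, Finset.card_univ,
    Fintype.card_fin, smul_eq_mul]

theorem finrank_H2_triv_mul [Module.Finite k A] (𝓛 : Levels G)
    (h : Module.Finite k (H2 𝓛 (Representation.trivial k G k))) :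
    finrank k (H2 𝓛 (Representation.trivial k G A)) =
      finrank k A * finrank k (H2 𝓛 (Representation.trivial k G k)) := by
  rw [((H2cEquiv 𝓛 (equivar_equivFun (G := G) (finBasis k A))).trans
    (H2powEquiv 𝓛 _)).finrank_eq, finrank_pi_fintype, Finset.sum_const, Finset.card_univ,
    Fintype.card_fin, smul_eq_mul]

lemma invariants_trivial : (Representation.trivial k G A).invariants = ⊤ := by
  ext a
  simp

lemma finrank_invariants_trivial :
    finrank k (Representation.trivial k G A).invariants = finrank k A := by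
  rw [invariants_trivial, finrank_top]

lemma fin2_trivial [Module.Finite k A] {𝓛 : Levels G}
    (h1 : Module.Finite k (H1 𝓛 (Representation.trivial k G k)))
    (h2 : Module.Finite k (H2 𝓛 (Representation.trivial k G k))) :
    Fin2 𝓛 (Representation.trivial k G A) :=
  ⟨inferInstance, fin_H1_trivial 𝓛 h1, fin_H2_trivial 𝓛 h2⟩

lemma chi2_trivial [Module.Finite k A] {𝓛 : Levels G}
    (h1 : Module.Finite k (H1 𝓛 (Representation.trivial k G k)))
    (h2 : Module.Finite k (H2 𝓛 (Representation.trivial k G k))) :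
    chi2 𝓛 (Representation.trivial k G A) =
      finrank k A * chi2 𝓛 (Representation.trivial k G k) := by
  rw [chi2, chi2, finrank_H1_triv_mul 𝓛 h1, finrank_H2_triv_mul 𝓛 h2, finrank_invariants_trivial,
    finrank_invariants_trivial, finrank_self]
  push_cast
  ring

end Triv

section Iso

variable {k : Type*} [Field k] {G A B : Type*} [Group G] [AddCommGroup A] [Module k A]
  [AddCommGroup B] [Module k B] {𝓛 : Levels G} {ρA : Representation k G A}
  {ρB : Representation k G B}

/-- isomorphic representations have isomorphic invariants -/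
noncomputable def invEquivOfEquiv (φ : A ≃ₗ[k] B) (hφ : Equivar ρA ρB (φ : A →ₗ[k] B)) :
    ρA.invariants ≃ₗ[k] ρB.invariants :=
  φ.submoduleMap ρA.invariants |>.trans (LinearEquiv.ofEq _ _ (by
    ext b
    simp only [Submodule.mem_map, Representation.mem_invariants]
    constructor
    · rintro ⟨a, ha, rfl⟩ g
      have := hφ g a
      simp only [LinearEquiv.coe_coe] at this
      show ρB g (φ a) = φ a
      rw [← this, ha g]
    · intro hb
      refine ⟨φ.symm b, fun g => φ.injective ?_, φ.apply_symm_apply b⟩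
      have := hφ g (φ.symm b)
      simp only [LinearEquiv.coe_coe] at this
      rw [this, LinearEquiv.apply_symm_apply, hb g]))

lemma fin2_of_equiv (φ : A ≃ₗ[k] B) (hφ : Equivar ρA ρB (φ : A →ₗ[k] B)) (h : Fin2 𝓛 ρA) :
    Fin2 𝓛 ρB := by
  have := h.f0
  have := h.f1
  have := h.f2
  exact ⟨Module.Finite.equiv (invEquivOfEquiv φ hφ), Module.Finite.equiv (H1cEquiv 𝓛 hφ),
    Module.Finite.equiv (H2cEquiv 𝓛 hφ)⟩

lemma chi2_of_equiv (φ : A ≃ₗ[k] B) (hφ : Equivar ρA ρB (φ : A →ₗ[k] B)) :
    chi2 𝓛 ρA = chi2 𝓛 ρB := by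
  rw [chi2, chi2, (invEquivOfEquiv φ hφ).finrank_eq, (H1cEquiv 𝓛 hφ).finrank_eq,
    (H2cEquiv 𝓛 hφ).finrank_eq]

end Iso

section SubQuot

variable {k : Type*} [Field k] {G A B : Type*} [Group G] [AddCommGroup A] [Module k A]
  [AddCommGroup B] [Module k B] {𝓛 : Levels G}

/-- the exact sequence `0 → W → A → A/W → 0` -/
def SES.ofSub (ρ : Representation k G A) (hs : Smooth 𝓛 ρ) (W : Submodule k A)
    (hW : ∀ g, W ≤ W.comap (ρ g)) :
    SES 𝓛 (ρ.subrepresentation W hW) ρ (ρ.quotient W hW) where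
  i := W.subtype
  q := W.mkQ
  hi g a := rfl
  hq g a := rfl
  inj := W.injective_subtype
  surj := W.mkQ_surjective
  exact b := by
    rw [Submodule.mkQ_apply, Submodule.Quotient.mk_eq_zero]
    exact ⟨fun h => ⟨⟨b, h⟩, rfl⟩, by rintro ⟨a, rfl⟩; exact a.2⟩
  smooth := hs

/-- kernel of an equivariant map is stable -/
lemma ker_stable {ρA : Representation k G A} {ρB : Representation k G B} {φ : A →ₗ[k] B}
    (hφ : Equivar ρA ρB φ) (g : G) : LinearMap.ker φ ≤ (LinearMap.ker φ).comap (ρA g) := by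
  intro a ha
  rw [Submodule.mem_comap, LinearMap.mem_ker, hφ, LinearMap.mem_ker.1 ha, map_zero]

/-- the exact sequence attached to a surjective equivariant map -/
def SES.ofSurj {ρA : Representation k G A} {ρB : Representation k G B} (hs : Smooth 𝓛 ρA)
    {φ : A →ₗ[k] B} (hφ : Equivar ρA ρB φ) (hsurj : Function.Surjective φ) :
    SES 𝓛 (ρA.subrepresentation (LinearMap.ker φ) (ker_stable hφ)) ρA ρB where
  i := (LinearMap.ker φ).subtype
  q := φ
  hi g a := rfl
  hq := hφ
  inj := Submodule.injective_subtype _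
  surj := hsurj
  exact b := ⟨fun h => ⟨⟨b, h⟩, rfl⟩, by rintro ⟨a, rfl⟩; exact a.2⟩
  smooth := hs

end SubQuot

section Zero

variable {k : Type*} [Field k] {G A : Type*} [Group G] [AddCommGroup A] [Module k A]
  [Subsingleton A] {𝓛 : Levels G} (ρ : Representation k G A)

lemma subsingleton_H1 : Subsingleton (H1 𝓛 ρ) := by
  refine ⟨fun x y => ?_⟩
  obtain ⟨x, rfl⟩ := H1π_surjective 𝓛 ρ x
  obtain ⟨y, rfl⟩ := H1π_surjective 𝓛 ρ y
  congr 1
  exact Subtype.ext (Subsingleton.elim _ _)

lemma subsingleton_H2 : Subsingleton (H2 𝓛 ρ) := by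
  refine ⟨fun x y => ?_⟩
  obtain ⟨x, rfl⟩ := H2π_surjective 𝓛 ρ x
  obtain ⟨y, rfl⟩ := H2π_surjective 𝓛 ρ y
  congr 1
  exact Subtype.ext (Subsingleton.elim _ _)

lemma fin2_zero : Fin2 𝓛 ρ := by
  have := subsingleton_H1 (𝓛 := 𝓛) ρ
  have := subsingleton_H2 (𝓛 := 𝓛) ρ
  exact ⟨inferInstance, inferInstance, inferInstance⟩

lemma chi2_zero : chi2 𝓛 ρ = 0 := by
  have := subsingleton_H1 (𝓛 := 𝓛) ρ
  have := subsingleton_H2 (𝓛 := 𝓛) ρ
  rw [chi2, finrank_zero_of_subsingleton, finrank_zero_of_subsingleton,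
    finrank_zero_of_subsingleton]
  simp

end Zero

end Fermat.Agent.H55
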