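import Mathlib
import Fermat.Agent.H55Funct

set_option autoImplicit false
set_option maxSynthPendingDepth 3

/-!
# S55 F2 : homotopies for level cochains with values in `funRep Ω ρ`
-/

namespace Fermat.Agent.H55

section LCmore

variable {G X Y : Type*} [Group G] {𝓛 : Levels G}

lemma LC1.mul_const {f : G → X} (hf : LC1 𝓛 f) (a b : G) : LC1 𝓛 (fun g => f (a * g * b)) := by
  obtain ⟨U, hU, h⟩ := hf
  obtain ⟨N, hN, hn, hle⟩ := 𝓛.exists_normal hU
  refine ⟨N, hN, fun g s hs => ?_⟩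
  show f (a * (g * s) * b) = f (a * g * b)
  have : a * (g * s) * b = (a * g * b) * (b⁻¹ * s * b⁻¹⁻¹) := by group
  rw [this]
  exact h _ _ (hle (hn.conj_mem _ hs _))

lemma LC2.mul_const {f : G × G → X} (hf : LC2 𝓛 f) (a b c d : G) :
    LC2 𝓛 (fun p => f (a * p.1 * b, c * p.2 * d)) := by
  obtain ⟨U, hU, h⟩ := hf
  obtain ⟨N, hN, hn, hle⟩ := 𝓛.exists_normal hU
  refine ⟨N, hN, fun g g' s hs s' hs' => ?_⟩
  show f (a * (g * s) * b, c * (g' * s') * d) = f (a * g * b, c * g' * d)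
  have e1 : a * (g * s) * b = (a * g * b) * (b⁻¹ * s * b⁻¹⁻¹) := by group
  have e2 : c * (g' * s') * d = (c * g' * d) * (d⁻¹ * s' * d⁻¹⁻¹) := by group
  rw [e1, e2]
  exact h _ _ _ (hle (hn.conj_mem _ hs _)) _ (hle (hn.conj_mem _ hs' _))

lemma LC2.left_const {f : G × G → X} (hf : LC2 𝓛 f) (c a b : G) :
    LC1 𝓛 (fun g => f (c, a * g * b)) := by
  obtain ⟨U, hU, h⟩ := hf
  have h1 : LC1 𝓛 (fun g => f (c, g)) := ⟨U, hU, fun g s hs => by
    have := h c g 1 U.one_mem s hs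
    rwa [mul_one] at this⟩
  exact h1.mul_const a b

lemma LC2.right_const {f : G × G → X} (hf : LC2 𝓛 f) (c a b : G) :
    LC1 𝓛 (fun g => f (a * g * b, c)) := by
  obtain ⟨U, hU, h⟩ := hf
  have h1 : LC1 𝓛 (fun g => f (g, c)) := ⟨U, hU, fun g s hs => by
    have := h g c s hs 1 U.one_mem
    rwa [mul_one] at this⟩
  exact h1.mul_const a b

variable {Ω : Type*} [Finite Ω]

/-- a finite family of level constant functions, indexed by a level constant function -/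
lemma LC1.dep {f : Ω → G → X} (hf : ∀ ω, LC1 𝓛 (f ω)) {φ : G → Ω} (hφ : LC1 𝓛 φ) :
    LC1 𝓛 (fun g => f (φ g) g) :=
  ((LC1.pi hf).pair hφ).comp' fun p => p.1 p.2

lemma LC2.dep {f : Ω → G × G → X} (hf : ∀ ω, LC2 𝓛 (f ω)) {φ : G × G → Ω} (hφ : LC2 𝓛 φ) :
    LC2 𝓛 (fun g => f (φ g) g) :=
  ((LC2.pi hf).pair hφ).comp' fun p => p.1 p.2

end LCmore

section Action

variable {G Ω : Type*} [Group G] [MulAction G Ω] {𝓛 : Levels G}

/-- the action on a finite set with open stabilisers is level constant -/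
def OpenAct (𝓛 : Levels G) (Ω : Type*) [MulAction G Ω] : Prop :=
  ∃ U, 𝓛.op U ∧ ∀ s ∈ U, ∀ y : Ω, s • y = y

lemma openAct_of_stabilizer [Finite Ω] (h : ∀ y : Ω, 𝓛.op (MulAction.stabilizer G y)) :
    OpenAct 𝓛 Ω := by
  have h1 : ∀ y : Ω, LC1 𝓛 (fun g : G => g • y) := fun y =>
    ⟨_, h y, fun g s hs => by
      show (g * s) • y = g • y
      rw [mul_smul, MulAction.mem_stabilizer_iff.mp hs]⟩
  obtain ⟨U, hU, hh⟩ := LC1.pi h1
  refine ⟨U, hU, fun s hs y => ?_⟩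
  have := congrFun (hh 1 s hs) y
  simpa using this

lemma OpenAct.lc1_inv_smul (h : OpenAct 𝓛 Ω) (y : Ω) : LC1 𝓛 (fun g : G => g⁻¹ • y) := by
  obtain ⟨U, hU, hh⟩ := h
  refine ⟨U, hU, fun g s hs => ?_⟩
  show (g * s)⁻¹ • y = g⁻¹ • y
  rw [mul_inv_rev, mul_smul, hh s⁻¹ (U.inv_mem hs)]

lemma OpenAct.op_of_stabilizer (h : OpenAct 𝓛 Ω) (x : Ω) (V : Subgroup G)
    (hV : ∀ g, g ∈ V ↔ g • x = x) : 𝓛.op V := by
  obtain ⟨U, hU, hh⟩ := h
  exact 𝓛.op_mono (fun s hs => (hV s).mpr (hh s hs x)) hU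

end Action

section Homotopy

variable {k G A Ω : Type*} [CommRing k] [Group G] [AddCommGroup A] [Module k A] [MulAction G Ω]
  {𝓛 : Levels G} {ρ : Representation k G A}

lemma Smooth.funRep [Finite Ω] (hρ : Smooth 𝓛 ρ) (hΩ : OpenAct 𝓛 Ω) :
    Smooth 𝓛 (funRep Ω ρ) := by
  intro f
  obtain ⟨U, hU, hh⟩ := hΩ
  obtain ⟨V, hV, hh'⟩ := hρ.uniform (Set.finite_range f)
  refine ⟨U ⊓ V, 𝓛.op_inf hU hV, fun s hs => ?_⟩
  funext x
  rw [funRep_apply, hh _ (U.inv_mem hs.1)]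
  exact hh' s hs.2 _ ⟨x, rfl⟩

/-- the retraction of a 1-cochain by `s` -/
def retr1 (ρ : Representation k G A) (s : Ω → G) (F : G → Ω → A) : G → Ω → A :=
  fun g y => ρ (s y) (F ((s y)⁻¹ * g * s (g⁻¹ • y)) ((s y)⁻¹ • y))

/-- the retraction of a 2-cochain by `s` -/
def retr2 (ρ : Representation k G A) (s : Ω → G) (F : G × G → Ω → A) : G × G → Ω → A :=
  fun p y => ρ (s y) (F ((s y)⁻¹ * p.1 * s (p.1⁻¹ • y),
    (s (p.1⁻¹ • y))⁻¹ * p.2 * s (p.2⁻¹ • p.1⁻¹ • y)) ((s y)⁻¹ • y))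

/-- the homotopy in degree 1 -/
def htp1 (s : Ω → G) (F : G → Ω → A) : Ω → A := fun y => F (s y) y

/-- the homotopy in degree 2 -/
def htp2 (s : Ω → G) (F : G × G → Ω → A) : G → Ω → A := fun g y =>
  F (s y, (s y)⁻¹ * g * s (g⁻¹ • y)) y - F (g, s (g⁻¹ • y)) y

lemma retr1_eq (s : Ω → G) {F : G → Ω → A}
    (hF : ∀ g h, F (g * h) = funRep Ω ρ g (F h) + F g) :
    retr1 ρ s F = F + d0 (funRep Ω ρ) (htp1 s F) := by
  funext g y
  have hF' : ∀ g h y, F (g * h) y = ρ g (F h (g⁻¹ • y)) + F g y := fun g h y => by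
    rw [hF]; rfl
  simp only [retr1, Pi.add_apply, d0_apply, Pi.sub_apply, funRep_apply, htp1]
  have h1 := hF' (s y) ((s y)⁻¹ * g * s (g⁻¹ • y)) y
  have h2 := hF' g (s (g⁻¹ • y)) y
  have e1 : s y * ((s y)⁻¹ * g * s (g⁻¹ • y)) = g * s (g⁻¹ • y) := by group
  rw [e1, h2] at h1
  rw [eq_sub_of_add_eq h1.symm]
  abel

lemma retr2_eq (s : Ω → G) {F : G × G → Ω → A}
    (hF : ∀ g h j, F (g * h, j) + F (g, h) = funRep Ω ρ g (F (h, j)) + F (g, h * j)) :
    retr2 ρ s F = F + d1 (funRep Ω ρ) (htp2 s F) := by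
  funext ⟨g, h⟩ y
  have hF' : ∀ g h j y, F (g * h, j) y + F (g, h) y =
      ρ g (F (h, j) (g⁻¹ • y)) + F (g, h * j) y := fun g h j y => congrFun (hF g h j) y
  simp only [retr2, Pi.add_apply, d1_apply, Pi.sub_apply, funRep_apply, htp2, map_sub]
  have e0 : (g * h)⁻¹ • y = h⁻¹ • g⁻¹ • y := by rw [mul_inv_rev, mul_smul]
  rw [e0]
  set s0 := s y
  set s1 := s (g⁻¹ • y)
  set s2 := s (h⁻¹ • g⁻¹ • y)
  have h1 := hF' s0 (s0⁻¹ * g * s1) (s1⁻¹ * h * s2) y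
  have h2 := hF' g s1 (s1⁻¹ * h * s2) y
  have h3 := hF' g h s2 y
  have e1 : s0 * (s0⁻¹ * g * s1) = g * s1 := by group
  have e2 : s1 * (s1⁻¹ * h * s2) = h * s2 := by group
  have e3 : s0⁻¹ * g * s1 * (s1⁻¹ * h * s2) = s0⁻¹ * (g * h) * s2 := by group
  rw [e1, e3] at h1
  rw [e2] at h2
  have i1 := eq_sub_of_add_eq h1.symm
  have i2 := eq_sub_of_add_eq h2
  have i3 := eq_sub_of_add_eq' h3.symm
  rw [i1, i2, i3]
  abel

lemma lc1_htp2 [Finite Ω] (hΩ : OpenAct 𝓛 Ω) (s : Ω → G) {F : G × G → Ω → A} (hF : LC2 𝓛 F) :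
    LC1 𝓛 (htp2 s F) := by
  refine LC1.pi fun y => ?_
  have h1 : LC1 𝓛 (fun g : G => F (s y, (s y)⁻¹ * g * s (g⁻¹ • y)) y) :=
    LC1.dep (f := fun ω g => F (s y, (s y)⁻¹ * g * s ω) y)
      (fun ω => (hF.left_const (s y) (s y)⁻¹ (s ω)).comp' fun a => a y) (hΩ.lc1_inv_smul y)
  have h2 : LC1 𝓛 (fun g : G => F (g, s (g⁻¹ • y)) y) := by
    refine LC1.dep (f := fun ω g => F (g, s ω) y) (fun ω => ?_) (hΩ.lc1_inv_smul y)
    have := (hF.right_const (s ω) 1 1).comp' fun a => a y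
    simpa using this
  exact (h1.pair h2).comp' fun p => p.1 - p.2

end Homotopy

section Conj

variable {k G A : Type*} [CommRing k] [Group G] [AddCommGroup A] [Module k A]
  {𝓛 : Levels G} {ρ : Representation k G A}

lemma cont_conj (𝓛 : Levels G) (g : G) :
    Levels.Cont 𝓛 𝓛 ((MulAut.conj g⁻¹ : G ≃* G) : G →* G) := by
  intro U hU
  obtain ⟨N, hN, hn, hle⟩ := 𝓛.exists_normal hU
  refine 𝓛.op_mono ?_ hN
  intro x hx
  refine hle ?_
  have := hn.conj_mem x hx g⁻¹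
  simpa [MulAut.conj_apply] using this

lemma conj_equivar (ρ : Representation k G A) (g : G) (h : G) (a : A) :
    ρ g (ρ (((MulAut.conj g⁻¹ : G ≃* G) : G →* G) h) a) = ρ h (ρ g a) := by
  rw [← Module.End.mul_apply, ← Module.End.mul_apply, ← map_mul, ← map_mul]
  congr 2
  simp [mul_assoc]

/-- inner automorphisms act trivially on `H¹` -/
theorem H1map_conj (g : G) (x : H1 𝓛 ρ) :
    H1map (ρB := ρ) (φ := ρ g) (cont_conj 𝓛 g) (conj_equivar ρ g) x = x := by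
  induction x using H1_ind with
  | h z =>
    rw [H1map_mk, ← sub_eq_zero, ← map_sub, H1π_eq_zero_iff]
    refine ⟨(z : G → A) g, ?_⟩
    funext h
    have hz := z.2.2
    simp only [d0_apply, AddSubgroupClass.coe_sub, Pi.sub_apply, pp1_apply]
    have e1 : ((MulAut.conj g⁻¹ : G ≃* G) : G →* G) h = g⁻¹ * h * g := by
      simp
    rw [e1]
    have h1 := hz g (g⁻¹ * h * g)
    have h2 := hz h g
    have e2 : g * (g⁻¹ * h * g) = h * g := by group
    rw [e2, h2] at h1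
    rw [eq_sub_of_add_eq h1.symm]
    abel

/-- inner automorphisms act trivially on `H²` -/
theorem H2map_conj (g : G) (x : H2 𝓛 ρ) :
    H2map (ρB := ρ) (φ := ρ g) (cont_conj 𝓛 g) (conj_equivar ρ g) x = x := by
  induction x using H2_ind with
  | h z =>
    rw [H2map_mk, ← sub_eq_zero, ← map_sub, H2π_eq_zero_iff]
    refine ⟨fun h => (z : G × G → A) (g, g⁻¹ * h * g) - (z : G × G → A) (h, g), ?_, ?_⟩
    · have hz := z.2.1
      have h2 := hz.right_const g 1 1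
      simp only [one_mul, mul_one] at h2
      exact ((hz.left_const g g⁻¹ g).pair h2).comp' fun p => p.1 - p.2
    · funext ⟨h, j⟩
      have hz := z.2.2
      simp only [d1_apply, AddSubgroupClass.coe_sub, Pi.sub_apply, pp2_apply, map_sub]
      have e1 : ∀ h, ((MulAut.conj g⁻¹ : G ≃* G) : G →* G) h = g⁻¹ * h * g := fun h => by
        simp
      rw [e1, e1]
      have h1 := hz g (g⁻¹ * h * g) (g⁻¹ * j * g)
      have h2 := hz h g (g⁻¹ * j * g)
      have h3 := hz h j g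
      have e2 : g * (g⁻¹ * h * g) = h * g := by group
      have e3 : g * (g⁻¹ * j * g) = j * g := by group
      have e4 : g⁻¹ * h * g * (g⁻¹ * j * g) = g⁻¹ * (h * j) * g := by group
      rw [e2, e4] at h1
      rw [e3] at h2
      have i1 := eq_sub_of_add_eq h1.symm
      have i2 := eq_sub_of_add_eq h2
      have i3 := eq_sub_of_add_eq' h3.symm
      rw [i1, i2, i3]
      abel

end Conj

end Fermat.Agent.H55
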