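import Mathlib
import Fermat.Agent.H55ShapiroA

set_option autoImplicit false
set_option maxSynthPendingDepth 3

/-!
# S55 F2 : Shapiro's lemma for level cohomology
-/

namespace Fermat.Agent.H55

open Module

section Reps

variable {G Ω : Type*} [Group G] [MulAction G Ω]

/-- representatives of the orbits of `G` on `Ω`, with transport elements -/
structure OrbitReps (G Ω : Type*) [Group G] [MulAction G Ω] (ι : Type*) where
  /-- the representatives -/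
  x : ι → Ω
  /-- their stabilisers -/
  V : ι → Subgroup G
  hV : ∀ i g, g ∈ V i ↔ g • x i = x i
  /-- the index of the orbit of a point -/
  idx : Ω → ι
  /-- transport elements -/
  s : Ω → G
  hs : ∀ y, s y • x (idx y) = y
  idx_x : ∀ i, idx (x i) = i
  s_x : ∀ i, s (x i) = 1
  idx_smul : ∀ (g : G) y, idx (g • y) = idx y

variable {ι : Type*}

/-- orbit representatives from a family meeting every orbit exactly once -/
lemma exists_orbitReps (x : ι → Ω) (V : ι → Subgroup G) (hV : ∀ i g, g ∈ V i ↔ g • x i = x i)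
    (h : ∀ y, ∃! i, ∃ g : G, g • x i = y) : ∃ R : OrbitReps G Ω ι, R.x = x ∧ R.V = V := by
  classical
  choose idx hidx huniq using h
  choose s hs using hidx
  have hix : ∀ i, idx (x i) = i := fun i => (huniq (x i) i ⟨1, one_smul _ _⟩).symm
  refine ⟨{ x := x, V := V, hV := hV, idx := idx
            s := fun y => if y = x (idx y) then 1 else s y
            hs := fun y => ?_
            idx_x := hix
            s_x := fun i => ?_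
            idx_smul := fun g y => ?_ }, rfl, rfl⟩
  · by_cases hy : y = x (idx y)
    · rw [if_pos hy, one_smul]; exact hy.symm
    · rw [if_neg hy]; exact hs y
  · rw [hix, if_pos rfl]
  · symm
    apply huniq
    exact ⟨g * s y, by rw [mul_smul, hs y]⟩

namespace OrbitReps

variable (R : OrbitReps G Ω ι)

lemma s_inv_smul (y : Ω) : (R.s y)⁻¹ • y = R.x (R.idx y) := by
  rw [inv_smul_eq_iff, R.hs]

lemma idx_inv_smul (g : G) (y : Ω) : R.idx (g⁻¹ • y) = R.idx y := R.idx_smul _ _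

/-- the conjugated element lies in the stabiliser -/
lemma mem_V (g : G) (y : Ω) : (R.s y)⁻¹ * g * R.s (g⁻¹ • y) ∈ R.V (R.idx y) := by
  rw [R.hV, mul_smul, mul_smul]
  have h := R.hs (g⁻¹ • y)
  rw [R.idx_inv_smul] at h
  rw [h, smul_inv_smul, R.s_inv_smul]

lemma mem_V' (g h : G) (y : Ω) :
    (R.s (g⁻¹ • y))⁻¹ * h * R.s (h⁻¹ • g⁻¹ • y) ∈ R.V (R.idx y) := by
  have := R.mem_V h (g⁻¹ • y)
  rwa [R.idx_inv_smul] at this

end OrbitReps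

end Reps

section Ev

variable {k G A Ω : Type*} [CommRing k] [Group G] [AddCommGroup A] [Module k A] [MulAction G Ω]
  {𝓛 : Levels G} {ρ : Representation k G A}

lemma proj_equivar (ρ : Representation k G A) (x : Ω) (V : Subgroup G)
    (hV : ∀ g, g ∈ V ↔ g • x = x) (h : V) (a : Ω → A) :
    (LinearMap.proj x : (Ω → A) →ₗ[k] A) (funRep Ω ρ (V.subtype h) a) =
      (ρ.comp V.subtype) h ((LinearMap.proj x : (Ω → A) →ₗ[k] A) a) := by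
  show ρ (h : G) (a ((h : G)⁻¹ • x)) = ρ (h : G) (a x)
  have : (h : G)⁻¹ • x = x := by
    rw [inv_smul_eq_iff]; exact ((hV _).mp h.2).symm
  rw [this]

/-- evaluation at a point, degree 1 -/
def ev1 (𝓛 : Levels G) (ρ : Representation k G A) (x : Ω) (V : Subgroup G)
    (hV : ∀ g, g ∈ V ↔ g • x = x) :
    H1 𝓛 (funRep Ω ρ) →ₗ[k] H1 (𝓛.onSub V) (ρ.comp V.subtype) :=
  H1map (f := V.subtype) (φ := LinearMap.proj x) (𝓛.cont_onSub V) (proj_equivar ρ x V hV)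

/-- evaluation at a point, degree 2 -/
def ev2 (𝓛 : Levels G) (ρ : Representation k G A) (x : Ω) (V : Subgroup G)
    (hV : ∀ g, g ∈ V ↔ g • x = x) :
    H2 𝓛 (funRep Ω ρ) →ₗ[k] H2 (𝓛.onSub V) (ρ.comp V.subtype) :=
  H2map (f := V.subtype) (φ := LinearMap.proj x) (𝓛.cont_onSub V) (proj_equivar ρ x V hV)

end Ev

section Shapiro

variable {k G A Ω ι : Type*} [CommRing k] [Group G] [AddCommGroup A] [Module k A]
  [MulAction G Ω] {𝓛 : Levels G} {ρ : Representation k G A} (R : OrbitReps G Ω ι)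

/-- extension by zero of a function on a subgroup -/
noncomputable def ez1 (V : Subgroup G) (c : V → A) : G → A := by
  classical exact fun g => if h : g ∈ V then c ⟨g, h⟩ else 0

/-- extension by zero of a function on a subgroup, two variables -/
noncomputable def ez2 (V : Subgroup G) (c : V × V → A) : G × G → A := by
  classical exact fun p => if h : p.1 ∈ V ∧ p.2 ∈ V then c (⟨p.1, h.1⟩, ⟨p.2, h.2⟩) else 0

lemma ez1_of_mem {V : Subgroup G} (c : V → A) {g : G} (h : g ∈ V) : ez1 V c g = c ⟨g, h⟩ := by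
  rw [ez1, dif_pos h]

lemma ez2_of_mem {V : Subgroup G} (c : V × V → A) {g g' : G} (h : g ∈ V) (h' : g' ∈ V) :
    ez2 V c (g, g') = c (⟨g, h⟩, ⟨g', h'⟩) := by
  rw [ez2, dif_pos ⟨h, h'⟩]

lemma ez1_of_notMem {V : Subgroup G} (c : V → A) {g : G} (h : g ∉ V) : ez1 V c g = 0 := by
  rw [ez1, dif_neg h]

lemma ez2_of_notMem {V : Subgroup G} (c : V × V → A) {g g' : G} (h : ¬ (g ∈ V ∧ g' ∈ V)) :
    ez2 V c (g, g') = 0 := by
  rw [ez2, dif_neg h]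

lemma lc1_ez1 {V : Subgroup G} (hV : 𝓛.op V) {c : V → A} (hc : LC1 (𝓛.onSub V) c) :
    LC1 𝓛 (ez1 V c) := by
  obtain ⟨W, ⟨U, hU, hle⟩, h⟩ := hc
  refine ⟨U ⊓ V, 𝓛.op_inf hU hV, fun g s hs => ?_⟩
  by_cases hg : g ∈ V
  · rw [ez1_of_mem c hg, ez1_of_mem c (V.mul_mem hg hs.2)]
    have := h ⟨g, hg⟩ ⟨s, hs.2⟩ (hle (show (⟨s, hs.2⟩ : V) ∈ U.comap V.subtype from hs.1))
    exact this
  · have hg' : g * s ∉ V := fun h => hg (by
      have := V.mul_mem h (V.inv_mem hs.2)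
      rwa [mul_inv_cancel_right] at this)
    rw [ez1_of_notMem _ hg, ez1_of_notMem _ hg']

lemma lc2_ez2 {V : Subgroup G} (hV : 𝓛.op V) {c : V × V → A} (hc : LC2 (𝓛.onSub V) c) :
    LC2 𝓛 (ez2 V c) := by
  obtain ⟨W, ⟨U, hU, hle⟩, h⟩ := hc
  refine ⟨U ⊓ V, 𝓛.op_inf hU hV, fun g g' s hs s' hs' => ?_⟩
  have key : ∀ (g s : G), s ∈ U ⊓ V → (g * s ∈ V ↔ g ∈ V) := fun g s hs =>
    ⟨fun h => by
      have := V.mul_mem h (V.inv_mem hs.2)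
      rwa [mul_inv_cancel_right] at this, fun h => V.mul_mem h hs.2⟩
  by_cases hg : g ∈ V ∧ g' ∈ V
  · rw [ez2_of_mem c hg.1 hg.2, ez2_of_mem c (V.mul_mem hg.1 hs.2) (V.mul_mem hg.2 hs'.2)]
    exact h ⟨g, hg.1⟩ ⟨g', hg.2⟩ ⟨s, hs.2⟩
      (hle (show (⟨s, hs.2⟩ : V) ∈ U.comap V.subtype from hs.1)) ⟨s', hs'.2⟩
      (hle (show (⟨s', hs'.2⟩ : V) ∈ U.comap V.subtype from hs'.1))
  · have hg' : ¬ (g * s ∈ V ∧ g' * s' ∈ V) := by
      rw [key g s hs, key g' s' hs']; exact hg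
    rw [ez2_of_notMem _ hg, ez2_of_notMem _ hg']

/-- induction of a family of 1-cochains -/
noncomputable def ind1 (ρ : Representation k G A) (c : ∀ i, R.V i → A) : G → Ω → A :=
  fun g y => ρ (R.s y) (ez1 (R.V (R.idx y)) (c (R.idx y)) ((R.s y)⁻¹ * g * R.s (g⁻¹ • y)))

/-- induction of a family of 2-cochains -/
noncomputable def ind2 (ρ : Representation k G A) (c : ∀ i, R.V i × R.V i → A) : G × G → Ω → A :=
  fun p y => ρ (R.s y) (ez2 (R.V (R.idx y)) (c (R.idx y)) ((R.s y)⁻¹ * p.1 * R.s (p.1⁻¹ • y),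
    (R.s (p.1⁻¹ • y))⁻¹ * p.2 * R.s (p.2⁻¹ • p.1⁻¹ • y)))

lemma lc1_ind1 [Finite Ω] (hΩ : OpenAct 𝓛 Ω) {c : ∀ i, R.V i → A}
    (hc : ∀ i, LC1 (𝓛.onSub (R.V i)) (c i)) : LC1 𝓛 (ind1 R ρ c) := by
  refine LC1.pi fun y => ?_
  refine LC1.dep (f := fun ω g => ρ (R.s y) (ez1 (R.V (R.idx y)) (c (R.idx y))
    ((R.s y)⁻¹ * g * R.s ω))) (fun ω => ?_) (hΩ.lc1_inv_smul y)
  exact ((lc1_ez1 (hΩ.op_of_stabilizer _ _ (R.hV _)) (hc _)).mul_const _ _).comp' (ρ (R.s y))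

lemma OpenAct.lc2_inv_smul {G Ω : Type*} [Group G] [MulAction G Ω] {𝓛 : Levels G}
    (h : OpenAct 𝓛 Ω) (y : Ω) : LC2 𝓛 (fun p : G × G => p.2⁻¹ • p.1⁻¹ • y) := by
  have h1 := (h.lc1_inv_smul y).mul
  refine h1.comp' (fun a => a) |> fun h2 => ?_
  convert h2 using 2 with p
  rw [mul_inv_rev, mul_smul]

lemma lc2_ind2 [Finite Ω] (hΩ : OpenAct 𝓛 Ω) {c : ∀ i, R.V i × R.V i → A}
    (hc : ∀ i, LC2 (𝓛.onSub (R.V i)) (c i)) : LC2 𝓛 (ind2 R ρ c) := by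
  refine LC2.pi fun y => ?_
  refine LC2.dep (Ω := Ω × Ω) (f := fun ω p => ρ (R.s y) (ez2 (R.V (R.idx y)) (c (R.idx y))
    ((R.s y)⁻¹ * p.1 * R.s ω.1, (R.s ω.1)⁻¹ * p.2 * R.s ω.2)))
    (φ := fun p => (p.1⁻¹ • y, p.2⁻¹ • p.1⁻¹ • y)) (fun ω => ?_)
    ((hΩ.lc1_inv_smul y).fst.pair (hΩ.lc2_inv_smul y))
  exact ((lc2_ez2 (hΩ.op_of_stabilizer _ _ (R.hV _)) (hc _)).mul_const _ _ _ _).comp' (ρ (R.s y))

lemma ind1_mem_Z1 [Finite Ω] (hΩ : OpenAct 𝓛 Ω) {c : ∀ i, R.V i → A}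
    (hc : ∀ i, c i ∈ Z1 (𝓛.onSub (R.V i)) (ρ.comp (R.V i).subtype)) :
    ind1 R ρ c ∈ Z1 𝓛 (funRep Ω ρ) := by
  refine ⟨lc1_ind1 R hΩ fun i => (hc i).1, fun g h => ?_⟩
  funext y
  simp only [ind1, Pi.add_apply, funRep_apply]
  have e0 : (g * h)⁻¹ • y = h⁻¹ • g⁻¹ • y := by rw [mul_inv_rev, mul_smul]
  rw [e0, R.idx_inv_smul]
  have m1 := R.mem_V g y
  have m2 := R.mem_V' g h y
  have e1 : (R.s y)⁻¹ * (g * h) * R.s (h⁻¹ • g⁻¹ • y) =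
      ((R.s y)⁻¹ * g * R.s (g⁻¹ • y)) * ((R.s (g⁻¹ • y))⁻¹ * h * R.s (h⁻¹ • g⁻¹ • y)) := by
    group
  rw [e1, ez1_of_mem _ (Subgroup.mul_mem _ m1 m2), ez1_of_mem _ m1, ez1_of_mem _ m2]
  have h1 := (hc (R.idx y)).2 ⟨_, m1⟩ ⟨_, m2⟩
  have h2 : (⟨_, m1⟩ : R.V (R.idx y)) * ⟨_, m2⟩ = ⟨_, Subgroup.mul_mem _ m1 m2⟩ := rfl
  rw [h2] at h1
  rw [h1, map_add]
  congr 1
  show ρ (R.s y) (ρ ((R.s y)⁻¹ * g * R.s (g⁻¹ • y)) _) = _
  rw [← Module.End.mul_apply, ← Module.End.mul_apply, ← map_mul, ← map_mul]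
  congr 2
  group

lemma ind2_mem_Z2 [Finite Ω] (hΩ : OpenAct 𝓛 Ω) {c : ∀ i, R.V i × R.V i → A}
    (hc : ∀ i, c i ∈ Z2 (𝓛.onSub (R.V i)) (ρ.comp (R.V i).subtype)) :
    ind2 R ρ c ∈ Z2 𝓛 (funRep Ω ρ) := by
  refine ⟨lc2_ind2 R hΩ fun i => (hc i).1, fun g h j => ?_⟩
  funext y
  simp only [ind2, Pi.add_apply, funRep_apply]
  have e0 : (g * h)⁻¹ • y = h⁻¹ • g⁻¹ • y := by rw [mul_inv_rev, mul_smul]
  have e0' : (h * j)⁻¹ • g⁻¹ • y = j⁻¹ • h⁻¹ • g⁻¹ • y := by rw [mul_inv_rev, mul_smul]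
  rw [e0, e0', R.idx_inv_smul]
  have m1 := R.mem_V g y
  have m2 := R.mem_V' g h y
  have m3 : (R.s (h⁻¹ • g⁻¹ • y))⁻¹ * j * R.s (j⁻¹ • h⁻¹ • g⁻¹ • y) ∈ R.V (R.idx y) := by
    have := R.mem_V' h j (g⁻¹ • y)
    rwa [R.idx_inv_smul] at this
  have e1 : (R.s y)⁻¹ * (g * h) * R.s (h⁻¹ • g⁻¹ • y) =
      ((R.s y)⁻¹ * g * R.s (g⁻¹ • y)) * ((R.s (g⁻¹ • y))⁻¹ * h * R.s (h⁻¹ • g⁻¹ • y)) := by
    group
  have e2 : (R.s (g⁻¹ • y))⁻¹ * (h * j) * R.s (j⁻¹ • h⁻¹ • g⁻¹ • y) =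
      ((R.s (g⁻¹ • y))⁻¹ * h * R.s (h⁻¹ • g⁻¹ • y)) *
        ((R.s (h⁻¹ • g⁻¹ • y))⁻¹ * j * R.s (j⁻¹ • h⁻¹ • g⁻¹ • y)) := by
    group
  rw [e1, e2, ez2_of_mem _ (Subgroup.mul_mem _ m1 m2) m3, ez2_of_mem _ m1 m2,
    ez2_of_mem _ m2 m3, ez2_of_mem _ m1 (Subgroup.mul_mem _ m2 m3)]
  have h1 := (hc (R.idx y)).2 ⟨_, m1⟩ ⟨_, m2⟩ ⟨_, m3⟩
  have h2 : (⟨_, m1⟩ : R.V (R.idx y)) * ⟨_, m2⟩ = ⟨_, Subgroup.mul_mem _ m1 m2⟩ := rfl
  have h3 : (⟨_, m2⟩ : R.V (R.idx y)) * ⟨_, m3⟩ = ⟨_, Subgroup.mul_mem _ m2 m3⟩ := rfl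
  rw [h2, h3] at h1
  rw [← map_add, h1, map_add]
  congr 1
  show ρ (R.s y) (ρ ((R.s y)⁻¹ * g * R.s (g⁻¹ • y)) _) = _
  rw [← Module.End.mul_apply, ← Module.End.mul_apply, ← map_mul, ← map_mul]
  congr 2
  group

/-- total evaluation, degree 1 -/
def evT1 (𝓛 : Levels G) (ρ : Representation k G A) :
    H1 𝓛 (funRep Ω ρ) →ₗ[k] ∀ i, H1 (𝓛.onSub (R.V i)) (ρ.comp (R.V i).subtype) :=
  LinearMap.pi fun i => ev1 𝓛 ρ (R.x i) (R.V i) (R.hV i)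

/-- total evaluation, degree 2 -/
def evT2 (𝓛 : Levels G) (ρ : Representation k G A) :
    H2 𝓛 (funRep Ω ρ) →ₗ[k] ∀ i, H2 (𝓛.onSub (R.V i)) (ρ.comp (R.V i).subtype) :=
  LinearMap.pi fun i => ev2 𝓛 ρ (R.x i) (R.V i) (R.hV i)

/-- evaluation of cocycles, degree 1 -/
def evz1 (F : ↥(Z1 𝓛 (funRep Ω ρ))) (i : ι) :
    ↥(Z1 (𝓛.onSub (R.V i)) (ρ.comp (R.V i).subtype)) :=
  ⟨pp1 (R.V i).subtype (LinearMap.proj (R.x i)) (F : G → Ω → A),
    pp1_mem_Z1 (𝓛.cont_onSub (R.V i)) (proj_equivar ρ (R.x i) (R.V i) (R.hV i)) F.2⟩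

/-- evaluation of cocycles, degree 2 -/
def evz2 (F : ↥(Z2 𝓛 (funRep Ω ρ))) (i : ι) :
    ↥(Z2 (𝓛.onSub (R.V i)) (ρ.comp (R.V i).subtype)) :=
  ⟨pp2 (R.V i).subtype (LinearMap.proj (R.x i)) (F : G × G → Ω → A),
    pp2_mem_Z2 (𝓛.cont_onSub (R.V i)) (proj_equivar ρ (R.x i) (R.V i) (R.hV i)) F.2⟩

lemma evT1_mk (F : ↥(Z1 𝓛 (funRep Ω ρ))) (i : ι) :
    evT1 R 𝓛 ρ (H1π 𝓛 (funRep Ω ρ) F) i =
      H1π (𝓛.onSub (R.V i)) (ρ.comp (R.V i).subtype) (evz1 R F i) := rfl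

lemma evT2_mk (F : ↥(Z2 𝓛 (funRep Ω ρ))) (i : ι) :
    evT2 R 𝓛 ρ (H2π 𝓛 (funRep Ω ρ) F) i =
      H2π (𝓛.onSub (R.V i)) (ρ.comp (R.V i).subtype) (evz2 R F i) := rfl

lemma evz1_apply (F : ↥(Z1 𝓛 (funRep Ω ρ))) (i : ι) (v : R.V i) :
    (evz1 R F i : R.V i → A) v = (F : G → Ω → A) v (R.x i) := rfl

lemma evz2_apply (F : ↥(Z2 𝓛 (funRep Ω ρ))) (i : ι) (v : R.V i × R.V i) :
    (evz2 R F i : R.V i × R.V i → A) v = (F : G × G → Ω → A) (v.1, v.2) (R.x i) := rfl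

theorem evT1_surjective [Finite Ω] (hΩ : OpenAct 𝓛 Ω) : Function.Surjective (evT1 R 𝓛 ρ) := by
  intro z
  choose c hc using fun i => H1π_surjective _ _ (z i)
  refine ⟨H1π 𝓛 (funRep Ω ρ) ⟨_, ind1_mem_Z1 R hΩ fun i => (c i).2⟩, ?_⟩
  funext i
  rw [← hc i, evT1_mk]
  congr 1
  apply Subtype.ext
  funext v
  show ind1 R ρ (fun i => (c i : R.V i → A)) (v : G) (R.x i) = (c i : R.V i → A) v
  have hv : (v : G)⁻¹ • R.x i = R.x i := by
    rw [inv_smul_eq_iff]; exact ((R.hV i _).mp v.2).symm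
  rw [ind1, hv, R.s_x, map_one, Module.End.one_apply, inv_one, one_mul, mul_one, R.idx_x,
    ez1_of_mem _ v.2]

theorem evT2_surjective [Finite Ω] (hΩ : OpenAct 𝓛 Ω) : Function.Surjective (evT2 R 𝓛 ρ) := by
  intro z
  choose c hc using fun i => H2π_surjective _ _ (z i)
  refine ⟨H2π 𝓛 (funRep Ω ρ) ⟨_, ind2_mem_Z2 R hΩ fun i => (c i).2⟩, ?_⟩
  funext i
  rw [← hc i, evT2_mk]
  congr 1
  apply Subtype.ext
  funext v
  show ind2 R ρ (fun i => (c i : R.V i × R.V i → A)) ((v.1 : G), (v.2 : G)) (R.x i) =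
    (c i : R.V i × R.V i → A) v
  have hv : (v.1 : G)⁻¹ • R.x i = R.x i := by
    rw [inv_smul_eq_iff]; exact ((R.hV i _).mp v.1.2).symm
  have hv' : (v.2 : G)⁻¹ • R.x i = R.x i := by
    rw [inv_smul_eq_iff]; exact ((R.hV i _).mp v.2.2).symm
  rw [ind2, hv, hv', R.s_x, map_one, Module.End.one_apply, inv_one, one_mul, mul_one, one_mul,
    mul_one, R.idx_x, ez2_of_mem _ v.1.2 v.2.2]

theorem evT1_injective : Function.Injective (evT1 R 𝓛 ρ) := by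
  rw [injective_iff_map_eq_zero]
  intro z hz
  induction z using H1_ind with
  | h F =>
    have h1 : ∀ i, ∃ a : A, ∀ v : R.V i, ρ (v : G) a - a = (F : G → Ω → A) v (R.x i) := by
      intro i
      have h := congrFun hz i
      rw [evT1_mk, Pi.zero_apply, H1π_eq_zero_iff] at h
      obtain ⟨a, ha⟩ := h
      exact ⟨a, fun v => congrFun ha v⟩
    choose a ha using h1
    rw [H1π_eq_zero_iff]
    -- retraction of F is a coboundary
    have h2 : retr1 ρ R.s (F : G → Ω → A) =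
        d0 (funRep Ω ρ) (fun y => ρ (R.s y) (a (R.idx y))) := by
      funext g y
      simp only [retr1, d0_apply, Pi.sub_apply, funRep_apply]
      have m1 := R.mem_V g y
      have h3 := ha (R.idx y) ⟨_, m1⟩
      rw [R.s_inv_smul, ← h3, map_sub, R.idx_inv_smul]
      congr 1
      show ρ (R.s y) (ρ ((R.s y)⁻¹ * g * R.s (g⁻¹ • y)) _) = _
      rw [← Module.End.mul_apply, ← Module.End.mul_apply, ← map_mul, ← map_mul]
      congr 2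
      group
    rw [retr1_eq R.s F.2.2] at h2
    refine ⟨(fun y => ρ (R.s y) (a (R.idx y))) - htp1 R.s (F : G → Ω → A), ?_⟩
    rw [map_sub, ← h2]
    abel

theorem evT2_injective [Finite Ω] (hΩ : OpenAct 𝓛 Ω) :
    Function.Injective (evT2 R 𝓛 ρ) := by
  rw [injective_iff_map_eq_zero]
  intro z hz
  induction z using H2_ind with
  | h F =>
    have h1 : ∀ i, ∃ b : R.V i → A, LC1 (𝓛.onSub (R.V i)) b ∧
        ∀ v w : R.V i, ρ (v : G) (b w) - b (v * w) + b v =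
          (F : G × G → Ω → A) (v, w) (R.x i) := by
      intro i
      have h := congrFun hz i
      rw [evT2_mk, Pi.zero_apply, H2π_eq_zero_iff] at h
      obtain ⟨b, hb, hb'⟩ := h
      exact ⟨b, hb, fun v w => congrFun hb' (v, w)⟩
    choose b hb hb' using h1
    rw [H2π_eq_zero_iff]
    have h2 : retr2 ρ R.s (F : G × G → Ω → A) = d1 (funRep Ω ρ) (ind1 R ρ b) := by
      funext ⟨g, h⟩ y
      simp only [retr2, d1_apply, Pi.sub_apply, Pi.add_apply, funRep_apply, ind1]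
      have m1 := R.mem_V g y
      have m2 := R.mem_V' g h y
      have h3 := hb' (R.idx y) ⟨_, m1⟩ ⟨_, m2⟩
      have e0 : (g * h)⁻¹ • y = h⁻¹ • g⁻¹ • y := by rw [mul_inv_rev, mul_smul]
      have e1 : (R.s y)⁻¹ * (g * h) * R.s (h⁻¹ • g⁻¹ • y) =
          ((R.s y)⁻¹ * g * R.s (g⁻¹ • y)) *
            ((R.s (g⁻¹ • y))⁻¹ * h * R.s (h⁻¹ • g⁻¹ • y)) := by
        group
      rw [e0, e1, R.s_inv_smul, ← h3, map_add, map_sub, R.idx_inv_smul,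
        ez1_of_mem _ (Subgroup.mul_mem _ m1 m2), ez1_of_mem _ m1, ez1_of_mem _ m2]
      congr 2
      show ρ (R.s y) (ρ ((R.s y)⁻¹ * g * R.s (g⁻¹ • y)) _) = _
      rw [← Module.End.mul_apply, ← Module.End.mul_apply, ← map_mul, ← map_mul]
      congr 2
      group
    rw [retr2_eq R.s F.2.2] at h2
    refine ⟨ind1 R ρ b - htp2 R.s (F : G × G → Ω → A),
      ((lc1_ind1 R hΩ hb).pair (lc1_htp2 hΩ R.s F.2.1)).comp' fun p => p.1 - p.2, ?_⟩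
    rw [map_sub, ← h2]
    abel

theorem evT1_bijective [Finite Ω] (hΩ : OpenAct 𝓛 Ω) : Function.Bijective (evT1 R 𝓛 ρ) :=
  ⟨evT1_injective R, evT1_surjective R hΩ⟩

theorem evT2_bijective [Finite Ω] (hΩ : OpenAct 𝓛 Ω) :
    Function.Bijective (evT2 R 𝓛 ρ) :=
  ⟨evT2_injective R hΩ, evT2_surjective R hΩ⟩

end Shapiro

end Fermat.Agent.H55
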