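import Mathlib
import Fermat.Agent.H55ShapiroB

set_option autoImplicit false
set_option maxSynthPendingDepth 3

/-!
# S55 F2 : Shapiro isomorphisms, invariants, dimensions, Mackey compatibility
-/

namespace Fermat.Agent.H55

open Module

section Naturality

variable {k G A B Ω ι : Type*} [CommRing k] [Group G] [AddCommGroup A] [Module k A]
  [AddCommGroup B] [Module k B] [MulAction G Ω] {𝓛 : Levels G} {ρA : Representation k G A}
  {ρB : Representation k G B}

/-- the map induced on functions by an equivariant map is equivariant -/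
lemma Equivar.func {φ : A →ₗ[k] B} (hφ : Equivar ρA ρB φ) (Ω : Type*) [MulAction G Ω] :
    Equivar (funRep Ω ρA) (funRep Ω ρB) (φ.compLeft Ω) := fun g f => by
  funext x
  exact hφ g _

/-- naturality of evaluation, degree 1 -/
lemma ev1_H1c {φ : A →ₗ[k] B} (hφ : Equivar ρA ρB φ) (x : Ω) (V : Subgroup G)
    (hV : ∀ g, g ∈ V ↔ g • x = x) (z : H1 𝓛 (funRep Ω ρA)) :
    ev1 𝓛 ρB x V hV (H1c 𝓛 (hφ.func Ω) z) =
      H1c (𝓛.onSub V) (hφ.res V.subtype) (ev1 𝓛 ρA x V hV z) := by
  induction z using H1_ind with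
  | h z => rfl

/-- naturality of evaluation, degree 2 -/
lemma ev2_H2c {φ : A →ₗ[k] B} (hφ : Equivar ρA ρB φ) (x : Ω) (V : Subgroup G)
    (hV : ∀ g, g ∈ V ↔ g • x = x) (z : H2 𝓛 (funRep Ω ρA)) :
    ev2 𝓛 ρB x V hV (H2c 𝓛 (hφ.func Ω) z) =
      H2c (𝓛.onSub V) (hφ.res V.subtype) (ev2 𝓛 ρA x V hV z) := by
  induction z using H2_ind with
  | h z => rfl

end Naturality

section Equivs

variable {k G A Ω ι : Type*} [CommRing k] [Group G] [AddCommGroup A] [Module k A]
  [MulAction G Ω] {𝓛 : Levels G} {ρ : Representation k G A} (R : OrbitReps G Ω ι)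

/-- Shapiro's isomorphism, degree 1 -/
noncomputable def shap1 [Finite Ω] (hΩ : OpenAct 𝓛 Ω) (ρ : Representation k G A) :
    H1 𝓛 (funRep Ω ρ) ≃ₗ[k] ∀ i, H1 (𝓛.onSub (R.V i)) (ρ.comp (R.V i).subtype) :=
  LinearEquiv.ofBijective (evT1 R 𝓛 ρ) (evT1_bijective R hΩ)

/-- Shapiro's isomorphism, degree 2 -/
noncomputable def shap2 [Finite Ω] (hΩ : OpenAct 𝓛 Ω) (ρ : Representation k G A) :
    H2 𝓛 (funRep Ω ρ) ≃ₗ[k] ∀ i, H2 (𝓛.onSub (R.V i)) (ρ.comp (R.V i).subtype) :=
  LinearEquiv.ofBijective (evT2 R 𝓛 ρ) (evT2_bijective R hΩ)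

@[simp] lemma shap1_apply [Finite Ω] (hΩ : OpenAct 𝓛 Ω) (z : H1 𝓛 (funRep Ω ρ)) (i : ι) :
    shap1 R hΩ ρ z i = ev1 𝓛 ρ (R.x i) (R.V i) (R.hV i) z := rfl

@[simp] lemma shap2_apply [Finite Ω] (hΩ : OpenAct 𝓛 Ω) (z : H2 𝓛 (funRep Ω ρ)) (i : ι) :
    shap2 R hΩ ρ z i = ev2 𝓛 ρ (R.x i) (R.V i) (R.hV i) z := rfl

/-- invariants of functions on `Ω` -/
def shap0 (ρ : Representation k G A) :
    (funRep Ω ρ).invariants ≃ₗ[k]
      ∀ i, (Representation.invariants (ρ.comp (R.V i).subtype) : Submodule k A) where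
  toFun f i := ⟨(f : Ω → A) (R.x i), fun v => by
    have h := congrFun (f.2 (v : G)) (R.x i)
    have hv : (v : G)⁻¹ • R.x i = R.x i := by
      rw [inv_smul_eq_iff]; exact ((R.hV i _).mp v.2).symm
    rw [funRep_apply, hv] at h
    exact h⟩
  map_add' f f' := rfl
  map_smul' c f := rfl
  invFun a := ⟨fun y => ρ (R.s y) (a (R.idx y) : A), fun g => by
    funext y
    rw [funRep_apply, R.idx_inv_smul, ← Module.End.mul_apply, ← map_mul]
    have h := (a (R.idx y)).2 ⟨_, R.mem_V g y⟩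
    have h' : ρ ((R.s y)⁻¹ * g * R.s (g⁻¹ • y)) (a (R.idx y) : A) = (a (R.idx y) : A) := h
    conv_rhs => rw [← h']
    rw [← Module.End.mul_apply, ← map_mul]
    congr 2
    group⟩
  left_inv f := by
    apply Subtype.ext
    funext y
    have h := congrFun (f.2 (R.s y)) y
    rw [funRep_apply, R.s_inv_smul] at h
    exact h
  right_inv a := by
    funext i
    apply Subtype.ext
    show ρ (R.s (R.x i)) (a (R.idx (R.x i)) : A) = (a i : A)
    rw [R.s_x, map_one, Module.End.one_apply, R.idx_x]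

end Equivs

section Finrank

variable {k G Ω ι : Type*} [Field k] [Group G] [MulAction G Ω] {𝓛 : Levels G}
  (R : OrbitReps G Ω ι)

/-- finiteness for functions on `Ω`, trivial coefficients, degree 1 -/
lemma finite_H1_funRep [Finite Ω] [Finite ι] (hΩ : OpenAct 𝓛 Ω)
    (h : ∀ i, Module.Finite k (H1 (𝓛.onSub (R.V i)) (Representation.trivial k (R.V i) k))) :
    Module.Finite k (H1 𝓛 (funRep Ω (Representation.trivial k G k))) := by
  have : ∀ i, Module.Finite k (H1 (𝓛.onSub (R.V i))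
    ((Representation.trivial k G k).comp (R.V i).subtype)) := h
  exact Module.Finite.equiv (shap1 R hΩ (Representation.trivial k G k)).symm

/-- finiteness for functions on `Ω`, trivial coefficients, degree 2 -/
lemma finite_H2_funRep [Finite Ω] [Finite ι] (hΩ : OpenAct 𝓛 Ω)
    (h : ∀ i, Module.Finite k (H2 (𝓛.onSub (R.V i)) (Representation.trivial k (R.V i) k))) :
    Module.Finite k (H2 𝓛 (funRep Ω (Representation.trivial k G k))) := by
  have : ∀ i, Module.Finite k (H2 (𝓛.onSub (R.V i))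
    ((Representation.trivial k G k).comp (R.V i).subtype)) := h
  exact Module.Finite.equiv (shap2 R hΩ (Representation.trivial k G k)).symm

/-- dimensions for functions on `Ω`, trivial coefficients, degree 1 -/
lemma finrank_H1_funRep [Finite Ω] [Fintype ι] (hΩ : OpenAct 𝓛 Ω)
    (h : ∀ i, Module.Finite k (H1 (𝓛.onSub (R.V i)) (Representation.trivial k (R.V i) k))) :
    finrank k (H1 𝓛 (funRep Ω (Representation.trivial k G k))) =
      ∑ i, finrank k (H1 (𝓛.onSub (R.V i)) (Representation.trivial k (R.V i) k)) := by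
  have : ∀ i, Module.Finite k (H1 (𝓛.onSub (R.V i))
    ((Representation.trivial k G k).comp (R.V i).subtype)) := h
  rw [(shap1 R hΩ (Representation.trivial k G k)).finrank_eq, Module.finrank_pi_fintype]
  rfl

/-- dimensions for functions on `Ω`, trivial coefficients, degree 2 -/
lemma finrank_H2_funRep [Finite Ω] [Fintype ι] (hΩ : OpenAct 𝓛 Ω)
    (h : ∀ i, Module.Finite k (H2 (𝓛.onSub (R.V i)) (Representation.trivial k (R.V i) k))) :
    finrank k (H2 𝓛 (funRep Ω (Representation.trivial k G k))) =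
      ∑ i, finrank k (H2 (𝓛.onSub (R.V i)) (Representation.trivial k (R.V i) k)) := by
  have : ∀ i, Module.Finite k (H2 (𝓛.onSub (R.V i))
    ((Representation.trivial k G k).comp (R.V i).subtype)) := h
  rw [(shap2 R hΩ (Representation.trivial k G k)).finrank_eq, Module.finrank_pi_fintype]
  rfl

include R in
/-- the invariants of the functions on `Ω` with trivial coefficients: the number of orbits -/
lemma finrank_invariants_funRep [Fintype ι] :
    finrank k (funRep Ω (Representation.trivial k G k)).invariants = Fintype.card ι := by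
  have h1 : ∀ i, (Representation.invariants
      ((Representation.trivial k G k).comp (R.V i).subtype) : Submodule k k) = ⊤ := by
    intro i
    rw [eq_top_iff]
    intro a _
    rw [Representation.mem_invariants]
    intro g
    rfl
  have e : (∀ i, (Representation.invariants
      ((Representation.trivial k G k).comp (R.V i).subtype) : Submodule k k)) ≃ₗ[k]
      (ι → k) := LinearEquiv.piCongrRight fun i =>
        (LinearEquiv.ofEq _ _ (h1 i)).trans Submodule.topEquiv
  rw [((shap0 R (Representation.trivial k G k)).trans e).finrank_eq, Module.finrank_fintype_fun_eq_card]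

end Finrank

section Coset

variable {G : Type*} [Group G] {𝓛 : Levels G}

/-- the single orbit of `G` on `G ⧸ U` -/
noncomputable def cosetReps (U : Subgroup G) : OrbitReps G (G ⧸ U) Unit where
  x _ := ((1 : G) : G ⧸ U)
  V _ := U
  hV _ g := by
    have h : g • ((1 : G) : G ⧸ U) = ((g : G) : G ⧸ U) := by
      show ((g * 1 : G) : G ⧸ U) = _
      rw [mul_one]
    rw [h, eq_comm, QuotientGroup.eq, inv_one, one_mul]
  idx _ := ()
  s y := by classical exact if y = ((1 : G) : G ⧸ U) then 1 else y.out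
  hs y := by
    by_cases hy : y = ((1 : G) : G ⧸ U)
    · rw [if_pos hy, one_smul, hy]
    · rw [if_neg hy]
      show ((y.out * 1 : G) : G ⧸ U) = y
      rw [mul_one]
      exact QuotientGroup.out_eq' y
  idx_x _ := rfl
  s_x _ := by rw [if_pos rfl]
  idx_smul _ _ := rfl

lemma openAct_coset {U : Subgroup G} (hU : 𝓛.op U) : OpenAct 𝓛 (G ⧸ U) := by
  obtain ⟨N, hN, hn, hle⟩ := 𝓛.exists_normal hU
  refine ⟨N, hN, fun s hs y => ?_⟩
  induction y using QuotientGroup.induction_on with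
  | H g =>
    show ((s * g : G) : G ⧸ U) = (g : G ⧸ U)
    rw [eq_comm, QuotientGroup.eq]
    apply hle
    have := hn.conj_mem s hs g⁻¹
    rwa [inv_inv, mul_assoc] at this

lemma finite_coset {U : Subgroup G} (hU : 𝓛.op U) : Finite (G ⧸ U) := by
  have := 𝓛.finiteIndex hU
  exact U.finite_quotient_of_finiteIndex

end Coset

/-! ### Shapiro for `G ⧸ U` -/

section ShapU

variable {k G A : Type*} [CommRing k] [Group G] [AddCommGroup A] [Module k A]
  {𝓛 : Levels G} (ρ : Representation k G A)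

lemma mem_iff_smul_one {G : Type*} [Group G] (U : Subgroup G) (g : G) :
    g ∈ U ↔ g • ((1 : G) : G ⧸ U) = ((1 : G) : G ⧸ U) := (cosetReps U).hV () g

/-- Shapiro's isomorphism for `G ⧸ U`, degree 1: evaluation at `1 · U` -/
noncomputable def shapU1 {U : Subgroup G} (hU : 𝓛.op U) :
    H1 𝓛 (funRep (G ⧸ U) ρ) ≃ₗ[k] H1 (𝓛.onSub U) (ρ.comp U.subtype) :=
  LinearEquiv.ofBijective (ev1 𝓛 ρ ((1 : G) : G ⧸ U) U (mem_iff_smul_one U)) (by
    have := finite_coset hU
    have h := evT1_bijective (ρ := ρ) (cosetReps U) (openAct_coset hU)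
    constructor
    · intro a b hab
      exact h.1 (funext fun _ => hab)
    · intro b
      obtain ⟨a, ha⟩ := h.2 (fun _ => b)
      exact ⟨a, congrFun ha ()⟩)

/-- Shapiro's isomorphism for `G ⧸ U`, degree 2: evaluation at `1 · U` -/
noncomputable def shapU2 {U : Subgroup G} (hU : 𝓛.op U) :
    H2 𝓛 (funRep (G ⧸ U) ρ) ≃ₗ[k] H2 (𝓛.onSub U) (ρ.comp U.subtype) :=
  LinearEquiv.ofBijective (ev2 𝓛 ρ ((1 : G) : G ⧸ U) U (mem_iff_smul_one U)) (by
    have := finite_coset hU
    have h := evT2_bijective (ρ := ρ) (cosetReps U) (openAct_coset hU)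
    constructor
    · intro a b hab
      exact h.1 (funext fun _ => hab)
    · intro b
      obtain ⟨a, ha⟩ := h.2 (fun _ => b)
      exact ⟨a, congrFun ha ()⟩)

@[simp] lemma shapU1_apply {U : Subgroup G} (hU : 𝓛.op U) (z : H1 𝓛 (funRep (G ⧸ U) ρ)) :
    shapU1 ρ hU z = ev1 𝓛 ρ ((1 : G) : G ⧸ U) U (mem_iff_smul_one U) z := rfl

@[simp] lemma shapU2_apply {U : Subgroup G} (hU : 𝓛.op U) (z : H2 𝓛 (funRep (G ⧸ U) ρ)) :
    shapU2 ρ hU z = ev2 𝓛 ρ ((1 : G) : G ⧸ U) U (mem_iff_smul_one U) z := rfl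

end ShapU

/-! ### Evaluation for a group acting through a homomorphism, Mackey compatibility -/

section Mackey

variable {k G H A : Type*} [CommRing k] [Group G] [Group H] [AddCommGroup A] [Module k A]
  {𝓛 : Levels G} {𝓜 : Levels H} {f : H →* G} (ρ : Representation k G A)

lemma mem_dec_iff_smul (f : H →* G) (U : Subgroup G) (g : G) (h : H) :
    h ∈ dec f U g ↔ f h • (g : G ⧸ U) = (g : G ⧸ U) := by
  show g⁻¹ * f h * g ∈ U ↔ ((f h * g : G) : G ⧸ U) = (g : G ⧸ U)
  rw [eq_comm, QuotientGroup.eq, mul_assoc]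

lemma decProj_equivar (f : H →* G) (U : Subgroup G) (g : G) (h : dec f U g) (a : G ⧸ U → A) :
    (LinearMap.proj (g : G ⧸ U) : (G ⧸ U → A) →ₗ[k] A)
      (((funRep (G ⧸ U) ρ).comp f) ((dec f U g).subtype h) a) =
      ((ρ.comp f).comp (dec f U g).subtype) h
        ((LinearMap.proj (g : G ⧸ U) : (G ⧸ U → A) →ₗ[k] A) a) := by
  show ρ (f (h : H)) (a ((f (h : H))⁻¹ • (g : G ⧸ U))) = ρ (f (h : H)) (a (g : G ⧸ U))
  have : (f (h : H))⁻¹ • (g : G ⧸ U) = (g : G ⧸ U) := by
    rw [inv_smul_eq_iff]; exact ((mem_dec_iff_smul f U g _).mp h.2).symm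
  rw [this]

/-- evaluation at `g U` for a group acting through `f`, degree 1 -/
def evd1 (𝓜 : Levels H) (f : H →* G) (U : Subgroup G) (g : G) :
    H1 𝓜 ((funRep (G ⧸ U) ρ).comp f) →ₗ[k]
      H1 (𝓜.onSub (dec f U g)) ((ρ.comp f).comp (dec f U g).subtype) :=
  H1map (f := (dec f U g).subtype) (φ := LinearMap.proj (g : G ⧸ U))
    (𝓜.cont_onSub _) (decProj_equivar ρ f U g)

/-- evaluation at `g U` for a group acting through `f`, degree 2 -/
def evd2 (𝓜 : Levels H) (f : H →* G) (U : Subgroup G) (g : G) :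
    H2 𝓜 ((funRep (G ⧸ U) ρ).comp f) →ₗ[k]
      H2 (𝓜.onSub (dec f U g)) ((ρ.comp f).comp (dec f U g).subtype) :=
  H2map (f := (dec f U g).subtype) (φ := LinearMap.proj (g : G ⧸ U))
    (𝓜.cont_onSub _) (decProj_equivar ρ f U g)

lemma decHom_equivar (f : H →* G) (U : Subgroup G) (g : G) (h : dec f U g) (a : A) :
    ρ g ((ρ.comp U.subtype) (decHom f U g h) a) =
      ((ρ.comp f).comp (dec f U g).subtype) h (ρ g a) := by
  show ρ g (ρ (g⁻¹ * f (h : H) * g) a) = ρ (f (h : H)) (ρ g a)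
  rw [← Module.End.mul_apply, ← Module.End.mul_apply, ← map_mul, ← map_mul]
  congr 2
  group

/-- **Mackey compatibility**, degree 1 -/
theorem evd1_H1res (hf : Levels.Cont 𝓜 𝓛 f) (U : Subgroup G) (g : G)
    (z : H1 𝓛 (funRep (G ⧸ U) ρ)) :
    evd1 ρ 𝓜 f U g (H1res hf (funRep (G ⧸ U) ρ) z) =
      H1map (f := decHom f U g) (φ := ρ g) (cont_decHom hf U g) (decHom_equivar ρ f U g)
        (ev1 𝓛 ρ ((1 : G) : G ⧸ U) U (mem_iff_smul_one U) z) := by
  conv_lhs => rw [← H1map_conj g z]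
  rw [evd1, H1res, ev1, H1map_comp, H1map_comp, H1map_comp]
  refine LinearMap.congr_fun (H1map_congr ?_ ?_) z
  · ext x
    simp [decHom, mul_assoc]
  · refine LinearMap.ext fun F => ?_
    show ρ g (F (g⁻¹ • (g : G ⧸ U))) = ρ g (F ((1 : G) : G ⧸ U))
    have : g⁻¹ • (g : G ⧸ U) = ((1 : G) : G ⧸ U) := by
      show ((g⁻¹ * g : G) : G ⧸ U) = _
      rw [inv_mul_cancel]
    rw [this]

/-- **Mackey compatibility**, degree 2 -/
theorem evd2_H2res (hf : Levels.Cont 𝓜 𝓛 f) (U : Subgroup G) (g : G)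
    (z : H2 𝓛 (funRep (G ⧸ U) ρ)) :
    evd2 ρ 𝓜 f U g (H2res hf (funRep (G ⧸ U) ρ) z) =
      H2map (f := decHom f U g) (φ := ρ g) (cont_decHom hf U g) (decHom_equivar ρ f U g)
        (ev2 𝓛 ρ ((1 : G) : G ⧸ U) U (mem_iff_smul_one U) z) := by
  conv_lhs => rw [← H2map_conj g z]
  rw [evd2, H2res, ev2, H2map_comp, H2map_comp, H2map_comp]
  refine LinearMap.congr_fun (H2map_congr ?_ ?_) z
  · ext x
    simp [decHom, mul_assoc]
  · refine LinearMap.ext fun F => ?_
    show ρ g (F (g⁻¹ • (g : G ⧸ U))) = ρ g (F ((1 : G) : G ⧸ U))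
    have : g⁻¹ • (g : G ⧸ U) = ((1 : G) : G ⧸ U) := by
      show ((g⁻¹ * g : G) : G ⧸ U) = _
      rw [inv_mul_cancel]
    rw [this]

end Mackey

end Fermat.Agent.H55
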