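import Mathlib
import Fermat.Agent.H55LES
import Fermat.Agent.H55ShapiroC

set_option autoImplicit false
set_option maxSynthPendingDepth 3

/-!
# S55 : Shapiro's lemma for `G ⧸ P`, functions with values in a representation
-/

namespace Fermat.Agent.H55

open Module

section Shapiro

variable {k G A B : Type*} [CommRing k] [Group G] [AddCommGroup A] [Module k A]
  [AddCommGroup B] [Module k B]
  (𝓛 : Levels G) (P : Subgroup G) (ρ : Representation k G A)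

lemma smul_one_coset (h : P) : ((h : G)⁻¹) • ((1 : G) : G ⧸ P) = ((1 : G) : G ⧸ P) := by
  show (((h : G)⁻¹ * 1 : G) : G ⧸ P) = ((1 : G) : G ⧸ P)
  rw [QuotientGroup.eq]
  simp

lemma sh_compat (h : P) (f : G ⧸ P → A) :
    (LinearMap.proj ((1 : G) : G ⧸ P) : (G ⧸ P → A) →ₗ[k] A) (funRep (G ⧸ P) ρ (P.subtype h) f) =
      (ρ.comp P.subtype) h ((LinearMap.proj ((1 : G) : G ⧸ P) : (G ⧸ P → A) →ₗ[k] A) f) := by
  show ρ (h : G) (f (((h : G)⁻¹) • ((1 : G) : G ⧸ P))) = ρ (h : G) (f ((1 : G) : G ⧸ P))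
  rw [smul_one_coset]

/-- Shapiro map, degree 1 -/
def sh1 : H1 𝓛 (funRep (G ⧸ P) ρ) →ₗ[k] H1 (𝓛.onSub P) (ρ.comp P.subtype) :=
  H1map (f := P.subtype) (φ := LinearMap.proj ((1 : G) : G ⧸ P)) (𝓛.cont_onSub P) (sh_compat P ρ)

/-- Shapiro map, degree 2 -/
def sh2 : H2 𝓛 (funRep (G ⧸ P) ρ) →ₗ[k] H2 (𝓛.onSub P) (ρ.comp P.subtype) :=
  H2map (f := P.subtype) (φ := LinearMap.proj ((1 : G) : G ⧸ P)) (𝓛.cont_onSub P) (sh_compat P ρ)

variable {𝓛 P ρ}

theorem sh1_bijective (hP : 𝓛.op P) : Function.Bijective (sh1 𝓛 P ρ) :=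
  (shapU1 ρ hP).bijective

theorem sh2_bijective (hP : 𝓛.op P) : Function.Bijective (sh2 𝓛 P ρ) :=
  (shapU2 ρ hP).bijective

end Shapiro

end Fermat.Agent.H55
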