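import Mathlib
import Fermat.Agent.H55Sh
import Fermat.Agent.H55Pow

set_option autoImplicit false
set_option maxSynthPendingDepth 3

/-!
# S55 : right exactness of `H²` for representations of a group `G` killed by an open normal
subgroup `N` with `G/N` a `p`-group
-/

namespace Fermat.Agent.H55

open Module

section Inv

variable {k G A : Type*} [Field k] [Group G] [AddCommGroup A] [Module k A] (P : Subgroup G)
  (ρ : Representation k G A)

lemma rho_mul (g h : G) (a : A) : ρ (g * h) a = ρ g (ρ h a) := by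
  rw [map_mul]; rfl

lemma rho_inv_rho (g : G) (a : A) : ρ g⁻¹ (ρ g a) = a := by
  rw [← rho_mul, inv_mul_cancel, map_one]; rfl

lemma rho_rho_inv (g : G) (a : A) : ρ g (ρ g⁻¹ a) = a := by
  rw [← rho_mul, mul_inv_cancel, map_one]; rfl

/-- restriction of a representation to a subgroup -/
abbrev resRep : Representation k P A := ρ.comp P.subtype

/-- evaluation at `1` of an invariant function -/
noncomputable def invShMap :
    (funRep (G ⧸ P) ρ).invariants →ₗ[k] (resRep P ρ).invariants where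
  toFun f := ⟨(f : G ⧸ P → A) ((1 : G) : G ⧸ P), fun h => by
    have h1 := congrFun (f.2 (h : G)) ((1 : G) : G ⧸ P)
    have h2 := sh_compat P ρ h f.1
    simp only [LinearMap.proj_apply] at h2
    exact h2.symm.trans h1⟩
  map_add' f f' := rfl
  map_smul' c f := rfl

lemma invShMap_bijective : Function.Bijective (invShMap P ρ) := by
  constructor
  · rw [← LinearMap.ker_eq_bot, LinearMap.ker_eq_bot']
    intro f hf
    have hf' : (f : G ⧸ P → A) ((1 : G) : G ⧸ P) = 0 := congrArg Subtype.val hf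
    apply Subtype.ext
    funext x
    induction x using QuotientGroup.induction_on with
    | H g =>
      have h1 := congrFun (f.2 g) (g : G ⧸ P)
      rw [funRep_apply] at h1
      have h2 : g⁻¹ • (g : G ⧸ P) = ((1 : G) : G ⧸ P) := by
        show ((g⁻¹ * g : G) : G ⧸ P) = _
        rw [inv_mul_cancel]
      rw [h2, hf', map_zero] at h1
      exact h1.symm
  · intro a
    have hwd : ∀ x y : G, QuotientGroup.leftRel P x y → ρ x (a : A) = ρ y (a : A) := by
      intro x y hxy
      rw [QuotientGroup.leftRel_apply] at hxy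
      have := a.2 ⟨x⁻¹ * y, hxy⟩
      have h2 : ρ (x⁻¹ * y) (a : A) = a := this
      conv_lhs => rw [← h2, ← rho_mul, mul_inv_cancel_left]
    refine ⟨⟨Quotient.lift (fun g => ρ g (a : A)) hwd, fun g => funext fun x => ?_⟩, ?_⟩
    · induction x using QuotientGroup.induction_on with
      | H x =>
        show ρ g (ρ (g⁻¹ * x) (a : A)) = ρ x a
        rw [← rho_mul, mul_inv_cancel_left]
    · apply Subtype.ext
      show ρ 1 (a : A) = a
      rw [map_one]; rfl

/-- invariants of functions on `G ⧸ P` -/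
noncomputable def invSh : (funRep (G ⧸ P) ρ).invariants ≃ₗ[k] (resRep P ρ).invariants :=
  LinearEquiv.ofBijective _ (invShMap_bijective P ρ)

variable {P ρ} {𝓛 : Levels G}

lemma fin2_sh (hP : 𝓛.op P) (hs : Smooth 𝓛 ρ) (h : Fin2 (𝓛.onSub P) (resRep P ρ)) :
    Fin2 𝓛 (funRep (G ⧸ P) ρ) := by
  have := h.f0
  have := h.f1
  have := h.f2
  exact ⟨Module.Finite.equiv (invSh P ρ).symm,
    Module.Finite.equiv (LinearEquiv.ofBijective _ (sh1_bijective hP)).symm,
    Module.Finite.equiv (LinearEquiv.ofBijective _ (sh2_bijective hP)).symm⟩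

lemma fin2_sh' (hP : 𝓛.op P) (hs : Smooth 𝓛 ρ) (h : Fin2 𝓛 (funRep (G ⧸ P) ρ)) :
    Fin2 (𝓛.onSub P) (resRep P ρ) := by
  have := h.f0
  have := h.f1
  have := h.f2
  exact ⟨Module.Finite.equiv (invSh P ρ),
    Module.Finite.equiv (LinearEquiv.ofBijective _ (sh1_bijective hP)),
    Module.Finite.equiv (LinearEquiv.ofBijective _ (sh2_bijective hP))⟩

lemma chi2_sh (hP : 𝓛.op P) (hs : Smooth 𝓛 ρ) :
    chi2 𝓛 (funRep (G ⧸ P) ρ) = chi2 (𝓛.onSub P) (resRep P ρ) := by
  rw [chi2, chi2, (invSh P ρ).finrank_eq,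
    (LinearEquiv.ofBijective _ (sh1_bijective hP)).finrank_eq,
    (LinearEquiv.ofBijective _ (sh2_bijective hP)).finrank_eq]

lemma smooth_funRep (hP : 𝓛.op P) (hs : Smooth 𝓛 ρ) : Smooth 𝓛 (funRep (G ⧸ P) ρ) := by
  intro f
  have := 𝓛.finiteIndex hP
  have : Finite (G ⧸ P) := P.finite_quotient_of_finiteIndex
  obtain ⟨U, hU, h⟩ := hs.uniform (Set.finite_range f)
  obtain ⟨N, hN, hn, hle⟩ := 𝓛.exists_normal hP
  refine ⟨U ⊓ N, 𝓛.op_inf hU hN, fun s hs => funext fun x => ?_⟩
  rw [funRep_apply]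
  have hx : s⁻¹ • x = x := by
    induction x using QuotientGroup.induction_on with
    | H g =>
      show ((s⁻¹ * g : G) : G ⧸ P) = (g : G ⧸ P)
      rw [QuotientGroup.eq]
      have := hle (hn.conj_mem s hs.2 g⁻¹)
      rw [inv_inv] at this
      convert this using 1
      group
  rw [hx]
  exact h s hs.1 _ ⟨x, rfl⟩

end Inv

section PGroup

variable {p : ℕ} [Fact p.Prime] {G : Type*} [Group G] {𝓛 : Levels G}

/-- a `p`-group quotient acting on a nonzero `𝔽_p`-vector space has a nonzero fixed vector -/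
lemma exists_fixed {N : Subgroup G} [N.Normal] [N.FiniteIndex] (hp : IsPGroup p (G ⧸ N))
    {A : Type*} [AddCommGroup A] [Module (ZMod p) A] [Module.Finite (ZMod p) A]
    [Nontrivial A] (ρ : Representation (ZMod p) G A) (hN : ∀ g ∈ N, ∀ a, ρ g a = a) :
    ∃ a : A, a ≠ 0 ∧ ∀ g, ρ g a = a := by
  have hfin : Finite A := Module.finite_of_finite (ZMod p)
  -- the action of `G ⧸ N` on `A`
  let f : G →* Equiv.Perm A :=
    { toFun := fun g => ⟨ρ g, ρ g⁻¹, rho_inv_rho ρ g, rho_rho_inv ρ g⟩
      map_one' := by ext a; simp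
      map_mul' := fun g h => by ext a; simp }
  have hf : N ≤ f.ker := by
    intro g hg
    rw [MonoidHom.mem_ker]
    ext a
    exact hN g hg a
  let F : G ⧸ N →* Equiv.Perm A := QuotientGroup.lift N f hf
  letI : MulAction (G ⧸ N) A := MulAction.compHom A F
  have hfix0 : (0 : A) ∈ MulAction.fixedPoints (G ⧸ N) A := by
    intro x
    induction x using QuotientGroup.induction_on with
    | H g => exact map_zero (ρ g)
  have hcard : p ∣ Nat.card A := by
    have h1 : Nat.card A = p ^ Module.finrank (ZMod p) A := by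
      rw [Module.natCard_eq_pow_finrank (K := ZMod p), Nat.card_zmod]
    rw [h1]
    exact dvd_pow_self p (finrank_pos).ne'
  obtain ⟨b, hb, hne⟩ := hp.exists_fixed_point_of_prime_dvd_card_of_fixed_point A hcard hfix0
  exact ⟨b, fun h => hne h.symm, fun g => hb (g : G ⧸ N)⟩

/-- devissage -/
theorem devissage {N : Subgroup G} [N.Normal] [N.FiniteIndex] (hp : IsPGroup p (G ⧸ N))
    (hN : 𝓛.op N)
    (h1 : Module.Finite (ZMod p) (H1 𝓛 (Representation.trivial (ZMod p) G (ZMod p))))
    (h2 : Module.Finite (ZMod p) (H2 𝓛 (Representation.trivial (ZMod p) G (ZMod p)))) :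
    ∀ (n : ℕ) {A : Type*} [AddCommGroup A] [Module (ZMod p) A] [Module.Finite (ZMod p) A]
      (ρ : Representation (ZMod p) G A), (∀ g ∈ N, ∀ a, ρ g a = a) → finrank (ZMod p) A = n →
      Fin2 𝓛 ρ ∧ chi2 𝓛 ρ ≤ n * chi2 𝓛 (Representation.trivial (ZMod p) G (ZMod p)) := by
  intro n
  induction n with
  | zero =>
    intro A _ _ _ ρ _ hn
    have : Subsingleton A := (finrank_zero_iff (R := ZMod p)).1 hn
    refine ⟨fin2_zero ρ, ?_⟩
    rw [chi2_zero]; simp
  | succ n ih =>
    intro A _ _ _ ρ hρ hn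
    have : Nontrivial A := by
      apply (finrank_pos_iff (R := ZMod p)).1
      rw [hn]; omega
    obtain ⟨a, ha0, ha⟩ := exists_fixed hp ρ hρ
    have hs : Smooth 𝓛 ρ := fun b => ⟨N, hN, fun s hs => hρ s hs b⟩
    let W : Submodule (ZMod p) A := Submodule.span (ZMod p) {a}
    have hW' : ∀ g, ∀ w ∈ W, ρ g w = w := by
      intro g w hw
      obtain ⟨c, rfl⟩ := Submodule.mem_span_singleton.1 hw
      rw [map_smul, ha g]
    have hW : ∀ g, W ≤ W.comap (ρ g) := fun g w hw => by
      rw [Submodule.mem_comap, hW' g w hw]; exact hw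
    let E := SES.ofSub ρ hs W hW
    have hWrank : finrank (ZMod p) W = 1 := finrank_span_singleton ha0
    -- the sub representation is trivial
    have hWt : ρ.subrepresentation W hW = Representation.trivial (ZMod p) G W := by
      ext g w
      exact hW' g w w.2
    have hfA : Fin2 𝓛 (ρ.subrepresentation W hW) := by
      rw [hWt]; exact fin2_trivial h1 h2
    have hcA : chi2 𝓛 (ρ.subrepresentation W hW) =
        chi2 𝓛 (Representation.trivial (ZMod p) G (ZMod p)) := by
      rw [hWt, chi2_trivial h1 h2, hWrank]; simp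
    have hq : finrank (ZMod p) (A ⧸ W) = n := by
      have := Submodule.finrank_quotient_add_finrank W
      omega
    obtain ⟨hfC, hcC⟩ := ih (ρ.quotient W hW) (by
      intro g hg x
      induction x using Submodule.Quotient.induction_on with
      | H x =>
        show W.mkQ (ρ g x) = W.mkQ x
        rw [hρ g hg]) hq
    refine ⟨E.fin2 hfA hfC, ?_⟩
    have h3 := E.chi2_le hfA hfC
    rw [hcA] at h3
    push_cast
    linarith

section Ind

variable {k : Type*} [Field k] {A : Type*} [AddCommGroup A] [Module k A]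
  (N : Subgroup G) [N.Normal] [N.FiniteIndex] (ρ : Representation k G A)
  (hρ : ∀ g ∈ N, ∀ a, ρ g a = a)

/-- the action of `G ⧸ N` -/
def actQ : (G ⧸ N) →* (A →ₗ[k] A) :=
  QuotientGroup.lift N ρ (fun g hg => by
    ext a; exact hρ g hg a)

@[simp] lemma actQ_mk (g : G) : actQ N ρ hρ (g : G ⧸ N) = ρ g := rfl

lemma actQ_smul (g : G) (x : G ⧸ N) (a : A) :
    actQ N ρ hρ (g • x) a = ρ g (actQ N ρ hρ x a) := by
  have : g • x = (g : G ⧸ N) * x := by
    induction x using QuotientGroup.induction_on with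
    | H y => rfl
  rw [this, map_mul]
  rfl

/-- `f ↦ ∑ x, x f(x)` -/
noncomputable def sumMap : (G ⧸ N → A) →ₗ[k] A :=
  letI := Fintype.ofFinite (G ⧸ N)
  ∑ x : G ⧸ N, (actQ N ρ hρ x).comp (LinearMap.proj x)

lemma sumMap_apply (f : G ⧸ N → A) :
    sumMap N ρ hρ f = ∑ᶠ x : G ⧸ N, actQ N ρ hρ x (f x) := by
  letI := Fintype.ofFinite (G ⧸ N)
  rw [finsum_eq_sum_of_fintype, sumMap, LinearMap.sum_apply]
  rfl

lemma sumMap_equivar : Equivar (funRep (G ⧸ N) (Representation.trivial k G A)) ρ
    (sumMap N ρ hρ) := by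
  intro g f
  rw [sumMap_apply, sumMap_apply]
  letI := Fintype.ofFinite (G ⧸ N)
  rw [finsum_eq_sum_of_fintype, finsum_eq_sum_of_fintype, map_sum]
  refine Fintype.sum_equiv (MulAction.toPerm g⁻¹) _ _ fun x => ?_
  rw [← actQ_smul]
  simp

lemma sumMap_surjective : Function.Surjective (sumMap N ρ hρ) := by
  classical
  intro a
  letI := Fintype.ofFinite (G ⧸ N)
  refine ⟨Pi.single ((1 : G) : G ⧸ N) a, ?_⟩
  rw [sumMap_apply, finsum_eq_sum_of_fintype, Finset.sum_eq_single ((1 : G) : G ⧸ N)]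
  · rw [Pi.single_eq_same, actQ_mk, map_one]; rfl
  · intro b _ hb
    rw [Pi.single_eq_of_ne hb, map_zero]
  · intro h; exact absurd (Finset.mem_univ _) h

lemma funRep_fix {B : Type*} [AddCommGroup B] [Module k B] (g : G) (hg : g ∈ N)
    (f : G ⧸ N → B) : funRep (G ⧸ N) (Representation.trivial k G B) g f = f := by
  funext x
  rw [funRep_apply]
  have : g⁻¹ • x = x := by
    induction x using QuotientGroup.induction_on with
    | H y =>
      show ((g⁻¹ * y : G) : G ⧸ N) = (y : G ⧸ N)
      rw [QuotientGroup.eq]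
      have := (inferInstance : N.Normal).conj_mem g hg y⁻¹
      rw [inv_inv] at this
      convert this using 1
      group
  rw [this]; rfl

end Ind

/-- Euler characteristics of representations killed by `N`. -/
theorem chi2_exact {N : Subgroup G} [N.Normal] [N.FiniteIndex] (hp : IsPGroup p (G ⧸ N))
    (hN : 𝓛.op N)
    (h1 : Module.Finite (ZMod p) (H1 𝓛 (Representation.trivial (ZMod p) G (ZMod p))))
    (h2 : Module.Finite (ZMod p) (H2 𝓛 (Representation.trivial (ZMod p) G (ZMod p))))
    (h1' : Module.Finite (ZMod p) (H1 (𝓛.onSub N) (Representation.trivial (ZMod p) N (ZMod p))))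
    (h2' : Module.Finite (ZMod p) (H2 (𝓛.onSub N) (Representation.trivial (ZMod p) N (ZMod p))))
    (hEC : chi2 (𝓛.onSub N) (Representation.trivial (ZMod p) N (ZMod p)) =
      N.index * chi2 𝓛 (Representation.trivial (ZMod p) G (ZMod p)))
    {A : Type*} [AddCommGroup A] [Module (ZMod p) A] [Module.Finite (ZMod p) A]
    (ρ : Representation (ZMod p) G A) (hρ : ∀ g ∈ N, ∀ a, ρ g a = a) :
    Fin2 𝓛 ρ ∧ chi2 𝓛 ρ =
      finrank (ZMod p) A * chi2 𝓛 (Representation.trivial (ZMod p) G (ZMod p)) := by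
  letI := Fintype.ofFinite (G ⧸ N)
  have hst : Smooth 𝓛 (Representation.trivial (ZMod p) G A) := smooth_trivial 𝓛
  have hsF : Smooth 𝓛 (funRep (G ⧸ N) (Representation.trivial (ZMod p) G A)) :=
    smooth_funRep hN hst
  let E := SES.ofSurj hsF (sumMap_equivar N ρ hρ) (sumMap_surjective N ρ hρ)
  obtain ⟨hfA, hcA⟩ := devissage hp hN h1 h2 _ ρ hρ rfl
  obtain ⟨hfK, hcK⟩ := devissage hp hN h1 h2 _ ((funRep (G ⧸ N)
    (Representation.trivial (ZMod p) G A)).subrepresentation (LinearMap.ker (sumMap N ρ hρ))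
      (ker_stable (sumMap_equivar N ρ hρ))) (fun g hg a => Subtype.ext
        (funRep_fix (k := ZMod p) N g hg (a : G ⧸ N → A))) rfl
  have hle := E.chi2_le hfK hfA
  have hF : chi2 𝓛 (funRep (G ⧸ N) (Representation.trivial (ZMod p) G A)) =
      finrank (ZMod p) A * (N.index * chi2 𝓛 (Representation.trivial (ZMod p) G (ZMod p))) := by
    rw [chi2_sh hN hst, ← hEC]
    exact chi2_trivial h1' h2'
  have hrank : finrank (ZMod p) (LinearMap.ker (sumMap N ρ hρ)) + finrank (ZMod p) A =
      N.index * finrank (ZMod p) A := by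
    have h3 := LinearMap.finrank_range_add_finrank_ker (sumMap N ρ hρ)
    rw [LinearMap.range_eq_top.2 (sumMap_surjective N ρ hρ), finrank_top,
      finrank_pi_fintype, Finset.sum_const, smul_eq_mul, Finset.card_univ,
      ← Nat.card_eq_fintype_card] at h3
    rw [Subgroup.index]
    omega
  refine ⟨hfA, le_antisymm hcA ?_⟩
  have hrank' : (finrank (ZMod p) (LinearMap.ker (sumMap N ρ hρ)) : ℤ) + finrank (ZMod p) A =
      N.index * finrank (ZMod p) A := by exact_mod_cast hrank
  rw [hF] at hle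
  have h4 : (finrank (ZMod p) A : ℤ) *
      (N.index * chi2 𝓛 (Representation.trivial (ZMod p) G (ZMod p))) =
      (finrank (ZMod p) (LinearMap.ker (sumMap N ρ hρ)) + finrank (ZMod p) A) *
        chi2 𝓛 (Representation.trivial (ZMod p) G (ZMod p)) := by
    rw [hrank']; ring
  rw [h4, add_mul] at hle
  linarith

/-- right exactness for representations killed by `N` -/
theorem re_pgroup {N : Subgroup G} [N.Normal] [N.FiniteIndex] (hp : IsPGroup p (G ⧸ N))
    (hN : 𝓛.op N)
    (h1 : Module.Finite (ZMod p) (H1 𝓛 (Representation.trivial (ZMod p) G (ZMod p))))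
    (h2 : Module.Finite (ZMod p) (H2 𝓛 (Representation.trivial (ZMod p) G (ZMod p))))
    (h1' : Module.Finite (ZMod p) (H1 (𝓛.onSub N) (Representation.trivial (ZMod p) N (ZMod p))))
    (h2' : Module.Finite (ZMod p) (H2 (𝓛.onSub N) (Representation.trivial (ZMod p) N (ZMod p))))
    (hEC : chi2 (𝓛.onSub N) (Representation.trivial (ZMod p) N (ZMod p)) =
      N.index * chi2 𝓛 (Representation.trivial (ZMod p) G (ZMod p)))
    {A B C : Type*} [AddCommGroup A] [Module (ZMod p) A] [AddCommGroup B] [Module (ZMod p) B]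
    [AddCommGroup C] [Module (ZMod p) C] [Module.Finite (ZMod p) B]
    {ρA : Representation (ZMod p) G A} {ρB : Representation (ZMod p) G B}
    {ρC : Representation (ZMod p) G C} (E : SES 𝓛 ρA ρB ρC)
    (hρ : ∀ g ∈ N, ∀ b, ρB g b = b) : Function.Surjective (H2c 𝓛 E.hq) := by
  have : Module.Finite (ZMod p) A := Module.Finite.of_injective E.i E.inj
  have : Module.Finite (ZMod p) C := Module.Finite.of_surjective E.q E.surj
  have hA : ∀ g ∈ N, ∀ a, ρA g a = a := fun g hg a => E.inj (by rw [E.hi, hρ g hg])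
  have hC : ∀ g ∈ N, ∀ c, ρC g c = c := fun g hg c => by
    obtain ⟨b, rfl⟩ := E.surj c
    rw [← E.hq, hρ g hg]
  obtain ⟨hfA, hcA⟩ := chi2_exact hp hN h1 h2 h1' h2' hEC ρA hA
  obtain ⟨hfB, hcB⟩ := chi2_exact hp hN h1 h2 h1' h2' hEC ρB hρ
  obtain ⟨hfC, hcC⟩ := chi2_exact hp hN h1 h2 h1' h2' hEC ρC hC
  rw [← E.chi2_eq_iff hfA hfC, hcA, hcB, hcC]
  have h3 := LinearMap.finrank_range_add_finrank_ker E.q
  have h4 : LinearMap.ker E.q = LinearMap.range E.i := by
    ext b; exact E.exact b
  rw [LinearMap.range_eq_top.2 E.surj, finrank_top, h4, LinearMap.finrank_range_of_inj E.inj] at h3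
  rw [← h3]
  push_cast
  ring

end PGroup

end Fermat.Agent.H55
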