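import Mathlib
import Fermat.Agent.H55PGrp

set_option autoImplicit false
set_option maxSynthPendingDepth 3

/-!
# S55 : right exactness of `H²` from multiplicativity of Euler characteristics
-/

namespace Fermat.Agent.H55

open Module

/-- Multiplicativity of the partial Euler characteristic of the trivial module for open subgroups
of `W`, where `W` is an open normal subgroup of index prime to `p`. -/
structure EC (p : ℕ) [Fact p.Prime] {G : Type*} [Group G] (𝓛 : Levels G) (W : Subgroup G) :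
    Prop where
  opW : 𝓛.op W
  normal : W.Normal
  cop : ¬ p ∣ W.index
  fin1 : ∀ U, 𝓛.op U → U ≤ W →
    Module.Finite (ZMod p) (H1 (𝓛.onSub U) (Representation.trivial (ZMod p) U (ZMod p)))
  fin2 : ∀ U, 𝓛.op U → U ≤ W →
    Module.Finite (ZMod p) (H2 (𝓛.onSub U) (Representation.trivial (ZMod p) U (ZMod p)))
  ec : ∀ U V, 𝓛.op U → 𝓛.op V → U ≤ V → V ≤ W →
    chi2 (𝓛.onSub U) (Representation.trivial (ZMod p) U (ZMod p)) =
      U.relIndex V * chi2 (𝓛.onSub V) (Representation.trivial (ZMod p) V (ZMod p))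

section Sylow

variable {p : ℕ} [Fact p.Prime] {G : Type*} [Group G]

lemma exists_sylow {N W : Subgroup G} [N.Normal] [N.FiniteIndex] [W.Normal] (hNW : N ≤ W)
    (hW : ¬ p ∣ W.index) : ∃ P : Subgroup G, N ≤ P ∧ P ≤ W ∧ ¬ p ∣ P.index ∧
      ∀ x ∈ P, ∃ n : ℕ, x ^ (p ^ n) ∈ N := by
  have : Finite (G ⧸ N) := N.finite_quotient_of_finiteIndex
  have hWf : W.FiniteIndex := Subgroup.finiteIndex_of_le hNW
  obtain ⟨Q⟩ : Nonempty (Sylow p (G ⧸ N)) := inferInstance
  have hpow : ∀ x ∈ (Q : Subgroup (G ⧸ N)).comap (QuotientGroup.mk' N),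
      ∃ n : ℕ, x ^ (p ^ n) ∈ N := by
    intro x hx
    obtain ⟨n, hn⟩ := Q.isPGroup' ⟨(QuotientGroup.mk' N) x, hx⟩
    refine ⟨n, ?_⟩
    have h1 : ((QuotientGroup.mk' N) x) ^ (p ^ n) = 1 := congrArg Subtype.val hn
    rw [← map_pow] at h1
    exact (QuotientGroup.eq_one_iff _).1 h1
  refine ⟨(Q : Subgroup (G ⧸ N)).comap (QuotientGroup.mk' N), ?_, ?_, ?_, hpow⟩
  · intro x hx
    show (QuotientGroup.mk' N) x ∈ (Q : Subgroup (G ⧸ N))
    have : (QuotientGroup.mk' N) x = 1 := (QuotientGroup.eq_one_iff _).2 hx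
    rw [this]; exact Subgroup.one_mem _
  · intro x hx
    obtain ⟨n, hn⟩ := hpow x hx
    have h1 : ((x : G ⧸ W)) ^ (p ^ n) = 1 := (QuotientGroup.eq_one_iff (x ^ (p ^ n))).2 (hNW hn)
    have h2 : ((x : G ⧸ W)) ^ W.index = 1 := by
      have : Finite (G ⧸ W) := W.finite_quotient_of_finiteIndex
      exact pow_card_eq_one'
    have h3 : orderOf (x : G ⧸ W) ∣ p ^ n := orderOf_dvd_of_pow_eq_one h1
    have h4 : orderOf (x : G ⧸ W) ∣ W.index := orderOf_dvd_of_pow_eq_one h2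
    have h5 : Nat.Coprime (p ^ n) W.index :=
      Nat.Coprime.pow_left n (((Fact.out : p.Prime).coprime_iff_not_dvd).2 hW)
    have h6 : orderOf (x : G ⧸ W) = 1 := Nat.eq_one_of_dvd_coprimes h5 h3 h4
    exact (QuotientGroup.eq_one_iff x).1 (orderOf_eq_one_iff.1 h6)
  · rw [Subgroup.index_comap_of_surjective _ (QuotientGroup.mk'_surjective N)]
    exact Q.not_dvd_index

lemma isPGroup_subgroupOf {N P : Subgroup G} [N.Normal]
    (h : ∀ x ∈ P, ∃ n : ℕ, x ^ (p ^ n) ∈ N) : IsPGroup p (P ⧸ N.subgroupOf P) := by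
  intro x
  induction x using QuotientGroup.induction_on with
  | H y =>
    obtain ⟨n, hn⟩ := h y y.2
    refine ⟨n, ?_⟩
    exact (QuotientGroup.eq_one_iff (y ^ (p ^ n))).2 (by
      rw [Subgroup.mem_subgroupOf]
      simpa using hn)

end Sylow

section ConstSum

variable {k G A B : Type*} [CommRing k] [Group G] [AddCommGroup A] [Module k A]
  [AddCommGroup B] [Module k B] (P : Subgroup G) (ρ : Representation k G A)
  {ρB : Representation k G B}

/-- constant functions -/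
def constMap (k A : Type*) [CommRing k] [AddCommGroup A] [Module k A] : A →ₗ[k] (G ⧸ P → A) :=
  LinearMap.pi fun _ => LinearMap.id

@[simp] lemma constMap_apply (a : A) (x : G ⧸ P) : constMap P k A a x = a := rfl

lemma constMap_equivar : Equivar ρ (funRep (G ⧸ P) ρ) (constMap P k A) := fun _ _ => rfl

/-- sum of the values -/
noncomputable def totMap (k A : Type*) [CommRing k] [AddCommGroup A] [Module k A]
    [P.FiniteIndex] : (G ⧸ P → A) →ₗ[k] A :=
  haveI : Finite (G ⧸ P) := P.finite_quotient_of_finiteIndex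
  letI := Fintype.ofFinite (G ⧸ P)
  ∑ x : G ⧸ P, LinearMap.proj x

lemma totMap_apply [P.FiniteIndex] (f : G ⧸ P → A) : totMap P k A f = ∑ᶠ x, f x := by
  haveI : Finite (G ⧸ P) := P.finite_quotient_of_finiteIndex
  letI := Fintype.ofFinite (G ⧸ P)
  rw [finsum_eq_sum_of_fintype, totMap, LinearMap.sum_apply]
  rfl

lemma totMap_equivar [P.FiniteIndex] : Equivar (funRep (G ⧸ P) ρ) ρ (totMap P k A) := by
  haveI : Finite (G ⧸ P) := P.finite_quotient_of_finiteIndex
  letI := Fintype.ofFinite (G ⧸ P)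
  intro g f
  rw [totMap_apply, totMap_apply, finsum_eq_sum_of_fintype, finsum_eq_sum_of_fintype, map_sum]
  exact Fintype.sum_equiv (MulAction.toPerm g⁻¹) _ _ fun x => rfl

lemma tot_const [P.FiniteIndex] : (totMap P k A) ∘ₗ (constMap P k A) =
    (P.index : k) • LinearMap.id := by
  haveI : Finite (G ⧸ P) := P.finite_quotient_of_finiteIndex
  letI := Fintype.ofFinite (G ⧸ P)
  ext a
  rw [LinearMap.comp_apply, totMap_apply, finsum_eq_sum_of_fintype]
  simp only [constMap_apply, Finset.sum_const, Finset.card_univ, LinearMap.smul_apply,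
    LinearMap.id_apply]
  rw [← Nat.card_eq_fintype_card, Subgroup.index, Nat.cast_smul_eq_nsmul]

variable {P ρ} {𝓛 : Levels G}

lemma H1_tot_const [P.FiniteIndex] (x : H1 𝓛 ρ) :
    H1c 𝓛 (totMap_equivar P ρ) (H1c 𝓛 (constMap_equivar P ρ) x) = (P.index : k) • x := by
  have h1 := H1c_smul (𝓛 := 𝓛) (P.index : k) (Equivar.id ρ) x
  rw [H1c_id] at h1
  rw [← H1c_comp, ← h1]
  exact LinearMap.congr_fun (H1c_congr (tot_const P)) x

lemma H2_tot_const [P.FiniteIndex] (x : H2 𝓛 ρ) :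
    H2c 𝓛 (totMap_equivar P ρ) (H2c 𝓛 (constMap_equivar P ρ) x) = (P.index : k) • x := by
  have h1 := H2c_smul (𝓛 := 𝓛) (P.index : k) (Equivar.id ρ) x
  rw [H2c_id] at h1
  rw [← H2c_comp, ← h1]
  exact LinearMap.congr_fun (H2c_congr (tot_const P)) x

/-- post-composition -/
def postMap {φ : A →ₗ[k] B} (_ : Equivar ρ ρB φ) : (G ⧸ P → A) →ₗ[k] (G ⧸ P → B) :=
  LinearMap.compLeft φ (G ⧸ P)

lemma postMap_equivar {φ : A →ₗ[k] B} (hφ : Equivar ρ ρB φ) :
    Equivar (funRep (G ⧸ P) ρ) (funRep (G ⧸ P) ρB) (postMap (P := P) hφ) := fun g f => by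
  ext x
  exact hφ g (f (g⁻¹ • x))

lemma sh2_nat {φ : A →ₗ[k] B} (hφ : Equivar ρ ρB φ) (x : H2 𝓛 (funRep (G ⧸ P) ρ)) :
    sh2 𝓛 P ρB (H2c 𝓛 (postMap_equivar (P := P) hφ) x) =
      H2c (𝓛.onSub P) (hφ.res P.subtype) (sh2 𝓛 P ρ x) := by
  induction x using H2_ind with
  | h z => rfl

lemma sh1_nat {φ : A →ₗ[k] B} (hφ : Equivar ρ ρB φ) (x : H1 𝓛 (funRep (G ⧸ P) ρ)) :
    sh1 𝓛 P ρB (H1c 𝓛 (postMap_equivar (P := P) hφ) x) =
      H1c (𝓛.onSub P) (hφ.res P.subtype) (sh1 𝓛 P ρ x) := by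
  induction x using H1_ind with
  | h z => rfl

lemma tot_post [P.FiniteIndex] {φ : A →ₗ[k] B} (hφ : Equivar ρ ρB φ) :
    φ ∘ₗ totMap P k A = totMap P k B ∘ₗ postMap (P := P) hφ := by
  haveI : Finite (G ⧸ P) := P.finite_quotient_of_finiteIndex
  letI := Fintype.ofFinite (G ⧸ P)
  ext f
  rw [LinearMap.comp_apply, LinearMap.comp_apply, totMap_apply, totMap_apply,
    finsum_eq_sum_of_fintype, finsum_eq_sum_of_fintype, map_sum]
  rfl

lemma H2_tot_post [P.FiniteIndex] {φ : A →ₗ[k] B} (hφ : Equivar ρ ρB φ)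
    (x : H2 𝓛 (funRep (G ⧸ P) ρ)) :
    H2c 𝓛 hφ (H2c 𝓛 (totMap_equivar P ρ) x) =
      H2c 𝓛 (totMap_equivar P ρB) (H2c 𝓛 (postMap_equivar (P := P) hφ) x) := by
  rw [← H2c_comp, ← H2c_comp]
  exact LinearMap.congr_fun (H2c_congr (tot_post hφ)) x

end ConstSum

section Main

variable {p : ℕ} [Fact p.Prime] {G : Type} [Group G] {𝓛 : Levels G}

local notation "𝔽" => ZMod p

/-- finite-dimensional smooth representations are killed by an open normal subgroup -/
lemma exists_kill {A : Type} [AddCommGroup A] [Module (ZMod p) A] [Module.Finite (ZMod p) A]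
    {ρ : Representation (ZMod p) G A} (hs : Smooth 𝓛 ρ) {W : Subgroup G} (hW : 𝓛.op W) :
    ∃ N : Subgroup G, 𝓛.op N ∧ N.Normal ∧ N ≤ W ∧ ∀ g ∈ N, ∀ a, ρ g a = a := by
  have : Finite A := Module.finite_of_finite (ZMod p)
  obtain ⟨U, hU, h⟩ := hs.uniform (Set.finite_univ (α := A))
  obtain ⟨N, hN, hn, hle⟩ := 𝓛.exists_normal (𝓛.op_inf hU hW)
  exact ⟨N, hN, hn, hle.trans inf_le_right, fun g hg a => h g (hle hg).1 a (Set.mem_univ a)⟩

lemma chi2_sub {N P : Subgroup G} (h : N ≤ P) :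
    chi2 ((𝓛.onSub P).onSub (N.subgroupOf P))
        (Representation.trivial (ZMod p) (N.subgroupOf P) (ZMod p)) =
      chi2 (𝓛.onSub N) (Representation.trivial (ZMod p) N (ZMod p)) := by
  rw [chi2, chi2, finrank_invariants_trivial, finrank_invariants_trivial,
    (H1sub 𝓛 (ZMod p) h).finrank_eq, (H2sub 𝓛 (ZMod p) h).finrank_eq]

variable {W : Subgroup G}

/-- the situation of a `p`-Sylow subgroup -/
lemma EC.exists_P (hEC : EC p 𝓛 W) {N : Subgroup G} (hN : 𝓛.op N) (hn : N.Normal) (hNW : N ≤ W) :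
    ∃ P : Subgroup G, N ≤ P ∧ 𝓛.op P ∧ (P.index : ZMod p) ≠ 0 ∧
      (∀ {A : Type} [AddCommGroup A] [Module (ZMod p) A] [Module.Finite (ZMod p) A]
        (ρ : Representation (ZMod p) P A), (∀ g ∈ N.subgroupOf P, ∀ a, ρ g a = a) →
        Fin2 (𝓛.onSub P) ρ) ∧
      (∀ {A B C : Type} [AddCommGroup A] [Module (ZMod p) A] [AddCommGroup B]
        [Module (ZMod p) B] [AddCommGroup C] [Module (ZMod p) C] [Module.Finite (ZMod p) B]
        {ρA : Representation (ZMod p) P A} {ρB : Representation (ZMod p) P B}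
        {ρC : Representation (ZMod p) P C} (E : SES (𝓛.onSub P) ρA ρB ρC)
        (_ : ∀ g ∈ N.subgroupOf P, ∀ b, ρB g b = b),
        Function.Surjective (H2c (𝓛.onSub P) E.hq)) := by
  have := hEC.normal
  have hNf := 𝓛.finiteIndex hN
  obtain ⟨P, hNP, hPW, hidx, hpow⟩ := exists_sylow hNW hEC.cop
  have hP : 𝓛.op P := 𝓛.op_mono hNP hN
  have hpg := isPGroup_subgroupOf (p := p) hpow
  have hN' : (𝓛.onSub P).op (N.subgroupOf P) := ⟨N, hN, le_rfl⟩
  have hNf' : (N.subgroupOf P).FiniteIndex := (𝓛.onSub P).finiteIndex hN'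
  have h1 := hEC.fin1 P hP hPW
  have h2 := hEC.fin2 P hP hPW
  have h1' := hEC.fin1 N hN hNW
  have h2' := hEC.fin2 N hN hNW
  have h1'' : Module.Finite (ZMod p) (H1 ((𝓛.onSub P).onSub (N.subgroupOf P))
      (Representation.trivial (ZMod p) (N.subgroupOf P) (ZMod p))) :=
    Module.Finite.equiv (H1sub 𝓛 (ZMod p) hNP)
  have h2'' : Module.Finite (ZMod p) (H2 ((𝓛.onSub P).onSub (N.subgroupOf P))
      (Representation.trivial (ZMod p) (N.subgroupOf P) (ZMod p))) :=
    Module.Finite.equiv (H2sub 𝓛 (ZMod p) hNP)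
  have hec : chi2 ((𝓛.onSub P).onSub (N.subgroupOf P))
        (Representation.trivial (ZMod p) (N.subgroupOf P) (ZMod p)) =
      (N.subgroupOf P).index * chi2 (𝓛.onSub P) (Representation.trivial (ZMod p) P (ZMod p)) := by
    rw [chi2_sub hNP]
    exact hEC.ec N P hN hP hNP hPW
  refine ⟨P, hNP, hP, ?_, ?_, ?_⟩
  · rw [Ne, ZMod.natCast_eq_zero_iff]
    exact hidx
  · intro A _ _ _ ρ hρ
    exact (chi2_exact hpg hN' h1 h2 h1'' h2'' hec ρ hρ).1
  · intro A B C _ _ _ _ _ _ _ ρA ρB ρC E hρ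
    exact re_pgroup hpg hN' h1 h2 h1'' h2'' hec E hρ

/-- finiteness of the cohomology of finite smooth modules -/
theorem EC.fin2_all (hEC : EC p 𝓛 W) {A : Type} [AddCommGroup A] [Module (ZMod p) A]
    [Module.Finite (ZMod p) A] {ρ : Representation (ZMod p) G A} (hs : Smooth 𝓛 ρ) :
    Fin2 𝓛 ρ := by
  obtain ⟨N, hN, hn, hNW, hkill⟩ := exists_kill hs hEC.opW
  obtain ⟨P, hNP, hP, hidx, hfin, -⟩ := hEC.exists_P hN hn hNW
  have hPf := 𝓛.finiteIndex hP
  have h1 := hfin (resRep P ρ) (fun g hg a => hkill g hg a)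
  have h2 := fin2_sh hP hs h1
  have := h2.f1
  have := h2.f2
  refine ⟨inferInstance, ?_, ?_⟩
  · refine Module.Finite.of_injective (H1c 𝓛 (constMap_equivar P ρ)) ?_
    rw [← LinearMap.ker_eq_bot, LinearMap.ker_eq_bot']
    intro x hx
    have h3 := H1_tot_const (P := P) x
    rw [hx, map_zero] at h3
    exact (smul_eq_zero.1 h3.symm).resolve_left hidx
  · refine Module.Finite.of_injective (H2c 𝓛 (constMap_equivar P ρ)) ?_
    rw [← LinearMap.ker_eq_bot, LinearMap.ker_eq_bot']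
    intro x hx
    have h3 := H2_tot_const (P := P) x
    rw [hx, map_zero] at h3
    exact (smul_eq_zero.1 h3.symm).resolve_left hidx

/-- **Right exactness of `H²`.** -/
theorem EC.right_exact (hEC : EC p 𝓛 W) {A B C : Type} [AddCommGroup A] [Module (ZMod p) A]
    [AddCommGroup B] [Module (ZMod p) B] [AddCommGroup C] [Module (ZMod p) C]
    [Module.Finite (ZMod p) B] {ρA : Representation (ZMod p) G A}
    {ρB : Representation (ZMod p) G B} {ρC : Representation (ZMod p) G C}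
    (E : SES 𝓛 ρA ρB ρC) : Function.Surjective (H2c 𝓛 E.hq) := by
  obtain ⟨N, hN, hn, hNW, hkill⟩ := exists_kill E.smooth hEC.opW
  obtain ⟨P, hNP, hP, hidx, -, hre⟩ := hEC.exists_P hN hn hNW
  have hPf := 𝓛.finiteIndex hP
  intro c
  have h1 := hre (E.res (𝓛.cont_onSub P)) (fun g hg a => hkill g hg a)
  -- surjectivity for the induced modules
  have h2 : Function.Surjective (H2c 𝓛 (postMap_equivar (P := P) E.hq)) := by
    intro y
    obtain ⟨z, hz⟩ := h1 (sh2 𝓛 P ρC y)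
    obtain ⟨x, rfl⟩ := (sh2_bijective hP).2 z
    refine ⟨x, (sh2_bijective hP).1 ?_⟩
    rw [sh2_nat, ← hz]
    rfl
  obtain ⟨b, hb⟩ := h2 (H2c 𝓛 (constMap_equivar P ρC) ((P.index : ZMod p)⁻¹ • c))
  refine ⟨H2c 𝓛 (totMap_equivar P ρB) b, ?_⟩
  rw [H2_tot_post, hb, H2_tot_const, smul_smul, mul_inv_cancel₀ hidx, one_smul]

/-- additivity of `chi2` -/
theorem EC.chi2_add (hEC : EC p 𝓛 W) {A B C : Type} [AddCommGroup A] [Module (ZMod p) A]
    [AddCommGroup B] [Module (ZMod p) B] [AddCommGroup C] [Module (ZMod p) C]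
    [Module.Finite (ZMod p) B] {ρA : Representation (ZMod p) G A}
    {ρB : Representation (ZMod p) G B} {ρC : Representation (ZMod p) G C}
    (E : SES 𝓛 ρA ρB ρC) : chi2 𝓛 ρB = chi2 𝓛 ρA + chi2 𝓛 ρC := by
  have : Module.Finite (ZMod p) A := Module.Finite.of_injective E.i E.inj
  have : Module.Finite (ZMod p) C := Module.Finite.of_surjective E.q E.surj
  exact (E.chi2_eq_iff (hEC.fin2_all E.smooth_left) (hEC.fin2_all E.smooth_right)).2
    (hEC.right_exact E)

end Main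

end Fermat.Agent.H55
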