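import Mathlib
import Fermat.Agent.H55RE

set_option autoImplicit false
set_option maxSynthPendingDepth 3

/-!
# S55 : right exact functors of smooth representations and duality with `Hom_G(-, μ)`
-/

namespace Fermat.Agent.H55

open Module CategoryTheory

/-- an additive right exact functor on smooth finite dimensional representations -/
structure RF (k : Type) [Field k] {G : Type} [Group G] (𝓛 : Levels G) where
  obj : ∀ {A : Type} [AddCommGroup A] [Module k A] (_ : Representation k G A), ModuleCat.{0} k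
  map : ∀ {A B : Type} [AddCommGroup A] [Module k A] [AddCommGroup B] [Module k B]
    {ρA : Representation k G A} {ρB : Representation k G B} {φ : A →ₗ[k] B}
    (_ : Equivar ρA ρB φ), obj ρA →ₗ[k] obj ρB
  map_id : ∀ {A : Type} [AddCommGroup A] [Module k A] {ρA : Representation k G A}
    (x : obj ρA), map (Equivar.id ρA) x = x
  map_comp : ∀ {A B C : Type} [AddCommGroup A] [Module k A] [AddCommGroup B] [Module k B]
    [AddCommGroup C] [Module k C]
    {ρA : Representation k G A} {ρB : Representation k G B} {ρC : Representation k G C}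
    {φ : A →ₗ[k] B} {ψ : B →ₗ[k] C} (hψ : Equivar ρB ρC ψ) (hφ : Equivar ρA ρB φ)
    (x : obj ρA), map (hψ.comp hφ) x = map hψ (map hφ x)
  map_add : ∀ {A B : Type} [AddCommGroup A] [Module k A] [AddCommGroup B] [Module k B]
    {ρA : Representation k G A} {ρB : Representation k G B} {φ ψ : A →ₗ[k] B}
    (hφ : Equivar ρA ρB φ) (hψ : Equivar ρA ρB ψ) (x : obj ρA),
    map (hφ.add hψ) x = map hφ x + map hψ x
  map_smul : ∀ {A B : Type} [AddCommGroup A] [Module k A] [AddCommGroup B] [Module k B]
    {ρA : Representation k G A} {ρB : Representation k G B} (c : k) {φ : A →ₗ[k] B}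
    (hφ : Equivar ρA ρB φ) (x : obj ρA), map (hφ.smul c) x = c • map hφ x
  surj : ∀ {A B C : Type} [AddCommGroup A] [Module k A] [AddCommGroup B] [Module k B]
    [AddCommGroup C] [Module k C] [Module.Finite k B]
    {ρA : Representation k G A} {ρB : Representation k G B} {ρC : Representation k G C}
    (E : SES 𝓛 ρA ρB ρC), Function.Surjective (map E.hq)
  exact : ∀ {A B C : Type} [AddCommGroup A] [Module k A] [AddCommGroup B] [Module k B]
    [AddCommGroup C] [Module k C] [Module.Finite k B]
    {ρA : Representation k G A} {ρB : Representation k G B} {ρC : Representation k G C}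
    (E : SES 𝓛 ρA ρB ρC) (y : obj ρB), map E.hq y = 0 ↔ ∃ x, map E.hi x = y

namespace RF

variable {k : Type} [Field k] {G : Type} [Group G] {𝓛 : Levels G} (F : RF k 𝓛)
  {A B C : Type} [AddCommGroup A] [Module k A] [AddCommGroup B] [Module k B]
  [AddCommGroup C] [Module k C]
  {ρA : Representation k G A} {ρB : Representation k G B} {ρC : Representation k G C}

lemma map_congr {φ ψ : A →ₗ[k] B} {hφ : Equivar ρA ρB φ} {hψ : Equivar ρA ρB ψ} (h : φ = ψ)
    (x : F.obj ρA) : F.map hφ x = F.map hψ x := by subst h; rfl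

lemma map_zero' (h : Equivar ρA ρB (0 : A →ₗ[k] B)) (x : F.obj ρA) : F.map h x = 0 := by
  have h1 := F.map_smul (0 : k) h x
  exact ((F.map_congr (by simp) x).trans h1).trans (zero_smul _ _)

lemma map_eq_zero {φ : A →ₗ[k] B} (hφ : Equivar ρA ρB φ) (h : φ = 0) (x : F.obj ρA) :
    F.map hφ x = 0 := by
  subst h; exact F.map_zero' hφ x

lemma map_sum {ι : Type*} (s : Finset ι) {φ : ι → A →ₗ[k] B}
    (hφ : ∀ i, Equivar ρA ρB (φ i)) (x : F.obj ρA) :
    F.map (Equivar.sum s fun i _ => hφ i) x = ∑ i ∈ s, F.map (hφ i) x := by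
  classical
  induction s using Finset.induction_on with
  | empty => exact F.map_eq_zero _ (by simp) x
  | insert i s hi ih =>
    have h1 : ∑ j ∈ insert i s, F.map (hφ j) x = F.map (hφ i) x + ∑ j ∈ s, F.map (hφ j) x :=
      Finset.sum_insert hi
    rw [h1, ← ih, ← F.map_add]
    exact F.map_congr (Finset.sum_insert hi) x

end RF

section HomG

variable {k : Type*} [Field k] {G A B : Type*} [Group G] [AddCommGroup A] [Module k A]
  [AddCommGroup B] [Module k B] (χ : G →* kˣ) (ρ : Representation k G A)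

/-- `Hom_G(ρ, μ)` -/
def homMu : Submodule k (A →ₗ[k] k) where
  carrier := {φ | Equivar ρ (mu χ) φ}
  add_mem' h h' := h.add h'
  zero_mem' := Equivar.zero
  smul_mem' c _ h := h.smul c

@[simp] lemma mem_homMu {φ : A →ₗ[k] k} : φ ∈ homMu χ ρ ↔ Equivar ρ (mu χ) φ := Iff.rfl

lemma homMu_eq_invariants : homMu χ ρ = (dtw χ ρ).invariants := by
  ext φ
  rw [mem_homMu, Representation.mem_invariants]
  constructor
  · intro h g
    ext a
    rw [dtw_apply, h g⁻¹ a, mu_apply, ← mul_assoc, ← Units.val_mul, ← map_mul, mul_inv_cancel,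
      map_one, Units.val_one, one_mul]
  · intro h g a
    have h1 := LinearMap.congr_fun (h g) (ρ g a)
    rw [dtw_apply, rho_inv_rho] at h1
    rw [← h1, mu_apply]

end HomG

section Eps

variable {k : Type*} [Field k] {G A : Type*} [Group G] [AddCommGroup A] [Module k A]
  (χ : G →* kˣ) (U : Subgroup G) [U.FiniteIndex] (hU : U ≤ χ.ker)

/-- the character on `G ⧸ U` -/
def chiQ (hU : U ≤ χ.ker) : G ⧸ U → k :=
  Quotient.lift (fun g => (χ g : k)) (by
    intro x y hxy
    have h1 : x⁻¹ * y ∈ U := by rwa [← QuotientGroup.leftRel_apply]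
    have h2 : χ (x⁻¹ * y) = 1 := hU h1
    rw [map_mul, map_inv, inv_mul_eq_one] at h2
    rw [h2])

@[simp] lemma chiQ_mk (g : G) : chiQ χ U hU (g : G ⧸ U) = χ g := rfl

lemma chiQ_smul (g : G) (x : G ⧸ U) : chiQ χ U hU (g • x) = χ g * chiQ χ U hU x := by
  induction x using QuotientGroup.induction_on with
  | H y =>
    show ((χ (g * y) : kˣ) : k) = _
    rw [map_mul, Units.val_mul]
    rfl

lemma chiQ_ne_zero (x : G ⧸ U) : chiQ χ U hU x ≠ 0 := by
  induction x using QuotientGroup.induction_on with
  | H y => exact (χ y).ne_zero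

/-- `f ↦ ∑ χ(x) λ(f(x))` -/
noncomputable def eps (l : A →ₗ[k] k) : (G ⧸ U → A) →ₗ[k] k :=
  haveI : Finite (G ⧸ U) := U.finite_quotient_of_finiteIndex
  letI := Fintype.ofFinite (G ⧸ U)
  ∑ x : G ⧸ U, chiQ χ U hU x • (l ∘ₗ LinearMap.proj x)

lemma eps_apply (l : A →ₗ[k] k) (f : G ⧸ U → A) :
    eps χ U hU l f = ∑ᶠ x, chiQ χ U hU x * l (f x) := by
  haveI : Finite (G ⧸ U) := U.finite_quotient_of_finiteIndex
  letI := Fintype.ofFinite (G ⧸ U)
  rw [finsum_eq_sum_of_fintype, eps, LinearMap.sum_apply]
  rfl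

lemma eps_equivar (l : A →ₗ[k] k) :
    Equivar (funRep (G ⧸ U) (Representation.trivial k G A)) (mu χ) (eps χ U hU l) := by
  haveI : Finite (G ⧸ U) := U.finite_quotient_of_finiteIndex
  letI := Fintype.ofFinite (G ⧸ U)
  intro g f
  rw [eps_apply, eps_apply, finsum_eq_sum_of_fintype, finsum_eq_sum_of_fintype, mu_apply,
    Finset.mul_sum]
  refine Fintype.sum_equiv (MulAction.toPerm g⁻¹) _ _ fun x => ?_
  rw [MulAction.toPerm_apply, ← mul_assoc, ← chiQ_smul, smul_inv_smul]
  rfl

open Classical in
lemma eps_single (l : A →ₗ[k] k) (a : A) :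
    eps χ U hU l (Pi.single ((1 : G) : G ⧸ U) a) = l a := by
  haveI : Finite (G ⧸ U) := U.finite_quotient_of_finiteIndex
  letI := Fintype.ofFinite (G ⧸ U)
  rw [eps_apply, finsum_eq_sum_of_fintype, Finset.sum_eq_single ((1 : G) : G ⧸ U)]
  · rw [Pi.single_eq_same, chiQ_mk, map_one, Units.val_one, one_mul]
  · intro b _ hb
    rw [Pi.single_eq_of_ne hb, map_zero, mul_zero]
  · intro h; exact absurd (Finset.mem_univ _) h

open Classical in
/-- every equivariant map to `μ` is an `eps` -/
lemma exists_eps {φ : (G ⧸ U → A) →ₗ[k] k}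
    (hφ : Equivar (funRep (G ⧸ U) (Representation.trivial k G A)) (mu χ) φ) :
    φ = eps χ U hU (φ ∘ₗ LinearMap.single k (fun _ : G ⧸ U => A) ((1 : G) : G ⧸ U)) := by
  haveI : Finite (G ⧸ U) := U.finite_quotient_of_finiteIndex
  letI := Fintype.ofFinite (G ⧸ U)
  refine LinearMap.pi_ext fun x a => ?_
  rw [eps_apply, finsum_eq_sum_of_fintype, Finset.sum_eq_single x]
  · rw [Pi.single_eq_same, LinearMap.comp_apply]
    induction x using QuotientGroup.induction_on with
    | H g =>
      have h1 := hφ g (Pi.single ((1 : G) : G ⧸ U) a)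
      rw [mu_apply] at h1
      rw [chiQ_mk, LinearMap.single_apply, ← h1]
      congr 1
      funext y
      rw [funRep_apply]
      show (Pi.single (g : G ⧸ U) a : G ⧸ U → A) y = (Pi.single ((1 : G) : G ⧸ U) a : G ⧸ U → A) (g⁻¹ • y)
      by_cases hy : y = (g : G ⧸ U)
      · subst hy
        have : g⁻¹ • (g : G ⧸ U) = ((1 : G) : G ⧸ U) := by
          show ((g⁻¹ * g : G) : G ⧸ U) = _
          rw [inv_mul_cancel]
        rw [this, Pi.single_eq_same, Pi.single_eq_same]
      · have : g⁻¹ • y ≠ ((1 : G) : G ⧸ U) := by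
          intro h
          apply hy
          rw [inv_smul_eq_iff] at h
          rw [h]
          show ((g * 1 : G) : G ⧸ U) = _
          rw [mul_one]
        rw [Pi.single_eq_of_ne hy, Pi.single_eq_of_ne this]
  · intro b _ hb
    rw [Pi.single_eq_of_ne hb, map_zero, mul_zero]
  · intro h; exact absurd (Finset.mem_univ _) h

end Eps

section Perfect

variable {p : ℕ} [Fact p.Prime] {G : Type} [Group G] {𝓛 : Levels G} (F : RF (ZMod p) 𝓛)
  (χ : G →* (ZMod p)ˣ)

/-- a nonzero map to `μ` is surjective -/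
lemma surj_of_ne_zero {A : Type*} [AddCommGroup A] [Module (ZMod p) A] {φ : A →ₗ[ZMod p] ZMod p}
    (h : φ ≠ 0) : Function.Surjective φ := LinearMap.surjective h

lemma eps_comp {A B : Type*} [AddCommGroup A] [Module (ZMod p) A] [AddCommGroup B]
    [Module (ZMod p) B] (U : Subgroup G) [U.FiniteIndex] (hU : U ≤ χ.ker)
    (l : B →ₗ[ZMod p] ZMod p) (m : A →ₗ[ZMod p] B) :
    eps χ U hU (l ∘ₗ m) = eps χ U hU l ∘ₗ LinearMap.compLeft m (G ⧸ U) := by
  refine LinearMap.ext fun f => ?_
  rw [LinearMap.comp_apply, eps_apply, eps_apply]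
  rfl

lemma compLeft_equivar {A B : Type*} [AddCommGroup A] [Module (ZMod p) A] [AddCommGroup B]
    [Module (ZMod p) B] (U : Subgroup G) (m : A →ₗ[ZMod p] B) :
    Equivar (funRep (G ⧸ U) (Representation.trivial (ZMod p) G A))
      (funRep (G ⧸ U) (Representation.trivial (ZMod p) G B)) (LinearMap.compLeft m (G ⧸ U)) :=
  fun _ _ => rfl

/-- hypotheses for duality with `μ` -/
structure RF.Good : Prop where
  open_ker : 𝓛.op χ.ker
  one : ∀ U, 𝓛.op U → U ≤ χ.ker → finrank (ZMod p)
    (F.obj (funRep (G ⧸ U) (Representation.trivial (ZMod p) G (ZMod p)))) = 1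
  nontriv : Nontrivial (F.obj (mu χ))

variable {F χ} (hF : F.Good χ)

include hF in
lemma RF.Good.eps_bijective {U : Subgroup G} (hU : 𝓛.op U) (hUχ : U ≤ χ.ker)
    (hf : U.FiniteIndex) : Function.Bijective (F.map (eps_equivar χ U hUχ
      (LinearMap.id : ZMod p →ₗ[ZMod p] ZMod p))) := by
  classical
  have hfin : Finite (G ⧸ U) := U.finite_quotient_of_finiteIndex
  have h1 := hF.one U hU hUχ
  have hfd : Module.Finite (ZMod p)
      (F.obj (funRep (G ⧸ U) (Representation.trivial (ZMod p) G (ZMod p)))) :=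
    Module.finite_of_finrank_pos (by rw [h1]; exact one_pos)
  have hsurj : Function.Surjective (eps χ U hUχ (LinearMap.id : ZMod p →ₗ[ZMod p] ZMod p)) :=
    fun a => ⟨Pi.single ((1 : G) : G ⧸ U) a, eps_single χ U hUχ _ a⟩
  have hs : Smooth 𝓛 (funRep (G ⧸ U) (Representation.trivial (ZMod p) G (ZMod p))) :=
    smooth_funRep hU (smooth_trivial 𝓛)
  have h2 : Function.Surjective (F.map (eps_equivar χ U hUχ
      (LinearMap.id : ZMod p →ₗ[ZMod p] ZMod p))) :=
    F.surj (SES.ofSurj hs (eps_equivar χ U hUχ LinearMap.id) hsurj)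
  refine ⟨?_, h2⟩
  have := hF.nontriv
  have hfd2 : Module.Finite (ZMod p) (F.obj (mu χ)) := Module.Finite.of_surjective _ h2
  have h3 : 0 < finrank (ZMod p) (F.obj (mu χ)) := finrank_pos
  have h4 := LinearMap.finrank_range_add_finrank_ker (F.map (eps_equivar χ U hUχ
      (LinearMap.id : ZMod p →ₗ[ZMod p] ZMod p)))
  rw [LinearMap.range_eq_top.2 h2, finrank_top, h1] at h4
  rw [← LinearMap.ker_eq_bot, ← Submodule.finrank_eq_zero (R := ZMod p)]
  omega

include hF in
lemma RF.Good.finrank_mu : finrank (ZMod p) (F.obj (mu χ)) = 1 := by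
  have hf := 𝓛.finiteIndex hF.open_ker
  have := hF.eps_bijective hF.open_ker le_rfl hf
  rw [← (LinearEquiv.ofBijective _ this).finrank_eq]
  exact hF.one _ hF.open_ker le_rfl

section X

variable {N : Subgroup G} (hN : 𝓛.op N) (hNχ : N ≤ χ.ker) [N.FiniteIndex]
  {A : Type} [AddCommGroup A] [Module (ZMod p) A] [Module.Finite (ZMod p) A]

variable (F N A) in
/-- components of `F(A^(G/N))` -/
noncomputable def compMap : F.obj (funRep (G ⧸ N) (Representation.trivial (ZMod p) G A)) →ₗ[ZMod p]
    (Fin (finrank (ZMod p) A) →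
      F.obj (funRep (G ⧸ N) (Representation.trivial (ZMod p) G (ZMod p)))) :=
  LinearMap.pi fun i => F.map (compLeft_equivar N ((finBasis (ZMod p) A).coord i))

lemma sum_basis : ∑ i, (LinearMap.compLeft ((LinearMap.id : ZMod p →ₗ[ZMod p] ZMod p).smulRight
      ((finBasis (ZMod p) A) i)) (G ⧸ N)) ∘ₗ
      (LinearMap.compLeft ((finBasis (ZMod p) A).coord i) (G ⧸ N)) = LinearMap.id := by
  refine LinearMap.ext fun f => funext fun x => ?_
  simp only [LinearMap.sum_apply, Finset.sum_apply, LinearMap.comp_apply, LinearMap.id_apply,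
    LinearMap.compLeft_apply, Function.comp_apply, LinearMap.smulRight_apply]
  exact (finBasis (ZMod p) A).sum_repr (f x)

lemma compMap_bijective : Function.Bijective (compMap F N A) := by
  classical
  constructor
  · rw [← LinearMap.ker_eq_bot, LinearMap.ker_eq_bot']
    intro x hx
    have h1 := F.map_sum Finset.univ (fun i => (compLeft_equivar N
      ((LinearMap.id : ZMod p →ₗ[ZMod p] ZMod p).smulRight ((finBasis (ZMod p) A) i))).comp
        (compLeft_equivar N ((finBasis (ZMod p) A).coord i))) x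
    have h2 := F.map_congr (hφ := Equivar.sum Finset.univ fun i _ => (compLeft_equivar N
      ((LinearMap.id : ZMod p →ₗ[ZMod p] ZMod p).smulRight ((finBasis (ZMod p) A) i))).comp
        (compLeft_equivar N ((finBasis (ZMod p) A).coord i))) (hψ := Equivar.id _) sum_basis x
    rw [F.map_id] at h2
    rw [← h2, h1]
    refine Finset.sum_eq_zero fun i _ => ?_
    have h3 : F.map (compLeft_equivar N ((finBasis (ZMod p) A).coord i)) x = 0 := congrFun hx i
    have h4 := F.map_comp (compLeft_equivar N
      ((LinearMap.id : ZMod p →ₗ[ZMod p] ZMod p).smulRight ((finBasis (ZMod p) A) i)))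
        (compLeft_equivar N ((finBasis (ZMod p) A).coord i)) x
    rw [h3, map_zero] at h4
    exact h4
  · intro y
    refine ⟨∑ i, F.map (compLeft_equivar N
      ((LinearMap.id : ZMod p →ₗ[ZMod p] ZMod p).smulRight ((finBasis (ZMod p) A) i))) (y i), ?_⟩
    funext j
    show F.map (compLeft_equivar N ((finBasis (ZMod p) A).coord j)) _ = y j
    rw [_root_.map_sum, Finset.sum_eq_single j]
    · rw [← F.map_comp]
      refine (F.map_congr (hψ := Equivar.id _) ?_ _).trans (F.map_id _)
      refine LinearMap.ext fun f => funext fun x => ?_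
      simp
    · intro i _ hij
      rw [← F.map_comp]
      refine F.map_eq_zero _ ?_ _
      refine LinearMap.ext fun f => funext fun x => ?_
      simp [Finsupp.single_apply, hij]
    · intro h; exact absurd (Finset.mem_univ _) h

include hF hN hNχ in
lemma RF.Good.finrank_X : finrank (ZMod p)
    (F.obj (funRep (G ⧸ N) (Representation.trivial (ZMod p) G A))) = finrank (ZMod p) A := by
  have h1 := hF.one N hN hNχ
  have hfd : Module.Finite (ZMod p)
      (F.obj (funRep (G ⧸ N) (Representation.trivial (ZMod p) G (ZMod p)))) :=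
    Module.finite_of_finrank_pos (by rw [h1]; exact one_pos)
  rw [(LinearEquiv.ofBijective _ (compMap_bijective (F := F) (N := N) (A := A))).finrank_eq,
    finrank_pi_fintype, h1]
  simp

include hF hN in
lemma RF.Good.X_inj (x : F.obj (funRep (G ⧸ N) (Representation.trivial (ZMod p) G A)))
    (hx : ∀ l : A →ₗ[ZMod p] ZMod p, F.map (eps_equivar χ N hNχ l) x = 0) : x = 0 := by
  apply (compMap_bijective (F := F) (N := N) (A := A)).1
  rw [map_zero]
  funext i
  show F.map (compLeft_equivar N ((finBasis (ZMod p) A).coord i)) x = 0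
  apply (hF.eps_bijective hN hNχ inferInstance).1
  rw [map_zero, ← F.map_comp, ← hx ((finBasis (ZMod p) A).coord i)]
  exact F.map_congr (eps_comp χ N hNχ LinearMap.id _).symm x

end X

/-- **Nondegeneracy of `F(ρ) × Hom_G(ρ, μ) → F(μ)`.** -/
theorem RF.Good.nondeg (hF : F.Good χ) {A : Type} [AddCommGroup A] [Module (ZMod p) A]
    [Module.Finite (ZMod p) A] {ρ : Representation (ZMod p) G A} (hs : Smooth 𝓛 ρ)
    (x : F.obj ρ) (hx : ∀ (φ : A →ₗ[ZMod p] ZMod p) (hφ : Equivar ρ (mu χ) φ),
      F.map hφ x = 0) : x = 0 := by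
  classical
  obtain ⟨N, hN, hn, hNχ, hkill⟩ := exists_kill hs hF.open_ker
  have hNf := 𝓛.finiteIndex hN
  have hGNf : Finite (G ⧸ N) := N.finite_quotient_of_finiteIndex
  have hsX : Smooth 𝓛 (funRep (G ⧸ N) (Representation.trivial (ZMod p) G A)) :=
    smooth_funRep hN (smooth_trivial 𝓛)
  let E := SES.ofSurj hsX (sumMap_equivar N ρ hkill) (sumMap_surjective N ρ hkill)
  obtain ⟨y, rfl⟩ := F.surj E x
  -- choose an isomorphism `F(μ) = 𝔽_p`
  have h1 := hF.finrank_mu
  have hfd : Module.Finite (ZMod p) (F.obj (mu χ)) :=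
    Module.finite_of_finrank_pos (by rw [h1]; exact one_pos)
  let e : F.obj (mu χ) ≃ₗ[ZMod p] ZMod p :=
    LinearEquiv.ofFinrankEq _ _ (by rw [h1, finrank_self])
  have hXfin : finrank (ZMod p) (F.obj (funRep (G ⧸ N) (Representation.trivial (ZMod p) G A))) =
      finrank (ZMod p) A := hF.finrank_X hN hNχ
  have hXN := hF.one N hN hNχ
  have hfd1 : Module.Finite (ZMod p)
      (F.obj (funRep (G ⧸ N) (Representation.trivial (ZMod p) G (ZMod p)))) :=
    Module.finite_of_finrank_pos (by rw [hXN]; exact one_pos)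
  have hfdX : Module.Finite (ZMod p)
      (F.obj (funRep (G ⧸ N) (Representation.trivial (ZMod p) G A))) :=
    Module.Finite.equiv (LinearEquiv.ofBijective _
      (compMap_bijective (F := F) (N := N) (A := A))).symm
  -- the pairing
  let Ψ : F.obj (funRep (G ⧸ N) (Representation.trivial (ZMod p) G A)) →ₗ[ZMod p]
      Module.Dual (ZMod p) (Module.Dual (ZMod p) A) :=
    { toFun := fun z =>
        { toFun := fun l => e (F.map (eps_equivar χ N hNχ l) z)
          map_add' := fun l l' => by
            rw [← _root_.map_add e, ← F.map_add]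
            refine congrArg e (F.map_congr ?_ z)
            refine LinearMap.ext fun f => ?_
            haveI : Finite (G ⧸ N) := N.finite_quotient_of_finiteIndex
            letI := Fintype.ofFinite (G ⧸ N)
            rw [LinearMap.add_apply, eps_apply, eps_apply, eps_apply, finsum_eq_sum_of_fintype,
              finsum_eq_sum_of_fintype, finsum_eq_sum_of_fintype, ← Finset.sum_add_distrib]
            exact Finset.sum_congr rfl fun x _ => by rw [LinearMap.add_apply, mul_add]
          map_smul' := fun c l => by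
            rw [RingHom.id_apply, ← _root_.map_smul e, ← F.map_smul]
            refine congrArg e (F.map_congr ?_ z)
            refine LinearMap.ext fun f => ?_
            haveI : Finite (G ⧸ N) := N.finite_quotient_of_finiteIndex
            letI := Fintype.ofFinite (G ⧸ N)
            rw [LinearMap.smul_apply, eps_apply, eps_apply, finsum_eq_sum_of_fintype,
              finsum_eq_sum_of_fintype, smul_eq_mul, Finset.mul_sum]
            exact Finset.sum_congr rfl fun x _ => by
              rw [LinearMap.smul_apply, smul_eq_mul]; ring }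
      map_add' := fun z z' => by
        refine LinearMap.ext fun l => ?_
        show e (F.map _ (z + z')) = e (F.map _ z) + e (F.map _ z')
        rw [_root_.map_add, _root_.map_add]
      map_smul' := fun c z => by
        refine LinearMap.ext fun l => ?_
        show e (F.map _ (c • z)) = c • e (F.map _ z)
        rw [_root_.map_smul, _root_.map_smul] }
  have hΨ : ∀ z l, Ψ z l = e (F.map (eps_equivar χ N hNχ l) z) := fun _ _ => rfl
  have hΨinj : Function.Injective Ψ := by
    rw [← LinearMap.ker_eq_bot, LinearMap.ker_eq_bot']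
    intro z hz
    refine hF.X_inj hN hNχ z fun l => ?_
    have := LinearMap.congr_fun hz l
    rw [hΨ] at this
    exact e.injective (by rw [this, map_zero]; rfl)
  -- the image of `F(K)`
  let I : Submodule (ZMod p) (Module.Dual (ZMod p) (Module.Dual (ZMod p) A)) :=
    (LinearMap.range (F.map E.hi)).map Ψ
  have hmem : Ψ y ∈ I.dualCoannihilator.dualAnnihilator := by
    rw [Submodule.mem_dualAnnihilator]
    intro l hl
    rw [Submodule.mem_dualCoannihilator] at hl
    -- `eps l` vanishes on the kernel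
    have h2 : ∀ z, F.map (eps_equivar χ N hNχ l) (F.map E.hi z) = 0 := fun z => by
      have := hl (Ψ (F.map E.hi z)) ⟨_, ⟨z, rfl⟩, rfl⟩
      rw [hΨ] at this
      exact e.injective (by rw [this, map_zero])
    have h3 : eps χ N hNχ l ∘ₗ E.i = 0 := by
      by_contra h
      have hs' := surj_of_ne_zero h
      have h4 := F.surj (SES.ofSurj E.smooth_left ((eps_equivar χ N hNχ l).comp E.hi) hs')
      obtain ⟨w, hw⟩ := @exists_ne _ hF.nontriv (0 : F.obj (mu χ))
      obtain ⟨z, hz⟩ := h4 w
      apply hw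
      rw [← hz]
      exact (F.map_comp (eps_equivar χ N hNχ l) E.hi z).trans (h2 z)
    -- it factors through `ρ`
    obtain ⟨φ, hφ⟩ : ∃ φ : A →ₗ[ZMod p] ZMod p, φ ∘ₗ sumMap N ρ hkill = eps χ N hNχ l := by
      have h5 : LinearMap.ker (sumMap N ρ hkill) ≤ LinearMap.ker (eps χ N hNχ l) := fun f hf =>
        LinearMap.congr_fun h3 ⟨f, hf⟩
      refine ⟨((LinearMap.ker (sumMap N ρ hkill)).liftQ _ h5) ∘ₗ
        ((sumMap N ρ hkill).quotKerEquivOfSurjective (sumMap_surjective N ρ hkill)).symm.toLinearMap,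
        ?_⟩
      refine LinearMap.ext fun f => ?_
      rw [LinearMap.comp_apply, LinearMap.comp_apply, LinearEquiv.coe_coe]
      have h6 : ((sumMap N ρ hkill).quotKerEquivOfSurjective
          (sumMap_surjective N ρ hkill)).symm (sumMap N ρ hkill f) =
          (LinearMap.ker (sumMap N ρ hkill)).mkQ f := by
        rw [LinearEquiv.symm_apply_eq]; rfl
      rw [h6]
      rfl
    have hφe : Equivar ρ (mu χ) φ := by
      intro g a
      obtain ⟨f, rfl⟩ := sumMap_surjective N ρ hkill a
      have h7 := sumMap_equivar N ρ hkill g f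
      rw [← h7]
      have h8 := eps_equivar χ N hNχ l g f
      rw [← hφ] at h8
      exact h8
    rw [hΨ]
    have h9 := F.map_comp hφe (sumMap_equivar N ρ hkill) y
    have h10 : F.map (eps_equivar χ N hNχ l) y = F.map (hφe.comp (sumMap_equivar N ρ hkill)) y :=
      F.map_congr hφ.symm y
    rw [h10, h9]
    have h11 := hx φ hφe
    rw [show F.map (sumMap_equivar N ρ hkill) y = F.map E.hq y from rfl, h11, map_zero]
  rw [Subspace.dualCoannihilator_dualAnnihilator_eq] at hmem
  obtain ⟨z, ⟨w, rfl⟩, hz⟩ := hmem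
  rw [F.exact E]
  exact ⟨w, hΨinj hz⟩

/-- finiteness -/
theorem RF.Good.finite (hF : F.Good χ) {A : Type} [AddCommGroup A] [Module (ZMod p) A]
    [Module.Finite (ZMod p) A] {ρ : Representation (ZMod p) G A} (hs : Smooth 𝓛 ρ) :
    Module.Finite (ZMod p) (F.obj ρ) := by
  classical
  obtain ⟨N, hN, hn, hNχ, hkill⟩ := exists_kill hs hF.open_ker
  have hNf := 𝓛.finiteIndex hN
  have hGNf : Finite (G ⧸ N) := N.finite_quotient_of_finiteIndex
  have hsX : Smooth 𝓛 (funRep (G ⧸ N) (Representation.trivial (ZMod p) G A)) :=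
    smooth_funRep hN (smooth_trivial 𝓛)
  let E := SES.ofSurj hsX (sumMap_equivar N ρ hkill) (sumMap_surjective N ρ hkill)
  have hXN := hF.one N hN hNχ
  have hfd1 : Module.Finite (ZMod p)
      (F.obj (funRep (G ⧸ N) (Representation.trivial (ZMod p) G (ZMod p)))) :=
    Module.finite_of_finrank_pos (by rw [hXN]; exact one_pos)
  have hfdX : Module.Finite (ZMod p)
      (F.obj (funRep (G ⧸ N) (Representation.trivial (ZMod p) G A))) :=
    Module.Finite.equiv (LinearEquiv.ofBijective _
      (compMap_bijective (F := F) (N := N) (A := A))).symm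
  exact Module.Finite.of_surjective _ (F.surj E)

/-- the pairing `F(ρ) → Hom(Hom_G(ρ, μ), F(μ))` -/
noncomputable def RF.pair (F : RF (ZMod p) 𝓛) (χ : G →* (ZMod p)ˣ) {A : Type} [AddCommGroup A]
    [Module (ZMod p) A] (ρ : Representation (ZMod p) G A) :
    F.obj ρ →ₗ[ZMod p] (homMu χ ρ →ₗ[ZMod p] F.obj (mu χ)) where
  toFun x :=
    { toFun := fun φ => F.map φ.2 x
      map_add' := fun φ ψ => F.map_add φ.2 ψ.2 x
      map_smul' := fun c φ => F.map_smul c φ.2 x }
  map_add' x y := by
    refine LinearMap.ext fun φ => ?_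
    exact _root_.map_add (F.map φ.2) x y
  map_smul' c x := by
    refine LinearMap.ext fun φ => ?_
    exact _root_.map_smul (F.map φ.2) c x

@[simp] lemma RF.pair_apply (F : RF (ZMod p) 𝓛) (χ : G →* (ZMod p)ˣ) {A : Type} [AddCommGroup A]
    [Module (ZMod p) A] (ρ : Representation (ZMod p) G A) (x : F.obj ρ) (φ : homMu χ ρ) :
    F.pair χ ρ x φ = F.map φ.2 x := rfl

/-- **`dim F(ρ) = dim Hom_G(ρ, μ)`.** -/
theorem RF.Good.finrank_eq (hF : F.Good χ) {A : Type} [AddCommGroup A] [Module (ZMod p) A]
    [Module.Finite (ZMod p) A] {ρ : Representation (ZMod p) G A} (hs : Smooth 𝓛 ρ) :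
    finrank (ZMod p) (F.obj ρ) = finrank (ZMod p) (homMu χ ρ) := by
  have hfin := hF.finite hs
  have h1 := hF.finrank_mu
  have hfd : Module.Finite (ZMod p) (F.obj (mu χ)) :=
    Module.finite_of_finrank_pos (by rw [h1]; exact one_pos)
  apply le_antisymm
  · have hinj : Function.Injective (F.pair χ ρ) := by
      rw [← LinearMap.ker_eq_bot, LinearMap.ker_eq_bot']
      intro x hx
      exact hF.nondeg hs x fun φ hφ => LinearMap.congr_fun hx ⟨φ, hφ⟩
    have := LinearMap.finrank_le_finrank_of_injective hinj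
    rwa [finrank_linearMap, h1, mul_one] at this
  · have hinj : Function.Injective (F.pair χ ρ).flip := by
      rw [← LinearMap.ker_eq_bot, LinearMap.ker_eq_bot']
      intro φ hφ
      by_contra hne
      have hne' : (φ : A →ₗ[ZMod p] ZMod p) ≠ 0 := fun h => hne (Subtype.ext h)
      have h4 := F.surj (SES.ofSurj hs φ.2 (surj_of_ne_zero hne'))
      obtain ⟨w, hw⟩ := @exists_ne _ hF.nontriv (0 : F.obj (mu χ))
      obtain ⟨z, hz⟩ := h4 w
      exact hw (hz.symm.trans (LinearMap.congr_fun hφ z))
    have := LinearMap.finrank_le_finrank_of_injective hinj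
    rwa [finrank_linearMap, h1, mul_one] at this

end Perfect

end Fermat.Agent.H55
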