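import Mathlib
import Fermat.Agent.H55ShapiroC

set_option autoImplicit false
set_option maxSynthPendingDepth 3

/-!
# S55 F2 : local Shapiro isomorphisms, indexed by places
-/

namespace Fermat.Agent.H55

open Module

section Places

variable {k G H A : Type*} [CommRing k] [Group G] [Group H] [AddCommGroup A] [Module k A]
  {𝓛 : Levels G} {𝓜 : Levels H} {f : H →* G} (ρ : Representation k G A)

/-- orbit representatives for the action of `H` on `G ⧸ U` through `f` -/
noncomputable def placeReps (f : H →* G) (U : Subgroup G) (rep : Places f U → G)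
    (hrep : ∀ w, place f U (rep w) = w) :
    letI : MulAction H (G ⧸ U) := MulAction.compHom (G ⧸ U) f
    OrbitReps H (G ⧸ U) (Places f U) :=
  letI : MulAction H (G ⧸ U) := MulAction.compHom (G ⧸ U) f
  have hex : ∀ y : G ⧸ U, ∃ x : H, f x • (rep (Quotient.mk (placeSetoid f U) y) : G ⧸ U) = y :=
    fun y => Quotient.exact (hrep (Quotient.mk (placeSetoid f U) y))
  { x := fun w => (rep w : G ⧸ U)
    V := fun w => dec f U (rep w)
    hV := fun w h => mem_dec_iff_smul f U (rep w) h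
    idx := fun y => Quotient.mk (placeSetoid f U) y
    s := fun y => by
      classical exact if y = (rep (Quotient.mk (placeSetoid f U) y) : G ⧸ U) then 1
        else (hex y).choose
    hs := fun y => by
      show f _ • (rep (Quotient.mk (placeSetoid f U) y) : G ⧸ U) = y
      by_cases hy : y = (rep (Quotient.mk (placeSetoid f U) y) : G ⧸ U)
      · rw [if_pos hy, map_one, one_smul]
        exact hy.symm
      · rw [if_neg hy]
        exact (hex y).choose_spec
    idx_x := fun w => hrep w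
    s_x := fun w => by
      have h : Quotient.mk (placeSetoid f U) ((rep w : G) : G ⧸ U) = w := hrep w
      rw [if_pos]
      rw [h]
    idx_smul := fun h y => Quotient.sound ((placeSetoid f U).symm ⟨h, rfl⟩) }

lemma openAct_comp (hf : Levels.Cont 𝓜 𝓛 f) {U : Subgroup G} (hU : 𝓛.op U) :
    letI : MulAction H (G ⧸ U) := MulAction.compHom (G ⧸ U) f
    OpenAct 𝓜 (G ⧸ U) := by
  obtain ⟨W, hW, h⟩ := openAct_coset hU
  exact ⟨_, hf W hW, fun s hs y => h (f s) hs y⟩

lemma funRep_comp_equivar (f : H →* G) (U : Subgroup G) :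
    letI : MulAction H (G ⧸ U) := MulAction.compHom (G ⧸ U) f
    Equivar ((funRep (G ⧸ U) ρ).comp f) (funRep (G ⧸ U) (ρ.comp f))
      ((LinearEquiv.refl k (G ⧸ U → A) : (G ⧸ U → A) ≃ₗ[k] (G ⧸ U → A)) :
        (G ⧸ U → A) →ₗ[k] (G ⧸ U → A)) := by
  intro h F
  funext y
  show ρ (f h) (F ((f h)⁻¹ • y)) = ρ (f h) (F (f h⁻¹ • y))
  rw [map_inv]

/-- total evaluation at representatives of the places, degree 1 -/
noncomputable def evP1 (𝓜 : Levels H) (f : H →* G) (U : Subgroup G) (rep : Places f U → G) :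
    H1 𝓜 ((funRep (G ⧸ U) ρ).comp f) →ₗ[k]
      ∀ w, H1 (𝓜.onSub (dec f U (rep w))) ((ρ.comp f).comp (dec f U (rep w)).subtype) :=
  LinearMap.pi fun w => evd1 ρ 𝓜 f U (rep w)

/-- total evaluation at representatives of the places, degree 2 -/
noncomputable def evP2 (𝓜 : Levels H) (f : H →* G) (U : Subgroup G) (rep : Places f U → G) :
    H2 𝓜 ((funRep (G ⧸ U) ρ).comp f) →ₗ[k]
      ∀ w, H2 (𝓜.onSub (dec f U (rep w))) ((ρ.comp f).comp (dec f U (rep w)).subtype) :=
  LinearMap.pi fun w => evd2 ρ 𝓜 f U (rep w)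

theorem evP1_bijective (hf : Levels.Cont 𝓜 𝓛 f) {U : Subgroup G} (hU : 𝓛.op U)
    (rep : Places f U → G) (hrep : ∀ w, place f U (rep w) = w) :
    Function.Bijective (evP1 ρ 𝓜 f U rep) := by
  let _ : MulAction H (G ⧸ U) := MulAction.compHom (G ⧸ U) f
  have := finite_coset hU
  have h1 := evT1_bijective (ρ := ρ.comp f) (placeReps f U rep hrep) (openAct_comp hf hU)
  have h2 : ∀ z, evP1 ρ 𝓜 f U rep z = evT1 (placeReps f U rep hrep) 𝓜 (ρ.comp f)
      (H1cEquiv 𝓜 (funRep_comp_equivar ρ f U) z) := by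
    intro z
    induction z using H1_ind with
    | h z => rfl
  have h3 : (evP1 ρ 𝓜 f U rep : _ → _) = (evT1 (placeReps f U rep hrep) 𝓜 (ρ.comp f)) ∘
      (H1cEquiv 𝓜 (funRep_comp_equivar ρ f U)) := funext h2
  rw [h3]
  exact h1.comp (LinearEquiv.bijective _)

theorem evP2_bijective (hf : Levels.Cont 𝓜 𝓛 f) {U : Subgroup G} (hU : 𝓛.op U)
    (rep : Places f U → G) (hrep : ∀ w, place f U (rep w) = w) :
    Function.Bijective (evP2 ρ 𝓜 f U rep) := by
  let _ : MulAction H (G ⧸ U) := MulAction.compHom (G ⧸ U) f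
  have := finite_coset hU
  have h1 := evT2_bijective (ρ := ρ.comp f) (placeReps f U rep hrep) (openAct_comp hf hU)
  have h2 : ∀ z, evP2 ρ 𝓜 f U rep z = evT2 (placeReps f U rep hrep) 𝓜 (ρ.comp f)
      (H2cEquiv 𝓜 (funRep_comp_equivar ρ f U) z) := by
    intro z
    induction z using H2_ind with
    | h z => rfl
  have h3 : (evP2 ρ 𝓜 f U rep : _ → _) = (evT2 (placeReps f U rep hrep) 𝓜 (ρ.comp f)) ∘
      (H2cEquiv 𝓜 (funRep_comp_equivar ρ f U)) := funext h2
  rw [h3]
  exact h1.comp (LinearEquiv.bijective _)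

/-- Shapiro's isomorphism for the places, degree 1 -/
noncomputable def shapP1 (hf : Levels.Cont 𝓜 𝓛 f) {U : Subgroup G} (hU : 𝓛.op U)
    (rep : Places f U → G) (hrep : ∀ w, place f U (rep w) = w) :
    H1 𝓜 ((funRep (G ⧸ U) ρ).comp f) ≃ₗ[k]
      ∀ w, H1 (𝓜.onSub (dec f U (rep w))) ((ρ.comp f).comp (dec f U (rep w)).subtype) :=
  LinearEquiv.ofBijective _ (evP1_bijective ρ hf hU rep hrep)

/-- Shapiro's isomorphism for the places, degree 2 -/
noncomputable def shapP2 (hf : Levels.Cont 𝓜 𝓛 f) {U : Subgroup G} (hU : 𝓛.op U)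
    (rep : Places f U → G) (hrep : ∀ w, place f U (rep w) = w) :
    H2 𝓜 ((funRep (G ⧸ U) ρ).comp f) ≃ₗ[k]
      ∀ w, H2 (𝓜.onSub (dec f U (rep w))) ((ρ.comp f).comp (dec f U (rep w)).subtype) :=
  LinearEquiv.ofBijective _ (evP2_bijective ρ hf hU rep hrep)

@[simp] lemma shapP1_apply (hf : Levels.Cont 𝓜 𝓛 f) {U : Subgroup G} (hU : 𝓛.op U)
    (rep : Places f U → G) (hrep : ∀ w, place f U (rep w) = w)
    (z : H1 𝓜 ((funRep (G ⧸ U) ρ).comp f)) (w : Places f U) :
    shapP1 ρ hf hU rep hrep z w = evd1 ρ 𝓜 f U (rep w) z := rfl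

@[simp] lemma shapP2_apply (hf : Levels.Cont 𝓜 𝓛 f) {U : Subgroup G} (hU : 𝓛.op U)
    (rep : Places f U → G) (hrep : ∀ w, place f U (rep w) = w)
    (z : H2 𝓜 ((funRep (G ⧸ U) ρ).comp f)) (w : Places f U) :
    shapP2 ρ hf hU rep hrep z w = evd2 ρ 𝓜 f U (rep w) z := rfl

/-! dependence on the representative -/

/-- conjugation `h ↦ x⁻¹ h x` from `dec f U g'` to `dec f U g` if `f x * g * u = g'` -/
def conjDec (f : H →* G) (U : Subgroup G) {g g' : G} {x : H} {u : G} (hu : u ∈ U)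
    (h : f x * g * u = g') : dec f U g' →* dec f U g where
  toFun y := ⟨x⁻¹ * y * x, by
    subst h
    have := y.2
    rw [mem_dec] at this ⊢
    have h2 := U.mul_mem (U.mul_mem hu this) (U.inv_mem hu)
    convert h2 using 1
    simp only [map_mul, map_inv]
    group⟩
  map_one' := by ext; simp
  map_mul' y y' := by ext; simp; group

lemma cont_conjDec (f : H →* G) (U : Subgroup G) {g g' : G} {x : H} {u : G} (hu : u ∈ U)
    (h : f x * g * u = g') :
    Levels.Cont (𝓜.onSub (dec f U g')) (𝓜.onSub (dec f U g)) (conjDec f U hu h) := by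
  rintro V ⟨W, hW, hle⟩
  obtain ⟨N, hN, hn, hNW⟩ := 𝓜.exists_normal hW
  refine ⟨N, hN, ?_⟩
  rintro y hy
  refine hle ?_
  show x⁻¹ * (y : H) * x ∈ W
  apply hNW
  have := hn.conj_mem (y : H) hy x⁻¹
  rwa [inv_inv] at this

lemma conjDec_equivar (U : Subgroup G) {g g' : G} {x : H} {u : G} (hu : u ∈ U)
    (h : f x * g * u = g') (y : dec f U g') (a : A) :
    ρ (f x) (((ρ.comp f).comp (dec f U g).subtype) (conjDec f U hu h y) a) =
      ((ρ.comp f).comp (dec f U g').subtype) y (ρ (f x) a) := by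
  show ρ (f x) (ρ (f (x⁻¹ * (y : H) * x)) a) = ρ (f (y : H)) (ρ (f x) a)
  rw [← Module.End.mul_apply, ← Module.End.mul_apply, ← map_mul, ← map_mul, ← map_mul,
    ← map_mul]
  congr 3
  group

theorem evd1_conj (U : Subgroup G) {g g' : G} {x : H} {u : G} (hu : u ∈ U)
    (h : f x * g * u = g') (z : H1 𝓜 ((funRep (G ⧸ U) ρ).comp f)) :
    evd1 ρ 𝓜 f U g' z = H1map (f := conjDec f U hu h) (φ := ρ (f x))
      (cont_conjDec f U hu h) (conjDec_equivar ρ U hu h) (evd1 ρ 𝓜 f U g z) := by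
  conv_lhs => rw [← H1map_conj x z]
  rw [evd1, evd1, H1map_comp, H1map_comp]
  refine LinearMap.congr_fun (H1map_congr ?_ ?_) z
  · ext y
    simp [conjDec, mul_assoc]
  · refine LinearMap.ext fun F => ?_
    show ρ (f x) (F ((f x)⁻¹ • (g' : G ⧸ U))) = ρ (f x) (F (g : G ⧸ U))
    have : (f x)⁻¹ • (g' : G ⧸ U) = (g : G ⧸ U) := by
      rw [inv_smul_eq_iff]
      show (g' : G ⧸ U) = ((f x * g : G) : G ⧸ U)
      rw [eq_comm, QuotientGroup.eq, ← h]
      have : (f x * g)⁻¹ * (f x * g * u) = u := by group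
      rwa [this]
    rw [this]

theorem evd2_conj (U : Subgroup G) {g g' : G} {x : H} {u : G} (hu : u ∈ U)
    (h : f x * g * u = g') (z : H2 𝓜 ((funRep (G ⧸ U) ρ).comp f)) :
    evd2 ρ 𝓜 f U g' z = H2map (f := conjDec f U hu h) (φ := ρ (f x))
      (cont_conjDec f U hu h) (conjDec_equivar ρ U hu h) (evd2 ρ 𝓜 f U g z) := by
  conv_lhs => rw [← H2map_conj x z]
  rw [evd2, evd2, H2map_comp, H2map_comp]
  refine LinearMap.congr_fun (H2map_congr ?_ ?_) z
  · ext y
    simp [conjDec, mul_assoc]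
  · refine LinearMap.ext fun F => ?_
    show ρ (f x) (F ((f x)⁻¹ • (g' : G ⧸ U))) = ρ (f x) (F (g : G ⧸ U))
    have : (f x)⁻¹ • (g' : G ⧸ U) = (g : G ⧸ U) := by
      rw [inv_smul_eq_iff]
      show (g' : G ⧸ U) = ((f x * g : G) : G ⧸ U)
      rw [eq_comm, QuotientGroup.eq, ← h]
      have : (f x * g)⁻¹ * (f x * g * u) = u := by group
      rwa [this]
    rw [this]

lemma evd1_eq_zero_of_place {U : Subgroup G} {g g' : G} (h : place f U g = place f U g')
    {z : H1 𝓜 ((funRep (G ⧸ U) ρ).comp f)} (hz : evd1 ρ 𝓜 f U g z = 0) :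
    evd1 ρ 𝓜 f U g' z = 0 := by
  obtain ⟨x, u, hu, hg⟩ := place_eq_iff.mp h
  rw [evd1_conj ρ U hu hg, hz, map_zero]

lemma evd2_eq_zero_of_place {U : Subgroup G} {g g' : G} (h : place f U g = place f U g')
    {z : H2 𝓜 ((funRep (G ⧸ U) ρ).comp f)} (hz : evd2 ρ 𝓜 f U g z = 0) :
    evd2 ρ 𝓜 f U g' z = 0 := by
  obtain ⟨x, u, hu, hg⟩ := place_eq_iff.mp h
  rw [evd2_conj ρ U hu hg, hz, map_zero]

/-- a class vanishes iff all its evaluations vanish, degree 1 -/
lemma eq_zero_iff_evd1 (hf : Levels.Cont 𝓜 𝓛 f) {U : Subgroup G} (hU : 𝓛.op U)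
    (z : H1 𝓜 ((funRep (G ⧸ U) ρ).comp f)) : z = 0 ↔ ∀ g, evd1 ρ 𝓜 f U g z = 0 := by
  constructor
  · rintro rfl g
    exact map_zero _
  · intro h
    choose rep hrep using place_surjective f U
    apply (evP1_bijective ρ hf hU rep hrep).1
    rw [map_zero]
    funext w
    exact h _

/-- a class vanishes iff all its evaluations vanish, degree 2 -/
lemma eq_zero_iff_evd2 (hf : Levels.Cont 𝓜 𝓛 f) {U : Subgroup G} (hU : 𝓛.op U)
    (z : H2 𝓜 ((funRep (G ⧸ U) ρ).comp f)) : z = 0 ↔ ∀ g, evd2 ρ 𝓜 f U g z = 0 := by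
  constructor
  · rintro rfl g
    exact map_zero _
  · intro h
    choose rep hrep using place_surjective f U
    apply (evP2_bijective ρ hf hU rep hrep).1
    rw [map_zero]
    funext w
    exact h _

end Places

end Fermat.Agent.H55
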