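import Mathlib
import Fermat.Agent.H55ShapiroD

set_option autoImplicit false
set_option maxSynthPendingDepth 3

/-!
# S55 F2 : averaging, products, trivial action, induced covers
-/

namespace Fermat.Agent.H55

open Module

/-! ### (7) `A` is a direct summand of `funRep Ω A` -/

section Avg

variable {k G A Ω : Type*} [CommRing k] [Group G] [AddCommGroup A] [Module k A] [MulAction G Ω]
  (ρ : Representation k G A)

/-- constant functions -/
def constL (k A Ω : Type*) [CommRing k] [AddCommGroup A] [Module k A] : A →ₗ[k] (Ω → A) where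
  toFun a _ := a
  map_add' _ _ := rfl
  map_smul' _ _ := rfl

@[simp] lemma constL_apply (a : A) (x : Ω) : constL k A Ω a x = a := rfl

/-- weighted sum of values -/
def avgL (A : Type*) [AddCommGroup A] [Module k A] (Ω : Type*) [Fintype Ω] (c : k) :
    (Ω → A) →ₗ[k] A where
  toFun f := c • ∑ x, f x
  map_add' f f' := by simp [Finset.sum_add_distrib, smul_add]
  map_smul' d f := by simp [← Finset.smul_sum, smul_comm c d]

@[simp] lemma avgL_apply [Fintype Ω] (c : k) (f : Ω → A) : avgL A Ω c f = c • ∑ x, f x := rfl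

lemma constL_equivar : Equivar ρ (funRep Ω ρ) (constL k A Ω) := fun _ _ => rfl

lemma avgL_equivar [Fintype Ω] (c : k) : Equivar (funRep Ω ρ) ρ (avgL A Ω c) := fun g f => by
  simp only [avgL_apply, funRep_apply, map_smul]
  rw [← map_sum]
  congr 2
  exact Equiv.sum_comp (MulAction.toPerm g⁻¹ : Ω ≃ Ω) f

lemma avgL_comp_constL [Fintype Ω] {c : k} (hc : c * (Fintype.card Ω : k) = 1) :
    (avgL A Ω c) ∘ₗ (constL k A Ω) = LinearMap.id := by
  refine LinearMap.ext fun a => ?_
  rw [LinearMap.comp_apply, avgL_apply]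
  simp only [constL_apply, Finset.sum_const, Finset.card_univ, LinearMap.id_apply]
  rw [← Nat.cast_smul_eq_nsmul k, smul_smul, hc, one_smul]

lemma H1c_avgL_constL {𝓛 : Levels G} [Fintype Ω] {c : k} (hc : c * (Fintype.card Ω : k) = 1)
    (z : H1 𝓛 ρ) : H1c 𝓛 (avgL_equivar ρ (Ω := Ω) c) (H1c 𝓛 (constL_equivar ρ) z) = z := by
  rw [← H1c_comp]
  exact (LinearMap.congr_fun (H1c_congr (avgL_comp_constL hc)) z).trans (H1c_id z)

lemma H2c_avgL_constL {𝓛 : Levels G} [Fintype Ω] {c : k} (hc : c * (Fintype.card Ω : k) = 1)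
    (z : H2 𝓛 ρ) : H2c 𝓛 (avgL_equivar ρ (Ω := Ω) c) (H2c 𝓛 (constL_equivar ρ) z) = z := by
  rw [← H2c_comp]
  exact (LinearMap.congr_fun (H2c_congr (avgL_comp_constL hc)) z).trans (H2c_id z)

end Avg

/-! ### (8) products and trivial action -/

section Prod

variable {k G ι : Type*} [CommRing k] [Group G] {A : ι → Type*} [∀ i, AddCommGroup (A i)]
  [∀ i, Module k (A i)] {𝓛 : Levels G} (ρ : ∀ i, Representation k G (A i))

/-- product of representations -/
def piRep : Representation k G (∀ i, A i) where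
  toFun g := LinearMap.pi fun i => (ρ i g) ∘ₗ LinearMap.proj i
  map_one' := by
    refine LinearMap.ext fun f => funext fun i => ?_
    simp
  map_mul' g h := by
    refine LinearMap.ext fun f => funext fun i => ?_
    simp

@[simp] lemma piRep_apply (g : G) (a : ∀ i, A i) (i : ι) : piRep ρ g a i = ρ i g (a i) := rfl

lemma proj_piRep_equivar (i : ι) :
    Equivar (piRep ρ) (ρ i) (LinearMap.proj i : (∀ i, A i) →ₗ[k] A i) := fun _ _ => rfl

/-- `H¹` of a finite product -/
noncomputable def H1pi [Finite ι] : H1 𝓛 (piRep ρ) ≃ₗ[k] ∀ i, H1 𝓛 (ρ i) :=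
  LinearEquiv.ofBijective (LinearMap.pi fun i => H1c 𝓛 (proj_piRep_equivar ρ i)) (by
    constructor
    · rw [injective_iff_map_eq_zero]
      intro z hz
      induction z using H1_ind with
      | h z =>
        have h1 : ∀ i, ∃ a, d0 (ρ i) a = fun g => (z : G → ∀ i, A i) g i := by
          intro i
          have h := congrFun hz i
          rw [LinearMap.pi_apply, H1c_mk, Pi.zero_apply, H1π_eq_zero_iff] at h
          exact h
        choose a ha using h1
        rw [H1π_eq_zero_iff]
        exact ⟨a, funext fun g => funext fun i => congrFun (ha i) g⟩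
    · intro y
      choose c hc using fun i => H1π_surjective 𝓛 (ρ i) (y i)
      refine ⟨H1π 𝓛 (piRep ρ) ⟨fun g i => (c i : G → A i) g, LC1.pi fun i => (c i).2.1,
        fun g h => funext fun i => (c i).2.2 g h⟩, ?_⟩
      funext i
      rw [← hc i]
      rfl)

/-- `H²` of a finite product -/
noncomputable def H2pi [Finite ι] : H2 𝓛 (piRep ρ) ≃ₗ[k] ∀ i, H2 𝓛 (ρ i) :=
  LinearEquiv.ofBijective (LinearMap.pi fun i => H2c 𝓛 (proj_piRep_equivar ρ i)) (by
    constructor
    · rw [injective_iff_map_eq_zero]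
      intro z hz
      induction z using H2_ind with
      | h z =>
        have h1 : ∀ i, ∃ b, LC1 𝓛 b ∧
            d1 (ρ i) b = fun g => (z : G × G → ∀ i, A i) g i := by
          intro i
          have h := congrFun hz i
          rw [LinearMap.pi_apply, H2c_mk, Pi.zero_apply, H2π_eq_zero_iff] at h
          exact h
        choose b hb hb' using h1
        rw [H2π_eq_zero_iff]
        exact ⟨fun g i => b i g, LC1.pi hb, funext fun g => funext fun i => congrFun (hb' i) g⟩
    · intro y
      choose c hc using fun i => H2π_surjective 𝓛 (ρ i) (y i)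
      refine ⟨H2π 𝓛 (piRep ρ) ⟨fun g i => (c i : G × G → A i) g, LC2.pi fun i => (c i).2.1,
        fun g h j => funext fun i => (c i).2.2 g h j⟩, ?_⟩
      funext i
      rw [← hc i]
      rfl)

@[simp] lemma H1pi_apply [Finite ι] (z : H1 𝓛 (piRep ρ)) (i : ι) :
    H1pi ρ z i = H1c 𝓛 (proj_piRep_equivar ρ i) z := rfl

@[simp] lemma H2pi_apply [Finite ι] (z : H2 𝓛 (piRep ρ)) (i : ι) :
    H2pi ρ z i = H2c 𝓛 (proj_piRep_equivar ρ i) z := rfl

end Prod

section Triv

variable {k G A : Type*} [Group G] {𝓛 : Levels G}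

lemma rep_eq_trivial [CommRing k] [AddCommGroup A] [Module k A] {ρ : Representation k G A}
    (h : ∀ g a, ρ g a = a) : ρ = Representation.trivial k G A :=
  MonoidHom.ext fun g => LinearMap.ext fun a => h g a

variable [Field k] [AddCommGroup A] [Module k A] [Module.Finite k A]

/-- coordinates for the trivial representation -/
lemma triv_equivar (k G A : Type*) [Group G] [Field k] [AddCommGroup A] [Module k A]
    [Module.Finite k A] :
    Equivar (Representation.trivial k G A)
      (piRep fun _ : Fin (finrank k A) => Representation.trivial k G k)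
      ((Module.finBasis k A).equivFun : A →ₗ[k] (Fin (finrank k A) → k)) := fun _ _ => rfl

/-- cohomology of a trivial representation, degree 1 -/
noncomputable def H1triv (𝓛 : Levels G) (k A : Type*) [Field k] [AddCommGroup A] [Module k A]
    [Module.Finite k A] :
    H1 𝓛 (Representation.trivial k G A) ≃ₗ[k]
      (Fin (finrank k A) → H1 𝓛 (Representation.trivial k G k)) :=
  (H1cEquiv 𝓛 (triv_equivar k G A)).trans (H1pi _)

/-- cohomology of a trivial representation, degree 2 -/
noncomputable def H2triv (𝓛 : Levels G) (k A : Type*) [Field k] [AddCommGroup A] [Module k A]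
    [Module.Finite k A] :
    H2 𝓛 (Representation.trivial k G A) ≃ₗ[k]
      (Fin (finrank k A) → H2 𝓛 (Representation.trivial k G k)) :=
  (H2cEquiv 𝓛 (triv_equivar k G A)).trans (H2pi _)

lemma finite_H1_trivial [Module.Finite k (H1 𝓛 (Representation.trivial k G k))] :
    Module.Finite k (H1 𝓛 (Representation.trivial k G A)) :=
  Module.Finite.equiv (H1triv 𝓛 k A).symm

lemma finite_H2_trivial [Module.Finite k (H2 𝓛 (Representation.trivial k G k))] :
    Module.Finite k (H2 𝓛 (Representation.trivial k G A)) :=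
  Module.Finite.equiv (H2triv 𝓛 k A).symm

lemma finrank_H1_trivial [Module.Finite k (H1 𝓛 (Representation.trivial k G k))] :
    finrank k (H1 𝓛 (Representation.trivial k G A)) =
      finrank k A * finrank k (H1 𝓛 (Representation.trivial k G k)) := by
  rw [(H1triv 𝓛 k A).finrank_eq, Module.finrank_pi_fintype]
  simp

lemma finrank_H2_trivial [Module.Finite k (H2 𝓛 (Representation.trivial k G k))] :
    finrank k (H2 𝓛 (Representation.trivial k G A)) =
      finrank k A * finrank k (H2 𝓛 (Representation.trivial k G k)) := by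
  rw [(H2triv 𝓛 k A).finrank_eq, Module.finrank_pi_fintype]
  simp

omit [Module.Finite k A] in
/-- for a subgroup acting trivially -/
lemma comp_subtype_eq_trivial {ρ : Representation k G A} {V : Subgroup G}
    (h : ∀ g ∈ V, ∀ a, ρ g a = a) : ρ.comp V.subtype = Representation.trivial k V A :=
  rep_eq_trivial fun g a => h g g.2 a

end Triv

/-! ### (9) covers by and embeddings into induced modules -/

section Cover

variable {k G C : Type*} [CommRing k] [Group G] [AddCommGroup C] [Module k C]
  {𝓛 : Levels G} (ρ : Representation k G C) {N : Subgroup G}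

lemma rho_out (hN : ∀ g ∈ N, ∀ c, ρ g c = c) (g : G) (c : C) :
    ρ (g : G ⧸ N).out c = ρ g c := by
  obtain ⟨n, hn⟩ := QuotientGroup.mk_out_eq_mul N g
  rw [hn, map_mul, Module.End.mul_apply, hN n n.2]

lemma rho_out_inv (hN : ∀ g ∈ N, ∀ c, ρ g c = c) (g : G) (c : C) :
    ρ ((g : G ⧸ N).out)⁻¹ c = ρ g⁻¹ c := by
  have h := rho_out ρ hN g (ρ ((g : G ⧸ N).out)⁻¹ c)
  rw [← Module.End.mul_apply, ← map_mul, mul_inv_cancel, map_one, Module.End.one_apply] at h
  conv_rhs => rw [h]
  rw [← Module.End.mul_apply, ← map_mul, inv_mul_cancel, map_one, Module.End.one_apply]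

/-- the cover `f ↦ ∑ x, x f(x)` -/
noncomputable def coverL (ρ : Representation k G C) (N : Subgroup G) [Fintype (G ⧸ N)] :
    (G ⧸ N → C) →ₗ[k] C where
  toFun f := ∑ x, ρ x.out (f x)
  map_add' f f' := by simp [Finset.sum_add_distrib]
  map_smul' c f := by simp [Finset.smul_sum]

/-- the embedding `c ↦ (x ↦ x⁻¹ c)` -/
noncomputable def embL (ρ : Representation k G C) (N : Subgroup G) :
    C →ₗ[k] (G ⧸ N → C) where
  toFun c x := ρ (x.out)⁻¹ c
  map_add' c c' := by funext x; simp
  map_smul' d c := by funext x; simp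

lemma coverL_apply [Fintype (G ⧸ N)] (f : G ⧸ N → C) :
    coverL ρ N f = ∑ x, ρ x.out (f x) := rfl

lemma embL_apply (c : C) (x : G ⧸ N) : embL ρ N c x = ρ (x.out)⁻¹ c := rfl

lemma coverL_equivar [Fintype (G ⧸ N)] (hN : ∀ g ∈ N, ∀ c, ρ g c = c) :
    Equivar (funRep (G ⧸ N) (Representation.trivial k G C)) ρ (coverL ρ N) := fun g f => by
  rw [coverL_apply, coverL_apply, map_sum,
    ← Equiv.sum_comp (MulAction.toPerm g : (G ⧸ N) ≃ (G ⧸ N))]
  refine Finset.sum_congr rfl fun x _ => ?_
  rw [MulAction.toPerm_apply, funRep_apply, inv_smul_smul]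
  show ρ (g • x).out (f x) = _
  have hx : g • x = ((g * x.out : G) : G ⧸ N) := by
    conv_lhs => rw [← QuotientGroup.out_eq' x]
    rfl
  rw [hx, rho_out ρ hN, map_mul, Module.End.mul_apply]

lemma embL_equivar (hN : ∀ g ∈ N, ∀ c, ρ g c = c) :
    Equivar ρ (funRep (G ⧸ N) (Representation.trivial k G C)) (embL ρ N) := fun g c => by
  funext x
  rw [funRep_apply, embL_apply, embL_apply]
  show _ = ρ ((g⁻¹ • x).out)⁻¹ c
  have hx : g⁻¹ • x = ((g⁻¹ * x.out : G) : G ⧸ N) := by
    conv_lhs => rw [← QuotientGroup.out_eq' x]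
    rfl
  rw [hx, rho_out_inv ρ hN, mul_inv_rev, inv_inv, map_mul, Module.End.mul_apply]

lemma coverL_surjective [Fintype (G ⧸ N)] : Function.Surjective (coverL ρ N) := by
  classical
  intro c
  refine ⟨Pi.single ((1 : G) : G ⧸ N) (ρ ((((1 : G) : G ⧸ N)).out)⁻¹ c), ?_⟩
  rw [coverL_apply, Finset.sum_eq_single ((1 : G) : G ⧸ N)]
  · rw [Pi.single_eq_same, ← Module.End.mul_apply, ← map_mul, mul_inv_cancel, map_one,
      Module.End.one_apply]
  · intro x _ hx
    rw [Pi.single_eq_of_ne hx, map_zero]
  · intro h; exact absurd (Finset.mem_univ _) h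

lemma embL_injective : Function.Injective (embL ρ N) := by
  intro c c' h
  have h1 := congrFun h ((1 : G) : G ⧸ N)
  rw [embL_apply, embL_apply] at h1
  have h2 := congrArg (ρ ((((1 : G) : G ⧸ N)).out)) h1
  rwa [← Module.End.mul_apply, ← Module.End.mul_apply, ← map_mul, mul_inv_cancel, map_one,
    Module.End.one_apply, Module.End.one_apply] at h2

end Cover

end Fermat.Agent.H55
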