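import Mathlib
import Fermat.Agent.H55ShapiroE

set_option autoImplicit false
set_option maxSynthPendingDepth 3

/-!
# S55 F2 : local data, dimensions over places
-/

namespace Fermat.Agent.H55

open Module

section Index

variable {G H : Type*} [Group G] [Group H]

/-- the points of `G ⧸ U` in the orbit of a place are the cosets of the decomposition group -/
noncomputable def cosetEquivSigma (f : H →* G) (U : Subgroup G) (rep : Places f U → G)
    (hrep : ∀ w, place f U (rep w) = w) :
    (Σ w : Places f U, H ⧸ dec f U (rep w)) ≃ (G ⧸ U) :=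
  Equiv.ofBijective (fun x => Quotient.liftOn' x.2 (fun h : H => f h • (rep x.1 : G ⧸ U)) (by
      intro a b hab
      rw [QuotientGroup.leftRel_apply, mem_dec_iff_smul] at hab
      rw [map_mul, mul_smul, map_inv, inv_smul_eq_iff] at hab
      exact hab.symm)) (by
    constructor
    · rintro ⟨w, x⟩ ⟨w', x'⟩ h
      induction x using Quotient.inductionOn' with
      | h a =>
      induction x' using Quotient.inductionOn' with
      | h b =>
      have h' : f a • (rep w : G ⧸ U) = f b • (rep w' : G ⧸ U) := h
      have hw : w = w' := by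
        rw [← hrep w, ← hrep w']
        exact Quotient.sound ⟨b⁻¹ * a, by
          rw [map_mul, mul_smul, h', map_inv, inv_smul_smul]⟩
      subst hw
      have : (Quotient.mk'' a : H ⧸ dec f U (rep w)) = Quotient.mk'' b := by
        refine Quotient.sound' ?_
        rw [QuotientGroup.leftRel_apply, mem_dec_iff_smul, map_mul, mul_smul, ← h', map_inv,
          inv_smul_smul]
      rw [this]
    · intro y
      obtain ⟨x, hx⟩ := Quotient.exact (hrep (Quotient.mk (placeSetoid f U) y))
      exact ⟨⟨Quotient.mk (placeSetoid f U) y, Quotient.mk'' x⟩, hx⟩)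

/-- `∑_{w | v} [K_w : ℚ_v] = [K : ℚ]` -/
lemma sum_index_dec (f : H →* G) (U : Subgroup G) [Fintype (Places f U)]
    (hfin : ∀ g, (dec f U g).FiniteIndex)
    (rep : Places f U → G) (hrep : ∀ w, place f U (rep w) = w) :
    ∑ w, (dec f U (rep w)).index = U.index := by
  have : ∀ w, Finite (H ⧸ dec f U (rep w)) := fun w => by
    have := hfin (rep w)
    exact Subgroup.finite_quotient_of_finiteIndex
  have h := Nat.card_congr (cosetEquivSigma f U rep hrep)
  rw [Nat.card_sigma] at h
  exact h

end Index

section Dim

variable {k G H : Type*} [Field k] [Group G] [Group H] {𝓛 : Levels G} {𝓜 : Levels H}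
  {f : H →* G}

lemma finite_places (f : H →* G) {U : Subgroup G} (hU : 𝓛.op U) : Finite (Places f U) := by
  have := finite_coset hU
  infer_instance

lemma finite_H1_places (hf : Levels.Cont 𝓜 𝓛 f) {U : Subgroup G} (hU : 𝓛.op U)
    (h : ∀ g, Module.Finite k (H1 (𝓜.onSub (dec f U g))
      (Representation.trivial k (dec f U g) k))) :
    Module.Finite k (H1 𝓜 ((funRep (G ⧸ U) (Representation.trivial k G k)).comp f)) := by
  have := finite_places f hU
  choose rep hrep using place_surjective f U
  have : ∀ w, Module.Finite k (H1 (𝓜.onSub (dec f U (rep w)))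
    (((Representation.trivial k G k).comp f).comp (dec f U (rep w)).subtype)) := fun w => h _
  exact Module.Finite.equiv (shapP1 (Representation.trivial k G k) hf hU rep hrep).symm

lemma finite_H2_places (hf : Levels.Cont 𝓜 𝓛 f) {U : Subgroup G} (hU : 𝓛.op U)
    (h : ∀ g, Module.Finite k (H2 (𝓜.onSub (dec f U g))
      (Representation.trivial k (dec f U g) k))) :
    Module.Finite k (H2 𝓜 ((funRep (G ⧸ U) (Representation.trivial k G k)).comp f)) := by
  have := finite_places f hU
  choose rep hrep using place_surjective f U
  have : ∀ w, Module.Finite k (H2 (𝓜.onSub (dec f U (rep w)))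
    (((Representation.trivial k G k).comp f).comp (dec f U (rep w)).subtype)) := fun w => h _
  exact Module.Finite.equiv (shapP2 (Representation.trivial k G k) hf hU rep hrep).symm

lemma finrank_H1_places (hf : Levels.Cont 𝓜 𝓛 f) {U : Subgroup G} (hU : 𝓛.op U)
    [Fintype (Places f U)] (rep : Places f U → G) (hrep : ∀ w, place f U (rep w) = w)
    (h : ∀ w, Module.Finite k (H1 (𝓜.onSub (dec f U (rep w)))
      (Representation.trivial k (dec f U (rep w)) k))) :
    finrank k (H1 𝓜 ((funRep (G ⧸ U) (Representation.trivial k G k)).comp f)) =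
      ∑ w, finrank k (H1 (𝓜.onSub (dec f U (rep w)))
        (Representation.trivial k (dec f U (rep w)) k)) := by
  have : ∀ w, Module.Finite k (H1 (𝓜.onSub (dec f U (rep w)))
    (((Representation.trivial k G k).comp f).comp (dec f U (rep w)).subtype)) := h
  rw [(shapP1 (Representation.trivial k G k) hf hU rep hrep).finrank_eq,
    Module.finrank_pi_fintype]
  rfl

lemma finrank_H2_places (hf : Levels.Cont 𝓜 𝓛 f) {U : Subgroup G} (hU : 𝓛.op U)
    [Fintype (Places f U)] (rep : Places f U → G) (hrep : ∀ w, place f U (rep w) = w)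
    (h : ∀ w, Module.Finite k (H2 (𝓜.onSub (dec f U (rep w)))
      (Representation.trivial k (dec f U (rep w)) k))) :
    finrank k (H2 𝓜 ((funRep (G ⧸ U) (Representation.trivial k G k)).comp f)) =
      ∑ w, finrank k (H2 (𝓜.onSub (dec f U (rep w)))
        (Representation.trivial k (dec f U (rep w)) k)) := by
  have : ∀ w, Module.Finite k (H2 (𝓜.onSub (dec f U (rep w)))
    (((Representation.trivial k G k).comp f).comp (dec f U (rep w)).subtype)) := h
  rw [(shapP2 (Representation.trivial k G k) hf hU rep hrep).finrank_eq,
    Module.finrank_pi_fintype]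
  rfl

/-- `dim H²` when each component has dimension `1` -/
lemma finrank_H2_places_eq_nPl (hf : Levels.Cont 𝓜 𝓛 f) {U : Subgroup G} (hU : 𝓛.op U)
    (h : ∀ g, finrank k (H2 (𝓜.onSub (dec f U g))
      (Representation.trivial k (dec f U g) k)) = 1) :
    finrank k (H2 𝓜 ((funRep (G ⧸ U) (Representation.trivial k G k)).comp f)) = nPl f U := by
  have := finite_places f hU
  have := Fintype.ofFinite (Places f U)
  choose rep hrep using place_surjective f U
  rw [finrank_H2_places hf hU rep hrep fun w => Module.finite_of_finrank_eq_succ (h (rep w)),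
    nPl, Nat.card_eq_fintype_card, Fintype.card_eq_sum_ones]
  exact Finset.sum_congr rfl fun w _ => h _

/-- `dim H¹` when each component has dimension `2 + c [K_w : ℚ_v]` -/
lemma finrank_H1_places_eq (hf : Levels.Cont 𝓜 𝓛 f) {U : Subgroup G} (hU : 𝓛.op U) (c : ℕ)
    (h : ∀ g, finrank k (H1 (𝓜.onSub (dec f U g))
      (Representation.trivial k (dec f U g) k)) = 2 + c * (dec f U g).index) :
    finrank k (H1 𝓜 ((funRep (G ⧸ U) (Representation.trivial k G k)).comp f)) =
      2 * nPl f U + c * U.index := by
  have := finite_places f hU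
  have := Fintype.ofFinite (Places f U)
  choose rep hrep using place_surjective f U
  have hfin : ∀ w, Module.Finite k (H1 (𝓜.onSub (dec f U (rep w)))
      (Representation.trivial k (dec f U (rep w)) k)) := fun w =>
    Module.finite_of_finrank_pos (by rw [h]; omega)
  rw [finrank_H1_places hf hU rep hrep hfin, Finset.sum_congr rfl fun w _ => h (rep w),
    Finset.sum_add_distrib, ← Finset.mul_sum,
    sum_index_dec f U (fun g => 𝓜.finiteIndex (op_dec hf hU g)) rep hrep, nPl,
    Nat.card_eq_fintype_card, Finset.sum_const, Finset.card_univ, smul_eq_mul, mul_comm 2]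

/-- the invariants of the local group: number of places -/
lemma finrank_invariants_places (f : H →* G) (U : Subgroup G) [Finite (Places f U)] :
    finrank k (Representation.invariants
      ((funRep (G ⧸ U) (Representation.trivial k G k)).comp f) : Submodule k (G ⧸ U → k)) =
      nPl f U := by
  let _ : MulAction H (G ⧸ U) := MulAction.compHom (G ⧸ U) f
  have := Fintype.ofFinite (Places f U)
  choose rep hrep using place_surjective f U
  have h := finrank_invariants_funRep (k := k) (placeReps f U rep hrep)
  rw [nPl, Nat.card_eq_fintype_card, ← h]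
  have h2 : (Representation.invariants
      ((funRep (G ⧸ U) (Representation.trivial k G k)).comp f) : Submodule k (G ⧸ U → k)) =
      Representation.invariants (funRep (G ⧸ U) (Representation.trivial k H k)) := by
    ext F
    rw [Representation.mem_invariants, Representation.mem_invariants]
    refine forall_congr' fun x => ?_
    have := (funRep_comp_equivar (Representation.trivial k G k) f U) x F
    constructor
    · intro h3
      exact this.symm.trans h3
    · intro h3
      exact this.trans h3
  rw [h2]

end Dim

/-! ### local data -/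

section LDsec

variable {k G : Type} [Group G] {𝓛 : Levels G} (D : LD 𝓛)

section ring

variable [CommRing k]

variable (k) in
/-- the local evaluation of `X_U = funRep (G ⧸ U) k` at the place of `g`, degree 1 -/
noncomputable abbrev LD.evX1 (U : Subgroup G) (v : D.ι) (g : G) :
    H1 (D.lev v) (D.rv (funRep (G ⧸ U) (Representation.trivial k G k)) v) →ₗ[k]
      H1 ((D.lev v).onSub (dec (D.loc v) U g))
        (Representation.trivial k (dec (D.loc v) U g) k) :=
  evd1 (Representation.trivial k G k) (D.lev v) (D.loc v) U g

variable (k) in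
/-- the local evaluation of `X_U = funRep (G ⧸ U) k` at the place of `g`, degree 2 -/
noncomputable abbrev LD.evX2 (U : Subgroup G) (v : D.ι) (g : G) :
    H2 (D.lev v) (D.rv (funRep (G ⧸ U) (Representation.trivial k G k)) v) →ₗ[k]
      H2 ((D.lev v).onSub (dec (D.loc v) U g))
        (Representation.trivial k (dec (D.loc v) U g) k) :=
  evd2 (Representation.trivial k G k) (D.lev v) (D.loc v) U g

variable (k) in
/-- Shapiro for `X_U`, degree 1 -/
noncomputable abbrev shX1 {U : Subgroup G} (hU : 𝓛.op U) :
    H1 𝓛 (funRep (G ⧸ U) (Representation.trivial k G k)) ≃ₗ[k]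
      H1 (𝓛.onSub U) (Representation.trivial k U k) :=
  shapU1 (Representation.trivial k G k) hU

variable (k) in
/-- Shapiro for `X_U`, degree 2 -/
noncomputable abbrev shX2 {U : Subgroup G} (hU : 𝓛.op U) :
    H2 𝓛 (funRep (G ⧸ U) (Representation.trivial k G k)) ≃ₗ[k]
      H2 (𝓛.onSub U) (Representation.trivial k U k) :=
  shapU2 (Representation.trivial k G k) hU

/-- Mackey compatibility for local data, degree 1 -/
theorem LD.evX1_loc1 {U : Subgroup G} (hU : 𝓛.op U) (v : D.ι) (g : G)
    (z : H1 𝓛 (funRep (G ⧸ U) (Representation.trivial k G k))) :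
    D.evX1 k U v g (D.loc1 (funRep (G ⧸ U) (Representation.trivial k G k)) z v) = D.locU1 k U v g (shX1 k hU z) :=
  evd1_H1res (Representation.trivial k G k) (D.cont v) U g z

/-- Mackey compatibility for local data, degree 2 -/
theorem LD.evX2_loc2 {U : Subgroup G} (hU : 𝓛.op U) (v : D.ι) (g : G)
    (z : H2 𝓛 (funRep (G ⧸ U) (Representation.trivial k G k))) :
    D.evX2 k U v g (D.loc2 (funRep (G ⧸ U) (Representation.trivial k G k)) z v) = D.locU2 k U v g (shX2 k hU z) :=
  evd2_H2res (Representation.trivial k G k) (D.cont v) U g z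

/-- the everywhere locally trivial classes of `X_U` and of `U` correspond -/
theorem LD.mem_Sha2_funRep_iff {U : Subgroup G} (hU : 𝓛.op U)
    (z : H2 𝓛 (funRep (G ⧸ U) (Representation.trivial k G k))) :
    z ∈ D.Sha2 (funRep (G ⧸ U) (Representation.trivial k G k)) ↔ shX2 k hU z ∈ D.ShaU2 k U := by
  rw [LD.mem_ShaU2, LD.Sha2, LinearMap.mem_ker]
  constructor
  · intro h v g
    rw [← D.evX2_loc2 hU, h, Pi.zero_apply, map_zero]
  · intro h
    funext v
    rw [Pi.zero_apply]
    refine (eq_zero_iff_evd2 (Representation.trivial k G k) (D.cont v) hU _).2 fun g => ?_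
    exact (D.evX2_loc2 hU v g z).trans (h v g)

/-- Shapiro identifies `Sha2 X_U` with `ShaU2 U` -/
noncomputable def LD.shaEquiv {U : Subgroup G} (hU : 𝓛.op U) :
    ↥(D.Sha2 (funRep (G ⧸ U) (Representation.trivial k G k))) ≃ₗ[k] ↥(D.ShaU2 k U) :=
  (shX2 k hU).submoduleMap _ |>.trans (LinearEquiv.ofEq _ _ (by
    ext y
    constructor
    · rintro ⟨z, hz, rfl⟩
      exact (D.mem_Sha2_funRep_iff hU z).1 hz
    · intro hy
      refine ⟨(shX2 k hU).symm y, (D.mem_Sha2_funRep_iff hU _).2 ?_, ?_⟩
      · rw [LinearEquiv.apply_symm_apply]; exact hy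
      · exact LinearEquiv.apply_symm_apply _ _))

end ring

section field

variable [Field k]

lemma LD.finrank_Sha2_funRep {U : Subgroup G} (hU : 𝓛.op U) :
    finrank k ↥(D.Sha2 (funRep (G ⧸ U) (Representation.trivial k G k))) =
      finrank k ↥(D.ShaU2 k U) := (D.shaEquiv hU).finrank_eq

end field

end LDsec

end Fermat.Agent.H55
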