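import Mathlib
import Fermat.Agent.H55Defs
import Fermat.Agent.H55Funct
import Fermat.Agent.H55ShapiroD

set_option autoImplicit false
set_option maxSynthPendingDepth 3

/-!
# S55, F5a: the Fourier argument
-/

namespace Fermat.Agent.H65

open Module Fermat.Agent.H55

/-! ## functoriality of `P2` and `Cok` -/

section Cok

variable {k G A B C : Type} [CommRing k] [Group G] [AddCommGroup A] [Module k A]
  [AddCommGroup B] [Module k B] [AddCommGroup C] [Module k C] {𝓛 : Levels G}
  {ρA : Representation k G A} {ρB : Representation k G B} {ρC : Representation k G C}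
  (D : LD 𝓛)

/-- change of coefficients on the product of the local groups -/
def P2map {φ : A →ₗ[k] B} (hφ : Equivar ρA ρB φ) : D.P2 ρA →ₗ[k] D.P2 ρB :=
  LinearMap.pi fun v => (H2c (D.lev v) (hφ.res (D.loc v))) ∘ₗ LinearMap.proj v

@[simp] lemma P2map_apply {φ : A →ₗ[k] B} (hφ : Equivar ρA ρB φ) (x : D.P2 ρA) (v : D.ι) :
    P2map D hφ x v = H2c (D.lev v) (hφ.res (D.loc v)) (x v) := rfl

lemma P2map_loc2 {φ : A →ₗ[k] B} (hφ : Equivar ρA ρB φ) (z : H2 𝓛 ρA) :
    P2map D hφ (D.loc2 ρA z) = D.loc2 ρB (H2c 𝓛 hφ z) := by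
  funext v
  rw [P2map_apply, LD.loc2_apply, LD.loc2_apply, H2res_H2c]

/-- change of coefficients on the cokernel of localisation -/
def CokMap {φ : A →ₗ[k] B} (hφ : Equivar ρA ρB φ) : D.Cok ρA →ₗ[k] D.Cok ρB :=
  Submodule.mapQ _ _ (P2map D hφ) (by
    rintro _ ⟨z, rfl⟩
    exact ⟨H2c 𝓛 hφ z, (P2map_loc2 D hφ z).symm⟩)

@[simp] lemma CokMap_mk {φ : A →ₗ[k] B} (hφ : Equivar ρA ρB φ) (x : D.P2 ρA) :
    CokMap D hφ (Submodule.Quotient.mk x) = Submodule.Quotient.mk (P2map D hφ x) := rfl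

lemma CokMap_comp {φ : A →ₗ[k] B} {ψ : B →ₗ[k] C} (hψ : Equivar ρB ρC ψ)
    (hφ : Equivar ρA ρB φ) (x : D.Cok ρA) :
    CokMap D (hψ.comp hφ) x = CokMap D hψ (CokMap D hφ x) := by
  induction x using Submodule.Quotient.induction_on with
  | H x =>
    rw [CokMap_mk, CokMap_mk, CokMap_mk]
    congr 1
    funext v
    exact H2c_comp (hψ.res (D.loc v)) (hφ.res (D.loc v)) (x v)

lemma CokMap_congr {φ ψ : A →ₗ[k] B} {hφ : Equivar ρA ρB φ} {hψ : Equivar ρA ρB ψ} (h : φ = ψ) :
    CokMap D hφ = CokMap D hψ := by subst h; rfl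

lemma CokMap_id (x : D.Cok ρA) : CokMap D (Equivar.id ρA) x = x := by
  induction x using Submodule.Quotient.induction_on with
  | H x =>
    rw [CokMap_mk]
    congr 1
    funext v
    exact H2c_id (x v)

lemma CokMap_smul (c : k) {φ : A →ₗ[k] B} (hφ : Equivar ρA ρB φ) (x : D.Cok ρA) :
    CokMap D (hφ.smul c) x = c • CokMap D hφ x := by
  induction x using Submodule.Quotient.induction_on with
  | H x =>
    rw [CokMap_mk, CokMap_mk, ← Submodule.Quotient.mk_smul]
    congr 1
    funext v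
    exact H2c_smul c (hφ.res (D.loc v)) (x v)

lemma CokMap_zero (x : D.Cok ρA) : CokMap D (Equivar.zero (ρA := ρA) (ρB := ρB)) x = 0 := by
  induction x using Submodule.Quotient.induction_on with
  | H x =>
    rw [CokMap_mk]
    have : P2map D (Equivar.zero (ρA := ρA) (ρB := ρB)) x = 0 := by
      funext v
      exact H2c_zero (x v)
    rw [this, Submodule.Quotient.mk_zero]

lemma CokMap_surjective {φ : A →ₗ[k] B} (hφ : Equivar ρA ρB φ)
    (h : ∀ v, Function.Surjective (H2c (D.lev v) (hφ.res (D.loc v)))) :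
    Function.Surjective (CokMap D hφ) := by
  intro y
  induction y using Submodule.Quotient.induction_on with
  | H y =>
    choose x hx using fun v => h v (y v)
    exact ⟨Submodule.Quotient.mk x, by rw [CokMap_mk]; congr 1; funext v; exact hx v⟩

open Classical in
/-- the map from the local group at `v` to the cokernel -/
noncomputable def J (ρA : Representation k G A) (v : D.ι) :
    H2 (D.lev v) (D.rv ρA v) →ₗ[k] D.Cok ρA :=
  (Submodule.mkQ _) ∘ₗ (LinearMap.single k (fun v => H2 (D.lev v) (D.rv ρA v)) v)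

open Classical in
lemma J_apply (v : D.ι) (x : H2 (D.lev v) (D.rv ρA v)) :
    J D ρA v x = Submodule.Quotient.mk (Pi.single v x) := rfl

lemma CokMap_J {φ : A →ₗ[k] B} (hφ : Equivar ρA ρB φ) (v : D.ι)
    (x : H2 (D.lev v) (D.rv ρA v)) :
    CokMap D hφ (J D ρA v x) = J D ρB v (H2c (D.lev v) (hφ.res (D.loc v)) x) := by
  classical
  rw [J_apply, J_apply, CokMap_mk]
  congr 1
  funext w
  rw [P2map_apply]
  by_cases h : w = v
  · subst h
    rw [Pi.single_eq_same, Pi.single_eq_same]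
  · rw [Pi.single_eq_of_ne h, Pi.single_eq_of_ne h, map_zero]

open Classical in
lemma J_eq_zero_iff (v : D.ι) (x : H2 (D.lev v) (D.rv ρA v)) :
    J D ρA v x = 0 ↔ ∃ z, D.loc2 ρA z = Pi.single v x := by
  rw [J_apply, Submodule.Quotient.mk_eq_zero, LinearMap.mem_range]

end Cok

/-! ## Fourier analysis on `G / ker χ` -/

section Four

variable {k G : Type} [Field k] [Group G] (χ : G →* kˣ)

/-- the permutation representation on `G / U` -/
abbrev XU (k : Type) [CommRing k] {G : Type} [Group G] (U : Subgroup G) :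
    Representation k G (G ⧸ U → k) := funRep (G ⧸ U) (Representation.trivial k G k)

lemma triv_apply {k G : Type*} [CommRing k] [Group G] (g : G) (a : k) :
    Representation.trivial k G k g a = a := rfl

/-- the character as a function on the quotient -/
noncomputable def chib (x : G ⧸ χ.ker) : kˣ := QuotientGroup.kerLift χ x

lemma chib_mk (g : G) : chib χ (g : G ⧸ χ.ker) = χ g := QuotientGroup.kerLift_mk χ g

lemma chib_smul (g : G) (x : G ⧸ χ.ker) : chib χ (g • x) = χ g * chib χ x := by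
  induction x using QuotientGroup.induction_on with
  | H a =>
    rw [MulAction.Quotient.smul_mk, chib_mk, chib_mk]
    exact map_mul χ g a

lemma chib_injective : Function.Injective (chib χ) := QuotientGroup.kerLift_injective χ

variable [Fintype (G ⧸ χ.ker)]

/-- `π_i f = ∑ χ(x)^i f(x)` -/
noncomputable def fpi (i : ℕ) : (G ⧸ χ.ker → k) →ₗ[k] k where
  toFun f := ∑ x, ((chib χ x) ^ i : kˣ) * f x
  map_add' f g := by
    rw [← Finset.sum_add_distrib]
    exact Finset.sum_congr rfl fun x _ => by rw [Pi.add_apply, mul_add]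
  map_smul' c f := by
    rw [RingHom.id_apply, smul_eq_mul, Finset.mul_sum]
    exact Finset.sum_congr rfl fun x _ => by rw [Pi.smul_apply, smul_eq_mul]; ring

omit [Fintype (G ⧸ χ.ker)] in
/-- `s_i a = (x ↦ χ(x)^{-i} a)` -/
noncomputable def fsi (i : ℕ) : k →ₗ[k] (G ⧸ χ.ker → k) where
  toFun a x := (((chib χ x) ^ i)⁻¹ : kˣ) * a
  map_add' a b := by funext x; simp [mul_add]
  map_smul' c a := by funext x; simp only [smul_eq_mul, RingHom.id_apply, Pi.smul_apply]; ring

lemma fpi_apply (i : ℕ) (f : G ⧸ χ.ker → k) :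
    fpi χ i f = ∑ x, ((chib χ x) ^ i : kˣ) * f x := rfl

omit [Fintype (G ⧸ χ.ker)] in
lemma fsi_apply (i : ℕ) (a : k) (x : G ⧸ χ.ker) :
    fsi χ i a x = (((chib χ x) ^ i)⁻¹ : kˣ) * a := rfl

lemma equivar_fpi (i : ℕ) : Equivar (XU k χ.ker) (mu (χ ^ i)) (fpi χ i) := by
  intro g f
  rw [mu_apply, fpi_apply, fpi_apply, Finset.mul_sum,
    ← Equiv.sum_comp (MulAction.toPerm g : Equiv.Perm (G ⧸ χ.ker))]
  refine Finset.sum_congr rfl fun x _ => ?_
  rw [MulAction.toPerm_apply, chib_smul, funRep_apply, inv_smul_smul,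
    triv_apply, mul_pow, Units.val_mul, MonoidHom.pow_apply, mul_assoc]

omit [Fintype (G ⧸ χ.ker)] in
lemma equivar_fsi (i : ℕ) : Equivar (mu (χ ^ i)) (XU k χ.ker) (fsi χ i) := by
  intro g a
  funext x
  rw [mu_apply, fsi_apply, funRep_apply, fsi_apply, triv_apply]
  have : chib χ (g⁻¹ • x) = (χ g)⁻¹ * chib χ x := by rw [chib_smul, map_inv]
  rw [this, mul_pow, mul_inv, inv_pow, inv_inv, MonoidHom.pow_apply, Units.val_mul]
  ring

lemma fpi_comp_fsi_self (i : ℕ) :
    fpi χ i ∘ₗ fsi χ i = ((Fintype.card (G ⧸ χ.ker) : ℕ) : k) • LinearMap.id := by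
  refine LinearMap.ext fun a => ?_
  rw [LinearMap.comp_apply, fpi_apply, LinearMap.smul_apply, LinearMap.id_apply, smul_eq_mul,
    Finset.sum_congr rfl (g := fun _ => a) (fun x _ => ?_), Finset.sum_const, Finset.card_univ,
    nsmul_eq_mul]
  rw [fsi_apply, ← mul_assoc, ← Units.val_mul, mul_inv_cancel, Units.val_one, one_mul]

lemma fpi_comp_fsi_of_ne {i j : ℕ} (h : χ ^ i ≠ χ ^ j) :
    fpi χ i ∘ₗ fsi χ j = 0 := by
  refine LinearMap.ext fun a => ?_
  rw [LinearMap.comp_apply, fpi_apply, LinearMap.zero_apply]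
  let f : (G ⧸ χ.ker) →* kˣ := (QuotientGroup.kerLift χ) ^ i * ((QuotientGroup.kerLift χ) ^ j)⁻¹
  have hf : f ≠ 1 := by
    intro hf1
    apply h
    ext g
    have := DFunLike.congr_fun hf1 (g : G ⧸ χ.ker)
    rw [MonoidHom.one_apply] at this
    have h2 : (QuotientGroup.kerLift χ (g : G ⧸ χ.ker)) ^ i *
      ((QuotientGroup.kerLift χ (g : G ⧸ χ.ker)) ^ j)⁻¹ = 1 := this
    rw [QuotientGroup.kerLift_mk, mul_inv_eq_one] at h2
    rw [MonoidHom.pow_apply, MonoidHom.pow_apply, h2]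
  have h0 := sum_hom_units_eq_zero ((Units.coeHom k).comp f) (by
    intro hf1
    apply hf
    exact MonoidHom.ext fun x => Units.ext (DFunLike.congr_fun hf1 x))
  have h3 : ∀ x : G ⧸ χ.ker, ((chib χ x) ^ i : kˣ) * fsi χ j a x =
      (((Units.coeHom k).comp f) x) * a := by
    intro x
    rw [fsi_apply, ← mul_assoc, ← Units.val_mul]
    rfl
  rw [Finset.sum_congr rfl fun x _ => h3 x, ← Finset.sum_mul, h0, zero_mul]

/-- Fourier inversion -/
lemma sum_fsi_fpi [Finite k] :
    ∑ i ∈ Finset.range (Nat.card kˣ), fsi χ i ∘ₗ fpi χ i =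
      ((Nat.card kˣ : ℕ) : k) • LinearMap.id := by
  classical
  refine LinearMap.ext fun f => ?_
  funext x
  rw [LinearMap.sum_apply, Finset.sum_apply, LinearMap.smul_apply, LinearMap.id_apply,
    Pi.smul_apply, smul_eq_mul]
  have h1 : ∀ i ∈ Finset.range (Nat.card kˣ), (fsi χ i ∘ₗ fpi χ i) f x =
      ∑ y, (((chib χ y / chib χ x) ^ i : kˣ) : k) * f y := by
    intro i _
    rw [LinearMap.comp_apply, fsi_apply, fpi_apply, Finset.mul_sum]
    refine Finset.sum_congr rfl fun y _ => ?_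
    rw [← mul_assoc, ← Units.val_mul, div_pow, div_eq_mul_inv, mul_comm]
    rw [mul_comm (f y)]
    congr 2
    rw [mul_comm]
  rw [Finset.sum_congr rfl h1, Finset.sum_comm]
  have h2 : ∀ y, ∑ i ∈ Finset.range (Nat.card kˣ),
      (((chib χ y / chib χ x) ^ i : kˣ) : k) * f y =
      if y = x then ((Nat.card kˣ : ℕ) : k) * f x else 0 := by
    intro y
    rw [← Finset.sum_mul]
    split_ifs with h
    · subst h
      simp
    · have hne : ((chib χ y / chib χ x : kˣ) : k) ≠ 1 := by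
        rw [ne_eq, Units.val_eq_one, div_eq_one]
        exact fun h' => h (chib_injective χ h')
      have h3 := mul_geom_sum ((chib χ y / chib χ x : kˣ) : k) (Nat.card kˣ)
      have h4 : ((chib χ y / chib χ x : kˣ) : k) ^ (Nat.card kˣ) = 1 := by
        rw [← Units.val_pow_eq_pow_val, pow_card_eq_one', Units.val_one]
      rw [h4, sub_self] at h3
      have h5 : ∑ i ∈ Finset.range (Nat.card kˣ), ((chib χ y / chib χ x : kˣ) : k) ^ i = 0 :=
        (mul_eq_zero.1 h3).resolve_left (sub_ne_zero.2 hne)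
      have h6 : ∑ i ∈ Finset.range (Nat.card kˣ), (((chib χ y / chib χ x) ^ i : kˣ) : k) = 0 := by
        rw [← h5]
        exact Finset.sum_congr rfl fun i _ => by rw [Units.val_pow_eq_pow_val]
      rw [h6, zero_mul]
  rw [Finset.sum_congr rfl fun y _ => h2 y, Finset.sum_ite_eq' Finset.univ x, if_pos (Finset.mem_univ x)]

end Four

/-! ## evaluation maps (Shapiro) -/

section Ev

variable {k G : Type} [CommRing k] [Group G] {𝓛 : Levels G} (D : LD 𝓛)

variable (k) in
/-- evaluation at the point `g U` of a class of the local group with coefficients in the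
functions on `G / U`. -/
def evP (U : Subgroup G) (v : D.ι) (g : G) :
    H2 (D.lev v) (D.rv (XU k U) v) →ₗ[k]
      H2 ((D.lev v).onSub (dec (D.loc v) U g))
        (Representation.trivial k (dec (D.loc v) U g) k) :=
  H2map (f := (dec (D.loc v) U g).subtype)
    (φ := LinearMap.proj (R := k) (φ := fun _ : G ⧸ U => k) ((g : G ⧸ U)))
    ((D.lev v).cont_onSub _) (by
      intro h a
      have h1 : g⁻¹ * D.loc v h * g ∈ U := h.2
      have h2 : (D.loc v (h : D.Gv v))⁻¹ • ((g : G) : G ⧸ U) = ((g : G) : G ⧸ U) := by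
        rw [MulAction.Quotient.smul_mk, QuotientGroup.eq]
        have := U.inv_mem (U.inv_mem h1)
        simpa [mul_assoc] using this
      rw [triv_apply]
      show a ((D.loc v (h : D.Gv v))⁻¹ • ((g : G) : G ⧸ U)) = a (g : G ⧸ U)
      rw [h2])

variable (k 𝓛) in
/-- evaluation at the point `U` of a class with coefficients in the functions on `G / U`. -/
def evG (U : Subgroup G) :
    H2 𝓛 (XU k U) →ₗ[k] H2 (𝓛.onSub U) (Representation.trivial k U k) :=
  H2map (f := U.subtype)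
    (φ := LinearMap.proj (R := k) (φ := fun _ : G ⧸ U => k) (((1 : G) : G ⧸ U)))
    (𝓛.cont_onSub _) (by
      intro h a
      have h2 : ((h : G))⁻¹ • ((1 : G) : G ⧸ U) = ((1 : G) : G ⧸ U) := by
        rw [MulAction.Quotient.smul_mk, QuotientGroup.eq]
        simp
      rw [triv_apply]
      show a (((h : G))⁻¹ • ((1 : G) : G ⧸ U)) = a ((1 : G) : G ⧸ U)
      rw [h2])

variable (k) in
/-- The facts (Shapiro / Mackey) about the permutation module on `G / U` used in the Fourier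
argument. -/
structure Shap (U : Subgroup G) : Prop where
  ext : ∀ (v : D.ι) (ξ : H2 (D.lev v) (D.rv (XU k U) v)), (∀ g, evP k D U v g ξ = 0) → ξ = 0
  surj : ∀ (v : D.ι) (g₀ : G) (y : H2 ((D.lev v).onSub (dec (D.loc v) U g₀))
      (Representation.trivial k (dec (D.loc v) U g₀) k)),
    ∃ ξ : H2 (D.lev v) (D.rv (XU k U) v), evP k D U v g₀ ξ = y ∧
      ∀ g, place (D.loc v) U g ≠ place (D.loc v) U g₀ → evP k D U v g ξ = 0
  mackey : ∀ (z : H2 𝓛 (XU k U)) (v : D.ι) (g : G),
    evP k D U v g (H2res (D.cont v) (XU k U) z) = D.locU2 k U v g (evG k 𝓛 U z)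

lemma evP_eq (U : Subgroup G) (v : D.ι) (g : G) (ξ : H2 (D.lev v) (D.rv (XU k U) v)) :
    evP k D U v g ξ = evd2 (Representation.trivial k G k) (D.lev v) (D.loc v) U g ξ := rfl

lemma evP_eq_zero_of_place {U : Subgroup G} {v : D.ι} {g g' : G}
    (h : place (D.loc v) U g = place (D.loc v) U g')
    {ξ : H2 (D.lev v) (D.rv (XU k U) v)} (hξ : evP k D U v g ξ = 0) : evP k D U v g' ξ = 0 :=
  evd2_eq_zero_of_place (Representation.trivial k G k) h hξ

/-- the Shapiro / Mackey facts hold -/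
theorem shap {U : Subgroup G} (hU : 𝓛.op U) : Shap k D U where
  ext v ξ h := (eq_zero_iff_evd2 (Representation.trivial k G k) (D.cont v) hU ξ).2 h
  surj v g₀ y := by
    classical
    choose rep hrep using place_surjective (D.loc v) U
    let rep' : Places (D.loc v) U → G := Function.update rep (place (D.loc v) U g₀) g₀
    have hrep' : ∀ w, place (D.loc v) U (rep' w) = w := by
      intro w
      by_cases hw : w = place (D.loc v) U g₀
      · subst hw
        simp only [rep', Function.update_self]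
      · simp only [rep', Function.update_of_ne hw]
        exact hrep w
    have hg₀ : rep' (place (D.loc v) U g₀) = g₀ := Function.update_self _ _ _
    obtain ⟨-, hb⟩ := evP2_bijective (Representation.trivial k G k) (D.cont v) hU rep' hrep'
    have hex : ∃ y' : H2 ((D.lev v).onSub (dec (D.loc v) U (rep' (place (D.loc v) U g₀))))
        (((Representation.trivial k G k).comp (D.loc v)).comp
          (dec (D.loc v) U (rep' (place (D.loc v) U g₀))).subtype), HEq y' y := by
      rw [hg₀]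
      exact ⟨y, HEq.rfl⟩
    obtain ⟨y', hy'⟩ := hex
    obtain ⟨ξ, hξ⟩ := hb (Pi.single (place (D.loc v) U g₀) y')
    have h1 := congrFun hξ (place (D.loc v) U g₀)
    rw [Pi.single_eq_same] at h1
    refine ⟨ξ, ?_, fun g hg => ?_⟩
    · have h2 : evd2 (Representation.trivial k G k) (D.lev v) (D.loc v) U
          (rep' (place (D.loc v) U g₀)) ξ = y' := h1
      have h3 : HEq (evd2 (Representation.trivial k G k) (D.lev v) (D.loc v) U
          (rep' (place (D.loc v) U g₀)) ξ) y := by rw [h2]; exact hy'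
      rw [hg₀] at h3
      exact eq_of_heq h3
    · have h2 := congrFun hξ (place (D.loc v) U g)
      rw [Pi.single_eq_of_ne hg] at h2
      have h3 : evP k D U v (rep' (place (D.loc v) U g)) ξ = 0 := h2
      exact evP_eq_zero_of_place D (hrep' _) h3
  mackey z v g := by
    rw [evP_eq]
    exact evd2_H2res (Representation.trivial k G k) (D.cont v) U g z

lemma evG_bijective {U : Subgroup G} (hU : 𝓛.op U) : Function.Bijective (evG k 𝓛 U) :=
  (shapU2 (Representation.trivial k G k) hU).bijective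

end Ev

section Main

variable {k G : Type} [Field k] [Finite k] [Group G] {𝓛 : Levels G} {D : LD 𝓛}
  {χ : G →* kˣ}

omit [Finite k] in
/-- a class of `H²(G_v, X)` concentrated in one place which dies in the cokernel vanishes -/
lemma eq_zero_of_J_eq_zero (hA : ArithInput D χ) (hS : Shap k D χ.ker) (v : D.ι) (g₀ : G)
    (ξ : H2 (D.lev v) (D.rv (XU k χ.ker) v))
    (hξ : ∀ g, place (D.loc v) χ.ker g ≠ place (D.loc v) χ.ker g₀ → evP k D χ.ker v g ξ = 0)
    (hJ : J D (XU k χ.ker) v ξ = 0) : ξ = 0 := by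
  classical
  rw [J_eq_zero_iff] at hJ
  obtain ⟨z, hz⟩ := hJ
  have hzv : H2res (D.cont v) (XU k χ.ker) z = ξ := by
    have := congrFun hz v
    rwa [LD.loc2_apply, Pi.single_eq_same] at this
  have hzw : ∀ w, w ≠ v → H2res (D.cont w) (XU k χ.ker) z = 0 := by
    intro w hw
    have := congrFun hz w
    rwa [LD.loc2_apply, Pi.single_eq_of_ne hw] at this
  apply hS.ext
  intro g
  by_cases hg : place (D.loc v) χ.ker g = place (D.loc v) χ.ker g₀
  · rw [← hzv, hS.mackey]
    apply hA.iso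
    intro w g' hw
    rw [← hS.mackey]
    by_cases hwv : w = v
    · subst hwv
      rw [hzv]
      exact hξ g' (by rw [← hg]; exact hw rfl)
    · rw [hzw w hwv, map_zero]
  · exact hξ g hg

omit [Finite k] in
/-- at a totally ramified place, the map to the cokernel is injective -/
lemma J_injective_of_transitive (hA : ArithInput D χ) (hS : Shap k D χ.ker) (v : D.ι)
    (hv : ∀ g : G, ∃ x : D.Gv v, χ (D.loc v x) = χ g) :
    Function.Injective (J D (XU k χ.ker) v) := by
  rw [← LinearMap.ker_eq_bot, LinearMap.ker_eq_bot']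
  intro ξ hξ
  refine eq_zero_of_J_eq_zero hA hS v 1 ξ (fun g hg => absurd ?_ hg) hξ
  rw [place_eq_iff]
  obtain ⟨x, hx⟩ := hv g⁻¹
  refine ⟨x, (D.loc v x * g)⁻¹, ?_, by group⟩
  rw [MonoidHom.mem_ker, map_inv, map_mul, hx, map_inv, inv_mul_cancel, inv_one]

end Main

/-! ## cardinalities -/

section Card

lemma natCard_units_ne_zero (k : Type*) [Field k] [Finite k] : ((Nat.card kˣ : ℕ) : k) ≠ 0 := by
  classical
  have := Fintype.ofFinite k
  rw [Nat.card_eq_fintype_card, Fintype.card_units, Nat.cast_sub Fintype.card_pos,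
    FiniteField.cast_card_eq_zero]
  simp

lemma card_quot_ne_zero {k G : Type*} [Field k] [Finite k] [Group G] (χ : G →* kˣ)
    [Fintype (G ⧸ χ.ker)] : ((Fintype.card (G ⧸ χ.ker) : ℕ) : k) ≠ 0 := by
  have h1 : Nat.card (G ⧸ χ.ker) ∣ Nat.card kˣ :=
    Subgroup.card_dvd_of_injective (QuotientGroup.kerLift χ) (QuotientGroup.kerLift_injective χ)
  obtain ⟨c, hc⟩ := h1
  intro h0
  apply natCard_units_ne_zero k
  rw [hc, Nat.card_eq_fintype_card, Nat.cast_mul, h0, zero_mul]

end Card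

section Inj

variable {k G A B C : Type} [Field k] [Group G] [AddCommGroup A] [Module k A]
  [AddCommGroup B] [Module k B] {𝓛 : Levels G}
  {ρA : Representation k G A} {ρB : Representation k G B}

lemma H2c_comp_eq_smul {φ : A →ₗ[k] B} {ψ : B →ₗ[k] A} (hφ : Equivar ρA ρB φ)
    (hψ : Equivar ρB ρA ψ) {c : k} (h : ψ ∘ₗ φ = c • LinearMap.id) (x : H2 𝓛 ρA) :
    H2c 𝓛 hψ (H2c 𝓛 hφ x) = c • x :=
  calc H2c 𝓛 hψ (H2c 𝓛 hφ x) = H2c 𝓛 (hψ.comp hφ) x := (H2c_comp hψ hφ x).symm
   _ = H2c 𝓛 ((Equivar.id ρA).smul c) x := LinearMap.congr_fun (H2c_congr h) x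
   _ = c • H2c 𝓛 (Equivar.id ρA) x := H2c_smul c (Equivar.id ρA) x
   _ = c • x := congrArg (c • ·) (H2c_id x)

lemma CokMap_comp_eq_smul (D : LD 𝓛) {φ : A →ₗ[k] B} {ψ : B →ₗ[k] A} (hφ : Equivar ρA ρB φ)
    (hψ : Equivar ρB ρA ψ) {c : k} (h : ψ ∘ₗ φ = c • LinearMap.id) (x : D.Cok ρA) :
    CokMap D hψ (CokMap D hφ x) = c • x :=
  calc CokMap D hψ (CokMap D hφ x) = CokMap D (hψ.comp hφ) x := (CokMap_comp D hψ hφ x).symm
   _ = CokMap D ((Equivar.id ρA).smul c) x := LinearMap.congr_fun (CokMap_congr D h) x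
   _ = c • CokMap D (Equivar.id ρA) x := CokMap_smul D c (Equivar.id ρA) x
   _ = c • x := congrArg (c • ·) (CokMap_id D x)

lemma CokMap_comp_eq_zero (D : LD 𝓛) {φ : A →ₗ[k] B} {ψ : B →ₗ[k] A} (hφ : Equivar ρA ρB φ)
    (hψ : Equivar ρB ρA ψ) (h : ψ ∘ₗ φ = 0) (x : D.Cok ρA) :
    CokMap D hψ (CokMap D hφ x) = 0 :=
  calc CokMap D hψ (CokMap D hφ x) = CokMap D (hψ.comp hφ) x := (CokMap_comp D hψ hφ x).symm
   _ = CokMap D (Equivar.zero (ρA := ρA) (ρB := ρA)) x := LinearMap.congr_fun (CokMap_congr D h) x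
   _ = 0 := CokMap_zero D x

lemma H2c_injective_of_comp {φ : A →ₗ[k] B} {ψ : B →ₗ[k] A} (hφ : Equivar ρA ρB φ)
    (hψ : Equivar ρB ρA ψ) {c : k} (hc : c ≠ 0) (h : ψ ∘ₗ φ = c • LinearMap.id) :
    Function.Injective (H2c 𝓛 hφ) := by
  rw [← LinearMap.ker_eq_bot, LinearMap.ker_eq_bot']
  intro x hx
  have h1 := H2c_comp_eq_smul hφ hψ h x
  rw [hx, map_zero] at h1
  exact (smul_eq_zero.1 h1.symm).resolve_left hc

lemma CokMap_injective_of_comp (D : LD 𝓛) {φ : A →ₗ[k] B} {ψ : B →ₗ[k] A} (hφ : Equivar ρA ρB φ)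
    (hψ : Equivar ρB ρA ψ) {c : k} (hc : c ≠ 0) (h : ψ ∘ₗ φ = c • LinearMap.id) :
    Function.Injective (CokMap D hφ) := by
  rw [← LinearMap.ker_eq_bot, LinearMap.ker_eq_bot']
  intro x hx
  have h1 := CokMap_comp_eq_smul D hφ hψ h x
  rw [hx, map_zero] at h1
  exact (smul_eq_zero.1 h1.symm).resolve_left hc

end Inj

section Main2

variable {k G : Type} [Field k] [Finite k] [Group G] {𝓛 : Levels G} {D : LD 𝓛}
  {χ : G →* kˣ}

omit [Finite k] in
lemma equivar_fsi_one : Equivar (mu χ) (XU k χ.ker) (fsi χ 1) := by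
  have h := equivar_fsi χ 1
  rwa [pow_one] at h

omit [Finite k] in
lemma equivar_fpi_one [Fintype (G ⧸ χ.ker)] : Equivar (XU k χ.ker) (mu χ) (fpi χ 1) := by
  have h := equivar_fpi χ 1
  rwa [pow_one] at h

/-- `C(μ)` is one dimensional -/
theorem finrank_Cok_mu (hA : ArithInput D χ) (hS : Shap k D χ.ker)
    (hfin : Module.Finite k (D.Cok (XU k χ.ker))) (hcok : finrank k (D.Cok (XU k χ.ker)) ≤ 1) :
    Module.Finite k (D.Cok (mu χ)) ∧ finrank k (D.Cok (mu χ)) = 1 ∧
      finrank k (D.Cok (XU k χ.ker)) = 1 := by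
  have hfi := 𝓛.finiteIndex hA.open_ker
  have : Fintype (G ⧸ χ.ker) := χ.ker.fintypeQuotientOfFiniteIndex
  have hinj : Function.Injective (CokMap D (equivar_fsi_one (χ := χ))) :=
    CokMap_injective_of_comp D equivar_fsi_one equivar_fpi_one (card_quot_ne_zero χ)
      (fpi_comp_fsi_self χ 1)
  have hfin' : Module.Finite k (D.Cok (mu χ)) := Module.Finite.of_injective _ hinj
  have hle : finrank k (D.Cok (mu χ)) ≤ finrank k (D.Cok (XU k χ.ker)) :=
    LinearMap.finrank_le_finrank_of_injective hinj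
  obtain ⟨v, hv, hnt⟩ := hA.tot_ram
  have hJX := J_injective_of_transitive hA hS v hv
  have hnt0 : Nontrivial (H2 (D.lev v) (D.rv (mu χ) v)) := hnt
  obtain ⟨y, hy⟩ := exists_ne (0 : H2 (D.lev v) (D.rv (mu χ) v))
  have h1 : J D (mu χ) v y ≠ 0 := by
    intro h0
    have h2 : CokMap D (equivar_fsi_one (χ := χ)) (J D (mu χ) v y) = 0 := by rw [h0, map_zero]
    rw [CokMap_J] at h2
    have h3 := (LinearMap.ker_eq_bot'.1 (LinearMap.ker_eq_bot.2 hJX)) _ h2
    have h4 : Function.Injective (H2c (D.lev v) ((equivar_fsi_one (χ := χ)).res (D.loc v))) :=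
      H2c_injective_of_comp _ (equivar_fpi_one.res (D.loc v)) (card_quot_ne_zero χ)
        (fpi_comp_fsi_self χ 1)
    exact hy ((LinearMap.ker_eq_bot'.1 (LinearMap.ker_eq_bot.2 h4)) _ h3)
  have hnt' : Nontrivial (D.Cok (mu χ)) := ⟨_, _, h1⟩
  have hpos : 0 < finrank k (D.Cok (mu χ)) := finrank_pos
  exact ⟨hfin', by omega, by omega⟩

/-- `C(μ^i) = 0` if `χ^i ≠ χ` -/
lemma subsingleton_Cok_mu_pow (hA : ArithInput D χ) (hS : Shap k D χ.ker)
    (hfin : Module.Finite k (D.Cok (XU k χ.ker))) (hcok : finrank k (D.Cok (XU k χ.ker)) ≤ 1)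
    {i : ℕ} (hi : χ ^ i ≠ χ) : Subsingleton (D.Cok (mu (χ ^ i))) := by
  obtain ⟨hf1, hf2, hf3⟩ := finrank_Cok_mu hA hS hfin hcok
  have hfi := 𝓛.finiteIndex hA.open_ker
  have : Fintype (G ⧸ χ.ker) := χ.ker.fintypeQuotientOfFiniteIndex
  have hinj : Function.Injective (CokMap D (equivar_fsi χ i)) :=
    CokMap_injective_of_comp D (equivar_fsi χ i) (equivar_fpi χ i) (card_quot_ne_zero χ)
      (fpi_comp_fsi_self χ i)
  have hinj1 : Function.Injective (CokMap D (equivar_fsi_one (χ := χ))) :=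
    CokMap_injective_of_comp D equivar_fsi_one equivar_fpi_one (card_quot_ne_zero χ)
      (fpi_comp_fsi_self χ 1)
  by_contra hns
  rw [not_subsingleton_iff_nontrivial] at hns
  have hfin' : Module.Finite k (D.Cok (mu (χ ^ i))) := Module.Finite.of_injective _ hinj
  have hpos : 0 < finrank k (D.Cok (mu (χ ^ i))) := finrank_pos
  have hsurj : Function.Surjective (CokMap D (equivar_fsi χ i)) := by
    rw [← LinearMap.range_eq_top]
    apply Submodule.eq_top_of_finrank_eq
    have := LinearMap.finrank_range_of_inj hinj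
    have h2 := Submodule.finrank_le (LinearMap.range (CokMap D (equivar_fsi χ i)))
    omega
  have hnt : Nontrivial (D.Cok (mu χ)) := nontrivial_of_finrank_pos (R := k) (by omega)
  obtain ⟨y, hy⟩ := exists_ne (0 : D.Cok (mu χ))
  obtain ⟨z, hz⟩ := hsurj (CokMap D (equivar_fsi_one (χ := χ)) y)
  have h1 : CokMap D (equivar_fpi_one (χ := χ)) (CokMap D (equivar_fsi χ i) z) = 0 := by
    have h0 : fpi χ 1 ∘ₗ fsi χ i = 0 := fpi_comp_fsi_of_ne χ (by rw [pow_one]; exact hi.symm)
    calc CokMap D (equivar_fpi_one (χ := χ)) (CokMap D (equivar_fsi χ i) z)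
        = CokMap D ((equivar_fpi_one (χ := χ)).comp (equivar_fsi χ i)) z :=
          (CokMap_comp D _ _ z).symm
      _ = CokMap D (Equivar.zero (ρA := mu (χ ^ i)) (ρB := mu χ)) z :=
          LinearMap.congr_fun (CokMap_congr D h0) z
      _ = 0 := CokMap_zero D z
  rw [hz, CokMap_comp_eq_smul D equivar_fsi_one equivar_fpi_one (fpi_comp_fsi_self χ 1)] at h1
  exact hy ((smul_eq_zero.1 h1).resolve_left (card_quot_ne_zero χ))

omit [Finite k] in
lemma J_sum {A B : Type} [AddCommGroup A] [Module k A] [AddCommGroup B] [Module k B]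
    {ρA : Representation k G A} {ρB : Representation k G B} (v : D.ι) {ι : Type} (s : Finset ι)
    {φ : ι → A →ₗ[k] B} (hφ : ∀ i, Equivar ρA ρB (φ i)) (x : H2 (D.lev v) (D.rv ρA v)) :
    J D ρB v (H2c (D.lev v) ((Equivar.sum s fun i _ => hφ i).res (D.loc v)) x) =
      ∑ i ∈ s, J D ρB v (H2c (D.lev v) ((hφ i).res (D.loc v)) x) := by
  have h1 : H2c (D.lev v) ((Equivar.sum s fun i _ => hφ i).res (D.loc v)) x =
      ∑ i ∈ s, H2c (D.lev v) ((hφ i).res (D.loc v)) x :=
    H2c_sum (ρA := D.rv ρA v) (ρB := D.rv ρB v) s (fun i => (hφ i).res (D.loc v)) x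
  rw [h1, map_sum]

/-- the map `J_v` for `μ` is nonzero at every place -/
lemma exists_J_ne_zero (hA : ArithInput D χ) (hS : Shap k D χ.ker)
    (hfin : Module.Finite k (D.Cok (XU k χ.ker))) (hcok : finrank k (D.Cok (XU k χ.ker)) ≤ 1)
    (v : D.ι) : ∃ y, J D (mu χ) v y ≠ 0 := by
  have hfi := 𝓛.finiteIndex hA.open_ker
  have : Fintype (G ⧸ χ.ker) := χ.ker.fintypeQuotientOfFiniteIndex
  -- a nonzero class at the place of `1`
  have hle : dec (D.loc v) χ.ker 1 ≤ (χ.comp (D.loc v)).ker := by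
    intro x hx
    rw [mem_dec] at hx
    rw [MonoidHom.mem_ker, MonoidHom.comp_apply]
    simpa using hx
  have h1 := hA.loc_h2 v _ (op_dec (D.cont v) hA.open_ker 1) hle
  have hnt : Nontrivial (H2 ((D.lev v).onSub (dec (D.loc v) χ.ker 1))
      (Representation.trivial k (dec (D.loc v) χ.ker 1) k)) :=
    nontrivial_of_finrank_pos (R := k) (by omega)
  obtain ⟨y, hy⟩ := exists_ne (0 : H2 ((D.lev v).onSub (dec (D.loc v) χ.ker 1))
      (Representation.trivial k (dec (D.loc v) χ.ker 1) k))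
  obtain ⟨ξ, hξ1, hξ2⟩ := hS.surj v 1 y
  have hξ : ξ ≠ 0 := by
    rintro rfl
    exact hy (by rw [← hξ1, map_zero])
  have hJ : J D (XU k χ.ker) v ξ ≠ 0 := fun h =>
    hξ (eq_zero_of_J_eq_zero hA hS v 1 ξ hξ2 h)
  -- Fourier decomposition
  have hsum := J_sum (D := D) v (Finset.range (Nat.card kˣ))
    (fun i => (equivar_fsi χ i).comp (equivar_fpi χ i)) ξ
  have hL : J D (XU k χ.ker) v (H2c (D.lev v) ((Equivar.sum (Finset.range (Nat.card kˣ))
      fun i _ => (equivar_fsi χ i).comp (equivar_fpi χ i)).res (D.loc v)) ξ) =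
      ((Nat.card kˣ : ℕ) : k) • J D (XU k χ.ker) v ξ := by
    rw [← map_smul]
    congr 1
    exact (LinearMap.congr_fun (H2c_congr
      (hψ := (Equivar.id (D.rv (XU k χ.ker) v)).smul ((Nat.card kˣ : ℕ) : k))
      (sum_fsi_fpi χ)) ξ).trans ((H2c_smul _ (Equivar.id (D.rv (XU k χ.ker) v)) ξ).trans
        (congrArg _ (H2c_id ξ)))
  rw [hL] at hsum
  have hne : ((Nat.card kˣ : ℕ) : k) • J D (XU k χ.ker) v ξ ≠ 0 :=
    smul_ne_zero (natCard_units_ne_zero k) hJ
  rw [hsum] at hne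
  obtain ⟨i, -, hi⟩ := Finset.exists_ne_zero_of_sum_ne_zero hne
  have h2 : J D (XU k χ.ker) v (H2c (D.lev v)
      (((equivar_fsi χ i).comp (equivar_fpi χ i)).res (D.loc v)) ξ) =
      CokMap D (equivar_fsi χ i) (J D (mu (χ ^ i)) v
        (H2c (D.lev v) ((equivar_fpi χ i).res (D.loc v)) ξ)) := by
    rw [CokMap_J]
    congr 1
    exact H2c_comp ((equivar_fsi χ i).res (D.loc v)) ((equivar_fpi χ i).res (D.loc v)) ξ
  rw [h2] at hi
  have h3 : ∃ y, J D (mu (χ ^ i)) v y ≠ 0 := by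
    refine ⟨H2c (D.lev v) ((equivar_fpi χ i).res (D.loc v)) ξ, fun h0 => hi ?_⟩
    rw [h0, map_zero]
  by_cases hχ : χ ^ i = χ
  · rw [hχ] at h3
    exact h3
  · have := subsingleton_Cok_mu_pow hA hS hfin hcok hχ
    obtain ⟨y, hy⟩ := h3
    exact absurd (Subsingleton.elim _ _) hy

/-- `dim H²(G_v, μ) ≤ 1` -/
lemma finrank_H2_mu_le (hA : ArithInput D χ) (v : D.ι)
    (hSh : Function.Injective (evG k (D.lev v) (χ.comp (D.loc v)).ker)) :
    Module.Finite k (H2 (D.lev v) (mu (χ.comp (D.loc v)))) ∧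
      finrank k (H2 (D.lev v) (mu (χ.comp (D.loc v)))) ≤ 1 := by
  have hop : (D.lev v).op (χ.comp (D.loc v)).ker := by
    rw [← MonoidHom.comap_ker]
    exact D.cont v _ hA.open_ker
  have hfi := (D.lev v).finiteIndex hop
  have : Fintype (D.Gv v ⧸ (χ.comp (D.loc v)).ker) :=
    (χ.comp (D.loc v)).ker.fintypeQuotientOfFiniteIndex
  have hinj : Function.Injective (H2c (D.lev v) (equivar_fsi_one (χ := χ.comp (D.loc v)))) :=
    H2c_injective_of_comp equivar_fsi_one equivar_fpi_one (card_quot_ne_zero _)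
      (fpi_comp_fsi_self _ 1)
  have hf := hA.loc_fin2 v _ hop le_rfl
  have h1 := hA.loc_h2 v _ hop le_rfl
  have hinj' : Function.Injective ((evG k (D.lev v) (χ.comp (D.loc v)).ker) ∘ₗ
      (H2c (D.lev v) (equivar_fsi_one (χ := χ.comp (D.loc v))))) := hSh.comp hinj
  exact ⟨Module.Finite.of_injective _ hinj',
    (LinearMap.finrank_le_finrank_of_injective hinj').trans h1.le⟩

/-- **F5a** : `C(μ)` is one dimensional and every `H²(G_v, μ) → C(μ)` is bijective. -/
theorem J_bijective (hA : ArithInput D χ) (hS : Shap k D χ.ker)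
    (hfin : Module.Finite k (D.Cok (XU k χ.ker))) (hcok : finrank k (D.Cok (XU k χ.ker)) ≤ 1)
    (v : D.ι) (hSh : Function.Injective (evG k (D.lev v) (χ.comp (D.loc v)).ker)) :
    Function.Bijective (J D (mu χ) v) := by
  obtain ⟨hf1, hf2, hf3⟩ := finrank_Cok_mu hA hS hfin hcok
  obtain ⟨hg1, hg2⟩ := finrank_H2_mu_le hA v hSh
  obtain ⟨y, hy⟩ := exists_J_ne_zero hA hS hfin hcok v
  have hrange : LinearMap.range (J D (mu χ) v) = ⊤ := by
    apply Submodule.eq_top_of_finrank_eq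
    have h1 : 0 < finrank k (LinearMap.range (J D (mu χ) v)) := by
      rw [Module.finrank_pos_iff_exists_ne_zero]
      exact ⟨⟨J D (mu χ) v y, LinearMap.mem_range_self _ _⟩, fun h => hy (congrArg Subtype.val h)⟩
    have h2 := Submodule.finrank_le (LinearMap.range (J D (mu χ) v))
    omega
  have hsurj : Function.Surjective (J D (mu χ) v) := LinearMap.range_eq_top.1 hrange
  have hfinH : Module.Finite k (H2 (D.lev v) (D.rv (mu χ) v)) := hg1
  refine ⟨?_, hsurj⟩
  have hge : finrank k (D.Cok (mu χ)) ≤ finrank k (H2 (D.lev v) (D.rv (mu χ) v)) :=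
    LinearMap.finrank_le_finrank_of_surjective hsurj
  have heq : finrank k (H2 (D.lev v) (D.rv (mu χ) v)) = finrank k (D.Cok (mu χ)) := by
    have : finrank k (H2 (D.lev v) (D.rv (mu χ) v)) ≤ 1 := hg2
    omega
  exact (LinearMap.injective_iff_surjective_of_finrank_eq_finrank heq).2 hsurj

end Main2

end Fermat.Agent.H65
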