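import Mathlib
import Fermat.Agent.H65Fourier

set_option autoImplicit false
set_option maxSynthPendingDepth 3

/-!
# S55, F5a: dimensions for the permutation modules, sums over fibres
-/

namespace Fermat.Agent.H65

open Module Fermat.Agent.H55

/-! ## dimensions -/

section Dim

variable {k G : Type} [Field k] [Group G] {𝓛 : Levels G} (D : LD 𝓛) {U : Subgroup G}

/-- local cohomology of `X_U` -/
lemma finrank_H2_rv_XU (hU : 𝓛.op U) (v : D.ι)
    (hfin : ∀ g, Module.Finite k (H2 ((D.lev v).onSub (dec (D.loc v) U g))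
      (Representation.trivial k (dec (D.loc v) U g) k)))
    (h1 : ∀ g, finrank k (H2 ((D.lev v).onSub (dec (D.loc v) U g))
      (Representation.trivial k (dec (D.loc v) U g) k)) = 1) :
    Module.Finite k (H2 (D.lev v) (D.rv (XU k U) v)) ∧
      finrank k (H2 (D.lev v) (D.rv (XU k U) v)) = nPl (D.loc v) U := by
  have := finite_coset hU
  have hfi : Finite (Places (D.loc v) U) := inferInstance
  have := Fintype.ofFinite (Places (D.loc v) U)
  choose rep hrep using place_surjective (D.loc v) U
  let e := shapP2 (Representation.trivial k G k) (D.cont v) hU rep hrep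
  have hfin' : ∀ w : Places (D.loc v) U, Module.Finite k
      (H2 ((D.lev v).onSub (dec (D.loc v) U (rep w)))
        (((Representation.trivial k G k).comp (D.loc v)).comp
          (dec (D.loc v) U (rep w)).subtype)) := fun w => hfin (rep w)
  have h1' : ∀ w : Places (D.loc v) U, finrank k
      (H2 ((D.lev v).onSub (dec (D.loc v) U (rep w)))
        (((Representation.trivial k G k).comp (D.loc v)).comp
          (dec (D.loc v) U (rep w)).subtype)) = 1 := fun w => h1 (rep w)
  refine ⟨Module.Finite.equiv e.symm, ?_⟩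
  rw [e.finrank_eq, Module.finrank_pi_fintype, Finset.sum_congr rfl fun w _ => h1' w,
    Finset.sum_const, Finset.card_univ, smul_eq_mul, mul_one, nPl, Nat.card_eq_fintype_card]

/-- the kernel of localisation for `X_U` is `Ш²(U)` -/
lemma map_ker_loc2_XU (hU : 𝓛.op U) :
    (LinearMap.ker (D.loc2 (XU k U))).map
      ((LinearEquiv.ofBijective (evG k 𝓛 U) (evG_bijective hU)) :
        H2 𝓛 (XU k U) →ₗ[k] H2 (𝓛.onSub U) (Representation.trivial k U k)) = D.ShaU2 k U := by
  have hS := shap (k := k) D hU
  have key : ∀ z, z ∈ LinearMap.ker (D.loc2 (XU k U)) ↔ evG k 𝓛 U z ∈ D.ShaU2 k U := by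
    intro z
    rw [LD.mem_ShaU2, LinearMap.mem_ker]
    constructor
    · intro h v g
      rw [← hS.mackey]
      have h1 : H2res (D.cont v) (XU k U) z = 0 := congrFun h v
      rw [h1, map_zero]
    · intro h
      funext v
      exact hS.ext v _ fun g => by
        rw [LD.loc2_apply, hS.mackey]
        exact h v g
  ext y
  rw [Submodule.mem_map]
  constructor
  · rintro ⟨z, hz, rfl⟩
    exact (key z).1 hz
  · intro hy
    obtain ⟨z, hz⟩ := (evG_bijective hU (k := k)).2 y
    refine ⟨z, (key z).2 ?_, hz⟩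
    rw [hz]
    exact hy

lemma finrank_ker_loc2_XU (hU : 𝓛.op U) :
    finrank k (LinearMap.ker (D.loc2 (XU k U))) = finrank k (D.ShaU2 k U) := by
  rw [← map_ker_loc2_XU D hU, LinearEquiv.finrank_map_eq]

variable {D} {χ : G →* kˣ}

lemma dec_le_ker (hle : U ≤ χ.ker) (v : D.ι) (g : G) :
    dec (D.loc v) U g ≤ (χ.comp (D.loc v)).ker := by
  intro x hx
  rw [mem_dec] at hx
  have h1 := MonoidHom.mem_ker.1 (hle hx)
  rw [MonoidHom.mem_ker, MonoidHom.comp_apply]
  rw [map_mul, map_mul, map_inv, mul_comm, mul_inv_cancel_left] at h1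
  exact h1

/-- `P²(X_U)` has dimension the number of places -/
lemma finrank_P2_XU (hA : ArithInput D χ) (hU : 𝓛.op U) (hle : U ≤ χ.ker) :
    Module.Finite k (D.P2 (XU k U)) ∧ finrank k (D.P2 (XU k U)) = D.nPlaces U := by
  have h := fun v => finrank_H2_rv_XU (k := k) D hU v
    (fun g => hA.loc_fin2 v _ (op_dec (D.cont v) hU g) (dec_le_ker hle v g))
    (fun g => hA.loc_h2 v _ (op_dec (D.cont v) hU g) (dec_le_ker hle v g))
  have hf := fun v => (h v).1
  refine ⟨inferInstance, ?_⟩
  rw [Module.finrank_pi_fintype, Finset.sum_congr rfl fun v _ => (h v).2]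
  rfl

/-- **dimension formula for the cokernel of localisation for `X_U`** -/
theorem finrank_Cok_XU (hA : ArithInput D χ) (hU : 𝓛.op U) (hle : U ≤ χ.ker) :
    Module.Finite k (D.Cok (XU k U)) ∧
      finrank k (D.Cok (XU k U)) + finrank k (H2 (𝓛.onSub U) (Representation.trivial k U k)) =
        D.nPlaces U + finrank k (D.ShaU2 k U) := by
  obtain ⟨hf, hP⟩ := finrank_P2_XU hA hU hle
  have hf2 := hA.glob_fin2 U hU hle
  let e := LinearEquiv.ofBijective (evG k 𝓛 U) (evG_bijective hU)
  have hf3 : Module.Finite k (H2 𝓛 (XU k U)) := Module.Finite.equiv e.symm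
  refine ⟨inferInstance, ?_⟩
  have h1 := Submodule.finrank_quotient_add_finrank
    (LinearMap.range (D.loc2 (XU k U)) : Submodule k (D.P2 (XU k U)))
  have h2 := LinearMap.finrank_range_add_finrank_ker (D.loc2 (XU k U))
  rw [finrank_ker_loc2_XU D hU, e.finrank_eq] at h2
  rw [hP] at h1
  have h3 : finrank k (D.Cok (XU k U)) +
      finrank k (LinearMap.range (D.loc2 (XU k U))) = D.nPlaces U := h1
  omega

end Dim

/-! ## sum over fibres -/

section Fibre

variable {k G : Type} [CommRing k] [Group G] {𝓛 : Levels G} {U' U : Subgroup G}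

open Classical in
/-- sum over the fibres of `G / U' → G / U` -/
noncomputable def fsum [Fintype (G ⧸ U')] (h : U' ≤ U) : (G ⧸ U' → k) →ₗ[k] (G ⧸ U → k) where
  toFun f y := ∑ x, if Subgroup.quotientMapOfLE h x = y then f x else 0
  map_add' f g := by
    funext y
    rw [Pi.add_apply, ← Finset.sum_add_distrib]
    refine Finset.sum_congr rfl fun x _ => ?_
    split_ifs <;> simp
  map_smul' c f := by
    funext y
    rw [Pi.smul_apply, RingHom.id_apply, smul_eq_mul, Finset.mul_sum]
    refine Finset.sum_congr rfl fun x _ => ?_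
    split_ifs <;> simp

open Classical in
lemma fsum_apply [Fintype (G ⧸ U')] (h : U' ≤ U) (f : G ⧸ U' → k) (y : G ⧸ U) :
    fsum h f y = ∑ x, if Subgroup.quotientMapOfLE h x = y then f x else 0 := rfl

lemma quotientMapOfLE_smul (h : U' ≤ U) (g : G) (x : G ⧸ U') :
    Subgroup.quotientMapOfLE h (g • x) = g • Subgroup.quotientMapOfLE h x := by
  induction x using QuotientGroup.induction_on with
  | H a => rfl

lemma equivar_fsum [Fintype (G ⧸ U')] (h : U' ≤ U) :
    Equivar (XU k U') (XU k U) (fsum (k := k) h) := by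
  classical
  intro g f
  funext y
  rw [fsum_apply, funRep_apply, fsum_apply, triv_apply,
    ← Equiv.sum_comp (MulAction.toPerm g : Equiv.Perm (G ⧸ U'))]
  refine Finset.sum_congr rfl fun x _ => ?_
  rw [MulAction.toPerm_apply, funRep_apply, inv_smul_smul, triv_apply, quotientMapOfLE_smul]
  exact if_congr (smul_eq_iff_eq_inv_smul g) rfl rfl

lemma fsum_surjective [Fintype (G ⧸ U')] (h : U' ≤ U) :
    Function.Surjective (fsum (k := k) h) := by
  classical
  intro c
  have hs : Function.Surjective (Subgroup.quotientMapOfLE h) := by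
    intro y
    induction y using QuotientGroup.induction_on with
    | H a => exact ⟨(a : G ⧸ U'), rfl⟩
  choose σ hσ using hs
  refine ⟨fun x => if x = σ (Subgroup.quotientMapOfLE h x) then
    c (Subgroup.quotientMapOfLE h x) else 0, ?_⟩
  funext y
  rw [fsum_apply, Finset.sum_eq_single (σ y)]
  · rw [if_pos (hσ y), hσ y, if_pos rfl]
  · intro x _ hx
    split_ifs with h1 h2
    · rw [h1] at h2
      exact absurd h2 hx
    · rfl
    · rfl
  · intro hy
    exact absurd (Finset.mem_univ _) hy

end Fibre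

/-! ## the codimension is at most one for `X_{ker χ}` -/

section Main3

variable {k G : Type} [Field k] [Group G] {𝓛 : Levels G} {D : LD 𝓛} {χ : G →* kˣ}

/-- the cokernel of localisation for `X_U` is at most one dimensional -/
theorem finrank_Cok_XU_le (hA : ArithInput D χ) {U : Subgroup G} (hU : 𝓛.op U)
    (hRE : ∀ (v : D.ι) (U' : Subgroup G) (_ : 𝓛.op U') (h : U' ≤ U) [Fintype (G ⧸ U')],
      Function.Surjective (H2c (D.lev v) ((equivar_fsum (k := k) h).res (D.loc v)))) :
    Module.Finite k (D.Cok (XU k U)) ∧ finrank k (D.Cok (XU k U)) ≤ 1 := by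
  obtain ⟨U', hU', hle, hle', hc⟩ := hA.codim U hU
  have := finite_coset hU'
  have := Fintype.ofFinite (G ⧸ U')
  obtain ⟨hf, he⟩ := finrank_Cok_XU hA hU' hle'
  have hsurj : Function.Surjective (CokMap D (equivar_fsum (k := k) hle)) :=
    CokMap_surjective D _ fun v => hRE v U' hU' hle
  have h1 := LinearMap.finrank_le_finrank_of_surjective hsurj
  exact ⟨Module.Finite.of_surjective _ hsurj, by omega⟩

variable [Finite k]

/-- **F5a, final form** -/
theorem fourier (hA : ArithInput D χ)
    (hRE : ∀ (v : D.ι) (U' : Subgroup G) (_ : 𝓛.op U') (h : U' ≤ χ.ker) [Fintype (G ⧸ U')],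
      Function.Surjective (H2c (D.lev v) ((equivar_fsum (k := k) h).res (D.loc v)))) :
    Module.Finite k (D.Cok (mu χ)) ∧ finrank k (D.Cok (mu χ)) = 1 ∧
      ∀ v, Function.Bijective (J D (mu χ) v) := by
  obtain ⟨hfin, hcok⟩ := finrank_Cok_XU_le hA hA.open_ker hRE
  have hS := shap (k := k) D hA.open_ker
  obtain ⟨h1, h2, -⟩ := finrank_Cok_mu hA hS hfin hcok
  refine ⟨h1, h2, fun v => J_bijective hA hS hfin hcok v ?_⟩
  have hop : (D.lev v).op (χ.comp (D.loc v)).ker := by
    rw [← MonoidHom.comap_ker]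
    exact D.cont v _ hA.open_ker
  exact (evG_bijective hop).1

end Main3

end Fermat.Agent.H65
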