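import Mathlib
import Fermat.Agent.H55Level

/-!
# Cup products in degree (1,1) and extensions attached to 1-cocycles, for level cohomology
-/

set_option autoImplicit false

namespace Fermat.Agent.H75

open Fermat.Agent.H55

section cup

variable {k G A B C : Type*} [CommRing k] [Group G] [AddCommGroup A] [Module k A]
  [AddCommGroup B] [Module k B] [AddCommGroup C] [Module k C]

/-- equivariance of a bilinear pairing -/
def BiEquivar (ρA : Representation k G A) (ρB : Representation k G B)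
    (ρC : Representation k G C) (β : A →ₗ[k] B →ₗ[k] C) : Prop :=
  ∀ g a b, β (ρA g a) (ρB g b) = ρC g (β a b)

variable {ρA : Representation k G A} {ρB : Representation k G B} {ρC : Representation k G C}
  {β : A →ₗ[k] B →ₗ[k] C}

/-- the cup product on cochains -/
def cupC (ρB : Representation k G B) (β : A →ₗ[k] B →ₗ[k] C) :
    (G → A) →ₗ[k] (G → B) →ₗ[k] (G × G → C) :=
  LinearMap.mk₂ k (fun x y p => β (x p.1) (ρB p.1 (y p.2)))
    (fun x x' y => by funext p; simp)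
    (fun c x y => by funext p; simp)
    (fun x y y' => by funext p; simp)
    (fun c x y => by funext p; simp)

@[simp] lemma cupC_apply (x : G → A) (y : G → B) (p : G × G) :
    cupC ρB β x y p = β (x p.1) (ρB p.1 (y p.2)) := rfl

lemma cupC_mem_Z2 {𝓛 : Levels G} (hβ : BiEquivar ρA ρB ρC β) (hB : Smooth 𝓛 ρB)
    {x : G → A} {y : G → B} (hx : x ∈ Z1 𝓛 ρA) (hy : y ∈ Z1 𝓛 ρB) :
    cupC ρB β x y ∈ Z2 𝓛 ρC := by
  refine ⟨?_, fun g h j => ?_⟩
  · exact ((hx.1.fst.pair (hB.lc2_act hy.1)).comp' (fun q : A × B => β q.1 q.2))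
  · simp only [cupC_apply]
    rw [← hβ, hx.2, hy.2]
    simp only [map_add, LinearMap.add_apply, map_mul, Module.End.mul_apply]
    abel

lemma cupC_d0_left {𝓛 : Levels G} (hβ : BiEquivar ρA ρB ρC β)
    (a : A) {y : G → B} (hy : y ∈ Z1 𝓛 ρB) :
    d1 ρC (fun g => β a (y g)) = cupC ρB β (d0 ρA a) y := by
  have hβ' : ∀ g a b, ρC g (β a b) = β (ρA g a) (ρB g b) := fun g a b => (hβ g a b).symm
  funext p
  simp only [d1_apply, cupC_apply, d0_apply, hy.2 p.1 p.2, hβ', map_sub, map_add,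
    LinearMap.sub_apply]
  abel

lemma cupC_d0_right {𝓛 : Levels G} (hβ : BiEquivar ρA ρB ρC β)
    {x : G → A} (hx : x ∈ Z1 𝓛 ρA) (b : B) :
    d1 ρC (fun g => - β (x g) (ρB g b)) = cupC ρB β x (d0 ρB b) := by
  have hβ' : ∀ g a b, ρC g (β a b) = β (ρA g a) (ρB g b) := fun g a b => (hβ g a b).symm
  funext p
  simp only [d1_apply, cupC_apply, d0_apply, hx.2 p.1 p.2, hβ', map_sub, map_add,
    LinearMap.add_apply, map_neg, map_mul, Module.End.mul_apply]
  abel

/-- cup product on cocycles -/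
def cupZ {𝓛 : Levels G} (hβ : BiEquivar ρA ρB ρC β) (hB : Smooth 𝓛 ρB) :
    ↥(Z1 𝓛 ρA) →ₗ[k] ↥(Z1 𝓛 ρB) →ₗ[k] ↥(Z2 𝓛 ρC) :=
  LinearMap.mk₂ k (fun x y => ⟨cupC ρB β x y, cupC_mem_Z2 hβ hB x.2 y.2⟩)
    (fun x x' y => Subtype.ext (by simp))
    (fun c x y => Subtype.ext (by simp))
    (fun x y y' => Subtype.ext (by simp))
    (fun c x y => Subtype.ext (by simp))

/-- the cup product `H¹(A) × H¹(B) → H²(C)` -/
def cup11 {𝓛 : Levels G} (hβ : BiEquivar ρA ρB ρC β) (hB : Smooth 𝓛 ρB) :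
    H1 𝓛 ρA →ₗ[k] H1 𝓛 ρB →ₗ[k] H2 𝓛 ρC :=
  Submodule.liftQ _
    { toFun := fun x => Submodule.liftQ _ ((H2π 𝓛 ρC).comp (cupZ hβ hB x)) (by
        rintro ⟨y, hy⟩ ⟨b, hb⟩
        rw [LinearMap.mem_ker, LinearMap.comp_apply, H2π_eq_zero_iff]
        refine ⟨fun g => - β (x.1 g) (ρB g b), ?_, ?_⟩
        · obtain ⟨U, hU, h⟩ := hB b
          obtain ⟨V, hV, h'⟩ := x.2.1
          refine ⟨U ⊓ V, 𝓛.op_inf hU hV, fun g s hs => ?_⟩
          show - β (x.1 (g * s)) (ρB (g * s) b) = - β (x.1 g) (ρB g b)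
          rw [h' g s hs.2, map_mul, Module.End.mul_apply, h s hs.1]
        · rw [cupC_d0_right hβ x.2, hb]; rfl)
      map_add' := fun x x' => by
        ext y; simp
      map_smul' := fun c x => by
        ext y; simp } (by
    rintro ⟨x, hx⟩ ⟨a, ha⟩
    rw [LinearMap.mem_ker]
    ext y
    rw [LinearMap.coe_mk, AddHom.coe_mk]
    show H2π 𝓛 ρC (cupZ hβ hB ⟨x, hx⟩ y) = 0
    rw [H2π_eq_zero_iff]
    refine ⟨fun g => β a (y.1 g), y.2.1.comp' _, ?_⟩
    rw [cupC_d0_left hβ a y.2, ha]; rfl)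

lemma cup11_mk {𝓛 : Levels G} (hβ : BiEquivar ρA ρB ρC β) (hB : Smooth 𝓛 ρB)
    (x : ↥(Z1 𝓛 ρA)) (y : ↥(Z1 𝓛 ρB)) :
    cup11 hβ hB (H1π 𝓛 ρA x) (H1π 𝓛 ρB y) = H2π 𝓛 ρC (cupZ hβ hB x y) := rfl

end cup

section naturality

variable {k G H A B C : Type*} [CommRing k] [Group G] [Group H] [AddCommGroup A] [Module k A]
  [AddCommGroup B] [Module k B] [AddCommGroup C] [Module k C]
  {ρA : Representation k G A} {ρB : Representation k G B} {ρC : Representation k G C}
  {β : A →ₗ[k] B →ₗ[k] C}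

lemma BiEquivar.comp (hβ : BiEquivar ρA ρB ρC β) (f : H →* G) :
    BiEquivar (ρA.comp f) (ρB.comp f) (ρC.comp f) β := fun h a b => hβ (f h) a b

lemma smooth_comp {𝓛 : Levels G} {𝓜 : Levels H} {f : H →* G} (hf : Levels.Cont 𝓜 𝓛 f)
    (hB : Smooth 𝓛 ρB) : Smooth 𝓜 (ρB.comp f : Representation k H B) := fun b => by
  obtain ⟨U, hU, h⟩ := hB b
  exact ⟨_, hf U hU, fun s hs => h _ hs⟩

lemma H2res_cup11 {𝓛 : Levels G} {𝓜 : Levels H} {f : H →* G} (hf : Levels.Cont 𝓜 𝓛 f)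
    (hβ : BiEquivar ρA ρB ρC β) (hB : Smooth 𝓛 ρB) (x : H1 𝓛 ρA) (y : H1 𝓛 ρB) :
    H2res hf ρC (cup11 hβ hB x y)
      = cup11 (𝓛 := 𝓜) (hβ.comp f) (smooth_comp hf hB) (H1res hf ρA x) (H1res hf ρB y) := by
  obtain ⟨x, rfl⟩ := H1π_surjective 𝓛 ρA x
  obtain ⟨y, rfl⟩ := H1π_surjective 𝓛 ρB y
  rfl

end naturality

section ext

variable {k G M N : Type*} [CommRing k] [Group G] [AddCommGroup M] [Module k M]
  [AddCommGroup N] [Module k N]

/-- the representation on `Hom(N, M)` -/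
def homRep (ρN : Representation k G N) (ρM : Representation k G M) :
    Representation k G (N →ₗ[k] M) where
  toFun g :=
    { toFun := fun φ => (ρM g).comp (φ.comp (ρN g⁻¹))
      map_add' := fun φ ψ => by ext; simp
      map_smul' := fun c φ => by ext; simp }
  map_one' := by ext; simp
  map_mul' g h := by ext; simp

@[simp] lemma homRep_apply (ρN : Representation k G N) (ρM : Representation k G M) (g : G)
    (φ : N →ₗ[k] M) (n : N) : homRep ρN ρM g φ n = ρM g (φ (ρN g⁻¹ n)) := rfl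

lemma rho_inv_apply (ρN : Representation k G N) (g : G) (n : N) : ρN g⁻¹ (ρN g n) = n := by
  rw [← Module.End.mul_apply, ← map_mul, inv_mul_cancel, map_one, Module.End.one_apply]

lemma rho_apply_inv (ρN : Representation k G N) (g : G) (n : N) : ρN g (ρN g⁻¹ n) = n := by
  rw [← Module.End.mul_apply, ← map_mul, mul_inv_cancel, map_one, Module.End.one_apply]

/-- evaluation is equivariant -/
lemma biEquivar_eval (ρN : Representation k G N) (ρM : Representation k G M) :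
    BiEquivar (homRep ρN ρM) ρN ρM (LinearMap.id : (N →ₗ[k] M) →ₗ[k] (N →ₗ[k] M)) := by
  intro g φ n
  simp only [LinearMap.id_apply, homRep_apply, rho_inv_apply]

variable {𝓛 : Levels G} (ρN : Representation k G N) (ρM : Representation k G M)

/-- the extension `0 → M → M × N → N → 0` attached to a 1-cocycle with values in `Hom(N, M)` -/
def extRep (y : ↥(Z1 𝓛 (homRep ρN ρM))) : Representation k G (M × N) where
  toFun g :=
    { toFun := fun p => (ρM g p.1 + y.1 g (ρN g p.2), ρN g p.2)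
      map_add' := fun p q => by
        refine Prod.ext ?_ ?_
        · simp only [Prod.fst_add, Prod.snd_add, map_add]; abel
        · simp
      map_smul' := fun c p => by
        refine Prod.ext ?_ ?_
        · simp
        · simp }
  map_one' := by
    have h1 : y.1 1 = 0 := by
      have := y.2.2 1 1
      simpa using this
    ext p
    · simp
    · simp
    · simp [h1]
    · simp
  map_mul' g h := by
    have h1 := y.2.2 g h
    refine LinearMap.ext fun p => Prod.ext ?_ ?_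
    · simp only [LinearMap.coe_mk, AddHom.coe_mk, Module.End.mul_apply, map_mul, h1,
        LinearMap.add_apply, homRep_apply, map_add, rho_inv_apply]
      abel
    · simp only [LinearMap.coe_mk, AddHom.coe_mk, Module.End.mul_apply, map_mul]

@[simp] lemma extRep_apply (y : ↥(Z1 𝓛 (homRep ρN ρM))) (g : G) (p : M × N) :
    extRep ρN ρM y g p = (ρM g p.1 + y.1 g (ρN g p.2), ρN g p.2) := rfl

lemma equivar_inl (y : ↥(Z1 𝓛 (homRep ρN ρM))) :
    Equivar ρM (extRep ρN ρM y) (LinearMap.inl k M N) := fun g m => by simp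

lemma equivar_snd (y : ↥(Z1 𝓛 (homRep ρN ρM))) :
    Equivar (extRep ρN ρM y) ρN (LinearMap.snd k M N) := fun g p => by simp

lemma smooth_extRep [Module.Finite k N] (hM : Smooth 𝓛 ρM) (hN : Smooth 𝓛 ρN)
    (y : ↥(Z1 𝓛 (homRep ρN ρM))) : Smooth 𝓛 (extRep ρN ρM y) := by
  rintro ⟨m, n⟩
  obtain ⟨U, hU, h⟩ := hM m
  obtain ⟨V, hV, h'⟩ := hN n
  obtain ⟨W, hW, h''⟩ := y.2.1
  refine ⟨U ⊓ (V ⊓ W), 𝓛.op_inf hU (𝓛.op_inf hV hW), fun s hs => ?_⟩
  have h1 : y.1 1 = 0 := by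
    have := y.2.2 1 1
    simpa using this
  have h2 : y.1 s = 0 := by
    rw [← h1]; simpa using h'' 1 s hs.2.2
  simp [h s hs.1, h' s hs.2.1, h2]

/-- the connecting map of `0 → M → E_y → N → 0` is `x ↦ y ∪ x` (on cochains, for the
lift `g ↦ (0, x g)`) -/
lemma d1_ext (y : ↥(Z1 𝓛 (homRep ρN ρM))) {x : G → N} (hx : x ∈ Z1 𝓛 ρN) :
    d1 (extRep ρN ρM y) (fun g => ((0 : M), x g))
      = fun p => (cupC ρN (LinearMap.id : (N →ₗ[k] M) →ₗ[k] (N →ₗ[k] M)) y.1 x p, 0) := by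
  funext p
  refine Prod.ext ?_ ?_
  · simp
  · simp only [d1_apply, extRep_apply, hx.2 p.1 p.2, Prod.snd_add, Prod.snd_sub]
    abel

end ext

end Fermat.Agent.H75
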