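import Mathlib

/-!
# Dimension counting lemmas (S55)
-/

set_option autoImplicit false

namespace Fermat.Agent.H75

open Module

variable {k : Type*} [Field k]

/-- Counting form of the snake lemma: for
`A₁ → B₁ → C₁ → 0` and `0 → A₂ → B₂ → C₂ → 0` exact and vertical maps `a, b, c`,
`dim coker a + dim coker c ≤ dim ker c + dim coker b`. -/
theorem finrank_coker_snake {A₁ B₁ C₁ A₂ B₂ C₂ : Type*}
    [AddCommGroup A₁] [Module k A₁] [AddCommGroup B₁] [Module k B₁] [AddCommGroup C₁] [Module k C₁]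
    [AddCommGroup A₂] [Module k A₂] [AddCommGroup B₂] [Module k B₂] [AddCommGroup C₂] [Module k C₂]
    [FiniteDimensional k B₂]
    {i₁ : A₁ →ₗ[k] B₁} {q₁ : B₁ →ₗ[k] C₁} {i₂ : A₂ →ₗ[k] B₂} {q₂ : B₂ →ₗ[k] C₂}
    {a : A₁ →ₗ[k] A₂} {b : B₁ →ₗ[k] B₂} {c : C₁ →ₗ[k] C₂}
    [FiniteDimensional k (LinearMap.ker c)]
    (hab : i₂ ∘ₗ a = b ∘ₗ i₁) (hbc : q₂ ∘ₗ b = c ∘ₗ q₁)
    (h₁ : ∀ x, q₁ x = 0 → x ∈ LinearMap.range i₁) (hq₁ : Function.Surjective q₁)
    (hi₂ : Function.Injective i₂) (h₂ : LinearMap.range i₂ = LinearMap.ker q₂)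
    (hq₂ : Function.Surjective q₂) :
    finrank k (A₂ ⧸ LinearMap.range a) + finrank k (C₂ ⧸ LinearMap.range c) ≤
      finrank k (LinearMap.ker c) + finrank k (B₂ ⧸ LinearMap.range b) := by
  have hC₂ : FiniteDimensional k C₂ := Module.Finite.of_surjective q₂ hq₂
  have hA₂ : FiniteDimensional k A₂ := FiniteDimensional.of_injective i₂ hi₂
  -- ranks
  have ra := Submodule.finrank_quotient_add_finrank (LinearMap.range a)
  have rb := Submodule.finrank_quotient_add_finrank (LinearMap.range b)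
  have rc := Submodule.finrank_quotient_add_finrank (LinearMap.range c)
  -- dim B₂ = dim A₂ + dim C₂
  have hB : finrank k B₂ = finrank k A₂ + finrank k C₂ := by
    have h := LinearMap.finrank_range_add_finrank_ker q₂
    rw [← h₂, LinearMap.range_eq_top.2 hq₂, finrank_top, LinearMap.finrank_range_of_inj hi₂] at h
    omega
  -- rank b ≤ rank a + rank c + dim ker c
  obtain ⟨s, hs⟩ := LinearMap.exists_rightInverse_of_surjective q₁ (LinearMap.range_eq_top.2 hq₁)
  have hs' : ∀ x, q₁ (s x) = x := fun x => LinearMap.congr_fun hs x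
  let R := LinearMap.range b
  let f : R →ₗ[k] C₂ := q₂ ∘ₗ R.subtype
  have hf := LinearMap.finrank_range_add_finrank_ker f
  have hfr : LinearMap.range f = LinearMap.range c := by
    apply le_antisymm
    · rintro _ ⟨⟨_, ⟨x, rfl⟩⟩, rfl⟩
      exact ⟨q₁ x, by rw [← LinearMap.comp_apply, ← hbc]; rfl⟩
    · rintro _ ⟨y, rfl⟩
      obtain ⟨x, rfl⟩ := hq₁ y
      exact ⟨⟨b x, x, rfl⟩, by
        show q₂ (b x) = c (q₁ x)
        rw [← LinearMap.comp_apply, hbc]; rfl⟩
  have hle : (LinearMap.ker f).map R.subtype ≤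
      (LinearMap.range a).map i₂ ⊔ (LinearMap.ker c).map (b ∘ₗ s) := by
    rintro _ ⟨⟨_, ⟨x, rfl⟩⟩, hx, rfl⟩
    have hx' : c (q₁ x) = 0 := by
      rw [← LinearMap.comp_apply, ← hbc]; exact hx
    obtain ⟨y, hy⟩ := h₁ (x - s (q₁ x)) (by rw [map_sub, hs', sub_self])
    have h3 : b x = i₂ (a y) + b (s (q₁ x)) := by
      rw [← LinearMap.comp_apply i₂, hab, LinearMap.comp_apply, hy, map_sub, sub_add_cancel]
    show b x ∈ _
    rw [h3]
    exact Submodule.add_mem_sup ⟨_, ⟨y, rfl⟩, rfl⟩ ⟨q₁ x, hx', rfl⟩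
  have hker : finrank k (LinearMap.ker f) ≤
      finrank k (LinearMap.range a) + finrank k (LinearMap.ker c) := by
    calc finrank k (LinearMap.ker f)
        = finrank k ((LinearMap.ker f).map R.subtype) :=
          (Submodule.equivSubtypeMap R (LinearMap.ker f)).finrank_eq
      _ ≤ finrank k ↥((LinearMap.range a).map i₂ ⊔ (LinearMap.ker c).map (b ∘ₗ s)) :=
          Submodule.finrank_mono hle
      _ ≤ finrank k ((LinearMap.range a).map i₂) + finrank k ((LinearMap.ker c).map (b ∘ₗ s)) :=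
          Submodule.finrank_add_le_finrank_add_finrank _ _
      _ ≤ _ := Nat.add_le_add (Submodule.finrank_map_le _ _) (Submodule.finrank_map_le _ _)
  rw [hfr] at hf
  have : finrank k R = finrank k (LinearMap.range b) := rfl
  omega

/-- Right exactness of cokernels: if `A₂ → B₂ → C₂` is exact and `B₁ → C₁` is onto then
`coker a → coker b → coker c` is exact. -/
theorem range_mapQ_eq_ker {A₁ B₁ C₁ A₂ B₂ C₂ : Type*}
    [AddCommGroup A₁] [Module k A₁] [AddCommGroup B₁] [Module k B₁] [AddCommGroup C₁] [Module k C₁]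
    [AddCommGroup A₂] [Module k A₂] [AddCommGroup B₂] [Module k B₂] [AddCommGroup C₂] [Module k C₂]
    {q₁ : B₁ →ₗ[k] C₁} {i₂ : A₂ →ₗ[k] B₂} {q₂ : B₂ →ₗ[k] C₂}
    {a : A₁ →ₗ[k] A₂} {b : B₁ →ₗ[k] B₂} {c : C₁ →ₗ[k] C₂}
    (hi : LinearMap.range a ≤ (LinearMap.range b).comap i₂)
    (hq : LinearMap.range b ≤ (LinearMap.range c).comap q₂)
    (hbc : q₂ ∘ₗ b = c ∘ₗ q₁) (hq₁ : Function.Surjective q₁)
    (h₂ : LinearMap.range i₂ = LinearMap.ker q₂) :
    LinearMap.range (Submodule.mapQ (LinearMap.range a) (LinearMap.range b) i₂ hi)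
      = LinearMap.ker (Submodule.mapQ (LinearMap.range b) (LinearMap.range c) q₂ hq) := by
  apply le_antisymm
  · rintro _ ⟨x, rfl⟩
    obtain ⟨x, rfl⟩ := Submodule.Quotient.mk_surjective _ x
    rw [LinearMap.mem_ker, Submodule.mapQ_apply, Submodule.mapQ_apply]
    have : q₂ (i₂ x) = 0 := by
      rw [← LinearMap.mem_ker, ← h₂]; exact ⟨x, rfl⟩
    rw [this]; rfl
  · intro x hx
    obtain ⟨x, rfl⟩ := Submodule.Quotient.mk_surjective _ x
    rw [LinearMap.mem_ker, Submodule.mapQ_apply, Submodule.Quotient.mk_eq_zero] at hx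
    obtain ⟨y, hy⟩ := hx
    obtain ⟨z, rfl⟩ := hq₁ y
    have h1 : x - b z ∈ LinearMap.range i₂ := by
      rw [h₂, LinearMap.mem_ker, map_sub, ← hy, sub_eq_zero, ← LinearMap.comp_apply,
        ← LinearMap.comp_apply, hbc]
    obtain ⟨w, hw⟩ := h1
    refine ⟨Submodule.Quotient.mk w, ?_⟩
    rw [Submodule.mapQ_apply, Submodule.Quotient.eq]
    rw [hw]
    exact ⟨-z, by rw [map_neg]; abel⟩

theorem finrank_coker_le {A₁ B₁ C₁ A₂ B₂ C₂ : Type*}
    [AddCommGroup A₁] [Module k A₁] [AddCommGroup B₁] [Module k B₁] [AddCommGroup C₁] [Module k C₁]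
    [AddCommGroup A₂] [Module k A₂] [AddCommGroup B₂] [Module k B₂] [AddCommGroup C₂] [Module k C₂]
    [FiniteDimensional k A₂] [FiniteDimensional k B₂] [FiniteDimensional k C₂]
    {i₁ : A₁ →ₗ[k] B₁} {q₁ : B₁ →ₗ[k] C₁} {i₂ : A₂ →ₗ[k] B₂} {q₂ : B₂ →ₗ[k] C₂}
    {a : A₁ →ₗ[k] A₂} {b : B₁ →ₗ[k] B₂} {c : C₁ →ₗ[k] C₂}
    (hab : i₂ ∘ₗ a = b ∘ₗ i₁) (hbc : q₂ ∘ₗ b = c ∘ₗ q₁)
    (hq₁ : Function.Surjective q₁)
    (h₂ : LinearMap.range i₂ = LinearMap.ker q₂) :
    finrank k (B₂ ⧸ LinearMap.range b) ≤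
      finrank k (A₂ ⧸ LinearMap.range a) + finrank k (C₂ ⧸ LinearMap.range c) := by
  have hi : LinearMap.range a ≤ (LinearMap.range b).comap i₂ := by
    rintro _ ⟨x, rfl⟩
    exact ⟨i₁ x, by rw [← LinearMap.comp_apply, ← hab]; rfl⟩
  have hq : LinearMap.range b ≤ (LinearMap.range c).comap q₂ := by
    rintro _ ⟨x, rfl⟩
    exact ⟨q₁ x, by rw [← LinearMap.comp_apply, ← hbc]; rfl⟩
  have h := LinearMap.finrank_range_add_finrank_ker
    (Submodule.mapQ (LinearMap.range b) (LinearMap.range c) q₂ hq)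
  rw [← range_mapQ_eq_ker hi hq hbc hq₁ h₂] at h
  have h1 := LinearMap.finrank_range_le (Submodule.mapQ (LinearMap.range a) (LinearMap.range b) i₂ hi)
  have h2 := Submodule.finrank_le
    (LinearMap.range (Submodule.mapQ (LinearMap.range b) (LinearMap.range c) q₂ hq))
  omega

/-- Isotropy: if the pairing `P × P' → Λ` (`Λ` of dimension `≤ 1`) is nondegenerate on the right
and `A`, `B` are orthogonal, then `dim A + dim B ≤ dim P`. -/
theorem finrank_add_le_of_isotropic {P P' Λ : Type*} [AddCommGroup P] [Module k P]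
    [AddCommGroup P'] [Module k P'] [AddCommGroup Λ] [Module k Λ]
    [FiniteDimensional k P] [FiniteDimensional k P'] [FiniteDimensional k Λ] (hΛ : finrank k Λ ≤ 1)
    (β : P →ₗ[k] P' →ₗ[k] Λ) (hβ : ∀ y, (∀ x, β x y = 0) → y = 0)
    (A : Submodule k P) (B : Submodule k P') (hAB : ∀ x ∈ A, ∀ y ∈ B, β x y = 0) :
    finrank k A + finrank k B ≤ finrank k P := by
  let φ : B →ₗ[k] (P ⧸ A) →ₗ[k] Λ :=
    { toFun := fun y => Submodule.liftQ A (β.flip y) (fun x hx => hAB x hx y y.2)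
      map_add' := fun y y' => by ext x; exact map_add (β x) (y : P') (y' : P')
      map_smul' := fun c y => by ext x; exact map_smul (β x) c (y : P') }
  have hφ : Function.Injective φ := by
    rw [← LinearMap.ker_eq_bot, eq_bot_iff]
    intro y hy
    rw [LinearMap.mem_ker] at hy
    rw [Submodule.mem_bot]
    apply Subtype.ext
    apply hβ
    intro x
    exact LinearMap.congr_fun hy (Submodule.Quotient.mk x)
  have h1 := LinearMap.finrank_le_finrank_of_injective hφ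
  rw [Module.finrank_linearMap] at h1
  have h2 := Submodule.finrank_quotient_add_finrank A
  have h3 : finrank k (P ⧸ A) * finrank k Λ ≤ finrank k (P ⧸ A) * 1 := Nat.mul_le_mul_left _ hΛ
  omega

end Fermat.Agent.H75
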