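import Mathlib
import Fermat.Agent.H55Defs
import Fermat.Agent.H75Cup
import Fermat.Agent.H75Lin

/-!
# Extensions attached to 1-cocycles and local duality by dimension counting
-/

set_option autoImplicit false
set_option maxSynthPendingDepth 3

namespace Fermat.Agent.H75

open Fermat.Agent.H55 Module

section coeff

variable {k G A B : Type*} [CommRing k] [Group G] [AddCommGroup A] [Module k A]
  [AddCommGroup B] [Module k B] {𝓛 : Levels G} {ρA : Representation k G A}
  {ρB : Representation k G B} {φ : A →ₗ[k] B}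

lemma push1_mem (hφ : Equivar ρA ρB φ) (x : ↥(Z1 𝓛 ρA)) : (fun g => φ (x.1 g)) ∈ Z1 𝓛 ρB :=
  pp1_mem_Z1 (f := MonoidHom.id G) 𝓛.cont_id hφ x.2

lemma push2_mem (hφ : Equivar ρA ρB φ) (x : ↥(Z2 𝓛 ρA)) : (fun p => φ (x.1 p)) ∈ Z2 𝓛 ρB :=
  pp2_mem_Z2 (f := MonoidHom.id G) 𝓛.cont_id hφ x.2

lemma H1c_mk (hφ : Equivar ρA ρB φ) (x : ↥(Z1 𝓛 ρA)) :
    H1c 𝓛 hφ (H1π 𝓛 ρA x) = H1π 𝓛 ρB ⟨fun g => φ (x.1 g), push1_mem hφ x⟩ := rfl

lemma H2c_mk (hφ : Equivar ρA ρB φ) (x : ↥(Z2 𝓛 ρA)) :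
    H2c 𝓛 hφ (H2π 𝓛 ρA x) = H2π 𝓛 ρB ⟨fun p => φ (x.1 p), push2_mem hφ x⟩ := rfl

end coeff

section basics

variable {k G A B : Type*} [CommRing k] [Group G] [AddCommGroup A] [Module k A]
  [AddCommGroup B] [Module k B]

lemma biEquivar_dtw (χ : G →* kˣ) (ρ : Representation k G A) :
    BiEquivar (dtw χ ρ) ρ (mu χ) (LinearMap.id : Module.Dual k A →ₗ[k] Module.Dual k A) := by
  intro g f a
  rw [LinearMap.id_apply, LinearMap.id_apply, dtw_apply, rho_inv_apply, mu_apply]

lemma mem_invariants_dtw {χ : G →* kˣ} {ρ : Representation k G A} {f : Module.Dual k A} :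
    f ∈ (dtw χ ρ).invariants ↔ ∀ g a, f (ρ g a) = (χ g : k) * f a := by
  rw [Representation.mem_invariants]
  constructor
  · intro h g a
    have := LinearMap.congr_fun (h g) (ρ g a)
    rw [dtw_apply, rho_inv_apply] at this
    exact this.symm
  · intro h g
    ext a
    rw [dtw_apply, ← h, rho_apply_inv]

/-- `μ^r` -/
abbrev mus (χ : G →* kˣ) (r : ℕ) : Representation k G (Fin r → k) :=
  (Representation.trivial k G (Fin r → k)).twist χ

lemma mus_apply (χ : G →* kˣ) (r : ℕ) (g : G) (m : Fin r → k) :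
    mus χ r g m = (χ g : k) • m := by
  simp [mus, Representation.twist_apply_apply]

lemma smooth_mus {𝓛 : Levels G} {χ : G →* kˣ} (hχ : 𝓛.op χ.ker) (r : ℕ) :
    Smooth 𝓛 (mus χ r) := fun m => ⟨χ.ker, hχ, fun s hs => by
  rw [mus_apply, MonoidHom.mem_ker.1 hs, Units.val_one, one_smul]⟩

lemma smooth_mu {𝓛 : Levels G} {χ : G →* kˣ} (hχ : 𝓛.op χ.ker) :
    Smooth 𝓛 (mu χ) := fun m => ⟨χ.ker, hχ, fun s hs => by
  rw [mu_apply, MonoidHom.mem_ker.1 hs, Units.val_one, one_mul]⟩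

variable {𝓛 : Levels G} {χ : G →* kˣ} {ρA : Representation k G A} {ρB : Representation k G B}
  {β : A →ₗ[k] B →ₗ[k] k} (hβ : BiEquivar ρA ρB (mu χ) β) {r : ℕ}

/-- the cocycle with values in `Hom(B, μ^r)` attached to `r` cocycles with values in `A` -/
def extCocycle (y : Fin r → ↥(Z1 𝓛 ρA)) : ↥(Z1 𝓛 (homRep ρB (mus χ r))) :=
  ⟨fun g => LinearMap.pi fun i => β ((y i).1 g), by
    refine ⟨?_, fun g h => ?_⟩
    · exact (LC1.pi fun i => (y i).2.1).comp' (fun z : Fin r → A => LinearMap.pi fun i => β (z i))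
    · refine LinearMap.ext fun b => funext fun i => ?_
      have h1 : β (ρA g ((y i).1 h)) b = (χ g : k) * β ((y i).1 h) (ρB g⁻¹ b) := by
        have := hβ g ((y i).1 h) (ρB g⁻¹ b)
        rwa [rho_apply_inv, mu_apply] at this
      simp only [LinearMap.pi_apply, LinearMap.add_apply, Pi.add_apply, (y i).2.2 g h, map_add,
        homRep_apply, mus_apply, Pi.smul_apply, smul_eq_mul, h1]⟩

@[simp] lemma extCocycle_apply (y : Fin r → ↥(Z1 𝓛 ρA)) (g : G) (b : B) (i : Fin r) :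
    (extCocycle hβ y).1 g b i = β ((y i).1 g) b := rfl

/-- the extension `0 → μ^r → E_y → B → 0` -/
abbrev extE (y : Fin r → ↥(Z1 𝓛 ρA)) : Representation k G ((Fin r → k) × B) :=
  extRep ρB (mus χ r) (extCocycle hβ y)

lemma extE_apply (y : Fin r → ↥(Z1 𝓛 ρA)) (g : G) (p : (Fin r → k) × B) :
    extE hβ y g p = ((χ g : k) • p.1 + fun i => β ((y i).1 g) (ρB g p.2), ρB g p.2) := by
  refine Prod.ext ?_ rfl
  funext i
  simp [extRep_apply, mus_apply]

lemma smooth_extE (hχ : 𝓛.op χ.ker) (hB : Smooth 𝓛 ρB) (y : Fin r → ↥(Z1 𝓛 ρA)) :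
    Smooth 𝓛 (extE hβ y) := by
  rintro ⟨m, n⟩
  obtain ⟨U, hU, h⟩ := smooth_mus hχ r m
  obtain ⟨V, hV, h'⟩ := hB n
  obtain ⟨W, hW, h''⟩ := (extCocycle hβ y).2.1
  refine ⟨U ⊓ (V ⊓ W), 𝓛.op_inf hU (𝓛.op_inf hV hW), fun s hs => ?_⟩
  have h1 : (extCocycle hβ y).1 1 = 0 := by
    have := (extCocycle hβ y).2.2 1 1
    simpa using this
  have h2 : (extCocycle hβ y).1 s = 0 := by
    rw [← h1]; simpa using h'' 1 s hs.2.2
  rw [extRep_apply, h s hs.1, h' s hs.2.1, h2]
  simp

/-- the short exact sequence `0 → μ^r → E_y → B → 0` -/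
def sesE (hχ : 𝓛.op χ.ker) (hB : Smooth 𝓛 ρB) (y : Fin r → ↥(Z1 𝓛 ρA)) :
    SES 𝓛 (mus χ r) (extE hβ y) ρB where
  i := LinearMap.inl k _ _
  q := LinearMap.snd k _ _
  hi := equivar_inl _ _ _
  hq := equivar_snd _ _ _
  inj := LinearMap.inl_injective
  surj := LinearMap.snd_surjective
  exact := fun b => by
    constructor
    · intro h
      exact ⟨b.1, Prod.ext rfl h.symm⟩
    · rintro ⟨a, rfl⟩; rfl
  smooth := smooth_extE hβ hχ hB y

/-- if the cocycles `y i` become coboundaries along `f : H → G`, then the extension splits: there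
is an equivariant retraction `E_y → μ^r`. -/
lemma exists_retraction {H : Type*} [Group H] (f : H →* G) (y : Fin r → ↥(Z1 𝓛 ρA))
    (hy : ∀ i, ∃ a, ∀ h, (y i).1 (f h) = ρA (f h) a - a) :
    ∃ R : ((Fin r → k) × B) →ₗ[k] (Fin r → k),
      (∀ h p, R (extE hβ y (f h) p) = mus χ r (f h) (R p)) ∧ ∀ m, R (m, 0) = m := by
  choose a ha using hy
  refine ⟨(LinearMap.fst k _ _) + (LinearMap.pi fun i => β (a i)) ∘ₗ (LinearMap.snd k _ _),
    fun h p => ?_, fun m => ?_⟩
  · funext i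
    have h1 := hβ (f h) (a i) p.2
    rw [mu_apply] at h1
    rw [extE_apply, mus_apply]
    simp only [LinearMap.add_apply, LinearMap.fst_apply, LinearMap.comp_apply,
      LinearMap.snd_apply, Pi.add_apply, Pi.smul_apply, smul_eq_mul, LinearMap.pi_apply,
      ha i h, map_sub, LinearMap.sub_apply, h1, mul_add]
    abel
  · funext i
    simp

end basics

section invariants

variable {k G A B : Type*} [Field k] [Group G] [AddCommGroup A] [Module k A]
  [AddCommGroup B] [Module k B]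
variable {𝓛 : Levels G} {χ : G →* kˣ} {ρA : Representation k G A} {ρB : Representation k G B}
  {β : A →ₗ[k] B →ₗ[k] k} (hβ : BiEquivar ρA ρB (mu χ) β) {r : ℕ}

/-- if the classes of the `y i` are linearly independent in `H¹(A)` then
`Hom_G(E_y, μ) = Hom_G(B, μ)`. -/
lemma finrank_invariants_extE (hbij : Function.Bijective β) (y : Fin r → ↥(Z1 𝓛 ρA))
    (hy : LinearIndependent k (fun i => H1π 𝓛 ρA (y i))) :
    finrank k (dtw χ (extE hβ y)).invariants = finrank k (dtw χ ρB).invariants := by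
  let S : Module.Dual k B →ₗ[k] Module.Dual k ((Fin r → k) × B) :=
    (LinearMap.snd k (Fin r → k) B).dualMap
  have hS : ∀ φ b, S φ b = φ b.2 := fun φ b => rfl
  have hmem : ∀ φ ∈ (dtw χ ρB).invariants, S φ ∈ (dtw χ (extE hβ y)).invariants := by
    intro φ hφ
    rw [mem_invariants_dtw] at hφ ⊢
    intro g p
    rw [hS, hS, extE_apply]
    exact hφ g p.2
  let T : (dtw χ ρB).invariants →ₗ[k] (dtw χ (extE hβ y)).invariants := S.restrict hmem
  have hT : Function.Bijective T := by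
    constructor
    · intro φ ψ h
      apply Subtype.ext
      ext b
      have := congrArg (fun z => (z : (dtw χ (extE hβ y)).invariants).1 ((0 : Fin r → k), b)) h
      exact this
    · rintro ⟨F, hF⟩
      rw [mem_invariants_dtw] at hF
      -- write `F (m, b) = c · m + φ b`
      let c : Fin r → k := fun i => F (Pi.single i 1, 0)
      obtain ⟨a, ha⟩ := hbij.2 (F ∘ₗ LinearMap.inr k (Fin r → k) B)
      have ha' : ∀ b, F (0, b) = β a b := fun b => by rw [ha]; rfl
      have hFm : ∀ m : Fin r → k, F (m, 0) = ∑ i, c i * m i := by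
        intro m
        have h1 : ((m, 0) : (Fin r → k) × B) = ∑ i, m i • ((Pi.single i 1 : Fin r → k), (0 : B)) := by
          refine Prod.ext ?_ ?_
          · rw [Prod.fst_sum]
            funext j
            simp [Finset.sum_apply, Pi.single_apply]
          · rw [Prod.snd_sum]; simp
        rw [h1, map_sum]
        refine Finset.sum_congr rfl fun i _ => ?_
        rw [map_smul, smul_eq_mul, mul_comm]
      have hF2 : ∀ m b, F (m, b) = ∑ i, c i * m i + β a b := by
        intro m b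
        rw [← hFm, ← ha', ← map_add]; simp
      -- invariance
      have key : ∀ g, ∑ i, c i • (y i).1 g = d0 ρA a g := by
        intro g
        apply hbij.1
        ext b'
        have h1 := hF g (0, ρB g⁻¹ b')
        rw [extE_apply, hF2] at h1
        simp only [smul_zero, zero_add, rho_apply_inv] at h1
        rw [hF2] at h1
        simp only [Pi.zero_apply, mul_zero, Finset.sum_const_zero, zero_add] at h1
        have h2 := hβ g a (ρB g⁻¹ b')
        rw [rho_apply_inv, mu_apply] at h2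
        rw [← h2] at h1
        rw [map_sum, LinearMap.sum_apply]
        simp only [map_smul, LinearMap.smul_apply, smul_eq_mul, d0_apply, map_sub,
          LinearMap.sub_apply]
        linear_combination h1
      have hc : ∀ i, c i = 0 := by
        have h1 : ∑ i, c i • H1π 𝓛 ρA (y i) = 0 := by
          have h2 : ∑ i, c i • H1π 𝓛 ρA (y i) = H1π 𝓛 ρA (∑ i, c i • y i) := by
            rw [map_sum]; simp only [map_smul]
          rw [h2, H1π_eq_zero_iff]
          refine ⟨a, ?_⟩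
          funext g
          have h3 : ((∑ i, c i • y i : ↥(Z1 𝓛 ρA)) : G → A) g = ∑ i, c i • (y i).1 g := by
            simp
          rw [h3, key g]
        exact fun i => (Fintype.linearIndependent_iff.1 hy) c h1 i
      have hF3 : ∀ m b, F (m, b) = β a b := by
        intro m b
        rw [hF2]; simp [hc]
      refine ⟨⟨β a, ?_⟩, ?_⟩
      · rw [mem_invariants_dtw]
        intro g b
        have := hF g (0, b)
        rw [extE_apply, hF3, hF3] at this
        exact this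
      · apply Subtype.ext
        ext p
        · simp [T, S, hF3]
        · simp [T, S, hF3]
  exact (LinearEquiv.ofBijective T hT).finrank_eq.symm

end invariants

section duality

/-- Hypotheses of local duality: `H²` is right exact and `dim H²(ρ) = dim Hom_G(ρ, μ)`. -/
structure LocHyp {k G : Type} [Field k] [Group G] (𝓛 : Levels G) (χ : G →* kˣ) : Prop where
  op_ker : 𝓛.op χ.ker
  fin1 : ∀ {A : Type} [AddCommGroup A] [Module k A] [Module.Finite k A]
    (ρ : Representation k G A), Smooth 𝓛 ρ → Module.Finite k (H1 𝓛 ρ)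
  fin2 : ∀ {A : Type} [AddCommGroup A] [Module k A] [Module.Finite k A]
    (ρ : Representation k G A), Smooth 𝓛 ρ → Module.Finite k (H2 𝓛 ρ)
  surj : ∀ {A B C : Type} [AddCommGroup A] [Module k A] [AddCommGroup B] [Module k B]
    [AddCommGroup C] [Module k C] [Module.Finite k B] {ρA : Representation k G A}
    {ρB : Representation k G B} {ρC : Representation k G C} (E : SES 𝓛 ρA ρB ρC),
    Function.Surjective (H2c 𝓛 E.hq)
  h2 : ∀ {A : Type} [AddCommGroup A] [Module k A] [Module.Finite k A]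
    (ρ : Representation k G A), Smooth 𝓛 ρ →
    finrank k (H2 𝓛 ρ) = finrank k (dtw χ ρ).invariants

variable {k G A B : Type} [Field k] [Group G] [AddCommGroup A] [Module k A]
  [AddCommGroup B] [Module k B] [Module.Finite k A] [Module.Finite k B]
  {𝓛 : Levels G} {χ : G →* kˣ} {ρA : Representation k G A} {ρB : Representation k G B}
  {β : A →ₗ[k] B →ₗ[k] k} (hβ : BiEquivar ρA ρB (mu χ) β) {r : ℕ}

omit [Module.Finite k A] in
include hβ in
/-- `δ : H¹(B) → H²(μ)^r`, `x ↦ (y_i ∪ x)_i` is surjective if the `[y_i]` are independent. -/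
theorem exists_cup_eq (hL : LocHyp 𝓛 χ) (hB : Smooth 𝓛 ρB) (hbij : Function.Bijective β)
    (y : Fin r → ↥(Z1 𝓛 ρA)) (hy : LinearIndependent k (fun i => H1π 𝓛 ρA (y i)))
    (z : ↥(Z2 𝓛 (mus χ r))) :
    ∃ x : ↥(Z1 𝓛 ρB), ∀ i, ∃ m : G → k, LC1 𝓛 m ∧
      ∀ p, z.1 p i = cupC ρB β (y i).1 x.1 p + d1 (mu χ) m p := by
  let E := sesE hβ hL.op_ker hB y
  have hEs : Smooth 𝓛 (extE hβ y) := E.smooth
  have hf1 := hL.fin2 _ hEs
  have hf2 := hL.fin2 _ hB
  have hdim : finrank k (H2 𝓛 (extE hβ y)) = finrank k (H2 𝓛 ρB) := by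
    rw [hL.h2 _ hEs, hL.h2 _ hB, finrank_invariants_extE hβ hbij y hy]
  have hinj : Function.Injective (H2c 𝓛 E.hq) := by
    rw [LinearMap.injective_iff_surjective_of_finrank_eq_finrank hdim]
    exact hL.surj E
  have h0 : H2c 𝓛 E.hi (H2π 𝓛 (mus χ r) z) = 0 := by
    apply hinj
    rw [map_zero, H2c_mk, H2c_mk, H2π_eq_zero_iff]
    refine ⟨0, LC1.const 0, ?_⟩
    rw [map_zero]; rfl
  rw [H2c_mk, H2π_eq_zero_iff] at h0
  obtain ⟨w, hw, hwz⟩ := h0
  have hw1 : ∀ p : G × G, d1 (extE hβ y) w p = (z.1 p, 0) := fun p => by rw [hwz]; rfl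
  have hx : (fun g => (w g).2) ∈ Z1 𝓛 ρB := by
    have h2 : d1 ρB (fun g => (w g).2) = 0 := by
      funext p
      exact congrArg Prod.snd (hw1 p)
    exact ⟨hw.comp' Prod.snd, d1_eq_zero_iff.1 h2⟩
  refine ⟨⟨_, hx⟩, fun i => ⟨fun g => (w g).1 i, hw.comp' (fun q => q.1 i), fun p => ?_⟩⟩
  have h1 : (d1 (extE hβ y) w p).1 i = z.1 p i := congrFun (congrArg Prod.fst (hw1 p)) i
  rw [d1_apply, extE_apply] at h1
  rw [← h1, cupC_apply, d1_apply, mu_apply]
  simp only [Prod.fst_add, Prod.fst_sub, Pi.add_apply, Pi.sub_apply, Pi.smul_apply, smul_eq_mul]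
  abel

/-- the invariants of `Hom(μ, μ)` are one dimensional -/
lemma finrank_invariants_dtw_mu (χ : G →* kˣ) : finrank k (dtw χ (mu χ)).invariants = 1 := by
  have : (dtw χ (mu χ)).invariants = ⊤ := by
    rw [eq_top_iff]
    intro f _
    rw [mem_invariants_dtw]
    intro g a
    rw [mu_apply, ← smul_eq_mul, map_smul, smul_eq_mul]
  rw [this, finrank_top, Module.finrank_linearMap, finrank_self]

lemma LocHyp.finrank_mu (hL : LocHyp 𝓛 χ) : finrank k (H2 𝓛 (mu χ)) = 1 := by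
  rw [hL.h2 _ (smooth_mu hL.op_ker), finrank_invariants_dtw_mu]

include hβ in
/-- injectivity of `H¹(A) → Hom(H¹(B), H²(μ))` -/
theorem cup_injective (hL : LocHyp 𝓛 χ) (hA : Smooth 𝓛 ρA) (hB : Smooth 𝓛 ρB)
    (hbij : Function.Bijective β) :
    Function.Injective (cup11 (𝓛 := 𝓛) hβ hB) := by
  have hf1 := hL.fin1 _ hA
  let b := Module.finBasis k (H1 𝓛 ρA)
  choose y hy using fun i => H1π_surjective 𝓛 ρA (b i)
  have hyi : LinearIndependent k (fun i => H1π 𝓛 ρA (y i)) := by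
    simp only [hy]; exact b.linearIndependent
  -- a nonzero class in `H²(μ)`
  have hf : FiniteDimensional k (H2 𝓛 (mu χ)) := hL.fin2 _ (smooth_mu hL.op_ker)
  have hnt : Nontrivial (H2 𝓛 (mu χ)) := by
    apply Module.nontrivial_of_finrank_pos (R := k)
    rw [hL.finrank_mu]; exact one_pos
  obtain ⟨t, ht⟩ := exists_ne (0 : H2 𝓛 (mu χ))
  obtain ⟨t, rfl⟩ := H2π_surjective 𝓛 _ t
  rw [← LinearMap.ker_eq_bot, eq_bot_iff]
  intro Y hY
  rw [LinearMap.mem_ker] at hY
  rw [Submodule.mem_bot]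
  rw [← b.sum_repr Y]
  apply Finset.sum_eq_zero
  intro j _
  -- choose `x` with `y_j ∪ x = t` and `y_i ∪ x = 0` otherwise
  have hz : (fun p : G × G => (Pi.single j (t.1 p) : Fin _ → k)) ∈ Z2 𝓛 (mus χ _) := by
    refine ⟨t.2.1.comp' _, fun g h l => ?_⟩
    rw [mus_apply, ← Pi.single_smul, ← Pi.single_add, ← Pi.single_add, t.2.2 g h l, mu_apply]
    rfl
  obtain ⟨x, hx⟩ := exists_cup_eq hβ hL hB hbij y hyi ⟨_, hz⟩
  have hcup : ∀ i, cup11 (𝓛 := 𝓛) hβ hB (b i) (H1π 𝓛 ρB x) =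
      if i = j then H2π 𝓛 (mu χ) t else 0 := by
    intro i
    rw [← hy i, cup11_mk]
    obtain ⟨m, hm, hmp⟩ := hx i
    split_ifs with hij
    · subst hij
      rw [← sub_eq_zero, ← map_sub, H2π_eq_zero_iff]
      refine ⟨-m, hm.comp' (fun a => -a), ?_⟩
      funext p
      have h1 := hmp p
      simp only [Pi.single_eq_same] at h1
      rw [map_neg, Pi.neg_apply]
      show - d1 (mu χ) m p = cupC ρB β (y i).1 x.1 p - t.1 p
      rw [h1]; abel
    · rw [H2π_eq_zero_iff]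
      refine ⟨-m, hm.comp' (fun a => -a), ?_⟩
      funext p
      have h1 := hmp p
      simp only [Pi.single_eq_of_ne hij] at h1
      rw [map_neg, Pi.neg_apply]
      show - d1 (mu χ) m p = cupC ρB β (y i).1 x.1 p
      linear_combination h1
  have h1 : cup11 (𝓛 := 𝓛) hβ hB Y (H1π 𝓛 ρB x) = 0 := by rw [hY]; rfl
  rw [← b.sum_repr Y, map_sum, LinearMap.sum_apply] at h1
  simp only [map_smul, LinearMap.smul_apply, hcup, smul_ite, smul_zero, Finset.sum_ite_eq',
    Finset.mem_univ, if_true] at h1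
  rw [(smul_eq_zero.1 h1).resolve_right ht, zero_smul]

omit [Module.Finite k A] [Module.Finite k B] in
lemma BiEquivar.flip {C : Type} [AddCommGroup C] [Module k C] {ρC : Representation k G C}
    {γ : A →ₗ[k] B →ₗ[k] C} (h : BiEquivar ρA ρB ρC γ) : BiEquivar ρB ρA ρC γ.flip :=
  fun g b a => h g a b

lemma flip_bijective (hbij : Function.Bijective β) : Function.Bijective β.flip := by
  have hinj : Function.Injective β.flip := by
    rw [← LinearMap.ker_eq_bot, eq_bot_iff]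
    intro b hb
    rw [Submodule.mem_bot, ← Module.forall_dual_apply_eq_zero_iff k b]
    intro φ
    obtain ⟨a, rfl⟩ := hbij.2 φ
    exact LinearMap.congr_fun hb a
  refine ⟨hinj, ?_⟩
  rw [← LinearMap.injective_iff_surjective_of_finrank_eq_finrank]
  · exact hinj
  · have h1 := (LinearEquiv.ofBijective β hbij).finrank_eq
    rw [Module.finrank_linearMap, finrank_self, mul_one] at h1
    rw [Module.finrank_linearMap, finrank_self, mul_one, h1]

include hβ in
theorem finrank_H1_eq (hL : LocHyp 𝓛 χ) (hA : Smooth 𝓛 ρA) (hB : Smooth 𝓛 ρB)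
    (hbij : Function.Bijective β) : finrank k (H1 𝓛 ρA) = finrank k (H1 𝓛 ρB) := by
  have hf1 := hL.fin1 _ hA
  have hf2 := hL.fin1 _ hB
  have hf : FiniteDimensional k (H2 𝓛 (mu χ)) := hL.fin2 _ (smooth_mu hL.op_ker)
  apply le_antisymm
  · have := LinearMap.finrank_le_finrank_of_injective (cup_injective hβ hL hA hB hbij)
    rwa [Module.finrank_linearMap, hL.finrank_mu, mul_one] at this
  · have := LinearMap.finrank_le_finrank_of_injective
      (cup_injective hβ.flip hL hB hA (flip_bijective hbij))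
    rwa [Module.finrank_linearMap, hL.finrank_mu, mul_one] at this

include hβ in
/-- **Local duality**, left -/
theorem cup_bijective (hL : LocHyp 𝓛 χ) (hA : Smooth 𝓛 ρA) (hB : Smooth 𝓛 ρB)
    (hbij : Function.Bijective β) :
    Function.Bijective (cup11 (𝓛 := 𝓛) hβ hB) := by
  have hf1 := hL.fin1 _ hA
  have hf2 := hL.fin1 _ hB
  have hf : FiniteDimensional k (H2 𝓛 (mu χ)) := hL.fin2 _ (smooth_mu hL.op_ker)
  refine ⟨cup_injective hβ hL hA hB hbij, ?_⟩
  rw [← LinearMap.injective_iff_surjective_of_finrank_eq_finrank]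
  · exact cup_injective hβ hL hA hB hbij
  · rw [Module.finrank_linearMap, hL.finrank_mu, mul_one, finrank_H1_eq hβ hL hA hB hbij]

include hβ in
/-- **Local duality**, right nondegeneracy -/
theorem cup_flip_injective (hL : LocHyp 𝓛 χ) (hA : Smooth 𝓛 ρA) (hB : Smooth 𝓛 ρB)
    (hbij : Function.Bijective β) :
    Function.Injective (cup11 (𝓛 := 𝓛) hβ hB).flip := by
  have hf1 := hL.fin1 _ hA
  have hf2 := hL.fin1 _ hB
  have hf : FiniteDimensional k (H2 𝓛 (mu χ)) := hL.fin2 _ (smooth_mu hL.op_ker)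
  have hnt : Nontrivial (H2 𝓛 (mu χ)) := by
    apply Module.nontrivial_of_finrank_pos (R := k)
    rw [hL.finrank_mu]; exact one_pos
  obtain ⟨t, ht⟩ := exists_ne (0 : H2 𝓛 (mu χ))
  rw [← LinearMap.ker_eq_bot, eq_bot_iff]
  intro X hX
  rw [LinearMap.mem_ker] at hX
  rw [Submodule.mem_bot]
  rw [← Module.forall_dual_apply_eq_zero_iff k X]
  intro φ
  obtain ⟨Y, hY⟩ := (cup_bijective hβ hL hA hB hbij).2 (LinearMap.toSpanSingleton k _ t ∘ₗ φ)
  have h1 : cup11 (𝓛 := 𝓛) hβ hB Y X = 0 := LinearMap.congr_fun hX Y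
  rw [hY] at h1
  exact (smul_eq_zero.1 h1).resolve_right ht

include hβ in
/-- **Local duality**, right -/
theorem cup_flip_bijective (hL : LocHyp 𝓛 χ) (hA : Smooth 𝓛 ρA) (hB : Smooth 𝓛 ρB)
    (hbij : Function.Bijective β) :
    Function.Bijective (cup11 (𝓛 := 𝓛) hβ hB).flip := by
  have hf1 := hL.fin1 _ hA
  have hf2 := hL.fin1 _ hB
  have hf : FiniteDimensional k (H2 𝓛 (mu χ)) := hL.fin2 _ (smooth_mu hL.op_ker)
  refine ⟨cup_flip_injective hβ hL hA hB hbij, ?_⟩
  rw [← LinearMap.injective_iff_surjective_of_finrank_eq_finrank]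
  · exact cup_flip_injective hβ hL hA hB hbij
  · rw [Module.finrank_linearMap, hL.finrank_mu, mul_one, finrank_H1_eq hβ hL hA hB hbij]

end duality

section more

variable {k G H A B : Type*} [CommRing k] [Group G] [Group H] [AddCommGroup A] [Module k A]
  [AddCommGroup B] [Module k B] {𝓛 : Levels G} {𝓜 : Levels H} {χ : G →* kˣ}

lemma mu_comp (χ : G →* kˣ) (f : H →* G) : (mu χ).comp f = mu (χ.comp f) := rfl

lemma mus_comp (χ : G →* kˣ) (r : ℕ) (f : H →* G) : (mus χ r).comp f = mus (χ.comp f) r := rfl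

lemma dtw_comp (χ : G →* kˣ) (ρ : Representation k G A) (f : H →* G) :
    (dtw χ ρ).comp f = dtw (χ.comp f) (ρ.comp f : Representation k H A) := by
  ext h φ a
  show dtw χ ρ (f h) φ a = _
  rw [dtw_apply, dtw_apply]
  simp

variable {ρA : Representation k G A} {ρB : Representation k G B}
  {β : A →ₗ[k] B →ₗ[k] k} (hβ : BiEquivar ρA ρB (mu χ) β) {r : ℕ}

/-- the connecting map of `0 → μ^r → E_y → B → 0` is `x ↦ (y_i ∪ x)_i` -/
lemma d1_extE (y : Fin r → ↥(Z1 𝓛 ρA)) {x : G → B} (hx : x ∈ Z1 𝓛 ρB) :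
    d1 (extE hβ y) (fun g => ((0 : Fin r → k), x g))
      = fun p => (fun i => cupC ρB β (y i).1 x p, 0) := by
  rw [d1_ext (𝓛 := 𝓛) ρB (mus χ r) (extCocycle hβ y) hx]
  rfl

/-- if the `y i` are coboundaries along `f`, then `H²(μ^r) → H²(E_y)` is injective after
restriction to `H` -/
lemma H2c_injective_of_split {f : H →* G} (hf : Levels.Cont 𝓜 𝓛 f) (hχ : 𝓛.op χ.ker)
    (hB : Smooth 𝓛 ρB) (y : Fin r → ↥(Z1 𝓛 ρA))
    (hy : ∀ i, H1res hf ρA (H1π 𝓛 ρA (y i)) = 0) :
    Function.Injective (H2c 𝓜 ((sesE hβ hχ hB y).res hf).hi) := by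
  have hy' : ∀ i, ∃ a, ∀ h, (y i).1 (f h) = ρA (f h) a - a := by
    intro i
    have h1 := hy i
    rw [H1res, H1map_mk, H1π_eq_zero_iff] at h1
    obtain ⟨a, ha⟩ := h1
    exact ⟨a, fun h => (congrFun ha h).symm⟩
  obtain ⟨R, hR, hR0⟩ := exists_retraction hβ f y hy'
  rw [← LinearMap.ker_eq_bot, eq_bot_iff]
  intro z hz
  obtain ⟨z, rfl⟩ := H2π_surjective 𝓜 _ z
  rw [LinearMap.mem_ker, H2c_mk, H2π_eq_zero_iff] at hz
  obtain ⟨w, hw, hwz⟩ := hz
  rw [Submodule.mem_bot, H2π_eq_zero_iff]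
  refine ⟨fun h => R (w h), hw.comp' R, ?_⟩
  funext p
  have h1 : d1 ((extE hβ y).comp f) w p = (z.1 p, 0) := congrFun hwz p
  rw [d1_apply] at h1 ⊢
  have h2 := congrArg R h1
  rw [hR0, map_add, map_sub] at h2
  rw [← h2]
  congr 2
  exact (hR p.1 (w p.2)).symm

lemma equivar_proj (χ : G →* kˣ) (r : ℕ) (i : Fin r) :
    Equivar (mus χ r) (mu χ) (LinearMap.proj i) := fun g m => by
  rw [mus_apply, mu_apply]; rfl

/-- `H²(μ^r) ≃ H²(μ)^r`, as a linear map -/
def H2mus (𝓛 : Levels G) (χ : G →* kˣ) (r : ℕ) :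
    H2 𝓛 (mus χ r) →ₗ[k] (Fin r → H2 𝓛 (mu χ)) :=
  LinearMap.pi fun i => H2c 𝓛 (equivar_proj χ r i)

lemma H2mus_bijective (𝓛 : Levels G) (χ : G →* kˣ) (r : ℕ) :
    Function.Bijective (H2mus 𝓛 χ r) := by
  constructor
  · rw [← LinearMap.ker_eq_bot, eq_bot_iff]
    intro z hz
    obtain ⟨z, rfl⟩ := H2π_surjective 𝓛 _ z
    rw [LinearMap.mem_ker] at hz
    have h1 : ∀ i, ∃ m : G → k, LC1 𝓛 m ∧ ∀ p, d1 (mu χ) m p = z.1 p i := by
      intro i
      have h2 := congrFun hz i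
      rw [H2mus, LinearMap.pi_apply, H2c_mk, Pi.zero_apply, H2π_eq_zero_iff] at h2
      obtain ⟨m, hm, hmz⟩ := h2
      exact ⟨m, hm, fun p => congrFun hmz p⟩
    choose m hm hmz using h1
    rw [Submodule.mem_bot, H2π_eq_zero_iff]
    refine ⟨fun g i => m i g, LC1.pi hm, ?_⟩
    funext p
    funext i
    rw [← hmz i p, d1_apply, d1_apply, mus_apply, mu_apply]
    rfl
  · intro w
    choose z hz using fun i => H2π_surjective 𝓛 (mu χ) (w i)
    refine ⟨H2π 𝓛 (mus χ r) ⟨fun p i => (z i).1 p, LC2.pi fun i => (z i).2.1, fun g h j => ?_⟩, ?_⟩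
    · funext i
      have := (z i).2.2 g h j
      rw [mu_apply] at this
      rw [mus_apply]
      exact this
    · funext i
      rw [H2mus, LinearMap.pi_apply, H2c_mk, ← hz i]
      rfl

/-- compatibility of `H2mus` with restriction -/
lemma H2mus_res {f : H →* G} (hf : Levels.Cont 𝓜 𝓛 f) (z : H2 𝓛 (mus χ r)) (i : Fin r) :
    H2res hf (mu χ) (H2mus 𝓛 χ r z i) = H2mus 𝓜 (χ.comp f) r (H2res hf (mus χ r) z) i := by
  obtain ⟨z, rfl⟩ := H2π_surjective 𝓛 _ z
  rfl

end more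

end Fermat.Agent.H75
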