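import Mathlib
import Fermat.Agent.H55Defs
import Fermat.Agent.H55LES
import Fermat.Agent.H75LocDual

/-!
# The global inequalities: `dim Ш¹(N') ≤ dim Ш²(N)` and isotropy
-/

set_option autoImplicit false
set_option maxSynthPendingDepth 3

namespace Fermat.Agent.H75

open Fermat.Agent.H55 Module

/-- `H²` is right exact and finite on finite dimensional smooth representations -/
structure RightExact (k : Type) {G : Type} [Field k] [Group G] (𝓛 : Levels G) : Prop where
  fin1 : ∀ {A : Type} [AddCommGroup A] [Module k A] [Module.Finite k A]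
    (ρ : Representation k G A), Smooth 𝓛 ρ → Module.Finite k (H1 𝓛 ρ)
  fin2 : ∀ {A : Type} [AddCommGroup A] [Module k A] [Module.Finite k A]
    (ρ : Representation k G A), Smooth 𝓛 ρ → Module.Finite k (H2 𝓛 ρ)
  surj : ∀ {A B C : Type} [AddCommGroup A] [Module k A] [AddCommGroup B] [Module k B]
    [AddCommGroup C] [Module k C] [Module.Finite k B] {ρA : Representation k G A}
    {ρB : Representation k G B} {ρC : Representation k G C} (E : SES 𝓛 ρA ρB ρC),
    Function.Surjective (H2c 𝓛 E.hq)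

/-- Hypotheses of the global inequalities. -/
structure GlobHyp {k G : Type} [Field k] [Group G] {𝓛 : Levels G} (D : LD 𝓛)
    (χ : G →* kˣ) : Prop where
  op_ker : 𝓛.op χ.ker
  glob : RightExact k 𝓛
  loc : ∀ v, RightExact k (D.lev v)
  cok : ∀ {A : Type} [AddCommGroup A] [Module k A] [Module.Finite k A]
    (ρ : Representation k G A), Smooth 𝓛 ρ →
    finrank k (D.Cok ρ) = finrank k (dtw χ ρ).invariants

lemma finrank_invariants_dtw_mus {k G : Type} [Field k] [Group G] (χ : G →* kˣ) (r : ℕ) :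
    finrank k (dtw χ (mus χ r)).invariants = r := by
  have : (dtw χ (mus χ r)).invariants = ⊤ := by
    rw [eq_top_iff]
    intro f _
    rw [mem_invariants_dtw]
    intro g a
    rw [mus_apply, map_smul, smul_eq_mul]
  rw [this, finrank_top, Module.finrank_linearMap, finrank_self, Module.finrank_fin_fun, mul_one]

section

variable {k G A B : Type} [Field k] [Group G] [AddCommGroup A] [Module k A]
  [AddCommGroup B] [Module k B]
  {𝓛 : Levels G} (D : LD 𝓛)

/-- product of the local maps in degree 2 -/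
def P2map {ρA : Representation k G A} {ρB : Representation k G B} {φ : A →ₗ[k] B}
    (hφ : Equivar ρA ρB φ) : D.P2 ρA →ₗ[k] D.P2 ρB :=
  LinearMap.pi fun v => (H2c (D.lev v) (ρA := D.rv ρA v) (ρB := D.rv ρB v) (φ := φ)
    (hφ.res (D.loc v))) ∘ₗ LinearMap.proj v

@[simp] lemma P2map_apply {ρA : Representation k G A} {ρB : Representation k G B}
    {φ : A →ₗ[k] B} (hφ : Equivar ρA ρB φ) (x : D.P2 ρA) (v : D.ι) :
    P2map D hφ x v = H2c (D.lev v) (hφ.res (D.loc v)) (x v) := rfl

lemma P2map_comp_loc2 {ρA : Representation k G A} {ρB : Representation k G B} {φ : A →ₗ[k] B}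
    (hφ : Equivar ρA ρB φ) :
    P2map D hφ ∘ₗ D.loc2 ρA = D.loc2 ρB ∘ₗ H2c 𝓛 hφ := by
  refine LinearMap.ext fun x => funext fun v => ?_
  obtain ⟨x, rfl⟩ := H2π_surjective 𝓛 _ x
  rfl

end

section ineq

variable {k G A B : Type} [Field k] [Group G] [AddCommGroup A] [Module k A]
  [AddCommGroup B] [Module k B] [Module.Finite k A] [Module.Finite k B]
  {𝓛 : Levels G} {D : LD 𝓛} {χ : G →* kˣ} {ρA : Representation k G A}
  {ρB : Representation k G B} {β : A →ₗ[k] B →ₗ[k] k} (hβ : BiEquivar ρA ρB (mu χ) β)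

include hβ in
/-- **Global inequality**: `dim Ш¹(A) ≤ dim Ш²(B)` for `A`, `B` in perfect duality. -/
theorem finrank_Sha1_le (hD : GlobHyp D χ) (hA : Smooth 𝓛 ρA) (hB : Smooth 𝓛 ρB)
    (hbij : Function.Bijective β) : finrank k (D.Sha1 ρA) ≤ finrank k (D.Sha2 ρB) := by
  have hf1 : Module.Finite k (H1 𝓛 ρA) := hD.glob.fin1 _ hA
  let b := Module.finBasis k (D.Sha1 ρA)
  choose y hy using fun i => H1π_surjective 𝓛 ρA (b i)
  have hyi : LinearIndependent k (fun i => H1π 𝓛 ρA (y i)) := by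
    simp only [hy]
    exact b.linearIndependent.map' (D.Sha1 ρA).subtype (Submodule.ker_subtype _)
  have hyv : ∀ v i, H1res (D.cont v) ρA (H1π 𝓛 ρA (y i)) = 0 := by
    intro v i
    rw [hy]
    exact congrFun (LinearMap.mem_ker.1 (b i).2) v
  let E := sesE hβ hD.op_ker hB y
  have hEs : Smooth 𝓛 (extE hβ y) := E.smooth
  have hfB : Module.Finite k (H2 𝓛 ρB) := hD.glob.fin2 _ hB
  have hfP : Module.Finite k (D.P2 (extE hβ y)) := by
    have : ∀ v, Module.Finite k (H2 (D.lev v) (D.rv (extE hβ y) v)) :=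
      fun v => (hD.loc v).fin2 _ (hEs.comp (D.cont v))
    infer_instance
  have hker : FiniteDimensional k (LinearMap.ker (D.loc2 ρB)) := inferInstance
  have key := finrank_coker_snake (i₁ := H2c 𝓛 E.hi) (q₁ := H2c 𝓛 E.hq)
    (i₂ := P2map D E.hi) (q₂ := P2map D E.hq)
    (a := D.loc2 (mus χ _)) (b := D.loc2 (extE hβ y)) (c := D.loc2 ρB)
    (P2map_comp_loc2 D E.hi) (P2map_comp_loc2 D E.hq)
    (fun x hx => (E.H2q_eq_zero_iff x).1 hx) (hD.glob.surj E)
    (by
      intro x x' hxx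
      funext v
      exact H2c_injective_of_split hβ (D.cont v) hD.op_ker hB y (hyv v) (congrFun hxx v))
    (by
      ext x
      constructor
      · rintro ⟨w, rfl⟩
        rw [LinearMap.mem_ker]
        funext v
        exact ((E.res (D.cont v)).H2q_eq_zero_iff _).2 ⟨w v, rfl⟩
      · intro hx
        have h1 : ∀ v, ∃ w, H2c (D.lev v) (E.res (D.cont v)).hi w = x v := fun v =>
          ((E.res (D.cont v)).H2q_eq_zero_iff _).1 (congrFun (LinearMap.mem_ker.1 hx) v)
        choose w hw using h1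
        exact ⟨w, funext hw⟩)
    (by
      intro x
      choose w hw using fun v => (hD.loc v).surj (E.res (D.cont v)) (x v)
      exact ⟨w, funext hw⟩)
  have h1 : finrank k (D.P2 (mus χ (finrank k (D.Sha1 ρA))) ⧸
      LinearMap.range (D.loc2 (mus χ (finrank k (D.Sha1 ρA))))) = finrank k (D.Sha1 ρA) := by
    exact (hD.cok _ (smooth_mus hD.op_ker _)).trans (finrank_invariants_dtw_mus χ _)
  have h2 : finrank k (D.P2 (extE hβ y) ⧸ LinearMap.range (D.loc2 (extE hβ y))) =
      finrank k (D.P2 ρB ⧸ LinearMap.range (D.loc2 ρB)) :=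
    (hD.cok _ hEs).trans ((finrank_invariants_extE hβ hbij y hyi).trans (hD.cok _ hB).symm)
  have h3 : finrank k (LinearMap.ker (D.loc2 ρB)) = finrank k (D.Sha2 ρB) := rfl
  omega

end ineq

section isotropy

variable {k G A B : Type} [Field k] [Group G] [AddCommGroup A] [Module k A]
  [AddCommGroup B] [Module k B]
  {𝓛 : Levels G} (D : LD 𝓛) {χ : G →* kˣ} {ρA : Representation k G A}
  {ρB : Representation k G B} {β : A →ₗ[k] B →ₗ[k] k} (hβ : BiEquivar ρA ρB (mu χ) β)

/-- product of the local cohomology groups of degree 1 -/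
abbrev P1 (ρ : Representation k G A) : Type := ∀ v, H1 (D.lev v) (D.rv ρ v)

/-- the local pairing at `v` -/
def locCup (hB : Smooth 𝓛 ρB) (v : D.ι) :
    H1 (D.lev v) (D.rv ρA v) →ₗ[k] H1 (D.lev v) (D.rv ρB v) →ₗ[k]
      H2 (D.lev v) (D.rv (mu χ) v) :=
  cup11 (𝓛 := D.lev v) (hβ.comp (D.loc v)) (hB.comp (D.cont v))

/-- the total pairing `P¹(A) × P¹(B) → P²(μ)` -/
def totCup (hB : Smooth 𝓛 ρB) : P1 D ρA →ₗ[k] P1 D ρB →ₗ[k] D.P2 (mu χ) :=
  LinearMap.mk₂ k (fun x y v => locCup D hβ hB v (x v) (y v))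
    (fun x x' y => by funext v; simp)
    (fun c x y => by funext v; simp)
    (fun x y y' => by funext v; simp)
    (fun c x y => by funext v; simp)

@[simp] lemma totCup_apply (hB : Smooth 𝓛 ρB) (x : P1 D ρA) (y : P1 D ρB) (v : D.ι) :
    totCup D hβ hB x y v = locCup D hβ hB v (x v) (y v) := rfl

/-- the pairing `P¹(A) × P¹(B) → Cok(μ)` -/
def cokCup (hB : Smooth 𝓛 ρB) : P1 D ρA →ₗ[k] P1 D ρB →ₗ[k] D.Cok (mu χ) :=
  (totCup D hβ hB).compr₂ (Submodule.mkQ _)

lemma cokCup_apply (hB : Smooth 𝓛 ρB) (x : P1 D ρA) (y : P1 D ρB) :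
    cokCup D hβ hB x y = Submodule.Quotient.mk (totCup D hβ hB x y) := rfl

/-- global classes are orthogonal -/
lemma cokCup_loc1 (hB : Smooth 𝓛 ρB) (x : H1 𝓛 ρA) (y : H1 𝓛 ρB) :
    cokCup D hβ hB (D.loc1 ρA x) (D.loc1 ρB y) = 0 := by
  rw [cokCup_apply, Submodule.Quotient.mk_eq_zero]
  refine ⟨cup11 hβ hB x y, ?_⟩
  funext v
  exact H2res_cup11 (D.cont v) hβ hB x y

variable [Module.Finite k A] [Module.Finite k B]

/-- nondegeneracy of the total pairing -/
lemma cokCup_nondeg [DecidableEq D.ι] (hL : ∀ v, LocHyp (D.lev v) (χ.comp (D.loc v)))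
    (hinj : ∀ v, Function.Injective (fun z : H2 (D.lev v) (D.rv (mu χ) v) =>
      (Submodule.Quotient.mk (Pi.single v z) : D.Cok (mu χ))))
    (hA : Smooth 𝓛 ρA) (hB : Smooth 𝓛 ρB) (hbij : Function.Bijective β) (y : P1 D ρB)
    (hy : ∀ x, cokCup D hβ hB x y = 0) : y = 0 := by
  funext v
  have hi : Function.Injective (locCup D hβ hB v).flip :=
    cup_flip_injective (hβ.comp (D.loc v)) (hL v) (hA.comp (D.cont v)) (hB.comp (D.cont v)) hbij
  refine (injective_iff_map_eq_zero _).1 hi _ ?_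
  refine LinearMap.ext fun x => ?_
  apply hinj v
  have h1 := hy (Pi.single v x)
  rw [cokCup_apply] at h1
  have h2 : totCup D hβ hB (Pi.single v x) y = Pi.single v (locCup D hβ hB v x (y v)) := by
    funext w
    rw [totCup_apply]
    by_cases hw : w = v
    · subst hw
      rw [Pi.single_eq_same, Pi.single_eq_same]
    · rw [Pi.single_eq_of_ne hw, Pi.single_eq_of_ne hw, map_zero, LinearMap.zero_apply]
  rw [h2] at h1
  show (Submodule.Quotient.mk (Pi.single v (locCup D hβ hB v x (y v))) : D.Cok (mu χ)) =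
    Submodule.Quotient.mk (Pi.single v 0)
  rw [h1, Pi.single_zero]
  rfl

include hβ in
/-- **Isotropy inequality**: the images of the global classes in `P¹(A)`, `P¹(B)` satisfy
`dim im + dim im ≤ dim P¹`. -/
theorem finrank_range_loc1_add_le (hL : ∀ v, LocHyp (D.lev v) (χ.comp (D.loc v)))
    [DecidableEq D.ι]
    (hinj : ∀ v, Function.Injective (fun z : H2 (D.lev v) (D.rv (mu χ) v) =>
      (Submodule.Quotient.mk (Pi.single v z) : D.Cok (mu χ))))
    (hcok : finrank k (D.Cok (mu χ)) ≤ 1) (hχ : 𝓛.op χ.ker)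
    (hA : Smooth 𝓛 ρA) (hB : Smooth 𝓛 ρB) (hbij : Function.Bijective β) :
    finrank k (LinearMap.range (D.loc1 ρA)) + finrank k (LinearMap.range (D.loc1 ρB)) ≤
      finrank k (P1 D ρA) := by
  have hfA : ∀ v, Module.Finite k (H1 (D.lev v) (D.rv ρA v)) := fun v =>
    (hL v).fin1 _ (hA.comp (D.cont v))
  have hfB : ∀ v, Module.Finite k (H1 (D.lev v) (D.rv ρB v)) := fun v =>
    (hL v).fin1 _ (hB.comp (D.cont v))
  have hfμ : ∀ v, Module.Finite k (H2 (D.lev v) (D.rv (mu χ) v)) := fun v =>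
    (hL v).fin2 _ ((smooth_mu hχ).comp (D.cont v))
  refine finrank_add_le_of_isotropic hcok (cokCup D hβ hB)
    (cokCup_nondeg D hβ hL hinj hA hB hbij) _ _ ?_
  rintro _ ⟨x, rfl⟩ _ ⟨y, rfl⟩
  exact cokCup_loc1 D hβ hB x y

end isotropy

end Fermat.Agent.H75
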