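import Mathlib
import Fermat.Agent.H65FourierB
import Fermat.Agent.H75Global

set_option autoImplicit false
set_option maxSynthPendingDepth 3

/-!
# S55, F5a: the Fourier argument from right exactness
-/

namespace Fermat.Agent.H65

open Module Fermat.Agent.H55

section Ker

variable {k G B C : Type*} [CommRing k] [Group G] [AddCommGroup B] [Module k B]
  [AddCommGroup C] [Module k C] {𝓛 : Levels G}
  {ρB : Representation k G B} {ρC : Representation k G C} {q : B →ₗ[k] C}

/-- the kernel of an equivariant map as a representation -/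
def kerRep (hq : Equivar ρB ρC q) : Representation k G (LinearMap.ker q) where
  toFun g := (ρB g).restrict fun b hb => by
    rw [LinearMap.mem_ker] at hb ⊢
    rw [hq, hb, map_zero]
  map_one' := by
    refine LinearMap.ext fun b => Subtype.ext ?_
    simp
  map_mul' g h := by
    refine LinearMap.ext fun b => Subtype.ext ?_
    simp

/-- the short exact sequence `0 → ker q → B → C → 0` -/
def kerSES (hq : Equivar ρB ρC q) (hs : Function.Surjective q) (hB : Smooth 𝓛 ρB) :
    SES 𝓛 (kerRep hq) ρB ρC where
  i := (LinearMap.ker q).subtype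
  q := q
  hi _ _ := rfl
  hq := hq
  inj := Subtype.val_injective
  surj := hs
  exact b := ⟨fun h => ⟨⟨b, h⟩, rfl⟩, by rintro ⟨a, rfl⟩; exact a.2⟩
  smooth := hB

end Ker

section

variable {k G : Type} [Field k] [Group G] {𝓛 : Levels G}

lemma surj_of_rightExact (hR : H75.RightExact k 𝓛) {B C : Type} [AddCommGroup B] [Module k B]
    [AddCommGroup C] [Module k C] [Module.Finite k B] {ρB : Representation k G B}
    {ρC : Representation k G C} {q : B →ₗ[k] C} (hq : Equivar ρB ρC q)
    (hs : Function.Surjective q) (hB : Smooth 𝓛 ρB) : Function.Surjective (H2c 𝓛 hq) :=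
  hR.surj (kerSES hq hs hB)

lemma smooth_XU {U : Subgroup G} (hU : 𝓛.op U) : Smooth 𝓛 (XU k U) := by
  have := finite_coset hU
  exact Smooth.funRep (fun a => ⟨⊤, 𝓛.op_top, fun _ _ => rfl⟩) (openAct_coset hU)

variable {D : LD 𝓛} {χ : G →* kˣ}

/-- **F5a, final form, from right exactness of the local `H²`** -/
theorem fourier_of_rightExact [Finite k] (hA : ArithInput D χ)
    (hR : ∀ v, H75.RightExact k (D.lev v)) :
    Module.Finite k (D.Cok (mu χ)) ∧ finrank k (D.Cok (mu χ)) = 1 ∧
      ∀ v, Function.Bijective (J D (mu χ) v) := by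
  refine fourier hA fun v U' hU' h inst => ?_
  exact surj_of_rightExact (hR v) ((equivar_fsum (k := k) h).res (D.loc v))
    (fsum_surjective h) ((smooth_XU hU').comp (D.cont v))

/-- the cokernel of localisation for `X_U` is at most one dimensional -/
theorem finrank_Cok_XU_le_of_rightExact (hA : ArithInput D χ)
    (hR : ∀ v, H75.RightExact k (D.lev v)) {U : Subgroup G} (hU : 𝓛.op U) :
    Module.Finite k (D.Cok (XU k U)) ∧ finrank k (D.Cok (XU k U)) ≤ 1 := by
  refine finrank_Cok_XU_le hA hU fun v U' hU' h inst => ?_
  exact surj_of_rightExact (hR v) ((equivar_fsum (k := k) h).res (D.loc v))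
    (fsum_surjective h) ((smooth_XU hU').comp (D.cont v))

end

end Fermat.Agent.H65
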