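import Mathlib
import Fermat.Agent.H75Global

/-!
# The final count: `e(N) = 0` implies `dim Ш¹(N') = dim Ш²(N)`
-/

set_option autoImplicit false
set_option maxSynthPendingDepth 3

namespace Fermat.Agent.H75

open Fermat.Agent.H55 Module

section invdual

variable {k G A B : Type*} [Field k] [Group G] [AddCommGroup A] [Module k A]
  [AddCommGroup B] [Module k B] {χ : G →* kˣ} {ρA : Representation k G A}
  {ρB : Representation k G B} {β : A →ₗ[k] B →ₗ[k] k} (hβ : BiEquivar ρA ρB (mu χ) β)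

include hβ in
lemma equivar_pairing : Equivar ρA (dtw χ ρB) (β : A →ₗ[k] Module.Dual k B) := by
  intro g a
  ext b
  have h := hβ g a (ρB g⁻¹ b)
  rw [rho_apply_inv, mu_apply] at h
  rw [dtw_apply]
  exact h

include hβ in
lemma finrank_invariants_dtw (hbij : Function.Bijective β) :
    finrank k (dtw χ ρB).invariants = finrank k ρA.invariants := by
  have he := equivar_pairing hβ
  let T : ρA.invariants →ₗ[k] (dtw χ ρB).invariants :=
    (β : A →ₗ[k] Module.Dual k B).restrict (fun a ha g => by rw [← he, ha g])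
  have hT : Function.Bijective T := by
    constructor
    · intro a a' h
      exact Subtype.ext (hbij.1 (congrArg Subtype.val h))
    · rintro ⟨f, hf⟩
      obtain ⟨a, ha⟩ := hbij.2 f
      refine ⟨⟨a, fun g => hbij.1 ?_⟩, Subtype.ext ha⟩
      have h1 := he g a
      have h2 : (β : A →ₗ[k] Module.Dual k B) a = f := ha
      rw [h2, hf g] at h1
      exact h1.trans ha.symm
  exact (LinearEquiv.ofBijective T hT).finrank_eq.symm

end invdual

section count

variable {k G A B : Type} [Field k] [Group G] [AddCommGroup A] [Module k A]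
  [AddCommGroup B] [Module k B] [Module.Finite k A] [Module.Finite k B]
  {𝓛 : Levels G} {D : LD 𝓛} {χ : G →* kˣ} {ρA : Representation k G A}
  {ρB : Representation k G B} {β : A →ₗ[k] B →ₗ[k] k} (hβ : BiEquivar ρA ρB (mu χ) β)

include hβ in
/-- `dim Ш²(B) = h²(B) - Σ h⁰(A_v) + h⁰(A)` -/
lemma finrank_Sha2_add (hD : GlobHyp D χ) (hL : ∀ v, LocHyp (D.lev v) (χ.comp (D.loc v)))
    (hB : Smooth 𝓛 ρB) (hbij : Function.Bijective β) :
    finrank k (D.Sha2 ρB) + ∑ v, finrank k (D.rv ρA v).invariants =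
      finrank k (H2 𝓛 ρB) + finrank k ρA.invariants := by
  have hfB : Module.Finite k (H2 𝓛 ρB) := hD.glob.fin2 _ hB
  have hfv : ∀ v, Module.Finite k (H2 (D.lev v) (D.rv ρB v)) :=
    fun v => (hL v).fin2 _ (hB.comp (D.cont v))
  have h1 := LinearMap.finrank_range_add_finrank_ker (D.loc2 ρB)
  have h2 := Submodule.finrank_quotient_add_finrank (LinearMap.range (D.loc2 ρB))
  have h3 : finrank k (D.P2 ρB ⧸ LinearMap.range (D.loc2 ρB)) = finrank k ρA.invariants :=
    (hD.cok _ hB).trans (finrank_invariants_dtw hβ hbij)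
  have h4 : finrank k (D.P2 ρB) = ∑ v, finrank k (D.rv ρA v).invariants := by
    rw [Module.finrank_pi_fintype]
    refine Finset.sum_congr rfl fun v _ => ?_
    rw [(hL v).h2 _ (hB.comp (D.cont v))]
    exact finrank_invariants_dtw (hβ.comp (D.loc v)) hbij
  have h5 : finrank k (LinearMap.ker (D.loc2 ρB)) = finrank k (D.Sha2 ρB) := rfl
  rw [h3, h4] at h2
  rw [h5] at h1
  omega

include hβ in
/-- the defect inequality -/
theorem defect_le (hD : GlobHyp D χ) (hL : ∀ v, LocHyp (D.lev v) (χ.comp (D.loc v)))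
    [DecidableEq D.ι]
    (hinj : ∀ v, Function.Injective (fun z : H2 (D.lev v) (D.rv (mu χ) v) =>
      (Submodule.Quotient.mk (Pi.single v z) : D.Cok (mu χ))))
    (hA : Smooth 𝓛 ρA) (hB : Smooth 𝓛 ρB) (hbij : Function.Bijective β) :
    (finrank k (D.Sha2 ρA) : ℤ) + finrank k (D.Sha2 ρB) + ∑ v, chi2 (D.lev v) (D.rv ρA v) ≤
      chi2 𝓛 ρA + chi2 𝓛 ρB + finrank k (D.Sha1 ρA) + finrank k (D.Sha1 ρB) := by
  have hfA1 : Module.Finite k (H1 𝓛 ρA) := hD.glob.fin1 _ hA
  have hfB1 : Module.Finite k (H1 𝓛 ρB) := hD.glob.fin1 _ hB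
  have hfv : ∀ v, Module.Finite k (H1 (D.lev v) (D.rv ρA v)) :=
    fun v => (hL v).fin1 _ (hA.comp (D.cont v))
  have hcok : finrank k (D.Cok (mu χ)) ≤ 1 := by
    rw [hD.cok _ (smooth_mu hD.op_ker), finrank_invariants_dtw_mu]
  have h1 := finrank_Sha2_add hβ hD hL hB hbij
  have h2 := finrank_Sha2_add hβ.flip hD hL hA (flip_bijective hbij)
  have h3 := finrank_range_loc1_add_le D hβ hL hinj hcok hD.op_ker hA hB hbij
  have h4 := LinearMap.finrank_range_add_finrank_ker (D.loc1 ρA)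
  have h5 := LinearMap.finrank_range_add_finrank_ker (D.loc1 ρB)
  have h6 : finrank k (LinearMap.ker (D.loc1 ρA)) = finrank k (D.Sha1 ρA) := rfl
  have h7 : finrank k (LinearMap.ker (D.loc1 ρB)) = finrank k (D.Sha1 ρB) := rfl
  have h8 : finrank k (P1 D ρA) = ∑ v, finrank k (H1 (D.lev v) (D.rv ρA v)) :=
    Module.finrank_pi_fintype k
  have h9 : ∑ v, chi2 (D.lev v) (D.rv ρA v) =
      (∑ v, finrank k (D.rv ρA v).invariants : ℕ) - (∑ v, finrank k (H1 (D.lev v) (D.rv ρA v)) : ℕ)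
        + (∑ v, finrank k (D.rv ρB v).invariants : ℕ) := by
    push_cast
    rw [← Finset.sum_sub_distrib, ← Finset.sum_add_distrib]
    refine Finset.sum_congr rfl fun v _ => ?_
    rw [chi2, (hL v).h2 _ (hA.comp (D.cont v))]
    rw [finrank_invariants_dtw (hβ.flip.comp (D.loc v)) (flip_bijective hbij)]
  rw [h9, chi2, chi2]
  rw [h6] at h4
  rw [h7] at h5
  rw [h8] at h3
  omega

include hβ in
/-- `e(A) ≥ 0` -/
theorem defect_nonneg (hD : GlobHyp D χ) (hL : ∀ v, LocHyp (D.lev v) (χ.comp (D.loc v)))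
    [DecidableEq D.ι]
    (hinj : ∀ v, Function.Injective (fun z : H2 (D.lev v) (D.rv (mu χ) v) =>
      (Submodule.Quotient.mk (Pi.single v z) : D.Cok (mu χ))))
    (hA : Smooth 𝓛 ρA) (hB : Smooth 𝓛 ρB) (hbij : Function.Bijective β) :
    ∑ v, chi2 (D.lev v) (D.rv ρA v) ≤ chi2 𝓛 ρA + chi2 𝓛 ρB := by
  have h1 := defect_le hβ hD hL hinj hA hB hbij
  have h2 := finrank_Sha1_le hβ hD hA hB hbij
  have h3 := finrank_Sha1_le hβ.flip hD hB hA (flip_bijective hbij)
  omega

include hβ in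
/-- **Poitou-Tate, numerically**: if `e(A) = 0` then `dim Ш¹(A) = dim Ш²(B)`. -/
theorem finrank_Sha_eq (hD : GlobHyp D χ) (hL : ∀ v, LocHyp (D.lev v) (χ.comp (D.loc v)))
    [DecidableEq D.ι]
    (hinj : ∀ v, Function.Injective (fun z : H2 (D.lev v) (D.rv (mu χ) v) =>
      (Submodule.Quotient.mk (Pi.single v z) : D.Cok (mu χ))))
    (hA : Smooth 𝓛 ρA) (hB : Smooth 𝓛 ρB) (hbij : Function.Bijective β)
    (he : chi2 𝓛 ρA + chi2 𝓛 ρB = ∑ v, chi2 (D.lev v) (D.rv ρA v)) :
    finrank k (D.Sha1 ρA) = finrank k (D.Sha2 ρB) := by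
  have h1 := defect_le hβ hD hL hinj hA hB hbij
  have h2 := finrank_Sha1_le hβ hD hA hB hbij
  have h3 := finrank_Sha1_le hβ.flip hD hB hA (flip_bijective hbij)
  omega

end count

end Fermat.Agent.H75
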