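import Mathlib
import Fermat.Agent.H75Count

/-!
# Additivity of the defect and the reduction to induced modules
-/

set_option autoImplicit false
set_option maxSynthPendingDepth 3

namespace Fermat.Agent.H75

open Fermat.Agent.H55 Module

section ses

variable {k G A B C : Type*} [Field k] [Group G] [AddCommGroup A] [Module k A]
  [AddCommGroup B] [Module k B] [AddCommGroup C] [Module k C] {𝓛 : Levels G}
  {ρA : Representation k G A} {ρB : Representation k G B} {ρC : Representation k G C}

/-- the short exact sequence attached to an injective equivariant map -/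
def sesOfInj {φ : A →ₗ[k] B} (hφ : Equivar ρA ρB φ) (hinj : Function.Injective φ)
    (hB : Smooth 𝓛 ρB) : SES 𝓛 ρA ρB
      (ρB.quotient (LinearMap.range φ) (by
        rintro g _ ⟨a, rfl⟩
        exact ⟨ρA g a, hφ g a⟩)) where
  i := φ
  q := Submodule.mkQ _
  hi := hφ
  hq := fun g b => rfl
  inj := hinj
  surj := Submodule.mkQ_surjective _
  exact := fun b => by
    rw [Submodule.mkQ_apply, Submodule.Quotient.mk_eq_zero]
    rfl
  smooth := hB

lemma smooth_dtw [Module.Finite k A] {χ : G →* kˣ} (hχ : 𝓛.op χ.ker) (hA : Smooth 𝓛 ρA) :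
    Smooth 𝓛 (dtw χ ρA) := by
  -- an open subgroup acting trivially on `A`
  obtain ⟨s, hs⟩ := (Module.Finite.fg_top : (⊤ : Submodule k A).FG)
  obtain ⟨U, hU, hfix⟩ := hA.uniform s.finite_toSet
  have hU' : ∀ g ∈ U, ∀ a, ρA g a = a := by
    intro g hg a
    have : a ∈ Submodule.span k (s : Set A) := by rw [hs]; trivial
    induction this using Submodule.span_induction with
    | mem x hx => exact hfix g hg x hx
    | zero => rw [map_zero]
    | add x y _ _ hx hy => rw [map_add, hx, hy]
    | smul c x _ hx => rw [map_smul, hx]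
  intro f
  refine ⟨U ⊓ χ.ker, 𝓛.op_inf hU hχ, fun g hg => ?_⟩
  ext a
  rw [dtw_apply, hU' _ (U.inv_mem hg.1), MonoidHom.mem_ker.1 hg.2, Units.val_one, one_mul]

/-- the dual short exact sequence -/
def sesDual [Module.Finite k B] {χ : G →* kˣ} (hχ : 𝓛.op χ.ker) (E : SES 𝓛 ρA ρB ρC) :
    SES 𝓛 (dtw χ ρC) (dtw χ ρB) (dtw χ ρA) where
  i := E.q.dualMap
  q := E.i.dualMap
  hi := fun g f => by
    ext b
    rw [LinearMap.dualMap_apply, dtw_apply, dtw_apply, LinearMap.dualMap_apply, E.hq]
  hq := fun g f => by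
    ext b
    rw [LinearMap.dualMap_apply, dtw_apply, dtw_apply, LinearMap.dualMap_apply, E.hi]
  inj := LinearMap.dualMap_injective_of_surjective E.surj
  surj := LinearMap.dualMap_surjective_of_injective E.inj
  exact := fun f => by
    have h1 : LinearMap.ker E.q ≤ LinearMap.ker f ↔ E.i.dualMap f = 0 := by
      constructor
      · intro h
        ext a
        have : E.i a ∈ LinearMap.ker E.q := LinearMap.mem_ker.2 ((E.exact _).2 ⟨a, rfl⟩)
        exact LinearMap.mem_ker.1 (h this)
      · intro h b hb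
        obtain ⟨a, rfl⟩ := (E.exact b).1 (LinearMap.mem_ker.1 hb)
        exact LinearMap.congr_fun h a
    rw [← h1]
    constructor
    · intro h
      have h2 : f ∈ LinearMap.range E.q.dualMap := by
        rw [LinearMap.range_dualMap_eq_dualAnnihilator_ker, Submodule.mem_dualAnnihilator]
        exact fun b hb => LinearMap.mem_ker.1 (h hb)
      exact h2
    · rintro ⟨g, rfl⟩ b hb
      rw [LinearMap.mem_ker, LinearMap.dualMap_apply, LinearMap.mem_ker.1 hb, map_zero]
  smooth := smooth_dtw hχ E.smooth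

lemma biEquivar_eval' (χ : G →* kˣ) (ρ : Representation k G A) :
    BiEquivar ρ (dtw χ ρ) (mu χ) (Module.Dual.eval k A) := by
  intro g a f
  rw [Module.Dual.eval_apply, Module.Dual.eval_apply, dtw_apply, rho_inv_apply, mu_apply]

lemma eval_bijective [Module.Finite k A] : Function.Bijective (Module.Dual.eval k A) :=
  (Module.evalEquiv k A).bijective

end ses

section embed

variable {k G A : Type} [Field k] [Group G] [AddCommGroup A] [Module k A]
  {𝓛 : Levels G}

/-- an open subgroup acts trivially on a finite dimensional smooth representation -/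
lemma exists_op_trivial [Module.Finite k A] {ρ : Representation k G A} (hA : Smooth 𝓛 ρ) :
    ∃ U, 𝓛.op U ∧ ∀ g ∈ U, ∀ a, ρ g a = a := by
  obtain ⟨s, hs⟩ := (Module.Finite.fg_top : (⊤ : Submodule k A).FG)
  obtain ⟨U, hU, hfix⟩ := hA.uniform s.finite_toSet
  refine ⟨U, hU, fun g hg a => ?_⟩
  have : a ∈ Submodule.span k (s : Set A) := by rw [hs]; trivial
  induction this using Submodule.span_induction with
  | mem x hx => exact hfix g hg x hx
  | zero => rw [map_zero]
  | add x y _ _ hx hy => rw [map_add, hx, hy]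
  | smul c x _ hx => rw [map_smul, hx]

/-- the embedding `A → (G ⧸ U → A_triv)`, `a ↦ (x ↦ x⁻¹ a)` -/
def embFun (U : Subgroup G) (ρ : Representation k G A) (hU : ∀ g ∈ U, ∀ a, ρ g a = a) :
    A →ₗ[k] (G ⧸ U → A) where
  toFun a x := Quotient.liftOn' x (fun g => ρ g⁻¹ a) (fun g h hgh => by
    rw [QuotientGroup.leftRel_apply] at hgh
    have h1 := hU _ (U.inv_mem hgh) (ρ g⁻¹ a)
    rw [← Module.End.mul_apply, ← map_mul] at h1
    rw [← h1]
    congr 2
    group)
  map_add' a b := by
    funext x
    induction x using Quotient.inductionOn' with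
    | h g => exact map_add (ρ g⁻¹) a b
  map_smul' c a := by
    funext x
    induction x using Quotient.inductionOn' with
    | h g => exact map_smul (ρ g⁻¹) c a

@[simp] lemma embFun_mk (U : Subgroup G) (ρ : Representation k G A)
    (hU : ∀ g ∈ U, ∀ a, ρ g a = a) (a : A) (g : G) :
    embFun U ρ hU a (g : G ⧸ U) = ρ g⁻¹ a := rfl

lemma embFun_injective (U : Subgroup G) (ρ : Representation k G A)
    (hU : ∀ g ∈ U, ∀ a, ρ g a = a) : Function.Injective (embFun U ρ hU) := by
  intro a b h
  have := congrFun h ((1 : G) : G ⧸ U)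
  simpa using this

lemma equivar_embFun (U : Subgroup G) (ρ : Representation k G A)
    (hU : ∀ g ∈ U, ∀ a, ρ g a = a) :
    Equivar ρ (funRep (G ⧸ U) (Representation.trivial k G A)) (embFun U ρ hU) := by
  intro g a
  funext x
  induction x using QuotientGroup.induction_on with
  | H h =>
    rw [funRep_apply, embFun_mk, Representation.trivial_apply]
    have h1 : g⁻¹ • ((h : G) : G ⧸ U) = ((g⁻¹ * h : G) : G ⧸ U) := rfl
    rw [h1, embFun_mk, mul_inv_rev, inv_inv, map_mul, Module.End.mul_apply]

lemma smooth_funRep_trivial {U : Subgroup G} (hU : 𝓛.op U) :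
    Smooth 𝓛 (funRep (G ⧸ U) (Representation.trivial k G A)) := by
  intro f
  obtain ⟨N, hN, hn, hle⟩ := 𝓛.exists_normal hU
  refine ⟨N, hN, fun s hs => ?_⟩
  funext x
  induction x using QuotientGroup.induction_on with
  | H h =>
    rw [funRep_apply, Representation.trivial_apply]
    congr 1
    have h1 : s⁻¹ • ((h : G) : G ⧸ U) = ((s⁻¹ * h : G) : G ⧸ U) := rfl
    rw [h1, QuotientGroup.eq]
    have h2 := hn.conj_mem _ hs h⁻¹
    rw [inv_inv] at h2
    have h3 : (s⁻¹ * h)⁻¹ * h = h⁻¹ * s * h := by group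
    rw [h3]
    exact hle h2

end embed

section defect

variable {k G : Type} [Field k] [Group G] {𝓛 : Levels G}

/-- the defect `e(ρ) = χ(G, ρ) + χ(G, ρ') - Σ_v χ(G_v, ρ)` -/
noncomputable def defect (D : LD 𝓛) (χ : G →* kˣ) {A : Type} [AddCommGroup A] [Module k A]
    (ρ : Representation k G A) : ℤ :=
  chi2 𝓛 ρ + chi2 𝓛 (dtw χ ρ) - ∑ v, chi2 (D.lev v) (D.rv ρ v)

variable {D : LD 𝓛} {χ : G →* kˣ}

lemma RightExact.fin2' (h : RightExact k 𝓛) {A : Type} [AddCommGroup A] [Module k A]
    [Module.Finite k A] {ρ : Representation k G A} (hs : Smooth 𝓛 ρ) : Fin2 𝓛 ρ :=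
  ⟨inferInstance, h.fin1 _ hs, h.fin2 _ hs⟩

lemma RightExact.chi2_add (h : RightExact k 𝓛) {A B C : Type} [AddCommGroup A] [Module k A]
    [AddCommGroup B] [Module k B] [AddCommGroup C] [Module k C] [Module.Finite k B]
    {ρA : Representation k G A} {ρB : Representation k G B} {ρC : Representation k G C}
    (E : SES 𝓛 ρA ρB ρC) : chi2 𝓛 ρB = chi2 𝓛 ρA + chi2 𝓛 ρC := by
  have hA : Module.Finite k A := Module.Finite.of_injective E.i E.inj
  have hC : Module.Finite k C := Module.Finite.of_surjective E.q E.surj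
  exact (E.chi2_eq_iff (h.fin2' E.smooth_left) (h.fin2' E.smooth_right)).2 (h.surj E)

lemma defect_add (hD : GlobHyp D χ) {A B C : Type} [AddCommGroup A] [Module k A]
    [AddCommGroup B] [Module k B] [AddCommGroup C] [Module k C] [Module.Finite k B]
    {ρA : Representation k G A} {ρB : Representation k G B} {ρC : Representation k G C}
    (E : SES 𝓛 ρA ρB ρC) : defect D χ ρB = defect D χ ρA + defect D χ ρC := by
  have h1 := hD.glob.chi2_add E
  have h2 := hD.glob.chi2_add (sesDual hD.op_ker E)
  have h3 : ∑ v, chi2 (D.lev v) (D.rv ρB v) =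
      ∑ v, chi2 (D.lev v) (D.rv ρA v) + ∑ v, chi2 (D.lev v) (D.rv ρC v) := by
    rw [← Finset.sum_add_distrib]
    exact Finset.sum_congr rfl fun v _ => (hD.loc v).chi2_add (E.res (D.cont v))
  rw [defect, defect, defect, h1, h2, h3]
  ring

/-- Package of all hypotheses of the final step -/
structure FullHyp (D : LD 𝓛) (χ : G →* kˣ) : Prop extends GlobHyp D χ where
  locHyp : ∀ v, LocHyp (D.lev v) (χ.comp (D.loc v))
  inj : ∀ [DecidableEq D.ι] v, Function.Injective (fun z : H2 (D.lev v) (D.rv (mu χ) v) =>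
      (Submodule.Quotient.mk (Pi.single v z) : D.Cok (mu χ)))
  /-- the defect of an induced module is `≤ 0` -/
  ind : ∀ U, 𝓛.op U → U ≤ χ.ker → ∀ (A : Type) [AddCommGroup A] [Module k A] [Module.Finite k A],
    defect D χ (funRep (G ⧸ U) (Representation.trivial k G A)) ≤ 0

theorem FullHyp.defect_nonneg (hD : FullHyp D χ) {A : Type} [AddCommGroup A] [Module k A]
    [Module.Finite k A] {ρ : Representation k G A} (hs : Smooth 𝓛 ρ) : 0 ≤ defect D χ ρ := by
  classical
  have := H75.defect_nonneg (biEquivar_eval' χ ρ) hD.toGlobHyp hD.locHyp hD.inj hs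
    (smooth_dtw hD.op_ker hs) eval_bijective
  rw [defect]
  omega

theorem FullHyp.defect_eq_zero (hD : FullHyp D χ) {A : Type} [AddCommGroup A] [Module k A]
    [Module.Finite k A] {ρ : Representation k G A} (hs : Smooth 𝓛 ρ) : defect D χ ρ = 0 := by
  obtain ⟨U, hU, hfix⟩ := exists_op_trivial hs
  let V := U ⊓ χ.ker
  have hV : 𝓛.op V := 𝓛.op_inf hU hD.op_ker
  have hfixV : ∀ g ∈ V, ∀ a, ρ g a = a := fun g hg => hfix g hg.1
  have hfin : Finite (G ⧸ V) := by
    have := 𝓛.finiteIndex hV
    exact V.finite_quotient_of_finiteIndex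
  let E := sesOfInj (equivar_embFun V ρ hfixV) (embFun_injective V ρ hfixV)
    (smooth_funRep_trivial (k := k) (A := A) hV)
  have h1 := defect_add hD.toGlobHyp E
  have h2 := hD.ind V hV inf_le_right A
  have h3 := hD.defect_nonneg hs
  have h4 := hD.defect_nonneg E.smooth_right
  omega

/-- **Poitou-Tate duality, numerical form** -/
theorem FullHyp.finrank_Sha (hD : FullHyp D χ) {A : Type} [AddCommGroup A] [Module k A]
    [Module.Finite k A] {ρ : Representation k G A} (hs : Smooth 𝓛 ρ) :
    finrank k (D.Sha1 (dtw χ ρ)) = finrank k (D.Sha2 ρ) := by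
  classical
  have h0 := hD.defect_eq_zero hs
  have hs' : Smooth 𝓛 (dtw χ ρ) := smooth_dtw hD.op_ker hs
  have h1 := defect_le (biEquivar_eval' χ ρ) hD.toGlobHyp hD.locHyp hD.inj hs hs' eval_bijective
  have h2 := finrank_Sha1_le (biEquivar_eval' χ ρ) hD.toGlobHyp hs hs' eval_bijective
  have h3 := finrank_Sha1_le (biEquivar_eval' χ ρ).flip hD.toGlobHyp hs' hs
    (flip_bijective eval_bijective)
  rw [defect] at h0
  omega

end defect

end Fermat.Agent.H75
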