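import Mathlib
import Fermat.Agent.H75Final
import Fermat.Agent.H55ShapiroF

/-!
# Euler characteristics of induced modules, and vanishing of their defect
-/

set_option autoImplicit false
set_option maxSynthPendingDepth 3

namespace Fermat.Agent.H75

open Fermat.Agent.H55 Module

section chi2

variable {k G A B : Type*} [Field k] [Group G] [AddCommGroup A] [Module k A]
  [AddCommGroup B] [Module k B] {𝓛 : Levels G} {ρA : Representation k G A}
  {ρB : Representation k G B}

lemma finrank_invariants_congr {e : A ≃ₗ[k] B} (he : Equivar ρA ρB (e : A →ₗ[k] B)) :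
    finrank k ρA.invariants = finrank k ρB.invariants := by
  have h : ρA.invariants.map (e : A →ₗ[k] B) = ρB.invariants := by
    ext b
    constructor
    · rintro ⟨a, ha, rfl⟩
      rw [Representation.mem_invariants]
      intro g
      rw [← he, ha g]
    · intro hb
      refine ⟨e.symm b, ?_, e.apply_symm_apply b⟩
      intro g
      apply e.injective
      have := he g (e.symm b)
      rw [LinearEquiv.coe_coe, e.apply_symm_apply, hb g] at this
      rw [this, e.apply_symm_apply]
  rw [← h]
  exact (Submodule.equivMapOfInjective _ e.injective _).finrank_eq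

lemma chi2_congr (𝓛 : Levels G) {e : A ≃ₗ[k] B} (he : Equivar ρA ρB (e : A →ₗ[k] B)) :
    chi2 𝓛 ρA = chi2 𝓛 ρB := by
  rw [chi2, chi2, finrank_invariants_congr he, (H1cEquiv 𝓛 he).finrank_eq,
    (H2cEquiv 𝓛 he).finrank_eq]

/-- invariants of a power -/
lemma finrank_invariants_piRep (n : ℕ) (ρ : Representation k G A) [Module.Finite k ρ.invariants] :
    finrank k (piRep (fun _ : Fin n => ρ)).invariants = n * finrank k ρ.invariants := by
  let e : (piRep (fun _ : Fin n => ρ)).invariants ≃ₗ[k] (Fin n → ρ.invariants) :=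
    { toFun := fun f i => ⟨f.1 i, fun g => congrFun (f.2 g) i⟩
      map_add' := fun f f' => rfl
      map_smul' := fun c f => rfl
      invFun := fun f => ⟨fun i => (f i).1, fun g => funext fun i => (f i).2 g⟩
      left_inv := fun f => rfl
      right_inv := fun f => rfl }
  rw [e.finrank_eq, Module.finrank_pi_fintype]
  simp

lemma chi2_piRep (n : ℕ) {ρ : Representation k G A} (h : Fin2 𝓛 ρ) :
    chi2 𝓛 (piRep (fun _ : Fin n => ρ)) = n * chi2 𝓛 ρ := by
  have := h.f0
  have := h.f1
  have := h.f2
  rw [chi2, chi2, finrank_invariants_piRep, (H1pi (𝓛 := 𝓛) (fun _ : Fin n => ρ)).finrank_eq,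
    (H2pi (𝓛 := 𝓛) (fun _ : Fin n => ρ)).finrank_eq, Module.finrank_pi_fintype,
    Module.finrank_pi_fintype]
  simp only [Finset.sum_const, Finset.card_univ, Fintype.card_fin, smul_eq_mul]
  push_cast
  ring

end chi2

section funA

variable {k G A Ω : Type*} [Field k] [Group G] [AddCommGroup A] [Module k A] [Module.Finite k A]
  [MulAction G Ω]

/-- `(Ω → A) ≃ (Ω → k)^n` -/
noncomputable def funEquiv (k A Ω : Type*) [Field k] [AddCommGroup A] [Module k A]
    [Module.Finite k A] : (Ω → A) ≃ₗ[k] (Fin (finrank k A) → Ω → k) :=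
  { toFun := fun f i x => (Module.finBasis k A).equivFun (f x) i
    map_add' := fun f f' => by funext i x; simp
    map_smul' := fun c f => by funext i x; simp
    invFun := fun f x => (Module.finBasis k A).equivFun.symm (fun i => f i x)
    left_inv := fun f => by
      funext x
      exact (Module.finBasis k A).equivFun.symm_apply_apply (f x)
    right_inv := fun f => by
      funext i x
      show (Module.finBasis k A).equivFun ((Module.finBasis k A).equivFun.symm _) i = _
      rw [LinearEquiv.apply_symm_apply] }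

lemma equivar_funEquiv :
    Equivar (funRep Ω (Representation.trivial k G A))
      (piRep fun _ : Fin (finrank k A) => funRep Ω (Representation.trivial k G k))
      (funEquiv k A Ω : (Ω → A) →ₗ[k] (Fin (finrank k A) → Ω → k)) := fun _ _ => rfl

lemma chi2_funRep_A {𝓛 : Levels G}
    (h : Fin2 𝓛 (funRep Ω (Representation.trivial k G k))) :
    chi2 𝓛 (funRep Ω (Representation.trivial k G A)) =
      finrank k A * chi2 𝓛 (funRep Ω (Representation.trivial k G k)) :=
  (chi2_congr 𝓛 equivar_funEquiv).trans (chi2_piRep _ h)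

lemma chi2_funRep_A_comp {H : Type*} [Group H] {𝓜 : Levels H} {f : H →* G}
    (h : Fin2 𝓜 ((funRep Ω (Representation.trivial k G k)).comp f)) :
    chi2 𝓜 ((funRep Ω (Representation.trivial k G A)).comp f) =
      finrank k A * chi2 𝓜 ((funRep Ω (Representation.trivial k G k)).comp f) := by
  have he : Equivar ((funRep Ω (Representation.trivial k G A)).comp f)
      (piRep fun _ : Fin (finrank k A) => (funRep Ω (Representation.trivial k G k)).comp f)
      (funEquiv k A Ω : (Ω → A) →ₗ[k] (Fin (finrank k A) → Ω → k)) := fun _ _ => rfl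
  exact (chi2_congr 𝓜 he).trans (chi2_piRep _ h)

end funA

section pairing

variable {k G A : Type*} [Field k] [Group G] [AddCommGroup A] [Module k A] [Module.Finite k A]
  {χ : G →* kˣ} {U : Subgroup G}

lemma chi_out (hU : U ≤ χ.ker) (g : G) (x : G ⧸ U) :
    χ (g • x).out = χ g * χ x.out := by
  have hx : g • x = ((g * x.out : G) : G ⧸ U) := by
    conv_lhs => rw [← QuotientGroup.out_eq' x]
    rfl
  rw [hx]
  obtain ⟨u, hu⟩ := QuotientGroup.mk_out_eq_mul U (g * x.out)
  rw [hu, map_mul, MonoidHom.mem_ker.1 (hU u.2), mul_one, map_mul]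

/-- the pairing `(f, h) ↦ Σ_x χ(x) f(x) · h(x)` -/
noncomputable def funPair (χ : G →* kˣ) (U : Subgroup G) (A : Type*) [AddCommGroup A]
    [Module k A] [Module.Finite k A] [Fintype (G ⧸ U)] :
    (G ⧸ U → A) →ₗ[k] (G ⧸ U → A) →ₗ[k] k :=
  ∑ x, (χ x.out : k) • ((Module.finBasis k A).toDual.compl₁₂ (LinearMap.proj x)
    (LinearMap.proj x) : (G ⧸ U → A) →ₗ[k] (G ⧸ U → A) →ₗ[k] k)

lemma funPair_apply [Fintype (G ⧸ U)] (f h : G ⧸ U → A) :
    funPair χ U A f h = ∑ x, (χ x.out : k) * (Module.finBasis k A).toDual (f x) (h x) := by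
  simp [funPair, LinearMap.sum_apply]

lemma biEquivar_funPair [Fintype (G ⧸ U)] (hU : U ≤ χ.ker) :
    BiEquivar (funRep (G ⧸ U) (Representation.trivial k G A))
      (funRep (G ⧸ U) (Representation.trivial k G A)) (mu χ) (funPair χ U A) := by
  intro g f h
  rw [mu_apply, funPair_apply, funPair_apply, Finset.mul_sum,
    ← Equiv.sum_comp (MulAction.toPerm g : (G ⧸ U) ≃ (G ⧸ U))]
  refine Finset.sum_congr rfl fun x _ => ?_
  rw [MulAction.toPerm_apply, funRep_apply, funRep_apply, inv_smul_smul, chi_out hU,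
    Units.val_mul, mul_assoc]
  rfl

lemma funPair_bijective [Fintype (G ⧸ U)] : Function.Bijective (funPair χ U A) := by
  classical
  have hinj : Function.Injective (funPair χ U A) := by
    rw [← LinearMap.ker_eq_bot, eq_bot_iff]
    intro f hf
    rw [Submodule.mem_bot]
    funext x
    apply (Module.finBasis k A).toDual_injective
    rw [Pi.zero_apply, map_zero]
    ext a
    have h1 := LinearMap.congr_fun (LinearMap.mem_ker.1 hf) (Pi.single x a)
    rw [funPair_apply, LinearMap.zero_apply, Finset.sum_eq_single x] at h1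
    · rw [Pi.single_eq_same] at h1
      exact (mul_eq_zero.1 h1).resolve_left (Units.ne_zero _)
    · intro y _ hy
      rw [Pi.single_eq_of_ne hy, map_zero, mul_zero]
    · intro h; exact absurd (Finset.mem_univ _) h
  refine ⟨hinj, ?_⟩
  rw [← LinearMap.injective_iff_surjective_of_finrank_eq_finrank]
  · exact hinj
  · rw [Module.finrank_linearMap, finrank_self, mul_one]

lemma chi2_dtw_funRep [Fintype (G ⧸ U)] (hU : U ≤ χ.ker) (𝓛 : Levels G) :
    chi2 𝓛 (dtw χ (funRep (G ⧸ U) (Representation.trivial k G A))) =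
      chi2 𝓛 (funRep (G ⧸ U) (Representation.trivial k G A)) := by
  have he : Equivar (funRep (G ⧸ U) (Representation.trivial k G A))
      (dtw χ (funRep (G ⧸ U) (Representation.trivial k G A)))
      ((LinearEquiv.ofBijective (funPair χ U A) funPair_bijective :
        (G ⧸ U → A) ≃ₗ[k] Module.Dual k (G ⧸ U → A)) :
        (G ⧸ U → A) →ₗ[k] Module.Dual k (G ⧸ U → A)) := equivar_pairing (biEquivar_funPair hU)
  exact (chi2_congr 𝓛 he).symm

end pairing

section arith

variable {k G : Type} [Field k] [Group G] {𝓛 : Levels G} {D : LD 𝓛} {χ : G →* kˣ}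
  {U : Subgroup G}

lemma dec_le_ker (hle : U ≤ χ.ker) (v : D.ι) (g : G) :
    dec (D.loc v) U g ≤ (χ.comp (D.loc v)).ker := by
  intro x hx
  have h1 := MonoidHom.mem_ker.1 (hle (mem_dec.1 hx))
  rw [map_mul, map_mul, map_inv, mul_comm, mul_inv_cancel_left] at h1
  exact MonoidHom.mem_ker.2 h1

/-- `Σ_v χ(G_v, X_U) = - [G : U]` -/
lemma sum_chi2_loc (hA : ArithInput D χ) (hU : 𝓛.op U) (hle : U ≤ χ.ker) :
    ∑ v, chi2 (D.lev v) (D.rv (funRep (G ⧸ U) (Representation.trivial k G k)) v) =
      -(U.index : ℤ) := by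
  obtain ⟨c, hc, h1⟩ := hA.loc_h1
  have key : ∀ v, chi2 (D.lev v) (D.rv (funRep (G ⧸ U) (Representation.trivial k G k)) v) =
      -((c v : ℤ) * U.index) := by
    intro v
    have := finite_places (D.loc v) hU
    rw [chi2, finrank_invariants_places (k := k) (D.loc v) U,
      finrank_H1_places_eq (D.cont v) hU (c v) (fun g =>
        h1 v _ (op_dec (D.cont v) hU g) (dec_le_ker hle v g)),
      finrank_H2_places_eq_nPl (D.cont v) hU (fun g =>
        hA.loc_h2 v _ (op_dec (D.cont v) hU g) (dec_le_ker hle v g))]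
    push_cast
    ring
  rw [Finset.sum_congr rfl fun v _ => key v, Finset.sum_neg_distrib, ← Finset.sum_mul]
  rw [← Nat.cast_sum, hc, Nat.cast_one, one_mul]

lemma finrank_P2_XU (hA : ArithInput D χ) (hU : 𝓛.op U) (hle : U ≤ χ.ker) :
    finrank k (D.P2 (funRep (G ⧸ U) (Representation.trivial k G k))) = D.nPlaces U := by
  have hfin : ∀ v, Module.Finite k
      (H2 (D.lev v) (D.rv (funRep (G ⧸ U) (Representation.trivial k G k)) v)) := fun v =>
    finite_H2_places (D.cont v) hU fun g =>
      hA.loc_fin2 v _ (op_dec (D.cont v) hU g) (dec_le_ker hle v g)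
  rw [Module.finrank_pi_fintype, LD.nPlaces]
  exact Finset.sum_congr rfl fun v _ => finrank_H2_places_eq_nPl (D.cont v) hU (fun g =>
        hA.loc_h2 v _ (op_dec (D.cont v) hU g) (dec_le_ker hle v g))

/-- `2 χ(G, X_U) = - [G : U]` if `dim Cok(X_U) = 1` -/
lemma two_mul_chi2_XU (hA : ArithInput D χ) (hU : 𝓛.op U) (hle : U ≤ χ.ker)
    (hcok : finrank k (D.Cok (funRep (G ⧸ U) (Representation.trivial k G k))) = 1) :
    2 * chi2 𝓛 (funRep (G ⧸ U) (Representation.trivial k G k)) = -(U.index : ℤ) := by
  have h0 := finrank_invariants_funRep (k := k) (cosetReps U)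
  rw [Fintype.card_unit] at h0
  have hf1 := hA.glob_fin1 U hU hle
  have hf2 := hA.glob_fin2 U hU hle
  have hf2' : Module.Finite k (H2 𝓛 (funRep (G ⧸ U) (Representation.trivial k G k))) :=
    Module.Finite.equiv (shX2 k hU).symm
  have hfin : ∀ v, Module.Finite k
      (H2 (D.lev v) (D.rv (funRep (G ⧸ U) (Representation.trivial k G k)) v)) := fun v =>
    finite_H2_places (D.cont v) hU fun g =>
      hA.loc_fin2 v _ (op_dec (D.cont v) hU g) (dec_le_ker hle v g)
  have h1 := hA.glob_h U hU hle
  have h2 : finrank k (H1 𝓛 (funRep (G ⧸ U) (Representation.trivial k G k))) =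
      finrank k (H1 (𝓛.onSub U) (Representation.trivial k U k)) := (shX1 k hU).finrank_eq
  have h3 := LinearMap.finrank_range_add_finrank_ker
    (D.loc2 (funRep (G ⧸ U) (Representation.trivial k G k)))
  have h4 := Submodule.finrank_quotient_add_finrank
    (LinearMap.range (D.loc2 (funRep (G ⧸ U) (Representation.trivial k G k))))
  rw [finrank_P2_XU hA hU hle] at h4
  have h5 : finrank k (LinearMap.ker
      (D.loc2 (funRep (G ⧸ U) (Representation.trivial k G k)))) = finrank k (D.ShaU2 k U) :=
    D.finrank_Sha2_funRep hU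
  have h6 : finrank k (D.P2 (funRep (G ⧸ U) (Representation.trivial k G k)) ⧸
      LinearMap.range (D.loc2 (funRep (G ⧸ U) (Representation.trivial k G k)))) = 1 := hcok
  rw [chi2, h0]
  rw [h5] at h3
  rw [h6] at h4
  omega

/-- the defect of an induced module vanishes -/
theorem defect_funRep (hA : ArithInput D χ) (hU : 𝓛.op U) (hle : U ≤ χ.ker)
    (hcok : finrank k (D.Cok (funRep (G ⧸ U) (Representation.trivial k G k))) = 1)
    (A : Type) [AddCommGroup A] [Module k A] [Module.Finite k A] :
    defect D χ (funRep (G ⧸ U) (Representation.trivial k G A)) = 0 := by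
  have := finite_coset hU
  have := Fintype.ofFinite (G ⧸ U)
  have hf1 := hA.glob_fin1 U hU hle
  have hf2 := hA.glob_fin2 U hU hle
  have hF : Fin2 𝓛 (funRep (G ⧸ U) (Representation.trivial k G k)) :=
    ⟨inferInstance, Module.Finite.equiv (shX1 k hU).symm, Module.Finite.equiv (shX2 k hU).symm⟩
  have hFv : ∀ v, Fin2 (D.lev v) (D.rv (funRep (G ⧸ U) (Representation.trivial k G k)) v) :=
    fun v => ⟨inferInstance,
      finite_H1_places (D.cont v) hU fun g =>
        hA.loc_fin1 v _ (op_dec (D.cont v) hU g) (dec_le_ker hle v g),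
      finite_H2_places (D.cont v) hU fun g =>
        hA.loc_fin2 v _ (op_dec (D.cont v) hU g) (dec_le_ker hle v g)⟩
  have h1 := chi2_funRep_A (A := A) hF
  have h2 := chi2_dtw_funRep (A := A) hle 𝓛
  have h3 : ∀ v, chi2 (D.lev v) (D.rv (funRep (G ⧸ U) (Representation.trivial k G A)) v) =
      finrank k A *
        chi2 (D.lev v) (D.rv (funRep (G ⧸ U) (Representation.trivial k G k)) v) :=
    fun v => chi2_funRep_A_comp (A := A) (hFv v)
  have h4 := sum_chi2_loc hA hU hle
  have h5 := two_mul_chi2_XU hA hU hle hcok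
  rw [defect, h2, h1, Finset.sum_congr rfl fun v _ => h3 v, ← Finset.mul_sum, h4]
  linear_combination (finrank k A : ℤ) * h5

end arith

end Fermat.Agent.H75
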