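import Mathlib
import Fermat.Agent.H55RF
import Fermat.Agent.H55ShapiroF
import Fermat.Agent.H65FourierC
import Fermat.Agent.H75Final
import Fermat.Agent.H75Ind

set_option autoImplicit false
set_option maxSynthPendingDepth 3

/-!
# S55 : from the arithmetic input to the numerical Poitou-Tate theorem
-/

namespace Fermat.Agent.H55

open Module

section Gen

variable {p : ℕ} [Fact p.Prime] {G : Type} [Group G] {𝓛 : Levels G}

lemma not_dvd_index_ker {G : Type*} [Group G] (χ : G →* (ZMod p)ˣ) : ¬ p ∣ χ.ker.index := by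
  have hp : p.Prime := Fact.out
  rw [Subgroup.index_ker]
  have h1 : Nat.card χ.range ∣ p - 1 := by
    have := Subgroup.card_subgroup_dvd_card χ.range
    rwa [Nat.card_eq_fintype_card (α := (ZMod p)ˣ), ZMod.card_units] at this
  intro h
  have h2 := Nat.le_of_dvd (by have := hp.two_le; omega) (h.trans h1)
  have := hp.two_le
  omega

theorem EC.rightExact {W : Subgroup G} (hEC : EC p 𝓛 W) : H75.RightExact (ZMod p) 𝓛 where
  fin1 ρ hρ := (hEC.fin2_all hρ).f1
  fin2 ρ hρ := (hEC.fin2_all hρ).f2
  surj E := hEC.right_exact E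

/-- the functor `H²` -/
noncomputable def h2RF (hR : H75.RightExact (ZMod p) 𝓛) : RF (ZMod p) 𝓛 where
  obj ρ := ModuleCat.of (ZMod p) (H2 𝓛 ρ)
  map hφ := H2c 𝓛 hφ
  map_id x := H2c_id x
  map_comp hψ hφ x := H2c_comp hψ hφ x
  map_add hφ hψ x := H2c_add hφ hψ x
  map_smul c _ hφ x := H2c_smul c hφ x
  surj E := hR.surj E
  exact E y := E.H2q_eq_zero_iff y

end Gen

namespace ArithInput

variable {p : ℕ} [Fact p.Prime] {G : Type} [Group G] {𝓛 : Levels G} {D : LD 𝓛}
  {χ : G →* (ZMod p)ˣ} (hA : ArithInput D χ)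

include hA in
lemma locOp (v : D.ι) : (D.lev v).op (χ.comp (D.loc v)).ker := by
  rw [← MonoidHom.comap_ker]
  exact D.cont v _ hA.open_ker

include hA in
/-- the local Euler characteristic is multiplicative -/
theorem locEC (v : D.ι) : EC p (D.lev v) (χ.comp (D.loc v)).ker where
  opW := hA.locOp v
  normal := MonoidHom.normal_ker _
  cop := not_dvd_index_ker _
  fin1 := hA.loc_fin1 v
  fin2 := hA.loc_fin2 v
  ec U V hU hV hUV hVW := by
    obtain ⟨c, -, hc⟩ := hA.loc_h1
    have key : ∀ V, (D.lev v).op V → V ≤ (χ.comp (D.loc v)).ker →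
        chi2 ((D.lev v).onSub V) (Representation.trivial (ZMod p) V (ZMod p)) =
          -((c v : ℤ) * V.index) := by
      intro V hV hVW
      rw [chi2, hc v V hV hVW, hA.loc_h2 v V hV hVW, finrank_invariants_trivial, finrank_self]
      push_cast
      ring
    rw [key U hU (hUV.trans hVW), key V hV hVW, ← Subgroup.relIndex_mul_index hUV]
    push_cast
    ring

include hA in
theorem locRE (v : D.ι) : H75.RightExact (ZMod p) (D.lev v) := (hA.locEC v).rightExact

include hA in
theorem locGood (v : D.ι) : (h2RF (hA.locRE v)).Good (χ.comp (D.loc v)) where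
  open_ker := hA.locOp v
  one U hU hle := by
    have h := (shapU2 (Representation.trivial (ZMod p) (D.Gv v) (ZMod p)) hU).finrank_eq
    exact h.trans (hA.loc_h2 v U hU hle)
  nontriv := by
    obtain ⟨h1, h2, h3⟩ := H65.fourier_of_rightExact hA hA.locRE
    have hnt : Nontrivial (D.Cok (mu χ)) := by
      apply Module.nontrivial_of_finrank_pos (R := ZMod p)
      rw [h2]; exact one_pos
    exact (Equiv.ofBijective _ (h3 v)).nontrivial

include hA in
/-- local duality in degree 2 -/
theorem locHyp (v : D.ι) : H75.LocHyp (D.lev v) (χ.comp (D.loc v)) where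
  op_ker := hA.locOp v
  fin1 := (hA.locRE v).fin1
  fin2 := (hA.locRE v).fin2
  surj := (hA.locRE v).surj
  h2 ρ hρ := by
    have h := (hA.locGood v).finrank_eq hρ
    rw [homMu_eq_invariants] at h
    exact h

include hA in
/-- `dim Cok(X_U) = 1` -/
theorem finrank_Cok (U : Subgroup G) (hU : 𝓛.op U) (hle : U ≤ χ.ker) :
    Module.Finite (ZMod p) (D.Cok (funRep (G ⧸ U) (Representation.trivial (ZMod p) G (ZMod p)))) ∧
    finrank (ZMod p) (D.Cok (funRep (G ⧸ U) (Representation.trivial (ZMod p) G (ZMod p)))) = 1 := by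
  obtain ⟨h1, h2⟩ := H65.finrank_Cok_XU_le_of_rightExact hA hA.locRE hU
  obtain ⟨h3, h4, -⟩ := H65.fourier_of_rightExact hA hA.locRE
  refine ⟨h1, le_antisymm h2 ?_⟩
  classical
  have hfin : Finite (G ⧸ U) := finite_coset hU
  have := 𝓛.finiteIndex hU
  have hsurj : Function.Surjective (eps χ U hle (LinearMap.id : ZMod p →ₗ[ZMod p] ZMod p)) :=
    fun a => ⟨Pi.single ((1 : G) : G ⧸ U) a, eps_single χ U hle _ a⟩
  have hs : Smooth 𝓛 (funRep (G ⧸ U) (Representation.trivial (ZMod p) G (ZMod p))) :=
    smooth_funRep hU (smooth_trivial 𝓛)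
  have h5 : Function.Surjective (H65.CokMap D (eps_equivar χ U hle
      (LinearMap.id : ZMod p →ₗ[ZMod p] ZMod p))) :=
    H65.CokMap_surjective D _ fun v =>
      H65.surj_of_rightExact (hA.locRE v) _ hsurj (hs.comp (D.cont v))
  have h6 := LinearMap.finrank_le_finrank_of_surjective h5
  rw [h4] at h6
  exact h6

include hA in
/-- the global Euler characteristic is multiplicative -/
theorem globEC : EC p 𝓛 χ.ker where
  opW := hA.open_ker
  normal := MonoidHom.normal_ker _
  cop := not_dvd_index_ker _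
  fin1 := hA.glob_fin1
  fin2 := hA.glob_fin2
  ec U V hU hV hUV hVW := by
    have key : ∀ V, 𝓛.op V → V ≤ χ.ker →
        2 * chi2 (𝓛.onSub V) (Representation.trivial (ZMod p) V (ZMod p)) = -(V.index : ℤ) := by
      intro V hV hVW
      rw [← H75.two_mul_chi2_XU hA hV hVW (hA.finrank_Cok V hV hVW).2]
      congr 1
      exact (chi2_sh (ρ := Representation.trivial (ZMod p) G (ZMod p)) hV
        (smooth_trivial 𝓛)).symm
    have h1 := key U hU (hUV.trans hVW)
    have h2 := key V hV hVW
    rw [← Subgroup.relIndex_mul_index hUV] at h1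
    push_cast at h1
    have h3 : (2 : ℤ) * chi2 (𝓛.onSub U) (Representation.trivial (ZMod p) U (ZMod p)) =
        2 * (U.relIndex V * chi2 (𝓛.onSub V) (Representation.trivial (ZMod p) V (ZMod p))) := by
      rw [h1]
      linear_combination (-(U.relIndex V : ℤ)) * h2
    exact mul_left_cancel₀ two_ne_zero h3

include hA in
theorem globRE : H75.RightExact (ZMod p) 𝓛 := hA.globEC.rightExact

variable (D) in
/-- the functor `Cok` is right exact -/
noncomputable def cokRF (hR : H75.RightExact (ZMod p) 𝓛)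
    (hL : ∀ v, H75.RightExact (ZMod p) (D.lev v)) : RF (ZMod p) 𝓛 where
  obj ρ := ModuleCat.of (ZMod p) (D.Cok ρ)
  map hφ := H65.CokMap D hφ
  map_id x := H65.CokMap_id D x
  map_comp hψ hφ x := H65.CokMap_comp D hψ hφ x
  map_add hφ hψ x := by
    induction x using Submodule.Quotient.induction_on with
    | H x =>
      rw [H65.CokMap_mk, H65.CokMap_mk, H65.CokMap_mk, ← Submodule.Quotient.mk_add]
      congr 1
      funext v
      exact H2c_add (hφ.res (D.loc v)) (hψ.res (D.loc v)) (x v)
  map_smul c _ hφ x := H65.CokMap_smul D c hφ x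
  surj E := H65.CokMap_surjective D _ fun v => (hL v).surj (E.res (D.cont v))
  exact {A B C} _ _ _ _ _ _ _ ρA ρB ρC E y := by
    constructor
    · intro h
      induction y using Submodule.Quotient.induction_on with
      | H y =>
        rw [H65.CokMap_mk, Submodule.Quotient.mk_eq_zero] at h
        obtain ⟨z, hz⟩ := h
        obtain ⟨w, rfl⟩ := hR.surj E z
        rw [← H65.P2map_loc2] at hz
        have h1 : ∀ v, ∃ x, H2c (D.lev v) (E.res (D.cont v)).hi x = (y - D.loc2 ρB w) v := by
          intro v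
          refine ((E.res (D.cont v)).H2q_eq_zero_iff _).1 ?_
          have h2 := congrFun hz v
          rw [Pi.sub_apply, map_sub, sub_eq_zero]
          exact h2.symm
        choose x hx using h1
        refine ⟨Submodule.Quotient.mk x, ?_⟩
        rw [H65.CokMap_mk, Submodule.Quotient.eq]
        have h3 : H65.P2map D E.hi x = y - D.loc2 ρB w := funext hx
        rw [h3]
        exact ⟨-w, by rw [map_neg]; abel⟩
    · rintro ⟨x, rfl⟩
      rw [← H65.CokMap_comp]
      have h0 : E.q ∘ₗ E.i = 0 := LinearMap.ext fun a => (E.exact _).2 ⟨a, rfl⟩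
      rw [H65.CokMap_congr (hψ := Equivar.zero) D h0, H65.CokMap_zero]

include hA in
theorem cokGood : (cokRF D hA.globRE hA.locRE).Good χ where
  open_ker := hA.open_ker
  one U hU hle := (hA.finrank_Cok U hU hle).2
  nontriv := by
    obtain ⟨h1, h2, h3⟩ := H65.fourier_of_rightExact hA hA.locRE
    apply Module.nontrivial_of_finrank_pos (R := ZMod p)
    have h2' : finrank (ZMod p) ((cokRF D hA.globRE hA.locRE).obj (mu χ)) = 1 := h2
    rw [h2']
    exact one_pos

include hA in
theorem fullHyp : H75.FullHyp D χ where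
  op_ker := hA.open_ker
  glob := hA.globRE
  loc := hA.locRE
  cok ρ hρ := by
    have h := hA.cokGood.finrank_eq hρ
    rw [homMu_eq_invariants] at h
    exact h
  locHyp := hA.locHyp
  inj v := by
    obtain ⟨h1, h2, h3⟩ := H65.fourier_of_rightExact hA hA.locRE
    convert (h3 v).1 using 2
    rw [H65.J_apply]
    congr!
  ind U hU hle A _ _ _ := (H75.defect_funRep hA hU hle (hA.finrank_Cok U hU hle).2 A).le

include hA in
/-- **Poitou-Tate, numerical form, from the arithmetic input.** -/
theorem poitouTate {A : Type} [AddCommGroup A] [Module (ZMod p) A] [Module.Finite (ZMod p) A]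
    {ρ : Representation (ZMod p) G A} (hs : Smooth 𝓛 ρ) :
    Module.Finite (ZMod p) (D.Sha1 (dtw χ ρ)) ∧ Module.Finite (ZMod p) (D.Sha2 ρ) ∧
      finrank (ZMod p) (D.Sha1 (dtw χ ρ)) = finrank (ZMod p) (D.Sha2 ρ) := by
  have h1 := hA.globRE.fin1 _ (H75.smooth_dtw hA.open_ker hs)
  have h2 := hA.globRE.fin2 _ hs
  exact ⟨inferInstance, inferInstance, hA.fullHyp.finrank_Sha hs⟩

end ArithInput

end Fermat.Agent.H55
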