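import Mathlib
import Fermat.Prelude.Def_GroupCohomology_ContinuousUnramified
import Fermat.Agent.H55Arith

set_option autoImplicit false
set_option maxSynthPendingDepth 3

/-!
# S55, F6: comparison of the level cohomology of `H55Level` with the Prelude
-/

namespace Fermat.Agent.H73.F6

open Fermat.Agent CategoryTheory groupCohomology

universe u

section deg1

variable {k G : Type u} [CommRing k] [Group G] (𝓛 : H55.Levels G) (A : Rep k G)

lemma Z1_le : H55.Z1 𝓛 A.ρ ≤ cocycles₁ A := fun f hf => (mem_cocycles₁_iff f).mpr hf.2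

/-- comparison map in degree 1 -/
noncomputable def toH1 : H55.H1 𝓛 A.ρ →ₗ[k] groupCohomology.H1 A :=
  Submodule.liftQ _ ((H1π A).hom ∘ₗ Submodule.inclusion (Z1_le 𝓛 A)) (by
    rintro ⟨f, hf⟩ ⟨a, ha⟩
    rw [LinearMap.mem_ker, LinearMap.comp_apply]
    refine (H1π_eq_zero_iff _).mpr ⟨a, ?_⟩
    exact ha)

lemma toH1_mk (f : ↥(H55.Z1 𝓛 A.ρ)) :
    toH1 𝓛 A (H55.H1π 𝓛 A.ρ f) = (H1π A).hom (Submodule.inclusion (Z1_le 𝓛 A) f) := rfl

lemma H1π_eq_zero_iff' (c : cocycles₁ A) :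
    (H1π A).hom c = 0 ↔ ∃ a : A, ∀ g, A.ρ g a - a = c g := by
  refine (H1π_eq_zero_iff c).trans ?_
  constructor
  · rintro ⟨a, ha⟩
    exact ⟨a, fun g => congrFun ha g⟩
  · rintro ⟨a, ha⟩
    exact ⟨a, funext ha⟩

lemma toH1_injective : Function.Injective (toH1 𝓛 A) := by
  rw [injective_iff_map_eq_zero]
  intro x hx
  obtain ⟨f, rfl⟩ := H55.H1π_surjective _ _ x
  rw [toH1_mk, H1π_eq_zero_iff'] at hx
  rw [H55.H1π_eq_zero_iff]
  obtain ⟨a, ha⟩ := hx
  exact ⟨a, funext ha⟩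

lemma mem_range_toH1 (x : groupCohomology.H1 A) : x ∈ LinearMap.range (toH1 𝓛 A) ↔
    ∃ c : cocycles₁ A, H55.LC1 𝓛 c ∧ (H1π A).hom c = x := by
  constructor
  · rintro ⟨y, rfl⟩
    obtain ⟨f, rfl⟩ := H55.H1π_surjective _ _ y
    exact ⟨⟨f, Z1_le 𝓛 A f.2⟩, f.2.1, rfl⟩
  · rintro ⟨c, hc, rfl⟩
    exact ⟨H55.H1π 𝓛 A.ρ ⟨c, hc, (mem_cocycles₁_iff _).mp c.2⟩, rfl⟩

end deg1

section loc1

variable {k G H : Type u} [CommRing k] [Group G] [Group H] (A : Rep k G) (f : H →* G)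

lemma map_H1π_eq_zero_iff (c : cocycles₁ A) :
    (groupCohomology.map f (𝟙 (Rep.res f A)) 1).hom ((H1π A).hom c) = 0 ↔
      ∃ a : A, ∀ h, A.ρ (f h) a - a = c (f h) := by
  have h1 : (groupCohomology.map f (𝟙 (Rep.res f A)) 1).hom ((H1π A).hom c) =
      (H1π (Rep.res f A)).hom ((mapCocycles₁ f (𝟙 (Rep.res f A))).hom c) :=
    H1π_comp_map_apply f (𝟙 (Rep.res f A)) c
  rw [h1, H1π_eq_zero_iff']
  rfl

end loc1

section finite

variable {k G A : Type*} [Field k] [Group G] [Finite G] [AddCommGroup A] [Module k A]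

/-- cocycles of a finite group of invertible order are coboundaries -/
lemma exists_d0_of_invertible (hG : (Nat.card G : k) ≠ 0) (ρ : Representation k G A) (f : G → A)
    (hf : ∀ g h, f (g * h) = ρ g (f h) + f g) : ∃ a, ∀ g, ρ g a - a = f g := by
  have := Fintype.ofFinite G
  refine ⟨-((Nat.card G : k)⁻¹ • ∑ h, f h), fun g => ?_⟩
  have h1 : ∑ h, f (g * h) = ∑ h, f h := Fintype.sum_equiv (Equiv.mulLeft g) _ _ fun _ => rfl
  have h2 : ∑ h, f (g * h) = ρ g (∑ h, f h) + (Nat.card G : k) • f g := by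
    simp only [hf]
    rw [Finset.sum_add_distrib, map_sum, Finset.sum_const, Finset.card_univ,
      ← Nat.card_eq_fintype_card, Nat.cast_smul_eq_nsmul]
  rw [h1] at h2
  rw [map_neg, map_smul]
  have h3 : ρ g (∑ h, f h) = (∑ h, f h) - (Nat.card G : k) • f g := by
    rw [eq_sub_iff_add_eq]; exact h2.symm
  rw [h3, smul_sub, smul_smul, inv_mul_cancel₀ hG, one_smul]
  abel

/-- level constant 2-cocycles of a finite group of invertible order are coboundaries of level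
constant cochains -/
lemma exists_d1_of_invertible (hG : (Nat.card G : k) ≠ 0) (𝓛 : H55.Levels G)
    (ρ : Representation k G A) (f : G × G → A) (hf : f ∈ H55.Z2 𝓛 ρ) :
    ∃ x, H55.LC1 𝓛 x ∧ H55.d1 ρ x = f := by
  have := Fintype.ofFinite G
  refine ⟨fun g => (Nat.card G : k)⁻¹ • ∑ j, f (g, j), ?_, ?_⟩
  · obtain ⟨U, hU, h⟩ := hf.1
    refine ⟨U, hU, fun g s hs => ?_⟩
    simp only
    congr 1
    refine Finset.sum_congr rfl fun j _ => ?_
    have := h g j s hs 1 U.one_mem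
    rwa [mul_one] at this
  · funext ⟨g, h⟩
    simp only [H55.d1_apply, map_smul]
    rw [← smul_sub, ← smul_add, inv_smul_eq_iff₀ hG]
    have h1 : ∑ j, f (g, h * j) = ∑ j, f (g, j) :=
      Fintype.sum_equiv (Equiv.mulLeft h) _ _ fun _ => rfl
    have h2 : ∑ j, (f (g * h, j) + f (g, h)) = ∑ j, (ρ g (f (h, j)) + f (g, h * j)) :=
      Finset.sum_congr rfl fun j _ => hf.2 g h j
    rw [Finset.sum_add_distrib, Finset.sum_add_distrib, h1, Finset.sum_const, Finset.card_univ,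
      ← Nat.card_eq_fintype_card, ← Nat.cast_smul_eq_nsmul k, ← map_sum] at h2
    rw [← sub_eq_zero] at h2 ⊢
    rw [← neg_eq_zero, ← h2]
    abel

end finite

end Fermat.Agent.H73.F6
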