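import Mathlib
import Fermat.Agent.H73F6a

set_option autoImplicit false
set_option maxSynthPendingDepth 3

/-!
# S55, F6: comparison of `Sha1`, `Sha2` with the Prelude `sha₁`, `sha₂`
-/

namespace Fermat.Agent.H73.F6

open Fermat.Agent CategoryTheory groupCohomology ExtCitation

local notation "Qb" => AlgebraicClosure ℚ
local notation "GQ" => (AlgebraicClosure ℚ ≃ₐ[ℚ] AlgebraicClosure ℚ)

section arch

instance finite_arch : Finite archimedeanDecomposition := by
  have : IsOfFinOrder complexConjugation :=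
    isOfFinOrder_iff_pow_eq_one.mpr ⟨2, by norm_num, complexConjugation_sq⟩
  exact (finite_zpowers.mpr this).to_subtype

lemma card_arch_ne_zero {p : ℕ} [hp : Fact p.Prime] (hp2 : p ≠ 2) :
    ((Nat.card archimedeanDecomposition : ℕ) : ZMod p) ≠ 0 := by
  have h1 : Nat.card archimedeanDecomposition = orderOf complexConjugation :=
    Nat.card_zpowers _
  have h2 : orderOf complexConjugation ∣ 2 := orderOf_dvd_of_pow_eq_one complexConjugation_sq
  rw [h1, Ne, ZMod.natCast_eq_zero_iff]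
  intro h
  have := h.trans h2
  exact hp2 ((Nat.prime_dvd_prime_iff_eq hp.out Nat.prime_two).mp this)

end arch

variable {p : ℕ} [hp : Fact p.Prime] (S : Finset Nat.Primes)

section sha1

variable (A : Rep (ZMod p) GQ)

lemma mem_Sha1_mk_iff (f : ↥(H55.Z1 (H55.ramLevels S) A.ρ)) :
    H55.H1π (H55.ramLevels S) A.ρ f ∈ (H55.DS S).Sha1 A.ρ ↔
      ∀ q : ↥S, ∃ a : A, ∀ h, A.ρ (primeLocalToGlobal q.1 h) a - a =
        (f : GQ → A) (primeLocalToGlobal q.1 h) := by
  rw [H55.LD.Sha1, LinearMap.mem_ker, funext_iff]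
  refine forall_congr' fun q => ?_
  rw [H55.LD.loc1_apply, H55.H1res, H55.H1map_mk, Pi.zero_apply, H55.H1π_eq_zero_iff]
  constructor
  · rintro ⟨a, ha⟩
    exact ⟨a, fun h => congrFun ha h⟩
  · rintro ⟨a, ha⟩
    exact ⟨a, funext ha⟩

lemma mem_sha1_iff (x : groupCohomology.H1 A) : x ∈ sha₁ S A ↔
    (∃ c : cocycles₁ A, IsLevelConstantS₁ S c ∧ (H1π A).hom c = x) ∧
      ∀ v : extArithIndex S, (locRes (extArithLoc S) A v).hom x = 0 := by
  rw [sha₁, Submodule.mem_inf, mem_continuousH1S_iff, LinearMap.mem_ker, funext_iff]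
  rfl

theorem map_Sha1 (hp2 : p ≠ 2) :
    ((H55.DS S).Sha1 A.ρ).map (toH1 (H55.ramLevels S) A) = sha₁ S A := by
  ext x
  rw [Submodule.mem_map, mem_sha1_iff]
  constructor
  · rintro ⟨y, hy, rfl⟩
    obtain ⟨f, rfl⟩ := H55.H1π_surjective _ _ y
    rw [mem_Sha1_mk_iff] at hy
    refine ⟨⟨⟨f, Z1_le _ A f.2⟩, (H55.isLevelConstantS₁_iff' S _).mpr f.2.1, rfl⟩, ?_⟩
    rw [toH1_mk]
    intro v
    refine (map_H1π_eq_zero_iff A (extArithLoc S v) _).mpr ?_
    rcases v with u | q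
    · exact exists_d0_of_invertible (G := archimedeanDecomposition) (k := ZMod p)
        (card_arch_ne_zero hp2) (A.ρ.comp archimedeanLoc) (fun g => (f : GQ → A) (archimedeanLoc g))
        (fun g h => by
          rw [map_mul]
          exact f.2.2 _ _)
    · exact hy q
  · rintro ⟨⟨c, hc, rfl⟩, hloc⟩
    refine ⟨H55.H1π (H55.ramLevels S) A.ρ ⟨c, (H55.isLevelConstantS₁_iff' S _).mp hc, (mem_cocycles₁_iff _).mp c.2⟩,
      ?_, rfl⟩
    rw [mem_Sha1_mk_iff]
    intro q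
    exact (map_H1π_eq_zero_iff (H := primeLocalGaloisGroup q.1) A (primeLocalToGlobal q.1) c).mp
      (hloc (Sum.inr q))

/-- `Sha1 ≃ sha₁` -/
noncomputable def sha1Equiv (hp2 : p ≠ 2) :
    ((H55.DS S).Sha1 A.ρ) ≃ₗ[ZMod p] sha₁ S A :=
  (Submodule.equivMapOfInjective (toH1 (H55.ramLevels S) A) (toH1_injective _ A) _).trans
    (LinearEquiv.ofEq _ _ (map_Sha1 S A hp2))

end sha1

section sha2

variable (M : Rep (ZMod p) GQ)

lemma Z2_eq : H55.Z2 (H55.ramLevels S) M.ρ = levelCocyclesS₂ S M := by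
  ext f
  rw [H55.mem_Z2, mem_levelCocyclesS₂_iff, mem_cocycles₂_iff, H55.isLevelConstantS₂_iff']
  exact and_comm

lemma B2_eq : H55.B2 (H55.ramLevels S) M.ρ = levelCoboundariesS₂ S M := by
  ext f
  rw [H55.mem_B2, mem_levelCoboundariesS₂_iff]
  refine exists_congr fun x => ?_
  rw [H55.isLevelConstantS₁_iff']
  exact Iff.rfl

lemma Z2_eq_loc {H : Type} [Group H] (r : H →* GQ) (N : Rep (ZMod p) H) :
    H55.Z2 (H55.krullLevels.comap r) N.ρ = levelCocycles₂ r N := by
  ext f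
  rw [H55.mem_Z2, mem_levelCocycles₂_iff, mem_cocycles₂_iff, H55.isLevelConstant₂_iff']
  exact and_comm

lemma B2_eq_loc {H : Type} [Group H] (r : H →* GQ) (N : Rep (ZMod p) H) :
    H55.B2 (H55.krullLevels.comap r) N.ρ = levelCoboundaries₂ r N := by
  ext f
  rw [H55.mem_B2, mem_levelCoboundaries₂_iff]
  refine exists_congr fun x => ?_
  rw [H55.isLevelConstant₁_iff']
  exact Iff.rfl

/-- comparison in degree 2 -/
noncomputable def h2Equiv : H55.H2 (H55.ramLevels S) M.ρ ≃ₗ[ZMod p] continuousH2S S M :=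
  Submodule.Quotient.equiv _ _ (LinearEquiv.ofEq _ _ (Z2_eq S M)) (by
    ext f
    rw [Submodule.mem_map]
    constructor
    · rintro ⟨g, hg, rfl⟩
      have : (g : GQ × GQ → M) ∈ H55.B2 (H55.ramLevels S) M.ρ := hg
      rw [B2_eq] at this
      exact this
    · intro hf
      have hf' : (f : GQ × GQ → M) ∈ levelCoboundariesS₂ S M := hf
      rw [← B2_eq] at hf'
      exact ⟨⟨f, by rw [Z2_eq]; exact f.2⟩, hf', rfl⟩)

lemma h2Equiv_mk (f : ↥(H55.Z2 (H55.ramLevels S) M.ρ)) :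
    h2Equiv S M (H55.H2π (H55.ramLevels S) M.ρ f) = continuousH2Sπ S M ⟨f, by rw [← Z2_eq]; exact f.2⟩ := rfl

lemma mem_Sha2_mk_iff (f : ↥(H55.Z2 (H55.ramLevels S) M.ρ)) :
    H55.H2π (H55.ramLevels S) M.ρ f ∈ (H55.DS S).Sha2 M.ρ ↔
      ∀ q : ↥S, (fun h : primeLocalGaloisGroup q.1 × primeLocalGaloisGroup q.1 =>
        (f : GQ × GQ → M) (primeLocalToGlobal q.1 h.1, primeLocalToGlobal q.1 h.2)) ∈
          H55.B2 (H55.krullLevels.comap (primeLocalToGlobal q.1))
            (M.ρ.comp (primeLocalToGlobal q.1)) := by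
  rw [H55.LD.Sha2, LinearMap.mem_ker, funext_iff]
  refine forall_congr' fun q => ?_
  rw [H55.LD.loc2_apply, H55.H2res, H55.H2map_mk, Pi.zero_apply, H55.H2π_eq_zero_iff, H55.mem_B2]
  exact Iff.rfl

lemma locRes₂S_mk_eq_zero_iff {H : Type} [Group H] (r : H →* GQ)
    (f : ↥(levelCocyclesS₂ S M)) :
    locRes₂S S M r (continuousH2Sπ S M f) = 0 ↔
      (fun h : H × H => (f : GQ × GQ → M) (r h.1, r h.2)) ∈
        levelCoboundaries₂ r (Rep.res r M) := by
  exact continuousH2π_eq_zero_iff r (Rep.res r M) _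

theorem mem_sha2_iff (hp2 : p ≠ 2) (x : H55.H2 (H55.ramLevels S) M.ρ) :
    h2Equiv S M x ∈ sha₂ S M ↔ x ∈ (H55.DS S).Sha2 M.ρ := by
  obtain ⟨f, rfl⟩ := H55.H2π_surjective _ _ x
  rw [mem_Sha2_mk_iff, h2Equiv_mk, sha₂, LinearMap.mem_ker, funext_iff]
  constructor
  · intro h q
    have h2 := (locRes₂S_mk_eq_zero_iff (H := primeLocalGaloisGroup q.1) S M
      (primeLocalToGlobal q.1) _).mp (h (Sum.inr q))
    rw [← B2_eq_loc] at h2
    exact h2
  · intro h v
    rcases v with u | q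
    · refine (locRes₂S_mk_eq_zero_iff (H := archimedeanDecomposition) S M archimedeanLoc _).mpr ?_
      rw [← B2_eq_loc, H55.mem_B2]
      refine exists_d1_of_invertible (G := archimedeanDecomposition) (k := ZMod p)
        (card_arch_ne_zero hp2) _ (M.ρ.comp archimedeanLoc) _ ⟨?_, ?_⟩
      · exact (f.2.1.precomp (H55.Levels.cont_id _)).precomp (𝓜 := H55.krullLevels.comap archimedeanLoc) (fun U hU => ⟨U, H55.ramLevels_le_krullLevels S hU, le_rfl⟩)
      · intro g h j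
        simp only [map_mul]
        exact f.2.2 _ _ _
    · refine (locRes₂S_mk_eq_zero_iff (H := primeLocalGaloisGroup q.1) S M
        (primeLocalToGlobal q.1) _).mpr ?_
      rw [← B2_eq_loc]
      exact h q

end sha2

end Fermat.Agent.H73.F6
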