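import Mathlib
import Fermat.Agent.H73F6b
import Fermat.Agent.H63Cyclo

set_option autoImplicit false
set_option maxSynthPendingDepth 3

/-!
# S55, F6: the bridge from the numerical Poitou-Tate theorem to the Prelude statement

* `ramLevels_op_of_krull`: an open subgroup containing all inertia groups outside `S` is a
  `ramLevels S`-open subgroup.
* `op_ker_cycloChar`, `smooth_of_unramified`, `smooth_dtw`.
* `S55_of`.
-/

namespace Fermat.Agent.H73.F6

open Fermat.Agent CategoryTheory groupCohomology ExtCitation Module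

local notation "Qb" => AlgebraicClosure ℚ
local notation "GQ" => (AlgebraicClosure ℚ ≃ₐ[ℚ] AlgebraicClosure ℚ)

/-- An open subgroup of the absolute Galois group containing all inertia subgroups at the primes
outside `S` is the Galois group of a number field unramified outside `S`. -/
theorem ramLevels_op_of_krull (S : Finset Nat.Primes) {N : Subgroup GQ}
    (hN : H55.krullLevels.op N)
    (hI : ∀ q : Nat.Primes, q ∉ S → ∀ A : ValuationSubring Qb, A.LiesOverPrime (q : ℕ) →
      A.inertiaSubgroupIn ℚ ≤ N) : (H55.ramLevels S).op N := by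
  rw [H55.krullLevels_op_iff] at hN
  obtain ⟨F, hF, hle⟩ := hN
  have hFo : IsOpen (F.fixingSubgroup : Set GQ) := F.fixingSubgroup_isOpen
  have hNo : IsOpen (N : Set GQ) := Subgroup.isOpen_mono hle hFo
  have hNc : IsClosed (N : Set GQ) := Subgroup.isClosed_of_isOpen N hNo
  let E : IntermediateField ℚ Qb := IntermediateField.fixedField N
  have hE : E.fixingSubgroup = N := InfiniteGalois.fixingSubgroup_fixedField ⟨N, hNc⟩
  have hEfin : FiniteDimensional ℚ E := by
    rw [← InfiniteGalois.isOpen_iff_finite, hE]; exact hNo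
  rw [H55.ramLevels_op_iff]
  refine ⟨E, ⟨hEfin, fun q hq A hA => ?_⟩, hE.le⟩
  rw [hE]
  exact hI q hq A hA

section cyclo

variable {p : ℕ} [hp : Fact p.Prime]

theorem krull_op_ker_cycloChar : H55.krullLevels.op (cycloChar p).ker := by
  obtain ⟨ζ, -, hζ⟩ := H63.exists_primitiveRoot p
  rw [H55.krullLevels_op_iff]
  have hint : IsIntegral ℚ (ζ : Qb) := Algebra.IsIntegral.isIntegral _
  refine ⟨IntermediateField.adjoin ℚ {(ζ : Qb)}, IntermediateField.adjoin.finiteDimensional hint, ?_⟩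
  intro σ hσ
  rw [MonoidHom.mem_ker, H63.cycloChar_eq_one_iff hζ]
  exact (IntermediateField.mem_fixingSubgroup_iff _ σ).mp hσ _
    (IntermediateField.mem_adjoin_simple_self ℚ (ζ : Qb))

/-- `ℚ(μ_p)` is unramified outside `S ∋ p`. -/
theorem op_ker_cycloChar (S : Finset Nat.Primes) (hpS : pPrime p ∈ S) :
    (H55.ramLevels S).op (cycloChar p).ker := by
  refine ramLevels_op_of_krull S krull_op_ker_cycloChar fun q hq A hA σ hσ => ?_
  have hqp : (q : ℕ) ≠ p := by
    intro h
    apply hq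
    have : q = pPrime p := Subtype.ext h
    rwa [this]
  exact H63.cycloChar_eq_one_of_mem_inertia q.2 hqp hA hσ

end cyclo

section smooth

variable {p : ℕ} [hp : Fact p.Prime] {V : Type} [AddCommGroup V] [Module (ZMod p) V]

/-- A finite representation with open stabilisers, unramified outside `S`, factors through a
number field unramified outside `S`. -/
theorem exists_op_of_unramified [Finite V] (S : Finset Nat.Primes)
    (ρ : Representation (ZMod p) GQ V)
    (hsm : ∀ m : V, ∃ F : IntermediateField ℚ Qb, FiniteDimensional ℚ F ∧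
      ∀ s ∈ F.fixingSubgroup, ρ s m = m)
    (hur : ∀ q : Nat.Primes, q ∉ S → ∀ A : ValuationSubring Qb,
      A.LiesOverPrime (q : ℕ) → ∀ g ∈ A.inertiaSubgroupIn ℚ, ρ g = 1) :
    ∃ U, (H55.ramLevels S).op U ∧ ∀ s ∈ U, ρ s = 1 := by
  have hs : H55.Smooth H55.krullLevels ρ := by
    intro m
    obtain ⟨F, hF, h⟩ := hsm m
    exact ⟨F.fixingSubgroup, (H55.krullLevels_op_iff _).mpr ⟨F, hF, le_rfl⟩, h⟩
  obtain ⟨U, hU, h⟩ := hs.uniform (Set.finite_univ (α := V))
  refine ⟨MonoidHom.ker ρ, ramLevels_op_of_krull S ?_ ?_, fun s hs => MonoidHom.mem_ker.mp hs⟩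
  · refine H55.krullLevels.op_mono ?_ hU
    intro g hg
    rw [MonoidHom.mem_ker]
    exact LinearMap.ext fun a => h g hg a (Set.mem_univ a)
  · intro q hq A hA g hg
    rw [MonoidHom.mem_ker]
    exact hur q hq A hA g hg

theorem smooth_of_unramified [Finite V] (S : Finset Nat.Primes)
    (ρ : Representation (ZMod p) GQ V)
    (hsm : ∀ m : V, ∃ F : IntermediateField ℚ Qb, FiniteDimensional ℚ F ∧
      ∀ s ∈ F.fixingSubgroup, ρ s m = m)
    (hur : ∀ q : Nat.Primes, q ∉ S → ∀ A : ValuationSubring Qb,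
      A.LiesOverPrime (q : ℕ) → ∀ g ∈ A.inertiaSubgroupIn ℚ, ρ g = 1) :
    H55.Smooth (H55.ramLevels S) ρ := by
  obtain ⟨U, hU, h⟩ := exists_op_of_unramified S ρ hsm hur
  exact fun a => ⟨U, hU, fun s hs => by rw [h s hs]; rfl⟩

/-- the twisted dual of a smooth finite representation is smooth -/
theorem smooth_dtw {G : Type*} [Group G] (𝓛 : H55.Levels G) {k A : Type*} [CommRing k]
    [AddCommGroup A] [Module k A] [Finite A] {ρ : Representation k G A} (hs : H55.Smooth 𝓛 ρ)
    {χ : G →* kˣ} (hχ : 𝓛.op χ.ker) : H55.Smooth 𝓛 (H55.dtw χ ρ) := by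
  obtain ⟨U, hU, h⟩ := hs.uniform (Set.finite_univ (α := A))
  intro f
  refine ⟨U ⊓ χ.ker, 𝓛.op_inf hU hχ, fun g hg => LinearMap.ext fun a => ?_⟩
  rw [H55.dtw_apply, MonoidHom.mem_ker.mp hg.2, Units.val_one, one_mul,
    h g⁻¹ (U.inv_mem hg.1) a (Set.mem_univ a)]

end smooth

section final

variable {p : ℕ} [hp : Fact p.Prime] (S : Finset Nat.Primes)
  (M : Rep (ZMod p) (AlgebraicClosure ℚ ≃ₐ[ℚ] AlgebraicClosure ℚ))

theorem map_Sha2 (hp2 : p ≠ 2) :
    ((H55.DS S).Sha2 M.ρ).map (h2Equiv S M).toLinearMap = sha₂ S M := by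
  ext y
  obtain ⟨x, rfl⟩ := (h2Equiv S M).surjective y
  rw [mem_sha2_iff S M hp2]
  constructor
  · rintro ⟨z, hz, h⟩
    have := (h2Equiv S M).injective h
    rwa [← this]
  · intro h
    exact ⟨x, h, rfl⟩

/-- `Sha2 ≃ sha₂` -/
noncomputable def sha2Equiv (hp2 : p ≠ 2) :
    ((H55.DS S).Sha2 M.ρ) ≃ₗ[ZMod p] sha₂ S M :=
  ((h2Equiv S M).submoduleMap _).trans (LinearEquiv.ofEq _ _ (map_Sha2 S M hp2))

/-- two finite dimensional spaces of the same dimension are in perfect duality -/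
theorem exists_perfect {k V W : Type*} [Field k] [AddCommGroup V] [Module k V] [AddCommGroup W]
    [Module k W] [Module.Finite k V] [Module.Finite k W] (h : finrank k V = finrank k W) :
    ∃ B : V →ₗ[k] W →ₗ[k] k, (∀ y, (∀ x, B y x = 0) → y = 0) ∧
      (∀ x, (∀ y, B y x = 0) → x = 0) := by
  obtain ⟨e⟩ := FiniteDimensional.nonempty_linearEquiv_of_finrank_eq h.symm
  let b := Module.finBasis k V
  refine ⟨(b.toDual).compl₂ e.toLinearMap, ?_, ?_⟩
  · intro y hy
    apply b.toDual_injective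
    rw [map_zero]
    refine LinearMap.ext fun v => ?_
    obtain ⟨x, rfl⟩ := e.surjective v
    exact hy x
  · intro x hx
    apply e.injective
    rw [map_zero, ← Module.forall_dual_apply_eq_zero_iff k]
    intro φ
    obtain ⟨y, rfl⟩ := b.toDualEquiv.surjective φ
    exact hx y

/-- **F6**: the statement S55 from the numerical statement. -/
theorem S55_of (hp2 : p ≠ 2)
    (h1 : Module.Finite (ZMod p) ((H55.DS S).Sha1 (H55.dtw (cycloChar p) M.ρ)))
    (h2 : Module.Finite (ZMod p) ((H55.DS S).Sha2 M.ρ))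
    (h3 : finrank (ZMod p) ((H55.DS S).Sha1 (H55.dtw (cycloChar p) M.ρ)) =
      finrank (ZMod p) ((H55.DS S).Sha2 M.ρ)) :
    ∃ B : sha₁ S (M.dualTwist (cycloChar p)) →ₗ[ZMod p] sha₂ S M →ₗ[ZMod p] ZMod p,
      (∀ y, (∀ x, B y x = 0) → y = 0) ∧ (∀ x, (∀ y, B y x = 0) → x = 0) := by
  have e1 := sha1Equiv S (M.dualTwist (cycloChar p)) hp2
  have e2 := sha2Equiv S M hp2
  have f1 : Module.Finite (ZMod p) (sha₁ S (M.dualTwist (cycloChar p))) := Module.Finite.equiv e1
  have f2 : Module.Finite (ZMod p) (sha₂ S M) := Module.Finite.equiv e2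
  refine exists_perfect ?_
  rw [← e1.finrank_eq, ← e2.finrank_eq]
  exact h3

/-- S55 from the numerical Poitou-Tate theorem for all smooth finite representations. -/
theorem S55_of_numeric (hp2 : p ≠ 2) (hpS : pPrime p ∈ S) [FiniteDimensional (ZMod p) M]
    (hsm : ∀ m : M, ∃ F : IntermediateField ℚ (AlgebraicClosure ℚ), FiniteDimensional ℚ F ∧
      ∀ s ∈ F.fixingSubgroup, M.ρ s m = m)
    (hMur : ∀ q : Nat.Primes, q ∉ S → ∀ A : ValuationSubring (AlgebraicClosure ℚ),
      A.LiesOverPrime (q : ℕ) → ∀ g ∈ A.inertiaSubgroupIn ℚ, M.ρ g = 1)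
    (hPT : ∀ (V : Type) [AddCommGroup V] [Module (ZMod p) V] [Module.Finite (ZMod p) V]
      (ρ : Representation (ZMod p) GQ V), H55.Smooth (H55.ramLevels S) ρ →
      Module.Finite (ZMod p) ((H55.DS S).Sha1 (H55.dtw (cycloChar p) ρ)) ∧
      Module.Finite (ZMod p) ((H55.DS S).Sha2 ρ) ∧
      finrank (ZMod p) ((H55.DS S).Sha1 (H55.dtw (cycloChar p) ρ)) =
        finrank (ZMod p) ((H55.DS S).Sha2 ρ)) :
    ∃ B : sha₁ S (M.dualTwist (cycloChar p)) →ₗ[ZMod p] sha₂ S M →ₗ[ZMod p] ZMod p,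
      (∀ y, (∀ x, B y x = 0) → y = 0) ∧ (∀ x, (∀ y, B y x = 0) → x = 0) := by
  have _ := hpS
  have : Finite M := Module.finite_of_finite (ZMod p)
  obtain ⟨h1, h2, h3⟩ := hPT M M.ρ (smooth_of_unramified S M.ρ hsm hMur)
  exact S55_of S M hp2 h1 h2 h3

end final

end Fermat.Agent.H73.F6
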