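import Mathlib
import Fermat.Agent.H55ShapiroF
import Fermat.Agent.H75Ind

set_option autoImplicit false
set_option maxSynthPendingDepth 3

/-!
# S55 : finiteness of `H²_S` from finiteness of `ShaU2`
-/

namespace Fermat.Agent.H55

open Module

variable {k G : Type} [Field k] [Group G] {𝓛 : Levels G} {D : LD 𝓛} {χ : G →* kˣ}

/-- `glob_fin2` from finiteness of `ShaU2` and of the local groups -/
theorem finite_H2_of_finite_ShaU2
    (hloc : ∀ v V, (D.lev v).op V → V ≤ (χ.comp (D.loc v)).ker →
      Module.Finite k (H2 ((D.lev v).onSub V) (Representation.trivial k V k)))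
    {U : Subgroup G} (hU : 𝓛.op U) (hle : U ≤ χ.ker) (hfin : Module.Finite k (D.ShaU2 k U)) :
    Module.Finite k (H2 (𝓛.onSub U) (Representation.trivial k U k)) := by
  have hfin' : ∀ v, Module.Finite k
      (H2 (D.lev v) (D.rv (funRep (G ⧸ U) (Representation.trivial k G k)) v)) := fun v =>
    finite_H2_places (D.cont v) hU fun g =>
      hloc v _ (op_dec (D.cont v) hU g) (H75.dec_le_ker hle v g)
  have h1 : Module.Finite k (D.Sha2 (funRep (G ⧸ U) (Representation.trivial k G k))) :=
    Module.Finite.equiv (D.shaEquiv hU).symm
  have h2 : Module.Finite k (LinearMap.ker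
      (D.loc2 (funRep (G ⧸ U) (Representation.trivial k G k)))) := h1
  have h3 : Module.Finite k (H2 𝓛 (funRep (G ⧸ U) (Representation.trivial k G k))) := by
    have h4 : Module.Finite k (LinearMap.range
      (D.loc2 (funRep (G ⧸ U) (Representation.trivial k G k)))) := inferInstance
    have h5 := Module.Finite.equiv (D.loc2
      (funRep (G ⧸ U) (Representation.trivial k G k))).quotKerEquivRange.symm
    exact Module.Finite.of_submodule_quotient
      (LinearMap.ker (D.loc2 (funRep (G ⧸ U) (Representation.trivial k G k))))
  exact Module.Finite.equiv (shX2 k hU)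

end Fermat.Agent.H55
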