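import Mathlib
import Fermat.Agent.H7BrSymb

/-!
# Torsion in cyclic layers (H7)
-/

set_option autoImplicit false
set_option linter.unusedSectionVars false

namespace Fermat.Agent.H7

open groupCohomology Fermat.Agent.H91 Fermat.Agent.H91.LevelFam

universe u v

variable {G : Type u} [Group G] {A : Type v} [AddCommGroup A] [DistribMulAction G A]

theorem nrm_mul (σ : G) (m k : ℕ) (a : A) : nrm σ (m * k) a = nrm σ m (nrm (σ ^ m) k a) := by
  induction k with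
  | zero => simp [nrm]
  | succ k ih =>
    rw [Nat.mul_succ]
    have h1 : nrm σ (m * k + m) a = nrm σ (m * k) a + σ ^ (m * k) • nrm σ m a := by
      rw [nrm, Finset.sum_range_add, nrm, nrm, Finset.smul_sum]
      congr 1
      refine Finset.sum_congr rfl fun j _ => ?_
      rw [pow_add, mul_smul]
    have h2 : nrm (σ ^ m) (k + 1) a = nrm (σ ^ m) k a + σ ^ (m * k) • a := by
      rw [nrm, Finset.sum_range_succ, ← pow_mul]
      rfl
    have h3 : ∀ b c : A, nrm σ m (b + c) = nrm σ m b + nrm σ m c := fun b c =>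
      (nrmHom A σ m).map_add b c
    have h4 : σ ^ (m * k) • nrm σ m a = nrm σ m (σ ^ (m * k) • a) := by
      rw [nrm, nrm, Finset.smul_sum]
      refine Finset.sum_congr rfl fun j _ => ?_
      rw [← mul_smul, ← mul_smul, ← pow_add, ← pow_add, add_comm]
    rw [h1, h2, h3, ih, h4]

theorem relIndex_map_dvd {M N : Type*} [AddCommGroup M] [AddCommGroup N] (f : M →+ N)
    {H K : AddSubgroup M} (hHK : H ≤ K) : (H.map f).relIndex (K.map f) ∣ H.relIndex K := by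
  rw [AddSubgroup.relIndex_map_map]
  have : (H ⊔ f.ker).relIndex (K ⊔ f.ker) = (H ⊔ f.ker).relIndex K := by
    have h1 : K ⊔ f.ker = K ⊔ (H ⊔ f.ker) := by
      rw [← sup_assoc, sup_eq_left.2 hHK]
    rw [h1, AddSubgroup.relIndex_sup_right]
  rw [this]
  exact AddSubgroup.relIndex_dvd_of_le_left K le_sup_left

theorem nrm_of_fixed {U : Subgroup G} {a : A} (ha : a ∈ fix A U) {σ : G} (hσ : σ ∈ U) (n : ℕ) :
    nrm σ n a = n • a := by
  rw [nrm, Finset.sum_congr rfl fun k _ => ha _ (U.pow_mem hσ k), Finset.sum_const,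
    Finset.card_range]

variable {p : ℕ} [hp : Fact p.Prime] {𝓥 : LevelFam G}

theorem open_mono {U W : Subgroup G} (hU : 𝓥.IsOpenSubgroup U) (h : U ≤ W) :
    𝓥.IsOpenSubgroup W := IsOpenSubgroup.mono hU h

/-- If a class killed by `p` dies in a cyclic extension of degree `p ^ (k+1)`, it already dies in
the subextension of degree `p`. -/
theorem cyc_torsion (hCF : CF p 𝓥 A) {k n : ℕ} (hn : n = p ^ k * p)
    {χ : G →* Multiplicative (ZMod n)} (hs : Function.Surjective χ)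
    (hχ : 𝓥.IsOpenSubgroup χ.ker) {f : G × G → A} (hf : IsCocycle₂ f) (hc : 𝓥.IsConst₂ f)
    (hpf : 𝓥.Triv₂ ((p : ℤ) • f)) (ht : (𝓥.restrict χ.ker).Triv₂ (res₂ χ.ker f)) :
    (𝓥.restrict (redc hn χ).ker).Triv₂ (res₂ (redc hn χ).ker f) := by
  have hp0 : 0 < p := hp.out.pos
  have hp1 : 1 < p := hp.out.one_lt
  have hn0 : n ≠ 0 := by rw [hn]; positivity
  have : NeZero n := ⟨hn0⟩
  have hn1 : 1 < n := by
    rw [hn]; exact lt_of_lt_of_le hp1 (Nat.le_mul_of_pos_left p (pow_pos hp0 k))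
  obtain ⟨σ, hσ⟩ := hs (Multiplicative.ofAdd 1)
  obtain ⟨a, ha, hfa⟩ := exists_coh_cc hn1 hCF.smooth hχ (hCF.h90 _ hχ) hσ hf hc ht
  set χ₁ := redc hn χ with hχ₁
  have hχ₁o : 𝓥.IsOpenSubgroup χ₁.ker := open_mono hχ (ker_le_redc hn χ)
  have hσ₁ : χ₁ σ = Multiplicative.ofAdd 1 := redc_gen hn hσ
  -- it suffices that `f ~ l • cc χ₁ c`
  suffices h : ∃ c ∈ fix A (⊤ : Subgroup G), ∃ l : ℤ, Coh 𝓥 f (l • cc χ₁ c) by
    obtain ⟨c, -, l, hl⟩ := h
    have hr := hl.res χ₁.ker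
    have hz : res₂ χ₁.ker (l • cc χ₁ c) = 0 := by rw [← cc_zsmul, res_cc_ker]
    rw [hz] at hr
    exact hr.triv triv₂_zero
  rcases Nat.eq_zero_or_pos k with rfl | hk
  · have h2 := coh_redc hn hχ ha
    have e : ((p ^ 0 : ℕ) : ℤ) • cc χ a = cc χ a := by
      rw [pow_zero, Nat.cast_one, one_smul]
    rw [e] at h2
    exact ⟨a, ha, 1, by rw [one_smul]; exact hfa.trans h2⟩
  -- the layer of degree `p ^ k`
  have hn' : n = p * p ^ k := by rw [hn, mul_comm]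
  have hm0 : NeZero (p ^ k) := ⟨(pow_pos hp0 k).ne'⟩
  have hm1 : 1 < p ^ k := Nat.one_lt_pow hk.ne' hp1
  set χ' := redc hn' χ with hχ'
  have hχ'o : 𝓥.IsOpenSubgroup χ'.ker := open_mono hχ (ker_le_redc hn' χ)
  have hσ' : χ' σ = Multiplicative.ofAdd 1 := redc_gen hn' hσ
  set X := (fix A χ'.ker).map (nrmHom A σ (p ^ k)) with hX
  set Y := (fix A χ.ker).map (nrmHom A σ n) with hY
  have hcX : ∀ c ∈ fix A (⊤ : Subgroup G), 𝓥.Triv₂ ((p : ℤ) • cc χ c) ↔ c ∈ X := fun c hc' => by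
    rw [(coh_redc hn' hχ hc').triv_iff, triv₂_cc_iff hm1 hχ'o (hCF.h90 _ hχ'o) hσ' hc']
  have haX : a ∈ X := by
    rw [← hcX a ha]
    have := hfa.zsmul (p : ℤ)
    exact this.triv_iff.1 hpf
  have hσm : σ ^ p ^ k ∈ χ'.ker := (pow_mem_ker χ' hσ' _).2 dvd_rfl
  have hYX : Y = ((fix A χ.ker).map (nrmHom A (σ ^ p ^ k) p)).map (nrmHom A σ (p ^ k)) := by
    rw [hY, AddSubgroup.map_map]
    congr 1
    ext c
    rw [AddMonoidHom.comp_apply, nrmHom_apply, nrmHom_apply, nrmHom_apply, ← nrm_mul, hn]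
  have hidx : ((fix A χ.ker).map (nrmHom A (σ ^ p ^ k) p)).relIndex (fix A χ'.ker) = p := by
    refine hCF.idx χ'.ker χ.ker hχ (ker_le_redc hn' χ)
      (fun g _ h hh => χ.normal_ker.conj_mem h hh g) _ hσm p hp0.ne' (fun j => ?_) (fun g hg => ?_)
    · rw [← pow_mul, pow_mem_ker χ hσ, hn]
      exact mul_dvd_mul_iff_left (pow_pos hp0 k).ne'
    · obtain ⟨j, h, hh, rfl⟩ := exists_pow_mul χ hσ g
      have h1 : σ ^ j ∈ χ'.ker := by
        have := χ'.ker.mul_mem hg (χ'.ker.inv_mem (ker_le_redc hn' χ hh))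
        rwa [mul_inv_cancel_right] at this
      obtain ⟨i, rfl⟩ := (pow_mem_ker χ' hσ' j).1 h1
      exact ⟨i, h, hh, by rw [← pow_mul]⟩
  have hsub : (fix A χ.ker).map (nrmHom A (σ ^ p ^ k) p) ≤ fix A χ'.ker := by
    rintro _ ⟨c, hc', rfl⟩
    intro g hg
    obtain ⟨j, h, hh, rfl⟩ := exists_pow_mul χ hσ g
    have h1 : σ ^ j ∈ χ'.ker := by
      have := χ'.ker.mul_mem hg (χ'.ker.inv_mem (ker_le_redc hn' χ hh))
      rwa [mul_inv_cancel_right] at this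
    obtain ⟨i, rfl⟩ := (pow_mem_ker χ' hσ' j).1 h1
    rw [nrmHom_apply]
    set ρ := σ ^ p ^ k with hρ
    have hρp : ρ ^ p ∈ χ.ker := by
      rw [hρ, ← pow_mul, pow_mem_ker χ hσ, hn]
    -- `ker χ` fixes `nrm ρ p c`
    have a1 : ∀ x ∈ χ.ker, x • nrm ρ p c = nrm ρ p c := by
      intro x hx
      rw [nrm, Finset.smul_sum]
      refine Finset.sum_congr rfl fun j _ => ?_
      rw [← mul_smul]
      have : x * ρ ^ j = ρ ^ j * ((ρ ^ j)⁻¹ * x * ρ ^ j) := by group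
      rw [this, mul_smul]
      congr 1
      refine hc' _ ?_
      have := χ.normal_ker.conj_mem x hx (ρ ^ j)⁻¹
      rwa [inv_inv] at this
    have a2 : ρ • nrm ρ p c = nrm ρ p c := by
      have h5 := Finset.sum_range_succ' (fun j => ρ ^ j • c) p
      have h6 := Finset.sum_range_succ (fun j => ρ ^ j • c) p
      rw [hc' _ hρp] at h6
      rw [pow_zero, one_smul] at h5
      rw [nrm, Finset.smul_sum]
      have h7 : ∀ j ∈ Finset.range p, ρ • ρ ^ j • c = ρ ^ (j + 1) • c := fun j _ => by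
        rw [← mul_smul, ← pow_succ']
      rw [Finset.sum_congr rfl h7]
      have := h5.symm.trans h6
      exact add_right_cancel this
    have a3 : ∀ i : ℕ, ρ ^ i • nrm ρ p c = nrm ρ p c := by
      intro i
      induction i with
      | zero => rw [pow_zero, one_smul]
      | succ i ih => rw [pow_succ, mul_smul, a2, ih]
    rw [mul_smul, a1 h hh, pow_mul, ← hρ, a3]
  have hdvd : Y.relIndex X ∣ p := by
    have := relIndex_map_dvd (nrmHom A σ (p ^ k)) hsub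
    rwa [hidx, ← hYX] at this
  -- an element of the first layer
  have hN₁ := hCF.idx_ker hχ₁o hσ₁
  have hex : ∃ c ∈ fix A (⊤ : Subgroup G), c ∉ (fix A χ₁.ker).map (nrmHom A σ p) := by
    by_contra hcon
    push Not at hcon
    rw [AddSubgroup.relIndex_eq_one.2 hcon] at hN₁
    omega
  obtain ⟨c, hcf, hcN⟩ := hex
  have hc1 : ¬ 𝓥.Triv₂ (cc χ₁ c) := fun h =>
    hcN ((triv₂_cc_iff hp1 hχ₁o (hCF.h90 _ hχ₁o) hσ₁ hcf).1 h)
  have hcoh : Coh 𝓥 ((p ^ k : ℕ) • cc χ c) (cc χ₁ c) := by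
    have := coh_redc hn hχ hcf
    rwa [natCast_zsmul] at this
  have hpc : 𝓥.Triv₂ ((p : ℤ) • cc χ₁ c) := by
    rw [← cc_zsmul, triv₂_cc_iff hp1 hχ₁o (hCF.h90 _ hχ₁o) hσ₁
      ((fix A (⊤ : Subgroup G)).zsmul_mem hcf _)]
    refine ⟨c, fix_mono le_top hcf, ?_⟩
    rw [nrmHom_apply, nrm_of_fixed hcf trivial, natCast_zsmul]
  have hkc : (p ^ k : ℕ) • c ∈ fix A (⊤ : Subgroup G) := (fix A (⊤ : Subgroup G)).nsmul_mem hcf _
  have hcX' : (p ^ k : ℕ) • c ∈ X := by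
    rw [← hcX _ hkc, cc_nsmul]
    exact (hcoh.zsmul (p : ℤ)).triv_iff.2 hpc
  have hcY : (p ^ k : ℕ) • c ∉ Y := by
    intro h
    apply hc1
    rw [← hcoh.triv_iff, ← cc_nsmul, triv₂_cc_iff hn1 hχ (hCF.h90 _ hχ) hσ hkc]
    exact h
  have hXY : Y.relIndex X = p := by
    rcases (Nat.dvd_prime hp.out).1 hdvd with h | h
    · exact absurd (AddSubgroup.relIndex_eq_one.1 h hcX') hcY
    · exact h
  obtain ⟨l, hl⟩ := exists_zsmul_sub_mem hp.out hXY hcX' hcY haX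
  have ht2 : 𝓥.Triv₂ (cc χ (a - l • (p ^ k : ℕ) • c)) :=
    (triv₂_cc_iff hn1 hχ (hCF.h90 _ hχ) hσ ((fix A (⊤ : Subgroup G)).sub_mem ha
      ((fix A (⊤ : Subgroup G)).zsmul_mem hkc l))).2 hl
  rw [cc_sub, cc_zsmul, cc_nsmul] at ht2
  exact ⟨c, hcf, l, (hfa.trans ht2).trans (hcoh.zsmul l)⟩

end Fermat.Agent.H7
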