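import Mathlib
import Fermat.Agent.H7BrCyc

/-!
# Restriction of the class field axioms to open subgroups (H7)
-/

set_option autoImplicit false
set_option linter.unusedSectionVars false

namespace Fermat.Agent.H7

open groupCohomology Fermat.Agent.H91 Fermat.Agent.H91.LevelFam

universe u v

variable {G : Type u} [Group G] {A : Type v} [AddCommGroup A] [DistribMulAction G A]
  {𝓥 : LevelFam G}

variable (𝓥) in
/-- `f` is a level coboundary on the subgroup `H` -/
def TrivOn (H : Subgroup G) (f : G × G → A) : Prop :=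
  ∃ x : G → A, 𝓥.IsConst₁ x ∧ ∀ g ∈ H, ∀ h ∈ H, dd x (g, h) = f (g, h)

theorem trivOn_iff {H : Subgroup G} (hH : 𝓥.IsOpenSubgroup H) {f : G × G → A} :
    TrivOn 𝓥 H f ↔ (𝓥.restrict H).Triv₂ (res₂ H f) := by
  constructor
  · rintro ⟨x, hx, h⟩
    exact ⟨fun g => x g, hx.comap H.subtype, fun g g' => h g g.2 g' g'.2⟩
  · rintro ⟨x, hx, h⟩
    obtain ⟨y, hy, hyx⟩ := exists_extend hH hx
    refine ⟨y, hy, fun g hg g' hg' => ?_⟩
    have := h ⟨g, hg⟩ ⟨g', hg'⟩
    rw [dd_apply] at this ⊢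
    rw [← hyx, ← hyx, ← hyx] at this
    exact this

theorem TrivOn.mono {H H' : Subgroup G} (h : H' ≤ H) {f : G × G → A} (hf : TrivOn 𝓥 H f) :
    TrivOn 𝓥 H' f := by
  obtain ⟨x, hx, hxf⟩ := hf
  exact ⟨x, hx, fun g hg g' hg' => hxf g (h hg) g' (h hg')⟩

theorem trivOn_top {f : G × G → A} : TrivOn 𝓥 ⊤ f ↔ 𝓥.Triv₂ f :=
  ⟨fun ⟨x, hx, h⟩ => ⟨x, hx, fun g g' => h g trivial g' trivial⟩,
    fun ⟨x, hx, h⟩ => ⟨x, hx, fun g _ g' _ => h g g'⟩⟩

theorem trivOn_restrict {W : Subgroup G} (hW : 𝓥.IsOpenSubgroup W) (H : Subgroup W)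
    (f : G × G → A) : TrivOn (𝓥.restrict W) H (res₂ W f) ↔ TrivOn 𝓥 (H.map W.subtype) f := by
  constructor
  · rintro ⟨x, hx, h⟩
    obtain ⟨y, hy, hyx⟩ := exists_extend hW hx
    refine ⟨y, hy, ?_⟩
    rintro _ ⟨g, hg, rfl⟩ _ ⟨g', hg', rfl⟩
    have := h g hg g' hg'
    rw [dd_apply] at this ⊢
    rw [← hyx, ← hyx, ← hyx] at this
    exact this
  · rintro ⟨x, hx, h⟩
    exact ⟨fun g => x g, hx.comap W.subtype, fun g hg g' hg' =>
      h g ⟨g, hg, rfl⟩ g' ⟨g', hg', rfl⟩⟩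

theorem open_restrict {W : Subgroup G} (hW : 𝓥.IsOpenSubgroup W) (H : Subgroup W) :
    (𝓥.restrict W).IsOpenSubgroup H ↔ 𝓥.IsOpenSubgroup (H.map W.subtype) := by
  constructor
  · rintro ⟨_, ⟨V, hV, rfl⟩, hle⟩
    obtain ⟨V', hV', hle'⟩ := hW
    obtain ⟨X, hX, hXle⟩ := 𝓥.inf_mem' V hV V' hV'
    refine ⟨X, hX, fun x hx => ?_⟩
    have hxW : x ∈ W := hle' (hXle hx).2
    exact ⟨⟨x, hxW⟩, hle (show x ∈ V from (hXle hx).1), rfl⟩
  · rintro ⟨V, hV, hle⟩
    refine ⟨_, ⟨V, hV, rfl⟩, fun x hx => ?_⟩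
    obtain ⟨y, hy, hyx⟩ := hle (show (x : G) ∈ V from hx)
    have : y = x := Subtype.ext hyx
    rwa [← this]

theorem fix_map_subtype {W : Subgroup G} (H : Subgroup W) :
    fix A (H.map W.subtype) = fix A H := by
  ext a
  constructor
  · intro h g hg
    exact h g ⟨g, hg, rfl⟩
  · rintro h _ ⟨g, hg, rfl⟩
    exact h g hg

theorem nrm_subtype {W : Subgroup G} (σ : W) (n : ℕ) (a : A) : nrm (σ : G) n a = nrm σ n a := by
  rw [nrm, nrm]
  refine Finset.sum_congr rfl fun k _ => ?_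
  rw [← Subgroup.coe_pow]
  rfl

theorem CF.restrict {p : ℕ} (h : CF p 𝓥 A) {W : Subgroup G} (hW : 𝓥.IsOpenSubgroup W) :
    CF p (𝓥.restrict W) A where
  smooth a := by
    obtain ⟨V, hV, hVa⟩ := h.smooth a
    exact ⟨_, ⟨V, hV, rfl⟩, fun s hs => hVa s hs⟩
  div := h.div
  h90 H hH := by
    have hH' := (open_restrict hW H).1 hH
    intro f hf hc
    let e : H ≃* H.map W.subtype := H.equivMapOfInjective W.subtype W.subtype_injective
    have he : ∀ x : H, ((e x : H.map W.subtype) : G) = ((x : W) : G) := fun x => rfl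
    have he' : ∀ x : H.map W.subtype, (((e.symm x : H) : W) : G) = (x : G) := fun x => by
      rw [← he, e.apply_symm_apply]
    have hc' : (𝓥.restrict (H.map W.subtype)).IsConst₁ (fun x => f (e.symm x)) := by
      obtain ⟨_, ⟨_, ⟨V, hV, rfl⟩, rfl⟩, hVf⟩ := hc
      refine ⟨_, ⟨V, hV, rfl⟩, fun g s hs => ?_⟩
      show f (e.symm (g * s)) = f (e.symm g)
      rw [map_mul]
      refine hVf _ _ ?_
      show (((e.symm s : H) : W) : G) ∈ V
      rw [he']; exact hs
    obtain ⟨a, ha⟩ := h.h90 _ hH' (fun x => f (e.symm x)) (fun g g' => by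
      show f (e.symm (g * g')) = g • f (e.symm g') + f (e.symm g)
      rw [map_mul, hf]
      congr 1
      show (((e.symm g : H) : W) : G) • f (e.symm g') = (g : G) • f (e.symm g')
      rw [he']) hc'
    refine ⟨a, fun g => ?_⟩
    have := ha (e g)
    beta_reduce at this
    rw [e.symm_apply_apply] at this
    exact this
  idx U H hH hHU hnorm σ hσ n hn hpow hgen := by
    have hH' := (open_restrict hW H).1 hH
    have := h.idx (U.map W.subtype) (H.map W.subtype) hH' (Subgroup.map_mono hHU) ?_ (σ : G)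
      ⟨σ, hσ, rfl⟩ n hn ?_ ?_
    · rw [fix_map_subtype, fix_map_subtype] at this
      have h2 : nrmHom A (σ : G) n = nrmHom A σ n := by
        ext a; exact nrm_subtype σ n a
      rw [h2] at this
      exact this
    · rintro _ ⟨g, hg, rfl⟩ _ ⟨x, hx, rfl⟩
      exact ⟨_, hnorm g hg x hx, rfl⟩
    · intro k
      rw [← hpow k]
      constructor
      · rintro ⟨x, hx, hxk⟩
        have : x = σ ^ k := Subtype.ext hxk
        rwa [← this]
      · intro hk
        exact ⟨_, hk, rfl⟩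
    · rintro _ ⟨g, hg, rfl⟩
      obtain ⟨k, x, hx, rfl⟩ := hgen g hg
      exact ⟨k, x, ⟨x, hx, rfl⟩, rfl⟩

/-! ### towers -/

/-- a decreasing family of open normal subgroups with cyclic quotients of unbounded `p`-power
order -/
structure Tower (p : ℕ) (𝓥 : LevelFam G) (τ : ℕ → Subgroup G) : Prop where
  anti : Antitone τ
  opn : ∀ m, 𝓥.IsOpenSubgroup (τ m)
  cyc : ∀ m, ∃ (k : ℕ) (χ : G →* Multiplicative (ZMod (p ^ k))),
    Function.Surjective χ ∧ χ.ker = τ m
  big : ∀ K : ℕ, ∃ m, K < (τ m).index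

theorem exists_char_of_cyclic {p : ℕ} (hp : p.Prime) {C : Type*} [Group C] [IsCyclic C] {k : ℕ}
    (hC : Nat.card C = p ^ k) {H : Type*} [Group H] (φ : H →* C) :
    ∃ (j : ℕ) (χ : H →* Multiplicative (ZMod (p ^ j))), Function.Surjective χ ∧ χ.ker = φ.ker := by
  have hd : Nat.card φ.range ∣ p ^ k := hC ▸ Subgroup.card_subgroup_dvd_card φ.range
  obtain ⟨j, -, hj⟩ := (Nat.dvd_prime_pow hp).1 hd
  have e : Multiplicative (ZMod (p ^ j)) ≃* φ.range := by
    rw [← hj]; exact zmodCyclicMulEquiv inferInstance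
  refine ⟨j, e.symm.toMonoidHom.comp φ.rangeRestrict, ?_, ?_⟩
  · exact e.symm.surjective.comp φ.rangeRestrict_surjective
  · ext x
    rw [MonoidHom.mem_ker, MonoidHom.mem_ker, MonoidHom.comp_apply]
    constructor
    · intro h
      have : φ.rangeRestrict x = 1 := e.symm.injective (by rw [map_one]; exact h)
      exact congrArg Subtype.val this
    · intro h
      have : φ.rangeRestrict x = 1 := Subtype.ext h
      rw [this, map_one]

theorem Tower.restrict {p : ℕ} (hp : p.Prime) {τ : ℕ → Subgroup G} (h : Tower p 𝓥 τ)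
    {W : Subgroup G} (hW : 𝓥.IsOpenSubgroup W) :
    Tower p (𝓥.restrict W) (fun m => (τ m).subgroupOf W) where
  anti m m' hmm := Subgroup.comap_mono (h.anti hmm)
  opn m := by
    obtain ⟨V, hV, hle⟩ := h.opn m
    exact ⟨_, ⟨V, hV, rfl⟩, Subgroup.comap_mono hle⟩
  cyc m := by
    obtain ⟨k, χ, -, hχ⟩ := h.cyc m
    have : NeZero (p ^ k) := ⟨(pow_pos hp.pos k).ne'⟩
    obtain ⟨j, χ', h1, h2⟩ := exists_char_of_cyclic hp (C := Multiplicative (ZMod (p ^ k)))
      (k := k) (by simp) (χ.comp W.subtype)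
    refine ⟨j, χ', h1, ?_⟩
    rw [h2, ← hχ]
    rfl
  big K := by
    have := hW.finiteIndex
    obtain ⟨m, hm⟩ := h.big (K * W.index)
    refine ⟨m, ?_⟩
    have h1 : (τ m).index ≤ (τ m).relIndex W * W.index := by
      have hfi := (h.opn m).finiteIndex
      rw [← Subgroup.inf_relIndex_right, Subgroup.relIndex_mul_index inf_le_right]
      exact Subgroup.index_antitone inf_le_left
    exact lt_of_mul_lt_mul_right (hm.trans_le h1) (Nat.zero_le _)

end Fermat.Agent.H7
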