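import Mathlib
import Fermat.Agent.H7BrRestrict

/-!
# `H²` of a local group with coefficients in `μ_p` is one-dimensional, abstract form (H7)
-/

set_option autoImplicit false
set_option linter.unusedSectionVars false

namespace Fermat.Agent.H7

open groupCohomology Fermat.Agent.H91 Fermat.Agent.H91.LevelFam

universe u v

/-! ### group theory -/

theorem exists_mulEquiv_zmod {C : Type*} [Group C] [IsCyclic C] {n : ℕ} (h : Nat.card C = n) :
    Nonempty (Multiplicative (ZMod n) ≃* C) := by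
  subst h; exact ⟨zmodCyclicMulEquiv inferInstance⟩

theorem exists_char_of_pgroup {p : ℕ} [hp : Fact p.Prime] {G : Type u} [Group G] {N : Subgroup G}
    [N.Normal] {r : ℕ} (hN : N.index = p ^ (r + 1)) :
    ∃ χ : G →* Multiplicative (ZMod p), Function.Surjective χ ∧ N ≤ χ.ker ∧
      (N.subgroupOf χ.ker).index = p ^ r := by
  have hcard : Nat.card (G ⧸ N) = p ^ (r + 1) := hN
  have : Finite (G ⧸ N) := Nat.finite_of_card_ne_zero (by
    rw [hcard]; exact (pow_pos hp.out.pos _).ne')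
  obtain ⟨K, hK⟩ := Sylow.exists_subgroup_card_pow_prime (G := G ⧸ N) p (n := r)
    (by rw [hcard]; exact pow_dvd_pow p (Nat.le_succ r))
  have hKi : K.index = p := by
    have := K.card_mul_index
    rw [hK, hcard, pow_succ] at this
    exact Nat.eq_of_mul_eq_mul_left (pow_pos hp.out.pos r) this
  have hKn : K.Normal := by
    apply Subgroup.normal_of_index_eq_minFac_card
    rw [hKi, hcard, Nat.pow_minFac (Nat.succ_ne_zero r), hp.out.minFac_eq]
  let φ : G →* (G ⧸ N) ⧸ K := (QuotientGroup.mk' K).comp (QuotientGroup.mk' N)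
  have hφs : Function.Surjective φ :=
    (QuotientGroup.mk'_surjective K).comp (QuotientGroup.mk'_surjective N)
  have hcK : Nat.card ((G ⧸ N) ⧸ K) = p := hKi
  have hcyc : IsCyclic ((G ⧸ N) ⧸ K) := isCyclic_of_prime_card hcK
  obtain ⟨e⟩ := exists_mulEquiv_zmod hcK
  refine ⟨e.symm.toMonoidHom.comp φ, e.symm.surjective.comp hφs, ?_, ?_⟩
  · intro x hx
    rw [MonoidHom.mem_ker, MonoidHom.comp_apply]
    have : φ x = 1 := by
      show QuotientGroup.mk' K (QuotientGroup.mk' N x) = 1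
      have h0 : QuotientGroup.mk' N x = 1 := (QuotientGroup.eq_one_iff x).2 hx
      rw [h0, map_one]
    rw [this, map_one]
  · have hker : (e.symm.toMonoidHom.comp φ).ker = φ.ker := by
      ext x
      rw [MonoidHom.mem_ker, MonoidHom.mem_ker, MonoidHom.comp_apply]
      constructor
      · intro h
        exact e.symm.injective (by rw [map_one]; exact h)
      · intro h
        rw [h, map_one]
    rw [hker]
    have hle : N ≤ φ.ker := by
      intro x hx
      show QuotientGroup.mk' K (QuotientGroup.mk' N x) = 1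
      have h0 : QuotientGroup.mk' N x = 1 := (QuotientGroup.eq_one_iff x).2 hx
      rw [h0, map_one]
    have h1 : N.relIndex φ.ker * φ.ker.index = N.index := Subgroup.relIndex_mul_index hle
    have h2 : φ.ker.index = p := by
      rw [Subgroup.index_ker, MonoidHom.range_eq_top.2 hφs, Subgroup.card_top, hcK]
    rw [h2, hN, pow_succ] at h1
    exact Nat.eq_of_mul_eq_mul_right hp.out.pos h1

variable {A : Type v} [AddCommGroup A] {p : ℕ} [hp : Fact p.Prime] {ζ : A}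

/-- Any class killed by a normal subgroup of `p`-power index is killed by a layer of the tower. -/
theorem tower_kill (hζ : Zeta p ζ) (r : ℕ) : ∀ {G : Type u} [Group G] [DistribMulAction G A]
    (_ : ∀ g : G, g • ζ = ζ) {𝓥 : LevelFam G} (_ : CF p 𝓥 A) {τ : ℕ → Subgroup G}
    (_ : Tower p 𝓥 τ) {N : Subgroup G} (_ : 𝓥.IsOpenSubgroup N) [N.Normal] (_ : N.index = p ^ r)
    {f : G × G → A} (_ : IsCocycle₂ f) (_ : 𝓥.IsConst₂ f) (_ : TrivOn 𝓥 N f),
    ∃ m, TrivOn 𝓥 (τ m) f := by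
  induction r with
  | zero =>
    intro G _ _ _ 𝓥 _ τ _ N _ _ hNi f _ _ ht
    rw [pow_zero, Subgroup.index_eq_one] at hNi
    subst hNi
    exact ⟨0, ht.mono le_top⟩
  | succ r ih =>
    intro G _ _ hfix 𝓥 hCF τ hτ N hN _ hNi f hf hc ht
    obtain ⟨χ₀, hs₀, hNχ, hidx⟩ := exists_char_of_pgroup hNi
    set W := χ₀.ker with hWdef
    have hW : 𝓥.IsOpenSubgroup W := open_mono hN hNχ
    -- induction hypothesis on `W`
    have hfW : IsCocycle₂ (res₂ W f) := fun g h j => hf g h j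
    have hcW : (𝓥.restrict W).IsConst₂ (res₂ W f) := hc.comap W.subtype
    have hNW : (N.subgroupOf W).map W.subtype = N := by
      rw [Subgroup.subgroupOf_map_subtype, inf_eq_left.2 hNχ]
    obtain ⟨m, hm⟩ := ih (fun g : W => hfix g) (hCF.restrict hW) (hτ.restrict hp.out hW)
      (N := N.subgroupOf W) ((open_restrict hW _).2 (by rwa [hNW])) hidx hfW hcW
      ((trivOn_restrict hW _ f).2 (by rwa [hNW]))
    have hm' : TrivOn 𝓥 (τ m ⊓ W) f := by
      have := (trivOn_restrict hW _ f).1 hm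
      rwa [Subgroup.subgroupOf_map_subtype] at this
    by_cases hle : τ m ≤ W
    · exact ⟨m, by rwa [inf_eq_left.2 hle] at hm'⟩
    -- now work on `T = τ m`
    set T := τ m with hT
    have hTo : 𝓥.IsOpenSubgroup T := hτ.opn m
    set χ : T →* Multiplicative (ZMod p) := χ₀.comp T.subtype with hχ
    have hχs : Function.Surjective χ := by
      apply surjective_of_ne
      obtain ⟨g, hgT, hgW⟩ := SetLike.not_le_iff_exists.1 hle
      exact ⟨⟨g, hgT⟩, hgW⟩
    have hχk : χ.ker = W.subgroupOf T := rfl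
    have hχo : (𝓥.restrict T).IsOpenSubgroup χ.ker := by
      rw [hχk]
      obtain ⟨V, hV, hVle⟩ := hW
      exact ⟨_, ⟨V, hV, rfl⟩, Subgroup.comap_mono hVle⟩
    have hCFT := hCF.restrict hTo
    have hτT := hτ.restrict hp.out hTo
    obtain ⟨m', hm1⟩ := hτT.big 1
    obtain ⟨k, ψ, hψs, hψk⟩ := hτT.cyc m'

    have hk : k ≠ 0 := by
      rintro rfl
      have h1 : ψ.ker.index = 1 := by
        rw [Subgroup.index_ker, MonoidHom.range_eq_top.2 hψs, Subgroup.card_top]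
        simp
      rw [hψk] at h1
      omega
    obtain ⟨k, rfl⟩ := Nat.exists_eq_succ_of_ne_zero hk
    have hn : p ^ (k + 1) = p ^ k * p := pow_succ p k
    set χ' := redc hn ψ with hχ'
    have hχ'le : (τ m').subgroupOf T ≤ χ'.ker := hψk ▸ ker_le_redc hn ψ
    have hχ'o : (𝓥.restrict T).IsOpenSubgroup χ'.ker := open_mono (hτT.opn m') hχ'le
    have hχ's : Function.Surjective χ' := by
      apply surjective_of_ne
      obtain ⟨σ, hσ⟩ := hψs (Multiplicative.ofAdd 1)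
      refine ⟨σ, ?_⟩
      rw [hχ', redc_gen hn hσ]
      intro h0
      have : (1 : ZMod p) = 0 := Multiplicative.ofAdd.injective h0
      exact one_ne_zero this
    have hfT : IsCocycle₂ (res₂ T f) := fun g h j => hf g h j
    have hcT : (𝓥.restrict T).IsConst₂ (res₂ T f) := hc.comap T.subtype
    have htT : ((𝓥.restrict T).restrict χ.ker).Triv₂ (res₂ χ.ker (res₂ T f)) := by
      rw [← trivOn_iff hχo, trivOn_restrict hTo, hχk, Subgroup.subgroupOf_map_subtype, inf_comm]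
      exact hm'
    have key := symb_indep hζ (fun g : T => hfix g) hCFT hχs hχ's hχo hχ'o hfT hcT htT
    rw [← trivOn_iff hχ'o, trivOn_restrict hTo] at key
    refine ⟨max m m', key.mono ?_⟩
    intro x hx
    have hxT : x ∈ T := hτ.anti (le_max_left m m') hx
    exact ⟨⟨x, hxT⟩, hχ'le (show x ∈ τ m' from hτ.anti (le_max_right m m') hx), rfl⟩

variable {G : Type u} [Group G] [DistribMulAction G A] {𝓥 : LevelFam G}

theorem redc_surjective {k : ℕ} {n : ℕ} (hn : n = p ^ k * p) {ψ : G →* Multiplicative (ZMod n)}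
    (hψ : Function.Surjective ψ) : Function.Surjective (redc hn ψ) := by
  apply surjective_of_ne
  obtain ⟨σ, hσ⟩ := hψ (Multiplicative.ofAdd 1)
  refine ⟨σ, ?_⟩
  rw [redc_gen hn hσ]
  intro h0
  have : (1 : ZMod p) = 0 := Multiplicative.ofAdd.injective h0
  exact one_ne_zero this

/-- existence of an open character of order `p` -/
theorem Tower.exists_char {τ : ℕ → Subgroup G} (hτ : Tower p 𝓥 τ) :
    ∃ χ : G →* Multiplicative (ZMod p), Function.Surjective χ ∧ 𝓥.IsOpenSubgroup χ.ker := by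
  obtain ⟨m, hm⟩ := hτ.big 1
  obtain ⟨k, ψ, hψs, hψk⟩ := hτ.cyc m
  have hk : k ≠ 0 := by
    rintro rfl
    have h1 : ψ.ker.index = 1 := by
      rw [Subgroup.index_ker, MonoidHom.range_eq_top.2 hψs, Subgroup.card_top]
      simp
    rw [hψk] at h1
    omega
  obtain ⟨k, rfl⟩ := Nat.exists_eq_succ_of_ne_zero hk
  have hn : p ^ (k + 1) = p ^ k * p := pow_succ p k
  exact ⟨redc hn ψ, redc_surjective hn hψs,
    open_mono (hτ.opn m) (hψk ▸ ker_le_redc hn ψ)⟩

/-- A `p`-torsion class killed by an open normal subgroup of `p`-power index is killed by every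
open normal subgroup of index `p`. -/
theorem kill_p (hζ : Zeta p ζ) (hfix : ∀ g : G, g • ζ = ζ) (hCF : CF p 𝓥 A)
    {τ : ℕ → Subgroup G} (hτ : Tower p 𝓥 τ) {r : ℕ}
    {N : Subgroup G} (hN : 𝓥.IsOpenSubgroup N) [N.Normal] (hNi : N.index = p ^ r)
    {f : G × G → A} (hf : IsCocycle₂ f) (hc : 𝓥.IsConst₂ f) (hpf : 𝓥.Triv₂ ((p : ℤ) • f))
    (ht : TrivOn 𝓥 N f) {χ : G →* Multiplicative (ZMod p)} (hs : Function.Surjective χ)
    (hχ : 𝓥.IsOpenSubgroup χ.ker) : TrivOn 𝓥 χ.ker f := by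
  obtain ⟨m, hm⟩ := tower_kill hζ r hfix hCF hτ hN hNi hf hc ht
  obtain ⟨k, ψ, hψs, hψk⟩ := hτ.cyc m
  have hψo : 𝓥.IsOpenSubgroup ψ.ker := by rw [hψk]; exact hτ.opn m
  rcases Nat.eq_zero_or_pos k with rfl | hk
  · have h1 : ψ.ker.index = 1 := by
      rw [Subgroup.index_ker, MonoidHom.range_eq_top.2 hψs, Subgroup.card_top]
      simp
    rw [Subgroup.index_eq_one, hψk] at h1
    rw [h1] at hm
    exact hm.mono le_top
  obtain ⟨k, rfl⟩ := Nat.exists_eq_succ_of_ne_zero hk.ne'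
  have hn : p ^ (k + 1) = p ^ k * p := pow_succ p k
  rw [← hψk, trivOn_iff hψo] at hm
  have h2 := cyc_torsion hCF hn hψs hψo hf hc hpf hm
  have h3 := symb_indep hζ hfix hCF (redc_surjective hn hψs) hs
    (open_mono hψo (ker_le_redc hn ψ)) hχ hf hc h2
  exact (trivOn_iff hχ).2 h3

theorem exists_trivOn (hA : 𝓥.Smooth A) {f : G × G → A} (hc : 𝓥.IsConst₂ f) :
    ∃ N ∈ 𝓥.carrier, N.Normal ∧ TrivOn 𝓥 N f := by
  obtain ⟨V, hV, hVf⟩ := hc
  obtain ⟨V', hV', hV'f⟩ := hA (f (1, 1))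
  obtain ⟨V'', hV'', hle⟩ := 𝓥.inf_mem' V hV V' hV'
  obtain ⟨N, hN, hNV, hNn, -⟩ := 𝓥.core' V'' hV''
  refine ⟨N, hN, hNn, fun _ => f (1, 1), isConst₁_const _, fun g hg h hh => ?_⟩
  rw [dd_apply, hV'f g (hle (hNV hg)).2, sub_self, zero_add]
  have := hVf 1 1 g (hle (hNV hg)).1 h (hle (hNV hh)).1
  rw [one_mul, one_mul] at this
  exact this.symm

/-- **Upper bound**: two `p`-torsion classes are linearly dependent. -/
theorem dim_le_one (hζ : Zeta p ζ) (hfix : ∀ g : G, g • ζ = ζ) (hCF : CF p 𝓥 A)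
    {τ : ℕ → Subgroup G} (hτ : Tower p 𝓥 τ) {f₁ f₂ : G × G → A} (hf₁ : IsCocycle₂ f₁)
    (hf₂ : IsCocycle₂ f₂) (hc₁ : 𝓥.IsConst₂ f₁) (hc₂ : 𝓥.IsConst₂ f₂)
    (hp₁ : 𝓥.Triv₂ ((p : ℤ) • f₁)) (hp₂ : 𝓥.Triv₂ ((p : ℤ) • f₂)) :
    𝓥.Triv₂ f₁ ∨ ∃ k : ℤ, 𝓥.Triv₂ (f₂ - k • f₁) := by
  have hp1 : 1 < p := hp.out.one_lt
  obtain ⟨N₁, hN₁, hn₁, ht₁⟩ := exists_trivOn hCF.smooth hc₁
  obtain ⟨N₂, hN₂, hn₂, ht₂⟩ := exists_trivOn hCF.smooth hc₂
  obtain ⟨X, hX, hXle⟩ := 𝓥.inf_mem' N₁ hN₁ N₂ hN₂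
  obtain ⟨N, hN, hNX, hNn, hNf⟩ := 𝓥.core' X hX
  have hNo : 𝓥.IsOpenSubgroup N := isOpenSubgroup_of_mem hN
  have hle₁ : N ≤ N₁ := fun x hx => (hXle (hNX hx)).1
  have hle₂ : N ≤ N₂ := fun x hx => (hXle (hNX hx)).2
  -- Sylow
  have hfin : Finite (G ⧸ N) := N.finite_quotient_of_finiteIndex
  obtain ⟨P₀⟩ : Nonempty (Sylow p (G ⧸ N)) := inferInstance
  set P : Subgroup G := (P₀ : Subgroup (G ⧸ N)).comap (QuotientGroup.mk' N) with hP
  have hNP : N ≤ P := by
    intro x hx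
    show QuotientGroup.mk' N x ∈ (P₀ : Subgroup (G ⧸ N))
    have : QuotientGroup.mk' N x = 1 := (QuotientGroup.eq_one_iff x).2 hx
    rw [this]
    exact one_mem _
  have hPo : 𝓥.IsOpenSubgroup P := open_mono hNo hNP
  have hPi : P.index = (P₀ : Subgroup (G ⧸ N)).index :=
    Subgroup.index_comap_of_surjective _ (QuotientGroup.mk'_surjective N)
  have hcop : Nat.Coprime p P.index := by
    rw [hPi]
    exact (Nat.Prime.coprime_iff_not_dvd hp.out).2 P₀.not_dvd_index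
  obtain ⟨r, hr⟩ := P₀.2.exists_card_eq
  have hNi : (N.subgroupOf P).index = p ^ r := by
    have h1 : N.relIndex P * P.index = N.index := Subgroup.relIndex_mul_index hNP
    have h2 := (P₀ : Subgroup (G ⧸ N)).card_mul_index
    rw [← hPi] at h2
    have h3 : N.index = Nat.card (G ⧸ N) := rfl
    rw [h3, ← h2] at h1
    have h4 : P.index ≠ 0 := hPo.finiteIndex.index_ne_zero
    have h5 := Nat.eq_of_mul_eq_mul_right (Nat.pos_of_ne_zero h4) h1
    rw [← hr]
    exact h5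
  -- restrict to `P`
  have hCFP := hCF.restrict hPo
  have hτP := hτ.restrict hp.out hPo
  have hfixP : ∀ g : P, g • ζ = ζ := fun g => hfix g
  obtain ⟨χ, hs, hχ⟩ := hτP.exists_char
  have hNW : (N.subgroupOf P).map P.subtype = N := by
    rw [Subgroup.subgroupOf_map_subtype, inf_eq_left.2 hNP]
  have main : ∀ f : G × G → A, IsCocycle₂ f → 𝓥.IsConst₂ f → 𝓥.Triv₂ ((p : ℤ) • f) →
      TrivOn 𝓥 N f → ((𝓥.restrict P).restrict χ.ker).Triv₂ (res₂ χ.ker (res₂ P f)) := by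
    intro f hf hc hpf ht
    rw [← trivOn_iff hχ]
    refine kill_p hζ hfixP hCFP hτP (N := N.subgroupOf P) ((open_restrict hPo _).2 (by rwa [hNW]))
      hNi (fun g h j => hf g h j) (hc.comap P.subtype) (Triv₂.res hpf P)
      ((trivOn_restrict hPo _ f).2 (by rwa [hNW])) hs hχ
  obtain ⟨σ, hσ⟩ := hs (Multiplicative.ofAdd 1)
  obtain ⟨a₁, ha₁, h₁⟩ := exists_coh_cc hp1 hCFP.smooth hχ (hCFP.h90 _ hχ) hσ
    (f := res₂ P f₁) (fun g h j => hf₁ g h j) (hc₁.comap P.subtype)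
    (main f₁ hf₁ hc₁ hp₁ (ht₁.mono hle₁))
  obtain ⟨a₂, ha₂, h₂⟩ := exists_coh_cc hp1 hCFP.smooth hχ (hCFP.h90 _ hχ) hσ
    (f := res₂ P f₂) (fun g h j => hf₂ g h j) (hc₂.comap P.subtype)
    (main f₂ hf₂ hc₂ hp₂ (ht₂.mono hle₂))
  by_cases ha : a₁ ∈ (fix A χ.ker).map (nrmHom A σ p)
  · left
    have h3 : (𝓥.restrict P).Triv₂ (res₂ P f₁) :=
      h₁.triv ((triv₂_cc_iff hp1 hχ (hCFP.h90 _ hχ) hσ ha₁).2 ha)
    refine triv₂_of_coprime_index hPo hf₁ hc₁ h3 (p := p) ?_ hcop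
    rwa [natCast_zsmul] at hp₁
  · right
    obtain ⟨k, hk⟩ := exists_zsmul_sub_mem hp.out (hCFP.idx_ker hχ hσ) ha₁ ha ha₂
    refine ⟨k, ?_⟩
    have h3 : (𝓥.restrict P).Triv₂ (cc χ (a₂ - k • a₁)) :=
      (triv₂_cc_iff hp1 hχ (hCFP.h90 _ hχ) hσ ((fix A (⊤ : Subgroup P)).sub_mem ha₂
        ((fix A (⊤ : Subgroup P)).zsmul_mem ha₁ k))).2 hk
    rw [cc_sub, cc_zsmul] at h3
    have h4 : (𝓥.restrict P).Triv₂ (res₂ P (f₂ - k • f₁)) := by
      have := Triv₂.sub (Triv₂.add h₂ h3) (h₁.zsmul k)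
      convert this using 1
      have e : res₂ P (f₂ - k • f₁) = res₂ P f₂ - k • res₂ P f₁ := rfl
      rw [e]
      abel
    have hf : IsCocycle₂ (f₂ - k • f₁) := IsCocycle₂.sub' hf₂ (fun g h j => by
      have := hf₁ g h j
      simp only [Pi.smul_apply]
      rw [smul_comm g k, ← smul_add, this, smul_add])
    have hc : 𝓥.IsConst₂ (f₂ - k • f₁) := hc₂.sub (hc₁.comp (k • ·))
    refine triv₂_of_coprime_index hPo hf hc h4 (p := p) ?_ hcop
    have := Triv₂.sub hp₂ (Triv₂.zsmul hp₁ k)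
    convert this using 1
    rw [smul_sub, smul_comm k, natCast_zsmul, natCast_zsmul]

end Fermat.Agent.H7
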