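import Mathlib
import Fermat.Agent.H7BrMain
import Fermat.Agent.H55Fam

/-!
# Dimensions of `H¹` and `H²` from the abstract class field axioms (H7)
-/

set_option autoImplicit false
set_option maxSynthPendingDepth 3
set_option linter.unusedSectionVars false

namespace Fermat.Agent.H7

open groupCohomology (IsCocycle₁ IsCocycle₂)
open Fermat.Agent.H91 Fermat.Agent.H91.LevelFam Fermat.Agent.H55

universe u v

variable {G : Type u} [Group G] {A : Type v} [AddCommGroup A] [DistribMulAction G A]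
  {p : ℕ} [hp : Fact p.Prime] {ζ : A} {𝓥 : LevelFam G}

section twisted

variable (hζ : Zeta p ζ) {ρ : Representation (ZMod p) G (ZMod p)}
  (hρ : ∀ g x, zi hζ (ρ g x) = g • zi hζ x)

include hρ in
/-- a `μ_p`-valued cocycle trivial in `A` is trivial in `μ_p` -/
theorem mem_B2_of_triv (hCF : CF p 𝓥 A) {z : G × G → ZMod p}
    (h : 𝓥.Triv₂ (fun q => zi hζ (z q))) : z ∈ B2 (ofFam 𝓥) ρ := by
  obtain ⟨y, hy, hyz'⟩ := h
  have hyz : ∀ g h, dd y (g, h) = zi hζ (z (g, h)) := hyz'
  obtain ⟨b, hb⟩ := hCF.h90_top (fun g => p • y g) (fun g h => by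
    have := hyz g h
    rw [dd_apply] at this
    have h2 : p • (g • y h - y (g * h) + y g) = 0 := by rw [this, p_smul_zi]
    rw [smul_add, smul_sub] at h2
    beta_reduce
    rw [smul_comm g p]
    linear_combination (norm := abel) -h2) (hy.comp (p • ·))
  obtain ⟨c, rfl⟩ := hCF.div b
  have h1 : ∀ g, p • (y g - (g • c - c)) = 0 := by
    intro g
    have := hb g
    beta_reduce at this
    rw [smul_sub, smul_sub, this, smul_comm g p, sub_self]
  choose x hx using fun g => exists_zi hζ (h1 g)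
  refine mem_B2.2 ⟨x, ?_, ?_⟩
  · rw [lc1_ofFam_iff]
    have hconst := hy.sub (isConst₁_coboundary hCF.smooth c)
    obtain ⟨V, hV, hVf⟩ := hconst
    refine ⟨V, hV, fun g s hs => zi_injective hζ ?_⟩
    rw [hx, hx]
    exact hVf g s hs
  · funext q
    obtain ⟨g, h⟩ := q
    apply zi_injective hζ
    rw [d1_apply, map_add, map_sub, hρ, hx, hx, hx, ← hyz, dd_apply, mul_smul]
    simp only [smul_sub]
    abel

include hρ in
theorem triv_of_mem_B2 {z : G × G → ZMod p} (h : z ∈ B2 (ofFam 𝓥) ρ) :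
    𝓥.Triv₂ (fun q => zi hζ (z q)) := by
  obtain ⟨x, hx, rfl⟩ := mem_B2.1 h
  rw [lc1_ofFam_iff] at hx
  refine ⟨fun g => zi hζ (x g), hx.comp _, fun g h => ?_⟩
  show _ = zi hζ (d1 ρ x (g, h))
  rw [dd_apply, d1_apply, map_add, map_sub, hρ]

include hρ in
/-- **Nonvanishing of `H²(G, μ_p)`**. -/
theorem exists_nontrivial (hCF : CF p 𝓥 A)
    {χ : G →* Multiplicative (ZMod p)} (hs : Function.Surjective χ)
    (hχ : 𝓥.IsOpenSubgroup χ.ker) : ∃ z ∈ Z2 (ofFam 𝓥) ρ, z ∉ B2 (ofFam 𝓥) ρ := by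
  have hp1 : 1 < p := hp.out.one_lt
  obtain ⟨σ, hσ⟩ := hs (Multiplicative.ofAdd 1)
  have hidx := hCF.idx_ker hχ hσ
  have hex : ∃ a ∈ fix A (⊤ : Subgroup G), a ∉ (fix A χ.ker).map (nrmHom A σ p) := by
    by_contra hcon
    push Not at hcon
    rw [AddSubgroup.relIndex_eq_one.2 hcon] at hidx
    omega
  obtain ⟨a, ha, haN⟩ := hex
  obtain ⟨α, rfl⟩ := hCF.div a
  have h1 : ∀ g : G, p • (g • α - α) = 0 := fun g => by
    rw [smul_sub, smul_comm p g, ha g trivial, sub_self]
  choose κ hκ using fun g => exists_zi hζ (h1 g)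
  have hκc : 𝓥.IsConst₁ κ := by
    obtain ⟨V, hV, hVf⟩ := isConst₁_coboundary hCF.smooth α
    refine ⟨V, hV, fun g s hs => zi_injective hζ ?_⟩
    rw [hκ, hκ]
    exact hVf g s hs
  have hκm : ∀ g h, κ (g * h) = ρ g (κ h) + κ g := by
    intro g h
    apply zi_injective hζ
    rw [map_add, hρ, hκ, hκ, hκ, smul_sub, mul_smul]
    abel
  have hlin : ∀ g (x y : ZMod p), ρ g (x * y) = ρ g x * y := by
    intro g x y
    rw [mul_comm x y, ← smul_eq_mul y x, map_smul, smul_eq_mul, mul_comm]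
  refine ⟨fun q => κ q.1 * Multiplicative.toAdd (χ q.2), mem_Z2.2 ⟨?_, fun g h j => ?_⟩, ?_⟩
  · rw [lc2_ofFam_iff]
    have hc2 := isConst₁_of_ker hχ Multiplicative.toAdd
    obtain ⟨V, hV, hVf⟩ := hκc
    obtain ⟨V', hV', hVf'⟩ := hc2
    obtain ⟨X, hX, hle⟩ := 𝓥.inf_mem' V hV V' hV'
    refine ⟨X, hX, fun g g' s hs s' hs' => ?_⟩
    have e2 : Multiplicative.toAdd (χ (g' * s')) = Multiplicative.toAdd (χ g') :=
      hVf' g' s' (hle hs').2
    show κ (g * s) * Multiplicative.toAdd (χ (g' * s')) = κ g * Multiplicative.toAdd (χ g')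
    rw [hVf g s (hle hs).1, e2]
  · show κ (g * h) * Multiplicative.toAdd (χ j) + κ g * Multiplicative.toAdd (χ h)
      = ρ g (κ h * Multiplicative.toAdd (χ j)) + κ g * Multiplicative.toAdd (χ (h * j))
    rw [hκm, map_mul χ h j, toAdd_mul, hlin]
    ring
  · intro hB
    have h2 := triv_of_mem_B2 hζ hρ hB
    have h3 := cc_kum hχ α
    have h4 : (fun q : G × G => tv χ q.2 • (q.1 • α - α))
        = fun q => zi hζ (κ q.1 * Multiplicative.toAdd (χ q.2)) := by
      funext q
      rw [← hκ, tv, val_smul_zi]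
    rw [h4] at h3
    have h5 := Triv₂.sub h3 h2
    rw [add_sub_cancel_right] at h5
    exact haN ((triv₂_cc_iff hp1 hχ (hCF.h90 _ hχ) hσ ha).1 h5)

end twisted

/-- **`dim H²(G, μ_p) = 1`**, for `G` fixing `μ_p`. -/
theorem finrank_H2 (hζ : Zeta p ζ) (hfix : ∀ g : G, g • ζ = ζ) (hCF : CF p 𝓥 A)
    {τ : ℕ → Subgroup G} (hτ : Tower p 𝓥 τ) :
    Module.finrank (ZMod p) (H2 (ofFam 𝓥) (Representation.trivial (ZMod p) G (ZMod p))) = 1 := by
  obtain ⟨χ, hs, hχ⟩ := hτ.exists_char
  have hρ : ∀ g x, zi hζ (Representation.trivial (ZMod p) G (ZMod p) g x) = g • zi hζ x :=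
    fun g x => by rw [smul_zi hζ (hfix g)]; rfl
  obtain ⟨z, hz, hzB⟩ := exists_nontrivial hζ hρ hCF hs hχ
  have key : ∀ w : G × G → ZMod p, w ∈ Z2 (ofFam 𝓥) (Representation.trivial (ZMod p) G (ZMod p)) →
      IsCocycle₂ (fun q => zi hζ (w q)) ∧ 𝓥.IsConst₂ (fun q => zi hζ (w q)) ∧
        𝓥.Triv₂ ((p : ℤ) • fun q => zi hζ (w q)) := by
    intro w hw
    obtain ⟨hw1, hw2⟩ := mem_Z2.1 hw
    rw [lc2_ofFam_iff] at hw1
    refine ⟨fun g h j => ?_, hw1.comp _, ?_⟩
    · rw [← map_add, hw2 g h j, map_add, hρ]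
    · have : ((p : ℤ) • fun q => zi hζ (w q)) = 0 := by
        funext q
        rw [Pi.smul_apply, natCast_zsmul, p_smul_zi]
        rfl
      rw [this]; exact triv₂_zero
  obtain ⟨z1, z2, z3⟩ := key z hz
  refine finrank_eq_one (H2π (ofFam 𝓥) (Representation.trivial (ZMod p) G (ZMod p)) ⟨z, hz⟩) ?_ ?_
  · intro h0
    rw [H2π_eq_zero_iff] at h0
    exact hzB (mem_B2.2 h0)
  · intro w
    obtain ⟨⟨w, hw⟩, rfl⟩ := H2π_surjective _ _ w
    obtain ⟨w1, w2, w3⟩ := key w hw
    rcases dim_le_one hζ hfix hCF hτ z1 w1 z2 w2 z3 w3 with h | ⟨k, h⟩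
    · exact absurd (mem_B2_of_triv hζ hρ hCF h) hzB
    · refine ⟨(k : ZMod p), ?_⟩
      rw [← map_smul, ← sub_eq_zero, ← map_sub, H2π_eq_zero_iff]
      have h2 : 𝓥.Triv₂ (fun q => zi hζ ((w - (k : ZMod p) • z) q)) := by
        convert h using 1
        funext q
        have h3 : ((k : ZMod p) • z) q = k • z q := by
          rw [Pi.smul_apply, smul_eq_mul, zsmul_eq_mul]
        rw [Pi.sub_apply, h3, map_sub, map_zsmul]
        rfl
      have h4 := Triv₂.neg' h2
      have h5 : 𝓥.Triv₂ (fun q => zi hζ (((k : ZMod p) • z - w) q)) := by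
        convert h4 using 1
        funext q
        rw [Pi.neg_apply, ← map_neg]
        congr 1
        simp only [Pi.sub_apply]
        ring
      exact mem_B2.1 (mem_B2_of_triv hζ hρ hCF h5)

theorem finite_H2 (hζ : Zeta p ζ) (hfix : ∀ g : G, g • ζ = ζ) (hCF : CF p 𝓥 A)
    {τ : ℕ → Subgroup G} (hτ : Tower p 𝓥 τ) :
    Module.Finite (ZMod p) (H2 (ofFam 𝓥) (Representation.trivial (ZMod p) G (ZMod p))) :=
  FiniteDimensional.of_finrank_pos (by rw [finrank_H2 hζ hfix hCF hτ]; exact one_pos)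

/-- **`H²(G, μ_p) ≠ 0`**, twisted version. -/
theorem nontrivial_H2 (hζ : Zeta p ζ) {ρ : Representation (ZMod p) G (ZMod p)}
    (hρ : ∀ g x, zi hζ (ρ g x) = g • zi hζ x) (hCF : CF p 𝓥 A)
    {χ : G →* Multiplicative (ZMod p)} (hs : Function.Surjective χ)
    (hχ : 𝓥.IsOpenSubgroup χ.ker) : Nontrivial (H2 (ofFam 𝓥) ρ) := by
  obtain ⟨z, hz, hzB⟩ := exists_nontrivial hζ hρ hCF hs hχ
  refine ⟨H2π (ofFam 𝓥) ρ ⟨z, hz⟩, 0, fun h0 => ?_⟩
  rw [H2π_eq_zero_iff] at h0
  exact hzB (mem_B2.2 h0)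

/-! ### degree one -/

section degone

variable (hζ : Zeta p ζ) (hfix : ∀ g : G, g • ζ = ζ) (hCF : CF p 𝓥 A)

include hζ hfix hCF in
/-- Kummer theory: `H¹(G, μ_p) ≅ A^G / p A^G`, cardinalities -/
theorem card_Z1 : Nat.card (Z1 (ofFam 𝓥) (Representation.trivial (ZMod p) G (ZMod p)))
    = ((fix A (⊤ : Subgroup G)).map (nsmulAddMonoidHom p)).relIndex (fix A (⊤ : Subgroup G)) := by
  set F := fix A (⊤ : Subgroup G) with hF
  have htors : ∀ x : A, p • x = 0 → ∀ g : G, g • x = x := by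
    intro x hx g
    obtain ⟨z, rfl⟩ := exists_zi hζ hx
    exact smul_zi hζ (hfix g) z
  choose root hroot using hCF.div
  have h1 : ∀ (a : F) (g : G), p • (g • root a - root a) = 0 := fun a g => by
    rw [smul_sub, smul_comm p g, hroot, a.2 g trivial, sub_self]
  choose κ hκ using fun (a : F) (g : G) => exists_zi hζ (h1 a g)
  let Φ : F →+ (G → ZMod p) :=
    { toFun := κ
      map_zero' := by
        funext g
        apply zi_injective hζ
        rw [hκ, Pi.zero_apply, map_zero, sub_eq_zero]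
        exact htors _ (by rw [hroot]; rfl) g
      map_add' := fun a b => by
        funext g
        apply zi_injective hζ
        rw [Pi.add_apply, map_add, hκ, hκ, hκ]
        have h2 : p • (root (a + b : F) - root a - root b) = 0 := by
          rw [smul_sub, smul_sub, hroot, hroot, hroot]
          simp
        have h3 := htors _ h2 g
        rw [smul_sub, smul_sub] at h3
        linear_combination (norm := abel) h3 }
  have hrange : (Φ.range : Set (G → ZMod p)) =
      (Z1 (ofFam 𝓥) (Representation.trivial (ZMod p) G (ZMod p)) : Set (G → ZMod p)) := by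
    ext w
    constructor
    · rintro ⟨a, rfl⟩
      refine mem_Z1.2 ⟨?_, fun g h => ?_⟩
      · rw [lc1_ofFam_iff]
        obtain ⟨V, hV, hVf⟩ := isConst₁_coboundary hCF.smooth (root a)
        refine ⟨V, hV, fun g s hs => zi_injective hζ ?_⟩
        show zi hζ (κ a (g * s)) = zi hζ (κ a g)
        rw [hκ, hκ]
        exact hVf g s hs
      · apply zi_injective hζ
        show zi hζ (κ a (g * h)) = zi hζ (κ a h + κ a g)
        rw [map_add, hκ, hκ, hκ, mul_smul]
        have h3 := htors _ (h1 a h) g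
        rw [smul_sub] at h3
        linear_combination (norm := abel) h3
    · intro hw
      obtain ⟨hw1, hw2⟩ := mem_Z1.1 hw
      rw [lc1_ofFam_iff] at hw1
      obtain ⟨β, hβ⟩ := hCF.h90_top (fun g => zi hζ (w g)) (fun g h => by
        beta_reduce
        rw [hw2, map_add]
        congr 1
        exact (smul_zi hζ (hfix g) _).symm) (hw1.comp _)
      have hβF : p • β ∈ F := by
        intro g _
        have := hβ g
        have h2 : p • (g • β - β) = 0 := by rw [← this, p_smul_zi]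
        rw [smul_sub, sub_eq_zero] at h2
        rw [smul_comm, h2]
      refine ⟨⟨p • β, hβF⟩, ?_⟩
      funext g
      apply zi_injective hζ
      show zi hζ (κ ⟨p • β, hβF⟩ g) = zi hζ (w g)
      rw [hκ, hβ g]
      have h2 : p • (root (p • β) - β) = 0 := by rw [smul_sub, hroot, sub_self]
      have h3 := htors _ h2 g
      rw [smul_sub] at h3
      linear_combination (norm := abel) h3
  have hker : (F.map (nsmulAddMonoidHom p)).addSubgroupOf F = Φ.ker := by
    ext a
    rw [AddSubgroup.mem_addSubgroupOf, AddMonoidHom.mem_ker]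
    constructor
    · rintro ⟨b, hb, hba⟩
      funext g
      apply zi_injective hζ
      show zi hζ (κ a g) = zi hζ 0
      rw [hκ, map_zero, sub_eq_zero]
      have h2 : p • (root a - b) = 0 := by
        rw [smul_sub, hroot, ← hba, nsmulAddMonoidHom_apply, sub_self]
      have h3 := htors _ h2 g
      rw [smul_sub, hb g trivial] at h3
      linear_combination (norm := abel) h3
    · intro ha
      refine ⟨root a, fun g _ => ?_, ?_⟩
      · have h2 : zi hζ (κ a g) = 0 := by
          have : κ a g = 0 := congrFun ha g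
          rw [this, map_zero]
        rw [hκ, sub_eq_zero] at h2
        exact h2
      · rw [nsmulAddMonoidHom_apply, hroot]
  rw [AddSubgroup.relIndex, hker, AddSubgroup.index_ker]
  exact Nat.card_congr (Equiv.setCongr hrange).symm

include hζ hfix hCF in
theorem finrank_H1 {d : ℕ}
    (hd : ((fix A (⊤ : Subgroup G)).map (nsmulAddMonoidHom p)).relIndex (fix A (⊤ : Subgroup G))
      = p ^ d) :
    Module.Finite (ZMod p) (H1 (ofFam 𝓥) (Representation.trivial (ZMod p) G (ZMod p))) ∧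
    Module.finrank (ZMod p) (H1 (ofFam 𝓥) (Representation.trivial (ZMod p) G (ZMod p))) = d := by
  have hcard := card_Z1 hζ hfix hCF
  rw [hd] at hcard
  have hfin : Finite (Z1 (ofFam 𝓥) (Representation.trivial (ZMod p) G (ZMod p))) :=
    Nat.finite_of_card_ne_zero (by rw [hcard]; exact (pow_pos hp.out.pos d).ne')
  have hB : (B1 (Representation.trivial (ZMod p) G (ZMod p))).comap
      (Z1 (ofFam 𝓥) (Representation.trivial (ZMod p) G (ZMod p))).subtype = ⊥ := by
    rw [eq_bot_iff]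
    rintro ⟨x, hx⟩ hxB
    obtain ⟨a, ha⟩ := mem_B1.1 (show x ∈ B1 _ from hxB)
    rw [Submodule.mem_bot]
    apply Subtype.ext
    show x = 0
    rw [← ha]
    funext g
    rw [d0_apply]
    exact sub_self _
  let e := Submodule.quotEquivOfEqBot _ hB
  have hfin1 : Module.Finite (ZMod p)
      (Z1 (ofFam 𝓥) (Representation.trivial (ZMod p) G (ZMod p))) := Module.Finite.of_finite
  refine ⟨Module.Finite.equiv e.symm, ?_⟩
  rw [e.finrank_eq]
  have h1 := Module.natCard_eq_pow_finrank (K := ZMod p)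
    (V := Z1 (ofFam 𝓥) (Representation.trivial (ZMod p) G (ZMod p)))
  rw [hcard, Nat.card_zmod] at h1
  exact (Nat.pow_right_injective hp.out.two_le h1).symm

end degone

end Fermat.Agent.H7
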