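import Mathlib
import Fermat.Agent.H7BrDim
import Fermat.Agent.H7LocPowPadic
import Fermat.Agent.H91Units
import Fermat.Agent.H54Levels
import Fermat.Agent.H54TotRam

/-!
# The local class field axioms (H7)
-/

set_option autoImplicit false
set_option maxSynthPendingDepth 3
set_option linter.unusedSectionVars false

namespace Fermat.Agent.H7

open groupCohomology (IsCocycle₁ IsCocycle₂)
open Fermat.Agent.H91 Fermat.Agent.H91.LevelFam Fermat.Agent.H55 Fermat.Agent.H54

section field

variable {K C : Type} [Field K] [Field C] [Algebra K C] [IsGalois K C]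

theorem mem_iff_fixed (E : IntermediateField K C) (x : C) :
    x ∈ E ↔ ∀ g ∈ E.fixingSubgroup, g x = x := by
  conv_lhs => rw [← InfiniteGalois.fixedField_fixingSubgroup E]
  exact IntermediateField.mem_fixedField_iff _ _

/-- the fixed points in `Cˣ` of the group of an intermediate field -/
theorem mem_fix_iff (E : IntermediateField K C) (a : Additive Cˣ) :
    a ∈ fix (Additive Cˣ) E.fixingSubgroup ↔ uval a ∈ E := by
  constructor
  · intro h
    rw [← InfiniteGalois.fixedField_fixingSubgroup E, IntermediateField.mem_fixedField_iff]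
    intro g hg
    exact congrArg uval (h g hg)
  · intro h g hg
    apply uval_injective
    exact (IntermediateField.mem_fixingSubgroup_iff _ _).1 hg _ h

theorem index_transfer (E F : IntermediateField K C) (hEF : E ≤ F) [FiniteDimensional K F]
    {σ : C ≃ₐ[K] C} (hσ : σ ∈ E.fixingSubgroup)
    (hnorm : ∀ g ∈ E.fixingSubgroup, ∀ h ∈ F.fixingSubgroup, g * h * g⁻¹ ∈ F.fixingSubgroup)
    {n : ℕ} (hpow : ∀ k : ℕ, σ ^ k ∈ F.fixingSubgroup ↔ n ∣ k)
    (hgen : ∀ g ∈ E.fixingSubgroup, ∃ k : ℕ, ∃ h ∈ F.fixingSubgroup, g = σ ^ k * h)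
    (key : ∀ (F' : IntermediateField E C) [FiniteDimensional E F'] [IsGalois E F']
      [IsCyclic Gal(F'/E)],
      (Units.map (Algebra.norm E : F' →* E)).range.index = Module.finrank E F') :
    ((fix (Additive Cˣ) F.fixingSubgroup).map (nrmHom (Additive Cˣ) σ n)).relIndex
      (fix (Additive Cˣ) E.fixingSubgroup) = n := by
  set F' : IntermediateField E C := IntermediateField.extendScalars hEF with hF'
  have hmemF' : ∀ x : C, x ∈ F' ↔ x ∈ F := fun x => Iff.rfl
  have hfin : FiniteDimensional E F' := by
    have : FiniteDimensional K F' := inferInstanceAs (FiniteDimensional K F)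
    exact FiniteDimensional.right K E F'
  -- `σ` stabilises `F`
  have hstab : ∀ g ∈ E.fixingSubgroup, ∀ x ∈ F, g x ∈ F := by
    intro g hg x hx
    rw [← InfiniteGalois.fixedField_fixingSubgroup F, IntermediateField.mem_fixedField_iff]
    intro h hh
    have h1 := hnorm g⁻¹ (inv_mem hg) h hh
    rw [inv_inv] at h1
    have h2 := (IntermediateField.mem_fixingSubgroup_iff _ _).1 h1 x hx
    have h3 : h (g x) = g ((g⁻¹ * h * g) x) := by
      simp [AlgEquiv.mul_apply, AlgEquiv.aut_inv]
    rw [h3, h2]
  have hσE : ∀ x ∈ E, σ x = x := (IntermediateField.mem_fixingSubgroup_iff _ _).1 hσ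
  let σF : F' ≃ₐ[E] F' :=
    { toFun := fun x => ⟨σ x, hstab σ hσ x x.2⟩
      invFun := fun x => ⟨σ⁻¹ x, hstab σ⁻¹ (inv_mem hσ) x x.2⟩
      left_inv := fun x => by
        apply Subtype.ext
        show σ⁻¹ (σ x) = x
        rw [← AlgEquiv.mul_apply, inv_mul_cancel, AlgEquiv.one_apply]
      right_inv := fun x => by
        apply Subtype.ext
        show σ (σ⁻¹ x) = x
        rw [← AlgEquiv.mul_apply, mul_inv_cancel, AlgEquiv.one_apply]
      map_mul' := fun x y => Subtype.ext (map_mul σ _ _)
      map_add' := fun x y => Subtype.ext (map_add σ _ _)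
      commutes' := fun x => Subtype.ext (hσE x x.2) }
  have hσF : ∀ (k : ℕ) (x : F'), (((σF ^ k) x : F') : C) = (σ ^ k) x := by
    intro k
    induction k with
    | zero => intro x; rfl
    | succ k ih =>
      intro x
      rw [pow_succ, pow_succ, AlgEquiv.mul_apply, AlgEquiv.mul_apply, ih]
      rfl
  have hord : ∀ k : ℕ, σF ^ k = 1 ↔ n ∣ k := by
    intro k
    rw [← hpow k, IntermediateField.mem_fixingSubgroup_iff]
    constructor
    · intro h x hx
      have := hσF k ⟨x, hx⟩
      rw [h] at this
      exact this.symm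
    · intro h
      ext x
      rw [hσF k x]
      exact h x x.2
  have horder : orderOf σF = n := by
    apply Nat.dvd_antisymm
    · exact orderOf_dvd_of_pow_eq_one ((hord n).2 dvd_rfl)
    · exact (hord _).1 (pow_orderOf_eq_one σF)
  have hfix : IntermediateField.fixedField (Subgroup.zpowers σF) = ⊥ := by
    rw [eq_bot_iff]
    intro x hx
    rw [IntermediateField.mem_fixedField_iff] at hx
    have hxσ : ∀ k : ℕ, (σ ^ k) (x : C) = x := by
      intro k
      rw [← hσF k x, hx _ (Subgroup.npow_mem_zpowers σF k)]
    have hxE : (x : C) ∈ E := by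
      rw [mem_iff_fixed]
      intro g hg
      obtain ⟨k, h, hh, rfl⟩ := hgen g hg
      rw [AlgEquiv.mul_apply, (IntermediateField.mem_fixingSubgroup_iff _ _).1 hh x x.2, hxσ]
    rw [IntermediateField.mem_bot]
    exact ⟨⟨x, hxE⟩, rfl⟩
  have hgal : IsGalois E F' := by
    apply IsGalois.of_fixedField_eq_bot
    rw [eq_bot_iff, ← hfix]
    exact IntermediateField.fixedField_antitone le_top
  have htop : Subgroup.zpowers σF = ⊤ := by
    have h1 := congrArg IntermediateField.fixingSubgroup hfix
    rw [IntermediateField.fixingSubgroup_fixedField, IntermediateField.fixingSubgroup_bot] at h1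
    exact h1
  have hmemz : ∀ x : Gal(F'/E), x ∈ Subgroup.zpowers σF := fun x => by rw [htop]; trivial
  have hcyc : IsCyclic Gal(F'/E) := ⟨σF, hmemz⟩
  have hrank : Module.finrank E F' = n := by
    rw [← IsGalois.card_aut_eq_finrank, ← horder]
    exact (orderOf_eq_card_of_zpowers_eq_top htop).symm
  have hidx := key F'
  rw [hrank] at hidx
  -- transfer to `Cˣ`
  let j : Eˣ →* Cˣ := Units.map (algebraMap E C : E →* C)
  have hj : Function.Injective j := Units.map_injective (algebraMap E C).injective
  have e1 : (((⊤ : Subgroup Eˣ).map j).toAddSubgroup : AddSubgroup (Additive Cˣ))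
      = fix (Additive Cˣ) E.fixingSubgroup := by
    ext a
    rw [mem_fix_iff]
    constructor
    · rintro ⟨x, -, hx⟩
      have : uval a = (x : E) := by
        rw [uval]
        have h1 : j x = a.toMul := hx
        rw [← h1]
        rfl
      rw [this]
      exact (x : E).2
    · intro h
      have hne : (⟨uval a, h⟩ : E) ≠ 0 := fun h0 => uval_ne_zero a (congrArg Subtype.val h0)
      exact ⟨Units.mk0 _ hne, trivial, Units.ext rfl⟩
  have hnormF : ∀ y : F', ((Algebra.norm E y : E) : C) = ∏ k ∈ Finset.range n, (σ ^ k) (y : C) := by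
    intro y
    have h1 := Algebra.norm_eq_prod_automorphisms E y
    have h2 : ((Algebra.norm E y : E) : C) = ((algebraMap E F' (Algebra.norm E y) : F') : C) := rfl
    rw [h2, h1]
    classical
    have h3 := IsCyclic.image_range_orderOf (a := σF) hmemz
    rw [← h3, Finset.prod_image, horder]
    · push_cast
      exact Finset.prod_congr rfl fun k _ => hσF k y
    · intro a ha b hb hab
      rw [Finset.coe_range] at ha hb
      exact pow_injOn_Iio_orderOf ha hb hab
  have e2 : ((((Units.map (Algebra.norm E : F' →* E)).range).map j).toAddSubgroup :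
      AddSubgroup (Additive Cˣ))
      = (fix (Additive Cˣ) F.fixingSubgroup).map (nrmHom (Additive Cˣ) σ n) := by
    ext a
    constructor
    · rintro ⟨_, ⟨y, rfl⟩, hy⟩
      refine ⟨umk ((y : F') : C) (by simp), ?_, ?_⟩
      · rw [SetLike.mem_coe, mem_fix_iff, uval_umk]
        exact (y : F').2
      · apply uval_injective
        rw [nrmHom_apply, nrm, uval_sum]
        have h1 : uval a = ((Algebra.norm E (y : F') : E) : C) := by
          rw [uval]
          have h1 : j (Units.map (Algebra.norm E : F' →* E) y) = a.toMul := hy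
          rw [← h1]
          rfl
        rw [h1, hnormF]
        rfl
    · rintro ⟨b, hb, rfl⟩
      rw [SetLike.mem_coe, mem_fix_iff] at hb
      have hne : (⟨uval b, hb⟩ : F') ≠ 0 := fun h0 => uval_ne_zero b (congrArg Subtype.val h0)
      refine ⟨_, ⟨Units.mk0 _ hne, rfl⟩, ?_⟩
      apply Units.ext
      show ((Algebra.norm E (⟨uval b, hb⟩ : F') : E) : C) = uval (nrm σ n b)
      rw [hnormF, nrm, uval_sum]
      rfl
  rw [← e1, ← e2]
  have h5 := Subgroup.relIndex_map_map_of_injective
    ((Units.map (Algebra.norm E : F' →* E)).range) ⊤ hj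
  rw [Subgroup.relIndex_top_right, hidx] at h5
  exact h5

end field

end Fermat.Agent.H7
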