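import Mathlib
import Fermat.Agent.H7BrIdx

/-!
# The local class field axioms, II (H7)
-/

set_option autoImplicit false
set_option maxSynthPendingDepth 3
set_option linter.unusedSectionVars false

namespace Fermat.Agent.H7

open groupCohomology (IsCocycle₁ IsCocycle₂)
open Fermat.Agent.H91 Fermat.Agent.H91.LevelFam Fermat.Agent.H55 Fermat.Agent.H54

section local_

variable (q : ℕ) [hq : Fact q.Prime]

/-- the local level family -/
noncomputable abbrev locFam : LevelFam (PadicAlgCl q ≃ₐ[ℚ_[q]] PadicAlgCl q) :=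
  krullFam.comap (localGaloisToGlobal q)

instance instIsGaloisPadicAlgCl : IsGalois ℚ_[q] (PadicAlgCl q) := ⟨⟩

theorem locFam_open_iff (V : Subgroup (PadicAlgCl q ≃ₐ[ℚ_[q]] PadicAlgCl q)) :
    (locFam q).IsOpenSubgroup V ↔
      ∃ E : IntermediateField ℚ_[q] (PadicAlgCl q), FiniteDimensional ℚ_[q] E ∧
        E.fixingSubgroup = V := by
  rw [← op_comap_localGaloisToGlobal_iff, krullLevels, ← ofFam_comap]
  exact Iff.rfl

theorem locFam_smooth : (locFam q).Smooth (Additive (PadicAlgCl q)ˣ) := by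
  intro a
  have hfin : FiniteDimensional ℚ_[q] (IntermediateField.adjoin ℚ_[q] {uval a}) :=
    IntermediateField.adjoin.finiteDimensional (Algebra.IsAlgebraic.isAlgebraic _).isIntegral
  obtain ⟨V, hV, hle⟩ := (locFam_open_iff q _).2 ⟨_, hfin, rfl⟩
  refine ⟨V, hV, fun s hs => uval_injective ?_⟩
  rw [uval_smul]
  exact (IntermediateField.mem_fixingSubgroup_iff _ _).1 (hle hs) _
    (IntermediateField.mem_adjoin_simple_self _ _)

theorem locFam_faithful : FaithfulOn (locFam q) (PadicAlgCl q) :=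
  faithfulOn_krullFam.comap (localGaloisToGlobal q) (padicEmbedding q).toRingHom
    (fun h x => padicEmbedding_localGaloisToGlobal q h x)

theorem units_div {C : Type} [Field C] [IsAlgClosed C] {p : ℕ} (hp : p ≠ 0) (a : Additive Cˣ) :
    ∃ b : Additive Cˣ, p • b = a := by
  obtain ⟨z, hz⟩ := IsAlgClosed.exists_pow_nat_eq (uval a) (Nat.pos_of_ne_zero hp)
  have hz0 : z ≠ 0 := by
    rintro rfl
    rw [zero_pow hp] at hz
    exact uval_ne_zero a hz.symm
  exact ⟨umk z hz0, uval_injective (by rw [uval_nsmul, uval_umk, hz])⟩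

theorem le_of_fixingSubgroup_le {K C : Type} [Field K] [Field C] [Algebra K C] [IsGalois K C]
    {E F : IntermediateField K C} (h : F.fixingSubgroup ≤ E.fixingSubgroup) : E ≤ F := by
  intro x hx
  rw [mem_iff_fixed] at hx ⊢
  exact fun g hg => hx g (h hg)

/-- **The local class field axioms** -/
theorem locCF {p : ℕ} (hp : p.Prime) : CF p (locFam q) (Additive (PadicAlgCl q)ˣ) where
  smooth := locFam_smooth q
  div := units_div hp.ne_zero
  h90 H _ := ((locFam_faithful q).restrict H).h90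
  idx U H hH hHU hnorm σ hσ n hn hpow hgen := by
    obtain ⟨F, hF, rfl⟩ := (locFam_open_iff q H).1 hH
    obtain ⟨E, hE, rfl⟩ := (locFam_open_iff q U).1 (open_mono hH hHU)
    exact index_transfer E F (le_of_fixingSubgroup_le hHU) hσ hnorm hpow hgen
      (fun F' _ _ _ => index_norm_padic q E F')

/-- primitive roots of unity -/
theorem zeta_of_primitive {C : Type} [Field C] {p : ℕ} (hp : p.Prime) {z : C}
    (hz : IsPrimitiveRoot z p) : Zeta p (umk z (hz.ne_zero hp.ne_zero)) where
  ne h := by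
    have h1 := congrArg uval h
    rw [uval_umk, uval_zero] at h1
    exact hz.ne_one hp.one_lt h1
  tors := uval_injective (by rw [uval_nsmul, uval_umk, uval_zero, hz.pow_eq_one])
  gen a ha := by
    have h1 := congrArg uval ha
    rw [uval_nsmul, uval_zero] at h1
    have : NeZero p := ⟨hp.ne_zero⟩
    obtain ⟨i, -, hi⟩ := hz.eq_pow_of_pow_eq_one h1
    exact ⟨i, uval_injective (by rw [uval_nsmul, uval_umk, hi])⟩

/-- `[Eˣ : Eˣᵖ]` in terms of fixed points -/
theorem relIndex_pow {K C : Type} [Field K] [Field C] [Algebra K C] [IsGalois K C]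
    (E : IntermediateField K C) (p : ℕ) :
    ((fix (Additive Cˣ) (⊤ : Subgroup E.fixingSubgroup)).map (nsmulAddMonoidHom p)).relIndex
      (fix (Additive Cˣ) (⊤ : Subgroup E.fixingSubgroup))
      = (powMonoidHom p : Eˣ →* Eˣ).range.index := by
  let j : Eˣ →* Cˣ := Units.map (algebraMap E C : E →* C)
  have hj : Function.Injective j := Units.map_injective (algebraMap E C).injective
  have e0 : fix (Additive Cˣ) (⊤ : Subgroup E.fixingSubgroup)
      = fix (Additive Cˣ) E.fixingSubgroup := by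
    rw [← fix_map_subtype, ← MonoidHom.range_eq_map, Subgroup.range_subtype]
  have e1 : (((⊤ : Subgroup Eˣ).map j).toAddSubgroup : AddSubgroup (Additive Cˣ))
      = fix (Additive Cˣ) E.fixingSubgroup := by
    ext a
    rw [mem_fix_iff]
    constructor
    · rintro ⟨x, -, hx⟩
      have : uval a = (x : E) := by
        rw [uval]
        have h1 : j x = a.toMul := hx
        rw [← h1]
        rfl
      rw [this]
      exact (x : E).2
    · intro h
      have hne : (⟨uval a, h⟩ : E) ≠ 0 := fun h0 => uval_ne_zero a (congrArg Subtype.val h0)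
      exact ⟨Units.mk0 _ hne, trivial, Units.ext rfl⟩
  have e2 : ((((powMonoidHom p : Eˣ →* Eˣ).range).map j).toAddSubgroup :
      AddSubgroup (Additive Cˣ))
      = (fix (Additive Cˣ) E.fixingSubgroup).map (nsmulAddMonoidHom p) := by
    rw [← e1]
    ext a
    constructor
    · rintro ⟨_, ⟨y, rfl⟩, hy⟩
      refine ⟨Additive.ofMul (j y), ⟨y, trivial, rfl⟩, ?_⟩
      have h1 : j (y ^ p) = a.toMul := hy
      apply Additive.toMul.injective
      rw [← h1, map_pow]
      rfl
    · rintro ⟨_, ⟨y, -, rfl⟩, rfl⟩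
      exact ⟨y ^ p, ⟨y, rfl⟩, by rw [map_pow]; rfl⟩
  rw [e0, ← e2, ← e1]
  have h5 := Subgroup.relIndex_map_map_of_injective
    ((powMonoidHom p : Eˣ →* Eˣ).range) ⊤ hj
  rw [Subgroup.relIndex_top_right] at h5
  exact h5

/-! ### roots of unity of `p`-power order -/

section roots

variable (E : Type*) [NontriviallyNormedField E] [IsUltrametricDist E] [ProperSpace E]

/-- only finitely many roots of unity of `p`-power order -/
theorem roots_bounded (p : ℕ) (hp : (p : E) ≠ 0) (hpp : p.Prime) :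
    ∃ K : ℕ, ∀ (m : ℕ) (z : E), IsPrimitiveRoot z (p ^ m) → p ^ m ≤ K := by
  have hn0 : 0 < ‖(p : E)‖ := norm_pos_iff.2 hp
  have hn1 : ‖(p : E)‖ ≤ 1 := IsUltrametricDist.norm_natCast_le_one E p
  obtain ⟨c, hc0, hc⟩ := NormedField.exists_norm_lt E hn0
  have hc1 : ‖c‖ < 1 := hc.trans_le hn1
  have hcne : c ≠ 0 := norm_pos_iff.1 hc0
  set π : Eˣ := Units.mk0 c hcne with hπdef
  have hπ : ‖(π : E)‖ < 1 := hc1
  have hπ0 : 0 < ‖(π : E)‖ := hc0
  set B := BU π ‖c‖ hc0.le hc1 with hB
  have hfin : B.FiniteIndex := by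
    refine finiteIndex_of_nhds B hc0 (fun x hx => ?_) π ?_ hπ
    · exact (le_sup_right : U1 ‖c‖ hc0.le hc1 ≤ B) hx.le
    · exact (le_sup_left : Subgroup.zpowers π ≤ B) (Subgroup.mem_zpowers π)
  refine ⟨B.index, fun m z hz => ?_⟩
  have hzne : z ≠ 0 := hz.ne_zero (pow_pos hpp.pos m).ne'
  set u : Eˣ := Units.mk0 z hzne with hu
  have hzu : IsPrimitiveRoot u (p ^ m) := IsPrimitiveRoot.coe_units_iff.1 hz
  have hord : orderOf u = p ^ m := hzu.eq_orderOf.symm
  -- torsion elements of `B` of `p`-power order are trivial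
  have htriv : ∀ k : ℕ, ∀ x ∈ B, x ^ p ^ k = 1 → x = 1 := by
    intro k
    induction k with
    | zero => intro x _ hx; simpa using hx
    | succ k ih =>
      intro x hx hxk
      have h1 : (x ^ p) ^ p ^ k = 1 := by rw [← pow_mul, ← pow_succ', hxk]
      have h2 := ih _ (B.pow_mem hx p) h1
      obtain ⟨l, v, hv, rfl⟩ := mem_BU.1 hx
      have h3 : ‖(((π ^ l * v) ^ p : Eˣ) : E)‖ = 1 := by rw [h2]; simp
      rw [Units.val_pow_eq_pow_val, norm_pow, norm_BU l hv, ← zpow_natCast, ← zpow_mul] at h3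
      have hk := zpow_eq_one_of_norm hπ0 hπ h3
      have hk0 : l = 0 := by
        rcases mul_eq_zero.1 hk with h | h
        · exact h
        · exact absurd (Int.natCast_eq_zero.1 h) hpp.ne_zero
      subst hk0
      rw [zpow_zero, one_mul] at h2 ⊢
      exact eq_one_of_pow p hc1 hc hv h2
  have hinf : B ⊓ Subgroup.zpowers u = ⊥ := by
    rw [eq_bot_iff]
    rintro x ⟨hxB, hxu⟩
    obtain ⟨i, rfl⟩ := Subgroup.mem_zpowers_iff.1 hxu
    refine Subgroup.mem_bot.2 (htriv m _ hxB ?_)
    rw [← zpow_natCast, ← zpow_mul, mul_comm, zpow_mul, zpow_natCast, hzu.pow_eq_one, one_zpow]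
  have h6 : B.relIndex (Subgroup.zpowers u) = p ^ m := by
    rw [← Subgroup.inf_relIndex_right, hinf, Subgroup.relIndex_bot_left, Nat.card_zpowers, hord]
  rw [← h6]
  exact Nat.le_of_dvd (Nat.pos_of_ne_zero hfin.index_ne_zero)
    (Subgroup.relIndex_dvd_index_of_normal B _)

end roots

theorem roots_bounded_padic' (E : Type*) [Field E] [Algebra ℚ_[q] E]
    [FiniteDimensional ℚ_[q] E] {p : ℕ} (hp : p.Prime) :
    ∃ K : ℕ, ∀ (m : ℕ) (z : E), IsPrimitiveRoot z (p ^ m) → p ^ m ≤ K := by
  let _ : NontriviallyNormedField E := spectralNorm.nontriviallyNormedField ℚ_[q] E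
  let _ : NormedAlgebra ℚ_[q] E := spectralNorm.normedAlgebra ℚ_[q] E
  have : IsUltrametricDist E := IsUltrametricDist.of_normedAlgebra ℚ_[q]
  have : ProperSpace E := FiniteDimensional.proper ℚ_[q] E
  have h0 : (p : E) ≠ 0 := by
    rw [← map_natCast (algebraMap ℚ_[q] E), map_ne_zero]
    exact_mod_cast hp.ne_zero
  exact roots_bounded E p h0 hp

theorem roots_bounded_padic (E : IntermediateField ℚ_[q] (PadicAlgCl q))
    [FiniteDimensional ℚ_[q] E] {p : ℕ} (hp : p.Prime) :
    ∃ K : ℕ, ∀ (m : ℕ) (z : PadicAlgCl q), z ∈ E → IsPrimitiveRoot z (p ^ m) → p ^ m ≤ K := by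
  obtain ⟨K, hK⟩ := roots_bounded_padic' q E hp
  refine ⟨K, fun m z hz hpr => hK m ⟨z, hz⟩ ?_⟩
  exact IsPrimitiveRoot.of_map_of_injective (f := algebraMap E (PadicAlgCl q)) hpr
    (algebraMap E (PadicAlgCl q)).injective

end local_

end Fermat.Agent.H7
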