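import Mathlib
import Fermat.Agent.H7BrLocal

/-!
# The cyclotomic tower over local fields (H7)
-/

set_option autoImplicit false
set_option maxSynthPendingDepth 3
set_option linter.unusedSectionVars false

namespace Fermat.Agent.H7

open groupCohomology (IsCocycle₁ IsCocycle₂)
open Fermat.Agent.H91 Fermat.Agent.H91.LevelFam Fermat.Agent.H55 Fermat.Agent.H54

section cyc

variable {K C : Type} [Field K] [Field C] [Algebra K C] [IsAlgClosed C] [CharZero C]
  {p : ℕ} [hp : Fact p.Prime]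

variable (K C) in
/-- the subgroup fixing the `p^m`-th roots of unity -/
def Tcy (p m : ℕ) : Subgroup (C ≃ₐ[K] C) where
  carrier := {g | ∀ z : C, z ^ p ^ m = 1 → g z = z}
  one_mem' := fun z _ => rfl
  mul_mem' := fun {a b} ha hb z hz => by rw [AlgEquiv.mul_apply, hb z hz, ha z hz]
  inv_mem' := fun {a} ha z hz => by
    rw [AlgEquiv.aut_inv, AlgEquiv.symm_apply_eq, ha z hz]

theorem mem_Tcy {m : ℕ} {g : C ≃ₐ[K] C} : g ∈ Tcy K C p m ↔ ∀ z : C, z ^ p ^ m = 1 → g z = z :=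
  Iff.rfl

theorem mem_Tcy_iff {m : ℕ} {z : C} (hz : IsPrimitiveRoot z (p ^ m)) {g : C ≃ₐ[K] C} :
    g ∈ Tcy K C p m ↔ g z = z := by
  have : NeZero (p ^ m) := ⟨(pow_pos hp.out.pos m).ne'⟩
  constructor
  · intro h; exact h z hz.pow_eq_one
  · intro h w hw
    obtain ⟨i, -, rfl⟩ := hz.eq_pow_of_pow_eq_one hw
    rw [map_pow, h]

theorem Tcy_anti : Antitone (Tcy K C p) := by
  intro m m' h g hg z hz
  refine hg z ?_
  obtain ⟨k, rfl⟩ := Nat.exists_eq_add_of_le h
  rw [pow_add, pow_mul, hz, one_pow]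

variable (C) in
theorem exists_prim (m : ℕ) : ∃ z : C, IsPrimitiveRoot z (p ^ m) := by
  have : NeZero (p ^ m) := ⟨(pow_pos hp.out.pos m).ne'⟩
  exact HasEnoughRootsOfUnity.exists_primitiveRoot C (p ^ m)

/-- the cyclotomic character mod `p^(m+1)` on a group fixing `μ_p` -/
theorem exists_cyc_char (hp2 : p ≠ 2) {V : Subgroup (C ≃ₐ[K] C)} (hV : V ≤ Tcy K C p 1) (m : ℕ) :
    ∃ (k : ℕ) (χ : V →* Multiplicative (ZMod (p ^ k))),
      Function.Surjective χ ∧ χ.ker = (Tcy K C p (m + 1)).subgroupOf V := by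
  have hp0 := hp.out.pos
  have hne : NeZero (p ^ (m + 1)) := ⟨(pow_pos hp0 _).ne'⟩
  obtain ⟨z, hz⟩ := exists_prim C (p := p) (m + 1)
  have hdvd : p ∣ p ^ (m + 1) := dvd_pow_self p (Nat.succ_ne_zero m)
  let D : Subgroup (ZMod (p ^ (m + 1)))ˣ := (ZMod.unitsMap hdvd).ker
  have hcyc : IsCyclic (ZMod (p ^ (m + 1)))ˣ := ZMod.isCyclic_units_of_prime_pow p hp.out hp2 _
  have hDc : IsCyclic D := inferInstance
  have hcard : Nat.card D = p ^ m := by
    have h1 : Nat.card D * D.index = Nat.card (ZMod (p ^ (m + 1)))ˣ := D.card_mul_index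
    have h2 : D.index = p - 1 := by
      rw [Subgroup.index_ker, MonoidHom.range_eq_top.2 (ZMod.unitsMap_surjective hdvd),
        Subgroup.card_top, Nat.card_eq_fintype_card, ZMod.card_units_eq_totient,
        Nat.totient_prime hp.out]
    rw [h2, Nat.card_eq_fintype_card, Nat.card_eq_fintype_card, ZMod.card_units_eq_totient,
      Nat.totient_prime_pow_succ hp.out] at h1
    rw [Nat.card_eq_fintype_card]
    exact Nat.eq_of_mul_eq_mul_right (Nat.sub_pos_of_lt hp.out.one_lt) h1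
  let φ₀ : (C ≃ₐ[K] C) →* (ZMod (p ^ (m + 1)))ˣ := hz.autToPow K
  have hspec : ∀ g, z ^ ((φ₀ g : (ZMod (p ^ (m + 1)))ˣ) : ZMod (p ^ (m + 1))).val = g z :=
    fun g => hz.autToPow_spec K g
  have hker : ∀ g : C ≃ₐ[K] C, φ₀ g = 1 ↔ g ∈ Tcy K C p (m + 1) := by
    intro g
    rw [mem_Tcy_iff hz, ← hspec g]
    have hp1 : 1 < p ^ (m + 1) := Nat.one_lt_pow (Nat.succ_ne_zero m) hp.out.one_lt
    constructor
    · intro h
      have : Fact (1 < p ^ (m + 1)) := ⟨hp1⟩
      rw [h, Units.val_one, ZMod.val_one, pow_one]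
    · intro h
      have h1 := hz.pow_inj (ZMod.val_lt _) hp1 (h.trans (pow_one z).symm)
      have : Fact (1 < p ^ (m + 1)) := ⟨hp1⟩
      apply Units.ext
      apply ZMod.val_injective
      rw [h1, Units.val_one, ZMod.val_one]
  have hD : ∀ g ∈ V, φ₀ g ∈ D := by
    intro g hg
    have h1 := hV hg (z ^ p ^ m) (by rw [pow_one, ← pow_mul, ← pow_succ, hz.pow_eq_one])
    rw [map_pow, ← hspec g, ← pow_mul] at h1
    -- `p^(m+1) ∣ (a - 1) p^m`
    set a := ((φ₀ g : (ZMod (p ^ (m + 1)))ˣ) : ZMod (p ^ (m + 1))) with ha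
    have h2 : (a.val * p ^ m) ≡ (p ^ m) [MOD p ^ (m + 1)] := by
      have hz0 : z ≠ 0 := hz.ne_zero (pow_pos hp0 _).ne'
      have hzu : IsPrimitiveRoot (Units.mk0 z hz0) (p ^ (m + 1)) := IsPrimitiveRoot.coe_units_iff.1 hz
      have h1' : (Units.mk0 z hz0) ^ (a.val * p ^ m) = (Units.mk0 z hz0) ^ p ^ m := by
        apply Units.ext
        rw [Units.val_pow_eq_pow_val, Units.val_pow_eq_pow_val]
        exact h1
      have := pow_eq_pow_iff_modEq.1 h1'
      rwa [← hzu.eq_orderOf] at this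
    have h3 : a.val ≡ 1 [MOD p] := by
      generalize a.val = b at h2
      rw [pow_succ, mul_comm (p ^ m) p] at h2
      have h4 : b * p ^ m ≡ 1 * p ^ m [MOD p * p ^ m] := by rwa [one_mul]
      exact Nat.ModEq.mul_right_cancel' (pow_pos hp0 m).ne' h4
    rw [MonoidHom.mem_ker]
    apply Units.ext
    rw [ZMod.unitsMap_val, ← ha]
    have h5 : ((a.val : ℕ) : ZMod p) = ((1 : ℕ) : ZMod p) := (ZMod.natCast_eq_natCast_iff _ _ _).2 h3
    rw [Nat.cast_one] at h5
    rw [Units.val_one, ← h5, ZMod.natCast_val]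
  let φ : V →* D := (φ₀.comp V.subtype).codRestrict D (fun g => hD g g.2)
  obtain ⟨j, χ, h1, h2⟩ := exists_char_of_cyclic hp.out hcard φ
  refine ⟨j, χ, h1, ?_⟩
  rw [h2]
  ext g
  rw [MonoidHom.mem_ker, Subgroup.mem_subgroupOf, ← hker]
  constructor
  · intro h; exact congrArg Subtype.val h
  · intro h; exact Subtype.ext h

end cyc

section loc

variable (q : ℕ) [hq : Fact q.Prime] {p : ℕ} [hp : Fact p.Prime]

theorem Tcy_open (m : ℕ) : (locFam q).IsOpenSubgroup (Tcy ℚ_[q] (PadicAlgCl q) p m) := by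
  obtain ⟨z, hz⟩ := exists_prim (PadicAlgCl q) (p := p) m
  have hfin : FiniteDimensional ℚ_[q] (IntermediateField.adjoin ℚ_[q] {z}) :=
    IntermediateField.adjoin.finiteDimensional (Algebra.IsAlgebraic.isAlgebraic _).isIntegral
  refine open_mono ((locFam_open_iff q _).2 ⟨_, hfin, rfl⟩) ?_
  intro g hg
  rw [mem_Tcy_iff hz]
  exact (IntermediateField.mem_fixingSubgroup_iff _ _).1 hg _
    (IntermediateField.mem_adjoin_simple_self _ _)

/-- **the cyclotomic tower** -/
theorem locTower (hp2 : p ≠ 2) {V : Subgroup (PadicAlgCl q ≃ₐ[ℚ_[q]] PadicAlgCl q)}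
    (hVo : (locFam q).IsOpenSubgroup V) (hV : V ≤ Tcy ℚ_[q] (PadicAlgCl q) p 1) :
    Tower p ((locFam q).restrict V)
      (fun m => (Tcy ℚ_[q] (PadicAlgCl q) p (m + 1)).subgroupOf V) where
  anti m m' h := Subgroup.comap_mono (Tcy_anti (Nat.succ_le_succ h))
  opn m := by
    obtain ⟨W, hW, hle⟩ := Tcy_open q (p := p) (m + 1)
    exact ⟨_, ⟨W, hW, rfl⟩, Subgroup.comap_mono hle⟩
  cyc m := exists_cyc_char hp2 hV m
  big K := by
    by_contra hcon
    push Not at hcon
    set τ : ℕ → Subgroup V := fun m => (Tcy ℚ_[q] (PadicAlgCl q) p (m + 1)).subgroupOf V with hτ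
    have hanti : Antitone τ := fun m m' h => Subgroup.comap_mono (Tcy_anti (Nat.succ_le_succ h))
    have hopn : ∀ m, ((locFam q).restrict V).IsOpenSubgroup (τ m) := fun m => by
      obtain ⟨W, hW, hle⟩ := Tcy_open q (p := p) (m + 1)
      exact ⟨_, ⟨W, hW, rfl⟩, Subgroup.comap_mono hle⟩
    -- the index stabilises
    obtain ⟨m₀, hm₀⟩ : ∃ m₀, ∀ m, (τ m).index ≤ (τ m₀).index := by
      have hbdd : BddAbove (Set.range fun m => (τ m).index) := ⟨K, by rintro _ ⟨m, rfl⟩; exact hcon m⟩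
      have hmem := Nat.sSup_mem (Set.range_nonempty fun m => (τ m).index) hbdd
      obtain ⟨m₀, hm₀⟩ := hmem
      exact ⟨m₀, fun m => by
        beta_reduce at hm₀
        rw [hm₀]; exact le_csSup hbdd ⟨m, rfl⟩⟩
    have hstab : ∀ m, τ m₀ ≤ τ m := by
      intro m
      rcases le_total m m₀ with h | h
      · exact hanti h
      · have h1 := Subgroup.relIndex_mul_index (hanti h)
        have h2 := (hopn m₀).finiteIndex.index_ne_zero
        have h3 := (hopn m).finiteIndex.index_ne_zero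
        rw [← Subgroup.relIndex_eq_one]
        have h4 : (τ m).relIndex (τ m₀) * (τ m₀).index ≤ 1 * (τ m₀).index := by
          rw [h1, one_mul]; exact hm₀ m
        have h5 := le_of_mul_le_mul_right h4 (Nat.pos_of_ne_zero h2)
        have h6 : (τ m).relIndex (τ m₀) ≠ 0 := fun h0 => by
          rw [h0, zero_mul] at h1; exact h3 h1.symm
        omega
    -- the field
    have ho : (locFam q).IsOpenSubgroup ((τ m₀).map V.subtype) :=
      (open_restrict hVo _).1 (hopn m₀)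
    obtain ⟨E, hE, hEτ⟩ := (locFam_open_iff q _).1 ho
    obtain ⟨B, hB⟩ := roots_bounded_padic q E hp.out
    obtain ⟨m, hm⟩ : ∃ m : ℕ, B < p ^ (m + 1) := by
      refine ⟨B, ?_⟩
      calc B < B + 1 := Nat.lt_succ_self B
        _ < p ^ (B + 1) := Nat.lt_pow_self hp.out.one_lt
    obtain ⟨z, hz⟩ := exists_prim (PadicAlgCl q) (p := p) (m + 1)
    have hzE : z ∈ E := by
      rw [mem_iff_fixed, hEτ]
      rintro _ ⟨g, hg, rfl⟩
      have := hstab m hg
      exact (mem_Tcy_iff hz).1 this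
    exact absurd (hB (m + 1) z hzE hz) (not_le.2 hm)

/-- **`dim H²(E, μ_p) = 1`** for `E / ℚ_q` finite containing `μ_p`. -/
theorem loc_finrank_H2 (hp2 : p ≠ 2) {V : Subgroup (PadicAlgCl q ≃ₐ[ℚ_[q]] PadicAlgCl q)}
    (hVo : (locFam q).IsOpenSubgroup V) (hV : V ≤ Tcy ℚ_[q] (PadicAlgCl q) p 1) :
    Module.Finite (ZMod p) (H2 (ofFam ((locFam q).restrict V))
      (Representation.trivial (ZMod p) V (ZMod p))) ∧
    Module.finrank (ZMod p) (H2 (ofFam ((locFam q).restrict V))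
      (Representation.trivial (ZMod p) V (ZMod p))) = 1 := by
  obtain ⟨z, hz⟩ := exists_prim (PadicAlgCl q) (p := p) 1
  rw [pow_one] at hz
  have hζ := zeta_of_primitive hp.out hz
  have hfix : ∀ g : V, g • umk z (hz.ne_zero hp.out.ne_zero) = umk z (hz.ne_zero hp.out.ne_zero) := by
    intro g
    apply uval_injective
    show (g : PadicAlgCl q ≃ₐ[ℚ_[q]] PadicAlgCl q) z = z
    exact hV g.2 z (by rw [pow_one]; exact hz.pow_eq_one)
  have hCF := (locCF q hp.out).restrict hVo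
  have hτ := locTower q hp2 hVo hV
  exact ⟨finite_H2 hζ hfix hCF hτ, finrank_H2 hζ hfix hCF hτ⟩

/-- **`dim H¹(E, μ_p)`** for `E / ℚ_q` finite containing `μ_p`. -/
theorem loc_finrank_H1 {V : Subgroup (PadicAlgCl q ≃ₐ[ℚ_[q]] PadicAlgCl q)}
    (hVo : (locFam q).IsOpenSubgroup V) (hV : V ≤ Tcy ℚ_[q] (PadicAlgCl q) p 1) :
    Module.Finite (ZMod p) (H1 (ofFam ((locFam q).restrict V))
      (Representation.trivial (ZMod p) V (ZMod p))) ∧
    Module.finrank (ZMod p) (H1 (ofFam ((locFam q).restrict V))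
      (Representation.trivial (ZMod p) V (ZMod p))) = 2 + (if q = p then 1 else 0) * V.index := by
  obtain ⟨z, hz⟩ := exists_prim (PadicAlgCl q) (p := p) 1
  rw [pow_one] at hz
  have hζ := zeta_of_primitive hp.out hz
  have hfix : ∀ g : V, g • umk z (hz.ne_zero hp.out.ne_zero) = umk z (hz.ne_zero hp.out.ne_zero) := by
    intro g
    apply uval_injective
    show (g : PadicAlgCl q ≃ₐ[ℚ_[q]] PadicAlgCl q) z = z
    exact hV g.2 z (by rw [pow_one]; exact hz.pow_eq_one)
  have hCF := (locCF q hp.out).restrict hVo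
  obtain ⟨E, hE, rfl⟩ := (locFam_open_iff q V).1 hVo
  have hzE : z ∈ E := by
    rw [mem_iff_fixed]
    exact fun g hg => hV hg z (by rw [pow_one]; exact hz.pow_eq_one)
  have hzE' : IsPrimitiveRoot (⟨z, hzE⟩ : E) p :=
    IsPrimitiveRoot.of_map_of_injective (f := algebraMap E (PadicAlgCl q)) hz
      (algebraMap E (PadicAlgCl q)).injective
  refine finrank_H1 hζ hfix hCF ?_
  rw [relIndex_pow E p]
  split_ifs with h
  · subst h
    rw [one_mul, ← IntermediateField.finrank_eq_fixingSubgroup_index]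
    exact index_pow_padic_self' q E hzE'
  · rw [zero_mul, add_zero]
    exact index_pow_padic_ne' q E hp.out (Ne.symm h) hzE'

end loc

end Fermat.Agent.H7
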