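import Mathlib
import Fermat.Agent.H7BrTower
import Fermat.Agent.H55Arith

/-!
# S55 : the local fields of `ArithInput` (H7)
-/

set_option autoImplicit false
set_option maxSynthPendingDepth 3
set_option linter.unusedSectionVars false

namespace Fermat.Agent.H7

open groupCohomology (IsCocycle₁ IsCocycle₂)
open Fermat.Agent.H91 Fermat.Agent.H91.LevelFam Fermat.Agent.H55 Fermat.Agent.H54 ExtCitation

section full

variable (q : ℕ) [hq : Fact q.Prime] {p : ℕ} [hp : Fact p.Prime]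

/-- the local cyclotomic action on `μ_p` -/
theorem local_cyc (g : PadicAlgCl q ≃ₐ[ℚ_[q]] PadicAlgCl q) {z : PadicAlgCl q} (hz : z ^ p = 1) :
    g z = z ^ (cycloChar p (localGaloisToGlobal q g) : ZMod p).val := by
  have : NeZero p := ⟨hp.out.ne_zero⟩
  obtain ⟨ζ, hζ⟩ := HasEnoughRootsOfUnity.exists_primitiveRoot (AlgebraicClosure ℚ) p
  have hζ' : IsPrimitiveRoot (padicEmbedding q ζ) p :=
    hζ.map_of_injective (padicEmbedding_injective q)
  obtain ⟨i, -, rfl⟩ := hζ'.eq_pow_of_pow_eq_one hz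
  have h1 : g (padicEmbedding q ζ)
      = (padicEmbedding q ζ) ^ (cycloChar p (localGaloisToGlobal q g) : ZMod p).val := by
    rw [← padicEmbedding_localGaloisToGlobal, cycloChar_spec p _ hζ.pow_eq_one, map_pow]
  rw [map_pow, h1, ← pow_mul, ← pow_mul, mul_comm]

theorem le_Tcy {V : Subgroup (PadicAlgCl q ≃ₐ[ℚ_[q]] PadicAlgCl q)}
    (hV : V ≤ ((cycloChar p).comp (localGaloisToGlobal q)).ker) :
    V ≤ Tcy ℚ_[q] (PadicAlgCl q) p 1 := by
  intro g hg z hz
  rw [pow_one] at hz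
  have h1 : cycloChar p (localGaloisToGlobal q g) = 1 := hV hg
  have : Fact (1 < p) := ⟨hp.out.one_lt⟩
  rw [local_cyc q g hz, h1, Units.val_one, ZMod.val_one, pow_one]

theorem comap_levels {G H : Type*} [Group G] [Group H] (𝓥 : LevelFam G) (f : H →* G)
    (V : Subgroup H) : ((ofFam 𝓥).comap f).onSub V = ofFam ((𝓥.comap f).restrict V) := by
  rw [← ofFam_comap]
  exact (ofFam_comap _ _).symm

theorem krull_onSub (V : Subgroup (PadicAlgCl q ≃ₐ[ℚ_[q]] PadicAlgCl q)) :
    (krullLevels.comap (localGaloisToGlobal q)).onSub V = ofFam ((locFam q).restrict V) :=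
  comap_levels krullFam (localGaloisToGlobal q) V

theorem open_of_op {V : Subgroup (PadicAlgCl q ≃ₐ[ℚ_[q]] PadicAlgCl q)}
    (hV : (krullLevels.comap (localGaloisToGlobal q)).op V) : (locFam q).IsOpenSubgroup V := by
  rw [locFam_open_iff, ← op_comap_localGaloisToGlobal_iff]
  exact hV

/-- an open character of order `p` of the full local Galois group -/
theorem exists_full_char (hp2 : p ≠ 2) :
    ∃ χ : (PadicAlgCl q ≃ₐ[ℚ_[q]] PadicAlgCl q) →* Multiplicative (ZMod p),
      Function.Surjective χ ∧ (locFam q).IsOpenSubgroup χ.ker := by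
  set V := Tcy ℚ_[q] (PadicAlgCl q) p 1 with hV
  have hVo : (locFam q).IsOpenSubgroup V := Tcy_open q 1
  have hτ := locTower q hp2 hVo le_rfl
  obtain ⟨m, hm⟩ := hτ.big 1
  have hne : NeZero (p ^ (m + 1)) := ⟨(pow_pos hp.out.pos _).ne'⟩
  obtain ⟨k, ψ, hψs, hψk⟩ := hτ.cyc m
  have hψi : ψ.ker.index = p ^ k := by
    rw [Subgroup.index_ker, MonoidHom.range_eq_top.2 hψs, Subgroup.card_top]
    simp
  have hk : k ≠ 0 := by
    rintro rfl
    rw [hψk, pow_zero] at hψi
    omega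
  obtain ⟨z, hz⟩ := exists_prim (PadicAlgCl q) (p := p) (m + 1)
  have hcyc : IsCyclic (ZMod (p ^ (m + 1)))ˣ := ZMod.isCyclic_units_of_prime_pow p hp.out hp2 _
  let φ₀ : (PadicAlgCl q ≃ₐ[ℚ_[q]] PadicAlgCl q) →* (ZMod (p ^ (m + 1)))ˣ := hz.autToPow ℚ_[q]
  have hspec : ∀ g, z ^ ((φ₀ g : (ZMod (p ^ (m + 1)))ˣ) : ZMod (p ^ (m + 1))).val = g z :=
    fun g => hz.autToPow_spec ℚ_[q] g
  have hker : φ₀.ker = Tcy ℚ_[q] (PadicAlgCl q) p (m + 1) := by
    ext g
    rw [MonoidHom.mem_ker, mem_Tcy_iff hz, ← hspec g]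
    have hp1 : 1 < p ^ (m + 1) := Nat.one_lt_pow (Nat.succ_ne_zero m) hp.out.one_lt
    have : Fact (1 < p ^ (m + 1)) := ⟨hp1⟩
    constructor
    · intro h
      rw [h, Units.val_one, ZMod.val_one, pow_one]
    · intro h
      have h1 := hz.pow_inj (ZMod.val_lt _) hp1 (h.trans (pow_one z).symm)
      apply Units.ext
      apply ZMod.val_injective
      rw [h1, Units.val_one, ZMod.val_one]
  set N := Nat.card φ₀.range with hN
  have hNi : φ₀.ker.index = N := Subgroup.index_ker φ₀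
  have hdvd : p ∣ N := by
    have h1 : φ₀.ker.relIndex V * V.index = φ₀.ker.index := by
      apply Subgroup.relIndex_mul_index
      rw [hker]
      exact Tcy_anti (by omega)
    have h2 : φ₀.ker.relIndex V = p ^ k := by
      rw [hker, ← hψi, hψk]
      rfl
    rw [← hNi, ← h1, h2]
    exact dvd_mul_of_dvd_left (dvd_pow_self p hk) _
  obtain ⟨r, hr⟩ := hdvd
  rw [mul_comm] at hr
  have hN0 : N ≠ 0 := by
    rw [← hNi, hker]
    exact (Tcy_open q (p := p) (m + 1)).finiteIndex.index_ne_zero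
  obtain ⟨e⟩ := exists_mulEquiv_zmod (C := φ₀.range) hN.symm
  set χ₀ : (PadicAlgCl q ≃ₐ[ℚ_[q]] PadicAlgCl q) →* Multiplicative (ZMod N) :=
    e.symm.toMonoidHom.comp φ₀.rangeRestrict with hχ₀
  have hχ₀s : Function.Surjective χ₀ := e.symm.surjective.comp φ₀.rangeRestrict_surjective
  have hle : φ₀.ker ≤ χ₀.ker := by
    intro g hg
    rw [MonoidHom.mem_ker, hχ₀, MonoidHom.comp_apply]
    have : φ₀.rangeRestrict g = 1 := Subtype.ext hg
    rw [this, map_one]
  refine ⟨redc hr χ₀, ?_, ?_⟩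
  · apply surjective_of_ne
    obtain ⟨σ, hσ⟩ := hχ₀s (Multiplicative.ofAdd 1)
    refine ⟨σ, ?_⟩
    rw [redc_gen hr hσ]
    intro h0
    have : (1 : ZMod p) = 0 := Multiplicative.ofAdd.injective h0
    exact one_ne_zero this
  · refine open_mono (Tcy_open q (p := p) (m + 1)) ?_
    rw [← hker]
    exact hle.trans (ker_le_redc hr χ₀)

/-- `H²(ℚ_q, μ_p) ≠ 0` -/
theorem loc_nontrivial_H2 (hp2 : p ≠ 2) :
    Nontrivial (H2 (krullLevels.comap (localGaloisToGlobal q))
      (mu ((cycloChar p).comp (localGaloisToGlobal q)))) := by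
  have : NeZero p := ⟨hp.out.ne_zero⟩
  have e : krullLevels.comap (localGaloisToGlobal q) = ofFam (locFam q) :=
    (ofFam_comap krullFam (localGaloisToGlobal q)).symm
  rw [e]
  obtain ⟨z, hz⟩ := HasEnoughRootsOfUnity.exists_primitiveRoot (PadicAlgCl q) p
  have hζ := zeta_of_primitive hp.out hz
  obtain ⟨χ, hs, hχ⟩ := exists_full_char q hp2
  refine nontrivial_H2 hζ (fun g x => ?_) (locCF q hp.out) hs hχ
  have h1 : g • umk z (hz.ne_zero hp.out.ne_zero)
      = zi hζ (cycloChar p (localGaloisToGlobal q g) : ZMod p) := by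
    apply uval_injective
    rw [zi_apply, uval_nsmul, uval_umk]
    exact local_cyc q g hz.pow_eq_one
  rw [mu_apply, MonoidHom.comp_apply, ← val_smul_zi, ← h1, zi_apply, smul_comm]

theorem loc_H2_levels (hp2 : p ≠ 2) (V : Subgroup (PadicAlgCl q ≃ₐ[ℚ_[q]] PadicAlgCl q))
    (hVo : (krullLevels.comap (localGaloisToGlobal q)).op V)
    (hV : V ≤ ((cycloChar p).comp (localGaloisToGlobal q)).ker) :
    Module.Finite (ZMod p) (H2 ((krullLevels.comap (localGaloisToGlobal q)).onSub V)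
      (Representation.trivial (ZMod p) V (ZMod p))) ∧
    Module.finrank (ZMod p) (H2 ((krullLevels.comap (localGaloisToGlobal q)).onSub V)
      (Representation.trivial (ZMod p) V (ZMod p))) = 1 := by
  rw [krull_onSub]
  exact loc_finrank_H2 q hp2 (open_of_op q hVo) (le_Tcy q hV)

theorem loc_H1_levels (V : Subgroup (PadicAlgCl q ≃ₐ[ℚ_[q]] PadicAlgCl q))
    (hVo : (krullLevels.comap (localGaloisToGlobal q)).op V)
    (hV : V ≤ ((cycloChar p).comp (localGaloisToGlobal q)).ker) :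
    Module.Finite (ZMod p) (H1 ((krullLevels.comap (localGaloisToGlobal q)).onSub V)
      (Representation.trivial (ZMod p) V (ZMod p))) ∧
    Module.finrank (ZMod p) (H1 ((krullLevels.comap (localGaloisToGlobal q)).onSub V)
      (Representation.trivial (ZMod p) V (ZMod p)))
        = 2 + (if q = p then 1 else 0) * V.index := by
  rw [krull_onSub]
  exact loc_finrank_H1 q (open_of_op q hVo) (le_Tcy q hV)

end full

section DSfields

/-- the prime of a place -/
def vp {S : Finset Nat.Primes} (v : (DS S).ι) : Nat.Primes := (show ↥S from v).1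

variable (S : Finset Nat.Primes) (p : ℕ) [hp : Fact p.Prime]

theorem DS_loc_H2 (hp2 : p ≠ 2) (v : (DS S).ι) (V : Subgroup ((DS S).Gv v))
    (hVo : ((DS S).lev v).op V) (hV : V ≤ ((cycloChar p).comp ((DS S).loc v)).ker) :
    Module.Finite (ZMod p) (H2 (((DS S).lev v).onSub V)
      (Representation.trivial (ZMod p) V (ZMod p))) ∧
    Module.finrank (ZMod p) (H2 (((DS S).lev v).onSub V)
      (Representation.trivial (ZMod p) V (ZMod p))) = 1 := by
  exact @loc_H2_levels ((vp v : Nat.Primes) : ℕ) ⟨(vp v).2⟩ p hp hp2 V hVo hV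

theorem DS_loc_H1 (v : (DS S).ι) (V : Subgroup ((DS S).Gv v))
    (hVo : ((DS S).lev v).op V) (hV : V ≤ ((cycloChar p).comp ((DS S).loc v)).ker) :
    Module.Finite (ZMod p) (H1 (((DS S).lev v).onSub V)
      (Representation.trivial (ZMod p) V (ZMod p))) ∧
    Module.finrank (ZMod p) (H1 (((DS S).lev v).onSub V)
      (Representation.trivial (ZMod p) V (ZMod p)))
        = 2 + (if ((vp v : Nat.Primes) : ℕ) = p then 1 else 0) * V.index := by
  exact @loc_H1_levels ((vp v : Nat.Primes) : ℕ) ⟨(vp v).2⟩ p hp V hVo hV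

/-- field `loc_fin1` -/
theorem loc_fin1 (v : (DS S).ι) (V : Subgroup ((DS S).Gv v))
    (hVo : ((DS S).lev v).op V) (hV : V ≤ ((cycloChar p).comp ((DS S).loc v)).ker) :
    Module.Finite (ZMod p) (H1 (((DS S).lev v).onSub V)
      (Representation.trivial (ZMod p) V (ZMod p))) := (DS_loc_H1 S p v V hVo hV).1

/-- field `loc_fin2` -/
theorem loc_fin2 (hp2 : p ≠ 2) (v : (DS S).ι) (V : Subgroup ((DS S).Gv v))
    (hVo : ((DS S).lev v).op V) (hV : V ≤ ((cycloChar p).comp ((DS S).loc v)).ker) :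
    Module.Finite (ZMod p) (H2 (((DS S).lev v).onSub V)
      (Representation.trivial (ZMod p) V (ZMod p))) := (DS_loc_H2 S p hp2 v V hVo hV).1

/-- field `loc_h2` -/
theorem loc_h2 (hp2 : p ≠ 2) (v : (DS S).ι) (V : Subgroup ((DS S).Gv v))
    (hVo : ((DS S).lev v).op V) (hV : V ≤ ((cycloChar p).comp ((DS S).loc v)).ker) :
    Module.finrank (ZMod p) (H2 (((DS S).lev v).onSub V)
      (Representation.trivial (ZMod p) V (ZMod p))) = 1 := (DS_loc_H2 S p hp2 v V hVo hV).2

/-- field `loc_h1` -/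
theorem loc_h1 (hpS : pPrime p ∈ S) :
    ∃ c : (DS S).ι → ℕ, ∑ v, c v = 1 ∧ ∀ (v : (DS S).ι) (V : Subgroup ((DS S).Gv v)),
      ((DS S).lev v).op V → V ≤ ((cycloChar p).comp ((DS S).loc v)).ker →
      Module.finrank (ZMod p) (H1 (((DS S).lev v).onSub V)
        (Representation.trivial (ZMod p) V (ZMod p))) = 2 + c v * V.index := by
  refine ⟨fun v => if ((vp v : Nat.Primes) : ℕ) = p then 1 else 0, ?_, fun v V hVo hV =>
    (DS_loc_H1 S p v V hVo hV).2⟩
  have : ∀ v : S, (if ((vp v : Nat.Primes) : ℕ) = p then 1 else 0)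
      = if v = (⟨pPrime p, hpS⟩ : S) then 1 else 0 := by
    intro v
    congr 1
    apply propext
    constructor
    · intro h; exact Subtype.ext (Subtype.ext h)
    · rintro rfl; rfl
  show ∑ v : S, (if ((vp v : Nat.Primes) : ℕ) = p then 1 else 0) = 1
  rw [Finset.sum_congr rfl fun v _ => this v, Finset.sum_ite_eq' Finset.univ]
  simp

/-- field `tot_ram` -/
theorem tot_ram (hp2 : p ≠ 2) (hpS : pPrime p ∈ S) :
    ∃ v : (DS S).ι, (∀ g : AlgebraicClosure ℚ ≃ₐ[ℚ] AlgebraicClosure ℚ, ∃ x : (DS S).Gv v,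
        cycloChar p ((DS S).loc v x) = cycloChar p g) ∧
      Nontrivial (H2 ((DS S).lev v) (mu ((cycloChar p).comp ((DS S).loc v)))) :=
  ⟨⟨pPrime p, hpS⟩, exists_cycloChar_primeLocalToGlobal_eq p, loc_nontrivial_H2 p hp2⟩

end DSfields

end Fermat.Agent.H7
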