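import Mathlib
import Fermat.Agent.H7BrDim
import Fermat.Agent.H91Hasse

/-!
# Abstract preparations for (C2)

* in a local group every `p`-torsion class dies on open normal subgroups of index `p`;
* local triviality from the norm condition (converse of `LocData.local_norm`).
-/

set_option autoImplicit false
set_option linter.unusedSectionVars false

namespace Fermat.Agent.H91

open groupCohomology (IsCocycle₁ IsCocycle₂)
open LevelFam Fermat.Agent.H7

universe u v w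

section kill

variable {G : Type u} [Group G] {A : Type v} [AddCommGroup A] [DistribMulAction G A]
  {p : ℕ} [hp : Fact p.Prime] {ζ : A} {𝓥 : LevelFam G}

/-- A `p`-torsion class of a local group dies on the kernel of every character of order `p`. -/
theorem kill_char (hζ : Zeta p ζ) (hfix : ∀ g : G, g • ζ = ζ) (hCF : CF p 𝓥 A)
    {τ : ℕ → Subgroup G} (hτ : Tower p 𝓥 τ) {f : G × G → A} (hf : IsCocycle₂ f)
    (hc : 𝓥.IsConst₂ f) (hpf : 𝓥.Triv₂ ((p : ℤ) • f))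
    {χ : G →* Multiplicative (ZMod p)} (hs : Function.Surjective χ)
    (hχ : 𝓥.IsOpenSubgroup χ.ker) : (𝓥.restrict χ.ker).Triv₂ (res₂ χ.ker f) := by
  have hp1 : 1 < p := hp.out.one_lt
  obtain ⟨σ, hσ⟩ := hs (Multiplicative.ofAdd 1)
  have hidx := hCF.idx_ker hχ hσ
  have hex : ∃ a ∈ fix A (⊤ : Subgroup G), a ∉ (fix A χ.ker).map (nrmHom A σ p) := by
    by_contra hcon
    push Not at hcon
    rw [AddSubgroup.relIndex_eq_one.2 hcon] at hidx
    omega
  obtain ⟨a, ha, haN⟩ := hex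
  have hc1 : 𝓥.IsConst₂ (cc χ a) := (inflated_cc χ ha).isConst₂ hχ
  have hp1' : 𝓥.Triv₂ ((p : ℤ) • cc χ a) := by
    rw [← cc_zsmul]
    refine (triv₂_cc_iff hp1 hχ (hCF.h90 _ hχ) hσ ((fix A (⊤ : Subgroup G)).zsmul_mem ha _)).2
      ⟨a, fun g _ => ha g trivial, ?_⟩
    rw [nrmHom_apply, nrm]
    have : ∀ k ∈ Finset.range p, σ ^ k • a = a := fun k _ => ha _ trivial
    rw [Finset.sum_congr rfl this, Finset.sum_const, Finset.card_range, natCast_zsmul]
  rcases dim_le_one hζ hfix hCF hτ (isCocycle₂_cc χ ha) hf hc1 hc hp1' hpf with h1 | ⟨k, hk⟩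
  · exact absurd ((triv₂_cc_iff hp1 hχ (hCF.h90 _ hχ) hσ ha).1 h1) haN
  · have h2 := Triv₂.res hk χ.ker
    have h3 : res₂ χ.ker (f - k • cc χ a) = res₂ χ.ker f := by
      have : res₂ χ.ker (f - k • cc χ a) = res₂ χ.ker f - k • res₂ χ.ker (cc χ a) := rfl
      rw [this, res_cc_ker, smul_zero, sub_zero]
    rwa [h3] at h2

/-- A `p`-torsion class of a local group dies on every open normal subgroup of index `p`. -/
theorem kill_index (hζ : Zeta p ζ) (hfix : ∀ g : G, g • ζ = ζ) (hCF : CF p 𝓥 A)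
    {τ : ℕ → Subgroup G} (hτ : Tower p 𝓥 τ) {f : G × G → A} (hf : IsCocycle₂ f)
    (hc : 𝓥.IsConst₂ f) (hpf : 𝓥.Triv₂ ((p : ℤ) • f))
    {H : Subgroup G} (hH : 𝓥.IsOpenSubgroup H) (hn : H.Normal) (hi : H.index = p) :
    (𝓥.restrict H).Triv₂ (res₂ H f) := by
  obtain ⟨χ, hs, hle, hidx⟩ := exists_char_of_pgroup (N := H) (r := 0) (by rw [hi, zero_add, pow_one])
  rw [pow_zero, Subgroup.index_eq_one] at hidx
  have hker : H = χ.ker := le_antisymm hle (Subgroup.subgroupOf_eq_top.1 hidx)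
  subst hker
  exact kill_char hζ hfix hCF hτ hf hc hpf hs hH

end kill

section converse

variable {G : Type u} [Group G] {𝓥 : LevelFam G} {A : Type v} [AddCommGroup A]
  [DistribMulAction G A] (𝓓 : LocData.{u, v, w} 𝓥 A)

/-- the invariant of an inflated cocycle only depends on the class of `σ` -/
lemma tinv_mul_right {G : Type*} [Group G] {A : Type*} [AddCommGroup A] [DistribMulAction G A]
    {H : Subgroup G} [hn : H.Normal] {f : G × G → A} (hf : Inflated H f) (σ : G) {h : G}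
    (hh : h ∈ H) (n : ℕ) : tinv f (σ * h) n = tinv f σ n := by
  rw [tinv, tinv]
  have h1 : ∀ k : ℕ, ∃ h' ∈ H, (σ * h) ^ k = σ ^ k * h' := by
    intro k
    induction k with
    | zero => exact ⟨1, one_mem _, by simp⟩
    | succ k ih =>
      obtain ⟨h', hh', e⟩ := ih
      refine ⟨(σ⁻¹ * h' * σ) * h, H.mul_mem ?_ hh, ?_⟩
      · have := hn.conj_mem h' hh' σ⁻¹
        rwa [inv_inv] at this
      · rw [pow_succ, e, pow_succ]; group
  refine Finset.sum_congr rfl fun k _ => ?_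
  obtain ⟨h', hh', e⟩ := h1 k
  have hmul : ∀ a b : G, f (a * h', b * h) = f (a, b) := by
    intro a b
    rw [hf.mul_right _ _ hh, hf.mul_left _ _ hh']
  rw [e]
  exact hmul _ _

/-- converse of `LocData.local_norm` -/
theorem trivAt_of_norm {p : ℕ} [hp : Fact p.Prime]
    {U H : Subgroup G} (hH : 𝓥.IsOpenSubgroup H)
    (hn : (H.subgroupOf U).Normal) (hi : H.relIndex U = p)
    {f : G × G → A} {x : U → A} (hx : (𝓥.restrict U).IsConst₁ x)
    (hF : Inflated (H.subgroupOf U) (res₂ U f - dd x))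
    {σ : U} (hσ : (σ : G) ∉ H) (i : 𝓓.ι)
    {s₀ : 𝓓.D i} (hs₀U : 𝓓.r i s₀ ∈ U) (hs₀H : 𝓓.r i s₀ ∉ H)
    (hT : ∀ s : 𝓓.D i, 𝓓.r i s ∈ U → 𝓓.r i s ∉ H → ∃ b : 𝓓.B i,
        (∀ h : 𝓓.D i, 𝓓.r i h ∈ H → h • b = b) ∧
        𝓓.j i (tinv (res₂ U f - dd x) σ p) = nrm s p b) :
    𝓓.TrivAt i U f := by
  classical
  set F := res₂ U f - dd x with hFdef
  set H' := H.subgroupOf U with hH'
  have hi' : H'.index = p := hi
  have hσ' : σ ∉ H' := fun h => hσ h
  have hs₀' : (⟨𝓓.r i s₀, hs₀U⟩ : U) ∉ H' := fun h => hs₀H h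
  -- find a power of `s₀` mapping to the coset of `σ`
  obtain ⟨k, h₀, hh₀, hk⟩ := gen_of_index hi' hs₀' σ
  obtain ⟨s, hs⟩ : ∃ s, s = s₀ ^ k := ⟨_, rfl⟩
  have hsU : 𝓓.r i s ∈ U := by rw [hs, map_pow]; exact U.pow_mem hs₀U k
  have hsσ : (⟨𝓓.r i s, hsU⟩ : U) = σ * h₀⁻¹ := by
    rw [hk, mul_assoc, mul_inv_cancel, mul_one]
    apply Subtype.ext
    simp [hs]
  have hsH : 𝓓.r i s ∉ H := by
    intro hmem
    have h1 : (⟨𝓓.r i s, hsU⟩ : U) ∈ H' := hmem
    rw [hsσ] at h1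
    apply hσ'
    have := H'.mul_mem h1 hh₀
    simpa using this
  obtain ⟨b, hb, hbT⟩ := hT s hsU hsH
  -- the local group
  let Ui : Subgroup (𝓓.D i) := U.comap (𝓓.r i)
  let Hi : Subgroup (𝓓.D i) := H.comap (𝓓.r i)
  let ρ : Ui →* U := (𝓓.r i).subgroupComap U
  have hHi : Hi.subgroupOf Ui = H'.comap ρ := by
    ext y; rfl
  have hnHi : (Hi.subgroupOf Ui).Normal := by
    rw [hHi]; exact hn.comap ρ
  let Fi : Ui × Ui → 𝓓.B i := fun q => 𝓓.j i (F (ρ q.1, ρ q.2))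
  have hFi : Inflated (Hi.subgroupOf Ui) Fi := by
    refine ⟨fun a b c => ?_, fun h hh g => ?_, fun g h hh => ?_⟩
    · have h1 := congrArg (𝓓.j i) (hF.coc (ρ a) (ρ b) (ρ c))
      rw [map_add, map_add] at h1
      have h2 : 𝓓.j i ((ρ a) • F (ρ b, ρ c)) = a • 𝓓.j i (F (ρ b, ρ c)) := 𝓓.hj i a _
      rw [h2] at h1
      simpa [Fi, map_mul] using h1
    · show 𝓓.j i (F (ρ h, ρ g)) = 0
      rw [hF.left (ρ h) (by rw [hHi] at hh; exact hh), map_zero]
    · show 𝓓.j i (F (ρ g, ρ h)) = 0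
      rw [hF.right _ (ρ h) (by rw [hHi] at hh; exact hh), map_zero]
  have hlev : ((𝓥.comap (𝓓.r i)).restrict Ui) = (𝓥.restrict U).comap ρ := by
    rw [restrict, restrict, comap_comap, comap_comap]
    rfl
  -- index of `Hi` in `Ui`
  have hsHi : (⟨s, hsU⟩ : Ui) ∉ Hi.subgroupOf Ui := fun h => hsH h
  have hidx : (Hi.subgroupOf Ui).index = p := by
    rw [hHi, Subgroup.index_comap]
    have h1 : H'.relIndex ρ.range ∣ p := hi' ▸ Subgroup.relIndex_dvd_index_of_normal _ _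
    rcases (Nat.dvd_prime hp.out).1 h1 with h2 | h2
    · rw [Subgroup.relIndex_eq_one] at h2
      exact absurd (h2 ⟨⟨s, hsU⟩, rfl⟩) hsH
    · exact h2
  have hFit : ((𝓥.comap (𝓓.r i)).restrict Ui).Triv₂ Fi := by
    refine triv₂_of_tinv_eq_nrm (H := Hi.subgroupOf Ui) (σ := ⟨s, hsU⟩) (n := p) (a := b) ?_ hFi
      (pow_mem_iff_of_index hidx hsHi) (gen_of_index hidx hsHi) ?_ ?_
    · exact IsOpenSubgroup.comap (r := Ui.subtype) (hH.comap (𝓓.r i))
    · intro h hh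
      exact hb (h : 𝓓.D i) hh
    · have e1 : tinv Fi ⟨s, hsU⟩ p = 𝓓.j i (tinv F σ p) := by
        rw [← tinv_mul_right hF σ (H'.inv_mem hh₀) p, tinv, tinv, map_sum]
        refine Finset.sum_congr rfl fun k' _ => ?_
        show 𝓓.j i (F (ρ ((⟨s, hsU⟩ : Ui) ^ k'), ρ ⟨s, hsU⟩)) = _
        rw [map_pow]
        have h1 : ρ ⟨s, hsU⟩ = σ * h₀⁻¹ := hsσ
        rw [h1]
      rw [e1, hbT, nrm, nrm]
      rfl
  obtain ⟨y, hy, hyf⟩ := hFit
  have hxc : ((𝓥.comap (𝓓.r i)).restrict Ui).IsConst₁ (fun q : Ui => 𝓓.j i (x (ρ q))) := by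
    rw [hlev]
    exact (hx.comap ρ).comp _
  refine ⟨fun q => y q + 𝓓.j i (x (ρ q)), ?_, fun g h => ?_⟩
  · exact hy.add hxc
  · have h2 : 𝓓.j i ((ρ g) • x (ρ h)) = g • 𝓓.j i (x (ρ h)) := 𝓓.hj i g _
    have h3 := hyf g h
    have h4 : Fi (g, h) = 𝓓.j i (f (𝓓.r i g, 𝓓.r i h)) -
        (g • 𝓓.j i (x (ρ h)) - 𝓓.j i (x (ρ (g * h))) + 𝓓.j i (x (ρ g))) := by
      show 𝓓.j i ((res₂ U f - dd x) (ρ g, ρ h)) = _
      rw [Pi.sub_apply, map_sub, dd_apply, map_add, map_sub, h2, map_mul]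
      rfl
    rw [h4, dd_apply] at h3
    rw [dd_apply, smul_add]
    show _ = 𝓓.j i (f (𝓓.r i g, 𝓓.r i h))
    linear_combination (norm := abel) h3

end converse

end Fermat.Agent.H91
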