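import Mathlib
import Fermat.Agent.H91IsoA
import Fermat.Agent.H91Arith
import Fermat.Agent.H55Arith
import Fermat.Agent.H73F6

/-!
# Bridges between the level cohomology of `H55` and the arithmetic local data
-/

set_option autoImplicit false
set_option maxSynthPendingDepth 3

namespace Fermat.Agent.H91

open groupCohomology (IsCocycle₁ IsCocycle₂)
open ExtCitation Fermat.Agent.H54 Fermat.Agent.H55 Fermat.Agent.H7
open IsDedekindDomain NumberField Module IntermediateField LevelFam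

attribute [local instance] factNatPrimes

section kummerSub

variable {p : ℕ} [hp : Fact p.Prime] {U : Subgroup GQ} {ζ : Qb} (hζ : IsPrimitiveRoot ζ p)
  (hU : ∀ u ∈ U, u ζ = ζ) {β : Qb} (hβ : β ≠ 0) (hfix : ∀ u ∈ U, u (β ^ p) = β ^ p)

/-- the Galois group of `K(β)` -/
noncomputable def kumSub (U : Subgroup GQ) (β : Qb) : Subgroup GQ := U ⊓ MulAction.stabilizer GQ β

lemma mem_kumSub {U : Subgroup GQ} {β : Qb} {u : GQ} : u ∈ kumSub U β ↔ u ∈ U ∧ u β = β := Iff.rfl

lemma kumSub_le (U : Subgroup GQ) (β : Qb) : kumSub U β ≤ U := inf_le_left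

lemma kumSub_open {U : Subgroup GQ} (hU : krullFam.IsOpenSubgroup U) (β : Qb) :
    krullFam.IsOpenSubgroup (kumSub U β) := by
  obtain ⟨V, hV, hVβ⟩ := exists_krull_fix β
  exact hU.inf ⟨V, hV, fun s hs => hVβ s hs⟩

include hζ hU hβ hfix in
lemma exists_kumHom : ∃ φ : U →* rootsOfUnity p Qb, φ.ker = (kumSub U β).subgroupOf U := by
  have hu0 : ∀ u : U, (u : GQ) β ≠ 0 := fun u h => hβ (by rwa [map_eq_zero] at h)
  have hpow : ∀ u : U, ((u : GQ) β / β) ^ p = 1 := fun u => by
    rw [div_pow, ← map_pow, hfix u u.2, div_self (pow_ne_zero _ hβ)]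
  have hfix' : ∀ x : Qb, x ^ p = 1 → ∀ u ∈ U, u x = x := by
    intro x hx u hu
    obtain ⟨i, -, rfl⟩ := hζ.eq_pow_of_pow_eq_one hx
    rw [map_pow, hU u hu]
  let ψ : U → rootsOfUnity p Qb := fun u => ⟨Units.mk0 ((u : GQ) β / β) (div_ne_zero (hu0 u) hβ), by
    rw [mem_rootsOfUnity]
    apply Units.ext
    simpa using hpow u⟩
  have hψ : ∀ u : U, ((ψ u : Qbˣ) : Qb) = (u : GQ) β / β := fun u => rfl
  have hmul : ∀ u v : U, ψ (u * v) = ψ u * ψ v := by
    intro u v
    apply Subtype.ext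
    apply Units.ext
    rw [Subgroup.coe_mul, Units.val_mul, hψ, hψ, hψ]
    have h1 := hfix' _ (hpow v) u u.2
    rw [map_div₀] at h1
    have h2 : ((u * v : U) : GQ) β = (u : GQ) ((v : GQ) β) := rfl
    rw [h2]
    have h3 := hu0 u
    rw [div_eq_div_iff h3 hβ] at h1
    field_simp
    linear_combination h1
  refine ⟨MonoidHom.mk' ψ hmul, ?_⟩
  ext u
  rw [MonoidHom.mem_ker, Subgroup.mem_subgroupOf, mem_kumSub]
  constructor
  · intro h
    refine ⟨u.2, ?_⟩
    have h1 := congrArg (fun x : rootsOfUnity p Qb => ((x : Qbˣ) : Qb)) h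
    have h2 : (u : GQ) β / β = 1 := h1
    rwa [div_eq_one_iff_eq hβ] at h2
  · rintro ⟨-, h⟩
    apply Subtype.ext
    apply Units.ext
    show (u : GQ) β / β = 1
    rw [h, div_self hβ]

include hζ hU hβ hfix in
lemma kumSub_normal : ((kumSub U β).subgroupOf U).Normal := by
  obtain ⟨φ, hφ⟩ := exists_kumHom hζ hU hβ hfix
  rw [← hφ]
  infer_instance

include hζ hU hβ hfix in
lemma kumSub_relIndex (hne : ∃ u ∈ U, u β ≠ β) : (kumSub U β).relIndex U = p := by
  obtain ⟨φ, hφ⟩ := exists_kumHom hζ hU hβ hfix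
  have : NeZero p := ⟨hp.out.ne_zero⟩
  have h1 : (kumSub U β).relIndex U = Nat.card φ.range := by
    rw [Subgroup.relIndex, ← hφ, Subgroup.index_ker]
  have h2 : Nat.card (rootsOfUnity p Qb) = p := hζ.card_rootsOfUnity
  have h3 : Nat.card φ.range ∣ p := by
    have := Subgroup.card_subgroup_dvd_card φ.range
    rwa [h2] at this
  rw [h1]
  rcases (Nat.dvd_prime hp.out).1 h3 with h4 | h4
  · exfalso
    obtain ⟨u, hu, hne⟩ := hne
    have h5 : φ.range = ⊥ := Subgroup.card_eq_one.1 h4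
    rw [MonoidHom.range_eq_bot_iff] at h5
    have h6 : (⟨u, hu⟩ : U) ∈ φ.ker := by rw [h5]; rfl
    rw [hφ, Subgroup.mem_subgroupOf, mem_kumSub] at h6
    exact hne h6.2
  · exact h4

end kummerSub

section loc

lemma mem_map_fixing_iff (F : IntermediateField ℚ Qb) (g x : GQ) :
    x ∈ (F.map (g : Qb →ₐ[ℚ] Qb)).fixingSubgroup ↔ g⁻¹ * x * g ∈ F.fixingSubgroup := by
  rw [IntermediateField.mem_fixingSubgroup_iff, IntermediateField.mem_fixingSubgroup_iff]
  constructor
  · intro h y hy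
    have h1 := h (g y) ⟨y, hy, rfl⟩
    show g⁻¹ (x (g y)) = y
    rw [h1, AlgEquiv.aut_inv, AlgEquiv.symm_apply_apply]
  · rintro h _ ⟨y, hy, rfl⟩
    have h1 : g⁻¹ (x (g y)) = y := h y hy
    show x (g y) = g y
    have h2 := congrArg g h1
    rw [AlgEquiv.aut_inv, AlgEquiv.apply_symm_apply] at h2
    exact h2

lemma comap_rloc_eq (q : Nat.Primes) (g : GQ) :
    krullFam.comap (rloc q g) = krullFam.comap (primeLocalToGlobal q) := by
  have key : ∀ F : IntermediateField ℚ Qb, (F.map (g : Qb →ₐ[ℚ] Qb)).fixingSubgroup.comap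
      (primeLocalToGlobal q) = F.fixingSubgroup.comap (rloc q g) := by
    intro F
    ext x
    rw [Subgroup.mem_comap, Subgroup.mem_comap, mem_map_fixing_iff]
    rfl
  apply ext_carrier
  ext V
  constructor
  · rintro ⟨_, ⟨F, hF, rfl⟩, rfl⟩
    have : FiniteDimensional ℚ F := hF
    exact ⟨_, ⟨F.map (g : Qb →ₐ[ℚ] Qb), inferInstance, rfl⟩, (key F).symm⟩
  · rintro ⟨_, ⟨F, hF, rfl⟩, rfl⟩
    have : FiniteDimensional ℚ F := hF
    refine ⟨_, ⟨F.map ((g⁻¹ : GQ) : Qb →ₐ[ℚ] Qb), inferInstance, rfl⟩, ?_⟩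
    rw [← key, IntermediateField.map_map]
    have : ((g : Qb →ₐ[ℚ] Qb).comp ((g⁻¹ : GQ) : Qb →ₐ[ℚ] Qb)) = AlgHom.id ℚ Qb := by
      ext y
      show g (g⁻¹ y) = y
      rw [AlgEquiv.aut_inv, AlgEquiv.apply_symm_apply]
    rw [this, IntermediateField.map_id]

lemma onSub_dec_eq (q : Nat.Primes) (U : Subgroup GQ) (g : GQ) :
    (krullLevels.comap (primeLocalToGlobal q)).onSub (dec (primeLocalToGlobal q) U g) =
      ofFam ((krullFam.comap (rloc q g)).restrict (U.comap (rloc q g))) := by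
  rw [comap_rloc_eq, LevelFam.restrict, ofFam_comap, ofFam_comap]
  rfl

lemma zeta_umk {Ω : Type*} [Field Ω] {p : ℕ} [hp : Fact p.Prime] {ζ : Ω}
    (hζ : IsPrimitiveRoot ζ p) (h0 : ζ ≠ 0) : Zeta p (umk ζ h0) where
  ne h := by
    have := congrArg uval h
    rw [uval_umk, uval_zero] at this
    exact hζ.ne_one hp.out.one_lt this
  tors := uval_injective (by rw [uval_nsmul, uval_umk, hζ.pow_eq_one, uval_zero])
  gen a ha := by
    have : NeZero p := ⟨hp.out.ne_zero⟩
    have h1 := congrArg uval ha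
    rw [uval_nsmul, uval_zero] at h1
    obtain ⟨i, -, hi⟩ := hζ.eq_pow_of_pow_eq_one h1
    exact ⟨i, uval_injective (by rw [uval_nsmul, uval_umk, hi])⟩

variable {p : ℕ} [hp : Fact p.Prime] {ζ : Qb} (hζ : IsPrimitiveRoot ζ p) (h0 : ζ ≠ 0)

lemma zeta_jloc {ζ : Qb} (hζ : IsPrimitiveRoot ζ p) (h0 : ζ ≠ 0) (q : Nat.Primes) (g : GQ) :
    Zeta p (jloc q g (umk ζ h0)) := by
  have h1 : IsPrimitiveRoot (embComp (q : ℕ) g ζ) p :=
    hζ.map_of_injective (embComp (q : ℕ) g).injective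
  have h2 : jloc q g (umk ζ h0) = umk (embComp (q : ℕ) g ζ) (h1.ne_zero hp.out.ne_zero) :=
    uval_injective rfl
  rw [h2]
  exact zeta_umk h1 _

lemma jloc_zi (q : Nat.Primes) (g : GQ) (z : ZMod p) :
    jloc q g (zi (zeta_umk hζ h0) z) = zi (zeta_jloc hζ h0 q g) z := by
  rw [zi_apply, zi_apply, map_nsmul]

/-- the cocycle `ζ ^ f`, extended by zero. -/
noncomputable def extz (U : Subgroup GQ) (f : U × U → ZMod p) : GQ × GQ → Additive Qbˣ :=
  open Classical in
  fun q => if h : q.1 ∈ U ∧ q.2 ∈ U then zi (zeta_umk hζ h0) (f (⟨q.1, h.1⟩, ⟨q.2, h.2⟩)) else 0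

lemma extz_apply (U : Subgroup GQ) (f : U × U → ZMod p) (x y : U) :
    extz hζ h0 U f ((x : GQ), (y : GQ)) = zi (zeta_umk hζ h0) (f (x, y)) := by
  rw [extz]
  simp only [SetLike.coe_mem, and_self, dite_true]

lemma res₂_extz (U : Subgroup GQ) (f : U × U → ZMod p) :
    res₂ U (extz hζ h0 U f) = fun x => zi (zeta_umk hζ h0) (f x) := by
  funext x
  exact extz_apply hζ h0 U f x.1 x.2

variable {U : Subgroup GQ} (hU : ∀ u ∈ U, u ζ = ζ)

include hU in
lemma smul_zi_of (u : U) (z : ZMod p) :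
    u • zi (zeta_umk hζ h0) z = zi (zeta_umk hζ h0) z :=
  smul_zi (zeta_umk hζ h0) (g := u) (uval_injective (by
    show uval ((u : GQ) • umk ζ h0) = _
    rw [uval_smul, uval_umk]
    exact hU u u.2)) z

include hU in
lemma smul_zi_loc (q : Nat.Primes) (g : GQ) (x : U.comap (rloc q g)) (z : ZMod p) :
    x • zi (zeta_jloc hζ h0 q g) z = zi (zeta_jloc hζ h0 q g) z :=
  smul_zi (zeta_jloc hζ h0 q g) (g := x) (by
    have h1 := arithLoc.hj (q, g) (x : primeLocalGaloisGroup q) (umk ζ h0)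
    have h2 : (rloc q g x) • umk ζ h0 = umk ζ h0 := uval_injective (by
      rw [uval_smul, uval_umk]
      exact hU _ x.2)
    have h3 : arithLoc.r (q, g) (x : primeLocalGaloisGroup q) = rloc q g x := rfl
    rw [h3, h2] at h1
    exact h1.symm) z

lemma trivAt_iff (q : Nat.Primes) (g : GQ) (U : Subgroup GQ) (F : GQ × GQ → Additive Qbˣ) :
    arithLoc.TrivAt (q, g) U F ↔ ((krullFam.comap (rloc q g)).restrict (U.comap (rloc q g))).Triv₂
      (fun x : U.comap (rloc q g) × U.comap (rloc q g) => jloc q g (F (rloc q g x.1, rloc q g x.2))) :=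
  Iff.rfl

lemma jloc_extz (q : Nat.Primes) (g : GQ) (f : U × U → ZMod p) :
    (fun x : U.comap (rloc q g) × U.comap (rloc q g) =>
      jloc q g (extz hζ h0 U f (rloc q g x.1, rloc q g x.2))) =
      fun x => zi (zeta_jloc hζ h0 q g)
        (f (decHom (primeLocalToGlobal q) U g x.1, decHom (primeLocalToGlobal q) U g x.2)) := by
  funext x
  rw [← jloc_zi hζ h0]
  have := extz_apply hζ h0 U f (decHom (primeLocalToGlobal q) U g x.1)
    (decHom (primeLocalToGlobal q) U g x.2)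
  rw [← this]
  rfl

include hU in
/-- local triviality in terms of `ZMod p`-valued cocycles, easy direction -/
theorem trivAt_extz (q : Nat.Primes) (g : GQ) {f : U × U → ZMod p}
    (h : (fun x : dec (primeLocalToGlobal q) U g × dec (primeLocalToGlobal q) U g =>
      f (decHom (primeLocalToGlobal q) U g x.1, decHom (primeLocalToGlobal q) U g x.2)) ∈
        B2 ((krullLevels.comap (primeLocalToGlobal q)).onSub (dec (primeLocalToGlobal q) U g))
          (Representation.trivial (ZMod p) (dec (primeLocalToGlobal q) U g) (ZMod p))) :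
    arithLoc.TrivAt (q, g) U (extz hζ h0 U f) := by
  rw [onSub_dec_eq] at h
  have h1 := triv_of_mem_B2 (A := Additive (PadicAlgCl (q : ℕ))ˣ) (zeta_jloc hζ h0 q g)
    (G := U.comap (rloc q g)) (ρ := Representation.trivial (ZMod p) _ (ZMod p))
    (fun x z => (smul_zi_loc hζ h0 hU q g x z).symm) h
  rw [trivAt_iff, jloc_extz hζ h0]
  exact h1

include hU in
/-- local triviality in terms of `ZMod p`-valued cocycles, other direction -/
theorem mem_B2_of_trivAt (q : Nat.Primes) (g : GQ) {f : U × U → ZMod p}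
    (hUo : krullFam.IsOpenSubgroup U)
    (hCF : CF p (krullFam.comap (primeLocalToGlobal q)) (Additive (PadicAlgCl (q : ℕ))ˣ))
    (h : arithLoc.TrivAt (q, g) U (extz hζ h0 U f)) :
    (fun x : dec (primeLocalToGlobal q) U g × dec (primeLocalToGlobal q) U g =>
      f (decHom (primeLocalToGlobal q) U g x.1, decHom (primeLocalToGlobal q) U g x.2)) ∈
        B2 ((krullLevels.comap (primeLocalToGlobal q)).onSub (dec (primeLocalToGlobal q) U g))
          (Representation.trivial (ZMod p) (dec (primeLocalToGlobal q) U g) (ZMod p)) := by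
  rw [onSub_dec_eq]
  rw [← comap_rloc_eq q g] at hCF
  have hW : (krullFam.comap (rloc q g)).IsOpenSubgroup (U.comap (rloc q g)) := hUo.comap _
  refine mem_B2_of_triv (A := Additive (PadicAlgCl (q : ℕ))ˣ) (zeta_jloc hζ h0 q g)
    (G := U.comap (rloc q g)) (ρ := Representation.trivial (ZMod p) _ (ZMod p))
    (fun x z => (smul_zi_loc hζ h0 hU q g x z).symm) (hCF.restrict hW) ?_
  rw [trivAt_iff, jloc_extz hζ h0] at h
  exact h

end loc

end Fermat.Agent.H91
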