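import Mathlib
import Fermat.Agent.H91IsoB
import Fermat.Agent.H82Hasse
import Fermat.Agent.H82G4b
import Fermat.Agent.H7BrS55

/-!
# (C2): no class of `H²_S(K, μ_p)` has exactly one nonzero local component
-/

set_option autoImplicit false
set_option maxSynthPendingDepth 3

namespace Fermat.Agent.H91

open groupCohomology (IsCocycle₁ IsCocycle₂)
open ExtCitation Fermat.Agent.H54 Fermat.Agent.H55 Fermat.Agent.H7
open IsDedekindDomain NumberField Module IntermediateField LevelFam

attribute [local instance] factNatPrimes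

theorem hasseNormStatement (p : ℕ) [Fact p.Prime] (hp2 : p ≠ 2) : HasseNormStatement p := by
  intro K L _ _ _ _ _ _ hdeg ⟨ζ, hζ⟩ x hx
  exact H82.hasse_norm hζ hp2 hdeg x hx

variable {p : ℕ} [hp : Fact p.Prime]

lemma H2π_eq_zero_iff_mem {k G A : Type*} [CommRing k] [Group G] [AddCommGroup A] [Module k A]
    {𝓛 : Levels G} {ρ : Representation k G A} (f : ↥(Z2 𝓛 ρ)) :
    H2π 𝓛 ρ f = 0 ↔ (f : G × G → A) ∈ B2 𝓛 ρ := by
  rw [H2π, Submodule.mkQ_apply, Submodule.Quotient.mk_eq_zero]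
  exact Iff.rfl

lemma locU2_eq_zero_iff (S : Finset Nat.Primes) (U : Subgroup GQ) (v : S) (g : GQ)
    (f : Z2 ((ramLevels S).onSub U) (Representation.trivial (ZMod p) U (ZMod p))) :
    (DS S).locU2 (ZMod p) U v g (H2π ((ramLevels S).onSub U)
      (Representation.trivial (ZMod p) U (ZMod p)) f) = 0 ↔
      (fun x : dec (primeLocalToGlobal v.1) U g × dec (primeLocalToGlobal v.1) U g =>
        (f : U × U → ZMod p) (decHom (primeLocalToGlobal v.1) U g x.1,
          decHom (primeLocalToGlobal v.1) U g x.2)) ∈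
        B2 ((krullLevels.comap (primeLocalToGlobal v.1)).onSub (dec (primeLocalToGlobal v.1) U g))
          (Representation.trivial (ZMod p) (dec (primeLocalToGlobal v.1) U g) (ZMod p)) := by
  have hcont : Levels.Cont (krullLevels.comap (primeLocalToGlobal v.1)) (ramLevels S)
    (primeLocalToGlobal v.1) := (DS S).cont v
  exact H2π_eq_zero_iff_mem
    (𝓛 := (krullLevels.comap (primeLocalToGlobal v.1)).onSub (dec (primeLocalToGlobal v.1) U g))
    (ρ := Representation.trivial (ZMod p) (dec (primeLocalToGlobal v.1) U g) (ZMod p))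
    ⟨pp2 (decHom (primeLocalToGlobal v.1) U g) LinearMap.id (f : U × U → ZMod p),
      pp2_mem_Z2 (cont_decHom hcont U g) (fun _ _ => rfl) f.2⟩

/-- Kummer generators in `Qb`. -/
lemma isKummer_ext {K L : IntermediateField ℚ Qb} (hKL : K ≤ L) (hfr : finrank K (extendScalars hKL) = p)
    {b : Kˣ} {β : Qb} (hβL : β ∈ L) (hβK : β ∉ K) (hβ : β ^ p = ((b : K) : Qb)) :
    H82.IsKummer p K (extendScalars hKL) b (⟨β, hβL⟩ : extendScalars hKL) where
  pow_eq := Subtype.ext hβ
  eq_one := by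
    intro σ hσ
    have h1 : K⟮(⟨β, hβL⟩ : extendScalars hKL)⟯ = ⊤ := by
      refine adjoin_eq_top_of_prime hp.out hfr fun e he => hβK ?_
      have h2 : (e : Qb) = β := congrArg Subtype.val he
      rw [← h2]
      exact e.2
    have h7 : K⟮(⟨β, hβL⟩ : extendScalars hKL)⟯ ≤ fixedField (Subgroup.zpowers σ) := by
      rw [adjoin_simple_le_iff, mem_fixedField_iff]
      intro f hf
      obtain ⟨n, rfl⟩ := Subgroup.mem_zpowers_iff.1 hf
      have h8 : σ ∈ MulAction.stabilizer ((extendScalars hKL) ≃ₐ[K] (extendScalars hKL))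
        (⟨β, hβL⟩ : extendScalars hKL) := hσ
      exact (MulAction.stabilizer ((extendScalars hKL) ≃ₐ[K] (extendScalars hKL))
        (⟨β, hβL⟩ : extendScalars hKL)).zpow_mem h8 n
    ext x
    have h9 : x ∈ fixedField (Subgroup.zpowers σ) := h7 (by rw [h1]; exact mem_top)
    have h10 := (mem_fixedField_iff _ _).1 h9 σ (Subgroup.mem_zpowers σ)
    exact congrArg Subtype.val h10

lemma isCocycle₂_extz {ζ : Qb} (hζ : IsPrimitiveRoot ζ p) (h0 : ζ ≠ 0) {U : Subgroup GQ}
    (hU : ∀ u ∈ U, u ζ = ζ) {𝓛 : Levels U} {f : U × U → ZMod p}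
    (hf : f ∈ Z2 𝓛 (Representation.trivial (ZMod p) U (ZMod p))) :
    IsCocycle₂ (res₂ U (extz hζ h0 U f)) := by
  rw [res₂_extz]
  intro g h j
  beta_reduce
  rw [smul_zi_of hζ h0 hU, ← map_add, ← map_add, hf.2 g h j]
  rfl

lemma isConst₂_extz {ζ : Qb} (hζ : IsPrimitiveRoot ζ p) (h0 : ζ ≠ 0) {U : Subgroup GQ}
    (S : Finset Nat.Primes) {f : U × U → ZMod p}
    (hf : f ∈ Z2 ((ramLevels S).onSub U) (Representation.trivial (ZMod p) U (ZMod p))) :
    (krullFam.restrict U).IsConst₂ (res₂ U (extz hζ h0 U f)) := by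
  rw [res₂_extz]
  have h1 : (krullFam.restrict U).IsConst₂ f := by
    rw [← lc2_ofFam_iff, LevelFam.restrict, ofFam_comap]
    obtain ⟨V, ⟨W, hW, hle⟩, h⟩ := hf.1
    exact ⟨V, ⟨W, ramLevels_le_krullLevels S hW, hle⟩, h⟩
  exact h1.comp _

lemma cf_loc (q : Nat.Primes) : CF p (krullFam.comap (primeLocalToGlobal q))
    (Additive (PadicAlgCl (q : ℕ))ˣ) := locCF (q : ℕ) hp.out

lemma tower_loc (hp2 : p ≠ 2) (q : Nat.Primes) {U : Subgroup GQ} (hU : U ≤ (cycloChar p).ker)
    (hUo : krullFam.IsOpenSubgroup U) (g : GQ) :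
    ∃ τ, Tower p ((krullFam.comap (rloc q g)).restrict (U.comap (rloc q g))) τ := by
  rw [comap_rloc_eq]
  refine ⟨_, locTower (q : ℕ) hp2 (V := U.comap (rloc q g)) ?_ (le_Tcy (q : ℕ) ?_)⟩
  · have : (krullFam.comap (rloc q g)).IsOpenSubgroup (U.comap (rloc q g)) := hUo.comap _
    rwa [comap_rloc_eq] at this
  · intro x hx
    have h1 : cycloChar p (g⁻¹ * primeLocalToGlobal q x * g) = 1 := hU hx
    rw [map_mul, map_mul, map_inv, mul_comm, mul_inv_cancel_left] at h1
    exact h1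

lemma dec_coc {U : Subgroup GQ} {𝓛 : Levels U} {f : U × U → ZMod p}
    (hf : f ∈ Z2 𝓛 (Representation.trivial (ZMod p) U (ZMod p))) (q : Nat.Primes) (g : GQ)
    (a b c : dec (primeLocalToGlobal q) U g) :
    f (decHom (primeLocalToGlobal q) U g (a * b), decHom (primeLocalToGlobal q) U g c) +
      f (decHom (primeLocalToGlobal q) U g a, decHom (primeLocalToGlobal q) U g b) =
    f (decHom (primeLocalToGlobal q) U g b, decHom (primeLocalToGlobal q) U g c) +
      f (decHom (primeLocalToGlobal q) U g a, decHom (primeLocalToGlobal q) U g (b * c)) := by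
  rw [map_mul, map_mul]
  exact hf.2 _ _ _

/-- **(C2)** -/
theorem iso_of (hp2 : p ≠ 2) (S : Finset Nat.Primes)
    {U : Subgroup GQ} (hUo : (ramLevels S).op U) (hUχ : U ≤ (cycloChar p).ker)
    (hL0 : ∀ f ∈ Z2 ((ramLevels S).onSub U) (Representation.trivial (ZMod p) U (ZMod p)),
      ∀ q : Nat.Primes, q ∉ S → ∀ g : GQ,
        (fun x : dec (primeLocalToGlobal q) U g × dec (primeLocalToGlobal q) U g =>
          f (decHom (primeLocalToGlobal q) U g x.1, decHom (primeLocalToGlobal q) U g x.2)) ∈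
        B2 ((krullLevels.comap (primeLocalToGlobal q)).onSub (dec (primeLocalToGlobal q) U g))
          (Representation.trivial (ZMod p) (dec (primeLocalToGlobal q) U g) (ZMod p)))
    (z : H2 ((ramLevels S).onSub U) (Representation.trivial (ZMod p) U (ZMod p)))
    (v₀ : S) (g₀ : GQ)
    (hz : ∀ (v : S) (g : GQ), (v = v₀ →
      place (primeLocalToGlobal v.1) U g ≠ place (primeLocalToGlobal v.1) U g₀) →
      (DS S).locU2 (ZMod p) U v g z = 0) :
    (DS S).locU2 (ZMod p) U v₀ g₀ z = 0 := by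
  classical
  have hCF := cf_loc (p := p)
  obtain ⟨f, rfl⟩ := H2π_surjective _ _ z
  have : NeZero p := ⟨hp.out.ne_zero⟩
  obtain ⟨ζ, hζ⟩ := HasEnoughRootsOfUnity.exists_primitiveRoot Qb p
  have h0 : ζ ≠ 0 := hζ.ne_zero hp.out.ne_zero
  have hUζ : ∀ u ∈ U, u ζ = ζ := fun u hu => (H63.cycloChar_eq_one_iff hζ).1 (hUχ hu)
  have hUk := ramLevels_le_krullLevels S hUo
  obtain ⟨K, hKfin, hKU⟩ := (op_krullLevels_iff U).1 hUk
  have hUo' : krullFam.IsOpenSubgroup U := hUk
  have hNK : NumberField K := numberField_of_finite K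
  have hζK : ζ ∈ K := mem_of_fixed fun s hs => hUζ s (hKU ▸ hs)
  have hζ' : IsPrimitiveRoot (⟨ζ, hζK⟩ : K) p :=
    IsPrimitiveRoot.of_map_of_injective (f := algebraMap K Qb) hζ (algebraMap K Qb).injective
  set w₀ : HeightOneSpectrum (𝓞 K) := placeOf (embAt (v₀.1 : ℕ) K g₀) with hw₀
  obtain ⟨b, hb, hbL⟩ := H82.exists_good_b hζ' hp2 w₀
  obtain ⟨β, hβ⟩ := IsAlgClosed.exists_pow_nat_eq ((b : K) : Qb) hp.out.pos
  have hb0 : ((b : K) : Qb) ≠ 0 := fun h => b.ne_zero (Subtype.ext h)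
  have hβ0 : β ≠ 0 := by
    rintro rfl
    rw [zero_pow hp.out.ne_zero] at hβ
    exact hb0 hβ.symm
  have hβfix : ∀ u ∈ U, u (β ^ p) = β ^ p := by
    intro u hu
    rw [hβ]
    rw [← hKU, IntermediateField.mem_fixingSubgroup_iff] at hu
    exact hu _ (b : K).2
  have hβK : β ∉ K := by
    intro h
    have h1 : (⟨β, h⟩ : K) ≠ 0 := fun h2 => hβ0 (congrArg Subtype.val h2)
    refine hb ⟨Units.mk0 _ h1, Units.ext (Subtype.ext ?_)⟩
    exact hβ
  have hβU : ∃ u ∈ U, u β ≠ β := by
    by_contra hcon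
    push Not at hcon
    exact hβK (mem_of_fixed fun s hs => hcon s (hKU ▸ hs))
  -- the extension `L = K(β)`
  have hHo : krullFam.IsOpenSubgroup (kumSub U β) := kumSub_open hUo' β
  obtain ⟨L, hLfin, hLH⟩ := (op_krullLevels_iff (kumSub U β)).1 hHo
  have hnH := kumSub_normal hζ hUζ hβ0 hβfix
  have hiH := kumSub_relIndex hζ hUζ hβ0 hβfix hβU
  have hleH := kumSub_le U β
  have hβL : β ∈ L := mem_of_fixed fun s hs => by
    rw [hLH, mem_kumSub] at hs
    exact hs.2
  obtain ⟨H, hHdef⟩ : ∃ H, H = kumSub U β := ⟨_, rfl⟩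
  rw [← hHdef] at hHo hLH hnH hiH hleH
  clear hHdef
  subst hKU hLH
  have hKL : K ≤ L := le_of_fixingSubgroup_le hleH
  have hNL : NumberField (extendScalars hKL) := numberField_of_finite L
  have hGal : IsGalois K (extendScalars hKL) := isGalois_ext hKL hnH
  have hfr : finrank K (extendScalars hKL) = p := by rw [finrank_ext, hiH]
  obtain ⟨hns, hnorm⟩ := hbL (extendScalars hKL) ⟨β, hβL⟩ hfr (isKummer_ext hKL hfr hβL hβK hβ)
  -- the cocycle
  set F := extz hζ h0 K.fixingSubgroup (f : K.fixingSubgroup × K.fixingSubgroup → ZMod p) with hF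
  have hFcoc : IsCocycle₂ (res₂ K.fixingSubgroup F) := isCocycle₂_extz hζ h0 hUζ f.2
  have hFc : (krullFam.restrict K.fixingSubgroup).IsConst₂ (res₂ K.fixingSubgroup F) :=
    isConst₂_extz hζ h0 S f.2
  have hpF : ∀ x y : K.fixingSubgroup, p • F ((x : GQ), (y : GQ)) = 0 := by
    intro x y
    rw [hF, extz_apply, p_smul_zi]
  -- local triviality of `F` on `U` outside `w₀`
  have hloc : ∀ (q : Nat.Primes) (g : GQ), placeOf (embAt (q : ℕ) K g) ≠ w₀ →
      arithLoc.TrivAt (q, g) K.fixingSubgroup F := by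
    intro q g hne
    apply trivAt_extz hζ h0 hUζ
    by_cases hq : q ∈ S
    · have h1 := hz ⟨q, hq⟩ g (by
        rintro rfl h2
        exact hne ((place_eq_iff_placeOf (q : ℕ) K g g₀).1 h2))
      exact (locU2_eq_zero_iff S _ ⟨q, hq⟩ g f).1 h1
    · exact hL0 f f.2 q hq g
  -- local triviality of `F` on `H` everywhere
  have hlocH : ∀ i, arithLoc.TrivAt i L.fixingSubgroup F := by
    rintro ⟨q, g⟩
    by_cases hw : placeOf (embAt (q : ℕ) K g) = w₀
    · rw [← hw] at hns
      obtain ⟨s, hsK, hsL⟩ := exists_of_nonSplit q g hp.out hKL hfr hns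
      have hCFq := hCF q
      rw [← comap_rloc_eq q g] at hCFq
      set W : Subgroup (primeLocalGaloisGroup q) := K.fixingSubgroup.comap (rloc q g) with hW
      have hWo : (krullFam.comap (rloc q g)).IsOpenSubgroup W := hUo'.comap _
      have hHWo : (krullFam.comap (rloc q g)).IsOpenSubgroup (L.fixingSubgroup.comap (rloc q g)) :=
        hHo.comap _
      obtain ⟨τ, hτ⟩ := tower_loc hp2 q hUχ hUo' g
      have hle : L.fixingSubgroup.comap (rloc q g) ≤ W := Subgroup.comap_mono hleH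
      have h1 := relIndex_comap_eq (rloc q g) hp.out hnH hiH hsK hsL
      have h2 := normal_comap_subgroupOf (rloc q g) hnH
      let Fi : primeLocalGaloisGroup q × primeLocalGaloisGroup q → Additive (PadicAlgCl (q : ℕ))ˣ :=
        fun x => jloc q g (F (rloc q g x.1, rloc q g x.2))
      have hFi : res₂ W Fi = fun x => zi (zeta_jloc hζ h0 q g)
        ((f : K.fixingSubgroup × K.fixingSubgroup → ZMod p)
          (decHom (primeLocalToGlobal q) K.fixingSubgroup g x.1,
          decHom (primeLocalToGlobal q) K.fixingSubgroup g x.2)) :=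
        jloc_extz hζ h0 q g _
      have hlev : ((krullFam.comap (rloc q g)).restrict W) =
          (krullFam.restrict K.fixingSubgroup).comap ((rloc q g).subgroupComap K.fixingSubgroup) := by
        rw [LevelFam.restrict, LevelFam.restrict, LevelFam.comap_comap, LevelFam.comap_comap]
        rfl
      have hFic : ((krullFam.comap (rloc q g)).restrict W).IsConst₂ (res₂ W Fi) := by
        rw [hlev]
        exact (hFc.comap ((rloc q g).subgroupComap K.fixingSubgroup)).comp (jloc q g)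
      have hFicoc : IsCocycle₂ (res₂ W Fi) := by
        rw [hFi]
        intro a b c
        beta_reduce
        rw [smul_zi_loc hζ h0 hUζ, ← map_add, ← map_add]
        congr 1
        exact dec_coc f.2 q g a b c
      have hpFi : ((krullFam.comap (rloc q g)).restrict W).Triv₂ ((p : ℤ) • res₂ W Fi) := by
        have : (p : ℤ) • res₂ W Fi = 0 := by
          rw [hFi]
          funext x
          rw [Pi.smul_apply, natCast_zsmul, p_smul_zi]
          rfl
        rw [this]
        exact ⟨0, isConst₁_const 0, fun a b => by simp [dd_apply]⟩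
      have key := kill_index (zeta_jloc hζ h0 q g) (G := W) (fun x => ?_) (hCFq.restrict hWo)
        hτ hFicoc hFic hpFi
        (H := (L.fixingSubgroup.comap (rloc q g)).subgroupOf W) ?_ h2 h1
      · exact (nested_triv₂_iff (𝓥 := krullFam.comap (rloc q g)) hle).1 key
      · have := smul_zi_loc hζ h0 hUζ q g x 1
        rwa [zi_one] at this
      · exact hHWo.comap W.subtype
    · exact (hloc q g hw).mono arithLoc hleH
  -- `F` dies on `H`
  have hHH : ∀ H : Subgroup GQ, krullFam.IsOpenSubgroup H → (krullFam.restrict H).H90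
      (Additive Qbˣ) := fun H _ => (faithfulOn_krullFam.restrict H).h90
  have hHN : arithLoc.HasseNorm p K.fixingSubgroup :=
    hasseNorm_arith hp.out (hasseNormStatement p hp2) hζ hUζ
  have hpF' : p • res₂ L.fixingSubgroup F = 0 := by
    funext x
    exact hpF ⟨x.1, hleH x.1.2⟩ ⟨x.2, hleH x.2.2⟩
  have hFH : (krullFam.restrict L.fixingSubgroup).Triv₂ (res₂ L.fixingSubgroup F) := by
    refine LocData.triv₂_of_forall_trivAt arithLoc smooth_krullFam hHH hHN hleH hHo
      (isCocycle₂_res_of_le hleH hFcoc) (isConst₂_res_of_le hleH hFc) ?_ hlocH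
    rw [hpF']
    exact ⟨0, isConst₁_const 0, fun a b => by simp [dd_apply]⟩
  obtain ⟨x, hx, hInf⟩ := LocData.exists_inflated_sub smooth_krullFam hHo hleH hnH (hHH _ hHo) hFcoc hFc hFH
  obtain ⟨σ, hσU, hσβ⟩ := hβU
  have hσL : σ ∉ L.fixingSubgroup := by
    intro h
    rw [IntermediateField.mem_fixingSubgroup_iff] at h
    exact hσβ (h β hβL)
  have hσL' : (⟨σ, hσU⟩ : K.fixingSubgroup) ∉ L.fixingSubgroup.subgroupOf K.fixingSubgroup := hσL
  obtain ⟨T, hT⟩ : ∃ T, T = tinv (res₂ K.fixingSubgroup F - dd x) (⟨σ, hσU⟩ : K.fixingSubgroup) p :=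
    ⟨_, rfl⟩
  have hTfix : ∀ u : K.fixingSubgroup, u • T = T := by
    intro u
    rw [hT]
    exact Inflated.tinv_fixed hInf ((pow_mem_iff_of_index hiH hσL' p).2 dvd_rfl)
      (gen_of_index hiH hσL') u
  have hTK : uval T ∈ K := mem_of_fixed fun s hs => by
    have := congrArg uval (hTfix ⟨s, hs⟩)
    exact this
  let T' : Kˣ := Units.mk0 ⟨uval T, hTK⟩ (fun h => uval_ne_zero T (congrArg Subtype.val h))
  have hcrit : ∀ (q : Nat.Primes) (g : GQ) {s : primeLocalGaloisGroup q},
      rloc q g s ∈ K.fixingSubgroup → rloc q g s ∉ L.fixingSubgroup →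
      ((∀ m, T' ∈ H82.locNorm (extendScalars hKL) (placeOf (embAt (q : ℕ) K g)) m) ↔
        ∃ b : Additive (PadicAlgCl (q : ℕ))ˣ,
          (∀ h : primeLocalGaloisGroup q, rloc q g h ∈ L.fixingSubgroup → h • b = b) ∧
          jloc q g T = LevelFam.nrm s p b) := by
    intro q g s hsK hsL
    rw [mem_locNorm_iff_group q g hp.out hKL hζ hζK hnH hiH hsK hsL]
    constructor
    · rintro ⟨b, hb, hbT⟩
      exact ⟨b, hb, uval_injective hbT⟩
    · rintro ⟨b, hb, hbT⟩
      exact ⟨b, hb, congrArg uval hbT⟩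
  have hT1 : ∀ v, v ≠ w₀ → H82.NonSplit (extendScalars hKL) v →
      ∀ m, T' ∈ H82.locNorm (extendScalars hKL) v m := by
    intro v hv hvns
    obtain ⟨q, hq⟩ := exists_prime_mem v
    obtain ⟨g, rfl⟩ := exists_placeOf_embAt_eq (q : ℕ) K v hq
    obtain ⟨s₀, hs₀K, hs₀L⟩ := exists_of_nonSplit q g hp.out hKL hfr hvns
    obtain ⟨s, hsK, hsL, b, hb, hbT⟩ := arithLoc.local_norm hleH hnH hiH hx hInf
      (σ := (⟨σ, hσU⟩ : K.fixingSubgroup)) hσL (q, g) (hloc q g hv) hs₀K hs₀L
    rw [hcrit q g hsK hsL]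
    rw [← hT] at hbT
    exact ⟨b, hb, hbT⟩
  have hT2 := hnorm T' hT1
  -- conclusion
  obtain ⟨s₀, hs₀K, hs₀L⟩ := exists_of_nonSplit v₀.1 g₀ hp.out hKL hfr hns
  have hfinal : arithLoc.TrivAt (v₀.1, g₀) K.fixingSubgroup F := by
    refine trivAt_of_norm arithLoc hHo hnH hiH hx hInf (σ := (⟨σ, hσU⟩ : K.fixingSubgroup)) hσL
      (v₀.1, g₀) hs₀K hs₀L fun s hsK hsL => ?_
    rw [← hT]
    exact (hcrit v₀.1 g₀ hsK hsL).1 hT2
  rw [locU2_eq_zero_iff]
  exact mem_B2_of_trivAt hζ h0 hUζ v₀.1 g₀ hUo' (hCF v₀.1) hfinal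

end Fermat.Agent.H91
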