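import Mathlib
import Fermat.Agent.H91Iso
import Fermat.Agent.H54CodDiv

/-!
# (C3), local pieces: nonsplit places and local norms
-/

set_option autoImplicit false
set_option maxSynthPendingDepth 3

namespace Fermat.Agent.H91

open groupCohomology (IsCocycle₁ IsCocycle₂)
open ExtCitation Fermat.Agent.H54 Fermat.Agent.H55 Fermat.Agent.H7 Fermat.Agent.H47
open IsDedekindDomain NumberField Module IntermediateField LevelFam

attribute [local instance] factNatPrimes

variable {p : ℕ} [hp : Fact p.Prime]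

section X1

variable {K L : IntermediateField ℚ Qb} (hKL : K ≤ L)

/-- an automorphism fixing `K` and a generator of `L / K` fixes `L` -/
lemma mem_fixing_of_generator {β : extendScalars hKL} (hgen : K⟮β⟯ = ⊤) {σ : GQ}
    (hσK : σ ∈ K.fixingSubgroup) (hσβ : σ (β : Qb) = β) : σ ∈ L.fixingSubgroup := by
  let σ' : Qb ≃ₐ[K] Qb := fixingSubgroupEquiv K ⟨σ, hσK⟩
  have h5 : (K⟮(β : Qb)⟯ : IntermediateField K Qb) = extendScalars hKL := by
    have h6 := congrArg (IntermediateField.lift) hgen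
    rw [IntermediateField.lift_adjoin_simple, IntermediateField.lift_top] at h6
    exact h6
  rw [IntermediateField.mem_fixingSubgroup_iff]
  intro y hy
  have hy' : y ∈ (K⟮(β : Qb)⟯ : IntermediateField K Qb) := by rw [h5]; exact hy
  have h7 : (K⟮(β : Qb)⟯ : IntermediateField K Qb) ≤
      fixedField (Subgroup.zpowers σ') := by
    rw [adjoin_simple_le_iff, mem_fixedField_iff]
    intro f hf
    obtain ⟨n, rfl⟩ := Subgroup.mem_zpowers_iff.1 hf
    have h8 : σ' ∈ MulAction.stabilizer (Qb ≃ₐ[K] Qb) (β : Qb) := hσβ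
    exact (MulAction.stabilizer (Qb ≃ₐ[K] Qb) (β : Qb)).zpow_mem h8 n
  exact (mem_fixedField_iff _ _).1 (h7 hy') σ' (Subgroup.mem_zpowers σ')

/-- **(X1)** a place whose decomposition group is not contained in `Gal(ℚ̄/L)` is nonsplit -/
theorem nonSplit_of_exists (q : Nat.Primes) (g : GQ) [NumberField K]
    [NumberField (extendScalars hKL)] {ζ : Qb} (hζ : IsPrimitiveRoot ζ p) (hζK : ζ ∈ K)
    (hn : (L.fixingSubgroup.subgroupOf K.fixingSubgroup).Normal)
    (hi : L.fixingSubgroup.relIndex K.fixingSubgroup = p)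
    (hs : ∃ s : primeLocalGaloisGroup q, rloc q g s ∈ K.fixingSubgroup ∧
      rloc q g s ∉ L.fixingSubgroup) :
    H82.NonSplit (extendScalars hKL) (placeOf (embAt (q : ℕ) K g)) := by
  obtain ⟨s, hsK, hsL⟩ := hs
  have hGal : IsGalois K (extendScalars hKL) := isGalois_ext hKL hn
  have hfr : finrank K (extendScalars hKL) = p := by rw [finrank_ext, hi]
  have hζ' : IsPrimitiveRoot (⟨ζ, hζK⟩ : K) p :=
    IsPrimitiveRoot.of_map_of_injective (f := algebraMap K Qb) hζ (algebraMap K Qb).injective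
  obtain ⟨β, b₀, hβ, hgen⟩ := H65.exists_kummer_generator hp.out hfr hζ'
  let E := embField (embAt (q : ℕ) K g)
  let _ : Algebra K E := (toEmbField (embAt (q : ℕ) K g)).toAlgebra
  have hLM : H65.LocModel ((placeOf (embAt (q : ℕ) K g)).valuation K) E :=
    locModel_embField (embAt (q : ℕ) K g)
  have : CompleteSpace E := completeSpace_intermediateField _
  have hpE : (p : E) ≠ 0 := by
    have : CharZero E := inferInstance
    exact_mod_cast hp.out.ne_zero
  rw [H65.nonSplit_iff hp.out hfr hβ hgen hLM hpE]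
  rintro ⟨y, hy⟩
  apply hsL
  refine mem_fixing_of_generator hKL hgen hsK ?_
  apply (embComp (q : ℕ) g).injective
  rw [embComp_rloc]
  -- `ι g β ∈ E`
  have hE : ∀ e ∈ E, s • e = e := by
    have : s ∈ E.fixingSubgroup := by
      show s ∈ (embField (embAt (q : ℕ) K g)).fixingSubgroup
      rw [fixing_embField]; exact hsK
    exact (mem_fixing_loc_iff q E s).1 this
  have h1 : (embComp (q : ℕ) g (β : Qb)) ^ p = (y : PadicAlgCl (q : ℕ)) ^ p := by
    have h2 : ((y ^ p : E) : PadicAlgCl (q : ℕ)) = embComp (q : ℕ) g ((b₀ : K) : Qb) :=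
      congrArg (fun e : E => (e : PadicAlgCl (q : ℕ))) hy
    have h3 : ((β : Qb)) ^ p = ((b₀ : K) : Qb) :=
      congrArg (fun e : extendScalars hKL => (e : Qb)) hβ
    rw [← map_pow, h3, ← h2]
    rfl
  have hy0 : (y : PadicAlgCl (q : ℕ)) ≠ 0 := by
    intro h0
    rw [h0, zero_pow hp.out.ne_zero, pow_eq_zero_iff hp.out.ne_zero, map_eq_zero] at h1
    have : rloc q g s (β : Qb) = β := by rw [h1, map_zero]
    exact hsL (mem_fixing_of_generator hKL hgen hsK this)
  have : NeZero p := ⟨hp.out.ne_zero⟩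
  have h4 : (embComp (q : ℕ) g (β : Qb) / y) ^ p = 1 := by
    rw [div_pow, h1, div_self (pow_ne_zero _ hy0)]
  have hζq : IsPrimitiveRoot (embComp (q : ℕ) g ζ) p :=
    hζ.map_of_injective (embComp (q : ℕ) g).injective
  obtain ⟨i, -, hi⟩ := hζq.eq_pow_of_pow_eq_one h4
  have h5 : embComp (q : ℕ) g (β : Qb) = (embComp (q : ℕ) g ζ) ^ i * y := by
    rw [hi, div_mul_cancel₀ _ hy0]
  have h6 : embComp (q : ℕ) g ζ ∈ E := apply_mem_embField (embAt (q : ℕ) K g) ⟨ζ, hζK⟩
  apply hE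
  rw [h5]
  exact E.mul_mem (_root_.pow_mem h6 i) y.2

end X1

section X2

variable {S : Finset Nat.Primes} {K L : IntermediateField ℚ Qb} (hKL : K ≤ L)
  {ζ : Qb} (hζ : IsPrimitiveRoot ζ p)

lemma muEmb_eq_zi (h0 : ζ ≠ 0) (z : ZMod p) :
    muEmb hζ hp.out.ne_zero z = zi (zeta_umk hζ h0) z := by
  apply uval_injective
  rw [muEmb_apply, zi_apply, uval_nsmul, uval_umk]

lemma ker_eq_of {χ : K.fixingSubgroup →* Multiplicative (ZMod p)}
    (hχ : ∀ g : K.fixingSubgroup, χ g = 1 ↔ (g : GQ) ∈ L.fixingSubgroup) :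
    χ.ker = L.fixingSubgroup.subgroupOf K.fixingSubgroup := by
  ext g
  rw [MonoidHom.mem_ker, hχ, Subgroup.mem_subgroupOf]

lemma normal_of_char {χ : K.fixingSubgroup →* Multiplicative (ZMod p)}
    (hχ : ∀ g : K.fixingSubgroup, χ g = 1 ↔ (g : GQ) ∈ L.fixingSubgroup) :
    (L.fixingSubgroup.subgroupOf K.fixingSubgroup).Normal := by
  rw [← ker_eq_of hχ]
  infer_instance

lemma relIndex_of_char {χ : K.fixingSubgroup →* Multiplicative (ZMod p)}
    (hχ : ∀ g : K.fixingSubgroup, χ g = 1 ↔ (g : GQ) ∈ L.fixingSubgroup)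
    (hs : Function.Surjective χ) : L.fixingSubgroup.relIndex K.fixingSubgroup = p := by
  rw [Subgroup.relIndex, ← ker_eq_of hχ, Subgroup.index_ker, MonoidHom.range_eq_top.2 hs,
    Subgroup.card_top]
  exact Nat.card_zmod p

include hKL in
/-- **(X2)** if the cocycle attached to `a` is trivial at `(q, g)` then `a` is a local norm. -/
theorem mem_locNorm_of_cRel (q : Nat.Primes) (g : GQ) [NumberField K]
    [NumberField (extendScalars hKL)] (hζK : ζ ∈ K)
    {χ : K.fixingSubgroup →* Multiplicative (ZMod p)}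
    (hχ : ∀ g : K.fixingSubgroup, χ g = 1 ↔ (g : GQ) ∈ L.fixingSubgroup)
    (hsurj : Function.Surjective χ) (h0 : ζ ≠ 0)
    {a : Kˣ} {f : K.fixingSubgroup × K.fixingSubgroup → ZMod p} (ha : CRel S χ hζ a f)
    (ht : arithLoc.TrivAt (q, g) K.fixingSubgroup (extz hζ h0 K.fixingSubgroup f))
    (hs : ∃ s : primeLocalGaloisGroup q, rloc q g s ∈ K.fixingSubgroup ∧
      rloc q g s ∉ L.fixingSubgroup) (m : ℕ) :
    a ∈ H82.locNorm (extendScalars hKL) (placeOf (embAt (q : ℕ) K g)) m := by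
  obtain ⟨s₀, hs₀K, hs₀L⟩ := hs
  obtain ⟨y, hy, -, hyf⟩ := ha
  have hn := normal_of_char hχ
  have hi := relIndex_of_char hχ hsurj
  have hker := ker_eq_of hχ
  obtain ⟨σ, hσ⟩ := hsurj (Multiplicative.ofAdd 1)
  have hσL : (σ : GQ) ∉ L.fixingSubgroup := by
    intro h
    rw [← hχ, hσ] at h
    exact one_ne_zero (Multiplicative.ofAdd.injective h)
  have hle : L.fixingSubgroup ≤ K.fixingSubgroup := fixingSubgroup_antitone hKL
  have hfix : kEmb K a ∈ H7.fix (Additive Qbˣ) (⊤ : Subgroup K.fixingSubgroup) :=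
    fun g _ => smul_kEmb K g a
  have hyc : (krullFam.restrict K.fixingSubgroup).IsConst₁ (fun g => - y g) := by
    have : (krullFam.restrict K.fixingSubgroup).IsConst₁ y := by
      rw [← lc1_ofFam_iff, LevelFam.restrict, ofFam_comap]
      obtain ⟨V, ⟨W, hW, hle⟩, h⟩ := hy
      exact ⟨V, ⟨W, ramLevels_le_krullLevels S hW, hle⟩, h⟩
    exact this.comp (fun x => -x)
  have hcc : res₂ K.fixingSubgroup (extz hζ h0 K.fixingSubgroup f) - dd (fun g => - y g) =
      cc χ (kEmb K a) := by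
    funext x
    obtain ⟨g, h⟩ := x
    rw [hyf, res₂_extz, muEmb_eq_zi hζ h0, Pi.sub_apply, dd_apply, smul_neg]
    abel
  have hinf : Inflated (L.fixingSubgroup.subgroupOf K.fixingSubgroup)
      (res₂ K.fixingSubgroup (extz hζ h0 K.fixingSubgroup f) - dd (fun g => - y g)) := by
    rw [hcc, ← hker]
    exact inflated_cc χ hfix
  obtain ⟨s, hsK, hsL, b, hb, hbT⟩ := arithLoc.local_norm hle hn hi hyc hinf
      (σ := σ) hσL (q, g) ht hs₀K hs₀L
  rw [hcc, tinv_cc χ hp.out.one_lt hσ] at hbT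
  exact (mem_locNorm_iff_group q g hp.out hKL hζ hζK hn hi hsK hsL a).2
    ⟨b, hb, congrArg uval hbT⟩ m

include hKL in
/-- **(X2)** in terms of `locU2` -/
theorem mem_locNorm_of_cRel_locU2 (q : Nat.Primes) (hq : q ∈ S) (g : GQ) [NumberField K]
    [NumberField (extendScalars hKL)] (hζK : ζ ∈ K)
    {χ : K.fixingSubgroup →* Multiplicative (ZMod p)}
    (hχ : ∀ g : K.fixingSubgroup, χ g = 1 ↔ (g : GQ) ∈ L.fixingSubgroup)
    (hsurj : Function.Surjective χ)
    {a : Kˣ} {f : K.fixingSubgroup × K.fixingSubgroup → ZMod p} (ha : CRel S χ hζ a f)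
    (hf : f ∈ Z2 ((ramLevels S).onSub K.fixingSubgroup)
      (Representation.trivial (ZMod p) K.fixingSubgroup (ZMod p)))
    (ht : (DS S).locU2 (ZMod p) K.fixingSubgroup ⟨q, hq⟩ g
      (H2π ((ramLevels S).onSub K.fixingSubgroup)
        (Representation.trivial (ZMod p) K.fixingSubgroup (ZMod p)) ⟨f, hf⟩) = 0)
    (hs : ∃ s : primeLocalGaloisGroup q, rloc q g s ∈ K.fixingSubgroup ∧
      rloc q g s ∉ L.fixingSubgroup) (m : ℕ) :
    a ∈ H82.locNorm (extendScalars hKL) (placeOf (embAt (q : ℕ) K g)) m := by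
  have h0 : ζ ≠ 0 := hζ.ne_zero hp.out.ne_zero
  have hUζ : ∀ u ∈ K.fixingSubgroup, u ζ = ζ := fun u hu => by
    rw [IntermediateField.mem_fixingSubgroup_iff] at hu
    exact hu ζ hζK
  refine mem_locNorm_of_cRel hKL hζ q g hζK hχ hsurj h0 ha ?_ hs m
  apply trivAt_extz hζ h0 hUζ
  exact (locU2_eq_zero_iff S _ ⟨q, hq⟩ g ⟨f, hf⟩).1 ht

end X2

end Fermat.Agent.H91
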