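import Mathlib
import Fermat.Agent.H54Codim
import Fermat.Agent.H54HasseNorm
import Fermat.Agent.H91CodLoc
import Fermat.Agent.H91Iso
import Fermat.Agent.H47ShaU2
import Fermat.Agent.H7BrS55
import Fermat.Agent.H55GlobFin
import Fermat.Agent.H55Fin

set_option autoImplicit false
set_option maxSynthPendingDepth 3

/-!
# S55: assembly of the arithmetic input
-/

open scoped Pointwise
open IsDedekindDomain NumberField ExtCitation IntermediateField
open Fermat.Agent.H55 Fermat.Agent.H64 Fermat.Agent.H47 Fermat.Agent.H91 Module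

namespace Fermat.Agent.H54

local notation "Qb" => AlgebraicClosure ℚ
local notation "GQ" => (AlgebraicClosure ℚ ≃ₐ[ℚ] AlgebraicClosure ℚ)

variable {p : ℕ} [hp : Fact p.Prime] {S : Finset Nat.Primes}

/-- `U ≤ ker χ` iff `ζ ∈ K`. -/
theorem le_ker_cycloChar_iff {ζ : Qb} (hζ : IsPrimitiveRoot ζ p) (K : IntermediateField ℚ Qb) :
    K.fixingSubgroup ≤ (cycloChar p).ker ↔ ζ ∈ K := by
  constructor
  · intro h
    exact mem_of_fixed fun σ hσ => (H63.cycloChar_eq_one_iff hζ).mp (h hσ)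
  · intro h σ hσ
    rw [MonoidHom.mem_ker, H63.cycloChar_eq_one_iff hζ]
    exact (IntermediateField.mem_fixingSubgroup_iff _ _).mp hσ ζ h

theorem mem_S_of_eq (hpS : pPrime p ∈ S) : ∀ q : Nat.Primes, (q : ℕ) = p → q ∈ S := by
  intro q hq
  have : q = pPrime p := Subtype.ext hq
  rwa [this]

/-- the global input in terms of the dimension of `Ш²`. -/
theorem glob_h_of (hp2 : p ≠ 2) (hpS : pPrime p ∈ S) {ζ : Qb} (hζ : IsPrimitiveRoot ζ p)
    (K : IntermediateField ℚ Qb) [NumberField K] (hK : K.IsUnramifiedOutside S) (hζK : ζ ∈ K) :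
    2 * finrank (ZMod p) (H1 ((ramLevels S).onSub K.fixingSubgroup)
        (Representation.trivial (ZMod p) K.fixingSubgroup (ZMod p))) =
      2 * (DS S).nPlaces K.fixingSubgroup + K.fixingSubgroup.index +
        2 * finrank (ZMod p) ((DS S).ShaU2 (ZMod p) K.fixingSubgroup) := by
  have : NeZero p := ⟨hp.out.ne_zero⟩
  obtain ⟨c, hc, h⟩ := exists_finrank_H1 hp2 hζ hζK (mem_S_of_eq hpS) hK
  rw [h, nPlaces_eq, finrank_eq_index]
  have h1 : finrank (ZMod p) ((DS S).ShaU2 (ZMod p) K.fixingSubgroup) = c := by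
    have h2 := card_eq_pow_finrank_ShaU2 hp2 hζ hζK (mem_S_of_eq hpS) hK
    rw [hc] at h2
    exact (Nat.pow_right_injective hp.out.two_le h2).symm
  have hζ' : IsPrimitiveRoot (⟨ζ, hζK⟩ : K) p :=
    IsPrimitiveRoot.of_map_of_injective (f := algebraMap K Qb) hζ (algebraMap K Qb).injective
  have hp3 : 2 < p := lt_of_le_of_ne hp.out.two_le (Ne.symm hp2)
  have h3 := H64.rank_add_one hp3 hζ'
  have h4 : (placesS S K).ncard =
    {v : HeightOneSpectrum (𝓞 K) | ∃ q ∈ S, ((q : ℕ) : 𝓞 K) ∈ v.asIdeal}.ncard := rfl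
  rw [h1, h4]
  omega

/-- **(C3)** -/
theorem codim_DS (hp2 : p ≠ 2) (hpS : pPrime p ∈ S)
    (hfin : ∀ U, (ramLevels S).op U → U ≤ (cycloChar p).ker →
      Module.Finite (ZMod p) (H2 ((ramLevels S).onSub U) (Representation.trivial (ZMod p) U (ZMod p))))
    (U : Subgroup GQ) (hU : (ramLevels S).op U) :
    ∃ U', (ramLevels S).op U' ∧ U' ≤ U ∧ U' ≤ (cycloChar p).ker ∧
      (DS S).nPlaces U' + finrank (ZMod p) ((DS S).ShaU2 (ZMod p) U') ≤
      finrank (ZMod p) (H2 ((ramLevels S).onSub U') (Representation.trivial (ZMod p) U' (ZMod p))) + 1 := by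
  have : NeZero p := ⟨hp.out.ne_zero⟩
  obtain ⟨ζ, hζ⟩ := HasEnoughRootsOfUnity.exists_primitiveRoot Qb p
  have hpS' := mem_S_of_eq hpS
  obtain ⟨K, L, hKU, hKL, hK, hL, hKn, hLn, hζK, ⟨χ, hχs, hχ⟩, hloc⟩ :=
    exists_family hp2 hpS' hζ hU
  have hKfd : FiniteDimensional ℚ K := hK.1
  have hLfd : FiniteDimensional ℚ L := hL.1
  have hNK : NumberField K := numberField_of_finite K
  have hNL : NumberField (extendScalars hKL) := numberField_of_finite L
  have hn := normal_of_char hχ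
  have hi := relIndex_of_char hχ hχs
  have hGal : IsGalois K (extendScalars hKL) := isGalois_ext hKL hn
  have hGalQ' : IsGalois ℚ L := (InfiniteGalois.normal_iff_isGalois L).1 hLn
  have hGalQ'' : @IsGalois ℚ _ L _ DivisionRing.toRatAlgebra := by convert hGalQ'
  have hGalQ : @IsGalois ℚ _ (extendScalars hKL) _ DivisionRing.toRatAlgebra := hGalQ''
  have hdeg : finrank K (extendScalars hKL) = p := by rw [finrank_ext, hi]
  have hKop : (ramLevels S).op K.fixingSubgroup := (op_ramLevels_iff S _).2 ⟨K, hK, rfl⟩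
  have hle : K.fixingSubgroup ≤ (cycloChar p).ker := (le_ker_cycloChar_iff hζ K).2 hζK
  have hcut : Cuts (extendScalars hKL) χ := by
    intro g
    rw [hχ, IntermediateField.mem_fixingSubgroup_iff]
    exact ⟨fun h x => h x x.2, fun h x hx => h ⟨x, hx⟩⟩
  have hχop : ((ramLevels S).onSub K.fixingSubgroup).op χ.ker := by
    rw [ker_eq_of hχ]
    exact ⟨L.fixingSubgroup, (op_ramLevels_iff S _).2 ⟨L, hL, rfl⟩, le_rfl⟩
  have hE : ∀ q : Nat.Primes, q ∉ S → ∀ A : ValuationSubring Qb, A.LiesOverPrime (q : ℕ) →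
      ∀ σ ∈ A.inertiaSubgroupIn ℚ, ∀ x : extendScalars hKL,
        σ (algebraMap (extendScalars hKL) Qb x) = algebraMap (extendScalars hKL) Qb x :=
    fun q hq A hA σ hσ x =>
      (IntermediateField.mem_fixingSubgroup_iff L _).1 (hL.2 q hq A hA hσ) x x.2
  have hs : ∀ q ∈ S, ∀ g : GQ, ∃ s : primeLocalGaloisGroup q,
      rloc q g s ∈ K.fixingSubgroup ∧ rloc q g s ∉ L.fixingSubgroup := by
    intro q hq g
    obtain ⟨s, hs1, hs2⟩ := hloc q hq
    refine ⟨s, ?_, fun h => hs2 ?_⟩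
    · have := hKn.conj_mem _ hs1 g⁻¹
      rwa [inv_inv] at this
    · have h1 := hLn.conj_mem _ h g
      rw [rloc_apply] at h1
      have h2 : g * (g⁻¹ * primeLocalToGlobal q s * g) * g⁻¹ = primeLocalToGlobal q s := by group
      rwa [h2] at h1
  refine ⟨K.fixingSubgroup, hKop, hKU, hle, ?_⟩
  refine codim_of (E := extendScalars hKL) hp2 hpS' hζ hζK hK hdeg hE hχs hcut hχop ?_ ?_
    (hfin _ hKop hle)
  · rintro v ⟨q, hq, hqv⟩
    have : Fact (q : ℕ).Prime := ⟨q.2⟩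
    obtain ⟨g, rfl⟩ := exists_placeOf_embAt_eq (q : ℕ) K v hqv
    exact nonSplit_of_exists hKL q g hζ hζK hn hi (hs q hq g)
  · rintro a f h hSha v ⟨q, hq, hqv⟩ m
    have : Fact (q : ℕ).Prime := ⟨q.2⟩
    obtain ⟨g, rfl⟩ := exists_placeOf_embAt_eq (q : ℕ) K v hqv
    rw [LD.mem_ShaU2] at hSha
    exact mem_locNorm_of_cRel_locU2 hKL hζ q hq g hζK hχ hχs h _ (hSha ⟨q, hq⟩ g) (hs q hq g) m

/-- the field of an open subgroup below `ker χ` -/
theorem exists_field (hζ : ∃ ζ : Qb, IsPrimitiveRoot ζ p) {U : Subgroup GQ}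
    (hU : (ramLevels S).op U) (hle : U ≤ (cycloChar p).ker) :
    ∃ (ζ : Qb) (K : IntermediateField ℚ Qb), IsPrimitiveRoot ζ p ∧ ζ ∈ K ∧ NumberField K ∧
      K.IsUnramifiedOutside S ∧ K.fixingSubgroup = U := by
  obtain ⟨ζ, hζ⟩ := hζ
  obtain ⟨K, hK, rfl⟩ := (op_ramLevels_iff S U).1 hU
  have hKfd : FiniteDimensional ℚ K := hK.1
  exact ⟨ζ, K, hζ, (le_ker_cycloChar_iff hζ K).1 hle, numberField_of_finite K, hK, rfl⟩

/-- **The arithmetic input of the Poitou-Tate theorem.** -/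
theorem arithInput (hp2 : p ≠ 2) (hpS : pPrime p ∈ S) : ArithInput (DS S) (cycloChar p) := by
  have : NeZero p := ⟨hp.out.ne_zero⟩
  have hζ := HasEnoughRootsOfUnity.exists_primitiveRoot Qb p
  have hpS' := mem_S_of_eq hpS
  have hfin2 : ∀ U, (ramLevels S).op U → U ≤ (cycloChar p).ker →
      Module.Finite (ZMod p) (H2 ((ramLevels S).onSub U)
        (Representation.trivial (ZMod p) U (ZMod p))) := by
    intro U hU hle
    refine finite_H2_of_finite_ShaU2 (D := DS S) (χ := cycloChar p) (H7.loc_fin2 S p hp2) hU hle ?_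
    obtain ⟨ζ, K, hζ, hζK, hNK, hK, rfl⟩ := exists_field hζ hU hle
    have := finite_ShaU2 hp2 hζ hζK hpS' hK
    exact Module.Finite.of_finite
  refine
    { open_ker := H73.F6.op_ker_cycloChar S hpS
      loc_fin1 := H7.loc_fin1 S p
      loc_fin2 := H7.loc_fin2 S p hp2
      loc_h1 := H7.loc_h1 S p hpS
      loc_h2 := H7.loc_h2 S p hp2
      tot_ram := H7.tot_ram S p hp2 hpS
      glob_fin1 := ?_
      glob_fin2 := hfin2
      glob_h := ?_
      codim := codim_DS hp2 hpS hfin2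
      iso := ?_ }
  · intro U hU hle
    obtain ⟨ζ, K, hζ, hζK, hNK, hK, rfl⟩ := exists_field hζ hU hle
    exact finiteDimensional_H1 hp2 hζ hζK hpS' hK
  · intro U hU hle
    obtain ⟨ζ, K, hζ, hζK, hNK, hK, rfl⟩ := exists_field hζ hU hle
    exact glob_h_of hp2 hpS hζ K hK hζK
  · intro z v₀ g₀ hz
    refine iso_of hp2 S (H73.F6.op_ker_cycloChar S hpS) le_rfl ?_ z v₀ g₀ hz
    intro f hf q hq g
    obtain ⟨ζ, K, hζ, hζK, hNK, hK, hKU⟩ := exists_field hζ (H73.F6.op_ker_cycloChar S hpS) le_rfl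
    rw [mem_B2]
    revert f
    rw [← hKU]
    intro f hf
    obtain ⟨y, hy, hyf⟩ := locTriv hζ hζK hpS' hK hq g hf
    refine ⟨y, hy, ?_⟩
    funext x
    rw [d1_apply, Representation.trivial_apply]
    exact hyf x.1 x.2

end Fermat.Agent.H54
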