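import Mathlib
import Fermat.Agent.H56Defs
import Fermat.Agent.H54Levels
import Fermat.Agent.H47TUnits

set_option autoImplicit false
set_option maxSynthPendingDepth 3

/-!
# S56, Euler characteristic for large `S` : definitions
-/

noncomputable section

open Module ExtCitation
open Fermat.Agent.H55

namespace Fermat.Agent.H56

/-! ## representations on `A / p` -/

section RepN

variable (G A : Type) [Group G] [AddCommGroup A] [DistribMulAction G A] (p : ℕ)

lemma range_le_comap (g : G) : LinearMap.range (LinearMap.lsmul ℤ A p) ≤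
    (LinearMap.range (LinearMap.lsmul ℤ A p)).comap
      (DistribSMul.toAddMonoidHom A g).toIntLinearMap := by
  rintro _ ⟨a, rfl⟩
  exact ⟨g • a, by
    show (p : ℤ) • (g • a) = g • ((p : ℤ) • a)
    rw [smul_comm]⟩

/-- the endomorphism of `A / p` induced by `g` -/
def modNMap (g : G) : ModN A p →ₗ[ZMod p] ModN A p :=
  AddMonoidHom.toZModLinearMap p
    (Submodule.mapQ _ _ _ (range_le_comap G A p g)).toAddMonoidHom

lemma modNMap_mkQ (g : G) (a : A) :
    modNMap G A p g (ModN.mkQ p a) = ModN.mkQ p (g • a) := rfl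

lemma mkQ_surjective : Function.Surjective (ModN.mkQ (G := A) p) := Submodule.mkQ_surjective _

/-- the representation of `G` on `A / p` -/
def repN : Representation (ZMod p) G (ModN A p) where
  toFun := modNMap G A p
  map_one' := by
    refine LinearMap.ext fun x => ?_
    obtain ⟨a, rfl⟩ := mkQ_surjective A p x
    exact (modNMap_mkQ G A p 1 a).trans (by rw [one_smul]; rfl)
  map_mul' g h := by
    refine LinearMap.ext fun x => ?_
    obtain ⟨a, rfl⟩ := mkQ_surjective A p x
    exact (modNMap_mkQ G A p (g * h) a).trans (by rw [mul_smul]; rfl)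

variable {G A p}

@[simp] lemma repN_mkQ (g : G) (a : A) : repN G A p g (ModN.mkQ p a) = ModN.mkQ p (g • a) := rfl

end RepN

/-! ## equivariant maps -/

section Hom

variable {p : ℕ} {G A B : Type} [Group G] [AddCommGroup A] [Module (ZMod p) A]
  [AddCommGroup B] [Module (ZMod p) B]

/-- homomorphisms equivariant under the subgroup `C` -/
def HomC (C : Subgroup G) (r : Representation (ZMod p) G A) (s : Representation (ZMod p) G B) :
    Submodule (ZMod p) (A →ₗ[ZMod p] B) where
  carrier := {f | ∀ c ∈ C, ∀ a, f (r c a) = s c (f a)}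
  add_mem' {f g} hf hg c hc a := by simp [hf c hc, hg c hc]
  zero_mem' c hc a := by simp
  smul_mem' x f hf c hc a := by simp [hf c hc]

@[simp] lemma mem_HomC {C : Subgroup G} {r : Representation (ZMod p) G A}
    {s : Representation (ZMod p) G B} {f : A →ₗ[ZMod p] B} :
    f ∈ HomC C r s ↔ ∀ c ∈ C, ∀ a, f (r c a) = s c (f a) := Iff.rfl

/-- functions `f` on `G`, left `D`-invariant and equivariant for the right action of `C` -/
def EqFun (D C : Subgroup G) (r : Representation (ZMod p) G A) : Submodule (ZMod p) (G → A) where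
  carrier := {f | (∀ d ∈ D, ∀ x, f (d * x) = f x) ∧ ∀ c ∈ C, ∀ x, f (x * c) = r c⁻¹ (f x)}
  add_mem' {f g} hf hg := ⟨fun d hd x => by simp [hf.1 d hd, hg.1 d hd],
    fun c hc x => by simp [hf.2 c hc, hg.2 c hc]⟩
  zero_mem' := ⟨fun d hd x => rfl, fun c hc x => by simp⟩
  smul_mem' a f hf := ⟨fun d hd x => by simp [hf.1 d hd], fun c hc x => by simp [hf.2 c hc]⟩

@[simp] lemma mem_EqFun {D C : Subgroup G} {r : Representation (ZMod p) G A} {f : G → A} :
    f ∈ EqFun D C r ↔ (∀ d ∈ D, ∀ x, f (d * x) = f x) ∧ ∀ c ∈ C, ∀ x, f (x * c) = r c⁻¹ (f x) :=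
  Iff.rfl

/-- vectors fixed by the subgroup `C` -/
def invC (C : Subgroup G) (r : Representation (ZMod p) G A) : Submodule (ZMod p) A where
  carrier := {a | ∀ c ∈ C, r c a = a}
  add_mem' {f g} hf hg c hc := by simp [hf c hc, hg c hc]
  zero_mem' c hc := by simp
  smul_mem' x f hf c hc := by simp [hf c hc]

@[simp] lemma mem_invC {C : Subgroup G} {r : Representation (ZMod p) G A} {a : A} :
    a ∈ invC C r ↔ ∀ c ∈ C, r c a = a := Iff.rfl

end Hom

/-! ## `S`-units -/

section Units

/-- the product of the primes of `S` -/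
def SInt (S : Finset Nat.Primes) : ℕ := ∏ q ∈ S, (q : ℕ)

lemma SInt_ne_zero (S : Finset Nat.Primes) : SInt S ≠ 0 :=
  Finset.prod_ne_zero_iff.2 fun q _ => q.2.ne_zero

/-- the `S`-units of a field, in terms of integrality -/
def ES (S : Finset Nat.Primes) (K : Type) [Field K] : Subgroup Kˣ where
  carrier := {x | ∃ n : ℕ, IsIntegral ℤ ((SInt S : K) ^ n * (x : K)) ∧
    IsIntegral ℤ ((SInt S : K) ^ n * ((x⁻¹ : Kˣ) : K))}
  mul_mem' := by
    rintro x y ⟨n, hx, hx'⟩ ⟨m, hy, hy'⟩
    refine ⟨n + m, ?_, ?_⟩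
    · have := hx.mul hy
      have e : (SInt S : K) ^ (n + m) * ((x * y : Kˣ) : K) =
        ((SInt S : K) ^ n * (x : K)) * ((SInt S : K) ^ m * (y : K)) := by
        rw [Units.val_mul]; ring
      rwa [e]
    · have := hx'.mul hy'
      have e : (SInt S : K) ^ (n + m) * (((x * y)⁻¹ : Kˣ) : K) =
        ((SInt S : K) ^ n * ((x⁻¹ : Kˣ) : K)) * ((SInt S : K) ^ m * ((y⁻¹ : Kˣ) : K)) := by
        rw [mul_inv, Units.val_mul]; ring
      rwa [e]
  one_mem' := ⟨0, by simpa using isIntegral_one, by simpa using isIntegral_one⟩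
  inv_mem' := by
    rintro x ⟨n, hx, hx'⟩
    exact ⟨n, hx', by rwa [inv_inv]⟩

lemma mem_ES {S : Finset Nat.Primes} {K : Type} [Field K] {x : Kˣ} :
    x ∈ ES S K ↔ ∃ n : ℕ, IsIntegral ℤ ((SInt S : K) ^ n * (x : K)) ∧
    IsIntegral ℤ ((SInt S : K) ^ n * ((x⁻¹ : Kˣ) : K)) := Iff.rfl

variable {K : Type} [Field K] [Algebra ℚ K]

/-- the automorphism of the group of `S`-units induced by `g` -/
def ESmap (S : Finset Nat.Primes) (g : K ≃ₐ[ℚ] K) : ES S K →* ES S K where
  toFun x := ⟨Units.map (g : K →* K) x, by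
    obtain ⟨n, h1, h2⟩ := x.2
    refine ⟨n, ?_, ?_⟩
    · have := h1.map (g : K →ₐ[ℚ] K).toRingHom.toIntAlgHom
      simpa using this
    · have := h2.map (g : K →ₐ[ℚ] K).toRingHom.toIntAlgHom
      simpa using this⟩
  map_one' := by ext; simp
  map_mul' x y := by ext; simp

@[simp] lemma coe_ESmap (S : Finset Nat.Primes) (g : K ≃ₐ[ℚ] K) (x : ES S K) :
    ((ESmap S g x : Kˣ) : K) = g ((x : Kˣ) : K) := rfl

/-- action of the automorphisms on the `S`-units -/
instance instESAction (S : Finset Nat.Primes) :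
    DistribMulAction (K ≃ₐ[ℚ] K) (Additive (ES S K)) where
  smul g x := (ESmap S g).toAdditive x
  one_smul x := by
    apply Additive.toMul.injective
    ext; rfl
  mul_smul g h x := by
    apply Additive.toMul.injective
    ext; rfl
  smul_add g x y := map_add _ x y
  smul_zero g := map_zero _

lemma coe_smul_ES (S : Finset Nat.Primes) (g : K ≃ₐ[ℚ] K) (x : Additive (ES S K)) :
    (((g • x).toMul : Kˣ) : K) = g ((x.toMul : Kˣ) : K) := rfl

end Units

/-! ## representations of the Galois group of a number field -/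

section GK

variable (p : ℕ) [Fact p.Prime] (S : Finset Nat.Primes)
  (K : IntermediateField ℚ (AlgebraicClosure ℚ))

/-- `E_S(K) / p` as a representation of the Galois group of `K` -/
abbrev unitRep : Representation (ZMod p) (K ≃ₐ[ℚ] K) (ModN (Additive (ES S K)) p) :=
  repN (K ≃ₐ[ℚ] K) (Additive (ES S K)) p

end GK

end Fermat.Agent.H56
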