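import Fermat.Agent.H77Artin

/-!
# Artin's induction theorem for additive functions: cyclic groups of order prime to `p`
-/

set_option autoImplicit false
set_option linter.style.haveILetI false
set_option linter.unusedSectionVars false

open Module Representation

namespace Fermat.Agent.H77.Rep

namespace AddFun

variable {p : ℕ} [Fact p.Prime]

/-- A module with a nilpotent operator `S`, `S ^ p = 0`, all of whose Jordan blocks have length `p`. -/
theorem F_eq_mul_of_nilpotent {G : Type*} [Group G] (Φ : AddFun p G) {M : Type} [AddCommGroup M]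
    [Module (ZMod p) M] [Finite M] (ρ : Representation (ZMod p) G M) (S : M →ₗ[ZMod p] M)
    (hS : ∀ g m, S (ρ g m) = ρ g (S m)) (n : ℕ) (hSn : S ^ n = 0)
    (hcard : Nat.card M = Nat.card (LinearMap.ker S) ^ n)
    (ρ₁ : Representation (ZMod p) G (LinearMap.ker S))
    (hρ₁ : ∀ g (v : LinearMap.ker S), ((ρ₁ g v : LinearMap.ker S) : M) = ρ g v) :
    Φ.F M ρ = n * Φ.F (LinearMap.ker S) ρ₁ := by
  have hSi : ∀ (i : ℕ) g m, (S ^ i) (ρ g m) = ρ g ((S ^ i) m) := by
    intro i
    induction i with
    | zero => intro g m; rfl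
    | succ i ih =>
      intro g m
      rw [pow_succ, Module.End.mul_apply, Module.End.mul_apply, hS, ih]
  have hst : ∀ (i : ℕ) g, ∀ m ∈ LinearMap.ker (S ^ i), ρ g m ∈ LinearMap.ker (S ^ i) := by
    intro i g m hm
    rw [LinearMap.mem_ker] at hm ⊢
    rw [hSi, hm, map_zero]
  choose r hr using fun i => exists_subrep ρ (LinearMap.ker (S ^ i)) (hst i)
  have hmaps : ∀ i, ∀ m ∈ LinearMap.ker (S ^ (i + 1)), S m ∈ LinearMap.ker (S ^ i) := by
    intro i m hm
    rw [LinearMap.mem_ker] at hm ⊢
    rw [pow_succ, Module.End.mul_apply] at hm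
    exact hm
  let f : ∀ i, LinearMap.ker (S ^ (i + 1)) →ₗ[ZMod p] LinearMap.ker (S ^ i) := fun i =>
    S.restrict (hmaps i)
  have hf : ∀ i (m : LinearMap.ker (S ^ (i + 1))), ((f i m : LinearMap.ker (S ^ i)) : M) = S m :=
    fun _ _ => rfl
  have hle : ∀ i, LinearMap.ker S ≤ LinearMap.ker (S ^ (i + 1)) := by
    intro i m hm
    rw [LinearMap.mem_ker] at hm ⊢
    rw [pow_succ, Module.End.mul_apply, hm, map_zero]
  let ι : ∀ i, LinearMap.ker S →ₗ[ZMod p] LinearMap.ker (S ^ (i + 1)) := fun i =>
    Submodule.inclusion (hle i)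
  have hexact : ∀ i, Function.Exact (ι i) (f i) := by
    intro i m
    constructor
    · intro hm
      have : S m = 0 := by rw [← hf, hm]; rfl
      exact ⟨⟨m, this⟩, rfl⟩
    · rintro ⟨v, rfl⟩
      apply Subtype.ext
      exact v.2
  -- cardinalities
  have hcardle : ∀ i, Nat.card (LinearMap.ker (S ^ (i + 1))) =
      Nat.card (LinearMap.ker S) * Nat.card (LinearMap.range (f i)) := by
    intro i
    have h1 := Submodule.card_eq_card_quotient_mul_card (LinearMap.ker (f i))
    have h2 : Nat.card (LinearMap.ker (f i)) = Nat.card (LinearMap.ker S) := by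
      have hk : LinearMap.ker (f i) = LinearMap.range (ι i) :=
        LinearMap.exact_iff.1 (hexact i)
      rw [hk]
      exact (Nat.card_congr (LinearEquiv.ofInjective (ι i)
        (Submodule.inclusion_injective _)).toEquiv).symm
    rw [h1, h2]
    congr 1
    exact Nat.card_congr (LinearMap.quotKerEquivRange (f i)).toEquiv
  have hpos : 0 < Nat.card (LinearMap.ker S) := Nat.card_pos
  have hle1 : ∀ i, Nat.card (LinearMap.ker (S ^ (i + 1))) ≤
      Nat.card (LinearMap.ker S) * Nat.card (LinearMap.ker (S ^ i)) := by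
    intro i
    rw [hcardle]
    exact Nat.mul_le_mul_left _ (Nat.card_le_card_of_injective _ Subtype.val_injective)
  have h0 : Nat.card (LinearMap.ker (S ^ 0)) = 1 := by
    have : LinearMap.ker (S ^ 0) = ⊥ := by
      rw [pow_zero, Module.End.one_eq_id, LinearMap.ker_id]
    rw [this]
    simp
  have hup : ∀ i, Nat.card (LinearMap.ker (S ^ i)) ≤ Nat.card (LinearMap.ker S) ^ i := by
    intro i
    induction i with
    | zero => rw [h0, pow_zero]
    | succ i ih =>
      refine (hle1 i).trans ?_
      rw [pow_succ, mul_comm]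
      exact Nat.mul_le_mul_right _ ih
  have hdown : ∀ i j, Nat.card (LinearMap.ker (S ^ (i + j))) ≤
      Nat.card (LinearMap.ker S) ^ j * Nat.card (LinearMap.ker (S ^ i)) := by
    intro i j
    induction j with
    | zero => simp
    | succ j ih =>
      refine (hle1 (i + j)).trans ?_
      rw [pow_succ, mul_comm (Nat.card (LinearMap.ker S) ^ j), mul_assoc]
      exact Nat.mul_le_mul_left _ ih
  have htop : Nat.card (LinearMap.ker (S ^ n)) = Nat.card (LinearMap.ker S) ^ n := by
    rw [← hcard, hSn, LinearMap.ker_zero]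
    exact Nat.card_congr Submodule.topEquiv.toEquiv
  have heq : ∀ i, i ≤ n → Nat.card (LinearMap.ker (S ^ i)) = Nat.card (LinearMap.ker S) ^ i := by
    intro i hi
    apply le_antisymm (hup i)
    obtain ⟨j, rfl⟩ := Nat.exists_eq_add_of_le hi
    have := hdown i j
    rw [htop, pow_add, mul_comm] at this
    exact Nat.le_of_mul_le_mul_left this (pow_pos hpos _)
  have hsurj : ∀ i, i < n → Function.Surjective (f i) := by
    intro i hi
    rw [← LinearMap.range_eq_top]
    have h1 := hcardle i
    rw [heq (i + 1) hi, pow_succ, mul_comm] at h1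
    have h2 : Nat.card (LinearMap.ker S) ^ i = Nat.card (LinearMap.range (f i)) :=
      Nat.eq_of_mul_eq_mul_left hpos h1
    rw [← heq i hi.le] at h2
    have h3 : Function.Bijective (LinearMap.range (f i)).subtype :=
      (Nat.bijective_iff_injective_and_card _).2 ⟨Subtype.val_injective, h2.symm⟩
    rw [eq_top_iff]
    intro x _
    obtain ⟨y, rfl⟩ := h3.2 x
    exact y.2
  have key : ∀ i, i ≤ n → Φ.F (LinearMap.ker (S ^ i)) (r i) = i * Φ.F (LinearMap.ker S) ρ₁ := by
    intro i
    induction i with
    | zero =>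
      intro _
      have : Subsingleton (LinearMap.ker (S ^ 0)) := by
        have h1 : LinearMap.ker (S ^ 0) = ⊥ := by
          rw [pow_zero, Module.End.one_eq_id, LinearMap.ker_id]
        rw [h1]
        infer_instance
      rw [Φ.F_subsingleton _ this]
      simp
    | succ i ih =>
      intro hi
      have h1 := Φ.add ρ₁ (r (i + 1)) (r i) (ι i) (f i) (fun σ v => by
          apply Subtype.ext
          rw [hr]
          exact hρ₁ σ v)
        (fun σ v => by
          apply Subtype.ext
          rw [hf, hr, hr, hf, hS])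
        (Submodule.inclusion_injective _) (hsurj i hi) (hexact i)
      rw [h1, ih (by omega)]
      push_cast
      ring
  rw [← key n le_rfl]
  symm
  refine Φ.F_iso (LinearMap.ker (S ^ n)).subtype (fun σ v => hr n σ v) ⟨Subtype.val_injective, ?_⟩
  intro m
  exact ⟨⟨m, by rw [LinearMap.mem_ker, hSn]; rfl⟩, rfl⟩

section Art

variable {G : Type} [Group G] [Finite G] (Φ : AddFun p G) {N : Type} [AddCommGroup N]
  [Module (ZMod p) N] [Finite N] (ρN : Representation (ZMod p) G N)

theorem FN_index_p (c : G) (hc : p ∣ orderOf c) :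
    FN Φ ρN (G ⧸ Subgroup.zpowers (c ^ p)) = p * FN Φ ρN (G ⧸ Subgroup.zpowers c) := by
  classical
  have hp : p.Prime := Fact.out
  set D := Subgroup.zpowers (c ^ p) with hD
  set C := Subgroup.zpowers c with hCdef
  have hDC : D ≤ C := by
    rw [hD, Subgroup.zpowers_le]
    exact Subgroup.pow_mem _ (Subgroup.mem_zpowers c) p
  have hcomm : ∀ d ∈ D, d * c = c * d := by
    rintro d ⟨n, rfl⟩
    show (c ^ p) ^ n * c = c * (c ^ p) ^ n
    exact (((Commute.refl c).pow_left p).zpow_left n)
  -- right multiplication by `c`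
  let R : G ⧸ D → G ⧸ D := Quotient.map' (· * c) (by
    intro x y hxy
    rw [QuotientGroup.leftRel_apply] at hxy ⊢
    have : (x * c)⁻¹ * (y * c) = x⁻¹ * y := by
      have h1 := hcomm _ hxy
      calc (x * c)⁻¹ * (y * c) = c⁻¹ * ((x⁻¹ * y) * c) := by group
        _ = c⁻¹ * (c * (x⁻¹ * y)) := by rw [h1]
        _ = x⁻¹ * y := by group
    show (x * c)⁻¹ * (y * c) ∈ D
    rw [this]
    exact hxy)
  have hR : ∀ x : G, R (QuotientGroup.mk x) = QuotientGroup.mk (x * c) := fun _ => rfl
  have hRn : ∀ (n : ℕ) (x : G), R^[n] (QuotientGroup.mk x) = QuotientGroup.mk (x * c ^ n) := by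
    intro n
    induction n with
    | zero => intro x; simp
    | succ n ih =>
      intro x
      rw [Function.iterate_succ_apply, hR, ih, pow_succ', mul_assoc]
  have hRp : ∀ x, R^[p] x = x := by
    intro x
    obtain ⟨x, rfl⟩ := QuotientGroup.mk_surjective x
    rw [hRn]
    exact (QuotientGroup.mk_mul_of_mem x (Subgroup.mem_zpowers _))
  let T : Module.End (ZMod p) (G ⧸ D → N) :=
    { toFun := fun f x => f (R x)
      map_add' := fun _ _ => rfl
      map_smul' := fun _ _ => rfl }
  have hT : ∀ f x, T f x = f (R x) := fun _ _ => rfl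
  have hTn : ∀ (n : ℕ) f x, (T ^ n) f x = f (R^[n] x) := by
    intro n
    induction n with
    | zero => intro f x; rfl
    | succ n ih =>
      intro f x
      rw [pow_succ', Module.End.mul_apply, hT, ih, ← Function.iterate_succ_apply]
  have hTp : T ^ p = 1 := by
    refine LinearMap.ext fun f => ?_
    funext x
    rw [hTn, hRp]
    rfl
  let S : Module.End (ZMod p) (G ⧸ D → N) := T - 1
  have hSp : S ^ p = 0 := by
    by_cases htriv : Nontrivial (Module.End (ZMod p) (G ⧸ D → N))
    · have : CharP (Module.End (ZMod p) (G ⧸ D → N)) p := by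
        refine charP_of_injective_algebraMap (R := ZMod p)
          (A := Module.End (ZMod p) (G ⧸ D → N)) ?_ p
        exact (algebraMap (ZMod p) (Module.End (ZMod p) (G ⧸ D → N))).injective
      show (T - 1) ^ p = 0
      rw [sub_pow_char_of_commute p (Commute.one_right T), hTp, one_pow, sub_self]
    · rw [not_nontrivial_iff_subsingleton] at htriv
      exact Subsingleton.elim _ _
  have hSapp : ∀ f x, S f x = f (R x) - f x := fun _ _ => rfl
  have hSeq : ∀ g f, S (permRep ρN (G ⧸ D) g f) = permRep ρN (G ⧸ D) g (S f) := by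
    intro g f
    funext x
    rw [hSapp, permRep_apply, permRep_apply, permRep_apply, hSapp, map_sub]
    congr 3
    obtain ⟨x, rfl⟩ := QuotientGroup.mk_surjective x
    show (QuotientGroup.mk (g⁻¹ * (x * c)) : G ⧸ D) = QuotientGroup.mk ((g⁻¹ * x) * c)
    rw [mul_assoc]
  -- the kernel
  let π : G ⧸ D → G ⧸ C := Quotient.map' id (by
    intro x y hxy
    rw [QuotientGroup.leftRel_apply] at hxy ⊢
    exact hDC hxy)
  have hπ : ∀ x : G, π (QuotientGroup.mk x) = QuotientGroup.mk x := fun _ => rfl
  obtain ⟨ρ₁, hρ₁⟩ := exists_subrep (permRep ρN (G ⧸ D)) (LinearMap.ker S) (by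
    intro g f hf
    rw [LinearMap.mem_ker] at hf ⊢
    rw [hSeq, hf, map_zero])
  let φ : (G ⧸ C → N) →ₗ[ZMod p] LinearMap.ker S :=
    { toFun := fun u => ⟨fun x => u (π x), by
        rw [LinearMap.mem_ker]
        funext x
        rw [hSapp]
        obtain ⟨x, rfl⟩ := QuotientGroup.mk_surjective x
        show u (π (R (QuotientGroup.mk x))) - u (π (QuotientGroup.mk x)) = 0
        rw [hR, hπ, hπ, QuotientGroup.mk_mul_of_mem x (Subgroup.mem_zpowers c), sub_self]⟩
      map_add' := fun _ _ => rfl
      map_smul' := fun _ _ => rfl }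
  have hφ : ∀ u x, ((φ u : LinearMap.ker S) : G ⧸ D → N) x = u (π x) := fun _ _ => rfl
  have hφbij : Function.Bijective φ := by
    constructor
    · intro u u' h
      funext x
      obtain ⟨x, rfl⟩ := QuotientGroup.mk_surjective x
      have := congrFun (congrArg Subtype.val h) (QuotientGroup.mk x)
      exact this
    · rintro ⟨f, hf⟩
      have hinv : ∀ x : G, f (QuotientGroup.mk (x * c)) = f (QuotientGroup.mk x) := by
        intro x
        have := congrFun (LinearMap.mem_ker.1 hf) (QuotientGroup.mk x)
        rw [hSapp, hR] at this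
        exact sub_eq_zero.1 this
      have hinvn : ∀ (n : ℕ) (x : G), f (QuotientGroup.mk (x * c ^ n)) = f (QuotientGroup.mk x) := by
        intro n
        induction n with
        | zero => intro x; simp
        | succ n ih => intro x; rw [pow_succ, ← mul_assoc, hinv, ih]
      refine ⟨Quotient.lift (fun x => f (QuotientGroup.mk x)) ?_, ?_⟩
      · intro x y hxy
        have hxy' : x⁻¹ * y ∈ C := QuotientGroup.leftRel_apply.1 hxy
        rw [hCdef, ← mem_powers_iff_mem_zpowers] at hxy'
        obtain ⟨n, hn⟩ := hxy'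
        have : y = x * c ^ n := by
          have hn' : c ^ n = x⁻¹ * y := hn
          rw [hn']; group
        show f (QuotientGroup.mk x) = f (QuotientGroup.mk y)
        rw [this, hinvn]
      · apply Subtype.ext
        funext x
        obtain ⟨x, rfl⟩ := QuotientGroup.mk_surjective x
        rfl
  have hcards : Nat.card (G ⧸ D) = p * Nat.card (G ⧸ C) := by
    have h1 := Subgroup.card_eq_card_quotient_mul_card_subgroup D
    have h2 := Subgroup.card_eq_card_quotient_mul_card_subgroup C
    have h3 : Nat.card C = orderOf c := Nat.card_zpowers c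
    have h4 : Nat.card D = orderOf c / p := by
      rw [hD, Nat.card_zpowers, orderOf_pow' c hp.ne_zero, Nat.gcd_eq_right hc]
    have h5 : orderOf c = p * Nat.card D := by rw [h4, Nat.mul_div_cancel' hc]
    rw [h3, h5] at h2
    rw [h1] at h2
    have h6 : 0 < Nat.card D := Nat.card_pos
    have : Nat.card (G ⧸ D) * Nat.card D = (p * Nat.card (G ⧸ C)) * Nat.card D := by
      rw [h2]; ring
    exact Nat.eq_of_mul_eq_mul_right h6 this
  have hker : Nat.card (LinearMap.ker S) = Nat.card N ^ Nat.card (G ⧸ C) := by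
    rw [← Nat.card_congr (Equiv.ofBijective φ hφbij), Nat.card_fun]
  have hmain := F_eq_mul_of_nilpotent Φ (permRep ρN (G ⧸ D)) S hSeq p hSp
    (by rw [hker, ← pow_mul, Nat.card_fun, hcards, mul_comm p]) ρ₁ hρ₁
  have hiso : Φ.F (LinearMap.ker S) ρ₁ = FN Φ ρN (G ⧸ C) := by
    symm
    refine Φ.F_iso φ (fun g u => ?_) hφbij
    apply Subtype.ext
    rw [hρ₁]
    funext x
    rw [hφ, permRep_apply, permRep_apply, hφ]
    congr 2
    obtain ⟨x, rfl⟩ := QuotientGroup.mk_surjective x
    rfl
  rw [← hiso]
  exact hmain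

/-- **Artin induction** for additive functions, cyclic subgroups of order prime to `p`. -/
theorem F_eq_zero_of_cyclic_of_coprime
    (hC : ∀ C : Subgroup G, IsCyclic C → ¬ p ∣ Nat.card C → FN Φ ρN (G ⧸ C) = 0) :
    Φ.F N ρN = 0 := by
  apply F_eq_zero_of_cyclic
  intro C hcyc
  have key : ∀ (n : ℕ) (c : G), orderOf c = n → FN Φ ρN (G ⧸ Subgroup.zpowers c) = 0 := by
    intro n
    induction n using Nat.strong_induction_on with
    | _ n ih =>
      intro c hn
      by_cases hp : p ∣ orderOf c
      · have h1 := FN_index_p Φ ρN c hp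
        have hp' : p.Prime := Fact.out
        have h2 : orderOf (c ^ p) < n := by
          rw [orderOf_pow' c hp'.ne_zero, Nat.gcd_eq_right hp, ← hn]
          exact Nat.div_lt_self (orderOf_pos c) hp'.one_lt
        rw [ih _ h2 (c ^ p) rfl] at h1
        have h3 : (p : ℤ) ≠ 0 := Nat.cast_ne_zero.2 hp'.ne_zero
        exact (mul_eq_zero.1 h1.symm).resolve_left h3
      · apply hC _ inferInstance
        rw [Nat.card_zpowers]
        exact hp
  obtain ⟨c, hc⟩ := hcyc.exists_generator
  have : Subgroup.zpowers (c : G) = C := by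
    apply le_antisymm
    · rw [Subgroup.zpowers_le]
      exact c.2
    · intro x hx
      obtain ⟨n, hn⟩ := hc ⟨x, hx⟩
      exact ⟨n, congrArg Subtype.val hn⟩
  rw [← this]
  exact key _ c rfl

end Art

end AddFun

end Fermat.Agent.H77.Rep
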