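import Mathlib
import Fermat.Agent.H56ECDefs
import Fermat.Agent.H77ArtinP

set_option autoImplicit false
set_option maxSynthPendingDepth 3
set_option linter.unusedSectionVars false

/-!
# S56, Euler characteristic: reduction of a lattice with cyclic torsion
-/

noncomputable section

open Module ExtCitation
open Fermat.Agent.H55 Fermat.Agent.H77.Rep Fermat.Agent.H77.Rep.AddFun

namespace Fermat.Agent.H56.CYB

variable {G : Type} [Group G]

section IntRep

variable (G) (E : Type) [AddCommGroup E] [DistribMulAction G E]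

/-- the integral representation attached to an action -/
def intRep : Representation ℤ G E where
  toFun g := (DistribSMul.toAddMonoidHom E g).toIntLinearMap
  map_one' := by ext x; exact one_smul G x
  map_mul' g h := by ext x; exact mul_smul g h x

@[simp] lemma intRep_apply (g : G) (x : E) : intRep G E g x = g • x := rfl

end IntRep

section Lam

variable (E : Type) [AddCommGroup E] (n : ℕ)

/-- multiples of `n` -/
abbrev Lam : Submodule ℤ E := LinearMap.range (LinearMap.lsmul ℤ E (n : ℤ))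

variable {E n}

lemma mem_Lam {x : E} : x ∈ Lam E n ↔ ∃ y, (n : ℤ) • y = x := Iff.rfl

variable [DistribMulAction G E]

instance instLam : DistribMulAction G (Lam E n) where
  smul g x := ⟨g • (x : E), by
    obtain ⟨y, hy⟩ := x.2
    refine ⟨g • y, ?_⟩
    rw [← hy]
    show (n : ℤ) • (g • y) = g • ((n : ℤ) • y)
    rw [smul_comm]⟩
  one_smul x := Subtype.ext (one_smul G (x : E))
  mul_smul g h x := Subtype.ext (mul_smul g h (x : E))
  smul_add g x y := Subtype.ext (smul_add g (x : E) (y : E))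
  smul_zero g := Subtype.ext (smul_zero g)

@[simp] lemma coe_smul_Lam (g : G) (x : Lam E n) : ((g • x : Lam E n) : E) = g • (x : E) := rfl

end Lam

variable {p : ℕ} [Fact p.Prime]

lemma mkQ_eq_zero {A : Type} [AddCommGroup A] {x : A} :
    ModN.mkQ p x = 0 ↔ ∃ y, x = p • y := by
  have h1 : ModN.mkQ p x = 0 ↔ x ∈ LinearMap.range (LinearMap.lsmul ℤ A p) :=
    Submodule.Quotient.mk_eq_zero _
  rw [h1]
  constructor
  · rintro ⟨y, hy⟩
    exact ⟨y, by rw [← hy]; show (p : ℤ) • y = p • y; simp⟩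
  · rintro ⟨y, rfl⟩
    exact ⟨y, by show (p : ℤ) • y = p • y; simp⟩

lemma mkQ_zsmul {A : Type} [AddCommGroup A] (a : ℤ) (x : A) :
    ModN.mkQ p (a • x) = (a : ZMod p) • ModN.mkQ p x := by
  rw [map_zsmul, Int.cast_smul_eq_zsmul]

/-- finiteness of `A / p` -/
instance instFiniteModN {A : Type} [AddCommGroup A] [Module.Finite ℤ A] : Finite (ModN A p) := by
  have h : AddGroup.FG A := Module.Finite.iff_addGroup_fg.1 inferInstance
  apply Module.finite_of_fg_torsion
  intro x
  refine ⟨⟨(p : ℤ), mem_nonZeroDivisors_of_ne_zero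
    (Nat.cast_ne_zero.2 (Fact.out : p.Prime).ne_zero)⟩, ?_⟩
  obtain ⟨a, rfl⟩ := mkQ_surjective A p x
  show (p : ℤ) • ModN.mkQ p a = 0
  rw [← map_zsmul, mkQ_eq_zero]
  exact ⟨a, by simp⟩

/-- the multiplicative twist of a permutation -/
structure TorsData (E : Type) [AddCommGroup E] [DistribMulAction G E] (p : ℕ) (n : ℕ) (τ : E)
    (χ : G →* (ZMod p)ˣ) : Prop where
  hn : n ≠ 0
  tors : n • τ = 0
  ord : ∀ a : ℤ, a • τ = 0 → (n : ℤ) ∣ a
  gen : ∀ x : E, ∀ m : ℤ, m ≠ 0 → m • x = 0 → ∃ a : ℤ, x = a • τ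
  dvd : p ∣ n
  act : ∀ g : G, ∃ c : ℤ, g • τ = c • τ ∧ (c : ZMod p) = χ g

variable {E : Type} [AddCommGroup E] [DistribMulAction G E] {n : ℕ} {τ : E}
  {χ : G →* (ZMod p)ˣ}

section Step1

variable (D : TorsData E p n τ χ)

include D

/-- `ZMod p → E / p` -/
def fmap (_ : TorsData E p n τ χ) : ZMod p →ₗ[ZMod p] ModN E p :=
  LinearMap.toSpanSingleton (ZMod p) _ (ModN.mkQ p τ)

/-- `E / p → (nE) / p` -/
def gmap (_ : TorsData E p n τ χ) : ModN E p →ₗ[ZMod p] ModN (Lam E n) p :=
  ModN.liftEquiv'.symm ⟨(ModN.mkQ p).comp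
    (LinearMap.rangeRestrict (LinearMap.lsmul ℤ E (n : ℤ))).toAddMonoidHom, by
      intro g
      rw [← map_nsmul]
      refine mkQ_eq_zero.2 ⟨(LinearMap.lsmul ℤ E (n : ℤ)).rangeRestrict g, ?_⟩
      exact map_nsmul (LinearMap.rangeRestrict (LinearMap.lsmul ℤ E (n : ℤ))).toAddMonoidHom p g⟩

lemma fmap_apply (a : ZMod p) : fmap D a = a • ModN.mkQ p τ := rfl

lemma gmap_mkQ (x : E) :
    gmap D (ModN.mkQ p x) = ModN.mkQ p (⟨(n : ℤ) • x, x, rfl⟩ : Lam E n) := rfl

lemma fmap_int (a : ℤ) : fmap D (a : ZMod p) = ModN.mkQ p (a • τ) := by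
  rw [fmap_apply, mkQ_zsmul]

lemma step1 (Φ : AddFun p G) [Module.Finite ℤ E] :
    Φ.F (ModN E p) (repN G E p) = Φ.F (ZMod p) (mu χ) + Φ.F (ModN (Lam E n) p)
      (repN G (Lam E n) p) := by
  refine Φ.add (mu χ) (repN G E p) (repN G (Lam E n) p) (fmap D) (gmap D) ?_ ?_ ?_ ?_ ?_
  · intro g a
    obtain ⟨c, hc, hcχ⟩ := D.act g
    obtain ⟨b, rfl⟩ := ZMod.intCast_surjective a
    rw [mu_apply, ← hcχ, ← Int.cast_mul, fmap_int, fmap_int, repN_mkQ]
    congr 1
    rw [smul_comm, hc, smul_smul, mul_comm]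
  · intro g b
    obtain ⟨x, rfl⟩ := mkQ_surjective E p b
    rw [repN_mkQ, gmap_mkQ, gmap_mkQ, repN_mkQ]
    congr 1
    apply Subtype.ext
    show (n : ℤ) • (g • x) = g • ((n : ℤ) • x)
    rw [smul_comm]
  · rw [← LinearMap.ker_eq_bot, LinearMap.ker_eq_bot']
    intro a ha
    obtain ⟨b, rfl⟩ := ZMod.intCast_surjective a
    rw [fmap_int, mkQ_eq_zero] at ha
    obtain ⟨y, hy⟩ := ha
    have hp0 : (p : ℤ) ≠ 0 := Nat.cast_ne_zero.2 (Fact.out : p.Prime).ne_zero
    have hn0 : (n : ℤ) ≠ 0 := Nat.cast_ne_zero.2 D.hn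
    obtain ⟨c, rfl⟩ := D.gen y (n * p) (mul_ne_zero hn0 hp0) (by
      rw [mul_smul, natCast_zsmul y p, ← hy, natCast_zsmul, smul_comm, D.tors, smul_zero])
    have h1 : (b - p * c) • τ = 0 := by
      rw [sub_smul, hy, mul_smul, natCast_zsmul, sub_self]
    have h2 := D.ord _ h1
    have h3 : (p : ℤ) ∣ b - p * c := (Int.natCast_dvd_natCast.2 D.dvd).trans h2
    have h4 : (p : ℤ) ∣ b := by
      have := dvd_add h3 (dvd_mul_right (p : ℤ) c)
      rwa [sub_add_cancel] at this
    exact (ZMod.intCast_zmod_eq_zero_iff_dvd b p).2 h4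
  · intro y
    obtain ⟨⟨_, x, rfl⟩, rfl⟩ := mkQ_surjective (Lam E n) p y
    exact ⟨ModN.mkQ p x, gmap_mkQ D x⟩
  · intro b
    obtain ⟨x, rfl⟩ := mkQ_surjective E p b
    rw [gmap_mkQ, mkQ_eq_zero]
    constructor
    · rintro ⟨⟨_, y, rfl⟩, hy⟩
      have hy' : (n : ℤ) • x = p • ((n : ℤ) • y) := congrArg Subtype.val hy
      obtain ⟨a, ha⟩ := D.gen (x - p • y) n (Nat.cast_ne_zero.2 D.hn) (by
        rw [smul_sub, hy', smul_comm, sub_self])
      refine ⟨(a : ZMod p), ?_⟩
      rw [fmap_int, ← ha, map_sub, sub_eq_self, mkQ_eq_zero]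
      exact ⟨y, rfl⟩
    · rintro ⟨a, ha⟩
      obtain ⟨b, rfl⟩ := ZMod.intCast_surjective a
      rw [fmap_int, eq_comm, ← sub_eq_zero, ← map_sub, mkQ_eq_zero] at ha
      obtain ⟨y, hy⟩ := ha
      refine ⟨⟨(n : ℤ) • y, y, rfl⟩, ?_⟩
      apply Subtype.ext
      show (n : ℤ) • x = p • ((n : ℤ) • y)
      rw [smul_comm (p : ℕ) (n : ℤ) y, ← hy, smul_sub, smul_comm (n : ℤ) b τ, natCast_zsmul τ n,
        D.tors, smul_zero, sub_zero]

end Step1

section Step2

variable (D : TorsData E p n τ χ)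

include D

lemma free_Lam [Module.Finite ℤ E] : Module.Free ℤ (Lam E n) := by
  have : Module.IsTorsionFree ℤ (Lam E n) := by
    rw [Module.isTorsionFree_int_iff_isAddTorsionFree]
    refine ⟨fun {m} hm => ?_⟩
    intro x x' h
    rw [← sub_eq_zero]
    replace h : m • (x - x') = 0 := by
      rw [smul_sub, sub_eq_zero]; exact h
    generalize x - x' = z at h
    obtain ⟨_, y, rfl⟩ := z
    have h1 : m • ((n : ℤ) • y) = 0 := congrArg Subtype.val h
    obtain ⟨a, rfl⟩ := D.gen y (m * n) (mul_ne_zero (Nat.cast_ne_zero.2 hm)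
      (Nat.cast_ne_zero.2 D.hn)) (by rw [mul_smul, natCast_zsmul, h1])
    apply Subtype.ext
    show (n : ℤ) • (a • τ) = 0
    rw [smul_comm, natCast_zsmul, D.tors, smul_zero]
  exact Module.free_of_finite_type_torsion_free'

lemma finrank_ker_Lam [Module.Finite ℤ E] (g : G) :
    finrank ℤ (LinearMap.ker (intRep G (Lam E n) g - 1)) =
      finrank ℤ (LinearMap.ker (intRep G E g - 1)) := by
  apply le_antisymm
  · refine LinearMap.finrank_le_finrank_of_injective
      (f := LinearMap.codRestrict _ ((Lam E n).subtype ∘ₗ Submodule.subtype _) ?_) ?_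
    · intro x
      have := x.2
      rw [LinearMap.mem_ker, LinearMap.sub_apply, sub_eq_zero] at this ⊢
      exact congrArg Subtype.val this
    · intro x y h
      apply Subtype.ext
      apply Subtype.ext
      exact congrArg (fun z : LinearMap.ker (intRep G E g - 1) => (z : E)) h
  · let f : LinearMap.ker (intRep G E g - 1) →ₗ[ℤ] LinearMap.ker (intRep G (Lam E n) g - 1) :=
      LinearMap.codRestrict _
        (LinearMap.rangeRestrict (LinearMap.lsmul ℤ E (n : ℤ)) ∘ₗ Submodule.subtype _) (by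
        intro x
        have := x.2
        rw [LinearMap.mem_ker, LinearMap.sub_apply, sub_eq_zero] at this ⊢
        apply Subtype.ext
        show g • ((n : ℤ) • (x : E)) = (n : ℤ) • (x : E)
        rw [smul_comm]
        exact congrArg ((n : ℤ) • ·) this)
    have h1 := Submodule.finrank_quotient_add_finrank (LinearMap.ker f)
    have h2 : finrank ℤ (LinearMap.ker f) = 0 := by
      rw [Module.finrank_eq_zero_iff]
      intro x
      refine ⟨n, Nat.cast_ne_zero.2 D.hn, ?_⟩
      apply Subtype.ext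
      apply Subtype.ext
      have := x.2
      rw [LinearMap.mem_ker] at this
      exact congrArg (fun z : LinearMap.ker (intRep G (Lam E n) g - 1) => ((z : Lam E n) : E)) this
    rw [h2, add_zero, f.quotKerEquivRange.finrank_eq] at h1
    rw [← h1]
    exact Submodule.finrank_le _

/-- trivial extension of a representation -/
def trivExt {k A : Type} [CommRing k] [AddCommGroup A] [Module k A] (ρ : Representation k G A) :
    Representation k G (A × k) where
  toFun g := LinearMap.prodMap (ρ g) 1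
  map_one' := by rw [map_one]; rfl
  map_mul' g h := by rw [map_mul]; rfl

omit D in
@[simp] lemma trivExt_apply {k A : Type} [CommRing k] [AddCommGroup A] [Module k A]
    (ρ : Representation k G A) (g : G) (x : A × k) : trivExt ρ g x = (ρ g x.1, x.2) := rfl

omit D in
lemma finrank_ker_trivExt {A : Type} [AddCommGroup A] [Module.Free ℤ A] [Module.Finite ℤ A]
    (ρ : Representation ℤ G A) (g : G) :
    finrank ℤ (LinearMap.ker (trivExt ρ g - 1)) = finrank ℤ (LinearMap.ker (ρ g - 1)) + 1 := by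
  let e : LinearMap.ker (trivExt ρ g - 1) ≃ₗ[ℤ] (LinearMap.ker (ρ g - 1) × ℤ) :=
    { toFun := fun x => (⟨x.1.1, by
        have := x.2
        rw [LinearMap.mem_ker, LinearMap.sub_apply, sub_eq_zero] at this ⊢
        exact congrArg Prod.fst this⟩, x.1.2)
      invFun := fun x => ⟨(x.1.1, x.2), by
        have := x.1.2
        rw [LinearMap.mem_ker, LinearMap.sub_apply, sub_eq_zero] at this ⊢
        exact Prod.ext this rfl⟩
      map_add' := fun x y => rfl
      map_smul' := fun a x => rfl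
      left_inv := fun x => rfl
      right_inv := fun x => rfl }
  rw [e.finrank_eq, Module.finrank_prod, Module.finrank_self]

lemma step2 (Φ : AddFun p G) [Module.Finite ℤ E] [Finite G] (X : Type) [Finite X] [MulAction G X]
    (hX : ∀ g, finrank ℤ (LinearMap.ker (permRep (1 : Representation ℤ G ℤ) X g - 1)) =
      finrank ℤ (LinearMap.ker (intRep G E g - 1)) + 1) :
    Φ.F (ModN (Lam E n) p) (repN G (Lam E n) p) +
        Φ.F (ZMod p) (1 : Representation (ZMod p) G (ZMod p)) =
      Φ.F (X → ZMod p) (permRep (1 : Representation (ZMod p) G (ZMod p)) X) := by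
  have := free_Lam D
  have h1 : Φ.F (ModN (Lam E n) p × ZMod p) (trivExt (repN G (Lam E n) p)) =
      Φ.F (ModN (Lam E n) p) (repN G (Lam E n) p) +
        Φ.F (ZMod p) (1 : Representation (ZMod p) G (ZMod p)) := by
    refine Φ.add _ _ _ (LinearMap.inl _ _ _) (LinearMap.snd _ _ _) ?_ ?_ ?_ ?_ ?_
    · intro g a; simp
    · intro g a; simp
    · exact LinearMap.inl_injective
    · exact LinearMap.snd_surjective
    · exact Function.Exact.inl_snd
  rw [← h1]
  refine Φ.F_red_eq_of_finrank (Fact.out : p.Prime).ne_zero (trivExt (intRep G (Lam E n)))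
    (permRep (1 : Representation ℤ G ℤ) X) ?_ _
    (AddMonoidHom.prodMap (ModN.mkQ p) (Int.castAddHom (ZMod p))) ?_ ?_ ?_ _
    ((Int.castAddHom (ZMod p)).compLeft X) ?_ ?_ ?_
  · intro g
    rw [finrank_ker_trivExt, finrank_ker_Lam D, hX]
  · rintro ⟨a, b⟩
    obtain ⟨x, rfl⟩ := mkQ_surjective (Lam E n) p a
    obtain ⟨y, rfl⟩ := ZMod.intCast_surjective b
    exact ⟨(x, y), rfl⟩
  · rintro ⟨x, y⟩
    constructor
    · intro h
      obtain ⟨z, hz⟩ := mkQ_eq_zero.1 (congrArg Prod.fst h)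
      obtain ⟨w, hw⟩ := (ZMod.intCast_zmod_eq_zero_iff_dvd y p).1 (congrArg Prod.snd h)
      exact ⟨(z, w), Prod.ext hz (by rw [hw]; simp)⟩
    · rintro ⟨⟨z, w⟩, h⟩
      refine Prod.ext (mkQ_eq_zero.2 ⟨z, congrArg Prod.fst h⟩)
        ((ZMod.intCast_zmod_eq_zero_iff_dvd y p).2 ⟨w, ?_⟩)
      have := congrArg Prod.snd h
      simpa using this
  · rintro g ⟨x, y⟩
    exact Prod.ext (by simp) rfl
  · intro f
    choose g hg using fun x => ZMod.intCast_surjective (f x)
    exact ⟨g, funext hg⟩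
  · intro f
    constructor
    · intro h
      have h' : ∀ x, ∃ y, f x = (p : ℤ) * y := fun x =>
        (ZMod.intCast_zmod_eq_zero_iff_dvd (f x) p).1 (congrFun h x)
      choose g hg using h'
      exact ⟨g, funext fun x => by rw [hg x]; simp⟩
    · rintro ⟨g, rfl⟩
      funext x
      simp
  · intro g f
    funext x
    simp [permRep_apply]

/-- **Reduction of a lattice with cyclic torsion**. -/
theorem F_mod (Φ : AddFun p G) [Module.Finite ℤ E] [Finite G] (X : Type) [Finite X]
    [MulAction G X]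
    (hX : ∀ g, finrank ℤ (LinearMap.ker (permRep (1 : Representation ℤ G ℤ) X g - 1)) =
      finrank ℤ (LinearMap.ker (intRep G E g - 1)) + 1) :
    Φ.F (ModN E p) (repN G E p) + Φ.F (ZMod p) (1 : Representation (ZMod p) G (ZMod p)) =
      Φ.F (ZMod p) (mu χ) +
        Φ.F (X → ZMod p) (permRep (1 : Representation (ZMod p) G (ZMod p)) X) := by
  rw [step1 D Φ, add_assoc, step2 D Φ X hX]

end Step2

end Fermat.Agent.H56.CYB
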