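import Mathlib
import Fermat.Agent.H47TClass

set_option autoImplicit false

namespace Fermat.Agent.H47

open IsDedekindDomain NumberField
open scoped WithZero nonZeroDivisors Pointwise

noncomputable section

section selmer

variable (K : Type*) [Field K] [NumberField K] (T : Set (HeightOneSpectrum (𝓞 K)))

/-- The relations of the `T`-class group: principal divisors and divisors supported on `T`. -/
def relT : AddSubgroup (HeightOneSpectrum (𝓞 K) →₀ ℤ) where
  carrier := {D | ∃ x : Kˣ, ∀ v ∉ T, ordHom v (Additive.ofMul x) = D v}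
  zero_mem' := ⟨1, fun v _ => by simp⟩
  add_mem' := by
    rintro D E ⟨x, hx⟩ ⟨y, hy⟩
    exact ⟨x * y, fun v hv => by rw [ofMul_mul, map_add, hx v hv, hy v hv]; rfl⟩
  neg_mem' := by
    rintro D ⟨x, hx⟩
    exact ⟨x⁻¹, fun v hv => by rw [ofMul_inv, map_neg, hx v hv]; rfl⟩

variable {K T} in
theorem mem_relT_iff {D : HeightOneSpectrum (𝓞 K) →₀ ℤ} :
    D ∈ relT K T ↔ ∃ x : Kˣ, ∀ v ∉ T, ordHom v (Additive.ofMul x) = D v := Iff.rfl

/-- The `T`-class group. -/
abbrev ClT : Type _ := (HeightOneSpectrum (𝓞 K) →₀ ℤ) ⧸ relT K T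

theorem ker_classOf_le_relT : (classOf (R := 𝓞 K) K).ker ≤ relT K T := by
  rw [ker_classOf]
  rintro _ ⟨x, rfl⟩
  exact ⟨x.toMul, fun v _ => rfl⟩

instance instFiniteClT : Finite (ClT K T) := by
  have h1 : Finite ((HeightOneSpectrum (𝓞 K) →₀ ℤ) ⧸ (classOf (R := 𝓞 K) K).ker) :=
    Finite.of_equiv _ (QuotientAddGroup.quotientKerEquivOfSurjective _
      (classOf_surjective (R := 𝓞 K) K)).symm.toEquiv
  exact Finite.of_surjective
    (QuotientAddGroup.map _ (relT K T) (AddMonoidHom.id _) (ker_classOf_le_relT K T))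
    (by
      intro y
      obtain ⟨D, rfl⟩ := QuotientAddGroup.mk_surjective y
      exact ⟨(D : _), rfl⟩)

theorem clTrivial_iff : H82.ClTrivial T ↔ Subsingleton (ClT K T) := by
  constructor
  · intro h
    refine ⟨fun a b => ?_⟩
    obtain ⟨D, rfl⟩ := QuotientAddGroup.mk_surjective a
    obtain ⟨E, rfl⟩ := QuotientAddGroup.mk_surjective b
    rw [QuotientAddGroup.eq]
    exact exists_ordHom_eq h _
  · intro h v hv
    classical
    have h1 : Finsupp.single v (1 : ℤ) ∈ relT K T := by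
      rw [← QuotientAddGroup.eq_zero_iff]
      exact Subsingleton.elim _ _
    obtain ⟨x, hx⟩ := h1
    refine ⟨x, ?_, fun v' hv' hne => ?_⟩
    · rw [valuation_eq_exp_ordHom, hx v hv, Finsupp.single_eq_same]
    · rw [← ordHom_eq_zero_iff, hx v' hv', Finsupp.single_apply, if_neg (Ne.symm hne)]

/-- The `T`-Selmer subgroup `{x ∈ Kˣ : n ∣ v(x) for all v ∉ T}`. -/
def selT (n : ℕ) : Subgroup Kˣ where
  carrier := {x | ∀ v ∉ T, (n : ℤ) ∣ ordHom v (Additive.ofMul x)}
  one_mem' := fun v _ => by simp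
  mul_mem' := by
    intro x y hx hy v hv
    rw [ofMul_mul, map_add]
    exact dvd_add (hx v hv) (hy v hv)
  inv_mem' := by
    intro x hx v hv
    rw [ofMul_inv, map_neg]
    exact (hx v hv).neg_right

variable {K T} in
theorem mem_selT_iff {n : ℕ} {x : Kˣ} :
    x ∈ selT K T n ↔ ∀ v ∉ T, (n : ℤ) ∣ ordHom v (Additive.ofMul x) := Iff.rfl

variable {K T}

theorem unit_le_selT (n : ℕ) : T.unit K ≤ selT K T n := by
  intro x hx v hv
  rw [mem_unit_iff.1 hx v hv]
  exact dvd_zero _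

theorem range_pow_le_selT (n : ℕ) : (powMonoidHom n : Kˣ →* Kˣ).range ≤ selT K T n := by
  rintro _ ⟨x, rfl⟩ v _
  rw [powMonoidHom_apply, ofMul_pow, map_nsmul, nsmul_eq_mul]
  exact dvd_mul_right _ _

open Classical in
/-- The divisor `x ↦ (v(x)/n)_{v ∉ T}`. -/
def divT (n : ℕ) (x : Kˣ) : HeightOneSpectrum (𝓞 K) →₀ ℤ :=
  Finsupp.ofSupportFinite
    (fun v => if v ∈ T then 0 else ordHom v (Additive.ofMul x) / (n : ℤ))
    ((finite_ordHom_ne_zero (Additive.ofMul x)).subset (by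
      intro v hv
      rw [Function.mem_support] at hv
      rw [Set.mem_ofPred_eq]
      rintro h
      rw [h, Int.zero_ediv, ite_self] at hv
      exact hv rfl))

theorem divT_apply (n : ℕ) (x : Kˣ) {v : HeightOneSpectrum (𝓞 K)} (hv : v ∉ T) :
    divT (T := T) n x v = ordHom v (Additive.ofMul x) / (n : ℤ) := by
  classical
  exact if_neg hv

theorem divT_apply_of_mem (n : ℕ) (x : Kˣ) {v : HeightOneSpectrum (𝓞 K)} (hv : v ∈ T) :
    divT (T := T) n x v = 0 := by
  classical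
  exact if_pos hv

theorem mul_divT {n : ℕ} {x : Kˣ} (hx : x ∈ selT K T n) {v : HeightOneSpectrum (𝓞 K)}
    (hv : v ∉ T) : (n : ℤ) * divT (T := T) n x v = ordHom v (Additive.ofMul x) := by
  rw [divT_apply n x hv]
  exact Int.mul_ediv_cancel' (hx v hv)

variable (K T) in
/-- The map `Sel_T → Cl_T[n]`, `x ↦ [∏_{v ∉ T} v^{v(x)/n}]`. -/
def selToClT (n : ℕ) (hn : n ≠ 0) : selT K T n →* Multiplicative (ClT K T) :=
  MonoidHom.mk' (fun x => Multiplicative.ofAdd ((divT (T := T) n (x : Kˣ) : _) : ClT K T)) (by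
    intro x y
    rw [← ofAdd_add, ← QuotientAddGroup.mk_add]
    congr 2
    ext v
    by_cases hv : v ∈ T
    · rw [Finsupp.add_apply, divT_apply_of_mem _ _ hv, divT_apply_of_mem _ _ hv,
        divT_apply_of_mem _ _ hv, add_zero]
    · have hn' : (n : ℤ) ≠ 0 := by exact_mod_cast hn
      apply mul_left_cancel₀ hn'
      rw [Finsupp.add_apply, mul_add, mul_divT (x * y).2 hv, mul_divT x.2 hv, mul_divT y.2 hv,
        Subgroup.coe_mul, ofMul_mul, map_add])

theorem ker_selToClT {n : ℕ} (hn : n ≠ 0) :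
    (selToClT K T n hn).ker = ((T.unit K) ⊔ (powMonoidHom n : Kˣ →* Kˣ).range).subgroupOf
      (selT K T n) := by
  ext x
  rw [MonoidHom.mem_ker, Subgroup.mem_subgroupOf, Subgroup.mem_sup]
  change Multiplicative.ofAdd ((divT (T := T) n (x : Kˣ) : _) : ClT K T) = 1 ↔ _
  rw [ofAdd_eq_one, QuotientAddGroup.eq_zero_iff, mem_relT_iff]
  constructor
  · rintro ⟨y, hy⟩
    refine ⟨(x : Kˣ) / y ^ n, ?_, y ^ n, ⟨y, rfl⟩, by simp⟩
    rw [mem_unit_iff]
    intro v hv
    rw [ofMul_div, map_sub, ofMul_pow, map_nsmul, hy v hv, nsmul_eq_mul, mul_divT x.2 hv, sub_self]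
  · rintro ⟨u, hu, _, ⟨y, rfl⟩, hx⟩
    refine ⟨y, fun v hv => ?_⟩
    have hn' : (n : ℤ) ≠ 0 := by exact_mod_cast hn
    apply mul_left_cancel₀ hn'
    rw [mul_divT x.2 hv, ← hx, ofMul_mul, map_add, mem_unit_iff.1 hu v hv, powMonoidHom_apply,
      ofMul_pow, map_nsmul, nsmul_eq_mul, zero_add]

theorem range_selToClT {n : ℕ} (hn : n ≠ 0) (c : ClT K T) :
    Multiplicative.ofAdd c ∈ (selToClT K T n hn).range ↔ n • c = 0 := by
  classical
  constructor
  · rintro ⟨x, hx⟩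
    have hx' : ((divT (T := T) n (x : Kˣ) : _) : ClT K T) = c := hx
    rw [← hx', ← QuotientAddGroup.mk_nsmul, QuotientAddGroup.eq_zero_iff]
    refine ⟨x, fun v hv => ?_⟩
    rw [Finsupp.smul_apply, nsmul_eq_mul, mul_divT x.2 hv]
  · intro hc
    obtain ⟨D, rfl⟩ := QuotientAddGroup.mk_surjective c
    rw [← QuotientAddGroup.mk_nsmul, QuotientAddGroup.eq_zero_iff] at hc
    obtain ⟨x, hx⟩ := hc
    have hxs : x ∈ selT K T n := by
      intro v hv
      rw [hx v hv, Finsupp.smul_apply, nsmul_eq_mul]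
      exact dvd_mul_right _ _
    refine ⟨⟨x, hxs⟩, ?_⟩
    change Multiplicative.ofAdd ((divT (T := T) n x : _) : ClT K T) = _
    congr 1
    rw [QuotientAddGroup.eq]
    refine ⟨1, fun v hv => ?_⟩
    have hn' : (n : ℤ) ≠ 0 := by exact_mod_cast hn
    rw [ofMul_one, map_zero, Finsupp.add_apply, Finsupp.neg_apply]
    have h2 : (n : ℤ) * divT (T := T) n x v = n * D v := by
      rw [mul_divT hxs hv, hx v hv, Finsupp.smul_apply, nsmul_eq_mul]
    have h3 := mul_left_cancel₀ hn' h2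
    rw [h3]; ring

/-- `E_T ∩ Kˣⁿ = E_Tⁿ`. -/
theorem range_pow_relIndex_unit {n : ℕ} (hn : n ≠ 0) :
    ((powMonoidHom n : Kˣ →* Kˣ).range).relIndex (T.unit K) =
      ((T.unit K).map (powMonoidHom n : Kˣ →* Kˣ)).relIndex (T.unit K) := by
  rw [Subgroup.relIndex, Subgroup.relIndex]
  congr 1
  ext x
  rw [Subgroup.mem_subgroupOf, Subgroup.mem_subgroupOf, Subgroup.mem_map]
  constructor
  · rintro ⟨y, hy⟩
    refine ⟨y, ?_, hy⟩
    rw [mem_unit_iff]
    intro v hv
    have h1 := mem_unit_iff.1 x.2 v hv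
    rw [← hy, powMonoidHom_apply, ofMul_pow, map_nsmul] at h1
    rcases smul_eq_zero.1 h1 with h | h
    · exact absurd h hn
    · exact h
  · rintro ⟨y, _, hy⟩
    exact ⟨y, hy⟩

/-- Counting form of the exact sequence `1 → E_T/E_Tⁿ → Sel_T/Kˣⁿ → Cl_T[n] → 1`. -/
theorem relIndex_range_pow_selT {n : ℕ} (hn : n ≠ 0) :
    ((powMonoidHom n : Kˣ →* Kˣ).range).relIndex (selT K T n) =
      ((T.unit K).map (powMonoidHom n : Kˣ →* Kˣ)).relIndex (T.unit K) *
        Nat.card (nsmulAddMonoidHom (α := ClT K T) n).ker := by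
  have h1 : (powMonoidHom n : Kˣ →* Kˣ).range ≤ T.unit K ⊔ (powMonoidHom n : Kˣ →* Kˣ).range :=
    le_sup_right
  have h2 : T.unit K ⊔ (powMonoidHom n : Kˣ →* Kˣ).range ≤ selT K T n :=
    sup_le (unit_le_selT n) (range_pow_le_selT n)
  rw [← Subgroup.relIndex_mul_relIndex _ _ _ h1 h2, Subgroup.relIndex_sup_right,
    range_pow_relIndex_unit hn]
  congr 1
  rw [Subgroup.relIndex, ← ker_selToClT hn, Subgroup.index_ker]
  refine Nat.card_congr ⟨fun c => ⟨Multiplicative.toAdd c.1, ?_⟩,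
    fun c => ⟨Multiplicative.ofAdd c.1, ?_⟩, fun c => rfl, fun c => rfl⟩
  · exact (range_selToClT hn _).1 c.2
  · exact (range_selToClT hn _).2 c.2

/-- `[Sel_T : Kˣⁿ] = n ^ (rank K + #T + 1) * |Cl_T[n]|` if `ζ_n ∈ K`. -/
theorem relIndex_range_pow_selT_of_primitiveRoot (hT : T.Finite) {n : ℕ} [NeZero n] {ζ : K}
    (hζ : IsPrimitiveRoot ζ n) :
    ((powMonoidHom n : Kˣ →* Kˣ).range).relIndex (selT K T n) =
      n ^ (NumberField.Units.rank K + T.ncard + 1) *
        Nat.card (nsmulAddMonoidHom (α := ClT K T) n).ker := by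
  rw [relIndex_range_pow_selT (NeZero.ne n), relIndex_map_pow_unit K T hT hζ]

/-- `|Cl_T[n]| = |Cl_T/n|`. -/
theorem card_ker_nsmul_ClT (n : ℕ) :
    Nat.card (nsmulAddMonoidHom (α := ClT K T) n).ker =
      (nsmulAddMonoidHom (α := ClT K T) n).range.index :=
  AddSubgroup.index_range.symm

end selmer

end

end Fermat.Agent.H47
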