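import Fermat.Agent.H64KummerIso
import Fermat.Agent.H47Selmer
import Fermat.Agent.H55Fam

/-!
# (A1) : the order of `H¹(G_{K,S}, ℤ/p)` for `K ∋ ζ_p`.
-/

set_option autoImplicit false

open NumberField NumberField.InfinitePlace IsDedekindDomain Fermat.Agent.H63 Fermat.Agent.H55 Fermat.Agent.H47 ExtCitation

namespace Fermat.Agent.H64

local notation "Qb" => AlgebraicClosure ℚ
local notation "GQ" => (AlgebraicClosure ℚ ≃ₐ[ℚ] AlgebraicClosure ℚ)

section places

variable (S : Finset Nat.Primes) (K : Type*) [Field K] [NumberField K]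

/-- the finite places of `K` above `S` -/
def placesS : Set (HeightOneSpectrum (𝓞 K)) :=
  {v | ∃ q ∈ S, ((q : ℕ) : 𝓞 K) ∈ v.asIdeal}

variable {S K}

omit [NumberField K] in
theorem mem_placesS {v : HeightOneSpectrum (𝓞 K)} :
    v ∈ placesS S K ↔ ∃ q ∈ S, ((q : ℕ) : 𝓞 K) ∈ v.asIdeal := Iff.rfl

theorem finite_placesS : (placesS S K).Finite := by
  have h : placesS S K ⊆ ⋃ q ∈ (S : Set Nat.Primes),
      {v : HeightOneSpectrum (𝓞 K) | v.asIdeal ∣ Ideal.span {((q : ℕ) : 𝓞 K)}} := by
    rintro v ⟨q, hq, hqv⟩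
    simp only [Set.mem_iUnion]
    refine ⟨q, hq, ?_⟩
    rw [Set.mem_ofPred_eq, Ideal.dvd_iff_le, Ideal.span_singleton_le_iff_mem]
    exact hqv
  refine Set.Finite.subset (Set.Finite.biUnion S.finite_toSet fun q _ => ?_) h
  refine Ideal.finite_factors ?_
  rw [Ne, Ideal.zero_eq_bot, Ideal.span_singleton_eq_bot]
  exact_mod_cast q.2.ne_zero

theorem VS_eq_selT {p : ℕ} : VS S K p = selT K (placesS S K) p := by
  ext x
  rw [mem_VS, mem_selT_iff]
  refine forall_congr' fun v => ?_
  have h1 : (∀ q ∈ S, ((q : ℕ) : 𝓞 K) ∉ v.asIdeal) ↔ v ∉ placesS S K := by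
    rw [mem_placesS]; push Not; rfl
  rw [h1, ordHom_apply, dvd_neg]

end places

/-- the rank of the units of a number field containing the `p`-th roots of unity -/
theorem rank_add_one {K : Type*} [Field K] [NumberField K] {p : ℕ} (hp : 2 < p) {ζ : K}
    (hζ : IsPrimitiveRoot ζ p) :
    2 * (NumberField.Units.rank K + 1) = Module.finrank ℚ K := by
  have hc : NumberField.InfinitePlace.nrRealPlaces K = 0 := by
    exact IsPrimitiveRoot.nrRealPlaces_eq_zero_of_two_lt hp hζ
  have h1 := NumberField.InfinitePlace.card_add_two_mul_card_eq_rank K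
  have h2 := NumberField.InfinitePlace.card_eq_nrRealPlaces_add_nrComplexPlaces K
  have h3 : 0 < Fintype.card (InfinitePlace K) := Fintype.card_pos
  rw [NumberField.Units.rank]
  omega

variable {p : ℕ} [Fact p.Prime] {K : IntermediateField ℚ Qb} [NumberField K] {ζ : Qb}
  {S : Finset Nat.Primes}

/-- (A1), cardinality form -/
theorem card_H1 (hp2 : p ≠ 2) (hζ : IsPrimitiveRoot ζ p) (hζK : ζ ∈ K)
    (hpS : ∀ q : Nat.Primes, (q : ℕ) = p → q ∈ S) (hK : K.IsUnramifiedOutside S) :
    Nat.card (H1 ((levelsS S).onSub K.fixingSubgroup)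
      (Representation.trivial (ZMod p) K.fixingSubgroup (ZMod p))) =
      p ^ (Module.finrank ℚ K / 2 + (placesS S K).ncard) *
        Nat.card (nsmulAddMonoidHom (α := ClT K (placesS S K)) p).ker := by
  have hp : p.Prime := Fact.out
  have hp3 : 2 < p := lt_of_le_of_ne hp.two_le (Ne.symm hp2)
  have : NeZero p := ⟨hp.ne_zero⟩
  have hζ' : IsPrimitiveRoot (⟨ζ, hζK⟩ : K) p :=
    IsPrimitiveRoot.of_map_of_injective (f := algebraMap K Qb) hζ (algebraMap K Qb).injective
  rw [card_H1_eq hζ hζK hpS hK]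
  have h1 : Nat.card (VS S K p ⧸ (powMonoidHom p : Kˣ →* Kˣ).range.subgroupOf (VS S K p)) =
      ((powMonoidHom p : Kˣ →* Kˣ).range).relIndex (selT K (placesS S K) p) := by
    rw [VS_eq_selT]
    rfl
  rw [h1, relIndex_range_pow_selT_of_primitiveRoot finite_placesS hζ']
  congr 2
  have := rank_add_one hp3 hζ'
  omega

theorem levelsS_eq (S : Finset Nat.Primes) : levelsS S = ramLevels S := by
  have : (levelsS S).op = (ramLevels S).op := funext fun U => propext (ramLevels_op_iff S U).symm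
  cases h1 : levelsS S
  cases h2 : ramLevels S
  simp only [h1, h2] at this
  subst this
  rfl

theorem levelsAll_eq : levelsAll = krullLevels := by
  have : levelsAll.op = krullLevels.op := funext fun U => propext (krullLevels_op_iff U).symm
  cases h1 : levelsAll
  cases h2 : krullLevels
  simp only [h1, h2] at this
  subst this
  rfl

/-- (A1), cardinality form, for helper55's level structure -/
theorem card_H1_ramLevels (hp2 : p ≠ 2) (hζ : IsPrimitiveRoot ζ p) (hζK : ζ ∈ K)
    (hpS : ∀ q : Nat.Primes, (q : ℕ) = p → q ∈ S) (hK : K.IsUnramifiedOutside S) :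
    Nat.card (H1 ((ramLevels S).onSub K.fixingSubgroup)
      (Representation.trivial (ZMod p) K.fixingSubgroup (ZMod p))) =
      p ^ (Module.finrank ℚ K / 2 + (placesS S K).ncard) *
        Nat.card (nsmulAddMonoidHom (α := ClT K (placesS S K)) p).ker := by
  rw [← levelsS_eq]
  exact card_H1 hp2 hζ hζK hpS hK

theorem finiteDimensional_H1 (hp2 : p ≠ 2) (hζ : IsPrimitiveRoot ζ p) (hζK : ζ ∈ K)
    (hpS : ∀ q : Nat.Primes, (q : ℕ) = p → q ∈ S) (hK : K.IsUnramifiedOutside S) :
    FiniteDimensional (ZMod p) (H1 ((ramLevels S).onSub K.fixingSubgroup)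
      (Representation.trivial (ZMod p) K.fixingSubgroup (ZMod p))) := by
  have hp : p.Prime := Fact.out
  have h := card_H1_ramLevels hp2 hζ hζK hpS hK
  have h1 : Nat.card (H1 ((ramLevels S).onSub K.fixingSubgroup)
      (Representation.trivial (ZMod p) K.fixingSubgroup (ZMod p))) ≠ 0 := by
    rw [h]
    refine mul_ne_zero (pow_ne_zero _ hp.ne_zero) ?_
    exact Nat.card_pos.ne'
  have := Nat.finite_of_card_ne_zero h1
  exact Module.Finite.of_finite

/-- (A1), dimension form: `dim H¹(G_{K,S}, ℤ/p) = [K:ℚ]/2 + #S(K) + c` where `p^c = |Cl_S(K)[p]|`. -/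
theorem exists_finrank_H1 (hp2 : p ≠ 2) (hζ : IsPrimitiveRoot ζ p) (hζK : ζ ∈ K)
    (hpS : ∀ q : Nat.Primes, (q : ℕ) = p → q ∈ S) (hK : K.IsUnramifiedOutside S) :
    ∃ c : ℕ, Nat.card (nsmulAddMonoidHom (α := ClT K (placesS S K)) p).ker = p ^ c ∧
      Module.finrank (ZMod p) (H1 ((ramLevels S).onSub K.fixingSubgroup)
      (Representation.trivial (ZMod p) K.fixingSubgroup (ZMod p))) =
      Module.finrank ℚ K / 2 + (placesS S K).ncard + c := by
  have hp : p.Prime := Fact.out
  have hfd := finiteDimensional_H1 hp2 hζ hζK hpS hK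
  have h := card_H1_ramLevels hp2 hζ hζK hpS hK
  have h1 := Module.natCard_eq_pow_finrank (K := ZMod p)
    (V := H1 ((ramLevels S).onSub K.fixingSubgroup)
      (Representation.trivial (ZMod p) K.fixingSubgroup (ZMod p)))
  rw [Nat.card_zmod] at h1
  rw [h1] at h
  set n := Module.finrank (ZMod p) (H1 ((ramLevels S).onSub K.fixingSubgroup)
      (Representation.trivial (ZMod p) K.fixingSubgroup (ZMod p)))
  obtain ⟨c, -, hc⟩ := (Nat.dvd_prime_pow hp).1 (Dvd.intro_left _ h.symm)
  refine ⟨c, hc, ?_⟩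
  rw [hc, ← pow_add] at h
  exact Nat.pow_right_injective hp.two_le h

end Fermat.Agent.H64
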