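import Mathlib
import Fermat.Agent.H56CYB1
import Fermat.Agent.H64A1

set_option autoImplicit false
set_option maxSynthPendingDepth 3
set_option linter.unusedSectionVars false

/-!
# S56, Euler characteristic: the lattice of `S`-units
-/

noncomputable section

open Module ExtCitation NumberField IsDedekindDomain
open Fermat.Agent.H55 Fermat.Agent.H77.Rep Fermat.Agent.H77.Rep.AddFun Fermat.Agent.H64
open Fermat.Agent.H47

namespace Fermat.Agent.H56.CYB

section NF

variable (S : Finset Nat.Primes) (K : Type) [Field K] [NumberField K]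

lemma valuation_natCast_eq_one {v : HeightOneSpectrum (𝓞 K)} {n : ℕ}
    (h : ((n : ℕ) : 𝓞 K) ∉ v.asIdeal) : v.valuation K (n : K) = 1 := by
  have h1 : v.valuation K (algebraMap (𝓞 K) K (n : 𝓞 K)) = 1 :=
    (HeightOneSpectrum.valuation_eq_one_iff_notMem (K := K) v).2 h
  rwa [map_natCast] at h1

lemma valuation_natCast_lt_one {v : HeightOneSpectrum (𝓞 K)} {n : ℕ}
    (h : ((n : ℕ) : 𝓞 K) ∈ v.asIdeal) : v.valuation K (n : K) < 1 := by
  have h1 : v.valuation K (algebraMap (𝓞 K) K (n : 𝓞 K)) < 1 :=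
    (HeightOneSpectrum.valuation_lt_one_iff_mem (K := K) v _).2 h
  rwa [map_natCast] at h1

lemma SInt_notMem {v : HeightOneSpectrum (𝓞 K)} (hv : v ∉ placesS S K) :
    ((SInt S : ℕ) : 𝓞 K) ∉ v.asIdeal := by
  intro h
  rw [SInt, Nat.cast_prod, v.isPrime.prod_mem_iff] at h
  exact hv h

lemma SInt_mem {v : HeightOneSpectrum (𝓞 K)} (hv : v ∈ placesS S K) :
    ((SInt S : ℕ) : 𝓞 K) ∈ v.asIdeal := by
  rw [SInt, Nat.cast_prod, v.isPrime.prod_mem_iff]
  exact hv

theorem ES_eq_unit : ES S K = (placesS S K).unit K := by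
  ext x
  rw [mem_unit_iff]
  constructor
  · rintro ⟨n, h1, h2⟩ v hv
    rw [ordHom_eq_zero_iff]
    have hN := valuation_natCast_eq_one K (SInt_notMem S K hv)
    have key : ∀ y : K, IsIntegral ℤ ((SInt S : K) ^ n * y) → v.valuation K y ≤ 1 := by
      intro y hy
      have h3 : v.valuation K ((SInt S : K) ^ n * y) ≤ 1 :=
        v.valuation_le_one (K := K) (⟨_, hy⟩ : 𝓞 K)
      rwa [map_mul, map_pow, hN, one_pow, one_mul] at h3
    apply le_antisymm (key _ h1)
    have h4 := key _ h2
    rw [Units.val_inv_eq_inv_val, map_inv₀] at h4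
    have h5 : v.valuation K (x : K) ≠ 0 := by simp
    exact (inv_le_one₀ (zero_lt_iff.2 h5)).1 h4
  · intro h
    -- a large power of `N` kills the denominators
    have hfin : (placesS S K).Finite := finite_placesS
    have key : ∀ x : Kˣ, (∀ v ∉ placesS S K, ordHom v (Additive.ofMul x) = 0) →
        ∃ n : ℕ, ∀ m ≥ n, IsIntegral ℤ ((SInt S : K) ^ m * (x : K)) := by
      intro x h
      have h1 : ∃ n : ℕ, ∀ v ∈ placesS S K, -(ordHom v (Additive.ofMul x)) ≤ n := by
        obtain ⟨B, hB⟩ := (hfin.image (fun v => -(ordHom v (Additive.ofMul x)))).bddAbove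
        refine ⟨B.toNat, fun v hv => ?_⟩
        exact (hB ⟨v, hv, rfl⟩).trans (Int.self_le_toNat B)
      obtain ⟨n, hn⟩ := h1
      refine ⟨n, fun m hm => ?_⟩
      have h2 : ∀ v : HeightOneSpectrum (𝓞 K), v.valuation K ((SInt S : K) ^ m * (x : K)) ≤ 1 := by
        intro v
        rw [map_mul, map_pow]
        by_cases hv : v ∈ placesS S K
        · have h3 := valuation_natCast_lt_one K (SInt_mem S K hv)
          have h4 : v.valuation K (SInt S : K) ≤ WithZero.exp (-1 : ℤ) := by
            have h5 : v.valuation K (SInt S : K) ≠ 0 := by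
              rw [Valuation.ne_zero_iff]
              exact Nat.cast_ne_zero.2 (SInt_ne_zero S)
            rw [← WithZero.exp_log h5, WithZero.exp_le_exp]
            rw [← WithZero.exp_log h5, ← WithZero.exp_zero, WithZero.exp_lt_exp] at h3
            omega
          calc (v.valuation K (SInt S : K)) ^ m * v.valuation K (x : K)
              ≤ (WithZero.exp (-1 : ℤ)) ^ m * v.valuation K (x : K) := by gcongr
            _ = WithZero.exp (-(m : ℤ) - ordHom v (Additive.ofMul x)) := by
                rw [valuation_eq_exp_ordHom, ← WithZero.exp_nsmul, ← WithZero.exp_add]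
                congr 1
                simp
                ring
            _ ≤ 1 := by
                rw [← WithZero.exp_zero, WithZero.exp_le_exp]
                have := hn v hv
                omega
        · rw [valuation_natCast_eq_one K (SInt_notMem S K hv), one_pow, one_mul]
          exact ((ordHom_eq_zero_iff v x).1 (h v hv)).le
      obtain ⟨a, ha⟩ := HeightOneSpectrum.mem_integers_of_valuation_le_one K _ h2
      rw [← ha]
      exact a.2
    obtain ⟨n, hn⟩ := key x h
    obtain ⟨m, hm⟩ := key x⁻¹ (fun v hv => by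
      rw [ofMul_inv, map_neg, h v hv, neg_zero])
    exact ⟨max n m, hn _ (le_max_left _ _), hm _ (le_max_right _ _)⟩

instance instFiniteES : Module.Finite ℤ (Additive (ES S K)) := by
  have : Finite (placesS S K) := finite_placesS
  rw [ES_eq_unit]
  infer_instance

theorem finrank_ES_add_one : finrank ℤ (Additive (ES S K)) + 1 =
    (placesS S K).ncard + Nat.card (InfinitePlace K) := by
  have : Finite (placesS S K) := finite_placesS
  rw [ES_eq_unit, finrank_additive_unit, Nat.card_coe_set_eq, Nat.card_eq_fintype_card,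
    ← H47.rank_add_one]
  ring

end NF

section Tors

variable {p : ℕ} [Fact p.Prime] (S : Finset Nat.Primes) {K : Type} [Field K] [NumberField K]
  [Algebra ℚ K]

theorem exists_torsData {ζ : K} (hζ : IsPrimitiveRoot ζ p) (χ : (K ≃ₐ[ℚ] K) →* (ZMod p)ˣ)
    (hχ : ∀ g : K ≃ₐ[ℚ] K, g ζ = ζ ^ ((χ g : ZMod p)).val) :
    ∃ (n : ℕ) (τ : Additive (ES S K)), TorsData (Additive (ES S K)) p n τ χ := by
  have hp : p.Prime := Fact.out
  have : NeZero p := ⟨hp.ne_zero⟩
  let E := Additive (ES S K)
  let T : Submodule ℤ E := Submodule.torsion ℤ E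
  have hT : Finite T := by
    apply Module.finite_of_fg_torsion
    rintro ⟨x, a, ha⟩
    exact ⟨a, Subtype.ext ha⟩
  let f : Multiplicative T →* K :=
    (Units.coeHom K).comp ((ES S K).subtype.comp
      (MonoidHom.mk' (fun x : Multiplicative T => ((x.toAdd : T) : E).toMul)
        (fun x y => rfl)))
  have hf : Function.Injective f := by
    intro x y h
    apply Multiplicative.toAdd.injective
    apply Subtype.ext
    apply Additive.toMul.injective
    apply Subtype.ext
    apply Units.ext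
    exact h
  have hcyc : IsCyclic (Multiplicative T) := isCyclic_of_injective_ringHom f hf
  obtain ⟨τ', hτ'⟩ := hcyc.exists_generator
  let τ : T := Multiplicative.toAdd τ'
  have hgen : ∀ x : T, ∃ a : ℤ, x = a • τ := by
    intro x
    obtain ⟨a, ha⟩ := hτ' (Multiplicative.ofAdd x)
    exact ⟨a, ha.symm⟩
  let n : ℕ := addOrderOf τ
  have hn : n ≠ 0 := (addOrderOf_pos τ).ne'
  have hnτ : n • (τ : E) = 0 := congrArg Subtype.val (addOrderOf_nsmul_eq_zero τ)
  have hord : ∀ a : ℤ, a • (τ : E) = 0 → (n : ℤ) ∣ a := by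
    intro a ha
    exact addOrderOf_dvd_iff_zsmul_eq_zero.2 (Subtype.ext ha)
  have hgen' : ∀ x : E, ∀ m : ℤ, m ≠ 0 → m • x = 0 → ∃ a : ℤ, x = a • (τ : E) := by
    intro x m hm hx
    obtain ⟨a, ha⟩ := hgen ⟨x, ⟨⟨m, mem_nonZeroDivisors_of_ne_zero hm⟩, hx⟩⟩
    exact ⟨a, congrArg Subtype.val ha⟩
  -- the root of unity
  have hζ0 : ζ ≠ 0 := hζ.ne_zero hp.ne_zero
  have hζint : IsIntegral ℤ ζ := hζ.isIntegral hp.pos
  let z : Kˣ := Units.mk0 ζ hζ0
  have hzinv : ((z⁻¹ : Kˣ) : K) = ζ ^ (p - 1) := by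
    have : z⁻¹ = z ^ (p - 1) := by
      rw [inv_eq_iff_mul_eq_one, ← pow_succ', Nat.sub_add_cancel hp.one_le]
      apply Units.ext
      exact hζ.pow_eq_one
    rw [this]; rfl
  let w : E := Additive.ofMul ⟨z, 0, by rw [pow_zero, one_mul]; exact hζint, by
    rw [pow_zero, one_mul, hzinv]; exact hζint.pow _⟩
  have hw : p • w = 0 := by
    apply Additive.toMul.injective
    apply Subtype.ext
    apply Units.ext
    exact hζ.pow_eq_one
  have hw0 : ∀ j : ℕ, j • w = 0 → p ∣ j := by
    intro j hj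
    have : ζ ^ j = 1 := by
      have h1 := congrArg (fun e : E => ((e.toMul : Kˣ) : K)) hj
      exact h1
    exact (hζ.pow_eq_one_iff_dvd j).1 this
  have hgw : ∀ g : K ≃ₐ[ℚ] K, g • w = ((χ g : ZMod p)).val • w := by
    intro g
    apply Additive.toMul.injective
    apply Subtype.ext
    apply Units.ext
    exact hχ g
  obtain ⟨b, hb⟩ := hgen' w p (Nat.cast_ne_zero.2 hp.ne_zero) (by rw [natCast_zsmul, hw])
  have hpn : p ∣ n := by
    apply hw0
    rw [hb, smul_comm, hnτ, smul_zero]
  refine ⟨n, τ, hn, hnτ, hord, hgen', hpn, fun g => ?_⟩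
  have h1 : (n : ℤ) • (g • (τ : E)) = 0 := by
    rw [← smul_comm, natCast_zsmul, hnτ, smul_zero]
  obtain ⟨c, hc⟩ := hgen' (g • (τ : E)) n (Nat.cast_ne_zero.2 hn) h1
  refine ⟨c, hc, ?_⟩
  have h2 : c • w = (((χ g : ZMod p)).val : ℤ) • w := by
    rw [natCast_zsmul, ← hgw, hb, smul_comm g b, hc, smul_comm]
  have h3 : (c - (((χ g : ZMod p)).val : ℤ)) • w = 0 := by
    rw [sub_smul, h2, sub_self]
  have h4 : (p : ℤ) ∣ c - (((χ g : ZMod p)).val : ℤ) := by
    have h5 : ((c - (((χ g : ZMod p)).val : ℤ)).natAbs) • w = 0 := by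
      rcases Int.natAbs_eq (c - (((χ g : ZMod p)).val : ℤ)) with h | h
      · rw [← natCast_zsmul, ← h, h3]
      · rw [← natCast_zsmul, ← neg_eq_zero, ← neg_smul, ← h, h3]
    exact Int.natCast_dvd.2 (hw0 _ h5)
  have h6 := (ZMod.intCast_eq_intCast_iff_dvd_sub (((χ g : ZMod p)).val : ℤ) c p).2 h4
  rw [← h6]
  simp

end Tors

section Fixed

variable (S : Finset Nat.Primes) {K F : IntermediateField ℚ (AlgebraicClosure ℚ)}

/-- inclusion of `S`-units -/
def ESincl (hle : F ≤ K) : Additive (ES S F) →+ Additive (ES S K) :=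
  MonoidHom.toAdditive (MonoidHom.codRestrict
    ((Units.map (IntermediateField.inclusion hle : F →* K)).comp (ES S F).subtype) (ES S K) (by
      rintro ⟨x, n, h1, h2⟩
      refine ⟨n, ?_, ?_⟩
      · have := map_isIntegral_int (IntermediateField.inclusion hle) h1
        simpa using this
      · have := map_isIntegral_int (IntermediateField.inclusion hle) h2
        simpa using this))

lemma coe_ESincl (hle : F ≤ K) (x : Additive (ES S F)) :
    ((((ESincl S hle x).toMul : Kˣ) : K) : AlgebraicClosure ℚ) = ((x.toMul : Fˣ) : F) := rfl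

theorem finrank_ker_ES (hle : F ≤ K) (g : K ≃ₐ[ℚ] K)
    (hF : ∀ x : K, g x = x ↔ (x : AlgebraicClosure ℚ) ∈ F) :
    finrank ℤ (LinearMap.ker (intRep (K ≃ₐ[ℚ] K) (Additive (ES S K)) g - 1)) =
      finrank ℤ (Additive (ES S F)) := by
  let f : Additive (ES S F) →ₗ[ℤ] LinearMap.ker
      (intRep (K ≃ₐ[ℚ] K) (Additive (ES S K)) g - 1) :=
    LinearMap.codRestrict _ (ESincl S hle).toIntLinearMap (by
      intro x
      rw [LinearMap.mem_ker, LinearMap.sub_apply, sub_eq_zero]
      apply Additive.toMul.injective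
      apply Subtype.ext
      apply Units.ext
      exact (hF _).2 (((x.toMul : Fˣ) : F)).2)
  refine (LinearEquiv.ofBijective f ⟨?_, ?_⟩).finrank_eq.symm
  · intro x y h
    apply Additive.toMul.injective
    apply Subtype.ext
    apply Units.ext
    apply Subtype.ext
    exact congrArg (fun z : LinearMap.ker (intRep (K ≃ₐ[ℚ] K) (Additive (ES S K)) g - 1) =>
      ((((z : Additive (ES S K)).toMul : Kˣ) : K) : AlgebraicClosure ℚ)) h
  · rintro ⟨x, hx⟩
    rw [LinearMap.mem_ker, LinearMap.sub_apply, sub_eq_zero] at hx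
    have hx' : g ((x.toMul : Kˣ) : K) = ((x.toMul : Kˣ) : K) :=
      congrArg (fun z : Additive (ES S K) => ((z.toMul : Kˣ) : K)) hx
    have hxF : (((x.toMul : Kˣ) : K) : AlgebraicClosure ℚ) ∈ F := (hF _).1 hx'
    have hx0 : (⟨_, hxF⟩ : F) ≠ 0 := by
      intro h
      have h2 : (((x.toMul : Kˣ) : K) : AlgebraicClosure ℚ) = 0 := congrArg Subtype.val h
      exact (x.toMul : Kˣ).ne_zero (Subtype.ext h2)
    let y : Fˣ := Units.mk0 ⟨_, hxF⟩ hx0
    have key : ∀ (z : F) (z' : K), (z : AlgebraicClosure ℚ) = z' → IsIntegral ℤ z' →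
        IsIntegral ℤ z := by
      intro z z' hz hz'
      have h3 : IsIntegral ℤ (K.val z') := map_isIntegral_int K.val hz'
      have h4 : IsIntegral ℤ (F.val z) := by
        have e : F.val z = K.val z' := hz
        rw [e]; exact h3
      let j : F →ₐ[ℤ] AlgebraicClosure ℚ := F.val.toRingHom.toIntAlgHom
      exact (isIntegral_algHom_iff j F.val.injective).1 h4
    obtain ⟨n, h1, h2⟩ := x.toMul.2
    refine ⟨Additive.ofMul ⟨y, n, key _ _ ?_ h1, key _ _ ?_ h2⟩, ?_⟩
    · push_cast
      rfl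
    · push_cast
      rfl
    · apply Subtype.ext
      apply Additive.toMul.injective
      apply Subtype.ext
      apply Units.ext
      rfl

end Fixed

end Fermat.Agent.H56.CYB
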