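import Mathlib
import Fermat.Agent.H56CYB2

set_option autoImplicit false
set_option maxSynthPendingDepth 3
set_option linter.unusedSectionVars false

/-!
# S56, Euler characteristic: the permutation lattice
-/

noncomputable section

open Module ExtCitation NumberField IsDedekindDomain
open Fermat.Agent.H55 Fermat.Agent.H77.Rep Fermat.Agent.H77.Rep.AddFun Fermat.Agent.H64
open Fermat.Agent.H47

namespace Fermat.Agent.H56.CYB

section Perm

variable {G : Type} [Group G]

/-- rank of the functions fixed by `g` -/
def fixRank (X : Type) [MulAction G X] (g : G) : ℕ :=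
  finrank ℤ (LinearMap.ker (permRep (1 : Representation ℤ G ℤ) X g - 1))

lemma mem_ker_permRep {X : Type} [MulAction G X] {g : G} {f : X → ℤ} :
    f ∈ LinearMap.ker (permRep (1 : Representation ℤ G ℤ) X g - 1) ↔ ∀ x, f (g⁻¹ • x) = f x := by
  rw [LinearMap.mem_ker, LinearMap.sub_apply, sub_eq_zero]
  constructor
  · intro h x
    exact congrFun h x
  · intro h
    funext x
    exact h x

lemma fixRank_sum (X Y : Type) [Finite X] [Finite Y] [MulAction G X] [MulAction G Y] (g : G) :
    fixRank (X ⊕ Y) g = fixRank X g + fixRank Y g := by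
  let e : LinearMap.ker (permRep (1 : Representation ℤ G ℤ) (X ⊕ Y) g - 1) ≃ₗ[ℤ]
      (LinearMap.ker (permRep (1 : Representation ℤ G ℤ) X g - 1) ×
        LinearMap.ker (permRep (1 : Representation ℤ G ℤ) Y g - 1)) :=
    { toFun := fun f => (⟨fun x => f.1 (Sum.inl x), mem_ker_permRep.2 fun x =>
          mem_ker_permRep.1 f.2 (Sum.inl x)⟩,
        ⟨fun x => f.1 (Sum.inr x), mem_ker_permRep.2 fun x =>
          mem_ker_permRep.1 f.2 (Sum.inr x)⟩)
      invFun := fun f => ⟨Sum.elim f.1.1 f.2.1, mem_ker_permRep.2 (by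
        rintro (x | x)
        · exact mem_ker_permRep.1 f.1.2 x
        · exact mem_ker_permRep.1 f.2.2 x)⟩
      map_add' := fun x y => rfl
      map_smul' := fun a x => rfl
      left_inv := fun f => by
        apply Subtype.ext
        funext x
        rcases x with x | x <;> rfl
      right_inv := fun x => rfl }
  rw [fixRank, e.finrank_eq, Module.finrank_prod]
  rfl

theorem exists_sum {ι : Type} (S : Finset ι) (Y : ι → Type) [∀ i, Finite (Y i)]
    [∀ i, MulAction G (Y i)] (Z : Type) [Finite Z] [MulAction G Z] (p : ℕ) [Fact p.Prime] :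
    ∃ (X : Type) (_ : Finite X) (_ : MulAction G X),
      (∀ g : G, fixRank X g = fixRank Z g + ∑ i ∈ S, fixRank (Y i) g) ∧
      ∀ Φ : AddFun p G, Φ.F (X → ZMod p) (permRep (1 : Representation (ZMod p) G (ZMod p)) X) =
        Φ.F (Z → ZMod p) (permRep (1 : Representation (ZMod p) G (ZMod p)) Z) +
        ∑ i ∈ S, Φ.F (Y i → ZMod p) (permRep (1 : Representation (ZMod p) G (ZMod p)) (Y i)) := by
  classical
  induction S using Finset.induction_on with
  | empty => exact ⟨Z, inferInstance, inferInstance, fun g => by simp, fun Φ => by simp⟩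
  | insert a S ha ih =>
    obtain ⟨X, h1, h2, h3, h4⟩ := ih
    refine ⟨X ⊕ Y a, inferInstance, inferInstance, fun g => ?_, fun Φ => ?_⟩
    · rw [fixRank_sum, h3, Finset.sum_insert ha]
      ring
    · have h5 := FN_sum Φ (1 : Representation (ZMod p) G (ZMod p)) X (Y a)
      unfold FN at h5
      rw [h5, h4, Finset.sum_insert ha]
      ring

end Perm

end Fermat.Agent.H56.CYB
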