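import Fermat.Agent.H77AddFun

/-!
# Artin's induction theorem for additive functions
-/

set_option autoImplicit false
set_option linter.style.haveILetI false
set_option linter.unusedSectionVars false

open Module Representation TensorProduct

namespace Fermat.Agent.H77.Rep

namespace AddFun

variable {p : ℕ}

/-- **LL'** with fixed ranks -/
theorem F_red_eq_of_finrank {G : Type*} [Group G] (Φ : AddFun p G) [Finite G] (hp : p ≠ 0)
    {A B : Type} [AddCommGroup A] [Module.Free ℤ A]
    [Module.Finite ℤ A] [AddCommGroup B] [Module.Free ℤ B] [Module.Finite ℤ B]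
    (ρ : Representation ℤ G A) (τ : Representation ℤ G B)
    (h : ∀ g, finrank ℤ (LinearMap.ker (ρ g - 1)) = finrank ℤ (LinearMap.ker (τ g - 1)))
    {M : Type} [AddCommGroup M] [Module (ZMod p) M] [Finite M]
    (r : Representation (ZMod p) G M) (π : A →+ M) (hπ : Function.Surjective π)
    (hker : ∀ x, π x = 0 ↔ ∃ y, x = p • y) (heq : ∀ g x, π (ρ g x) = r g (π x))
    {M' : Type} [AddCommGroup M'] [Module (ZMod p) M'] [Finite M']
    (r' : Representation (ZMod p) G M') (π' : B →+ M') (hπ' : Function.Surjective π')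
    (hker' : ∀ x, π' x = 0 ↔ ∃ y, x = p • y) (heq' : ∀ g x, π' (τ g x) = r' g (π' x)) :
    Φ.F M r = Φ.F M' r' :=
  Φ.F_red_eq_of_trace hp ρ τ (trace_eq_of_finrank_eq ρ τ h) r π hπ hker heq r' π' hπ' hker' heq'

section Twist

variable {G : Type*} [Group G] [Fact p.Prime] (Φ : AddFun p G) {N : Type} [AddCommGroup N]
  [Module (ZMod p) N] [Finite N] (ρN : Representation (ZMod p) G N)

theorem finite_tensor (N M : Type) [AddCommGroup N] [Module (ZMod p) N] [Finite N]
    [AddCommGroup M] [Module (ZMod p) M] [Finite M] : Finite (N ⊗[ZMod p] M) := by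
  have : Module.Finite (ZMod p) (N ⊗[ZMod p] M) := inferInstance
  exact Module.finite_of_finite (ZMod p)

/-- twisting an additive function by `N` -/
noncomputable def twist : AddFun p G where
  F M _ _ _ ρ := haveI := finite_tensor (p := p) N M; Φ.F (N ⊗[ZMod p] M) (ρN.tprod ρ)
  add := by
    intro A B C _ _ _ _ _ _ _ _ _ ρA ρB ρC f g hf hg hi hs he
    have := finite_tensor (p := p) N A
    have := finite_tensor (p := p) N B
    have := finite_tensor (p := p) N C
    refine Φ.add (ρN.tprod ρA) (ρN.tprod ρB) (ρN.tprod ρC) (f.lTensor N) (g.lTensor N) ?_ ?_ ?_ ?_ ?_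
    · intro σ a
      induction a using TensorProduct.induction_on with
      | zero => simp
      | tmul n a => simp [hf]
      | add x y hx hy => rw [map_add, map_add, hx, hy, map_add, map_add]
    · intro σ a
      induction a using TensorProduct.induction_on with
      | zero => simp
      | tmul n a => simp [hg]
      | add x y hx hy => rw [map_add, map_add, hx, hy, map_add, map_add]
    · exact Module.Flat.lTensor_preserves_injective_linearMap f hi
    · exact LinearMap.lTensor_surjective N hs
    · exact lTensor_exact N he hs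

end Twist

section Perm

variable {G : Type*} [Group G]

/-- functions on a `G`-set with values in a representation -/
def permRep {k N : Type*} [CommRing k] [AddCommGroup N] [Module k N] (ρN : Representation k G N)
    (X : Type*) [MulAction G X] : Representation k G (X → N) where
  toFun g :=
    { toFun := fun f x => ρN g (f (g⁻¹ • x))
      map_add' := fun f f' => by ext x; simp
      map_smul' := fun c f => by ext x; simp }
  map_one' := by
    ext f x
    simp
  map_mul' g h := by
    ext f x
    simp [mul_smul]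

theorem permRep_apply {k N : Type*} [CommRing k] [AddCommGroup N] [Module k N]
    (ρN : Representation k G N) (X : Type*) [MulAction G X] (g : G) (f : X → N) (x : X) :
    permRep ρN X g f x = ρN g (f (g⁻¹ • x)) := rfl

theorem trace_permRep (X : Type*) [Finite X] [MulAction G X] (g : G) :
    LinearMap.trace ℤ (X → ℤ) (permRep (1 : Representation ℤ G ℤ) X g) =
      Nat.card {x : X // g • x = x} := by
  classical
  have := Fintype.ofFinite X
  rw [LinearMap.trace_eq_matrix_trace ℤ (Pi.basisFun ℤ X), Matrix.trace]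
  have h1 : ∀ x : X, (LinearMap.toMatrix (Pi.basisFun ℤ X) (Pi.basisFun ℤ X)
      (permRep (1 : Representation ℤ G ℤ) X g)).diag x = if g • x = x then 1 else 0 := by
    intro x
    rw [Matrix.diag_apply, LinearMap.toMatrix_apply, Pi.basisFun_apply, Pi.basisFun_repr,
      permRep_apply]
    show (Pi.single x (1 : ℤ) : X → ℤ) (g⁻¹ • x) = _
    rw [Pi.single_apply]
    have : g⁻¹ • x = x ↔ g • x = x := by
      rw [inv_smul_eq_iff, eq_comm]
    simp only [this]
  rw [Finset.sum_congr rfl fun x _ => h1 x, Finset.sum_boole, Nat.card_eq_fintype_card,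
    Fintype.card_subtype]

end Perm

section Artin

variable {G : Type} [Group G] [Fact p.Prime] (Φ : AddFun p G) {N : Type} [AddCommGroup N]
  [Module (ZMod p) N] [Finite N] (ρN : Representation (ZMod p) G N)

/-- value on functions on a finite `G`-set -/
noncomputable def FN (X : Type) [Finite X] [MulAction G X] : ℤ := Φ.F (X → N) (permRep ρN X)

theorem FN_eq_twist (X : Type) [Finite X] [MulAction G X] :
    FN Φ ρN X = (twist Φ ρN).F (X → ZMod p) (permRep (1 : Representation (ZMod p) G (ZMod p)) X) := by
  classical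
  have := Fintype.ofFinite X
  have := finite_tensor (p := p) N (X → ZMod p)
  symm
  refine Φ.F_iso (ρA := ρN.tprod (permRep (1 : Representation (ZMod p) G (ZMod p)) X))
    (ρB := permRep ρN X)
    (TensorProduct.piScalarRight (ZMod p) (ZMod p) N X).toLinearMap ?_
    (TensorProduct.piScalarRight (ZMod p) (ZMod p) N X).bijective
  intro σ a
  induction a using TensorProduct.induction_on with
  | zero => simp
  | tmul n f =>
    ext x
    simp [permRep_apply, TensorProduct.piScalarRight_apply]
  | add x y hx hy => rw [map_add, map_add, hx, hy, map_add, map_add]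

theorem FN_congr [Finite G] {X Y : Type} [Finite X] [Finite Y] [MulAction G X] [MulAction G Y]
    (h : ∀ g : G, Nat.card {x : X // g • x = x} = Nat.card {y : Y // g • y = y}) :
    FN Φ ρN X = FN Φ ρN Y := by
  rw [FN_eq_twist, FN_eq_twist]
  have hp : p ≠ 0 := (Fact.out : p.Prime).ne_zero
  have hπ : ∀ (X : Type) [Finite X] [MulAction G X],
      Function.Surjective (((Int.castAddHom (ZMod p)).compLeft X : (X → ℤ) →+ (X → ZMod p))) := by
    intro X _ _ f
    refine ⟨fun x => (ZMod.intCast_surjective (f x)).choose, ?_⟩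
    ext x
    exact (ZMod.intCast_surjective (f x)).choose_spec
  have hker : ∀ (X : Type) [Finite X] [MulAction G X] (f : X → ℤ),
      ((Int.castAddHom (ZMod p)).compLeft X : (X → ℤ) →+ (X → ZMod p)) f = 0 ↔
        ∃ y, f = p • y := by
    intro X _ _ f
    constructor
    · intro hf
      have : ∀ x, ∃ y : ℤ, f x = p * y := by
        intro x
        have := congrFun hf x
        exact (ZMod.intCast_zmod_eq_zero_iff_dvd _ _).1 this
      choose y hy using this
      exact ⟨y, funext fun x => by rw [hy]; simp⟩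
    · rintro ⟨y, rfl⟩
      ext x
      show ((((p : ℕ) • y) x : ℤ) : ZMod p) = 0
      simp
  exact (twist Φ ρN).F_red_eq_of_trace hp (permRep (1 : Representation ℤ G ℤ) X)
    (permRep (1 : Representation ℤ G ℤ) Y) (fun g => by rw [trace_permRep, trace_permRep, h g])
    _ _ (hπ X) (hker X) (fun _ _ => rfl) _ _ (hπ Y) (hker Y) (fun _ _ => rfl)

theorem FN_empty (X : Type) [Finite X] [IsEmpty X] [MulAction G X] : FN Φ ρN X = 0 :=
  Φ.F_subsingleton _ inferInstance

theorem FN_punit (X : Type) [Unique X] [MulAction G X] : FN Φ ρN X = Φ.F N ρN := by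
  refine Φ.F_iso (LinearMap.proj default) (fun σ f => ?_) ⟨?_, ?_⟩
  · show ρN σ (f (σ⁻¹ • default)) = ρN σ (f default)
    rw [Subsingleton.elim (σ⁻¹ • (default : X)) default]
  · intro f f' h
    ext x
    rw [Subsingleton.elim x default]
    exact h
  · intro n
    exact ⟨fun _ => n, rfl⟩

/-- disjoint unions -/
instance sumAct {G X Y : Type*} [Monoid G] [MulAction G X] [MulAction G Y] :
    MulAction G (X ⊕ Y) where
  smul g := Sum.map (g • ·) (g • ·)
  one_smul x := by
    rcases x with x | x
    · exact congrArg Sum.inl (one_smul _ _)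
    · exact congrArg Sum.inr (one_smul _ _)
  mul_smul g h x := by
    rcases x with x | x
    · exact congrArg Sum.inl (mul_smul _ _ _)
    · exact congrArg Sum.inr (mul_smul _ _ _)

theorem smul_inl' {G X Y : Type*} [Monoid G] [MulAction G X] [MulAction G Y] (g : G) (x : X) :
    g • (Sum.inl x : X ⊕ Y) = Sum.inl (g • x) := rfl

theorem smul_inr' {G X Y : Type*} [Monoid G] [MulAction G X] [MulAction G Y] (g : G) (x : Y) :
    g • (Sum.inr x : X ⊕ Y) = Sum.inr (g • x) := rfl

theorem FN_sum (X Y : Type) [Finite X] [Finite Y] [MulAction G X] [MulAction G Y] :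
    FN Φ ρN (X ⊕ Y) = FN Φ ρN X + FN Φ ρN Y := by
  let f : (X → N) →ₗ[ZMod p] (X ⊕ Y → N) :=
    { toFun := fun u => Sum.elim u 0
      map_add' := fun u v => by ext (x | x) <;> simp
      map_smul' := fun c u => by ext (x | x) <;> simp }
  let g : (X ⊕ Y → N) →ₗ[ZMod p] (Y → N) :=
    { toFun := fun u => u ∘ Sum.inr
      map_add' := fun u v => rfl
      map_smul' := fun c u => rfl }
  refine Φ.add (permRep ρN X) (permRep ρN (X ⊕ Y)) (permRep ρN Y) f g ?_ ?_ ?_ ?_ ?_
  · intro σ u
    ext (x | x)
    · rfl
    · show (0 : N) = ρN σ 0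
      rw [map_zero]
  · intro σ u
    rfl
  · intro u v h
    ext x
    exact congrFun h (Sum.inl x)
  · intro v
    exact ⟨Sum.elim 0 v, rfl⟩
  · intro u
    constructor
    · intro h
      refine ⟨u ∘ Sum.inl, ?_⟩
      ext (x | x)
      · rfl
      · exact (congrFun h x).symm
    · rintro ⟨v, rfl⟩
      rfl

theorem card_fix_sum {X Y : Type} [Finite X] [Finite Y] [MulAction G X] [MulAction G Y] (g : G) :
    Nat.card {x : X ⊕ Y // g • x = x} =
      Nat.card {x : X // g • x = x} + Nat.card {y : Y // g • y = y} := by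
  rw [← Nat.card_sum]
  refine Nat.card_congr
    { toFun := fun z => match z with
        | ⟨Sum.inl x, h⟩ => Sum.inl ⟨x, Sum.inl_injective h⟩
        | ⟨Sum.inr x, h⟩ => Sum.inr ⟨x, Sum.inr_injective h⟩
      invFun := fun z => match z with
        | Sum.inl x => ⟨Sum.inl x.1, congrArg Sum.inl x.2⟩
        | Sum.inr x => ⟨Sum.inr x.1, congrArg Sum.inr x.2⟩
      left_inv := by rintro ⟨x | x, h⟩ <;> rfl
      right_inv := by rintro (x | x) <;> rfl }

/-- a finite set with trivial action -/
def Triv (n : ℕ) : Type := Fin n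

instance (n : ℕ) : Finite (Triv n) := inferInstanceAs (Finite (Fin n))

instance trivAct (G : Type*) [Monoid G] (n : ℕ) : MulAction G (Triv n) where
  smul _ x := x
  one_smul _ := rfl
  mul_smul _ _ _ := rfl

theorem card_fix_triv (n : ℕ) (g : G) : Nat.card {x : Triv n // g • x = x} = n := by
  have : {x : Triv n // g • x = x} ≃ Fin n :=
    { toFun := fun x => x.1
      invFun := fun x => ⟨x, rfl⟩
      left_inv := fun _ => rfl
      right_inv := fun _ => rfl }
  rw [Nat.card_congr this, Nat.card_eq_fintype_card, Fintype.card_fin]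

theorem FN_triv [Finite G] (n : ℕ) : FN Φ ρN (Triv n) = n * Φ.F N ρN := by
  induction n with
  | zero =>
    have : IsEmpty (Triv 0) := inferInstanceAs (IsEmpty (Fin 0))
    rw [FN_empty]
    simp
  | succ n ih =>
    have : Unique (Triv 1) := inferInstanceAs (Unique (Fin 1))
    have h : FN Φ ρN (Triv (n + 1)) = FN Φ ρN (Triv n ⊕ Triv 1) := by
      apply FN_congr
      intro g
      rw [card_fix_sum, card_fix_triv, card_fix_triv, card_fix_triv]
    rw [h, FN_sum, ih, FN_punit]
    push_cast
    ring

/-- class functions realised by `G`-sets on which `FN` vanishes -/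
def Good (θ : G → ℤ) : Prop :=
  ∃ (X Y : Type) (_ : Finite X) (_ : Finite Y) (_ : MulAction G X) (_ : MulAction G Y),
    FN Φ ρN X = 0 ∧ FN Φ ρN Y = 0 ∧
      ∀ g : G, (Nat.card {x : X // g • x = x} : ℤ) - Nat.card {y : Y // g • y = y} = θ g

variable {Φ ρN}

theorem Good.zero : Good Φ ρN (0 : G → ℤ) := by
  have : IsEmpty (Triv 0) := inferInstanceAs (IsEmpty (Fin 0))
  exact ⟨Triv 0, Triv 0, inferInstance, inferInstance, inferInstance, inferInstance,
    FN_empty _ _ _, FN_empty _ _ _, fun g => by simp⟩

theorem Good.add {θ θ' : G → ℤ} (h : Good Φ ρN θ) (h' : Good Φ ρN θ') : Good Φ ρN (θ + θ') := by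
  obtain ⟨X, Y, _, _, _, _, hX, hY, hθ⟩ := h
  obtain ⟨X', Y', _, _, _, _, hX', hY', hθ'⟩ := h'
  refine ⟨X ⊕ X', Y ⊕ Y', inferInstance, inferInstance, inferInstance, inferInstance,
    by rw [FN_sum, hX, hX', add_zero], by rw [FN_sum, hY, hY', add_zero], fun g => ?_⟩
  rw [card_fix_sum, card_fix_sum, Pi.add_apply, ← hθ, ← hθ']
  push_cast
  ring

theorem Good.neg {θ : G → ℤ} (h : Good Φ ρN θ) : Good Φ ρN (-θ) := by
  obtain ⟨X, Y, _, _, _, _, hX, hY, hθ⟩ := h
  refine ⟨Y, X, inferInstance, inferInstance, inferInstance, inferInstance, hY, hX, fun g => ?_⟩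
  rw [Pi.neg_apply, ← hθ]
  ring

theorem Good.sum {ι : Type*} (s : Finset ι) {θ : ι → G → ℤ} (h : ∀ i ∈ s, Good Φ ρN (θ i)) :
    Good Φ ρN (∑ i ∈ s, θ i) := by
  classical
  induction s using Finset.induction_on with
  | empty => exact Good.zero
  | insert a s ha ih =>
    rw [Finset.sum_insert ha]
    exact (h a (Finset.mem_insert_self a s)).add (ih fun i hi => h i (Finset.mem_insert_of_mem hi))

theorem Good.nsmul {θ : G → ℤ} (h : Good Φ ρN θ) (n : ℕ) : Good Φ ρN (n • θ) := by
  have : n • θ = ∑ _i ∈ Finset.range n, θ := by simp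
  rw [this]
  exact Good.sum _ fun _ _ => h

/-- the number of `x` with `⟨x⁻¹ g x⟩ = C` -/
noncomputable def eC (C : Subgroup G) (g : G) : ℤ :=
  Nat.card {x : G // Subgroup.zpowers (x⁻¹ * g * x) = C}

theorem sum_eC [Finite G] (C : Subgroup G) [Fintype {D : Subgroup G // D ≤ C}] (g : G) :
    ∑ D : {D : Subgroup G // D ≤ C}, eC D.1 g = Nat.card {x : G // x⁻¹ * g * x ∈ C} := by
  classical
  unfold eC
  rw [← Nat.cast_sum, ← Nat.card_sigma]
  congr 1
  refine Nat.card_congr
    { toFun := fun z => ⟨z.2.1, ?_⟩
      invFun := fun x => ⟨⟨Subgroup.zpowers (x.1⁻¹ * g * x.1), ?_⟩, ⟨x.1, rfl⟩⟩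
      left_inv := ?_
      right_inv := fun x => rfl }
  · have h1 := z.1.2
    have h2 := z.2.2
    exact h1 (h2.le (Subgroup.mem_zpowers _))
  · rw [Subgroup.zpowers_le]
    exact x.2
  · rintro ⟨⟨D, hD⟩, ⟨x, hx⟩⟩
    simp only at hx
    subst hx
    rfl

theorem card_fix_quot [Finite G] (C : Subgroup G) (g : G) :
    Nat.card C * Nat.card {x : G ⧸ C // g • x = x} = Nat.card {x : G // x⁻¹ * g * x ∈ C} := by
  let t : Set (G ⧸ C) := {x | g • x = x}
  have h1 := Nat.card_congr (QuotientGroup.preimageMkEquivSubgroupProdSet C t)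
  rw [Nat.card_prod] at h1
  have h2 : Nat.card {x : G ⧸ C // g • x = x} = Nat.card t := rfl
  rw [h2, ← h1]
  refine Nat.card_congr (Equiv.subtypeEquivRight fun x => ?_)
  show g • (QuotientGroup.mk x : G ⧸ C) = QuotientGroup.mk x ↔ _
  rw [← QuotientGroup.mk_mul_of_mem x (one_mem C)]
  rw [MulAction.Quotient.smul_mk, eq_comm, QuotientGroup.eq]
  simp [mul_assoc]

/-- **Artin induction** for additive functions. -/
theorem F_eq_zero_of_cyclic [Finite G]
    (hC : ∀ C : Subgroup G, IsCyclic C → FN Φ ρN (G ⧸ C) = 0) : Φ.F N ρN = 0 := by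
  classical
  have : Fintype G := Fintype.ofFinite G
  have hgood : ∀ C : Subgroup G, Good Φ ρN (eC C) := by
    intro C
    induction hn : Nat.card C using Nat.strong_induction_on generalizing C with
    | _ n ih =>
      by_cases hcyc : IsCyclic C
      · have hf : Good Φ ρN (fun g => (Nat.card {x : G ⧸ C // g • x = x} : ℤ)) := by
          have : IsEmpty (Triv 0) := inferInstanceAs (IsEmpty (Fin 0))
          exact ⟨G ⧸ C, Triv 0, inferInstance, inferInstance, inferInstance, inferInstance,
            hC C hcyc, FN_empty _ _ _, fun g => by simp⟩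
        have key : eC C = (Nat.card C) • (fun g : G => (Nat.card {x : G ⧸ C // g • x = x} : ℤ)) +
            -(∑ D ∈ (Finset.univ : Finset {D : Subgroup G // D ≤ C}).erase ⟨C, le_rfl⟩, eC D.1) := by
          funext g
          have h1 := sum_eC C g
          rw [← card_fix_quot, ← Finset.add_sum_erase _ _ (Finset.mem_univ ⟨C, le_rfl⟩)] at h1
          rw [Pi.add_apply, Pi.neg_apply, Finset.sum_apply]
          simp only [Pi.smul_apply, nsmul_eq_mul]
          push_cast at h1
          linear_combination h1
        rw [key]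
        refine (hf.nsmul _).add (Good.neg (Good.sum _ fun D hD => ?_))
        have hlt : D.1 < C := by
          refine lt_of_le_of_ne D.2 fun h => ?_
          exact (Finset.mem_erase.1 hD).1 (Subtype.ext h)
        refine ih (Nat.card D.1) ?_ D.1 rfl
        rw [← hn]
        exact Set.Finite.card_lt_card (Set.toFinite _) hlt
      · have : eC C = (0 : G → ℤ) := by
          funext g
          unfold eC
          have : IsEmpty {x : G // Subgroup.zpowers (x⁻¹ * g * x) = C} := by
            refine ⟨fun x => hcyc ?_⟩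
            rw [← x.2]
            infer_instance
          simp
        rw [this]
        exact Good.zero
  have htop : Good Φ ρN (fun _ => (Nat.card G : ℤ)) := by
    have h1 : (fun _ : G => (Nat.card G : ℤ)) = ∑ D : {D : Subgroup G // D ≤ ⊤}, eC D.1 := by
      funext g
      rw [Finset.sum_apply, sum_eC]
      congr 1
      exact Nat.card_congr ((Equiv.subtypeUnivEquiv fun x => trivial).symm)
    rw [h1]
    exact Good.sum _ fun D _ => hgood D.1
  obtain ⟨X, Y, _, _, _, _, hX, hY, hθ⟩ := htop
  have h2 : FN Φ ρN X = FN Φ ρN (Triv (Nat.card G) ⊕ Y) := by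
    apply FN_congr
    intro g
    rw [card_fix_sum, card_fix_triv]
    have := hθ g
    beta_reduce at this
    omega
  rw [hX, FN_sum, hY, add_zero, FN_triv] at h2
  have h3 : (Nat.card G : ℤ) ≠ 0 := Nat.cast_ne_zero.2 Nat.card_pos.ne'
  exact (mul_eq_zero.1 h2.symm).resolve_left h3

end Artin

end AddFun

end Fermat.Agent.H77.Rep
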