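import Mathlib
import Fermat.Agent.H55Defs
import Fermat.Agent.H77Artin
import Fermat.Prelude.Def_GaloisRep_ComplexConjugation

set_option autoImplicit false

/-!
# Infinite places as double cosets (helper76, job CY-R3 of S56)
-/

noncomputable section

open ExtCitation Fermat.Agent.H55

namespace Fermat.Agent.H76

local notation "Qb" => AlgebraicClosure ℚ

section Inf

lemma isAlgebraicQb : Algebra.IsAlgebraic ℚ (AlgebraicClosure ℚ) :=
  AlgebraicClosure.isAlgebraic ℚ

lemma normalQb : Normal ℚ (AlgebraicClosure ℚ) := by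
  have := isAlgebraicQb
  have : IsAlgClosure ℚ (AlgebraicClosure ℚ) := ⟨inferInstance, inferInstance⟩
  exact IsAlgClosure.normal ℚ (AlgebraicClosure ℚ)

variable (F : IntermediateField ℚ (AlgebraicClosure ℚ))

/-- the embedding of `F` attached to `σ` -/
def embOf (σ : Qb ≃ₐ[ℚ] Qb) : F →+* ℂ :=
  (complexEmbedding : Qb →+* ℂ).comp ((σ : Qb →+* Qb).comp (algebraMap F Qb))

lemma embOf_apply (σ : Qb ≃ₐ[ℚ] Qb) (x : F) : embOf F σ x = complexEmbedding (σ (x : Qb)) := rfl

lemma embOf_mul_of_mem {σ u : Qb ≃ₐ[ℚ] Qb} (hu : u ∈ F.fixingSubgroup) :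
    embOf F (σ * u) = embOf F σ := by
  ext x
  rw [embOf_apply, embOf_apply, AlgEquiv.mul_apply]
  rw [(IntermediateField.mem_fixingSubgroup_iff F u).mp hu x x.2]

lemma embOf_conj_mul (σ : Qb ≃ₐ[ℚ] Qb) :
    embOf F (complexConjugation * σ) = NumberField.ComplexEmbedding.conjugate (embOf F σ) := by
  ext x
  rw [embOf_apply, AlgEquiv.mul_apply, complexEmbedding_complexConjugation,
    NumberField.ComplexEmbedding.conjugate_coe_eq, embOf_apply]

lemma eq_mul_of_embOf_eq {σ τ : Qb ≃ₐ[ℚ] Qb} (h : embOf F σ = embOf F τ) :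
    ∃ u ∈ F.fixingSubgroup, σ * u = τ := by
  refine ⟨σ⁻¹ * τ, ?_, by group⟩
  rw [IntermediateField.mem_fixingSubgroup_iff]
  intro x hx
  have h1 := DFunLike.congr_fun h ⟨x, hx⟩
  rw [embOf_apply, embOf_apply] at h1
  have h2 : σ x = τ x := complexEmbedding.injective h1
  rw [AlgEquiv.mul_apply, ← h2]
  exact σ.symm_apply_apply x

lemma mk_embOf_zpow (k : ℤ) (σ : Qb ≃ₐ[ℚ] Qb) :
    NumberField.InfinitePlace.mk (embOf F (complexConjugation ^ k * σ)) =
      NumberField.InfinitePlace.mk (embOf F σ) := by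
  have h2 : complexConjugation ^ (2 : ℤ) = 1 := by exact_mod_cast complexConjugation_sq
  rcases Int.even_or_odd' k with ⟨m, rfl | rfl⟩
  · rw [zpow_mul, h2, one_zpow, one_mul]
  · rw [zpow_add, zpow_mul, h2, one_zpow, one_mul, zpow_one, embOf_conj_mul,
      NumberField.InfinitePlace.mk_conjugate_eq]

/-- the place of `F` attached to a double coset -/
def toInfPlace : Places archimedeanDecomposition.subtype F.fixingSubgroup →
    NumberField.InfinitePlace F :=
  Quotient.lift (fun a : (Qb ≃ₐ[ℚ] Qb) ⧸ F.fixingSubgroup =>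
    Quotient.liftOn' a (fun σ => NumberField.InfinitePlace.mk (embOf F σ)) (by
      intro σ τ h
      rw [QuotientGroup.leftRel_apply] at h
      have : τ = σ * (σ⁻¹ * τ) := by group
      rw [this, embOf_mul_of_mem F h])) (by
    intro a b h
    obtain ⟨x, rfl⟩ := h
    induction a using Quotient.inductionOn with
    | h σ =>
      obtain ⟨k, hk⟩ := Subgroup.mem_zpowers_iff.mp x.2
      change NumberField.InfinitePlace.mk (embOf F σ) =
        NumberField.InfinitePlace.mk (embOf F ((x : Qb ≃ₐ[ℚ] Qb) * σ))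
      rw [← hk, mk_embOf_zpow])

lemma toInfPlace_place (σ : Qb ≃ₐ[ℚ] Qb) :
    toInfPlace F (place archimedeanDecomposition.subtype F.fixingSubgroup σ) =
      NumberField.InfinitePlace.mk (embOf F σ) := rfl

lemma toInfPlace_injective : Function.Injective (toInfPlace F) := by
  intro a b h
  obtain ⟨σ, rfl⟩ := place_surjective _ _ a
  obtain ⟨τ, rfl⟩ := place_surjective _ _ b
  rw [toInfPlace_place, toInfPlace_place, NumberField.InfinitePlace.mk_eq_iff] at h
  rw [place_eq_iff]
  rcases h with h | h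
  · obtain ⟨u, hu, h1⟩ := eq_mul_of_embOf_eq F h
    exact ⟨1, u, hu, by rw [map_one, one_mul, h1]⟩
  · rw [← embOf_conj_mul] at h
    obtain ⟨u, hu, h1⟩ := eq_mul_of_embOf_eq F h
    exact ⟨⟨complexConjugation, Subgroup.mem_zpowers _⟩, u, hu, h1⟩

lemma toInfPlace_surjective [NumberField F] : Function.Surjective (toInfPlace F) := by
  intro w
  let φ : F →+* ℂ := w.embedding
  let _ : Algebra F ℂ := φ.toAlgebra
  let _ : Algebra Qb ℂ := complexEmbedding.toRingHom.toAlgebra
  have _ := isAlgebraicQb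
  have _ := normalQb
  have _ : IsScalarTower ℚ Qb ℂ := inferInstance
  have _ : Algebra.IsAlgebraic F Qb := Algebra.IsAlgebraic.tower_top (K := ℚ) F
  let ψ : Qb →ₐ[F] ℂ := IsAlgClosed.lift
  let ψ' : Qb →ₐ[ℚ] ℂ := (ψ : Qb →+* ℂ).toRatAlgHom
  let σ : Qb ≃ₐ[ℚ] Qb := AlgHom.restrictNormal' ψ' Qb
  have hσ : ∀ x : Qb, complexEmbedding (σ x) = ψ x := fun x =>
    AlgHom.restrictNormal_commutes ψ' Qb x
  refine ⟨place _ _ σ, ?_⟩
  rw [toInfPlace_place, ← NumberField.InfinitePlace.mk_embedding w]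
  congr 1
  ext x
  rw [embOf_apply, hσ]
  exact ψ.commutes x

/-- **R3**: the number of double cosets is the number of infinite places -/
theorem nPl_archimedean [NumberField F] :
    nPl archimedeanDecomposition.subtype F.fixingSubgroup =
      Nat.card (NumberField.InfinitePlace F) :=
  Nat.card_eq_of_bijective _ ⟨toInfPlace_injective F, toInfPlace_surjective F⟩

end Inf

/-! ## orbits -/

section Orbits

open Fermat.Agent.H77.Rep.AddFun

variable {G : Type*} [Group G]

/-- functions constant on the orbits of `g` -/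
def orbitFunEquiv (X : Type*) [MulAction G X] (g : G) :
    (MulAction.orbitRel.Quotient (Subgroup.zpowers g) X → ℤ) ≃ₗ[ℤ]
      LinearMap.ker (permRep (1 : Representation ℤ G ℤ) X g - 1) where
  toFun f := ⟨fun x => f (Quotient.mk'' x), by
    rw [LinearMap.mem_ker, LinearMap.sub_apply, sub_eq_zero]
    ext x
    rw [permRep_apply]
    change f (Quotient.mk'' (g⁻¹ • x)) = f (Quotient.mk'' x)
    congr 1
    apply Quotient.sound
    exact ⟨⟨g⁻¹, inv_mem (Subgroup.mem_zpowers g)⟩, rfl⟩⟩
  map_add' f f' := rfl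
  map_smul' c f := rfl
  invFun f := Quotient.lift (f : X → ℤ) (by
    have h1 : ∀ x : X, (f : X → ℤ) (g⁻¹ • x) = (f : X → ℤ) x := by
      intro x
      have := f.2
      rw [LinearMap.mem_ker, LinearMap.sub_apply, sub_eq_zero] at this
      exact congrFun this x
    have h2 : ∀ x : X, (f : X → ℤ) (g • x) = (f : X → ℤ) x := by
      intro x
      rw [← h1 (g • x), inv_smul_smul]
    have h3 : ∀ (k : ℤ) (x : X), (f : X → ℤ) (g ^ k • x) = (f : X → ℤ) x := by
      intro k
      induction k using Int.induction_on with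
      | zero => intro x; rw [zpow_zero, one_smul]
      | succ n ih => intro x; rw [zpow_add_one, mul_smul, ih, h2]
      | pred n ih => intro x; rw [zpow_sub_one, mul_smul, ih, h1]
    rintro a b ⟨⟨z, hz⟩, hzb⟩
    obtain ⟨k, rfl⟩ := Subgroup.mem_zpowers_iff.mp hz
    change g ^ k • b = a at hzb
    rw [← hzb, h3])
  left_inv f := by
    ext x
    induction x using Quotient.inductionOn with
    | h x => rfl
  right_inv f := by
    apply Subtype.ext
    rfl

/-- the rank of the invariants of a permutation representation is the number of orbits -/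
theorem finrank_ker_permRep (X : Type*) [Finite X] [MulAction G X] (g : G) :
    Module.finrank ℤ (LinearMap.ker (permRep (1 : Representation ℤ G ℤ) X g - 1)) =
      Nat.card (MulAction.orbitRel.Quotient (Subgroup.zpowers g) X) := by
  classical
  have : Finite (MulAction.orbitRel.Quotient (Subgroup.zpowers g) X) := Quotient.finite _
  have := Fintype.ofFinite (MulAction.orbitRel.Quotient (Subgroup.zpowers g) X)
  rw [← (orbitFunEquiv X g).finrank_eq, Module.finrank_pi, Nat.card_eq_fintype_card]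

variable {GG G : Type} [Group GG] [Group G] (π : GG →* G) (D H : Subgroup GG) (g : G)

/-- the orbit attached to a double coset -/
def toOrbit (hH : H.map π = Subgroup.zpowers g) :
    Places D.subtype H → MulAction.orbitRel.Quotient (Subgroup.zpowers g) (G ⧸ D.map π) :=
  Quotient.lift (fun a : GG ⧸ H =>
    Quotient.liftOn' a (fun σ => (Quotient.mk'' (((π σ)⁻¹ : G) : G ⧸ D.map π) :
      MulAction.orbitRel.Quotient (Subgroup.zpowers g) (G ⧸ D.map π))) (by
      intro σ τ h
      rw [QuotientGroup.leftRel_apply] at h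
      apply Quotient.sound
      refine ⟨⟨π (σ⁻¹ * τ), ?_⟩, ?_⟩
      · rw [← hH]; exact Subgroup.mem_map_of_mem π h
      · change ((π (σ⁻¹ * τ) * (π τ)⁻¹ : G) : G ⧸ D.map π) = (((π σ)⁻¹ : G) : G ⧸ D.map π)
        congr 1
        rw [map_mul, map_inv]; group)) (by
    intro a b h
    obtain ⟨x, rfl⟩ := h
    induction a using Quotient.inductionOn with
    | h σ =>
      change (Quotient.mk'' (((π σ)⁻¹ : G) : G ⧸ D.map π) :
        MulAction.orbitRel.Quotient (Subgroup.zpowers g) (G ⧸ D.map π)) =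
        Quotient.mk'' (((π ((x : GG) * σ))⁻¹ : G) : G ⧸ D.map π)
      congr 1
      rw [QuotientGroup.eq, map_mul, mul_inv_rev, inv_inv, ← mul_assoc, mul_inv_cancel, one_mul,
        ← map_inv]
      exact Subgroup.mem_map_of_mem π (inv_mem x.2))

lemma toOrbit_place (hH : H.map π = Subgroup.zpowers g) (σ : GG) :
    toOrbit π D H g hH (place D.subtype H σ) =
      (Quotient.mk'' (((π σ)⁻¹ : G) : G ⧸ D.map π) :
        MulAction.orbitRel.Quotient (Subgroup.zpowers g) (G ⧸ D.map π)) := rfl

lemma toOrbit_injective (hker : π.ker ≤ H) (hH : H.map π = Subgroup.zpowers g) :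
    Function.Injective (toOrbit π D H g hH) := by
  intro a b h
  obtain ⟨σ, rfl⟩ := place_surjective _ _ a
  obtain ⟨τ, rfl⟩ := place_surjective _ _ b
  rw [toOrbit_place, toOrbit_place] at h
  obtain ⟨⟨z, hz⟩, hz2⟩ := Quotient.exact h
  change ((z * (π τ)⁻¹ : G) : G ⧸ D.map π) = (((π σ)⁻¹ : G) : G ⧸ D.map π) at hz2
  rw [← hH] at hz
  obtain ⟨u, hu, rfl⟩ := hz
  rw [QuotientGroup.eq] at hz2
  obtain ⟨d, hd, hd2⟩ := hz2
  rw [place_eq_iff]
  -- π d = π τ * (π u)⁻¹ * (π σ)⁻¹
  refine ⟨⟨d, hd⟩, σ⁻¹ * d⁻¹ * τ, ?_, by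
    change d * σ * (σ⁻¹ * d⁻¹ * τ) = τ
    group⟩
  have h1 : π (σ⁻¹ * d⁻¹ * τ * u⁻¹) = 1 := by
    rw [map_mul, map_mul, map_mul, map_inv, map_inv, map_inv, hd2]
    group
  have h2 : σ⁻¹ * d⁻¹ * τ * u⁻¹ ∈ H := hker h1
  have h3 := mul_mem h2 hu
  rwa [inv_mul_cancel_right] at h3

lemma toOrbit_surjective (hπ : Function.Surjective π) (hH : H.map π = Subgroup.zpowers g) :
    Function.Surjective (toOrbit π D H g hH) := by
  intro x
  induction x using Quotient.inductionOn with
  | h x =>
    induction x using Quotient.inductionOn with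
    | h y =>
      obtain ⟨σ, hσ⟩ := hπ y⁻¹
      refine ⟨place D.subtype H σ, ?_⟩
      rw [toOrbit_place, hσ, inv_inv]

/-- **R4**, group theoretic part -/
theorem card_orbits_eq_nPl (hπ : Function.Surjective π) (hker : π.ker ≤ H)
    (hH : H.map π = Subgroup.zpowers g) :
    Nat.card (MulAction.orbitRel.Quotient (Subgroup.zpowers g) (G ⧸ D.map π)) =
      nPl D.subtype H :=
  (Nat.card_eq_of_bijective _ ⟨toOrbit_injective π D H g hker hH,
    toOrbit_surjective π D H g hπ hH⟩).symm

/-- **R4** -/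
theorem finrank_ker_permRep_eq_nPl [Finite G] (hπ : Function.Surjective π) (hker : π.ker ≤ H)
    (hH : H.map π = Subgroup.zpowers g) :
    Module.finrank ℤ (LinearMap.ker
      (permRep (1 : Representation ℤ G ℤ) (G ⧸ D.map π) g - 1)) = nPl D.subtype H := by
  have : Finite (G ⧸ D.map π) := Quotient.finite _
  exact (finrank_ker_permRep (G ⧸ D.map π) g).trans (card_orbits_eq_nPl π D H g hπ hker hH)

end Orbits

section Galois

open Fermat.Agent.H77.Rep.AddFun

variable (K : IntermediateField ℚ (AlgebraicClosure ℚ)) [NumberField K] [Normal ℚ K]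

/-- **R4** for the Galois group of a normal number field -/
theorem finrank_ker_permRep_galois (D H : Subgroup (Qb ≃ₐ[ℚ] Qb)) (g : K ≃ₐ[ℚ] K)
    (hU : K.fixingSubgroup ≤ H)
    (hH : H.map (AlgEquiv.restrictNormalHom K) = Subgroup.zpowers g) :
    Module.finrank ℤ (LinearMap.ker (permRep (1 : Representation ℤ (K ≃ₐ[ℚ] K) ℤ)
      ((K ≃ₐ[ℚ] K) ⧸ D.map (AlgEquiv.restrictNormalHom K)) g - 1)) = nPl D.subtype H := by
  have _ := normalQb
  refine finrank_ker_permRep_eq_nPl (AlgEquiv.restrictNormalHom K) D H g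
    (AlgEquiv.restrictNormalHom_surjective _) ?_ hH
  intro x hx
  apply hU
  rw [IntermediateField.mem_fixingSubgroup_iff]
  intro y hy
  have h1 := AlgEquiv.restrictNormal_commutes x K ⟨y, hy⟩
  have h2 : AlgEquiv.restrictNormal x K = 1 := hx
  rw [h2] at h1
  exact h1.symm

/-- the number of orbits of `g` is the number of infinite places of the fixed field -/
theorem finrank_ker_permRep_arch (F : IntermediateField ℚ (AlgebraicClosure ℚ)) [NumberField F]
    (g : K ≃ₐ[ℚ] K) (hU : K.fixingSubgroup ≤ F.fixingSubgroup)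
    (hH : F.fixingSubgroup.map (AlgEquiv.restrictNormalHom K) = Subgroup.zpowers g) :
    Module.finrank ℤ (LinearMap.ker (permRep (1 : Representation ℤ (K ≃ₐ[ℚ] K) ℤ)
      ((K ≃ₐ[ℚ] K) ⧸ archimedeanDecomposition.map (AlgEquiv.restrictNormalHom K)) g - 1)) =
      Nat.card (NumberField.InfinitePlace F) := by
  rw [finrank_ker_permRep_galois K archimedeanDecomposition F.fixingSubgroup g hU hH,
    nPl_archimedean]

end Galois

end Fermat.Agent.H76
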