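import Mathlib
import Fermat.Agent.H56CYB3
import Fermat.Agent.H76Places
import Fermat.Agent.H54PadicGal

set_option autoImplicit false
set_option maxSynthPendingDepth 3
set_option linter.unusedSectionVars false

/-!
# S56, Euler characteristic: the `S`-units as a Galois module
-/

noncomputable section

open Module ExtCitation NumberField IsDedekindDomain
open Fermat.Agent.H55 Fermat.Agent.H77.Rep Fermat.Agent.H77.Rep.AddFun Fermat.Agent.H64
open Fermat.Agent.H47 Fermat.Agent.H54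

namespace Fermat.Agent.H56.CYB

lemma nPl_congr {G H : Type} [Group G] [Group H] (f : H →* G) (D U : Subgroup G)
    (h : f.range = D) : nPl f U = nPl D.subtype U := by
  subst h
  have : placeSetoid f U = placeSetoid f.range.subtype U := by
    ext a b
    constructor
    · rintro ⟨x, hx⟩
      exact ⟨⟨f x, x, rfl⟩, hx⟩
    · rintro ⟨⟨_, x, rfl⟩, hx⟩
      exact ⟨x, hx⟩
  unfold nPl Places
  rw [this]

lemma range_primeLocalToGlobal (q : Nat.Primes) : (primeLocalToGlobal q).range = Dq q := by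
  have : Fact (q : ℕ).Prime := ⟨q.2⟩
  exact range_localGaloisToGlobal (q : ℕ)

variable {p : ℕ} [Fact p.Prime] (S : Finset Nat.Primes)
  {K : IntermediateField ℚ (AlgebraicClosure ℚ)} [NumberField K] [Normal ℚ K]

/-- the fixed field of an automorphism of `K` -/
theorem exists_fixed (g : K ≃ₐ[ℚ] K) : ∃ F : IntermediateField ℚ (AlgebraicClosure ℚ),
    ∃ _ : F ≤ K, NumberField F ∧ (∀ x : K, g x = x ↔ (x : AlgebraicClosure ℚ) ∈ F) ∧
      K.fixingSubgroup ≤ F.fixingSubgroup ∧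
      F.fixingSubgroup.map (AlgEquiv.restrictNormalHom K) = Subgroup.zpowers g := by
  have hfd : FiniteDimensional ℚ K := by
    have : FiniteDimensional ℚ K := inferInstance
    exact this
  let π : (AlgebraicClosure ℚ ≃ₐ[ℚ] AlgebraicClosure ℚ) →* (K ≃ₐ[ℚ] K) :=
    AlgEquiv.restrictNormalHom K
  have hπ : ∀ (σ : AlgebraicClosure ℚ ≃ₐ[ℚ] AlgebraicClosure ℚ) (x : K),
      ((π σ x : K) : AlgebraicClosure ℚ) = σ x := fun σ x =>
    AlgEquiv.restrictNormal_commutes σ K x
  let H : Subgroup (AlgebraicClosure ℚ ≃ₐ[ℚ] AlgebraicClosure ℚ) := (Subgroup.zpowers g).comap π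
  have hU : K.fixingSubgroup ≤ H := by
    intro σ hσ
    have h1 : π σ = 1 := by
      apply AlgEquiv.ext
      intro x
      apply Subtype.ext
      rw [hπ]
      exact (IntermediateField.mem_fixingSubgroup_iff K _).1 hσ x x.2
    show π σ ∈ Subgroup.zpowers g
    rw [h1]
    exact one_mem _
  obtain ⟨F, hle, hF, hFH⟩ := exists_eq_fixingSubgroup K H hU
  have hsurj : Function.Surjective π := AlgEquiv.restrictNormalHom_surjective _
  refine ⟨F, hle, H64.numberField_of_finiteDimensional F, ?_, ?_, ?_⟩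
  · intro x
    constructor
    · intro hx
      have h1 : (x : AlgebraicClosure ℚ) ∈ IntermediateField.fixedField F.fixingSubgroup := by
        rw [IntermediateField.mem_fixedField_iff]
        intro σ hσ
        rw [hFH] at hσ
        have h2 : π σ ∈ Subgroup.zpowers g := hσ
        have h3 : Subgroup.zpowers g ≤ MulAction.stabilizer (K ≃ₐ[ℚ] K) x := by
          rw [Subgroup.zpowers_le]
          exact hx
        have h4 : π σ x = x := h3 h2
        rw [← hπ, h4]
      rwa [InfiniteGalois.fixedField_fixingSubgroup] at h1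
    · intro hx
      obtain ⟨σ, hσ⟩ := hsurj g
      have h1 : σ ∈ F.fixingSubgroup := by
        rw [hFH]
        show π σ ∈ Subgroup.zpowers g
        rw [hσ]
        exact Subgroup.mem_zpowers g
      apply Subtype.ext
      rw [← hσ, hπ]
      exact (IntermediateField.mem_fixingSubgroup_iff F _).1 h1 x hx
  · rw [hFH]; exact hU
  · rw [hFH]
    exact Subgroup.map_comap_eq_self_of_surjective hsurj _

set_option maxHeartbeats 2000000 in
/-- **The `S`-units of `K` as a Galois module**, up to additive functions. -/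
theorem F_unitRep (Φ : AddFun p (K ≃ₐ[ℚ] K)) {ζ : K} (hζ : IsPrimitiveRoot ζ p)
    (χ : (K ≃ₐ[ℚ] K) →* (ZMod p)ˣ)
    (hχ : ∀ g : K ≃ₐ[ℚ] K, g ζ = ζ ^ ((χ g : ZMod p)).val) :
    Φ.F (ModN (Additive (ES S K)) p) (unitRep p S K) +
        Φ.F (ZMod p) (1 : Representation (ZMod p) (K ≃ₐ[ℚ] K) (ZMod p)) =
      Φ.F (ZMod p) (mu χ) +
      (Φ.F ((K ≃ₐ[ℚ] K) ⧸ archimedeanDecomposition.map (AlgEquiv.restrictNormalHom K) → ZMod p)
          (permRep (1 : Representation (ZMod p) (K ≃ₐ[ℚ] K) (ZMod p)) _) +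
        ∑ q ∈ S, Φ.F ((K ≃ₐ[ℚ] K) ⧸ (Dq q).map (AlgEquiv.restrictNormalHom K) → ZMod p)
          (permRep (1 : Representation (ZMod p) (K ≃ₐ[ℚ] K) (ZMod p)) _)) := by
  have hfin : Finite (K ≃ₐ[ℚ] K) := inferInstance
  obtain ⟨n, τ, D⟩ := exists_torsData S hζ χ hχ
  have hfinQ : ∀ D : Subgroup (K ≃ₐ[ℚ] K), Finite ((K ≃ₐ[ℚ] K) ⧸ D) := fun D =>
    Quotient.finite _
  obtain ⟨X, hX1, hX2, hX3, hX4⟩ := exists_sum (G := K ≃ₐ[ℚ] K) S
    (fun q => (K ≃ₐ[ℚ] K) ⧸ (Dq q).map (AlgEquiv.restrictNormalHom K))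
    ((K ≃ₐ[ℚ] K) ⧸ archimedeanDecomposition.map (AlgEquiv.restrictNormalHom K)) p
  rw [← hX4 Φ]
  refine F_mod D Φ X fun g => ?_
  have h0 := hX3 g
  unfold fixRank at h0
  rw [h0]
  obtain ⟨F, hle, hFnf, hF, hFU, hFH⟩ := exists_fixed g
  rw [finrank_ker_ES S hle g hF, H76.finrank_ker_permRep_arch K F g hFU hFH]
  have h1 := finrank_ES_add_one S F
  have h2 : ∀ q ∈ S, finrank ℤ (LinearMap.ker (permRep (1 : Representation ℤ (K ≃ₐ[ℚ] K) ℤ)
      ((K ≃ₐ[ℚ] K) ⧸ (Dq q).map (AlgEquiv.restrictNormalHom K)) g - 1)) =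
      nPl (primeLocalToGlobal q) F.fixingSubgroup := by
    intro q _
    rw [H76.finrank_ker_permRep_galois K (Dq q) F.fixingSubgroup g hFU hFH,
      nPl_congr _ _ _ (range_primeLocalToGlobal q)]
  rw [Finset.sum_congr rfl h2]
  have h3 : ∑ q ∈ S, nPl (primeLocalToGlobal q) F.fixingSubgroup =
      (DS S).nPlaces F.fixingSubgroup := by
    show _ = ∑ q : ↥S, nPl (primeLocalToGlobal q.1) F.fixingSubgroup
    exact (Finset.sum_coe_sort S fun q => nPl (primeLocalToGlobal q) F.fixingSubgroup).symm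
  rw [h3, nPlaces_eq]
  have h4 : (placesS S F).ncard =
    {v : HeightOneSpectrum (𝓞 F) | ∃ q ∈ S, ((q : ℕ) : 𝓞 F) ∈ v.asIdeal}.ncard := rfl
  rw [← h4, h1, add_comm]

end Fermat.Agent.H56.CYB
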