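import Fermat.Agent.H56ECDefs
import Fermat.Agent.H77Artin

/-!
# S56, CY-C : `HomC` as an additive functional, conversion to `EqFun`
-/

set_option autoImplicit false
set_option maxSynthPendingDepth 3
set_option linter.unusedSectionVars false

noncomputable section

open Module Fermat.Agent.H55 Fermat.Agent.H56 Fermat.Agent.H77.Rep Fermat.Agent.H77.Rep.AddFun

namespace Fermat.Agent.H7

namespace CYC

/-! ## averaging over a finite quotient -/

section Avg

variable {k : Type*} [Field k] {C : Type*} [Group C] (N : Subgroup C) [N.Normal] [Finite (C ⧸ N)]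
  {V : Type*} [AddCommGroup V] [Module k V] {W : Type*} [AddCommGroup W] [Module k W]

/-- the average of a representation which is trivial on `N` -/
def avg (σ : Representation k C V) : V →ₗ[k] V :=
  letI := Fintype.ofFinite (C ⧸ N)
  (Nat.card (C ⧸ N) : k)⁻¹ • ∑ q : C ⧸ N, σ q.out

theorem avg_apply [Fintype (C ⧸ N)] (σ : Representation k C V) (v : V) :
    avg N σ v = (Nat.card (C ⧸ N) : k)⁻¹ • ∑ q : C ⧸ N, σ q.out v := by
  rw [avg, LinearMap.smul_apply, LinearMap.sum_apply]
  congr 1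
  exact Finset.sum_congr (by ext; simp) fun _ _ => rfl

variable {N}

theorem map_out {σ : Representation k C V} (hσ : ∀ u ∈ N, σ u = 1) {c : C} {q : C ⧸ N}
    (h : (c : C ⧸ N) = q) (v : V) : σ c v = σ q.out v := by
  have h1 : (q.out)⁻¹ * c ∈ N := by
    rw [← QuotientGroup.eq, QuotientGroup.out_eq', h]
  have h2 : c = q.out * ((q.out)⁻¹ * c) := by group
  rw [h2, map_mul, hσ _ h1, mul_one]

theorem apply_avg {σ : Representation k C V} (hσ : ∀ u ∈ N, σ u = 1) (c : C) (v : V) :
    σ c (avg N σ v) = avg N σ v := by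
  letI := Fintype.ofFinite (C ⧸ N)
  rw [avg_apply, map_smul, map_sum]
  congr 1
  refine Fintype.sum_equiv (Equiv.mulLeft (c : C ⧸ N)) _ _ fun q => ?_
  rw [← Module.End.mul_apply, ← map_mul]
  refine map_out hσ ?_ v
  rw [QuotientGroup.mk_mul, QuotientGroup.out_eq']
  rfl

theorem avg_apply_map {σ : Representation k C V} (hσ : ∀ u ∈ N, σ u = 1) (c : C) (v : V) :
    avg N σ (σ c v) = avg N σ v := by
  letI := Fintype.ofFinite (C ⧸ N)
  rw [avg_apply, avg_apply]
  congr 1
  refine Fintype.sum_equiv (Equiv.mulRight (c : C ⧸ N)) _ _ fun q => ?_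
  rw [← Module.End.mul_apply, ← map_mul]
  refine map_out hσ ?_ v
  rw [QuotientGroup.mk_mul, QuotientGroup.out_eq']
  rfl

theorem avg_of_inv (hN : (Nat.card (C ⧸ N) : k) ≠ 0) (σ : Representation k C V) {v : V}
    (hv : ∀ c, σ c v = v) : avg N σ v = v := by
  letI := Fintype.ofFinite (C ⧸ N)
  rw [avg_apply, Finset.sum_congr rfl fun q _ => hv q.out, Finset.sum_const, Finset.card_univ,
    ← Nat.card_eq_fintype_card, ← Nat.cast_smul_eq_nsmul k, smul_smul, inv_mul_cancel₀ hN, one_smul]

theorem map_avg {σ : Representation k C V} {τ : Representation k C W} (f : V →ₗ[k] W)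
    (hf : ∀ c v, f (σ c v) = τ c (f v)) (v : V) : f (avg N σ v) = avg N τ (f v) := by
  letI := Fintype.ofFinite (C ⧸ N)
  rw [avg_apply, avg_apply, map_smul, map_sum]
  congr 1
  exact Finset.sum_congr rfl fun q _ => hf _ _

/-- invariants, as a set of vectors -/
abbrev inv (σ : Representation k C V) : Submodule k V := σ.invariants

theorem mem_inv {σ : Representation k C V} {v : V} : v ∈ inv σ ↔ ∀ c, σ c v = v := Iff.rfl

/-- invariants are exact -/
theorem finrank_inv_add {V₁ V₂ V₃ : Type*} [AddCommGroup V₁] [Module k V₁] [AddCommGroup V₂]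
    [Module k V₂] [AddCommGroup V₃] [Module k V₃] [Module.Finite k V₂]
    (hN : (Nat.card (C ⧸ N) : k) ≠ 0)
    {σ₁ : Representation k C V₁} {σ₂ : Representation k C V₂} {σ₃ : Representation k C V₃}
    (h2 : ∀ u ∈ N, σ₂ u = 1) (f : V₁ →ₗ[k] V₂) (g : V₂ →ₗ[k] V₃)
    (hf : ∀ c v, f (σ₁ c v) = σ₂ c (f v)) (hg : ∀ c v, g (σ₂ c v) = σ₃ c (g v))
    (hi : Function.Injective f) (hs : Function.Surjective g) (he : Function.Exact f g) :
    finrank k (inv σ₂) = finrank k (inv σ₁) + finrank k (inv σ₃) := by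
  -- the induced maps on invariants
  let G : inv σ₂ →ₗ[k] inv σ₃ := g.restrict fun v hv c => by rw [← hg, hv c]
  let F : inv σ₁ →ₗ[k] inv σ₂ := f.restrict fun v hv c => by rw [← hf, hv c]
  have hG : Function.Surjective G := by
    intro w
    obtain ⟨v, hv⟩ := hs (w : V₃)
    refine ⟨⟨avg N σ₂ v, fun c => apply_avg h2 c v⟩, Subtype.ext ?_⟩
    show g (avg N σ₂ v) = w
    rw [map_avg (τ := σ₃) g hg, hv]
    exact avg_of_inv hN σ₃ w.2
  have hF : Function.Injective F := fun a b hab => Subtype.ext (hi (congrArg Subtype.val hab))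
  have hex : LinearMap.range F = LinearMap.ker G := by
    ext v
    rw [LinearMap.mem_range, LinearMap.mem_ker]
    constructor
    · rintro ⟨a, rfl⟩
      exact Subtype.ext (he.apply_apply_eq_zero _)
    · intro hv
      obtain ⟨a, ha⟩ := (he (v : V₂)).mp (congrArg Subtype.val hv)
      refine ⟨⟨a, fun c => hi ?_⟩, Subtype.ext ha⟩
      rw [hf, ha]
      exact v.2 c
  have h := LinearMap.finrank_range_add_finrank_ker G
  rw [LinearMap.range_eq_top.mpr hG, finrank_top, ← hex, LinearMap.finrank_range_of_inj hF] at h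
  omega

/-- invariants of the dual -/
theorem finrank_inv_dual [Module.Finite k V] (hN : (Nat.card (C ⧸ N) : k) ≠ 0)
    {σ : Representation k C V} (hσ : ∀ u ∈ N, σ u = 1) (I : Submodule k (Module.Dual k V))
    (hI : ∀ φ, φ ∈ I ↔ ∀ c v, φ (σ c v) = φ v) : finrank k I = finrank k (inv σ) := by
  have h1 : inv σ = LinearMap.range (avg N σ) := by
    ext v
    constructor
    · intro hv
      exact ⟨v, avg_of_inv hN σ hv⟩
    · rintro ⟨w, rfl⟩ c
      exact apply_avg hσ c w
  have h2 : I = LinearMap.range (avg N σ).dualMap := by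
    ext φ
    rw [hI]
    constructor
    · intro hφ
      refine ⟨φ, LinearMap.ext fun v => ?_⟩
      show φ (avg N σ v) = φ v
      have h3 := map_avg (N := N) (σ := σ) (τ := (1 : Representation k C k)) φ (fun c v => hφ c v) v
      rw [h3]
      exact avg_of_inv hN _ fun c => rfl
    · rintro ⟨ψ, rfl⟩ c v
      show ψ (avg N σ (σ c v)) = ψ (avg N σ v)
      rw [avg_apply_map hσ]
  rw [h1, h2]
  exact LinearMap.finrank_range_dualMap_eq_finrank_range _

end Avg

/-! ## the functional `HomC` -/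

section Fun

variable {p : ℕ} [Fact p.Prime] {G' G : Type} [Group G'] [Group G] (π : G' →* G)
  (C : Subgroup G') {A : Type} [AddCommGroup A] [Module (ZMod p) A] [Finite A]
  (r : Representation (ZMod p) G' A)

/-- the kernel of `π` inside `C` -/
abbrev kerC : Subgroup C := π.ker.subgroupOf C

theorem card_ne_zero (hp : p ≠ 1) (hcop : ¬ p ∣ (kerC π C).index) :
    (Nat.card (C ⧸ kerC π C) : ZMod p) ≠ 0 := by
  rw [← Subgroup.index_eq_card]
  intro h
  exact hcop ((ZMod.natCast_eq_zero_iff _ _).mp h)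

theorem finite_quot (hcop : ¬ p ∣ (kerC π C).index) : Finite (C ⧸ kerC π C) := by
  have h : (kerC π C).index ≠ 0 := fun h => hcop (h ▸ dvd_zero p)
  rw [Subgroup.index_eq_card] at h
  exact Nat.finite_of_card_ne_zero h

variable {π C r}

/-- the action of `C` on homomorphisms -/
abbrev homRep (π : G' →* G) (C : Subgroup G') (r : Representation (ZMod p) G' A)
    {M : Type} [AddCommGroup M] [Module (ZMod p) M]
    (s : Representation (ZMod p) G M) : Representation (ZMod p) C (A →ₗ[ZMod p] M) :=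
  Representation.linHom (r.comp C.subtype) ((s.comp π).comp C.subtype)

theorem homRep_apply {M : Type} [AddCommGroup M] [Module (ZMod p) M]
    (s : Representation (ZMod p) G M) (c : C) (f : A →ₗ[ZMod p] M) (a : A) :
    homRep π C r s c f a = s (π c) (f (r (c : G')⁻¹ a)) := rfl

theorem HomC_eq {M : Type} [AddCommGroup M] [Module (ZMod p) M]
    (s : Representation (ZMod p) G M) : HomC C r (s.comp π) = inv (homRep π C r s) := by
  ext f
  rw [mem_HomC, mem_inv]
  constructor
  · intro h c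
    refine LinearMap.ext fun a => ?_
    rw [homRep_apply]
    have := h c c.2 (r (c : G')⁻¹ a)
    rw [← Module.End.mul_apply, ← map_mul, mul_inv_cancel, map_one] at this
    exact this.symm
  · intro h c hc a
    have := congrArg (fun φ : A →ₗ[ZMod p] M => φ (r c a)) (h ⟨c, hc⟩)
    rw [homRep_apply] at this
    rw [← this, ← Module.End.mul_apply (r c⁻¹), ← map_mul, inv_mul_cancel, map_one]
    rfl

theorem homRep_ker (hr : ∀ u, π u = 1 → r u = 1) {M : Type} [AddCommGroup M] [Module (ZMod p) M]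
    (s : Representation (ZMod p) G M) : ∀ u ∈ kerC π C, homRep π C r s u = 1 := by
  intro u hu
  have hu' : π u = 1 := hu
  refine LinearMap.ext fun f => LinearMap.ext fun a => ?_
  rw [homRep_apply, hu', map_one, hr _ (by rw [map_inv, hu', inv_one])]
  rfl

/-- (C1) the additive functional `s ↦ dim Hom_C(A, s)` -/
def homFun (π : G' →* G) (C : Subgroup G') (r : Representation (ZMod p) G' A)
    (hr : ∀ u, π u = 1 → r u = 1) (hcop : ¬ p ∣ (kerC π C).index) : AddFun p G where
  F M _ _ _ s := finrank (ZMod p) (HomC C r (s.comp π))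
  add {M₁ M₂ M₃} _ _ _ _ _ _ _ _ _ ρ₁ ρ₂ ρ₃ f g hf hg hi hs he := by
    have := finite_quot π C hcop
    rw [← Nat.cast_add, Nat.cast_inj]
    rw [HomC_eq, HomC_eq, HomC_eq]
    refine finrank_inv_add (N := kerC π C) (card_ne_zero π C (Fact.out : p.Prime).ne_one hcop)
      (homRep_ker hr ρ₂) (LinearMap.compRight (ZMod p) f) (LinearMap.compRight (ZMod p) g) ?_ ?_ ?_ ?_ ?_
    · intro c φ
      refine LinearMap.ext fun a => ?_
      exact hf _ _
    · intro c φ
      refine LinearMap.ext fun a => ?_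
      exact hg _ _
    · intro φ ψ h
      refine LinearMap.ext fun a => hi ?_
      exact congrArg (fun φ : A →ₗ[ZMod p] M₂ => φ a) h
    · intro φ
      obtain ⟨ψ, hψ⟩ := Module.projective_lifting_property g φ hs
      exact ⟨ψ, hψ⟩
    · intro φ
      constructor
      · intro h
        have h1 : ∀ a, ∃ b, f b = φ a := fun a => (he (φ a)).mp
          (congrArg (fun φ : A →ₗ[ZMod p] M₃ => φ a) h)
        choose ψ hψ using h1
        refine ⟨{ toFun := ψ, map_add' := fun a b => hi ?_, map_smul' := fun c a => hi ?_ }, ?_⟩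
        · rw [map_add, hψ, hψ, hψ, map_add]
        · rw [map_smul, hψ, hψ, map_smul]; rfl
        · exact LinearMap.ext fun a => hψ a
      · rintro ⟨ψ, rfl⟩
        refine LinearMap.ext fun a => ?_
        exact he.apply_apply_eq_zero _

theorem homFun_F (hr : ∀ u, π u = 1 → r u = 1) (hcop : ¬ p ∣ (kerC π C).index)
    {M : Type} [AddCommGroup M] [Module (ZMod p) M] [Finite M] (s : Representation (ZMod p) G M) :
    (homFun π C r hr hcop).F M s = finrank (ZMod p) (HomC C r (s.comp π)) := rfl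

/-- (C3) -/
theorem homFun_triv (hr : ∀ u, π u = 1 → r u = 1) (hcop : ¬ p ∣ (kerC π C).index) :
    (homFun π C r hr hcop).F (ZMod p) (Representation.trivial (ZMod p) G (ZMod p)) =
      finrank (ZMod p) (invC C r) := by
  have := finite_quot π C hcop
  rw [homFun_F, Nat.cast_inj]
  have h1 : invC C r = inv (r.comp C.subtype) := by
    ext a
    exact ⟨fun h c => h c c.2, fun h c hc => h ⟨c, hc⟩⟩
  rw [h1]
  refine finrank_inv_dual (N := kerC π C) (card_ne_zero π C (Fact.out : p.Prime).ne_one hcop)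
    (fun u hu => hr _ hu) _ fun φ => ?_
  exact ⟨fun h c v => h c c.2 v, fun h c hc v => h ⟨c, hc⟩ v⟩

/-! ### (C2) permutation modules -/

/-- the action of `C` on functions `X → A` -/
def funAct (π : G' →* G) (C : Subgroup G') (r : Representation (ZMod p) G' A) (X : Type)
    [MulAction G X] : Representation (ZMod p) C (X → A) where
  toFun c :=
    { toFun := fun ψ x => r c (ψ ((π c)⁻¹ • x))
      map_add' := fun f f' => by ext x; simp
      map_smul' := fun a f => by ext x; simp }
  map_one' := by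
    ext f x
    simp
  map_mul' g h := by
    ext f x
    simp [mul_smul]

theorem funAct_apply (X : Type) [MulAction G X] (c : C) (ψ : X → A) (x : X) :
    funAct π C r X c ψ x = r c (ψ ((π c)⁻¹ • x)) := rfl

theorem funAct_single (X : Type) [DecidableEq X] [MulAction G X] (c : C) (x : X) (a : A) :
    funAct π C r X c (Pi.single ((π c)⁻¹ • x) a) = Pi.single x (r c a) := by
  funext y
  rw [funAct_apply, Pi.single_apply, Pi.single_apply]
  by_cases h : y = x
  · rw [if_pos (by rw [h]), if_pos h]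
  · rw [if_neg (fun h' => h (smul_left_cancel _ h')), if_neg h, map_zero]

/-- homomorphisms into functions are linear forms on functions -/
def homToDual (X : Type) [Finite X] (A : Type) [AddCommGroup A] [Module (ZMod p) A] :
    (A →ₗ[ZMod p] (X → ZMod p)) ≃ₗ[ZMod p] Module.Dual (ZMod p) (X → A) :=
  letI := Fintype.ofFinite X
  letI := Classical.decEq X
  { toFun := fun f =>
      { toFun := fun ψ => ∑ x, f (ψ x) x
        map_add' := fun ψ ψ' => by simp [Finset.sum_add_distrib]
        map_smul' := fun a ψ => by simp [Finset.mul_sum] }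
    map_add' := fun f f' => by
      refine LinearMap.ext fun ψ => ?_
      simp [Finset.sum_add_distrib]
    map_smul' := fun a f => by
      refine LinearMap.ext fun ψ => ?_
      simp [Finset.mul_sum]
    invFun := fun Λ =>
      { toFun := fun a x => Λ (Pi.single x a)
        map_add' := fun a b => by
          funext x
          rw [Pi.add_apply, Pi.single_add, map_add]
        map_smul' := fun c a => by
          funext x
          rw [Pi.smul_apply, Pi.single_smul, map_smul]; rfl }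
    left_inv := fun f => by
      refine LinearMap.ext fun a => funext fun x => ?_
      show ∑ y, f ((Pi.single x a : X → A) y) y = f a x
      rw [Finset.sum_eq_single x]
      · rw [Pi.single_eq_same]
      · intro y _ hy
        rw [Pi.single_eq_of_ne hy, map_zero]; rfl
      · intro h; exact absurd (Finset.mem_univ x) h
    right_inv := fun Λ => by
      refine LinearMap.ext fun ψ => ?_
      show ∑ x, Λ (Pi.single x (ψ x)) = Λ ψ
      rw [← map_sum, Finset.univ_sum_single] }

theorem homToDual_apply (X : Type) [Fintype X] (f : A →ₗ[ZMod p] (X → ZMod p)) (ψ : X → A) :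
    homToDual X A f ψ = ∑ x, f (ψ x) x := by
  show Finset.sum _ _ = _
  exact Finset.sum_congr (by ext; simp) fun _ _ => rfl

theorem homToDual_symm_apply (X : Type) [Finite X] [DecidableEq X]
    (Λ : Module.Dual (ZMod p) (X → A)) (a : A) (x : X) :
    (homToDual X A).symm Λ a x = Λ (Pi.single x a) := by
  have h : (inferInstance : DecidableEq X) = Classical.decEq X := Subsingleton.elim _ _
  show Λ (@Pi.single X (fun _ => A) _ (Classical.decEq X) x a) = _
  rw [← h]

theorem homToDual_inv (X : Type) [Finite X] [MulAction G X] (f : A →ₗ[ZMod p] (X → ZMod p)) :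
    f ∈ HomC C r ((permRep (1 : Representation (ZMod p) G (ZMod p)) X).comp π) ↔
      ∀ (c : C) (ψ : X → A), homToDual X A f (funAct π C r X c ψ) = homToDual X A f ψ := by
  classical
  letI := Fintype.ofFinite X
  rw [mem_HomC]
  have h1 : ∀ (c : G') (a : A) (x : X), ((permRep (1 : Representation (ZMod p) G (ZMod p)) X).comp π) c
      (f a) x = f a ((π c)⁻¹ • x) := fun c a x => rfl
  constructor
  · intro h c ψ
    rw [homToDual_apply, homToDual_apply]
    refine Fintype.sum_equiv (MulAction.toPerm (π c)⁻¹) _ _ fun x => ?_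
    rw [funAct_apply, h c c.2, h1]
    rfl
  · intro h c hc a
    funext x
    rw [h1]
    have e1 : f (r c a) x = homToDual X A f (Pi.single x (r c a)) := by
      conv_lhs => rw [← (homToDual X A).symm_apply_apply f]
      rw [homToDual_symm_apply]
    have e2 : f a ((π c)⁻¹ • x) = homToDual X A f (Pi.single ((π c)⁻¹ • x) a) := by
      conv_lhs => rw [← (homToDual X A).symm_apply_apply f]
      rw [homToDual_symm_apply]
    rw [e1, e2]
    have e3 := h ⟨c, hc⟩ (Pi.single ((π ((⟨c, hc⟩ : C) : G'))⁻¹ • x) a)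
    rw [funAct_single X (⟨c, hc⟩ : C)] at e3
    exact e3

/-- invariant functions on `G / π D` as elements of `EqFun D C r` -/
def toEqFun (D : Subgroup G') (ψ : inv (funAct π C r (G ⧸ D.map π))) : EqFun D C r :=
  ⟨fun g => (ψ : G ⧸ D.map π → A) ((π g⁻¹ : G) : G ⧸ D.map π), by
    constructor
    · intro d hd x
      have : ((π (d * x)⁻¹ : G) : G ⧸ D.map π) = ((π x⁻¹ : G) : G ⧸ D.map π) := by
        rw [QuotientGroup.eq, ← map_inv, ← map_mul]
        exact Subgroup.mem_map_of_mem π (by simpa using hd)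
      exact congrArg (ψ : G ⧸ D.map π → A) this
    · intro c hc x
      have h1 := congrFun (ψ.2 ⟨c⁻¹, inv_mem hc⟩) ((π c⁻¹ : G) • ((π x⁻¹ : G) : G ⧸ D.map π))
      rw [funAct_apply] at h1
      have h2 : (π ((⟨c⁻¹, inv_mem hc⟩ : C) : G'))⁻¹ • ((π c⁻¹ : G) • ((π x⁻¹ : G) : G ⧸ D.map π)) =
          ((π x⁻¹ : G) : G ⧸ D.map π) := by
        rw [smul_smul]
        show ((π c⁻¹)⁻¹ * π c⁻¹) • ((π x⁻¹ : G) : G ⧸ D.map π) = _
        rw [inv_mul_cancel, one_smul]
      rw [h2] at h1
      have h3 : ((π (x * c)⁻¹ : G) : G ⧸ D.map π) = (π c⁻¹ : G) • ((π x⁻¹ : G) : G ⧸ D.map π) := by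
        rw [mul_inv_rev, map_mul]; rfl
      show (ψ : G ⧸ D.map π → A) ((π (x * c)⁻¹ : G) : G ⧸ D.map π) = r c⁻¹ _
      rw [h3]
      exact h1.symm⟩

/-- invariant functions on `G / π D` are the same as elements of `EqFun D C r` -/
def eqFunEquiv (hπ : Function.Surjective π) (hU : π.ker ≤ C) (hr : ∀ u, π u = 1 → r u = 1)
    (D : Subgroup G') : inv (funAct π C r (G ⧸ D.map π)) ≃ₗ[ZMod p] EqFun D C r := by
  refine LinearEquiv.ofBijective
    { toFun := toEqFun D
      map_add' := fun ψ ψ' => Subtype.ext rfl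
      map_smul' := fun a ψ => Subtype.ext rfl } ⟨?_, ?_⟩
  · intro ψ ψ' h
    refine Subtype.ext (funext fun x => ?_)
    obtain ⟨y, rfl⟩ := QuotientGroup.mk_surjective x
    obtain ⟨g, rfl⟩ := hπ y
    have h1 := congrFun (congrArg Subtype.val h) g⁻¹
    have h2 : ((π (g⁻¹)⁻¹ : G) : G ⧸ D.map π) = ((π g : G) : G ⧸ D.map π) := by rw [inv_inv]
    have h3 : (ψ : G ⧸ D.map π → A) ((π (g⁻¹)⁻¹ : G) : G ⧸ D.map π) =
      (ψ' : G ⧸ D.map π → A) ((π (g⁻¹)⁻¹ : G) : G ⧸ D.map π) := h1
    rw [h2] at h3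
    exact h3
  · rintro ⟨f, hf1, hf2⟩
    -- `f` is invariant under the kernel
    have hker : ∀ u, π u = 1 → ∀ x, f (x * u) = f x := fun u hu x => by
      rw [hf2 u (hU hu) x, hr _ (by rw [map_inv, hu, inv_one])]; rfl
    have hker' : ∀ u, π u = 1 → ∀ x, f (u * x) = f x := fun u hu x => by
      have : u * x = x * (x⁻¹ * u * x) := by group
      rw [this]
      exact hker _ (by rw [map_mul, map_mul, hu, mul_one, ← map_mul, inv_mul_cancel, map_one]) x
    have hind : ∀ g g' : G', ((π g : G) : G ⧸ D.map π) = ((π g' : G) : G ⧸ D.map π) →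
        f g⁻¹ = f g'⁻¹ := by
      intro g g' h
      rw [QuotientGroup.eq, ← map_inv, ← map_mul] at h
      obtain ⟨d, hd, hd'⟩ := h
      -- `g⁻¹ g' = d u`
      have h1 : π (d⁻¹ * (g⁻¹ * g')) = 1 := by rw [map_mul, map_inv, hd', inv_mul_cancel]
      have h2 : g⁻¹ = d * (d⁻¹ * (g⁻¹ * g')) * g'⁻¹ := by group
      rw [h2, mul_assoc, hf1 d hd, hker' _ h1]
    let σ : G ⧸ D.map π → G' := fun x => (hπ x.out).choose
    have hσ : ∀ x, ((π (σ x) : G) : G ⧸ D.map π) = x := fun x => by
      rw [(hπ x.out).choose_spec, QuotientGroup.out_eq']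
    refine ⟨⟨fun x => f (σ x)⁻¹, fun c => funext fun x => ?_⟩, Subtype.ext (funext fun g => ?_)⟩
    · rw [funAct_apply]
      have h1 : f (σ ((π c)⁻¹ • x))⁻¹ = f ((c : G')⁻¹ * σ x)⁻¹ := by
        apply hind
        rw [hσ, map_mul, map_inv]
        conv_lhs => rw [← hσ x]
        rfl
      rw [h1, mul_inv_rev, inv_inv, hf2 c c.2, ← Module.End.mul_apply, ← map_mul, mul_inv_cancel,
        map_one]
      rfl
    · show f (σ ((π g⁻¹ : G) : G ⧸ D.map π))⁻¹ = f g
      rw [hind _ g⁻¹ (hσ _), inv_inv]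

theorem funAct_ker (hr : ∀ u, π u = 1 → r u = 1) (X : Type) [MulAction G X] :
    ∀ u ∈ kerC π C, funAct π C r X u = 1 := by
  intro u hu
  have hu' : π u = 1 := hu
  refine LinearMap.ext fun f => funext fun x => ?_
  rw [funAct_apply, hu', inv_one, one_smul, hr _ hu']
  rfl

/-- (C2) -/
theorem homFun_perm [Finite G] (hπ : Function.Surjective π) (hU : π.ker ≤ C)
    (hr : ∀ u, π u = 1 → r u = 1) (hcop : ¬ p ∣ (kerC π C).index) (D : Subgroup G') :
    (homFun π C r hr hcop).F ((G ⧸ D.map π) → ZMod p)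
      (permRep (1 : Representation (ZMod p) G (ZMod p)) (G ⧸ D.map π)) =
      finrank (ZMod p) (EqFun D C r) := by
  have := finite_quot π C hcop
  rw [homFun_F, Nat.cast_inj, ← (eqFunEquiv hπ hU hr D).finrank_eq]
  let X := G ⧸ D.map π
  let I : Submodule (ZMod p) (Module.Dual (ZMod p) (X → A)) :=
    (HomC C r ((permRep (1 : Representation (ZMod p) G (ZMod p)) X).comp π)).map
      (homToDual X A).toLinearMap
  have h1 : finrank (ZMod p) (HomC C r ((permRep (1 : Representation (ZMod p) G (ZMod p)) X).comp π)) =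
      finrank (ZMod p) I := ((homToDual X A).submoduleMap _).finrank_eq
  rw [h1]
  refine finrank_inv_dual (N := kerC π C) (card_ne_zero π C (Fact.out : p.Prime).ne_one hcop)
    (funAct_ker hr X) I fun φ => ?_
  constructor
  · rintro ⟨f, hf, rfl⟩
    exact (homToDual_inv X f).mp hf
  · intro h
    refine ⟨(homToDual X A).symm φ, (homToDual_inv X _).mpr ?_, (homToDual X A).apply_symm_apply φ⟩
    rw [(homToDual X A).apply_symm_apply]
    exact h

/-! ### (C4) the cyclotomic character -/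

instance finite_dual {M : Type} [AddCommGroup M] [Module (ZMod p) M] [Finite M] :
    Finite (Module.Dual (ZMod p) M) := Module.finite_of_finite (ZMod p)

/-- (C4) -/
theorem homFun_mu {M : Type} [AddCommGroup M] [Module (ZMod p) M] [Finite M]
    (χ : G' →* (ZMod p)ˣ) (ρ : Representation (ZMod p) G' M) (χK : G →* (ZMod p)ˣ)
    (hχ : ∀ g, χK (π g) = χ g)
    (hr : ∀ u, π u = 1 → dtw χ ρ u = 1) (hcop : ¬ p ∣ (kerC π C).index) :
    (homFun π C (dtw χ ρ) hr hcop).F (ZMod p) (mu χK) = finrank (ZMod p) (invC C ρ) := by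
  rw [homFun_F, Nat.cast_inj]
  have key : HomC C (dtw χ ρ) ((mu χK).comp π) =
      (invC C ρ).map (Module.evalEquiv (ZMod p) M).toLinearMap := by
    ext φ
    rw [mem_HomC]
    constructor
    · intro h
      refine ⟨(Module.evalEquiv (ZMod p) M).symm φ, fun c hc => ?_, (Module.evalEquiv (ZMod p) M).apply_symm_apply φ⟩
      set m := (Module.evalEquiv (ZMod p) M).symm φ with hm
      have hφ : φ = Module.evalEquiv (ZMod p) M m := ((Module.evalEquiv (ZMod p) M).apply_symm_apply φ).symm
      -- `f (ρ c⁻¹ m) = f m` for all `f`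
      have h1 : ∀ f : Module.Dual (ZMod p) M, f (ρ c⁻¹ m) = f m := by
        intro f
        have h2 := h c hc f
        rw [hφ] at h2
        have h3 : (χ c : ZMod p) * f (ρ c⁻¹ m) = (χK (π c) : ZMod p) * f m := by
          have e1 : Module.evalEquiv (ZMod p) M m (dtw χ ρ c f) = (χ c : ZMod p) * f (ρ c⁻¹ m) := by
            rw [← dtw_apply]; rfl
          have e2 : ((mu χK).comp π) c (Module.evalEquiv (ZMod p) M m f) = (χK (π c) : ZMod p) * f m :=
            mu_apply χK (π c) _
          rw [← e1, h2, e2]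
        rw [hχ] at h3
        exact mul_left_cancel₀ (χ c).ne_zero h3
      have h4 : ρ c⁻¹ m = m := by
        rw [← sub_eq_zero, ← Module.forall_dual_apply_eq_zero_iff (ZMod p)]
        intro f
        rw [map_sub, h1, sub_self]
      calc ρ c m = ρ c (ρ c⁻¹ m) := by rw [h4]
        _ = m := by rw [← Module.End.mul_apply, ← map_mul, mul_inv_cancel, map_one]; rfl
    · rintro ⟨m, hm, rfl⟩ c hc f
      show dtw χ ρ c f m = ((mu χK).comp π) c (f m)
      have h1 : ρ c⁻¹ m = m := hm c⁻¹ (inv_mem hc)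
      rw [dtw_apply, h1]
      show _ = mu χK (π c) (f m)
      rw [mu_apply, hχ]
  rw [key]
  exact ((Module.evalEquiv (ZMod p) M).submoduleMap _).symm.finrank_eq

end Fun

/-! ## the case of a Galois number field -/

section Field

variable {p : ℕ} [Fact p.Prime] {K : IntermediateField ℚ (AlgebraicClosure ℚ)} [NumberField K]
  [Normal ℚ K]

/-- restriction of automorphisms -/
abbrev resK (K : IntermediateField ℚ (AlgebraicClosure ℚ)) [Normal ℚ K] :
    (AlgebraicClosure ℚ ≃ₐ[ℚ] AlgebraicClosure ℚ) →* (K ≃ₐ[ℚ] K) := AlgEquiv.restrictNormalHom K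

theorem coe_resK (σ : AlgebraicClosure ℚ ≃ₐ[ℚ] AlgebraicClosure ℚ) (x : K) :
    ((resK K σ x : K) : AlgebraicClosure ℚ) = σ (x : AlgebraicClosure ℚ) :=
  AlgEquiv.restrictNormal_commutes σ K x

theorem resK_eq_one {σ : AlgebraicClosure ℚ ≃ₐ[ℚ] AlgebraicClosure ℚ} :
    resK K σ = 1 ↔ σ ∈ K.fixingSubgroup := by
  rw [IntermediateField.mem_fixingSubgroup_iff]
  constructor
  · intro h x hx
    have h1 := coe_resK σ (⟨x, hx⟩ : K)
    rw [h] at h1
    exact h1.symm
  · intro h
    refine AlgEquiv.ext fun x => Subtype.ext ?_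
    rw [coe_resK, h x x.2]
    rfl

theorem ker_resK : (resK K).ker = K.fixingSubgroup := by
  ext σ
  rw [MonoidHom.mem_ker, resK_eq_one]

theorem resK_surjective : Function.Surjective (resK K) :=
  AlgEquiv.restrictNormalHom_surjective (AlgebraicClosure ℚ)

variable {A : Type} [AddCommGroup A] [Module (ZMod p) A] [Finite A]
  {r : Representation (ZMod p) (AlgebraicClosure ℚ ≃ₐ[ℚ] AlgebraicClosure ℚ) A}
  {C : Subgroup (AlgebraicClosure ℚ ≃ₐ[ℚ] AlgebraicClosure ℚ)}

/-- (C1) `s ↦ dim Hom_C(A, s)` as an additive functional on representations of `Gal(K/ℚ)` -/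
def homFunK (K : IntermediateField ℚ (AlgebraicClosure ℚ)) [NumberField K] [Normal ℚ K]
    (C : Subgroup (AlgebraicClosure ℚ ≃ₐ[ℚ] AlgebraicClosure ℚ))
    (r : Representation (ZMod p) (AlgebraicClosure ℚ ≃ₐ[ℚ] AlgebraicClosure ℚ) A)
    (hr : ∀ σ ∈ K.fixingSubgroup, r σ = 1)
    (hcop : ¬ p ∣ (K.fixingSubgroup.subgroupOf C).index) : AddFun p (K ≃ₐ[ℚ] K) :=
  homFun (resK K) C r (fun u hu => hr u (resK_eq_one.mp hu))
    (by rw [kerC, ker_resK]; exact hcop)

theorem homFunK_F (hr : ∀ σ ∈ K.fixingSubgroup, r σ = 1)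
    (hcop : ¬ p ∣ (K.fixingSubgroup.subgroupOf C).index)
    {M : Type} [AddCommGroup M] [Module (ZMod p) M] [Finite M]
    (s : Representation (ZMod p) (K ≃ₐ[ℚ] K) M) :
    (homFunK K C r hr hcop).F M s = finrank (ZMod p) (HomC C r (s.comp (AlgEquiv.restrictNormalHom K))) :=
  rfl

/-- (C2) -/
theorem homFunK_perm (hC : K.fixingSubgroup ≤ C) (hr : ∀ σ ∈ K.fixingSubgroup, r σ = 1)
    (hcop : ¬ p ∣ (K.fixingSubgroup.subgroupOf C).index)
    (D : Subgroup (AlgebraicClosure ℚ ≃ₐ[ℚ] AlgebraicClosure ℚ)) :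
    (homFunK K C r hr hcop).F
      (((K ≃ₐ[ℚ] K) ⧸ D.map (AlgEquiv.restrictNormalHom K)) → ZMod p)
      (permRep (1 : Representation (ZMod p) (K ≃ₐ[ℚ] K) (ZMod p))
        ((K ≃ₐ[ℚ] K) ⧸ D.map (AlgEquiv.restrictNormalHom K))) =
      finrank (ZMod p) (EqFun D C r) :=
  homFun_perm resK_surjective (by rw [ker_resK]; exact hC) _ _ D

/-- (C3) -/
theorem homFunK_triv (hr : ∀ σ ∈ K.fixingSubgroup, r σ = 1)
    (hcop : ¬ p ∣ (K.fixingSubgroup.subgroupOf C).index) :
    (homFunK K C r hr hcop).F (ZMod p) (Representation.trivial (ZMod p) (K ≃ₐ[ℚ] K) (ZMod p)) =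
      finrank (ZMod p) (invC C r) :=
  homFun_triv _ _

/-- (C4) -/
theorem homFunK_mu {M : Type} [AddCommGroup M] [Module (ZMod p) M] [Finite M]
    {χ : (AlgebraicClosure ℚ ≃ₐ[ℚ] AlgebraicClosure ℚ) →* (ZMod p)ˣ}
    {ρ : Representation (ZMod p) (AlgebraicClosure ℚ ≃ₐ[ℚ] AlgebraicClosure ℚ) M}
    (hr : ∀ σ ∈ K.fixingSubgroup, dtw χ ρ σ = 1)
    (hcop : ¬ p ∣ (K.fixingSubgroup.subgroupOf C).index)
    (χK : (K ≃ₐ[ℚ] K) →* (ZMod p)ˣ)
    (hχ : ∀ σ : AlgebraicClosure ℚ ≃ₐ[ℚ] AlgebraicClosure ℚ, χK (resK K σ) = χ σ) :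
    (homFunK K C (dtw χ ρ) hr hcop).F (ZMod p) (mu χK) = finrank (ZMod p) (invC C ρ) :=
  homFun_mu χ ρ χK hχ _ _

end Field

end CYC

end Fermat.Agent.H7
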