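import Mathlib
import Fermat.Agent.H56CYB4
import Fermat.Agent.H7CYC
import Fermat.Agent.H63Cyclo

set_option autoImplicit false
set_option maxSynthPendingDepth 3
set_option linter.unusedSectionVars false

/-!
# S56, Euler characteristic: the dimension of `Hom_C(M*(1), E_S(K)/p)`
-/

noncomputable section

open Module ExtCitation NumberField IsDedekindDomain
open Fermat.Agent.H55 Fermat.Agent.H77.Rep Fermat.Agent.H77.Rep.AddFun Fermat.Agent.H7.CYC

namespace Fermat.Agent.H56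

variable {p : ℕ} [Fact p.Prime] {K : IntermediateField ℚ (AlgebraicClosure ℚ)} [NumberField K]
  [Normal ℚ K] {ζ : AlgebraicClosure ℚ}

/-- the cyclotomic character of `Gal(K/ℚ)` -/
theorem exists_chiK (hζ : IsPrimitiveRoot ζ p) (hζK : ζ ∈ K) :
    ∃ χK : (K ≃ₐ[ℚ] K) →* (ZMod p)ˣ,
      (∀ σ : AlgebraicClosure ℚ ≃ₐ[ℚ] AlgebraicClosure ℚ,
        χK (AlgEquiv.restrictNormalHom K σ) = cycloChar p σ) ∧
      ∀ g : K ≃ₐ[ℚ] K, g ⟨ζ, hζK⟩ = ⟨ζ, hζK⟩ ^ ((χK g : ZMod p)).val := by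
  have hle : (resK K).ker ≤ (cycloChar p).ker := by
    intro σ hσ
    rw [ker_resK] at hσ
    rw [MonoidHom.mem_ker, H63.cycloChar_eq_one_iff hζ]
    exact (IntermediateField.mem_fixingSubgroup_iff K _).1 hσ ζ hζK
  let χK : (K ≃ₐ[ℚ] K) →* (ZMod p)ˣ :=
    (resK K).liftOfSurjective resK_surjective ⟨cycloChar p, hle⟩
  have h1 : ∀ σ, χK (resK K σ) = cycloChar p σ := fun σ =>
    MonoidHom.liftOfRightInverse_comp_apply _ _ _ _ σ
  refine ⟨χK, h1, fun g => ?_⟩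
  obtain ⟨σ, rfl⟩ := resK_surjective (K := K) g
  apply Subtype.ext
  have h2 : ((resK K σ ⟨ζ, hζK⟩ : K) : AlgebraicClosure ℚ) = σ ζ := coe_resK σ _
  rw [h1, h2, H63.apply_of_pow_eq_one p σ hζ.pow_eq_one]
  rfl

variable {M : Type} [AddCommGroup M] [Module (ZMod p) M] [Finite M]
  {ρ : Representation (ZMod p) H91.GQ M} {C : Subgroup H91.GQ}

/-- the twisted dual is trivial on the kernel -/
theorem dtw_eq_one (hζ : IsPrimitiveRoot ζ p) (hζK : ζ ∈ K)
    (hρ : ∀ σ ∈ K.fixingSubgroup, ρ σ = 1) :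
    ∀ σ ∈ K.fixingSubgroup, dtw (cycloChar p) ρ σ = 1 := by
  intro σ hσ
  have h1 : cycloChar p σ = 1 := by
    rw [H63.cycloChar_eq_one_iff hζ]
    exact (IntermediateField.mem_fixingSubgroup_iff K _).1 hσ ζ hζK
  refine LinearMap.ext fun f => LinearMap.ext fun x => ?_
  rw [dtw_apply, h1, hρ _ (inv_mem hσ)]
  simp

set_option maxHeartbeats 2000000 in
/-- **Units** : the dimension of `Hom_C(M*(1), E_S(K)/p)`. -/
theorem finrank_HomC_unitRep (hζ : IsPrimitiveRoot ζ p) (hζK : ζ ∈ K)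
    (hρ : ∀ σ ∈ K.fixingSubgroup, ρ σ = 1) (hC : K.fixingSubgroup ≤ C)
    (hcop : ¬ p ∣ (K.fixingSubgroup.subgroupOf C).index) (S : Finset Nat.Primes) :
    finrank (ZMod p) (HomC C (dtw (cycloChar p) ρ)
        ((unitRep p S K).comp (AlgEquiv.restrictNormalHom K))) +
        finrank (ZMod p) (invC C (dtw (cycloChar p) ρ)) =
      finrank (ZMod p) (invC C ρ) +
        ∑ q ∈ S, finrank (ZMod p) (EqFun (Dq q) C (dtw (cycloChar p) ρ)) +
        finrank (ZMod p) (EqFun archimedeanDecomposition C (dtw (cycloChar p) ρ)) := by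
  have hr := dtw_eq_one hζ hζK hρ
  obtain ⟨χK, hχ1, hχ2⟩ := exists_chiK hζ hζK
  have hζ' : IsPrimitiveRoot (⟨ζ, hζK⟩ : K) p :=
    IsPrimitiveRoot.of_map_of_injective (f := algebraMap K (AlgebraicClosure ℚ)) hζ
      (algebraMap K (AlgebraicClosure ℚ)).injective
  have key := CYB.F_unitRep S (homFunK K C (dtw (cycloChar p) ρ) hr hcop) hζ' χK hχ2
  rw [homFunK_F, homFunK_mu hr hcop χK hχ1, homFunK_perm hC hr hcop] at key
  have h3 : ∀ q ∈ S, (homFunK K C (dtw (cycloChar p) ρ) hr hcop).F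
      (((K ≃ₐ[ℚ] K) ⧸ (Dq q).map (AlgEquiv.restrictNormalHom K)) → ZMod p)
      (permRep (1 : Representation (ZMod p) (K ≃ₐ[ℚ] K) (ZMod p))
        ((K ≃ₐ[ℚ] K) ⧸ (Dq q).map (AlgEquiv.restrictNormalHom K))) =
      finrank (ZMod p) (EqFun (Dq q) C (dtw (cycloChar p) ρ)) := fun q _ =>
    homFunK_perm hC hr hcop (Dq q)
  rw [Finset.sum_congr rfl h3] at key
  have h4 := homFunK_triv (K := K) (C := C) hr hcop
  have h5 : (1 : Representation (ZMod p) (K ≃ₐ[ℚ] K) (ZMod p)) =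
    Representation.trivial (ZMod p) (K ≃ₐ[ℚ] K) (ZMod p) := rfl
  rw [h5, h4] at key
  have h6 : ((∑ q ∈ S, (finrank (ZMod p) (EqFun (Dq q) C (dtw (cycloChar p) ρ)) : ℤ)) : ℤ) =
    ((∑ q ∈ S, finrank (ZMod p) (EqFun (Dq q) C (dtw (cycloChar p) ρ)) : ℕ) : ℤ) := by
    push_cast; rfl
  rw [h6] at key
  omega

end Fermat.Agent.H56
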