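import Mathlib
import Fermat.Agent.H56CYB2
import Fermat.Agent.H55Arith
import Fermat.Agent.H54Levels

set_option autoImplicit false
set_option maxSynthPendingDepth 3
set_option linter.unusedSectionVars false

/-!
# S56 : vanishing of the class group of `S`-integers and of `Ш²` for large `S`
-/

noncomputable section

open Module ExtCitation NumberField IsDedekindDomain
open Fermat.Agent.H55 Fermat.Agent.H64 Fermat.Agent.H47 Fermat.Agent.H54

namespace Fermat.Agent.H56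

section Cl

variable (K : Type) [Field K] [NumberField K]

theorem exists_cl : ∃ S₁ : Finset Nat.Primes, ∀ S, S₁ ⊆ S →
    Subsingleton (ClT K (placesS S K)) := by
  classical
  obtain ⟨T, -, hT, hcl⟩ := exists_clTrivial K (T₁ := ∅) Set.finite_empty
  have hprime : ∀ v : HeightOneSpectrum (𝓞 K), ∃ q : Nat.Primes, ((q : ℕ) : 𝓞 K) ∈ v.asIdeal := by
    intro v
    have hv : v.asIdeal.IsPrime := v.isPrime
    obtain ⟨ℓ, hℓ, hover⟩ := H64.exists_prime_liesOver v.asIdeal v.ne_bot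
    exact ⟨⟨ℓ, hℓ⟩, (H64.natCast_mem_iff_of_liesOver v.asIdeal ℓ ℓ).2 dvd_rfl⟩
  choose q hq using hprime
  refine ⟨(hT.image q).toFinset, fun S hS => ?_⟩
  rw [← clTrivial_iff]
  refine hcl.mono fun v hv => ?_
  exact ⟨q v, hS (by simpa using ⟨v, hv, rfl⟩), hq v⟩

variable {K}

theorem exists_unit_mul_pow {S : Finset Nat.Primes} {p : ℕ} [Fact p.Prime]
    (hcl : Subsingleton (ClT K (placesS S K))) (x : Kˣ) (hx : x ∈ VS S K p) :
    ∃ u ∈ ES S K, ∃ y : Kˣ, x = u * y ^ p := by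
  have hp : p ≠ 0 := (Fact.out : p.Prime).ne_zero
  rw [VS_eq_selT] at hx
  have h1 : (⟨x, hx⟩ : selT K (placesS S K) p) ∈ (selToClT K (placesS S K) p hp).ker := by
    rw [MonoidHom.mem_ker]
    apply Multiplicative.toAdd.injective
    exact Subsingleton.elim _ _
  rw [ker_selToClT, Subgroup.mem_subgroupOf, Subgroup.mem_sup] at h1
  obtain ⟨u, hu, _, ⟨y, rfl⟩, h⟩ := h1
  refine ⟨u, ?_, y, h.symm⟩
  rw [CYB.ES_eq_unit]
  exact hu

end Cl

section Sha

variable {p : ℕ} [Fact p.Prime] {K : IntermediateField ℚ (AlgebraicClosure ℚ)} [NumberField K]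
  {ζ : AlgebraicClosure ℚ} {S : Finset Nat.Primes}

theorem shaU2_eq_bot (hp2 : p ≠ 2) (hζ : IsPrimitiveRoot ζ p) (hζK : ζ ∈ K)
    (hA : ArithInput (DS S) (cycloChar p)) (hpS : ∀ q : Nat.Primes, (q : ℕ) = p → q ∈ S)
    (hK : K.IsUnramifiedOutside S) (hle : K.fixingSubgroup ≤ (cycloChar p).ker)
    (hcl : Subsingleton (ClT K (placesS S K))) :
    (DS S).ShaU2 (ZMod p) K.fixingSubgroup = ⊥ := by
  have hp : p.Prime := Fact.out
  have hop : (ramLevels S).op K.fixingSubgroup := (op_ramLevels_iff S _).2 ⟨K, hK, rfl⟩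
  obtain ⟨c, hc, hc'⟩ := exists_finrank_H1 hp2 hζ hζK hpS hK
  have hc0 : c = 0 := by
    have h1 : Nat.card (nsmulAddMonoidHom (α := ClT K (placesS S K)) p).ker = 1 :=
      Nat.card_unique
    rw [h1] at hc
    exact (Nat.pow_eq_one.1 hc.symm).resolve_left hp.one_lt.ne'
  have h2 := hA.glob_h _ hop hle
  rw [hc', hc0, nPlaces_eq, IntermediateField.finrank_eq_fixingSubgroup_index] at h2
  have h3 := hA.glob_fin2 _ hop hle
  have h4 : (placesS S K).ncard =
    {v : HeightOneSpectrum (𝓞 K) | ∃ q ∈ S, ((q : ℕ) : 𝓞 K) ∈ v.asIdeal}.ncard := rfl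
  rw [h4] at h2
  have h5 : finrank (ZMod p) ((DS S).ShaU2 (ZMod p) K.fixingSubgroup) = 0 := by omega
  exact Submodule.finrank_eq_zero.1 h5

end Sha

end Fermat.Agent.H56
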