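import Mathlib
import Fermat.Agent.H55Fam
import Fermat.Agent.H63Dict

/-!
# A finite extension of `ℚ` is unramified outside a finite set of primes
-/

set_option autoImplicit false
set_option maxSynthPendingDepth 3

namespace Fermat.Agent.H75

open Fermat.Agent.H55 Fermat.Agent.H91

section

/-- algebraic integers divide nonzero integers -/
lemma exists_int_mul (t : AlgebraicClosure ℚ) (ht : IsIntegral ℤ t) (h0 : t ≠ 0) :
    ∃ m : ℤ, m ≠ 0 ∧ ∃ y : AlgebraicClosure ℚ, IsIntegral ℤ y ∧ (m : AlgebraicClosure ℚ) = t * y := by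
  obtain ⟨f, hf0, h1⟩ := ht.isAlgebraic.exists_nonzero_coeff_and_aeval_eq_zero
    (mem_nonZeroDivisors_of_ne_zero h0)
  rw [← Polynomial.X_mul_divX_add f, map_add, map_mul, Polynomial.aeval_X,
    Polynomial.aeval_C] at h1
  refine ⟨f.coeff 0, hf0, -Polynomial.aeval t f.divX, ?_, ?_⟩
  · exact (adjoin_le_integralClosure ht (Polynomial.aeval_mem_adjoin_singleton ℤ t)).neg
  · have : (algebraMap ℤ (AlgebraicClosure ℚ)) (f.coeff 0)
      = (f.coeff 0 : AlgebraicClosure ℚ) := rfl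
    rw [← this]
    linear_combination h1

lemma mem_of_isIntegral (A : ValuationSubring (AlgebraicClosure ℚ)) {t : AlgebraicClosure ℚ}
    (ht : IsIntegral ℤ t) : t ∈ A := by
  have h1 : IsIntegral A t := ht.tower_top
  obtain ⟨y, rfl⟩ := (IsIntegrallyClosed.isIntegral_iff (R := A)).1 h1
  exact y.2

/-- an integer in the maximal ideal of a place above `q` is divisible by `q` -/
lemma dvd_of_mem_nonunits {A : ValuationSubring (AlgebraicClosure ℚ)} {q : ℕ} (hq : q.Prime)
    (hA : A.LiesOverPrime q) {m : ℤ} (hm : (m : AlgebraicClosure ℚ) ∈ A.nonunits) :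
    (q : ℤ) ∣ m := by
  by_contra hcon
  have hco : IsCoprime (q : ℤ) m := by
    rw [Int.isCoprime_iff_gcd_eq_one]
    have := (Int.natAbs_dvd_natAbs (a := (q : ℤ)) (b := m)).not.2 hcon
    rw [Int.natAbs_natCast] at this
    exact (Nat.Prime.coprime_iff_not_dvd hq).2 this
  obtain ⟨a, b, hab⟩ := hco
  have hq' : ((q : ℤ) : AlgebraicClosure ℚ) ∈ A.nonunits := by
    rw [Int.cast_natCast]; exact hA
  have h1 : A.valuation (1 : AlgebraicClosure ℚ) < 1 := by
    have : (1 : AlgebraicClosure ℚ) = (a : AlgebraicClosure ℚ) * ((q : ℤ) : AlgebraicClosure ℚ)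
        + (b : AlgebraicClosure ℚ) * (m : AlgebraicClosure ℚ) := by
      exact_mod_cast hab.symm
    rw [this]
    have hle : ∀ c : ℤ, A.valuation (c : AlgebraicClosure ℚ) ≤ 1 := fun c =>
      (A.valuation_le_one_iff _).2 (intCast_mem A c)
    refine lt_of_le_of_lt (Valuation.map_add _ _ _) (max_lt ?_ ?_)
    · rw [map_mul]
      exact lt_of_le_of_lt (mul_le_mul_left (hle a) _) (by rw [one_mul]; exact hq')
    · rw [map_mul]
      exact lt_of_le_of_lt (mul_le_mul_left (hle b) _) (by rw [one_mul]; exact hm)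
  rw [map_one] at h1
  exact lt_irrefl _ h1

/-- an algebraic integer is fixed by inertia outside a finite set of primes -/
lemma exists_finset_fixed_integral (x : AlgebraicClosure ℚ) (hx : IsIntegral ℤ x) :
    ∃ S : Finset Nat.Primes, ∀ q ∉ S, ∀ A : ValuationSubring (AlgebraicClosure ℚ),
      A.LiesOverPrime (q : ℕ) → ∀ σ ∈ A.inertiaSubgroupIn ℚ, σ x = x := by
  classical
  -- conjugates
  let R : Finset (AlgebraicClosure ℚ) := ((minpoly ℚ x).aroots (AlgebraicClosure ℚ)).toFinset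
  have hR : ∀ σ : AlgebraicClosure ℚ ≃ₐ[ℚ] AlgebraicClosure ℚ, σ x ∈ R := by
    intro σ
    rw [Multiset.mem_toFinset, Polynomial.mem_aroots]
    refine ⟨minpoly.ne_zero (hx.tower_top), ?_⟩
    rw [Polynomial.aeval_algHom_apply, minpoly.aeval, map_zero]
  have hint : ∀ σ : AlgebraicClosure ℚ ≃ₐ[ℚ] AlgebraicClosure ℚ, IsIntegral ℤ (σ x - x) :=
    fun σ => (hx.map (σ.toAlgHom.restrictScalars ℤ)).sub hx
  -- integers
  have h1 : ∀ t : AlgebraicClosure ℚ, ∃ m : ℤ, m ≠ 0 ∧ (t ≠ 0 → IsIntegral ℤ t →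
      ∃ y : AlgebraicClosure ℚ, IsIntegral ℤ y ∧ (m : AlgebraicClosure ℚ) = t * y) := by
    intro t
    by_cases h : t ≠ 0 ∧ IsIntegral ℤ t
    · obtain ⟨m, hm, hy⟩ := exists_int_mul t h.2 h.1
      exact ⟨m, hm, fun _ _ => hy⟩
    · exact ⟨1, one_ne_zero, fun h2 h3 => absurd ⟨h2, h3⟩ h⟩
  choose m hm0 hm using h1
  let N : ℕ := ∏ y ∈ R, (m (y - x)).natAbs
  have hN : N ≠ 0 := Finset.prod_ne_zero_iff.2 fun y _ => Int.natAbs_ne_zero.2 (hm0 _)
  refine ⟨(N.primeFactors.attach).image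
    (fun q => (⟨q.1, Nat.prime_of_mem_primeFactors q.2⟩ : Nat.Primes)),
    fun q hq A hA σ hσ => ?_⟩
  by_contra hne
  apply hq
  have hσ' := ((H63.mem_inertiaSubgroupIn_iff A σ).1 hσ).2 x (mem_of_isIntegral A hx)
  obtain ⟨y, hy, hmy⟩ := hm (σ x - x) (sub_ne_zero.2 hne) (hint σ)
  have h2 : ((m (σ x - x) : ℤ) : AlgebraicClosure ℚ) ∈ A.nonunits := by
    rw [hmy]
    show A.valuation _ < 1
    rw [map_mul, mul_comm]
    exact lt_of_le_of_lt (mul_le_mul_left ((A.valuation_le_one_iff _).2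
      (mem_of_isIntegral A hy)) _) (by rw [one_mul]; exact hσ')
  have h3 := dvd_of_mem_nonunits q.2 hA h2
  have h4 : (q : ℕ) ∣ N := by
    have h5 : (q : ℕ) ∣ (m (σ x - x)).natAbs := by
      have := Int.natAbs_dvd_natAbs.2 h3
      rwa [Int.natAbs_natCast] at this
    exact h5.trans (Finset.dvd_prod_of_mem (fun y => (m (y - x)).natAbs) (hR σ))
  exact Finset.mem_image.2
    ⟨⟨(q : ℕ), Nat.mem_primeFactors.2 ⟨q.2, h4, hN⟩⟩, Finset.mem_attach _ _, Subtype.ext rfl⟩

lemma exists_finset_fixed (x : AlgebraicClosure ℚ) :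
    ∃ S : Finset Nat.Primes, ∀ q ∉ S, ∀ A : ValuationSubring (AlgebraicClosure ℚ),
      A.LiesOverPrime (q : ℕ) → ∀ σ ∈ A.inertiaSubgroupIn ℚ, σ x = x := by
  have halg : IsAlgebraic ℤ x :=
    (IsFractionRing.isAlgebraic_iff ℤ ℚ (AlgebraicClosure ℚ)).2
      (AlgebraicClosure.isAlgebraic ℚ |>.isAlgebraic x)
  obtain ⟨y, hy0, hy⟩ := halg.exists_integral_multiple
  obtain ⟨S, hS⟩ := exists_finset_fixed_integral (y • x) hy
  refine ⟨S, fun q hq A hA σ hσ => ?_⟩
  have h1 := hS q hq A hA σ hσ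
  rw [Algebra.smul_def, map_mul] at h1
  have h2 : (algebraMap ℤ (AlgebraicClosure ℚ)) y = (y : AlgebraicClosure ℚ) :=
    eq_intCast _ _
  rw [h2, map_intCast] at h1
  exact mul_left_cancel₀ (Int.cast_ne_zero.2 hy0) h1

/-- every finite extension of `ℚ` is unramified outside a finite set of primes -/
lemma exists_isUnramifiedOutside (F : IntermediateField ℚ (AlgebraicClosure ℚ))
    [FiniteDimensional ℚ F] : ∃ S : Finset Nat.Primes, F.IsUnramifiedOutside S := by
  classical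
  choose S hS using exists_finset_fixed
  let b := Module.finBasis ℚ F
  refine ⟨Finset.univ.biUnion fun i => S (b i : AlgebraicClosure ℚ), inferInstance,
    fun q hq A hA σ hσ => ?_⟩
  rw [Finset.mem_biUnion] at hq
  push Not at hq
  rw [IntermediateField.mem_fixingSubgroup_iff]
  intro x hx
  have hb : ∀ i, σ (b i : AlgebraicClosure ℚ) = (b i : AlgebraicClosure ℚ) := fun i =>
    hS _ q (hq i (Finset.mem_univ i)) A hA σ hσ
  have h1 := b.sum_repr ⟨x, hx⟩
  have h2 : x = ∑ i, algebraMap ℚ (AlgebraicClosure ℚ) (b.repr ⟨x, hx⟩ i)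
      * (b i : AlgebraicClosure ℚ) := by
    have := congrArg (F.val) h1
    rw [map_sum] at this
    rw [show F.val ⟨x, hx⟩ = x from rfl] at this
    refine this.symm.trans (Finset.sum_congr rfl fun i _ => ?_)
    rw [Algebra.smul_def, map_mul]
    rfl
  show σ x = x
  rw [h2, map_sum]
  exact Finset.sum_congr rfl fun i _ => by rw [map_mul, hb i, AlgEquiv.commutes]

lemma isUnramifiedOutside_mono {F : IntermediateField ℚ (AlgebraicClosure ℚ)}
    {S S' : Finset Nat.Primes} (h : S ⊆ S') (hF : F.IsUnramifiedOutside S) :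
    F.IsUnramifiedOutside S' :=
  ⟨hF.1, fun q hq => hF.2 q fun h' => hq (h h')⟩

/-- open subgroups are unramified outside a finite set of primes -/
lemma exists_ramLevels_op {U : Subgroup GQ} (hU : krullLevels.op U) :
    ∃ S₀ : Finset Nat.Primes, ∀ S, S₀ ⊆ S → (ramLevels S).op U := by
  obtain ⟨F, hF, hle⟩ := (krullLevels_op_iff U).1 hU
  obtain ⟨S, hS⟩ := exists_isUnramifiedOutside F
  exact ⟨S, fun S' hS' => (ramLevels_op_iff S' U).2 ⟨F, isUnramifiedOutside_mono hS' hS, hle⟩⟩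

end

end Fermat.Agent.H75
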