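import Mathlib
import Fermat.Agent.H55Level

/-!
# Restriction to a normal subgroup of index prime to `p` (S56, Euler characteristic)
-/

set_option autoImplicit false

namespace Fermat.Agent.H82

open Fermat.Agent.H55

section

variable {p : ℕ} [Fact p.Prime] {G M : Type*} [Group G] [AddCommGroup M] [Module (ZMod p) M]

/-- level constant homomorphisms `U → M` equivariant under conjugation by `C` -/
def XC (𝓛 : Levels G) (C U : Subgroup G) (ρ : Representation (ZMod p) G M) :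
    Submodule (ZMod p) (U → M) where
  carrier := {f | LC1 (𝓛.onSub U) f ∧ (∀ u v, f (u * v) = f u + f v) ∧
    ∀ c ∈ C, ∀ u v : U, (v : G) = c * u * c⁻¹ → f v = ρ c (f u)}
  add_mem' {f f'} hf hf' := ⟨(C1 (𝓛.onSub U) (ZMod p) M).add_mem hf.1 hf'.1, fun u v => by
    simp only [Pi.add_apply, hf.2.1, hf'.2.1]; abel, fun c hc u v h => by
    simp only [Pi.add_apply, hf.2.2 c hc u v h, hf'.2.2 c hc u v h, map_add]⟩
  zero_mem' := ⟨(C1 (𝓛.onSub U) (ZMod p) M).zero_mem, fun u v => by simp, fun c hc u v h => by simp⟩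
  smul_mem' a f hf := ⟨(C1 (𝓛.onSub U) (ZMod p) M).smul_mem a hf.1, fun u v => by
    simp only [Pi.smul_apply, hf.2.1, smul_add], fun c hc u v h => by
    simp only [Pi.smul_apply, hf.2.2 c hc u v h, map_smul]⟩

variable {𝓛 : Levels G} {C U : Subgroup G} {ρ : Representation (ZMod p) G M}

theorem mem_XC {f : U → M} : f ∈ XC 𝓛 C U ρ ↔ LC1 (𝓛.onSub U) f ∧
    (∀ u v, f (u * v) = f u + f v) ∧
    ∀ c ∈ C, ∀ u v : U, (v : G) = c * u * c⁻¹ → f v = ρ c (f u) := Iff.rfl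

theorem XC.map_one {f : U → M} (hf : f ∈ XC 𝓛 C U ρ) : f 1 = 0 := by
  have := hf.2.1 1 1
  rw [mul_one] at this
  simpa using this

theorem cocycle_one {f : C → M} (hf : f ∈ Z1 (𝓛.onSub C) (ρ.comp C.subtype)) : f 1 = 0 := by
  have := hf.2 1 1
  rw [mul_one, _root_.map_one] at this
  simpa using this

/-- restriction of cocycles -/
noncomputable def resC (hC : U ≤ C) (hρ : ∀ u ∈ U, ρ u = 1) :
    Z1 (𝓛.onSub C) (ρ.comp C.subtype) →ₗ[ZMod p] XC 𝓛 C U ρ where
  toFun f := ⟨fun u => (f : C → M) ⟨u, hC u.2⟩, by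
    obtain ⟨f, hf⟩ := f
    refine ⟨?_, ?_, ?_⟩
    · obtain ⟨V, ⟨W, hW, hle⟩, h⟩ := hf.1
      refine ⟨W.subgroupOf U, ⟨W, hW, le_rfl⟩, fun g s hs => ?_⟩
      exact h ⟨g, hC g.2⟩ ⟨s, hC s.2⟩ (hle (show (s : G) ∈ W from hs))
    · intro u v
      have := hf.2 ⟨u, hC u.2⟩ ⟨v, hC v.2⟩
      have h2 : (ρ.comp C.subtype) ⟨u, hC u.2⟩ = 1 := hρ u u.2
      rw [h2] at this
      rw [add_comm]
      exact this
    · intro c hc u v huv
      have h1 : (⟨v, hC v.2⟩ : C) * ⟨c, hc⟩ = ⟨c, hc⟩ * ⟨u, hC u.2⟩ := by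
        ext
        simp only [Subgroup.coe_mul, huv]
        group
      have h2 := hf.2 ⟨v, hC v.2⟩ ⟨c, hc⟩
      have h3 := hf.2 ⟨c, hc⟩ ⟨u, hC u.2⟩
      have h4 : (ρ.comp C.subtype) ⟨v, hC v.2⟩ = 1 := hρ v v.2
      rw [h1, h3, h4] at h2
      simp only [Module.End.one_apply] at h2
      have h5 : (ρ.comp C.subtype) ⟨c, hc⟩ = ρ c := rfl
      rw [h5, add_comm] at h2
      exact (add_left_cancel h2).symm⟩
  map_add' f f' := rfl
  map_smul' a f := rfl

@[simp] theorem resC_apply (hC : U ≤ C) (hρ : ∀ u ∈ U, ρ u = 1)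
    (f : Z1 (𝓛.onSub C) (ρ.comp C.subtype)) (u : U) :
    (resC hC hρ f : U → M) u = (f : C → M) ⟨u, hC u.2⟩ := rfl

theorem resC_ker (hUo : 𝓛.op U) (hC : U ≤ C) (hρ : ∀ u ∈ U, ρ u = 1)
    (hcop : ¬ p ∣ (U.subgroupOf C).index) :
    LinearMap.ker (resC (𝓛 := 𝓛) hC hρ) =
      (B1 (ρ.comp C.subtype)).comap (Z1 (𝓛.onSub C) (ρ.comp C.subtype)).subtype := by
  classical
  ext ⟨f, hf⟩
  rw [LinearMap.mem_ker, Submodule.mem_comap, Submodule.subtype_apply]
  constructor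
  · intro h
    have hfU : ∀ u : C, (u : G) ∈ U → f u = 0 := fun u hu =>
      congrFun (congrArg Subtype.val h) ⟨u, hu⟩
    have hfi : U.FiniteIndex := 𝓛.finiteIndex hUo
    have hfin : Finite (C ⧸ U.subgroupOf C) := (U.subgroupOf C).finite_quotient_of_finiteIndex
    have := Fintype.ofFinite (C ⧸ U.subgroupOf C)
    -- `f` factors through the quotient
    have hinv : ∀ g u : C, (u : G) ∈ U → f (g * u) = f g := by
      intro g u hu
      rw [hf.2, hfU u hu, map_zero, zero_add]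
    let fb : C ⧸ U.subgroupOf C → M := Quotient.lift f (by
      intro a b hab
      have h1 : a⁻¹ * b ∈ U.subgroupOf C := QuotientGroup.leftRel_apply.1 hab
      have h2 : b = a * (a⁻¹ * b) := by group
      rw [h2]
      exact (hinv a (a⁻¹ * b) (show ((a⁻¹ * b : C) : G) ∈ U from h1)).symm)
    have hfb : ∀ g : C, fb (g : C ⧸ U.subgroupOf C) = f g := fun g => rfl
    have hm : ((U.subgroupOf C).index : ZMod p) ≠ 0 := by
      rwa [Ne, ZMod.natCast_eq_zero_iff]
    refine ⟨-((U.subgroupOf C).index : ZMod p)⁻¹ • ∑ y, fb y, ?_⟩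
    funext g
    have h1 : ∑ y, fb y = ∑ y, ((ρ.comp C.subtype) g (fb y) + f g) := by
      rw [← (MulAction.bijective g).sum_comp (fun y => fb y)]
      refine Finset.sum_congr rfl fun y _ => ?_
      induction y using QuotientGroup.induction_on with
      | H z =>
        have h2 : g • (z : C ⧸ U.subgroupOf C) = ((g * z : C) : C ⧸ U.subgroupOf C) := rfl
        rw [h2, hfb, hfb, hf.2]
    rw [Finset.sum_add_distrib, ← map_sum, Finset.sum_const, Finset.card_univ,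
      ← Nat.card_eq_fintype_card] at h1
    have h3 : Nat.card (C ⧸ U.subgroupOf C) = (U.subgroupOf C).index := rfl
    rw [h3] at h1
    set s := ∑ y, fb y with hs
    rw [d0_apply, map_smul]
    have h4 : (ρ.comp C.subtype) g s = s - (U.subgroupOf C).index • f g := by
      rw [eq_sub_iff_add_eq]; exact h1.symm
    rw [h4, smul_sub, sub_sub_cancel_left, neg_smul, neg_neg, ← Nat.cast_smul_eq_nsmul (ZMod p),
      smul_smul, inv_mul_cancel₀ hm, one_smul]
  · rintro ⟨a, ha⟩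
    apply Subtype.ext
    funext u
    have h1 : f ⟨u, hC u.2⟩ = 0 := by
      have h2 := congrFun ha ⟨u, hC u.2⟩
      have : (ρ.comp C.subtype) ⟨u, hC u.2⟩ = 1 := hρ u u.2
      rw [d0_apply, this, Module.End.one_apply, sub_self] at h2
      exact h2.symm
    exact h1

theorem resC_surjective [hU : U.Normal] (hUo : 𝓛.op U) (hC : U ≤ C) (hρ : ∀ u ∈ U, ρ u = 1)
    (hcop : ¬ p ∣ (U.subgroupOf C).index) :
    Function.Surjective (resC (𝓛 := 𝓛) (ρ := ρ) hC hρ) := by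
  classical
  rintro ⟨f, hf⟩
  have hfi : U.FiniteIndex := 𝓛.finiteIndex hUo
  have hfin : Finite (C ⧸ U.subgroupOf C) := (U.subgroupOf C).finite_quotient_of_finiteIndex
  have := Fintype.ofFinite (C ⧸ U.subgroupOf C)
  have hm : ((U.subgroupOf C).index : ZMod p) ≠ 0 := by
    rwa [Ne, ZMod.natCast_eq_zero_iff]
  set Q := C ⧸ U.subgroupOf C
  let s : Q → C := Quotient.out
  have hs : ∀ y : Q, ((s y : C) : Q) = y := fun y => QuotientGroup.out_eq' y
  have hmem : ∀ (g : C) (y : Q), (((s y)⁻¹ * g * s (g⁻¹ • y) : C) : G) ∈ U := by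
    intro g y
    have h1 : (((s y) : C) : Q) = ((g * s (g⁻¹ • y) : C) : Q) := by
      have h2 : ((g * s (g⁻¹ • y) : C) : Q) = g • ((s (g⁻¹ • y) : C) : Q) := rfl
      rw [h2, hs, hs, smul_inv_smul]
    have h3 := QuotientGroup.eq.1 h1
    rw [← mul_assoc] at h3
    exact h3
  let e : C → Q → U := fun g y => ⟨_, hmem g y⟩
  have he : ∀ g y, ((e g y : U) : G) = (s y : G)⁻¹ * g * s (g⁻¹ • y) := fun g y => rfl
  have hemul : ∀ g h y, e (g * h) y = e g y * e h (g⁻¹ • y) := by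
    intro g h y
    apply Subtype.ext
    have h1 : (g * h)⁻¹ • y = h⁻¹ • (g⁻¹ • y) := by rw [mul_inv_rev, mul_smul]
    have h2 : ((e g y * e h (g⁻¹ • y) : U) : G) = (e g y : G) * (e h (g⁻¹ • y) : G) := rfl
    rw [h2, he, he, he, h1, Subgroup.coe_mul]
    group
  have hρs : ∀ (g : C) (y : Q), ρ (s (g • y)) = ρ g * ρ (s y) := by
    intro g y
    have h1 : ((s (g • y) : C) : Q) = ((g * s y : C) : Q) := by
      have h2 : ((g * s y : C) : Q) = g • ((s y : C) : Q) := rfl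
      rw [h2, hs, hs]
    have h3 : (((s (g • y))⁻¹ * (g * s y) : C) : G) ∈ U :=
      (QuotientGroup.eq (s := U.subgroupOf C)).1 h1
    have h4 : ((g : G) * s y) = s (g • y) * (((s (g • y))⁻¹ * (g * s y) : C) : G) := by
      simp only [Subgroup.coe_mul, InvMemClass.coe_inv]
      group
    rw [← map_mul, h4, map_mul, hρ _ h3, mul_one]
  set m := (U.subgroupOf C).index with hmdef
  have hcard : (Finset.univ : Finset Q).card = m := by
    rw [Finset.card_univ, ← Nat.card_eq_fintype_card]; rfl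
  let c : C → M := fun g => (m : ZMod p)⁻¹ • ∑ y, ρ (s y) (f (e g y))
  have hcoc : ∀ g h, c (g * h) = (ρ.comp C.subtype) g (c h) + c g := by
    intro g h
    simp only [c]
    rw [map_smul, ← smul_add, map_sum]
    congr 1
    have h1 : ∑ y, ρ (s y) (f (e (g * h) y)) =
        ∑ y, ρ (s y) (f (e g y)) + ∑ y, ρ (s y) (f (e h (g⁻¹ • y))) := by
      rw [← Finset.sum_add_distrib]
      refine Finset.sum_congr rfl fun y _ => ?_
      rw [hemul, hf.2.1, map_add]
    have h2 : ∑ y, ρ (s y) (f (e h (g⁻¹ • y))) = ∑ y, (ρ.comp C.subtype) g (ρ (s y) (f (e h y))) := by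
      rw [← (MulAction.bijective g).sum_comp (fun y => ρ (s y) (f (e h (g⁻¹ • y))))]
      refine Finset.sum_congr rfl fun y _ => ?_
      rw [inv_smul_smul, hρs]
      rfl
    rw [h1, h2, add_comm]
  have hres : ∀ u : U, c ⟨u, hC u.2⟩ = f u := by
    intro u
    simp only [c]
    have h1 : ∀ y : Q, ρ (s y) (f (e ⟨u, hC u.2⟩ y)) = f u := by
      intro y
      have h2 : (⟨u, hC u.2⟩ : C)⁻¹ • y = y := by
        conv_lhs => rw [← hs y]
        conv_rhs => rw [← hs y]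
        have h3 : (⟨u, hC u.2⟩ : C)⁻¹ • ((s y : C) : Q) =
          (((⟨u, hC u.2⟩ : C)⁻¹ * s y : C) : Q) := rfl
        rw [h3, QuotientGroup.eq]
        change ((((⟨u, hC u.2⟩ : C)⁻¹ * s y)⁻¹ * s y : C) : G) ∈ U
        have h4 : ((((⟨u, hC u.2⟩ : C)⁻¹ * s y)⁻¹ * s y : C) : G) =
          (s y : G)⁻¹ * u * (s y : G)⁻¹⁻¹ := by
          simp only [Subgroup.coe_mul, InvMemClass.coe_inv]
          group
        rw [h4]
        exact hU.conj_mem _ u.2 _
      have h5 : (u : G) = (s y : G) * (e ⟨u, hC u.2⟩ y : G) * (s y : G)⁻¹ := by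
        rw [he, h2]
        group
      exact (hf.2.2 (s y) (s y).2 _ _ h5).symm
    rw [Finset.sum_congr rfl (fun y _ => h1 y), Finset.sum_const, hcard,
      ← Nat.cast_smul_eq_nsmul (ZMod p), smul_smul, inv_mul_cancel₀ hm, one_smul]
  have hlc : LC1 (𝓛.onSub C) c := by
    obtain ⟨V, ⟨W, hW, hle⟩, h⟩ := hf.1
    refine ⟨(W ⊓ U).subgroupOf C, ⟨_, 𝓛.op_inf hW hUo, le_rfl⟩, fun g t ht => ?_⟩
    have ht' : (t : G) ∈ W ⊓ U := ht
    rw [hcoc]
    have h1 : c t = 0 := by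
      have h2 := hres ⟨t, ht'.2⟩
      have h3 : f ⟨t, ht'.2⟩ = 0 := by
        have h4 := h 1 ⟨t, ht'.2⟩ (hle (show (t : G) ∈ W from ht'.1))
        rw [one_mul, XC.map_one hf] at h4
        exact h4
      rw [h3] at h2
      exact h2
    rw [h1, map_zero, zero_add]
  refine ⟨⟨c, hlc, hcoc⟩, ?_⟩
  apply Subtype.ext
  funext u
  exact hres u

/-- `H¹(C, M) ≃ Hom(U, M)^C` -/
noncomputable def H1EquivXC [hU : U.Normal] (hUo : 𝓛.op U) (hC : U ≤ C) (hρ : ∀ u ∈ U, ρ u = 1)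
    (hcop : ¬ p ∣ (U.subgroupOf C).index) :
    H1 (𝓛.onSub C) (ρ.comp C.subtype) ≃ₗ[ZMod p] XC 𝓛 C U ρ :=
  (Submodule.quotEquivOfEq _ _ (resC_ker hUo hC hρ hcop).symm).trans
    ((resC (𝓛 := 𝓛) hC hρ).quotKerEquivOfSurjective (resC_surjective hUo hC hρ hcop))

end

end Fermat.Agent.H82
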