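import Mathlib
import Fermat.Agent.H82CYRes
import Fermat.Agent.H64A1
import Fermat.Agent.H56ECDefs
import Fermat.Agent.H54TotRam

/-!
# Equivariant Kummer theory (S56, CY-A)
-/

set_option autoImplicit false
set_option maxSynthPendingDepth 3

open NumberField IsDedekindDomain Module ExtCitation
open Fermat.Agent.H55 Fermat.Agent.H56 Fermat.Agent.H64

namespace Fermat.Agent.H82

local notation "Qb" => AlgebraicClosure ℚ
local notation "GQ" => (AlgebraicClosure ℚ ≃ₐ[ℚ] AlgebraicClosure ℚ)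

section units

variable {S : Finset Nat.Primes}

theorem ES_root {K : Type} [Field K] {p : ℕ} (hp : 0 < p) {z : Kˣ} (h : z ^ p ∈ ES S K) :
    z ∈ ES S K := by
  obtain ⟨n, h1, h2⟩ := h
  have key : ∀ w : K, IsIntegral ℤ ((SInt S : K) ^ n * w ^ p) →
      IsIntegral ℤ ((SInt S : K) ^ n * w) := by
    intro w hw
    refine IsIntegral.of_pow hp ?_
    have e : ((SInt S : K) ^ n * w) ^ p =
        (SInt S : K) ^ (n * (p - 1)) * ((SInt S : K) ^ n * w ^ p) := by
      rw [mul_pow, ← pow_mul, ← mul_assoc, ← pow_add]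
      congr 2
      obtain ⟨k, rfl⟩ := Nat.exists_eq_succ_of_ne_zero hp.ne'
      simp only [Nat.succ_sub_one]
      rw [Nat.succ_eq_add_one, mul_add, mul_one]
    rw [e]
    refine IsIntegral.mul ?_ hw
    have h0 : IsIntegral ℤ (SInt S : K) := by
      simpa using isIntegral_algebraMap (R := ℤ) (A := K) (x := (SInt S : ℤ))
    exact h0.pow _
  refine ⟨n, key _ ?_, key _ ?_⟩
  · rwa [Units.val_pow_eq_pow_val] at h1
  · have : (((z ^ p)⁻¹ : Kˣ) : K) = ((z⁻¹ : Kˣ) : K) ^ p := by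
      rw [← inv_pow, Units.val_pow_eq_pow_val]
    rwa [this] at h2

variable {K : Type*} [Field K] [NumberField K]

theorem valuation_SInt {v : HeightOneSpectrum (𝓞 K)}
    (hv : ∀ q ∈ S, ((q : ℕ) : 𝓞 K) ∉ v.asIdeal) : v.valuation K (SInt S : K) = 1 := by
  have h1 : ((SInt S : ℕ) : 𝓞 K) ∉ v.asIdeal := by
    rw [SInt, Nat.cast_prod]
    have hp : v.asIdeal.IsPrime := v.isPrime
    rw [hp.prod_mem_iff]
    rintro ⟨q, hq, h⟩
    exact hv q hq h
  have h2 : (SInt S : K) = algebraMap (𝓞 K) K (SInt S : ℕ) := by simp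
  rw [h2]
  exact (HeightOneSpectrum.valuation_eq_one_iff_notMem v).2 h1

theorem valuation_le_one_of_isIntegral (v : HeightOneSpectrum (𝓞 K)) {x : K}
    (hx : IsIntegral ℤ x) : v.valuation K x ≤ 1 :=
  v.valuation_le_one (K := K) (⟨x, hx⟩ : 𝓞 K)

theorem ES_le_VS (p : ℕ) {K : Type} [Field K] [NumberField K] : ES S K ≤ VS S K p := by
  rintro x ⟨n, h1, h2⟩ v hv
  have h3 := valuation_le_one_of_isIntegral v h1
  have h4 := valuation_le_one_of_isIntegral v h2
  rw [map_mul, map_pow, valuation_SInt hv, one_pow, one_mul, valuation_eq_exp] at h3 h4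
  rw [map_inv, toAdd_inv] at h4
  have h5 : Multiplicative.toAdd (v.valuationOfNeZero x) ≤ 0 := by
    rwa [← WithZero.exp_le_exp, WithZero.exp_zero]
  have h6 : -Multiplicative.toAdd (v.valuationOfNeZero x) ≤ 0 := by
    rwa [← WithZero.exp_le_exp, WithZero.exp_zero]
  have h7 : Multiplicative.toAdd (v.valuationOfNeZero x) = 0 := by omega
  rw [h7]
  exact dvd_zero _

end units

section kummer

variable {p : ℕ} [Fact p.Prime] {S : Finset Nat.Primes} {K : IntermediateField ℚ Qb}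
  [NumberField K] {ζ : Qb}

/-- the Kummer character of an element -/
noncomputable def kumF (hζ : IsPrimitiveRoot ζ p) (x : Kˣ) : K.fixingSubgroup → ZMod p :=
  (IsKummer.exists hζ x).choose

omit [NumberField K] in
theorem kumF_spec (hζ : IsPrimitiveRoot ζ p) (x : Kˣ) : IsKummer p ζ x (kumF hζ x) :=
  (IsKummer.exists hζ x).choose_spec

omit [NumberField K] in
theorem kumF_eq (hζ : IsPrimitiveRoot ζ p) (hζK : ζ ∈ K) {x : Kˣ} {f : K.fixingSubgroup → ZMod p}
    (hf : IsKummer p ζ x f) : kumF hζ x = f := (kumF_spec hζ x).unique hζ hζK hf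

/-- level constant characters of `Gal(ℚ̄/K)` -/
noncomputable abbrev Xt (p : ℕ) (S : Finset Nat.Primes) (K : IntermediateField ℚ Qb) :
    Submodule (ZMod p) (K.fixingSubgroup → ZMod p) :=
  Z1 ((ramLevels S).onSub K.fixingSubgroup)
    (Representation.trivial (ZMod p) K.fixingSubgroup (ZMod p))

variable (hζ : IsPrimitiveRoot ζ p) (hζK : ζ ∈ K) (hpS : pPrime p ∈ S)
  (hK : K.IsUnramifiedOutside S)

theorem pPrime_mem' (hpS : pPrime p ∈ S) : ∀ q : Nat.Primes, (q : ℕ) = p → q ∈ S := by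
  intro q hq
  have : q = pPrime p := Subtype.ext hq
  rwa [this]

/-- the Kummer map on `S`-units -/
noncomputable def kumES : Additive (ES S K) →+ Xt p S K where
  toFun x := ⟨kumF hζ (x.toMul : Kˣ), mem_Z1_trivial.2 ⟨by
    rw [← levelsS_eq]
    exact (kumF_spec hζ _).lc1 hζ hζK (pPrime_mem' hpS) hK (ES_le_VS p x.toMul.2),
    (kumF_spec hζ _).map_mul' hζ hζK⟩⟩
  map_zero' := Subtype.ext (kumF_eq hζ hζK (IsKummer.zero_iff.2 ⟨1, by simp⟩))
  map_add' x y := Subtype.ext (kumF_eq hζ hζK ((kumF_spec hζ _).mul hζ (kumF_spec hζ _)))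

/-- the Kummer map on `S`-units modulo `p`-th powers -/
noncomputable def kumN : ModN (Additive (ES S K)) p →ₗ[ZMod p] Xt p S K :=
  ModN.liftEquiv'.symm ⟨kumES hζ hζK hpS hK, fun g => by
    rw [← Nat.cast_smul_eq_nsmul (ZMod p), CharP.cast_eq_zero, zero_smul]⟩

theorem kumN_mkQ (x : Additive (ES S K)) :
    kumN hζ hζK hpS hK (ModN.mkQ p x) = kumES hζ hζK hpS hK x := rfl

theorem kumN_mkQ_apply (x : Additive (ES S K)) (u : K.fixingSubgroup) :
    (kumN hζ hζK hpS hK (ModN.mkQ p x) : K.fixingSubgroup → ZMod p) u =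
      kumF hζ (x.toMul : Kˣ) u := rfl

theorem kumN_injective : Function.Injective (kumN hζ hζK hpS hK) := by
  rw [← LinearMap.ker_eq_bot, LinearMap.ker_eq_bot']
  intro a ha
  obtain ⟨x, rfl⟩ := mkQ_surjective _ p a
  rw [kumN_mkQ] at ha
  have h1 : kumF hζ (x.toMul : Kˣ) = 0 := congrArg Subtype.val ha
  have h2 := kumF_spec hζ (x.toMul : Kˣ)
  rw [h1] at h2
  obtain ⟨z, hz⟩ := IsKummer.zero_iff.1 h2
  have hp : p.Prime := Fact.out
  have hzE : z ∈ ES S K := ES_root hp.pos (by rw [hz]; exact x.toMul.2)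
  have h3 : x = (p : ℤ) • (Additive.ofMul (⟨z, hzE⟩ : ES S K)) := by
    rw [natCast_zsmul]
    apply Additive.toMul.injective
    rw [toMul_nsmul]
    exact Subtype.ext hz.symm
  rw [h3]
  exact (Submodule.Quotient.mk_eq_zero _).2 ⟨_, rfl⟩

theorem kumN_surjective
    (hcl : ∀ x : Kˣ, x ∈ VS S K p → ∃ u ∈ ES S K, ∃ y : Kˣ, x = u * y ^ p) :
    Function.Surjective (kumN hζ hζK hpS hK) := by
  rintro ⟨f, hf⟩
  obtain ⟨h1, h2⟩ := mem_Z1_trivial.1 hf
  rw [← levelsS_eq] at h1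
  obtain ⟨x, hx, hxf⟩ := exists_isKummer hζ hζK hK h2 h1
  obtain ⟨u, hu, y, rfl⟩ := hcl x hx
  refine ⟨ModN.mkQ p (Additive.ofMul (⟨u, hu⟩ : ES S K)), Subtype.ext ?_⟩
  refine kumF_eq hζ hζK ?_
  have h3 : IsKummer p ζ ((y ^ p)⁻¹) (-(0 : K.fixingSubgroup → ZMod p)) :=
    (IsKummer.zero_iff.2 ⟨y, rfl⟩).inv hζ
  have h4 := hxf.mul hζ h3
  rw [neg_zero, add_zero, mul_inv_cancel_right] at h4
  exact h4

omit [NumberField K] in
theorem fix_normal (K : IntermediateField ℚ Qb) [Normal ℚ K] : (K.fixingSubgroup).Normal := by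
  have h : @Normal ℚ K _ _ (IntermediateField.algebra' K) := by
    convert (inferInstance : Normal ℚ K)
    exact Subsingleton.elim _ _
  rw [← @IntermediateField.restrictNormalHom_ker ℚ Qb _ _ _ K h]
  infer_instance

omit [NumberField K] in
theorem IsKummer.conj [hn : Normal ℚ K] {x : Kˣ} {f : K.fixingSubgroup → ZMod p}
    (hζ : IsPrimitiveRoot ζ p)
    (hf : IsKummer p ζ x f) (g : GQ) (f' : K.fixingSubgroup → ZMod p)
    (h : ∀ u v : K.fixingSubgroup, (v : GQ) = g * u * g⁻¹ →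
      f' v = (cycloChar p g : ZMod p) * f u) (x' : Kˣ)
    (hx' : ((x' : K) : Qb) = g ((x : K) : Qb)) : IsKummer p ζ x' f' := by
  obtain ⟨y, hy, hσ⟩ := hf
  refine ⟨g y, by rw [← map_pow, hy, hx'], fun v => ?_⟩
  have hN : (K.fixingSubgroup).Normal := fix_normal K
  have hmem : g⁻¹ * (v : GQ) * g ∈ K.fixingSubgroup := by
    have := hN.conj_mem _ v.2 g⁻¹
    rwa [inv_inv] at this
  rw [h ⟨_, hmem⟩ v (by group)]
  have h1 := hσ ⟨_, hmem⟩
  have h2 : (v : GQ) (g y) = g ((g⁻¹ * (v : GQ) * g) y) := by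
    rw [AlgEquiv.mul_apply, AlgEquiv.mul_apply]
    exact (AlgEquiv.apply_symm_apply g _).symm
  rw [h2]
  have h3 : (g⁻¹ * (v : GQ) * g) y = ζ ^ (f ⟨_, hmem⟩).val * y := h1
  have hp : p.Prime := Fact.out
  rw [h3, map_mul, map_pow, H54.cycloChar_spec p g hζ.pow_eq_one, ← pow_mul, ZMod.val_mul]
  congr 1
  have h4 := pow_mod_orderOf ζ ((cycloChar p g : ZMod p).val * (f ⟨_, hmem⟩).val)
  rw [← hζ.eq_orderOf] at h4
  exact h4.symm

omit [Fact p.Prime] [NumberField K] in
/-- the image of a `S`-unit under an automorphism of `ℚ̄` -/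
theorem coe_smul_ES' [Normal ℚ K] (g : GQ) (x : Additive (ES S K)) :
    (((((AlgEquiv.restrictNormalHom K g : K ≃ₐ[ℚ] K) • x).toMul : Kˣ) : K) : Qb) =
      g (((x.toMul : Kˣ) : K) : Qb) := by
  rw [coe_smul_ES]
  exact AlgEquiv.restrictNormal_commutes g K _

theorem kumN_smul [Normal ℚ K] (g : GQ) (a : ModN (Additive (ES S K)) p)
    (u v : K.fixingSubgroup) (h : (v : GQ) = g * u * g⁻¹) :
    (kumN hζ hζK hpS hK ((unitRep p S K) (AlgEquiv.restrictNormalHom K g) a) :
      K.fixingSubgroup → ZMod p) v =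
      (cycloChar p g : ZMod p) * (kumN hζ hζK hpS hK a : K.fixingSubgroup → ZMod p) u := by
  obtain ⟨x, rfl⟩ := mkQ_surjective _ p a
  rw [repN_mkQ, kumN_mkQ_apply, kumN_mkQ_apply]
  have hN : (K.fixingSubgroup).Normal := fix_normal K
  have hmem : ∀ v : K.fixingSubgroup, g⁻¹ * (v : GQ) * g ∈ K.fixingSubgroup := by
    intro v
    have := hN.conj_mem _ v.2 g⁻¹
    rwa [inv_inv] at this
  have key := (IsKummer.conj hζ (kumF_spec hζ (x.toMul : Kˣ)) g
    (fun v => (cycloChar p g : ZMod p) * kumF hζ (x.toMul : Kˣ) ⟨_, hmem v⟩) (by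
      intro u v huv
      congr 2
      apply Subtype.ext
      show g⁻¹ * (v : GQ) * g = u
      rw [huv]; group) _ (coe_smul_ES' g x))
  rw [kumF_eq hζ hζK key]
  have h1 : (⟨_, hmem v⟩ : K.fixingSubgroup) = u := by
    apply Subtype.ext
    show g⁻¹ * (v : GQ) * g = u
    rw [h]; group
  show (cycloChar p g : ZMod p) * kumF hζ (x.toMul : Kˣ) ⟨_, hmem v⟩ = _
  rw [h1]

/-- Kummer isomorphism on `S`-units modulo `p`-th powers -/
noncomputable def kumEquiv
    (hcl : ∀ x : Kˣ, x ∈ VS S K p → ∃ u ∈ ES S K, ∃ y : Kˣ, x = u * y ^ p) :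
    ModN (Additive (ES S K)) p ≃ₗ[ZMod p] Xt p S K :=
  LinearEquiv.ofBijective (kumN hζ hζK hpS hK)
    ⟨kumN_injective hζ hζK hpS hK, kumN_surjective hζ hζK hpS hK hcl⟩

end kummer

section main

variable {p : ℕ} [Fact p.Prime] {S : Finset Nat.Primes} {K : IntermediateField ℚ Qb}
  [NumberField K] {ζ : Qb} {M : Type} [AddCommGroup M] [Module (ZMod p) M] [Finite M]
  {ρ : Representation (ZMod p) GQ M}

/-- composition of a homomorphism with linear forms -/
noncomputable def compX (C : Subgroup GQ) (f : XC (ramLevels S) C K.fixingSubgroup ρ) :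
    Dual (ZMod p) M →ₗ[ZMod p] Xt p S K where
  toFun l := ⟨fun u => l ((f : K.fixingSubgroup → M) u), mem_Z1_trivial.2 ⟨f.2.1.comp' l,
    fun u v => by rw [f.2.2.1, map_add]⟩⟩
  map_add' l l' := Subtype.ext (funext fun u => rfl)
  map_smul' a l := Subtype.ext (funext fun u => rfl)

omit [NumberField K] [Finite M] in
theorem compX_apply (C : Subgroup GQ) (f : XC (ramLevels S) C K.fixingSubgroup ρ)
    (l : Dual (ZMod p) M) (u : K.fixingSubgroup) :
    (compX C f l : K.fixingSubgroup → ZMod p) u = l ((f : K.fixingSubgroup → M) u) := rfl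

theorem sep_dual {m m' : M} (h : ∀ l : Dual (ZMod p) M, l m = l m') : m = m' := by
  rw [← sub_eq_zero, ← Module.forall_dual_apply_eq_zero_iff (ZMod p)]
  intro l
  rw [map_sub, h, sub_self]

variable (hζ : IsPrimitiveRoot ζ p) (hζK : ζ ∈ K) (hpS : pPrime p ∈ S)
  (hK : K.IsUnramifiedOutside S)
  (hcl : ∀ x : Kˣ, x ∈ VS S K p → ∃ u ∈ ES S K, ∃ y : Kˣ, x = u * y ^ p)

/-- the map `Hom_C(U, M) → Hom_C(M*(1), E_S/p)` -/
noncomputable def kumXC [Normal ℚ K] (C : Subgroup GQ) :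
    XC (ramLevels S) C K.fixingSubgroup ρ →ₗ[ZMod p]
      HomC C (dtw (cycloChar p) ρ) ((unitRep p S K).comp (AlgEquiv.restrictNormalHom K)) where
  toFun f := ⟨(kumEquiv hζ hζK hpS hK hcl).symm.toLinearMap.comp (compX C f), by
    intro c hc l
    have hN : (K.fixingSubgroup).Normal := fix_normal K
    apply (kumEquiv hζ hζK hpS hK hcl).injective
    simp only [LinearMap.comp_apply, LinearEquiv.coe_coe, LinearEquiv.apply_symm_apply,
      MonoidHom.comp_apply]
    apply Subtype.ext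
    funext v
    have hmem : c⁻¹ * (v : GQ) * c ∈ K.fixingSubgroup := by
      have := hN.conj_mem _ v.2 c⁻¹
      rwa [inv_inv] at this
    have h1 := kumN_smul hζ hζK hpS hK c
      ((kumEquiv hζ hζK hpS hK hcl).symm (compX C f l)) ⟨_, hmem⟩ v (by group)
    refine Eq.trans ?_ h1.symm
    have h2 : kumN hζ hζK hpS hK ((kumEquiv hζ hζK hpS hK hcl).symm (compX C f l)) =
      compX C f l := LinearEquiv.apply_symm_apply (kumEquiv hζ hζK hpS hK hcl) _
    rw [h2, compX_apply, compX_apply, dtw_apply]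
    have h3 := f.2.2.2 c hc ⟨_, hmem⟩ v (by group)
    rw [h3, ← Module.End.mul_apply, ← map_mul, inv_mul_cancel, map_one, Module.End.one_apply]⟩
  map_add' f g := by
    apply Subtype.ext
    apply LinearMap.ext
    intro l
    show (kumEquiv hζ hζK hpS hK hcl).symm (compX C (f + g) l) =
      (kumEquiv hζ hζK hpS hK hcl).symm (compX C f l) +
      (kumEquiv hζ hζK hpS hK hcl).symm (compX C g l)
    rw [← map_add]
    congr 1
    apply Subtype.ext
    funext u
    exact map_add l _ _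
  map_smul' a f := by
    apply Subtype.ext
    apply LinearMap.ext
    intro l
    show (kumEquiv hζ hζK hpS hK hcl).symm (compX C (a • f) l) =
      a • (kumEquiv hζ hζK hpS hK hcl).symm (compX C f l)
    rw [← map_smul]
    congr 1
    apply Subtype.ext
    funext u
    exact map_smul l _ _

theorem kumXC_injective [Normal ℚ K] (C : Subgroup GQ) :
    Function.Injective (kumXC (ρ := ρ) hζ hζK hpS hK hcl C) := by
  intro f g h
  apply Subtype.ext
  funext u
  refine sep_dual (p := p) fun l => ?_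
  have h1 : (kumEquiv hζ hζK hpS hK hcl).symm (compX C f l) =
      (kumEquiv hζ hζK hpS hK hcl).symm (compX C g l) :=
    LinearMap.congr_fun (congrArg Subtype.val h) l
  have h2 := (kumEquiv hζ hζK hpS hK hcl).symm.injective h1
  exact congrFun (congrArg Subtype.val h2) u

set_option maxHeartbeats 2000000 in
include hζ hζK hpS hK in
theorem exists_XC [Normal ℚ K] (C : Subgroup GQ)
    (φ : Dual (ZMod p) M →ₗ[ZMod p] ModN (Additive (ES S K)) p)
    (hφ : ∀ c ∈ C, ∀ l : Dual (ZMod p) M, φ (dtw (cycloChar p) ρ c l) =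
      (unitRep p S K) (AlgEquiv.restrictNormalHom K c) (φ l)) :
    ∃ f ∈ XC (ramLevels S) C K.fixingSubgroup ρ, ∀ u (l : Dual (ZMod p) M),
      l (f u) = (kumN hζ hζK hpS hK (φ l) : K.fixingSubgroup → ZMod p) u := by
  obtain ⟨κ, hκ⟩ : ∃ κ : ModN (Additive (ES S K)) p →ₗ[ZMod p] Xt p S K,
    κ = kumN hζ hζK hpS hK := ⟨_, rfl⟩
  -- the homomorphism
  let F : K.fixingSubgroup → Dual (ZMod p) (Dual (ZMod p) M) := fun u =>
    { toFun := fun l => (κ (φ l) : K.fixingSubgroup → ZMod p) u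
      map_add' := fun l l' => by rw [map_add, map_add]; rfl
      map_smul' := fun a l => by rw [map_smul, map_smul]; rfl }
  obtain ⟨f, hf⟩ : ∃ f : K.fixingSubgroup → M, ∀ u (l : Dual (ZMod p) M),
      l (f u) = (κ (φ l) : K.fixingSubgroup → ZMod p) u := by
    refine ⟨fun u => (Module.evalEquiv (ZMod p) M).symm (F u), fun u l => ?_⟩
    have h1 : Module.evalEquiv (ZMod p) M ((Module.evalEquiv (ZMod p) M).symm (F u)) = F u :=
      LinearEquiv.apply_symm_apply _ _
    exact LinearMap.congr_fun h1 l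
  refine ⟨f, ⟨?_, ?_, ?_⟩, fun u l => by rw [hf, hκ]⟩
  · have hfin : Finite (Dual (ZMod p) M) := Module.finite_of_finite (ZMod p)
    have h1 : LC1 ((ramLevels S).onSub K.fixingSubgroup)
        (fun u => fun l : Dual (ZMod p) M => (κ (φ l) : K.fixingSubgroup → ZMod p) u) :=
      LC1.pi fun l => (mem_Z1_trivial.1 (κ (φ l)).2).1
    obtain ⟨V, hV, h⟩ := h1
    refine ⟨V, hV, fun g s hs => sep_dual (p := p) fun l => ?_⟩
    exact (hf _ l).trans ((congrFun (h g s hs) l).trans (hf _ l).symm)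
  · intro u v
    refine sep_dual (p := p) fun l => ?_
    have h1 := (mem_Z1_trivial.1 (κ (φ l)).2).2 u v
    rw [← hf (u * v) l, ← hf u l, ← hf v l, ← map_add] at h1
    exact h1
  · intro c hc u v huv
    refine sep_dual (p := p) fun l => ?_
    -- `l ∘ ρ c`
    have h1 : l (ρ c (f u)) = (κ (φ (l ∘ₗ ρ c)) : K.fixingSubgroup → ZMod p) u :=
      hf u (l ∘ₗ ρ c)
    have h2 : dtw (cycloChar p) ρ c (l ∘ₗ ρ c) = (cycloChar p c : ZMod p) • l := by
      apply LinearMap.ext
      intro m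
      rw [dtw_apply, LinearMap.comp_apply, ← Module.End.mul_apply, ← map_mul, mul_inv_cancel,
        map_one, Module.End.one_apply]
      rfl
    have h3 : (cycloChar p c : ZMod p) • φ l =
        (unitRep p S K) (AlgEquiv.restrictNormalHom K c) (φ (l ∘ₗ ρ c)) :=
      (φ.map_smul _ _).symm.trans ((congrArg φ h2).symm.trans (hφ c hc (l ∘ₗ ρ c)))
    have h4 := kumN_smul hζ hζK hpS hK c (φ (l ∘ₗ ρ c)) u v huv
    have h5 : (cycloChar p c : ZMod p) • κ (φ l) =
        kumN hζ hζK hpS hK ((unitRep p S K) (AlgEquiv.restrictNormalHom K c)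
          (φ (l ∘ₗ ρ c))) := by
      rw [hκ, ← h3]
      exact (LinearMap.map_smul _ _ _).symm
    have h6 : (cycloChar p c : ZMod p) * (κ (φ l) : K.fixingSubgroup → ZMod p) v =
        (cycloChar p c : ZMod p) * (κ (φ (l ∘ₗ ρ c)) : K.fixingSubgroup → ZMod p) u := by
      rw [hκ] at h5 ⊢
      exact (congrFun (congrArg Subtype.val h5) v).trans h4
    exact (hf v l).trans ((mul_left_cancel₀ (Units.ne_zero (cycloChar p c)) h6).trans h1.symm)

set_option maxHeartbeats 2000000 in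
theorem kumXC_surjective [Normal ℚ K] (C : Subgroup GQ) :
    Function.Surjective (kumXC (ρ := ρ) hζ hζK hpS hK hcl C) := by
  rintro ⟨φ, hφ⟩
  obtain ⟨f, hfX, hf⟩ := exists_XC hζ hζK hpS hK C φ hφ
  refine ⟨⟨f, hfX⟩, ?_⟩
  apply Subtype.ext
  apply LinearMap.ext
  intro l
  show (kumEquiv hζ hζK hpS hK hcl).symm (compX C ⟨f, hfX⟩ l) = φ l
  rw [LinearEquiv.symm_apply_eq]
  apply Subtype.ext
  funext u
  exact hf u l

/-- `Hom_C(U, M) ≃ Hom_C(M*(1), E_S/p)` -/
noncomputable def XCEquiv [Normal ℚ K] (C : Subgroup GQ) :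
    XC (ramLevels S) C K.fixingSubgroup ρ ≃ₗ[ZMod p]
      HomC C (dtw (cycloChar p) ρ) ((unitRep p S K).comp (AlgEquiv.restrictNormalHom K)) :=
  LinearEquiv.ofBijective (kumXC hζ hζK hpS hK hcl C)
    ⟨kumXC_injective hζ hζK hpS hK hcl C, kumXC_surjective hζ hζK hpS hK hcl C⟩

include hζ hζK hpS hK hcl in
/-- **Equivariant Kummer theory.** -/
theorem finrank_H1_onSub (hp2 : p ≠ 2) [Normal ℚ K] {C : Subgroup GQ} (hC : K.fixingSubgroup ≤ C)
    (hcop : ¬ p ∣ (K.fixingSubgroup.subgroupOf C).index)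
    (hρ : ∀ σ ∈ K.fixingSubgroup, ρ σ = 1) :
    Module.Finite (ZMod p) (H1 ((ramLevels S).onSub C) (ρ.comp C.subtype)) ∧
    finrank (ZMod p) (H1 ((ramLevels S).onSub C) (ρ.comp C.subtype)) =
      finrank (ZMod p) (HomC C (dtw (cycloChar p) ρ)
        ((unitRep p S K).comp (AlgEquiv.restrictNormalHom K))) := by
  have hN : (K.fixingSubgroup).Normal := fix_normal K
  have hUo : (ramLevels S).op K.fixingSubgroup := (ramLevels_op_iff S _).2 ⟨K, hK, le_rfl⟩
  let e := (H1EquivXC (𝓛 := ramLevels S) hUo hC hρ hcop).trans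
    (XCEquiv (ρ := ρ) hζ hζK hpS hK hcl C)
  have hfin1 : FiniteDimensional (ZMod p) (H1 ((ramLevels S).onSub K.fixingSubgroup)
      (Representation.trivial (ZMod p) K.fixingSubgroup (ZMod p))) :=
    finiteDimensional_H1 hp2 hζ hζK (pPrime_mem' hpS) hK
  have hfin2 : Module.Finite (ZMod p) (Xt p S K) :=
    Module.Finite.of_injective (H1π ((ramLevels S).onSub K.fixingSubgroup)
      (Representation.trivial (ZMod p) K.fixingSubgroup (ZMod p)))
      (H1π_trivial_injective ((ramLevels S).onSub K.fixingSubgroup))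
  have hfin3 : Module.Finite (ZMod p) (ModN (Additive (ES S K)) p) :=
    Module.Finite.equiv (kumEquiv hζ hζK hpS hK hcl).symm
  have hfin4 : Module.Finite (ZMod p) (HomC C (dtw (cycloChar p) ρ)
        ((unitRep p S K).comp (AlgEquiv.restrictNormalHom K))) := inferInstance
  exact ⟨Module.Finite.equiv e.symm, e.finrank_eq⟩

end main

end Fermat.Agent.H82
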