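import Mathlib
import Fermat.Agent.H56CY1
import Fermat.Agent.H56Cl
import Fermat.Agent.H82CYA
import Fermat.Agent.H75Ram

set_option autoImplicit false
set_option maxSynthPendingDepth 3
set_option linter.unusedSectionVars false

/-!
# S56, Euler characteristic: the dimension of `H¹` for cyclic-type subgroups
-/

noncomputable section

open Module ExtCitation NumberField IsDedekindDomain
open Fermat.Agent.H55 Fermat.Agent.H47 Fermat.Agent.H64

namespace Fermat.Agent.H56

variable {p : ℕ} [Fact p.Prime]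

/-- for `S` large: `K` is unramified outside `S`, `p ∈ S`, the class group of `S`-integers is
trivial. -/
theorem exists_good (p : ℕ) [Fact p.Prime] (K : IntermediateField ℚ (AlgebraicClosure ℚ))
    [NumberField K] : ∃ S₁ : Finset Nat.Primes, ∀ S, S₁ ⊆ S →
      pPrime p ∈ S ∧ K.IsUnramifiedOutside S ∧ Subsingleton (ClT K (placesS S K)) := by
  classical
  have hfd : FiniteDimensional ℚ K := by
    have : FiniteDimensional ℚ K := inferInstance
    exact this
  obtain ⟨Sa, hSa⟩ := exists_cl K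
  obtain ⟨Sb, hSb⟩ := H75.exists_isUnramifiedOutside K
  refine ⟨insert (pPrime p) (Sa ∪ Sb), fun S hS => ⟨hS (Finset.mem_insert_self _ _), ?_, ?_⟩⟩
  · exact H75.isUnramifiedOutside_mono (fun x hx => hS (Finset.mem_insert_of_mem
      (Finset.mem_union_right _ hx))) hSb
  · exact hSa S fun x hx => hS (Finset.mem_insert_of_mem (Finset.mem_union_left _ hx))

/-- **CY** : dimension of `H¹` over subgroups `C ⊇ Gal(ℚ̄/K)` with `[C : Gal(ℚ̄/K)]` prime to
`p`. -/
theorem CY (hp2 : p ≠ 2) {M : Type} [AddCommGroup M] [Module (ZMod p) M]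
    [Finite M] (ρ : Representation (ZMod p) H91.GQ M)
    (K : IntermediateField ℚ (AlgebraicClosure ℚ)) [NumberField K] [Normal ℚ K]
    {ζ : AlgebraicClosure ℚ} (hζ : IsPrimitiveRoot ζ p) (hζK : ζ ∈ K)
    (hρ : ∀ σ ∈ K.fixingSubgroup, ρ σ = 1) (C : Subgroup H91.GQ) (hC : K.fixingSubgroup ≤ C)
    (hcop : ¬ p ∣ (K.fixingSubgroup.subgroupOf C).index) :
    ∃ S₁ : Finset Nat.Primes, ∀ S, S₁ ⊆ S →
      Module.Finite (ZMod p) (H1 ((ramLevels S).onSub C) (ρ.comp C.subtype)) ∧
      finrank (ZMod p) (H1 ((ramLevels S).onSub C) (ρ.comp C.subtype)) +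
        finrank (ZMod p) (invC C (dtw (cycloChar p) ρ)) =
      finrank (ZMod p) (invC C ρ) +
        ∑ q ∈ S, finrank (ZMod p) (EqFun (Dq q) C (dtw (cycloChar p) ρ)) +
        finrank (ZMod p) (EqFun archimedeanDecomposition C (dtw (cycloChar p) ρ)) := by
  obtain ⟨S₁, hS₁⟩ := exists_good p K
  refine ⟨S₁, fun S hS => ?_⟩
  obtain ⟨hpS, hK, hcl⟩ := hS₁ S hS
  obtain ⟨h1, h2⟩ := H82.finrank_H1_onSub hζ hζK hpS hK
    (fun x hx => exists_unit_mul_pow hcl x hx) hp2 hC hcop hρ
  refine ⟨h1, ?_⟩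
  rw [h2]
  exact finrank_HomC_unitRep hζ hζK hρ hC hcop S

end Fermat.Agent.H56
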