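import Mathlib
import Fermat.Agent.H56Defs
import Fermat.Agent.H73F6
import Fermat.Agent.H54Place
import Fermat.Agent.H54Frobenius
import Fermat.Agent.H87Res

set_option autoImplicit false
set_option maxSynthPendingDepth 3
set_option linter.style.haveILetI false
set_option linter.unusedSectionVars false

/-!
# S56-D : the dual of the adjoint representation, archimedean and global invariants
-/

noncomputable section

open Module ExtCitation
open Fermat.Agent.H55 Fermat.Agent.H53 Fermat.Agent.H56

namespace Fermat.Agent.H51Dual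

/-! ## linear algebra -/

section LA

variable (p : ℕ) [Fact p.Prime] (k : Type) [Field k] [Algebra (ZMod p) k]

/-- (D3) -/
theorem finrank_SL [Finite k] :
    finrank (ZMod p) (SL p k) = 3 * finrank (ZMod p) k := by
  have hfin : Module.Finite (ZMod p) k := Module.Finite.of_finite
  have h1 := LinearMap.finrank_range_add_finrank_ker
    ((Matrix.traceLinearMap (Fin 2) k k).restrictScalars (ZMod p))
  have hsurj : Function.Surjective
      ((Matrix.traceLinearMap (Fin 2) k k).restrictScalars (ZMod p)) := by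
    intro x
    refine ⟨!![x, 0; 0, 0], ?_⟩
    simp [Matrix.trace_fin_two]
  rw [LinearMap.range_eq_top.mpr hsurj, finrank_top, Module.finrank_matrix] at h1
  simp only [Fintype.card_fin] at h1
  have h2 : finrank (ZMod p) (SL p k) =
    finrank (ZMod p) (LinearMap.ker ((Matrix.traceLinearMap (Fin 2) k k).restrictScalars (ZMod p))) :=
    rfl
  rw [h2]
  omega

instance finite_SL [Finite k] : Finite (SL p k) := inferInstance

/-- the trace form on trace zero matrices -/
def form : SL p k →ₗ[ZMod p] SL p k →ₗ[ZMod p] ZMod p :=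
  LinearMap.mk₂ (ZMod p)
    (fun X Y => Algebra.trace (ZMod p) k ((X : M2 k) * (Y : M2 k)).trace)
    (fun X X' Y => by simp [add_mul])
    (fun a X Y => by simp)
    (fun X Y Y' => by simp [mul_add])
    (fun a X Y => by simp)

variable {p k} in
@[simp] lemma form_apply (X Y : SL p k) :
    form p k X Y = Algebra.trace (ZMod p) k ((X : M2 k) * (Y : M2 k)).trace := rfl

variable {p k} in
lemma eq_zero_of_trace [Finite k] {x : k} (h : ∀ a : k, Algebra.trace (ZMod p) k (x * a) = 0) :
    x = 0 := by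
  have hfin : Module.Finite (ZMod p) k := Module.Finite.of_finite
  have hnd := traceForm_nondegenerate (ZMod p) k
  exact hnd.1 x fun y => h y

lemma two_ne_zero' (hp2 : p ≠ 2) : (2 : k) ≠ 0 := by
  have : CharP k p := charP_of_injective_algebraMap (algebraMap (ZMod p) k).injective p
  intro h
  have h2 : ((2 : ℕ) : k) = 0 := by exact_mod_cast h
  rw [CharP.cast_eq_zero_iff k p] at h2
  exact hp2 ((Nat.prime_dvd_prime_iff_eq Fact.out Nat.prime_two).mp h2)

theorem form_injective [Finite k] (hp2 : p ≠ 2) : Function.Injective (form p k) := by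
  rw [injective_iff_map_eq_zero]
  intro X hX
  have h2 := two_ne_zero' p k hp2
  have key : ∀ Y : SL p k, Algebra.trace (ZMod p) k ((X : M2 k) * (Y : M2 k)).trace = 0 :=
    fun Y => by rw [← form_apply, hX]; rfl
  have htr : (X : M2 k) 0 0 + (X : M2 k) 1 1 = 0 := by
    have : (X : M2 k).trace = 0 := X.2
    rwa [Matrix.trace_fin_two] at this
  have h10 : (X : M2 k) 1 0 = 0 := eq_zero_of_trace fun a => by
    have := key ⟨!![0, a; 0, 0], by simp [Matrix.trace_fin_two]⟩
    simpa [Matrix.trace_fin_two, Matrix.mul_apply, Fin.sum_univ_two] using this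
  have h01 : (X : M2 k) 0 1 = 0 := eq_zero_of_trace fun a => by
    have := key ⟨!![0, 0; a, 0], by simp [Matrix.trace_fin_two]⟩
    simpa [Matrix.trace_fin_two, Matrix.mul_apply, Fin.sum_univ_two] using this
  have h00 : (X : M2 k) 0 0 = 0 := eq_zero_of_trace (p := p) fun a => by
    have := key ⟨!![a / 2, 0; 0, - (a / 2)], by simp [Matrix.trace_fin_two]⟩
    have h3 : ((X : M2 k) * (!![a / 2, 0; 0, - (a / 2)] : M2 k)).trace = (X : M2 k) 0 0 * a := by
      have h4 : (X : M2 k) 1 1 = - (X : M2 k) 0 0 := by linear_combination htr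
      simp only [Matrix.trace_fin_two, Matrix.mul_apply, Fin.sum_univ_two, Matrix.of_apply,
        Matrix.cons_val', Matrix.cons_val_zero, Matrix.cons_val_one, Matrix.cons_val_fin_one,
        mul_zero, add_zero, zero_add, h4]
      field_simp
      ring
    rw [← h3]
    exact this
  have h11 : (X : M2 k) 1 1 = 0 := by rw [h00, zero_add] at htr; exact htr
  refine Subtype.ext (Matrix.ext fun i j => ?_)
  fin_cases i <;> fin_cases j
  · exact h00
  · exact h01
  · exact h10
  · exact h11

/-- (D1) the trace form identifies the trace zero matrices with their dual -/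
def Phi [Finite k] (hp2 : p ≠ 2) : SL p k ≃ₗ[ZMod p] Module.Dual (ZMod p) (SL p k) :=
  have _ : Module.Finite (ZMod p) k := Module.Finite.of_finite
  LinearEquiv.ofInjectiveOfFinrankEq (form p k) (form_injective p k hp2)
    (Subspace.dual_finrank_eq (K := ZMod p) (V := SL p k)).symm

variable {p k} in
@[simp] lemma Phi_apply [Finite k] (hp2 : p ≠ 2) (X Y : SL p k) :
    Phi p k hp2 X Y = Algebra.trace (ZMod p) k ((X : M2 k) * (Y : M2 k)).trace := rfl

end LA

/-! ## the twisted adjoint representation -/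

section AdT

variable {p : ℕ} [Fact p.Prime] {k : Type} [Field k] [Algebra (ZMod p) k] {G : Type} [Group G]

variable (p) in
/-- `X ↦ det (r σ) • r σ * X * r σ⁻¹` -/
def adT (r : G →* M2 k) : Representation (ZMod p) G (SL p k) where
  toFun σ :=
    { toFun := fun X => ⟨(r σ).det • (r σ * X.1 * r σ⁻¹), by
        have hX : (X : M2 k).trace = 0 := X.2
        show ((r σ).det • (r σ * X.1 * r σ⁻¹)).trace = 0
        rw [Matrix.trace_smul, Matrix.trace_mul_comm, ← mul_assoc, rinv_mul, one_mul, hX,
          smul_zero]⟩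
      map_add' := fun X Y => by
        ext1; simp [mul_add, add_mul]
      map_smul' := fun a X => by
        ext1
        simp only [Submodule.coe_smul, mul_smul_comm, smul_mul_assoc, RingHom.id_apply]
        rw [smul_comm] }
  map_one' := by
    ext1 X; ext1; simp
  map_mul' σ τ := by
    ext1 X; ext1
    simp [mul_assoc, smul_smul]

@[simp] lemma coe_adT (r : G →* M2 k) (σ : G) (X : SL p k) :
    (adT p r σ X : M2 k) = (r σ).det • (r σ * X * r σ⁻¹) := rfl

/-- (D1) equivariance, general form -/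
theorem Phi_equivar' [Finite k] (hp2 : p ≠ 2) (χ : G →* (ZMod p)ˣ) (r : G →* M2 k)
    (hr : ∀ σ, (r σ).det = algebraMap (ZMod p) k (χ σ : ZMod p)) :
    Equivar (adT p r) (dtw χ (ad p r)) (Phi p k hp2).toLinearMap := by
  intro σ X
  refine LinearMap.ext fun Y => ?_
  rw [LinearEquiv.coe_coe, dtw_apply, Phi_apply]
  change _ = (χ σ : ZMod p) * Phi p k hp2 X (ad p r σ⁻¹ Y)
  rw [Phi_apply, coe_adT, coe_ad, hr, smul_mul_assoc, Matrix.trace_smul, smul_eq_mul,
    ← Algebra.smul_def, map_smul, smul_eq_mul, inv_inv]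
  congr 2
  rw [mul_assoc, mul_assoc, Matrix.trace_mul_comm]
  simp only [mul_assoc]

end AdT

/-- (D1) equivariance for the cyclotomic character -/
theorem Phi_equivar {p : ℕ} [Fact p.Prime] {k : Type} [Field k] [Algebra (ZMod p) k] [Finite k]
    (hp2 : p ≠ 2) {r : H91.GQ →* M2 k} (hr : DetCyc p r) :
    Equivar (adT p r) (dtw (cycloChar p) (ad p r)) (Phi p k hp2).toLinearMap :=
  Phi_equivar' hp2 (cycloChar p) r hr

/-! ## transport of cocycles (D6) -/

section Transport

variable {K G A B : Type*} [CommRing K] [Group G] [AddCommGroup A] [Module K A]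
  [AddCommGroup B] [Module K B] {ρA : Representation K G A} {ρB : Representation K G B}

lemma Equivar.symm {Φ : A ≃ₗ[K] B} (h : Equivar ρA ρB Φ.toLinearMap) :
    Equivar ρB ρA Φ.symm.toLinearMap := by
  intro g b
  apply Φ.injective
  have h1 := h g (Φ.symm b)
  simp only [LinearEquiv.coe_coe, LinearEquiv.apply_symm_apply] at h1 ⊢
  exact h1.symm

lemma comp_mem_Z1 {φ : A →ₗ[K] B} (h : Equivar ρA ρB φ) {𝓛 : Levels G} {c : G → A}
    (hc : c ∈ Z1 𝓛 ρA) : (fun g => φ (c g)) ∈ Z1 𝓛 ρB := by
  refine ⟨hc.1.comp' _, fun g g' => ?_⟩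
  show φ (c (g * g')) = ρB g (φ (c g')) + φ (c g)
  rw [hc.2, map_add, h]

lemma comp_mem_B1 {φ : A →ₗ[K] B} (h : Equivar ρA ρB φ) {c : G → A}
    (hc : c ∈ B1 ρA) : (fun g => φ (c g)) ∈ B1 ρB := by
  obtain ⟨a, rfl⟩ := hc
  refine ⟨φ a, ?_⟩
  funext g
  rw [d0_apply, d0_apply, map_sub, h]

/-- (D6) -/
theorem mem_Z1_iff {Φ : A ≃ₗ[K] B} (h : Equivar ρA ρB Φ.toLinearMap) {𝓛 : Levels G}
    {c : G → B} : c ∈ Z1 𝓛 ρB ↔ (fun g => Φ.symm (c g)) ∈ Z1 𝓛 ρA := by
  constructor
  · exact fun hc => comp_mem_Z1 (Equivar.symm h) hc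
  · intro hc
    have := comp_mem_Z1 h hc
    simpa using this

theorem mem_B1_iff {Φ : A ≃ₗ[K] B} (h : Equivar ρA ρB Φ.toLinearMap)
    {c : G → B} : c ∈ B1 ρB ↔ (fun g => Φ.symm (c g)) ∈ B1 ρA := by
  constructor
  · exact fun hc => comp_mem_B1 (Equivar.symm h) hc
  · intro hc
    have := comp_mem_B1 h hc
    simpa using this

/-- the induced isomorphism on cocycles -/
def Z1equiv {Φ : A ≃ₗ[K] B} (h : Equivar ρA ρB Φ.toLinearMap) (𝓛 : Levels G) :
    Z1 𝓛 ρA ≃ₗ[K] Z1 𝓛 ρB where
  toFun c := ⟨fun g => Φ (c.1 g), comp_mem_Z1 h c.2⟩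
  map_add' c c' := Subtype.ext (funext fun g => by simp)
  map_smul' a c := Subtype.ext (funext fun g => by simp)
  invFun c := ⟨fun g => Φ.symm (c.1 g), comp_mem_Z1 (Equivar.symm h) c.2⟩
  left_inv c := Subtype.ext (funext fun g => by simp)
  right_inv c := Subtype.ext (funext fun g => by simp)

end Transport

/-! ## absolute irreducibility (D4) -/

/-- (D4) if the image of `r` spans `M2 k` then only the zero trace zero matrix has trivial
coboundary. -/
theorem eq_zero_of_cob_eq_zero {k : Type} [Field k] (h2 : (2 : k) ≠ 0) {G : Type} [Group G]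
    (r : G →* M2 k) (hspan : Submodule.span k (Set.range r) = ⊤) {X : M2 k} (htr : X.trace = 0)
    (hX : ∀ σ, cob r X σ = 0) : X = 0 := by
  have hc : ∀ σ, r σ * X = X * r σ := by
    intro σ
    have h1 : r σ * X * r σ⁻¹ = X := sub_eq_zero.mp (hX σ)
    calc r σ * X = r σ * X * (r σ⁻¹ * r σ) := by rw [rinv_mul, mul_one]
      _ = X * r σ := by rw [← mul_assoc, h1]
  have hall : ∀ Y : M2 k, Y * X = X * Y := by
    intro Y
    have hY : Y ∈ Submodule.span k (Set.range r) := by rw [hspan]; trivial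
    induction hY using Submodule.span_induction with
    | mem x hx => obtain ⟨σ, rfl⟩ := hx; exact hc σ
    | zero => simp
    | add x y _ _ hx hy => rw [add_mul, mul_add, hx, hy]
    | smul a x _ hx => rw [smul_mul_assoc, mul_smul_comm, hx]
  have e1 := hall !![0, 1; 0, 0]
  have e2 := hall !![0, 0; 1, 0]
  have a1 := congrFun (congrFun e1 0) 0
  have a2 := congrFun (congrFun e1 0) 1
  have a3 := congrFun (congrFun e2 0) 0
  simp only [Matrix.mul_apply, Fin.sum_univ_two, Matrix.of_apply, Matrix.cons_val',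
    Matrix.cons_val_zero, Matrix.cons_val_one, Matrix.cons_val_fin_one, zero_mul, one_mul,
    mul_zero, mul_one, add_zero, zero_add] at a1 a2 a3
  have htr' : X 0 0 + X 1 1 = 0 := by rwa [Matrix.trace_fin_two] at htr
  have h00 : X 0 0 = 0 := by
    have : 2 * X 0 0 = 0 := by rw [two_mul]; nth_rewrite 2 [← a2]; exact htr'
    exact (mul_eq_zero.mp this).resolve_left h2
  have h11 : X 1 1 = 0 := by rw [a2]; exact h00
  refine Matrix.ext fun i j => ?_
  fin_cases i <;> fin_cases j
  · exact h00
  · exact a3.symm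
  · exact a1
  · exact h11

/-- (D4) the coboundary map `SL → B1` is injective -/
theorem d0_ad_injective {p : ℕ} [Fact p.Prime] {k : Type} [Field k] [Algebra (ZMod p) k]
    (hp2 : p ≠ 2) {G : Type} [Group G] (r : G →* M2 k)
    (hspan : Submodule.span k (Set.range r) = ⊤) : Function.Injective (d0 (ad p r)) := by
  rw [injective_iff_map_eq_zero]
  intro X hX
  refine Subtype.ext (eq_zero_of_cob_eq_zero (two_ne_zero' p k hp2) r hspan X.2 fun σ => ?_)
  exact congrArg Subtype.val (congrFun hX σ)

/-- (D4) `dim B1 = 3 [k : F_p]` -/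
theorem finrank_B1_ad {p : ℕ} [Fact p.Prime] {k : Type} [Field k] [Algebra (ZMod p) k] [Finite k]
    (hp2 : p ≠ 2) {G : Type} [Group G] (r : G →* M2 k)
    (hspan : Submodule.span k (Set.range r) = ⊤) :
    finrank (ZMod p) (B1 (ad p r)) = 3 * finrank (ZMod p) k := by
  rw [← finrank_SL p k]
  exact LinearMap.finrank_range_of_inj (d0_ad_injective hp2 r hspan)

/-! ## the archimedean place (D2) -/

section Arch

variable {p : ℕ} [Fact p.Prime] {k : Type} [Field k] [Algebra (ZMod p) k]

theorem cycloChar_complexConjugation :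
    cycloChar p complexConjugation = -1 := by
  haveI : NeZero p := ⟨(Fact.out : p.Prime).ne_zero⟩
  exact H87.Res.cyclotomic_involution complexConjugation_mul_self
    H87.Res.complexConjugation_ne_one _

lemma sq_of_trace_zero {X : M2 k} (h : X.trace = 0) : X * X = (-X.det) • (1 : M2 k) := by
  rw [Matrix.trace_fin_two] at h
  have h11 : X 1 1 = - X 0 0 := by linear_combination h
  refine Matrix.ext fun i j => ?_
  fin_cases i <;> fin_cases j <;>
    simp [Matrix.mul_apply, Fin.sum_univ_two, Matrix.det_fin_two, h11] <;> ring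

/-- trace zero matrices: `X C + C X = tr (X C)` -/
lemma anticomm {X C : M2 k} (hX : X.trace = 0) (hC : C.trace = 0) :
    X * C + C * X = (X * C).trace • (1 : M2 k) := by
  rw [Matrix.trace_fin_two] at hX hC
  have h1 : X 1 1 = - X 0 0 := by linear_combination hX
  have h2 : C 1 1 = - C 0 0 := by linear_combination hC
  refine Matrix.ext fun i j => ?_
  fin_cases i <;> fin_cases j <;>
    simp [Matrix.mul_apply, Fin.sum_univ_two, Matrix.trace_fin_two, h1, h2] <;> ring

lemma trace_zero_of_sq {C : M2 k} (hC : C * C = 1) (hdet : C.det = -1) : C.trace = 0 := by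
  have h00 := congrFun (congrFun hC 0) 0
  have h01 := congrFun (congrFun hC 0) 1
  have h10 := congrFun (congrFun hC 1) 0
  have h11 := congrFun (congrFun hC 1) 1
  simp only [Matrix.mul_apply, Fin.sum_univ_two, Matrix.one_apply, ite_true, Fin.isValue,
    zero_ne_one, one_ne_zero, if_false] at h00 h01 h10 h11
  rw [Matrix.det_fin_two] at hdet
  rw [Matrix.trace_fin_two]
  have e0 : (C 0 0 + C 1 1) * C 0 0 = 0 := by linear_combination h00 + hdet
  have e1 : (C 0 0 + C 1 1) * C 1 1 = 0 := by linear_combination h11 + hdet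
  have : (C 0 0 + C 1 1) * (C 0 0 + C 1 1) = 0 := by linear_combination e0 + e1
  exact mul_self_eq_zero.mp this

/-- the functional `X ↦ tr (X C)` -/
def trC (C : M2 k) : SL p k →ₗ[ZMod p] k where
  toFun X := ((X : M2 k) * C).trace
  map_add' X Y := by simp [add_mul]
  map_smul' a X := by simp

theorem finrank_ker_trC [Finite k] (hp2 : p ≠ 2) {C : M2 k} (hC : C * C = 1) (hdet : C.det = -1) :
    finrank (ZMod p) (LinearMap.ker (trC (p := p) C)) = 2 * finrank (ZMod p) k := by
  have _ : Module.Finite (ZMod p) k := Module.Finite.of_finite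
  have h2 := two_ne_zero' p k hp2
  have hsurj : Function.Surjective (trC (p := p) C) := by
    intro a
    refine ⟨⟨(a / 2) • C, ?_⟩, ?_⟩
    · show ((a / 2) • C).trace = 0
      rw [Matrix.trace_smul, trace_zero_of_sq hC hdet, smul_zero]
    · show ((a / 2) • C * C).trace = a
      rw [smul_mul_assoc, hC, Matrix.trace_smul, Matrix.trace_one]
      simp only [Fintype.card_fin, Nat.cast_ofNat, smul_eq_mul]
      field_simp
  have h1 := LinearMap.finrank_range_add_finrank_ker (trC (p := p) C)
  rw [LinearMap.range_eq_top.mpr hsurj, finrank_top, finrank_SL p k] at h1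
  omega

/-- invariants of complex conjugation on the twisted adjoint representation -/
theorem realInv_adT {r : H91.GQ →* M2 k} (hr : DetCyc p r) :
    realInv (adT p r) = LinearMap.ker (trC (p := p) (r complexConjugation)) := by
  have hC : r complexConjugation * r complexConjugation = 1 := by
    rw [← map_mul, complexConjugation_mul_self, map_one]
  have hdet : (r complexConjugation).det = -1 := by
    rw [hr, cycloChar_complexConjugation]
    simp
  have htrC := trace_zero_of_sq hC hdet
  have hinv : r complexConjugation⁻¹ = r complexConjugation := by rw [complexConjugation_inv]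
  ext X
  rw [LinearMap.mem_ker]
  have hone : adT p r complexConjugation X = X ↔ trC (p := p) (r complexConjugation) X = 0 := by
    have h1 : (adT p r complexConjugation X : M2 k) =
        - (r complexConjugation * X * r complexConjugation) := by
      rw [coe_adT, hdet, hinv, neg_smul, one_smul]
    have h2 := anticomm (C := r complexConjugation) X.2 htrC
    constructor
    · intro h
      have h3 : (X : M2 k) = - (r complexConjugation * X * r complexConjugation) := by
        rw [← h1, h]
      have h4 : (X : M2 k) * r complexConjugation + r complexConjugation * X = 0 := by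
        nth_rewrite 1 [h3]
        rw [neg_mul, mul_assoc _ (r complexConjugation) (r complexConjugation), hC, mul_one]
        simp
      rw [h4] at h2
      have h5 := congrFun (congrFun h2 0) 0
      show ((X : M2 k) * r complexConjugation).trace = 0
      simpa using h5.symm
    · intro h
      have h3 : ((X : M2 k) * r complexConjugation).trace = 0 := h
      rw [h3, zero_smul] at h2
      refine Subtype.ext ?_
      rw [h1, eq_neg_of_add_eq_zero_right h2, neg_mul, neg_neg, mul_assoc, hC, mul_one]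
  rw [← hone]
  constructor
  · intro h
    exact h _ (Subgroup.mem_zpowers _)
  · intro h σ hσ
    obtain ⟨n, rfl⟩ := Subgroup.mem_zpowers_iff.mp hσ
    have hstab : complexConjugation ∈
        ({ carrier := {σ | adT p r σ X = X}
           mul_mem' := fun {a b} ha hb => by
            show adT p r (a * b) X = X
            rw [map_mul]
            show adT p r a (adT p r b X) = X
            rw [hb, ha]
           one_mem' := by simp
           inv_mem' := fun {a} ha => by
            show adT p r a⁻¹ X = X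
            nth_rewrite 1 [← (show adT p r a X = X from ha)]
            rw [← Module.End.mul_apply, ← map_mul, inv_mul_cancel, map_one,
              Module.End.one_apply] } : Subgroup H91.GQ) := h
    exact Subgroup.zpow_mem _ hstab n

/-- (D2) -/
theorem finrank_realInv [Finite k] (hp2 : p ≠ 2) {r : H91.GQ →* M2 k} (hr : DetCyc p r) :
    finrank (ZMod p) (realInv (dtw (cycloChar p) (ad p r))) = 2 * finrank (ZMod p) k := by
  have hC : r complexConjugation * r complexConjugation = 1 := by
    rw [← map_mul, complexConjugation_mul_self, map_one]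
  have hdet : (r complexConjugation).det = -1 := by
    rw [hr, cycloChar_complexConjugation]
    simp
  rw [← finrank_ker_trC hp2 hC hdet, ← realInv_adT hr]
  have hmap : (realInv (adT p r)).map (Phi p k hp2).toLinearMap =
      realInv (dtw (cycloChar p) (ad p r)) := by
    ext f
    constructor
    · rintro ⟨X, hX, rfl⟩ σ hσ
      rw [← Phi_equivar hp2 hr, hX σ hσ]
    · intro hf
      refine ⟨(Phi p k hp2).symm f, fun σ hσ => ?_, by simp⟩
      have h1 := Equivar.symm (Phi_equivar hp2 hr) σ f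
      rw [hf σ hσ] at h1
      exact h1.symm
  rw [← hmap]
  exact (LinearEquiv.finrank_eq ((Phi p k hp2).submoduleMap (realInv (adT p r)))).symm

end Arch

/-! ## smoothness (D5) -/

section Sm

variable {p : ℕ} [Fact p.Prime] {k : Type} [Field k] [Algebra (ZMod p) k]

/-- (D5) -/
theorem smooth_ad {r : H91.GQ →* M2 k} (hr : FinLev r) : Smooth krullLevels (ad p r) := by
  obtain ⟨U, hU, h⟩ := hr
  intro X
  refine ⟨U, hU, fun σ hσ => Subtype.ext ?_⟩
  rw [coe_ad, h σ hσ, h σ⁻¹ (U.inv_mem hσ), one_mul, mul_one]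

/-- (D5) -/
theorem smooth_dtw_ad [Finite k] {r : H91.GQ →* M2 k} (hr : FinLev r) :
    Smooth krullLevels (dtw (cycloChar p) (ad p r)) :=
  H73.F6.smooth_dtw krullLevels (smooth_ad hr) H73.F6.krull_op_ker_cycloChar

end Sm

/-! ## conjugates of inertia groups -/

section Inertia

open scoped Pointwise

local notation "Qb" => AlgebraicClosure ℚ

lemma liesOver_primeLocalPlace (q : Nat.Primes) : (primeLocalPlace q).LiesOverPrime (q : ℕ) := by
  haveI : Fact (q : ℕ).Prime := ⟨q.2⟩
  exact H54.liesOverPrime_padicPlace (q : ℕ)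

/-- a normal subgroup containing the inertia group `Iq` contains all inertia groups above `q` -/
theorem inertia_le_of_normal (q : Nat.Primes) {N : Subgroup H91.GQ} [hN : N.Normal]
    (h : Iq q ≤ N) (A : ValuationSubring Qb) (hA : A.LiesOverPrime (q : ℕ)) :
    A.inertiaSubgroupIn ℚ ≤ N := by
  obtain ⟨τ, hτ⟩ := H54.exists_smul_eq q.2 hA (liesOver_primeLocalPlace q)
  intro σ hσ
  have h1 := H91.conj_mem_inertia hσ τ
  rw [hτ] at h1
  have h2 := hN.conj_mem _ (h h1) τ⁻¹
  simpa [mul_assoc] using h2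

lemma Iq_le_Dq (q : Nat.Primes) : Iq q ≤ Dq q := by
  intro σ hσ
  exact ((H91.mem_inertiaSubgroupIn_iff _ _).mp hσ).1

/-- an open normal subgroup containing `Iq` for `q ∉ S` is a `ramLevels S`-open subgroup -/
theorem ramLevels_op_of_normal (S : Finset Nat.Primes) {N : Subgroup H91.GQ} [hN : N.Normal]
    (hop : krullLevels.op N) (h : ∀ q, q ∉ S → Iq q ≤ N) : (ramLevels S).op N :=
  H73.F6.ramLevels_op_of_krull S hop fun q hq A hA => inertia_le_of_normal q (h q hq) A hA

theorem ramLevels_op_ker {M : Type*} [Group M] (S : Finset Nat.Primes) (f : H91.GQ →* M)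
    (hop : krullLevels.op f.ker) (h : ∀ q, q ∉ S → ∀ σ ∈ Iq q, f σ = 1) :
    (ramLevels S).op f.ker :=
  ramLevels_op_of_normal S hop fun q hq σ hσ => MonoidHom.mem_ker.mpr (h q hq σ hσ)

/-- a residual representation of finite level unramified outside `S` is trivial on a
`ramLevels S`-open subgroup. -/
theorem exists_ramLevels_op {k : Type} [Field k] {r : H91.GQ →* M2 k} (hr : FinLev r)
    (S : Finset Nat.Primes) (h : ∀ q, q ∉ S → ∀ σ ∈ Iq q, r σ = 1) :
    ∃ U, (ramLevels S).op U ∧ ∀ σ ∈ U, r σ = 1 := by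
  obtain ⟨U, hU, hU1⟩ := hr
  refine ⟨r.ker, ramLevels_op_of_normal S ?_ ?_, fun σ hσ => hσ⟩
  · exact krullLevels.op_mono (fun σ hσ => hU1 σ hσ) hU
  · exact fun q hq σ hσ => h q hq σ hσ

theorem smooth_ad_ram {p : ℕ} [Fact p.Prime] {k : Type} [Field k] [Algebra (ZMod p) k]
    {r : H91.GQ →* M2 k} (hr : FinLev r)
    (S : Finset Nat.Primes) (h : ∀ q, q ∉ S → ∀ σ ∈ Iq q, r σ = 1) :
    Smooth (ramLevels S) (ad p r) := by
  obtain ⟨U, hU, h⟩ := exists_ramLevels_op hr S h
  intro X
  refine ⟨U, hU, fun σ hσ => Subtype.ext ?_⟩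
  rw [coe_ad, h σ hσ, h σ⁻¹ (U.inv_mem hσ), one_mul, mul_one]

theorem smooth_dtw_ad_ram {p : ℕ} [Fact p.Prime] {k : Type} [Field k] [Algebra (ZMod p) k]
    [Finite k] {r : H91.GQ →* M2 k} (hr : FinLev r)
    (S : Finset Nat.Primes) (hpS : pPrime p ∈ S) (h : ∀ q, q ∉ S → ∀ σ ∈ Iq q, r σ = 1) :
    Smooth (ramLevels S) (dtw (cycloChar p) (ad p r)) :=
  H73.F6.smooth_dtw _ (smooth_ad_ram hr S h) (H73.F6.op_ker_cycloChar S hpS)

/-! ## cocycles which are unramified at some primes (D7) -/

section Ram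

variable {p : ℕ} [Fact p.Prime] {M : Type} [AddCommGroup M] [Module (ZMod p) M] [Finite M]
  {ρ : Representation (ZMod p) H91.GQ M}

/-- the kernel of a cocycle, intersected with the kernel of the representation -/
def cocKer {G K A : Type*} [Group G] [CommRing K] [AddCommGroup A] [Module K A]
    (ρ : Representation K G A) (c : G → A)
    (hc : ∀ g h, c (g * h) = ρ g (c h) + c g) : Subgroup G where
  carrier := {σ | ρ σ = 1 ∧ c σ = 0}
  mul_mem' {a b} ha hb := ⟨by rw [map_mul, ha.1, hb.1, one_mul], by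
    rw [hc, hb.2, ha.2, map_zero, add_zero]⟩
  one_mem' := ⟨map_one _, by
    have := hc 1 1
    rw [mul_one, map_one, Module.End.one_apply] at this
    exact (left_eq_add.mp this)⟩
  inv_mem' {a} ha := by
    have h1 : ρ a⁻¹ = 1 := by
      have : ρ a⁻¹ * ρ a = 1 := by rw [← map_mul, inv_mul_cancel, map_one]
      rwa [ha.1, mul_one] at this
    refine ⟨h1, ?_⟩
    have h0 : c 1 = 0 := by
      have := hc 1 1
      rw [mul_one, map_one, Module.End.one_apply] at this
      exact (left_eq_add.mp this)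
    have h2 := hc a⁻¹ a
    rw [inv_mul_cancel, h0, ha.2, map_zero, zero_add] at h2
    exact h2.symm

lemma mem_cocKer {G K A : Type*} [Group G] [CommRing K] [AddCommGroup A] [Module K A]
    {ρ : Representation K G A} {c : G → A}
    {hc : ∀ g h, c (g * h) = ρ g (c h) + c g} {σ : G} :
    σ ∈ cocKer ρ c hc ↔ ρ σ = 1 ∧ c σ = 0 := Iff.rfl

instance normal_cocKer {G K A : Type*} [Group G] [CommRing K] [AddCommGroup A] [Module K A]
    (ρ : Representation K G A) (c : G → A)
    (hc : ∀ g h, c (g * h) = ρ g (c h) + c g) : (cocKer ρ c hc).Normal where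
  conj_mem σ hσ g := by
    have h0 : c 1 = 0 := by
      have := hc 1 1
      rw [mul_one, map_one, Module.End.one_apply] at this
      exact (left_eq_add.mp this)
    refine ⟨?_, ?_⟩
    · rw [map_mul, map_mul, hσ.1, mul_one, ← map_mul, mul_inv_cancel, map_one]
    · have h1 := hc g g⁻¹
      rw [mul_inv_cancel, h0] at h1
      rw [hc, hc, map_mul, hσ.1, mul_one, hσ.2, map_zero, zero_add, ← h1]

/-- a cocycle vanishing on the inertia groups outside `S` is a cocycle of level `S` -/
theorem mem_Z1_ramLevels_of_inertia (hs : Smooth krullLevels ρ) (S : Finset Nat.Primes)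
    (hur : ∀ q, q ∉ S → ∀ σ ∈ Iq q, ρ σ = 1) {c : H91.GQ → M} (hc : c ∈ Z1 krullLevels ρ)
    (hin : ∀ q, q ∉ S → ∀ σ ∈ Iq q, c σ = 0) : c ∈ Z1 (ramLevels S) ρ := by
  have hop : krullLevels.op (cocKer ρ c hc.2) := by
    obtain ⟨U, hU, h⟩ := hs.uniform (Set.finite_univ (α := M))
    obtain ⟨V, hV, h'⟩ := hc.1
    refine krullLevels.op_mono ?_ (krullLevels.op_inf hU hV)
    rintro σ ⟨hσU, hσV⟩
    refine ⟨LinearMap.ext fun a => h σ hσU a (Set.mem_univ a), ?_⟩
    have h0 : c 1 = 0 := by
      have := hc.2 1 1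
      rw [mul_one, map_one, Module.End.one_apply] at this
      exact (left_eq_add.mp this)
    have := h' 1 σ hσV
    rwa [one_mul, h0] at this
  have hS : (ramLevels S).op (cocKer ρ c hc.2) :=
    ramLevels_op_of_normal S hop fun q hq σ hσ => ⟨hur q hq σ hσ, hin q hq σ hσ⟩
  refine ⟨⟨_, hS, fun g s hs => ?_⟩, hc.2⟩
  rw [hc.2, hs.2, map_zero, zero_add]

omit [Finite M] in
/-- a cocycle of level `T` vanishes on inertia groups outside `T` -/
theorem eq_zero_of_mem_Iq {T : Finset Nat.Primes} {c : H91.GQ → M} (hc : c ∈ Z1 (ramLevels T) ρ)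
    {q : Nat.Primes} (hq : q ∉ T) {σ : H91.GQ} (hσ : σ ∈ Iq q) : c σ = 0 := by
  obtain ⟨⟨U, hU, h⟩, hcc⟩ := hc
  rw [ramLevels_op_iff] at hU
  obtain ⟨F, hF, hle⟩ := hU
  have h1 := h 1 σ (hle (hF.2 q hq _ (liesOver_primeLocalPlace q) hσ))
  have h0 : c 1 = 0 := by
    have := hcc 1 1
    rw [mul_one, map_one, Module.End.one_apply] at this
    exact (left_eq_add.mp this)
  rwa [one_mul, h0] at h1

omit [Finite M] in
/-- a cocycle whose restriction to the decomposition group at `q` is a coboundary vanishes on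
inertia at `q` if the representation is unramified at `q` -/
theorem eq_zero_of_resD_mem_B1 {q : Nat.Primes} (hur : ∀ σ ∈ Iq q, ρ σ = 1) {c : H91.GQ → M}
    (hc : resD p M q c ∈ B1 (rhoD ρ q)) {σ : H91.GQ} (hσ : σ ∈ Iq q) : c σ = 0 := by
  obtain ⟨a, ha⟩ := hc
  have h1 := congrFun ha ⟨σ, Iq_le_Dq q hσ⟩
  rw [resD_apply, d0_apply] at h1
  have h2 : rhoD ρ q ⟨σ, Iq_le_Dq q hσ⟩ a = a := by
    show ρ σ a = a
    rw [hur σ hσ]; rfl
  rw [h2, sub_self] at h1
  exact h1.symm

omit [Finite M] in
lemma Z1_ramLevels_le_krull (T : Finset Nat.Primes) : Z1 (ramLevels T) ρ ≤ Z1 krullLevels ρ := by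
  rintro c ⟨⟨U, hU, h⟩, hc⟩
  exact ⟨⟨U, ramLevels_le_krullLevels T hU, h⟩, hc⟩

/-- (D7) -/
theorem mem_Z1_ramLevels (hs : Smooth krullLevels ρ) (S T : Finset Nat.Primes)
    (hur : ∀ q, q ∉ S → ∀ σ ∈ Iq q, ρ σ = 1) {c : H91.GQ → M} (hc : c ∈ Z1 (ramLevels T) ρ)
    (hres : ∀ q ∈ T, q ∉ S → resD p M q c ∈ B1 (rhoD ρ q)) : c ∈ Z1 (ramLevels S) ρ := by
  refine mem_Z1_ramLevels_of_inertia hs S hur (Z1_ramLevels_le_krull T hc) fun q hq σ hσ => ?_
  by_cases hqT : q ∈ T
  · exact eq_zero_of_resD_mem_B1 (hur q hq) (hres q hqT hq) hσ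
  · exact eq_zero_of_mem_Iq hc hqT hσ

/-- enlarging the set of primes -/
lemma Z1_ramLevels_mono {S T : Finset Nat.Primes} (h : S ⊆ T) :
    Z1 (ramLevels S) ρ ≤ Z1 (ramLevels T) ρ := by
  rintro c ⟨⟨U, hU, h'⟩, hc⟩
  refine ⟨⟨U, ?_, h'⟩, hc⟩
  rw [ramLevels_op_iff] at hU ⊢
  obtain ⟨F, hF, hle⟩ := hU
  exact ⟨F, hF.mono h, hle⟩

end Ram

/-- the cyclotomic character is unramified outside `p` -/
theorem cycloChar_eq_one_of_Iq {p : ℕ} [Fact p.Prime] {q : Nat.Primes} (hq : (q : ℕ) ≠ p)
    {σ : H91.GQ} (hσ : σ ∈ Iq q) : cycloChar p σ = 1 :=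
  H63.cycloChar_eq_one_of_mem_inertia q.2 hq (liesOver_primeLocalPlace q) hσ

/-- if `r σ = 1` then `ad r σ = 1` -/
lemma ad_eq_one {p : ℕ} [Fact p.Prime] {k : Type} [Field k] [Algebra (ZMod p) k] {G : Type}
    [Group G] {r : G →* M2 k} {σ : G} (h : r σ = 1) : ad p r σ = 1 := by
  have h' : r σ⁻¹ = 1 := by
    have := rmul_inv r σ
    rwa [h, one_mul] at this
  refine LinearMap.ext fun X => Subtype.ext ?_
  rw [coe_ad, h, h', one_mul, mul_one]
  rfl

lemma dtw_ad_eq_one {p : ℕ} [Fact p.Prime] {k : Type} [Field k] [Algebra (ZMod p) k]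
    {q : Nat.Primes} (hq : (q : ℕ) ≠ p) {r : H91.GQ →* M2 k}
    {σ : H91.GQ} (hσ : σ ∈ Iq q) (h : r σ = 1) : dtw (cycloChar p) (ad p r) σ = 1 := by
  have h' : r σ⁻¹ = 1 := by
    have := rmul_inv r σ
    rwa [h, one_mul] at this
  refine LinearMap.ext fun f => LinearMap.ext fun X => ?_
  rw [dtw_apply, cycloChar_eq_one_of_Iq hq hσ, ad_eq_one h']
  simp

end Inertia

end Fermat.Agent.H51Dual
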