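import Mathlib
import Fermat.Agent.H56ECDefs
import Fermat.Agent.H75Ind

/-!
# Euler characteristic (S56): invariants of induced modules, Sha of induced modules
-/

set_option autoImplicit false
set_option maxSynthPendingDepth 3

namespace Fermat.Agent.H75

open Fermat.Agent.H55 Fermat.Agent.H56 Module

/-! ### `Ш²` of summands of induced modules -/

section sha

variable {k G : Type} [Field k] [Group G] {𝓛 : Levels G} (D : LD 𝓛)
  {A B : Type} [AddCommGroup A] [Module k A] [AddCommGroup B] [Module k B]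
  {ρA : Representation k G A} {ρB : Representation k G B}

lemma Sha2_map {φ : A →ₗ[k] B} (hφ : Equivar ρA ρB φ) {z : H2 𝓛 ρA} (hz : z ∈ D.Sha2 ρA) :
    H2c 𝓛 hφ z ∈ D.Sha2 ρB := by
  rw [LD.Sha2, LinearMap.mem_ker] at hz ⊢
  funext v
  have h := congrFun hz v
  rw [LD.loc2_apply, Pi.zero_apply] at h ⊢
  rw [H2res_H2c, h, map_zero]

/-- if `Ш²` of `B` vanishes, so does `Ш²` of a direct summand -/
lemma Sha2_eq_bot_of_retract {φ : A →ₗ[k] B} (hφ : Equivar ρA ρB φ) {ψ : B →ₗ[k] A}
    (hψ : Equivar ρB ρA ψ) (h : ∀ a, ψ (φ a) = a) (hB : D.Sha2 ρB = ⊥) : D.Sha2 ρA = ⊥ := by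
  rw [eq_bot_iff]
  intro z hz
  have h1 := Sha2_map D hφ hz
  rw [hB, Submodule.mem_bot] at h1
  have h2 : H2c 𝓛 hψ (H2c 𝓛 hφ z) = z := by
    rw [← H2c_comp]
    exact (LinearMap.congr_fun (H2c_congr (LinearMap.ext h)) z).trans (H2c_id z)
  rw [Submodule.mem_bot, ← h2, h1, map_zero]

/-- `Ш²` of an induced module -/
lemma Sha2_funRep_trivial [Module.Finite k A] {U : Subgroup G} (hU : 𝓛.op U)
    (hSha : D.ShaU2 k U = ⊥) :
    D.Sha2 (funRep (G ⧸ U) (Representation.trivial k G A)) = ⊥ := by
  have h0 : D.Sha2 (funRep (G ⧸ U) (Representation.trivial k G k)) = ⊥ := by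
    rw [eq_bot_iff]
    intro z hz
    have h1 := (D.mem_Sha2_funRep_iff hU z).1 hz
    rw [hSha, Submodule.mem_bot] at h1
    exact (shX2 k hU).injective (h1.trans (map_zero _).symm)
  rw [eq_bot_iff]
  intro z hz
  have he : Equivar (funRep (G ⧸ U) (Representation.trivial k G A))
      (piRep fun _ : Fin (finrank k A) => funRep (G ⧸ U) (Representation.trivial k G k))
      ((funEquiv k A (G ⧸ U) : (G ⧸ U → A) ≃ₗ[k] (Fin (finrank k A) → (G ⧸ U) → k)) :
      (G ⧸ U → A) →ₗ[k] (Fin (finrank k A) → (G ⧸ U) → k)) := equivar_funEquiv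
  rw [Submodule.mem_bot]
  apply (H2cEquiv 𝓛 he).injective
  apply (H2pi (𝓛 := 𝓛) (fun _ : Fin (finrank k A) =>
    funRep (G ⧸ U) (Representation.trivial k G k))).injective
  rw [map_zero, map_zero]
  funext i
  rw [H2pi_apply, Pi.zero_apply]
  have h2 := Sha2_map D he hz
  have h3 := Sha2_map D (proj_piRep_equivar (ρ := fun _ : Fin (finrank k A) =>
    funRep (G ⧸ U) (Representation.trivial k G k)) i) h2
  rw [h0, Submodule.mem_bot] at h3
  exact h3

end sha

/-! ### induced modules from a group of index prime to `p` over the kernel -/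

section retract

variable {k G : Type*} [Field k] [Group G] {A : Type*} [AddCommGroup A] [Module k A]
  {ρ : Representation k G A} {U C : Subgroup G}

/-- projection of cosets -/
def prU (h : U ≤ C) : G ⧸ U → G ⧸ C := Quotient.map' id fun a b hab => by
  rw [QuotientGroup.leftRel_apply] at hab ⊢
  exact h hab

@[simp] lemma prU_mk (h : U ≤ C) (g : G) : prU h (g : G ⧸ U) = (g : G ⧸ C) := rfl

lemma prU_smul (h : U ≤ C) (g : G) (x : G ⧸ U) : prU h (g • x) = g • prU h x := by
  induction x using QuotientGroup.induction_on with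
  | H a => rfl

lemma prU_out (h : U ≤ C) (x : G ⧸ U) : ((x.out : G) : G ⧸ C) = prU h x := by
  conv_rhs => rw [← QuotientGroup.out_eq' x]
  rfl

/-- the fibre of the projection over `y` -/
noncomputable def fibMap (h : U ≤ C) (y : G ⧸ C) :
    C ⧸ U.subgroupOf C → {x : G ⧸ U // prU h x = y} := fun c =>
  Quotient.liftOn' c (fun c => ⟨((y.out * (c : G) : G) : G ⧸ U), by
    rw [prU_mk]
    conv_rhs => rw [← QuotientGroup.out_eq' y]
    rw [QuotientGroup.mk_mul_of_mem _ c.2]⟩) (fun a b hab => by
    rw [QuotientGroup.leftRel_apply, Subgroup.mem_subgroupOf] at hab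
    apply Subtype.ext
    show ((y.out * (a : G) : G) : G ⧸ U) = ((y.out * (b : G) : G) : G ⧸ U)
    rw [QuotientGroup.eq]
    have e : (y.out * (a : G))⁻¹ * (y.out * (b : G)) = ((a⁻¹ * b : C) : G) := by
      push_cast; group
    rw [e]
    exact hab)

lemma fibMap_mk (h : U ≤ C) (y : G ⧸ C) (c : C) :
    (fibMap h y (c : C ⧸ U.subgroupOf C) : G ⧸ U) = ((y.out * (c : G) : G) : G ⧸ U) := rfl

lemma fibMap_bijective (h : U ≤ C) (y : G ⧸ C) : Function.Bijective (fibMap h y) := by
  constructor
  · intro a b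
    induction a using QuotientGroup.induction_on with
    | H a =>
      induction b using QuotientGroup.induction_on with
      | H b =>
        intro hab
        have h1 := congrArg Subtype.val hab
        rw [fibMap_mk, fibMap_mk, QuotientGroup.eq] at h1
        have e : (y.out * (a : G))⁻¹ * (y.out * (b : G)) = ((a⁻¹ * b : C) : G) := by
          push_cast; group
        rw [e] at h1
        exact QuotientGroup.eq.2 h1
  · rintro ⟨x, hx⟩
    induction x using QuotientGroup.induction_on with
    | H g =>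
      rw [prU_mk] at hx
      have hc : (y.out)⁻¹ * g ∈ C := by
        rw [← QuotientGroup.eq, hx]
        exact QuotientGroup.out_eq' y
      refine ⟨((⟨_, hc⟩ : C) : C ⧸ U.subgroupOf C), Subtype.ext ?_⟩
      rw [fibMap_mk, mul_inv_cancel_left]

/-- the fibres of the projection have `[C : U]` elements -/
lemma card_fibre (h : U ≤ C) (y : G ⧸ C) :
    Nat.card {x : G ⧸ U // prU h x = y} = (U.subgroupOf C).index :=
  (Nat.card_congr (Equiv.ofBijective _ (fibMap_bijective h y))).symm

lemma rho_out_smul (hN : ∀ g ∈ U, ∀ a, ρ g a = a) (g : G) (x : G ⧸ U) (a : A) :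
    ρ (g • x).out a = ρ g (ρ x.out a) := by
  have hx : g • x = ((g * x.out : G) : G ⧸ U) := by
    conv_lhs => rw [← QuotientGroup.out_eq' x]
    rfl
  rw [hx, rho_out ρ hN, map_mul, Module.End.mul_apply]

lemma rho_out_smul_inv (hN : ∀ g ∈ U, ∀ a, ρ g a = a) (g : G) (x : G ⧸ U) (a : A) :
    ρ ((g • x).out)⁻¹ a = ρ (x.out)⁻¹ (ρ g⁻¹ a) := by
  have hx : g • x = ((g * x.out : G) : G ⧸ U) := by
    conv_lhs => rw [← QuotientGroup.out_eq' x]
    rfl
  rw [hx, rho_out_inv ρ hN, mul_inv_rev, map_mul, Module.End.mul_apply]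

/-- embedding of `Ind_C ρ` in an induced module from `U` with trivial coefficients -/
noncomputable def embUC (ρ : Representation k G A) (h : U ≤ C) :
    (G ⧸ C → A) →ₗ[k] (G ⧸ U → A) where
  toFun f x := ρ (x.out)⁻¹ (f (prU h x))
  map_add' f f' := by funext x; simp
  map_smul' c f := by funext x; simp

lemma embUC_equivar (hN : ∀ g ∈ U, ∀ a, ρ g a = a) (h : U ≤ C) :
    Equivar (funRep (G ⧸ C) ρ) (funRep (G ⧸ U) (Representation.trivial k G A)) (embUC ρ h) := by
  intro g f
  funext x
  rw [funRep_apply, Representation.trivial_apply]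
  show ρ (x.out)⁻¹ (ρ g (f (g⁻¹ • prU h x))) = ρ ((g⁻¹ • x).out)⁻¹ (f (prU h (g⁻¹ • x)))
  rw [rho_out_smul_inv hN, inv_inv, prU_smul]

/-- retraction of `embUC` -/
noncomputable def retUC (ρ : Representation k G A) (h : U ≤ C) [Fintype (G ⧸ U)]
    [DecidableEq (G ⧸ C)] :
    (G ⧸ U → A) →ₗ[k] (G ⧸ C → A) where
  toFun f y := (((U.subgroupOf C).index : k))⁻¹ •
    ∑ x ∈ Finset.univ.filter (fun x => prU h x = y), ρ x.out (f x)
  map_add' f f' := by funext y; simp [Finset.sum_add_distrib]
  map_smul' c f := by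
    funext y
    simp only [Pi.smul_apply, map_smul, ← Finset.smul_sum, RingHom.id_apply]
    rw [smul_comm]

lemma retUC_equivar (hN : ∀ g ∈ U, ∀ a, ρ g a = a) (h : U ≤ C) [Fintype (G ⧸ U)]
    [DecidableEq (G ⧸ C)] :
    Equivar (funRep (G ⧸ U) (Representation.trivial k G A)) (funRep (G ⧸ C) ρ) (retUC ρ h) := by
  intro g f
  funext y
  rw [funRep_apply]
  show (((U.subgroupOf C).index : k))⁻¹ •
    ∑ x ∈ Finset.univ.filter (fun x => prU h x = y), ρ x.out (f (g⁻¹ • x)) =
    ρ g ((((U.subgroupOf C).index : k))⁻¹ •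
    ∑ x ∈ Finset.univ.filter (fun x => prU h x = g⁻¹ • y), ρ x.out (f x))
  rw [map_smul, map_sum]
  congr 1
  refine Finset.sum_bij' (fun x _ => g⁻¹ • x) (fun x _ => g • x) ?_ ?_ ?_ ?_ ?_
  · intro x hx
    rw [Finset.mem_filter] at hx ⊢
    exact ⟨Finset.mem_univ _, by rw [prU_smul, hx.2]⟩
  · intro x hx
    rw [Finset.mem_filter] at hx ⊢
    exact ⟨Finset.mem_univ _, by rw [prU_smul, hx.2, smul_inv_smul]⟩
  · intro x _; exact smul_inv_smul g x
  · intro x _; exact inv_smul_smul g x
  · intro x _
    rw [← rho_out_smul hN, smul_inv_smul]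

lemma retUC_embUC (h : U ≤ C) [Fintype (G ⧸ U)] [DecidableEq (G ⧸ C)]
    (hcop : ((U.subgroupOf C).index : k) ≠ 0) (f : G ⧸ C → A) :
    retUC ρ h (embUC ρ h f) = f := by
  funext y
  show (((U.subgroupOf C).index : k))⁻¹ •
    ∑ x ∈ Finset.univ.filter (fun x => prU h x = y), ρ x.out (ρ (x.out)⁻¹ (f (prU h x))) = f y
  have h1 : ∀ x ∈ Finset.univ.filter (fun x => prU h x = y),
      ρ x.out (ρ (x.out)⁻¹ (f (prU h x))) = f y := by
    intro x hx
    rw [Finset.mem_filter] at hx
    rw [rho_apply_inv, hx.2]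
  rw [Finset.sum_congr rfl h1, Finset.sum_const]
  have h2 : (Finset.univ.filter (fun x : G ⧸ U => prU h x = y)).card = (U.subgroupOf C).index := by
    rw [← card_fibre h y, Nat.card_eq_fintype_card, Fintype.card_subtype]
  rw [h2, ← Nat.cast_smul_eq_nsmul k, smul_smul, inv_mul_cancel₀ hcop, one_smul]

end retract

/-- `Ш²` of `Ind_C ρ` -/
lemma Sha2_funRep {k G : Type} [Field k] [Group G] {𝓛 : Levels G} (D : LD 𝓛)
    {A : Type} [AddCommGroup A] [Module k A] [Module.Finite k A] {ρ : Representation k G A}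
    {U C : Subgroup G} (hU : 𝓛.op U) (hN : ∀ g ∈ U, ∀ a, ρ g a = a) (h : U ≤ C)
    (hcop : ((U.subgroupOf C).index : k) ≠ 0) (hSha : D.ShaU2 k U = ⊥) :
    D.Sha2 (funRep (G ⧸ C) ρ) = ⊥ := by
  classical
  have := finite_coset hU
  have := Fintype.ofFinite (G ⧸ U)
  exact Sha2_eq_bot_of_retract D (embUC_equivar hN h) (retUC_equivar hN h)
    (retUC_embUC h hcop) (Sha2_funRep_trivial D hU hSha)

/-! ### `EqFun` and invariants of induced modules -/

section eqfun

variable {p : ℕ} {G A : Type} [Group G] [AddCommGroup A] [Module (ZMod p) A]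

lemma invC_range {H : Type} [Group H] (r : Representation (ZMod p) G A) (f : H →* G) :
    Representation.invariants (r.comp f) = invC f.range r := by
  ext a
  rw [Representation.mem_invariants, mem_invC]
  constructor
  · rintro h _ ⟨x, rfl⟩; exact h x
  · intro h x; exact h _ ⟨x, rfl⟩

lemma invC_top (r : Representation (ZMod p) G A) : invC ⊤ r = r.invariants := by
  ext a
  rw [Representation.mem_invariants, mem_invC]
  exact ⟨fun h g => h g trivial, fun h g _ => h g⟩

lemma finrank_invC_congr {B : Type} [AddCommGroup B] [Module (ZMod p) B] (D : Subgroup G)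
    {r : Representation (ZMod p) G A} {s : Representation (ZMod p) G B}
    {e : A ≃ₗ[ZMod p] B} (he : Equivar r s (e : A →ₗ[ZMod p] B)) :
    finrank (ZMod p) (invC D r) = finrank (ZMod p) (invC D s) := by
  have h : (invC D r).map (e : A →ₗ[ZMod p] B) = invC D s := by
    ext b
    constructor
    · rintro ⟨a, ha, rfl⟩ g hg
      rw [← he, ha g hg]
    · intro hb
      refine ⟨e.symm b, fun g hg => ?_, e.apply_symm_apply b⟩
      apply e.injective
      have := he g (e.symm b)
      rw [LinearEquiv.coe_coe, e.apply_symm_apply, hb g hg] at this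
      rw [this, e.apply_symm_apply]
  rw [← h]
  exact (Submodule.equivMapOfInjective _ e.injective _).finrank_eq

/-- invariants of `Ind_C r` under `D`, as functions on `G` -/
noncomputable def eqFunMap (D C : Subgroup G) (r : Representation (ZMod p) G A) :
    invC D (funRep (G ⧸ C) r) →ₗ[ZMod p] EqFun D C r where
  toFun f := ⟨fun x => r x⁻¹ (f.1 (x : G ⧸ C)), by
    refine ⟨fun d hd x => ?_, fun c hc x => ?_⟩
    · have h := congrFun (f.2 d hd) ((d * x : G) : G ⧸ C)
      rw [funRep_apply] at h
      have e : d⁻¹ • ((d * x : G) : G ⧸ C) = (x : G ⧸ C) := by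
        show ((d⁻¹ * (d * x) : G) : G ⧸ C) = _
        rw [inv_mul_cancel_left]
      rw [e] at h
      show r (d * x)⁻¹ (f.1 ((d * x : G) : G ⧸ C)) = r x⁻¹ (f.1 (x : G ⧸ C))
      rw [← h, mul_inv_rev, map_mul, Module.End.mul_apply, rho_inv_apply]
    · show r (x * c)⁻¹ (f.1 ((x * c : G) : G ⧸ C)) = r c⁻¹ (r x⁻¹ (f.1 (x : G ⧸ C)))
      rw [QuotientGroup.mk_mul_of_mem _ hc, mul_inv_rev, map_mul, Module.End.mul_apply]⟩
  map_add' f f' := by ext x; simp
  map_smul' c f := by ext x; simp

lemma eqFunMap_apply (D C : Subgroup G) (r : Representation (ZMod p) G A)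
    (f : invC D (funRep (G ⧸ C) r)) (x : G) :
    (eqFunMap D C r f : G → A) x = r x⁻¹ (f.1 (x : G ⧸ C)) := rfl

lemma eqFunMap_bijective (D C : Subgroup G) (r : Representation (ZMod p) G A) :
    Function.Bijective (eqFunMap D C r) := by
  constructor
  · intro f f' h
    apply Subtype.ext
    funext y
    induction y using QuotientGroup.induction_on with
    | H x =>
      have h1 := congrFun (congrArg Subtype.val h) x
      rw [eqFunMap_apply, eqFunMap_apply] at h1
      have h2 := congrArg (r x) h1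
      rwa [rho_apply_inv, rho_apply_inv] at h2
  · rintro ⟨f, hf1, hf2⟩
    let h : G ⧸ C → A := fun y => r y.out (f y.out)
    have hh : ∀ x : G, h (x : G ⧸ C) = r x (f x) := by
      intro x
      obtain ⟨c, hc⟩ := QuotientGroup.mk_out_eq_mul C x
      show r (x : G ⧸ C).out (f (x : G ⧸ C).out) = _
      rw [hc, hf2 c c.2, map_mul, Module.End.mul_apply, rho_apply_inv]
    refine ⟨⟨h, fun d hd => ?_⟩, ?_⟩
    · funext y
      induction y using QuotientGroup.induction_on with
      | H x =>
        rw [funRep_apply]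
        have e : d⁻¹ • (x : G ⧸ C) = ((d⁻¹ * x : G) : G ⧸ C) := rfl
        rw [e, hh, hh, hf1 _ (D.inv_mem hd), map_mul, Module.End.mul_apply, rho_apply_inv]
    · apply Subtype.ext
      funext x
      rw [eqFunMap_apply]
      show r x⁻¹ (h (x : G ⧸ C)) = f x
      rw [hh, rho_inv_apply]

lemma finrank_EqFun (D C : Subgroup G) (r : Representation (ZMod p) G A) :
    finrank (ZMod p) (EqFun D C r) = finrank (ZMod p) (invC D (funRep (G ⧸ C) r)) :=
  (LinearEquiv.ofBijective _ (eqFunMap_bijective D C r)).finrank_eq.symm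

/-- the full invariants of `Ind_C r` -/
lemma finrank_invariants_funRep_coset (C : Subgroup G) (r : Representation (ZMod p) G A) :
    finrank (ZMod p) (funRep (G ⧸ C) r).invariants = finrank (ZMod p) (invC C r) := by
  let T : (funRep (G ⧸ C) r).invariants →ₗ[ZMod p] invC C r :=
    { toFun := fun f => ⟨f.1 ((1 : G) : G ⧸ C), fun c hc => by
        have h := congrFun (f.2 c) ((1 : G) : G ⧸ C)
        rw [funRep_apply] at h
        have e : c⁻¹ • ((1 : G) : G ⧸ C) = ((1 : G) : G ⧸ C) := by
          show ((c⁻¹ * 1 : G) : G ⧸ C) = _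
          rw [mul_one, QuotientGroup.eq, inv_inv, mul_one]
          exact hc
        rw [e] at h
        exact h⟩
      map_add' := fun f f' => rfl
      map_smul' := fun c f => rfl }
  have hT : Function.Bijective T := by
    constructor
    · intro f f' h
      apply Subtype.ext
      funext y
      induction y using QuotientGroup.induction_on with
      | H x =>
        have h1 : f.1 ((1 : G) : G ⧸ C) = f'.1 ((1 : G) : G ⧸ C) := congrArg Subtype.val h
        have h2 := congrFun (f.2 x) (x : G ⧸ C)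
        have h3 := congrFun (f'.2 x) (x : G ⧸ C)
        rw [funRep_apply] at h2 h3
        have e : x⁻¹ • (x : G ⧸ C) = ((1 : G) : G ⧸ C) := by
          show ((x⁻¹ * x : G) : G ⧸ C) = _
          rw [inv_mul_cancel]
        rw [e] at h2 h3
        rw [← h2, ← h3, h1]
    · rintro ⟨a, ha⟩
      let h : G ⧸ C → A := fun y => r y.out a
      have hh : ∀ x : G, h (x : G ⧸ C) = r x a := by
        intro x
        obtain ⟨c, hc⟩ := QuotientGroup.mk_out_eq_mul C x
        show r (x : G ⧸ C).out a = _
        rw [hc, map_mul, Module.End.mul_apply, ha c c.2]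
      refine ⟨⟨h, fun g => ?_⟩, ?_⟩
      · funext y
        induction y using QuotientGroup.induction_on with
        | H x =>
          rw [funRep_apply]
          have e : g⁻¹ • (x : G ⧸ C) = ((g⁻¹ * x : G) : G ⧸ C) := rfl
          rw [e, hh, hh, map_mul, Module.End.mul_apply, rho_apply_inv]
      · apply Subtype.ext
        show h ((1 : G) : G ⧸ C) = a
        rw [hh, map_one, Module.End.one_apply]
  exact (LinearEquiv.ofBijective T hT).finrank_eq

end eqfun

/-! ### twisted duals of induced modules -/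

section dualind

variable {k G M Ω : Type*} [Field k] [Group G] [AddCommGroup M] [Module k M] [Module.Finite k M]
  [MulAction G Ω] [Fintype Ω] (χ : G →* kˣ) (ρ : Representation k G M)

/-- the pairing `(φ, f) ↦ Σ_x φ(x)(f(x))` -/
def evPair (k M Ω : Type*) [Field k] [AddCommGroup M] [Module k M] [Fintype Ω] :
    (Ω → Module.Dual k M) →ₗ[k] (Ω → M) →ₗ[k] k :=
  LinearMap.mk₂ k (fun φ f => ∑ x, φ x (f x))
    (fun φ φ' f => by simp [Finset.sum_add_distrib])
    (fun c φ f => by simp [Finset.mul_sum])
    (fun φ f f' => by simp [Finset.sum_add_distrib])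
    (fun c φ f => by simp [Finset.mul_sum])

omit [Module.Finite k M] in
lemma evPair_apply (φ : Ω → Module.Dual k M) (f : Ω → M) :
    evPair k M Ω φ f = ∑ x, φ x (f x) := rfl

omit [Module.Finite k M] in
lemma biEquivar_evPair :
    BiEquivar (funRep Ω (dtw χ ρ)) (funRep Ω ρ) (mu χ) (evPair k M Ω) := by
  intro g φ f
  rw [mu_apply, evPair_apply, evPair_apply, Finset.mul_sum,
    ← Equiv.sum_comp (MulAction.toPerm g : Ω ≃ Ω)]
  refine Finset.sum_congr rfl fun x _ => ?_
  rw [MulAction.toPerm_apply, funRep_apply, funRep_apply, inv_smul_smul, dtw_apply,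
    rho_inv_apply]

lemma evPair_bijective : Function.Bijective (evPair k M Ω) := by
  classical
  have hinj : Function.Injective (evPair k M Ω) := by
    rw [← LinearMap.ker_eq_bot, eq_bot_iff]
    intro f hf
    rw [Submodule.mem_bot]
    funext x
    ext a
    have h1 := LinearMap.congr_fun (LinearMap.mem_ker.1 hf) (Pi.single x a)
    rw [evPair_apply, LinearMap.zero_apply, Finset.sum_eq_single x] at h1
    · rw [Pi.single_eq_same] at h1
      exact h1
    · intro y _ hy
      rw [Pi.single_eq_of_ne hy, map_zero]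
    · intro h; exact absurd (Finset.mem_univ _) h
  refine ⟨hinj, ?_⟩
  rw [← LinearMap.injective_iff_surjective_of_finrank_eq_finrank]
  · exact hinj
  · rw [Module.finrank_linearMap, finrank_self, mul_one, Module.finrank_pi_fintype,
      Module.finrank_pi_fintype]
    simp [Subspace.dual_finrank_eq]

lemma equivar_evPair : Equivar (funRep Ω (dtw χ ρ)) (dtw χ (funRep Ω ρ))
    ((LinearEquiv.ofBijective (evPair k M Ω) evPair_bijective :
        (Ω → Module.Dual k M) ≃ₗ[k] Module.Dual k (Ω → M)) :
        (Ω → Module.Dual k M) →ₗ[k] Module.Dual k (Ω → M)) :=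
  equivar_pairing (biEquivar_evPair χ ρ)

end dualind

/-! ### the archimedean place -/

section arch

variable {p : ℕ} [Fact p.Prime] {G : Type} [Group G] {M : Type} [AddCommGroup M]
  [Module (ZMod p) M] (c : G)

lemma mem_invC_zpowers (r : Representation (ZMod p) G M) {x : M} :
    x ∈ invC (Subgroup.zpowers c) r ↔ r c x = x := by
  constructor
  · intro h; exact h c (Subgroup.mem_zpowers c)
  · intro h g hg
    let S : Subgroup G :=
      { carrier := {g | r g x = x}
        mul_mem' := fun {a b} ha hb => by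
          show r (a * b) x = x
          rw [map_mul, Module.End.mul_apply, show r b x = x from hb, show r a x = x from ha]
        one_mem' := by
          show r 1 x = x
          rw [map_one, Module.End.one_apply]
        inv_mem' := fun {a} ha => by
          show r a⁻¹ x = x
          conv_lhs => rw [← show r a x = x from ha]
          rw [rho_inv_apply] }
    exact (Subgroup.zpowers_le (H := S)).2 h hg

variable {c} (hc : c * c = 1) (hp2 : p ≠ 2)

include hp2 in
lemma two_ne_zero_zmod : (2 : ZMod p) ≠ 0 := by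
  intro h
  have h1 : ((2 : ℕ) : ZMod p) = 0 := by exact_mod_cast h
  rw [ZMod.natCast_eq_zero_iff] at h1
  exact hp2 ((Nat.prime_dvd_prime_iff_eq Fact.out Nat.prime_two).1 h1)

include hc hp2 in
/-- the fixed vectors are the image of `1 + c` -/
lemma invC_zpowers_eq_range (r : Representation (ZMod p) G M) :
    invC (Subgroup.zpowers c) r = LinearMap.range (LinearMap.id + r c) := by
  ext x
  rw [mem_invC_zpowers]
  constructor
  · intro h
    refine ⟨(2 : ZMod p)⁻¹ • x, ?_⟩
    rw [LinearMap.add_apply, LinearMap.id_apply, map_smul, h, ← add_smul, ← two_mul,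
      mul_inv_cancel₀ (two_ne_zero_zmod hp2), one_smul]
  · rintro ⟨y, rfl⟩
    rw [LinearMap.add_apply, LinearMap.id_apply, map_add, ← Module.End.mul_apply, ← map_mul, hc,
      map_one, Module.End.one_apply, add_comm]

include hc hp2 in
/-- `dim M^c + dim (M^*(χ))^c = dim M` -/
lemma finrank_invC_add_dtw [Finite M] {χ : G →* (ZMod p)ˣ} (hχ : χ c = -1)
    (r : Representation (ZMod p) G M) :
    finrank (ZMod p) (invC (Subgroup.zpowers c) r) +
      finrank (ZMod p) (invC (Subgroup.zpowers c) (dtw χ r)) = finrank (ZMod p) M := by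
  have h1 : invC (Subgroup.zpowers c) (dtw χ r) =
      (LinearMap.range (LinearMap.id + r c)).dualAnnihilator := by
    ext φ
    rw [mem_invC_zpowers, Submodule.mem_dualAnnihilator]
    have hcinv : c⁻¹ = c := inv_eq_of_mul_eq_one_right hc
    constructor
    · rintro h _ ⟨y, rfl⟩
      have h2 := LinearMap.congr_fun h y
      rw [dtw_apply, hχ, hcinv] at h2
      rw [LinearMap.add_apply, LinearMap.id_apply, map_add, ← h2]
      simp
    · intro h
      ext y
      have h2 := h _ ⟨y, rfl⟩
      rw [LinearMap.add_apply, LinearMap.id_apply, map_add] at h2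
      rw [dtw_apply, hχ, hcinv, eq_comm, Units.val_neg, Units.val_one, neg_one_mul]
      exact eq_neg_of_add_eq_zero_left h2
  rw [h1, invC_zpowers_eq_range hc hp2]
  exact Subspace.finrank_add_finrank_dualAnnihilator_eq _

include hc hp2 in
/-- additivity of `dim M^c` -/
lemma finrank_invC_exact {A B C : Type} [AddCommGroup A] [Module (ZMod p) A]
    [AddCommGroup B] [Module (ZMod p) B] [Finite B] [AddCommGroup C]
    [Module (ZMod p) C]
    (ρA : Representation (ZMod p) G A) (ρB : Representation (ZMod p) G B)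
    (ρC : Representation (ZMod p) G C) (f : A →ₗ[ZMod p] B) (g : B →ₗ[ZMod p] C)
    (hf : Equivar ρA ρB f) (hg : Equivar ρB ρC g) (hi : Function.Injective f)
    (hs : Function.Surjective g) (he : Function.Exact f g) :
    finrank (ZMod p) (invC (Subgroup.zpowers c) ρB) =
      finrank (ZMod p) (invC (Subgroup.zpowers c) ρA) +
      finrank (ZMod p) (invC (Subgroup.zpowers c) ρC) := by
  let T : invC (Subgroup.zpowers c) ρB →ₗ[ZMod p] C := g.domRestrict _
  have h1 := LinearMap.finrank_range_add_finrank_ker T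
  have h2 : LinearMap.range T = invC (Subgroup.zpowers c) ρC := by
    ext z
    constructor
    · rintro ⟨b, rfl⟩ x hx
      show ρC x (g b.1) = g b.1
      rw [← hg, b.2 x hx]
    · intro hz
      rw [invC_zpowers_eq_range hc hp2] at hz
      obtain ⟨z', rfl⟩ := hz
      obtain ⟨b, rfl⟩ := hs z'
      refine ⟨⟨((LinearMap.id : B →ₗ[ZMod p] B) + ρB c) b, ?_⟩, ?_⟩
      · rw [invC_zpowers_eq_range hc hp2]
        exact ⟨b, rfl⟩
      · show g (((LinearMap.id : B →ₗ[ZMod p] B) + ρB c) b) = _
        rw [LinearMap.add_apply, LinearMap.id_apply, map_add, hg]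
        rfl
  have h3 : finrank (ZMod p) (LinearMap.ker T) =
      finrank (ZMod p) (invC (Subgroup.zpowers c) ρA) := by
    let T' : invC (Subgroup.zpowers c) ρA →ₗ[ZMod p] LinearMap.ker T :=
      { toFun := fun a => ⟨⟨f a.1, fun x hx => by rw [← hf, a.2 x hx]⟩, by
          rw [LinearMap.mem_ker]
          exact (he _).2 ⟨_, rfl⟩⟩
        map_add' := fun a a' => by ext; simp
        map_smul' := fun s a => by ext; simp }
    have hT' : Function.Bijective T' := by
      constructor
      · intro a a' h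
        have : f a.1 = f a'.1 := congrArg (fun z => (z.1.1 : B)) h
        exact Subtype.ext (hi this)
      · rintro ⟨⟨b, hb⟩, hbk⟩
        have h4 : g b = 0 := LinearMap.mem_ker.1 hbk
        obtain ⟨a, rfl⟩ := (he b).1 h4
        refine ⟨⟨a, fun x hx => hi ?_⟩, Subtype.ext (Subtype.ext rfl)⟩
        rw [hf, hb x hx]
    exact (LinearEquiv.ofBijective T' hT').finrank_eq.symm
  rw [h2, h3] at h1
  omega

end arch

end Fermat.Agent.H75
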