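import Mathlib
import Fermat.Agent.H75Count

/-!
# The Greenberg-Wiles inequality, abstract form
-/

set_option autoImplicit false
set_option maxSynthPendingDepth 3

namespace Fermat.Agent.H75

open Fermat.Agent.H55 Module

section lin

variable {k : Type*} [Field k]

/-- `dim I' - dim (I' ∩ Λ^⊥) ≤ dim Λ - dim (I ∩ Λ)` if `I'` and `I` are orthogonal. -/
theorem finrank_inf_add_le {P P' C : Type*} [AddCommGroup P] [Module k P]
    [AddCommGroup P'] [Module k P'] [AddCommGroup C] [Module k C]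
    [FiniteDimensional k P] [FiniteDimensional k P'] [FiniteDimensional k C]
    (hC : finrank k C ≤ 1) (β : P' →ₗ[k] P →ₗ[k] C)
    (I : Submodule k P) (I' : Submodule k P') (hI : ∀ y ∈ I', ∀ x ∈ I, β y x = 0)
    (L : Submodule k P) (L' : Submodule k P') (hL : ∀ y ∈ I', (∀ x ∈ L, β y x = 0) → y ∈ L') :
    finrank k ↥(I ⊓ L) + finrank k I' ≤ finrank k L + finrank k ↥(I' ⊓ L') := by
  -- the map `I' → Hom(L, C)`
  let φ : I' →ₗ[k] L →ₗ[k] C :=
    { toFun := fun y => (β y).domRestrict L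
      map_add' := fun y y' => by ext x; simp
      map_smul' := fun c y => by ext x; simp }
  have hφ : ∀ y x, φ y x = β y x := fun y x => rfl
  have h1 := LinearMap.finrank_range_add_finrank_ker φ
  -- kernel of `φ` is contained in `I' ⊓ L'`
  have h2 : finrank k (LinearMap.ker φ) ≤ finrank k ↥(I' ⊓ L') := by
    have hle : (LinearMap.ker φ).map I'.subtype ≤ I' ⊓ L' := by
      rintro _ ⟨y, hy, rfl⟩
      refine ⟨y.2, hL _ y.2 fun x hx => ?_⟩
      exact LinearMap.congr_fun (LinearMap.mem_ker.1 hy) ⟨x, hx⟩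
    calc finrank k (LinearMap.ker φ) = finrank k ((LinearMap.ker φ).map I'.subtype) :=
          (Submodule.equivSubtypeMap I' (LinearMap.ker φ)).finrank_eq
      _ ≤ _ := Submodule.finrank_mono hle
  -- the range of `φ` is contained in `Hom(L / (I ⊓ L), C)`
  let K : Submodule k L := (I ⊓ L).submoduleOf L
  have h3 : finrank k (LinearMap.range φ) ≤ finrank k (L ⧸ K) := by
    let ψ : LinearMap.range φ →ₗ[k] (L ⧸ K) →ₗ[k] C :=
      { toFun := fun f => K.liftQ f.1 (by
          rintro x hx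
          obtain ⟨y, hy⟩ := f.2
          rw [LinearMap.mem_ker, ← hy, hφ]
          exact hI _ y.2 _ (show (x : P) ∈ I ⊓ L from hx).1)
        map_add' := fun f f' => by ext x; rfl
        map_smul' := fun c f => by ext x; rfl }
    have hψ : Function.Injective ψ := by
      rw [← LinearMap.ker_eq_bot, eq_bot_iff]
      intro f hf
      rw [Submodule.mem_bot]
      apply Subtype.ext
      ext x
      exact LinearMap.congr_fun (LinearMap.mem_ker.1 hf) (Submodule.Quotient.mk x)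
    have h4 := LinearMap.finrank_le_finrank_of_injective hψ
    rw [Module.finrank_linearMap] at h4
    have h5 : finrank k (L ⧸ K) * finrank k C ≤ finrank k (L ⧸ K) * 1 := Nat.mul_le_mul_left _ hC
    omega
  have h6 := Submodule.finrank_quotient_add_finrank K
  have h7 : finrank k K = finrank k ↥(I ⊓ L) :=
    (Submodule.submoduleOfEquivOfLe inf_le_right).finrank_eq
  omega

end lin

section perp

variable {k H A B : Type*} [Field k] [Group H] [AddCommGroup A] [Module k A]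
  [AddCommGroup B] [Module k B] {ψ : H →* kˣ} {ρA : Representation k H A}
  {ρB : Representation k H B} (β : A →ₗ[k] B →ₗ[k] k)

/-- orthogonal complement of a local condition, in cocycle form -/
def perpZ (𝓜 : Levels H) (ψ : H →* kˣ) (ρA : Representation k H A) (ρB : Representation k H B)
    (β : A →ₗ[k] B →ₗ[k] k) (L : Submodule k (H → B)) : Submodule k (H → A) where
  carrier := {y | y ∈ Z1 𝓜 ρA ∧ ∀ x ∈ L, x ∈ Z1 𝓜 ρB → cupC ρB β y x ∈ B2 𝓜 (mu ψ)}
  add_mem' := fun {y y'} hy hy' => ⟨(Z1 𝓜 ρA).add_mem hy.1 hy'.1, fun x hx hxZ => by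
    rw [map_add, LinearMap.add_apply]
    exact (B2 𝓜 (mu ψ)).add_mem (hy.2 x hx hxZ) (hy'.2 x hx hxZ)⟩
  zero_mem' := ⟨(Z1 𝓜 ρA).zero_mem, fun x _ _ => by
    rw [map_zero, LinearMap.zero_apply]
    exact (B2 𝓜 (mu ψ)).zero_mem⟩
  smul_mem' := fun c y hy => ⟨(Z1 𝓜 ρA).smul_mem c hy.1, fun x hx hxZ => by
    rw [map_smul, LinearMap.smul_apply]
    exact (B2 𝓜 (mu ψ)).smul_mem c (hy.2 x hx hxZ)⟩

lemma mem_perpZ {𝓜 : Levels H} {L : Submodule k (H → B)} {y : H → A} :
    y ∈ perpZ 𝓜 ψ ρA ρB β L ↔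
      y ∈ Z1 𝓜 ρA ∧ ∀ x ∈ L, x ∈ Z1 𝓜 ρB → cupC ρB β y x ∈ B2 𝓜 (mu ψ) := Iff.rfl

end perp

section perp2

variable {k H A B : Type} [Field k] [Group H] [AddCommGroup A] [Module k A] [Module.Finite k A]
  [AddCommGroup B] [Module k B] [Module.Finite k B] {𝓜 : Levels H} {ψ : H →* kˣ}
  {ρA : Representation k H A} {ρB : Representation k H B} {β : A →ₗ[k] B →ₗ[k] k}

/-- nondegeneracy in cocycle form -/
lemma perpZ_Z1_le (hβ : BiEquivar ρA ρB (mu ψ) β) (hL : LocHyp 𝓜 ψ) (hA : Smooth 𝓜 ρA)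
    (hB : Smooth 𝓜 ρB) (hbij : Function.Bijective β) :
    perpZ 𝓜 ψ ρA ρB β (Z1 𝓜 ρB) ≤ B1 ρA := by
  rintro y ⟨hy, hyx⟩
  have h1 : H1π 𝓜 ρA ⟨y, hy⟩ = 0 := by
    refine (injective_iff_map_eq_zero _).1 (cup_injective hβ hL hA hB hbij) _ ?_
    refine LinearMap.ext fun x => ?_
    obtain ⟨x, rfl⟩ := H1π_surjective 𝓜 ρB x
    rw [cup11_mk, LinearMap.zero_apply, H2π_eq_zero_iff]
    obtain ⟨z, hz, hz'⟩ := mem_B2.1 (hyx x.1 x.2 x.2)
    exact ⟨z, hz, hz'⟩
  exact (H1π_eq_zero_iff _).1 h1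

end perp2

section dims

variable {k G A : Type*} [Field k] [Group G] [AddCommGroup A] [Module k A] {𝓛 : Levels G}
  {ρ : Representation k G A}

lemma ker_d0 (ρ : Representation k G A) : LinearMap.ker (d0 ρ) = ρ.invariants := by
  ext a
  rw [LinearMap.mem_ker, Representation.mem_invariants]
  constructor
  · intro h g
    have := congrFun h g
    rw [d0_apply, Pi.zero_apply, sub_eq_zero] at this
    exact this
  · intro h
    funext g
    rw [d0_apply, h g, sub_self]; rfl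

lemma finrank_B1 [Module.Finite k A] (ρ : Representation k G A) :
    finrank k (B1 ρ) + finrank k ρ.invariants = finrank k A := by
  have := LinearMap.finrank_range_add_finrank_ker (d0 ρ)
  rwa [ker_d0] at this

instance finite_B1 [Module.Finite k A] (ρ : Representation k G A) : Module.Finite k (B1 ρ) :=
  inferInstanceAs (Module.Finite k (LinearMap.range (d0 ρ)))

lemma B1_le_Z1 (hs : Smooth 𝓛 ρ) : B1 ρ ≤ Z1 𝓛 ρ := by
  rintro _ ⟨a, rfl⟩
  exact hs.d0_mem_Z1 a

lemma finite_Z1 [Module.Finite k A] (hs : Smooth 𝓛 ρ) [Module.Finite k (H1 𝓛 ρ)] :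
    Module.Finite k (Z1 𝓛 ρ) := by
  have h1 : Module.Finite k ((B1 ρ).comap (Z1 𝓛 ρ).subtype) :=
    Module.Finite.equiv (Submodule.submoduleOfEquivOfLe (B1_le_Z1 hs)).symm
  exact Module.Finite.of_submodule_quotient ((B1 ρ).comap (Z1 𝓛 ρ).subtype)

/-- image in `H¹` of a space of cocycles -/
def imH (𝓛 : Levels G) (ρ : Representation k G A) (W : Submodule k (G → A)) :
    Submodule k (H1 𝓛 ρ) := (W.comap (Z1 𝓛 ρ).subtype).map (H1π 𝓛 ρ)

lemma mem_imH {W : Submodule k (G → A)} {x : ↥(Z1 𝓛 ρ)} (hx : (x : G → A) ∈ W) :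
    H1π 𝓛 ρ x ∈ imH 𝓛 ρ W := ⟨x, hx, rfl⟩

lemma finrank_imH [Module.Finite k A] (hs : Smooth 𝓛 ρ) [Module.Finite k (H1 𝓛 ρ)]
    {W : Submodule k (G → A)} (hB : B1 ρ ≤ W) (hZ : W ≤ Z1 𝓛 ρ) :
    finrank k (imH 𝓛 ρ W) + finrank k A = finrank k W + finrank k ρ.invariants := by
  have hfZ : Module.Finite k (Z1 𝓛 ρ) := finite_Z1 hs
  let W' : Submodule k (Z1 𝓛 ρ) := W.comap (Z1 𝓛 ρ).subtype
  let f : W' →ₗ[k] H1 𝓛 ρ := (H1π 𝓛 ρ).domRestrict W'
  have h1 := LinearMap.finrank_range_add_finrank_ker f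
  have h2 : LinearMap.range f = imH 𝓛 ρ W := by
    ext x
    constructor
    · rintro ⟨y, rfl⟩; exact ⟨y.1, y.2, rfl⟩
    · rintro ⟨y, hy, rfl⟩; exact ⟨⟨y, hy⟩, rfl⟩
  have h3 : finrank k (LinearMap.ker f) = finrank k (B1 ρ) := by
    have h4 : LinearMap.ker f = ((B1 ρ).comap (Z1 𝓛 ρ).subtype).submoduleOf W' := by
      ext x
      rw [LinearMap.mem_ker]
      show H1π 𝓛 ρ x.1 = 0 ↔ _
      rw [H1π_eq_zero_iff]
      rfl
    rw [h4, (Submodule.submoduleOfEquivOfLe (Submodule.comap_mono hB)).finrank_eq]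
    exact (Submodule.submoduleOfEquivOfLe (B1_le_Z1 hs)).finrank_eq
  have h5 : finrank k W' = finrank k W := (Submodule.submoduleOfEquivOfLe hZ).finrank_eq
  have h6 := finrank_B1 ρ
  rw [h2, h3, h5] at h1
  omega

/-- `dim f⁻¹(S) = dim (im f ∩ S) + dim ker f` -/
lemma finrank_comap_eq {V W : Type*} [AddCommGroup V] [Module k V] [AddCommGroup W] [Module k W]
    [FiniteDimensional k V] (f : V →ₗ[k] W) (S : Submodule k W) :
    finrank k (S.comap f) = finrank k ↥(LinearMap.range f ⊓ S) + finrank k (LinearMap.ker f) := by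
  let g : S.comap f →ₗ[k] W := f.domRestrict (S.comap f)
  have h1 := LinearMap.finrank_range_add_finrank_ker g
  have h2 : LinearMap.range g = LinearMap.range f ⊓ S := by
    ext x
    constructor
    · rintro ⟨y, rfl⟩; exact ⟨⟨y.1, rfl⟩, y.2⟩
    · rintro ⟨⟨y, rfl⟩, hy⟩; exact ⟨⟨y, hy⟩, rfl⟩
  have h3 : finrank k (LinearMap.ker g) = finrank k (LinearMap.ker f) := by
    have h4 : LinearMap.ker g = (LinearMap.ker f).submoduleOf (S.comap f) := by
      ext x; rfl
    rw [h4]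
    refine (Submodule.submoduleOfEquivOfLe fun x hx => ?_).finrank_eq
    rw [Submodule.mem_comap, LinearMap.mem_ker.1 hx]
    exact S.zero_mem
  rw [h2, h3] at h1
  exact h1.symm

end dims

section abs

variable {k G A B : Type} [Field k] [Group G] [AddCommGroup A] [Module k A]
  [AddCommGroup B] [Module k B]
  {𝓛 : Levels G} {D : LD 𝓛} {χ : G →* kˣ} {ρA : Representation k G A}
  {ρB : Representation k G B} {β : A →ₗ[k] B →ₗ[k] k}

/-- Selmer cocycles -/
def SelC (D : LD 𝓛) (ρ : Representation k G B) (L : ∀ v, Submodule k (D.Gv v → B)) :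
    Submodule k (G → B) :=
  Z1 𝓛 ρ ⊓ ⨅ v, (L v).comap (LinearMap.funLeft k B (D.loc v))

lemma mem_SelC {ρ : Representation k G B} {L : ∀ v, Submodule k (D.Gv v → B)} {c : G → B} :
    c ∈ SelC D ρ L ↔ c ∈ Z1 𝓛 ρ ∧ ∀ v, (fun g => c (D.loc v g)) ∈ L v := by
  simp only [SelC, Submodule.mem_inf, Submodule.mem_iInf, Submodule.mem_comap]
  rfl

lemma B1_le_SelC {ρ : Representation k G B} (hs : Smooth 𝓛 ρ)
    {L : ∀ v, Submodule k (D.Gv v → B)} (hL : ∀ v, B1 (D.rv ρ v) ≤ L v) :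
    B1 ρ ≤ SelC D ρ L := by
  rintro _ ⟨b, rfl⟩
  rw [mem_SelC]
  exact ⟨hs.d0_mem_Z1 b, fun v => hL v ⟨b, rfl⟩⟩

lemma B1_le_perpZ {H : Type} [Group H] {𝓜 : Levels H} {ψ : H →* kˣ}
    {ρA : Representation k H A} {ρB : Representation k H B}
    (hβ : BiEquivar ρA ρB (mu ψ) β) (hA : Smooth 𝓜 ρA)
    (L : Submodule k (H → B)) : B1 ρA ≤ perpZ 𝓜 ψ ρA ρB β L := by
  rintro _ ⟨a, rfl⟩
  refine ⟨hA.d0_mem_Z1 a, fun x _ hx => ?_⟩
  rw [mem_B2]
  exact ⟨fun g => β a (x g), hx.1.comp' _, cupC_d0_left hβ a hx⟩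

variable [Module.Finite k A] [Module.Finite k B]

/-- **Greenberg-Wiles inequality, abstract form.** -/
theorem GW_abs (hβ : BiEquivar ρA ρB (mu χ) β) (hD : GlobHyp D χ)
    (hL : ∀ v, LocHyp (D.lev v) (χ.comp (D.loc v)))
    [DecidableEq D.ι]
    (hinj : ∀ v, Function.Injective (fun z : H2 (D.lev v) (D.rv (mu χ) v) =>
      (Submodule.Quotient.mk (Pi.single v z) : D.Cok (mu χ))))
    (hA : Smooth 𝓛 ρA) (hB : Smooth 𝓛 ρB) (hbij : Function.Bijective β)
    (L : ∀ v, Submodule k (D.Gv v → B)) (hL1 : ∀ v, B1 (D.rv ρB v) ≤ L v)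
    (hL2 : ∀ v, L v ≤ Z1 (D.lev v) (D.rv ρB v)) :
    (finrank k (SelC D ρB L) : ℤ) + Fintype.card D.ι * finrank k B ≤
      finrank k (SelC D ρA (fun v => perpZ (D.lev v) (χ.comp (D.loc v)) (D.rv ρA v)
        (D.rv ρB v) β (L v))) + ∑ v, (finrank k (L v) : ℤ) + chi2 𝓛 ρA := by
  -- finiteness
  have hfA1 : Module.Finite k (H1 𝓛 ρA) := hD.glob.fin1 _ hA
  have hfB1 : Module.Finite k (H1 𝓛 ρB) := hD.glob.fin1 _ hB
  have hfvA : ∀ v, Module.Finite k (H1 (D.lev v) (D.rv ρA v)) :=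
    fun v => (hL v).fin1 _ (hA.comp (D.cont v))
  have hfvB : ∀ v, Module.Finite k (H1 (D.lev v) (D.rv ρB v)) :=
    fun v => (hL v).fin1 _ (hB.comp (D.cont v))
  have hfμ : ∀ v, Module.Finite k (H2 (D.lev v) (D.rv (mu χ) v)) := fun v =>
    (hL v).fin2 _ ((smooth_mu hD.op_ker).comp (D.cont v))
  have hcok : finrank k (D.Cok (mu χ)) ≤ 1 := by
    rw [hD.cok _ (smooth_mu hD.op_ker), finrank_invariants_dtw_mu]
  -- local conditions in cohomology
  let Λ : Submodule k (P1 D ρB) := Submodule.pi Set.univ fun v =>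
    imH (D.lev v) (D.rv ρB v) (L v)
  let L' : Submodule k (P1 D ρA) :=
    { carrier := {y | ∀ v, ∀ x ∈ imH (D.lev v) (D.rv ρB v) (L v), locCup D hβ hB v (y v) x = 0}
      add_mem' := fun {y y'} hy hy' v x hx => by
        rw [Pi.add_apply, map_add, LinearMap.add_apply, hy v x hx, hy' v x hx, add_zero]
      zero_mem' := fun v x _ => by rw [Pi.zero_apply, map_zero, LinearMap.zero_apply]
      smul_mem' := fun c y hy v x hx => by
        rw [Pi.smul_apply, map_smul, LinearMap.smul_apply, hy v x hx, smul_zero] }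
  have key := finrank_inf_add_le hcok (cokCup D hβ hB) (LinearMap.range (D.loc1 ρB))
    (LinearMap.range (D.loc1 ρA)) (by
      rintro _ ⟨y, rfl⟩ _ ⟨x, rfl⟩
      exact cokCup_loc1 D hβ hB y x) Λ L' (by
      intro y _ hy v x hx
      apply hinj v
      have h1 := hy (Pi.single v x) (by
        rw [Submodule.mem_pi]
        intro w _
        by_cases hw : w = v
        · subst hw; rw [Pi.single_eq_same]; exact hx
        · rw [Pi.single_eq_of_ne hw]; exact Submodule.zero_mem _)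
      rw [cokCup_apply] at h1
      have h2 : totCup D hβ hB y (Pi.single v x) = Pi.single v (locCup D hβ hB v (y v) x) := by
        funext w
        rw [totCup_apply]
        by_cases hw : w = v
        · subst hw
          rw [Pi.single_eq_same, Pi.single_eq_same]
        · rw [Pi.single_eq_of_ne hw, Pi.single_eq_of_ne hw, map_zero]
      rw [h2] at h1
      show (Submodule.Quotient.mk (Pi.single v (locCup D hβ hB v (y v) x)) : D.Cok (mu χ)) =
        Submodule.Quotient.mk (Pi.single v 0)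
      rw [h1, Pi.single_zero]
      rfl)
  -- the Selmer group of `B`
  have e1 : finrank k (imH 𝓛 ρB (SelC D ρB L)) ≤
      finrank k ↥(LinearMap.range (D.loc1 ρB) ⊓ Λ) + finrank k (D.Sha1 ρB) := by
    have h1 := finrank_comap_eq (D.loc1 ρB) Λ
    have h2 : finrank k (LinearMap.ker (D.loc1 ρB)) = finrank k (D.Sha1 ρB) := rfl
    rw [← h2, ← h1]
    refine Submodule.finrank_mono ?_
    rintro _ ⟨c, hc, rfl⟩
    have hc' := mem_SelC.1 hc
    rw [Submodule.mem_comap, Submodule.mem_pi]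
    intro v _
    exact mem_imH (x := ⟨fun g => c.1 (D.loc v g), hL2 v (hc'.2 v)⟩) (hc'.2 v)
  -- the Selmer group of `A`
  have e2 : finrank k ↥(LinearMap.range (D.loc1 ρA) ⊓ L') + finrank k (D.Sha1 ρA) ≤
      finrank k (imH 𝓛 ρA (SelC D ρA (fun v => perpZ (D.lev v) (χ.comp (D.loc v)) (D.rv ρA v)
        (D.rv ρB v) β (L v)))) := by
    have h1 := finrank_comap_eq (D.loc1 ρA) L'
    have h2 : finrank k (LinearMap.ker (D.loc1 ρA)) = finrank k (D.Sha1 ρA) := rfl
    rw [← h2, ← h1]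
    refine Submodule.finrank_mono ?_
    intro y hy
    obtain ⟨y, rfl⟩ := H1π_surjective 𝓛 ρA y
    refine mem_imH (mem_SelC.2 ⟨y.2, fun v => ?_⟩)
    have hyv : (fun g => y.1 (D.loc v g)) ∈ Z1 (D.lev v) (D.rv ρA v) :=
      pp1_mem_Z1 (ρB := D.rv ρA v) (φ := LinearMap.id) (D.cont v) (fun _ _ => rfl) y.2
    refine ⟨hyv, fun x hx hxZ => ?_⟩
    have h3 := hy v (H1π (D.lev v) (D.rv ρB v) ⟨x, hxZ⟩) (mem_imH (x := ⟨x, hxZ⟩) hx)
    have h4 : H2π (D.lev v) (D.rv (mu χ) v) (cupZ (𝓛 := D.lev v) (hβ.comp (D.loc v))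
      (hB.comp (D.cont v)) ⟨_, hyv⟩ ⟨x, hxZ⟩) = 0 := h3
    rw [H2π_eq_zero_iff] at h4
    rw [mem_B2]
    exact h4
  -- dimensions
  have e3 := finrank_imH hB (B1_le_SelC hB hL1) (W := SelC D ρB L) inf_le_left
  have e4 := finrank_imH hA (B1_le_SelC hA (fun v => B1_le_perpZ (hβ.comp (D.loc v))
    (hA.comp (D.cont v)) (L v))) (W := SelC D ρA (fun v => perpZ (D.lev v) (χ.comp (D.loc v))
      (D.rv ρA v) (D.rv ρB v) β (L v))) inf_le_left
  have e5 : ∀ v, (finrank k (imH (D.lev v) (D.rv ρB v) (L v)) : ℤ) =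
      finrank k (L v) + finrank k (D.rv ρB v).invariants - finrank k B := by
    intro v
    have : finrank k (imH (D.lev v) (D.rv ρB v) (L v)) + finrank k B =
        finrank k (L v) + finrank k (D.rv ρB v).invariants :=
      finrank_imH (hB.comp (D.cont v)) (hL1 v) (hL2 v)
    omega
  have e6 : (finrank k Λ : ℤ) = ∑ v, (finrank k (L v) : ℤ) +
      (∑ v, finrank k (D.rv ρB v).invariants : ℕ) - Fintype.card D.ι * finrank k B := by
    have h1 : finrank k Λ = ∑ v, finrank k (imH (D.lev v) (D.rv ρB v) (L v)) := by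
      have e : Λ ≃ₗ[k] (∀ v, imH (D.lev v) (D.rv ρB v) (L v)) :=
        { toFun := fun x v => ⟨x.1 v, (Submodule.mem_pi.1 x.2) v trivial⟩
          map_add' := fun x y => rfl
          map_smul' := fun c x => rfl
          invFun := fun x => ⟨fun v => (x v).1, Submodule.mem_pi.2 fun v _ => (x v).2⟩
          left_inv := fun x => rfl
          right_inv := fun x => rfl }
      rw [e.finrank_eq, Module.finrank_pi_fintype]
    rw [h1]
    push_cast
    rw [Finset.sum_congr rfl fun v _ => e5 v, Finset.sum_sub_distrib, Finset.sum_add_distrib]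
    simp
  have e7 := finrank_Sha1_le hβ.flip hD hB hA (flip_bijective hbij)
  have e8 := finrank_Sha2_add hβ.flip hD hL hA (flip_bijective hbij)
  have e9 : finrank k (LinearMap.range (D.loc1 ρA)) + finrank k (D.Sha1 ρA) =
      finrank k (H1 𝓛 ρA) := LinearMap.finrank_range_add_finrank_ker (D.loc1 ρA)
  have key' : finrank k ↥(LinearMap.range (D.loc1 ρB) ⊓ Λ) +
      finrank k (LinearMap.range (D.loc1 ρA)) ≤
      finrank k Λ + finrank k ↥(LinearMap.range (D.loc1 ρA) ⊓ L') := key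
  have e11 : finrank k A = finrank k B := by
    have := (LinearEquiv.ofBijective β hbij).finrank_eq
    rwa [Module.finrank_linearMap, finrank_self, mul_one] at this
  rw [chi2]
  clear key
  omega

end abs

end Fermat.Agent.H75
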