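import Mathlib
import Fermat.Agent.H56Defs
import Fermat.Agent.H75GW
import Fermat.Agent.H75Ram
import Fermat.Agent.H55Main
import Fermat.Agent.H54Levels

/-!
# The Greenberg-Wiles inequality for `ℚ` (S56)
-/

set_option autoImplicit false
set_option maxSynthPendingDepth 3

namespace Fermat.Agent.H75

open Fermat.Agent.H55 Fermat.Agent.H56 Fermat.Agent.H91 Module ExtCitation

section transport

variable {k H H' A B : Type*} [Field k] [Group H] [Group H'] [AddCommGroup A] [Module k A]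
  [AddCommGroup B] [Module k B] {𝓜 : Levels H} {𝓜' : Levels H'} {e : H →* H'}
  (hb : Function.Bijective e) (hc : Levels.Cont 𝓜 𝓜' e)
  (hc' : ∀ V, 𝓜.op V → 𝓜'.op (V.map e))

include hb hc' in
lemma cont_inv : Levels.Cont 𝓜' 𝓜 ((MulEquiv.ofBijective e hb).symm : H' →* H) := by
  intro V hV
  refine 𝓜'.op_mono (le_of_eq ?_) (hc' V hV)
  exact (Subgroup.comap_equiv_eq_map_symm (MulEquiv.ofBijective e hb).symm V).symm

include hb hc hc' in
lemma mem_Z1_iff_of_bij (ρ : Representation k H' A) {f : H' → A} :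
    f ∈ Z1 𝓜' ρ ↔ (fun h => f (e h)) ∈ Z1 𝓜 (ρ.comp e) := by
  constructor
  · intro h
    exact pp1_mem_Z1 (ρB := ρ.comp e) (φ := LinearMap.id) hc (fun _ _ => rfl) h
  · intro h
    have h1 := pp1_mem_Z1 (ρA := ρ.comp e) (ρB := ρ) (φ := LinearMap.id) (cont_inv hb hc')
      (fun h' a => by
        show ρ (e ((MulEquiv.ofBijective e hb).symm h')) a = _
        rw [show e ((MulEquiv.ofBijective e hb).symm h') = h' from
          (MulEquiv.ofBijective e hb).apply_symm_apply h']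
        rfl) h
    convert h1 using 1
    funext h'
    show f h' = f (e ((MulEquiv.ofBijective e hb).symm h'))
    rw [show e ((MulEquiv.ofBijective e hb).symm h') = h' from
          (MulEquiv.ofBijective e hb).apply_symm_apply h']

include hb in
lemma mem_B1_iff_of_bij (ρ : Representation k H' A) {f : H' → A} :
    f ∈ B1 ρ ↔ (fun h => f (e h)) ∈ B1 (ρ.comp e) := by
  constructor
  · rintro ⟨a, rfl⟩
    exact ⟨a, rfl⟩
  · rintro ⟨a, ha⟩
    refine ⟨a, ?_⟩
    funext h'
    obtain ⟨h, rfl⟩ := hb.2 h'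
    exact congrFun ha h

include hb hc hc' in
lemma mem_B2_iff_of_bij (ρ : Representation k H' A) {f : H' × H' → A} :
    f ∈ B2 𝓜' ρ ↔ (fun p : H × H => f (e p.1, e p.2)) ∈ B2 𝓜 (ρ.comp e) := by
  rw [mem_B2, mem_B2]
  constructor
  · rintro ⟨c, hc1, rfl⟩
    exact ⟨fun h => c (e h), hc1.precomp hc, by funext p; simp [d1]⟩
  · rintro ⟨c, hc1, h2⟩
    refine ⟨fun h => c ((MulEquiv.ofBijective e hb).symm h),
      hc1.precomp (cont_inv hb hc'), ?_⟩
    funext p
    obtain ⟨g, h⟩ := p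
    obtain ⟨g, rfl⟩ := hb.2 g
    obtain ⟨h, rfl⟩ := hb.2 h
    have h3 := congrFun h2 (g, h)
    have h4 : ∀ x, (MulEquiv.ofBijective e hb).symm (e x) = x :=
      fun x => (MulEquiv.ofBijective e hb).symm_apply_apply x
    simp only [d1_apply] at h3 ⊢
    rw [← h3, ← map_mul, h4, h4, h4]
    rfl

include hb hc hc' in
lemma mem_perpZ_iff_of_bij {ψ : H' →* kˣ} {ρA : Representation k H' A}
    {ρB : Representation k H' B} {β : A →ₗ[k] B →ₗ[k] k} {L : Submodule k (H' → B)}
    {y : H' → A} :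
    y ∈ perpZ 𝓜' ψ ρA ρB β L ↔ (fun h => y (e h)) ∈
      perpZ 𝓜 (ψ.comp e) (ρA.comp e) (ρB.comp e) β (L.map (LinearMap.funLeft k B e)) := by
  rw [mem_perpZ, mem_perpZ, mem_Z1_iff_of_bij hb hc hc' ρA]
  refine and_congr_right fun hy => ?_
  constructor
  · rintro h _ ⟨x, hx, rfl⟩ hxZ
    have h1 := h x hx ((mem_Z1_iff_of_bij hb hc hc' ρB).2 hxZ)
    exact (mem_B2_iff_of_bij hb hc hc' (mu ψ)).1 h1
  · rintro h x hx hxZ
    have h1 := h _ ⟨x, hx, rfl⟩ ((mem_Z1_iff_of_bij hb hc hc' ρB).1 hxZ)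
    exact (mem_B2_iff_of_bij hb hc hc' (mu ψ)).2 h1

include hb hc hc' in
lemma map_Z1_of_bij (ρ : Representation k H' A) :
    (Z1 𝓜' ρ).map (LinearMap.funLeft k A e) = Z1 𝓜 (ρ.comp e) := by
  ext f
  constructor
  · rintro ⟨x, hx, rfl⟩
    exact (mem_Z1_iff_of_bij hb hc hc' ρ).1 hx
  · intro hf
    obtain ⟨x, rfl⟩ := LinearMap.funLeft_surjective_of_injective k A e hb.1 f
    exact ⟨x, (mem_Z1_iff_of_bij hb hc hc' ρ).2 hf, rfl⟩

lemma B1_le_map_of_bij {ρ : Representation k H' A} {L : Submodule k (H' → A)} (h : B1 ρ ≤ L) :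
    B1 (ρ.comp e) ≤ L.map (LinearMap.funLeft k A e) := by
  rintro _ ⟨a, rfl⟩
  exact ⟨d0 ρ a, h ⟨a, rfl⟩, rfl⟩

include hb in
lemma finrank_map_of_bij (L : Submodule k (H' → A)) :
    finrank k (L.map (LinearMap.funLeft k A e)) = finrank k L :=
  (Submodule.equivMapOfInjective _
    (LinearMap.funLeft_injective_of_surjective k A e hb.2) L).symm.finrank_eq

end transport

/-! ### the decomposition group at `q` -/

section loc

/-- the decomposition group as a quotient of the local Galois group -/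
noncomputable def locDq (q : Nat.Primes) : primeLocalGaloisGroup q →* Dq q :=
  (primeLocalToGlobal q).codRestrict (Dq q) fun x =>
    haveI : Fact (q : ℕ).Prime := ⟨q.2⟩
    localGaloisToGlobal_mem_decompositionSubgroup (q : ℕ) x

lemma locDq_bijective (q : Nat.Primes) : Function.Bijective (locDq q) := by
  have : Fact (q : ℕ).Prime := ⟨q.2⟩
  constructor
  · intro x y h
    exact H54.localGaloisToGlobal_injective (q : ℕ) (congrArg Subtype.val h)
  · rintro ⟨σ, hσ⟩
    have h1 : σ ∈ (localGaloisToGlobal (q : ℕ)).range := by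
      rw [H54.range_localGaloisToGlobal]
      exact hσ
    obtain ⟨x, rfl⟩ := h1
    exact ⟨x, rfl⟩

lemma cont_locDq (q : Nat.Primes) :
    Levels.Cont (krullLevels.comap (primeLocalToGlobal q)) (Dlev q) (locDq q) := by
  rintro V ⟨U, hU, hle⟩
  exact ⟨U, hU, fun x hx => hle hx⟩

lemma map_locDq_op (q : Nat.Primes) (V : Subgroup (primeLocalGaloisGroup q))
    (hV : (krullLevels.comap (primeLocalToGlobal q)).op V) : (Dlev q).op (V.map (locDq q)) := by
  obtain ⟨U, hU, hle⟩ := hV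
  refine ⟨U, hU, ?_⟩
  rintro σ hσ
  obtain ⟨x, rfl⟩ := (locDq_bijective q).2 σ
  exact ⟨x, hle hσ, rfl⟩

end loc

/-- Euler characteristic inequality for all sufficiently large `S` -/
def ECIneq (p : ℕ) [Fact p.Prime] : Prop :=
  ∀ (M : Type) [AddCommGroup M] [Module (ZMod p) M] [Finite M]
    (ρ : Representation (ZMod p) GQ M), Smooth krullLevels ρ →
    ∃ S₁ : Finset Nat.Primes, ∀ S : Finset Nat.Primes, S₁ ⊆ S →
      chi2 (ramLevels S) ρ + finrank (ZMod p) M ≤ finrank (ZMod p) (realInv ρ)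

/-- smooth representations are unramified outside a finite set -/
lemma exists_smooth_ram {p : ℕ} [Fact p.Prime] {M : Type} [AddCommGroup M] [Module (ZMod p) M]
    [Finite M] {ρ : Representation (ZMod p) GQ M} (hs : Smooth krullLevels ρ) :
    ∃ S₁ : Finset Nat.Primes, ∀ S : Finset Nat.Primes, S₁ ⊆ S → Smooth (ramLevels S) ρ := by
  obtain ⟨U, hU, hfix⟩ := hs.uniform (Set.toFinite (Set.univ : Set M))
  obtain ⟨S₁, hS₁⟩ := exists_ramLevels_op hU
  exact ⟨S₁, fun S hS a => ⟨U, hS₁ S hS, fun s hsU => hfix s hsU a trivial⟩⟩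

section assemble

variable {p : ℕ} [Fact p.Prime] {M : Type} [AddCommGroup M] [Module (ZMod p) M]
  {ρ : Representation (ZMod p) GQ M} {S : Finset Nat.Primes}

/-- local conditions transported to the local Galois groups -/
noncomputable def toLocL (S : Finset Nat.Primes)
    (L : ∀ q : Nat.Primes, Submodule (ZMod p) (Dq q → M)) (v : (DS S).ι) :
    Submodule (ZMod p) ((DS S).Gv v → M) :=
  (L v.1).map (LinearMap.funLeft (ZMod p) M (locDq v.1))

/-- the orthogonal local condition -/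
noncomputable def perpD (ρ : Representation (ZMod p) GQ M) (q : Nat.Primes)
    (L : Submodule (ZMod p) (Dq q → M)) : Submodule (ZMod p) (Dq q → Module.Dual (ZMod p) M) :=
  perpZ (Dlev q) ((cycloChar p).comp (Dq q).subtype) (rhoD (dtw (cycloChar p) ρ) q)
      (rhoD ρ q) LinearMap.id L

lemma B1_le_toLocL {L : ∀ q : Nat.Primes, Submodule (ZMod p) (Dq q → M)}
    (hL : ∀ q ∈ S, B1 (rhoD ρ q) ≤ L q) (v : (DS S).ι) :
    B1 ((DS S).rv ρ v) ≤ toLocL S L v := by
  rintro _ ⟨a, rfl⟩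
  exact ⟨d0 (rhoD ρ v.1) a, hL v.1 v.2 ⟨a, rfl⟩, rfl⟩

lemma toLocL_le {L : ∀ q : Nat.Primes, Submodule (ZMod p) (Dq q → M)}
    (hL : ∀ q ∈ S, L q ≤ Z1 (Dlev q) (rhoD ρ q)) (v : (DS S).ι) :
    toLocL S L v ≤ Z1 ((DS S).lev v) ((DS S).rv ρ v) := by
  refine (Submodule.map_mono (hL v.1 v.2)).trans (le_of_eq ?_)
  exact map_Z1_of_bij (locDq_bijective v.1) (cont_locDq v.1) (map_locDq_op v.1) _

lemma selC_toLocL (L : ∀ q : Nat.Primes, Submodule (ZMod p) (Dq q → M)) :
    SelC (DS S) ρ (toLocL S L) = SelZ S ρ L := by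
  ext c
  rw [mem_SelC, mem_SelZ]
  refine and_congr_right fun _ => ?_
  constructor
  · intro h q hq
    obtain ⟨x, hx, hxe⟩ := h ⟨q, hq⟩
    have : x = resD p M q c := by
      apply LinearMap.funLeft_injective_of_surjective (ZMod p) M (locDq q)
        (locDq_bijective q).2
      exact hxe
    rw [← this]; exact hx
  · intro h v
    exact ⟨resD p M v.1 c, h v.1 v.2, rfl⟩

lemma mem_perpD_iff (q : Nat.Primes) (L : Submodule (ZMod p) (Dq q → M))
    (y : Dq q → Module.Dual (ZMod p) M) :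
    y ∈ perpD ρ q L ↔ (fun x => y (locDq q x)) ∈
      perpZ (krullLevels.comap (primeLocalToGlobal q)) ((cycloChar p).comp (primeLocalToGlobal q))
        ((dtw (cycloChar p) ρ).comp (primeLocalToGlobal q))
        (ρ.comp (primeLocalToGlobal q)) LinearMap.id
        (L.map (LinearMap.funLeft (ZMod p) M (locDq q))) :=
  mem_perpZ_iff_of_bij (ψ := (cycloChar p).comp (Dq q).subtype)
    (ρA := rhoD (dtw (cycloChar p) ρ) q) (ρB := rhoD ρ q) (β := LinearMap.id) (L := L)
    (y := y) (locDq_bijective q) (cont_locDq q) (map_locDq_op q)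

lemma selC_perp (L : ∀ q : Nat.Primes, Submodule (ZMod p) (Dq q → M)) :
    SelC (DS S) (dtw (cycloChar p) ρ) (fun v => perpZ ((DS S).lev v)
      ((cycloChar p).comp ((DS S).loc v)) ((DS S).rv (dtw (cycloChar p) ρ) v)
      ((DS S).rv ρ v) LinearMap.id (toLocL S L v)) =
        SelZ S (dtw (cycloChar p) ρ) (fun q => perpD ρ q (L q)) := by
  ext c
  rw [mem_SelC, mem_SelZ]
  refine and_congr_right fun _ => ?_
  constructor
  · intro h q hq
    exact (mem_perpD_iff q (L q) (resD p _ q c)).2 (h ⟨q, hq⟩)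
  · intro h v
    exact (mem_perpD_iff v.1 (L v.1) (resD p _ v.1 c)).1 (h v.1 v.2)

lemma finrank_toLocL (L : ∀ q : Nat.Primes, Submodule (ZMod p) (Dq q → M)) (v : (DS S).ι) :
    finrank (ZMod p) (toLocL S L v) = finrank (ZMod p) (L v.1) :=
  finrank_map_of_bij (locDq_bijective v.1) (L v.1)

lemma sum_finrank_toLocL (L : ∀ q : Nat.Primes, Submodule (ZMod p) (Dq q → M)) :
    ∑ v, (finrank (ZMod p) (toLocL S L v) : ℤ) = ∑ q ∈ S, (finrank (ZMod p) (L q) : ℤ) := by
  rw [Finset.sum_congr rfl fun v _ => congrArg (Nat.cast (R := ℤ)) (finrank_toLocL L v)]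
  exact Finset.sum_coe_sort S (fun q => (finrank (ZMod p) (L q) : ℤ))

/-- the Greenberg-Wiles inequality with the Euler characteristic -/
lemma GW_DS [Finite M] (hA : ArithInput (DS S) (cycloChar p)) (hsm : Smooth (ramLevels S) ρ)
    (L : ∀ q : Nat.Primes, Submodule (ZMod p) (Dq q → M))
    (hL1 : ∀ q ∈ S, B1 (rhoD ρ q) ≤ L q) (hL2 : ∀ q ∈ S, L q ≤ Z1 (Dlev q) (rhoD ρ q)) :
    (finrank (ZMod p) (SelZ S ρ L) : ℤ) + S.card * finrank (ZMod p) M ≤
      finrank (ZMod p) (SelZ S (dtw (cycloChar p) ρ) (fun q => perpD ρ q (L q))) +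
        ∑ q ∈ S, (finrank (ZMod p) (L q) : ℤ) +
        chi2 (ramLevels S) (dtw (cycloChar p) ρ) := by
  classical
  have hsm' : Smooth (ramLevels S) (dtw (cycloChar p) ρ) := smooth_dtw hA.open_ker hsm
  have hfull := hA.fullHyp
  have h := GW_abs (biEquivar_dtw (cycloChar p) ρ) hfull.toGlobHyp hfull.locHyp hfull.inj
    hsm' hsm Function.bijective_id (toLocL S L) (B1_le_toLocL hL1) (toLocL_le hL2)
  rw [selC_toLocL, selC_perp, sum_finrank_toLocL] at h
  have e4 : Fintype.card (DS S).ι = S.card := Fintype.card_coe S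
  rw [e4] at h
  exact h

lemma perpD_Z1_le [Finite M]
    (hAr : ∀ S : Finset Nat.Primes, pPrime p ∈ S → ArithInput (DS S) (cycloChar p))
    (hρ : Smooth krullLevels ρ) (hdtwK : Smooth krullLevels (dtw (cycloChar p) ρ))
    (q : Nat.Primes) :
    perpD ρ q (Z1 (Dlev q) (rhoD ρ q)) ≤ B1 (rhoD (dtw (cycloChar p) ρ) q) := by
  classical
  intro y hy
  have hA := hAr (insert (pPrime p) {q}) (Finset.mem_insert_self _ _)
  let v : (DS (insert (pPrime p) {q})).ι :=
    ⟨q, Finset.mem_insert_of_mem (Finset.mem_singleton_self _)⟩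
  have h1 := (mem_perpD_iff q _ y).1 hy
  rw [map_Z1_of_bij (locDq_bijective q) (cont_locDq q) (map_locDq_op q)] at h1
  have h2 := perpZ_Z1_le ((biEquivar_dtw (cycloChar p) ρ).comp (primeLocalToGlobal q))
    (hA.locHyp v) (hdtwK.comp (Levels.cont_comap krullLevels (primeLocalToGlobal q)))
    (hρ.comp (Levels.cont_comap krullLevels (primeLocalToGlobal q))) Function.bijective_id h1
  exact (mem_B1_iff_of_bij (locDq_bijective q) _).2 h2

end assemble

/-- **The Greenberg-Wiles inequality** from the arithmetic input and the Euler characteristic. -/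
theorem GWIneq_of {p : ℕ} [Fact p.Prime]
    (hAr : ∀ S : Finset Nat.Primes, pPrime p ∈ S → ArithInput (DS S) (cycloChar p))
    (hEC : ECIneq p) : GWIneq p := by
  classical
  intro M _ _ _ ρ hρ
  obtain ⟨Sa, hSa⟩ := exists_smooth_ram hρ
  have hSp := hAr {pPrime p} (Finset.mem_singleton_self _)
  have hker : krullLevels.op (cycloChar p).ker :=
    ramLevels_le_krullLevels _ hSp.open_ker
  have hdtwK : Smooth krullLevels (dtw (cycloChar p) ρ) := smooth_dtw hker hρ
  have hfinD : Finite (Module.Dual (ZMod p) M) := Module.finite_of_finite (ZMod p)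
  obtain ⟨Sb, hSb⟩ := hEC _ (dtw (cycloChar p) ρ) hdtwK
  refine ⟨insert (pPrime p) (Sa ∪ Sb), perpD ρ, perpD_Z1_le hAr hρ hdtwK, fun S hS => ?_⟩
  have hpS : pPrime p ∈ S := hS (Finset.mem_insert_self _ _)
  have hSaS : Sa ⊆ S := fun q hq => hS (Finset.mem_insert_of_mem (Finset.mem_union_left _ hq))
  have hSbS : Sb ⊆ S := fun q hq => hS (Finset.mem_insert_of_mem (Finset.mem_union_right _ hq))
  have hA := hAr S hpS
  have hsm := hSa S hSaS
  have hsm' : Smooth (ramLevels S) (dtw (cycloChar p) ρ) := smooth_dtw hA.open_ker hsm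
  have hec := hSb S hSbS
  have hf1 : Module.Finite (ZMod p) (H1 (ramLevels S) ρ) := hA.globRE.fin1 _ hsm
  have hf2 : Module.Finite (ZMod p) (H1 (ramLevels S) (dtw (cycloChar p) ρ)) :=
    hA.globRE.fin1 _ hsm'
  refine ⟨finite_Z1 hsm, finite_Z1 hsm', fun L hL => ?_⟩
  have h := GW_DS hA hsm L (fun q hq => (hL q hq).1) (fun q hq => (hL q hq).2.1)
  have e5 : finrank (ZMod p) (Module.Dual (ZMod p) M) = finrank (ZMod p) M :=
    Subspace.dual_finrank_eq
  rw [e5] at hec
  have h' : (finrank (ZMod p) (SelZ S ρ L) : ℤ) + (S.card + 1) * finrank (ZMod p) M ≤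
      finrank (ZMod p) (SelZ S (dtw (cycloChar p) ρ) (fun q => perpD ρ q (L q))) +
        ∑ q ∈ S, (finrank (ZMod p) (L q) : ℤ) +
        finrank (ZMod p) (realInv (dtw (cycloChar p) ρ)) := by
    rw [add_mul, one_mul]
    linarith
  exact_mod_cast h'

end Fermat.Agent.H75
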