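import Mathlib
import Fermat.Agent.H75EC1
import Fermat.Agent.H75GW2
import Fermat.Agent.H77ArtinP

/-!
# Euler characteristic (S56): assembly
-/

set_option autoImplicit false
set_option maxSynthPendingDepth 3

namespace Fermat.Agent.H75

open Fermat.Agent.H55 Fermat.Agent.H56 Fermat.Agent.H91 Module ExtCitation
open Fermat.Agent.H77.Rep
open Fermat.Agent.H77.Rep.AddFun (permRep)

section abs

variable {p : ℕ} [Fact p.Prime] {G : Type} [Group G] {𝓛 : Levels G} {D : LD 𝓛}
  {χ : G →* (ZMod p)ˣ} {c : G} {M : Type} [AddCommGroup M] [Module (ZMod p) M]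

/-- the Euler characteristic defect -/
noncomputable def EE (𝓛 : Levels G) (c : G) (ρ : Representation (ZMod p) G M) : ℤ :=
  chi2 𝓛 ρ - finrank (ZMod p) (invC (Subgroup.zpowers c) ρ) + finrank (ZMod p) M

/-- dimension formula for `H¹` of subgroups -/
def CYForm (D : LD 𝓛) (χ : G →* (ZMod p)ˣ) (c : G) (U : Subgroup G) : Prop :=
  ∀ C : Subgroup G, U ≤ C → ¬ p ∣ (U.subgroupOf C).index →
    ∀ (M : Type) [AddCommGroup M] [Module (ZMod p) M] [Finite M]
      (ρ : Representation (ZMod p) G M), (∀ σ ∈ U, ρ σ = 1) →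
      finrank (ZMod p) (H1 (𝓛.onSub C) (ρ.comp C.subtype)) +
        finrank (ZMod p) (invC C (dtw χ ρ)) =
      finrank (ZMod p) (invC C ρ) +
        ∑ v, finrank (ZMod p) (EqFun (D.loc v).range C (dtw χ ρ)) +
        finrank (ZMod p) (EqFun (Subgroup.zpowers c) C (dtw χ ρ))

lemma EE_congr {N : Type} [AddCommGroup N] [Module (ZMod p) N]
    {ρM : Representation (ZMod p) G M} {ρN : Representation (ZMod p) G N}
    {e : M ≃ₗ[ZMod p] N} (he : Equivar ρM ρN (e : M →ₗ[ZMod p] N)) :
    EE 𝓛 c ρM = EE 𝓛 c ρN := by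
  rw [EE, EE, chi2_congr 𝓛 he, finrank_invC_congr _ he, e.finrank_eq]

lemma EE_add (h : RightExact (ZMod p) 𝓛) (hc : c * c = 1) (hp2 : p ≠ 2)
    {A B C : Type} [AddCommGroup A] [Module (ZMod p) A]
    [AddCommGroup B] [Module (ZMod p) B] [Finite B] [AddCommGroup C]
    [Module (ZMod p) C]
    {ρA : Representation (ZMod p) G A} {ρB : Representation (ZMod p) G B}
    {ρC : Representation (ZMod p) G C} (hs : Smooth 𝓛 ρB) {f : A →ₗ[ZMod p] B}
    {g : B →ₗ[ZMod p] C}
    (hf : Equivar ρA ρB f) (hg : Equivar ρB ρC g) (hi : Function.Injective f)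
    (hsu : Function.Surjective g) (he : Function.Exact f g) :
    EE 𝓛 c ρB = EE 𝓛 c ρA + EE 𝓛 c ρC := by
  have E : SES 𝓛 ρA ρB ρC := ⟨f, g, hf, hg, hi, hsu, he, hs⟩
  have h1 := h.chi2_add E
  have h2 := finrank_invC_exact hc hp2 ρA ρB ρC f g hf hg hi hsu he
  have h3 : finrank (ZMod p) B = finrank (ZMod p) A + finrank (ZMod p) C := by
    have h4 := LinearMap.finrank_range_add_finrank_ker g
    rw [LinearMap.range_eq_top.2 hsu, finrank_top] at h4
    have h5 : LinearMap.ker g = LinearMap.range f := by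
      ext x; rw [LinearMap.mem_ker]; exact he x
    rw [h5, LinearMap.finrank_range_of_inj hi] at h4
    omega
  rw [EE, EE, EE, h1, h2, h3]
  push_cast
  ring

lemma finrank_invC_funRep_dtw [Finite M] {Ω : Type} [MulAction G Ω] [Finite Ω]
    (χ : G →* (ZMod p)ˣ) (ρ : Representation (ZMod p) G M) (H : Subgroup G) :
    finrank (ZMod p) (invC H (funRep Ω (dtw χ ρ))) =
      finrank (ZMod p) (invC H (dtw χ (funRep Ω ρ))) := by
  have := Fintype.ofFinite Ω
  exact finrank_invC_congr H (equivar_evPair χ ρ)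

/-- the counting of places -/
lemma finrank_EqFun_trivial {U : Subgroup G} [Finite (G ⧸ U)] (hle : U ≤ χ.ker)
    (H : Subgroup G) :
    finrank (ZMod p) (EqFun H U (dtw χ (Representation.trivial (ZMod p) G (ZMod p)))) =
      finrank (ZMod p) (invC H (funRep (G ⧸ U)
        (Representation.trivial (ZMod p) G (ZMod p)))) := by
  have := Fintype.ofFinite (G ⧸ U)
  rw [finrank_EqFun, finrank_invC_funRep_dtw]
  have he : Equivar (funRep (G ⧸ U) (Representation.trivial (ZMod p) G (ZMod p)))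
      (dtw χ (funRep (G ⧸ U) (Representation.trivial (ZMod p) G (ZMod p))))
      ((LinearEquiv.ofBijective (funPair χ U (ZMod p)) funPair_bijective :
        (G ⧸ U → ZMod p) ≃ₗ[ZMod p] Module.Dual (ZMod p) (G ⧸ U → ZMod p)) :
        (G ⧸ U → ZMod p) →ₗ[ZMod p] Module.Dual (ZMod p) (G ⧸ U → ZMod p)) :=
    equivar_pairing (biEquivar_funPair hle)
  exact (finrank_invC_congr H he).symm

/-- **The class group vanishes**: from the dimension formula for `C = U`. -/
theorem ShaU2_eq_bot (hA : ArithInput D χ) (hc : c * c = 1) (hχ : χ c = -1) (hp2 : p ≠ 2)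
    {U : Subgroup G} (hU : 𝓛.op U) (hle : U ≤ χ.ker) (hCY : CYForm D χ c U) :
    D.ShaU2 (ZMod p) U = ⊥ := by
  have := finite_coset hU
  have := Fintype.ofFinite (G ⧸ U)
  have hf2 := hA.glob_fin2 U hU hle
  have h1 := hCY U le_rfl (by
    rw [Subgroup.subgroupOf_self, Subgroup.index_top]
    exact (Fact.out : p.Prime).one_lt.ne' ∘ Nat.dvd_one.1) (ZMod p)
    (Representation.trivial (ZMod p) G (ZMod p)) (fun _ _ => rfl)
  have h2 := hA.glob_h U hU hle
  have h3 : invC U (dtw χ (Representation.trivial (ZMod p) G (ZMod p))) = ⊤ := by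
    rw [eq_top_iff]
    intro φ _ u hu
    ext
    rw [dtw_apply, MonoidHom.mem_ker.1 (hle hu)]
    simp
  have h4 : invC U (Representation.trivial (ZMod p) G (ZMod p)) = ⊤ := by
    rw [eq_top_iff]
    intro φ _ u hu
    rfl
  rw [h3, h4, finrank_top, finrank_top, Subspace.dual_finrank_eq, finrank_self] at h1
  have h5 : ∀ v, finrank (ZMod p) (EqFun (D.loc v).range U
      (dtw χ (Representation.trivial (ZMod p) G (ZMod p)))) = nPl (D.loc v) U := by
    intro v
    have := finite_places (D.loc v) hU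
    rw [finrank_EqFun_trivial hle, ← invC_range]
    exact finrank_invariants_places (k := ZMod p) (D.loc v) U
  have h6 : 2 * finrank (ZMod p) (EqFun (Subgroup.zpowers c) U
      (dtw χ (Representation.trivial (ZMod p) G (ZMod p)))) = U.index := by
    have h7 := finrank_invC_add_dtw hc hp2 hχ
      (funRep (G ⧸ U) (Representation.trivial (ZMod p) G (ZMod p)))
    have h8 : finrank (ZMod p) (invC (Subgroup.zpowers c) (dtw χ (funRep (G ⧸ U)
        (Representation.trivial (ZMod p) G (ZMod p))))) =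
        finrank (ZMod p) (invC (Subgroup.zpowers c) (funRep (G ⧸ U)
        (Representation.trivial (ZMod p) G (ZMod p)))) := by
      rw [← finrank_invC_funRep_dtw, ← finrank_EqFun, finrank_EqFun_trivial hle]
    rw [h8, Module.finrank_fintype_fun_eq_card, ← Nat.card_eq_fintype_card] at h7
    rw [finrank_EqFun_trivial hle, two_mul]
    exact h7
  rw [Finset.sum_congr rfl fun v _ => h5 v] at h1
  have h9 : finrank (ZMod p) (H1 (𝓛.onSub U) (Representation.trivial (ZMod p) U (ZMod p))) + 1 =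
      1 + D.nPlaces U + finrank (ZMod p) (EqFun (Subgroup.zpowers c) U
      (dtw χ (Representation.trivial (ZMod p) G (ZMod p)))) := h1
  have h10 : finrank (ZMod p) (D.ShaU2 (ZMod p) U) = 0 := by omega
  exact Submodule.finrank_eq_zero.1 h10

lemma smooth_of_trivial {U : Subgroup G} (hU : 𝓛.op U) {ρ : Representation (ZMod p) G M}
    (hρ : ∀ σ ∈ U, ρ σ = 1) : Smooth 𝓛 ρ :=
  fun a => ⟨U, hU, fun s hs => by rw [hρ s hs, Module.End.one_apply]⟩

/-- the Euler characteristic formula for induced modules -/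
theorem EE_funRep [Finite M] (hA : ArithInput D χ) (hc : c * c = 1) (hχ : χ c = -1) (hp2 : p ≠ 2)
    {U : Subgroup G} (hU : 𝓛.op U) (hle : U ≤ χ.ker) (hCY : CYForm D χ c U)
    {C : Subgroup G} (hUC : U ≤ C) (hcop : ¬ p ∣ (U.subgroupOf C).index)
    (ρ : Representation (ZMod p) G M) (hρ : ∀ σ ∈ U, ρ σ = 1) :
    EE 𝓛 c (funRep (G ⧸ C) ρ) = 0 := by
  have hC : 𝓛.op C := 𝓛.op_mono hUC hU
  have := finite_coset hC
  have := Fintype.ofFinite (G ⧸ C)
  have hs : Smooth 𝓛 ρ := smooth_of_trivial hU hρ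
  have hsF : Smooth 𝓛 (funRep (G ⧸ C) ρ) := hs.funRep (openAct_coset hC)
  -- `H²`
  have hSha : D.Sha2 (funRep (G ⧸ C) ρ) = ⊥ :=
    Sha2_funRep D hU (fun g hg a => by rw [hρ g hg, Module.End.one_apply]) hUC
      (by rwa [Ne, ZMod.natCast_eq_zero_iff]) (ShaU2_eq_bot hA hc hχ hp2 hU hle hCY)
  have h2 := finrank_Sha2_add (biEquivar_evPair (Ω := G ⧸ C) χ ρ) hA.fullHyp.toGlobHyp
    hA.fullHyp.locHyp hsF evPair_bijective
  rw [hSha, finrank_bot, zero_add] at h2
  -- `H¹`
  have h1 : finrank (ZMod p) (H1 𝓛 (funRep (G ⧸ C) ρ)) =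
      finrank (ZMod p) (H1 (𝓛.onSub C) (ρ.comp C.subtype)) := (shapU1 ρ hC).finrank_eq
  have h3 := hCY C hUC hcop M ρ hρ
  rw [← h1] at h3
  -- invariants
  have h4 : ∀ v, finrank (ZMod p) (D.rv (funRep (G ⧸ C) (dtw χ ρ)) v).invariants =
      finrank (ZMod p) (EqFun (D.loc v).range C (dtw χ ρ)) := by
    intro v
    rw [finrank_EqFun, ← invC_range]
  rw [Finset.sum_congr rfl fun v _ => h4 v, finrank_invariants_funRep_coset] at h2
  -- the real place
  have h5 := finrank_invC_add_dtw hc hp2 hχ (funRep (G ⧸ C) ρ)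
  rw [← finrank_invC_funRep_dtw, ← finrank_EqFun _ _ (dtw χ ρ)] at h5
  rw [EE, chi2, finrank_invariants_funRep_coset]
  omega

end abs

/-! ### Artin induction -/

section artin

variable {p : ℕ} [Fact p.Prime] {G : Type} [Group G] {𝓛 : Levels G} {D : LD 𝓛}
  {χ : G →* (ZMod p)ˣ} {c : G} {M : Type} [AddCommGroup M] [Module (ZMod p) M]
  {U : Subgroup G} [U.Normal]

/-- inflation of a representation of the quotient -/
abbrev inflQ (U : Subgroup G) [U.Normal] (ρ : Representation (ZMod p) (G ⧸ U) M) :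
    Representation (ZMod p) G M := ρ.comp (QuotientGroup.mk' U)

lemma inflQ_eq_one (ρ : Representation (ZMod p) (G ⧸ U) M) (σ : G) (hσ : σ ∈ U) :
    inflQ U ρ σ = 1 := by
  have : QuotientGroup.mk' U σ = 1 := (QuotientGroup.eq_one_iff σ).2 hσ
  show ρ (QuotientGroup.mk' U σ) = 1
  rw [this, map_one]

/-- the additive function given by the Euler characteristic defect -/
noncomputable def EEfun (U : Subgroup G) [U.Normal] (c : G) (h : RightExact (ZMod p) 𝓛)
    (hU : 𝓛.op U) (hc : c * c = 1) (hp2 : p ≠ 2) : AddFun p (G ⧸ U) where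
  F _ _ _ _ ρ := EE 𝓛 c (inflQ U ρ)
  add ρA ρB ρC f g hf hg hi hs he :=
    EE_add h hc hp2 (smooth_of_trivial hU (inflQ_eq_one ρB))
      (ρA := inflQ U ρA) (ρB := inflQ U ρB) (ρC := inflQ U ρC) (f := f) (g := g)
      (fun _ a => hf _ a) (fun _ a => hg _ a) hi hs he

/-- the coset spaces of `G` and of its quotient -/
noncomputable def cosetQ (U : Subgroup G) [U.Normal] (C : Subgroup (G ⧸ U)) :
    G ⧸ C.comap (QuotientGroup.mk' U) ≃ (G ⧸ U) ⧸ C :=
  Equiv.ofBijective (fun x => Quotient.liftOn' x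
    (fun g => (((g : G ⧸ U) : G ⧸ U) : (G ⧸ U) ⧸ C)) (fun a b hab => by
      rw [QuotientGroup.leftRel_apply] at hab
      rw [QuotientGroup.eq]
      exact hab)) (by
    constructor
    · intro a b
      induction a using QuotientGroup.induction_on with
      | H a =>
        induction b using QuotientGroup.induction_on with
        | H b =>
          intro hab
          have h1 : ((a : G ⧸ U) : (G ⧸ U) ⧸ C) = ((b : G ⧸ U) : (G ⧸ U) ⧸ C) := hab
          rw [QuotientGroup.eq] at h1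
          exact QuotientGroup.eq.2 h1
    · intro y
      induction y using QuotientGroup.induction_on with
      | H y =>
        induction y using QuotientGroup.induction_on with
        | H g => exact ⟨(g : G ⧸ C.comap (QuotientGroup.mk' U)), rfl⟩)

lemma cosetQ_mk (C : Subgroup (G ⧸ U)) (g : G) :
    cosetQ U C (g : G ⧸ C.comap (QuotientGroup.mk' U)) = (((g : G ⧸ U) : G ⧸ U) : (G ⧸ U) ⧸ C) :=
  rfl

lemma cosetQ_smul (C : Subgroup (G ⧸ U)) (g : G) (x : G ⧸ C.comap (QuotientGroup.mk' U)) :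
    cosetQ U C (g • x) = (g : G ⧸ U) • cosetQ U C x := by
  induction x using QuotientGroup.induction_on with
  | H a => rfl

lemma index_comap_subgroupOf (C : Subgroup (G ⧸ U)) :
    (U.subgroupOf (C.comap (QuotientGroup.mk' U))).index = Nat.card C := by
  have h1 : U.subgroupOf (C.comap (QuotientGroup.mk' U)) =
      ((QuotientGroup.mk' U).subgroupComap C).ker := by
    ext x
    rw [Subgroup.mem_subgroupOf, MonoidHom.mem_ker]
    constructor
    · intro hx
      exact Subtype.ext ((QuotientGroup.eq_one_iff _).2 hx)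
    · intro hx
      exact (QuotientGroup.eq_one_iff _).1 (congrArg Subtype.val hx)
  rw [h1, Subgroup.index_ker]
  have h2 : Function.Surjective ((QuotientGroup.mk' U).subgroupComap C) :=
    MonoidHom.subgroupComap_surjective_of_surjective _ _ (QuotientGroup.mk'_surjective U)
  rw [MonoidHom.range_eq_top.2 h2]
  exact Nat.card_congr (Equiv.Set.univ _)

/-- the Euler characteristic defect of `permRep` -/
lemma EE_permRep [Finite M] (C : Subgroup (G ⧸ U)) (ρ : Representation (ZMod p) (G ⧸ U) M) :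
    EE 𝓛 c (inflQ U (permRep ρ ((G ⧸ U) ⧸ C))) =
      EE 𝓛 c (funRep (G ⧸ C.comap (QuotientGroup.mk' U)) (inflQ U ρ)) := by
  let e : ((G ⧸ U) ⧸ C → M) ≃ₗ[ZMod p] (G ⧸ C.comap (QuotientGroup.mk' U) → M) :=
    LinearEquiv.funCongrLeft (ZMod p) M (cosetQ U C)
  have he : Equivar (inflQ U (permRep ρ ((G ⧸ U) ⧸ C)))
      (funRep (G ⧸ C.comap (QuotientGroup.mk' U)) (inflQ U ρ))
      (e : ((G ⧸ U) ⧸ C → M) →ₗ[ZMod p] (G ⧸ C.comap (QuotientGroup.mk' U) → M)) := by
    intro g f
    funext x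
    rw [funRep_apply]
    show ρ (g : G ⧸ U) (f ((g : G ⧸ U)⁻¹ • cosetQ U C x)) =
      ρ (g : G ⧸ U) (f (cosetQ U C (g⁻¹ • x)))
    rw [cosetQ_smul]
    rfl
  exact EE_congr he

/-- **The Euler characteristic formula.** -/
theorem EE_eq_zero [Finite M] (hA : ArithInput D χ) (hc : c * c = 1) (hχ : χ c = -1)
    (hp2 : p ≠ 2) (hU : 𝓛.op U) (hle : U ≤ χ.ker) (hCY : CYForm D χ c U)
    (ρ : Representation (ZMod p) G M) (hρ : ∀ σ ∈ U, ρ σ = 1) : EE 𝓛 c ρ = 0 := by
  have hfin : Finite (G ⧸ U) := finite_coset hU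
  let ρ' : Representation (ZMod p) (G ⧸ U) M :=
    QuotientGroup.lift U ρ (fun σ hσ => MonoidHom.mem_ker.2 (hρ σ hσ))
  have h0 : inflQ U ρ' = ρ := by
    ext σ : 1
    rfl
  have h1 := AddFun.F_eq_zero_of_cyclic_of_coprime
    (EEfun U c hA.globRE hU hc hp2) ρ' (by
      intro C _ hC
      show EE 𝓛 c (inflQ U (permRep ρ' ((G ⧸ U) ⧸ C))) = 0
      rw [EE_permRep]
      refine EE_funRep hA hc hχ hp2 hU hle hCY (fun σ hσ => ?_) ?_ _ (inflQ_eq_one ρ')
      · rw [Subgroup.mem_comap]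
        have : QuotientGroup.mk' U σ = 1 := (QuotientGroup.eq_one_iff σ).2 hσ
        rw [this]
        exact C.one_mem
      · rwa [index_comap_subgroupOf])
  rw [← h0]
  exact h1

end artin

end Fermat.Agent.H75
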