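import Mathlib
import Fermat.Agent.H75EC2
import Fermat.Agent.H51Dual

/-!
# Euler characteristic (S56): the final statement
-/

set_option autoImplicit false
set_option maxSynthPendingDepth 3

namespace Fermat.Agent.H75

open Fermat.Agent.H55 Fermat.Agent.H56 Fermat.Agent.H91 Module ExtCitation

/-- The input (CY): the dimension of `H¹` of the Galois groups over the fixed field of `C`, for
`C` of index prime to `p` over the Galois group of a large field `K`. -/
def CYStatement (p : ℕ) [Fact p.Prime] : Prop :=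
  ∀ (K : IntermediateField ℚ (AlgebraicClosure ℚ)) [NumberField K] [Normal ℚ K]
    (ζ : AlgebraicClosure ℚ), IsPrimitiveRoot ζ p → ζ ∈ K →
    ∃ S₁ : Finset Nat.Primes, ∀ S : Finset Nat.Primes, S₁ ⊆ S →
      ∀ C : Subgroup GQ, K.fixingSubgroup ≤ C → ¬ p ∣ (K.fixingSubgroup.subgroupOf C).index →
        ∀ (M : Type) [AddCommGroup M] [Module (ZMod p) M] [Finite M]
          (ρ : Representation (ZMod p) GQ M), (∀ σ ∈ K.fixingSubgroup, ρ σ = 1) →
          finrank (ZMod p) (H1 ((ramLevels S).onSub C) (ρ.comp C.subtype)) +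
            finrank (ZMod p) (invC C (dtw (cycloChar p) ρ)) =
          finrank (ZMod p) (invC C ρ) +
            ∑ q ∈ S, finrank (ZMod p) (EqFun (Dq q) C (dtw (cycloChar p) ρ)) +
            finrank (ZMod p) (EqFun archimedeanDecomposition C (dtw (cycloChar p) ρ))

lemma range_primeLocalToGlobal (q : Nat.Primes) : (primeLocalToGlobal q).range = Dq q := by
  have : Fact (q : ℕ).Prime := ⟨q.2⟩
  exact H54.range_localGaloisToGlobal (q : ℕ)

/-- **The Euler characteristic formula for large `S`.** -/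
theorem ECEq_of {p : ℕ} [Fact p.Prime] (hp2 : p ≠ 2)
    (hAr : ∀ S : Finset Nat.Primes, pPrime p ∈ S → ArithInput (DS S) (cycloChar p))
    (hCY : CYStatement p) (M : Type) [AddCommGroup M] [Module (ZMod p) M] [Finite M]
    (ρ : Representation (ZMod p) GQ M) (hρ : Smooth krullLevels ρ) :
    ∃ S₁ : Finset Nat.Primes, ∀ S : Finset Nat.Primes, S₁ ⊆ S →
      chi2 (ramLevels S) ρ + finrank (ZMod p) M = finrank (ZMod p) (realInv ρ) := by
  classical
  obtain ⟨U₁, hU₁, hfix⟩ := hρ.uniform (Set.toFinite (Set.univ : Set M))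
  obtain ⟨U, hU, hUn, hUle⟩ := krullLevels.exists_normal
    (krullLevels.op_inf hU₁ (H73.F6.krull_op_ker_cycloChar (p := p)))
  obtain ⟨K, hK, rfl⟩ := (H54.op_krullLevels_iff U).1 hU
  have hNF : NumberField K := ⟨⟩
  have hgal : IsGalois ℚ K := (InfiniteGalois.normal_iff_isGalois K).1 hUn
  obtain ⟨ζ, -, hζ⟩ := H63.exists_primitiveRoot p
  have hζK : (ζ : AlgebraicClosure ℚ) ∈ K := by
    rw [← InfiniteGalois.fixedField_fixingSubgroup K, IntermediateField.mem_fixedField_iff]
    intro σ hσ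
    exact (H63.cycloChar_eq_one_iff hζ).1 (MonoidHom.mem_ker.1 (hUle hσ).2)
  obtain ⟨Sa, hSa⟩ := hCY K ζ hζ hζK
  obtain ⟨Sb, hSb⟩ := exists_ramLevels_op hU
  refine ⟨insert (pPrime p) (Sa ∪ Sb), fun S hS => ?_⟩
  have hpS : pPrime p ∈ S := hS (Finset.mem_insert_self _ _)
  have hSaS : Sa ⊆ S := fun q hq => hS (Finset.mem_insert_of_mem (Finset.mem_union_left _ hq))
  have hSbS : Sb ⊆ S := fun q hq => hS (Finset.mem_insert_of_mem (Finset.mem_union_right _ hq))
  have hCYF : CYForm (DS S) (cycloChar p) complexConjugation K.fixingSubgroup := by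
    intro C hC hcop N _ _ _ r hr
    rw [hSa S hSaS C hC hcop N r hr]
    congr 2
    symm
    calc ∑ v : (DS S).ι, finrank (ZMod p) (EqFun ((DS S).loc v).range C (dtw (cycloChar p) r))
        = ∑ v : ↥S, finrank (ZMod p) (EqFun (Dq v.1) C (dtw (cycloChar p) r)) := by
          refine Finset.sum_congr rfl fun v _ => ?_
          have : ((DS S).loc v).range = Dq v.1 := range_primeLocalToGlobal v.1
          rw [this]
      _ = _ := Finset.sum_coe_sort S (fun q =>
          finrank (ZMod p) (EqFun (Dq q) C (dtw (cycloChar p) r)))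
  have h := EE_eq_zero (hAr S hpS) complexConjugation_mul_self
    H51Dual.cycloChar_complexConjugation hp2 (hSb S hSbS) (fun σ hσ => (hUle hσ).2) hCYF ρ
    (fun σ hσ => LinearMap.ext fun a => hfix σ (hUle hσ).1 a trivial)
  have h2 : finrank (ZMod p) (invC (Subgroup.zpowers complexConjugation) ρ) =
      finrank (ZMod p) (realInv ρ) := rfl
  rw [EE, h2] at h
  linarith

theorem ECIneq_of {p : ℕ} [Fact p.Prime] (hp2 : p ≠ 2)
    (hAr : ∀ S : Finset Nat.Primes, pPrime p ∈ S → ArithInput (DS S) (cycloChar p))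
    (hCY : CYStatement p) : ECIneq p := by
  intro M _ _ _ ρ hρ
  obtain ⟨S₁, h⟩ := ECEq_of hp2 hAr hCY M ρ hρ
  exact ⟨S₁, fun S hS => (h S hS).le⟩

/-- **The Greenberg-Wiles inequality** from the arithmetic input and (CY). -/
theorem GWIneq_of_CY {p : ℕ} [Fact p.Prime] (hp2 : p ≠ 2)
    (hAr : ∀ S : Finset Nat.Primes, pPrime p ∈ S → ArithInput (DS S) (cycloChar p))
    (hCY : CYStatement p) : GWIneq p := GWIneq_of hAr (ECIneq_of hp2 hAr hCY)

end Fermat.Agent.H75
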