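import Mathlib
import Fermat.Agent.H75EC3
import Fermat.Agent.H56CY
import Fermat.Agent.H54Input

/-!
# The Greenberg-Wiles inequality for `ℚ`, unconditionally (S56)
-/

set_option autoImplicit false
set_option maxSynthPendingDepth 3

namespace Fermat.Agent.H75

open Fermat.Agent.H55 Fermat.Agent.H56 Fermat.Agent.H91 Module ExtCitation

/-- (CY), uniformly -/
theorem cyStatement {p : ℕ} [Fact p.Prime] (hp2 : p ≠ 2) : CYStatement p := by
  intro K _ _ ζ hζ hζK
  obtain ⟨S₁, hS₁⟩ := exists_good p K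
  refine ⟨S₁, fun S hS C hC hcop M _ _ _ ρ hρ => ?_⟩
  obtain ⟨hpS, hK, hcl⟩ := hS₁ S hS
  obtain ⟨h1, h2⟩ := H82.finrank_H1_onSub hζ hζK hpS hK
    (fun x hx => exists_unit_mul_pow hcl x hx) hp2 hC hcop hρ
  rw [h2]
  exact finrank_HomC_unitRep hζ hζK hρ hC hcop S

/-- **The Euler characteristic formula over `ℚ` for large `S`.** -/
theorem ECEq {p : ℕ} [Fact p.Prime] (hp2 : p ≠ 2) (M : Type) [AddCommGroup M]
    [Module (ZMod p) M] [Finite M] (ρ : Representation (ZMod p) GQ M)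
    (hρ : Smooth krullLevels ρ) :
    ∃ S₁ : Finset Nat.Primes, ∀ S : Finset Nat.Primes, S₁ ⊆ S →
      chi2 (ramLevels S) ρ + finrank (ZMod p) M = finrank (ZMod p) (realInv ρ) :=
  ECEq_of hp2 (fun _ hS => H54.arithInput hp2 hS) (cyStatement hp2) M ρ hρ

/-- **The Greenberg-Wiles inequality.** -/
theorem gwIneq {p : ℕ} [Fact p.Prime] (hp2 : p ≠ 2) : GWIneq p :=
  GWIneq_of_CY hp2 (fun _ hS => H54.arithInput hp2 hS) (cyStatement hp2)

end Fermat.Agent.H75
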