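import Fermat.Prelude.Def_FLTPrelim_FreyPackage
import Fermat.Prelude.Def_FLTPrelim_Modularity
import Mathlib

set_option autoImplicit false

/-!
# The Frey curve has a semistable integral model (helper4)

Main results:
* `Fermat.Agent.H4.freyCurveInt_map` : the integral Weierstrass curve `P.freyCurveInt` maps to `P.freyCurve`
* `Fermat.Agent.H4.freyCurveInt_Δ` : `256 * Δ = (a^p b^p c^p)^2`
* `Fermat.Agent.H4.freyCurveInt_c₄` : `c₄ = (a^p)^2 + a^p b^p + (b^p)^2`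
* `Fermat.Agent.H4.freyCurveInt_isSemistableModel`
* `Fermat.Agent.H4.freyCurve_isModular_of_semistable` : the reduction S60 → S04.
-/

namespace Fermat.Agent.H4

open WeierstrassCurve

lemma freyA_mod_four (P : FreyPackage) : (4 : ℤ) ∣ P.a ^ P.p + 1 := by
  have h1 : ((P.a ^ P.p + 1 : ℤ) : ZMod 4) = 0 := by
    push_cast
    rw [P.ha4]
    obtain ⟨k, hk⟩ := P.hp_odd
    rw [hk, pow_succ, pow_mul]
    have : (3 : ZMod 4) ^ 2 = 1 := by decide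
    rw [this, one_pow]
    decide
  exact (ZMod.intCast_zmod_eq_zero_iff_dvd _ 4).1 h1

lemma two_dvd_b (P : FreyPackage) : (2 : ℤ) ∣ P.b :=
  (ZMod.intCast_zmod_eq_zero_iff_dvd P.b 2).1 P.hb2

lemma freyB_dvd (P : FreyPackage) : (32 : ℤ) ∣ P.b ^ P.p := by
  have h1 : (2 : ℤ) ^ P.p ∣ P.b ^ P.p := pow_dvd_pow_of_dvd (two_dvd_b P) _
  have h2 : (2 : ℤ) ^ 5 ∣ (2 : ℤ) ^ P.p := pow_dvd_pow _ P.hp5
  have h3 : (32 : ℤ) = 2 ^ 5 := by norm_num
  rw [h3]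
  exact h2.trans h1

lemma frey_a₂_dvd (P : FreyPackage) : (4 : ℤ) ∣ P.b ^ P.p - 1 - P.a ^ P.p := by
  have h1 := freyA_mod_four P
  have h2 := freyB_dvd P
  omega

lemma frey_a₄_dvd (P : FreyPackage) : (16 : ℤ) ∣ -(P.a ^ P.p) * (P.b ^ P.p) := by
  have h2 : (16 : ℤ) ∣ P.b ^ P.p := by
    have := freyB_dvd P
    omega
  exact Dvd.dvd.mul_left h2 _

lemma freyCurveInt_a₂_mul (P : FreyPackage) :
    4 * P.freyCurveInt.a₂ = P.b ^ P.p - 1 - P.a ^ P.p := by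
  simp only [FreyPackage.freyCurveInt]
  exact Int.mul_ediv_cancel' (frey_a₂_dvd P)

lemma freyCurveInt_a₄_mul (P : FreyPackage) :
    16 * P.freyCurveInt.a₄ = -(P.a ^ P.p) * (P.b ^ P.p) := by
  simp only [FreyPackage.freyCurveInt]
  exact Int.mul_ediv_cancel' (frey_a₄_dvd P)

lemma freyCurveInt_map (P : FreyPackage) :
    P.freyCurveInt.map (Int.castRingHom ℚ) = P.freyCurve := by
  have h2 := congrArg (Int.cast : ℤ → ℚ) (freyCurveInt_a₂_mul P)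
  have h4 := congrArg (Int.cast : ℤ → ℚ) (freyCurveInt_a₄_mul P)
  push_cast at h2 h4
  ext
  · simp [FreyPackage.freyCurveInt, FreyPackage.freyCurve]
  · simp only [map_a₂, eq_intCast]
    simp only [FreyPackage.freyCurve]
    linarith
  · simp [FreyPackage.freyCurveInt, FreyPackage.freyCurve]
  · simp only [map_a₄, eq_intCast]
    simp only [FreyPackage.freyCurve]
    linarith
  · simp [FreyPackage.freyCurveInt, FreyPackage.freyCurve]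

lemma freyCurveInt_c₄ (P : FreyPackage) :
    P.freyCurveInt.c₄ =
      (P.a ^ P.p) ^ 2 + P.a ^ P.p * P.b ^ P.p + (P.b ^ P.p) ^ 2 := by
  have h2 := freyCurveInt_a₂_mul P
  have h4 := freyCurveInt_a₄_mul P
  have e1 : P.freyCurveInt.a₁ = 1 := rfl
  have e3 : P.freyCurveInt.a₃ = 0 := rfl
  simp only [WeierstrassCurve.c₄, WeierstrassCurve.b₂, WeierstrassCurve.b₄, e1, e3]
  linear_combination (8 * P.freyCurveInt.a₂ + 2 - 4 * P.freyCurveInt.a₂ +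
    (P.b ^ P.p - 1 - P.a ^ P.p)) * h2 - 3 * h4

lemma freyCurveInt_Δ (P : FreyPackage) :
    256 * P.freyCurveInt.Δ = (P.a ^ P.p * P.b ^ P.p * P.c ^ P.p) ^ 2 := by
  have h2 := freyCurveInt_a₂_mul P
  have h4 := freyCurveInt_a₄_mul P
  have e1 : P.freyCurveInt.a₁ = 1 := rfl
  have e3 : P.freyCurveInt.a₃ = 0 := rfl
  have e6 : P.freyCurveInt.a₆ = 0 := rfl
  have hc : P.a ^ P.p + P.b ^ P.p = P.c ^ P.p := P.hFLT
  rw [← hc]
  have key : P.freyCurveInt.Δ = P.freyCurveInt.a₄ ^ 2 *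
      ((1 + 4 * P.freyCurveInt.a₂) ^ 2 - 64 * P.freyCurveInt.a₄) := by
    simp only [WeierstrassCurve.Δ, WeierstrassCurve.b₂, WeierstrassCurve.b₄, WeierstrassCurve.b₆,
      WeierstrassCurve.b₈, e1, e3, e6]
    ring
  rw [key, h2]
  have h64 : 64 * P.freyCurveInt.a₄ = 4 * (-(P.a ^ P.p) * (P.b ^ P.p)) := by rw [← h4]; ring
  rw [h64]
  have h256 : 256 * (P.freyCurveInt.a₄ ^ 2 *
      ((1 + (P.b ^ P.p - 1 - P.a ^ P.p)) ^ 2 - 4 * (-(P.a ^ P.p) * (P.b ^ P.p)))) =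
      (16 * P.freyCurveInt.a₄) ^ 2 *
      ((1 + (P.b ^ P.p - 1 - P.a ^ P.p)) ^ 2 - 4 * (-(P.a ^ P.p) * (P.b ^ P.p))) := by ring
  rw [h256, h4]
  ring

lemma freyCurveInt_Δ_ne_zero (P : FreyPackage) : P.freyCurveInt.Δ ≠ 0 := by
  intro h
  have h1 := freyCurveInt_Δ P
  rw [h, mul_zero] at h1
  have h2 : P.a ^ P.p * P.b ^ P.p * P.c ^ P.p ≠ 0 :=
    mul_ne_zero (mul_ne_zero (pow_ne_zero _ P.ha0) (pow_ne_zero _ P.hb0)) (pow_ne_zero _ P.hc0)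
  exact (pow_ne_zero 2 h2) h1.symm

/-- A prime dividing `Δ` of the integral Frey model divides `abc`. -/
lemma dvd_abc_of_dvd_Δ (P : FreyPackage) {q : ℕ} (hq : q.Prime) (h : (q : ℤ) ∣ P.freyCurveInt.Δ) :
    (q : ℤ) ∣ P.a ∨ (q : ℤ) ∣ P.b ∨ (q : ℤ) ∣ P.c := by
  have hq' : Prime (q : ℤ) := Nat.prime_iff_prime_int.mp hq
  have h1 : (q : ℤ) ∣ (P.a ^ P.p * P.b ^ P.p * P.c ^ P.p) ^ 2 := by
    rw [← freyCurveInt_Δ]
    exact Dvd.dvd.mul_left h _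
  have h2 := hq'.dvd_of_dvd_pow h1
  rcases hq'.dvd_or_dvd h2 with h3 | h3
  · rcases hq'.dvd_or_dvd h3 with h4 | h4
    · exact Or.inl (hq'.dvd_of_dvd_pow h4)
    · exact Or.inr (Or.inl (hq'.dvd_of_dvd_pow h4))
  · exact Or.inr (Or.inr (hq'.dvd_of_dvd_pow h3))

lemma not_dvd_both_ab (P : FreyPackage) {q : ℕ} (hq : q.Prime)
    (ha : (q : ℤ) ∣ P.a) (hb : (q : ℤ) ∣ P.b) : False := by
  have hq' : Prime (q : ℤ) := Nat.prime_iff_prime_int.mp hq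
  have := dvd_gcd ha hb
  rw [P.hgcdab] at this
  exact hq'.not_isUnit (isUnit_of_dvd_one this)

lemma not_dvd_both_ac (P : FreyPackage) {q : ℕ} (hq : q.Prime)
    (ha : (q : ℤ) ∣ P.a) (hc : (q : ℤ) ∣ P.c) : False := by
  have hq' : Prime (q : ℤ) := Nat.prime_iff_prime_int.mp hq
  have := dvd_gcd ha hc
  rw [P.hgcdac] at this
  exact hq'.not_isUnit (isUnit_of_dvd_one this)

lemma not_dvd_both_bc (P : FreyPackage) {q : ℕ} (hq : q.Prime)
    (hb : (q : ℤ) ∣ P.b) (hc : (q : ℤ) ∣ P.c) : False := by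
  have hq' : Prime (q : ℤ) := Nat.prime_iff_prime_int.mp hq
  have := dvd_gcd hb hc
  rw [P.hgcdbc] at this
  exact hq'.not_isUnit (isUnit_of_dvd_one this)

/-- No prime divides both `c₄` and `abc` for the integral Frey model. -/
lemma not_dvd_c₄ (P : FreyPackage) {q : ℕ} (hq : q.Prime)
    (h : (q : ℤ) ∣ P.a ∨ (q : ℤ) ∣ P.b ∨ (q : ℤ) ∣ P.c) : ¬ (q : ℤ) ∣ P.freyCurveInt.c₄ := by
  intro h4
  have hq' : Prime (q : ℤ) := Nat.prime_iff_prime_int.mp hq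
  rw [freyCurveInt_c₄] at h4
  have hFLT : P.a ^ P.p + P.b ^ P.p = P.c ^ P.p := P.hFLT
  rcases h with h | h | h
  · have hA : (q : ℤ) ∣ P.a ^ P.p := dvd_pow h P.hp0
    have : (q : ℤ) ∣ (P.b ^ P.p) ^ 2 := by
      have h5 : (q : ℤ) ∣ P.a ^ P.p * (P.a ^ P.p + P.b ^ P.p) := Dvd.dvd.mul_right hA _
      have h6 := dvd_sub h4 h5
      have e : (P.a ^ P.p) ^ 2 + P.a ^ P.p * P.b ^ P.p + (P.b ^ P.p) ^ 2 -
        P.a ^ P.p * (P.a ^ P.p + P.b ^ P.p) = (P.b ^ P.p) ^ 2 := by ring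
      rwa [e] at h6
    exact not_dvd_both_ab P hq h (hq'.dvd_of_dvd_pow (hq'.dvd_of_dvd_pow this))
  · have hB : (q : ℤ) ∣ P.b ^ P.p := dvd_pow h P.hp0
    have : (q : ℤ) ∣ (P.a ^ P.p) ^ 2 := by
      have h5 : (q : ℤ) ∣ P.b ^ P.p * (P.a ^ P.p + P.b ^ P.p) := Dvd.dvd.mul_right hB _
      have h6 := dvd_sub h4 h5
      have e : (P.a ^ P.p) ^ 2 + P.a ^ P.p * P.b ^ P.p + (P.b ^ P.p) ^ 2 -
        P.b ^ P.p * (P.a ^ P.p + P.b ^ P.p) = (P.a ^ P.p) ^ 2 := by ring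
      rwa [e] at h6
    exact not_dvd_both_ab P hq (hq'.dvd_of_dvd_pow (hq'.dvd_of_dvd_pow this)) h
  · have hC : (q : ℤ) ∣ P.c ^ P.p := dvd_pow h P.hp0
    have : (q : ℤ) ∣ P.a ^ P.p * P.b ^ P.p := by
      have h5 : (q : ℤ) ∣ P.c ^ P.p * P.c ^ P.p := Dvd.dvd.mul_right hC _
      have h6 := dvd_sub h5 h4
      have e : P.c ^ P.p * P.c ^ P.p - ((P.a ^ P.p) ^ 2 + P.a ^ P.p * P.b ^ P.p + (P.b ^ P.p) ^ 2)
        = P.a ^ P.p * P.b ^ P.p := by rw [← hFLT]; ring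
      rwa [e] at h6
    rcases hq'.dvd_or_dvd this with h7 | h7
    · exact not_dvd_both_ac P hq (hq'.dvd_of_dvd_pow h7) h
    · exact not_dvd_both_bc P hq (hq'.dvd_of_dvd_pow h7) h

lemma freyCurveInt_isSemistableModel (P : FreyPackage) : P.freyCurveInt.IsSemistableModel := by
  intro q hq hΔ
  exact not_dvd_c₄ P hq (dvd_abc_of_dvd_Δ P hq hΔ)

lemma freyCurveInt_isIntegralModelOf (P : FreyPackage) :
    P.freyCurveInt.IsIntegralModelOf P.freyCurve :=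
  ⟨1, by rw [freyCurveInt_map]; exact one_smul _ _⟩

/-- The reduction S60 → S04. -/
theorem freyCurve_isModular_of_semistable
    (H : ∀ W : WeierstrassCurve ℤ, W.Δ ≠ 0 → W.IsSemistableModel →
      (W.map (Int.castRingHom ℚ)).IsModular) (P : FreyPackage) : P.freyCurve.IsModular := by
  rw [← freyCurveInt_map]
  exact H _ (freyCurveInt_Δ_ne_zero P) (freyCurveInt_isSemistableModel P)

end Fermat.Agent.H4
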