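import Fermat.Agent.H59Occ
import Fermat.Agent.H62NE
import Fermat.Agent.H4FreySemistable

/-!
# Independence of the integral model

Two integral models of one elliptic curve over `ℚ` have congruent `a_ℓ` modulo `p` at every common
good prime `ℓ ≠ p`; hence residual modularity of the Frey curve (stated for some integral model)
is residual modularity of `P.freyCurveInt`.
-/

set_option autoImplicit false
set_option linter.unusedSectionVars false

noncomputable section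

open WeierstrassCurve WeierstrassCurve.Affine CongruenceSubgroup CuspForm ModularFormClass

namespace Fermat.Agent.H81.L1

local notation "Qb" => AlgebraicClosure ℚ
local notation "Gq" => (AlgebraicClosure ℚ ≃ₐ[ℚ] AlgebraicClosure ℚ)
local notation "Zb" => integralClosure ℤ ℂ

/-- The trace of the mod `n` representation is invariant under change of variables. -/
theorem trace_variableChange (E : WeierstrassCurve ℚ) (C : VariableChange ℚ) (n : ℕ) (σ : Gq) :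
    LinearMap.trace (ZMod n) _ (Point.galoisRepModuleEnd (K := Qb) ℚ (C • E) n σ) =
      LinearMap.trace (ZMod n) _ (Point.galoisRepModuleEnd (K := Qb) ℚ E n σ) := by
  obtain ⟨e, he⟩ := H62.exists_equivariant_torsion_equiv (K := Qb) E C n
  have h1 : Point.galoisRepModuleEnd (K := Qb) ℚ E n σ =
      e.conj (Point.galoisRepModuleEnd (K := Qb) ℚ (C • E) n σ) := by
    refine LinearMap.ext fun P => ?_
    rw [LinearEquiv.conj_apply_apply]
    have h2 := he σ (e.symm P)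
    rw [e.apply_symm_apply] at h2
    exact h2.symm
  rw [h1, LinearMap.trace_conj']

/-- **Two integral models** of one curve have congruent `a_ℓ` modulo `p`. -/
theorem apOfModel_cast_eq {E : WeierstrassCurve ℚ} {W W' : WeierstrassCurve ℤ}
    (hW : W.IsIntegralModelOf E) (hW' : W'.IsIntegralModelOf E) {n : ℕ} [NeZero n] {ℓ : ℕ}
    (hℓ : ℓ.Prime) (hn : ¬ ℓ ∣ n) (hg : W.IsGoodPrimeFor ℓ) (hg' : W'.IsGoodPrimeFor ℓ) :
    (W.apOfModel ℓ : ZMod n) = (W'.apOfModel ℓ : ZMod n) := by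
  obtain ⟨A, hA⟩ := H54.exists_liesOverPrime hℓ
  obtain ⟨φ, hφ⟩ := H54.exists_isFrobeniusAt hℓ hA
  obtain ⟨C, hC⟩ := hW
  obtain ⟨C', hC'⟩ := hW'
  rw [← H62.trace_frob_rat W hℓ hg hn hA hφ, ← H62.trace_frob_rat W' hℓ hg' hn hA hφ, ← hC, ← hC',
    trace_variableChange, trace_variableChange]

/-- integer form -/
theorem apOfModel_modEq {E : WeierstrassCurve ℚ} {W W' : WeierstrassCurve ℤ}
    (hW : W.IsIntegralModelOf E) (hW' : W'.IsIntegralModelOf E) {p : ℕ} [hp : Fact p.Prime]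
    {ℓ : ℕ} (hℓ : ℓ.Prime) (hℓp : ℓ ≠ p) (hg : W.IsGoodPrimeFor ℓ) (hg' : W'.IsGoodPrimeFor ℓ) :
    (p : ℤ) ∣ W.apOfModel ℓ - W'.apOfModel ℓ := by
  rw [← ZMod.intCast_zmod_eq_zero_iff_dvd, Int.cast_sub, sub_eq_zero]
  exact apOfModel_cast_eq hW hW' hℓ
    (fun h => hℓp ((Nat.prime_dvd_prime_iff_eq hℓ hp.out).mp h)) hg hg'

/-- **Residual modularity does not depend on the integral model.** -/
theorem cong_of_integralModel (h29 : H96.StatementS29) {E : WeierstrassCurve ℚ}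
    {W W' : WeierstrassCurve ℤ} (hW : W.IsIntegralModelOf E) (hW' : W'.IsIntegralModelOf E)
    (hE : E.Δ ≠ 0) {p : ℕ} [hp : Fact p.Prime] {N : ℕ} [NeZero N]
    {g : CuspForm (Gamma0 N) 2} (hg : g.IsNormalizedEigenform) {𝔪 : Ideal Zb}
    (h𝔪 : 𝔪.IsMaximal) (hp𝔪 : (p : Zb) ∈ 𝔪)
    (h : ∀ ℓ : ℕ, ℓ.Prime → W.IsGoodPrimeFor ℓ → ¬ ℓ ∣ N → ℓ ≠ p →
      ∃ a : Zb, (a : ℂ) = qCoeff g ℓ ∧ a - ((W.apOfModel ℓ : ℤ) : Zb) ∈ 𝔪) :
    ∀ ℓ : ℕ, ℓ.Prime → W'.IsGoodPrimeFor ℓ → ¬ ℓ ∣ N → ℓ ≠ p →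
      ∃ a : Zb, (a : ℂ) = qCoeff g ℓ ∧ a - ((W'.apOfModel ℓ : ℤ) : Zb) ∈ 𝔪 := by
  have hΔ : W.Δ ≠ 0 := H62.Δ_ne_zero_of_isIntegralModelOf hE hW
  have hΔ' : W'.Δ ≠ 0 := H62.Δ_ne_zero_of_isIntegralModelOf hE hW'
  refine H59.cong_all_of_almost_all W' hΔ' p h29 hg h𝔪 hp𝔪
    (N.primeFactors ∪ {p} ∪ W.Δ.natAbs.primeFactors ∪ W'.Δ.natAbs.primeFactors) ?_
  intro ℓ hℓ hℓS
  simp only [Finset.mem_union, Finset.mem_singleton, not_or] at hℓS
  have hg : W.IsGoodPrimeFor ℓ := fun hd => hℓS.1.2 (Nat.mem_primeFactors.mpr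
    ⟨hℓ, Int.natCast_dvd.mp hd, Int.natAbs_ne_zero.mpr hΔ⟩)
  have hg' : W'.IsGoodPrimeFor ℓ := fun hd => hℓS.2 (Nat.mem_primeFactors.mpr
    ⟨hℓ, Int.natCast_dvd.mp hd, Int.natAbs_ne_zero.mpr hΔ'⟩)
  have hℓN : ¬ ℓ ∣ N := fun h => hℓS.1.1.1 (Nat.mem_primeFactors.mpr ⟨hℓ, h, NeZero.ne N⟩)
  obtain ⟨a, ha, ham⟩ := h ℓ hℓ hg hℓN hℓS.1.1.2
  refine ⟨a, ha, ?_⟩
  obtain ⟨c, hc⟩ := apOfModel_modEq hW hW' hℓ hℓS.1.1.2 hg hg'
  have e : a - ((W'.apOfModel ℓ : ℤ) : Zb) =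
      (a - ((W.apOfModel ℓ : ℤ) : Zb)) + (c : Zb) * (p : Zb) := by
    have : ((W.apOfModel ℓ - W'.apOfModel ℓ : ℤ) : Zb) = (((p : ℤ) * c : ℤ) : Zb) := by rw [hc]
    push_cast at this
    linear_combination this
  rw [e]
  exact 𝔪.add_mem ham (𝔪.mul_mem_left _ hp𝔪)

/-- **Residual modularity does not depend on the integral model** (`IsResiduallyModularOfLevel`). -/
theorem isResiduallyModularOfLevel_of_integralModel (h29 : H96.StatementS29)
    {E : WeierstrassCurve ℚ} {W W' : WeierstrassCurve ℤ} (hW : W.IsIntegralModelOf E)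
    (hW' : W'.IsIntegralModelOf E) (hE : E.Δ ≠ 0) {p : ℕ} [hp : Fact p.Prime] {N : ℕ} [NeZero N]
    (h : W.IsResiduallyModularOfLevel p N) : W'.IsResiduallyModularOfLevel p N := by
  obtain ⟨g, 𝔪, hg, h𝔪, hp𝔪, h⟩ := h
  exact ⟨g, 𝔪, hg, h𝔪, hp𝔪, cong_of_integralModel h29 hW hW' hE hg h𝔪 hp𝔪 h⟩

variable (P : FreyPackage)

/-- **The Frey curve**: modularity of the mod `p` representation (for some integral model) is
residual modularity of `P.freyCurveInt`. -/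
theorem isResiduallyModularOfLevel_freyCurveInt (h29 : H96.StatementS29) {N : ℕ} [NeZero N]
    (h : P.ModularRepOfLevel N) : P.freyCurveInt.IsResiduallyModularOfLevel P.p N := by
  obtain ⟨g, W, 𝔪, hg, hW, h𝔪, hp𝔪, h⟩ := h
  have hpF : Fact P.p.Prime := ⟨P.pp⟩
  have hΔ : P.freyCurve.Δ ≠ 0 := by
    rw [← H4.freyCurveInt_map, WeierstrassCurve.map_Δ]
    exact (map_ne_zero_iff _ (RingHom.injective_int _)).mpr (H4.freyCurveInt_Δ_ne_zero P)
  exact ⟨g, 𝔪, hg, h𝔪, hp𝔪, cong_of_integralModel h29 hW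
    (H4.freyCurveInt_isIntegralModelOf P) hΔ hg h𝔪 hp𝔪 h⟩

/-- Conversely. -/
theorem modularRepOfLevel_of_freyCurveInt {N : ℕ}
    (h : P.freyCurveInt.IsResiduallyModularOfLevel P.p N) : P.ModularRepOfLevel N := by
  obtain ⟨g, 𝔪, hg, h𝔪, hp𝔪, h⟩ := h
  exact ⟨g, P.freyCurveInt, 𝔪, hg, H4.freyCurveInt_isIntegralModelOf P, h𝔪, hp𝔪, h⟩

/-- **The two notions coincide.** -/
theorem modularRepOfLevel_iff (h29 : H96.StatementS29) {N : ℕ} [NeZero N] :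
    P.ModularRepOfLevel N ↔ P.freyCurveInt.IsResiduallyModularOfLevel P.p N :=
  ⟨isResiduallyModularOfLevel_freyCurveInt P h29, modularRepOfLevel_of_freyCurveInt P⟩

end Fermat.Agent.H81.L1
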