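import Fermat.Agent.H31MPGen

/-!
# Mazur's principle at `p`: local generators at nodes
-/

set_option autoImplicit false
set_option linter.unusedSectionVars false
set_option linter.style.haveILetI false

open AlgebraicCurve WithZero Fermat.Agent

namespace Fermat.Agent.H31.MP

namespace Data

variable {K F k Fb Γ ν G : Type*} [Field K] [Field F] [Algebra K F] [Field k] [Field Fb]
    [Algebra k Fb] [LinearOrderedCommGroupWithZero Γ] [Group G] [MulSemiringAction G K]
    [MulSemiringAction G F] {p : ℕ} (D : Data K F k Fb Γ ν G p)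

local notation "vv" => D.M.v
local notation "ρρ" => D.M.ρ
local notation "vK" => D.M.vK

variable [IsAlgClosed K] [H3RR.IsFF K F] [IsAlgClosed k] [H3RR.IsFF k Fb]

theorem _root_.Fermat.Agent.H31.MP.ord_pow {K F : Type*} [Field K] [Field F] [Algebra K F]
    (P : Place K F) (g : F) (n : ℕ) : P.ord (g ^ n) = n * P.ord g := by
  have := P.ord_zpow g n
  rwa [zpow_natCast] at this

theorem _root_.Fermat.Agent.H31.MP.ord_alg {K F : Type*} [Field K] [IsAlgClosed K] [Field F]
    [Algebra K F] [H3RR.IsFF K F] (P : Place K F) {c : K} (hc : c ≠ 0) :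
    P.ord (algebraMap K F c) = 0 :=
  ord_eq_zero_of_adic (H3RR.adicValuation_algebraMap P hc)

theorem _root_.Fermat.Agent.H31.MP.ord_div {K F : Type*} [Field K] [Field F] [Algebra K F]
    (P : Place K F) {f g : F} (hf : f ≠ 0) (hg : g ≠ 0) : P.ord (f / g) = P.ord f - P.ord g := by
  rw [div_eq_mul_inv, P.ord_mul hf (inv_ne_zero hg), P.ord_inv]
  ring

/-- A local generator at a node, normalised on the first component. -/
theorem gen_node_norm {e : ℕ} (he : e ≠ 0) {H : Subgroup G} {u : F} (hu : Fix H u) (hu0 : u ≠ 0)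
    (hdiv : ∀ P : Place K F, (e : ℤ) ∣ P.ord u) (n : ν) (j : ℤ) :
    ∃ g : F, g ≠ 0 ∧ Fix H g ∧ (∀ P, D.M.sp P = Sum.inr n → P.ord u = e * P.ord g) ∧
      vv false g = 1 ∧ (D.pt false n).ord (ρρ false g) = j := by
  obtain ⟨g0, hg00, hg0f, hg0⟩ := D.gen e he H u hu0 hu hdiv (Sum.inr n)
  obtain ⟨c, hc0, hcf, hvc⟩ := D.scale H false g0 hg0f hg00
  have C := D.comp false
  have hcF : algebraMap K F c ≠ 0 := (_root_.map_ne_zero _).mpr hc0
  set g1 := g0 / algebraMap K F c with hg1def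
  have hg1_ne : g1 ≠ 0 := div_ne_zero hg00 hcF
  have hvg1 : vv false g1 = 1 := by
    rw [hg1def, map_div₀, C.v_alg, hvc, div_self]
    exact (Valuation.ne_zero_iff _).mpr hc0
  set a := (D.pt false n).ord (ρρ false g1) with ha
  have hz0 := D.z_ne n
  have hvz : vv false (D.z n ^ (j - a)) = 1 := by rw [map_zpow₀, D.z_false, one_zpow]
  refine ⟨g1 * D.z n ^ (j - a), mul_ne_zero hg1_ne (zpow_ne_zero _ hz0),
    (hg0f.div (D.fix_alg hcf)).mul ((D.z_fix n).of_top.zpow _), fun P hP => ?_, ?_, ?_⟩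
  · rw [P.ord_mul hg1_ne (zpow_ne_zero _ hz0), P.ord_zpow, D.z_unit n P hP, mul_zero, add_zero,
      hg1def, ord_div P hg00 hcF, ord_alg P hc0, sub_zero, hg0 P hP]
  · rw [map_mul, hvg1, hvz, one_mul]
  · rw [C.ρ_mul _ _ hvg1.le hvz.le, D.ρ_zpow (D.z_false n),
      (D.pt false n).ord_mul (C.ρ_ne_zero hvg1) (zpow_ne_zero _ (C.ρ_ne_zero (D.z_false n))),
      (D.pt false n).ord_zpow, D.z_ord, ← ha]
    ring

/-- Comparison of the two sides at a node. -/
theorem node_compare {e : ℕ} {n : ν} {u g : F} (hu0 : u ≠ 0) (hg0 : g ≠ 0)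
    (hgord : ∀ P, D.M.sp P = Sum.inr n → P.ord u = e * P.ord g) (hvu : vv false u = 1)
    (hvg : vv false g = 1)
    (hord : (D.pt false n).ord (ρρ false u) = e * (D.pt false n).ord (ρρ false g)) :
    vv true u = vv true g ^ e := by
  have C := D.comp false
  have hh0 : u / g ^ e ≠ 0 := div_ne_zero hu0 (pow_ne_zero _ hg0)
  have h1 := D.AN (n := n) hh0 (fun P hP => by
    rw [ord_div P hu0 (pow_ne_zero _ hg0), ord_pow, hgord P hP, sub_self])
    (by rw [map_div₀, map_pow, hvu, hvg, one_pow, div_one])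
    (by
      have hvgp : vv false (g ^ e) = 1 := by rw [map_pow, hvg, one_pow]
      rw [C.ρ_div hvu.le hvgp, ord_div _ (C.ρ_ne_zero hvu) (C.ρ_ne_zero hvgp),
        C.ρ_pow hvg.le, ord_pow, hord, sub_self])
  have h2 := h1.1
  rw [map_div₀, map_pow] at h2
  have h3 : vv true g ^ e ≠ 0 := pow_ne_zero _ ((Valuation.ne_zero_iff _).mpr hg0)
  exact (div_eq_one_iff_eq h3).mp h2

/-- The slope of a function whose divisor is divisible by `e` on the node class. -/
theorem slope_node {e : ℕ} (he : e ≠ 0) {H : Subgroup G} {u : F} (hu : Fix H u) (hu0 : u ≠ 0)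
    (hdiv : ∀ P : Place K F, (e : ℤ) ∣ P.ord u) (hvu : vv false u = 1) (n : ν) :
    ∃ (g : F) (A : K), g ≠ 0 ∧ A ≠ 0 ∧ Fix H g ∧ Fix H A ∧
      (∀ P, D.M.sp P = Sum.inr n → P.ord u = e * P.ord g) ∧ vv false g = 1 ∧
      vv true g = vK A ∧
      vv true u = vK (p : K) ^ ((D.pt false n).ord (ρρ false u)) * vK A ^ e := by
  obtain ⟨g, hg0, hgf, hgord, hvg, hord⟩ := D.gen_node_norm he hu hu0 hdiv n 0
  obtain ⟨A, hA0, hAf, hvA⟩ := D.scale H true g hgf hg0
  refine ⟨g, A, hg0, hA0, hgf, hAf, hgord, hvg, hvA, ?_⟩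
  set r := (D.pt false n).ord (ρρ false u) with hr
  have hz0 := D.z_ne n
  have hzr0 : D.z n ^ r ≠ 0 := zpow_ne_zero _ hz0
  have hvz : vv false (D.z n ^ r) = 1 := by rw [map_zpow₀, D.z_false, one_zpow]
  have C := D.comp false
  have h1 := D.node_compare (e := e) (n := n) (u := u / D.z n ^ r) (g := g)
    (div_ne_zero hu0 hzr0) hg0
    (fun P hP => by
      rw [ord_div P hu0 hzr0, P.ord_zpow, D.z_unit n P hP, mul_zero, sub_zero, hgord P hP])
    (by rw [map_div₀, hvu, hvz, div_one]) hvg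
    (by
      rw [C.ρ_div hvu.le hvz, ord_div _ (C.ρ_ne_zero hvu) (C.ρ_ne_zero hvz),
        D.ρ_zpow (D.z_false n), Place.ord_zpow, D.z_ord, hord, ← hr]
      ring)
  rw [map_div₀, map_zpow₀, D.z_true, hvA] at h1
  have hp0 : vK (p : K) ≠ 0 := by
    rw [← D.z_true n]
    exact (Valuation.ne_zero_iff _).mpr hz0
  rw [div_eq_iff (zpow_ne_zero _ hp0)] at h1
  rw [h1, mul_comm]

/-- The slope congruence: `e ∣ ord_s ρ_1(u) - n` where `v_1(u) = 1`, `v_2(u) = |p|^n`, for a
function fixed by a group whose fixed field in `K` has value group generated by `|p|`. -/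
theorem slope_congr {e : ℕ} (he : e ≠ 0) {H : Subgroup G} {u : F} (hu : Fix H u) (hu0 : u ≠ 0)
    (hdiv : ∀ P : Place K F, (e : ℤ) ∣ P.ord u) (hvu : vv false u = 1)
    (hH : ∀ c : K, c ≠ 0 → Fix H c → ∃ m : ℤ, vK c = vK (p : K) ^ m)
    (hp0 : (p : K) ≠ 0) (hp1 : vK (p : K) < 1) {n : ℤ} (hn : vv true u = vK (p : K) ^ n)
    (s : ν) : (e : ℤ) ∣ (D.pt false s).ord (ρρ false u) - n := by
  obtain ⟨g, A, -, hA0, -, hAf, -, -, -, h⟩ := D.slope_node he hu hu0 hdiv hvu s
  obtain ⟨m, hm⟩ := hH A hA0 hAf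
  have hp0' : vK (p : K) ≠ 0 := (Valuation.ne_zero_iff _).mpr hp0
  rw [hn, hm, ← zpow_natCast, ← zpow_mul, ← zpow_add₀ hp0'] at h
  have hinj := zpow_right_injective₀ (zero_lt_iff.mpr hp0') (ne_of_lt hp1) h
  refine ⟨-m, ?_⟩
  linear_combination -hinj

variable [Fact p.Prime] [CharP k p] [CharP Fb p]

/-- Local generators at nodes, congruent to `1` on both components. -/
theorem gen_node (L : D.Lifts) {H : Subgroup G} {ϖ : K} (hd : D.Disc H ϖ) {d : ℕ}
    (he : vK (p : K) = vK ϖ ^ ((p - 1) * d)) (s : ν)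
    {u : F} (hu : Fix H u) (hu0 : u ≠ 0) (hdiv : ∀ P : Place K F, (p : ℤ) ∣ P.ord u)
    {n : ℕ} (hn1 : 1 ≤ n) (hn : n ≤ p * d) (hun : ∀ i, vv i (u - 1) ≤ vK ϖ ^ n) (m : ℕ)
    (hm : p * m < n) :
    ∃ g : F, g ≠ 0 ∧ Fix H g ∧ (∀ P, D.M.sp P = Sum.inr s → P.ord u = p * P.ord g) ∧
      ∀ i, vv i (g - 1) ≤ vK ϖ ^ (m + 1) := by
  have hp : p.Prime := Fact.out
  have hq := hd.pos
  have hq1 := hd.lt
  have hu1 : ∀ i, vv i (u - 1) < 1 := fun i =>
    (hun i).trans_lt (pow_lt_one₀ hq.le hq1 (by omega))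
  have hvu : ∀ i, vv i u = 1 := fun i => (D.one_of_sub (hu1 i)).1
  have hρu : ∀ i, ρρ i u = 1 := fun i => (D.one_of_sub (hu1 i)).2
  induction m with
  | zero =>
    obtain ⟨g, hg_ne, hgf, hgord, hvgf, hordgf⟩ := D.gen_node_norm hp.ne_zero hu hu0 hdiv s 0
    have hvgt : vv true g = 1 := by
      have h1 := D.node_compare hu0 hg_ne hgord (hvu false) hvgf
        (by rw [hρu, Place.ord_one, hordgf, mul_zero])
      rw [hvu true] at h1
      exact (pow_eq_one_iff_of_nonneg zero_le' hp.ne_zero).mp h1.symm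
    have hvg : ∀ i, vv i g = 1 := fun i => by cases i; exacts [hvgf, hvgt]
    -- common value
    have hh0 : u / g ^ p ≠ 0 := div_ne_zero hu0 (pow_ne_zero _ hg_ne)
    have hvgp : ∀ i, vv i (g ^ p) = 1 := fun i => by rw [map_pow, hvg, one_pow]
    have hρh : ∀ i, ρρ i (u / g ^ p) = ((ρρ i g)⁻¹) ^ p := fun i => by
      rw [(D.comp i).ρ_div (hvu i).le (hvgp i), hρu, (D.comp i).ρ_pow (hvg i).le, inv_pow,
        one_div]
    obtain ⟨-, c, hc0, hc⟩ := D.AN (n := s) hh0 (fun P hP => by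
      rw [ord_div P hu0 (pow_ne_zero _ hg_ne), ord_pow, hgord P hP, sub_self])
      (by rw [map_div₀, hvu, hvgp, div_one])
      (by rw [hρh, ord_pow, Place.ord_inv, hordgf]; simp)
    obtain ⟨γ, hγ⟩ := IsAlgClosed.exists_pow_nat_eq c hp.pos
    have hγ0 : γ ≠ 0 := by
      rintro rfl
      rw [zero_pow hp.ne_zero] at hγ
      exact hc0 hγ.symm
    have hval : ∀ i, (D.pt i s).adicValuation (ρρ i g - algebraMap k Fb γ⁻¹) < 1 := by
      intro i
      have h1 := hc i
      rw [hρh, ← hγ] at h1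
      have h2 := adic_sub_lt_of_pow h1
      obtain ⟨h3, h4⟩ := ord_eq_zero_of_sub_lt hγ0 h2
      have hρg0 : ρρ i g ≠ 0 := (D.comp i).ρ_ne_zero (hvg i)
      have e1 : ρρ i g - algebraMap k Fb γ⁻¹ =
          -(ρρ i g * algebraMap k Fb γ⁻¹) * ((ρρ i g)⁻¹ - algebraMap k Fb γ) := by
        rw [map_inv₀]
        have : algebraMap k Fb γ ≠ 0 := (_root_.map_ne_zero _).mpr hγ0
        field_simp
        ring
      have h5 : (D.pt i s).adicValuation (ρρ i g) = 1 := by
        apply adic_eq_one_of_ord hρg0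
        rw [Place.ord_inv] at h4
        omega
      rw [e1, map_mul, Valuation.map_neg, map_mul, h5,
        H3RR.adicValuation_algebraMap _ (inv_ne_zero hγ0), one_mul, one_mul]
      exact h2
    obtain ⟨b, hbf, hb1, hbreg, hbρ⟩ := L.lift_node s (fun i => ρρ i g) γ⁻¹ hval
    have hvb : ∀ i, vv i b = 1 := fun i => (D.comp i).v_eq_one (hb1 i)
      (by rw [hbρ]; exact (D.comp i).ρ_ne_zero (hvg i))
    have hb0 : b ≠ 0 := by
      rintro rfl
      have := hvb false
      simp at this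
    have hbord := D.unit_node hvb hbreg (fun i => by
      rw [hbρ]
      exact (ord_eq_zero_of_sub_lt (inv_ne_zero hγ0) (hval i)).2)
    refine ⟨g / b, div_ne_zero hg_ne hb0, hgf.div hbf.of_top, fun P hP => ?_, fun i => ?_⟩
    · rw [hgord P hP, ord_div P hg_ne hb0, hbord P hP, sub_zero]
    · rw [zero_add, pow_one]
      apply hd.le_of_lt_one ((hgf.div hbf.of_top).sub Fix.one)
      rw [div_sub_one hb0, map_div₀, hvb, div_one]
      exact D.sub_lt_of_ρ (hvg i).le (hb1 i) (hbρ i).symm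
  | succ m ih =>
    obtain ⟨g, hg0, hgf, hgord, hvg⟩ := ih (by
      have : p * m ≤ p * (m + 1) := Nat.mul_le_mul_left _ (Nat.le_succ _)
      omega)
    have hps := fun i => D.pow_step hd he (i := i) (m := m + 1) (by omega) hm hn (hun i) (hvg i)
    have hh0 : u / g ^ p ≠ 0 := div_ne_zero hu0 (pow_ne_zero _ hg0)
    have hhord : ∀ P, D.M.sp P = Sum.inr s → P.adicValuation (u / g ^ p) ≤ 1 := by
      intro P hP
      apply adic_le_one_of_ord
      rw [ord_div P hu0 (pow_ne_zero _ hg0), ord_pow, hgord P hP, sub_self]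
    obtain ⟨c, hc⟩ := D.node_val' (n := s)
      (f := (u / g ^ p - 1) / algebraMap K F (ϖ ^ (p * (m + 1)))) (fun i => (hps i).1)
      (fun P hP => by
        rw [map_div₀, H3RR.adicValuation_algebraMap _ (pow_ne_zero _ hd.ne), div_one]
        exact (Valuation.map_sub _ _ _).trans (max_le (hhord P hP) (by simp)))
    obtain ⟨γ, hγ⟩ := IsAlgClosed.exists_pow_nat_eq (-c) hp.pos
    have hval : ∀ i, (D.pt i s).adicValuation
        (ρρ i ((g - 1) / algebraMap K F (ϖ ^ (m + 1))) - algebraMap k Fb γ) < 1 := by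
      intro i
      have h1 := hc i
      rw [(hps i).2] at h1
      apply adic_sub_lt_of_pow (p := p)
      rw [hγ, map_neg, sub_neg_eq_add, ← Valuation.map_neg, neg_add']
      exact h1
    obtain ⟨b, hbf, hb1, hbreg, hbρ⟩ := L.lift_node s
      (fun i => ρρ i ((g - 1) / algebraMap K F (ϖ ^ (m + 1)))) γ hval
    have himp := fun i => D.improve hd hgf hbf.of_top (m := m + 1) (by omega) (hvg i) (hb1 i)
      (hbρ i)
    set w := 1 + algebraMap K F (ϖ ^ (m + 1)) * b with hw
    have hw0 : w ≠ 0 := by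
      intro h
      have := (himp false).1
      rw [h] at this
      simp at this
    have hword := D.unit_node (n := s) (fun i => (himp i).1) (fun P hP => by
      refine (Valuation.map_add _ _ _).trans (max_le (by simp) ?_)
      rw [map_mul]
      exact mul_le_one' (P.adicValuation_algebraMap_le_one _) (hbreg P hP))
      (fun i => by rw [(himp i).2.1, Place.ord_one])
    refine ⟨g / w, div_ne_zero hg0 hw0, hgf.div (Fix.one.add ((D.fix_alg (hd.fix.pow _)).mul
      hbf.of_top)), fun P hP => ?_, fun i => (himp i).2.2⟩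
    rw [hgord P hP, ord_div P hg0 hw0, hword P hP, sub_zero]

end Data

end Fermat.Agent.H31.MP
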