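import Fermat.Agent.H42Inputs
import Fermat.Agent.H31MPNode

/-!
# Descent of divisibility of divisors along finite extensions; divisibility on the special fibre
-/

set_option autoImplicit false
set_option linter.unusedSectionVars false
set_option linter.style.haveILetI false

open IntermediateField AlgebraicCurve WithZero Fermat.Agent

namespace Fermat.Agent.H10.P2

section Descent

variable {k E E' : Type*} [Field k] [Field E] [Field E'] [Algebra k E] [Algebra k E']
  [Algebra E E'] [IsScalarTower k E E']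

theorem finrank_adjoin_algebraMap (f : E) :
    Module.finrank k⟮algebraMap E E' f⟯ E' = Module.finrank k⟮f⟯ E * Module.finrank E E' := by
  have hmap : (k⟮f⟯).map (IsScalarTower.toAlgHom k E E') = k⟮algebraMap E E' f⟯ := by
    rw [IntermediateField.adjoin_map, Set.image_singleton]
    rfl
  rw [← hmap]
  let e := (k⟮f⟯).equivMap (IsScalarTower.toAlgHom k E E')
  rw [Module.finrank_mul_finrank (k⟮f⟯) E E']
  refine (Algebra.finrank_eq_of_equiv_equiv (e : k⟮f⟯ ≃+* _) (RingEquiv.refl E') ?_).symm
  ext x
  rfl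

variable [Module.Finite E E'] [IsAlgClosed k] [H3RR.IsFF k E] [H3RR.IsFF k E']

/-- A function with a pole at `v` only. -/
theorem exists_only_pole (v : Place k E) : ∃ f : E, f ≠ 0 ∧ v.ord f < 0 ∧
    ∀ w : Place k E, w ≠ v → 0 ≤ w.ord f := by
  classical
  haveI : H94.FunField k E := H3RR.funField_of_isFF
  have hdE : ∀ v : Place k E, v.deg = 1 := fun v => H3RR.deg_eq_one v
  have hE := H42.riemannFor k E (c := 2 * (genusFF k E : ℤ)) (by omega)
  obtain ⟨f, hf, hf0, hv⟩ := H40.exists_ord_eq hE hdE
    (D := Finsupp.single v (2 * (genusFF k E : ℤ) + 1)) (by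
      rw [Divisor.degree_single, hdE]; push_cast; omega) v
  rw [Finsupp.single_eq_same] at hv
  refine ⟨f, hf0, by omega, fun w hw => ?_⟩
  have h1 := (H40.mem_L hf0).mp hf w
  rw [Finsupp.single_apply, if_neg (Ne.symm hw)] at h1
  omega

/-- The sum formula: `∑_{w ∣ v} ord_w f = [E' : E] ord_v f`. -/
theorem exists_sum_above (v : Place k E) : ∃ S : Finset (Place k E'),
    (∀ w, w ∈ S ↔ w.restrict E = v) ∧
    ∑ w ∈ S, (w.ramificationIndex E : ℤ) = Module.finrank E E' ∧ ∀ h : E,
      ∑ w ∈ S, w.ord (algebraMap E E' h) = Module.finrank E E' * v.ord h := by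
  classical
  obtain ⟨f, hf0, hv, hreg⟩ := exists_only_pole v
  have hf0' : algebraMap E E' f ≠ 0 := (_root_.map_ne_zero _).mpr hf0
  have hft : Transcendental k f := by
    intro halg
    obtain ⟨c, rfl⟩ := H3RR.exists_const_of_isAlgebraic halg
    rw [H40.ord_algebraMap] at hv
    exact lt_irrefl _ hv
  have hft' : Transcendental k (algebraMap E E' f) :=
    (transcendental_algebraMap_iff (algebraMap E E').injective).mpr hft
  have hmem : ∀ w : Place k E', w ∈ (H3RR.poleDiv (algebraMap E E' f) : Divisor k E').support ↔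
      w.restrict E = v := by
    intro w
    have hram := w.ramificationIndex_pos (F := E)
    rw [Finsupp.mem_support_iff, H3RR.poleDiv_apply hf0', w.ord_restrict (F := E)]
    constructor
    · intro h
      by_contra hne
      have := hreg _ hne
      have h1 : 0 ≤ (w.ramificationIndex E : ℤ) * (w.restrict E).ord f := by positivity
      omega
    · rintro rfl
      have h1 : (w.ramificationIndex E : ℤ) * (w.restrict E).ord f < 0 :=
        mul_neg_of_pos_of_neg (by exact_mod_cast hram) hv
      omega
  have d1 := H3RR.degree_poleDiv hft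
  have d2 := H3RR.degree_poleDiv hft'
  rw [finrank_adjoin_algebraMap] at d2
  rw [H40.degree_eq_sum (fun v => H3RR.deg_eq_one v), Finsupp.sum] at d1 d2
  have e1 : ∑ w ∈ (H3RR.poleDiv f : Divisor k E).support, (H3RR.poleDiv f : Divisor k E) w =
      -v.ord f := by
    rw [Finset.sum_eq_single v]
    · rw [H3RR.poleDiv_apply hf0]; omega
    · intro w _ hw
      rw [H3RR.poleDiv_apply hf0]
      have := hreg w hw
      omega
    · intro hv'
      exact Finsupp.notMem_support_iff.mp hv'
  rw [e1] at d1
  have e2 : ∀ w ∈ (H3RR.poleDiv (algebraMap E E' f) : Divisor k E').support,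
      (H3RR.poleDiv (algebraMap E E' f) : Divisor k E') w = -(w.ramificationIndex E * v.ord f) := by
    intro w hw
    have h1 := Finsupp.mem_support_iff.mp hw
    rw [H3RR.poleDiv_apply hf0', w.ord_restrict (F := E), (hmem w).mp hw] at h1 ⊢
    omega
  rw [Finset.sum_congr rfl e2, Finset.sum_neg_distrib, ← Finset.sum_mul] at d2
  have e3 : ∑ w ∈ (H3RR.poleDiv (algebraMap E E' f) : Divisor k E').support,
      (w.ramificationIndex E : ℤ) = Module.finrank E E' := by
    have h2 : (v.ord f) ≠ 0 := hv.ne
    apply mul_right_cancel₀ h2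
    push_cast at d2
    rw [← d1] at d2
    linarith
  refine ⟨(H3RR.poleDiv (algebraMap E E' f) : Divisor k E').support, hmem, e3, fun h => ?_⟩
  rw [← e3, Finset.sum_mul]
  refine Finset.sum_congr rfl fun w hw => ?_
  rw [w.ord_restrict (F := E), (hmem w).mp hw]

/-- Descent of divisibility along a finite extension. -/
theorem dvd_of_above {d : ℤ} {v : Place k E} {h : E}
    (H : ∀ w : Place k E', w.restrict E = v → d ∣ w.ord (algebraMap E E' h)) :
    d ∣ Module.finrank E E' * v.ord h := by
  obtain ⟨S, hS, -, hsum⟩ := exists_sum_above (E' := E') v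
  rw [← hsum]
  exact Finset.dvd_sum fun w hw => H w ((hS w).mp hw)

/-- There is a place above with ramification index prime to `p`, if `p ∤ [E' : E]`. -/
theorem exists_above_coprime {p : ℕ} (hp : ¬ p ∣ Module.finrank E E') (v : Place k E) :
    ∃ w : Place k E', w.restrict E = v ∧ ¬ p ∣ w.ramificationIndex E := by
  obtain ⟨S, hS, hsum, -⟩ := exists_sum_above (E' := E') v
  by_contra hcon
  push Not at hcon
  apply hp
  have : (p : ℤ) ∣ Module.finrank E E' := by
    rw [← hsum]
    exact Finset.dvd_sum fun w hw => by exact_mod_cast hcon w ((hS w).mp hw)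
  exact_mod_cast this

end Descent

section Special

open Fermat.Agent.H31.MP

variable {K F k Fb Γ ν G : Type*} [Field K] [Field F] [Algebra K F] [Field k] [Field Fb]
    [Algebra k Fb] [LinearOrderedCommGroupWithZero Γ] [Group G] [MulSemiringAction G K]
    [MulSemiringAction G F] {p : ℕ} (D : Data K F k Fb Γ ν G p)

variable [IsAlgClosed K] [H3RR.IsFF K F] [IsAlgClosed k] [H3RR.IsFF k Fb]

/-- Divisibility of the reduction at all points of the first component: if `div u` is divisible by
`e` and `v_1 u = 1`, `v_2 u = |p|^n` with `e ∣ n`, then `div ρ_1(u)` is divisible by `e`. -/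
theorem dvd_ord {e : ℕ} (he : e ≠ 0) {H : Subgroup G} {u : F} (hu : Fix H u) (hu0 : u ≠ 0)
    (hdiv : ∀ P : Place K F, (e : ℤ) ∣ P.ord u) (hvu : D.M.v false u = 1)
    (hH : ∀ c : K, c ≠ 0 → Fix H c → ∃ m : ℤ, D.M.vK c = D.M.vK (p : K) ^ m)
    (hp0 : (p : K) ≠ 0) (hp1 : D.M.vK (p : K) < 1) {n : ℤ}
    (hn : D.M.v true u = D.M.vK (p : K) ^ n) (hne : (e : ℤ) ∣ n) (x : Place k Fb) :
    (e : ℤ) ∣ x.ord (D.M.ρ false u) := by
  classical
  by_cases hx : ∀ s, (false, x) ∉ D.M.br s
  · have h1 := D.M.smooth_deg (false, x) hx u hu0 hvu (H3RR.divOf u) (H3RR.divOf_apply hu0)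
    change (e : ℤ) ∣ x.ord (D.M.ρ false u)
    rw [← h1, H97.cls_eq_sum]
    refine Finset.dvd_sum fun P _ => ?_
    rw [H3RR.divOf_apply hu0]
    exact hdiv P
  · push Not at hx
    obtain ⟨s, hs⟩ := hx
    rcases (D.mem_br s _).mp hs with h | h
    · rw [Prod.mk.injEq] at h
      obtain ⟨-, rfl⟩ := h
      have h2 := D.slope_congr he hu hu0 hdiv hvu hH hp0 hp1 hn s
      have h3 := dvd_add h2 hne
      rwa [sub_add_cancel] at h3
    · simp at h

end Special

end Fermat.Agent.H10.P2
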