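import Fermat.Agent.H97MdC
import Fermat.Agent.H24Int


/-!
# Nodes are not cusps, part 1 (helper61): abstract lemmas
-/

set_option autoImplicit false
set_option linter.unusedSectionVars false

open AlgebraicCurve WithZero IntermediateField Fermat.Agent.H97

namespace Fermat.Agent.H61.Nd

section Abs

variable {K F k κ : Type*} [Field K] [Field F] [Algebra K F] [Field k] [Field κ] [Algebra k κ]
  [IsAlgClosed K] [H3RR.IsFF K F] [IsAlgClosed k] [H3RR.IsFF k κ]

theorem degree_mapDomain (r : Place K F → Place k κ) (D : Divisor K F) :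
    Divisor.degree (Finsupp.mapDomain r D : Divisor k κ) = Divisor.degree D := by
  induction D using Finsupp.induction_linear with
  | zero => rw [Finsupp.mapDomain_zero, map_zero, map_zero]
  | add f g hf hg => rw [Finsupp.mapDomain_add, map_add, map_add, hf, hg]
  | single P n =>
    rw [Finsupp.mapDomain_single]
    have h1 : Divisor.degree (Finsupp.single P n : Divisor K F) = n := by
      rw [Divisor.degree, Finsupp.liftAddHom_apply, Finsupp.sum_single_index (by simp),
        AddMonoidHom.mulRight_apply, H3RR.deg_eq_one]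
      simp
    have h2 : Divisor.degree (Finsupp.single (r P) n : Divisor k κ) = n := by
      rw [Divisor.degree, Finsupp.liftAddHom_apply, Finsupp.sum_single_index (by simp),
        AddMonoidHom.mulRight_apply, H3RR.deg_eq_one]
      simp
    rw [h1, h2]

theorem eq_zero_of_degree_le {D : Divisor k κ} (hD : ∀ x, 0 ≤ D x)
    (h : Divisor.degree D ≤ 0) (x : Place k κ) : D x = 0 := by
  by_contra hx
  rw [H3RR.degree_eq_sum] at h
  have h1 : D x ≤ ∑ v ∈ D.support, D v :=
    Finset.single_le_sum (f := fun v => D v) (fun v _ => hD v) (Finsupp.mem_support_iff.mpr hx)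
  have := hD x
  omega

/-- If the pole degrees agree then poles reduce to poles and zeros reduce to zeros. -/
theorem ord_of_cls {r : Place K F → Place k κ} {f : F} {h : κ} (hf : f ≠ 0) (hh : h ≠ 0)
    (hcls : ∀ x, cls r (H3RR.divOf f : Divisor K F) x = x.ord h)
    (hdeg : Divisor.degree (H3RR.poleDiv f : Divisor K F) ≤
      Divisor.degree (H3RR.poleDiv h : Divisor k κ)) (P : Place K F) :
    (0 ≤ (r P).ord h → 0 ≤ P.ord f) ∧ ((r P).ord h ≤ 0 → P.ord f ≤ 0) := by
  have hf' := inv_ne_zero hf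
  have e1 : (H3RR.divOf f : Divisor K F) =
      H3RR.poleDiv f⁻¹ + (-1 : ℤ) • H3RR.poleDiv f := by
    ext Q
    rw [H3RR.divOf_apply hf, Finsupp.add_apply, Finsupp.smul_apply, H3RR.poleDiv_apply hf',
      H3RR.poleDiv_apply hf, Q.ord_inv, smul_eq_mul]
    omega
  have e2 : ∀ x, x.ord h = cls r (H3RR.poleDiv f⁻¹ : Divisor K F) x
      - cls r (H3RR.poleDiv f : Divisor K F) x := fun x => by
    rw [← hcls x, e1, cls_add, cls_smul]; ring
  have n1 : ∀ x, 0 ≤ cls r (H3RR.poleDiv f⁻¹ : Divisor K F) x := fun x =>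
    cls_nonneg r fun Q _ => H3RR.poleDiv_nonneg f⁻¹ Q
  have n2 : ∀ x, 0 ≤ cls r (H3RR.poleDiv f : Divisor K F) x := fun x =>
    cls_nonneg r fun Q _ => H3RR.poleDiv_nonneg f Q
  set E : Divisor k κ := Finsupp.mapDomain r (H3RR.poleDiv f : Divisor K F) - H3RR.poleDiv h
    with hE
  have hE0 : ∀ x, 0 ≤ E x := fun x => by
    rw [hE, Finsupp.sub_apply, H3RR.poleDiv_apply hh]
    have h1 := n1 x
    have h2 := n2 x
    have h3 := e2 x
    have h4 : cls r (H3RR.poleDiv f : Divisor K F) x =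
      (Finsupp.mapDomain r (H3RR.poleDiv f : Divisor K F)) x := rfl
    rw [← h4]
    omega
  have hEd : Divisor.degree E ≤ 0 := by
    rw [hE, map_sub, degree_mapDomain]
    omega
  have hEx := eq_zero_of_degree_le hE0 hEd (r P)
  rw [hE, Finsupp.sub_apply, H3RR.poleDiv_apply hh] at hEx
  have h4 : cls r (H3RR.poleDiv f : Divisor K F) (r P) =
      (Finsupp.mapDomain r (H3RR.poleDiv f : Divisor K F)) (r P) := rfl
  rw [← h4] at hEx
  have h5 := e2 (r P)
  constructor
  · intro h0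
    have h6 : cls r (H3RR.poleDiv f : Divisor K F) (r P) = 0 := by
      rw [max_eq_right (by omega)] at hEx
      omega
    have h7 := eq_zero_of_cls_eq_zero r (fun Q _ => H3RR.poleDiv_nonneg f Q) h6 (P := P) rfl
    rw [H3RR.poleDiv_apply hf] at h7
    omega
  · intro h0
    have h6 : cls r (H3RR.poleDiv f⁻¹ : Divisor K F) (r P) = 0 := by
      rw [max_eq_left (by omega)] at hEx
      omega
    have h7 := eq_zero_of_cls_eq_zero r (fun Q _ => H3RR.poleDiv_nonneg f⁻¹ Q) h6 (P := P) rfl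
    rw [H3RR.poleDiv_apply hf', P.ord_inv] at h7
    omega

end Abs

section Place

variable {K F : Type*} [Field K] [Field F] [Algebra K F]

theorem adicValuation_le_one_of_isIntegral (P : Place K F) {z g : F}
    (hz : P.adicValuation z ≤ 1)
    (h : IsIntegral (Algebra.adjoin ℤ {z} : Subalgebra ℤ F) g) : P.adicValuation g ≤ 1 := by
  have hle : (Algebra.adjoin ℤ {z} : Subalgebra ℤ F).toSubring ≤ P.toValuationSubring.toSubring := by
    have key : ∀ x ∈ (Algebra.adjoin ℤ {z} : Subalgebra ℤ F), x ∈ P.toValuationSubring := by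
      intro x hx
      induction hx using Algebra.adjoin_induction with
      | mem x hx =>
        rw [Set.mem_singleton_iff] at hx
        subst hx
        exact H3RR.mem_of_adicValuation_le_one P hz
      | algebraMap r => exact intCast_mem _ r
      | add x y _ _ hx hy => exact add_mem hx hy
      | mul x y _ _ hx hy => exact mul_mem hx hy
    exact key
  obtain ⟨p, hp, hp0⟩ := h
  have h1 : IsIntegral P.toValuationSubring g := by
    refine ⟨p.map (Subring.inclusion hle), hp.map _, ?_⟩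
    rw [Polynomial.eval₂_map]
    exact hp0
  obtain ⟨y, hy⟩ := (IsIntegrallyClosed.isIntegral_iff (R := P.toValuationSubring)).mp h1
  rw [← hy, ← H3RR.mem_iff_adicValuation_le_one]
  exact y.2

end Place

section Node

variable {K F₀ F k κ Γ : Type*} [Field K] [Field F₀] [Field F] [Algebra K F₀] [Algebra K F]
    [Field k] [Field κ] [Algebra k κ] [LinearOrderedCommGroupWithZero Γ] {q : ℕ}
    (S : Sheets K F₀ F k κ Γ q)

variable [IsAlgClosed K] [CharZero K] [H3RR.IsFF K F₀] [H3RR.IsFF K F]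
  [IsAlgClosed k] [H3RR.IsFF k κ] [H94.FunField K F₀] [H94.FunField K F]
  [hqF : Fact q.Prime]

/-- Poles of `j̄` are not nodes. -/
theorem ord_nonneg_of_node {x : Place k κ} (hx : S.Node x) {f : F₀} {y : F}
    (hf : S.v₀ f = 1) (hσ : S.σ (S.ρ₀ f) = S.ρ₀ f)
    (hft : Transcendental K f) (hht : Transcendental k (S.ρ₀ f))
    (hdeg : Module.finrank K⟮f⟯ F₀ ≤ Module.finrank k⟮S.ρ₀ f⟯ κ)
    (vy : ∀ i, S.v i y = 1) (ρf : S.ρ false y = S.Φ (S.ρ₀ f)) (ρt : S.ρ true y = S.ρ₀ f)
    (hrel : H24.Rel q y (S.φ f)) : 0 ≤ x.ord (S.ρ₀ f) := by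
  by_contra hcon
  rw [not_le] at hcon
  have hf0 : f ≠ 0 := by rintro rfl; simp at hf
  have hφf0 : S.φ f ≠ 0 := (map_ne_zero_iff _ S.φ.toRingHom.injective).mpr hf0
  have hh0 : S.ρ₀ f ≠ 0 := S.comp₀.ρ_ne_zero hf
  have hcls : ∀ x, cls S.r (H3RR.divOf f : Divisor K F₀) x = x.ord (S.ρ₀ f) :=
    fun x => S.deg₀ f hf0 hf _ (H3RR.divOf_apply hf0) x
  have hdeg' : Divisor.degree (H3RR.poleDiv f : Divisor K F₀) ≤
      Divisor.degree (H3RR.poleDiv (S.ρ₀ f) : Divisor k κ) := by
    rw [H3RR.degree_poleDiv hft, H3RR.degree_poleDiv hht]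
    exact_mod_cast hdeg
  set g : F := (S.φ f)⁻¹ ^ q * y with hg
  have hvφ : ∀ i, S.v i (S.φ f) = 1 := fun i => by rw [S.v_φ, hf]
  have hvinv : ∀ i, S.v i (S.φ f)⁻¹ = 1 := fun i => by rw [map_inv₀, hvφ, inv_one]
  have hvg : ∀ i, S.v i g = 1 := fun i => by
    rw [hg, map_mul, map_pow, hvinv, one_pow, one_mul, vy]
  have hgR : S.InR x g := by
    refine ⟨fun i => (hvg i).le, fun P hP => ?_⟩
    refine adicValuation_le_one_of_isIntegral P ?_ (hrel.isIntegral_inv hφf0)
    have h1 := (ord_of_cls hf0 hh0 hcls hdeg' (H67.res S.φ P)).2 (by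
      have : S.r (H67.res S.φ P) = x := hP
      rw [this]; exact hcon.le)
    have h2 : (H67.res S.φ P).adicValuation f⁻¹ ≤ 1 := by
      rw [Place.adicValuation_le_one_iff]
      right
      rw [Place.ord_inv]
      omega
    rw [← map_inv₀, ← H3RR.mem_iff_adicValuation_le_one, ← H67.mem_res,
      H3RR.mem_iff_adicValuation_le_one]
    exact h2
  obtain ⟨c, hc⟩ := hx g hgR
  have hΦ : S.Φ (S.ρ₀ f) = S.ρ₀ f ^ q := by
    conv_lhs => rw [← hσ]
    exact S.Φσ _
  have hinvρ : ∀ i, S.ρ i (S.φ f)⁻¹ = (S.ρ i (S.φ f))⁻¹ := fun i => by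
    have h1 : S.ρ i ((S.φ f)⁻¹ * S.φ f) = 1 := by
      rw [inv_mul_cancel₀ hφf0, (S.comp i).ρ_one]
    rw [(S.comp i).ρ_mul _ _ (hvinv i).le (hvφ i).le] at h1
    exact eq_inv_of_mul_eq_one_left h1
  have hgρ : ∀ i, S.ρ i g = (S.ρ i (S.φ f))⁻¹ ^ q * S.ρ i y := fun i => by
    rw [hg, (S.comp i).ρ_mul _ _ (by rw [map_pow, hvinv, one_pow]) (vy i).le,
      (S.comp i).ρ_pow (hvinv i).le, hinvρ]
  have hgf : S.ρ false g = 1 := by
    rw [hgρ, S.ρ_false _ hf.le, ρf, hΦ, inv_pow, inv_mul_cancel₀ (pow_ne_zero _ hh0)]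
  have hgt : S.ρ true g * S.ρ₀ f ^ (q * q) = S.ρ₀ f := by
    rw [hgρ, S.ρ_true _ hf.le, ρt, hΦ, inv_pow, ← pow_mul]
    have := pow_ne_zero (q * q) hh0
    field_simp
  have h0 := hc false
  have h1 := hc true
  rw [hgf] at h0
  -- c = 1
  have hc1 : c = 1 := by
    by_contra hne
    have h2 : (1 : κ) - algebraMap k κ c = algebraMap k κ (1 - c) := by rw [map_sub, map_one]
    rw [S.pt_false, h2, H3RR.adicValuation_algebraMap _ (sub_ne_zero.mpr (Ne.symm hne))] at h0
    exact lt_irrefl _ h0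
  subst hc1
  rw [S.pt_true, map_one] at h1
  have h3 : (S.tw x).adicValuation (S.ρ₀ f) = x.adicValuation (S.ρ₀ f) := by
    rw [← S.tw_val, hσ]
  have h4 : 1 < (S.tw x).adicValuation (S.ρ₀ f) := by
    rw [h3, x.adicValuation_eq_exp_neg_ord hh0, ← exp_zero, exp_lt_exp]
    omega
  have h5 : (S.tw x).adicValuation (S.ρ true g) = 1 := by
    have h6 : S.ρ true g = 1 + (S.ρ true g - 1) := by ring
    rw [h6, Valuation.map_add_eq_of_lt_left _ (by rw [map_one]; exact h1), map_one]
  have h7 := congrArg (S.tw x).adicValuation hgt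
  rw [map_mul, map_pow, h5, one_mul] at h7
  have hq2 : 1 < q * q := by nlinarith [hqF.out.one_lt]
  have h8 : (S.tw x).adicValuation (S.ρ₀ f) ^ 1 < (S.tw x).adicValuation (S.ρ₀ f) ^ (q * q) :=
    pow_lt_pow_right₀ h4 hq2
  rw [pow_one, h7] at h8
  exact lt_irrefl _ h8

end Node

end Fermat.Agent.H61.Nd
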