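import Fermat.Agent.H97MdL
import Fermat.Agent.H61NdA
import Fermat.Agent.H1HauptFinal

/-!
# Nodes are not cusps, part 2 (helper61): the concrete sheets
-/

set_option autoImplicit false
set_option linter.unusedSectionVars false

noncomputable section

open AlgebraicCurve ModularCurve IntermediateField Fermat.Agent.H34.Two Fermat.Agent.H97

namespace Fermat.Agent.H61.Nd

section Inst

variable {L : Type*} [Field L] [Algebra ℚ L] {A : ValuationSubring L} {k : Type*} [Field k]
  {π : A →+* k} {m q : ℕ} [NeZero m] [NeZero q] [hq : Fact q.Prime]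
  [CharP k q] [IsAlgClosed k] [Infinite k] (w : H99.AL L m q)
  (hπ : Function.Surjective π)
  (hdeg : H42.DegLE L k m) (hqm : ¬ q ∣ m)
  [IsAlgClosed L] [CharZero L] [IsLocalHom π] (arch : Arch A)
  (r : Place L (H99.FX L m) → Place k (modularFunctionFieldFullC k m))

theorem red0_jm : (comp0 A π w hπ (H42.degreeFact L) hdeg hqm).red (jm L m) = jk k m := by
  apply Subtype.ext
  rw [coe_red0, red_jm]
  rfl

theorem v0_jm : v0 A π w hπ (H42.degreeFact L) hdeg hqm (jm L m) = 1 := by
  rw [v0, compVal_eq_one_iff, red0_jm]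
  exact H3RR.transcendental_ne_zero transcendental_jk

theorem sig_jk : sig k m q (jk k m) = jk k m := by
  apply Subtype.ext
  rw [coe_sig, coe_jk]
  exact coeffMap_jqModC _

theorem transcendental_jm : Transcendental L (jm L m) := by
  have h := H42.transcendental_jqModC L
  intro h1
  apply h
  have h2 : (jm L m : LaurentSeries L) = jqModC L := by rw [coe_jm, H66.J_one]
  rw [← h2]
  exact (isAlgebraic_algHom_iff (H99.FX L m).val Subtype.val_injective).mpr h1

include hdeg in
theorem finrank_jm_le : Module.finrank L⟮jm L m⟯ (H99.FX L m) ≤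
    Module.finrank k⟮jk k m⟯ (modularFunctionFieldFullC k m) := by
  have h1 := finrank_jk (H42.degreeFact L) hdeg
  have hx : jqModC L ∈ H99.FX L m := by
    have h2 : (jm L m : LaurentSeries L) = jqModC L := by rw [coe_jm, H66.J_one]
    rw [← h2]; exact (jm L m).2
  have e : jm L m = ⟨jqModC L, hx⟩ := Subtype.ext (by rw [coe_jm, H66.J_one])
  rw [e, ← H42.relfinrank_eq_finrank_adjoin _ hx, H99.FX_eq, H42.degreeFact L m]
  exact h1

/-- `j(t^q)` -/
def jmb (L : Type*) [Field L] [Algebra ℚ L] (m q : ℕ) [NeZero m] [NeZero q] :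
    H99.FX L (m * q) := heckeBetaBar L m q (jm L m)

theorem coe_jmb : (jmb L m q : LaurentSeries L) = qExpand L q (jqModC L) := by
  rw [jmb, coe_heckeBetaBar, coe_jm, H66.J_one]

theorem rel_jmb : H24.Rel q (jmb L m q) (jmq L m q) := by
  refine H24.Rel.of_map (q := q) (f := (H99.FX L (m * q)).val.toRingHom) Subtype.val_injective ?_
  have h1 : (H99.FX L (m * q)).val.toRingHom (jmb L m q) = qExpand L q (jqModC L) :=
    coe_jmb (L := L) (m := m) (q := q)
  have h2 : (H99.FX L (m * q)).val.toRingHom (jmq L m q) = jqModC L :=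
    coe_jmq (L := L) (m := m) (q := q)
  rw [h1, h2]
  exact H24.rel_j' q L

theorem rel_jmq : H24.Rel q (jmq L m q) (jmb L m q) := by
  refine H24.Rel.of_map (q := q) (f := (H99.FX L (m * q)).val.toRingHom) Subtype.val_injective ?_
  have h1 : (H99.FX L (m * q)).val.toRingHom (jmb L m q) = qExpand L q (jqModC L) :=
    coe_jmb (L := L) (m := m) (q := q)
  have h2 : (H99.FX L (m * q)).val.toRingHom (jmq L m q) = jqModC L :=
    coe_jmq (L := L) (m := m) (q := q)
  rw [h1, h2]
  exact H24.rel_j q L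

variable {c : ℕ}
    (hr1 : ∀ D : Divisor L (H99.FX L m), (c : ℤ) < Divisor.degree D →
      (H42.modReductionData A π m hπ hdeg).IsRed D (Finsupp.mapDomain r D))
    (hr2 : H34.GR.DivCompat (H42.modReductionData A π m hπ hdeg) r)

/-- **(N1)** nodes are not cusps -/
theorem node_ord_jk [H3RR.IsFF L (H99.FX L m)] [H3RR.IsFF L (H99.FX L (m * q))]
    [H3RR.IsFF k (modularFunctionFieldFullC k m)] [H94.FunField L (H99.FX L m)]
    [H94.FunField L (H99.FX L (m * q))]
    {x : Place k (modularFunctionFieldFullC k m)}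
    (hx : (sheets w hπ hdeg hqm arch r hr1 hr2).Node x) : 0 ≤ x.ord (jk k m) := by
  have h0 : (sheets w hπ hdeg hqm arch r hr1 hr2).ρ₀ (jm L m) = jk k m :=
    red0_jm w hπ hdeg hqm
  have h1 := ord_nonneg_of_node (sheets w hπ hdeg hqm arch r hr1 hr2) hx (f := jm L m)
    (y := jmb L m q) (v0_jm w hπ hdeg hqm) (by rw [h0]; exact sig_jk) transcendental_jm
    (by rw [h0]; exact transcendental_jk) (by rw [h0]; exact finrank_jm_le hdeg)
    (fun i => by
      cases i
      · exact (v1_beta A π w hπ _ hdeg hqm _).trans (v0_jm w hπ hdeg hqm)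
      · exact (v2_beta A π w hπ _ hdeg hqm _).trans (v0_jm w hπ hdeg hqm))
    (red1_beta A π w hπ _ hdeg hqm _) (red2_beta A π w hπ _ hdeg hqm _) rel_jmb
  rwa [h0] at h1

include w arch hr1 hr2 hqm in
/-- places reducing to a point where `j̄` is regular are not cusps -/
theorem ord_jm_of_jk [H3RR.IsFF L (H99.FX L m)] [H3RR.IsFF L (H99.FX L (m * q))]
    [H3RR.IsFF k (modularFunctionFieldFullC k m)]
    (P : Place L (H99.FX L m)) :
    (0 ≤ (r P).ord (jk k m) → 0 ≤ P.ord (jm L m)) ∧
      ((r P).ord (jk k m) ≤ 0 → P.ord (jm L m) ≤ 0) := by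
  have i3 : H94.FunField L (H99.FX L m) := H3RR.funField_of_isFF
  have i4 : H94.FunField L (H99.FX L (m * q)) := H3RR.funField_of_isFF
  have hf0 : jm L m ≠ 0 := H3RR.transcendental_ne_zero transcendental_jm
  refine ord_of_cls hf0 (H3RR.transcendental_ne_zero transcendental_jk) (fun x => ?_) ?_ P
  · have h1 := (sheets w hπ hdeg hqm arch r hr1 hr2).deg₀ (jm L m) hf0 (v0_jm w hπ hdeg hqm)
      (H3RR.divOf (jm L m)) (H3RR.divOf_apply hf0) x
    rw [show (sheets w hπ hdeg hqm arch r hr1 hr2).ρ₀ (jm L m) = jk k m from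
      red0_jm w hπ hdeg hqm] at h1
    exact h1
  · rw [H3RR.degree_poleDiv transcendental_jm, H3RR.degree_poleDiv transcendental_jk]
    exact_mod_cast finrank_jm_le hdeg

section Reg

variable [H3RR.IsFF L (H99.FX L m)] [H3RR.IsFF L (H99.FX L (m * q))]
    [H3RR.IsFF k (modularFunctionFieldFullC k m)] [H94.FunField L (H99.FX L m)]
    [H94.FunField L (H99.FX L (m * q))]
    {x : Place k (modularFunctionFieldFullC k m)}
    (hx : (sheets w hπ hdeg hqm arch r hr1 hr2).Node x)

include hx

/-- `j̄` is regular at nodes -/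
theorem node_jk : x.adicValuation (jk k m) ≤ 1 := by
  rw [Place.adicValuation_le_one_iff]
  exact Or.inr (node_ord_jk w hπ hdeg hqm arch r hr1 hr2 hx)

/-- `j̄` is regular at the second branch -/
theorem node_jk_tw : (twP k m q x).adicValuation (jk k m) ≤ 1 := by
  have h := twP_val k m q x (jk k m)
  rw [sig_jk] at h
  rw [← h]
  exact node_jk w hπ hdeg hqm arch r hr1 hr2 hx

/-- **(hj0)** -/
theorem node_jm (P : Place L (H99.FX L m)) (hP : r P = x) : P.adicValuation (jm L m) ≤ 1 := by
  rw [Place.adicValuation_le_one_iff]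
  right
  apply (ord_jm_of_jk w hπ hdeg hqm arch r hr1 hr2 P).1
  rw [hP]
  exact node_ord_jk w hπ hdeg hqm arch r hr1 hr2 hx

/-- **(hj)** -/
theorem node_jmq (P : Place L (H99.FX L (m * q)))
    (hP : (sheets w hπ hdeg hqm arch r hr1 hr2).red P = x) : P.adicValuation (jmq L m q) ≤ 1 := by
  have h1 := node_jm w hπ hdeg hqm arch r hr1 hr2 hx (H67.res (heckeAlphaBar L m q) P) hP
  rw [jmq, ← H3RR.mem_iff_adicValuation_le_one, ← H67.mem_res,
    H3RR.mem_iff_adicValuation_le_one]
  exact h1

theorem node_jmb (P : Place L (H99.FX L (m * q)))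
    (hP : (sheets w hπ hdeg hqm arch r hr1 hr2).red P = x) : P.adicValuation (jmb L m q) ≤ 1 :=
  adicValuation_le_one_of_isIntegral P (node_jmq w hπ hdeg hqm arch r hr1 hr2 hx P hP)
    rel_jmb.isIntegral

end Reg

end Inst

end Fermat.Agent.H61.Nd
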