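import Fermat.Agent.H45NdF
import Fermat.Agent.H61NdB

/-!
# Node parameters for `X_0(mq)` (helper45, helper61)
-/

set_option autoImplicit false
set_option linter.unusedSectionVars false
set_option linter.style.haveILetI false

open AlgebraicCurve ModularCurve WithZero IntermediateField Fermat.Agent.H34.Two
open Fermat.Agent.H97 Fermat.Agent.H97.Sheets

namespace Fermat.Agent.H45.Nd

variable {L : Type*} [Field L] [Algebra ℚ L] {A : ValuationSubring L} {k : Type*} [Field k]
  {π : A →+* k} {m q : ℕ} [NeZero m] [NeZero q] [hq : Fact q.Prime]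
  [CharP k q] [IsAlgClosed k] [Infinite k] (w : H99.AL L m q)
  (hπ : Function.Surjective π)
  (hdeg : H42.DegLE L k m) (hqm : ¬ q ∣ m)
  [IsAlgClosed L] [CharZero L] [IsLocalHom π]
  {c : ℕ} (ι : L →+* ℂ) (hc : c = 4 ∨ c = 9) (hcm : c ∣ m)
  (arch : Arch A)
  (r : Place L (H99.FX L m) → Place k (modularFunctionFieldFullC k m)) {cc : ℕ}
    (hr1 : ∀ D : Divisor L (H99.FX L m), (cc : ℤ) < Divisor.degree D →
      (H42.modReductionData A π m hπ hdeg).IsRed D (Finsupp.mapDomain r D))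
    (hr2 : H34.GR.DivCompat (H42.modReductionData A π m hπ hdeg) r)

variable [H3RR.IsFF L (H99.FX L m)] [H3RR.IsFF L (H99.FX L (m * q))]
  [H3RR.IsFF k (modularFunctionFieldFullC k m)] [H94.FunField L (H99.FX L m)]
  [H94.FunField L (H99.FX L (m * q))]

include ι in
/-- **The node parameters of `X_0(mq)`**, `4 ∣ m` or `9 ∣ m`, `q ∤ m`: at every node
`z = X - X(t^q)^q`, `z' = X(t^q) - X^q` satisfy `z z' = q u`. -/
theorem nodePar {x : Place k (modularFunctionFieldFullC k m)}
    (hx : (H97.sheets w hπ hdeg hqm arch r hr1 hr2).Node x) :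
    H31.Eq.NodePar (H97.sheets w hπ hdeg hqm arch r hr1 hr2) x (zF L q hc hcm) (zF' L q hc hcm)
      (zF L q hc hcm * zF' L q hc hcm / (q : H99.FX L (m * q))) :=
  nodePar_aux w hπ hdeg hqm ι hc hcm arch r hr1 hr2 hx
    (fun P hP => H61.Nd.node_jm w hπ hdeg hqm arch r hr1 hr2 hx P hP)
    (fun P hP => H61.Nd.node_jmq w hπ hdeg hqm arch r hr1 hr2 hx P hP)

end Fermat.Agent.H45.Nd
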