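import Fermat.Agent.H31EqK
import Fermat.Agent.H45NdG

/-!
# The Mazur principle data for `X_0(mq)`: final form
-/

set_option autoImplicit false
set_option linter.unusedSectionVars false
set_option maxHeartbeats 2000000
set_option synthInstance.maxHeartbeats 200000

noncomputable section

open AlgebraicCurve ModularCurve IntermediateField WithZero Fermat.Agent.H97
  Fermat.Agent.H34.Two Fermat.Agent.H31.In

namespace Fermat.Agent.H31.EqI

/-- Functions with integral coefficients are fixed by Galois. -/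
theorem fix_of_int {L : Type*} [Field L] [Algebra ℚ L] {M : ℕ} {z : H99.FX L M}
    {z₀ : LaurentSeries ℤ}
    (h : (z : LaurentSeries L) = coeffMap (Int.castRingHom L) z₀) (σ : L ≃ₐ[ℚ] L) : σ • z = z := by
  apply Subtype.ext
  rw [In.coe_smul, h]
  ext n
  rw [coeffMap_coeff, coeffMap_coeff]
  exact map_intCast σ _

section Inst

variable {L : Type*} [Field L] [Algebra ℚ L] {A : ValuationSubring L} {k : Type*} [Field k]
  {π : A →+* k} {m q : ℕ} [NeZero m] [NeZero q] [hq : Fact q.Prime]
  [CharP k q] [IsAlgClosed k] [Infinite k] (w : H99.AL L m q)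
  (hπ : Function.Surjective π)
  (hdeg : H42.DegLE L k m) (hqm : ¬ q ∣ m)
  [IsAlgClosed L] [CharZero L] [IsLocalHom π]
  (ι : L →+* ℂ) {e : ℕ} (he : e = 4 ∨ e = 9) (hem : e ∣ m)
  (arch : Arch A)
  (r : Place L (H99.FX L m) → Place k (modularFunctionFieldFullC k m))
  {c : ℕ}
  (hr1 : ∀ D : Divisor L (H99.FX L m), (c : ℤ) < Divisor.degree D →
    (H42.modReductionData A π m hπ hdeg).IsRed D (Finsupp.mapDomain r D))
  (hr2 : H34.GR.DivCompat (H42.modReductionData A π m hπ hdeg) r)
  [H3RR.IsFF L (H99.FX L m)] [H3RR.IsFF L (H99.FX L (m * q))]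
  [H3RR.IsFF k (modularFunctionFieldFullC k m)] [H94.FunField L (H99.FX L m)]
  [H94.FunField L (H99.FX L (m * q))]
  {G : Subgroup (L ≃ₐ[ℚ] L)}

/-- **The data for the group `G` acting on `X_0(mq)`**, `4 ∣ m` or `9 ∣ m`. -/
def dataX (hG : TrivV π G) {P₀ : Place L (H99.FX L m)} (hP₀ : IsInf P₀)
    (htors : Eq.Equi.Tors (sheets w hπ hdeg hqm arch r hr1 hr2)) :
    MP.Data L (H99.FX L (m * q)) k (modularFunctionFieldFullC k m) A.ValueGroup
      {x : Place k (modularFunctionFieldFullC k m) //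
        (sheets w hπ hdeg hqm arch r hr1 hr2).Node x} G q :=
  data w hπ hdeg hqm arch r hr1 hr2 hG hP₀ (fun _ => H45.Nd.zF L q he hem)
    (fun _ σ _ => fix_of_int (H45.Nd.coe_zF he hem) (σ : L ≃ₐ[ℚ] L))
    (fun n => ⟨_, _, H45.Nd.nodePar w hπ hdeg hqm ι he hem arch r hr1 hr2 n.2⟩) htors

theorem dataX_M (hG : TrivV π G) {P₀ : Place L (H99.FX L m)} (hP₀ : IsInf P₀)
    (htors : Eq.Equi.Tors (sheets w hπ hdeg hqm arch r hr1 hr2)) :
    (dataX w hπ hdeg hqm ι he hem arch r hr1 hr2 hG hP₀ htors).M =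
      (sheets w hπ hdeg hqm arch r hr1 hr2).model := rfl

theorem dataX_pt (hG : TrivV π G) {P₀ : Place L (H99.FX L m)} (hP₀ : IsInf P₀)
    (htors : Eq.Equi.Tors (sheets w hπ hdeg hqm arch r hr1 hr2)) (i : Bool)
    (n : {x : Place k (modularFunctionFieldFullC k m) //
        (sheets w hπ hdeg hqm arch r hr1 hr2).Node x}) :
    (dataX w hπ hdeg hqm ι he hem arch r hr1 hr2 hG hP₀ htors).pt i n =
      (sheets w hπ hdeg hqm arch r hr1 hr2).pt i n.1 := rfl

theorem dataX_z (hG : TrivV π G) {P₀ : Place L (H99.FX L m)} (hP₀ : IsInf P₀)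
    (htors : Eq.Equi.Tors (sheets w hπ hdeg hqm arch r hr1 hr2))
    (n : {x : Place k (modularFunctionFieldFullC k m) //
        (sheets w hπ hdeg hqm arch r hr1 hr2).Node x}) :
    (dataX w hπ hdeg hqm ι he hem arch r hr1 hr2 hG hP₀ htors).z n = H45.Nd.zF L q he hem := rfl

end Inst

section Qbar

local notation "Qb" => AlgebraicClosure ℚ

variable {m q : ℕ} [NeZero m] [NeZero q] [hq : Fact q.Prime] {A : ValuationSubring Qb}

/-- The reduction of places at the good level. -/
theorem exists_r [IsAlgClosed (IsLocalRing.ResidueField A)] (hqm : ¬ q ∣ m)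
    (hA : A.LiesOverPrime q)
    (hdeg : H42.DegLE Qb (IsLocalRing.ResidueField A) m) :
    ∃ (r : Place Qb (H99.FX Qb m) →
        Place (IsLocalRing.ResidueField A)
          (modularFunctionFieldFullC (IsLocalRing.ResidueField A) m)) (c : ℕ),
      (∀ D : Divisor Qb (H99.FX Qb m), (c : ℤ) < Divisor.degree D →
        (H42.modReductionData A (IsLocalRing.residue A) m IsLocalRing.residue_surjective
          hdeg).IsRed D (Finsupp.mapDomain r D)) ∧
      H34.GR.DivCompat (H42.modReductionData A (IsLocalRing.residue A) m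
        IsLocalRing.residue_surjective hdeg) r ∧
      ∀ (P₀ : Place Qb (H99.FX Qb m))
        (P : Place (IsLocalRing.ResidueField A)
          (modularFunctionFieldFullC (IsLocalRing.ResidueField A) m)),
        IsInf P₀ → IsInf P → r P₀ = P := by
  have i1 : H3RR.IsFF Qb (H99.FX Qb m) := isFF_FF Qb m
  have i2 : HasPrincipalDivisors Qb (H97.FF Qb m) := H18.hasPrincipalDivisors _ _
  exact H97.exists_red (L := Qb) (A := A) (π := IsLocalRing.residue A)
    IsLocalRing.residue_surjective (H89Arch.arch hq.out hA) hdeg (H88.genusFFEq m hqm A hA)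

end Qbar

end Fermat.Agent.H31.EqI
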