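import Fermat.Agent.H29Wire3
import Fermat.Agent.H10_P2a
import Fermat.Agent.H31EqL

/-!
# The node formula for `X_0(mq)`, `4 ∣ m` or `9 ∣ m`
-/

set_option autoImplicit false
set_option linter.unusedSectionVars false
set_option linter.style.haveILetI false
set_option maxHeartbeats 2000000
set_option synthInstance.maxHeartbeats 200000

noncomputable section

open AlgebraicCurve ModularCurve IntermediateField HahnSeries Fermat.Agent.H67
open Fermat.Agent.H35.Geo Fermat.Agent.H34.Two Fermat.Agent.H97 Fermat.Agent.H31.In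
  Fermat.Agent.H31.EqI

namespace Fermat.Agent.H10.P2

local notation "Qb" => AlgebraicClosure ℚ

variable {m q : ℕ} [NeZero m] [NeZero q]

theorem AL_eq_atkin [NeZero (m * q)] (hq : q.Prime) (hqm : ¬ q ∣ m) (w : H99.AL Qb m q)
    (hc : m.Coprime q) (f : FB Qb (m * q)) :
    atkin (L := Qb) embQbar m q rfl hc f = w.W f := by
  have h1 : IsAL m q w.W := H34.Two.isAL w hq hqm
  have h2 := isAL_atkin (L := Qb) embQbar m q rfl hc
  have h : (atkin (L := Qb) embQbar m q rfl hc).toAlgHom = w.W.toAlgHom :=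
    FB_hom_ext fun d hd => Subtype.ext ((h2 d hd).trans (h1 d hd).symm)
  exact AlgHom.congr_fun h f

section Slope

variable [hq : Fact q.Prime] {A : ValuationSubring Qb} {k : Type} [Field k]
  {π : A →+* k} [CharP k q] [IsAlgClosed k] [Infinite k] (w : H99.AL Qb m q)
  (hπ : Function.Surjective π) (hdeg : H42.DegLE Qb k m) (hqm : ¬ q ∣ m) [IsLocalHom π]
  {e : ℕ} (he : e = 4 ∨ e = 9) (hem : e ∣ m) (arch : Arch A)
  (r : Place Qb (H99.FX Qb m) → Place k (modularFunctionFieldFullC k m))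
  {c : ℕ}
  (hr1 : ∀ D : Divisor Qb (H99.FX Qb m), (c : ℤ) < Divisor.degree D →
    (H42.modReductionData A π m hπ hdeg).IsRed D (Finsupp.mapDomain r D))
  (hr2 : H34.GR.DivCompat (H42.modReductionData A π m hπ hdeg) r)

include he hem arch hr1 hr2 in
/-- **The node formula in terms of the valuations.** -/
theorem slope_v (hA : A.LiesOverPrime q) {d : ℕ} (hd : d ≠ 0) {u : H99.FX Qb (m * q)}
    (hu0 : u ≠ 0) (hu : ∀ σ ∈ A.inertiaSubgroupIn ℚ, σ • u = u)
    (hdiv : ∀ P : Place Qb (H99.FX Qb (m * q)), (d : ℤ) ∣ P.ord u)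
    (h1 : v1 A π w hπ (H42.degreeFact Qb) hdeg hqm u = 1) {n : ℤ}
    (h2 : v2 A π w hπ (H42.degreeFact Qb) hdeg hqm u = A.valuation (q : Qb) ^ n)
    (hdn : (d : ℤ) ∣ n) (x : Place k (modularFunctionFieldFullC k m)) :
    (d : ℤ) ∣ x.ord ((comp1 A π w hπ (H42.degreeFact Qb) hdeg hqm).red u) := by
  have i1 : H3RR.IsFF Qb (H99.FX Qb m) := isFF_FF Qb m
  have i2 : H3RR.IsFF Qb (H99.FX Qb (m * q)) := isFF_FF Qb (m * q)
  have i3 : H3RR.IsFF k (modularFunctionFieldFullC k m) := isFF_right (L := Qb) hdeg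
  have i4 : H94.FunField Qb (H99.FX Qb m) := H3RR.funField_of_isFF
  have i5 : H94.FunField Qb (H99.FX Qb (m * q)) := H3RR.funField_of_isFF
  obtain ⟨P₀, hP₀⟩ := exists_isInf (H99.FX Qb m) (jqModC_mem_bar Qb m)
  have F := inertiaFacts (q := q) hA
  exact dvd_ord (dataX w hπ hdeg hqm embQbar he hem arch r hr1 hr2 (trivV hA hπ) hP₀
      (tors w hπ hdeg hqm arch r hr1 hr2 hA)) hd (H := ⊤) (u := u)
    (fun σ _ => hu σ σ.2) hu0 hdiv h1
    (fun c hc0 hcf => F.val c hc0 (fun σ hσ => hcf ⟨σ, hσ⟩ trivial))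
    (Nat.cast_ne_zero.mpr hq.out.ne_zero) (H33.valuation_p_lt_one hA) h2 hdn x

end Slope

/-- **The node formula at level `m`**, `4 ∣ m` or `9 ∣ m`. -/
theorem nodeInput_aux [NeZero (m * q)] (hq : q.Prime) {e : ℕ} (he : e = 4 ∨ e = 9) (hem : e ∣ m)
    (hqm : ¬ q ∣ m) {A : ValuationSubring Qb} (hA : A.LiesOverPrime q) {d : ℕ} (hd : d ≠ 0) :
    NodeInput d 1 q m A (IsLocalRing.residue A) := by
  haveI hqf : Fact q.Prime := ⟨hq⟩
  haveI hk1 : IsAlgClosed (IsLocalRing.ResidueField A) := H18.isAlgClosed_residueField A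
  haveI hk2 : CharP (IsLocalRing.ResidueField A) q :=
    H1.charP_of_liesOver A hA (IsLocalRing.residue A)
  haveI hk3 : Infinite (IsLocalRing.ResidueField A) := IsAlgClosed.instInfinite
  have hm : (m : IsLocalRing.ResidueField A) ≠ 0 := by
    rw [Ne, CharP.cast_eq_zero_iff (IsLocalRing.ResidueField A) q]
    exact hqm
  have hdeg : H42.DegLE Qb (IsLocalRing.ResidueField A) m := H42.degLE_of Qb _ m hm
  have hco : m.Coprime q := ((Nat.Prime.coprime_iff_not_dvd hq).2 hqm).symm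
  obtain ⟨w⟩ := H99.nonempty_AL (L := Qb) embQbar hco
  obtain ⟨r, c, hr1, hr2, -⟩ := exists_r hqm hA hdeg
  have arch : Arch A := H89Arch.arch hq hA
  refine H29.Wire.nodeInput_of_slope w IsLocalRing.residue_surjective (H42.degreeFact Qb) hdeg hqm
    fun hc u hu h1 n h2 hdn x => ?_
  refine slope_v w IsLocalRing.residue_surjective hdeg hqm he hem arch r hr1 hr2 hA hd hu.ne
    (fun σ hσ => hu.fix σ hσ) hu.div h1 (n := n) ?_ hdn x
  rw [v2_eq, ← AL_eq_atkin hq hqm w hc]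
  exact h2

end Fermat.Agent.H10.P2
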