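import Fermat.Agent.H46MzOdd
import Fermat.Agent.H10_P2d

/-!
# Mazur's principle at `2`: final form (helper13; all pieces by helper31, 45, 61, 97, 10, 29, 35,
46, 62, 89, 13)
-/

set_option autoImplicit false
set_option synthInstance.maxHeartbeats 400000

namespace Fermat.Agent.H13.Mz

/-- The node formula at auxiliary levels. -/
theorem nodeAux : H46.Mz.NodeAux := by
  intro d q m c _ _ _ hd hq hqm hc hcm A hA
  exact H10.P2.nodeInput_aux hq hc hcm hqm hA hd

/-- **Mazur's principle at `2`.** -/
theorem mazurTwo : H35.MazurTwo := H46.Mz.mazurTwo_of_aux nodeAux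

end Fermat.Agent.H13.Mz
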