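import Mathlib
import Fermat.Agent.H88Norm
import Fermat.Agent.H66Degree
import Fermat.Agent.H42RedInputs
import Fermat.Agent.H45P1Index

/-!
# Ramification of `X₀(m) → X₀(M)` in characteristic prime to `m`
-/

set_option autoImplicit false
set_option linter.unusedSectionVars false
set_option linter.style.haveILetI false

noncomputable section

open AlgebraicCurve ModularCurve IntermediateField HahnSeries

namespace Fermat.Agent.H29.Wire

/-- The places above a place, with their ramification indices. -/
theorem exists_places_above_aux {K F F' : Type*} [Field K] [Field F] [Field F'] [Algebra K F]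
    [Algebra K F'] [Algebra F F'] [IsScalarTower K F F'] [Module.Finite F F'] [H3RR.IsFF K F']
    [H3RR.IsFF K F] [IsAlgClosed K] (P : Place K F) :
    ∃ (S : Finset (Place K F')) (e : Place K F' → ℕ),
      (∀ P' ∈ S, 0 < e P' ∧ ∀ f : F, P'.ord (algebraMap F F' f) = e P' * P.ord f) ∧
      ∑ P' ∈ S, e P' = Module.finrank F F' := by
  refine ⟨P.fiber F', fun P' => P'.ramificationIndex F, fun P' hP' => ⟨?_, fun f => ?_⟩, ?_⟩
  · exact P'.ramificationIndex_pos (F := F)
  · have h1 := P'.ord_restrict (F := F) f
    rw [Place.mem_fiber.mp hP'] at h1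
    exact h1
  · exact H88.sum_ramificationIndex P _ (fun w => Place.mem_fiber)

variable {k : Type*} [Field k] [IsAlgClosed k]

theorem isFF_full (N : ℕ) (hN : (N : k) ≠ 0) :
    H3RR.IsFF k (modularFunctionFieldFullC k N) := by
  have h := H66.relfinrank_full_of_hasRoots (H66.hasRoots_of_isAlgClosed k) N hN
  exact ⟨(H42.funField_full (by rw [h.1]; exact h.2)).out⟩

/-- The places above a place of `X₀(M)`, with their ramification indices. -/
theorem exists_places_above {M m : ℕ} (hdvd : M ∣ m) (hk : (m : k) ≠ 0)
    (P : Place k (modularFunctionFieldFullC k M)) :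
    ∃ (S : Finset (Place k (modularFunctionFieldFullC k m)))
      (e : Place k (modularFunctionFieldFullC k m) → ℕ),
      (∀ P' ∈ S, 0 < e P' ∧ ∀ (f : modularFunctionFieldFullC k M)
        (f' : modularFunctionFieldFullC k m), (f' : LaurentSeries k) = f →
          P'.ord f' = e P' * P.ord f) ∧
      (∑ P' ∈ S, e P') * dedekindPsi M = dedekindPsi m := by
  have hm0 : m ≠ 0 := by rintro rfl; exact hk Nat.cast_zero
  have hM0 : M ≠ 0 := by rintro rfl; exact hm0 (Nat.eq_zero_of_zero_dvd hdvd)
  have hMk : (M : k) ≠ 0 := by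
    intro h
    obtain ⟨t, rfl⟩ := hdvd
    rw [Nat.cast_mul, h, zero_mul] at hk
    exact hk rfl
  have hle : modularFunctionFieldFullC k M ≤ modularFunctionFieldFullC k m :=
    H66.full_mono k hM0 hm0 hdvd
  have i1 : H3RR.IsFF k (modularFunctionFieldFullC k M) := isFF_full M hMk
  have i2 : H3RR.IsFF k (modularFunctionFieldFullC k m) := isFF_full m hk
  have hrM := H66.relfinrank_full_of_hasRoots (H66.hasRoots_of_isAlgClosed k) M hMk
  have hrm := H66.relfinrank_full_of_hasRoots (H66.hasRoots_of_isAlgClosed k) m hk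
  have hjM : k⟮jqModC k⟯ ≤ modularFunctionFieldFullC k M := by
    rw [adjoin_simple_le_iff]; exact jqModC_mem_full k M
  have hrel : relfinrank k⟮jqModC k⟯ (modularFunctionFieldFullC k M) *
      relfinrank (modularFunctionFieldFullC k M) (modularFunctionFieldFullC k m) =
      relfinrank k⟮jqModC k⟯ (modularFunctionFieldFullC k m) :=
    relfinrank_mul_relfinrank hjM hle
  let φ : modularFunctionFieldFullC k M →ₐ[k] modularFunctionFieldFullC k m := inclusion hle
  letI := φ.toRingHom.toAlgebra
  haveI : IsScalarTower k (modularFunctionFieldFullC k M) (modularFunctionFieldFullC k m) :=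
    IsScalarTower.of_algebraMap_eq fun c => (φ.commutes c).symm
  have hfr : Module.finrank (modularFunctionFieldFullC k M) (modularFunctionFieldFullC k m) *
      dedekindPsi M = dedekindPsi m := by
    have h1 : relfinrank (modularFunctionFieldFullC k M) (modularFunctionFieldFullC k m) =
        Module.finrank (modularFunctionFieldFullC k M) (modularFunctionFieldFullC k m) := by
      rw [relfinrank_eq_finrank_of_le hle]
      rfl
    rw [← h1, mul_comm, ← hrM.1, hrel, hrm.1]
  have hpos : 0 < Module.finrank (modularFunctionFieldFullC k M)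
      (modularFunctionFieldFullC k m) := by
    rcases Nat.eq_zero_or_pos (Module.finrank (modularFunctionFieldFullC k M)
      (modularFunctionFieldFullC k m)) with h | h
    · rw [h, zero_mul] at hfr
      exact absurd hfr.symm hrm.2
    · exact h
  haveI : Module.Finite (modularFunctionFieldFullC k M) (modularFunctionFieldFullC k m) :=
    Module.finite_of_finrank_pos hpos
  obtain ⟨S, e, hS, hsum⟩ := exists_places_above_aux (F' := modularFunctionFieldFullC k m) P
  refine ⟨S, e, fun P' hP' => ⟨(hS P' hP').1, fun f f' hf => ?_⟩, ?_⟩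
  · have h2 : f' = algebraMap (modularFunctionFieldFullC k M) (modularFunctionFieldFullC k m) f :=
      Subtype.ext hf
    rw [h2]
    exact (hS P' hP').2 f
  · rw [hsum]
    exact hfr

/-- For `2 ∣ M`, `X₀(2M) → X₀(M)` has ramification indices `1` or `2`. -/
theorem exists_place_above_two {M m : ℕ} (hm : m = 2 * M) (h2 : 2 ∣ M) (hk : (m : k) ≠ 0)
    (P : Place k (modularFunctionFieldFullC k M)) :
    ∃ (P' : Place k (modularFunctionFieldFullC k m)) (e : ℕ), (e = 1 ∨ e = 2) ∧
      ∀ (f : modularFunctionFieldFullC k M) (f' : modularFunctionFieldFullC k m),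
        (f' : LaurentSeries k) = f → P'.ord f' = e * P.ord f := by
  have hm0 : m ≠ 0 := by rintro rfl; exact hk Nat.cast_zero
  have hM0 : M ≠ 0 := by rintro rfl; exact hm0 (by rw [hm])
  obtain ⟨S, e, hS, hsum⟩ := exists_places_above (k := k) (M := M) (m := m)
    (by rw [hm]; exact dvd_mul_left _ _) hk P
  have hpsi : dedekindPsi m = 2 * dedekindPsi M := by
    rw [hm, H45.dedekindPsi_mul_of_dvd Nat.prime_two hM0 h2]
  have hM1 : dedekindPsi M ≠ 0 := by
    intro h
    have := (H66.relfinrank_full_of_hasRoots (H66.hasRoots_of_isAlgClosed k) m hk).2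
    rw [hpsi, h, mul_zero] at this
    exact this rfl
  have hsum2 : ∑ P' ∈ S, e P' = 2 :=
    Nat.eq_of_mul_eq_mul_right (Nat.pos_of_ne_zero hM1) (by rw [hsum, hpsi])
  have hne : S.Nonempty := by
    rw [Finset.nonempty_iff_ne_empty]
    rintro rfl
    simp at hsum2
  obtain ⟨P', hP'⟩ := hne
  obtain ⟨hpos, hord⟩ := hS P' hP'
  refine ⟨P', e P', ?_, hord⟩
  have hle : e P' ≤ ∑ P' ∈ S, e P' := Finset.single_le_sum (fun _ _ => Nat.zero_le _) hP'
  omega

end Fermat.Agent.H29.Wire

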