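import Fermat.Agent.H29Wire1
import Fermat.Agent.H29Wire2

/-!
# The node formula at level `M`, `2 ∣ M`, from level `2 M`
-/

set_option autoImplicit false
set_option linter.unusedSectionVars false
set_option linter.style.haveILetI false

noncomputable section

open AlgebraicCurve ModularCurve IntermediateField HahnSeries Fermat.Agent.H67
open Fermat.Agent.H35.Geo

namespace Fermat.Agent.H29.Wire

local notation "Qb" => AlgebraicClosure ℚ

/-- `NodeInput d 1` at level `2 M` implies `NodeInput d 2` at level `M` if `2 ∣ M`. -/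
theorem nodeInput_two_of {d q M m : ℕ} [NeZero M] [NeZero m] [NeZero (M * q)] [NeZero (m * q)]
    (hm : m = 2 * M) (h2 : 2 ∣ M) (hmq : m.Coprime q) {A : ValuationSubring Qb} {k : Type}
    [Field k] [IsAlgClosed k] (hk : (m : k) ≠ 0) {π : A →+* k} (h : NodeInput d 1 q m A π) :
    NodeInput d 2 q M A π := by
  refine nodeInput_descend (M := M) (m := m) 1 (by rw [hm, mul_one]; exact dvd_mul_left _ _)
    hmq h fun P => ?_
  obtain ⟨P', e, he, hord⟩ := exists_place_above_two hm h2 hk P
  refine ⟨P', e, ?_, fun f f' hf => hord f f' (by rw [hf, qExpand_one_apply])⟩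
  rw [one_mul]
  refine (Nat.gcd_dvd_left e d).trans ?_
  rcases he with rfl | rfl
  · exact one_dvd 2
  · exact dvd_rfl

end Fermat.Agent.H29.Wire

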