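import Fermat.Agent.H88Norm
import Fermat.Agent.H66Degree
import Fermat.Agent.H45P1Index

/-!
# Places above a place, with small ramification index

`exists_above_full`: for `M ∣ M'` and `k` algebraically closed with `M' ≠ 0` in `k`, every place `s`
of `modularFunctionFieldFullC k M` has a place `s'` of `modularFunctionFieldFullC k M'` above it, whose
ramification index is `≤ ψ(M') / ψ(M)`.
-/

set_option autoImplicit false
set_option linter.unusedSectionVars false
set_option linter.style.haveILetI false

open AlgebraicCurve IntermediateField ModularCurve Fermat.Agent.H3RR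

namespace Fermat.Agent.H46.P2

section Abs

variable {K F F' : Type*} [Field K] [Field F] [Field F'] [Algebra K F] [Algebra K F']
  [Algebra F F'] [IsScalarTower K F F'] [Module.Finite F F'] [IsFF K F] [IsFF K F']
  [IsAlgClosed K]

theorem exists_fiber (v : Place K F) : ∃ S : Finset (Place K F'), S.Nonempty ∧
    (∀ w, w ∈ S ↔ w.restrict F = v) ∧ ∑ w ∈ S, w.ramificationIndex F = Module.finrank F F' := by
  have hfin : {w : Place K F' | w.restrict F = v}.Finite := Place.restrict_fiber_finite v
  refine ⟨hfin.toFinset, ?_, fun w => by simp, Fermat.Agent.H88.sum_ramificationIndex v _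
    fun w => by simp⟩
  obtain ⟨w, hw⟩ := Fermat.Agent.H88.exists_restrict_eq (F' := F') v
  exact ⟨w, by simpa using hw⟩

/-- some place above `v`, with ramification index at most the degree -/
theorem exists_above (v : Place K F) : ∃ w : Place K F', w.restrict F = v ∧
    0 < w.ramificationIndex F ∧ w.ramificationIndex F ≤ Module.finrank F F' ∧
    ∀ f : F, w.ord (algebraMap F F' f) = w.ramificationIndex F * v.ord f := by
  obtain ⟨S, ⟨w, hw⟩, hS, hsum⟩ := exists_fiber (F' := F') v
  have hwv := (hS w).1 hw
  refine ⟨w, hwv, w.ramificationIndex_pos (F := F), ?_, fun f => by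
    rw [w.ord_restrict (F := F), hwv]⟩
  rw [← hsum]
  exact Finset.single_le_sum (f := fun w : Place K F' => w.ramificationIndex F)
    (fun _ _ => Nat.zero_le _) hw

/-- a place above `v` with ramification index prime to `p`, if `p` does not divide the degree -/
theorem exists_above_of_not_dvd {p : ℕ} (hp : ¬ p ∣ Module.finrank F F') (v : Place K F) :
    ∃ w : Place K F', w.restrict F = v ∧ 0 < w.ramificationIndex F ∧
      ¬ p ∣ w.ramificationIndex F ∧
      ∀ f : F, w.ord (algebraMap F F' f) = w.ramificationIndex F * v.ord f := by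
  obtain ⟨S, -, hS, hsum⟩ := exists_fiber (F' := F') v
  obtain ⟨w, hw, hpw⟩ : ∃ w ∈ S, ¬ p ∣ w.ramificationIndex F := by
    by_contra hcon
    push Not at hcon
    exact hp (hsum ▸ Finset.dvd_sum hcon)
  have hwv := (hS w).1 hw
  exact ⟨w, hwv, w.ramificationIndex_pos (F := F), hpw, fun f => by
    rw [w.ord_restrict (F := F), hwv]⟩

end Abs

section Full

theorem psi_pos (N : ℕ) [NeZero N] : 0 < dedekindPsi N := by
  unfold dedekindPsi
  refine Finset.sum_pos (fun d hd => ?_) ⟨1, ?_⟩
  · rw [Finset.mem_filter, Nat.mem_divisors] at hd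
    exact Nat.div_pos (Nat.le_of_dvd (Nat.pos_of_ne_zero hd.1.2) hd.1.1)
      (Nat.pos_of_dvd_of_pos hd.1.1 (Nat.pos_of_ne_zero hd.1.2))
  · rw [Finset.mem_filter, Nat.mem_divisors]
    exact ⟨⟨one_dvd _, NeZero.ne N⟩, squarefree_one⟩

variable {k : Type*} [Field k] [IsAlgClosed k]

theorem relfinrank_full_full (M M' : ℕ) [NeZero M] [NeZero M'] (h : M ∣ M')
    (hk : ((M' : ℕ) : k) ≠ 0) :
    dedekindPsi M * relfinrank (modularFunctionFieldFullC k M) (modularFunctionFieldFullC k M') =
      dedekindPsi M' := by
  have hkM : ((M : ℕ) : k) ≠ 0 := by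
    intro h0
    obtain ⟨c, rfl⟩ := h
    apply hk
    rw [Nat.cast_mul, h0, zero_mul]
  have h1 := Fermat.Agent.H66.relfinrank_full k M hkM
  have h2 := Fermat.Agent.H66.relfinrank_full k M' hk
  have hj : k⟮jqModC k⟯ ≤ modularFunctionFieldFullC k M := by
    rw [adjoin_simple_le_iff]
    exact jqModC_mem_full k M
  have hle := Fermat.Agent.H66.full_mono k (NeZero.ne M) (NeZero.ne M') h
  have h3 := relfinrank_mul_relfinrank hj hle
  rw [h1, h2] at h3
  exact h3

/-- the inclusion of the function fields -/
noncomputable def incl (M M' : ℕ) [NeZero M] [NeZero M'] (h : M ∣ M') :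
    modularFunctionFieldFullC k M →ₐ[k] modularFunctionFieldFullC k M' :=
  IntermediateField.inclusion (Fermat.Agent.H66.full_mono k (NeZero.ne M) (NeZero.ne M') h)

@[simp] theorem coe_incl (M M' : ℕ) [NeZero M] [NeZero M'] (h : M ∣ M')
    (f : modularFunctionFieldFullC k M) :
    ((incl (k := k) M M' h f : modularFunctionFieldFullC k M') : LaurentSeries k) = f :=
  IntermediateField.coe_inclusion _ f

theorem finrank_incl (M M' : ℕ) [NeZero M] [NeZero M'] (h : M ∣ M')
    (hk : ((M' : ℕ) : k) ≠ 0) :
    letI : Algebra (modularFunctionFieldFullC k M) (modularFunctionFieldFullC k M') :=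
      (incl (k := k) M M' h).toRingHom.toAlgebra
    dedekindPsi M * Module.finrank (modularFunctionFieldFullC k M) (modularFunctionFieldFullC k M')
      = dedekindPsi M' := by
  letI : Algebra (modularFunctionFieldFullC k M) (modularFunctionFieldFullC k M') :=
      (incl (k := k) M M' h).toRingHom.toAlgebra
  have hle := Fermat.Agent.H66.full_mono k (NeZero.ne M) (NeZero.ne M') h
  have h1 := relfinrank_full_full (k := k) M M' h hk
  rw [relfinrank_eq_finrank_of_le hle] at h1
  have e : modularFunctionFieldFullC k M' ≃ₗ[modularFunctionFieldFullC k M]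
      extendScalars hle :=
    { toFun := fun x => ⟨x.1, x.2⟩
      invFun := fun x => ⟨x.1, x.2⟩
      left_inv := fun x => rfl
      right_inv := fun x => rfl
      map_add' := fun x y => rfl
      map_smul' := fun c x => rfl }
  rw [e.finrank_eq]
  exact h1

/-- **A place above `s`, with ramification index at most the degree.** -/
theorem exists_above_full (M M' : ℕ) [NeZero M] [NeZero M'] (h : M ∣ M')
    (hk : ((M' : ℕ) : k) ≠ 0) [IsFF k (modularFunctionFieldFullC k M)]
    [IsFF k (modularFunctionFieldFullC k M')] (s : Place k (modularFunctionFieldFullC k M)) :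
    ∃ (s' : Place k (modularFunctionFieldFullC k M')) (e : ℕ), 0 < e ∧
      dedekindPsi M * e ≤ dedekindPsi M' ∧
      ∀ f : modularFunctionFieldFullC k M, s'.ord (incl (k := k) M M' h f) = e * s.ord f := by
  letI : Algebra (modularFunctionFieldFullC k M) (modularFunctionFieldFullC k M') :=
      (incl (k := k) M M' h).toRingHom.toAlgebra
  haveI : IsScalarTower k (modularFunctionFieldFullC k M) (modularFunctionFieldFullC k M') :=
    IsScalarTower.of_algebraMap_eq fun c => ((incl (k := k) M M' h).commutes c).symm
  have h1 := finrank_incl (k := k) M M' h hk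
  have hpos : 0 < Module.finrank (modularFunctionFieldFullC k M)
      (modularFunctionFieldFullC k M') := by
    rcases Nat.eq_zero_or_pos (Module.finrank (modularFunctionFieldFullC k M)
      (modularFunctionFieldFullC k M')) with h0 | h0
    · rw [h0, mul_zero] at h1
      exact absurd h1.symm (psi_pos M').ne'
    · exact h0
  haveI : Module.Finite (modularFunctionFieldFullC k M) (modularFunctionFieldFullC k M') :=
    Module.finite_of_finrank_pos hpos
  obtain ⟨w, -, hw0, hwle, hw⟩ := exists_above (F' := modularFunctionFieldFullC k M') s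
  exact ⟨w, _, hw0, by rw [← h1]; exact Nat.mul_le_mul_left _ hwle, hw⟩

/-- **A place above `s` with ramification index prime to `p`**, if `p` does not divide the
degree. -/
theorem exists_above_full_of_not_dvd (M M' : ℕ) [NeZero M] [NeZero M'] (h : M ∣ M')
    (hk : ((M' : ℕ) : k) ≠ 0) [IsFF k (modularFunctionFieldFullC k M)]
    [IsFF k (modularFunctionFieldFullC k M')] {p : ℕ}
    (hp : ∀ n, dedekindPsi M * n = dedekindPsi M' → ¬ p ∣ n)
    (s : Place k (modularFunctionFieldFullC k M)) :
    ∃ (s' : Place k (modularFunctionFieldFullC k M')) (e : ℕ), 0 < e ∧ ¬ p ∣ e ∧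
      ∀ f : modularFunctionFieldFullC k M, s'.ord (incl (k := k) M M' h f) = e * s.ord f := by
  letI : Algebra (modularFunctionFieldFullC k M) (modularFunctionFieldFullC k M') :=
      (incl (k := k) M M' h).toRingHom.toAlgebra
  haveI : IsScalarTower k (modularFunctionFieldFullC k M) (modularFunctionFieldFullC k M') :=
    IsScalarTower.of_algebraMap_eq fun c => ((incl (k := k) M M' h).commutes c).symm
  have h1 := finrank_incl (k := k) M M' h hk
  have hpos : 0 < Module.finrank (modularFunctionFieldFullC k M)
      (modularFunctionFieldFullC k M') := by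
    rcases Nat.eq_zero_or_pos (Module.finrank (modularFunctionFieldFullC k M)
      (modularFunctionFieldFullC k M')) with h0 | h0
    · rw [h0, mul_zero] at h1
      exact absurd h1.symm (psi_pos M').ne'
    · exact h0
  haveI : Module.Finite (modularFunctionFieldFullC k M) (modularFunctionFieldFullC k M') :=
    Module.finite_of_finrank_pos hpos
  obtain ⟨w, -, hw0, hwle, hw⟩ := exists_above_of_not_dvd
    (F' := modularFunctionFieldFullC k M') (hp _ h1) s
  exact ⟨w, _, hw0, hwle, hw⟩

/-- Case `M' = 2 M`, `M` even: ramification index `1` or `2`. -/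
theorem exists_above_two (M : ℕ) [NeZero M] [NeZero (2 * M)] (h2 : 2 ∣ M)
    (hk : ((2 * M : ℕ) : k) ≠ 0) [IsFF k (modularFunctionFieldFullC k M)]
    [IsFF k (modularFunctionFieldFullC k (2 * M))] (s : Place k (modularFunctionFieldFullC k M)) :
    ∃ (s' : Place k (modularFunctionFieldFullC k (2 * M))) (e : ℕ), e ∣ 2 ∧
      ∀ f : modularFunctionFieldFullC k M,
        s'.ord (incl (k := k) M (2 * M) (dvd_mul_left M 2) f) = e * s.ord f := by
  obtain ⟨s', e, he, hle, hs⟩ := exists_above_full (k := k) M (2 * M) (dvd_mul_left M 2) hk s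
  refine ⟨s', e, ?_, hs⟩
  rw [Fermat.Agent.H45.dedekindPsi_mul_of_dvd Nat.prime_two (NeZero.ne M) h2,
    mul_comm 2 (dedekindPsi M)] at hle
  have h3 := Nat.le_of_mul_le_mul_left hle (psi_pos M)
  interval_cases e
  · exact one_dvd _
  · exact dvd_rfl

end Full

end Fermat.Agent.H46.P2
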