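import Fermat.Agent.H46Mz
import Fermat.Agent.H29Wire4
import Fermat.Agent.H46P2
import Fermat.Agent.H2Mz

/-!
# Mazur's principle: descent from the auxiliary levels `4 M`, `9 M`

`NodeAux`: the node formula without loss at levels divisible by `4` or `9`. It implies the node formula
with loss `2` at levels divisible by `2` and the node formula without loss modulo primes `p ≥ 5` at
every level.
-/

set_option autoImplicit false
set_option synthInstance.maxHeartbeats 400000
set_option linter.unusedSectionVars false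
set_option linter.style.haveILetI false

noncomputable section

open AlgebraicCurve ModularCurve Fermat.Agent.H67 Fermat.Agent.H35 Fermat.Agent.H35.Geo

namespace Fermat.Agent.H46.Mz

local notation "Qb" => AlgebraicClosure ℚ

/-- The node formula without loss at levels divisible by `4` or `9`. -/
def NodeAux : Prop :=
  ∀ (d q m c : ℕ) [NeZero m] [NeZero q] [NeZero (m * q)], d ≠ 0 → q.Prime → ¬ q ∣ m →
    (c = 4 ∨ c = 9) → c ∣ m → ∀ A : ValuationSubring Qb, A.LiesOverPrime q →
      NodeInput d 1 q m A (IsLocalRing.residue A)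

theorem psi_four {M n : ℕ} [NeZero M] (h : dedekindPsi M * n = dedekindPsi (4 * M)) :
    n = 4 ∨ n = 6 := by
  have hM := NeZero.ne M
  have hpos := P2.psi_pos M
  have e : 4 * M = 2 * (2 * M) := by ring
  rw [e, H45.dedekindPsi_mul_of_dvd Nat.prime_two (mul_ne_zero two_ne_zero hM)
    (dvd_mul_right 2 M)] at h
  by_cases h2 : 2 ∣ M
  · rw [H45.dedekindPsi_mul_of_dvd Nat.prime_two hM h2] at h
    left
    exact Nat.eq_of_mul_eq_mul_left hpos (h.trans (by ring))
  · rw [H45.dedekindPsi_mul_of_not_dvd Nat.prime_two hM h2] at h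
    right
    exact Nat.eq_of_mul_eq_mul_left hpos (h.trans (by ring))

theorem psi_nine {M n : ℕ} [NeZero M] (h : dedekindPsi M * n = dedekindPsi (9 * M)) :
    n = 9 ∨ n = 12 := by
  have hM := NeZero.ne M
  have hpos := P2.psi_pos M
  have e : 9 * M = 3 * (3 * M) := by ring
  rw [e, H45.dedekindPsi_mul_of_dvd Nat.prime_three (mul_ne_zero three_ne_zero hM)
    (dvd_mul_right 3 M)] at h
  by_cases h2 : 3 ∣ M
  · rw [H45.dedekindPsi_mul_of_dvd Nat.prime_three hM h2] at h
    left
    exact Nat.eq_of_mul_eq_mul_left hpos (h.trans (by ring))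
  · rw [H45.dedekindPsi_mul_of_not_dvd Nat.prime_three hM h2] at h
    right
    exact Nat.eq_of_mul_eq_mul_left hpos (h.trans (by ring))

theorem not_dvd_psi {M n p c : ℕ} [NeZero M] (hc : c = 4 ∨ c = 9) (hp : p.Prime) (hp5 : 5 ≤ p)
    (h : dedekindPsi M * n = dedekindPsi (c * M)) : ¬ p ∣ n := by
  intro hpn
  have h23 : ∀ a : ℕ, a ∣ 2 ^ 2 * 3 ^ 2 → p ∣ a → False := by
    intro a ha hpa
    rcases (Nat.Prime.dvd_mul hp).mp (hpa.trans ha) with h1 | h1
    · have := (Nat.prime_dvd_prime_iff_eq hp Nat.prime_two).mp (hp.dvd_of_dvd_pow h1)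
      omega
    · have := (Nat.prime_dvd_prime_iff_eq hp Nat.prime_three).mp (hp.dvd_of_dvd_pow h1)
      omega
  rcases hc with rfl | rfl
  · rcases psi_four h with rfl | rfl
    · exact h23 4 (by norm_num) hpn
    · exact h23 6 (by norm_num) hpn
  · rcases psi_nine h with rfl | rfl
    · exact h23 9 (by norm_num) hpn
    · exact h23 12 (by norm_num) hpn

section

variable {q M : ℕ} [NeZero M] [NeZero q] [NeZero (M * q)]

/-- **The node formula without loss modulo `p ≥ 5`.** -/
theorem nodeInput_ge5 (hN : NodeAux) {p : ℕ} (hp : p.Prime) (hp5 : 5 ≤ p) (hq : q.Prime)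
    (hqM : ¬ q ∣ M) {A : ValuationSubring Qb} (hA : A.LiesOverPrime q) :
    NodeInput p 1 q M A (IsLocalRing.residue A) := by
  obtain ⟨c, hc, hqc⟩ : ∃ c : ℕ, (c = 4 ∨ c = 9) ∧ ¬ q ∣ c := by
    by_cases h2 : q = 2
    · refine ⟨9, Or.inr rfl, ?_⟩
      rw [h2]
      norm_num
    · refine ⟨4, Or.inl rfl, fun h => h2 ?_⟩
      exact (Nat.prime_dvd_prime_iff_eq hq Nat.prime_two).mp
        (hq.dvd_of_dvd_pow (show q ∣ 2 ^ 2 by norm_num; exact h))
  have hc0 : c ≠ 0 := by rcases hc with rfl | rfl <;> norm_num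
  haveI : NeZero (c * M) := ⟨mul_ne_zero hc0 (NeZero.ne M)⟩
  haveI : NeZero (c * M * q) := ⟨mul_ne_zero (mul_ne_zero hc0 (NeZero.ne M)) hq.ne_zero⟩
  have hqcM : ¬ q ∣ c * M := fun h => (hq.dvd_mul.mp h).elim hqc hqM
  haveI : Fact q.Prime := ⟨hq⟩
  haveI : CharP (IsLocalRing.ResidueField A) q := H05.charP_residueField hq hA
  haveI : IsAlgClosed (IsLocalRing.ResidueField A) := H18.isAlgClosed_residueField A
  have hk : ((c * M : ℕ) : IsLocalRing.ResidueField A) ≠ 0 := by
    rw [Ne, CharP.cast_eq_zero_iff (IsLocalRing.ResidueField A) q]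
    exact hqcM
  haveI := H42.funField_res hq hA hqM
  haveI := H42.funField_res hq hA hqcM
  haveI : H3RR.IsFF (IsLocalRing.ResidueField A)
      (modularFunctionFieldFullC (IsLocalRing.ResidueField A) M) := inferInstance
  refine H29.Wire.nodeInput_descend (M := M) (m := c * M) 1
    (by rw [mul_one]; exact dvd_mul_left _ _)
    ((Nat.Prime.coprime_iff_not_dvd hq).mpr hqcM).symm
    (hN p q (c * M) c hp.ne_zero hq hqcM hc (dvd_mul_right _ _) A hA) fun P => ?_
  obtain ⟨P', e, -, hpe, hord⟩ := P2.exists_above_full_of_not_dvd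
    (k := IsLocalRing.ResidueField A) M (c * M) (dvd_mul_left _ _) hk (p := p)
    (fun n hn => not_dvd_psi hc hp hp5 hn) P
  refine ⟨P', e, ?_, fun f f' hf => ?_⟩
  · rw [one_mul, Nat.dvd_one, ← Nat.coprime_iff_gcd_eq_one, Nat.coprime_comm]
    exact (Nat.Prime.coprime_iff_not_dvd hp).mpr hpe
  · rw [← hord f]
    congr 1
    apply Subtype.ext
    rw [hf, P2.coe_incl, qExpand_one_apply]

/-- **The node formula with loss `2` at even levels.** -/
theorem nodeInput_two (hN : NodeAux) {d : ℕ} (hd : d ≠ 0) (hq : q.Prime) (hq2 : q ≠ 2)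
    (h2M : 2 ∣ M) (hqM : ¬ q ∣ M) {A : ValuationSubring Qb} (hA : A.LiesOverPrime q) :
    NodeInput d 2 q M A (IsLocalRing.residue A) := by
  haveI : NeZero (2 * M) := ⟨mul_ne_zero two_ne_zero (NeZero.ne M)⟩
  haveI : NeZero (2 * M * q) := ⟨mul_ne_zero (mul_ne_zero two_ne_zero (NeZero.ne M)) hq.ne_zero⟩
  have hq2M : ¬ q ∣ 2 * M := fun h => (hq.dvd_mul.mp h).elim
    (fun h => hq2 ((Nat.prime_dvd_prime_iff_eq hq Nat.prime_two).mp h)) hqM
  haveI : Fact q.Prime := ⟨hq⟩
  haveI : CharP (IsLocalRing.ResidueField A) q := H05.charP_residueField hq hA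
  haveI : IsAlgClosed (IsLocalRing.ResidueField A) := H18.isAlgClosed_residueField A
  have hk : ((2 * M : ℕ) : IsLocalRing.ResidueField A) ≠ 0 := by
    rw [Ne, CharP.cast_eq_zero_iff (IsLocalRing.ResidueField A) q]
    exact hq2M
  have h4 : 4 ∣ 2 * M := by
    obtain ⟨t, rfl⟩ := h2M
    exact ⟨t, by ring⟩
  exact H29.Wire.nodeInput_two_of rfl h2M ((Nat.Prime.coprime_iff_not_dvd hq).mpr hq2M).symm hk
    (hN d q (2 * M) 4 hd hq hq2M (Or.inl rfl) h4 A hA)

end

/-- **`MazurTwo` from the node formula at the auxiliary levels.** -/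
theorem mazurTwo_of_aux (hN : NodeAux) : MazurTwo :=
  mazurTwo_of_node fun _ _ _ _ _ _ hq hq2 h2M hqM _ hA =>
    nodeInput_two hN (mul_ne_zero two_ne_zero (pow_ne_zero _ two_ne_zero)) hq hq2 h2M hqM hA

theorem mazurInput_of_node {p q M : ℕ} [NeZero M] [NeZero q] [NeZero (M * q)] (hp : p.Prime)
    (hq : q.Prime) (hqp : q ≠ p) (hqM : ¬ q ∣ M)
    (H : ∀ A : ValuationSubring Qb, A.LiesOverPrime q →
      NodeInput p 1 q M A (IsLocalRing.residue A)) : MazurInput p 1 q M := by
  have hqp' : ¬ q ∣ p := fun h => hqp ((Nat.prime_dvd_prime_iff_eq hq hp).mp h)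
  exact mazurInput_of hq hqM (one_mul p).symm hqp' (fun A hA => nInput hq hA M hp.ne_zero)
    (fun A hA => valInput hq hA (M * q)) H (fun A hA => H13.Mz.liftInput hq hA M hqM hp.ne_zero)
    (fun A hA => H13.Mz.injInput hq hA M hqM hqp')

/-- **`MazurOdd` from the node formula at the auxiliary levels** and its descent for `p = 3`. -/
theorem mazurOdd_of_aux (hN : NodeAux)
    (h3 : ∀ (q M : ℕ) [NeZero M] [NeZero (M * q)] [NeZero q], q.Prime → q ≠ 3 → ¬ q ∣ M →
      (∃ s : ℕ, s.Prime ∧ s % 3 = 2 ∧ s ∣ M) → ∀ A : ValuationSubring Qb, A.LiesOverPrime q →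
        NodeInput 3 1 q M A (IsLocalRing.residue A)) : H2Mz.MazurOdd := by
  intro p q M _ _ _ hp hp2 hq hqp hqM hp3
  refine mazurInput_of_node hp hq hqp hqM fun A hA => ?_
  by_cases h : p = 3
  · subst h
    exact h3 q M hq hqp hqM (hp3 rfl) A hA
  · have hp5 : 5 ≤ p := by
      have h2 := hp.two_le
      by_contra hlt
      have h4 : p = 4 := by omega
      subst h4
      exact absurd hp (by norm_num)
    exact nodeInput_ge5 hN hp hp5 hq hqM hA

end Fermat.Agent.H46.Mz
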