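import Fermat.Agent.H8Node3
import Fermat.Agent.H46MzOdd
import Fermat.Agent.H13MzTwo

/-!
# Mazur's principle for odd `p`

`mazurOdd : H2Mz.MazurOdd`, unconditional.
-/

set_option autoImplicit false
set_option linter.unusedSectionVars false
set_option linter.style.haveILetI false
set_option maxHeartbeats 2000000
set_option synthInstance.maxHeartbeats 400000

noncomputable section

open AlgebraicCurve ModularCurve IntermediateField HahnSeries Fermat.Agent.H67
open Fermat.Agent.H35.Geo Fermat.Agent.H34.Two Fermat.Agent.H97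

namespace Fermat.Agent.H8

local notation "Qb" => AlgebraicClosure ℚ

/-- The node formula modulo `3` at level `M`, prime `s ≡ 2 mod 3` dividing `M`. -/
theorem nodeInput_three_of_aux (hN : H46.Mz.NodeAux) (q M : ℕ) [NeZero M] [NeZero (M * q)]
    [NeZero q] (hq : q.Prime) (hq3 : q ≠ 3) (hqM : ¬ q ∣ M)
    (hs : ∃ s : ℕ, s.Prime ∧ s % 3 = 2 ∧ s ∣ M) (A : ValuationSubring Qb)
    (hA : A.LiesOverPrime q) : NodeInput 3 1 q M A (IsLocalRing.residue A) := by
  by_cases h9 : 9 ∣ M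
  · exact hN 3 q M 9 three_ne_zero hq hqM (Or.inr rfl) h9 A hA
  haveI hqf : Fact q.Prime := ⟨hq⟩
  haveI hk1 : IsAlgClosed (IsLocalRing.ResidueField A) := H18.isAlgClosed_residueField A
  haveI hk2 : CharP (IsLocalRing.ResidueField A) q :=
    H1.charP_of_liesOver A hA (IsLocalRing.residue A)
  haveI hk3 : Infinite (IsLocalRing.ResidueField A) := IsAlgClosed.instInfinite
  obtain ⟨M', hM, h3⟩ : ∃ M' : ℕ, (M = M' ∨ M = 3 * M') ∧ ¬ 3 ∣ M' := by
    by_cases h : 3 ∣ M
    · obtain ⟨t, ht⟩ := h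
      refine ⟨t, Or.inr ht, fun h' => h9 ?_⟩
      obtain ⟨t', ht'⟩ := h'
      exact ⟨t', by rw [ht, ht']; ring⟩
    · exact ⟨M, Or.inl rfl, h⟩
  have hM'0 : M' ≠ 0 := by
    rintro rfl
    exact h3 (dvd_zero 3)
  haveI : NeZero (9 * M') := ⟨mul_ne_zero (by norm_num) hM'0⟩
  haveI : NeZero (9 * M' * q) := ⟨mul_ne_zero (mul_ne_zero (by norm_num) hM'0) hq.ne_zero⟩
  have hq3' : ¬ q ∣ 3 := fun h => hq3 ((Nat.prime_dvd_prime_iff_eq hq Nat.prime_three).mp h)
  have hqm : ¬ q ∣ 9 * M' := by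
    intro h
    rcases hq.dvd_mul.mp h with h | h
    · exact hq3' (hq.dvd_of_dvd_pow (show q ∣ 3 ^ 2 by norm_num; exact h))
    · rcases hM with hM | hM
      · exact hqM (hM ▸ h)
      · exact hqM (hM ▸ Dvd.dvd.mul_left h 3)
  have h3k : (3 : IsLocalRing.ResidueField A) ≠ 0 := by
    have : ((3 : ℕ) : IsLocalRing.ResidueField A) ≠ 0 := by
      rw [Ne, CharP.cast_eq_zero_iff (IsLocalRing.ResidueField A) q]
      exact hq3'
    exact_mod_cast this
  have hmk : ((9 * M' : ℕ) : IsLocalRing.ResidueField A) ≠ 0 := by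
    rw [Ne, CharP.cast_eq_zero_iff (IsLocalRing.ResidueField A) q]
    exact hqm
  have hMk : (M : IsLocalRing.ResidueField A) ≠ 0 := by
    rw [Ne, CharP.cast_eq_zero_iff (IsLocalRing.ResidueField A) q]
    exact hqM
  have hdeg : H42.DegLE Qb (IsLocalRing.ResidueField A) M := H42.degLE_of Qb _ M hMk
  have hco : M.Coprime q := ((Nat.Prime.coprime_iff_not_dvd hq).2 hqM).symm
  obtain ⟨w⟩ := H99.nonempty_AL (L := Qb) embQbar hco
  obtain ⟨r, c, hr1, hr2, -⟩ := H31.EqI.exists_r hqM hA hdeg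
  have arch : Arch A := H89Arch.arch hq hA
  obtain ⟨s, hs1, hs2, hs3⟩ := hs
  have hri : ReductionInputsModL A M :=
    H42.reductionInputsModL_of_genusEq hq hA hqM (H31.genusEqAt M hq hqM A hA)
  have hord3 : ∀ P : Place (IsLocalRing.ResidueField A)
      (modularFunctionFieldFullC (IsLocalRing.ResidueField A) M),
      0 ≤ P.ord (jC (IsLocalRing.ResidueField A) M) →
      (3 : ℤ) ∣ P.ord (jC (IsLocalRing.ResidueField A) M) := fun P hP =>
    three_dvd_ord_j hMk (nuThree_eq_zero hs1 hs2 hs3)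
      (isPlaceReductionModL_placeReductionModL hri) P hP
  have haux : NodeInput (3 ^ 1) 1 q (9 * M') A (IsLocalRing.residue A) := by
    rw [pow_one]
    exact hN 3 q (9 * M') 9 three_ne_zero hq hqm (Or.inr rfl) (dvd_mul_right _ _) A hA
  have h := nodeInput_three (m := 9 * M') (M' := M') (j := 1) w IsLocalRing.residue_surjective
    hdeg hqM arch r hr1 hr2 h3k hmk h3 hM rfl hord3 haux
  rwa [pow_one] at h

/-- **Mazur's principle for odd `p`.** -/
theorem mazurOdd : H2Mz.MazurOdd :=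
  H46.Mz.mazurOdd_of_aux H13.Mz.nodeAux (nodeInput_three_of_aux H13.Mz.nodeAux)

end Fermat.Agent.H8

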