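import Fermat.Statements.S34
import Fermat.Agent.H89Inst
import Fermat.Agent.H31Inputs
import Fermat.Agent.H35S34

set_option autoImplicit false
set_option autoImplicit false
open IsLocalRing
open CuspForm CuspForm.HeckeGaloisRepDatum

namespace Fermat.Agent.S34

theorem result
    {𝒪 : Type} [CommRing 𝒪] [IsDomain 𝒪] [IsDiscreteValuationRing 𝒪]
    [IsAdicComplete (maximalIdeal 𝒪) 𝒪] [Finite (ResidueField 𝒪)] [CharZero 𝒪]
    {p : ℕ} (hp : p.Prime) (hp𝒪 : (p : 𝒪) ∈ maximalIdeal 𝒪)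
    {N : ℕ} [NeZero N] {S : Finset ℕ} (hpS : p ∈ S) (hNS : ∀ q : ℕ, q.Prime → q ∣ N → q ∈ S)
    {θ : CuspForm.heckeAlgebra N 2 (↑S : Set ℕ) →+* ResidueField 𝒪}
    {T : Type} [CommRing T] [IsLocalRing T] [IsNoetherianRing T]
    [IsAdicComplete (maximalIdeal T) T] [Algebra 𝒪 T] [IsLocalHom (algebraMap 𝒪 T)]
    [Module.Finite 𝒪 T] [Module.Free 𝒪 T]
    (H : CuspForm.HeckeGaloisRepDatum N (↑S : Set ℕ) 𝒪 θ T)
    (q : ℕ) (hq : q.Prime) (hqp : q ≠ p) (hqN : q ∣ N) (hq2 : ¬ q ^ 2 ∣ N) :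
    H.ρ.IsUnipotentOnInertiaAt q := by
  haveI := (Fermat.Agent.H31.jzeroInputs N).principal
  obtain ⟨m, rfl⟩ : ∃ m, N = m * q := by
    obtain ⟨m, h⟩ := hqN
    exact ⟨m, by rw [h, mul_comm]⟩
  have hm0 : NeZero m := ⟨fun h => NeZero.ne (m * q) (by rw [h, zero_mul])⟩
  haveI : NeZero q := ⟨hq.ne_zero⟩
  have hqm : ¬ q ∣ m := by
    rintro ⟨k, rfl⟩
    exact hq2 ⟨k, by ring⟩
  exact Fermat.Agent.H35.S34_of_JZero hp hp𝒪 hpS hNS H q hq hqp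
    (fun n => (Fermat.Agent.H31.jzeroInputs (m * q)).finite p n hp)
    (Fermat.Agent.H31.jzeroInputs (m * q)).comm
    ((Fermat.Agent.H31.jzeroInputs (m * q)).spec p hp)
    ((Fermat.Agent.H31.jzeroInputs (m * q)).faithful p S hp hpS hNS)
    (Fermat.Agent.H89J.unipotentTorsion' hq hqm hp hqp.symm)

end Fermat.Agent.S34
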