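import Fermat.Agent.H59LL7
import Fermat.Agent.H59LocAt
import Fermat.Agent.H59Maz
import Fermat.Agent.H81L1
import Fermat.Agent.H8MazurOdd
import Fermat.Agent.H4GeomIn
import Fermat.Agent.H64StatementF
import Fermat.Agent.H75EC4
import Fermat.Agent.S29
import Fermat.Agent.S30
import Fermat.Agent.S32
import Fermat.Agent.S34

/-!
# S43 from S44
-/

set_option autoImplicit false
set_option linter.style.haveILetI false
set_option linter.unusedSectionVars false

noncomputable section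

open WeierstrassCurve WeierstrassCurve.Affine WeierstrassCurve.Affine.Point
open CuspForm ModularFormClass UpperHalfPlane
open FreyPackage
open Fermat.Agent.H87.Glue

namespace Fermat.Agent.H59

local notation "Qb" => AlgebraicClosure ℚ
local notation "Gq" => (AlgebraicClosure ℚ ≃ₐ[ℚ] AlgebraicClosure ℚ)

theorem frey_isUnramifiedAt (P : FreyPackage) [Fact P.p.Prime] {q : ℕ}
    (hunr : P.GaloisRepUnramifiedAt q) :
    (resZ P.freyCurveInt (H6.freyCurveInt_Δ_ne_zero P) P.p).IsUnramifiedAt q := by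
  intro A hA σ hσ
  have h1 : WeierstrassCurve.Affine.Point.GaloisRepUnramifiedAt (K := AlgebraicClosure ℚ) ℚ
      (P.freyCurveInt.map (Int.castRingHom ℚ)) P.p q := by
    rw [H6.freyCurveInt_map]
    exact hunr
  exact LinearMap.ext fun x => h1 A hA σ hσ x

/-- **S43 from S44.** -/
theorem s43_of
    (h44 : ∀ (P : FreyPackage) {N : ℕ} (_ : P.IsConductorLevel N) (_ : P.p ∣ N)
      (_ : GaloisRepIsIrreducible (K := AlgebraicClosure ℚ) ℚ P.freyCurve P.p)
      (_ : P.ModularRepOfLevel N), ∃ M : ℕ, M ∣ N ∧ ¬ P.p ∣ M ∧ P.ModularRepOfLevel M)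
    (P : FreyPackage) {N q : ℕ} (hcond : P.IsConductorLevel N) (hq : q.Prime) (hqp : q ≠ P.p)
    (hirr : GaloisRepIsIrreducible (K := AlgebraicClosure ℚ) ℚ P.freyCurve P.p)
    (hmod : P.ModularRepOfLevel N) (hunr : P.GaloisRepUnramifiedAt q) :
    ∃ M : ℕ, M ∣ N ∧ ¬ q ∣ M ∧ P.ModularRepOfLevel M := by
  haveI : Fact P.p.Prime := ⟨P.pp⟩
  have h5 : 5 ≤ P.p := P.hp5
  have hp2 : P.p ≠ 2 := by omega
  have h29 : H96.StatementS29 := Fermat.Agent.S29.result
  have h30 : H96.StatementS30 := H30.statementS30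
  have h32 : H30.StatementS32 := Fermat.Agent.S32.result
  have h34 : H30.StatementS34 := Fermat.Agent.S34.result
  have hirrW := H45.frey_modRepIsIrreducible P hirr
  have hTv := H45.frey_hasTv P hirr
  have hirrZ : (resZ P.freyCurveInt (H6.freyCurveInt_Δ_ne_zero P) P.p).IsIrreducible :=
    H45.isIrreducible_of_hasTv _ (H45.frey_two_ne_zero P) hTv
  have hmaz := mazurAt_of_odd (H6.freyCurveInt_Δ_ne_zero P) H8.mazurOdd hp2 (by omega) hirrW
  have hloc := localAt (H6.freyCurveInt_Δ_ne_zero P) (p := P.p)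
    (H6.freyCurveInt_isSemistableModel P) hp2 h30 h32 hirrZ
  have hLL := llAt (H6.freyCurveInt_Δ_ne_zero P) (p := P.p) h5 hTv (H75.gwIneq hp2)
    (fun k _ _ _ => H64.statementF hp2) h29 h32 h34 (H4.geomInputs P.pp)
  obtain ⟨N₁, hN₁N, hpN₁, hmod₁⟩ : ∃ N₁, N₁ ∣ N ∧ ¬ P.p ∣ N₁ ∧ P.ModularRepOfLevel N₁ := by
    by_cases h : P.p ∣ N
    · exact h44 P hcond h hirr hmod
    · exact ⟨N, dvd_rfl, h, hmod⟩
  have hN₁ : N₁ ≠ 0 := fun h => hcond.pos.ne' (by
    rw [h] at hN₁N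
    exact Nat.eq_zero_of_zero_dvd hN₁N)
  haveI : NeZero N₁ := ⟨hN₁⟩
  obtain ⟨M, h1, h2, h3⟩ := exists_level (H6.freyCurveInt_Δ_ne_zero P) hmaz hloc hLL
    (hcond.squarefree.squarefree_of_dvd hN₁N) hpN₁
    (H81.L1.isResiduallyModularOfLevel_freyCurveInt P h29 hmod₁) hq hqp
    (frey_isUnramifiedAt P hunr)
  exact ⟨M, h1.trans hN₁N, h2, H81.L1.modularRepOfLevel_of_freyCurveInt P h3⟩

end Fermat.Agent.H59
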