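import Fermat.Agent.H31MPNodeConst

/-!
# Mazur's principle at `p`: local generators from local parameters
-/

set_option autoImplicit false
set_option linter.unusedSectionVars false
set_option linter.style.haveILetI false

open AlgebraicCurve WithZero Fermat.Agent

namespace Fermat.Agent.H31.MP

/-- Two component model with group action and explicit local parameters. -/
structure PreData (K F k Fb Γ ν G : Type*) [Field K] [Field F] [Algebra K F] [Field k] [Field Fb]
    [Algebra k Fb] [LinearOrderedCommGroupWithZero Γ] [Group G] [MulSemiringAction G K]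
    [MulSemiringAction G F] (p : ℕ) where
  M : H97.Model K F k Fb Γ Bool ν
  pt : Bool → ν → Place k Fb
  mem_br : ∀ n x, x ∈ M.br n ↔ x = (false, pt false n) ∨ x = (true, pt true n)
  smul_alg : ∀ (σ : G) (c : K), σ • algebraMap K F c = algebraMap K F (σ • c)
  v_smul : ∀ i (σ : G) f, M.v i (σ • f) = M.v i f
  ρ_smul : ∀ i (σ : G) f, M.v i f ≤ 1 → M.ρ i (σ • f) = M.ρ i f
  place : ∀ (σ : G) P, ∃ P', M.sp P' = M.sp P ∧ ∀ f, P.ord (σ • f) = P'.ord f
  scale : ∀ (H : Subgroup G) i (f : F), Fix H f → f ≠ 0 →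
    ∃ c : K, c ≠ 0 ∧ Fix H c ∧ M.v i f = M.vK c
  res_lift : ∀ e : k, ∃ c : K, Fix (⊤ : Subgroup G) c ∧ M.vK c ≤ 1 ∧ M.res c = e
  z : ν → F
  z_fix : ∀ n, Fix (⊤ : Subgroup G) (z n)
  z_unit : ∀ n P, M.sp P = Sum.inr n → P.ord (z n) = 0
  z_false : ∀ n, M.v false (z n) = 1
  z_ord : ∀ n, (pt false n).ord (M.ρ false (z n)) = 1
  z_true : ∀ n, M.v true (z n) = M.vK p
  z_sub : ∀ n P, M.sp P = Sum.inr n → ∃ a : K, M.vK a < 1 ∧ M.vK p < M.vK a ∧
    0 < P.ord (z n - algebraMap K F a) ∧
    ∀ P', M.sp P' = Sum.inr n → P'.ord (z n - algebraMap K F a) =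
      (Finsupp.single P (1 : ℤ) : Divisor K F) P'
  t : Bool × Place k Fb → F
  t_fix : ∀ x, Fix (⊤ : Subgroup G) (t x)
  t_v : ∀ x, (∀ n, x ∉ M.br n) → M.v x.1 (t x) = 1
  t_reg : ∀ x, (∀ n, x ∉ M.br n) → ∀ P, M.sp P = Sum.inl x → P.adicValuation (t x) ≤ 1
  t_ord : ∀ x, (∀ n, x ∉ M.br n) → x.2.ord (M.ρ x.1 (t x)) = 1

namespace PreData

variable {K F k Fb Γ ν G : Type*} [Field K] [Field F] [Algebra K F] [Field k] [Field Fb]
    [Algebra k Fb] [LinearOrderedCommGroupWithZero Γ] [Group G] [MulSemiringAction G K]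
    [MulSemiringAction G F] {p : ℕ} (D : PreData K F k Fb Γ ν G p)

variable [IsAlgClosed K] [H3RR.IsFF K F] [IsAlgClosed k] [H3RR.IsFF k Fb]

/-- `t x` minus its value at `Q` generates `Q` on the class. -/
theorem t_sub {x : Bool × Place k Fb} (hx : ∀ n, x ∉ D.M.br n) {Q : Place K F}
    (hQ : D.M.sp Q = Sum.inl x) : ∃ a : K, D.M.vK a < 1 ∧
      0 < Q.ord (D.t x - algebraMap K F a) ∧
      ∀ P', D.M.sp P' = Sum.inl x → P'.ord (D.t x - algebraMap K F a) =
        (Finsupp.single Q (1 : ℤ) : Divisor K F) P' := by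
  classical
  set h := D.t x with hh
  have hv := D.t_v x hx
  have hreg := D.t_reg x hx
  have hord := D.t_ord x hx
  rw [← hh] at hv hreg hord
  set v := D.M.v x.1 with hvdef
  set ρ := D.M.ρ x.1 with hρdef
  have C : H97.Comp D.M.vK D.M.res v ρ := D.M.comp x.1
  have hh0 : h ≠ 0 := by rintro h0; rw [h0] at hv; simp at hv
  have hρh0 : ρ h ≠ 0 := C.ρ_ne_zero hv
  obtain ⟨a, ha⟩ := H3RR.exists_const_sub_lt_one Q (hreg Q hQ)
  have hρhlt : x.2.adicValuation (ρ h) < 1 := by
    rw [x.2.adicValuation_eq_exp_neg_ord hρh0, hord, ← exp_zero, exp_lt_exp]; norm_num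
  have ha1 : D.M.vK a < 1 := by
    by_contra hcon
    rw [not_lt] at hcon
    have ha0 : a ≠ 0 := by rintro rfl; simp at hcon
    have haF : algebraMap K F a ≠ 0 := (_root_.map_ne_zero _).mpr ha0
    set u := h / algebraMap K F a - 1 with hu
    have hva : v (algebraMap K F a) = D.M.vK a := C.v_alg a
    have h1 : v (h / algebraMap K F a) ≤ 1 := by
      rw [map_div₀, hv, hva, one_div]
      exact inv_le_one_of_one_le₀ hcon
    have hu1 : v u ≤ 1 := (Valuation.map_sub _ _ _).trans (max_le h1 (by simp))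
    have hρu : ρ u = ρ (h / algebraMap K F a) - 1 := by
      rw [hu, C.ρ_sub h1 (by simp), C.ρ_one]
    have hval : x.2.adicValuation (ρ (h / algebraMap K F a)) < 1 := by
      rcases hcon.lt_or_eq with hlt | heq
      · have : ρ (h / algebraMap K F a) = 0 := by
          rw [C.ρ_eq_zero _ h1, map_div₀, hv, hva, one_div]
          exact inv_lt_one_of_one_lt₀ hlt
        rw [this, map_zero]; exact zero_lt_one
      · have hva1 : v (algebraMap K F a) = 1 := by rw [hva, ← heq]
        rw [C.ρ_div hv.le hva1, C.ρ_alg a heq.symm.le, map_div₀]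
        have hres : D.M.res a ≠ 0 := by
          intro h0
          have := C.ρ_ne_zero hva1
          rw [C.ρ_alg a heq.symm.le, h0, map_zero] at this
          exact this rfl
        rw [H3RR.adicValuation_algebraMap _ hres, div_one]
        exact hρhlt
    have hρu1 : x.2.adicValuation (ρ u) = 1 := by
      rw [hρu, Valuation.map_sub_eq_of_lt_right _ (by simpa using hval), map_one]
    have hρu0 : ρ u ≠ 0 := by
      intro h0
      rw [h0, map_zero] at hρu1
      exact zero_ne_one hρu1
    have hvu : v u = 1 := C.v_eq_one hu1 hρu0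
    have hu0 : u ≠ 0 := by rintro h0; rw [h0] at hvu; simp at hvu
    have h2 := D.M.smooth_deg x hx u hu0 hvu (H3RR.divOf u) (H3RR.divOf_apply hu0)
    have h3 : x.2.ord (ρ u) = 0 := ord_eq_zero_of_adic hρu1
    rw [← hρdef, h3] at h2
    have huval : ∀ R, D.M.sp R = Sum.inl x → R.adicValuation u ≤ 1 := by
      intro R hR
      refine (Valuation.map_sub _ _ _).trans (max_le ?_ (by simp))
      rw [map_div₀, H3RR.adicValuation_algebraMap _ ha0, div_one]
      exact hreg R hR
    have h4 : ∀ R, D.M.sp R = Sum.inl x → 0 ≤ (H3RR.divOf u : Divisor K F) R := by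
      intro R hR
      rw [H3RR.divOf_apply hu0]
      exact ((R.adicValuation_le_one_iff).mp (huval R hR)).resolve_left hu0
    have h5 := H97.eq_zero_of_cls_eq_zero D.M.sp h4 h2 hQ
    rw [H3RR.divOf_apply hu0] at h5
    have h6 : Q.adicValuation u < 1 := by
      have : u = (h - algebraMap K F a) / algebraMap K F a := by
        rw [hu, sub_div, div_self haF]
      rw [this, map_div₀, H3RR.adicValuation_algebraMap _ ha0, div_one]
      exact ha
    have h7 := H3RR.ord_pos_of_lt_one hu0 h6
    omega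
  set h' := h - algebraMap K F a with hh'
  have hva : v (algebraMap K F a) < 1 := by rw [C.v_alg]; exact ha1
  have hvh' : v h' = 1 := by
    rw [hh', Valuation.map_sub_eq_of_lt_left _ (by rw [hv]; exact hva), hv]
  have hh'0 : h' ≠ 0 := by intro h0; rw [h0] at hvh'; simp at hvh'
  have hρa : ρ (algebraMap K F a) = 0 := (C.ρ_eq_zero _ hva.le).mpr hva
  have hρh' : ρ h' = ρ h := by rw [hh', C.ρ_sub hv.le hva.le, hρa, sub_zero]
  have hdivh' : H97.cls D.M.sp (H3RR.divOf h') (Sum.inl x) = 1 := by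
    rw [D.M.smooth_deg x hx h' hh'0 hvh' (H3RR.divOf h') (H3RR.divOf_apply hh'0), ← hρdef, hρh']
    exact hord
  have hreg' : ∀ R, D.M.sp R = Sum.inl x → R.adicValuation h' ≤ 1 := by
    intro R hR
    exact (Valuation.map_sub _ _ _).trans
      (max_le (hreg R hR) (R.adicValuation_algebraMap_le_one a))
  have hnonneg' : ∀ R, D.M.sp R = Sum.inl x → 0 ≤ (H3RR.divOf h' : Divisor K F) R := by
    intro R hR
    rw [H3RR.divOf_apply hh'0]
    exact ((R.adicValuation_le_one_iff).mp (hreg' R hR)).resolve_left hh'0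
  have hpos := H3RR.ord_pos_of_lt_one hh'0 ha
  refine ⟨a, ha1, hpos, ?_⟩
  obtain ⟨h1, h2⟩ := H97.eq_one_of_cls_eq_one D.M.sp hnonneg' hdivh' hQ
      (by rw [H3RR.divOf_apply hh'0]; exact hpos)
  intro R hR
  by_cases hRQ : R = Q
  · subst hRQ
    rw [Finsupp.single_eq_same, ← H3RR.divOf_apply hh'0, h1]
  · rw [Finsupp.single_apply, if_neg (Ne.symm hRQ), ← H3RR.divOf_apply hh'0, h2 R hR hRQ]

/-- Parameter of a class. -/
noncomputable def par (a : (Bool × Place k Fb) ⊕ ν) : F := Sum.elim D.t D.z a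

/-- The class is smooth or a node. -/
def IsCls (a : (Bool × Place k Fb) ⊕ ν) : Prop := ∀ x, a = Sum.inl x → ∀ n, x ∉ D.M.br n

theorem par_fix (a : (Bool × Place k Fb) ⊕ ν) : Fix (⊤ : Subgroup G) (D.par a) := by
  cases a with
  | inl x => exact D.t_fix x
  | inr n => exact D.z_fix n

theorem isCls_sp (P : Place K F) : D.IsCls (D.M.sp P) := fun x hx n => D.M.sp_smooth P x hx n

/-- The value of the parameter at `P`. -/
theorem exists_value (P : Place K F) : ∃ a : K, D.M.vK a < 1 ∧
    (∀ n, D.M.sp P = Sum.inr n → D.M.vK p < D.M.vK a) ∧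
      0 < P.ord (D.par (D.M.sp P) - algebraMap K F a) ∧
      ∀ P', D.M.sp P' = D.M.sp P → P'.ord (D.par (D.M.sp P) - algebraMap K F a) =
        (Finsupp.single P (1 : ℤ) : Divisor K F) P' := by
  rcases hs : D.M.sp P with x | n
  · obtain ⟨a, h1, h2, h3⟩ := D.t_sub (fun n => D.M.sp_smooth P x hs n) hs
    exact ⟨a, h1, fun n hn => by simp at hn, h2, h3⟩
  · obtain ⟨a, h1, h2, h3, h4⟩ := D.z_sub n P hs
    exact ⟨a, h1, fun _ _ => h2, h3, h4⟩

/-- The value of the parameter at `P`. -/
noncomputable def val (P : Place K F) : K := (D.exists_value P).choose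

theorem val_lt (P : Place K F) : D.M.vK (D.val P) < 1 := (D.exists_value P).choose_spec.1

theorem lt_val {P : Place K F} {n : ν} (h : D.M.sp P = Sum.inr n) :
    D.M.vK p < D.M.vK (D.val P) := (D.exists_value P).choose_spec.2.1 n h

theorem par_sub_ord (P : Place K F) : 0 < P.ord (D.par (D.M.sp P) - algebraMap K F (D.val P)) :=
  (D.exists_value P).choose_spec.2.2.1

theorem par_sub_ord' {P P' : Place K F} (h : D.M.sp P' = D.M.sp P) :
    P'.ord (D.par (D.M.sp P) - algebraMap K F (D.val P)) =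
        (Finsupp.single P (1 : ℤ) : Divisor K F) P' :=
  (D.exists_value P).choose_spec.2.2.2 P' h

theorem par_sub_ne (P : Place K F) : D.par (D.M.sp P) - algebraMap K F (D.val P) ≠ 0 := by
  intro h
  have := D.par_sub_ord P
  rw [h, Place.ord_zero] at this
  exact lt_irrefl _ this

theorem val_unique {P : Place K F} {a : K}
    (h : 0 < P.ord (D.par (D.M.sp P) - algebraMap K F a)) : a = D.val P := by
  by_contra hne
  have h1 := D.par_sub_ord P
  have hlt : ∀ f : F, 0 < P.ord f → P.adicValuation f < 1 := by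
    intro f hf
    have hf0 : f ≠ 0 := by rintro rfl; simp at hf
    rw [P.adicValuation_eq_exp_neg_ord hf0, ← exp_zero, exp_lt_exp]
    omega
  have h2 : P.adicValuation (algebraMap K F (a - D.val P)) < 1 := by
    have e1 : algebraMap K F (a - D.val P) =
        (D.par (D.M.sp P) - algebraMap K F (D.val P)) -
          (D.par (D.M.sp P) - algebraMap K F a) := by
      rw [map_sub]; ring
    rw [e1]
    exact (Valuation.map_sub _ _ _).trans_lt (max_lt (hlt _ h1) (hlt _ h))
  rw [H3RR.adicValuation_algebraMap _ (sub_ne_zero.mpr hne)] at h2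
  exact lt_irrefl _ h2

/-- Transport of places. -/
noncomputable def tr (σ : G) (P : Place K F) : Place K F := (D.place σ P).choose

theorem sp_tr (σ : G) (P : Place K F) : D.M.sp (D.tr σ P) = D.M.sp P :=
  (D.place σ P).choose_spec.1

theorem ord_tr (σ : G) (P : Place K F) (f : F) : P.ord (σ • f) = (D.tr σ P).ord f :=
  (D.place σ P).choose_spec.2 f

theorem place_ext {P Q : Place K F} (h : ∀ f, P.ord f = Q.ord f) : P = Q := by
  apply Place.ext
  ext f
  rw [H3RR.mem_iff_adicValuation_le_one, H3RR.mem_iff_adicValuation_le_one,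
    P.adicValuation_le_one_iff, Q.adicValuation_le_one_iff, h]

theorem tr_tr_inv (σ : G) (P : Place K F) : D.tr σ (D.tr σ⁻¹ P) = P := by
  refine place_ext fun f => ?_
  rw [← D.ord_tr, ← D.ord_tr, inv_smul_smul]

theorem tr_inv_tr (σ : G) (P : Place K F) : D.tr σ⁻¹ (D.tr σ P) = P := by
  have := D.tr_tr_inv σ⁻¹ P
  rwa [inv_inv] at this

theorem val_tr (σ : G) (P : Place K F) : σ • D.val (D.tr σ P) = D.val P := by
  apply D.val_unique
  have h1 := D.par_sub_ord (D.tr σ P)
  rw [D.sp_tr, ← D.ord_tr, smul_sub, D.par_fix _ σ (Subgroup.mem_top σ), D.smul_alg] at h1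
  exact h1

/-- The product generator of a divisor on a class. -/
noncomputable def prodGen (S : Finset (Place K F)) (m : Place K F → ℤ) : F :=
  ∏ P ∈ S, (D.par (D.M.sp P) - algebraMap K F (D.val P)) ^ (m P)

theorem prodGen_ne (S : Finset (Place K F)) (m : Place K F → ℤ) : D.prodGen S m ≠ 0 :=
  Finset.prod_ne_zero_iff.mpr fun P _ => zpow_ne_zero _ (D.par_sub_ne P)

theorem prodGen_ord {S : Finset (Place K F)} {m : Place K F → ℤ} {a : (Bool × Place k Fb) ⊕ ν}
    (hS : ∀ P ∈ S, D.M.sp P = a) {Q : Place K F} (hQ : D.M.sp Q = a)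
    (hm : Q ∉ S → m Q = 0) : Q.ord (D.prodGen S m) = m Q := by
  classical
  have key : ∀ T : Finset (Place K F), (∀ P ∈ T, D.M.sp P = a) →
      Q.ord (D.prodGen T m) = if Q ∈ T then m Q else 0 := by
    intro T
    induction T using Finset.induction_on with
    | empty => intro _; simp [prodGen]
    | insert P T hP ih =>
      intro hT
      have h1 : D.prodGen (insert P T) m =
          (D.par (D.M.sp P) - algebraMap K F (D.val P)) ^ (m P) * D.prodGen T m := by
        rw [prodGen, Finset.prod_insert hP, prodGen]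
      rw [h1, Q.ord_mul (zpow_ne_zero _ (D.par_sub_ne P)) (D.prodGen_ne T m), Q.ord_zpow,
        D.par_sub_ord' (hQ.trans (hT P (Finset.mem_insert_self _ _)).symm),
        ih (fun P' hP' => hT P' (Finset.mem_insert_of_mem hP')), Finsupp.single_apply]
      by_cases hPQ : P = Q
      · subst hPQ
        simp [hP]
      · have : Q ≠ P := Ne.symm hPQ
        simp [hPQ, this]
  rw [key S hS]
  split_ifs with h
  · rfl
  · exact (hm h).symm

theorem prodGen_fix {H : Subgroup G} {S : Finset (Place K F)} {m : Place K F → ℤ}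
    (hS : ∀ σ ∈ H, ∀ P ∈ S, D.tr σ P ∈ S) (hm : ∀ σ ∈ H, ∀ P, m (D.tr σ P) = m P) :
    Fix H (D.prodGen S m) := by
  intro σ hσ
  have h1 : σ • D.prodGen S m = ∏ P ∈ S,
      (D.par (D.M.sp P) - algebraMap K F (σ • D.val P)) ^ (m P) := by
    rw [prodGen, Finset.smul_prod']
    refine Finset.prod_congr rfl fun P _ => ?_
    have h2 : ∀ (f : F) (n : ℤ), σ • (f ^ n) = (σ • f) ^ n := by
      intro f n
      cases n with
      | ofNat n => rw [Int.ofNat_eq_natCast, zpow_natCast, zpow_natCast, smul_pow']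
      | negSucc n => rw [zpow_negSucc, zpow_negSucc, smul_inv'', smul_pow']
    rw [h2, smul_sub, D.par_fix _ σ (Subgroup.mem_top σ), D.smul_alg]
  rw [h1, prodGen]
  refine (Finset.prod_nbij' (D.tr σ) (D.tr σ⁻¹) (fun P hP => hS σ hσ P hP)
    (fun P hP => hS σ⁻¹ (H.inv_mem hσ) P hP) (fun P _ => D.tr_inv_tr σ P)
    (fun P _ => D.tr_tr_inv σ P) (fun P _ => ?_)).symm
  rw [D.sp_tr, D.val_tr, hm σ hσ]

theorem exists_gen {d : ℕ} (hd : d ≠ 0) (H : Subgroup G) (f : F) (hf0 : f ≠ 0) (hf : Fix H f)
    (hdiv : ∀ P : Place K F, (d : ℤ) ∣ P.ord f) (a : (Bool × Place k Fb) ⊕ ν) :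
    ∃ S : Finset (Place K F), (∀ P ∈ S, D.M.sp P = a) ∧
      Fix H (D.prodGen S (fun P => P.ord f / d)) ∧
      (∀ P, D.M.sp P = a → P.ord f = d * P.ord (D.prodGen S (fun P => P.ord f / d))) ∧
      H97.cls D.M.sp (H3RR.divOf f) a = d * ∑ P ∈ S, P.ord f / d := by
  classical
  have hpz : (d : ℤ) ≠ 0 := by exact_mod_cast hd
  set S := (H3RR.divOf f : Divisor K F).support.filter (fun P => D.M.sp P = a) with hS
  have hmem : ∀ P, P ∈ S ↔ P.ord f ≠ 0 ∧ D.M.sp P = a := by
    intro P
    rw [hS, Finset.mem_filter, Finsupp.mem_support_iff, H3RR.divOf_apply hf0]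
  refine ⟨S, fun P hP => ((hmem P).mp hP).2, ?_, ?_, ?_⟩
  · apply D.prodGen_fix
    · intro σ hσ P hP
      rw [hmem] at hP ⊢
      rw [← D.ord_tr, hf σ hσ, D.sp_tr]
      exact hP
    · intro σ hσ P
      rw [← D.ord_tr, hf σ hσ]
  · intro P hP
    rw [D.prodGen_ord (fun P hP => ((hmem P).mp hP).2) hP]
    · exact (Int.mul_ediv_cancel' (hdiv P)).symm
    · intro hPS
      have : P.ord f = 0 := by
        by_contra h
        exact hPS ((hmem P).mpr ⟨h, hP⟩)
      rw [this, Int.zero_ediv]
  · rw [H97.cls_eq_sum, ← hS, Finset.mul_sum]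
    refine Finset.sum_congr rfl fun P _ => ?_
    rw [H3RR.divOf_apply hf0, Int.mul_ediv_cancel' (hdiv P)]

/-- The data with generators. -/
noncomputable def toData : Data K F k Fb Γ ν G p where
  M := D.M
  pt := D.pt
  mem_br := D.mem_br
  smul_alg := D.smul_alg
  v_smul := D.v_smul
  ρ_smul := D.ρ_smul
  place := D.place
  scale := D.scale
  res_lift := D.res_lift
  z := D.z
  z_fix := D.z_fix
  z_unit := D.z_unit
  z_false := D.z_false
  z_ord := D.z_ord
  z_true := D.z_true
  gen := fun d hd H f hf0 hf hdiv a => by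
    obtain ⟨S, -, h2, h3, -⟩ := D.exists_gen hd H f hf0 hf hdiv a
    exact ⟨_, D.prodGen_ne _ _, h2, h3⟩

variable [Fact p.Prime] [CharP k p] [CharP Fb p]

/-- Functions congruent to `1` have generators congruent to `1`. -/
theorem hasGenOne {H : Subgroup G} {w : F} (hw0 : w ≠ 0) (hw : Fix H w)
    (hdiv : ∀ P : Place K F, (p : ℤ) ∣ P.ord w) (hw1 : ∀ i, D.M.v i (w - 1) < 1) :
    D.toData.HasGenOne H w := by
  classical
  have hpp : p.Prime := Fact.out
  have hp : p ≠ 0 := hpp.ne_zero
  have hpz : (p : ℤ) ≠ 0 := by exact_mod_cast hp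
  set D' := D.toData with hD'
  have hvw : ∀ i, D.M.v i w = 1 := fun i => (D'.one_of_sub (hw1 i)).1
  have hρw : ∀ i, D.M.ρ i w = 1 := fun i => (D'.one_of_sub (hw1 i)).2
  constructor
  · intro x hx
    have C := D.M.comp x.1
    obtain ⟨S, hS, h2, h3, h4⟩ := D.exists_gen hp H w hw0 hw hdiv (Sum.inl x)
    set m : Place K F → ℤ := fun P => P.ord w / p with hm
    have hdeg := D.M.smooth_deg x hx w hw0 (hvw x.1) (H3RR.divOf w) (H3RR.divOf_apply hw0)
    rw [hρw, Place.ord_one, h4] at hdeg
    have hsum : ∑ P ∈ S, m P = 0 := (mul_eq_zero.mp hdeg).resolve_left hpz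
    have hvt := D.t_v x hx
    have hfac : ∀ P ∈ S, D.M.v x.1 (D.par (D.M.sp P) - algebraMap K F (D.val P)) = 1 ∧
        D.M.ρ x.1 (D.par (D.M.sp P) - algebraMap K F (D.val P)) = D.M.ρ x.1 (D.t x) := by
      intro P hP
      rw [hS P hP]
      have h5 : D.M.v x.1 (algebraMap K F (D.val P)) < 1 := by rw [C.v_alg]; exact D.val_lt P
      have h6 : D.par (Sum.inl x) = D.t x := rfl
      rw [h6]
      refine ⟨by rw [Valuation.map_sub_eq_of_lt_left _ (by rw [hvt]; exact h5), hvt], ?_⟩
      rw [C.ρ_sub hvt.le h5.le, (C.ρ_eq_zero _ h5.le).mpr h5, sub_zero]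
    have key : ∀ T : Finset (Place K F), T ⊆ S → D.M.v x.1 (D.prodGen T m) = 1 ∧
        D.M.ρ x.1 (D.prodGen T m) = D.M.ρ x.1 (D.t x) ^ (∑ P ∈ T, m P) := by
      intro T
      induction T using Finset.induction_on with
      | empty => intro _; simp [prodGen, C.ρ_one]
      | insert P T hP ih =>
        intro hT
        obtain ⟨i1, i2⟩ := ih (fun Q hQ => hT (Finset.mem_insert_of_mem hQ))
        obtain ⟨f1, f2⟩ := hfac P (hT (Finset.mem_insert_self _ _))
        have h1 : D.prodGen (insert P T) m =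
            (D.par (D.M.sp P) - algebraMap K F (D.val P)) ^ (m P) * D.prodGen T m := by
          rw [prodGen, Finset.prod_insert hP, prodGen]
        have h5 : D.M.v x.1 ((D.par (D.M.sp P) - algebraMap K F (D.val P)) ^ (m P)) = 1 := by
          rw [map_zpow₀, f1, one_zpow]
        rw [h1]
        refine ⟨by rw [map_mul, h5, i1, one_mul], ?_⟩
        have h6 : D.M.ρ x.1 ((D.par (D.M.sp P) - algebraMap K F (D.val P)) ^ (m P)) =
            D.M.ρ x.1 (D.par (D.M.sp P) - algebraMap K F (D.val P)) ^ (m P) :=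
          D'.ρ_zpow (i := x.1) f1 (m P)
        rw [C.ρ_mul _ _ h5.le i1.le, i2, h6, f2, Finset.sum_insert hP,
          zpow_add₀ (C.ρ_ne_zero hvt)]
    obtain ⟨k1, k2⟩ := key S le_rfl
    rw [hsum, zpow_zero] at k2
    refine ⟨_, D.prodGen_ne _ _, h2, h3, ?_⟩
    refine D'.sub_lt_of_ρ (i := x.1) k1.le (by simp) ?_
    show D.M.ρ x.1 (D.prodGen S m) = D.M.ρ x.1 1
    rw [k2, C.ρ_one]
  · intro n
    obtain ⟨S, hS, h2, h3, h4⟩ := D.exists_gen hp H w hw0 hw hdiv (Sum.inr n)
    set m : Place K F → ℤ := fun P => P.ord w / p with hm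
    have hdeg := D.M.node_deg n w hw0 hvw (H3RR.divOf w) (H3RR.divOf_apply hw0)
    have hsb : ∑ x ∈ D.M.br n, x.2.ord (D.M.ρ x.1 w) =
        (D.pt false n).ord (D.M.ρ false w) + (D.pt true n).ord (D.M.ρ true w) :=
      D'.sum_br n (fun x => x.2.ord (D.M.ρ x.1 w))
    rw [hsb, hρw, hρw, Place.ord_one, Place.ord_one, add_zero, h4] at hdeg
    have hsum : ∑ P ∈ S, m P = 0 := (mul_eq_zero.mp hdeg).resolve_left hpz
    have hvt := D.z_false n
    have C := D.M.comp false
    have C' := D.M.comp true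
    have hfac : ∀ P ∈ S, D.M.v false (D.par (D.M.sp P) - algebraMap K F (D.val P)) = 1 ∧
        D.M.ρ false (D.par (D.M.sp P) - algebraMap K F (D.val P)) = D.M.ρ false (D.z n) := by
      intro P hP
      rw [hS P hP]
      have h5 : D.M.v false (algebraMap K F (D.val P)) < 1 := by rw [C.v_alg]; exact D.val_lt P
      have h6 : D.par (Sum.inr n) = D.z n := rfl
      rw [h6]
      refine ⟨by rw [Valuation.map_sub_eq_of_lt_left _ (by rw [hvt]; exact h5), hvt], ?_⟩
      rw [C.ρ_sub hvt.le h5.le, (C.ρ_eq_zero _ h5.le).mpr h5, sub_zero]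
    have hvalne : ∀ P ∈ S, D.val P ≠ 0 := by
      intro P hP h0
      have := D.lt_val (hS P hP)
      rw [h0, map_zero] at this
      exact absurd this (not_lt.mpr zero_le')
    have hfac' : ∀ P ∈ S, D.M.v true ((D.par (D.M.sp P) - algebraMap K F (D.val P)) /
        algebraMap K F (-(D.val P)) - 1) < 1 := by
      intro P hP
      have h5 := D.lt_val (hS P hP)
      have h6 : D.par (Sum.inr n) = D.z n := rfl
      have hne : algebraMap K F (D.val P) ≠ 0 := (_root_.map_ne_zero _).mpr (hvalne P hP)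
      rw [hS P hP, h6]
      have e1 : (D.z n - algebraMap K F (D.val P)) / algebraMap K F (-(D.val P)) - 1 =
          - (D.z n / algebraMap K F (D.val P)) := by
        rw [map_neg]
        field_simp
        ring
      rw [e1, Valuation.map_neg, map_div₀, D.z_true, C'.v_alg,
        div_lt_one₀ ((zero_le').trans_lt h5)]
      exact h5
    have key : ∀ T : Finset (Place K F), T ⊆ S → D.M.v false (D.prodGen T m) = 1 ∧
        D.M.ρ false (D.prodGen T m) = D.M.ρ false (D.z n) ^ (∑ P ∈ T, m P) := by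
      intro T
      induction T using Finset.induction_on with
      | empty => intro _; simp [prodGen, C.ρ_one]
      | insert P T hP ih =>
        intro hT
        obtain ⟨i1, i2⟩ := ih (fun Q hQ => hT (Finset.mem_insert_of_mem hQ))
        obtain ⟨f1, f2⟩ := hfac P (hT (Finset.mem_insert_self _ _))
        have h1 : D.prodGen (insert P T) m =
            (D.par (D.M.sp P) - algebraMap K F (D.val P)) ^ (m P) * D.prodGen T m := by
          rw [prodGen, Finset.prod_insert hP, prodGen]
        have h5 : D.M.v false ((D.par (D.M.sp P) - algebraMap K F (D.val P)) ^ (m P)) = 1 := by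
          rw [map_zpow₀, f1, one_zpow]
        rw [h1]
        refine ⟨by rw [map_mul, h5, i1, one_mul], ?_⟩
        have h6 : D.M.ρ false ((D.par (D.M.sp P) - algebraMap K F (D.val P)) ^ (m P)) =
            D.M.ρ false (D.par (D.M.sp P) - algebraMap K F (D.val P)) ^ (m P) :=
          D'.ρ_zpow (i := false) f1 (m P)
        rw [C.ρ_mul _ _ h5.le i1.le, i2, h6, f2, Finset.sum_insert hP,
          zpow_add₀ (C.ρ_ne_zero hvt)]
    obtain ⟨k1, k2⟩ := key S le_rfl
    rw [hsum, zpow_zero] at k2
    have key' : ∀ T : Finset (Place K F), T ⊆ S → ∃ A : K, A ≠ 0 ∧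
        D.M.v true (D.prodGen T m / algebraMap K F A) = 1 ∧
        D.M.ρ true (D.prodGen T m / algebraMap K F A) = 1 := by
      intro T
      induction T using Finset.induction_on with
      | empty => intro _; exact ⟨1, one_ne_zero, by simp [prodGen], by simp [prodGen, C'.ρ_one]⟩
      | insert P T hP ih =>
        intro hT
        obtain ⟨A, hA0, i1, i2⟩ := ih (fun Q hQ => hT (Finset.mem_insert_of_mem hQ))
        have hPS := hT (Finset.mem_insert_self _ _)
        obtain ⟨f1, f2⟩ := D'.one_of_sub (i := true) (hfac' P hPS)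
        have h1 : D.prodGen (insert P T) m =
            (D.par (D.M.sp P) - algebraMap K F (D.val P)) ^ (m P) * D.prodGen T m := by
          rw [prodGen, Finset.prod_insert hP, prodGen]
        have hB0 : (-(D.val P)) ^ (m P) ≠ 0 := zpow_ne_zero _ (neg_ne_zero.mpr (hvalne P hPS))
        refine ⟨(-(D.val P)) ^ (m P) * A, mul_ne_zero hB0 hA0, ?_⟩
        have e1 : D.prodGen (insert P T) m / algebraMap K F ((-(D.val P)) ^ (m P) * A) =
            ((D.par (D.M.sp P) - algebraMap K F (D.val P)) /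
              algebraMap K F (-(D.val P))) ^ (m P) * (D.prodGen T m / algebraMap K F A) := by
          rw [h1, map_mul, map_zpow₀, div_zpow, mul_div_mul_comm]
        have h5 : D.M.v true (((D.par (D.M.sp P) - algebraMap K F (D.val P)) /
              algebraMap K F (-(D.val P))) ^ (m P)) = 1 := by
          rw [map_zpow₀]
          have : D.M.v true ((D.par (D.M.sp P) - algebraMap K F (D.val P)) /
              algebraMap K F (-(D.val P))) = 1 := f1
          rw [this, one_zpow]
        have h6 : D.M.ρ true (((D.par (D.M.sp P) - algebraMap K F (D.val P)) /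
              algebraMap K F (-(D.val P))) ^ (m P)) = 1 := by
          have := D'.ρ_zpow (i := true) f1 (m P)
          rw [f2, one_zpow] at this
          exact this
        rw [e1]
        refine ⟨by rw [map_mul, h5, i1, one_mul], ?_⟩
        rw [C'.ρ_mul _ _ h5.le i1.le, h6, i2, one_mul]
    obtain ⟨A, hA0, k3, k4⟩ := key' S le_rfl
    have hgne := D.prodGen_ne S m
    set g := D.prodGen S m with hg
    have hAF : algebraMap K F A ≠ 0 := (_root_.map_ne_zero _).mpr hA0
    have hvg : D.M.v true g = 1 := by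
      have h5 := D'.node_compare (n := n) hw0 hgne h3 (hvw false) k1
        (by
          have h6 : D'.M.ρ false w = 1 := hρw false
          have h7 : D'.M.ρ false g = 1 := k2
          rw [h6, h7, Place.ord_one, mul_zero])
      have h6 : D'.M.v true w = 1 := hvw true
      rw [h6] at h5
      exact (pow_eq_one_iff_of_nonneg zero_le' hp).mp h5.symm
    have hvA : D.M.vK A = 1 := by
      rw [map_div₀, hvg, C'.v_alg, one_div, inv_eq_one] at k3
      exact k3
    have hρg : D.M.ρ true g = algebraMap k Fb (D.M.res A) := by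
      have e1 : g = g / algebraMap K F A * algebraMap K F A := (div_mul_cancel₀ _ hAF).symm
      rw [e1, C'.ρ_mul _ _ k3.le (by rw [C'.v_alg, hvA]), k4, one_mul, C'.ρ_alg _ hvA.le]
    have hres : D.M.res A ≠ 0 := by
      intro h0
      have := C'.ρ_ne_zero hvg
      rw [hρg, h0, map_zero] at this
      exact this rfl
    -- the common value
    have hvgp : ∀ i, D.M.v i (g ^ p) = 1 := fun i => by
      cases i
      · rw [map_pow, k1, one_pow]
      · rw [map_pow, hvg, one_pow]
    have hgp0 : g ^ p ≠ 0 := pow_ne_zero _ hgne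
    obtain ⟨-, c, hc0, hc⟩ := D'.AN (n := n) (h := w / g ^ p) (div_ne_zero hw0 hgp0)
      (fun P hP => by
        rw [ord_div P hw0 hgp0, ord_pow, h3 P hP, sub_self])
      (by
        have h5 : D'.M.v false w = 1 := hvw false
        have h6 : D'.M.v false (g ^ p) = 1 := hvgp false
        rw [map_div₀, h5, h6, div_one])
      (by
        have h5 : D'.M.ρ false (w / g ^ p) = 1 := by
          show D.M.ρ false (w / g ^ p) = 1
          rw [C.ρ_div (hvw false).le (hvgp false), hρw, C.ρ_pow k1.le, k2, one_pow, div_one]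
        rw [h5, Place.ord_one])
    have hc1 : c = 1 := by
      by_contra hne
      have h5 : D'.M.ρ false (w / g ^ p) = 1 := by
        show D.M.ρ false (w / g ^ p) = 1
        rw [C.ρ_div (hvw false).le (hvgp false), hρw, C.ρ_pow k1.le, k2, one_pow, div_one]
      have h6 := hc false
      rw [h5, ← map_one (algebraMap k Fb), ← map_sub,
        H3RR.adicValuation_algebraMap _ (sub_ne_zero.mpr (Ne.symm hne))] at h6
      exact lt_irrefl _ h6
    have hres1 : D.M.res A = 1 := by
      have h5 : D'.M.ρ true (w / g ^ p) = algebraMap k Fb (((D.M.res A)⁻¹) ^ p) := by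
        show D.M.ρ true (w / g ^ p) = _
        rw [C'.ρ_div (hvw true).le (hvgp true), hρw, C'.ρ_pow hvg.le, hρg, map_pow, map_inv₀,
          inv_pow, one_div]
      have h6 := hc true
      rw [h5, hc1, ← map_sub] at h6
      have h7 : ((D.M.res A)⁻¹) ^ p - 1 = 0 := by
        by_contra hne
        rw [H3RR.adicValuation_algebraMap _ hne] at h6
        exact lt_irrefl _ h6
      have h8 : ((D.M.res A)⁻¹ - 1) ^ p = 0 := by rw [sub_pow_char, one_pow, h7]
      have h9 : (D.M.res A)⁻¹ = 1 := sub_eq_zero.mp ((pow_eq_zero_iff hp).mp h8)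
      exact inv_eq_one.mp h9
    refine ⟨g, hgne, h2, h3, fun i => ?_⟩
    cases i with
    | false => exact D'.sub_lt_of_ρ (i := false) k1.le (by simp) (k2.trans C.ρ_one.symm)
    | true =>
      refine D'.sub_lt_of_ρ (i := true) hvg.le (by simp) ?_
      show D.M.ρ true g = D.M.ρ true 1
      rw [hρg, hres1, map_one, C'.ρ_one]

end PreData

end Fermat.Agent.H31.MP
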