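import Fermat.Agent.H40Deuring

/-!
# Galois-fixed lifts via pivots
-/

set_option autoImplicit false

open Module

namespace Fermat.Agent.H31.Pivot

/-- Linearly independent vectors have a nonsingular minor with respect to a separating family of
functionals. -/
theorem exists_pivots {k W ι : Type*} [Field k] [AddCommGroup W] [Module k W] {n : ℕ}
    {e : Fin n → W} (he : LinearIndependent k e) {c : ι → (W →ₗ[k] k)}
    (hc : ∀ w : W, (∀ i, c i w = 0) → w = 0) :
    ∃ m : Fin n → ι, (Matrix.of fun j i => c (m j) (e i)).det ≠ 0 := by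
  classical
  set V := Submodule.span k (Set.range e) with hV
  have hfd : FiniteDimensional k V := FiniteDimensional.span_of_finite k (Set.finite_range _)
  have hdim : finrank k V = n := by rw [hV, finrank_span_eq_card he]; simp
  set s : Set (Dual k V) := Set.range fun i => (c i).domRestrict V with hs
  have hspan : Submodule.span k s = ⊤ := by
    refine Submodule.span_eq_top_of_ne_zero fun z hz => ?_
    by_contra hcon
    push Not at hcon
    apply hz
    apply Subtype.ext
    apply hc
    intro i
    exact hcon _ ⟨i, rfl⟩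
  obtain ⟨f, hf, hfs, hfl⟩ := Submodule.exists_fun_fin_finrank_span_eq k s
  have hcard : finrank k (Submodule.span k s) = n := by
    rw [hspan, finrank_top, Subspace.dual_finrank_eq, hdim]
  choose m hm using hf
  refine ⟨fun j => m (Fin.cast hcard.symm j), ?_⟩
  intro hdet
  obtain ⟨x, hx, hx0⟩ := Matrix.exists_mulVec_eq_zero_iff.mpr hdet
  set v : V := ⟨∑ i, x i • e i, Submodule.sum_mem _ fun i _ =>
    Submodule.smul_mem _ _ (Submodule.subset_span ⟨i, rfl⟩)⟩ with hv
  have h1 : ∀ j, f j v = 0 := by
    intro j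
    have := congrFun hx0 (Fin.cast hcard j)
    rw [← hm j]
    show c (m j) (∑ i, x i • e i) = 0
    rw [map_sum]
    simp only [map_smul, smul_eq_mul]
    simpa [Matrix.mulVec, dotProduct, mul_comm] using this
  have h2 : ∀ φ : Dual k V, φ v = 0 := by
    intro φ
    have hφ : φ ∈ Submodule.span k (Set.range f) := by rw [hfs, hspan]; trivial
    induction hφ using Submodule.span_induction with
    | mem φ h => obtain ⟨j, rfl⟩ := h; exact h1 j
    | zero => rfl
    | add a b _ _ ha hb => rw [LinearMap.add_apply, ha, hb, add_zero]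
    | smul t a _ ha => rw [LinearMap.smul_apply, ha, smul_zero]
  have h3 : v = 0 := (Module.forall_dual_apply_eq_zero_iff k v).mp h2
  apply hx
  ext i
  exact Fintype.linearIndependent_iff.mp he x (congrArg Subtype.val h3) i

theorem eq_zero_of_det {K W : Type*} [Field K] [AddCommGroup W] [Module K W] {n : ℕ}
    {b : Fin n → W} {c : Fin n → (W →ₗ[K] K)} (hdet : (Matrix.of fun j i => c j (b i)).det ≠ 0)
    {x : W} (hx : x ∈ Submodule.span K (Set.range b)) (h : ∀ j, c j x = 0) : x = 0 := by
  classical
  obtain ⟨y, rfl⟩ := (Submodule.mem_span_range_iff_exists_fun K).mp hx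
  by_cases hy : y = 0
  · simp [hy]
  · exfalso
    apply hdet
    refine Matrix.exists_mulVec_eq_zero_iff.mp ⟨y, hy, ?_⟩
    ext j
    have := h j
    rw [map_sum] at this
    simp only [map_smul, smul_eq_mul] at this
    simpa [Matrix.mulVec, dotProduct, mul_comm] using this

variable {K F k E : Type*} [Field K] [Field F] [Algebra K F] [Field k] [Field E] [Algebra k E]

/-- **Fixed lifts**: a `G`-stable space of functions whose elements are determined by coefficient
functionals has `G`-fixed lifts of its reductions. -/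
theorem exists_fixed_lift (R : H40.ReductionData K F k E) {G : Type*} [Group G]
    [MulSemiringAction G K] [MulSemiringAction G F]
    (V : Submodule K F) [hVfd : FiniteDimensional K V] (hGV : ∀ (σ : G), ∀ x ∈ V, σ • x ∈ V)
    {ι : Type*} (c : ι → (F →ₗ[K] K)) (cb : ι → (E →ₗ[k] k))
    (hcomp : ∀ i (x : R.B), (x : F) ∈ V → ∃ a : R.A, (a : K) = c i x ∧ R.π a = cb i (R.ρ x))
    (hsep : ∀ e : E, (∀ i, cb i e = 0) → e = 0)
    (hσ : ∀ i (σ : G) x, c i (σ • x) = σ • c i x)
    (hteich : ∀ e : k, ∃ a : R.A, R.π a = e ∧ ∀ σ : G, σ • (a : K) = a)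
    {e : E} (he : e ∈ R.red V) :
    ∃ b : R.B, (b : F) ∈ V ∧ R.ρ b = e ∧ ∀ σ : G, σ • (b : F) = b := by
  classical
  obtain ⟨n, b, hbV, hb⟩ := R.exists_basis V hVfd
  obtain ⟨m, hm⟩ := exists_pivots (c := cb) hb hsep
  have hbmem : ∀ i, (b i : F) ∈ V := fun i => by
    rw [← hbV]; exact Submodule.subset_span ⟨i, rfl⟩
  choose M hM1 hM2 using fun j i => hcomp (m j) (b i) (hbmem i)
  have hMπ : (Matrix.of M).map R.π = Matrix.of fun j i => cb (m j) (R.ρ (b i)) := by
    ext j i
    simp [hM2]
  have hdet : IsUnit (Matrix.of M).det := by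
    by_contra hcon
    rw [← R.π_eq_zero, RingHom.map_det] at hcon
    apply hm
    rw [← hMπ]
    exact hcon
  have hdetK : (Matrix.of fun j i => c (m j) (b i : F)).det ≠ 0 := by
    have h1 : (Matrix.of M).map R.A.subtype = Matrix.of fun j i => c (m j) (b i : F) := by
      ext j i
      simpa using hM1 j i
    rw [← h1]
    have h2 := RingHom.map_det R.A.subtype (Matrix.of M)
    rw [RingHom.mapMatrix_apply] at h2
    rw [← h2]
    exact (hdet.map R.A.subtype).ne_zero
  choose τ hτ1 hτ2 using fun j => hteich (cb (m j) e)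
  set x : Fin n → R.A := (Matrix.of M)⁻¹.mulVec τ with hx
  have hMx : (Matrix.of M).mulVec x = τ := by
    rw [hx, Matrix.mulVec_mulVec, Matrix.mul_nonsing_inv _ hdet, Matrix.one_mulVec]
  set B : R.B := ∑ i, R.const (x i) * b i with hB
  have hBF : (B : F) = ∑ i, (x i : K) • (b i : F) := by
    rw [hB, show ((∑ i, R.const (x i) * b i : R.B) : F) =
      ∑ i, ((R.const (x i) * b i : R.B) : F) from map_sum R.B.subtype _ _]
    refine Finset.sum_congr rfl fun i _ => ?_
    rw [Subring.coe_mul, R.coe_const, Algebra.smul_def]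
  have hBV : (B : F) ∈ V := by
    rw [hBF]
    exact Submodule.sum_mem _ fun i _ => V.smul_mem _ (hbmem i)
  have hcB : ∀ j, c (m j) (B : F) = (τ j : K) := by
    intro j
    rw [hBF, map_sum]
    have h1 := congrArg (fun t : Fin n → R.A => ((t j : R.A) : K)) hMx
    simp only [Matrix.mulVec, dotProduct, Matrix.of_apply] at h1
    rw [← h1, show ((∑ i, M j i * x i : R.A) : K) = ∑ i, ((M j i * x i : R.A) : K) from
      map_sum R.A.subtype _ _]
    refine Finset.sum_congr rfl fun i _ => ?_
    rw [map_smul, smul_eq_mul, ← hM1 j i, mul_comm]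
    rfl
  refine ⟨B, hBV, ?_, fun σ => ?_⟩
  · have hspan := R.red_eq_span hb hbV
    have h1 : R.ρ B - e ∈ Submodule.span k (Set.range fun i => R.ρ (b i)) := by
      rw [← hspan]
      exact Submodule.sub_mem _ ⟨B, hBV, rfl⟩ he
    have h2 : R.ρ B - e = 0 := eq_zero_of_det (c := fun j => cb (m j)) hm h1 fun j => by
      obtain ⟨a, ha1, ha2⟩ := hcomp (m j) B hBV
      rw [hcB] at ha1
      have ha3 : a = τ j := Subtype.ext ha1
      rw [map_sub, ← ha2, ha3, hτ1, sub_self]
    exact sub_eq_zero.mp h2
  · have h1 : σ • (B : F) - B ∈ Submodule.span K (Set.range fun i => (b i : F)) := by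
      rw [hbV]
      exact V.sub_mem (hGV σ _ hBV) hBV
    have h2 : σ • (B : F) - B = 0 := eq_zero_of_det (c := fun j => c (m j)) hdetK h1 fun j => by
      rw [map_sub, hσ, hcB, hτ2, sub_self]
    exact sub_eq_zero.mp h2

end Fermat.Agent.H31.Pivot
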