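import Fermat.Agent.H97InfH
import Fermat.Agent.H31Pivot
import Fermat.Agent.H88Count
import Fermat.Agent.H31MPParams

/-!
# Galois-fixed lifts at a good level
-/

set_option autoImplicit false
set_option linter.unusedSectionVars false

open ModularCurve IntermediateField Polynomial AlgebraicCurve WithZero Fermat.Agent.H97

namespace Fermat.Agent.H31.In

/-- The Galois action on coefficients. -/
@[reducible] noncomputable def galAct (L : Type*) [Field L] [Algebra ℚ L]
    (F₀ : IntermediateField ℚ (LaurentSeries ℚ)) :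
    MulSemiringAction (L ≃ₐ[ℚ] L) (laurentBaseChange L F₀) :=
  MulSemiringAction.compHom _ (arithmeticGalois F₀)

scoped[Fermat.Agent.H31.In] attribute [instance] Fermat.Agent.H31.In.galAct

theorem coe_smul {L : Type*} [Field L] [Algebra ℚ L]
    {F₀ : IntermediateField ℚ (LaurentSeries ℚ)} (σ : L ≃ₐ[ℚ] L) (x : laurentBaseChange L F₀) :
    ((σ • x : laurentBaseChange L F₀) : LaurentSeries L) = coeffMap (σ : L →+* L) x := rfl

theorem coeff_smul {L : Type*} [Field L] [Algebra ℚ L]
    {F₀ : IntermediateField ℚ (LaurentSeries ℚ)} (σ : L ≃ₐ[ℚ] L) (x : laurentBaseChange L F₀)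
    (n : ℤ) : ((σ • x : laurentBaseChange L F₀) : LaurentSeries L).coeff n =
      σ ((x : LaurentSeries L).coeff n) := by
  rw [coe_smul, coeffMap_coeff]; rfl

/-- `G` acts trivially on the residue field, and the residue field has fixed representatives. -/
structure Triv {L : Type*} [Field L] [Algebra ℚ L] {A : ValuationSubring L}
    {k : Type*} [Field k] (π : A →+* k) (G : Subgroup (L ≃ₐ[ℚ] L)) : Prop where
  mem : ∀ σ ∈ G, ∀ a ∈ A, σ a ∈ A
  red : ∀ (σ : L ≃ₐ[ℚ] L) (hσ : σ ∈ G) (a : A), π ⟨σ a, mem σ hσ a a.2⟩ = π a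
  teich : ∀ e : k, ∃ a : A, π a = e ∧ ∀ σ ∈ G, σ (a : L) = a

/-- coefficient functional -/
noncomputable def coeffL {L : Type*} [Field L] (F : IntermediateField L (LaurentSeries L)) (n : ℤ) :
    F →ₗ[L] L where
  toFun x := (x : LaurentSeries L).coeff n
  map_add' x y := by simp
  map_smul' c x := by
    rw [RingHom.id_apply, smul_eq_mul, Algebra.smul_def]
    show (algebraMap L (LaurentSeries L) c * (x : LaurentSeries L)).coeff n = _
    exact H97.coeff_C_mul _ _ _

theorem coeffL_apply {L : Type*} [Field L] (F : IntermediateField L (LaurentSeries L)) (n : ℤ)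
    (x : F) : coeffL F n x = (x : LaurentSeries L).coeff n := rfl

variable {L : Type*} [Field L] [Algebra ℚ L] [CharZero L] [IsAlgClosed L] {A : ValuationSubring L}
  {k : Type*} [Field k] [IsAlgClosed k] {π : A →+* k} {N : ℕ} [NeZero N]

/-- A function with poles at most at `∞` has bounded expansion. -/
theorem mem_bddL_of_inf (arch : Arch A) {P₀ : Place L (FF L N)} (hP₀ : IsInf P₀) {f : FF L N}
    (hf : ∀ v : Place L (FF L N), v ≠ P₀ → f ∈ v.toValuationSubring) :
    (f : LaurentSeries L) ∈ bddL A := by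
  have : H3RR.IsFF L (FF L N) := isFF_FF L N
  refine mem_bddL_of_regular arch N (FF L N) (H42.laurentBaseChange_full L N).le
    (x := ⟨jqModC L, jqModC_mem_bar L N⟩) (f := f) (intL_le_bddL (jqModC_mem_intL A)) ?_
  intro v hv
  apply hf v
  rintro rfl
  rw [H97.mem_iff_ord_nonneg, hP₀] at hv
  have h1 : (jqModC L).order = -1 := order_jqModC L
  have h2 : 0 ≤ (jqModC L).order := hv
  omega

omit [CharZero L] [IsAlgClosed L] [NeZero N] in
theorem order_smul (σ : L ≃ₐ[ℚ] L) (x : FF L N) :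
    ((σ • x : FF L N) : LaurentSeries L).order = (x : LaurentSeries L).order := by
  rcases eq_or_ne x 0 with rfl | hx0
  · rw [smul_zero]
  have hσx0 : σ • x ≠ 0 := by rwa [smul_ne_zero_iff_ne]
  have h1 : ((x : FF L N) : LaurentSeries L) ≠ 0 := fun h => hx0 (Subtype.ext h)
  have h2 : ((σ • x : FF L N) : LaurentSeries L) ≠ 0 := fun h => hσx0 (Subtype.ext h)
  apply le_antisymm
  · apply HahnSeries.order_le_of_coeff_ne_zero
    rw [coeff_smul, map_ne_zero_iff _ σ.injective]
    exact HahnSeries.coeff_order_eq_zero.not.mpr h1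
  · apply HahnSeries.order_le_of_coeff_ne_zero
    have := HahnSeries.coeff_order_eq_zero.not.mpr h2
    rw [coeff_smul, map_eq_zero_iff _ σ.injective] at this
    exact this

omit [CharZero L] [IsAlgClosed L] [NeZero N] in
theorem ord_galois (σ : L ≃ₐ[ℚ] L) (v : Place L (FF L N)) (y : FF L N) :
    v.ord (σ • y) = ((arithmeticGalois (modularFunctionFieldFull N) σ)⁻¹ • v).ord y := by
  have h := SemilinearAut.ord_smul (arithmeticGalois (modularFunctionFieldFull N) σ)
    ((arithmeticGalois (modularFunctionFieldFull N) σ)⁻¹ • v) y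
  rw [smul_inv_smul] at h
  exact h

omit [CharZero L] [IsAlgClosed L] [NeZero N] in
theorem galois_inf {P₀ : Place L (FF L N)} (hP₀ : IsInf P₀) (σ : L ≃ₐ[ℚ] L) :
    (arithmeticGalois (modularFunctionFieldFull N) σ)⁻¹ • P₀ = P₀ := by
  apply H97.place_ext
  intro f
  rw [← ord_galois, hP₀, hP₀, order_smul]

/-- The space `L(n ∞)` is stable under the Galois action. -/
theorem smul_mem_L {P₀ : Place L (FF L N)} (hP₀ : IsInf P₀) (n : ℤ) (σ : L ≃ₐ[ℚ] L)
    {x : FF L N} (hx : x ∈ riemannRochSpace (Finsupp.single P₀ n : Divisor L (FF L N))) :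
    σ • x ∈ riemannRochSpace (Finsupp.single P₀ n : Divisor L (FF L N)) := by
  classical
  rcases eq_or_ne x 0 with rfl | hx0
  · rw [smul_zero]; exact zero_mem _
  have hσx0 : σ • x ≠ 0 := by rwa [smul_ne_zero_iff_ne]
  rw [H40.mem_L hx0] at hx
  rw [H40.mem_L hσx0]
  intro v
  have hP : ∀ v : Place L (FF L N), (arithmeticGalois (modularFunctionFieldFull N) σ)⁻¹ • v = P₀ ↔
      v = P₀ := by
    intro v
    constructor
    · intro h
      rw [← galois_inf hP₀ σ] at h
      exact smul_left_cancel _ h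
    · rintro rfl
      exact galois_inf hP₀ σ
  rw [ord_galois]
  have := hx ((arithmeticGalois (modularFunctionFieldFull N) σ)⁻¹ • v)
  rw [Finsupp.single_apply] at this ⊢
  have h1 := hP v
  by_cases h2 : P₀ = v
  · rw [if_pos h2]
    rw [if_pos (h1.mpr h2.symm).symm] at this
    exact this
  · rw [if_neg h2]
    rw [if_neg (fun h => h2 (h1.mp h.symm).symm)] at this
    exact this

/-- **Fixed lifts** in `L(n ∞)`. -/
theorem exists_fixed (hπ : Function.Surjective π) [IsLocalHom π] (arch : Arch A)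
    (hdeg : H42.DegLE L k N) {G : Subgroup (L ≃ₐ[ℚ] L)} (hG : Triv π G)
    {P₀ : Place L (FF L N)} (hP₀ : IsInf P₀) {n : ℤ} {a : modularFunctionFieldFullC k N}
    (ha : a ∈ (H42.modReductionData A π N hπ hdeg).red
      (riemannRochSpace (Finsupp.single P₀ n : Divisor L (FF L N)))) :
    ∃ b : (H42.modReductionData A π N hπ hdeg).B,
      (b : FF L N) ∈ riemannRochSpace (Finsupp.single P₀ n : Divisor L (FF L N)) ∧
      (H42.modReductionData A π N hπ hdeg).ρ b = a ∧ ∀ σ ∈ G, σ • (b : FF L N) = b := by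
  classical
  have hff : H3RR.IsFF L (FF L N) := isFF_FF L N
  have hfin : FiniteDimensional L (riemannRochSpace (Finsupp.single P₀ n : Divisor L (FF L N))) :=
    H3RR.finite_L _
  have hcomp : ∀ (i : ℤ) (x : (H42.modReductionData A π N hπ hdeg).B),
      (x : FF L N) ∈ riemannRochSpace (Finsupp.single P₀ n : Divisor L (FF L N)) →
      ∃ a : (H42.modReductionData A π N hπ hdeg).A, (a : L) = coeffL (FF L N) i x ∧
        (H42.modReductionData A π N hπ hdeg).π a =
          coeffL (modularFunctionFieldFullC k N) i ((H42.modReductionData A π N hπ hdeg).ρ x) := by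
    intro i x hx
    have hb : ((x : FF L N) : LaurentSeries L) ∈ bddL A := by
      apply mem_bddL_of_inf arch hP₀
      intro v hv
      rcases eq_or_ne (x : FF L N) 0 with h0 | h0
      · rw [h0]; exact zero_mem _
      rw [H40.mem_L h0] at hx
      rw [H97.mem_iff_ord_nonneg]
      have := hx v
      rw [Finsupp.single_apply, if_neg (Ne.symm hv)] at this
      omega
    obtain ⟨y, hy⟩ := (gaussInt_of_mem_B x.2).mem_intL arch hb
    refine ⟨y.coeff i, ?_, ?_⟩
    · rw [coeffL_apply, ← hy, coeffMap_coeff]; rfl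
    · rw [coeffL_apply, coe_ρ_of_eq (hπ := hπ) (hdeg := hdeg) x.2 hy, coeffMap_coeff]
      rfl
  have hsep : ∀ e : modularFunctionFieldFullC k N,
      (∀ i : ℤ, coeffL (modularFunctionFieldFullC k N) i e = 0) → e = 0 := by
    intro e he
    apply Subtype.ext
    ext i
    exact he i
  have hteich : ∀ e : k, ∃ a : (H42.modReductionData A π N hπ hdeg).A,
      (H42.modReductionData A π N hπ hdeg).π a = e ∧ ∀ σ : G, σ • (a : L) = a := by
    intro e
    obtain ⟨a, ha1, ha2⟩ := hG.teich e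
    exact ⟨a, ha1, fun σ => ha2 σ σ.2⟩
  obtain ⟨b, h1, h2, h3⟩ := Pivot.exists_fixed_lift (H42.modReductionData A π N hπ hdeg)
    (G := G) (riemannRochSpace (Finsupp.single P₀ n : Divisor L (FF L N)))
    (fun σ x hx => smul_mem_L hP₀ n σ hx) (fun i : ℤ => coeffL (FF L N) i)
    (fun i : ℤ => coeffL (modularFunctionFieldFullC k N) i) hcomp hsep
    (fun i σ x => coeff_smul _ _ _) hteich ha
  exact ⟨b, h1, h2, fun σ hσ => h3 ⟨σ, hσ⟩⟩

/-- A regular function at `x` is a quotient of two functions with poles only at `P`. -/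
theorem exists_frac_inf {k E : Type*} [Field k] [IsAlgClosed k] [Field E] [Algebra k E]
    [H3RR.IsFF k E] {g c : ℤ} (hE : H40.RiemannFor k E g c) (hdE : ∀ v : Place k E, v.deg = 1)
    (P x : Place k E) {a : E} (ha0 : a ≠ 0) (ha : 0 ≤ x.ord a) :
    ∃ (n n' : ℤ) (a₁ a₂ : E), c < n ∧ c < n' ∧ a₁ ≠ 0 ∧ a₂ ≠ 0 ∧ a₁ = a * a₂ ∧
      a₁ ∈ riemannRochSpace (Finsupp.single P n' : Divisor k E) ∧
      a₂ ∈ riemannRochSpace (Finsupp.single P n : Divisor k E) ∧
      x.ord a₂ = -(Finsupp.single P n : Divisor k E) x ∧ (x = P → n' = n) := by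
  classical
  set Zf : Divisor k E := ((H3RR.divOf a : Divisor k E).mapRange (fun m => max 0 (-m))
    (by simp)).erase P with hZf
  have hZ : ∀ y, y ≠ P → Zf y = max 0 (-(y.ord a)) := by
    intro y hy
    rw [hZf, Finsupp.erase_ne hy, Finsupp.mapRange_apply, H3RR.divOf_apply ha0]
  have hZP : Zf P = 0 := by rw [hZf, Finsupp.erase_same]
  set n : ℤ := |c| + 1 + |Divisor.degree Zf| with hn
  have hc := le_abs_self c
  have hd := le_abs_self (Divisor.degree Zf)
  have hd0 := abs_nonneg (Divisor.degree Zf)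
  set D : Divisor k E := Finsupp.single P n - Zf with hD
  have hdD : c < Divisor.degree D := by
    rw [hD, map_sub, Divisor.degree_single, hdE]
    push_cast
    omega
  obtain ⟨a₂, ha₂D, ha₂0, ha₂x⟩ := H40.exists_ord_eq hE hdE hdD x
  rw [H40.mem_L ha₂0] at ha₂D
  have ha₁0 : a * a₂ ≠ 0 := mul_ne_zero ha0 ha₂0
  refine ⟨n, n + max 0 (-(P.ord a)), a * a₂, a₂, by omega, ?_, ha₁0, ha₂0, rfl, ?_, ?_, ?_, ?_⟩
  · have := le_max_left 0 (-(P.ord a))
    omega
  · rw [H40.mem_L ha₁0]
    intro y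
    have h1 := ha₂D y
    rw [y.ord_mul ha0 ha₂0]
    rw [hD, Finsupp.sub_apply, Finsupp.single_apply] at h1
    rw [Finsupp.single_apply]
    by_cases hy : P = y
    · subst hy
      rw [if_pos rfl, hZP] at h1
      rw [if_pos rfl]
      have := le_max_right 0 (-(P.ord a))
      omega
    · rw [if_neg hy, hZ y (Ne.symm hy)] at h1
      rw [if_neg hy]
      have := le_max_right 0 (-(y.ord a))
      omega
  · rw [H40.mem_L ha₂0]
    intro y
    have h1 := ha₂D y
    rw [hD, Finsupp.sub_apply] at h1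
    by_cases hy : P = y
    · subst hy
      rw [hZP] at h1
      omega
    · rw [hZ y (Ne.symm hy)] at h1
      have := le_max_left 0 (-(y.ord a))
      omega
  · rw [ha₂x, hD, Finsupp.sub_apply]
    by_cases hx : x = P
    · rw [hx, hZP, sub_zero]
    · rw [hZ x hx, max_eq_left (by omega), sub_zero]
  · rintro rfl
    rw [max_eq_left (by omega), add_zero]

/-- **Fixed lifts of regular functions.** -/
theorem exists_fixed_regular (hπ : Function.Surjective π) [IsLocalHom π] (arch : Arch A)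
    (hdeg : H42.DegLE L k N) {G : Subgroup (L ≃ₐ[ℚ] L)} (hG : Triv π G)
    {g c : ℤ} (hE : H40.RiemannFor k (modularFunctionFieldFullC k N) g c)
    {r : Place L (FF L N) → Place k (modularFunctionFieldFullC k N)}
    (hr : ∀ D : Divisor L (FF L N), c < Divisor.degree D →
        (H42.modReductionData A π N hπ hdeg).IsRed D (Finsupp.mapDomain r D))
    (hr2 : H34.GR.DivCompat (H42.modReductionData A π N hπ hdeg) r)
    {P₀ : Place L (FF L N)} (hP₀ : IsInf P₀)
    (x : Place k (modularFunctionFieldFullC k N)) {a : modularFunctionFieldFullC k N}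
    (ha : x.adicValuation a ≤ 1) :
    ∃ b : (H42.modReductionData A π N hπ hdeg).B,
      (H42.modReductionData A π N hπ hdeg).ρ b = a ∧ (∀ σ ∈ G, σ • (b : FF L N) = b) ∧
      ∀ Q, r Q = x → Q.adicValuation (b : FF L N) ≤ 1 := by
  classical
  have hff : H3RR.IsFF L (FF L N) := isFF_FF L N
  have hFF : H94.FunField L (FF L N) := H42.funField_left (k := k) N hdeg
  have hFF' : H94.FunField k (modularFunctionFieldFullC k N) := H42.funField_right (L := L) N hdeg
  have hff' : H3RR.IsFF k (modularFunctionFieldFullC k N) := ⟨hFF'.out⟩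
  have hdF : ∀ v : Place L (FF L N), v.deg = 1 := fun v => H94.deg_eq_one v
  have hdE : ∀ v : Place k (modularFunctionFieldFullC k N), v.deg = 1 := fun v => H94.deg_eq_one v
  rcases eq_or_ne a 0 with rfl | ha0
  · exact ⟨0, map_zero _, fun σ _ => by simp, fun Q _ => by simp⟩
  have hxa : 0 ≤ x.ord a := ((x.adicValuation_le_one_iff).mp ha).resolve_left ha0
  obtain ⟨n, n', a₁, a₂, hn, hn', ha₁0, ha₂0, haa, ha₁, ha₂, hxa₂, hxP⟩ :=
    exists_frac_inf hE hdE (r P₀) x ha0 hxa
  have hred : ∀ m : ℤ, c < m → (H42.modReductionData A π N hπ hdeg).red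
      (riemannRochSpace (Finsupp.single P₀ m : Divisor L (FF L N))) =
      riemannRochSpace (Finsupp.single (r P₀) m : Divisor k (modularFunctionFieldFullC k N)) := by
    intro m hm
    have h1 := (hr (Finsupp.single P₀ m) (by rw [Divisor.degree_single, hdF]; simpa using hm)).2
    rwa [Finsupp.mapDomain_single] at h1
  obtain ⟨f₁, hf₁L, hf₁ρ, hf₁G⟩ := exists_fixed hπ arch hdeg hG hP₀ (by rw [hred n' hn']; exact ha₁)
  obtain ⟨f₂, hf₂L, hf₂ρ, hf₂G⟩ := exists_fixed hπ arch hdeg hG hP₀ (by rw [hred n hn]; exact ha₂)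
  have hρf₂ : (H42.modReductionData A π N hπ hdeg).ρ f₂ ≠ 0 := by rw [hf₂ρ]; exact ha₂0
  have hρf₁ : (H42.modReductionData A π N hπ hdeg).ρ f₁ ≠ 0 := by rw [hf₁ρ]; exact ha₁0
  have hf₂0 : (f₂ : FF L N) ≠ 0 := (H42.modReductionData A π N hπ hdeg).ne_zero_of_ρ_ne_zero hρf₂
  have hf₁0 : (f₁ : FF L N) ≠ 0 := (H42.modReductionData A π N hπ hdeg).ne_zero_of_ρ_ne_zero hρf₁
  have hbB : (f₁ : FF L N) / f₂ ∈ (H42.modReductionData A π N hπ hdeg).B :=
    H88.mem_B_of_mul_mem (H42.modReductionData A π N hπ hdeg) hρf₂ (by rw [div_mul_cancel₀ _ hf₂0]; exact f₁.2)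
  refine ⟨⟨(f₁ : FF L N) / f₂, hbB⟩, ?_, fun σ hσ => ?_, fun Q hQ => ?_⟩
  · have h1 : (⟨(f₁ : FF L N) / f₂, hbB⟩ : (H42.modReductionData A π N hπ hdeg).B) * f₂ = f₁ := Subtype.ext (by
      rw [Subring.coe_mul]; exact div_mul_cancel₀ _ hf₂0)
    have h2 := congrArg (H42.modReductionData A π N hπ hdeg).ρ h1
    rw [map_mul, hf₂ρ, hf₁ρ, haa] at h2
    exact mul_right_cancel₀ ha₂0 h2
  · show σ • ((f₁ : FF L N) / f₂) = (f₁ : FF L N) / f₂
    rw [div_eq_mul_inv, smul_mul', smul_inv'', hf₁G σ hσ, hf₂G σ hσ]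
  · show Q.adicValuation ((f₁ : FF L N) / f₂) ≤ 1
    have h1 := hr2 f₂ hρf₂ (H3RR.divOf (f₂ : FF L N)) (H3RR.divOf_apply hf₂0) x
    rw [hf₂ρ, hxa₂] at h1
    have h2 : H97.cls r ((H3RR.divOf (f₂ : FF L N) : Divisor L (FF L N)) +
        Finsupp.single P₀ n) x = 0 := by
      rw [H97.cls_add]
      have h3 : H97.cls r (H3RR.divOf (f₂ : FF L N) : Divisor L (FF L N)) x =
          -(Finsupp.single (r P₀) n : Divisor k (modularFunctionFieldFullC k N)) x := h1
      have h4 : H97.cls r (Finsupp.single P₀ n : Divisor L (FF L N)) x =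
          (Finsupp.single (r P₀) n : Divisor k (modularFunctionFieldFullC k N)) x := by
        rw [H97.cls, Finsupp.mapDomain_single]
      rw [h3, h4]
      ring
    rw [H40.mem_L hf₂0] at hf₂L
    rw [H40.mem_L hf₁0] at hf₁L
    have h5 := H97.eq_zero_of_cls_eq_zero r (fun P' _ => by
      rw [Finsupp.add_apply, H3RR.divOf_apply hf₂0]
      have := hf₂L P'
      omega) h2 hQ
    rw [Finsupp.add_apply, H3RR.divOf_apply hf₂0] at h5
    have h6 := hf₁L Q
    rw [Place.adicValuation_le_one_iff]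
    right
    rw [H31.MP.ord_div Q hf₁0 hf₂0]
    rw [Finsupp.single_apply] at h5 h6
    by_cases hQP : P₀ = Q
    · rw [if_pos hQP] at h5 h6
      have := hxP (by rw [← hQ, hQP])
      omega
    · rw [if_neg hQP] at h5 h6
      omega

end Fermat.Agent.H31.In
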