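import Mathlib
import Fermat.Prelude.Def_ModularCurve_HeckeOperatorTotal
import Fermat.Prelude.Def_ModularCurve_ReductionModL
import Fermat.Agent.H60Series

set_option autoImplicit false

noncomputable section

open AlgebraicCurve ModularCurve IntermediateField HahnSeries

namespace Fermat.Agent.H60

/-- The norm as a product over a family of distinct embeddings of the right cardinality. -/
theorem map_norm_eq_prod {F F' E : Type*} [Field F] [Field F'] [Field E] [Algebra F F']
    [FiniteDimensional F F'] [Algebra.IsSeparable F F'] (j : F →+* E) {ι : Type*} [Fintype ι]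
    (σ : ι → (F' →+* E)) (hj : ∀ i x, σ i (algebraMap F F' x) = j x)
    (hσ : Function.Injective σ)
    (hcard : Module.finrank F F' ≤ Fintype.card ι) (z : F') :
    j (Algebra.norm F z) = ∏ i, σ i z := by
  classical
  let _ : Algebra F E := j.toAlgebra
  let s : ι → (F' →ₐ[F] E) := fun i => { σ i with commutes' := fun x => hj i x }
  have hs : Function.Injective s := by
    intro i i' h
    apply hσ
    ext x
    exact DFunLike.congr_fun h x
  let Ω := AlgebraicClosure E
  let e0 : E →ₐ[F] Ω := IsScalarTower.toAlgHom F E Ω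
  have he0 : Function.Injective e0 := e0.toRingHom.injective
  apply he0
  let e : ι → (F' →ₐ[F] Ω) := fun i => e0.comp (s i)
  have he : Function.Injective e := by
    intro i i' h
    apply hs
    ext x
    exact he0 (DFunLike.congr_fun h x)
  have hcard' : Fintype.card (F' →ₐ[F] Ω) = Module.finrank F F' := AlgHom.card F F' Ω
  have hbij : Function.Bijective e := by
    rw [Fintype.bijective_iff_injective_and_card]
    refine ⟨he, le_antisymm (Fintype.card_le_of_injective e he) ?_⟩
    rw [hcard']; exact hcard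
  have h1 : e0 (j (Algebra.norm F z)) = algebraMap F Ω (Algebra.norm F z) :=
    (IsScalarTower.algebraMap_apply F E Ω (Algebra.norm F z)).symm
  rw [h1, Algebra.norm_eq_prod_embeddings F Ω z, map_prod]
  exact (hbij.prod_comp (fun τ : F' →ₐ[F] Ω => τ z)).symm

section HeckeNorm

variable {L : Type*} [Field L] [Algebra ℚ L] {N ℓ : ℕ} [NeZero N] [NeZero ℓ]

/-- Norm along `φ : F →ₐ F'`. -/
def normAlong {K F F' : Type*} [Field K] [Field F] [Field F'] [Algebra K F] [Algebra K F']
    (φ : F →ₐ[K] F') (z : F') : F :=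
  letI := algebraAlong φ
  Algebra.norm F z

/-- A "swap" embedding: an embedding of `F_{Nℓ}` in `L((q))` with `x(q) ↦ x(q^ℓ)` and
`x(q^ℓ) ↦ x(q)` for `x ∈ F_N`. -/
structure IsSwap (w : laurentBaseChange L (modularFunctionFieldFull (N * ℓ)) →+*
    LaurentSeries L) : Prop where
  alpha : ∀ x : laurentBaseChange L (modularFunctionFieldFull N),
    w (heckeAlphaBar L N ℓ x) = qExpand L ℓ (x : LaurentSeries L)
  beta : ∀ x : laurentBaseChange L (modularFunctionFieldFull N),
    w (heckeBetaBar L N ℓ x) = (x : LaurentSeries L)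

/-- An Atkin–Lehner type endomorphism exchanging the degeneracy maps gives a swap embedding. -/
theorem IsSwap.of_algHom (W : laurentBaseChange L (modularFunctionFieldFull (N * ℓ)) →+*
    laurentBaseChange L (modularFunctionFieldFull (N * ℓ)))
    (hα : ∀ x, W (heckeAlphaBar L N ℓ x) = heckeBetaBar L N ℓ x)
    (hβ : ∀ x, W (heckeBetaBar L N ℓ x) = heckeAlphaBar L N ℓ x) :
    IsSwap ((algebraMap (laurentBaseChange L (modularFunctionFieldFull (N * ℓ)))
      (LaurentSeries L)).comp W) where
  alpha x := by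
    rw [RingHom.comp_apply, hα]
    rfl
  beta x := by
    rw [RingHom.comp_apply, hβ]
    exact coe_heckeAlphaBar N ℓ x

/-- The family of embeddings of `F_{Nℓ}` in `L((q))` which restrict to `x ↦ x(q^ℓ)` on `F_N`. -/
def heckeEmb (w : laurentBaseChange L (modularFunctionFieldFull (N * ℓ)) →+* LaurentSeries L)
    (ζ : Lˣ) :
    Option (Fin ℓ) → (laurentBaseChange L (modularFunctionFieldFull (N * ℓ)) →+* LaurentSeries L)
  | none => (qExpand L ℓ).comp (algebraMap _ (LaurentSeries L))
  | some i => (twist (ζ ^ (i : ℕ))).comp w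

omit [NeZero N] in
theorem heckeEmb_none (w : laurentBaseChange L (modularFunctionFieldFull (N * ℓ)) →+*
    LaurentSeries L) (ζ : Lˣ)
    (x : laurentBaseChange L (modularFunctionFieldFull (N * ℓ))) :
    heckeEmb w ζ none x = qExpand L ℓ (x : LaurentSeries L) := rfl

omit [NeZero N] in
theorem heckeEmb_some (w : laurentBaseChange L (modularFunctionFieldFull (N * ℓ)) →+*
    LaurentSeries L) (ζ : Lˣ) (i : Fin ℓ)
    (x : laurentBaseChange L (modularFunctionFieldFull (N * ℓ))) :
    heckeEmb w ζ (some i) x = twist (ζ ^ (i : ℕ)) (w x) := rfl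

variable {w : laurentBaseChange L (modularFunctionFieldFull (N * ℓ)) →+* LaurentSeries L}

theorem heckeEmb_alpha (hw : IsSwap w) {ζ : Lˣ} (hζ : ζ ^ ℓ = 1) (o : Option (Fin ℓ))
    (x : laurentBaseChange L (modularFunctionFieldFull N)) :
    heckeEmb w ζ o (heckeAlphaBar L N ℓ x) = qExpand L ℓ (x : LaurentSeries L) := by
  rcases o with _ | i
  · rw [heckeEmb_none, coe_heckeAlphaBar]
  · rw [heckeEmb_some, hw.alpha, twist_qExpand_of_pow_eq_one]
    rw [← pow_mul, mul_comm, pow_mul, hζ, one_pow]

theorem heckeEmb_injective (hw : IsSwap w) (hℓ : 1 < ℓ) {ζ : Lˣ} (hζ : IsPrimitiveRoot ζ ℓ) :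
    Function.Injective (heckeEmb w ζ) := by
  -- the `j`-function
  have hjmem : coeffEmb L jq ∈ laurentBaseChange L (modularFunctionFieldFull N) := by
    refine coeffEmb_mem_laurentBaseChange L ?_
    have h := jqd_mem_full N (one_dvd N)
    rwa [qExpand_one_apply] at h
  let jL : laurentBaseChange L (modularFunctionFieldFull N) := ⟨coeffEmb L jq, hjmem⟩
  have hj : (jL : LaurentSeries L).coeff (-1) = 1 := by
    show algebraMap ℚ L (jq.coeff (-1)) = 1
    rw [coeff_jq_neg_one, map_one]
  have hnone : (heckeEmb w ζ none (heckeBetaBar L N ℓ jL)).coeff (-1) = 0 := by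
    rw [heckeEmb_none, coe_heckeBetaBar]
    refine qExpand_coeff_of_not_dvd ℓ _ ?_
    rintro ⟨c, hc⟩
    have : (ℓ : ℤ) ∣ 1 := ⟨-c, by linarith⟩
    have := Int.le_of_dvd one_pos this
    omega
  have hsome : ∀ i : Fin ℓ, (heckeEmb w ζ (some i) (heckeBetaBar L N ℓ jL)).coeff (-1) =
      (((ζ ^ (i : ℕ)) ^ (-1 : ℤ) : Lˣ) : L) := by
    intro i
    rw [heckeEmb_some, hw.beta, twist_coeff, hj, mul_one]
  intro o o' h
  have hc : (heckeEmb w ζ o (heckeBetaBar L N ℓ jL)).coeff (-1) =
      (heckeEmb w ζ o' (heckeBetaBar L N ℓ jL)).coeff (-1) := by rw [h]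
  rcases o with _ | i <;> rcases o' with _ | i'
  · rfl
  · rw [hnone, hsome] at hc
    exact absurd hc.symm (Units.ne_zero _)
  · rw [hnone, hsome] at hc
    exact absurd hc (Units.ne_zero _)
  · rw [hsome, hsome] at hc
    have h1 : (ζ ^ (i : ℕ)) ^ (-1 : ℤ) = (ζ ^ (i' : ℕ)) ^ (-1 : ℤ) := Units.ext hc
    rw [zpow_neg_one, zpow_neg_one, inv_inj] at h1
    have := hζ.pow_inj i.2 i'.2 h1
    rw [Fin.ext this]

/-- **The norm formula in terms of `q`-expansions.** -/
theorem qExpand_normAlong [CharZero L] (hw : IsSwap w) (hℓ : 1 < ℓ) {ζ : Lˣ}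
    (hζ : IsPrimitiveRoot ζ ℓ)
    (hfin : FiniteAlong L (heckeAlphaBar L N ℓ))
    (hdeg : finrankAlong L (heckeAlphaBar L N ℓ) ≤ ℓ + 1)
    (x : laurentBaseChange L (modularFunctionFieldFull N)) :
    qExpand L ℓ ((normAlong (heckeAlphaBar L N ℓ) (heckeBetaBar L N ℓ x) :
        laurentBaseChange L (modularFunctionFieldFull N)) : LaurentSeries L) =
      normSeries ℓ ζ (x : LaurentSeries L) := by
  letI := algebraAlong (heckeAlphaBar L N ℓ)
  haveI : FiniteDimensional (laurentBaseChange L (modularFunctionFieldFull N))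
    (laurentBaseChange L (modularFunctionFieldFull (N * ℓ))) := hfin
  haveI : CharZero (laurentBaseChange L (modularFunctionFieldFull N)) :=
    charZero_of_injective_algebraMap
      (algebraMap L (laurentBaseChange L (modularFunctionFieldFull N))).injective
  have h := map_norm_eq_prod
    (F := laurentBaseChange L (modularFunctionFieldFull N))
    (F' := laurentBaseChange L (modularFunctionFieldFull (N * ℓ)))
    (E := LaurentSeries L)
    ((qExpand L ℓ).comp (algebraMap (laurentBaseChange L (modularFunctionFieldFull N))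
      (LaurentSeries L)))
    (heckeEmb w ζ)
    (fun o x => heckeEmb_alpha hw hζ.pow_eq_one o x)
    (heckeEmb_injective hw hℓ hζ)
    (by
      rw [Fintype.card_option, Fintype.card_fin]
      exact hdeg)
    (heckeBetaBar L N ℓ x)
  have h2 : qExpand L ℓ ((normAlong (heckeAlphaBar L N ℓ) (heckeBetaBar L N ℓ x) :
        laurentBaseChange L (modularFunctionFieldFull N)) : LaurentSeries L) =
      ∏ i, heckeEmb w ζ i (heckeBetaBar L N ℓ x) := h
  rw [h2, Fintype.prod_option, normSeries, heckeEmb_none, coe_heckeBetaBar,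
    ← Fin.prod_univ_eq_prod_range (fun i => twist (ζ ^ i) (x : LaurentSeries L)) ℓ]
  congr 1
  refine Finset.prod_congr rfl fun i _ => ?_
  rw [heckeEmb_some, hw.beta]

end HeckeNorm

end Fermat.Agent.H60
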