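import Mathlib
import Fermat.Agent.H60Norm
import Fermat.Agent.H60Galois

set_option autoImplicit false

noncomputable section

open AlgebraicCurve ModularCurve IntermediateField HahnSeries

namespace Fermat.Agent.H60

/-! ### Lifting Laurent series with coefficients in a subring -/

theorem exists_coeffMap_subtype_eq {L : Type*} [Field L] (A : ValuationSubring L)
    (x : LaurentSeries L) (hx : ∀ n, x.coeff n ∈ A) : ∃ y : LaurentSeries A,
      coeffMap A.subtype y = x := by
  refine ⟨⟨fun n => ⟨x.coeff n, hx n⟩, x.isPWO_support.mono fun n hn => ?_⟩, ?_⟩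
  · simp only [Function.mem_support] at hn
    intro h
    exact hn (Subtype.ext h)
  · ext n
    rfl

theorem coeffMap_injective {R S : Type*} [CommRing R] [CommRing S] {f : R →+* S}
    (hf : Function.Injective f) : Function.Injective (coeffMap f) := by
  intro x y h
  ext n
  exact hf (by
    have := congrArg (fun z : LaurentSeries S => z.coeff n) h
    simpa using this)

section Corr

variable {K F F' : Type*} [Field K] [Field F] [Field F'] [Algebra K F] [Algebra K F']
variable [HasPrincipalDivisors K F']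
variable (φ ψ : F →ₐ[K] F') (hφ : φ.toRingHom.IsIntegral) (hψ : ψ.toRingHom.IsIntegral)

/-- The correspondence `ψ_* φ^*` sends `div f` to `div (N_ψ (φ f))`. -/
theorem correspondence_apply_eq_ord (hfin : FiniteAlong K ψ) (hN : NormFormulaAlong K ψ hfin)
    {f : F} (hf : f ≠ 0) {D : Divisor K F} (hD : ∀ v, D v = v.ord f) (v : Place K F) :
    Divisor.correspondence φ ψ hφ hψ D v = v.ord (normAlong ψ (φ f)) := by
  have h1 : ∀ w, Divisor.pullbackAlong φ hφ D w = w.ord (φ f) := by
    intro w
    rw [Divisor.pullbackAlong_apply, hD, ← Place.ord_restrictAlong]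
  have hne : φ f ≠ 0 := by
    intro h
    exact hf (φ.toRingHom.injective (by rw [map_zero]; exact h))
  rw [Divisor.correspondence_apply]
  letI := algebraAlong ψ
  haveI := isScalarTower_along ψ
  haveI : Module.Finite F F' := hfin
  exact hN (φ f) hne _ h1 v

theorem normAlong_ne_zero (hfin : FiniteAlong K ψ) {z : F'} (hz : z ≠ 0) :
    normAlong ψ z ≠ 0 := by
  letI := algebraAlong ψ
  haveI : Module.Finite F F' := hfin
  exact Algebra.norm_ne_zero_iff.mpr hz

omit [HasPrincipalDivisors K F'] in
theorem pushforwardAlong_nonneg {E : Divisor K F'} (hE : ∀ w, 0 ≤ E w) (v : Place K F) :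
    0 ≤ Divisor.pushforwardAlong ψ hψ E v := by
  classical
  letI := algebraAlong ψ
  haveI := isScalarTower_along ψ
  haveI := isIntegral_along ψ hψ
  show 0 ≤ Divisor.pushforward F E v
  rw [Divisor.pushforward_apply]
  refine Finset.sum_nonneg fun w _ => ?_
  split_ifs
  · exact mul_nonneg (hE w) (Int.natCast_nonneg _)
  · exact le_rfl

theorem correspondence_nonneg {E : Divisor K F} (hE : ∀ w, 0 ≤ E w) (v : Place K F) :
    0 ≤ Divisor.correspondence φ ψ hφ hψ E v := by
  rw [Divisor.correspondence_apply]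
  refine pushforwardAlong_nonneg ψ hψ (fun w => ?_) v
  rw [Divisor.pullbackAlong_apply]
  exact mul_nonneg (Int.natCast_nonneg _) (hE _)

end Corr

section ES

variable {L : Type*} [Field L] [Algebra ℚ L] [CharZero L] {A : ValuationSubring L}
variable {k : Type*} [Field k] {π : A →+* k} {N ℓ : ℕ} [NeZero N] [NeZero ℓ]
variable {w : laurentBaseChange L (modularFunctionFieldFull (N * ℓ)) →+* LaurentSeries L}

/-- The reduction of the norm of an integral function. -/
theorem exists_norm_reduction [Fact ℓ.Prime] [CharP k ℓ] (hw : IsSwap w)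
    {ζ : Aˣ} (hζ : IsPrimitiveRoot (Units.map (A.subtype : A →* L) ζ) ℓ)
    (hζ1 : Units.map (π : A →* k) ζ = 1)
    (hfin : FiniteAlong L (heckeAlphaBar L N ℓ))
    (hdeg : finrankAlong L (heckeAlphaBar L N ℓ) ≤ ℓ + 1)
    (y : LaurentSeries A)
    (hy : coeffMap A.subtype y ∈ laurentBaseChange L (modularFunctionFieldFull N)) :
    ∃ y' : LaurentSeries A,
      coeffMap A.subtype y' = ((normAlong (heckeAlphaBar L N ℓ)
        (heckeBetaBar L N ℓ ⟨coeffMap A.subtype y, hy⟩) :
          laurentBaseChange L (modularFunctionFieldFull N)) : LaurentSeries L) ∧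
      coeffMap π y' = qExpand k ℓ (coeffMap π y) * coeffMap (frobenius k ℓ) (coeffMap π y) := by
  have hℓ : 1 < ℓ := (Fact.out : ℓ.Prime).one_lt
  set x : laurentBaseChange L (modularFunctionFieldFull N) := ⟨coeffMap A.subtype y, hy⟩ with hx
  set z : laurentBaseChange L (modularFunctionFieldFull N) :=
    normAlong (heckeAlphaBar L N ℓ) (heckeBetaBar L N ℓ x) with hz
  have h1 : qExpand L ℓ (z : LaurentSeries L) = coeffMap A.subtype (normSeries ℓ ζ y) := by
    rw [hz, qExpand_normAlong hw hℓ hζ hfin hdeg x, coeffMap_normSeries]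
  have hint : ∀ n, (z : LaurentSeries L).coeff n ∈ A := by
    intro n
    have : (z : LaurentSeries L).coeff n = (qExpand L ℓ (z : LaurentSeries L)).coeff (ℓ * n) :=
      (qExpand_coeff_mul ℓ _ n).symm
    rw [this, h1, coeffMap_coeff]
    exact ((normSeries ℓ ζ y).coeff (ℓ * n)).2
  obtain ⟨y', hy'⟩ := exists_coeffMap_subtype_eq A _ hint
  refine ⟨y', hy', ?_⟩
  have h2 : qExpand A ℓ y' = normSeries ℓ ζ y := by
    apply coeffMap_injective (f := A.subtype) Subtype.val_injective
    rw [coeffMap_qExpand_H60, hy', h1]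
  have h3 : qExpand k ℓ (coeffMap π y') =
      qExpand k ℓ (qExpand k ℓ (coeffMap π y) * coeffMap (frobenius k ℓ) (coeffMap π y)) := by
    rw [← coeffMap_qExpand_H60, h2, coeffMap_normSeries, hζ1, normSeries_one]
  exact qExpand_injective ℓ h3

variable {r : Place L (laurentBaseChange L (modularFunctionFieldFull N)) →
      Place k (modularFunctionFieldFullC k N)}
variable [HasPrincipalDivisors L (laurentBaseChange L (modularFunctionFieldFull (N * ℓ)))]

set_option maxHeartbeats 4000000 in
/-- **Eichler–Shimura congruence, integral principal divisors.** -/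
theorem eichlerShimura_of_mem_integral [Fact ℓ.Prime] [CharP k ℓ] (hw : IsSwap w)
    {ζ : Aˣ} (hζ : IsPrimitiveRoot (Units.map (A.subtype : A →* L) ζ) ℓ)
    (hζ1 : Units.map (π : A →* k) ζ = 1)
    (hα : HeckeAlphaBarIntegral L N ℓ) (hβ : HeckeBetaBarIntegral L N ℓ)
    (hfin : FiniteAlong L (heckeAlphaBar L N ℓ))
    (hN : NormFormulaAlong L (heckeAlphaBar L N ℓ) hfin)
    (hdeg : finrankAlong L (heckeAlphaBar L N ℓ) ≤ ℓ + 1)
    (hr : IsPlaceReductionAlong A π N r)
    {τ : k ≃+* k} (hτ : ∀ x, τ x = x ^ ℓ)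
    {D : Divisor L (laurentBaseChange L (modularFunctionFieldFull N))}
    (hD : D ∈ integralPrincipalDivisors A π N) :
    Finsupp.mapDomain r (heckeDivBar hα hβ D) =
      coeffAut N τ • Finsupp.mapDomain r D
        + (ℓ : ℤ) • ((coeffAut N τ)⁻¹ • Finsupp.mapDomain r D) := by
  obtain ⟨y, hy, hyk, hne, hDy⟩ := hD
  set x : laurentBaseChange L (modularFunctionFieldFull N) := ⟨coeffMap A.subtype y, hy⟩ with hx
  set xk : modularFunctionFieldFullC k N := ⟨coeffMap π y, hyk⟩ with hxk
  have hDred : ∀ Q, Finsupp.mapDomain r D Q = Q.ord xk := hr.2 y hy hyk hne D hDy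
  have hxk0 : xk ≠ 0 := fun h => hne (congrArg Subtype.val h)
  have hx0 : x ≠ 0 := by
    intro h
    apply hne
    have h0 : coeffMap A.subtype y = 0 := congrArg Subtype.val h
    have : y = 0 := by
      apply coeffMap_injective (f := A.subtype) Subtype.val_injective
      rw [h0, map_zero]
    rw [this, map_zero]
  obtain ⟨y', hy', hyk'⟩ := exists_norm_reduction hw hζ hζ1 hfin hdeg y hy
  set z : laurentBaseChange L (modularFunctionFieldFull N) :=
    normAlong (heckeAlphaBar L N ℓ) (heckeBetaBar L N ℓ x) with hz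
  have hy'mem : coeffMap A.subtype y' ∈ laurentBaseChange L (modularFunctionFieldFull N) := by
    rw [hy']; exact z.2
  -- the reduced norm
  set t := coeffAut (k := k) N τ with ht
  have hfrob : ((τ : k ≃+* k) : k →+* k) = frobenius k ℓ := RingHom.ext fun a => hτ a
  set zk : modularFunctionFieldFullC k N := (t⁻¹ • xk) ^ ℓ * (t • xk) with hzk
  have hcoe_tinv : ((t⁻¹ • xk : modularFunctionFieldFullC k N) : LaurentSeries k) ^ ℓ
      = qExpand k ℓ (coeffMap π y) := by
    rw [laurent_pow_char ℓ, ← hfrob]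
    congr 1
    have : t • (t⁻¹ • xk) = xk := smul_inv_smul t xk
    exact congrArg Subtype.val this
  have hcoe : coeffMap π y' = (zk : LaurentSeries k) := by
    rw [hyk', hzk, MulMemClass.coe_mul, SubmonoidClass.coe_pow, hcoe_tinv, ← hfrob]
    rfl
  have hyk'mem : coeffMap π y' ∈ modularFunctionFieldFullC k N := by rw [hcoe]; exact zk.2
  have htx0 : t • xk ≠ 0 := by
    intro h
    exact hxk0 (by simpa using h)
  have htix0 : t⁻¹ • xk ≠ 0 := by
    intro h
    apply hxk0
    have := congrArg (fun u => t • u) h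
    simpa only [smul_inv_smul, smul_zero] using this
  have hzk0 : zk ≠ 0 := mul_ne_zero (pow_ne_zero _ htix0) htx0
  have hne' : coeffMap π y' ≠ 0 := by
    rw [hcoe]
    exact fun h => hzk0 (Subtype.ext h)
  have hTD : ∀ P, heckeDivBar hα hβ D P = P.ord
      (⟨coeffMap A.subtype y', hy'mem⟩ : laurentBaseChange L (modularFunctionFieldFull N)) := by
    intro P
    have e : (⟨coeffMap A.subtype y', hy'mem⟩ :
        laurentBaseChange L (modularFunctionFieldFull N)) = z := Subtype.ext hy'
    rw [e]
    exact correspondence_apply_eq_ord _ _ hβ hα hfin hN hx0 hDy P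
  ext Q
  rw [hr.2 y' hy'mem hyk'mem hne' _ hTD Q]
  have e : (⟨coeffMap π y', hyk'mem⟩ : modularFunctionFieldFullC k N) = zk := Subtype.ext hcoe
  rw [e, hzk, Q.ord_mul (pow_ne_zero _ htix0) htx0, Finsupp.add_apply, Finsupp.smul_apply,
    SemilinearAut.divisor_smul_apply, SemilinearAut.divisor_smul_apply, hDred, hDred,
    ← zpow_natCast, Q.ord_zpow, smul_eq_mul, inv_inv, add_comm]
  congr 1
  · have h := SemilinearAut.ord_smul t (t⁻¹ • Q) xk
    rw [smul_inv_smul] at h
    exact h
  · have h := SemilinearAut.ord_smul t⁻¹ (t • Q) xk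
    rw [inv_smul_smul] at h
    rw [h]

variable [HasPrincipalDivisors L (laurentBaseChange L (modularFunctionFieldFull N))]

set_option maxHeartbeats 4000000 in
/-- **Eichler–Shimura congruence on divisors of degree zero.** -/
theorem eichlerShimura_of_degZero [Fact ℓ.Prime] [CharP k ℓ] (hw : IsSwap w)
    {ζ : Aˣ} (hζ : IsPrimitiveRoot (Units.map (A.subtype : A →* L) ζ) ℓ)
    (hζ1 : Units.map (π : A →* k) ζ = 1)
    (hα : HeckeAlphaBarIntegral L N ℓ) (hβ : HeckeBetaBarIntegral L N ℓ)
    (hFI : FundamentalIdentityAlong L (heckeBetaBar L N ℓ) hβ)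
    (hfin : FiniteAlong L (heckeAlphaBar L N ℓ))
    (hN : NormFormulaAlong L (heckeAlphaBar L N ℓ) hfin)
    (hdeg : finrankAlong L (heckeAlphaBar L N ℓ) ≤ ℓ + 1)
    (hR : RiemannBound L (laurentBaseChange L (modularFunctionFieldFull N)))
    (hdeg1 : ∀ v : Place L (laurentBaseChange L (modularFunctionFieldFull N)), v.deg = 1)
    (hr : IsPlaceReductionAlong A π N r)
    (hgen : PrincipalGeneratedByIntegral A π N)
    {τ : k ≃+* k} (hτ : ∀ x, τ x = x ^ ℓ)
    {D : Divisor L (laurentBaseChange L (modularFunctionFieldFull N))}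
    (hD : D ∈ Divisor.degZero (K := L) (F := laurentBaseChange L (modularFunctionFieldFull N))) :
    Finsupp.mapDomain r (heckeDivBar hα hβ D) =
      coeffAut N τ • Finsupp.mapDomain r D
        + (ℓ : ℤ) • ((coeffAut N τ)⁻¹ • Finsupp.mapDomain r D) := by
  set t := coeffAut (k := k) N τ with ht
  let ρ : Divisor L (laurentBaseChange L (modularFunctionFieldFull N)) →+
      Divisor k (modularFunctionFieldFullC k N) := Finsupp.mapDomain.addMonoidHom r
  let δ : Divisor L (laurentBaseChange L (modularFunctionFieldFull N)) →+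
      Divisor k (modularFunctionFieldFullC k N) :=
    ρ.comp (heckeDivBar hα hβ) - ((DistribSMul.toAddMonoidHom _ t).comp ρ
      + (ℓ : ℤ) • ((DistribSMul.toAddMonoidHom _ t⁻¹).comp ρ))
  have hδapp : ∀ D, δ D = Finsupp.mapDomain r (heckeDivBar hα hβ D) -
      (t • Finsupp.mapDomain r D + (ℓ : ℤ) • (t⁻¹ • Finsupp.mapDomain r D)) := fun _ => rfl
  have hδ : ∀ D ∈ Divisor.principal (K := L)
      (F := laurentBaseChange L (modularFunctionFieldFull N)), δ D = 0 := by
    intro D hD
    have hD' := hgen hD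
    clear hD
    induction hD' using AddSubgroup.closure_induction with
    | mem E hE =>
      rw [hδapp, eichlerShimura_of_mem_integral hw hζ hζ1 hα hβ hfin hN hdeg hr hτ hE, sub_self]
    | zero => exact map_zero δ
    | add E E' _ _ hE hE' => rw [map_add, hE, hE', add_zero]
    | neg E _ hE => rw [map_neg, hE, neg_zero]
  have hC : ∀ (P : Place L (laurentBaseChange L (modularFunctionFieldFull N)))
      (Q : Place k (modularFunctionFieldFullC k N)), |δ (Finsupp.single P 1) Q| ≤
        (finrankAlong L (heckeBetaBar L N ℓ) : ℤ) + (1 + ℓ) := by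
    intro P Q
    have hpos : ∀ v, 0 ≤ heckeDivBar hα hβ (Finsupp.single P 1) v := by
      intro v
      refine correspondence_nonneg _ _ hβ hα (fun u => ?_) v
      classical
      rw [Finsupp.single_apply]
      split_ifs <;> norm_num
    have hdegT : Divisor.degree (heckeDivBar hα hβ (Finsupp.single P 1)) =
        (finrankAlong L (heckeBetaBar L N ℓ) : ℤ) := by
      have := Divisor.degree_correspondence (heckeBetaBar L N ℓ) (heckeAlphaBar L N ℓ) hβ hα hFI
        (Finsupp.single P 1)
      rw [heckeDivBar, this, Divisor.degree_single, hdeg1]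
      simp
    have h0 := mapDomain_apply_le_degree hdeg1 r _ hpos Q
    rw [hdegT] at h0
    rw [hδapp, Finsupp.mapDomain_single, SemilinearAut.smul_single, SemilinearAut.smul_single,
      Finsupp.sub_apply]
    refine (abs_sub _ _).trans ?_
    have h1 : |Finsupp.mapDomain r (heckeDivBar hα hβ (Finsupp.single P 1)) Q| ≤
        (finrankAlong L (heckeBetaBar L N ℓ) : ℤ) := by
      rw [abs_of_nonneg h0.1]; exact h0.2
    have h2 := abs_single_one_le (t • r P) Q
    have h3 := abs_single_one_le (t⁻¹ • r P) Q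
    have h4 : |((Finsupp.single (t • r P) (1 : ℤ) + (ℓ : ℤ) • Finsupp.single (t⁻¹ • r P) 1) :
        Divisor k (modularFunctionFieldFullC k N)) Q| ≤ 1 + ℓ := by
      rw [Finsupp.add_apply, Finsupp.smul_apply, smul_eq_mul]
      refine (abs_add_le _ _).trans ?_
      rw [abs_mul, Nat.abs_cast]
      have := mul_le_mul_of_nonneg_left h3 (Int.natCast_nonneg ℓ)
      linarith
    linarith
  have := hom_eq_zero_of_bounded hR hdeg1 δ hδ hC D hD
  rw [hδapp, sub_eq_zero] at this
  exact this

end ES

end Fermat.Agent.H60
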