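import Fermat.Agent.H34Two3
import Fermat.Agent.H60Hecke

/-!
# Gauss reduction of Laurent series as a relation

`Red A π f fb` : the Laurent series `f` over `L` is a quotient `y / z` of series over `A`, `z̄ ≠ 0`,
and `fb = ȳ / z̄`.
-/

set_option autoImplicit false
set_option linter.unusedSectionVars false

open HahnSeries ModularCurve Fermat.Agent.H42

noncomputable section

namespace Fermat.Agent.H38.Mz

section Red

variable {L : Type*} [Field L] (A : ValuationSubring L) {k : Type*} [Field k] (π : A →+* k)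

/-- Gauss reduction, as a relation. -/
def Red (f : LaurentSeries L) (fb : LaurentSeries k) : Prop :=
  ∃ y z : LaurentSeries A, coeffMap π z ≠ 0 ∧
    f * coeffMap A.subtype z = coeffMap A.subtype y ∧ fb * coeffMap π z = coeffMap π y

variable {A π} {f g : LaurentSeries L} {fb gb : LaurentSeries k}

theorem sub_inj {x y : LaurentSeries A} (h : coeffMap A.subtype x = coeffMap A.subtype y) :
    x = y := H60.coeffMap_injective (f := A.subtype) Subtype.val_injective h

theorem Red.coe (y : LaurentSeries A) : Red A π (coeffMap A.subtype y) (coeffMap π y) :=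
  ⟨y, 1, by rw [map_one]; exact one_ne_zero, by rw [map_one, mul_one], by rw [map_one, mul_one]⟩

theorem Red.one : Red A π 1 1 := by
  have := Red.coe (A := A) (π := π) 1
  rwa [map_one, map_one] at this

theorem Red.zero : Red A π 0 0 := by
  have := Red.coe (A := A) (π := π) 0
  rwa [map_zero, map_zero] at this

theorem algebraMap_eq_coeffMap (a : A) :
    algebraMap L (LaurentSeries L) (a : L) = coeffMap A.subtype (HahnSeries.single 0 a) := by
  rw [coeffMap_single, algebraMap_laurentSeries_eq_single]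
  rfl

theorem Red.const (a : A) :
    Red A π (algebraMap L (LaurentSeries L) (a : L)) (algebraMap k (LaurentSeries k) (π a)) := by
  rw [algebraMap_eq_coeffMap]
  have := Red.coe (A := A) (π := π) (HahnSeries.single 0 a)
  rwa [coeffMap_single (f := π), ← algebraMap_laurentSeries_eq_single] at this

theorem Red.mul (hf : Red A π f fb) (hg : Red A π g gb) : Red A π (f * g) (fb * gb) := by
  obtain ⟨y, z, hz, h1, h2⟩ := hf
  obtain ⟨y', z', hz', h1', h2'⟩ := hg
  refine ⟨y * y', z * z', by rw [map_mul]; exact mul_ne_zero hz hz', ?_, ?_⟩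
  · rw [map_mul, map_mul, ← h1, ← h1']; ring
  · rw [map_mul, map_mul, ← h2, ← h2']; ring

theorem Red.add (hf : Red A π f fb) (hg : Red A π g gb) : Red A π (f + g) (fb + gb) := by
  obtain ⟨y, z, hz, h1, h2⟩ := hf
  obtain ⟨y', z', hz', h1', h2'⟩ := hg
  refine ⟨y * z' + y' * z, z * z', by rw [map_mul]; exact mul_ne_zero hz hz', ?_, ?_⟩
  · rw [map_mul, map_add, map_mul, map_mul, ← h1, ← h1']; ring
  · rw [map_mul, map_add, map_mul, map_mul, ← h2, ← h2']; ring

theorem Red.neg (hf : Red A π f fb) : Red A π (-f) (-fb) := by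
  obtain ⟨y, z, hz, h1, h2⟩ := hf
  exact ⟨-y, z, hz, by rw [neg_mul, h1, map_neg], by rw [neg_mul, h2, map_neg]⟩

theorem Red.sub (hf : Red A π f fb) (hg : Red A π g gb) : Red A π (f - g) (fb - gb) := by
  rw [sub_eq_add_neg, sub_eq_add_neg]
  exact hf.add hg.neg

theorem Red.pow (hf : Red A π f fb) (n : ℕ) : Red A π (f ^ n) (fb ^ n) := by
  induction n with
  | zero => rw [pow_zero, pow_zero]; exact Red.one
  | succ n ih => rw [pow_succ, pow_succ]; exact ih.mul hf

theorem Red.prod {ι : Type*} (s : Finset ι) {f : ι → LaurentSeries L} {fb : ι → LaurentSeries k}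
    (h : ∀ i ∈ s, Red A π (f i) (fb i)) : Red A π (∏ i ∈ s, f i) (∏ i ∈ s, fb i) := by
  classical
  induction s using Finset.induction_on with
  | empty => rw [Finset.prod_empty, Finset.prod_empty]; exact Red.one
  | insert a s ha ih =>
    rw [Finset.prod_insert ha, Finset.prod_insert ha]
    exact (h a (Finset.mem_insert_self a s)).mul
      (ih fun i hi => h i (Finset.mem_insert_of_mem hi))

/-- Uniqueness of the reduction. -/
theorem Red.unique (hf : Red A π f fb) (hf' : Red A π f gb) : fb = gb := by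
  obtain ⟨y, z, hz, h1, h2⟩ := hf
  obtain ⟨y', z', hz', h1', h2'⟩ := hf'
  have h3 : y * z' = y' * z := by
    apply sub_inj
    rw [map_mul, map_mul, ← h1, ← h1']; ring
  have h4 := congrArg (coeffMap π) h3
  rw [map_mul, map_mul, ← h2, ← h2'] at h4
  apply mul_right_cancel₀ (mul_ne_zero hz hz')
  rw [← mul_assoc, h4]
  ring

theorem Red.ne_zero (hf : Red A π f fb) (h0 : fb ≠ 0) : f ≠ 0 := by
  rintro rfl
  exact h0 (hf.unique Red.zero)

theorem Red.inv (hf : Red A π f fb) (h0 : fb ≠ 0) : Red A π f⁻¹ fb⁻¹ := by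
  have hf0 := hf.ne_zero h0
  obtain ⟨y, z, hz, h1, h2⟩ := hf
  refine ⟨z, y, by rw [← h2]; exact mul_ne_zero h0 hz, ?_, ?_⟩
  · rw [← h1, ← mul_assoc, inv_mul_cancel₀ hf0, one_mul]
  · rw [← h2, ← mul_assoc, inv_mul_cancel₀ h0, one_mul]

theorem Red.zpow (hf : Red A π f fb) (h0 : fb ≠ 0) (n : ℤ) : Red A π (f ^ n) (fb ^ n) := by
  cases n with
  | ofNat n => rw [Int.ofNat_eq_natCast, zpow_natCast, zpow_natCast]; exact hf.pow n
  | negSucc n =>
    rw [zpow_negSucc, zpow_negSucc]
    exact (hf.pow _).inv (pow_ne_zero _ h0)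

/-- If `f` and `c f` both reduce and `f̄ ≠ 0`, then `c` is integral. -/
theorem Red.mem_of_smul [IsLocalHom π] (hf : Red A π f fb) (h0 : fb ≠ 0) {c : L}
    (hc : Red A π (algebraMap L (LaurentSeries L) c * f) gb) : c ∈ A := by
  by_contra hcA
  obtain ⟨a, ha, ha0⟩ := H34.Two.inv_mem_of_not_mem' A π hcA
  have hc0 : c ≠ 0 := fun h => hcA (h ▸ A.zero_mem)
  have h1 := (Red.const (π := π) a).mul hc
  have h2 : algebraMap L (LaurentSeries L) (a : L) * (algebraMap L (LaurentSeries L) c * f) = f := by
    rw [← mul_assoc, ← map_mul, ha, inv_mul_cancel₀ hc0, map_one, one_mul]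
  rw [h2, ha0, map_zero, zero_mul] at h1
  exact h0 (hf.unique h1)

theorem Red.smul_eq [IsLocalHom π] (hf : Red A π f fb) (h0 : fb ≠ 0) {c : L}
    (hc : Red A π (algebraMap L (LaurentSeries L) c * f) gb) :
    gb = algebraMap k (LaurentSeries k) (π ⟨c, hf.mem_of_smul h0 hc⟩) * fb :=
  hc.unique ((Red.const (π := π) ⟨c, hf.mem_of_smul h0 hc⟩).mul hf)

theorem isUnit_of_smul [IsLocalHom π] (hf : Red A π f fb) (h0 : fb ≠ 0) {c : L}
    (hc : Red A π (algebraMap L (LaurentSeries L) c * f) gb) (h0' : gb ≠ 0) :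
    IsUnit (⟨c, hf.mem_of_smul h0 hc⟩ : A) := by
  rw [← isUnit_map_iff π, isUnit_iff_ne_zero]
  intro h
  apply h0'
  rw [hf.smul_eq h0 hc, h, map_zero, zero_mul]

theorem qExpand_inj {R : Type*} [CommRing R] (n : ℕ) [NeZero n] :
    Function.Injective (qExpand R n) := qExpand_injective n

theorem Red.qExpand (hf : Red A π f fb) (n : ℕ) [NeZero n] :
    Red A π (qExpand L n f) (qExpand k n fb) := by
  obtain ⟨y, z, hz, h1, h2⟩ := hf
  refine ⟨ModularCurve.qExpand A n y, ModularCurve.qExpand A n z, ?_, ?_, ?_⟩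
  · rw [coeffMap_qExpand]
    intro h
    exact hz (qExpand_inj n (h.trans (map_zero _).symm))
  · rw [coeffMap_qExpand, coeffMap_qExpand, ← map_mul, h1]
  · rw [coeffMap_qExpand, coeffMap_qExpand, ← map_mul, h2]

theorem twist_inj {R : Type*} [CommRing R] (u : Rˣ) : Function.Injective (H60.twist u) := by
  intro x y h
  ext n
  have h1 := congrArg (fun z : LaurentSeries R => z.coeff n) h
  simp only [H60.twist_coeff] at h1
  exact (Units.mul_right_inj _).mp h1

theorem Red.twist (hf : Red A π f fb) (u : Aˣ) :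
    Red A π (H60.twist (Units.map (A.subtype : A →* L) u) f)
      (H60.twist (Units.map (π : A →* k) u) fb) := by
  obtain ⟨y, z, hz, h1, h2⟩ := hf
  refine ⟨H60.twist u y, H60.twist u z, ?_, ?_, ?_⟩
  · rw [H60.coeffMap_twist]
    intro h
    exact hz (twist_inj _ (h.trans (map_zero _).symm))
  · rw [H60.coeffMap_twist, H60.coeffMap_twist]
    exact (map_mul _ _ _).symm.trans (congrArg _ h1)
  · rw [H60.coeffMap_twist, H60.coeffMap_twist, ← map_mul, h2]

theorem Red.normSeries (hf : Red A π f fb) (n : ℕ) [NeZero n] (ζ : Aˣ) :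
    Red A π (H60.normSeries n (Units.map (A.subtype : A →* L) ζ) f)
      (H60.normSeries n (Units.map (π : A →* k) ζ) fb) := by
  unfold H60.normSeries
  refine ((hf.qExpand n).qExpand n).mul (Red.prod _ fun i _ => ?_)
  rw [← map_pow, ← map_pow]
  exact hf.twist (ζ ^ i)

theorem normSeries_mul {R : Type*} [CommRing R] (n : ℕ) [NeZero n] (ζ : Rˣ)
    (x y : LaurentSeries R) :
    H60.normSeries n ζ (x * y) = H60.normSeries n ζ x * H60.normSeries n ζ y := by
  unfold H60.normSeries
  simp only [map_mul, Finset.prod_mul_distrib]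
  ring

theorem normSeries_pow {R : Type*} [CommRing R] (n : ℕ) [NeZero n] (ζ : Rˣ)
    (x : LaurentSeries R) (m : ℕ) :
    H60.normSeries n ζ (x ^ m) = H60.normSeries n ζ x ^ m := by
  unfold H60.normSeries
  simp only [map_pow, Finset.prod_pow, mul_pow]

theorem normSeries_ne_zero {R : Type*} [Field R] (n : ℕ) [NeZero n] (ζ : Rˣ)
    {x : LaurentSeries R} (hx : x ≠ 0) : H60.normSeries n ζ x ≠ 0 := by
  unfold H60.normSeries
  refine mul_ne_zero ?_ (Finset.prod_ne_zero_iff.mpr fun i _ h => ?_)
  · intro h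
    exact hx (qExpand_inj n (qExpand_inj n (h.trans ((map_zero _).symm.trans
      (congrArg _ (map_zero _).symm)))))
  · exact hx (twist_inj _ (h.trans (map_zero _).symm))

theorem twist_algebraMap {R : Type*} [Field R] (u : Rˣ) (c : R) :
    H60.twist u (algebraMap R (LaurentSeries R) c) = algebraMap R (LaurentSeries R) c := by
  rw [algebraMap_laurentSeries_eq_single, H60.twist_single]
  simp

theorem qExpand_algebraMap' {R : Type*} [Field R] (n : ℕ) [NeZero n] (c : R) :
    ModularCurve.qExpand R n (algebraMap R (LaurentSeries R) c) =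
      algebraMap R (LaurentSeries R) c := by
  rw [algebraMap_laurentSeries_eq_single, qExpand_single, mul_zero]

theorem normSeries_algebraMap {R : Type*} [Field R] (n : ℕ) [NeZero n] (ζ : Rˣ) (c : R) :
    H60.normSeries n ζ (algebraMap R (LaurentSeries R) c) =
      algebraMap R (LaurentSeries R) (c ^ (n + 1)) := by
  unfold H60.normSeries
  simp only [twist_algebraMap, qExpand_algebraMap', Finset.prod_const, Finset.card_range]
  rw [← map_pow, ← map_mul, pow_succ']

end Red

end Fermat.Agent.H38.Mz
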