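import Fermat.Prelude.Def_ModularCurve_HeckeModule

set_option autoImplicit false

noncomputable section

namespace Fermat.Agent.H37

open ModularCurve

/-- The coinduced Hecke module `Hom_ℤ(HeckeAlg, M)`. -/
structure Coind (M : Type) [AddCommGroup M] : Type where
  toHom : HeckeAlg →+ M

namespace Coind

variable {M : Type} [AddCommGroup M]

theorem ext' {f g : Coind M} (h : ∀ T, f.toHom T = g.toHom T) : f = g := by
  cases f; cases g; congr; exact AddMonoidHom.ext h

theorem toHom_injective : Function.Injective (toHom (M := M)) := by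
  rintro ⟨f⟩ ⟨g⟩ h
  exact congrArg mk h

instance : Zero (Coind M) := ⟨⟨0⟩⟩
instance : Add (Coind M) := ⟨fun f g => ⟨f.toHom + g.toHom⟩⟩
instance : Neg (Coind M) := ⟨fun f => ⟨-f.toHom⟩⟩
instance : Sub (Coind M) := ⟨fun f g => ⟨f.toHom - g.toHom⟩⟩
instance : SMul ℕ (Coind M) := ⟨fun n f => ⟨n • f.toHom⟩⟩
instance : SMul ℤ (Coind M) := ⟨fun n f => ⟨n • f.toHom⟩⟩

instance : AddCommGroup (Coind M) :=
  toHom_injective.addCommGroup toHom rfl (fun _ _ => rfl) (fun _ => rfl) (fun _ _ => rfl)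
    (fun _ _ => rfl) (fun _ _ => rfl)

@[simp] theorem toHom_zero : (0 : Coind M).toHom = 0 := rfl
@[simp] theorem toHom_add (f g : Coind M) : (f + g).toHom = f.toHom + g.toHom := rfl
@[simp] theorem toHom_neg (f : Coind M) : (-f).toHom = -f.toHom := rfl
@[simp] theorem toHom_sub (f g : Coind M) : (f - g).toHom = f.toHom - g.toHom := rfl
@[simp] theorem toHom_nsmul (n : ℕ) (f : Coind M) : (n • f).toHom = n • f.toHom := rfl

instance : SMul HeckeAlg (Coind M) :=
  ⟨fun T f => ⟨f.toHom.comp (AddMonoidHom.mulRight T)⟩⟩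

@[simp] theorem toHom_smul_apply (T : HeckeAlg) (f : Coind M) (T' : HeckeAlg) :
    (T • f).toHom T' = f.toHom (T' * T) := rfl

instance : Module HeckeAlg (Coind M) where
  one_smul f := ext' fun T => by simp
  mul_smul S T f := ext' fun U => by simp [mul_assoc]
  smul_zero S := ext' fun T => by simp
  smul_add S f g := ext' fun T => by simp
  add_smul S T f := ext' fun U => by simp [mul_add]
  zero_smul f := ext' fun T => by simp

/-- The submodule of the coinduced module on which the special fibre relation holds. -/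
def rel (F : M →+ M) (ℓ : ℕ) (t : HeckeAlg) : Submodule HeckeAlg (Coind M) where
  carrier := {f | ∀ T, F (F (f.toHom T)) - F (f.toHom (T * t)) + ℓ • f.toHom T = 0}
  zero_mem' := fun T => by simp
  add_mem' := by
    intro _ _ hf hg T
    have h1 := hf T
    have h2 := hg T
    simp only [toHom_add, AddMonoidHom.add_apply, map_add, smul_add]
    have h3 := congrArg₂ (· + ·) h1 h2
    simp only [add_zero] at h3
    rw [← h3]
    abel
  smul_mem' := by
    intro S f hf T
    have h1 := hf (T * S)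
    simp only [toHom_smul_apply]
    rwa [show T * t * S = T * S * t by ring]

/-- `F` acting on the coinduced module. -/
def mapF (F : M →+ M) : Coind M →+ Coind M where
  toFun f := ⟨F.comp f.toHom⟩
  map_zero' := ext' fun T => by simp
  map_add' f g := ext' fun T => by simp

@[simp] theorem mapF_toHom_apply (F : M →+ M) (f : Coind M) (T : HeckeAlg) :
    (mapF F f).toHom T = F (f.toHom T) := rfl

theorem mapF_mem_rel (F : M →+ M) (ℓ : ℕ) (t : HeckeAlg) {f : Coind M} (hf : f ∈ rel F ℓ t) :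
    mapF F f ∈ rel F ℓ t := by
  intro T
  simp only [mapF_toHom_apply]
  have h := congrArg F (hf T)
  simpa only [map_add, map_sub, map_nsmul, map_zero] using h

def relF (F : M →+ M) (ℓ : ℕ) (t : HeckeAlg) : rel F ℓ t →+ rel F ℓ t where
  toFun f := ⟨mapF F f, mapF_mem_rel F ℓ t f.2⟩
  map_zero' := Subtype.ext (map_zero _)
  map_add' f g := Subtype.ext (map_add _ _ _)

end Coind

section Core

variable {K L : Type*} [Field K] [Field L] [Algebra K L]
variable (p : ℕ) (J : Type) [AddCommGroup J] [Module HeckeAlg J]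
  [DistribMulAction (L ≃ₐ[K] L) J] [SMulCommClass (L ≃ₐ[K] L) HeckeAlg J]

variable (K) in
/-- The minimal "specialization core" at a place `A` over `ℓ`: only additive maps, and only the
single Hecke operator `T_ℓ` is mentioned. -/
structure IsCore {M : Type} [AddCommGroup M] (A : ValuationSubring L) (ℓ : ℕ) (hℓ : ℓ.Prime)
    (s : J →+ M) (F : M →+ M) : Prop where
  inertia : ∀ σ ∈ A.inertiaSubgroupIn K, ∀ x : J, s (σ • x) = s x
  frob : ∀ σ : L ≃ₐ[K] L, A.IsFrobeniusAt σ ℓ → ∀ x : J, s (σ • x) = F (s x)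
  inj : ∀ x : J, (∃ n : ℕ, p ^ n • x = 0) → s x = 0 → x = 0
  relation : ∀ x : J, F (F (s x)) - F (s (heckeGen ⟨ℓ, hℓ⟩ • x)) + ℓ • s x = 0

variable {p J}

/-- `x ↦ (T ↦ s (T • x))`. -/
def spHom {M : Type} [AddCommGroup M] (s : J →+ M) : J →+ Coind M where
  toFun x := ⟨s.comp (AddMonoidHom.flip (smulAddHom HeckeAlg J) x)⟩
  map_zero' := Coind.ext' fun T => by simp
  map_add' x y := Coind.ext' fun T => by simp

@[simp] theorem spHom_toHom_apply {M : Type} [AddCommGroup M] (s : J →+ M) (x : J)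
    (T : HeckeAlg) : (spHom s x).toHom T = s (T • x) := rfl

theorem IsCore.exists_specialization {M : Type} [AddCommGroup M] {A : ValuationSubring L} {ℓ : ℕ}
    {hℓ : ℓ.Prime} {s : J →+ M} {F : M →+ M} (h : IsCore K p J A ℓ hℓ s F) :
    ∃ (J' : Type) (_ : AddCommGroup J') (_ : Module HeckeAlg J') (sp : J →+ J')
        (F' : J' →+ J'),
        IsSpecialization (K := K) p J J' A ℓ sp F' ∧ SpecialFibreRelation J' ℓ hℓ F' := by
  have hmem : ∀ x, spHom s x ∈ Coind.rel F ℓ (heckeGen ⟨ℓ, hℓ⟩) := by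
    intro x T
    have := h.relation (T • x)
    simp only [spHom_toHom_apply]
    rwa [mul_comm T, mul_smul]
  refine ⟨Coind.rel F ℓ (heckeGen ⟨ℓ, hℓ⟩), inferInstance, inferInstance,
    (spHom s).codRestrict (Coind.rel F ℓ (heckeGen ⟨ℓ, hℓ⟩)).toAddSubgroup hmem,
    Coind.relF F ℓ (heckeGen ⟨ℓ, hℓ⟩), ⟨?_, ?_, ?_, ?_⟩, ?_⟩
  · intro T x
    refine Subtype.ext (Coind.ext' fun U => ?_)
    show s (U • T • x) = s ((U * T) • x)
    rw [mul_smul]
  · intro σ hσ x
    refine Subtype.ext (Coind.ext' fun U => ?_)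
    show s (U • σ • x) = s (U • x)
    rw [← smul_comm σ U x, h.inertia σ hσ]
  · intro σ hσ x
    refine Subtype.ext (Coind.ext' fun U => ?_)
    show s (U • σ • x) = F (s (U • x))
    rw [← smul_comm σ U x, h.frob σ hσ]
  · intro x hx hs
    refine h.inj x hx ?_
    have h1 : (spHom s x).toHom 1 = (0 : Coind M).toHom 1 :=
      congrArg (fun z : Coind M => z.toHom 1) (congrArg Subtype.val hs)
    simpa using h1
  · rintro ⟨f, hf⟩
    refine Subtype.ext (Coind.ext' fun U => ?_)
    exact hf U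

theorem specializationExists_of_core (N : ℕ)
    (h : ∀ ℓ : ℕ, (hℓ : ℓ.Prime) → ¬ ℓ ∣ N * p →
      ∀ A : ValuationSubring L, A.LiesOverPrime ℓ →
        ∃ (M : Type) (_ : AddCommGroup M) (s : J →+ M) (F : M →+ M),
          IsCore K p J A ℓ hℓ s F) :
    SpecializationExists (K := K) (L := L) N p J := by
  intro ℓ hℓ hℓN A hA
  obtain ⟨M, _, s, F, hc⟩ := h ℓ hℓ hℓN A hA
  exact hc.exists_specialization

end Core

section Concrete

open AlgebraicCurve

/-- The minimal data needed at one place `A` over `ℓ` for S37. -/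
structure IsCoreBar (N p : ℕ) [NeZero N] {M : Type} [AddCommGroup M]
    (A : ValuationSubring (AlgebraicClosure ℚ)) (ℓ : ℕ) (hℓ : ℓ.Prime)
    (s : JZero N →+ M) (F : M →+ M) : Prop where
  inertia : ∀ σ ∈ A.inertiaSubgroupIn ℚ, ∀ x : JZero N, s (σ • x) = s x
  frob : ∀ σ : AlgebraicClosure ℚ ≃ₐ[ℚ] AlgebraicClosure ℚ, A.IsFrobeniusAt σ ℓ →
    ∀ x : JZero N, s (σ • x) = F (s x)
  inj : ∀ x : JZero N, (∃ n : ℕ, p ^ n • x = 0) → s x = 0 → x = 0
  relation : ∀ x : JZero N, F (F (s x)) - F (s (heckeOperatorBar N ⟨ℓ, hℓ⟩ x)) + ℓ • s x = 0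

theorem S37_of_core (N p : ℕ) [NeZero N] (hcomm : HeckeOperatorsCommuteBar N)
    (h : ∀ ℓ : ℕ, (hℓ : ℓ.Prime) → ¬ ℓ ∣ N * p →
      ∀ A : ValuationSubring (AlgebraicClosure ℚ), A.LiesOverPrime ℓ →
        ∃ (M : Type) (_ : AddCommGroup M) (s : JZero N →+ M) (F : M →+ M),
          IsCoreBar N p A ℓ hℓ s F) :
    letI := heckeModuleBar N
    ∀ (_ : SMulCommClass (AlgebraicClosure ℚ ≃ₐ[ℚ] AlgebraicClosure ℚ) HeckeAlg (JZero N)),
      SpecializationExists (K := ℚ) (L := AlgebraicClosure ℚ) N p (JZero N) := by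
  letI := heckeModuleBar N
  intro hS
  refine specializationExists_of_core (K := ℚ) (L := AlgebraicClosure ℚ) (p := p)
    (J := JZero N) N ?_
  intro ℓ hℓ hℓN A hA
  obtain ⟨M, _, s, F, hc⟩ := h ℓ hℓ hℓN A hA
  refine ⟨M, inferInstance, s, F, ⟨hc.inertia, hc.frob, hc.inj, fun x => ?_⟩⟩
  have h1 := heckeModuleBar_heckeGen_smul hcomm ⟨ℓ, hℓ⟩ x
  have h2 := hc.relation x
  rw [← h1] at h2
  exact h2

end Concrete

end Fermat.Agent.H37
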