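import Mathlib
import Fermat.Agent.H60Hecke

set_option autoImplicit false

noncomputable section

open AlgebraicCurve ModularCurve IntermediateField HahnSeries

namespace Fermat.Agent.H60

section Pic

variable {L : Type*} [Field L] [Algebra ℚ L] [CharZero L] {A : ValuationSubring L}
variable {k : Type*} [Field k] {π : A →+* k} {N ℓ : ℕ} [NeZero N] [NeZero ℓ]
variable {r : Place L (laurentBaseChange L (modularFunctionFieldFull N)) →
      Place k (modularFunctionFieldFullC k N)}

set_option maxHeartbeats 1000000 in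
omit [CharZero L] [NeZero N] in
/-- D4 on `Pic⁰`. -/
theorem reductionPic0Along_smul
    [HasPrincipalDivisors L (laurentBaseChange L (modularFunctionFieldFull N))]
    (hR : RiemannBound L (laurentBaseChange L (modularFunctionFieldFull N)))
    (hdeg : ∀ v : Place L (laurentBaseChange L (modularFunctionFieldFull N)), v.deg = 1)
    (hr : IsPlaceReductionAlong A π N r)
    (hgen : PrincipalGeneratedByIntegral A π N)
    {σ : L ≃ₐ[ℚ] L} {s : A →+* A} {τ : k ≃+* k} (hc : Compat π σ s τ)
    (x : Pic0 L (laurentBaseChange L (modularFunctionFieldFull N))) :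
    reductionPic0Along r hr hgen (σ • x) =
      (coeffAut N τ • reductionPic0Along r hr hgen x : JZeroC k N) := by
  obtain ⟨D, rfl⟩ := Pic0.mk_surjective x
  rw [galois_smul_pic0_def, SemilinearAut.pic0_smul_mk, reductionPic0Along_mk,
    reductionPic0Along_mk, SemilinearAut.pic0_smul_mk]
  refine congrArg Pic0.mk (Subtype.ext ?_)
  exact mapDomain_smul_of_degZero hR hdeg hr hgen hc (D : Divisor L _) D.2

set_option maxHeartbeats 1000000 in
/-- D6 on `Pic⁰`: the Eichler–Shimura congruence. -/
theorem reductionPic0Along_heckePic0Bar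
    {w : laurentBaseChange L (modularFunctionFieldFull (N * ℓ)) →+* LaurentSeries L}
    [HasPrincipalDivisors L (laurentBaseChange L (modularFunctionFieldFull N))]
    [HasPrincipalDivisors L (laurentBaseChange L (modularFunctionFieldFull (N * ℓ)))]
    [Fact ℓ.Prime] [CharP k ℓ] (hw : IsSwap w)
    {ζ : Aˣ} (hζ : IsPrimitiveRoot (Units.map (A.subtype : A →* L) ζ) ℓ)
    (hζ1 : Units.map (π : A →* k) ζ = 1)
    (hα : HeckeAlphaBarIntegral L N ℓ) (hβ : HeckeBetaBarIntegral L N ℓ)
    (hFI : FundamentalIdentityAlong L (heckeBetaBar L N ℓ) hβ)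
    (hfin : FiniteAlong L (heckeAlphaBar L N ℓ))
    (hN : NormFormulaAlong L (heckeAlphaBar L N ℓ) hfin)
    (hdeg : finrankAlong L (heckeAlphaBar L N ℓ) ≤ ℓ + 1)
    (hR : RiemannBound L (laurentBaseChange L (modularFunctionFieldFull N)))
    (hdeg1 : ∀ v : Place L (laurentBaseChange L (modularFunctionFieldFull N)), v.deg = 1)
    (hr : IsPlaceReductionAlong A π N r)
    (hgen : PrincipalGeneratedByIntegral A π N)
    {τ : k ≃+* k} (hτ : ∀ x, τ x = x ^ ℓ)
    (x : Pic0 L (laurentBaseChange L (modularFunctionFieldFull N))) :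
    reductionPic0Along r hr hgen (heckePic0Bar hα hβ hFI hfin hN x) =
      (coeffAut N τ • reductionPic0Along r hr hgen x
        + (ℓ : ℤ) • ((coeffAut N τ)⁻¹ • reductionPic0Along r hr hgen x) : JZeroC k N) := by
  obtain ⟨D, rfl⟩ := Pic0.mk_surjective x
  have h := eichlerShimura_of_degZero hw hζ hζ1 hα hβ hFI hfin hN hdeg hR hdeg1 hr hgen hτ
    (D := (D : Divisor L _)) D.2
  have e1 : heckePic0Bar hα hβ hFI hfin hN (Pic0.mk D) =
      Pic0.mk (Pic0.degZeroCorrespondence (heckeBetaBar L N ℓ) (heckeAlphaBar L N ℓ) hβ hα hFI D) :=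
    rfl
  rw [e1, reductionPic0Along_mk, reductionPic0Along_mk, SemilinearAut.pic0_smul_mk,
    SemilinearAut.pic0_smul_mk]
  have e2 : ∀ (n : ℤ) (E : Divisor.degZero (K := k) (F := modularFunctionFieldFullC k N)),
      n • (Pic0.mk E) = Pic0.mk (n • E) := fun n E => rfl
  rw [e2, ← Pic0.mk_add]
  exact congrArg Pic0.mk (Subtype.ext h)

end Pic

end Fermat.Agent.H60
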