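import Mathlib
import Fermat.Agent.H60Pic
import Fermat.Agent.H37Glue
import Fermat.Agent.H54Frobenius

set_option autoImplicit false

noncomputable section

open AlgebraicCurve ModularCurve IntermediateField HahnSeries

namespace Fermat.Agent.H60

local notation "Qb" => AlgebraicClosure ℚ

/-! ### Facts about places of `Qb` -/

section PlaceFacts

variable {A : ValuationSubring Qb} {ℓ : ℕ}

theorem natCast_residue_eq_zero (hA : A.LiesOverPrime ℓ) :
    ((ℓ : ℕ) : IsLocalRing.ResidueField A) = 0 := by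
  have h : ((ℓ : ℕ) : Qb) ∈ A.nonunits := hA
  have h1 : ((ℓ : ℕ) : A) ∈ IsLocalRing.maximalIdeal A := by
    rw [IsLocalRing.mem_maximalIdeal, mem_nonunits_iff]
    intro hu
    have hmem := (ValuationSubring.mem_nonunits_iff_exists_mem_maximalIdeal (A := A)).mp h
    obtain ⟨ha, hm⟩ := hmem
    have : (⟨((ℓ : ℕ) : Qb), ha⟩ : A) = ((ℓ : ℕ) : A) := Subtype.ext (by simp)
    rw [this] at hm
    exact (IsLocalRing.mem_maximalIdeal _).mp hm hu
  have h2 := (IsLocalRing.residue_eq_zero_iff ((ℓ : ℕ) : A)).mpr h1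
  rwa [map_natCast] at h2

theorem charP_residue (hℓ : ℓ.Prime) (hA : A.LiesOverPrime ℓ) :
    CharP (IsLocalRing.ResidueField A) ℓ := by
  have h := CharP.ringChar_of_prime_eq_zero hℓ (natCast_residue_eq_zero hA)
  exact h ▸ ringChar.charP _

/-- A primitive `ℓ`-th root of unity in `A`, congruent to `1`. -/
theorem exists_zeta (hℓ : ℓ.Prime) (hA : A.LiesOverPrime ℓ) :
    ∃ ζ : Aˣ, IsPrimitiveRoot (Units.map (A.subtype : A →* Qb) ζ) ℓ ∧
      Units.map (IsLocalRing.residue A : A →* IsLocalRing.ResidueField A) ζ = 1 := by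
  have : NeZero ℓ := ⟨hℓ.ne_zero⟩
  have : NeZero ((ℓ : ℕ) : Qb) := ⟨by exact_mod_cast hℓ.ne_zero⟩
  obtain ⟨z, hz⟩ := HasEnoughRootsOfUnity.exists_primitiveRoot Qb ℓ
  have hzmem : z ∈ A := by
    have hint : IsIntegral ℤ z := hz.isIntegral hℓ.pos
    exact Fermat.Agent.H54.integral_mem A ⟨z, hint⟩
  have hz1 : (⟨z, hzmem⟩ : A) ^ ℓ = 1 := Subtype.ext (by
    show z ^ ℓ = 1
    exact hz.pow_eq_one)
  let ζ : Aˣ := Units.ofPowEqOne ⟨z, hzmem⟩ ℓ hz1 hℓ.ne_zero
  have hζval : ((Units.map (A.subtype : A →* Qb) ζ : Qbˣ) : Qb) = z := rfl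
  refine ⟨ζ, ?_, ?_⟩
  · rw [← IsPrimitiveRoot.coe_units_iff, hζval]
    exact hz
  · have : CharP (IsLocalRing.ResidueField A) ℓ := charP_residue hℓ hA
    have : Fact ℓ.Prime := ⟨hℓ⟩
    have h1 : (IsLocalRing.residue A ⟨z, hzmem⟩) ^ ℓ = 1 := by
      rw [← map_pow, hz1, map_one]
    have h2 : (IsLocalRing.residue A ⟨z, hzmem⟩ - 1) ^ ℓ = 0 := by
      rw [sub_pow_char, h1, one_pow, sub_self]
    have h3 : IsLocalRing.residue A ⟨z, hzmem⟩ - 1 = 0 := pow_eq_zero_iff hℓ.ne_zero |>.mp h2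
    exact Units.ext (sub_eq_zero.mp h3)

end PlaceFacts


/-! ### The inputs and the assembly of S37 -/

section Assembly

/-- Inputs at the prime `ℓ` on the Hecke correspondence `T_ℓ` (`ℓ ∤ N`). -/
structure HeckeData (N ℓ : ℕ) [NeZero N] [NeZero ℓ] : Prop where
  inputs : HeckeInputsAlong Qb N ℓ
  degree_le : finrankAlong Qb (heckeAlphaBar Qb N ℓ) ≤ ℓ + 1
  swap : ∃ w : laurentBaseChange Qb (modularFunctionFieldFull (N * ℓ)) →+* LaurentSeries Qb,
    IsSwap w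

/-- The exact statement of S18 (for all `ℓ`, `A`) at level `N`. -/
def InjectivityAt (N : ℕ) [NeZero N] : Prop :=
  ∀ {ℓ : ℕ} [Fact ℓ.Prime] (_ : ¬ ℓ ∣ N) (A : ValuationSubring Qb) (_ : A.LiesOverPrime ℓ)
    (_ : ReductionInputsModL A N) (m : ℕ) (_ : ¬ ℓ ∣ m) (z : JZero N)
    (_ : m • z = 0) (_ : reductionModL A N z = 0), z = 0

/-- The Frobenius of `k` as a ring automorphism, from a Frobenius element. -/
theorem exists_frobAut {A : ValuationSubring Qb} {ℓ : ℕ} (hℓ : ℓ.Prime)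
    (hA : A.LiesOverPrime ℓ) :
    ∃ τ : IsLocalRing.ResidueField A ≃+* IsLocalRing.ResidueField A, ∀ x, τ x = x ^ ℓ := by
  obtain ⟨σ, hσ, hx⟩ := Fermat.Agent.H54.exists_isFrobeniusAt hℓ hA
  exact ⟨MulSemiringAction.toRingEquiv (A.decompositionSubgroup ℚ)
    (IsLocalRing.ResidueField A) ⟨σ, hσ⟩, hx⟩

theorem compat_of_mem {A : ValuationSubring Qb} {σ : Qb ≃ₐ[ℚ] Qb}
    (hσ : σ ∈ A.decompositionSubgroup ℚ)
    (τ : IsLocalRing.ResidueField A ≃+* IsLocalRing.ResidueField A)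
    (hτ : ∀ x : IsLocalRing.ResidueField A, (⟨σ, hσ⟩ : A.decompositionSubgroup ℚ) • x = τ x) :
    Compat (IsLocalRing.residue A) σ
      (MulSemiringAction.toRingHom (A.decompositionSubgroup ℚ) A ⟨σ, hσ⟩) τ where
  sub a := rfl
  red a := hτ (IsLocalRing.residue A a)

set_option synthInstance.maxHeartbeats 400000 in
set_option maxHeartbeats 4000000 in
/-- The specialization core at a place `A` over `ℓ ∤ N p`. -/
theorem exists_core (N p : ℕ) [NeZero N]
    [HasPrincipalDivisors Qb (modularFunctionFieldBar N)]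
    (hR : RiemannBound Qb (modularFunctionFieldBar N))
    (hdeg : ∀ v : Place Qb (modularFunctionFieldBar N), v.deg = 1)
    {ℓ : ℕ} (hℓ : ℓ.Prime) (hℓN : ¬ ℓ ∣ N * p)
    (A : ValuationSubring Qb) (hA : A.LiesOverPrime ℓ)
    (hred : ReductionInputsModL A N) (hinj : InjectivityAt N)
    (hH : haveI : NeZero ℓ := ⟨hℓ.ne_zero⟩; HeckeData N ℓ) :
    ∃ (M : Type) (_ : AddCommGroup M) (s : JZero N →+ M) (F : M →+ M),
      Fermat.Agent.H37.IsCoreBar N p A ℓ hℓ s F := by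
  haveI : NeZero ℓ := ⟨hℓ.ne_zero⟩
  haveI : Fact ℓ.Prime := ⟨hℓ⟩
  haveI : CharP (IsLocalRing.ResidueField A) ℓ := charP_residue hℓ hA
  have hℓN' : ¬ ℓ ∣ N := fun h => hℓN (h.mul_right p)
  have hℓp : ¬ ℓ ∣ p := fun h => hℓN (h.mul_left N)
  obtain ⟨τ, hτ⟩ := exists_frobAut hℓ hA
  obtain ⟨ζ, hζ, hζ1⟩ := exists_zeta hℓ hA
  obtain ⟨w, hw⟩ := hH.swap
  have hr := hred.choose_spec.1
  have hgen := hred.choose_spec.2
  have hs : reductionModL A N = reductionPic0Along hred.choose hr hgen := reductionAlong_eq hred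
  refine ⟨JZeroC (IsLocalRing.ResidueField A) N, inferInstance, reductionModL A N,
    DistribSMul.toAddMonoidHom _ (coeffAut N τ), ?_, ?_, ?_, ?_⟩
  · rintro σ ⟨σ', hσ', rfl⟩ x
    have hid : ∀ x : IsLocalRing.ResidueField A, σ' • x = RingEquiv.refl _ x := by
      intro x
      have h := MonoidHom.mem_ker.mp hσ'
      exact DFunLike.congr_fun h x
    have hc := compat_of_mem (A := A) σ'.2 (RingEquiv.refl _) hid
    rw [hs]
    have h1 := reductionPic0Along_smul hR hdeg hr hgen hc x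
    rw [coeffAut_refl, one_smul] at h1
    exact h1
  · rintro σ ⟨hσ, hσx⟩ x
    have hc := compat_of_mem (A := A) hσ τ (fun x => (hσx x).trans (hτ x).symm)
    rw [hs]
    exact reductionPic0Along_smul hR hdeg hr hgen hc x
  · rintro x ⟨n, hn⟩ hsx
    exact hinj hℓN' A hA hred (p ^ n) (fun h => hℓp (hℓ.dvd_of_dvd_pow h)) x hn hsx
  · intro x
    obtain ⟨hα, hβ, hPD, hfin, hFI, hNF⟩ := hH.inputs
    have hop : heckeOperatorBar N ⟨ℓ, hℓ⟩ x = heckePic0Bar hα hβ hFI hfin hNF x := by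
      exact (heckeOperatorBar_apply N (⟨ℓ, hℓ⟩ : Nat.Primes) x).trans
        (DFunLike.congr_fun (heckeOperatorAlong_eq hα hβ hFI hfin hNF) x)
    rw [hop, hs, reductionPic0Along_heckePic0Bar hw hζ hζ1 hα hβ hFI hfin hNF hH.degree_le hR hdeg
      hr hgen hτ x]
    set y : JZeroC (IsLocalRing.ResidueField A) N := reductionPic0Along hred.choose hr hgen x
    show coeffAut N τ • (coeffAut N τ • y) -
      coeffAut N τ • (coeffAut N τ • y + (ℓ : ℤ) • ((coeffAut N τ)⁻¹ • y)) + ℓ • y = 0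
    rw [smul_add, SemilinearAut.smul_zsmul, smul_inv_smul, natCast_zsmul]
    abel

/-- **S37 from its inputs.** -/
theorem S37_of_inputs (N p : ℕ) [NeZero N] (hcomm : HeckeOperatorsCommuteBar N)
    [HasPrincipalDivisors Qb (modularFunctionFieldBar N)]
    (hR : RiemannBound Qb (modularFunctionFieldBar N))
    (hdeg : ∀ v : Place Qb (modularFunctionFieldBar N), v.deg = 1)
    (hred : ∀ {ℓ : ℕ} (_ : ℓ.Prime) (_ : ¬ ℓ ∣ N) (A : ValuationSubring Qb)
      (_ : A.LiesOverPrime ℓ), ReductionInputsModL A N)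
    (hinj : InjectivityAt N)
    (hH : ∀ {ℓ : ℕ} (hℓ : ℓ.Prime) (_ : ¬ ℓ ∣ N),
      haveI : NeZero ℓ := ⟨hℓ.ne_zero⟩; HeckeData N ℓ) :
    letI := heckeModuleBar N
    ∀ (_ : SMulCommClass (AlgebraicClosure ℚ ≃ₐ[ℚ] AlgebraicClosure ℚ) HeckeAlg (JZero N)),
      SpecializationExists (K := ℚ) (L := AlgebraicClosure ℚ) N p (JZero N) :=
  Fermat.Agent.H37.S37_of_core N p hcomm fun ℓ hℓ hℓN A hA =>
    exists_core N p hR hdeg hℓ hℓN A hA (hred hℓ (fun h => hℓN (h.mul_right p)) A hA) hinj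
      (hH hℓ (fun h => hℓN (h.mul_right p)))

end Assembly

end Fermat.Agent.H60
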