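import Fermat.Agent.H42Swap
import Fermat.Agent.H42RedInputs
import Fermat.Agent.H66Degree
import Fermat.Agent.H67Comm
import Fermat.Agent.H60S37

/-!
# Hecke data and reduction inputs over `ℚbar`
-/

set_option autoImplicit false

open Polynomial Module IntermediateField ModularCurve AlgebraicCurve

namespace Fermat.Agent.H42

local notation "Qb" => AlgebraicClosure ℚ

theorem degreeFact (L : Type*) [Field L] [Algebra ℚ L] [IsAlgClosed L] : H67.DegreeFact L := by
  intro M _
  have : CharZero L := algebraRat.charZero L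
  exact H66.relfinrank_full L M (by exact_mod_cast NeZero.ne M)

theorem exists_ringHom_complex : Nonempty (Qb →+* ℂ) := by
  have : Algebra.IsAlgebraic ℚ (AlgebraicClosure ℚ) := AlgebraicClosure.isAlgebraic ℚ
  have h : Nonempty (Qb →ₐ[ℚ] ℂ) := ⟨IsAlgClosed.lift⟩
  exact h.map fun f => f.toRingHom

/-- The Hecke data at a prime `ℓ ∤ N`. -/
theorem heckeData (N ℓ : ℕ) [NeZero N] [NeZero ℓ] (hℓ : ℓ.Prime) (h : ¬ ℓ ∣ N) :
    H60.HeckeData N ℓ where
  inputs := H67.heckeInputsAlong_of_degreeFact (degreeFact Qb) N ℓ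
  degree_le := by
    rw [H67.finrank_alpha_prime (degreeFact Qb) N ℓ hℓ, if_neg h]
  swap := by
    obtain ⟨f⟩ := exists_ringHom_complex
    obtain ⟨W, -, hα, hβ, -⟩ := exists_atkinLehner (L := Qb) f (N := N) (ℓ := ℓ)
      ((Nat.Prime.coprime_iff_not_dvd hℓ).mpr h).symm
    exact ⟨_, H60.IsSwap.of_algHom (W : _ →+* _) hα hβ⟩

end Fermat.Agent.H42
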