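import Fermat.Agent.H67J
import Fermat.Agent.H42HeckeData
import Fermat.Agent.H38MzRed

/-!
# The Hecke transform of a function

`Th N ℓ f = N_α (β f)` for `f` in the function field of `X₀(N)`; its divisor is `T_ℓ (div f)`.
-/

set_option autoImplicit false
set_option linter.unusedSectionVars false
set_option linter.style.haveILetI false

noncomputable section

open AlgebraicCurve IntermediateField HahnSeries ModularCurve
open Fermat.Agent.H67

namespace Fermat.Agent.H38.Mz

local notation "Qb" => AlgebraicClosure ℚ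

section Norm

variable {K F F' : Type*} [Field K] [Field F] [Field F'] [Algebra K F] [Algebra K F']

theorem normAlong_mul (φ : F →ₐ[K] F') (x y : F') :
    H60.normAlong φ (x * y) = H60.normAlong φ x * H60.normAlong φ y := by
  letI := algebraAlong φ
  exact map_mul (Algebra.norm F) x y

theorem normAlong_one (φ : F →ₐ[K] F') : H60.normAlong φ 1 = 1 := by
  letI := algebraAlong φ
  exact map_one (Algebra.norm F)

/-- Naturality of the norm under isomorphisms. -/
theorem normAlong_natural {G G' : Type*} [Field G] [Field G'] [Algebra K G] [Algebra K G']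
    (φ : F →ₐ[K] F') (ψ : G →ₐ[K] G') (e : F ≃+* G) (e' : F' ≃+* G')
    (h : ∀ x, e' (φ x) = ψ (e x)) (x : F') :
    e (H60.normAlong φ x) = H60.normAlong ψ (e' x) := by
  letI := algebraAlong φ
  letI := algebraAlong ψ
  have h1 := Algebra.norm_eq_of_equiv_equiv (A₁ := F) (B₁ := F') (A₂ := G) (B₂ := G') e e'
    (RingHom.ext fun y => (h y).symm) x
  have h2 : H60.normAlong φ x = e.symm (H60.normAlong ψ (e' x)) := h1
  rw [h2, RingEquiv.apply_symm_apply]

end Norm

variable {N ℓ : ℕ} [NeZero N] [NeZero ℓ]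

variable (N ℓ) in
/-- The Hecke transform of a function. -/
def Th (f : FB Qb N) : FB Qb N :=
  H60.normAlong (heckeAlphaBar Qb N ℓ) (heckeBetaBar Qb N ℓ f)

theorem Th_mul (f g : FB Qb N) : Th N ℓ (f * g) = Th N ℓ f * Th N ℓ g := by
  rw [Th, map_mul, normAlong_mul]
  rfl

theorem Th_one : Th N ℓ (1 : FB Qb N) = 1 := by
  rw [Th, map_one, normAlong_one]

theorem Th_pow (f : FB Qb N) (n : ℕ) : Th N ℓ (f ^ n) = Th N ℓ f ^ n := by
  induction n with
  | zero => rw [pow_zero, pow_zero, Th_one]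
  | succ n ih => rw [pow_succ, pow_succ, Th_mul, ih]

theorem Th_ne_zero {f : FB Qb N} (hf : f ≠ 0) : Th N ℓ f ≠ 0 := by
  haveI := hasPrincipalDivisors_FB Qb (N * ℓ)
  exact H60.normAlong_ne_zero _ (finiteAlong_FB Qb _) ((map_ne_zero _).mpr hf)

/-- The `q`-expansion of the Hecke transform. -/
theorem qExpand_Th (hℓ : ℓ.Prime) (hℓN : ¬ ℓ ∣ N) {ζ : Qbˣ} (hζ : IsPrimitiveRoot ζ ℓ)
    (f : FB Qb N) :
    qExpand Qb ℓ ((Th N ℓ f : FB Qb N) : LaurentSeries Qb) =
      H60.normSeries ℓ ζ (f : LaurentSeries Qb) := by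
  have hH := H42.heckeData N ℓ hℓ hℓN
  obtain ⟨w, hw⟩ := hH.swap
  haveI := hasPrincipalDivisors_FB Qb (N * ℓ)
  exact H60.qExpand_normAlong hw hℓ.one_lt hζ (finiteAlong_FB Qb _) hH.degree_le f

/-- The divisor of the Hecke transform. -/
theorem exists_div_Th (hℓ : ℓ.Prime) {d : ℕ} {D : Divisor.degZero (K := Qb) (F := FB Qb N)}
    {f : FB Qb N} (hf : f ≠ 0)
    (h : ∀ v : Place Qb (FB Qb N), v.ord f = d * (D : Divisor Qb (FB Qb N)) v) :
    ∃ D' : Divisor.degZero (K := Qb) (F := FB Qb N),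
      Pic0.mk D' = heckeOperatorBar N ⟨ℓ, hℓ⟩ (Pic0.mk D : Pic0 Qb (FB Qb N)) ∧
      ∀ v : Place Qb (FB Qb N), v.ord (Th N ℓ f) = d * (D' : Divisor Qb (FB Qb N)) v := by
  set α := heckeAlphaBar Qb N ℓ with hα
  set β := heckeBetaBar Qb N ℓ with hβ
  have hdeg : Divisor.degree (pushD α (pullD β (D : Divisor Qb (FB Qb N)))) = 0 := by
    have h0 : Divisor.degree (D : Divisor Qb (FB Qb N)) = 0 := D.2
    rw [degree_pushD, degree_pullD, h0, mul_zero]
  refine ⟨⟨_, hdeg⟩, ?_, fun v => ?_⟩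
  · rw [heckeOperatorBar_apply]
    have h1 := heckeOperatorAlong_eq_calc (L := Qb) N ℓ (Pic0.mk D)
    rw [pullP_mk, pushP_mk] at h1
    exact h1.symm
  · have e1 : (divF f hf : Divisor Qb (FB Qb N)) = d • (D : Divisor Qb (FB Qb N)) := by
      ext w
      rw [divF_apply, h w, Finsupp.smul_apply, nsmul_eq_mul]
    have e2 : pushD α (pullD β (divF f hf)) =
        divF (H60.normAlong α (β f)) (normAlong_ne_zero' α ((map_ne_zero β).mpr hf)) := by
      rw [pullD_divF, pushD_divF]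
    rw [e1, map_nsmul, map_nsmul] at e2
    have e3 := DFunLike.congr_fun e2 v
    rw [divF_apply, Finsupp.smul_apply, nsmul_eq_mul] at e3
    exact e3.symm

/-- The Hecke transform commutes with the Galois action. -/
theorem Th_galois (σ : Qb ≃ₐ[ℚ] Qb) (f : FB Qb N) :
    arithmeticGalois (modularFunctionFieldFull N) σ • Th N ℓ f =
      Th N ℓ (arithmeticGalois (modularFunctionFieldFull N) σ • f) := by
  have h : ∀ x : FB Qb N,
      arithmeticGalois (modularFunctionFieldFull (N * ℓ)) σ • heckeAlphaBar Qb N ℓ x =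
      heckeAlphaBar Qb N ℓ (arithmeticGalois (modularFunctionFieldFull N) σ • x) := by
    intro x
    rw [alpha_eq_dg]
    exact dg_smul 1 _ σ x
  have h' : ∀ x : FB Qb N,
      arithmeticGalois (modularFunctionFieldFull (N * ℓ)) σ • heckeBetaBar Qb N ℓ x =
      heckeBetaBar Qb N ℓ (arithmeticGalois (modularFunctionFieldFull N) σ • x) := by
    intro x
    rw [beta_eq_dg]
    exact dg_smul ℓ _ σ x
  rw [Th, Th, ← h']
  exact normAlong_natural (heckeAlphaBar Qb N ℓ) (heckeAlphaBar Qb N ℓ)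
    (arithmeticRingAut (modularFunctionFieldFull N) σ)
    (arithmeticRingAut (modularFunctionFieldFull (N * ℓ)) σ) h _

/-- The Hecke transform commutes with the Atkin–Lehner automorphisms. -/
theorem Th_AL {A Q : ℕ} {W : FB Qb N ≃ₐ[Qb] FB Qb N} (hW : IsAL A Q W) (hN : N = A * Q)
    (hc : A.Coprime Q) (hℓ : ℓ.Coprime Q) (f : FB Qb N) :
    W (Th N ℓ f) = Th N ℓ (W f) := by
  have hR' : N * ℓ = A * ℓ * Q := by rw [hN]; ring
  have hc' : (A * ℓ).Coprime Q := hc.mul_left hℓ
  obtain ⟨W', hW'⟩ := exists_isAL (L := Qb) embQbar hR' hc'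
  have h1 : N * 1 ∣ N * ℓ := mul_dvd_mul_left _ (one_dvd ℓ)
  have e1 := hW.comp_dg hN hc hR' hc' hW' (d := 1) (mul_dvd_mul_left _ (one_dvd ℓ)) h1
  have e2 := hW.comp_dg hN hc hR' hc' hW' (d := ℓ) dvd_rfl dvd_rfl
  rw [← alpha_eq_dg] at e1
  rw [← beta_eq_dg] at e2
  have e2' : W' (heckeBetaBar Qb N ℓ f) = heckeBetaBar Qb N ℓ (W f) := AlgHom.congr_fun e2 f
  rw [Th, Th, ← e2']
  exact normAlong_natural (heckeAlphaBar Qb N ℓ) (heckeAlphaBar Qb N ℓ)
    W.toRingEquiv W'.toRingEquiv (fun x => AlgHom.congr_fun e1 x) _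

end Fermat.Agent.H38.Mz
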