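import Fermat.Agent.H40NOp
import Fermat.Agent.H67J
import Fermat.Agent.H31Lift
import Fermat.Agent.H38MzTheta

/-!
# Transport of Kummer functions along an inclusion of function fields (K2)
-/

set_option autoImplicit false
set_option linter.unusedSectionVars false
set_option linter.style.haveILetI false

open AlgebraicCurve ModularCurve Fermat.Agent.H34.Two Fermat.Agent.H31.In

namespace Fermat.Agent.H31.Kum2

section Abstract

variable {K F₀ F G V : Type*} [Field K] [Field F₀] [Field F] [Algebra K F₀] [Algebra K F]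
  [Group G] [MulSemiringAction G F₀] [MulSemiringAction G F] {p : ℕ} [AddCommGroup V]
  [DistribMulAction G V] {W₀ : F₀ ≃ₐ[K] F₀} {W : F ≃ₐ[K] F} {N₀ : F₀ →* F₀} {N : F →* F}

/-- Abstract transport. -/
def transport (Q : H40.Kum K G p V W₀ N₀) (inc : F₀ →ₐ[K] F)
    (hsmul : ∀ (σ : G) f, σ • inc f = inc (σ • f))
    (hW : ∀ f, W (inc f) = inc (W₀ f)) (hN : ∀ f, N (inc f) = inc (N₀ f))
    (hord : ∀ P : Place K F, ∃ (P₀ : Place K F₀) (e : ℤ), ∀ f, P.ord (inc f) = e * P₀.ord f)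
    (hroot : ∀ (u : F₀) (f : F), inc u = f ^ p → ∃ g, u = g ^ p) :
    H40.Kum K G p V W N where
  U x := inc (Q.U x)
  ne x := (_root_.map_ne_zero inc).mpr (Q.ne x)
  dvd x P := by
    obtain ⟨P₀, e, h⟩ := hord P
    rw [h]
    exact (Q.dvd x P₀).mul_left e
  fix x σ hσ := by rw [hsmul, Q.fix x σ hσ]
  add x y := by
    obtain ⟨f, hf, h⟩ := Q.add x y
    exact ⟨inc f, (_root_.map_ne_zero inc).mpr hf, by rw [h, map_mul, map_mul, map_pow]⟩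
  smul σ x := by
    obtain ⟨f, hf, h⟩ := Q.smul σ x
    exact ⟨inc f, (_root_.map_ne_zero inc).mpr hf, by rw [hsmul, h, map_mul, map_pow]⟩
  inj x f h := by
    obtain ⟨g, hg⟩ := hroot _ _ h
    exact Q.inj x g hg
  rel x := by
    obtain ⟨B, hB, h⟩ := Q.rel x
    exact ⟨inc B, (_root_.map_ne_zero inc).mpr hB, by rw [hW, hN, ← map_mul, h, map_pow]⟩
  rel' x := by
    obtain ⟨B, hB, h⟩ := Q.rel' x
    exact ⟨inc B, (_root_.map_ne_zero inc).mpr hB, by rw [hW, hN, ← map_mul, h, map_pow]⟩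
  W_rel := by
    obtain ⟨e, h⟩ := Q.W_rel
    refine ⟨e, fun x => ?_⟩
    obtain ⟨f, hf, h⟩ := h x
    exact ⟨inc f, (_root_.map_ne_zero inc).mpr hf, by rw [hW, h, map_mul, map_zpow₀, map_pow]⟩

theorem transport_U (Q : H40.Kum K G p V W₀ N₀) (inc : F₀ →ₐ[K] F)
    (hsmul : ∀ (σ : G) f, σ • inc f = inc (σ • f))
    (hW : ∀ f, W (inc f) = inc (W₀ f)) (hN : ∀ f, N (inc f) = inc (N₀ f))
    (hord : ∀ P : Place K F, ∃ (P₀ : Place K F₀) (e : ℤ), ∀ f, P.ord (inc f) = e * P₀.ord f)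
    (hroot : ∀ (u : F₀) (f : F), inc u = f ^ p → ∃ g, u = g ^ p) (x : V) :
    (transport Q inc hsmul hW hN hord hroot).U x = inc (Q.U x) := rfl

end Abstract

/-- Roots descend along extensions of degree prime to `p`. -/
theorem root_descends {K F₀ F : Type*} [Field K] [Field F₀] [Field F] [Algebra K F₀] [Algebra K F]
    (inc : F₀ →ₐ[K] F) {p : ℕ} (hp : p.Prime) (hn : ¬ p ∣ finrankAlong K inc) (u : F₀) (f : F)
    (h : inc u = f ^ p) : ∃ g, u = g ^ p := by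
  rcases eq_or_ne u 0 with rfl | hu
  · exact ⟨0, by rw [zero_pow hp.ne_zero]⟩
  letI := algebraAlong inc
  set n := Module.finrank F₀ F with hn'
  have hnn : ¬ p ∣ n := hn
  have hco : IsCoprime (n : ℤ) (p : ℤ) :=
    Nat.isCoprime_iff_coprime.mpr ((Nat.Prime.coprime_iff_not_dvd hp).mpr hnn).symm
  have h1 : u ^ n = (Algebra.norm F₀ f) ^ p := by
    rw [← map_pow, ← h]
    exact (Algebra.norm_algebraMap (S := F) u).symm
  obtain ⟨a, b, hab⟩ := hco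
  refine ⟨(Algebra.norm F₀ f) ^ a * u ^ b, ?_⟩
  have h2 : u = (u ^ n) ^ a * (u ^ p) ^ b := by
    rw [← zpow_natCast u n, ← zpow_natCast u p, ← zpow_mul, ← zpow_mul, ← zpow_add₀ hu,
      mul_comm (n : ℤ) a, mul_comm (p : ℤ) b, hab, zpow_one]
  rw [mul_pow, ← zpow_natCast, ← zpow_natCast, ← zpow_mul, ← zpow_mul, mul_comm a, mul_comm b,
    zpow_mul, zpow_mul, zpow_natCast, zpow_natCast, ← h1]
  exact h2

section Concrete

local notation "Qb" => AlgebraicClosure ℚ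

variable {p M₀ M : ℕ} [hp : Fact p.Prime] [NeZero p] [NeZero M₀] [NeZero M]

/-- The inclusion of function fields. -/
noncomputable def inc (p : ℕ) [NeZero p] {M₀ M : ℕ} [NeZero M₀] [NeZero M] (h : M₀ ∣ M) :
    H99.FX Qb (M₀ * p) →ₐ[Qb] H99.FX Qb (M * p) :=
  haveI : NeZero (M₀ * p) := ⟨mul_ne_zero (NeZero.ne M₀) (NeZero.ne p)⟩
  haveI : NeZero (M * p) := ⟨mul_ne_zero (NeZero.ne M) (NeZero.ne p)⟩
  H67.dg Qb 1 (by rw [mul_one]; exact Nat.mul_dvd_mul_right h p)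

theorem coe_inc (h : M₀ ∣ M) (f : H99.FX Qb (M₀ * p)) :
    (inc p h f : LaurentSeries Qb) = (f : LaurentSeries Qb) :=
  qExpand_one_apply _

theorem smul_inc (h : M₀ ∣ M) (σ : Qb ≃ₐ[ℚ] Qb) (f : H99.FX Qb (M₀ * p)) :
    σ • inc p h f = inc p h (σ • f) := by
  apply Subtype.ext
  have h1 : ((σ • inc p h f : H99.FX Qb (M * p)) : LaurentSeries Qb) =
      coeffMap (σ : Qb →+* Qb) (inc p h f : H99.FX Qb (M * p)) := In.coe_smul σ _
  have h2 : ((σ • f : H99.FX Qb (M₀ * p)) : LaurentSeries Qb) =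
      coeffMap (σ : Qb →+* Qb) (f : H99.FX Qb (M₀ * p)) := In.coe_smul σ _
  rw [h1, coe_inc, coe_inc, h2]

theorem nOp_inc (h : M₀ ∣ M) (hpM : ¬ p ∣ M) (hpM₀ : ¬ p ∣ M₀) {ζ : Qbˣ}
    (hζ : IsPrimitiveRoot ζ p) (f : H99.FX Qb (M₀ * p)) :
    H40.Nrm.nOp hpM hζ (inc p h f) = inc p h (H40.Nrm.nOp hpM₀ hζ f) := by
  apply Subtype.ext
  rw [H40.Nrm.coe_nOp, coe_inc, coe_inc, H40.Nrm.coe_nOp]

theorem W_inc (h : M₀ ∣ M) (hpM : ¬ p ∣ M) (w₀ : H99.AL Qb M₀ p) (w : H99.AL Qb M p)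
    (f : H99.FX Qb (M₀ * p)) : w.W (inc p h f) = inc p h (w₀.W f) := by
  haveI i1 : NeZero (M₀ * p) := ⟨mul_ne_zero (NeZero.ne M₀) (NeZero.ne p)⟩
  haveI i2 : NeZero (M * p) := ⟨mul_ne_zero (NeZero.ne M) (NeZero.ne p)⟩
  have hpM₀ : ¬ p ∣ M₀ := fun h' => hpM (h'.trans h)
  have a₀ : H67.IsAL M₀ p w₀.W := isAL w₀ hp.out hpM₀
  have a : H67.IsAL M p w.W := isAL w hp.out hpM
  have hco₀ : M₀.Coprime p := ((Nat.Prime.coprime_iff_not_dvd hp.out).2 hpM₀).symm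
  have hco : M.Coprime p := ((Nat.Prime.coprime_iff_not_dvd hp.out).2 hpM).symm
  have key : (w.W.toAlgHom).comp (inc p h) = (inc p h).comp w₀.W.toAlgHom := by
    apply H67.FB_hom_ext
    intro m hm
    apply Subtype.ext
    have hm' : m ∣ M * p := hm.trans (Nat.mul_dvd_mul_right h p)
    have e1 : inc p h ⟨H66.J Qb m, H67.J_mem_FB hm⟩ = ⟨H66.J Qb m, H67.J_mem_FB hm'⟩ :=
      Subtype.ext (coe_inc h _)
    have e2 : (((w.W.toAlgHom).comp (inc p h) ⟨H66.J Qb m, H67.J_mem_FB hm⟩ :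
        H99.FX Qb (M * p)) : LaurentSeries Qb) = H66.J Qb (H42.swapDiv M p m) := by
      rw [AlgHom.comp_apply, e1]
      exact a m hm'
    have e3 : (((inc p h).comp w₀.W.toAlgHom ⟨H66.J Qb m, H67.J_mem_FB hm⟩ :
        H99.FX Qb (M * p)) : LaurentSeries Qb) = H66.J Qb (H42.swapDiv M₀ p m) := by
      rw [AlgHom.comp_apply, coe_inc]
      exact a₀ m hm
    rw [e2, e3]
    congr 1
    rcases H99.dvd_cases hp.out hm with h1 | ⟨e, he, rfl⟩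
    · rw [H42.swapDiv_of_dvd hco (h1.trans h), H42.swapDiv_of_dvd hco₀ h1]
    · rw [mul_comm p e, H42.swapDiv_mul hco (NeZero.ne p) (he.trans h),
        H42.swapDiv_mul hco₀ (NeZero.ne p) he]
  exact DFunLike.congr_fun key f

theorem ord_inc (h : M₀ ∣ M) (P : Place Qb (H99.FX Qb (M * p))) :
    ∃ (P₀ : Place Qb (H99.FX Qb (M₀ * p))) (e : ℤ),
      ∀ f, P.ord (inc p h f) = e * P₀.ord f := by
  haveI i1 : NeZero (M₀ * p) := ⟨mul_ne_zero (NeZero.ne M₀) (NeZero.ne p)⟩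
  haveI i2 : NeZero (M * p) := ⟨mul_ne_zero (NeZero.ne M) (NeZero.ne p)⟩
  exact ⟨_, _, fun f => H67.ord_res (inc p h) P f⟩

theorem finrank_inc (h : M₀ ∣ M) :
    finrankAlong Qb (inc p h) * dedekindPsi (M₀ * p) = dedekindPsi (M * p) := by
  haveI i1 : NeZero (M₀ * p) := ⟨mul_ne_zero (NeZero.ne M₀) (NeZero.ne p)⟩
  haveI i2 : NeZero (M * p) := ⟨mul_ne_zero (NeZero.ne M) (NeZero.ne p)⟩
  exact H67.finrank_dg_one _

theorem psi_two_pow (a : ℕ) {N : ℕ} (hN : N ≠ 0) :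
    ∃ i j : ℕ, dedekindPsi (2 ^ a * N) = 2 ^ i * 3 ^ j * dedekindPsi N := by
  induction a with
  | zero => exact ⟨0, 0, by simp⟩
  | succ a ih =>
    obtain ⟨i, j, h⟩ := ih
    have h0 : 2 ^ a * N ≠ 0 := mul_ne_zero (by positivity) hN
    have e1 : 2 ^ (a + 1) * N = 2 * (2 ^ a * N) := by ring
    by_cases h2 : 2 ∣ 2 ^ a * N
    · refine ⟨i + 1, j, ?_⟩
      rw [e1, H45.dedekindPsi_mul_of_dvd Nat.prime_two h0 h2, h]
      ring
    · refine ⟨i, j + 1, ?_⟩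
      rw [e1, H45.dedekindPsi_mul_of_not_dvd Nat.prime_two h0 h2, h]
      ring

/-- The degree of the inclusion is prime to `p ≥ 5` for `M = 2 ^ a M₀`. -/
theorem not_dvd_finrank (h5 : 5 ≤ p) (h : M₀ ∣ M) {a : ℕ} (hM : M = 2 ^ a * M₀) :
    ¬ p ∣ finrankAlong Qb (inc p h) := by
  haveI i1 : NeZero (M₀ * p) := ⟨mul_ne_zero (NeZero.ne M₀) (NeZero.ne p)⟩
  obtain ⟨i, j, hij⟩ := psi_two_pow a (NeZero.ne (M₀ * p))
  have h1 := finrank_inc (p := p) h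
  rw [← mul_assoc, ← hM] at hij
  rw [hij] at h1
  have h2 : finrankAlong Qb (inc p h) = 2 ^ i * 3 ^ j :=
    Nat.eq_of_mul_eq_mul_right (H67.dedekindPsi_pos _) h1
  rw [h2]
  intro h3
  rcases (Nat.Prime.dvd_mul hp.out).mp h3 with h4 | h4
  · have := Nat.le_of_dvd (by norm_num) (hp.out.dvd_of_dvd_pow h4)
    omega
  · have := Nat.le_of_dvd (by norm_num) (hp.out.dvd_of_dvd_pow h4)
    omega

/-- **K2**: transport of the Kummer functions from level `M₀ p` to level `M p`. -/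
noncomputable def kum2 {V : Type*} [AddCommGroup V] {G : Subgroup (Qb ≃ₐ[ℚ] Qb)}
    [DistribMulAction G V] (h : M₀ ∣ M) (hpM : ¬ p ∣ M) (hpM₀ : ¬ p ∣ M₀) {ζ : Qbˣ}
    (hζ : IsPrimitiveRoot ζ p) (w₀ : H99.AL Qb M₀ p) (w : H99.AL Qb M p)
    (hn : ¬ p ∣ finrankAlong Qb (inc p h))
    (Q : H40.Kum Qb G p V w₀.W (H40.Nrm.nOp hpM₀ hζ)) :
    H40.Kum Qb G p V w.W (H40.Nrm.nOp hpM hζ) :=
  transport Q (inc p h) (fun σ f => smul_inc h (σ : Qb ≃ₐ[ℚ] Qb) f) (W_inc h hpM w₀ w)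
    (nOp_inc h hpM hpM₀ hζ) (ord_inc h) (fun u f => root_descends (inc p h) hp.out hn u f)

theorem kum2_U {V : Type*} [AddCommGroup V] {G : Subgroup (Qb ≃ₐ[ℚ] Qb)}
    [DistribMulAction G V] (h : M₀ ∣ M) (hpM : ¬ p ∣ M) (hpM₀ : ¬ p ∣ M₀) {ζ : Qbˣ}
    (hζ : IsPrimitiveRoot ζ p) (w₀ : H99.AL Qb M₀ p) (w : H99.AL Qb M p)
    (hn : ¬ p ∣ finrankAlong Qb (inc p h))
    (Q : H40.Kum Qb G p V w₀.W (H40.Nrm.nOp hpM₀ hζ)) (x : V) :
    (kum2 h hpM hpM₀ hζ w₀ w hn Q).U x = inc p h (Q.U x) := rfl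

end Concrete

end Fermat.Agent.H31.Kum2
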