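import Fermat.Agent.H40Book

/-!
# The nodes (helper40)
-/

set_option autoImplicit false
set_option linter.unusedSectionVars false

open AlgebraicCurve WithZero Fermat.Agent

namespace Fermat.Agent.H40

open Fermat.Agent.H31.MP Fermat.Agent.H97

variable {K F k Fb Γ ν G : Type*} [Field K] [Field F] [Algebra K F] [Field k] [Field Fb]
    [Algebra k Fb] [LinearOrderedCommGroupWithZero Γ] [Group G] [MulSemiringAction G K]
    [MulSemiringAction G F] {p : ℕ} {D : Data K F k Fb Γ ν G p}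

local notation "vv" => D.M.v
local notation "ρρ" => D.M.ρ
local notation "vK" => D.M.vK

variable [IsAlgClosed K] [H3RR.IsFF K F] [IsAlgClosed k] [H3RR.IsFF k Fb]
variable [Fact p.Prime] [CharP k p] [CharP Fb p]

theorem TrivAt.exists_pow {i : Bool} {f : F} (hf : TrivAt D i f) (hv : vv i f = 1) :
    ∃ g : Fb, g ≠ 0 ∧ ρρ i f = g ^ p := by
  obtain ⟨h, hh0, hh⟩ := hf
  obtain ⟨h1, h2⟩ := D.one_of_sub hh
  have C := D.comp i
  have hvh : vv i h = 1 := by
    rw [map_mul, hv, one_mul, map_pow] at h1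
    exact (pow_eq_one_iff_of_nonneg zero_le (Fact.out : p.Prime).ne_zero).mp h1
  rw [C.ρ_mul _ _ hv.le (by rw [map_pow, hvh, one_pow]), C.ρ_pow hvh.le] at h2
  refine ⟨(ρρ i h)⁻¹, inv_ne_zero (C.ρ_ne_zero hvh), ?_⟩
  rw [inv_pow]
  exact eq_inv_of_mul_eq_one_left h2

theorem Geo.exists_root {W : F ≃ₐ[K] F} {N : F →* F} {ζ : K} (R : Geo D W N ζ) {i : Bool} {f : F}
    (hv : vv i f = 1) {g : Fb} (hg : ρρ i f = g ^ p) :
    ∃ b : F, Fix (⊤ : Subgroup G) b ∧ vv i b = 1 ∧ vv i (f * b ^ p - 1) < 1 := by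
  have C := D.comp i
  have hρ : ρρ i f ≠ 0 := C.ρ_ne_zero hv
  have hg0 : g ≠ 0 := by
    rintro rfl
    rw [zero_pow (Fact.out : p.Prime).ne_zero] at hg
    exact hρ hg
  obtain ⟨b, hb, hbv, hbρ⟩ := R.surj i g⁻¹
  have hvb : vv i b = 1 := C.v_eq_one hbv (by rw [hbρ]; exact inv_ne_zero hg0)
  have hvbp : vv i (b ^ p) = 1 := by rw [map_pow, hvb, one_pow]
  refine ⟨b, hb, hvb, D.sub_lt_of_ρ (by rw [map_mul, hv, hvbp, one_mul]) (by simp) ?_⟩
  rw [C.ρ_mul _ _ hv.le hvbp.le, C.ρ_pow hvb.le, hbρ, hg, inv_pow,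
    mul_inv_cancel₀ (pow_ne_zero _ hg0), C.ρ_one]

theorem Geo.trivAt_of_eq_pow {W : F ≃ₐ[K] F} {N : F →* F} {ζ : K} (R : Geo D W N ζ) {i : Bool}
    {f : F} (hv : vv i f = 1) {g : Fb} (hg : ρρ i f = g ^ p) : TrivAt D i f := by
  obtain ⟨b, -, hb, h⟩ := R.exists_root hv hg
  exact ⟨b, by rintro rfl; simp at hb, h⟩

/-- Orders at smooth points. -/
theorem dvd_ord_smooth {u : F} (hu0 : u ≠ 0) (hdiv : ∀ P : Place K F, (p : ℤ) ∣ P.ord u)
    {i : Bool} (hv : vv i u = 1) {P : Place k Fb} (hP : ∀ n, (i, P) ∉ D.M.br n) :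
    (p : ℤ) ∣ P.ord (ρρ i u) := by
  have h := D.M.smooth_deg (i, P) hP u hu0 hv (H3RR.divOf u) (H3RR.divOf_apply hu0)
  set E : Divisor K F := (H3RR.divOf u : Divisor K F).mapRange (fun n => n / (p : ℤ)) (by simp)
    with hE
  have h1 : H97.cls D.M.sp (H3RR.divOf u : Divisor K F) (Sum.inl (i, P)) =
      p * H97.cls D.M.sp E (Sum.inl (i, P)) := by
    rw [← H97.cls_smul]
    refine H97.cls_congr D.M.sp fun Q _ => ?_
    rw [Finsupp.smul_apply, hE, Finsupp.mapRange_apply, H3RR.divOf_apply hu0, smul_eq_mul,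
      Int.mul_ediv_cancel' (hdiv Q)]
  rw [h] at h1
  exact ⟨_, h1⟩

/-- Changing the normalisation. -/
theorem ord_ρ_congr {u : F} {c c' : K} {i : Bool} (hc : vv i (u / algebraMap K F c) = 1)
    (hc' : vv i (u / algebraMap K F c') = 1) :
    ∃ e : k, e ≠ 0 ∧ ρρ i (u / algebraMap K F c') = algebraMap k Fb e *
      ρρ i (u / algebraMap K F c) := by
  have C := D.comp i
  have hc0 : c ≠ 0 := by rintro rfl; simp at hc
  have hc'0 : c' ≠ 0 := by rintro rfl; simp at hc'
  have hcF : algebraMap K F c ≠ 0 := (_root_.map_ne_zero _).mpr hc0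
  have hc'F : algebraMap K F c' ≠ 0 := (_root_.map_ne_zero _).mpr hc'0
  have hu0 : u ≠ 0 := by rintro rfl; simp at hc
  have e1 : u / algebraMap K F c' = algebraMap K F (c / c') * (u / algebraMap K F c) := by
    rw [map_div₀]; field_simp
  have hv : vv i (algebraMap K F (c / c')) = 1 := by
    rw [e1, map_mul, hc, mul_one] at hc'
    exact hc'
  have hvK : vK (c / c') = 1 := by rwa [C.v_alg] at hv
  refine ⟨D.M.res (c / c'), ?_, ?_⟩
  · intro h0
    rw [D.res_eq_zero hvK.le, hvK] at h0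
    exact lt_irrefl _ h0
  · rw [e1, C.ρ_mul _ _ hv.le hc.le, C.ρ_alg _ hvK.le]

section main

variable {W : F ≃ₐ[K] F} {N : F →* F} {ζ : K} (R : Geo D W N ζ)
    {V : Type*} [AddCommGroup V] [DistribMulAction G V] (Q : Kum K G p V W N)

omit [Fact p.Prime] [CharP k p] [CharP Fb p] in
/-- Transport of triviality through `W`. -/
theorem trivAt_true_of {f : F} (hN : NOp D W N) (hf : TrivAt D false (W f)) :
    TrivAt D true f := by
  obtain ⟨h, hh0, hh⟩ := hf
  refine ⟨W h, (_root_.map_ne_zero W).mpr hh0, ?_⟩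
  rw [hN.W_v, map_sub, map_mul, map_pow, hN.W_W, map_one]
  exact hh

include R Q in
theorem triv_true {x : V} (hx : TrivAt D false (Q.U x)) : TrivAt D true (Q.U x) := by
  obtain ⟨e, he⟩ := Q.W_rel
  obtain ⟨f, hf0, hf⟩ := he x
  refine trivAt_true_of R.nop ?_
  rw [hf]
  exact (hx.zpow e).mul (trivAt_pow hf0)

include R in
/-- A representative of a trivial class that is congruent to `1` on both components. -/
theorem exists_one_rep {y : V} {H : Subgroup G} (hH : ∀ σ ∈ H, σ • y = y)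
    {ϖ : K} (hd : D.Disc H ϖ) (hy : TrivAt D false (Q.U y)) (s : ν) :
    ∃ (a : K) (h : F), a ≠ 0 ∧ h ≠ 0 ∧ Fix H a ∧ Fix H h ∧
      ∀ i, vv i (Q.U y / algebraMap K F a * h ^ p - 1) < 1 := by
  have hp : p.Prime := Fact.out
  have hU0 := Q.ne y
  have hUf : Fix H (Q.U y) := fun σ hσ => Q.fix y σ (hH σ hσ)
  have hyt := triv_true R Q hy
  obtain ⟨a, ha0, haf, hva⟩ := D.scale H false _ hUf hU0
  have haF : algebraMap K F a ≠ 0 := (_root_.map_ne_zero _).mpr ha0
  have haff : Fix H (algebraMap K F a) := D.fix_alg haf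
  set u := Q.U y / algebraMap K F a with hu
  have hu0 : u ≠ 0 := div_ne_zero hU0 haF
  have huf : Fix H u := hUf.div haff
  have hvu : vv false u = 1 := by
    rw [hu, map_div₀, (D.comp false).v_alg, hva, div_self]
    exact (Valuation.ne_zero_iff _).mpr ha0
  have hdiv : ∀ P : Place K F, (p : ℤ) ∣ P.ord u := by
    intro P
    rw [hu, ord_div P hU0 haF, ord_alg P ha0, sub_zero]
    exact Q.dvd y P
  have htriv : ∀ i, TrivAt D i u := by
    intro i
    have h1 : TrivAt D i (Q.U y) := by cases i; exacts [hy, hyt]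
    rw [hu, div_eq_mul_inv]
    exact h1.mul (trivAt_const ha0).inv
  obtain ⟨g₁, hg₁0, hg₁⟩ := (htriv false).exists_pow hvu
  obtain ⟨h₁, hh₁, hvh₁, hh₁'⟩ := R.exists_root hvu hg₁
  -- the second component
  obtain ⟨-, A, -, hA0, -, hAf, -, -, -, hvt⟩ := D.gen_node_full huf hu0 hdiv hvu s
  have hp0 : (p : K) ≠ 0 := R.disc.ne
  set r := (D.pt false s).ord g₁ with hr
  have hord : (D.pt false s).ord (ρρ false u) = p * r := by rw [hg₁, ord_pow]
  set b := (p : K) ^ r * A with hb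
  have hb0 : b ≠ 0 := mul_ne_zero (zpow_ne_zero _ hp0) hA0
  have hbf : Fix H b := ((Fix.natCast p).zpow r).mul hAf
  have hbF : algebraMap K F b ≠ 0 := (_root_.map_ne_zero _).mpr hb0
  have hvt' : vv true u = vK b ^ p := by
    rw [hvt, hord, hb, map_mul, mul_pow, map_zpow₀, ← zpow_natCast, ← zpow_natCast, ← zpow_mul,
      mul_comm r]
  set u' := u / algebraMap K F b ^ p with hu'
  have hvu' : vv true u' = 1 := by
    rw [hu', map_div₀, map_pow, (D.comp true).v_alg, hvt', div_self]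
    exact pow_ne_zero _ ((Valuation.ne_zero_iff _).mpr hb0)
  have htriv' : TrivAt D true u' := by
    rw [hu', div_eq_mul_inv]
    exact (htriv true).mul (trivAt_pow hbF).inv
  obtain ⟨g₂, hg₂0, hg₂⟩ := htriv'.exists_pow hvu'
  obtain ⟨h₂, hh₂, hvh₂, hh₂'⟩ := R.exists_root hvu' hg₂
  -- approximation
  have hq := hd.pos
  have hq1 := hd.lt
  obtain ⟨nb, hnb⟩ := hd.gen b hb0 hbf
  obtain ⟨z, z', hz⟩ := R.sep
  obtain ⟨h, hhf, hh1, hh2⟩ := exists_approx hz hd (U₁ := h₁)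
    (U₂ := h₂ / algebraMap K F b) hh₁.of_top (hh₂.of_top.div (D.fix_alg hbf))
    (nb.natAbs + 1)
  have hsmall : vK ϖ ^ (nb.natAbs + 1) < 1 := pow_lt_one₀ hq.le hq1 (by omega)
  have hsmall' : vK b * vK ϖ ^ (nb.natAbs + 1) < 1 := by
    rw [hnb, ← zpow_natCast, ← zpow_add₀ hq.ne']
    have h1 : 0 < nb + ((nb.natAbs + 1 : ℕ) : ℤ) := by omega
    have h4 := (zpow_lt_zpow_iff_right_of_lt_one₀ hq hq1
      (m := nb + ((nb.natAbs + 1 : ℕ) : ℤ)) (n := 0)).mpr h1
    rwa [zpow_zero] at h4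
  -- `h` is close to `h₁` on `false`
  have hclose : ∀ (i : Bool) (x f g : F), vv i f = 1 → vv i (g - f) < 1 → vv i x = 1 →
      vv i (x * f ^ p - 1) < 1 → vv i (x * g ^ p - 1) < 1 := by
    intro i x f g hf hgf hx hxf
    have C := D.comp i
    have hvg : vv i g = 1 := by
      have e1 : g = f + (g - f) := by ring
      rw [e1, Valuation.map_add_eq_of_lt_left _ (by rwa [hf]), hf]
    have hρ : ρρ i g = ρρ i f := by
      have e1 : g = f + (g - f) := by ring
      rw [e1, C.ρ_add _ _ hf.le hgf.le, (C.ρ_eq_zero _ hgf.le).mpr hgf, add_zero]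
    have hfp : vv i (f ^ p) = 1 := by rw [map_pow, hf, one_pow]
    have hgp : vv i (g ^ p) = 1 := by rw [map_pow, hvg, one_pow]
    obtain ⟨-, h2⟩ := D.one_of_sub hxf
    refine D.sub_lt_of_ρ (by rw [map_mul, hx, hgp, one_mul]) (by simp) ?_
    rw [C.ρ_mul _ _ hx.le hgp.le, C.ρ_pow hvg.le, hρ, C.ρ_one, ← h2,
      C.ρ_mul _ _ hx.le hfp.le, C.ρ_pow hf.le]
  have hfin1 : vv false (u * h ^ p - 1) < 1 :=
    hclose false u h₁ h hvh₁ (hh1.trans_lt hsmall) hvu hh₁'
  have hfin2 : vv true (u * h ^ p - 1) < 1 := by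
    have h1 := hclose true u' h₂ (h * algebraMap K F b) hvh₂ (by
      have e1 : h * algebraMap K F b - h₂ = algebraMap K F b * (h - h₂ / algebraMap K F b) := by
        field_simp
      rw [e1, map_mul, (D.comp true).v_alg]
      exact (mul_le_mul_right hh2 _).trans_lt hsmall') hvu' hh₂'
    have e2 : u' * (h * algebraMap K F b) ^ p = u * h ^ p := by
      rw [hu', mul_pow]; field_simp
    rwa [e2] at h1
  refine ⟨a, h, ha0, ?_, haf, hhf, fun i => ?_⟩
  · rintro rfl
    rw [zero_pow hp.ne_zero, mul_zero, zero_sub, Valuation.map_neg, map_one] at hfin1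
    exact lt_irrefl _ hfin1
  · cases i
    exacts [hfin1, hfin2]

variable (E : ESide (G := G) D.M.vK p V ζ)

omit [IsAlgClosed K] [H3RR.IsFF K F] [IsAlgClosed k] [H3RR.IsFF k Fb] [CharP k p]
  [CharP Fb p] [Field k] [Field Fb] [Algebra k Fb] [MulSemiringAction G F] in
theorem exists_char_of {K G : Type*} [Field K] [Group G] [MulSemiringAction G K] {p : ℕ}
    (hp : p.Prime) {ζ : K} (h1 : ζ ^ p = 1) (h2 : ζ ≠ 1) (σ : G) : ∃ a : ℕ, σ • ζ = ζ ^ a := by
  have hprim : IsPrimitiveRoot ζ p := IsPrimitiveRoot.iff_orderOf.mpr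
    (orderOf_eq_prime h1 h2 (hp := ⟨hp⟩))
  have : NeZero p := ⟨hp.ne_zero⟩
  obtain ⟨a, -, ha⟩ := hprim.eq_pow_of_pow_eq_one (ξ := σ • ζ) (by
    rw [← smul_pow', h1, smul_one])
  exact ⟨a, ha.symm⟩

include R in
/-- The stabiliser of a nonzero element of `V^m`. -/
theorem stab_eq {y : V} (hy : y ∈ E.Vm) (hy0 : y ≠ 0) :
    MulAction.stabilizer G y = MulAction.stabilizer G ζ := by
  have hp : p.Prime := Fact.out
  ext σ
  rw [MulAction.mem_stabilizer_iff, MulAction.mem_stabilizer_iff]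
  constructor
  · intro h
    obtain ⟨a, ha⟩ := exists_char_of hp R.zeta.pow R.zeta.ne σ
    have h1 := E.char y hy σ a ha
    rw [h] at h1
    -- `(a - 1) y = 0`
    have h2 : (a : ZMod p) = 1 := by
      by_contra hne'
      have hne : (a : ZMod p) - 1 ≠ 0 := sub_ne_zero.mpr hne'
      obtain ⟨b, hb⟩ : ∃ b : ℕ, (b : ZMod p) * ((a : ZMod p) - 1) = 1 :=
        ⟨(((a : ZMod p) - 1)⁻¹).val, by rw [ZMod.natCast_zmod_val, inv_mul_cancel₀ hne]⟩
      have h4 : b • (a • y - y) = 0 := by rw [← h1, sub_self, smul_zero]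
      have h5 : b • (a • y - y) = ((b : ℤ) * ((a : ℤ) - 1)) • y := by
        rw [mul_smul, sub_smul, one_smul, natCast_zsmul, natCast_zsmul]
      have h6 : ((((b : ℤ) * ((a : ℤ) - 1) - 1 : ℤ)) : ZMod p) = 0 := by
        push_cast
        rw [hb, sub_self]
      rw [ZMod.intCast_zmod_eq_zero_iff_dvd] at h6
      obtain ⟨c, hc⟩ := h6
      have h7 : ((b : ℤ) * ((a : ℤ) - 1)) • y = y := by
        have h8 : (b : ℤ) * ((a : ℤ) - 1) = c * p + 1 := by linarith
        rw [h8, add_smul, one_smul, mul_smul, natCast_zsmul, E.torsion, smul_zero, zero_add]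
      rw [h5, h7] at h4
      exact hy0 h4
    have h3 : ((a : ℕ) : ZMod p) = ((1 : ℕ) : ZMod p) := by rw [h2, Nat.cast_one]
    rw [ZMod.natCast_eq_natCast_iff] at h3
    rw [ha]
    have h4 : ζ ^ a = ζ ^ 1 := pow_eq_pow_of_modEq h3 R.zeta.pow
    rw [h4, pow_one]
  · intro h
    have h1 := E.char y hy σ 1 (by rw [h, pow_one])
    rw [h1, one_smul]

include R in
/-- **The orders at the nodes are congruent.** -/
theorem node_congr {c : K} (hc : vv false (Q.U E.z / algebraMap K F c) = 1) (s s' : ν) :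
    (p : ℤ) ∣ (D.pt false s).ord (ρρ false (Q.U E.z / algebraMap K F c)) -
      (D.pt false s').ord (ρρ false (Q.U E.z / algebraMap K F c)) := by
  have hp : p.Prime := Fact.out
  set Hx := MulAction.stabilizer G E.z with hHx
  have hU0 := Q.ne E.z
  have hUf : Fix Hx (Q.U E.z) := fun σ hσ => Q.fix _ σ hσ
  obtain ⟨c', hc'0, hc'f, hvc'⟩ := D.scale Hx false _ hUf hU0
  have hc'F : algebraMap K F c' ≠ 0 := (_root_.map_ne_zero _).mpr hc'0
  have hc'ff : Fix Hx (algebraMap K F c') := D.fix_alg hc'f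
  have hvu : vv false (Q.U E.z / algebraMap K F c') = 1 := by
    rw [map_div₀, (D.comp false).v_alg, hvc', div_self]
    exact (Valuation.ne_zero_iff _).mpr hc'0
  have hkey : ∀ s s' : ν, (p : ℤ) ∣ (D.pt false s).ord (ρρ false (Q.U E.z / algebraMap K F c')) -
      (D.pt false s').ord (ρρ false (Q.U E.z / algebraMap K F c')) := by
    intro s s'
    set u := Q.U E.z / algebraMap K F c' with hu
    have hu0 : u ≠ 0 := div_ne_zero hU0 hc'F
    have huf : Fix Hx u := hUf.div hc'ff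
    have hudiv : ∀ P : Place K F, (p : ℤ) ∣ P.ord u := by
      intro P
      rw [hu, ord_div P hU0 hc'F, ord_alg P hc'0, sub_zero]
      exact Q.dvd _ P
    by_cases hfix : ∀ σ : G, σ • E.z = E.z
    · have hHx' : Hx = ⊤ := by
        rw [eq_top_iff]
        intro σ _
        exact hfix σ
      rw [hHx'] at huf
      exact D.node_const_tame R.disc huf hu0 hudiv hvu s s'
    obtain ⟨τ, ε, hτz, hε0, hε1, hτ, hval, hyv⟩ := E.main.resolve_left hfix
    set y := τ • E.z - E.z with hy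
    have hyVm : y ∈ E.Vm := E.sub_mem τ E.z
    have hy0 : y ≠ 0 := sub_ne_zero.mpr hτz
    have hytriv : TrivAt D false (Q.U y) := (triv_iff R Q E y).mpr hyVm
    have hstab := stab_eq R E hyVm hy0
    set Hy := MulAction.stabilizer G y with hHy
    have hfinHy : Hy.FiniteIndex := by rw [hstab]; exact R.finK ζ
    obtain ⟨ϖ, hϖ⟩ := disc_of_finiteIndex R.disc Hy
    have hzeta : Zeta D Hy ζ := R.zeta_of_le hstab.le
    obtain ⟨d, hd, hd1⟩ := exists_nat_pow hϖ hzeta.lam_ne (hzeta.fix.sub Fix.one) hzeta.lt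
    have he : vK (p : K) = vK ϖ ^ ((p - 1) * d) := by
      rw [← (zeta_rel D.M.vK hp hzeta.pow hzeta.ne hzeta.lt hzeta.p_ne).1, hd, ← pow_mul,
        mul_comm]
    obtain ⟨a, h, ha0, hh0, haf, hhf, hone⟩ := exists_one_rep R Q (H := Hy)
      (fun σ hσ => hσ) hϖ hytriv s
    have haF : algebraMap K F a ≠ 0 := (_root_.map_ne_zero _).mpr ha0
    have hUy0 := Q.ne y
    set w := Q.U y / algebraMap K F a * h ^ p with hw
    have hhp0 : h ^ p ≠ 0 := pow_ne_zero _ hh0
    have hw0 : w ≠ 0 := mul_ne_zero (div_ne_zero hUy0 haF) hhp0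
    have hwf : Fix Hy w :=
      ((show Fix Hy (Q.U y) from fun σ hσ => Q.fix _ σ hσ).div (D.fix_alg haf)).mul (hhf.pow p)
    have hwdiv : ∀ P : Place K F, (p : ℤ) ∣ P.ord w := by
      intro P
      rw [hw, P.ord_mul (div_ne_zero hUy0 haF) hhp0, ord_div P hUy0 haF, ord_alg P ha0, sub_zero,
        ord_pow]
      exact dvd_add (Q.dvd _ P) (dvd_mul_right _ _)
    have hpd : 1 ≤ p * d := Nat.one_le_iff_ne_zero.mpr (Nat.mul_ne_zero hp.ne_zero (by omega))
    have hwle : ∀ i, vv i (w - 1) ≤ vK ϖ ^ 1 := fun i => by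
      rw [pow_one]
      exact hϖ.le_of_lt_one (hwf.sub Fix.one) (hone i)
    have hϖlt : vK ϖ ^ (0 + 1) < 1 := by rw [zero_add, pow_one]; exact hϖ.lt
    have hgen : D.HasGenOne Hy w := by
      refine ⟨fun x hx => ?_, fun t => ?_⟩
      · obtain ⟨g, hg0, hgf, hgord, hgv⟩ := D.gen_smooth R.lifts hϖ he hx hwf hw0 hwdiv le_rfl
          hpd (hwle x.1) 0 (by omega)
        exact ⟨g, hg0, hgf, hgord, hgv.trans_lt hϖlt⟩
      · obtain ⟨g, hg0, hgf, hgord, hgv⟩ := D.gen_node R.lifts hϖ he t hwf hw0 hwdiv le_rfl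
          hpd hwle 0 (by omega)
        exact ⟨g, hg0, hgf, hgord, fun i => (hgv i).trans_lt hϖlt⟩
    -- the twist
    obtain ⟨f₀, hf₀0, hf₀⟩ := Q.exists_twist τ E.z
    rw [← hy] at hf₀
    have hτc'0 : τ • c' ≠ 0 := by rwa [smul_ne_zero_iff_ne]
    obtain ⟨γ, hγ⟩ := IsAlgClosed.exists_pow_nat_eq (a * c' / τ • c') hp.pos
    have hγ0 : γ ≠ 0 := by
      rintro rfl
      rw [zero_pow hp.ne_zero] at hγ
      exact (div_ne_zero (mul_ne_zero ha0 hc'0) hτc'0) hγ.symm
    have hγF : algebraMap K F γ ≠ 0 := (_root_.map_ne_zero _).mpr hγ0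
    have hτu : τ • u = u * w * (algebraMap K F γ * f₀ / h) ^ p := by
      have hτc'F : algebraMap K F (τ • c') ≠ 0 := (_root_.map_ne_zero _).mpr hτc'0
      have e1 : (algebraMap K F γ * f₀ / h) ^ p =
          algebraMap K F a * algebraMap K F c' / algebraMap K F (τ • c') * f₀ ^ p / h ^ p := by
        rw [div_pow, mul_pow, ← map_pow, hγ, map_div₀, map_mul]
      rw [e1, hu, div_eq_mul_inv, smul_mul', smul_inv'', D.smul_alg, hf₀, hw]
      field_simp
    refine D.node_const_wild huf hu0 hudiv hvu hw0 hwf hone hgen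
      (div_ne_zero (mul_ne_zero hγF hf₀0) hh0) hτu hε0 hε1 ?_ hval ?_ R.disc.lt R.disc.ne s s'
    · intro i g hg hgv
      obtain ⟨b, hb, hbv, hbρ⟩ := R.surj i (ρρ i g)
      have h1 : vv i (g - b) < 1 := D.sub_lt_of_ρ hgv hbv hbρ.symm
      have hgb : Fix Hx (g - b) := hg.sub hb.of_top
      have h2 : vv i (g - b) ≤ vK ε ^ 2 := by
        by_cases hg0 : g - b = 0
        · rw [hg0, map_zero]; exact zero_le
        obtain ⟨a, ha0, haf, hva⟩ := D.scale Hx i _ hgb hg0
        rw [hva] at h1 ⊢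
        exact hτ a haf h1
      have e1 : τ • g - g = τ • (g - b) - (g - b) := by
        rw [smul_sub, hb τ (Subgroup.mem_top τ)]; ring
      rw [e1]
      exact (Valuation.map_sub _ _ _).trans (max_le (by rw [D.v_smul]; exact h2) h2)
    · intro i g hg hgv
      by_cases hg0 : g = 0
      · rw [hg0, map_zero]; exact zero_le
      obtain ⟨b, hb0, hbf, hvb⟩ := D.scale Hy i g hg hg0
      rw [hvb] at hgv ⊢
      exact hyv b hbf hgv
  obtain ⟨e, he0, he⟩ := ord_ρ_congr hvu hc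
  have hρ0 : ρρ false (Q.U E.z / algebraMap K F c') ≠ 0 := (D.comp false).ρ_ne_zero hvu
  have heF : algebraMap k Fb e ≠ 0 := (_root_.map_ne_zero _).mpr he0
  rw [he, Place.ord_mul _ heF hρ0, Place.ord_mul _ heF hρ0, ord_alg _ he0, ord_alg _ he0,
    zero_add, zero_add]
  exact hkey s s'

include R E in
/-- The reduction of the class is not a `p`-th power. -/
theorem ne_pow {c : K} (hc : vv false (Q.U E.z / algebraMap K F c) = 1) (g : Fb) :
    ρρ false (Q.U E.z / algebraMap K F c) ≠ g ^ p := by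
  intro h
  have hc0 : c ≠ 0 := by rintro rfl; simp at hc
  have hcF : algebraMap K F c ≠ 0 := (_root_.map_ne_zero _).mpr hc0
  have h1 := R.trivAt_of_eq_pow hc h
  apply E.z_notMem
  rw [← triv_iff R Q E]
  have e1 : Q.U E.z = Q.U E.z / algebraMap K F c * algebraMap K F c := by
    rw [div_mul_cancel₀ _ hcF]
  rw [e1]
  exact h1.mul (trivAt_const hc0)

end main

end Fermat.Agent.H40
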