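import Fermat.Agent.H40Fin

/-!
# Galois bookkeeping for Mazur's principle at `p` (helper40)
-/

set_option autoImplicit false
set_option linter.unusedSectionVars false

open AlgebraicCurve WithZero Fermat.Agent

namespace Fermat.Agent.H40

open Fermat.Agent.H31.MP Fermat.Agent.H97

variable {K F k Fb Γ ν G : Type*} [Field K] [Field F] [Algebra K F] [Field k] [Field Fb]
    [Algebra k Fb] [LinearOrderedCommGroupWithZero Γ] [Group G] [MulSemiringAction G K]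
    [MulSemiringAction G F] {p : ℕ} (D : Data K F k Fb Γ ν G p)

local notation "vv" => D.M.v
local notation "ρρ" => D.M.ρ
local notation "vK" => D.M.vK

/-- `f` is congruent to a `p`-th power on the component `i`. -/
def TrivAt (i : Bool) (f : F) : Prop := ∃ h : F, h ≠ 0 ∧ D.M.v i (f * h ^ p - 1) < 1

/-- Kummer functions of a `G`-module `V` of `p`-torsion classes. -/
structure Kum (K : Type*) {F : Type*} (G : Type*) [Field K] [Field F] [Algebra K F] [Group G]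
    [MulSemiringAction G F] (p : ℕ) (V : Type*) [AddCommGroup V] [DistribMulAction G V]
    (W : F ≃ₐ[K] F) (N : F →* F) where
  U : V → F
  ne : ∀ x, U x ≠ 0
  dvd : ∀ x (P : Place K F), (p : ℤ) ∣ P.ord (U x)
  fix : ∀ x (σ : G), σ • x = x → σ • U x = U x
  add : ∀ x y, ∃ f, f ≠ 0 ∧ U (x + y) = U x * U y * f ^ p
  smul : ∀ (σ : G) x, ∃ f, f ≠ 0 ∧ σ • U x = U (σ • x) * f ^ p
  inj : ∀ x f, U x = f ^ p → x = 0
  rel : ∀ x, ∃ B, B ≠ 0 ∧ U x * N (W (U x)) = B ^ p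
  rel' : ∀ x, ∃ B, B ≠ 0 ∧ W (U x) * N (U x) = B ^ p
  W_rel : ∃ e : ℤ, ∀ x, ∃ f, f ≠ 0 ∧ W (U x) = U x ^ e * f ^ p

/-- Input from the elliptic curve. -/
structure ESide {K G Γ : Type*} [Field K] [LinearOrderedCommGroupWithZero Γ] [Group G]
    [MulSemiringAction G K] (vL : Valuation K Γ) (p : ℕ) (V : Type*) [AddCommGroup V]
    [DistribMulAction G V] (ζ : K) where
  Vm : AddSubgroup V
  sub_mem : ∀ (σ : G) x, σ • x - x ∈ Vm
  char : ∀ y ∈ Vm, ∀ (σ : G) (a : ℕ), σ • ζ = ζ ^ a → σ • y = a • y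
  exists_ne : ∃ y ∈ Vm, y ≠ 0
  line : ∀ y ∈ Vm, y ≠ 0 → ∀ y' ∈ Vm, ∃ n : ℕ, y' = n • y
  torsion : ∀ x : V, p • x = 0
  exists_char : ∃ (σ : G) (a : ℕ), σ • ζ = ζ ^ a ∧ ¬ (a : ZMod p) = 1
  z : V
  z_notMem : z ∉ Vm
  main : (∀ σ : G, σ • z = z) ∨ ∃ (τ : G) (ε : K), τ • z ≠ z ∧ ε ≠ 0 ∧ vL ε < 1 ∧
    (∀ a : K, Fix (MulAction.stabilizer G z) a → vL a < 1 → vL a ≤ vL ε ^ 2) ∧
    (∀ a : K, a ≠ 0 → Fix (MulAction.stabilizer G z) a → ∃ n : ℤ,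
      vL a ^ p = vL (p : K) ^ n ∧ vL ((τ • a) / a - 1 - n * ε) ≤ vL ε ^ 2) ∧
    (∀ a : K, Fix (MulAction.stabilizer G (τ • z - z)) a → vL a < 1 → vL a ≤ vL ε ^ 2)

variable {D}

section Triv

variable [IsAlgClosed K] [Fact p.Prime]

theorem TrivAt.mul {i : Bool} {f g : F} (hf : TrivAt D i f) (hg : TrivAt D i g) :
    TrivAt D i (f * g) := by
  obtain ⟨h, hh, h1⟩ := hf
  obtain ⟨h', hh', h1'⟩ := hg
  refine ⟨h * h', mul_ne_zero hh hh', ?_⟩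
  obtain ⟨hv, -⟩ := D.one_of_sub h1
  have e1 : f * g * (h * h') ^ p - 1 = (f * h ^ p) * (g * h' ^ p - 1) + (f * h ^ p - 1) := by ring
  rw [e1]
  refine (Valuation.map_add _ _ _).trans_lt (max_lt ?_ h1)
  rw [map_mul, hv, one_mul]
  exact h1'

theorem TrivAt.inv {i : Bool} {f : F} (hf : TrivAt D i f) : TrivAt D i f⁻¹ := by
  obtain ⟨h, hh, h1⟩ := hf
  obtain ⟨hv, -⟩ := D.one_of_sub h1
  have h0 : f * h ^ p ≠ 0 := by
    intro h0
    rw [h0] at hv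
    simp at hv
  refine ⟨h⁻¹, inv_ne_zero hh, ?_⟩
  have e1 : f⁻¹ * h⁻¹ ^ p - 1 = -(f * h ^ p - 1) * (f * h ^ p)⁻¹ := by
    have hf0 : f ≠ 0 := left_ne_zero_of_mul h0
    rw [inv_pow]
    field_simp
    ring
  rw [e1, map_mul, Valuation.map_neg, map_inv₀, hv, inv_one, mul_one]
  exact h1

theorem TrivAt.pow {i : Bool} {f : F} (hf : TrivAt D i f) (n : ℕ) : TrivAt D i (f ^ n) := by
  induction n with
  | zero => exact ⟨1, one_ne_zero, by simp⟩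
  | succ n ih => rw [pow_succ]; exact ih.mul hf

theorem TrivAt.zpow {i : Bool} {f : F} (hf : TrivAt D i f) (n : ℤ) : TrivAt D i (f ^ n) := by
  cases n with
  | ofNat n => simpa using hf.pow n
  | negSucc n => rw [zpow_negSucc]; exact (hf.pow _).inv

theorem trivAt_pow {i : Bool} {f : F} (hf : f ≠ 0) : TrivAt D i (f ^ p) :=
  ⟨f⁻¹, inv_ne_zero hf, by rw [← mul_pow, mul_inv_cancel₀ hf]; simp⟩

theorem trivAt_const {i : Bool} {c : K} (hc : c ≠ 0) : TrivAt D i (algebraMap K F c) := by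
  obtain ⟨γ, hγ⟩ := IsAlgClosed.exists_pow_nat_eq c (Fact.out : p.Prime).pos
  have hγ0 : γ ≠ 0 := by
    rintro rfl
    rw [zero_pow (Fact.out : p.Prime).ne_zero] at hγ
    exact hc hγ.symm
  rw [← hγ, map_pow]
  exact trivAt_pow ((_root_.map_ne_zero _).mpr hγ0)

/-- `σ f / f` has trivial reduction. -/
theorem trivAt_smul_div {i : Bool} (σ : G) {f : F} (hf : f ≠ 0) : TrivAt D i (σ • f / f) := by
  have C := D.comp i
  obtain ⟨c, hc, hvc⟩ := C.scale f hf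
  have hcF : algebraMap K F c ≠ 0 := (_root_.map_ne_zero _).mpr hc
  have hσc : σ • c ≠ 0 := by rwa [smul_ne_zero_iff_ne]
  set g := f / algebraMap K F c with hg
  have hvg : vv i g = 1 := by
    rw [hg, map_div₀, C.v_alg, hvc, div_self]
    exact (Valuation.ne_zero_iff _).mpr hc
  have hg0 : g ≠ 0 := by rintro h; rw [h] at hvg; simp at hvg
  have hfg : f = g * algebraMap K F c := by rw [hg, div_mul_cancel₀ _ hcF]
  have e1 : σ • f / f = (σ • g / g) * algebraMap K F (σ • c / c) := by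
    rw [hfg, smul_mul', D.smul_alg, map_div₀]
    field_simp
  rw [e1]
  refine TrivAt.mul ⟨1, one_ne_zero, ?_⟩ (trivAt_const (div_ne_zero hσc hc))
  rw [one_pow, mul_one, div_sub_one hg0, map_div₀, hvg, div_one]
  exact D.sub_lt_of_ρ (by rw [D.v_smul, hvg]) hvg.le (D.ρ_smul i σ g hvg.le)

end Triv

section Kum

omit [Field k] [Field Fb] [Algebra k Fb] [LinearOrderedCommGroupWithZero Γ] [MulSemiringAction G K]

variable {V : Type*} [AddCommGroup V] [DistribMulAction G V] {W : F ≃ₐ[K] F} {N : F →* F}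
variable (Q : Kum K G p V W N)

include Q

theorem Kum.nsmul (x : V) (n : ℕ) : ∃ f, f ≠ 0 ∧ Q.U (n • x) = Q.U x ^ n * f ^ p := by
  induction n with
  | zero =>
    obtain ⟨f, hf0, hf⟩ := Q.add 0 0
    rw [add_zero] at hf
    refine ⟨f⁻¹, inv_ne_zero hf0, ?_⟩
    rw [zero_smul, pow_zero, one_mul, inv_pow]
    have h0 := Q.ne 0
    have h1 : Q.U 0 * (Q.U 0 * f ^ p) = Q.U 0 * 1 := by rw [mul_one, ← mul_assoc]; exact hf.symm
    have h2 := mul_left_cancel₀ h0 h1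
    exact eq_inv_of_mul_eq_one_left h2
  | succ n ih =>
    obtain ⟨f, hf0, hf⟩ := ih
    obtain ⟨g, hg0, hg⟩ := Q.add (n • x) x
    refine ⟨f * g, mul_ne_zero hf0 hg0, ?_⟩
    rw [succ_nsmul, hg, hf]
    ring

theorem Kum.eq_of_mul_pow (x y : V) {f : F} (h : Q.U x = Q.U y * f ^ p) :
    x = y := by
  obtain ⟨g, hg0, hg⟩ := Q.add (x - y) y
  rw [sub_add_cancel] at hg
  have h1 : Q.U (x - y) = (f / g) ^ p := by
    have hy := Q.ne y
    rw [hg] at h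
    have h2 : Q.U y * (Q.U (x - y) * g ^ p) = Q.U y * f ^ p := by rw [← h]; ring
    have h3 := mul_left_cancel₀ hy h2
    rw [div_pow, eq_div_iff (pow_ne_zero _ hg0)]
    exact h3
  exact sub_eq_zero.mp (Q.inj _ _ h1)

theorem Kum.exists_twist (τ : G) (x : V) : ∃ f, f ≠ 0 ∧
    τ • Q.U x = Q.U x * Q.U (τ • x - x) * f ^ p := by
  obtain ⟨f, hf0, hf⟩ := Q.smul τ x
  obtain ⟨g, hg0, hg⟩ := Q.add x (τ • x - x)
  rw [add_sub_cancel] at hg
  refine ⟨f * g, mul_ne_zero hf0 hg0, ?_⟩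
  rw [hf, hg]
  ring

end Kum

variable [IsAlgClosed K] [H3RR.IsFF K F] [IsAlgClosed k] [H3RR.IsFF k Fb]
variable [Fact p.Prime] [CharP k p] [CharP Fb p]

/-- The remaining geometric input. -/
structure Geo (D : Data K F k Fb Γ ν G p) (W : F ≃ₐ[K] F) (N : F →* F) (ζ : K) : Prop where
  lifts : D.Lifts
  ss2 : ∀ (σ : G) (a : ℕ), σ • ζ = ζ ^ a → ∀ w : F, w ≠ 0 → (∀ P : Place K F, (p : ℤ) ∣ P.ord w) →
    (∀ i, D.M.v i (w - 1) < D.M.vK (ζ - 1) ^ p) → ∃ φ : F, φ ≠ 0 ∧ σ • w = w ^ a * φ ^ p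
  nop : NOp D W N
  sep : ∃ z z' : F, Sep D z z'
  surj : ∀ (i : Bool) (a : Fb), ∃ b : F, Fix (⊤ : Subgroup G) b ∧ D.M.v i b ≤ 1 ∧ D.M.ρ i b = a
  fin : ∀ f : F, (MulAction.stabilizer G f).FiniteIndex
  disc : D.Disc (⊤ : Subgroup G) (p : K)
  zeta : Zeta D (MulAction.stabilizer G ζ) ζ

namespace Geo

variable {W : F ≃ₐ[K] F} {N : F →* F} {ζ : K} (R : Geo D W N ζ)

include R

theorem finK (c : K) : (MulAction.stabilizer G c).FiniteIndex := by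
  have h := R.fin (algebraMap K F c)
  have h1 : MulAction.stabilizer G (algebraMap K F c) = MulAction.stabilizer G c := by
    ext σ
    rw [MulAction.mem_stabilizer_iff, MulAction.mem_stabilizer_iff, D.smul_alg]
    exact (algebraMap K F).injective.eq_iff
  rwa [h1] at h

theorem zeta_of_le {H : Subgroup G} (hH : H ≤ MulAction.stabilizer G ζ) : Zeta D H ζ where
  pow := R.zeta.pow
  ne := R.zeta.ne
  fix := R.zeta.fix.mono hH
  lt := R.zeta.lt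
  p_ne := R.zeta.p_ne

/-- A common group of finite index. -/
theorem exists_fin (T : Finset F) : ∃ (H : Subgroup G) (ϖ : K) (d : ℕ), (∀ f ∈ T, Fix H f) ∧
    D.Disc H ϖ ∧ Zeta D H ζ ∧ D.M.vK (ζ - 1) = D.M.vK ϖ ^ d ∧ 1 ≤ d := by
  classical
  let H : Subgroup G := (⨅ f : T, MulAction.stabilizer G (f : F)) ⊓ MulAction.stabilizer G ζ
  have h1 : (⨅ f : T, MulAction.stabilizer G (f : F)).FiniteIndex :=
    Subgroup.finiteIndex_iInf fun f => R.fin f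
  have h2 := R.finK ζ
  have hH : H.FiniteIndex := inferInstanceAs
    ((⨅ f : T, MulAction.stabilizer G (f : F)) ⊓ MulAction.stabilizer G ζ).FiniteIndex
  obtain ⟨ϖ, hϖ⟩ := disc_of_finiteIndex R.disc H
  have hz : Zeta D H ζ := R.zeta_of_le inf_le_right
  obtain ⟨d, hd, hd1⟩ := exists_nat_pow hϖ hz.lam_ne (hz.fix.sub Fix.one) hz.lt
  refine ⟨H, ϖ, d, fun f hf σ hσ => ?_, hϖ, hz, hd, hd1⟩
  have h3 := (Subgroup.mem_iInf.mp (Subgroup.mem_inf.mp hσ).1) ⟨f, hf⟩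
  exact h3

/-- **Splitting.** A class with trivial reduction: inertia acts through the cyclotomic
character. -/
theorem split {H : Subgroup G} {ϖ : K} (hd : D.Disc H ϖ) {d : ℕ}
    (hζϖ : D.M.vK (ζ - 1) = D.M.vK ϖ ^ d)
    {u B B' : F} (hu : Fix H u) (hdiv : ∀ P : Place K F, (p : ℤ) ∣ P.ord u)
    (hB : Fix H B) (hB' : Fix H B') (hB0 : B ≠ 0) (hB'0 : B' ≠ 0)
    (hrel : u * N (W u) = B ^ p) (hrel' : W u * N u = B' ^ p)
    (h1 : ∃ U, Fix H U ∧ U ≠ 0 ∧ D.M.v false (u * U ^ p - 1) < 1)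
    (h1' : ∃ U, Fix H U ∧ U ≠ 0 ∧ D.M.v false (W u * U ^ p - 1) < 1)
    {σ : G} {a : ℕ} (hσ : σ • ζ = ζ ^ a) :
    ∃ φ : F, φ ≠ 0 ∧ σ • u = u ^ a * φ ^ p := by
  have hp : p.Prime := Fact.out
  have hq := hd.pos
  have hq1 := hd.lt
  obtain ⟨z, z', hz⟩ := R.sep
  obtain ⟨h, hhf, hh0, hc⟩ := lemA R.nop hz hd hu hB hB' hB0 hB'0 hrel hrel' h1 h1' (d * p + 1)
  have hu0 : u ≠ 0 := by
    rintro rfl
    rw [zero_mul] at hrel
    exact pow_ne_zero _ hB0 hrel.symm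
  have hhp0 : h ^ p ≠ 0 := pow_ne_zero _ hh0
  obtain ⟨φ, hφ0, hφ⟩ := R.ss2 σ a hσ (u * h ^ p)
    (mul_ne_zero hu0 hhp0) (fun P => by
      rw [P.ord_mul hu0 hhp0, ord_pow]
      exact dvd_add (hdiv P) (Dvd.intro _ rfl)) (fun i => by
      refine (hc i).trans_lt ?_
      rw [hζϖ, ← pow_mul, pow_succ]
      exact mul_lt_of_lt_one_right (pow_pos hq _) hq1)
  have hσh0 : σ • h ≠ 0 := by rwa [smul_ne_zero_iff_ne]
  refine ⟨h ^ a * φ / (σ • h), div_ne_zero (mul_ne_zero (pow_ne_zero _ hh0) hφ0) hσh0, ?_⟩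
  rw [smul_mul', smul_pow'] at hφ
  have hσhp0 : (σ • h) ^ p ≠ 0 := pow_ne_zero _ hσh0
  rw [div_pow, mul_pow, mul_div_assoc', eq_div_iff hσhp0, hφ]
  ring

end Geo

/-- `ss2` from a nonspecial set. -/
theorem ss2_of_nonspecial (L : D.Lifts) {S : Finset (Bool × Place k Fb)} (hS : D.M.Nonspecial S)
    {ζ : K} (hz : Zeta D (MulAction.stabilizer G ζ) ζ)
    (fin : ∀ f : F, (MulAction.stabilizer G f).FiniteIndex) (disc : D.Disc (⊤ : Subgroup G) (p : K))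
    (σ : G) (a : ℕ) (hσ : σ • ζ = ζ ^ a) (w : F) (hw0 : w ≠ 0)
    (hdiv : ∀ P : Place K F, (p : ℤ) ∣ P.ord w)
    (hw : ∀ i, D.M.v i (w - 1) < D.M.vK (ζ - 1) ^ p) : ∃ φ : F, φ ≠ 0 ∧ σ • w = w ^ a * φ ^ p := by
  have h1 := fin w
  have h2 : (MulAction.stabilizer G ζ).FiniteIndex := by
    have h := fin (algebraMap K F ζ)
    have h1 : MulAction.stabilizer G (algebraMap K F ζ) = MulAction.stabilizer G ζ := by
      ext σ
      rw [MulAction.mem_stabilizer_iff, MulAction.mem_stabilizer_iff, D.smul_alg]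
      exact (algebraMap K F).injective.eq_iff
    rwa [h1] at h
  obtain ⟨ϖ, hϖ⟩ := disc_of_finiteIndex disc (MulAction.stabilizer G w ⊓ MulAction.stabilizer G ζ)
  have hz' : Zeta D (MulAction.stabilizer G w ⊓ MulAction.stabilizer G ζ) ζ :=
    ⟨hz.pow, hz.ne, hz.fix.mono inf_le_right, hz.lt, hz.p_ne⟩
  obtain ⟨d, hd, hd1⟩ := exists_nat_pow hϖ hz'.lam_ne (hz'.fix.sub Fix.one) hz'.lt
  exact ss2 D L hS hϖ hd1 hz' hd (fun σ hσ => (Subgroup.mem_inf.mp hσ).1) hw0 hdiv hw hσ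

/-- Inertia acts on the classes with trivial reduction through the cyclotomic character. -/
theorem smul_eq_of_triv {W : F ≃ₐ[K] F} {N : F →* F} {ζ : K} (R : Geo D W N ζ)
    {V : Type*} [AddCommGroup V] [DistribMulAction G V] (Q : Kum K G p V W N) {y : V}
    (hy : TrivAt D false (Q.U y)) {σ : G} {a : ℕ} (hσ : σ • ζ = ζ ^ a) : σ • y = a • y := by
  classical
  have hp : p.Prime := Fact.out
  obtain ⟨B, hB0, hB⟩ := Q.rel y
  obtain ⟨B', hB'0, hB'⟩ := Q.rel' y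
  obtain ⟨h, hh0, hh⟩ := hy
  obtain ⟨e, he⟩ := Q.W_rel
  have hWy : TrivAt D false (W (Q.U y)) := by
    obtain ⟨f, hf0, hf⟩ := he y
    rw [hf]
    exact (TrivAt.zpow ⟨h, hh0, hh⟩ e).mul (trivAt_pow hf0)
  obtain ⟨h', hh'0, hh'⟩ := hWy
  obtain ⟨H, ϖ, d, hfix, hd, hζ, hζϖ, hd1⟩ := R.exists_fin {Q.U y, B, B', h, h'}
  have hfix' : Fix H (Q.U y) ∧ Fix H B ∧ Fix H B' ∧ Fix H h ∧ Fix H h' := by
    refine ⟨hfix _ ?_, hfix _ ?_, hfix _ ?_, hfix _ ?_, hfix _ ?_⟩ <;> simp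
  obtain ⟨φ, hφ0, hφ⟩ := R.split hd hζϖ
    hfix'.1 (Q.dvd y) hfix'.2.1 hfix'.2.2.1 hB0 hB'0 hB hB' ⟨h, hfix'.2.2.2.1, hh0, hh⟩
    ⟨h', hfix'.2.2.2.2, hh'0, hh'⟩ hσ
  obtain ⟨f, hf0, hf⟩ := Q.smul σ y
  obtain ⟨g, hg0, hg⟩ := Q.nsmul y a
  apply Q.eq_of_mul_pow (f := φ / (f * g))
  have hfp : f ^ p ≠ 0 := pow_ne_zero _ hf0
  have hgp : g ^ p ≠ 0 := pow_ne_zero _ hg0
  rw [div_pow, mul_pow, hg, eq_comm, ← mul_div_assoc, div_eq_iff (mul_ne_zero hfp hgp)]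
  have h1 : Q.U (σ • y) * f ^ p = Q.U y ^ a * φ ^ p := by rw [← hf, hφ]
  calc Q.U y ^ a * g ^ p * φ ^ p = (Q.U y ^ a * φ ^ p) * g ^ p := by ring
    _ = (Q.U (σ • y) * f ^ p) * g ^ p := by rw [h1]
    _ = Q.U (σ • y) * (f ^ p * g ^ p) := by ring

/-- The classes with trivial reduction are exactly `V^m`. -/
theorem triv_iff {W : F ≃ₐ[K] F} {N : F →* F} {ζ : K} (R : Geo D W N ζ)
    {V : Type*} [AddCommGroup V] [DistribMulAction G V] (Q : Kum K G p V W N) (E : ESide (G := G) D.M.vK p V ζ)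
    (x : V) : TrivAt D false (Q.U x) ↔ x ∈ E.Vm := by
  have hp : p.Prime := Fact.out
  obtain ⟨σ₀, a₀, hσ₀, ha₀⟩ := E.exists_char
  -- trivial classes are in `V^m`
  have h1 : ∀ x, TrivAt D false (Q.U x) → x ∈ E.Vm := by
    intro x hx
    have h2 := smul_eq_of_triv R Q hx hσ₀
    have h3 := E.sub_mem σ₀ x
    rw [h2] at h3
    -- `(a₀ - 1) x ∈ Vm` and `a₀ - 1` is a unit mod `p`
    have hne : (a₀ : ZMod p) - 1 ≠ 0 := sub_ne_zero.mpr ha₀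
    obtain ⟨b, hb⟩ : ∃ b : ℕ, (b : ZMod p) * ((a₀ : ZMod p) - 1) = 1 :=
      ⟨(((a₀ : ZMod p) - 1)⁻¹).val, by rw [ZMod.natCast_zmod_val, inv_mul_cancel₀ hne]⟩
    have h4 : b • (a₀ • x - x) ∈ E.Vm := E.Vm.nsmul_mem h3 b
    have h5 : b • (a₀ • x - x) = ((b : ℤ) * ((a₀ : ℤ) - 1)) • x := by
      rw [mul_smul, sub_smul, one_smul, natCast_zsmul, natCast_zsmul]
    have h6 : ((((b : ℤ) * ((a₀ : ℤ) - 1) - 1 : ℤ)) : ZMod p) = 0 := by
      push_cast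
      rw [hb, sub_self]
    rw [ZMod.intCast_zmod_eq_zero_iff_dvd] at h6
    obtain ⟨c, hc⟩ := h6
    have h7 : ((b : ℤ) * ((a₀ : ℤ) - 1)) • x = x := by
      have h8 : (b : ℤ) * ((a₀ : ℤ) - 1) = c * p + 1 := by linarith
      rw [h8, add_smul, one_smul, mul_smul, natCast_zsmul, E.torsion, smul_zero, zero_add]
    rw [h5, h7] at h4
    exact h4
  refine ⟨h1 x, fun hx => ?_⟩
  -- there is a nonzero trivial class
  obtain ⟨y, hy0, hy⟩ : ∃ y : V, y ≠ 0 ∧ TrivAt D false (Q.U y) := by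
    by_contra hcon
    push Not at hcon
    obtain ⟨y, hy, hy0⟩ := E.exists_ne
    have h2 := E.char y hy σ₀ a₀ hσ₀
    have h3 : σ₀ • y - y = 0 := by
      by_contra hne
      refine hcon _ hne ?_
      obtain ⟨f, hf0, hf⟩ := Q.exists_twist σ₀ y
      have h4 : Q.U (σ₀ • y - y) = (σ₀ • Q.U y / Q.U y) * (f⁻¹) ^ p := by
        have h5 := Q.ne y
        have h6 : f ^ p ≠ 0 := pow_ne_zero _ hf0
        rw [hf, inv_pow]
        field_simp
      rw [h4]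
      exact (trivAt_smul_div σ₀ (Q.ne y)).mul (trivAt_pow (inv_ne_zero hf0))
    rw [h2] at h3
    apply ha₀
    -- `(a₀ - 1) y = 0` and `y ≠ 0`
    by_contra hne'
    have hne : (a₀ : ZMod p) - 1 ≠ 0 := sub_ne_zero.mpr hne'
    obtain ⟨b, hb⟩ : ∃ b : ℕ, (b : ZMod p) * ((a₀ : ZMod p) - 1) = 1 :=
      ⟨(((a₀ : ZMod p) - 1)⁻¹).val, by rw [ZMod.natCast_zmod_val, inv_mul_cancel₀ hne]⟩
    have h4 : b • (a₀ • y - y) = 0 := by rw [h3, smul_zero]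
    have h5 : b • (a₀ • y - y) = ((b : ℤ) * ((a₀ : ℤ) - 1)) • y := by
      rw [mul_smul, sub_smul, one_smul, natCast_zsmul, natCast_zsmul]
    have h6 : ((((b : ℤ) * ((a₀ : ℤ) - 1) - 1 : ℤ)) : ZMod p) = 0 := by
      push_cast
      rw [hb, sub_self]
    rw [ZMod.intCast_zmod_eq_zero_iff_dvd] at h6
    obtain ⟨c, hc⟩ := h6
    have h7 : ((b : ℤ) * ((a₀ : ℤ) - 1)) • y = y := by
      have h8 : (b : ℤ) * ((a₀ : ℤ) - 1) = c * p + 1 := by linarith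
      rw [h8, add_smul, one_smul, mul_smul, natCast_zsmul, E.torsion, smul_zero, zero_add]
    rw [h5, h7] at h4
    exact hy0 h4
  obtain ⟨n, rfl⟩ := E.line y (h1 y hy) hy0 x hx
  obtain ⟨f, hf0, hf⟩ := Q.nsmul y n
  rw [hf]
  exact (hy.pow n).mul (trivAt_pow hf0)

end Fermat.Agent.H40
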