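import Fermat.Agent.H44EFrey
import Fermat.Agent.H40Book
import Fermat.Agent.H39WeilDet

/-!
# The instance of `H40.ESide` for the Frey curve
-/

set_option autoImplicit false
set_option linter.unusedSectionVars false

open WeierstrassCurve WeierstrassCurve.Affine IsLocalRing

namespace Fermat.Agent.H44E

open Fermat.Agent.H13 Fermat.Agent.H31.MP

local notation "Qb" => AlgebraicClosure ℚ
local notation "GQ" => (AlgebraicClosure ℚ ≃ₐ[ℚ] AlgebraicClosure ℚ)

section char

variable {W : WeierstrassCurve ℤ} {p : ℕ}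

theorem zmod_smul_eq {p : ℕ} [NeZero p] {M : Type*} [AddCommGroup M] [Module (ZMod p) M] (a : ZMod p)
    (x : M) : a • x = a.val • x := by
  conv_lhs => rw [← ZMod.natCast_zmod_val a]
  rw [Nat.cast_smul_eq_nsmul]

/-- Inertia acts on the line through the cyclotomic character. -/
theorem LineAtP.char {A : ValuationSubring Qb} {V : AddSubgroup (TorQ W p)}
    (h : LineAtP p A (TorQ W p) V) (hp : p.Prime) (hp2 : p ≠ 2) (hΔ : W.Δ ≠ 0)
    {ζ : Qb} (hζ : IsPrimitiveRoot ζ p) {y : TorQ W p} (hy : y ∈ V)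
    (σ : A.inertiaSubgroupIn ℚ) (a : ℕ) (hσ : σ • ζ = ζ ^ a) : σ • y = a • y := by
  have hfact := Fact.mk hp
  have hp3 : 3 ≤ p := by have := hp.two_le; omega
  have hΔQ : (W.map (Int.castRingHom ℚ)).Δ ≠ 0 := by
    rw [WeierstrassCurve.map_Δ]
    simpa using hΔ
  have hΔK := H87.EC.algebraMap_Δ_ne_zero hΔQ
  by_cases hy0 : y = 0
  · rw [hy0, smul_zero, smul_zero]
  have hpK : (p : Qb) ≠ 0 := Nat.cast_ne_zero.mpr hp.ne_zero
  have hrank := H87.EC.finrank_torsionBy (K := Qb) (W.map (Int.castRingHom ℚ)) hΔK hp.ne_one hpK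
  -- a point outside the line
  obtain ⟨x, hx⟩ : ∃ x : TorQ W p, x ∉ V := by
    by_contra hcon
    push Not at hcon
    have h1 : V = ⊤ := by
      rw [eq_top_iff]
      exact fun x _ => hcon x
    obtain ⟨b⟩ := H87.EC.exists_basis_torsionBy (K := Qb) (W.map (Int.castRingHom ℚ)) hΔK hpK
    have h2 : Nat.card (TorQ W p) = p ^ 2 := by
      rw [Nat.card_congr b.equivFun.toEquiv]
      simp
    have h3 := h.card
    rw [h1] at h3
    have h4 : Nat.card (⊤ : AddSubgroup (TorQ W p)) = Nat.card (TorQ W p) :=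
      Nat.card_congr AddSubgroup.topEquiv.toEquiv
    rw [h4, h2] at h3
    have := hp.two_le
    nlinarith
  have htor : ∀ x : TorQ W p, p • x = 0 := by
    intro x
    apply Subtype.ext
    have h1 := x.2
    rw [Submodule.mem_torsionBy_iff, natCast_zsmul] at h1
    exact h1
  have hli : LinearIndependent (ZMod p) ![y, x] := by
    rw [LinearIndependent.pair_iff' hy0]
    intro a ha
    apply hx
    rw [← ha, zmod_smul_eq]
    exact V.nsmul_mem hy _
  have hcard : Fintype.card (Fin 2) = Module.finrank (ZMod p) (TorQ W p) := by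
    rw [hrank]; rfl
  set b := basisOfLinearIndependentOfCardEqFinrank hli hcard with hb
  have hb0 : b 0 = y := by rw [hb, coe_basisOfLinearIndependentOfCardEqFinrank]; rfl
  have hb1 : b 1 = x := by rw [hb, coe_basisOfLinearIndependentOfCardEqFinrank]; rfl
  obtain ⟨e, hadd, hadd', hself, hpow, hprim, hequiv⟩ :=
    H39.exists_weilPairing (S := ℚ) (K := Qb) (W.map (Int.castRingHom ℚ)) hΔK hp3
  have hω := hprim b
  rw [hb0, hb1] at hω
  -- elementary properties
  have hne : ∀ u v, e u v ≠ 0 := fun u v h0 => by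
    have := hpow u v
    rw [h0, zero_pow hp.ne_zero] at this
    exact zero_ne_one this
  have hnsmul : ∀ (n : ℕ) u v, e (n • u) v = e u v ^ n := by
    intro n u v
    induction n with
    | zero =>
      rw [zero_smul, pow_zero]
      have h1 := hadd 0 0 v
      rw [add_zero] at h1
      exact (mul_eq_left₀ (hne 0 v)).mp h1.symm
    | succ n ih => rw [succ_nsmul, hadd, ih, pow_succ]
  -- the action of `σ`
  obtain ⟨c, hc⟩ : ∃ c : ℕ, σ • y = c • y :=
    exists_nsmul_of_prime_card h.card hy hy0 (h.smul_mem σ y hy)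
  obtain ⟨t, ht⟩ : ∃ t : ℕ, σ • x - x = t • y :=
    exists_nsmul_of_prime_card h.card hy hy0 (h.smul_sub_mem σ x (htor x))
  have hσx : σ • x = x + t • y := by rw [← ht]; abel
  have h1 : e (σ • y) (σ • x) = e y x ^ c := by
    rw [hc, hσx, hnsmul, hadd']
    have h2 : e y (t • y) = 1 := by
      have h3 : ∀ n : ℕ, e y (n • y) = 1 := by
        intro n
        induction n with
        | zero =>
          rw [zero_smul]
          have h1 := hadd' y 0 0
          rw [add_zero] at h1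
          exact (mul_eq_left₀ (hne y 0)).mp h1.symm
        | succ n ih => rw [succ_nsmul, hadd', ih, hself, one_mul]
      exact h3 t
    rw [h2, mul_one]
  have h2 : e (σ • y) (σ • x) = σ • e y x := hequiv (σ : GQ) y x
  have h3 : σ • e y x = e y x ^ a := by
    obtain ⟨i, -, hi⟩ := hζ.eq_pow_of_pow_eq_one (hpow y x)
    rw [← hi, smul_pow', hσ, ← pow_mul, ← pow_mul, mul_comm]
  have h4 : e y x ^ c = e y x ^ a := by rw [← h1, h2, h3]
  have h5 : (c : ZMod p) = (a : ZMod p) := by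
    rw [ZMod.natCast_eq_natCast_iff]
    have h6 : e y x ^ (c % p) = e y x ^ (a % p) := by
      rw [hω.eq_orderOf, pow_mod_orderOf, pow_mod_orderOf]
      exact h4
    exact hω.pow_inj (Nat.mod_lt _ hp.pos) (Nat.mod_lt _ hp.pos) h6
  rw [hc]
  rw [← Nat.cast_smul_eq_nsmul (ZMod p), ← Nat.cast_smul_eq_nsmul (ZMod p) a, h5]

end char

/-- The `E`-side input of Mazur's principle at `p` from the structure of the line. -/
theorem LineAtP.exists_eSide {W : WeierstrassCurve ℤ} {p : ℕ} {A : ValuationSubring Qb}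
    {V : AddSubgroup (TorQ W p)}
    (h : LineAtP p A (TorQ W p) V) (hp : p.Prime) (hp2 : p ≠ 2) (hΔ : W.Δ ≠ 0)
    {ζ : Qb} (hζ : IsPrimitiveRoot ζ p) :
    ∃ E : H40.ESide (G := A.inertiaSubgroupIn ℚ) A.valuation p (TorQ W p) ζ, E.Vm = V := by
  have hfact := Fact.mk hp
  have hΔQ : (W.map (Int.castRingHom ℚ)).Δ ≠ 0 := by
    rw [WeierstrassCurve.map_Δ]
    simpa using hΔ
  have hΔK := H87.EC.algebraMap_Δ_ne_zero hΔQ
  have hpK : (p : Qb) ≠ 0 := Nat.cast_ne_zero.mpr hp.ne_zero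
  have htor : ∀ x : TorQ W p, p • x = 0 := by
    intro x
    apply Subtype.ext
    have h1 := x.2
    rw [Submodule.mem_torsionBy_iff, natCast_zsmul] at h1
    exact h1
  obtain ⟨x, hx⟩ : ∃ x : TorQ W p, x ∉ V := by
    by_contra hcon
    push Not at hcon
    have h1 : V = ⊤ := by
      rw [eq_top_iff]
      exact fun x _ => hcon x
    obtain ⟨b⟩ := H87.EC.exists_basis_torsionBy (K := Qb) (W.map (Int.castRingHom ℚ)) hΔK hpK
    have h2 : Nat.card (TorQ W p) = p ^ 2 := by
      rw [Nat.card_congr b.equivFun.toEquiv]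
      simp
    have h3 := h.card
    rw [h1] at h3
    have h4 : Nat.card (⊤ : AddSubgroup (TorQ W p)) = Nat.card (TorQ W p) :=
      Nat.card_congr AddSubgroup.topEquiv.toEquiv
    rw [h4, h2] at h3
    have := hp.two_le
    nlinarith
  obtain ⟨y₀, hy₀, hy₀0⟩ : ∃ y ∈ V, y ≠ 0 := by
    by_contra hcon
    push Not at hcon
    have h1 : V = ⊥ := by
      rw [eq_bot_iff]
      intro T hT
      rw [AddSubgroup.mem_bot]
      exact hcon T hT
    have h2 := h.card
    rw [h1, AddSubgroup.card_bot] at h2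
    exact hp.one_lt.ne h2
  have hchar : ∀ y ∈ V, ∀ (σ : A.inertiaSubgroupIn ℚ) (a : ℕ), σ • ζ = ζ ^ a → σ • y = a • y :=
    fun y hy σ a hσ => h.char hp hp2 hΔ hζ hy σ a hσ
  -- choice of `z`
  obtain ⟨z, hz, hmain⟩ : ∃ z : TorQ W p, z ∉ V ∧
      ((∀ σ : A.inertiaSubgroupIn ℚ, σ • z = z) ∨ ∃ (τ : A.inertiaSubgroupIn ℚ) (ε : Qb),
        τ • z ≠ z ∧ ε ≠ 0 ∧ A.valuation ε < 1 ∧
    (∀ a : Qb, Fix (MulAction.stabilizer (A.inertiaSubgroupIn ℚ) z) a → A.valuation a < 1 →
      A.valuation a ≤ A.valuation ε ^ 2) ∧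
    (∀ a : Qb, a ≠ 0 → Fix (MulAction.stabilizer (A.inertiaSubgroupIn ℚ) z) a → ∃ n : ℤ,
      A.valuation a ^ p = A.valuation (p : Qb) ^ n ∧
        A.valuation ((τ • a) / a - 1 - n * ε) ≤ A.valuation ε ^ 2) ∧
    (∀ a : Qb, Fix (MulAction.stabilizer (A.inertiaSubgroupIn ℚ) (τ • z - z)) a →
      A.valuation a < 1 → A.valuation a ≤ A.valuation ε ^ 2)) := by
    by_cases hcase : ∀ T ∈ V, ∃ σ : A.inertiaSubgroupIn ℚ, σ • (x + T) ≠ x + T
    · obtain ⟨w1, -, w3⟩ := h.wild x (htor x) hx hcase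
      obtain ⟨τ, hτ⟩ := w1 y₀ hy₀
      have hτx : τ • x ≠ x := by
        rw [hτ]
        intro h1
        exact hy₀0 (add_eq_left.mp h1)
      obtain ⟨ε, e1, e2, e3, -, e5, e6⟩ := w3 τ hτx
      exact ⟨x, hx, Or.inr ⟨τ, ε, hτx, e1, e2, e3, e5,
        e6 _ ⟨τ • x - x, h.smul_sub_mem τ x (htor x), sub_ne_zero.mpr hτx, rfl⟩⟩⟩
    · push Not at hcase
      obtain ⟨T, hT, hfix⟩ := hcase
      refine ⟨x + T, fun h1 => hx ?_, Or.inl hfix⟩
      have := V.sub_mem h1 hT
      rwa [add_sub_cancel_right] at this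
  refine ⟨{ Vm := V
            sub_mem := fun σ x => h.smul_sub_mem σ x (htor x)
            char := hchar
            exists_ne := ⟨y₀, hy₀, hy₀0⟩
            line := fun y hy hy0 y' hy' => exists_nsmul_of_prime_card h.card hy hy0 hy'
            torsion := htor
            exists_char := ?_
            z := z
            z_notMem := hz
            main := hmain }, rfl⟩
  obtain ⟨σ, hσ⟩ := h.exists_ne y₀ hy₀ hy₀0
  obtain ⟨a, -, ha⟩ := hζ.eq_pow_of_pow_eq_one (ξ := σ • ζ) (by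
    rw [← smul_pow', hζ.pow_eq_one, smul_one])
  refine ⟨σ, a, ha.symm, fun h1 => hσ ?_⟩
  rw [hchar y₀ hy₀ σ a ha.symm, ← Nat.cast_smul_eq_nsmul (ZMod p), h1, one_smul]

/-- **The `E`-side of Mazur's principle at `p` for the Frey curve.** -/
theorem frey_eSide (P : FreyPackage) (h : (P.p : ℤ) ∣ P.a * P.b * P.c) {W : WeierstrassCurve ℤ}
    (hW : W.IsIntegralModelOf P.freyCurve) (hΔ : W.Δ ≠ 0)
    {A : ValuationSubring Qb} (hA : A.LiesOverPrime P.p)
    {ζ : Qb} (hζ : IsPrimitiveRoot ζ P.p) :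
    Nonempty (H40.ESide (G := A.inertiaSubgroupIn ℚ) A.valuation P.p (TorQ W P.p) ζ) := by
  obtain ⟨V, hV⟩ := frey_lineAtP P h hW hA
  have hp2 : P.p ≠ 2 := by have := P.hp5; omega
  obtain ⟨E, -⟩ := hV.exists_eSide P.pp hp2 hΔ hζ
  exact ⟨E⟩

end Fermat.Agent.H44E
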