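import Fermat.Agent.H67Galois
import Fermat.Agent.H60Norm

/-!
# A calculus of pull backs and push forwards on `Pic⁰` of function fields (helper67)

`K` is algebraically closed of characteristic zero and all the fields are function fields of
one variable over `K` (`H94.FunField`).  For a `K`-homomorphism `φ : F → F'` we define
`pushD φ`, `pullD φ` on divisors and `pushP φ`, `pullP φ` on `Pic⁰`, without side conditions.
-/

set_option autoImplicit false
set_option linter.unusedSectionVars false
set_option linter.style.haveILetI false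

noncomputable section

open AlgebraicCurve

namespace Fermat.Agent.H67

section MapP

variable {K F F' F'' : Type*} [Field K] [Field F] [Field F'] [Field F''] [Algebra K F]
  [Algebra K F'] [Algebra K F'']

/-- The map on `Pic⁰` induced by a map on divisors. -/
def mapP (f : Divisor K F →+ Divisor K F')
    (h0 : ∀ D, Divisor.degree D = 0 → Divisor.degree (f D) = 0)
    (hp : ∀ D, Divisor.IsPrincipal D → Divisor.IsPrincipal (f D)) : Pic0 K F →+ Pic0 K F' :=
  QuotientAddGroup.map _ _ ((f.domRestrict (Divisor.degZero (K := K) (F := F))).codRestrict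
    (Divisor.degZero (K := K) (F := F')) (fun D => h0 D.1 D.2)) (by
    rintro ⟨D, hD0⟩ hD
    simp only [AddSubgroup.mem_addSubgroupOf] at hD ⊢
    exact hp D hD)

theorem mapP_mk (f : Divisor K F →+ Divisor K F')
    (h0 : ∀ D, Divisor.degree D = 0 → Divisor.degree (f D) = 0)
    (hp : ∀ D, Divisor.IsPrincipal D → Divisor.IsPrincipal (f D))
    (D : Divisor.degZero (K := K) (F := F)) :
    mapP f h0 hp (Pic0.mk D) = Pic0.mk ⟨f D, h0 D.1 D.2⟩ := rfl

end MapP

section Calc

variable {K : Type*} [Field K] [IsAlgClosed K] [CharZero K]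
variable {F F' F'' : Type*} [Field F] [Field F'] [Field F''] [Algebra K F] [Algebra K F']
  [Algebra K F''] [H94.FunField K F] [H94.FunField K F'] [H94.FunField K F'']

/-! ### Places -/

theorem isInt (φ : F →ₐ[K] F') : φ.toRingHom.IsIntegral :=
  isIntegral_of_finiteAlong (finiteAlong_of_funField φ)

/-- restriction of places along `φ` -/
def res (φ : F →ₐ[K] F') (w : Place K F') : Place K F := Place.restrictAlong φ (isInt φ) w

/-- ramification index along `φ` -/
def ram (φ : F →ₐ[K] F') (w : Place K F') : ℕ := Place.ramificationIndexAlong φ w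

theorem mem_res {φ : F →ₐ[K] F'} {w : Place K F'} {f : F} :
    f ∈ (res φ w).toValuationSubring ↔ φ f ∈ w.toValuationSubring := Iff.rfl

theorem ord_res (φ : F →ₐ[K] F') (w : Place K F') (f : F) :
    w.ord (φ f) = ram φ w * (res φ w).ord f := by
  letI := algebraAlong φ
  haveI := isScalarTower_along φ
  haveI := isIntegral_along φ (isInt φ)
  exact w.ord_restrict f

theorem ram_pos (φ : F →ₐ[K] F') (w : Place K F') : 0 < ram φ w := by
  letI := algebraAlong φ
  haveI := isScalarTower_along φ
  haveI := isIntegral_along φ (isInt φ)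
  exact w.ramificationIndex_pos

theorem res_comp (φ : F →ₐ[K] F') (ψ : F' →ₐ[K] F'') (w : Place K F'') :
    res (ψ.comp φ) w = res φ (res ψ w) := by
  ext x
  exact Iff.rfl

theorem res_id (w : Place K F) : res (AlgHom.id K F) w = w := by
  ext x
  exact Iff.rfl

theorem ram_comp (φ : F →ₐ[K] F') (ψ : F' →ₐ[K] F'') (w : Place K F'') :
    ram (ψ.comp φ) w = ram ψ w * ram φ (res ψ w) := by
  obtain ⟨f, hf0, hf⟩ := exists_ord_eq_one (res (ψ.comp φ) w)
  have h1 := ord_res (ψ.comp φ) w f
  have h2 := ord_res ψ w (φ f)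
  have h3 := ord_res φ (res ψ w) f
  rw [← res_comp] at h3
  rw [hf, mul_one] at h1 h3
  rw [h3] at h2
  rw [AlgHom.comp_apply] at h1
  have := h1.symm.trans h2
  exact_mod_cast this

theorem exists_res_eq (φ : F →ₐ[K] F') (v : Place K F) : ∃ w, res φ w = v := by
  letI := algebraAlong φ
  haveI := isScalarTower_along φ
  haveI := isIntegral_along φ (isInt φ)
  haveI : Module.Finite F F' := finiteAlong_of_funField φ
  have h := sum_ramificationIndex_mul_inertiaDeg (F' := F') v
  by_contra hcon
  push Not at hcon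
  have h0 : above F' v = ∅ := by
    rw [Finset.eq_empty_iff_forall_notMem]
    intro w hw
    exact hcon w (mem_above.mp hw)
  rw [h0, Finset.sum_empty] at h
  have : 0 < Module.finrank F F' := Module.finrank_pos
  omega

/-! ### Divisors -/

/-- push forward of divisors -/
def pushD (φ : F →ₐ[K] F') : Divisor K F' →+ Divisor K F :=
  Divisor.pushforwardAlong φ (isInt φ)

/-- pull back of divisors -/
def pullD (φ : F →ₐ[K] F') : Divisor K F →+ Divisor K F' :=
  haveI := H94.hasPrincipalDivisors K F'
  Divisor.pullbackAlong φ (isInt φ)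

theorem pushD_single (φ : F →ₐ[K] F') (w : Place K F') (n : ℤ) :
    pushD φ (Finsupp.single w n) = Finsupp.single (res φ w) n := by
  letI := algebraAlong φ
  haveI := isScalarTower_along φ
  haveI := isIntegral_along φ (isInt φ)
  have h1 := w.deg_restrict_mul_inertiaDeg (F := F)
  rw [H94.deg_eq_one, H94.deg_eq_one, one_mul] at h1
  change Divisor.pushforward F (Finsupp.single w n) = _
  rw [Divisor.pushforward_single, h1, Nat.cast_one, mul_one]
  rfl

theorem pushD_eq (φ : F →ₐ[K] F') (D : Divisor K F') :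
    pushD φ D = Finsupp.mapDomain (res φ) D := by
  induction D using Finsupp.induction with
  | zero => simp
  | single_add w n D _ _ ih =>
    rw [map_add, Finsupp.mapDomain_add, ih, pushD_single, Finsupp.mapDomain_single]

theorem pullD_apply (φ : F →ₐ[K] F') (D : Divisor K F) (w : Place K F') :
    pullD φ D w = ram φ w * D (res φ w) := by
  letI := algebraAlong φ
  haveI := isScalarTower_along φ
  haveI := isIntegral_along φ (isInt φ)
  haveI := H94.hasPrincipalDivisors K F'
  exact Divisor.pullback_apply D w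

theorem degree_pushD (φ : F →ₐ[K] F') (D : Divisor K F') :
    Divisor.degree (pushD φ D) = Divisor.degree D :=
  Divisor.degree_pushforwardAlong φ (isInt φ) D

theorem degree_pullD (φ : F →ₐ[K] F') (D : Divisor K F) :
    Divisor.degree (pullD φ D) = finrankAlong K φ * Divisor.degree D := by
  letI := algebraAlong φ
  haveI := isScalarTower_along φ
  haveI := isIntegral_along φ (isInt φ)
  haveI := H94.hasPrincipalDivisors K F'
  haveI : Module.Finite F F' := finiteAlong_of_funField φ
  exact Divisor.degree_pullbackAlong φ (isInt φ) fundamentalIdentity D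

/-- The divisor of a function. -/
def divF (f : F) (hf : f ≠ 0) : Divisor K F :=
  haveI := H94.hasPrincipalDivisors K F
  (HasPrincipalDivisors.exists_divisor (K := K) f hf).choose

theorem divF_apply (f : F) (hf : f ≠ 0) (v : Place K F) : divF (K := K) f hf v = v.ord f :=
  haveI := H94.hasPrincipalDivisors K F
  (HasPrincipalDivisors.exists_divisor (K := K) f hf).choose_spec.1 v

theorem degree_divF (f : F) (hf : f ≠ 0) : Divisor.degree (divF (K := K) f hf) = 0 :=
  haveI := H94.hasPrincipalDivisors K F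
  (HasPrincipalDivisors.exists_divisor (K := K) f hf).choose_spec.2

theorem divF_unique {f : F} (hf : f ≠ 0) {D : Divisor K F} (h : ∀ v, D v = v.ord f) :
    D = divF f hf := Finsupp.ext fun v => by rw [h, divF_apply]

theorem isPrincipal_divF (f : F) (hf : f ≠ 0) : Divisor.IsPrincipal (divF (K := K) f hf) :=
  ⟨f, hf, divF_apply f hf⟩

theorem isPrincipal_iff {D : Divisor K F} : D.IsPrincipal ↔ ∃ f, ∃ hf : f ≠ 0, D = divF f hf :=
  ⟨fun ⟨f, hf, h⟩ => ⟨f, hf, divF_unique hf h⟩, by rintro ⟨f, hf, rfl⟩; exact isPrincipal_divF f hf⟩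

theorem divF_mul {f g : F} (hf : f ≠ 0) (hg : g ≠ 0) :
    divF (K := K) (f * g) (mul_ne_zero hf hg) = divF f hf + divF g hg :=
  Finsupp.ext fun v => by
    rw [Finsupp.add_apply, divF_apply, divF_apply, divF_apply, v.ord_mul hf hg]

theorem divF_congr {f g : F} (hf : f ≠ 0) (h : f = g) :
    divF (K := K) f hf = divF g (h ▸ hf) := by subst h; rfl

theorem pullD_divF (φ : F →ₐ[K] F') (f : F) (hf : f ≠ 0) :
    pullD φ (divF f hf) = divF (φ f) ((map_ne_zero φ).mpr hf) :=
  Finsupp.ext fun w => by
    rw [pullD_apply, divF_apply, divF_apply, ord_res]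

theorem normAlong_ne_zero' (φ : F →ₐ[K] F') {f : F'} (hf : f ≠ 0) : H60.normAlong φ f ≠ 0 := by
  letI := algebraAlong φ
  haveI : Module.Finite F F' := finiteAlong_of_funField φ
  exact Algebra.norm_ne_zero_iff.mpr hf

theorem pushD_divF (φ : F →ₐ[K] F') (f : F') (hf : f ≠ 0) :
    pushD φ (divF f hf) = divF (H60.normAlong φ f) (normAlong_ne_zero' φ hf) := by
  letI := algebraAlong φ
  haveI := isScalarTower_along φ
  haveI := isIntegral_along φ (isInt φ)
  haveI : Module.Finite F F' := finiteAlong_of_funField φ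
  refine divF_unique _ fun v => ?_
  exact pushforwardNormFormula f hf _ (divF_apply f hf) v

theorem isPrincipal_pushD (φ : F →ₐ[K] F') {D : Divisor K F'} (hD : D.IsPrincipal) :
    (pushD φ D).IsPrincipal := by
  obtain ⟨f, hf, rfl⟩ := isPrincipal_iff.mp hD
  rw [pushD_divF]
  exact isPrincipal_divF _ _

theorem isPrincipal_pullD (φ : F →ₐ[K] F') {D : Divisor K F} (hD : D.IsPrincipal) :
    (pullD φ D).IsPrincipal := by
  obtain ⟨f, hf, rfl⟩ := isPrincipal_iff.mp hD
  rw [pullD_divF]
  exact isPrincipal_divF _ _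

theorem pushD_comp (φ : F →ₐ[K] F') (ψ : F' →ₐ[K] F'') (D : Divisor K F'') :
    pushD (ψ.comp φ) D = pushD φ (pushD ψ D) := by
  rw [pushD_eq, pushD_eq, pushD_eq, ← Finsupp.mapDomain_comp]
  congr 1

theorem pullD_comp (φ : F →ₐ[K] F') (ψ : F' →ₐ[K] F'') (D : Divisor K F) :
    pullD (ψ.comp φ) D = pullD ψ (pullD φ D) := by
  refine Finsupp.ext fun w => ?_
  rw [pullD_apply, pullD_apply, pullD_apply, ram_comp, res_comp]
  push_cast
  ring

theorem pushD_id (D : Divisor K F) : pushD (AlgHom.id K F) D = D := by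
  rw [pushD_eq]
  have : res (AlgHom.id K F) = id := funext res_id
  rw [this, Finsupp.mapDomain_id]

theorem ram_id (w : Place K F) : ram (AlgHom.id K F) w = 1 := by
  obtain ⟨f, hf0, hf⟩ := exists_ord_eq_one w
  have h1 := ord_res (AlgHom.id K F) w f
  rw [res_id, AlgHom.id_apply, hf, mul_one] at h1
  exact_mod_cast h1.symm

theorem pullD_id (D : Divisor K F) : pullD (AlgHom.id K F) D = D := by
  refine Finsupp.ext fun w => ?_
  rw [pullD_apply, ram_id, res_id, Nat.cast_one, one_mul]

/-- `φ_* φ^* = [F' : F]` -/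
theorem pushD_pullD (φ : F →ₐ[K] F') (D : Divisor K F) :
    pushD φ (pullD φ D) = (finrankAlong K φ : ℤ) • D := by
  letI := algebraAlong φ
  haveI := isScalarTower_along φ
  haveI := isIntegral_along φ (isInt φ)
  haveI := H94.hasPrincipalDivisors K F'
  haveI : Module.Finite F F' := finiteAlong_of_funField φ
  refine Finsupp.ext fun v => ?_
  change Divisor.pushforward F (Divisor.pullback F' D) v = _
  rw [pushforward_apply_eq_sum_above, Finsupp.smul_apply, smul_eq_mul]
  change _ = (Module.finrank F F' : ℤ) * D v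
  rw [← sum_ramificationIndex_mul_inertiaDeg (F' := F') v, Finset.sum_mul]
  refine Finset.sum_congr rfl fun w hw => ?_
  rw [Divisor.pullback_apply, mem_above.mp hw]
  ring

/-- Extensionality principle: two additive maps on divisors which are local over a common
subfield and which agree on principal divisors are equal. -/
theorem ext_of_divF {A B C : Type*} [Field A] [Field B] [Field C] [Algebra K A]
    [Algebra K B] [Algebra K C] [H94.FunField K A] [H94.FunField K B] [H94.FunField K C]
    (φ : A →ₐ[K] B) (ψ : A →ₐ[K] C) (T T' : Divisor K B →+ Divisor K C)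
    (hT : ∀ w u, res ψ u ≠ res φ w → T (Finsupp.single w 1) u = 0)
    (hT' : ∀ w u, res ψ u ≠ res φ w → T' (Finsupp.single w 1) u = 0)
    (h : ∀ b (hb : b ≠ 0), T (divF b hb) = T' (divF b hb)) (E : Divisor K B) : T E = T' E := by
  letI := algebraAlong φ
  haveI := isScalarTower_along φ
  haveI : Module.Finite A B := finiteAlong_of_funField φ
  haveI := isIntegral_along φ (isInt φ)
  -- local vanishing for divisors supported away from a fibre
  have key : ∀ (S : Divisor K B →+ Divisor K C)
      (_ : ∀ w u, res ψ u ≠ res φ w → S (Finsupp.single w 1) u = 0) (D : Divisor K B)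
      (u : Place K C), (∀ w, res φ w = res ψ u → D w = 0) → S D u = 0 := by
    intro S hS D u hD
    have h1 : S D = D.sum fun w n => n • S (Finsupp.single w 1) := by
      conv_lhs => rw [← Finsupp.sum_single D]
      rw [map_finsuppSum]
      refine Finsupp.sum_congr fun w _ => ?_
      rw [← map_zsmul, Finsupp.smul_single, smul_eq_mul, mul_one]
    rw [h1, Finsupp.sum, Finsupp.finsetSum_apply]
    refine Finset.sum_eq_zero fun w hw => ?_
    rw [Finsupp.smul_apply]
    by_cases hwu : res φ w = res ψ u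
    · rw [hD w hwu, zero_smul]
    · rw [hS w u (fun h => hwu h.symm), smul_zero]
  have hsingle : ∀ w : Place K B, T (Finsupp.single w 1) = T' (Finsupp.single w 1) := by
    intro w
    refine Finsupp.ext fun u => ?_
    by_cases hwu : res ψ u = res φ w
    · obtain ⟨b, hb0, hb1, hbne⟩ := exists_ord_one_above (F := A) w
      set D : Divisor K B := divF b hb0 - Finsupp.single w 1 with hD
      have hDv : ∀ w', res φ w' = res ψ u → D w' = 0 := by
        intro w' hw'
        rw [hD, Finsupp.sub_apply, divF_apply]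
        by_cases hww : w' = w
        · rw [hww, Finsupp.single_eq_same, hb1, sub_self]
        · rw [Finsupp.single_eq_of_ne hww, hbne w' (hw'.trans hwu) hww, sub_zero]
      have h1 := key T hT D u hDv
      have h2 := key T' hT' D u hDv
      rw [hD, map_sub, Finsupp.sub_apply, sub_eq_zero] at h1 h2
      rw [← h1, ← h2, h b hb0]
    · rw [hT w u hwu, hT' w u hwu]
  have : T = T' := by
    refine Finsupp.addHom_ext fun w n => ?_
    have h1 : (Finsupp.single w n : Divisor K B) = n • Finsupp.single w 1 := by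
      rw [Finsupp.smul_single, smul_eq_mul, mul_one]
    rw [h1, map_zsmul, map_zsmul, hsingle]
  rw [this]

/-- base change for cartesian squares -/
theorem pullD_pushD {A B C D : Type*} [Field A] [Field B] [Field C] [Field D] [Algebra K A]
    [Algebra K B] [Algebra K C] [Algebra K D] [H94.FunField K A] [H94.FunField K B]
    [H94.FunField K C] [H94.FunField K D]
    {φ : A →ₐ[K] B} {ψ : A →ₐ[K] C} {φ' : C →ₐ[K] D} {ψ' : B →ₐ[K] D}
    (hsq : φ'.comp ψ = ψ'.comp φ)
    (hdeg : finrankAlong K φ' = finrankAlong K φ)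
    (hgen : Subfield.closure (Set.range φ' ∪ Set.range ψ') = ⊤) (E : Divisor K B) :
    pullD ψ (pushD φ E) = pushD φ' (pullD ψ' E) :=
  haveI := H94.hasPrincipalDivisors K C
  haveI := H94.hasPrincipalDivisors K D
  pullbackAlong_pushforwardAlong hsq (finiteAlong_of_funField _) (finiteAlong_of_funField _)
    (finiteAlong_of_funField _) (finiteAlong_of_funField _) hdeg hgen _ _ _ _ E

/-! ### Pic⁰ -/

/-- push forward on `Pic⁰` -/
def pushP (φ : F →ₐ[K] F') : Pic0 K F' →+ Pic0 K F :=
  mapP (pushD φ) (fun D hD => by rw [degree_pushD, hD]) (fun _ hD => isPrincipal_pushD φ hD)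

/-- pull back on `Pic⁰` -/
def pullP (φ : F →ₐ[K] F') : Pic0 K F →+ Pic0 K F' :=
  mapP (pullD φ) (fun D hD => by rw [degree_pullD, hD, mul_zero])
    (fun _ hD => isPrincipal_pullD φ hD)

theorem pushP_mk (φ : F →ₐ[K] F') (D : Divisor.degZero (K := K) (F := F')) :
    pushP φ (Pic0.mk D) = Pic0.mk ⟨pushD φ D, (degree_pushD φ D.1).trans D.2⟩ := rfl

theorem pullP_mk (φ : F →ₐ[K] F') (D : Divisor.degZero (K := K) (F := F)) :
    pullP φ (Pic0.mk D) = Pic0.mk ⟨pullD φ D, (degree_pullD φ D.1).trans
      ((congrArg _ D.2).trans (mul_zero _))⟩ := rfl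

theorem mk_congr {D E : Divisor.degZero (K := K) (F := F)} (h : (D : Divisor K F) = E) :
    Pic0.mk D = Pic0.mk E := congrArg _ (Subtype.ext h)

theorem pushP_comp (φ : F →ₐ[K] F') (ψ : F' →ₐ[K] F'') (x : Pic0 K F'') :
    pushP (ψ.comp φ) x = pushP φ (pushP ψ x) := by
  obtain ⟨D, rfl⟩ := Pic0.mk_surjective x
  exact mk_congr (pushD_comp φ ψ D)

theorem pullP_comp (φ : F →ₐ[K] F') (ψ : F' →ₐ[K] F'') (x : Pic0 K F) :
    pullP (ψ.comp φ) x = pullP ψ (pullP φ x) := by
  obtain ⟨D, rfl⟩ := Pic0.mk_surjective x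
  exact mk_congr (pullD_comp φ ψ D)

theorem pushP_id (x : Pic0 K F) : pushP (AlgHom.id K F) x = x := by
  obtain ⟨D, rfl⟩ := Pic0.mk_surjective x
  exact mk_congr (pushD_id D.1)

theorem pullP_id (x : Pic0 K F) : pullP (AlgHom.id K F) x = x := by
  obtain ⟨D, rfl⟩ := Pic0.mk_surjective x
  exact mk_congr (pullD_id D.1)

/-- `φ_* φ^* = [F' : F]` -/
theorem pushP_pullP (φ : F →ₐ[K] F') (x : Pic0 K F) :
    pushP φ (pullP φ x) = (finrankAlong K φ : ℤ) • x := by
  obtain ⟨D, rfl⟩ := Pic0.mk_surjective x
  exact mk_congr (pushD_pullD φ D.1)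

/-- base change -/
theorem pullP_pushP {A B C D : Type*} [Field A] [Field B] [Field C] [Field D] [Algebra K A]
    [Algebra K B] [Algebra K C] [Algebra K D] [H94.FunField K A] [H94.FunField K B]
    [H94.FunField K C] [H94.FunField K D]
    {φ : A →ₐ[K] B} {ψ : A →ₐ[K] C} {φ' : C →ₐ[K] D} {ψ' : B →ₐ[K] D}
    (hsq : φ'.comp ψ = ψ'.comp φ)
    (hdeg : finrankAlong K φ' = finrankAlong K φ)
    (hgen : Subfield.closure (Set.range φ' ∪ Set.range ψ') = ⊤) (x : Pic0 K B) :
    pullP ψ (pushP φ x) = pushP φ' (pullP ψ' x) := by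
  obtain ⟨E, rfl⟩ := Pic0.mk_surjective x
  exact mk_congr (pullD_pushD hsq hdeg hgen E.1)

/-! ### Isomorphisms -/

theorem pushP_symm_pushP (e : F ≃ₐ[K] F') (x : Pic0 K F') :
    pushP e.symm.toAlgHom (pushP e.toAlgHom x) = x := by
  rw [← pushP_comp]
  have : e.toAlgHom.comp e.symm.toAlgHom = AlgHom.id K F' := by
    ext y; exact e.apply_symm_apply y
  rw [this, pushP_id]

theorem pushP_pushP_symm (e : F ≃ₐ[K] F') (x : Pic0 K F) :
    pushP e.toAlgHom (pushP e.symm.toAlgHom x) = x :=
  pushP_symm_pushP e.symm x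

theorem finrankAlong_equiv (e : F ≃ₐ[K] F') : finrankAlong K e.toAlgHom = 1 := by
  letI := algebraAlong e.toAlgHom
  have h : Function.Bijective (algebraMap F F') := e.bijective
  change Module.finrank F F' = 1
  let e' : F ≃ₗ[F] F' := LinearEquiv.ofBijective (Algebra.linearMap F F') h
  rw [← e'.finrank_eq, Module.finrank_self]

theorem pullP_equiv (e : F ≃ₐ[K] F') (x : Pic0 K F) :
    pullP e.toAlgHom x = pushP e.symm.toAlgHom x := by
  have h := pushP_pullP e.toAlgHom x
  rw [finrankAlong_equiv, Nat.cast_one, one_smul] at h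
  rw [← pushP_symm_pushP e (pullP e.toAlgHom x), h]

end Calc

end Fermat.Agent.H67
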