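import Fermat.Agent.H89SS9

/-!
# Weak approximation and the main theorems (inertia, Steinberg relation)
-/

set_option autoImplicit false

open AlgebraicCurve WithZero Fermat.Agent.H3RR Module

namespace Fermat.Agent.H89SS

section Pic

variable {K F : Type*} [Field K] [Field F] [Algebra K F]

theorem mk_eq_zero {D : Divisor.degZero (K := K) (F := F)} :
    Pic0.mk D = 0 ↔ (D : Divisor K F) ∈ Divisor.principal (K := K) (F := F) := by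
  rw [Pic0.mk, QuotientAddGroup.eq_zero_iff]
  exact AddSubgroup.mem_addSubgroupOf

theorem mk_eq_mk {D D' : Divisor.degZero (K := K) (F := F)} :
    Pic0.mk D = Pic0.mk D' ↔
      (D : Divisor K F) - (D' : Divisor K F) ∈ Divisor.principal (K := K) (F := F) := by
  rw [← sub_eq_zero]
  have : Pic0.mk D - Pic0.mk D' = Pic0.mk (D - D') := rfl
  rw [this, mk_eq_zero]
  rfl

variable [IsAlgClosed K] [IsFF K F]

theorem ord_const (v : Place K F) (c : K) : v.ord (algebraMap K F c) = 0 := by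
  rcases eq_or_ne c 0 with rfl | hc
  · simp
  · rw [Place.ord, adicValuation_algebraMap v hc]
    simp

theorem exists_const_mul {f g : F} (hf : f ≠ 0) (hg : g ≠ 0)
    (h : ∀ v : Place K F, v.ord f = v.ord g) : ∃ c : K, c ≠ 0 ∧ f = algebraMap K F c * g := by
  obtain ⟨c, hc⟩ := exists_const_of_forall_le_one (K := K) (f := f / g) fun v => by
    rw [map_div₀, v.adicValuation_eq_exp_neg_ord hf, v.adicValuation_eq_exp_neg_ord hg, h v,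
      div_self exp_ne_zero]
  have h1 : f = algebraMap K F c * g := by rw [hc, div_mul_cancel₀ _ hg]
  refine ⟨c, ?_, h1⟩
  rintro rfl
  rw [map_zero, zero_mul] at h1
  exact hf h1

/-- A function whose divisor is `d` times a principal divisor is a `d`-th power. -/
theorem exists_eq_pow {d : ℕ} (hd : d ≠ 0) {f : F} (hf : f ≠ 0) {E : Divisor K F}
    (hE : E ∈ Divisor.principal (K := K) (F := F)) (h : ∀ v : Place K F, v.ord f = d * E v) :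
    ∃ g : F, g ≠ 0 ∧ f = g ^ d := by
  obtain ⟨g, hg, hgE⟩ := hE
  obtain ⟨c, hc, hcf⟩ := exists_const_mul (K := K) hf (pow_ne_zero d hg) fun v => by
    rw [h v, hgE v, ord_pow']
  obtain ⟨r, hr⟩ := IsAlgClosed.exists_pow_nat_eq c (Nat.pos_of_ne_zero hd)
  have hr0 : r ≠ 0 := by
    rintro rfl
    rw [zero_pow hd] at hr
    exact hc hr.symm
  exact ⟨algebraMap K F r * g, mul_ne_zero ((map_ne_zero _).mpr hr0) hg, by
    rw [mul_pow, ← map_pow, hr, hcf]⟩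

end Pic

section Power

variable {K F k κ : Type*} [Field K] [Field F] [Algebra K F] [Field k] [Field κ]
    [Algebra k κ] {A : ValuationSubring K} {π : A →+* k}

theorem exists_pow_mul_mem [IsLocalHom π] {V : ValuationSubring F} {ρ : V →+* κ}
    (mem : ∀ a : A, algebraMap K F a ∈ V)
    (ρ_mem : ∀ a : A, ρ ⟨algebraMap K F a, mem a⟩ = algebraMap k κ (π a))
    (scale : ∀ f : F, f ≠ 0 → ∃ (c : K) (_ : c ≠ 0) (h : algebraMap K F c * f ∈ V),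
      ρ ⟨_, h⟩ ≠ 0)
    (arch : ∀ a b : A, π a = 0 → b ≠ 0 → ∃ n, b ∣ a ^ n)
    (e : F) (he : e ∈ V) (hρe : ρ ⟨e, he⟩ = 0) (ψ : F) :
    ∃ (n : ℕ) (h : e ^ n * ψ ∈ V), ρ ⟨_, h⟩ = 0 := by
  rcases eq_or_ne e 0 with rfl | he0
  · refine ⟨1, by rw [pow_one, zero_mul]; exact V.zero_mem, ?_⟩
    have : (⟨0 ^ 1 * ψ, by rw [pow_one, zero_mul]; exact V.zero_mem⟩ : V) = 0 :=
      Subtype.ext (by simp)
    rw [this, map_zero]
  rcases eq_or_ne ψ 0 with rfl | hψ0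
  · refine ⟨0, by rw [mul_zero]; exact V.zero_mem, ?_⟩
    have : (⟨e ^ 0 * 0, by rw [mul_zero]; exact V.zero_mem⟩ : V) = 0 :=
      Subtype.ext (by simp)
    rw [this, map_zero]
  obtain ⟨c, hc, hce, hcρ⟩ := scale e he0
  obtain ⟨c', hc', hcψ, -⟩ := scale ψ hψ0
  have hcA : c ∉ A := by
    intro h
    apply hcρ
    have h1 : (⟨algebraMap K F c * e, hce⟩ : V) = ⟨algebraMap K F (⟨c, h⟩ : A), mem _⟩ * ⟨e, he⟩ :=
      rfl
    rw [h1, map_mul, hρe, mul_zero]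
  have hcinv : c⁻¹ ∈ A := (A.mem_or_inv_mem c).resolve_left hcA
  set a : A := ⟨c⁻¹, hcinv⟩ with ha
  have hπa : π a = 0 := by
    by_contra hne
    have hu : IsUnit a := (isUnit_map_iff π _).mp (isUnit_iff_ne_zero.mpr hne)
    obtain ⟨u, hu'⟩ := hu
    apply hcA
    have h2 : (u⁻¹ : Aˣ).val * a = 1 := by rw [← hu', Units.inv_mul]
    have h3 : ((u⁻¹ : Aˣ).val : K) * c⁻¹ = 1 := congrArg Subtype.val h2
    have h4 : ((u⁻¹ : Aˣ).val : K) = c := (mul_inv_eq_one₀ hc).mp h3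
    rw [← h4]
    exact (u⁻¹ : Aˣ).val.2
  -- `c'⁻¹ * c⁻ⁿ` is integral
  obtain ⟨n, hn⟩ : ∃ n : ℕ, c'⁻¹ * c⁻¹ ^ n ∈ A := by
    rcases A.mem_or_inv_mem c' with h | h
    · obtain ⟨n, b, hb⟩ := arch a ⟨c', h⟩ hπa (fun h0 => hc' (congrArg Subtype.val h0))
      refine ⟨n, ?_⟩
      have h5 : c⁻¹ ^ n = c' * (b : K) := by
        have := congrArg Subtype.val hb
        push_cast at this
        exact this
      rw [h5, ← mul_assoc, inv_mul_cancel₀ hc', one_mul]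
      exact b.2
    · exact ⟨0, by rw [pow_zero, mul_one]; exact h⟩
  have hkey : e ^ (n + 1) * ψ = algebraMap K F ((a * ⟨_, hn⟩ : A) : K) *
      ((algebraMap K F c * e) ^ (n + 1) * (algebraMap K F c' * ψ)) := by
    have h6 : algebraMap K F c ≠ 0 := (map_ne_zero _).mpr hc
    have h7 : algebraMap K F c' ≠ 0 := (map_ne_zero _).mpr hc'
    change _ = algebraMap K F (c⁻¹ * (c'⁻¹ * c⁻¹ ^ n)) * _
    simp only [map_mul, map_inv₀, map_pow, inv_pow, mul_pow]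
    field_simp
    ring
  have hmem : e ^ (n + 1) * ψ ∈ V := by
    rw [hkey]
    exact V.mul_mem _ _ (mem _) (V.mul_mem _ _ (pow_mem hce _) hcψ)
  refine ⟨n + 1, hmem, ?_⟩
  have h8 : (⟨e ^ (n + 1) * ψ, hmem⟩ : V) = ⟨algebraMap K F ((a * ⟨_, hn⟩ : A) : K), mem _⟩ *
      ((⟨algebraMap K F c * e, hce⟩ : V) ^ (n + 1) * ⟨algebraMap K F c' * ψ, hcψ⟩) :=
    Subtype.ext hkey
  rw [h8, map_mul, ρ_mem, map_mul π, hπa, zero_mul, map_zero, zero_mul]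

end Power

namespace TwoComp

variable {K F k κ : Type*} [Field K] [Field F] [Algebra K F] [Field k] [Field κ]
    [Algebra k κ] {A : ValuationSubring K} {π : A →+* k} {q : ℕ} {T : TwoComp K F k κ A π q}
    (hπ : Function.Surjective π) [IsAlgClosed K] [IsFF K F] [IsAlgClosed k] [IsFF k κ]

omit [IsAlgClosed K] [IsFF K F] in
variable (T) in
include hπ in
theorem exists_idem (hq : 2 ≤ q) : ∃ (e : F) (h₁ : e ∈ T.V₁) (h₂ : e ∈ T.V₂),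
    T.ρ₁ ⟨e, h₁⟩ = 1 ∧ T.ρ₂ ⟨e, h₂⟩ = 0 := by
  obtain ⟨j, hj⟩ := T.exists_pole₁ hπ hq
  obtain ⟨⟨s, ⟨x, -, rfl⟩, hsP, hs0⟩, ⟨s', ⟨y, -, rfl⟩, hs'P, hs'0⟩⟩ := hj j le_rfl
  have hx1 : T.ρ₁ ⟨x, x.2.1⟩ ≠ 0 := by
    intro h
    have h1 : (T.red.ρ x).1 = 0 := h
    rw [h1, map_zero] at hsP
    exact exp_ne_zero hsP.symm
  have hy2 : T.ρ₂ ⟨y, y.2.2⟩ ≠ 0 := by
    intro h
    have h1 : (T.red.ρ y).2 = 0 := h
    rw [h1, map_zero] at hs'P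
    exact exp_ne_zero hs'P.symm
  have hx2 : T.ρ₂ ⟨x, x.2.2⟩ = 0 := hs0
  have hy1 : T.ρ₁ ⟨y, y.2.1⟩ = 0 := hs'0
  have h1 : T.ρ₁ ⟨x + y, T.V₁.add_mem _ _ x.2.1 y.2.1⟩ = T.ρ₁ ⟨x, x.2.1⟩ := by
    have h2 : (⟨x + y, T.V₁.add_mem _ _ x.2.1 y.2.1⟩ : T.V₁) = ⟨x, x.2.1⟩ + ⟨y, y.2.1⟩ := rfl
    rw [h2, map_add, hy1, add_zero]
  have h2 : T.ρ₂ ⟨x + y, T.V₂.add_mem _ _ x.2.2 y.2.2⟩ = T.ρ₂ ⟨y, y.2.2⟩ := by
    have h2 : (⟨x + y, T.V₂.add_mem _ _ x.2.2 y.2.2⟩ : T.V₂) = ⟨x, x.2.2⟩ + ⟨y, y.2.2⟩ := rfl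
    rw [h2, map_add, hx2, zero_add]
  obtain ⟨h3, h3'⟩ := mem_V₁_of_ρ (T := T) (T.V₁.add_mem _ _ x.2.1 y.2.1) (by rw [h1]; exact hx1)
  obtain ⟨h4, h4'⟩ := mem_V₂_of_ρ (T := T) (T.V₂.add_mem _ _ x.2.2 y.2.2) (by rw [h2]; exact hy2)
  refine ⟨x * (x + y : F)⁻¹, T.V₁.mul_mem _ _ x.2.1 h3, T.V₂.mul_mem _ _ x.2.2 h4, ?_, ?_⟩
  · have h5 : (⟨x * (x + y : F)⁻¹, T.V₁.mul_mem _ _ x.2.1 h3⟩ : T.V₁) =
      ⟨x, x.2.1⟩ * ⟨_, h3⟩ := rfl
    rw [h5, map_mul, h3', h1, mul_inv_cancel₀ hx1]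
  · have h5 : (⟨x * (x + y : F)⁻¹, T.V₂.mul_mem _ _ x.2.2 h4⟩ : T.V₂) =
      ⟨x, x.2.2⟩ * ⟨_, h4⟩ := rfl
    rw [h5, map_mul, hx2, zero_mul]

/-- `f ≡ 1` on the first component -/
def Eq1 (T : TwoComp K F k κ A π q) (f : F) : Prop := ∃ h : f ∈ T.V₁, T.ρ₁ ⟨f, h⟩ = 1

/-- `f ≡ 1` on the second component -/
def Eq2 (T : TwoComp K F k κ A π q) (f : F) : Prop := ∃ h : f ∈ T.V₂, T.ρ₂ ⟨f, h⟩ = 1

omit [IsAlgClosed K] [IsFF K F] [IsAlgClosed k] [IsFF k κ] in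
theorem Eq1.mul {f g : F} (hf : T.Eq1 f) (hg : T.Eq1 g) : T.Eq1 (f * g) := by
  obtain ⟨h1, h2⟩ := hf
  obtain ⟨h3, h4⟩ := hg
  refine ⟨T.V₁.mul_mem _ _ h1 h3, ?_⟩
  have h5 : (⟨f * g, T.V₁.mul_mem _ _ h1 h3⟩ : T.V₁) = ⟨f, h1⟩ * ⟨g, h3⟩ := rfl
  rw [h5, map_mul, h2, h4, one_mul]

omit [IsAlgClosed K] [IsFF K F] [IsAlgClosed k] [IsFF k κ] in
theorem Eq2.mul {f g : F} (hf : T.Eq2 f) (hg : T.Eq2 g) : T.Eq2 (f * g) := by
  obtain ⟨h1, h2⟩ := hf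
  obtain ⟨h3, h4⟩ := hg
  refine ⟨T.V₂.mul_mem _ _ h1 h3, ?_⟩
  have h5 : (⟨f * g, T.V₂.mul_mem _ _ h1 h3⟩ : T.V₂) = ⟨f, h1⟩ * ⟨g, h3⟩ := rfl
  rw [h5, map_mul, h2, h4, one_mul]

omit [IsAlgClosed K] [IsFF K F] [IsAlgClosed k] [IsFF k κ] in
variable (T) in
theorem Eq1.one : T.Eq1 1 := ⟨T.V₁.one_mem, map_one _⟩

omit [IsAlgClosed K] [IsFF K F] [IsAlgClosed k] [IsFF k κ] in
variable (T) in
theorem Eq2.one : T.Eq2 1 := ⟨T.V₂.one_mem, map_one _⟩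

omit [IsAlgClosed K] [IsFF K F] [IsAlgClosed k] [IsFF k κ] in
theorem Eq1.pow {f : F} (hf : T.Eq1 f) (n : ℕ) : T.Eq1 (f ^ n) := by
  induction n with
  | zero => rw [pow_zero]; exact Eq1.one T
  | succ n ih => rw [pow_succ]; exact ih.mul hf

omit [IsAlgClosed K] [IsFF K F] [IsAlgClosed k] [IsFF k κ] in
theorem Eq2.pow {f : F} (hf : T.Eq2 f) (n : ℕ) : T.Eq2 (f ^ n) := by
  induction n with
  | zero => rw [pow_zero]; exact Eq2.one T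
  | succ n ih => rw [pow_succ]; exact ih.mul hf

omit [IsAlgClosed K] [IsFF K F] [IsAlgClosed k] [IsFF k κ] in
/-- quotient of two elements with the same nonzero reduction -/
theorem Eq1.of_eq {f g : F} (hf : f ∈ T.V₁) (hg : g ∈ T.V₁) (h : T.ρ₁ ⟨f, hf⟩ = T.ρ₁ ⟨g, hg⟩)
    (h0 : T.ρ₁ ⟨g, hg⟩ ≠ 0) : T.Eq1 (f * g⁻¹) := by
  obtain ⟨h1, h2⟩ := mem_V₁_of_ρ hg h0
  refine ⟨T.V₁.mul_mem _ _ hf h1, ?_⟩
  have h5 : (⟨f * g⁻¹, T.V₁.mul_mem _ _ hf h1⟩ : T.V₁) = ⟨f, hf⟩ * ⟨g⁻¹, h1⟩ := rfl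
  rw [h5, map_mul, h2, h, mul_inv_cancel₀ h0]

omit [IsAlgClosed K] [IsFF K F] [IsAlgClosed k] [IsFF k κ] in
theorem Eq2.of_eq {f g : F} (hf : f ∈ T.V₂) (hg : g ∈ T.V₂) (h : T.ρ₂ ⟨f, hf⟩ = T.ρ₂ ⟨g, hg⟩)
    (h0 : T.ρ₂ ⟨g, hg⟩ ≠ 0) : T.Eq2 (f * g⁻¹) := by
  obtain ⟨h1, h2⟩ := mem_V₂_of_ρ hg h0
  refine ⟨T.V₂.mul_mem _ _ hf h1, ?_⟩
  have h5 : (⟨f * g⁻¹, T.V₂.mul_mem _ _ hf h1⟩ : T.V₂) = ⟨f, hf⟩ * ⟨g⁻¹, h1⟩ := rfl
  rw [h5, map_mul, h2, h, mul_inv_cancel₀ h0]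

omit [IsAlgClosed K] [IsFF K F] in
variable (T) in
include hπ in
/-- **Weak approximation.** -/
theorem weak_approx [IsLocalHom π] (hq : 2 ≤ q)
    (arch : ∀ a b : A, π a = 0 → b ≠ 0 → ∃ n, b ∣ a ^ n) {ψ₁ ψ₂ : F} (h₁ : ψ₁ ≠ 0)
    (h₂ : ψ₂ ≠ 0) : ∃ χ : F, T.Eq1 (χ * ψ₁) ∧ T.Eq2 (χ * ψ₂) := by
  obtain ⟨e, he₁, he₂, hρ₁, hρ₂⟩ := T.exists_idem hπ hq
  have he₁' : 1 - e ∈ T.V₁ := T.V₁.toSubring.sub_mem T.V₁.one_mem he₁
  have he₂' : 1 - e ∈ T.V₂ := T.V₂.toSubring.sub_mem T.V₂.one_mem he₂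
  have hρ₁' : T.ρ₁ ⟨1 - e, he₁'⟩ = 0 := by
    have : (⟨1 - e, he₁'⟩ : T.V₁) = 1 - ⟨e, he₁⟩ := rfl
    rw [this, map_sub, map_one, hρ₁, sub_self]
  have hρ₂' : T.ρ₂ ⟨1 - e, he₂'⟩ = 1 := by
    have : (⟨1 - e, he₂'⟩ : T.V₂) = 1 - ⟨e, he₂⟩ := rfl
    rw [this, map_sub, map_one, hρ₂, sub_zero]
  obtain ⟨n, hn, hn'⟩ := exists_pow_mul_mem T.mem₂ T.ρ₂_mem T.scale₂ arch e he₂ hρ₂ (ψ₂ * ψ₁⁻¹)
  obtain ⟨m, hm, hm'⟩ := exists_pow_mul_mem T.mem₁ T.ρ₁_mem T.scale₁ arch (1 - e) he₁' hρ₁'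
    (ψ₁ * ψ₂⁻¹)
  refine ⟨ψ₁⁻¹ * e ^ n + ψ₂⁻¹ * (1 - e) ^ m, ?_, ?_⟩
  · have h3 : (ψ₁⁻¹ * e ^ n + ψ₂⁻¹ * (1 - e) ^ m) * ψ₁ =
        e ^ n + (1 - e) ^ m * (ψ₁ * ψ₂⁻¹) := by
      field_simp
    rw [h3]
    refine ⟨T.V₁.add_mem _ _ (pow_mem he₁ n) hm, ?_⟩
    have h4 : (⟨e ^ n + (1 - e) ^ m * (ψ₁ * ψ₂⁻¹), T.V₁.add_mem _ _ (pow_mem he₁ n) hm⟩ : T.V₁) =
      ⟨e, he₁⟩ ^ n + ⟨_, hm⟩ := Subtype.ext (by push_cast; rfl)
    rw [h4, map_add, hm', map_pow, hρ₁, one_pow, add_zero]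
  · have h3 : (ψ₁⁻¹ * e ^ n + ψ₂⁻¹ * (1 - e) ^ m) * ψ₂ =
        e ^ n * (ψ₂ * ψ₁⁻¹) + (1 - e) ^ m := by
      field_simp
    rw [h3]
    refine ⟨T.V₂.add_mem _ _ hn (pow_mem he₂' m), ?_⟩
    have h4 : (⟨e ^ n * (ψ₂ * ψ₁⁻¹) + (1 - e) ^ m, T.V₂.add_mem _ _ hn (pow_mem he₂' m)⟩ : T.V₂) =
      ⟨_, hn⟩ + ⟨1 - e, he₂'⟩ ^ m := Subtype.ext (by push_cast; rfl)
    rw [h4, map_add, hn', map_pow, hρ₂', one_pow, zero_add]

omit [IsAlgClosed K] in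
variable (T) in
include hπ in
theorem exists_unitPair [IsAlgClosed K] [IsLocalHom π] (hq : 2 ≤ q)
    (arch : ∀ a b : A, π a = 0 → b ≠ 0 → ∃ n, b ∣ a ^ n) {d : ℕ}
    {E₀ : Divisor K F} {f₀ : F}
    (hdeg : Divisor.degree E₀ = 0) (hf₀ : f₀ ≠ 0) (hord : ∀ v : Place K F, v.ord f₀ = d * E₀ v)
    {h₁ h₂ : F} (hh₁ : h₁ ≠ 0) (hh₂ : h₂ ≠ 0) (heq₁ : T.Eq1 (f₀ * h₁ ^ d))
    (heq₂ : T.Eq2 (f₀ * h₂ ^ d)) :
    ∃ (E : Divisor K F) (f : F), T.UnitPair d E f ∧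
      E - E₀ ∈ Divisor.principal (K := K) (F := F) := by
  obtain ⟨χ, hχ₁, hχ₂⟩ := T.weak_approx hπ hq arch (inv_ne_zero hh₁) (inv_ne_zero hh₂)
  have hχ0 : χ ≠ 0 := by
    rintro rfl
    obtain ⟨h, h'⟩ := hχ₁
    have h3 : (⟨0 * h₁⁻¹, h⟩ : T.V₁) = 0 := Subtype.ext (zero_mul _)
    rw [h3, map_zero] at h'
    exact zero_ne_one h'
  have h1 : T.Eq1 (f₀ * χ ^ d) := by
    have h3 := heq₁.mul (hχ₁.pow d)
    have h4 : f₀ * h₁ ^ d * (χ * h₁⁻¹) ^ d = f₀ * χ ^ d := by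
      rw [mul_pow, inv_pow]
      field_simp
    rwa [h4] at h3
  have h2 : T.Eq2 (f₀ * χ ^ d) := by
    have h3 := heq₂.mul (hχ₂.pow d)
    have h4 : f₀ * h₂ ^ d * (χ * h₂⁻¹) ^ d = f₀ * χ ^ d := by
      rw [mul_pow, inv_pow]
      field_simp
    rwa [h4] at h3
  obtain ⟨h1m, h1ρ⟩ := h1
  obtain ⟨h2m, h2ρ⟩ := h2
  refine ⟨E₀ + divOf χ, f₀ * χ ^ d, ⟨?_, fun v => ?_, ⟨⟨h1m, h2m⟩, Prod.ext h1ρ h2ρ⟩⟩, ?_⟩
  · rw [map_add, hdeg, degree_divOf hχ0, add_zero]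
  · rw [v.ord_mul hf₀ (pow_ne_zero _ hχ0), hord, ord_pow', Finsupp.add_apply, divOf_apply hχ0]
    ring
  · rw [add_sub_cancel_left]
    exact ⟨χ, hχ0, fun v => divOf_apply hχ0 v⟩


/-- Inertia fixes the classes of unit pairs. -/
theorem UnitPair.inertia [IsLocalHom π] [CharZero K] [Fact q.Prime] [CharP k q]
    {T : TwoComp K F k κ A π q} (hπ : Function.Surjective π)
    (arch : ∀ a b : A, π a = 0 → b ≠ 0 → ∃ n, b ∣ a ^ n)
    {d : ℕ} (hd : (d : k) ≠ 0) {g₁ : SemilinearAut K F}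
    (hg₁ : T.Compat g₁ 1) {E : Divisor K F} {f' : F} (hE : T.UnitPair d E f') :
    g₁ • E - E ∈ Divisor.principal (K := K) (F := F) := by
  have hqp : q.Prime := Fact.out
  have hq : 2 ≤ q := hqp.two_le
  have hd0 : d ≠ 0 := by
    rintro rfl
    simp at hd
  obtain ⟨ζ, hζ, hζd⟩ := hE.exists_isZeta hπ hd0
  have hgE := hE.smul hg₁
  obtain ⟨ζ', hζ', -⟩ := hgE.exists_isZeta hπ hd0
  have hdiff := hgE.add hE.neg
  obtain ⟨ζ'', hζ'', -⟩ := hdiff.exists_isZeta hπ hd0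
  have hone : ∀ v ∈ T.SS hπ, ζ'' v = 1 := by
    intro v hv
    have h2 : g₁ • E + -E + E = g₁ • E := by abel
    have h3 := hζ''.mul hπ hq hζ (ζ'' := ζ') (by rw [h2]; exact hζ') v hv
    rw [IsZeta.compat_one hπ hq hg₁ hζ hζ' v hv] at h3
    have h4 : ζ v ≠ 0 := by
      intro h0
      have := hζd v hv
      rw [h0, zero_pow hd0] at this
      exact zero_ne_one this
    exact (mul_right_cancel₀ h4 (by rw [one_mul]; exact h3)).symm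
  rw [sub_eq_add_neg]
  exact hdiff.principal hπ arch hd hζ'' hone

/-- The Frobenius relation `φ E + q (w E) ~ 0` for unit pairs. -/
theorem UnitPair.frobenius [IsLocalHom π] [CharZero K] [Fact q.Prime] [CharP k q]
    {T : TwoComp K F k κ A π q} (hπ : Function.Surjective π)
    (arch : ∀ a b : A, π a = 0 → b ≠ 0 → ∃ n, b ∣ a ^ n)
    {d : ℕ} (hd : (d : k) ≠ 0) {w : F ≃ₐ[K] F} (hw : T.Swap w) {φ : SemilinearAut K F}
    (hφ : T.Compat φ T.fr) {E : Divisor K F} {f' : F} (hE : T.UnitPair d E f') :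
    φ • E + q • (SemilinearAut.ofAlgAut w • E) ∈ Divisor.principal (K := K) (F := F) := by
  have hqp : q.Prime := Fact.out
  have hq : 2 ≤ q := hqp.two_le
  have hd0 : d ≠ 0 := by
    rintro rfl
    simp at hd
  have hφE := hE.smul hφ
  have hWE := hE.swap hw
  have hqWE := hWE.nsmul q
  have htot := hφE.add hqWE
  obtain ⟨ζ, hζ, -⟩ := hE.exists_isZeta hπ hd0
  obtain ⟨ζ₁, hζ₁, -⟩ := hφE.exists_isZeta hπ hd0
  obtain ⟨ζ₂, hζ₂, -⟩ := hWE.exists_isZeta hπ hd0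
  obtain ⟨ζ₃, hζ₃, -⟩ := hqWE.exists_isZeta hπ hd0
  obtain ⟨ζ₄, hζ₄, -⟩ := htot.exists_isZeta hπ hd0
  have hone : ∀ v ∈ T.SS hπ, ζ₄ v = 1 := by
    intro v hv
    have hfv := hw.smul_mem_SS hπ hv
    rw [hζ₁.mul hπ hq hζ₃ hζ₄ v hv, IsZeta.nsmul hπ hq hd0 hWE hζ₂ q ζ₃ hζ₃ v hv]
    have h5 := IsZeta.compat_fr hπ hq hφ hζ hζ₁ _ hfv (by rw [hv.2.1]; exact hv)
    rw [hv.2.1] at h5
    rw [h5, ← mul_pow, mul_comm, IsZeta.swap hπ hq hw hζ hζ₂ v hv, one_pow]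
  exact htot.principal hπ arch hd hζ₄ hone

/-- **Inertia acts on `d`-torsion with `(g₁ - 1)(g - 1) = 0`** (`d` prime to the residue
characteristic `q`). -/
theorem inertia_sq [IsLocalHom π] [CharZero K] [Fact q.Prime] [CharP k q]
    (T : TwoComp K F k κ A π q) (hπ : Function.Surjective π)
    (arch : ∀ a b : A, π a = 0 → b ≠ 0 → ∃ n, b ∣ a ^ n)
    {d : ℕ} (hd : (d : k) ≠ 0) {g g₁ : SemilinearAut K F} (hg : T.Compat g 1)
    (hg₁ : T.Compat g₁ 1) (x : Pic0 K F) (hx : d • x = 0) :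
    g₁ • (g • x - x) = g • x - x := by
  have hqp : q.Prime := Fact.out
  have hq : 2 ≤ q := hqp.two_le
  have hd0 : d ≠ 0 := by
    rintro rfl
    simp at hd
  obtain ⟨D, rfl⟩ := Pic0.mk_surjective x
  have hxD : Pic0.mk (d • D) = 0 := hx
  rw [mk_eq_zero] at hxD
  obtain ⟨f, hf, hfD⟩ := hxD
  have hford : ∀ v : Place K F, v.ord f = d * (D : Divisor K F) v := by
    intro v
    rw [← hfD v]
    simp
  have hgf : g • f ≠ 0 := by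
    intro h
    apply hf
    have := congrArg (g⁻¹ • ·) h
    simpa using this
  -- the divisor `E₀ = g D - D` with `f₀ = g f / f`
  have hE₀deg : Divisor.degree (g • (D : Divisor K F) - (D : Divisor K F)) = 0 := by
    rw [map_sub, SemilinearAut.degree_smul, sub_self]
  have hgord : ∀ v : Place K F, v.ord (g • f) = d * (g • (D : Divisor K F)) v := by
    intro v
    rw [SemilinearAut.divisor_smul_apply, ← hford]
    have := SemilinearAut.ord_smul g (g⁻¹ • v) f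
    rwa [smul_inv_smul] at this
  have hf₀ : g • f * f⁻¹ ≠ 0 := mul_ne_zero hgf (inv_ne_zero hf)
  have hE₀ord : ∀ v : Place K F, v.ord (g • f * f⁻¹) =
      d * (g • (D : Divisor K F) - (D : Divisor K F)) v := by
    intro v
    rw [v.ord_mul hgf (inv_ne_zero hf), v.ord_inv, hgord, hford, Finsupp.sub_apply]
    ring
  -- on each component
  obtain ⟨c₁, hc₁, hcf₁, hcρ₁⟩ := T.scale₁ f hf
  obtain ⟨c₂, hc₂, hcf₂, hcρ₂⟩ := T.scale₂ f hf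
  have hroot : ∀ c : K, c ≠ 0 → ∃ r : K, r ≠ 0 ∧ r ^ d = SemilinearAut.baseAut g c * c⁻¹ := by
    intro c hc
    obtain ⟨r, hr⟩ := IsAlgClosed.exists_pow_nat_eq (SemilinearAut.baseAut g c * c⁻¹)
      (Nat.pos_of_ne_zero hd0)
    refine ⟨r, ?_, hr⟩
    rintro rfl
    rw [zero_pow hd0] at hr
    exact mul_ne_zero ((map_ne_zero _).mpr hc) (inv_ne_zero hc) hr.symm
  obtain ⟨r₁, hr₁, hr₁'⟩ := hroot c₁ hc₁
  obtain ⟨r₂, hr₂, hr₂'⟩ := hroot c₂ hc₂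
  have hquot : ∀ c : K, c ≠ 0 → g • (algebraMap K F c * f) * (algebraMap K F c * f)⁻¹ =
      g • f * f⁻¹ * algebraMap K F (SemilinearAut.baseAut g c * c⁻¹) := by
    intro c hc
    rw [smul_mul', SemilinearAut.smul_algebraMap, map_mul, map_inv₀, mul_inv]
    ring
  have heq₁ : T.Eq1 (g • f * f⁻¹ * (algebraMap K F r₁) ^ d) := by
    rw [← map_pow, hr₁', ← hquot c₁ hc₁]
    exact Eq1.of_eq (hg.mem₁ _ hcf₁) hcf₁ (by rw [hg.ρ₁ _ hcf₁, one_smul]) hcρ₁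
  have heq₂ : T.Eq2 (g • f * f⁻¹ * (algebraMap K F r₂) ^ d) := by
    rw [← map_pow, hr₂', ← hquot c₂ hc₂]
    exact Eq2.of_eq (hg.mem₂ _ hcf₂) hcf₂ (by rw [hg.ρ₂ _ hcf₂, one_smul]) hcρ₂
  obtain ⟨E, f', hE, hEE₀⟩ := T.exists_unitPair hπ hq arch hE₀deg hf₀ hE₀ord
    ((map_ne_zero _).mpr hr₁) ((map_ne_zero _).mpr hr₂) heq₁ heq₂
  have hprin := hE.inertia hπ arch hd hg₁
  -- conclusion
  have hmkE : Pic0.mk ⟨E, hE.degree⟩ = g • Pic0.mk D - Pic0.mk D := by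
    rw [SemilinearAut.pic0_smul_mk]
    have h1 : Pic0.mk (SemilinearAut.degZeroSMulHom g D) - Pic0.mk D =
      Pic0.mk (SemilinearAut.degZeroSMulHom g D - D) := rfl
    rw [h1, mk_eq_mk]
    exact hEE₀
  rw [← hmkE, SemilinearAut.pic0_smul_mk, mk_eq_mk]
  exact hprin


/-- **The Steinberg relation** on `d`-torsion. -/
theorem steinberg [IsLocalHom π] [CharZero K] [Fact q.Prime] [CharP k q]
    (T : TwoComp K F k κ A π q) (hπ : Function.Surjective π)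
    (arch : ∀ a b : A, π a = 0 → b ≠ 0 → ∃ n, b ∣ a ^ n)
    {d : ℕ} (hd : (d : k) ≠ 0) {w : F ≃ₐ[K] F} (hw : T.Swap w) {φ : SemilinearAut K F}
    (hφ : T.Compat φ T.fr) (hφw : ∀ f : F, φ • (w f) = w (φ • f))
    (U : Pic0 K F →+ Pic0 K F)
    (HU : ∀ (f : F) (E : Divisor.degZero (K := K) (F := F)), f ≠ 0 →
      (∀ v : Place K F, v.ord f = d * (E : Divisor K F) v) →
      ∃ (f1 : F) (E1 : Divisor.degZero (K := K) (F := F)), f1 ≠ 0 ∧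
        (∀ v : Place K F, v.ord f1 = d * (E1 : Divisor K F) v) ∧
        Pic0.mk E1 = U (Pic0.mk E) ∧
        ∀ h : f ∈ T.V₁, T.ρ₁ ⟨f, h⟩ ≠ 0 →
          ∃ h1 : f1 ∈ T.V₁, T.ρ₁ ⟨f1, h1⟩ = T.fr • T.ρ₁ ⟨f, h⟩)
    (x : Pic0 K F) (hx : d • x = 0)
    (h1 : U x + SemilinearAut.ofAlgAut w • x = 0)
    (h2 : U (SemilinearAut.ofAlgAut w • x) +
      SemilinearAut.ofAlgAut w • (SemilinearAut.ofAlgAut w • x) = 0) :
    φ • (φ • x + SemilinearAut.ofAlgAut w • x) +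
      q • (SemilinearAut.ofAlgAut w • (φ • x + SemilinearAut.ofAlgAut w • x)) = 0 := by
  have hqp : q.Prime := Fact.out
  have hq : 2 ≤ q := hqp.two_le
  have hd0 : d ≠ 0 := by
    rintro rfl
    simp at hd
  set W := SemilinearAut.ofAlgAut w with hW
  have hWf : ∀ f : F, W • f = w f := fun f => rfl
  have hWW : ∀ y : Pic0 K F, W • (W • y) = y := by
    intro y
    rw [← mul_smul, hW, ← map_mul]
    have : w * w = 1 := by
      ext f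
      exact hw.invol f
    rw [this, map_one, one_smul]
  have hWD : ∀ D : Divisor K F, W • (W • D) = D := by
    intro y
    rw [← mul_smul, hW, ← map_mul]
    have : w * w = 1 := by
      ext f
      exact hw.invol f
    rw [this, map_one, one_smul]
  rw [hWW] at h2
  have hgord : ∀ (g : SemilinearAut K F) (f : F) (D : Divisor K F),
      (∀ v : Place K F, v.ord f = d * D v) → ∀ v : Place K F, v.ord (g • f) = d * (g • D) v := by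
    intro g f D h v
    rw [SemilinearAut.divisor_smul_apply, ← h]
    have := SemilinearAut.ord_smul g (g⁻¹ • v) f
    rwa [smul_inv_smul] at this
  have hgne : ∀ (g : SemilinearAut K F) (f : F), f ≠ 0 → g • f ≠ 0 := by
    intro g f hf h
    apply hf
    have := congrArg (g⁻¹ • ·) h
    simpa using this
  obtain ⟨D, rfl⟩ := Pic0.mk_surjective x
  have hxD : Pic0.mk (d • D) = 0 := hx
  rw [mk_eq_zero] at hxD
  obtain ⟨f₀, hf₀, hfD₀⟩ := hxD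
  -- scale `f`
  obtain ⟨c₁, hc₁, hcf₁, hcρ₁⟩ := T.scale₁ f₀ hf₀
  obtain ⟨f, hf, hford, hfV, hfρ⟩ : ∃ f : F, f ≠ 0 ∧
      (∀ v : Place K F, v.ord f = d * (D : Divisor K F) v) ∧
      ∃ h : f ∈ T.V₁, T.ρ₁ ⟨f, h⟩ ≠ 0 := by
    refine ⟨_, mul_ne_zero ((map_ne_zero _).mpr hc₁) hf₀, fun v => ?_, hcf₁, hcρ₁⟩
    rw [v.ord_mul ((map_ne_zero _).mpr hc₁) hf₀, ← hfD₀ v, ord_const, zero_add]
    simp
  obtain ⟨f1, E1, hf1, hf1ord, hE1, hf1ρ⟩ := HU f D hf hford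
  obtain ⟨hf1V, hf1ρ⟩ := hf1ρ hfV hfρ
  -- the second component
  have hwf : w f ≠ 0 := (map_ne_zero w).mpr hf
  obtain ⟨c₂, hc₂, hcf₂, hcρ₂⟩ := T.scale₁ (w f) hwf
  have hwford : ∀ v : Place K F, v.ord (w f) = d * (W • (D : Divisor K F)) v :=
    hgord W f D hford
  have hf'ne : algebraMap K F c₂ * w f ≠ 0 := mul_ne_zero ((map_ne_zero _).mpr hc₂) hwf
  have hf'ord : ∀ v : Place K F, v.ord (algebraMap K F c₂ * w f) =
      d * ((SemilinearAut.degZeroSMulHom W D : Divisor.degZero (K := K) (F := F)) :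
        Divisor K F) v := by
    intro v
    rw [v.ord_mul ((map_ne_zero _).mpr hc₂) hwf, ord_const, zero_add, hwford]
    rfl
  obtain ⟨f2, E2, hf2, hf2ord, hE2, hf2ρ⟩ := HU _ _ hf'ne hf'ord
  obtain ⟨hf2V, hf2ρ⟩ := hf2ρ hcf₂ hcρ₂
  -- `f1 * w f` is a `d`-th power
  have hp1 : (E1 : Divisor K F) + W • (D : Divisor K F) ∈
      Divisor.principal (K := K) (F := F) := by
    have h3 : Pic0.mk (E1 + SemilinearAut.degZeroSMulHom W D) = 0 := by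
      rw [Pic0.mk_add, hE1, ← SemilinearAut.pic0_smul_mk]
      exact h1
    rw [mk_eq_zero] at h3
    exact h3
  obtain ⟨h, hh0, hh⟩ := exists_eq_pow hd0 (mul_ne_zero hf1 hwf) hp1 fun v => by
    rw [v.ord_mul hf1 hwf, hf1ord, hwford, Finsupp.add_apply]
    ring
  have hp2 : (E2 : Divisor K F) + (D : Divisor K F) ∈
      Divisor.principal (K := K) (F := F) := by
    have h3 : Pic0.mk (E2 + D) = 0 := by
      rw [Pic0.mk_add, hE2, ← SemilinearAut.pic0_smul_mk]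
      exact h2
    rw [mk_eq_zero] at h3
    exact h3
  obtain ⟨h', hh'0, hh'⟩ := exists_eq_pow hd0 (mul_ne_zero hf2 hf) hp2 fun v => by
    rw [v.ord_mul hf2 hf, hf2ord, hford, Finsupp.add_apply]
    ring
  -- the pair for `z`
  have hφf : φ • f ≠ 0 := hgne φ f hf
  have hφford := hgord φ f D hford
  have heq₁ : T.Eq1 (φ • f * w f * (h⁻¹) ^ d) := by
    have h3 : φ • f * w f * (h⁻¹) ^ d = φ • f * f1⁻¹ := by
      rw [inv_pow, ← hh, mul_inv]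
      field_simp
    rw [h3]
    refine Eq1.of_eq (hφ.mem₁ _ hfV) hf1V (by rw [hφ.ρ₁ _ hfV, hf1ρ]) ?_
    rw [hf1ρ]
    intro h0
    apply hfρ
    have := congrArg (T.fr⁻¹ • ·) h0
    simpa using this
  have hfr_ne : T.fr • T.ρ₁ ⟨_, hcf₂⟩ ≠ 0 := by
    intro h0
    apply hcρ₂
    have := congrArg (T.fr⁻¹ • ·) h0
    simpa using this
  set c : K := SemilinearAut.baseAut φ c₂ with hc
  have hc0 : c ≠ 0 := (map_ne_zero _).mpr hc₂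
  obtain ⟨r, hr⟩ := IsAlgClosed.exists_pow_nat_eq c (Nat.pos_of_ne_zero hd0)
  have hr0 : r ≠ 0 := by
    rintro rfl
    rw [zero_pow hd0] at hr
    exact hc0 hr.symm
  have hwh' : w h' ≠ 0 := (map_ne_zero w).mpr hh'0
  have hwf2 : w f2 ≠ 0 := (map_ne_zero w).mpr hf2
  have heq₂ : T.Eq2 (φ • f * w f * (algebraMap K F r * (w h')⁻¹) ^ d) := by
    have h3 : w (φ • (algebraMap K F c₂ * w f)) = algebraMap K F c * φ • f := by
      rw [smul_mul', SemilinearAut.smul_algebraMap, map_mul, AlgEquiv.commutes, hφw, hw.invol]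
    have h4 : φ • f * w f * (algebraMap K F r * (w h')⁻¹) ^ d =
        w (φ • (algebraMap K F c₂ * w f)) * (w f2)⁻¹ := by
      rw [h3, mul_pow, ← map_pow, hr, inv_pow, ← map_pow, ← hh', map_mul, mul_inv]
      field_simp
    rw [h4]
    have h5 := hφ.mem₁ _ hcf₂
    refine Eq2.of_eq (hw.mem _ h5) (hw.mem _ hf2V) ?_ ?_
    · rw [hw.ρ _ h5, hw.ρ _ hf2V, hf2ρ, hφ.ρ₁ _ hcf₂]
    · rw [hw.ρ _ hf2V, hf2ρ]
      exact hfr_ne
  obtain ⟨E, f', hE, hEE₀⟩ := T.exists_unitPair hπ hq arch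
    (E₀ := φ • (D : Divisor K F) + W • (D : Divisor K F)) (f₀ := φ • f * w f)
    (by
      have hD0 : Divisor.degree (D : Divisor K F) = 0 := D.2
      rw [map_add, SemilinearAut.degree_smul, SemilinearAut.degree_smul, hD0, add_zero])
    (mul_ne_zero hφf hwf)
    (fun v => by
      rw [v.ord_mul hφf hwf, hφford, hwford, Finsupp.add_apply]
      ring)
    (inv_ne_zero hh0) (mul_ne_zero ((map_ne_zero _).mpr hr0) (inv_ne_zero hwh')) heq₁ heq₂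
  have hprin := hE.frobenius hπ arch hd hw hφ
  -- conclusion
  have hmkE : Pic0.mk ⟨E, hE.degree⟩ = φ • Pic0.mk D + W • Pic0.mk D := by
    rw [SemilinearAut.pic0_smul_mk, SemilinearAut.pic0_smul_mk, ← Pic0.mk_add, mk_eq_mk]
    exact hEE₀
  rw [← hmkE, SemilinearAut.pic0_smul_mk, SemilinearAut.pic0_smul_mk]
  have h6 : Pic0.mk (SemilinearAut.degZeroSMulHom φ ⟨E, hE.degree⟩) +
      q • Pic0.mk (SemilinearAut.degZeroSMulHom W ⟨E, hE.degree⟩) =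
      Pic0.mk (SemilinearAut.degZeroSMulHom φ ⟨E, hE.degree⟩ +
        q • SemilinearAut.degZeroSMulHom W ⟨E, hE.degree⟩) := rfl
  rw [h6, mk_eq_zero]
  exact hprin

end TwoComp

end Fermat.Agent.H89SS
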