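import Fermat.Agent.H34Two3
import Fermat.Agent.H67Calc
import Fermat.Agent.H89SS10

/-!
# The operator `U_q = α^* α_* w - w` on functions and its reduction
-/

set_option autoImplicit false
set_option linter.style.haveILetI false

noncomputable section

open AlgebraicCurve ModularCurve IntermediateField HahnSeries Fermat.Agent.H60 Fermat.Agent.H34.Two

namespace Fermat.Agent.H89HU

section Norm

variable {L : Type*} [Field L] [Algebra ℚ L] {N ℓ : ℕ} [NeZero N] [NeZero ℓ]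

variable {w : laurentBaseChange L (modularFunctionFieldFull (N * ℓ)) →+* LaurentSeries L}

/-- **The norm formula in terms of `q`-expansions**, general element. -/
theorem qExpand_normAlong' [CharZero L] (hw : IsSwap w) (hℓ : 1 < ℓ) {ζ : Lˣ}
    (hζ : IsPrimitiveRoot ζ ℓ)
    (hfin : FiniteAlong L (heckeAlphaBar L N ℓ))
    (hdeg : finrankAlong L (heckeAlphaBar L N ℓ) ≤ ℓ + 1)
    (x : laurentBaseChange L (modularFunctionFieldFull (N * ℓ))) :
    qExpand L ℓ ((normAlong (heckeAlphaBar L N ℓ) x :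
        laurentBaseChange L (modularFunctionFieldFull N)) : LaurentSeries L) =
      qExpand L ℓ (x : LaurentSeries L) * ∏ i : Fin ℓ, twist (ζ ^ (i : ℕ)) (w x) := by
  letI := algebraAlong (heckeAlphaBar L N ℓ)
  haveI : FiniteDimensional (laurentBaseChange L (modularFunctionFieldFull N))
    (laurentBaseChange L (modularFunctionFieldFull (N * ℓ))) := hfin
  haveI : CharZero (laurentBaseChange L (modularFunctionFieldFull N)) :=
    charZero_of_injective_algebraMap
      (algebraMap L (laurentBaseChange L (modularFunctionFieldFull N))).injective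
  have h := map_norm_eq_prod
    (F := laurentBaseChange L (modularFunctionFieldFull N))
    (F' := laurentBaseChange L (modularFunctionFieldFull (N * ℓ)))
    (E := LaurentSeries L)
    ((qExpand L ℓ).comp (algebraMap (laurentBaseChange L (modularFunctionFieldFull N))
      (LaurentSeries L)))
    (heckeEmb w ζ)
    (fun o x => heckeEmb_alpha hw hζ.pow_eq_one o x)
    (heckeEmb_injective hw hℓ hζ)
    (by
      rw [Fintype.card_option, Fintype.card_fin]
      exact hdeg)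
    x
  have h2 : qExpand L ℓ ((normAlong (heckeAlphaBar L N ℓ) x :
        laurentBaseChange L (modularFunctionFieldFull N)) : LaurentSeries L) =
      ∏ i, heckeEmb w ζ i x := h
  rw [h2, Fintype.prod_option, heckeEmb_none]
  rfl

end Norm

section Reduction

variable {L : Type*} [Field L] {A : ValuationSubring L} {k : Type*} [Field k] {π : A →+* k}

theorem twist_mem_locL {u : Aˣ} (hu : Units.map (π : A →* k) u = 1) {f : LaurentSeries L}
    (hf : f ∈ locL A π) :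
    ∃ h : twist (Units.map (A.subtype : A →* L) u) f ∈ locL A π,
      resL A π ⟨_, h⟩ = resL A π ⟨f, hf⟩ := by
  obtain ⟨y, z, hz, h⟩ := (mem_locL_iff A π).mp hf
  have h1 := congrArg (twist (Units.map (A.subtype : A →* L) u)) h
  rw [map_mul, ← coeffMap_twist, ← coeffMap_twist] at h1
  have h2 : coeffMap π (twist u z) = coeffMap π z := by
    rw [coeffMap_twist, hu, twist_one]
  have h3 : coeffMap π (twist u y) = coeffMap π y := by
    rw [coeffMap_twist, hu, twist_one]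
  have hz' : coeffMap π (twist u z) ≠ 0 := by rw [h2]; exact hz
  have hmem : twist (Units.map (A.subtype : A →* L) u) f ∈ locL A π :=
    (mem_locL_iff A π).mpr ⟨_, _, hz', h1⟩
  refine ⟨hmem, ?_⟩
  have h4 := resL_mul_eq A π hmem hz' h1
  have h5 := resL_mul_eq A π hf hz h
  rw [h2, h3, ← h5] at h4
  exact mul_right_cancel₀ hz h4

theorem qExpand_mem_locL (ℓ : ℕ) [NeZero ℓ] {f : LaurentSeries L}
    (hf : f ∈ locL A π) :
    ∃ h : qExpand L ℓ f ∈ locL A π,
      resL A π ⟨_, h⟩ = qExpand k ℓ (resL A π ⟨f, hf⟩) := by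
  obtain ⟨y, z, hz, h⟩ := (mem_locL_iff A π).mp hf
  have h1 := congrArg (qExpand L ℓ) h
  rw [map_mul, ← coeffMap_qExpand_H60, ← coeffMap_qExpand_H60] at h1
  have hz' : coeffMap π (qExpand A ℓ z) ≠ 0 := by
    rw [coeffMap_qExpand_H60]
    intro h0
    exact hz (qExpand_injective ℓ (by rw [h0, map_zero]))
  have hmem : qExpand L ℓ f ∈ locL A π := (mem_locL_iff A π).mpr ⟨_, _, hz', h1⟩
  refine ⟨hmem, ?_⟩
  have h4 := resL_mul_eq A π hmem hz' h1
  have h5 := congrArg (qExpand k ℓ) (resL_mul_eq A π hf hz h)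
  rw [map_mul, ← coeffMap_qExpand_H60, ← coeffMap_qExpand_H60, ← h4] at h5
  exact (mul_right_cancel₀ hz' h5).symm

theorem prod_twist_mem_locL {ζ : Aˣ} (hζ : Units.map (π : A →* k) ζ = 1) {f : LaurentSeries L}
    (hf : f ∈ locL A π) (s : ℕ) :
    ∃ h : ∏ i : Fin s, twist ((Units.map (A.subtype : A →* L) ζ) ^ (i : ℕ)) f ∈ locL A π,
      resL A π ⟨_, h⟩ = resL A π ⟨f, hf⟩ ^ s := by
  have h1 : ∀ i : ℕ, ∃ h : twist ((Units.map (A.subtype : A →* L) ζ) ^ i) f ∈ locL A π,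
      resL A π ⟨_, h⟩ = resL A π ⟨f, hf⟩ := by
    intro i
    rw [← map_pow]
    exact twist_mem_locL (by rw [map_pow, hζ, one_pow]) hf
  choose h2 h3 using h1
  have h4 : (∏ i : Fin s, (⟨_, h2 i⟩ : locL A π) : locL A π) =
      ∏ i : Fin s, twist ((Units.map (A.subtype : A →* L) ζ) ^ (i : ℕ)) f := by
    push_cast
    rfl
  have h5 : ∏ i : Fin s, twist ((Units.map (A.subtype : A →* L) ζ) ^ (i : ℕ)) f ∈ locL A π := by
    rw [← h4]; exact Subtype.property _
  refine ⟨h5, ?_⟩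
  have h6 : (⟨_, h5⟩ : locL A π) = ∏ i : Fin s, (⟨_, h2 i⟩ : locL A π) := Subtype.ext h4.symm
  rw [h6, map_prod]
  simp only [h3, Finset.prod_const, Finset.card_univ, Fintype.card_fin]

/-- If `f (t ^ ℓ)` is a unit for the Gauss valuation then so is `f`. -/
theorem mem_locL_of_qExpand [IsLocalHom π] {F : IntermediateField L (LaurentSeries L)}
    (hF : IsQuot F) (ℓ : ℕ) [NeZero ℓ] {f : LaurentSeries L} (hfF : f ∈ F)
    (h : qExpand L ℓ f ∈ locL A π) (h0 : resL A π ⟨_, h⟩ ≠ 0) :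
    ∃ h' : f ∈ locL A π, qExpand k ℓ (resL A π ⟨f, h'⟩) = resL A π ⟨_, h⟩ := by
  suffices h' : f ∈ locL A π by
    obtain ⟨h1, h2⟩ := qExpand_mem_locL ℓ h'
    exact ⟨h', h2.symm⟩
  have hf0 : (⟨f, hfF⟩ : F) ≠ 0 := by
    intro hf
    apply h0
    have h1 : f = 0 := congrArg Subtype.val hf
    have h2 : (⟨qExpand L ℓ f, h⟩ : locL A π) = 0 := Subtype.ext (by
      change qExpand L ℓ f = 0
      rw [h1, map_zero])
    rw [h2, map_zero]
  obtain ⟨c, hc, hcf, hcρ⟩ := exists_scale_gaussV A π hF ⟨f, hfF⟩ hf0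
  -- `g = c f`
  have hg : ((algebraMap L F c * ⟨f, hfF⟩ : F) : LaurentSeries L) =
      algebraMap L (LaurentSeries L) c * f := rfl
  have hgloc : algebraMap L (LaurentSeries L) c * f ∈ locL A π := hcf
  have hgρ : resL A π ⟨_, hgloc⟩ ≠ 0 := hcρ
  obtain ⟨h1, h2⟩ := qExpand_mem_locL (π := π) ℓ hgloc
  have hcq : qExpand L ℓ (algebraMap L (LaurentSeries L) c) = algebraMap L (LaurentSeries L) c := by
    rw [algebraMap_laurentSeries_eq_single, qExpand_single, mul_zero]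
  have h3 : qExpand L ℓ (algebraMap L (LaurentSeries L) c * f) =
      algebraMap L (LaurentSeries L) c * qExpand L ℓ f := by rw [map_mul, hcq]
  have h4 : resL A π ⟨_, h1⟩ ≠ 0 := by
    rw [h2]
    intro h5
    exact hgρ (qExpand_injective ℓ (by rw [h5, map_zero]))
  -- constants in `locL`
  have hconst : ∀ a : A, ∃ h : algebraMap L (LaurentSeries L) (a : L) ∈ locL A π,
      resL A π ⟨_, h⟩ = algebraMap k (LaurentSeries k) (π a) := by
    intro a
    have h5 : algebraMap L (LaurentSeries L) (a : L) =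
        coeffMap A.subtype (HahnSeries.single 0 a) := by
      rw [algebraMap_laurentSeries_eq_single, coeffMap_single]
      rfl
    have h6 := coeffMap_mem_locL A π (HahnSeries.single 0 a)
    have h8 : algebraMap L (LaurentSeries L) (a : L) ∈ locL A π := by rw [h5]; exact h6
    refine ⟨h8, ?_⟩
    have h9 : (⟨_, h8⟩ : locL A π) = ⟨_, h6⟩ := Subtype.ext h5
    rw [h9, resL_coeffMap, coeffMap_single, algebraMap_laurentSeries_eq_single]
  have hcA : c ∈ A := by
    by_contra hcA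
    obtain ⟨a, ha, ha0⟩ := inv_mem_of_not_mem' A π hcA
    obtain ⟨h5, h6⟩ := hconst a
    apply h0
    have h7 : (⟨qExpand L ℓ f, h⟩ : locL A π) = ⟨_, h5⟩ * ⟨_, h1⟩ := by
      apply Subtype.ext
      change qExpand L ℓ f = algebraMap L (LaurentSeries L) (a : L) *
        qExpand L ℓ (algebraMap L (LaurentSeries L) c * f)
      rw [h3, ha, ← mul_assoc, ← map_mul, inv_mul_cancel₀ hc, map_one, one_mul]
    rw [h7, map_mul, h6, ha0, map_zero, zero_mul]
  have hcinv : c⁻¹ ∈ A := by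
    by_contra hcinv
    obtain ⟨a, ha, ha0⟩ := inv_mem_of_not_mem' A π hcinv
    rw [inv_inv] at ha
    obtain ⟨h5, h6⟩ := hconst a
    apply h4
    have h7 : (⟨_, h1⟩ : locL A π) = ⟨_, h5⟩ * ⟨_, h⟩ := by
      apply Subtype.ext
      change qExpand L ℓ (algebraMap L (LaurentSeries L) c * f) =
        algebraMap L (LaurentSeries L) (a : L) * qExpand L ℓ f
      rw [h3, ha]
    rw [h7, map_mul, h6, ha0, map_zero, zero_mul]
  obtain ⟨h5, -⟩ := hconst ⟨c⁻¹, hcinv⟩
  have h8 := (locL A π).mul_mem h5 hgloc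
  have h9 : algebraMap L (LaurentSeries L) c⁻¹ * (algebraMap L (LaurentSeries L) c * f) = f := by
    rw [← mul_assoc, ← map_mul, inv_mul_cancel₀ hc, map_one, one_mul]
  rwa [h9] at h8

end Reduction


section Main

variable {L : Type*} [Field L] [Algebra ℚ L] [CharZero L] [IsAlgClosed L]
  {A : ValuationSubring L} {k : Type*} [Field k] {π : A →+* k} {N ℓ : ℕ} [NeZero N] [NeZero ℓ]

/-- `FB L N` -/
abbrev FF (L : Type*) [Field L] [Algebra ℚ L] (N : ℕ) [NeZero N] :
    IntermediateField L (LaurentSeries L) := laurentBaseChange L (modularFunctionFieldFull N)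

/-- A primitive `ℓ`-th root of unity reducing to `1`. -/
theorem exists_zeta_one [IsLocalHom π] [Fact ℓ.Prime] [CharP k ℓ] : ∃ ζ : Aˣ,
    IsPrimitiveRoot (Units.map (A.subtype : A →* L) ζ) ℓ ∧ Units.map (π : A →* k) ζ = 1 := by
  have hℓ : ℓ.Prime := Fact.out
  have : NeZero (ℓ : L) := ⟨Nat.cast_ne_zero.mpr (NeZero.ne ℓ)⟩
  obtain ⟨z, hz⟩ := HasEnoughRootsOfUnity.exists_primitiveRoot L ℓ
  have hz1 : z ^ ℓ = 1 := hz.pow_eq_one
  have hzA : ∀ y : L, y ^ ℓ = 1 → y ∈ A := by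
    intro y hy
    rcases A.mem_or_inv_mem y with h | h
    · exact h
    · have h1 : y = y⁻¹ ^ (ℓ - 1) := by
        have hy0 : y ≠ 0 := by
          rintro rfl
          rw [zero_pow hℓ.ne_zero] at hy
          exact zero_ne_one hy
        rw [inv_pow]
        apply eq_inv_of_mul_eq_one_left
        rw [← pow_succ', Nat.sub_add_cancel hℓ.one_le, hy]
      rw [h1]
      exact pow_mem h _
  have hzinv : z⁻¹ ^ ℓ = 1 := by rw [inv_pow, hz1, inv_one]
  have hz0 : z ≠ 0 := hz.ne_zero hℓ.ne_zero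
  let ζ : Aˣ := ⟨⟨z, hzA z hz1⟩, ⟨z⁻¹, hzA _ hzinv⟩, Subtype.ext (mul_inv_cancel₀ hz0),
    Subtype.ext (inv_mul_cancel₀ hz0)⟩
  refine ⟨ζ, ?_, ?_⟩
  · rw [← IsPrimitiveRoot.coe_units_iff]
    exact hz
  · apply Units.ext
    change π ⟨z, hzA z hz1⟩ = 1
    have h1 : (π ⟨z, hzA z hz1⟩) ^ ℓ = 1 := by
      rw [← map_pow]
      have : (⟨z, hzA z hz1⟩ : A) ^ ℓ = 1 := Subtype.ext hz1
      rw [this, map_one]
    have h2 : (π ⟨z, hzA z hz1⟩ - 1) ^ ℓ = 0 := by
      rw [sub_pow_char, h1, one_pow, sub_self]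
    exact sub_eq_zero.mp (pow_eq_zero_iff hℓ.ne_zero |>.mp h2)

variable {W : FF L (N * ℓ) ≃ₐ[L] FF L (N * ℓ)}

/-- The function `U f`. -/
def uFun (W : FF L (N * ℓ) ≃ₐ[L] FF L (N * ℓ)) (f : FF L (N * ℓ)) : FF L (N * ℓ) :=
  heckeAlphaBar L N ℓ (normAlong (heckeAlphaBar L N ℓ) (W f)) * (W f)⁻¹

omit [IsAlgClosed L] in
theorem qExpand_uFun (hα : ∀ x, W (heckeAlphaBar L N ℓ x) = heckeBetaBar L N ℓ x)
    (hβ : ∀ x, W (heckeBetaBar L N ℓ x) = heckeAlphaBar L N ℓ x)
    (hinv : ∀ x, W (W x) = x) (hℓ : 1 < ℓ) {ζ : Lˣ} (hζ : IsPrimitiveRoot ζ ℓ)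
    (hfin : FiniteAlong L (heckeAlphaBar L N ℓ))
    (hdeg : finrankAlong L (heckeAlphaBar L N ℓ) ≤ ℓ + 1) {f : FF L (N * ℓ)} (hf : f ≠ 0) :
    qExpand L ℓ (uFun W f : LaurentSeries L) =
      ∏ i : Fin ℓ, twist (ζ ^ (i : ℕ)) (f : LaurentSeries L) := by
  have hw := IsSwap.of_algHom (W : FF L (N * ℓ) →+* FF L (N * ℓ)) hα hβ
  have h1 := qExpand_normAlong' hw hℓ hζ hfin hdeg (W f)
  have h2 : ((uFun W f : FF L (N * ℓ)) : LaurentSeries L) =
      ((normAlong (heckeAlphaBar L N ℓ) (W f) : FF L N) : LaurentSeries L) *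
        ((W f : FF L (N * ℓ)) : LaurentSeries L)⁻¹ := rfl
  have h3 : ((W f : FF L (N * ℓ)) : LaurentSeries L) ≠ 0 := by
    intro h0
    apply hf
    have h4 : W f = 0 := Subtype.ext h0
    exact (map_eq_zero W).mp h4
  have h4 : qExpand L ℓ ((W f : FF L (N * ℓ)) : LaurentSeries L) ≠ 0 := by
    intro h0
    exact h3 (qExpand_injective ℓ (by rw [h0, map_zero]))
  rw [h2, map_mul, map_inv₀, h1]
  have h5 : ∀ i : Fin ℓ, twist (ζ ^ (i : ℕ))
      (((algebraMap (FF L (N * ℓ)) (LaurentSeries L)).comp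
        (W : FF L (N * ℓ) →+* FF L (N * ℓ))) (W f)) =
      twist (ζ ^ (i : ℕ)) (f : LaurentSeries L) := by
    intro i
    have h6 : ((algebraMap (FF L (N * ℓ)) (LaurentSeries L)).comp
        (W : FF L (N * ℓ) →+* FF L (N * ℓ))) (W f) = ((W (W f) : FF L (N * ℓ)) :
          LaurentSeries L) := rfl
    rw [h6, hinv]
  simp only [h5]
  rw [mul_comm (qExpand L ℓ _), mul_assoc, mul_inv_cancel₀ h4, mul_one]

/-- **Reduction of `U f`.** -/
theorem resL_uFun [IsLocalHom π] [Fact ℓ.Prime] [CharP k ℓ]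
    (hF : IsQuot (FF L (N * ℓ)))
    (hα : ∀ x, W (heckeAlphaBar L N ℓ x) = heckeBetaBar L N ℓ x)
    (hβ : ∀ x, W (heckeBetaBar L N ℓ x) = heckeAlphaBar L N ℓ x)
    (hinv : ∀ x, W (W x) = x)
    (hfin : FiniteAlong L (heckeAlphaBar L N ℓ))
    (hdeg : finrankAlong L (heckeAlphaBar L N ℓ) ≤ ℓ + 1) {f : FF L (N * ℓ)}
    (h : (f : LaurentSeries L) ∈ locL A π) (h0 : resL A π ⟨_, h⟩ ≠ 0) :
    ∃ h' : (uFun W f : LaurentSeries L) ∈ locL A π,
      resL A π ⟨_, h'⟩ = coeffMap (frobenius k ℓ) (resL A π ⟨_, h⟩) := by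
  have hℓ : ℓ.Prime := Fact.out
  have hf : f ≠ 0 := by
    rintro rfl
    apply h0
    have h1 : (⟨((0 : FF L (N * ℓ)) : LaurentSeries L), h⟩ : locL A π) = 0 := rfl
    rw [h1, map_zero]
  obtain ⟨ζ, hζ, hζ1⟩ := exists_zeta_one (L := L) (A := A) (π := π) (ℓ := ℓ)
  have h1 := qExpand_uFun hα hβ hinv hℓ.one_lt hζ hfin hdeg hf
  obtain ⟨h2, h3⟩ := prod_twist_mem_locL hζ1 h ℓ
  have h4 : qExpand L ℓ (uFun W f : LaurentSeries L) ∈ locL A π := by rw [h1]; exact h2
  have h5 : resL A π ⟨_, h4⟩ = resL A π ⟨_, h⟩ ^ ℓ := by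
    rw [← h3]
    congr 1
    exact Subtype.ext h1
  obtain ⟨h6, h7⟩ := mem_locL_of_qExpand hF ℓ (uFun W f).2 h4
    (by rw [h5]; exact pow_ne_zero _ h0)
  refine ⟨h6, qExpand_injective ℓ ?_⟩
  rw [h7, h5]
  exact laurent_pow_char ℓ _

end Main

end Fermat.Agent.H89HU
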