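import Fermat.Agent.H33Final
import Fermat.Agent.H67J
import Fermat.Agent.H89HU
import Fermat.Agent.H34Two7

/-!
# Kummer functions, degeneracy maps and the Atkin–Lehner involution (helper33)
-/

set_option autoImplicit false
set_option linter.unusedSectionVars false
set_option linter.style.haveILetI false

open ModularCurve AlgebraicCurve

namespace Fermat.Agent.H33

section Push

variable {K : Type*} [Field K] [IsAlgClosed K] [CharZero K]
variable {F F' : Type*} [Field F] [Field F'] [Algebra K F] [Algebra K F']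
  [H94.FunField K F] [H94.FunField K F']

theorem IsKum.pushP {n : ℕ} {x : Pic0 K F'} {f : F'} (φ : F →ₐ[K] F') (hf : IsKum n x f) :
    IsKum n (H67.pushP φ x) (H60.normAlong φ f) := by
  obtain ⟨hf0, D, rfl, hD⟩ := hf
  refine ⟨H67.normAlong_ne_zero' φ hf0, ⟨H67.pushD φ D, (H67.degree_pushD φ D.1).trans D.2⟩,
    rfl, fun v => ?_⟩
  have h1 : n • (D : Divisor K F') = H67.divF f hf0 := by
    refine H67.divF_unique _ fun w => ?_
    rw [← hD w]
    simp
  have h2 : n • H67.pushD φ (D : Divisor K F') = H67.divF (H60.normAlong φ f)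
      (H67.normAlong_ne_zero' φ hf0) := by
    rw [← map_nsmul, h1, H67.pushD_divF]
  have h3 := congrArg (fun E : Divisor K F => E v) h2
  simp only [H67.divF_apply] at h3
  rw [← h3]
  simp

theorem normAlong_equiv (e : F ≃ₐ[K] F') (z : F') : H60.normAlong e.toAlgHom z = e.symm z := by
  letI := algebraAlong e.toAlgHom
  have h1 : z = algebraMap F F' (e.symm z) := (e.apply_symm_apply z).symm
  have h2 : Module.finrank F F' = 1 := H67.finrankAlong_equiv e
  show Algebra.norm F z = _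
  conv_lhs => rw [h1]
  rw [Algebra.norm_algebraMap, h2, pow_one]

end Push

local notation "Qb" => AlgebraicClosure ℚ
local notation "Gq" => AlgebraicClosure ℚ ≃ₐ[ℚ] AlgebraicClosure ℚ

section Norm

variable {p : ℕ} [Fact p.Prime] [NeZero p] {M : ℕ} [NeZero M] (w : H99.AL Qb M p)

theorem IsKum.atkin {n : ℕ} {x : JZero (M * p)} {f : H99.FX Qb (M * p)} (hf : IsKum n x f) :
    IsKum n (H67.pushP w.W.toAlgHom x) (w.W f) := by
  have h := hf.pushP w.W.toAlgHom
  rw [normAlong_equiv] at h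
  have h2 : w.W.symm f = w.W f := by
    rw [AlgEquiv.symm_apply_eq, w.invol]
  rwa [h2] at h

/-- The norm to level `M` in terms of `q`-expansions. -/
theorem coe_normAlong_alpha (hpM : ¬ p ∣ M) {ζ : Qbˣ} (hζ : IsPrimitiveRoot ζ p)
    (z : H99.FX Qb (M * p)) :
    ((H60.normAlong (heckeAlphaBar Qb M p) z : H99.FX Qb M) : LaurentSeries Qb) =
      (z : LaurentSeries Qb) * normOp p ζ (w.W z : LaurentSeries Qb) := by
  have hp : p.Prime := Fact.out
  have hH := H42.heckeData M p hp hpM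
  obtain ⟨hα, hβ, hPD, hfin, hFI, hNF⟩ := hH.inputs
  have hw := H60.IsSwap.of_algHom (N := M) (ℓ := p) (L := Qb) (w.W : H99.FX Qb (M * p) →+* H99.FX Qb (M * p))
    w.alpha w.beta
  have h1 := H89HU.qExpand_normAlong' hw hp.one_lt hζ hfin hH.degree_le z
  apply qExpand_injective p
  rw [h1, map_mul, qExpand_normOp p hζ, prodTwist,
    ← Fin.prod_univ_eq_prod_range (fun i => H60.twist (ζ ^ i) _) p]
  rfl

theorem normOp_mem (hpM : ¬ p ∣ M) {ζ : Qbˣ} (hζ : IsPrimitiveRoot ζ p)
    {f : LaurentSeries Qb} (hf : f ∈ H99.FX Qb (M * p)) : normOp p ζ f ∈ H99.FX Qb (M * p) := by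
  obtain ⟨w⟩ : Nonempty (H99.AL Qb M p) := by
    have hp : p.Prime := Fact.out
    exact H99.nonempty_AL H67.embQbar ((Nat.Prime.coprime_iff_not_dvd hp).2 hpM).symm
  by_cases hf0 : f = 0
  · have h1 : normOp p ζ f = 0 := by
      apply qExpand_injective p
      have hp : p.Prime := Fact.out
      rw [qExpand_normOp p hζ, hf0, prodTwist, map_zero]
      obtain ⟨q, hq⟩ : ∃ q, p = q + 1 := ⟨p - 1, by have := hp.two_le; omega⟩
      refine Finset.prod_eq_zero (i := 0) ?_ (map_zero _)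
      rw [hq]
      simp
    rw [h1]
    exact zero_mem _
  have h := coe_normAlong_alpha w hpM hζ (w.W ⟨f, hf⟩)
  rw [w.invol] at h
  have hne : (w.W ⟨f, hf⟩ : LaurentSeries Qb) ≠ 0 := by
    intro h0
    have h1 : w.W ⟨f, hf⟩ = 0 := Subtype.ext h0
    have h2 : (⟨f, hf⟩ : H99.FX Qb (M * p)) = 0 := w.W.injective (by rw [h1, map_zero])
    exact hf0 (congrArg Subtype.val h2)
  have h3 : normOp p ζ f = (w.W ⟨f, hf⟩ : LaurentSeries Qb)⁻¹ *
      ((H60.normAlong (heckeAlphaBar Qb M p) (w.W ⟨f, hf⟩) : H99.FX Qb M) : LaurentSeries Qb) := by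
    rw [h, ← mul_assoc, inv_mul_cancel₀ hne, one_mul]
  rw [h3]
  refine mul_mem (inv_mem (SetLike.coe_mem _)) ?_
  have h4 := (heckeAlphaBar Qb M p (H60.normAlong (heckeAlphaBar Qb M p) (w.W ⟨f, hf⟩))).2
  rwa [coe_heckeAlphaBar] at h4

end Norm

end Fermat.Agent.H33
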