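import Mathlib
import Fermat.Prelude.Def_ModularCurve_ArithmeticGalois
import Fermat.Agent.H90Descent

/-!
# Normalised functions representing torsion classes (helper40)

`F = laurentBaseChange L F₀`, `L` algebraically closed, `n > 0`.  `IsRep n x u` : `u` is a function
with leading `q`-coefficient `1` and divisor `n • D`, `D` a divisor of class `x`.

* `exists_isRep`: every `x` with `n • x = 0` has a representative `u` which is fixed by **every**
  `σ : L ≃ₐ[ℚ] L` that fixes `x` (no Hilbert 90 needed);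
* `IsRep.mul`, `IsRep.inv`, `IsRep.galois`, `IsRep.mul_pow`, `IsRep.exists_mul_pow`;
* `IsRep.exists_twist`: `τ • x = x + y` gives `τ • u = u * w * f ^ n`.
-/

set_option autoImplicit false
set_option linter.unusedSectionVars false

noncomputable section

open AlgebraicCurve HahnSeries ModularCurve IntermediateField

namespace Fermat.Agent.H40

open Fermat.Agent.H90

variable {L : Type*} [Field L] [Algebra ℚ L]
variable {F₀ : IntermediateField ℚ (LaurentSeries ℚ)}

/-- Leading coefficient at the cusp `∞`. -/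
def lc (u : laurentBaseChange L F₀) : L := (u : LaurentSeries L).leadingCoeff

theorem lc_ne_zero {u : laurentBaseChange L F₀} (hu : u ≠ 0) : lc u ≠ 0 := by
  rw [lc, HahnSeries.leadingCoeff_ne_zero]
  exact fun h => hu (by exact_mod_cast h)

theorem lc_eq_coeff (u : laurentBaseChange L F₀) :
    lc u = (u : LaurentSeries L).coeff (u : LaurentSeries L).order := by
  rw [lc, HahnSeries.leadingCoeff_eq]

@[simp] theorem lc_one : lc (1 : laurentBaseChange L F₀) = 1 := by
  rw [lc_eq_coeff]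
  simp

theorem lc_mul (u v : laurentBaseChange L F₀) : lc (u * v) = lc u * lc v := by
  rcases eq_or_ne u 0 with rfl | hu
  · rw [zero_mul, lc]
    simp [lc]
  rcases eq_or_ne v 0 with rfl | hv
  · rw [mul_zero, lc]
    simp [lc]
  have hu' : (u : LaurentSeries L) ≠ 0 := fun h => hu (by exact_mod_cast h)
  have hv' : (v : LaurentSeries L) ≠ 0 := fun h => hv (by exact_mod_cast h)
  rw [lc_eq_coeff, lc_eq_coeff, lc_eq_coeff]
  show ((u : LaurentSeries L) * (v : LaurentSeries L)).coeff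
    ((u : LaurentSeries L) * (v : LaurentSeries L)).order = _
  rw [HahnSeries.order_mul hu' hv', HahnSeries.coeff_mul_order_add_order,
    HahnSeries.leadingCoeff_eq, HahnSeries.leadingCoeff_eq]

theorem lc_inv (u : laurentBaseChange L F₀) : lc u⁻¹ = (lc u)⁻¹ := by
  rcases eq_or_ne u 0 with rfl | hu
  · rw [inv_zero, lc]
    simp
  have h := lc_mul u u⁻¹
  rw [mul_inv_cancel₀ hu, lc_one] at h
  exact eq_inv_of_mul_eq_one_right h.symm

theorem lc_pow (u : laurentBaseChange L F₀) (n : ℕ) : lc (u ^ n) = lc u ^ n := by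
  induction n with
  | zero => simp
  | succ n ih => rw [pow_succ, pow_succ, lc_mul, ih]

theorem lc_zpow (u : laurentBaseChange L F₀) (n : ℤ) : lc (u ^ n) = lc u ^ n := by
  cases n with
  | ofNat n => simpa using lc_pow u n
  | negSucc n => rw [zpow_negSucc, zpow_negSucc, lc_inv, lc_pow]

theorem lc_algebraMap (a : L) : lc (algebraMap L (laurentBaseChange L F₀) a) = a := by
  rw [lc]
  show (algebraMap L (LaurentSeries L) a).leadingCoeff = a
  rw [algebraMap_laurentSeries_eq_single, HahnSeries.leadingCoeff_of_single]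

theorem lc_galois (σ : L ≃ₐ[ℚ] L) (u : laurentBaseChange L F₀) :
    lc (arithmeticGalois F₀ σ • u) = σ (lc u) := by
  rw [lc_eq_coeff, lc_eq_coeff, coe_arithmeticGalois_smul, order_coeffMap, coeffMap_coeff]
  rfl

theorem galois_ne_zero (σ : L ≃ₐ[ℚ] L) {u : laurentBaseChange L F₀} (hu : u ≠ 0) :
    arithmeticGalois F₀ σ • u ≠ 0 := by
  rw [SemilinearAut.smul_def, ne_eq, map_eq_zero_iff _ (RingEquiv.injective _)]
  exact hu

/-- Two functions with the same divisor are proportional. -/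
theorem exists_const_mul [IsAlgClosed L] [H3RR.IsFF L (laurentBaseChange L F₀)]
    (hinf : ∃ x ∈ F₀, x.order = 1) {u v : laurentBaseChange L F₀} (hu : u ≠ 0) (hv : v ≠ 0)
    (h : ∀ P : Place L (laurentBaseChange L F₀), P.ord u = P.ord v) :
    ∃ c : L, c ≠ 0 ∧ u = algebraMap L _ c * v := by
  have hrat : IsRational (infPlace L hinf) := isRational_of_isFF _
  have hdeg : 0 < (infPlace L hinf).deg := by rw [deg_eq_one_of_isFF]; exact one_pos
  obtain ⟨c, hc⟩ := exists_const_of_ord_eq_zero hrat hdeg (f := u * v⁻¹) (by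
    intro P
    rw [P.ord_mul hu (inv_ne_zero hv), P.ord_inv, h P]
    ring)
  have h0 : c ≠ 0 := by
    rintro rfl
    rw [map_zero] at hc
    exact mul_ne_zero hu (inv_ne_zero hv) hc
  refine ⟨c, h0, ?_⟩
  rw [← hc]
  field_simp

/-- Two functions with the same divisor and the same leading coefficient are equal. -/
theorem eq_of_ord_eq_of_lc_eq [IsAlgClosed L] [H3RR.IsFF L (laurentBaseChange L F₀)]
    (hinf : ∃ x ∈ F₀, x.order = 1) {u v : laurentBaseChange L F₀} (hu : u ≠ 0) (hv : v ≠ 0)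
    (h : ∀ P : Place L (laurentBaseChange L F₀), P.ord u = P.ord v) (hlc : lc u = lc v) :
    u = v := by
  obtain ⟨c, hc0, hc⟩ := exists_const_mul hinf hu hv h
  have h1 : c = 1 := by
    have h2 := congrArg lc hc
    rw [lc_mul, lc_algebraMap, hlc] at h2
    have h3 := lc_ne_zero hv
    exact (mul_eq_right₀ h3).mp h2.symm
  rw [hc, h1, map_one, one_mul]

/-- `u` is a normalised function with divisor `n • D`, with `D` of class `x`. -/
structure IsRep (n : ℕ) (x : Pic0 L (laurentBaseChange L F₀)) (u : laurentBaseChange L F₀) :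
    Prop where
  ne_zero : u ≠ 0
  lc_eq : lc u = 1
  exists_div : ∃ D : Divisor.degZero (K := L) (F := laurentBaseChange L F₀), Pic0.mk D = x ∧
    ∀ v : Place L (laurentBaseChange L F₀), v.ord u = n * (D : Divisor L _) v

section Basic

variable {n : ℕ} {x y : Pic0 L (laurentBaseChange L F₀)} {u w : laurentBaseChange L F₀}

theorem mk_eq_zero_of_ord {D : Divisor.degZero (K := L) (F := laurentBaseChange L F₀)}
    {g : laurentBaseChange L F₀} (hg : g ≠ 0)
    (h : ∀ v : Place L (laurentBaseChange L F₀), (D : Divisor L _) v = v.ord g) :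
    Pic0.mk D = 0 := by
  refine (QuotientAddGroup.eq_zero_iff _).mpr ?_
  rw [AddSubgroup.mem_addSubgroupOf]
  exact ⟨g, hg, fun v => h v⟩

theorem exists_ord_of_mk_eq {D E : Divisor.degZero (K := L) (F := laurentBaseChange L F₀)}
    (h : Pic0.mk D = Pic0.mk E) :
    ∃ g : laurentBaseChange L F₀, g ≠ 0 ∧ ∀ v : Place L (laurentBaseChange L F₀),
      (E : Divisor L _) v = (D : Divisor L _) v + v.ord g := by
  have h3 := QuotientAddGroup.eq.mp h
  rw [AddSubgroup.mem_addSubgroupOf] at h3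
  obtain ⟨g, hg0, hg⟩ := h3
  refine ⟨g, hg0, fun v => ?_⟩
  rw [← hg v]
  have h4 : ((-D + E : Divisor.degZero (K := L) (F := laurentBaseChange L F₀)) :
      Divisor L (laurentBaseChange L F₀)) = -(D : Divisor L _) + (E : Divisor L _) := rfl
  rw [h4, Finsupp.add_apply, Finsupp.neg_apply]
  ring

theorem IsRep.dvd_ord (h : IsRep n x u) (v : Place L (laurentBaseChange L F₀)) :
    (n : ℤ) ∣ v.ord u := by
  obtain ⟨D, -, hD⟩ := h.exists_div
  exact ⟨_, hD v⟩

theorem isRep_zero : IsRep n (0 : Pic0 L (laurentBaseChange L F₀)) 1 where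
  ne_zero := one_ne_zero
  lc_eq := lc_one
  exists_div := ⟨0, rfl, fun v => by simp⟩

theorem IsRep.mul (hx : IsRep n x u) (hy : IsRep n y w) : IsRep n (x + y) (u * w) where
  ne_zero := mul_ne_zero hx.ne_zero hy.ne_zero
  lc_eq := by rw [lc_mul, hx.lc_eq, hy.lc_eq, one_mul]
  exists_div := by
    obtain ⟨D, rfl, hD⟩ := hx.exists_div
    obtain ⟨E, rfl, hE⟩ := hy.exists_div
    refine ⟨D + E, rfl, fun v => ?_⟩
    have h1 : ((D + E : Divisor.degZero (K := L) (F := laurentBaseChange L F₀)) :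
      Divisor L (laurentBaseChange L F₀)) = (D : Divisor L _) + (E : Divisor L _) := rfl
    rw [v.ord_mul hx.ne_zero hy.ne_zero, hD, hE, h1, Finsupp.add_apply]
    ring

theorem IsRep.inv (hx : IsRep n x u) : IsRep n (-x) u⁻¹ where
  ne_zero := inv_ne_zero hx.ne_zero
  lc_eq := by rw [lc_inv, hx.lc_eq, inv_one]
  exists_div := by
    obtain ⟨D, rfl, hD⟩ := hx.exists_div
    refine ⟨-D, rfl, fun v => ?_⟩
    have h1 : ((-D : Divisor.degZero (K := L) (F := laurentBaseChange L F₀)) :
      Divisor L (laurentBaseChange L F₀)) = -(D : Divisor L _) := rfl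
    rw [v.ord_inv, hD, h1, Finsupp.neg_apply]
    ring

theorem IsRep.pow (hx : IsRep n x u) (k : ℕ) : IsRep n (k • x) (u ^ k) := by
  induction k with
  | zero => simpa using isRep_zero
  | succ k ih => rw [succ_nsmul, pow_succ]; exact ih.mul hx

theorem IsRep.zpow (hx : IsRep n x u) (k : ℤ) : IsRep n (k • x) (u ^ k) := by
  cases k with
  | ofNat k => simpa using hx.pow k
  | negSucc k => rw [negSucc_zsmul, zpow_negSucc]; exact (hx.pow _).inv

theorem IsRep.prod {ι : Type*} (s : Finset ι) {x : ι → Pic0 L (laurentBaseChange L F₀)}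
    {u : ι → laurentBaseChange L F₀} (h : ∀ i ∈ s, IsRep n (x i) (u i)) :
    IsRep n (∑ i ∈ s, x i) (∏ i ∈ s, u i) := by
  classical
  induction s using Finset.induction_on with
  | empty => simpa using isRep_zero
  | insert a s ha ih =>
    rw [Finset.sum_insert ha, Finset.prod_insert ha]
    exact (h a (Finset.mem_insert_self _ _)).mul
      (ih fun i hi => h i (Finset.mem_insert_of_mem hi))

/-- Semilinear action on representatives. -/
theorem IsRep.galois (hx : IsRep n x u) (σ : L ≃ₐ[ℚ] L) :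
    IsRep n (σ • x) (arithmeticGalois F₀ σ • u) where
  ne_zero := galois_ne_zero σ hx.ne_zero
  lc_eq := by rw [lc_galois, hx.lc_eq, map_one]
  exists_div := by
    obtain ⟨D, rfl, hD⟩ := hx.exists_div
    refine ⟨SemilinearAut.degZeroSMulHom (arithmeticGalois F₀ σ) D, rfl, fun v => ?_⟩
    have h1 := SemilinearAut.ord_smul (arithmeticGalois F₀ σ)
      ((arithmeticGalois F₀ σ)⁻¹ • v) u
    rw [smul_inv_smul] at h1
    rw [h1, hD, SemilinearAut.coe_degZeroSMulHom, SemilinearAut.divisor_smul_apply]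

theorem IsRep.mul_pow (hx : IsRep n x u) {g : laurentBaseChange L F₀} (hg : lc g = 1)
    [HasPrincipalDivisors L (laurentBaseChange L F₀)] :
    IsRep n x (u * g ^ n) := by
  have hg0 : g ≠ 0 := by
    rintro rfl
    rw [lc] at hg
    simp at hg
  obtain ⟨D, rfl, hD⟩ := hx.exists_div
  obtain ⟨E, hE, hdeg⟩ := HasPrincipalDivisors.exists_divisor (K := L) g hg0
  let E' : Divisor.degZero (K := L) (F := laurentBaseChange L F₀) := ⟨E, hdeg⟩
  refine ⟨mul_ne_zero hx.ne_zero (pow_ne_zero _ hg0), ?_, D + E', ?_, fun v => ?_⟩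
  · rw [lc_mul, lc_pow, hg, one_pow, hx.lc_eq, one_mul]
  · have h1 : Pic0.mk (D + E') = Pic0.mk D + Pic0.mk E' := rfl
    have h2 : Pic0.mk E' = 0 := mk_eq_zero_of_ord hg0 (fun v => hE v)
    rw [h1, h2, add_zero]
  · have h1 : ((D + E' : Divisor.degZero (K := L) (F := laurentBaseChange L F₀)) :
      Divisor L (laurentBaseChange L F₀)) = (D : Divisor L _) + E := rfl
    rw [v.ord_mul hx.ne_zero (pow_ne_zero _ hg0), hD, h1, Finsupp.add_apply, ← zpow_natCast,
      v.ord_zpow, hE]
    ring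

/-- A representative determines its class (`n ≠ 0`). -/
theorem IsRep.unique (hn : n ≠ 0) (hx : IsRep n x u) (hy : IsRep n y u) : x = y := by
  obtain ⟨D, rfl, hD⟩ := hx.exists_div
  obtain ⟨E, rfl, hE⟩ := hy.exists_div
  have : D = E := by
    refine Subtype.ext (Finsupp.ext fun v => ?_)
    have h := hD v
    rw [hE v] at h
    exact (mul_left_cancel₀ (by exact_mod_cast hn) h).symm
  rw [this]

theorem IsRep.nsmul_eq_zero (hx : IsRep n x u) : n • x = 0 := by
  obtain ⟨D, rfl, hD⟩ := hx.exists_div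
  have h1 : n • Pic0.mk D = Pic0.mk (n • D) := rfl
  rw [h1]
  refine mk_eq_zero_of_ord hx.ne_zero fun v => ?_
  rw [hD v]
  show (n • (D : Divisor L (laurentBaseChange L F₀))) v = _
  rw [Finsupp.smul_apply, nsmul_eq_mul]

end Basic

section Main

variable [IsAlgClosed L] [H3RR.IsFF L (laurentBaseChange L F₀)]
variable {n : ℕ} {x y : Pic0 L (laurentBaseChange L F₀)} {u w : laurentBaseChange L F₀}

/-- Two representatives of the same class differ by the `n`-th power of a normalised function. -/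
theorem IsRep.exists_mul_pow (hinf : ∃ x ∈ F₀, x.order = 1) (hx : IsRep n x u)
    (hw : IsRep n x w) : ∃ g : laurentBaseChange L F₀, lc g = 1 ∧ w = u * g ^ n := by
  obtain ⟨D, rfl, hD⟩ := hx.exists_div
  obtain ⟨E, hDE, hE⟩ := hw.exists_div
  obtain ⟨g, hg0, hg⟩ := exists_ord_of_mk_eq hDE.symm
  have hlg := lc_ne_zero hg0
  refine ⟨algebraMap L _ (lc g)⁻¹ * g, ?_, ?_⟩
  · rw [lc_mul, lc_algebraMap, inv_mul_cancel₀ hlg]
  have hc0 : algebraMap L (laurentBaseChange L F₀) (lc g)⁻¹ ≠ 0 := by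
    rw [ne_eq, map_eq_zero]
    exact inv_ne_zero hlg
  have hgg : algebraMap L (laurentBaseChange L F₀) (lc g)⁻¹ * g ≠ 0 := mul_ne_zero hc0 hg0
  refine eq_of_ord_eq_of_lc_eq hinf hw.ne_zero
    (mul_ne_zero hx.ne_zero (pow_ne_zero _ hgg)) (fun v => ?_) ?_
  · have h1 : v.ord (algebraMap L (laurentBaseChange L F₀) (lc g)⁻¹) = 0 := by
      have h1 := H94.ord_nonneg_of_mem v (v.algebraMap_mem' (lc g)⁻¹)
      have h2 := H94.ord_nonneg_of_mem v (v.algebraMap_mem' ((lc g)⁻¹)⁻¹)
      rw [map_inv₀, v.ord_inv] at h2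
      omega
    rw [v.ord_mul hx.ne_zero (pow_ne_zero _ hgg), hE, hD, hg, ← zpow_natCast, v.ord_zpow,
      v.ord_mul hc0 hg0, h1]
    ring
  · rw [lc_mul, lc_pow, lc_mul, lc_algebraMap, inv_mul_cancel₀ hlg, one_pow, mul_one, hw.lc_eq,
      hx.lc_eq]

/-- `g ^ n` represents `0`, and conversely. -/
theorem IsRep.exists_pow_of_zero (hinf : ∃ x ∈ F₀, x.order = 1)
    (hx : IsRep n (0 : Pic0 L (laurentBaseChange L F₀)) u) :
    ∃ g : laurentBaseChange L F₀, lc g = 1 ∧ u = g ^ n := by
  obtain ⟨g, hg, h⟩ := isRep_zero.exists_mul_pow hinf hx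
  exact ⟨g, hg, by rw [h, one_mul]⟩

/-- If a representative is an `n`-th power then the class is trivial. -/
theorem IsRep.eq_zero_of_pow (hn : n ≠ 0) (hx : IsRep n x u) {g : laurentBaseChange L F₀}
    (hu : u = g ^ n) : x = 0 := by
  obtain ⟨D, rfl, hD⟩ := hx.exists_div
  have hg0 : g ≠ 0 := by
    rintro rfl
    rw [zero_pow hn] at hu
    exact hx.ne_zero hu
  refine mk_eq_zero_of_ord hg0 fun v => ?_
  have h := hD v
  rw [hu, ← zpow_natCast, v.ord_zpow] at h
  exact (mul_left_cancel₀ (by exact_mod_cast hn) h).symm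

/-- **Twisting relation.** If `τ • x = x + y` then `τ • u = u * w * f ^ n`. -/
theorem IsRep.exists_twist (hinf : ∃ x ∈ F₀, x.order = 1) (hx : IsRep n x u) (hy : IsRep n y w)
    {τ : L ≃ₐ[ℚ] L} (hτ : τ • x = x + y) :
    ∃ f : laurentBaseChange L F₀, lc f = 1 ∧ f ≠ 0 ∧
      arithmeticGalois F₀ τ • u = u * w * f ^ n := by
  have h1 := hx.galois τ
  rw [hτ] at h1
  obtain ⟨f, hf, h⟩ := (hx.mul hy).exists_mul_pow hinf h1
  refine ⟨f, hf, ?_, h⟩
  rintro rfl
  rw [lc] at hf
  simp at hf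

/-- Normalisation of a function with divisor `n • D`. -/
theorem isRep_normalise {D : Divisor.degZero (K := L) (F := laurentBaseChange L F₀)}
    {u0 : laurentBaseChange L F₀} (hu00 : u0 ≠ 0)
    (hu : ∀ v : Place L (laurentBaseChange L F₀), v.ord u0 = n * (D : Divisor L _) v) :
    IsRep n (Pic0.mk D) (algebraMap L (laurentBaseChange L F₀) (lc u0)⁻¹ * u0) := by
  have hl0 := lc_ne_zero hu00
  have hc0 : algebraMap L (laurentBaseChange L F₀) (lc u0)⁻¹ ≠ 0 := by
    rw [ne_eq, map_eq_zero]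
    exact inv_ne_zero hl0
  refine ⟨mul_ne_zero hc0 hu00, ?_, D, rfl, fun v => ?_⟩
  · rw [lc_mul, lc_algebraMap, inv_mul_cancel₀ hl0]
  · have hord1 : v.ord (algebraMap L (laurentBaseChange L F₀) (lc u0)⁻¹) = 0 := by
      have h1 := H94.ord_nonneg_of_mem v (v.algebraMap_mem' (lc u0)⁻¹)
      have h2 := H94.ord_nonneg_of_mem v (v.algebraMap_mem' ((lc u0)⁻¹)⁻¹)
      rw [map_inv₀, v.ord_inv] at h2
      omega
    rw [v.ord_mul hc0 hu00, hord1, hu, zero_add]

omit [IsAlgClosed L] [H3RR.IsFF L (laurentBaseChange L F₀)] in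
theorem galois_eq_of_const {u : laurentBaseChange L F₀} (hu : u ≠ 0) {σ : L ≃ₐ[ℚ] L} {c : L}
    (hc : arithmeticGalois F₀ σ • u = algebraMap L _ c * u) :
    arithmeticGalois F₀ σ • (algebraMap L (laurentBaseChange L F₀) (lc u)⁻¹ * u) =
      algebraMap L (laurentBaseChange L F₀) (lc u)⁻¹ * u := by
  have hl := lc_ne_zero hu
  have h1 := congrArg lc hc
  rw [lc_galois, lc_mul, lc_algebraMap] at h1
  have h3 : SemilinearAut.baseAut (arithmeticGalois F₀ σ) (lc u)⁻¹ = σ (lc u)⁻¹ := rfl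
  rw [smul_mul', hc, SemilinearAut.smul_algebraMap, h3, map_inv₀, h1, ← mul_assoc, ← map_mul]
  have hc0 : c ≠ 0 := by
    rintro rfl
    rw [zero_mul, map_eq_zero] at h1
    exact hl h1
  congr 2
  field_simp

/-- Divisor of degree zero of a function. -/
theorem exists_divZero {f : laurentBaseChange L F₀} (hf : f ≠ 0) :
    ∃ E : Divisor.degZero (K := L) (F := laurentBaseChange L F₀), Pic0.mk E = 0 ∧
      ∀ v : Place L (laurentBaseChange L F₀), (E : Divisor L _) v = v.ord f := by
  obtain ⟨E, hE, hdeg⟩ := HasPrincipalDivisors.exists_divisor (K := L) f hf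
  exact ⟨⟨E, hdeg⟩, mk_eq_zero_of_ord (D := ⟨E, hdeg⟩) hf (fun v => hE v), hE⟩

theorem exists_function_of_nsmul {D : Divisor.degZero (K := L) (F := laurentBaseChange L F₀)}
    (hx : n • Pic0.mk D = 0) : ∃ u0 : laurentBaseChange L F₀, u0 ≠ 0 ∧
      ∀ v : Place L (laurentBaseChange L F₀), v.ord u0 = n * (D : Divisor L _) v := by
  have h0 : Pic0.mk (0 : Divisor.degZero (K := L) (F := laurentBaseChange L F₀)) =
      Pic0.mk (n • D) := by
    have h1 : n • Pic0.mk D = Pic0.mk (n • D) := rfl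
    rw [← h1, hx]
    rfl
  obtain ⟨u0, hu00, hu0⟩ := exists_ord_of_mk_eq h0
  refine ⟨u0, hu00, fun v => ?_⟩
  have h := hu0 v
  have h1 : ((n • D : Divisor.degZero (K := L) (F := laurentBaseChange L F₀)) :
    Divisor L (laurentBaseChange L F₀)) v = n • ((D : Divisor L _) v) := rfl
  have h2 : ((0 : Divisor.degZero (K := L) (F := laurentBaseChange L F₀)) :
    Divisor L (laurentBaseChange L F₀)) v = 0 := rfl
  rw [h1, h2, zero_add, nsmul_eq_mul] at h
  exact h.symm

theorem mk_add_eq {D E : Divisor.degZero (K := L) (F := laurentBaseChange L F₀)}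
    (hE : Pic0.mk E = 0) : Pic0.mk (D + E) = Pic0.mk D := by
  have h1 : Pic0.mk (D + E) = Pic0.mk D + Pic0.mk E := rfl
  rw [h1, hE, add_zero]

theorem isRep_mul_pow_normalise {D : Divisor.degZero (K := L) (F := laurentBaseChange L F₀)}
    {u0 f : laurentBaseChange L F₀} (hu00 : u0 ≠ 0) (hf0 : f ≠ 0)
    (hu : ∀ v : Place L (laurentBaseChange L F₀), v.ord u0 = n * (D : Divisor L _) v) :
    IsRep n (Pic0.mk D) (algebraMap L (laurentBaseChange L F₀) (lc (u0 * f ^ n))⁻¹ *
      (u0 * f ^ n)) := by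
  have hfn : f ^ n ≠ 0 := pow_ne_zero _ hf0
  have hne : u0 * f ^ n ≠ 0 := mul_ne_zero hu00 hfn
  obtain ⟨E, hE0, hE⟩ := exists_divZero hf0
  have key := isRep_normalise (n := n) (D := D + E) hne fun v => by
    have h1 : ((D + E : Divisor.degZero (K := L) (F := laurentBaseChange L F₀)) :
      Divisor L (laurentBaseChange L F₀)) = (D : Divisor L _) + (E : Divisor L _) := rfl
    rw [v.ord_mul hu00 hfn, hu, h1, Finsupp.add_apply, ← zpow_natCast, v.ord_zpow, hE]
    ring
  rw [mk_add_eq hE0] at key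
  exact key

theorem exists_normalising (hinf : ∃ x ∈ F₀, x.order = 1)
    (D : Divisor.degZero (K := L) (F := laurentBaseChange L F₀))
    {u0 : laurentBaseChange L F₀} (hu00 : u0 ≠ 0)
    (hu : ∀ v : Place L (laurentBaseChange L F₀), v.ord u0 = n * (D : Divisor L _) v) :
    ∃ f : laurentBaseChange L F₀, f ≠ 0 ∧ ∀ (s : SemilinearAut L (laurentBaseChange L F₀)),
      s • infPlace L hinf = infPlace L hinf → s • Pic0.mk D = Pic0.mk D →
      ∃ c : L, s • (u0 * f ^ n) = algebraMap L _ c * (u0 * f ^ n) := by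
  have hrat : IsRational (infPlace L hinf) := isRational_of_isFF _
  have hPdeg : 0 < (infPlace L hinf).deg := by rw [deg_eq_one_of_isFF]; exact one_pos
  obtain ⟨m, f, hf0, hf, huniq⟩ := exists_unique_section hrat hPdeg D.2
    (exists_L_ne_bot (infPlace L hinf) (D : Divisor L _))
  refine ⟨f, hf0, fun s hs hsD => ?_⟩
  obtain ⟨g, hg0, hg⟩ := exists_function_of_smul_mk_eq hsD
  obtain ⟨c, -, hc⟩ := semilinear_invariant hrat hPdeg hf0 hf huniq hu00 hu s hs hg0 hg
  exact ⟨c, hc⟩

/-- **Invariant representatives.** Every `n`-torsion class has a normalised representative which is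
fixed by every automorphism fixing the class. -/
theorem exists_isRep (hinf : ∃ x ∈ F₀, x.order = 1) (hx : n • x = 0) :
    ∃ u : laurentBaseChange L F₀, IsRep n x u ∧
      ∀ σ : L ≃ₐ[ℚ] L, σ • x = x → arithmeticGalois F₀ σ • u = u := by
  obtain ⟨D, rfl⟩ := Pic0.mk_surjective x
  obtain ⟨u0, hu00, hu⟩ := exists_function_of_nsmul hx
  obtain ⟨f, hf0, hf⟩ := exists_normalising hinf D hu00 hu
  refine ⟨_, isRep_mul_pow_normalise hu00 hf0 hu, fun σ hσ => ?_⟩
  obtain ⟨c, hc⟩ := hf (arithmeticGalois F₀ σ) (smul_infPlace L hinf σ) hσ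
  exact galois_eq_of_const (mul_ne_zero hu00 (pow_ne_zero _ hf0)) hc

end Main

end Fermat.Agent.H40
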