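/-
H61L5A: from an eigenvector in the `p`-torsion of `J₀(N)` to an eigenform of level `N`.
-/
import Mathlib
import Fermat.Agent.H35Kill
import Fermat.Agent.H90Kappa
import Fermat.Agent.H71Lift
import Fermat.Agent.H44OldForm

set_option autoImplicit false
set_option linter.style.haveILetI false

noncomputable section

namespace Fermat.Agent.H61.L5

open CuspForm ModularCurve Fermat.Agent.H31 ModularFormClass CongruenceSubgroup

/-- Hecke relations on cusp forms of level `N` hold on the torsion of `J₀(N)`. -/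
theorem smul_eq_zero_of_evEnd {N : ℕ} [NeZero N] (S : Set ℕ) (P : MvPolynomial (GoodPrimes N S) ℤ)
    (hP : H35.evEnd N dvd_rfl S P = 0) :
    letI := heckeModuleBar N
    ∀ n : ℕ, n ≠ 0 → ∀ c : JZero N, n • c = 0 → inclHecke N S P • c = 0 := by
  letI := H90.algQbarC
  exact H35.smul_eq_zero_of_evEnd dvd_rfl S (fun n c χ hn h => h.isPE hn) P hP

/-- **From torsion eigenvectors to eigenforms.** -/
theorem exists_eigenform_of_torsion {N : ℕ} [NeZero N] {S : Finset ℕ}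
    (hNS : ∀ q : ℕ, q.Prime → q ∣ N → q ∈ S) {p : ℕ} (hp : p.Prime) (a : ℕ → ℤ) {x : JZero N}
    (hx0 : x ≠ 0) (hpx : p • x = 0)
    (hT : ∀ ℓ : Nat.Primes, (ℓ : ℕ) ∉ S → heckeOperatorBar N ℓ x = a ℓ • x) :
    ∃ (f : CuspForm (Gamma0 N) 2) (𝔪 : Ideal (integralClosure ℤ ℂ)),
      f.IsNormalizedEigenform ∧ 𝔪.IsMaximal ∧ (p : integralClosure ℤ ℂ) ∈ 𝔪 ∧
      ∀ ℓ : ℕ, ℓ.Prime → ℓ ∉ S → ∃ b : integralClosure ℤ ℂ, (b : ℂ) = qCoeff f ℓ ∧
        b - (a ℓ : integralClosure ℤ ℂ) ∈ 𝔪 := by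
  classical
  haveI : Fact p.Prime := ⟨hp⟩
  letI := heckeModuleBar N
  let R := MvPolynomial (GoodPrimes N (↑S : Set ℕ)) ℤ
  let ev : R →+* Module.End ℂ (CuspForm (Gamma0 N) 2) := H35.evEnd N dvd_rfl (↑S : Set ℕ)
  let ψ : R →+* ZMod p := MvPolynomial.eval₂Hom (Int.castRingHom (ZMod p)) (fun ℓ => (a ℓ.1 : ZMod p))
  -- the action on `x`
  have hact : ∀ P : R, ∃ z : ℤ, inclHecke N (↑S : Set ℕ) P • x = z • x ∧ (z : ZMod p) = ψ P := by
    intro P
    induction P using MvPolynomial.induction_on with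
    | C c =>
      have h1 : (MvPolynomial.C c : R) = (c : R) := by simp
      refine ⟨c, ?_, ?_⟩
      · rw [h1, map_intCast, Int.cast_smul_eq_zsmul]
      · rw [h1, map_intCast]
    | add P Q hP hQ =>
      obtain ⟨z, hz, hz'⟩ := hP
      obtain ⟨w, hw, hw'⟩ := hQ
      exact ⟨z + w, by rw [map_add, add_smul, hz, hw, add_zsmul], by
        rw [map_add, Int.cast_add, hz', hw']⟩
    | mul_X P ℓ hP =>
      obtain ⟨z, hz, hz'⟩ := hP
      refine ⟨z * a ℓ.1, ?_, ?_⟩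
      · have hgen : heckeGen ℓ.1 • x = heckeOperatorBar N ℓ.1 x :=
          heckeModuleBar_heckeGen_smul (H67.heckeOperatorsCommuteBar N) ℓ.1 x
        rw [map_mul, mul_smul, inclHecke_X, hgen, hT ℓ.1 (by simpa using ℓ.2.2), smul_comm,
          hz, smul_smul, mul_comm]
      · have h5 : ψ (MvPolynomial.X ℓ) = (a ℓ.1 : ZMod p) := MvPolynomial.eval₂Hom_X' _ _ _
        rw [map_mul, Int.cast_mul, hz']
        exact congrArg (ψ P * ·) h5.symm
  have hker : ∀ P : R, ev P = 0 → ψ P = 0 := by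
    intro P hP
    obtain ⟨z, hz, hz'⟩ := hact P
    have h1 := smul_eq_zero_of_evEnd (↑S : Set ℕ) P hP p hp.ne_zero x hpx
    rw [h1] at hz
    rw [← hz', ZMod.intCast_zmod_eq_zero_iff_dvd]
    by_contra hdvd
    have hcop : IsCoprime z (p : ℤ) := by
      rw [Int.isCoprime_iff_gcd_eq_one]
      have := (Nat.Prime.coprime_iff_not_dvd hp).mpr (fun h => hdvd (Int.natCast_dvd.mpr h))
      exact (Nat.Coprime.symm this : Nat.Coprime z.natAbs p)
    obtain ⟨u, v, huv⟩ := hcop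
    apply hx0
    have hpx' : (p : ℤ) • x = 0 := by rw [natCast_zsmul]; exact hpx
    calc x = (u * z + v * p : ℤ) • x := by rw [huv, one_zsmul]
      _ = 0 := by rw [add_zsmul, mul_zsmul, mul_zsmul, ← hz, hpx', zsmul_zero, zsmul_zero, add_zero]
  -- the quotient ring
  let T := R ⧸ RingHom.ker ev
  let φ : T →+* Module.End ℂ (CuspForm (Gamma0 N) 2) := RingHom.kerLift ev
  have hφ : Function.Injective φ := RingHom.kerLift_injective ev
  have hfinH : Module.Finite ℤ (heckeAlgebra N 2 (↑S : Set ℕ)) :=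
    H23.moduleFinite_heckeAlgebra N 2 (↑S : Set ℕ)
  have hfinT : Module.Finite ℤ T := by
    have hmem : ∀ t : T, φ t ∈ heckeAlgebra N 2 (↑S : Set ℕ) := by
      intro t
      obtain ⟨P, rfl⟩ := Ideal.Quotient.mk_surjective t
      exact (evHecke N (↑S : Set ℕ) (H35.renameGood dvd_rfl subset_rfl P)).2
    let φ' : T →ₗ[ℤ] heckeAlgebra N 2 (↑S : Set ℕ) :=
      { toFun := fun t => ⟨φ t, hmem t⟩
        map_add' := fun s t => Subtype.ext (map_add φ s t)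
        map_smul' := fun c t => Subtype.ext (by
          show φ (c • t) = c • φ t
          exact map_zsmul φ c t) }
    exact Module.Finite.of_injective φ' (fun s t h => hφ (congrArg Subtype.val h))
  haveI : FiniteDimensional ℂ (CuspForm (Gamma0 N) 2) := H49.finiteDimensional_cuspForm N 2
  let ψ' : T →+* ZMod p := Ideal.Quotient.lift _ ψ (fun P hP => hker P hP)
  obtain ⟨χ, v, 𝔪, hv, h𝔪, hχ, hI⟩ := H71.exists_eigenvector_lift φ hφ (RingHom.ker ψ')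
    (RingHom.ker_ne_top ψ')
  -- good primes
  have hgood : ∀ {ℓ : ℕ} (hℓ : ℓ.Prime) (hℓS : ℓ ∉ S), ¬ ℓ ∣ N ∧ ℓ ∉ (↑S : Set ℕ) :=
    fun hℓ hℓS => ⟨fun h => hℓS (hNS _ hℓ h), by simpa using hℓS⟩
  let g : ∀ {ℓ : ℕ} (_ : ℓ.Prime) (_ : ℓ ∉ S), GoodPrimes N (↑S : Set ℕ) :=
    fun {ℓ} hℓ hℓS => ⟨⟨ℓ, hℓ⟩, hgood hℓ hℓS⟩
  let lam : ℕ → ℂ := fun ℓ =>
    if h : ℓ.Prime ∧ ℓ ∉ S then (χ (Ideal.Quotient.mk _ (MvPolynomial.X (g h.1 h.2))) : ℂ) else 0
  have hNpos : 0 < N := Nat.pos_of_ne_zero (NeZero.ne N)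
  let N₁ : ℕ := N * ∏ q ∈ S with q.Prime, q
  have hN₁ : ∀ ℓ : ℕ, ℓ.Prime → (ℓ ∣ N₁ ↔ ℓ ∈ S) := by
    intro ℓ hℓ
    constructor
    · intro h
      rcases hℓ.dvd_mul.mp h with h | h
      · exact hNS ℓ hℓ h
      · obtain ⟨q, hq, hqℓ⟩ := (Nat.Prime.prime hℓ).exists_mem_finset_dvd h
        rw [Finset.mem_filter] at hq
        rw [(Nat.prime_dvd_prime_iff_eq hℓ hq.2).mp hqℓ]
        exact hq.1
    · intro h
      exact (Finset.dvd_prod_of_mem _ (Finset.mem_filter.mpr ⟨h, hℓ⟩)).mul_left N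
  obtain ⟨f, hf, hfl⟩ := H44.exists_normalizedEigenform_of_partial (Dvd.intro _ rfl : N ∣ N₁) v hv lam
    (by
      intro ℓ hℓ hℓN₁ hℓN
      have hℓS : ℓ ∉ S := fun h => hℓN₁ ((hN₁ ℓ hℓ).mpr h)
      have h1 := hχ (Ideal.Quotient.mk _ (MvPolynomial.X (g hℓ hℓS)))
      have h2 : φ (Ideal.Quotient.mk _ (MvPolynomial.X (g hℓ hℓS))) =
          CuspForm.heckeTLin 2 hℓ hℓN := H35.evEnd_X N dvd_rfl (↑S : Set ℕ) (g hℓ hℓS)
      rw [h2] at h1
      rw [h1]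
      simp only [lam]
      rw [dif_pos ⟨hℓ, hℓS⟩])
  refine ⟨f, 𝔪, hf, h𝔪, ?_, ?_⟩
  · have h1 : ((p : ℕ) : T) ∈ RingHom.ker ψ' := by
      rw [RingHom.mem_ker, map_natCast, ZMod.natCast_self]
    have h2 := hI _ h1
    rwa [map_natCast] at h2
  · intro ℓ hℓ hℓS
    refine ⟨χ (Ideal.Quotient.mk _ (MvPolynomial.X (g hℓ hℓS))), ?_, ?_⟩
    · rw [hfl ℓ hℓ (fun h => hℓS ((hN₁ ℓ hℓ).mp h))]
      simp only [lam]
      rw [dif_pos ⟨hℓ, hℓS⟩]
    · have h1 : (Ideal.Quotient.mk _ (MvPolynomial.X (g hℓ hℓS)) - ((a ℓ : ℤ) : T)) ∈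
          RingHom.ker ψ' := by
        rw [RingHom.mem_ker, map_sub, map_intCast, sub_eq_zero]
        exact MvPolynomial.eval₂Hom_X' _ _ _
      have h2 := hI _ h1
      rwa [map_sub, map_intCast] at h2

end Fermat.Agent.H61.L5
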