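/-
H61L5B: choice of an eigenspace of the Atkin--Lehner involution on a copy of `E[p]` in `J₀(Mp)`;
pull back to auxiliary levels.
-/
import Mathlib
import Fermat.Agent.H39Real2
import Fermat.Agent.H67J
import Fermat.Agent.H61L5A

set_option autoImplicit false
set_option linter.style.haveILetI false

noncomputable section

namespace Fermat.Agent.H61.L5

open CuspForm ModularCurve Fermat.Agent.H31 ModularFormClass CongruenceSubgroup WeierstrassCurve
open Fermat.Agent.H39 (Tor GQb)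
open Fermat.Agent.H67 (degPush degPull wJ cdeg)

/-! ### Group theory -/

theorem injective_of_exists_ne_zero {W : WeierstrassCurve ℤ} {p : ℕ}
    (hirr : W.ModRepIsIrreducible p) {J : Type*} [AddCommGroup J] [DistribMulAction GQb J]
    (ι : Tor W p →+ J) (hι : ∀ (σ : GQb) (x : Tor W p), ι (σ • x) = σ • ι x)
    (h0 : ∃ x, ι x ≠ 0) : Function.Injective ι := by
  rw [injective_iff_map_eq_zero]
  rcases hirr.2 (AddSubgroup.toZModSubmodule p ι.ker) (fun σ x hx => by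
    have hx' : ι x = 0 := hx
    show ι (σ • x) = 0
    rw [hι, hx', smul_zero]) with h | h
  · intro x hx
    have h1 : x ∈ AddSubgroup.toZModSubmodule p ι.ker := hx
    rw [h] at h1
    exact (Submodule.mem_bot _).mp h1
  · obtain ⟨x, hx⟩ := h0
    have h1 : x ∈ AddSubgroup.toZModSubmodule p ι.ker := by
      rw [h]; exact Submodule.mem_top
    exact absurd h1 hx

theorem nsmul_tor {W : WeierstrassCurve ℤ} {p : ℕ} (x : Tor W p) : p • x = 0 := by
  have h1 : (p : ℤ) • x = 0 := Submodule.smul_torsionBy _ x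
  rwa [natCast_zsmul] at h1

theorem eq_zero_of_coprime {J : Type*} [AddCommGroup J] {p : ℕ} {x : J} (hpx : p • x = 0) {k : ℤ}
    (hk : IsCoprime k p) (h : k • x = 0) : x = 0 := by
  obtain ⟨u, v, huv⟩ := hk
  have hpx' : (p : ℤ) • x = 0 := by rw [natCast_zsmul]; exact hpx
  calc x = (u * k + v * p : ℤ) • x := by rw [huv, one_zsmul]
    _ = 0 := by rw [add_zsmul, mul_zsmul, mul_zsmul, h, hpx', zsmul_zero, zsmul_zero, add_zero]

theorem gal_zsmul {J : Type*} [AddCommGroup J] [DistribMulAction GQb J] (σ : GQb) (k : ℤ) (y : J) :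
    σ • (k • y) = k • (σ • y) := map_zsmul (DistribSMul.toAddMonoidHom J σ) k y

theorem isCoprime_of_not_dvd {p : ℕ} (hp : p.Prime) {k : ℕ} (hk : ¬ p ∣ k) :
    IsCoprime (k : ℤ) (p : ℤ) := by
  rw [Nat.isCoprime_iff_coprime]
  exact ((Nat.Prime.coprime_iff_not_dvd hp).mpr hk).symm

/-! ### The data -/

/-- A Galois equivariant embedding of `E[p]` in `J₀(Mp)`, `p ∤ M`, on which `T_ℓ` acts by
`a_ℓ(E)` for `ℓ ∉ S`, `w_p` acts by `ε = ± 1` and `U_p` by `-ε`. -/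
structure NewEmb (W : WeierstrassCurve ℤ) (p : Nat.Primes) (M : ℕ) [NeZero (M * p)] (S : Set ℕ) where
  /-- `p ∤ M` -/
  hc : M.Coprime p
  /-- the embedding -/
  ι : Tor W p →+ JZero (M * p)
  inj : Function.Injective ι
  galois : ∀ (σ : GQb) (x : Tor W p), ι (σ • x) = σ • ι x
  hecke : ∀ ℓ : Nat.Primes, (ℓ : ℕ) ∉ S → ∀ x : Tor W p,
    heckeOperatorBar (M * p) ℓ (ι x) = W.apOfModel (ℓ : ℕ) • ι x
  /-- the sign -/
  ε : ℤ
  hε : ε = 1 ∨ ε = -1
  w : ∀ x, wJ M p rfl hc (ι x) = ε • ι x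
  U : ∀ x, heckeOperatorBar (M * p) p (ι x) = (-ε) • ι x

namespace NewEmb

variable {W : WeierstrassCurve ℤ} {p : Nat.Primes} {M : ℕ} [NeZero M] [NeZero (M * p)]
  [NeZero (p : ℕ)] {S : Set ℕ}

omit [NeZero M] [NeZero (p : ℕ)] in
theorem nsmul_ι (E : NewEmb W p M S) (x : Tor W p) : (p : ℕ) • E.ι x = 0 := by
  rw [← map_nsmul, nsmul_tor, map_zero]

/-- `α_* = 0` on the image. -/
theorem push_one (E : NewEmb W p M S) (h1 : M * 1 ∣ M * p) (x : Tor W p) :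
    degPush 1 h1 (E.ι x) = 0 := by
  have hpM : ¬ (p : ℕ) ∣ M := (Nat.Prime.coprime_iff_not_dvd p.2).mp E.hc.symm
  have h2 : M * p ∣ M * p := dvd_rfl
  have e1 := H67.heckeOperatorBar_add_wJ p hpM E.hc h1 h2 (E.ι x)
  rw [E.U, E.w, ← add_zsmul, neg_add_cancel, zero_zsmul] at e1
  have e2 := H67.degPush_q_degPull_q p h2 (degPush 1 h1 (E.ι x))
  rw [← e1, map_zero] at e2
  refine eq_zero_of_coprime (p := p) ?_ (isCoprime_of_not_dvd p.2 ?_) e2.symm
  · rw [← map_nsmul, E.nsmul_ι, map_zero]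
  · rw [cdeg, if_neg hpM]
    intro h
    have h3 := (Nat.dvd_add_right (dvd_refl (p : ℕ))).mp h
    exact p.2.one_lt.ne' (Nat.dvd_one.mp h3)

/-- `β_* = 0` on the image. -/
theorem push_p (E : NewEmb W p M S) (h2 : M * p ∣ M * p) (x : Tor W p) :
    degPush (p : ℕ) h2 (E.ι x) = 0 := by
  have h1 : M * 1 ∣ M * p := mul_dvd_mul_left _ (one_dvd _)
  rw [← H67.degPush_one_wJ rfl E.hc h1 h2, E.w, map_zsmul, E.push_one, zsmul_zero]

/-! ### Pulling back to a higher level -/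

section PullBack

theorem degPull_hecke' {R N q : ℕ} [NeZero R] [NeZero N] (hN : N = R * q) (hq : q.Prime)
    (h : R * 1 ∣ N) (r : Nat.Primes) (hr : (r : ℕ) ≠ q) (x : JZero R) :
    degPull 1 h (heckeOperatorBar R r x) = heckeOperatorBar N r (degPull 1 h x) := by
  subst hN
  exact H67.degPull_hecke hq (Or.inl rfl) h r hr x

theorem degPull_wJ {R A Q R' A' : ℕ} [NeZero R] [NeZero R'] (hR : R = A * Q) (hc : A.Coprime Q)
    (hR' : R' = A' * Q) (hc' : A'.Coprime Q) (hA : A ∣ A') (h : R * 1 ∣ R') (x : JZero R) :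
    wJ A' Q hR' hc' (degPull 1 h x) = degPull 1 h (wJ A Q hR hc x) := by
  have hW := H67.isAL_atkin (L := AlgebraicClosure ℚ) H67.embQbar A Q hR hc
  have hW' := H67.isAL_atkin (L := AlgebraicClosure ℚ) H67.embQbar A' Q hR' hc'
  have e1 := hW.comp_dg hR hc hR' hc' hW' (d := 1) (by rwa [mul_one]) h
  unfold wJ degPull
  rw [← hW'.pullP_eq hR' hc', ← hW.pullP_eq hR hc, ← H67.pullP_comp, e1, H67.pullP_comp]

theorem degPull_injOn {R N q : ℕ} [NeZero R] [NeZero N] (hN : N = R * q) (hq : q.Prime)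
    (h : R * 1 ∣ N) {p : ℕ} (hp : p.Prime) (hcd : ¬ p ∣ cdeg R q) {x : JZero R} (hx : p • x = 0)
    (h0 : degPull 1 h x = 0) : x = 0 := by
  have e1 := H67.degPush_degPull 1 h x
  rw [h0, map_zero, H67.finrank_dg_prime H67.embQbar hq 1 h hN] at e1
  exact eq_zero_of_coprime hx (isCoprime_of_not_dvd hp hcd) e1.symm

/-- Enlarge `S`. -/
def mono {p : Nat.Primes} {M : ℕ} [NeZero (M * p)] {S T : Set ℕ} (hST : S ⊆ T)
    (E : NewEmb W p M S) : NewEmb W p M T where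
  hc := E.hc
  ι := E.ι
  inj := E.inj
  galois := E.galois
  hecke ℓ hℓ x := E.hecke ℓ (fun h => hℓ (hST h)) x
  ε := E.ε
  hε := E.hε
  w := E.w
  U := E.U

/-- Pull back from level `Mp` to level `M'p`, `M' = Mq`. -/
def pullBack (E : NewEmb W p M S) {M' q : ℕ} [NeZero (M' * p)] (hM' : M' = M * q)
    (hq : q.Prime) (hqp : q ≠ p) (hqS : q ∈ S) (hcd : ¬ (p : ℕ) ∣ cdeg (M * p) q)
    (h : M * p * 1 ∣ M' * p) : NewEmb W p M' S :=
  have hN : M' * p = M * p * q := by rw [hM']; ring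
  have hc' : M'.Coprime p := by
    rw [hM']
    exact Nat.Coprime.mul_left E.hc ((Nat.coprime_primes hq p.2).mpr hqp)
  { hc := hc'
    ι := (degPull 1 h).comp E.ι
    inj := by
      rw [injective_iff_map_eq_zero]
      intro x hx
      have h1 := degPull_injOn hN hq h p.2 hcd (E.nsmul_ι x) hx
      exact (injective_iff_map_eq_zero E.ι).mp E.inj x h1
    galois := by
      intro σ x
      rw [AddMonoidHom.comp_apply, AddMonoidHom.comp_apply, E.galois, H67.degPull_galois]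
    hecke := by
      intro ℓ hℓ x
      rw [AddMonoidHom.comp_apply, ← degPull_hecke' hN hq h ℓ (fun h => hℓ (h ▸ hqS)), E.hecke ℓ hℓ,
        map_zsmul]
    ε := E.ε
    hε := E.hε
    w := by
      intro x
      rw [AddMonoidHom.comp_apply, degPull_wJ rfl E.hc rfl hc' (by rw [hM']; exact dvd_mul_right _ _) h,
        E.w, map_zsmul]
    U := by
      intro x
      rw [AddMonoidHom.comp_apply, ← degPull_hecke' hN hq h p hqp.symm, E.U, map_zsmul] }

theorem not_dvd_cdeg_two {p : ℕ} (hp5 : 5 ≤ p) (M : ℕ) : ¬ p ∣ cdeg M 2 := by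
  intro h
  rw [cdeg] at h
  have h3 : p ≤ 3 := by
    split_ifs at h with h4
    · exact (Nat.le_of_dvd (by norm_num) h).trans (by norm_num)
    · exact Nat.le_of_dvd (by norm_num) h
  omega

/-- Pull back from level `Mp` to level `2^(k+1) M p`. -/
theorem exists_two_pow (E : NewEmb W p M S) (hp5 : 5 ≤ (p : ℕ)) (k : ℕ) :
    ∀ [NeZero (M * 2 ^ (k + 1) * p)] (h : M * p * 1 ∣ M * 2 ^ (k + 1) * p),
      ∃ E' : NewEmb W p (M * 2 ^ (k + 1)) (S ∪ {2}), E'.ε = E.ε ∧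
        ∀ x, E'.ι x = degPull 1 h (E.ι x) := by
  induction k with
  | zero =>
    intro _ h
    exact ⟨(E.mono (Set.subset_union_left (t := {2}))).pullBack (q := 2) (by ring) Nat.prime_two
      (by omega) (Or.inr rfl) (not_dvd_cdeg_two hp5 _) h, rfl, fun x => rfl⟩
  | succ k ih =>
    intro _ h
    haveI : NeZero (M * 2 ^ (k + 1)) := ⟨mul_ne_zero (NeZero.ne M) (by positivity)⟩
    haveI : NeZero (M * 2 ^ (k + 1) * p) := ⟨mul_ne_zero (NeZero.ne _) (NeZero.ne _)⟩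
    have h1 : M * p * 1 ∣ M * 2 ^ (k + 1) * p := ⟨2 ^ (k + 1), by ring⟩
    have h2 : M * 2 ^ (k + 1) * p * 1 ∣ M * 2 ^ (k + 1 + 1) * p := ⟨2, by ring⟩
    obtain ⟨E', hε, hι⟩ := ih h1
    refine ⟨E'.pullBack (q := 2) (by ring) Nat.prime_two (by omega) (Or.inr rfl)
      (not_dvd_cdeg_two hp5 _) h2, hε, fun x => ?_⟩
    show degPull 1 h2 (E'.ι x) = _
    rw [hι, H67.degPull_degPull 1 1 1 h1 h2 h (one_mul 1)]

end PullBack

end NewEmb

/-! ### The dichotomy -/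

/-- A copy of `E[p]` in `J₀(Mp)` is either `p`-new in the strong sense of `NewEmb`, after changing
the embedding, or the system of eigenvalues occurs at level `M`. -/
theorem exists_newEmb_or {W : WeierstrassCurve ℤ} {p : Nat.Primes} {M : ℕ} [NeZero M]
    [NeZero (M * p)] [NeZero (p : ℕ)] {S : Finset ℕ} (hp2 : (p : ℕ) ≠ 2) (hpM : ¬ (p : ℕ) ∣ M)
    (hpS : (p : ℕ) ∈ S) (hMS : ∀ q : ℕ, q.Prime → q ∣ M → q ∈ S)
    (hirr : W.ModRepIsIrreducible p)
    (ι : Tor W p →+ JZero (M * p)) (hinj : Function.Injective ι)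
    (hgal : ∀ (σ : GQb) (x : Tor W p), ι (σ • x) = σ • ι x)
    (hT : ∀ (ℓ : Nat.Primes), (ℓ : ℕ) ∉ S → ∀ (x : Tor W p),
        heckeOperatorBar (M * p) ℓ (ι x) = W.apOfModel (ℓ : ℕ) • ι x) :
    (∃ (f : CuspForm (Gamma0 M) 2) (𝔪 : Ideal (integralClosure ℤ ℂ)),
      f.IsNormalizedEigenform ∧ 𝔪.IsMaximal ∧ ((p : ℕ) : integralClosure ℤ ℂ) ∈ 𝔪 ∧
      ∀ ℓ : ℕ, ℓ.Prime → ℓ ∉ S → ∃ b : integralClosure ℤ ℂ, (b : ℂ) = qCoeff f ℓ ∧
        b - ((W.apOfModel ℓ : ℤ) : integralClosure ℤ ℂ) ∈ 𝔪) ∨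
    Nonempty (NewEmb W p M (↑S : Set ℕ)) := by
  have hc : M.Coprime p := ((Nat.Prime.coprime_iff_not_dvd p.2).mpr hpM).symm
  have h1 : M * 1 ∣ M * p := mul_dvd_mul_left _ (one_dvd _)
  have h2 : M * p ∣ M * p := dvd_rfl
  have hpι : ∀ x, (p : ℕ) • ι x = 0 := fun x => by rw [← map_nsmul, nsmul_tor, map_zero]
  by_cases hex : ∃ y : JZero (M * p), (p : ℕ) • y = 0 ∧
      (∀ ℓ : Nat.Primes, (ℓ : ℕ) ∉ S → heckeOperatorBar (M * p) ℓ y = W.apOfModel (ℓ : ℕ) • y) ∧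
      degPush 1 h1 y ≠ 0
  · left
    obtain ⟨y, hpy, hTy, hy0⟩ := hex
    refine exists_eigenform_of_torsion hMS p.2 (fun ℓ => W.apOfModel ℓ) hy0 ?_ ?_
    · rw [← map_nsmul, hpy, map_zero]
    · intro ℓ hℓ
      rw [← H67.degPush_hecke p.2 (Or.inl rfl) h1 ℓ (fun h => hℓ (h ▸ hpS)), hTy ℓ hℓ, map_zsmul]
  · right
    push Not at hex
    -- both degeneracies vanish
    have hw : ∀ x (ℓ : Nat.Primes), (ℓ : ℕ) ∉ S →
        heckeOperatorBar (M * p) ℓ (wJ M p rfl hc (ι x)) = W.apOfModel (ℓ : ℕ) • wJ M p rfl hc (ι x) := by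
      intro x ℓ hℓ
      rw [← H67.wJ_hecke rfl hc ℓ ((Nat.coprime_primes ℓ.2 p.2).mpr (fun h => hℓ (h ▸ hpS))),
        hT ℓ hℓ, map_zsmul]
    have hpw : ∀ x, (p : ℕ) • wJ M p rfl hc (ι x) = 0 := fun x => by
      rw [← map_nsmul, hpι, map_zero]
    have hA : ∀ x, degPush 1 h1 (ι x) = 0 := fun x => hex (ι x) (hpι x) (fun ℓ hℓ => hT ℓ hℓ x)
    have hB : ∀ x, degPush 1 h1 (wJ M p rfl hc (ι x)) = 0 := fun x => hex _ (hpw x) (hw x)
    -- the candidates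
    have key : ∀ ε : ℤ, (ε = 1 ∨ ε = -1) → (∃ x, wJ M p rfl hc (ι x) + ε • ι x ≠ 0) →
        Nonempty (NewEmb W p M (↑S : Set ℕ)) := by
      intro ε hε hne
      have hεε : ε * ε = 1 := by rcases hε with rfl | rfl <;> norm_num
      let ι' : Tor W p →+ JZero (M * p) := (wJ M p rfl hc).comp ι + ε • ι
      have hι' : ∀ x, ι' x = wJ M p rfl hc (ι x) + ε • ι x := fun x => rfl
      have hgal' : ∀ (σ : GQb) (x : Tor W p), ι' (σ • x) = σ • ι' x := by
        intro σ x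
        rw [hι', hι', hgal, H67.wJ_galois, smul_add, gal_zsmul]
      have hw' : ∀ x, wJ M p rfl hc (ι' x) = ε • ι' x := by
        intro x
        rw [hι', map_add, map_zsmul, H67.wJ_wJ, zsmul_add, ← mul_zsmul, hεε, one_zsmul, add_comm]
      have hA' : ∀ x, degPush 1 h1 (ι' x) = 0 := by
        intro x
        rw [hι', map_add, map_zsmul, hA, hB, zsmul_zero, add_zero]
      refine ⟨{
        hc := hc
        ι := ι'
        inj := injective_of_exists_ne_zero hirr ι' hgal' hne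
        galois := hgal'
        hecke := ?_
        ε := ε
        hε := hε
        w := hw'
        U := ?_ }⟩
      · intro ℓ hℓ x
        have hℓ' : (ℓ : ℕ) ∉ S := by simpa using hℓ
        rw [hι', map_add, map_zsmul, hT ℓ hℓ', hw x ℓ hℓ', zsmul_add, zsmul_comm]
      · intro x
        have e1 := H67.heckeOperatorBar_add_wJ p hpM hc h1 h2 (ι' x)
        rw [hA', map_zero, hw'] at e1
        rw [neg_zsmul]
        exact eq_neg_of_add_eq_zero_left e1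
    by_cases hne : ∃ x, wJ M p rfl hc (ι x) + (1 : ℤ) • ι x ≠ 0
    · exact key 1 (Or.inl rfl) hne
    · refine key (-1) (Or.inr rfl) ?_
      push Not at hne
      haveI := hirr.1
      obtain ⟨x, hx⟩ := exists_ne (0 : Tor W p)
      refine ⟨x, fun h => ?_⟩
      have e1 := hne x
      have e2 : (2 : ℤ) • ι x = 0 := by
        rw [one_zsmul] at e1
        rw [neg_zsmul, one_zsmul, ← sub_eq_add_neg, sub_eq_zero] at h
        rw [h] at e1
        rw [two_zsmul]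
        exact e1
      have e3 : ι x = 0 := by
        refine eq_zero_of_coprime (hpι x) (k := (2 : ℕ)) (isCoprime_of_not_dvd p.2 ?_) e2
        intro h
        exact hp2 ((Nat.prime_dvd_prime_iff_eq p.2 Nat.prime_two).mp h)
      exact hx ((injective_iff_map_eq_zero ι).mp hinj x e3)

/-- The same from an eigenform. -/
theorem exists_newEmb_or_of_eigenform {W : WeierstrassCurve ℤ} {p : Nat.Primes} {M : ℕ} [NeZero M]
    [NeZero (M * p)] [NeZero (p : ℕ)] (hJ : H30.JZeroInputs (M * p))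
    {S : Finset ℕ} (hp2 : (p : ℕ) ≠ 2) (hpM : ¬ (p : ℕ) ∣ M)
    (hpS : (p : ℕ) ∈ S) (hMS : ∀ q : ℕ, q.Prime → q ∣ M → q ∈ S) (hΔ : W.Δ ≠ 0)
    (hΔS : ∀ q : ℕ, q.Prime → (q : ℤ) ∣ W.Δ → q ∈ S)
    (hirr : W.ModRepIsIrreducible p)
    {f : CuspForm (Gamma0 (M * p)) 2} (hf : f.IsNormalizedEigenform)
    {𝔪 : Ideal (integralClosure ℤ ℂ)} (h𝔪 : 𝔪.IsMaximal)
    (hp𝔪 : ((p : ℕ) : integralClosure ℤ ℂ) ∈ 𝔪)
    (hcong : ∀ ℓ : ℕ, ℓ.Prime → ℓ ∉ S →
      ∃ a : integralClosure ℤ ℂ, (a : ℂ) = qCoeff f ℓ ∧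
        a - ((W.apOfModel ℓ : ℤ) : integralClosure ℤ ℂ) ∈ 𝔪) :
    (∃ (f : CuspForm (Gamma0 M) 2) (𝔪 : Ideal (integralClosure ℤ ℂ)),
      f.IsNormalizedEigenform ∧ 𝔪.IsMaximal ∧ ((p : ℕ) : integralClosure ℤ ℂ) ∈ 𝔪 ∧
      ∀ ℓ : ℕ, ℓ.Prime → ℓ ∉ S → ∃ b : integralClosure ℤ ℂ, (b : ℂ) = qCoeff f ℓ ∧
        b - ((W.apOfModel ℓ : ℤ) : integralClosure ℤ ℂ) ∈ 𝔪) ∨
    Nonempty (NewEmb W p M (↑S : Set ℕ)) := by
  haveI : Fact (p : ℕ).Prime := ⟨p.2⟩
  have hNS : ∀ q : ℕ, q.Prime → q ∣ M * p → q ∈ S := by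
    intro q hq h
    rcases hq.dvd_mul.mp h with h | h
    · exact hMS q hq h
    · rw [(Nat.prime_dvd_prime_iff_eq hq p.2).mp h]; exact hpS
  obtain ⟨ι, h1, h2, h3⟩ := H39.exists_embedding_JZero hJ (H67.heckeOperatorsCommuteBar _) hp2 hpS hNS
    hΔ hΔS hirr hf h𝔪 hp𝔪 hcong
  exact exists_newEmb_or hp2 hpM hpS hMS hirr ι h1 h2 h3

end Fermat.Agent.H61.L5
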