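/-
H61L5C: the dichotomy for Frey packages.
-/
import Mathlib
import Fermat.Agent.H61L5B
import Fermat.Agent.H31Inputs
import Fermat.Agent.H62NE
import Fermat.Prelude.Def_FreyPackage_IsConductorLevel

set_option autoImplicit false
set_option linter.style.haveILetI false

noncomputable section

namespace Fermat.Agent.H61.L5

open CuspForm ModularCurve Fermat.Agent.H31 ModularFormClass CongruenceSubgroup WeierstrassCurve
open WeierstrassCurve.Affine.Point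
open Fermat.Agent.H39 (Tor GQb)
open Fermat.Agent.H67 (degPush degPull wJ cdeg)

/-- An auxiliary level divisible by `4`. -/
theorem NewEmb.exists_aux {W : WeierstrassCurve ℤ} {p : Nat.Primes} {M₀ : ℕ} [NeZero M₀]
    [NeZero (M₀ * p)] [NeZero (p : ℕ)] {S : Set ℕ} (E : NewEmb W p M₀ S) (hp5 : 5 ≤ (p : ℕ)) :
    ∃ M : ℕ, M₀ ∣ M ∧ 4 ∣ M ∧ M ∣ 4 * M₀ ∧ ¬ (p : ℕ) ∣ M ∧ ∃ (_ : NeZero M) (_ : NeZero (M * p))
      (h : M₀ * p * 1 ∣ M * p) (E' : NewEmb W p M (S ∪ {2})), E'.ε = E.ε ∧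
        ∀ x, E'.ι x = degPull 1 h (E.ι x) := by
  have hp : (p : ℕ) ≠ 0 := NeZero.ne _
  have hM₀ : M₀ ≠ 0 := NeZero.ne _
  have key : ∀ k : ℕ, 4 ∣ M₀ * 2 ^ (k + 1) → M₀ * 2 ^ (k + 1) ∣ 4 * M₀ →
    ∃ M : ℕ, M₀ ∣ M ∧ 4 ∣ M ∧ M ∣ 4 * M₀ ∧ ¬ (p : ℕ) ∣ M ∧ ∃ (_ : NeZero M) (_ : NeZero (M * p))
      (h : M₀ * p * 1 ∣ M * p) (E' : NewEmb W p M (S ∪ {2})), E'.ε = E.ε ∧
        ∀ x, E'.ι x = degPull 1 h (E.ι x) := by
    intro k h4 h4'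
    have hM : M₀ * 2 ^ (k + 1) ≠ 0 := mul_ne_zero hM₀ (by positivity)
    haveI : NeZero (M₀ * 2 ^ (k + 1)) := ⟨hM⟩
    haveI : NeZero (M₀ * 2 ^ (k + 1) * p) := ⟨mul_ne_zero hM hp⟩
    have h : M₀ * p * 1 ∣ M₀ * 2 ^ (k + 1) * p := ⟨2 ^ (k + 1), by ring⟩
    obtain ⟨E', h1, h2⟩ := E.exists_two_pow hp5 k h
    exact ⟨M₀ * 2 ^ (k + 1), dvd_mul_right _ _, h4, h4',
      (Nat.Prime.coprime_iff_not_dvd p.2).mp E'.hc.symm, inferInstance, inferInstance, h, E', h1, h2⟩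
  by_cases h2 : 2 ∣ M₀
  · refine key 0 ?_ ⟨2, by ring⟩
    obtain ⟨m, rfl⟩ := h2
    exact ⟨m, by ring⟩
  · exact key 1 ⟨M₀, by ring⟩ ⟨1, by ring⟩

/-- **[L5]**: the dichotomy for Frey packages. -/
theorem frey_dichotomy (P : FreyPackage) {M : ℕ} [NeZero M] [NeZero (M * P.p)] [NeZero P.p]
    (hpM : ¬ P.p ∣ M)
    (hirr : GaloisRepIsIrreducible (K := AlgebraicClosure ℚ) ℚ P.freyCurve P.p)
    (hmod : P.ModularRepOfLevel (M * P.p)) :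
    P.ModularRepOfLevel M ∨ ∃ (W : WeierstrassCurve ℤ) (S : Finset ℕ),
      W.IsIntegralModelOf P.freyCurve ∧ W.Δ ≠ 0 ∧ W.ModRepIsIrreducible P.p ∧
      (∀ q : ℕ, q.Prime → (q ∈ S ↔ q ∣ M ∨ q = P.p ∨ (q : ℤ) ∣ W.Δ)) ∧
      Nonempty (NewEmb W ⟨P.p, P.pp⟩ M (↑S : Set ℕ)) := by
  obtain ⟨f, W, 𝔪, hf, hW, h𝔪, hp𝔪, hcong⟩ := hmod
  have hΔ0 : P.freyCurve.Δ ≠ 0 := H42.freyCurve_Δ_ne_zero P
  have hΔ : W.Δ ≠ 0 := H62.Δ_ne_zero_of_isIntegralModelOf hΔ0 hW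
  have hirrW : W.ModRepIsIrreducible P.p := H62.modRepIsIrreducible_of_isIntegralModelOf hW hirr
  let p : Nat.Primes := ⟨P.p, P.pp⟩
  haveI : NeZero ((p : ℕ)) := inferInstanceAs (NeZero P.p)
  haveI : NeZero (M * (p : ℕ)) := inferInstanceAs (NeZero (M * P.p))
  let S : Finset ℕ := (M * P.p * W.Δ.natAbs).primeFactors
  have hne : M * P.p * W.Δ.natAbs ≠ 0 := mul_ne_zero (NeZero.ne _) (Int.natAbs_ne_zero.mpr hΔ)
  have hS : ∀ q : ℕ, q.Prime → (q ∈ S ↔ q ∣ M ∨ q = P.p ∨ (q : ℤ) ∣ W.Δ) := by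
    intro q hq
    rw [Nat.mem_primeFactors_of_ne_zero hne]
    constructor
    · rintro ⟨-, h⟩
      rcases hq.dvd_mul.mp h with h | h
      · rcases hq.dvd_mul.mp h with h | h
        · exact Or.inl h
        · exact Or.inr (Or.inl ((Nat.prime_dvd_prime_iff_eq hq P.pp).mp h))
      · exact Or.inr (Or.inr (Int.natCast_dvd.mpr h))
    · rintro (h | h | h)
      · exact ⟨hq, (h.mul_right _).mul_right _⟩
      · exact ⟨hq, (h ▸ dvd_mul_left _ _ : q ∣ M * P.p).mul_right _⟩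
      · exact ⟨hq, (Int.natCast_dvd.mp h).mul_left _⟩
  rcases exists_newEmb_or_of_eigenform (W := W) (p := p) (M := M) (H31.jzeroInputs _) (S := S)
    (by show P.p ≠ 2; have := P.hp5; omega) hpM ((hS _ P.pp).mpr (Or.inr (Or.inl rfl)))
    (fun q hq h => (hS q hq).mpr (Or.inl h)) hΔ
    (fun q hq h => (hS q hq).mpr (Or.inr (Or.inr h))) hirrW hf h𝔪 hp𝔪 (by
      intro ℓ hℓ hℓS
      rw [hS ℓ hℓ] at hℓS
      push Not at hℓS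
      refine hcong ℓ hℓ hℓS.2.2 ?_ hℓS.2.1
      intro h
      rcases hℓ.dvd_mul.mp h with h | h
      · exact hℓS.1 h
      · exact hℓS.2.1 ((Nat.prime_dvd_prime_iff_eq hℓ P.pp).mp h)) with h | h
  · left
    obtain ⟨g, 𝔫, hg, h𝔫, hp𝔫, hg'⟩ := h
    refine ⟨g, W, 𝔫, hg, hW, h𝔫, hp𝔫, fun ℓ hℓ hgood hℓM hℓp => hg' ℓ hℓ ?_⟩
    rw [hS ℓ hℓ]
    rintro (h | h | h)
    · exact hℓM h
    · exact hℓp h
    · exact hgood h
  · right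
    exact ⟨W, S, hW, hΔ, hirrW, hS, h⟩

end Fermat.Agent.H61.L5
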