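import Fermat.Agent.H4Transfer

set_option autoImplicit false

/-!
# `T_ℓ` preserves homomorphisms killing parabolic and elliptic elements (helper4, KummerBridge)
-/

open CongruenceSubgroup UpperHalfPlane Matrix.SpecialLinearGroup
open scoped MatrixGroups

namespace Fermat.Agent.H4

noncomputable section

/-- A function on a finite set whose sums along the cycles of a permutation vanish has total sum
zero. -/
lemma sum_eq_zero_of_cycles {X A : Type*} [Fintype X] [AddCommGroup A]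
    (σ : Equiv.Perm X) (f : X → A)
    (h : ∀ x, ∑ i ∈ Finset.range (Function.minimalPeriod σ x), f ((σ : X → X)^[i] x) = 0) :
    ∑ x, f x = 0 := by
  classical
  let s : Setoid X := Equiv.Perm.SameCycle.setoid σ
  rw [← Finset.sum_fiberwise (s := Finset.univ) (g := fun x => (Quotient.mk s x)) (f := f)]
  refine Finset.sum_eq_zero fun c _ => ?_
  obtain ⟨x, rfl⟩ := Quotient.exists_rep c
  rw [← h x]
  symm
  have hper : ∀ y : X, y ∈ Function.periodicPts (σ : X → X) := fun y => by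
    refine Function.mk_mem_periodicPts (orderOf_pos σ) ?_
    rw [Function.IsPeriodicPt, Function.IsFixedPt, Equiv.Perm.iterate_eq_pow, pow_orderOf_eq_one]
    rfl
  refine Finset.sum_bij (fun i _ => (σ : X → X)^[i] x) ?_ ?_ ?_ ?_
  · intro i _
    simp only [Finset.mem_filter, Finset.mem_univ, true_and]
    apply Quotient.sound
    show σ.SameCycle _ _
    rw [Equiv.Perm.iterate_eq_pow]
    exact (Equiv.Perm.sameCycle_pow_left.2 (Equiv.Perm.SameCycle.refl σ x))
  · intro i hi j hj hij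
    exact Function.iterate_injOn_Iio_minimalPeriod (Finset.mem_range.1 hi) (Finset.mem_range.1 hj) hij
  · intro y hy
    simp only [Finset.mem_filter, Finset.mem_univ, true_and] at hy
    have hxy : σ.SameCycle x y := (Quotient.exact hy.symm : s.r x y)
    obtain ⟨i, hi⟩ := hxy.exists_nat_pow_eq
    refine ⟨i % Function.minimalPeriod σ x, ?_, ?_⟩
    · exact Finset.mem_range.2 (Nat.mod_lt _ (Function.minimalPeriod_pos_of_mem_periodicPts (hper x)))
    · rw [Function.iterate_mod_minimalPeriod_eq, Equiv.Perm.iterate_eq_pow, hi]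
  · intro i _; rfl

/-- trace of powers satisfies the Chebyshev recurrence -/
lemma trace_pow_rec (g : SL(2, ℤ)) (n : ℕ) :
    ((g ^ (n + 2) : SL(2, ℤ)) : Matrix (Fin 2) (Fin 2) ℤ).trace =
      (g : Matrix (Fin 2) (Fin 2) ℤ).trace * ((g ^ (n + 1) : SL(2, ℤ)) : Matrix (Fin 2) (Fin 2) ℤ).trace
        - ((g ^ n : SL(2, ℤ)) : Matrix (Fin 2) (Fin 2) ℤ).trace := by
  have hdet : (g : Matrix (Fin 2) (Fin 2) ℤ).det = 1 := g.det_coe
  set M : Matrix (Fin 2) (Fin 2) ℤ := (g : Matrix (Fin 2) (Fin 2) ℤ) with hM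
  have h2 : M * M = M.trace • M - 1 := by
    rw [Matrix.det_fin_two] at hdet
    obtain ⟨t, ht⟩ : ∃ t, t = M.trace := ⟨_, rfl⟩
    have ht' := ht
    rw [Matrix.trace_fin_two] at ht'
    rw [← ht]
    ext i j
    fin_cases i <;> fin_cases j <;>
      simp only [Matrix.mul_apply, Fin.sum_univ_two, Matrix.sub_apply, Matrix.smul_apply,
        smul_eq_mul, Matrix.one_apply, Fin.zero_eta, Fin.isValue, Fin.mk_one, if_true, ht',
        zero_ne_one, one_ne_zero, if_false] <;>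
      first | linear_combination -hdet | linear_combination hdet | linear_combination (0 : ℤ)
  have h3 : M ^ (n + 2) = M.trace • M ^ (n + 1) - M ^ n := by
    rw [pow_add, pow_two, h2, mul_sub, mul_one, Matrix.mul_smul, ← pow_succ]
  simp only [Matrix.SpecialLinearGroup.coe_pow]
  rw [← hM, h3, Matrix.trace_sub, Matrix.trace_smul, smul_eq_mul]

lemma trace_pow_cos (g : SL(2, ℤ)) {θ : ℝ}
    (h : (((g : Matrix (Fin 2) (Fin 2) ℤ).trace : ℤ) : ℝ) = 2 * Real.cos θ) (n : ℕ) :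
    ((((g ^ n : SL(2, ℤ)) : Matrix (Fin 2) (Fin 2) ℤ).trace : ℤ) : ℝ) = 2 * Real.cos (n * θ) := by
  induction n using Nat.strong_induction_on with
  | _ n ih =>
    match n with
    | 0 => simp
    | 1 => simpa using h
    | n + 2 =>
      rw [trace_pow_rec]
      push_cast
      rw [ih (n + 1) (by omega), ih n (by omega), h]
      have h1 := Real.cos_add ((n + 1 : ℝ) * θ) θ
      have h2 := Real.cos_sub ((n + 1 : ℝ) * θ) θ
      have e1 : ((n : ℝ) + 1) * θ + θ = (n + 2) * θ := by ring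
      have e2 : ((n : ℝ) + 1) * θ - θ = n * θ := by ring
      rw [e1] at h1
      rw [e2] at h2
      push_cast
      linear_combination (-2) * h1 - 2 * h2

/-- elements of absolute trace at most `2` are stable under powers -/
lemma trace_sq_pow_le (g : SL(2, ℤ)) (h : (g : Matrix (Fin 2) (Fin 2) ℤ).trace ^ 2 ≤ 4) (n : ℕ) :
    ((g ^ n : SL(2, ℤ)) : Matrix (Fin 2) (Fin 2) ℤ).trace ^ 2 ≤ 4 := by
  have h' : (((g : Matrix (Fin 2) (Fin 2) ℤ).trace : ℤ) : ℝ) ^ 2 ≤ 4 := by exact_mod_cast h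
  set t : ℝ := (((g : Matrix (Fin 2) (Fin 2) ℤ).trace : ℤ) : ℝ) with ht
  have hc : t = 2 * Real.cos (Real.arccos (t / 2)) := by
    rw [Real.cos_arccos]
    · ring
    · nlinarith
    · nlinarith
  have h3 := trace_pow_cos g (ht.symm.trans hc) n
  have h4 : ((((g ^ n : SL(2, ℤ)) : Matrix (Fin 2) (Fin 2) ℤ).trace : ℤ) : ℝ) ^ 2 ≤ 4 := by
    rw [h3, mul_pow]
    have := Real.cos_sq_le_one (n * Real.arccos (t / 2))
    linarith
  exact_mod_cast h4

variable {N ℓ : ℕ} [Fact ℓ.Prime] {A : Type*} [AddCommGroup A]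

/-- `φ` kills the parabolic and elliptic elements (`±1` included). -/
def IsPE (φ : Additive (Gamma0 N) →+ A) : Prop :=
  ∀ γ : Gamma0 N, ((γ : SL(2, ℤ)) : Matrix (Fin 2) (Fin 2) ℤ).trace ^ 2 ≤ 4 →
    φ (Additive.ofMul γ) = 0

lemma act_pow (g : SL(2, ℤ)) (n : ℕ) (x : OnePoint (ZMod ℓ)) :
    act (g ^ n) x = ((act g : Equiv.Perm (OnePoint (ZMod ℓ))) : OnePoint (ZMod ℓ) → _)^[n] x := by
  induction n generalizing x with
  | zero => simp [act_one]
  | succ n ih => rw [pow_succ, act_mul, ih, Function.iterate_succ_apply']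

lemma coc_pow (hℓN : ¬ ℓ ∣ N) (φ : Additive (Gamma0 N) →+ A) (γ : Gamma0 N)
    (x : OnePoint (ZMod ℓ)) (n : ℕ) :
    ∑ i ∈ Finset.range n,
      φ (Additive.ofMul (coc hℓN γ
        (((act (γ : SL(2, ℤ)) : Equiv.Perm (OnePoint (ZMod ℓ))) : OnePoint (ZMod ℓ) → _)^[i] x))) =
      φ (Additive.ofMul (coc hℓN (γ ^ n) x)) := by
  induction n with
  | zero =>
    have : coc hℓN (1 : Gamma0 N) x = 1 := by
      symm; apply coc_unique
      simp [act_one]
    simp [this]
  | succ n ih =>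
    rw [Finset.sum_range_succ, ih, pow_succ, coc_mul, ofMul_mul, map_add, ← act_pow]
    simp

lemma trace_coc (hℓN : ¬ ℓ ∣ N) (γ : Gamma0 N) (x : OnePoint (ZMod ℓ))
    (hx : act (γ : SL(2, ℤ)) x = x) :
    ((coc hℓN γ x : SL(2, ℤ)) : Matrix (Fin 2) (Fin 2) ℤ).trace =
      ((γ : SL(2, ℤ)) : Matrix (Fin 2) (Fin 2) ℤ).trace := by
  have h := coc_spec hℓN γ x
  rw [hx] at h
  have h2 : (mapGL ℝ (coc hℓN γ x : SL(2, ℤ)) : GL (Fin 2) ℝ) =
      rep ℓ x * mapGL ℝ (γ : SL(2, ℤ)) * (rep ℓ x)⁻¹ := by rw [h]; group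
  have h3 := congrArg (fun g : GL (Fin 2) ℝ => (g : Matrix (Fin 2) (Fin 2) ℝ).trace) h2
  simp only [Units.val_mul] at h3
  rw [Matrix.trace_mul_comm, ← mul_assoc, Units.inv_mul, one_mul] at h3
  have e : ∀ g : SL(2, ℤ), ((mapGL ℝ g : GL (Fin 2) ℝ) : Matrix (Fin 2) (Fin 2) ℝ).trace =
      (((g : Matrix (Fin 2) (Fin 2) ℤ).trace : ℤ) : ℝ) := by
    intro g
    simp [Matrix.trace_fin_two]
  rw [e, e] at h3
  exact_mod_cast h3

/-- `T_ℓ` preserves the homomorphisms killing parabolic and elliptic elements. -/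
theorem IsPE.heckeHom (hℓN : ¬ ℓ ∣ N) {φ : Additive (Gamma0 N) →+ A} (hφ : IsPE φ) :
    IsPE (heckeHom hℓN φ) := by
  intro γ hγ
  rw [heckeHom_apply]
  apply sum_eq_zero_of_cycles (act (γ : SL(2, ℤ)))
  intro x
  simp only [toMul_ofMul]
  rw [coc_pow]
  apply hφ
  have hfix : act ((γ ^ (Function.minimalPeriod (act (γ : SL(2, ℤ)) : Equiv.Perm (OnePoint (ZMod ℓ)))
      x) : Gamma0 N) : SL(2, ℤ)) x = x := by
    push_cast
    rw [act_pow, Function.iterate_minimalPeriod]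
  rw [trace_coc hℓN _ x hfix]
  push_cast
  exact trace_sq_pow_le _ hγ _

/-- `T_ℓ` preserves parabolic homomorphisms (Prelude form). -/
theorem isParabolicHom_heckeHom (hℓN : ¬ ℓ ∣ N) {φ : Additive (Gamma0 N) →+ A}
    (hφ : ModularCurve.Period.IsParabolicHom (Gamma0 N) φ) :
    ModularCurve.Period.IsParabolicHom (Gamma0 N) (heckeHom hℓN φ) := by
  intro γ hγ
  rw [heckeHom_apply]
  apply sum_eq_zero_of_cycles (act (γ : SL(2, ℤ)))
  intro x
  simp only [toMul_ofMul]
  rw [coc_pow]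
  apply hφ
  have hfix : act ((γ ^ (Function.minimalPeriod (act (γ : SL(2, ℤ)) : Equiv.Perm (OnePoint (ZMod ℓ)))
      x) : Gamma0 N) : SL(2, ℤ)) x = x := by
    push_cast
    rw [act_pow, Function.iterate_minimalPeriod]
  rw [trace_coc hℓN _ x hfix]
  -- trace of a power of a parabolic element
  have key : ∀ n : ℕ, (((γ : SL(2, ℤ)) ^ n : SL(2, ℤ)) : Matrix (Fin 2) (Fin 2) ℤ).trace ^ 2 = 4 := by
    intro n
    have h2 : ((γ : SL(2, ℤ)) : Matrix (Fin 2) (Fin 2) ℤ).trace = 2 ∨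
        ((γ : SL(2, ℤ)) : Matrix (Fin 2) (Fin 2) ℤ).trace = -2 := by
      have : (((γ : SL(2, ℤ)) : Matrix (Fin 2) (Fin 2) ℤ).trace - 2) *
          (((γ : SL(2, ℤ)) : Matrix (Fin 2) (Fin 2) ℤ).trace + 2) = 0 := by linear_combination hγ
      rcases mul_eq_zero.1 this with h | h
      · left; linarith
      · right; linarith
    rcases h2 with h2 | h2
    · have h3 := trace_pow_cos (γ : SL(2, ℤ)) (θ := 0) (by rw [h2]; simp) n
      rw [mul_zero, Real.cos_zero] at h3
      have h4 : (((γ : SL(2, ℤ)) ^ n : SL(2, ℤ)) : Matrix (Fin 2) (Fin 2) ℤ).trace = 2 := by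
        exact_mod_cast h3
      rw [h4]; norm_num
    · have h3 := trace_pow_cos (γ : SL(2, ℤ)) (θ := Real.pi) (by rw [h2]; simp) n
      rw [Real.cos_nat_mul_pi] at h3
      have h4 : (((γ : SL(2, ℤ)) ^ n : SL(2, ℤ)) : Matrix (Fin 2) (Fin 2) ℤ).trace = 2 * (-1) ^ n := by
        exact_mod_cast h3
      rw [h4, mul_pow, ← pow_mul, mul_comm n 2, pow_mul]
      norm_num
  push_cast
  exact key _

end

end Fermat.Agent.H4
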