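import Mathlib
import Fermat.Agent.H90Exist
import Fermat.Agent.H4TransferPE

/-!
# Characters of `Γ₀(N)` come from torsion classes (BRIDGE, helper90)
-/

set_option autoImplicit false
set_option linter.unusedSectionVars false

noncomputable section

namespace Fermat.Agent.H90

open UpperHalfPlane hiding I
open Complex MatrixGroups ModularGroup ModularCurve Fermat.Agent.H24 Filter AlgebraicCurve
open CongruenceSubgroup Asymptotics
open scoped Manifold Real Topology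

local notation "𝕢" => Function.Periodic.qParam

section Dict

variable (K : Type*) [Field K] [Algebra K ℂ] [IsAlgClosed K] [CharZero K] [Algebra ℚ K]
variable (N : ℕ) [NeZero N]

/-- The dictionary between places and charts. -/
def PlaceDict : Prop := ∀ v : Place K (FX K N),
  ∃ (z : ℍ → ℂ) (_ : Chart z) (γ : SL(2, ℤ)) (m : ℕ), 0 < m ∧
    (∀ x : FX K N, Good K N (x : LaurentSeries K) → x ≠ 0 →
      ∃ X, HasExpC z (compHom γ (ev K (x : LaurentSeries K))) X ∧ X.order = m * v.ord x) ∧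
    (∀ g ∈ Hol, (∀ δ : SL(2, ℤ), compHom δ g ∈ ExpAlg (chart_qParam N)) →
      ∃ G, HasExpC z (compHom γ g) G) ∧
    (∀ g ∈ Hol, (∀ σ : Gamma0 N, ((σ : SL(2, ℤ)) : Matrix (Fin 2) (Fin 2) ℤ).trace ^ 2 ≤ 4 →
        compHom (σ : SL(2, ℤ)) g = g) →
      ∀ G, HasExpC z (compHom γ g) G → G ≠ 0 → (m : ℤ) ∣ G.order)

variable {K N}

theorem dvd_ord_of_pow (hd : PlaceDict K N) {n : ℕ} (hn : n ≠ 0) {a : FX K N} (ha : a ≠ 0)
    (hg : Good K N (a : LaurentSeries K)) {h : ℍ → ℂ} (hh : h ∈ Hol)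
    (hexp : ∀ δ : SL(2, ℤ), compHom δ h ∈ ExpAlg (chart_qParam N))
    (hPE : ∀ σ : Gamma0 N, ((σ : SL(2, ℤ)) : Matrix (Fin 2) (Fin 2) ℤ).trace ^ 2 ≤ 4 →
        compHom (σ : SL(2, ℤ)) h = h)
    (hpow : h ^ n = ev K (a : LaurentSeries K)) (v : Place K (FX K N)) : (n : ℤ) ∣ v.ord a := by
  obtain ⟨z, hz, γ, m, hm, h1, h2, h3⟩ := hd v
  obtain ⟨X, hX, hXo⟩ := h1 a hg ha
  obtain ⟨H, hH⟩ := h2 h hh hexp
  have hXH : X = H ^ n := by
    refine hX.unique hz ⟨isConv_pow hH.1 n, fun τ hτ => ?_⟩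
    rw [evalAt_pow hH.1 n hτ (hz.lt τ), hH.2 τ hτ, ← hpow, map_pow, Pi.pow_apply]
  have hX0 : X ≠ 0 := by
    rintro rfl
    -- then `ev a` vanishes identically
    have h4 : compHom γ (ev K (a : LaurentSeries K)) = 0 := by
      refine eq_of_mem_Hol_of_chart hz (compHom_mem_Hol γ hg.hol) Hol.zero_mem fun τ hτ => ?_
      rw [← hX.2 τ hτ]
      simp [evalAt]
    apply ev_ne_zero hg.conv fun h => ha (Subtype.ext h)
    ext τ
    have := congrFun h4 (γ⁻¹ • τ)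
    rwa [compHom_apply, smul_inv_smul] at this
  have hH0 : H ≠ 0 := by
    rintro rfl
    rw [zero_pow hn] at hXH
    exact hX0 hXH
  obtain ⟨k, hk⟩ := h3 h hh hPE H hH hH0
  rw [hXH, HahnSeries.order_pow, hk] at hXo
  refine ⟨k, ?_⟩
  have hm' : (m : ℤ) ≠ 0 := by exact_mod_cast hm.ne'
  apply mul_left_cancel₀ hm'
  rw [← hXo]
  simp only [nsmul_eq_mul]
  ring

end Dict

section Periodic

variable {N : ℕ} [NeZero N]

theorem trace_conj (δ γ : SL(2, ℤ)) :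
    ((δ * γ * δ⁻¹ : SL(2, ℤ)) : Matrix (Fin 2) (Fin 2) ℤ).trace =
      (γ : Matrix (Fin 2) (Fin 2) ℤ).trace := by
  rw [Matrix.SpecialLinearGroup.coe_mul, Matrix.trace_mul_comm, ← Matrix.SpecialLinearGroup.coe_mul,
    ← mul_assoc, inv_mul_cancel, one_mul]

theorem trace_T_pow (n : ℕ) : ((T ^ n : SL(2, ℤ)) : Matrix (Fin 2) (Fin 2) ℤ).trace = 2 := by
  have := ModularGroup.coe_T_zpow (n : ℤ)
  rw [zpow_natCast] at this
  rw [this, Matrix.trace_fin_two]
  simp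

theorem periodic_of_PE {h : ℍ → ℂ}
    (hPE : ∀ σ : Gamma0 N, ((σ : SL(2, ℤ)) : Matrix (Fin 2) (Fin 2) ℤ).trace ^ 2 ≤ 4 →
        compHom (σ : SL(2, ℤ)) h = h) (δ : SL(2, ℤ)) (τ : ℍ) :
    compHom δ h ((T ^ N : SL(2, ℤ)) • τ) = compHom δ h τ := by
  have h1 := hPE ⟨_, T_pow_mem_Gamma0 (N := N) δ⟩ (by
    rw [trace_conj, trace_T_pow]; norm_num)
  have h2 := congrFun h1 (δ • τ)
  simp only [compHom_apply] at h2 ⊢
  rw [← h2, ← mul_smul, ← mul_smul, inv_mul_cancel_right]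

theorem isBounded_of_discriminant {f : ℍ → ℂ}
    (hb : IsBoundedAtImInfty fun τ => f τ * ModularForm.discriminant τ) :
    IsBoundedAtImInfty fun τ : ℍ => f τ * 𝕢 (N : ℝ) τ ^ N := by
  have h1 := ModularForm.exp_isBigO_discriminant
  have h2 : (fun τ : ℍ => f τ * 𝕢 (N : ℝ) τ ^ N) =O[atImInfty]
      fun τ => f τ * ModularForm.discriminant τ := by
    refine IsBigO.mul (isBigO_refl _ _) ?_
    refine IsBigO.trans (IsBigO.of_norm_eventuallyLE ?_) h1
    refine Eventually.of_forall fun τ => ?_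
    show ‖𝕢 (N : ℝ) τ ^ N‖ ≤ Real.exp (-2 * π * τ.im)
    rw [qParam_pow_self, Function.Periodic.norm_qParam]
    simp
  exact h2.trans hb

end Periodic

section Complex

variable {N : ℕ} [NeZero N]

/-- Every character killing parabolic and elliptic elements is the character of a holomorphic
function meromorphic at the cusps. -/
theorem exists_hol_of_char {n : ℕ} (hn : n ≠ 0) (φ : Additive (Gamma0 N) →+ Mu) (hφ : H4.IsPE φ)
    (hnφ : n • φ = 0) :
    ∃ h : ℍ → ℂ, h ∈ Hol ∧ h ≠ 0 ∧ (∀ δ : SL(2, ℤ), compHom δ h ∈ ExpAlg (chart_qParam N)) ∧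
      ∀ (γ : Gamma0 N) (τ : ℍ), h ((γ : SL(2, ℤ)) • τ) = (φ (Additive.ofMul γ)).val * h τ := by
  let χ : Gamma0 N →* ℂˣ := AddMonoidHom.toMultiplicativeRight
    (show Additive (Gamma0 N) →+ Additive ℂˣ from φ)
  have hχ : ∀ γ, ((χ γ : ℂˣ) : ℂ) = (φ (Additive.ofMul γ)).val := fun γ => rfl
  have hpow : ∀ γ : Gamma0 N, (φ (Additive.ofMul γ)).val ^ n = 1 := fun γ => by
    rw [← Mu.val_nsmul, ← AddMonoidHom.nsmul_apply, hnφ, AddMonoidHom.zero_apply, Mu.val_zero]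
  have h1 : ∀ γ, ‖(χ γ : ℂ)‖ = 1 := fun γ => by
    rw [hχ]
    exact norm_eq_one_of_pow_eq_one (hpow γ) hn
  have hpar : ∀ γ : Gamma0 N, (γ : SL(2, ℤ)) 1 0 = 0 → χ γ = 1 := fun γ hγ => by
    apply Units.ext
    rw [hχ, hφ γ ?_]
    · rfl
    · have hdet := (γ : SL(2, ℤ)).det_coe
      rw [Matrix.det_fin_two] at hdet
      have hγ' : ((γ : SL(2, ℤ)) : Matrix (Fin 2) (Fin 2) ℤ) 1 0 = 0 := hγ
      rw [hγ', mul_zero, sub_zero] at hdet
      rw [Matrix.trace_fin_two]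
      rcases Int.eq_one_or_neg_one_of_mul_eq_one' hdet with ⟨h2, h3⟩ | ⟨h2, h3⟩
      · rw [h2, h3]; norm_num
      · rw [h2, h3]; norm_num
  obtain ⟨h, hh, hγ, hbd, htend⟩ := exists_twisted_function N χ h1 hpar
  have hγ' : ∀ (γ : Gamma0 N) (τ : ℍ), h ((γ : SL(2, ℤ)) • τ) =
      (φ (Additive.ofMul γ)).val * h τ := fun γ τ => hγ γ τ
  refine ⟨h, hh, ?_, fun δ => ?_, hγ'⟩
  · rintro rfl
    have h2 : Tendsto (fun z : ℍ => (0 : ℂ)) atImInfty (𝓝 1) := by
      refine htend.congr fun z => ?_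
      simp
    exact zero_ne_one (tendsto_nhds_unique tendsto_const_nhds h2)
  · have hPE : ∀ σ : Gamma0 N, ((σ : SL(2, ℤ)) : Matrix (Fin 2) (Fin 2) ℤ).trace ^ 2 ≤ 4 →
        compHom (σ : SL(2, ℤ)) h = h := fun σ hσ => by
      ext τ
      rw [compHom_apply, hγ', hφ σ hσ, Mu.val_zero, one_mul]
    exact exists_hasExpC_of_bounded N (compHom_mem_Hol δ hh) (periodic_of_PE hPE δ) N
      (isBounded_of_discriminant (hbd δ))

end Complex

section Descent

variable {K : Type*} [Field K] [Algebra K ℂ] [IsAlgClosed K] [CharZero K] [Algebra ℚ K]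
variable {N : ℕ} [NeZero N]

theorem ev_baseIncl (x : FX K N) :
    ev ℂ ((baseIncl K ℂ (modularFunctionFieldFull N) x : FX ℂ N) : LaurentSeries ℂ) =
      ev K (x : LaurentSeries K) := by
  ext τ
  rw [ev, ev, incl_complex, coe_baseIncl]
  rfl

theorem good_baseIncl {x : FX K N} (hx : Good K N (x : LaurentSeries K)) :
    Good ℂ N ((baseIncl K ℂ (modularFunctionFieldFull N) x : FX ℂ N) : LaurentSeries ℂ) := by
  refine ⟨?_, ?_, ?_, ?_⟩
  · rw [incl_complex]; exact hx.conv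
  · rw [ev_baseIncl]; exact hx.hol
  · rw [ev_baseIncl]; exact hx.exp
  · rw [ev_baseIncl]; exact hx.inv

theorem exists_order_one : ∃ x ∈ modularFunctionFieldFull N, x.order = 1 := by
  refine ⟨jq⁻¹, inv_mem (modularFunctionField_le_full N (jq_mem N)), ?_⟩
  have h1 : jq.order = -1 := by
    refine le_antisymm (HahnSeries.order_le_of_coeff_ne_zero ?_) ?_
    · rw [coeff_jq_neg_one]; exact one_ne_zero
    · rw [HahnSeries.le_order_iff_forall jq_ne_zero]
      intro n hn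
      exact coeff_jq_of_lt hn
  have h2 : (jq * jq⁻¹).order = 0 := by
    rw [mul_inv_cancel₀ jq_ne_zero, HahnSeries.order_one]
  rw [HahnSeries.order_mul jq_ne_zero (inv_ne_zero jq_ne_zero), h1] at h2
  omega

theorem ev_mul' {x y : FX K N} (hx : Good K N (x : LaurentSeries K))
    (hy : Good K N (y : LaurentSeries K)) :
    ev K ((x * y : FX K N) : LaurentSeries K) =
      ev K (x : LaurentSeries K) * ev K (y : LaurentSeries K) :=
  ev_mul K hx.conv hy.conv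

theorem good_pow' {x : FX K N} (hx : Good K N (x : LaurentSeries K)) (m : ℕ) :
    Good K N ((x ^ m : FX K N) : LaurentSeries K) :=
  (GoodAlg K N).pow_mem hx m

theorem ev_pow' {x : FX K N} (hx : Good K N (x : LaurentSeries K)) (m : ℕ) :
    ev K ((x ^ m : FX K N) : LaurentSeries K) = ev K (x : LaurentSeries K) ^ m := by
  induction m with
  | zero =>
    rw [pow_zero, pow_zero]
    have := ev_algebraMap K 1
    simpa using this
  | succ m ih =>
    rw [pow_succ, pow_succ, ev_mul' (good_pow' hx m) hx, ih]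

/-- The orders of the zeros of a holomorphic function whose `n`-th power times an `n`-th power
is an `n`-th power. -/
theorem exists_root_of_mul {n : ℕ} (hn : n ≠ 0) {U f g : ℍ → ℂ} (hU : U ∈ Hol) (hf : f ∈ Hol)
    (hg : g ∈ Hol) (hU0 : U ≠ 0) (hg0 : g ≠ 0) (h : f ^ n = U * g ^ n) :
    ∃ h : ℍ → ℂ, h ∈ Hol ∧ h ^ n = U := by
  have hf0 : f ≠ 0 := by
    rintro rfl
    rw [zero_pow hn] at h
    rcases hol_eq_zero_or hU (Hol.pow_mem hg n) h.symm with h1 | h1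
    · exact hU0 h1
    · have h2 : (⟨g, hg⟩ : Hol) ^ n = 0 := Subtype.ext h1
      exact hg0 (congrArg Subtype.val (pow_eq_zero_iff hn |>.mp h2))
  obtain ⟨r, h1, h2⟩ := H4.exists_nthRoot hn U hU hU0 (fun τ => by
    have aU := hol_analyticOnNhd hU (τ : ℂ) τ.2
    have af := hol_analyticOnNhd hf (τ : ℂ) τ.2
    have ag := hol_analyticOnNhd hg (τ : ℂ) τ.2
    obtain ⟨kU, hkU⟩ := ENat.ne_top_iff_exists.mp (hol_order_ne_top hU hU0 τ)
    obtain ⟨kf, hkf⟩ := ENat.ne_top_iff_exists.mp (hol_order_ne_top hf hf0 τ)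
    obtain ⟨kg, hkg⟩ := ENat.ne_top_iff_exists.mp (hol_order_ne_top hg hg0 τ)
    have e1 : (f ^ n) ∘ ofComplex = (f ∘ ofComplex) ^ n := rfl
    have e2 : (U * g ^ n) ∘ ofComplex = (U ∘ ofComplex) * (g ∘ ofComplex) ^ n := rfl
    have h3 := congrArg (fun F : ℍ → ℂ => analyticOrderAt (F ∘ ofComplex) (τ : ℂ)) h
    simp only [e1, e2] at h3
    rw [analyticOrderAt_pow af, analyticOrderAt_mul aU (ag.pow n), analyticOrderAt_pow ag,
      ← hkU, ← hkf, ← hkg] at h3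
    have h4 : n * kf = kU + n * kg := by
      have h5 : ((n * kf : ℕ) : ℕ∞) = ((kU + n * kg : ℕ) : ℕ∞) := by
        push_cast
        simpa [nsmul_eq_mul] using h3
      exact_mod_cast h5
    rw [analyticOrderNatAt, ← hkU, ENat.toNat_natCast]
    have h5 : n ∣ kU + n * kg := ⟨kf, h4.symm⟩
    exact (Nat.dvd_add_left (dvd_mul_right n kg)).mp h5)
  exact ⟨r, h1, funext h2⟩

/-- **Every character killing parabolic and elliptic elements comes from a torsion class.** -/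
theorem exists_rel_of_char (hdC : PlaceDict ℂ N) (hdK : PlaceDict K N) {n : ℕ} (hn : n ≠ 0)
    (φ : Additive (Gamma0 N) →+ Mu) (hφ : H4.IsPE φ) (hnφ : n • φ = 0) :
    ∃ c : Pic0 K (FX K N), Rel n c φ := by
  obtain ⟨h, hh, hh0, hexp, hγ⟩ := exists_hol_of_char hn φ hφ hnφ
  have hpow : ∀ γ : Gamma0 N, (φ (Additive.ofMul γ)).val ^ n = 1 := fun γ => by
    rw [← Mu.val_nsmul, ← AddMonoidHom.nsmul_apply, hnφ, AddMonoidHom.zero_apply, Mu.val_zero]
  -- the function over `ℂ`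
  obtain ⟨x, hx, hxev⟩ := exists_good (N := N) (G := h ^ n) (Hol.pow_mem hh n) (fun γ hγ' => by
    ext τ
    rw [compHom_apply, Pi.pow_apply, Pi.pow_apply, hγ ⟨γ, hγ'⟩ τ, mul_pow, hpow, one_mul])
    (fun δ => by rw [map_pow]; exact Subalgebra.pow_mem _ (hexp δ) n)
  set a : FX ℂ N := ⟨x, good_mem hx⟩ with ha
  have hag : Good ℂ N (a : LaurentSeries ℂ) := hx
  have haev : ev ℂ (a : LaurentSeries ℂ) = h ^ n := hxev
  have ha0 : a ≠ 0 := by
    intro h0
    have h1 : ev ℂ (a : LaurentSeries ℂ) = 0 := by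
      rw [h0]
      ext τ
      simp [ev, evalAt]
    rw [haev] at h1
    have h2 : (⟨h, hh⟩ : Hol) ^ n = 0 := Subtype.ext h1
    exact hh0 (congrArg Subtype.val (pow_eq_zero_iff hn |>.mp h2))
  have hPE : ∀ σ : Gamma0 N, ((σ : SL(2, ℤ)) : Matrix (Fin 2) (Fin 2) ℤ).trace ^ 2 ≤ 4 →
      compHom (σ : SL(2, ℤ)) h = h := fun σ hσ => by
    ext τ
    rw [compHom_apply, hγ, hφ σ hσ, Mu.val_zero, one_mul]
  have hdiv := dvd_ord_of_pow hdC hn ha0 hag hh hexp hPE haev.symm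
  -- descent
  obtain ⟨u0, w, hu0, hw, hdesc⟩ := exists_descent (L0 := K) (L1 := ℂ)
    (F₀ := modularFunctionFieldFull N) exists_order_one (Nat.pos_of_ne_zero hn)
    (finite_torsion (K := ℂ) (N := N) hn) ha0 hdiv
  obtain ⟨e0, d0, he0g, hd0g, hd00, hu0d⟩ := exists_good_div u0
  obtain ⟨e, d, heg, hdg, hd0, hwd⟩ := exists_good_div w
  have he0 : e ≠ 0 := by rw [← hwd]; exact mul_ne_zero hw hd0
  set b : FX K N := u0 * d0 ^ n with hb
  have hb0 : b ≠ 0 := mul_ne_zero hu0 (pow_ne_zero _ hd00)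
  have hbg : Good K N (b : LaurentSeries K) := by
    obtain ⟨m, hm⟩ := Nat.exists_eq_succ_of_ne_zero hn
    have : b = e0 * d0 ^ m := by rw [hb, hm, pow_succ, ← hu0d]; ring
    rw [this]
    exact (GoodAlg K N).mul_mem he0g ((GoodAlg K N).pow_mem hd0g m)
  set ι := baseIncl K ℂ (modularFunctionFieldFull N) with hι
  have hιd : Good ℂ N ((ι d0 : FX ℂ N) : LaurentSeries ℂ) := good_baseIncl hd0g
  have hιb : Good ℂ N ((ι b : FX ℂ N) : LaurentSeries ℂ) := good_baseIncl hbg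
  have hrel : a * (ι d0 * d) ^ n = ι b * e ^ n := by
    rw [hdesc, hb, map_mul, map_pow, ← hwd]
    ring
  set f0 := ev K (d0 : LaurentSeries K) with hf0
  set fd := ev ℂ (d : LaurentSeries ℂ) with hfd
  set fe := ev ℂ (e : LaurentSeries ℂ) with hfe
  set fb := ev K (b : LaurentSeries K) with hfb
  have hid : Good ℂ N ((ι d0 * d : FX ℂ N) : LaurentSeries ℂ) := (GoodAlg ℂ N).mul_mem hιd hdg
  have hev : (h * (f0 * fd)) ^ n = fb * fe ^ n := by
    have h1 := congrArg (fun x : FX ℂ N => ev ℂ (x : LaurentSeries ℂ)) hrel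
    have h2 : ev ℂ ((a * (ι d0 * d) ^ n : FX ℂ N) : LaurentSeries ℂ) = h ^ n * (f0 * fd) ^ n := by
      rw [ev_mul' hag (good_pow' hid n), ev_pow' hid, haev, ev_mul' hιd hdg,
        ev_baseIncl]
    have h3 : ev ℂ ((ι b * e ^ n : FX ℂ N) : LaurentSeries ℂ) = fb * fe ^ n := by
      rw [ev_mul' hιb (good_pow' heg n), ev_pow' heg, ev_baseIncl]
    rw [mul_pow, ← h2, ← h3]
    exact h1
  have hfe0 : fe ≠ 0 := ev_ne_zero heg.conv fun h => he0 (Subtype.ext h)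
  have hfb0 : fb ≠ 0 := ev_ne_zero hbg.conv fun h => hb0 (Subtype.ext h)
  have hprod : h * (f0 * fd) ∈ Hol := Hol.mul_mem hh (Hol.mul_mem hd0g.hol hdg.hol)
  obtain ⟨h1, hh1, hh1n⟩ := exists_root_of_mul hn hbg.hol hprod heg.hol hfb0 hfe0 hev
  -- the character of `h1`
  obtain ⟨ζ, -, hζ⟩ : ∃ ζ : ℂ, ζ ^ n = 1 ∧ h1 * fe = ζ • (h * (f0 * fd)) :=
    hol_eq_of_pow_eq hn (Hol.mul_mem hh1 heg.hol) hprod (by
      rw [mul_pow, hh1n, hev])
  have hchar : ∀ (γ : Gamma0 N) (τ : ℍ), h1 ((γ : SL(2, ℤ)) • τ) =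
      (φ (Additive.ofMul γ)).val * h1 τ := by
    intro γ
    have key : (compHom (γ : SL(2, ℤ)) h1 - (φ (Additive.ofMul γ)).val • h1) * fe = 0 := by
      ext τ
      have i0 : f0 ((γ : SL(2, ℤ)) • τ) = f0 τ := congrFun (hd0g.inv γ γ.2) τ
      have i1 : fd ((γ : SL(2, ℤ)) • τ) = fd τ := congrFun (hdg.inv γ γ.2) τ
      have i2 : fe ((γ : SL(2, ℤ)) • τ) = fe τ := congrFun (heg.inv γ γ.2) τ
      have e1 := congrFun hζ ((γ : SL(2, ℤ)) • τ)
      have e2 := congrFun hζ τ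
      simp only [Pi.mul_apply, Pi.smul_apply, smul_eq_mul] at e1 e2
      rw [i0, i1, i2, hγ] at e1
      simp only [Pi.mul_apply, Pi.sub_apply, Pi.smul_apply, smul_eq_mul, Pi.zero_apply,
        compHom_apply]
      linear_combination e1 - (φ (Additive.ofMul γ)).val * e2
    have h2 := (hol_eq_zero_or (Hol.sub_mem (compHom_mem_Hol _ hh1) (Hol.smul_mem hh1 _))
      heg.hol key).resolve_right hfe0
    intro τ
    have h3 := congrFun h2 τ
    simp only [Pi.sub_apply, Pi.smul_apply, smul_eq_mul, Pi.zero_apply, compHom_apply] at h3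
    exact sub_eq_zero.mp h3
  have hPE1 : ∀ σ : Gamma0 N, ((σ : SL(2, ℤ)) : Matrix (Fin 2) (Fin 2) ℤ).trace ^ 2 ≤ 4 →
      compHom (σ : SL(2, ℤ)) h1 = h1 := fun σ hσ => by
    ext τ
    rw [compHom_apply, hchar, hφ σ hσ, Mu.val_zero, one_mul]
  have hexp1 : ∀ δ : SL(2, ℤ), compHom δ h1 ∈ ExpAlg (chart_qParam N) := fun δ =>
    mem_ExpAlg_of_pow N (compHom_mem_Hol δ hh1) (periodic_of_PE hPE1 δ) hn (by
      rw [← map_pow, hh1n]; exact hbg.exp δ)
  have hdiv1 := dvd_ord_of_pow hdK hn hb0 hbg hh1 hexp1 hPE1 hh1n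
  obtain ⟨D, hD, hDdeg⟩ := exists_div_divisor (Nat.pos_of_ne_zero hn) hb0 hdiv1
  exact ⟨Pic0.mk ⟨D, hDdeg⟩, ⟨D, hDdeg⟩, b, h1, rfl, hb0, hbg, hD, hh1, hh1n, hchar⟩

end Descent

end Fermat.Agent.H90

end
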