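import Fermat.Agent.H40Book
import Fermat.Agent.H40Rep
import Fermat.Agent.H33NormN
import Fermat.Agent.H61L5C
import Fermat.Agent.H90Surj

/-!
# Kummer functions of `E[p] ⊂ J₀(Mp)` (helper44)

The instance of `H40.Kum` for a `p`-new embedding of `E[p]` in `J₀(Mp)`.
-/

set_option autoImplicit false
set_option linter.unusedSectionVars false
set_option linter.style.haveILetI false

noncomputable section

open ModularCurve AlgebraicCurve

namespace Fermat.Agent.H44K

open Fermat.Agent.H33 (IsKum)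
open Fermat.Agent.H61.L5 (NewEmb)
open Fermat.Agent.H39 (Tor GQb)

local notation "Qb" => AlgebraicClosure ℚ
local notation "GQ" => (AlgebraicClosure ℚ ≃ₐ[ℚ] AlgebraicClosure ℚ)

section Pull

variable {K : Type*} [Field K] [IsAlgClosed K] [CharZero K]
variable {F F' : Type*} [Field F] [Field F'] [Algebra K F] [Algebra K F']
  [H94.FunField K F] [H94.FunField K F']

theorem isKum_pullP {n : ℕ} {x : Pic0 K F} {f : F} (φ : F →ₐ[K] F') (hf : IsKum n x f) :
    IsKum n (H67.pullP φ x) (φ f) := by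
  obtain ⟨hf0, D, rfl, hD⟩ := hf
  have hφf : φ f ≠ 0 := (map_ne_zero φ).mpr hf0
  refine ⟨hφf, ⟨H67.pullD φ D, (H67.degree_pullD φ D.1).trans
      ((congrArg _ D.2).trans (mul_zero _))⟩, rfl, fun v => ?_⟩
  have h1 : n • (D : Divisor K F) = H67.divF f hf0 := by
    refine H67.divF_unique _ fun w => ?_
    rw [← hD w]
    simp
  have h2 : n • H67.pullD φ (D : Divisor K F) = H67.divF (φ f) hφf := by
    rw [← map_nsmul, h1, H67.pullD_divF]
  have h3 := congrArg (fun E : Divisor K F' => E v) h2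
  simp only [H67.divF_apply] at h3
  rw [← h3]
  simp

theorem isKum_zpow {n : ℕ} {x : Pic0 K F} {f : F} (hf : IsKum n x f) (k : ℤ) :
    IsKum n (k • x) (f ^ k) := by
  cases k with
  | ofNat k => simpa using hf.pow k
  | negSucc k => rw [negSucc_zsmul, zpow_negSucc]; exact (hf.pow _).inv

end Pull

/-- A representative in the sense of `H40Rep` is a Kummer function. -/
theorem isKum_of_isRep {L : Type*} [Field L] [Algebra ℚ L]
    {F₀ : IntermediateField ℚ (LaurentSeries ℚ)} {n : ℕ} {x : Pic0 L (laurentBaseChange L F₀)}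
    {u : laurentBaseChange L F₀} (h : H40.IsRep n x u) : IsKum n x u := by
  obtain ⟨D, hD, hu⟩ := h.exists_div
  exact ⟨h.ne_zero, D, hD, fun v => (hu v).symm⟩

variable {W : WeierstrassCurve ℤ} {p : Nat.Primes} {M : ℕ} [NeZero M] [NeZero (M * p)]
  [NeZero (p : ℕ)] {S : Set ℕ}

/-- Fixed Kummer functions. -/
theorem exists_fixed_kum {N : ℕ} [NeZero N] {n : ℕ} {x : JZero N} (hx : n • x = 0) :
    ∃ u : H99.FX Qb N, IsKum n x u ∧ ∀ σ : GQ, σ • x = x →
      arithmeticGalois (modularFunctionFieldFull N) σ • u = u := by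
  obtain ⟨u, hu, h⟩ := H40.exists_isRep (L := Qb) (F₀ := modularFunctionFieldFull N)
    (H90.exists_order_one (N := N)) hx
  exact ⟨u, isKum_of_isRep hu, h⟩

section alpha

theorem pushP_alpha_eq (h1 : M * 1 ∣ M * p) (x : JZero (M * p)) :
    H67.pushP (heckeAlphaBar Qb M p) x = H67.degPush 1 h1 x := by
  unfold H67.degPush
  rw [H67.alpha_eq_dg]

theorem pushP_W_eq (hc : M.Coprime p) (w : H99.AL Qb M p) (x : JZero (M * p)) :
    H67.pushP w.W.toAlgHom x = H67.wJ M p rfl hc x := by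
  have h1 : H67.IsAL M p w.W := H34.Two.isAL w p.2
    ((Nat.Prime.coprime_iff_not_dvd p.2).mp hc.symm)
  have h2 := H67.isAL_atkin (L := Qb) H67.embQbar M (p : ℕ) rfl hc
  have h3 := h1.unique h2
  rw [h3]
  rfl

end alpha

/-- The Kummer functions of a `p`-new embedding, in the form needed for the Galois bookkeeping. -/
def kumOf (E : NewEmb W p M S) (w : H99.AL Qb M p) {A : ValuationSubring Qb}
    [MulSemiringAction (A.inertiaSubgroupIn ℚ) (H99.FX Qb (M * p))]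
    (hG : ∀ (σ : A.inertiaSubgroupIn ℚ) (f : H99.FX Qb (M * p)),
      σ • f = arithmeticGalois (modularFunctionFieldFull (M * p)) (σ : GQ) • f)
    (N : H99.FX Qb (M * p) →* H99.FX Qb (M * p))
    (hN : ∀ f, N f = heckeAlphaBar Qb M p (H60.normAlong (heckeAlphaBar Qb M p) (w.W f)) *
      (w.W f)⁻¹)
    (U : Tor W p → H99.FX Qb (M * p)) (hU : ∀ x, IsKum p (E.ι x) (U x))
    (hfix : ∀ (x : Tor W p) (σ : GQ), σ • x = x →
      arithmeticGalois (modularFunctionFieldFull (M * p)) σ • U x = U x) :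
    H40.Kum Qb (A.inertiaSubgroupIn ℚ) (p : ℕ) (Tor W p) w.W N where
  U := U
  ne x := (hU x).ne_zero
  dvd x P := by
    obtain ⟨-, D, -, hD⟩ := hU x
    exact ⟨_, (hD P).symm⟩
  fix x σ hσ := by
    rw [hG]
    exact hfix x σ hσ
  add x y := by
    obtain ⟨h, hh, e⟩ := (hU (x + y)).unique p.2.ne_zero (by
      rw [map_add]
      exact (hU x).mul (hU y))
    exact ⟨h, hh, e⟩
  smul σ x := by
    have h1 := (hU x).smul (arithmeticGalois (modularFunctionFieldFull (M * p)) (σ : GQ))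
    have h2 : arithmeticGalois (modularFunctionFieldFull (M * p)) (σ : GQ) • E.ι x =
        E.ι ((σ : GQ) • x) := (E.galois (σ : GQ) x).symm
    rw [h2] at h1
    obtain ⟨h, hh, e⟩ := h1.unique p.2.ne_zero (hU ((σ : GQ) • x))
    refine ⟨h, hh, ?_⟩
    rw [hG]
    exact e
  inj x f hf := by
    have h1 : E.ι x = 0 := (hU x).eq_zero p.2.ne_zero (c := 1) (h := f) (by
      rw [map_one, one_mul, hf])
    exact (injective_iff_map_eq_zero E.ι).mp E.inj x h1
  rel x := by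
    have hWU : w.W (w.W (U x)) = U x := w.invol _
    have h1 := (hU x).pushP (heckeAlphaBar Qb M p)
    rw [pushP_alpha_eq (mul_dvd_mul_left _ (one_dvd _)), E.push_one] at h1
    obtain ⟨b, hb, e⟩ := h1.unique p.2.ne_zero (IsKum.one Qb)
    refine ⟨heckeAlphaBar Qb M p b, (map_ne_zero _).mpr hb, ?_⟩
    have hne := (hU x).ne_zero
    rw [hN, hWU, e, one_mul, map_pow]
    field_simp
  rel' x := by
    haveI : Fact (p : ℕ).Prime := ⟨p.2⟩
    have h0 : IsKum p (H67.pushP w.W.toAlgHom (E.ι x)) (w.W (U x)) := (hU x).atkin w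
    have h1 := h0.pushP (heckeAlphaBar Qb M p)
    rw [pushP_W_eq E.hc w, E.w, map_zsmul, pushP_alpha_eq (mul_dvd_mul_left _ (one_dvd _)),
      E.push_one, zsmul_zero] at h1
    obtain ⟨b, hb, e⟩ := h1.unique p.2.ne_zero (IsKum.one Qb)
    refine ⟨heckeAlphaBar Qb M p b, (map_ne_zero _).mpr hb, ?_⟩
    have hne := h0.ne_zero
    rw [hN, e, one_mul, map_pow]
    field_simp
  W_rel := by
    refine ⟨E.ε, fun x => ?_⟩
    haveI : Fact (p : ℕ).Prime := ⟨p.2⟩
    have h0 : IsKum p (H67.pushP w.W.toAlgHom (E.ι x)) (w.W (U x)) := (hU x).atkin w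
    rw [pushP_W_eq E.hc w, E.w] at h0
    obtain ⟨h, hh, e⟩ := h0.unique p.2.ne_zero (isKum_zpow (hU x) E.ε)
    exact ⟨h, hh, e⟩

/-! ### Auxiliary level -/

section Aux

variable {M₀ : ℕ} [NeZero M₀] [NeZero (M₀ * p)] {S₀ : Set ℕ}

/-- Fixed Kummer functions for an embedding. -/
theorem exists_kum_functions (E : NewEmb W p M S) : ∃ U : Tor W p → H99.FX Qb (M * p),
    (∀ x, IsKum p (E.ι x) (U x)) ∧ ∀ (x : Tor W p) (σ : GQ), σ • x = x →
      arithmeticGalois (modularFunctionFieldFull (M * p)) σ • U x = U x := by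
  have h1 : ∀ x : Tor W p, ∃ u : H99.FX Qb (M * p), IsKum p (E.ι x) u ∧ ∀ σ : GQ,
      σ • E.ι x = E.ι x → arithmeticGalois (modularFunctionFieldFull (M * p)) σ • u = u :=
    fun x => exists_fixed_kum (E.nsmul_ι x)
  choose U hU hfix using h1
  refine ⟨U, hU, fun x σ hσ => hfix x σ ?_⟩
  rw [← E.galois, hσ]

/-- Pull back of Kummer functions to an auxiliary level. -/
theorem isKum_dg (E₀ : NewEmb W p M₀ S₀) (E : NewEmb W p M S) (h : M₀ * p * 1 ∣ M * p)
    (hE : ∀ x, E.ι x = H67.degPull 1 h (E₀.ι x)) {U₀ : Tor W p → H99.FX Qb (M₀ * p)}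
    (hU₀ : ∀ x, IsKum p (E₀.ι x) (U₀ x)) (x : Tor W p) :
    IsKum p (E.ι x) (H67.dg Qb 1 h (U₀ x)) := by
  rw [hE]
  exact isKum_pullP (H67.dg Qb 1 h) (hU₀ x)

theorem fixed_dg (h : M₀ * p * 1 ∣ M * p) {U₀ : Tor W p → H99.FX Qb (M₀ * p)}
    (hfix : ∀ (x : Tor W p) (σ : GQ), σ • x = x →
      arithmeticGalois (modularFunctionFieldFull (M₀ * p)) σ • U₀ x = U₀ x)
    (x : Tor W p) (σ : GQ) (hσ : σ • x = x) :
    arithmeticGalois (modularFunctionFieldFull (M * p)) σ • H67.dg Qb 1 h (U₀ x) =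
      H67.dg Qb 1 h (U₀ x) := by
  rw [H67.dg_smul, hfix x σ hσ]

/-- The Kummer functions at the auxiliary level: the same functions as at the original level. -/
def kumAux (E₀ : NewEmb W p M₀ S₀) (E : NewEmb W p M S) (h : M₀ * p * 1 ∣ M * p)
    (hE : ∀ x, E.ι x = H67.degPull 1 h (E₀.ι x)) (w : H99.AL Qb M p) {A : ValuationSubring Qb}
    [MulSemiringAction (A.inertiaSubgroupIn ℚ) (H99.FX Qb (M * p))]
    (hG : ∀ (σ : A.inertiaSubgroupIn ℚ) (f : H99.FX Qb (M * p)),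
      σ • f = arithmeticGalois (modularFunctionFieldFull (M * p)) (σ : GQ) • f)
    (N : H99.FX Qb (M * p) →* H99.FX Qb (M * p))
    (hN : ∀ f, N f = heckeAlphaBar Qb M p (H60.normAlong (heckeAlphaBar Qb M p) (w.W f)) *
      (w.W f)⁻¹)
    (U₀ : Tor W p → H99.FX Qb (M₀ * p)) (hU₀ : ∀ x, IsKum p (E₀.ι x) (U₀ x))
    (hfix : ∀ (x : Tor W p) (σ : GQ), σ • x = x →
      arithmeticGalois (modularFunctionFieldFull (M₀ * p)) σ • U₀ x = U₀ x) :
    H40.Kum Qb (A.inertiaSubgroupIn ℚ) (p : ℕ) (Tor W p) w.W N :=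
  kumOf E w hG N hN (fun x => H67.dg Qb 1 h (U₀ x)) (isKum_dg E₀ E h hE hU₀) (fixed_dg h hfix)

theorem kumAux_U (E₀ : NewEmb W p M₀ S₀) (E : NewEmb W p M S) (h : M₀ * p * 1 ∣ M * p)
    (hE : ∀ x, E.ι x = H67.degPull 1 h (E₀.ι x)) (w : H99.AL Qb M p) {A : ValuationSubring Qb}
    [MulSemiringAction (A.inertiaSubgroupIn ℚ) (H99.FX Qb (M * p))]
    (hG : ∀ (σ : A.inertiaSubgroupIn ℚ) (f : H99.FX Qb (M * p)),
      σ • f = arithmeticGalois (modularFunctionFieldFull (M * p)) (σ : GQ) • f)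
    (N : H99.FX Qb (M * p) →* H99.FX Qb (M * p))
    (hN : ∀ f, N f = heckeAlphaBar Qb M p (H60.normAlong (heckeAlphaBar Qb M p) (w.W f)) *
      (w.W f)⁻¹)
    (U₀ : Tor W p → H99.FX Qb (M₀ * p)) (hU₀ : ∀ x, IsKum p (E₀.ι x) (U₀ x))
    (hfix : ∀ (x : Tor W p) (σ : GQ), σ • x = x →
      arithmeticGalois (modularFunctionFieldFull (M₀ * p)) σ • U₀ x = U₀ x) (x : Tor W p) :
    (kumAux E₀ E h hE w hG N hN U₀ hU₀ hfix).U x = H67.dg Qb 1 h (U₀ x) := rfl

end Aux

end Fermat.Agent.H44K
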