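import Fermat.Agent.H97MdK

/-!
# The two-sheet structure and the semistable model of `X_0(mq)` in characteristic `q`
-/

set_option autoImplicit false
set_option linter.unusedSectionVars false
set_option linter.style.haveILetI false

noncomputable section

open AlgebraicCurve ModularCurve IntermediateField Fermat.Agent.H34.Two

namespace Fermat.Agent.H97

section Tw

variable (k : Type*) [Field k] (m q : ℕ) [hq : Fact q.Prime] [CharP k q] [IsAlgClosed k]

/-- The twist of places by the Frobenius. -/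
def twP : Place k (modularFunctionFieldFullC k m) ≃ Place k (modularFunctionFieldFullC k m) :=
  MulAction.toPerm (H60.coeffAut m (frobC k q))⁻¹

theorem twP_val (x : Place k (modularFunctionFieldFullC k m)) (h : modularFunctionFieldFullC k m) :
    x.adicValuation (sig k m q h) = (twP k m q x).adicValuation h := by
  have h1 := H89SS.adicValuation_smul (H60.coeffAut m (frobC k q))⁻¹ x
    (H60.coeffAut m (frobC k q) • h)
  rw [inv_smul_smul] at h1
  exact h1.symm

theorem twP_apply (x : Place k (modularFunctionFieldFullC k m)) :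
    twP k m q x = (H60.coeffAut m (frobC k q))⁻¹ • x := rfl

end Tw

theorem arch_val {L : Type*} [Field L] {A : ValuationSubring L} (h : Arch A) (c d : L)
    (hc : A.valuation c < 1) (hd : d ≠ 0) : ∃ n : ℕ, A.valuation c ^ n < A.valuation d := by
  have hd0 : 0 < A.valuation d := zero_lt_iff.mpr ((Valuation.ne_zero_iff _).mpr hd)
  by_cases hd1 : A.valuation d ≤ 1
  swap
  · exact ⟨0, by rw [pow_zero]; exact not_le.mp hd1⟩
  by_cases hc0 : c = 0
  · exact ⟨1, by rw [hc0, map_zero, pow_one]; exact hd0⟩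
  have hcA := (A.valuation_le_one_iff c).mp hc.le
  have hdA := (A.valuation_le_one_iff d).mp hd1
  have hu : ¬ IsUnit (⟨c, hcA⟩ : A) := by
    intro hu
    have := (A.valuation_eq_one_iff _).mp hu
    exact hc.ne this
  obtain ⟨n, e, he⟩ := h ⟨c, hcA⟩ ⟨d, hdA⟩ hu (fun h0 => hd (congrArg Subtype.val h0))
  refine ⟨n + 1, ?_⟩
  have h1 : c ^ n = d * (e : L) := congrArg Subtype.val he
  have h2 : A.valuation c ^ n ≤ A.valuation d := by
    rw [← map_pow, h1, map_mul]
    exact mul_le_of_le_one_right' (A.valuation_le_one e)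
  have hcn : 0 < A.valuation c ^ n := by
    rw [← map_pow]; exact zero_lt_iff.mpr ((Valuation.ne_zero_iff _).mpr (pow_ne_zero _ hc0))
  calc A.valuation c ^ (n + 1) = A.valuation c ^ n * A.valuation c := pow_succ _ _
    _ < A.valuation c ^ n * 1 := mul_lt_mul_of_pos_left hc hcn
    _ = A.valuation c ^ n := mul_one _
    _ ≤ A.valuation d := h2

section Inst

variable {L : Type*} [Field L] [Algebra ℚ L] {A : ValuationSubring L} {k : Type*} [Field k]
  {π : A →+* k} {m q : ℕ} [NeZero m] [NeZero q] [hq : Fact q.Prime]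
  [CharP k q] [IsAlgClosed k] [Infinite k] (w : H99.AL L m q)
  (hπ : Function.Surjective π)
  (hdeg : H42.DegLE L k m) (hqm : ¬ q ∣ m)
  [IsAlgClosed L] [CharZero L] [IsLocalHom π] (arch : Arch A)
  (r : Place L (H99.FX L m) → Place k (modularFunctionFieldFullC k m))

include hdeg in
theorem isFF_right : H3RR.IsFF k (modularFunctionFieldFullC k m) :=
  ⟨(H42.funField_right (L := L) m hdeg).out⟩

theorem comp0_comp : Comp A.valuation (resK π) (v0 A π w hπ (H42.degreeFact L) hdeg hqm)
    (comp0 A π w hπ (H42.degreeFact L) hdeg hqm).red := by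
  have : H3RR.IsFF L (H99.FX L m) := isFF_FF L m
  refine comp_of_H84 hπ _ (x := jm L m) (jm_mem A π) ?_
  have h1 : (comp0 A π w hπ (H42.degreeFact L) hdeg hqm).red (jm L m) = jk k m := by
    apply Subtype.ext
    rw [coe_red0, red_jm]
    rfl
  rw [h1]
  exact transcendental_jk

theorem comp1_comp : Comp A.valuation (resK π) (v1 A π w hπ (H42.degreeFact L) hdeg hqm)
    (comp1 A π w hπ (H42.degreeFact L) hdeg hqm).red := by
  have : H3RR.IsFF L (H99.FX L (m * q)) := isFF_FF L (m * q)
  refine comp_of_H84 hπ _ (x := jmq L m q) (jmq_mem1 A π w hπ _ hdeg hqm) ?_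
  rw [red1_jmq]
  exact transcendental_jk

theorem comp2_comp : Comp A.valuation (resK π) (v2 A π w hπ (H42.degreeFact L) hdeg hqm)
    (comp2 A π w hπ (H42.degreeFact L) hdeg hqm).red := by
  have : H3RR.IsFF L (H99.FX L (m * q)) := isFF_FF L (m * q)
  refine comp_of_H84 hπ _ (x := jmq L m q) (jmq_mem2 A π w hπ _ hdeg hqm) ?_
  rw [red2_jmq]
  exact transcendental_jk.pow hq.out.pos

/-- The pair of valuations. -/
def vv (i : Bool) : Valuation (H99.FX L (m * q)) A.ValueGroup :=
  cond i (v2 A π w hπ (H42.degreeFact L) hdeg hqm) (v1 A π w hπ (H42.degreeFact L) hdeg hqm)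

theorem vv_alg (i : Bool) (c : L) : vv w hπ hdeg hqm i (algebraMap L _ c) = A.valuation c := by
  cases i
  · exact compVal_algebraMap hπ _ c
  · exact compVal_algebraMap hπ _ c

theorem rel_inst (f : H99.FX L (m * q)) (hf : ∀ i, vv w hπ hdeg hqm i f ≤ 1) :
    ∃ (n : ℕ) (a : ℕ → H99.FX L m),
      (∀ i, v0 A π w hπ (H42.degreeFact L) hdeg hqm (a i) ≤ 1) ∧
      f ^ n = ∑ i ∈ Finset.range n, heckeAlphaBar L m q (a i) * f ^ i ∧
      ∀ P' : Place L (H99.FX L m), (∀ P : Place L (H99.FX L (m * q)),
        (∀ b : H99.FX L m, b ∈ P'.toValuationSubring ↔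
          heckeAlphaBar L m q b ∈ P.toValuationSubring) → f ∈ P.toValuationSubring) →
          ∀ i, a i ∈ P'.toValuationSubring := by
  have i1 : H3RR.IsFF L (H99.FX L m) := isFF_FF L m
  have i2 : H3RR.IsFF L (H99.FX L (m * q)) := isFF_FF L (m * q)
  have i3 : H94.FunField L (H99.FX L m) := H3RR.funField_of_isFF
  have i4 : H94.FunField L (H99.FX L (m * q)) := H3RR.funField_of_isFF
  exact rel_of_norm (heckeAlphaBar L m q) (vK := A.valuation)
    (v₀ := v0 A π w hπ (H42.degreeFact L) hdeg hqm) (compVal_algebraMap hπ _)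
    (v := vv w hπ hdeg hqm) (vv_alg w hπ hdeg hqm) (fun f hf => by
      rw [v0_norm]
      exact mul_le_one' (hf false) (pow_le_one' (hf true) q))
    (exists_nodes hπ) f hf

/-- **The two-sheet structure of `X_0(mq) → X_0(m)` in characteristic `q`.** -/
def sheets {c : ℕ}
    (hr1 : ∀ D : Divisor L (H99.FX L m), (c : ℤ) < Divisor.degree D →
      (H42.modReductionData A π m hπ hdeg).IsRed D (Finsupp.mapDomain r D))
    (hr2 : H34.GR.DivCompat (H42.modReductionData A π m hπ hdeg) r) :
    Sheets L (H99.FX L m) (H99.FX L (m * q)) k (modularFunctionFieldFullC k m)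
      A.ValueGroup q where
  φ := heckeAlphaBar L m q
  vK := A.valuation
  res := resK π
  v₀ := v0 A π w hπ (H42.degreeFact L) hdeg hqm
  ρ₀ := (comp0 A π w hπ (H42.degreeFact L) hdeg hqm).red
  comp₀ := comp0_comp w hπ hdeg hqm
  v := vv w hπ hdeg hqm
  ρ i := cond i (comp2 A π w hπ (H42.degreeFact L) hdeg hqm).red
    (comp1 A π w hπ (H42.degreeFact L) hdeg hqm).red
  comp i := by
    cases i
    · exact comp1_comp w hπ hdeg hqm
    · exact comp2_comp w hπ hdeg hqm
  res_surj := resK_surj hπ
  arch := arch_val arch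
  r := r
  deg₀ := by
    intro f hf hv D hD x
    obtain ⟨h, hρ⟩ := mem_R_of_v0 A π w hπ (H42.degreeFact L) hdeg hqm hv.le
    have h1 := hr2 ⟨f, h⟩ (by rw [hρ]; exact (compVal_eq_one_iff hπ _).mp hv) D hD x
    rw [hρ] at h1
    exact h1
  lift₀ := by
    intro x h hx
    have i1 : H3RR.IsFF L (H99.FX L m) := isFF_FF L m
    have i2 : H3RR.IsFF k (modularFunctionFieldFullC k m) := isFF_right (L := L) hdeg
    have i3 : H94.FunField L (H99.FX L m) := H3RR.funField_of_isFF
    have i4 : H94.FunField k (modularFunctionFieldFullC k m) := H3RR.funField_of_isFF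
    have i5 : HasPrincipalDivisors L (H99.FX L m) := H18.hasPrincipalDivisors _ _
    have i6 : HasPrincipalDivisors k (modularFunctionFieldFullC k m) :=
      H18.hasPrincipalDivisors _ _
    obtain ⟨b, hb, hreg⟩ := lift_of_isRed (H42.modReductionData A π m hπ hdeg)
      (H34.GR.surjective_of_divCompat hr2) hr1 (fun v => H94.deg_eq_one v) x h hx
    have hv := v0_le_of_mem_R A π w hπ (H42.degreeFact L) hdeg hqm b
    refine ⟨b, hv, hreg, ?_⟩
    obtain ⟨h', hρ⟩ := mem_R_of_v0 A π w hπ (H42.degreeFact L) hdeg hqm hv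
    rw [← hρ, ← hb]
  σ := sig k m q
  Φ := (phi k m q : modularFunctionFieldFullC k m →+* modularFunctionFieldFullC k m)
  Φσ := by
    intro h
    apply Subtype.ext
    exact qExpand_sig k m q h
  tw := twP k m q
  tw_val := twP_val k m q
  σ_alg c := by
    apply Subtype.ext
    rw [coe_sig]
    exact coeffMap_algebraMap _ c
  Φ_alg c := (phi k m q).commutes c
  v_φ i b := by
    cases i
    · exact v1_alpha A π w hπ _ hdeg hqm b
    · exact v2_alpha A π w hπ _ hdeg hqm b
  ρ_false b _ := red1_alpha A π w hπ _ hdeg hqm b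
  ρ_true b _ := red2_alpha A π w hπ _ hdeg hqm b
  norm_val f := v0_norm A π w hπ _ hdeg hqm f
  norm_red f h1 h2 := red0_norm A π w hπ _ hdeg hqm h1 h2
  rel := rel_inst w hπ hdeg hqm

end Inst

end Fermat.Agent.H97
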