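import Fermat.Agent.H40Book
import Fermat.Agent.H97MdL
import Fermat.Agent.H33NormN

/-!
# The norm operator `N f (q) = ∏ f (ζ^i q^(1/p))` on `X_0(Mp)` (helper40)
-/

set_option autoImplicit false
set_option linter.unusedSectionVars false

noncomputable section

open ModularCurve AlgebraicCurve HahnSeries Fermat.Agent.H34.Two Fermat.Agent.H60

namespace Fermat.Agent.H40.Nrm

local notation "Qb" => AlgebraicClosure ℚ
local notation "Gq" => AlgebraicClosure ℚ ≃ₐ[ℚ] AlgebraicClosure ℚ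

section Def

variable {p : ℕ} [Fact p.Prime] [NeZero p] {M : ℕ} [NeZero M]

theorem normOp_zero (ζ : Qbˣ) (hζ : IsPrimitiveRoot ζ p) :
    H33.normOp p ζ (0 : LaurentSeries Qb) = 0 := by
  apply qExpand_injective p
  have hp : p.Prime := Fact.out
  rw [H33.qExpand_normOp p hζ, H33.prodTwist, map_zero]
  obtain ⟨q, hq⟩ : ∃ q, p = q + 1 := ⟨p - 1, by have := hp.two_le; omega⟩
  refine Finset.prod_eq_zero (i := 0) ?_ (map_zero _)
  rw [hq]
  simp

/-- The norm operator does not depend on the root of unity. -/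
theorem normOp_indep (hpM : ¬ p ∣ M) {ζ ζ' : Qbˣ} (hζ : IsPrimitiveRoot ζ p)
    (hζ' : IsPrimitiveRoot ζ' p) {f : LaurentSeries Qb} (hf : f ∈ H99.FX Qb (M * p)) :
    H33.normOp p ζ f = H33.normOp p ζ' f := by
  obtain ⟨w⟩ : Nonempty (H99.AL Qb M p) := by
    have hp : p.Prime := Fact.out
    exact H99.nonempty_AL H67.embQbar ((Nat.Prime.coprime_iff_not_dvd hp).2 hpM).symm
  by_cases hf0 : f = 0
  · rw [hf0, normOp_zero ζ hζ, normOp_zero ζ' hζ']
  have h := H33.coe_normAlong_alpha w hpM hζ (w.W ⟨f, hf⟩)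
  have h' := H33.coe_normAlong_alpha w hpM hζ' (w.W ⟨f, hf⟩)
  rw [w.invol] at h h'
  have hne : (w.W ⟨f, hf⟩ : LaurentSeries Qb) ≠ 0 := by
    intro h0
    have h1 : w.W ⟨f, hf⟩ = 0 := Subtype.ext h0
    have h2 : (⟨f, hf⟩ : H99.FX Qb (M * p)) = 0 := w.W.injective (by rw [h1, map_zero])
    exact hf0 (congrArg Subtype.val h2)
  rw [h] at h'
  exact mul_left_cancel₀ hne h'

/-- The norm operator. -/
def nOp (hpM : ¬ p ∣ M) {ζ : Qbˣ} (hζ : IsPrimitiveRoot ζ p) :
    H99.FX Qb (M * p) →* H99.FX Qb (M * p) where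
  toFun f := ⟨H33.normOp p ζ (f : LaurentSeries Qb), H33.normOp_mem hpM hζ f.2⟩
  map_one' := Subtype.ext (H33.normOp_one p hζ)
  map_mul' _ _ := Subtype.ext (H33.normOp_mul p hζ _ _)

theorem coe_nOp (hpM : ¬ p ∣ M) {ζ : Qbˣ} (hζ : IsPrimitiveRoot ζ p) (f : H99.FX Qb (M * p)) :
    (nOp hpM hζ f : LaurentSeries Qb) = H33.normOp p ζ (f : LaurentSeries Qb) := rfl

theorem nOp_zero (hpM : ¬ p ∣ M) {ζ : Qbˣ} (hζ : IsPrimitiveRoot ζ p) :
    nOp hpM hζ (0 : H99.FX Qb (M * p)) = 0 := Subtype.ext (normOp_zero ζ hζ)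

/-- The norm to level `M` in terms of the norm operator. -/
theorem alpha_normAlong (w : H99.AL Qb M p) (hpM : ¬ p ∣ M) {ζ : Qbˣ} (hζ : IsPrimitiveRoot ζ p)
    (z : H99.FX Qb (M * p)) :
    heckeAlphaBar Qb M p (H60.normAlong (heckeAlphaBar Qb M p) z) = z * nOp hpM hζ (w.W z) := by
  apply Subtype.ext
  rw [coe_heckeAlphaBar, H33.coe_normAlong_alpha w hpM hζ z]
  rfl

/-- Galois equivariance. -/
theorem nOp_galois (hpM : ¬ p ∣ M) {ζ : Qbˣ} (hζ : IsPrimitiveRoot ζ p) (σ : Gq)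
    (f : H99.FX Qb (M * p)) :
    arithmeticGalois (modularFunctionFieldFull (M * p)) σ • nOp hpM hζ f =
      nOp hpM hζ (arithmeticGalois (modularFunctionFieldFull (M * p)) σ • f) := by
  apply Subtype.ext
  have h1 : ((arithmeticGalois (modularFunctionFieldFull (M * p)) σ • nOp hpM hζ f :
      H99.FX Qb (M * p)) : LaurentSeries Qb) =
      coeffMap (σ : Qb →+* Qb) (nOp hpM hζ f : LaurentSeries Qb) :=
    coe_arithmeticGalois_smul _ _ _
  have h2 : ((arithmeticGalois (modularFunctionFieldFull (M * p)) σ • f :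
      H99.FX Qb (M * p)) : LaurentSeries Qb) = coeffMap (σ : Qb →+* Qb) (f : LaurentSeries Qb) :=
    coe_arithmeticGalois_smul _ _ _
  rw [h1, coe_nOp, coe_nOp, h2, H33.coeffMap_normOp]
  refine normOp_indep hpM ?_ hζ ?_
  · exact hζ.map_of_injective (f := Units.map ((σ : Qb →+* Qb) : Qb →* Qb))
      (Units.map_injective σ.injective)
  · rw [← h2]; exact SetLike.coe_mem _

end Def

section Close

theorem coeffMap_CC {L : Type*} [Field L] {p : ℕ} [NeZero p] (c : L) (u : Lˣ) :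
    twist u (algebraMap L (LaurentSeries L) c) = algebraMap L (LaurentSeries L) c := by
  rw [algebraMap_laurentSeries_eq_single]
  ext n
  rw [twist_coeff]
  by_cases hn : n = 0
  · subst hn; simp
  · rw [HahnSeries.coeff_single_of_ne hn, mul_zero]

theorem qExpand_CC {L : Type*} [Field L] {p : ℕ} [NeZero p] (c : L) :
    qExpand L p (algebraMap L (LaurentSeries L) c) = algebraMap L (LaurentSeries L) c := by
  rw [algebraMap_laurentSeries_eq_single, qExpand_single, mul_zero]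

variable {L : Type*} [Field L] (A : ValuationSubring L) {k : Type*} [Field k] (π : A →+* k)

theorem const_mem_locL (a : A) : ∃ h : algebraMap L (LaurentSeries L) (a : L) ∈ locL A π,
    resL A π ⟨_, h⟩ = algebraMap k (LaurentSeries k) (π a) := by
  have h1 : algebraMap L (LaurentSeries L) (a : L) =
      coeffMap A.subtype (HahnSeries.single 0 a) := by
    rw [algebraMap_laurentSeries_eq_single]
    ext n
    rw [coeffMap_coeff]
    by_cases hn : n = 0
    · subst hn; simp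
    · rw [HahnSeries.coeff_single_of_ne hn, HahnSeries.coeff_single_of_ne hn, map_zero]
  have h2 : algebraMap L (LaurentSeries L) (a : L) ∈ locL A π := by
    rw [h1]; exact coeffMap_mem_locL A π _
  refine ⟨h2, ?_⟩
  have h3 : (⟨_, h2⟩ : locL A π) = ⟨_, coeffMap_mem_locL A π (HahnSeries.single 0 a)⟩ :=
    Subtype.ext h1
  rw [h3, resL_coeffMap, algebraMap_laurentSeries_eq_single]
  ext n
  rw [coeffMap_coeff]
  by_cases hn : n = 0
  · subst hn; simp
  · rw [HahnSeries.coeff_single_of_ne hn, HahnSeries.coeff_single_of_ne hn, map_zero]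

/-- `∏ (1 + c gᵢ) = 1 + c ∑ gᵢ + c² e`. -/
theorem prod_one_add {R : Type*} [CommRing R] {ι : Type*} [DecidableEq ι] (s : Finset ι) (c : R)
    (g : ι → R) : ∃ e : R, ∏ i ∈ s, (1 + c * g i) = 1 + c * ∑ i ∈ s, g i + c ^ 2 * e := by
  induction s using Finset.induction_on with
  | empty => exact ⟨0, by simp⟩
  | insert a s ha ih =>
    obtain ⟨e, he⟩ := ih
    refine ⟨g a * ∑ i ∈ s, g i + e + c * g a * e, ?_⟩
    rw [Finset.prod_insert ha, Finset.sum_insert ha, he]
    ring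

variable {A π} {p : ℕ} [Fact p.Prime] [NeZero p] [CharP k p]

/-- The product of the twists of `1 + c g`. -/
theorem prodTwist_close {ζ : Aˣ} (hζ : Units.map (π : A →* k) ζ = 1) {g : LaurentSeries L}
    (hg : g ∈ locL A π) {c : A} (hc : π c = 0) :
    ∃ z : LaurentSeries L, ∃ hz : z ∈ locL A π, resL A π ⟨z, hz⟩ = 0 ∧
      H33.prodTwist p (Units.map (A.subtype : A →* L) ζ)
        (1 + algebraMap L (LaurentSeries L) (c : L) * g) =
      1 + algebraMap L (LaurentSeries L) (c : L) * z := by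
  classical
  obtain ⟨hcm, hcr⟩ := const_mem_locL A π c
  have h1 : ∀ i : ℕ, ∃ h : twist ((Units.map (A.subtype : A →* L) ζ) ^ i) g ∈ locL A π,
      resL A π ⟨_, h⟩ = resL A π ⟨g, hg⟩ := by
    intro i
    rw [← map_pow]
    exact H89HU.twist_mem_locL (by rw [map_pow, hζ, one_pow]) hg
  choose h2 h3 using h1
  let C : locL A π := ⟨_, hcm⟩
  let gg : ℕ → locL A π := fun i => ⟨_, h2 i⟩
  obtain ⟨e, he⟩ := prod_one_add (Finset.range p) C gg
  refine ⟨_, (∑ i ∈ Finset.range p, gg i + C * e).2, ?_, ?_⟩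
  · change resL A π (∑ i ∈ Finset.range p, gg i + C * e) = 0
    have hC : resL A π C = 0 := by
      change resL A π ⟨_, hcm⟩ = 0
      rw [hcr, hc, map_zero]
    have hsum : ∀ i ∈ Finset.range p, resL A π (gg i) = resL A π ⟨g, hg⟩ := fun i _ => h3 i
    rw [map_add, map_mul, hC, zero_mul, add_zero, map_sum, Finset.sum_congr rfl hsum,
      Finset.sum_const, Finset.card_range, nsmul_eq_mul]
    have hchar : CharP (LaurentSeries k) p :=
      charP_of_injective_algebraMap (algebraMap k (LaurentSeries k)).injective p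
    rw [CharP.cast_eq_zero, zero_mul]
  · have h4 : H33.prodTwist p (Units.map (A.subtype : A →* L) ζ)
        (1 + algebraMap L (LaurentSeries L) (c : L) * g) =
        ((∏ i ∈ Finset.range p, (1 + C * gg i) : locL A π) : LaurentSeries L) := by
      rw [H33.prodTwist]
      push_cast
      refine Finset.prod_congr rfl fun i _ => ?_
      rw [map_add, map_one, map_mul, coeffMap_CC (p := p)]
    rw [h4, he]
    push_cast
    ring

end Close

section Main

variable {p : ℕ} [Fact p.Prime] [NeZero p] {M : ℕ} [NeZero M]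
  {A : ValuationSubring Qb} {k : Type*} [Field k] {π : A →+* k} [CharP k p] [Infinite k]
  (w : H99.AL Qb M p) (hπ : Function.Surjective π) (hD : H67.DegreeFact Qb)
  (hdeg : H42.DegLE Qb k M) (hpM : ¬ p ∣ M)

theorem v1_lt_one_iff (z : H99.FX Qb (M * p)) :
    H97.v1 A π w hπ hD hdeg hpM z < 1 ↔
      ∃ h : (z : LaurentSeries Qb) ∈ locL A π, resL A π ⟨_, h⟩ = 0 := by
  have hS := comp1_scalable A π w hπ hD hdeg hpM
  have h1 := H97.compVal_le_one_iff (C := comp1 A π w hπ hD hdeg hpM) hπ hS (f := z)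
  have hmem : z ∈ (comp1 A π w hπ hD hdeg hpM).V ↔ (z : LaurentSeries Qb) ∈ locL A π := Iff.rfl
  have hred : ∀ h : (z : LaurentSeries Qb) ∈ locL A π,
      ((comp1 A π w hπ hD hdeg hpM).red z : LaurentSeries k) = resL A π ⟨_, h⟩ := by
    intro h
    rw [coe_red1]
    exact (gC A π (M * p)).red_of_mem h
  have hiff : ∀ h : (z : LaurentSeries Qb) ∈ locL A π,
      (H97.v1 A π w hπ hD hdeg hpM z < 1 ↔ resL A π ⟨_, h⟩ = 0) := by
    intro h
    have h2 := H97.red_eq_zero_iff (C := comp1 A π w hπ hD hdeg hpM) hπ hS (f := z)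
      (h1.mpr (hmem.mpr h))
    rw [← hred h, ZeroMemClass.coe_eq_zero]
    exact h2.symm
  constructor
  · intro h
    have h3 : (z : LaurentSeries Qb) ∈ locL A π := hmem.mp (h1.mp h.le)
    exact ⟨h3, (hiff h3).mp h⟩
  · rintro ⟨h, h0⟩
    exact (hiff h).mpr h0

theorem v1_le_one_iff (z : H99.FX Qb (M * p)) :
    H97.v1 A π w hπ hD hdeg hpM z ≤ 1 ↔ (z : LaurentSeries Qb) ∈ locL A π :=
  H97.compVal_le_one_iff (C := comp1 A π w hπ hD hdeg hpM) hπ
    (comp1_scalable A π w hπ hD hdeg hpM) (f := z)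

theorem v1_alg (c : Qb) : H97.v1 A π w hπ hD hdeg hpM (algebraMap Qb _ c) = A.valuation c :=
  H97.compVal_algebraMap hπ _ c

theorem v1_scale (f : H99.FX Qb (M * p)) (hf : f ≠ 0) :
    ∃ c : Qb, c ≠ 0 ∧ H97.v1 A π w hπ hD hdeg hpM f = A.valuation c := by
  obtain ⟨c, hc, hcf⟩ := comp1_scalable A π w hπ hD hdeg hpM f hf
  refine ⟨c⁻¹, inv_ne_zero hc, ?_⟩
  rw [map_inv₀]
  exact H97.compVal_of_scale hπ _ hc hcf

omit [NeZero M] [Infinite k] in
/-- Roots of unity in the valuation ring. -/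
theorem exists_unit [IsLocalHom π] {ζ : Qbˣ} (hζ : IsPrimitiveRoot ζ p) :
    ∃ ζA : Aˣ, Units.map (A.subtype : A →* Qb) ζA = ζ ∧ Units.map (π : A →* k) ζA = 1 := by
  have hp : p.Prime := Fact.out
  have h1 : ((ζ : Qbˣ) : Qb) ^ p = 1 := by
    rw [← Units.val_pow_eq_pow_val, hζ.pow_eq_one, Units.val_one]
  have hv : A.valuation (ζ : Qb) = 1 := by
    have h2 := congrArg A.valuation h1
    rw [map_pow, map_one] at h2
    exact (pow_eq_one_iff_of_nonneg zero_le hp.ne_zero).mp h2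
  have hmem : (ζ : Qb) ∈ A := (A.valuation_le_one_iff _).mp hv.le
  have hu : IsUnit (⟨(ζ : Qb), hmem⟩ : A) := (A.valuation_eq_one_iff _).mpr hv
  refine ⟨hu.unit, Units.ext ?_, Units.ext ?_⟩
  · show A.subtype ((hu.unit : Aˣ) : A) = _
    rw [IsUnit.unit_spec]
    rfl
  · show π ((hu.unit : Aˣ) : A) = 1
    rw [IsUnit.unit_spec]
    have h3 : (π ⟨(ζ : Qb), hmem⟩) ^ p = 1 := by
      rw [← map_pow]
      have h4 : (⟨(ζ : Qb), hmem⟩ : A) ^ p = 1 := Subtype.ext h1
      rw [h4, map_one]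
    have h4 : (π ⟨(ζ : Qb), hmem⟩ - 1) ^ p = 0 := by rw [sub_pow_char, h3, one_pow, sub_self]
    exact sub_eq_zero.mp (pow_eq_zero_iff hp.ne_zero |>.mp h4)

/-- **Contraction.** -/
theorem nOp_close [IsLocalHom π] {ζ : Qbˣ} (hζ : IsPrimitiveRoot ζ p) (f : H99.FX Qb (M * p))
    (r : A.ValueGroup) (hr0 : 0 < r) (hr1 : r < 1)
    (hf : H97.v1 A π w hπ hD hdeg hpM (f - 1) ≤ r) :
    H97.v1 A π w hπ hD hdeg hpM (nOp hpM hζ f - 1) < r := by
  have hp : p.Prime := Fact.out
  set v := H97.v1 A π w hπ hD hdeg hpM with hv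
  by_cases hf1 : f = 1
  · rw [hf1, map_one, sub_self, map_zero]
    exact hr0
  obtain ⟨c, hc0, hc⟩ := v1_scale w hπ hD hdeg hpM (f - 1) (sub_ne_zero.mpr hf1)
  rw [← hv] at hc
  have hcF : algebraMap Qb (H99.FX Qb (M * p)) c ≠ 0 := (_root_.map_ne_zero _).mpr hc0
  have hvc : 0 < A.valuation c := zero_lt_iff.mpr ((Valuation.ne_zero_iff _).mpr hc0)
  have hc1 : A.valuation c < 1 := by rw [← hc]; exact hf.trans_lt hr1
  have hcA : c ∈ A := (A.valuation_le_one_iff c).mp hc1.le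
  have hπc : π ⟨c, hcA⟩ = 0 := by
    by_contra h0
    have h1 : IsUnit (π ⟨c, hcA⟩) := isUnit_iff_ne_zero.mpr h0
    have h2 : IsUnit (⟨c, hcA⟩ : A) := (isUnit_map_iff π _).mp h1
    have h3 := (A.valuation_eq_one_iff _).mp h2
    exact hc1.ne h3
  set g := (f - 1) / algebraMap Qb (H99.FX Qb (M * p)) c with hg
  have hvg : v g ≤ 1 := by
    rw [hg, map_div₀, hc, hv, v1_alg, div_self hvc.ne']
  have hgl : (g : LaurentSeries Qb) ∈ locL A π := (v1_le_one_iff w hπ hD hdeg hpM g).mp hvg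
  have hfg : (f : LaurentSeries Qb) =
      1 + algebraMap Qb (LaurentSeries Qb) c * (g : LaurentSeries Qb) := by
    have h1 : f = 1 + algebraMap Qb (H99.FX Qb (M * p)) c * g := by
      rw [hg, mul_div_cancel₀ _ hcF]; ring
    conv_lhs => rw [h1]
    rfl
  obtain ⟨ζA, hζA, hζ1⟩ := exists_unit (π := π) (A := A) hζ
  obtain ⟨z', hz', hz'0, hprod⟩ := prodTwist_close (p := p) hζ1 hgl hπc
  rw [hζA] at hprod
  -- the function `z`
  set z := (nOp hpM hζ f - 1) / algebraMap Qb (H99.FX Qb (M * p)) c with hz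
  have hNz : nOp hpM hζ f - 1 = algebraMap Qb (H99.FX Qb (M * p)) c * z := by
    rw [hz, mul_div_cancel₀ _ hcF]
  have hcL : algebraMap Qb (LaurentSeries Qb) c ≠ 0 := (_root_.map_ne_zero _).mpr hc0
  have hqz : qExpand Qb p (z : LaurentSeries Qb) = z' := by
    have h1 : qExpand Qb p (nOp hpM hζ f : LaurentSeries Qb) =
        1 + algebraMap Qb (LaurentSeries Qb) c * z' := by
      rw [coe_nOp, H33.qExpand_normOp p hζ, hfg]
      exact hprod
    have h2 : (nOp hpM hζ f : LaurentSeries Qb) =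
        1 + algebraMap Qb (LaurentSeries Qb) c * (z : LaurentSeries Qb) := by
      have h3 : nOp hpM hζ f = 1 + algebraMap Qb (H99.FX Qb (M * p)) c * z := by
        rw [← hNz]; ring
      conv_lhs => rw [h3]
      rfl
    rw [h2, map_add, map_one, map_mul, qExpand_CC] at h1
    exact mul_left_cancel₀ hcL (add_left_cancel h1)
  have hvz : v z < 1 := by
    by_contra hcon
    rw [not_lt] at hcon
    have hz0 : z ≠ 0 := by
      intro h0
      rw [h0, map_zero] at hcon
      exact absurd hcon (not_le.mpr zero_lt_one)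
    obtain ⟨d, hd0, hd⟩ := v1_scale w hπ hD hdeg hpM z hz0
    rw [← hv] at hd
    have hdF : algebraMap Qb (H99.FX Qb (M * p)) d ≠ 0 := (_root_.map_ne_zero _).mpr hd0
    have hvd : 0 < A.valuation d := zero_lt_iff.mpr ((Valuation.ne_zero_iff _).mpr hd0)
    have hdinv : d⁻¹ ∈ A := by
      rw [← A.valuation_le_one_iff, map_inv₀]
      rw [hd] at hcon
      exact inv_le_one_of_one_le₀ hcon
    set y := z / algebraMap Qb (H99.FX Qb (M * p)) d with hy
    have hvy : v y = 1 := by rw [hy, map_div₀, hd, hv, v1_alg, div_self hvd.ne']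
    have hyl : (y : LaurentSeries Qb) ∈ locL A π := (v1_le_one_iff w hπ hD hdeg hpM y).mp hvy.le
    have hyr : resL A π ⟨_, hyl⟩ ≠ 0 := by
      intro h0
      have := (v1_lt_one_iff w hπ hD hdeg hpM y).mpr ⟨hyl, h0⟩
      rw [← hv, hvy] at this
      exact lt_irrefl _ this
    obtain ⟨hq1, hq2⟩ := H89HU.qExpand_mem_locL (π := π) p hyl
    obtain ⟨hd1, hd2⟩ := const_mem_locL A π ⟨d⁻¹, hdinv⟩
    have h4 : qExpand Qb p (y : LaurentSeries Qb) =
        algebraMap Qb (LaurentSeries Qb) (d⁻¹) * z' := by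
      have h5 : (y : LaurentSeries Qb) =
          algebraMap Qb (LaurentSeries Qb) (d⁻¹) * (z : LaurentSeries Qb) := by
        have h6 : y = algebraMap Qb (H99.FX Qb (M * p)) (d⁻¹) * z := by
          rw [hy, map_inv₀, div_eq_inv_mul]
        conv_lhs => rw [h6]
        rfl
      rw [h5, map_mul, qExpand_CC, hqz]
    have h6 : (⟨_, hq1⟩ : locL A π) = ⟨_, hd1⟩ * ⟨z', hz'⟩ := Subtype.ext h4
    rw [h6, map_mul, hz'0, mul_zero] at hq2
    exact hyr (qExpand_injective p (by rw [← hq2, map_zero]))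
  rw [hNz, map_mul, hv, v1_alg, ← hv]
  calc A.valuation c * v z < A.valuation c * 1 := mul_lt_mul_of_pos_left hvz hvc
    _ = A.valuation c := mul_one _
    _ ≤ r := by rw [← hc]; exact hf

/-- **The structure `NOp` for the semistable model of `X_0(Mp)`.** -/
theorem nop_inst [IsLocalHom π] {ζ : Qbˣ} (hζ : IsPrimitiveRoot ζ p)
    {Fb ν G : Type*} [Field Fb] [Algebra k Fb] [Group G] [MulSemiringAction G Qb]
    [MulSemiringAction G (H99.FX Qb (M * p))]
    (D : H31.MP.Data Qb (H99.FX Qb (M * p)) k Fb A.ValueGroup ν G p) (e : G → Gq)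
    (he : ∀ (σ : G) (f : H99.FX Qb (M * p)),
      σ • f = arithmeticGalois (modularFunctionFieldFull (M * p)) (e σ) • f)
    (hf : ∀ f, D.M.v false f = H97.v1 A π w hπ hD hdeg hpM f)
    (ht : ∀ f, D.M.v true f = H97.v2 A π w hπ hD hdeg hpM f) :
    NOp D w.W (nOp hpM hζ) where
  W_v f := by rw [ht, hf, H97.v1_W]
  W_W := w.invol
  W_smul σ f := by
    rw [he, he]
    exact ((isAL w Fact.out hpM).galois (e σ) f).symm
  N_smul σ f := by
    rw [he, he]
    exact nOp_galois hpM hζ (e σ) f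
  N_close f r hr0 hr1 h := by
    rw [hf] at h ⊢
    exact nOp_close w hπ hD hdeg hpM hζ f r hr0 hr1 h

end Main

end Fermat.Agent.H40.Nrm
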