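import Fermat.Agent.H31Eq3
import Fermat.Agent.H40Book
import Fermat.Agent.H44EDisc

/-!
# The elementary fields of `H40.Geo` for two sheets with a group action (helper73)

* `Equi.exists_surj`: fixed lifts of arbitrary functions on both components;
* `Equi.exists_sep`: a pair of fixed functions separating the two components;
* `finiteIndex_stabilizer`: stabilisers in `laurentBaseChange`;
* `disc_top`, `zeta_stabilizer`.
-/

set_option autoImplicit false
set_option linter.unusedSectionVars false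

open AlgebraicCurve WithZero IntermediateField Fermat.Agent.H97 Fermat.Agent.H97.Sheets

namespace Fermat.Agent.H73.Geo

open Fermat.Agent.H31 Fermat.Agent.H31.Eq

section equi

variable {K F₀ F k κ Γ : Type*} [Field K] [Field F₀] [Field F] [Algebra K F₀] [Algebra K F]
    [Field k] [Field κ] [Algebra k κ] [LinearOrderedCommGroupWithZero Γ] {q : ℕ}
    {S : Sheets K F₀ F k κ Γ q}

variable [IsAlgClosed K] [CharZero K] [H3RR.IsFF K F₀] [H3RR.IsFF K F]
  [IsAlgClosed k] [H3RR.IsFF k κ] [H94.FunField K F₀] [H94.FunField K F]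

variable {G : Type*} [Group G] [MulSemiringAction G K] [MulSemiringAction G F₀]
    [MulSemiringAction G F] {W : F ≃ₐ[K] F} {P₀ : Place K F₀} (E : Equi S G W P₀)

omit [H3RR.IsFF K F₀] [H3RR.IsFF K F] [H94.FunField K F₀] [H94.FunField K F] [IsAlgClosed K]
  [CharZero K] [Field F₀] [Field F] [Field K] in
theorem exists_regular (a : κ) : ∃ y : Place k κ, y.adicValuation a ≤ 1 := by
  rcases eq_or_ne a 0 with rfl | ha
  · obtain ⟨y, -⟩ := Infinite.exists_notMem_finset (∅ : Finset (Place k κ))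
    exact ⟨y, by simp⟩
  obtain ⟨y, hy⟩ := Infinite.exists_notMem_finset (H3RR.poleDiv a : Divisor k κ).support
  refine ⟨y, ?_⟩
  rw [Finsupp.notMem_support_iff, H3RR.poleDiv_apply ha] at hy
  rw [y.adicValuation_le_one_iff]
  right
  have := le_max_left (-y.ord a) 0
  omega

include E

/-- fixed lifts to `F₀` of arbitrary functions -/
theorem exists_lift₀ (a : κ) :
    ∃ b : F₀, MP.Fix (⊤ : Subgroup G) b ∧ S.v₀ b ≤ 1 ∧ S.ρ₀ b = a := by
  obtain ⟨y, hy⟩ := exists_regular (k := k) a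
  obtain ⟨b, h1, h2, -, h3⟩ := E.exists_lift y hy
  exact ⟨b, h1, h2, h3⟩

/-- **(surj)** -/
theorem exists_surj (i : Bool) (a : κ) :
    ∃ b : F, MP.Fix (⊤ : Subgroup G) b ∧ S.v i b ≤ 1 ∧ S.ρ i b = a := by
  obtain ⟨b, hb, hv, hρ⟩ := exists_lift₀ E a
  have hφ : MP.Fix (⊤ : Subgroup G) (S.φ b) := fun σ hσ => by rw [E.φ_smul, hb σ hσ]
  cases i with
  | false => exact ⟨S.φ b, hφ, by rw [S.v_φ]; exact hv, by rw [S.ρ_false b hv, hρ]⟩
  | true =>
    refine ⟨W (S.φ b), fun σ hσ => by rw [E.W_smul, hφ σ hσ], ?_, ?_⟩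
    · rw [E.v_W, E.WW, S.v_φ]; exact hv
    · rw [E.ρ_W, E.WW, S.ρ_false b hv, hρ]

/-- **(sep)** -/
theorem exists_sep (hq : 1 < q) : ∃ z z' : F, MP.Fix (⊤ : Subgroup G) z ∧
    MP.Fix (⊤ : Subgroup G) z' ∧ S.v false z = 1 ∧ S.v true z < 1 ∧ S.v false z' < 1 ∧
      S.v true z' = 1 := by
  -- a function which is not a `q`-th power
  obtain ⟨y, -⟩ := Infinite.exists_notMem_finset (∅ : Finset (Place k κ))
  obtain ⟨a, ha0, ha⟩ := H3RR.adicValuation_surjective_exp y (-1)
  have hord : y.ord a = 1 := by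
    rw [y.adicValuation_eq_exp_neg_ord ha0, exp_inj] at ha
    omega
  have hne : a ≠ S.Φ (S.Φ a) := by
    intro h
    have h1 : S.Φ a = S.σ (S.σ.symm (S.Φ a)) := (S.σ.apply_symm_apply _).symm
    rw [h1, S.Φσ] at h
    rw [h, MP.ord_pow] at hord
    have h2 : (q : ℤ) ∣ 1 := ⟨_, hord.symm⟩
    have h3 := Int.le_of_dvd one_pos h2
    omega
  obtain ⟨b, hb, hbv, hbρ⟩ := exists_lift₀ E a
  obtain ⟨c, hc, hcv, hcρ⟩ := exists_lift₀ E (S.Φ a)
  have hφb : MP.Fix (⊤ : Subgroup G) (S.φ b) := fun σ hσ => by rw [E.φ_smul, hb σ hσ]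
  have hφc : MP.Fix (⊤ : Subgroup G) (S.φ c) := fun σ hσ => by rw [E.φ_smul, hc σ hσ]
  have hWb : MP.Fix (⊤ : Subgroup G) (W (S.φ b)) := fun σ hσ => by rw [E.W_smul, hφb σ hσ]
  set z' : F := W (S.φ b) - S.φ c with hz'
  have hz'fix : MP.Fix (⊤ : Subgroup G) z' := hWb.sub hφc
  have hv1 : S.v false (W (S.φ b)) ≤ 1 := by rw [← E.v_W, S.v_φ]; exact hbv
  have hv2 : S.v true (W (S.φ b)) ≤ 1 := by rw [E.v_W, E.WW, S.v_φ]; exact hbv
  have hv3 : ∀ i, S.v i (S.φ c) ≤ 1 := fun i => by rw [S.v_φ]; exact hcv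
  have hρ1 : S.ρ false (W (S.φ b)) = S.Φ a := by
    rw [← E.ρ_W, S.ρ_true b hbv, hbρ]
  have hρ2 : S.ρ true (W (S.φ b)) = a := by
    rw [E.ρ_W, E.WW, S.ρ_false b hbv, hbρ]
  have hz'f : S.v false z' < 1 := by
    rw [← (S.comp false).ρ_eq_zero z' (Valuation.map_sub_le _ hv1 (hv3 false)), hz',
      (S.comp false).ρ_sub hv1 (hv3 false), hρ1, S.ρ_false c hcv, hcρ, sub_self]
  have hz't : S.v true z' = 1 := by
    refine le_antisymm (Valuation.map_sub_le _ hv2 (hv3 true)) ?_
    rw [← not_lt, ← (S.comp true).ρ_eq_zero z' (Valuation.map_sub_le _ hv2 (hv3 true)), hz',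
      (S.comp true).ρ_sub hv2 (hv3 true), hρ2, S.ρ_true c hcv, hcρ, sub_eq_zero]
    exact hne
  refine ⟨W z', z', fun σ hσ => by rw [E.W_smul, hz'fix σ hσ], hz'fix, ?_, ?_, hz'f, hz't⟩
  · rw [← E.v_W]; exact hz't
  · rw [E.v_W, E.WW]; exact hz'f

end equi

/-! ### Stabilisers -/

section fin

variable {G F : Type*} [Group G] [Field F] [MulSemiringAction G F]

/-- the elements with stabiliser of finite index form a subfield -/
def finStab (G F : Type*) [Group G] [Field F] [MulSemiringAction G F] : Subfield F where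
  carrier := {f | (MulAction.stabilizer G f).FiniteIndex}
  mul_mem' {a b} ha hb := by
    have ha' : (MulAction.stabilizer G a).FiniteIndex := ha
    have hb' : (MulAction.stabilizer G b).FiniteIndex := hb
    refine Subgroup.finiteIndex_of_le (H := MulAction.stabilizer G a ⊓ MulAction.stabilizer G b)
      fun σ hσ => ?_
    rw [MulAction.mem_stabilizer_iff, smul_mul', MulAction.mem_stabilizer_iff.mp hσ.1,
      MulAction.mem_stabilizer_iff.mp hσ.2]
  one_mem' := by
    refine Subgroup.finiteIndex_of_le (H := (⊤ : Subgroup G)) fun σ _ => ?_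
    rw [MulAction.mem_stabilizer_iff, smul_one]
  add_mem' {a b} ha hb := by
    have ha' : (MulAction.stabilizer G a).FiniteIndex := ha
    have hb' : (MulAction.stabilizer G b).FiniteIndex := hb
    refine Subgroup.finiteIndex_of_le (H := MulAction.stabilizer G a ⊓ MulAction.stabilizer G b)
      fun σ hσ => ?_
    rw [MulAction.mem_stabilizer_iff, smul_add, MulAction.mem_stabilizer_iff.mp hσ.1,
      MulAction.mem_stabilizer_iff.mp hσ.2]
  zero_mem' := by
    refine Subgroup.finiteIndex_of_le (H := (⊤ : Subgroup G)) fun σ _ => ?_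
    rw [MulAction.mem_stabilizer_iff, smul_zero]
  neg_mem' {a} ha := by
    have ha' : (MulAction.stabilizer G a).FiniteIndex := ha
    refine Subgroup.finiteIndex_of_le (H := MulAction.stabilizer G a) fun σ hσ => ?_
    rw [MulAction.mem_stabilizer_iff, smul_neg, MulAction.mem_stabilizer_iff.mp hσ]
  inv_mem' a ha := by
    have ha' : (MulAction.stabilizer G a).FiniteIndex := ha
    refine Subgroup.finiteIndex_of_le (H := MulAction.stabilizer G a) fun σ hσ => ?_
    rw [MulAction.mem_stabilizer_iff, smul_inv'', MulAction.mem_stabilizer_iff.mp hσ]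

theorem mem_finStab {f : F} : f ∈ finStab G F ↔ (MulAction.stabilizer G f).FiniteIndex := Iff.rfl

end fin

section laurent

open Fermat.Agent.H31.In ModularCurve

variable {L : Type*} [Field L] [Algebra ℚ L] [Algebra.IsAlgebraic ℚ L]
  (G : Subgroup (L ≃ₐ[ℚ] L))

/-- stabilisers of constants -/
theorem finiteIndex_stabilizer_const (c : L) : (MulAction.stabilizer G c).FiniteIndex := by
  classical
  have hfin : (MulAction.orbit G c).Finite := by
    refine ((minpoly ℚ c).rootSet_finite L).subset ?_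
    rintro _ ⟨σ, rfl⟩
    rw [Polynomial.mem_rootSet]
    refine ⟨minpoly.ne_zero (Algebra.IsAlgebraic.isAlgebraic c).isIntegral, ?_⟩
    have h1 := Polynomial.aeval_algHom_apply ((σ : L ≃ₐ[ℚ] L) : L →ₐ[ℚ] L) c (minpoly ℚ c)
    rw [minpoly.aeval, map_zero] at h1
    exact h1
  have := hfin.to_subtype
  have h1 : Finite (G ⧸ MulAction.stabilizer G c) :=
    Finite.of_equiv _ (MulAction.orbitEquivQuotientStabilizer G c)
  exact Subgroup.finiteIndex_of_finite_quotient

/-- **(fin)** -/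
theorem finiteIndex_stabilizer (F₀ : IntermediateField ℚ (LaurentSeries ℚ))
    (f : laurentBaseChange L F₀) : (MulAction.stabilizer G f).FiniteIndex := by
  classical
  let T : Subfield (laurentBaseChange L F₀) := finStab G (laurentBaseChange L F₀)
  have hconst : ∀ c : L, algebraMap L (laurentBaseChange L F₀) c ∈ T := by
    intro c
    have h1 := finiteIndex_stabilizer_const G c
    refine Subgroup.finiteIndex_of_le (H := MulAction.stabilizer G c) fun σ hσ => ?_
    rw [MulAction.mem_stabilizer_iff] at hσ ⊢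
    have hσ' : (σ : L ≃ₐ[ℚ] L) c = c := hσ
    apply Subtype.ext
    show coeffMap ((σ : L ≃ₐ[ℚ] L) : L →+* L) (algebraMap L (LaurentSeries L) c) =
      algebraMap L (LaurentSeries L) c
    rw [coeffMap_algebraMap]
    exact congrArg (algebraMap L (LaurentSeries L)) hσ'
  let T' : IntermediateField L (LaurentSeries L) :=
    { T.map (laurentBaseChange L F₀).val.toRingHom with
      algebraMap_mem' := fun c => ⟨algebraMap L (laurentBaseChange L F₀) c, hconst c, rfl⟩ }
  have hle : laurentBaseChange L F₀ ≤ T' := by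
    refine IntermediateField.adjoin_le_iff.mpr ?_
    rintro _ ⟨z, hz, rfl⟩
    refine ⟨⟨coeffEmb L z, coeffEmb_mem_laurentBaseChange L hz⟩, ?_, rfl⟩
    refine Subgroup.finiteIndex_of_le (H := (⊤ : Subgroup G)) fun σ _ => ?_
    rw [MulAction.mem_stabilizer_iff]
    apply Subtype.ext
    ext n
    show (((σ : L ≃ₐ[ℚ] L) • (⟨coeffEmb L z, coeffEmb_mem_laurentBaseChange L hz⟩ :
      laurentBaseChange L F₀) : laurentBaseChange L F₀) : LaurentSeries L).coeff n = _
    rw [coeff_smul]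
    show (σ : L ≃ₐ[ℚ] L) ((coeffEmb L z).coeff n) = (coeffEmb L z).coeff n
    rw [coeffEmb_coeff]
    exact (σ : L ≃ₐ[ℚ] L).commutes _
  obtain ⟨g, hg, hgf⟩ := hle f.2
  have : g = f := Subtype.ext hgf
  rw [← this]
  exact hg

end laurent

/-! ### Constants -/

section const

open Fermat.Agent.H31.MP Fermat.Agent.H40

theorem valuation_sub_one_lt {L : Type*} [Field L] {A : ValuationSubring L} {q : ℕ}
    (hq : q.Prime) (hA : A.LiesOverPrime q) {ζ : L} (hζ : ζ ^ q = 1) :
    A.valuation (ζ - 1) < 1 := by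
  have hqA : A.valuation (q : L) < 1 := (A.mem_nonunits_iff).mp hA
  have hζv : A.valuation ζ = 1 := by
    have h1 : A.valuation ζ ^ q = 1 := by rw [← map_pow, hζ, map_one]
    exact (pow_eq_one_iff.mp h1).resolve_right hq.ne_zero
  have hζA : ζ ∈ A := (A.valuation_le_one_iff ζ).mp hζv.le
  let z : A := ⟨ζ, hζA⟩
  obtain ⟨r, hr⟩ := exists_add_pow_prime_eq hq (z - 1) 1
  have hz : z ^ q = 1 := Subtype.ext hζ
  rw [sub_add_cancel, hz, one_pow] at hr
  have h2 : (z - 1) ^ q = -((q : A) * ((z - 1) * 1 * r)) := by linear_combination -hr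
  have h3 : (ζ - 1) ^ q = -((q : L) * (((z - 1) * 1 * r : A) : L)) := by
    have := congrArg (fun a : A => (a : L)) h2
    simpa using this
  have h4 : A.valuation (ζ - 1) ^ q < 1 := by
    rw [← map_pow, h3, Valuation.map_neg, map_mul]
    exact mul_lt_one_of_lt_of_le hqA (A.valuation_le_one _)
  exact (pow_lt_one_iff hq.ne_zero).mp h4

local notation "Qb" => AlgebraicClosure ℚ

variable {A : ValuationSubring Qb} {F k κ ν : Type*} [Field F] [Algebra Qb F] [Field k]
  [Field κ] [Algebra k κ] {q : ℕ} [MulSemiringAction (A.inertiaSubgroupIn ℚ) F]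
  (D : Data Qb F k κ A.ValueGroup ν (A.inertiaSubgroupIn ℚ) q)

/-- **(disc)** -/
theorem disc_top (hq : q.Prime) (hA : A.LiesOverPrime q) (hvK : D.M.vK = A.valuation) :
    D.Disc (⊤ : Subgroup (A.inertiaSubgroupIn ℚ)) (q : Qb) where
  ne := Nat.cast_ne_zero.mpr hq.ne_zero
  fix σ _ := map_natCast (σ : Qb ≃ₐ[ℚ] Qb) q
  lt := by rw [hvK]; exact (A.mem_nonunits_iff).mp hA
  gen c hc hfix := by
    rw [hvK]
    exact H44E.exists_valuation_eq_zpow hq hA hc fun σ hσ => hfix ⟨σ, hσ⟩ trivial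

/-- **(zeta)** -/
theorem zeta_stabilizer (hq : q.Prime) (hA : A.LiesOverPrime q) (hvK : D.M.vK = A.valuation)
    {ζ : Qb} (hζ : IsPrimitiveRoot ζ q) :
    Zeta D (MulAction.stabilizer (A.inertiaSubgroupIn ℚ) ζ) ζ where
  pow := hζ.pow_eq_one
  ne := hζ.ne_one hq.one_lt
  fix σ hσ := MulAction.mem_stabilizer_iff.mp hσ
  lt := by rw [hvK]; exact valuation_sub_one_lt hq hA hζ.pow_eq_one
  p_ne := Nat.cast_ne_zero.mpr hq.ne_zero

end const

/-! ### Assembly -/

section assembly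

open Fermat.Agent.H31.MP Fermat.Agent.H40 Fermat.Agent.H31.In ModularCurve

local notation "Qb" => AlgebraicClosure ℚ

variable {A : ValuationSubring Qb} {F₀ k κ : Type*} [Field F₀] [Algebra Qb F₀]
  [Field k] [Field κ] [Algebra k κ] {q : ℕ} {FQ : IntermediateField ℚ (LaurentSeries ℚ)}
  {S : Sheets Qb F₀ (laurentBaseChange Qb FQ) k κ A.ValueGroup q}

variable [H3RR.IsFF Qb F₀] [H3RR.IsFF Qb (laurentBaseChange Qb FQ)]
  [IsAlgClosed k] [H3RR.IsFF k κ] [H94.FunField Qb F₀]
  [H94.FunField Qb (laurentBaseChange Qb FQ)]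
  [MulSemiringAction (A.inertiaSubgroupIn ℚ) F₀]
  {W : laurentBaseChange Qb FQ ≃ₐ[Qb] laurentBaseChange Qb FQ} {P₀ : Place Qb F₀}

/-- **The `Geo` package** from the three geometric fields (`lifts`, `ss2`, `nop`). -/
theorem mkGeo [Fact q.Prime] [CharP k q] [CharP κ q]
    (E : Equi S (A.inertiaSubgroupIn ℚ) W P₀)
    (D : Data Qb (laurentBaseChange Qb FQ) k κ A.ValueGroup {x : Place k κ // S.Node x}
      (A.inertiaSubgroupIn ℚ) q)
    (hM : D.M = S.model) (hvK : S.vK = A.valuation) (hA : A.LiesOverPrime q)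
    {N : laurentBaseChange Qb FQ →* laurentBaseChange Qb FQ} {ζ : Qb} (hζ : IsPrimitiveRoot ζ q)
    (lifts : D.Lifts)
    (ss2 : ∀ (σ : A.inertiaSubgroupIn ℚ) (a : ℕ), σ • ζ = ζ ^ a → ∀ w : laurentBaseChange Qb FQ,
      w ≠ 0 → (∀ P : Place Qb (laurentBaseChange Qb FQ), (q : ℤ) ∣ P.ord w) →
      (∀ i, D.M.v i (w - 1) < D.M.vK (ζ - 1) ^ q) →
        ∃ φ : laurentBaseChange Qb FQ, φ ≠ 0 ∧ σ • w = w ^ a * φ ^ q)
    (nop : NOp D W N) : Geo D W N ζ where
  lifts := lifts
  ss2 := ss2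
  nop := nop
  sep := by
    obtain ⟨z, z', h1, h2, h3, h4, h5, h6⟩ := exists_sep E (Fact.out : q.Prime).one_lt
    have hv : D.M.v = S.v := by rw [hM]; rfl
    exact ⟨z, z', ⟨h1, h2, by rw [hv]; exact h3, by rw [hv]; exact h4, by rw [hv]; exact h5,
      by rw [hv]; exact h6⟩⟩
  surj i a := by
    have hv : D.M.v = S.v := by rw [hM]; rfl
    have hρ : D.M.ρ = S.ρ := by rw [hM]; rfl
    obtain ⟨b, h1, h2, h3⟩ := exists_surj E i a
    exact ⟨b, h1, by rw [hv]; exact h2, by rw [hρ]; exact h3⟩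
  fin f := finiteIndex_stabilizer (A.inertiaSubgroupIn ℚ) FQ f
  disc := disc_top D Fact.out hA (by rw [hM]; exact hvK)
  zeta := zeta_stabilizer D Fact.out hA (by rw [hM]; exact hvK) hζ

end assembly

end Fermat.Agent.H73.Geo
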