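import Fermat.Agent.H99Emb1
import Fermat.Agent.H42Swap

/-!
# The middle embeddings and the Atkin-Lehner automorphisms at level `m q²`
-/

set_option autoImplicit false
set_option linter.unusedSectionVars false

noncomputable section

open ModularCurve Polynomial IntermediateField AlgebraicCurve Fermat.Agent.H60 Fermat.Agent.H66

namespace Fermat.Agent.H99

variable {L : Type*} [Field L] [Algebra ℚ L]
variable {m q : ℕ} [NeZero m] [NeZero q]

/-- twisting as an algebra homomorphism -/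
def twistAlg (v : Lˣ) : LaurentSeries L →ₐ[L] LaurentSeries L :=
  { twist v with
    commutes' := fun c => by
      show twist v (algebraMap L (LaurentSeries L) c) = algebraMap L (LaurentSeries L) c
      rw [algebraMap_laurentSeries_eq_single, twist_single]
      simp }

@[simp]
theorem twistAlg_apply (v : Lˣ) (x : LaurentSeries L) : twistAlg v x = twist v x := rfl

variable (L m q) in
/-- the Atkin–Lehner automorphism `w_q` of `F_{mq}` -/
structure AL where
  /-- the automorphism -/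
  W : FX L (m * q) ≃ₐ[L] FX L (m * q)
  invol : ∀ x, W (W x) = x
  alpha : ∀ x, W (heckeAlphaBar L m q x) = heckeBetaBar L m q x
  beta : ∀ x, W (heckeBetaBar L m q x) = heckeAlphaBar L m q x

theorem nonempty_AL (f : L →+* ℂ) (h : m.Coprime q) : Nonempty (AL L m q) := by
  obtain ⟨W, h1, h2, h3, _⟩ := H42.exists_atkinLehner f h
  exact ⟨⟨W, h1, h2, h3⟩⟩

/-- `F_{Nℓ}` is generated by the images of the two degeneracy maps -/
theorem full_le_of (N ℓ : ℕ) [NeZero N] [NeZero ℓ] (hℓ : ℓ.Prime)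
    (F : IntermediateField L (LaurentSeries L)) (h1 : FX L N ≤ F)
    (h2 : ∀ x : FX L N, qExpand L ℓ (x : LaurentSeries L) ∈ F) : FX L (N * ℓ) ≤ F := by
  have hN : N ≠ 0 := NeZero.ne N
  have hℓ0 : ℓ ≠ 0 := NeZero.ne ℓ
  rw [FX_eq, full_le_iff (mul_ne_zero hN hℓ0)]
  intro d hd
  have hd0 : d ≠ 0 := by
    rintro rfl
    exact mul_ne_zero hN hℓ0 (Nat.eq_zero_of_zero_dvd hd)
  by_cases hdN : d ∣ N
  · apply h1
    rw [FX_eq]
    exact J_mem hN hdN
  · have hℓd : ℓ ∣ d := by
      by_contra h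
      exact hdN ((Nat.Coprime.dvd_of_dvd_mul_right ((Nat.Prime.coprime_iff_not_dvd hℓ).2 h).symm hd))
    obtain ⟨e, rfl⟩ := hℓd
    have he : e ∣ N := by
      have := Nat.dvd_of_mul_dvd_mul_left hℓ.pos (by rwa [mul_comm N ℓ] at hd : ℓ * e ∣ ℓ * N)
      exact this
    have h3 : J L e ∈ FX L N := by
      rw [FX_eq]
      exact J_mem hN he
    have h4 := h2 ⟨J L e, h3⟩
    rwa [qExpand_J] at h4

/-- Two algebra homomorphisms on `F_{Nℓ}` which agree on the images of both degeneracy maps are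
equal. -/
theorem algHom_ext' (N ℓ : ℕ) [NeZero N] [NeZero ℓ] (hℓ : ℓ.Prime) {E : Type*} [Field E]
    [Algebra L E] (φ ψ : FX L (N * ℓ) →ₐ[L] E)
    (h1 : ∀ x, φ (heckeAlphaBar L N ℓ x) = ψ (heckeAlphaBar L N ℓ x))
    (h2 : ∀ x, φ (heckeBetaBar L N ℓ x) = ψ (heckeBetaBar L N ℓ x)) : φ = ψ := by
  let Q : IntermediateField L (FX L (N * ℓ)) := (AlgHom.equalizer φ ψ).toIntermediateField (by
    intro x hx
    rw [AlgHom.mem_equalizer] at hx ⊢
    rw [map_inv₀, map_inv₀, hx])
  let F : IntermediateField L (LaurentSeries L) := Q.map (FX L (N * ℓ)).val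
  have hF : ∀ x : FX L (N * ℓ), (x : LaurentSeries L) ∈ F ↔ φ x = ψ x := by
    intro x
    constructor
    · rintro ⟨y, hy, hyx⟩
      have : y = x := Subtype.ext hyx
      rw [← this]
      exact hy
    · intro hx
      exact ⟨x, hx, rfl⟩
  have hall : FX L (N * ℓ) ≤ F := by
    refine full_le_of N ℓ hℓ F ?_ ?_
    · intro y hy
      have h3 := (hF (heckeAlphaBar L N ℓ ⟨y, hy⟩)).2 (h1 _)
      rwa [coe_heckeAlphaBar] at h3
    · intro y
      have h3 := (hF (heckeBetaBar L N ℓ y)).2 (h2 _)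
      rwa [coe_heckeBetaBar] at h3
  exact AlgHom.ext fun x => (hF x).1 (hall x.2)

theorem beta_alpha (x : FX L m) : heckeBetaBar L (m * q) q (heckeAlphaBar L m q x) =
    heckeAlphaBar L (m * q) q (heckeBetaBar L m q x) := by
  apply Subtype.ext
  rw [coe_heckeBetaBar, coe_heckeAlphaBar, coe_heckeAlphaBar, coe_heckeBetaBar]

section Mid

variable [hL : Fact (HasRoots L)] [CharZero L]
variable (hq : q.Prime) (hqm : ¬ q ∣ m) (w : AL L m q)

/-- the middle embedding attached to the primitive `q`-th root of unity `v` -/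
def midEmb {v : Lˣ} (hv : IsPrimitiveRoot v q) : FX L (m * q * q) →ₐ[L] LaurentSeries L :=
  (exists_midEmb hq hqm hv w.W.toAlgHom w.alpha w.beta).choose

theorem midEmb_alpha {v : Lˣ} (hv : IsPrimitiveRoot v q) (x : FX L (m * q)) :
    midEmb hq hqm w hv (heckeAlphaBar L (m * q) q x) = (x : LaurentSeries L) :=
  (exists_midEmb hq hqm hv w.W.toAlgHom w.alpha w.beta).choose_spec.1 x

theorem midEmb_beta {v : Lˣ} (hv : IsPrimitiveRoot v q) (x : FX L (m * q)) :
    midEmb hq hqm w hv (heckeBetaBar L (m * q) q x) = twist v (w.W x : LaurentSeries L) :=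
  (exists_midEmb hq hqm hv w.W.toAlgHom w.alpha w.beta).choose_spec.2 x

/-- the value of the middle embedding at `j(q² τ)` -/
theorem midEmb_J {v : Lˣ} (hv : IsPrimitiveRoot v q) (h : J L (q * q) ∈ FX L (m * q * q)) :
    midEmb hq hqm w hv ⟨J L (q * q), h⟩ = twist v (J L 1) := by
  have hmq : m * q ≠ 0 := mul_ne_zero (NeZero.ne m) (NeZero.ne q)
  have hJq : J L q ∈ FX L (m * q) := J_mem_FX hmq (dvd_mul_left _ _)
  have hJ1m : J L 1 ∈ FX L m := J_mem_FX (NeZero.ne m) (one_dvd _)
  have e1 : (⟨J L q, hJq⟩ : FX L (m * q)) = heckeBetaBar L m q ⟨J L 1, hJ1m⟩ := by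
    apply Subtype.ext
    rw [coe_heckeBetaBar, qExpand_J, mul_one]
  have e2 : (⟨J L (q * q), h⟩ : FX L (m * q * q)) = heckeBetaBar L (m * q) q ⟨J L q, hJq⟩ := by
    apply Subtype.ext
    rw [coe_heckeBetaBar, qExpand_J]
  rw [e2, midEmb_beta, e1, w.beta, coe_heckeAlphaBar]

variable {u : Lˣ} (hu : IsPrimitiveRoot u q)

/-- the family of all embeddings of `F_{mqq}` extending the inclusion of `F_{mq}` -/
def allEmb (i : Fin q) : FX L (m * q * q) →ₐ[L] LaurentSeries L :=
  if h : (i : ℕ) = 0 then (FX L (m * q * q)).val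
  else midEmb hq hqm w (hu.pow_of_coprime (i : ℕ)
    ((Nat.coprime_of_lt_prime h i.2 hq).symm))

theorem allEmb_alpha (i : Fin q) (x : FX L (m * q)) :
    allEmb hq hqm w hu i (heckeAlphaBar L (m * q) q x) = (x : LaurentSeries L) := by
  unfold allEmb
  split_ifs with h
  · exact coe_heckeAlphaBar (m * q) q x
  · exact midEmb_alpha hq hqm w _ x

theorem allEmb_injective : Function.Injective (allEmb hq hqm w hu) := by
  have hmqq : m * q * q ≠ 0 := mul_ne_zero (mul_ne_zero (NeZero.ne m) (NeZero.ne q)) (NeZero.ne q)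
  have hx : J L (q * q) ∈ FX L (m * q * q) := J_mem_FX hmqq ⟨m, by ring⟩
  have hqq : NeZero (q * q) := ⟨mul_ne_zero (NeZero.ne q) (NeZero.ne q)⟩
  have hval : ∀ i : Fin q, (allEmb hq hqm w hu i ⟨J L (q * q), hx⟩).coeff (-1) =
      if (i : ℕ) = 0 then 0 else (((u ^ (i : ℕ)) ^ (-1 : ℤ) : Lˣ) : L) := by
    intro i
    unfold allEmb
    split_ifs with h
    · show (J L (q * q)).coeff (-1) = 0
      rw [J_eq L (q * q)]
      refine qExpand_coeff_of_not_dvd (q * q) _ ?_
      rintro ⟨c, hc⟩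
      have h1 : ((q * q : ℕ) : ℤ) ∣ 1 := ⟨-c, by linarith⟩
      have h2 := Int.le_of_dvd one_pos h1
      have h3 := hq.one_lt
      push_cast at h2
      nlinarith
    · rw [midEmb_J hq hqm w, twist_coeff, J_one, coeff_jqModC_neg_one, mul_one]
  intro i j hij
  have h1 := congrArg (fun φ : FX L (m * q * q) →ₐ[L] LaurentSeries L =>
    (φ ⟨J L (q * q), hx⟩).coeff (-1)) hij
  simp only [hval] at h1
  split_ifs at h1 with hi hj hj
  · exact Fin.ext (hi.trans hj.symm)
  · exact absurd h1.symm (Units.ne_zero _)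
  · exact absurd h1 (Units.ne_zero _)
  · have h2 : (u ^ (i : ℕ)) ^ (-1 : ℤ) = (u ^ (j : ℕ)) ^ (-1 : ℤ) := Units.ext h1
    rw [zpow_neg_one, zpow_neg_one, inv_inj] at h2
    exact Fin.ext (hu.pow_inj i.2 j.2 h2)

/-- **Norm formula** from level `m q²` to level `m q` (degeneracy `α`). -/
theorem coe_normAlong_alpha (z : FX L (m * q * q)) :
    ((normAlong (heckeAlphaBar L (m * q) q) z : FX L (m * q)) : LaurentSeries L) =
      ∏ i, allEmb hq hqm w hu i z := by
  let _ := algebraAlong (heckeAlphaBar L (m * q) q)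
  have hfin : FiniteDimensional (FX L (m * q)) (FX L (m * q * q)) :=
    H67.finiteAlong_alpha (degreeFact_of_hasRoots (L := L)) (m * q) q
  have : CharZero (FX L (m * q)) :=
    charZero_of_injective_algebraMap (algebraMap L (FX L (m * q))).injective
  have hdeg : Module.finrank (FX L (m * q)) (FX L (m * q * q)) = q := by
    have := H67.finrank_alpha_prime (degreeFact_of_hasRoots (L := L)) (m * q) q hq
    rw [if_pos (dvd_mul_left _ _)] at this
    exact this
  exact map_norm_eq_prod (F := FX L (m * q)) (F' := FX L (m * q * q)) (E := LaurentSeries L)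
    (algebraMap (FX L (m * q)) (LaurentSeries L))
    (fun i => (allEmb hq hqm w hu i).toRingHom)
    (fun i x => allEmb_alpha hq hqm w hu i x)
    (fun i j hij => allEmb_injective hq hqm w hu (AlgHom.ext fun x => DFunLike.congr_fun hij x))
    (by rw [hdeg, Fintype.card_fin]) z

end Mid

end Fermat.Agent.H99
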