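import Fermat.Agent.H33Kummer
import Fermat.Agent.H34Two5
import Fermat.Agent.H99Emb2

/-!
# The two geometric inputs for S33 (helper33): target statements for helper84's H84* modules
-/

set_option autoImplicit false

open ModularCurve AlgebraicCurve

namespace Fermat.Agent.H33

section

variable {K F k κ : Type*} [Field K] [Field F] [Algebra K F] [Field k] [Field κ] [Algebra k κ]
  {A : ValuationSubring K} {π : A →+* k}

/-- Up to `p`-th powers, `f` is congruent to `1` modulo `lam^p 𝔪` at the component `C`. -/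
def CloseAt (C : H84.Comp A π F κ) (p : ℕ) (lam : K) (f : F) : Prop :=
  ∃ y z : F, y ≠ 0 ∧ z ∈ C.V ∧ C.red z = 0 ∧ f * y ^ p = 1 + algebraMap K F (lam ^ p) * z

end

local notation "Qb" => AlgebraicClosure ℚ

/-- (CL_p): a function on `X_0(M)`, `p ∤ M`, with divisor divisible by `p` which is congruent to `1`
modulo `(ζ - 1)^p 𝔪` up to `p`-th powers, is a `p`-th power. -/
def CLp (p M : ℕ) [NeZero M] (A : ValuationSubring Qb) : Prop :=
  ∀ ζ : Qb, IsPrimitiveRoot ζ p → ∀ f : H99.FX Qb M, f ≠ 0 →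
    (∀ v : Place Qb (H99.FX Qb M), (p : ℤ) ∣ v.ord f) →
    CloseAt (H34.Two.gC A (IsLocalRing.residue A) M) p (ζ - 1) f → ∃ h, f = h ^ p

/-- (SS2_p): if `W ⊂ J_0(Mp)[p]` is finite, stable under inertia at `p` and all Kummer functions
of `W` are congruent to `1` modulo `(ζ - 1)^p 𝔪` up to `p`-th powers at both components then
inertia acts on `W` through the cyclotomic character. -/
def SS2p (p M : ℕ) [NeZero M] [NeZero p] (A : ValuationSubring Qb) (w : H99.AL Qb M p) : Prop :=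
  ∀ ζ : Qb, IsPrimitiveRoot ζ p → ∀ W : AddSubgroup (JZero (M * p)), Finite W →
    (∀ x ∈ W, p • x = 0) → (∀ σ ∈ A.inertiaSubgroupIn ℚ, ∀ x ∈ W, σ • x ∈ W) →
    (∀ x ∈ W, ∃ f : H99.FX Qb (M * p), IsKum p x f ∧
      CloseAt (H34.Two.gC A (IsLocalRing.residue A) (M * p)) p (ζ - 1) f ∧
      CloseAt (H34.Two.gC2 A (IsLocalRing.residue A) w) p (ζ - 1) f) →
    ∀ σ ∈ A.inertiaSubgroupIn ℚ, ∀ a : ℕ, σ ζ = ζ ^ a → ∀ x ∈ W, σ • x = a • x

end Fermat.Agent.H33
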