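import Mathlib
import Fermat.Agent.H84Int
import Fermat.Agent.H3RR_Duality

/-!
# Places and reductions: pole divisors reduce to pole divisors; evaluation at places
-/

set_option autoImplicit false

open AlgebraicCurve WithZero Polynomial IntermediateField Module

namespace Fermat.Agent.H84

section Place

variable {K F : Type*} [Field K] [Field F] [Algebra K F]

/-- Regular away from the poles of `x` means integral over `K[x]`. -/
theorem isIntegral_of_forall_le_one [H3RR.IsFF K F] {x f : F}
    (h : ∀ v : Place K F, v.adicValuation x ≤ 1 → v.adicValuation f ≤ 1) :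
    IsIntegral (Algebra.adjoin K {x}) f := by
  by_contra hcon
  let R : Subring F := (integralClosure (Algebra.adjoin K {x}) F).toSubring
  have hfR : f ∉ R := hcon
  obtain ⟨V, hRV, hfV⟩ := Subring.exists_le_valuationSubring_of_isIntegrallyClosedIn hfR
  have hadj : ∀ a : Algebra.adjoin K {x}, (a : F) ∈ V := fun a =>
    hRV ((integralClosure (Algebra.adjoin K {x}) F).algebraMap_mem a)
  have hK : ∀ a : K, algebraMap K F a ∈ V := fun a => hadj (algebraMap K _ a)
  have hx : x ∈ V := hadj ⟨x, Algebra.self_mem_adjoin_singleton K x⟩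
  have htop : V ≠ ⊤ := by
    rintro rfl
    exact hfV trivial
  let v : Place K F := H3RR.placeOf V hK htop
  have h1 : v.adicValuation x ≤ 1 := (H3RR.mem_iff_adicValuation_le_one v).mp hx
  exact hfV ((H3RR.mem_iff_adicValuation_le_one v).mpr (h v h1))

theorem le_one_of_isIntegral (v : Place K F) {x f : F} (hx : v.adicValuation x ≤ 1)
    (hf : IsIntegral (Algebra.adjoin K {x}) f) : v.adicValuation f ≤ 1 := by
  have hxv : x ∈ v.toValuationSubring := (H3RR.mem_iff_adicValuation_le_one v).mpr hx
  exact (H3RR.mem_iff_adicValuation_le_one v).mp (H94.mem_of_intRing hxv ⟨f, hf⟩)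

theorem isIntegral_iff_forall_le_one [H3RR.IsFF K F] {x f : F} :
    IsIntegral (Algebra.adjoin K {x}) f ↔
      ∀ v : Place K F, v.adicValuation x ≤ 1 → v.adicValuation f ≤ 1 :=
  ⟨fun h v hv => le_one_of_isIntegral v hv h, isIntegral_of_forall_le_one⟩

theorem mem_L_poleDiv_iff [IsAlgClosed K] [H3RR.IsFF K F] {x : F} (hx : x ≠ 0) (N : ℕ) {f : F} :
    f ∈ riemannRochSpace (N • H3RR.poleDiv x : Divisor K F) ↔
      (∀ v : Place K F, v.adicValuation x ≤ 1 → v.adicValuation f ≤ 1) ∧
      (∀ v : Place K F, v.adicValuation x⁻¹ ≤ 1 → v.adicValuation (f * (x⁻¹) ^ N) ≤ 1) := by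
  have key : ∀ v : Place K F, (v.adicValuation x ≤ 1 ∧
      ((N • H3RR.poleDiv x : Divisor K F) v = 0)) ∨ (v.adicValuation x⁻¹ ≤ 1 ∧
      (exp ((N • H3RR.poleDiv x : Divisor K F) v) = v.adicValuation x ^ N)) := by
    intro v
    rw [Finsupp.smul_apply, H3RR.poleDiv_apply hx, map_inv₀, v.adicValuation_eq_exp_neg_ord hx]
    rcases le_total 0 (v.ord x) with h | h
    · left
      refine ⟨?_, ?_⟩
      · rw [← exp_zero, exp_le_exp]; omega
      · rw [max_eq_right (by omega), smul_zero]
    · right
      refine ⟨?_, ?_⟩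
      · rw [← exp_neg, ← exp_zero, exp_le_exp]; omega
      · rw [max_eq_left (by omega), ← exp_nsmul]
  have hmem : f ∈ riemannRochSpace (N • H3RR.poleDiv x : Divisor K F) ↔
      ∀ v : Place K F, v.adicValuation f ≤ exp ((N • H3RR.poleDiv x : Divisor K F) v) := Iff.rfl
  have hv0 : ∀ v : Place K F, v.adicValuation x ≠ 0 := fun v => v.adicValuation_ne_zero hx
  have hpow : ∀ v : Place K F, v.adicValuation (f * (x⁻¹) ^ N) ≤ 1 ↔
      v.adicValuation f ≤ v.adicValuation x ^ N := by
    intro v
    rw [map_mul, map_pow, map_inv₀, inv_pow, mul_inv_le_iff₀ (zero_lt_iff.mpr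
      (pow_ne_zero N (hv0 v))), one_mul]
  rw [hmem]
  constructor
  · intro h
    refine ⟨fun v hv => ?_, fun v hv => ?_⟩
    · rcases key v with h1 | h1
      · have := h v
        rwa [h1.2, exp_zero] at this
      · have h2 := h v
        rw [h1.2] at h2
        exact h2.trans (pow_le_one' hv N)
    · rw [hpow]
      rcases key v with h1 | h1
      · have h2 := h v
        rw [h1.2, exp_zero] at h2
        have h3 : v.adicValuation x = 1 := by
          refine le_antisymm h1.1 ?_
          rw [map_inv₀] at hv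
          exact (inv_le_one₀ (zero_lt_iff.mpr (hv0 v))).mp hv
        rw [h3, one_pow]
        exact h2
      · rw [← h1.2]
        exact h v
  · rintro ⟨h1, h2⟩ v
    rcases key v with h3 | h3
    · rw [h3.2, exp_zero]
      exact h1 v h3.1
    · rw [h3.2, ← hpow]
      exact h2 v h3.1

end Place

section Ev

variable {K F : Type*} [Field K] [Field F] [Algebra K F] [IsAlgClosed K] [H3RR.IsFF K F]
  (v : Place K F)

open Classical in
/-- The value of a function at a place (zero at poles). -/
noncomputable def ev (f : F) : K :=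
  if h : v.adicValuation f ≤ 1 then (H3RR.exists_const_sub_lt_one v h).choose else 0

variable {v}

theorem ev_spec {f : F} (h : v.adicValuation f ≤ 1) :
    v.adicValuation (f - algebraMap K F (ev v f)) < 1 := by
  rw [ev, dif_pos h]
  exact (H3RR.exists_const_sub_lt_one v h).choose_spec

theorem ev_unique {f : F} {c : K} (h : v.adicValuation (f - algebraMap K F c) < 1) :
    ev v f = c := by
  have hf : v.adicValuation f ≤ 1 := by
    have h1 : f = (f - algebraMap K F c) + algebraMap K F c := by ring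
    rw [h1]
    exact (Valuation.map_add _ _ _).trans (max_le h.le (v.adicValuation_algebraMap_le_one c))
  by_contra hne
  have h1 : v.adicValuation (algebraMap K F (c - ev v f)) < 1 := by
    have h2 : algebraMap K F (c - ev v f) =
        (f - algebraMap K F (ev v f)) - (f - algebraMap K F c) := by rw [map_sub]; ring
    rw [h2]
    exact lt_of_le_of_lt (Valuation.map_sub _ _ _) (max_lt (ev_spec hf) h)
  rw [H3RR.adicValuation_algebraMap v (sub_ne_zero.mpr (Ne.symm hne))] at h1
  exact lt_irrefl _ h1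

@[simp] theorem ev_algebraMap (c : K) : ev v (algebraMap K F c) = c :=
  ev_unique (by rw [sub_self, map_zero]; exact zero_lt_one)

@[simp] theorem ev_zero : ev v (0 : F) = 0 := by
  rw [← map_zero (algebraMap K F), ev_algebraMap]

@[simp] theorem ev_one : ev v (1 : F) = 1 := by
  rw [← map_one (algebraMap K F), ev_algebraMap]

theorem ev_add {f g : F} (hf : v.adicValuation f ≤ 1) (hg : v.adicValuation g ≤ 1) :
    ev v (f + g) = ev v f + ev v g := by
  apply ev_unique
  have h1 : f + g - algebraMap K F (ev v f + ev v g) =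
      (f - algebraMap K F (ev v f)) + (g - algebraMap K F (ev v g)) := by rw [map_add]; ring
  rw [h1]
  exact lt_of_le_of_lt (Valuation.map_add _ _ _) (max_lt (ev_spec hf) (ev_spec hg))

theorem ev_mul {f g : F} (hf : v.adicValuation f ≤ 1) (hg : v.adicValuation g ≤ 1) :
    ev v (f * g) = ev v f * ev v g := by
  apply ev_unique
  have h1 : f * g - algebraMap K F (ev v f * ev v g) =
      (f - algebraMap K F (ev v f)) * g +
        algebraMap K F (ev v f) * (g - algebraMap K F (ev v g)) := by rw [map_mul]; ring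
  rw [h1]
  refine lt_of_le_of_lt (Valuation.map_add _ _ _) (max_lt ?_ ?_)
  · rw [map_mul]
    exact lt_of_le_of_lt (mul_le_of_le_one_right' hg) (ev_spec hf)
  · rw [map_mul]
    exact lt_of_le_of_lt (mul_le_of_le_one_left' (v.adicValuation_algebraMap_le_one _)) (ev_spec hg)

theorem ev_pow {f : F} (hf : v.adicValuation f ≤ 1) (n : ℕ) : ev v (f ^ n) = ev v f ^ n := by
  induction n with
  | zero => rw [pow_zero, pow_zero, ev_one]
  | succ n ih =>
    rw [pow_succ, pow_succ, ev_mul (by rw [map_pow]; exact pow_le_one' hf n) hf, ih]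

theorem ev_neg {f : F} (hf : v.adicValuation f ≤ 1) : ev v (-f) = -ev v f := by
  have h1 : v.adicValuation (-f) ≤ 1 := by rwa [Valuation.map_neg]
  have h2 := ev_add hf h1
  rw [add_neg_cancel, ev_zero] at h2
  exact (neg_eq_of_add_eq_zero_right h2.symm).symm

theorem ev_sub {f g : F} (hf : v.adicValuation f ≤ 1) (hg : v.adicValuation g ≤ 1) :
    ev v (f - g) = ev v f - ev v g := by
  rw [sub_eq_add_neg, ev_add hf (by rwa [Valuation.map_neg]), ev_neg hg, ← sub_eq_add_neg]

theorem ev_sum {ι : Type*} (s : Finset ι) (f : ι → F) (h : ∀ i ∈ s, v.adicValuation (f i) ≤ 1) :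
    ev v (∑ i ∈ s, f i) = ∑ i ∈ s, ev v (f i) := by
  classical
  induction s using Finset.induction_on with
  | empty => rw [Finset.sum_empty, Finset.sum_empty, ev_zero]
  | insert a s ha ih =>
    have h1 : ∀ i ∈ s, v.adicValuation (f i) ≤ 1 := fun i hi => h i (Finset.mem_insert_of_mem hi)
    rw [Finset.sum_insert ha, Finset.sum_insert ha,
      ev_add (h a (Finset.mem_insert_self _ _)) (Valuation.map_sum_le _ h1), ih h1]

theorem ev_prod {ι : Type*} (s : Finset ι) (f : ι → F) (h : ∀ i ∈ s, v.adicValuation (f i) ≤ 1) :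
    v.adicValuation (∏ i ∈ s, f i) ≤ 1 ∧ ev v (∏ i ∈ s, f i) = ∏ i ∈ s, ev v (f i) := by
  classical
  induction s using Finset.induction_on with
  | empty => rw [Finset.prod_empty, Finset.prod_empty, ev_one, map_one]; exact ⟨le_rfl, rfl⟩
  | insert a s ha ih =>
    have h1 : ∀ i ∈ s, v.adicValuation (f i) ≤ 1 := fun i hi => h i (Finset.mem_insert_of_mem hi)
    have h2 := ih h1
    have h3 := h a (Finset.mem_insert_self _ _)
    rw [Finset.prod_insert ha, Finset.prod_insert ha, ev_mul h3 h2.1, h2.2, map_mul]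
    exact ⟨mul_le_one' h3 h2.1, rfl⟩

theorem ev_eq_zero_iff {f : F} (hf : v.adicValuation f ≤ 1) :
    ev v f = 0 ↔ v.adicValuation f < 1 := by
  constructor
  · intro h
    have := ev_spec hf
    rwa [h, map_zero, sub_zero] at this
  · intro h
    exact ev_unique (by rwa [map_zero, sub_zero])

omit [IsAlgClosed K] [H3RR.IsFF K F] in
theorem aeval_le_one {x : F} (hx : v.adicValuation x ≤ 1) (p : K[X]) :
    v.adicValuation (aeval x p) ≤ 1 := by
  rw [aeval_eq_sum_range]
  refine Valuation.map_sum_le _ fun i _ => ?_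
  rw [Algebra.smul_def, map_mul, map_pow]
  exact mul_le_one' (v.adicValuation_algebraMap_le_one _) (pow_le_one' hx i)

theorem ev_aeval {x : F} (hx : v.adicValuation x ≤ 1) (p : K[X]) :
    ev v (aeval x p) = p.eval (ev v x) := by
  have hterm : ∀ i, v.adicValuation (algebraMap K F (p.coeff i) * x ^ i) ≤ 1 := fun i => by
    rw [map_mul, map_pow]
    exact mul_le_one' (v.adicValuation_algebraMap_le_one _) (pow_le_one' hx i)
  rw [aeval_eq_sum_range, eval_eq_sum_range]
  simp only [Algebra.smul_def]
  rw [ev_sum _ _ fun i _ => hterm i]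
  refine Finset.sum_congr rfl fun i _ => ?_
  rw [ev_mul (v.adicValuation_algebraMap_le_one _) (by rw [map_pow]; exact pow_le_one' hx i),
    ev_algebraMap, ev_pow hx]

end Ev

section Red

variable {K k : Type*} [Field K] [Field k] {A : ValuationSubring K} {π : A →+* k}
  {F κ : Type*} [Field F] [Algebra K F] [Field κ] [Algebra k κ]
  {ι : Type*} {C : ι → Comp A π F κ} {x : F} {J : Type*} [Fintype J] {b : J → F}

theorem ResTrans.ne_zero [Nonempty ι] (hx : ResTrans C x) : x ≠ 0 :=
  H3RR.transcendental_ne_zero (transcendental_of_resTrans hx)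

theorem ResTrans.red_ne_zero (hx : ResTrans C x) (i : ι) : (C i).red x ≠ 0 :=
  H3RR.transcendental_ne_zero (hx i).2

theorem ResTrans.inv (hx : ResTrans C x) : ResTrans C x⁻¹ := fun i => by
  refine ⟨(C i).inv_mem_of_red_ne_zero (hx.red_ne_zero i), ?_⟩
  rw [(C i).red_inv]
  exact H3RR.transcendental_inv (hx i).2

theorem aeval_reflect {K F : Type*} [Field K] [Field F] [Algebra K F] {y : F} (hy : y ≠ 0)
    (p : K[X]) {M : ℕ} (hM : p.natDegree ≤ M) :
    aeval y (reflect M p) = y ^ M * aeval y⁻¹ p := by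
  have := invertibleOfNonzero (inv_ne_zero hy)
  have h := eval₂_reflect_mul_pow (algebraMap K F) (y⁻¹) M p hM
  rw [invOf_eq_inv, inv_inv, inv_pow] at h
  rw [aeval_def, aeval_def, ← h, mul_comm, mul_assoc, inv_mul_cancel₀ (pow_ne_zero M hy), mul_one]

/-- A frame for `x` is a frame for `x⁻¹`. -/
theorem IsFrame.inv [Nonempty ι] (hx : ResTrans C x) (hb : IsFrame C x b) : IsFrame C x⁻¹ b where
  mem := hb.mem
  ind := by
    classical
    intro q hq
    set M := Finset.univ.sup (fun j => (q j).natDegree) with hM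
    have hdeg : ∀ j, (q j).natDegree ≤ M := fun j =>
      Finset.le_sup (f := fun j => (q j).natDegree) (Finset.mem_univ j)
    have h1 := hb.ind (fun j => reflect M (q j)) (fun i => by
      have h2 := hq i
      rw [(C i).red_inv] at h2
      have h3 : ∀ j, aeval ((C i).red x) (reflect M (q j)) * (C i).red (b j) =
          (C i).red x ^ M * (aeval ((C i).red x)⁻¹ (q j) * (C i).red (b j)) := fun j => by
        rw [aeval_reflect (hx.red_ne_zero i) _ (hdeg j), mul_assoc]
      rw [Finset.sum_congr rfl fun j _ => h3 j, ← Finset.mul_sum, h2, mul_zero])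
    funext j
    have h2 := congrFun h1 j
    have h3 : reflect M (reflect M (q j)) = 0 := by
      rw [h2]
      exact reflect_zero
    rwa [reflect_reflect] at h3
  span := by
    classical
    intro f
    obtain ⟨Q, p, hQ, h⟩ := hb.span f
    set M := max Q.natDegree (Finset.univ.sup (fun j => (p j).natDegree)) with hM
    have hdegQ : Q.natDegree ≤ M := le_max_left _ _
    have hdeg : ∀ j, (p j).natDegree ≤ M := fun j =>
      (Finset.le_sup (f := fun j => (p j).natDegree) (Finset.mem_univ j)).trans (le_max_right _ _)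
    refine ⟨reflect M Q, fun j => reflect M (p j), ?_, ?_⟩
    · intro h0
      apply hQ
      rw [← reflect_reflect (N := M) (p := Q), h0]
      exact reflect_zero
    · have hxi := inv_ne_zero (ResTrans.ne_zero hx)
      rw [aeval_reflect hxi _ hdegQ, inv_inv, mul_assoc, h, Finset.mul_sum]
      refine Finset.sum_congr rfl fun j _ => ?_
      rw [aeval_reflect hxi _ (hdeg j), inv_inv, mul_assoc]

/-- Reductions of functions regular away from the poles of `x`. -/
theorem IsFrame.red_le_one [Nonempty ι] [H3RR.IsFF K F] (hπ : Function.Surjective π)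
    (hx : ResTrans C x) (hb : IsFrame C x b) {f : F} (hf : f ∈ B C)
    (hreg : ∀ v : Place K F, v.adicValuation x ≤ 1 → v.adicValuation f ≤ 1) (i : ι)
    (s : Place k κ) (hs : s.adicValuation ((C i).red x) ≤ 1) :
    s.adicValuation ((C i).red f) ≤ 1 :=
  le_one_of_isIntegral s hs (hb.isIntegral_red hπ hx hf (isIntegral_of_forall_le_one hreg) i)

theorem IsFrame.red_le_one_inv [Nonempty ι] [H3RR.IsFF K F] (hπ : Function.Surjective π)
    (hx : ResTrans C x) (hb : IsFrame C x b) {f : F} (hf : f ∈ B C)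
    (hreg : ∀ v : Place K F, v.adicValuation x⁻¹ ≤ 1 → v.adicValuation f ≤ 1) (i : ι)
    (s : Place k κ) (hs : s.adicValuation ((C i).red x)⁻¹ ≤ 1) :
    s.adicValuation ((C i).red f) ≤ 1 :=
  (hb.inv hx).red_le_one hπ hx.inv hf hreg i s (by rwa [(C i).red_inv])

/-- **Pole divisors**: reductions of elements of `L(N (x)_∞)` lie in `L(N (x̄)_∞)`. -/
theorem IsFrame.red_mem_L [Nonempty ι] [IsAlgClosed K] [H3RR.IsFF K F] [IsAlgClosed k]
    [H3RR.IsFF k κ] (hπ : Function.Surjective π) (hx : ResTrans C x) (hb : IsFrame C x b) {f : F}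
    (hf : f ∈ B C) {N : ℕ} (hfN : f ∈ riemannRochSpace (N • H3RR.poleDiv x : Divisor K F)) (i : ι) :
    (C i).red f ∈ riemannRochSpace (N • H3RR.poleDiv ((C i).red x) : Divisor k κ) := by
  rw [mem_L_poleDiv_iff (ResTrans.ne_zero hx)] at hfN
  rw [mem_L_poleDiv_iff (hx.red_ne_zero i)]
  refine ⟨fun s hs => hb.red_le_one hπ hx hf hfN.1 i s hs, fun s hs => ?_⟩
  have hxi : ∀ i, x⁻¹ ^ N ∈ (C i).V := fun i => (C i).pow_mem (hx.inv i).1 N
  have hfx : f * x⁻¹ ^ N ∈ B C := (B C).mul_mem hf ((mem_B C).mpr hxi)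
  have h1 := hb.red_le_one_inv hπ hx hfx hfN.2 i s hs
  rwa [(C i).red_mul ((mem_B C).mp hf i) (hxi i), (C i).red_pow (hx.inv i).1, (C i).red_inv] at h1

theorem exists_pow_mul_le_one [IsAlgClosed K] [H3RR.IsFF K F] {x : F} (hx : Transcendental K x)
    (f : F) (h : ∀ v : Place K F, v.adicValuation x = 1 → v.adicValuation f ≤ 1) :
    ∃ N₀ : ℕ, ∀ N ≥ N₀, ∀ v : Place K F, v.adicValuation x ≤ 1 → v.adicValuation (f * x ^ N) ≤ 1 := by
  classical
  have hfin := H3RR.finite_zeros (K := K) hx
  have key : ∀ v : Place K F, ∃ N₀ : ℕ, v.adicValuation x < 1 → ∀ N ≥ N₀,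
      v.adicValuation (f * x ^ N) ≤ 1 := by
    intro v
    by_cases hv : v.adicValuation x < 1
    · obtain ⟨N₀, hN⟩ := H3RR.exists_pow_mul_lt_one (b := v.adicValuation f) hv
      refine ⟨N₀, fun _ N hNN => ?_⟩
      rw [map_mul, map_pow, mul_comm]
      exact (hN N hNN).le
    · exact ⟨0, fun h => (hv h).elim⟩
  choose N₀ hN₀ using key
  refine ⟨hfin.toFinset.sup N₀, fun N hN v hv => ?_⟩
  rcases lt_or_eq_of_le hv with h1 | h1
  · exact hN₀ v h1 N ((Finset.le_sup (f := N₀) (hfin.mem_toFinset.mpr h1)).trans hN)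
  · rw [map_mul, map_pow, h1, one_pow, mul_one]
    exact h v h1

/-- Reductions of functions regular away from `x = 0, ∞`. -/
theorem IsFrame.red_regOff [Nonempty ι] [IsAlgClosed K] [H3RR.IsFF K F]
    (hπ : Function.Surjective π)
    (hx : ResTrans C x) (hb : IsFrame C x b) {f : F} (hf : f ∈ B C)
    (hreg : ∀ v : Place K F, v.adicValuation x = 1 → v.adicValuation f ≤ 1) (i : ι)
    (s : Place k κ) (hs : s.adicValuation ((C i).red x) = 1) :
    s.adicValuation ((C i).red f) ≤ 1 := by
  obtain ⟨N, hN⟩ := exists_pow_mul_le_one (transcendental_of_resTrans hx) f hreg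
  have hxN : ∀ i, x ^ N ∈ (C i).V := fun i => (C i).pow_mem (hx i).1 N
  have h1 := hb.red_le_one hπ hx ((B C).mul_mem hf ((mem_B C).mpr hxN)) (hN N le_rfl) i s hs.le
  rwa [(C i).red_mul ((mem_B C).mp hf i) (hxN i), (C i).red_pow (hx i).1, map_mul, map_pow, hs,
    one_pow, mul_one] at h1

end Red

end Fermat.Agent.H84
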