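import Mathlib
import Fermat.Agent.H84Red

/-!
# Connectedness of the special fibre

If `e` is regular away from the poles of `x`, `e'` is regular away from the zeros of `x`, both are
integral at all components and both reduce to the same family `c` of constants, then `c` is
constant. The base valuation ring `A` is assumed to be archimedean, the components form a frame.
-/

set_option autoImplicit false

open AlgebraicCurve WithZero Polynomial IntermediateField Module

namespace Fermat.Agent.H84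

variable {K k : Type*} [Field K] [Field k] {A : ValuationSubring K} {π : A →+* k}
  {F κ : Type*} [Field F] [Algebra K F] [Field κ] [Algebra k κ]

/-- The valuation ring `A` as a component of `K`. -/
def baseComp (hπ : Function.Surjective π) : Comp A π K k where
  V := A
  ρ := π
  loc := fun v hv => (pi_ne_zero_iff hπ v).mp hv
  mem := fun a => a.2
  ρ_mem := fun _ => rfl

/-- `A` is archimedean (of rank one). -/
def Arch (A : ValuationSubring K) (π : A →+* k) : Prop :=
  ∀ a b : A, π a = 0 → b ≠ 0 → ∃ n : ℕ, b ∣ a ^ n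

theorem Arch.exists_pow_mul_mem (h : Arch A π) {a : K} (ha : a ∈ A) (ha0 : π ⟨a, ha⟩ = 0) (c : K) :
    ∃ N : ℕ, ∀ n ≥ N, a ^ n * c ∈ A := by
  have key : ∃ N : ℕ, a ^ N * c ∈ A := by
    by_cases hc : c ∈ A
    · exact ⟨0, by rwa [pow_zero, one_mul]⟩
    · have hci : c⁻¹ ∈ A := (A.mem_or_inv_mem c).resolve_left hc
      have hc0 : c ≠ 0 := by rintro rfl; exact hc A.zero_mem
      obtain ⟨N, y, hy⟩ := h ⟨a, ha⟩ ⟨c⁻¹, hci⟩ ha0 (by
        intro h0
        exact inv_ne_zero hc0 (congrArg Subtype.val h0))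
      refine ⟨N, ?_⟩
      have h1 : a ^ N = c⁻¹ * (y : K) := congrArg Subtype.val hy
      rw [h1, mul_right_comm, inv_mul_cancel₀ hc0, one_mul]
      exact y.2
  obtain ⟨N, hN⟩ := key
  refine ⟨N, fun n hn => ?_⟩
  obtain ⟨m, rfl⟩ := Nat.exists_eq_add_of_le hn
  rw [pow_add, mul_right_comm]
  refine A.mul_mem _ _ hN ?_
  have h2 : ((⟨a, ha⟩ : A) ^ m : A) = a ^ m := by rfl
  rw [← h2]
  exact SetLike.coe_mem _

theorem pi_eq_zero_of_red {C : Comp A π F κ} {c : K} (hc : c ∈ A)
    (h : C.red (algebraMap K F c) = 0) : π ⟨c, hc⟩ = 0 := by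
  rw [C.red_algebraMap' hc] at h
  exact (map_eq_zero_iff _ (algebraMap k κ).injective).mp h

namespace Comp

variable {C : Comp A π F κ}

/-- High powers of an element with zero reduction kill everything. -/
theorem Scalable.exists_pow_kill (hπ : Function.Surjective π) (arch : Arch A π) (hC : C.Scalable)
    {t : F} (ht : t ∈ C.V) (ht0 : C.red t = 0) (g : F) :
    ∃ N : ℕ, ∀ n ≥ N, t ^ n * g ∈ C.V ∧ C.red (t ^ n * g) = 0 := by
  by_cases htz : t = 0
  · refine ⟨1, fun n hn => ?_⟩
    rw [htz, zero_pow (by omega), zero_mul]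
    exact ⟨C.V.zero_mem, C.red_zero⟩
  by_cases hgz : g = 0
  · refine ⟨0, fun n _ => ?_⟩
    rw [hgz, mul_zero]
    exact ⟨C.V.zero_mem, C.red_zero⟩
  obtain ⟨c₁, hc₁, hr₁⟩ := hC t htz
  obtain ⟨c₂, hc₂, hr₂⟩ := hC g hgz
  have hm₁ := C.mem_of_red_ne_zero hr₁
  have hm₂ := C.mem_of_red_ne_zero hr₂
  have hi₁ := C.inv_mem_of_red_ne_zero hr₁
  have hA1 : algebraMap K F c₁⁻¹ = t * (algebraMap K F c₁ * t)⁻¹ := by
    have : algebraMap K F c₁ ≠ 0 := (_root_.map_ne_zero _).mpr hc₁
    rw [map_inv₀]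
    field_simp
  have hA : algebraMap K F c₁⁻¹ ∈ C.V := by
    rw [hA1]
    exact C.V.mul_mem _ _ ht hi₁
  have hA' := (C.algebraMap_mem_iff hπ).mp hA
  have hA0 : π ⟨_, hA'⟩ = 0 := by
    apply pi_eq_zero_of_red (C := C) hA'
    rw [hA1, C.red_mul ht hi₁, ht0, zero_mul]
  obtain ⟨N, hN⟩ := arch.exists_pow_mul_mem hA' hA0 c₂⁻¹
  refine ⟨N + 1, fun n hn => ?_⟩
  obtain ⟨m, rfl⟩ : ∃ m, n = m + 1 := ⟨n - 1, by omega⟩
  have h1 : t ^ (m + 1) * g = algebraMap K F c₁⁻¹ * (algebraMap K F (c₁⁻¹ ^ m * c₂⁻¹) *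
      ((algebraMap K F c₁ * t) ^ (m + 1) * (algebraMap K F c₂ * g))) := by
    have h2 : algebraMap K F c₁ ≠ 0 := (_root_.map_ne_zero _).mpr hc₁
    have h3 : algebraMap K F c₂ ≠ 0 := (_root_.map_ne_zero _).mpr hc₂
    rw [map_mul, map_pow, map_inv₀, map_inv₀]
    calc t ^ (m + 1) * g = ((algebraMap K F c₁)⁻¹ ^ (m + 1) * algebraMap K F c₁ ^ (m + 1)) *
          ((algebraMap K F c₂)⁻¹ * algebraMap K F c₂) * (t ^ (m + 1) * g) := by
          rw [← mul_pow, inv_mul_cancel₀ h2, one_pow, inv_mul_cancel₀ h3, one_mul, one_mul]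
      _ = _ := by ring
  have h4 : algebraMap K F (c₁⁻¹ ^ m * c₂⁻¹) * ((algebraMap K F c₁ * t) ^ (m + 1) *
      (algebraMap K F c₂ * g)) ∈ C.V :=
    C.V.mul_mem _ _ (C.mem ⟨_, hN m (by omega)⟩) (C.V.mul_mem _ _ (C.pow_mem hm₁ _) hm₂)
  rw [h1]
  refine ⟨C.V.mul_mem _ _ hA h4, ?_⟩
  rw [C.red_mul hA h4, C.red_algebraMap' hA', hA0, map_zero, zero_mul]

end Comp

variable {ι : Type*} {C : ι → Comp A π F κ} {x : F} {J : Type*} [Fintype J] {b : J → F}

/-- Scaling an element with respect to a nonempty finite set of components. -/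
theorem exists_scale_family (hS : ∀ i, (C i).Scalable)
    (Z : Finset ι) (hZ : Z.Nonempty) {f : F} (hf : f ≠ 0) :
    ∃ a : K, a ≠ 0 ∧ (∀ i ∈ Z, algebraMap K F a⁻¹ * f ∈ (C i).V) ∧
      ∃ i ∈ Z, (C i).red (algebraMap K F a⁻¹ * f) ≠ 0 := by
  choose c hc hred using fun i => hS i f hf
  obtain ⟨i₁, hi₁, hmax⟩ := Z.exists_max_image (fun i => A.valuation (c i)⁻¹) hZ
  refine ⟨(c i₁)⁻¹, inv_ne_zero (hc i₁), fun i hi => ?_, i₁, hi₁, by rw [inv_inv]; exact hred i₁⟩
  have h1 : c i₁ * (c i)⁻¹ ∈ A := by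
    rw [← A.valuation_le_one_iff, map_mul]
    have h2 := hmax i hi
    have h3 : A.valuation (c i₁) ≠ 0 := (Valuation.ne_zero_iff _).mpr (hc i₁)
    calc A.valuation (c i₁) * A.valuation (c i)⁻¹ ≤ A.valuation (c i₁) * A.valuation (c i₁)⁻¹ :=
          mul_le_mul_right h2 _
      _ = 1 := by rw [← map_mul, mul_inv_cancel₀ (hc i₁), map_one]
  have h2 : algebraMap K F (c i₁)⁻¹⁻¹ * f = algebraMap K F (c i₁ * (c i)⁻¹) *
      (algebraMap K F (c i) * f) := by
    rw [inv_inv, ← mul_assoc, ← map_mul, inv_mul_cancel_right₀ (hc i)]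
  rw [h2]
  exact (C i).V.mul_mem _ _ ((C i).mem ⟨_, h1⟩) ((C i).mem_of_red_ne_zero (hred i))

section Eval

variable [IsAlgClosed K] [H3RR.IsFF K F] [Nonempty ι] {P : Place K F}

omit [IsAlgClosed K] in
theorem mem_of_monic_relation {c : K} {d : ℕ} (a : Fin d → A)
    (h : c ^ d + ∑ m : Fin d, (a m : K) * c ^ (m : ℕ) = 0) : c ∈ A := by
  have hint : IsIntegral A c := by
    refine ⟨X ^ d + ∑ m : Fin d, Polynomial.C (a m) * X ^ (m : ℕ), ?_, ?_⟩
    · apply Polynomial.monic_X_pow_add
      refine lt_of_le_of_lt (Polynomial.degree_sum_le _ _) ?_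
      rw [Finset.sup_lt_iff (by exact WithBot.bot_lt_coe d)]
      intro m _
      exact lt_of_le_of_lt (Polynomial.degree_C_mul_X_pow_le _ _) (by exact_mod_cast m.2)
    · rw [← h, eval₂_add, eval₂_X_pow, eval₂_finsetSum]
      congr 1
      refine Finset.sum_congr rfl fun m _ => ?_
      rw [eval₂_mul, eval₂_C, eval₂_X_pow]
      rfl
  obtain ⟨y, hy⟩ := IsIntegrallyClosed.isIntegral_iff.mp hint
  rw [← hy]
  exact y.2

omit [IsAlgClosed K] [H3RR.IsFF K F] in
theorem val_eq_one_of_sub_lt (hP : P.adicValuation (x - 1) < 1) : P.adicValuation x = 1 := by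
  have h1 : x = 1 + (x - 1) := by ring
  rw [h1, Valuation.map_add_eq_of_lt_left, map_one]
  rw [map_one]
  exact hP

theorem ev_eq_one_of_sub_lt (hP : P.adicValuation (x - 1) < 1) : ev P x = 1 :=
  ev_unique (by rwa [map_one])

/-- Values of integral functions at a place over `x = 1` are integral. -/
theorem IsFrame.ev_mem (hπ : Function.Surjective π) (hx : ResTrans C x) (hb : IsFrame C x b)
    (hP : P.adicValuation (x - 1) < 1) {f : F} (hf : f ∈ B C)
    (hreg : ∀ v : Place K F, v.adicValuation x = 1 → v.adicValuation f ≤ 1) : ev P f ∈ A := by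
  have hxP := val_eq_one_of_sub_lt hP
  have hevx := ev_eq_one_of_sub_lt hP
  obtain ⟨N, hN⟩ := exists_pow_mul_le_one (transcendental_of_resTrans hx) f hreg
  have hxN : x ^ N ∈ B C := (mem_B C).mpr fun i => (C i).pow_mem (hx i).1 N
  obtain ⟨d, Q, hQ⟩ := hb.exists_monic hπ hx ((B C).mul_mem hf hxN)
    (isIntegral_of_forall_le_one (hN N le_rfl))
  have hg := hN N le_rfl P hxP.le
  have hfP := hreg P hxP
  have hevg : ev P (f * x ^ N) = ev P f := by
    rw [ev_mul hfP (by rw [map_pow, hxP, one_pow]), ev_pow hxP.le, hevx, one_pow, mul_one]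
  have hterm : ∀ m : Fin d, P.adicValuation (aeval x ((Q m).map A.subtype) *
      (f * x ^ N) ^ (m : ℕ)) ≤ 1 := fun m => by
    rw [map_mul, map_pow]
    exact mul_le_one' (aeval_le_one hxP.le _) (pow_le_one' hg _)
  have h1 := congrArg (ev P) hQ
  rw [ev_zero, ev_add (by rw [map_pow]; exact pow_le_one' hg _)
    (Valuation.map_sum_le _ fun m _ => hterm m), ev_pow hg, ev_sum _ _ fun m _ => hterm m,
    hevg] at h1
  refine mem_of_monic_relation (fun m => (Q m).eval 1) (Eq.trans ?_ h1)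
  congr 1
  refine Finset.sum_congr rfl fun m _ => ?_
  rw [ev_mul (aeval_le_one hxP.le _) (by rw [map_pow]; exact pow_le_one' hg _), ev_pow hg, hevg,
    ev_aeval hxP.le, hevx, eval_map, eval₂_at_one]
  rfl

theorem IsFrame.red_ev_eq_zero (hπ : Function.Surjective π) (hx : ResTrans C x)
    (hb : IsFrame C x b) [Finite ι] (hS : ∀ i, (C i).Scalable)
    (hP : P.adicValuation (x - 1) < 1) {f : F} (hf : f ∈ B C)
    (hreg : ∀ v : Place K F, v.adicValuation x = 1 → v.adicValuation f ≤ 1)
    (h0 : ∀ i, (C i).red f = 0) : (baseComp hπ).red (ev P f) = 0 := by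
  classical
  have := Fintype.ofFinite ι
  by_cases hfz : f = 0
  · rw [hfz, ev_zero, Comp.red_zero]
  obtain ⟨a, ha, hmem, i₁, -, hred⟩ := exists_scale_family hS Finset.univ
    Finset.univ_nonempty hfz
  have hi₁ := (C i₁).inv_mem_of_red_ne_zero hred
  have hfi := (mem_B C).mp hf i₁
  have haF : algebraMap K F a ≠ 0 := (_root_.map_ne_zero _).mpr ha
  have h1 : algebraMap K F a = f * (algebraMap K F a⁻¹ * f)⁻¹ := by
    rw [map_inv₀]
    field_simp
  have h2 : algebraMap K F a ∈ (C i₁).V := by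
    rw [h1]
    exact (C i₁).V.mul_mem _ _ hfi hi₁
  have haA := ((C i₁).algebraMap_mem_iff hπ).mp h2
  have hpa : π ⟨a, haA⟩ = 0 := by
    apply pi_eq_zero_of_red (C := C i₁) haA
    rw [h1, (C i₁).red_mul hfi hi₁, h0, zero_mul]
  have hgB : algebraMap K F a⁻¹ * f ∈ B C := (mem_B C).mpr fun i => hmem i (Finset.mem_univ i)
  have hgreg : ∀ v : Place K F, v.adicValuation x = 1 →
      v.adicValuation (algebraMap K F a⁻¹ * f) ≤ 1 := fun v hv => by
    rw [map_mul]
    exact mul_le_one' (v.adicValuation_algebraMap_le_one _) (hreg v hv)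
  have hgA := hb.ev_mem hπ hx hP hgB hgreg
  have hxP := val_eq_one_of_sub_lt hP
  have h3 : ev P f = a * ev P (algebraMap K F a⁻¹ * f) := by
    have h4 : f = algebraMap K F a * (algebraMap K F a⁻¹ * f) := by
      rw [← mul_assoc, ← map_mul, mul_inv_cancel₀ ha, map_one, one_mul]
    conv_lhs => rw [h4]
    rw [ev_mul (P.adicValuation_algebraMap_le_one _) (hgreg P hxP), ev_algebraMap]
  rw [h3, (baseComp hπ).red_mul haA hgA]
  have h5 : (baseComp hπ).red a = π ⟨a, haA⟩ := (baseComp hπ).red_of_mem haA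
  rw [h5, hpa, zero_mul]

end Eval

section Glued

variable (C x)

/-- `e, e'` witness that the family of constants `c` is glued. -/
structure Wit (c : ι → k) (e e' : F) : Prop where
  mem : e ∈ B C
  mem' : e' ∈ B C
  reg : ∀ v : Place K F, v.adicValuation x ≤ 1 → v.adicValuation e ≤ 1
  reg' : ∀ v : Place K F, v.adicValuation x⁻¹ ≤ 1 → v.adicValuation e' ≤ 1
  red : ∀ i, (C i).red e = algebraMap k κ (c i)
  red' : ∀ i, (C i).red e' = algebraMap k κ (c i)

variable {C x}

theorem Wit.mul {c d : ι → k} {e e' f f' : F} (h : Wit C x c e e') (h' : Wit C x d f f') :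
    Wit C x (c * d) (e * f) (e' * f') where
  mem := (B C).mul_mem h.mem h'.mem
  mem' := (B C).mul_mem h.mem' h'.mem'
  reg := fun v hv => by
    rw [map_mul]
    exact mul_le_one' (h.reg v hv) (h'.reg v hv)
  reg' := fun v hv => by
    rw [map_mul]
    exact mul_le_one' (h.reg' v hv) (h'.reg' v hv)
  red := fun i => by
    rw [(C i).red_mul ((mem_B C).mp h.mem i) ((mem_B C).mp h'.mem i), h.red, h'.red,
      Pi.mul_apply, map_mul]
  red' := fun i => by
    rw [(C i).red_mul ((mem_B C).mp h.mem' i) ((mem_B C).mp h'.mem' i), h.red', h'.red',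
      Pi.mul_apply, map_mul]

theorem Wit.add {c d : ι → k} {e e' f f' : F} (h : Wit C x c e e') (h' : Wit C x d f f') :
    Wit C x (c + d) (e + f) (e' + f') where
  mem := (B C).add_mem h.mem h'.mem
  mem' := (B C).add_mem h.mem' h'.mem'
  reg := fun v hv => (Valuation.map_add _ _ _).trans (max_le (h.reg v hv) (h'.reg v hv))
  reg' := fun v hv => (Valuation.map_add _ _ _).trans (max_le (h.reg' v hv) (h'.reg' v hv))
  red := fun i => by
    rw [(C i).red_add ((mem_B C).mp h.mem i) ((mem_B C).mp h'.mem i), h.red, h'.red,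
      Pi.add_apply, map_add]
  red' := fun i => by
    rw [(C i).red_add ((mem_B C).mp h.mem' i) ((mem_B C).mp h'.mem' i), h.red', h'.red',
      Pi.add_apply, map_add]

theorem Wit.const (a : A) :
    Wit C x (fun _ => π a) (algebraMap K F a) (algebraMap K F a) where
  mem := algebraMap_mem_B C a.2
  mem' := algebraMap_mem_B C a.2
  reg := fun v _ => v.adicValuation_algebraMap_le_one _
  reg' := fun v _ => v.adicValuation_algebraMap_le_one _
  red := fun i => (C i).red_algebraMap a
  red' := fun i => (C i).red_algebraMap a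

variable (C x) in
/-- The algebra of glued families of constants. -/
def gluedAlg (hπ : Function.Surjective π) : Subalgebra k (ι → k) where
  carrier := {c | ∃ e e', Wit C x c e e'}
  mul_mem' := by
    rintro c d ⟨e, e', h⟩ ⟨f, f', h'⟩
    exact ⟨_, _, h.mul h'⟩
  add_mem' := by
    rintro c d ⟨e, e', h⟩ ⟨f, f', h'⟩
    exact ⟨_, _, h.add h'⟩
  algebraMap_mem' := by
    intro r
    obtain ⟨a, rfl⟩ := hπ r
    exact ⟨_, _, Wit.const a⟩

theorem mem_gluedAlg (hπ : Function.Surjective π) {c : ι → k} :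
    c ∈ gluedAlg C x hπ ↔ ∃ e e', Wit C x c e e' := Iff.rfl

open Classical in
theorem indicator_mem [Finite ι] (S : Subalgebra k (ι → k)) {c : ι → k} (hc : c ∈ S) (a : k) :
    (fun i => if c i = a then (1 : k) else 0) ∈ S := by
  have := Fintype.ofFinite ι
  let T : Finset k := (Finset.univ.image c).erase a
  let p : k[X] := ∏ b ∈ T, (Polynomial.C (a - b)⁻¹ * (X - Polynomial.C b))
  have h1 : aeval c p ∈ S :=
    Algebra.adjoin_le (S := S) (Set.singleton_subset_iff.mpr hc)
      (Polynomial.aeval_mem_adjoin_singleton k c)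
  have h2 : aeval c p = fun i => if c i = a then (1 : k) else 0 := by
    funext i
    have h3 : aeval c p i = p.eval (c i) := by
      have := Polynomial.aeval_algHom_apply (Pi.evalAlgHom k (fun _ : ι => k) i) c p
      simp only [Pi.evalAlgHom_apply] at this
      rw [← this, coe_aeval_eq_eval]
    rw [h3]
    split_ifs with hi
    · rw [hi, eval_prod]
      refine Finset.prod_eq_one fun b hb => ?_
      have hba := Finset.ne_of_mem_erase hb
      rw [eval_mul, eval_C, eval_sub, eval_X, eval_C, inv_mul_cancel₀ (sub_ne_zero.mpr hba.symm)]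
    · rw [eval_prod]
      refine Finset.prod_eq_zero (Finset.mem_erase.mpr ⟨hi, Finset.mem_image.mpr
        ⟨i, Finset.mem_univ i, rfl⟩⟩) ?_
      rw [eval_mul, eval_sub, eval_X, eval_C, eval_C, sub_self, mul_zero]
  rwa [h2] at h1

end Glued

section Main

variable [IsAlgClosed K] [H3RR.IsFF K F]

theorem exists_nonconst_pole (P : Place K F) :
    ∃ f : F, Transcendental K f ∧ ∀ v : Place K F, v ≠ P → v.adicValuation f ≤ 1 := by
  classical
  let n : ℤ := 2 * (genusFF K F : ℤ) + 1
  let D : Divisor K F := Finsupp.single P n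
  have hdeg : Divisor.degree D = n := by
    rw [Divisor.degree_single, H3RR.deg_eq_one]
    simp
  have hell := H3RR.ell_of_degree_gt (D := D) (by rw [hdeg]; omega)
  have hell2 : 2 ≤ H3RR.ell D := by
    rw [hdeg] at hell
    omega
  by_contra hcon
  push Not at hcon
  have hle : riemannRochSpace D ≤ Submodule.span K {(1 : F)} := by
    intro f hf
    have halg : ¬ Transcendental K f := by
      intro hft
      obtain ⟨v, hv, hlt⟩ := hcon f hft
      have h1 : v.adicValuation f ≤ exp (D v) := hf v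
      rw [Finsupp.single_apply, if_neg (Ne.symm hv), exp_zero] at h1
      exact absurd h1 (not_le.mpr hlt)
    rw [Transcendental, not_not] at halg
    obtain ⟨c, rfl⟩ := H3RR.exists_const_of_isAlgebraic halg
    rw [Submodule.mem_span_singleton]
    exact ⟨c, by rw [Algebra.smul_def, mul_one]⟩
  have h1 := Submodule.finrank_mono hle
  rw [finrank_span_singleton (one_ne_zero : (1 : F) ≠ 0)] at h1
  have h2 : H3RR.ell D = finrank K (riemannRochSpace D) := rfl
  omega

open Classical in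
/-- **Connectedness of the special fibre**. -/
theorem IsFrame.const_of_glued [Nonempty ι] [Finite ι] [IsAlgClosed k] [H3RR.IsFF k κ]
    (hπ : Function.Surjective π) (arch : Arch A π)
    (hx : ResTrans C x) (hb : IsFrame C x b) {c : ι → k} (hc : c ∈ gluedAlg C x hπ) (i j : ι) :
    c i = c j := by
  have := Fintype.ofFinite ι
  by_contra hne
  have hxK := transcendental_of_resTrans hx
  have hfin := H3RR.IsFF.finiteDimensional hxK
  have hS : ∀ i, (C i).Scalable := fun i => (C i).scalable hxK (hx i).1 (hx i).2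
  have hx1 : Transcendental K (x - 1) := by
    intro h
    apply hxK
    have h2 := h.add (isAlgebraic_algebraMap (R := K) (A := F) (1 : K))
    rwa [map_one, sub_add_cancel] at h2
  obtain ⟨P, hP⟩ := H3RR.exists_place_lt_one hx1
  have hxP := val_eq_one_of_sub_lt hP
  have hxP' : P.adicValuation x⁻¹ = 1 := by rw [map_inv₀, hxP, inv_one]
  -- regularity
  have hregOff : ∀ {c : ι → k} {e e' : F}, Wit C x c e e' → ∀ v : Place K F,
      v.adicValuation x = 1 → v.adicValuation e ≤ 1 := fun h v hv => h.reg v hv.le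
  have hregOff' : ∀ {c : ι → k} {e e' : F}, Wit C x c e e' → ∀ v : Place K F,
      v.adicValuation x = 1 → v.adicValuation e' ≤ 1 := fun h v hv =>
    h.reg' v (by rw [map_inv₀, hv, inv_one])
  have hA : ∀ {c : ι → k} {e e' : F}, Wit C x c e e' → ev P e ∈ A := fun h =>
    hb.ev_mem hπ hx hP h.mem (hregOff h)
  have hA' : ∀ {c : ι → k} {e e' : F}, Wit C x c e e' → ev P e' ∈ A := fun h =>
    hb.ev_mem hπ hx hP h.mem' (hregOff' h)
  -- the values at `P` of two witnesses of the same family are congruent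
  have hsub : ∀ {c : ι → k} {e e' : F}, Wit C x c e e' →
      (baseComp hπ).red (ev P e') = (baseComp hπ).red (ev P e) := by
    intro c e e' h
    have h1 := hb.red_ev_eq_zero hπ hx hS hP ((B C).sub_mem h.mem' h.mem) (fun v hv =>
      (Valuation.map_sub _ _ _).trans (max_le (hregOff' h v hv) (hregOff h v hv))) (fun i => by
        rw [(C i).red_sub ((mem_B C).mp h.mem' i) ((mem_B C).mp h.mem i), h.red, h.red', sub_self])
    rw [ev_sub (hregOff' h P hxP) (hregOff h P hxP),
      (baseComp hπ).red_sub (hA' h) (hA h), sub_eq_zero] at h1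
    exact h1
  let ind : Finset ι → ι → k := fun Z i => if i ∈ Z then 1 else 0
  let G : Finset ι → Prop := fun Z => ∃ e e', Wit C x (ind Z) e e' ∧
    (baseComp hπ).red (ev P e) = 0
  -- a starting set
  obtain ⟨Z₀, hZ₀, hGZ₀⟩ : ∃ Z : Finset ι, Z.Nonempty ∧ G Z := by
    let Z := Finset.univ.filter (fun l => c l = c i)
    have hind : ind Z = fun l => if c l = c i then (1 : k) else 0 := by
      funext l
      simp only [ind, Z, Finset.mem_filter, Finset.mem_univ, true_and]
    obtain ⟨e, e', he⟩ : ∃ e e', Wit C x (ind Z) e e' := by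
      rw [hind]
      exact indicator_mem (gluedAlg C x hπ) hc (c i)
    -- the value of an idempotent
    have hidem : (baseComp hπ).red (ev P e) = 0 ∨ (baseComp hπ).red (ev P e) = 1 := by
      have h1 := hb.red_ev_eq_zero hπ hx hS hP ((B C).sub_mem ((B C).mul_mem he.mem he.mem) he.mem)
        (fun v hv => (Valuation.map_sub _ _ _).trans (max_le (by
          rw [map_mul]
          exact mul_le_one' (hregOff he v hv) (hregOff he v hv)) (hregOff he v hv))) (fun l => by
        have hl := (mem_B C).mp he.mem l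
        rw [(C l).red_sub ((C l).V.mul_mem _ _ hl hl) hl, (C l).red_mul hl hl, he.red]
        simp only [ind]
        split_ifs <;> simp)
      have hP1 := hregOff he P hxP
      rw [ev_sub (by rw [map_mul]; exact mul_le_one' hP1 hP1) hP1, ev_mul hP1 hP1,
        (baseComp hπ).red_sub (A.mul_mem _ _ (hA he) (hA he)) (hA he),
        (baseComp hπ).red_mul (hA he) (hA he), sub_eq_zero] at h1
      have h2 : (baseComp hπ).red (ev P e) * ((baseComp hπ).red (ev P e) - 1) = 0 := by
        rw [mul_sub, h1, mul_one, sub_self]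
      rcases mul_eq_zero.mp h2 with h | h
      · exact Or.inl h
      · exact Or.inr (sub_eq_zero.mp h)
    rcases hidem with h | h
    · exact ⟨Z, ⟨i, Finset.mem_filter.mpr ⟨Finset.mem_univ i, rfl⟩⟩, e, e', he, h⟩
    · have hneg1 : Wit C x (fun _ => π (-1)) (algebraMap K F ((-1 : A) : K))
          (algebraMap K F ((-1 : A) : K)) := Wit.const (-1)
      have hone : Wit C x (fun _ => π 1) (algebraMap K F ((1 : A) : K))
          (algebraMap K F ((1 : A) : K)) := Wit.const 1
      have hcomp := hone.add (hneg1.mul he)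
      have hcc : (fun _ => π 1) + (fun _ => π (-1)) * ind Z = ind Zᶜ := by
        funext l
        simp only [ind, Pi.add_apply, Pi.mul_apply, map_one, map_neg, Finset.mem_compl]
        by_cases hl : l ∈ Z <;> simp [hl]
      rw [hcc] at hcomp
      refine ⟨Zᶜ, ⟨j, ?_⟩, _, _, hcomp, ?_⟩
      · rw [Finset.mem_compl, Finset.mem_filter]
        exact fun h => hne h.2.symm
      · have hP1 := hregOff he P hxP
        have hc1 : P.adicValuation (algebraMap K F ((-1 : A) : K)) ≤ 1 :=
          P.adicValuation_algebraMap_le_one _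
        rw [ev_add (P.adicValuation_algebraMap_le_one _) (by
            rw [map_mul]; exact mul_le_one' hc1 hP1), ev_mul hc1 hP1, ev_algebraMap, ev_algebraMap,
          (baseComp hπ).red_add (1 : A).2 (A.mul_mem _ _ (-1 : A).2 (hA he)),
          (baseComp hπ).red_mul (-1 : A).2 (hA he), h]
        have h3 : (baseComp hπ).red ((1 : A) : K) = π 1 := (baseComp hπ).red_of_mem (1 : A).2
        have h4 : (baseComp hπ).red ((-1 : A) : K) = π (-1) := (baseComp hπ).red_of_mem (-1 : A).2
        rw [h3, h4, map_one, map_neg, map_one]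
        ring
  -- a minimal set
  obtain ⟨Z, ⟨hZ, e, e', hW, hev⟩, hmin⟩ := WellFounded.has_min
    (measure (Finset.card : Finset ι → ℕ)).wf {Z | Z.Nonempty ∧ G Z} ⟨Z₀, hZ₀, hGZ₀⟩
  have hmin' : ∀ Z' : Finset ι, Z'.Nonempty → G Z' → Z.card ≤ Z'.card := fun Z' h1 h2 =>
    not_lt.mp (hmin Z' ⟨h1, h2⟩)
  obtain ⟨i₀, hi₀⟩ := hZ
  -- functions vanishing at `P`
  set t := e - algebraMap K F (ev P e) with ht
  set t' := e' - algebraMap K F (ev P e') with ht'
  have hevA := hA hW
  have hevA' := hA' hW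
  have hev' : (baseComp hπ).red (ev P e') = 0 := by rw [hsub hW, hev]
  have hπe : π ⟨_, hevA⟩ = 0 := by rw [← hev]; exact ((baseComp hπ).red_of_mem hevA).symm
  have hπe' : π ⟨_, hevA'⟩ = 0 := by rw [← hev']; exact ((baseComp hπ).red_of_mem hevA').symm
  have htB : ∀ l, t ∈ (C l).V := fun l =>
    (C l).sub_mem ((mem_B C).mp hW.mem l) ((C l).mem ⟨_, hevA⟩)
  have htB' : ∀ l, t' ∈ (C l).V := fun l =>
    (C l).sub_mem ((mem_B C).mp hW.mem' l) ((C l).mem ⟨_, hevA'⟩)
  have htr : ∀ l, (C l).red t = algebraMap k κ (ind Z l) := fun l => by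
    rw [ht, (C l).red_sub ((mem_B C).mp hW.mem l) ((C l).mem ⟨_, hevA⟩), hW.red,
      (C l).red_algebraMap' hevA, hπe, map_zero, sub_zero]
  have htr' : ∀ l, (C l).red t' = algebraMap k κ (ind Z l) := fun l => by
    rw [ht', (C l).red_sub ((mem_B C).mp hW.mem' l) ((C l).mem ⟨_, hevA'⟩), hW.red',
      (C l).red_algebraMap' hevA', hπe', map_zero, sub_zero]
  have htP : P.adicValuation t < 1 := ev_spec (hregOff hW P hxP)
  have htP' : P.adicValuation t' < 1 := ev_spec (hregOff' hW P hxP)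
  have htreg : ∀ v : Place K F, v.adicValuation x ≤ 1 → v.adicValuation t ≤ 1 := fun v hv =>
    (Valuation.map_sub _ _ _).trans (max_le (hW.reg v hv) (v.adicValuation_algebraMap_le_one _))
  have htreg' : ∀ v : Place K F, v.adicValuation x⁻¹ ≤ 1 → v.adicValuation t' ≤ 1 := fun v hv =>
    (Valuation.map_sub _ _ _).trans (max_le (hW.reg' v hv) (v.adicValuation_algebraMap_le_one _))
  -- a function with poles only at `P`
  obtain ⟨f₀, hf₀, hpole⟩ := exists_nonconst_pole P
  have hfin₀ := H3RR.IsFF.finiteDimensional hf₀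
  obtain ⟨a, c₀, ha, hnot⟩ := (hS i₀).exists_translate (hx i₀).1 (hx i₀).2 hf₀
  set g := algebraMap K F a * (f₀ - algebraMap K F c₀) with hg
  have hgred : (C i₀).red g ≠ 0 := fun h => hnot ⟨0, by rw [map_zero, h]⟩
  have hg0 : g ≠ 0 := (C i₀).ne_zero_of_red_ne_zero hgred
  obtain ⟨d, hd, hgmem, i₁, hi₁, hgi₁⟩ := exists_scale_family hS Z ⟨i₀, hi₀⟩ hg0
  set g₁ := algebraMap K F d⁻¹ * g with hg₁
  have hg₁pole : ∀ v : Place K F, v ≠ P → v.adicValuation g₁ ≤ 1 := fun v hv => by
    rw [hg₁, hg, map_mul, map_mul]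
    exact mul_le_one' (v.adicValuation_algebraMap_le_one _) (mul_le_one'
      (v.adicValuation_algebraMap_le_one _) ((Valuation.map_sub _ _ _).trans
        (max_le (hpole v hv) (v.adicValuation_algebraMap_le_one _))))
  -- large powers
  have hkill : ∀ l, ∃ N : ℕ, l ∉ Z → ∀ n ≥ N, (t ^ n * g₁ ∈ (C l).V ∧ (C l).red (t ^ n * g₁) = 0) ∧
      (t' ^ n * g₁ ∈ (C l).V ∧ (C l).red (t' ^ n * g₁) = 0) := by
    intro l
    by_cases hl : l ∈ Z
    · exact ⟨0, fun h => (h hl).elim⟩
    · obtain ⟨N, hN⟩ := (hS l).exists_pow_kill hπ arch (htB l) (by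
        rw [htr l]; simp [ind, hl]) g₁
      obtain ⟨N', hN'⟩ := (hS l).exists_pow_kill hπ arch (htB' l) (by
        rw [htr' l]; simp [ind, hl]) g₁
      exact ⟨max N N', fun _ n hn => ⟨hN n ((le_max_left _ _).trans hn),
        hN' n ((le_max_right _ _).trans hn)⟩⟩
  choose N hN using hkill
  obtain ⟨N₁, hN₁⟩ := H3RR.exists_pow_mul_lt_one (b := P.adicValuation g₁) htP
  obtain ⟨N₂, hN₂⟩ := H3RR.exists_pow_mul_lt_one (b := P.adicValuation g₁) htP'
  set n := max (Finset.univ.sup N) (max N₁ N₂) with hn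
  have hnN : ∀ l, N l ≤ n := fun l => (Finset.le_sup (Finset.mem_univ l)).trans (le_max_left _ _)
  have hnN₁ : N₁ ≤ n := (le_max_left _ _).trans (le_max_right _ _)
  have hnN₂ : N₂ ≤ n := (le_max_right _ _).trans (le_max_right _ _)
  have hh : ∀ l, t ^ n * g₁ ∈ (C l).V ∧
      (C l).red (t ^ n * g₁) = if l ∈ Z then (C l).red g₁ else 0 := by
    intro l
    by_cases hl : l ∈ Z
    · rw [if_pos hl]
      refine ⟨(C l).V.mul_mem _ _ ((C l).pow_mem (htB l) n) (hgmem l hl), ?_⟩
      rw [(C l).red_mul ((C l).pow_mem (htB l) n) (hgmem l hl), (C l).red_pow (htB l), htr l]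
      simp [ind, hl]
    · rw [if_neg hl]
      exact (hN l hl n (hnN l)).1
  have hh' : ∀ l, t' ^ n * g₁ ∈ (C l).V ∧
      (C l).red (t' ^ n * g₁) = if l ∈ Z then (C l).red g₁ else 0 := by
    intro l
    by_cases hl : l ∈ Z
    · rw [if_pos hl]
      refine ⟨(C l).V.mul_mem _ _ ((C l).pow_mem (htB' l) n) (hgmem l hl), ?_⟩
      rw [(C l).red_mul ((C l).pow_mem (htB' l) n) (hgmem l hl), (C l).red_pow (htB' l), htr' l]
      simp [ind, hl]
    · rw [if_neg hl]
      exact (hN l hl n (hnN l)).2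
  have hhreg : ∀ v : Place K F, v.adicValuation x ≤ 1 → v.adicValuation (t ^ n * g₁) ≤ 1 := by
    intro v hv
    rw [map_mul, map_pow]
    by_cases hvP : v = P
    · rw [hvP]
      exact (hN₁ n hnN₁).le
    · exact mul_le_one' (pow_le_one' (htreg v hv) n) (hg₁pole v hvP)
  have hhreg' : ∀ v : Place K F, v.adicValuation x⁻¹ ≤ 1 →
      v.adicValuation (t' ^ n * g₁) ≤ 1 := by
    intro v hv
    rw [map_mul, map_pow]
    by_cases hvP : v = P
    · rw [hvP]
      exact (hN₂ n hnN₂).le
    · exact mul_le_one' (pow_le_one' (htreg' v hv) n) (hg₁pole v hvP)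
  have hhB : t ^ n * g₁ ∈ B C := (mem_B C).mpr fun l => (hh l).1
  have hhB' : t' ^ n * g₁ ∈ B C := (mem_B C).mpr fun l => (hh' l).1
  -- the reductions of `g₁` on `Z` are constants
  have hconst : ∀ l ∈ Z, ∃ r : k, algebraMap k κ r = (C l).red g₁ := by
    intro l hl
    apply H3RR.exists_const_of_forall_le_one
    intro s
    rcases le_total (s.adicValuation ((C l).red x)) 1 with hs | hs
    · have h1 := hb.red_le_one hπ hx hhB hhreg l s hs
      rwa [(hh l).2, if_pos hl] at h1
    · have h1 := hb.red_le_one_inv hπ hx hhB' hhreg' l s (by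
        rw [map_inv₀]
        exact inv_le_one_of_one_le₀ hs)
      rwa [(hh' l).2, if_pos hl] at h1
  choose! r hr using hconst
  let ct : ι → k := fun l => if l ∈ Z then r l else 0
  have hWit : Wit C x ct (t ^ n * g₁) (t' ^ n * g₁) := by
    refine ⟨hhB, hhB', hhreg, hhreg', fun l => ?_, fun l => ?_⟩
    · rw [(hh l).2]
      simp only [ct]
      split_ifs with hl
      · exact (hr l hl).symm
      · rw [map_zero]
    · rw [(hh' l).2]
      simp only [ct]
      split_ifs with hl
      · exact (hr l hl).symm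
      · rw [map_zero]
  have hri₁ : r i₁ ≠ 0 := by
    intro h
    apply hgi₁
    rw [← hr i₁ hi₁, h, map_zero]
  let Z' := Z.filter (fun l => r l = r i₁)
  have hindZ' : (fun l => if ct l = r i₁ then (1 : k) else 0) = ind Z' := by
    funext l
    simp only [ct, ind, Z', Finset.mem_filter]
    by_cases hl : l ∈ Z
    · simp [hl]
    · simp [hl, hri₁.symm]
  obtain ⟨u, u', hu⟩ : ∃ u u', Wit C x (ind Z') u u' := by
    rw [← hindZ']
    exact indicator_mem (gluedAlg C x hπ) ⟨_, _, hWit⟩ (r i₁)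
  have hmulind : ind Z' * ind Z = ind Z' := by
    funext l
    simp only [ind, Z', Pi.mul_apply, Finset.mem_filter]
    by_cases hl : l ∈ Z <;> simp [hl]
  have hGZ' : G Z' := by
    have h1 := hu.mul hW
    rw [hmulind] at h1
    refine ⟨_, _, h1, ?_⟩
    rw [ev_mul (hregOff hu P hxP) (hregOff hW P hxP), (baseComp hπ).red_mul (hA hu) hevA, hev,
      mul_zero]
  have hcard := hmin' Z' ⟨i₁, Finset.mem_filter.mpr ⟨hi₁, rfl⟩⟩ hGZ'
  have hZeq : Z' = Z := Finset.eq_of_subset_of_card_le (Finset.filter_subset _ _) hcard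
  have hi₀' : r i₀ = r i₁ := by
    have : i₀ ∈ Z' := by rw [hZeq]; exact hi₀
    exact (Finset.mem_filter.mp this).2
  -- contradiction
  have hred₁ : (C i₀).red g₁ ≠ 0 := by
    rw [← hr i₀ hi₀, hi₀']
    exact (_root_.map_ne_zero _).mpr hri₁
  have hdF : algebraMap K F d ≠ 0 := (_root_.map_ne_zero _).mpr hd
  have hd1 : algebraMap K F d = g * g₁⁻¹ := by
    rw [hg₁, map_inv₀]
    field_simp
  have hgm := (C i₀).mem_of_red_ne_zero hgred
  have hg₁i := (C i₀).inv_mem_of_red_ne_zero hred₁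
  have hdV : algebraMap K F d ∈ (C i₀).V := by
    rw [hd1]
    exact (C i₀).V.mul_mem _ _ hgm hg₁i
  have hdA := ((C i₀).algebraMap_mem_iff hπ).mp hdV
  apply hnot
  refine ⟨π ⟨d, hdA⟩ * r i₀, ?_⟩
  have h1 : g = algebraMap K F d * g₁ := by
    rw [hg₁, ← mul_assoc, ← map_mul, mul_inv_cancel₀ hd, map_one, one_mul]
  rw [map_mul, hr i₀ hi₀, ← (C i₀).red_algebraMap' hdA,
    ← (C i₀).red_mul hdV ((C i₀).mem_of_red_ne_zero hred₁), ← h1]

end Main

end Fermat.Agent.H84
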