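import Mathlib
import Fermat.Agent.H84Conn

/-!
# Covers: transport of components, places above, degrees
-/

set_option autoImplicit false

open AlgebraicCurve WithZero Polynomial IntermediateField Module

namespace Fermat.Agent.H84

variable {K k : Type*} [Field K] [Field k] {A : ValuationSubring K} {π : A →+* k}
  {F F' κ : Type*} [Field F] [Algebra K F] [Field F'] [Algebra K F'] [Field κ] [Algebra k κ]

namespace Comp

/-- Pull back of a component along a `K`-embedding. -/
def comap (C : Comp A π F' κ) (σ : F →ₐ[K] F') : Comp A π F κ where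
  V := C.V.comap (σ : F →+* F')
  ρ :=
    { toFun := fun v => C.ρ ⟨σ v, v.2⟩
      map_one' := by
        rw [← map_one C.ρ]
        congr 1
        exact Subtype.ext (map_one σ)
      map_mul' := fun v w => by
        rw [← map_mul C.ρ]
        congr 1
        exact Subtype.ext (map_mul σ _ _)
      map_zero' := by
        rw [← map_zero C.ρ]
        congr 1
        exact Subtype.ext (map_zero σ)
      map_add' := fun v w => by
        rw [← map_add C.ρ]
        congr 1
        exact Subtype.ext (map_add σ _ _) }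
  loc := fun v hv => by
    have hv' : C.ρ ⟨σ v, v.2⟩ ≠ 0 := hv
    have h1 : C.red (σ v) ≠ 0 := by
      rw [C.red_of_mem (f := σ v) v.2]
      exact hv'
    have h2 := C.inv_mem_of_red_ne_zero h1
    have h0 := C.ne_zero_of_red_ne_zero h1
    have hv0 : (v : F) ≠ 0 := fun h => h0 (by rw [h, map_zero])
    refine IsUnit.of_mul_eq_one ⟨(v : F)⁻¹, ?_⟩ (Subtype.ext (mul_inv_cancel₀ hv0))
    change σ (v : F)⁻¹ ∈ C.V
    rwa [map_inv₀]
  mem := fun a => by
    change σ (algebraMap K F a) ∈ C.V
    rw [σ.commutes]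
    exact C.mem a
  ρ_mem := fun a => by
    rw [← C.ρ_mem a]
    change C.ρ _ = _
    congr 1
    exact Subtype.ext (σ.commutes _)

variable (C : Comp A π F' κ) (σ : F →ₐ[K] F')

theorem mem_comap {f : F} : f ∈ (C.comap σ).V ↔ σ f ∈ C.V := Iff.rfl

@[simp] theorem comap_red (f : F) : (C.comap σ).red f = C.red (σ f) := by
  by_cases hf : σ f ∈ C.V
  · rw [C.red_of_mem hf, (C.comap σ).red_of_mem (f := f) hf]
    rfl
  · rw [C.red_of_notMem hf, (C.comap σ).red_of_notMem (f := f) hf]

end Comp

section RegOff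

variable [IsAlgClosed K] [H3RR.IsFF K F]

/-- Regular away from the zeros and poles of `x`. -/
def RegOff (K : Type*) {F : Type*} [Field K] [Field F] [Algebra K F] (x f : F) : Prop :=
  ∀ v : Place K F, v.adicValuation x = 1 → v.adicValuation f ≤ 1

omit [IsAlgClosed K] [H3RR.IsFF K F] in
theorem regOff_inv {x f : F} : RegOff K x⁻¹ f ↔ RegOff K x f := by
  constructor
  · intro h v hv
    exact h v (by rw [map_inv₀, hv, inv_one])
  · intro h v hv
    exact h v (by rwa [map_inv₀, inv_eq_one] at hv)

theorem regOff_iff {x f : F} (hx : Transcendental K x) :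
    RegOff K x f ↔ ∃ N : ℕ, IsIntegral (Algebra.adjoin K {x}) (f * x ^ N) := by
  constructor
  · intro h
    obtain ⟨N, hN⟩ := exists_pow_mul_le_one hx f h
    exact ⟨N, isIntegral_of_forall_le_one (hN N le_rfl)⟩
  · rintro ⟨N, hN⟩ v hv
    have h1 := le_one_of_isIntegral v hv.le hN
    rwa [map_mul, map_pow, hv, one_pow, mul_one] at h1

end RegOff

section Tower

variable [Algebra F F'] [IsScalarTower K F F']

theorem isFF_of_finite [H3RR.IsFF K F] [FiniteDimensional F F'] : H3RR.IsFF K F' := by
  obtain ⟨x, hx, hfin⟩ := H3RR.IsFF.exists_gen (K := K) (F := F)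
  have hx' : Transcendental K (algebraMap F F' x) :=
    (transcendental_algebraMap_iff (algebraMap F F').injective).mpr hx
  refine ⟨algebraMap F F' x, hx', ?_⟩
  -- `K(x) → K(x')`
  have h1 : FiniteDimensional K⟮x⟯ F' := FiniteDimensional.trans K⟮x⟯ F F'
  obtain ⟨s, hs⟩ := h1.fg_top
  refine ⟨⟨s, ?_⟩⟩
  rw [eq_top_iff]
  intro y _
  have hy : y ∈ Submodule.span K⟮x⟯ (s : Set F') := by rw [hs]; trivial
  induction hy using Submodule.span_induction with
  | mem z hz => exact Submodule.subset_span hz
  | zero => exact Submodule.zero_mem _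
  | add a b _ _ ha hb => exact Submodule.add_mem _ (ha trivial) (hb trivial)
  | smul r a _ ha =>
    have hr : algebraMap F F' (r : F) ∈ K⟮algebraMap F F' x⟯ := by
      obtain ⟨p, q, hpq⟩ := (mem_adjoin_simple_iff K (r : F)).mp r.2
      rw [hpq, map_div₀, ← Polynomial.aeval_algebraMap_apply, ← Polynomial.aeval_algebraMap_apply]
      exact (mem_adjoin_simple_iff K _).mpr ⟨p, q, rfl⟩
    have h2 : r • a = (⟨algebraMap F F' (r : F), hr⟩ : K⟮algebraMap F F' x⟯) • a := by
      rw [Algebra.smul_def, IsScalarTower.algebraMap_apply K⟮x⟯ F F']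
      rfl
    rw [h2]
    exact Submodule.smul_mem _ _ (ha trivial)

theorem mem_adjoin_algebraMap_iff (x y : F) :
    algebraMap F F' y ∈ K⟮algebraMap F F' x⟯ ↔ y ∈ K⟮x⟯ := by
  constructor
  · intro h
    obtain ⟨p, q, hpq⟩ := (mem_adjoin_simple_iff K _).mp h
    rw [Polynomial.aeval_algebraMap_apply, Polynomial.aeval_algebraMap_apply, ← map_div₀] at hpq
    exact (mem_adjoin_simple_iff K _).mpr ⟨p, q, (algebraMap F F').injective hpq⟩
  · intro h
    obtain ⟨p, q, hpq⟩ := (mem_adjoin_simple_iff K _).mp h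
    rw [hpq, map_div₀, ← Polynomial.aeval_algebraMap_apply, ← Polynomial.aeval_algebraMap_apply]
    exact (mem_adjoin_simple_iff K _).mpr ⟨p, q, rfl⟩

theorem finrank_adjoin_algebraMap [FiniteDimensional F F'] (x : F) :
    finrank K⟮algebraMap F F' x⟯ F' = finrank K⟮x⟯ F * finrank F F' := by
  rw [Module.finrank_mul_finrank K⟮x⟯ F F']
  let e : K⟮x⟯ ≃+* K⟮algebraMap F F' x⟯ :=
    RingEquiv.ofBijective
      ({ toFun := fun r => ⟨algebraMap F F' (r : F), (mem_adjoin_algebraMap_iff x _).mpr r.2⟩
         map_one' := Subtype.ext (by simp)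
         map_mul' := fun a b => Subtype.ext (by simp)
         map_zero' := Subtype.ext (by simp)
         map_add' := fun a b => Subtype.ext (by simp) } : K⟮x⟯ →+* K⟮algebraMap F F' x⟯)
      ⟨RingHom.injective _, fun y => by
        obtain ⟨p, q, hpq⟩ := (mem_adjoin_simple_iff K (y : F')).mp y.2
        refine ⟨⟨aeval x p / aeval x q, (mem_adjoin_simple_iff K _).mpr ⟨p, q, rfl⟩⟩, ?_⟩
        apply Subtype.ext
        change algebraMap F F' (aeval x p / aeval x q) = y
        rw [map_div₀, ← Polynomial.aeval_algebraMap_apply, ← Polynomial.aeval_algebraMap_apply,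
          hpq]⟩
  symm
  refine Algebra.finrank_eq_of_equiv_equiv e (RingEquiv.refl F') ?_
  ext r
  rfl

/-- Regularity can be tested upstairs. -/
theorem isIntegral_algebraMap_iff' {x f : F} :
    IsIntegral (Algebra.adjoin K {algebraMap F F' x}) (algebraMap F F' f) ↔
      IsIntegral (Algebra.adjoin K {x}) f := by
  have hinj := (algebraMap F F').injective
  constructor
  · rintro ⟨p, hp, h⟩
    have hc : ∀ n, ∃ a : Algebra.adjoin K {x}, algebraMap F F' (a : F) = (p.coeff n : F') := by
      intro n
      obtain ⟨r, hr⟩ := (Algebra.adjoin_singleton_eq_range_aeval K _).le (p.coeff n).2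
      have hr' : aeval (algebraMap F F' x) r = (p.coeff n : F') := hr
      refine ⟨⟨aeval x r, Polynomial.aeval_mem_adjoin_singleton K x⟩, ?_⟩
      rw [← hr', Polynomial.aeval_algebraMap_apply]
    choose a ha using hc
    refine ⟨X ^ p.natDegree + ∑ m ∈ Finset.range p.natDegree, Polynomial.C (a m) * X ^ m, ?_, ?_⟩
    · apply Polynomial.monic_X_pow_add
      refine lt_of_le_of_lt (Polynomial.degree_sum_le _ _) ?_
      rw [Finset.sup_lt_iff (by exact WithBot.bot_lt_coe _)]
      intro m hm
      exact lt_of_le_of_lt (Polynomial.degree_C_mul_X_pow_le _ _)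
        (by exact_mod_cast Finset.mem_range.mp hm)
    · apply hinj
      rw [map_zero, ← h, eval₂_eq_sum_range (p := p), Finset.sum_range_succ, hp.coeff_natDegree,
        map_one, one_mul, eval₂_add, eval₂_X_pow, eval₂_finsetSum, map_add, map_sum, map_pow,
        add_comm]
      congr 1
      refine Finset.sum_congr rfl fun m _ => ?_
      rw [eval₂_mul, eval₂_C, eval₂_X_pow, map_mul, map_pow]
      congr 1
      exact ha m
  · rintro ⟨p, hp, h⟩
    have hmem : ∀ a : Algebra.adjoin K {x}, algebraMap F F' (a : F) ∈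
        Algebra.adjoin K {algebraMap F F' x} := by
      intro a
      obtain ⟨r, hr⟩ := (Algebra.adjoin_singleton_eq_range_aeval K _).le a.2
      have hr' : aeval x r = (a : F) := hr
      rw [← hr', ← Polynomial.aeval_algebraMap_apply]
      exact Polynomial.aeval_mem_adjoin_singleton K _
    let φ : Algebra.adjoin K {x} →+* Algebra.adjoin K {algebraMap F F' x} :=
      ((algebraMap F F').comp (Algebra.adjoin K {x}).subtype).codRestrict
        (Algebra.adjoin K {algebraMap F F' x}).toSubring (fun a => hmem a)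
    refine ⟨p.map φ, hp.map φ, ?_⟩
    rw [eval₂_map]
    have h1 : (algebraMap (Algebra.adjoin K {algebraMap F F' x}) F').comp φ =
        (algebraMap F F').comp (algebraMap (Algebra.adjoin K {x}) F) := rfl
    rw [h1, ← hom_eval₂, h, map_zero]

theorem regOff_algebraMap_iff [IsAlgClosed K] [H3RR.IsFF K F] [H3RR.IsFF K F'] {x f : F}
    (hx : Transcendental K x) :
    RegOff K (algebraMap F F' x) (algebraMap F F' f) ↔ RegOff K x f := by
  have hx' : Transcendental K (algebraMap F F' x) :=
    (transcendental_algebraMap_iff (algebraMap F F').injective).mpr hx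
  rw [regOff_iff hx, regOff_iff hx']
  refine exists_congr fun N => ?_
  rw [← map_pow, ← map_mul, isIntegral_algebraMap_iff']

end Tower

section Aut

variable [IsAlgClosed K] [H3RR.IsFF K F']

/-- Regularity is preserved by ring endomorphisms fixing `x` and preserving `K`. -/
theorem RegOff.map {x f : F'} (hx : Transcendental K x) (τ : F' →+* F') (τ₀ : K → K)
    (hτ₀ : ∀ c, τ (algebraMap K F' c) = algebraMap K F' (τ₀ c)) (hτx : τ x = x)
    (h : RegOff K x f) : RegOff K x (τ f) := by
  rw [regOff_iff hx] at h ⊢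
  obtain ⟨N, p, hp, h⟩ := h
  refine ⟨N, ?_⟩
  have hmem : ∀ a : Algebra.adjoin K {x}, τ (a : F') ∈ Algebra.adjoin K {x} := by
    intro a
    obtain ⟨r, hr⟩ := (Algebra.adjoin_singleton_eq_range_aeval K _).le a.2
    have hr' : aeval x r = (a : F') := hr
    rw [← hr', aeval_eq_sum_range, map_sum]
    refine Subalgebra.sum_mem _ fun i _ => ?_
    rw [Algebra.smul_def, map_mul, map_pow, hτx, hτ₀]
    exact Subalgebra.mul_mem _ (Subalgebra.algebraMap_mem _ _)
      (Subalgebra.pow_mem _ (Algebra.self_mem_adjoin_singleton K x) _)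
  let φ : Algebra.adjoin K {x} →+* Algebra.adjoin K {x} :=
    (τ.comp (Algebra.adjoin K {x}).subtype).codRestrict
      (Algebra.adjoin K {x}).toSubring (fun a => hmem a)
  refine ⟨p.map φ, hp.map φ, ?_⟩
  rw [eval₂_map]
  have h1 : (algebraMap (Algebra.adjoin K {x}) F').comp φ =
      τ.comp (algebraMap (Algebra.adjoin K {x}) F') := rfl
  have h2 : τ f * x ^ N = τ (f * x ^ N) := by rw [map_mul, map_pow, hτx]
  rw [h1, h2, ← hom_eval₂, h, map_zero]

end Aut

end Fermat.Agent.H84
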