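import Mathlib
import Fermat.Agent.H84CovBase

/-!
# Counting for Galois covers

`F'/F` finite Galois with group `G`; components `W i` of `F'` whose translates are pairwise
different; the `W i` together exhaust the degree of `F/K(x)`. Marked points of the special fibre
which are glued on `F` give rise to gluing elements `c σ ∈ G`, and a dimension count shows that the
reductions of `L(N (x)_∞)` on `F'` are exactly the tuples satisfying the gluing conditions.
-/

set_option autoImplicit false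

open AlgebraicCurve WithZero Polynomial IntermediateField Module

namespace Fermat.Agent.H84

variable {K k : Type*} [Field K] [Field k] {A : ValuationSubring K} {π : A →+* k}
  {F F' κ : Type*} [Field F] [Algebra K F] [Field F'] [Algebra K F'] [Field κ] [Algebra k κ]
  [Algebra F F'] [IsScalarTower K F F']

theorem IsFrame.reindex {ι : Type*} {C : ι → Comp A π F κ} {x : F} {J J' : Type*} [Fintype J]
    [Fintype J'] {b : J → F} (hb : IsFrame C x b) (e : J' ≃ J) : IsFrame C x (b ∘ e) where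
  mem := fun j => hb.mem (e j)
  ind := fun q hq => by
    have h1 := hb.ind (q ∘ e.symm) (fun i => by
      rw [← hq i]
      exact (Fintype.sum_equiv e _ _ fun j => by simp).symm)
    funext j
    have h2 := congrFun h1 (e j)
    simpa using h2
  span := fun f => by
    obtain ⟨Q, p, hQ, h⟩ := hb.span f
    refine ⟨Q, p ∘ e, hQ, ?_⟩
    rw [h]
    exact (Fintype.sum_equiv e _ _ fun j => rfl).symm

/-- The `K`-algebra endomorphism underlying an element of the Galois group. -/
def gHom (K : Type*) {F F' : Type*} [Field K] [Field F] [Field F'] [Algebra K F] [Algebra K F']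
    [Algebra F F'] [IsScalarTower K F F'] (g : F' ≃ₐ[F] F') : F' →ₐ[K] F' :=
  (g : F' →ₐ[F] F').restrictScalars K

@[simp] theorem gHom_apply (g : F' ≃ₐ[F] F') (φ : F') : gHom K g φ = g φ := rfl

/-- The family of translates. -/
def trans {ι : Type*} (W : ι → Comp A π F' κ) (p : ι × (F' ≃ₐ[F] F')) : Comp A π F' κ :=
  (W p.1).comap (gHom K p.2⁻¹)

section Trans

variable {ι : Type*} {W : ι → Comp A π F' κ}

theorem mem_trans {p : ι × (F' ≃ₐ[F] F')} {φ : F'} :
    φ ∈ (trans W p).V ↔ p.2⁻¹ φ ∈ (W p.1).V := Iff.rfl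

@[simp] theorem trans_red (p : ι × (F' ≃ₐ[F] F')) (φ : F') :
    (trans W p).red φ = (W p.1).red (p.2⁻¹ φ) := Comp.comap_red _ _ _

theorem mem_B_trans {φ : F'} : φ ∈ B (trans (F := F) W) ↔ ∀ i (g : F' ≃ₐ[F] F'), g φ ∈ (W i).V := by
  rw [mem_B]
  constructor
  · intro h i g
    have := h (i, g⁻¹)
    rw [mem_trans] at this
    simpa using this
  · intro h p
    rw [mem_trans]
    exact h p.1 p.2⁻¹

theorem smul_mem_B_trans {φ : F'} (h : φ ∈ B (trans (F := F) W)) (g : F' ≃ₐ[F] F') :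
    g φ ∈ B (trans (F := F) W) := by
  rw [mem_B_trans] at h ⊢
  intro i g'
  exact h i (g' * g)

end Trans

theorem adjoin_inv {K F : Type*} [Field K] [Field F] [Algebra K F] (x : F) : K⟮x⁻¹⟯ = K⟮x⟯ := by
  apply le_antisymm
  · rw [adjoin_simple_le_iff]
    exact K⟮x⟯.inv_mem (mem_adjoin_simple_self K x)
  · rw [adjoin_simple_le_iff]
    have := K⟮x⁻¹⟯.inv_mem (mem_adjoin_simple_self K x⁻¹)
    rwa [inv_inv] at this

/-- The hypotheses on the components of the cover. -/
structure CovHyp {ι : Type*} [Fintype ι] (W : ι → Comp A π F' κ) (x : F) : Prop where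
  mem : ∀ i, algebraMap F F' x ∈ (W i).V
  transc : ∀ i, Transcendental k ((W i).red (algebraMap F F' x))
  split : ∀ i (g : F' ≃ₐ[F] F'), g ≠ 1 → ∃ φ, φ ∈ (W i).V ∧ g φ ∉ (W i).V
  dist : ∀ i j, i ≠ j → ∃ φ : F, algebraMap F F' φ ∈ (W i).V ∧ algebraMap F F' φ ∉ (W j).V
  surj : ∀ i t, t ∈ (W i).image
  deg : finrank K⟮x⟯ F ≤ ∑ i, finrank k⟮(W i).red (algebraMap F F' x)⟯ κ

namespace CovHyp

variable {ι : Type*} [Fintype ι] {W : ι → Comp A π F' κ} {x : F} (H : CovHyp W x)

include H

theorem resTrans : ResTrans (trans (F := F) W) (algebraMap F F' x) := by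
  intro p
  rw [mem_trans, trans_red, AlgEquiv.commutes]
  exact ⟨H.mem _, H.transc _⟩

theorem inv : CovHyp W x⁻¹ where
  mem := fun i => by
    rw [map_inv₀]
    exact (W i).inv_mem_of_red_ne_zero (H3RR.transcendental_ne_zero (H.transc i))
  transc := fun i => by
    rw [map_inv₀, (W i).red_inv]
    exact H3RR.transcendental_inv (H.transc i)
  split := H.split
  dist := H.dist
  surj := H.surj
  deg := by
    have h2 := H.deg
    rw [adjoin_inv x]
    refine h2.trans (le_of_eq (Finset.sum_congr rfl fun i _ => ?_))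
    rw [map_inv₀, (W i).red_inv, adjoin_inv]

theorem transc_K [Nonempty ι] : Transcendental K x :=
  (transcendental_algebraMap_iff (algebraMap F F').injective).mp
    (transcendental_of_resTrans H.resTrans)

theorem incomparable [IsAlgClosed K] [H3RR.IsFF K F'] (hπ : Function.Surjective π)
    (p q : ι × (F' ≃ₐ[F] F')) (hpq : p ≠ q) : ¬ (trans W p).V ≤ (trans W q).V := by
  have hne : Nonempty ι := ⟨p.1⟩
  have hxK := transcendental_of_resTrans H.resTrans
  have hfin := H3RR.IsFF.finiteDimensional hxK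
  have hS := (trans W p).scalable hxK (H.resTrans p).1 (H.resTrans p).2
  refine hS.not_le hπ fun heq => ?_
  obtain ⟨i, g⟩ := p
  obtain ⟨j, h⟩ := q
  by_cases hij : i = j
  · subst hij
    have hgh : h⁻¹ * g ≠ 1 := fun h1 => hpq (by
      rw [inv_mul_eq_one] at h1
      rw [h1])
    obtain ⟨φ, h1, h2⟩ := H.split i _ hgh
    apply h2
    have h3 : g φ ∈ (trans W (i, g)).V := by
      rw [mem_trans]
      change g⁻¹ (g φ) ∈ _
      rwa [← AlgEquiv.mul_apply, inv_mul_cancel, AlgEquiv.one_apply]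
    rw [heq, mem_trans] at h3
    exact h3
  · obtain ⟨φ, h1, h2⟩ := H.dist i j hij
    apply h2
    have h3 : algebraMap F F' φ ∈ (trans W (i, g)).V := by
      rw [mem_trans, AlgEquiv.commutes]
      exact h1
    rw [heq, mem_trans, AlgEquiv.commutes] at h3
    exact h3

theorem exists_frame [IsAlgClosed K] [Infinite k] [H3RR.IsFF K F'] [H3RR.IsFF k κ]
    [FiniteDimensional F F'] [IsGalois F F'] [Nonempty ι] (hπ : Function.Surjective π) :
    ∃ (n : ℕ) (b : Fin n → F'), IsFrame (trans (F := F) W) (algebraMap F F' x) b := by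
  classical
  have hxK := transcendental_of_resTrans H.resTrans
  have hfin := H3RR.IsFF.finiteDimensional hxK
  have hfin' : ∀ p : ι × (F' ≃ₐ[F] F'),
      FiniteDimensional k⟮(W p.1).red (algebraMap F F' x)⟯ κ := fun p =>
    H3RR.IsFF.finiteDimensional (H.transc p.1)
  obtain ⟨b, hb⟩ := exists_isFrame_of_sum (trans (F := F) W) (algebraMap F F' x)
    (AlgHom.id k κ) (fun p => (W p.1).red (algebraMap F F' x)) hπ (H.incomparable hπ)
    H.resTrans (fun p => by
      rw [trans_red, AlgEquiv.commutes]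
      rfl) (fun p t => by
      obtain ⟨f, hf, hft⟩ := H.surj p.1 t
      refine ⟨p.2 f, ?_, ?_⟩
      · rw [mem_trans, ← AlgEquiv.mul_apply, inv_mul_cancel, AlgEquiv.one_apply]
        exact hf
      · rw [trans_red, ← AlgEquiv.mul_apply, inv_mul_cancel, AlgEquiv.one_apply, hft]
        rfl) (by
      rw [finrank_adjoin_algebraMap, Fintype.sum_prod_type, ← IsGalois.card_aut_eq_finrank F F',
        Nat.card_eq_fintype_card]
      have h1 : ∀ i : ι, ∑ _g : F' ≃ₐ[F] F', finrank k⟮(W i).red (algebraMap F F' x)⟯ κ =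
          finrank k⟮(W i).red (algebraMap F F' x)⟯ κ * Fintype.card (F' ≃ₐ[F] F') := fun i => by
        rw [Finset.sum_const, Finset.card_univ, smul_eq_mul, mul_comm]
      refine (Nat.mul_le_mul_right _ H.deg).trans (le_of_eq ?_)
      rw [Finset.sum_mul]
      exact Finset.sum_congr rfl fun i _ => (h1 i).symm)
  exact ⟨_, _, hb.reindex (Fintype.equivFin _).symm⟩

end CovHyp

section Glue

variable {ι : Type*} [Fintype ι] {W : ι → Comp A π F' κ} {x : F}
  [IsAlgClosed K] [H3RR.IsFF K F'] [IsAlgClosed k] [H3RR.IsFF k κ]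
  {n : ℕ} {b : Fin n → F'}

variable (W x) in
/-- The ring of integral functions on the cover regular away from `x = 0, ∞`. -/
def regRing : Subring F' where
  carrier := {φ | φ ∈ B (trans (F := F) W) ∧ RegOff K (algebraMap F F' x) φ}
  mul_mem' := fun {a b} ha hb => ⟨(B _).mul_mem ha.1 hb.1, fun v hv => by
    rw [map_mul]; exact mul_le_one' (ha.2 v hv) (hb.2 v hv)⟩
  one_mem' := ⟨(B _).one_mem, fun v _ => by rw [map_one]⟩
  add_mem' := fun {a b} ha hb => ⟨(B _).add_mem ha.1 hb.1, fun v hv =>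
    (Valuation.map_add _ _ _).trans (max_le (ha.2 v hv) (hb.2 v hv))⟩
  zero_mem' := ⟨(B _).zero_mem, fun v _ => by rw [map_zero]; exact zero_le⟩
  neg_mem' := fun {a} ha => ⟨(B _).neg_mem ha.1, fun v hv => by
    rw [Valuation.map_neg]; exact ha.2 v hv⟩

theorem mem_regRing {φ : F'} : φ ∈ regRing W x ↔
    φ ∈ B (trans (F := F) W) ∧ RegOff K (algebraMap F F' x) φ := Iff.rfl

theorem red_le_one_of_mem [Nonempty ι] (hπ : Function.Surjective π) (H : CovHyp W x)
    (hb : IsFrame (trans (F := F) W) (algebraMap F F' x) b) {φ : F'} (hφ : φ ∈ regRing W x)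
    (i : ι) (c : F' ≃ₐ[F] F') {s : Place k κ}
    (hs : s.adicValuation ((W i).red (algebraMap F F' x)) = 1) :
    s.adicValuation ((W i).red (c⁻¹ φ)) ≤ 1 := by
  have h1 := hb.red_regOff hπ H.resTrans hφ.1 hφ.2 (i, c) s (by
    rw [trans_red, AlgEquiv.commutes]; exact hs)
  rwa [trans_red] at h1

/-- Evaluation of the reduction at a marked point of a translate. -/
noncomputable def chi [Nonempty ι] (hπ : Function.Surjective π) (H : CovHyp W x)
    (hb : IsFrame (trans (F := F) W) (algebraMap F F' x) b) (i : ι) {s : Place k κ}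
    (hs : s.adicValuation ((W i).red (algebraMap F F' x)) = 1) (c : F' ≃ₐ[F] F') :
    regRing W x →+* k where
  toFun φ := ev s ((W i).red (c⁻¹ (φ : F')))
  map_one' := by
    rw [Subring.coe_one, map_one, Comp.red_one, ev_one]
  map_zero' := by
    rw [Subring.coe_zero, map_zero, Comp.red_zero, ev_zero]
  map_mul' φ ψ := by
    have h1 := mem_B_trans.mp φ.2.1 i c⁻¹
    have h2 := mem_B_trans.mp ψ.2.1 i c⁻¹
    rw [Subring.coe_mul, map_mul, (W i).red_mul h1 h2,
      ev_mul (red_le_one_of_mem hπ H hb φ.2 i c hs) (red_le_one_of_mem hπ H hb ψ.2 i c hs)]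
  map_add' φ ψ := by
    have h1 := mem_B_trans.mp φ.2.1 i c⁻¹
    have h2 := mem_B_trans.mp ψ.2.1 i c⁻¹
    rw [Subring.coe_add, map_add, (W i).red_add h1 h2,
      ev_add (red_le_one_of_mem hπ H hb φ.2 i c hs) (red_le_one_of_mem hπ H hb ψ.2 i c hs)]

theorem chi_apply [Nonempty ι] (hπ : Function.Surjective π) (H : CovHyp W x)
    (hb : IsFrame (trans (F := F) W) (algebraMap F F' x) b) (i : ι) {s : Place k κ}
    (hs : s.adicValuation ((W i).red (algebraMap F F' x)) = 1) (c : F' ≃ₐ[F] F')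
    (φ : regRing W x) : chi hπ H hb i hs c φ = ev s ((W i).red (c⁻¹ (φ : F'))) := rfl

theorem RegOff.smul [Nonempty ι] (H : CovHyp W x) {φ : F'}
    (h : RegOff K (algebraMap F F' x) φ) (g : F' ≃ₐ[F] F') :
    RegOff K (algebraMap F F' x) (g φ) :=
  h.map (transcendental_of_resTrans H.resTrans) (g : F' →+* F') id
    (fun c => by
      change g (algebraMap K F' c) = algebraMap K F' c
      rw [IsScalarTower.algebraMap_apply K F F' c]
      exact g.commutes _) (g.commutes _)

theorem smul_mem_regRing [Nonempty ι] (H : CovHyp W x) {φ : F'} (h : φ ∈ regRing W x)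
    (g : F' ≃ₐ[F] F') : g φ ∈ regRing W x :=
  ⟨smul_mem_B_trans h.1 g, h.2.smul H g⟩

/-- **Transitivity**: points which are glued on `F` are glued on `F'` after a translation. -/
theorem exists_glue [Nonempty ι] [H3RR.IsFF K F] [FiniteDimensional F F'] [IsGalois F F']
    (hπ : Function.Surjective π) (H : CovHyp W x)
    (hb : IsFrame (trans (F := F) W) (algebraMap F F' x) b) (i j : ι) {s s' : Place k κ}
    (hs : s.adicValuation ((W i).red (algebraMap F F' x)) = 1)
    (hs' : s'.adicValuation ((W j).red (algebraMap F F' x)) = 1)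
    (hglue : ∀ φ : F, (∀ l, algebraMap F F' φ ∈ (W l).V) → RegOff K x φ →
      ev s ((W i).red (algebraMap F F' φ)) = ev s' ((W j).red (algebraMap F F' φ))) :
    ∃ c : F' ≃ₐ[F] F', ∀ φ ∈ regRing W x, ev s ((W i).red φ) = ev s' ((W j).red (c⁻¹ φ)) := by
  classical
  by_contra hcon
  push Not at hcon
  -- constants
  have hconst : ∀ a : A, algebraMap K F' a ∈ regRing W x := fun a =>
    ⟨algebraMap_mem_B _ a.2, fun v _ => v.adicValuation_algebraMap_le_one _⟩
  have hchiconst : ∀ (l : ι) {t : Place k κ}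
      (ht : t.adicValuation ((W l).red (algebraMap F F' x)) = 1) (c : F' ≃ₐ[F] F') (a : A),
      chi hπ H hb l ht c ⟨_, hconst a⟩ = π a := by
    intro l t ht c a
    rw [chi_apply]
    change ev t ((W l).red (c⁻¹ (algebraMap K F' a))) = _
    rw [IsScalarTower.algebraMap_apply K F F', AlgEquiv.commutes,
      ← IsScalarTower.algebraMap_apply K F F', (W l).red_algebraMap, ev_algebraMap]
  let χ₀ := chi hπ H hb i hs 1
  let χ := fun c => chi hπ H hb j hs' c
  have hnot : ∀ c, ¬ RingHom.ker χ₀ ≤ RingHom.ker (χ c) := by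
    intro c hle
    obtain ⟨φ, hφ, hne⟩ := hcon c
    apply hne
    obtain ⟨a, ha⟩ := hπ (χ₀ ⟨φ, hφ⟩)
    have h1 : (⟨φ, hφ⟩ : regRing W x) - ⟨_, hconst a⟩ ∈ RingHom.ker χ₀ := by
      rw [RingHom.mem_ker, map_sub, hchiconst, ha, sub_self]
    have h2 := hle h1
    rw [RingHom.mem_ker, map_sub, hchiconst, ha, sub_eq_zero] at h2
    have h3 : χ c ⟨φ, hφ⟩ = ev s' ((W j).red (c⁻¹ φ)) := rfl
    have h4 : χ₀ ⟨φ, hφ⟩ = ev s ((W i).red ((1 : F' ≃ₐ[F] F')⁻¹ φ)) := rfl
    rw [h3, h4] at h2
    rw [inv_one, AlgEquiv.one_apply] at h2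
    exact h2.symm
  have hex : ∃ φ : regRing W x, χ₀ φ = 0 ∧ ∀ c, χ c φ ≠ 0 := by
    by_contra hcon2
    push Not at hcon2
    have hsub : ((RingHom.ker χ₀ : Ideal (regRing W x)) : Set (regRing W x)) ⊆
        ⋃ c ∈ (Finset.univ : Finset (F' ≃ₐ[F] F')), (RingHom.ker (χ c) : Set (regRing W x)) := by
      intro φ hφ
      obtain ⟨c, hc⟩ := hcon2 φ hφ
      simp only [Set.mem_iUnion]
      exact ⟨c, Finset.mem_univ c, hc⟩
    obtain ⟨c, -, hc⟩ := (Ideal.subset_union_prime (1 : F' ≃ₐ[F] F') 1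
      (fun c _ _ _ => RingHom.ker_isPrime (χ c))).mp hsub
    exact hnot c hc
  obtain ⟨φ, hφ0, hφ⟩ := hex
  -- the norm
  have hnorm := Algebra.norm_eq_prod_automorphisms F (φ : F')
  set ν := Algebra.norm F (φ : F') with hν
  have hgφ : ∀ g : F' ≃ₐ[F] F', g (φ : F') ∈ regRing W x := fun g => smul_mem_regRing H φ.2 g
  have hprod : ∏ g : F' ≃ₐ[F] F', g (φ : F') ∈ regRing W x := Subring.prod_mem _ fun g _ => hgφ g
  have hν1 : ∀ l, algebraMap F F' ν ∈ (W l).V := fun l => by
    rw [hnorm]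
    exact (W l).prod_mem _ _ fun g _ => mem_B_trans.mp φ.2.1 l g
  have hνreg : RegOff K x ν := by
    rw [← regOff_algebraMap_iff (F' := F') H.transc_K, hnorm]
    exact hprod.2
  have h1 := hglue ν hν1 hνreg
  have hle : ∀ (l : ι) {t : Place k κ}
      (ht : t.adicValuation ((W l).red (algebraMap F F' x)) = 1) (g : F' ≃ₐ[F] F'),
      t.adicValuation ((W l).red (g (φ : F'))) ≤ 1 := by
    intro l t ht g
    have := red_le_one_of_mem hπ H hb φ.2 l g⁻¹ ht
    rwa [inv_inv] at this
  have hexp : ∀ (l : ι) {t : Place k κ}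
      (ht : t.adicValuation ((W l).red (algebraMap F F' x)) = 1),
      ev t ((W l).red (algebraMap F F' ν)) = ∏ g : F' ≃ₐ[F] F', ev t ((W l).red (g (φ : F'))) := by
    intro l t ht
    rw [hnorm, (W l).red_prod _ _ fun g _ => mem_B_trans.mp φ.2.1 l g]
    exact (ev_prod _ _ fun g _ => hle l ht g).2
  rw [hexp i hs, hexp j hs'] at h1
  have h2 : ∏ g : F' ≃ₐ[F] F', ev s ((W i).red (g (φ : F'))) = 0 := by
    refine Finset.prod_eq_zero (Finset.mem_univ (1 : F' ≃ₐ[F] F')) ?_
    have h3 : χ₀ φ = ev s ((W i).red ((1 : F' ≃ₐ[F] F')⁻¹ (φ : F'))) := rfl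
    rw [h3, inv_one] at hφ0
    exact hφ0
  rw [h2] at h1
  have h3 : ∏ g : F' ≃ₐ[F] F', ev s' ((W j).red (g (φ : F'))) ≠ 0 := by
    refine Finset.prod_ne_zero_iff.mpr fun g _ => ?_
    have h4 := hφ g⁻¹
    have h5 : χ g⁻¹ φ = ev s' ((W j).red ((g⁻¹)⁻¹ (φ : F'))) := rfl
    rw [h5, inv_inv] at h4
    exact h4
  exact h3 h1.symm

end Glue

end Fermat.Agent.H84
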