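import Mathlib
import Fermat.Agent.H84Count
import Fermat.Agent.H84Two

/-!
# Extension of components to algebraic extensions
-/

set_option autoImplicit false

open AlgebraicCurve WithZero Polynomial IntermediateField Module

namespace Fermat.Agent.H84

variable {K k : Type*} [Field K] [Field k] {A : ValuationSubring K} {π : A →+* k}
  {F F' κ : Type*} [Field F] [Algebra K F] [Field F'] [Algebra K F'] [Field κ] [Algebra k κ]
  [Algebra F F'] [IsScalarTower K F F']

/-- A component of `F'` lying over a component of `F` (with values in a bigger field). -/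
structure Over {Ω : Type*} [Field Ω] [Algebra k Ω] [Algebra κ Ω] (C' : Comp A π F' Ω)
    (C : Comp A π F κ) : Prop where
  mem : ∀ f : F, algebraMap F F' f ∈ C'.V ↔ f ∈ C.V
  red : ∀ f : F, C'.red (algebraMap F F' f) = algebraMap κ Ω (C.red f)

/-- **Extension of components**. -/
theorem exists_over [Algebra.IsAlgebraic F F'] (C : Comp A π F κ) (hC : ∀ t, t ∈ C.image) :
    ∃ C' : Comp A π F' (AlgebraicClosure κ), Over C' C := by
  classical
  -- the local ring `V` inside `F'`
  let i : C.V →+* F' := (algebraMap F F').comp C.V.subtype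
  obtain ⟨B, hB, hloc⟩ := IsLocalRing.exists_factor_valuationRing (R := C.V) (K := F') i
  let j : C.V →+* B := i.codRestrict B.toSubring hB
  have hjloc : IsLocalHom j := hloc
  have hρ : Function.Surjective C.ρ := by
    intro t
    obtain ⟨f, hf, hft⟩ := hC t
    exact ⟨⟨f, hf⟩, by rw [← hft, C.red_of_mem hf]⟩
  have hunit : ∀ v : C.V, IsUnit v → C.ρ v ≠ 0 := fun v hv => (hv.map C.ρ).ne_zero
  have hker : RingHom.ker C.ρ ≤ RingHom.ker ((IsLocalRing.residue B).comp j) := by
    intro v hv
    rw [RingHom.mem_ker] at hv ⊢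
    rw [RingHom.comp_apply, IsLocalRing.residue_eq_zero_iff, IsLocalRing.mem_maximalIdeal,
      mem_nonunits_iff]
    intro hu
    exact hunit v (isUnit_of_map_unit j v hu) hv
  let g : κ →+* IsLocalRing.ResidueField B :=
    RingHom.liftOfSurjective C.ρ hρ ⟨(IsLocalRing.residue B).comp j, hker⟩
  have hg : ∀ v : C.V, g (C.ρ v) = IsLocalRing.residue B (j v) := fun v =>
    RingHom.liftOfRightInverse_comp_apply _ _ _ _ v
  let _ : Algebra κ (IsLocalRing.ResidueField B) := g.toAlgebra
  have hgm : ∀ t, algebraMap κ (IsLocalRing.ResidueField B) t = g t := fun t => rfl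
  -- algebraicity
  have halg : Algebra.IsAlgebraic κ (IsLocalRing.ResidueField B) := by
    constructor
    intro z
    obtain ⟨b, rfl⟩ := IsLocalRing.residue_surjective z
    obtain ⟨P, hP, hPb⟩ := Algebra.IsAlgebraic.isAlgebraic (R := F) (b : F')
    obtain ⟨c, Q, hc, hQ, ⟨⟩, a, hQa⟩ := H42.exists_scale_poly C.V (fun _ : Unit => P)
      (fun h => hP (congrFun h ()))
    have hQ0 := hQ ()
    have h1 : eval₂ i (b : F') (Q ()) = 0 := by
      have h2 : aeval (b : F') ((Q ()).map C.V.subtype) = 0 := by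
        rw [hQ0, map_mul, aeval_C] at hPb
        exact (mul_eq_zero.mp hPb).resolve_left ((_root_.map_ne_zero _).mpr hc)
      rwa [aeval_def, eval₂_map] at h2
    have h2 : eval₂ j b (Q ()) = 0 := by
      apply Subtype.ext
      have h3 := hom_eval₂ (Q ()) j B.subtype b
      have h4 : B.subtype.comp j = i := rfl
      rw [h4] at h3
      exact h3.trans h1
    refine ⟨(Q ()).map C.ρ, ?_, ?_⟩
    · intro h0
      have h3 := congrArg (fun p => p.coeff a) h0
      simp only [coeff_map, coeff_zero] at h3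
      rw [hQa, map_one] at h3
      exact one_ne_zero h3
    · rw [aeval_def, eval₂_map]
      have h3 : (algebraMap κ (IsLocalRing.ResidueField B)).comp C.ρ =
          (IsLocalRing.residue B).comp j := RingHom.ext fun v => hg v
      rw [h3, ← hom_eval₂, h2, map_zero]
  let l : IsLocalRing.ResidueField B →ₐ[κ] AlgebraicClosure κ := IsAlgClosed.lift
  have hmemB : ∀ f : F, algebraMap F F' f ∈ B ↔ f ∈ C.V := by
    intro f
    constructor
    · intro hf
      by_contra hfV
      have hfi : f⁻¹ ∈ C.V := (C.V.mem_or_inv_mem f).resolve_left hfV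
      have hf0 : f ≠ 0 := by rintro rfl; exact hfV C.V.zero_mem
      have hu : IsUnit (j ⟨f⁻¹, hfi⟩) := by
        refine IsUnit.of_mul_eq_one ⟨_, hf⟩ (Subtype.ext ?_)
        change algebraMap F F' f⁻¹ * algebraMap F F' f = 1
        rw [← map_mul, inv_mul_cancel₀ hf0, map_one]
      obtain ⟨u, hu'⟩ := isUnit_of_map_unit j _ hu
      have h1 : (f⁻¹) * ((u⁻¹ : C.Vˣ) : C.V) = 1 := by
        have h2 : (u : C.V) * ((u⁻¹ : C.Vˣ) : C.V) = 1 := Units.mul_inv u
        have h3 := congrArg Subtype.val h2
        rw [hu'] at h3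
        exact h3
      have h2 : f = ((u⁻¹ : C.Vˣ) : C.V) := by
        rw [← inv_inv f, inv_eq_of_mul_eq_one_right h1]
      exact hfV (h2 ▸ SetLike.coe_mem _)
    · intro hf
      exact hB ⟨f, hf⟩
  let C' : Comp A π F' (AlgebraicClosure κ) :=
    { V := B
      ρ := (l : IsLocalRing.ResidueField B →+* AlgebraicClosure κ).comp (IsLocalRing.residue B)
      loc := fun v hv => by
        by_contra hu
        apply hv
        rw [RingHom.comp_apply, (IsLocalRing.residue_eq_zero_iff v).mpr, map_zero]
        exact hu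
      mem := fun a => by
        rw [IsScalarTower.algebraMap_apply K F F', hmemB]
        exact C.mem a
      ρ_mem := fun a => by
        have h1 : (⟨algebraMap K F' a, by
            rw [IsScalarTower.algebraMap_apply K F F', hmemB]
            exact C.mem a⟩ : B) = j ⟨algebraMap K F a, C.mem a⟩ :=
          Subtype.ext (IsScalarTower.algebraMap_apply K F F' (a : K))
        rw [h1, RingHom.comp_apply, ← hg, ← hgm]
        rw [C.ρ_mem]
        exact (l.commutes _).trans (IsScalarTower.algebraMap_apply k κ _ _).symm }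
  refine ⟨C', ⟨hmemB, fun f => ?_⟩⟩
  by_cases hf : f ∈ C.V
  · rw [C'.red_of_mem ((hmemB f).mpr hf), C.red_of_mem hf]
    have h1 : (⟨algebraMap F F' f, (hmemB f).mpr hf⟩ : B) = j ⟨f, hf⟩ := rfl
    change l (IsLocalRing.residue B ⟨algebraMap F F' f, _⟩) = _
    rw [h1, ← hg, ← hgm]
    exact l.commutes _
  · rw [C'.red_of_notMem (fun h => hf ((hmemB f).mp h)), C.red_of_notMem hf, map_zero]

/-- The hypotheses on the base. -/
structure BaseHyp {ι : Type*} [Fintype ι] (C : ι → Comp A π F κ) (x : F) : Prop where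
  mem : ∀ i, x ∈ (C i).V
  transc : ∀ i, Transcendental k ((C i).red x)
  dist : ∀ i j, i ≠ j → ∃ φ, φ ∈ (C i).V ∧ φ ∉ (C j).V
  surj : ∀ i t, t ∈ (C i).image
  deg : finrank K⟮x⟯ F ≤ ∑ i, finrank k⟮(C i).red x⟯ κ

/-- Components of the cover lying over the components of the base. -/
structure OverK {ι : Type*} (W : ι → Comp A π F' κ) (C : ι → Comp A π F κ) : Prop where
  mem : ∀ i f, algebraMap F F' f ∈ (W i).V ↔ f ∈ (C i).V
  red : ∀ i f, (W i).red (algebraMap F F' f) = (C i).red f

theorem trans_incomparable {ι Ω : Type*} [Field Ω] [Algebra k Ω] {W : ι → Comp A π F' Ω} {x : F}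
    [IsAlgClosed K] [H3RR.IsFF K F'] (hπ : Function.Surjective π)
    (hx : ResTrans (trans (F := F) W) (algebraMap F F' x))
    (split : ∀ i (g : F' ≃ₐ[F] F'), g ≠ 1 → ∃ φ, φ ∈ (W i).V ∧ g φ ∉ (W i).V)
    (dist : ∀ i j, i ≠ j → ∃ φ : F, algebraMap F F' φ ∈ (W i).V ∧ algebraMap F F' φ ∉ (W j).V)
    (p q : ι × (F' ≃ₐ[F] F')) (hpq : p ≠ q) : ¬ (trans W p).V ≤ (trans W q).V := by
  have hne : Nonempty ι := ⟨p.1⟩
  have hxK := transcendental_of_resTrans hx
  have hfin := H3RR.IsFF.finiteDimensional hxK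
  have hS := (trans W p).scalable hxK (hx p).1 (hx p).2
  refine hS.not_le hπ fun heq => ?_
  obtain ⟨i, g⟩ := p
  obtain ⟨j, h⟩ := q
  by_cases hij : i = j
  · subst hij
    have hgh : h⁻¹ * g ≠ 1 := fun h1 => hpq (by
      rw [inv_mul_eq_one] at h1
      rw [h1])
    obtain ⟨φ, h1, h2⟩ := split i _ hgh
    apply h2
    have h3 : g φ ∈ (trans W (i, g)).V := by
      rw [mem_trans]
      change g⁻¹ (g φ) ∈ _
      rwa [← AlgEquiv.mul_apply, inv_mul_cancel, AlgEquiv.one_apply]
    rw [heq, mem_trans] at h3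
    exact h3
  · obtain ⟨φ, h1, h2⟩ := dist i j hij
    apply h2
    have h3 : algebraMap F F' φ ∈ (trans W (i, g)).V := by
      rw [mem_trans, AlgEquiv.commutes]
      exact h1
    rw [heq, mem_trans, AlgEquiv.commutes] at h3
    exact h3

/-- **Split components**: if the components over the `C i` have pairwise different translates then
their residue fields are those of the `C i`. -/
theorem exists_cover {ι Ω : Type*} [Fintype ι] [Field Ω] [Algebra k Ω] [Algebra κ Ω]
    [IsScalarTower k κ Ω] [IsAlgClosed K] [IsAlgClosed k] [H3RR.IsFF K F'] [H3RR.IsFF k κ]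
    [FiniteDimensional F F'] [IsGalois F F']
    (hπ : Function.Surjective π) {C : ι → Comp A π F κ} {x : F} (H : BaseHyp C x)
    {C' : ι → Comp A π F' Ω} (hC' : ∀ i, Over (C' i) (C i))
    (split : ∀ i (g : F' ≃ₐ[F] F'), g ≠ 1 → ∃ φ, φ ∈ (C' i).V ∧ g φ ∉ (C' i).V) :
    ∃ W : ι → Comp A π F' κ, (∀ i, (W i).V = (C' i).V) ∧ OverK W C ∧ CovHyp W x := by
  classical
  have hx : ResTrans (trans (F := F) C') (algebraMap F F' x) := by
    intro p
    rw [mem_trans, trans_red, AlgEquiv.commutes, (hC' p.1).mem, (hC' p.1).red]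
    exact ⟨H.mem _, (transcendental_algebraMap_iff (algebraMap κ Ω).injective).mpr (H.transc _)⟩
  rcases isEmpty_or_nonempty ι with hι | hι
  · exact ⟨fun i => isEmptyElim i, fun i => isEmptyElim i, ⟨fun i => isEmptyElim i,
      fun i => isEmptyElim i⟩, ⟨fun i => isEmptyElim i, fun i => isEmptyElim i,
      fun i => isEmptyElim i, fun i => isEmptyElim i, fun i => isEmptyElim i, by
        have := H.deg
        rw [Fintype.sum_empty] at this ⊢
        exact this⟩⟩
  have hxK := transcendental_of_resTrans hx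
  have hfin := H3RR.IsFF.finiteDimensional hxK
  have hfin' : ∀ p : ι × (F' ≃ₐ[F] F'), FiniteDimensional k⟮(C p.1).red x⟯ κ := fun p =>
    H3RR.IsFF.finiteDimensional (H.transc p.1)
  have hinc := trans_incomparable hπ hx split (fun i j hij => by
    obtain ⟨φ, h1, h2⟩ := H.dist i j hij
    exact ⟨φ, ((hC' i).mem φ).mpr h1, fun h => h2 (((hC' j).mem φ).mp h)⟩)
  have key : ∀ i, ∀ v : (C' i).V, ∃ r : κ, algebraMap κ Ω r = (C' i).red v := by
    intro i v
    have h1 := image_le_range_of_sum (trans (F := F) C') (algebraMap F F' x)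
      (IsScalarTower.toAlgHom k κ Ω) (fun p => (C p.1).red x) hπ hinc hx
      (fun p => by
        rw [trans_red, AlgEquiv.commutes, (hC' p.1).red]
        rfl) (fun p t => by
        obtain ⟨f, hf, hft⟩ := H.surj p.1 t
        refine ⟨algebraMap F F' f, ?_, ?_⟩
        · rw [mem_trans, AlgEquiv.commutes, (hC' p.1).mem]
          exact hf
        · rw [trans_red, AlgEquiv.commutes, (hC' p.1).red, hft]
          rfl) (by
        rw [finrank_adjoin_algebraMap, Fintype.sum_prod_type,
          ← IsGalois.card_aut_eq_finrank F F', Nat.card_eq_fintype_card]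
        have h1 : ∀ i : ι, ∑ _g : F' ≃ₐ[F] F', finrank k⟮(C i).red x⟯ κ =
            finrank k⟮(C i).red x⟯ κ * Fintype.card (F' ≃ₐ[F] F') := fun i => by
          rw [Finset.sum_const, Finset.card_univ, smul_eq_mul, mul_comm]
        refine (Nat.mul_le_mul_right _ H.deg).trans (le_of_eq ?_)
        rw [Finset.sum_mul]
        exact Finset.sum_congr rfl fun i _ => (h1 i).symm) (i, 1) (t := (C' i).red v)
      ⟨(v : F'), by
        rw [mem_trans]
        change (1 : F' ≃ₐ[F] F')⁻¹ (v : F') ∈ _
        rw [inv_one, AlgEquiv.one_apply]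
        exact v.2, by rw [trans_red, inv_one, AlgEquiv.one_apply]⟩
    obtain ⟨r, hr⟩ := h1
    exact ⟨r, hr⟩
  choose r hr using key
  let W : ι → Comp A π F' κ := fun i =>
    (C' i).restrict (IsScalarTower.toAlgHom k κ Ω) (r i) (hr i)
  have hWred : ∀ i f, algebraMap κ Ω ((W i).red f) = (C' i).red f := fun i f =>
    (C' i).restrict_red (IsScalarTower.toAlgHom k κ Ω) (r i) (hr i) f
  have hinj := (algebraMap κ Ω).injective
  have hOK : OverK W C := ⟨fun i f => (hC' i).mem f, fun i f => hinj (by
    rw [hWred, (hC' i).red])⟩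
  refine ⟨W, fun i => rfl, hOK, ?_⟩
  exact
    { mem := fun i => (hOK.mem i x).mpr (H.mem i)
      transc := fun i => by
        rw [hOK.red]
        exact H.transc i
      split := split
      dist := fun i j hij => by
        obtain ⟨φ, h1, h2⟩ := H.dist i j hij
        exact ⟨φ, ((hC' i).mem φ).mpr h1, fun h => h2 (((hC' j).mem φ).mp h)⟩
      surj := fun i t => by
        obtain ⟨f, hf, hft⟩ := H.surj i t
        exact ⟨algebraMap F F' f, (hOK.mem i f).mpr hf, by rw [hOK.red, hft]⟩
      deg := by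
        refine H.deg.trans (le_of_eq (Finset.sum_congr rfl fun i _ => ?_))
        rw [hOK.red] }

end Fermat.Agent.H84
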