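import Mathlib
import Fermat.Agent.H84Ext

/-!
# Functions close to `p`-th powers: the decomposition group acts trivially on `p`-th roots
-/

set_option autoImplicit false

open AlgebraicCurve WithZero Polynomial IntermediateField Module

namespace Fermat.Agent.H84

variable {K k : Type*} [Field K] [Field k] {A : ValuationSubring K} {π : A →+* k}
  {F F' κ : Type*} [Field F] [Algebra K F] [Field F'] [Algebra K F'] [Field κ] [Algebra k κ]
  [Algebra F F'] [IsScalarTower K F F']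

/-- `w` is close to a `p`-th power at `C`: `w y₁ ^ p = 1 + lam ^ p ε` with `ε` in the maximal
ideal. -/
def Close (C : Comp A π F κ) (p : ℕ) (lam : K) (w : F) : Prop :=
  ∃ y₁ ε : F, y₁ ≠ 0 ∧ ε ∈ C.V ∧ C.red ε = 0 ∧ w * y₁ ^ p = 1 + algebraMap K F lam ^ p * ε

theorem Comp.valuation_lt_one_iff {C : Comp A π F κ} {f : F} :
    C.V.valuation f < 1 ↔ f ∈ C.V ∧ C.red f = 0 := by
  constructor
  · intro h
    refine ⟨(C.V.valuation_le_one_iff f).mp h.le, ?_⟩
    by_contra h0
    exact h.ne ((C.red_ne_zero_iff_valuation).mp h0)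
  · rintro ⟨h1, h2⟩
    refine lt_of_le_of_ne ((C.V.valuation_le_one_iff f).mpr h1) fun h3 => ?_
    exact (C.red_ne_zero_iff_valuation).mpr h3 h2

section Root

variable {p : ℕ} {ζ : K}

theorem root_mem (hp : p ≠ 0) (hζ : ζ ^ p = 1) : ζ ∈ A := by
  rw [← A.valuation_le_one_iff]
  by_contra h
  have h1 : 1 < A.valuation ζ ^ p := one_lt_pow₀ (not_le.mp h) hp
  rw [← map_pow, hζ, map_one] at h1
  exact lt_irrefl _ h1

theorem pi_root [Fact p.Prime] [CharP k p] (hζ : ζ ^ p = 1) :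
    π ⟨ζ, root_mem (Fact.out : p.Prime).ne_zero hζ⟩ = 1 := by
  have h1 : (⟨ζ, root_mem (Fact.out : p.Prime).ne_zero hζ⟩ : A) ^ p = 1 := Subtype.ext hζ
  have h2 := congrArg π h1
  rw [map_pow, map_one] at h2
  have h3 : (π ⟨ζ, root_mem (Fact.out : p.Prime).ne_zero hζ⟩ - 1) ^ p = 0 := by
    rw [sub_pow_char, h2, one_pow, sub_self]
  exact sub_eq_zero.mp (pow_eq_zero_iff (Fact.out : p.Prime).ne_zero |>.mp h3)

end Root

theorem exists_pow_eq_inv {G : Type*} [Group G] [Finite G] (g : G) : ∃ n : ℕ, g ^ n = g⁻¹ := by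
  have h1 : g⁻¹ ∈ Subgroup.zpowers g := ⟨-1, by simp⟩
  have h2 := ((isOfFinOrder_of_finite g).mem_powers_iff_mem_zpowers).mpr h1
  obtain ⟨n, hn⟩ := h2
  exact ⟨n, hn⟩

/-- Elements of the decomposition group fix the `p`-th roots of functions close to `p`-th
powers. -/
theorem smul_eq_of_close {Ω : Type*} [Field Ω] [Algebra k Ω] [Algebra κ Ω]
    [FiniteDimensional F F'] {p : ℕ} [Fact p.Prime] [CharP k p]
    {ζ : K} (hζ : IsPrimitiveRoot ζ p) {C : Comp A π F κ} {C' : Comp A π F' Ω} (hC' : Over C' C)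
    {g : F' ≃ₐ[F] F'} (hg : ∀ φ ∈ C'.V, g φ ∈ C'.V) {w : F} (hw : Close C p (ζ - 1) w)
    {y : F'} (hy : y ^ p = algebraMap F F' w) : g y = y := by
  have hp := (Fact.out : p.Prime)
  obtain ⟨y₁, ε, hy₁, hε, hε0, hwε⟩ := hw
  set v := C'.V.valuation with hv
  -- `g` preserves the maximal ideal
  have hginv : ∀ φ ∈ C'.V, g⁻¹ φ ∈ C'.V := by
    obtain ⟨n, hn⟩ := exists_pow_eq_inv g
    rw [← hn]
    clear hn
    induction n with
    | zero => intro φ hφ; rwa [pow_zero, AlgEquiv.one_apply]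
    | succ n ih =>
      intro φ hφ
      rw [pow_succ, AlgEquiv.mul_apply]
      exact ih _ (hg _ hφ)
  have hpres : ∀ φ, v φ < 1 → v (g φ) < 1 := by
    intro φ hφ
    by_contra hcon
    have hφ0 : g φ ≠ 0 := by
      intro h0
      rw [h0, map_zero] at hcon
      exact hcon zero_lt_one
    have h1 : v (g φ)⁻¹ ≤ 1 := by
      rw [map_inv₀]
      exact inv_le_one_of_one_le₀ (not_lt.mp hcon)
    have h2 := hginv _ ((C'.V.valuation_le_one_iff _).mp h1)
    rw [← map_inv₀ g, ← AlgEquiv.mul_apply, inv_mul_cancel, AlgEquiv.one_apply] at h2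
    have h3 := (C'.V.valuation_le_one_iff _).mpr h2
    rw [map_inv₀] at h3
    have hφ0' : φ ≠ 0 := fun h => hφ0 (by rw [h, map_zero])
    have h4 := (inv_le_one₀ (zero_lt_iff.mpr ((Valuation.ne_zero_iff v).mpr hφ0'))).mp h3
    exact absurd hφ (not_lt.mpr h4)
  -- constants
  set ζ' := algebraMap K F' ζ with hζ'
  have hζ'p : IsPrimitiveRoot ζ' p := hζ.map_of_injective (algebraMap K F').injective
  set lam := ζ' - 1 with hlam
  have hζA : ζ ∈ A := root_mem hp.ne_zero hζ.pow_eq_one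
  have hζ'V : ζ' ∈ C'.V := C'.mem ⟨ζ, hζA⟩
  have hredζ : C'.red ζ' = 1 := by
    have h1 := C'.red_algebraMap' hζA
    rw [pi_root hζ.pow_eq_one, map_one] at h1
    exact h1
  have hlam0 : lam ≠ 0 := sub_ne_zero.mpr (hζ'p.ne_one hp.one_lt)
  have hvlam0 : v lam ≠ 0 := (Valuation.ne_zero_iff v).mpr hlam0
  have hvlam : v lam ≤ 1 := (C'.V.valuation_le_one_iff _).mpr (C'.sub_mem hζ'V C'.V.one_mem)
  have hroot : ∀ η : F', η ^ p = 1 → ∃ a < p, η = ζ' ^ a := fun η hη => by
    obtain ⟨a, ha, hae⟩ := hζ'p.eq_pow_of_pow_eq_one hη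
    exact ⟨a, ha, hae.symm⟩
  have hgroot : ∀ η : F', η ^ p = 1 → g η = η := fun η hη => by
    obtain ⟨a, -, rfl⟩ := hroot η hη
    rw [map_pow, hζ', IsScalarTower.algebraMap_apply K F F', AlgEquiv.commutes]
  have hvroot : ∀ η : F', η ^ p = 1 → v η = 1 := fun η hη => by
    have h1 : v η ^ p = 1 := by rw [← map_pow, hη, map_one]
    exact (pow_eq_one_iff_of_nonneg zero_le hp.ne_zero).mp h1
  -- the element `z`
  set z := y * algebraMap F F' y₁ with hz
  have hzp : z ^ p = 1 + lam ^ p * algebraMap F F' ε := by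
    rw [hz, mul_pow, hy, ← map_pow, ← map_mul, hwε, map_add, map_one, map_mul, map_pow,
      ← IsScalarTower.algebraMap_apply, map_sub, map_one]
  have hvε : v (algebraMap F F' ε) < 1 := by
    rw [hv, Comp.valuation_lt_one_iff, hC'.mem, hC'.red, hε0, map_zero]
    exact ⟨hε, rfl⟩
  obtain ⟨η₀, hη₀, hzη₀⟩ : ∃ η₀ : F', η₀ ^ p = 1 ∧ v (z - η₀) < v lam := by
    by_contra hcon
    push Not at hcon
    have h1 := hζ'p.pow_sub_pow_eq_prod_sub_mul z 1 hp.pos
    rw [one_pow, hzp, add_sub_cancel_left] at h1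
    have h2 := congrArg v h1
    rw [map_mul, map_pow, map_prod] at h2
    have h3 : ∏ _η ∈ nthRootsFinset p (1 : F'), v lam ≤
        ∏ η ∈ nthRootsFinset p (1 : F'), v (z - η * 1) := by
      refine Finset.prod_le_prod (fun _ _ => zero_le) fun η hη => ?_
      rw [mul_one]
      exact hcon η ((mem_nthRootsFinset hp.pos _).mp hη)
    rw [Finset.prod_const, hζ'p.card_nthRootsFinset, ← h2] at h3
    have h4 : v lam ^ p * v (algebraMap F F' ε) < v lam ^ p * 1 :=
      mul_lt_mul_of_pos_left hvε (zero_lt_iff.mpr (pow_ne_zero p hvlam0))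
    rw [mul_one] at h4
    exact absurd h3 (not_le.mpr h4)
  have hvz : v z = 1 := by
    have h1 : z = η₀ + (z - η₀) := by ring
    rw [h1, Valuation.map_add_eq_of_lt_left, hvroot η₀ hη₀]
    rw [hvroot η₀ hη₀]
    exact lt_of_lt_of_le hzη₀ hvlam
  have hz0 : z ≠ 0 := by
    intro h0
    rw [h0, map_zero] at hvz
    exact zero_ne_one hvz
  have hglam : g lam = lam := by
    rw [hlam, map_sub, map_one, hgroot ζ' hζ'p.pow_eq_one]
  have hgz : v (g z - η₀) < v lam := by
    have h1 : v ((z - η₀) / lam) < 1 := by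
      rw [map_div₀]
      exact (div_lt_one₀ (zero_lt_iff.mpr hvlam0)).mpr hzη₀
    have h2 := hpres _ h1
    rw [map_div₀ g, map_sub, hgroot η₀ hη₀, hglam, map_div₀] at h2
    exact (div_lt_one₀ (zero_lt_iff.mpr hvlam0)).mp h2
  have hdiff : v (g z - z) < v lam := by
    have h1 : g z - z = (g z - η₀) - (z - η₀) := by ring
    rw [h1]
    exact lt_of_le_of_lt (Valuation.map_sub _ _ _) (max_lt hgz hzη₀)
  have hgzp : (g z) ^ p = z ^ p := by
    rw [← map_pow]
    have h1 : z ^ p = algebraMap F F' (w * y₁ ^ p) := by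
      rw [hz, mul_pow, hy, map_mul, map_pow]
    rw [h1, AlgEquiv.commutes]
  have hη₁ : (g z / z) ^ p = 1 := by
    rw [div_pow, hgzp, div_self (pow_ne_zero p hz0)]
  obtain ⟨a, ha, hae⟩ := hroot _ hη₁
  have hva : v (g z / z - 1) < v lam := by
    have h1 : g z / z - 1 = (g z - z) / z := by
      rw [sub_div, div_self hz0]
    rw [h1, map_div₀, hvz, div_one]
    exact hdiff
  have hgzz : g z = z := by
    rcases Nat.eq_zero_or_pos a with h0 | hpos
    · rw [h0, pow_zero, div_eq_one_iff_eq hz0] at hae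
      exact hae
    · exfalso
      rw [hae] at hva
      have h1 : ζ' ^ a - 1 = (∑ i ∈ Finset.range a, ζ' ^ i) * lam := (geom_sum_mul ζ' a).symm
      have h2 : C'.red (∑ i ∈ Finset.range a, ζ' ^ i) = (a : Ω) := by
        rw [C'.red_sum _ _ fun i _ => C'.pow_mem hζ'V i]
        simp only [C'.red_pow hζ'V, hredζ, one_pow, Finset.sum_const, Finset.card_range,
          nsmul_eq_mul, mul_one]
      have h3 : (a : Ω) ≠ 0 := by
        have h4 : (a : k) ≠ 0 := by
          rw [Ne, CharP.cast_eq_zero_iff k p]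
          exact Nat.not_dvd_of_pos_of_lt hpos ha
        rw [← map_natCast (algebraMap k Ω)]
        exact (_root_.map_ne_zero _).mpr h4
      have h4 : v (∑ i ∈ Finset.range a, ζ' ^ i) = 1 :=
        (C'.red_ne_zero_iff_valuation).mp (by rw [h2]; exact h3)
      rw [h1, map_mul, h4, one_mul] at hva
      exact lt_irrefl _ hva
  rw [hz, map_mul, AlgEquiv.commutes] at hgzz
  exact mul_right_cancel₀ ((_root_.map_ne_zero _).mpr hy₁) hgzz

end Fermat.Agent.H84
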