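import Mathlib
import Fermat.Agent.H84CovBase

/-!
# Genus bound for covers generated by `p`-th roots of functions with divisor divisible by `p`
-/

set_option autoImplicit false

open AlgebraicCurve WithZero Polynomial IntermediateField Module

namespace Fermat.Agent.H84

variable {K : Type*} [Field K] {F F' : Type*} [Field F] [Algebra K F] [Field F'] [Algebra K F']
  [Algebra F F'] [IsScalarTower K F F']

/-- `p`-th roots of functions whose divisor is divisible by `p`. -/
def rootMon (K F F' : Type*) [Field K] [Field F] [Algebra K F] [Field F'] [Algebra F F'] (p : ℕ) :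
    Submonoid F' where
  carrier := {y | ∃ h : F, h ≠ 0 ∧ y ^ p = algebraMap F F' h ∧ ∀ v : Place K F, (p : ℤ) ∣ v.ord h}
  one_mem' := ⟨1, one_ne_zero, by simp, fun v => by rw [v.ord_one]; exact dvd_zero _⟩
  mul_mem' := by
    rintro y z ⟨h, hh, hy, hd⟩ ⟨h', hh', hz, hd'⟩
    refine ⟨h * h', mul_ne_zero hh hh', by rw [mul_pow, hy, hz, map_mul], fun v => ?_⟩
    rw [v.ord_mul hh hh']
    exact dvd_add (hd v) (hd' v)

theorem algebraMap_mem_L [IsAlgClosed K] [H3RR.IsFF K F] [H3RR.IsFF K F'] {x : F} (hx : x ≠ 0)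
    (N : ℕ) {f : F} (hf : f ∈ riemannRochSpace (N • H3RR.poleDiv x : Divisor K F)) :
    algebraMap F F' f ∈
      riemannRochSpace (N • H3RR.poleDiv (algebraMap F F' x) : Divisor K F') := by
  have hx' : algebraMap F F' x ≠ 0 := (_root_.map_ne_zero _).mpr hx
  rw [mem_L_poleDiv_iff hx] at hf
  rw [mem_L_poleDiv_iff hx']
  refine ⟨?_, ?_⟩
  · rw [← isIntegral_iff_forall_le_one, isIntegral_algebraMap_iff', isIntegral_iff_forall_le_one]
    exact hf.1
  · rw [← map_inv₀, ← map_pow, ← map_mul, ← isIntegral_iff_forall_le_one,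
      isIntegral_algebraMap_iff', isIntegral_iff_forall_le_one]
    exact hf.2

theorem mem_L_of_pow_mem {y : F} {D : Divisor K F} {p : ℕ} (hp : p ≠ 0)
    (h : y ^ p ∈ riemannRochSpace (p • D)) : y ∈ riemannRochSpace D := by
  intro v
  have h1 : v.adicValuation (y ^ p) ≤ exp ((p • D : Divisor K F) v) := h v
  rw [map_pow, Finsupp.smul_apply] at h1
  have h2 : exp ((p • D v : ℤ)) = (exp (D v)) ^ p := by rw [← exp_nsmul]
  rw [h2] at h1
  exact (pow_le_pow_iff_left₀ zero_le zero_le hp).mp h1

theorem exists_divisor_div [IsAlgClosed K] [H3RR.IsFF K F] {p : ℕ} (hp : p ≠ 0) {h : F}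
    (hh : h ≠ 0) (hd : ∀ v : Place K F, (p : ℤ) ∣ v.ord h) :
    ∃ D : Divisor K F, Divisor.degree D = 0 ∧ ∀ v, v.ord h = p * D v := by
  let D : Divisor K F := (H3RR.divOf h : Divisor K F).mapRange (fun m => m / (p : ℤ)) (by simp)
  have hD : ∀ v, v.ord h = p * D v := fun v => by
    rw [Finsupp.mapRange_apply, H3RR.divOf_apply hh, Int.mul_ediv_cancel' (hd v)]
  refine ⟨D, ?_, hD⟩
  have h1 : (p • D : Divisor K F) = H3RR.divOf h := by
    ext v
    rw [Finsupp.smul_apply, H3RR.divOf_apply hh, hD v, nsmul_eq_mul]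
  have h2 := H3RR.degree_divOf (K := K) hh
  rw [← h1, map_nsmul, nsmul_eq_mul] at h2
  exact (mul_eq_zero.mp h2).resolve_left (by exact_mod_cast hp)

/-- **Genus bound**. -/
theorem genus_le_of_span [IsAlgClosed K] [H3RR.IsFF K F] [H3RR.IsFF K F'] [FiniteDimensional F F']
    {p : ℕ} (hp : p ≠ 0)
    (hspan : Submodule.span F (rootMon K F F' p : Set F') = ⊤) :
    (genusFF K F' : ℤ) - 1 ≤ finrank F F' * ((genusFF K F : ℤ) - 1) := by
  classical
  obtain ⟨s, hsY, hss, hli⟩ := exists_linearIndependent F (rootMon K F F' p : Set F')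
  rw [hspan] at hss
  have hsfin : s.Finite := hli.setFinite
  have := hsfin.fintype
  have hcard : Fintype.card s = finrank F F' := by
    have b : Module.Basis s F F' := Module.Basis.mk hli (by rw [Subtype.range_coe, hss])
    rw [Module.finrank_eq_card_basis b]
  have key : ∀ y : s, ∃ (h : F) (D : Divisor K F), h ≠ 0 ∧ (y : F') ^ p = algebraMap F F' h ∧
      Divisor.degree D = 0 ∧ ∀ v, v.ord h = p * D v := by
    rintro ⟨y, hy⟩
    obtain ⟨h, hh, hyh, hd⟩ := hsY hy
    obtain ⟨D, hD0, hD⟩ := exists_divisor_div hp hh hd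
    exact ⟨h, D, hh, hyh, hD0, hD⟩
  choose h D hh hyh hD0 hD using key
  obtain ⟨x, hx, hfinx⟩ := H3RR.IsFF.exists_gen (K := K) (F := F)
  have hx0 := H3RR.transcendental_ne_zero hx
  have hx' : Transcendental K (algebraMap F F' x) :=
    (transcendental_algebraMap_iff (algebraMap F F').injective).mpr hx
  have hfinx' := H3RR.IsFF.finiteDimensional hx'
  set d := finrank K⟮x⟯ F with hd
  have hd' : finrank K⟮algebraMap F F' x⟯ F' = d * finrank F F' := finrank_adjoin_algebraMap x
  set N := 2 * genusFF K F' with hN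
  -- the pieces
  have hmem : ∀ (y : s) (f : F), f ∈ riemannRochSpace (N • H3RR.poleDiv x + D y : Divisor K F) →
      algebraMap F F' f * y ∈
        riemannRochSpace (N • H3RR.poleDiv (algebraMap F F' x) : Divisor K F') := by
    intro y f hf
    apply mem_L_of_pow_mem hp
    rw [mul_pow, hyh, ← map_pow, ← map_mul, ← mul_smul]
    apply algebraMap_mem_L hx0
    intro v
    have h1 : v.adicValuation f ≤ exp ((N • H3RR.poleDiv x + D y : Divisor K F) v) := hf v
    rw [map_mul, map_pow, v.adicValuation_eq_exp_neg_ord (hh y), hD y v]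
    calc v.adicValuation f ^ p * exp (-(p * D y v)) ≤
        exp ((N • H3RR.poleDiv x + D y : Divisor K F) v) ^ p * exp (-(p * D y v)) :=
          mul_le_mul_left (pow_le_pow_left₀ zero_le h1 p) _
      _ = exp (((p * N) • H3RR.poleDiv x : Divisor K F) v) := by
          rw [← exp_nsmul, ← exp_add, Finsupp.add_apply, Finsupp.smul_apply, Finsupp.smul_apply]
          congr 1
          simp only [nsmul_eq_mul]
          push_cast
          ring
  let Φ : (∀ y : s, riemannRochSpace (N • H3RR.poleDiv x + D y : Divisor K F)) →ₗ[K]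
      riemannRochSpace (N • H3RR.poleDiv (algebraMap F F' x) : Divisor K F') :=
    { toFun := fun f => ∑ y : s, ⟨algebraMap F F' (f y) * y, hmem y _ (f y).2⟩
      map_add' := fun f g => by
        rw [← Finset.sum_add_distrib]
        refine Finset.sum_congr rfl fun y _ => Subtype.ext ?_
        change algebraMap F F' ((f y : F) + (g y : F)) * _ = _ + _
        rw [map_add, add_mul]
      map_smul' := fun c f => by
        rw [Finset.smul_sum]
        refine Finset.sum_congr rfl fun y _ => Subtype.ext ?_
        change algebraMap F F' (c • (f y : F)) * _ = c • (_ * _)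
        rw [Algebra.smul_def, map_mul, ← IsScalarTower.algebraMap_apply, Algebra.smul_def,
          mul_assoc] }
  have hΦ : Function.Injective Φ := by
    rw [injective_iff_map_eq_zero]
    intro f hf
    have h1 : ∑ y : s, (f y : F) • (y : F') = 0 := by
      have h2 := congrArg Subtype.val hf
      have h3 : ((Φ f : riemannRochSpace _) : F') = ∑ y : s, algebraMap F F' (f y) * y := by
        change ((∑ y : s, (⟨algebraMap F F' (f y) * y, hmem y _ (f y).2⟩ :
          riemannRochSpace (N • H3RR.poleDiv (algebraMap F F' x) : Divisor K F')) : _) : F') = _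
        rw [Submodule.coe_sum]
      rw [h3] at h2
      refine Eq.trans ?_ h2
      exact Finset.sum_congr rfl fun y _ => Algebra.smul_def _ _
    have h2 := Fintype.linearIndependent_iff.mp hli (fun y => (f y : F)) h1
    funext y
    exact Subtype.ext (h2 y)
  have h1 := LinearMap.finrank_le_finrank_of_injective hΦ
  rw [Module.finrank_pi_fintype] at h1
  have h2 : ∀ y : s, (N * d : ℤ) + 1 - genusFF K F ≤
      finrank K (riemannRochSpace (N • H3RR.poleDiv x + D y : Divisor K F)) := by
    intro y
    have h3 := H3RR.riemann_inequality (N • H3RR.poleDiv x + D y : Divisor K F)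
    have h4 : Divisor.degree (N • H3RR.poleDiv x + D y : Divisor K F) = N * d := by
      rw [map_add, map_nsmul, H3RR.degree_poleDiv hx, hD0, add_zero, nsmul_eq_mul]
    rw [h4] at h3
    have h5 : (H3RR.ell (N • H3RR.poleDiv x + D y : Divisor K F) : ℤ) =
      finrank K (riemannRochSpace (N • H3RR.poleDiv x + D y : Divisor K F)) := rfl
    omega
  have h3 : (finrank F F' : ℤ) * (N * d + 1 - genusFF K F) ≤
      ∑ y : s, (finrank K (riemannRochSpace (N • H3RR.poleDiv x + D y : Divisor K F)) : ℤ) := by
    rw [← hcard, Fintype.card, Finset.card_eq_sum_ones]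
    push_cast
    rw [Finset.sum_mul]
    exact Finset.sum_le_sum fun y _ => by rw [one_mul]; exact h2 y
  have h4 : (H3RR.ell (N • H3RR.poleDiv (algebraMap F F' x) : Divisor K F') : ℤ) =
      N * (d * finrank F F') + 1 - genusFF K F' := by
    have hdeg : Divisor.degree (N • H3RR.poleDiv (algebraMap F F' x) : Divisor K F') =
        N * (d * finrank F F') := by
      rw [map_nsmul, H3RR.degree_poleDiv hx', hd', nsmul_eq_mul]
      push_cast
      ring
    have h5 : 1 ≤ d * finrank F F' := by
      rw [← hd']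
      exact Module.finrank_pos
    have h6 : N ≤ N * (d * finrank F F') := Nat.le_mul_of_pos_right N h5
    have h7 : (N : ℤ) ≤ N * (d * finrank F F') := by exact_mod_cast h6
    rw [H3RR.ell_of_degree_gt (by rw [hdeg]; omega), hdeg]
  have h5 : (∑ y : s, (finrank K (riemannRochSpace (N • H3RR.poleDiv x + D y : Divisor K F)) : ℤ))
      ≤ H3RR.ell (N • H3RR.poleDiv (algebraMap F F' x) : Divisor K F') := by
    exact_mod_cast h1
  rw [h4] at h5
  have h6 := h3.trans h5
  have h7 : (finrank F F' : ℤ) * (N * d + 1 - genusFF K F) =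
    N * (d * finrank F F') + finrank F F' * (1 - genusFF K F) := by ring
  rw [h7] at h6
  have h8 : (finrank F F' : ℤ) * ((genusFF K F : ℤ) - 1) =
    -(finrank F F' * (1 - genusFF K F)) := by ring
  rw [h8]
  linarith

end Fermat.Agent.H84
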