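import Mathlib
import Fermat.Agent.H84KumG
import Fermat.Agent.H84Close

/-!
# Kummer covers
-/

set_option autoImplicit false

open AlgebraicCurve WithZero Polynomial IntermediateField Module

namespace Fermat.Agent.H84

section Field

variable {F : Type*} [Field F] (p : ℕ) (S : Set F)

/-- All `p`-th roots of elements of `S`. -/
def rootSet : Set (AlgebraicClosure F) :=
  {y | ∃ w ∈ S, y ^ p = algebraMap F (AlgebraicClosure F) w}

/-- The field generated by the `p`-th roots of the elements of `S`. -/
noncomputable def Kum : IntermediateField F (AlgebraicClosure F) :=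
  IntermediateField.adjoin F (rootSet p S)

variable {p S}

theorem mem_kum_of_root {y : AlgebraicClosure F} (hy : y ∈ rootSet p S) : y ∈ Kum p S :=
  IntermediateField.subset_adjoin F _ hy

instance normal_kum : Normal F (Kum p S) := by
  rw [normal_iff_forall_map_le]
  intro σ
  rw [Kum, IntermediateField.adjoin_map, IntermediateField.adjoin_le_iff]
  rintro _ ⟨y, ⟨w, hw, hy⟩, rfl⟩
  refine mem_kum_of_root ⟨w, hw, ?_⟩
  change (σ y) ^ p = _
  rw [← map_pow, hy, AlgHom.commutes]

instance isGalois_kum [CharZero F] : IsGalois F (Kum p S) where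

/-- Finiteness modulo `p`-th powers. -/
def FinMod (p : ℕ) (S : Set F) : Prop := ∃ T : Finset F, ∀ w ∈ S, ∃ t ∈ T, ∃ f : F, w = t * f ^ p

theorem finiteDimensional_kum (hp : p ≠ 0) (h : FinMod p S) : FiniteDimensional F (Kum p S) := by
  classical
  obtain ⟨T, hT⟩ := h
  let R : Set (AlgebraicClosure F) :=
    ((T.biUnion fun t => (nthRoots p (algebraMap F (AlgebraicClosure F) t)).toFinset :
      Finset (AlgebraicClosure F)) : Set (AlgebraicClosure F))
  have hfin : Finite R := Finset.finite_toSet _
  have h1 : FiniteDimensional F (IntermediateField.adjoin F R) :=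
    IntermediateField.finiteDimensional_adjoin fun x _ => Algebra.IsIntegral.isIntegral x
  have h2 : Kum p S ≤ IntermediateField.adjoin F R := by
    rw [Kum, IntermediateField.adjoin_le_iff]
    rintro y ⟨w, hw, hy⟩
    obtain ⟨t, ht, f, hf⟩ := hT w hw
    by_cases hf0 : f = 0
    · rw [hf, hf0, zero_pow hp, mul_zero, map_zero] at hy
      rw [(pow_eq_zero_iff hp).mp hy]
      exact IntermediateField.zero_mem _
    · have hf0' : algebraMap F (AlgebraicClosure F) f ≠ 0 := (_root_.map_ne_zero _).mpr hf0
      have h3 : y / algebraMap F (AlgebraicClosure F) f ∈ IntermediateField.adjoin F R := by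
        apply IntermediateField.subset_adjoin
        refine Finset.mem_coe.mpr ?_
        rw [Finset.mem_biUnion]
        refine ⟨t, ht, ?_⟩
        rw [Multiset.mem_toFinset, mem_nthRoots (Nat.pos_of_ne_zero hp), div_pow, hy, hf, map_mul,
          map_pow, mul_div_assoc, div_self (pow_ne_zero p hf0'), mul_one]
      have h4 := IntermediateField.mul_mem _ h3
        (IntermediateField.algebraMap_mem (IntermediateField.adjoin F R) f)
      rwa [div_mul_cancel₀ _ hf0'] at h4
  exact Submodule.finiteDimensional_of_le (S₂ := (IntermediateField.adjoin F R).toSubalgebra.toSubmodule)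
    (S₁ := (Kum p S).toSubalgebra.toSubmodule) h2

/-- A `p`-th root in the Kummer field. -/
theorem exists_root_kum (hp : p ≠ 0) {w : F} (hw : w ∈ S) :
    ∃ y : Kum p S, y ^ p = algebraMap F (Kum p S) w := by
  obtain ⟨y, hy⟩ := IsAlgClosed.exists_pow_nat_eq (algebraMap F (AlgebraicClosure F) w)
    (Nat.pos_of_ne_zero hp)
  refine ⟨⟨y, mem_kum_of_root ⟨w, hw, hy⟩⟩, Subtype.ext ?_⟩
  exact hy

/-- An automorphism of the Kummer field which fixes all roots is the identity. -/
theorem kum_aut_eq_one {g : Kum p S ≃ₐ[F] Kum p S}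
    (hg : ∀ w ∈ S, ∀ y : Kum p S, y ^ p = algebraMap F (Kum p S) w → g y = y) : g = 1 := by
  apply AlgEquiv.ext
  intro z
  rw [AlgEquiv.one_apply]
  -- the fixed elements form an intermediate field of `AlgebraicClosure F`
  let E : IntermediateField F (AlgebraicClosure F) :=
    IntermediateField.map (Kum p S).val (IntermediateField.fixedField (Subgroup.zpowers g))
  have h1 : Kum p S ≤ E := by
    rw [Kum, IntermediateField.adjoin_le_iff]
    rintro y ⟨w, hw, hy⟩
    refine ⟨⟨y, mem_kum_of_root ⟨w, hw, hy⟩⟩, ?_, rfl⟩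
    have h2 : g ⟨y, mem_kum_of_root ⟨w, hw, hy⟩⟩ = ⟨y, mem_kum_of_root ⟨w, hw, hy⟩⟩ :=
      hg w hw _ (Subtype.ext hy)
    change ⟨y, mem_kum_of_root ⟨w, hw, hy⟩⟩ ∈ IntermediateField.fixedField (Subgroup.zpowers g)
    rw [IntermediateField.mem_fixedField_iff]
    rintro f hf
    have h3 : Subgroup.zpowers g ≤ MulAction.stabilizer (Kum p S ≃ₐ[F] Kum p S)
        (⟨y, mem_kum_of_root ⟨w, hw, hy⟩⟩ : Kum p S) := by
      rw [Subgroup.zpowers_le]
      exact h2
    exact h3 hf
  obtain ⟨z', hz', hzz⟩ := h1 z.2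
  have h2 : z' = z := Subtype.ext hzz
  rw [← h2]
  have hz'' : z' ∈ IntermediateField.fixedField (Subgroup.zpowers g) := hz'
  rw [IntermediateField.mem_fixedField_iff] at hz''
  exact hz'' g (Subgroup.mem_zpowers g)

end Field

section Alg

variable {K F : Type*} [Field K] [Field F] [Algebra K F] {p : ℕ} {S : Set F}

/-- The Kummer field is spanned by `p`-th roots of functions with divisor divisible by `p`. -/
theorem span_rootMon_kum (hS0 : ∀ w ∈ S, w ≠ 0)
    (hdiv : ∀ w ∈ S, ∀ v : Place K F, (p : ℤ) ∣ v.ord w) :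
    Submodule.span F (rootMon K F (Kum p S) p : Set (Kum p S)) = ⊤ := by
  rw [eq_top_iff]
  intro z _
  have h1 : (z : AlgebraicClosure F) ∈ Algebra.adjoin F (rootSet p S) := by
    rw [← IntermediateField.adjoin_toSubalgebra_of_isAlgebraic
      (fun x _ => Algebra.IsAlgebraic.isAlgebraic x)]
    exact z.2
  have h2 : (z : AlgebraicClosure F) ∈ Submodule.span F
      (Submonoid.closure (rootSet p S) : Set (AlgebraicClosure F)) := by
    rw [← Algebra.adjoin_eq_span]
    exact h1
  have h3 : (Submonoid.closure (rootSet p S) : Set (AlgebraicClosure F)) ⊆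
      (Kum p S).val '' (rootMon K F (Kum p S) p : Set (Kum p S)) := by
    have h4 : Submonoid.closure (rootSet p S) ≤
        (rootMon K F (Kum p S) p).map (Kum p S).val.toMonoidHom := by
      rw [Submonoid.closure_le]
      rintro y ⟨w, hw, hy⟩
      exact ⟨⟨y, mem_kum_of_root ⟨w, hw, hy⟩⟩, ⟨w, hS0 w hw, Subtype.ext hy, hdiv w hw⟩, rfl⟩
    exact h4
  have h4 := Submodule.span_mono h3 h2
  have h5 : Submodule.span F ((Kum p S).val '' (rootMon K F (Kum p S) p : Set (Kum p S))) =
      (Submodule.span F (rootMon K F (Kum p S) p : Set (Kum p S))).map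
        (Kum p S).val.toLinearMap := by
    rw [Submodule.map_span]
    rfl
  rw [h5] at h4
  obtain ⟨z', hz', hzz⟩ := h4
  have h6 : z' = z := Subtype.ext hzz
  rwa [← h6]

/-- Lifting semilinear automorphisms to the Kummer field. -/
theorem exists_lift_kum (τ : F ≃+* F) (hτ : ∀ w ∈ S, τ w ∈ S) (hτ' : ∀ w ∈ S, τ.symm w ∈ S) :
    ∃ τ' : Kum p S ≃+* Kum p S,
      ∀ f, τ' (algebraMap F (Kum p S) f) = algebraMap F (Kum p S) (τ f) := by
  let t := IsAlgClosure.equivOfEquiv (AlgebraicClosure F) (AlgebraicClosure F) τ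
  have ht : ∀ f, t (algebraMap F (AlgebraicClosure F) f) = algebraMap F (AlgebraicClosure F) (τ f) :=
    fun f => IsAlgClosure.equivOfEquiv_algebraMap _ _ τ f
  have ht' : ∀ f, t.symm (algebraMap F (AlgebraicClosure F) f) =
      algebraMap F (AlgebraicClosure F) (τ.symm f) := fun f => by
    rw [RingEquiv.symm_apply_eq, ht, RingEquiv.apply_symm_apply]
  have key : ∀ (s : AlgebraicClosure F ≃+* AlgebraicClosure F) (σ : F ≃+* F),
      (∀ f, s (algebraMap F (AlgebraicClosure F) f) = algebraMap F (AlgebraicClosure F) (σ f)) →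
      (∀ w ∈ S, σ w ∈ S) → ∀ z ∈ Kum p S, s z ∈ Kum p S := by
    intro s σ hs hσ z hz
    induction hz using IntermediateField.adjoin_induction with
    | mem y hy =>
      obtain ⟨w, hw, hy⟩ := hy
      exact mem_kum_of_root ⟨σ w, hσ w hw, by rw [← map_pow, hy, hs]⟩
    | algebraMap f => rw [hs]; exact IntermediateField.algebraMap_mem _ _
    | add a b _ _ ha hb => rw [map_add]; exact IntermediateField.add_mem _ ha hb
    | mul a b _ _ ha hb => rw [map_mul]; exact IntermediateField.mul_mem _ ha hb
    | inv a _ ha => rw [map_inv₀]; exact IntermediateField.inv_mem _ ha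
  have h1 := key t τ ht hτ
  have h2 := key t.symm τ.symm ht' hτ'
  let τ' : Kum p S ≃+* Kum p S :=
    { toFun := fun z => ⟨t z, h1 z z.2⟩
      invFun := fun z => ⟨t.symm z, h2 z z.2⟩
      left_inv := fun z => Subtype.ext (t.symm_apply_apply z)
      right_inv := fun z => Subtype.ext (t.apply_symm_apply z)
      map_mul' := fun a b => Subtype.ext (map_mul t _ _)
      map_add' := fun a b => Subtype.ext (map_add t _ _) }
  exact ⟨τ', fun f => Subtype.ext (ht f)⟩

end Alg

end Fermat.Agent.H84
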