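/-
H3RR: consequences: infinitely many places, nonspecial divisors, effective representatives.
-/
import Mathlib
import Fermat.Agent.H3RR_Duality

set_option autoImplicit false

open AlgebraicCurve WithZero IsLocalRing

namespace Fermat.Agent.H3RR

variable {K F : Type*} [Field K] [Field F] [Algebra K F] [IsAlgClosed K] [IsFF K F]

theorem transcendental_sub_const {x : F} (hx : Transcendental K x) (c : K) :
    Transcendental K (x - algebraMap K F c) := by
  intro h
  apply hx
  have h2 := h.add (isAlgebraic_algebraMap (R := K) (A := F) c)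
  rwa [sub_add_cancel] at h2

instance infinite_place : Infinite (Place K F) := by
  obtain ⟨x, hx, _⟩ := IsFF.exists_gen (K := K) (F := F)
  have : Infinite K := IsAlgClosed.instInfinite
  have hex : ∀ c : K, ∃ v : Place K F, v.adicValuation (x - algebraMap K F c) < 1 := fun c =>
    exists_place_lt_one (transcendental_sub_const hx c)
  choose f hf using hex
  refine Infinite.of_injective f ?_
  intro c d hcd
  by_contra hne
  have h1 := hf c
  have h2 := hf d
  rw [← hcd] at h2
  have h3 : (f c).adicValuation (algebraMap K F (d - c)) < 1 := by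
    have : algebraMap K F (d - c) = (x - algebraMap K F c) - (x - algebraMap K F d) := by
      rw [map_sub]; ring
    rw [this]
    exact lt_of_le_of_lt (Valuation.map_sub _ _ _) (max_lt h1 h2)
  rw [adicValuation_algebraMap (f c) (sub_ne_zero.mpr (Ne.symm hne))] at h3
  exact lt_irrefl _ h3

theorem plus_sub (D : Divisor K F) (v : Place K F) : plus (D - Finsupp.single v 1) v = D := by
  rw [plus, sub_add_cancel]

theorem ell_le_sub_add_one (D : Divisor K F) (v : Place K F) :
    ell D ≤ ell (D - Finsupp.single v 1) + 1 := by
  have := ell_plus_le (D - Finsupp.single v 1) v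
  rwa [plus_sub, deg_eq_one] at this

/-- A general place imposes one condition. -/
theorem exists_ell_sub (D : Divisor K F) (h : 0 < ell D) (S : Finset (Place K F)) :
    ∃ P ∉ S, ell (D - Finsupp.single P 1) + 1 = ell D := by
  classical
  obtain ⟨f, hf, hfL⟩ := exists_mem_L_of_ell_pos h
  obtain ⟨P, hP⟩ := Infinite.exists_notMem_finset
    (S ∪ D.support ∪ (divOf f : Divisor K F).support)
  simp only [Finset.mem_union, not_or] at hP
  obtain ⟨⟨hPS, hPD⟩, hPf⟩ := hP
  refine ⟨P, hPS, ?_⟩
  have h1 := ell_le_sub_add_one D P
  have h2 : riemannRochSpace (D - Finsupp.single P 1) < riemannRochSpace D := by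
    refine lt_of_le_of_ne (L_mono (by
      have := le_add_single (D - Finsupp.single P 1) P
      rwa [plus_sub] at this)) ?_
    intro heq
    rw [← heq] at hfL
    have h3 := (mem_riemannRochSpace_iff.mp hfL P).resolve_left hf
    rw [← divOf_apply hf, Finsupp.notMem_support_iff.mp hPf, Finsupp.sub_apply,
      Finsupp.notMem_support_iff.mp hPD, Finsupp.single_eq_same] at h3
    omega
  have h3 := Submodule.finrank_lt_finrank_of_lt h2
  rw [ell, ell] at *
  omega

/-- The reduced divisor of a finite set of places. -/
noncomputable def redDiv (R : Finset (Place K F)) : Divisor K F := ∑ v ∈ R, Finsupp.single v 1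

omit [IsAlgClosed K] [IsFF K F] in
theorem redDiv_apply_of_mem {R : Finset (Place K F)} {v : Place K F} (h : v ∈ R) :
    redDiv R v = 1 := by
  classical
  rw [redDiv, Finsupp.finset_sum_apply, Finset.sum_eq_single v]
  · exact Finsupp.single_eq_same
  · intro w _ hw
    exact Finsupp.single_eq_of_ne (Ne.symm hw)
  · intro h'
    exact absurd h h'

omit [IsAlgClosed K] [IsFF K F] in
theorem redDiv_apply_of_notMem {R : Finset (Place K F)} {v : Place K F} (h : v ∉ R) :
    redDiv R v = 0 := by
  classical
  rw [redDiv, Finsupp.finset_sum_apply]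
  apply Finset.sum_eq_zero
  intro w hw
  exact Finsupp.single_eq_of_ne (fun h' => h (h' ▸ hw))

omit [IsAlgClosed K] [IsFF K F] in
theorem redDiv_nonneg (R : Finset (Place K F)) : 0 ≤ redDiv R :=
  Finset.sum_nonneg fun v _ => by rw [Finsupp.single_nonneg]; norm_num

theorem degree_redDiv (R : Finset (Place K F)) : Divisor.degree (redDiv R) = R.card := by
  rw [redDiv, map_sum]
  simp only [Divisor.degree_single, deg_eq_one]
  simp

/-- For every divisor `D` and every `n ≤ ℓ(D)`, `n` general places impose independent conditions. -/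
theorem exists_redDiv_ell (D : Divisor K F) (S : Finset (Place K F)) (n : ℕ) (hn : n ≤ ell D) :
    ∃ R : Finset (Place K F), R.card = n ∧ Disjoint R S ∧ ell (D - redDiv R) + n = ell D := by
  classical
  induction n with
  | zero => exact ⟨∅, rfl, Finset.disjoint_empty_left _, by simp [redDiv]⟩
  | succ n ih =>
    obtain ⟨R, hRc, hRS, hR⟩ := ih (by omega)
    obtain ⟨P, hP, hP2⟩ := exists_ell_sub (D - redDiv R) (by omega) (S ∪ R)
    simp only [Finset.mem_union, not_or] at hP
    refine ⟨insert P R, ?_, ?_, ?_⟩
    · rw [Finset.card_insert_of_notMem hP.2, hRc]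
    · rw [Finset.disjoint_insert_left]
      exact ⟨hP.1, hRS⟩
    · have : D - redDiv (insert P R) = D - redDiv R - Finsupp.single P 1 := by
        rw [redDiv, Finset.sum_insert hP.2, redDiv]
        abel
      rw [this]
      omega

/-- Existence of nonspecial divisors: `g` distinct places, avoiding a given finite set. -/
theorem exists_nonspecial (S : Finset (Place K F)) :
    ∃ R : Finset (Place K F), R.card = genusFF K F ∧ Disjoint R S ∧ h1 (redDiv R) = 0 ∧
      ell (redDiv R) = 1 := by
  obtain ⟨R, hRc, hRS, hR⟩ := exists_redDiv_ell (canon K F) S (genusFF K F) ell_canon.ge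
  rw [ell_canon] at hR
  have h0 : h1 (redDiv R) = 0 := by rw [h1_eq]; omega
  refine ⟨R, hRc, hRS, h0, ?_⟩
  have := riemann_roch_weak (redDiv R)
  rw [h0, degree_redDiv, hRc] at this
  push_cast at this
  omega

/-- If `ℓ(D) = 1` for effective `D`, then `L(D) = K`. -/
theorem exists_const_of_mem_L {D : Divisor K F} (hD : 0 ≤ D) (h : ell D = 1) {f : F}
    (hf : f ∈ riemannRochSpace D) : ∃ c : K, algebraMap K F c = f := by
  have hle := L_mono (D := 0) (D' := D) hD
  have heq : riemannRochSpace (0 : Divisor K F) = riemannRochSpace D := by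
    apply Submodule.eq_of_le_of_finrank_eq hle
    have := (finite_and_ell_zero (K := K) (F := F)).2
    rw [ell] at this h
    rw [this, h]
  rw [← heq] at hf
  exact exists_const_of_forall_le_one (fun v => by
    have := hf v
    show v.adicValuation f ≤ 1
    rw [← exp_zero]
    exact this)

/-- Every divisor of degree `≥ g` is equivalent to an effective one. -/
theorem exists_effective {D : Divisor K F} (h : (genusFF K F : ℤ) ≤ Divisor.degree D) :
    ∃ f : F, f ≠ 0 ∧ 0 ≤ D + divOf f := by
  have h1 := riemann_inequality D
  obtain ⟨f, hf, hfL⟩ := exists_mem_L_of_ell_pos (D := D) (by omega)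
  exact ⟨f, hf, le_add_divOf_of_mem (D := 0) hf (by rwa [sub_zero])⟩

/-- Every degree-zero divisor is `E - E₀` modulo principal divisors, for any fixed `E₀` of degree `g`. -/
theorem exists_effective_sub {D : Divisor K F} (h : Divisor.degree D = 0) {E₀ : Divisor K F}
    (hE₀ : Divisor.degree E₀ = genusFF K F) :
    ∃ f : F, f ≠ 0 ∧ ∃ E : Divisor K F, 0 ≤ E ∧ Divisor.degree E = genusFF K F ∧
      D + divOf f = E - E₀ := by
  obtain ⟨f, hf, hE⟩ := exists_effective (D := D + E₀) (by rw [map_add, h, hE₀]; omega)
  refine ⟨f, hf, D + E₀ + divOf f, hE, ?_, by abel⟩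
  rw [map_add, map_add, h, hE₀, degree_divOf hf]
  ring

end Fermat.Agent.H3RR
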