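import Mathlib
import Fermat.Agent.H84Count
import Fermat.Agent.H3RR_Special

/-!
# Counting: reductions of `L(N (x)_∞)` on the cover are exactly the glued tuples
-/

set_option autoImplicit false

open AlgebraicCurve WithZero Polynomial IntermediateField Module

namespace Fermat.Agent.H84

section Sep

variable {k κ : Type*} [Field k] [Field κ] [Algebra k κ] [IsAlgClosed k] [H3RR.IsFF k κ]

omit [IsAlgClosed k] [H3RR.IsFF k κ] in
theorem mem_L_iff {D : Divisor k κ} {f : κ} :
    f ∈ riemannRochSpace D ↔ ∀ v : Place k κ, v.adicValuation f ≤ exp (D v) := Iff.rfl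

theorem exists_peak (D : Divisor k κ) (Z : Finset (Place k κ)) (hD : ∀ s ∈ Z, D s = 0)
    (hdeg : 2 * (genusFF k κ : ℤ) + Z.card ≤ Divisor.degree D) {s : Place k κ} (hs : s ∈ Z) :
    ∃ y ∈ riemannRochSpace D, ev s y = 1 ∧ ∀ t ∈ Z, t ≠ s → ev t y = 0 := by
  classical
  set E : Divisor k κ := D - H3RR.redDiv (Z.erase s) with hE
  have hcard : ((Z.erase s).card : ℤ) + 1 = Z.card := by
    exact_mod_cast Finset.card_erase_add_one hs
  have hdE : Divisor.degree E = Divisor.degree D - ((Z.erase s).card : ℤ) := by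
    rw [hE, map_sub, H3RR.degree_redDiv]
  have hEs : E s = 0 := by
    rw [hE, Finsupp.sub_apply, hD s hs, H3RR.redDiv_apply_of_notMem (Finset.notMem_erase _ _),
      sub_zero]
  have hdE' : Divisor.degree (E - Finsupp.single s 1) = Divisor.degree E - 1 := by
    rw [map_sub, Divisor.degree_single, H3RR.deg_eq_one]
    simp
  have h1 := H3RR.ell_of_degree_gt (D := E) (by rw [hdE]; omega)
  have h2 := H3RR.ell_of_degree_gt (D := E - Finsupp.single s 1) (by rw [hdE', hdE]; omega)
  have hlt : H3RR.ell (E - Finsupp.single s 1) < H3RR.ell E := by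
    rw [hdE'] at h2
    omega
  have hle : riemannRochSpace (E - Finsupp.single s 1) ≤ riemannRochSpace E :=
    H3RR.L_mono (by
      intro v
      rw [Finsupp.sub_apply, Finsupp.single_apply]
      split_ifs <;> omega)
  obtain ⟨y, hy, hyn⟩ : ∃ y ∈ riemannRochSpace E, y ∉ riemannRochSpace (E - Finsupp.single s 1) := by
    by_contra hcon
    push Not at hcon
    have : riemannRochSpace E ≤ riemannRochSpace (E - Finsupp.single s 1) := hcon
    exact absurd (Submodule.finrank_mono this) (not_le.mpr hlt)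
  have hyD : y ∈ riemannRochSpace D := by
    refine H3RR.L_mono ?_ hy
    rw [hE, sub_le_self_iff]
    exact H3RR.redDiv_nonneg _
  have hys : s.adicValuation y ≤ 1 := by
    have := mem_L_iff.mp hy s
    rwa [hEs, exp_zero] at this
  have hev : ev s y ≠ 0 := by
    intro h0
    rw [ev_eq_zero_iff hys] at h0
    apply hyn
    rw [mem_L_iff]
    intro v
    rw [Finsupp.sub_apply, Finsupp.single_apply]
    split_ifs with hv
    · subst hv
      rw [hEs]
      rw [H3RR.adicValuation_lt_one_iff] at h0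
      simpa using h0
    · rw [sub_zero]
      exact mem_L_iff.mp hy v
  refine ⟨(ev s y)⁻¹ • y, Submodule.smul_mem _ _ hyD, ?_, fun t ht hts => ?_⟩
  · rw [Algebra.smul_def, ev_mul (s.adicValuation_algebraMap_le_one _) hys, ev_algebraMap,
      inv_mul_cancel₀ hev]
  · have h3 : t.adicValuation y < 1 := by
      have h4 := mem_L_iff.mp hy t
      rw [hE, Finsupp.sub_apply, hD t ht,
        H3RR.redDiv_apply_of_mem (Finset.mem_erase.mpr ⟨hts, ht⟩)] at h4
      refine lt_of_le_of_lt h4 ?_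
      rw [← exp_zero, exp_lt_exp]
      norm_num
    rw [Algebra.smul_def, ev_mul (t.adicValuation_algebraMap_le_one _) h3.le,
      (ev_eq_zero_iff h3.le).mpr h3, mul_zero]

theorem exists_values (D : Divisor k κ) (Z : Finset (Place k κ)) (hD : ∀ s ∈ Z, D s = 0)
    (hdeg : 2 * (genusFF k κ : ℤ) + Z.card ≤ Divisor.degree D) (c : Place k κ → k) :
    ∃ y ∈ riemannRochSpace D, ∀ s ∈ Z, ev s y = c s := by
  classical
  choose! y hy hy1 hy0 using fun s (hs : s ∈ Z) => exists_peak D Z hD hdeg hs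
  refine ⟨∑ s ∈ Z, c s • y s, Submodule.sum_mem _ fun s hs => Submodule.smul_mem _ _ (hy s hs),
    fun s hs => ?_⟩
  have hval : ∀ t ∈ Z, s.adicValuation (y t) ≤ 1 := fun t ht => by
    have := mem_L_iff.mp (hy t ht) s
    rwa [hD s hs, exp_zero] at this
  rw [ev_sum]
  · rw [Finset.sum_eq_single s]
    · rw [Algebra.smul_def, ev_mul (s.adicValuation_algebraMap_le_one _) (hval s hs), ev_algebraMap,
        hy1 s hs, mul_one]
    · intro t ht hts
      rw [Algebra.smul_def, ev_mul (s.adicValuation_algebraMap_le_one _) (hval t ht),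
        hy0 t ht s hs (Ne.symm hts), mul_zero]
    · exact fun h => (h hs).elim
  · intro t ht
    rw [Algebra.smul_def, map_mul]
    exact mul_le_one' (s.adicValuation_algebraMap_le_one _) (hval t ht)

end Sep

section Marks

variable {K k : Type*} [Field K] [Field k] {A : ValuationSubring K} {π : A →+* k}
  {F F' κ : Type*} [Field F] [Algebra K F] [Field F'] [Algebra K F'] [Field κ] [Algebra k κ]
  [Algebra F F'] [IsScalarTower K F F'] {ι : Type*}

/-- Marked points of the special fibre. -/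
structure Marks (W : ι → Comp A π F' κ) (x : F) (Sig : Type*) where
  lft : Sig → ι × Place k κ
  rgt : Sig → ι × Place k κ
  inj : Function.Injective (Sum.elim lft rgt)
  lft_reg : ∀ σ, (lft σ).2.adicValuation ((W (lft σ).1).red (algebraMap F F' x)) = 1
  rgt_reg : ∀ σ, (rgt σ).2.adicValuation ((W (rgt σ).1).red (algebraMap F F' x)) = 1

variable {W : ι → Comp A π F' κ} {x : F} {Sig : Type*}

/-- The same marked points for `x⁻¹`. -/
def Marks.inv (m : Marks W x Sig) : Marks W x⁻¹ Sig where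
  lft := m.lft
  rgt := m.rgt
  inj := m.inj
  lft_reg := fun σ => by
    rw [map_inv₀, Comp.red_inv, map_inv₀, m.lft_reg, inv_one]
  rgt_reg := fun σ => by
    rw [map_inv₀, Comp.red_inv, map_inv₀, m.rgt_reg, inv_one]

theorem Marks.lft_inj (m : Marks W x Sig) {σ τ : Sig} (h : m.lft σ = m.lft τ) : σ = τ := by
  have := @m.inj (Sum.inl σ) (Sum.inl τ) h
  exact Sum.inl.inj this

theorem Marks.rgt_inj (m : Marks W x Sig) {σ τ : Sig} (h : m.rgt σ = m.rgt τ) : σ = τ := by
  have := @m.inj (Sum.inr σ) (Sum.inr τ) h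
  exact Sum.inr.inj this

theorem Marks.lft_ne_rgt (m : Marks W x Sig) (σ τ : Sig) : m.lft σ ≠ m.rgt τ := fun h => by
  have := @m.inj (Sum.inl σ) (Sum.inr τ) h
  exact Sum.inl_ne_inr this

variable [IsAlgClosed k] [H3RR.IsFF k κ]

theorem smul_poleDiv_eq_zero {y : κ} (N : ℕ) {s : Place k κ}
    (h : s.adicValuation y = 1) : (N • H3RR.poleDiv y : Divisor k κ) s = 0 := by
  have hy : y ≠ 0 := by
    rintro rfl
    rw [map_zero] at h
    exact zero_ne_one h
  rw [Finsupp.smul_apply, H3RR.poleDiv_apply hy]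
  rw [s.adicValuation_eq_exp_neg_ord hy, ← exp_zero, exp_inj] at h
  rw [h, max_self, smul_zero]

/-- Evaluation as a linear map. -/
noncomputable def evLin (D : Divisor k κ) (s : Place k κ) (h : D s = 0) :
    riemannRochSpace D →ₗ[k] k where
  toFun y := ev s (y : κ)
  map_add' y z := by
    have hy := mem_L_iff.mp y.2 s
    have hz := mem_L_iff.mp z.2 s
    rw [h, exp_zero] at hy hz
    rw [Submodule.coe_add, ev_add hy hz]
  map_smul' c y := by
    have hy := mem_L_iff.mp y.2 s
    rw [h, exp_zero] at hy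
    rw [Submodule.coe_smul, Algebra.smul_def, ev_mul (s.adicValuation_algebraMap_le_one _) hy,
      ev_algebraMap, RingHom.id_apply, smul_eq_mul]

theorem evLin_apply (D : Divisor k κ) (s : Place k κ) (h : D s = 0) (y : riemannRochSpace D) :
    evLin D s h y = ev s (y : κ) := rfl

/-- Tuples of functions satisfying the gluing conditions. -/
def glueSub (m : Marks W x Sig) (c : Sig → F' ≃ₐ[F] F') (N : ℕ) :
    Submodule k (ι × (F' ≃ₐ[F] F') → κ) where
  carrier := {y | (∀ p, y p ∈ riemannRochSpace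
      (N • H3RR.poleDiv ((W p.1).red (algebraMap F F' x)) : Divisor k κ)) ∧
    ∀ σ g, ev (m.lft σ).2 (y ((m.lft σ).1, g)) = ev (m.rgt σ).2 (y ((m.rgt σ).1, g * c σ))}
  zero_mem' := ⟨fun p => Submodule.zero_mem _, fun σ g => by simp⟩
  add_mem' := by
    rintro y z ⟨hy, hy'⟩ ⟨hz, hz'⟩
    refine ⟨fun p => Submodule.add_mem _ (hy p) (hz p), fun σ g => ?_⟩
    have h1 : ∀ {i : ι} {s : Place k κ}
        (_ : s.adicValuation ((W i).red (algebraMap F F' x)) = 1) (g : F' ≃ₐ[F] F'),
        ev s ((y + z) (i, g)) = ev s (y (i, g)) + ev s (z (i, g)) := fun {i s} hs g => by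
      have := (evLin _ s (smul_poleDiv_eq_zero N hs)).map_add ⟨_, hy (i, g)⟩ ⟨_, hz (i, g)⟩
      exact this
    rw [h1 (m.lft_reg σ), h1 (m.rgt_reg σ), hy', hz']
  smul_mem' := by
    rintro c y ⟨hy, hy'⟩
    refine ⟨fun p => Submodule.smul_mem _ c (hy p), fun σ g => ?_⟩
    have h1 : ∀ {i : ι} {s : Place k κ}
        (_ : s.adicValuation ((W i).red (algebraMap F F' x)) = 1) (g : F' ≃ₐ[F] F'),
        ev s ((c • y) (i, g)) = c • ev s (y (i, g)) := fun {i s} hs g => by
      have := (evLin _ s (smul_poleDiv_eq_zero N hs)).map_smul c ⟨_, hy (i, g)⟩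
      exact this
    rw [h1 (m.lft_reg σ), h1 (m.rgt_reg σ), hy']

theorem mem_glueSub {m : Marks W x Sig} {c : Sig → F' ≃ₐ[F] F'} {N : ℕ}
    {y : ι × (F' ≃ₐ[F] F') → κ} : y ∈ glueSub m c N ↔ (∀ p, y p ∈ riemannRochSpace
      (N • H3RR.poleDiv ((W p.1).red (algebraMap F F' x)) : Divisor k κ)) ∧
    ∀ σ g, ev (m.lft σ).2 (y ((m.lft σ).1, g)) = ev (m.rgt σ).2 (y ((m.rgt σ).1, g * c σ)) :=
  Iff.rfl

/-- The linear map whose kernel is `glueSub`. -/
noncomputable def gapMap (m : Marks W x Sig) (c : Sig → F' ≃ₐ[F] F') (N : ℕ) :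
    (∀ p : ι × (F' ≃ₐ[F] F'), riemannRochSpace
      (N • H3RR.poleDiv ((W p.1).red (algebraMap F F' x)) : Divisor k κ)) →ₗ[k]
      (Sig × (F' ≃ₐ[F] F') → k) :=
  LinearMap.pi fun q =>
    (evLin _ (m.lft q.1).2 (smul_poleDiv_eq_zero N (m.lft_reg q.1))).comp
      (LinearMap.proj (R := k) (φ := fun p : ι × (F' ≃ₐ[F] F') => riemannRochSpace
      (N • H3RR.poleDiv ((W p.1).red (algebraMap F F' x)) : Divisor k κ)) ((m.lft q.1).1, q.2)) -
    (evLin _ (m.rgt q.1).2 (smul_poleDiv_eq_zero N (m.rgt_reg q.1))).comp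
      (LinearMap.proj (R := k) (φ := fun p : ι × (F' ≃ₐ[F] F') => riemannRochSpace
      (N • H3RR.poleDiv ((W p.1).red (algebraMap F F' x)) : Divisor k κ))
      ((m.rgt q.1).1, q.2 * c q.1))

theorem gapMap_apply (m : Marks W x Sig) (c : Sig → F' ≃ₐ[F] F') (N : ℕ)
    (y : ∀ p : ι × (F' ≃ₐ[F] F'), riemannRochSpace
      (N • H3RR.poleDiv ((W p.1).red (algebraMap F F' x)) : Divisor k κ))
    (q : Sig × (F' ≃ₐ[F] F')) : gapMap m c N y q =
      ev (m.lft q.1).2 (y ((m.lft q.1).1, q.2) : κ) -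
      ev (m.rgt q.1).2 (y ((m.rgt q.1).1, q.2 * c q.1) : κ) := rfl

open Classical in
/-- The set of marked places on a component. -/
noncomputable def Marks.places [Fintype Sig] (m : Marks W x Sig) (i : ι) : Finset (Place k κ) :=
  ((Finset.univ.filter fun σ => (m.lft σ).1 = i).image fun σ => (m.lft σ).2) ∪
    ((Finset.univ.filter fun σ => (m.rgt σ).1 = i).image fun σ => (m.rgt σ).2)

theorem Marks.lft_mem_places [Fintype Sig] (m : Marks W x Sig) (σ : Sig) :
    (m.lft σ).2 ∈ m.places (m.lft σ).1 := by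
  classical
  exact Finset.mem_union_left _
    (Finset.mem_image_of_mem _ (Finset.mem_filter.mpr ⟨Finset.mem_univ _, rfl⟩))

theorem Marks.rgt_mem_places [Fintype Sig] (m : Marks W x Sig) (σ : Sig) :
    (m.rgt σ).2 ∈ m.places (m.rgt σ).1 := by
  classical
  exact Finset.mem_union_right _
    (Finset.mem_image_of_mem _ (Finset.mem_filter.mpr ⟨Finset.mem_univ _, rfl⟩))

theorem Marks.reg_of_mem_places [Fintype Sig] (m : Marks W x Sig) {i : ι} {s : Place k κ}
    (hs : s ∈ m.places i) : s.adicValuation ((W i).red (algebraMap F F' x)) = 1 := by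
  classical
  rcases Finset.mem_union.mp hs with h | h
  · obtain ⟨σ, hσ, rfl⟩ := Finset.mem_image.mp h
    obtain rfl := (Finset.mem_filter.mp hσ).2
    exact m.lft_reg σ
  · obtain ⟨σ, hσ, rfl⟩ := Finset.mem_image.mp h
    obtain rfl := (Finset.mem_filter.mp hσ).2
    exact m.rgt_reg σ

theorem Marks.card_places_le [Fintype Sig] (m : Marks W x Sig) (i : ι) :
    (m.places i).card ≤ 2 * Fintype.card Sig := by
  classical
  refine (Finset.card_union_le _ _).trans ?_
  have h1 := (Finset.card_image_le (s := Finset.univ.filter fun σ => (m.lft σ).1 = i)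
    (f := fun σ => (m.lft σ).2)).trans (Finset.card_filter_le _ _)
  have h2 := (Finset.card_image_le (s := Finset.univ.filter fun σ => (m.rgt σ).1 = i)
    (f := fun σ => (m.rgt σ).2)).trans (Finset.card_filter_le _ _)
  rw [Finset.card_univ] at h1 h2
  omega

theorem exists_tuple [Fintype ι] [Fintype Sig] (H : CovHyp W x) (m : Marks W x Sig) {N : ℕ}
    (hN : 2 * genusFF k κ + 2 * Fintype.card Sig ≤ N)
    (val : ι × (F' ≃ₐ[F] F') → Place k κ → k) :
    ∃ y : ι × (F' ≃ₐ[F] F') → κ, (∀ p, y p ∈ riemannRochSpace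
      (N • H3RR.poleDiv ((W p.1).red (algebraMap F F' x)) : Divisor k κ)) ∧
      ∀ p, ∀ s ∈ m.places p.1, ev s (y p) = val p s := by
  have key : ∀ p : ι × (F' ≃ₐ[F] F'), ∃ y : κ, y ∈ riemannRochSpace
      (N • H3RR.poleDiv ((W p.1).red (algebraMap F F' x)) : Divisor k κ) ∧
      ∀ s ∈ m.places p.1, ev s y = val p s := by
    intro p
    have h1 := H3RR.degree_poleDiv (H.transc p.1)
    have h2 := H3RR.IsFF.finiteDimensional (H.transc p.1)
    have h3 : 1 ≤ finrank k⟮(W p.1).red (algebraMap F F' x)⟯ κ := Module.finrank_pos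
    have h4 := m.card_places_le p.1
    refine exists_values _ (m.places p.1) (fun s hs => smul_poleDiv_eq_zero N
      (m.reg_of_mem_places hs)) ?_ (val p)
    rw [map_nsmul, h1, nsmul_eq_mul]
    have h5 : N ≤ N * finrank k⟮(W p.1).red (algebraMap F F' x)⟯ κ := Nat.le_mul_of_pos_right N h3
    have h6 : 2 * genusFF k κ + (m.places p.1).card ≤
        N * finrank k⟮(W p.1).red (algebraMap F F' x)⟯ κ := by omega
    exact_mod_cast h6
  choose y hy using key
  exact ⟨y, fun p => (hy p).1, fun p => (hy p).2⟩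

theorem gapMap_surjective [Fintype ι] [Fintype Sig] (H : CovHyp W x) (m : Marks W x Sig)
    (c : Sig → F' ≃ₐ[F] F') {N : ℕ}
    (hN : 2 * genusFF k κ + 2 * Fintype.card Sig ≤ N) : Function.Surjective (gapMap m c N) := by
  classical
  intro t
  obtain ⟨y, hy, hval⟩ := exists_tuple H m hN
    (fun p s => if h : ∃ σ, m.lft σ = (p.1, s) then t (h.choose, p.2) else 0)
  refine ⟨fun p => ⟨y p, hy p⟩, ?_⟩
  funext q
  rw [gapMap_apply]
  have h1 : ev (m.lft q.1).2 (y ((m.lft q.1).1, q.2)) = t q := by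
    have h0 := hval ((m.lft q.1).1, q.2) (m.lft q.1).2 (m.lft_mem_places q.1)
    refine h0.trans ?_
    have hex : ∃ σ, m.lft σ = ((m.lft q.1).1, (m.lft q.1).2) := ⟨q.1, rfl⟩
    rw [dif_pos hex]
    have h2 : hex.choose = q.1 := m.lft_inj hex.choose_spec
    rw [h2]
  have h2 : ev (m.rgt q.1).2 (y ((m.rgt q.1).1, q.2 * c q.1)) = 0 := by
    have h0 := hval ((m.rgt q.1).1, q.2 * c q.1) (m.rgt q.1).2 (m.rgt_mem_places q.1)
    refine h0.trans ?_
    rw [dif_neg]
    rintro ⟨σ, hσ⟩
    exact m.lft_ne_rgt σ q.1 hσ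
  exact (congrArg₂ (· - ·) h1 h2).trans (sub_zero _)

theorem finrank_glueSub_le [Fintype ι] [Fintype Sig] [FiniteDimensional F F'] (H : CovHyp W x)
    (m : Marks W x Sig)
    (c : Sig → F' ≃ₐ[F] F') {N : ℕ}
    (hN : 2 * genusFF k κ + 2 * Fintype.card Sig ≤ N) :
    FiniteDimensional k (glueSub m c N) ∧
    finrank k (glueSub m c N) + Fintype.card Sig * Nat.card (F' ≃ₐ[F] F') ≤
      ∑ i, Nat.card (F' ≃ₐ[F] F') * H3RR.ell
        (N • H3RR.poleDiv ((W i).red (algebraMap F F' x)) : Divisor k κ) := by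
  classical
  let φ : glueSub m c N →ₗ[k] (∀ p : ι × (F' ≃ₐ[F] F'), riemannRochSpace
      (N • H3RR.poleDiv ((W p.1).red (algebraMap F F' x)) : Divisor k κ)) :=
    { toFun := fun y p => ⟨y.1 p, y.2.1 p⟩
      map_add' := fun _ _ => rfl
      map_smul' := fun _ _ => rfl }
  have hφ : Function.Injective φ := by
    intro y z h
    apply Subtype.ext
    funext p
    exact congrArg Subtype.val (congrFun h p)
  have hφker : LinearMap.range φ ≤ LinearMap.ker (gapMap m c N) := by
    rintro _ ⟨y, rfl⟩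
    rw [LinearMap.mem_ker]
    funext q
    rw [gapMap_apply, Pi.zero_apply, sub_eq_zero]
    exact y.2.2 q.1 q.2
  have hfd : FiniteDimensional k (glueSub m c N) := FiniteDimensional.of_injective φ hφ
  refine ⟨hfd, ?_⟩
  have h1 : finrank k (glueSub m c N) ≤ finrank k (LinearMap.ker (gapMap m c N)) := by
    rw [← LinearMap.finrank_range_of_inj hφ]
    exact Submodule.finrank_mono hφker
  have h2 := LinearMap.finrank_range_add_finrank_ker (gapMap m c N)
  rw [LinearMap.range_eq_top.mpr (gapMap_surjective H m c hN), finrank_top,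
    Module.finrank_fintype_fun_eq_card, Fintype.card_prod, Module.finrank_pi_fintype,
    Fintype.sum_prod_type] at h2
  dsimp only at h2
  have h3 : ∑ i : ι, Nat.card (F' ≃ₐ[F] F') * H3RR.ell
        (N • H3RR.poleDiv ((W i).red (algebraMap F F' x)) : Divisor k κ) =
      ∑ i : ι, ∑ _g : F' ≃ₐ[F] F', finrank k (riemannRochSpace
        (N • H3RR.poleDiv ((W i).red (algebraMap F F' x)) : Divisor k κ)) := by
    refine Finset.sum_congr rfl fun i _ => ?_
    rw [Finset.sum_const, Finset.card_univ, smul_eq_mul, Nat.card_eq_fintype_card]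
    rfl
  rw [h3, Nat.card_eq_fintype_card]
  omega

end Marks

end Fermat.Agent.H84
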