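import Mathlib
import Fermat.Agent.H84Glue

/-!
# Reductions on the cover are the glued tuples; uniqueness and generation of the gluing elements
-/

set_option autoImplicit false

open AlgebraicCurve WithZero Polynomial IntermediateField Module

namespace Fermat.Agent.H84

variable {K k : Type*} [Field K] [Field k] {A : ValuationSubring K} {π : A →+* k}
  {F F' κ : Type*} [Field F] [Algebra K F] [Field F'] [Algebra K F'] [Field κ] [Algebra k κ]
  [Algebra F F'] [IsScalarTower K F F'] {ι : Type*}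
  {W : ι → Comp A π F' κ} {x : F} {Sig : Type*}
  [IsAlgClosed K] [H3RR.IsFF K F'] [IsAlgClosed k] [H3RR.IsFF k κ]

variable [Fintype ι]

/-- The gluing condition for the family `c`. -/
def GluedBy (m : Marks W x Sig) (c : Sig → F' ≃ₐ[F] F') : Prop :=
  ∀ σ, ∀ φ ∈ regRing W x,
    ev (m.lft σ).2 ((W (m.lft σ).1).red φ) = ev (m.rgt σ).2 ((W (m.rgt σ).1).red ((c σ)⁻¹ φ))

theorem mem_regRing_inv {φ : F'} : φ ∈ regRing W x⁻¹ ↔ φ ∈ regRing W x := by
  rw [mem_regRing, mem_regRing, map_inv₀, regOff_inv]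

theorem GluedBy.inv {m : Marks W x Sig} {c : Sig → F' ≃ₐ[F] F'} (h : GluedBy m c) :
    GluedBy m.inv c := fun σ φ hφ => h σ φ (mem_regRing_inv.mp hφ)

theorem mem_regRing_of_mem_L (hx0 : algebraMap F F' x ≠ 0) {N : ℕ} {φ : F'}
    (hB : φ ∈ B (trans (F := F) W))
    (h : φ ∈ riemannRochSpace (N • H3RR.poleDiv (algebraMap F F' x) : Divisor K F')) :
    φ ∈ regRing W x :=
  ⟨hB, fun v hv => ((mem_L_poleDiv_iff hx0 N).mp h).1 v hv.le⟩

variable [Fintype Sig] [FiniteDimensional F F'] [IsGalois F F'] [Nonempty ι]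
  {n : ℕ} {b : Fin n → F'}

theorem CovHyp.sum_le (H : CovHyp W x) (hπ : Function.Surjective π) :
    Nat.card (F' ≃ₐ[F] F') * ∑ i, finrank k⟮(W i).red (algebraMap F F' x)⟯ κ ≤
      finrank K⟮algebraMap F F' x⟯ F' := by
  classical
  have hxK := transcendental_of_resTrans H.resTrans
  have hfin := H3RR.IsFF.finiteDimensional hxK
  have hfin' : ∀ p : ι × (F' ≃ₐ[F] F'),
      FiniteDimensional k⟮(W p.1).red (algebraMap F F' x)⟯ κ := fun p =>
    H3RR.IsFF.finiteDimensional (H.transc p.1)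
  have h1 := sum_finrank_le (trans (F := F) W) (algebraMap F F' x)
    (AlgHom.id k κ) (fun p => (W p.1).red (algebraMap F F' x)) hπ (H.incomparable hπ)
    H.resTrans (fun p => by
      rw [trans_red, AlgEquiv.commutes]
      rfl) (fun p t => by
      obtain ⟨f, hf, hft⟩ := H.surj p.1 t
      refine ⟨p.2 f, ?_, ?_⟩
      · rw [mem_trans, ← AlgEquiv.mul_apply, inv_mul_cancel, AlgEquiv.one_apply]
        exact hf
      · rw [trans_red, ← AlgEquiv.mul_apply, inv_mul_cancel, AlgEquiv.one_apply, hft]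
        rfl)
  rw [Fintype.sum_prod_type] at h1
  refine le_trans (le_of_eq ?_) h1
  have h2 : ∀ i : ι, ∑ _g : F' ≃ₐ[F] F', finrank k⟮(W i).red (algebraMap F F' x)⟯ κ =
      Nat.card (F' ≃ₐ[F] F') * finrank k⟮(W i).red (algebraMap F F' x)⟯ κ := fun i => by
    rw [Finset.sum_const, Finset.card_univ, smul_eq_mul, Nat.card_eq_fintype_card]
  rw [Finset.mul_sum]
  exact Finset.sum_congr rfl fun i _ => (h2 i).symm

/-- **Counting theorem**: the reductions of `L(N (x)_∞)` are exactly the glued tuples. -/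
theorem redSub_eq_glueSub (hπ : Function.Surjective π) (H : CovHyp W x)
    (hb : IsFrame (trans (F := F) W) (algebraMap F F' x) b) (m : Marks W x Sig)
    {c : Sig → F' ≃ₐ[F] F'} (hc : GluedBy m c)
    (hgen : genusFF K F' + Fintype.card ι * Nat.card (F' ≃ₐ[F] F') ≤
      1 + Nat.card (F' ≃ₐ[F] F') * Fintype.card Sig +
        Fintype.card ι * Nat.card (F' ≃ₐ[F] F') * genusFF k κ) {N : ℕ}
    (hN : 2 * genusFF K F' + 2 * genusFF k κ + 2 * Fintype.card Sig ≤ N) :
    redSub (trans (F := F) W) hπ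
      (riemannRochSpace (N • H3RR.poleDiv (algebraMap F F' x) : Divisor K F')) =
      glueSub m c N := by
  classical
  have hx0 : algebraMap F F' x ≠ 0 := ResTrans.ne_zero H.resTrans
  have hxK := transcendental_of_resTrans H.resTrans
  have hfin := H3RR.IsFF.finiteDimensional hxK
  have hfin' : ∀ i, FiniteDimensional k⟮(W i).red (algebraMap F F' x)⟯ κ := fun i =>
    H3RR.IsFF.finiteDimensional (H.transc i)
  obtain ⟨hfd, hcount⟩ := finrank_glueSub_le H m c (N := N) (by omega)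
  have hle : redSub (trans (F := F) W) hπ
      (riemannRochSpace (N • H3RR.poleDiv (algebraMap F F' x) : Divisor K F')) ≤
      glueSub m c N := by
    rintro t ⟨f, hfL, hfB, hft⟩
    have hreg := mem_regRing_of_mem_L hx0 hfB hfL
    rw [mem_glueSub]
    refine ⟨fun p => ?_, fun σ g => ?_⟩
    · have h1 := hb.red_mem_L hπ H.resTrans hfB hfL p
      rw [hft] at h1
      have h2 : (trans (F := F) W p).red (algebraMap F F' x) = (W p.1).red (algebraMap F F' x) := by
        rw [trans_red, AlgEquiv.commutes]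
      rwa [h2] at h1
    · rw [← hft, ← hft, trans_red, trans_red]
      have h1 := hc σ (g⁻¹ f) (smul_mem_regRing H hreg g⁻¹)
      dsimp only
      rw [h1, mul_inv_rev, AlgEquiv.mul_apply]
  refine Submodule.eq_of_le_of_finrank_le hle ?_
  rw [hb.finrank_redSub hπ H.resTrans]
  have h1 : (H3RR.ell (N • H3RR.poleDiv (algebraMap F F' x) : Divisor K F') : ℤ) =
      N * finrank K⟮algebraMap F F' x⟯ F' + 1 - genusFF K F' := by
    have hdeg : Divisor.degree (N • H3RR.poleDiv (algebraMap F F' x) : Divisor K F') =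
        N * finrank K⟮algebraMap F F' x⟯ F' := by
      rw [map_nsmul, H3RR.degree_poleDiv hxK, nsmul_eq_mul]
    have h3 : 1 ≤ finrank K⟮algebraMap F F' x⟯ F' := Module.finrank_pos
    have h5 : N ≤ N * finrank K⟮algebraMap F F' x⟯ F' := Nat.le_mul_of_pos_right N h3
    have h6 : (N : ℤ) ≤ N * finrank K⟮algebraMap F F' x⟯ F' := by exact_mod_cast h5
    rw [H3RR.ell_of_degree_gt (by rw [hdeg]; omega), hdeg]
  have h2 : ∀ i, (H3RR.ell (N • H3RR.poleDiv ((W i).red (algebraMap F F' x)) : Divisor k κ) : ℤ) =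
      N * finrank k⟮(W i).red (algebraMap F F' x)⟯ κ + 1 - genusFF k κ := by
    intro i
    have hdeg : Divisor.degree (N • H3RR.poleDiv ((W i).red (algebraMap F F' x)) : Divisor k κ) =
        N * finrank k⟮(W i).red (algebraMap F F' x)⟯ κ := by
      rw [map_nsmul, H3RR.degree_poleDiv (H.transc i), nsmul_eq_mul]
    have h3 : 1 ≤ finrank k⟮(W i).red (algebraMap F F' x)⟯ κ := Module.finrank_pos
    have h5 : N ≤ N * finrank k⟮(W i).red (algebraMap F F' x)⟯ κ := Nat.le_mul_of_pos_right N h3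
    have h6 : (N : ℤ) ≤ N * finrank k⟮(W i).red (algebraMap F F' x)⟯ κ := by exact_mod_cast h5
    rw [H3RR.ell_of_degree_gt (by rw [hdeg]; omega), hdeg]
  have h3 : ((∑ i, Nat.card (F' ≃ₐ[F] F') * H3RR.ell
      (N • H3RR.poleDiv ((W i).red (algebraMap F F' x)) : Divisor k κ) : ℕ) : ℤ) =
      N * ((Nat.card (F' ≃ₐ[F] F') *
        ∑ i, finrank k⟮(W i).red (algebraMap F F' x)⟯ κ : ℕ) : ℤ) +
      Fintype.card ι * Nat.card (F' ≃ₐ[F] F') * (1 - genusFF k κ) := by
    push_cast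
    simp only [h2]
    rw [Finset.mul_sum, Finset.mul_sum, Fintype.card, Finset.card_eq_sum_ones]
    push_cast
    rw [Finset.sum_mul, Finset.sum_mul, ← Finset.sum_add_distrib]
    exact Finset.sum_congr rfl fun i _ => by ring
  have h4 := H.sum_le hπ
  have h5 : (N : ℤ) * ((Nat.card (F' ≃ₐ[F] F') *
        ∑ i, finrank k⟮(W i).red (algebraMap F F' x)⟯ κ : ℕ) : ℤ) ≤
      N * finrank K⟮algebraMap F F' x⟯ F' :=
    mul_le_mul_of_nonneg_left (by exact_mod_cast h4) (by positivity)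
  have hcount' : (finrank k (glueSub m c N) : ℤ) +
      Fintype.card Sig * Nat.card (F' ≃ₐ[F] F') ≤
      ((∑ i, Nat.card (F' ≃ₐ[F] F') * H3RR.ell
        (N • H3RR.poleDiv ((W i).red (algebraMap F F' x)) : Divisor k κ) : ℕ) : ℤ) := by
    exact_mod_cast hcount
  have hgen' : (genusFF K F' : ℤ) + Fintype.card ι * Nat.card (F' ≃ₐ[F] F') ≤
      1 + Nat.card (F' ≃ₐ[F] F') * Fintype.card Sig +
        Fintype.card ι * Nat.card (F' ≃ₐ[F] F') * genusFF k κ := by exact_mod_cast hgen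
  have h6 : (finrank k (glueSub m c N) : ℤ) ≤
      H3RR.ell (N • H3RR.poleDiv (algebraMap F F' x) : Divisor K F') := by
    rw [h1]
    rw [h3] at hcount'
    have h7 : (Fintype.card Sig : ℤ) * Nat.card (F' ≃ₐ[F] F') =
      Nat.card (F' ≃ₐ[F] F') * Fintype.card Sig := mul_comm _ _
    have h8 : (Fintype.card ι : ℤ) * Nat.card (F' ≃ₐ[F] F') * (1 - genusFF k κ) =
      Fintype.card ι * Nat.card (F' ≃ₐ[F] F') -
        Fintype.card ι * Nat.card (F' ≃ₐ[F] F') * genusFF k κ := by ring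
    rw [h7, h8] at hcount'
    linarith
  exact_mod_cast h6

omit [Fintype Sig] in
theorem exists_gluedBy [H3RR.IsFF K F] (hπ : Function.Surjective π) (H : CovHyp W x)
    (hb : IsFrame (trans (F := F) W) (algebraMap F F' x) b) (m : Marks W x Sig)
    (hglue : ∀ σ, ∀ φ : F, (∀ l, algebraMap F F' φ ∈ (W l).V) → RegOff K x φ →
      ev (m.lft σ).2 ((W (m.lft σ).1).red (algebraMap F F' φ)) =
        ev (m.rgt σ).2 ((W (m.rgt σ).1).red (algebraMap F F' φ))) :
    ∃ c : Sig → F' ≃ₐ[F] F', GluedBy m c := by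
  choose c hc using fun σ => exists_glue hπ H hb (m.lft σ).1 (m.rgt σ).1 (m.lft_reg σ)
    (m.rgt_reg σ) (hglue σ)
  exact ⟨c, hc⟩

/-- Uniqueness of the gluing elements. -/
theorem GluedBy.unique (hπ : Function.Surjective π) (H : CovHyp W x)
    (hb : IsFrame (trans (F := F) W) (algebraMap F F' x) b) (m : Marks W x Sig)
    {c : Sig → F' ≃ₐ[F] F'} (hc : GluedBy m c)
    (hgen : genusFF K F' + Fintype.card ι * Nat.card (F' ≃ₐ[F] F') ≤
      1 + Nat.card (F' ≃ₐ[F] F') * Fintype.card Sig +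
        Fintype.card ι * Nat.card (F' ≃ₐ[F] F') * genusFF k κ) {σ : Sig} {d : F' ≃ₐ[F] F'}
    (hd : ∀ φ ∈ B (trans (F := F) W),
      (∀ v : Place K F', v.adicValuation (algebraMap F F' x) ≤ 1 → v.adicValuation φ ≤ 1) →
      ev (m.lft σ).2 ((W (m.lft σ).1).red φ) = ev (m.rgt σ).2 ((W (m.rgt σ).1).red (d⁻¹ φ))) :
    d = c σ := by
  classical
  by_contra hne
  have hx0 : algebraMap F F' x ≠ 0 := ResTrans.ne_zero H.resTrans
  set N := 2 * genusFF K F' + 2 * genusFF k κ + 2 * Fintype.card Sig with hN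
  obtain ⟨y, hy, hval⟩ := exists_tuple H m (N := N) (by omega)
    (fun p s => if (p.1, s) = m.lft σ ∧ p.2 = 1 ∨ (p.1, s) = m.rgt σ ∧ p.2 = c σ then 1 else 0)
  have hylft : ∀ τ g, ev (m.lft τ).2 (y ((m.lft τ).1, g)) = if τ = σ ∧ g = 1 then 1 else 0 := by
    intro τ g
    refine (hval ((m.lft τ).1, g) (m.lft τ).2 (m.lft_mem_places τ)).trans ?_
    have h1 : (((m.lft τ).1, g).1, (m.lft τ).2) = m.lft τ := rfl
    simp only [h1, (m.lft_ne_rgt τ σ), false_and, or_false]
    by_cases hτ : τ = σ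
    · simp [hτ]
    · have h2 : m.lft τ ≠ m.lft σ := fun h => hτ (m.lft_inj h)
      simp [hτ, h2]
  have hyrgt : ∀ τ g, ev (m.rgt τ).2 (y ((m.rgt τ).1, g)) = if τ = σ ∧ g = c σ then 1 else 0 := by
    intro τ g
    refine (hval ((m.rgt τ).1, g) (m.rgt τ).2 (m.rgt_mem_places τ)).trans ?_
    have h1 : (((m.rgt τ).1, g).1, (m.rgt τ).2) = m.rgt τ := rfl
    simp only [h1, (m.lft_ne_rgt σ τ).symm, false_and, false_or]
    by_cases hτ : τ = σ
    · simp [hτ]
    · have h2 : m.rgt τ ≠ m.rgt σ := fun h => hτ (m.rgt_inj h)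
      simp [hτ, h2]
  have hyg : y ∈ glueSub m c N := by
    rw [mem_glueSub]
    refine ⟨hy, fun τ g => ?_⟩
    rw [hylft, hyrgt]
    by_cases hτ : τ = σ
    · subst hτ
      simp
    · simp [hτ]
  rw [← redSub_eq_glueSub hπ H hb m hc hgen le_rfl] at hyg
  obtain ⟨φ, hφL, hφB, hφy⟩ := hyg
  have h1 := hd φ hφB ((mem_L_poleDiv_iff hx0 N).mp hφL).1
  have h2 := hφy ((m.lft σ).1, 1)
  have h3 := hφy ((m.rgt σ).1, d)
  rw [trans_red] at h2 h3
  rw [inv_one, AlgEquiv.one_apply] at h2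
  dsimp only at h2 h3
  rw [h2, h3, hylft, hyrgt] at h1
  simp [hne] at h1

/-- Glued families of constants on the cover are constant. -/
theorem GluedBy.const (hπ : Function.Surjective π) (arch : Arch A π) (H : CovHyp W x)
    (hb : IsFrame (trans (F := F) W) (algebraMap F F' x) b) (m : Marks W x Sig)
    {c : Sig → F' ≃ₐ[F] F'} (hc : GluedBy m c)
    (hgen : genusFF K F' + Fintype.card ι * Nat.card (F' ≃ₐ[F] F') ≤
      1 + Nat.card (F' ≃ₐ[F] F') * Fintype.card Sig +
        Fintype.card ι * Nat.card (F' ≃ₐ[F] F') * genusFF k κ)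
    (t : ι × (F' ≃ₐ[F] F') → k)
    (ht : ∀ σ g, t ((m.lft σ).1, g) = t ((m.rgt σ).1, g * c σ)) (p q : ι × (F' ≃ₐ[F] F')) :
    t p = t q := by
  classical
  have hx0 : algebraMap F F' x ≠ 0 := ResTrans.ne_zero H.resTrans
  set N := 2 * genusFF K F' + 2 * genusFF k κ + 2 * Fintype.card Sig with hN
  have key : ∀ {x : F} (H : CovHyp W x)
      (hb : IsFrame (trans (F := F) W) (algebraMap F F' x) b) (m : Marks W x Sig)
      (hc : GluedBy m c) (ht : ∀ σ g, t ((m.lft σ).1, g) = t ((m.rgt σ).1, g * c σ)),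
      ∃ e : F', e ∈ B (trans (F := F) W) ∧
        (∀ v : Place K F', v.adicValuation (algebraMap F F' x) ≤ 1 → v.adicValuation e ≤ 1) ∧
        ∀ p, (trans (F := F) W p).red e = algebraMap k κ (t p) := by
    intro x H hb m hc ht
    have hx0 : algebraMap F F' x ≠ 0 := ResTrans.ne_zero H.resTrans
    have hmem : (fun p => algebraMap k κ (t p)) ∈ glueSub m c N := by
      rw [mem_glueSub]
      refine ⟨fun p => ?_, fun σ g => ?_⟩
      · rw [mem_L_iff]
        intro v
        refine (v.adicValuation_algebraMap_le_one _).trans ?_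
        rw [← exp_zero, exp_le_exp, Finsupp.smul_apply]
        have h0 : 0 ≤ (H3RR.poleDiv ((W p.1).red (algebraMap F F' x)) : Divisor k κ) v :=
          Finsupp.le_def.mp (H3RR.poleDiv_nonneg _) v
        exact nsmul_nonneg h0 N
      · simp only [ev_algebraMap]
        exact ht σ g
    rw [← redSub_eq_glueSub hπ H hb m hc hgen le_rfl] at hmem
    obtain ⟨e, heL, heB, her⟩ := hmem
    exact ⟨e, heB, ((mem_L_poleDiv_iff hx0 N).mp heL).1, her⟩
  obtain ⟨e, he, hereg, hered⟩ := key H hb m hc ht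
  obtain ⟨e', he', he'reg, he'red⟩ := key H.inv (by
    rw [map_inv₀]
    exact hb.inv H.resTrans) m.inv hc.inv ht
  rw [map_inv₀] at he'reg
  have hW : Wit (trans (F := F) W) (algebraMap F F' x) t e e' :=
    ⟨he, he', hereg, he'reg, hered, he'red⟩
  exact hb.const_of_glued hπ arch H.resTrans ((mem_gluedAlg hπ).mpr ⟨e, e', hW⟩) p q

end Fermat.Agent.H84
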