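import Mathlib
import Fermat.Agent.H84Glue2

/-!
# Generation by gluing elements; inertia centralises the Galois group
-/

set_option autoImplicit false

open AlgebraicCurve WithZero Polynomial IntermediateField Module

namespace Fermat.Agent.H84

variable {K k : Type*} [Field K] [Field k] {A : ValuationSubring K} {π : A →+* k}
  {F F' κ : Type*} [Field F] [Algebra K F] [Field F'] [Algebra K F'] [Field κ] [Algebra k κ]
  [Algebra F F'] [IsScalarTower K F F']
  {x : F} {Sig : Type*}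
  [IsAlgClosed K] [H3RR.IsFF K F'] [IsAlgClosed k] [H3RR.IsFF k κ]
  [Fintype Sig] [FiniteDimensional F F'] [IsGalois F F'] {n : ℕ} {b : Fin n → F'}

/-- One component, no marked points: the group is trivial. -/
theorem GluedBy.eq_one {ι : Type*} [Fintype ι] [Nonempty ι] {W : ι → Comp A π F' κ}
    (hπ : Function.Surjective π) (arch : Arch A π) (H : CovHyp W x)
    (hb : IsFrame (trans (F := F) W) (algebraMap F F' x) b) (m : Marks W x Sig) [IsEmpty Sig]
    {c : Sig → F' ≃ₐ[F] F'} (hc : GluedBy m c)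
    (hgen : genusFF K F' + Fintype.card ι * Nat.card (F' ≃ₐ[F] F') ≤
      1 + Nat.card (F' ≃ₐ[F] F') * Fintype.card Sig +
        Fintype.card ι * Nat.card (F' ≃ₐ[F] F') * genusFF k κ) (g : F' ≃ₐ[F] F') : g = 1 := by
  classical
  obtain ⟨i⟩ := (inferInstance : Nonempty ι)
  have h1 := GluedBy.const hπ arch H hb m hc hgen (fun p => if p.2 = g then (1 : k) else 0)
    (fun σ => isEmptyElim σ) (i, g) (i, 1)
  dsimp only at h1
  rw [if_pos rfl] at h1
  by_contra hne
  rw [if_neg (Ne.symm hne)] at h1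
  exact one_ne_zero h1

variable {W : Bool → Comp A π F' κ}

/-- Two components: the quotients of the gluing elements generate the group. -/
theorem GluedBy.closure_eq_top (hπ : Function.Surjective π) (arch : Arch A π) (H : CovHyp W x)
    (hb : IsFrame (trans (F := F) W) (algebraMap F F' x) b) (m : Marks W x Sig)
    {c : Sig → F' ≃ₐ[F] F'} (hc : GluedBy m c) (hl : ∀ σ, (m.lft σ).1 = false)
    (hr : ∀ σ, (m.rgt σ).1 = true)
    (hgen : genusFF K F' + Fintype.card Bool * Nat.card (F' ≃ₐ[F] F') ≤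
      1 + Nat.card (F' ≃ₐ[F] F') * Fintype.card Sig +
        Fintype.card Bool * Nat.card (F' ≃ₐ[F] F') * genusFF k κ) :
    Subgroup.closure {g | ∃ σ τ : Sig, g = c σ * (c τ)⁻¹} = ⊤ := by
  classical
  rcases isEmpty_or_nonempty Sig with hS | ⟨⟨σ₀⟩⟩
  · have h1 := GluedBy.const hπ arch H hb m hc hgen (fun p => if p.1 = true then (1 : k) else 0)
      (fun σ => isEmptyElim σ) (true, 1) (false, 1)
    simp at h1
  · set H₀ := Subgroup.closure {g | ∃ σ τ : Sig, g = c σ * (c τ)⁻¹} with hH₀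
    rw [eq_top_iff]
    intro g _
    let t : Bool × (F' ≃ₐ[F] F') → k := fun p =>
      if p.1 = true then (if p.2 * (c σ₀)⁻¹ ∈ H₀ then (1 : k) else 0)
      else (if p.2 ∈ H₀ then 1 else 0)
    have h1 := GluedBy.const hπ arch H hb m hc hgen t (fun σ g => by
      have h2 : g * c σ * (c σ₀)⁻¹ ∈ H₀ ↔ g ∈ H₀ := by
        rw [mul_assoc]
        exact Subgroup.mul_mem_cancel_right _ (Subgroup.subset_closure ⟨σ, σ₀, rfl⟩)
      simp only [t, hl, hr, if_true, h2]
      simp) (false, g) (false, 1)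
    by_contra hg
    simp [t, hg, H₀.one_mem] at h1

theorem isIntegral_adjoin_map {K F' : Type*} [Field K] [Field F'] [Algebra K F'] {x f : F'}
    (τ : F' →+* F') (τ₀ : K → K) (hτ₀ : ∀ c, τ (algebraMap K F' c) = algebraMap K F' (τ₀ c))
    (h : IsIntegral (Algebra.adjoin K {x}) f) :
    IsIntegral (Algebra.adjoin K {τ x}) (τ f) := by
  obtain ⟨p, hp, h⟩ := h
  have hmem : ∀ a : Algebra.adjoin K {x}, τ (a : F') ∈ Algebra.adjoin K {τ x} := by
    intro a
    obtain ⟨r, hr⟩ := (Algebra.adjoin_singleton_eq_range_aeval K _).le a.2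
    have hr' : aeval x r = (a : F') := hr
    rw [← hr', aeval_eq_sum_range, map_sum]
    refine Subalgebra.sum_mem _ fun i _ => ?_
    rw [Algebra.smul_def, map_mul, map_pow, hτ₀]
    exact Subalgebra.mul_mem _ (Subalgebra.algebraMap_mem _ _)
      (Subalgebra.pow_mem _ (Algebra.self_mem_adjoin_singleton K _) _)
  let φ : Algebra.adjoin K {x} →+* Algebra.adjoin K {τ x} :=
    (τ.comp (Algebra.adjoin K {x}).subtype).codRestrict
      (Algebra.adjoin K {τ x}).toSubring (fun a => hmem a)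
  refine ⟨p.map φ, hp.map φ, ?_⟩
  rw [eval₂_map]
  have h1 : (algebraMap (Algebra.adjoin K {τ x}) F').comp φ =
      τ.comp (algebraMap (Algebra.adjoin K {x}) F') := rfl
  rw [h1, ← hom_eval₂, h, map_zero]

/-- **Inertia centralises**: a semilinear automorphism of the cover which preserves both
components up to the Galois group and acts trivially on the residue fields commutes with the
Galois group. -/
theorem GluedBy.centralises (hπ : Function.Surjective π) (arch : Arch A π) (H : CovHyp W x)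
    (hb : IsFrame (trans (F := F) W) (algebraMap F F' x) b) (m : Marks W x Sig)
    {c : Sig → F' ≃ₐ[F] F'} (hc : GluedBy m c) (hl : ∀ σ, (m.lft σ).1 = false)
    (hr : ∀ σ, (m.rgt σ).1 = true)
    (hgen : genusFF K F' + Fintype.card Bool * Nat.card (F' ≃ₐ[F] F') ≤
      1 + Nat.card (F' ≃ₐ[F] F') * Fintype.card Sig +
        Fintype.card Bool * Nat.card (F' ≃ₐ[F] F') * genusFF k κ)
    (τ : F' →+* F') (τ₀ : K → K) (hτ₀ : ∀ c, τ (algebraMap K F' c) = algebraMap K F' (τ₀ c))
    (hτx : IsIntegral (Algebra.adjoin K {algebraMap F F' x}) (τ (algebraMap F F' x)))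
    (hτG : ∀ g : F' ≃ₐ[F] F', ∃ g' : F' ≃ₐ[F] F', ∀ φ, g (τ φ) = τ (g' φ))
    (d : F' ≃ₐ[F] F')
    (h₁ : ∀ φ ∈ (W false).V, τ φ ∈ (W false).V ∧ (W false).red (τ φ) = (W false).red φ)
    (h₂ : ∀ φ ∈ (W true).V, d⁻¹ (τ φ) ∈ (W true).V ∧
      (W true).red (d⁻¹ (τ φ)) = (W true).red φ) (g : F' ≃ₐ[F] F') (φ : F') :
    τ (g φ) = g (τ φ) := by
  classical
  choose e he using hτG
  -- `τ` preserves the integral functions
  have hmemB : ∀ φ ∈ B (trans (F := F) W), τ φ ∈ B (trans (F := F) W) := by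
    intro φ hφ
    rw [mem_B_trans] at hφ ⊢
    intro i g
    cases i
    · rw [he]
      exact (h₁ _ (hφ false _)).1
    · have h3 : g (τ φ) = d⁻¹ ((d * g) (τ φ)) := by
        rw [← AlgEquiv.mul_apply, inv_mul_cancel_left]
      rw [h3, he]
      exact (h₂ _ (hφ true _)).1
  have hreg : ∀ φ : F', (∀ v : Place K F', v.adicValuation (algebraMap F F' x) ≤ 1 →
      v.adicValuation φ ≤ 1) → ∀ v : Place K F', v.adicValuation (algebraMap F F' x) ≤ 1 →
      v.adicValuation (τ φ) ≤ 1 := by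
    intro φ hφ v hv
    have h3 := le_one_of_isIntegral v hv hτx
    exact le_one_of_isIntegral v h3
      (isIntegral_adjoin_map τ τ₀ hτ₀ (isIntegral_of_forall_le_one hφ))
  -- the key identity
  have key : ∀ σ φ, d ((c σ)⁻¹ (τ φ)) = τ ((c σ)⁻¹ φ) := by
    intro σ φ
    have h3 : (e (d * (c σ)⁻¹))⁻¹ = c σ := by
      refine GluedBy.unique hπ H hb m hc hgen (σ := σ) (d := (e (d * (c σ)⁻¹))⁻¹) ?_
      intro ψ hψ hψreg
      have hψ' := hmemB ψ hψ
      have h4 := hc σ (τ ψ) ⟨hψ', fun v hv => hreg ψ hψreg v hv.le⟩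
      rw [hl, hr] at h4 ⊢
      have h5 := mem_B_trans.mp hψ
      have h6 : (W false).red (τ ψ) = (W false).red ψ := (h₁ ψ (by
        have := h5 false 1
        rwa [AlgEquiv.one_apply] at this)).2
      have h7 : (c σ)⁻¹ (τ ψ) = d⁻¹ (τ (e (d * (c σ)⁻¹) ψ)) := by
        rw [← he, ← AlgEquiv.mul_apply, inv_mul_cancel_left]
      rw [h6, h7, (h₂ _ (h5 true _)).2] at h4
      rw [inv_inv]
      exact h4
    have h4 : e (d * (c σ)⁻¹) = (c σ)⁻¹ := inv_eq_iff_eq_inv.mp h3
    have h5 := he (d * (c σ)⁻¹) φ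
    rw [h4, AlgEquiv.mul_apply] at h5
    exact h5
  -- the generators
  let Z : Subgroup (F' ≃ₐ[F] F') :=
    { carrier := {g | ∀ φ, τ (g φ) = g (τ φ)}
      one_mem' := fun φ => rfl
      mul_mem' := by
        intro a b ha hb φ
        rw [AlgEquiv.mul_apply, ha, hb, AlgEquiv.mul_apply]
      inv_mem' := by
        intro a ha φ
        have h3 := ha (a⁻¹ φ)
        rw [← AlgEquiv.mul_apply, mul_inv_cancel, AlgEquiv.one_apply] at h3
        rw [h3, ← AlgEquiv.mul_apply, inv_mul_cancel, AlgEquiv.one_apply] }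
  have hZ : Subgroup.closure {g | ∃ σ τ : Sig, g = c σ * (c τ)⁻¹} ≤ Z := by
    rw [Subgroup.closure_le]
    rintro _ ⟨σ, σ', rfl⟩ φ
    have h3 : ∀ ψ, τ (c σ ψ) = c σ (d⁻¹ (τ ψ)) := by
      intro ψ
      have h4 := key σ (c σ ψ)
      rw [← AlgEquiv.mul_apply (c σ)⁻¹ (c σ), inv_mul_cancel, AlgEquiv.one_apply] at h4
      rw [← h4, ← AlgEquiv.mul_apply d⁻¹ d, inv_mul_cancel, AlgEquiv.one_apply,
        ← AlgEquiv.mul_apply (c σ), mul_inv_cancel, AlgEquiv.one_apply]
    rw [AlgEquiv.mul_apply, h3, ← key, ← AlgEquiv.mul_apply d⁻¹ d, inv_mul_cancel,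
      AlgEquiv.one_apply, AlgEquiv.mul_apply]
  rw [GluedBy.closure_eq_top hπ arch H hb m hc hl hr hgen] at hZ
  exact hZ (Subgroup.mem_top g) φ

end Fermat.Agent.H84
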