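import Mathlib
import Fermat.Agent.H84Ext
import Fermat.Agent.H84Iner

/-!
# Transitivity of the Galois group on components; central lifts of inertia
-/

set_option autoImplicit false

open AlgebraicCurve WithZero Polynomial IntermediateField Module

namespace Fermat.Agent.H84

variable {K k : Type*} [Field K] [Field k] {A : ValuationSubring K} {π : A →+* k}
  {F F' κ : Type*} [Field F] [Algebra K F] [Field F'] [Algebra K F'] [Field κ] [Algebra k κ]
  [Algebra F F'] [IsScalarTower K F F']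

/-- Two components with the same valuation ring have the same kernel of reduction. -/
theorem Comp.red_eq_zero_congr {C D : Comp A π F κ} (h : C.V = D.V) {f : F} :
    C.red f = 0 ↔ D.red f = 0 := by
  rw [← not_iff_not]
  change C.red f ≠ 0 ↔ D.red f ≠ 0
  rw [C.red_ne_zero_iff_valuation, D.red_ne_zero_iff_valuation, h]

/-- **Transitivity** of the Galois group on the components over a given one. -/
theorem exists_translate_eq {ι : Type*} [Fintype ι] {W : ι → Comp A π F' κ} {x : F}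
    [IsAlgClosed K] [IsAlgClosed k] [H3RR.IsFF K F'] [H3RR.IsFF k κ] [FiniteDimensional F F']
    [IsGalois F F'] (hπ : Function.Surjective π) (H : CovHyp W x) {C : ι → Comp A π F κ}
    (hOK : OverK W C) (hC : ∀ i t, t ∈ (C i).image) (i : ι) (D : Comp A π F' κ)
    (hDm : ∀ f : F, algebraMap F F' f ∈ D.V ↔ f ∈ (C i).V)
    (hDr : ∀ f : F, D.red (algebraMap F F' f) = (C i).red f) :
    ∃ g : F' ≃ₐ[F] F', ∀ φ, (φ ∈ D.V ↔ g φ ∈ (W i).V) ∧ D.red φ = (W i).red (g φ) := by
  classical
  have hne : Nonempty ι := ⟨i⟩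
  have hxK := transcendental_of_resTrans H.resTrans
  have hfin := H3RR.IsFF.finiteDimensional hxK
  have hSp : ∀ p, (trans (F := F) W p).Scalable := fun p =>
    (trans W p).scalable hxK (H.resTrans p).1 (H.resTrans p).2
  have hDx : algebraMap F F' x ∈ D.V := by
    rw [hDm, ← hOK.mem]
    exact H.mem i
  have hDt : Transcendental k (D.red (algebraMap F F' x)) := by
    rw [hDr, ← hOK.red]
    exact H.transc i
  have hSD : D.Scalable := D.scalable hxK hDx hDt
  -- the valuation rings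
  obtain ⟨g, hg⟩ : ∃ g : F' ≃ₐ[F] F', D.V = (trans W (i, g)).V := by
    by_contra hcon
    push Not at hcon
    have hcon' : ∀ p, D.V ≠ (trans (F := F) W p).V := by
      rintro ⟨j, g⟩ heq
      by_cases hij : j = i
      · exact hcon g (by rw [heq, hij])
      · obtain ⟨φ, h1, h2⟩ := H.dist j i hij
        have h3 : algebraMap F F' φ ∈ (trans W (j, g)).V := by
          rw [mem_trans, AlgEquiv.commutes]
          exact h1
        rw [← heq, hDm, ← hOK.mem] at h3
        exact h2 h3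
    let E : Option (ι × (F' ≃ₐ[F] F')) → Comp A π F' κ := fun o => o.elim D (trans (F := F) W)
    let x₀ : Option (ι × (F' ≃ₐ[F] F')) → κ := fun o =>
      o.elim ((W i).red (algebraMap F F' x)) (fun p => (W p.1).red (algebraMap F F' x))
    have hfin' : ∀ o, FiniteDimensional k⟮x₀ o⟯ κ := fun o => by
      cases o with
      | none => exact H3RR.IsFF.finiteDimensional (H.transc i)
      | some p => exact H3RR.IsFF.finiteDimensional (H.transc p.1)
    have hE : ResTrans E (algebraMap F F' x) := fun o => by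
      cases o with
      | none => exact ⟨hDx, hDt⟩
      | some p => exact H.resTrans p
    have h1 := sum_finrank_le E (algebraMap F F' x) (AlgHom.id k κ) x₀ hπ (fun o o' hoo => by
      cases o with
      | none => cases o' with
        | none => exact (hoo rfl).elim
        | some p => exact hSD.not_le hπ (hcon' p)
      | some p => cases o' with
        | none => exact (hSp p).not_le hπ (hcon' p).symm
        | some q => exact H.incomparable hπ p q (fun h => hoo (by rw [h]))) hE (fun o => by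
      cases o with
      | none => exact (hOK.red i x).trans (hDr x).symm
      | some p =>
        change (W p.1).red (algebraMap F F' x) = (trans W p).red (algebraMap F F' x)
        rw [trans_red, AlgEquiv.commutes]) (fun o t => by
      cases o with
      | none =>
        obtain ⟨f, hf, hft⟩ := hC i t
        exact ⟨algebraMap F F' f, (hDm f).mpr hf, (hDr f).trans hft⟩
      | some p =>
        obtain ⟨f, hf, hft⟩ := H.surj p.1 t
        refine ⟨p.2 f, ?_, ?_⟩
        · change p.2 f ∈ (trans W p).V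
          rw [mem_trans, ← AlgEquiv.mul_apply, inv_mul_cancel, AlgEquiv.one_apply]
          exact hf
        · change (trans W p).red (p.2 f) = t
          rw [trans_red, ← AlgEquiv.mul_apply, inv_mul_cancel, AlgEquiv.one_apply, hft])
    rw [Fintype.sum_option, Fintype.sum_prod_type, finrank_adjoin_algebraMap,
      ← IsGalois.card_aut_eq_finrank F F', Nat.card_eq_fintype_card] at h1
    have h2 : ∀ i : ι, ∑ _g : F' ≃ₐ[F] F', finrank k⟮(W i).red (algebraMap F F' x)⟯ κ =
        finrank k⟮(W i).red (algebraMap F F' x)⟯ κ * Fintype.card (F' ≃ₐ[F] F') := fun i => by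
      rw [Finset.sum_const, Finset.card_univ, smul_eq_mul, mul_comm]
    have h3 : ∑ j : ι, ∑ g : F' ≃ₐ[F] F', finrank k⟮x₀ (some (j, g))⟯ κ =
        (∑ j, finrank k⟮(W j).red (algebraMap F F' x)⟯ κ) * Fintype.card (F' ≃ₐ[F] F') := by
      rw [Finset.sum_mul]
      exact Finset.sum_congr rfl fun j _ => h2 j
    have h4 : 0 < finrank k⟮x₀ none⟯ κ := Module.finrank_pos
    rw [h3] at h1
    have h5 := Nat.mul_le_mul_right (Fintype.card (F' ≃ₐ[F] F')) H.deg
    omega
  -- the residue maps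
  refine ⟨g⁻¹, fun φ => ⟨by rw [hg]; exact mem_trans, ?_⟩⟩
  by_cases hφ : φ ∈ D.V
  · obtain ⟨f, hf, hft⟩ := hC i (D.red φ)
    have hfD := (hDm f).mpr hf
    have h1 : D.red (φ - algebraMap F F' f) = 0 := by
      rw [D.red_sub hφ hfD, hDr, hft, sub_self]
    rw [Comp.red_eq_zero_congr hg, Comp.red_sub _ (hg ▸ hφ) (hg ▸ hfD), sub_eq_zero, trans_red,
      trans_red, AlgEquiv.commutes, hOK.red, hft] at h1
    exact h1.symm
  · rw [D.red_of_notMem hφ]
    rw [hg, mem_trans] at hφ
    exact ((W i).red_of_notMem hφ).symm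

/-- The pull back of a component along a semilinear ring automorphism acting trivially on the
residue field of `A`. -/
def Comp.pull (C : Comp A π F κ) (τ : F →+* F) (τ₀ : K → K)
    (hτ₀ : ∀ c, τ (algebraMap K F c) = algebraMap K F (τ₀ c)) (hA : ∀ a : A, τ₀ a ∈ A)
    (hπ₀ : ∀ a : A, π ⟨τ₀ a, hA a⟩ = π a) : Comp A π F κ where
  V := C.V.comap τ
  ρ :=
    { toFun := fun v => C.ρ ⟨τ v, v.2⟩
      map_one' := by
        rw [← map_one C.ρ]
        congr 1
        exact Subtype.ext (map_one τ)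
      map_mul' := fun v w => by
        rw [← map_mul C.ρ]
        congr 1
        exact Subtype.ext (map_mul τ _ _)
      map_zero' := by
        rw [← map_zero C.ρ]
        congr 1
        exact Subtype.ext (map_zero τ)
      map_add' := fun v w => by
        rw [← map_add C.ρ]
        congr 1
        exact Subtype.ext (map_add τ _ _) }
  loc := fun v hv => by
    have hv' : C.ρ ⟨τ v, v.2⟩ ≠ 0 := hv
    have h1 : C.red (τ v) ≠ 0 := by
      rw [C.red_of_mem (f := τ v) v.2]
      exact hv'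
    have h2 := C.inv_mem_of_red_ne_zero h1
    have h0 := C.ne_zero_of_red_ne_zero h1
    have hv0 : (v : F) ≠ 0 := fun h => h0 (by rw [h, map_zero])
    refine IsUnit.of_mul_eq_one ⟨(v : F)⁻¹, ?_⟩ (Subtype.ext (mul_inv_cancel₀ hv0))
    change τ (v : F)⁻¹ ∈ C.V
    rwa [map_inv₀]
  mem := fun a => by
    change τ (algebraMap K F a) ∈ C.V
    rw [hτ₀]
    exact C.mem ⟨_, hA a⟩
  ρ_mem := fun a => by
    rw [← hπ₀ a, ← C.ρ_mem]
    change C.ρ _ = _
    congr 1
    exact Subtype.ext (hτ₀ _)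

theorem Comp.pull_mem (C : Comp A π F κ) (τ : F →+* F) (τ₀ : K → K)
    (hτ₀ : ∀ c, τ (algebraMap K F c) = algebraMap K F (τ₀ c)) (hA : ∀ a : A, τ₀ a ∈ A)
    (hπ₀ : ∀ a : A, π ⟨τ₀ a, hA a⟩ = π a) {f : F} :
    f ∈ (C.pull τ τ₀ hτ₀ hA hπ₀).V ↔ τ f ∈ C.V := Iff.rfl

theorem Comp.pull_red (C : Comp A π F κ) (τ : F →+* F) (τ₀ : K → K)
    (hτ₀ : ∀ c, τ (algebraMap K F c) = algebraMap K F (τ₀ c)) (hA : ∀ a : A, τ₀ a ∈ A)
    (hπ₀ : ∀ a : A, π ⟨τ₀ a, hA a⟩ = π a) (f : F) :
    (C.pull τ τ₀ hτ₀ hA hπ₀).red f = C.red (τ f) := by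
  by_cases hf : τ f ∈ C.V
  · rw [C.red_of_mem hf, Comp.red_of_mem _ (f := f) hf]
    rfl
  · rw [C.red_of_notMem hf, Comp.red_of_notMem _ (f := f) hf]

/-- A semilinear automorphism preserving all components and acting trivially on the residue
fields. -/
structure Inert {ι : Type*} (C : ι → Comp A π F κ) (τ : F ≃+* F) (τ₀ : K → K) : Prop where
  base : ∀ c, τ (algebraMap K F c) = algebraMap K F (τ₀ c)
  mem_A : ∀ a : A, τ₀ a ∈ A
  red_A : ∀ a : A, π ⟨τ₀ a, mem_A a⟩ = π a
  mem : ∀ i f, f ∈ (C i).V ↔ τ f ∈ (C i).V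
  red : ∀ i f, (C i).red (τ f) = (C i).red f

/-- Conjugation by a lift normalises the Galois group. -/
theorem exists_conj (τ : F ≃+* F) (τ' : F' ≃+* F')
    (hτ' : ∀ f, τ' (algebraMap F F' f) = algebraMap F F' (τ f)) (g : F' ≃ₐ[F] F') :
    ∃ g' : F' ≃ₐ[F] F', ∀ φ, g (τ' φ) = τ' (g' φ) := by
  let r : F' ≃+* F' := (τ'.trans g.toRingEquiv).trans τ'.symm
  have hr : ∀ φ, r φ = τ'.symm (g (τ' φ)) := fun φ => rfl
  refine ⟨AlgEquiv.ofRingEquiv (f := r) (fun f => ?_), fun φ => ?_⟩
  · rw [hr, hτ', AlgEquiv.commutes, ← hτ', RingEquiv.symm_apply_apply]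
  · change g (τ' φ) = τ' (r φ)
    rw [hr, RingEquiv.apply_symm_apply]

theorem exists_conj' (τ : F ≃+* F) (τ' : F' ≃+* F')
    (hτ' : ∀ f, τ' (algebraMap F F' f) = algebraMap F F' (τ f)) (g : F' ≃ₐ[F] F') :
    ∃ g' : F' ≃ₐ[F] F', ∀ φ, τ' (g φ) = g' (τ' φ) := by
  let r : F' ≃+* F' := (τ'.symm.trans g.toRingEquiv).trans τ'
  have hr : ∀ φ, r φ = τ' (g (τ'.symm φ)) := fun φ => rfl
  have hs : ∀ f, τ'.symm (algebraMap F F' f) = algebraMap F F' (τ.symm f) := fun f => by
    rw [RingEquiv.symm_apply_eq, hτ', RingEquiv.apply_symm_apply]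
  refine ⟨AlgEquiv.ofRingEquiv (f := r) (fun f => ?_), fun φ => ?_⟩
  · rw [hr, hs, AlgEquiv.commutes, hτ', RingEquiv.apply_symm_apply]
  · change τ' (g φ) = r (τ' φ)
    rw [hr, RingEquiv.symm_apply_apply]

/-- **Central lifts**: every lift of inertia to the cover can be corrected by an element of the
Galois group so that it commutes with the Galois group. -/
theorem exists_central_lift {x : F} {Sig : Type*} {W : Bool → Comp A π F' κ}
    [IsAlgClosed K] [H3RR.IsFF K F'] [IsAlgClosed k] [H3RR.IsFF k κ]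
    [Fintype Sig] [FiniteDimensional F F'] [IsGalois F F'] {n : ℕ} {b : Fin n → F'}
    (hπ : Function.Surjective π) (arch : Arch A π) (H : CovHyp W x)
    (hb : IsFrame (trans (F := F) W) (algebraMap F F' x) b) (m : Marks W x Sig)
    {c : Sig → F' ≃ₐ[F] F'} (hc : GluedBy m c) (hl : ∀ σ, (m.lft σ).1 = false)
    (hr : ∀ σ, (m.rgt σ).1 = true)
    (hgen : genusFF K F' + Fintype.card Bool * Nat.card (F' ≃ₐ[F] F') ≤
      1 + Nat.card (F' ≃ₐ[F] F') * Fintype.card Sig +
        Fintype.card Bool * Nat.card (F' ≃ₐ[F] F') * genusFF k κ)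
    {C : Bool → Comp A π F κ} (hOK : OverK W C) (hC : ∀ i t, t ∈ (C i).image)
    {τ : F ≃+* F} {τ₀ : K → K} (hI : Inert C τ τ₀)
    (hτx : IsIntegral (Algebra.adjoin K {x}) (τ x))
    (τ' : F' ≃+* F') (hτ' : ∀ f, τ' (algebraMap F F' f) = algebraMap F F' (τ f)) :
    ∃ τ'' : F' ≃+* F', (∀ f, τ'' (algebraMap F F' f) = algebraMap F F' (τ f)) ∧
      ∀ (g : F' ≃ₐ[F] F') φ, τ'' (g φ) = g (τ'' φ) := by
  have hbase : ∀ c, (τ' : F' →+* F') (algebraMap K F' c) = algebraMap K F' (τ₀ c) := fun c => by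
    change τ' (algebraMap K F' c) = _
    rw [IsScalarTower.algebraMap_apply K F F', hτ', hI.base, ← IsScalarTower.algebraMap_apply]
  -- the translates
  have key : ∀ i, ∃ g : F' ≃ₐ[F] F', ∀ φ ∈ (W i).V, τ' (g φ) ∈ (W i).V ∧
      (W i).red (τ' (g φ)) = (W i).red φ := by
    intro i
    let D := (W i).pull (τ' : F' →+* F') τ₀ hbase hI.mem_A hI.red_A
    obtain ⟨g, hg⟩ := exists_translate_eq hπ H hOK hC i D (fun f => by
        change τ' (algebraMap F F' f) ∈ (W i).V ↔ _
        rw [hτ', hOK.mem, ← hI.mem]) (fun f => by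
        rw [Comp.pull_red]
        change (W i).red (τ' (algebraMap F F' f)) = _
        rw [hτ', hOK.red, hI.red])
    refine ⟨g⁻¹, fun φ hφ => ?_⟩
    have h1 := hg (g⁻¹ φ)
    rw [← AlgEquiv.mul_apply, mul_inv_cancel, AlgEquiv.one_apply] at h1
    have h2 : (g⁻¹ φ) ∈ D.V := h1.1.mpr hφ
    refine ⟨h2, ?_⟩
    have h3 := h1.2
    rw [Comp.pull_red] at h3
    exact h3
  obtain ⟨g₁, hg₁⟩ := key false
  obtain ⟨g₂, hg₂⟩ := key true
  let τ'' : F' ≃+* F' := (g₁.toRingEquiv).trans τ'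
  have hτ''a : ∀ φ, τ'' φ = τ' (g₁ φ) := fun φ => rfl
  have hτ'' : ∀ f, τ'' (algebraMap F F' f) = algebraMap F F' (τ f) := fun f => by
    rw [hτ''a, AlgEquiv.commutes, hτ']
  obtain ⟨d, hd⟩ := exists_conj' τ τ'' hτ'' (g₁⁻¹ * g₂)
  refine ⟨τ'', hτ'', fun g φ => ?_⟩
  have h2 : ∀ φ ∈ (W true).V, (d⁻¹)⁻¹ (τ'' φ) ∈ (W true).V ∧
      (W true).red ((d⁻¹)⁻¹ (τ'' φ)) = (W true).red φ := by
    intro φ hφ
    rw [inv_inv, ← hd, hτ''a, ← AlgEquiv.mul_apply, mul_inv_cancel_left]
    exact hg₂ φ hφ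
  exact GluedBy.centralises hπ arch H hb m hc hl hr hgen (τ'' : F' →+* F') τ₀ (fun c => by
      change τ'' (algebraMap K F' c) = _
      rw [IsScalarTower.algebraMap_apply K F F', hτ'', hI.base,
        ← IsScalarTower.algebraMap_apply]) (by
      change IsIntegral _ (τ'' (algebraMap F F' x))
      rw [hτ'', isIntegral_algebraMap_iff']
      exact hτx) (exists_conj τ τ'' hτ'') d⁻¹ hg₁ h2 g φ

end Fermat.Agent.H84
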