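import Mathlib
import Fermat.Agent.H84Kum
import Fermat.Agent.H84Lift

/-!
# `p`-th roots of functions close to `p`-th powers: good and semistable reduction

* `exists_root_of_close` (one component, good reduction): a function with divisor divisible by `p`
  which is close to a `p`-th power is a `p`-th power.
* `inertia_kummer` (two components): inertia acts on functions with divisor divisible by `p` which
  are close to `p`-th powers at both components through the cyclotomic character.
-/

set_option autoImplicit false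

open AlgebraicCurve WithZero Polynomial IntermediateField Module

namespace Fermat.Agent.H84

variable {K k : Type*} [Field K] [Field k] {A : ValuationSubring K} {π : A →+* k}
  {F κ : Type*} [Field F] [Algebra K F] [Field κ] [Algebra k κ]

section Cover

variable [IsAlgClosed K] [CharZero K] [H3RR.IsFF K F] [IsAlgClosed k] [H3RR.IsFF k κ]
  {p : ℕ} [Fact p.Prime] [CharP k p] {ι : Type*} [Fintype ι] {C : ι → Comp A π F κ} {x : F}
  {S : Set F}

/-- The components of the Kummer cover. -/
theorem exists_cover_kum (hπ : Function.Surjective π) (H : BaseHyp C x) {ζ : K}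
    (hζ : IsPrimitiveRoot ζ p) (hfin : FinMod p S)
    (hclose : ∀ w ∈ S, ∀ i, Close (C i) p (ζ - 1) w) :
    ∃ W : ι → Comp A π (Kum p S) κ, OverK W C ∧ CovHyp W x := by
  have hp := (Fact.out : p.Prime)
  have : CharZero F := charZero_of_injective_algebraMap (algebraMap K F).injective
  have : FiniteDimensional F (Kum p S) := finiteDimensional_kum hp.ne_zero hfin
  have : H3RR.IsFF K (Kum p S) := isFF_of_finite (F := F)
  choose C' hC' using fun i => exists_over (F' := Kum p S) (C i) (H.surj i)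
  obtain ⟨W, -, h1, h2⟩ := exists_cover hπ H hC' (fun i g hg => by
    by_contra hcon
    push Not at hcon
    refine hg (kum_aut_eq_one fun w hw y hy => ?_)
    exact smul_eq_of_close hζ (hC' i) hcon (hclose w hw i) hy)
  exact ⟨W, h1, h2⟩

variable (K) in
/-- The genus inequality for the Kummer cover. -/
theorem genus_kum (hfin : FinMod p S) (hS0 : ∀ w ∈ S, w ≠ 0)
    (hdiv : ∀ w ∈ S, ∀ v : Place K F, (p : ℤ) ∣ v.ord w) {c s g : ℕ}
    (hgen : genusFF K F + c ≤ 1 + s + c * g) :
    genusFF K (Kum p S) + c * Nat.card (Kum p S ≃ₐ[F] Kum p S) ≤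
      1 + Nat.card (Kum p S ≃ₐ[F] Kum p S) * s + c * Nat.card (Kum p S ≃ₐ[F] Kum p S) * g := by
  have hp := (Fact.out : p.Prime)
  have : CharZero F := charZero_of_injective_algebraMap (algebraMap K F).injective
  have : FiniteDimensional F (Kum p S) := finiteDimensional_kum hp.ne_zero hfin
  have : H3RR.IsFF K (Kum p S) := isFF_of_finite (F := F)
  have h1 := genus_le_of_span (K := K) (F := F) (F' := Kum p S) hp.ne_zero
    (span_rootMon_kum hS0 hdiv)
  rw [IsGalois.card_aut_eq_finrank]
  set n := finrank F (Kum p S) with hn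
  have hn0 : (0 : ℤ) ≤ n := by positivity
  have h2 : (genusFF K F : ℤ) - 1 ≤ s + c * g - c := by
    have : (genusFF K F : ℤ) + c ≤ 1 + s + c * g := by exact_mod_cast hgen
    linarith
  have h3 := mul_le_mul_of_nonneg_left h2 hn0
  have h4 : (genusFF K (Kum p S) : ℤ) + c * n ≤ 1 + n * s + c * n * g := by
    have h5 : (n : ℤ) * (s + c * g - c) = n * s + c * n * g - c * n := by ring
    rw [h5] at h3
    linarith
  exact_mod_cast h4

end Cover

/-- **Good reduction**: a function with divisor divisible by `p` which is close to a `p`-th power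
is a `p`-th power. -/
theorem exists_root_of_close [IsAlgClosed K] [CharZero K] [H3RR.IsFF K F] [IsAlgClosed k]
    [H3RR.IsFF k κ] {p : ℕ} [Fact p.Prime] [CharP k p] (hπ : Function.Surjective π)
    (arch : Arch A π) (C : Comp A π F κ) {x : F} (hx : x ∈ C.V)
    (hxt : Transcendental k (C.red x)) (hsurj : ∀ t, t ∈ C.image)
    (hdeg : finrank K⟮x⟯ F ≤ finrank k⟮C.red x⟯ κ) (hgen : genusFF K F ≤ genusFF k κ)
    {ζ : K} (hζ : IsPrimitiveRoot ζ p) {w : F} (hw0 : w ≠ 0)
    (hdiv : ∀ v : Place K F, (p : ℤ) ∣ v.ord w) (hclose : Close C p (ζ - 1) w) :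
    ∃ u : F, u ^ p = w := by
  classical
  have hp := (Fact.out : p.Prime)
  have : CharZero F := charZero_of_injective_algebraMap (algebraMap K F).injective
  let S : Set F := {w}
  have hfin : FinMod p S := ⟨{w}, fun w' hw' => ⟨w, Finset.mem_singleton_self w, 1, by
    rw [one_pow, mul_one]; exact hw'⟩⟩
  have : FiniteDimensional F (Kum p S) := finiteDimensional_kum hp.ne_zero hfin
  have : H3RR.IsFF K (Kum p S) := isFF_of_finite (F := F)
  have H : BaseHyp (fun _ : Unit => C) x :=
    { mem := fun _ => hx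
      transc := fun _ => hxt
      dist := fun i j hij => (hij rfl).elim
      surj := fun _ => hsurj
      deg := by
        rw [Fintype.sum_unique]
        exact hdeg }
  obtain ⟨W, hOK, hW⟩ := exists_cover_kum (S := S) hπ H hζ hfin (fun w' hw' _ => by
    rw [Set.mem_singleton_iff.mp hw']
    exact hclose)
  obtain ⟨n, b, hb⟩ := hW.exists_frame hπ
  let m : Marks W x Empty :=
    { lft := fun σ => σ.elim
      rgt := fun σ => σ.elim
      inj := fun a => by rcases a with a | a <;> exact a.elim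
      lft_reg := fun σ => σ.elim
      rgt_reg := fun σ => σ.elim }
  have hc : GluedBy m (fun σ => σ.elim) := fun σ => σ.elim
  have hgen' := genus_kum K (S := S) (p := p) hfin (fun w' hw' => by
    rw [Set.mem_singleton_iff.mp hw']; exact hw0) (fun w' hw' => by
    rw [Set.mem_singleton_iff.mp hw']; exact hdiv) (c := Fintype.card Unit)
    (s := Fintype.card Empty) (g := genusFF k κ) (by
      rw [Fintype.card_unit, Fintype.card_empty]
      omega)
  obtain ⟨y, hy⟩ := exists_root_kum (S := S) hp.ne_zero (Set.mem_singleton w)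
  have hfix : ∀ g : Kum p S ≃ₐ[F] Kum p S, g y = y := by
    intro g
    rw [GluedBy.eq_one hπ arch hW hb m hc hgen' g, AlgEquiv.one_apply]
  obtain ⟨u, hu⟩ := (IsGalois.mem_range_algebraMap_iff_fixed y).mpr hfix
  refine ⟨u, (algebraMap F (Kum p S)).injective ?_⟩
  rw [map_pow, hu, hy]

/-- Marked points on the base. -/
structure BMarks [IsAlgClosed k] [H3RR.IsFF k κ] {ι : Type*} (C : ι → Comp A π F κ) (x : F)
    (Sig : Type*) where
  lft : Sig → ι × Place k κ
  rgt : Sig → ι × Place k κ
  inj : Function.Injective (Sum.elim lft rgt)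
  lft_reg : ∀ σ, (lft σ).2.adicValuation ((C (lft σ).1).red x) = 1
  rgt_reg : ∀ σ, (rgt σ).2.adicValuation ((C (rgt σ).1).red x) = 1
  glue : ∀ σ, ∀ φ : F, (∀ l, φ ∈ (C l).V) → RegOff K x φ →
      ev (lft σ).2 ((C (lft σ).1).red φ) = ev (rgt σ).2 ((C (rgt σ).1).red φ)

/-- **Inertia on Kummer classes**. -/
theorem inertia_kummer [IsAlgClosed K] [CharZero K] [H3RR.IsFF K F] [IsAlgClosed k]
    [H3RR.IsFF k κ] {p : ℕ} [Fact p.Prime] [CharP k p] (hπ : Function.Surjective π)
    (arch : Arch A π) {C : Bool → Comp A π F κ} {x : F} (H : BaseHyp C x)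
    {Sig : Type*} [Fintype Sig] (m : BMarks C x Sig) (hl : ∀ σ, (m.lft σ).1 = false)
    (hr : ∀ σ, (m.rgt σ).1 = true)
    (hgen : genusFF K F + 2 ≤ 1 + Fintype.card Sig + 2 * genusFF k κ)
    {ζ : K} (hζ : IsPrimitiveRoot ζ p) {S : Set F} (hS0 : ∀ w ∈ S, w ≠ 0)
    (hdiv : ∀ w ∈ S, ∀ v : Place K F, (p : ℤ) ∣ v.ord w) (hfin : FinMod p S)
    (hclose : ∀ w ∈ S, ∀ i, Close (C i) p (ζ - 1) w)
    {τ : F ≃+* F} {τ₀ : K → K} (hI : Inert C τ τ₀)
    (hτx : IsIntegral (Algebra.adjoin K {x}) (τ x))
    (hτS : ∀ w ∈ S, τ w ∈ S) (hτS' : ∀ w ∈ S, τ.symm w ∈ S) {a : ℕ} (ha : τ₀ ζ = ζ ^ a)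
    {w : F} (hw : w ∈ S) : ∃ u : F, u ^ p = τ w / w ^ a := by
  classical
  have hp := (Fact.out : p.Prime)
  have : CharZero F := charZero_of_injective_algebraMap (algebraMap K F).injective
  have : FiniteDimensional F (Kum p S) := finiteDimensional_kum hp.ne_zero hfin
  have : H3RR.IsFF K (Kum p S) := isFF_of_finite (F := F)
  obtain ⟨W, hOK, hW⟩ := exists_cover_kum hπ H hζ hfin hclose
  obtain ⟨n, b, hb⟩ := hW.exists_frame hπ
  let m' : Marks W x Sig :=
    { lft := m.lft
      rgt := m.rgt
      inj := m.inj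
      lft_reg := fun σ => by rw [hOK.red]; exact m.lft_reg σ
      rgt_reg := fun σ => by rw [hOK.red]; exact m.rgt_reg σ }
  obtain ⟨c, hc⟩ := exists_gluedBy hπ hW hb m' (fun σ φ hφ hreg => by
    rw [hOK.red, hOK.red]
    exact m.glue σ φ (fun l => (hOK.mem l φ).mp (hφ l)) hreg)
  have hgen' := genus_kum K (S := S) (p := p) hfin hS0 hdiv (c := Fintype.card Bool)
    (s := Fintype.card Sig) (g := genusFF k κ) (by rw [Fintype.card_bool]; exact hgen)
  obtain ⟨τ', hτ'⟩ := exists_lift_kum (p := p) τ hτS hτS'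
  obtain ⟨t, ht, hcomm⟩ := exists_central_lift hπ arch hW hb m' hc hl hr hgen' hOK
    (fun i => H.surj i) hI hτx τ' hτ'
  obtain ⟨y, hy⟩ := exists_root_kum (S := S) hp.ne_zero hw
  have hw0 := hS0 w hw
  have hy0 : y ≠ 0 := by
    rintro rfl
    rw [zero_pow hp.ne_zero] at hy
    exact hw0 ((map_eq_zero_iff _ (algebraMap F (Kum p S)).injective).mp hy.symm)
  have htK : ∀ c : K, t (algebraMap K (Kum p S) c) = algebraMap K (Kum p S) (τ₀ c) := fun c => by
    rw [IsScalarTower.algebraMap_apply K F (Kum p S), ht, hI.base,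
      ← IsScalarTower.algebraMap_apply]
  have hζ' : IsPrimitiveRoot (algebraMap K (Kum p S) ζ) p :=
    hζ.map_of_injective (algebraMap K (Kum p S)).injective
  -- the quotient is fixed
  have hfix : ∀ g : Kum p S ≃ₐ[F] Kum p S, g (t y / y ^ a) = t y / y ^ a := by
    intro g
    have h1 : (g y / y) ^ p = 1 := by
      rw [div_pow, ← map_pow, hy, AlgEquiv.commutes, div_self]
      exact (_root_.map_ne_zero _).mpr hw0
    obtain ⟨j, -, hj⟩ := hζ'.eq_pow_of_pow_eq_one h1
    have h2 : g y = algebraMap K (Kum p S) ζ ^ j * y := by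
      rw [hj, div_mul_cancel₀ _ hy0]
    rw [map_div₀, map_pow, ← hcomm, h2, map_mul, map_pow, htK, ha, map_pow, mul_pow, ← pow_mul,
      ← pow_mul, mul_comm j a]
    rw [mul_div_mul_left]
    exact pow_ne_zero _ (hζ'.ne_zero hp.ne_zero)
  obtain ⟨u, hu⟩ := (IsGalois.mem_range_algebraMap_iff_fixed _).mpr hfix
  refine ⟨u, (algebraMap F (Kum p S)).injective ?_⟩
  rw [map_pow, hu, div_pow, ← map_pow, hy, ht, ← pow_mul, mul_comm a p, pow_mul, hy, map_div₀,
    map_pow]

end Fermat.Agent.H84
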