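import Mathlib
import Fermat.Agent.H84Main
import Fermat.Agent.H89SS10

/-!
# Two-component data in the sense of `H89SS.TwoComp` satisfy the hypotheses of `inertia_kummer`
-/

set_option autoImplicit false

open AlgebraicCurve WithZero Polynomial IntermediateField Module

namespace Fermat.Agent.H84

open Fermat.Agent.H89SS (TwoComp reg mem_reg)

section Gen

variable {k κ : Type*} [Field k] [Field κ] [Algebra k κ] [IsAlgClosed k] [H3RR.IsFF k κ]

theorem val_eq_ev {v : Place k κ} {f : κ} (h : v.adicValuation f ≤ 1) : H89SS.val v f = ev v f :=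
  (ev_unique (H89SS.val_spec h)).symm

theorem exists_mul_mem_reg (P : Place k κ) (c : κ) : ∃ a ∈ reg P, a ≠ 0 ∧ c * a ∈ reg P := by
  classical
  by_cases hc : c = 0
  · exact ⟨1, (reg P).one_mem, one_ne_zero, by rw [hc, zero_mul]; exact (reg P).zero_mem⟩
  set E : Divisor k κ := H3RR.poleDiv c with hE
  have hE0 : 0 ≤ E := H3RR.poleDiv_nonneg c
  set D : Divisor k κ := Finsupp.single P (Divisor.degree E + 2 * (genusFF k κ : ℤ)) - E with hD
  have hdeg : Divisor.degree D = 2 * (genusFF k κ : ℤ) := by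
    rw [hD, map_sub, Divisor.degree_single, H3RR.deg_eq_one]
    push_cast
    ring
  have h1 := H3RR.ell_of_degree_gt (D := D) (by rw [hdeg]; omega)
  obtain ⟨a, ha0, haD⟩ := H3RR.exists_mem_L_of_ell_pos (D := D) (by rw [hdeg] at h1; omega)
  have hle : ∀ v, v ≠ P → v.adicValuation a ≤ exp (-(E v)) := by
    intro v hv
    have h2 := mem_L_iff.mp haD v
    rwa [hD, Finsupp.sub_apply, Finsupp.single_eq_of_ne hv, zero_sub] at h2
  refine ⟨a, ?_, ha0, ?_⟩
  · intro v hv
    refine (hle v hv).trans ?_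
    rw [← exp_zero, exp_le_exp]
    have := Finsupp.le_def.mp hE0 v
    rw [Finsupp.zero_apply] at this
    omega
  · intro v hv
    rw [map_mul]
    calc v.adicValuation c * v.adicValuation a ≤ exp (E v) * exp (-(E v)) :=
          mul_le_mul' (H3RR.adicValuation_le_exp_poleDiv hc v) (hle v hv)
      _ = 1 := by rw [← exp_add, add_neg_cancel, exp_zero]

theorem degree_mono {D D' : Divisor k κ} (h : D ≤ D') :
    Divisor.degree D ≤ Divisor.degree D' := by
  refine H3RR.le_induction (P := fun D' => Divisor.degree D ≤ Divisor.degree D') h le_rfl ?_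
  intro E v _ hE
  rw [H3RR.degree_plus']
  omega

/-- A function with a pole is transcendental. -/
theorem transcendental_of_pole {v : Place k κ} {f : κ} (h : 1 < v.adicValuation f) :
    Transcendental k f := by
  intro halg
  obtain ⟨c, rfl⟩ := H3RR.exists_const_of_isAlgebraic halg
  exact absurd (v.adicValuation_algebraMap_le_one c) (not_le.mpr h)

end Gen

variable {K F k κ : Type*} [Field K] [Field F] [Algebra K F] [Field k] [Field κ]
    [Algebra k κ] {A : ValuationSubring K} {π : A →+* k} {q : ℕ} (T : TwoComp K F k κ A π q)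

/-- The first component. -/
def comp₁ : Comp A π F κ where
  V := T.V₁
  ρ := T.ρ₁
  loc := fun v hv => by
    have := T.local₁
    exact isUnit_of_map_unit T.ρ₁ v (isUnit_iff_ne_zero.mpr hv)
  mem := T.mem₁
  ρ_mem := T.ρ₁_mem

/-- The second component. -/
def comp₂ : Comp A π F κ where
  V := T.V₂
  ρ := T.ρ₂
  loc := fun v hv => by
    have := T.local₂
    exact isUnit_of_map_unit T.ρ₂ v (isUnit_iff_ne_zero.mpr hv)
  mem := T.mem₂
  ρ_mem := T.ρ₂_mem

/-- The family of the two components (`false` = first). -/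
def comps : Bool → Comp A π F κ := fun b => cond b (comp₂ T) (comp₁ T)

theorem comp₁_red {f : F} (h : f ∈ T.V₁) : (comp₁ T).red f = T.ρ₁ ⟨f, h⟩ :=
  (comp₁ T).red_of_mem (f := f) h

theorem comp₂_red {f : F} (h : f ∈ T.V₂) : (comp₂ T).red f = T.ρ₂ ⟨f, h⟩ :=
  (comp₂ T).red_of_mem (f := f) h

variable [IsAlgClosed K] [IsAlgClosed k] [H3RR.IsFF K F] [H3RR.IsFF k κ]

omit [IsAlgClosed K] [H3RR.IsFF K F] in
theorem comps_surj (hπ : Function.Surjective π) (i : Bool) (t : κ) : t ∈ (comps T i).image := by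
  have hreg : ∀ a ∈ reg T.P, a ∈ (comps T i).image := by
    intro a ha
    cases i
    · obtain ⟨n, ⟨z, hz⟩, -, hzr⟩ := T.lift_mem₁ hπ ha
      exact ⟨z, hz.1, (comp₁_red T hz.1).trans (congrArg Prod.fst hzr)⟩
    · obtain ⟨n, ⟨z, hz⟩, -, hzr⟩ := T.lift_mem₂ hπ ha
      exact ⟨z, hz.2, (comp₂_red T hz.2).trans (congrArg Prod.snd hzr)⟩
  obtain ⟨a, ha, ha0, hta⟩ := exists_mul_mem_reg T.P t
  have h1 := (comps T i).image.div_mem (hreg _ hta) (hreg _ ha)
  rwa [mul_div_cancel_right₀ _ ha0] at h1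

theorem comps_dist (hπ : Function.Surjective π) (hq : 2 ≤ q) (i j : Bool) (hij : i ≠ j) :
    ∃ φ, φ ∈ (comps T i).V ∧ φ ∉ (comps T j).V := by
  obtain ⟨e, h₁, h₂, he₁, he₂⟩ := T.exists_idem hπ hq
  have key : ∀ {C D : Comp A π F κ} {e : F}, e ∈ D.V → C.red e = 1 → D.red e = 0 →
      ∃ φ, φ ∈ C.V ∧ φ ∉ D.V := by
    intro C D e heD hC hD
    have h1 : C.red e ≠ 0 := by rw [hC]; exact one_ne_zero
    refine ⟨e⁻¹, C.inv_mem_of_red_ne_zero h1, fun h2 => ?_⟩
    have h3 := D.red_mul heD h2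
    rw [mul_inv_cancel₀ (C.ne_zero_of_red_ne_zero h1), D.red_one, hD, zero_mul] at h3
    exact one_ne_zero h3
  have he₁' : (comp₁ T).red e = 1 := (comp₁_red T h₁).trans he₁
  have he₂' : (comp₂ T).red e = 0 := (comp₂_red T h₂).trans he₂
  cases i <;> cases j
  · exact (hij rfl).elim
  · exact key (C := comp₁ T) (D := comp₂ T) h₂ he₁' he₂'
  · refine key (C := comp₂ T) (D := comp₁ T) (e := 1 - e)
      ((comp₁ T).sub_mem (comp₁ T).V.one_mem h₁) ?_ ?_
    · rw [(comp₂ T).red_sub (comp₂ T).V.one_mem h₂, Comp.red_one, he₂', sub_zero]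
    · rw [(comp₁ T).red_sub (comp₁ T).V.one_mem h₁, Comp.red_one, he₁', sub_self]
  · exact (hij rfl).elim

variable (hπ : Function.Surjective π)

/-- A good coordinate. -/
structure GoodCoord (x : F) (n : ℕ) : Prop where
  L : x ∈ riemannRochSpace (T.Dv n n)
  pos : 0 < n
  h₁ : x ∈ T.V₁
  h₂ : x ∈ T.V₂
  reg₁ : (comp₁ T).red x ∈ reg T.P
  reg₂ : (comp₂ T).red x ∈ reg T.P
  pole₁ : T.P.adicValuation ((comp₁ T).red x) = exp (n : ℤ)
  pole₂ : T.P.adicValuation ((comp₂ T).red x) = exp (n : ℤ)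
  mark₁ : ∀ v ∈ T.SS hπ, v.adicValuation ((comp₁ T).red x) = 1
  mark₂ : ∀ v ∈ T.SS hπ, (T.fr • v).adicValuation ((comp₂ T).red x) = 1
  val_eq : ∀ v ∈ T.SS hπ, ev v ((comp₁ T).red x) = ev (T.fr • v) ((comp₂ T).red x)

theorem exists_coord [IsLocalHom π] (hq : 2 ≤ q) (n₀ : ℕ) :
    ∃ n ≥ n₀, ∃ x, GoodCoord T hπ x n := by
  classical
  obtain ⟨n₁, -, hn₁⟩ := T.exists_level hπ hq
  set n := max (max n₁ n₀) 1 with hn
  have hnn₁ : n₁ ≤ n := (le_max_left _ _).trans (le_max_left _ _)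
  have hnn₀ : n₀ ≤ n := (le_max_right _ _).trans (le_max_left _ _)
  have hn1 : 1 ≤ n := le_max_right _ _
  obtain ⟨⟨s, hs, hsP, hs0⟩, ⟨s', hs', hs'P, hs'0⟩, -⟩ := hn₁ n hnn₁
  have : Infinite k := IsAlgClosed.instInfinite
  obtain ⟨c, hc⟩ := Infinite.exists_notMem_finset
    ((T.finite_SS hπ hq).toFinset.image fun v => -H89SS.val v s.1)
  have hc' : ∀ v ∈ T.SS hπ, H89SS.val v s.1 + c ≠ 0 := by
    intro v hv h0
    apply hc
    rw [Finset.mem_image]
    exact ⟨v, (Set.Finite.mem_toFinset _).mpr hv, (eq_neg_of_add_eq_zero_right h0).symm⟩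
  set t : κ × κ := s + s' + (c : k) • (1 : κ × κ) with ht
  have htV : t ∈ T.V hπ n := Submodule.add_mem _ (Submodule.add_mem _ hs hs')
    (Submodule.smul_mem _ (c : k) (T.one_mem_V hπ n))
  have ht1 : t.1 = s.1 + algebraMap k κ c := by
    rw [ht, Prod.fst_add, Prod.fst_add, hs'0, add_zero, Prod.smul_fst, Prod.fst_one,
      Algebra.smul_def, mul_one]
  have ht2 : t.2 = s'.2 + algebraMap k κ c := by
    rw [ht, Prod.snd_add, Prod.snd_add, hs0, zero_add, Prod.smul_snd, Prod.snd_one,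
      Algebra.smul_def, mul_one]
  have hU := T.mem_U.mp (T.V_le_U hπ n htV)
  have hsU := T.mem_U.mp (T.V_le_U hπ n hs)
  have hglue : ∀ v ∈ T.SS hπ, H89SS.val v t.1 = H89SS.val (T.fr • v) t.2 := fun v hv => hv.2.2 t ⟨n, htV⟩
  have hexp : (1 : ℤᵐ⁰) < exp (n : ℤ) := by
    rw [← exp_zero, exp_lt_exp]
    omega
  have hpole : ∀ r : κ, T.P.adicValuation r = exp (n : ℤ) →
      T.P.adicValuation (r + algebraMap k κ c) = exp (n : ℤ) := by
    intro r hr
    rw [Valuation.map_add_eq_of_lt_left, hr]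
    rw [hr]
    exact lt_of_le_of_lt (T.P.adicValuation_algebraMap_le_one c) hexp
  have hval1 : ∀ v ∈ T.SS hπ, H89SS.val v t.1 ≠ 0 := by
    intro v hv
    rw [ht1, H89SS.val_add (hsU.1.1 v hv.1) (v.adicValuation_algebraMap_le_one c),
      H89SS.val_algebraMap]
    exact hc' v hv
  have hunit : ∀ (v : Place k κ) (r : κ), v.adicValuation r ≤ 1 → H89SS.val v r ≠ 0 →
      v.adicValuation r = 1 := by
    intro v r hr hne
    refine le_antisymm hr ?_
    by_contra hlt
    exact hne ((H89SS.val_eq_zero_iff hr).mpr (not_le.mp hlt))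
  have hfr : ∀ v ∈ T.SS hπ, T.fr • v ≠ T.P := fun v hv => H89SS.smul_ne T.fr_P hv.1
  obtain ⟨⟨x, hx⟩, hxL, hxt⟩ := htV
  have hx1 : (comp₁ T).red x = t.1 := (comp₁_red T hx.1).trans (congrArg Prod.fst hxt)
  have hx2 : (comp₂ T).red x = t.2 := (comp₂_red T hx.2).trans (congrArg Prod.snd hxt)
  refine ⟨n, hnn₀, x, ?_⟩
  exact
    { L := hxL
      pos := hn1
      h₁ := hx.1
      h₂ := hx.2
      reg₁ := by rw [hx1]; exact hU.1.1
      reg₂ := by rw [hx2]; exact hU.2.1
      pole₁ := by rw [hx1, ht1]; exact hpole _ hsP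
      pole₂ := by rw [hx2, ht2]; exact hpole _ hs'P
      mark₁ := fun v hv => by
        rw [hx1]
        exact hunit v _ (hU.1.1 v hv.1) (hval1 v hv)
      mark₂ := fun v hv => by
        rw [hx2]
        exact hunit _ _ (hU.2.1 _ (hfr v hv)) (by rw [← hglue v hv]; exact hval1 v hv)
      val_eq := fun v hv => by
        rw [hx1, hx2, ← val_eq_ev (hU.1.1 v hv.1), ← val_eq_ev (hU.2.1 _ (hfr v hv))]
        exact hglue v hv }

/-- The number of glued places. -/
theorem card_SS [IsLocalHom π] (hq : 2 ≤ q) :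
    genusFF K F + 1 = (T.finite_SS hπ hq).toFinset.card + 2 * genusFF k κ := by
  obtain ⟨n₁, hg, h₁⟩ := T.exists_level hπ hq
  obtain ⟨n₂, h₂⟩ := T.finrank_Uz hπ hq
  set n := max (max n₁ n₂) (2 * genusFF k κ) with hn
  have hn₁ : n₁ ≤ n := (le_max_left _ _).trans (le_max_left _ _)
  have hn₂ : n₂ ≤ n := (le_max_right _ _).trans (le_max_left _ _)
  have hn₃ : 2 * genusFF k κ ≤ n := le_max_right _ _
  have hV : T.V hπ n = T.Uz hπ (fun _ => 1) n := by
    apply le_antisymm
    · intro t ht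
      refine ⟨T.V_le_U hπ n ht, fun v hv => ?_⟩
      rw [one_mul]
      exact hv.2.2 t ⟨n, ht⟩
    · rintro t ⟨ht, htv⟩
      refine (h₁ n hn₁).2.2 t ?_ ht
      rw [T.mem_glueRing_iff hπ hq]
      have := T.mem_U.mp ht
      exact ⟨this.1.1, this.2.1, fun v hv => by rw [htv v hv, one_mul]⟩
  have h3 := h₂ n hn₂ (fun _ => 1)
  rw [← hV] at h3
  have h4 := T.finrank_V hπ (hg.trans hn₁)
  have hdeg : Divisor.degree (Finsupp.single T.P (n : ℤ) : Divisor k κ) = n := by
    rw [Divisor.degree_single, H3RR.deg_eq_one]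
    simp
  have h5 := H3RR.ell_of_degree_gt (D := (Finsupp.single T.P (n : ℤ) : Divisor k κ)) (by
    rw [hdeg]; omega)
  rw [hdeg] at h5
  have h6 : (finrank k (T.U n) : ℤ) = 2 * (n + 1 - genusFF k κ) := by
    have h7 : finrank k (T.U n) = H3RR.ell (Finsupp.single T.P (n : ℤ) : Divisor k κ) +
        H3RR.ell (Finsupp.single T.P (n : ℤ) : Divisor k κ) := by
      let e : T.U n ≃ₗ[k] (riemannRochSpace (Finsupp.single T.P (n : ℤ) : Divisor k κ)) ×
          (riemannRochSpace (Finsupp.single T.P (n : ℤ) : Divisor k κ)) :=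
        { toFun := fun t => (⟨t.1.1, t.2.1⟩, ⟨t.1.2, t.2.2⟩)
          map_add' := fun _ _ => rfl
          map_smul' := fun _ _ => rfl
          invFun := fun t => ⟨(t.1.1, t.2.1), ⟨t.1.2, t.2.2⟩⟩
          left_inv := fun _ => rfl
          right_inv := fun _ => rfl }
      rw [e.finrank_eq, Module.finrank_prod]
      rfl
    rw [h7]
    push_cast
    rw [h5]
    ring
  omega

variable {T hπ}

namespace GoodCoord

variable {x : F} {n : ℕ} (hx : GoodCoord T hπ x n)

include hx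

theorem one_lt : (1 : ℤᵐ⁰) < exp (n : ℤ) := by
  rw [← exp_zero, exp_lt_exp]
  exact_mod_cast hx.pos

theorem transc (i : Bool) : Transcendental k ((comps T i).red x) := by
  cases i
  · exact transcendental_of_pole (v := T.P) (by
      change 1 < T.P.adicValuation ((comp₁ T).red x)
      rw [hx.pole₁]; exact hx.one_lt)
  · exact transcendental_of_pole (v := T.P) (by
      change 1 < T.P.adicValuation ((comp₂ T).red x)
      rw [hx.pole₂]; exact hx.one_lt)

theorem mem (i : Bool) : x ∈ (comps T i).V := by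
  cases i
  · exact hx.h₁
  · exact hx.h₂

/-- The residue degrees are `n`. -/
theorem finrank_eq (i : Bool) : finrank k⟮(comps T i).red x⟯ κ = n := by
  have key : ∀ r : κ, r ∈ reg T.P → T.P.adicValuation r = exp (n : ℤ) →
      Transcendental k r → finrank k⟮r⟯ κ = n := by
    intro r hr hrP hrt
    have hr0 := H3RR.transcendental_ne_zero hrt
    have h1 : (H3RR.poleDiv r : Divisor k κ) = Finsupp.single T.P (n : ℤ) := by
      ext v
      rw [H3RR.poleDiv_apply hr0]
      rcases eq_or_ne v T.P with rfl | hv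
      · rw [Finsupp.single_eq_same]
        rw [T.P.adicValuation_eq_exp_neg_ord hr0, exp_inj] at hrP
        rw [hrP]
        exact max_eq_left (by positivity)
      · rw [Finsupp.single_eq_of_ne hv]
        have h2 := hr v hv
        rw [v.adicValuation_eq_exp_neg_ord hr0, ← exp_zero, exp_le_exp] at h2
        exact max_eq_right h2
    have h2 := H3RR.degree_poleDiv hrt
    rw [h1, Divisor.degree_single, H3RR.deg_eq_one] at h2
    have h3 : (n : ℤ) = finrank k⟮r⟯ κ := by simpa using h2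
    exact_mod_cast h3.symm
  cases i
  · exact key _ hx.reg₁ hx.pole₁ (hx.transc false)
  · exact key _ hx.reg₂ hx.pole₂ (hx.transc true)

theorem transc_K : Transcendental K x := by
  have h1 : ResTrans (comps T) x := fun i => ⟨hx.mem i, hx.transc i⟩
  exact transcendental_of_resTrans h1

theorem finrank_le : finrank K⟮x⟯ F ≤ 2 * n := by
  have hx0 := H3RR.transcendental_ne_zero hx.transc_K
  have h1 : (H3RR.poleDiv x : Divisor K F) ≤ T.Dv n n := by
    intro v
    rw [H3RR.poleDiv_apply hx0]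
    have h2 := mem_L_iff.mp hx.L v
    rw [v.adicValuation_eq_exp_neg_ord hx0, exp_le_exp] at h2
    exact max_le h2 (T.Dv_nonneg n n v)
  have h2 := degree_mono h1
  rw [H3RR.degree_poleDiv hx.transc_K, T.degree_Dv] at h2
  omega

theorem baseHyp (hq : 2 ≤ q) : BaseHyp (comps T) x where
  mem := hx.mem
  transc := hx.transc
  dist := comps_dist T hπ hq
  surj := comps_surj T hπ
  deg := by
    simp only [Fintype.sum_bool]
    rw [hx.finrank_eq, hx.finrank_eq]
    have := hx.finrank_le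
    omega

theorem le_one_iff (v : Place K F) : v.adicValuation x ≤ 1 ↔ v ≠ T.P₁ ∧ v ≠ T.P₂ := by
  constructor
  · intro hv
    have h1 : ∀ (v₀ : Place K F) (D : Divisor K F), v.adicValuation x ≤ 1 → v = v₀ →
        (∀ u, u ≠ v₀ → T.Dv n n u ≤ D u) → 0 ≤ D v₀ → x ∈ riemannRochSpace D := by
      rintro v₀ D hv rfl h1 h2
      rw [mem_L_iff]
      intro u
      rcases eq_or_ne u v with rfl | hu
      · refine hv.trans ?_
        rw [← exp_zero, exp_le_exp]
        exact h2
      · refine (mem_L_iff.mp hx.L u).trans ?_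
        rw [exp_le_exp]
        exact h1 u hu
    have h3 : ∀ u : Place K F, T.Dv n n u = (Finsupp.single T.P₁ (n : ℤ) : Divisor K F) u +
        (Finsupp.single T.P₂ (n : ℤ) : Divisor K F) u := fun u => rfl
    refine ⟨fun hv1 => ?_, fun hv2 => ?_⟩
    · have h2 := h1 T.P₁ (Finsupp.single T.P₁ ((0 : ℕ) : ℤ) + Finsupp.single T.P₂ (n : ℤ)) hv hv1
        (fun u hu => by
          rw [h3, Finsupp.add_apply, Finsupp.single_eq_of_ne hu, Finsupp.single_eq_of_ne hu])
        (by
          rw [Finsupp.add_apply, Finsupp.single_eq_same, Finsupp.single_eq_of_ne T.P₁_ne_P₂]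
          simp)
      have h4 := (T.red_mem 0 n x hx.h₁ hx.h₂ h2).1
      have h5 := mem_L_iff.mp h4 T.P
      rw [Finsupp.single_eq_same, ← comp₁_red T hx.h₁, hx.pole₁, exp_le_exp] at h5
      have := hx.pos
      omega
    · have h2 := h1 T.P₂ (Finsupp.single T.P₁ (n : ℤ) + Finsupp.single T.P₂ ((0 : ℕ) : ℤ)) hv hv2
        (fun u hu => by
          rw [h3, Finsupp.add_apply, Finsupp.single_eq_of_ne hu, Finsupp.single_eq_of_ne hu])
        (by
          rw [Finsupp.add_apply, Finsupp.single_eq_same, Finsupp.single_eq_of_ne T.P₁_ne_P₂.symm]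
          simp)
      have h4 := (T.red_mem n 0 x hx.h₁ hx.h₂ h2).2
      have h5 := mem_L_iff.mp h4 T.P
      rw [Finsupp.single_eq_same, ← comp₂_red T hx.h₂, hx.pole₂, exp_le_exp] at h5
      have := hx.pos
      omega
  · rintro ⟨hv1, hv2⟩
    have h1 := mem_L_iff.mp hx.L v
    have h2 : T.Dv n n v = 0 := by
      change ((Finsupp.single T.P₁ (n : ℤ) : Divisor K F) + Finsupp.single T.P₂ (n : ℤ)) v = 0
      rw [Finsupp.add_apply, Finsupp.single_eq_of_ne hv1, Finsupp.single_eq_of_ne hv2, add_zero]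
    rwa [h2, exp_zero] at h1

/-- Functions regular outside `P₁, P₂` and integral have glued reductions. -/
theorem glued {φ : F} (h₁ : φ ∈ T.V₁) (h₂ : φ ∈ T.V₂)
    (hreg : ∀ v : Place K F, v.adicValuation x ≤ 1 → v.adicValuation φ ≤ 1) :
    ((comp₁ T).red φ, (comp₂ T).red φ) ∈ T.glueRing hπ := by
  classical
  obtain ⟨M, hM⟩ : ∃ M : ℕ, φ ∈ riemannRochSpace (T.Dv M M) := by
    by_cases hφ : φ = 0
    · exact ⟨0, by rw [hφ]; exact Submodule.zero_mem _⟩
    refine ⟨max (-T.P₁.ord φ).toNat (-T.P₂.ord φ).toNat, ?_⟩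
    rw [mem_L_iff]
    intro v
    set M := max (-T.P₁.ord φ).toNat (-T.P₂.ord φ).toNat with hM
    have h3 : T.Dv M M v = (Finsupp.single T.P₁ (M : ℤ) : Divisor K F) v +
        (Finsupp.single T.P₂ (M : ℤ) : Divisor K F) v := rfl
    by_cases hv : v.adicValuation x ≤ 1
    · refine (hreg v hv).trans ?_
      rw [← exp_zero, exp_le_exp]
      exact T.Dv_nonneg M M v
    · rw [hx.le_one_iff] at hv
      have hv' : v = T.P₁ ∨ v = T.P₂ := by
        by_contra hcon
        push Not at hcon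
        exact hv hcon
      rw [v.adicValuation_eq_exp_neg_ord hφ, exp_le_exp, h3]
      rcases hv' with rfl | rfl
      · rw [Finsupp.single_eq_same, Finsupp.single_eq_of_ne T.P₁_ne_P₂, add_zero]
        have h4 := Int.self_le_toNat (-T.P₁.ord φ)
        have h5 : ((-T.P₁.ord φ).toNat : ℤ) ≤ M := by exact_mod_cast le_max_left _ _
        omega
      · rw [Finsupp.single_eq_same, Finsupp.single_eq_of_ne T.P₁_ne_P₂.symm, zero_add]
        have h4 := Int.self_le_toNat (-T.P₂.ord φ)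
        have h5 : ((-T.P₂.ord φ).toNat : ℤ) ≤ M := by exact_mod_cast le_max_right _ _
        omega
  refine ⟨M, ⟨φ, h₁, h₂⟩, hM, ?_⟩
  rw [comp₁_red T h₁, comp₂_red T h₂]
  rfl

/-- The marked points. -/
noncomputable def marks (hq : 2 ≤ q) : BMarks (comps T) x (T.finite_SS hπ hq).toFinset where
  lft := fun v => (false, (v : Place k κ))
  rgt := fun v => (true, T.fr • (v : Place k κ))
  inj := by
    rintro (a | a) (b | b) h
    · simp only [Sum.elim_inl, Prod.mk.injEq, true_and] at h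
      rw [Subtype.ext h]
    · simp at h
    · simp at h
    · simp only [Sum.elim_inr, Prod.mk.injEq, true_and] at h
      rw [Subtype.ext (smul_left_cancel _ h)]
  lft_reg := fun v => hx.mark₁ v ((Set.Finite.mem_toFinset _).mp v.2)
  rgt_reg := fun v => hx.mark₂ v ((Set.Finite.mem_toFinset _).mp v.2)
  glue := by
    intro v φ hφ hreg
    have hv := (Set.Finite.mem_toFinset _).mp v.2
    have hφ₁ : φ ∈ (comp₁ T).V := hφ false
    have hφ₂ : φ ∈ (comp₂ T).V := hφ true
    have hx₁ : x ∈ (comp₁ T).V := hx.h₁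
    have hx₂ : x ∈ (comp₂ T).V := hx.h₂
    obtain ⟨N, hN⟩ := exists_pow_mul_le_one hx.transc_K φ hreg
    have h1 := hx.glued (T.V₁.mul_mem _ _ hφ₁ ((comp₁ T).pow_mem hx₁ N))
      (T.V₂.mul_mem _ _ hφ₂ ((comp₂ T).pow_mem hx₂ N)) (hN N le_rfl)
    have h2 := hv.2.2 _ h1
    have h3 := T.glueRing_reg hπ h1
    have hr₁ : (comp₁ T).red (φ * x ^ N) = (comp₁ T).red φ * (comp₁ T).red x ^ N := by
      rw [(comp₁ T).red_mul hφ₁ ((comp₁ T).pow_mem hx₁ N), (comp₁ T).red_pow hx₁]
    have hr₂ : (comp₂ T).red (φ * x ^ N) = (comp₂ T).red φ * (comp₂ T).red x ^ N := by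
      rw [(comp₂ T).red_mul hφ₂ ((comp₂ T).pow_mem hx₂ N), (comp₂ T).red_pow hx₂]
    have hfr : T.fr • (v : Place k κ) ≠ T.P := H89SS.smul_ne T.fr_P hv.1
    have hle₁ := h3.1 v hv.1
    have hle₂ := h3.2 _ hfr
    dsimp only at h2 hle₁ hle₂
    rw [val_eq_ev hle₁, val_eq_ev hle₂] at h2
    rw [hr₁] at hle₁ h2
    rw [hr₂] at hle₂ h2
    rw [map_mul, map_pow, hx.mark₁ v hv, one_pow, mul_one] at hle₁
    rw [map_mul, map_pow, hx.mark₂ v hv, one_pow, mul_one] at hle₂
    have hxv₁ : (v : Place k κ).adicValuation ((comp₁ T).red x) ≤ 1 := (hx.mark₁ v hv).le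
    have hxv₂ : (T.fr • (v : Place k κ)).adicValuation ((comp₂ T).red x) ≤ 1 := (hx.mark₂ v hv).le
    rw [ev_mul hle₁ (by rw [map_pow]; exact pow_le_one' hxv₁ N),
      ev_mul hle₂ (by rw [map_pow]; exact pow_le_one' hxv₂ N), ev_pow hxv₁, ev_pow hxv₂,
      ← hx.val_eq v hv] at h2
    have hne : ev (v : Place k κ) ((comp₁ T).red x) ≠ 0 := by
      intro h0
      rw [ev_eq_zero_iff hxv₁, hx.mark₁ v hv] at h0
      exact lt_irrefl _ h0
    exact mul_right_cancel₀ (pow_ne_zero N hne) h2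

end GoodCoord

end Fermat.Agent.H84
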