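import Mathlib
import Fermat.Agent.H84TwoSS

/-!
# Inertia on Kummer classes for `H89SS.TwoComp`
-/

set_option autoImplicit false

open AlgebraicCurve WithZero Polynomial IntermediateField Module

namespace Fermat.Agent.H84

open Fermat.Agent.H89SS (TwoComp reg mem_reg)

section Gen

variable {K k : Type*} [Field K] [Field k] {A : ValuationSubring K} {π : A →+* k}
  {F κ : Type*} [Field F] [Algebra K F] [Field κ] [Algebra k κ]

theorem Close.map {ι : Type*} {C : ι → Comp A π F κ} {τ : F ≃+* F} {τ₀ : K → K}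
    (hI : Inert C τ τ₀) {p : ℕ} (hp : p ≠ 0) {ζ : K} (hζ : IsPrimitiveRoot ζ p) {i : ι} {w : F}
    (h : Close (C i) p (ζ - 1) w) : Close (C i) p (ζ - 1) (τ w) := by
  obtain ⟨y₁, ε, hy₁, hε, hε0, hwε⟩ := h
  have hζ₀ : (τ₀ ζ) ^ p = 1 := by
    apply (algebraMap K F).injective
    rw [map_pow, ← hI.base, ← map_pow, ← map_pow, hζ.pow_eq_one, map_one, map_one]
  have : NeZero p := ⟨hp⟩
  obtain ⟨a, -, ha⟩ := hζ.eq_pow_of_pow_eq_one hζ₀
  have hζA : ζ ∈ A := root_mem hp hζ.pow_eq_one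
  set u : A := ∑ j ∈ Finset.range a, (⟨ζ, hζA⟩ : A) ^ j with hu
  have hu1 : ζ ^ a - 1 = (u : K) * (ζ - 1) := by
    have h1 : (u : K) = ∑ j ∈ Finset.range a, ζ ^ j := by
      rw [hu]
      push_cast
      rfl
    rw [h1, geom_sum_mul]
  have hτε : τ ε ∈ (C i).V := (hI.mem i ε).mp hε
  refine ⟨τ y₁, algebraMap K F (u : K) ^ p * τ ε, (_root_.map_ne_zero τ).mpr hy₁,
    (C i).V.mul_mem _ _ ((C i).pow_mem ((C i).mem u) p) hτε, ?_, ?_⟩
  · rw [(C i).red_mul ((C i).pow_mem ((C i).mem u) p) hτε, hI.red, hε0, mul_zero]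
  · have h1 := congrArg τ hwε
    rw [map_mul, map_pow, map_add, map_one, map_mul, map_pow] at h1
    rw [h1]
    congr 1
    have h2 : τ (algebraMap K F (ζ - 1)) = algebraMap K F (ζ - 1) * algebraMap K F (u : K) := by
      rw [map_sub, map_one, map_sub, map_one, hI.base, ← ha, ← map_one (algebraMap K F),
        ← map_sub, hu1, map_mul, mul_comm, map_sub (algebraMap K F) ζ 1]
    rw [h2, mul_pow, mul_assoc]

theorem Inert.symm' {ι : Type*} [Nonempty ι] (hπ : Function.Surjective π) {C : ι → Comp A π F κ}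
    {τ : F ≃+* F} {τ₀ : K ≃+* K} (hI : Inert C τ τ₀) : Inert C τ.symm τ₀.symm := by
  have hbase : ∀ c, τ.symm (algebraMap K F c) = algebraMap K F (τ₀.symm c) := fun c => by
    rw [RingEquiv.symm_apply_eq, hI.base, RingEquiv.apply_symm_apply]
  have hmem : ∀ a : A, τ₀.symm a ∈ A := fun a => by
    obtain ⟨i⟩ := (inferInstance : Nonempty ι)
    rw [← (C i).algebraMap_mem_iff hπ, ← hbase, hI.mem, RingEquiv.apply_symm_apply]
    exact (C i).mem a
  exact
    { base := hbase
      mem_A := hmem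
      red_A := fun a => by
        rw [← hI.red_A ⟨τ₀.symm a, hmem a⟩]
        congr 1
        exact Subtype.ext (τ₀.apply_symm_apply a)
      mem := fun i f => by rw [hI.mem i (τ.symm f), RingEquiv.apply_symm_apply]
      red := fun i f => by rw [← hI.red i (τ.symm f), RingEquiv.apply_symm_apply] }

/-- Finiteness modulo `p`-th powers from finiteness of the torsion of the class group. -/
theorem finMod_of_torsion [IsAlgClosed K] [H3RR.IsFF K F] {p : ℕ} (hp : p ≠ 0)
    (hJ : {x : Pic0 K F | p • x = 0}.Finite) {S : Set F} (hS0 : ∀ w ∈ S, w ≠ 0)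
    (hdiv : ∀ w ∈ S, ∀ v : Place K F, (p : ℤ) ∣ v.ord w) : FinMod p S := by
  classical
  choose D hD0 hD using fun w : S => exists_divisor_div (K := K) hp (hS0 w w.2) (hdiv w w.2)
  let cls : S → Pic0 K F := fun w => Pic0.mk ⟨D w, hD0 w⟩
  have hcls : ∀ w, p • cls w = 0 := by
    intro w
    have h1 : p • cls w = Pic0.mk (p • (⟨D w, hD0 w⟩ : Divisor.degZero (K := K) (F := F))) := rfl
    rw [h1, H89SS.mk_eq_zero]
    refine ⟨w, hS0 w w.2, fun v => ?_⟩
    change (p • D w : Divisor K F) v = v.ord (w : F)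
    rw [hD w v, Finsupp.smul_apply, nsmul_eq_mul]
  let rep : Pic0 K F → F := fun x => if h : ∃ w : S, cls w = x then (h.choose : F) else 1
  refine ⟨hJ.toFinset.image rep, fun w hw => ?_⟩
  have hex : ∃ w' : S, cls w' = cls ⟨w, hw⟩ := ⟨⟨w, hw⟩, rfl⟩
  have hrep : rep (cls ⟨w, hw⟩) = (hex.choose : F) := dif_pos hex
  refine ⟨rep (cls ⟨w, hw⟩), Finset.mem_image_of_mem _
    ((Set.Finite.mem_toFinset _).mpr (hcls _)), ?_⟩
  rw [hrep]
  have h1 := hex.choose_spec
  set t := hex.choose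
  have h2 : Pic0.mk ⟨D ⟨w, hw⟩, hD0 ⟨w, hw⟩⟩ = Pic0.mk ⟨D t, hD0 t⟩ := h1.symm
  rw [H89SS.mk_eq_mk] at h2
  have ht0 := hS0 t t.2
  have hw0 := hS0 w hw
  obtain ⟨f, hf0, hf⟩ := H89SS.exists_eq_pow (K := K) hp (f := w / t) (div_ne_zero hw0 ht0) h2
    (fun v => by
      have h3 := hD ⟨w, hw⟩ v
      have h4 := hD t v
      rw [div_eq_mul_inv, v.ord_mul hw0 (inv_ne_zero ht0), v.ord_inv, h4]
      have h5 : v.ord w = p * D ⟨w, hw⟩ v := h3
      rw [h5]
      change _ = (p : ℤ) * (D ⟨w, hw⟩ - D t : Divisor K F) v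
      rw [Finsupp.sub_apply]
      ring)
  exact ⟨f, by rw [← hf, mul_div_cancel₀ _ ht0]⟩

end Gen

variable {K F k κ : Type*} [Field K] [Field F] [Algebra K F] [Field k] [Field κ]
    [Algebra k κ] {A : ValuationSubring K} {π : A →+* k} {q : ℕ} {T : TwoComp K F k κ A π q}

/-- Inertia in the sense of `H89SS`. -/
theorem inert_of_compat {g : SemilinearAut K F} (hg : T.Compat g 1) :
    Inert (comps T) (SemilinearAut.toRingAut g) (SemilinearAut.baseAut g) := by
  have hA : ∀ a : A, SemilinearAut.baseAut g (a : K) ∈ A := by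
    intro a
    by_cases ha : (a : K) = 0
    · rw [ha, map_zero]; exact A.zero_mem
    · have h1 := hg.base (a : K) ha
      have h2 := A.mul_mem _ _ h1 a.2
      rwa [div_mul_cancel₀ _ ha] at h2
  have key : ∀ (C : Comp A π F κ) (_ : ∀ f ∈ C.V, SemilinearAut.toRingAut g f ∈ C.V)
      (_ : ∀ f ∈ C.V, C.red (SemilinearAut.toRingAut g f) = C.red f),
      (∀ f, f ∈ C.V ↔ SemilinearAut.toRingAut g f ∈ C.V) ∧
      ∀ f, C.red (SemilinearAut.toRingAut g f) = C.red f := by
    intro C h1 h2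
    have h3 : ∀ f, SemilinearAut.toRingAut g f ∈ C.V → f ∈ C.V := by
      intro f hf
      by_contra hcon
      have hf0 : f ≠ 0 := by rintro rfl; exact hcon C.V.zero_mem
      have hfi : f⁻¹ ∈ C.V := (C.V.mem_or_inv_mem f).resolve_left hcon
      have h4 : C.red f⁻¹ = 0 := by
        by_contra hne
        have := C.inv_mem_of_red_ne_zero hne
        rw [inv_inv] at this
        exact hcon this
      have h5 := h2 _ hfi
      rw [h4] at h5
      have h6 := C.red_mul hf (h1 _ hfi)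
      rw [← map_mul, mul_inv_cancel₀ hf0, map_one, C.red_one, h5, mul_zero] at h6
      exact one_ne_zero h6
    refine ⟨fun f => ⟨h1 f, h3 f⟩, fun f => ?_⟩
    by_cases hf : f ∈ C.V
    · exact h2 f hf
    · rw [C.red_of_notMem hf, C.red_of_notMem fun h => hf (h3 f h)]
  have key₁ := key (comp₁ T) (fun f hf => hg.mem₁ f hf) (fun f hf => by
    have hf' : f ∈ T.V₁ := hf
    exact (comp₁_red T (hg.mem₁ f hf')).trans ((hg.ρ₁ f hf' (hg.mem₁ f hf')).trans
      (comp₁_red T hf').symm))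
  have key₂ := key (comp₂ T) (fun f hf => hg.mem₂ f hf) (fun f hf => by
    have hf' : f ∈ T.V₂ := hf
    exact (comp₂_red T (hg.mem₂ f hf')).trans ((hg.ρ₂ f hf' (hg.mem₂ f hf')).trans
      (comp₂_red T hf').symm))
  exact
    { base := SemilinearAut.commutes g
      mem_A := hA
      red_A := fun a => by
        have h1 := key₁.2 (algebraMap K F (a : K))
        rw [SemilinearAut.commutes, (comp₁ T).red_algebraMap, (comp₁ T).red_algebraMap' (hA a)] at h1
        exact (algebraMap k κ).injective h1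
      mem := fun i f => by
        cases i
        · exact key₁.1 f
        · exact key₂.1 f
      red := fun i f => by
        cases i
        · exact key₁.2 f
        · exact key₂.2 f }

variable [IsAlgClosed K] [CharZero K] [IsAlgClosed k] [H3RR.IsFF K F] [H3RR.IsFF k κ]

/-- **(SS2_p)** Inertia acts on functions with divisor divisible by `p` which are close to `p`-th
powers on both components through the cyclotomic character. -/
theorem smul_eq_of_twoComp [Fact q.Prime] [CharP k q] (hπ : Function.Surjective π)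
    (arch : ∀ a b : A, π a = 0 → b ≠ 0 → ∃ n : ℕ, b ∣ a ^ n)
    (hJ : {x : Pic0 K F | q • x = 0}.Finite) {g : SemilinearAut K F} (hg : T.Compat g 1)
    {ζ : K} (hζ : IsPrimitiveRoot ζ q) {a : ℕ} (ha : SemilinearAut.baseAut g ζ = ζ ^ a) {w : F}
    (hw0 : w ≠ 0) (hdiv : ∀ v : Place K F, (q : ℤ) ∣ v.ord w)
    (hc₁ : Close (comp₁ T) q (ζ - 1) w) (hc₂ : Close (comp₂ T) q (ζ - 1) w) :
    ∃ u : F, u ^ q = (g • w) / w ^ a := by
  classical
  have hp := (Fact.out : q.Prime)
  have hloc : IsLocalHom π := ⟨fun a ha => (pi_ne_zero_iff hπ a).mp ha.ne_zero⟩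
  obtain ⟨n, -, x, hx⟩ := exists_coord T hπ hp.two_le 0
  have hI := inert_of_compat hg
  have hI' := hI.symm' hπ
  let S : Set F := {w | w ≠ 0 ∧ (∀ v : Place K F, (q : ℤ) ∣ v.ord w) ∧
    ∀ i, Close (comps T i) q (ζ - 1) w}
  have hord : ∀ (g : SemilinearAut K F) (w : F), (∀ v : Place K F, (q : ℤ) ∣ v.ord w) →
      ∀ v : Place K F, (q : ℤ) ∣ v.ord (g • w) := by
    intro g w hw v
    have h1 := SemilinearAut.ord_smul g (g⁻¹ • v) w
    rw [smul_inv_smul] at h1
    rw [h1]
    exact hw _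
  refine inertia_kummer hπ arch (hx.baseHyp hp.two_le) (hx.marks hp.two_le) (fun _ => rfl)
    (fun _ => rfl) ?_ hζ (S := S) (fun w hw => hw.1) (fun w hw => hw.2.1)
    (finMod_of_torsion (K := K) hp.ne_zero hJ (fun w hw => hw.1) (fun w hw => hw.2.1))
    (fun w hw => hw.2.2) hI ?_ ?_ ?_ ha ?_
  · have := card_SS T hπ hp.two_le
    rw [Fintype.card_coe]
    omega
  · -- integrality of `g x` over `K[x]`
    apply isIntegral_of_forall_le_one
    intro v hv
    have h1 := (hx.le_one_iff v).mp hv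
    have h2 := H89SS.smul_mem_L g hx.L
    rw [hg.smul_Dv] at h2
    have h3 := mem_L_iff.mp h2 v
    have h4 : T.Dv n n v = 0 := by
      change ((Finsupp.single T.P₁ (n : ℤ) : Divisor K F) + Finsupp.single T.P₂ (n : ℤ)) v = 0
      rw [Finsupp.add_apply, Finsupp.single_eq_of_ne h1.1, Finsupp.single_eq_of_ne h1.2, add_zero]
    rw [h4, exp_zero] at h3
    exact h3
  · rintro w ⟨h1, h2, h3⟩
    exact ⟨(_root_.map_ne_zero _).mpr h1, hord g w h2, fun i => (h3 i).map hI hp.ne_zero hζ⟩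
  · rintro w ⟨h1, h2, h3⟩
    exact ⟨(_root_.map_ne_zero _).mpr h1, hord g⁻¹ w h2, fun i => (h3 i).map hI' hp.ne_zero hζ⟩
  · exact ⟨hw0, hdiv, fun i => by cases i <;> assumption⟩

end Fermat.Agent.H84
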