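import Fermat.Agent.H89SS4

/-!
# The ring of glued pairs
-/

set_option autoImplicit false

open AlgebraicCurve WithZero Fermat.Agent.H3RR

namespace Fermat.Agent.H89SS

section Smul

variable {k κ : Type*} [Field k] [Field κ] [Algebra k κ]

theorem adicValuation_smul (g : SemilinearAut k κ) (v : Place k κ) (f : κ) :
    (g • v).adicValuation (g • f) = v.adicValuation f := by
  rcases eq_or_ne f 0 with rfl | hf
  · rw [smul_zero, map_zero, map_zero]
  · have hgf : g • f ≠ 0 := by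
      intro h
      apply hf
      have := congrArg (g⁻¹ • ·) h
      simpa using this
    rw [Place.adicValuation_eq_exp_neg_ord _ hgf, Place.adicValuation_eq_exp_neg_ord _ hf,
      SemilinearAut.ord_smul]

end Smul

section Frob

variable {k κ : Type*} [Field k] [Field κ] [Algebra k κ] {P : Place k κ} {q : ℕ}
  {Φ : κ →ₐ[k] κ} {fr : SemilinearAut k κ}

theorem adic_Φ (hΦ : ∀ a : κ, Φ (fr • a) = a ^ q) (v : Place k κ) (a : κ) :
    v.adicValuation (Φ a) = (fr • v).adicValuation a ^ q := by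
  have h1 : a = fr • (fr⁻¹ • a) := by rw [smul_inv_smul]
  conv_lhs => rw [h1, hΦ, map_pow]
  conv_rhs => rw [h1, adicValuation_smul]

theorem smul_ne (hfr : fr • P = P) {v : Place k κ} (hv : v ≠ P) : fr • v ≠ P := by
  intro h
  apply hv
  rw [← hfr] at h
  exact smul_left_cancel _ h

theorem Φ_mem_reg (hΦ : ∀ a : κ, Φ (fr • a) = a ^ q) (hfr : fr • P = P) {a : κ}
    (ha : a ∈ reg P) : Φ a ∈ reg P := by
  intro v hv
  rw [adic_Φ hΦ]
  exact pow_le_one₀ zero_le (ha _ (smul_ne hfr hv))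

variable [IsAlgClosed k] [IsFF k κ]

theorem val_Φ (hq : q ≠ 0) (hΦ : ∀ a : κ, Φ (fr • a) = a ^ q) {v : Place k κ} {a : κ}
    (ha : (fr • v).adicValuation a ≤ 1) : val v (Φ a) = val (fr • v) a := by
  apply val_eq
  have h1 : Φ a - algebraMap k κ (val (fr • v) a) =
      Φ (a - algebraMap k κ (val (fr • v) a)) := by rw [map_sub, AlgHom.commutes]
  rw [h1, adic_Φ hΦ]
  exact pow_lt_one₀ zero_le (val_spec ha) hq

/-- Existence of functions with a pole of exact order `n` at `P`. -/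
theorem exists_pole (P : Place k κ) {n : ℕ} (hn : 2 * genusFF k κ ≤ n) :
    ∃ a ∈ reg P, P.adicValuation a = exp (n : ℤ) := by
  rcases Nat.eq_zero_or_pos n with rfl | hn0
  · exact ⟨1, (reg P).one_mem, by simp⟩
  have hle : riemannRochSpace (Finsupp.single P ((n : ℤ) - 1) : Divisor k κ) ≤
      riemannRochSpace (Finsupp.single P (n : ℤ)) := L_mono (by
    rw [Finsupp.single_le_single]
    omega)
  have hlt : ell (Finsupp.single P ((n : ℤ) - 1) : Divisor k κ) <
      ell (Finsupp.single P (n : ℤ)) := by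
    have h1 := ell_of_degree_gt (D := (Finsupp.single P ((n : ℤ) - 1) : Divisor k κ)) (by
      rw [Divisor.degree_single, deg_eq_one]; push_cast; omega)
    have h2 := ell_of_degree_gt (D := (Finsupp.single P (n : ℤ) : Divisor k κ)) (by
      rw [Divisor.degree_single, deg_eq_one]; push_cast; omega)
    rw [Divisor.degree_single, deg_eq_one] at h1 h2
    push_cast at h1 h2
    omega
  have hne : ¬ riemannRochSpace (Finsupp.single P (n : ℤ) : Divisor k κ) ≤
      riemannRochSpace (Finsupp.single P ((n : ℤ) - 1)) := by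
    intro h
    have := le_antisymm hle h
    rw [ell, ell, this] at hlt
    exact lt_irrefl _ hlt
  obtain ⟨a, ha, ha'⟩ := SetLike.not_le_iff_exists.mp hne
  have hreg : a ∈ reg P := by
    intro v hv
    have := ha v
    rwa [Finsupp.single_eq_of_ne hv, exp_zero] at this
  refine ⟨a, hreg, ?_⟩
  have h3 := ha P
  rw [Finsupp.single_eq_same] at h3
  have ha0 : a ≠ 0 := by
    rintro rfl
    exact ha' (Submodule.zero_mem _)
  rw [P.adicValuation_eq_exp_neg_ord ha0] at h3 ⊢
  rw [exp_le_exp] at h3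
  by_contra hcon
  apply ha'
  intro v
  rcases eq_or_ne v P with rfl | hv
  · rw [Finsupp.single_eq_same, v.adicValuation_eq_exp_neg_ord ha0, exp_le_exp]
    have : -v.ord a ≠ n := fun h => hcon (by rw [h])
    omega
  · rw [Finsupp.single_eq_of_ne hv, exp_zero]
    exact hreg v hv

omit [IsAlgClosed k] [IsFF k κ] in
theorem ne_of_pole (hq : 2 ≤ q) (hΦ : ∀ a : κ, Φ (fr • a) = a ^ q) (hfr : fr • P = P)
    {a : κ} {n : ℕ} (hn : 0 < n) (haP : P.adicValuation a = exp (n : ℤ)) :
    a - Φ (Φ a) ≠ 0 := by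
  intro h
  have h1 : P.adicValuation a = P.adicValuation (Φ (Φ a)) :=
    congrArg P.adicValuation (sub_eq_zero.mp h)
  rw [adic_Φ hΦ, adic_Φ hΦ, hfr, hfr, haP, ← exp_nsmul, ← exp_nsmul, exp_inj] at h1
  simp only [nsmul_eq_mul] at h1
  have hq' : (2 : ℤ) ≤ q := by exact_mod_cast hq
  have h4 : (4 : ℤ) ≤ q * q := by nlinarith
  have hn' : (1 : ℤ) ≤ n := by exact_mod_cast hn
  have h5 : (4 : ℤ) * n ≤ (q * q) * n := mul_le_mul_of_nonneg_right h4 (by omega)
  have h6 : (q : ℤ) * (q * n) = (q * q) * n := by ring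
  rw [h6] at h1
  omega

theorem finite_fix (hq : 2 ≤ q) (hΦ : ∀ a : κ, Φ (fr • a) = a ^ q) (hfr : fr • P = P) :
    {v : Place k κ | v ≠ P ∧ fr • fr • v = v}.Finite := by
  obtain ⟨a, ha, haP⟩ := exists_pole P (n := 2 * genusFF k κ + 1) (by omega)
  have hc : a - Φ (Φ a) ≠ 0 := ne_of_pole hq hΦ hfr (by omega) haP
  refine (finite_lt_one (k := k) hc).subset ?_
  rintro v ⟨hv, hfix⟩
  have hva : v.adicValuation a ≤ 1 := ha v hv
  have hva2 : v.adicValuation (Φ (Φ a)) ≤ 1 := Φ_mem_reg hΦ hfr (Φ_mem_reg hΦ hfr ha) v hv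
  have hq0 : q ≠ 0 := by omega
  have h2 : val v (Φ (Φ a)) = val v a := by
    rw [val_Φ hq0 hΦ (Φ_mem_reg hΦ hfr ha _ (smul_ne hfr hv)), val_Φ hq0 hΦ, hfix]
    exact ha _ (smul_ne hfr (smul_ne hfr hv))
  have h3 : val v (a - Φ (Φ a)) = 0 := by rw [val_sub hva hva2, h2, sub_self]
  exact (val_eq_zero_iff ((Valuation.map_sub _ _ _).trans (max_le hva hva2))).mp h3

open Classical in
/-- Local elements `a - Φ² a`. -/
theorem exists_local (hq : 2 ≤ q) (hΦ : ∀ a : κ, Φ (fr • a) = a ^ q) (hfr : fr • P = P)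
    (v : Place k κ) (hv : v ≠ P) :
    ∃ a ∈ reg P, v.adicValuation (a - Φ (Φ a)) =
      if fr • fr • v = v then exp (-1 : ℤ) else 1 := by
  have hv2 : fr • fr • v ≠ P := smul_ne hfr (smul_ne hfr hv)
  have hq0 : q ≠ 0 := by omega
  by_cases hfix : fr • fr • v = v
  · obtain ⟨a, ha, hav⟩ := exists_reg_approx P {v} (by simpa using hv.symm)
      (fun _ => unif v (-1)) (fun w hw => by
        rw [Finset.mem_singleton] at hw
        subst hw
        rw [adicValuation_unif, ← exp_zero, exp_le_exp]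
        norm_num) 2
    have h1 := hav v (Finset.mem_singleton_self v)
    have h2 : v.adicValuation a = exp (-1 : ℤ) := by
      have h3 : a = unif v (-1) + (a - unif v (-1)) := by ring
      rw [h3, Valuation.map_add_eq_of_lt_left, adicValuation_unif]
      rw [adicValuation_unif]
      refine h1.trans_lt ?_
      rw [exp_lt_exp]
      norm_num
    refine ⟨a, ha, ?_⟩
    rw [if_pos hfix, sub_eq_add_neg, Valuation.map_add_eq_of_lt_left, h2]
    rw [Valuation.map_neg, adic_Φ hΦ, adic_Φ hΦ, hfix, h2, ← exp_nsmul, ← exp_nsmul, exp_lt_exp]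
    simp only [nsmul_eq_mul]
    have hq' : (2 : ℤ) ≤ q := by exact_mod_cast hq
    nlinarith
  · obtain ⟨a, ha, hav⟩ := exists_reg_approx P {v, fr • fr • v} (by
        simp only [Finset.mem_insert, Finset.mem_singleton, not_or]
        exact ⟨hv.symm, hv2.symm⟩)
      (fun w => if w = v then 1 else 0) (fun w _ => by
        by_cases h : w = v
        · simp [h]
        · simp [h]) 1
    have h1 := hav v (by simp)
    have h2 := hav (fr • fr • v) (by simp)
    rw [if_pos rfl] at h1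
    rw [if_neg hfix, sub_zero] at h2
    have h3 : v.adicValuation a = 1 := by
      have h4 : a = 1 + (a - 1) := by ring
      rw [h4, Valuation.map_add_eq_of_lt_left, map_one]
      rw [map_one, ← exp_zero]
      refine h1.trans_lt ?_
      rw [exp_lt_exp]
      norm_num
    refine ⟨a, ha, ?_⟩
    rw [if_neg hfix, sub_eq_add_neg, Valuation.map_add_eq_of_lt_left, h3]
    rw [Valuation.map_neg, adic_Φ hΦ, adic_Φ hΦ, h3]
    refine pow_lt_one₀ zero_le (pow_lt_one₀ zero_le (h2.trans_lt ?_) hq0) hq0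
    rw [← exp_zero, exp_lt_exp]
    norm_num

/-- The set of glued places. -/
def SSset (P : Place k κ) (fr : SemilinearAut k κ) (W : Set (κ × κ)) : Set (Place k κ) :=
  {v | v ≠ P ∧ fr • fr • v = v ∧ ∀ t ∈ W, val v t.1 = val (fr • v) t.2}

/-- **Structure of the ring of glued pairs.** -/
theorem mem_glue (hq : 2 ≤ q) (hΦ : ∀ a : κ, Φ (fr • a) = a ^ q) (hfr : fr • P = P)
    (W : Subring (κ × κ)) (hW : ∀ t ∈ W, t.1 ∈ reg P ∧ t.2 ∈ reg P)
    (h1 : ∀ a ∈ reg P, (a, Φ a) ∈ W) (h2 : ∀ a ∈ reg P, (Φ a, a) ∈ W) {t : κ × κ}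
    (ht1 : t.1 ∈ reg P) (ht2 : t.2 ∈ reg P)
    (ht : ∀ v ∈ SSset P fr (W : Set (κ × κ)), val v t.1 = val (fr • v) t.2) : t ∈ W := by
  classical
  have hq0 : q ≠ 0 := by omega
  -- the ideal of second coordinates
  let I : AddSubgroup κ := W.toAddSubgroup.comap (AddMonoidHom.inr κ κ)
  have hImem : ∀ x, x ∈ I ↔ ((0 : κ), x) ∈ W := fun x => Iff.rfl
  have hI1 : ∀ a ∈ reg P, a - Φ (Φ a) ∈ I := by
    intro a ha
    rw [hImem]
    have h3 := W.sub_mem (h2 a ha) (h1 _ (Φ_mem_reg hΦ hfr ha))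
    simpa using h3
  have hIs : ∀ t ∈ W, t.2 - Φ t.1 ∈ I := by
    intro t ht
    rw [hImem]
    have h3 := W.sub_mem ht (h1 _ (hW t ht).1)
    simpa [Prod.sub_def] using h3
  have hsuff : t.2 - Φ t.1 ∈ I := by
    refine mem_of_vanish P I (fun x hx => (hW _ hx).2) ?_
      {w | ∃ v ∈ SSset P fr (W : Set (κ × κ)), w = fr • v} ?_ ?_ ?_ ?_ ?_
    · intro x hx r hr
      rw [hImem]
      have h3 := W.mul_mem (h2 r hr) hx
      simpa using h3
    · rintro w hw ⟨v, ⟨hvP, hfix, hv⟩, rfl⟩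
      obtain ⟨a, ha, hav⟩ := exists_local hq hΦ hfr _ hw
      rw [if_pos (by rw [hfix])] at hav
      exact ⟨_, hI1 a ha, hav⟩
    · intro w hw hwB
      by_cases hfix : fr • fr • w = w
      · -- `fr • w` is not glued
        have hne : fr • w ∉ SSset P fr (W : Set (κ × κ)) := fun h => hwB ⟨_, h, hfix.symm⟩
        have hex : ∃ s ∈ W, val (fr • w) s.1 ≠ val (fr • fr • w) s.2 := by
          by_contra hcon
          push Not at hcon
          exact hne ⟨smul_ne hfr hw, by rw [hfix], hcon⟩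
        obtain ⟨s, hs, hsv⟩ := hex
        rw [hfix] at hsv
        refine ⟨_, hIs s hs, ?_⟩
        have h4 : w.adicValuation s.2 ≤ 1 := (hW s hs).2 w hw
        have h5 : w.adicValuation (Φ s.1) ≤ 1 := Φ_mem_reg hΦ hfr (hW s hs).1 w hw
        have h6 : w.adicValuation (s.2 - Φ s.1) ≤ 1 :=
          (Valuation.map_sub _ _ _).trans (max_le h4 h5)
        apply le_antisymm h6
        by_contra hlt
        have h7 := (val_eq_zero_iff h6).mpr (not_le.mp hlt)
        rw [val_sub h4 h5, val_Φ hq0 hΦ ((hW s hs).1 _ (smul_ne hfr hw))] at h7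
        exact hsv (sub_eq_zero.mp h7).symm
      · obtain ⟨a, ha, hav⟩ := exists_local hq hΦ hfr _ hw
        rw [if_neg hfix] at hav
        exact ⟨_, hI1 a ha, hav⟩
    · -- nonzero element
      obtain ⟨a, ha, haP⟩ := exists_pole P (n := 2 * genusFF k κ + 1) (by omega)
      exact ⟨_, hI1 a ha, ne_of_pole hq hΦ hfr (by omega) haP⟩
    · exact (reg P).sub_mem ht2 (Φ_mem_reg hΦ hfr ht1)
    · rintro w hw ⟨v, hv, rfl⟩
      have hvP := hv.1
      have h4 : (fr • v).adicValuation t.2 ≤ 1 := ht2 _ hw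
      have h5 : (fr • v).adicValuation (Φ t.1) ≤ 1 := Φ_mem_reg hΦ hfr ht1 _ hw
      rw [← val_eq_zero_iff ((Valuation.map_sub _ _ _).trans (max_le h4 h5)), val_sub h4 h5,
        val_Φ hq0 hΦ (ht1 _ (smul_ne hfr hw)), hv.2.1, ht v hv, sub_self]
  rw [hImem] at hsuff
  have h8 := W.add_mem (h1 _ ht1) hsuff
  have h9 : (t.1, Φ t.1) + ((0 : κ), t.2 - Φ t.1) = t := by
    ext <;> simp
  rwa [h9] at h8

end Frob

end Fermat.Agent.H89SS
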