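import Fermat.Agent.H97MdH
import Fermat.Agent.H89SS5

/-!
# The three valuations for `X_0(mq) → X_0(m)` in characteristic `q`
-/

set_option autoImplicit false
set_option linter.unusedSectionVars false
set_option linter.style.haveILetI false

noncomputable section

open AlgebraicCurve ModularCurve IntermediateField Fermat.Agent.H34.Two

namespace Fermat.Agent.H97

/-- Compatibility of the values of components. -/
theorem compVal_map {K k F F₀ κ κ₀ : Type*} [Field K] [Field k] {A : ValuationSubring K}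
    {π : A →+* k} [Field F] [Algebra K F] [Field F₀] [Algebra K F₀] [Field κ] [Algebra k κ]
    [Field κ₀] [Algebra k κ₀] {C : H84.Comp A π F κ} {C₀ : H84.Comp A π F₀ κ₀}
    (hπ : Function.Surjective π) (hC : C.Scalable) (hC₀ : C₀.Scalable) (φ : F₀ →ₐ[K] F)
    (h : ∀ b, C₀.red b ≠ 0 → C.red (φ b) ≠ 0) (b : F₀) :
    compVal C hπ hC (φ b) = compVal C₀ hπ hC₀ b := by
  by_cases hb : b = 0
  · rw [hb, map_zero, map_zero, map_zero]
  · obtain ⟨c, hc, hcb⟩ := hC₀ b hb
    rw [compVal_of_scale hπ hC₀ hc hcb]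
    refine compVal_of_scale hπ hC hc ?_
    have := h _ hcb
    rwa [map_mul, AlgHom.commutes] at this

section Norm

variable {L : Type*} [Field L] [Algebra ℚ L] {m q : ℕ} [NeZero m] [NeZero q]

/-- the norm of an arbitrary function, in terms of `q`-expansions. -/
theorem qExpand_normAlong_gen [CharZero L] (w : H99.AL L m q) (hq : 1 < q) {ζ : Lˣ}
    (hζ : IsPrimitiveRoot ζ q)
    (hfin : FiniteAlong L (heckeAlphaBar L m q))
    (hdeg : finrankAlong L (heckeAlphaBar L m q) ≤ q + 1) (x : H99.FX L (m * q)) :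
    qExpand L q ((H60.normAlong (heckeAlphaBar L m q) x : H99.FX L m) : LaurentSeries L) =
      qExpand L q (x : LaurentSeries L) *
        ∏ i : Fin q, H60.twist (ζ ^ (i : ℕ)) ((w.W x : H99.FX L (m * q)) : LaurentSeries L) := by
  have hw := H60.IsSwap.of_algHom (w.W : H99.FX L (m * q) →+* H99.FX L (m * q)) w.alpha w.beta
  letI := algebraAlong (heckeAlphaBar L m q)
  haveI : FiniteDimensional (H99.FX L m) (H99.FX L (m * q)) := hfin
  haveI : CharZero (H99.FX L m) :=
    charZero_of_injective_algebraMap (algebraMap L (H99.FX L m)).injective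
  have h := H60.map_norm_eq_prod
    (F := H99.FX L m) (F' := H99.FX L (m * q)) (E := LaurentSeries L)
    ((qExpand L q).comp (algebraMap (H99.FX L m) (LaurentSeries L)))
    (H60.heckeEmb _ ζ)
    (fun o x => H60.heckeEmb_alpha hw hζ.pow_eq_one o x)
    (H60.heckeEmb_injective hw hq hζ)
    (by
      rw [Fintype.card_option, Fintype.card_fin]
      exact hdeg)
    x
  have h2 : qExpand L q ((H60.normAlong (heckeAlphaBar L m q) x : H99.FX L m) :
        LaurentSeries L) = ∏ i, H60.heckeEmb _ ζ i x := h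
  rw [h2, Fintype.prod_option, H60.heckeEmb_none]
  rfl

end Norm

section Inst

variable {L : Type*} [Field L] [Algebra ℚ L] (A : ValuationSubring L) {k : Type*} [Field k]
  (π : A →+* k) {m q : ℕ} [NeZero m] [NeZero q] [hq : Fact q.Prime]
  [CharP k q] [Infinite k] (w : H99.AL L m q)
  (hπ : Function.Surjective π) (hD : H67.DegreeFact L)
  (hdeg : H42.DegLE L k m) (hqm : ¬ q ∣ m)

include w hπ hD hdeg hqm in
theorem red_gC_mem (f : H99.FX L m) : (gC A π m).red f ∈ modularFunctionFieldFullC k m := by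
  rw [← red_alpha (q := q)]
  exact (red_mem_full w hπ hD hdeg hqm _).1

/-- The Gauss component of the good level. -/
def comp0 : H84.Comp A π (H99.FX L m) (modularFunctionFieldFullC k m) :=
  (gC A π m).restrict (modularFunctionFieldFullC k m).val
    (fun v => ⟨(gC A π m).red v, red_gC_mem A π w hπ hD hdeg hqm v⟩) (fun _ => rfl)

theorem coe_red0 (f : H99.FX L m) :
    ((comp0 A π w hπ hD hdeg hqm).red f : LaurentSeries k) = (gC A π m).red f :=
  (gC A π m).restrict_red (modularFunctionFieldFullC k m).val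
    (fun v => ⟨(gC A π m).red v, red_gC_mem A π w hπ hD hdeg hqm v⟩) (fun _ => rfl) f

theorem comp0_V : (comp0 A π w hπ hD hdeg hqm).V = (gC A π m).V := rfl

theorem comp0_scalable : (comp0 A π w hπ hD hdeg hqm).Scalable :=
  restrict_scalable (gC_scalable A π m) _ _ _

/-- The valuation at the good level. -/
def v0 : Valuation (H99.FX L m) A.ValueGroup :=
  compVal _ hπ (comp0_scalable A π w hπ hD hdeg hqm)

/-- The first valuation. -/
def v1 : Valuation (H99.FX L (m * q)) A.ValueGroup :=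
  compVal _ hπ (comp1_scalable A π w hπ hD hdeg hqm)

/-- The second valuation. -/
def v2 : Valuation (H99.FX L (m * q)) A.ValueGroup :=
  compVal _ hπ (comp2_scalable A π w hπ hD hdeg hqm)

theorem red1_alpha (b : H99.FX L m) : (comp1 A π w hπ hD hdeg hqm).red (heckeAlphaBar L m q b) =
    (comp0 A π w hπ hD hdeg hqm).red b := by
  apply Subtype.ext
  rw [coe_red1, coe_red0, red_alpha]

theorem red2_alpha (b : H99.FX L m) : (comp2 A π w hπ hD hdeg hqm).red (heckeAlphaBar L m q b) =
    phi k m q ((comp0 A π w hπ hD hdeg hqm).red b) := by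
  apply Subtype.ext
  rw [coe_red2, coe_phi, coe_red0, red_gC2_alpha]

theorem red1_beta (b : H99.FX L m) : (comp1 A π w hπ hD hdeg hqm).red (heckeBetaBar L m q b) =
    phi k m q ((comp0 A π w hπ hD hdeg hqm).red b) := by
  apply Subtype.ext
  rw [coe_red1, coe_phi, coe_red0, red_beta]

theorem red2_beta (b : H99.FX L m) : (comp2 A π w hπ hD hdeg hqm).red (heckeBetaBar L m q b) =
    (comp0 A π w hπ hD hdeg hqm).red b := by
  apply Subtype.ext
  rw [coe_red2, coe_red0, red_gC2_beta]

theorem v1_alpha (b : H99.FX L m) : v1 A π w hπ hD hdeg hqm (heckeAlphaBar L m q b) =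
    v0 A π w hπ hD hdeg hqm b :=
  compVal_map hπ _ _ _ (fun b hb => by rw [red1_alpha]; exact hb) b

theorem v2_alpha (b : H99.FX L m) : v2 A π w hπ hD hdeg hqm (heckeAlphaBar L m q b) =
    v0 A π w hπ hD hdeg hqm b :=
  compVal_map hπ _ _ _ (fun b hb => by
    rw [red2_alpha]; exact (map_ne_zero_iff _ (RingHom.injective _)).mpr hb) b

theorem v1_beta (b : H99.FX L m) : v1 A π w hπ hD hdeg hqm (heckeBetaBar L m q b) =
    v0 A π w hπ hD hdeg hqm b :=
  compVal_map hπ _ _ _ (fun b hb => by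
    rw [red1_beta]; exact (map_ne_zero_iff _ (RingHom.injective _)).mpr hb) b

theorem v2_beta (b : H99.FX L m) : v2 A π w hπ hD hdeg hqm (heckeBetaBar L m q b) =
    v0 A π w hπ hD hdeg hqm b :=
  compVal_map hπ _ _ _ (fun b hb => by rw [red2_beta]; exact hb) b

theorem v2_eq (f : H99.FX L (m * q)) : v2 A π w hπ hD hdeg hqm f =
    v1 A π w hπ hD hdeg hqm (w.W f) :=
  (compVal_map hπ (comp1_scalable A π w hπ hD hdeg hqm) (comp2_scalable A π w hπ hD hdeg hqm)
    w.W.toAlgHom (fun b hb => by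
      show (comp1 A π w hπ hD hdeg hqm).red (w.W b) ≠ 0
      rwa [← red2_eq]) f).symm

theorem v1_W (f : H99.FX L (m * q)) : v1 A π w hπ hD hdeg hqm (w.W f) =
    v2 A π w hπ hD hdeg hqm f := (v2_eq A π w hπ hD hdeg hqm f).symm

theorem v2_W (f : H99.FX L (m * q)) : v2 A π w hπ hD hdeg hqm (w.W f) =
    v1 A π w hπ hD hdeg hqm f := by rw [v2_eq, w.invol]

theorem hasG1 {f : H99.FX L (m * q)} (hf : f ≠ 0) : ∃ (c : L) (r : modularFunctionFieldFullC k m),
    c ≠ 0 ∧ HasG π (f : LaurentSeries L) c (r : LaurentSeries k) ∧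
    v1 A π w hπ hD hdeg hqm f = A.valuation c ∧
    (comp1 A π w hπ hD hdeg hqm).red (algebraMap L _ c⁻¹ * f) = r := by
  obtain ⟨c, hc, h⟩ := comp1_scalable A π w hπ hD hdeg hqm f hf
  have h1 : (gC A π (m * q)).red (algebraMap L _ c * f) ≠ 0 := by
    rw [← coe_red1 A π w hπ hD hdeg hqm]
    exact fun h0 => h (Subtype.ext h0)
  have h2 := hasG_of_red A π hc h1
  rw [← coe_red1 A π w hπ hD hdeg hqm] at h2
  refine ⟨c⁻¹, _, inv_ne_zero hc, h2, ?_, by rw [inv_inv]⟩
  rw [v1, compVal_of_scale hπ _ hc h, map_inv₀]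

theorem hasG0 {f : H99.FX L m} (hf : f ≠ 0) : ∃ (c : L) (r : modularFunctionFieldFullC k m),
    c ≠ 0 ∧ HasG π (f : LaurentSeries L) c (r : LaurentSeries k) ∧
    v0 A π w hπ hD hdeg hqm f = A.valuation c ∧
    (comp0 A π w hπ hD hdeg hqm).red (algebraMap L _ c⁻¹ * f) = r := by
  obtain ⟨c, hc, h⟩ := comp0_scalable A π w hπ hD hdeg hqm f hf
  have h1 : (gC A π m).red (algebraMap L _ c * f) ≠ 0 := by
    rw [← coe_red0 A π w hπ hD hdeg hqm]
    exact fun h0 => h (Subtype.ext h0)
  have h2 := hasG_of_red A π hc h1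
  rw [← coe_red0 A π w hπ hD hdeg hqm] at h2
  refine ⟨c⁻¹, _, inv_ne_zero hc, h2, ?_, by rw [inv_inv]⟩
  rw [v0, compVal_of_scale hπ _ hc h, map_inv₀]

/-- units: the normalised representation -/
theorem hasG1_one {f : H99.FX L (m * q)} (hf : v1 A π w hπ hD hdeg hqm f = 1) :
    HasG π (f : LaurentSeries L) 1
      ((comp1 A π w hπ hD hdeg hqm).red f : LaurentSeries k) := by
  have h := (compVal_eq_one_iff hπ _).mp hf
  have h1 : (gC A π (m * q)).red (algebraMap L _ 1 * f) ≠ 0 := by
    rw [← coe_red1 A π w hπ hD hdeg hqm, map_one, one_mul]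
    exact fun h0 => h (Subtype.ext h0)
  have h2 := hasG_of_red A π one_ne_zero h1
  rwa [← coe_red1 A π w hπ hD hdeg hqm, map_one, one_mul, inv_one] at h2

theorem hasG0_one {f : H99.FX L m} (hf : v0 A π w hπ hD hdeg hqm f = 1) :
    HasG π (f : LaurentSeries L) 1
      ((comp0 A π w hπ hD hdeg hqm).red f : LaurentSeries k) := by
  have h := (compVal_eq_one_iff hπ _).mp hf
  have h1 : (gC A π m).red (algebraMap L _ 1 * f) ≠ 0 := by
    rw [← coe_red0 A π w hπ hD hdeg hqm, map_one, one_mul]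
    exact fun h0 => h (Subtype.ext h0)
  have h2 := hasG_of_red A π one_ne_zero h1
  rwa [← coe_red0 A π w hπ hD hdeg hqm, map_one, one_mul, inv_one] at h2

end Inst

end Fermat.Agent.H97
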