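import Mathlib
import Fermat.Agent.H33Hyp
import Fermat.Agent.H84TwoSS2
import Fermat.Agent.H89Inst
import Fermat.Agent.H97MdI
import Fermat.Agent.H90Exist

/-!
# The two geometric inputs of S33: `CLp` and `SS2p` (helper84)
-/

set_option autoImplicit false
set_option linter.style.haveILetI false

noncomputable section

open AlgebraicCurve ModularCurve IntermediateField HahnSeries Module Fermat.Agent.H34.Two

namespace Fermat.Agent.H84

section Gen

variable {K F k κ : Type*} [Field K] [Field F] [Algebra K F] [Field k] [Field κ] [Algebra k κ]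
  {A : ValuationSubring K} {π : A →+* k}

theorem close_iff_closeAt (C : Comp A π F κ) (p : ℕ) (lam : K) (f : F) :
    Close C p lam f ↔ H33.CloseAt C p lam f := by
  constructor
  · rintro ⟨y, z, h1, h2, h3, h4⟩
    exact ⟨y, z, h1, h2, h3, by rw [h4, map_pow]⟩
  · rintro ⟨y, z, h1, h2, h3, h4⟩
    exact ⟨y, z, h1, h2, h3, by rw [h4, map_pow]⟩

/-- transfer of closeness between components with the same valuation ring. -/
theorem close_of_red {κ' : Type*} [Field κ'] [Algebra k κ'] {C : Comp A π F κ}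
    {C' : Comp A π F κ'} (hV : ∀ f, f ∈ C.V → f ∈ C'.V)
    (h0 : ∀ f, f ∈ C.V → C.red f = 0 → C'.red f = 0) {p : ℕ} {lam : K} {f : F}
    (h : Close C p lam f) : Close C' p lam f := by
  obtain ⟨y, z, h1, h2, h3, h4⟩ := h
  exact ⟨y, z, h1, hV z h2, h0 z h2 h3, h4⟩

end Gen

section Main

variable {L : Type*} [Field L] [Algebra ℚ L] [CharZero L] [IsAlgClosed L] {A : ValuationSubring L}
  {k : Type*} [Field k] [IsAlgClosed k] {π : A →+* k} {M p : ℕ} [NeZero M] [NeZero p]
  [Fact p.Prime] [CharP k p]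

theorem clp_aux (w : H99.AL L M p) (hπ : Function.Surjective π) (hpM : ¬ p ∣ M)
    (arch : Arch A π)
    (hgen : genusFF L (H97.FF L M) = genusFF k (modularFunctionFieldFullC k M)) {ζ : L}
    (hζ : IsPrimitiveRoot ζ p) {f : H99.FX L M} (hf : f ≠ 0)
    (hdiv : ∀ v : Place L (H99.FX L M), (p : ℤ) ∣ v.ord f)
    (hclose : H33.CloseAt (gC A π M) p (ζ - 1) f) : ∃ h, f = h ^ p := by
  have hD : H67.DegreeFact L := H42.degreeFact L
  have hdeg : H42.DegLE L k M := H42.degLE_of L k M (cast_ne_zero_of_not_dvd k hpM)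
  haveI : H3RR.IsFF L (H99.FX L M) := H97.isFF_FF L M
  haveI : H3RR.IsFF k (modularFunctionFieldFullC k M) :=
    ⟨(H42.funField_right (L := L) M hdeg).out⟩
  let C := H97.comp0 A π w hπ hD hdeg hpM
  have hred : ∀ g, ((C.red g : modularFunctionFieldFullC k M) :
      LaurentSeries k) = (gC A π M).red g :=
    H97.coe_red0 A π w hπ hD hdeg hpM
  have e1 : C.red (jm L M) = jk k M := by
    apply Subtype.ext
    rw [hred, red_jm]
    rfl
  have hcl : Close C p (ζ - 1) f := by
    refine close_of_red (C := gC A π M) (C' := C) (fun g hg => hg)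
      (fun g _ hg => ?_) ((close_iff_closeAt _ _ _ _).mpr hclose)
    apply Subtype.ext
    rw [hred, hg]
    rfl
  obtain ⟨u, hu⟩ := exists_root_of_close hπ arch C (x := jm L M) (jm_mem A _)
    (by rw [e1]; exact transcendental_jk)
    (fun t => by
      obtain ⟨g, hg, hgt⟩ := mem_image_gC A π hπ (NeZero.ne M) t.2
      exact ⟨g, hg, Subtype.ext ((hred g).trans hgt)⟩)
    (by
      rw [e1]
      have h1 := finrank_jk (m := M) hD hdeg
      have h2 : finrank L⟮jm L M⟯ (H99.FX L M) = dedekindPsi M := by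
        have hx : jqModC L ∈ H99.FX L M := by
          rw [← H66.J_one, ← coe_jm (m := M)]
          exact (jm L M).2
        have e : jm L M = ⟨jqModC L, hx⟩ := Subtype.ext (by rw [coe_jm, H66.J_one])
        rw [e, ← H42.relfinrank_eq_finrank_adjoin _ hx, H99.FX_eq, hD M]
      rw [h2]
      exact h1)
    hgen.le hζ hf hdiv hcl
  exact ⟨u, hu.symm⟩

theorem ss2p_aux (w : H99.AL L M p) (hπ : Function.Surjective π) (hpM : ¬ p ∣ M)
    [IsLocalHom π] (arch : H97.Arch A) (arch' : Arch A π)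
    (hgen : genusFF L (H97.FF L M) = genusFF k (modularFunctionFieldFullC k M))
    (τ : k ≃+* k) (hτ : ∀ x, τ x = x ^ p) {σ : L ≃ₐ[ℚ] L} {s : A →+* A}
    (hs : H60.Compat π σ s (RingEquiv.refl k)) (hbase : ∀ c : L, c ≠ 0 → σ c / c ∈ A)
    (hJ : {x : Pic0 L (H99.FX L (M * p)) | p • x = 0}.Finite)
    [NeZero (M * p)] {ζ : L}
    (hζ : IsPrimitiveRoot ζ p) {a : ℕ} (ha : σ ζ = ζ ^ a) {f : H99.FX L (M * p)} (hf : f ≠ 0)
    (hdiv : ∀ v : Place L (H99.FX L (M * p)), (p : ℤ) ∣ v.ord f)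
    (hc1 : H33.CloseAt (gC A π (M * p)) p (ζ - 1) f)
    (hc2 : H33.CloseAt (gC2 A π w) p (ζ - 1) f) :
    ∃ u : H99.FX L (M * p),
      u ^ p = (arithmeticGalois (modularFunctionFieldFull (M * p)) σ • f) / f ^ a := by
  have hD : H67.DegreeFact L := H42.degreeFact L
  have hdeg : H42.DegLE L k M := H42.degLE_of L k M (cast_ne_zero_of_not_dvd k hpM)
  haveI : H3RR.IsFF L (H99.FX L (M * p)) := H97.isFF_FF L (M * p)
  haveI : H3RR.IsFF k (modularFunctionFieldFullC k M) :=
    ⟨(H42.funField_right (L := L) M hdeg).out⟩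
  obtain ⟨P₁, hP₁⟩ := H97.exists_isInf (H99.FX L (M * p)) (H97.jqModC_mem_bar L (M * p))
  obtain ⟨P, hP⟩ := H97.exists_isInf (modularFunctionFieldFullC k M) (jk k M).2
  let T := twoComp A π w hπ hpM arch hgen hP₁ hP τ hτ
  have hg := twoComp_compat A π w hπ hpM arch hgen hP₁ hP τ hτ hs hbase
  rw [H60.coeffAut_refl] at hg
  refine smul_eq_of_twoComp (T := T) hπ arch' hJ hg hζ ha hf hdiv ?_ ?_
  · refine close_of_red (C := gC A π (M * p)) (C' := comp₁ T) (fun g hg => hg)
      (fun g hg1 hg => ?_) ((close_iff_closeAt _ _ _ _).mpr hc1)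
    rw [comp₁_red T hg1]
    apply Subtype.ext
    exact (coe_ρ1 A π w hπ hpM hg1).trans hg
  · refine close_of_red (C := gC2 A π w) (C' := comp₂ T) (fun g hg => hg)
      (fun g hg1 hg => ?_) ((close_iff_closeAt _ _ _ _).mpr hc2)
    rw [comp₂_red T hg1]
    apply Subtype.ext
    refine (coe_ρ2 A π w hπ hpM hg1).trans ?_
    rw [← red_gC2]
    exact hg

end Main

local notation "Qb" => AlgebraicClosure ℚ

section Concrete

variable {p M : ℕ} [NeZero M] [NeZero p] {A : ValuationSubring (AlgebraicClosure ℚ)}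

/-- **(CL_p)** -/
theorem clp (hp : p.Prime) (hpM : ¬ p ∣ M) (hA : A.LiesOverPrime p) : H33.CLp p M A := by
  intro ζ hζ f hf hdiv hclose
  haveI : Fact p.Prime := ⟨hp⟩
  haveI : CharP (IsLocalRing.ResidueField A) p := H05.charP_residueField hp hA
  haveI : IsAlgClosed (IsLocalRing.ResidueField A) := H18.isAlgClosed_residueField A
  have hc : M.Coprime p := ((Nat.Prime.coprime_iff_not_dvd hp).2 hpM).symm
  obtain ⟨w⟩ := H99.nonempty_AL (L := Qb) H67.embQbar hc
  exact clp_aux w IsLocalRing.residue_surjective hpM (H89Arch.arch' hp hA)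
    (H88.genusFFEq M hpM A hA) hζ hf hdiv hclose

/-- **(SS2_p)** -/
theorem ss2p [NeZero (M * p)] (hp : p.Prime) (hpM : ¬ p ∣ M) (hA : A.LiesOverPrime p)
    (w : H99.AL Qb M p) : H33.SS2p p M A w := by
  intro ζ hζ W _ _ _ hclose σ hσ a ha x hx
  haveI : Fact p.Prime := ⟨hp⟩
  haveI : CharP (IsLocalRing.ResidueField A) p := H05.charP_residueField hp hA
  haveI : IsAlgClosed (IsLocalRing.ResidueField A) := H18.isAlgClosed_residueField A
  obtain ⟨τ, hτ⟩ := H60.exists_frobAut hp hA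
  obtain ⟨f, hf, hc1, hc2⟩ := hclose x hx
  obtain ⟨s, hs⟩ : ∃ s, H60.Compat (IsLocalRing.residue A) σ s (RingEquiv.refl _) := by
    obtain ⟨σ', hσ', rfl⟩ := hσ
    have hid : ∀ x : IsLocalRing.ResidueField A, σ' • x = RingEquiv.refl _ x := by
      intro x
      have h := MonoidHom.mem_ker.mp hσ'
      exact DFunLike.congr_fun h x
    exact ⟨_, H60.compat_of_mem (A := A) σ'.2 (RingEquiv.refl _) hid⟩
  have hbase : ∀ c : Qb, c ≠ 0 → σ c / c ∈ A := by
    obtain ⟨σ', hσ', rfl⟩ := hσ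
    exact fun c hc => H89J.div_mem_of_mem_decomposition σ'.2 c hc
  obtain ⟨u, hu⟩ := ss2p_aux w IsLocalRing.residue_surjective hpM (H89Arch.arch hp hA)
    (H89Arch.arch' hp hA) (H88.genusFFEq M hpM A hA) τ hτ hs hbase
    (H90.finite_jzero (N := M * p) hp.ne_zero) hζ ha hf.ne_zero (fun v => by
      obtain ⟨-, D, -, hD⟩ := hf
      exact ⟨_, (hD v).symm⟩) hc1 hc2
  have h2 : H33.IsKum p (σ • x - a • x)
      (arithmeticGalois (modularFunctionFieldFull (M * p)) σ • f / f ^ a) :=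
    (hf.smul (arithmeticGalois (modularFunctionFieldFull (M * p)) σ)).div (hf.pow a)
  have h3 := h2.eq_zero hp.ne_zero (c := 1) (h := u) (by rw [map_one, one_mul, hu])
  exact sub_eq_zero.mp h3

end Concrete

end Fermat.Agent.H84
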