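import Mathlib
import Fermat.Agent.H84SSp
import Fermat.Agent.H97MdL

/-!
# `SS2p` in terms of the two valuations `H97.vv` (helper84)
-/

set_option autoImplicit false
set_option linter.style.haveILetI false

noncomputable section

open AlgebraicCurve ModularCurve IntermediateField HahnSeries Module Fermat.Agent.H34.Two

namespace Fermat.Agent.H84

section Gen

variable {K F k κ : Type*} [Field K] [Field F] [Algebra K F] [Field k] [Field κ] [Algebra k κ]
  {A : ValuationSubring K} {π : A →+* k}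

/-- closeness from valuations -/
theorem closeAt_of_val {C : Comp A π F κ} (hπ : Function.Surjective π) (hC : C.Scalable) {p : ℕ}
    {lam : K} (hlam : lam ≠ 0) {f : F}
    (h : H97.compVal C hπ hC (f - 1) < A.valuation lam ^ p) : Close C p lam f := by
  have hl : algebraMap K F lam ^ p ≠ 0 := pow_ne_zero _ ((_root_.map_ne_zero _).mpr hlam)
  have hv : H97.compVal C hπ hC (algebraMap K F lam ^ p) = A.valuation lam ^ p := by
    rw [map_pow, H97.compVal_algebraMap]
  have h1 : H97.compVal C hπ hC ((f - 1) / algebraMap K F lam ^ p) < 1 := by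
    rw [map_div₀, hv]
    have h0 : 0 < A.valuation lam ^ p :=
      pow_pos (zero_lt_iff.mpr ((Valuation.ne_zero_iff _).mpr hlam)) p
    exact (div_lt_one₀ h0).mpr h
  refine ⟨1, (f - 1) / algebraMap K F lam ^ p, one_ne_zero,
    (H97.compVal_le_one_iff hπ hC).mp h1.le, (H97.red_eq_zero_iff hπ hC h1.le).mpr h1, ?_⟩
  rw [one_pow, mul_one, mul_div_cancel₀ _ hl]
  ring

end Gen

section Main

variable {L : Type*} [Field L] [Algebra ℚ L] [CharZero L] [IsAlgClosed L] {A : ValuationSubring L}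
  {k : Type*} [Field k] [IsAlgClosed k] {π : A →+* k} {M p : ℕ} [NeZero M] [NeZero p]
  [Fact p.Prime] [CharP k p]

theorem ss2_vv_aux (w : H99.AL L M p) (hπ : Function.Surjective π) (hpM : ¬ p ∣ M)
    (hdeg : H42.DegLE L k M)
    [IsLocalHom π] (arch : H97.Arch A) (arch' : Arch A π)
    (hgen : genusFF L (H97.FF L M) = genusFF k (modularFunctionFieldFullC k M))
    (τ : k ≃+* k) (hτ : ∀ x, τ x = x ^ p) {σ : L ≃ₐ[ℚ] L} {s : A →+* A}
    (hs : H60.Compat π σ s (RingEquiv.refl k)) (hbase : ∀ c : L, c ≠ 0 → σ c / c ∈ A)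
    (hJ : {x : Pic0 L (H99.FX L (M * p)) | p • x = 0}.Finite)
    [NeZero (M * p)] {ζ : L}
    (hζ : IsPrimitiveRoot ζ p) {a : ℕ} (ha : σ ζ = ζ ^ a) {f : H99.FX L (M * p)} (hf : f ≠ 0)
    (hdiv : ∀ v : Place L (H99.FX L (M * p)), (p : ℤ) ∣ v.ord f)
    (hc : ∀ i, H97.vv w hπ hdeg hpM i (f - 1) < A.valuation (ζ - 1) ^ p) :
    ∃ φ : H99.FX L (M * p), φ ≠ 0 ∧
      arithmeticGalois (modularFunctionFieldFull (M * p)) σ • f = f ^ a * φ ^ p := by
  have hD : H67.DegreeFact L := H42.degreeFact L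
  have hlam : ζ - 1 ≠ 0 := sub_ne_zero.mpr (hζ.ne_one (Fact.out : p.Prime).one_lt)
  have h1 : Close (comp1 A π w hπ hD hdeg hpM) p (ζ - 1) f :=
    closeAt_of_val hπ (comp1_scalable A π w hπ hD hdeg hpM) hlam (hc false)
  have h2 : Close (comp2 A π w hπ hD hdeg hpM) p (ζ - 1) f :=
    closeAt_of_val hπ (comp2_scalable A π w hπ hD hdeg hpM) hlam (hc true)
  have h1' : H33.CloseAt (gC A π (M * p)) p (ζ - 1) f := by
    refine (close_iff_closeAt _ _ _ _).mp (close_of_red (C := comp1 A π w hπ hD hdeg hpM)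
      (C' := gC A π (M * p)) (fun g hg => hg) (fun g _ hg => ?_) h1)
    rw [← coe_red1 A π w hπ hD hdeg hpM, hg]
    rfl
  have h2' : H33.CloseAt (gC2 A π w) p (ζ - 1) f := by
    refine (close_iff_closeAt _ _ _ _).mp (close_of_red (C := comp2 A π w hπ hD hdeg hpM)
      (C' := gC2 A π w) (fun g hg => hg) (fun g _ hg => ?_) h2)
    rw [← coe_red2 A π w hπ hD hdeg hpM, hg]
    rfl
  obtain ⟨u, hu⟩ := ss2p_aux w hπ hpM arch arch' hgen τ hτ hs hbase hJ hζ ha hf hdiv h1' h2'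
  have hfa : f ^ a ≠ 0 := pow_ne_zero _ hf
  refine ⟨u, ?_, ?_⟩
  · rintro rfl
    rw [zero_pow (Fact.out : p.Prime).ne_zero] at hu
    have h3 : arithmeticGalois (modularFunctionFieldFull (M * p)) σ • f ≠ 0 :=
      (smul_ne_zero_iff_ne _).mpr hf
    exact div_ne_zero h3 hfa hu.symm
  · rw [hu, mul_div_cancel₀ _ hfa]

end Main

local notation "Qb" => AlgebraicClosure ℚ

section Concrete

variable {p M : ℕ} [NeZero M] [NeZero p] [NeZero (M * p)] [Fact p.Prime]
  {A : ValuationSubring (AlgebraicClosure ℚ)}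

/-- **(SS2_p)** for the two valuations `vv` (field `ss2` of `H40.Geo`). -/
theorem ss2_vv [IsAlgClosed (IsLocalRing.ResidueField A)] [CharP (IsLocalRing.ResidueField A) p]
    (hpM : ¬ p ∣ M) (hA : A.LiesOverPrime p) (w : H99.AL Qb M p)
    (hπ : Function.Surjective (IsLocalRing.residue A))
    (hdeg : H42.DegLE Qb (IsLocalRing.ResidueField A) M) {ζ : Qb} (hζ : IsPrimitiveRoot ζ p)
    {σ : Qb ≃ₐ[ℚ] Qb} (hσ : σ ∈ A.inertiaSubgroupIn ℚ) {a : ℕ} (ha : σ ζ = ζ ^ a)
    {f : H99.FX Qb (M * p)} (hf : f ≠ 0)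
    (hdiv : ∀ v : Place Qb (H99.FX Qb (M * p)), (p : ℤ) ∣ v.ord f)
    (hc : ∀ i, H97.vv w hπ hdeg hpM i (f - 1) < A.valuation (ζ - 1) ^ p) :
    ∃ φ : H99.FX Qb (M * p), φ ≠ 0 ∧
      arithmeticGalois (modularFunctionFieldFull (M * p)) σ • f = f ^ a * φ ^ p := by
  have hp : p.Prime := Fact.out
  obtain ⟨τ, hτ⟩ := H60.exists_frobAut hp hA
  obtain ⟨s, hs⟩ : ∃ s, H60.Compat (IsLocalRing.residue A) σ s (RingEquiv.refl _) := by
    obtain ⟨σ', hσ', rfl⟩ := hσ
    have hid : ∀ x : IsLocalRing.ResidueField A, σ' • x = RingEquiv.refl _ x := by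
      intro x
      have h := MonoidHom.mem_ker.mp hσ'
      exact DFunLike.congr_fun h x
    exact ⟨_, H60.compat_of_mem (A := A) σ'.2 (RingEquiv.refl _) hid⟩
  have hbase : ∀ c : Qb, c ≠ 0 → σ c / c ∈ A := by
    obtain ⟨σ', hσ', rfl⟩ := hσ
    exact fun c hc => H89J.div_mem_of_mem_decomposition σ'.2 c hc
  exact ss2_vv_aux w hπ hpM hdeg (H89Arch.arch hp hA)
    (H89Arch.arch' hp hA) (H88.genusFFEq M hpM A hA) τ hτ hs hbase
    (H90.finite_jzero (N := M * p) hp.ne_zero) hζ ha hf hdiv hc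

end Concrete

end Fermat.Agent.H84
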