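import Fermat.Agent.H73Lift
import Fermat.Agent.H73Geo
import Fermat.Agent.H31EqL
import Fermat.Agent.H40NOp
import Fermat.Agent.H84Vv

/-!
# The package `H40.Geo` for the concrete data of `X_0(mq)`
-/

set_option autoImplicit false
set_option linter.unusedSectionVars false
set_option maxHeartbeats 2000000
set_option synthInstance.maxHeartbeats 200000

noncomputable section

open AlgebraicCurve ModularCurve IntermediateField WithZero Fermat.Agent.H97
  Fermat.Agent.H34.Two Fermat.Agent.H31.In Fermat.Agent.H31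

namespace Fermat.Agent.H73.GeoX

section Inst

variable {L : Type*} [Field L] [Algebra ℚ L] {A : ValuationSubring L} {k : Type*} [Field k]
  {π : A →+* k} {m q : ℕ} [NeZero m] [NeZero q] [hq : Fact q.Prime]
  [CharP k q] [IsAlgClosed k] [Infinite k] (w : H99.AL L m q)
  (hπ : Function.Surjective π)
  (hdeg : H42.DegLE L k m) (hqm : ¬ q ∣ m)
  [IsAlgClosed L] [CharZero L] [IsLocalHom π]
  (ι : L →+* ℂ) {e : ℕ} (he : e = 4 ∨ e = 9) (hem : e ∣ m)
  (arch : Arch A)
  (r : Place L (H99.FX L m) → Place k (modularFunctionFieldFullC k m))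
  {c : ℕ}
  (hr1 : ∀ D : Divisor L (H99.FX L m), (c : ℤ) < Divisor.degree D →
    (H42.modReductionData A π m hπ hdeg).IsRed D (Finsupp.mapDomain r D))
  (hr2 : H34.GR.DivCompat (H42.modReductionData A π m hπ hdeg) r)
  [H3RR.IsFF L (H99.FX L m)] [H3RR.IsFF L (H99.FX L (m * q))]
  [H3RR.IsFF k (modularFunctionFieldFullC k m)] [H94.FunField L (H99.FX L m)]
  [H94.FunField L (H99.FX L (m * q))]
  {G : Subgroup (L ≃ₐ[ℚ] L)}

/-- the lifting property of `dataX` -/
theorem lifts_dataX (hG : EqI.TrivV π G) {P₀ : Place L (H99.FX L m)} (hP₀ : IsInf P₀)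
    (htors : Eq.Equi.Tors (sheets w hπ hdeg hqm arch r hr1 hr2)) :
    (EqI.dataX w hπ hdeg hqm ι he hem arch r hr1 hr2 hG hP₀ htors).Lifts :=
  Lf.lifts (EqI.equi w hπ hdeg hqm arch hr1 hr2 hG hP₀) _ rfl (fun _ _ => rfl)
    (fun n => ⟨_, _, _,
      fun σ _ => EqI.fix_of_int (H45.Nd.coe_zF he hem) (σ : L ≃ₐ[ℚ] L),
      fun σ _ => EqI.fix_of_int (H45.Nd.coe_zF' he hem) (σ : L ≃ₐ[ℚ] L),
      H45.Nd.nodePar w hπ hdeg hqm ι he hem arch r hr1 hr2 n.2⟩)

end Inst

section Qbar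

local notation "Qb" => AlgebraicClosure ℚ

variable {m q : ℕ} [NeZero m] [NeZero q] [hq : Fact q.Prime] {A : ValuationSubring Qb}
  [CharP (IsLocalRing.ResidueField A) q] [IsAlgClosed (IsLocalRing.ResidueField A)]
  [Infinite (IsLocalRing.ResidueField A)] (w : H99.AL Qb m q)
  (hdeg : H42.DegLE Qb (IsLocalRing.ResidueField A) m) (hqm : ¬ q ∣ m)
  (ι : Qb →+* ℂ) {e : ℕ} (he : e = 4 ∨ e = 9) (hem : e ∣ m)
  (arch : Arch A)
  (r : Place Qb (H99.FX Qb m) → Place (IsLocalRing.ResidueField A)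
    (modularFunctionFieldFullC (IsLocalRing.ResidueField A) m))
  {c : ℕ}
  (hr1 : ∀ D : Divisor Qb (H99.FX Qb m), (c : ℤ) < Divisor.degree D →
    (H42.modReductionData A (IsLocalRing.residue A) m IsLocalRing.residue_surjective hdeg).IsRed D
      (Finsupp.mapDomain r D))
  (hr2 : H34.GR.DivCompat (H42.modReductionData A (IsLocalRing.residue A) m
    IsLocalRing.residue_surjective hdeg) r)
  [H3RR.IsFF Qb (H99.FX Qb m)] [H3RR.IsFF Qb (H99.FX Qb (m * q))]
  [H3RR.IsFF (IsLocalRing.ResidueField A)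
    (modularFunctionFieldFullC (IsLocalRing.ResidueField A) m)]
  [H94.FunField Qb (H99.FX Qb m)] [H94.FunField Qb (H99.FX Qb (m * q))]

/-- **The `Geo` package for `X_0(mq)` over `Qb`.** -/
theorem geoX (hA : A.LiesOverPrime q) {P₀ : Place Qb (H99.FX Qb m)} (hP₀ : IsInf P₀)
    (htors : Eq.Equi.Tors (sheets w IsLocalRing.residue_surjective hdeg hqm arch r hr1 hr2))
    {ζ : Qbˣ} (hζ : IsPrimitiveRoot ζ q) :
    H40.Geo (EqI.dataX w IsLocalRing.residue_surjective hdeg hqm ι he hem arch r hr1 hr2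
      (EqI.trivV hA IsLocalRing.residue_surjective) hP₀ htors) w.W (H40.Nrm.nOp hqm hζ) (ζ : Qb) := by
  haveI : CharP (modularFunctionFieldFullC (IsLocalRing.ResidueField A) m) q :=
    charP_of_injective_algebraMap
      (algebraMap (IsLocalRing.ResidueField A)
        (modularFunctionFieldFullC (IsLocalRing.ResidueField A) m)).injective q
  have hζ' : IsPrimitiveRoot (ζ : Qb) q := IsPrimitiveRoot.coe_units_iff.mpr hζ
  refine Geo.mkGeo (EqI.equi w IsLocalRing.residue_surjective hdeg hqm arch hr1 hr2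
    (EqI.trivV hA IsLocalRing.residue_surjective) hP₀) _ rfl rfl hA hζ'
    (lifts_dataX w IsLocalRing.residue_surjective hdeg hqm ι he hem arch r hr1 hr2 _ hP₀ htors)
    ?_ ?_
  · intro σ a ha f hf hdiv hc
    refine H84.ss2_vv hqm hA w IsLocalRing.residue_surjective hdeg hζ' σ.2 ha hf hdiv fun i => ?_
    cases i
    · exact hc false
    · exact hc true
  · exact H40.Nrm.nop_inst w IsLocalRing.residue_surjective (H42.degreeFact Qb) hdeg hqm hζ _
      (fun σ => (σ : Qb ≃ₐ[ℚ] Qb)) (fun _ _ => rfl) (fun _ => rfl) (fun _ => rfl)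

end Qbar

end Fermat.Agent.H73.GeoX
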