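import Fermat.Agent.H38S44A
import Fermat.Agent.H73GeoX
import Fermat.Agent.H40Node
import Fermat.Agent.H44Kum
import Fermat.Agent.H44ESide
import Fermat.Agent.H31Kum2
import Fermat.Agent.H54Frobenius

/-!
# Row 38: level lowering at `p` (helper38)
-/

set_option autoImplicit false
set_option linter.unusedSectionVars false
set_option linter.style.haveILetI false
set_option maxHeartbeats 2000000
set_option synthInstance.maxHeartbeats 200000

noncomputable section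

open AlgebraicCurve ModularCurve IntermediateField WithZero
open Fermat.Agent.H97 Fermat.Agent.H34.Two Fermat.Agent.H31.In Fermat.Agent.H31
open Fermat.Agent.H61.L5

namespace Fermat.Agent.H38.S44

local notation "Qb" => AlgebraicClosure ℚ

theorem nOp_eq {p M : ℕ} [Fact p.Prime] [NeZero p] [NeZero M] (w : H99.AL Qb M p) (hpM : ¬ p ∣ M)
    {ζ : Qbˣ} (hζ : IsPrimitiveRoot ζ p) (f : H99.FX Qb (M * p)) :
    H40.Nrm.nOp hpM hζ f =
      heckeAlphaBar Qb M p (H60.normAlong (heckeAlphaBar Qb M p) (w.W f)) * (w.W f)⁻¹ := by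
  rcases eq_or_ne f 0 with rfl | hf
  · rw [H40.Nrm.nOp_zero, map_zero, inv_zero, mul_zero]
  · have h0 : w.W f ≠ 0 := (_root_.map_ne_zero w.W).mpr hf
    rw [H40.Nrm.alpha_normAlong w hpM hζ, w.invol, mul_comm (w.W f), mul_assoc,
      mul_inv_cancel₀ h0, mul_one]

/-- **Level lowering at `p`** for a new embedding. -/
theorem resModular_of_newEmb {W : WeierstrassCurve ℤ} {p : Nat.Primes} [NeZero (p : ℕ)]
    (hp5 : 5 ≤ (p : ℕ)) (hΔ : W.Δ ≠ 0) (hirr : W.ModRepIsIrreducible p)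
    {M₀ : ℕ} [NeZero M₀] [NeZero (M₀ * p)] (hM₀ : Squarefree M₀)
    {S : Set ℕ}
    (hS : ∀ ℓ : ℕ, ℓ.Prime → W.IsGoodPrimeFor ℓ → ¬ ℓ ∣ M₀ → ℓ ≠ p → ℓ ∉ S)
    (E₀ : NewEmb W p M₀ S)
    (hE : ∀ A : ValuationSubring Qb, A.LiesOverPrime p → ∀ ζ : Qb, IsPrimitiveRoot ζ (p : ℕ) →
      Nonempty (H40.ESide (G := A.inertiaSubgroupIn ℚ) A.valuation p (H44E.TorQ W p) ζ)) :
    W.IsResiduallyModularOfLevel p M₀ := by
  haveI hpf : Fact (p : ℕ).Prime := ⟨p.2⟩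
  obtain ⟨M, hdvd, h4M, h4, hpM, i1, i2, h, E, -, hEι⟩ := E₀.exists_aux hp5
  obtain ⟨A, hA⟩ := H54.exists_liesOverPrime p.2
  haveI hk1 : IsAlgClosed (IsLocalRing.ResidueField A) := H18.isAlgClosed_residueField A
  haveI hk2 : CharP (IsLocalRing.ResidueField A) p :=
    H1.charP_of_liesOver A hA (IsLocalRing.residue A)
  haveI hk3 : Infinite (IsLocalRing.ResidueField A) := IsAlgClosed.instInfinite
  have hdeg : H42.DegLE Qb (IsLocalRing.ResidueField A) M := H18.degLE_of_not_dvd M hpM A hA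
  have hco : M.Coprime p := ((Nat.Prime.coprime_iff_not_dvd p.2).2 hpM).symm
  obtain ⟨w⟩ := H99.nonempty_AL (L := Qb) H67.embQbar hco
  obtain ⟨r, c, hr1, hr2, -⟩ := EqI.exists_r hpM hA hdeg
  have arch : Arch A := H89Arch.arch p.2 hA
  haveI j1 : H3RR.IsFF Qb (H99.FX Qb M) := isFF_FF Qb M
  haveI j2 : H3RR.IsFF Qb (H99.FX Qb (M * p)) := isFF_FF Qb (M * p)
  haveI j3 : H3RR.IsFF (IsLocalRing.ResidueField A)
    (modularFunctionFieldFullC (IsLocalRing.ResidueField A) M) := isFF_right (L := Qb) hdeg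
  haveI j4 : H94.FunField Qb (H99.FX Qb M) := H3RR.funField_of_isFF
  haveI j5 : H94.FunField Qb (H99.FX Qb (M * p)) := H3RR.funField_of_isFF
  haveI j6 : CharP (modularFunctionFieldFullC (IsLocalRing.ResidueField A) M) p :=
    charP_of_injective_algebraMap
      (algebraMap (IsLocalRing.ResidueField A)
        (modularFunctionFieldFullC (IsLocalRing.ResidueField A) M)).injective p
  obtain ⟨P₀, hP₀⟩ := exists_isInf (H99.FX Qb M) (jqModC_mem_bar Qb M)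
  have htors := EqI.tors w IsLocalRing.residue_surjective hdeg hpM arch r hr1 hr2 hA
  -- a primitive root
  obtain ⟨ζ, hζ⟩ : ∃ ζ : Qbˣ, IsPrimitiveRoot ζ (p : ℕ) := by
    obtain ⟨ζ, hζ⟩ := HasEnoughRootsOfUnity.exists_primitiveRoot Qb (p : ℕ)
    exact ⟨(hζ.isUnit p.2.ne_zero).unit, IsPrimitiveRoot.coe_units_iff.mp hζ⟩
  obtain ⟨Es⟩ := hE A hA (ζ : Qb) (IsPrimitiveRoot.coe_units_iff.mpr hζ)
  have R := H73.GeoX.geoX w hdeg hpM H67.embQbar (Or.inl rfl) h4M arch r hr1 hr2 hA hP₀ htors hζ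
  set Dt := EqI.dataX w IsLocalRing.residue_surjective hdeg hpM H67.embQbar (Or.inl rfl) h4M arch r
    hr1 hr2 (EqI.trivV hA IsLocalRing.residue_surjective) hP₀ htors with hDt
  obtain ⟨U₀, hU₀, hfix⟩ := H44K.exists_kum_functions E₀
  let Q : H40.Kum Qb (A.inertiaSubgroupIn ℚ) (p : ℕ) (H39.Tor W p) w.W (H40.Nrm.nOp hpM hζ) :=
    H44K.kumAux E₀ E h hEι w (A := A) (fun _ _ => rfl) (H40.Nrm.nOp hpM hζ) (nOp_eq w hpM hζ)
      U₀ hU₀ hfix
  have hQU : ∀ x, Q.U x = H67.dg Qb 1 h (U₀ x) := fun _ => rfl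
  -- scaling
  obtain ⟨c', hc', hvc'⟩ := (Dt.comp false).scale (Q.U Es.z) (Q.ne Es.z)
  have hc'F : algebraMap Qb (H99.FX Qb (M * p)) c' ≠ 0 := (_root_.map_ne_zero _).mpr hc'
  have hv : Dt.M.v false (Q.U Es.z / algebraMap Qb (H99.FX Qb (M * p)) c') = 1 := by
    rw [map_div₀, (Dt.comp false).v_alg, hvc', div_self]
    exact (Valuation.ne_zero_iff _).mpr hc'
  have hu0 : Q.U Es.z / algebraMap Qb (H99.FX Qb (M * p)) c' ≠ 0 := div_ne_zero (Q.ne _) hc'F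
  have hudiv : ∀ P : Place Qb (H99.FX Qb (M * p)),
      ((p : ℕ) : ℤ) ∣ P.ord (Q.U Es.z / algebraMap Qb (H99.FX Qb (M * p)) c') := by
    intro P
    rw [H31.MP.ord_div P (Q.ne _) hc'F, H31.MP.ord_alg P hc', sub_zero]
    exact Q.dvd _ P
  refine resModular_of_core hp5 hA hΔ hirr hM₀ hdvd h4 h4M hpM hS E₀ w
    IsLocalRing.residue_surjective hdeg arch r hr1 hr2 (hU₀ Es.z) (a := c'⁻¹)
    (u := Q.U Es.z / algebraMap Qb (H99.FX Qb (M * p)) c') ?_ hv ?_ ?_ ?_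
  · have e1 : Q.U Es.z / algebraMap Qb (H99.FX Qb (M * p)) c' =
        algebraMap Qb (H99.FX Qb (M * p)) c'⁻¹ * H67.dg Qb 1 h (U₀ Es.z) := by
      rw [map_inv₀, ← hQU, div_eq_inv_mul]
    rw [e1]
    have e2 : ((H67.dg Qb 1 h (U₀ Es.z) : H99.FX Qb (M * p)) : LaurentSeries Qb) =
        (U₀ Es.z : LaurentSeries Qb) := qExpand_one_apply _
    calc ((algebraMap Qb (H99.FX Qb (M * p)) c'⁻¹ * H67.dg Qb 1 h (U₀ Es.z) :
          H99.FX Qb (M * p)) : LaurentSeries Qb)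
        = algebraMap Qb (LaurentSeries Qb) c'⁻¹ *
          ((H67.dg Qb 1 h (U₀ Es.z) : H99.FX Qb (M * p)) : LaurentSeries Qb) := rfl
      _ = _ := by rw [e2]
  · intro s s' hs hs'
    exact H40.node_congr R Q Es hv ⟨s, hs⟩ ⟨s', hs'⟩
  · intro s hs
    refine H40.dvd_ord_smooth (D := Dt) hu0 hudiv hv (P := s) fun n hn => ?_
    rcases (Dt.mem_br n _).mp hn with h1 | h1
    · have h2 : s = n.1 := congrArg Prod.snd h1
      exact hs (h2 ▸ n.2)
    · have h2 : false = true := congrArg Prod.fst h1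
      exact Bool.false_ne_true h2
  · intro g
    exact H40.ne_pow R Q Es hv g

open CuspForm WeierstrassCurve.Affine.Point in
/-- **Row 38.** -/
theorem level_lowering_at_p (P : FreyPackage) {N : ℕ} (hcond : P.IsConductorLevel N)
    (hpN : P.p ∣ N)
    (hirr : GaloisRepIsIrreducible (K := AlgebraicClosure ℚ) ℚ P.freyCurve P.p)
    (hmod : P.ModularRepOfLevel N) :
    ∃ M : ℕ, M ∣ N ∧ ¬ P.p ∣ M ∧ P.ModularRepOfLevel M := by
  obtain ⟨M₀, rfl⟩ := hpN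
  rw [mul_comm] at hcond hmod
  have hsq := hcond.squarefree
  have hpM₀ : ¬ P.p ∣ M₀ := by
    intro h
    refine hcond.sq_not_dvd P.pp ?_
    rw [pow_two]
    exact Nat.mul_dvd_mul_right h _ |>.trans (dvd_refl _)
  have hM₀ : M₀ ≠ 0 := by
    rintro rfl
    exact hpM₀ (dvd_zero _)
  haveI : NeZero M₀ := ⟨hM₀⟩
  haveI : NeZero P.p := ⟨P.pp.ne_zero⟩
  haveI : NeZero (M₀ * P.p) := ⟨mul_ne_zero hM₀ P.pp.ne_zero⟩
  refine ⟨M₀, dvd_mul_left _ _, hpM₀, ?_⟩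
  rcases frey_dichotomy P hpM₀ hirr hmod with h | ⟨W, S, hW, hΔ, hirrW, hS, ⟨E₀⟩⟩
  · exact h
  · obtain ⟨f, 𝔪, hf, h𝔪, hp𝔪, hcong⟩ := resModular_of_newEmb (p := ⟨P.p, P.pp⟩) P.hp5 hΔ hirrW
      (hsq.squarefree_of_dvd (dvd_mul_right _ _)) (S := (↑S : Set ℕ)) (by
        intro ℓ hℓ hg hℓM hℓp hℓS
        rcases (hS ℓ hℓ).mp hℓS with h | h | h
        · exact hℓM h
        · exact hℓp h
        · exact hg h) E₀
      (fun A hA ζ hζ => H44E.frey_eSide P (hcond.p_dvd_abc (dvd_mul_left _ _)) hW hΔ hA hζ)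
    exact ⟨f, W, 𝔪, hf, hW, h𝔪, hp𝔪, hcong⟩

end Fermat.Agent.H38.S44
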