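import Fermat.Agent.H59Fin43
import Fermat.Agent.S43

/-!
# Guide: eigensystems, eigenvectors and summands of the cohomology

(helper59; library files `H59Loc`, `H59Eigen`, `H59Norm`, `H59ES`, `H59Occ`, `H59LL1`, `H59LL2`, `H59LL3`,
`H59LL4`, `H59LL5`, `H59LL6` by helper59, `H70Eig` by helper70)

Companion of `GuideCohomology`, `GuideTWModules` (the cohomology groups `H¹(Γ₀(M), R_ψ)` and their localised
parts), `GuideLevelsIhara` and `GuideLifting`. As in the other guides there is no new mathematics: every
theorem is written out in full and proved by citing the library. Sections 1 to 4 are in the proof terms of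
S38, S43, S45, S46, S50, S59, S60 (and S03, S04, S06, S01), section 5 partly only in those of S43, S45, S03
and S01. Notes: documents [244] (S43) and [247] (levels).

**What it is about.** A residual eigensystem is a ring homomorphism `θ` from the polynomial ring
`O[X_ℓ : ℓ ∉ S]` to the residue field of `O`; `X_ℓ` stands for the Hecke operator `T_ℓ`. The proofs need the
part of the cohomology of `Γ₀(M)` which belongs to `θ`, for many groups at the same time: all levels, all
coefficient rings, all characters. The usual localisation at a maximal ideal of the Hecke algebra is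
inconvenient, because there is a different algebra for every module. Instead we use ONE polynomial `e` which
acts on all these modules as the idempotent of the localisation (section 1). No Hecke algebra is needed to
define the summand; the Hecke algebra of cusp forms is used only for its eigenvalues. Sections:

1. commuting operators, local idempotents, summands (`H59Loc`);
2. an operator from a reduced ring is zero if all its eigenvalues over finite extensions `O'` of `O` are zero;
   the comparison of two actions of a finite group by the eigenvectors which they fix (`H59Eigen`,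
   `H70Eig`, `H59Norm`);
3. relations between Hecke operators on cusp forms of weight two hold on the non-Eisenstein part of
   the cohomology (`H59ES`): a weak form of Eichler-Shimura, sufficient for all applications;
4. the dictionary: `W[p]` is modular of level `M` if and only if `θ` is a character of the Hecke algebra of
   level `M`, if and only if the summand of `θ` is not zero (`H59Occ`, `H59LL1`, `H59LL4`);
5. the arithmetic input of a level: non-Eisenstein primes, characteristic polynomials of Frobenius
   elements, the map from the deformation ring to the Hecke ring, prime divisors of the levels; and the end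
   of the proof of theorem LL (`H59LL3`, `H59LL5`, `H59LL6`, `H59LL2`).

**Notation.** `H59.act T hT P` is the value of the polynomial `P` at commuting operators `T`;
`H59.Loc T hT e` is the image of `e(T)`. `Pr S` is the type of the primes outside `S`; `Adm S M` says that
`S` contains the prime divisors of `M`; `HH K M` is `H¹(Γ₀(M), K)` and `TT K hS` the family of its Hecke
operators (`H37RankTW`); `heckeAlgebra M 2 S` is the algebra generated by the `T_ℓ`, `ℓ ∉ S`, on
`S₂(Γ₀(M))`, and `H59.evHA hS P` is the value of `P` in it. `resZ W hΔ p` is the Galois representation on the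
`p`-torsion of the curve `W`, and `W.apOfModel ℓ = ℓ + 1 - #W(𝔽_ℓ)`. `H53.toMat ρ b` is the matrix form of
a representation `ρ` in the basis `b`, and `H53.mapMat φ` its image under a homomorphism `φ` of rings.
-/

set_option autoImplicit false

open Polynomial IsLocalRing GaloisRep CuspForm CongruenceSubgroup ModularFormClass
open Fermat.Agent.H87.Glue Fermat.Agent.H37.Rank
open scoped TensorProduct MatrixGroups

noncomputable section

namespace Fermat.Agent.Guide.Eigensystems

/-! ## 1. Commuting operators and local idempotents -/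

/-- **The action of the polynomial ring** on an `O`-algebra `E` (in applications the ring of endomorphisms
of a module) given by commuting elements `T i`: it is an algebra homomorphism `P ↦ P(T)` with `X_i ↦ T i`,
and every homomorphism of algebras `E → E'` maps `P(T)` to `P(T')`. File: `H59Loc`. -/
theorem action {O ι E E' : Type*} [CommRing O] [Ring E] [Algebra O E] [Ring E'] [Algebra O E']
    (T : ι → E) (hT : ∀ i j, T i * T j = T j * T i) (T' : ι → E')
    (hT' : ∀ i j, T' i * T' j = T' j * T' i) (f : E →ₐ[O] E') (h : ∀ i, f (T i) = T' i) :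
    (∀ i, H59.act (O := O) T hT (MvPolynomial.X i) = T i) ∧
      (∀ a : O, H59.act T hT (MvPolynomial.C a) = algebraMap O E a) ∧
      ∀ P : MvPolynomial ι O, f (H59.act T hT P) = H59.act T' hT' P :=
  ⟨H59.act_X T hT, H59.act_C T hT, H59.map_act f T hT T' hT' h⟩

/-- **Existence of local idempotents.** `O` is a complete noetherian local ring, `E` a finite `O`-algebra
(not necessarily commutative), `T` a family of commuting elements of `E` and `θ` a homomorphism from the
polynomial ring to a field `κ` such that the constants already map onto `κ`. Then there is a polynomial `e`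
with `θ(e) = 1` such that `e(T)` is idempotent and every polynomial `s` with `θ(s) ≠ 0` is invertible on the
image of `e(T)`. Proof (`H59Loc`): the subalgebra generated by `O` and `T` is a finite `O`-algebra, hence a
product of local rings. If the kernel of `P ↦ P(T)` is not contained in the kernel of `θ`, the eigensystem
does not occur and one takes an `e` with `e(T) = 0`. -/
theorem exists_idempotent {O ι E κ : Type} [CommRing O] [Ring E] [Algebra O E] [Field κ]
    [IsLocalRing O] [IsNoetherianRing O] [IsAdicComplete (maximalIdeal O) O] [Module.Finite O E]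
    (T : ι → E) (hT : ∀ i j, T i * T j = T j * T i) (θ : MvPolynomial ι O →+* κ)
    (hθ : ∀ x : κ, ∃ a : O, θ (MvPolynomial.C a) = x) :
    ∃ e : MvPolynomial ι O, θ e = 1 ∧ H59.act T hT e * H59.act T hT e = H59.act T hT e ∧
      ∀ s, θ s ≠ 0 → ∃ s', H59.act T hT (s * s' * e) = H59.act T hT e :=
  let ⟨e, h⟩ := H59.exists_isLocIdem T hT θ hθ
  ⟨e, h.residue, h.idem, h.inv⟩

/-- **The same idempotent works for every image of the algebra.** So one polynomial `e` can be used for all
modules of a finite list (take `E` to be the product of their endomorphism rings), and for all modules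
obtained from them by change of rings. `H59.IsLocIdem T hT θ e` is the list of the three properties of
`exists_idempotent`. File: `H59Loc`. -/
theorem idempotent_of_map {O ι E E' κ : Type} [CommRing O] [Ring E] [Algebra O E] [Field κ]
    [Ring E'] [Algebra O E'] {T : ι → E} {hT : ∀ i j, T i * T j = T j * T i}
    {θ : MvPolynomial ι O →+* κ} {e : MvPolynomial ι O} (h : H59.IsLocIdem T hT θ e)
    (f : E →ₐ[O] E') {T' : ι → E'} (hT' : ∀ i j, T' i * T' j = T' j * T' i)
    (hf : ∀ i, f (T i) = T' i) : H59.IsLocIdem T' hT' θ e :=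
  h.of_map f hT' hf

/-- **The summand of `θ`**, `H59.Loc T hT e`: the vectors fixed by `e(T)`. It is stable under all
polynomials in the operators. File: `H59Loc`. -/
theorem mem_summand_iff {O Λ ι H : Type} [CommRing O] [CommRing Λ] [Algebra O Λ] [AddCommGroup H]
    [Module Λ H] [Module O H] [IsScalarTower O Λ H] {T : ι → Module.End Λ H}
    {hT : ∀ i j, T i * T j = T j * T i} {e : MvPolynomial ι O}
    (he : H59.act T hT e * H59.act T hT e = H59.act T hT e) (P : MvPolynomial ι O) (x : H) :
    (x ∈ H59.Loc T hT e ↔ H59.act T hT e x = x) ∧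
      (x ∈ H59.Loc T hT e → H59.act T hT P x ∈ H59.Loc T hT e) :=
  ⟨H59.mem_loc he, H59.act_mem_loc P⟩

/-- **On the summand every polynomial `s` with `θ(s) ≠ 0` is invertible.** `H59.locT` is the restriction of
the operators to the summand. So the summand is the localisation at the kernel of `θ`. File: `H59Loc`. -/
theorem invertible_on_summand {O Λ ι H κ : Type} [CommRing O] [CommRing Λ] [Algebra O Λ]
    [AddCommGroup H] [Module Λ H] [Module O H] [IsScalarTower O Λ H] [Field κ]
    {T : ι → Module.End Λ H} {hT : ∀ i j, T i * T j = T j * T i} {e : MvPolynomial ι O}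
    {θ : MvPolynomial ι O →+* κ} (h : H59.IsLocIdem T hT θ e) {s : MvPolynomial ι O}
    (hs : θ s ≠ 0) :
    ∃ s' : MvPolynomial ι O, H59.act (H59.locT T hT e) H59.locT_comm s *
      H59.act (H59.locT T hT e) H59.locT_comm s' = 1 :=
  h.exists_inv hs

/-- **Equivariant maps respect summands.** Here the two modules may be over different rings `Λ`, `Λ'`. It is
used for restriction to a larger level, traces, and change of coefficients. File: `H59Loc`. -/
theorem map_mem_summand {O Λ Λ' ι H H' : Type} [CommRing O] [CommRing Λ] [Algebra O Λ]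
    [AddCommGroup H] [Module Λ H] [Module O H] [IsScalarTower O Λ H] [CommRing Λ'] [Algebra O Λ']
    [AddCommGroup H'] [Module Λ' H'] [Module O H'] [IsScalarTower O Λ' H']
    {T : ι → Module.End Λ H} {hT : ∀ i j, T i * T j = T j * T i} {T' : ι → Module.End Λ' H'}
    {hT' : ∀ i j, T' i * T' j = T' j * T' i} {e : MvPolynomial ι O} (f : H →+ H')
    (hf : ∀ (a : O) x, f (a • x) = a • f x) (h : ∀ i x, f (T i x) = T' i (f x)) {x : H}
    (hx : x ∈ H59.Loc T hT e) : f x ∈ H59.Loc T' hT' e :=
  H59.map_mem_loc f hf h hx

/-- **When a quotient of the polynomial ring acts on the summand.** If every polynomial which is zero in the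
`O`-algebra `A = π(O[X])` kills the summand, the summand is an `A`-module with `X_i` acting as `T i`. It is
used for the completed Hecke algebra of cusp forms, `A = heckeLocal L S O θ`, with `relations_hold` of
section 3. File: `H59Loc`. -/
theorem quotient_acts {O Λ ι H A : Type} [CommRing O] [CommRing Λ] [Algebra O Λ] [AddCommGroup H]
    [Module Λ H] [Module O H] [IsScalarTower O Λ H] {T : ι → Module.End Λ H}
    {hT : ∀ i j, T i * T j = T j * T i} {e : MvPolynomial ι O} [CommRing A] [Algebra O A]
    (π : MvPolynomial ι O →ₐ[O] A) (hπ : Function.Surjective π)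
    (hk : ∀ P, π P = 0 → ∀ x ∈ H59.Loc T hT e, H59.act T hT P x = 0) :
    ∃ Φ : A →ₐ[O] Module.End Λ (H59.Loc T hT e),
      ∀ P, Φ (π P) = H59.act (H59.locT T hT e) H59.locT_comm P :=
  H59.exists_loc_ringHom π hπ hk

/-! ## 2. Operators are determined by their eigenvalues

`O` is a complete discrete valuation ring of characteristic zero with finite residue field, `M` a finite free
`O`-module, `A` a finite `O`-algebra acting on `M` by `Φ`. The extensions `O'` of `O` which occur below are
finite and again complete discrete valuation rings. -/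

/-- **A separable equation.** `O` is integrally closed of characteristic zero with field of fractions `K`,
`A` a reduced and finite `O`-algebra. Every `t ∈ A` satisfies a monic equation over `O` which is separable
over `K`. Proof (`H59Eigen`): take the radical over `K` of any monic equation; it has coefficients in `O`
(Gauss), and `G(t)^n = 0` implies `G(t) = 0`. -/
theorem exists_separable_equation {O : Type} [CommRing O] [CharZero O] {A : Type} [CommRing A]
    [Algebra O A] [Module.Finite O A] [IsIntegrallyClosed O] [IsReduced A] (K : Type) [Field K]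
    [Algebra O K] [IsFractionRing O K] (t : A) :
    ∃ G : Polynomial O, G.Monic ∧ (G.map (algebraMap O K)).Separable ∧ aeval t G = 0 :=
  H59.exists_monic_separable K t

/-- **Eigenvectors over a large field give eigenvectors over a finite extension.** Let `v ≠ 0` in `Kb ⊗ M`
be an eigenvector of `A` with eigenvalues `μ(t)` in the field `Kb` (an algebraic closure of the fractions of
`O`, for instance). Then there are a finite extension `O'` of `O`, embedded in `Kb` by `j`, a homomorphism
`lam : A → O'` with `j (lam t) = μ t`, and an eigenvector `x ≠ 0` in `O' ⊗ M` with eigenvalues `lam t`.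
Proof (`H59Eigen`): `O'` is the integral closure of `O` in the finite extension `L` of `K` generated by the
eigenvalues; apply an `L`-linear form `Kb → L` to the coordinates of `v`, and clear denominators. (For
vectors killed by an equivariant map: `eigenvector_over_extension` of `GuideBoundedRank`.) -/
theorem eigenvector_over_integers {O : Type} [CommRing O] [IsDomain O] [IsDiscreteValuationRing O]
    [IsAdicComplete (maximalIdeal O) O] [Finite (ResidueField O)] [CharZero O] {M : Type}
    [AddCommGroup M] [Module O M] [Module.Finite O M] [Module.Free O M] {A : Type} [CommRing A]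
    [Algebra O A] [Module.Finite O A] {Kb : Type} (K : Type) [Field K] [Algebra O K]
    [IsFractionRing O K] [Field Kb] [Algebra K Kb] [Algebra O Kb] [IsScalarTower O K Kb]
    (Φ : A →ₐ[O] Module.End O M) (v : Kb ⊗[O] M) (hv : v ≠ 0) (μ : A → Kb)
    (hμ : ∀ t, (Φ t).baseChange Kb v = μ t • v) :
    ∃ (O' : Type) (_ : CommRing O') (_ : IsDomain O') (_ : IsDiscreteValuationRing O')
      (_ : IsAdicComplete (maximalIdeal O') O') (_ : Finite (ResidueField O')) (_ : CharZero O')
      (_ : Algebra O O') (_ : Module.Finite O O') (_ : IsLocalHom (algebraMap O O'))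
      (j : O' →ₐ[O] Kb) (lam : A →ₐ[O] O') (x : O' ⊗[O] M),
      Function.Injective (algebraMap O O') ∧ Function.Injective j ∧ x ≠ 0 ∧
      (∀ t, j (lam t) = μ t) ∧ ∀ t, (Φ t).baseChange O' x = lam t • x :=
  H59.exists_lattice_eigen K Φ v hv μ hμ

/-- **An element of a reduced algebra acts as zero if it has eigenvalue zero at all eigenvectors.** In the
applications `A` is the local Hecke algebra, `M` the localised module, and the eigenvalue is computed from
the Galois representation of the eigenvector. Proof (`H59Eigen`): by the separable equation `t` acts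
semisimply over an algebraic closure; a non-zero eigenspace of `t` contains a common eigenvector of `A`. -/
theorem zero_of_eigenvalues {O : Type} [CommRing O] [IsDomain O] [IsDiscreteValuationRing O]
    [IsAdicComplete (maximalIdeal O) O] [Finite (ResidueField O)] [CharZero O] {M : Type}
    [AddCommGroup M] [Module O M] [Module.Finite O M] [Module.Free O M] {A : Type} [CommRing A]
    [Algebra O A] [Module.Finite O A] [IsReduced A] (Φ : A →ₐ[O] Module.End O M) (t : A)
    (h : ∀ (O' : Type) [CommRing O'] [IsDomain O'] [IsDiscreteValuationRing O']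
      [IsAdicComplete (maximalIdeal O') O'] [Finite (ResidueField O')] [CharZero O']
      [Algebra O O'] [Module.Finite O O'] [IsLocalHom (algebraMap O O')],
      Function.Injective (algebraMap O O') → ∀ (lam : A →ₐ[O] O') (x : O' ⊗[O] M), x ≠ 0 →
        (∀ t, (Φ t).baseChange O' x = lam t • x) → lam t = 0) : Φ t = 0 :=
  H59.map_eq_zero_of_eigen Φ t h

/-- **The same for common eigenvectors with a finite commutative group `Δ`** (the diamond operators) which
commutes with `A`: it is enough to look at the vectors which are eigenvectors of `A` and of `Δ`, with a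
character `χ` of `Δ`. Files: `H70Eig` and `H59Eigen`. -/
theorem zero_of_common_eigenvalues {O : Type} [CommRing O] [IsDomain O] [IsDiscreteValuationRing O]
    [IsAdicComplete (maximalIdeal O) O] [Finite (ResidueField O)] [CharZero O] {M : Type}
    [AddCommGroup M] [Module O M] [Module.Finite O M] [Module.Free O M] {A : Type} [CommRing A]
    [Algebra O A] [Module.Finite O A] [IsReduced A] {Δ : Type} [CommGroup Δ] [Finite Δ]
    (Φ : A →ₐ[O] Module.End O M) (Ψ : Δ →* Module.End O M)
    (hΦΨ : ∀ t g, Φ t * Ψ g = Ψ g * Φ t) (t₀ : A)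
    (h : ∀ (O' : Type) [CommRing O'] [IsDomain O'] [IsDiscreteValuationRing O']
      [IsAdicComplete (maximalIdeal O') O'] [Finite (ResidueField O')] [CharZero O']
      [Algebra O O'] [Module.Finite O O'] [IsLocalHom (algebraMap O O')],
      Function.Injective (algebraMap O O') → ∀ (lam : A →ₐ[O] O') (χ : Δ →* O'ˣ)
        (x : O' ⊗[O] M), x ≠ 0 → (∀ t, (Φ t).baseChange O' x = lam t • x) →
        (∀ g, (Ψ g).baseChange O' x = ((χ g : O'ˣ) : O') • x) → lam t₀ = 0) : Φ t₀ = 0 :=
  H59.map_eq_zero_of_eigen Φ t₀ (H70.Eig.forallEigen_of_group Φ Ψ hΦΨ t₀ h)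

/-- **Two actions of a finite commutative group have the same norm** (sum over the group) on a finite
dimensional vector space over an algebraically closed field of characteristic zero, if they commute with
each other and with a commuting set `S` of operators, and if for every common eigenvector of `S` and of the
first action one action is trivial exactly if the other one is. Proof (`H59Norm`): both norms are `#Δ` times
a projector; compare the images on common eigenvectors. -/
theorem norms_agree_of_fixed {K V : Type*} [Field K] [IsAlgClosed K] [AddCommGroup V] [Module K V]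
    [CharZero K] [FiniteDimensional K V] {Δ : Type*} [CommGroup Δ] [Fintype Δ]
    (Ψ ψ : Δ →* Module.End K V) (S : Set (Module.End K V)) (hS : ∀ f ∈ S, ∀ g ∈ S, f * g = g * f)
    (hSΨ : ∀ f ∈ S, ∀ g, f * Ψ g = Ψ g * f) (hSψ : ∀ f ∈ S, ∀ g, f * ψ g = ψ g * f)
    (hΨψ : ∀ g h, Ψ g * ψ h = ψ h * Ψ g)
    (h : ∀ v : V, v ≠ 0 → (∀ f ∈ S, ∃ μ : K, f v = μ • v) → (∀ g, ∃ μ : K, Ψ g v = μ • v) →
      ((∀ g, Ψ g v = v) ↔ ∀ g, ψ g v = v)) :
    ∑ g, Ψ g = ∑ g, ψ g :=
  H59.norm_eq_of_eigen Ψ ψ S hS hSΨ hSψ hΨψ h

/-- **The same over `O`, for the diamond operators `Ψ` and the elements `ψ(g)` of `A`.** In a level of the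
patching argument there are two actions of `Δ`: the diamond operators `Ψ` of the cohomology, and the
elements `1 + c_j` of the deformation ring, which describe the tame inertia at the auxiliary primes. That
they are equal is a local-global compatibility which is not proved in this library; it is enough that they
have the same norm (`norm_trick` of `GuideLevelsIhara`), and for this one only has to know which
eigenvectors are unramified at the auxiliary primes. File: `H59Eigen`. -/
theorem norms_agree {O : Type} [CommRing O] [IsDomain O] [IsDiscreteValuationRing O]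
    [IsAdicComplete (maximalIdeal O) O] [Finite (ResidueField O)] [CharZero O] {M : Type}
    [AddCommGroup M] [Module O M] [Module.Finite O M] [Module.Free O M] {A : Type} [CommRing A]
    [Algebra O A] [Module.Finite O A] {Δ : Type} [CommGroup Δ] [Fintype Δ]
    (Φ : A →ₐ[O] Module.End O M) (Ψ : Δ →* Module.End O M)
    (hΦΨ : ∀ t g, Φ t * Ψ g = Ψ g * Φ t) (ψ : Δ →* A)
    (h : ∀ (O' : Type) [CommRing O'] [IsDomain O'] [IsDiscreteValuationRing O']
      [IsAdicComplete (maximalIdeal O') O'] [Finite (ResidueField O')] [CharZero O']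
      [Algebra O O'] [Module.Finite O O'] [IsLocalHom (algebraMap O O')],
      Function.Injective (algebraMap O O') → ∀ (lam : A →ₐ[O] O') (x : O' ⊗[O] M), x ≠ 0 →
        (∀ t, (Φ t).baseChange O' x = lam t • x) → ∀ χ : Δ →* O',
          (∀ g, (Ψ g).baseChange O' x = χ g • x) → ((∀ g, χ g = 1) ↔ ∀ g, lam (ψ g) = 1))
    (y : M) : ∑ g, Ψ g y = ∑ g, Φ (ψ g) y :=
  H59.sum_eq_of_eigen Φ Ψ hΦΨ ψ h y

/-- **Fixed functions.** `Δ` is a finite `p`-group, `κ` a finite field of characteristic `p`. A non-zero
subspace of the functions on `{1, …, d} × Δ` which is stable under translations by `Δ` contains a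
non-zero function which does not depend on the second variable. It is the step "the socle" in the proof
of `norm_trick` (`GuideLevelsIhara`): a relation modulo the maximal ideal would give one between norms.
File: `H59Norm`. -/
theorem exists_invariant_function {κ : Type*} [Field κ] [Finite κ] {p : ℕ} [Fact p.Prime]
    [CharP κ p] {Δ : Type*} [Group Δ] [Finite Δ] (hΔ : IsPGroup p Δ) {d : ℕ}
    (K : Submodule κ (Fin d × Δ → κ))
    (hK : ∀ h : Δ, ∀ c ∈ K, (fun x : Fin d × Δ => c (x.1, h⁻¹ * x.2)) ∈ K) (hne : K ≠ ⊥) :
    ∃ c ∈ K, c ≠ 0 ∧ ∀ (i : Fin d) (g h : Δ), c (i, g) = c (i, h) :=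
  H59.exists_invariant_ne_zero hΔ K hK hne

/-! ## 3. Relations between Hecke operators on cusp forms -/

/-- **`T_ℓ - 1 - ℓ` maps to classes which vanish on parabolic and elliptic elements.** For a prime `ℓ ≡ 1`
modulo `N` and a homomorphism `φ` from `Γ₀(N)` to a torsion free group `A`, the homomorphism
`T_ℓ φ - (1 + ℓ) φ` (`T_ℓ` is `H4.heckeHom`) is zero at all `γ` with `|trace γ| ≤ 2`. Proof (`H59ES`,
`H4TransferPE`): elliptic elements have finite order; for a parabolic element both terms are computed from
the cusps, and for `ℓ ≡ 1` modulo `N` they agree. -/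
theorem eisenstein_operator {N : ℕ} [NeZero N] {A : Type*} [AddCommGroup A] [IsAddTorsionFree A]
    {ℓ : ℕ} [Fact ℓ.Prime] (hℓN : ¬ ℓ ∣ N) (h1 : (N : ℤ) ∣ (ℓ : ℤ) - 1)
    (φ : Additive (Gamma0 N) →+ A) (γ : Gamma0 N)
    (hγ : ((γ : SL(2, ℤ)) : Matrix (Fin 2) (Fin 2) ℤ).trace ^ 2 ≤ 4) :
    (H4.heckeHom hℓN φ - ((1 : ℤ) + ℓ) • φ) (Additive.ofMul γ) = 0 :=
  H59.isPE_eis hℓN h1 φ γ hγ

/-- **Such homomorphisms factor through the period lattice** `H4.Lat N` of the cusp forms of weight two; the
image `H4.toLat N γ` of `γ` is the functional `f ↦ ∫ f(z) dz`, integral from `z` to `γz`. Proof (`H59ES`):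
real homomorphisms of this kind are real parts of period maps (Eichler-Shimura over `ℝ`, `GuidePeriods`), so
an element `γ` without periods is killed by the integral ones, hence by all (`Γ₀(N)` is finitely generated).
-/
theorem factors_through_periods {N : ℕ} [NeZero N] {A : Type*} [AddCommGroup A]
    [IsAddTorsionFree A] (φ : Additive (Gamma0 N) →+ A)
    (hφ : ∀ γ : Gamma0 N, ((γ : SL(2, ℤ)) : Matrix (Fin 2) (Fin 2) ℤ).trace ^ 2 ≤ 4 →
      φ (Additive.ofMul γ) = 0) :
    ∃ ψ : H4.Lat N →+ A, ψ.comp (H4.toLat N) = φ :=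
  H59.exists_factor φ hφ

/-- **Relations between Hecke operators on cusp forms hold for non-Eisenstein cohomology.** `K` is a field
of characteristic zero, `e` a local idempotent for `θ` on `H¹(Γ₀(L), K)`, `i₀ ≡ 1` modulo `L` a prime with
`θ(X_{i₀}) ≠ 1 + i₀`. If an integral polynomial `P` vanishes in the Hecke algebra of `S₂(Γ₀(L))`, it acts as
zero on the summand. Proof (`H59ES`): an element of the summand is `T_{i₀} z - (1 + i₀) z`, so it comes from
the period lattice, where the Hecke algebra of cusp forms acts. With characters: `relations_kill` of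
`GuideTWModules`. -/
theorem relations_hold {L : ℕ} [NeZero L] {S : Set ℕ} (hS : Adm S L) {K : Type} [Field K]
    [CharZero K] {O : Type} [CommRing O] [Algebra O K] {κ : Type} [Field κ]
    {θ : MvPolynomial (Pr S) O →+* κ} {e : MvPolynomial (Pr S) O}
    (he : H59.IsLocIdem (TT K hS) (TT_comm hS) θ e) (i₀ : Pr S) (hi₀1 : (L : ℤ) ∣ (i₀.1 : ℤ) - 1)
    (hi₀ : θ (MvPolynomial.X i₀) ≠ 1 + (i₀.1 : κ)) {P : MvPolynomial (Pr S) ℤ}
    (hP : H59.evHA hS P = 0) {x : HH K L} (hx : x ∈ H59.Loc (TT K hS) (TT_comm hS) e) :
    H59.act (TT K hS) (TT_comm hS) (P.map (Int.castRingHom O)) x = 0 :=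
  H59.act_loc_eq_zero hS he i₀ hi₀1 hi₀ hP hx

/-! ## 4. The dictionary -/

/-- **The Hecke algebra is a quotient of the polynomial ring** (`S` contains the primes dividing `L`, so
there are no operators `U_q`). File: `H59Occ`. -/
theorem hecke_algebra_generated {L : ℕ} [NeZero L] {S : Set ℕ} (hS : Adm S L) (i : Pr S) :
    Function.Surjective (H59.evHA hS) ∧ H59.evHA hS (MvPolynomial.X i) =
      heckeAlgebra.T i.2.1 (fun h => i.2.2 (hS i.1 i.2.1 h)) i.2.2 :=
  ⟨H59.evHA_surjective hS, H59.evHA_X hS i⟩

/-- **Characters with rational eigenvalues are defined over `𝔽_p`.** If a character of the Hecke algebra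
with values in a field of characteristic `p` has integral values `a_ℓ` on the `T_ℓ`, it comes from a
character with values in `ℤ/p`. File: `H59Occ`. -/
theorem character_over_prime_field {L : ℕ} [NeZero L] {S : Set ℕ} (hS : Adm S L) {p : ℕ}
    [Fact p.Prime] {κ : Type} [Field κ] [CharP κ p] (χ : heckeAlgebra L 2 S →+* κ) (a : Pr S → ℤ)
    (hχ : ∀ i, χ (H59.evHA hS (MvPolynomial.X i)) = (a i : κ)) :
    ∃ θ' : heckeAlgebra L 2 S →+* ZMod p,
      (∀ i, θ' (H59.evHA hS (MvPolynomial.X i)) = (a i : ZMod p)) ∧
      ∀ t, ZMod.castHom dvd_rfl κ (θ' t) = χ t :=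
  H59.exists_zmod_char hS χ a hχ

/-- **Almost all primes suffice.** Let `g` be a normalised eigenform of level `N`, `𝔪 ∋ p` a maximal ideal
of the ring of algebraic integers. If `a_ℓ(g) ≡ a_ℓ(W)` modulo `𝔪` for all primes outside a finite set, then
for all primes `ℓ ∤ N p` of good reduction. Proof (`H59Occ`): by S29 there is a representation over the
residue field of `𝔪` with the traces `a_ℓ(g)`; it has the same characteristic polynomials as `W[p]` at
almost all Frobenius elements, hence everywhere (density theorem of Frobenius, `GuideGalois`). -/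
theorem almost_all_primes_suffice (W : WeierstrassCurve ℤ) (hΔ : W.Δ ≠ 0) (p : ℕ) [Fact p.Prime]
    {N : ℕ} [NeZero N] {g : CuspForm (Gamma0 N) 2} (hg : g.IsNormalizedEigenform)
    {𝔪 : Ideal (integralClosure ℤ ℂ)} (h𝔪 : 𝔪.IsMaximal) (hp𝔪 : (p : integralClosure ℤ ℂ) ∈ 𝔪)
    (S : Finset ℕ)
    (h : ∀ ℓ : ℕ, ℓ.Prime → ℓ ∉ S → ∃ a : integralClosure ℤ ℂ, (a : ℂ) = qCoeff g ℓ ∧
      a - ((W.apOfModel ℓ : ℤ) : integralClosure ℤ ℂ) ∈ 𝔪) :
    ∀ ℓ : ℕ, ℓ.Prime → W.IsGoodPrimeFor ℓ → ¬ ℓ ∣ N → ℓ ≠ p → ∃ a : integralClosure ℤ ℂ,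
      (a : ℂ) = qCoeff g ℓ ∧ a - ((W.apOfModel ℓ : ℤ) : integralClosure ℤ ℂ) ∈ 𝔪 :=
  H59.cong_all_of_almost_all W hΔ p S29.result hg h𝔪 hp𝔪 S h

/-- **From modularity to characters with values in the residue field `k` of `O`.** If `W[p]` is modular of
level `M` and `M ∣ L`, there is a character of the Hecke algebra of level `L` with values in `k` and with
the eigenvalues `a_ℓ(W)`. For values in `ℤ/p`, and for the converse, see `exists_hecke_character` and
`residually_modular_of_character` in `GuideLevels`. File: `H59LL3`. -/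
theorem exists_residual_character {W : WeierstrassCurve ℤ} {p : ℕ} [Fact p.Prime] {O : Type}
    [CommRing O] [IsDomain O] [IsDiscreteValuationRing O] [IsAdicComplete (maximalIdeal O) O]
    [Finite (ResidueField O)] [CharZero O] [Algebra (ZMod p) (ResidueField O)] {M : ℕ} [NeZero M]
    (h : W.IsResiduallyModularOfLevel p M) {L : ℕ} [NeZero L] (hL : M ∣ L) {S : Set ℕ}
    (hS : Adm S L) (hSW : ∀ ℓ : ℕ, ℓ.Prime → ℓ ∉ S → W.IsGoodPrimeFor ℓ ∧ ℓ ≠ p) :
    ∃ χ : heckeAlgebra L 2 S →+* ResidueField O, ∀ i : Pr S,
      χ (H59.evHA hS (MvPolynomial.X i)) = ((W.apOfModel i.1 : ℤ) : ResidueField O) :=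
  H59.exists_kchar h hL hS hSW

/-- **A non-zero summand gives a character.** If the summand of `θ` in `H¹(Γ₀(L), K)`, `K` of characteristic
zero, is not zero and `θ` is not Eisenstein, the values of `θ` are the values of a character of the Hecke
algebra of cusp forms. Proof (`H59Occ`): by `relations_hold` a polynomial with `P = 0` in the Hecke algebra
kills the summand, so `θ(P) = 0` (else it would be invertible on the summand). -/
theorem character_of_summand {L : ℕ} [NeZero L] {S : Set ℕ} (hS : Adm S L) {K : Type} [Field K]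
    [CharZero K] {O : Type} [CommRing O] [Algebra O K] {κ : Type} [Field κ]
    {θ : MvPolynomial (Pr S) O →+* κ} {e : MvPolynomial (Pr S) O}
    (he : H59.IsLocIdem (TT K hS) (TT_comm hS) θ e) (i₀ : Pr S) (hi₀1 : (L : ℤ) ∣ (i₀.1 : ℤ) - 1)
    (hi₀ : θ (MvPolynomial.X i₀) ≠ 1 + (i₀.1 : κ)) (hne : H59.Loc (TT K hS) (TT_comm hS) e ≠ ⊥) :
    ∃ χ : heckeAlgebra L 2 S →+* κ,
      ∀ i, χ (H59.evHA hS (MvPolynomial.X i)) = θ (MvPolynomial.X i) :=
  H59.exists_char_of_loc hS he i₀ hi₀1 hi₀ hne

/-- **A character gives a positive rank.** `θ` is a non-Eisenstein eigensystem with values in the residue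
field `k` of `O`, and there is a character `χ` of the Hecke algebra of cusp forms of level `M` with the same
values. Then the summand of `θ` in `H¹(Γ₀(M), O)` has positive rank. Proof (`H59LL1`, `H59Occ`): there is an
eigenclass in `H¹(Γ₀(M), k)` with eigenvalues `χ` (`GuideBridge`); the rank over `O` is the dimension over
`k`, because the summand is free and commutes with change of rings (`GuideTWModules`). `H70.Coh.Good M O`:
`2` is invertible and there is no `3`-torsion problem (`GuideCohomology`). -/
theorem rank_pos {M : ℕ} [NeZero M] {S : Set ℕ} (hS : Adm S M) {O : Type} [CommRing O]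
    [IsLocalRing O] (hg : H70.Coh.Good M O) {θ : MvPolynomial (Pr S) O →+* ResidueField O}
    (hθ : ∀ a, θ (MvPolynomial.C a) = residue O a) {e : MvPolynomial (Pr S) O}
    (he : H59.IsLocIdem (TT O hS) (TT_comm hS) θ e) (i₀ : Pr S)
    (hi₀ : θ (MvPolynomial.X i₀) ≠ 1 + (i₀.1 : ResidueField O))
    (χ : heckeAlgebra M 2 S →+* ResidueField O)
    (hχ : ∀ i, χ (H59.evHA hS (MvPolynomial.X i)) = θ (MvPolynomial.X i)) :
    0 < Module.finrank O (H59.Loc (TT O hS) (TT_comm hS) e) :=
  H59.finrank_loc_pos hS hg hθ he i₀ hi₀ χ hχ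

/-- **Rank zero if `W[p]` is not modular of level `M`.** Here `θ` has the values `a_ℓ(W)`, and `i₀` is an
auxiliary non-Eisenstein prime `≡ 1` modulo `M`. The two theorems on the rank, together with the comparison
of the ranks at the levels `M` and `M Q`, `Q` a product of Taylor-Wiles primes (`H37NoNew`; `bounded_rank`
and `rank_zero` of `GuideBoundedRank`), give the input `hrk` of `exists_module_part` in `GuideTWModules`.
Proof (`H59LL4`): `character_of_summand` over the field of fractions, `character_over_prime_field`, and the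
congruence theorem of Deligne and Serre (`isResiduallyModularOfLevel_of_char` in `H59Occ`). -/
theorem rank_eq_zero {W : WeierstrassCurve ℤ} (hΔ : W.Δ ≠ 0) {p : ℕ} [Fact p.Prime] {O : Type}
    [CommRing O] [IsDomain O] [IsLocalRing O] [CharZero O] [CharP (ResidueField O) p] {M : ℕ}
    [NeZero M] {S : Finset ℕ} (hS : Adm (↑S : Set ℕ) M) (hg : H70.Coh.Good M O)
    (hnot : ¬ W.IsResiduallyModularOfLevel p M)
    {θ : MvPolynomial (Pr (↑S : Set ℕ)) O →+* ResidueField O}
    (hθ : ∀ i, θ (MvPolynomial.X i) = ((W.apOfModel i.1 : ℤ) : ResidueField O))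
    {e : MvPolynomial (Pr (↑S : Set ℕ)) O} (he : H59.IsLocIdem (TT O hS) (TT_comm hS) θ e)
    (i₀ : Pr (↑S : Set ℕ)) (hi₀1 : (M : ℤ) ∣ (i₀.1 : ℤ) - 1)
    (hi₀ : θ (MvPolynomial.X i₀) ≠ 1 + (i₀.1 : ResidueField O)) :
    Module.finrank O (H59.Loc (TT O hS) (TT_comm hS) e) = 0 :=
  H59.finrank_loc_eq_zero hΔ S29.result hS hg hnot hθ he i₀ hi₀1 hi₀

/-! ## 5. The arithmetic input of a level -/

/-- **Auxiliary primes which are not Eisenstein.** Let `p ≥ 5`, and let the image of Galois on `W[p]`
contain two conjugate non-trivial transvections with different axes (`H45.HasTv`; true for the Frey curve).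
For every `m ≠ 0` and every finite set `S` there is a prime `ℓ ∉ S`, `ℓ ≡ 1` modulo `m`, with
`a_ℓ(W) ≠ 1 + ℓ` in the residue field. File: `H59LL5` (from `H45.exists_noneisenstein`, density theorem of
Frobenius). -/
theorem exists_non_eisenstein_prime {W : WeierstrassCurve ℤ} (hΔ : W.Δ ≠ 0) {p : ℕ}
    [Fact p.Prime] {O : Type} [CommRing O] [IsLocalRing O] [Algebra (ZMod p) (ResidueField O)]
    (h5 : 5 ≤ p) (hTv : H45.HasTv (resZ W hΔ p).ρ) {m : ℕ} (hm : m ≠ 0) (S : Finset ℕ) :
    ∃ ℓ : ℕ, ℓ.Prime ∧ ℓ ∉ S ∧ (m : ℤ) ∣ (ℓ : ℤ) - 1 ∧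
      ((W.apOfModel ℓ : ℤ) : ResidueField O) ≠ 1 + (ℓ : ResidueField O) :=
  let ⟨i, h1, h2⟩ := H59.exists_aux (O := O) hΔ h5 hTv hm S
  ⟨i.1, i.2.1, fun h => i.2.2 h, h1, fun h => h2 ((H59.thetaW_X W _ i).trans h)⟩

/-- **Characteristic polynomials.** If `χ` is a character of the Hecke algebra of level `L` with the
eigenvalues `a_ℓ(W)`, the representation on `W[p]` over the residue field of `O` has at Frobenius elements
above `ℓ ∉ S` the characteristic polynomial `X² - χ(T_ℓ) X + ℓ`. File: `H59LL3`. -/
theorem charpoly_frobenius {W : WeierstrassCurve ℤ} (hΔ : W.Δ ≠ 0) {p : ℕ} [Fact p.Prime]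
    {O : Type} [CommRing O] [IsDomain O] [IsDiscreteValuationRing O]
    [IsAdicComplete (maximalIdeal O) O] [Finite (ResidueField O)] [CharZero O]
    [Algebra (ZMod p) (ResidueField O)] {L : ℕ} [NeZero L] {S : Set ℕ} (hS : Adm S L)
    (hSW : ∀ ℓ : ℕ, ℓ.Prime → ℓ ∉ S → W.IsGoodPrimeFor ℓ ∧ ℓ ≠ p)
    (χ : heckeAlgebra L 2 S →+* ResidueField O)
    (hχ : ∀ i : Pr S, χ (H59.evHA hS (MvPolynomial.X i)) =
      ((W.apOfModel i.1 : ℤ) : ResidueField O))
    (ℓ : ℕ) (hℓ : ℓ.Prime) (hℓN : ¬ ℓ ∣ L) (hℓS : ℓ ∉ S) :
    ∀ A : ValuationSubring (AlgebraicClosure ℚ), A.LiesOverPrime ℓ →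
      ∀ σ : AlgebraicClosure ℚ ≃ₐ[ℚ] AlgebraicClosure ℚ, A.IsFrobeniusAt σ ℓ →
        LinearMap.charpoly (((resZ W hΔ p).baseChange (ResidueField O)).ρ σ) = X ^ 2 -
          C (χ (heckeAlgebra.T hℓ hℓN hℓS)) * X + C ((ℓ : ResidueField O)) :=
  H59.charpoly_frob_k hΔ hS hSW χ hχ ℓ hℓ hℓN hℓS

/-- **The map from the deformation ring to the Hecke ring.** `D` is the universal deformation of `W[p]` over
the residue field of `O`, with cyclotomic determinant, flat at `p`, unramified outside `S'` and unipotent on
inertia at the primes `q ≠ p` of `A` (`FlatType O p S' A`). `L` is a level prime to `p`, its prime divisors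
are in `S'`, the primes `q ≠ p` of `A` divide `L` exactly once, and `χ` is the character of the Hecke
algebra of level `L` with the eigenvalues `a_ℓ(W)`. Then there are the representation `H` over the completed
Hecke ring and a surjection `π` of `O`-algebras such that, in suitable bases, `H` is the image of the
universal deformation under `π`; and `H` is unramified outside `L p`. Proof (`H59LL3`): `datum_flatType` and
`exists_surjection` of `GuideHeckeRings` (together `H30.exists_surjection_heckeLocal`) with
`charpoly_frobenius`; the inputs are S32 (geometry of `J₀(L)`) and S34. -/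
theorem exists_map_to_hecke_ring {W : WeierstrassCurve ℤ} (hΔ : W.Δ ≠ 0) {p : ℕ} [Fact p.Prime]
    {O : Type} [CommRing O] [IsDomain O] [IsDiscreteValuationRing O]
    [IsAdicComplete (maximalIdeal O) O] [Finite (ResidueField O)] [CharZero O]
    [Algebra (ZMod p) (ResidueField O)] (hp2 : p ≠ 2) (hpO : (p : O) ∈ maximalIdeal O) {L : ℕ}
    [NeZero L] (S : Finset ℕ) (hpS : p ∈ S) (hLS : Adm (↑S : Set ℕ) L)
    (hSW : ∀ ℓ : ℕ, ℓ.Prime → ℓ ∉ S → W.IsGoodPrimeFor ℓ) (hpL : ¬ p ∣ L)
    (hirr : ((resZ W hΔ p).baseChange (ResidueField O)).IsIrreducible)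
    (χ : heckeAlgebra L 2 (↑S : Set ℕ) →+* ResidueField O)
    (hχ : ∀ i : Pr (↑S : Set ℕ), χ (H59.evHA hLS (MvPolynomial.X i)) =
      ((W.apOfModel i.1 : ℤ) : ResidueField O))
    (S' A : Finset ℕ) (hS' : ∀ q : ℕ, q.Prime → q ∉ S' → ¬ q ∣ L ∧ q ≠ p)
    (hA : ∀ q ∈ A, q.Prime → q ≠ p → q ∣ L ∧ ¬ q ^ 2 ∣ L)
    (D : DeformationRingData O ((resZ W hΔ p).baseChange (ResidueField O))
      (H53.FlatType O p S' A))
    (b₁ : Module.Basis (Fin 2) D.R D.ρ.V) :
    ∃ (H : HeckeGaloisRepDatum L (↑S : Set ℕ) O χ (heckeLocal L (↑S : Set ℕ) O χ))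
      (π : D.R →ₐ[O] heckeLocal L (↑S : Set ℕ) O χ)
      (b₂ : Module.Basis (Fin 2) (heckeLocal L (↑S : Set ℕ) O χ) H.ρ.V),
      H.π = heckeLocal.π L (↑S : Set ℕ) O χ ∧ Function.Surjective π ∧
      H53.toMat H.ρ.ρ b₂ =
        H53.mapMat (π : D.R →+* heckeLocal L (↑S : Set ℕ) O χ) (H53.toMat D.ρ.ρ b₁) ∧
      (∀ q : ℕ, q.Prime → ¬ q ∣ L → q ≠ p → H.ρ.IsUnramifiedAt q) :=
  H59.exists_hecke hΔ S32.result S34.result hp2 hpO S hpS hLS hSW hpL hirr χ hχ S' A hS' hA D b₁

/-- **The total level** is `M Q · Q T`, where `Q` is the product of the auxiliary primes and `T` that of the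
primes `t ∣ M` to be removed: the forms of level `M Q` with a character modulo `Q T` are twisted to
trivial character (`twist_embedding` of `GuideTWModules`). Its prime divisors are those of `M` and the
`Q i`; a prime outside `T` and the `Q i` divides it at most once if `M` is squarefree. File: `H59LL5`. -/
theorem total_level {M r : ℕ} {Q : Fin r → ℕ} {T : Finset ℕ} (hM : Squarefree M)
    (hQ : ∀ i, (Q i).Prime) (hT : ∀ t ∈ T, t.Prime) (hTM : ∀ t ∈ T, t ∣ M) {q : ℕ} (hq : q.Prime) :
    (q ∣ M * (∏ i, Q i) * ((∏ i, Q i) * ∏ t : {t : ℕ // t ∈ T}, t.1) → q ∣ M ∨ ∃ i, Q i = q) ∧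
      ((∀ i, Q i ≠ q) → q ∉ T →
        ¬ q ^ 2 ∣ M * (∏ i, Q i) * ((∏ i, Q i) * ∏ t : {t : ℕ // t ∈ T}, t.1)) :=
  ⟨H59.prime_dvd_level hQ hT hTM hq, H59.not_sq_dvd_level hM hQ hT hq⟩

/-- **Good levels for `p ≥ 5`**: `2` and `3` are invertible in `O`, so all levels are good in the sense of
`GuideCohomology`, and the modules of the levels are free for every `M`. For `p = 3` (S38, S59) an auxiliary
prime congruent to `2` modulo `3` is added to the level. File: `H59LL6`. -/
theorem good_of_five_le {p : ℕ} [Fact p.Prime] (h5 : 5 ≤ p) {O : Type} [CommRing O]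
    [IsLocalRing O] [CharP (ResidueField O) p] (M : ℕ) : H70.Coh.Good M O :=
  H59.good_of_five h5 M

/-- **The end of the proof of theorem LL.** `A` is the set of the ramified primes `≠ p` of `W[p]`, `T` a set
of unramified primes `t ≡ 1` modulo `p` with scalar Frobenius `± 1` (`H59.ResHyp`: the list of the local
hypotheses). Suppose that for every coefficient ring `O` (`H59.CoeffChoice`: complete, with enough roots of
unity), every choice `pl` of places above the `t` with Frobenius elements and tame generators
(`H53.PlaceData`), all signs `u` and every `k`, there is a bound `D` such that every Galois level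
(`H53.GalLevel`, see `galois_level_primes` in `GuideLevelsIhara`) of depth `n` can be completed by a Hecke
module of rank at most `D` to a level of the patching argument (`TWLevel`; `ntRoots O p a` are the roots of
unity `≠ 1` of order dividing `p ^ a`). This is contradictory. Proof (`H59LL2`): there are coefficient rings
and Galois levels of every depth; apply `no_patching` of `GuideLevelsIhara`. The assumption is proved
(`H59LL6`, theorem `inner`; `exists_hecke_level` in `GuideLevelsIhara`) if `W[p]` is modular of a level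
divisible by `t₀ ∈ T` and not modular of that level divided by `t₀`; hence theorem LL. -/
theorem no_levels {W : WeierstrassCurve ℤ} {hΔ : W.Δ ≠ 0} {p : ℕ} [Fact p.Prime] {A T : Finset ℕ}
    (h5 : 5 ≤ p) (hTv : H45.HasTv (resZ W hΔ p).ρ) (H : H59.ResHyp W hΔ p A T) (S₀ : Finset ℕ)
    (t₀ : {t : ℕ // t ∈ T})
    (inner : ∀ (O : Type) [CommRing O] [IsDomain O] [IsDiscreteValuationRing O]
      [IsAdicComplete (maximalIdeal O) O] [CharZero O] [Finite (ResidueField O)]
      [CharP (ResidueField O) p] [Algebra (ZMod p) (ResidueField O)] (ϖ : O) (a : ℕ) (ζ : O)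
      (_ : H59.CoeffChoice p T O ϖ a ζ)
      (b : Module.Basis (Fin 2) (ResidueField O) ((resZ W hΔ p).baseChange (ResidueField O)).V)
      (pl : ∀ t : {t : ℕ // t ∈ T}, H53.PlaceData p t.1) (u : {t : ℕ // t ∈ T} → O)
      (_ : ∀ t, u t ^ 2 = 1)
      (_ : ∀ t, H53.toMat ((resZ W hΔ p).baseChange (ResidueField O)).ρ b (pl t).φ =
        residue O (u t) • (1 : H53.M2 (ResidueField O))) (k : ℕ),
      ∃ D : ℕ, ∀ n (_ : H53.GalLevel p ((resZ W hΔ p).baseChange (ResidueField O)) b A
        (fun t : {t : ℕ // t ∈ T} => t.1) pl u k n S₀),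
        Nonempty (H69.EG.TWLevel O ϖ p (3 * Nat.card {t : ℕ // t ∈ T} + k) n D
          (MvPowerSeries (({t : ℕ // t ∈ T} × Fin 6) ⊕ Fin k) O)
          (fun t i => MvPowerSeries.X (Sum.inl (t, i))) (fun t : {t : ℕ // t ∈ T} => t.1) u
          (fun t => H55.ntRoots O p (padicValNat p (t.1 - 1))) t₀)) : False :=
  H59.no_levels h5 hTv (H75.gwIneq (by omega)) (fun k _ _ _ => H64.statementF (by omega)) H S₀ t₀
    inner

end Fermat.Agent.Guide.Eigensystems
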