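import Fermat.Agent.S15

/-!
# Reader's guide: the Eisenstein part of the torsion of `J₀(N)` (inputs of S15)

Every theorem of this file is a citation of a theorem of the library with its statement written out.

**What the block does.**  Let `N` and `r ≠ N` be primes, `J = J₀(N)(ℚ̄)`, and let
`W_k = H15.WSub N r (JZero N) k` be the Eisenstein part of `J[r^k]`: the points killed by `r^k` and by a power
of the ideal generated by `r` and the `T_q - (1 + q)`, `q ≠ N`.  The abstract descent (`GuideMazurDescent`)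
needs, with one number `t`:
* `|W_k| = r^{2tk}` (`card_W`);
* `|W_k ∩ K_A| ≤ C r^{tk}` for the kernel of reduction `K_A = H15.KJ N A` at the places `A` above `r`
  (`card_kernel_part`): the reduction is ordinary on the Eisenstein part;
* `|W_k^{I}| ≤ C r^{tk}` for the inertia groups `I` at the places above `N` (`card_inertia_invariants`):
  toric reduction, in the form of a bound for orders;
* inertia at `r` acts on `W_k ∩ K_A` through the cyclotomic character (`inertia_on_kernel_part`), and the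
  Kummer classes at `r` are units (`kummer_classes_units`).
Only orders of magnitude matter; nothing is assumed on `r` (`r = 2` is allowed), and the Hecke algebra is not
shown to be Gorenstein.  S14 (proved by Kummer theory and Thaine's method, see `GuideFermatSmall`) is used in
`cocycle_form_of_S14` only.

**Reading order.**  Section 1: the sizes of `W_k` and `W_k ∩ K_A`: characteristic polynomials of Hecke
operators; cusp forms modulo `r` as logarithmic differentials (details in `GuideLogForm`).  Section 2: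
multiplicity one and the two-dimensional Eisenstein representations.  Section 3: the Tate module of the `W_k`.
Section 4: the conclusions, and the list `core_inputs`.  The steps between the statements of section 1 are in
`GuideEisensteinSizes`, those of sections 2 and 3 in `GuideEisensteinTate`.  NOTES [129] (overview), [100],
[162], [204] (sizes), [103], [227], [87] (logarithmic differentials), [217], [131] (sections 2 and 3), [283]
(Kummer classes).
Everything is in the closure of S15 (hence of S12, S09, S03, S01).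
-/

set_option autoImplicit false

namespace Fermat.Agent.Guide.Eisenstein

open ModularCurve AlgebraicCurve
open Fermat.Agent.H15 (Qb GQ)

/-! ## Section 1.  The sizes of `W_k` and of its part in the kernel of reduction

`H15.S2 N k` is the space of mod `r` cusp forms of weight two: the span, over a field `k` of characteristic
`r`, of the reductions of the `q`-expansions with integral coefficients of cusp forms on `Γ₀(N)`;
`H15.EisPart N k` is its part killed by a power of the Eisenstein ideal.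

The Hecke action `heckeModuleBar N` on `JZero N` is not a global instance; it is made a local instance here
(see `GuideMazurJacobian.heckeGen_smul`). -/

attribute [local instance] heckeModuleBar

/-- Definition of `H15.S2`: the mod `r` cusp forms of weight two on `Γ₀(N)`, as power series. -/
theorem S2_eq (N : ℕ) (k : Type) [Field k] : H15.S2 N k = Submodule.span k
    {f : PowerSeries k | ∃ (F : CuspForm (CongruenceSubgroup.Gamma0 N) 2) (G : PowerSeries ℤ),
      (∀ n : ℕ, ModularFormClass.qCoeff F n = ((PowerSeries.coeff n G : ℤ) : ℂ)) ∧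
        f = G.map (Int.castRingHom k)} :=
  rfl

/-- Unfolding of `H15.EisPart`: the forms `f` in `S2` killed by all products of `n` operators
`T_q - 1 - q` (`H15.TEis k q`), `q ≠ N` prime, for some `n`. -/
theorem mem_eisPart_iff (N : ℕ) (k : Type) [Field k] (f : PowerSeries k) :
    f ∈ H15.EisPart N k ↔ f ∈ H15.S2 N k ∧ ∃ n : ℕ, ∀ l : List ℕ, l.length = n →
      (∀ q ∈ l, q.Prime ∧ q ≠ N) → (l.map (H15.TEis k)).prod f = 0 :=
  Iff.rfl

/-- **Hecke operators on `J₀(N)[r]`.**  For a polynomial `a` in the `T_q`, `q ≠ N` (an element of `H9.R0 N`),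
the characteristic polynomial of `a` on `J₀(N)[r]` over `𝔽_r` is the square of the reduction modulo `r` of
that of `a` on the lattice `H9.MZ N` of cusp forms with integral coefficients (`H9.evJ` and `H9.evMZ` are the
two actions of `H9.R0 N`): `J₀(N)[r] = Hom(Λ, ℤ/r)`, where `Λ` is the quotient of `Γ₀(N)` by commutators,
parabolic and elliptic elements, and `Λ ⊗ ℝ` is the real dual of the space of cusp forms.  File `H9J9H` (with
`H94J9`, `H50J9C`). -/
theorem charpoly_torsion (N : ℕ) [NeZero N] (hN : N.Prime) (r : ℕ) [Fact r.Prime] (a : H9.R0 N) :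
    (H9.evJ N r a).charpoly = ((H9.evMZ hN a).charpoly.map (Int.castRingHom (ZMod r))) ^ 2 :=
  H9.charpoly_evJ N hN r a

/-- **Ranks from characteristic polynomials.**  Let a commutative ring `R` act on finite vector spaces `V`,
`W` over `F` such that the characteristic polynomial of every `a ∈ R` on `V` is the `m`-th power of that on
`W`.  Then the generalised eigenspace `H9.part` of every ideal `P` (the vectors killed by a power of `P`) in
`V` has dimension `m` times that in `W`.  Used with `m = 2`, `V = J₀(N)[r]`, `W` the cusp forms modulo `r`.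
File `H9J9A`. -/
theorem finrank_part {R : Type*} [CommRing R] {F : Type*} [Field F] {V W : Type*} [AddCommGroup V]
    [Module F V] [AddCommGroup W] [Module F W] [Finite V] [Finite W] (m : ℕ)
    (ρ : R →+* Module.End F V) (σ : R →+* Module.End F W) (P : Ideal R)
    (h : ∀ a : R, (ρ a).charpoly = (σ a).charpoly ^ m) :
    Module.finrank F (H9.part ρ P) = m * Module.finrank F (H9.part σ P) :=
  H9.finrank_part_eq_mul m ρ σ P h

/-- **Size of `W_k`**: `|W_k| = r^{2tk}`, where `t` is the dimension of the Eisenstein part of the mod `r`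
cusp forms.  File `H9J9H`. -/
theorem card_W (N : ℕ) [NeZero N] (hN : N.Prime) (r : ℕ) (hr : r.Prime) (hrN : r ≠ N) :
    ∃ t : ℕ, (∀ k : ℕ, Nat.card (H15.WSub N r (JZero N) k) = r ^ (2 * t * k)) ∧
      ∀ (k : Type) [Field k] [CharP k r], Module.finrank k (H15.EisPart N k) = t :=
  H9.cardW N hN r hr hrN

/-- **Lang's lemma**, for a finite dimensional space `V` of power series over an algebraically closed field
of characteristic `r`, stable under an injective linear operator `T` and under the coefficientwise Frobenius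
`f ↦ f^{(r)}`: `V` has a basis of series with `T f = f^{(r)}`.  File `H11Lang`. -/
theorem lang {k : Type*} [Field k] [IsAlgClosed k] (r : ℕ) [Fact r.Prime] [CharP k r]
    (V : Submodule k (PowerSeries k)) [FiniteDimensional k V] (T : PowerSeries k →ₗ[k] PowerSeries k)
    (hTV : ∀ f ∈ V, T f ∈ V) (hTi : ∀ f ∈ V, T f = 0 → f = 0)
    (hFV : ∀ f ∈ V, PowerSeries.map (frobenius k r) f ∈ V) :
    ∃ b : Module.Basis (Fin (Module.finrank k V)) k V,
      ∀ i, T (b i : PowerSeries k) = PowerSeries.map (frobenius k r) (b i : PowerSeries k) :=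
  H11.exists_basis_powerSeries r V T hTV hTi hFV

/-- **Many forms with `T_r f = f^{(r)}`**: `H12F.V0 N r k` is the group of Eisenstein forms `f` over `k` with
`a_{rn}(f) = a_n(f)^r`; it contains `r^t` elements, `t = dim EisPart`.  (Lang's lemma with `T = T_r`, which is
`1 + r = 1` up to a nilpotent operator on the Eisenstein part, hence invertible.)  File `H9F1b`. -/
theorem exists_frobenius_forms {N : ℕ} [NeZero N] {r : ℕ} [Fact r.Prime] {k : Type} [Field k] [CharP k r]
    [IsAlgClosed k] (hN : N.Prime) (hrN : r ≠ N) :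
    ∃ s : Finset (PowerSeries k), (∀ f ∈ s, f ∈ H12F.V0 N r k) ∧
      s.card = r ^ Module.finrank k (H15.EisPart N k) :=
  H9.exists_finset_V0 hN hrN

/-- **Forms modulo `r` are differentials**: over an algebraically closed field `k` of characteristic `r ∤ N`
every mod `r` cusp form is `g · θj` with `g` in the field of modular functions of level `N` over `k`
(`θ = q d/dq`; so `f dq/q = g dj`).  Details: `GuideLogForm`.  File `H98Diff`. -/
theorem exists_function_of_S2 {r : ℕ} [Fact r.Prime] (k : Type) [Field k] [CharP k r] [IsAlgClosed k]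
    (N : ℕ) [NeZero N] (hN : (N : k) ≠ 0) {f : PowerSeries k} (hf : f ∈ H15.S2 N k) :
    ∃ g ∈ modularFunctionFieldFullC k N,
      HahnSeries.ofPowerSeries ℤ k f = g * H1.thetaL k (jqModC k) :=
  H98.exists_function_of_S2 (r := r) k N hN hf

/-- **Logarithmic forms.**  If `f = g · θj` with `g` a modular function over `k`, `a_0(f) = 0` and
`a_{rn}(f) = a_n(f)^r` for all `n`, then `f = θh/h` for a modular function `h` over `k` (a theorem of
Cartier, here by explicit power series; `GuideLogForm`).  File `H98Log`. -/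
theorem exists_log_form {k : Type*} [Field k] (r : ℕ) [Fact r.Prime] [CharP k r] [IsAlgClosed k]
    (N : ℕ) [NeZero N] (hN : (N : k) ≠ 0) {f : PowerSeries k} (h0 : PowerSeries.coeff 0 f = 0)
    (hf : ∀ n : ℕ, PowerSeries.coeff (r * n) f = (PowerSeries.coeff n f) ^ r)
    {g : LaurentSeries k} (hg : g ∈ modularFunctionFieldFullC k N)
    (hfg : HahnSeries.ofPowerSeries ℤ k f = g * H1.thetaL k (jqModC k)) :
    ∃ h ∈ modularFunctionFieldFullC k N, h ≠ 0 ∧ H1.thetaL k h = HahnSeries.ofPowerSeries ℤ k f * h :=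
  H98.exists_log_form r N hN h0 hf hg hfg

set_option synthInstance.maxHeartbeats 400000 in
/-- **The divisor of `h` is divisible by `r`** if `θh/h` is a mod `r` cusp form: so `div(h)/r` is an
`r`-torsion class of the reduction.  Together with `exists_frobenius_forms` and `exists_log_form` this gives
`r^t` classes in the reduction of `W_1`.  Details: `GuideLogFormTrace`.  File `H72F1c`. -/
theorem divisor_divisible {N : ℕ} [NeZero N] (hN : N.Prime) {r : ℕ} (hr : r.Prime) (hrN : r ≠ N)
    (A : ValuationSubring (AlgebraicClosure ℚ)) (hA : A.LiesOverPrime r)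
    {f : PowerSeries (IsLocalRing.ResidueField A)} (hf : f ∈ H15.S2 N (IsLocalRing.ResidueField A))
    {h : modularFunctionFieldFullC (IsLocalRing.ResidueField A) N} (hh : h ≠ 0)
    (hθ : H61.theta (h : LaurentSeries (IsLocalRing.ResidueField A)) =
      HahnSeries.ofPowerSeries ℤ _ f * h)
    (v : Place (IsLocalRing.ResidueField A)
      (modularFunctionFieldFullC (IsLocalRing.ResidueField A) N)) : (r : ℤ) ∣ v.ord h :=
  H72.F1c hN hr hrN A hA hf hh hθ v

/-- **The part in the kernel of reduction** (ordinarity): `|W_k ∩ K A| ≤ C r^{tk}` for `A` above `r`.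
Details: `GuideLogForm`.  Files `H12FFinal`, `H12FCard`. -/
theorem card_kernel_part (N : ℕ) [NeZero N] (hN : N.Prime) (r : ℕ) (hr : r.Prime) (hrN : r ≠ N) (t : ℕ)
    (hW : ∀ k : ℕ, Nat.card (H15.WSub N r (JZero N) k) = r ^ (2 * t * k)) :
    ∃ C : ℕ, ∀ A : ValuationSubring Qb, A.LiesOverPrime r → ∀ k : ℕ,
      Nat.card (H15.WSub N r (JZero N) k ⊓ H15.KJ N A : AddSubgroup (JZero N)) ≤ C * r ^ (t * k) :=
  H15.cardMult_uncond N hN r hr hrN t hW

/-! ## Section 2.  Multiplicity one, and two-dimensional Eisenstein representations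

The Tate module of the `W_k` splits, after extension of scalars, into `t` planes on which the Hecke operators
act by characters: multiplicity one is `multiplicity_le_two`, `multiplicity`.

For the planes, let `O` be a complete discrete valuation ring of characteristic zero with residue
characteristic `r`, and `ρ` a representation of `GQ` on a free `O`-module `Λ` of rank two with
`H76G.EisRep N r O a Λ ρ`: the action is continuous and unramified outside `rN`, a Frobenius element at
`q ∤ rN` satisfies `φ² - a_q φ + q = 0`, `a_q ≡ 1 + q` modulo the maximal ideal for all primes `q ∤ rN`,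
`a_q ≠ 1 + q` for some `q`, and inertia at `N` acts unipotently.  Let `Λm ⊂ Λ` be a saturated submodule
stable under the decomposition group at a place `A` above `r`, such that inertia at `A` acts trivially on
`Λ/Λm` (`H76G.MultAt r ρ A Λm`; in the application `Λm` comes from the kernel of reduction). -/

/-- **Multiplicity at most two over `ℂ`**, `N` prime.  Three homomorphisms `φ_i : Γ₀(N) → ℂ` which kill the
parabolic and elliptic elements (`H4.IsPE`: `φ γ = 0` if `(tr γ)² ≤ 4`) and are eigenvectors of all `T_ℓ`,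
`ℓ ∤ N` (`H4.heckeHom`, the transfer), with the same eigenvalues are linearly dependent.  Proof: by
Eichler-Shimura `φ_i` is the period homomorphism of a cusp form `a_i` plus the conjugate of that of a cusp
form `b_i`.  A nonzero combination `c` kills the first coefficients of `∑ c_i a_i` and `∑ c̄_i b_i`; then all
coefficients with index prime to `N` vanish, and both forms are zero.  File `H6MzThreeB`; steps in
`GuideMazurSteps`, section 6. -/
theorem multiplicity_le_two {N : ℕ} [NeZero N] (hN : N.Prime) (χ : ℕ → ℂ)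
    (φ : Fin 3 → (Additive (CongruenceSubgroup.Gamma0 N) →+ ℂ)) (hPE : ∀ i, H4.IsPE (φ i))
    (hφ : ∀ (i : Fin 3) (ℓ : ℕ) [Fact ℓ.Prime] (hℓN : ¬ ℓ ∣ N),
      H4.heckeHom hℓN (φ i) = χ ℓ • φ i) : ¬ LinearIndependent ℂ φ :=
  H6.Mz.not_linearIndependent_three hN χ φ hPE hφ

/-- Unfolding of `H76G.EisRep`: the conditions on the representation, in the order: continuity, congruence
`a_q ≡ 1 + q`, Frobenius relation, unramified outside `rN`, unipotent inertia at `N`, not Eisenstein. -/
theorem eisRep_iff (N r : ℕ) (O : Type) [CommRing O] [IsLocalRing O] (a : ℕ → O) (Λ : Type)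
    [AddCommGroup Λ] [Module O Λ] (ρ : GQ →* Module.End O Λ) : H76G.EisRep N r O a Λ ρ ↔
    (∀ n : ℕ, ∃ L : IntermediateField ℚ Qb, FiniteDimensional ℚ L ∧ ∀ σ : GQ, (∀ x ∈ L, σ x = x) →
      ∀ v : Λ, ρ σ v - v ∈ (IsLocalRing.maximalIdeal O ^ n • ⊤ : Submodule O Λ)) ∧
    (∀ q : ℕ, q.Prime → q ≠ N → q ≠ r → a q - (1 + (q : O)) ∈ IsLocalRing.maximalIdeal O) ∧
    (∀ q : ℕ, q.Prime → q ≠ N → q ≠ r → ∀ B : ValuationSubring Qb, B.LiesOverPrime q →
      ∀ φ : GQ, B.IsFrobeniusAt φ q → ∀ v : Λ, ρ φ (ρ φ v) - a q • ρ φ v + (q : O) • v = 0) ∧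
    (∀ q : ℕ, q.Prime → q ≠ N → q ≠ r → ∀ B : ValuationSubring Qb, B.LiesOverPrime q →
      ∀ σ ∈ B.inertiaSubgroupIn ℚ, ∀ v : Λ, ρ σ v = v) ∧
    (∀ B : ValuationSubring Qb, B.LiesOverPrime N →
      ∀ σ ∈ B.inertiaSubgroupIn ℚ, ∀ v : Λ, ρ σ (ρ σ v - v) = ρ σ v - v) ∧
    ∃ q : ℕ, q.Prime ∧ q ≠ N ∧ q ≠ r ∧ a q ≠ 1 + (q : O) :=
  ⟨fun h => ⟨h.1, h.2, h.3, h.4, h.5, h.6⟩, fun ⟨a, b, c, d, e, f⟩ => ⟨a, b, c, d, e, f⟩⟩

/-- Unfolding of `H76G.MultAt`: `A` is above `r`; `Λm` is stable under the decomposition group; inertia acts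
trivially on `Λ/Λm`; `Λm` is saturated. -/
theorem multAt_iff (r : ℕ) {O : Type} [CommRing O] {Λ : Type} [AddCommGroup Λ] [Module O Λ]
    (ρ : GQ →* Module.End O Λ) (A : ValuationSubring Qb) (Λm : Submodule O Λ) :
    H76G.MultAt r ρ A Λm ↔ A.LiesOverPrime r ∧
      (∀ σ ∈ A.decompositionSubgroup ℚ, ∀ v ∈ Λm, ρ σ v ∈ Λm) ∧
      (∀ σ ∈ A.inertiaSubgroupIn ℚ, ∀ v : Λ, ρ σ v - v ∈ Λm) ∧
      ∀ (c : O) (v : Λ), c ≠ 0 → c • v ∈ Λm → v ∈ Λm :=
  ⟨fun h => ⟨h.1, h.2, h.3, h.4⟩, fun ⟨a, b, c, d⟩ => ⟨a, b, c, d⟩⟩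

/-- **Multiplicity one**, in the form: three common eigenvectors of the `T_q`, `q ≠ N` prime, with the same
eigenvalues in the Tate module of `J₀(N)` over a finite extension `L` of `ℚ_r` are linearly dependent.
(`L` is embedded in `ℂ`, where the Tate module becomes a part of the homomorphisms of
`multiplicity_le_two`.)  Files `H58MzH`, `H6MzEmb`. -/
theorem multiplicity {N : ℕ} [NeZero N] (hN : N.Prime) {r : ℕ} [Fact r.Prime] (L : Type) [Field L]
    [Algebra ℚ_[r] L] [FiniteDimensional ℚ_[r] L] [Algebra ℤ_[r] L] [IsScalarTower ℤ_[r] ℚ_[r] L]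
    (χ : ℕ → L) (v : Fin 3 → TensorProduct ℤ_[r] L (H30.TateMod r (JZero N)))
    (hv : ∀ (i : Fin 3) (q : ℕ) (hq : q.Prime), q ≠ N →
      (LinearMap.baseChange L (H35.tateMap (heckeOperatorBar N ⟨q, hq⟩).toAddMonoidHom)) (v i) =
        χ q • v i) : ¬ LinearIndependent L v :=
  H58.Mz.pieceH hN L χ v hv

/-- **The only use of S14.**  Cocycle form of S14, `r ≥ 3`: let `g : GQ → 𝔽_r` satisfy
`g(στ) = g(σ) χ(τ) + g(τ)`, `χ` the mod `r` cyclotomic character `H76G.chi r` (so that `(χ, 0; g, 1)` is an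
extension of `μ_r` by `ℤ/r`), factor through a number field, vanish on inertia outside `r`, on a decomposition
group at `r`, and at an element `σ₀` with `χ(σ₀) ≠ 1`.  Then `g = 0`.  File `H76G1b`. -/
theorem cocycle_form_of_S14 {r : ℕ} [Fact r.Prime] (hr3 : 3 ≤ r) (g : GQ → ZMod r)
    (hg : ∀ σ τ, g (σ * τ) = g σ * H76G.chi r τ + g τ)
    (L : IntermediateField ℚ Qb) [FiniteDimensional ℚ L] (hL : ∀ σ : GQ, (∀ x ∈ L, σ x = x) → g σ = 0)
    (hunr : ∀ q : ℕ, q.Prime → q ≠ r → ∀ A : ValuationSubring Qb, A.LiesOverPrime q →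
      ∀ σ ∈ A.inertiaSubgroupIn ℚ, g σ = 0)
    {A : ValuationSubring Qb} (hA : A.LiesOverPrime r) (hD : ∀ σ ∈ A.decompositionSubgroup ℚ, g σ = 0)
    (σ₀ : GQ) (hσ₀ : g σ₀ = 0) (hχ₀ : H76G.chi r σ₀ ≠ 1) : ∀ σ, g σ = 0 :=
  H76G.cocycle_eq_zero hr3 g hg L hL hunr hA hD σ₀ hσ₀ hχ₀

/-- **Key lemma.**  Let `ρ : GQ → M₂(O)` have the cyclotomic character as determinant and trace `≡ 1 + cyc`
modulo the maximal ideal `m`, be unramified outside `r`, with lower left entry `0` on a decomposition group at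
`r` and lower right entry `1` on its inertia group.  Then all lower left entries of `ρ` lie in `m`: modulo `m`
they form a cocycle as in `cocycle_form_of_S14`, with values in the residue field (`r = 2` is elementary).
File `H76G1c`. -/
theorem key_lemma {O : Type} [CommRing O] [IsLocalRing O] [IsAdicComplete (IsLocalRing.maximalIdeal O) O]
    {r : ℕ} [Fact r.Prime] (hr : (r : O) ∈ IsLocalRing.maximalIdeal O)
    (ρ : GQ →* Matrix (Fin 2) (Fin 2) O) (L : IntermediateField ℚ Qb) [FiniteDimensional ℚ L]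
    (hL : ∀ σ : GQ, (∀ x ∈ L, σ x = x) → ∀ i j,
      ρ σ i j - (1 : Matrix (Fin 2) (Fin 2) O) i j ∈ IsLocalRing.maximalIdeal O)
    (hdet : ∀ σ, (ρ σ).det = H35.cyc O hr σ)
    (htr : ∀ σ, (ρ σ).trace - (1 + H35.cyc O hr σ) ∈ IsLocalRing.maximalIdeal O)
    (hunr : ∀ q : ℕ, q.Prime → q ≠ r → ∀ B : ValuationSubring Qb, B.LiesOverPrime q →
      ∀ σ ∈ B.inertiaSubgroupIn ℚ, ρ σ = 1)
    {A : ValuationSubring Qb} (hA : A.LiesOverPrime r)
    (hD : ∀ σ ∈ A.decompositionSubgroup ℚ, ρ σ 1 0 = 0)
    (hI : ∀ σ ∈ A.inertiaSubgroupIn ℚ, ρ σ 1 1 = 1) :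
    ∀ σ, ρ σ 1 0 ∈ IsLocalRing.maximalIdeal O :=
  H76G.key_lemma hr ρ L hL hdet htr hunr hA hD hI

/-- **The determinant** of `ρ` is the cyclotomic character `H35.cyc`, if `Λm ≠ Λ`.  By the density of the
Frobenius elements every `ρ σ` satisfies `X² - t X + cyc σ = 0` for some `t`; this is the characteristic
equation if `ρ σ` is not a scalar.  If `ρ σ` is a scalar, use `σ τ` and `τ` with `ρ τ` not a scalar.  (If all
`ρ τ` were scalars, `ρ` would be a character unramified everywhere, hence trivial by Minkowski's theorem, and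
`a_q = 1 + q` for all `q`.  See `determinant` and `not_scalar` in `GuideEisensteinTate`.)  Files `H76G1`,
`H76G1d`. -/
theorem det_eq_cyc {N r : ℕ} [Fact r.Prime] {O : Type} [CommRing O] [IsDomain O]
    [IsDiscreteValuationRing O] {a : ℕ → O} {Λ : Type} [AddCommGroup Λ] [Module O Λ]
    {ρ : GQ →* Module.End O Λ} [IsAdicComplete (IsLocalRing.maximalIdeal O) O]
    (hr : (r : O) ∈ IsLocalRing.maximalIdeal O) (h : H76G.EisRep N r O a Λ ρ) (hN : N.Prime)
    {A : ValuationSubring Qb} {Λm : Submodule O Λ} (hm : H76G.MultAt r ρ A Λm) (hne : Λm ≠ ⊤)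
    (b : Module.Basis (Fin 2) O Λ) (σ : GQ) : LinearMap.det (ρ σ) = H35.cyc O hr σ :=
  h.det_eq hr hN hm hne b σ

/-- **(E1)** `Λm ≠ 0`: otherwise inertia at `A` would act trivially on `Λ`, but the determinant of `ρ` is the
cyclotomic character (by the Frobenius relations and Minkowski's theorem).  File `H76G1`. -/
theorem mult_part_ne_zero {N r : ℕ} [Fact r.Prime] {O : Type} [CommRing O] [IsDomain O]
    [IsDiscreteValuationRing O] {a : ℕ → O} {Λ : Type} [AddCommGroup Λ] [Module O Λ]
    {ρ : GQ →* Module.End O Λ} [IsAdicComplete (IsLocalRing.maximalIdeal O) O]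
    (hr : (r : O) ∈ IsLocalRing.maximalIdeal O) [CharZero O] (h : H76G.EisRep N r O a Λ ρ)
    (hN : N.Prime) {A : ValuationSubring Qb} {Λm : Submodule O Λ} (hm : H76G.MultAt r ρ A Λm)
    (b : Module.Basis (Fin 2) O Λ) : Λm ≠ ⊥ :=
  h.E1 hr hN hm b

/-- **(E2)** If `Λm ≠ Λ` (so `Λm` has rank one), inertia at `A` acts on `Λm` through the cyclotomic character
`H35.cyc`.  (The determinant of `ρ` is the cyclotomic character and inertia is trivial on `Λ/Λm`.)  File
`H76G1`. -/
theorem mult_part_cyclotomic {N r : ℕ} [Fact r.Prime] {O : Type} [CommRing O] [IsDomain O]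
    [IsDiscreteValuationRing O] {a : ℕ → O} {Λ : Type} [AddCommGroup Λ] [Module O Λ]
    {ρ : GQ →* Module.End O Λ} [IsAdicComplete (IsLocalRing.maximalIdeal O) O]
    (hr : (r : O) ∈ IsLocalRing.maximalIdeal O) (h : H76G.EisRep N r O a Λ ρ) (hN : N.Prime)
    {A : ValuationSubring Qb} {Λm : Submodule O Λ} (hm : H76G.MultAt r ρ A Λm) (hne : Λm ≠ ⊤)
    (e : Module.Basis (Fin 2) O Λ) {σ : GQ} (hσ : σ ∈ A.inertiaSubgroupIn ℚ) {v : Λ} (hv : v ∈ Λm) :
    ρ σ v = H35.cyc O hr σ • v :=
  h.E2 hr hN hm hne e hσ hv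

/-- **(E3)** If `Λm ≠ Λ`, the representation is ramified at `N`.  Otherwise `key_lemma`, applied to the
conjugates of `ρ` by `diag(1, ϖ^n)`, shows that all lower left entries are zero; `ρ` has an unramified
quotient of rank one, which is trivial, and `a_q = 1 + q` for all `q`.  Files `H76G1e`, `H76G1`. -/
theorem ramified_at_N {N r : ℕ} [Fact r.Prime] {O : Type} [CommRing O] [IsDomain O]
    [IsDiscreteValuationRing O] {a : ℕ → O} {Λ : Type} [AddCommGroup Λ] [Module O Λ]
    {ρ : GQ →* Module.End O Λ} [IsAdicComplete (IsLocalRing.maximalIdeal O) O]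
    (hr : (r : O) ∈ IsLocalRing.maximalIdeal O) [CharZero O] (h : H76G.EisRep N r O a Λ ρ)
    (hN : N.Prime) {A : ValuationSubring Qb} {Λm : Submodule O Λ} (hm : H76G.MultAt r ρ A Λm)
    (hne : Λm ≠ ⊤) (e : Module.Basis (Fin 2) O Λ) {B : ValuationSubring Qb} (hB : B.LiesOverPrime N) :
    ∃ σ ∈ B.inertiaSubgroupIn ℚ, ∃ v, ρ σ v ≠ v :=
  h.E3 hr hN hm hne e hB

/-! ## Section 3.  The Tate module of the Eisenstein part

`H76M.Winf N r J` is the union `W` of the `W_k`; `H76M.TW N r J` is its Tate module `T`: the sequences `(x_n)`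
in `W` with `x_0 = 0` and `r x_{n+1} = x_n`; `H30.TateMod.proj n` is the component `x_n`.  The structure
`H76M.TateData N r J t` consists of the actions `D.S.τ q` of `T_q` and `D.S.ρ` of the Galois group on `T` and
of the properties which are listed in `tate_module`.

**The argument.**  After extension of scalars `T` is a sum of spaces on which the Hecke operators act through
characters; each has dimension at most two (`multiplicity`) and meets the part `T_m` coming from the kernel of
reduction at `A` (E1), while `T_m` has rank at most `t` (`card_kernel_part`) and `T` has rank `2t`.  So there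
are exactly `t` planes, each meeting `T_m` in a line, and (E2), (E3) give `tate_conclusions`. -/

/-- **The count of dimensions** in this argument: `d χ` is the dimension of the `χ`-eigenspace, `m χ` that of
its intersection with `T_m`.  File `H76M1`. -/
theorem numerics {κ : Type*} (s : Finset κ) (d m : κ → ℕ) (t : ℕ) (hd : ∑ χ ∈ s, d χ = 2 * t)
    (hm : ∑ χ ∈ s, m χ ≤ t) (hd2 : ∀ χ ∈ s, d χ ≤ 2) (hm1 : ∀ χ ∈ s, 1 ≤ m χ) :
    (∀ χ ∈ s, d χ = 2) ∧ (∀ χ ∈ s, m χ = 1) ∧ s.card = t :=
  H76M.numerics s d m t hd hm hd2 hm1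

/-- **The Tate module of the Eisenstein part** `T = TW N r J` is free of rank `2t` over `ℤ_r`, and maps onto
`W_k` for all `k`.  It has commuting actions `τ q` of `T_q` (`q ≠ N`) and `ρ` of the Galois group such that: a
Frobenius element at `q ∤ rN` satisfies `φ² - T_q φ + q = 0`; `ρ` is unramified at `q ∤ rN` and unipotent on
inertia at `N`; `T_q - (1 + q)` is nilpotent modulo `r` but divides an integer `m ≠ 0`.  All identities are
checked on the finite levels, where the error terms are torsion points in a kernel of reduction.  (The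
hypotheses `hB`, `hE`, `hS` are explained at `core_inputs_iff` in `GuideMazurDescent`: `H15.BasicInputs`,
general properties; `H15.NoEis`, `1 + q - T_q` is almost invertible; `H15.SSN`, inertia at `N`.  They hold for
`J = J₀(N)`: `GuideMazurJacobian`.  For `hW` see `card_W`.)  File `H92MzE`; steps in `GuideMazurSteps`,
section 7. -/
theorem tate_module (N r : ℕ) [Fact r.Prime] (hN : N.Prime) (hrN : r ≠ N) (J : Type) [AddCommGroup J]
    [Module HeckeAlg J] [DistribMulAction GQ J] [SMulCommClass GQ HeckeAlg J]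
    (K : ValuationSubring Qb → AddSubgroup J) (hB : H15.BasicInputs N J K) (hE : H15.NoEis N J)
    (hS : H15.SSN N J) (t : ℕ) (hW : ∀ k : ℕ, Nat.card (H15.WSub N r J k) = r ^ (2 * t * k)) :
    ∃ (τ : ℕ → Module.End ℤ_[r] (H76M.TW N r J)) (ρ : GQ →* Module.End ℤ_[r] (H76M.TW N r J)),
      (∀ (σ : GQ) (x : H76M.TW N r J) (n : ℕ), ((H30.TateMod.proj n (ρ σ x) : H76M.Winf N r J) : J) =
        σ • ((H30.TateMod.proj n x : H76M.Winf N r J) : J)) ∧
      (∀ (q : ℕ) (hq : q.Prime), q ≠ N → ∀ (x : H76M.TW N r J) (n : ℕ),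
        ((H30.TateMod.proj n (τ q x) : H76M.Winf N r J) : J) =
          heckeGen ⟨q, hq⟩ • ((H30.TateMod.proj n x : H76M.Winf N r J) : J)) ∧
      (∀ q q', Commute (τ q) (τ q')) ∧ (∀ q σ, Commute (τ q) (ρ σ)) ∧
      Module.Finite ℤ_[r] (H76M.TW N r J) ∧ Module.Free ℤ_[r] (H76M.TW N r J) ∧
      Module.finrank ℤ_[r] (H76M.TW N r J) = 2 * t ∧
      (∀ k, ∀ x ∈ H15.WSub N r J k, ∃ y : H76M.TW N r J,
        ((H30.TateMod.proj k y : H76M.Winf N r J) : J) = x) ∧
      (∀ q : ℕ, q.Prime → q ≠ N → q ≠ r → ∀ B : ValuationSubring Qb, B.LiesOverPrime q →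
        ∀ φ : GQ, B.IsFrobeniusAt φ q →
          ρ φ * ρ φ - τ q * ρ φ + (q : ℤ_[r]) • (1 : Module.End ℤ_[r] (H76M.TW N r J)) = 0) ∧
      (∀ q : ℕ, q.Prime → q ≠ N → q ≠ r → ∀ B : ValuationSubring Qb, B.LiesOverPrime q →
        ∀ σ ∈ B.inertiaSubgroupIn ℚ, ρ σ = 1) ∧
      (∀ B : ValuationSubring Qb, B.LiesOverPrime N →
        ∀ σ ∈ B.inertiaSubgroupIn ℚ, ρ σ * (ρ σ - 1) = ρ σ - 1) ∧
      (∀ q : ℕ, q.Prime → q ≠ N → ∃ k : ℕ, ∀ v : H76M.TW N r J, ∃ w,
        ((τ q - (1 + (q : ℤ_[r])) • (1 : Module.End ℤ_[r] (H76M.TW N r J))) ^ k) v =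
          (r : ℤ_[r]) • w) ∧
      ∀ q : ℕ, q.Prime → q ≠ N → ∃ (u : Module.End ℤ_[r] (H76M.TW N r J)) (m : ℕ), m ≠ 0 ∧
        u * ((1 + (q : ℤ_[r])) • (1 : Module.End ℤ_[r] (H76M.TW N r J)) - τ q) =
          (m : ℤ_[r]) • (1 : Module.End ℤ_[r] (H76M.TW N r J)) := by
  obtain ⟨D⟩ := H92.MzE.pieceE N r hN hrN J K hB hE hS t hW
  exact ⟨D.S.τ, D.S.ρ, D.ρ_apply, D.τ_apply, D.S.comm_τ, D.S.comm_ρ, D.finite, D.free, D.finrank_eq,
    D.surj, D.S.frob, D.S.unr, D.S.ss, D.S.nilp, D.S.nonEis⟩

/-- **The conclusions for the Tate module.**  (1) Inertia at a place `A` above `r` acts on the part of `T`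
with all components in the kernel of reduction at `A` through the cyclotomic character.  (2) For a place `B`
above `N` the vectors of `T` fixed by inertia at `B` (the submodule `H76M.fixT D.S B`) have rank at most `t`.
File `H76M8`. -/
theorem tate_conclusions (N : ℕ) [NeZero N] (hN : N.Prime) (r : ℕ) [Fact r.Prime] (hrN : r ≠ N) (t : ℕ)
    (hW : ∀ k : ℕ, Nat.card (H15.WSub N r (JZero N) k) = r ^ (2 * t * k))
    (D : H76M.TateData N r (JZero N) t) {A : ValuationSubring Qb} (hA : A.LiesOverPrime r)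
    (hp : (r : ℤ_[r]) ∈ IsLocalRing.maximalIdeal ℤ_[r]) :
    (∀ σ ∈ A.inertiaSubgroupIn ℚ, ∀ x : H76M.TW N r (JZero N),
      (∀ n, ((H30.TateMod.proj n x : H76M.Winf N r (JZero N)) : JZero N) ∈ H15.KJ N A) →
        D.S.ρ σ x = H35.cyc ℤ_[r] hp σ • x) ∧
    (∀ B : ValuationSubring Qb, B.LiesOverPrime N → Module.finrank ℤ_[r] (H76M.fixT D.S B) ≤ t) :=
  H76M.conclusions H17.basic H15.cardMult_uncond N hN r hrN t hW D hA hp

/-- **From the Tate module to the finite levels.**  If for every place `B` above `N` the vectors of `T` fixed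
by inertia at `B` have rank at most `t`, then at most `C r^{tk}` elements of `W_k` are fixed by inertia at a
place above `N`.  (The fixed vectors are the common kernel of finitely many `σ - 1`; by the lemma of
Artin-Rees an element `y` with all `(σ - 1) y` divisible by `r^k` is congruent modulo `r^{k-c}` to a fixed
vector; `c` does not depend on the place, as all places above `N` are conjugate.)  File `H6MzF`. -/
theorem card_fixed_of_rank (N : ℕ) [NeZero N] (hN : N.Prime) (r : ℕ) [Fact r.Prime] (hrN : r ≠ N) (t : ℕ)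
    (hW : ∀ k : ℕ, Nat.card (H15.WSub N r (JZero N) k) = r ^ (2 * t * k))
    (D : H76M.TateData N r (JZero N) t)
    (hI : ∀ B : ValuationSubring Qb, B.LiesOverPrime N →
      Module.finrank ℤ_[r] (H76M.fixT D.S B) ≤ t) :
    ∃ C : ℕ, ∀ A : ValuationSubring Qb, A.LiesOverPrime N → ∀ k : ℕ,
      Nat.card {x : H15.WSub N r (JZero N) k // ∀ σ ∈ A.inertiaSubgroupIn ℚ, σ • (x : JZero N) = x} ≤
        C * r ^ (t * k) :=
  haveI := H67.smulCommClass_heckeAlg N
  H6.Mz.pieceF N r hN hrN (JZero N) (H15.KJ N) (H17.basic N) t hW D hI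

/-! ## Section 4.  The conclusions -/

/-- **The invariants of inertia at `N`**: at most `C r^{tk}` elements of `W_k` (`A` above `N`).  File
`H76M8`. -/
theorem card_inertia_invariants (N : ℕ) [NeZero N] (hN : N.Prime) (r : ℕ) (hr : r.Prime) (hrN : r ≠ N)
    (t : ℕ) (hW : ∀ k : ℕ, Nat.card (H15.WSub N r (JZero N) k) = r ^ (2 * t * k)) :
    ∃ C : ℕ, ∀ A : ValuationSubring Qb, A.LiesOverPrime N → ∀ k : ℕ,
      Nat.card {x : H15.WSub N r (JZero N) k // ∀ σ ∈ A.inertiaSubgroupIn ℚ, σ • (x : JZero N) = x} ≤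
        C * r ^ (t * k) :=
  H76M.t_cardN H17.basic H94.NE.noEis H80.SS.ss H15.cardMult_uncond N hN r hr hrN t hW

/-- **Inertia at `r`** acts on `W_k ∩ K A` (`A` above `r`) through the cyclotomic character: `σ x = n x` if
`σ ζ = ζ^n` for `ζ ∈ μ_{r^k}`.  File `H76M8` (from the Tate module to the finite levels: `H54MzM`). -/
theorem inertia_on_kernel_part (N : ℕ) [NeZero N] (hN : N.Prime) (r : ℕ) (hr : r.Prime) (hrN : r ≠ N)
    (A : ValuationSubring Qb) (hA : A.LiesOverPrime r) (k : ℕ) (σ : GQ) (hσ : σ ∈ A.inertiaSubgroupIn ℚ)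
    (n : ℕ) (hn : ∀ ζ : Qb, ζ ^ (r ^ k) = 1 → σ ζ = ζ ^ n) :
    ∀ x ∈ H15.WSub N r (JZero N) k ⊓ H15.KJ N A, σ • x = n • x :=
  H15.mult_uncond N hN r hr hrN A hA k σ hσ n hn

/-- **Kummer classes at `r` are units** (replaces finite flatness).  Let `A` be above `r`, `ψ` a homomorphism
from `W_k ∩ K A` to `ℚ̄ˣ`, `r^k R` fixed by inertia, and `σR - R ∈ W_k ∩ K A` with `ψ(σR - R) = σκ/κ` for
`σ` in the inertia group.  Then `κ` has the valuation of a power of `r`.  By `kernel_norm`,
`kernel_divisible` and `lift_inertia_invariant` of `GuideMazurJacobian`.  Files `H47UnitR`, `H17Norm3`; the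
steps are in `GuideKummerUnits`. -/
theorem kummer_classes_units (N : ℕ) [NeZero N] (hN : N.Prime) (r : ℕ) (hr : r.Prime) (hrN : r ≠ N)
    (A : ValuationSubring Qb) (hA : A.LiesOverPrime r) (k : ℕ)
    (ψ : (H15.WSub N r (JZero N) k ⊓ H15.KJ N A : AddSubgroup (JZero N)) →+ Additive Qbˣ)
    (R : JZero N) (κ : Qbˣ)
    (hR : ∀ σ ∈ A.inertiaSubgroupIn ℚ, σ • ((r ^ k : ℕ) • R) = (r ^ k : ℕ) • R)
    (hψ : ∀ σ : GQ, σ ∈ A.inertiaSubgroupIn ℚ →
      ∃ h : σ • R - R ∈ H15.WSub N r (JZero N) k ⊓ H15.KJ N A,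
        ((ψ ⟨_, h⟩).toMul : Qb) * κ = σ (κ : Qb)) :
    ∃ m : ℤ, A.valuation (κ : Qb) = A.valuation (r : Qb) ^ m :=
  H17.t_unitR H17.basic H18.heckeRed H15.mult_uncond N hN r hr hrN A hA k ψ R κ hR hψ

/-- **The list of inputs for `J₀(N)`**: `N ≥ 5` prime, `r ≠ N` prime (`H15.T_core`; see
`GuideMazurDescent.core_inputs_iff`).  File `H15Main`. -/
theorem core_inputs (N : ℕ) [NeZero N] (hN : N.Prime) (hN5 : 5 ≤ N) (r : ℕ) (hr : r.Prime) (hrN : r ≠ N) :
    H15.CoreInputs N r (JZero N) (H15.KJ N) :=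
  H15.core_uncond N hN hN5 r hr hrN

end Fermat.Agent.Guide.Eisenstein
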