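import Fermat.Agent.S16

/-!
# Reader's guide: the index of the Eisenstein ideal (S16)

Every theorem of this file is a citation of a theorem of the library with its statement written out.

**What the block does.**  S16: for every prime `p`, the quotient of the Hecke algebra of the cusp forms of
weight two on `Γ₀(p)` by the Eisenstein ideal has exactly `n` elements, `n` the numerator of `(p - 1)/12`
(Mazur, *Modular curves and the Eisenstein ideal*, II.9.7).  S16 is a statement of its own: it is not used in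
the proof of Fermat's Last Theorem (S15 needs only the order of the cuspidal class, see `GuideMazur`).

**The proof** uses only pairs of power series (the expansions at the cusps `∞` and `0`); no model of
`X₀(p)`, no Jacobian, no forms modulo `ℓ` in the sense of Katz.  Let `σ'(k)` be the sum of the divisors of `k`
prime to `p`, and say that there is an *Eisenstein congruence modulo `m`*, `H16.EisCong p m`, if some cusp
form with integral coefficients has `a_k ≡ σ'(k)` modulo `m` for all `k ≥ 1`.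
* Duality: if `EisCong p m ↔ m ∣ n` for all `m > 0`, the index is `n` (section 2).
* Lower bound, `EisCong p n`: combine the Eisenstein series of weight two and a theta series with constant
  term `1` and even coefficients to a form with constant term `0`, which is a cusp form (section 3).
* Upper bound, `EisCong p m → m ∣ n`: a congruence modulo too high a power of a prime `ℓ` gives a form of
  weight two congruent to a constant modulo `ℓ` (or `9`, `4`, `8`); from it and the Eisenstein series of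
  level one, one gets forms with too many zeros modulo `ℓ` (section 4).
For `p = 2, 3` there are no cusp forms.

Files `H16Defs`, `H16Alg`, `H16Eis`, `H16Theta`, `H16Lower`, `H16LevelOne`, `H16Cosets`, `H16Sturm`,
`H16Weight2`, `H16Exp`, `H16Upper`; NOTES [258].  A second proof of the lower bound, by the Shimura
character, is [78] (not used for S16).  Everything is in the closure of S16.
-/

set_option autoImplicit false

namespace Fermat.Agent.Guide.EisensteinIndex

open ModularCurve CuspForm UpperHalfPlane ModularFormClass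
open scoped ModularForm MatrixGroups

/-! ## Section 1.  The statement -/

/-- **S16.**  `heckeLatticeAlgebra p ∅` is the algebra of endomorphisms generated by the Hecke operators
`T_ℓ` (`ℓ ≠ p`) and `U_p` on the lattice of cusp forms of weight two on `Γ₀(p)` with integral coefficients; it
is the image of the polynomial ring `HeckeAlg = ℤ[X_ℓ]` under the composed map; the ideal is the image of
`eisensteinIdeal p` (see the next theorem), and `eisensteinNumerator p` is the numerator of `(p - 1)/12`. -/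
theorem index_eisenstein_ideal (p : ℕ) [Fact p.Prime] :
    Nat.card (↥(heckeLatticeAlgebra p ∅) ⧸
      Ideal.map ((latticeRestrictHom p ∅).toRingHom.comp (heckeEvalForms p 2)) (eisensteinIdeal p)) =
        eisensteinNumerator p :=
  S16.result p

/-- The Eisenstein ideal is the kernel of the evaluation `X_ℓ ↦ 1 + ℓ` for `ℓ ≠ p`, `X_p ↦ 1`, with values in
`ℤ`. -/
theorem eisensteinIdeal_eq (p : ℕ) : eisensteinIdeal p = RingHom.ker
    (MvPolynomial.aeval (R := ℤ) fun ℓ : Nat.Primes =>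
      if (ℓ : ℕ) ∣ p then (1 : ℤ) else 1 + ((ℓ : ℕ) : ℤ)).toRingHom :=
  rfl

/-- Definition of `eisensteinNumerator`. -/
theorem eisensteinNumerator_eq (p : ℕ) : eisensteinNumerator p = (p - 1) / Nat.gcd (p - 1) 12 :=
  rfl

/-- The lattice `intLattice p 2` on which the Hecke algebra acts: the cusp forms with integral
`q`-coefficients.  File `H71S49Ideal`. -/
theorem mem_lattice_iff (p : ℕ) [NeZero p] (f : CuspForm (CongruenceSubgroup.Gamma0 p) 2) :
    f ∈ intLattice p 2 ↔ ∀ n : ℕ, ∃ m : ℤ, qCoeff f n = (m : ℂ) :=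
  H71.mem_intLattice_iff f

/-- Unfolding of `H16.EisCong`: a congruence modulo `m` with the Eisenstein series.  File `H16Defs`. -/
theorem eisCong_iff (p m : ℕ) : H16.EisCong p m ↔
    ∃ f : CuspForm (CongruenceSubgroup.Gamma0 p) 2, ∀ k : ℕ, ∃ a : ℤ,
      qCoeff f k = a ∧ (1 ≤ k → (m : ℤ) ∣ a - (∑ d ∈ k.divisors with ¬ p ∣ d, d : ℕ)) :=
  Iff.rfl

/-! ## Section 2.  Duality -/

/-- **The operators `T_k`.**  For every `k ≥ 1` there is a polynomial `P` in the Hecke operators with
`a_1(P f) = a_k(f)` for all cusp forms `f`, and with Eisenstein value `σ'(k)`: `H16.Alg.evHom p` is the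
evaluation of `eisensteinIdeal_eq`, `H16.sigmaP p k` is `σ'(k)`, and `H16.Alg.act` is the action on cusp
forms.  File `H16Alg`. -/
theorem exists_coeff_op (p : ℕ) [Fact p.Prime] (k : ℕ) (hk : 1 ≤ k) :
    ∃ P : HeckeAlg, H16.Alg.evHom p P = (H16.sigmaP p k : ℤ) ∧
      ∀ f : CuspForm (CongruenceSubgroup.Gamma0 p) 2, qCoeff (H16.Alg.act p P f) 1 = qCoeff f k :=
  H16.Alg.exists_coeff_op p k hk

/-- **Duality.**  Every linear functional on the Hecke algebra is `t ↦ a_1(t f)` for a cusp form `f` with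
integral coefficients (`H16.Alg.pair` is this pairing).  File `H16Alg`. -/
theorem exists_dual (p : ℕ) [Fact p.Prime] (φ : ↥(heckeLatticeAlgebra p ∅) →ₗ[ℤ] ℤ) :
    ∃ f : ↥(intLattice p 2), ∀ t, H16.Alg.pair p f t = φ t :=
  H16.Alg.exists_dual p φ

/-- **Index and congruences.**  If Eisenstein congruences exist exactly modulo the divisors of `n`, the index
is `n`: the quotient is cyclic (`T = ℤ + I`), and a functional on it is a congruence.  File `H16Alg`. -/
theorem index_of_congruences (p : ℕ) [Fact p.Prime] (n : ℕ) (hn : 0 < n)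
    (h : ∀ m : ℕ, 0 < m → (H16.EisCong p m ↔ m ∣ n)) :
    Nat.card (↥(heckeLatticeAlgebra p ∅) ⧸
      Ideal.map ((latticeRestrictHom p ∅).toRingHom.comp (heckeEvalForms p 2)) (eisensteinIdeal p)) =
        n :=
  H16.natCard_quotient_eq p n hn h

/-! ## Section 3.  The lower bound -/

/-- **The Eisenstein series** `(p E₂(pz) - E₂(z))/24 = (p - 1)/24 + ∑ σ'(k) q^k` on `Γ₀(p)`.  File
`H16Eis`. -/
theorem exists_eisenstein (p : ℕ) (hp : p.Prime) :
    ∃ E : ModularForm (CongruenceSubgroup.Gamma0 p) 2, qCoeff E 0 = ((p : ℂ) - 1) / 24 ∧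
      ∀ k : ℕ, 1 ≤ k → qCoeff E k = (H16.sigmaP p k : ℂ) :=
  H16.exists_eisenstein p hp

/-- **The theta series**: a form of weight two on `Γ₀(p)`, `p ≥ 5`, with constant term `1` and even
coefficients `a_k`, `k ≥ 1`: the theta series of an even quaternary lattice of discriminant `p²`; modularity
by Poisson summation and the Weil representation on functions on `𝔽_p²`.  File `H16Theta` (with
`H16Lattice`, `H16Disc`, `H16Poisson`, `H16Weil`). -/
theorem exists_theta (p : ℕ) (hp : p.Prime) (hp5 : 5 ≤ p) :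
    ∃ θ : ModularForm (CongruenceSubgroup.Gamma0 p) 2, qCoeff θ 0 = 1 ∧
      ∀ k : ℕ, 1 ≤ k → ∃ m : ℤ, qCoeff θ k = 2 * (m : ℂ) :=
  H16.exists_theta p hp hp5

/-- A form of weight two and prime level with constant term `0` is a cusp form (its trace to level one is
`0`, so the constant term at the cusp `0` vanishes too).  File `H16Lower`. -/
theorem exists_cuspForm {p : ℕ} [Fact p.Prime] (f : ModularForm (CongruenceSubgroup.Gamma0 p) 2)
    (h0 : qCoeff f 0 = 0) :
    ∃ g : CuspForm (CongruenceSubgroup.Gamma0 p) 2, (g : ℍ → ℂ) = f :=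
  H16.Lower.exists_cuspForm f h0

/-- **Lower bound**: with a theta series as above there is an Eisenstein congruence modulo the numerator `n`
of `(p - 1)/12`: if `gcd(p - 1, 12) = (p - 1) v + 12 u`, take `E - n (u θ/2 + v E)`.  File `H16Lower`. -/
theorem lower_bound (p : ℕ) (hp : p.Prime)
    (hθ : ∃ θ : ModularForm (CongruenceSubgroup.Gamma0 p) 2, qCoeff θ 0 = 1 ∧
      ∀ k : ℕ, 1 ≤ k → ∃ m : ℤ, qCoeff θ k = 2 * (m : ℂ)) : H16.EisCong p (eisensteinNumerator p) :=
  H16.eisCong_eisensteinNumerator_of_theta p hp hθ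

/-! ## Section 4.  The upper bound

`H16.HasExpZ p k Φ Φ₀` says that the integral power series `Φ`, `Φ₀` are the expansions of a form of weight
`k` on `Γ₀(p)` at the cusps `∞` (in `q`) and `0` (in `q^{1/p}`). -/

/-- Unfolding of `H16.HasExpZ`.  File `H16Exp`. -/
theorem hasExpZ_iff (p : ℕ) [Fact p.Prime] (k : ℕ) (Φ Φ₀ : PowerSeries ℤ) :
    H16.HasExpZ p k Φ Φ₀ ↔ ∃ F : ModularForm (H16.G0 p) (k : ℤ),
      qExpansion 1 F = Φ.map (Int.castRingHom ℂ) ∧
      qExpansion p ((F : ℍ → ℂ) ∣[(k : ℤ)] ModularGroup.S) = Φ₀.map (Int.castRingHom ℂ) :=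
  Iff.rfl

/-- **Weight two.**  The expansion at `0` of a form `F` of weight two is `-(1/p) ∑ a_{pm}(F) q^{m/p}`.  File
`H16Weight2`. -/
theorem expansion_at_zero {p : ℕ} [Fact p.Prime] (F : ModularForm (H16.G0 p) 2) :
    qExpansion p ((F : ℍ → ℂ) ∣[(2 : ℤ)] ModularGroup.S) =
      PowerSeries.C (-(p : ℂ)⁻¹) * PowerSeries.mk fun m => (qExpansion 1 F).coeff (p * m) :=
  H16.qExpansion_slash_S_two F

/-- **Sturm bound at both cusps.**  If neither expansion is zero modulo `ℓ`, and the first `n` coefficients at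
`∞` and the first `n₀` coefficients at `0` are divisible by `ℓ`, then `n + n₀ ≤ k (p + 1)/12`.  (The norm to
level one.)  File `H16Exp`, from `H16Sturm`. -/
theorem sturm {p : ℕ} [Fact p.Prime] {ℓ : ℕ} (hℓ : ℓ.Prime) {k : ℕ} {Φ Φ₀ : PowerSeries ℤ}
    (h : H16.HasExpZ p k Φ Φ₀) (n n₀ : ℕ)
    (h1 : ∀ i < n, (ℓ : ℤ) ∣ Φ.coeff i) (h1' : ∃ i, ¬ (ℓ : ℤ) ∣ Φ.coeff i)
    (h0 : ∀ i < n₀, (ℓ : ℤ) ∣ Φ₀.coeff i) (h0' : ∃ i, ¬ (ℓ : ℤ) ∣ Φ₀.coeff i) :
    n + n₀ ≤ k * (p + 1) / 12 :=
  h.sturm hℓ n n₀ h1 h1' h0 h0'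

/-- **Zero at `0` implies zero at `∞`** modulo `ℓ ≠ p`, for weights `k < 12 (p - 1)` (by a trace).  File
`H16Exp`, from `H16Sturm`. -/
theorem zero_of_zero {p : ℕ} [Fact p.Prime] {ℓ : ℕ} (hℓ : ℓ.Prime) (hℓp : ¬ ℓ ∣ p) {k : ℕ}
    (hk : k < 12 * (p - 1)) {Φ Φ₀ : PowerSeries ℤ} (h : H16.HasExpZ p k Φ Φ₀)
    (h0 : ∀ i, (ℓ : ℤ) ∣ Φ₀.coeff i) (i : ℕ) : (ℓ : ℤ) ∣ Φ.coeff i :=
  h.dvd_coeff hℓ hℓp hk h0 i

/-- Unfolding of `H16.Key p c M`: there is a form of weight two with expansions `p (c + M g)` at `∞` and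
`-(c + M g₀)` at `0`; so it is `p` times a form congruent to the constant `c` modulo `M`.  File
`H16Upper`. -/
theorem key_iff (p : ℕ) [Fact p.Prime] (c M : ℤ) : H16.Key p c M ↔ ∃ g g₀ : PowerSeries ℤ,
    H16.HasExpZ p 2 (PowerSeries.C (p : ℤ) * (PowerSeries.C c + PowerSeries.C M * g))
      (-(PowerSeries.C c + PowerSeries.C M * g₀)) :=
  Iff.rfl

/-- **From a congruence to `Key`.**  An Eisenstein congruence modulo `m`, with `24 m = q (M D)` and
`p - 1 = q c`, gives `Key p c M`: take `p` times the form `24 (E - f)/q`.  File `H16Upper`. -/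
theorem key_of_congruence {p : ℕ} [Fact p.Prime] {m : ℕ} (hm : 0 < m) (h : H16.EisCong p m)
    {q M D c : ℤ} (h1 : 24 * (m : ℤ) = q * (M * D)) (h2 : (p : ℤ) - 1 = q * c) : H16.Key p c M :=
  H16.key_of_eisCong hm h h1 h2

/-- **`ℓ ≥ 7`**: no form of weight two is congruent to a constant `c ≢ 0` modulo `ℓ`.  With `F` the form of
`Key`, `c² E₄ - F²` has an expansion at `0` of order `≥ p` modulo `ℓ`, against the Sturm bound (the
coefficient `240 c²` at `∞` is a unit modulo `ℓ`).  File `H16Upper`. -/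
theorem contra_ge_seven {p : ℕ} [Fact p.Prime] {ℓ : ℕ} (hℓ : ℓ.Prime) (h7 : 7 ≤ ℓ) {c : ℤ}
    (hc : ¬ (ℓ : ℤ) ∣ c) (h : H16.Key p c ℓ) : False :=
  H16.Key.contra_ge_seven hℓ h7 hc h

/-- **`ℓ = 5`**: the same with `c³ E₆ + F³`.  File `H16Upper`. -/
theorem contra_five {p : ℕ} [Fact p.Prime] {c : ℤ} (hc : ¬ (5 : ℤ) ∣ c) (h : H16.Key p c 5) : False :=
  H16.Key.contra_five hc h

/-- **`ℓ = 3 ∤ p`**, modulo `9`: the form `(c² E₄ - F²)/3`.  Used for `p ≡ 2 mod 3`.  File
`H16Upper`. -/
theorem contra_nine {p : ℕ} [Fact p.Prime] (h3 : ¬ 3 ∣ p) {c : ℤ} (hc : ¬ (3 : ℤ) ∣ c)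
    (h : H16.Key p c 9) : False :=
  H16.Key.contra_nine h3 hc h

/-- **`ℓ = 3`, `p ≡ 1 mod 3`**, modulo `3`: `c E₆ + F E₄` vanishes at `0` but not at `∞`.  File
`H16Upper`. -/
theorem contra_three {p : ℕ} [Fact p.Prime] (h3 : p % 3 = 1) {c : ℤ} (hc : ¬ (3 : ℤ) ∣ c)
    (h : H16.Key p c 3) : False :=
  H16.Key.contra_three h3 hc h

/-- **`ℓ = 2`, the step**: if `p + 1 = 2^s u`, `s ≤ 2`, and `Key` holds modulo `2^(s+1)` with `c` odd, then
`u` is even.  File `H16Upper`. -/
theorem two_step {p : ℕ} [Fact p.Prime] (hp3 : 3 ≤ p) (s : ℕ) (hs : s ≤ 2) {c u : ℤ}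
    (hc : ¬ (2 : ℤ) ∣ c) (hu : (1 + p : ℤ) = 2 ^ s * u) (h : H16.Key p c (2 ^ s * 2)) : (2 : ℤ) ∣ u :=
  H16.Key.two_step hp3 s hs hc hu h

/-- **`ℓ = 2`, `8 ∣ p + 1`**: no `Key` modulo `8` with `c` odd (a form of weight `8` which modulo `2` has
order `1` at `∞` and `p` at `0`).  File `H16Upper`. -/
theorem contra_eight {p : ℕ} [Fact p.Prime] {c : ℤ} (hc : ¬ (2 : ℤ) ∣ c) (h8 : (8 : ℤ) ∣ 1 + p)
    (h : H16.Key p c 8) : False :=
  H16.Key.contra_eight hc h8 h

/-- **Upper bound** (`p ≥ 5`): an Eisenstein congruence modulo `m` implies that `m` divides the numerator of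
`(p - 1)/12`.  File `H16Upper`. -/
theorem upper_bound {p m : ℕ} (hp : p.Prime) (hp5 : 5 ≤ p) (hm : 0 < m) (h : H16.EisCong p m) :
    m ∣ eisensteinNumerator p :=
  H16.EisCong.dvd hp hp5 hm h

/-- For `p = 2, 3` there are no cusp forms, and only the trivial congruence modulo `1`.  File `H16Lower`. -/
theorem small_levels {p : ℕ} (hp : p = 2 ∨ p = 3) (m : ℕ) : H16.EisCong p m ↔ m ∣ 1 :=
  H16.eisCong_small hp m

end Fermat.Agent.Guide.EisensteinIndex
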