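import Mathlib

/-!
# Lang's theorem for `GL_n` (MAZUR job MZ-F1a)

Let `k` be an algebraically closed field of characteristic `r`, `V` a finite dimensional `k`-vector
space and `φ : V → V` an injective Frobenius-semilinear map. Then `V` has a basis of vectors fixed
by `φ`.
-/

set_option autoImplicit false
set_option linter.unusedSectionVars false

namespace Fermat.Agent.H11

open Polynomial

section Poly

variable {k : Type*} [Field k] (r : ℕ) [Fact r.Prime] [CharP k r]

/-- the auxiliary additive polynomials -/
noncomputable def langX (c : ℕ → k) : ℕ → k[X]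
  | 0 => C (c 0) * X ^ r
  | i + 1 => langX c i ^ r + C (c (i + 1)) * X ^ r

theorem langX_eval_zero (c : ℕ → k) (i : ℕ) : (langX r c i).eval 0 = 0 := by
  have hr : r ≠ 0 := (Fact.out : r.Prime).ne_zero
  cases i with
  | zero => simp [langX, hr]
  | succ i =>
    have := langX_eval_zero c i
    simp [langX, hr, this]

theorem langX_derivative (c : ℕ → k) (i : ℕ) : derivative (langX r c i) = 0 := by
  have h : ((r : ℕ) : k[X]) = 0 := CharP.cast_eq_zero k[X] r
  cases i with
  | zero =>
    simp only [langX, derivative_C_mul, derivative_X_pow]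
    rw [show ((r : ℕ) : k) = 0 from CharP.cast_eq_zero k r]
    simp
  | succ i =>
    simp only [langX, derivative_add, derivative_C_mul, derivative_pow]
    rw [show ((r : ℕ) : k) = 0 from CharP.cast_eq_zero k r]
    simp

theorem langX_natDegree (c : ℕ → k) (i : ℕ) (h : ∃ j ≤ i, c j ≠ 0) :
    r ≤ (langX r c i).natDegree := by
  have hr : 2 ≤ r := (Fact.out : r.Prime).two_le
  induction i with
  | zero =>
    obtain ⟨j, hj, hc⟩ := h
    obtain rfl : j = 0 := by omega
    rw [langX, natDegree_C_mul_X_pow _ _ hc]
  | succ i ih =>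
    by_cases h0 : ∃ j ≤ i, c j ≠ 0
    · have h1 := ih h0
      have h2 : (langX r c i ^ r).natDegree = r * (langX r c i).natDegree := natDegree_pow _ _
      have h3 : r < r * (langX r c i).natDegree := by nlinarith
      have h4 : (C (c (i + 1)) * X ^ r : k[X]).natDegree ≤ r := natDegree_C_mul_X_pow_le _ _
      rw [langX, natDegree_add_eq_left_of_natDegree_lt (by omega), h2]
      exact h3.le
    · push Not at h0
      have h5 : ∀ l ≤ i, langX r c l = 0 := by
        intro l hl
        induction l with
        | zero => simp [langX, h0 0 hl]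
        | succ l ihl =>
          rw [langX, ihl (by omega), h0 (l + 1) hl]
          simp [show r ≠ 0 by omega]
      obtain ⟨j, hj, hc⟩ := h
      have : j = i + 1 := by
        by_contra hne
        exact hc (h0 j (by omega))
      subst this
      rw [langX, h5 i le_rfl, zero_pow (by omega), zero_add, natDegree_C_mul_X_pow _ _ hc]

theorem exists_root_langX [IsAlgClosed k] (c : ℕ → k) (i : ℕ) (h : ∃ j ≤ i, c j ≠ 0) :
    ∃ t : k, t ≠ 0 ∧ (langX r c i).eval t = t := by
  have hr : 2 ≤ r := (Fact.out : r.Prime).two_le
  set P : k[X] := langX r c i - X with hP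
  have hdeg : 2 ≤ P.natDegree := by
    have h1 := langX_natDegree r c i h
    rw [hP, natDegree_sub_eq_left_of_natDegree_lt]
    · omega
    · rw [natDegree_X]; omega
  have h0 : P.eval 0 = 0 := by simp [hP, langX_eval_zero]
  obtain ⟨R, hR⟩ : X ∣ P := by
    rw [X_dvd_iff, coeff_zero_eq_eval_zero]; exact h0
  have hP0 : P ≠ 0 := by
    intro h; rw [h] at hdeg; simp at hdeg
  have hR0 : R ≠ 0 := by
    rintro rfl; simp at hR; exact hP0 hR
  have hdR : 1 ≤ R.natDegree := by
    have := natDegree_mul (X_ne_zero (R := k)) hR0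
    rw [← hR, natDegree_X] at this
    omega
  have hd : derivative P = -1 := by simp [hP, langX_derivative]
  have hR1 : R.eval 0 = -1 := by
    have h2 : derivative P = R + X * derivative R := by
      rw [hR, derivative_mul]; simp
    rw [hd] at h2
    have := congrArg (Polynomial.eval 0) h2
    simpa using this.symm
  obtain ⟨t, ht⟩ := IsAlgClosed.exists_root R (by
    intro h; rw [degree_eq_natDegree hR0] at h
    have : R.natDegree = 0 := by exact_mod_cast h
    omega)
  refine ⟨t, ?_, ?_⟩
  · rintro rfl
    rw [IsRoot.def, hR1] at ht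
    simp at ht
  · have h3 : P.eval t = 0 := by rw [hR, eval_mul, ht]; simp
    rw [hP, eval_sub, eval_X, sub_eq_zero] at h3
    exact h3

end Poly

section Semilinear

variable {k : Type*} [Field k] (r : ℕ) [Fact r.Prime] [CharP k r]
  {V : Type*} [AddCommGroup V] [Module k V]

/-- A nonzero finite dimensional space with an injective Frobenius-semilinear endomorphism has a
nonzero fixed vector. -/
theorem exists_fixed [IsAlgClosed k] [FiniteDimensional k V] [Nontrivial V]
    (φ : V →ₛₗ[frobenius k r] V) (hφ : Function.Injective φ) : ∃ w : V, w ≠ 0 ∧ φ w = w := by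
  obtain ⟨v, hv⟩ := exists_ne (0 : V)
  have hex : ∃ m : ℕ, (φ^[m] v) ∈ Submodule.span k (Set.range fun i : Fin m => φ^[i] v) := by
    by_contra hcon
    push Not at hcon
    have hli : ∀ m : ℕ, LinearIndependent k (fun i : Fin m => φ^[i] v) := by
      intro m
      induction m with
      | zero => exact linearIndependent_empty_type
      | succ m ih =>
        rw [linearIndependent_finSucc']
        exact ⟨ih, hcon m⟩
    have := (hli (Module.finrank k V + 1)).fintype_card_le_finrank
    simp at this
  classical
  obtain ⟨m, hm, hmin⟩ : ∃ m : ℕ, (φ^[m] v) ∈ Submodule.span k (Set.range fun i : Fin m => φ^[i] v) ∧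
      ∀ l < m, ¬ (φ^[l] v) ∈ Submodule.span k (Set.range fun i : Fin l => φ^[i] v) :=
    ⟨Nat.find hex, Nat.find_spec hex, fun l hl => Nat.find_min hex hl⟩
  have hli : ∀ l ≤ m, LinearIndependent k (fun i : Fin l => φ^[i] v) := by
    intro l
    induction l with
    | zero => intro _; exact linearIndependent_empty_type
    | succ l ih =>
      intro hl
      rw [linearIndependent_finSucc']
      exact ⟨ih (by omega), hmin l (by omega)⟩
  have hm0 : m ≠ 0 := by
    rintro rfl
    simp at hm
    exact hv hm
  obtain ⟨n, rfl⟩ : ∃ n, m = n + 1 := ⟨m - 1, by omega⟩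
  obtain ⟨c, hc⟩ := (Submodule.mem_span_range_iff_exists_fun k).1 hm
  -- extend `c` to `ℕ`
  set c' : ℕ → k := fun i => if h : i < n + 1 then c ⟨i, h⟩ else 0 with hc'
  have hcsum : ∑ i ∈ Finset.range (n + 1), c' i • φ^[i] v = φ^[n + 1] v := by
    rw [← hc, Finset.sum_range]
    refine Finset.sum_congr rfl fun i _ => ?_
    rw [hc']
    simp only [i.2, dif_pos]
  have hcne : ∃ j ≤ n, c' j ≠ 0 := by
    by_contra hcon
    push Not at hcon
    have h1 : φ^[n + 1] v = 0 := by
      rw [← hcsum]
      refine Finset.sum_eq_zero fun i hi => ?_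
      rw [hcon i (by simpa [Nat.lt_succ_iff] using hi), zero_smul]
    have h2 : ∀ m, φ^[m] v ≠ 0 := by
      intro m
      induction m with
      | zero => simpa using hv
      | succ m ih =>
        rw [Function.iterate_succ_apply']
        intro h
        exact ih (hφ (by rw [h, map_zero]))
    exact h2 _ h1
  obtain ⟨t, ht0, ht⟩ := exists_root_langX r c' n hcne
  set x : ℕ → k := fun i => (langX r c' i).eval t with hx
  have hx0 : x 0 = c' 0 * t ^ r := by simp [hx, langX]
  have hxs : ∀ i, x (i + 1) = x i ^ r + c' (i + 1) * t ^ r := by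
    intro i; simp [hx, langX]
  have hxn : x n = t := ht
  refine ⟨∑ i ∈ Finset.range (n + 1), x i • φ^[i] v, ?_, ?_⟩
  · intro h
    have hli' := hli (n + 1) le_rfl
    rw [Finset.sum_range] at h
    have := (Fintype.linearIndependent_iff.1 hli') (fun i : Fin (n + 1) => x i) h (Fin.last n)
    simp at this
    rw [hxn] at this
    exact ht0 this
  · have h1 : φ (∑ i ∈ Finset.range (n + 1), x i • φ^[i] v)
        = ∑ i ∈ Finset.range (n + 1), (x i) ^ r • φ^[i + 1] v := by
      rw [map_sum]
      refine Finset.sum_congr rfl fun i _ => ?_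
      rw [LinearMap.map_smulₛₗ, frobenius_def, Function.iterate_succ_apply']
    rw [h1, Finset.sum_range_succ, hxn, ← hcsum, Finset.smul_sum, Finset.sum_range_succ' _ n,
      Finset.sum_range_succ' _ n, ← add_assoc, ← Finset.sum_add_distrib, hx0]
    congr 1
    · refine Finset.sum_congr rfl fun i _ => ?_
      rw [hxs, add_smul, smul_smul, mul_comm (t ^ r)]
    · rw [smul_smul, mul_comm]

/-- the fixed vectors span -/
theorem span_fixed [IsAlgClosed k] [FiniteDimensional k V]
    (φ : V →ₛₗ[frobenius k r] V) (hφ : Function.Injective φ) :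
    Submodule.span k {v : V | φ v = v} = ⊤ := by
  by_contra hne
  set U := Submodule.span k {v : V | φ v = v} with hU
  have hr : 2 ≤ r := (Fact.out : r.Prime).two_le
  have hroot : ∀ a : k, ∃ x : k, x ^ r = a := fun a => IsAlgClosed.exists_pow_nat_eq a (by omega)
  have has : ∀ a : k, ∃ x : k, a + x ^ r - x = 0 := by
    intro a
    have hd : (C a + X ^ r - X : k[X]).natDegree = r := by
      have h1 : (C a + X ^ r : k[X]).natDegree = r := by
        rw [natDegree_C_add, natDegree_X_pow]
      rw [natDegree_sub_eq_left_of_natDegree_lt, h1]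
      rw [h1, natDegree_X]; omega
    obtain ⟨x, hx⟩ := IsAlgClosed.exists_root (C a + X ^ r - X : k[X]) (by
      intro h
      have h5 : (C a + X ^ r - X : k[X]).natDegree = 0 := natDegree_eq_of_degree_eq_some h
      rw [hd] at h5
      omega)
    exact ⟨x, by simpa using hx⟩
  -- `U` is stable and `φ` is onto `U`
  have hUle : U ≤ U.comap φ := by
    rw [hU, Submodule.span_le]
    intro v hv
    rw [SetLike.mem_coe, Submodule.mem_comap, (show φ v = v from hv)]
    exact Submodule.subset_span hv
  have hUsurj : ∀ u ∈ U, ∃ u' ∈ U, φ u' = u := by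
    intro u hu
    rw [hU] at hu
    induction hu using Submodule.span_induction with
    | mem x hx => exact ⟨x, Submodule.subset_span hx, hx⟩
    | zero => exact ⟨0, zero_mem _, map_zero _⟩
    | add x y _ _ hx hy =>
      obtain ⟨x', hx', rfl⟩ := hx
      obtain ⟨y', hy', rfl⟩ := hy
      exact ⟨x' + y', add_mem hx' hy', map_add _ _ _⟩
    | smul a x _ hx =>
      obtain ⟨x', hx', rfl⟩ := hx
      obtain ⟨b, hb⟩ := hroot a
      exact ⟨b • x', U.smul_mem _ hx', by rw [LinearMap.map_smulₛₗ, frobenius_def, hb]⟩
  -- Artin-Schreier on `U`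
  have hUas : ∀ u ∈ U, ∃ u' ∈ U, u + φ u' - u' = 0 := by
    intro u hu
    rw [hU] at hu
    -- stronger statement closed under smul
    have key : ∀ a : k, ∃ u' ∈ U, a • u + φ u' - u' = 0 := by
      induction hu using Submodule.span_induction with
      | mem x hx =>
        intro a
        obtain ⟨b, hb⟩ := has a
        refine ⟨b • x, U.smul_mem _ (Submodule.subset_span hx), ?_⟩
        rw [LinearMap.map_smulₛₗ, frobenius_def, (show φ x = x from hx), ← add_smul, ← sub_smul, hb,
          zero_smul]
      | zero => intro a; exact ⟨0, zero_mem _, by simp⟩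
      | add x y _ _ hx hy =>
        intro a
        obtain ⟨x', hx', h1⟩ := hx a
        obtain ⟨y', hy', h2⟩ := hy a
        refine ⟨x' + y', add_mem hx' hy', ?_⟩
        rw [smul_add, map_add]
        calc _ = (a • x + φ x' - x') + (a • y + φ y' - y') := by abel
          _ = 0 := by rw [h1, h2, add_zero]
      | smul b x _ hx =>
        intro a
        obtain ⟨x', hx', h1⟩ := hx (a * b)
        exact ⟨x', hx', by rw [smul_smul]; exact h1⟩
    simpa using key 1
  -- the quotient
  have hnt : Nontrivial (V ⧸ U) := Submodule.Quotient.nontrivial_iff.2 hne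
  have hinj : Function.Injective (U.mapQ U φ hUle) := by
    rw [injective_iff_map_eq_zero]
    intro y hy
    obtain ⟨v, rfl⟩ := Submodule.Quotient.mk_surjective U y
    rw [Submodule.mapQ_apply, Submodule.Quotient.mk_eq_zero] at hy
    obtain ⟨u', hu', h⟩ := hUsurj _ hy
    rw [Submodule.Quotient.mk_eq_zero]
    rwa [← hφ h]
  obtain ⟨w, hw0, hw⟩ := exists_fixed r (U.mapQ U φ hUle) hinj
  obtain ⟨v, rfl⟩ := Submodule.Quotient.mk_surjective U w
  rw [Submodule.mapQ_apply, Submodule.Quotient.eq] at hw
  obtain ⟨u', hu', h⟩ := hUas _ hw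
  apply hw0
  rw [Submodule.Quotient.mk_eq_zero]
  have h1 : φ (v + u') = v + u' := by
    rw [map_add, ← sub_eq_zero]
    calc φ v + φ u' - (v + u') = φ v - v + φ u' - u' := by abel
      _ = 0 := h
  have h2 : v + u' ∈ U := Submodule.subset_span h1
  simpa using U.sub_mem h2 hu'

/-- **Lang's theorem**, semilinear form. -/
theorem exists_basis_fixed [IsAlgClosed k] [FiniteDimensional k V]
    (φ : V →ₛₗ[frobenius k r] V) (hφ : Function.Injective φ) :
    ∃ b : Module.Basis (Fin (Module.finrank k V)) k V, ∀ i, φ (b i) = b i := by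
  obtain ⟨s, hs, hspan, hli⟩ := exists_linearIndependent k {v : V | φ v = v}
  rw [span_fixed r φ hφ] at hspan
  let b0 : Module.Basis s k V := Module.Basis.mk hli (by rw [Subtype.range_coe, hspan])
  have hfin : Finite s := Module.Finite.finite_basis b0
  have := Fintype.ofFinite s
  have hcard : Fintype.card s = Module.finrank k V := (Module.finrank_eq_card_basis b0).symm
  let e : s ≃ Fin (Module.finrank k V) := (Fintype.equivFinOfCardEq hcard)
  refine ⟨b0.reindex e, fun i => ?_⟩
  rw [Module.Basis.reindex_apply]
  have : b0 (e.symm i) = ((e.symm i : s) : V) := by simp [b0]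
  rw [this]
  exact hs (e.symm i).2

/-- semilinear form with a linear bijection `T`: a basis of vectors with `T f = F f`. -/
theorem exists_basis_eq [IsAlgClosed k] [FiniteDimensional k V]
    (F : V →ₛₗ[frobenius k r] V) (hF : Function.Injective F) (T : V ≃ₗ[k] V) :
    ∃ b : Module.Basis (Fin (Module.finrank k V)) k V, ∀ i, T (b i) = F (b i) := by
  let φ : V →ₛₗ[frobenius k r] V := (T.symm : V →ₗ[k] V).comp F
  have hφ : Function.Injective φ := T.symm.injective.comp hF
  obtain ⟨b, hb⟩ := exists_basis_fixed r φ hφ
  refine ⟨b, fun i => ?_⟩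
  have : T.symm (F (b i)) = b i := hb i
  exact (T.symm_apply_eq.1 this).symm

end Semilinear

section Matrix

variable {k : Type*} [Field k] [IsAlgClosed k] (r : ℕ) [Fact r.Prime] [CharP k r]

/-- **Lang's theorem** for `GL_n`. -/
theorem lang (n : ℕ) (M : Matrix (Fin n) (Fin n) k) (hM : IsUnit M.det) :
    ∃ X : Matrix (Fin n) (Fin n) k, IsUnit X.det ∧ X.map (· ^ r) = M * X := by
  let F : (Fin n → k) →ₛₗ[frobenius k r] (Fin n → k) :=
    { toFun := fun v i => v i ^ r
      map_add' := fun v w => by ext i; exact add_pow_char _ _ _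
      map_smul' := fun c v => by ext i; simp [frobenius_def, mul_pow] }
  have hF : Function.Injective F := by
    intro v w h
    ext i
    exact frobenius_inj k r (congrFun h i)
  have := M.invertibleOfIsUnitDet hM
  let T : (Fin n → k) ≃ₗ[k] (Fin n → k) :=
    LinearEquiv.ofLinearMap (Matrix.toLin' M) (Matrix.toLin' M⁻¹)
      (by rw [← Matrix.toLin'_mul, Matrix.mul_nonsing_inv _ hM, Matrix.toLin'_one])
      (by rw [← Matrix.toLin'_mul, Matrix.nonsing_inv_mul _ hM, Matrix.toLin'_one])
  obtain ⟨b, hb⟩ := exists_basis_eq r F hF T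
  have hn : Module.finrank k (Fin n → k) = n := by simp
  let b' : Module.Basis (Fin n) k (Fin n → k) := b.reindex (finCongr hn)
  have hb' : ∀ i, M.mulVec (b' i) = F (b' i) := fun i => by
    have h := hb ((finCongr hn).symm i)
    simp only [b', Module.Basis.reindex_apply]
    have h2 : ∀ v, T v = M.mulVec v := fun v => by
      rw [LinearEquiv.coe_ofLinearMap, Matrix.toLin'_apply]
    rw [h2] at h
    exact h
  refine ⟨(Pi.basisFun k (Fin n)).toMatrix b', ?_, ?_⟩
  · have := (Pi.basisFun k (Fin n)).invertibleToMatrix b'
    exact Matrix.isUnit_det_of_invertible _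
  · ext i j
    have := congrFun (hb' j) i
    rw [Matrix.map_apply, Matrix.mul_apply]
    simp only [Module.Basis.toMatrix_apply, Pi.basisFun_repr]
    exact this.symm

end Matrix

section PowerSeries

variable {k : Type*} [Field k] [IsAlgClosed k] (r : ℕ) [Fact r.Prime] [CharP k r]

/-- coefficient Frobenius on power series, as a semilinear map -/
noncomputable def psFrob : PowerSeries k →ₛₗ[frobenius k r] PowerSeries k where
  toFun f := PowerSeries.map (frobenius k r) f
  map_add' f g := map_add _ _ _
  map_smul' c f := by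
    ext n
    simp [PowerSeries.coeff_map]

@[simp] theorem psFrob_apply (f : PowerSeries k) :
    psFrob r f = PowerSeries.map (frobenius k r) f := rfl

/-- Lang's theorem for spaces of power series: a finite dimensional space of power series stable
under the coefficient Frobenius and an injective linear operator `T` has a basis of power series
with `T f = f^F`. -/
theorem exists_basis_powerSeries (V : Submodule k (PowerSeries k)) [FiniteDimensional k V]
    (T : PowerSeries k →ₗ[k] PowerSeries k) (hTV : ∀ f ∈ V, T f ∈ V)
    (hTi : ∀ f ∈ V, T f = 0 → f = 0)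
    (hFV : ∀ f ∈ V, PowerSeries.map (frobenius k r) f ∈ V) :
    ∃ b : Module.Basis (Fin (Module.finrank k V)) k V,
      ∀ i, T (b i : PowerSeries k) = PowerSeries.map (frobenius k r) (b i : PowerSeries k) := by
  let F : V →ₛₗ[frobenius k r] V :=
    { toFun := fun f => ⟨psFrob r (f : PowerSeries k), hFV _ f.2⟩
      map_add' := fun f g => Subtype.ext (map_add (psFrob r) _ _)
      map_smul' := fun c f => Subtype.ext (LinearMap.map_smulₛₗ (psFrob r) _ _) }
  have hF : Function.Injective F := by
    intro f g h
    have h1 : PowerSeries.map (frobenius k r) (f : PowerSeries k)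
        = PowerSeries.map (frobenius k r) (g : PowerSeries k) := congrArg Subtype.val h
    ext n
    have h2 := congrArg (PowerSeries.coeff n) h1
    simp only [PowerSeries.coeff_map] at h2
    exact frobenius_inj k r h2
  have hTinj : Function.Injective (T.restrict hTV) := by
    rw [injective_iff_map_eq_zero]
    intro f hf
    exact Subtype.ext (hTi _ f.2 (congrArg Subtype.val hf))
  let T' : V ≃ₗ[k] V := LinearEquiv.ofInjectiveEndo _ hTinj
  obtain ⟨b, hb⟩ := exists_basis_eq r F hF T'
  exact ⟨b, fun i => congrArg Subtype.val (hb i)⟩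

end PowerSeries

end Fermat.Agent.H11
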