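/-
H93ResTrace (helper93): traces and valuations; the place at infinity and Laurent expansions on K(x).
-/
import Mathlib
import Fermat.Agent.H3RR_Duality

set_option autoImplicit false
set_option maxHeartbeats 400000

open AlgebraicCurve WithZero IsLocalRing IntermediateField Polynomial

namespace Fermat.Agent.H93.Res

open Fermat.Agent.H3RR

variable {K F : Type*} [Field K] [Field F] [Algebra K F]

theorem lt_one_iff (v : Place K F) {f : F} :
    v.adicValuation f < 1 ↔ f = 0 ∨ f⁻¹ ∉ v.toValuationSubring := by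
  by_cases hf : f = 0
  · simp [hf]
  · rw [mem_iff_adicValuation_le_one, map_inv₀, or_iff_right hf, not_le,
      one_lt_inv₀ (zero_lt_iff.mpr (v.adicValuation_ne_zero hf))]

/-- Chevalley: extension of valuation subrings. -/
theorem exists_ext {L : Type*} [Field L] [Algebra F L] (A : ValuationSubring F) :
    ∃ V : ValuationSubring L, V.comap (algebraMap F L) = A := by
  obtain ⟨V, h, hloc⟩ := IsLocalRing.exists_factor_valuationRing ((algebraMap F L).comp A.subtype)
  refine ⟨V, ?_⟩
  ext f
  rw [ValuationSubring.mem_comap]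
  constructor
  · intro hf
    by_contra hfA
    have hf0 : f ≠ 0 := fun h0 => hfA (h0 ▸ zero_mem _)
    have hinv : f⁻¹ ∈ A := (A.mem_or_inv_mem f).resolve_left hfA
    have hunit : IsUnit (⟨f⁻¹, hinv⟩ : A) := by
      apply hloc.map_nonunit
      apply isUnit_iff_exists_inv.mpr
      refine ⟨⟨algebraMap F L f, hf⟩, Subtype.ext ?_⟩
      show algebraMap F L f⁻¹ * algebraMap F L f = 1
      rw [← map_mul, inv_mul_cancel₀ hf0, map_one]
    obtain ⟨g, hg⟩ := hunit.exists_right_inv
    have hg' : f⁻¹ * (g : F) = 1 := congrArg Subtype.val hg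
    have : f = g := by field_simp at hg'; exact hg'.symm
    exact hfA (this ▸ g.2)
  · intro hf
    exact h ⟨f, hf⟩

theorem exists_place_of_embedding [IsFF K F] {L : Type*} [Field L] [Algebra K L]
    (V : ValuationSubring L) (hK : ∀ a : K, algebraMap K L a ∈ V) (σ : F →ₐ[K] L) {t : F}
    (ht0 : t ≠ 0) (htV : σ t ∈ V.nonunits) :
    ∃ v : Place K F, v.adicValuation t < 1 ∧ ∀ f : F, f ∈ v.toValuationSubring ↔ σ f ∈ V := by
  have hmem : ∀ f : F, f ∈ V.comap (σ : F →+* L) ↔ σ f ∈ V := fun f => Iff.rfl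
  have hinv : σ t⁻¹ ∉ V := by
    rcases V.mem_nonunits_iff_or.mp htV with h | h
    · exact absurd ((map_eq_zero σ).mp h) ht0
    · rwa [map_inv₀]
  have htop : V.comap (σ : F →+* L) ≠ ⊤ := by
    intro h
    have h1 : t⁻¹ ∈ V.comap (σ : F →+* L) := by rw [h]; trivial
    exact hinv ((hmem _).mp h1)
  have hK' : ∀ a : K, algebraMap K F a ∈ V.comap (σ : F →+* L) := by
    intro a
    rw [hmem, σ.commutes]
    exact hK a
  refine ⟨placeOf _ hK' htop, ?_, fun f => hmem f⟩
  rw [lt_one_iff]
  exact Or.inr fun h => hinv ((hmem _).mp h)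

theorem nonunit_iff_of_mem_iff {L : Type*} [Field L] [Algebra K L]
    {V : ValuationSubring L} {σ : F →ₐ[K] L} {v : Place K F}
    (h : ∀ f : F, f ∈ v.toValuationSubring ↔ σ f ∈ V) (f : F) :
    v.adicValuation f < 1 ↔ σ f ∈ V.nonunits := by
  rw [lt_one_iff, V.mem_nonunits_iff_or, h, map_inv₀, map_eq_zero]

section Trace

variable [IsFF K F] {x : F} [FiniteDimensional K⟮x⟯ F] [Algebra.IsSeparable K⟮x⟯ F]

omit [FiniteDimensional K⟮x⟯ F] [Algebra.IsSeparable K⟮x⟯ F] in
theorem exists_place_of_emb' {t : F} (ht0 : t ≠ 0) (htx : t ∈ K⟮x⟯)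
    (V : ValuationSubring (AlgebraicClosure F))
    (hK : ∀ a : K, algebraMap K (AlgebraicClosure F) a ∈ V)
    (htV : algebraMap F (AlgebraicClosure F) t ∈ V.nonunits)
    (σ : F →ₐ[K⟮x⟯] AlgebraicClosure F) :
    ∃ v : Place K F, v.adicValuation t < 1 ∧ (∀ f : F, f ∈ v.toValuationSubring ↔ σ f ∈ V) ∧
      ∀ f : F, v.adicValuation f < 1 ↔ σ f ∈ V.nonunits := by
  have hσt : σ t = algebraMap F (AlgebraicClosure F) t := by
    have h1 := σ.commutes ⟨t, htx⟩
    exact h1
  obtain ⟨v, h1, h2⟩ := exists_place_of_embedding V hK (σ.restrictScalars K) ht0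
    (by show σ t ∈ V.nonunits; rw [hσt]; exact htV)
  exact ⟨v, h1, h2, fun f => nonunit_iff_of_mem_iff (σ := σ.restrictScalars K) h2 f⟩

theorem trace_mem {t : F} (ht0 : t ≠ 0) (htx : t ∈ K⟮x⟯)
    (V : ValuationSubring (AlgebraicClosure F))
    (hK : ∀ a : K, algebraMap K (AlgebraicClosure F) a ∈ V)
    (htV : algebraMap F (AlgebraicClosure F) t ∈ V.nonunits) {f : F}
    (hf : ∀ v : Place K F, v.adicValuation t < 1 → v.adicValuation f ≤ 1) :
    algebraMap K⟮x⟯ (AlgebraicClosure F) (Algebra.trace K⟮x⟯ F f) ∈ V := by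
  rw [trace_eq_sum_embeddings]
  apply sum_mem
  intro σ _
  obtain ⟨v, h1, h2, h3⟩ := exists_place_of_emb' ht0 htx V hK htV σ
  exact (h2 f).mp (mem_of_adicValuation_le_one v (hf v h1))

theorem sum_mem_nonunits {L : Type*} [Field L] (V : ValuationSubring L) {ι : Type*} (s : Finset ι)
    (g : ι → L) (h : ∀ i ∈ s, g i ∈ V.nonunits) : ∑ i ∈ s, g i ∈ V.nonunits := by
  rw [V.mem_nonunits_iff]
  exact Valuation.map_sum_lt' _ zero_lt_one fun i hi => V.mem_nonunits_iff.mp (h i hi)

theorem trace_mem_nonunits {t : F} (ht0 : t ≠ 0) (htx : t ∈ K⟮x⟯)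
    (V : ValuationSubring (AlgebraicClosure F))
    (hK : ∀ a : K, algebraMap K (AlgebraicClosure F) a ∈ V)
    (htV : algebraMap F (AlgebraicClosure F) t ∈ V.nonunits) {f : F}
    (hf : ∀ v : Place K F, v.adicValuation t < 1 → v.adicValuation f < 1) :
    algebraMap K⟮x⟯ (AlgebraicClosure F) (Algebra.trace K⟮x⟯ F f) ∈ V.nonunits := by
  rw [trace_eq_sum_embeddings]
  apply sum_mem_nonunits
  intro σ _
  obtain ⟨v, h1, h2, h3⟩ := exists_place_of_emb' ht0 htx V hK htV σ
  exact (h3 f).mp (hf v h1)

theorem trace_sub_natCast {t : F} (ht0 : t ≠ 0) (htx : t ∈ K⟮x⟯)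
    (V : ValuationSubring (AlgebraicClosure F))
    (hK : ∀ a : K, algebraMap K (AlgebraicClosure F) a ∈ V)
    (htV : algebraMap F (AlgebraicClosure F) t ∈ V.nonunits) {v₀ : Place K F}
    (hV : V.comap (algebraMap F (AlgebraicClosure F)) = v₀.toValuationSubring) {f : F}
    (hf0 : v₀.adicValuation (f - 1) < 1)
    (hf : ∀ v : Place K F, v ≠ v₀ → v.adicValuation t < 1 → v.adicValuation f < 1) :
    ∃ n : ℕ, 0 < n ∧
      algebraMap K⟮x⟯ (AlgebraicClosure F) (Algebra.trace K⟮x⟯ F f) - n ∈ V.nonunits := by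
  classical
  rw [trace_eq_sum_embeddings]
  have key : ∀ σ : F →ₐ[K⟮x⟯] AlgebraicClosure F, ∃ m : ℕ, (m = 0 ∨ m = 1) ∧
      σ f - (m : AlgebraicClosure F) ∈ V.nonunits := by
    intro σ
    obtain ⟨v, h1, h2, h3⟩ := exists_place_of_emb' ht0 htx V hK htV σ
    by_cases hv : v = v₀
    · refine ⟨1, Or.inr rfl, ?_⟩
      have := (h3 (f - 1)).mp (by rw [hv]; exact hf0)
      rw [map_sub, map_one] at this
      rw [Nat.cast_one]
      exact this
    · refine ⟨0, Or.inl rfl, ?_⟩
      have := (h3 f).mp (hf v hv h1)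
      simpa using this
  choose m hm hm' using key
  refine ⟨∑ σ, m σ, ?_, ?_⟩
  · -- the identity embedding contributes
    set σ₀ : F →ₐ[K⟮x⟯] AlgebraicClosure F := IsScalarTower.toAlgHom K⟮x⟯ F (AlgebraicClosure F)
      with hσ₀
    have h0 : m σ₀ = 1 := by
      rcases hm σ₀ with h | h
      · exfalso
        have h1 := hm' σ₀
        rw [h, Nat.cast_zero, sub_zero] at h1
        have h2 : algebraMap F (AlgebraicClosure F) (f - 1) ∈ V.nonunits := by
          rcases (lt_one_iff v₀).mp hf0 with h0 | h0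
          · rw [h0, map_zero, V.mem_nonunits_iff_or]; exact Or.inl rfl
          · rw [V.mem_nonunits_iff_or, ← map_inv₀]
            right
            intro hmem
            apply h0
            rw [← hV]
            exact hmem
        rw [map_sub, map_one] at h2
        rw [V.mem_nonunits_iff] at h1 h2
        have h3 : V.valuation (algebraMap F (AlgebraicClosure F) f -
          (algebraMap F (AlgebraicClosure F) f - 1)) < 1 :=
          lt_of_le_of_lt (Valuation.map_sub _ _ _) (max_lt h1 h2)
        rw [sub_sub_cancel, map_one] at h3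
        exact lt_irrefl _ h3
      · exact h
    calc 0 < m σ₀ := by rw [h0]; exact Nat.one_pos
      _ ≤ _ := Finset.single_le_sum (fun _ _ => Nat.zero_le _) (Finset.mem_univ σ₀)
  · rw [Nat.cast_sum, ← Finset.sum_sub_distrib]
    exact sum_mem_nonunits V _ _ fun σ _ => hm' σ

end Trace

section Line

variable {L : Type*} [Field L] [Algebra K L]

/-- polynomial in `u ∈ m_V` with nonzero constant term is a unit -/
theorem aeval_sub_coeff_mem (V : ValuationSubring L) (hK : ∀ a : K, algebraMap K L a ∈ V) {u : L}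
    (hu : u ∈ V.nonunits) (p : K[X]) :
    aeval u p - algebraMap K L (p.coeff 0) ∈ V.nonunits := by
  have h1 : aeval u p - algebraMap K L (p.coeff 0) = aeval u p.divX * u := by
    conv_lhs => rw [← Polynomial.divX_mul_X_add p]
    simp
  rw [h1, V.mem_nonunits_iff, map_mul]
  have h2 : V.valuation (aeval u p.divX) ≤ 1 :=
    (V.valuation_le_one_iff _).mpr (H3RR.aeval_mem V hK (V.nonunits_subset hu) _)
  exact mul_lt_one_of_nonneg_of_lt_one_right h2 zero_le (V.mem_nonunits_iff.mp hu)

theorem valuation_aeval_eq_one (V : ValuationSubring L) (hK : ∀ a : K, algebraMap K L a ∈ V) {u : L}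
    (hu : u ∈ V.nonunits) {p : K[X]} (hp : p.coeff 0 ≠ 0) : V.valuation (aeval u p) = 1 := by
  have h1 := V.mem_nonunits_iff.mp (aeval_sub_coeff_mem V hK hu p)
  have h2 := H3RR.valuation_algebraMap_eq_one V hK hp
  have h3 : aeval u p = (aeval u p - algebraMap K L (p.coeff 0)) + algebraMap K L (p.coeff 0) := by
    ring
  rw [h3, Valuation.map_add_eq_of_lt_right _ (by rw [h2]; exact h1), h2]

/-- polynomial in `x`, `x - a ∈ m_V`. -/
theorem aeval_sub_eval_mem (V : ValuationSubring L) (hK : ∀ a : K, algebraMap K L a ∈ V) {x : L}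
    {a : K} (hx : x - algebraMap K L a ∈ V.nonunits) (p : K[X]) :
    aeval x p - algebraMap K L (p.eval a) ∈ V.nonunits := by
  have h := aeval_sub_coeff_mem V hK hx (p.comp (X + C a))
  have h1 : aeval (x - algebraMap K L a) (p.comp (X + C a)) = aeval x p := by
    rw [aeval_comp]; simp
  have h2 : (p.comp (X + C a)).coeff 0 = p.eval a := by
    rw [Polynomial.coeff_zero_eq_eval_zero, Polynomial.eval_comp]; simp
  rwa [h1, h2] at h

theorem valuation_aeval_eq_one' (V : ValuationSubring L) (hK : ∀ a : K, algebraMap K L a ∈ V)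
    {x : L} {a : K} (hx : x - algebraMap K L a ∈ V.nonunits) {p : K[X]} (hp : p.eval a ≠ 0) :
    V.valuation (aeval x p) = 1 := by
  have h1 := V.mem_nonunits_iff.mp (aeval_sub_eval_mem V hK hx p)
  have h2 := H3RR.valuation_algebraMap_eq_one V hK hp
  have h3 : aeval x p = (aeval x p - algebraMap K L (p.eval a)) + algebraMap K L (p.eval a) := by
    ring
  rw [h3, Valuation.map_add_eq_of_lt_right _ (by rw [h2]; exact h1), h2]

theorem algebraMap_mem_nonunits_iff (V : ValuationSubring L) (hK : ∀ a : K, algebraMap K L a ∈ V)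
    {c : K} : algebraMap K L c ∈ V.nonunits ↔ c = 0 := by
  constructor
  · intro h
    by_contra hc
    have h1 := H3RR.valuation_algebraMap_eq_one V hK hc
    rw [V.mem_nonunits_iff, h1] at h
    exact lt_irrefl _ h
  · rintro rfl
    rw [map_zero, V.mem_nonunits_iff_or]; exact Or.inl rfl

/-- Elements of `K(u)` as reduced fractions. -/
theorem exists_coprime {u f : L} (hu : Transcendental K u) (hf : f ∈ K⟮u⟯) :
    ∃ p q : K[X], IsCoprime p q ∧ q ≠ 0 ∧ f = aeval u p / aeval u q := by
  set r := (RatFunc.algEquivOfTranscendental u hu).symm ⟨f, hf⟩ with hr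
  refine ⟨r.num, r.denom, r.isCoprime_num_denom, r.denom_ne_zero, ?_⟩
  rw [← RatFunc.algEquivOfTranscendental_apply u hu, hr, AlgEquiv.apply_symm_apply]

/-- regular at all finite places implies polynomial -/
theorem exists_poly_of_forall_mem [IsAlgClosed K] {x g : L} (hx : Transcendental K x)
    (hg : g ∈ K⟮x⟯) (h : ∀ a : K, ∃ V : ValuationSubring L, (∀ c : K, algebraMap K L c ∈ V) ∧
      x - algebraMap K L a ∈ V.nonunits ∧ g ∈ V) : ∃ p : K[X], g = aeval x p := by
  obtain ⟨p, q, hpq, hq0, rfl⟩ := exists_coprime hx hg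
  by_cases hdeg : q.degree = 0
  · rw [Polynomial.eq_C_of_degree_eq_zero hdeg]
    refine ⟨C (q.coeff 0)⁻¹ * p, ?_⟩
    rw [map_mul, aeval_C, aeval_C, map_inv₀]
    ring
  · exfalso
    obtain ⟨a, ha⟩ := IsAlgClosed.exists_root q hdeg
    obtain ⟨V, hK, hV, hgV⟩ := h a
    have h1 := aeval_sub_eval_mem V hK hV q
    rw [show q.eval a = 0 from ha, map_zero, sub_zero] at h1
    have hpa : p.eval a ≠ 0 := by
      intro hpa
      obtain ⟨r, s, hrs⟩ := hpq
      have := congrArg (Polynomial.eval a) hrs
      rw [eval_add, eval_mul, eval_mul, hpa, show q.eval a = 0 from ha] at this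
      simp at this
    have h2 := valuation_aeval_eq_one' V hK hV hpa
    have hq1 : aeval x q ≠ 0 := fun h0 => hq0 ((transcendental_iff.mp hx) q h0)
    have h3 : V.valuation (aeval x p / aeval x q) ≤ 1 := (V.valuation_le_one_iff _).mpr hgV
    have h4 : V.valuation (aeval x p) = V.valuation (aeval x p / aeval x q) * V.valuation (aeval x q) := by
      rw [← map_mul, div_mul_cancel₀ _ hq1]
    rw [h2] at h4
    have h5 : V.valuation (aeval x p / aeval x q) * V.valuation (aeval x q) < 1 :=
      mul_lt_one_of_nonneg_of_lt_one_right h3 zero_le (V.mem_nonunits_iff.mp h1)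
    rw [← h4] at h5
    exact lt_irrefl _ h5

/-- at a finite place: at most "simple pole with zero residue" implies regular -/
theorem mem_of_mul_mem_nonunits {x g : L} (hx : Transcendental K x) (hg : g ∈ K⟮x⟯)
    (V : ValuationSubring L) (hK : ∀ a : K, algebraMap K L a ∈ V) {a : K}
    (hV : x - algebraMap K L a ∈ V.nonunits) (h : (x - algebraMap K L a) * g ∈ V.nonunits) :
    g ∈ V := by
  obtain ⟨p, q, hpq, hq0, rfl⟩ := exists_coprime hx hg
  by_cases hqa : q.eval a = 0
  · exfalso
    have hpa : p.eval a ≠ 0 := by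
      intro hpa
      obtain ⟨r, s, hrs⟩ := hpq
      have := congrArg (Polynomial.eval a) hrs
      rw [eval_add, eval_mul, eval_mul, hpa, hqa] at this
      simp at this
    have h2 := valuation_aeval_eq_one' V hK hV hpa
    obtain ⟨q1, rfl⟩ := Polynomial.dvd_iff_isRoot.mpr hqa
    have hxa : x - algebraMap K L a ≠ 0 := by
      intro h0
      apply hx
      exact ⟨X - C a, Polynomial.X_sub_C_ne_zero a, by simpa using h0⟩
    have h3 : (x - algebraMap K L a) * (aeval x p / aeval x ((X - C a) * q1)) =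
        aeval x p / aeval x q1 := by
      rw [map_mul, map_sub, aeval_X, aeval_C]
      by_cases h0 : aeval x q1 = 0
      · rw [h0]; simp
      · field_simp
    rw [h3] at h
    have hq1 : aeval x q1 ≠ 0 := by
      intro h0
      have := (transcendental_iff.mp hx) q1 h0
      rw [this, mul_zero] at hq0
      exact hq0 rfl
    have hxV : x ∈ V := by
      have : x = (x - algebraMap K L a) + algebraMap K L a := by ring
      rw [this]
      exact add_mem (V.nonunits_subset hV) (hK a)
    have h4 : V.valuation (aeval x q1) ≤ 1 := (V.valuation_le_one_iff _).mpr (H3RR.aeval_mem V hK hxV _)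
    have h5 : V.valuation (aeval x p) = V.valuation (aeval x p / aeval x q1) * V.valuation (aeval x q1) := by
      rw [← map_mul, div_mul_cancel₀ _ hq1]
    rw [h2] at h5
    have h6 : V.valuation (aeval x p / aeval x q1) * V.valuation (aeval x q1) < 1 :=
      mul_lt_one_of_nonneg_of_lt_one_left zero_le (V.mem_nonunits_iff.mp h) h4
    rw [← h5] at h6
    exact lt_irrefl _ h6
  · have h2 := valuation_aeval_eq_one' V hK hV hqa
    have hxV : x ∈ V := by
      have : x = (x - algebraMap K L a) + algebraMap K L a := by ring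
      rw [this]
      exact add_mem (V.nonunits_subset hV) (hK a)
    rw [← V.valuation_le_one_iff, map_div₀, h2, div_one]
    exact (V.valuation_le_one_iff _).mpr (H3RR.aeval_mem V hK hxV _)

attribute [local instance] RatFunc.liftAlgebra

/-- Laurent expansion of elements of `K(u)` in powers of `u`. -/
noncomputable def lau {u : L} (hu : Transcendental K u) : K⟮u⟯ →+* LaurentSeries K :=
  (algebraMap (RatFunc K) (LaurentSeries K)).comp
    (RatFunc.algEquivOfTranscendental u hu).symm.toAlgHom.toRingHom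

theorem lau_aeval {u : L} (hu : Transcendental K u) (p : K[X]) :
    lau hu (aeval (AdjoinSimple.gen K u) p) = HahnSeries.ofPowerSeries ℤ K (p : PowerSeries K) := by
  rw [lau, RingHom.comp_apply]
  have h : (RatFunc.algEquivOfTranscendental u hu).symm.toAlgHom.toRingHom
      (aeval (AdjoinSimple.gen K u) p) = algebraMap K[X] (RatFunc K) p :=
    RatFunc.algEquivOfTranscendental_symm_aeval u hu p
  rw [h, RatFunc.coe_coe]
  rfl

theorem lau_gen {u : L} (hu : Transcendental K u) :
    lau hu (AdjoinSimple.gen K u) = HahnSeries.single 1 1 := by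
  have h := lau_aeval hu (X : K[X])
  rw [aeval_X, Polynomial.coe_X, HahnSeries.ofPowerSeries_X] at h
  exact h

theorem lau_C {u : L} (hu : Transcendental K u) (c : K) :
    lau hu (algebraMap K K⟮u⟯ c) = HahnSeries.C c := by
  have h := lau_aeval hu (C c : K[X])
  rw [aeval_C, Polynomial.coe_C, HahnSeries.ofPowerSeries_C] at h
  exact h

/-- At the place `u = 0`: the coefficient of `u` in `u * f` is the value of `f`. -/
theorem coeff_lau_mul {u : L} (hu : Transcendental K u) (V : ValuationSubring L)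
    (hK : ∀ a : K, algebraMap K L a ∈ V) (huV : u ∈ V.nonunits) (f : K⟮u⟯) (hf : (f : L) ∈ V) :
    (f : L) - algebraMap K L ((lau hu (AdjoinSimple.gen K u * f)).coeff 1) ∈ V.nonunits := by
  obtain ⟨p, q, hpq, hq0, hfpq⟩ := exists_coprime hu f.2
  have hqu : aeval u q ≠ 0 := fun h0 => hq0 ((transcendental_iff.mp hu) q h0)
  have hqa : q.coeff 0 ≠ 0 := by
    intro hqa
    have hpa : p.coeff 0 ≠ 0 := by
      intro hpa
      obtain ⟨r, s, hrs⟩ := hpq
      have := congrArg (Polynomial.eval 0) hrs
      rw [eval_add, eval_mul, eval_mul, ← coeff_zero_eq_eval_zero p, ← coeff_zero_eq_eval_zero q,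
        hpa, hqa] at this
      simp at this
    have h2 := valuation_aeval_eq_one V hK huV hpa
    have h1 := aeval_sub_coeff_mem V hK huV q
    rw [hqa, map_zero, sub_zero] at h1
    have h3 : V.valuation (aeval u p / aeval u q) ≤ 1 :=
      (V.valuation_le_one_iff _).mpr (hfpq ▸ hf)
    have h4 : V.valuation (aeval u p) = V.valuation (aeval u p / aeval u q) * V.valuation (aeval u q) := by
      rw [← map_mul, div_mul_cancel₀ _ hqu]
    rw [h2] at h4
    have h5 : V.valuation (aeval u p / aeval u q) * V.valuation (aeval u q) < 1 :=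
      mul_lt_one_of_nonneg_of_lt_one_right h3 zero_le (V.mem_nonunits_iff.mp h1)
    rw [← h4] at h5
    exact lt_irrefl _ h5
  have hval := valuation_aeval_eq_one V hK huV hqa
  -- Laurent side
  have hmul : f * aeval (AdjoinSimple.gen K u) q = aeval (AdjoinSimple.gen K u) p := by
    apply Subtype.ext
    have e1 : ((aeval (AdjoinSimple.gen K u) q : K⟮u⟯) : L) = aeval u q := by
      have := Polynomial.aeval_algebraMap_apply L (AdjoinSimple.gen K u) q
      rw [← AdjoinSimple.algebraMap_gen K u]
      exact this.symm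
    have e2 : ((aeval (AdjoinSimple.gen K u) p : K⟮u⟯) : L) = aeval u p := by
      have := Polynomial.aeval_algebraMap_apply L (AdjoinSimple.gen K u) p
      rw [← AdjoinSimple.algebraMap_gen K u]
      exact this.symm
    show (f : L) * ((aeval (AdjoinSimple.gen K u) q : K⟮u⟯) : L) = _
    rw [e1, e2, hfpq, div_mul_cancel₀ _ hqu]
  have hqc : PowerSeries.constantCoeff (q : PowerSeries K) ≠ 0 := by
    rw [← PowerSeries.coeff_zero_eq_constantCoeff_apply, Polynomial.coeff_coe]
    exact hqa
  have hlau : lau hu f = HahnSeries.ofPowerSeries ℤ K ((p : PowerSeries K) * (q : PowerSeries K)⁻¹) := by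
    have h1 := congrArg (lau hu) hmul
    rw [map_mul, lau_aeval, lau_aeval] at h1
    have hq' : HahnSeries.ofPowerSeries ℤ K (q : PowerSeries K) ≠ 0 := by
      intro h0
      apply hqc
      have : (q : PowerSeries K) = 0 := HahnSeries.ofPowerSeries_injective (by rw [h0, map_zero])
      rw [this, map_zero]
    apply mul_right_cancel₀ hq'
    rw [h1, ← map_mul, mul_assoc, PowerSeries.inv_mul_cancel _ hqc, mul_one]
  have hcoeff : (lau hu (AdjoinSimple.gen K u * f)).coeff 1 = p.coeff 0 * (q.coeff 0)⁻¹ := by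
    rw [map_mul, lau_gen, hlau, ← HahnSeries.ofPowerSeries_X, ← map_mul]
    have := HahnSeries.ofPowerSeries_apply_coeff (Γ := ℤ)
      (PowerSeries.X * ((p : PowerSeries K) * (q : PowerSeries K)⁻¹)) 1
    rw [Nat.cast_one] at this
    rw [this, show (1 : ℕ) = 0 + 1 from rfl, PowerSeries.coeff_succ_X_mul,
      PowerSeries.coeff_zero_eq_constantCoeff_apply, map_mul, PowerSeries.constantCoeff_inv,
      ← PowerSeries.coeff_zero_eq_constantCoeff_apply, ← PowerSeries.coeff_zero_eq_constantCoeff_apply,
      Polynomial.coeff_coe, Polynomial.coeff_coe]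
  rw [hcoeff, hfpq]
  have h1 := aeval_sub_coeff_mem V hK huV p
  have h2 := aeval_sub_coeff_mem V hK huV q
  have hq0' : algebraMap K L (q.coeff 0) ≠ 0 := by
    simpa using hqa
  have e : aeval u p / aeval u q - algebraMap K L (p.coeff 0 * (q.coeff 0)⁻¹) =
      ((aeval u p - algebraMap K L (p.coeff 0)) * algebraMap K L (q.coeff 0) -
        algebraMap K L (p.coeff 0) * (aeval u q - algebraMap K L (q.coeff 0))) /
        (aeval u q * algebraMap K L (q.coeff 0)) := by
    rw [map_mul, map_inv₀]
    field_simp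
    ring
  rw [e, V.mem_nonunits_iff, map_div₀, map_mul, hval,
    H3RR.valuation_algebraMap_eq_one V hK hqa, mul_one, div_one]
  refine lt_of_le_of_lt (Valuation.map_sub _ _ _) (max_lt ?_ ?_)
  · rw [map_mul, H3RR.valuation_algebraMap_eq_one V hK hqa, mul_one]
    exact V.mem_nonunits_iff.mp h1
  · rw [map_mul]
    exact mul_lt_one_of_nonneg_of_lt_one_right ((V.valuation_le_one_iff _).mpr (hK _)) zero_le
      (V.mem_nonunits_iff.mp h2)

end Line

end Fermat.Agent.H93.Res
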