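import Fermat.Agent.H9J9H
import Fermat.Agent.H11Lang
import Fermat.Agent.H93ResTrace

/-!
# Reader's guide: the sizes of the Eisenstein parts (steps of `GuideEisenstein`, section 1)

Companion of `GuideEisenstein`: this file contains the steps of the proofs of `charpoly_torsion`,
`finrank_part`, `card_W` and `lang` there.  No new mathematics, and nothing imports it: every theorem is
proved by citing theorems of the library.  Library files: `H9S2`, `H9J9A` to `H9J9H` (helper9), `H94J9`
(helper94), `H85Fit` (helper85), `H11Lang` (helper11), `H93ResTrace` (helper93).  In prose: NOTES.md,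
Appendix A.2, [87], [100], [162], [204].

**The result.**  Let `N` and `r ≠ N` be primes, `J = J₀(N)(ℚ̄)` and `W_k = H15.WSub N r J k` the Eisenstein
part of `J[r^k]`.  Then `|W_k| = r^(2tk)`, where `t` is the dimension of the Eisenstein part of the cusp
forms of weight two modulo `r`, over any field of characteristic `r`.

**Where it is used.**  Everything is in the proof terms of S15, S12, S09, S03 and S01: the abstract descent
of S15 compares `|W_k|` with the order of the part of `W_k` in the kernel of reduction.

**The idea.**  One does not need the Tate module, nor that `J₀(N)[r]` is free over the Hecke algebra; only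
characteristic polynomials are compared.
1. Let `R = H9.R0 N` be the polynomial ring over `ℤ` in the operators `T_q`, `q ≠ N`.  It acts on the
   lattice `H9.MZ N` of the cusp forms with integral coefficients, on the complex cusp forms, on the cusp
   forms modulo `r`, on the group `Λ` (quotient of `Γ₀(N)`), and on `J[r] = Hom(Λ, ℤ/r)`.
2. For `a ∈ R` with characteristic polynomial `P_a` on `MZ N`: it is `P_a` modulo `r` on the forms modulo
   `r` and `P_a` on the complex forms (section 1), `P_a²` on `Λ` (Eichler-Shimura,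
   `GuidePeriodLattice.charpoly_on_the_group`), and `P_a²` modulo `r` on `J[r]` (section 4).
3. The Eisenstein part of a finite module is the image of an element `e ∈ R` which acts as an idempotent
   (section 3), so its dimension is the multiplicity of the root `0` of the characteristic polynomial of
   `1 - e`; hence `dim W_1 = 2t` over `𝔽_r`, and `|W_k| = |W_1|^k` because `J` is divisible (section 5).
4. `t` does not depend on the field (section 2).

**Notation.**  `H15.S2 N k`, `H15.EisPart N k`: cusp forms of weight two modulo `r` and their Eisenstein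
part (`GuideEisenstein.S2_eq`, `mem_eisPart_iff`); `H15.Tq k q` the operator `T_q` on power series over `k`,
`H15.TEis k q = T_q - (1 + q)`; `qCoeff F n` the `n`-th coefficient of the cusp form `F`; `H9.redZ k G` is
the reduction of `G ∈ ℤ⟦q⟧` in `k⟦q⟧`; `H9.Idx N` the set of the primes `q ≠ N`.
-/

set_option autoImplicit false

open CongruenceSubgroup ModularFormClass ModularCurve AlgebraicCurve

noncomputable section

namespace Fermat.Agent.Guide.EisensteinSizes

/-! ## 1. Cusp forms with integral coefficients, over `ℂ`, and modulo `r` -/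

/-- **The lattice** `H9.MZ N` of the `q`-expansions with integral coefficients of cusp forms of weight two
on `Γ₀(N)`.  It is finitely generated and free: a form is determined by its first coefficients.  Files
`H9S2`, `H9J9D`. -/
theorem integral_forms (N : ℕ) [NeZero N] :
    (∀ G : PowerSeries ℤ, G ∈ H9.MZ N ↔ ∃ F : CuspForm (Gamma0 N) 2,
      ∀ n : ℕ, qCoeff F n = ((PowerSeries.coeff n G : ℤ) : ℂ)) ∧
      Module.Finite ℤ (H9.MZ N) ∧ Module.Free ℤ (H9.MZ N) :=
  ⟨fun _ => Iff.rfl, H9.finite_MZ N, H9.free_MZ N⟩

/-- `H9.toForm G` is the cusp form with the `q`-expansion `G`.  It commutes with the Hecke operators: `T_q`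
is `H9.TMZ hN q` on the lattice, with `a_n(T_q G) = a_{qn}(G) + q a_{n/q}(G)`, and `H9.TC hN q` on the
complex cusp forms.  Files `H9S2`, `H9J9D`. -/
theorem complex_form {N : ℕ} [NeZero N] (hN : N.Prime) (q : H9.Idx N) (G : H9.MZ N) :
    (∀ n : ℕ, qCoeff (H9.toForm G) n = ((PowerSeries.coeff n (G : PowerSeries ℤ) : ℤ) : ℂ)) ∧
      (∀ n : ℕ, PowerSeries.coeff n (H9.TMZ hN q G : PowerSeries ℤ) =
        PowerSeries.coeff ((q.1 : ℕ) * n) (G : PowerSeries ℤ) +
          if (q.1 : ℕ) ∣ n then ((q.1 : ℕ) : ℤ) * PowerSeries.coeff (n / (q.1 : ℕ)) (G : PowerSeries ℤ)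
          else 0) ∧
      H9.toForm (H9.TMZ hN q G) = H9.TC hN q (H9.toForm G) :=
  ⟨H9.qCoeff_toForm G, fun n => H9.coeff_TZ _ n _, H9.toForm_TMZ hN q G⟩

/-- **Complex basis.**  The forms of a basis `H9.bMZ N` of the lattice are a basis of the complex cusp
forms.  (They span by the theorem that `S₂(Γ₀(N))` has an integral structure, `H23.hasIntegralStructure`;
series with integral coefficients which are independent over `ℤ` are independent over `ℂ`.)  File
`H9J9D`. -/
theorem basis_complex (N : ℕ) [NeZero N] :
    LinearIndependent ℂ (fun i => H9.toForm (H9.bMZ N i)) ∧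
      ⊤ ≤ Submodule.span ℂ (Set.range fun i => H9.toForm (H9.bMZ N i)) :=
  ⟨H9.li_toForm N, H9.span_toForm N⟩

/-- **The lattice is saturated**: if all coefficients of `G ∈ MZ N` are divisible by `r`, then `G = r G'`
with `G' ∈ MZ N`.  (`H9.redS` is the reduction `MZ N → S2 N k`.)  File `H9J9D`. -/
theorem saturated {N : ℕ} [NeZero N] {r : ℕ} [Fact r.Prime] {G : H9.MZ N}
    (h : H9.redS (k := ZMod r) G = 0) : ∃ G' : H9.MZ N, G = (r : ℤ) • G' :=
  H9.exists_of_redS_eq_zero h

/-- **Basis modulo `r`.**  So the reductions of the basis of the lattice are a basis of the cusp forms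
modulo `r`, and the dimension of this space over `𝔽_r` is that of the complex cusp forms.  File
`H9J9D`. -/
theorem basis_mod_r (N : ℕ) [NeZero N] (r : ℕ) [Fact r.Prime] :
    LinearIndependent (ZMod r) (fun i => H9.redS (k := ZMod r) (H9.bMZ N i)) ∧
      ⊤ ≤ Submodule.span (ZMod r) (Set.range fun i => H9.redS (k := ZMod r) (H9.bMZ N i)) :=
  ⟨H9.li_redS N r, H9.span_redS N r⟩

/-- **Polynomials in commuting operators.**  `H9.evalC T h` evaluates polynomials over `ℤ` at the commuting
elements `T i` of a ring; an additive map which intertwines the `T i` with operators `T' i` intertwines all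
polynomials in them.  File `H9J9C`. -/
theorem polynomials_in_operators {ι R R' M M' : Type*} [Ring R] [Ring R'] [AddCommGroup M] [Module R M]
    [AddCommGroup M'] [Module R' M'] [SMulCommClass R ℤ M] (T : ι → Module.End R M)
    (h : ∀ i j, T i * T j = T j * T i) (T' : ι → Module.End R' M')
    (h' : ∀ i j, T' i * T' j = T' j * T' i) :
    (∀ i, H9.evalC T h (MvPolynomial.X i) = T i) ∧
      ∀ f : M →+ M', (∀ i x, f (T i x) = T' i (f x)) → ∀ (a : MvPolynomial ι ℤ) (x : M),
        f (H9.evalC T h a x) = H9.evalC T' h' a (f x) :=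
  ⟨H9.evalC_X T h, fun f hf a x => H9.evalC_intertwine T h T' h' f hf a x⟩

/-- **Characteristic polynomials and change of rings.**  Let `φ : A → B` be a homomorphism of rings and
`f : M → M'` an additive map with `f(ax) = φ(a) f(x)` which maps a basis of `M` over `A` to a basis of `M'`
over `B`.  If `f T = T' f`, the characteristic polynomial of `T'` is the image of that of `T`.  File
`H9J9C`. -/
theorem charpoly_change_of_rings {A B : Type*} [CommRing A] [CommRing B] (φ : A →+* B) {M M' : Type*}
    [AddCommGroup M] [Module A M] [AddCommGroup M'] [Module B M'] {n : Type*} [Fintype n] [DecidableEq n]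
    [Nontrivial B] (b : Module.Basis n A M) (b' : Module.Basis n B M') (f : M →+ M')
    (hfs : ∀ (a : A) (x : M), f (a • x) = φ a • f x) (hb : ∀ i, f (b i) = b' i)
    (T : Module.End A M) (T' : Module.End B M') (h : ∀ x, f (T x) = T' (f x)) :
    (haveI := Module.Free.of_basis b'; haveI := Module.Finite.of_basis b'; T'.charpoly) =
      (haveI := Module.Free.of_basis b; haveI := Module.Finite.of_basis b; T.charpoly.map φ) :=
  H9.charpoly_of_semilinear φ b b' f hfs hb T T' h

/-- **Characteristic polynomials of Hecke operators**: for a polynomial `a` in the `T_q`, `q ≠ N`, that on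
the complex cusp forms (`H9.evC`) and that on the cusp forms modulo `r` (`H9.evS`) are the images of that on
the lattice of integral cusp forms (`H9.evMZ`).  File `H9J9D`. -/
theorem charpoly_forms {N : ℕ} [NeZero N] (hN : N.Prime) (r : ℕ) [Fact r.Prime] (a : H9.R0 N) :
    (haveI := Module.Free.of_basis (H9.bC N); haveI := Module.Finite.of_basis (H9.bC N);
      (H9.evC hN a).charpoly) = (H9.evMZ hN a).charpoly.map (Int.castRingHom ℂ) ∧
      (H9.evS hN (ZMod r) a).charpoly = (H9.evMZ hN a).charpoly.map (Int.castRingHom (ZMod r)) :=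
  ⟨H9.charpoly_evC hN a, H9.charpoly_evS hN r a⟩

/-! ## 2. The Eisenstein part does not depend on the field -/

section Field

variable {N : ℕ} [NeZero N] {r : ℕ} [Fact r.Prime] {k : Type} [Field k] [CharP k r]

/-- The space `S2 N k` is spanned by the reductions of the integral forms; so it is finite dimensional.
File `H9S2`. -/
theorem forms_spanned (N : ℕ) [NeZero N] (k : Type) [Field k] :
    H15.S2 N k = Submodule.span k (H9.redZ k '' (H9.MZ N : Set (PowerSeries ℤ))) ∧
      Module.Finite k (H15.S2 N k) :=
  ⟨H9.S2_eq N k, H9.finite_S2 N k⟩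

/-- The operators `T_q` commute on all power series and preserve `S2 N k` and its Eisenstein part,
`q ∤ N`.  File `H9S2`. -/
theorem hecke_on_forms {k : Type} [Field k] {q : ℕ} (hq : q.Prime) (hqN : ¬ q ∣ N) (f : PowerSeries k) :
    (∀ {q' : ℕ}, q'.Prime → H15.Tq k q (H15.Tq k q' f) = H15.Tq k q' (H15.Tq k q f)) ∧
      (f ∈ H15.S2 N k → H15.Tq k q f ∈ H15.S2 N k) ∧
      (f ∈ H15.EisPart N k → H15.Tq k q f ∈ H15.EisPart N k) :=
  ⟨fun hq' => H9.Tq_comm hq hq' f, H9.Tq_mem_S2 hq hqN, H9.Tq_mem_EisPart hq hqN⟩

/-- **Coefficientwise functionals.**  For an additive map `l : k → 𝔽_r` let `H9.lam l` be `l` applied to the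
coefficients.  It commutes with `T_q` and maps `EisPart N k` to `EisPart N 𝔽_r`; a series which is killed
by all `lam l` is zero.  File `H9J9B`. -/
theorem functionals (l : k →+ ZMod r) :
    (∀ (f : PowerSeries k) (n : ℕ),
      PowerSeries.coeff n (H9.lam l f) = l (PowerSeries.coeff n f)) ∧
      (∀ (q : ℕ) (f : PowerSeries k), H9.lam l (H15.Tq k q f) = H15.Tq (ZMod r) q (H9.lam l f)) ∧
      (∀ f ∈ H15.EisPart N k, H9.lam l f ∈ H15.EisPart N (ZMod r)) ∧
      ∀ f : PowerSeries k, (∀ l' : k →+ ZMod r, H9.lam l' f = 0) → f = 0 :=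
  ⟨H9.coeff_lam l, H9.lam_Tq l, fun _ hf => H9.lam_mem_EisPart hf l, H9.eq_zero_of_forall_lam⟩

/-- **The Eisenstein part is defined over `𝔽_r`** (`H9.inc r k` is the inclusion of the power series over
`𝔽_r`).  (Write `f` in `EisPart N k` as a sum of a part in the span of `EisPart N 𝔽_r` and a part in the span
of a complement in `S2 N 𝔽_r`; all functionals of the second part are zero.)  File `H9J9B`. -/
theorem eisPart_span :
    H15.EisPart N k = Submodule.span k (H9.inc r k '' (H15.EisPart N (ZMod r) : Set _)) :=
  H9.EisPart_eq_span_inc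

/-- **`t` is well defined**: the dimension of the Eisenstein part does not depend on the field of
characteristic `r`.  File `H9J9B`. -/
theorem finrank_eisPart :
    Module.finrank k (H15.EisPart N k) = Module.finrank (ZMod r) (H15.EisPart N (ZMod r)) :=
  H9.finrank_EisPart

end Field

/-! ## 3. The part killed by a power of an ideal -/

section Part

variable {R : Type*} [CommRing R] {F : Type*} [Field F] {V : Type*} [AddCommGroup V] [Module F V]

/-- Unfolding of `H9.part`: the vectors killed by a power of the ideal `P`, when `R` acts on `V` by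
`ρ`.  File `H9J9A`. -/
theorem mem_part_iff (ρ : R →+* Module.End F V) (P : Ideal R) (x : V) :
    x ∈ H9.part ρ P ↔ ∃ n : ℕ, ∀ t ∈ P ^ n, ρ t x = 0 :=
  Iff.rfl

/-- **Fitting idempotents.**  For an ideal `P` of a commutative ring `R` and a finite `R`-module `M` there
is `e ∈ R` which maps `M` to the part killed by a power of `P` and is the identity there.  (`Pⁿ M` is
constant for large `n`; by Nakayama an element `s ≡ 1` modulo `P` kills it, and `e = 1 - (1 - s)^m` with
large `m`.)  File `H85Fit`. -/
theorem fitting {M : Type*} [AddCommGroup M] [Module R M] [Finite M] (P : Ideal R) :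
    ∃ e : R, (∀ x : M, ∃ n : ℕ, ∀ t ∈ P ^ n, t • e • x = 0) ∧
      ∀ x : M, (∃ n : ℕ, ∀ t ∈ P ^ n, t • x = 0) → e • x = x :=
  H85.exists_fitting P

/-- **Dimension from an idempotent**: the part killed by a power of `P` is the generalised eigenspace of
`1 - e` for the eigenvalue `0`.  Applied on `V` and on `W` with an element `e` for `V × W` this gives
`GuideEisenstein.finrank_part`.  File `H9J9A`. -/
theorem finrank_from_idempotent [FiniteDimensional F V] (ρ : R →+* Module.End F V) (P : Ideal R) (e : R)
    (h1 : ∀ x, ρ e x ∈ H9.part ρ P) (h2 : ∀ x ∈ H9.part ρ P, ρ e x = x) :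
    Module.finrank F (H9.part ρ P) = (ρ (1 - e)).charpoly.natTrailingDegree :=
  H9.finrank_part_of_proj ρ P e h1 h2

end Part

/-! ## 4. The torsion of `J₀(N)` and the group `Λ`

`Λ = H94.NE.LamN N` is the quotient of the abelianisation of `Γ₀(N)` by the classes of the parabolic and
the elliptic elements, `H8.proj` the projection; it is a free abelian group (`GuidePeriods.lattice_free`).
`H9.Jr N r` is `J₀(N)[r]`, a vector space over `ℤ/r`. -/

section Torsion

variable {N : ℕ} [NeZero N] {r : ℕ} [Fact r.Prime]

/-- The operator `T_q` on `J₀(N)[r]` is the restriction of `heckeOperatorBar N q`, and `H9.evJ N r` is the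
action of the polynomials in the `T_q`, `q ≠ N`.  File `H9J9E`. -/
theorem hecke_on_torsion (N : ℕ) [NeZero N] (r : ℕ) (q : H9.Idx N) (x : H9.Jr N r) :
    ((H9.TJ N r q x : H9.Jr N r) : JZero N) = heckeOperatorBar N q.1 (x : JZero N) ∧
      H9.evJ N r = H9.evalC (H9.TJ N r) (H9.TJ_comm N r) :=
  ⟨H9.coe_TJ N r q x, rfl⟩

/-- **Torsion points are homomorphisms on `Λ`.**  `H94.J9.RelZ x g` is the Kummer relation
(`GuideBridge.rel_iff`, with a fixed embedding of `ℚ̄` in `ℂ`) between the class `x` and the character
`γ ↦ e^(2πi g(γ)/r)`.  The map `H94.J9.phi N r : J₀(N)[r] → Hom(Λ, ℤ/r)` defined by it is bijective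
(`GuideBridge.kummer_bijection`), and `T_q` corresponds to the operator `H94.J9.TLam hN q` of `Λ` (the
transfer, `GuidePeriodLattice.group_is_lattice`).  File `H94J9`. -/
theorem torsion_is_hom (hN : N.Prime) (q : H9.Idx N) :
    (∀ x : H9.Jr N r, H94.J9.RelZ x (H94.J9.phi N r x)) ∧
      Function.Bijective (H94.J9.phi N r) ∧
      ∀ x : H9.Jr N r, H94.J9.phi N r (H9.TJ N r q x) =
        (H94.J9.phi N r x).comp (H94.J9.TLam hN q).toAddMonoidHom :=
  ⟨H94.J9.relZ_phi, H94.J9.phi_bijective, H94.J9.phi_TJ hN q⟩

/-- **Real homomorphisms of `Λ`** are real parts of periods (Eichler-Shimura over `ℝ`,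
`GuidePeriods.real_eichler_shimura`); as the Hecke operators commute on cusp forms, they commute on
`Λ`.  File `H94J9`. -/
theorem hecke_commute_on_group (hN : N.Prime) (q q' : H9.Idx N) :
    (∀ f : H94.NE.LamN N →+ ℝ, ∃ F : CuspForm (Gamma0 N) 2,
      f.comp (H8.proj (Gamma0 N)) = Complex.reAddGroupHom.comp (periodMap N F)) ∧
      H94.J9.TLam hN q * H94.J9.TLam hN q' = H94.J9.TLam hN q' * H94.J9.TLam hN q :=
  ⟨H94.J9.exists_form, H94.J9.TLam_comm hN q q'⟩

/-- **Characteristic polynomials on the torsion**: that of `a` on `J₀(N)[r]` is the reduction of that on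
`Λ`, because the matrix of `a` on `Hom(Λ, ℤ/r)` is the transpose of the matrix on `Λ`, modulo `r`.  With
`GuidePeriodLattice.charpoly_on_the_group` this gives `GuideEisenstein.charpoly_torsion`.  File
`H94J9`. -/
theorem charpoly_torsion_group (hN : N.Prime) (a : H9.R0 N) :
    (H9.evJ N r a).charpoly = (H94.J9.evLam hN a).charpoly.map (Int.castRingHom (ZMod r)) :=
  H94.J9.charpoly_evJ_lam hN a

end Torsion

/-! ## 5. The Eisenstein ideal and the groups `W_k` -/

section Eisenstein

/-- **Powers of an ideal and words.**  A vector killed by all products of `n` elements of a set `S` of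
generators is killed by the `n`-th power of the ideal generated by `S`.  File `H9J9F`. -/
theorem killed_by_words {R : Type*} [CommRing R] {F : Type*} [Field F] {M : Type*} [AddCommGroup M]
    [Module F M] (ρ : R →+* Module.End F M) (S : Set R) (n : ℕ) (y : M)
    (h : ∀ l : List R, l.length = n → (∀ s ∈ l, s ∈ S) → ρ l.prod y = 0) :
    ∀ t ∈ (Ideal.span S) ^ n, ρ t y = 0 :=
  H9.kill_of_words ρ S n y h

/-- `H9.P0 N r` is the ideal of `R0 N` generated by `r` and the `T_q - (1 + q)`, `q ≠ N`.  The part of the
cusp forms over `𝔽_r` killed by a power of it is the Eisenstein part.  File `H9J9F`. -/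
theorem part_of_forms {N : ℕ} [NeZero N] {r : ℕ} [Fact r.Prime] (hN : N.Prime) :
    H9.P0 N r = Ideal.span ({(r : H9.R0 N)} ∪ {t | ∃ q : H9.Idx N,
      t = MvPolynomial.X q - MvPolynomial.C (1 + ((q.1 : ℕ) : ℤ))}) ∧
      (∀ f : H15.S2 N (ZMod r), f ∈ H9.part (H9.evS hN (ZMod r)) (H9.P0 N r) ↔
        (f : PowerSeries (ZMod r)) ∈ H15.EisPart N (ZMod r)) ∧
      Module.finrank (ZMod r) (H9.part (H9.evS hN (ZMod r)) (H9.P0 N r)) =
        Module.finrank (ZMod r) (H15.EisPart N (ZMod r)) :=
  ⟨rfl, H9.mem_part_evS hN, H9.finrank_part_evS hN⟩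

attribute [local instance] heckeModuleBar

/-- The part of `J₀(N)[r]` killed by a power of the same ideal is `W_1`.  (`H9.ren N` is the inclusion of
`R0 N` in the Hecke algebra `HeckeAlg`, the polynomial ring in the `T_q` for all primes `q`, and
`H15.eisP N r` the Eisenstein ideal there; see `GuideMazurJacobian.heckeGen_smul` for the instance.)  File
`H9J9G`. -/
theorem part_of_torsion (N : ℕ) [NeZero N] (r : ℕ) [Fact r.Prime] :
    Ideal.map (H9.ren N) (H9.P0 N r) = H15.eisP N r ∧
      (∀ (t : H9.R0 N) (x : H9.Jr N r), H9.ren N t • (x : JZero N) =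
        ((H9.evJ N r t x : H9.Jr N r) : JZero N)) ∧
      (∀ x : H9.Jr N r, x ∈ H9.part (H9.evJ N r) (H9.P0 N r) ↔
        (x : JZero N) ∈ H15.WSub N r (JZero N) 1) ∧
      Nat.card (H15.WSub N r (JZero N) 1) = Nat.card (H9.part (H9.evJ N r) (H9.P0 N r)) :=
  ⟨H9.map_P0 N r, H9.ren_smul N r, H9.mem_part_evJ N r, H9.card_part_evJ N r⟩

/-- **Multiplication by `r` maps `W_{k+1}` onto `W_k`**, for a divisible group `J` with finite torsion:
project a preimage to `W_{k+1}` by the element `e` of `fitting`.  File `H85Fit`. -/
theorem lift_torsion {N r : ℕ} {J : Type} [AddCommGroup J] [Module HeckeAlg J]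
    (hdiv : ∀ x : J, ∃ y : J, r • y = x) (k : ℕ) (hfin : {x : J | (r ^ (k + 1) : ℕ) • x = 0}.Finite)
    {x : J} (hx : x ∈ H15.WSub N r J k) : ∃ y ∈ H15.WSub N r J (k + 1), r • y = x :=
  H85.exists_smul_eq hdiv k hfin hx

/-- **Orders**: hence `|W_k| = |W_1|^k`.  File `H9J9G`. -/
theorem card_power {N r : ℕ} {J : Type} [AddCommGroup J] [Module HeckeAlg J]
    (hdiv : ∀ x : J, ∃ y : J, r • y = x) (hfin : ∀ k : ℕ, {x : J | (r ^ k : ℕ) • x = 0}.Finite) (k : ℕ) :
    Nat.card (H15.WSub N r J k) = Nat.card (H15.WSub N r J 1) ^ k :=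
  H9.card_WSub hdiv hfin k

/-- **The conclusion from characteristic polynomials**: if the characteristic polynomial of every `a ∈ R0 N`
on `J₀(N)[r]` is the square of that on the integral cusp forms, modulo `r`, then `|W_k| = r^(2tk)`.  File
`H9J9G`. -/
theorem card_from_charpoly (N : ℕ) [NeZero N] (r : ℕ) [Fact r.Prime] (hN : N.Prime)
    (hJ : ∀ a : H9.R0 N, (H9.evJ N r a).charpoly =
      ((H9.evMZ hN a).charpoly.map (Int.castRingHom (ZMod r))) ^ 2) (k : ℕ) :
    Nat.card (H15.WSub N r (JZero N) k) =
      r ^ (2 * Module.finrank (ZMod r) (H15.EisPart N (ZMod r)) * k) :=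
  H9.cardW_aux N r hN hJ k

end Eisenstein

/-! ## 6. Lang's lemma, and two lemmas for `GuideLogFormTrace` -/

section Lang

variable {k : Type*} [Field k] (r : ℕ) [Fact r.Prime] [CharP k r] [IsAlgClosed k]
  {V : Type*} [AddCommGroup V] [Module k V] [FiniteDimensional k V]

/-- **Fixed vectors.**  An injective Frobenius-semilinear map `φ` of a nonzero finite dimensional space over
an algebraically closed field of characteristic `r` has a nonzero fixed vector.  (Take `v ≠ 0` and the first
relation between `v, φ v, φ² v, ...`; the coefficients of a fixed vector in the span of these are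
determined by one of them, which is a nonzero root of an equation `L(t) = t` with an additive polynomial
`L` without linear term.)  File `H11Lang`. -/
theorem exists_fixed_vector [Nontrivial V] (φ : V →ₛₗ[frobenius k r] V) (hφ : Function.Injective φ) :
    ∃ w : V, w ≠ 0 ∧ φ w = w :=
  H11.exists_fixed r φ hφ

/-- **Bases of fixed vectors.**  The fixed vectors span: otherwise `φ` would have a nonzero fixed vector
modulo their span `U`, so `u' = φ v - v ∈ U` with `v ∉ U`; solve `φ u - u = -u'` in `U` (equations
`x^r - x = c`), and `v + u` is fixed.  File `H11Lang`. -/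
theorem fixed_basis (φ : V →ₛₗ[frobenius k r] V) (hφ : Function.Injective φ) :
    ∃ b : Module.Basis (Fin (Module.finrank k V)) k V, ∀ i, φ (b i) = b i :=
  H11.exists_basis_fixed r φ hφ

/-- The form in which it is used, with a linear bijection `T`; for `T = T_r` and the Frobenius of the
coefficients on the Eisenstein part it is `GuideEisenstein.exists_frobenius_forms`.  File `H11Lang`. -/
theorem basis_of_forms (φ : V →ₛₗ[frobenius k r] V) (hφ : Function.Injective φ) (T : V ≃ₗ[k] V) :
    ∃ b : Module.Basis (Fin (Module.finrank k V)) k V, ∀ i, T (b i) = φ (b i) :=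
  H11.exists_basis_eq r φ hφ T

end Lang

section Values

variable {K L : Type*} [Field K] [Field L] [Algebra K L]

open IntermediateField

/-- **Reduced fractions.**  An element of `K(u)`, `u` transcendental, is `p(u)/q(u)` with coprime polynomials
`p`, `q`.  Used for `GuideLogFormTrace.derivative_regular`.  File `H93ResTrace`. -/
theorem reduced_fraction {u f : L} (hu : Transcendental K u) (hf : f ∈ K⟮u⟯) :
    ∃ p q : Polynomial K, IsCoprime p q ∧ q ≠ 0 ∧ f = Polynomial.aeval u p / Polynomial.aeval u q :=
  H93.Res.exists_coprime hu hf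

/-- **Values of polynomials** at a valuation ring `V ⊇ K` with `x ≡ a`: then `p(x) ≡ p(a)` modulo the
maximal ideal (the nonunits).  Used for the same theorem.  File `H93ResTrace`. -/
theorem value_of_polynomial (V : ValuationSubring L) (hK : ∀ a : K, algebraMap K L a ∈ V) {x : L} {a : K}
    (hx : x - algebraMap K L a ∈ V.nonunits) (p : Polynomial K) :
    Polynomial.aeval x p - algebraMap K L (p.eval a) ∈ V.nonunits :=
  H93.Res.aeval_sub_eval_mem V hK hx p

end Values

end Fermat.Agent.Guide.EisensteinSizes
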