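import Fermat.Agent.S16

/-!
# Reader's guide: the steps of the proof of S16 (index of the Eisenstein ideal)

**Statement served:** S16.  Companion of `GuideEisensteinIndex`, which contains the results of the
three parts (duality, lower bound, upper bound) and the main definitions; here are the steps of their
proofs.  Every library theorem cited below is used in the proof of S16.  In prose: NOTES [258].

**Contents.**
1. Duality between the Hecke algebra and the lattice of cusp forms (`H16Alg`).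
2. The Eisenstein series of weight two on `Γ₀(p)` (`H16Eis`).
3. A quaternary lattice of determinant `p²`, constructed with an auxiliary prime `q` and no
   quaternion algebra: Gram matrix, dual lattice, discriminant form (`H16Arith`, `H16Lattice`,
   `H16Disc`).
4. Its theta series: Poisson summation, the vector of the theta series of the cosets, coefficients
   (`H16Poisson`, `H16Theta`).
5. The finite Weil representation of `SL₂(ℤ)` on the functions on `(ℤ/p)²` for an anisotropic binary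
   form: Gauss sums and the invariance of the zeroth component under `Γ₀(p)` (`H16Weil`).
6. From level `p` to level one: cosets, norm and trace, cusp `0` in weight two (`H16Cosets`,
   `H16Lower`, `H16Weight2`).
7. Reduction modulo `ℓ` of expansions, the Sturm bound at level one and on `Γ₀(p)` at both cusps
   (`H16LevelOne`, `H16Cusp0`, `H16Sturm`, `H16Exp`).
8. The forms of weight `4`, `6`, `8` in the upper bound (`H16Upper`).

**Notations.**  `𝒮ℒ` is the image of `SL₂(ℤ)` in `GL₂(ℝ)` and `H16.G0 p` the image of `Γ₀(p)`;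
`stj j = S T^j`; `f ∣[k] γ` is the slash action of weight `k`; `qExpansion h f` is the expansion in
`exp(2πi z / h)`; `sigmaP p k` is the sum of the divisors of `k` prime to `p`; `sigmaSeries k` is
`∑ σ_k(n) X^n`; `PowerSeries.expand p _ Φ` is `Φ(X^p)` and `rescale a Φ` is `Φ(a X)`;
`zetaP p` is `exp(2πi / p)`.  A datum `D : H16.ThetaData p` consists of the integers `q`, `r`, `m`,
`a`, `b`, `k`, `n` of `exists_lattice_data`, and `D.c = b k + n`; `binQ A B C u` is the binary form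
`Q(u) = A u₁² + B u₁ u₂ + C u₂²` on `(ℤ/p)²` and `binB A B C u v` its polar form `B(u, v)`.
-/

set_option autoImplicit false

noncomputable section

namespace Fermat.Agent.Guide.EisensteinSteps

open Fermat.Agent ModularCurve UpperHalfPlane ModularForm ModularFormClass Matrix
open scoped ModularForm MatrixGroups Manifold

/-! ## 1. Duality -/

/-- **Recursions for `σ'`.**  For a prime `l ≠ p` one has
`σ'(k l) + [l ∣ k] l σ'(k/l) = (1 + l) σ'(k)`, and `σ'(k p) = σ'(k)`: the sequence `σ'(k)` is the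
eigensystem `T_l ↦ 1 + l`, `U_p ↦ 1`.  In `H16Alg`. -/
theorem sigma_recursion (p l k : ℕ) (hp : p.Prime) (hl : l.Prime) (hpl : l ≠ p) (hk : k ≠ 0) :
    H16.sigmaP p (k * l) + (if l ∣ k then l * H16.sigmaP p (k / l) else 0) =
      (1 + l) * H16.sigmaP p k ∧ H16.sigmaP p (k * p) = H16.sigmaP p k :=
  ⟨H16.Alg.sigmaP_mul_prime hp hl hpl hk, H16.Alg.sigmaP_mul_self hp hk⟩

/-- **Action on coefficients.**  `act p P` is the operator on cusp forms given by the element `P` of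
the abstract Hecke algebra `ℤ[X_l]`.  The generator `X_l` acts by the usual formula.  In `H16Alg`. -/
theorem hecke_on_coefficients (p : ℕ) [Fact p.Prime] (l : Nat.Primes)
    (f : CuspForm (CongruenceSubgroup.Gamma0 p) 2) (k : ℕ) :
    qCoeff (H16.Alg.act p (heckeGen l) f) k = qCoeff f (k * l) +
      if (l : ℕ) = p then 0 else (if (l : ℕ) ∣ k then (l : ℂ) * qCoeff f (k / l) else 0) :=
  H16.Alg.qCoeff_act_gen p l f k

/-- **Congruences are stable.**  If `a_k(f) ≡ σ'(k)` modulo `d` for all `k ≥ 1`, then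
`a_k(P f) ≡ ev(P) σ'(k)` modulo `d` for every Hecke operator `P`, where `ev = evHom p` is the
evaluation `T_l ↦ 1 + l`, `U_p ↦ 1`.  In `H16Alg`. -/
theorem congruence_stable (p : ℕ) [Fact p.Prime] (d : ℕ)
    (f : CuspForm (CongruenceSubgroup.Gamma0 p) 2)
    (hf : ∀ k : ℕ, ∃ a : ℤ, qCoeff f k = a ∧ (1 ≤ k → (d : ℤ) ∣ a - H16.sigmaP p k))
    (P : HeckeAlg) (k : ℕ) : ∃ a : ℤ, qCoeff (H16.Alg.act p P f) k = a ∧
      (1 ≤ k → (d : ℤ) ∣ a - H16.Alg.evHom p P * H16.sigmaP p k) :=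
  H16.Alg.act_congr p hf P k

/-- **The pairing** `pair p : (f, t) ↦ a_1(t f)` **is non degenerate** on both sides: a cusp form is
determined by the numbers `a_1(t f)`, and an element `t` of the Hecke algebra by its values
`a_1(t f)`.  In `H16Alg`. -/
theorem pairing_injective (p : ℕ) [Fact p.Prime] :
    Function.Injective (H16.Alg.pair p) ∧ Function.Injective (H16.Alg.pair p).flip :=
  ⟨H16.Alg.pair_injective p, H16.Alg.pair_flip_injective p⟩

/-- **Injections between lattices.**  If `Φ : L → D` is injective, `L`, `D` free of finite rank over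
`ℤ` and `rank D ≤ rank L`, then every `φ ∈ D` has a non zero multiple in the image.  With the
divisibility of the coefficients this gives the surjectivity `exists_dual` of
`GuideEisensteinIndex`.  In `H16Alg`. -/
theorem multiple_in_image (L D : Type) [AddCommGroup L] [AddCommGroup D] [Module.Free ℤ L]
    [Module.Finite ℤ L] [Module.Free ℤ D] [Module.Finite ℤ D] (Φ : L →ₗ[ℤ] D)
    (hΦ : Function.Injective Φ) (hrank : Module.finrank ℤ D ≤ Module.finrank ℤ L) (φ : D) :
    ∃ (g : L) (a : ℤ), a ≠ 0 ∧ Φ g = a • φ :=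
  H16.Alg.exists_smul_eq Φ hΦ hrank φ

/-- **The quotient by the Eisenstein ideal is cyclic.**  `f : R → A` and `g : R → ℤ` surjective
homomorphisms of rings: the quotient of `A` by the image of the kernel of `g` is `ℤ/m` for some
`m ≥ 0`, compatibly with `g`, and `m` is the value of `g` at an element of the kernel of `f`.  Here
`R` is the abstract Hecke algebra, `A` the Hecke algebra of the cusp forms, `g = ev`.  In `H16Alg`. -/
theorem quotient_cyclic (R A : Type) [CommRing R] [CommRing A] (f : R →+* A) (g : R →+* ℤ)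
    (hf : Function.Surjective f) (hg : Function.Surjective g) :
    ∃ (m : ℕ) (e : (A ⧸ Ideal.map f (RingHom.ker g)) ≃+* ZMod m),
      (∀ r, e (Ideal.Quotient.mk _ (f r)) = ((g r : ℤ) : ZMod m)) ∧ ∃ r, f r = 0 ∧ g r = m :=
  H16.exists_equiv_zmod f g hf hg

/-! ## 2. The Eisenstein series of weight two -/

/-- **The Eisenstein series on `Γ₀(N)`.**  `E₂ = 1 - 24 ∑ σ_1(n) q^n` is not modular, but
`E₂ ∣ diag(N, 1) - E₂ = N E₂(N z) - E₂(z)` is a modular form of weight two on `Γ₀(N)`: the cocycle of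
`E₂` cancels.  Its coefficients are as written (`e2c` are the coefficients of `E₂`).  In `H16Eis`. -/
theorem eisenstein_form (N : ℕ) [NeZero N] (m : ℕ) :
    (H16.Eis.eisForm N : ℍ → ℂ) = EisensteinSeries.E2 ∣[(2 : ℤ)] (heckeDiagMatrix N) -
        EisensteinSeries.E2 ∧
      (qExpansion 1 (H16.Eis.eisForm N)).coeff m =
        (if N ∣ m then (N : ℂ) * H16.Eis.e2c (m / N) else 0) - H16.Eis.e2c m ∧
      H16.Eis.e2c m = if m = 0 then 1 else -24 * (ArithmeticFunction.sigma 1 m : ℂ) :=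
  ⟨rfl, H16.Eis.qExpansion_eisForm N m, rfl⟩

/-! ## 3. The quaternary lattice -/

/-- **The auxiliary prime.**  For a prime `p ≥ 5` there is a prime `q ≡ 3` modulo `4`, `q ≠ p`, such
that `-q` is not a square modulo `p` and `-p` is a square modulo `q`.  (Dirichlet's theorem and
quadratic reciprocity.)  In `H16Arith`. -/
theorem auxiliary_prime (p : ℕ) (hp : p.Prime) (hp5 : 5 ≤ p) :
    ∃ q : ℕ, q.Prime ∧ q % 4 = 3 ∧ q ≠ p ∧ ¬ IsSquare (-(q : ZMod p)) ∧
      ∃ a : ℤ, (q : ℤ) ∣ a ^ 2 + p :=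
  H16.exists_prime_aux p hp hp5

/-- **The data of the lattice.**  From `q` one gets integers with `4 r = q + 1`, `q m = a² + p`,
`q b = a + p k`, `m - a b = p n`.  In `H16Lattice`. -/
theorem exists_lattice_data (p : ℕ) (hp : p.Prime) (hp5 : 5 ≤ p) :
    ∃ D : H16.ThetaData p, 0 < D.q ∧ 4 * D.r = D.q + 1 ∧ D.q * D.m = D.a ^ 2 + p ∧
      D.q * D.b = D.a + p * D.k ∧ D.m - D.a * D.b = p * D.n ∧ ¬ IsSquare (-(D.q : ZMod p)) :=
  (H16.ThetaData.exists_data p hp hp5).elim fun D => ⟨D, D.hq, D.h1, D.h2, D.h3, D.h4, D.hns⟩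

/-- **The Gram matrix** `G` of the lattice `ℤ⁴`: it is even, positive definite, of determinant `p²`,
and `x G x / 2` is the integral quadratic form written out.  (It is the lattice of a maximal order in
the quaternion algebra ramified at `p` and `∞`, but this is not used.)  In `H16Lattice`. -/
theorem gram_matrix (p : ℕ) (hp : 0 < p) (D : H16.ThetaData p) (x : Fin 4 → ℝ) :
    D.G = !![2, 1, 0, 0; 1, 2 * (D.r : ℝ), 0, (D.a : ℝ); 0, 0, 2 * p * D.r, p;
      0, (D.a : ℝ), p, 2 * D.m] ∧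
    D.G.PosDef ∧ D.G.det = (p : ℝ) ^ 2 ∧
    x ⬝ᵥ (D.G *ᵥ x) = 2 * (x 0 ^ 2 + x 0 * x 1 + D.r * x 1 ^ 2 + p * D.r * x 2 ^ 2 +
      D.a * x 1 * x 3 + p * x 2 * x 3 + D.m * x 3 ^ 2) :=
  ⟨rfl, D.posDef_G hp, D.det_G, D.dot_G x⟩

/-- **The dual lattice.**  `h u`, `u ∈ (ℤ/p)²`, are representatives of the dual lattice `G⁻¹ ℤ⁴` modulo
`ℤ⁴`: `G (x + h u)` is the integral vector `Φ u x`, and `(u, x) ↦ Φ u x` is a bijection of
`(ℤ/p)² × ℤ⁴` onto `ℤ⁴`.  In `H16Disc`. -/
theorem dual_lattice (p : ℕ) (hp : 0 < p) (D : H16.ThetaData p) :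
    (∀ (u : ZMod p × ZMod p) (x : Fin 4 → ℤ),
      D.G *ᵥ (fun i => (x i : ℝ) + D.h u i) = fun i => (D.Φ u x i : ℝ)) ∧
    Function.Bijective (fun ux : (ZMod p × ZMod p) × (Fin 4 → ℤ) => D.Φ ux.1 ux.2) :=
  ⟨D.G_mulVec hp.ne', D.Φ_bijective hp⟩

/-- **The discriminant form.**  The norm of `x + h u` is `2 N / p` with `N` an integer congruent to the
binary form `Q(u) = r u₁² + u₁ u₂ + c u₂²` modulo `p`; the scalar product of a dual vector in the
class `v` with `h u` is `M / p`, `M` congruent to the polar form `B(u, v)`; the discriminant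
`1 - 4 r c` of `Q` is not a square modulo `p`.  In `H16Disc`. -/
theorem discriminant_form (p : ℕ) [Fact p.Prime] (D : H16.ThetaData p) (u v : ZMod p × ZMod p)
    (x : Fin 4 → ℤ) :
    (fun i => (x i : ℝ) + D.h u i) ⬝ᵥ (D.G *ᵥ (fun i => (x i : ℝ) + D.h u i)) =
      2 * (D.N u x : ℝ) / p ∧
    (D.N u x : ZMod p) = D.r * u.1 ^ 2 + 1 * u.1 * u.2 + D.c * u.2 ^ 2 ∧
    (fun i => (D.Φ v x i : ℝ)) ⬝ᵥ D.h u = (D.M u v x : ℝ) / p ∧
    (D.M u v x : ZMod p) = 2 * D.r * u.1 * v.1 + 1 * (u.1 * v.2 + u.2 * v.1) +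
      2 * D.c * u.2 * v.2 ∧
    ¬ IsSquare ((1 : ZMod p) ^ 2 - 4 * (D.r : ZMod p) * (D.c : ZMod p)) :=
  ⟨D.dot_eq (Fact.out : p.Prime).ne_zero u x, D.N_cast u x, D.dot_h u v x, D.M_cast u v x,
    D.disc_not_isSquare⟩

/-! ## 4. The theta series -/

/-- **Poisson summation for Gaussian functions** in four variables, for a positive definite matrix
`A`, a shift `h` and `z` in the upper half plane.  In `H16Poisson`, from the statement in `n` variables
of `H45Poisson2`. -/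
theorem gaussian_poisson (A : Matrix (Fin 4) (Fin 4) ℝ) (hA : A.PosDef) (h : Fin 4 → ℝ) (z : ℍ) :
    ∑' x : Fin 4 → ℤ, Complex.exp (Real.pi * Complex.I * z *
        ((((fun i => (x i : ℝ) + h i) ⬝ᵥ (A *ᵥ (fun i => (x i : ℝ) + h i)) : ℝ) : ℂ))) =
      -(1 / (z : ℂ) ^ 2) * (1 / (√A.det : ℝ)) *
        ∑' y : Fin 4 → ℤ, Complex.exp (-Real.pi * Complex.I / z *
          ((((fun i => (y i : ℝ)) ⬝ᵥ (A⁻¹ *ᵥ (fun i => (y i : ℝ))) : ℝ) : ℂ)) +
            2 * Real.pi * Complex.I * (((fun i => (y i : ℝ)) ⬝ᵥ h : ℝ) : ℂ)) :=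
  H16.gaussian_poisson A hA h z

/-- **The vector of theta series.**  `e u z` is the sum of `exp(πi z |x + h u|²)` over `x ∈ ℤ⁴`.
The translation multiplies it by `ψ(Q(u))`, and `S` transforms the vector by the finite Fourier
transform for the polar form `B` (`ψ` is the standard character `exp(2πi t / p)` of `ℤ/p`).  In
`H16Theta`. -/
theorem theta_transformation (p : ℕ) [NeZero p] (hp : 0 < p) (D : H16.ThetaData p)
    (u : ZMod p × ZMod p) (z : ℍ) :
    D.e u z = ∑' x : Fin 4 → ℤ, Complex.exp (Real.pi * Complex.I * z *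
      ((((fun i => (x i : ℝ) + D.h u i) ⬝ᵥ (D.G *ᵥ (fun i => (x i : ℝ) + D.h u i)) : ℝ) : ℂ))) ∧
    D.e u ((1 : ℝ) +ᵥ z) =
      ZMod.stdAddChar (H16.binQ (D.r : ZMod p) 1 (D.c : ZMod p) u) * D.e u z ∧
    D.e u (ModularGroup.S • z) = -((z : ℂ) ^ 2 / p) *
      ∑ v, ZMod.stdAddChar (-(H16.binB (D.r : ZMod p) 1 (D.c : ZMod p) u v)) * D.e v z :=
  ⟨rfl, D.e_T hp u z, D.e_S hp u z⟩

/-- **Analytic properties.**  The components are holomorphic and bounded at `i∞`.  In `H16Theta`. -/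
theorem theta_holomorphic (p : ℕ) (hp : 0 < p) (D : H16.ThetaData p) (u : ZMod p × ZMod p) :
    MDiff (D.e u) ∧ IsBoundedAtImInfty (D.e u) :=
  ⟨D.mdifferentiable_e hp u, D.isBoundedAtImInfty_e hp u⟩

/-- **Coefficients.**  The component `e 0` has the expansion `∑ rep(n) q^n`, `rep(n)` the number of the
`x ∈ ℤ⁴` with quadratic form `n`; `rep(0) = 1`, and `rep(n)` is even for `n ≠ 0` because of
`x ↦ -x`.  In `H16Theta`. -/
theorem theta_coefficients (p : ℕ) [NeZero p] (D : H16.ThetaData p) :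
    (∀ z : ℍ, HasSum (fun n => (D.rep n : ℂ) • Function.Periodic.qParam 1 z ^ n) (D.e 0 z)) ∧
      (∀ n, D.rep n = Nat.card {x : Fin 4 → ℤ // D.Q x = n}) ∧ D.rep 0 = 1 ∧
      ∀ n, n ≠ 0 → Even (D.rep n) :=
  ⟨D.hasSum_e_zero, fun _ => rfl, D.rep_zero, fun _ hn => D.even_rep hn⟩

/-! ## 5. The finite Weil representation -/

/-- **Quadratic Gauss sums.**  `∑_x ψ(k x²) = η(k) g` for `k ≠ 0`, `g` the Gauss sum of the quadratic
character `η` of `ℤ/p` (`etaC p`, with values in `ℂ`), and `g² = η(-1) p`.  In `H16Weil`. -/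
theorem gauss_sums (p : ℕ) [Fact p.Prime] (hp2 : p ≠ 2) :
    (∀ k : ZMod p, k ≠ 0 → ∑ x : ZMod p, (ZMod.stdAddChar (k * x ^ 2) : ℂ) =
      H16.etaC p k * gaussSum (H16.etaC p) ZMod.stdAddChar) ∧
    gaussSum (H16.etaC p) ZMod.stdAddChar ^ 2 = H16.etaC p (-1) * (p : ℂ) :=
  ⟨H16.sum_stdAddChar_sq hp2, H16.gaussSum_etaC_sq hp2⟩

/-- **The Gauss sum of an anisotropic binary form** `Q(u) = A u₁² + B u₁ u₂ + C u₂²` whose discriminant
is not a square modulo `p`: `∑_u ψ(j Q(u)) = -p` for all `j ≠ 0`, with no dependence on `j`.  This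
is why no character of `Γ₀(p)` occurs.  In `H16Weil`. -/
theorem binary_gauss_sum (p : ℕ) [Fact p.Prime] (hp2 : p ≠ 2) (A B C : ZMod p)
    (hdisc : ¬ IsSquare (B ^ 2 - 4 * A * C)) (j : ZMod p) (hj : j ≠ 0) :
    ∑ u : ZMod p × ZMod p,
      (ZMod.stdAddChar (j * (A * u.1 ^ 2 + B * u.1 * u.2 + C * u.2 ^ 2)) : ℂ) = -(p : ℂ) :=
  H16.sum_binQ hp2 A B C hdisc j hj

/-- **Orthogonality for the polar form.**  `∑_u ψ(-B(u, v))` is `p²` for `v = 0` and `0` otherwise,
because `B` is non degenerate (its discriminant is not a square, so not zero).  In `H16Weil`. -/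
theorem polar_orthogonality (p : ℕ) [Fact p.Prime] (hp2 : p ≠ 2) (A B C : ZMod p)
    (hdisc : ¬ IsSquare (B ^ 2 - 4 * A * C)) (v : ZMod p × ZMod p) :
    ∑ u : ZMod p × ZMod p, (ZMod.stdAddChar (-(2 * A * u.1 * v.1 + B * (u.1 * v.2 + u.2 * v.1) +
      2 * C * u.2 * v.2)) : ℂ) = if v = 0 then (p : ℂ) ^ 2 else 0 :=
  H16.sum_binB hp2 A B C hdisc v

/-- **The coefficients of `e 0 ∣ γ`** depend only on the second row `(c, d)` of `γ` modulo `p`: for
`c = 0` they are `1` at `u = 0` and `0` elsewhere, for `c ≠ 0` the coefficient at `u` is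
`-(1/p) ψ((d/c) Q(u))`.  In `H16Weil`. -/
theorem coefficients_of_row (p : ℕ) [Fact p.Prime] (A B C c d : ZMod p) (u : ZMod p × ZMod p) :
    H16.coef A B C c d u = if c = 0 then (if u = 0 then 1 else 0) else
      -(1 / (p : ℂ)) * ZMod.stdAddChar (d / c * H16.binQ A B C u) :=
  rfl

/-- **Action of `T`** on a linear combination `lc e a = ∑_u a(u) e u`.  It multiplies the coefficient of
`e u` by `ψ(Q(u))`, and the coefficients of the row `(c, d)` become those of the row `(c, c + d)`.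
In `H16Weil`. -/
theorem combination_under_T (p : ℕ) [Fact p.Prime] (A B C : ZMod p) (e : ZMod p × ZMod p → ℍ → ℂ)
    (hT : ∀ u (z : ℍ), e u ((1 : ℝ) +ᵥ z) = ZMod.stdAddChar (H16.binQ A B C u) * e u z) :
    (∀ a : ZMod p × ZMod p → ℂ, H16.lc e a ∣[(2 : ℤ)] ModularGroup.T =
      H16.lc e fun u => a u * ZMod.stdAddChar (H16.binQ A B C u)) ∧
    ∀ c d : ZMod p, (fun u => H16.coef A B C c d u * ZMod.stdAddChar (H16.binQ A B C u)) =
      H16.coef A B C c (d + c) :=
  ⟨H16.lc_slash_T A B C e hT, H16.coef_T A B C⟩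

/-- **Action of `S`.**  It is the finite Fourier transform on the coefficients, and for `(c, d) ≠ 0` the
coefficients of the row `(c, d)` become those of the row `(d, -c)`: for `c = 0` by definition, for
`d = 0` by `polar_orthogonality`, and otherwise by the square completion
`(d/c) Q(u) - B(u, v) = (d/c) Q(u - (c/d) v) - (c/d) Q(v)` and `binary_gauss_sum`.  In `H16Weil`. -/
theorem combination_under_S (p : ℕ) [Fact p.Prime] (hp2 : p ≠ 2) (A B C : ZMod p)
    (hdisc : ¬ IsSquare (B ^ 2 - 4 * A * C)) (e : ZMod p × ZMod p → ℍ → ℂ)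
    (hS : ∀ u (z : ℍ), e u (ModularGroup.S • z) =
      -((z : ℂ) ^ 2 / p) * ∑ v, ZMod.stdAddChar (-(H16.binB A B C u v)) * e v z) :
    (∀ a : ZMod p × ZMod p → ℂ, H16.lc e a ∣[(2 : ℤ)] ModularGroup.S =
      H16.lc e fun v => -(1 / (p : ℂ)) *
        ∑ u, a u * ZMod.stdAddChar (-(H16.binB A B C u v))) ∧
    ∀ c d : ZMod p, c ≠ 0 ∨ d ≠ 0 → (fun v => -(1 / (p : ℂ)) *
      ∑ u, H16.coef A B C c d u * ZMod.stdAddChar (-(H16.binB A B C u v))) =
        H16.coef A B C d (-c) :=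
  ⟨H16.lc_slash_S A B C e hS, H16.coef_S hp2 A B C hdisc⟩

/-- **Second rows.**  If `(c, d)` is the second row of `x`, the one of `x S` is `(d, -c)` and the one of
`x T` is `(c, d + c)`.  So by induction on a word in `S`, `T` and their inverses the coefficients of
`e 0 ∣ γ` are those of the second row of `γ`; for `γ` in `Γ₀(p)` this row is `(0, d)`, and one gets
`e 0`.  In `H16Weil`. -/
theorem second_rows (x : SL(2, ℤ)) :
    ((x * ModularGroup.S) 1 0 = x 1 1 ∧ (x * ModularGroup.S) 1 1 = -(x 1 0)) ∧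
      ((x * ModularGroup.T) 1 0 = x 1 0 ∧ (x * ModularGroup.T) 1 1 = x 1 1 + x 1 0) :=
  ⟨H16.row_mul_S x, H16.row_mul_T x⟩

/-- **Invariance of the zeroth component.**  Let `e u` be functions on the upper half plane with the
two transformation laws of `theta_transformation` for such a form `Q`.  Then `e 0` is invariant of
weight two under `Γ₀(p)`, and `e 0 ∣ γ` is a linear combination of the `e u` for every
`γ ∈ SL₂(ℤ)`: the steps are the theorems of this section above.  In `H16Weil`. -/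
theorem weil_invariance (p : ℕ) [Fact p.Prime] (hp2 : p ≠ 2) (A B C : ZMod p)
    (hdisc : ¬ IsSquare (B ^ 2 - 4 * A * C)) (e : ZMod p × ZMod p → ℍ → ℂ)
    (hT : ∀ u (z : ℍ), e u ((1 : ℝ) +ᵥ z) = ZMod.stdAddChar (H16.binQ A B C u) * e u z)
    (hS : ∀ u (z : ℍ), e u (ModularGroup.S • z) =
      -((z : ℂ) ^ 2 / p) * ∑ v, ZMod.stdAddChar (-(H16.binB A B C u v)) * e v z) :
    (∀ γ ∈ CongruenceSubgroup.Gamma0 p, (e 0) ∣[(2 : ℤ)] γ = e 0) ∧
      ∀ γ : SL(2, ℤ), ∃ c : ZMod p × ZMod p → ℂ, (e 0) ∣[(2 : ℤ)] γ = ∑ u, c u • e u :=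
  H16.weil_invariance p hp2 A B C hdisc e hT hS

/-! ## 6. From level `p` to level one -/

/-- **Cosets.**  The classes of `SL₂(ℤ)` modulo `Γ₀(p)` are represented by `1` and the `(S T^j)⁻¹`,
`0 ≤ j < p` (the map `cosetMap p`); so the norm of `f` to level one is the product of `f` and the
`f ∣ S T^j`, and the trace their sum.  In `H16Cosets`. -/
theorem norm_and_trace (p : ℕ) [Fact p.Prime] (k : ℤ) (f : ModularForm (H16.G0 p) k) :
    Function.Bijective (H16.cosetMap p) ∧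
      (ModularForm.norm 𝒮ℒ f : ℍ → ℂ) = f * ∏ j : Fin p, (f : ℍ → ℂ) ∣[k] (H16.stj j) ∧
      (ModularForm.trace 𝒮ℒ f : ℍ → ℂ) = f + ∑ j : Fin p, (f : ℍ → ℂ) ∣[k] (H16.stj j) :=
  ⟨H16.cosetMap_bijective p, H16.coe_norm_eq f, H16.coe_trace_eq f⟩

/-- **Weight two.**  There is no nonzero modular form of weight two and level one, so the trace of a
form of weight two on `Γ₀(p)` is zero.  In `H16Lower`. -/
theorem trace_zero (p : ℕ) [Fact p.Prime] (f : ModularForm (H16.G0 p) 2) :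
    (f : ℍ → ℂ) + ∑ j : Fin p, (f : ℍ → ℂ) ∣[(2 : ℤ)] (H16.stj j) = 0 :=
  H16.Lower.trace_eq_zero f

/-- **Zero at all cusps.**  A form of weight two on `Γ₀(p)` which vanishes at `∞` vanishes at the cusp
`0` too: by `trace_zero`, `p` times the value at `0` is minus the value at `∞`.  In `H16Lower`. -/
theorem vanishes_at_cusps (p : ℕ) [Fact p.Prime] (f : ModularForm (H16.G0 p) 2)
    (h0 : qCoeff f 0 = 0) (γ : SL(2, ℤ)) :
    Filter.Tendsto ((f : ℍ → ℂ) ∣[(2 : ℤ)] γ) atImInfty (nhds 0) :=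
  H16.Lower.tendsto_slash_zero f h0 γ

/-- **The Fricke operator in weight two.**  `wForm F = F ∣ (0 -1; p 0)` is `-U_p F`, again because
there are no forms of level one: the trace of `wForm F` is `F ∣ (0 -1; p 0) + U_p F`.  So the
expansion of `F` at the cusp `0` is known from the one at `∞` (`expansion_at_zero` of
`GuideEisensteinIndex`).  In `H16Weight2`. -/
theorem fricke_weight_two (p : ℕ) [Fact p.Prime] (F : ModularForm (H16.G0 p) 2) :
    (H16.wForm F : ℍ → ℂ) = (F : ℍ → ℂ) ∣[(2 : ℤ)] H16.wMat p ∧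
      (H16.wMat p : Matrix (Fin 2) (Fin 2) ℝ) = !![0, -1; (p : ℝ), 0] ∧
      (H16.wForm F : ℍ → ℂ) = - heckeU 2 p F :=
  ⟨rfl, H16.val_wMat, H16.wForm_eq_neg_heckeU F⟩

/-! ## 7. Reduction modulo `ℓ` and the Sturm bound -/

/-- **Reduction.**  For a prime `ℓ` there are a subring `A` of `ℂ` which contains the algebraic
integers and the `1/n` for `n` prime to `ℓ`, and a homomorphism `r` from `A` to a field of
characteristic `ℓ`.  In `H16Exp`. -/
theorem exists_reduction (ℓ : ℕ) (hℓ : ℓ.Prime) : ∃ (A : Subring ℂ) (κ : Type) (_ : Field κ)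
    (_ : A →+* κ), (∀ x : ℂ, IsIntegral ℤ x → x ∈ A) ∧ (∀ n : ℕ, ¬ ℓ ∣ n → (n : ℂ)⁻¹ ∈ A) ∧
      CharP κ ℓ := by
  obtain ⟨A, κ, i, r, h⟩ := H16.exists_red ℓ hℓ
  exact ⟨A, κ, i, r, h⟩

/-- **Reducible series.**  `(φ, ψ) ∈ redRing r` says that the complex power series `φ` has
coefficients in `A` and reduction `ψ`.  It is a ring; `ψ` is determined by `φ`; and one may divide
by the discriminant form `Δ = DZ`, whose expansion is integral and starts with `X`.  In
`H16LevelOne`. -/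
theorem reducible_series (A : Subring ℂ) (κ : Type) [Field κ] (r : A →+* κ)
    (φ φ' : PowerSeries ℂ) (ψ ψ' : PowerSeries κ) :
    ((φ, ψ) ∈ H16.redRing r ↔ ∃ χ : PowerSeries A, PowerSeries.map A.subtype χ = φ ∧
      PowerSeries.map r χ = ψ) ∧
    ((φ, ψ) ∈ H16.redRing r → (φ, ψ') ∈ H16.redRing r → ψ = ψ') ∧
    ((φ, ψ) ∈ H16.redRing r → φ = PowerSeries.map (Int.castRingHom ℂ) H16.DZ * φ' →
      ∃ ψ'' : PowerSeries κ, (φ', ψ'') ∈ H16.redRing r ∧
        ψ = PowerSeries.map (Int.castRingHom κ) H16.DZ * ψ'') :=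
  ⟨H16.mem_redRing_iff, H16.redRing_unique, H16.redRing_div_disc⟩

/-- **The integral series** of `E₄`, `E₆` and `Δ`: `E₄ = 1 + 240 ∑ σ₃(n) X^n`,
`E₆ = 1 - 504 ∑ σ₅(n) X^n`, `1728 Δ = E₄³ - E₆²`, with `Δ` integral because `12` divides
`5 σ₃(n) + 7 σ₅(n)`; and `Δ = X + …`.  In `H16LevelOne`. -/
theorem level_one_series :
    H16.E4Z.map (Int.castRingHom ℂ) = qExpansion 1 E₄ ∧
      H16.E6Z.map (Int.castRingHom ℂ) = qExpansion 1 E₆ ∧
      H16.DZ.map (Int.castRingHom ℂ) = qExpansion 1 discriminant ∧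
      1728 * H16.DZ = H16.E4Z ^ 3 - H16.E6Z ^ 2 ∧
      12 * H16.mixSeries = 5 * H16.sigmaSeries 3 + 7 * H16.sigmaSeries 5 ∧
      H16.DZ.coeff 0 = 0 ∧ H16.DZ.coeff 1 = 1 :=
  ⟨H16.map_E4Z, H16.map_E6Z, H16.map_DZ, H16.DZ_eq, H16.twelve_mul_mixSeries,
    H16.DZ_coeff_zero, H16.DZ_coeff_one⟩

/-- **Sturm bound at level one.**  A form of weight `k` and level one whose reduction `ψ` is not zero
vanishes to order at most `k/12` modulo `ℓ`.  Induction: subtract a multiple of `E₄^a E₆^b` to get a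
cusp form with the same reduction and divide by `Δ`.  In `H16LevelOne`. -/
theorem sturm_level_one (A : Subring ℂ) (κ : Type) [Field κ] (r : A →+* κ) (k : ℕ)
    (f : ModularForm 𝒮ℒ (k : ℤ)) (ψ : PowerSeries κ) (h : (qExpansion 1 f, ψ) ∈ H16.redRing r)
    (hψ : ψ ≠ 0) : ψ.order ≤ ((k / 12 : ℕ) : ℕ∞) :=
  H16.sturm_mod_levelOne k f h hψ

/-- **Expansions of the norm.**  The expansion of `f ∣ S T^j` in `q^(1/p)` is the one of `f ∣ S` with
`X` replaced by `ζ^j X`, `ζ = exp(2πi/p)`, so the expansion of the norm of `f` in `q^(1/p)` is the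
product of the expansion of `f` and these.  In `H16Cusp0`. -/
theorem expansion_of_norm (p : ℕ) [hp : Fact p.Prime] (k : ℤ) (f : ModularForm (H16.G0 p) k) :
    (∀ j : ℕ, qExpansion p ((f : ℍ → ℂ) ∣[k] H16.stj j) =
      PowerSeries.rescale (H16.zetaP p ^ j) (qExpansion p ((f : ℍ → ℂ) ∣[k] ModularGroup.S))) ∧
    PowerSeries.expand p hp.out.ne_zero (qExpansion 1 (ModularForm.norm 𝒮ℒ f)) =
      PowerSeries.expand p hp.out.ne_zero (qExpansion 1 f) *
        ∏ j : Fin p, PowerSeries.rescale (H16.zetaP p ^ (j : ℕ))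
          (qExpansion p ((f : ℍ → ℂ) ∣[k] ModularGroup.S)) :=
  ⟨H16.qExpansion_slash_stj f, H16.qExpansion_norm f⟩

/-- **Expansions of the trace**: the same with a sum in place of the product.  The expansion in
`q^(1/p)` of a form on `Γ₀(p)` is the one in `q` with `X` replaced by `X^p`.  In `H16Cusp0`. -/
theorem expansion_of_trace (p : ℕ) [hp : Fact p.Prime] (k : ℤ) (f : ModularForm (H16.G0 p) k) :
    qExpansion p f = PowerSeries.expand p hp.out.ne_zero (qExpansion 1 f) ∧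
    PowerSeries.expand p hp.out.ne_zero (qExpansion 1 (ModularForm.trace 𝒮ℒ f)) =
      PowerSeries.expand p hp.out.ne_zero (qExpansion 1 f) +
        ∑ j : Fin p, PowerSeries.rescale (H16.zetaP p ^ (j : ℕ))
          (qExpansion p ((f : ℍ → ℂ) ∣[k] ModularGroup.S)) :=
  ⟨H16.qExpansion_expand H16.G0_one_mem_strictPeriods f, H16.qExpansion_trace f⟩

/-- **Reducible series in `q^(1/p)`.**  If `(φ, ψ)` is in `redRing r`, so are `(φ(X^p), ψ(X^p))` and
`(φ(a X), ψ(r(a) X))` for `a ∈ A`; if `(φ(X^p), Ψ)` is in `redRing r`, then `Ψ = ψ(X^p)` for a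
reduction `ψ` of `φ`; and the order of `ψ(c X)`, `c ≠ 0`, is the order of `ψ`.  In `H16Cusp0`. -/
theorem reducible_series_width_p (A : Subring ℂ) (κ : Type) [Field κ] (r : A →+* κ) (p : ℕ)
    (hp : p ≠ 0) (φ : PowerSeries ℂ) (ψ Ψ : PowerSeries κ) (a : A) (c : κ) (hc : c ≠ 0) :
    ((φ, ψ) ∈ H16.redRing r →
      (PowerSeries.expand p hp φ, PowerSeries.expand p hp ψ) ∈ H16.redRing r ∧
      (PowerSeries.rescale (a : ℂ) φ, PowerSeries.rescale (r a) ψ) ∈ H16.redRing r) ∧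
    ((PowerSeries.expand p hp φ, Ψ) ∈ H16.redRing r →
      ∃ ψ' : PowerSeries κ, (φ, ψ') ∈ H16.redRing r ∧ PowerSeries.expand p hp ψ' = Ψ) ∧
    (PowerSeries.rescale c ψ).order = ψ.order :=
  ⟨fun h => ⟨H16.redRing_expand p hp h, H16.redRing_rescale a h⟩, H16.redRing_of_expand p hp,
    H16.order_rescale hc ψ⟩

/-- **Reductions of the norm and of the trace.**  Let `ψ`, `ψ₀` be the reductions of the expansions of
`f` at `∞` and at `0`, and `z = ζ` in `A`.  The norm of `f` to level one has a reduction `Ψ` with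
`Ψ(X^p) = ψ(X^p) ∏_j ψ₀(r(z)^j X)`, and the trace one with a sum in place of the product.  Hence the
order of the reduction of the norm is the sum of the orders of `ψ` and `ψ₀`.  In `H16Sturm`. -/
theorem reductions_of_norm_and_trace (p : ℕ) [hp : Fact p.Prime] (A : Subring ℂ) (κ : Type)
    [Field κ] (r : A →+* κ) (k : ℤ) (f : ModularForm (H16.G0 p) k) (z : A)
    (hz : (z : ℂ) = H16.zetaP p) (ψ ψ₀ : PowerSeries κ) (h : (qExpansion 1 f, ψ) ∈ H16.redRing r)
    (h0 : (qExpansion p ((f : ℍ → ℂ) ∣[k] ModularGroup.S), ψ₀) ∈ H16.redRing r) :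
    (∃ Ψ : PowerSeries κ, (qExpansion 1 (ModularForm.norm 𝒮ℒ f), Ψ) ∈ H16.redRing r ∧
      PowerSeries.expand p hp.out.ne_zero Ψ = PowerSeries.expand p hp.out.ne_zero ψ *
        ∏ j : Fin p, PowerSeries.rescale (r z ^ (j : ℕ)) ψ₀) ∧
    ∃ Ψ : PowerSeries κ, (qExpansion 1 (ModularForm.trace 𝒮ℒ f), Ψ) ∈ H16.redRing r ∧
      PowerSeries.expand p hp.out.ne_zero Ψ = PowerSeries.expand p hp.out.ne_zero ψ +
        ∑ j : Fin p, PowerSeries.rescale (r z ^ (j : ℕ)) ψ₀ :=
  ⟨H16.redRing_norm f z hz h h0, H16.redRing_trace f z hz h h0⟩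

/-- **Sturm bound on `Γ₀(p)` at both cusps.**  If the expansions of `f` at `∞` and at `0` (in
`q^(1/p)`) have reductions `ψ`, `ψ₀` modulo `ℓ`, both non zero, then the sum of their orders is at
most `k (p + 1)/12`: apply `sturm_level_one` to the norm, of weight `k (p + 1)`, with
`reductions_of_norm_and_trace`.  It is also true for `ℓ = p`.  In `H16Sturm`. -/
theorem sturm_both_cusps (p : ℕ) [Fact p.Prime] (A : Subring ℂ) (κ : Type) [Field κ]
    (r : A →+* κ) (k : ℕ) (f : ModularForm (H16.G0 p) (k : ℤ)) (z : A)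
    (hz : (z : ℂ) = H16.zetaP p) (ψ ψ₀ : PowerSeries κ)
    (h : (qExpansion 1 f, ψ) ∈ H16.redRing r)
    (h0 : (qExpansion p ((f : ℍ → ℂ) ∣[(k : ℤ)] ModularGroup.S), ψ₀) ∈ H16.redRing r)
    (hψ : ψ ≠ 0) (hψ₀ : ψ₀ ≠ 0) : ψ.order + ψ₀.order ≤ (k * (p + 1) / 12 : ℕ) :=
  H16.sturm_mod_Gamma0 k f z hz h h0 hψ hψ₀

/-- **The form `Δ ∣ diag(p, 1) = p^11 Δ(p z)`** (`H80.dN p`) on `Γ₀(p)`: its expansion at `∞` is
`p^11 Δ(X^p)` and at the cusp `0` (in `q^(1/p)`) it is `(1/p) Δ(X)`.  In `H16Sturm` (the form: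
`H80Stab`). -/
theorem discriminant_at_both_cusps (p : ℕ) [hp : Fact p.Prime] :
    (H80.dN p : ℍ → ℂ) = discriminant ∣[(12 : ℤ)] (heckeDiagMatrix p) ∧
    qExpansion 1 (H80.dN p : ℍ → ℂ) = PowerSeries.C ((p : ℂ) ^ 11) *
      PowerSeries.expand p hp.out.ne_zero (H16.DZ.map (Int.castRingHom ℂ)) ∧
    qExpansion p ((H80.dN p : ℍ → ℂ) ∣[(12 : ℤ)] ModularGroup.S) =
      PowerSeries.C (p : ℂ)⁻¹ * H16.DZ.map (Int.castRingHom ℂ) :=
  ⟨rfl, H16.qExpansion_dN, H16.qExpansion_dN_slash_S⟩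

/-- **If the expansion at `0` reduces to zero**, so does the one at `∞`, for `k < 12 (p - 1)` and
`1/p ∈ A`.  Multiply `f` by `Δ(p z)`, which vanishes to order `p` at `∞` and has an integral
expansion at `0` up to a power of `p` (`discriminant_at_both_cusps`).  The trace to level one of the
product has weight `k + 12` and reduction `ψ Δ(X^p)`, up to a non zero factor, because the
contribution of the cusp `0` reduces to zero (`reductions_of_norm_and_trace`).  If `ψ ≠ 0` this has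
order at least `p > (k + 12)/12`, against `sturm_level_one`.  In `H16Sturm`. -/
theorem zero_at_zero (p : ℕ) [Fact p.Prime] (A : Subring ℂ) (κ : Type) [Field κ] (r : A →+* κ)
    (k : ℕ) (hk : k < 12 * (p - 1)) (f : ModularForm (H16.G0 p) (k : ℤ)) (z : A)
    (hz : (z : ℂ) = H16.zetaP p) (hpA : (p : ℂ)⁻¹ ∈ A) (ψ : PowerSeries κ)
    (h : (qExpansion 1 f, ψ) ∈ H16.redRing r)
    (h0 : (qExpansion p ((f : ℍ → ℂ) ∣[(k : ℤ)] ModularGroup.S), 0) ∈ H16.redRing r) : ψ = 0 :=
  H16.eq_zero_of_slash_S_eq_zero k hk f z hz hpA h h0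

/-- **Rules for pairs of integral expansions** (`HasExpZ p k Φ Φ₀`, see `hasExpZ_iff` of
`GuideEisensteinIndex`): sums, products, division by a common factor, `E₄`, `E₆`.  In `H16Exp`. -/
theorem pair_rules (p : ℕ) [hp : Fact p.Prime] (k l : ℕ) (Φ Φ₀ Ψ Ψ₀ : PowerSeries ℤ) (c : ℤ) :
    (H16.HasExpZ p k Φ Φ₀ → H16.HasExpZ p k Ψ Ψ₀ → H16.HasExpZ p k (Φ + Ψ) (Φ₀ + Ψ₀)) ∧
      (H16.HasExpZ p k Φ Φ₀ → H16.HasExpZ p l Ψ Ψ₀ → H16.HasExpZ p (k + l) (Φ * Ψ) (Φ₀ * Ψ₀)) ∧
      (c ≠ 0 → H16.HasExpZ p k (PowerSeries.C c * Φ) (PowerSeries.C c * Φ₀) →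
        H16.HasExpZ p k Φ Φ₀) ∧
      H16.HasExpZ p 4 H16.E4Z (PowerSeries.expand p hp.out.ne_zero H16.E4Z) ∧
      H16.HasExpZ p 6 H16.E6Z (PowerSeries.expand p hp.out.ne_zero H16.E6Z) :=
  ⟨fun h h' => h.add h', fun h h' => h.mul h', fun hc h => h.div hc, H16.HasExpZ.E4,
    H16.HasExpZ.E6⟩

/-! ## 8. The forms in the upper bound -/

/-- **Three forms.**  Let `G` be a form of weight two with expansions `p (c + M g)` at `∞` and
`-(c + M g₀)` at `0` (the datum `Key p c M`).  Then `c² E₄ - G²`, `c³ E₆ + G³` and `c E₆ + G E₄` have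
the expansions written (`sigE p j` is `∑ σ_j(n) X^(p n)`); modulo `M` the expansions at `0` have order
at least `p`.  The first form is used modulo `ℓ ≥ 7` and modulo `9`, the second modulo `5`, the third
modulo `3` and for the powers of `2`, always with `c` prime to `ℓ`.  In `H16Upper`. -/
theorem auxiliary_forms (p : ℕ) [Fact p.Prime] (c M : ℤ) (g g₀ : PowerSeries ℤ)
    (h : H16.HasExpZ p 2 (PowerSeries.C (p : ℤ) * (PowerSeries.C c + PowerSeries.C M * g))
      (-(PowerSeries.C c + PowerSeries.C M * g₀))) :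
    H16.HasExpZ p 4 (PowerSeries.C (c ^ 2) * H16.E4Z -
        (PowerSeries.C (p : ℤ) * (PowerSeries.C c + PowerSeries.C M * g)) ^ 2)
      (PowerSeries.C (c ^ 2) * (1 + 240 * H16.sigE p 3) -
        (PowerSeries.C c + PowerSeries.C M * g₀) ^ 2) ∧
    H16.HasExpZ p 6 (PowerSeries.C (c ^ 3) * H16.E6Z +
        (PowerSeries.C (p : ℤ) * (PowerSeries.C c + PowerSeries.C M * g)) ^ 3)
      (PowerSeries.C (c ^ 3) * (1 - 504 * H16.sigE p 5) -
        (PowerSeries.C c + PowerSeries.C M * g₀) ^ 3) ∧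
    H16.HasExpZ p 6 (PowerSeries.C c * H16.E6Z +
        PowerSeries.C (p : ℤ) * (PowerSeries.C c + PowerSeries.C M * g) * H16.E4Z)
      (PowerSeries.C c * (1 - 504 * H16.sigE p 5) -
        (PowerSeries.C c + PowerSeries.C M * g₀) * (1 + 240 * H16.sigE p 3)) :=
  ⟨H16.Key.form4 h, H16.Key.form6 h, H16.Key.form6' h⟩

/-- **The contradiction.**  A form of weight `k ≤ 6` cannot have expansions which are modulo `ℓ` equal
to `a + b ∑ σ_j(n) X^n` at `∞` and `b' ∑ σ_j(n) X^(p n)` at `0`, with `b`, `b'` prime to `ℓ`: the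
second has order `p`, and `p > 6 (p + 1)/12`.  In `H16Upper`. -/
theorem contradiction_of_orders (p : ℕ) [Fact p.Prime] (ℓ : ℕ) (hℓ : ℓ.Prime) (k : ℕ) (hk : k ≤ 6)
    (Φ Φ₀ : PowerSeries ℤ) (h : H16.HasExpZ p k Φ Φ₀) (a b b' : ℤ) (X Y : PowerSeries ℤ) (j : ℕ)
    (h1 : Φ = PowerSeries.C a + PowerSeries.C b * H16.sigmaSeries j + PowerSeries.C (ℓ : ℤ) * X)
    (h2 : Φ₀ = PowerSeries.C 0 + PowerSeries.C b' * H16.sigE p j + PowerSeries.C (ℓ : ℤ) * Y)
    (hb : ¬ (ℓ : ℤ) ∣ b) (hb' : ¬ (ℓ : ℤ) ∣ b') : False :=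
  H16.combo_contra hℓ hk h h1 h2 hb hb'

/-- **Weight eight.**  For `8 ∣ p + 1`, `c` odd and `Key p c 8`, the form `-G` has expansions `c + 8 x`
and `c + 8 g₀`, and `5 G⁴ - 14 c² G² E₄ - 8 c³ G E₆ + c⁴ E₄²` is divisible by `256`; modulo `2` the
quotient has the expansions `c⁴ t` at `∞` and `c⁴ t(X^p)` at `0`, where `t` is the series written.  Its
coefficients `0` and `1` are `0` and `-27`, so the orders are `1` and `p`, and
`1 + p > 8 (p + 1)/12`.  In `H16Upper`. -/
theorem weight_eight : H16.tSeries = -27 * H16.mixSeries + 225 * H16.sigmaSeries 3 ^ 2 ∧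
    H16.tSeries.coeff 0 = 0 ∧ H16.tSeries.coeff 1 = -27 :=
  ⟨rfl, H16.tSeries_coeff_zero, H16.tSeries_coeff_one⟩

/-- **From a form to `Key`.**  Let `F` be a form of weight two on `Γ₀(p)` with integral coefficients
`b k` for `k ≥ 1` and `24 m a_0(F) = p - 1`; if `24 m = q M D` and `p - 1 = q c`, then a multiple of
`F` has the expansions `p (c + M g)` and `-(c + M g₀)`.  It is applied to the quotient by `m` of the
difference of the Eisenstein series and a congruent cusp form.  In `H16Upper`. -/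
theorem key_of_form (p : ℕ) [Fact p.Prime] (F : ModularForm (H16.G0 p) 2) (b : ℕ → ℤ)
    (hb : ∀ k, 1 ≤ k → (qExpansion 1 F).coeff k = b k) (m : ℤ) (hm : m ≠ 0)
    (h0 : 24 * m * (qExpansion 1 F).coeff 0 = (p : ℂ) - 1) (q M D c : ℤ)
    (h1 : 24 * m = q * (M * D)) (h2 : (p : ℤ) - 1 = q * c) : H16.Key p c M :=
  H16.key_of_form F b hb hm h0 h1 h2

end Fermat.Agent.Guide.EisensteinSteps
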