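import Fermat.Agent.H76M8

/-!
# Reader's guide: the Eisenstein part of `J₀(N)`, companion: the `r`-adic representations

**Statements served:** S15, S12, S09, S03, S01. Main text: `GuideEisenstein`, whose sections 2-4
state the results (`cocycle_form_of_S14`, `key_lemma`, `det_eq_cyc`, `mult_part_ne_zero` = (E1),
`mult_part_cyclotomic` = (E2), `ramified_at_N` = (E3), `tate_module`, `tate_conclusions`,
`card_inertia_invariants`); this file shows the steps between them. Every library theorem cited below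
is used in the proofs of these statements. In prose: note [217] of `NOTES.md`. Files:
`H76G1a`-`H76G1e`, `H76G1`, `H76M0`-`H76M8`, `H76MStmt` (helper76).

**What this is about.** `N` and `r` are different primes, `W` is the Eisenstein part of the
`r`-primary torsion of `J₀(N)(ℚ̄)`, `T` its Tate module, a free `ℤ_r`-module of rank `2 t` with
commuting actions of the Hecke operators `T_q` and of the Galois group. Over a finite extension `L`
of `ℚ_r` the space `L ⊗ T` is the direct sum of the common eigenspaces of the Hecke operators, and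
these have dimension at most two (`multiplicity` in `GuideEisenstein`). In an eigenspace `U` one takes
the lattice `Λ = U ∩ (O ⊗ T)`, `O` the valuation ring of `L`; on it the Eichler-Shimura relations hold
with scalars `a_q ≡ 1 + q` modulo the maximal ideal. The theory of such lattices (sections 1, 2)
gives (E1): the multiplicative part of `Λ` is not zero; (E2): inertia at `r` acts on it by the
cyclotomic character; (E3): inertia at `N` does not act trivially on `Λ`. Since the multiplicative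
part of `T` has rank at most `t`, there are exactly `t` eigenspaces, all of dimension two (sections
3-5). No Gorenstein property of the Hecke algebra is used.

**Conventions.** `Qb = ℚ̄`, `GQ = Gal(ℚ̄/ℚ)`, `M2 O` = two by two matrices, places of `ℚ̄` are
valuation rings `A`, `B`. `O` is a complete local ring whose maximal ideal contains `r`, and
`H35.cyc O hr : GQ →* O` is the cyclotomic character (`cyc_spec`). `H76M.TateSys N r T` is the structure
on `T` (`tate_system`). `E : H76M.TExt r T L V` says that the `L`-vector space `V` is spanned by the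
image of a map `E.i : T → V` and that the endomorphisms of `T` extend to `V` (`E.bc`); it is used for
`V = L ⊗ T`. `E.Lam O U` is the lattice `Λ` of `U`, `H76M.Vm E Tm ⊆ V` the `L`-span of a submodule `Tm`
of `T`. `H76M.MultT S A Tm` (`Tm` is a multiplicative part of `T` at the place `A`): `A` lies above `r`,
`Tm` is stable under the decomposition group of `A`, and `σ x - x ∈ Tm` for all `x ∈ T` and all `σ` in
the inertia group. `MultAt` is the same for `Λ`, with the condition that `Λ / Λm` is torsion free.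
-/

set_option autoImplicit false

namespace Fermat.Agent.Guide.EisensteinTate

open IsLocalRing Module Polynomial
open Fermat.Agent.H76G (Qb GQ M2 EisRep EisMat MultAt)
open Fermat.Agent.H76M (TateSys TExt MultT Vm)

/-! ## 1. Characters -/

/-- **Minkowski's theorem in group form** (`H76G1a`). A homomorphism from `Gal(ℚ̄/ℚ)` to a monoid,
trivial on `Gal(ℚ̄/L)` for a number field `L`, which is trivial on one inertia group above every
prime number, is trivial. (A number field `≠ ℚ` has a ramified prime.) -/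
theorem minkowski {M : Type*} [Monoid M] (f : GQ →* M) (L : IntermediateField ℚ Qb)
    [FiniteDimensional ℚ L] (hL : ∀ σ : GQ, (∀ x ∈ L, σ x = x) → f σ = 1)
    (h : ∀ q : ℕ, q.Prime → ∃ A : ValuationSubring Qb, A.LiesOverPrime q ∧
      ∀ σ ∈ A.inertiaSubgroupIn ℚ, f σ = 1) (σ : GQ) : f σ = 1 :=
  H76G.eq_one_of_unramified f L hL h σ

/-- **Minkowski's theorem for characters** (`H76G1a`) with values in a complete local ring `O`,
continuous for the topology of the maximal ideal: apply the previous theorem modulo all powers. -/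
theorem minkowski_character {O : Type} [CommRing O] [IsLocalRing O]
    [IsAdicComplete (maximalIdeal O) O] (c : GQ →* O)
    (hc : ∀ n : ℕ, ∃ L : IntermediateField ℚ Qb, FiniteDimensional ℚ L ∧
      ∀ σ : GQ, (∀ x ∈ L, σ x = x) → c σ - 1 ∈ maximalIdeal O ^ n)
    (h : ∀ q : ℕ, q.Prime → ∃ A : ValuationSubring Qb, A.LiesOverPrime q ∧
      ∀ σ ∈ A.inertiaSubgroupIn ℚ, c σ = 1) (σ : GQ) : c σ = 1 :=
  H76G.char_eq_one c hc h σ

/-- **The cyclotomic character** `GQ → ℤ_rˣ → O` (`H35Cyclo`): if `σ ζ = ζ ^ a` for all roots of unity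
of order `r ^ n`, then `cyc σ ≡ a` modulo the `n`-th power of the maximal ideal. -/
theorem cyc_spec {O : Type} [CommRing O] [IsLocalRing O] [IsAdicComplete (maximalIdeal O) O]
    {r : ℕ} [Fact r.Prime] (hr : (r : O) ∈ maximalIdeal O) (σ : GQ) (n a : ℕ)
    (h : ∀ ζ : AlgebraicClosure ℚ, ζ ^ r ^ n = 1 → σ ζ = ζ ^ a) :
    H35.cyc O hr σ - (a : O) ∈ maximalIdeal O ^ n :=
  H35.cyc_sub_mem O hr σ n a h

/-- **The cyclotomic character is ramified at `r`** (`H76G1a`): in characteristic zero it is not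
trivial on inertia, and for `r ≥ 3` not even modulo the maximal ideal. (Otherwise it would be trivial
by `minkowski_character`; but a Frobenius element at `ℓ` has the value `ℓ`.) -/
theorem cyclotomic_ramified (O : Type) [CommRing O] [IsLocalRing O]
    [IsAdicComplete (maximalIdeal O) O] {r : ℕ} [Fact r.Prime] (hr : (r : O) ∈ maximalIdeal O)
    {A : ValuationSubring Qb} (hA : A.LiesOverPrime r) :
    (CharZero O → ∃ σ ∈ A.inertiaSubgroupIn ℚ, H35.cyc O hr σ ≠ 1) ∧
    (3 ≤ r → ∃ σ ∈ A.inertiaSubgroupIn ℚ, H35.cyc O hr σ - 1 ∉ maximalIdeal O) :=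
  ⟨fun _ => H76G.exists_cyc_ne_one O hr hA, fun hr3 => H76G.exists_cyc_sub_one_notMem O hr hr3 hA⟩

/-! ## 2. Two-dimensional Eisenstein representations in matrices -/

/-- **Quadratic relations** (`H76G1d`). `X² - tr(X) X + det(X) = 0`, and if a matrix over a domain
which is not scalar satisfies `X² - t X + d = 0`, then `t = tr X` and `d = det X`. -/
theorem quadratic_relations {R : Type*} [CommRing R] [IsDomain R] (X : Matrix (Fin 2) (Fin 2) R) :
    X * X - X.trace • X + X.det • (1 : Matrix (Fin 2) (Fin 2) R) = 0 ∧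
    ∀ t d : R, X * X - t • X + d • (1 : Matrix (Fin 2) (Fin 2) R) = 0 →
      ¬ (X 0 1 = 0 ∧ X 1 0 = 0 ∧ X 0 0 = X 1 1) → X.trace = t ∧ X.det = d :=
  ⟨H76G.cayley X, fun _ _ h hX => H76G.of_quad h hX⟩

/-- **Definition of `EisMat N r O a ρ`**, the matrix form of `EisRep` (`eisRep_iff` in
`GuideEisenstein`): `ρ` is continuous (`H35.MatCont`: modulo every power of the maximal ideal it is
trivial on the Galois group of a number field); for the primes `q ≠ N, r` one has `a_q ≡ 1 + q` modulo the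
maximal ideal, Frobenius elements satisfy `φ² - a_q φ + q = 0`, inertia is trivial; inertia at `N` is
unipotent; `a_q ≠ 1 + q` for some `q`. -/
theorem eisMat_iff (N r : ℕ) (O : Type) [CommRing O] [IsLocalRing O] (a : ℕ → O)
    (ρ : GQ →* M2 O) :
    EisMat N r O a ρ ↔ H35.MatCont O ρ ∧
      (∀ q : ℕ, q.Prime → q ≠ N → q ≠ r → a q - (1 + (q : O)) ∈ maximalIdeal O) ∧
      (∀ q : ℕ, q.Prime → q ≠ N → q ≠ r → ∀ B : ValuationSubring Qb, B.LiesOverPrime q →
        ∀ φ : GQ, B.IsFrobeniusAt φ q → ρ φ * ρ φ - a q • ρ φ + (q : O) • (1 : M2 O) = 0) ∧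
      (∀ q : ℕ, q.Prime → q ≠ N → q ≠ r → ∀ B : ValuationSubring Qb, B.LiesOverPrime q →
        ∀ σ ∈ B.inertiaSubgroupIn ℚ, ρ σ = 1) ∧
      (∀ B : ValuationSubring Qb, B.LiesOverPrime N → ∀ σ ∈ B.inertiaSubgroupIn ℚ,
        (ρ σ - 1) * (ρ σ - 1) = 0) ∧
      ∃ q : ℕ, q.Prime ∧ q ≠ N ∧ q ≠ r ∧ a q ≠ 1 + (q : O) :=
  ⟨fun h => ⟨h.cont, h.a_mem, h.frob, h.unr, h.ss, h.nonEis⟩,
    fun ⟨h1, h2, h3, h4, h5, h6⟩ => ⟨h1, h2, h3, h4, h5, h6⟩⟩

/-- **The relation for all elements** (`H76G1d`). Every `ρ(σ)` satisfies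
`X² - t X + cyc(σ) = 0` for some `t`: for Frobenius elements this is the hypothesis, in general it
follows by Frobenius density, modulo all powers of the maximal ideal (`H35Dens`). If some `ρ(τ)` is
not scalar, `det ρ = cyc`. -/
theorem determinant {N r : ℕ} [Fact r.Prime] {O : Type} [CommRing O] [IsDomain O] [IsLocalRing O]
    [IsAdicComplete (maximalIdeal O) O] (hr : (r : O) ∈ maximalIdeal O) {a : ℕ → O}
    {ρ : GQ →* M2 O} (H : EisMat N r O a ρ) (σ : GQ) :
    (∃ t : O, ρ σ * ρ σ - t • ρ σ + H35.cyc O hr σ • (1 : M2 O) = 0) ∧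
    ((∃ τ, ¬ (ρ τ 0 1 = 0 ∧ ρ τ 1 0 = 0 ∧ ρ τ 0 0 = ρ τ 1 1)) → (ρ σ).det = H35.cyc O hr σ) :=
  ⟨H.quad hr σ, fun hτ => H.det_eq hr hτ σ⟩

/-- **Not all `ρ(σ)` are scalar** (`H76G1d`), if the scalar elements of inertia at `r` are `1`.
Otherwise `ρ` is a character, unramified everywhere, hence trivial; then `φ² - a_q φ + q = 0` gives
`a_q = 1 + q` for all `q`. -/
theorem not_scalar {N r : ℕ} [Fact r.Prime] {O : Type} [CommRing O] [IsDomain O] [IsLocalRing O]
    [IsAdicComplete (maximalIdeal O) O] {a : ℕ → O} {ρ : GQ →* M2 O} (H : EisMat N r O a ρ)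
    {A : ValuationSubring Qb} (hA : A.LiesOverPrime r) (hN : N.Prime)
    (hI : ∀ σ ∈ A.inertiaSubgroupIn ℚ, (ρ σ 0 1 = 0 ∧ ρ σ 1 0 = 0 ∧ ρ σ 0 0 = ρ σ 1 1) →
      ρ σ 0 0 = 1) :
    ∃ τ, ¬ (ρ τ 0 1 = 0 ∧ ρ τ 1 0 = 0 ∧ ρ τ 0 0 = ρ τ 1 1) :=
  H.exists_not_isScal hA hN hI

/-- **Traces** (`H76G1d`). If `det ρ = cyc`, Frobenius elements at `q` have trace `a_q`, and all traces
are `≡ 1 + cyc` modulo the maximal ideal. -/
theorem traces {N r : ℕ} [Fact r.Prime] {O : Type} [CommRing O] [IsDomain O] [IsLocalRing O]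
    [IsAdicComplete (maximalIdeal O) O] (hr : (r : O) ∈ maximalIdeal O) {a : ℕ → O}
    {ρ : GQ →* M2 O} (H : EisMat N r O a ρ) (hdet : ∀ σ, (ρ σ).det = H35.cyc O hr σ) :
    (∀ q : ℕ, q.Prime → q ≠ N → q ≠ r → ∀ B : ValuationSubring Qb, B.LiesOverPrime q →
      ∀ φ : GQ, B.IsFrobeniusAt φ q → (ρ φ).trace = a q) ∧
    ∀ σ, (ρ σ).trace - (1 + H35.cyc O hr σ) ∈ maximalIdeal O :=
  ⟨fun _ hq hqN hqr _ hB _ hφ => H.trace_frob hr hdet hq hqN hqr hB hφ, H.trace_mem hr hdet⟩

/-- **Conjugation by `diag(1, ϖ ^ n)`** (`H76G1e`). If all lower left entries of `ρ` are divisible by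
`ϖ ^ n`, one can divide them by `ϖ ^ n` and multiply the upper right entries by `ϖ ^ n`. -/
theorem conjugate {O : Type} [CommRing O] [IsDomain O] (ρ : GQ →* M2 O) {ϖ : O} (hϖ : ϖ ≠ 0)
    (n : ℕ) (h : ∀ σ, ∃ g, ρ σ 1 0 = ϖ ^ n * g) :
    ∃ ρ' : GQ →* M2 O, ∀ σ, ∃ g, ρ σ 1 0 = ϖ ^ n * g ∧
      ρ' σ = !![ρ σ 0 0, ϖ ^ n * ρ σ 0 1; g, ρ σ 1 1] :=
  ⟨H76G.conjPow ρ hϖ n h, fun σ => ⟨H76G.divPow (h σ), H76G.divPow_spec (h σ),
    H76G.conjPow_apply ρ hϖ n h σ⟩⟩

/-- **(E3) in matrices** (`H76G1e`). An Eisenstein representation over a complete discrete valuation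
ring with determinant the cyclotomic character, of the form `(*, *; 0, *)` on a decomposition group
at `r` and `(*, *; 0, 1)` on its inertia group, cannot be unramified at `N`. Proof: by the key lemma
the lower left entries are in the maximal ideal `(ϖ)`; conjugate by `diag(1, ϖ)` and repeat: all
lower left entries are `0`; so the lower right entry is an unramified character, it is trivial, and
`a_q = 1 + q` for all `q`. -/
theorem unramified_impossible {N r : ℕ} [Fact r.Prime] {O : Type} [CommRing O] [IsDomain O]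
    [IsLocalRing O] [IsAdicComplete (maximalIdeal O) O] (hr : (r : O) ∈ maximalIdeal O)
    {a : ℕ → O} {ρ : GQ →* M2 O} (H : EisMat N r O a ρ) {ϖ : O} (hϖ0 : ϖ ≠ 0)
    (hϖ : maximalIdeal O = Ideal.span {ϖ}) (hdet : ∀ σ, (ρ σ).det = H35.cyc O hr σ)
    (hunr : ∀ B : ValuationSubring Qb, B.LiesOverPrime N → N ≠ r →
      ∀ σ ∈ B.inertiaSubgroupIn ℚ, ρ σ = 1)
    {A : ValuationSubring Qb} (hA : A.LiesOverPrime r)
    (hD : ∀ σ ∈ A.decompositionSubgroup ℚ, ρ σ 1 0 = 0)
    (hI : ∀ σ ∈ A.inertiaSubgroupIn ℚ, ρ σ 1 1 = 1) : False :=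
  H.false_of_unramified hr hϖ0 hϖ hdet hunr hA hD hI

/-- **Adapted bases** (`H76G1`). A saturated submodule `≠ 0, Λ` of a free module `Λ` of rank two over
a valuation ring is generated by the first vector of a basis of `Λ`. -/
theorem adapted_basis {O : Type} [CommRing O] [IsDomain O] [ValuationRing O] {Λ : Type}
    [AddCommGroup Λ] [Module O Λ] (e : Basis (Fin 2) O Λ) (Λm : Submodule O Λ)
    (hsat : ∀ (c : O) (v : Λ), c ≠ 0 → c • v ∈ Λm → v ∈ Λm) (hbot : Λm ≠ ⊥) (htop : Λm ≠ ⊤) :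
    ∃ b : Basis (Fin 2) O Λ, b 0 ∈ Λm ∧ ∀ w ∈ Λm, b.repr w 1 = 0 :=
  H76G.exists_adapted_basis e Λm hsat hbot htop

/-! ## 3. Common eigenspaces -/

/-- **Common eigenspaces** (`H76M1`). Let commuting endomorphisms `f_i` of a finite dimensional vector
space be zeros of products `∏ (X - μ)` over finite sets of scalars. Then the space is the direct sum
of the common eigenspaces. -/
theorem common_eigenspaces {K V : Type*} [Field K] [AddCommGroup V] [Module K V]
    [FiniteDimensional K V] {ι : Type*} (f : ι → Module.End K V)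
    (hc : ∀ i j, Commute (f i) (f j)) (s : ι → Finset K)
    (h : ∀ i, aeval (f i) (∏ μ ∈ s i, (X - C μ)) = 0) :
    iSupIndep (fun χ : ι → K => ⨅ i, (f i).eigenspace (χ i)) ∧
      ⨆ χ : ι → K, ⨅ i, (f i).eigenspace (χ i) = ⊤ :=
  H76M.family f hc s h

/-- **Fixed vectors decompose** (`H76M1`). If the `U_χ` are independent, their sum over a finite set
is the whole space, and the operators `g_i` preserve every `U_χ`, the space of the vectors fixed by
all `g_i` is the sum of its intersections with the `U_χ` (the other inclusion is clear). -/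
theorem fixed_vectors {K V : Type*} [Field K] [AddCommGroup V] [Module K V] {κ ι : Type*}
    (U : κ → Submodule K V) (h : iSupIndep U) (s : Finset κ) (htop : ⨆ χ ∈ s, U χ = ⊤)
    (g : ι → Module.End K V) (hg : ∀ i χ, ∀ x ∈ U χ, g i x ∈ U χ) (F : Submodule K V)
    (hF : ∀ x, x ∈ F ↔ ∀ i, g i x = x) : F ≤ ⨆ χ ∈ s, F ⊓ U χ :=
  H76M.fixed_le U h s htop g hg F hF

/-! ## 4. Lattices in `L ⊗ T` -/

/-- **The structure on the Tate module** (`H76M2`). `S : TateSys N r T` are commuting Hecke operators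
`S.τ q` and a continuous action `S.ρ` of the Galois group (field `cont`: modulo `r ^ n` it factors
through a number field) commuting with them, with: `τ q - (1 + q)` nilpotent modulo `r` (Eisenstein);
Eichler-Shimura relations; unramified outside `N r`; `(ρ - 1)² = 0` on inertia at `N`, in the form
`ρ (ρ - 1) = ρ - 1`; `1 + q - τ q` divides a nonzero integer (no eigenform is Eisenstein). -/
theorem tate_system {N r : ℕ} [Fact r.Prime] {T : Type} [AddCommGroup T] [Module ℤ_[r] T]
    (S : TateSys N r T) :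
    (∀ q q', Commute (S.τ q) (S.τ q')) ∧ (∀ q σ, Commute (S.τ q) (S.ρ σ)) ∧
    (∀ q : ℕ, q.Prime → q ≠ N → ∃ k : ℕ, ∀ v : T, ∃ w,
      ((S.τ q - (1 + (q : ℤ_[r])) • (1 : Module.End ℤ_[r] T)) ^ k) v = (r : ℤ_[r]) • w) ∧
    (∀ q : ℕ, q.Prime → q ≠ N → q ≠ r → ∀ B : ValuationSubring Qb, B.LiesOverPrime q →
      (∀ φ : GQ, B.IsFrobeniusAt φ q →
        S.ρ φ * S.ρ φ - S.τ q * S.ρ φ + (q : ℤ_[r]) • (1 : Module.End ℤ_[r] T) = 0) ∧
      ∀ σ ∈ B.inertiaSubgroupIn ℚ, S.ρ σ = 1) ∧
    (∀ B : ValuationSubring Qb, B.LiesOverPrime N → ∀ σ ∈ B.inertiaSubgroupIn ℚ,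
      S.ρ σ * (S.ρ σ - 1) = S.ρ σ - 1) ∧
    ∀ q : ℕ, q.Prime → q ≠ N → ∃ (t : Module.End ℤ_[r] T) (m : ℕ), m ≠ 0 ∧
      t * ((1 + (q : ℤ_[r])) • (1 : Module.End ℤ_[r] T) - S.τ q) =
        (m : ℤ_[r]) • (1 : Module.End ℤ_[r] T) :=
  ⟨S.comm_τ, S.comm_ρ, S.nilp, fun q hq h1 h2 B hB =>
    ⟨fun φ hφ => S.frob q hq h1 h2 B hB φ hφ, fun σ hσ => S.unr q hq h1 h2 B hB σ hσ⟩, S.ss,
    S.nonEis⟩

/-- **The lattice of a subspace** (`H76M2`). `O` is a discrete valuation ring with field of fractions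
`L` which contains `ℤ_r`. For every subspace `U` of `V = L ⊗ T` the lattice `Λ = E.Lam O U` (the
elements of `U` in the `O`-span of `T`) is a free `O`-module of rank `dim U`. -/
theorem lattice_rank {r : ℕ} [Fact r.Prime] {T : Type} [AddCommGroup T] [Module ℤ_[r] T]
    [Module.Finite ℤ_[r] T] {O : Type} [CommRing O] [IsDomain O] [IsDiscreteValuationRing O]
    [Algebra ℤ_[r] O] {L : Type} [Field L] [Algebra O L] [IsFractionRing O L] [Algebra ℤ_[r] L]
    [IsScalarTower ℤ_[r] O L] {V : Type} [AddCommGroup V] [Module L V] [Module O V]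
    [IsScalarTower O L V] (E : TExt r T L V) (U : Submodule L V) :
    Module.Finite O (TExt.Lam O E U) ∧ Module.Free O (TExt.Lam O E U) ∧
      finrank O (TExt.Lam O E U) = finrank L U :=
  ⟨E.finite_Lam U, E.free_Lam U, E.finrank_Lam U⟩

/-- **The lattice of an eigenspace is an Eisenstein representation** (`H76M3`). Let `U ≠ 0` be a
Galois stable subspace on which the Hecke operators are scalars `a_q ∈ O`. The Galois action on
`Λ` (`H76M.rhoLam`) satisfies `EisRep`. If `Tm` is a multiplicative part of `T` at `A` (stable under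
the decomposition group, inertia trivial on the quotient), then `Λ ∩ Vm` (`H76M.LamM O E U Tm`) is
one for `Λ`. -/
theorem lattice_eisRep {N r : ℕ} [Fact r.Prime] {T : Type} [AddCommGroup T] [Module ℤ_[r] T]
    [Module.Finite ℤ_[r] T] (S : TateSys N r T) {O : Type} [CommRing O] [IsDomain O]
    [IsDiscreteValuationRing O] [IsAdicComplete (maximalIdeal O) O] [CharZero O]
    [Algebra ℤ_[r] O] {L : Type} [Field L] [Algebra O L] [IsFractionRing O L] [Algebra ℤ_[r] L]
    [IsScalarTower ℤ_[r] O L] {V : Type} [AddCommGroup V] [Module L V] [Module O V]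
    [IsScalarTower O L V] (E : TExt r T L V) (U : Submodule L V)
    (hU : ∀ (σ : GQ), ∀ v ∈ U, E.bc (S.ρ σ) v ∈ U) (hr : (r : O) ∈ maximalIdeal O)
    (hne : U ≠ ⊥) (a : ℕ → O)
    (ha : ∀ q : ℕ, q.Prime → q ≠ N → ∀ v ∈ U, E.bc (S.τ q) v = a q • v) :
    EisRep N r O a (TExt.Lam O E U) (H76M.rhoLam S O E U hU) ∧
    ∀ (A : ValuationSubring Qb) (Tm : Submodule ℤ_[r] T), MultT S A Tm →
      MultAt r (H76M.rhoLam S O E U hU) A (H76M.LamM O E U Tm) :=
  ⟨H76M.eisRep S E U hU hr hne a ha, fun _ _ hT => H76M.multAt S E U hU hT⟩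

/-- **(E1) for eigenspaces** of dimension one or two (`H76M3`): `U ∩ Vm ≠ 0`. In dimension one: else
`U` would be an unramified, hence trivial character, and `a_q = 1 + q` for all `q`. -/
theorem E1_eigenspace {N r : ℕ} [Fact r.Prime] {T : Type} [AddCommGroup T] [Module ℤ_[r] T]
    [Module.Finite ℤ_[r] T] (S : TateSys N r T) {O : Type} [CommRing O] [IsDomain O]
    [IsDiscreteValuationRing O] [IsAdicComplete (maximalIdeal O) O] [CharZero O]
    [Algebra ℤ_[r] O] {L : Type} [Field L] [Algebra O L] [IsFractionRing O L] [Algebra ℤ_[r] L]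
    [IsScalarTower ℤ_[r] O L] {V : Type} [AddCommGroup V] [Module L V] [Module O V]
    [IsScalarTower O L V] (E : TExt r T L V) (U : Submodule L V)
    (hU : ∀ (σ : GQ), ∀ v ∈ U, E.bc (S.ρ σ) v ∈ U) (hr : (r : O) ∈ maximalIdeal O)
    (hne : U ≠ ⊥) (h2 : finrank L U ≤ 2) (hfd : FiniteDimensional L V) (hN : N.Prime) (a : ℕ → O)
    (ha : ∀ q : ℕ, q.Prime → q ≠ N → ∀ v ∈ U, E.bc (S.τ q) v = a q • v)
    {A : ValuationSubring Qb} {Tm : Submodule ℤ_[r] T} (hT : MultT S A Tm) :
    U ⊓ Vm E Tm ≠ ⊥ :=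
  H76M.E1_all S E U hU hr hne h2 hfd hN a ha hT

/-- **(E2) and (E3) for eigenspaces** of dimension two not contained in `Vm` (`H76M3`): inertia at
`A` acts on `U ∩ Vm` by the cyclotomic character, and every inertia group above `N` acts nontrivially
on `U`. -/
theorem E2_E3_eigenspace {N r : ℕ} [Fact r.Prime] {T : Type} [AddCommGroup T] [Module ℤ_[r] T]
    [Module.Finite ℤ_[r] T] (S : TateSys N r T) {O : Type} [CommRing O] [IsDomain O]
    [IsDiscreteValuationRing O] [IsAdicComplete (maximalIdeal O) O] [CharZero O]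
    [Algebra ℤ_[r] O] {L : Type} [Field L] [Algebra O L] [IsFractionRing O L] [Algebra ℤ_[r] L]
    [IsScalarTower ℤ_[r] O L] {V : Type} [AddCommGroup V] [Module L V] [Module O V]
    [IsScalarTower O L V] (E : TExt r T L V) (U : Submodule L V)
    (hU : ∀ (σ : GQ), ∀ v ∈ U, E.bc (S.ρ σ) v ∈ U) (hr : (r : O) ∈ maximalIdeal O)
    (h2 : finrank L U = 2) (hN : N.Prime) (a : ℕ → O)
    (ha : ∀ q : ℕ, q.Prime → q ≠ N → ∀ v ∈ U, E.bc (S.τ q) v = a q • v)
    {A : ValuationSubring Qb} {Tm : Submodule ℤ_[r] T} (hT : MultT S A Tm) (hle : ¬ U ≤ Vm E Tm) :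
    (∀ σ ∈ A.inertiaSubgroupIn ℚ, ∀ v ∈ U ⊓ Vm E Tm,
      E.bc (S.ρ σ) v = H35.cyc O hr σ • v) ∧
    ∀ B : ValuationSubring Qb, B.LiesOverPrime N →
      ∃ σ ∈ B.inertiaSubgroupIn ℚ, ∃ v ∈ U, E.bc (S.ρ σ) v ≠ v :=
  ⟨fun _ hσ _ hv => H76M.E2_all S E U hU hr h2 hN a ha hT hle hσ hv,
    fun _ hB => H76M.E3_all S E U hU hr h2 hN a ha hT hle hB⟩

/-- **The decomposition** (`H76M5`). Assume `dim V = 2 t`; finitely many Hecke operators generate the
others; over `L` they are diagonalisable with eigenvalues in `O`; no three independent vectors are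
common eigenvectors for the same eigenvalues; `dim Vm ≤ t`. Then `V` is the direct sum of `t` Galois
stable common eigenspaces of dimension two, which meet `Vm` in dimension one (`numerics` in
`GuideEisenstein` applied to (E1)). -/
theorem decomposition {N r : ℕ} [Fact r.Prime] {T : Type} [AddCommGroup T] [Module ℤ_[r] T]
    [Module.Finite ℤ_[r] T] (S : TateSys N r T) {O : Type} [CommRing O] [IsDomain O]
    [IsDiscreteValuationRing O] [IsAdicComplete (maximalIdeal O) O] [CharZero O]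
    [Algebra ℤ_[r] O] {L : Type} [Field L] [Algebra O L] [IsFractionRing O L] [Algebra ℤ_[r] L]
    [IsScalarTower ℤ_[r] O L] {V : Type} [AddCommGroup V] [Module L V] [Module O V]
    [IsScalarTower O L V] [FiniteDimensional L V] (hr : (r : O) ∈ maximalIdeal O)
    (E : TExt r T L V) (hN : N.Prime) (t : ℕ) (hV : finrank L V = 2 * t)
    (F : Finset {q : ℕ // q.Prime ∧ q ≠ N})
    (hF : ∀ q : {q : ℕ // q.Prime ∧ q ≠ N}, S.τ q ∈ Algebra.adjoin ℤ_[r]
      ((fun q : {q : ℕ // q.Prime ∧ q ≠ N} => S.τ q) '' (F : Set {q : ℕ // q.Prime ∧ q ≠ N})))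
    (hs : ∀ j : F, ∃ s : Finset L, aeval (E.bc (S.τ j)) (∏ μ ∈ s, (X - C μ)) = 0 ∧
      ∀ μ ∈ s, ∃ c : O, algebraMap O L c = μ)
    (hdim : ∀ (χ : ℕ → L) (v : Fin 3 → V),
      (∀ i (q : ℕ), q.Prime → q ≠ N → E.bc (S.τ q) (v i) = χ q • v i) → ¬ LinearIndependent L v)
    {A : ValuationSubring Qb} {Tm : Submodule ℤ_[r] T} (hT : MultT S A Tm)
    (hm : finrank L (Vm E Tm) ≤ t) :
    ∃ (κ : Type) (s : Finset κ) (U : κ → Submodule L V), iSupIndep U ∧ ⨆ χ ∈ s, U χ = ⊤ ∧
      (∀ χ (σ : GQ), ∀ v ∈ U χ, E.bc (S.ρ σ) v ∈ U χ) ∧ (∀ χ ∈ s, finrank L (U χ) = 2) ∧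
      (∀ χ ∈ s, finrank L (U χ ⊓ Vm E Tm : Submodule L V) = 1) ∧
      (∀ χ ∈ s, ∃ a : ℕ → O, ∀ q : ℕ, q.Prime → q ≠ N → ∀ v ∈ U χ,
        E.bc (S.τ q) v = a q • v) ∧ s.card = t :=
  let ⟨D⟩ := H76M.exists_decomp S hr E hN t hV F hF hs hdim hT hm
  ⟨D.κ, D.s, D.U, D.indep, D.top, D.stable, D.two, D.one, D.scalar, D.card⟩

/-! ## 5. Back to `ℤ_r` and to `J₀(N)` -/

/-- **The conclusions over `ℤ_r`** (`H76M6`; preparations: `H76M4`). `H76M.MainHyp N r S t` says: `T` is
free of rank `2 t`; every `τ q`, `q ≠ N` prime, is a zero of a monic integral polynomial without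
multiple roots; over a finite extension of `ℚ_r` there are never three independent common
eigenvectors for the same eigenvalues. If the multiplicative part `Tm` at `A` has rank at most `t`,
inertia at `A` acts on it by the cyclotomic character, and for `B` above `N` the vectors fixed by
inertia at `B` have rank at most `t`. (Finitely many `τ q` generate the others, `H76M4`; take for `L`
a splitting field of their polynomials, for `O` its valuation ring.) -/
theorem conclusions {N r : ℕ} [Fact r.Prime] {T : Type} [AddCommGroup T] [Module ℤ_[r] T]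
    {S : TateSys N r T} {t : ℕ} (h : H76M.MainHyp N r S t) (hN : N.Prime)
    {A : ValuationSubring Qb} {Tm : Submodule ℤ_[r] T} (hT : MultT S A Tm)
    (ht : finrank ℤ_[r] Tm ≤ t) (hp : (r : ℤ_[r]) ∈ maximalIdeal ℤ_[r]) :
    (∀ σ ∈ A.inertiaSubgroupIn ℚ, ∀ x ∈ Tm, S.ρ σ x = H35.cyc ℤ_[r] hp σ • x) ∧
    ∀ B : ValuationSubring Qb, B.LiesOverPrime N → ∀ F : Submodule ℤ_[r] T,
      (∀ x ∈ F, ∀ σ ∈ B.inertiaSubgroupIn ℚ, S.ρ σ x = x) → finrank ℤ_[r] F ≤ t :=
  H76M.main h hN hT ht hp

/-- **Uniqueness of the coefficient map** (`H76M6`). Two ring homomorphisms from `ℤ_r` to a local ring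
separated for its maximal ideal, which contains `r`, are equal; so the cyclotomic character of `O` is
the image of the one of `ℤ_r`. -/
theorem padic_uniqueness {r : ℕ} [Fact r.Prime] {O : Type} [CommRing O] [IsLocalRing O]
    [Algebra ℤ_[r] O] [IsAdicComplete (maximalIdeal O) O] (hr : (r : O) ∈ maximalIdeal O)
    (hp : (r : ℤ_[r]) ∈ maximalIdeal ℤ_[r]) :
    (∀ f g : ℤ_[r] →+* O, f = g) ∧
      ∀ σ : GQ, H35.cyc O hr σ = algebraMap ℤ_[r] O (H35.cyc ℤ_[r] hp σ) :=
  ⟨H76M.padic_hom_ext hr, H76M.cyc_algebraMap hr hp⟩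

attribute [local instance] ModularCurve.heckeModuleBar

/-- **The hypotheses hold for `J₀(N)`** (`H76M8`), for the data `D` of `tate_module` in
`GuideEisenstein` (`H76M.TateData`: the two actions on the Tate module `H76M.TW` of `W`, free of rank
`2 t`). The polynomials exist because the algebra generated by the `T_q`, `q ≠ N`, on the weight two
forms is finite and reduced (`H54MzD`); the last condition is `multiplicity` in `GuideEisenstein`. -/
theorem hypotheses {N r : ℕ} [NeZero N] [Fact r.Prime] (hN : N.Prime) {t : ℕ}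
    (D : H76M.TateData N r (ModularCurve.JZero N) t) : H76M.MainHyp N r D.S t :=
  H76M.mainHyp hN D

/-- **The multiplicative part** (`H76M7`). `K A ⊆ J` is the kernel of the reduction at `A` (its
properties are `H15.BasicInputs`), and `TK (K A)` are the elements of the Tate module with all
components in `K A`. They form a multiplicative part of `T` at `A` (`MultT`); if the group
`W[r^k] ∩ K A` has at most `C r^(t k)` elements for all `k`, its rank is at most `t`. Here `W[r^k]` is
`H15.WSub N r J k`, and `W`, the union of these groups, is `H76M.Winf N r J`. -/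
theorem multiplicative_part {N r : ℕ} [Fact r.Prime] {J : Type} [AddCommGroup J]
    [Module ModularCurve.HeckeAlg J] [DistribMulAction GQ J]
    {K : ValuationSubring Qb → AddSubgroup J} (hB : H15.BasicInputs N J K) (hrN : ¬ r ∣ N)
    {t : ℕ} (D : H76M.TateData N r J t) {A : ValuationSubring Qb} (hA : A.LiesOverPrime r)
    {C : ℕ} (hC : ∀ k : ℕ, Nat.card ↥(H15.WSub N r J k ⊓ K A) ≤ C * r ^ (t * k)) :
    MultT D.S A (H76M.TK N r J (K A)) ∧ finrank ℤ_[r] (H76M.TK N r J (K A)) ≤ t :=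
  ⟨H76M.multT hB hrN D hA, H76M.finrank_TK_le hB D hC⟩

end Fermat.Agent.Guide.EisensteinTate
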