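import Fermat.Agent.H31C7

/-!
# Guide: elliptic points of order three, and level lowering at `3`

(helper31; library files by helper26 and helper98; one theorem by helper9)

Companion of `GuideLevelsAtP`, section 5, where the results are stated: `three_dvd_ord`,
`restrict_alpha_eq_beta`, `three_dvd_hecke_single`, `dvd_of_eisenstein`, `descent_three`.  The proof
of `restrict_alpha_eq_beta` is in `GuideLevelThree`, sections 5 and 6, that of `dvd_of_eisenstein` in
its section 7.  The other steps of `GuideLevelsAtP` are in `GuideLevelsAtPSteps`.  NOTES.md: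
Section 3.5, [326], [332], [340].  Serves S39 and S40, for `p = 3`.

**The problem.**  Level lowering at `p` is done at an auxiliary level `M`, `M₀ ∣ M ∣ 4 M₀`, divisible
by `4`, because `Γ_0(M)` has no elliptic points then.  The result is a function `g₀` on `X_0(M₀)` in
characteristic `p`, a Hecke eigenfunction up to `p`-th powers, whose orders at the points of
`X_0(M)` are divisible by `p`.  One needs this for its orders at the points of `X_0(M₀)`.  The
degree of `X_0(M) → X_0(M₀)` is a product of factors `2` and `3`, so the case `p ≥ 5` is easy.  Let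
`p = 3`, and let `w` be a point of `X_0(M₀)` in characteristic `3`.

* If `j` is infinite or different from `0` at `w`, there is a point above `w` with ramification index
  prime to `3`: the extension of degree `3` is given by `X³ - j X + 1 = 0` (section 2).
* The zeros of `j` on `X_0(M)` have order `6` in characteristic `3` (section 1).  So, if `j` is zero
  at `w` and its order is divisible by `3`, all ramification indices above `w` are `1` or `2`.
* At the remaining points `j` has order `1` or `2`, and all ramification indices above them are `6`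
  or `3`, so nothing follows directly.  These points are reductions of elliptic points of order `3`
  in characteristic `0` (section 1), and the Hecke operator `T_ℓ` multiplies them by `ℓ + 1` modulo
  `3` (section 3).  Now the divisor of `g₀` is, modulo `3`, a combination of such points, and an
  eigenvector of `T_ℓ`; if the eigenvalue is not `ℓ + 1` for some `ℓ`, it is zero
  (`GuideLevelsAtP.dvd_of_eisenstein`).

**Conventions.**  `FC k M` is the function field of `X_0(M)` over the field `k`, a field of Laurent
series (`GuideLevelsAtP.functionField_eq`); `jX k M` the function `j` in it; `jB M` the same over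
`ℚ̄`.  `α, β : X_0(M ℓ) → X_0(M)` are the two maps (`H17.alphaC`, `H17.betaC` over any field,
`heckeAlphaBar`, `heckeBetaBar` over `ℚ̄`; `β` is `f(q) ↦ f(q^ℓ)`), `w.restrictAlong φ` the image of
the place `w`, `w.ramificationIndexAlong φ` its ramification index, and
`Divisor.correspondence φ ψ` the map `ψ_* φ^*` on divisors; `T_ℓ = α_* β^*`.
-/

set_option autoImplicit false
set_option synthInstance.maxHeartbeats 200000

noncomputable section

open AlgebraicCurve ModularCurve IntermediateField Fermat.Agent

namespace Fermat.Agent.Guide.EllipticPoints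

/- Only to make the file faster to check: prefer the obvious `k`-algebra structure on a subfield of
`k((q))`. -/
attribute [-instance] IsLocalRing.ResidueField.algebra
attribute [local instance 5000] SubalgebraClass.toAlgebra

/-- The field of algebraic numbers. -/
local notation "Qb" => AlgebraicClosure ℚ

/-- The residue field of a place of `ℚ̄`. -/
local notation "κ" => IsLocalRing.ResidueField

/-- The function field of `X_0(N)` over a field. -/
local notation "FC" => modularFunctionFieldFullC

/-- The function `j` on `X_0(N)` over a field. -/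
local notation "jX" => Fermat.Agent.H8.jC

/-- The function `j` on `X_0(N)` over `ℚ̄`. -/
local notation "jB" => Fermat.Agent.H94.jBar

/-! ## 1. The zeros of `j` -/

/-- **The elliptic points of order `3`** in characteristic `0` are the simple zeros of `j` (the other
zeros have order `3`); `H98C.ell3 M` is their sum. -/
theorem elliptic_points (M : ℕ) [NeZero M] (P : Place Qb (modularFunctionFieldBar M)) :
    H98C.ell3 M P = if P.ord (jB M) = 1 then 1 else 0 :=
  H98C.ell3_apply M P

/-- **The order of `j` modulo `3`** (`H98CJ3`).  Let `r` be the reduction map on the places of `X_0(M)`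
at a place `A` of `ℚ̄` whose residue characteristic does not divide `M`, and `Q` a point of the
reduced curve where `j` is finite.  The order of `j` at `Q` is congruent modulo `3` to the number of
elliptic points of order `3` which reduce to `Q`.  (The divisor of zeros of `j` is the sum of the
elliptic points plus a divisor divisible by `3`, and the poles of the reduced `j` are the
reductions of the poles, by degree.) -/
theorem order_of_j_modulo_three {A : ValuationSubring Qb} {M : ℕ} [NeZero M] {k : Type*} [Field k]
    [IsAlgClosed k] (hM : (M : k) ≠ 0) {π : A →+* k}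
    {r : Place Qb (laurentBaseChange Qb (modularFunctionFieldFull M)) → Place k (FC k M)}
    (hr : IsPlaceReductionAlong A π M r) (Q : Place k (FC k M)) (hQ : 0 ≤ Q.ord (jX k M)) :
    (3 : ℤ) ∣ Q.ord (jX k M) - Finsupp.mapDomain r (H98C.ell3 M) Q :=
  H98C.ord_jC_sub_dvd hM hr Q hQ

/-- **The exceptional points** (`H98CJ3`): a point of the reduced curve at which `j` is finite and of
order prime to `3` is the reduction of an elliptic point of order `3`. -/
theorem exceptional_points_are_elliptic {A : ValuationSubring Qb} {M : ℕ} [NeZero M] {k : Type*}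
    [Field k] [IsAlgClosed k] (hM : (M : k) ≠ 0) {π : A →+* k}
    {r : Place Qb (laurentBaseChange Qb (modularFunctionFieldFull M)) → Place k (FC k M)}
    (hr : IsPlaceReductionAlong A π M r) (Q : Place k (FC k M)) (hQ : 0 ≤ Q.ord (jX k M))
    (h3 : ¬ (3 : ℤ) ∣ Q.ord (jX k M)) :
    ∃ P : Place Qb (modularFunctionFieldBar M), r P = Q ∧ P.ord (jB M) = 1 :=
  H98C.exists_ell3_of_not_dvd hM hr Q hQ h3

/-- **Elements of a valuation ring are fractions of integral elements** (`H98CJ3`): if `x` is regular
at the place `v` and `F / K(x)` is finite and separable, every `f` regular at `v` is `n / d` with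
`n`, `d` integral over `K[x]` and `1/d` regular at `v`.  (The integral closure of `K[x]` is a Dedekind
ring and `v` belongs to a prime ideal of it.) -/
theorem fraction_of_integral_elements {K F : Type*} [Field K] [Field F] [Algebra K F] {x : F}
    [FiniteDimensional K⟮x⟯ F] [Algebra.IsSeparable K⟮x⟯ F] (hx : Transcendental K x)
    (v : Place K F) (hxv : x ∈ v.toValuationSubring) {f : F} (hf : f ∈ v.toValuationSubring) :
    ∃ n d : F, IsIntegral (Algebra.adjoin K {x}) n ∧ IsIntegral (Algebra.adjoin K {x}) d ∧
      d ≠ 0 ∧ d⁻¹ ∈ v.toValuationSubring ∧ f * d = n :=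
  H98C.exists_frac hx v hxv hf

/-- **`d/dX` preserves regularity** (`H98CJ3`).  `X` is the Hauptmodul of level `c = 4` or `9`, `c ∣ M`,
with expansion `H1.Xc c`, and `k` has characteristic prime to `M`.  If `f` is regular at a point where
`j` is finite, so is `df/dX`.  (`d/dX` preserves the ring of the functions on `X_0(M)` over `k`
whose poles are cusps, `H18C2Final`; then use `fraction_of_integral_elements`.  `hg`: the genus
of `X_0(M)` over `k` is the genus in characteristic `0`.) -/
theorem derivation_preserves_regularity {A : ValuationSubring Qb} {M : ℕ} [NeZero M] {k : Type*}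
    [Field k] [IsAlgClosed k] {π : A →+* k} [IsLocalHom π] (ι : Qb →+* ℂ)
    (hπ : Function.Surjective π) (hM : (M : k) ≠ 0) (hg : H18.GenusFFEq Qb k M) {c : ℕ}
    (hc : c = 4 ∨ c = 9) (hcM : c ∣ M) {Q : Place k (FC k M)} (hQ : 0 ≤ Q.ord (jX k M)) {f : FC k M}
    (hf : f ∈ Q.toValuationSubring) :
    ∃ h : FC k M, (h : LaurentSeries k) = H1.dX c k (f : LaurentSeries k) ∧
      h ∈ Q.toValuationSubring :=
  H98C.dX_mem_place ι hπ hM hg hc hcM hQ hf

/-- **`X` is a local coordinate** at every point where `j` is finite (`H98CJ3`): the zeros of `X - a`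
there are simple.  (Write `X - a = t g` with a local parameter `t`; if `g` also vanished, the
derivative `1` of `X - a` would vanish.) -/
theorem hauptmodul_is_a_coordinate {A : ValuationSubring Qb} {M : ℕ} [NeZero M] {k : Type*}
    [Field k] [IsAlgClosed k] {π : A →+* k} [IsLocalHom π] (ι : Qb →+* ℂ)
    (hπ : Function.Surjective π) (hM : (M : k) ≠ 0) (hg : H18.GenusFFEq Qb k M) {c : ℕ}
    (hc : c = 4 ∨ c = 9) (hcM : c ∣ M) {Q : Place k (FC k M)} (hQ : 0 ≤ Q.ord (jX k M)) {X : FC k M}
    (hX : (X : LaurentSeries k) = H1.Xc c k) (a : k) : Q.ord (X - algebraMap k _ a) ≤ 1 :=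
  H98C.ord_sub_X_le_one ι hπ hM hg hc hcM hQ hX a

/-- **In characteristic `3` the zeros of `j` have order `6`** if `4 ∣ M`, `3 ∤ M` (`H98CJ3`).  Proof:
`(X - 1)^6 = j X^4 (X + 1)` for the Hauptmodul `X` of level `4` in characteristic `3`, and `X - 1` is
a local parameter at the zeros of `j`. -/
theorem zeros_of_j_have_order_six {A : ValuationSubring Qb} (hA : A.LiesOverPrime 3) {M : ℕ}
    [NeZero M] (h3M : ¬ 3 ∣ M) (h4 : 4 ∣ M) {Q : Place (κ A) (FC (κ A) M)}
    (hQ : 0 < Q.ord (jX (κ A) M)) : Q.ord (jX (κ A) M) = 6 :=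
  H98C.ord_jC_eq_six_residueField hA h3M h4 hQ

/-! ## 2. The extension of degree three -/

/-- **Cubic extensions** (`H98CT3`).  Let `F' / F` be an extension of degree `3` and `Y ∈ F'`, not in
`F`, with `Y³ - j Y + b = 0`.  This is the minimal equation of `Y`, so that `F' = F(Y)` and the norm
of `Y` is `-b`; in characteristic `3` the extension is separable if `j ≠ 0`. -/
theorem cubic_extension {F F' : Type*} [Field F] [Field F'] [Algebra F F'] [Module.Finite F F']
    (hfr : Module.finrank F F' = 3) {j b : F} {Y : F'}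
    (hY : Y ^ 3 - algebraMap F F' j * Y + algebraMap F F' b = 0)
    (hYF : ∀ x : F, algebraMap F F' x ≠ Y) :
    minpoly F Y = Polynomial.X ^ 3 - Polynomial.C j * Polynomial.X + Polynomial.C b ∧ F⟮Y⟯ = ⊤ ∧
      Algebra.norm F Y = -b ∧ ∀ [CharP F 3], j ≠ 0 → Algebra.IsSeparable F F' :=
  ⟨(H98C.cubic_minpoly hfr hY hYF).1, (H98C.cubic_minpoly hfr hY hYF).2,
    H98C.cubic_norm hfr hY hYF, fun hj => H98C.cubic_separable hfr hj hY hYF⟩

/-- **The extension `X³ - j X + 1 = 0` is not totally ramified** where `j ≠ 0`, in characteristic `3`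
(`H98CT3`): above a place `w` at which `j` has order `≤ 0` there is a place with ramification index
prime to `3`.  Proof: otherwise there is only one place `w₁` above `w`.  The norm of `X` is `-1`, so
`X` is a unit at `w₁`, and `j` is finite at `w`.  If `a ≠ 0` is its value, `x³ - a x + 1` has three
different roots; let `x₁` be one which is not the value of `X` at `w₁`.  Then `X - x₁` is a unit at
`w₁`, but its norm `-(x₁³ - j x₁ + 1)` vanishes at `w`. -/
theorem not_totally_ramified {K F F' : Type*} [Field K] [IsAlgClosed K] [CharP K 3] [Field F]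
    [Field F'] [Algebra K F] [Algebra K F'] [Algebra F F'] [IsScalarTower K F F']
    [Module.Finite F F'] [H3RR.IsFF K F'] [H3RR.IsFF K F] [HasPrincipalDivisors K F']
    (hfr : Module.finrank F F' = 3) {j : F} {X : F'} (hX : X ^ 3 - algebraMap F F' j * X + 1 = 0)
    (hXF : ∀ x : F, algebraMap F F' x ≠ X) (w : Place K F) (hj0 : j ≠ 0) (hw : w.ord j ≤ 0) :
    ∃ w' : Place K F', w'.restrict F = w ∧ ¬ 3 ∣ w'.ramificationIndex F :=
  H98C.exists_place_not_dvd hfr hX hXF w hj0 hw

/-- **Degrees** (`H98CT3`): the degree of `X_0(M') → X_0(M)` over `k` is the quotient of the indices of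
`Γ_0(M')` and `Γ_0(M)` (Dedekind's `ψ`), if the characteristic does not divide `M'`. -/
theorem degree_of_levels {k : Type*} [Field k] [IsAlgClosed k] {M M' d : ℕ} [NeZero M] [NeZero M']
    (hdvd : M ∣ M') (hM' : (M' : k) ≠ 0) (hd : dedekindPsi M' = d * dedekindPsi M) :
    relfinrank (FC k M) (FC k M') = d :=
  H98C.relfinrank_level hdvd hM' hd

/-- **From level `R` to level `2 R`**, `R` odd, in characteristic `3` (`H98CT3`): above a point `w` of
`X_0(R)` at which `j` has order `≤ 0` there is a point `w'` of `X_0(2 R)` with ramification index `e`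
prime to `3`.  Proof: `not_totally_ramified` for `X = 1/t`, where `t` is the Hauptmodul of level `2`
with `(t + 256)³ = j t²`. -/
theorem exists_point_at_double_level {k : Type*} [Field k] [IsAlgClosed k] [CharP k 3] {R : ℕ}
    [NeZero R] [NeZero (2 * R)] (h2 : ¬ 2 ∣ R) (hR : ((2 * R : ℕ) : k) ≠ 0) (w : Place k (FC k R))
    (hw : w.ord (jX k R) ≤ 0) :
    ∃ (w' : Place k (FC k (2 * R))) (e : ℕ), ¬ 3 ∣ e ∧ 0 < e ∧
      ∀ (f : FC k R) (f' : FC k (2 * R)),
        (f : LaurentSeries k) = f' → w'.ord f' = e * w.ord f :=
  H98C.exists_place_two h2 hR w hw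

/-! ## 3. Hecke operators

The starting point is `GuideLevelsAtP.restrict_alpha_eq_beta`: in characteristic `0` a point of
`X_0(M ℓ)` at which `j` has a simple zero has the same image in `X_0(M)` under `α` and `β`.  Its proof
is in `GuideLevelThree`, sections 5 and 6. -/

/-- **A correspondence applied to a point** (`H9Hecke`).  For `φ, ψ : X' → X` and a point `v` of `X`,
`ψ_* φ^* v` is the sum of the points `ψ(w)`, `w` above `v` (under `φ`), with the ramification indices of
`φ` as multiplicities. -/
theorem correspondence_of_a_point {K F F' : Type*} [Field K] [Field F] [Field F'] [Algebra K F]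
    [Algebra K F'] [HasPrincipalDivisors K F'] (φ ψ : F →ₐ[K] F') (hφ : φ.toRingHom.IsIntegral)
    (hψ : ψ.toRingHom.IsIntegral) (hdeg : ∀ w : Place K F', w.deg = 1) (v : Place K F) :
    Divisor.correspondence φ ψ hφ hψ (Finsupp.single v 1) =
      ∑ w ∈ Place.fiberAlong φ hφ v,
        Finsupp.single (w.restrictAlong ψ hψ) (w.ramificationIndexAlong φ : ℤ) :=
  H9.correspondence_single φ ψ hφ hψ hdeg v

/-- **A correspondence at a point** (`H26CEll`).  Let `φ, ψ : X' → X` be two maps of curves and `P` a
point of `X` such that every point above `P` (under `φ`) has a ramification index divisible by `p`,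
or is mapped to `P` by `ψ`.  Then `ψ_* φ^* P ≡ deg(φ) P` modulo `p`. -/
theorem correspondence_at_a_point {K F F' : Type*} [Field K] [Field F] [Field F'] [Algebra K F]
    [Algebra K F'] [HasPrincipalDivisors K F'] (φ ψ : F →ₐ[K] F') (hφ : φ.toRingHom.IsIntegral)
    (hψ : ψ.toRingHom.IsIntegral) (hFI : FundamentalIdentityAlong K φ hφ)
    (hdeg : ∀ w : Place K F', w.deg = 1) (p : ℤ) (P : Place K F) (hP : P.deg = 1)
    (h : ∀ Q : Place K F', Q.restrictAlong φ hφ = P →
      p ∣ (Q.ramificationIndexAlong φ : ℤ) ∨ Q.restrictAlong ψ hψ = P) (w : Place K F) :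
    p ∣ Divisor.correspondence φ ψ hφ hψ (Finsupp.single P 1) w -
      (finrankAlong K φ : ℤ) * (Finsupp.single P (1 : ℤ) : Divisor K F) w :=
  H26C.dvd_correspondence_single φ ψ hφ hψ hFI hdeg p P hP h w

/-- **The two cases** (`H26CEll`).  Let `Q` be a point of `X_0(M ℓ)` in characteristic `0`, `ℓ ∤ M`, at
which `j(q^ℓ) = β^* j` vanishes.  Its order there is `1` or `3`; if it is `1`, then `α(Q) = β(Q)`.
(Apply the Atkin-Lehner involution `w_ℓ` to `GuideLevelsAtP.restrict_alpha_eq_beta`.) -/
theorem points_above {M ℓ : ℕ} [NeZero M] [NeZero ℓ] (hℓ : ℓ.Prime) (hℓM : ¬ ℓ ∣ M)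
    (hα : (heckeAlphaBar Qb M ℓ).toRingHom.IsIntegral)
    (hβ : (heckeBetaBar Qb M ℓ).toRingHom.IsIntegral)
    (Q : Place Qb (modularFunctionFieldBar (M * ℓ)))
    (hQ : 0 < Q.ord (heckeBetaBar Qb M ℓ (jB M))) :
    (Q.ord (heckeBetaBar Qb M ℓ (jB M)) = 1 ∧
        Q.restrictAlong (heckeAlphaBar Qb M ℓ) hα = Q.restrictAlong (heckeBetaBar Qb M ℓ) hβ) ∨
      Q.ord (heckeBetaBar Qb M ℓ (jB M)) = 3 :=
  (H26C.ord_beta_cases hℓ hℓM Q hQ).imp (fun h => ⟨h, H26C.restrict_eq hℓ hℓM hα hβ Q h⟩) id

/-- **`T_ℓ P ≡ (ℓ + 1) P` modulo `3`** for an elliptic point `P` of order `3` in characteristic `0`,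
`ℓ ∤ M` (`H26CEll`).  (For a point `Q` with `β(Q) = P` the ramification index of `β` is the order of
`j(q^ℓ)` at `Q`; use the two preceding theorems.) -/
theorem hecke_at_an_elliptic_point {M ℓ : ℕ} [NeZero M] [NeZero ℓ] (hℓ : ℓ.Prime) (hℓM : ¬ ℓ ∣ M)
    [HasPrincipalDivisors Qb (modularFunctionFieldBar (M * ℓ))]
    (hα : (heckeAlphaBar Qb M ℓ).toRingHom.IsIntegral)
    (hβ : (heckeBetaBar Qb M ℓ).toRingHom.IsIntegral)
    {P : Place Qb (modularFunctionFieldBar M)} (hP : P.ord (jB M) = 1)
    (w : Place Qb (modularFunctionFieldBar M)) :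
    (3 : ℤ) ∣ Divisor.correspondence (heckeBetaBar Qb M ℓ) (heckeAlphaBar Qb M ℓ) hβ hα
        (Finsupp.single P 1) w -
      ((ℓ : ℤ) + 1) * (Finsupp.single P (1 : ℤ) : Divisor Qb (modularFunctionFieldBar M)) w :=
  H26C.dvd_hecke_ell3 hℓ hℓM hα hβ hP w

/-- **Reduction commutes with `T_ℓ`** on divisors (`H26CEll`, from `H17HkMain`): for a place `A` over a
prime `q ∤ M ℓ` there is a reduction map `r` on the points of `X_0(M)` with `T_ℓ (r D) = r (T_ℓ D)`.
With the preceding theorem and `exceptional_points_are_elliptic` this proves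
`GuideLevelsAtP.three_dvd_hecke_single`. -/
theorem reduction_commutes_with_hecke {A : ValuationSubring Qb} (M ℓ : ℕ) [NeZero M] [NeZero ℓ]
    (hℓ : ℓ.Prime) {q : ℕ} (hq : q.Prime) (hA : A.LiesOverPrime q) (hqM : ¬ q ∣ M * ℓ)
    [IsAlgClosed (κ A)] [H94.FunField (κ A) (FC (κ A) M)]
    [H94.FunField (κ A) (FC (κ A) (M * ℓ))]
    [HasPrincipalDivisors Qb (modularFunctionFieldBar (M * ℓ))]
    [HasPrincipalDivisors (κ A) (FC (κ A) (M * ℓ))]
    (hα : (heckeAlphaBar Qb M ℓ).toRingHom.IsIntegral)
    (hβ : (heckeBetaBar Qb M ℓ).toRingHom.IsIntegral)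
    (hα' : (H17.alphaC (κ A) M ℓ).toRingHom.IsIntegral)
    (hβ' : (H17.betaC (κ A) M ℓ).toRingHom.IsIntegral) :
    ∃ r : Place Qb (modularFunctionFieldBar M) → Place (κ A) (FC (κ A) M),
      IsPlaceReductionAlong A (IsLocalRing.residue A) M r ∧
      ∀ D : Divisor Qb (modularFunctionFieldBar M),
        Divisor.correspondence (H17.betaC (κ A) M ℓ) (H17.alphaC (κ A) M ℓ) hβ' hα'
            (Finsupp.mapDomain r D) =
          Finsupp.mapDomain r (Divisor.correspondence (heckeBetaBar Qb M ℓ)
            (heckeAlphaBar Qb M ℓ) hβ hα D) :=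
  H26C.exists_reduction M ℓ hℓ hq hA hqM hα hβ hα' hβ'

end Fermat.Agent.Guide.EllipticPoints
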