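import Fermat.Agent.S01
import Fermat.Agent.H4FreySemistable

/-!
# Guide to the proof: the endgame (S01 from the main theorems)

This file is a reader's guide which is checked by Lean.  It contains no new mathematics: every theorem is a
theorem of the library with its statement written out in full.  Together they are the first page of the
proof of Fermat's Last Theorem (`fermat_last_theorem`, the frozen statement S01):

    S01  Fermat's Last Theorem           n = 3, 4 (Mathlib), S02 and S03         `fermat_of_no_frey_package`
    S02  a solution gives a Frey package elementary                              `frey_package_of_solution`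
    S03  there is no Frey package        from S04, S09, S45, S07                 `no_frey_package_of`
    S45  a cusp form of level 2          from S05, S06, S43, S44, S08            `level_two`
    S07, S08  no forms of level 2 and 1  norm to level one                       `no_forms_of_level_two`
    S09  E[p] is irreducible             from S10, S11, S12, S13                 `frey_irreducible_of`
    S10, S11  exponents 5, 7, 11, 13     Kummer's theorem for these exponents    `no_small_exponent`
    S12  no cofixed line if p >= 17      Mazur's theorem, on J_0(N), no schemes  `mazur`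
    S13  reducible: cofixed line         Gauss' lemma, Minkowski, 2-adic step    `cofixed_line_of_reducible`
    S04, S06  E and E[p] are modular     from the modularity of even curves      `frey_modular`, `..._mod_p`
    even semistable curves are modular   from the next four                      `even_modular_of`
      residual modularity modulo 3       2-adic argument, binary theta products  `residual_even` (block LT)
      modularity lifting at 3 and 5      Taylor-Wiles, one patching (S59SQ)      `modularity_lifting`
      W[3] or W[5] is irreducible (S51)  elimination and descent                 `irreducible_three_or_five`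
      3-5 switch with control            explicit family, Runge's method         `switch_three_five`
    S43  removing q different from p     Mazur's principle, Taylor-Wiles-Kisin   `level_lowering`
    S44  removing p                      functions on X_0(M p)                   `level_lowering_at_p`
    S05  E[p] is unramified at q         Kummer relation, no Tate curve          `unramified_outside_two_p`

Section 1 describes the Frey curve, section 2 contains the implications which form the frame of the proof,
section 3 the modularity of semistable curves with even discriminant, section 4 the theorems about Frey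
packages and S01.  Everything in this file is in the closure of S01.  The library files `S03`, `S04`, `S06`,
`S10`, `S11` consist of the frozen statement and a citation of the theorem of this file; `S45` consists of
`even_modular`, S43, S44 and the wiring of section 2, and `S52` is `switch_three_five` without the control.

NOTIONS.  All notions are those of the frozen statements (`Fermat/Prelude`); `GuideNotions` unfolds each of
them by a theorem.  In short: a Frey package is a solution `a ^ p + b ^ p = c ^ p` in nonzero integers with a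
prime `p ≥ 5`, `a`, `b` coprime, `a ≡ 3 mod 4`, `b` even; `E = P.freyCurve` is its Frey curve over `ℚ`.
`GaloisRepIsIrreducible ℚ E p`: `E[p]` over an algebraic closure of `ℚ` is not zero and has no Galois stable
subgroups except `0` and `E[p]`.  `HasGaloisStableCofixedLine ℚ E p`: `E[p]` has a Galois stable subgroup
different from `0` and `E[p]` such that the action on the quotient is trivial.  `P.GaloisRepUnramifiedAt q`:
all inertia groups over `q` act trivially on `E[p]`.  `P.IsConductorLevel N`: `N` is squarefree and positive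
and its prime divisors divide `a b c`.  `P.ModularRepOfLevel N`: there are a normalised eigenform `f` of
weight 2 on `Γ₀(N)`, a Weierstrass equation `W` of `E` over `ℤ` and a maximal ideal over `p` modulo which
`a_l(f) ≡ a_l(W)` for all primes `l` not dividing `p N Δ(W)`; `W.IsResiduallyModularOfLevel p M` is the same
for a given Weierstrass equation `W` over `ℤ` and level `M`.  `W.IsSemistableModel`: no prime divides both
`Δ(W)` and `c₄(W)`.  `W.IsGoodPrimeFor l`: `l ∤ Δ(W)`.  `W.apOfModel l = l + 1 - #W(𝔽_l)`.
`W.ModRepIsIrreducible p`: `W[p]` is irreducible.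
`Mlc1IsModularModelOfExactConductorLevel W`: there is a normalised eigenform of weight 2 on `Γ₀(N)`, `N` the
product of the primes dividing `Δ(W)`, with `l`-th coefficient `a_l(W)` for all primes `l ∤ N`.

The other guide files start where this one ends: `GuideFermatSmall`, `GuideFrey`, `GuideCurves`,
`GuideMazur`, `GuideLevels`, `GuideResidual`, `GuideSwitch`, `GuideLifting`, `GuideModularForms`.  The list
of all files, with the main line, is in `Guide`.
Notes: sections 2 and 3.1 of NOTES.md, notes [229] and [111] of its Appendix A.1.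
Texts of helper38, helper42, helper3, helper23 and helper4.
-/

set_option autoImplicit false

open WeierstrassCurve WeierstrassCurve.Affine WeierstrassCurve.Affine.Point

namespace Fermat.Agent.Guide.Endgame

/-- An algebraic closure of `ℚ`. -/
local notation "Qb" => AlgebraicClosure ℚ

/-! ## Section 1: the Frey curve

`P.freyCurveInt` is the Weierstrass equation `y² + x y = x³ + ((b^p - 1 - a^p)/4) x² - (a^p b^p/16) x` over
`ℤ` and `P.freyCurve` the same equation over `ℚ`. -/

/-- **The integral model of the Frey curve**: the divisions in its coefficients are exact (`a ^ p ≡ -1 mod 4`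
and `32 ∣ b ^ p`), and over `ℚ` it is the Frey curve; `2⁸ Δ = (a ^ p b ^ p c ^ p)²`, so `Δ ≠ 0`, and
`c₄ = a^{2p} + a^p b^p + b^{2p}`.  Library: `H4FreySemistable` (helper4). -/
theorem frey_equation (P : FreyPackage) :
    4 * P.freyCurveInt.a₂ = P.b ^ P.p - 1 - P.a ^ P.p ∧
      16 * P.freyCurveInt.a₄ = -(P.a ^ P.p) * (P.b ^ P.p) ∧
      P.freyCurveInt.map (Int.castRingHom ℚ) = P.freyCurve ∧
      256 * P.freyCurveInt.Δ = (P.a ^ P.p * P.b ^ P.p * P.c ^ P.p) ^ 2 ∧
      P.freyCurveInt.c₄ = (P.a ^ P.p) ^ 2 + P.a ^ P.p * P.b ^ P.p + (P.b ^ P.p) ^ 2 :=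
  ⟨H4.freyCurveInt_a₂_mul P, H4.freyCurveInt_a₄_mul P, H4.freyCurveInt_map P, H4.freyCurveInt_Δ P,
    H4.freyCurveInt_c₄ P⟩

/-- **The Frey curve is semistable with even discriminant**: `Δ ≠ 0`, no prime divides `Δ` and `c₄` of the
integral model, and `2 ∣ Δ`.  So the theorems of section 3 apply.  Library: `H4FreySemistable`,
`H88LTRoot`. -/
theorem frey_semistable_even (P : FreyPackage) :
    P.freyCurveInt.Δ ≠ 0 ∧ P.freyCurveInt.IsSemistableModel ∧ (2 : ℤ) ∣ P.freyCurveInt.Δ :=
  ⟨H4.freyCurveInt_Δ_ne_zero P, H4.freyCurveInt_isSemistableModel P,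
    H88.LTW.two_dvd_freyCurveInt_Δ P⟩

/-! ## Section 2: the frame of the proof

The theorems of this section have the main theorems as hypotheses; their proofs are short. -/

/-- **S02**: a solution of the Fermat equation with a prime exponent `p ≥ 5` gives a Frey package (divide by
the common divisor, permute `a`, `b`, `-c` and change signs). -/
theorem frey_package_of_solution (a b c : ℤ) (ha : a ≠ 0) (hb : b ≠ 0) (hc : c ≠ 0) (p : ℕ)
    (pp : p.Prime) (hp5 : 5 ≤ p) (H : a ^ p + b ^ p = c ^ p) : Nonempty FreyPackage :=
  S02.result a b c ha hb hc p pp hp5 H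

/-- **S01 from S02 and S03**: if every solution with prime exponent at least `5` gives a Frey package and
there is no Frey package, then Fermat's Last Theorem holds; the exponents `3` and `4` are theorems of
Mathlib.  Library: `H1Root`. -/
theorem fermat_of_no_frey_package
    (S02 : ∀ a b c : ℤ, a ≠ 0 → b ≠ 0 → c ≠ 0 → ∀ p : ℕ, p.Prime → 5 ≤ p →
      a ^ p + b ^ p = c ^ p → Nonempty FreyPackage)
    (S03 : FreyPackage → False) (n : ℕ) (hn : 3 ≤ n) (a b c : ℕ) (ha : 0 < a) (hb : 0 < b)
    (hc : 0 < c) : a ^ n + b ^ n ≠ c ^ n :=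
  H1.flt_of_freyPackage S02 S03 n hn a b c ha hb hc

/-- **S03 from S04, S09, S45 and S07**: the Frey curve is modular (S04) and its `p`-torsion is irreducible
(S09); then level lowering gives a nonzero cusp form of weight two on `Γ₀(2)` (S45); there is none (S07).
Library: `H3Wiring`. -/
theorem no_frey_package_of
    (S04 : ∀ P : FreyPackage, P.freyCurve.IsModular)
    (S09 : ∀ P : FreyPackage, GaloisRepIsIrreducible (K := Qb) ℚ P.freyCurve P.p)
    (S45 : ∀ P : FreyPackage, P.freyCurve.IsModular →
      GaloisRepIsIrreducible (K := Qb) ℚ P.freyCurve P.p →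
      ∃ f : CuspForm (CongruenceSubgroup.Gamma0 2) 2, f ≠ 0)
    (S07 : ∀ f : CuspForm (CongruenceSubgroup.Gamma0 2) 2, f = 0) (P : FreyPackage) : False :=
  H3Wiring.S03_of S04 S09 S45 S07 P

/-- **S09 from S10, S11, S12, S13**: if the `p`-torsion of the Frey curve were reducible, it would have a
cofixed line (S13).  This is impossible for `p = 5, 7, 13` (S10), `p = 11` (S11) and `p ≥ 17` (S12).
Library: `H3Wiring`. -/
theorem frey_irreducible_of
    (S10 : ∀ P : FreyPackage, P.p = 5 ∨ P.p = 7 ∨ P.p = 13 →
      ¬ HasGaloisStableCofixedLine (K := Qb) ℚ P.freyCurve P.p)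
    (S11 : ∀ P : FreyPackage, P.p = 11 → ¬ HasGaloisStableCofixedLine (K := Qb) ℚ P.freyCurve P.p)
    (S12 : ∀ P : FreyPackage, 17 ≤ P.p → ¬ HasGaloisStableCofixedLine (K := Qb) ℚ P.freyCurve P.p)
    (S13 : ∀ P : FreyPackage, ¬ GaloisRepIsIrreducible (K := Qb) ℚ P.freyCurve P.p →
      HasGaloisStableCofixedLine (K := Qb) ℚ P.freyCurve P.p) (P : FreyPackage) :
    GaloisRepIsIrreducible (K := Qb) ℚ P.freyCurve P.p :=
  H3Wiring.S09_of S10 S11 S12 S13 P

/-- **S45 from S05, S06, S43, S44, S08: the descent of the level.**  The mod `p` representation of the Frey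
curve is modular of some conductor level `N` (S06).  A prime `q ≠ 2, p` of the level is removed by Ribet's
theorem (S43; the representation is unramified at `q` by S05), the prime `p` by S44 (without a condition on
`E[p]` at `p`); the prime `2` stays.  By induction the level becomes a divisor of `2`; level `1` is
impossible (S08).  (The hypothesis `hmod` is that of the frozen statement; the proof uses S06 instead.)
Library: `H3Wiring`. -/
theorem level_two
    (S05 : ∀ (P : FreyPackage) {q : ℕ}, q.Prime → q ≠ 2 → q ≠ P.p → P.GaloisRepUnramifiedAt q)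
    (S06 : ∀ P : FreyPackage, ∃ N : ℕ, P.IsConductorLevel N ∧ P.ModularRepOfLevel N)
    (S43 : ∀ (P : FreyPackage) {N q : ℕ}, P.IsConductorLevel N → q.Prime → q ≠ 2 → q ≠ P.p → q ∣ N →
      GaloisRepIsIrreducible (K := Qb) ℚ P.freyCurve P.p → P.ModularRepOfLevel N →
      P.GaloisRepUnramifiedAt q → ∃ M : ℕ, M ∣ N ∧ ¬ q ∣ M ∧ P.ModularRepOfLevel M)
    (S44 : ∀ (P : FreyPackage) {N : ℕ}, P.IsConductorLevel N → P.p ∣ N →
      GaloisRepIsIrreducible (K := Qb) ℚ P.freyCurve P.p → P.ModularRepOfLevel N →
      ∃ M : ℕ, M ∣ N ∧ ¬ P.p ∣ M ∧ P.ModularRepOfLevel M)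
    (S08 : ∀ f : CuspForm (CongruenceSubgroup.Gamma0 1) 2, f = 0)
    (P : FreyPackage) (hmod : P.freyCurve.IsModular)
    (hirr : GaloisRepIsIrreducible (K := Qb) ℚ P.freyCurve P.p) :
    ∃ f : CuspForm (CongruenceSubgroup.Gamma0 2) 2, f ≠ 0 :=
  H3Wiring.S45_of S05 S06 S43 S44 S08 P hmod hirr

/-! ## Section 3: semistable curves with even discriminant are modular -/

/-- **Residual modularity modulo 3 of the even curves** (block LT; it replaces the theorem of Langlands and
Tunnell).  For every semistable curve `W` with even discriminant `W[3]` is modular of some squarefree level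
`M`, which is divisible by `3` or `5` only if `Δ` is.  Library: `H49LTA`; the proof passes to a 3-congruent
curve with dihedral 2-torsion, whose modularity is proved 2-adically.  See `GuideResidual`. -/
theorem residual_even (W : WeierstrassCurve ℤ) (hΔ : W.Δ ≠ 0) (hW : W.IsSemistableModel)
    (h2 : (2 : ℤ) ∣ W.Δ) :
    ∃ M : ℕ, 0 < M ∧ Squarefree M ∧ (3 ∣ M → (3 : ℤ) ∣ W.Δ) ∧ (5 ∣ M → (5 : ℤ) ∣ W.Δ) ∧
      W.IsResiduallyModularOfLevel 3 M :=
  H49.LTF.ltA W hΔ hW h2

/-- **Modularity lifting** (Wiles, Taylor-Wiles) for `p = 3` and `p = 5`: a semistable curve with `W[p]`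
irreducible such that `W[p]` is modular of a squarefree level (prime to `p` if `W` is good at `p`) is modular
of its exact conductor level.  Library: `H57S59sq` (block S59SQ).  See `GuideLifting`. -/
theorem modularity_lifting (p : ℕ) (hp : p = 3 ∨ p = 5) (W : WeierstrassCurve ℤ) (hΔ : W.Δ ≠ 0)
    (hW : W.IsSemistableModel) (hirr : W.ModRepIsIrreducible p) (M : ℕ) (hM : Squarefree M)
    (hpM : W.IsGoodPrimeFor p → ¬ p ∣ M) (hres : W.IsResiduallyModularOfLevel p M) :
    Mlc1IsModularModelOfExactConductorLevel W :=
  H57.S59.s59sq p hp W hΔ hW hirr M hM hpM hres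

/-- **For a semistable curve `W[3]` or `W[5]` is irreducible** (S51).  If both were reducible, elimination
from the equations for rational lines in `W[3]` and `W[5]` would give a rational point of a curve of genus
one, `w² + 4 = u²`, `w² + 64 = v²` (isogenous to `X_0(15)`); its rational points are found by descent and
give no semistable curve.  See `GuideSwitch`.  Library: `H51Extract`, `H75S51Core`, `S51`. -/
theorem irreducible_three_or_five (W : WeierstrassCurve ℤ) (hΔ : W.Δ ≠ 0)
    (hW : W.IsSemistableModel) : W.ModRepIsIrreducible 3 ∨ W.ModRepIsIrreducible 5 :=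
  S51.result W hΔ hW

/-- **The 3-5 switch with control.**  For every semistable `W` there is a semistable `W'` with
`a_l(W') ≡ a_l(W) mod 5` at all common good primes `l ≠ 5` and `W'[3]` irreducible; moreover
`Δ(W) ∣ Δ(W')` (so `W'` is even if `W` is), and `5 ∣ Δ(W')` only if `5 ∣ Δ(W)`.  See `GuideSwitch`.
Library: `H98*`, `H52Switch` (an explicit family of 5-congruent curves and Runge's method), in this form
`H42XSwitch5`. -/
theorem switch_three_five (W : WeierstrassCurve ℤ) (hΔ : W.Δ ≠ 0) (hW : W.IsSemistableModel) :
    ∃ W' : WeierstrassCurve ℤ, W.Δ ∣ W'.Δ ∧ W'.Δ ≠ 0 ∧ W'.IsSemistableModel ∧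
      W'.ModRepIsIrreducible 3 ∧
      (∀ l : ℕ, l.Prime → W.IsGoodPrimeFor l → W'.IsGoodPrimeFor l → l ≠ 5 →
        (5 : ℤ) ∣ (W'.apOfModel l - W.apOfModel l)) ∧
      ((5 : ℤ) ∣ W'.Δ → (5 : ℤ) ∣ W.Δ) :=
  H42X.s52Ext W hΔ hW

/-- Modularity of a curve congruent to `W` modulo `p` gives modularity of `W[p]`, of squarefree level, prime
to `p` if `W` is good at `p`.  Library: `H42XMain`. -/
theorem residual_of_congruence {W W' : WeierstrassCurve ℤ} {p : ℕ} (hp : p.Prime)
    (h : Mlc1IsModularModelOfExactConductorLevel W')
    (hcong : ∀ l : ℕ, l.Prime → W.IsGoodPrimeFor l → W'.IsGoodPrimeFor l → l ≠ p →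
      (p : ℤ) ∣ (W'.apOfModel l - W.apOfModel l))
    (hpΔ : (p : ℤ) ∣ W'.Δ → (p : ℤ) ∣ W.Δ) :
    ∃ N : ℕ, 0 < N ∧ Squarefree N ∧ W.IsResiduallyModularOfLevel p N ∧
      (W.IsGoodPrimeFor p → ¬ p ∣ N) :=
  H42X.residual_of_exact hp h hcong hpΔ

/-- **The deduction**: residual modularity modulo 3 of the even curves and modularity lifting at `3` and `5`
imply that the semistable curves with even discriminant are modular.  (If `W[3]` is irreducible, lift at `3`.
Otherwise `W[5]` is; take `W'` from the switch; `W'` is modular because `W'[3]` is irreducible and `Δ(W')` is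
even; so `W[5]` is modular, lift at `5`.)  Library: `H42XFinal`. -/
theorem even_modular_of
    (hLT : ∀ W : WeierstrassCurve ℤ, W.Δ ≠ 0 → W.IsSemistableModel → (2 : ℤ) ∣ W.Δ →
      W.ModRepIsIrreducible 3 →
      ∃ M : ℕ, 0 < M ∧ Squarefree M ∧ (3 ∣ M → (3 : ℤ) ∣ W.Δ) ∧ W.IsResiduallyModularOfLevel 3 M)
    (h3 : ∀ W : WeierstrassCurve ℤ, W.Δ ≠ 0 → W.IsSemistableModel → W.ModRepIsIrreducible 3 →
      ∀ (M : ℕ) [NeZero M], Squarefree M → W.IsResiduallyModularOfLevel 3 M →
      (W.IsGoodPrimeFor 3 → ¬ 3 ∣ M) → Mlc1IsModularModelOfExactConductorLevel W)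
    (h5 : ∀ W : WeierstrassCurve ℤ, W.Δ ≠ 0 → W.IsSemistableModel → W.ModRepIsIrreducible 5 →
      ∀ (M : ℕ) [NeZero M], Squarefree M → W.IsResiduallyModularOfLevel 5 M →
      (W.IsGoodPrimeFor 5 → ¬ 5 ∣ M) → Mlc1IsModularModelOfExactConductorLevel W)
    (W : WeierstrassCurve ℤ) (hΔ : W.Δ ≠ 0) (hW : W.IsSemistableModel) (h2 : (2 : ℤ) ∣ W.Δ) :
    Mlc1IsModularModelOfExactConductorLevel W :=
  H42X.evenExact_of hLT h3 h5 W hΔ hW h2

/-- **Semistable curves with even discriminant are modular**, of exact conductor level.  This is all that is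
needed for Fermat's Last Theorem, because the Frey curve has even discriminant.  (That every semistable curve
over `ℚ` is modular, S60, is deduced afterwards, see `GuideResidualThree`.)
Library: `H42Last`, `H42XClose`. -/
theorem even_modular (W : WeierstrassCurve ℤ) (hΔ : W.Δ ≠ 0) (hW : W.IsSemistableModel)
    (h2 : (2 : ℤ) ∣ W.Δ) : Mlc1IsModularModelOfExactConductorLevel W :=
  H42X.even_exact W hΔ hW h2

/-! ## Section 4: the theorems about Frey packages, and Fermat's Last Theorem -/

/-- **No cusp forms of weight two and level 1** (S08). -/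
theorem no_forms_of_level_one (f : CuspForm (CongruenceSubgroup.Gamma0 1) 2) : f = 0 :=
  S08.result f

/-- **No cusp forms of weight two and level 2** (S07): the norm of `f` to level one is a cusp form of weight
`6` for the full modular group, and there are none except `0`. -/
theorem no_forms_of_level_two (f : CuspForm (CongruenceSubgroup.Gamma0 2) 2) : f = 0 :=
  S07.result f

/-- **There is no Frey package with exponent 5, 7, 11 or 13**: Kummer's proof of Fermat's Last Theorem for
these exponents (the class number of `ℚ(ζ_p)` is one).  It implies S10 and S11.  Library: `H2FLTSmall`.  See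
`GuideFermatSmall`. -/
theorem no_small_exponent (P : FreyPackage) (hp : P.p = 5 ∨ P.p = 7 ∨ P.p = 11 ∨ P.p = 13) :
    False :=
  H2.frey_small_false P hp

/-- **Mazur's theorem for the Frey curve** (S12): for `p ≥ 17` there is no cofixed line in `E[p]`.  Library:
`H12Final` (reduction to S15) and `H15Main` (S15, block MAZUR: divisor classes and functions on `X_0(N)`
only, no group schemes).  See `GuideMazur`. -/
theorem mazur (P : FreyPackage) (hp : 17 ≤ P.p) :
    ¬ HasGaloisStableCofixedLine (K := Qb) ℚ P.freyCurve P.p :=
  S12.result P hp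

/-- **A reducible `E[p]` has a cofixed line** (S13).  Let `L` be a stable line.  By Gauss' lemma for the
`p`-th division polynomial, whose leading coefficient is `p`, all points of `L` or all `p`-torsion points
outside `L` have integral `x`-coordinate; then all inertia groups, and by Minkowski's theorem the Galois
group, act trivially on `L` or on `E[p]/L`.  The first case is excluded by a 2-adic argument.  Library:
`H13Assembly`, `H73Frey`, `H63Minkowski`.  See `GuideFrey`. -/
theorem cofixed_line_of_reducible (P : FreyPackage)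
    (hred : ¬ GaloisRepIsIrreducible (K := Qb) ℚ P.freyCurve P.p) :
    HasGaloisStableCofixedLine (K := Qb) ℚ P.freyCurve P.p :=
  S13.result P hred

/-- **`E[p]` is irreducible** (S09), given Mazur's theorem S12.  Library: `H42XRoot`, `H3Wiring`. -/
theorem frey_irreducible (P : FreyPackage) : GaloisRepIsIrreducible (K := Qb) ℚ P.freyCurve P.p :=
  H42X.S09_of S12.result P

/-- **`E[p]` is unramified at the primes `q ≠ 2, p`** (S05).  At a prime `q ∣ a b c` the exponent of `q` in
the discriminant is divisible by `p`, and the relation between `x(P)`, `x(Q)`, `x(P + Q)`, `x(P - Q)`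
determines the valuations of the `x`-coordinates of the `p`-torsion points; no Tate curve.  Library:
`H72Frey`, `H05_FreyGood`.  See `GuideFrey`. -/
theorem unramified_outside_two_p (P : FreyPackage) {q : ℕ} (hq : q.Prime) (hq2 : q ≠ 2)
    (hqp : q ≠ P.p) : P.GaloisRepUnramifiedAt q :=
  S05.result P hq hq2 hqp

/-- **The Frey curve is modular** (S04, from `even_modular`).  Library: `H42XRoot`. -/
theorem frey_modular (P : FreyPackage) : P.freyCurve.IsModular :=
  H42X.S04_of_even H42X.even_exact P

/-- **`E[p]` is modular of a conductor level** (S06, from `even_modular`).  Library: `H42XRoot`,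
`H6_FreyCurve`. -/
theorem frey_modular_mod_p (P : FreyPackage) :
    ∃ N : ℕ, P.IsConductorLevel N ∧ P.ModularRepOfLevel N :=
  H42X.S06_of_even H42X.even_exact P

/-- **Ribet's theorem at `q ≠ p`** (S43): an odd prime `q ≠ p` at which `E[p]` is unramified can be removed
from the level.  First `p` is removed by S44.  Then Mazur's principle is used, except if `q ≡ 1 mod p` and
every Frobenius element at `q` acts on `E[p]` by one sign `±1`; in this case a Taylor-Wiles-Kisin argument
with Ihara avoidance is used.  Library: `H59Fin43`, `H2Mz`.  See `GuideLevels`. -/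
theorem level_lowering (P : FreyPackage) {N q : ℕ} (hcond : P.IsConductorLevel N) (hq : q.Prime)
    (hq2 : q ≠ 2) (hqp : q ≠ P.p) (hqN : q ∣ N)
    (hirr : GaloisRepIsIrreducible (K := Qb) ℚ P.freyCurve P.p) (hmod : P.ModularRepOfLevel N)
    (hunr : P.GaloisRepUnramifiedAt q) : ∃ M : ℕ, M ∣ N ∧ ¬ q ∣ M ∧ P.ModularRepOfLevel M :=
  S43.result P hcond hq hq2 hqp hqN hirr hmod hunr

/-- **Ribet's theorem at `p`** (S44): the prime `p` can be removed from the level.  Library: `H38S44B`
(functions on `X_0(M p)`).  See `GuideLevels`. -/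
theorem level_lowering_at_p (P : FreyPackage) {N : ℕ} (hcond : P.IsConductorLevel N)
    (hpN : P.p ∣ N) (hirr : GaloisRepIsIrreducible (K := Qb) ℚ P.freyCurve P.p)
    (hmod : P.ModularRepOfLevel N) : ∃ M : ℕ, M ∣ N ∧ ¬ P.p ∣ M ∧ P.ModularRepOfLevel M :=
  S44.result P hcond hpN hirr hmod

/-- **There is no Frey package** (S03), from the modularity of the even semistable curves (`even_modular`),
Mazur's theorem (`mazur`) and Ribet's theorems (`level_lowering`, `level_lowering_at_p`); S05, S07, S08, S10,
S11 and S13 are used in the proof.  Library: `H42XRoot`. -/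
theorem no_frey_package
    (even : ∀ W : WeierstrassCurve ℤ, W.Δ ≠ 0 → W.IsSemistableModel → (2 : ℤ) ∣ W.Δ →
      Mlc1IsModularModelOfExactConductorLevel W)
    (S12 : ∀ P : FreyPackage, 17 ≤ P.p → ¬ HasGaloisStableCofixedLine (K := Qb) ℚ P.freyCurve P.p)
    (S43 : ∀ (P : FreyPackage) {N q : ℕ}, P.IsConductorLevel N → q.Prime → q ≠ 2 → q ≠ P.p → q ∣ N →
      GaloisRepIsIrreducible (K := Qb) ℚ P.freyCurve P.p → P.ModularRepOfLevel N →
      P.GaloisRepUnramifiedAt q → ∃ M : ℕ, M ∣ N ∧ ¬ q ∣ M ∧ P.ModularRepOfLevel M)
    (S44 : ∀ (P : FreyPackage) {N : ℕ}, P.IsConductorLevel N → P.p ∣ N →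
      GaloisRepIsIrreducible (K := Qb) ℚ P.freyCurve P.p → P.ModularRepOfLevel N →
      ∃ M : ℕ, M ∣ N ∧ ¬ P.p ∣ M ∧ P.ModularRepOfLevel M) (P : FreyPackage) : False :=
  H42X.S03_of_even even S12 S43 S44 P

/-- **The last step**: Fermat's Last Theorem from the modularity of the even semistable curves, Mazur's
theorem and Ribet's two theorems (S02 is used here, and `no_frey_package`).  Applied to `even_modular`,
`mazur`, `level_lowering` and `level_lowering_at_p` this is literally the library's proof of S01.
Library: `H42XRoot`. -/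
theorem fermat_of
    (even : ∀ W : WeierstrassCurve ℤ, W.Δ ≠ 0 → W.IsSemistableModel → (2 : ℤ) ∣ W.Δ →
      Mlc1IsModularModelOfExactConductorLevel W)
    (S12 : ∀ P : FreyPackage, 17 ≤ P.p → ¬ HasGaloisStableCofixedLine (K := Qb) ℚ P.freyCurve P.p)
    (S43 : ∀ (P : FreyPackage) {N q : ℕ}, P.IsConductorLevel N → q.Prime → q ≠ 2 → q ≠ P.p → q ∣ N →
      GaloisRepIsIrreducible (K := Qb) ℚ P.freyCurve P.p → P.ModularRepOfLevel N →
      P.GaloisRepUnramifiedAt q → ∃ M : ℕ, M ∣ N ∧ ¬ q ∣ M ∧ P.ModularRepOfLevel M)
    (S44 : ∀ (P : FreyPackage) {N : ℕ}, P.IsConductorLevel N → P.p ∣ N →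
      GaloisRepIsIrreducible (K := Qb) ℚ P.freyCurve P.p → P.ModularRepOfLevel N →
      ∃ M : ℕ, M ∣ N ∧ ¬ P.p ∣ M ∧ P.ModularRepOfLevel M)
    (n : ℕ) (hn : 3 ≤ n) (a b c : ℕ) (ha : 0 < a) (hb : 0 < b) (hc : 0 < c) : a ^ n + b ^ n ≠ c ^ n :=
  H42X.S01_of_even even S12 S43 S44 n hn a b c ha hb hc

/-- **Fermat's Last Theorem** (S01): for `n ≥ 3` there are no positive integers `a`, `b`, `c` with
`a ^ n + b ^ n = c ^ n`. -/
theorem fermat_last_theorem (n : ℕ) (hn : 3 ≤ n) (a b c : ℕ) (ha : 0 < a) (hb : 0 < b)
    (hc : 0 < c) : a ^ n + b ^ n ≠ c ^ n :=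
  S01.result n hn a b c ha hb hc

end Fermat.Agent.Guide.Endgame
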