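import Fermat.Agent.S55
import Fermat.Agent.H75EC4

/-!
# Guide to the proof: number fields, Euler characteristics, the Greenberg-Wiles inequality

This file is a machine-checked table of contents. Every theorem below is a citation of a theorem of
the library, with its statement written out. Nothing imports this file.

**What the block does.** It has two purposes, both for an odd prime `p`.
 (a) The global part of the arithmetic input of S55 (structure `ArithInput`, see `GuidePoitouTate`):
   for number fields `K ⊇ ℚ(μ_p)` unramified outside `S ∋ p`, the dimensions of `H^1(G_{K,S}, F_p)` and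
   `Sha^2(G_{K,S}, F_p)`, at most one relation between the local invariants of classes in `H^2`, and no
   class with exactly one nonzero local component.
 (b) Tate's Euler characteristic formula over `ℚ` for large `S`, and from it the inequality of
   Greenberg and Wiles, which bounds Selmer groups in S56, S43 and S59.

**The idea of (a).** Everything is Herbrand's counting proof of the second inequality, for cyclic
extensions `L / K` of degree `p`, with all groups realised as subgroups of `Kˣ`: a local norm group at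
a place `v` is the set of the elements of `Kˣ` which are norms modulo a high power of `v`. The Hasse
norm theorem, at most one relation, and "every place contributes" (instead of the reciprocity law)
come out of the same count. No ideles, no reciprocity map, and of analysis only the pole of the Dedekind
zeta function at `1` (through Frobenius density, for the auxiliary primes). (The same inequalities for
extensions of degree `2`, and their exact form, are in `GuideQuadRec`.)

**The idea of (b).** Both sides of the formula are additive in the module, so by the analogue of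
Artin's induction theorem for additive functions on `F_p[G]`-modules it is enough to treat modules
induced from cyclic subgroups of order prime to `p`; there `H^1` is computed by equivariant Kummer
theory and `H^2` by duality, and the structure of the `S`-units modulo `p` gives the result.

**Order of the file.** 1. `S`-units and class groups. 2. Local norms, the Hasse norm theorem.
3. Classes in `H^2`. 4. The Euler characteristic. 5. The Greenberg-Wiles inequality.

**See also.** Steps of the proofs: `GuideKummerTheory` (section 1, `card_H1_GKS`), `GuideLocalNorms` and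
`GuideClassField` (sections 2 and 3), `GuideLocalGlobal` (section 3, `codim_le_one`), `GuideShaTwo` (proof
of `card_sha2` and `card_selmer`), `GuideEulerSteps` (section 4), `GuideDecomposition` (places,
completions, local Galois groups).

**Where.** NOTES.md, Appendix A.10: [206] (overview of S55), [263], [169], [94], [209], [282], [296]
(overview of S56), [297], [96], [300]; Appendix A.12: [171], [285].
Sections 1-3 are in the closures of S55, S56, S43, S59 and S01, sections 4-5 in those of S56, S43, S59
and S01 (and, through S43 and S59, of S03, S04, S06, S38, S45, S46, S50, S60). The theorems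
`finrank_T_units`, `exists_large_T`, `mem_locNorm_locPow`, `index_locPow`, `local_index` and
`exists_auxiliary_primes` are also in that of S47.
Authors: helpers 47, 64, 82, 65, 91, 54, 75, 77, 56, 7, 76.
-/

set_option autoImplicit false
set_option maxSynthPendingDepth 3

open Module ExtCitation Fermat.Agent.H55
open IsDedekindDomain NumberField

namespace Fermat.Agent.Guide.EulerChar

/-- The absolute Galois group of `ℚ` (inside the fixed algebraic closure). -/
local notation "GQ" => (AlgebraicClosure ℚ ≃ₐ[ℚ] AlgebraicClosure ℚ)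

/-! ## 1. `S`-units and class groups

`H64.placesS S K`: the primes of `K` above the primes in `S`. `H47.ClT K T`: the class group of `K`
modulo the classes of the primes in `T`. `H47.ordHom v`: the additive valuation. Notation for
cohomology (`H55.Levels`, `H55.Smooth`, `ramLevels S`, `onSub`, `H1`, `H2`, local data `H55.LD`, `DS S`) as
in `GuidePoitouTate`; `K.fixingSubgroup` is the Galois group of the algebraic closure over `K`. -/

/-- **Dirichlet's unit theorem for `T`-units**: the rank is `r₁ + r₂ - 1 + #T` (`H47TUnits`; powers in a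
finitely generated group: `H47FGIndex`). -/
theorem finrank_T_units (K : Type*) [Field K] [NumberField K]
    (T : Set (HeightOneSpectrum (𝓞 K))) [Finite T] :
    Module.finrank ℤ (Additive (T.unit K)) = NumberField.Units.rank K + Nat.card T :=
  H47.finrank_additive_unit K T

/-- **The order of the `T`-Selmer group.** `H47.selT K T n` is the group of the `x ∈ Kˣ` whose
valuations outside `T` are divisible by `n`. If `K` contains a primitive `n`-th root of unity, then
`[selT : Kˣⁿ] = n^(rank + #T + 1) · #Cl_T[n]` (`H47Selmer`). -/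
theorem card_selmer (K : Type*) [Field K] [NumberField K] (T : Set (HeightOneSpectrum (𝓞 K)))
    (hT : T.Finite) {n : ℕ} [NeZero n] {ζ : K} (hζ : IsPrimitiveRoot ζ n) :
    ((powMonoidHom n : Kˣ →* Kˣ).range).relIndex (H47.selT K T n) =
      n ^ (NumberField.Units.rank K + T.ncard + 1) *
        Nat.card (nsmulAddMonoidHom (α := H47.ClT K T) n).ker :=
  H47.relIndex_range_pow_selT_of_primitiveRoot hT hζ

/-- **The order of `H^1(G_{K,S}, F_p)`** for `K ∋ ζ_p` unramified outside `S ∋ p`, `p` odd:
`p ^ ([K : ℚ] / 2 + #S(K)) · #Cl_S(K)[p]`. Kummer theory identifies this group with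
`selT K S p / Kˣᵖ`: adjoining a `p`-th root of `x` is unramified outside `S` iff `p ∣ v(x)` for all `v`
outside `S` (`H64A1`, from `H64KumRam`, `H64Kummer`, `H64KummerIso`). -/
theorem card_H1_GKS {p : ℕ} [Fact p.Prime] {K : IntermediateField ℚ (AlgebraicClosure ℚ)}
    [NumberField K] {ζ : AlgebraicClosure ℚ} {S : Finset Nat.Primes} (hp2 : p ≠ 2)
    (hζ : IsPrimitiveRoot ζ p) (hζK : ζ ∈ K) (hpS : ∀ q : Nat.Primes, (q : ℕ) = p → q ∈ S)
    (hK : K.IsUnramifiedOutside S) :
    Nat.card (H1 ((ramLevels S).onSub K.fixingSubgroup)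
      (Representation.trivial (ZMod p) K.fixingSubgroup (ZMod p))) =
      p ^ (Module.finrank ℚ K / 2 + (H64.placesS S K).ncard) *
        Nat.card (nsmulAddMonoidHom (α := H47.ClT K (H64.placesS S K)) p).ker :=
  H64.card_H1_ramLevels hp2 hζ hζK hpS hK

/-- **Large `T` have trivial class group**: every finite set of primes of `K` is contained in a finite
set `T` such that every prime outside `T` is principal up to `T` (`H82.ClTrivial`). (`H47TClass`) -/
theorem exists_large_T (K : Type*) [Field K] [NumberField K]
    {T₁ : Set (HeightOneSpectrum (𝓞 K))} (hT₁ : T₁.Finite) :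
    ∃ T : Set (HeightOneSpectrum (𝓞 K)), T₁ ⊆ T ∧ T.Finite ∧ H82.ClTrivial T :=
  H47.exists_clTrivial K hT₁

/-! ## 2. Local norms and the Hasse norm theorem

`H82.congr v m`: the `x ∈ Kˣ` which are units at `v` with `v(x - 1) ≤ exp(-m)`. `H82.NonSplit L v`:
exactly one prime of `L` lies above `v`. `H82.Deep ζ p v m`: `exp(-m) < v(ζ - 1)^p`, so that `m` is large
enough for Hensel's lemma. -/

/-- **Local norms and local `p`-th powers, in terms of the global field** (`H82CftDefs`).
`locNorm L v m = N(Lˣ) · congr v m`, `locPow p v m = (Kˣ)ᵖ · congr v m`; the elements which are in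
`locNorm L v m` for all `m` are the local norms at `v`. -/
theorem mem_locNorm_locPow {K : Type} [Field K] [NumberField K] {L : Type} [Field L] [Algebra K L]
    {p : ℕ} {v : HeightOneSpectrum (𝓞 K)} {m : ℕ} {x : Kˣ} :
    (x ∈ H82.locNorm L v m ↔ ∃ z : Lˣ, x / Units.map (Algebra.norm K) z ∈ H82.congr v m) ∧
      (x ∈ H82.locPow p v m ↔ ∃ z : Kˣ, x / z ^ p ∈ H82.congr v m) :=
  ⟨H82.mem_locNorm, H82.mem_locPow⟩

/-- **The index of local `p`-th powers**: `p² · N(v)^((p-1)c)` with `v(ζ_p - 1) = exp(-c)`, for
`m > pc` (`H82LocIndex2`). -/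
theorem index_locPow {K : Type*} [Field K] [NumberField K] (v : HeightOneSpectrum (𝓞 K)) {p : ℕ}
    [Fact p.Prime] {ζ : K} (hζ : IsPrimitiveRoot ζ p) {c : ℕ}
    (hc : v.valuation K (ζ - 1) = WithZero.exp (-(c : ℤ))) {m : ℕ} (hm : p * c < m) :
    (H82.locPow p v m).index = p ^ 2 * Ideal.absNorm v.asIdeal ^ ((p - 1) * c) :=
  H82.index_locPow v hζ hc hm

/-- **Exact local index**: `[Kˣ : locNorm L v m] = p` if the prime `v` does not split in the cyclic
extension `L / K` of degree `p`, `K ∋ ζ_p`, and `m` is large (`H82Stable`). -/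
theorem local_index {K : Type} [Field K] [NumberField K] {p : ℕ} [Fact p.Prime] {ζ : K}
    (hζ : IsPrimitiveRoot ζ p) {L : Type} [Field L] [NumberField L] [Algebra K L] [IsGalois K L]
    (hL : finrank K L = p) {v : HeightOneSpectrum (𝓞 K)} {m : ℕ} (hm : H82.Deep ζ p v m)
    (hv : H82.NonSplit L v) :
    (H82.locNorm L v m).index = p :=
  H82.index_locNorm hζ hL hm hv

open scoped Classical in
/-- **The first inequality** (`H82Stable`; proof by Herbrand quotients of `T`-units in `H65First`, after
counting places in `H65FirstA`, `H65FirstB`): if `T` contains the ramified primes and the `T`-class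
group is trivial (`ClTrivial`: every prime outside `T` is principal up to `T`), then the `T`-units
times the elements which are local norms at the nonsplit primes of `T` have index at least `p` in
`Kˣ`. -/
theorem first_inequality {K : Type} [Field K] [NumberField K] {p : ℕ} [Fact p.Prime] {ζ : K}
    (hζ : IsPrimitiveRoot ζ p) {L : Type} [Field L] [NumberField L] [Algebra K L] (hp2 : p ≠ 2)
    [IsGalois K L] (hL : finrank K L = p) {T : Finset (HeightOneSpectrum (𝓞 K))}
    (hT : H82.ClTrivial (T : Set (HeightOneSpectrum (𝓞 K))))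
    (hunr : ∀ v ∉ T, ∀ w ∈ H82.above L v, v.asIdeal.ramificationIdx' w.asIdeal = 1)
    (m : HeightOneSpectrum (𝓞 K) → ℕ) (hm : ∀ v ∈ T, H82.Deep ζ p v (m v)) :
    p ≤ ((T : Set (HeightOneSpectrum (𝓞 K))).unit K ⊔
      ⨅ v ∈ {v ∈ T | H82.NonSplit L v}, H82.locNorm L v (m v)).index :=
  H82.first_inequality hζ hp2 hL hT hunr m hm

/-- **Auxiliary primes** (`H82AuxSet`, Frobenius density): for a `T`-unit `a` which is not a `p`-th power
there are `rank + #T` primes outside any given finite set at which `a` is a local `p`-th power and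
which detect the classes of all other `T`-units modulo `⟨a⟩` and `p`-th powers. -/
theorem exists_auxiliary_primes {K : Type*} [Field K] [NumberField K] {p : ℕ} [Fact p.Prime] {ζ : K}
    (hζ : IsPrimitiveRoot ζ p) (T : Set (HeightOneSpectrum (𝓞 K))) (hT : T.Finite) {a : Kˣ}
    (ha : a ∈ T.unit K) (hap : a ∉ (powMonoidHom p : Kˣ →* Kˣ).range)
    (S : Set (HeightOneSpectrum (𝓞 K))) (hS : S.Finite) :
    ∃ A : Finset (HeightOneSpectrum (𝓞 K)), A.card = NumberField.Units.rank K + T.ncard ∧
      (∀ v ∈ A, v ∉ T ∧ v ∉ S ∧ v.valuation K (p : K) = 1 ∧ a ∈ H82.locPow p v 1) ∧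
      (⨅ v ∈ A, H82.locPow p v 1).relIndex (T.unit K) = p ^ A.card ∧
      T.unit K ⊓ ⨅ v ∈ A, H82.locPow p v 1 ≤ Subgroup.zpowers a ⊔ (powMonoidHom p).range :=
  H82.exists_aux_set hζ T hT ha hap S hS

/-- **The Hasse norm theorem** for `L / K` Galois of odd prime degree `p`, `K ∋ ζ_p`: an element which is
a local norm at all primes which do not split is a norm (`H82Hasse`). Comparison of the first
inequality with the count of `p`-th powers at `T` and at the auxiliary primes. (For subgroups of the
Galois group and their decomposition groups: `H54HasseNorm`, see `GuideHasseH2`.) -/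
theorem hasse_norm {K : Type} [Field K] [NumberField K] {p : ℕ} [Fact p.Prime] {ζ : K}
    (hζ : IsPrimitiveRoot ζ p) (hp2 : p ≠ 2) {L : Type} [Field L] [NumberField L] [Algebra K L]
    [IsGalois K L] (hL : finrank K L = p) (x : Kˣ)
    (hx : ∀ v : HeightOneSpectrum (𝓞 K), H82.NonSplit L v → ∀ m : ℕ, x ∈ H82.locNorm L v m) :
    ∃ z : Lˣ, Units.map (Algebra.norm K) z = x :=
  H82.hasse_norm hζ hp2 hL x hx

/-- **At most one relation** (`H82J8`): `normOutside L S` (the elements which are local norms outside the
finite set `S`) and the elements which are local norms in `S` generate a subgroup of index `1` or `p`,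
while the second group alone has index `p ^ #S` if no place of `S` splits. -/
theorem at_most_one_relation {K : Type} [Field K] [NumberField K] {p : ℕ} [Fact p.Prime] {ζ : K}
    (hζ : IsPrimitiveRoot ζ p) (L : Type) [Field L] [NumberField L] [Algebra K L] [IsGalois K L]
    (hp2 : p ≠ 2) (hL : finrank K L = p) (S : Finset (HeightOneSpectrum (𝓞 K)))
    (hS : ∀ v ∈ S, H82.NonSplit L v) :
    (H82.normOutside L (S : Set (HeightOneSpectrum (𝓞 K))) ⊔
        ⨅ v ∈ (S : Set (HeightOneSpectrum (𝓞 K))), ⨅ m, H82.locNorm L v m).index ∣ p ∧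
      (⨅ v ∈ S, ⨅ m, H82.locNorm L v m).index = p ^ S.card :=
  ⟨H82.index_normOutside_sup hζ L hp2 hL S.finite_toSet, H82.index_iInf_locNorm hζ L hL S hS⟩

/-- **Every place contributes** (the substitute for the reciprocity law, `H82G4b`): for every prime `w`
of `K ∋ ζ_p` there is a Kummer generator `b` such that `w` does not split in `L = K(b^(1/p))`
(`H82.IsKummer`, with `β` the `p`-th root of `b`) and an element which is a local norm at all `v ≠ w` is
a local norm at `w`. -/
theorem every_place_contributes {K : Type} [Field K] [NumberField K] {p : ℕ} [Fact p.Prime] {ζ : K}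
    (hζ : IsPrimitiveRoot ζ p) (hp2 : p ≠ 2) (w : HeightOneSpectrum (𝓞 K)) :
    ∃ b : Kˣ, b ∉ (powMonoidHom p : Kˣ →* Kˣ).range ∧
      ∀ (L : Type) [Field L] [NumberField L] [Algebra K L] [IsGalois K L] (β : L),
        finrank K L = p → H82.IsKummer p K L b β → H82.NonSplit L w ∧
          ∀ a : Kˣ, (∀ v : HeightOneSpectrum (𝓞 K), v ≠ w → H82.NonSplit L v →
            ∀ n : ℕ, a ∈ H82.locNorm L v n) → ∀ n : ℕ, a ∈ H82.locNorm L w n :=
  H82.exists_good_b hζ hp2 w

/-! ## 3. Classes in `H^2` -/

/-- **Hasse principle for `H^2(K, F_p)`**, `K ∋ ζ_p`, `p` odd (`H47ShaU2`, `H91Hasse`): a 2-cocycle `f` of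
the absolute Galois group of `K` with values in `F_p` whose restrictions to all local groups are
coboundaries is a coboundary. (The `g` stand for the places above `q`: `dec` is the preimage of the
Galois group of `K` under the embedding of the local group conjugated by `g`, `decHom` the map from it
to this Galois group, `LC1` means constant on the cosets of an open subgroup.) The class is reduced to
cyclic layers by a `p`-group argument, i.e.
to the Hasse norm theorem (details in `GuideHasseH2`). The dictionary between primes of `K` and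
double cosets of decomposition groups is in `H54PadicGal`, `H54EmbField`, `H54Place`, `H54Levels`. -/
theorem hasse_principle_H2 {p : ℕ} {K : IntermediateField ℚ (AlgebraicClosure ℚ)}
    {ζ : AlgebraicClosure ℚ} [Fact p.Prime] (hp2 : p ≠ 2) (hζ : IsPrimitiveRoot ζ p) (hζK : ζ ∈ K)
    [FiniteDimensional ℚ K] {f : K.fixingSubgroup × K.fixingSubgroup → ZMod p}
    (hf : f ∈ Z2 (krullLevels.onSub K.fixingSubgroup)
      (Representation.trivial (ZMod p) K.fixingSubgroup (ZMod p)))
    (hloc : ∀ (q : Nat.Primes) (g : GQ),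
      ∃ y : dec (primeLocalToGlobal q) K.fixingSubgroup g → ZMod p,
        LC1 ((krullLevels.comap (primeLocalToGlobal q)).onSub
          (dec (primeLocalToGlobal q) K.fixingSubgroup g)) y ∧
        ∀ s t, y t - y (s * t) + y s =
          f (decHom (primeLocalToGlobal q) K.fixingSubgroup g s,
            decHom (primeLocalToGlobal q) K.fixingSubgroup g t)) :
    ∃ x : K.fixingSubgroup → ZMod p, LC1 (krullLevels.onSub K.fixingSubgroup) x ∧
      d1 (Representation.trivial (ZMod p) K.fixingSubgroup (ZMod p)) x = f :=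
  H47.triv_of_loc_triv hp2 hζ hζK hf hloc

/-- **`Sha^2` of `μ_p` has the order of the `p`-torsion of the class group**: for `K ∋ ζ_p` unramified
outside `S ∋ p`, the everywhere locally trivial part of `H^2(G_{K,S}, F_p)` has `#Cl_S(K)[p]` elements
(`H47ShaU2`; by the Hasse principle it is the kernel of the inflation to `G_K`, and a capitulation
argument gives the order of this kernel: `H47C1Abs`, `H47C1Div`, `H47C1Val`, `H47C1Data`, `H47C1`). -/
theorem card_sha2 {p : ℕ} {S : Finset Nat.Primes} {K : IntermediateField ℚ (AlgebraicClosure ℚ)}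
    {ζ : AlgebraicClosure ℚ} [NumberField K] [Fact p.Prime] (hp2 : p ≠ 2)
    (hζ : IsPrimitiveRoot ζ p) (hζK : ζ ∈ K) (hpS : ∀ q : Nat.Primes, (q : ℕ) = p → q ∈ S)
    (hK : K.IsUnramifiedOutside S) :
    Nat.card (nsmulAddMonoidHom (α := H47.ClT K (H64.placesS S K)) p).ker =
      p ^ finrank (ZMod p) ((DS S).ShaU2 (ZMod p) K.fixingSubgroup) :=
  H47.card_eq_pow_finrank_ShaU2 hp2 hζ hζK hpS hK

/-- **The first condition on `K`**: `2 dim H^1(G_{K,S}, F_p) = 2 #S(K) + [K : ℚ] + 2 dim Sha^2`, where
`(DS S).nPlaces U` is the number of places above `S` (`H54Input`, from the two preceding counts). -/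
theorem kummer_count {p : ℕ} [Fact p.Prime] {S : Finset Nat.Primes} (hp2 : p ≠ 2)
    (hpS : pPrime p ∈ S) {ζ : AlgebraicClosure ℚ} (hζ : IsPrimitiveRoot ζ p)
    (K : IntermediateField ℚ (AlgebraicClosure ℚ)) [NumberField K] (hK : K.IsUnramifiedOutside S)
    (hζK : ζ ∈ K) :
    2 * finrank (ZMod p) (H1 ((ramLevels S).onSub K.fixingSubgroup)
        (Representation.trivial (ZMod p) K.fixingSubgroup (ZMod p))) =
      2 * (DS S).nPlaces K.fixingSubgroup + K.fixingSubgroup.index +
        2 * finrank (ZMod p) ((DS S).ShaU2 (ZMod p) K.fixingSubgroup) :=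
  H54.glob_h_of hp2 hpS hζ K hK hζK

/-- **A family of fields without split places**: every open subgroup contains the Galois group of a
Galois number field `K ∋ ζ_p` unramified outside `S`, with a cyclic extension `L` of degree `p`,
unramified outside `S`, in which no place above `S` splits: `K = K₀(μ_{p^m})`, `L = K₀(μ_{p^(m+1)})`
with `m` large, `K₀` being the normal closure of the field of the subgroup (`H54CodFam`). -/
theorem exists_family {p : ℕ} [Fact p.Prime] (hp2 : p ≠ 2) {S : Finset Nat.Primes}
    (hpS : ∀ q : Nat.Primes, (q : ℕ) = p → q ∈ S) {ζ : AlgebraicClosure ℚ}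
    (hζ : IsPrimitiveRoot ζ p) {U : Subgroup GQ} (hU : (ramLevels S).op U) :
    ∃ K L : IntermediateField ℚ (AlgebraicClosure ℚ), K.fixingSubgroup ≤ U ∧ K ≤ L ∧
      K.IsUnramifiedOutside S ∧ L.IsUnramifiedOutside S ∧
      K.fixingSubgroup.Normal ∧ L.fixingSubgroup.Normal ∧ ζ ∈ K ∧
      (∃ χ : K.fixingSubgroup →* Multiplicative (ZMod p), Function.Surjective χ ∧
        ∀ g : K.fixingSubgroup, χ g = 1 ↔ (g : GQ) ∈ L.fixingSubgroup) ∧
      ∀ q ∈ S, ∃ s, primeLocalToGlobal q s ∈ K.fixingSubgroup ∧
        primeLocalToGlobal q s ∉ L.fixingSubgroup :=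
  H54.exists_family hp2 hpS hζ hU

/-- **The second condition: codimension at most one**, for a cofinal family of fields `K ∋ ζ_p` (`U'` =
Galois group): `#S(K) + dim Sha^2 ≤ dim H^2(G_{K,S}, F_p) + 1` (`H54Codim`, `H54CodDiv`, `H91CodLoc`,
`H54Input`: for the fields of `exists_family` cup products of the character of `L` with elements of
`normOutside` give `p^(#S(K) - 1)` classes with different local components, by
`at_most_one_relation`). -/
theorem codim_le_one {p : ℕ} [Fact p.Prime] {S : Finset Nat.Primes} (hp2 : p ≠ 2)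
    (hpS : pPrime p ∈ S) (U : Subgroup GQ) (hU : (ramLevels S).op U) :
    ∃ U', (ramLevels S).op U' ∧ U' ≤ U ∧ U' ≤ (cycloChar p).ker ∧
      (DS S).nPlaces U' + finrank (ZMod p) ((DS S).ShaU2 (ZMod p) U') ≤
        finrank (ZMod p) (H2 ((ramLevels S).onSub U') (Representation.trivial (ZMod p) U' (ZMod p))) + 1 :=
  (H54.arithInput hp2 hpS).codim U hU

/-- **The third condition: no class with exactly one nonzero local component**: a class `z` of `H^2`
over `ℚ(μ_p)`, unramified outside `S`, which is locally trivial at all places above `S` except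
possibly one is trivial there, too. `locU2 .. v g z` is the component at the place of `ℚ(μ_p)` given by
the double coset of `g` (`H91Iso`, from `every_place_contributes` and the Hasse principle). -/
theorem no_isolated_class {p : ℕ} [Fact p.Prime] {S : Finset Nat.Primes} (hp2 : p ≠ 2)
    (hpS : pPrime p ∈ S)
    (z : H2 ((ramLevels S).onSub (cycloChar p).ker)
      (Representation.trivial (ZMod p) (cycloChar p).ker (ZMod p)))
    (v₀ : (DS S).ι) (g₀ : GQ)
    (hz : ∀ v g, (v = v₀ → place ((DS S).loc v) (cycloChar p).ker g ≠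
      place ((DS S).loc v) (cycloChar p).ker g₀) → (DS S).locU2 (ZMod p) (cycloChar p).ker v g z = 0) :
    (DS S).locU2 (ZMod p) (cycloChar p).ker v₀ g₀ z = 0 :=
  (H54.arithInput hp2 hpS).iso z v₀ g₀ hz

/-! ## 4. The Euler characteristic over `ℚ` for large `S`

`H56.invC C ρ`: the vectors fixed by the subgroup `C`. `H56.realInv ρ`: the vectors fixed by complex
conjugation. `H56.Dq q`: the decomposition group in `GQ` of a fixed place above `q`, `H56.Dlev q` its
open subgroups. `H56.EqFun D C ρ`: the functions `f` on `GQ` with `f(d x) = f(x)` for `d ∈ D` and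
`f(x c) = ρ(c)⁻¹ f(x)` for `c ∈ C`; this space is the direct sum of the local invariants of `ρ|_C` over
the places of the fixed field of `C` above the place with decomposition group `D`. `H77.Rep.AddFun p G`:
functions `Φ.F` with integral values on finite `F_p[G]`-modules which are additive on short exact
sequences, for example `chi2`. -/

/-- **Every open subgroup is visible at a finite level** (`H75Ram`): it is open for `ramLevels S` as soon
as `S` is large, because a number field is unramified outside a finite set. -/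
theorem exists_ramLevels_op {U : Subgroup GQ} (hU : krullLevels.op U) :
    ∃ S₀ : Finset Nat.Primes, ∀ S : Finset Nat.Primes, S₀ ⊆ S → (ramLevels S).op U :=
  H75.exists_ramLevels_op hU

/-- **Artin's induction theorem for additive functions** (`H77ArtinP`, from `H77CharEquiv`, `H77Lattice`,
`H77AddFun`, `H77Artin`). Let `G` be a finite group, `F` an additive function on the finite
`F_p[G]`-modules and `N` such a module. If `F` vanishes at the modules `Fun(G/C, N)` induced from the
restrictions of `N` to the cyclic subgroups `C` of order prime to `p`, then `F(N) = 0`. -/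
theorem artin_induction {p : ℕ} [Fact p.Prime] {G : Type} [Group G] [Finite G]
    (Φ : H77.Rep.AddFun p G) {N : Type} [AddCommGroup N] [Module (ZMod p) N] [Finite N]
    (ρN : Representation (ZMod p) G N)
    (hC : ∀ C : Subgroup G, IsCyclic C → ¬ p ∣ Nat.card C →
      Φ.F (G ⧸ C → N) (H77.Rep.AddFun.permRep ρN (G ⧸ C)) = 0) : Φ.F N ρN = 0 :=
  Φ.F_eq_zero_of_cyclic_of_coprime ρN hC

/-- **The `S`-units of `K` as a Galois module modulo `p`** (`H56CYB4`; lattices modulo `p`: `H56CYB1`, the
`S`-unit lattice: `H56CYB2`, the permutation lattice: `H56CYB3`, infinite places: `H76Places`). `K ∋ ζ_p`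
is Galois over `ℚ` with group `G`, of arbitrary order; `ES S K` is the group of `S`-units. For every
additive function, `Φ(E_S(K)/p) + Φ(F_p) = Φ(μ_p) + Φ(F_p[G/D_∞]) + Σ_{q ∈ S} Φ(F_p[G/D_q])`. -/
theorem s_units_mod_p {p : ℕ} [Fact p.Prime] (S : Finset Nat.Primes)
    (K : IntermediateField ℚ (AlgebraicClosure ℚ)) [NumberField K] [Normal ℚ K]
    (Φ : H77.Rep.AddFun p (K ≃ₐ[ℚ] K)) {ζ : K} (hζ : IsPrimitiveRoot ζ p)
    (χ : (K ≃ₐ[ℚ] K) →* (ZMod p)ˣ)
    (hχ : ∀ g : K ≃ₐ[ℚ] K, g ζ = ζ ^ ((χ g : ZMod p)).val) :
    Φ.F (ModN (Additive (H56.ES S K)) p) (H56.unitRep p S K) +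
        Φ.F (ZMod p) (1 : Representation (ZMod p) (K ≃ₐ[ℚ] K) (ZMod p)) =
      Φ.F (ZMod p) (mu χ) +
      (Φ.F ((K ≃ₐ[ℚ] K) ⧸ archimedeanDecomposition.map (AlgEquiv.restrictNormalHom K) → ZMod p)
          (H77.Rep.AddFun.permRep (1 : Representation (ZMod p) (K ≃ₐ[ℚ] K) (ZMod p)) _) +
        ∑ q ∈ S, Φ.F ((K ≃ₐ[ℚ] K) ⧸ (H56.Dq q).map (AlgEquiv.restrictNormalHom K) → ZMod p)
          (H77.Rep.AddFun.permRep (1 : Representation (ZMod p) (K ≃ₐ[ℚ] K) (ZMod p)) _)) :=
  H56.CYB.F_unitRep S Φ hζ χ hχ

/-- **Equivariant Kummer theory** (`H82CYA`, `H82CYRes`): let `C` be a subgroup containing `Gal(ℚ̄/K)`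
such that the index of `Gal(ℚ̄/K)` in `C` is prime to `p`, and let `M` be trivial on `Gal(ℚ̄/K)`. Let `S`
be so large that every element of `Kˣ` with valuations divisible by `p` outside `S` is an `S`-unit times a
`p`-th power (`H64.VS`). Then `H^1(C, S; M) = Hom_C(Hom(M, μ_p), E_S(K)/p)`, as far as dimensions are
concerned. -/
theorem equivariant_kummer {p : ℕ} [Fact p.Prime] {S : Finset Nat.Primes}
    {K : IntermediateField ℚ (AlgebraicClosure ℚ)} [NumberField K] {ζ : AlgebraicClosure ℚ}
    {M : Type} [AddCommGroup M] [Module (ZMod p) M] [Finite M] {ρ : Representation (ZMod p) GQ M}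
    (hζ : IsPrimitiveRoot ζ p) (hζK : ζ ∈ K) (hpS : pPrime p ∈ S) (hK : K.IsUnramifiedOutside S)
    (hcl : ∀ x ∈ H64.VS S K p, ∃ u ∈ H56.ES S K, ∃ y : Kˣ, x = u * y ^ p) (hp2 : p ≠ 2)
    [Normal ℚ K] {C : Subgroup GQ} (hC : K.fixingSubgroup ≤ C)
    (hcop : ¬ p ∣ (K.fixingSubgroup.subgroupOf C).index) (hρ : ∀ σ ∈ K.fixingSubgroup, ρ σ = 1) :
    Module.Finite (ZMod p) (H1 ((ramLevels S).onSub C) (ρ.comp C.subtype)) ∧
      finrank (ZMod p) (H1 ((ramLevels S).onSub C) (ρ.comp C.subtype)) =
        finrank (ZMod p) (H56.HomC C (dtw (cycloChar p) ρ)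
          ((H56.unitRep p S K).comp (AlgEquiv.restrictNormalHom K))) :=
  H82.finrank_H1_onSub hζ hζK hpS hK hcl hp2 hC hcop hρ

/-- **Dimension of `H^1` over the fixed field `F` of `C`** as in `equivariant_kummer`, for all large `S`:
`dim H^1(G_{F,S}, M) + h^0(F, M') = h^0(F, M) + Σ_{w | S} h^0(F_w, M') + Σ_{w | ∞} h^0(F_w, M')`
(`H75EC4`, from the two preceding theorems, applied in `H56CY`, `H56CY1`, `H7CYC` to the additive function
`Φ = dim Hom_C(M', ·)`, and from the vanishing of the `S`-class group for large `S`, `H56Cl`; `S` depends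
on `K` only). -/
theorem finrank_H1_large_S {p : ℕ} [Fact p.Prime] (hp2 : p ≠ 2)
    (K : IntermediateField ℚ (AlgebraicClosure ℚ)) [NumberField K] [Normal ℚ K]
    (ζ : AlgebraicClosure ℚ) (hζ : IsPrimitiveRoot ζ p) (hζK : ζ ∈ K) :
    ∃ S₁ : Finset Nat.Primes, ∀ S : Finset Nat.Primes, S₁ ⊆ S →
      ∀ C : Subgroup GQ, K.fixingSubgroup ≤ C → ¬ p ∣ (K.fixingSubgroup.subgroupOf C).index →
      ∀ (M : Type) [AddCommGroup M] [Module (ZMod p) M] [Finite M]
        (ρ : Representation (ZMod p) GQ M), (∀ σ ∈ K.fixingSubgroup, ρ σ = 1) →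
        finrank (ZMod p) (H1 ((ramLevels S).onSub C) (ρ.comp C.subtype)) +
          finrank (ZMod p) (H56.invC C (dtw (cycloChar p) ρ)) =
        finrank (ZMod p) (H56.invC C ρ) +
          ∑ q ∈ S, finrank (ZMod p) (H56.EqFun (H56.Dq q) C (dtw (cycloChar p) ρ)) +
          finrank (ZMod p) (H56.EqFun archimedeanDecomposition C (dtw (cycloChar p) ρ)) :=
  H75.cyStatement hp2 K ζ hζ hζK

/-- **Tate's global Euler characteristic over `ℚ`, for large `S`**, `p` odd:
`h^0 - h^1 + h^2 (G_S, M) + dim M = dim M^c`, `c` = complex conjugation. (`H75EC1`, `H75EC2`, `H75EC3`: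
Artin induction, `finrank_H1_large_S`, and a count of `H^2` by duality in degree 2; for large `S` the
group `Sha^2` of the induced modules in question vanishes, which makes this count purely local.) -/
theorem euler_characteristic {p : ℕ} [Fact p.Prime] (hp2 : p ≠ 2) (M : Type) [AddCommGroup M]
    [Module (ZMod p) M] [Finite M] (ρ : Representation (ZMod p) GQ M) (hρ : Smooth krullLevels ρ) :
    ∃ S₁ : Finset Nat.Primes, ∀ S : Finset Nat.Primes, S₁ ⊆ S →
      chi2 (ramLevels S) ρ + finrank (ZMod p) M = finrank (ZMod p) (H56.realInv ρ) :=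
  H75.ECEq_of hp2 (fun _ hS => H54.arithInput hp2 hS) (H75.cyStatement hp2) M ρ hρ

/-! ## 5. The Greenberg-Wiles inequality -/

/-- **Selmer groups in terms of cocycles** (`H56Defs`): `SelZ S ρ L` consists of the cocycles of `G_S`
with values in `M` whose restriction to the decomposition group at `q` lies in `L q` for `q ∈ S`. -/
theorem mem_SelZ {p : ℕ} [Fact p.Prime] {M : Type} [AddCommGroup M] [Module (ZMod p) M]
    {S : Finset Nat.Primes} {ρ : Representation (ZMod p) GQ M}
    {L : ∀ q : Nat.Primes, Submodule (ZMod p) (H56.Dq q → M)} {c : GQ → M} :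
    c ∈ H56.SelZ S ρ L ↔
      c ∈ Z1 (ramLevels S) ρ ∧ ∀ q ∈ S, (fun σ : H56.Dq q => c σ) ∈ L q :=
  H56.mem_SelZ

/-- **The abstract inequality** (`H75GW`). `D` local data, `β : A × B → μ` a perfect pairing of finite
smooth modules compatible with the group (`H75.BiEquivar`), `L v` local conditions for `B` between
coboundaries and cocycles, `perpZ` the orthogonal conditions for `A` under the local cup product,
`H75.SelC` the cocycles whose restrictions satisfy the conditions (`Z^1_L` in the formula):
`dim Z^1_L(B) + #D · dim B ≤ dim Z^1_{L^⊥}(A) + Σ dim L_v + χ(G, A)`.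
`H75.GlobHyp`, `H75.LocHyp`, `hinj` as in `defect_nonneg` of `GuidePoitouTate`.
Proof: orthogonality of the images of global classes, and counting. -/
theorem greenberg_wiles_abstract {k G A B : Type} [Field k] [Group G] [AddCommGroup A] [Module k A]
    [AddCommGroup B] [Module k B] {𝓛 : Levels G} {D : LD 𝓛} {χ : G →* kˣ}
    {ρA : Representation k G A} {ρB : Representation k G B} {β : A →ₗ[k] B →ₗ[k] k}
    [Module.Finite k A] [Module.Finite k B] (hβ : H75.BiEquivar ρA ρB (mu χ) β)
    (hG : H75.GlobHyp D χ) (hL : ∀ v : D.ι, H75.LocHyp (D.lev v) (χ.comp (D.loc v)))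
    [DecidableEq D.ι]
    (hinj : ∀ v : D.ι, Function.Injective fun z => (Submodule.Quotient.mk (Pi.single v z) :
      D.Cok (mu χ)))
    (hA : Smooth 𝓛 ρA) (hB : Smooth 𝓛 ρB) (hbij : Function.Bijective β)
    (L : ∀ v : D.ι, Submodule k (D.Gv v → B)) (hL1 : ∀ v, B1 (D.rv ρB v) ≤ L v)
    (hL2 : ∀ v, L v ≤ Z1 (D.lev v) (D.rv ρB v)) :
    (finrank k (H75.SelC D ρB L) : ℤ) + (Fintype.card D.ι : ℤ) * finrank k B ≤
      finrank k (H75.SelC D ρA fun v =>
        H75.perpZ (D.lev v) (χ.comp (D.loc v)) (D.rv ρA v) (D.rv ρB v) β (L v)) +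
      ∑ v, (finrank k (L v) : ℤ) + chi2 𝓛 ρA :=
  H75.GW_abs hβ hG hL hinj hA hB hbij L hL1 hL2

/-- **The Greenberg-Wiles inequality over `ℚ`** (`H75EC4`; the passage from the local groups of the
preceding theorem to the decomposition groups `Dq q` is in `H75GW2`). For a finite `F_p[GQ]`-module `M`, all
sufficiently large `S` and all local conditions `B^1 ≤ L_q ≤ Z^1` (`q ∈ S`):
`dim Z^1_L(M) + (#S + 1) dim M ≤ dim Z^1_{L^⊥}(M') + Σ_{q ∈ S} dim L_q + dim (M')^c`.
`perp q L` are the orthogonal conditions, of which only `perp q (Z^1) ≤ B^1` is recorded. This is the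
only form in which duality enters the counting of Selmer groups (S56, S43, S59). -/
theorem greenberg_wiles {p : ℕ} [Fact p.Prime] (hp2 : p ≠ 2) (M : Type) [AddCommGroup M]
    [Module (ZMod p) M] [Finite M] (ρ : Representation (ZMod p) GQ M) (hρ : Smooth krullLevels ρ) :
    ∃ (S₁ : Finset Nat.Primes)
      (perp : ∀ q : Nat.Primes, Submodule (ZMod p) (H56.Dq q → M) →
        Submodule (ZMod p) (H56.Dq q → Module.Dual (ZMod p) M)),
      (∀ q, perp q (Z1 (H56.Dlev q) (H56.rhoD ρ q)) ≤ B1 (H56.rhoD (dtw (cycloChar p) ρ) q)) ∧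
      ∀ S : Finset Nat.Primes, S₁ ⊆ S →
        Module.Finite (ZMod p) (Z1 (ramLevels S) ρ) ∧
        Module.Finite (ZMod p) (Z1 (ramLevels S) (dtw (cycloChar p) ρ)) ∧
        ∀ L : ∀ q : Nat.Primes, Submodule (ZMod p) (H56.Dq q → M),
          (∀ q ∈ S, B1 (H56.rhoD ρ q) ≤ L q ∧ L q ≤ Z1 (H56.Dlev q) (H56.rhoD ρ q) ∧
            Module.Finite (ZMod p) (L q)) →
          finrank (ZMod p) (H56.SelZ S ρ L) + (S.card + 1) * finrank (ZMod p) M ≤
            finrank (ZMod p) (H56.SelZ S (dtw (cycloChar p) ρ) (fun q => perp q (L q))) +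
              ∑ q ∈ S, finrank (ZMod p) (L q) +
              finrank (ZMod p) (H56.realInv (dtw (cycloChar p) ρ)) :=
  H75.gwIneq hp2 M ρ hρ

end Fermat.Agent.Guide.EulerChar
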