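import Fermat.Agent.H75EC2
import Fermat.Agent.H56CY

/-!
# Guide to the proof: steps of the Euler characteristic formula (companion of `GuideEulerChar`)

This file is a machine-checked table of contents. Every theorem below is a citation of a theorem of
the library, with its statement written out. Only `Guide` imports this file.

**What it contains.** The steps of the proof of Tate's global Euler characteristic formula over `ℚ` for
large `S` (`GuideEulerChar.euler_characteristic`), i.e. the proofs of the theorems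
`artin_induction`, `s_units_mod_p`, `equivariant_kummer`, `finrank_H1_large_S` and
`euler_characteristic` of `GuideEulerChar`, section 4. Their statements are not repeated.

**The idea.** Let `M` be a finite module over `F_p`, `p` odd, `K ∋ ζ_p` a Galois number field acting
trivially on `M`, `G = Gal(K/ℚ)`. The two sides of the formula differ by a number `EE(M)` which is
additive on short exact sequences. So it is enough to prove `EE(Fun(G/C, M)) = 0` for the cyclic
subgroups `C` of `G` of order prime to `p` (Artin induction). By Shapiro's lemma this is a statement on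
the cohomology of `M` over the fixed field `F` of `C`. Since `[K : F]` is prime to `p`,
`H^1` is the space of the equivariant homomorphisms `Gal(ℚ̄/K) → M`, and by Kummer theory it is
`Hom_C(M', E_S(K)/p)`, `M' = Hom(M, μ_p)`, as soon as the class group of the `S`-integers of `K` is
trivial. The functor `Hom_C(M', ·)` is exact, so that its dimension can be computed from the class of
`E_S(K)/p` in the Grothendieck group; this class is known because the `S`-units and the permutation
lattice on the places have, apart from a trivial summand, the same characters. `H^2` is known by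
duality in degree two, as `Sha^2` of the induced module vanishes.

**Order of the file.** 1. Lattices with the same characters. 2. Additive functions and reduction of
lattices. 3. Artin's induction theorem. 4. The `S`-units as a lattice. 5. The additive function
`Hom_C(A, ·)`. 6. Kummer theory. 7. The Euler characteristic.

**Notation.** `H77.Rep.AddFun p G`: the additive functions `Φ`, with values `Φ.F M ρ ∈ ℤ` on the finite
`F_p[G]`-modules `(M, ρ)`. `permRep ρ X`: the module of functions on the `G`-set `X` with values in `ρ`,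
`(g f)(x) = ρ(g) f(g⁻¹ x)`; `FN Φ ρ X` is the value of `Φ` at it. `ModN A p = A/pA`. `invC C ρ`, `HomC`,
`EqFun`, `dtw`, `Dq` as in `GuideEulerChar`. From `GuideLevelCohomology`: `Levels G`, a family `𝓛` of
subgroups of `G`, the open ones; `Smooth 𝓛 ρ`, every vector is fixed by an open subgroup; `Equivar`, a
linear map commutes with `G`; `LD 𝓛`, a finite family of local groups with maps `D.loc v` to `G`.

**See also.** `GuideShaTwo` (`S`-units, the Selmer group, `Sha^2` over `K`), `GuidePoitouTate` (the
arithmetic input, duality).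

**Where.** NOTES.md, Appendix A.10: [296] (overview of S56), [297], [96], [300], and Appendix A.12:
[171], [285]. All theorems below are in the closures of S56, S59, S43, S60, S38, S45, S46, S50, S03,
S04, S06 and S01.
Authors: helpers 77 (sections 1-3), 56 (4, 5), 76 (places), 7 (5), 82 (6), 75 (7).
-/

set_option autoImplicit false
set_option maxSynthPendingDepth 3

open Module ExtCitation NumberField IsDedekindDomain
open Fermat.Agent.H55 Fermat.Agent.H77.Rep
open Fermat.Agent.H77.Rep.AddFun (FN Triv permRep IsStab SQ)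

namespace Fermat.Agent.Guide.EulerSteps

/-- The absolute Galois group of `ℚ` (inside the fixed algebraic closure). -/
local notation "GQ" => (AlgebraicClosure ℚ ≃ₐ[ℚ] AlgebraicClosure ℚ)

/-! ## 1. Lattices with the same characters -/

/-- **Representations of a finite group in characteristic zero are determined by their characters**
(`H77CharEquiv`). Proof: the dimension of the space of equivariant maps `V → W` depends only on the two
characters; if they are equal, it is the same as for `V → V`, so there is a nonzero map if `V ≠ 0`. An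
equivariant map of maximal rank is an isomorphism: kernel and cokernel have again the same character
(both split off, by averages), and a nonzero map between them would enlarge the map. -/
theorem characters_determine {k G V W : Type*} [Field k] [Group G] [AddCommGroup V] [Module k V]
    [AddCommGroup W] [Module k W] {ρ : Representation k G V} {τ : Representation k G W} [Finite G]
    [CharZero k] [FiniteDimensional k V] [FiniteDimensional k W]
    (h : ∀ g, LinearMap.trace k V (ρ g) = LinearMap.trace k W (τ g)) :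
    ∃ e : V ≃ₗ[k] W, ∀ g v, e (ρ g v) = τ g (e v) :=
  exists_equiv_of_trace_eq h

/-- **Elements generating the same cyclic group have the same trace** on a lattice (`H77Lattice`). For a
prime `q` we have `tr(g^q) ≡ tr(g)` modulo `q` (first statement). If `h = g^j` has the same order as
`g`, Dirichlet's theorem gives primes `q ≡ j` modulo the order of `g` which are so large that the
congruence is an equality. -/
theorem traces_of_generators {G A : Type*} [Group G] [Finite G] [AddCommGroup A] [Module.Free ℤ A]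
    [Module.Finite ℤ A] (ρ : Representation ℤ G A) :
    (∀ (f : A →ₗ[ℤ] A) (q : ℕ) [Fact q.Prime],
      ((LinearMap.trace ℤ A (f ^ q) : ℤ) : ZMod q) = ((LinearMap.trace ℤ A f : ℤ) : ZMod q)) ∧
      ∀ {g h : G}, h ∈ Subgroup.zpowers g → orderOf h = orderOf g →
        LinearMap.trace ℤ A (ρ h) = LinearMap.trace ℤ A (ρ g) :=
  ⟨fun f q _ => trace_pow_modEq f q, fun h1 h2 => trace_eq_of_orderOf_eq ρ h1 h2⟩

/-- **The sum of the traces over a cyclic group** is its order times the rank of the fixed lattice of a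
generator (`H77Lattice`). -/
theorem sum_of_traces {G A : Type*} [Group G] [Finite G] [AddCommGroup A] [Module.Free ℤ A]
    [Module.Finite ℤ A] (ρ : Representation ℤ G A) (g : G) [Fintype (Subgroup.zpowers g)] :
    ∑ h : Subgroup.zpowers g, LinearMap.trace ℤ A (ρ h) =
      Nat.card (Subgroup.zpowers g) * finrank ℤ (LinearMap.ker (ρ g - 1)) :=
  sum_trace_zpowers ρ g

/-- **The ranks of the fixed lattices of the elements determine the character** (`H77Lattice`):
induction on the order of `g`; in the formula of `sum_of_traces` all generators of `⟨g⟩` have the trace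
of `g` and the other elements have smaller order. This is the form in which Dirichlet's unit theorem
for the subfields determines the character of the units. -/
theorem ranks_determine_traces {G A : Type*} [Group G] [Finite G] [AddCommGroup A]
    [Module.Free ℤ A] [Module.Finite ℤ A] (ρ : Representation ℤ G A) {B : Type*} [AddCommGroup B]
    [Module.Free ℤ B] [Module.Finite ℤ B] (τ : Representation ℤ G B)
    (h : ∀ g, finrank ℤ (LinearMap.ker (ρ g - 1)) = finrank ℤ (LinearMap.ker (τ g - 1)))
    (g : G) : LinearMap.trace ℤ A (ρ g) = LinearMap.trace ℤ B (τ g) :=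
  trace_eq_of_finrank_eq ρ τ h g

/-- **Isogenies** (`H77Lattice`): lattices with the same character are isogenous, i.e. there is an
injective equivariant map with finite cokernel. (Multiply an isomorphism of the rational
representations by a common denominator.) -/
theorem isogeny {A : Type*} [AddCommGroup A] [Module.Free ℤ A] [Module.Finite ℤ A] {B : Type*}
    [AddCommGroup B] [Module.Free ℤ B] [Module.Finite ℤ B] {G : Type*} [Group G] [Finite G]
    {ρ : Representation ℤ G A} {τ : Representation ℤ G B}
    (h : ∀ g, LinearMap.trace ℤ A (ρ g) = LinearMap.trace ℤ B (τ g)) :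
    ∃ φ : A →ₗ[ℤ] B, (∀ g a, φ (ρ g a) = τ g (φ a)) ∧ Function.Injective φ ∧
      Finite (B ⧸ LinearMap.range φ) :=
  exists_isogeny h

/-! ## 2. Additive functions and reduction of lattices

`Φ.red hp hP` is the value of `Φ` at `P/pP`, where `P` is a `G`-stable submodule (`IsStab`) of the
lattice `B`; `SQ P Q` is the quotient `Q / (P ∩ Q)`. -/

/-- **First properties** (`H77AddFun`): additive functions vanish at the zero module and are equal at
isomorphic modules. -/
theorem additive_functions {p : ℕ} {G : Type*} [Group G] (Φ : AddFun p G) {A B : Type}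
    [AddCommGroup A] [Module (ZMod p) A] [Finite A] [AddCommGroup B] [Module (ZMod p) B] [Finite B]
    {ρA : Representation (ZMod p) G A} {ρB : Representation (ZMod p) G B} :
    (Subsingleton A → Φ.F A ρA = 0) ∧
      ∀ f : A →ₗ[ZMod p] B, (∀ σ a, f (ρA σ a) = ρB σ (f a)) → Function.Bijective f →
        Φ.F A ρA = Φ.F B ρB :=
  ⟨Φ.F_subsingleton ρA, fun f h1 h2 => Φ.F_iso f h1 h2⟩

/-- **One step** (`H77AddFun`): if `pQ ≤ P ≤ Q` are stable, then `P/pP` and `Q/pQ` have the same
value: both have the subquotients `Q/P` and `P/pQ`, since `pQ/pP` is isomorphic to `Q/P`. -/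
theorem reduction_step {p : ℕ} {G : Type*} [Group G] (Φ : AddFun p G) {B : Type} [AddCommGroup B]
    [Module.Finite ℤ B] [IsAddTorsionFree B] {ρ : Representation ℤ G B} (hp : p ≠ 0)
    {P Q : Submodule ℤ B} (hP : IsStab ρ P) (hQ : IsStab ρ Q) (hPQ : P ≤ Q)
    (h : ∀ x ∈ Q, p • x ∈ P) : Φ.red hp hP = Φ.red hp hQ :=
  Φ.red_step hp hP hQ hPQ h

/-- **Sublattices of finite index** (`H77AddFun`): if `Q/P` is finite, then `P/pP` and `Q/pQ` have the
same value. Induction on the index: replace `Q` by `P + pQ` (`reduction_step`) until the index is prime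
to `p`; then `P/pP = Q/pQ` (`AddFun.red_prime`). -/
theorem reduction_finite_index {p : ℕ} {G : Type*} [Group G] (Φ : AddFun p G) {B : Type}
    [AddCommGroup B] [Module.Finite ℤ B] [IsAddTorsionFree B] {ρ : Representation ℤ G B}
    (hp : p ≠ 0) {P Q : Submodule ℤ B} (hP : IsStab ρ P) (hQ : IsStab ρ Q) (hPQ : P ≤ Q)
    (hfin : Finite (SQ P Q)) : Φ.red hp hP = Φ.red hp hQ :=
  Φ.red_eq_of_finite hp hP hQ hPQ hfin

/-- **The lattice lemma** (`H77AddFun`, `H77Artin`). Let `A` and `B` be lattices with an action of the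
finite group `G` such that the fixed lattices of every element have the same rank. Then `A/pA` and
`B/pB` have the same value under every additive function. (Here `A/pA`, `B/pB` are given by surjections
`π`, `π'` with kernels `pA`, `pB`.) This is the analogue of the theorem of Brauer and Nesbitt: the
classes of the reductions in the Grothendieck group depend only on the character. -/
theorem lattice_lemma {p : ℕ} {G : Type*} [Group G] (Φ : AddFun p G) [Finite G] (hp : p ≠ 0)
    {A B : Type} [AddCommGroup A] [Module.Free ℤ A] [Module.Finite ℤ A] [AddCommGroup B]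
    [Module.Free ℤ B] [Module.Finite ℤ B] (ρ : Representation ℤ G A) (τ : Representation ℤ G B)
    (h : ∀ g, finrank ℤ (LinearMap.ker (ρ g - 1)) = finrank ℤ (LinearMap.ker (τ g - 1)))
    {M : Type} [AddCommGroup M] [Module (ZMod p) M] [Finite M]
    (r : Representation (ZMod p) G M) (π : A →+ M) (hπ : Function.Surjective π)
    (hker : ∀ x, π x = 0 ↔ ∃ y, x = p • y) (heq : ∀ g x, π (ρ g x) = r g (π x))
    {M' : Type} [AddCommGroup M'] [Module (ZMod p) M'] [Finite M']
    (r' : Representation (ZMod p) G M') (π' : B →+ M') (hπ' : Function.Surjective π')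
    (hker' : ∀ x, π' x = 0 ↔ ∃ y, x = p • y) (heq' : ∀ g x, π' (τ g x) = r' g (π' x)) :
    Φ.F M r = Φ.F M' r' :=
  Φ.F_red_eq_of_finrank hp ρ τ h r π hπ hker heq r' π' hπ' hker' heq'

/-! ## 3. Artin's induction theorem -/

/-- **The character of a permutation lattice**: the trace of `g` on the functions on `X` is the number
of fixed points of `g` (`H77Artin`). -/
theorem permutation_trace {G : Type*} [Group G] (X : Type*) [Finite X] [MulAction G X] (g : G) :
    LinearMap.trace ℤ (X → ℤ) (permRep (1 : Representation ℤ G ℤ) X g) =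
      Nat.card {x : X // g • x = x} :=
  AddFun.trace_permRep X g

/-- **Sets with the same numbers of fixed points** (`H77Artin`). Let `N` be a module. If every `g` has
as many fixed points on `X` as on `Y`, then `Fun(X, N)` and `Fun(Y, N)` have the same value: apply the
lattice lemma to `ℤ^X`, `ℤ^Y` and the additive function `M ↦ Φ(N ⊗ M)` (`AddFun.twist`,
`AddFun.FN_eq_twist`). -/
theorem equal_fixed_points {p : ℕ} {G : Type} [Group G] [Fact p.Prime] (Φ : AddFun p G) {N : Type}
    [AddCommGroup N] [Module (ZMod p) N] [Finite N] (ρN : Representation (ZMod p) G N) [Finite G]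
    {X Y : Type} [Finite X] [Finite Y] [MulAction G X] [MulAction G Y]
    (h : ∀ g : G, Nat.card {x : X // g • x = x} = Nat.card {y : Y // g • y = y}) :
    FN Φ ρN X = FN Φ ρN Y :=
  AddFun.FN_congr Φ ρN h

/-- **Disjoint unions and trivial actions** (`H77Artin`): `Fun(X ⊔ Y, N) = Fun(X, N) ⊕ Fun(Y, N)`, and for
a set `Triv n` of `n` elements with trivial action the value is `n Φ(N)`. -/
theorem disjoint_unions {p : ℕ} {G : Type} [Group G] [Fact p.Prime] (Φ : AddFun p G) {N : Type}
    [AddCommGroup N] [Module (ZMod p) N] [Finite N] (ρN : Representation (ZMod p) G N) :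
    (∀ (X Y : Type) [Finite X] [Finite Y] [MulAction G X] [MulAction G Y],
      FN Φ ρN (X ⊕ Y) = FN Φ ρN X + FN Φ ρN Y) ∧
      ∀ [Finite G] (n : ℕ), FN Φ ρN (Triv n) = n * Φ.F N ρN :=
  ⟨fun X Y _ _ _ _ => AddFun.FN_sum Φ ρN X Y, fun n => AddFun.FN_triv Φ ρN n⟩

/-- **Counting conjugates** (`H77Artin`). Let `e_C(g)` be the number of the `x ∈ G` such that
`x⁻¹ g x` generates `C`; it is zero if `C` is not cyclic. The sum of the `e_D` over the subgroups `D`
of `C` counts the `x` with `x⁻¹ g x ∈ C`, and this number is `#C` times the number of fixed points of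
`g` on `G/C`. For `C = G` the sum is the constant `#G`. -/
theorem counting_conjugates {G : Type} [Group G] [Finite G] (C : Subgroup G)
    [Fintype {D : Subgroup G // D ≤ C}] (g : G) :
    (∑ D : {D : Subgroup G // D ≤ C}, AddFun.eC D.1 g = Nat.card {x : G // x⁻¹ * g * x ∈ C}) ∧
      Nat.card C * Nat.card {x : G ⧸ C // g • x = x} = Nat.card {x : G // x⁻¹ * g * x ∈ C} :=
  ⟨AddFun.sum_eC C g, AddFun.card_fix_quot C g⟩

/-- **Artin's induction theorem, all cyclic subgroups** (`H77Artin`): if `Φ` vanishes at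
`Fun(G/C, N)` for all cyclic subgroups `C`, then `Φ(N) = 0`. Proof: by induction on `C` and
`counting_conjugates`, every function `e_C` is the difference of the fixed point functions of two sets
at which `FN` vanishes; hence so is their sum, the constant `#G`, and `#G Φ(N) = 0` by
`equal_fixed_points` and `disjoint_unions`. -/
theorem artin_cyclic {p : ℕ} {G : Type} [Group G] [Fact p.Prime] {Φ : AddFun p G} {N : Type}
    [AddCommGroup N] [Module (ZMod p) N] [Finite N] {ρN : Representation (ZMod p) G N} [Finite G]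
    (hC : ∀ C : Subgroup G, IsCyclic C → FN Φ ρN (G ⧸ C) = 0) : Φ.F N ρN = 0 :=
  AddFun.F_eq_zero_of_cyclic hC

/-- **Equal Jordan blocks** (`H77ArtinP`). Let `S` be an equivariant operator on `M` with `S^n = 0` and
`#M = (#ker S)^n` (all Jordan blocks have length `n`). Then `Φ(M) = n Φ(ker S)`, since by
counting, `S : ker S^(i+1) → ker S^i` is surjective with kernel `ker S` for all `i < n`. -/
theorem equal_jordan_blocks {p : ℕ} [Fact p.Prime] {G : Type*} [Group G] (Φ : AddFun p G)
    {M : Type} [AddCommGroup M] [Module (ZMod p) M] [Finite M] (ρ : Representation (ZMod p) G M)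
    (S : M →ₗ[ZMod p] M) (hS : ∀ g m, S (ρ g m) = ρ g (S m)) (n : ℕ) (hSn : S ^ n = 0)
    (hcard : Nat.card M = Nat.card (LinearMap.ker S) ^ n)
    (ρ₁ : Representation (ZMod p) G (LinearMap.ker S))
    (hρ₁ : ∀ g (v : LinearMap.ker S), ((ρ₁ g v : LinearMap.ker S) : M) = ρ g v) :
    Φ.F M ρ = n * Φ.F (LinearMap.ker S) ρ₁ :=
  AddFun.F_eq_mul_of_nilpotent Φ ρ S hS n hSn hcard ρ₁ hρ₁

/-- **Removing the `p`-part of a cyclic subgroup** (`H77ArtinP`): if `p` divides the order of `c`, then
`Φ(Fun(G/⟨c^p⟩, N)) = p Φ(Fun(G/⟨c⟩, N))`. Here `S` is right translation by `c` minus the identity;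
`S^p = 0` in characteristic `p`, and the kernel consists of the functions on `G/⟨c⟩`. Together with
`artin_cyclic` this gives `GuideEulerChar.artin_induction`, with cyclic subgroups of order prime to
`p`, by induction on the order of `c`. -/
theorem remove_p_part {p : ℕ} [Fact p.Prime] {G : Type} [Group G] [Finite G] (Φ : AddFun p G)
    {N : Type} [AddCommGroup N] [Module (ZMod p) N] [Finite N] (ρN : Representation (ZMod p) G N)
    (c : G) (hc : p ∣ orderOf c) :
    FN Φ ρN (G ⧸ Subgroup.zpowers (c ^ p)) = p * FN Φ ρN (G ⧸ Subgroup.zpowers c) :=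
  AddFun.FN_index_p Φ ρN c hc

/-! ## 4. The `S`-units as a lattice

`H56.ES S K`: the group of `S`-units; `H56.SInt S`: the product of the primes in `S`.
`H56.CYB.intRep G E g x = g • x`. `H56.CYB.Lam E n = nE`. `H56.CYB.TorsData E p n τ χ`: the torsion
subgroup of `E` is cyclic, generated by `τ` of order `n ≠ 0`, `p ∣ n`, and `g τ = c τ` with
`c ≡ χ(g)` modulo `p`. -/

/-- **`S`-units** (`H56ECDefs`, `H56CYB2`): defined through integrality, `ES S K` consists of the `x ∈ Kˣ`
such that `N^n x` and `N^n x⁻¹` are integral for some `n`, `N` being the product of the primes in `S`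
(this makes the Galois action and the passage to subfields obvious); it is the group of the elements
which are units at all primes of `K` not above `S`. -/
theorem s_units (S : Finset Nat.Primes) (K : Type) [Field K] [NumberField K] :
    (∀ x : Kˣ, x ∈ H56.ES S K ↔ ∃ n : ℕ, IsIntegral ℤ ((H56.SInt S : K) ^ n * (x : K)) ∧
      IsIntegral ℤ ((H56.SInt S : K) ^ n * ((x⁻¹ : Kˣ) : K))) ∧
      H56.ES S K = (H64.placesS S K).unit K :=
  ⟨fun _ => Iff.rfl, H56.CYB.ES_eq_unit S K⟩

/-- **Rank**: the rank of the `S`-units plus one is the number of all places of `K` above `S` and `∞`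
(`H56CYB2`). -/
theorem rank_of_s_units (S : Finset Nat.Primes) (K : Type) [Field K] [NumberField K] :
    finrank ℤ (Additive (H56.ES S K)) + 1 =
      (H64.placesS S K).ncard + Nat.card (InfinitePlace K) :=
  H56.CYB.finrank_ES_add_one S K

/-- **Torsion of the `S`-units** (`H56CYB2`): roots of unity; if `ζ_p ∈ K` and `χ` is the cyclotomic
character of `Gal(K/ℚ)`, we are in the situation `TorsData`. -/
theorem torsion_of_s_units {p : ℕ} [Fact p.Prime] (S : Finset Nat.Primes) {K : Type} [Field K]
    [NumberField K] [Algebra ℚ K] {ζ : K} (hζ : IsPrimitiveRoot ζ p)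
    (χ : (K ≃ₐ[ℚ] K) →* (ZMod p)ˣ)
    (hχ : ∀ g : K ≃ₐ[ℚ] K, g ζ = ζ ^ ((χ g : ZMod p)).val) :
    ∃ (n : ℕ) (τ : Additive (H56.ES S K)), H56.CYB.TorsData (Additive (H56.ES S K)) p n τ χ :=
  H56.CYB.exists_torsData S hζ χ hχ

/-- **Units fixed by an automorphism**: if `F` is the fixed field of `g ∈ Gal(K/ℚ)`, the `S`-units of
`K` fixed by `g` have the rank of the `S`-units of `F` (`H56CYB2`; `F` exists by
`H56.CYB.exists_fixed`). -/
theorem fixed_s_units (S : Finset Nat.Primes) {K F : IntermediateField ℚ (AlgebraicClosure ℚ)}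
    (hle : F ≤ K) (g : K ≃ₐ[ℚ] K) (hF : ∀ x : K, g x = x ↔ (x : AlgebraicClosure ℚ) ∈ F) :
    finrank ℤ (LinearMap.ker (H56.CYB.intRep (K ≃ₐ[ℚ] K) (Additive (H56.ES S K)) g - 1)) =
      finrank ℤ (Additive (H56.ES S F)) :=
  H56.CYB.finrank_ker_ES S hle g hF

/-- **Orbits and places** (`H76Places`). Let `F` be the fixed field of `g ∈ Gal(K/ℚ)` and `D_∞` the
decomposition group of an infinite place. The functions on `Gal(K/ℚ)/D_∞` fixed by `g` have as rank the
number of infinite places of `F` (double cosets `D_∞ \ Gal / ⟨g⟩`). -/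
theorem infinite_places (K : IntermediateField ℚ (AlgebraicClosure ℚ)) [NumberField K]
    [Normal ℚ K] (F : IntermediateField ℚ (AlgebraicClosure ℚ)) [NumberField F] (g : K ≃ₐ[ℚ] K)
    (hU : K.fixingSubgroup ≤ F.fixingSubgroup)
    (hH : F.fixingSubgroup.map (AlgEquiv.restrictNormalHom K) = Subgroup.zpowers g) :
    finrank ℤ (LinearMap.ker (permRep (1 : Representation ℤ (K ≃ₐ[ℚ] K) ℤ)
      ((K ≃ₐ[ℚ] K) ⧸ archimedeanDecomposition.map (AlgEquiv.restrictNormalHom K)) g - 1)) =
      Nat.card (InfinitePlace F) :=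
  H76.finrank_ker_permRep_arch K F g hU hH

/-- **The same for any subgroup `D` of the Galois group**: the rank is the number `nPl` of places of the
fixed field `F` of `H` above the place with decomposition group `D`, i.e. the number of double cosets
`D \ GQ / H` (`H76Places`). So the sum of the ranks for `D_∞` and `D_q`, `q ∈ S`, is the rank of the
`S`-units of `F` plus one: the permutation lattice on the places of `K` above `S` and `∞`, and the
`S`-units plus a trivial summand `ℤ`, have fixed lattices of the same ranks. -/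
theorem places_and_double_cosets (K : IntermediateField ℚ (AlgebraicClosure ℚ)) [NumberField K]
    [Normal ℚ K] (D H : Subgroup GQ) (g : K ≃ₐ[ℚ] K) (hU : K.fixingSubgroup ≤ H)
    (hH : H.map (AlgEquiv.restrictNormalHom K) = Subgroup.zpowers g) :
    finrank ℤ (LinearMap.ker (permRep (1 : Representation ℤ (K ≃ₐ[ℚ] K) ℤ)
      ((K ≃ₐ[ℚ] K) ⧸ D.map (AlgEquiv.restrictNormalHom K)) g - 1)) = nPl D.subtype H :=
  H76.finrank_ker_permRep_galois K D H g hU hH

/-- **Removing the torsion** (`H56CYB1`): if the torsion of `E` is as in `TorsData`, then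
`0 → μ_p → E/p → nE/p → 0` is exact (`1 ↦ τ`, `x ↦ n x`), so that `Φ(E/p) = Φ(μ_p) + Φ(nE/p)`. -/
theorem remove_torsion {G : Type} [Group G] {p : ℕ} [Fact p.Prime] {E : Type} [AddCommGroup E]
    [DistribMulAction G E] {n : ℕ} {τ : E} {χ : G →* (ZMod p)ˣ}
    (D : H56.CYB.TorsData E p n τ χ) (Φ : AddFun p G) [Module.Finite ℤ E] :
    Φ.F (ModN E p) (H56.repN G E p) =
      Φ.F (ZMod p) (mu χ) + Φ.F (ModN (H56.CYB.Lam E n) p) (H56.repN G (H56.CYB.Lam E n) p) :=
  H56.CYB.step1 D Φ

/-- **The lattice `nE`** is torsion free, and the fixed lattices of the elements have the same ranks as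
for `E` (`H56CYB1`). -/
theorem multiples {G : Type} [Group G] {p : ℕ} [Fact p.Prime] {E : Type} [AddCommGroup E]
    [DistribMulAction G E] {n : ℕ} {τ : E} {χ : G →* (ZMod p)ˣ}
    (D : H56.CYB.TorsData E p n τ χ) [Module.Finite ℤ E] :
    Module.Free ℤ (H56.CYB.Lam E n) ∧
      ∀ g : G, finrank ℤ (LinearMap.ker (H56.CYB.intRep G (H56.CYB.Lam E n) g - 1)) =
        finrank ℤ (LinearMap.ker (H56.CYB.intRep G E g - 1)) :=
  ⟨H56.CYB.free_Lam D, H56.CYB.finrank_ker_Lam D⟩

/-- **Reduction of a lattice with cyclic torsion** (`H56CYB1`): if the functions on the finite `G`-set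
`X` fixed by `g` have the rank of the fixed elements of `E` plus one, for all `g`, then
`Φ(E/p) + Φ(F_p) = Φ(μ_p) + Φ(Fun(X, F_p))`. (The lattice lemma for `nE ⊕ ℤ` and `ℤ^X`.) Applied to
the `S`-units and the set of places (a disjoint union of coset spaces, `H56.CYB.exists_sum`) this is
`GuideEulerChar.s_units_mod_p`. -/
theorem reduction_with_torsion {G : Type} [Group G] {p : ℕ} [Fact p.Prime] {E : Type}
    [AddCommGroup E] [DistribMulAction G E] {n : ℕ} {τ : E} {χ : G →* (ZMod p)ˣ}
    (D : H56.CYB.TorsData E p n τ χ) (Φ : AddFun p G) [Module.Finite ℤ E] [Finite G] (X : Type)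
    [Finite X] [MulAction G X]
    (hX : ∀ g, finrank ℤ (LinearMap.ker (permRep (1 : Representation ℤ G ℤ) X g - 1)) =
      finrank ℤ (LinearMap.ker (H56.CYB.intRep G E g - 1)) + 1) :
    Φ.F (ModN E p) (H56.repN G E p) +
        Φ.F (ZMod p) (1 : Representation (ZMod p) G (ZMod p)) =
      Φ.F (ZMod p) (mu χ) +
        Φ.F (X → ZMod p) (permRep (1 : Representation (ZMod p) G (ZMod p)) X) :=
  H56.CYB.F_mod D Φ X hX

/-! ## 5. The additive function `Hom_C(A, ·)`

`C` is a subgroup of `GQ` containing `Gal(ℚ̄/K)` with index prime to `p`, and `r` is a representation of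
`GQ` on `A`, trivial on `Gal(ℚ̄/K)`. Under these assumptions `H7.CYC.homFunK K C r hr hcop` is an additive
function on the modules of `Gal(K/ℚ)`. -/

/-- **Invariants are exact** for a group which acts through a finite quotient of order prime to the
characteristic (averages; `H7CYC`). Applied to the groups `Hom(A, M_i)` this shows that
`M ↦ dim Hom_C(A, M)` is additive. -/
theorem invariants_exact {k : Type*} [Field k] {C : Type*} [Group C] {N : Subgroup C} [N.Normal]
    [Finite (C ⧸ N)] {V₁ V₂ V₃ : Type*} [AddCommGroup V₁] [Module k V₁] [AddCommGroup V₂]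
    [Module k V₂] [AddCommGroup V₃] [Module k V₃] [Module.Finite k V₂]
    (hN : (Nat.card (C ⧸ N) : k) ≠ 0)
    {σ₁ : Representation k C V₁} {σ₂ : Representation k C V₂} {σ₃ : Representation k C V₃}
    (h2 : ∀ u ∈ N, σ₂ u = 1) (f : V₁ →ₗ[k] V₂) (g : V₂ →ₗ[k] V₃)
    (hf : ∀ c v, f (σ₁ c v) = σ₂ c (f v)) (hg : ∀ c v, g (σ₂ c v) = σ₃ c (g v))
    (hi : Function.Injective f) (hs : Function.Surjective g) (he : Function.Exact f g) :
    finrank k σ₂.invariants = finrank k σ₁.invariants + finrank k σ₃.invariants :=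
  H7.CYC.finrank_inv_add hN h2 f g hf hg hi hs he

/-- **Values of this function** (`H7CYC`): by definition `dim Hom_C(A, M)`; at a permutation module
`Fun(Gal(K/ℚ)/D, F_p)` it is `dim EqFun(D, C, r)`; at the trivial module `F_p` it is the dimension of the
invariants of `C` in `A` (duality, the order of `C / Gal(ℚ̄/K)` being prime to `p`). -/
theorem hom_values {p : ℕ} [Fact p.Prime] {K : IntermediateField ℚ (AlgebraicClosure ℚ)}
    [NumberField K] [Normal ℚ K] {A : Type} [AddCommGroup A] [Module (ZMod p) A] [Finite A]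
    {r : Representation (ZMod p) GQ A} {C : Subgroup GQ} (hC : K.fixingSubgroup ≤ C)
    (hr : ∀ σ ∈ K.fixingSubgroup, r σ = 1)
    (hcop : ¬ p ∣ (K.fixingSubgroup.subgroupOf C).index) :
    (∀ (M : Type) [AddCommGroup M] [Module (ZMod p) M] [Finite M]
      (s : Representation (ZMod p) (K ≃ₐ[ℚ] K) M),
      (H7.CYC.homFunK K C r hr hcop).F M s =
        finrank (ZMod p) (H56.HomC C r (s.comp (AlgEquiv.restrictNormalHom K)))) ∧
    (∀ D : Subgroup GQ, (H7.CYC.homFunK K C r hr hcop).F
      (((K ≃ₐ[ℚ] K) ⧸ D.map (AlgEquiv.restrictNormalHom K)) → ZMod p)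
      (permRep (1 : Representation (ZMod p) (K ≃ₐ[ℚ] K) (ZMod p))
        ((K ≃ₐ[ℚ] K) ⧸ D.map (AlgEquiv.restrictNormalHom K))) =
      finrank (ZMod p) (H56.EqFun D C r)) ∧
    (H7.CYC.homFunK K C r hr hcop).F (ZMod p)
        (Representation.trivial (ZMod p) (K ≃ₐ[ℚ] K) (ZMod p)) =
      finrank (ZMod p) (H56.invC C r) :=
  ⟨fun _ _ _ _ s => H7.CYC.homFunK_F hr hcop s, H7.CYC.homFunK_perm hC hr hcop,
    H7.CYC.homFunK_triv hr hcop⟩

/-- **The cyclotomic character of `Gal(K/ℚ)`** for `K ∋ ζ_p` (`H56CY1`). -/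
theorem cyclotomic_character {p : ℕ} [Fact p.Prime]
    {K : IntermediateField ℚ (AlgebraicClosure ℚ)} [NumberField K] [Normal ℚ K]
    {ζ : AlgebraicClosure ℚ} (hζ : IsPrimitiveRoot ζ p) (hζK : ζ ∈ K) :
    ∃ χK : (K ≃ₐ[ℚ] K) →* (ZMod p)ˣ,
      (∀ σ : GQ, χK (AlgEquiv.restrictNormalHom K σ) = cycloChar p σ) ∧
      ∀ g : K ≃ₐ[ℚ] K, g ⟨ζ, hζK⟩ = ⟨ζ, hζK⟩ ^ ((χK g : ZMod p)).val :=
  H56.exists_chiK hζ hζK

/-- **The value at `μ_p`** (`H7CYC`): `dim Hom_C(Hom(M, μ_p), μ_p) = dim M^C`. -/
theorem hom_value_mu {p : ℕ} [Fact p.Prime] {K : IntermediateField ℚ (AlgebraicClosure ℚ)}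
    [NumberField K] [Normal ℚ K] {C : Subgroup GQ} {M : Type} [AddCommGroup M]
    [Module (ZMod p) M] [Finite M] {χ : GQ →* (ZMod p)ˣ} {ρ : Representation (ZMod p) GQ M}
    (hr : ∀ σ ∈ K.fixingSubgroup, dtw χ ρ σ = 1)
    (hcop : ¬ p ∣ (K.fixingSubgroup.subgroupOf C).index) (χK : (K ≃ₐ[ℚ] K) →* (ZMod p)ˣ)
    (hχ : ∀ σ : GQ, χK (AlgEquiv.restrictNormalHom K σ) = χ σ) :
    (H7.CYC.homFunK K C (dtw χ ρ) hr hcop).F (ZMod p) (mu χK) =
      finrank (ZMod p) (H56.invC C ρ) :=
  H7.CYC.homFunK_mu hr hcop χK hχ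

/-- **The dimension of `Hom_C(M', E_S(K)/p)`**, `M' = Hom(M, μ_p)` (`H56CY1`): the structure of
`E_S(K)/p` (`GuideEulerChar.s_units_mod_p`) and the values of the additive function `Hom_C(M', ·)`. -/
theorem hom_into_units {p : ℕ} [Fact p.Prime] {K : IntermediateField ℚ (AlgebraicClosure ℚ)}
    [NumberField K] [Normal ℚ K] {ζ : AlgebraicClosure ℚ} {M : Type} [AddCommGroup M]
    [Module (ZMod p) M] [Finite M] {ρ : Representation (ZMod p) GQ M} {C : Subgroup GQ}
    (hζ : IsPrimitiveRoot ζ p) (hζK : ζ ∈ K) (hρ : ∀ σ ∈ K.fixingSubgroup, ρ σ = 1)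
    (hC : K.fixingSubgroup ≤ C) (hcop : ¬ p ∣ (K.fixingSubgroup.subgroupOf C).index)
    (S : Finset Nat.Primes) :
    finrank (ZMod p) (H56.HomC C (dtw (cycloChar p) ρ)
        ((H56.unitRep p S K).comp (AlgEquiv.restrictNormalHom K))) +
        finrank (ZMod p) (H56.invC C (dtw (cycloChar p) ρ)) =
      finrank (ZMod p) (H56.invC C ρ) +
        ∑ q ∈ S, finrank (ZMod p) (H56.EqFun (H56.Dq q) C (dtw (cycloChar p) ρ)) +
        finrank (ZMod p) (H56.EqFun archimedeanDecomposition C (dtw (cycloChar p) ρ)) :=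
  H56.finrank_HomC_unitRep hζ hζK hρ hC hcop S

/-! ## 6. Kummer theory

`H82.XC 𝓛 C U ρ`: the continuous homomorphisms `f : U → M` with `f(c u c⁻¹) = ρ(c) f(u)` for `c ∈ C`.
`H82.resC hC hρ`: restriction of cocycles from `C` to `U`. `H82.kumN ..`: the Kummer map, which sends the
class of an `S`-unit `x` to the character `f` of `Gal(ℚ̄/K)` with `σ(y)/y = ζ^(f σ)`, `y^p = x`. All
characters here have values in `F_p` and are unramified outside `S` (of a finite level of `ramLevels S`);
their space is `H82.Xt p S K`. -/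

/-- **Restriction to a normal subgroup of index prime to `p`** (`H82CYRes`): let `U` be open and normal,
`ρ` trivial on `U` and `[C : U]` prime to `p`. A cocycle of `C` vanishing on `U` is a coboundary, and
every equivariant homomorphism on `U` extends to a cocycle of `C` (by averages over `C/U`). So
`H^1(C, M) = Hom(U, M)^C`. -/
theorem restriction {p : ℕ} [Fact p.Prime] {G M : Type*} [Group G] [AddCommGroup M]
    [Module (ZMod p) M] {𝓛 : Levels G} {C U : Subgroup G} {ρ : Representation (ZMod p) G M}
    [U.Normal] (hUo : 𝓛.op U) (hC : U ≤ C) (hρ : ∀ u ∈ U, ρ u = 1)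
    (hcop : ¬ p ∣ (U.subgroupOf C).index) :
    LinearMap.ker (H82.resC (𝓛 := 𝓛) hC hρ) =
        (B1 (ρ.comp C.subtype)).comap (Z1 (𝓛.onSub C) (ρ.comp C.subtype)).subtype ∧
      Function.Surjective (H82.resC (𝓛 := 𝓛) (ρ := ρ) hC hρ) :=
  ⟨H82.resC_ker hUo hC hρ hcop, H82.resC_surjective hUo hC hρ hcop⟩

/-- **The Kummer map is equivariant** (`H82CYA`): `κ(g x)(g u g⁻¹) = χ_cyc(g) κ(x)(u)` for `g ∈ GQ` and
`u ∈ Gal(ℚ̄/K)`. -/
theorem kummer_equivariant {p : ℕ} [Fact p.Prime] {S : Finset Nat.Primes}
    {K : IntermediateField ℚ (AlgebraicClosure ℚ)} [NumberField K] {ζ : AlgebraicClosure ℚ}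
    (hζ : IsPrimitiveRoot ζ p) (hζK : ζ ∈ K) (hpS : pPrime p ∈ S)
    (hK : K.IsUnramifiedOutside S) [Normal ℚ K] (g : GQ) (a : ModN (Additive (H56.ES S K)) p)
    (u v : K.fixingSubgroup) (h : (v : GQ) = g * u * g⁻¹) :
    (H82.kumN hζ hζK hpS hK ((H56.unitRep p S K) (AlgEquiv.restrictNormalHom K g) a) :
      K.fixingSubgroup → ZMod p) v =
      (cycloChar p g : ZMod p) * (H82.kumN hζ hζK hpS hK a : K.fixingSubgroup → ZMod p) u :=
  H82.kumN_smul hζ hζK hpS hK g a u v h

/-- **The Kummer map is an isomorphism** from `E_S(K)/p` to the homomorphisms `G_{K,S} → F_p`, if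
every element of `Kˣ` whose valuations outside `S` are divisible by `p` (`H64.VS`) is an `S`-unit times a
`p`-th power (`H82CYA`). Composition with it turns the space `XC` of `restriction` into
`Hom_C(M', E_S(K)/p)`. -/
theorem kummer_isomorphism {p : ℕ} [Fact p.Prime] {S : Finset Nat.Primes}
    {K : IntermediateField ℚ (AlgebraicClosure ℚ)} [NumberField K] {ζ : AlgebraicClosure ℚ}
    (hζ : IsPrimitiveRoot ζ p) (hζK : ζ ∈ K) (hpS : pPrime p ∈ S)
    (hK : K.IsUnramifiedOutside S)
    (hcl : ∀ x : Kˣ, x ∈ H64.VS S K p → ∃ u ∈ H56.ES S K, ∃ y : Kˣ, x = u * y ^ p) :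
    Function.Injective (H82.kumN hζ hζK hpS hK) ∧
      Function.Surjective (H82.kumN hζ hζK hpS hK) :=
  ⟨H82.kumN_injective hζ hζK hpS hK, H82.kumN_surjective hζ hζK hpS hK hcl⟩

/-- **Large `S`** (`H56CY`, `H56Cl`): for all sufficiently large `S`, `p ∈ S`, `K` is unramified outside
`S`, the class group `H47.ClT` of the `S`-integers of `K` is trivial, and the last condition implies the
hypothesis of `kummer_isomorphism`. -/
theorem large_S (p : ℕ) [Fact p.Prime] (K : IntermediateField ℚ (AlgebraicClosure ℚ))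
    [NumberField K] :
    (∃ S₁ : Finset Nat.Primes, ∀ S, S₁ ⊆ S →
      pPrime p ∈ S ∧ K.IsUnramifiedOutside S ∧ Subsingleton (H47.ClT K (H64.placesS S K))) ∧
    ∀ S : Finset Nat.Primes, Subsingleton (H47.ClT K (H64.placesS S K)) →
      ∀ x : Kˣ, x ∈ H64.VS S K p → ∃ u ∈ H56.ES S K, ∃ y : Kˣ, x = u * y ^ p :=
  ⟨H56.exists_good p K, fun _ h x hx => H56.exists_unit_mul_pow h x hx⟩

/-! ## 7. The Euler characteristic

The statements are abstract; in the application `𝓛` are the open subgroups of `G = G_S`, `D` the local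
groups, `χ` is the cyclotomic character, `c` complex conjugation and `ArithInput D χ` the arithmetic input
of S55 (`GuidePoitouTate`). `funRep X ρ`: functions on `X` with values in
`ρ`, as `permRep`. `H75.EE 𝓛 c ρ = h^0 - h^1 + h^2 - dim M^c + dim M`: the defect of the formula.
`H75.CYForm D χ c U`: the dimension formula of `GuideEulerChar.finrank_H1_large_S` for all subgroups `C ≥ U`
with `[C : U]` prime to `p`. -/

/-- **The definitions of `EE` and `CYForm`** (`H75EC2`). -/
theorem definitions {p : ℕ} [Fact p.Prime] {G : Type} [Group G] {𝓛 : Levels G} {D : LD 𝓛}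
    {χ : G →* (ZMod p)ˣ} {c : G} {M : Type} [AddCommGroup M] [Module (ZMod p) M]
    (ρ : Representation (ZMod p) G M) (U : Subgroup G) :
    H75.EE 𝓛 c ρ = chi2 𝓛 ρ - finrank (ZMod p) (H56.invC (Subgroup.zpowers c) ρ) +
      finrank (ZMod p) M ∧
    (H75.CYForm D χ c U ↔ ∀ C : Subgroup G, U ≤ C → ¬ p ∣ (U.subgroupOf C).index →
      ∀ (M : Type) [AddCommGroup M] [Module (ZMod p) M] [Finite M]
        (ρ : Representation (ZMod p) G M), (∀ σ ∈ U, ρ σ = 1) →
        finrank (ZMod p) (H1 (𝓛.onSub C) (ρ.comp C.subtype)) +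
          finrank (ZMod p) (H56.invC C (dtw χ ρ)) =
        finrank (ZMod p) (H56.invC C ρ) +
          ∑ v, finrank (ZMod p) (H56.EqFun (D.loc v).range C (dtw χ ρ)) +
          finrank (ZMod p) (H56.EqFun (Subgroup.zpowers c) C (dtw χ ρ))) :=
  ⟨rfl, Iff.rfl⟩

/-- **The real place**: for `c² = 1`, `χ(c) = -1` and `p` odd,
`dim M^c + dim (M')^c = dim M` (`H75EC1`): `M^c` is the image of `1 + c` and `(M')^c` its annihilator. -/
theorem real_place {p : ℕ} [Fact p.Prime] {G : Type} [Group G] {M : Type} [AddCommGroup M]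
    [Module (ZMod p) M] {c : G} (hc : c * c = 1) (hp2 : p ≠ 2) [Finite M] {χ : G →* (ZMod p)ˣ}
    (hχ : χ c = -1) (r : Representation (ZMod p) G M) :
    finrank (ZMod p) (H56.invC (Subgroup.zpowers c) r) +
      finrank (ZMod p) (H56.invC (Subgroup.zpowers c) (dtw χ r)) = finrank (ZMod p) M :=
  H75.finrank_invC_add_dtw hc hp2 hχ r

/-- **The defect is additive** (`H75EC2`), if `H^2` is right exact and `H^1`, `H^2` are finite dimensional
(`H75.RightExact`; this holds for `G_S`, see `GuidePoitouTate`). -/
theorem defect_additive {p : ℕ} [Fact p.Prime] {G : Type} [Group G] {𝓛 : Levels G} {c : G}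
    (h : H75.RightExact (ZMod p) 𝓛) (hc : c * c = 1) (hp2 : p ≠ 2)
    {A B C : Type} [AddCommGroup A] [Module (ZMod p) A]
    [AddCommGroup B] [Module (ZMod p) B] [Finite B] [AddCommGroup C] [Module (ZMod p) C]
    {ρA : Representation (ZMod p) G A} {ρB : Representation (ZMod p) G B}
    {ρC : Representation (ZMod p) G C} (hs : Smooth 𝓛 ρB) {f : A →ₗ[ZMod p] B}
    {g : B →ₗ[ZMod p] C} (hf : Equivar ρA ρB f) (hg : Equivar ρB ρC g)
    (hi : Function.Injective f) (hsu : Function.Surjective g) (he : Function.Exact f g) :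
    H75.EE 𝓛 c ρB = H75.EE 𝓛 c ρA + H75.EE 𝓛 c ρC :=
  H75.EE_add h hc hp2 hs hf hg hi hsu he

/-- **Invariants of induced modules** (`H75EC1`): the invariants of `D` in `Fun(G/C, A)` form the space
`EqFun(D, C, A)`, those of `G` form the space `A^C`. -/
theorem invariants_of_induced {p : ℕ} {G A : Type} [Group G] [AddCommGroup A]
    [Module (ZMod p) A] (D C : Subgroup G) (r : Representation (ZMod p) G A) :
    finrank (ZMod p) (H56.EqFun D C r) =
        finrank (ZMod p) (H56.invC D (funRep (G ⧸ C) r)) ∧
      finrank (ZMod p) (funRep (G ⧸ C) r).invariants = finrank (ZMod p) (H56.invC C r) :=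
  ⟨H75.finrank_EqFun D C r, H75.finrank_invariants_funRep_coset C r⟩

/-- **The dual of an induced module is induced from the dual** (`H75EC1`): `Fun(X, M') = Fun(X, M)'` for a
finite `G`-set `X`, by the pairing `(φ, f) ↦ Σ_x φ(x)(f(x))`. -/
theorem dual_of_induced {p : ℕ} [Fact p.Prime] {G : Type} [Group G] {M : Type} [AddCommGroup M]
    [Module (ZMod p) M] [Finite M] (χ : G →* (ZMod p)ˣ) (ρ : Representation (ZMod p) G M)
    {X : Type} [MulAction G X] [Finite X] :
    ∃ e : (X → Module.Dual (ZMod p) M) ≃ₗ[ZMod p] Module.Dual (ZMod p) (X → M),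
      Equivar (funRep X (dtw χ ρ)) (dtw χ (funRep X ρ))
        (e : (X → Module.Dual (ZMod p) M) →ₗ[ZMod p] Module.Dual (ZMod p) (X → M)) :=
  letI := Fintype.ofFinite X
  ⟨_, H75.equivar_evPair χ ρ⟩

/-- **Duality in degree two, as a count** (`H75Count`): for a perfect pairing `β : A × B → k(χ)`, i.e.
`β(g a, g b) = χ(g) β(a, b)` (`H75.BiEquivar`), one has
`dim Sha^2(B) + Σ_v h^0(G_v, A) = h^2(G, B) + h^0(G, A)`. Indeed `H^2(G_v, B)` has the dimension
`h^0(G_v, A)` (`LocHyp`) and the cokernel of `H^2(G, B) → ⊕_v H^2(G_v, B)` the dimension `h^0(G, A)`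
(`GlobHyp`); both follow from the arithmetic input, see `GuidePoitouTate`. -/
theorem count_h2 {k G A B : Type} [Field k] [Group G] [AddCommGroup A] [Module k A]
    [AddCommGroup B] [Module k B] {𝓛 : Levels G} {D : LD 𝓛} {χ : G →* kˣ}
    {ρA : Representation k G A} {ρB : Representation k G B} {β : A →ₗ[k] B →ₗ[k] k}
    [Module.Finite k A] [Module.Finite k B] (hβ : H75.BiEquivar ρA ρB (mu χ) β)
    (hD : H75.GlobHyp D χ) (hL : ∀ v, H75.LocHyp (D.lev v) (χ.comp (D.loc v)))
    (hB : Smooth 𝓛 ρB) (hbij : Function.Bijective β) :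
    finrank k (D.Sha2 ρB) + ∑ v, finrank k (D.rv ρA v).invariants =
      finrank k (H2 𝓛 ρB) + finrank k ρA.invariants :=
  H75.finrank_Sha2_add hβ hD hL hB hbij

/-- **`Sha^2` over `K` vanishes** (`H75EC2`): the dimension formula for `C = U` and `M = F_p`, compared
with the first condition on `K` (`GuideEulerChar.kummer_count`), where `2 dim Sha^2` is the only other
term. (So the triviality of the class group for large `S` enters only once.) -/
theorem sha_vanishes {p : ℕ} [Fact p.Prime] {G : Type} [Group G] {𝓛 : Levels G} {D : LD 𝓛}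
    {χ : G →* (ZMod p)ˣ} {c : G} (hA : ArithInput D χ) (hc : c * c = 1) (hχ : χ c = -1)
    (hp2 : p ≠ 2) {U : Subgroup G} (hU : 𝓛.op U) (hle : U ≤ χ.ker)
    (hCY : H75.CYForm D χ c U) : D.ShaU2 (ZMod p) U = ⊥ :=
  H75.ShaU2_eq_bot hA hc hχ hp2 hU hle hCY

/-- **`Sha^2` of induced modules** (`H75EC1`): if `A` is trivial on `U` and `[C : U]` is invertible, then
`Fun(G/C, A)` is a direct summand of `Fun(G/U, A) = Fun(G/U, k)^m`, `A` with trivial action; so its
`Sha^2` vanishes if that of `U` does. -/
theorem sha_of_induced {k G : Type} [Field k] [Group G] {𝓛 : Levels G} (D : LD 𝓛) {A : Type}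
    [AddCommGroup A] [Module k A] [Module.Finite k A] {ρ : Representation k G A}
    {U C : Subgroup G} (hU : 𝓛.op U) (hN : ∀ g ∈ U, ∀ a, ρ g a = a) (h : U ≤ C)
    (hcop : ((U.subgroupOf C).index : k) ≠ 0) (hSha : D.ShaU2 k U = ⊥) :
    D.Sha2 (funRep (G ⧸ C) ρ) = ⊥ :=
  H75.Sha2_funRep D hU hN h hcop hSha

/-- **The formula for induced modules** (`H75EC2`): `H^0` and `H^1` by Shapiro's lemma and the dimension
formula, `H^2` by `count_h2`: as `Sha^2 = 0`, `h^2` is the sum of the local `h^0` of the dual minus the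
global one. The terms at the finite places cancel by `invariants_of_induced` and `dual_of_induced`, the
term at infinity is treated by `real_place`. -/
theorem formula_for_induced {p : ℕ} [Fact p.Prime] {G : Type} [Group G] {𝓛 : Levels G}
    {D : LD 𝓛} {χ : G →* (ZMod p)ˣ} {c : G} {M : Type} [AddCommGroup M] [Module (ZMod p) M]
    [Finite M] (hA : ArithInput D χ) (hc : c * c = 1) (hχ : χ c = -1) (hp2 : p ≠ 2)
    {U : Subgroup G} (hU : 𝓛.op U) (hle : U ≤ χ.ker) (hCY : H75.CYForm D χ c U)
    {C : Subgroup G} (hUC : U ≤ C) (hcop : ¬ p ∣ (U.subgroupOf C).index)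
    (ρ : Representation (ZMod p) G M) (hρ : ∀ σ ∈ U, ρ σ = 1) :
    H75.EE 𝓛 c (funRep (G ⧸ C) ρ) = 0 :=
  H75.EE_funRep hA hc hχ hp2 hU hle hCY hUC hcop ρ hρ

/-- **The formula, abstractly** (`H75EC2`): Artin induction for the defect, as an additive function on
the modules of the finite group `G/U`. With the dimension formula for large `S`
(`GuideEulerChar.finrank_H1_large_S`) this gives `GuideEulerChar.euler_characteristic` (`H75EC3`). -/
theorem formula {p : ℕ} [Fact p.Prime] {G : Type} [Group G] {𝓛 : Levels G} {D : LD 𝓛}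
    {χ : G →* (ZMod p)ˣ} {c : G} {M : Type} [AddCommGroup M] [Module (ZMod p) M]
    {U : Subgroup G} [U.Normal] [Finite M] (hA : ArithInput D χ) (hc : c * c = 1)
    (hχ : χ c = -1) (hp2 : p ≠ 2) (hU : 𝓛.op U) (hle : U ≤ χ.ker)
    (hCY : H75.CYForm D χ c U) (ρ : Representation (ZMod p) G M) (hρ : ∀ σ ∈ U, ρ σ = 1) :
    H75.EE 𝓛 c ρ = 0 :=
  H75.EE_eq_zero hA hc hχ hp2 hU hle hCY ρ hρ

/-- **From the abstract to the concrete Greenberg-Wiles inequality** (`H75GW2`): `H56.GWIneq p` is the
statement of `GuideEulerChar.greenberg_wiles`. Of the Euler characteristic only the inequality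
`h^0 - h^1 + h^2 + dim M ≤ dim M^c` is needed, and it is applied to `M'`; the local conditions at the
decomposition groups `Dq q` are transported to the local Galois groups and
`GuideEulerChar.greenberg_wiles_abstract` is applied to the pairing `M' × M → μ_p`. -/
theorem greenberg_wiles_of {p : ℕ} [Fact p.Prime]
    (hAr : ∀ S : Finset Nat.Primes, pPrime p ∈ S → ArithInput (DS S) (cycloChar p))
    (hEC : ∀ (M : Type) [AddCommGroup M] [Module (ZMod p) M] [Finite M]
      (ρ : Representation (ZMod p) GQ M), Smooth krullLevels ρ →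
      ∃ S₁ : Finset Nat.Primes, ∀ S : Finset Nat.Primes, S₁ ⊆ S →
        chi2 (ramLevels S) ρ + finrank (ZMod p) M ≤ finrank (ZMod p) (H56.realInv ρ)) :
    H56.GWIneq p :=
  H75.GWIneq_of hAr hEC

end Fermat.Agent.Guide.EulerSteps
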